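import Fermat.Agent.ThueMahler.Forms

/-!
# The Thue–Mahler theorem and the unit equation

Mahler's theorem: a binary form of degree at least three without repeated factors takes only
finitely many values at coprime integers with all prime factors in a given finite set. Hence the
equation `u + v = w` has finitely many coprime solutions in such integers, and `u + v = 1`
finitely many solutions in `S`-units.
-/

set_option autoImplicit false

noncomputable section

open Polynomial

namespace FA.Summary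

/-- **The Thue–Mahler theorem.** -/
theorem thue_mahler (S : Finset ℕ) {f : ℤ[X]} (hdeg : 3 ≤ f.natDegree)
    (hsep : (f.map (Int.castRingHom ℚ)).Separable) :
    {p : ℤ × ℤ | IsCoprime p.1 p.2 ∧
      (∑ i ∈ Finset.range (f.natDegree + 1),
        f.coeff i * p.1 ^ i * p.2 ^ (f.natDegree - i)) ≠ 0 ∧
      ∀ q : ℕ, q.Prime → (q : ℤ) ∣ ∑ i ∈ Finset.range (f.natDegree + 1),
        f.coeff i * p.1 ^ i * p.2 ^ (f.natDegree - i) → q ∈ S}.Finite :=
  FA.ThueMahler.finite_coprime_values S hdeg hsep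

/-- The Thue–Mahler theorem for an irreducible form. -/
theorem thue_mahler_irreducible (S : Finset ℕ) {f : ℤ[X]} (hirr : Irreducible f)
    (hdeg : 3 ≤ f.natDegree) :
    {p : ℤ × ℤ | IsCoprime p.1 p.2 ∧
      (∑ i ∈ Finset.range (f.natDegree + 1),
        f.coeff i * p.1 ^ i * p.2 ^ (f.natDegree - i)) ≠ 0 ∧
      ∀ q : ℕ, q.Prime → (q : ℤ) ∣ ∑ i ∈ Finset.range (f.natDegree + 1),
        f.coeff i * p.1 ^ i * p.2 ^ (f.natDegree - i) → q ∈ S}.Finite :=
  thue_mahler S hdeg
    ((IsPrimitive.Int.irreducible_iff_irreducible_map_cast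
      (hirr.isPrimitive (by omega))).1 hirr).separable

/-- The equation `u + v = w` has finitely many coprime solutions with prime factors in `S`. -/
theorem unit_equation_finite (S : Finset ℕ) :
    {p : ℤ × ℤ | IsCoprime p.1 p.2 ∧ p.1 * p.2 * (p.1 + p.2) ≠ 0 ∧
      ∀ q : ℕ, q.Prime → (q : ℤ) ∣ p.1 * p.2 * (p.1 + p.2) → q ∈ S}.Finite := by
  refine (FA.ThueMahler.finite_unit_equation S).subset fun p hp => ?_
  obtain ⟨hc, hne, hS⟩ := hp
  simp only [ne_eq, mul_eq_zero, not_or] at hne
  exact ⟨hc, ⟨hne.1.1, fun q hq h => hS q hq ((h.mul_right _).mul_right _)⟩,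
    ⟨hne.1.2, fun q hq h => hS q hq ((h.mul_left _).mul_right _)⟩,
    ⟨hne.2, fun q hq h => hS q hq (h.mul_left _)⟩⟩

/-- **The `S`-unit equation** over `ℚ`: finitely many `S`-units `u` with `1 - u` an `S`-unit. -/
theorem sUnit_equation_finite (S : Finset ℕ) :
    {u : ℚ | u ≠ 0 ∧ u ≠ 1 ∧ ∀ q : ℕ, q.Prime →
      ((q : ℤ) ∣ u.num ∨ q ∣ u.den ∨ (q : ℤ) ∣ (1 - u).num) → q ∈ S}.Finite := by
  refine ((unit_equation_finite S).preimage (f := fun u : ℚ => (u.num, (u.den : ℤ) - u.num))
    fun a _ b _ h => ?_).subset fun u hu => ?_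
  · simp only [Prod.mk.injEq] at h
    exact Rat.ext h.1 (by omega)
  obtain ⟨h0, h1, hS⟩ := hu
  show IsCoprime _ _ ∧ _
  have hc : IsCoprime u.num (u.den : ℤ) := Rat.isCoprime_num_den u
  have hn : u.num + ((u.den : ℤ) - u.num) = u.den := by ring
  rw [hn]
  refine ⟨by simpa [sub_eq_add_neg] using hc.add_mul_left_right (-1 : ℤ), ?_, ?_⟩
  · refine mul_ne_zero (mul_ne_zero (Rat.num_ne_zero.2 h0) fun h => h1 ?_) (by simp)
    rw [← u.num_div_den, show u.num = (u.den : ℤ) from (sub_eq_zero.1 h).symm, Int.cast_natCast,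
      div_self (by simp)]
  · intro q hq hd
    have hq' := Nat.prime_iff_prime_int.1 hq
    rcases hq'.dvd_or_dvd hd with h | h
    · rcases hq'.dvd_or_dvd h with h | h
      · exact hS q hq (Or.inl h)
      · by_cases hqd : q ∣ u.den
        · exact hS q hq (Or.inr (Or.inl hqd))
        refine hS q hq (Or.inr (Or.inr ?_))
        have e : (1 - u) * ((u.den : ℚ)) = (((u.den : ℤ) - u.num : ℤ) : ℚ) := by
          rw [sub_mul, Rat.mul_den_eq_num]; push_cast; ring
        have e2 : (1 - u).num * (u.den : ℤ) = ((u.den : ℤ) - u.num) * (1 - u).den := by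
          have := congrArg (fun r => r * ((1 - u).den : ℚ)) e
          rw [mul_right_comm, Rat.mul_den_eq_num] at this
          exact_mod_cast this
        refine (hq'.dvd_or_dvd (e2 ▸ h.mul_right _)).resolve_right fun h' => hqd ?_
        exact Int.natCast_dvd_natCast.1 h'
    · exact hS q hq (Or.inr (Or.inl (Int.natCast_dvd_natCast.1 h)))

end FA.Summary

end
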