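import Fermat.Agent.CM.ClassOne.GaussSign
import Mathlib.NumberTheory.LegendreSymbol.Basic

/-!
# Gauss: the sign of the quadratic Gauss sum

For an odd prime `p` the sum `∑ (x / p) e^(2πi x / p)` is `√p` if `p ≡ 1 (mod 4)` and `i √p` if
`p ≡ 3 (mod 4)`; Mathlib has its square (`gaussSum_sq`).
-/

set_option autoImplicit false

noncomputable section

open Complex Finset FA.CM.ClassOne.GaussSign

namespace FA.Summary

/-- **The sign of the quadratic Gauss sum** (Gauss). -/
theorem quadraticGaussSum_sign (p : ℕ) [Fact p.Prime] (hp : p ≠ 2) :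
    ∑ x : ZMod p, (quadraticChar (ZMod p) x : ℂ) * ZMod.stdAddChar x =
      if p % 4 = 1 then (Real.sqrt p : ℂ) else I * (Real.sqrt p : ℂ) := by
  have hp2 : p % 2 = 1 := (Nat.Prime.eq_two_or_odd (Fact.out : p.Prime)).resolve_left hp
  have h2 : ringChar (ZMod p) ≠ 2 := (ZMod.ringChar_zmod_n p).trans_ne hp
  rw [gauss_sum_sign hp2, quadraticChar_neg_two h2, ZMod.card, ZMod.χ₈'_nat_eq_if_mod_eight,
    if_neg (by omega)]
  obtain ⟨k, hk⟩ : ∃ k, p = 8 * k + p % 8 := ⟨p / 8, (Nat.div_add_mod p 8).symm⟩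
  rcases (show p % 8 = 1 ∨ p % 8 = 3 ∨ p % 8 = 5 ∨ p % 8 = 7 by omega) with h | h | h | h
  · rw [if_pos (by omega), if_pos (by omega), show p / 2 = 4 * k by omega, pow_mul, I_pow_four]
    simp
  · rw [if_pos (by omega), if_neg (by omega), show p / 2 = 4 * k + 1 by omega, pow_succ, pow_mul,
      I_pow_four]
    simp
  · rw [if_neg (by omega), if_pos (by omega), show p / 2 = 4 * k + 2 by omega, pow_add, pow_mul,
      I_pow_four]
    simp
  · rw [if_neg (by omega), if_neg (by omega), show p / 2 = 4 * k + 3 by omega, pow_add, pow_mul,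
      I_pow_four]
    simp [pow_succ]

/-- The same sum with Legendre symbols and exponentials. -/
theorem legendreGaussSum_sign (p : ℕ) [Fact p.Prime] (hp : p ≠ 2) :
    ∑ j ∈ range p, (legendreSym p j : ℂ) * Complex.exp (2 * Real.pi * I * j / p) =
      if p % 4 = 1 then (Real.sqrt p : ℂ) else I * (Real.sqrt p : ℂ) := by
  rw [← quadraticGaussSum_sign p hp, ← aeval_sumPoly, sumPoly, map_sum]
  refine sum_congr rfl fun j _ => ?_
  rw [map_mul, map_pow, Polynomial.aeval_X, Polynomial.aeval_C, ← Complex.exp_nat_mul]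
  simp only [legendreSym, Int.cast_natCast, algebraMap_int_eq, eq_intCast]
  congr 2
  ring

end FA.Summary

end
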