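import Fermat.Agent.KroneckerWeber.Main
import Mathlib.FieldTheory.Galois.Abelian
import Mathlib.NumberTheory.Cyclotomic.PrimitiveRoots

/-!
# The theorem of Kronecker and Weber

Every finite abelian extension of `ℚ` is contained in a cyclotomic field.
-/

set_option autoImplicit false
set_option linter.style.haveILetI false

noncomputable section

local notation "Qb" => AlgebraicClosure ℚ
local notation "GQ" => AlgebraicClosure ℚ ≃ₐ[ℚ] AlgebraicClosure ℚ

namespace FA.Summary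

/-- **The theorem of Kronecker and Weber**: a finite abelian extension of `ℚ` inside `ℚ̄` is
generated by rational expressions in the `N`-th roots of unity for some `N > 0`. -/
theorem kroneckerWeber (K : IntermediateField ℚ Qb) [FiniteDimensional ℚ K]
    [IsAbelianGalois ℚ K] :
    ∃ N : ℕ, 0 < N ∧ K ≤ IntermediateField.adjoin ℚ {μ : Qb | μ ^ N = 1} := by
  haveI : IsGalois ℚ Qb := FA.EC.isGalois_algebraicClosure
  haveI : Normal ℚ K := IsGalois.to_normal
  letI : CommGroup (K ≃ₐ[ℚ] K) :=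
    { (inferInstance : Group (K ≃ₐ[ℚ] K)) with
      mul_comm := fun a b => IsMulCommutative.is_comm.comm a b }
  have hker : ∀ σ : GQ, AlgEquiv.restrictNormalHom K σ = 1 → ∀ x ∈ K, σ x = x := fun σ h x hx => by
    have h2 := AlgEquiv.restrictNormal_commutes σ K ⟨x, hx⟩
    rw [show σ.restrictNormal K = 1 from h] at h2
    exact h2.symm
  have hopen : IsOpen (((AlgEquiv.restrictNormalHom K : GQ →* (K ≃ₐ[ℚ] K))).ker : Set GQ) :=
    Subgroup.isOpen_mono (H₁ := K.fixingSubgroup) (fun σ hσ => MonoidHom.mem_ker.mpr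
      (AlgEquiv.ext fun x => Subtype.ext ((AlgEquiv.restrictNormal_commutes σ K x).trans
        ((IntermediateField.mem_fixingSubgroup_iff K σ).mp hσ x x.2))))
      (IntermediateField.fixingSubgroup_isOpen K)
  have hle : K ≤ FA.OpenImage.rootsField := by
    rw [← InfiniteGalois.fixedField_fixingSubgroup FA.OpenImage.rootsField]
    intro x hx ⟨σ, hσ⟩
    exact hker σ (FA.KroneckerWeber.eq_one_of_fix_rootsOfUnity _ hopen fun μ n hn hμ =>
      (IntermediateField.mem_fixingSubgroup_iff _ σ).mp hσ μ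
        (IntermediateField.subset_adjoin ℚ _ ⟨n, hn, hμ⟩)) x hx
  obtain ⟨N, hN, hfix⟩ := FA.OpenImage.exists_level_of_finite K
  refine ⟨N, hN, ?_⟩
  rw [← InfiniteGalois.fixedField_fixingSubgroup
    (IntermediateField.adjoin ℚ {μ : Qb | μ ^ N = 1})]
  intro x hx ⟨σ, hσ⟩
  exact hfix σ (fun μ hμ => (IntermediateField.mem_fixingSubgroup_iff _ σ).mp hσ μ
    (IntermediateField.subset_adjoin ℚ _ hμ)) x hx (hle hx)

/-- The same with one primitive root of unity. -/
theorem kroneckerWeber_primitiveRoot (K : IntermediateField ℚ Qb) [FiniteDimensional ℚ K]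
    [IsAbelianGalois ℚ K] :
    ∃ (N : ℕ) (ζ : Qb), 0 < N ∧ IsPrimitiveRoot ζ N ∧ K ≤ IntermediateField.adjoin ℚ {ζ} := by
  obtain ⟨N, hN, hK⟩ := kroneckerWeber K
  haveI : NeZero (N : Qb) := ⟨Nat.cast_ne_zero.mpr hN.ne'⟩
  haveI : NeZero N := ⟨hN.ne'⟩
  obtain ⟨ζ, hζ⟩ := HasEnoughRootsOfUnity.exists_primitiveRoot Qb N
  refine ⟨N, ζ, hN, hζ, hK.trans (IntermediateField.adjoin_le_iff.mpr fun μ hμ => ?_)⟩
  obtain ⟨i, -, rfl⟩ := hζ.eq_pow_of_pow_eq_one hμ
  exact pow_mem (IntermediateField.mem_adjoin_simple_self ℚ ζ) i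

/-- For an abstract field: every finite abelian extension of `ℚ` embeds in a cyclotomic field. -/
theorem kroneckerWeber_cyclotomicField (F : Type*) [Field F] [Algebra ℚ F]
    [FiniteDimensional ℚ F] [IsAbelianGalois ℚ F] :
    ∃ N : ℕ, 0 < N ∧ Nonempty (F →ₐ[ℚ] CyclotomicField N ℚ) := by
  let f : F →ₐ[ℚ] Qb := IsAlgClosed.lift
  let e : F ≃ₐ[ℚ] f.fieldRange := AlgEquiv.ofInjectiveField f
  haveI : FiniteDimensional ℚ f.fieldRange := e.toLinearEquiv.finiteDimensional
  haveI : IsAbelianGalois ℚ f.fieldRange := IsAbelianGalois.of_algHom e.symm.toAlgHom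
  obtain ⟨N, ζ, hN, hζ, hle⟩ := kroneckerWeber_primitiveRoot f.fieldRange
  haveI : NeZero N := ⟨hN.ne'⟩
  let g : CyclotomicField N ℚ →ₐ[ℚ] Qb := IsAlgClosed.lift
  haveI : NeZero (N : ℚ) := ⟨Nat.cast_ne_zero.mpr hN.ne'⟩
  obtain ⟨ζ', hζ'⟩ := (CyclotomicField.isCyclotomicExtension N ℚ).exists_isPrimitiveRoot
    (Set.mem_singleton N) hN.ne'
  have hg := hζ'.map_of_injective g.injective
  obtain ⟨k, -, hk⟩ := hg.eq_pow_of_pow_eq_one hζ.pow_eq_one
  have hle' : f.fieldRange ≤ g.fieldRange := hle.trans (IntermediateField.adjoin_le_iff.mpr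
    (Set.singleton_subset_iff.mpr
      (hk ▸ pow_mem (show g ζ' ∈ g.fieldRange from ⟨ζ', rfl⟩) k)))
  exact ⟨N, hN, ⟨(((AlgEquiv.ofInjectiveField g).symm.toAlgHom).comp
    (IntermediateField.inclusion hle')).comp e.toAlgHom⟩⟩

end FA.Summary

end
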