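import Fermat.Agent.AbelianZeta.Euler
import Fermat.Agent.Root.SummaryKroneckerWeber

/-!
# The zeta function of an abelian number field

For every finite abelian extension `F` of `ℚ` the Dedekind zeta function is the product of the
`L`-functions of a group of `[F : ℚ]` primitive Dirichlet characters (Artin reciprocity over `ℚ` in
the form of `L`-functions; by the theorem of Kronecker and Weber). Hence it continues to the plane
without `1`, has no zero with `1 ≤ re s`, and its residue, given by Mathlib's class number formula,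
is the product of the values `L(1, χ)`, `χ ≠ 1`.
-/

set_option autoImplicit false
set_option linter.style.haveILetI false

noncomputable section

open NumberField Filter Topology DirichletCharacter
open scoped Classical

namespace FA.AbelianZeta

theorem dedekindZeta_congr {F F' : Type*} [Field F] [NumberField F] [Field F'] [NumberField F']
    (e : F ≃+* F') (s : ℂ) : dedekindZeta F s = dedekindZeta F' s := by
  let e' : 𝓞 F ≃+* 𝓞 F' := RingOfIntegers.mapRingEquiv e
  have hnorm : ∀ I : Ideal (𝓞 F), Ideal.absNorm (I.map e') = Ideal.absNorm I := fun I => by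
    simp only [Ideal.absNorm_apply, Submodule.cardQuot_apply]
    exact Nat.card_congr (Ideal.quotientEquiv I (I.map e') e' rfl).toEquiv.symm
  rw [dedekindZeta, dedekindZeta]
  refine LSeries_congr (fun {n} _ => ?_) s
  congr 1
  refine Nat.card_congr
    { toFun := fun I => ⟨I.1.map e', by rw [hnorm]; exact I.2⟩
      invFun := fun J => ⟨J.1.comap e', by
        rw [← hnorm, Ideal.map_comap_of_surjective e' e'.surjective]; exact J.2⟩
      left_inv := fun I => Subtype.ext (Ideal.comap_map_of_bijective e' e'.bijective)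
      right_inv := fun J => Subtype.ext (Ideal.map_comap_of_surjective e' e'.surjective J.1) }

theorem LFunction_eq_riemannZeta {m : ℕ} [NeZero m] (ψ : DirichletCharacter ℂ m) (h : m = 1) :
    LFunction ψ = riemannZeta := by
  subst h
  exact LFunction_modOne_eq

theorem primitive_ne_one {n : ℕ} [NeZero n] {χ : DirichletCharacter ℂ n} (h : χ ≠ 1) :
    χ.primitiveCharacter ≠ 1 := fun h' => h (by
  rw [← changeLevel_primitiveCharacter χ, h', changeLevel_one])

/-- A product of `L`-functions of primitive characters of a group of characters. -/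
def prodL {n : ℕ} [NeZero n] (X : Finset (DirichletCharacter ℂ n)) (s : ℂ) : ℂ :=
  ∏ χ ∈ X, LFunction χ.primitiveCharacter s

theorem prodL_residue {n : ℕ} [NeZero n] {X : Finset (DirichletCharacter ℂ n)} (h1 : 1 ∈ X) :
    Tendsto (fun s => (s - 1) * prodL X s) (𝓝[≠] 1)
      (𝓝 (∏ χ ∈ X.erase 1, LFunction χ.primitiveCharacter 1)) := by
  simp only [prodL, ← Finset.mul_prod_erase X _ h1, ← mul_assoc]
  rw [LFunction_eq_riemannZeta _ conductor_one]
  conv => arg 3; rw [← one_mul (∏ χ ∈ X.erase 1, LFunction χ.primitiveCharacter 1)]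
  refine riemannZeta_residue_one.mul ((tendsto_finsetProd _ fun χ hχ => ?_).mono_left inf_le_left)
  exact ((differentiable_LFunction (primitive_ne_one (Finset.ne_of_mem_erase hχ))) 1).continuousAt

theorem residue_eq_prod {F : Type*} [Field F] [NumberField F] {n : ℕ} [NeZero n]
    {X : Finset (DirichletCharacter ℂ n)} (h1 : 1 ∈ X)
    (h : ∀ s : ℂ, 1 < s.re → dedekindZeta F s = prodL X s) :
    (dedekindZeta_residue F : ℂ) = ∏ χ ∈ X.erase 1, LFunction χ.primitiveCharacter 1 := by
  refine tendsto_nhds_unique (tendsto_sub_one_mul_dedekindZeta_nhdsGT F) ?_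
  have hc : Tendsto (fun t : ℝ => (t : ℂ)) (𝓝[>] 1) (𝓝[≠] 1) :=
    tendsto_nhdsWithin_iff.mpr ⟨((Complex.continuous_ofReal.tendsto' 1 1 (by simp)).mono_left
      inf_le_left), by
        filter_upwards [self_mem_nhdsWithin] with t (ht : 1 < t)
        exact fun e => ht.ne' (Complex.ofReal_eq_one.mp e)⟩
  refine ((prodL_residue h1).comp hc).congr' ?_
  filter_upwards [self_mem_nhdsWithin] with t (ht : 1 < t)
  rw [Function.comp_apply, h _ (by simpa using ht)]

end FA.AbelianZeta

namespace FA.Summary

open FA.AbelianZeta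

/-- **Artin reciprocity over `ℚ` for the zeta function**: the Dedekind zeta function of a finite
abelian extension `F` of `ℚ` is the product of the `L`-functions of the primitive characters of a
group of `[F : ℚ]` Dirichlet characters. -/
theorem dedekindZeta_abelian (F : Type*) [Field F] [NumberField F] [IsAbelianGalois ℚ F] :
    ∃ (n : ℕ) (_ : NeZero n) (X : Subgroup (DirichletCharacter ℂ n)),
      Nat.card X = Module.finrank ℚ F ∧ ∀ s : ℂ, 1 < s.re →
        dedekindZeta F s = ∏ χ ∈ (X : Set (DirichletCharacter ℂ n)).toFinite.toFinset,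
          LFunction χ.primitiveCharacter s := by
  obtain ⟨n, hn, ⟨f⟩⟩ := kroneckerWeber_cyclotomicField F
  haveI : NeZero n := ⟨hn.ne'⟩
  haveI : NeZero (n : ℚ) := ⟨Nat.cast_ne_zero.mpr hn.ne'⟩
  haveI : IsCyclotomicExtension {n} ℚ (CyclotomicField n ℚ) :=
    CyclotomicField.isCyclotomicExtension n ℚ
  haveI : IsAbelianGalois ℚ (CyclotomicField n ℚ) :=
    IsCyclotomicExtension.isAbelianGalois {n} ℚ (CyclotomicField n ℚ)
  let e : F ≃ₐ[ℚ] f.fieldRange := AlgEquiv.ofInjectiveField f
  refine ⟨n, inferInstance, fieldChars n (CyclotomicField n ℚ) f.fieldRange, ?_, fun s hs => ?_⟩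
  · rw [fieldChars, IsCyclotomicExtension.Rat.card_intermediateFieldEquivSubgroupChar]
    exact e.symm.toLinearEquiv.finrank_eq
  · let _ : Fintype (fieldChars n (CyclotomicField n ℚ) f.fieldRange) := Fintype.ofFinite _
    rw [dedekindZeta_congr e.toRingEquiv, dedekindZeta_eq_prod n (CyclotomicField n ℚ) f.fieldRange hs]
    refine Finset.prod_bij (fun χ _ => χ.1)
      (fun χ _ => (Set.Finite.mem_toFinset _).mpr (SetLike.mem_coe.mpr χ.2))
      (fun _ _ _ _ e => Subtype.ext e)
      (fun χ hχ => ⟨⟨χ, SetLike.mem_coe.mp ((Set.Finite.mem_toFinset _).mp hχ)⟩,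
        Finset.mem_univ _, rfl⟩) fun _ _ => rfl

/-- **The zeta function of a cyclotomic field**: the product over all characters modulo `n`. -/
theorem dedekindZeta_cyclotomic (n : ℕ) [NeZero n] (K : Type*) [Field K] [NumberField K]
    [IsCyclotomicExtension {n} ℚ K] {s : ℂ} (hs : 1 < s.re) :
    dedekindZeta K s = ∏ χ : DirichletCharacter ℂ n, LFunction χ.primitiveCharacter s := by
  haveI : IsAbelianGalois ℚ K := IsCyclotomicExtension.isAbelianGalois {n} ℚ K
  let _ : Fintype (fieldChars n K (⊤ : IntermediateField ℚ K)) := Fintype.ofFinite _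
  rw [dedekindZeta_congr (IntermediateField.topEquiv (F := ℚ) (E := K)).symm.toRingEquiv,
    dedekindZeta_eq_prod n K ⊤ hs]
  refine Finset.prod_bij (fun χ _ => χ.1) (fun _ _ => Finset.mem_univ _)
    (fun _ _ _ _ h => Subtype.ext h)
    (fun χ _ => ⟨⟨χ, (mem_fieldChars_iff n K ⊤).mpr fun σ hσ => ?_⟩, Finset.mem_univ _, rfl⟩)
    fun _ _ => rfl
  rw [IntermediateField.fixingSubgroup_top, Subgroup.mem_bot] at hσ
  rw [hσ, map_one, Units.val_one, map_one]

/-- **Continuation and nonvanishing**: the zeta function of an abelian number field extends to a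
function differentiable outside `1`, without zeros for `1 ≤ re s`. -/
theorem dedekindZeta_abelian_continuation (F : Type*) [Field F] [NumberField F]
    [IsAbelianGalois ℚ F] :
    ∃ Z : ℂ → ℂ, DifferentiableOn ℂ Z {1}ᶜ ∧ (∀ s, 1 < s.re → Z s = dedekindZeta F s) ∧
      ∀ s, 1 ≤ s.re → s ≠ 1 → Z s ≠ 0 := by
  obtain ⟨n, hn, X, -, h⟩ := dedekindZeta_abelian F
  refine ⟨prodL (X : Set (DirichletCharacter ℂ n)).toFinite.toFinset,
    fun s hs => DifferentiableAt.differentiableWithinAt ?_, fun s hs => (h s hs).symm,
    fun s hs h1 => Finset.prod_ne_zero_iff.mpr fun χ _ =>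
      LFunction_ne_zero_of_one_le_re _ (.inr h1) hs⟩
  exact DifferentiableAt.fun_finsetProd fun χ _ => differentiableAt_LFunction _ _ (.inl hs)

/-- **The analytic class number formula of an abelian field**: for the group of characters whose
`L`-functions multiply to the zeta function, the product of `L(1, χ)` over the nontrivial ones is
the residue `2^r₁ (2π)^r₂ h R / (w √|d|)`. -/
theorem classNumberFormula_abelian (F : Type*) [Field F] [NumberField F] [IsAbelianGalois ℚ F] :
    ∃ (n : ℕ) (_ : NeZero n) (X : Subgroup (DirichletCharacter ℂ n)),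
      Nat.card X = Module.finrank ℚ F ∧
      (∀ s : ℂ, 1 < s.re →
        dedekindZeta F s = ∏ χ ∈ (X : Set (DirichletCharacter ℂ n)).toFinite.toFinset,
          LFunction χ.primitiveCharacter s) ∧
      ∏ χ ∈ (X : Set (DirichletCharacter ℂ n)).toFinite.toFinset.erase 1,
        LFunction χ.primitiveCharacter 1 =
      (((2 : ℝ) ^ InfinitePlace.nrRealPlaces F * (2 * Real.pi) ^ InfinitePlace.nrComplexPlaces F *
        Units.regulator F * classNumber F) /
        (Units.torsionOrder F * Real.sqrt |discr F|) : ℝ) := by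
  obtain ⟨n, hn, X, hc, h⟩ := dedekindZeta_abelian F
  refine ⟨n, hn, X, hc, h, ?_⟩
  rw [← dedekindZeta_residue_def, residue_eq_prod ((Set.Finite.mem_toFinset _).mpr X.one_mem) h]

/-- The same for a cyclotomic field. -/
theorem classNumberFormula_cyclotomic (n : ℕ) [NeZero n] (K : Type*) [Field K] [NumberField K]
    [IsCyclotomicExtension {n} ℚ K] :
    ∏ χ ∈ (Finset.univ : Finset (DirichletCharacter ℂ n)).erase 1,
      LFunction χ.primitiveCharacter 1 = (dedekindZeta_residue K : ℂ) :=
  (residue_eq_prod (Finset.mem_univ 1) fun _ hs => dedekindZeta_cyclotomic n K hs).symm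

end FA.Summary

end
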