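import Fermat.Agent.ThetaOne.LValueOne

/-!
# Values at one of Dirichlet L-functions and the independence of cyclotomic units

* `lFunction_one_closedForm`: `L(1, χ) = -(τ(χ)/N) ∑ χ⁻¹(a) log (1 - e^(-2π i a/N))` for primitive `χ`
  modulo `N > 1`.
* `bernoulli_sum_ne_zero`, `logSine_sum_ne_zero`: for a prime `p`, `∑ χ(a) a ≠ 0` for odd `χ` and
  `∑ χ(a) log sin (π a/p) ≠ 0` for even `χ ≠ 1`.
* `cyclotomicUnits_independent`: **Kummer**: the ratios `sin (π a/p) / sin (π/p)`, `2 ≤ a ≤ (p-1)/2`,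
  are multiplicatively independent.
-/

set_option autoImplicit false

noncomputable section

open Finset
open scoped Real

namespace FA.Summary

open FA.OrderTheta

/-- **The closed form of `L(1, χ)`.** -/
theorem lFunction_one_closedForm {N : ℕ} [NeZero N] (hN : 1 < N) {χ : DirichletCharacter ℂ N}
    (hχ : χ.IsPrimitive) :
    DirichletCharacter.LFunction χ 1 = -(gaussSum χ ZMod.stdAddChar / N) *
      ∑ a : ZMod N, χ⁻¹ a * Complex.log (1 - ZMod.stdAddChar (-a)) :=
  lFunction_one_primitive hN hχ ((DirichletCharacter.conductor_inv χ).trans hχ)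

variable (p : ℕ) [Fact p.Prime]

/-- `B_{1,χ}` does not vanish for odd `χ`. -/
theorem bernoulli_sum_ne_zero {χ : DirichletCharacter ℂ p} (hχ : χ.Odd) :
    ∑ a : ZMod p, χ a * (a.val : ℂ) ≠ 0 := by
  intro h
  have hne : χ ≠ 1 := fun e => by
    have h' : χ (-1) = -1 := hχ
    rw [e, MulChar.one_apply isUnit_one.neg] at h'
    norm_num at h'
  refine sum_sawTooth_ne_zero hχ ?_
  have hterm : ∀ a : ZMod p, χ a * (sawTooth p a : ℂ) =
      (p : ℂ)⁻¹ * (χ a * (a.val : ℂ)) - 1 / 2 * χ a := fun a => by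
    by_cases ha : a = 0
    · rw [ha, MulChar.map_zero]; ring
    · rw [sawTooth, if_neg ha]; push_cast; ring
  rw [Finset.sum_congr rfl fun a _ => hterm a, sum_sub_distrib, ← mul_sum, ← mul_sum, h,
    MulChar.sum_eq_zero_of_ne_one hne, mul_zero, mul_zero, sub_zero]

/-- The even counterpart. -/
theorem logSine_sum_ne_zero {χ : DirichletCharacter ℂ p} (hne : χ ≠ 1) (hχ : χ.Even) :
    ∑ a : ZMod p, χ a * (Real.log (Real.sin (π * ((a.val : ℝ) / p))) : ℂ) ≠ 0 :=
  sum_sineLog_ne_zero hne hχ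

theorem sum_folded (hp : p ≠ 2) (f : ℕ → ℝ) :
    ∑ j : ZMod p, f (min j.val (p - j.val)) = f 0 + 2 * ∑ r ∈ Icc 1 (p / 2), f r := by
  have hodd := (Fact.out : p.Prime).eq_two_or_odd.resolve_left hp
  have h0 : ∑ j : ZMod p, f (min j.val (p - j.val)) = ∑ r ∈ range p, f (min r (p - r)) := by
    refine (Finset.sum_nbij (fun r : ℕ => (r : ZMod p)) (fun r _ => mem_univ _) ?_ ?_ ?_).symm
    · intro a ha b hb e
      rw [coe_range, Set.mem_Iio] at ha hb
      have := (ZMod.natCast_eq_natCast_iff' a b p).mp e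
      rwa [Nat.mod_eq_of_lt ha, Nat.mod_eq_of_lt hb] at this
    · exact fun j _ => ⟨j.val, by simpa using ZMod.val_lt j, ZMod.natCast_zmod_val j⟩
    · intro r hr
      rw [ZMod.val_natCast, Nat.mod_eq_of_lt (mem_range.mp hr)]
  rw [h0, ← Finset.sum_filter_add_sum_filter_not (range p) (fun r => r ≤ p / 2)]
  have e1 : (range p).filter (fun r => r ≤ p / 2) = insert 0 (Icc 1 (p / 2)) := by
    ext r; simp only [mem_filter, mem_range, mem_insert, mem_Icc]; omega
  have e2 : ∑ r ∈ (range p).filter (fun r => ¬ r ≤ p / 2), f (min r (p - r)) =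
      ∑ r ∈ Icc 1 (p / 2), f r := by
    refine Finset.sum_nbij' (fun r => p - r) (fun r => p - r) ?_ ?_ ?_ ?_ ?_ <;>
      intro r hr <;> simp only [mem_filter, mem_range, mem_Icc] at hr ⊢ <;>
        first | omega | (congr 1; omega)
  rw [e1, sum_insert (by simp), e2, Nat.zero_min, two_mul, add_assoc,
    Finset.sum_congr rfl fun r hr => show f (min r (p - r)) = f r by
      rw [mem_Icc] at hr; congr 1; omega]

/-- **Kummer: the cyclotomic units are independent.** -/
theorem cyclotomicUnits_independent (e : ℕ → ℤ)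
    (h : ∏ a ∈ Icc 2 (p / 2), (Real.sin (π * ((a : ℝ) / p)) / Real.sin (π * ((1 : ℝ) / p))) ^ e a = 1) :
    ∀ a ∈ Icc 2 (p / 2), e a = 0 := by
  intro a₀ ha₀
  have ha₀' := mem_Icc.mp ha₀
  have hp : p ≠ 2 := by rintro rfl; omega
  have hp0 : (0 : ℝ) < p := by exact_mod_cast (Fact.out : p.Prime).pos
  set C : ℕ → ℤ := fun r => if r = 1 then -∑ a ∈ Icc 2 (p / 2), e a
    else if r ∈ Icc 2 (p / 2) then e r else 0 with hC
  set g : ℕ → ℝ := fun r => Real.log (Real.sin (π * ((r : ℝ) / p))) with hg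
  have hC0 : C 0 = 0 := by simp [hC]
  have hins : Icc 1 (p / 2) = insert 1 (Icc 2 (p / 2)) := by
    ext r; simp only [mem_insert, mem_Icc]; omega
  have hC2 : ∀ r ∈ Icc 2 (p / 2), C r = e r := fun r hr => by
    have := mem_Icc.mp hr
    simp only [hC]
    rw [if_neg (by omega), if_pos hr]
  have hCsum : ∑ r ∈ Icc 1 (p / 2), (C r : ℝ) = 0 := by
    rw [hins, sum_insert (by simp), Finset.sum_congr rfl fun r hr => by rw [hC2 r hr]]
    simp [hC]
  have hCg : ∑ r ∈ Icc 1 (p / 2), (C r : ℝ) * g r = 0 := by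
    have hpos : ∀ r : ℕ, 1 ≤ r → r ≤ p / 2 → 0 < Real.sin (π * ((r : ℝ) / p)) := fun r h1 h2 =>
      sin_pi_mul_pos ⟨div_pos (by exact_mod_cast h1) hp0,
        (div_lt_one hp0).mpr (by exact_mod_cast (show r < p by omega))⟩
    have h1pos := hpos 1 le_rfl (by omega)
    rw [Nat.cast_one] at h1pos
    have hl := congrArg Real.log h
    rw [Real.log_one, Real.log_prod fun r hr => zpow_ne_zero _ (div_ne_zero
        (hpos r (by have := mem_Icc.mp hr; omega) (mem_Icc.mp hr).2).ne' h1pos.ne'),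
      Finset.sum_congr rfl fun r hr => by
        rw [Real.log_zpow, Real.log_div
          (hpos r (by have := mem_Icc.mp hr; omega) (mem_Icc.mp hr).2).ne' h1pos.ne', mul_sub],
      sum_sub_distrib, ← sum_mul] at hl
    rw [hins, sum_insert (by simp), Finset.sum_congr rfl fun r hr => by rw [hC2 r hr]]
    simp only [hC, hg, if_pos, Nat.cast_one]
    push_cast
    linarith
  set c : ZMod p → ℤ := fun j => C (min j.val (p - j.val)) with hc
  have hcev : ∀ j, c (-j) = c j := fun j => by
    by_cases hj : j = 0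
    · rw [hj, neg_zero]
    · simp only [hc]
      rw [ZMod.neg_val, if_neg hj]
      have := ZMod.val_lt j
      congr 1
      omega
  have hc0 : c 0 = 0 := by simp [hc, hC0]
  have hcsum : ∑ j, c j = 0 := by
    have h' : ∑ j, (c j : ℝ) = 0 := by
      simp only [hc]
      rw [sum_folded p hp (fun r => (C r : ℝ)), hC0, hCsum]
      simp
    exact_mod_cast h'
  have hcrel : ∑ j, (c j : ℝ) * sineLog p j = 0 := by
    have e1 : ∀ j : ZMod p, (c j : ℝ) * sineLog p j =
        (fun r => (C r : ℝ) * g r) (min j.val (p - j.val)) := fun j => by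
      simp only [hc, hg]
      rcases le_total j.val (p - j.val) with hle | hle
      · rw [min_eq_left hle]; rfl
      · rw [min_eq_right hle]
        congr 1
        rw [sineLog, Nat.cast_sub (ZMod.val_lt j).le, sub_div, div_self hp0.ne', mul_sub, mul_one,
          Real.sin_pi_sub]
    rw [Finset.sum_congr rfl fun j _ => e1 j, sum_folded p hp (fun r => (C r : ℝ) * g r)]
    simp only [hC0, Int.cast_zero, zero_mul, hCg, mul_zero, add_zero]
  have hker := sineLog_kernel (c := fun j : ZMod p => ((c j : ℤ) : ℂ))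
    (fun j => by simp only [hcev]) (by simp [hc0]) (by exact_mod_cast hcsum) fun b hb => by
      exact_mod_cast sineLog_galois hcev hc0 hcsum hcrel hb
  have hfin := congrFun hker ((a₀ : ℕ) : ZMod p)
  simp only [Pi.zero_apply, Int.cast_eq_zero, hc, ZMod.val_natCast] at hfin
  rw [Nat.mod_eq_of_lt (by omega), min_eq_left (by omega), hC2 a₀ ha₀] at hfin
  exact hfin

end FA.Summary
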