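import Fermat.Agent.AbelianFE.CompletedProduct
import Fermat.Agent.AbelianFE.Parity

/-!
# The functional equation of the zeta function of an abelian number field

* `rootNumber_real`: a primitive real Dirichlet character has root number `1` (Gauss, every conductor).
* `dedekindZeta_abelian_functionalEquation`: for a finite abelian `F/ℚ` the zeta function continues to `Z`,
  differentiable outside `1`, with `ξ(1 - s) = ξ(s)` for `ξ(s) = |d|^(s/2) Γℝ(s)^r₁ Γℂ(s)^r₂ Z(s)`;
  `Z(s) / s^(r₁ + r₂ - 1) → -h R / w` at `0` (the class number formula at `0`); trivial zeros at the negative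
  even integers, and at all negative integers if `F` is totally complex.

Hecke's theorem in the abelian case, from the conductor–discriminant formula; independent of S01.
-/

set_option autoImplicit false
set_option linter.style.haveILetI false

noncomputable section

open NumberField InfinitePlace DirichletCharacter Filter Topology Complex
open scoped Classical

namespace FA.Summary

/-- **Gauss**: every primitive real character has root number `1`. -/
theorem rootNumber_real {N : ℕ} [NeZero N] {χ : DirichletCharacter ℂ N} (hprim : χ.IsPrimitive)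
    (hq : χ ^ 2 = 1) : rootNumber χ = 1 :=
  FA.AbelianFE.rootNumber_eq_one_of_real hprim hq

/-- The completed zeta function made from a continuation `Z`. -/
def completedDedekind (F : Type*) [Field F] [NumberField F] (Z : ℂ → ℂ) (s : ℂ) : ℂ :=
  (((discr F).natAbs : ℕ) : ℂ) ^ (s / 2) *
    (Gammaℝ s ^ nrRealPlaces F * Gammaℂ s ^ nrComplexPlaces F) * Z s

/-- **Functional equation, value at `0` and trivial zeros.** -/
theorem dedekindZeta_abelian_functionalEquation (F : Type*) [Field F] [NumberField F] [IsAbelianGalois ℚ F] :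
    ∃ Z : ℂ → ℂ, DifferentiableOn ℂ Z {1}ᶜ ∧ (∀ s, 1 < s.re → Z s = dedekindZeta F s) ∧
      (∀ s : ℂ, (∀ m : ℤ, s ≠ m) → completedDedekind F Z (1 - s) = completedDedekind F Z s) ∧
      Tendsto (fun s => Z s / s ^ (nrRealPlaces F + nrComplexPlaces F - 1)) (𝓝[≠] 0)
        (𝓝 (-((classNumber F : ℂ) * (Units.regulator F : ℂ) / (Units.torsionOrder F : ℂ)))) ∧
      (∀ k : ℕ, Z (-(2 * (k + 1))) = 0) ∧ (IsTotallyComplex F → ∀ k : ℕ, Z (-(k + 1)) = 0) := by
  obtain ⟨n, hn, ⟨f⟩⟩ := kroneckerWeber_cyclotomicField F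
  haveI : NeZero n := ⟨hn.ne'⟩
  haveI : NeZero (n : ℚ) := ⟨Nat.cast_ne_zero.mpr hn.ne'⟩
  haveI : IsCyclotomicExtension {n} ℚ (CyclotomicField n ℚ) := CyclotomicField.isCyclotomicExtension n ℚ
  haveI : IsAbelianGalois ℚ (CyclotomicField n ℚ) :=
    IsCyclotomicExtension.isAbelianGalois {n} ℚ (CyclotomicField n ℚ)
  let E : IntermediateField ℚ (CyclotomicField n ℚ) := f.fieldRange
  let e : F ≃ₐ[ℚ] E := AlgEquiv.ofInjectiveField f
  set X := Finset.univ.filter fun χ => χ ∈ FA.AbelianZeta.fieldChars n (CyclotomicField n ℚ) E with hXdef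
  have h1 : (1 : DirichletCharacter ℂ n) ∈ X := Finset.mem_filter.mpr ⟨Finset.mem_univ _, Subgroup.one_mem _⟩
  have hinv : ∀ χ ∈ X, χ⁻¹ ∈ X := fun χ hχ =>
    Finset.mem_filter.mpr ⟨Finset.mem_univ _, Subgroup.inv_mem _ (Finset.mem_filter.mp hχ).2⟩
  have hprod : ∏ χ ∈ X, χ.conductor = (discr F).natAbs := by
    rw [discr_eq_discr_of_algEquiv _ e, conductor_discriminant n (CyclotomicField n ℚ) E]
    exact Finset.prod_congr (by
      ext χ
      simp only [hXdef, Set.Finite.mem_toFinset, SetLike.mem_coe, Finset.mem_filter, Finset.mem_univ, true_and])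
      fun _ _ => rfl
  have hzeta : ∀ s : ℂ, 1 < s.re → dedekindZeta F s = FA.AbelianZeta.prodL X s := fun s hs => by
    let _ : Fintype (FA.AbelianZeta.fieldChars n (CyclotomicField n ℚ) E) := Fintype.ofFinite _
    rw [FA.AbelianZeta.dedekindZeta_congr e.toRingEquiv,
      FA.AbelianZeta.dedekindZeta_eq_prod n (CyclotomicField n ℚ) E hs]
    exact Finset.prod_bij (fun χ _ => χ.1) (fun χ _ => Finset.mem_filter.mpr ⟨Finset.mem_univ _, χ.2⟩)
      (fun _ _ _ _ h => Subtype.ext h)
      (fun χ hχ => ⟨⟨χ, (Finset.mem_filter.mp hχ).2⟩, Finset.mem_univ _, rfl⟩) fun _ _ => rfl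
  have hr1 : nrRealPlaces F = nrRealPlaces E := FA.AbelianFE.nrRealPlaces_congr e.toRingEquiv
  have hr2 : nrComplexPlaces F = nrComplexPlaces E := FA.AbelianFE.nrComplexPlaces_congr e.toRingEquiv
  have heven : (X.filter fun χ => χ.Even).card = nrRealPlaces F + nrComplexPlaces F := by
    rw [hXdef, Finset.filter_filter, FA.AbelianFE.card_even_eq, hr1, hr2]
  have hodd : (X.filter fun χ => ¬ χ.Even).card = nrComplexPlaces F := by
    have hc := FA.AbelianFE.card_fieldChars n (CyclotomicField n ℚ) E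
    rw [← e.toLinearEquiv.finrank_eq, ← InfinitePlace.card_add_two_mul_card_eq_rank] at hc
    have hs := Finset.card_filter_add_card_filter_not (s := X) (fun χ => χ.Even)
    rw [heven, hc] at hs
    omega
  set Z := FA.AbelianZeta.prodL X with hZ
  set Ξ := FA.AbelianFE.completedProd X with hΞ
  have hXi : ∀ s : ℂ, (∀ m : ℕ, s ≠ -(m : ℂ)) → Ξ s = completedDedekind F Z s := fun s hs => by
    rw [hΞ, FA.AbelianFE.completedProd_eq hs, hprod, heven, hodd, completedDedekind, ← Gammaℝ_mul_Gammaℝ_add_one,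
      hZ, FA.AbelianZeta.prodL]
    ring
  refine ⟨Z, fun s hs => DifferentiableAt.differentiableWithinAt ?_, fun s hs => (hzeta s hs).symm, ?_, ?_, ?_, ?_⟩
  · exact DifferentiableAt.fun_finsetProd fun χ _ => differentiableAt_LFunction _ _ (.inl hs)
  · intro s hs
    rw [← hXi s fun m e => hs (-m) (by rw [e]; push_cast; rfl),
      ← hXi (1 - s) fun m e => hs (1 + m) (by push_cast; linear_combination -e), hΞ]
    exact FA.AbelianFE.completedProd_one_sub hinv s
  · -- at `0`
    have hd0 : (((discr F).natAbs : ℕ) : ℂ) ≠ 0 :=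
      Nat.cast_ne_zero.mpr (Int.natAbs_ne_zero.mpr (discr_ne_zero F))
    have hres : (dedekindZeta_residue F : ℂ) = ∏ χ ∈ X.erase 1, LFunction χ.primitiveCharacter 1 :=
      FA.AbelianZeta.residue_eq_prod h1 hzeta
    have hR : Tendsto (fun s => s * Gammaℝ s) (𝓝[≠] (0 : ℂ)) (𝓝 2) := Gammaℝ_residue_zero
    have hcont : ∀ a : ℂ, 0 < a.re → ContinuousAt Gammaℝ a := fun a ha => by
      have h := (differentiable_Gammaℝ_inv.continuous.continuousAt (x := a)).inv₀
        (inv_ne_zero (Gammaℝ_ne_zero_of_re_pos ha))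
      exact h.congr (Eventually.of_forall fun x => inv_inv (Gammaℝ x))
    have hC : Tendsto (fun s => s * Gammaℂ s) (𝓝[≠] (0 : ℂ)) (𝓝 2) := by
      have h2 : Tendsto (fun s : ℂ => Gammaℝ (s + 1)) (𝓝[≠] 0) (𝓝 1) := by
        have h3 : Tendsto (fun s : ℂ => Gammaℝ (s + 1)) (𝓝[≠] 0) (𝓝 (Gammaℝ 1)) :=
          (hcont 1 (by norm_num)).tendsto.comp (((continuous_add_const (1 : ℂ)).tendsto' 0 1
            (zero_add 1)).mono_left nhdsWithin_le_nhds)
        rwa [Gammaℝ_one] at h3
      have h4 := hR.mul h2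
      rw [mul_one] at h4
      exact h4.congr fun s => by rw [mul_assoc, Gammaℝ_mul_Gammaℝ_add_one]
    have hne : ∀ᶠ s in 𝓝[≠] (0 : ℂ), ‖s‖ < 1 / 2 ∧ s ≠ 0 := by
      refine Filter.Eventually.and (nhdsWithin_le_nhds ?_) self_mem_nhdsWithin
      exact (continuous_norm.tendsto' (0 : ℂ) 0 norm_zero).eventually (eventually_lt_nhds (by norm_num))
    have hgood : ∀ {s : ℂ}, ‖s‖ < 1 / 2 → s ≠ 0 →
        (∀ m : ℕ, s ≠ -(m : ℂ)) ∧ ∀ m : ℕ, 1 - s ≠ -(m : ℂ) := fun {s} hs hs0 => by
      refine ⟨fun m e => ?_, fun m e => ?_⟩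
      · rcases Nat.eq_zero_or_pos m with rfl | hm
        · exact hs0 (by simpa using e)
        · rw [e, norm_neg, Complex.norm_natCast] at hs
          have : (1 : ℝ) ≤ m := by exact_mod_cast hm
          linarith
      · have e' : s = ((m + 1 : ℕ) : ℂ) := by push_cast; linear_combination -e
        rw [e', Complex.norm_natCast] at hs
        have : (1 : ℝ) ≤ ((m + 1 : ℕ) : ℝ) := by exact_mod_cast Nat.succ_pos m
        linarith
    have hu : Tendsto (fun s : ℂ => 1 - s) (𝓝[≠] 0) (𝓝[≠] 1) :=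
      tendsto_nhdsWithin_iff.mpr ⟨((continuous_const.sub continuous_id).tendsto' 0 1 (sub_zero 1)).mono_left
        nhdsWithin_le_nhds, by
          filter_upwards [self_mem_nhdsWithin] with s (hs : s ≠ 0)
          exact fun e => hs (by simpa using e)⟩
    have hnum : Tendsto (fun s : ℂ => s * Ξ s) (𝓝[≠] 0) (𝓝 (-((((discr F).natAbs : ℕ) : ℂ) ^ ((1 : ℂ) / 2) *
        (Gammaℝ 1 ^ nrRealPlaces F * Gammaℂ 1 ^ nrComplexPlaces F) * (dedekindZeta_residue F : ℂ)))) := by
      have hZ1 : Tendsto (fun u => (u - 1) * Z u) (𝓝[≠] 1) (𝓝 (dedekindZeta_residue F : ℂ)) := by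
        rw [hres]; exact FA.AbelianZeta.prodL_residue h1
      have hA : ContinuousAt (fun u : ℂ => (((discr F).natAbs : ℕ) : ℂ) ^ (u / 2) *
          (Gammaℝ u ^ nrRealPlaces F * Gammaℂ u ^ nrComplexPlaces F)) 1 := by
        have hcd : ContinuousAt (fun u : ℂ => Gammaℂ u) 1 := by
          have h5 : ContinuousAt (fun u : ℂ => Gammaℝ (u + 1)) 1 :=
            ContinuousAt.comp (g := Gammaℝ) (hcont _ (by norm_num)) (by fun_prop)
          simpa only [← Gammaℝ_mul_Gammaℝ_add_one] using (hcont 1 (by norm_num)).fun_mul h5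
        have hdp : ContinuousAt (fun u : ℂ => (((discr F).natAbs : ℕ) : ℂ) ^ (u / 2)) 1 :=
          ((differentiableAt_id.div_const (2 : ℂ)).const_cpow (Or.inl hd0)).continuousAt
        exact hdp.fun_mul (((hcont 1 (by norm_num)).fun_pow _).fun_mul (hcd.fun_pow _))
      have h6 := (((hA.tendsto.mono_left nhdsWithin_le_nhds).mul hZ1).comp hu).neg
      refine h6.congr' ?_
      filter_upwards [hne] with s hs
      obtain ⟨hs1, hs2⟩ := hgood hs.1 hs.2
      rw [show Ξ s = Ξ (1 - s) from (FA.AbelianFE.completedProd_one_sub hinv s).symm, hXi _ hs2]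
      simp only [Function.comp_apply, completedDedekind]
      ring
    have hden : Tendsto (fun s : ℂ => (((discr F).natAbs : ℕ) : ℂ) ^ (s / 2) *
        ((s * Gammaℝ s) ^ nrRealPlaces F * (s * Gammaℂ s) ^ nrComplexPlaces F)) (𝓝[≠] 0)
        (𝓝 (2 ^ nrRealPlaces F * 2 ^ nrComplexPlaces F)) := by
      have h7 : Tendsto (fun s : ℂ => (((discr F).natAbs : ℕ) : ℂ) ^ (s / 2)) (𝓝[≠] 0) (𝓝 1) := by
        refine (Continuous.tendsto' ?_ 0 1 (by simp)).mono_left nhdsWithin_le_nhds
        exact Continuous.const_cpow (by fun_prop) (Or.inl hd0)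
      simpa using h7.mul ((hR.pow _).mul (hC.pow _))
    have h8 := hnum.div hden (by simp)
    have hval : -((((discr F).natAbs : ℕ) : ℂ) ^ ((1 : ℂ) / 2) * (Gammaℝ 1 ^ nrRealPlaces F *
        Gammaℂ 1 ^ nrComplexPlaces F) * (dedekindZeta_residue F : ℂ)) /
          (2 ^ nrRealPlaces F * 2 ^ nrComplexPlaces F) =
        -((classNumber F : ℂ) * (Units.regulator F : ℂ) / (Units.torsionOrder F : ℂ)) := by
      have hsq : (((discr F).natAbs : ℕ) : ℂ) ^ ((1 : ℂ) / 2) = (Real.sqrt ((discr F).natAbs : ℝ) : ℂ) := by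
        rw [Real.sqrt_eq_rpow, Complex.ofReal_cpow (Nat.cast_nonneg _), Complex.ofReal_natCast,
          show (((1 : ℝ) / 2 : ℝ) : ℂ) = 1 / 2 by norm_num]
      have hs : (Real.sqrt ((discr F).natAbs : ℝ) : ℂ) ≠ 0 := Complex.ofReal_ne_zero.mpr
        (Real.sqrt_ne_zero'.mpr (Nat.cast_pos.mpr (Int.natAbs_pos.mpr (discr_ne_zero F))))
      have hw : (Units.torsionOrder F : ℂ) ≠ 0 := Nat.cast_ne_zero.mpr (Units.torsionOrder_ne_zero F)
      have hpi : (Real.pi : ℂ) ≠ 0 := Complex.ofReal_ne_zero.mpr Real.pi_ne_zero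
      have hρ : (dedekindZeta_residue F : ℂ) = (2 : ℂ) ^ nrRealPlaces F * (2 * (Real.pi : ℂ)) ^ nrComplexPlaces F *
          (Units.regulator F : ℂ) * (classNumber F : ℂ) /
            ((Units.torsionOrder F : ℂ) * (Real.sqrt ((discr F).natAbs : ℝ) : ℂ)) := by
        rw [dedekindZeta_residue_def, show |((discr F : ℤ) : ℝ)| = ((discr F).natAbs : ℝ) by
          rw [Nat.cast_natAbs, Int.cast_abs]]
        push_cast
        rfl
      rw [hsq, Gammaℝ_one, Gammaℂ_one, hρ, one_pow, one_mul, one_div, inv_pow, mul_pow]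
      field_simp
    rw [hval] at h8
    have hr : 1 ≤ nrRealPlaces F + nrComplexPlaces F := by
      have := Fintype.card_pos (α := InfinitePlace F)
      rw [InfinitePlace.card_eq_nrRealPlaces_add_nrComplexPlaces] at this
      omega
    refine h8.congr' ?_
    filter_upwards [hne] with s hs
    obtain ⟨hs1, -⟩ := hgood hs.1 hs.2
    simp only [Pi.div_apply]
    have hGR : Gammaℝ s ≠ 0 := fun h => by
      obtain ⟨j, hj⟩ := Gammaℝ_eq_zero_iff.mp h
      exact hs1 (2 * j) (by rw [hj]; push_cast; rfl)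
    have hGC : Gammaℂ s ≠ 0 := by
      rw [← Gammaℝ_mul_Gammaℝ_add_one]
      refine mul_ne_zero hGR fun h => ?_
      obtain ⟨j, hj⟩ := Gammaℝ_eq_zero_iff.mp h
      exact hs1 (2 * j + 1) (by rw [eq_sub_of_add_eq hj]; push_cast; ring)
    have hs0 : s ≠ 0 := hs.2
    have hdc : (((discr F).natAbs : ℕ) : ℂ) ^ (s / 2) ≠ 0 := by
      rw [Ne, cpow_eq_zero_iff]
      exact fun h => hd0 h.1
    rw [hXi s hs1, completedDedekind, mul_pow, mul_pow]
    field_simp
    obtain ⟨r, hr'⟩ : ∃ r, nrRealPlaces F + nrComplexPlaces F = r + 1 := ⟨_, (Nat.sub_add_cancel hr).symm⟩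
    rw [mul_assoc (Z s), ← pow_add, hr', Nat.add_sub_cancel, pow_succ]
    ring
  · intro k
    refine Finset.prod_eq_zero h1 ?_
    rw [FA.AbelianZeta.LFunction_eq_riemannZeta _ conductor_one]
    rw [show -(2 * ((k : ℂ) + 1)) = -2 * ((k : ℂ) + 1) by ring]
    exact riemannZeta_neg_two_mul_nat_add_one k
  · intro hF k
    rcases Nat.even_or_odd' k with ⟨j, rfl | rfl⟩
    · have hpos : 0 < (X.filter fun χ => ¬ χ.Even).card := by
        rw [hodd]
        have := Fintype.card_pos (α := InfinitePlace F)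
        rw [InfinitePlace.card_eq_nrRealPlaces_add_nrComplexPlaces, IsTotallyComplex.nrRealPlaces_eq_zero F] at this
        omega
      obtain ⟨χ, hχ⟩ := Finset.card_pos.mp hpos
      obtain ⟨hχX, hχo⟩ := Finset.mem_filter.mp hχ
      refine Finset.prod_eq_zero hχX ?_
      haveI : NeZero χ.conductor := ⟨χ.conductor_ne_zero⟩
      have ho : χ.primitiveCharacter.Odd := by
        show χ.primitiveCharacter (-1) = -1
        rw [FA.AbelianFE.primitiveCharacter_neg_one]
        exact (χ.even_or_odd).resolve_left hχo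
      rw [show (-(((2 * j : ℕ) : ℂ) + 1)) = -(2 * (j : ℂ)) - 1 by push_cast; ring]
      exact ho.LFunction_neg_two_mul_nat_sub_one j
    · refine Finset.prod_eq_zero h1 ?_
      rw [FA.AbelianZeta.LFunction_eq_riemannZeta _ conductor_one,
        show (-((((2 * j + 1 : ℕ)) : ℂ) + 1)) = -2 * ((j : ℂ) + 1) by push_cast; ring]
      exact riemannZeta_neg_two_mul_nat_add_one j

end FA.Summary
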