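import Fermat.Agent.BDR.Invariants

/-!
# Fontaine's field of `p`-adic periods `B_dR`

Mathlib defines `BDeRhamPlus` and `BDeRham`; for the ring of integers `OC p` of `ℂ_p` they are
`BPlus p` and `BField p`. We prove their basic properties, with the Galois action of `ℚ_p`.
-/

set_option autoImplicit false
set_option linter.unusedSectionVars false

noncomputable section

open Ideal WittVector FA.TateSen FA.FontaineWintenberger FA.BDR

namespace FA.Summary

variable (p : ℕ) [hp : Fact p.Prime]

local notation "G" => PadicAlgCl p ≃ₐ[ℚ_[p]] PadicAlgCl p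
local notation "ι" => algebraMap (BPlus p) (BField p)

/-- Fontaine's map from the Witt vectors of the perfection to the integers of `ℂ_p` is surjective
and its kernel is generated by `[p♭] - p`. -/
theorem fontaine_theta_kernel :
    Function.Surjective (fontaineTheta (OC p) p) ∧
      RingHom.ker (fontaineTheta (OC p) p) = span {xi p} :=
  ⟨surjective_theta, ker_theta⟩

/-- The period rings used below are those of Mathlib. -/
theorem bdr_defs :
    BPlus p = BDeRhamPlus (OC p) p ∧ BField p = BDeRham (OC p) p :=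
  ⟨bPlus_eq p, bField_eq⟩

/-- **`B_dR⁺` is a complete discrete valuation ring with residue field `ℂ_p`**: `θ` extends to a
surjection whose kernel is the maximal ideal, generated by `[ε] - 1`. -/
theorem bdr_plus_dvr :
    IsDiscreteValuationRing (BPlus p) ∧
      (∀ a : AInf p,
        thetaPlus p (toBPlus p (algebraMap _ _ a)) = (fontaineTheta (OC p) p a : OC p)) ∧
      Function.Surjective (thetaPlus p) ∧
      RingHom.ker (thetaPlus p) = IsLocalRing.maximalIdeal (BPlus p) ∧
      RingHom.ker (thetaPlus p) = span {piMu p} ∧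
      IsAdicComplete (RingHom.ker (thetaPlus p)) (BPlus p) := by
  have : (RingHom.ker (thetaPlus p)).IsMaximal :=
    RingHom.ker_isMaximal_of_surjective (thetaPlus p) thetaPlus_surjective
  refine ⟨inferInstance, fun a => by rw [thetaPlus_toBPlus, thetaC_algebraMap],
    thetaPlus_surjective, IsLocalRing.eq_maximalIdeal ‹_›, span_piMu.symm, ?_⟩
  rw [ker_thetaPlus]
  have h1 : IsHausdorff (span {piBDR p}) (BPlus p) := ⟨fun x hx =>
    eq_zero_of_dvd_completion _ _ bdrIdeal_eq fun n => by
      have h := hx n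
      rwa [SModEq.zero, smul_eq_mul, Ideal.mul_top, span_singleton_pow, mem_span_singleton] at h⟩
  have h2 : IsPrecomplete (span {piBDR p}) (BPlus p) := ⟨fun f hf => by
    obtain ⟨y, hy⟩ := exists_limit_bPlus f fun m n hmn => by
      have h := hf hmn
      rwa [SModEq.sub_mem, smul_eq_mul, Ideal.mul_top, span_singleton_pow, mem_span_singleton] at h
    refine ⟨y, fun n => ?_⟩
    rw [SModEq.sub_mem, smul_eq_mul, Ideal.mul_top, span_singleton_pow, mem_span_singleton]
    exact dvd_sub_comm.1 (hy n)⟩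
  exact { toIsHausdorff := h1, toIsPrecomplete := h2 }

/-- **`B_dR` is the fraction field of `B_dR⁺`**, and the Galois group acts on both compatibly
with `θ`. -/
theorem bdr_fraction_field :
    IsField (BField p) ∧ IsFractionRing (BPlus p) (BField p) ∧
      (∀ (σ : G) (x : BPlus p), σ • ι x = ι (σ • x)) ∧
      ∀ (σ : G) (x : BPlus p), thetaPlus p (σ • x) = gal σ (thetaPlus p x) :=
  ⟨isField_bField, inferInstance, smul_algebraMap_bfield,
    fun σ x => by rw [smul_bplus_def, thetaPlus_bplusGal]⟩

/-- **The graded pieces are `ℂ_p(i)`**: with `Π = [ε] - 1` every nonzero element is a unit times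
an integral power of `Π`; on the elements `Π^(m - k) b` the class modulo the next step of the
filtration is `θ b`, and `σ` acts on it by `χ(σ)^(m - k) σ`. -/
theorem bdr_graded :
    (∀ x : BField p, x ≠ 0 → ∃ (k m : ℕ) (v : (BPlus p)ˣ),
      x * ι (piMu p ^ k) = ι ((v : BPlus p) * piMu p ^ m)) ∧
    (∀ (m : ℕ) (b : BPlus p), piMu p ^ (m + 1) ∣ b * piMu p ^ m ↔ thetaPlus p b = 0) ∧
    ∀ (σ : G) (x : BField p) (k m : ℕ) (b : BPlus p),
      x * ι (piMu p ^ k) = ι (b * piMu p ^ m) →
        ∃ y : BPlus p, (σ • x) * ι (piMu p ^ k) = ι (y * piMu p ^ m) ∧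
          thetaPlus p y = twist p ((m : ℤ) - k) σ * gal σ (thetaPlus p b) :=
  ⟨fun _ hx => exists_mul_pow_eq hx, fun _ _ => piMu_pow_succ_dvd_iff,
    fun σ _ _ _ _ h => exists_smul_mul_pow σ h⟩

/-- **`(B_dR)^G = ℚ_p`**, and likewise for `B_dR⁺`. -/
theorem bdr_invariants :
    (∀ c : ℚ_[p], thetaPlus p (qpHom p c) = algebraMap ℚ_[p] ℂ_[p] c) ∧
      (∀ y : BPlus p, (∀ σ : G, σ • y = y) ↔ y ∈ Set.range (qpHom p)) ∧
      ∀ x : BField p, (∀ σ : G, σ • x = x) ↔ x ∈ Set.range fun c => ι (qpHom p c) :=
  ⟨thetaPlus_qpHom, bPlus_invariants, bField_invariants⟩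

/-- The elements fixed by an open subgroup lie in `B_dR⁺`, where `θ` is injective on them. -/
theorem bdr_invariants_open (U : Subgroup G) (hU : IsOpen (U : Set G)) :
    (∀ x : BField p, (∀ σ ∈ U, σ • x = x) →
      ∃ y : BPlus p, (∀ σ ∈ U, σ • y = y) ∧ ι y = x) ∧
    ∀ y : BPlus p, (∀ σ ∈ U, σ • y = y) → thetaPlus p y = 0 → y = 0 :=
  ⟨fun _ hx => exists_bPlus_of_fixed U hU hx,
    fun _ hy hθ => eq_zero_of_fixed_of_thetaPlus U hU hy hθ⟩

end FA.Summary
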