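import Fermat.Agent.Tau.SiegelTheorem
import Fermat.Agent.ThetaOne.OrderClassFormula

/-!
# Siegel's theorem and Gauss's class number conjecture

`h(n) = Nat.card (FA.OrderTheta.Cl n)` is the number of properly primitive reduced forms
`a x² + 2 b x y + c y²` of determinant `n` (`classNumber_reduced_forms`).

* `siegel_theorem`: `L(1, χ) ≥ C(ε) q^(-ε)` for the nontrivial real characters modulo `q`.
* `classNumber_lower_bound`: `h(n) ≥ C(ε) n^(1/2 - ε)`.
* `classNumber_upper_bound`: `h(n) ≤ √n (1 + log (4 n))` for `n > 1`.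
* `classNumber_tendsto_atTop`, `classNumber_finite`: **Gauss's conjecture**, proved by Heilbronn:
  `h(n) → ∞`, so only finitely many determinants have a given class number.
* `log_classNumber_equivalent`: `log h(n) / log n → 1/2`.

The constants `C(ε)` are INEFFECTIVE: the proofs split by excluded middle on the existence of an
L-function of a real character with a zero near `1`, so they give no way to list the determinants
of a given class number.
-/

set_option autoImplicit false

noncomputable section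

open Filter Topology
open FA.OrderTheta (Cl signChar)
open scoped Real

namespace FA.Siegel

/-- **Siegel's theorem** (ineffective): for every `ε > 0` there is `C > 0` with
`L(1, χ) ≥ C q^(-ε)` for every nontrivial real character `χ` modulo any `q`. -/
theorem siegel_theorem (ε : ℝ) (hε : 0 < ε) :
    ∃ C : ℝ, 0 < C ∧ ∀ (q : ℕ) [NeZero q] (χ : DirichletCharacter ℂ q), χ ≠ 1 → χ ^ 2 = 1 →
      C * (q : ℝ) ^ (-ε) ≤ (DirichletCharacter.LFunction χ 1).re :=
  siegel ε hε

theorem signChar_sq (n : ℕ) [NeZero n] : signChar n ^ 2 = 1 := by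
  have : NeZero (4 * n) := ⟨mul_ne_zero four_ne_zero (NeZero.ne n)⟩
  refine MulChar.ext fun u => ?_
  rw [MulChar.pow_apply_coe, MulChar.one_apply_coe, pow_two, signChar, FA.Twists.twistChar_sq]

theorem re_lFunction_signChar_one (n : ℕ) [NeZero n] [NeZero (4 * n)] (hn : 1 < n) :
    (DirichletCharacter.LFunction (signChar n) 1).re = π * Nat.card (Cl n) / (2 * √(n : ℝ)) := by
  rw [FA.OrderTheta.lFunction_one_eq hn, Complex.ofReal_re]

/-- **Siegel's lower bound for class numbers** (ineffective). -/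
theorem classNumber_lower_bound (ε : ℝ) (hε : 0 < ε) :
    ∃ C : ℝ, 0 < C ∧ ∀ (n : ℕ) [NeZero n],
      C * (n : ℝ) ^ (1 / 2 - ε) ≤ Nat.card (Cl n) := by
  obtain ⟨C, hC, h⟩ := siegel ε hε
  refine ⟨min 1 (C * 4 ^ (-ε) * (2 / π)), lt_min one_pos (by positivity), fun n _ => ?_⟩
  have hn0 : (0 : ℝ) < n := Nat.cast_pos.2 (NeZero.pos n)
  have := FA.OrderTheta.finite_cl (N := n)
  rcases eq_or_lt_of_le (NeZero.one_le (n := n)) with h1 | h1
  · have h2 : (1 : ℝ) ≤ Nat.card (Cl n) := by exact_mod_cast Nat.card_pos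
    refine le_trans ?_ h2
    simp [← h1]
  have : NeZero (4 * n) := ⟨mul_ne_zero four_ne_zero (NeZero.ne n)⟩
  have hb := h (4 * n) (signChar n) FA.OrderTheta.signChar_ne_one (signChar_sq n)
  rw [re_lFunction_signChar_one n h1, Nat.cast_mul, Nat.cast_ofNat,
    Real.mul_rpow (by norm_num) hn0.le, ← mul_assoc, le_div_iff₀ (by positivity)] at hb
  refine (mul_le_mul_of_nonneg_right (min_le_right _ _) (Real.rpow_nonneg hn0.le _)).trans ?_
  rw [sub_eq_add_neg, Real.rpow_add hn0, ← Real.sqrt_eq_rpow]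
  refine le_of_mul_le_mul_left (le_of_eq_of_le ?_ hb) Real.pi_pos
  field_simp

/-- The elementary upper bound. -/
theorem classNumber_upper_bound (n : ℕ) [NeZero n] (hn : 1 < n) :
    (Nat.card (Cl n) : ℝ) ≤ √(n : ℝ) * (1 + Real.log (4 * n)) := by
  have : NeZero (4 * n) := ⟨mul_ne_zero four_ne_zero (NeZero.ne n)⟩
  have h := (Complex.re_le_norm _).trans
    (norm_LFunction_one_le (χ := signChar n) FA.OrderTheta.signChar_ne_one)
  rw [re_lFunction_signChar_one n hn, Nat.cast_mul, Nat.cast_ofNat,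
    div_le_iff₀ (by positivity)] at h
  nlinarith [Real.pi_gt_three, (Nat.cast_nonneg _ : (0 : ℝ) ≤ Nat.card (Cl n)),
    Real.sqrt_nonneg (n : ℝ), Real.log_nonneg (show (1 : ℝ) ≤ 4 * n by norm_cast; omega),
    mul_nonneg (Real.sqrt_nonneg (n : ℝ)) (Real.log_nonneg
      (show (1 : ℝ) ≤ 4 * n by norm_cast; omega))]

/-- **Gauss's class number conjecture** (Heilbronn; ineffective): `h(n) → ∞`. -/
theorem classNumber_tendsto_atTop :
    Tendsto (fun n : ℕ => Nat.card (Cl (n + 1))) atTop atTop := by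
  obtain ⟨C, hC, h⟩ := classNumber_lower_bound (1 / 4) (by norm_num)
  refine tendsto_natCast_atTop_iff.1
    (tendsto_atTop_mono (fun n : ℕ => h (n + 1)) (Tendsto.const_mul_atTop hC ?_))
  exact ((tendsto_rpow_atTop (by norm_num)).comp tendsto_natCast_atTop_atTop).comp
    (tendsto_add_atTop_nat 1)

/-- **Gauss's conjecture**: only finitely many determinants have class number at most `B`
(ineffective). -/
theorem classNumber_finite (B : ℕ) : {n : ℕ | Nat.card (Cl (n + 1)) ≤ B}.Finite := by
  obtain ⟨N, hN⟩ := eventually_atTop.1 (classNumber_tendsto_atTop.eventually_gt_atTop B)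
  exact (Set.finite_lt_nat N).subset fun n hn => not_le.1 fun hle => (hN n hle).not_ge hn

/-- `log h(n) ~ (1/2) log n` (ineffective). -/
theorem log_classNumber_equivalent :
    Tendsto (fun n : ℕ => Real.log (Nat.card (Cl (n + 1))) / Real.log (n + 1 : ℕ)) atTop
      (𝓝 (1 / 2)) := by
  have hcast : Tendsto (fun n : ℕ => ((n + 1 : ℕ) : ℝ)) atTop atTop :=
    tendsto_natCast_atTop_atTop.comp (tendsto_add_atTop_nat 1)
  have hlog := Real.tendsto_log_atTop.comp hcast
  refine Metric.tendsto_nhds.2 fun ε hε => ?_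
  obtain ⟨C, hC, h⟩ := classNumber_lower_bound (ε / 2) (by linarith)
  set K := (1 + 2 / ε) * (4 : ℝ) ^ (ε / 2) with hK
  have hK0 : 0 < K := by positivity
  filter_upwards [hlog.eventually_gt_atTop (|Real.log C| * (2 / ε)),
    hlog.eventually_gt_atTop (|Real.log K| * (2 / ε)), eventually_ge_atTop 1] with n hn1 hn2 hn
  simp only [Function.comp_apply] at hn1 hn2
  have hm : (0 : ℝ) < (n + 1 : ℕ) := Nat.cast_pos.2 n.succ_pos
  have h4 : (1 : ℝ) ≤ 4 * (n + 1 : ℕ) := by norm_cast; omega
  have hlo := h (n + 1)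
  have hh : (0 : ℝ) < Nat.card (Cl (n + 1)) :=
    (mul_pos hC (Real.rpow_pos_of_pos hm _)).trans_le hlo
  have hup : (Nat.card (Cl (n + 1)) : ℝ) ≤ K * ((n + 1 : ℕ) : ℝ) ^ (1 / 2 + ε / 2) := by
    refine (classNumber_upper_bound (n + 1) (by omega)).trans ?_
    rw [Real.rpow_add hm, ← Real.sqrt_eq_rpow, hK, mul_left_comm _ (√_), mul_assoc (1 + _),
      ← Real.mul_rpow (by norm_num) hm.le, add_mul, one_mul]
    refine mul_le_mul_of_nonneg_left (add_le_add (Real.one_le_rpow h4 (by linarith)) ?_)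
      (Real.sqrt_nonneg _)
    refine (Real.log_le_rpow_div (by linarith) (ε := ε / 2) (by linarith)).trans (le_of_eq ?_)
    field_simp
  have h1 := Real.log_le_log (mul_pos hC (Real.rpow_pos_of_pos hm _)) hlo
  have h2 := Real.log_le_log hh hup
  rw [Real.log_mul hC.ne' (Real.rpow_pos_of_pos hm _).ne', Real.log_rpow hm] at h1
  rw [Real.log_mul hK0.ne' (Real.rpow_pos_of_pos hm _).ne', Real.log_rpow hm] at h2
  rw [mul_div_assoc', div_lt_iff₀ hε] at hn1 hn2
  have hL : 0 < Real.log ((n + 1 : ℕ) : ℝ) := by nlinarith [abs_nonneg (Real.log C)]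
  rw [Real.dist_eq, div_sub' hL.ne', abs_div, abs_of_pos hL, div_lt_iff₀ hL, abs_lt]
  exact ⟨by nlinarith [neg_abs_le (Real.log C)], by nlinarith [le_abs_self (Real.log K)]⟩

end FA.Siegel

end
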