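import Fermat.Agent.LindelofBacklund.Main
import Fermat.Agent.StarkEffective.ZetaBound

/-!
# Backlund's theorem on the hypothesis of Lindelöf

The hypothesis of Lindelöf says that `ζ (1/2 + it) = O_ε (|t| ^ ε)` for every `ε > 0`. By Backlund
(1918) it is equivalent to a statement about the zeros alone: for every `σ > 1/2` there are
`o (log T)` of them, counted with multiplicity, with `re ρ ≥ σ` and `T < im ρ ≤ T + 1`
(`FA.Summary.lindelof_iff_zeros_sparse`). So the Riemann hypothesis implies it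
(`FA.Summary.lindelof_of_riemannHypothesis`), and it gives the same bound uniformly in the half
plane `re s ≥ 1/2` (`FA.Summary.lindelof_strip`).
-/

set_option autoImplicit false

namespace FA.Summary

open Complex Filter
open scoped Topology

theorem lindelof_lineBound_iff :
    (∀ ε : ℝ, 0 < ε → FA.Backlund.LineBound (1 / 2) ε) ↔
      ∀ ε : ℝ, 0 < ε → ∃ C : ℝ, ∀ t : ℝ, 1 ≤ |t| →
        ‖riemannZeta (1 / 2 + t * I)‖ ≤ C * |t| ^ ε := by
  simp only [FA.Backlund.LineBound, Complex.ofReal_div, Complex.ofReal_one, Complex.ofReal_ofNat]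

/-- **Backlund's theorem.** Lindelöf's hypothesis holds iff there are `o (log T)` zeros with
`re ρ ≥ σ` and `T < im ρ ≤ T + 1` for every `σ > 1/2`. -/
theorem lindelof_iff_zeros_sparse :
    (∀ ε : ℝ, 0 < ε → ∃ C : ℝ, ∀ t : ℝ, 1 ≤ |t| →
      ‖riemannZeta (1 / 2 + t * I)‖ ≤ C * |t| ^ ε) ↔
    ∀ σ : ℝ, 1 / 2 < σ → Tendsto (fun T => ((FA.BohrLandau.rightCount σ (T + 1) : ℝ) -
      FA.BohrLandau.rightCount σ T) / Real.log T) atTop (𝓝 0) :=
  lindelof_lineBound_iff.symm.trans FA.Backlund.lindelof_iff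

/-- **The Riemann hypothesis implies the hypothesis of Lindelöf.** -/
theorem lindelof_of_riemannHypothesis (h : RiemannHypothesis) {ε : ℝ} (hε : 0 < ε) :
    ∃ C : ℝ, ∀ t : ℝ, 1 ≤ |t| → ‖riemannZeta (1 / 2 + t * I)‖ ≤ C * |t| ^ ε :=
  lindelof_iff_zeros_sparse.2 (FA.Backlund.zerosSparse_of_riemannHypothesis h) ε hε

/-- The hypothesis of Lindelöf gives the bound uniformly in `re s ≥ 1/2`. -/
theorem lindelof_strip
    (hLH : ∀ ε : ℝ, 0 < ε → ∃ C : ℝ, ∀ t : ℝ, 1 ≤ |t| →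
      ‖riemannZeta (1 / 2 + t * I)‖ ≤ C * |t| ^ ε) {ε : ℝ} (hε : 0 < ε) :
    ∃ C : ℝ, ∀ s : ℂ, 1 / 2 ≤ s.re → 1 ≤ |s.im| → ‖riemannZeta s‖ ≤ C * |s.im| ^ ε := by
  obtain ⟨C, hC, hb⟩ := FA.Backlund.exists_strip_le (lindelof_lineBound_iff.2 hLH) hε
  refine ⟨C + 2, fun s h1 h2 => ?_⟩
  have hpow : 1 ≤ |s.im| ^ ε := Real.one_le_rpow h2 hε.le
  rcases le_total s.re 4 with h | h
  · have := hb s.re s.im h1 h h2
    rw [re_add_im] at this
    refine this.trans ?_
    nlinarith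
  · refine ((FA.DLVP.norm_zeta_le_real (σ := s.re) (by linarith) rfl).trans
      (FA.StarkEff.norm_riemannZeta_le (by linarith))).trans ?_
    have h3 : 1 / (s.re - 1) ≤ 1 := by
      rw [div_le_one (by linarith)]
      linarith
    nlinarith

end FA.Summary
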