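import Fermat.Agent.PiltzDivisor.Main
import Fermat.Agent.Root.SummaryLindelofBacklund

/-!
# The divisor problem of Piltz

For `k ≥ 1` let `d_k = ζ ^ k` be the `k`-fold Dirichlet convolution of the constant one, so that
`d_2` is the number of divisors. Then `∑_{n ≤ x} d_k n = x P (log x) + O (x ^ θ)` with a polynomial
`P` of degree `k - 1` and leading coefficient `1 / (k - 1)!`, for some `θ < 1`
(`FA.Summary.piltz_divisor_problem`). The error is `O_ε (x ^ (1/2 + ε))` for every `k` iff the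
hypothesis of Lindelöf holds (`FA.Summary.lindelof_iff_piltz_divisor`; Hardy and Littlewood), so in
particular under the Riemann hypothesis (`FA.Summary.piltz_of_riemannHypothesis`).
-/

set_option autoImplicit false

namespace FA.Summary

open Polynomial
open scoped ArithmeticFunction.zeta Nat

/-- **The divisor problem of Piltz**, with a power saving. -/
theorem piltz_divisor_problem {k : ℕ} (hk : 1 ≤ k) :
    ∃ P : ℝ[X], P.natDegree = k - 1 ∧ P.leadingCoeff = 1 / (k - 1)! ∧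
      ∃ C : ℝ, ∀ x : ℝ, 2 ≤ x →
        |(∑ n ∈ Finset.Icc 1 ⌊x⌋₊, (((ζ ^ k : ArithmeticFunction ℕ) n : ℕ) : ℝ)) -
          x * P.eval (Real.log x)| ≤ C * x ^ (1 - 1 / (32 * (k : ℝ))) := by
  obtain ⟨P, hd, hl, hP, -⟩ := FA.PiltzDivisor.exists_piltz_main hk
  exact ⟨P, hd, hl, hP⟩

/-- `d_2 n` is the number of divisors of `n`. -/
theorem zeta_sq_apply_eq_card_divisors (n : ℕ) :
    (((ζ ^ 2 : ArithmeticFunction ℕ) n : ℕ) : ℝ) = n.divisors.card :=
  FA.PiltzDivisor.piltz_two n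

/-- **Hardy and Littlewood**: Lindelöf's hypothesis is the exponent `1/2 + ε` for every `k`. -/
theorem lindelof_iff_piltz_divisor :
    (∀ ε : ℝ, 0 < ε → ∃ C : ℝ, ∀ t : ℝ, 1 ≤ |t| →
      ‖riemannZeta (1 / 2 + t * Complex.I)‖ ≤ C * |t| ^ ε) ↔
    ∀ k : ℕ, 1 ≤ k → ∃ P : ℝ[X], ∀ ε : ℝ, 0 < ε → ∃ C : ℝ, ∀ x : ℝ, 2 ≤ x →
      |(∑ n ∈ Finset.Icc 1 ⌊x⌋₊, (((ζ ^ k : ArithmeticFunction ℕ) n : ℕ) : ℝ)) -
        x * P.eval (Real.log x)| ≤ C * x ^ (1 / 2 + ε) :=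
  lindelof_lineBound_iff.symm.trans FA.PiltzDivisor.lindelof_iff_piltz

/-- The exponent `1/2 + ε` under the Riemann hypothesis, with the degree of the main term. -/
theorem piltz_of_riemannHypothesis (h : RiemannHypothesis) {k : ℕ} (hk : 1 ≤ k) :
    ∃ P : ℝ[X], P.natDegree = k - 1 ∧ P.leadingCoeff = 1 / (k - 1)! ∧
      ∀ ε : ℝ, 0 < ε → ∃ C : ℝ, ∀ x : ℝ, 2 ≤ x →
        |(∑ n ∈ Finset.Icc 1 ⌊x⌋₊, (((ζ ^ k : ArithmeticFunction ℕ) n : ℕ) : ℝ)) -
          x * P.eval (Real.log x)| ≤ C * x ^ (1 / 2 + ε) := by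
  obtain ⟨P, hd, hl, -, hP⟩ := FA.PiltzDivisor.exists_piltz_main hk
  exact ⟨P, hd, hl, hP (lindelof_lineBound_iff.2 fun ε hε => lindelof_of_riemannHypothesis h hε)⟩

end FA.Summary
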