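import Fermat.Agent.AdditiveDistribution.Main
import Mathlib.NumberTheory.FactorisationProperties
import Mathlib.NumberTheory.SumPrimeReciprocals

/-!
# Davenport's theorem on abundant numbers

The density of `{n : x ≤ σ n / n}` exists and is continuous in `x` (Davenport 1933), as is that
of `{n : x ≤ n / φ n}` (Schoenberg 1928); the abundant numbers have a density strictly between
`0` and `1` and the perfect numbers density zero.
-/

set_option autoImplicit false

noncomputable section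

open Filter Finset
open scoped Topology Classical

namespace FA.AdditiveDistribution.Summary

/-- **Erdős's theorem on additive functions.** -/
theorem erdos_distribution {f : ℕ → ℝ}
    (hadd : ∀ m n, m ≠ 0 → n ≠ 0 → Nat.Coprime m n → f (m * n) = f m + f n) (h0 : ∀ n, 0 ≤ f n)
    (hs : Summable fun p : ℕ => if p.Prime then min 1 (f p) / p else 0)
    (hdiv : ¬ Summable fun p : ℕ => if p.Prime ∧ f p ≠ 0 then (p : ℝ)⁻¹ else 0) :
    ∃ D : ℝ → ℝ, Continuous D ∧ Antitone D ∧ ∀ x : ℝ,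
      Tendsto (fun N : ℕ => (#((Icc 1 N).filter fun n => x ≤ f n) : ℝ) / N) atTop (𝓝 (D x)) :=
  exists_distribution hadd h0 hs hdiv

/-- A multiplicative `g ≥ 1` with `g p - 1` in `(0, C / p]` has a continuous distribution. -/
theorem multiplicative_distribution {g : ℕ → ℝ}
    (hmul : ∀ m n, m ≠ 0 → n ≠ 0 → Nat.Coprime m n → g (m * n) = g m * g n)
    (h1 : ∀ n, n ≠ 0 → 1 ≤ g n) {C : ℝ}
    (hp : ∀ p : ℕ, p.Prime → 1 < g p ∧ g p ≤ 1 + C / p) :
    ∃ D : ℝ → ℝ, Continuous D ∧ Antitone D ∧ ∀ x : ℝ,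
      Tendsto (fun N : ℕ => (#((Icc 1 N).filter fun n => x ≤ g n) : ℝ) / N) atTop (𝓝 (D x)) := by
  obtain ⟨f, hf⟩ : ∃ f : ℕ → ℝ, f = fun n => if n = 0 then 0 else Real.log (g n) := ⟨_, rfl⟩
  have hfn : ∀ n, n ≠ 0 → f n = Real.log (g n) := fun n hn => by rw [hf]; simp only [if_neg hn]
  have hf0 : ∀ n, 0 ≤ f n := fun n => by
    rcases eq_or_ne n 0 with rfl | hn
    · simp [hf]
    · rw [hfn n hn]
      exact Real.log_nonneg (h1 n hn)
  have hadd : ∀ m n, m ≠ 0 → n ≠ 0 → Nat.Coprime m n → f (m * n) = f m + f n :=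
    fun m n hm hn hc => by
      rw [hfn _ (mul_ne_zero hm hn), hfn m hm, hfn n hn, hmul m n hm hn hc,
        Real.log_mul (ne_of_gt (zero_lt_one.trans_le (h1 m hm)))
          (ne_of_gt (zero_lt_one.trans_le (h1 n hn)))]
  have hs : Summable (primeTerm f) := by
    refine Summable.of_nonneg_of_le (primeTerm_nonneg hf0) (fun n => ?_)
      ((Real.summable_one_div_nat_pow.2 one_lt_two).mul_left |C|)
    unfold primeTerm
    split_ifs with h
    · have hn : (0 : ℝ) < n := Nat.cast_pos.2 h.pos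
      rw [mul_one_div, sq, ← div_div]
      refine div_le_div_of_nonneg_right ((min_le_right _ _).trans ?_) hn.le
      rw [hfn n h.ne_zero]
      refine (Real.log_le_sub_one_of_pos (zero_lt_one.trans (hp n h).1)).trans ?_
      have := div_le_div_of_nonneg_right (le_abs_self C) hn.le
      linarith [(hp n h).2]
    · positivity
  have hdiv : ¬ Summable (supportTerm f) := by
    intro h
    refine not_summable_one_div_on_primes (h.congr fun n => ?_)
    unfold supportTerm
    rw [Set.indicator_apply]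
    by_cases hn : n.Prime
    · have hne : f n ≠ 0 := by
        rw [hfn n hn.ne_zero]
        exact (Real.log_pos (hp n hn).1).ne'
      rw [if_pos ⟨hn, hne⟩, if_pos (show n ∈ {p | Nat.Prime p} from hn), one_div]
    · rw [if_neg fun h' => hn h'.1, if_neg (show n ∉ {p | Nat.Prime p} from hn)]
  obtain ⟨D, hD, hanti, hlim⟩ := exists_distribution hadd hf0 hs hdiv
  refine ⟨fun x => D (Real.log (max x 1)), hD.comp (Continuous.log
    (continuous_id.max continuous_const) fun x =>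
      ne_of_gt (zero_lt_one.trans_le (le_max_right x 1))),
    fun x y hxy => hanti (Real.log_le_log (zero_lt_one.trans_le (le_max_right x 1))
      (max_le_max hxy le_rfl)), fun x => ?_⟩
  refine (hlim (Real.log (max x 1))).congr fun N => ?_
  unfold prop'
  congr 3
  refine filter_congr fun n hn => ?_
  have hn0 : n ≠ 0 := by
    have := (mem_Icc.1 hn).1
    omega
  rw [hfn n hn0, Real.log_le_log_iff (zero_lt_one.trans_le (le_max_right x 1))
    (zero_lt_one.trans_le (h1 n hn0)), max_le_iff]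
  exact and_iff_left (h1 n hn0)

/-- **Davenport's theorem.** -/
theorem davenport :
    ∃ D : ℝ → ℝ, Continuous D ∧ Antitone D ∧ ∀ x : ℝ,
      Tendsto (fun N : ℕ => (#((Icc 1 N).filter fun n : ℕ =>
        x ≤ (∑ d ∈ n.divisors, (d : ℝ)) / n) : ℝ) / N) atTop (𝓝 (D x)) := by
  refine multiplicative_distribution (g := fun n : ℕ => (∑ d ∈ n.divisors, (d : ℝ)) / n) (C := 1)
    (fun m n _ _ hc => ?_) (fun n hn => ?_) fun p hp => ?_
  · rw [div_mul_div_comm, ← Nat.cast_sum, ← Nat.cast_sum, ← Nat.cast_sum,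
      hc.sum_divisors_mul]
    push_cast
    rfl
  · rw [one_le_div (Nat.cast_pos.2 (Nat.pos_of_ne_zero hn))]
    exact single_le_sum (f := fun d : ℕ => (d : ℝ)) (fun d _ => Nat.cast_nonneg d)
      (Nat.mem_divisors.2 ⟨dvd_rfl, hn⟩)
  · have e : (∑ d ∈ p.divisors, (d : ℝ)) = 1 + p := by
      rw [hp.sum_divisors, Nat.cast_one, add_comm]
    have hp0 : (0 : ℝ) < p := Nat.cast_pos.2 hp.pos
    rw [e]
    constructor
    · rw [lt_div_iff₀ hp0]
      linarith
    · rw [add_div, div_self hp0.ne']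
      linarith

/-- **Schoenberg's theorem.** -/
theorem schoenberg :
    ∃ D : ℝ → ℝ, Continuous D ∧ Antitone D ∧ ∀ x : ℝ,
      Tendsto (fun N : ℕ => (#((Icc 1 N).filter fun n : ℕ =>
        x ≤ (n : ℝ) / n.totient) : ℝ) / N) atTop (𝓝 (D x)) := by
  refine multiplicative_distribution (g := fun n : ℕ => (n : ℝ) / n.totient) (C := 2)
    (fun m n _ _ hc => ?_) (fun n hn => ?_) fun p hp => ?_
  · rw [Nat.totient_mul hc, div_mul_div_comm]
    push_cast
    rfl
  · rw [one_le_div (Nat.cast_pos.2 (Nat.totient_pos.2 (Nat.pos_of_ne_zero hn)))]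
    exact Nat.cast_le.2 n.totient_le
  · have h2 : (2 : ℝ) ≤ p := by exact_mod_cast hp.two_le
    simp only [Nat.totient_prime hp, Nat.cast_sub hp.one_le, Nat.cast_one]
    constructor
    · rw [lt_div_iff₀ (by linarith)]
      linarith
    · rw [one_add_div (by linarith), div_le_div_iff₀ (by linarith) (by linarith)]
      nlinarith

/-- The numbers with `σ n ≥ 2 n` are at most `7 / 8` of all. -/
theorem card_two_le_sigma_le (N : ℕ) :
    (#((Icc 1 N).filter fun n : ℕ => (2 : ℝ) ≤ (∑ d ∈ n.divisors, (d : ℝ)) / n) : ℝ) ≤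
      7 / 8 * N := by
  have hkey : ∀ n ∈ Icc 1 N, (∑ d ∈ n.divisors, (d : ℝ)) / n =
      ∑ d ∈ (Icc 1 N).filter (· ∣ n), (d : ℝ)⁻¹ := by
    intro n hn
    rw [mem_Icc] at hn
    have e : n.divisors = (Icc 1 N).filter (· ∣ n) := by
      ext d
      simp only [Nat.mem_divisors, mem_filter, mem_Icc]
      exact ⟨fun h => ⟨⟨Nat.pos_of_dvd_of_pos h.1 hn.1, (Nat.le_of_dvd hn.1 h.1).trans hn.2⟩, h.1⟩,
        fun h => ⟨h.2, by omega⟩⟩
    rw [← e, ← Nat.sum_div_divisors n (fun d => (d : ℝ)), sum_div]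
    refine sum_congr rfl fun d hd => ?_
    have hd0 : (d : ℝ) ≠ 0 := Nat.cast_ne_zero.2 (Nat.pos_of_mem_divisors hd).ne'
    have hn0 : (n : ℝ) ≠ 0 := Nat.cast_ne_zero.2 (by omega)
    rw [Nat.cast_div (Nat.dvd_of_mem_divisors hd) hd0]
    field_simp
  have hsum : ∑ n ∈ Icc 1 N, (∑ d ∈ n.divisors, (d : ℝ)) / n ≤ 7 / 4 * N := by
    calc ∑ n ∈ Icc 1 N, (∑ d ∈ n.divisors, (d : ℝ)) / n
        = ∑ d ∈ Icc 1 N, ((N / d : ℕ) : ℝ) * (d : ℝ)⁻¹ := by
          rw [sum_congr rfl hkey]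
          simp only [sum_filter]
          rw [sum_comm]
          refine sum_congr rfl fun d _ => ?_
          rw [← sum_filter, sum_const, nsmul_eq_mul, ← Nat.Ioc_filter_dvd_card_eq_div N d]
          congr 2
      _ ≤ ∑ d ∈ Icc 1 N, (N : ℝ) * ((d : ℝ) ^ 2)⁻¹ := by
          refine sum_le_sum fun d _ => ?_
          rw [sq, mul_inv, ← mul_assoc, ← div_eq_mul_inv (N : ℝ)]
          exact mul_le_mul_of_nonneg_right Nat.cast_div_le (by positivity)
      _ ≤ _ := by
          rw [← mul_sum, mul_comm (7 / 4 : ℝ)]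
          refine mul_le_mul_of_nonneg_left ?_ (Nat.cast_nonneg N)
          refine le_trans (sum_le_sum_of_subset_of_nonneg
            (t := insert 1 (insert 2 (Ioc 2 N))) (fun d hd => ?_) fun d _ _ => by positivity) ?_
          · rw [mem_Icc] at hd
            simp only [mem_insert, mem_Ioc]
            omega
          · rw [sum_insert (by simp), sum_insert (by simp)]
            have := sum_inv_sq_Ioc_le one_le_two N
            norm_num at this ⊢
            linarith
  have h2 : (#((Icc 1 N).filter fun n : ℕ =>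
      (2 : ℝ) ≤ (∑ d ∈ n.divisors, (d : ℝ)) / n) : ℝ) * 2 ≤ 7 / 4 * N := by
    rw [← nsmul_eq_mul, ← sum_const]
    exact (sum_le_sum fun n hn => (mem_filter.1 hn).2).trans
      ((sum_le_sum_of_subset_of_nonneg (filter_subset _ _) fun n _ _ => by positivity).trans hsum)
  linarith

/-- **The abundant numbers have a density**, strictly between `0` and `1`, and the perfect numbers
density zero. -/
theorem abundant_density :
    ∃ A : ℝ, 0 < A ∧ A < 1 ∧
      Tendsto (fun N : ℕ => (#((Icc 1 N).filter fun n : ℕ => n.Abundant) : ℝ) / N) atTop (𝓝 A) ∧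
      Tendsto (fun N : ℕ => (#((Icc 1 N).filter fun n : ℕ => n.Perfect) : ℝ) / N) atTop (𝓝 0) := by
  obtain ⟨D, hD, -, hlim⟩ := davenport
  obtain ⟨u, hu⟩ : ∃ u : ℝ → ℕ → ℝ, u = fun x N => (#((Icc 1 N).filter fun n : ℕ =>
      x ≤ (∑ d ∈ n.divisors, (d : ℝ)) / n) : ℝ) / N := ⟨_, rfl⟩
  have hlim' : ∀ x, Tendsto (u x) atTop (𝓝 (D x)) := hu ▸ hlim
  obtain ⟨a, ha⟩ : ∃ a : ℕ → ℝ, a = fun N =>
      (#((Icc 1 N).filter fun n : ℕ => n.Abundant) : ℝ) / N := ⟨_, rfl⟩
  obtain ⟨b, hb⟩ : ∃ b : ℕ → ℝ, b = fun N =>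
      (#((Icc 1 N).filter fun n : ℕ => n.Perfect) : ℝ) / N := ⟨_, rfl⟩
  have hiff : ∀ n : ℕ, 1 ≤ n →
      (n.Abundant ↔ (2 : ℝ) < (∑ d ∈ n.divisors, (d : ℝ)) / n) ∧
      (n.Perfect ↔ (∑ d ∈ n.divisors, (d : ℝ)) / n = 2) := by
    intro n hn
    have hn0 : (0 : ℝ) < n := Nat.cast_pos.2 hn
    have hs : (∑ d ∈ n.divisors, d) = (∑ d ∈ n.properDivisors, d) + n :=
      Nat.sum_divisors_eq_sum_properDivisors_add_self
    have hs' : (∑ d ∈ n.divisors, (d : ℝ)) = ((∑ d ∈ n.properDivisors, d : ℕ) : ℝ) + n := by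
      rw [← Nat.cast_sum, hs, Nat.cast_add]
    rw [hs']
    refine ⟨?_, ?_⟩
    · rw [lt_div_iff₀ hn0]
      unfold Nat.Abundant
      rw [show (2 : ℝ) * n = n + n by ring, add_lt_add_iff_right, Nat.cast_lt]
    · rw [div_eq_iff hn0.ne', show (2 : ℝ) * n = n + n by ring, add_left_inj, Nat.cast_inj]
      exact ⟨fun h => h.1, fun h => ⟨h, hn⟩⟩
  have hstrict : ∀ h : ℝ, 0 < h → ∀ N, u (2 + h) N ≤ a N ∧ a N + b N ≤ u 2 N := by
    intro h hh N
    simp only [hu, ha, hb, ← add_div]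
    refine ⟨div_le_div_of_nonneg_right (Nat.cast_le.2 (card_le_card fun n hn => ?_))
      (Nat.cast_nonneg N), div_le_div_of_nonneg_right ?_ (Nat.cast_nonneg N)⟩
    · rw [mem_filter] at hn ⊢
      exact ⟨hn.1, (hiff n (mem_Icc.1 hn.1).1).1.2 (by linarith [hn.2])⟩
    · rw [← Nat.cast_add, Nat.cast_le, ← card_union_of_disjoint]
      · refine card_le_card fun n hn => ?_
        rw [mem_union, mem_filter, mem_filter] at hn
        rw [mem_filter]
        rcases hn with hn | hn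
        · exact ⟨hn.1, ((hiff n (mem_Icc.1 hn.1).1).1.1 hn.2).le⟩
        · exact ⟨hn.1, ((hiff n (mem_Icc.1 hn.1).1).2.1 hn.2).ge⟩
      · refine disjoint_left.2 fun n h1 h2 => ?_
        rw [mem_filter] at h1 h2
        obtain ⟨h3, h4⟩ := hiff n (mem_Icc.1 h1.1).1
        exact absurd (h4.1 h2.2) (ne_of_gt (h3.1 h1.2))
  have hb0 : ∀ N, 0 ≤ b N := fun N => hb ▸ div_nonneg (Nat.cast_nonneg _) (Nat.cast_nonneg _)
  have hA : Tendsto a atTop (𝓝 (D 2)) := by
    refine Metric.tendsto_atTop.2 fun e he => ?_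
    obtain ⟨r, hr, hr'⟩ := Metric.continuous_iff.1 hD 2 (e / 2) (half_pos he)
    have h1 := hr' (2 + r / 2) (by rw [Real.dist_eq, add_sub_cancel_left, abs_of_pos (half_pos hr)]
                                   linarith)
    obtain ⟨N₁, hN₁⟩ := Metric.tendsto_atTop.1 (hlim' (2 + r / 2)) (e / 2) (half_pos he)
    obtain ⟨N₂, hN₂⟩ := Metric.tendsto_atTop.1 (hlim' 2) e he
    refine ⟨max N₁ N₂, fun N hN => ?_⟩
    have e1 := hN₁ N (le_of_max_le_left hN)
    have e2 := hN₂ N (le_of_max_le_right hN)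
    obtain ⟨s1, s2⟩ := hstrict (r / 2) (half_pos hr) N
    rw [Real.dist_eq, abs_lt] at h1 e1 e2 ⊢
    constructor <;> linarith [hb0 N]
  have hB : Tendsto b atTop (𝓝 0) := by
    refine squeeze_zero hb0 (fun N => ?_) (show Tendsto (fun N => u 2 N - a N) atTop (𝓝 0) by
      simpa using (hlim' 2).sub hA)
    linarith [(hstrict 1 one_pos N).2]
  refine ⟨D 2, ?_, ?_, ha ▸ hA, hb ▸ hB⟩
  · have h12 := tendsto_prop_gcd (show (12 : ℕ) ≠ 0 by norm_num) (fun d => 12 ∣ d)
    rw [divWeight_dvd (by norm_num) dvd_rfl] at h12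
    refine lt_of_lt_of_le (show (0 : ℝ) < 1 / ((12 : ℕ) : ℝ) by norm_num)
      (le_of_tendsto_of_tendsto' h12 (hlim' 2) fun N => ?_)
    simp only [hu]
    refine div_le_div_of_nonneg_right (Nat.cast_le.2 (card_le_card fun n hn => ?_))
      (Nat.cast_nonneg N)
    simp only [mem_filter] at hn ⊢
    refine ⟨hn.1, ?_⟩
    obtain ⟨q, rfl⟩ := hn.2.trans (Nat.gcd_dvd_left n 12)
    have hq : q ≠ 0 := fun h => by simp [h] at hn
    rw [le_div_iff₀ (by positivity)]
    refine le_trans ?_ (sum_le_sum_of_subset_of_nonneg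
      (s := ({12 * q, 6 * q, 4 * q, 3 * q} : Finset ℕ)) (fun d hd => ?_)
      fun d _ _ => Nat.cast_nonneg d)
    · rw [sum_insert (by simp; omega), sum_insert (by simp; omega), sum_insert (by simp; omega),
        sum_singleton]
      push_cast
      linarith [(Nat.cast_nonneg q : (0 : ℝ) ≤ q)]
    · simp only [mem_insert, mem_singleton] at hd
      refine Nat.mem_divisors.2 ⟨?_, by positivity⟩
      rcases hd with rfl | rfl | rfl | rfl
      · exact dvd_rfl
      · exact ⟨2, by ring⟩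
      · exact ⟨3, by ring⟩
      · exact ⟨4, by ring⟩
  · refine lt_of_le_of_lt (le_of_tendsto (hlim' 2) ?_) (show (7 / 8 : ℝ) < 1 by norm_num)
    filter_upwards [eventually_gt_atTop 0] with N hN
    simp only [hu]
    rw [div_le_iff₀ (Nat.cast_pos.2 hN)]
    exact card_two_le_sigma_le N

end FA.AdditiveDistribution.Summary
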