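import Fermat.Agent.Tau.AlmostAll
import Mathlib.RingTheory.ZMod.UnitsCyclic

/-!
# Euler's function and the divisor sums are almost always divisible by a given integer

For `m ≥ 1` and odd `k` the `n` with `m ∤ φ(n)`, resp. `m ∤ σ_k(n)`, have natural density zero, and
so do the `n` with a primitive root.
-/

set_option autoImplicit false
set_option linter.style.haveILetI false

noncomputable section

open Filter Topology
open scoped ArithmeticFunction.sigma

namespace FA.Summary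

/-- **`m ∣ φ(n)` for almost every `n`.** -/
theorem totient_dvd_almostAll {m : ℕ} (hm : 0 < m) :
    Tendsto (fun N : ℕ => (Nat.card {n : ℕ // n < N ∧ ¬ m ∣ n.totient} : ℝ) / N) atTop (𝓝 0) := by
  haveI : NeZero (2 * m) := ⟨by omega⟩
  haveI : Fact (1 < 2 * m) := ⟨by omega⟩
  refine FA.Tau.tendsto_zero_of_avoid (fun p hp => hp.1)
    (FA.Tau.not_summable_residueClass (2 * m) 1) fun p hp n hd hd2 => not_not.mpr ?_
  obtain ⟨r, rfl⟩ := hd
  rw [Nat.totient_mul (hp.1.coprime_iff_not_dvd.mpr fun h' =>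
    hd2 (by rw [pow_two]; exact mul_dvd_mul_left p h')), Nat.totient_prime hp.1]
  refine Dvd.dvd.mul_right ((dvd_mul_left m 2).trans ?_) _
  rw [← ZMod.natCast_eq_zero_iff, Nat.cast_sub hp.1.one_le, hp.2]
  simp

/-- **`m ∣ σ_k(n)` for almost every `n`**, `k` odd. -/
theorem sigma_dvd_almostAll {m k : ℕ} (hm : 0 < m) (hk : Odd k) :
    Tendsto (fun N : ℕ => (Nat.card {n : ℕ // n < N ∧ ¬ m ∣ σ k n} : ℝ) / N) atTop (𝓝 0) := by
  haveI : NeZero (2 * m) := ⟨by omega⟩
  haveI : Fact (1 < 2 * m) := ⟨by omega⟩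
  refine FA.Tau.tendsto_zero_of_avoid (fun p hp => hp.1)
    (FA.Tau.not_summable_residueClass (2 * m) (-1)) fun p hp n hd hd2 => not_not.mpr ?_
  obtain ⟨r, rfl⟩ := hd
  rw [ArithmeticFunction.isMultiplicative_sigma.map_mul_of_coprime
    (hp.1.coprime_iff_not_dvd.mpr fun h' => hd2 (by rw [pow_two]; exact mul_dvd_mul_left p h')),
    ArithmeticFunction.sigma_apply, hp.1.divisors, Finset.sum_pair hp.1.ne_one.symm]
  refine Dvd.dvd.mul_right ((dvd_mul_left m 2).trans ?_) _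
  rw [← ZMod.natCast_eq_zero_iff, Nat.cast_add, Nat.cast_pow, Nat.cast_pow, hp.2]
  simp [hk.neg_one_pow]

/-- **The moduli with a primitive root have natural density zero.** -/
theorem primitiveRoot_moduli_density_zero :
    Tendsto (fun N : ℕ => (Nat.card {n : ℕ // n < N ∧ IsCyclic (ZMod n)ˣ} : ℝ) / N)
      atTop (𝓝 0) := by
  haveI : Fact (1 < 4) := ⟨by norm_num⟩
  let B : ℕ → (ZMod 4)ˣ → Prop := fun n u =>
    ∀ p : ℕ, p.Prime → (p : ZMod 4) = u → p ∣ n → p ^ 2 ∣ n
  have hB : ∀ u : (ZMod 4)ˣ, Tendsto (fun N : ℕ => (Nat.card {n : ℕ // n < N ∧ B n u} : ℝ) / N)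
      atTop (𝓝 0) := fun u =>
    FA.Tau.tendsto_zero_of_avoid (fun p hp => hp.1) (FA.Tau.not_summable_residueClass 4 u)
      fun p hp n hd hd2 h => hd2 (h p hp.1 hp.2 hd)
  refine FA.Tau.tendsto_zero_or (hB 1) (hB (-1)) fun n hn => ?_
  by_contra hc
  simp only [B, not_or, not_forall] at hc
  obtain ⟨⟨p, hp, hp4, hpn, hp2⟩, ⟨q, hq, hq4, hqn, -⟩⟩ := hc
  have hne : p ≠ q := fun e => by
    subst e
    exact absurd (hp4.symm.trans hq4) (by decide)
  have hp' : p ≠ 2 := fun e => by subst e; exact absurd hp4 (by decide)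
  have hq' : q ≠ 2 := fun e => by subst e; exact absurd hq4 (by decide)
  rcases (ZMod.isCyclic_units_iff n).mp hn with rfl | rfl | rfl | rfl | ⟨r, e, hr, -, -, h⟩
  · exact hp2 (dvd_zero _)
  · exact hp.ne_one (Nat.dvd_one.mp hpn)
  · exact hp' ((Nat.prime_dvd_prime_iff_eq hp Nat.prime_two).mp hpn)
  · exact hp' ((Nat.prime_dvd_prime_iff_eq hp Nat.prime_two).mp
      (hp.dvd_of_dvd_pow (show p ∣ 2 ^ 2 from hpn)))
  · have key : ∀ s : ℕ, s.Prime → s ≠ 2 → s ∣ n → s = r := fun s hs hs2 hsn => by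
      rcases h with rfl | rfl
      · exact (Nat.prime_dvd_prime_iff_eq hs hr).mp (hs.dvd_of_dvd_pow hsn)
      · rcases hs.dvd_mul.mp hsn with h2 | h2
        · exact absurd ((Nat.prime_dvd_prime_iff_eq hs Nat.prime_two).mp h2) hs2
        · exact (Nat.prime_dvd_prime_iff_eq hs hr).mp (hs.dvd_of_dvd_pow h2)
    exact hne ((key p hp hp' hpn).trans (key q hq hq' hqn).symm)

end FA.Summary

end
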