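import Fermat.Agent.ThetaOne.Ambiguous

/-!
# Gauss's count of ambiguous classes

* `genus_theorem`: for `n > 1` with `r` odd prime divisors `2 ^ (μ - 1)` classes of `ℤ[√-n]` are
  their own inverses, `μ = r` for `n ≡ 3 (mod 4)`, `r + 2` for `n ≡ 0 (mod 8)`, else `r + 1`.
* `two_pow_dvd_classNumber`, `classNumber_odd_iff`, `idoneal_iff_classNumber`: `2 ^ (μ - 1)` divides
  `h(n)`, which is odd iff `μ = 1`, and all classes are ambiguous (`n` is idoneal, `idoneal_tfae`)
  iff `h(n) = 2 ^ (μ - 1)`, one class in each genus.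
-/

set_option autoImplicit false

noncomputable section

namespace FA.OrderTheta

/-- The number `μ` of assigned characters. -/
def genusMu (n : ℕ) : ℕ :=
  if n % 4 = 3 then (n.primeFactors.erase 2).card
  else if n % 8 = 0 then (n.primeFactors.erase 2).card + 2 else (n.primeFactors.erase 2).card + 1

theorem one_le_genusMu {n : ℕ} (hn : 1 < n) : 1 ≤ genusMu n := by
  unfold genusMu
  split_ifs with h3 h8 <;> try omega
  have hp := Nat.minFac_prime (show n ≠ 1 by omega)
  have hd := Nat.minFac_dvd n
  refine Finset.card_pos.mpr ⟨n.minFac, Finset.mem_erase.mpr ⟨fun e => ?_, ?_⟩⟩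
  · rw [e] at hd; omega
  · exact Nat.mem_primeFactors.mpr ⟨hp, hd, by omega⟩

theorem card_primeFactors_split {n : ℕ} (hn : n ≠ 0) :
    n.primeFactors.card = (n.primeFactors.erase 2).card + if n % 2 = 0 then 1 else 0 := by
  split_ifs with h
  · rw [Finset.card_erase_add_one (Nat.mem_primeFactors.mpr
      ⟨Nat.prime_two, Nat.dvd_of_mod_eq_zero h, hn⟩)]
  · rw [Finset.erase_eq_of_notMem fun hm => h (Nat.mod_eq_zero_of_dvd
      (Nat.dvd_of_mem_primeFactors hm) ), add_zero]

theorem splits_total {n : ℕ} (hn : 1 < n) :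
    (coprimeSplit n).card + (evenSplit n).card = 2 ^ (genusMu n - 1) := by
  have hA := two_mul_card_coprimeSplit hn
  have hr := card_primeFactors_split (show n ≠ 0 by omega)
  have key : 2 * ((coprimeSplit n).card + (evenSplit n).card) = 2 ^ genusMu n := by
    unfold genusMu
    rcases (show n % 4 = 3 ∨ n % 4 = 1 ∨ n % 4 = 2 ∨ n % 8 = 4 ∨ n % 8 = 0 by omega) with
      h | h | h | h | h
    · rw [evenSplit_eq_empty (Or.inl h), Finset.card_empty, add_zero, hA, if_pos h, hr,
        if_neg (by omega), add_zero]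
    · rw [evenSplit_eq_coprimeSplit h, mul_add, hA, if_neg (by omega), if_neg (by omega), hr,
        if_neg (by omega), add_zero, pow_succ, mul_two]
    · rw [evenSplit_eq_empty (Or.inr (Or.inl h)), Finset.card_empty, add_zero, hA,
        if_neg (by omega), if_neg (by omega), hr, if_pos (by omega)]
    · rw [evenSplit_eq_empty (Or.inr (Or.inr h)), Finset.card_empty, add_zero, hA,
        if_neg (by omega), if_neg (by omega), hr, if_pos (by omega)]
    · have hq : (n / 4).primeFactors = n.primeFactors := by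
        ext p
        simp only [Nat.mem_primeFactors]
        refine ⟨fun ⟨h1, h2, _⟩ => ⟨h1, h2.trans (Nat.div_dvd_of_dvd (by omega)), by omega⟩,
          fun ⟨h1, h2, _⟩ => ⟨h1, ?_, by omega⟩⟩
        rw [show n = 2 ^ 2 * (n / 4) by omega] at h2
        rcases h1.dvd_mul.mp h2 with h' | h'
        · rw [(Nat.prime_dvd_prime_iff_eq h1 Nat.prime_two).mp (h1.dvd_of_dvd_pow h')]
          omega
        · exact h'
      have hB := two_mul_card_coprimeSplit (show 1 < n / 4 by omega)
      rw [hq] at hB
      rw [card_evenSplit_eight (by omega) h, mul_add, hA, hB, if_neg (by omega), if_pos h, hr,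
        if_pos (by omega), pow_succ, pow_succ, pow_succ]
      ring
  obtain ⟨k, hk⟩ : ∃ k, genusMu n = k + 1 := ⟨genusMu n - 1, by have := one_le_genusMu hn; omega⟩
  rw [hk, pow_succ] at key
  rw [hk, Nat.add_sub_cancel]
  omega

end FA.OrderTheta

namespace FA.Summary

open FA.OrderTheta

variable (n : ℕ) [NeZero n]

/-- **Gauss's genus theorem, the count of ambiguous classes.** -/
theorem genus_theorem (hn : 1 < n) :
    Nat.card {c : Cl n // c * c = 1} = 2 ^
      ((if n % 4 = 3 then (n.primeFactors.erase 2).card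
        else if n % 8 = 0 then (n.primeFactors.erase 2).card + 2
        else (n.primeFactors.erase 2).card + 1) - 1) :=
  (card_sq_eq_one hn).trans (splits_total hn)

/-- `2 ^ (μ - 1)` divides the class number. -/
theorem two_pow_dvd_classNumber (hn : 1 < n) : 2 ^ (genusMu n - 1) ∣ Nat.card (Cl n) := by
  have e : Nat.card {c : Cl n // c * c = 1} = Nat.card (powMonoidHom (α := Cl n) 2).ker :=
    Nat.card_congr (Equiv.subtypeEquivRight fun c => by
      rw [MonoidHom.mem_ker, powMonoidHom_apply, pow_two])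
  rw [← splits_total hn, ← card_sq_eq_one hn, e]
  exact Subgroup.card_subgroup_dvd_card _

/-- The class number is odd iff `μ = 1`. -/
theorem classNumber_odd_iff (hn : 1 < n) : Odd (Nat.card (Cl n)) ↔ genusMu n = 1 := by
  have := finite_cl (N := n)
  have h1 := one_le_genusMu hn
  refine ⟨fun h => ?_, fun h => ?_⟩
  · have hd := two_pow_dvd_classNumber n hn
    by_contra hne
    have h2 : 2 ∣ Nat.card (Cl n) := (dvd_pow_self 2 (by omega)).trans hd
    rw [Nat.odd_iff] at h
    omega
  · rw [Nat.odd_iff]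
    by_contra hne
    have : Fact (Nat.Prime 2) := ⟨Nat.prime_two⟩
    obtain ⟨x, hx⟩ := exists_prime_orderOf_dvd_card' (G := Cl n) 2 (by omega)
    have hc := (card_sq_eq_one (n := n) hn).trans (splits_total hn)
    rw [h, Nat.sub_self, pow_zero, Nat.card_eq_one_iff_unique] at hc
    obtain ⟨hsub, -⟩ := hc
    have hx2 : x * x = 1 := by rw [← pow_two, ← hx, pow_orderOf_eq_one]
    have := congrArg Subtype.val (Subsingleton.elim (⟨x, hx2⟩ : {c : Cl n // c * c = 1}) ⟨1, one_mul 1⟩)
    simp only at this
    rw [this, orderOf_one] at hx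
    omega

/-- All classes are ambiguous iff `h(n) = 2 ^ (μ - 1)`. -/
theorem idoneal_iff_classNumber (hn : 1 < n) :
    (∀ c : Cl n, c * c = 1) ↔ Nat.card (Cl n) = 2 ^ (genusMu n - 1) := by
  have := finite_cl (N := n)
  have hc := (card_sq_eq_one (n := n) hn).trans (splits_total hn)
  rw [← hc]
  refine ⟨fun h => (Nat.card_congr (Equiv.subtypeUnivEquiv h)).symm, fun h c => ?_⟩
  have hbij := (Nat.bijective_iff_injective_and_card
    (Subtype.val : {c : Cl n // c * c = 1} → Cl n)).mpr ⟨Subtype.val_injective, h.symm⟩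
  obtain ⟨⟨d, hd⟩, rfl⟩ := hbij.2 c
  exact hd

end FA.Summary
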