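import Fermat.Agent.Korobov.Error

/-!
# The theorem of Vinogradov and Korobov

For `N ^ L ≤ t ≤ N ^ (L + 1)` the sum `∑ n ^ (-it)` over a part of `[N, 2 N)` saves the power
`N ^ (1 / (3600000 L²))`; hence `ζ (σ + it) = O ((log |t|) ^ 41 |t| ^ (A (1 - σ) ^ (3/2)))` for
`1/2 ≤ σ` (Vinogradov, Korobov 1958; `A` and the power of the logarithm are not the best known),
`ζ` has no zero with `σ ≥ 1 - c / ((log |t|) ^ (2/3) (log log |t|) ^ (1/3))`, and `ψ x`, `ϑ x`,
`π x` have the error term `O (x exp (-c (log x) ^ (3/5) / (log log x) ^ (1/5)))`.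
-/

set_option autoImplicit false

noncomputable section

namespace FA.Korobov.Summary

open Finset FA.Subconvexity FA.ZeroFree MeasureTheory
open scoped Real Chebyshev

/-- **Vinogradov's bound for zeta sums.** -/
theorem zeta_sum_bound {N K L : ℕ} {t : ℝ} (hL : 1 ≤ L) (hN : 1 ≤ N) (hNK : N ≤ K)
    (hK : K ≤ 2 * N) (h1 : (N : ℝ) ^ L ≤ t) (h2 : t ≤ (N : ℝ) ^ (L + 1)) :
    ‖∑ n ∈ Ico N K, (n : ℂ) ^ (-((t : ℂ) * Complex.I))‖ ≤
      (640 * (L : ℝ)) ^ 40 * (N : ℝ) ^ (1 - 1 / (3600000 * (L : ℝ) ^ 2)) := by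
  refine le_trans (le_of_eq (congrArg norm (sum_congr rfl fun n hn => ?_)))
    (norm_zetaSum_le hL hN hNK hK h1 h2)
  have hn1 : 1 ≤ n := hN.trans (mem_Ico.1 hn).1
  have h := term_eq_weight (σ := 0) (t := t) hn1
  rwa [Complex.ofReal_zero, zero_add, one_div, ← Complex.cpow_neg, neg_zero, Real.rpow_zero,
    Complex.ofReal_one, one_mul] at h

theorem ell_le_five_log {t : ℝ} (ht : 3 ≤ |t|) : ell t ≤ 5 * Real.log |t| := by
  rw [show (5 : ℝ) * Real.log |t| = Real.log (|t| ^ 5) by rw [Real.log_pow]; norm_num]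
  refine Real.log_le_log (by positivity) ?_
  have h4 : (81 : ℝ) ≤ |t| ^ 4 := le_trans (by norm_num) (pow_le_pow_left₀ (by norm_num) ht 4)
  nlinarith [mul_le_mul_of_nonneg_left h4 (abs_nonneg t)]

/-- **The Vinogradov–Korobov bound for `ζ`.** -/
theorem zeta_bound : ∃ A C : ℝ, 0 < A ∧ 0 < C ∧ ∀ s : ℂ, 3 ≤ |s.im| → 1 / 2 ≤ s.re → s.re ≤ 3 →
    ‖riemannZeta s‖ ≤
      C * Real.log |s.im| ^ 41 * |s.im| ^ (A * max (1 - s.re) 0 ^ (3 / 2 : ℝ)) := by
  obtain ⟨C, hC, h⟩ := exists_zeta_bound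
  refine ⟨5 * expConst, C * 5 ^ 41, by rw [expConst]; norm_num, by positivity,
    fun s ht hσ hσ3 => (h s ht hσ hσ3).trans ?_⟩
  have hl := ell_le_five_log ht
  have hθ : 0 ≤ max (1 - s.re) 0 ^ (3 / 2 : ℝ) := Real.rpow_nonneg (le_max_right _ _) _
  refine mul_le_mul ?_ ?_ (Real.exp_pos _).le ?_
  · rw [mul_assoc, ← mul_pow]
    exact mul_le_mul_of_nonneg_left (pow_le_pow_left₀ (ell_pos _).le hl 41) hC.le
  · rw [Real.rpow_def_of_pos (show (0 : ℝ) < |s.im| by linarith), Real.exp_le_exp]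
    have : 0 ≤ expConst * max (1 - s.re) 0 ^ (3 / 2 : ℝ) := by rw [expConst]; positivity
    nlinarith
  · have : 0 ≤ Real.log |s.im| := Real.log_nonneg (by linarith)
    positivity

theorem e_le_log {x : ℝ} (hx : 16 ≤ x) : 2.7 ≤ Real.log x ∧ 1 ≤ Real.log (Real.log x) ∧
    Real.exp 1 ≤ Real.log x := by
  have h : Real.log (16 : ℝ) ≤ Real.log x := Real.log_le_log (by norm_num) hx
  rw [show (16 : ℝ) = 2 ^ 4 by norm_num, Real.log_pow] at h
  push_cast at h
  have h2 := Real.log_two_gt_d9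
  have he : Real.exp 1 ≤ Real.log x := by linarith [Real.exp_one_lt_d9]
  exact ⟨by linarith, (Real.le_log_iff_exp_le (by linarith)).2 he, he⟩

/-- **The zero-free region of Vinogradov and Korobov.** -/
theorem zero_free : ∃ c : ℝ, 0 < c ∧ ∀ s : ℂ, 16 ≤ |s.im| →
    1 - c / (Real.log |s.im| ^ (2 / 3 : ℝ) * Real.log (Real.log |s.im|) ^ (1 / 3 : ℝ)) ≤ s.re →
      riemannZeta s ≠ 0 := by
  obtain ⟨c, hc, hc1, h⟩ := exists_region
  refine ⟨c / 5, by positivity, fun s ht hs => ?_⟩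
  have hs1 : s ≠ 1 := fun hh => by rw [hh] at ht; norm_num at ht
  rw [riemannZeta_eq_inv_sub_mul hs1]
  refine mul_ne_zero (inv_ne_zero (sub_ne_zero.2 hs1)) (h s ?_)
  obtain ⟨hX, hl, -⟩ := e_le_log ht
  obtain ⟨X, hX'⟩ : ∃ X, X = Real.log |s.im| := ⟨_, rfl⟩
  rw [← hX'] at hX hl hs
  have hL : ell s.im ≤ 5 * X := hX' ▸ ell_le_five_log (by linarith)
  have hlL : Real.log (ell s.im) ≤ 5 * Real.log X := by
    refine (Real.log_le_log (ell_pos _) hL).trans ?_
    rw [Real.log_mul (by norm_num) (by linarith)]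
    linarith [Real.log_le_sub_one_of_pos (show (0 : ℝ) < 5 by norm_num)]
  have hg : gauge s.im ≤ 5 * (X ^ (2 / 3 : ℝ) * Real.log X ^ (1 / 3 : ℝ)) := by
    refine (mul_le_mul (Real.rpow_le_rpow (ell_pos _).le hL (by norm_num))
      (Real.rpow_le_rpow (by linarith [one_le_log_ell s.im]) hlL (by norm_num))
      (Real.rpow_nonneg (by linarith [one_le_log_ell s.im]) _)
      (Real.rpow_nonneg (by linarith) _)).trans (le_of_eq ?_)
    rw [Real.mul_rpow (by norm_num) (by linarith), Real.mul_rpow (by norm_num) (by linarith),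
      mul_mul_mul_comm, ← Real.rpow_add (by norm_num)]
    norm_num
  have := div_le_div_of_nonneg_left hc.le (gauge_pos s.im) hg
  rw [← div_div] at this
  linarith

theorem exp_rate_le {c x : ℝ} (hc : 0 ≤ c) (hx : 16 ≤ x) : Real.exp (-(c * rate x)) ≤
    Real.exp (-(c / 3 * (Real.log x ^ (3 / 5 : ℝ) / Real.log (Real.log x) ^ (1 / 5 : ℝ)))) := by
  obtain ⟨hX, hl, -⟩ := e_le_log hx
  refine Real.exp_le_exp.2 (neg_le_neg ?_)
  rw [div_mul_eq_mul_div, mul_div_assoc]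
  refine mul_le_mul_of_nonneg_left ?_ hc
  rw [rate, div_div]
  refine div_le_div_of_nonneg_left (Real.rpow_nonneg (by linarith) _)
    (Real.rpow_pos_of_pos (by linarith [one_le_log_add_three (show 0 ≤ Real.log x by linarith)]) _)
    ?_
  have h3 : Real.log (Real.log x + 3) ≤ 3 * Real.log (Real.log x) := by
    rw [show 3 * Real.log (Real.log x) = Real.log (Real.log x ^ 3) by rw [Real.log_pow]; norm_num]
    refine Real.log_le_log (by linarith) ?_
    have := mul_le_mul (hX.trans' (show (2 : ℝ) ≤ 2.7 by norm_num))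
      (hX.trans' (show (2 : ℝ) ≤ 2.7 by norm_num)) (by norm_num) (by linarith)
    nlinarith [mul_le_mul_of_nonneg_right this (show 0 ≤ Real.log x by linarith)]
  refine (Real.rpow_le_rpow (by linarith [one_le_log_add_three (show 0 ≤ Real.log x by linarith)])
    h3 (by norm_num)).trans ?_
  rw [Real.mul_rpow (by norm_num) (by linarith), mul_comm]
  exact mul_le_mul_of_nonneg_left
    (Real.rpow_le_self_of_one_le (by norm_num) (by norm_num)) (Real.rpow_nonneg (by linarith) _)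

theorem weaken_error {f : ℝ → ℝ} (h : ∃ c C, 0 < c ∧ 0 < C ∧ ∀ x : ℝ, 2 ≤ x →
    |f x| ≤ C * x * Real.exp (-(c * rate x))) : ∃ c C : ℝ, 0 < c ∧ 0 < C ∧ ∀ x : ℝ, 16 ≤ x →
    |f x| ≤ C * x *
      Real.exp (-(c * (Real.log x ^ (3 / 5 : ℝ) / Real.log (Real.log x) ^ (1 / 5 : ℝ)))) := by
  obtain ⟨c, C, hc, hC, h⟩ := h
  exact ⟨c / 3, C, by positivity, hC, fun x hx => (h x (by linarith)).trans
    (mul_le_mul_of_nonneg_left (exp_rate_le hc.le hx) (mul_nonneg hC.le (by linarith)))⟩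

/-- **The prime number theorem with the error term of Vinogradov and Korobov.** -/
theorem psi_error : ∃ c C : ℝ, 0 < c ∧ 0 < C ∧ ∀ x : ℝ, 16 ≤ x → |ψ x - x| ≤ C * x *
    Real.exp (-(c * (Real.log x ^ (3 / 5 : ℝ) / Real.log (Real.log x) ^ (1 / 5 : ℝ)))) :=
  weaken_error exists_psi_error

/-- The same for `ϑ`, the sum of `log p` over primes `p ≤ x`. -/
theorem theta_error : ∃ c C : ℝ, 0 < c ∧ 0 < C ∧ ∀ x : ℝ, 16 ≤ x →
    |Chebyshev.theta x - x| ≤ C * x *
      Real.exp (-(c * (Real.log x ^ (3 / 5 : ℝ) / Real.log (Real.log x) ^ (1 / 5 : ℝ)))) :=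
  weaken_error exists_theta_error

/-- **`π x` is the logarithmic integral up to that error.** -/
theorem primeCounting_error : ∃ c C : ℝ, 0 < c ∧ 0 < C ∧ ∀ x : ℝ, 16 ≤ x →
    |(Nat.primeCounting ⌊x⌋₊ : ℝ) - ∫ t in (2 : ℝ)..x, 1 / Real.log t| ≤ C * x *
      Real.exp (-(c * (Real.log x ^ (3 / 5 : ℝ) / Real.log (Real.log x) ^ (1 / 5 : ℝ)))) :=
  weaken_error exists_primeCounting_error

end FA.Korobov.Summary

end
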