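import Fermat.Agent.TitsAlternative.Main
import Fermat.Agent.TitsAlternative.Exclusive

/-!
# The Tits alternative in characteristic zero

A finitely generated linear group over a field of characteristic zero either has a solvable subgroup
of finite index or contains a free group of rank two, never both (Tits 1972).
-/

set_option autoImplicit false

noncomputable section

namespace FA.Summary

open FA.TitsAlternative

/-- **The Tits alternative.** -/
theorem tits_alternative {K : Type*} [Field K] [CharZero K] {n : ℕ}
    {G : Subgroup (Matrix.GeneralLinearGroup (Fin n) K)} (hG : G.FG) :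
    (∃ H : Subgroup G, H.FiniteIndex ∧ Group.IsSolvable H) ∨
      ∃ f : FreeGroup (Fin 2) →* G, Function.Injective f :=
  FA.TitsAlternative.tits_alternative hG

/-- **Exactly one alternative holds.** -/
theorem tits_alternative_iff {K : Type*} [Field K] [CharZero K] {n : ℕ}
    {G : Subgroup (Matrix.GeneralLinearGroup (Fin n) K)} (hG : G.FG) :
    (¬ ∃ f : FreeGroup (Fin 2) →* G, Function.Injective f) ↔
      ∃ H : Subgroup G, H.FiniteIndex ∧ Group.IsSolvable H :=
  ⟨fun h => (tits_alternative hG).resolve_right h, not_free_and_virtually_solvable⟩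

/-- **Finitely generated groups with a faithful representation in characteristic zero.** -/
theorem tits_alternative_of_faithful {K : Type*} [Field K] [CharZero K] {n : ℕ} {G : Type*}
    [Group G] [Group.FG G] (r : G →* Matrix.GeneralLinearGroup (Fin n) K)
    (hr : Function.Injective r) :
    (∃ H : Subgroup G, H.FiniteIndex ∧ Group.IsSolvable H) ∨
      ∃ f : FreeGroup (Fin 2) →* G, Function.Injective f := by
  have hfg : r.range.FG := (Group.fg_iff_subgroup_fg _).1 (Group.fg_range r)
  let e := MonoidHom.ofInjective hr
  refine (tits_alternative hfg).imp (fun ⟨H, hH, hs⟩ => ?_) fun ⟨f, hf⟩ =>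
    ⟨e.symm.toMonoidHom.comp f, e.symm.injective.comp hf⟩
  refine ⟨H.comap e.toMonoidHom, ⟨?_⟩, ?_⟩
  · exact ne_of_eq_of_ne (Subgroup.index_comap_of_surjective H (f := e.toMonoidHom) e.surjective)
      hH.index_ne_zero
  · exact Group.isSolvable_of_isSolvable_injective
      (f := (e.toMonoidHom.comp (H.comap e.toMonoidHom).subtype).codRestrict H fun x => x.2)
      fun a b h => Subtype.ext (e.injective (congrArg Subtype.val h :))

/-- **Both alternatives occur**: Sanov's group contains a free group and is not virtually
solvable. -/
theorem tits_alternative_free_occurs :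
    ∃ G : Subgroup (Matrix.GeneralLinearGroup (Fin 2) ℚ), G.FG ∧
      (∃ f : FreeGroup (Fin 2) →* G, Function.Injective f) ∧
        ¬ ∃ H : Subgroup G, H.FiniteIndex ∧ Group.IsSolvable H := by
  set φ := FreeGroup.lift fun i => elementary i (2 : ℚ)
  have hf : ∃ f : FreeGroup (Fin 2) →* φ.range, Function.Injective f :=
    ⟨φ.rangeRestrict, (MonoidHom.rangeRestrict_injective_iff).2 sanov⟩
  refine ⟨φ.range, ?_, hf, fun h => not_free_and_virtually_solvable h hf⟩
  rw [FreeGroup.range_lift_eq_closure]
  exact Subgroup.fg_iff _ |>.2 ⟨_, rfl, Set.finite_range _⟩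

end FA.Summary

end
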