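import Fermat.Agent.Density.Frobenius
import Mathlib.RingTheory.Frobenius
import Mathlib.FieldTheory.PolynomialGaloisGroup

/-!
# Frobenius' density theorem in Mathlib's notions

For a finite Galois extension `F/ℚ` every cyclic subgroup of the Galois group is generated by a
Frobenius element (`IsArithFrobAt`) at an unramified prime outside any given finite set; hence
infinitely many primes split completely, and a monic irreducible integer polynomial of degree at
least two has no root modulo infinitely many primes.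
-/

set_option autoImplicit false

noncomputable section

open NumberField Polynomial FA.Density
open scoped Pointwise

namespace FA.FrobeniusDensity

/-- **Jordan**: a transitive action on at least two points has an element without fixed point. -/
theorem exists_forall_smul_ne (G X : Type*) [Group G] [Finite G] [MulAction G X] [Finite X]
    [MulAction.IsPretransitive G X] [Nontrivial X] : ∃ g : G, ∀ x : X, g • x ≠ x := by
  classical
  cases nonempty_fintype G
  cases nonempty_fintype X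
  by_contra hcon
  push Not at hcon
  have : Subsingleton (Quotient (MulAction.orbitRel G X)) :=
    ⟨fun a b => Quotient.inductionOn₂ a b fun x y =>
      Quotient.sound (MulAction.exists_smul_eq G y x)⟩
  have hcard : Fintype.card (Quotient (MulAction.orbitRel G X)) = 1 :=
    Fintype.card_eq_one_iff.mpr ⟨⟦Classical.arbitrary X⟧, fun _ => Subsingleton.elim _ _⟩
  have h := MulAction.sum_card_fixedBy_eq_card_orbits_mul_card_group G X
  rw [hcard, one_mul] at h
  refine lt_irrefl (Fintype.card G) ?_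
  nth_rw 2 [← h]
  calc Fintype.card G = ∑ _g : G, 1 := by simp
    _ < ∑ g : G, Fintype.card (MulAction.fixedBy X g) := Finset.sum_lt_sum
        (fun g _ => Fintype.card_pos_iff.mpr (let ⟨x, hx⟩ := hcon g; ⟨⟨x, hx⟩⟩))
        ⟨1, Finset.mem_univ _, Fintype.one_lt_card_iff.mpr (by
          obtain ⟨x, y, hxy⟩ := exists_pair_ne X
          exact ⟨⟨x, one_smul G x⟩, ⟨y, one_smul G y⟩, fun e => hxy (congrArg Subtype.val e)⟩)⟩

variable {F : Type*} [Field F] [NumberField F]

omit [NumberField F] in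
/-- A prime containing a prime number lies over it. -/
theorem under_eq {q : ℕ} (hq : q.Prime) {P : Ideal (𝓞 F)} (hP : P ≠ ⊤) (hqP : (q : 𝓞 F) ∈ P) :
    P.under ℤ = Ideal.span {(q : ℤ)} := by
  have hmax : (Ideal.span {(q : ℤ)}).IsMaximal :=
    PrincipalIdealRing.isMaximal_of_irreducible (Nat.prime_iff_prime_int.mp hq).irreducible
  refine (hmax.eq_of_le (Ideal.comap_ne_top _ hP) ?_).symm
  rw [Ideal.span_singleton_le_iff_mem, Ideal.mem_comap, map_natCast]
  exact hqP

omit [NumberField F] in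
theorem card_quotient_under {q : ℕ} (hq : q.Prime) {P : Ideal (𝓞 F)} (hP : P ≠ ⊤)
    (hqP : (q : 𝓞 F) ∈ P) : Nat.card (ℤ ⧸ P.under ℤ) = q := by
  rw [under_eq hq hP hqP, Nat.card_congr (Int.quotientSpanNatEquivZMod q).toEquiv, Nat.card_zmod]

/-- A nonzero element lies above finitely many prime numbers only. -/
theorem notMem_of_not_dvd {q : ℕ} (hq : q.Prime) {P : Ideal (𝓞 F)} (hP : P ≠ ⊤)
    (hqP : (q : 𝓞 F) ∈ P) {δ : 𝓞 F} (h : ¬ q ∣ Ideal.absNorm (Ideal.span {δ})) : δ ∉ P := by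
  intro hδ
  have hm : (Ideal.absNorm (Ideal.span {δ}) : ℤ) ∈ P.under ℤ := by
    rw [Ideal.under, Ideal.mem_comap, map_natCast]
    exact (Ideal.span_singleton_le_iff_mem _).mpr hδ (Ideal.absNorm_mem _)
  rw [under_eq hq hP hqP, Ideal.mem_span_singleton, Int.natCast_dvd_natCast] at hm
  exact h hm

/-- Arithmetic Frobenius elements give a Frobenius system. -/
theorem nonempty_frobSystem [IsGalois ℚ F] : Nonempty (FrobSystem F) := by
  obtain ⟨m, hm0, hm⟩ := exists_unramified F
  have hex : ∀ q : ℕ, q.Prime → q ∉ m.divisors →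
      ∃ g : F ≃ₐ[ℚ] F, ∃ P : Ideal (𝓞 F), IsFrobPair q P g := fun q hq hqm => by
    have : (Ideal.span {(q : ℤ)}).IsMaximal :=
      PrincipalIdealRing.isMaximal_of_irreducible (Nat.prime_iff_prime_int.mp hq).irreducible
    obtain ⟨P, hPmax, hover⟩ :=
      Ideal.exists_maximal_ideal_liesOver_of_isIntegral (S := 𝓞 F) (Ideal.span {(q : ℤ)})
    have hqP : (q : 𝓞 F) ∈ P := by
      have h := hover.over ▸ Ideal.mem_span_singleton_self (q : ℤ)
      rwa [Ideal.under, Ideal.mem_comap, map_natCast] at h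
    have : Finite (𝓞 F ⧸ P) := Ideal.finiteQuotientOfFreeOfNeBot P fun e => hq.ne_zero <| by
      rw [e, Ideal.mem_bot] at hqP
      exact_mod_cast hqP
    obtain ⟨g, hg⟩ := IsArithFrobAt.exists_of_isInvariant ℤ (F ≃ₐ[ℚ] F) P
    refine ⟨g, P, hq, hPmax, hqP,
      hm q P hq hPmax hqP fun h => hqm (Nat.mem_divisors.mpr ⟨h, hm0⟩), fun y => ?_⟩
    have h := hg y
    rwa [card_quotient_under hq hPmax.ne_top hqP] at h
  exact ⟨⟨fun q => if h : q.Prime ∧ q ∉ m.divisors then (hex q h.1 h.2).choose else 1, m.divisors,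
    fun q hq hqm => by
      simp only [hq, hqm, not_false_eq_true, and_self, dite_true]
      exact (hex q hq hqm).choose_spec⟩⟩

theorem IsFrobPair.isArithFrobAt [IsGalois ℚ F] {q : ℕ} {P : Ideal (𝓞 F)} {g : F ≃ₐ[ℚ] F}
    (h : IsFrobPair q P g) : IsArithFrobAt ℤ g P := fun y => by
  rw [card_quotient_under h.prime h.isMaximal.ne_top h.mem]
  exact h.frob y

/-- Frobenius' theorem for pairs. -/
theorem exists_isFrobPair [IsGalois ℚ F] (σ : F ≃ₐ[ℚ] F) (S : Finset ℕ) :
    ∃ q : ℕ, q ∉ S ∧ ∃ (P : Ideal (𝓞 F)) (τ : F ≃ₐ[ℚ] F), IsFrobPair q P τ ∧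
      Subgroup.zpowers τ = Subgroup.zpowers σ := by
  obtain ⟨𝔉⟩ := nonempty_frobSystem (F := F)
  obtain ⟨q, hq, hqS, hqe, x, hx⟩ := 𝔉.exists_generating σ S
  obtain ⟨P, hP⟩ := 𝔉.spec q hq hqe
  exact ⟨q, hqS, x • P, _, hP.conj x, hx⟩

/-- The primes over `q` are the conjugates of one of them. -/
theorem primesOver_eq_orbit [IsGalois ℚ F] {q : ℕ} {P : Ideal (𝓞 F)} {g : F ≃ₐ[ℚ] F}
    (h : IsFrobPair q P g) :
    (Ideal.span {(q : ℤ)}).primesOver (𝓞 F) = MulAction.orbit (F ≃ₐ[ℚ] F) P := by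
  have := h.isMaximal
  have hu := under_eq h.prime h.isMaximal.ne_top h.mem
  ext Q
  refine ⟨fun ⟨hQ, hQo⟩ => ?_, ?_⟩
  · obtain ⟨x, hx⟩ := Algebra.IsInvariant.exists_smul_of_under_eq ℤ (𝓞 F) (F ≃ₐ[ℚ] F) P Q
      (hu.trans hQo.over)
    exact ⟨x, hx.symm⟩
  · rintro ⟨x, rfl⟩
    exact ⟨(h.conj x).isMaximal.isPrime,
      ⟨(under_eq h.prime (h.conj x).isMaximal.ne_top (h.conj x).mem).symm⟩⟩

/-- If the trivial element is a Frobenius at an unramified `P` over `q`, then `q` splits. -/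
theorem ncard_primesOver_of_isFrobPair_one [IsGalois ℚ F] {q : ℕ} {P : Ideal (𝓞 F)}
    (h : IsFrobPair q P (1 : F ≃ₐ[ℚ] F)) :
    ((Ideal.span {(q : ℤ)}).primesOver (𝓞 F)).ncard = Module.finrank ℚ F := by
  have := h.isMaximal
  have : Fact q.Prime := ⟨h.prime⟩
  let _ : Field (𝓞 F ⧸ P) := Ideal.Quotient.field P
  have : CharP (𝓞 F ⧸ P) q := (CharP.charP_iff_prime_eq_zero h.prime).mpr <| by
    rw [← map_natCast (Ideal.Quotient.mk P), Ideal.Quotient.eq_zero_iff_mem]
    exact h.mem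
  have hstab : MulAction.stabilizer (F ≃ₐ[ℚ] F) P = ⊥ := by
    refine (Subgroup.eq_bot_iff_forall _).mpr fun x hx => h.inertia x fun y => ?_
    have hy : (Ideal.Quotient.mk P y) ^ q = Ideal.Quotient.mk P y := by
      rw [← map_pow, eq_comm, Ideal.Quotient.eq]
      simpa using h.frob y
    have hmem := (Subfield.mem_bot_iff_pow_eq_self (𝓞 F ⧸ P) q).mpr hy
    rw [← ZMod.fieldRange_castHom_eq_bot q] at hmem
    obtain ⟨a, ha⟩ := hmem
    have ha' : y - (a.val : 𝓞 F) ∈ P := by
      rw [← Ideal.Quotient.eq, map_natCast, ← ha, ZMod.castHom_apply, ZMod.natCast_val]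
    have hxy := (Ideal.smul_mem_pointwise_smul x _ P) ha'
    rw [MulAction.mem_stabilizer_iff.mp hx, smul_sub,
      show x • (a.val : 𝓞 F) = a.val from map_natCast (MulSemiringAction.toRingHom _ (𝓞 F) x) _]
      at hxy
    simpa using sub_mem hxy ha'
  rw [primesOver_eq_orbit h, ← MulAction.index_stabilizer, hstab, Subgroup.index_bot,
    IsGalois.card_aut_eq_finrank]

end FA.FrobeniusDensity

namespace FA.Summary

open FA.FrobeniusDensity

/-- **Frobenius' density theorem** (existence form): in a finite Galois extension `F/ℚ` every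
cyclic subgroup of the Galois group is generated by an arithmetic Frobenius at an unramified prime
above a prime number outside a given finite set. -/
theorem frobenius_density (F : Type*) [Field F] [NumberField F] [IsGalois ℚ F] (σ : F ≃ₐ[ℚ] F)
    (S : Finset ℕ) :
    ∃ q : ℕ, q.Prime ∧ q ∉ S ∧ ∃ (P : Ideal (𝓞 F)) (τ : F ≃ₐ[ℚ] F), P.IsMaximal ∧
      (q : 𝓞 F) ∈ P ∧ P.inertia (F ≃ₐ[ℚ] F) = ⊥ ∧ IsArithFrobAt ℤ τ P ∧
      Subgroup.zpowers τ = Subgroup.zpowers σ := by
  obtain ⟨q, hqS, P, τ, h, hτ⟩ := exists_isFrobPair σ S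
  exact ⟨q, h.prime, hqS, P, τ, h.isMaximal, h.mem,
    (Subgroup.eq_bot_iff_forall _).mpr h.inertia, IsFrobPair.isArithFrobAt h, hτ⟩

/-- **Infinitely many primes split completely** in a finite Galois extension of `ℚ`. -/
theorem infinitely_many_split_completely (F : Type*) [Field F] [NumberField F] [IsGalois ℚ F] :
    {q : ℕ | q.Prime ∧
      ((Ideal.span {(q : ℤ)}).primesOver (𝓞 F)).ncard = Module.finrank ℚ F}.Infinite := by
  intro hfin
  obtain ⟨q, hqS, P, τ, h, hτ⟩ := exists_isFrobPair (1 : F ≃ₐ[ℚ] F) hfin.toFinset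
  rw [Subgroup.zpowers_one_eq_bot, Subgroup.zpowers_eq_bot] at hτ
  subst hτ
  exact hqS (hfin.mem_toFinset.mpr ⟨h.prime, ncard_primesOver_of_isFrobPair_one h⟩)

/-- **Jordan**: a monic irreducible integer polynomial of degree at least two has no root modulo
infinitely many primes. -/
theorem infinitely_many_primes_without_root (f : ℤ[X]) (hm : f.Monic) (hirr : Irreducible f)
    (hdeg : 2 ≤ f.natDegree) :
    {q : ℕ | q.Prime ∧
      ∀ x : ZMod q, (f.map (Int.castRingHom (ZMod q))).eval x ≠ 0}.Infinite := by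
  classical
  intro hfin
  set g : ℚ[X] := f.map (algebraMap ℤ ℚ) with hg
  have hgirr : Irreducible g := hm.irreducible_iff_irreducible_map_fraction_map.mp hirr
  have hgm : g.Monic := hm.map _
  let F := g.SplittingField
  have : NumberField F := { }
  have : IsSplittingField ℚ F g := IsSplittingField.splittingField g
  have : IsGalois ℚ F := IsGalois.of_separable_splitting_field hgirr.separable
  have hsplit : (g.map (algebraMap ℚ F)).Splits := SplittingField.splits g
  set R := (g.aroots F).toFinset with hR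
  have hR2 : 1 < R.card := by
    rw [hR, Multiset.toFinset_card_of_nodup (nodup_roots hgirr.separable.map),
      ← hsplit.natDegree_eq_card_roots, natDegree_map, hg, natDegree_map_eq_of_injective
        (IsFractionRing.injective ℤ ℚ)]
    omega
  obtain ⟨α, hα⟩ : R.Nonempty := Finset.card_pos.mp (by omega)
  have hroot : ∀ r ∈ R, aeval r g = 0 := fun r hr => (mem_aroots.mp (Multiset.mem_toFinset.mp hr)).2
  have horb : ∀ r ∈ R, r ∈ MulAction.orbit (F ≃ₐ[ℚ] F) α := fun r hr =>
    (Normal.minpoly_eq_iff_mem_orbit F).mp <| by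
      rw [← minpoly.eq_of_irreducible hgirr (hroot α hα),
        ← minpoly.eq_of_irreducible hgirr (hroot r hr)]
  have : Nontrivial (MulAction.orbit (F ≃ₐ[ℚ] F) α) := by
    obtain ⟨β, hβ, hne⟩ := Finset.exists_mem_ne hR2 α
    exact ⟨⟨β, horb β hβ⟩, ⟨α, MulAction.mem_orbit_self α⟩, fun e => hne (congrArg Subtype.val e)⟩
  have : Finite (MulAction.orbit (F ≃ₐ[ℚ] F) α) := (Set.finite_range _).to_subtype
  obtain ⟨σ, hσ⟩ := exists_forall_smul_ne (F ≃ₐ[ℚ] F) (MulAction.orbit (F ≃ₐ[ℚ] F) α)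
  have hint : ∀ r : R, IsIntegral ℤ (r : F) := fun r =>
    ⟨f, hm, by rw [← aeval_def, ← aeval_map_algebraMap ℚ, ← hg, hroot r r.2]⟩
  let y : R → 𝓞 F := fun r => ⟨r, hint r⟩
  let δ : 𝓞 F := ∏ r : R, ∏ x : F ≃ₐ[ℚ] F, if x • (r : F) = r then 1 else x • y r - y r
  have hδ : δ ≠ 0 := Finset.prod_ne_zero_iff.mpr fun r _ =>
    Finset.prod_ne_zero_iff.mpr fun x _ => by
    split_ifs with h
    · exact one_ne_zero
    · exact fun e => h (congrArg (fun z : 𝓞 F => (z : F)) (sub_eq_zero.mp e))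
  obtain ⟨q, hqS, P, τ, h, hτ⟩ :=
    exists_isFrobPair σ (hfin.toFinset ∪ (Ideal.absNorm (Ideal.span {δ})).divisors)
  rw [Finset.mem_union, not_or] at hqS
  refine hqS.1 (hfin.mem_toFinset.mpr ⟨h.prime, fun x hx => ?_⟩)
  have hqP := h.isMaximal.ne_top
  obtain ⟨a, rfl⟩ := ZMod.intCast_surjective x
  rw [eval_map, eval₂_at_intCast, eq_intCast, Int.cast_id,
    ZMod.intCast_zmod_eq_zero_iff_dvd] at hx
  have hprod : ((f.eval a : ℤ) : 𝓞 F) = ∏ r : R, ((a : 𝓞 F) - y r) := by
    refine RingOfIntegers.ext ?_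
    simp only [map_prod, map_sub, map_intCast]
    show ((f.eval a : ℤ) : F) = ∏ r : R, ((a : F) - (r : F))
    rw [Finset.prod_coe_sort R (fun r : F => (a : F) - r), Finset.prod_eq_multiset_prod, hR,
      Multiset.toFinset_val, (nodup_roots hgirr.separable.map).dedup]
    have he := congrArg (eval (a : F)) (hsplit.eq_prod_roots_of_monic (hgm.map _))
    rw [eval_map, ← aeval_def] at he
    rw [show aeval (a : F) g = ((f.eval a : ℤ) : F) by
      refine (aeval_map_algebraMap ℚ (a : F) f).trans ?_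
      rw [aeval_def, eval₂_at_intCast, eq_intCast, Int.cast_id]] at he
    simpa [eval_multiset_prod, aroots_def, Multiset.map_map, Function.comp_def] using he
  have hmem : ((f.eval a : ℤ) : 𝓞 F) ∈ P := by
    obtain ⟨c, hc⟩ := hx
    rw [hc, Int.cast_mul, Int.cast_natCast]
    exact P.mul_mem_right _ h.mem
  rw [hprod] at hmem
  obtain ⟨r, -, hr⟩ := (h.isMaximal.isPrime.prod_mem_iff).mp hmem
  have hmov : τ • (r : F) ≠ r := fun e => hσ ⟨r, horb r r.2⟩ <| Subtype.ext <| by
    have hle : Subgroup.zpowers τ ≤ MulAction.stabilizer (F ≃ₐ[ℚ] F) (r : F) :=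
      Subgroup.zpowers_le.mpr e
    exact hle (hτ ▸ Subgroup.mem_zpowers σ)
  have hd : τ • y r - y r ∉ P := fun hd => notMem_of_not_dvd h.prime hqP h.mem
    (fun hd' => hqS.2 (Nat.mem_divisors.mpr ⟨hd', fun e => hδ
      (Ideal.span_singleton_eq_bot.mp (Ideal.absNorm_eq_zero_iff.mp e))⟩))
    (P.mem_of_dvd ((Finset.dvd_prod_of_mem _ (Finset.mem_univ τ)).trans
      (Finset.dvd_prod_of_mem _ (Finset.mem_univ r))) (by rw [if_neg hmov]; exact hd))
  refine hd ?_
  have h1 := h.frob (y r)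
  have h2 : τ • (a : 𝓞 F) = a := map_intCast (MulSemiringAction.toRingHom _ (𝓞 F) τ) a
  have h3 := h.frob (a : 𝓞 F)
  rw [h2] at h3
  have h4 : (a : 𝓞 F) ^ q - y r ^ q ∈ P := P.mem_of_dvd (sub_dvd_pow_sub_pow _ _ q) hr
  have e : τ • y r - y r =
      (τ • y r - y r ^ q) - ((a : 𝓞 F) ^ q - y r ^ q) - ((a : 𝓞 F) - (a : 𝓞 F) ^ q) +
        ((a : 𝓞 F) - y r) := by ring
  rw [e]
  exact add_mem (sub_mem (sub_mem h1 h4) h3) hr

end FA.Summary

end
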