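import Fermat.Agent.Chebotarev.Density
import Fermat.Agent.Root.SummaryFrobenius

/-!
# Chebotarev's density theorem over `ℚ` in Mathlib's notions

For a finite Galois extension `F/ℚ` and a set `C` of automorphisms stable under conjugation, the
primes of `ℚ` below a maximal ideal of `𝓞 F` with an arithmetic Frobenius (`IsArithFrobAt`) in `C`
have Dirichlet density (`Set.HasDirichletDensity`) `|C| / [F : ℚ]`; in particular every
automorphism is the Frobenius at infinitely many unramified primes.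
-/

set_option autoImplicit false
set_option linter.style.haveILetI false

noncomputable section

open NumberField IsDedekindDomain Filter Topology FA.Density
open scoped Pointwise

namespace FA.Chebotarev

local notation "Qb" => AlgebraicClosure ℚ
local notation "GQ" => AlgebraicClosure ℚ ≃ₐ[ℚ] AlgebraicClosure ℚ

/-- An inequality up to a finite set. -/
theorem primeIdealZetaSum_le_add {S T : Set (HeightOneSpectrum (𝓞 ℚ))} (h : (S \ T).Finite) {s : ℝ}
    (hs : 1 < s) : S.primeIdealZetaSum s ≤ T.primeIdealZetaSum s + (S \ T).ncard := by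
  have hsub : S.primeIdealZetaSum s ≤ (T ∪ S \ T).primeIdealZetaSum s := by
    simp only [primeIdealZetaSum_eq]
    exact (summable_subtype_zN S hs).tsum_le_tsum_of_inj (Set.inclusion fun v hv => by
      by_cases hT : v ∈ T <;> simp [hv, hT]) (Set.inclusion_injective _)
      (fun _ _ => FA.Ext.zN_nonneg _ _) (fun _ => le_rfl) (summable_subtype_zN _ hs)
  refine hsub.trans ?_
  refine (le_of_eq ?_).trans
    (add_le_add le_rfl (Set.primeIdealZetaSum_le_card_of_finite h (by linarith : (0 : ℝ) ≤ s)))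
  simp only [primeIdealZetaSum_eq]
  exact Summable.tsum_union_disjoint (f := fun v : HeightOneSpectrum (𝓞 ℚ) =>
    FA.Ext.zN s (FA.Ext.primeIdeal v)) disjoint_sdiff_self_right
    (summable_subtype_zN T hs) (summable_subtype_zN _ hs)

/-- The density does not see finite sets. -/
theorem hasDirichletDensity_congr {S T : Set (HeightOneSpectrum (𝓞 ℚ))} (h₁ : (S \ T).Finite)
    (h₂ : (T \ S).Finite) {δ : ℝ} (h : T.HasDirichletDensity δ) : S.HasDirichletDensity δ := by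
  obtain ⟨M, hM⟩ := FA.Ext.exists_lower_bound ℚ
  set Z : ℝ → ℝ := fun s =>
    (Set.univ : Set (HeightOneSpectrum (𝓞 ℚ))).primeIdealZetaSum s with hZdef
  have hZ : Tendsto Z (𝓝[>] 1) atTop := by
    refine tendsto_atTop_mono' _ ?_ (tendsto_atTop_add_const_right _ (-M) tendsto_log_atTop)
    filter_upwards [Ioc_one_two_mem] with s hs
    obtain ⟨T', -, hT'⟩ := hM s hs
    simp only [hZdef, primeIdealZetaSum_eq,
      tsum_univ fun v : HeightOneSpectrum (𝓞 ℚ) => FA.Ext.zN s (FA.Ext.primeIdeal v)]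
    linarith [(summable_zN_primeIdeal hs.1).sum_le_tsum T' fun v _ => FA.Ext.zN_nonneg _ _]
  refine tendsto_of_tendsto_of_tendsto_of_le_of_le'
    (g := fun s => T.primeIdealZetaSum s / Z s - ((T \ S).ncard : ℝ) / Z s)
    (h := fun s => T.primeIdealZetaSum s / Z s + ((S \ T).ncard : ℝ) / Z s)
    (by simpa only [sub_zero] using h.sub (hZ.const_div_atTop ((T \ S).ncard : ℝ)))
    (by simpa only [add_zero] using h.add (hZ.const_div_atTop ((S \ T).ncard : ℝ))) ?_ ?_
  all_goals filter_upwards [Ioc_one_two_mem, hZ.eventually_gt_atTop 0] with s hs hpos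
  · rw [← sub_div]
    exact div_le_div_of_nonneg_right (by linarith [primeIdealZetaSum_le_add h₂ hs.1]) hpos.le
  · rw [← add_div]
    exact div_le_div_of_nonneg_right (primeIdealZetaSum_le_add h₁ hs.1) hpos.le

section field

variable {F : Type*} [Field F] [NumberField F] [IsGalois ℚ F] [Algebra F Qb] [IsScalarTower ℚ F Qb]

/-- Frobenius elements of `ℚ̄` restrict to Frobenius elements. -/
theorem exists_isFrobPair_restrict {q : ℕ} (hq : q.Prime)
    (hm : ∀ P : Ideal (𝓞 F), P.IsMaximal → (q : 𝓞 F) ∈ P →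
      ∀ σ : F ≃ₐ[ℚ] F, (∀ y : 𝓞 F, σ • y - y ∈ P) → σ = 1)
    {A : ValuationSubring Qb} (hA : A.LiesOverPrime q) {σ : GQ} (hσ : A.IsFrobeniusAt σ q) :
    ∃ P : Ideal (𝓞 F), IsFrobPair q P (σ.restrictNormal F) := by
  let ι : 𝓞 F →+* FA.Deform.ZBar := ((algebraMap F Qb).comp (algebraMap (𝓞 F) F)).codRestrict
    (integralClosure ℤ Qb).toSubring fun x =>
      (map_isIntegral_int (algebraMap F Qb) (RingOfIntegers.isIntegral_coe x) :)
  let P : Ideal (𝓞 F) := (FA.Deform.primeAt A).comap ι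
  have hqP : (q : 𝓞 F) ∈ P := by
    show ι q ∈ FA.Deform.primeAt A
    rw [map_natCast, FA.Deform.mem_primeAt]
    exact hA
  have hP : P.IsPrime := Ideal.comap_isPrime _ _
  have hP0 : P ≠ ⊥ := fun h => by
    rw [h, Ideal.mem_bot] at hqP
    exact hq.ne_zero (by exact_mod_cast hqP)
  refine ⟨P, hq, hP.isMaximal hP0, hqP, hm P (hP.isMaximal hP0) hqP, fun y => ?_⟩
  show ι ((σ.restrictNormal F) • y - y ^ q) ∈ FA.Deform.primeAt A
  rw [FA.Deform.mem_primeAt]
  have e : ((ι ((σ.restrictNormal F) • y - y ^ q) : FA.Deform.ZBar) : Qb) =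
      σ (algebraMap F Qb (y : F)) - algebraMap F Qb (y : F) ^ q := by
    show algebraMap F Qb ((σ.restrictNormal F) (y : F) - (y : F) ^ q) = _
    rw [map_sub, map_pow, AlgEquiv.restrictNormal_commutes]
  rw [e]
  exact sub_pow_mem_nonunits hσ (FA.Deform.zbar_mem_valuationSubring A (ι y))

theorem isOpen_ker_restrict :
    IsOpen ((AlgEquiv.restrictNormalHom F : GQ →* (F ≃ₐ[ℚ] F)).ker : Set GQ) := by
  let f := IsScalarTower.toAlgHom ℚ F Qb
  have : FiniteDimensional ℚ f.fieldRange := f.equivFieldRange.toLinearEquiv.finiteDimensional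
  refine Subgroup.isOpen_mono (H₁ := f.fieldRange.fixingSubgroup) (fun σ hσ => ?_)
    (IntermediateField.fixingSubgroup_isOpen _)
  refine AlgEquiv.ext fun z => (algebraMap F Qb).injective ?_
  refine (AlgEquiv.restrictNormal_commutes σ F z).trans ?_
  exact (IntermediateField.mem_fixingSubgroup_iff _ σ).mp hσ _ ⟨z, rfl⟩

omit [Algebra F Qb] [IsScalarTower ℚ F Qb] in
/-- A Frobenius at a maximal ideal over an unramified prime is conjugate to any other one. -/
theorem isConj_of_isFrobPair {q : ℕ} {P : Ideal (𝓞 F)} {g : F ≃ₐ[ℚ] F} (h : IsFrobPair q P g)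
    {Q : Ideal (𝓞 F)} (hQ : Q.IsMaximal) (hqQ : (q : 𝓞 F) ∈ Q) {τ : F ≃ₐ[ℚ] F}
    (hτ : IsArithFrobAt ℤ τ Q) : IsConj g τ := by
  have hmem : Q ∈ (Ideal.span {(q : ℤ)}).primesOver (𝓞 F) :=
    ⟨hQ.isPrime, ⟨(FA.FrobeniusDensity.under_eq h.prime hQ.ne_top hqQ).symm⟩⟩
  rw [FA.FrobeniusDensity.primesOver_eq_orbit h] at hmem
  obtain ⟨x, rfl⟩ := hmem
  refine isConj_iff.mpr ⟨x, ?_⟩
  have h1 := (h.conj x).inertia _ fun y =>
    IsArithFrobAt.mul_inv_mem_inertia
      (FA.FrobeniusDensity.IsFrobPair.isArithFrobAt (h.conj x)) hτ y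
  exact mul_inv_eq_one.mp h1

theorem hasDirichletDensity_isArithFrobAt (C : Set (F ≃ₐ[ℚ] F))
    (hC : ∀ g ∈ C, ∀ x, x * g * x⁻¹ ∈ C) :
    {v : HeightOneSpectrum (𝓞 ℚ) | ∃ Q : Ideal (𝓞 F), Q.IsMaximal ∧
      (Ideal.absNorm v.asIdeal : 𝓞 F) ∈ Q ∧ ∃ τ ∈ C, IsArithFrobAt ℤ τ Q}.HasDirichletDensity
      ((Nat.card C : ℝ) / Nat.card (F ≃ₐ[ℚ] F)) := by
  classical
  let π : GQ →* (F ≃ₐ[ℚ] F) := AlgEquiv.restrictNormalHom F
  have hπ : Function.Surjective π := AlgEquiv.restrictNormalHom_surjective (F := ℚ) (K₁ := F) Qb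
  let e : GQ ⧸ π.ker ≃* (F ≃ₐ[ℚ] F) := QuotientGroup.quotientKerEquivOfSurjective π hπ
  let _ : Fintype (GQ ⧸ π.ker) := Fintype.ofEquiv _ e.symm.toEquiv
  have he : ∀ σ : GQ, e (QuotientGroup.mk' π.ker σ) = π σ := fun σ => rfl
  have hd := hasDirichletDensity_frobSet (QuotientGroup.mk' π.ker)
    (QuotientGroup.mk'_surjective _) (by rw [QuotientGroup.ker_mk']; exact isOpen_ker_restrict)
    (X := e ⁻¹' C) fun g hg x => by
      show e (x * g * x⁻¹) ∈ C
      rw [map_mul, map_mul, map_inv]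
      exact hC _ hg _
  rw [show Nat.card (e ⁻¹' C : Set (GQ ⧸ π.ker)) = Nat.card C from
      Nat.card_congr (e.toEquiv.subtypeEquiv fun _ => Iff.rfl),
    ← Nat.card_eq_fintype_card, Nat.card_congr e.toEquiv] at hd
  obtain ⟨m₀, hm0, hm⟩ := exists_unramified F
  have hfin : {v : HeightOneSpectrum (𝓞 ℚ) | Ideal.absNorm v.asIdeal ∣ m₀}.Finite := by
    refine ((Set.Finite.biUnion (t := fun d => {I : Ideal (𝓞 ℚ) | Ideal.absNorm I = d})
      m₀.divisors.finite_toSet fun d _ => Ideal.finite_setOfPred_absNorm_eq (S := 𝓞 ℚ) d).preimage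
      fun v _ w _ h => HeightOneSpectrum.ext h).subset fun v hv => ?_
    exact Set.mem_iUnion₂.mpr ⟨_, Finset.mem_coe.mpr (Nat.mem_divisors.mpr ⟨hv, hm0⟩), rfl⟩
  refine hasDirichletDensity_congr (hfin.subset ?_) (hfin.subset ?_) hd
  · rintro v ⟨⟨Q, hQ, hqQ, τ, hτ, hτQ⟩, hv⟩
    by_contra hdvd
    refine hv fun A hA σ hσ => ?_
    obtain ⟨P, hP⟩ := exists_isFrobPair_restrict (F := F) (absNorm_prime v)
      (fun P hP hqP => hm _ P (absNorm_prime v) hP hqP hdvd) hA hσ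
    obtain ⟨x, hx⟩ := isConj_iff.mp (isConj_of_isFrobPair hP hQ hqQ hτQ).symm
    show π σ ∈ C
    rw [show π σ = σ.restrictNormal F from rfl, ← hx]
    exact hC _ hτ _
  · rintro v ⟨hv, hv'⟩
    by_contra hdvd
    obtain ⟨A, hA⟩ := FA.Deform.exists_liesOverPrime (absNorm_prime v)
    obtain ⟨σ, hσ⟩ := FA.Deform.exists_isFrobeniusAt (absNorm_prime v) hA
    obtain ⟨P, hP⟩ := exists_isFrobPair_restrict (F := F) (absNorm_prime v)
      (fun P hP hqP => hm _ P (absNorm_prime v) hP hqP hdvd) hA hσ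
    exact hv' ⟨P, hP.isMaximal, hP.mem, _, hv A hA σ hσ,
      FA.FrobeniusDensity.IsFrobPair.isArithFrobAt hP⟩

/-- A set of positive density is infinite. -/
theorem infinite_of_hasDirichletDensity {S : Set (HeightOneSpectrum (𝓞 ℚ))} {δ : ℝ}
    (h : S.HasDirichletDensity δ) (hδ : δ ≠ 0) : S.Infinite := fun hfin =>
  hδ (tendsto_nhds_unique h (hasDirichletDensity_congr (T := (∅ : Set (HeightOneSpectrum (𝓞 ℚ))))
    (by simpa using hfin) (by simp) Set.hasDirichletDensity_empty))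

theorem infinite_isArithFrobAt (σ : F ≃ₐ[ℚ] F) :
    {q : ℕ | q.Prime ∧ ∃ Q : Ideal (𝓞 F), Q.IsMaximal ∧ (q : 𝓞 F) ∈ Q ∧
      Q.inertia (F ≃ₐ[ℚ] F) = ⊥ ∧ IsArithFrobAt ℤ σ Q}.Infinite := by
  classical
  have hd := infinite_of_hasDirichletDensity
    (hasDirichletDensity_isArithFrobAt {τ | IsConj σ τ} fun g hg x =>
      hg.trans (isConj_iff.mpr ⟨x, rfl⟩))
    (by
      have : Nonempty {τ : F ≃ₐ[ℚ] F | IsConj σ τ} := ⟨⟨σ, IsConj.refl σ⟩⟩
      exact (div_pos (Nat.cast_pos.mpr Nat.card_pos) (Nat.cast_pos.mpr Nat.card_pos)).ne')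
  obtain ⟨m₀, hm0, hm⟩ := exists_unramified F
  intro hfin
  refine hd (((Set.Finite.biUnion (t := fun d => {I : Ideal (𝓞 ℚ) | Ideal.absNorm I = d})
    (hfin.union m₀.divisors.finite_toSet) fun d _ =>
      Ideal.finite_setOfPred_absNorm_eq (S := 𝓞 ℚ) d).preimage
    fun v _ w _ h => HeightOneSpectrum.ext h).subset ?_)
  rintro v ⟨Q, hQ, hqQ, τ, hτ, hτQ⟩
  refine Set.mem_iUnion₂.mpr ⟨Ideal.absNorm v.asIdeal, ?_, rfl⟩
  by_cases hdvd : Ideal.absNorm v.asIdeal ∣ m₀
  · exact Or.inr (Finset.mem_coe.mpr (Nat.mem_divisors.mpr ⟨hdvd, hm0⟩))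
  · obtain ⟨x, hx⟩ := isConj_iff.mp (hτ : IsConj σ τ)
    have hP : IsFrobPair (Ideal.absNorm v.asIdeal) Q τ := ⟨absNorm_prime v, hQ, hqQ,
      hm _ Q (absNorm_prime v) hQ hqQ hdvd, fun y => by
        have h1 := hτQ y
        rwa [FA.FrobeniusDensity.card_quotient_under (absNorm_prime v) hQ.ne_top hqQ] at h1⟩
    have hc := hP.conj x⁻¹
    rw [show x⁻¹ * τ * x⁻¹⁻¹ = σ by rw [← hx]; group] at hc
    exact Or.inl ⟨absNorm_prime v, x⁻¹ • Q, hc.isMaximal, hc.mem,
      (Subgroup.eq_bot_iff_forall _).mpr hc.inertia,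
      FA.FrobeniusDensity.IsFrobPair.isArithFrobAt hc⟩

end field

end FA.Chebotarev

namespace FA.Summary

open FA.Chebotarev

/-- **Chebotarev's density theorem over `ℚ`**: in a finite Galois extension `F/ℚ`, for a set `C` of
automorphisms stable under conjugation, the primes below a maximal ideal with an arithmetic
Frobenius in `C` have Dirichlet density `|C| / |Gal(F/ℚ)|`. -/
theorem chebotarev_density (F : Type*) [Field F] [NumberField F] [IsGalois ℚ F]
    (C : Set (F ≃ₐ[ℚ] F)) (hC : ∀ g ∈ C, ∀ x, x * g * x⁻¹ ∈ C) :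
    {v : HeightOneSpectrum (𝓞 ℚ) | ∃ Q : Ideal (𝓞 F), Q.IsMaximal ∧
      (Ideal.absNorm v.asIdeal : 𝓞 F) ∈ Q ∧ ∃ τ ∈ C, IsArithFrobAt ℤ τ Q}.HasDirichletDensity
      ((Nat.card C : ℝ) / Nat.card (F ≃ₐ[ℚ] F)) := by
  letI : Algebra F (AlgebraicClosure ℚ) :=
    (IsAlgClosed.lift : F →ₐ[ℚ] AlgebraicClosure ℚ).toRingHom.toAlgebra
  have : IsScalarTower ℚ F (AlgebraicClosure ℚ) :=
    IsScalarTower.of_algebraMap_eq fun r => (AlgHom.commutes _ r).symm
  exact hasDirichletDensity_isArithFrobAt C hC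

/-- **Chebotarev**: every automorphism of a finite Galois extension of `ℚ` is the arithmetic
Frobenius at an unramified maximal ideal over infinitely many primes. -/
theorem chebotarev_infinite (F : Type*) [Field F] [NumberField F] [IsGalois ℚ F]
    (σ : F ≃ₐ[ℚ] F) :
    {q : ℕ | q.Prime ∧ ∃ Q : Ideal (𝓞 F), Q.IsMaximal ∧ (q : 𝓞 F) ∈ Q ∧
      Q.inertia (F ≃ₐ[ℚ] F) = ⊥ ∧ IsArithFrobAt ℤ σ Q}.Infinite := by
  letI : Algebra F (AlgebraicClosure ℚ) :=
    (IsAlgClosed.lift : F →ₐ[ℚ] AlgebraicClosure ℚ).toRingHom.toAlgebra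
  have : IsScalarTower ℚ F (AlgebraicClosure ℚ) :=
    IsScalarTower.of_algebraMap_eq fun r => (AlgHom.commutes _ r).symm
  exact infinite_isArithFrobAt σ

end FA.Summary

end
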