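import Fermat.Agent.Frob.VarChange
import Fermat.Prelude.Def_FLTPrelim_Modularity
import Mathlib.AlgebraicGeometry.EllipticCurve.LFunction
import Mathlib.NumberTheory.Padics.HeightOneSpectrum
import Mathlib.NumberTheory.Padics.RingHoms
import Mathlib.RingTheory.IntegralClosure.IntegrallyClosed

/-!
# The local factor at a prime of good reduction

Two equations over a normal domain with unit discriminants of the same curve differ by a change
of variables over the domain; so the coefficient of Mathlib's local factor at a good prime is the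
trace of Frobenius of any integral model good at that prime.
-/

set_option autoImplicit false

noncomputable section

namespace FA.Root

open WeierstrassCurve

/-- Changes of variables between equations with unit discriminant are integral. -/
theorem exists_integral_change {R K : Type*} [CommRing R] [IsDomain R] [Field K] [Algebra R K]
    [IsFractionRing R K] [IsIntegrallyClosed R] (V J : WeierstrassCurve R) (D : VariableChange K)
    (hD : D • V.map (algebraMap R K) = J.map (algebraMap R K)) (hV : IsUnit V.Δ)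
    (hJ : IsUnit J.Δ) : ∃ D₀ : VariableChange R, D₀ • V = J := by
  have hinj := IsFractionRing.injective R K
  have mem : ∀ (x : K) (P : Polynomial R), P.Monic → P.eval₂ (algebraMap R K) x = 0 →
      ∃ a : R, algebraMap R K a = x := fun x P hP h => IsIntegrallyClosed.isIntegral_iff.mp ⟨P, hP, h⟩
  have hΔ := congrArg WeierstrassCurve.Δ hD
  rw [variableChange_Δ, map_Δ, map_Δ] at hΔ
  set f := algebraMap R K with hf
  set u := (D.u : K) with hu
  set y := ((D.u⁻¹ : Kˣ) : K) with hy
  have huy : u * y = 1 := D.u.mul_inv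
  obtain ⟨v, hv⟩ := hV
  obtain ⟨j, hj⟩ := hJ
  obtain ⟨a, ha⟩ := mem u (Polynomial.X ^ 12 - Polynomial.C ((v : R) * ((j⁻¹ : Rˣ) : R)))
    (Polynomial.monic_X_pow_sub_C _ (by norm_num)) (by
      have h1 : f j * f ((j⁻¹ : Rˣ) : R) = 1 := by rw [← map_mul, Units.mul_inv, map_one]
      rw [← hv, ← hj] at hΔ
      simp only [Polynomial.eval₂_sub, Polynomial.eval₂_pow, Polynomial.eval₂_X,
        Polynomial.eval₂_C, Polynomial.eval₂_mul, map_mul]
      have hp : u ^ 12 * y ^ 12 = 1 := by rw [← mul_pow, huy, one_pow]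
      linear_combination (-(u ^ 12)) * h1 - (u ^ 12 * f ((j⁻¹ : Rˣ) : R)) * hΔ +
        (f v * f ((j⁻¹ : Rˣ) : R)) * hp)
  obtain ⟨b, hb⟩ := mem y (Polynomial.X ^ 12 - Polynomial.C ((j : R) * ((v⁻¹ : Rˣ) : R)))
    (Polynomial.monic_X_pow_sub_C _ (by norm_num)) (by
      have h1 : f v * f ((v⁻¹ : Rˣ) : R) = 1 := by rw [← map_mul, Units.mul_inv, map_one]
      rw [← hv, ← hj] at hΔ
      simp only [Polynomial.eval₂_sub, Polynomial.eval₂_pow, Polynomial.eval₂_X,
        Polynomial.eval₂_C, Polynomial.eval₂_mul, map_mul]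
      linear_combination (-(y ^ 12)) * h1 + f ((v⁻¹ : Rˣ) : R) * hΔ)
  have hab : a * b = 1 := hinj (by rw [map_mul, ha, hb, map_one, huy])
  have hyu : ∀ n : ℕ, u ^ n * y ^ n = 1 := fun n => by rw [← mul_pow, huy, one_pow]
  -- `r`
  obtain ⟨r, hr⟩ := mem D.r (Polynomial.X ^ 4 + (Polynomial.C (-V.b₄) * Polynomial.X ^ 2 +
      Polynomial.C (-2 * V.b₆ - a ^ 6 * J.b₆) * Polynomial.X +
      Polynomial.C (a ^ 8 * J.b₈ - V.b₈))) (by
    apply Polynomial.monic_X_pow_add
    exact lt_of_le_of_lt (Polynomial.degree_quadratic_le) (by norm_num)) (by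
    have e8 := congrArg WeierstrassCurve.b₈ hD
    have e6 := congrArg WeierstrassCurve.b₆ hD
    simp only [variableChange_b₈, variableChange_b₆, map_b₂, map_b₄, map_b₆, map_b₈, ← hy] at e8 e6
    simp only [Polynomial.eval₂_add, Polynomial.eval₂_mul, Polynomial.eval₂_pow,
      Polynomial.eval₂_X, Polynomial.eval₂_C]
    simp only [map_sub, map_mul, map_neg, map_pow, map_ofNat,
      ha]
    linear_combination (u ^ 6 * D.r) * e6 - u ^ 8 * e8 -
      (D.r * (f V.b₆ + 2 * D.r * f V.b₄ + D.r ^ 2 * f V.b₂ + 4 * D.r ^ 3)) * hyu 6 +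
      (f V.b₈ + 3 * D.r * f V.b₆ + 3 * D.r ^ 2 * f V.b₄ + D.r ^ 3 * f V.b₂ + 3 * D.r ^ 4) * hyu 8)
  -- `s`
  obtain ⟨s, hs⟩ := mem D.s (Polynomial.X ^ 2 + (Polynomial.C V.a₁ * Polynomial.X +
      Polynomial.C (a ^ 2 * J.a₂ - V.a₂ - 3 * r))) (by
    apply Polynomial.monic_X_pow_add
    exact lt_of_le_of_lt (Polynomial.degree_linear_le) (by norm_num)) (by
    have e2 := congrArg WeierstrassCurve.a₂ hD
    simp only [variableChange_a₂, map_a₁, map_a₂, ← hy] at e2
    simp only [Polynomial.eval₂_add, Polynomial.eval₂_mul, Polynomial.eval₂_pow,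
      Polynomial.eval₂_X, Polynomial.eval₂_C]
    simp only [map_sub, map_mul, map_pow, map_ofNat, ha, hr]
    linear_combination (-(u ^ 2)) * e2 +
      (f V.a₂ - D.s * f V.a₁ + 3 * D.r - D.s ^ 2) * hyu 2)
  -- `t`
  obtain ⟨t, ht⟩ := mem D.t (Polynomial.X ^ 2 + (Polynomial.C (V.a₃ + r * V.a₁) * Polynomial.X +
      Polynomial.C (a ^ 6 * J.a₆ - V.a₆ - r * V.a₄ - r ^ 2 * V.a₂ - r ^ 3))) (by
    apply Polynomial.monic_X_pow_add
    exact lt_of_le_of_lt (Polynomial.degree_linear_le) (by norm_num)) (by
    have e6 := congrArg WeierstrassCurve.a₆ hD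
    simp only [variableChange_a₆, map_a₁, map_a₂, map_a₃, map_a₄, map_a₆, ← hy] at e6
    simp only [Polynomial.eval₂_add, Polynomial.eval₂_mul, Polynomial.eval₂_pow,
      Polynomial.eval₂_X, Polynomial.eval₂_C]
    simp only [map_sub, map_add, map_mul, map_pow, ha, hr]
    linear_combination (-(u ^ 6)) * e6 + (f V.a₆ + D.r * f V.a₄ + D.r ^ 2 * f V.a₂ + D.r ^ 3
      - D.t * f V.a₃ - D.t ^ 2 - D.r * D.t * f V.a₁) * hyu 6)
  let D₀ : VariableChange R := ⟨⟨a, b, hab, by rw [mul_comm, hab]⟩, r, s, t⟩
  refine ⟨D₀, WeierstrassCurve.map_injective hinj ?_⟩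
  have e : D₀.map f = D := VariableChange.ext (Units.ext ha) hr hs ht
  show (D₀ • V).map f = J.map f
  rw [← WeierstrassCurve.map_variableChange, e, hD]

/-- Points are transported by isomorphisms of fields. -/
theorem natCard_point_map {F L : Type*} [Field F] [Field L] (e : F ≃+* L)
    (W : WeierstrassCurve F) :
    Nat.card (W.map (e : F →+* L)).toAffine.Point = Nat.card W.toAffine.Point := by
  refine Nat.card_congr ((Affine.nonsingularPointEquiv _).trans ((Equiv.optionCongr ?_).trans
    (Affine.nonsingularPointEquiv _).symm))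
  refine ((e.toEquiv.prodCongr e.toEquiv).subtypeEquiv fun P => ?_).symm
  exact (Affine.map_nonsingular W.toAffine (f := (e : F →+* L)) e.injective P.1 P.2).symm

open IsLocalRing in
/-- Reductions of two equations with unit discriminant have the same number of points. -/
theorem natCard_residue_point_eq {R K : Type*} [CommRing R] [IsDomain R] [IsLocalRing R] [Field K]
    [Algebra R K] [IsFractionRing R K] [IsIntegrallyClosed R] (V J : WeierstrassCurve R)
    (D : VariableChange K) (hD : D • V.map (algebraMap R K) = J.map (algebraMap R K))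
    (hV : IsUnit V.Δ) (hJ : IsUnit J.Δ) :
    Nat.card (J.map (residue R)).toAffine.Point = Nat.card (V.map (residue R)).toAffine.Point := by
  classical
  obtain ⟨D₀, h⟩ := exists_integral_change V J D hD hV hJ
  have h' : D₀.map (residue R) • V.map (residue R) = J.map (residue R) := by
    rw [WeierstrassCurve.map_variableChange, h]
  have : (V.map (residue R)).IsElliptic := ⟨by rw [map_Δ]; exact hV.map _⟩
  have : (J.map (residue R)).IsElliptic := ⟨by rw [map_Δ]; exact hJ.map _⟩
  exact Nat.card_congr (FA.Frob.vcEquiv _ h').toEquiv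

open IsLocalRing IsDedekindDomain.HeightOneSpectrum IsDiscreteValuationRing in
/-- The coefficient of the local factor at a good prime, over a discrete valuation ring with
residue field `ℤ/p`. -/
theorem coeff_localPowerSeries_of_good {R K : Type*} [CommRing R] [IsDomain R]
    [IsDiscreteValuationRing R] [Field K] [Algebra R K] [IsFractionRing R K] {p : ℕ}
    [Fact p.Prime] (e : ResidueField R ≃+* ZMod p) (W : WeierstrassCurve ℤ)
    (hp : ¬ (p : ℤ) ∣ W.Δ) (E : WeierstrassCurve K) (C : VariableChange K)
    (hC : C • E = W.map (Int.castRingHom K)) :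
    Nat.card (ResidueField R) = p ∧
      PowerSeries.coeff 1 (E.localPowerSeries R) = W.apOfModel p := by
  have hcard : Nat.card (ResidueField R) = p := by
    rw [Nat.card_congr e.toEquiv, Nat.card_zmod]
  refine ⟨hcard, ?_⟩
  set V := W.map (Int.castRingHom R) with hV
  have hVK : V.map (algebraMap R K) = W.map (Int.castRingHom K) := by
    rw [hV, WeierstrassCurve.map_map]
    congr 1
    exact RingHom.ext_int _ _
  have hVu : IsUnit V.Δ := by
    by_contra hn
    have h0 : residue R V.Δ = 0 := (residue_eq_zero_iff _).mpr ((mem_maximalIdeal _).mpr hn)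
    rw [hV, map_Δ, eq_intCast, map_intCast] at h0
    have h1 := congrArg e h0
    rw [map_intCast, map_zero, ZMod.intCast_zmod_eq_zero_iff_dvd] at h1
    exact hp h1
  -- the minimal model
  obtain ⟨C', hC'⟩ : ∃ C' : VariableChange K, C' • V.map (algebraMap R K) = E.minimal R :=
    ⟨(E.exists_isMinimal R).choose * C⁻¹, by rw [hVK, ← hC, mul_smul, inv_smul_smul]; rfl⟩
  set J := integralModel R (E.minimal R) with hJ
  have hJK : J.map (algebraMap R K) = E.minimal R := baseChange_integralModel_eq R _
  have hJu : IsUnit J.Δ := by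
    have hval : ∀ x : R, IsDedekindDomain.HeightOneSpectrum.valuation K
        (IsDiscreteValuationRing.maximalIdeal R) (algebraMap R K x) = 1 ↔ IsUnit x := fun x => by
      constructor
      · intro h1
        by_contra hn
        exact ((valuation_lt_one_iff_mem _ x).mpr ((mem_maximalIdeal x).mpr hn)).ne h1
      · intro hx
        refine le_antisymm (valuation_le_one _ x) (not_lt.mp fun hlt => ?_)
        exact (mem_maximalIdeal x).mp ((valuation_lt_one_iff_mem _ x).mp hlt) hx
    refine (hval _).mp (le_antisymm (valuation_le_one _ _) ?_)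
    rw [integralModel_Δ_eq]
    have h0 : C'⁻¹ • E.minimal R = V.map (algebraMap R K) := by rw [← hC', inv_smul_smul]
    have hint : IsIntegral R (C'⁻¹ • E.minimal R) := h0 ▸ ⟨V, rfl⟩
    have h1 : ((valuation_Δ_aux R (C'⁻¹ • E.minimal R)) : WithZero (Multiplicative ℤ)) = 1 := by
      rw [valuation_Δ_aux_eq_of_isIntegral, h0, map_Δ]
      exact (hval _).mpr hVu
    have hmax := (IsMinimal.val_Δ_maximal (R := R) (W := E.minimal R)).2 (j := C'⁻¹) hint
    simp only [one_smul] at hmax
    rcases le_total (valuation_Δ_aux R (C'⁻¹ • E.minimal R))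
      (valuation_Δ_aux R (E.minimal R)) with h | h
    · have h' : ((valuation_Δ_aux R (C'⁻¹ • E.minimal R)) : WithZero (Multiplicative ℤ)) ≤
          valuation_Δ_aux R (E.minimal R) := h
      rwa [h1, valuation_Δ_aux_eq_of_isIntegral] at h'
    · have h' : ((valuation_Δ_aux R (C'⁻¹ • E.minimal R)) : WithZero (Multiplicative ℤ)) ≤
          valuation_Δ_aux R (E.minimal R) := hmax h
      rwa [h1, valuation_Δ_aux_eq_of_isIntegral] at h'
  have hgood : (E.minimal R).HasGoodReduction R :=
    (hasGoodReduction_iff_isElliptic_reduction (R := R)).mpr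
      ⟨by rw [reduction, map_Δ]; exact hJu.map _⟩
  have hpts : Nat.card ((E.minimal R).reduction R).toAffine.Point =
      Nat.card (W.reductionMod p).toAffine.Point := by
    rw [show (E.minimal R).reduction R = J.map (residue R) from rfl,
      natCard_residue_point_eq V J C' (hC'.trans hJK.symm) hVu hJu,
      ← natCard_point_map e (V.map (residue R))]
    rw [hV, WeierstrassCurve.map_map, WeierstrassCurve.map_map,
      show (((e : ResidueField R →+* ZMod p).comp (residue R)).comp (Int.castRingHom R)) =
        Int.castRingHom (ZMod p) from RingHom.ext_int _ _]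
    rfl
  rw [localPowerSeries, localPolynomial, if_pos hgood, hcard, hpts]
  set a : ℤ := (p : ℤ) + 1 - (Nat.card (W.reductionMod p).toAffine.Point) with ha
  have hap : W.apOfModel p = a := by
    rw [ha, apOfModel, traceOfFrobenius, Nat.card_zmod, WeierstrassCurve.card]
  set P : Polynomial ℤ :=
    1 - Polynomial.C a * Polynomial.X + Polynomial.C (p : ℤ) * Polynomial.X ^ 2 with hP
  have h0 : PowerSeries.constantCoeff (P : PowerSeries ℤ) = ((1 : ℤˣ) : ℤ) := by
    simp [hP]
  have hmul := congrArg (PowerSeries.coeff 1) (PowerSeries.mul_invOfUnit (P : PowerSeries ℤ) 1 h0)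
  rw [PowerSeries.coeff_mul, show Finset.antidiagonal 1 = {(0, 1), (1, 0)} from rfl,
    Finset.sum_pair (by decide), PowerSeries.coeff_zero_eq_constantCoeff, h0,
    PowerSeries.constantCoeff_invOfUnit, PowerSeries.coeff_one, if_neg one_ne_zero,
    Polynomial.coeff_coe] at hmul
  have h1 : P.coeff 1 = -a := by simp [hP, Polynomial.coeff_one]
  rw [h1] at hmul
  simp only [inv_one, Units.val_one, one_mul, mul_one] at hmul
  rw [hap]
  linarith

end FA.Root

end
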