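import Fermat.Agent.Root.GlobalModel
import Fermat.Agent.Root.LFunctionFormLocal

/-!
# The L-function at a good prime

The coefficient of Mathlib's `WeierstrassCurve.LFunction` at a prime of good reduction of an
integral model is the trace of Frobenius of the model.
-/

set_option autoImplicit false

noncomputable section

namespace FA.Root

open WeierstrassCurve IsDedekindDomain NumberField ArithmeticFunction
open Rat.HeightOneSpectrum (primesEquiv)

/-- A product of arithmetic functions that are `1` at `1`, evaluated at a prime. -/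
theorem prod_apply_prime {ι : Type*} (s : Finset ι) (f : ι → ArithmeticFunction ℤ)
    (hf : ∀ i, f i 1 = 1) {p : ℕ} (hp : p.Prime) :
    (∏ i ∈ s, f i) 1 = 1 ∧ (∏ i ∈ s, f i) p = ∑ i ∈ s, f i p := by
  classical
  induction s using Finset.induction_on with
  | empty => simp [hp.ne_one]
  | @insert a s ha ih =>
    rw [Finset.prod_insert ha, Finset.sum_insert ha]
    refine ⟨by simp [ArithmeticFunction.mul_apply, hf, ih.1], ?_⟩
    rw [ArithmeticFunction.mul_apply,
      Nat.sum_divisorsAntidiagonal (fun i j => f a i * (∏ x ∈ s, f x) j), hp.divisors,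
      Finset.sum_pair hp.one_lt.ne, Nat.div_one, Nat.div_self hp.pos, hf, ih.1, ih.2]
    ring

/-- The residue field at a prime of `ℚ`. -/
def residueEquivZMod (v : HeightOneSpectrum (𝓞 ℚ)) :
    IsLocalRing.ResidueField (v.adicCompletionIntegers ℚ) ≃+* ZMod (primesEquiv v : ℕ) :=
  haveI := Fact.mk (primesEquiv v).2
  (IsLocalRing.ResidueField.mapEquiv
    (Rat.HeightOneSpectrum.adicCompletionIntegers.padicIntEquiv v).toRingEquiv).trans
    PadicInt.residueField

theorem natCard_residueField (v : HeightOneSpectrum (𝓞 ℚ)) :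
    Nat.card (IsLocalRing.ResidueField (v.adicCompletionIntegers ℚ)) = (primesEquiv v : ℕ) := by
  rw [Nat.card_congr (residueEquivZMod v).toEquiv, Nat.card_zmod]

/-- The coefficient of the L-function at a good prime of an integral model. -/
theorem LFunction_apply_prime (E : WeierstrassCurve ℚ) (W : WeierstrassCurve ℤ)
    (hW : W.IsIntegralModelOf E) {p : ℕ} (hp : p.Prime) (hgood : ¬ (p : ℤ) ∣ W.Δ) :
    E.LFunction p = W.apOfModel p := by
  classical
  set f : HeightOneSpectrum (𝓞 ℚ) → ArithmeticFunction ℤ := fun v =>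
    (E.baseChange (v.adicCompletion ℚ)).localEulerFactor (v.adicCompletionIntegers ℚ) with hf
  set F : HeightOneSpectrum (𝓞 ℚ) → PowerSeries ℤ := fun v =>
    (E.baseChange (v.adicCompletion ℚ)).localPowerSeries (v.adicCompletionIntegers ℚ) with hF
  have hfF : ∀ v, f v = ofPowerSeries (primesEquiv v : ℕ) (F v) := fun v => by
    simp only [hf, hF, localEulerFactor, natCard_residueField]
  have h1 : ∀ v, f v 1 = 1 := fun v => by
    rw [hfF, ofPowerSeries_apply_one]
    simp [hF, localPowerSeries]
  have hzero : ∀ (v : HeightOneSpectrum (𝓞 ℚ)) (n : ℕ), 1 < n →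
      (∀ k : ℕ, (primesEquiv v : ℕ) ^ k ≠ n) → f v n = 0 := fun v n _ h => by
    rw [hfF, ofPowerSeries_apply (primesEquiv v).2.one_lt,
      Function.extend_apply' _ _ _ (fun ⟨k, hk⟩ => h k hk)]
    rfl
  have htend : ∀ n, ∀ᶠ v in Filter.cofinite, f v n = (1 : ArithmeticFunction ℤ) n := by
    intro n
    rcases n with _ | _ | n
    · simp
    · simp [h1]
    refine Filter.eventually_cofinite.mpr (Set.Finite.subset
      (((Set.finite_Iic (n + 2)).preimage (Nat.Primes.coe_nat_injective.injOn)).preimage
        (primesEquiv.injective.injOn)) fun v hv => ?_)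
    show (primesEquiv v : ℕ) ≤ n + 2
    by_contra hlt
    refine hv ?_
    rw [hzero v _ (by omega) fun k hk => ?_, ArithmeticFunction.one_apply_ne (by omega)]
    rcases k with _ | k
    · simp at hk
    · exact hlt (hk ▸ Nat.le_self_pow (Nat.succ_ne_zero k) _)
  set v₀ : HeightOneSpectrum (𝓞 ℚ) := primesEquiv.symm (⟨p, hp⟩ : Nat.Primes) with hv₀
  obtain ⟨s, hs, hmem⟩ := ((tendsTo_eulerProduct_of_tendsTo f htend p).and
    (Filter.eventually_ge_atTop {v₀})).exists
  have hp₀ : (primesEquiv v₀ : ℕ) = p :=
    congrArg Subtype.val (primesEquiv.apply_symm_apply (⟨p, hp⟩ : Nat.Primes))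
  have hL : E.LFunction = eulerProduct f := by
    unfold WeierstrassCurve.LFunction
    refine congrArg eulerProduct (funext fun v => ?_)
    show localEulerFactor _ (E.map _) = localEulerFactor _ (E.map _)
    congr 2
    exact Subsingleton.elim _ _
  rw [hL]
  rw [← hs, (prod_apply_prime s f h1 hp).2, Finset.sum_eq_single v₀]
  · have := Fact.mk (primesEquiv v₀).2
    rw [hfF]
    conv_lhs => arg 2; rw [← hp₀, ← pow_one (primesEquiv v₀ : ℕ)]
    rw [ofPowerSeries_apply_pow (primesEquiv v₀).2.one_lt, ← hp₀]
    obtain ⟨C, hC⟩ := hW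
    exact (coeff_localPowerSeries_of_good (residueEquivZMod v₀) W (hp₀ ▸ hgood) _
      (C.map (algebraMap ℚ (v₀.adicCompletion ℚ))) (by
        show C.map _ • E.map _ = _
        rw [WeierstrassCurve.map_variableChange, hC, WeierstrassCurve.map_map]
        congr 1
        exact RingHom.ext_int _ _)).2
  · intro v _ hv
    refine hzero v p hp.one_lt fun k hk => hv ?_
    refine primesEquiv.injective (Subtype.ext ?_)
    rw [hp₀]
    rcases k with _ | k
    · exact absurd hk.symm hp.ne_one
    · have hdvd : (primesEquiv v : ℕ) ∣ p := hk ▸ dvd_pow_self _ (Nat.succ_ne_zero k)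
      exact (Nat.prime_dvd_prime_iff_eq (primesEquiv v).2 hp).mp hdvd
  · exact fun h => absurd (Finset.singleton_subset_iff.mp hmem) h

end FA.Root

end
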