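import Fermat.Agent.Root.LFunctionAll
import Fermat.Agent.S07
import Fermat.Agent.S08

/-!
# No elliptic curve over `ℚ` has good reduction everywhere

A semistable elliptic curve over `ℚ` has bad reduction at some odd prime, as there is no cusp
form of weight two and level `1` or `2`. In particular none has good reduction at every prime.
-/

set_option autoImplicit false

noncomputable section

namespace FA.Root

open WeierstrassCurve CongruenceSubgroup

/-- A multiplicative prime of an integral equation is not a prime of good reduction. -/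
theorem not_hasGoodReduction_of_bad {E : WeierstrassCurve ℚ} {W : WeierstrassCurve ℤ}
    (hW : W.IsIntegralModelOf E) {p : ℕ} [Fact p.Prime] (hΔ : (p : ℤ) ∣ W.Δ)
    (hc : ¬ (p : ℤ) ∣ W.c₄) (C : VariableChange ℚ_[p]) :
    ¬ HasGoodReduction ℤ_[p] (C • E.map (algebraMap ℚ ℚ_[p])) := by
  intro h
  obtain ⟨C₀, hC₀⟩ := hW
  have : IsMinimal ℤ_[p] (C • E.map (algebraMap ℚ ℚ_[p])) := h.toIsMinimal
  set V := integralModel ℤ_[p] (C • E.map (algebraMap ℚ ℚ_[p])) with hVdef
  have hD : (C * (C₀.map (algebraMap ℚ ℚ_[p]))⁻¹) • W.map (Int.castRingHom ℚ_[p]) =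
      C • E.map (algebraMap ℚ ℚ_[p]) := by
    have h1 : W.map (Int.castRingHom ℚ_[p]) =
        (C₀.map (algebraMap ℚ ℚ_[p])) • E.map (algebraMap ℚ ℚ_[p]) := by
      rw [WeierstrassCurve.map_variableChange, hC₀, WeierstrassCurve.map_map]
      congr 1
    rw [h1, mul_smul, inv_smul_smul]
  set D := C * (C₀.map (algebraMap ℚ ℚ_[p]))⁻¹
  have hVΔ : ¬ (p : ℤ_[p]) ∣ V.Δ := fun hv => by
    have h1 : IsDedekindDomain.HeightOneSpectrum.valuation ℚ_[p]
        (IsDiscreteValuationRing.maximalIdeal ℤ_[p]) (algebraMap ℤ_[p] ℚ_[p] V.Δ) < 1 := by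
      rw [IsDedekindDomain.HeightOneSpectrum.valuation_lt_one_iff_mem]
      show V.Δ ∈ IsLocalRing.maximalIdeal ℤ_[p]
      rw [PadicInt.maximalIdeal_eq_span_p, Ideal.mem_span_singleton]
      exact hv
    exact h1.ne (by rw [hVdef, integralModel_Δ_eq]; exact h.goodReduction)
  have hVn : ‖(D • W.map (Int.castRingHom ℚ_[p])).Δ‖ = 1 := by
    rw [hD, ← integralModel_Δ_eq ℤ_[p]]
    show ‖((V.Δ : ℤ_[p]) : ℚ_[p])‖ = 1
    rw [← PadicInt.norm_def]
    refine le_antisymm (PadicInt.norm_le_one _) (not_lt.mp fun hlt => hVΔ ?_)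
    exact (PadicInt.norm_lt_one_iff_dvd _).mp hlt
  have hVc : ‖(D • W.map (Int.castRingHom ℚ_[p])).c₄‖ ≤ 1 := by
    rw [hD, ← integralModel_c₄_eq ℤ_[p]]
    exact PadicInt.norm_le_one _
  have hWΔ : ‖((W.Δ : ℤ) : ℚ_[p])‖ < 1 := (Padic.norm_intCast_lt_one_iff).mpr hΔ
  have hWc : ‖((W.c₄ : ℤ) : ℚ_[p])‖ = 1 := by
    refine le_antisymm (Padic.norm_int_le_one _) (not_lt.mp fun hlt => hc ?_)
    exact (Padic.norm_intCast_lt_one_iff).mp hlt
  rw [variableChange_Δ, map_Δ, norm_mul, norm_pow, eq_intCast] at hVn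
  rw [variableChange_c₄, map_c₄, norm_mul, norm_pow, eq_intCast, hWc, mul_one] at hVc
  have hu : ‖(↑D.u⁻¹ : ℚ_[p])‖ ≤ 1 := (pow_le_one_iff_of_nonneg (norm_nonneg _) four_ne_zero).mp hVc
  exact absurd hVn (ne_of_lt ((mul_le_of_le_one_left (norm_nonneg _)
    (pow_le_one₀ (norm_nonneg _) hu)).trans_lt hWΔ))

/-- **A semistable elliptic curve over `ℚ` has bad reduction at an odd prime.** -/
theorem exists_odd_bad_prime (E : WeierstrassCurve ℚ) [E.IsElliptic]
    (h : ∀ p : ℕ, ∀ [Fact p.Prime], ∃ C : VariableChange ℚ_[p],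
      HasGoodReduction ℤ_[p] (C • E.map (algebraMap ℚ ℚ_[p])) ∨
        HasMultiplicativeReduction ℤ_[p] (C • E.map (algebraMap ℚ ℚ_[p]))) :
    ∃ (p : ℕ) (_ : Fact p.Prime), p ≠ 2 ∧ ∀ C : VariableChange ℚ_[p],
      ¬ HasGoodReduction ℤ_[p] (C • E.map (algebraMap ℚ ℚ_[p])) := by
  obtain ⟨W, N, f, hW, hs, hsq, hN, hf, -⟩ := exists_newform_LFunction E h
  by_contra hcon
  have h2 : ∀ q ∈ N.primeFactors, q = 2 := fun q hq => by
    obtain ⟨hqp, hqN, -⟩ := Nat.mem_primeFactors.mp hq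
    by_contra hq2
    have := Fact.mk hqp
    have hd := (hN q hqp).mp hqN
    exact hcon ⟨q, this, hq2, fun C =>
      not_hasGoodReduction_of_bad hW hd (hs q hqp hd) C⟩
  have hN2 : N ∣ 2 := by
    rw [← Nat.prod_primeFactors_of_squarefree hsq]
    exact Finset.prod_primes_dvd 2 (fun q hq => (Nat.prime_of_mem_primeFactors hq).prime)
      fun q hq => (h2 q hq).symm ▸ dvd_rfl
  apply hf.ne_zero
  rcases (Nat.dvd_prime Nat.prime_two).mp hN2 with rfl | rfl
  · exact Fermat.Agent.S08.result f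
  · exact Fermat.Agent.S07.result f

/-- **No elliptic curve over `ℚ` has good reduction at every prime.** -/
theorem not_forall_hasGoodReduction (E : WeierstrassCurve ℚ) [E.IsElliptic] :
    ¬ ∀ p : ℕ, ∀ [Fact p.Prime], ∃ C : VariableChange ℚ_[p],
      HasGoodReduction ℤ_[p] (C • E.map (algebraMap ℚ ℚ_[p])) := by
  intro h
  obtain ⟨p, hp, -, hbad⟩ := exists_odd_bad_prime E fun q _ =>
    ⟨(h q).choose, Or.inl (h q).choose_spec⟩
  obtain ⟨C, hC⟩ := h p
  exact hbad C hC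

end FA.Root

end
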