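import Fermat.Agent.Root.LFunctionAll
import Mathlib.NumberTheory.ModularForms.LFunction

/-!
# Analytic continuation of the L-function of a semistable elliptic curve

The L-series of an elliptic curve over `ℚ` with good or multiplicative reduction at every prime
converges for `2 < re s` and extends to an entire function.
-/

set_option autoImplicit false

noncomputable section

namespace FA.Root

open WeierstrassCurve

/-- The L-series of a cusp form of weight two on `Γ₀(N)` extends to an entire function. -/
theorem exists_differentiable_eq_LSeries_qCoeff {N : ℕ} [NeZero N]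
    (f : CuspForm (CongruenceSubgroup.Gamma0 N) 2) :
    ∃ g : ℂ → ℂ, Differentiable ℂ g ∧
      ∀ s : ℂ, 2 < s.re → LSeriesHasSum (ModularFormClass.qCoeff f) s (g s) := by
  refine ⟨ModularForm.L (Γ := (CongruenceSubgroup.Gamma0 N : Subgroup (GL (Fin 2) ℝ))) (k := 2) two_pos f,
    CuspForm.differentiable_L two_pos f, fun s hs => ?_⟩
  have h := CuspForm.hasSum_L (k := 2) two_pos f (s := s) (by norm_num; exact hs)
  rw [CongruenceSubgroup.strictWidthInfty_Gamma0, Complex.ofReal_one, Complex.one_cpow,
    one_mul] at h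
  have hs0 : s ≠ 0 := fun e => by rw [e, Complex.zero_re] at hs; linarith
  have hterm : LSeries.term (ModularFormClass.qCoeff f) s =
      fun n : ℕ => (UpperHalfPlane.qExpansion 1 f).coeff n / (n : ℂ) ^ s := by
    funext n
    rcases eq_or_ne n 0 with rfl | hn
    · simp [Complex.zero_cpow hs0]
    · rw [LSeries.term_of_ne_zero hn]; rfl
  show HasSum (LSeries.term (ModularFormClass.qCoeff f) s) _
  rw [hterm]
  exact h

/-- **The L-function of a semistable elliptic curve over `ℚ` is entire.** -/
theorem exists_differentiable_eq_LSeries_of_semistable (E : WeierstrassCurve ℚ) [E.IsElliptic]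
    (h : ∀ p : ℕ, ∀ [Fact p.Prime], ∃ C : VariableChange ℚ_[p],
      HasGoodReduction ℤ_[p] (C • E.map (algebraMap ℚ ℚ_[p])) ∨
        HasMultiplicativeReduction ℤ_[p] (C • E.map (algebraMap ℚ ℚ_[p]))) :
    ∃ g : ℂ → ℂ, Differentiable ℂ g ∧ ∀ s : ℂ, 2 < s.re →
      LSeriesSummable ((↑) ∘ E.LFunction) s ∧ E.LSeries s = g s := by
  obtain ⟨W, N, f, -, -, hN, -, -, hn⟩ := exists_newform_LFunction E h
  have : NeZero N := ⟨hN.ne_zero⟩
  obtain ⟨g, hg, hgs⟩ := exists_differentiable_eq_LSeries_qCoeff f
  have e : ((↑) ∘ E.LFunction : ℕ → ℂ) = ModularFormClass.qCoeff f :=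
    funext fun n => (hn n).symm
  refine ⟨g, hg, fun s hs => ⟨?_, ?_⟩⟩
  · rw [e]; exact (hgs s hs).LSeriesSummable
  · rw [WeierstrassCurve.LSeries, e]; exact (hgs s hs).LSeries_eq

end FA.Root

end
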