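import Fermat.Agent.Root.LFunctionFEAtkinLehner
import Fermat.Agent.Root.LFunctionEntire

/-!
# The functional equation of the L-function of a semistable elliptic curve

For an eigenform of squarefree level `N` whose coefficients at the primes of the level have square
one, the Fricke involution acts by `∏ (-a_q)`, hence the completed L-function satisfies
`Λ (2 - s) = -∏ (-a_q) Λ (s)`. Together with modularity this is the functional equation of the
L-function of an elliptic curve over `ℚ` with good or multiplicative reduction everywhere.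
-/

set_option autoImplicit false

noncomputable section

open UpperHalfPlane hiding I
open ModularForm CongruenceSubgroup Complex WeierstrassCurve
open scoped Real MatrixGroups

namespace FA.Root.FuncEq

open FA.Period

variable {N : ℕ} [NeZero N]

/-- An integral matrix of Atkin–Lehner type for the divisor `Q` of the level `N`. -/
def IsALMat (N Q : ℕ) (X : Matrix (Fin 2) (Fin 2) ℤ) : Prop :=
  (Q : ℤ) ∣ X 0 0 ∧ (Q : ℤ) ∣ X 1 1 ∧ (N : ℤ) ∣ X 1 0 ∧ X.det = Q

theorem exists_alMat {f : CuspForm (Gamma0 N) 2} (hf : f.IsNormalizedEigenform)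
    (hsq : Squarefree N)
    (ha : ∀ q : ℕ, q.Prime → q ∣ N → ModularFormClass.qCoeff f q ^ 2 = 1) (s : Finset ℕ)
    (hs : ∀ q ∈ s, q.Prime ∧ q ∣ N) :
    ∃ (X : Matrix (Fin 2) (Fin 2) ℤ) (h : X.det ≠ 0), IsALMat N (∏ q ∈ s, q) X ∧
      (⇑f) ∣[(2 : ℤ)] matR X h = (∏ q ∈ s, -ModularFormClass.qCoeff f q) • ⇑f := by
  classical
  induction s using Finset.induction_on with
  | empty =>
    refine ⟨(1 : SL(2, ℤ)).1, by simp, by simp [IsALMat], ?_⟩
    rw [matR_sl, ← SL_slash, SlashAction.slash_one]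
    simp
  | @insert q s hqs ih =>
    obtain ⟨X, hX, ⟨h00, h11, h10, hdet⟩, hact⟩ := ih fun r hr => hs r (Finset.mem_insert_of_mem hr)
    obtain ⟨hq, hqN⟩ := hs q (Finset.mem_insert_self q s)
    obtain ⟨M, hM⟩ : ∃ M, N = M * q := ⟨N / q, (Nat.div_mul_cancel hqN).symm⟩
    have hqM : ¬ q ∣ M := fun ⟨c, hc⟩ => hq.not_isUnit (hsq q ⟨c, by rw [hM, hc]; ring⟩)
    have : NeZero M := ⟨fun h => NeZero.ne N (by rw [hM, h, zero_mul])⟩
    obtain ⟨d⟩ := exists_alData M q hq hqM
    have hW : d.mat.det ≠ 0 := by rw [d.det_mat]; exact_mod_cast hq.ne_zero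
    have hop : (⇑f) ∣[(2 : ℤ)] matR d.mat hW = (-ModularFormClass.qCoeff f q) • ⇑f := by
      rw [← d.op_eq hq.ne_zero]
      refine d.op_eq_of_heckeU hq hqM (hM ▸ coe_mem_cuspForms f) (ha q hq hqN) ?_
      have h := congrArg (fun F : CuspForm (Gamma0 N) 2 => (F : ℍ → ℂ))
        (FA.JTorsion.heckeU_eigen hf hq hqN)
      simpa [FA.Deform.qLin_apply] using h
    -- the product of the level so far and `q` divides `N`
    have hdvd : (∏ r ∈ s, r) * q ∣ N := by
      rw [mul_comm, ← Finset.prod_insert (f := fun r => r) hqs]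
      exact Finset.prod_primes_dvd N (fun r hr => (hs r hr).1.prime) fun r hr => (hs r hr).2
    refine ⟨X * d.mat, by rw [Matrix.det_mul]; exact mul_ne_zero hX hW, ?_, ?_⟩
    · obtain ⟨b00, hb00⟩ := h00
      obtain ⟨b11, hb11⟩ := h11
      obtain ⟨b10, hb10⟩ := h10
      obtain ⟨k, hk⟩ := hdvd
      have hk' : (N : ℤ) = ((∏ r ∈ s, r : ℕ) : ℤ) * q * k := by exact_mod_cast hk
      have hM' : (N : ℤ) = (M : ℤ) * q := by exact_mod_cast hM
      push_cast at hk'
      rw [Finset.prod_insert hqs]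
      refine ⟨?_, ?_, ?_, ?_⟩
      · refine ⟨b00 * d.x + X 0 1 * k * d.z, ?_⟩
        simp only [Matrix.mul_apply, Fin.sum_univ_two, ALData.mat]
        simp [hb00]
        linear_combination (X 0 1 * d.z) * hk' - (X 0 1 * d.z) * hM'
      · refine ⟨b10 * d.y * k + b11 * d.w, ?_⟩
        simp only [Matrix.mul_apply, Fin.sum_univ_two, ALData.mat]
        simp [hb10, hb11]
        linear_combination (b10 * d.y) * hk'
      · refine ⟨b10 * (q * d.x) + X 1 1 * d.z, ?_⟩
        simp only [Matrix.mul_apply, Fin.sum_univ_two, ALData.mat]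
        simp [hb10]
        linear_combination -(X 1 1 * d.z) * hM'
      · rw [Matrix.det_mul, hdet, d.det_mat]
        push_cast
        ring
    · rw [matR_mul hX hW, SlashAction.slash_mul, hact, Finset.prod_insert hqs,
        ModularForm.smul_slash, hop, smul_smul]
      congr 1
      have hpos : (0 : ℝ) < ((matR d.mat hW).det : ℝ) := by
        rw [Matrix.GeneralLinearGroup.val_det_apply, val_matR, ← RingHom.mapMatrix_apply,
          ← RingHom.map_det, d.det_mat]
        simpa using hq.pos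
      simp only [σ, if_pos hpos]
      simp
      ring

/-- **The Fricke involution** acts on an eigenform of squarefree level by `∏ (-a_q)`. -/
theorem fricke_apply {f : CuspForm (Gamma0 N) 2} (hf : f.IsNormalizedEigenform)
    (hsq : Squarefree N)
    (ha : ∀ q : ℕ, q.Prime → q ∣ N → ModularFormClass.qCoeff f q ^ 2 = 1) (τ w : ℍ)
    (hw : (w : ℂ) = -1 / ((N : ℂ) * (τ : ℂ))) :
    f w = (∏ q ∈ N.primeFactors, -ModularFormClass.qCoeff f q) * ((N : ℂ) * (τ : ℂ) ^ 2) * f τ := by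
  obtain ⟨X, hX, ⟨h00, h11, h10, hdet⟩, hact⟩ := exists_alMat hf hsq ha N.primeFactors
    fun q hq => ⟨Nat.prime_of_mem_primeFactors hq, Nat.dvd_of_mem_primeFactors hq⟩
  rw [Nat.prod_primeFactors_of_squarefree hsq] at h00 h11 hdet
  obtain ⟨x, hx⟩ := h00
  obtain ⟨v, hv⟩ := h11
  obtain ⟨z, hz⟩ := h10
  have hN0 : (N : ℤ) ≠ 0 := Int.natCast_ne_zero.mpr (NeZero.ne N)
  have hdet1 : (-X 0 1) * z - x * (-((N : ℤ) * v)) = 1 := by
    have h := hdet
    rw [Matrix.det_fin_two, hx, hv, hz] at h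
    exact mul_left_cancel₀ hN0 (by linear_combination h)
  let γ : SL(2, ℤ) := ⟨!![-X 0 1, x; -((N : ℤ) * v), z], by
    rw [Matrix.det_fin_two_of]; exact hdet1⟩
  have hγ : γ ∈ Gamma0 N := by
    rw [Gamma0_mem]; simp [γ]
  let W : Matrix (Fin 2) (Fin 2) ℤ := !![0, -1; (N : ℤ), 0]
  have hW : W.det ≠ 0 := by simp [W, Matrix.det_fin_two_of, NeZero.ne N]
  have hγ1 : (γ : Matrix (Fin 2) (Fin 2) ℤ).det ≠ 0 := by rw [γ.det_coe]; norm_num
  have e : X = (γ : Matrix (Fin 2) (Fin 2) ℤ) * W := by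
    ext i j
    fin_cases i <;> fin_cases j <;> simp [γ, W, Matrix.mul_apply, hx, hv, hz] <;> ring
  simp only [e] at hact
  rw [matR_mul hγ1 hW, SlashAction.slash_mul, matR_sl, ← SL_slash,
    (coe_mem_cuspForms f).1.1 γ hγ] at hact
  have hpos : (0 : ℝ) < ((matR W hW).det : ℝ) := by
    rw [Matrix.GeneralLinearGroup.val_det_apply, Matrix.det_fin_two]
    simp [W, NeZero.pos N]
  have h := congrFun hact τ
  have hτ : matR W hW • τ = w := by
    ext
    rw [coe_smul_of_det_pos hpos, hw]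
    simp [num, denom, W]
  simp only [slash_def, σ, if_pos hpos, hτ, Pi.smul_apply, smul_eq_mul] at h
  have hd : denom (matR W hW) τ = (N : ℂ) * τ := by simp [denom, W]
  have hdetW : ((matR W hW).det : ℝ) = N := by
    rw [Matrix.GeneralLinearGroup.val_det_apply, Matrix.det_fin_two]
    simp [W]
  rw [hd, hdetW] at h
  have hτ0 : (τ : ℂ) ≠ 0 := τ.ne_zero
  have hNC : (N : ℂ) ≠ 0 := Nat.cast_ne_zero.mpr (NeZero.ne N)
  simp at h
  field_simp at h
  linear_combination h

/-- The completed L-function of a cusp form of weight two. -/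
def completed (f : CuspForm (Gamma0 N) 2) (s : ℂ) : ℂ :=
  ((Real.sqrt N : ℝ) : ℂ) ^ s *
    ModularForm.Λ (Γ := (Gamma0 N : Subgroup (GL (Fin 2) ℝ))) (k := 2) two_pos f s

theorem differentiable_completed (f : CuspForm (Gamma0 N) 2) :
    Differentiable ℂ (completed f) := by
  refine Differentiable.mul (differentiable_id.const_cpow (Or.inl ?_))
    (CuspForm.differentiable_Λ two_pos f)
  rw [Complex.ofReal_ne_zero]
  exact (Real.sqrt_pos.mpr (Nat.cast_pos.mpr (NeZero.pos N))).ne'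

theorem completed_eq_mellin (f : CuspForm (Gamma0 N) 2) (s : ℂ) :
    completed f s = mellin (fun t : ℝ => f (ofComplex (I * ((Real.sqrt N)⁻¹ * t : ℝ)))) s := by
  have hN : 0 < Real.sqrt N := Real.sqrt_pos.mpr (Nat.cast_pos.mpr (NeZero.pos N))
  rw [completed, CuspForm.Λ_eq_mellin two_pos f,
    mellin_comp_mul_left (fun t : ℝ => f (ofComplex (I * (t : ℂ)))) s (inv_pos.mpr hN), smul_eq_mul,
    Complex.ofReal_inv, inv_cpow _ _ (by
      rw [Complex.arg_ofReal_of_nonneg hN.le]; exact Real.pi_ne_zero.symm), cpow_neg, inv_inv]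

/-- **The functional equation** of an eigenform of squarefree level. -/
theorem completed_two_sub {f : CuspForm (Gamma0 N) 2} (hf : f.IsNormalizedEigenform)
    (hsq : Squarefree N)
    (ha : ∀ q : ℕ, q.Prime → q ∣ N → ModularFormClass.qCoeff f q ^ 2 = 1) (s : ℂ) :
    completed f (2 - s) =
      -(∏ q ∈ N.primeFactors, -ModularFormClass.qCoeff f q) * completed f s := by
  set c := ∏ q ∈ N.primeFactors, -ModularFormClass.qCoeff f q
  set φ : ℝ → ℂ := fun t => f (ofComplex (I * ((Real.sqrt N)⁻¹ * t : ℝ))) with hφ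
  have hN : 0 < Real.sqrt N := Real.sqrt_pos.mpr (Nat.cast_pos.mpr (NeZero.pos N))
  have hinv : ∀ t ∈ Set.Ioi (0 : ℝ), φ t⁻¹ = (t : ℂ) ^ (2 : ℂ) • ((-c) • φ t) := by
    intro t ht
    have ht : 0 < t := ht
    have h1 : 0 < (I * (((Real.sqrt N)⁻¹ * t : ℝ) : ℂ)).im := by
      simpa [NeZero.pos N] using mul_pos (inv_pos.mpr hN) ht
    have h2 : 0 < (I * (((Real.sqrt N)⁻¹ * t⁻¹ : ℝ) : ℂ)).im := by
      simpa [NeZero.pos N] using mul_pos (inv_pos.mpr hN) (inv_pos.mpr ht)
    simp only [hφ, ofComplex_apply_of_im_pos h1, ofComplex_apply_of_im_pos h2]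
    have hsq2 : ((Real.sqrt N : ℝ) : ℂ) ^ 2 = (N : ℂ) := by
      rw [← Complex.ofReal_pow, Real.sq_sqrt (Nat.cast_nonneg N), Complex.ofReal_natCast]
    have hs0 : ((Real.sqrt N : ℝ) : ℂ) ≠ 0 := Complex.ofReal_ne_zero.mpr hN.ne'
    have ht0 : (t : ℂ) ≠ 0 := Complex.ofReal_ne_zero.mpr ht.ne'
    rw [fricke_apply hf hsq ha ⟨_, h1⟩ ⟨_, h2⟩ (by
      push_cast
      rw [← hsq2]
      field_simp
      linear_combination Complex.I_sq)]
    generalize f ⟨_, h1⟩ = A
    push_cast
    simp only [smul_eq_mul, cpow_ofNat]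
    rw [← hsq2]
    field_simp
    linear_combination (c * A) * Complex.I_sq
  have hm : ∀ u : ℂ, completed f (-u) = (-c) * completed f (u + 2) := fun u => by
    rw [completed_eq_mellin, completed_eq_mellin, ← mellin_comp_inv]
    have e : mellin (fun t => φ t⁻¹) u = mellin (fun t => (t : ℂ) ^ (2 : ℂ) • ((-c) • φ t)) u :=
      MeasureTheory.setIntegral_congr_fun measurableSet_Ioi
        fun t ht => by simp only [hinv t ht]
    rw [e, mellin_cpow_smul, mellin_const_smul, smul_eq_mul]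
  rw [show 2 - s = -(s - 2) by ring, hm, sub_add_cancel]

theorem completed_eq_LSeries (f : CuspForm (Gamma0 N) 2) {s : ℂ} (hs : 2 < s.re) :
    completed f s = (N : ℂ) ^ (s / 2) * (2 * (π : ℂ)) ^ (-s) * Complex.Gamma s *
      LSeries (ModularFormClass.qCoeff f) s := by
  have h := CuspForm.hasSum_Λ (Γ := (Gamma0 N : Subgroup (GL (Fin 2) ℝ))) (k := 2) (f := f) two_pos
    (s := s) (by norm_num; exact hs)
  rw [CongruenceSubgroup.strictWidthInfty_Gamma0] at h
  have hs0 : s ≠ 0 := fun e => by rw [e, Complex.zero_re] at hs; linarith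
  have hterm : ∀ n : ℕ, (π : ℂ) ^ (-s) * Complex.Gamma s *
      (qExpansion 1 f).coeff n / ((2 * n / 1 : ℝ) : ℂ) ^ s =
      ((2 * (π : ℂ)) ^ (-s) * Complex.Gamma s) *
        LSeries.term (ModularFormClass.qCoeff f) s n := fun n => by
    rcases eq_or_ne n 0 with rfl | hn
    · simp [Complex.zero_cpow hs0]
    have e1 : ((2 * (n : ℝ) : ℝ) : ℂ) ^ s = ((2 : ℝ) : ℂ) ^ s * (n : ℂ) ^ s := by
      rw [Complex.ofReal_mul, mul_cpow_ofReal_nonneg two_pos.le (Nat.cast_nonneg n),
        Complex.ofReal_natCast]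
    have e2 : ((2 : ℂ) * (π : ℂ)) ^ (-s) = (((2 : ℝ) : ℂ) ^ s)⁻¹ * (π : ℂ) ^ (-s) := by
      rw [← Complex.ofReal_ofNat, mul_cpow_ofReal_nonneg two_pos.le Real.pi_pos.le, cpow_neg]
    rw [LSeries.term_of_ne_zero hn, div_one, e1, e2]
    simp only [ModularFormClass.qCoeff]
    field_simp
  have hL : LSeriesSummable (ModularFormClass.qCoeff f) s := by
    obtain ⟨g, -, hg⟩ := exists_differentiable_eq_LSeries_qCoeff f
    exact (hg s hs).LSeriesSummable
  have h2 := (hL.hasSum.mul_left ((2 * (π : ℂ)) ^ (-s) * Complex.Gamma s)).congr_fun hterm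
  rw [completed, h.unique h2]
  have e : ((Real.sqrt N : ℝ) : ℂ) ^ s = (N : ℂ) ^ (s / 2) := by
    have hN : 0 < Real.sqrt N := Real.sqrt_pos.mpr (Nat.cast_pos.mpr (NeZero.pos N))
    have e2 : ((Real.sqrt N : ℝ) : ℂ) ^ (2 : ℕ) = (N : ℂ) := by
      rw [← Complex.ofReal_pow, Real.sq_sqrt (Nat.cast_nonneg N), Complex.ofReal_natCast]
    rw [← e2, ← cpow_nat_mul' (x := ((Real.sqrt N : ℝ) : ℂ))]
    · congr 1; ring
    all_goals
      rw [Complex.arg_ofReal_of_nonneg hN.le]
      simp [Real.pi_pos, Real.pi_pos.le]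
  rw [e]
  simp only [LSeries]
  ring

end FA.Root.FuncEq

namespace FA.Root

open FuncEq

/-- **The functional equation of the L-function of a semistable elliptic curve over `ℚ`**, with its
sign in terms of the split and non-split primes. -/
theorem exists_completed_LSeries_functional_equation_sign (E : WeierstrassCurve ℚ) [E.IsElliptic]
    (h : ∀ p : ℕ, ∀ [Fact p.Prime], ∃ C : VariableChange ℚ_[p],
      HasGoodReduction ℤ_[p] (C • E.map (algebraMap ℚ ℚ_[p])) ∨
        HasMultiplicativeReduction ℤ_[p] (C • E.map (algebraMap ℚ ℚ_[p]))) :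
    ∃ (W : WeierstrassCurve ℤ) (N : ℕ) (Λ : ℂ → ℂ),
      W.IsIntegralModelOf E ∧ W.IsSemistableModel ∧ Squarefree N ∧
      (∀ q : ℕ, q.Prime → (q ∣ N ↔ (q : ℤ) ∣ W.Δ)) ∧ Differentiable ℂ Λ ∧
      (∀ s : ℂ, 2 < s.re →
        Λ s = (N : ℂ) ^ (s / 2) * (2 * (π : ℂ)) ^ (-s) * Complex.Gamma s * E.LSeries s) ∧
      ∀ s : ℂ, Λ (2 - s) = ((-∏ q ∈ N.primeFactors, -splitSign W q : ℤ) : ℂ) * Λ s := by
  obtain ⟨W, N, f, hW, hss, hsq, hN, hf, hn⟩ := exists_newform_LFunction E h
  have : NeZero N := ⟨hsq.ne_zero⟩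
  have hΔ : W.Δ ≠ 0 := FA.Frob.Δ_ne_zero_of_model hW
  have hbad : ∀ q : ℕ, q.Prime → q ∣ N →
      ModularFormClass.qCoeff f q = (splitSign W q : ℂ) := fun q hq hqN => by
    have hd := (hN q hq).mp hqN
    have e := LFunction_apply_prime_pow_mult E W hW hq hd hΔ (hss q hq hd) 1
    rw [pow_one, pow_one] at e
    rw [hn q, e]
  have ha : ∀ q : ℕ, q.Prime → q ∣ N → ModularFormClass.qCoeff f q ^ 2 = 1 := fun q hq hqN => by
    rw [hbad q hq hqN, splitSign]
    split_ifs <;> simp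
  refine ⟨W, N, completed f, hW, hss, hsq, hN, differentiable_completed f, fun s hs => ?_,
    fun s => ?_⟩
  · rw [completed_eq_LSeries f hs, WeierstrassCurve.LSeries]
    congr 1
    exact congrArg (LSeries · s) (funext fun n => hn n)
  · rw [completed_two_sub hf.1 hsq ha s]
    push_cast
    congr 2
    exact Finset.prod_congr rfl fun q hq => by
      rw [hbad q (Nat.prime_of_mem_primeFactors hq) (Nat.dvd_of_mem_primeFactors hq)]

/-- **The functional equation of the L-function of a semistable elliptic curve over `ℚ`.** -/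
theorem exists_completed_LSeries_functional_equation (E : WeierstrassCurve ℚ) [E.IsElliptic]
    (h : ∀ p : ℕ, ∀ [Fact p.Prime], ∃ C : VariableChange ℚ_[p],
      HasGoodReduction ℤ_[p] (C • E.map (algebraMap ℚ ℚ_[p])) ∨
        HasMultiplicativeReduction ℤ_[p] (C • E.map (algebraMap ℚ ℚ_[p]))) :
    ∃ (N : ℕ) (ε : ℂ) (Λ : ℂ → ℂ), Squarefree N ∧ (ε = 1 ∨ ε = -1) ∧ Differentiable ℂ Λ ∧
      (∀ s : ℂ, 2 < s.re →
        Λ s = (N : ℂ) ^ (s / 2) * (2 * (π : ℂ)) ^ (-s) * Complex.Gamma s * E.LSeries s) ∧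
      ∀ s : ℂ, Λ (2 - s) = ε * Λ s := by
  obtain ⟨W, N, Λ, -, -, hsq, -, hd, hs, hfe⟩ :=
    exists_completed_LSeries_functional_equation_sign E h
  refine ⟨N, _, Λ, hsq, ?_, hd, hs, hfe⟩
  have e : IsUnit (-∏ q ∈ N.primeFactors, -splitSign W q : ℤ) :=
    (IsUnit.prod_iff.mpr fun q _ => (by unfold splitSign; split_ifs <;> simp)).neg
  rcases Int.isUnit_iff.mp e with e | e <;> simp [e]

end FA.Root

end
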