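import Fermat.Agent.Root.SummaryTwistCriterion

/-!
# The criterion by the `j`-invariant at every prime

If at every prime, `2` and `3` included, `E` is semistable or `j` has a pole, then some quadratic
twist of `E` is semistable, hence `E` is modular and has no stable subgroup of prime order `≥ 11`.
The twist by `-c₄/c₆` is `y² + xy = x³ - 36 x/(j - 1728) - 1/(j - 1728)`, which is multiplicative
at every pole of `j`; twists by units congruent to one modulo four keep this.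
-/

set_option autoImplicit false

noncomputable section

open WeierstrassCurve

namespace FA.Root

open FA.Twists (quadTwist)

variable {p : ℕ} [Fact p.Prime]

/-- `N` is `p ^ (2 i)` times a unit, one modulo four when `p = 2`. -/
def NearSquare (p : ℕ) (N : ℤ) : Prop :=
  ∃ (i : ℕ) (X : ℤ), N = (p : ℤ) ^ (2 * i) * X ∧ ¬ (p : ℤ) ∣ X ∧ (p = 2 → X % 4 = 1)

/-- A twist of a semistable equation by a near square is semistable. -/
theorem isSemistableAt_quadTwist_of_nearSquare (E : WeierstrassCurve ℚ) (V : WeierstrassCurve ℤ_[p])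
    {l : ℚ_[p]} (h4 : (V.c₄ : ℚ_[p]) = l ^ 2 * (E.c₄ : ℚ_[p]))
    (h6 : (V.c₆ : ℚ_[p]) = l ^ 3 * (E.c₆ : ℚ_[p]))
    (hV : ¬ ((p : ℤ_[p]) ∣ V.Δ ∧ (p : ℤ_[p]) ∣ V.c₄))
    {D N : ℤ} {t : ℚ_[p]} (ht : t ≠ 0) (hD : (D : ℚ_[p]) = l * (N : ℚ_[p]) * t ^ 2)
    (hN : NearSquare p N) : IsSemistableAt (quadTwist E (D : ℚ)) p := by
  obtain ⟨i, X, rfl, hX, hX4⟩ := hN
  obtain ⟨k, hk⟩ : ∃ k : ℤ_[p], 4 * k + 1 = (X : ℤ_[p]) := by
    rcases eq_or_ne p 2 with rfl | hp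
    · obtain ⟨k, hk⟩ : ∃ k, X = 4 * k + 1 := ⟨X / 4, by have := hX4 rfl; omega⟩
      exact ⟨k, by rw [hk]; push_cast; ring⟩
    · have h4 : IsUnit ((4 : ℤ) : ℤ_[p]) := by
        rw [PadicInt.isUnit_iff]
        refine le_antisymm (PadicInt.norm_le_one _) (not_lt.mp fun h => hp ?_)
        rw [PadicInt.norm_intCast_lt_one_iff, show (4 : ℤ) = ((2 ^ 2 : ℕ) : ℤ) by norm_num,
          Int.natCast_dvd_natCast] at h
        exact (Nat.prime_dvd_prime_iff_eq Fact.out Nat.prime_two).mp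
          (Nat.Prime.dvd_of_dvd_pow Fact.out h)
      obtain ⟨k, hk⟩ := h4.dvd (a := (X : ℤ_[p]) - 1)
      exact ⟨k, by push_cast at hk; linear_combination -hk⟩
  set W := twistEquation V k with hW
  have c4' : W.c₄ = (X : ℤ_[p]) ^ 2 * V.c₄ := by
    simp only [hW, ← hk, twistEquation, WeierstrassCurve.c₄, b₂, b₄]; ring
  have c6' : W.c₆ = (X : ℤ_[p]) ^ 3 * V.c₆ := by
    simp only [hW, ← hk, twistEquation, WeierstrassCurve.c₆, b₂, b₄, b₆]; ring
  have Δ' : W.Δ = (X : ℤ_[p]) ^ 6 * V.Δ := by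
    simp only [hW, ← hk, twistEquation, WeierstrassCurve.Δ, b₂, b₄, b₆, b₈]; ring
  have hpi : (p : ℚ_[p]) ^ i ≠ 0 := pow_ne_zero _ (Nat.cast_ne_zero.mpr (Nat.Prime.ne_zero Fact.out))
  refine isSemistableAt_of_invariants _ W (w := 1 / (6 * ((p : ℚ_[p]) ^ i * t)))
    (one_div_ne_zero (mul_ne_zero (by norm_num) (mul_ne_zero hpi ht))) ?_ ?_ ?_
  · rw [c4', quadTwist_c₄]
    simp only [PadicInt.coe_mul, PadicInt.coe_pow, PadicInt.coe_intCast, h4]
    push_cast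
    rw [hD]
    push_cast
    field_simp
    ring
  · rw [c6', quadTwist_c₆]
    simp only [PadicInt.coe_mul, PadicInt.coe_pow, PadicInt.coe_intCast, h6]
    push_cast
    rw [hD]
    push_cast
    field_simp
    ring
  · have hunit : ¬ (p : ℤ_[p]) ∣ (X : ℤ_[p]) := fun hdvd => hX
      ((PadicInt.norm_intCast_lt_one_iff).mp ((PadicInt.norm_lt_one_iff_dvd _).mpr hdvd))
    rw [c4', Δ']
    rintro ⟨hΔ, hc⟩
    exact hV ⟨(PadicInt.prime_p.dvd_or_dvd hΔ).resolve_left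
        fun h' => hunit (PadicInt.prime_p.dvd_of_dvd_pow h'),
      (PadicInt.prime_p.dvd_or_dvd hc).resolve_left
        fun h' => hunit (PadicInt.prime_p.dvd_of_dvd_pow h')⟩

/-- A semistable curve stays semistable. -/
theorem isSemistableAt_twist_of_nearSquare (E : WeierstrassCurve ℚ) (h : IsSemistableAt E p)
    {D : ℤ} (hD : NearSquare p D) : IsSemistableAt (quadTwist E (D : ℚ)) p := by
  obtain ⟨C, V, hC, hV⟩ := h
  set u : ℚ_[p] := ((C.u⁻¹ : ℚ_[p]ˣ) : ℚ_[p]) with hu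
  have h4 : (V.c₄ : ℚ_[p]) = u ^ 4 * (E.c₄ : ℚ_[p]) := by
    rw [← eq_ratCast (algebraMap ℚ ℚ_[p]), ← map_c₄, ← variableChange_c₄, hC, map_c₄]; rfl
  have h6 : (V.c₆ : ℚ_[p]) = u ^ 6 * (E.c₆ : ℚ_[p]) := by
    rw [← eq_ratCast (algebraMap ℚ ℚ_[p]), ← map_c₆, hu, ← variableChange_c₆, hC, map_c₆]; rfl
  have hu0 : u ≠ 0 := Units.ne_zero _
  exact isSemistableAt_quadTwist_of_nearSquare E V (l := u ^ 2) (by rw [h4]; ring)
    (by rw [h6]; ring) hV (inv_ne_zero hu0) (by field_simp) hD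

/-- The square class of `-c₆ / c₄`, as an integer. -/
def twistClass (E : WeierstrassCurve ℚ) : ℤ := (-E.c₆ / E.c₄).num * (-E.c₆ / E.c₄).den

/-- At a pole of `j` the twists in the class of `-c₄ / c₆` are semistable. -/
theorem isSemistableAt_twist_of_pole (E : WeierstrassCurve ℚ) [E.IsElliptic]
    (hj : padicValRat p E.j < 0) :
    twistClass E ≠ 0 ∧ ∀ D : ℤ, D ≠ 0 → NearSquare p (D * twistClass E) →
      IsSemistableAt (quadTwist E (D : ℚ)) p := by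
  have hΔ : E.Δ ≠ 0 := E.isUnit_Δ.ne_zero
  have ej : E.j = E.c₄ ^ 3 / E.Δ := by
    rw [WeierstrassCurve.j, Units.val_inv_eq_inv_val, coe_Δ']; ring
  have hj0 : E.j ≠ 0 := fun e => by simp [e] at hj
  have hc4 : E.c₄ ≠ 0 := fun e => hj0 (by rw [ej, e]; simp)
  have hn : 1 < ‖(E.j : ℚ_[p])‖ := by
    rw [Padic.eq_padicNorm, padicNorm.eq_zpow_of_nonzero hj0]
    push_cast
    exact one_lt_zpow₀ (by exact_mod_cast (Nat.Prime.one_lt Fact.out)) (by omega)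
  have hlt : ‖((-1728 : ℤ) : ℚ_[p])‖ < ‖(E.j : ℚ_[p])‖ :=
    (Padic.norm_int_le_one _).trans_lt hn
  have hn' : 1 < ‖((E.j - 1728 : ℚ) : ℚ_[p])‖ := by
    have e : ((E.j - 1728 : ℚ) : ℚ_[p]) = (E.j : ℚ_[p]) + ((-1728 : ℤ) : ℚ_[p]) := by
      push_cast; ring
    rw [e, Padic.add_eq_max_of_ne hlt.ne']
    exact hn.trans_le (le_max_left _ _)
  have hjz : E.j - 1728 ≠ 0 := fun e => by simp [e] at hn'; linarith
  have hx : ‖((1 / (E.j - 1728) : ℚ) : ℚ_[p])‖ < 1 := by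
    rw [Rat.cast_div, Rat.cast_one, norm_div, norm_one]
    exact (div_lt_one (by linarith)).mpr hn'
  obtain ⟨x, hx', hpx⟩ : ∃ x : ℤ_[p], (x : ℚ_[p]) = ((1 / (E.j - 1728) : ℚ) : ℚ_[p]) ∧
      (p : ℤ_[p]) ∣ x :=
    ⟨⟨_, hx.le⟩, rfl, (PadicInt.norm_lt_one_iff_dvd _).mp hx⟩
  have hc6 : E.c₆ ≠ 0 := fun e => hjz (by
    rw [sub_eq_zero, ej, div_eq_iff hΔ]
    linear_combination -E.c_relation + E.c₆ * e)
  have key : 1 + 1728 * (1 / (E.j - 1728)) = E.c₄ ^ 3 / E.c₆ ^ 2 := by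
    have e : E.j - 1728 = E.c₆ ^ 2 / E.Δ := by
      rw [ej, eq_div_iff hΔ, sub_mul, div_mul_cancel₀ _ hΔ]
      linear_combination -E.c_relation
    rw [e, one_div_div, eq_div_iff (pow_ne_zero 2 hc6), add_mul, mul_assoc,
      div_mul_cancel₀ _ (pow_ne_zero 2 hc6)]
    linear_combination E.c_relation
  set V : WeierstrassCurve ℤ_[p] := ⟨1, 0, 0, -36 * x, -x⟩ with hVdef
  have hV4 : V.c₄ = 1 + 1728 * x := by simp only [hVdef, WeierstrassCurve.c₄, b₂, b₄]; ring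
  have hV6 : V.c₆ = -(1 + 1728 * x) := by simp only [hVdef, WeierstrassCurve.c₆, b₂, b₄, b₆]; ring
  have hcoe : ((1 + 1728 * x : ℤ_[p]) : ℚ_[p]) = ((E.c₄ ^ 3 / E.c₆ ^ 2 : ℚ) : ℚ_[p]) := by
    rw [← key, PadicInt.coe_add, PadicInt.coe_one, PadicInt.coe_mul, hx',
      show (1728 : ℤ_[p]) = ((1728 : ℤ) : ℤ_[p]) by norm_num, PadicInt.coe_intCast]
    push_cast
    ring
  have h4 : (E.c₄ : ℚ_[p]) ≠ 0 := Rat.cast_ne_zero.mpr hc4
  have h6 : (E.c₆ : ℚ_[p]) ≠ 0 := Rat.cast_ne_zero.mpr hc6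
  have hq : -E.c₆ / E.c₄ ≠ 0 := div_ne_zero (neg_ne_zero.mpr hc6) hc4
  refine ⟨mul_ne_zero (Rat.num_ne_zero.mpr hq) (Int.natCast_ne_zero.mpr (Rat.den_nz _)),
    fun D hD hN => ?_⟩
  obtain ⟨q, hqdef⟩ : ∃ q : ℚ, -E.c₆ / E.c₄ = q := ⟨_, rfl⟩
  have hden : (q.den : ℚ_[p]) ≠ 0 := Nat.cast_ne_zero.mpr q.den_nz
  have hZ : (twistClass E : ℚ_[p]) = (q : ℚ_[p]) * (q.den : ℚ_[p]) ^ 2 := by
    rw [twistClass, hqdef, Rat.cast_def q]
    push_cast
    field_simp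
  refine isSemistableAt_quadTwist_of_nearSquare E V (l := -(E.c₄ : ℚ_[p]) / E.c₆)
    ?_ ?_ ?_ (inv_ne_zero hden) ?_ hN
  · rw [hV4, hcoe]; push_cast; field_simp
  · rw [hV6, PadicInt.coe_neg, hcoe]; push_cast; field_simp
  · rintro ⟨-, hd⟩
    rw [hV4] at hd
    exact PadicInt.prime_p.not_isUnit
      (isUnit_of_dvd_one (by simpa using dvd_sub hd (hpx.mul_left 1728)))
  · rw [Int.cast_mul, hZ, ← hqdef]
    push_cast
    field_simp

/-- An integer with even valuation is a near square, up to the sign at two. -/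
theorem exists_eq_even_pow_mul {N : ℤ} (hN : N ≠ 0) (he : Even (padicValInt p N)) :
    ∃ (i : ℕ) (X : ℤ), N = (p : ℤ) ^ (2 * i) * X ∧ ¬ (p : ℤ) ∣ X := by
  obtain ⟨i, hi⟩ := he
  obtain ⟨X, hX⟩ := padicValInt_dvd (p := p) N
  refine ⟨i, X, by rw [two_mul, ← hi]; exact hX, fun hd => ?_⟩
  obtain ⟨Y, rfl⟩ := hd
  have h : (p : ℤ) ^ (padicValInt p N + 1) ∣ N := ⟨Y, by rw [pow_succ, mul_assoc]; exact hX⟩
  rw [padicValInt_dvd_iff] at h
  omega

/-- **Some quadratic twist is semistable** if at every prime `E` is semistable or the twists in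
some square class are. -/
theorem exists_semistable_quadTwist_of_classes (E : WeierstrassCurve ℚ) [E.IsElliptic]
    (h : ∀ p : ℕ, ∀ [Fact p.Prime], IsSemistableAt E p ∨ ∃ Z : ℤ, Z ≠ 0 ∧
      ∀ D : ℤ, D ≠ 0 → NearSquare p (D * Z) → IsSemistableAt (quadTwist E (D : ℚ)) p) :
    ∃ d : ℚ, d ≠ 0 ∧ ∀ p : ℕ, ∀ [Fact p.Prime], IsSemistableAt (quadTwist E d) p := by
  classical
  obtain ⟨W, hW⟩ := FA.Frob.exists_integralModel E
  set S := W.Δ.natAbs.primeFactors.filter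
    (fun q => ∃ hq : q.Prime, ¬ @IsSemistableAt E q ⟨hq⟩) with hS
  have hZ : ∀ q : ℕ, ∃ Z : ℤ, Z ≠ 0 ∧ ∀ hq : q.Prime, ¬ @IsSemistableAt E q ⟨hq⟩ →
      ∀ D : ℤ, D ≠ 0 → @NearSquare q (D * Z) → @IsSemistableAt (quadTwist E (D : ℚ)) q ⟨hq⟩ :=
    fun q => if hq : q.Prime then
      match @h q ⟨hq⟩ with
      | .inl hs => ⟨1, one_ne_zero, fun _ hns => absurd hs hns⟩
      | .inr ⟨Z, hZ0, hZ1⟩ => ⟨Z, hZ0, fun _ _ => hZ1⟩
    else ⟨1, one_ne_zero, fun hq' => absurd hq' hq⟩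
  choose Z hZ0 hZc using hZ
  set T := S.filter (fun q => Odd (padicValInt q (Z q))) with hT
  have hTp : ∀ r ∈ T, r.Prime := fun r hr =>
    (Finset.mem_filter.mp (Finset.mem_filter.mp hr).1).2.1
  obtain ⟨P, hP⟩ : ∃ P : ℤ, ∏ r ∈ T, (r : ℤ) = P := ⟨_, rfl⟩
  have hP0 : P ≠ 0 := hP ▸ Finset.prod_ne_zero_iff.mpr fun r hr =>
    Int.natCast_ne_zero.mpr (hTp r hr).ne_zero
  have hndvd : ∀ (U : Finset ℕ), U ⊆ T → ∀ {q : ℕ}, q.Prime → q ∉ U →
      ¬ (q : ℤ) ∣ ∏ r ∈ U, (r : ℤ) := by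
    intro U hU q hq hqU hdvd
    obtain ⟨r, hr, hdr⟩ := (Nat.prime_iff_prime_int.mp hq).exists_mem_finset_dvd hdvd
    rw [Int.natCast_dvd_natCast, Nat.prime_dvd_prime_iff_eq hq (hTp r (hU hr))] at hdr
    exact hqU (hdr ▸ hr)
  -- `P` times the class has even valuation at the bad primes
  have heven : ∀ {q : ℕ} (hq : q.Prime), q ∈ S → Even (padicValInt q (P * Z q)) := by
    intro q hq hqS
    have := Fact.mk hq
    rw [padicValInt.mul hP0 (hZ0 q)]
    by_cases hqT : q ∈ T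
    · have hrest := hndvd (T.erase q) (Finset.erase_subset _ _) hq (Finset.notMem_erase q T)
      rw [← hP, ← Finset.mul_prod_erase T (fun r : ℕ => (r : ℤ)) hqT,
        padicValInt.mul (Int.natCast_ne_zero.mpr hq.ne_zero)
          (fun e => hrest (by rw [e]; exact dvd_zero _)),
        padicValInt.eq_zero_of_not_dvd hrest, padicValInt.self hq.one_lt, add_zero]
      exact odd_one.add_odd (Finset.mem_filter.mp hqT).2
    · rw [padicValInt.eq_zero_of_not_dvd (hP ▸ hndvd T le_rfl hq hqT), zero_add,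
        ← Nat.not_odd_iff_even]
      exact fun ho => hqT (Finset.mem_filter.mpr ⟨hqS, ho⟩)
  -- the sign
  obtain ⟨σ, hσ, hσ2, hσ0⟩ : ∃ σ : ℤ, (σ = 1 ∨ σ = -1) ∧
      (2 ∈ S → NearSquare 2 (σ * P * Z 2)) ∧ (2 ∉ S → (σ * P) % 4 = 1) := by
    by_cases h2 : 2 ∈ S
    · obtain ⟨i, X, hX, hX2⟩ := exists_eq_even_pow_mul (p := 2) (mul_ne_zero hP0 (hZ0 2))
        (heven Nat.prime_two h2)
      by_cases hX4 : X % 4 = 1
      · exact ⟨1, Or.inl rfl, fun _ => ⟨i, X, by rw [one_mul, hX], hX2, fun _ => hX4⟩,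
          fun h => absurd h2 h⟩
      · refine ⟨-1, Or.inr rfl, fun _ => ⟨i, -X, by rw [mul_assoc, hX]; ring, by simpa using hX2,
          fun _ => by push_cast at hX2; omega⟩, fun h => absurd h2 h⟩
    · have hodd : ¬ ((2 : ℕ) : ℤ) ∣ P :=
        hP ▸ hndvd T le_rfl Nat.prime_two fun hh => h2 (Finset.mem_filter.mp hh).1
      push_cast at hodd
      by_cases hP4 : P % 4 = 1
      · exact ⟨1, Or.inl rfl, fun h => absurd h h2, fun _ => by omega⟩
      · exact ⟨-1, Or.inr rfl, fun h => absurd h h2, fun _ => by omega⟩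
  have hD0 : σ * P ≠ 0 := mul_ne_zero (by omega) hP0
  refine ⟨((σ * P : ℤ) : ℚ), Int.cast_ne_zero.mpr hD0, fun p _ => ?_⟩
  have hp : p.Prime := Fact.out
  by_cases hpS : p ∈ S
  · obtain ⟨hp', hns⟩ := (Finset.mem_filter.mp hpS).2
    refine hZc p hp hns _ hD0 ?_
    rcases eq_or_ne p 2 with rfl | hp2
    · exact hσ2 hpS
    obtain ⟨i, X, hX, hXp⟩ := exists_eq_even_pow_mul (p := p) (mul_ne_zero hP0 (hZ0 p))
      (heven hp hpS)
    exact ⟨i, σ * X, by rw [mul_assoc, hX]; ring,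
      by rcases hσ with rfl | rfl <;> simpa using hXp, fun e => absurd e hp2⟩
  · have hsemi : IsSemistableAt E p := by
      by_contra hns
      by_cases hg : (p : ℤ) ∣ W.Δ
      · exact hpS (Finset.mem_filter.mpr ⟨Nat.mem_primeFactors.mpr ⟨Fact.out,
          Int.natCast_dvd.mp hg, Int.natAbs_ne_zero.mpr (FA.Frob.Δ_ne_zero_of_model hW)⟩,
          Fact.out, hns⟩)
      · exact hns (isSemistableAt_of_model hW hg)
    refine isSemistableAt_twist_of_nearSquare E hsemi ⟨0, σ * P, by simp, ?_, fun e => hσ0 (e ▸ hpS)⟩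
    have hPp := hndvd T le_rfl hp fun hh => hpS (Finset.mem_filter.mp hh).1
    rw [hP] at hPp
    rcases hσ with rfl | rfl <;> simpa using hPp

/-- **Some quadratic twist is semistable**, without restriction at `2` and `3`. -/
theorem exists_semistable_quadTwist_all (E : WeierstrassCurve ℚ) [E.IsElliptic]
    (h : ∀ p : ℕ, ∀ [Fact p.Prime], IsSemistableAt E p ∨ padicValRat p E.j < 0) :
    ∃ d : ℚ, d ≠ 0 ∧ ∀ p : ℕ, ∀ [Fact p.Prime], IsSemistableAt (quadTwist E d) p := by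
  refine exists_semistable_quadTwist_of_classes E fun p _ => (h p).imp_right fun hj => ?_
  exact ⟨twistClass E, isSemistableAt_twist_of_pole E hj⟩

end FA.Root

namespace FA.Summary

/-- Some quadratic twist is semistable if at every prime the curve is semistable or `j` has a
pole. -/
theorem exists_semistable_twist_of_j_all (E : WeierstrassCurve ℚ) [E.IsElliptic]
    (h : ∀ p : ℕ, ∀ [Fact p.Prime], (∃ C : VariableChange ℚ_[p],
      HasGoodReduction ℤ_[p] (C • E.map (algebraMap ℚ ℚ_[p])) ∨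
        HasMultiplicativeReduction ℤ_[p] (C • E.map (algebraMap ℚ ℚ_[p]))) ∨
      padicValRat p E.j < 0) :
    ∃ d : ℚ, d ≠ 0 ∧ ∀ p : ℕ, ∀ [Fact p.Prime], ∃ C : VariableChange ℚ_[p],
      HasGoodReduction ℤ_[p] (C • (⟨0, 0, 0, -27 * (d ^ 2 * E.c₄), -54 * (d ^ 3 * E.c₆)⟩ :
          WeierstrassCurve ℚ).map (algebraMap ℚ ℚ_[p])) ∨
        HasMultiplicativeReduction ℤ_[p] (C • (⟨0, 0, 0, -27 * (d ^ 2 * E.c₄),
          -54 * (d ^ 3 * E.c₆)⟩ : WeierstrassCurve ℚ).map (algebraMap ℚ ℚ_[p])) := by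
  obtain ⟨d, hd, hs⟩ := FA.Root.exists_semistable_quadTwist_all E fun p _ =>
    (h p).imp_left fun ⟨_, hC⟩ => FA.Root.isSemistableAt_of_reduction E hC
  have := FA.Root.quadTwist_isElliptic E hd
  exact ⟨d, hd, fun p _ =>
    FA.Root.exists_reduction_of_isSemistableAt (FA.Twists.quadTwist E d) (hs p)⟩

/-- **Modularity by the `j`-invariant**: semistable away from the poles of `j` suffices. -/
theorem modularity_of_j_all (E : WeierstrassCurve ℚ) [E.IsElliptic]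
    (h : ∀ p : ℕ, ∀ [Fact p.Prime], (∃ C : VariableChange ℚ_[p],
      HasGoodReduction ℤ_[p] (C • E.map (algebraMap ℚ ℚ_[p])) ∨
        HasMultiplicativeReduction ℤ_[p] (C • E.map (algebraMap ℚ ℚ_[p]))) ∨
      padicValRat p E.j < 0) :
    ∃ (N : ℕ) (f : CuspForm (CongruenceSubgroup.Gamma0 N) 2) (S : Finset ℕ), 0 < N ∧
      (UpperHalfPlane.qExpansion 1 f).coeff 1 = 1 ∧ ∀ p : ℕ, p.Prime → p ∉ S →
        (UpperHalfPlane.qExpansion 1 f).coeff p = (E.LFunction p : ℂ) := by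
  obtain ⟨d, hd, hs⟩ := exists_semistable_twist_of_j_all E h
  exact modularity_twist E hd hs

open scoped WeierstrassCurve.Affine in
/-- **No stable subgroup of prime order `p ≥ 11`** under the same hypothesis. -/
theorem noStableSubgroup_of_j_all (E : WeierstrassCurve ℚ) [E.IsElliptic]
    (h : ∀ p : ℕ, ∀ [Fact p.Prime], (∃ C : VariableChange ℚ_[p],
      HasGoodReduction ℤ_[p] (C • E.map (algebraMap ℚ ℚ_[p])) ∨
        HasMultiplicativeReduction ℤ_[p] (C • E.map (algebraMap ℚ ℚ_[p]))) ∨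
      padicValRat p E.j < 0)
    [DecidableEq (AlgebraicClosure ℚ)] {p : ℕ} (hp : p.Prime) (h11 : 11 ≤ p)
    (G : AddSubgroup (E.toAffine⁄(AlgebraicClosure ℚ)).Point) (hcard : Nat.card G = p) :
    ¬ ∀ σ : AlgebraicClosure ℚ ≃ₐ[ℚ] AlgebraicClosure ℚ, ∀ P ∈ G,
      Affine.Point.map σ.toAlgHom P ∈ G := by
  obtain ⟨d, hd, hs⟩ := exists_semistable_twist_of_j_all E h
  exact noStableSubgroup_twist_all E hd hs hp h11 G hcard

/-- Some quadratic twist is semistable if at every prime the curve is semistable, or the prime is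
at least five and `j` has a pole there. -/
theorem exists_semistable_twist_of_j (E : WeierstrassCurve ℚ) [E.IsElliptic]
    (h : ∀ p : ℕ, ∀ [Fact p.Prime], (∃ C : VariableChange ℚ_[p],
      HasGoodReduction ℤ_[p] (C • E.map (algebraMap ℚ ℚ_[p])) ∨
        HasMultiplicativeReduction ℤ_[p] (C • E.map (algebraMap ℚ ℚ_[p]))) ∨
      (5 ≤ p ∧ padicValRat p E.j < 0)) :
    ∃ d : ℚ, d ≠ 0 ∧ ∀ p : ℕ, ∀ [Fact p.Prime], ∃ C : VariableChange ℚ_[p],
      HasGoodReduction ℤ_[p] (C • (⟨0, 0, 0, -27 * (d ^ 2 * E.c₄), -54 * (d ^ 3 * E.c₆)⟩ :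
          WeierstrassCurve ℚ).map (algebraMap ℚ ℚ_[p])) ∨
        HasMultiplicativeReduction ℤ_[p] (C • (⟨0, 0, 0, -27 * (d ^ 2 * E.c₄),
          -54 * (d ^ 3 * E.c₆)⟩ : WeierstrassCurve ℚ).map (algebraMap ℚ ℚ_[p])) :=
  exists_semistable_twist_of_j_all E fun p _ => (h p).imp_right And.right

/-- **Modularity by the `j`-invariant**: semistable away from primes `p ≥ 5` at which `j` has a
pole suffices. -/
theorem modularity_of_j (E : WeierstrassCurve ℚ) [E.IsElliptic]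
    (h : ∀ p : ℕ, ∀ [Fact p.Prime], (∃ C : VariableChange ℚ_[p],
      HasGoodReduction ℤ_[p] (C • E.map (algebraMap ℚ ℚ_[p])) ∨
        HasMultiplicativeReduction ℤ_[p] (C • E.map (algebraMap ℚ ℚ_[p]))) ∨
      (5 ≤ p ∧ padicValRat p E.j < 0)) :
    ∃ (N : ℕ) (f : CuspForm (CongruenceSubgroup.Gamma0 N) 2) (S : Finset ℕ), 0 < N ∧
      (UpperHalfPlane.qExpansion 1 f).coeff 1 = 1 ∧ ∀ p : ℕ, p.Prime → p ∉ S →
        (UpperHalfPlane.qExpansion 1 f).coeff p = (E.LFunction p : ℂ) :=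
  modularity_of_j_all E fun p _ => (h p).imp_right And.right

open scoped WeierstrassCurve.Affine in
/-- **No stable subgroup of prime order `p ≥ 11`** under the same hypothesis. -/
theorem noStableSubgroup_of_j (E : WeierstrassCurve ℚ) [E.IsElliptic]
    (h : ∀ p : ℕ, ∀ [Fact p.Prime], (∃ C : VariableChange ℚ_[p],
      HasGoodReduction ℤ_[p] (C • E.map (algebraMap ℚ ℚ_[p])) ∨
        HasMultiplicativeReduction ℤ_[p] (C • E.map (algebraMap ℚ ℚ_[p]))) ∨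
      (5 ≤ p ∧ padicValRat p E.j < 0))
    [DecidableEq (AlgebraicClosure ℚ)] {p : ℕ} (hp : p.Prime) (h11 : 11 ≤ p)
    (G : AddSubgroup (E.toAffine⁄(AlgebraicClosure ℚ)).Point) (hcard : Nat.card G = p) :
    ¬ ∀ σ : AlgebraicClosure ℚ ≃ₐ[ℚ] AlgebraicClosure ℚ, ∀ P ∈ G,
      Affine.Point.map σ.toAlgHom P ∈ G :=
  noStableSubgroup_of_j_all E (fun p _ => (h p).imp_right And.right) hp h11 G hcard

end FA.Summary

end
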