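import Fermat.Agent.Twists.KroneckerChar
import Fermat.Agent.Root.LFunctionEntire
import Fermat.Agent.Root.SummaryTwistCriterionAll
import Fermat.Agent.HasseBound.Series

/-!
# The whole L-function of a twist of a semistable curve

If the quadratic twist of `E` by `d` is semistable then every coefficient of the L-function of `E`
is that of the twisted curve times a quadratic Dirichlet character, so every coefficient is that of
a cusp form of weight two and the L-series extends to an entire function. By the criterion of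
`SummaryTwistCriterionAll` this holds when at every prime `E` is semistable or `j` has a pole.
-/

set_option autoImplicit false

noncomputable section

open WeierstrassCurve ZMod

namespace FA.Twists

/-- **The L-function of a quadratic twist of a semistable curve**, at every argument. -/
theorem exists_char_LFunction (E : WeierstrassCurve ℚ) {d : ℚ} (hd : d ≠ 0)
    {W : WeierstrassCurve ℤ} (hW : W.IsIntegralModelOf (quadTwist E d)) (hΔ : W.Δ ≠ 0)
    (hs : W.IsSemistableModel) :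
    ∃ (D : ℤ) (q : ℕ) (ψ : DirichletCharacter ℂ q),
      (Squarefree D ∧ ∃ t : ℚ, t ≠ 0 ∧ d = t ^ 2 * D) ∧
      q = (if D % 4 = 1 then D.natAbs else 4 * D.natAbs) ∧
      0 < q ∧ (∀ u : (ZMod q)ˣ, ψ u * ψ u = 1) ∧
      (∀ p : ℕ, p.Prime → p ∣ q → ∃ n : ℕ, ((q / p : ℕ) : ℤ) ∣ (n : ℤ) - 1 ∧
        ψ (n : ZMod q) = -1) ∧
      ∀ n : ℕ, (E.LFunction n : ℂ) = ψ (n : ZMod q) * ((quadTwist E d).LFunction n : ℂ) := by
  obtain ⟨D, t, hD, ht, rfl⟩ := exists_squarefree_mul_sq hd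
  obtain ⟨C, hC⟩ := id hW
  set w : ℚ := ((C.u⁻¹ : ℚˣ) : ℚ)
  have h4 : (W.c₄ : ℚ) = w ^ 4 * (6 ^ 4 * ((t ^ 2 * D) ^ 2 * E.c₄)) := by
    have h := congrArg WeierstrassCurve.c₄ hC
    rw [variableChange_c₄, map_c₄, eq_intCast, quadTwist, short_c₄] at h
    exact h.symm
  have h6 : (W.c₆ : ℚ) = w ^ 6 * (6 ^ 6 * ((t ^ 2 * D) ^ 3 * E.c₆)) := by
    have h := congrArg WeierstrassCurve.c₆ hC
    rw [variableChange_c₆, map_c₆, eq_intCast, quadTwist, short_c₆] at h
    exact h.symm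
  have hw : w ≠ 0 := Units.ne_zero _
  have hD0 : (D : ℚ) ≠ 0 := Int.cast_ne_zero.mpr hD.ne_zero
  obtain ⟨q, ψ, hqD, hq, hψ, hnd, hψl⟩ := exists_twistSign_char hD
  refine ⟨D, q, ψ, ⟨hD, t, ht, rfl⟩, hqD, hq, hψ, hnd, fun n => ?_⟩
  have hE := FA.Root.isMultiplicative_LFunction E
  have hF := FA.Root.isMultiplicative_LFunction (quadTwist E (t ^ 2 * D))
  have hx : (6 * w * t * (D : ℚ))⁻¹ ≠ 0 :=
    inv_ne_zero (mul_ne_zero (mul_ne_zero (mul_ne_zero (by norm_num) hw) ht) hD0)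
  induction n using Nat.recOnPosPrimePosCoprime with
  | prime_pow l k hl _ =>
    rw [LFunction_twist_prime_pow hW hΔ hD hx (by rw [h4]; field_simp) (by rw [h6]; field_simp)
      hl (hs l hl) k, Nat.cast_pow, map_pow ψ, hψl l hl]
    push_cast
    rfl
  | zero => simp
  | one => rw [hE.map_one, hF.map_one, Nat.cast_one, map_one, Int.cast_one, one_mul]
  | coprime a b _ _ hab iha ihb =>
    rw [hE.map_mul_of_coprime hab, hF.map_mul_of_coprime hab, Int.cast_mul, Int.cast_mul,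
      Nat.cast_mul, map_mul, iha, ihb]
    ring

end FA.Twists

namespace FA.Summary

/-- **Modularity of the whole L-function** of a curve with a semistable quadratic twist: every
coefficient is that of a cusp form of weight two. -/
theorem modularity_twist_LFunction (E : WeierstrassCurve ℚ) [E.IsElliptic] {d : ℚ} (hd : d ≠ 0)
    (h : ∀ p : ℕ, ∀ [Fact p.Prime], ∃ C : VariableChange ℚ_[p],
      HasGoodReduction ℤ_[p] (C • (⟨0, 0, 0, -27 * (d ^ 2 * E.c₄), -54 * (d ^ 3 * E.c₆)⟩ :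
          WeierstrassCurve ℚ).map (algebraMap ℚ ℚ_[p])) ∨
        HasMultiplicativeReduction ℤ_[p] (C • (⟨0, 0, 0, -27 * (d ^ 2 * E.c₄),
          -54 * (d ^ 3 * E.c₆)⟩ : WeierstrassCurve ℚ).map (algebraMap ℚ ℚ_[p]))) :
    ∃ (N : ℕ) (f : CuspForm (CongruenceSubgroup.Gamma0 N) 2), 0 < N ∧
      ∀ n : ℕ, (UpperHalfPlane.qExpansion 1 f).coeff n = (E.LFunction n : ℂ) := by
  have := FA.Root.quadTwist_isElliptic E hd
  obtain ⟨W, N, f, hW, hs, hN, -, hf, hn⟩ :=
    FA.Root.exists_newform_LFunction (FA.Twists.quadTwist E d) h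
  obtain ⟨-, q, ψ, -, -, hq, hψ, -, hL⟩ :=
    FA.Twists.exists_char_LFunction E hd hW (FA.Frob.Δ_ne_zero_of_model hW) hs
  have : NeZero N := ⟨hN.ne_zero⟩
  have : NeZero q := ⟨hq.ne'⟩
  obtain ⟨g, -, hg⟩ := FA.Twists.exists_twist_eigenform hf.isNormalizedEigenform hψ
  refine ⟨N * q ^ 2, g, Nat.mul_pos (Nat.pos_of_ne_zero hN.ne_zero) (pow_pos hq 2), fun n => ?_⟩
  rw [hL n, ← hn n, ← hg n]
  rfl

/-- **The L-series of a curve with a semistable quadratic twist extends to an entire function**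
from the half-plane `3/2 < re s` of absolute convergence. -/
theorem entire_continuation_twist (E : WeierstrassCurve ℚ) [E.IsElliptic] {d : ℚ} (hd : d ≠ 0)
    (h : ∀ p : ℕ, ∀ [Fact p.Prime], ∃ C : VariableChange ℚ_[p],
      HasGoodReduction ℤ_[p] (C • (⟨0, 0, 0, -27 * (d ^ 2 * E.c₄), -54 * (d ^ 3 * E.c₆)⟩ :
          WeierstrassCurve ℚ).map (algebraMap ℚ ℚ_[p])) ∨
        HasMultiplicativeReduction ℤ_[p] (C • (⟨0, 0, 0, -27 * (d ^ 2 * E.c₄),
          -54 * (d ^ 3 * E.c₆)⟩ : WeierstrassCurve ℚ).map (algebraMap ℚ ℚ_[p]))) :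
    ∃ g : ℂ → ℂ, Differentiable ℂ g ∧ ∀ s : ℂ, 3 / 2 < s.re →
      LSeriesSummable ((↑) ∘ E.LFunction) s ∧ E.LSeries s = g s := by
  obtain ⟨N, f, hN, hn⟩ := modularity_twist_LFunction E hd h
  have : NeZero N := ⟨hN.ne'⟩
  obtain ⟨g, hg, hgs⟩ := FA.Root.exists_differentiable_eq_LSeries_qCoeff f
  have e : ((↑) ∘ E.LFunction : ℕ → ℂ) = ModularFormClass.qCoeff f := funext fun n => (hn n).symm
  refine ⟨g, hg, fun s hs => ⟨lSeries_summable E hs,
    FA.HasseBound.eqOn_threeHalves (FA.HasseBound.analyticOnNhd_LSeries E)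
      (fun z _ => hg.analyticAt z) (fun z hz => ?_) hs⟩⟩
  rw [WeierstrassCurve.LSeries, e]
  exact (hgs z hz).LSeries_eq

/-- **Modularity of the whole L-function by the `j`-invariant**: semistable away from the poles
of `j` suffices. -/
theorem modularity_of_j_LFunction (E : WeierstrassCurve ℚ) [E.IsElliptic]
    (h : ∀ p : ℕ, ∀ [Fact p.Prime], (∃ C : VariableChange ℚ_[p],
      HasGoodReduction ℤ_[p] (C • E.map (algebraMap ℚ ℚ_[p])) ∨
        HasMultiplicativeReduction ℤ_[p] (C • E.map (algebraMap ℚ ℚ_[p]))) ∨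
      padicValRat p E.j < 0) :
    ∃ (N : ℕ) (f : CuspForm (CongruenceSubgroup.Gamma0 N) 2), 0 < N ∧
      ∀ n : ℕ, (UpperHalfPlane.qExpansion 1 f).coeff n = (E.LFunction n : ℂ) := by
  obtain ⟨d, hd, hs⟩ := exists_semistable_twist_of_j_all E h
  exact modularity_twist_LFunction E hd hs

/-- **Analytic continuation** of the L-series under the same hypothesis. -/
theorem entire_continuation_of_j (E : WeierstrassCurve ℚ) [E.IsElliptic]
    (h : ∀ p : ℕ, ∀ [Fact p.Prime], (∃ C : VariableChange ℚ_[p],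
      HasGoodReduction ℤ_[p] (C • E.map (algebraMap ℚ ℚ_[p])) ∨
        HasMultiplicativeReduction ℤ_[p] (C • E.map (algebraMap ℚ ℚ_[p]))) ∨
      padicValRat p E.j < 0) :
    ∃ g : ℂ → ℂ, Differentiable ℂ g ∧ ∀ s : ℂ, 3 / 2 < s.re →
      LSeriesSummable ((↑) ∘ E.LFunction) s ∧ E.LSeries s = g s := by
  obtain ⟨d, hd, hs⟩ := exists_semistable_twist_of_j_all E h
  exact entire_continuation_twist E hd hs

end FA.Summary

end
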