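import Fermat.Agent.Root.LFunctionFE
import Fermat.Agent.Root.NoGoodReduction
import Fermat.Agent.Root.SummaryTwistLFunction
import Fermat.Agent.HasseBound.Summary
import Fermat.Agent.HasseBound.Euler

/-!
# Strong multiplicity one for semistable elliptic curves

If the traces `a_p` of two semistable elliptic curves over `ℚ` agree at almost all primes, the
traces on the Tate modules agree everywhere by Chebotarev. At a prime they are `a_q` for good
reduction and `±(q + 1)` for multiplicative reduction, which Hasse's bound separates. So the two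
L-functions have every coefficient in common, and with them the bad primes, the completed function
and its sign. The same follows for two curves with semistable twists by the same number.
-/

set_option autoImplicit false
set_option linter.style.haveILetI false

noncomputable section

open WeierstrassCurve FA.EC FA.Frob FA.RT FA.RT.Tate
open scoped Real

namespace FA.Root.MultOne

local notation "GQ" => AlgebraicClosure ℚ ≃ₐ[ℚ] AlgebraicClosure ℚ
local notation "M2" => Matrix (Fin 2) (Fin 2)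

section Tate

variable {p : ℕ} [Fact p.Prime] {W W' : WeierstrassCurve ℤ} [(ratCurve W).IsElliptic]
  [(ratCurve W').IsElliptic]

/-- **Traces on two Tate modules** agree everywhere if they agree at almost all primes. -/
theorem trace_rep_eq (B : TateBasis p W) (B' : TateBasis p W') (hΔ : W.Δ ≠ 0) (hΔ' : W'.Δ ≠ 0)
    (S : Finset ℕ)
    (h : ∀ l : ℕ, l.Prime → l ∉ S → W.IsGoodPrimeFor l → W'.IsGoodPrimeFor l →
      W.apOfModel l = W'.apOfModel l) (σ : GQ) :
    (B.rep σ).trace = (B'.rep σ).trace := by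
  refine PadicInt.ext_of_toZModPow.mp fun n => ?_
  let red : M2 ℤ_[p] →* M2 (ZMod (p ^ n)) := (PadicInt.toZModPow n).mapMatrix.toMonoidHom
  have hker : ∀ {V : WeierstrassCurve ℤ} [(ratCurve V).IsElliptic] (C : TateBasis p V),
      IsOpen ((red.comp C.rep).ker : Set GQ) := fun C => by
    obtain ⟨L, hL, hLh⟩ := C.exists_field n
    exact Subgroup.isOpen_mono (H₁ := L.fixingSubgroup) (fun τ hτ => MonoidHom.mem_ker.mpr
      (hLh τ ((IntermediateField.mem_fixingSubgroup_iff L τ).mp hτ)))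
      (IntermediateField.fixingSubgroup_isOpen L)
  have key := trace_eq_of_frobenius (red.comp B.rep) (red.comp B'.rep) (hker B) (hker B')
    (insert p (S ∪ (W.Δ * W'.Δ).natAbs.primeFactors)) (fun l hl hlS A hA τ hτ => ?_) σ
  · simpa [red, AddMonoidHom.map_trace] using key
  simp only [Finset.mem_insert, Finset.mem_union, not_or, Nat.mem_primeFactors, hl, true_and,
    ne_eq, Int.natAbs_eq_zero, mul_eq_zero, hΔ, hΔ', or_self, not_false_eq_true, and_true,
    ← Int.natCast_dvd] at hlS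
  have hg : W.IsGoodPrimeFor l := fun hd => hlS.2.2 (hd.mul_right _)
  have hg' : W'.IsGoodPrimeFor l := fun hd => hlS.2.2 (hd.mul_left _)
  obtain ⟨e1, e2⟩ := B.rep_frobenius hl hA hlS.1 hg hτ
  obtain ⟨e1', e2'⟩ := B'.rep_frobenius hl hA hlS.1 hg' hτ
  rw [← h l hl hlS.2.1 hg hg'] at e1'
  constructor
  · simpa [red, AddMonoidHom.map_trace] using congrArg (PadicInt.toZModPow n) (e1.trans e1'.symm)
  · show ((PadicInt.toZModPow n).mapMatrix _).det = ((PadicInt.toZModPow n).mapMatrix _).det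
    rw [← RingHom.map_det, ← RingHom.map_det, e2, e2']

end Tate

variable {W W' : WeierstrassCurve ℤ}

/-- A coefficient within Hasse's bound is not `±(q + 1)`. -/
theorem ne_of_sq_le {a : ℤ} {q : ℕ} (hq : q.Prime) (ha : a ^ 2 ≤ 4 * (q : ℤ)) (V : WeierstrassCurve ℤ) :
    a ≠ splitSign V q * ((q : ℤ) + 1) := by
  rintro rfl
  have h2 : (2 : ℤ) ≤ q := by exact_mod_cast hq.two_le
  have e : (splitSign V q * ((q : ℤ) + 1)) ^ 2 = ((q : ℤ) + 1) ^ 2 := by
    unfold splitSign
    split_ifs <;> ring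
  rw [e] at ha
  nlinarith

/-- **Local data at every prime** from agreement at almost all primes. -/
theorem sameLocalData (hΔ : W.Δ ≠ 0) (hΔ' : W'.Δ ≠ 0) (hs : W.IsSemistableModel)
    (hs' : W'.IsSemistableModel) (S : Finset ℕ)
    (h : ∀ l : ℕ, l.Prime → l ∉ S → W.IsGoodPrimeFor l → W'.IsGoodPrimeFor l →
      W.apOfModel l = W'.apOfModel l) {q : ℕ} (hq : q.Prime) :
    ((q : ℤ) ∣ W.Δ ↔ (q : ℤ) ∣ W'.Δ) ∧
      (¬ (q : ℤ) ∣ W.Δ → W.apOfModel q = W'.apOfModel q) ∧
      ((q : ℤ) ∣ W.Δ → splitSign W q = splitSign W' q) := by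
  classical
  haveI := ratCurve_isElliptic_of_Δ hΔ
  haveI := ratCurve_isElliptic_of_Δ hΔ'
  haveI := Fact.mk hq
  obtain ⟨p, hp, hpp⟩ := Nat.exists_infinite_primes (q + 2)
  haveI := Fact.mk hpp
  have hp2 : p ≠ 2 := by have := hq.two_le; omega
  have hqp : q ≠ p := by omega
  have hq1 : ¬ p ∣ q + 1 := fun hd => by have := Nat.le_of_dvd (Nat.succ_pos q) hd; omega
  obtain ⟨A, hA⟩ := FA.Deform.exists_liesOverPrime hq
  obtain ⟨σ, hσ⟩ := FA.Deform.exists_isFrobeniusAt hq hA
  obtain ⟨B⟩ := exists_tateBasis (p := p) (W := W)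
  obtain ⟨B'⟩ := exists_tateBasis (p := p) (W := W')
  have htr := trace_rep_eq B B' hΔ hΔ' S h σ
  have hasse : ∀ {V : WeierstrassCurve ℤ}, ¬ (q : ℤ) ∣ V.Δ → V.apOfModel q ^ 2 ≤ 4 * (q : ℤ) :=
    fun {V} hg => by
      have hVm : V.IsIntegralModelOf (V.map (Int.castRingHom ℚ)) := ⟨1, one_smul _ _⟩
      rw [← FA.Root.LFunction_apply_prime _ V hVm hq hg]
      exact FA.Summary.hasse_LFunction _ V 1 (one_smul _ _) hq hg
  have mult : ∀ {V : WeierstrassCurve ℤ} [(ratCurve V).IsElliptic] (C : TateBasis p V),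
      V.Δ ≠ 0 → V.IsSemistableModel → (q : ℤ) ∣ V.Δ →
      (C.rep σ).trace = ((splitSign V q * ((q : ℤ) + 1) : ℤ) : ℤ_[p]) := fun {V} _ C hV hVs hd => by
    rw [trace_frobenius_splitSign C hp2 ⟨hV, hq, hd, hVs q hq hd, hA⟩ hqp hq1 hσ]
    push_cast
    rfl
  by_cases hd : (q : ℤ) ∣ W.Δ <;> by_cases hd' : (q : ℤ) ∣ W'.Δ
  · rw [mult B hΔ hs hd, mult B' hΔ' hs' hd', Int.cast_inj] at htr
    exact ⟨iff_of_true hd hd', fun hn => absurd hd hn,
      fun _ => mul_right_cancel₀ (by positivity) htr⟩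
  · rw [mult B hΔ hs hd, (B'.rep_frobenius hq hA hqp hd' hσ).1, Int.cast_inj] at htr
    exact absurd htr.symm (ne_of_sq_le hq (hasse hd') W)
  · rw [mult B' hΔ' hs' hd', (B.rep_frobenius hq hA hqp hd hσ).1, Int.cast_inj] at htr
    exact absurd htr (ne_of_sq_le hq (hasse hd) W')
  · rw [(B.rep_frobenius hq hA hqp hd hσ).1, (B'.rep_frobenius hq hA hqp hd' hσ).1,
      Int.cast_inj] at htr
    exact ⟨iff_of_false hd hd', fun _ => htr, fun hn => absurd hn hd⟩

/-- Models of two curves with the same coefficients outside a finite set have the same traces. -/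
theorem apOfModel_eq_of_LFunction {E E' : WeierstrassCurve ℚ} (hW : W.IsIntegralModelOf E)
    (hW' : W'.IsIntegralModelOf E') (S : Finset ℕ)
    (heq : ∀ p : ℕ, p.Prime → p ∉ S → E.LFunction p = E'.LFunction p) :
    ∀ l : ℕ, l.Prime → l ∉ S → W.IsGoodPrimeFor l → W'.IsGoodPrimeFor l →
      W.apOfModel l = W'.apOfModel l := fun l hl hlS hg hg' => by
  rw [← FA.Root.LFunction_apply_prime E W hW hl hg, ← FA.Root.LFunction_apply_prime E' W' hW' hl hg',
    heq l hl hlS]

/-- The L-functions of two semistable models with the same local data are equal. -/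
theorem LFunction_eq_of_agree {E E' : WeierstrassCurve ℚ} (hW : W.IsIntegralModelOf E)
    (hW' : W'.IsIntegralModelOf E') (hΔ : W.Δ ≠ 0) (hΔ' : W'.Δ ≠ 0) (hs : W.IsSemistableModel)
    (hs' : W'.IsSemistableModel) (S : Finset ℕ)
    (heq : ∀ p : ℕ, p.Prime → p ∉ S → E.LFunction p = E'.LFunction p) :
    E.LFunction = E'.LFunction := by
  have hloc := fun {q : ℕ} (hq : q.Prime) =>
    sameLocalData hΔ hΔ' hs hs' S (apOfModel_eq_of_LFunction hW hW' S heq) hq
  have hL := FA.Root.isMultiplicative_LFunction E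
  have hL' := FA.Root.isMultiplicative_LFunction E'
  ext n
  induction n using Nat.recOnPosPrimePosCoprime with
  | zero => rw [ArithmeticFunction.map_zero, ArithmeticFunction.map_zero]
  | one => rw [hL.map_one, hL'.map_one]
  | coprime a b _ _ hab iha ihb =>
    rw [hL.map_mul_of_coprime hab, hL'.map_mul_of_coprime hab, iha, ihb]
  | prime_pow q k hq hk =>
    clear hk
    obtain ⟨hiff, hgood, hbad⟩ := hloc hq
    by_cases hd : (q : ℤ) ∣ W.Δ
    · rw [LFunction_apply_prime_pow_mult E W hW hq hd hΔ (hs q hq hd) k,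
        LFunction_apply_prime_pow_mult E' W' hW' hq (hiff.mp hd) hΔ' (hs' q hq (hiff.mp hd)) k,
        hbad hd]
    · have hd' : ¬ (q : ℤ) ∣ W'.Δ := fun h => hd (hiff.mpr h)
      induction k using Nat.twoStepInduction with
      | zero => rw [pow_zero, hL.map_one, hL'.map_one]
      | one => rw [pow_one, FA.Root.LFunction_apply_prime E W hW hq hd,
          FA.Root.LFunction_apply_prime E' W' hW' hq hd', hgood hd]
      | more r ih1 ih2 => rw [LFunction_apply_prime_pow_good E W hW hq hd r,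
          LFunction_apply_prime_pow_good E' W' hW' hq hd' r, hgood hd, ih1, ih2]

/-- A semistable curve has good reduction exactly away from the discriminant of a semistable
model. -/
theorem exists_good_iff {E : WeierstrassCurve ℚ} (hW : W.IsIntegralModelOf E)
    (hs : W.IsSemistableModel) (p : ℕ) [hp : Fact p.Prime] :
    (∃ C : VariableChange ℚ_[p], HasGoodReduction ℤ_[p] (C • E.map (algebraMap ℚ ℚ_[p]))) ↔
      ¬ (p : ℤ) ∣ W.Δ := by
  exact ⟨fun ⟨C, hC⟩ hd => not_hasGoodReduction_of_bad hW hd (hs p hp.out hd) C hC,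
    exists_good_of_model hW p⟩

/-- The L-function of a quadratic twist through a given character with the values `twistSign D`. -/
theorem LFunction_twist_eq (E : WeierstrassCurve ℚ) {D : ℤ} {t : ℚ} (hD : Squarefree D)
    (ht : t ≠ 0) (hW : W.IsIntegralModelOf (FA.Twists.quadTwist E (t ^ 2 * D))) (hΔ : W.Δ ≠ 0)
    (hs : W.IsSemistableModel) {q : ℕ} {ψ : DirichletCharacter ℂ q}
    (hψl : ∀ l : ℕ, l.Prime → ψ (l : ZMod q) = (FA.Twists.twistSign D l : ℂ)) (n : ℕ) :
    (E.LFunction n : ℂ) =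
      ψ (n : ZMod q) * ((FA.Twists.quadTwist E (t ^ 2 * D)).LFunction n : ℂ) := by
  obtain ⟨C, hC⟩ := id hW
  set w : ℚ := ((C.u⁻¹ : ℚˣ) : ℚ)
  have h4 : (W.c₄ : ℚ) = w ^ 4 * (6 ^ 4 * ((t ^ 2 * D) ^ 2 * E.c₄)) := by
    have h := congrArg WeierstrassCurve.c₄ hC
    rw [variableChange_c₄, map_c₄, eq_intCast, FA.Twists.quadTwist, FA.Twists.short_c₄] at h
    exact h.symm
  have h6 : (W.c₆ : ℚ) = w ^ 6 * (6 ^ 6 * ((t ^ 2 * D) ^ 3 * E.c₆)) := by
    have h := congrArg WeierstrassCurve.c₆ hC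
    rw [variableChange_c₆, map_c₆, eq_intCast, FA.Twists.quadTwist, FA.Twists.short_c₆] at h
    exact h.symm
  have hw : w ≠ 0 := Units.ne_zero _
  have hD0 : (D : ℚ) ≠ 0 := Int.cast_ne_zero.mpr hD.ne_zero
  have hE := FA.Root.isMultiplicative_LFunction E
  have hF := FA.Root.isMultiplicative_LFunction (FA.Twists.quadTwist E (t ^ 2 * D))
  have hx : (6 * w * t * (D : ℚ))⁻¹ ≠ 0 :=
    inv_ne_zero (mul_ne_zero (mul_ne_zero (mul_ne_zero (by norm_num) hw) ht) hD0)
  induction n using Nat.recOnPosPrimePosCoprime with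
  | prime_pow l k hl _ =>
    rw [FA.Twists.LFunction_twist_prime_pow hW hΔ hD hx (by rw [h4]; field_simp)
      (by rw [h6]; field_simp) hl (hs l hl) k, Nat.cast_pow, map_pow ψ, hψl l hl]
    push_cast
    rfl
  | zero => simp
  | one => rw [hE.map_one, hF.map_one, Nat.cast_one, map_one, Int.cast_one, one_mul]
  | coprime a b _ _ hab iha ihb =>
    rw [hE.map_mul_of_coprime hab, hF.map_mul_of_coprime hab, Int.cast_mul, Int.cast_mul,
      Nat.cast_mul, map_mul, iha, ihb]
    ring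

end FA.Root.MultOne

namespace FA.Summary

open FA.Root.MultOne

variable (E E' : WeierstrassCurve ℚ) [E.IsElliptic] [E'.IsElliptic]

/-- **Strong multiplicity one**: semistable elliptic curves whose coefficients agree at almost all
primes have the same L-function. -/
theorem strongMultiplicityOne
    (h : ∀ p : ℕ, ∀ [Fact p.Prime], ∃ C : VariableChange ℚ_[p],
      HasGoodReduction ℤ_[p] (C • E.map (algebraMap ℚ ℚ_[p])) ∨
        HasMultiplicativeReduction ℤ_[p] (C • E.map (algebraMap ℚ ℚ_[p])))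
    (h' : ∀ p : ℕ, ∀ [Fact p.Prime], ∃ C : VariableChange ℚ_[p],
      HasGoodReduction ℤ_[p] (C • E'.map (algebraMap ℚ ℚ_[p])) ∨
        HasMultiplicativeReduction ℤ_[p] (C • E'.map (algebraMap ℚ ℚ_[p])))
    (S : Finset ℕ) (heq : ∀ p : ℕ, p.Prime → p ∉ S → E.LFunction p = E'.LFunction p) :
    E.LFunction = E'.LFunction := by
  obtain ⟨W, hW, hs⟩ := FA.Root.exists_semistableModel E
    fun p _ => FA.Root.isSemistableAt_of_reduction E (h p).choose_spec
  obtain ⟨W', hW', hs'⟩ := FA.Root.exists_semistableModel E'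
    fun p _ => FA.Root.isSemistableAt_of_reduction E' (h' p).choose_spec
  exact LFunction_eq_of_agree hW hW' (FA.Frob.Δ_ne_zero_of_model hW)
    (FA.Frob.Δ_ne_zero_of_model hW') hs hs' S heq

/-- **The same bad primes and root number**: there are one level, one sign and one entire function
which complete both L-series. -/
theorem strongMultiplicityOne_rootNumber
    (h : ∀ p : ℕ, ∀ [Fact p.Prime], ∃ C : VariableChange ℚ_[p],
      HasGoodReduction ℤ_[p] (C • E.map (algebraMap ℚ ℚ_[p])) ∨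
        HasMultiplicativeReduction ℤ_[p] (C • E.map (algebraMap ℚ ℚ_[p])))
    (h' : ∀ p : ℕ, ∀ [Fact p.Prime], ∃ C : VariableChange ℚ_[p],
      HasGoodReduction ℤ_[p] (C • E'.map (algebraMap ℚ ℚ_[p])) ∨
        HasMultiplicativeReduction ℤ_[p] (C • E'.map (algebraMap ℚ ℚ_[p])))
    (S : Finset ℕ) (heq : ∀ p : ℕ, p.Prime → p ∉ S → E.LFunction p = E'.LFunction p) :
    ∃ (N : ℕ) (ε : ℂ) (Λ : ℂ → ℂ), Squarefree N ∧
      (∀ p : ℕ, ∀ [Fact p.Prime],
        (p ∣ N ↔ ¬ ∃ C : VariableChange ℚ_[p],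
          HasGoodReduction ℤ_[p] (C • E.map (algebraMap ℚ ℚ_[p]))) ∧
        (p ∣ N ↔ ¬ ∃ C : VariableChange ℚ_[p],
          HasGoodReduction ℤ_[p] (C • E'.map (algebraMap ℚ ℚ_[p])))) ∧
      (ε = 1 ∨ ε = -1) ∧ Differentiable ℂ Λ ∧
      (∀ s : ℂ, 2 < s.re →
        Λ s = (N : ℂ) ^ (s / 2) * (2 * (π : ℂ)) ^ (-s) * Complex.Gamma s * E.LSeries s ∧
        Λ s = (N : ℂ) ^ (s / 2) * (2 * (π : ℂ)) ^ (-s) * Complex.Gamma s * E'.LSeries s) ∧
      ∀ s : ℂ, Λ (2 - s) = ε * Λ s := by
  obtain ⟨W, N, Λ, hW, hs, hsq, hN, hdiff, hser, hfe⟩ :=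
    FA.Root.exists_completed_LSeries_functional_equation_sign E h
  obtain ⟨W', hW', hs'⟩ := FA.Root.exists_semistableModel E'
    fun p _ => FA.Root.isSemistableAt_of_reduction E' (h' p).choose_spec
  have hL := strongMultiplicityOne E E' h h' S heq
  refine ⟨N, _, Λ, hsq, fun p _ => ?_, ?_, hdiff, fun s hs2 => ⟨hser s hs2, ?_⟩, hfe⟩
  · have hiff := (sameLocalData (FA.Frob.Δ_ne_zero_of_model hW)
      (FA.Frob.Δ_ne_zero_of_model hW') hs hs' S (apOfModel_eq_of_LFunction hW hW' S heq)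
      (Fact.out : p.Prime)).1
    rw [exists_good_iff hW hs p, exists_good_iff hW' hs' p, not_not, not_not, ← hiff]
    exact ⟨hN p Fact.out, hN p Fact.out⟩
  · have e : IsUnit (-∏ q ∈ N.primeFactors, -FA.Root.splitSign W q : ℤ) :=
      (IsUnit.prod_iff.mpr fun q _ => (by unfold FA.Root.splitSign; split_ifs <;> simp)).neg
    rcases Int.isUnit_iff.mp e with e | e <;> simp [e]
  · rw [hser s hs2, WeierstrassCurve.LSeries, WeierstrassCurve.LSeries, hL]

omit [E.IsElliptic] [E'.IsElliptic] in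
/-- **The root number is determined by the L-function**: completions of one L-series at one level
have one sign. -/
theorem sign_eq_of_LFunction_eq (hL : E.LFunction = E'.LFunction) {N : ℕ} (hN : N ≠ 0)
    {ε ε' : ℂ} {Λ Λ' : ℂ → ℂ} (hd : Differentiable ℂ Λ) (hd' : Differentiable ℂ Λ')
    (hs : ∀ s : ℂ, 2 < s.re →
      Λ s = (N : ℂ) ^ (s / 2) * (2 * (π : ℂ)) ^ (-s) * Complex.Gamma s * E.LSeries s)
    (hs' : ∀ s : ℂ, 2 < s.re →
      Λ' s = (N : ℂ) ^ (s / 2) * (2 * (π : ℂ)) ^ (-s) * Complex.Gamma s * E'.LSeries s)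
    (hfe : ∀ s : ℂ, Λ (2 - s) = ε * Λ s) (hfe' : ∀ s : ℂ, Λ' (2 - s) = ε' * Λ' s) :
    ε = ε' := by
  have hev : Λ =ᶠ[nhds (3 : ℂ)] Λ' := Filter.eventuallyEq_iff_exists_mem.mpr
    ⟨{z : ℂ | 2 < z.re}, (isOpen_lt continuous_const Complex.continuous_re).mem_nhds (by norm_num),
      fun z hz => by rw [hs z hz, hs' z hz, WeierstrassCurve.LSeries, WeierstrassCurve.LSeries, hL]⟩
  have e : Λ = Λ' := AnalyticOnNhd.eq_of_eventuallyEq (fun z _ => hd.analyticAt z)
    (fun z _ => hd'.analyticAt z) hev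
  subst e
  refine mul_right_cancel₀ ?_ ((hfe 3).symm.trans (hfe' 3))
  rw [hs 3 (by norm_num)]
  refine mul_ne_zero (mul_ne_zero (mul_ne_zero ?_ ?_) ?_) ?_
  · exact Complex.cpow_ne_zero_iff.mpr (Or.inl (Nat.cast_ne_zero.mpr hN))
  · exact Complex.cpow_ne_zero_iff.mpr (Or.inl (by simp [Real.pi_ne_zero]))
  · exact Complex.Gamma_ne_zero_of_re_pos (by norm_num)
  · exact lSeries_ne_zero E (by norm_num)

/-- **Strong multiplicity one for twists**: two curves with semistable twists by the same `d` and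
coefficients agreeing at almost all primes have the same L-function. -/
theorem strongMultiplicityOne_twist {d : ℚ} (hd : d ≠ 0)
    (h : ∀ p : ℕ, ∀ [Fact p.Prime], ∃ C : VariableChange ℚ_[p],
      HasGoodReduction ℤ_[p] (C • (FA.Twists.quadTwist E d).map (algebraMap ℚ ℚ_[p])) ∨
        HasMultiplicativeReduction ℤ_[p] (C • (FA.Twists.quadTwist E d).map (algebraMap ℚ ℚ_[p])))
    (h' : ∀ p : ℕ, ∀ [Fact p.Prime], ∃ C : VariableChange ℚ_[p],
      HasGoodReduction ℤ_[p] (C • (FA.Twists.quadTwist E' d).map (algebraMap ℚ ℚ_[p])) ∨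
        HasMultiplicativeReduction ℤ_[p] (C • (FA.Twists.quadTwist E' d).map (algebraMap ℚ ℚ_[p])))
    (S : Finset ℕ) (heq : ∀ p : ℕ, p.Prime → p ∉ S → E.LFunction p = E'.LFunction p) :
    E.LFunction = E'.LFunction := by
  haveI := FA.Root.quadTwist_isElliptic E hd
  haveI := FA.Root.quadTwist_isElliptic E' hd
  obtain ⟨W, hW, hs⟩ := FA.Root.exists_semistableModel (FA.Twists.quadTwist E d)
    fun p _ => FA.Root.isSemistableAt_of_reduction _ (h p).choose_spec
  obtain ⟨W', hW', hs'⟩ := FA.Root.exists_semistableModel (FA.Twists.quadTwist E' d)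
    fun p _ => FA.Root.isSemistableAt_of_reduction _ (h' p).choose_spec
  obtain ⟨D, t, hD, ht, rfl⟩ := FA.Twists.exists_squarefree_mul_sq hd
  obtain ⟨q, ψ, -, hq, hψ, -, hψl⟩ := FA.Twists.exists_twistSign_char hD
  have hE := LFunction_twist_eq E hD ht hW (FA.Frob.Δ_ne_zero_of_model hW) hs hψl
  have hE' := LFunction_twist_eq E' hD ht hW' (FA.Frob.Δ_ne_zero_of_model hW') hs' hψl
  have hT : (FA.Twists.quadTwist E (t ^ 2 * D)).LFunction =
      (FA.Twists.quadTwist E' (t ^ 2 * D)).LFunction := by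
    refine strongMultiplicityOne _ _ h h' (S ∪ q.primeFactors) fun p hp hpS => ?_
    rw [Finset.mem_union, not_or] at hpS
    have hu : IsUnit (p : ZMod q) := (ZMod.isUnit_iff_coprime p q).mpr
      ((hp.coprime_iff_not_dvd).mpr fun hdv => hpS.2 (Nat.mem_primeFactors.mpr ⟨hp, hdv, hq.ne'⟩))
    have e := hE p
    rw [heq p hp hpS.1, hE' p] at e
    exact_mod_cast (mul_left_cancel₀ (left_ne_zero_of_mul_eq_one (hψ hu.unit)) e).symm
  ext n
  have e := hE n
  rw [hT, ← hE' n] at e
  exact_mod_cast e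

end FA.Summary

end
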