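import Fermat.Agent.Root.SummarySupersingular
import Fermat.Agent.Root.SummaryMultiplicityOne

/-!
# Deuring's criterion for the curves with complex multiplication

For the thirteen values of `j` of class number one and an odd prime `p` of good reduction prime to
the discriminant `d` of the field: `a_p = 0` exactly when `d` is no square modulo `p`, and otherwise
`4 p = a_p² - d b²`, so that the reduction is ordinary.
-/

set_option autoImplicit false

noncomputable section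

open WeierstrassCurve FA.Twists
open scoped QuadraticAlgebra

namespace FA.CM.Deuring

/-- An integral model with good reduction at a prime of good reduction. -/
theorem exists_model_not_dvd (E : WeierstrassCurve ℚ) [E.IsElliptic] {p : ℕ} [Fact p.Prime]
    (h : ∃ C : VariableChange ℚ_[p], HasGoodReduction ℤ_[p] (C • E.map (algebraMap ℚ ℚ_[p]))) :
    ∃ W : WeierstrassCurve ℤ, W.IsIntegralModelOf E ∧ ¬ (p : ℤ) ∣ W.Δ := by
  obtain ⟨C₁, hC₁⟩ := h
  obtain ⟨C, V, hC, hV⟩ := FA.Root.isSemistableAt_of_reduction E (Or.inl hC₁)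
  obtain ⟨W₀, hW₀⟩ := FA.Frob.exists_integralModel E
  generalize hn : W₀.Δ.natAbs = n
  induction n using Nat.strong_induction_on generalizing W₀ with
  | _ n ih =>
    subst hn
    by_cases hd : (p : ℤ) ∣ W₀.Δ
    swap; · exact ⟨W₀, hW₀, hd⟩
    have hc : (p : ℤ) ∣ W₀.c₄ := by
      by_contra hc
      exact FA.Root.not_hasGoodReduction_of_bad hW₀ hd hc C₁ hC₁
    obtain ⟨C₀, hC₀⟩ := hW₀
    have hD : (C * (C₀.map (algebraMap ℚ ℚ_[p]))⁻¹) • W₀.map (Int.castRingHom ℚ_[p]) =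
        V.map PadicInt.Coe.ringHom := by
      have h1 : W₀.map (Int.castRingHom ℚ_[p]) =
          (C₀.map (algebraMap ℚ ℚ_[p])) • E.map (algebraMap ℚ ℚ_[p]) := by
        rw [WeierstrassCurve.map_variableChange, hC₀, WeierstrassCurve.map_map]
        congr 1
      rw [h1, mul_smul, inv_smul_smul, hC]
    obtain ⟨C', W', hW', hΔ'⟩ := FA.Root.exists_smaller_model W₀ _ V hD hV hd hc
    have hΔ0 : W'.Δ ≠ 0 := fun e =>
      FA.Frob.Δ_ne_zero_of_model (E := E) ⟨C₀, hC₀⟩ (by rw [← hΔ', e, zero_mul])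
    refine ih _ ?_ W' ⟨C' * C₀, by rw [mul_smul, hC₀, hW']⟩ rfl
    rw [← hΔ', Int.natAbs_mul, Int.natAbs_pow, Int.natAbs_natCast]
    exact lt_mul_of_one_lt_right (Int.natAbs_pos.mpr hΔ0)
      (Nat.one_lt_pow (by norm_num) (Fact.out : p.Prime).one_lt)

/-- The coefficient at the square of a prime of good reduction. -/
theorem LFunction_sq_of_good (E : WeierstrassCurve ℚ) [E.IsElliptic] {p : ℕ} [Fact p.Prime]
    (h : ∃ C : VariableChange ℚ_[p], HasGoodReduction ℤ_[p] (C • E.map (algebraMap ℚ ℚ_[p]))) :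
    E.LFunction (p ^ 2) = E.LFunction p ^ 2 - p := by
  obtain ⟨W, hW, hd⟩ := exists_model_not_dvd E h
  rw [FA.Root.LFunction_apply_prime_pow_good E W hW Fact.out hd 0, zero_add, pow_one, pow_zero,
    (FA.Root.isMultiplicative_LFunction E).map_one,
    ← FA.Root.LFunction_apply_prime E W hW Fact.out hd]
  ring

theorem twistSign_cases (D : ℤ) (l : ℕ) :
    twistSign D l = 0 ∨ twistSign D l = 1 ∨ twistSign D l = -1 := by
  rw [twistSign]
  split_ifs <;> first | simp | exact jacobiSym.trichotomy D l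

/-- At a good prime the square of the coefficient of a twist is that of the series twisted. -/
theorem sq_eq_of_twist {E : WeierstrassCurve ℚ} {c : ℕ → ℂ} {r : ℕ} {ψ : DirichletCharacter ℂ r}
    {D : ℤ} (hψ : ∀ l : ℕ, l.Prime → ψ (l : ZMod r) = (twistSign D l : ℂ))
    (hL : ∀ k, (E.LFunction k : ℂ) = ψ (k : ZMod r) * c k) {p : ℕ} (hp : p.Prime)
    (hg : E.LFunction (p ^ 2) = E.LFunction p ^ 2 - p) {a : ℤ} (hc : c p = (a : ℂ)) :
    E.LFunction p ^ 2 = a ^ 2 := by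
  have e1 : E.LFunction p = twistSign D p * a := by
    have h := hL p
    rw [hψ p hp, hc] at h
    exact_mod_cast h
  rcases twistSign_cases D p with h0 | h0 | h0
  · exfalso
    have h2 : E.LFunction (p ^ 2) = 0 := by
      have := hL (p ^ 2)
      rw [Nat.cast_pow, map_pow ψ, hψ p hp, h0] at this
      simpa using this
    rw [h2, e1, h0] at hg
    exact hp.ne_zero (by simpa using hg)
  · rw [e1, h0, one_mul]
  · rw [e1, h0]; ring

/-- The split primes of a twist of a series of odd discriminant. -/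
theorem split_odd {q n : ℕ} [Fact q.Prime] [Fact (q + 1 = 4 * n)] [NeZero n] (h2 : 2 ≤ n)
    {E : WeierstrassCurve ℚ} {r : ℕ} {ψ : DirichletCharacter ℂ r} {D : ℤ}
    (hψ : ∀ l : ℕ, l.Prime → ψ (l : ZMod r) = (twistSign D l : ℂ))
    (hL : ∀ k, (E.LFunction k : ℂ) = ψ (k : ZMod r) * FA.CM.OddOrder.oddCoeff q n k)
    {p : ℕ} (hp : p.Prime) (hpq : p ≠ q) (hg : E.LFunction (p ^ 2) = E.LFunction p ^ 2 - p)
    {a b : ℤ} (hb : 4 * (p : ℤ) = a ^ 2 + (q : ℤ) * b ^ 2)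
    (ha : quadraticChar (ZMod q) (a : ZMod q) = quadraticChar (ZMod q) 2) :
    ∃ b : ℤ, 4 * (p : ℤ) = E.LFunction p ^ 2 + (q : ℤ) * b ^ 2 := by
  have h := FA.CM.OddOrder.oddCoeff_split q (m := n) hp hpq hb ha 1
  rw [if_neg hp.not_dvd_one, add_zero, mul_one, FA.CM.OddOrder.oddCoeff_one q h2, mul_one] at h
  exact ⟨b, by rw [sq_eq_of_twist hψ hL hp hg h, hb]⟩

/-- The split primes of a curve with the invariant of a model obeying the law of the traces. -/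
theorem split_classOne {q n : ℕ} [Fact q.Prime] (hqn : q + 1 = 4 * n) (hodd : Odd n) (h2 : 2 ≤ n)
    {W : WeierstrassCurve ℤ} (hΔ : W.Δ = -(q : ℤ) ^ 3) (hc4 : (q : ℤ) ∣ W.c₄) (h4W : W.c₄ ≠ 0)
    (h6W : W.c₆ ≠ 0) (hlaw : FA.CM.ClassOne.TraceLaw q W) (E : WeierstrassCurve ℚ) [E.IsElliptic]
    (hj : (W.c₄ : ℚ) ^ 3 = E.j * (W.Δ : ℚ)) {p : ℕ} (hp : p.Prime) (hp2 : p ≠ 2)
    (hpq : ¬ (p : ℤ) ∣ -(q : ℤ)) (hs : IsSquare ((-(q : ℤ) : ℤ) : ZMod p))
    (hg : E.LFunction (p ^ 2) = E.LFunction p ^ 2 - p) :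
    ∃ b : ℤ, 4 * (p : ℤ) = E.LFunction p ^ 2 + (q : ℤ) * b ^ 2 := by
  have := Fact.mk hqn
  have : NeZero n := ⟨by omega⟩
  have hne : p ≠ q := fun e => hpq (by rw [e, Int.dvd_neg])
  obtain ⟨x, D, hD, hx, h4, h6⟩ := FA.CM.exists_twist_of_j E W h4W h6W hj
  obtain ⟨r, ψ, -, -, -, -, hval⟩ := exists_twistSign_char hD
  obtain ⟨⟨b, hb⟩, ha⟩ := (hlaw p hp hne).2 hp2 (by simpa using hs)
  exact split_odd h2 hval (FA.CM.ClassOne.LFunction_twist hodd h2 hΔ hc4 hlaw E hD hx h4 h6 ψ hval)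
    hp hne hg hb ha

theorem split_seven (E : WeierstrassCurve ℚ) [E.IsElliptic] (hj : E.j = -3375 ∨ E.j = 16581375)
    {p : ℕ} (hp : p.Prime) (hp2 : p ≠ 2) (hp7 : ¬ (p : ℤ) ∣ -7)
    (hs : IsSquare ((-7 : ℤ) : ZMod p)) (hg : E.LFunction (p ^ 2) = E.LFunction p ^ 2 - p) :
    ∃ b : ℤ, 4 * (p : ℤ) = E.LFunction p ^ 2 + 7 * b ^ 2 := by
  have : Fact (Nat.Prime 7) := ⟨Nat.prime_seven⟩
  have hne : p ≠ 7 := by rintro rfl; exact hp7 (by norm_num)
  obtain ⟨W, hW, h4W, h6W, hjW⟩ : ∃ W : WeierstrassCurve ℤ,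
      (W = FA.CM.Seven.curveA ∨ W = FA.CM.Seven.curveB) ∧
        W.c₄ ≠ 0 ∧ W.c₆ ≠ 0 ∧ (W.c₄ : ℚ) ^ 3 = E.j * (W.Δ : ℚ) := by
    obtain ⟨a4, a6, aΔ⟩ := FA.CM.Seven.curveA_invariants
    obtain ⟨b4, b6, bΔ⟩ := FA.CM.Seven.curveB_invariants
    rcases hj with hj | hj
    · exact ⟨_, Or.inl rfl, by rw [a4]; decide, by rw [a6]; decide,
        by rw [hj, a4, aΔ]; norm_num⟩
    · exact ⟨_, Or.inr rfl, by rw [b4]; decide, by rw [b6]; decide,
        by rw [hj, b4, bΔ]; norm_num⟩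
  obtain ⟨x, D, hD, hx, h4, h6⟩ := FA.CM.exists_twist_of_j E W h4W h6W hjW
  obtain ⟨r, ψ, -, -, -, -, hval⟩ := exists_twistSign_char hD
  obtain ⟨⟨b, hb⟩, ha⟩ := (FA.CM.Seven.apOfModel_curveA hp hp2 hne).2
    (by simpa using hs)
  exact split_odd (q := 7) (n := 2) le_rfl hval
    (FA.CM.Seven.LFunction_seven_twist hW E hD hx h4 h6 ψ hval) hp hne hg hb ha

theorem split_eight (E : WeierstrassCurve ℚ) [E.IsElliptic] (hj : E.j = 8000) {p : ℕ}
    (hp : p.Prime) (hp2 : p ≠ 2) (hs : IsSquare ((-8 : ℤ) : ZMod p))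
    (hg : E.LFunction (p ^ 2) = E.LFunction p ^ 2 - p) :
    ∃ b : ℤ, 4 * (p : ℤ) = E.LFunction p ^ 2 + 8 * b ^ 2 := by
  have := Fact.mk hp
  obtain ⟨e4, e6, eΔ⟩ := FA.CM.Eight.curveEight_invariants
  obtain ⟨x, D, hD, hx, h4, h6⟩ := FA.CM.exists_twist_of_j E FA.CM.Eight.curveEight
    (by rw [e4]; decide) (by rw [e6]; decide) (by rw [hj, e4, eΔ]; norm_num)
  obtain ⟨r, ψ, -, -, -, -, hval⟩ := exists_twistSign_char hD
  have h2 : (2 : ZMod p) ≠ 0 :=
    Ring.two_ne_zero ((ZMod.ringChar_zmod_n p).trans_ne hp2)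
  have hs2 : IsSquare ((-2 : ℤ) : ZMod p) := by
    obtain ⟨s, hs⟩ := hs
    refine ⟨s / 2, ?_⟩
    push_cast at hs ⊢
    field_simp
    linear_combination hs
  obtain ⟨a, b, -, hb, hc⟩ := (FA.CM.Eight.apOfModel_eight hp hp2).2 hs2
  have h := FA.CM.Eight.eightCoeff_split hp hp2 hb hc 1
  rw [if_neg hp.not_dvd_one, add_zero, mul_one, FA.CM.Eight.eightCoeff_one, mul_one] at h
  refine ⟨b, ?_⟩
  rw [sq_eq_of_twist hval (FA.CM.Eight.LFunction_eight_twist E hD hx h4 h6 ψ hval) hp hg h, hb]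
  ring

theorem split_zero (E : WeierstrassCurve ℚ) [E.IsElliptic] (h4 : E.c₄ = 0) {p : ℕ}
    (hp : p.Prime) (hp2 : p ≠ 2) (hp3 : ¬ (p : ℤ) ∣ -3) (hs : IsSquare ((-3 : ℤ) : ZMod p))
    (hg : E.LFunction (p ^ 2) = E.LFunction p ^ 2 - p) :
    ∃ b : ℤ, 4 * (p : ℤ) = E.LFunction p ^ 2 + 3 * b ^ 2 := by
  have := Fact.mk hp
  have hne : p ≠ 3 := by rintro rfl; exact hp3 (by norm_num)
  have h6 : E.c₆ ≠ 0 := fun h' => E.isUnit_Δ.ne_zero (by
    have := E.c_relation; rw [h4, h'] at this; linarith)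
  obtain ⟨c, z, hc, hfree, hz, hc6⟩ := FA.CM.Cubic.exists_invariants_of_c₄ E h6
  obtain ⟨D, t, hD, ht, rfl⟩ := exists_squarefree_mul_sq hz
  obtain ⟨r, ψ, -, -, -, -, hval⟩ := exists_twistSign_char hD
  obtain ⟨φ, hφ⟩ := FA.CM.Cubic.exists_isWeight (pow_ne_zero 2 hc)
  have hL := FA.CM.Cubic.LFunction_twist_jZero E hfree hc hD ht h4 hc6 ψ hval
  have hF := FA.CM.Cubic.LFunction_eq_primarySum hfree hφ
  by_cases hpc : (p : ℤ) ∣ c ^ 2
  · exfalso
    have h0 : ∀ k, (E.LFunction (p * k) : ℂ) = 0 := fun k => by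
      have e := hF (p * k)
      rw [FA.CM.Cubic.primarySum_bad hφ hp (Or.inr hpc) k] at e
      have e0 : (FA.CM.Cubic.jZeroModel (c : ℚ)).LFunction (p * k) = 0 := by exact_mod_cast e
      rw [hL, e0, Int.cast_zero, mul_zero]
    have e1 : E.LFunction p = 0 := by exact_mod_cast (mul_one p ▸ h0 1)
    have e2 : E.LFunction (p ^ 2) = 0 := by rw [pow_two]; exact_mod_cast h0 p
    rw [e1, e2] at hg
    exact hp.ne_zero (by omega)
  obtain ⟨s, hs⟩ := hs
  have h2 : (2 : ZMod p) ≠ 0 :=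
    Ring.two_ne_zero ((ZMod.ringChar_zmod_n p).trans_ne hp2)
  have hj : ((s - 1) / 2) ^ 2 + (s - 1) / 2 + 1 = (0 : ZMod p) := by
    push_cast at hs
    field_simp
    linear_combination -hs
  set χ := FA.CM.Cubic.cubicChar hj hne ((c ^ 2 : ℤ) : ZMod p) with hχ
  set γ := χ * FA.CM.Cubic.primaryPrime hj hne
  have hN : γ.norm = (p : ℤ) := by
    rw [map_mul, FA.CM.Cubic.norm_primaryPrime, ← one_mul ((p : ℤ))]
    congr 1
    · have h3 := congrArg QuadraticAlgebra.norm (FA.CM.Cubic.cubicChar_pow_three hj hne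
        (x := ((c ^ 2 : ℤ) : ZMod p)) (by rwa [Ne, ZMod.intCast_zmod_eq_zero_iff_dvd]))
      rw [map_pow, map_one, ← hχ] at h3
      exact (Odd.strictMono_pow ⟨1, rfl⟩).injective
        (show χ.norm ^ 3 = (1 : ℤ) ^ 3 by rw [h3, one_pow])
    · rw [one_mul]
  have h := FA.CM.Cubic.primarySum_split hφ hj hne hpc 1
  rw [if_neg hp.not_dvd_one, add_zero, mul_one, FA.CM.Cubic.primarySum_one hφ, mul_one,
    ← hF p] at h
  have hre : (FA.CM.Cubic.jZeroModel (c : ℚ)).LFunction p = 2 * γ.re - γ.im := by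
    have h' : ((FA.CM.Cubic.jZeroModel (c : ℚ)).LFunction p : FA.CM.Cubic.EInt) = γ + star γ := h
    have := congrArg QuadraticAlgebra.re h'
    simp only [QuadraticAlgebra.re_intCast, QuadraticAlgebra.re_add, QuadraticAlgebra.re_star,
      Int.cast_id] at this
    rw [this]
    ring
  refine ⟨γ.im, ?_⟩
  rw [sq_eq_of_twist hval hL hp hg rfl, hre, ← hN, FA.CM.Cubic.norm_eq]
  ring

theorem split_1728 (E : WeierstrassCurve ℚ) [E.IsElliptic] (hj : E.j = 1728) {p : ℕ}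
    (hp : p.Prime) (hp2 : p ≠ 2) (hs : IsSquare ((-4 : ℤ) : ZMod p))
    (hg : E.LFunction (p ^ 2) = E.LFunction p ^ 2 - p) :
    ∃ b : ℤ, 4 * (p : ℤ) = E.LFunction p ^ 2 + 4 * b ^ 2 := by
  have := Fact.mk hp
  obtain ⟨D, x, hD, hfree, hx, h4, h6⟩ := FA.CM.Quartic.exists_invariants_of_j_eq_1728 E hj
  obtain ⟨φ, hφ⟩ := FA.CM.Quartic.exists_isWeight (D := 4 * D ^ 3)
    (mul_ne_zero (by norm_num) (pow_ne_zero 3 hD))
  have hF := FA.CM.Quartic.LFunction_eq_primarySum hD hfree hx h4 h6 hφ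
  by_cases hpD : (p : ℤ) ∣ 4 * D ^ 3
  · exfalso
    have h0 : ∀ k, E.LFunction (p * k) = 0 := fun k => by
      have e := hF (p * k)
      rw [FA.CM.Quartic.primarySum_bad hφ hp (Or.inr hpD) k] at e
      exact_mod_cast e
    rw [← mul_one p, h0, mul_one, pow_two p, h0] at hg
    exact hp.ne_zero (by omega)
  obtain ⟨s, hs⟩ := hs
  have h2 : (2 : ZMod p) ≠ 0 :=
    Ring.two_ne_zero ((ZMod.ringChar_zmod_n p).trans_ne hp2)
  have hj' : s / 2 * (s / 2) = (-1 : ZMod p) := by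
    push_cast at hs
    field_simp
    linear_combination -hs
  set χ := FA.CM.Quartic.quarticChar hj' hp2 ((4 * D ^ 3 : ℤ) : ZMod p) with hχ
  set γ := χ * FA.CM.Quartic.primaryPrime hj' hp2
  have hN : γ.norm = (p : ℤ) := by
    have hu : IsUnit ((4 * D ^ 3 : ℤ) : ZMod p) :=
      isUnit_iff_ne_zero.mpr (by rwa [Ne, ZMod.intCast_zmod_eq_zero_iff_dvd])
    have hχ1 : χ.norm = 1 := (Zsqrtd.norm_eq_one_iff' (by norm_num) χ).mpr
      (hu.map (FA.CM.Quartic.quarticChar hj' hp2))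
    rw [Zsqrtd.norm_mul, hχ1, FA.CM.Quartic.norm_primaryPrime, one_mul]
  have h := FA.CM.Quartic.primarySum_split hφ hj' hp2 hpD 1
  rw [if_neg hp.not_dvd_one, add_zero, mul_one, FA.CM.Quartic.primarySum_one hφ, mul_one,
    ← hF p] at h
  have hre : E.LFunction p = 2 * γ.re := by
    have h' : (E.LFunction p : GaussianInt) = γ + star γ := h
    have := congrArg Zsqrtd.re h'
    simp only [Zsqrtd.re_intCast, Zsqrtd.re_add, Zsqrtd.re_star] at this
    rw [this]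
    ring
  refine ⟨γ.im, ?_⟩
  rw [hre, ← hN, Zsqrtd.norm_def]
  ring

theorem split_54000 (E : WeierstrassCurve ℚ) [E.IsElliptic] (hj : E.j = 54000) {p : ℕ}
    (hp : p.Prime) (hp2 : p ≠ 2) (hp3 : ¬ (p : ℤ) ∣ -3) (hs : IsSquare ((-3 : ℤ) : ZMod p))
    (hg : E.LFunction (p ^ 2) = E.LFunction p ^ 2 - p) :
    ∃ b : ℤ, 4 * (p : ℤ) = E.LFunction p ^ 2 + 3 * b ^ 2 := by
  obtain ⟨d, hd, hL⟩ := FA.CM.exists_mordell_of_j_eq_54000 E hj
  have : (⟨0, 0, 0, 0, d ^ 3⟩ : WeierstrassCurve ℚ).IsElliptic :=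
    ⟨isUnit_iff_ne_zero.mpr (by
      simp only [WeierstrassCurve.Δ, b₂, b₄, b₆, b₈]; ring_nf; simp [hd])⟩
  simp only [hL] at hg ⊢
  exact split_zero _ (FA.CM.mordell_invariants _).1 hp hp2 hp3 hs hg

theorem split_neg_12288000 (E : WeierstrassCurve ℚ) [E.IsElliptic] (hj : E.j = -12288000)
    {p : ℕ} (hp : p.Prime) (hp2 : p ≠ 2) (hp3 : ¬ (p : ℤ) ∣ -3)
    (hs : IsSquare ((-3 : ℤ) : ZMod p)) (hg : E.LFunction (p ^ 2) = E.LFunction p ^ 2 - p) :
    ∃ b : ℤ, 4 * (p : ℤ) = E.LFunction p ^ 2 + 3 * b ^ 2 := by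
  obtain ⟨E', z, hz, h4, h6, hL⟩ := FA.CM.exists_twist27_of_j_eq E hj
  have : E'.IsElliptic := ⟨isUnit_iff_ne_zero.mpr fun h0 => by
    have := E'.c_relation
    rw [h0, h4, h6] at this
    have : z ^ 6 = 0 := by linarith
    exact hz (pow_eq_zero_iff (by norm_num) |>.mp this)⟩
  simp only [hL] at hg ⊢
  exact split_zero E' h4 hp hp2 hp3 hs hg

theorem split_287496 (E : WeierstrassCurve ℚ) [E.IsElliptic] (hj : E.j = 287496) {p : ℕ}
    (hp : p.Prime) (hp2 : p ≠ 2) (hs : IsSquare ((-4 : ℤ) : ZMod p))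
    (hg : E.LFunction (p ^ 2) = E.LFunction p ^ 2 - p) :
    ∃ b : ℤ, 4 * (p : ℤ) = E.LFunction p ^ 2 + 4 * b ^ 2 := by
  obtain ⟨m, hm, hL⟩ := FA.CM.exists_congruentCurve_of_j_eq E hj
  have : (FA.CM.congruentCurve m).IsElliptic := ⟨isUnit_iff_ne_zero.mpr (by
    simp only [WeierstrassCurve.Δ, b₂, b₄, b₆, b₈]; ring_nf; simp [hm])⟩
  simp only [hL] at hg ⊢
  refine split_1728 _ ?_ hp hp2 hs hg
  rw [WeierstrassCurve.j, Units.val_inv_eq_inv_val, coe_Δ', inv_mul_eq_iff_eq_mul₀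
    (FA.CM.congruentCurve m).isUnit_Δ.ne_zero]
  simp only [c₄, WeierstrassCurve.Δ, b₂, b₄, b₆, b₈]
  ring

/-- The trace and the number of points. -/
theorem card_eq_of_apOfModel (W : WeierstrassCurve ℤ) {p : ℕ} :
    (Nat.card (W.map (Int.castRingHom (ZMod p))).toAffine.Point : ℤ) =
      p + 1 - W.apOfModel p := by
  rw [apOfModel, traceOfFrobenius, Nat.card_zmod, WeierstrassCurve.card, reductionMod]
  ring

end FA.CM.Deuring

namespace FA.Summary

open FA.CM.Deuring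

/-- **The split primes of a curve with complex multiplication**: for one of the thirteen values of
`j`, paired with the discriminant `d` of the field, `4 p = a_p² - d b²` at every odd prime `p` of
good reduction prime to `d` modulo which `d` is a square. -/
theorem four_mul_eq_sq_add_of_split (E : WeierstrassCurve ℚ) [E.IsElliptic] {d : ℤ}
    (hd : (E.j, d) ∈ ({(0, -3), (54000, -3), (-12288000, -3), (1728, -4), (287496, -4),
      (-3375, -7), (16581375, -7), (8000, -8), (-32768, -11), (-884736, -19), (-884736000, -43),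
      (-147197952000, -67), (-262537412640768000, -163)} : Finset (ℚ × ℤ)))
    {p : ℕ} [hp : Fact p.Prime] (hp2 : p ≠ 2) (hpd : ¬ (p : ℤ) ∣ d)
    (hs : IsSquare ((d : ℤ) : ZMod p))
    (hgood : ∃ C : VariableChange ℚ_[p], HasGoodReduction ℤ_[p] (C • E.map (algebraMap ℚ ℚ_[p]))) :
    ∃ b : ℤ, 4 * (p : ℤ) = E.LFunction p ^ 2 - d * b ^ 2 := by
  have hg := LFunction_sq_of_good E hgood
  simp only [Finset.mem_insert, Finset.mem_singleton, Prod.mk.injEq] at hd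
  rcases hd with ⟨hj, rfl⟩ | ⟨hj, rfl⟩ | ⟨hj, rfl⟩ | ⟨hj, rfl⟩ | ⟨hj, rfl⟩ | ⟨hj, rfl⟩ |
    ⟨hj, rfl⟩ | ⟨hj, rfl⟩ | ⟨hj, rfl⟩ | ⟨hj, rfl⟩ | ⟨hj, rfl⟩ | ⟨hj, rfl⟩ | ⟨hj, rfl⟩ <;>
    simp only [neg_mul, sub_neg_eq_add]
  · exact split_zero E (E.j_eq_zero_iff.mp hj) hp.out hp2 hpd hs hg
  · exact split_54000 E hj hp.out hp2 hpd hs hg
  · exact split_neg_12288000 E hj hp.out hp2 hpd hs hg
  · exact split_1728 E hj hp.out hp2 hs hg
  · exact split_287496 E hj hp.out hp2 hs hg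
  · exact split_seven E (Or.inl hj) hp.out hp2 hpd hs hg
  · exact split_seven E (Or.inr hj) hp.out hp2 hpd hs hg
  · exact split_eight E hj hp.out hp2 hs hg
  · obtain ⟨e4, e6, eΔ⟩ := FA.CM.Eleven.curveEleven_invariants
    have := Fact.mk FA.CM.Eleven.prime_eleven_arith
    exact_mod_cast split_classOne (q := 11) (n := 3) rfl (by decide) (by norm_num)
      (by rw [eΔ]; norm_num) (by rw [e4]; norm_num) (by rw [e4]; decide) (by rw [e6]; decide)
      FA.CM.Eleven.traceLaw_eleven E (by rw [hj, e4, eΔ]; norm_num) hp.out hp2 hpd hs hg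
  · obtain ⟨e4, e6, eΔ⟩ := FA.CM.Nineteen.curveNineteen_invariants
    have := Fact.mk FA.CM.Nineteen.prime_nineteen_arith
    exact_mod_cast split_classOne (q := 19) (n := 5) rfl (by decide) (by norm_num)
      (by rw [eΔ]; norm_num) (by rw [e4]; norm_num) (by rw [e4]; decide) (by rw [e6]; decide)
      FA.CM.Nineteen.traceLaw_nineteen E (by rw [hj, e4, eΔ]; norm_num) hp.out hp2 hpd hs hg
  · have := Fact.mk FA.CM.ClassOne.prime_fortyThree
    exact_mod_cast split_classOne (q := 43) (n := 11) (W := ⟨0, 0, 1, -860, 9707⟩) rfl (by decide)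
      (by norm_num) (by norm_num [WeierstrassCurve.Δ, b₂, b₄, b₆, b₈])
      ⟨960, by norm_num [c₄, b₂, b₄]⟩ (by norm_num [c₄, b₂, b₄]) (by norm_num [c₆, b₂, b₄, b₆])
      FA.CM.ClassOne.traceLaw_fortyThree E
      (by rw [hj]; norm_num [c₄, WeierstrassCurve.Δ, b₂, b₄, b₆, b₈])
      hp.out hp2 hpd hs hg
  · have := Fact.mk FA.CM.ClassOne.prime_sixtySeven
    exact_mod_cast split_classOne (q := 67) (n := 17) (W := ⟨0, 0, 1, -7370, 243528⟩) rfl
      (by decide) (by norm_num) (by norm_num [WeierstrassCurve.Δ, b₂, b₄, b₆, b₈])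
      ⟨5280, by norm_num [c₄, b₂, b₄]⟩ (by norm_num [c₄, b₂, b₄]) (by norm_num [c₆, b₂, b₄, b₆])
      FA.CM.ClassOne.traceLaw_sixtySeven E
      (by rw [hj]; norm_num [c₄, WeierstrassCurve.Δ, b₂, b₄, b₆, b₈])
      hp.out hp2 hpd hs hg
  · have := Fact.mk FA.CM.ClassOne.prime_oneSixtyThree
    exact_mod_cast split_classOne (q := 163) (n := 41) (W := ⟨0, 0, 1, -2174420, 1234136692⟩) rfl
      (by decide) (by norm_num) (by norm_num [WeierstrassCurve.Δ, b₂, b₄, b₆, b₈])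
      ⟨640320, by norm_num [c₄, b₂, b₄]⟩ (by norm_num [c₄, b₂, b₄]) (by norm_num [c₆, b₂, b₄, b₆])
      FA.CM.ClassOne.traceLaw_oneSixtyThree E
      (by rw [hj]; norm_num [c₄, WeierstrassCurve.Δ, b₂, b₄, b₆, b₈])
      hp.out hp2 hpd hs hg

/-- **Deuring's criterion**: at such a prime the reduction is ordinary exactly when `p` splits. -/
theorem dvd_lFunction_iff_inert (E : WeierstrassCurve ℚ) [E.IsElliptic] {d : ℤ}
    (hd : (E.j, d) ∈ ({(0, -3), (54000, -3), (-12288000, -3), (1728, -4), (287496, -4),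
      (-3375, -7), (16581375, -7), (8000, -8), (-32768, -11), (-884736, -19), (-884736000, -43),
      (-147197952000, -67), (-262537412640768000, -163)} : Finset (ℚ × ℤ)))
    {p : ℕ} [hp : Fact p.Prime] (hp2 : p ≠ 2) (hpd : ¬ (p : ℤ) ∣ d)
    (hgood : ∃ C : VariableChange ℚ_[p], HasGoodReduction ℤ_[p] (C • E.map (algebraMap ℚ ℚ_[p]))) :
    (p : ℤ) ∣ E.LFunction p ↔ ¬ IsSquare ((d : ℤ) : ZMod p) := by
  refine ⟨fun ha hs => ?_, fun h => by
    rw [lFunction_eq_zero_of_inert E hd hp.out h]; exact dvd_zero _⟩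
  obtain ⟨b, hb⟩ := four_mul_eq_sq_add_of_split E hd hp2 hpd hs hgood
  have hq := Nat.prime_iff_prime_int.mp hp.out
  obtain ⟨k, hk⟩ := ha
  obtain ⟨c, rfl⟩ : (p : ℤ) ∣ b := hq.dvd_of_dvd_pow (n := 2) <| (hq.dvd_mul.mp
    (show (p : ℤ) ∣ d * b ^ 2 from ⟨p * k ^ 2 - 4, by rw [hk] at hb; linear_combination hb⟩)
      ).resolve_left hpd
  have h4 : (4 : ℤ) = p * (k ^ 2 - d * c ^ 2) :=
    mul_left_cancel₀ hq.ne_zero (by rw [hk] at hb; linear_combination hb)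
  have hp4 : p ∣ 2 ^ 2 := Int.natCast_dvd_natCast.mp ⟨k ^ 2 - d * c ^ 2, by exact_mod_cast h4⟩
  exact hp2 ((Nat.prime_dvd_prime_iff_eq hp.out Nat.prime_two).mp (hp.out.dvd_of_dvd_pow hp4))

/-- **`a_p = 0` exactly at the inert primes** among the odd primes of good reduction prime to
`d`. -/
theorem lFunction_eq_zero_iff_inert (E : WeierstrassCurve ℚ) [E.IsElliptic] {d : ℤ}
    (hd : (E.j, d) ∈ ({(0, -3), (54000, -3), (-12288000, -3), (1728, -4), (287496, -4),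
      (-3375, -7), (16581375, -7), (8000, -8), (-32768, -11), (-884736, -19), (-884736000, -43),
      (-147197952000, -67), (-262537412640768000, -163)} : Finset (ℚ × ℤ)))
    {p : ℕ} [hp : Fact p.Prime] (hp2 : p ≠ 2) (hpd : ¬ (p : ℤ) ∣ d)
    (hgood : ∃ C : VariableChange ℚ_[p], HasGoodReduction ℤ_[p] (C • E.map (algebraMap ℚ ℚ_[p]))) :
    E.LFunction p = 0 ↔ ¬ IsSquare ((d : ℤ) : ZMod p) :=
  ⟨fun h => (dvd_lFunction_iff_inert E hd hp2 hpd hgood).mp (h ▸ dvd_zero _),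
    lFunction_eq_zero_of_inert E hd hp.out⟩

/-- **The points modulo `p` of `y² + y = x³ + A x + B`** with multiplication by the integers of
`ℚ(√-q)`, `q = 43, 67, 163`: `p + 1` of them at an inert prime, and `p + 1 - a` with
`4 p = a² + q b²`, `a` no square modulo `q`, at a split one. -/
theorem pointCount_classNumberOne {q : ℕ} {A B : ℤ}
    (h : (q, A, B) ∈ ({(43, -860, 9707), (67, -7370, 243528),
      (163, -2174420, 1234136692)} : Finset (ℕ × ℤ × ℤ)))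
    {p : ℕ} (hp : p.Prime) (hpq : p ≠ q) :
    (p = 2 ∨ ¬ IsSquare (-(q : ZMod p)) →
      Nat.card ((⟨0, 0, 1, A, B⟩ : WeierstrassCurve ℤ).map
        (Int.castRingHom (ZMod p))).toAffine.Point = p + 1) ∧
    (p ≠ 2 → IsSquare (-(q : ZMod p)) → ∃ a b : ℤ,
      (Nat.card ((⟨0, 0, 1, A, B⟩ : WeierstrassCurve ℤ).map
        (Int.castRingHom (ZMod p))).toAffine.Point : ℤ) = p + 1 - a ∧
        4 * (p : ℤ) = a ^ 2 + q * b ^ 2 ∧ jacobiSym a q = -1) := by
  obtain ⟨_, hq8, hlaw⟩ : ∃ _ : Fact q.Prime,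
      q % 8 = 3 ∧ FA.CM.ClassOne.TraceLaw q ⟨0, 0, 1, A, B⟩ := by
    simp only [Finset.mem_insert, Finset.mem_singleton, Prod.mk.injEq] at h
    rcases h with ⟨rfl, rfl, rfl⟩ | ⟨rfl, rfl, rfl⟩ | ⟨rfl, rfl, rfl⟩
    · have := Fact.mk FA.CM.ClassOne.prime_fortyThree
      exact ⟨this, rfl, FA.CM.ClassOne.traceLaw_fortyThree⟩
    · have := Fact.mk FA.CM.ClassOne.prime_sixtySeven
      exact ⟨this, rfl, FA.CM.ClassOne.traceLaw_sixtySeven⟩
    · have := Fact.mk FA.CM.ClassOne.prime_oneSixtyThree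
      exact ⟨this, rfl, FA.CM.ClassOne.traceLaw_oneSixtyThree⟩
  obtain ⟨h0, h1⟩ := hlaw p hp hpq
  refine ⟨fun h => ?_, fun h2 hs => ?_⟩
  · have e := card_eq_of_apOfModel (⟨0, 0, 1, A, B⟩ : WeierstrassCurve ℤ) (p := p)
    rw [h0 h, sub_zero] at e
    exact_mod_cast e
  · obtain ⟨⟨b, hb⟩, ha⟩ := h1 h2 hs
    refine ⟨_, b, card_eq_of_apOfModel _, hb, ?_⟩
    rw [← jacobiSym.legendreSym.to_jacobiSym, legendreSym, ha,
      quadraticChar_two ((ZMod.ringChar_zmod_n q).trans_ne (by omega)), ZMod.card,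
      ZMod.χ₈_nat_eq_if_mod_eight, if_neg (by omega), if_neg (by omega)]

end FA.Summary

end
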