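import Fermat.Agent.Root.Top
import Fermat.Agent.Switch.Frey
import Fermat.Agent.Switch.FiveSwitch
import Fermat.Agent.Switch.ThreeSwitch
import Fermat.Agent.Switch.TorsionIso
import Fermat.Agent.Theta.Residual
import Fermat.Agent.S29

/-!
# From the two lifting theorems and the removal step to Fermat's Last Theorem

The open inputs are hypotheses:
* `LiftTwo`: modularity lifting at `2` for the curves produced by the `3`-switch;
* `LiftOdd`: modularity lifting at `3` and `5` from a modular curve with the same torsion;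
* `Removal`: removal of an odd prime from the level of an irreducible Frey representation.
Everything else is proved.
-/

set_option autoImplicit false

noncomputable section

open WeierstrassCurve

namespace FA.Root

open FA.Theta (badProd)

/-- Modularity lifting at `2`. -/
def LiftTwo : Prop :=
  ∀ W : WeierstrassCurve ℤ, W.Δ < 0 → W.IsSemistableModel → W.IsGoodPrimeFor 2 →
    W.apOfModel 2 = 0 → W.ModRepIsIrreducible 2 →
    (∀ q : ℕ, q.Prime → (q : ℤ) ∣ W.Δ → Odd (padicValInt q W.Δ)) →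
    (∃ q : ℕ, q.Prime ∧ (q : ℤ) ∣ W.Δ ∧ q ≠ 3) →
    W.IsResiduallyModularOfLevel 2 (4 * badProd W) → W.IsModularModelOfLevel (badProd W)

/-- Modularity lifting at `p = 3, 5` from a semistable curve with the same `p`-torsion. -/
def LiftOdd : Prop :=
  ∀ (p : ℕ) (W W' : WeierstrassCurve ℤ), (p = 3 ∨ p = 5) → W.Δ ≠ 0 → W'.Δ ≠ 0 →
    W.IsSemistableModel → W'.IsSemistableModel → W.ModRepIsIrreducible p →
    FA.Switch.TorsIso p (FA.Frob.ratCurve W) (FA.Frob.ratCurve W') →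
    ((p : ℤ) ∣ W.Δ ↔ (p : ℤ) ∣ W'.Δ) →
    W'.IsModularModelOfLevel (badProd W') → W.IsModularModelOfLevel (badProd W)

/-- Removal of an odd prime from the level of the Frey representation. -/
def Removal : Prop :=
  ∀ P : FreyPackage,
    Affine.Point.GaloisRepIsIrreducible (K := AlgebraicClosure ℚ) ℚ P.freyCurve P.p →
    ∀ N q : ℕ, P.IsConductorLevel N → q.Prime → q ≠ 2 → q ∣ N → P.ModularRepOfLevel N →
      ∃ M : ℕ, M ∣ N ∧ ¬ q ∣ M ∧ P.ModularRepOfLevel M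

/-- Mazur's theorem for Frey curves. -/
def MazurFrey : Prop :=
  ∀ P : FreyPackage,
    Affine.Point.GaloisRepIsIrreducible (K := AlgebraicClosure ℚ) ℚ P.freyCurve P.p

/-! ### Arithmetic -/

lemma prime_dvd_badProd_iff {W : WeierstrassCurve ℤ} (hΔ : W.Δ ≠ 0) {q : ℕ} (hq : q.Prime) :
    q ∣ badProd W ↔ (q : ℤ) ∣ W.Δ := by
  constructor
  · intro h
    obtain ⟨r, hr, hqr⟩ := (Nat.Prime.prime hq).exists_mem_finset_dvd h
    rw [(Nat.prime_dvd_prime_iff_eq hq (Nat.prime_of_mem_primeFactors hr)).mp hqr]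
    exact Int.natCast_dvd.mpr (Nat.dvd_of_mem_primeFactors hr)
  · intro h
    exact Finset.dvd_prod_of_mem _
      (Nat.mem_primeFactors.mpr ⟨hq, Int.natCast_dvd.mp h, Int.natAbs_ne_zero.mpr hΔ⟩)

lemma squarefree_badProd (W : WeierstrassCurve ℤ) : Squarefree (badProd W) :=
  FA.Theta.squarefree_prod_primes _ fun _ hp => Nat.prime_of_mem_primeFactors hp

lemma badProd_pos (W : WeierstrassCurve ℤ) : 0 < badProd W :=
  Finset.prod_pos fun _ hq => (Nat.prime_of_mem_primeFactors hq).pos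

lemma dvd_of_padicValInt_eq {q : ℕ} (hq : q.Prime) {x y : ℤ} (hx : x ≠ 0)
    (h : padicValInt q y = padicValInt q x) (hd : (q : ℤ) ∣ x) : (q : ℤ) ∣ y := by
  have : Fact q.Prime := ⟨hq⟩
  refine Int.natCast_dvd.mpr (dvd_of_one_le_padicValNat ?_)
  have := one_le_padicValNat_of_dvd (Int.natAbs_ne_zero.mpr hx) (Int.natCast_dvd.mp hd)
  simp only [padicValInt] at h
  omega

lemma dvd_Δ_iff_of_reductionMod {W W' : WeierstrassCurve ℤ} {p : ℕ}
    (h : W'.reductionMod p = W.reductionMod p) : (p : ℤ) ∣ W'.Δ ↔ (p : ℤ) ∣ W.Δ := by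
  have h' := congrArg WeierstrassCurve.Δ h
  simp only [reductionMod, WeierstrassCurve.map_Δ, eq_intCast] at h'
  rw [← ZMod.intCast_zmod_eq_zero_iff_dvd, ← ZMod.intCast_zmod_eq_zero_iff_dvd, h']

lemma no_consecutive_powers {z : ℕ} (hz : 0 < z) {p : ℕ} (hp : 2 ≤ p) :
    z ^ p + 1 < (z + 1) ^ p := by
  obtain ⟨m, rfl⟩ : ∃ m, p = m + 1 := ⟨p - 1, by omega⟩
  have h1 : z ^ m < (z + 1) ^ m := Nat.pow_lt_pow_left (Nat.lt_succ_self z) (by omega)
  have h2 : 1 ≤ z ^ m := Nat.one_le_pow _ _ hz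
  rw [pow_succ, pow_succ]
  nlinarith

/-- Two nonzero `p`-th powers do not add up to a unit. -/
lemma pow_add_pow_ne_unit {x y : ℤ} (hx : x ≠ 0) (hy : y ≠ 0) {p : ℕ} (hp : Odd p) (hp2 : 2 ≤ p)
    {u : ℤ} (hu : IsUnit u) : x ^ p + y ^ p ≠ u := by
  intro h
  have hd : x + y ∣ u := h ▸ hp.add_dvd_pow_add_pow x y
  have key : ∀ x y : ℤ, x + y = 1 → x ≠ 0 → y ≠ 0 → 0 < y → 1 < x ^ p + y ^ p ∨
      x ^ p + y ^ p < -1 := by
    intro x y hxy hx _ hy
    obtain ⟨z, hz⟩ : ∃ z : ℕ, (z : ℤ) = -x := ⟨(-x).toNat, Int.toNat_of_nonneg (by omega)⟩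
    have hz0 : 0 < z := by omega
    left
    have e : y = ((z + 1 : ℕ) : ℤ) := by push_cast; omega
    have e' : x = -((z : ℕ) : ℤ) := by omega
    rw [e, e', hp.neg_pow]
    have := no_consecutive_powers hz0 hp2
    have : ((z : ℤ) ^ p + 1 : ℤ) < ((z + 1 : ℕ) : ℤ) ^ p := by exact_mod_cast this
    linarith
  rcases Int.isUnit_iff.mp (isUnit_of_dvd_unit hd hu) with hs | hs
  · rcases Int.isUnit_iff.mp hu with rfl | rfl <;> rcases lt_or_gt_of_ne hy with hy' | hy'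
    · rcases key y x (by linarith) hy hx (by omega) with h' | h' <;> linarith
    · rcases key x y hs hx hy hy' with h' | h' <;> linarith
    · rcases key y x (by linarith) hy hx (by omega) with h' | h' <;> linarith
    · rcases key x y hs hx hy hy' with h' | h' <;> linarith
  · have hn : (-x) ^ p + (-y) ^ p = -u := by rw [hp.neg_pow, hp.neg_pow, ← h]; ring
    rcases Int.isUnit_iff.mp hu with rfl | rfl <;> rcases lt_or_gt_of_ne hy with hy' | hy'
    · rcases key (-x) (-y) (by linarith) (neg_ne_zero.mpr hx) (neg_ne_zero.mpr hy) (by omega)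
        with h' | h' <;> linarith
    · rcases key (-y) (-x) (by linarith) (neg_ne_zero.mpr hy) (neg_ne_zero.mpr hx) (by omega)
        with h' | h' <;> linarith
    · rcases key (-x) (-y) (by linarith) (neg_ne_zero.mpr hx) (neg_ne_zero.mpr hy) (by omega)
        with h' | h' <;> linarith
    · rcases key (-y) (-x) (by linarith) (neg_ne_zero.mpr hy) (neg_ne_zero.mpr hx) (by omega)
        with h' | h' <;> linarith

lemma prime_dvd_abc {P : FreyPackage} {q : ℕ} (hq : q.Prime)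
    (h : (q : ℤ) ∣ P.freyCurveInt.Δ) : (q : ℤ) ∣ P.a * P.b * P.c := by
  have h' : (q : ℤ) ∣ (P.a ^ P.p * P.b ^ P.p * P.c ^ P.p) ^ 2 :=
    FA.Switch.freyInt_Δ P ▸ dvd_mul_of_dvd_right h 256
  rw [← mul_pow, ← mul_pow, ← pow_mul] at h'
  exact (Nat.prime_iff_prime_int.mp hq).dvd_of_dvd_pow h'

lemma dvd_Δ_of_dvd_abc {P : FreyPackage} {q : ℕ} (hq : q.Prime) (hq2 : q ≠ 2)
    (h : (q : ℤ) ∣ P.a * P.b * P.c) : (q : ℤ) ∣ P.freyCurveInt.Δ := by
  have hp := Nat.prime_iff_prime_int.mp hq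
  have h' : (q : ℤ) ∣ 256 * P.freyCurveInt.Δ := by
    rw [FA.Switch.freyInt_Δ, ← mul_pow, ← mul_pow, ← pow_mul]
    exact dvd_pow h (Nat.mul_ne_zero P.hp0 two_ne_zero)
  rcases hp.dvd_or_dvd h' with h2 | h2
  · exfalso
    have h28 : (q : ℤ) ∣ (2 : ℤ) ^ 8 := by norm_num; exact h2
    exact hq2 ((Nat.prime_dvd_prime_iff_eq hq Nat.prime_two).mp
      (Int.natCast_dvd_natCast.mp (hp.dvd_of_dvd_pow h28)))
  · exact h2

/-- The Frey curve has a bad prime other than `2` and `3`. -/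
lemma exists_bad_prime_ge_five (P : FreyPackage) :
    ∃ q : ℕ, q.Prime ∧ q ≠ 2 ∧ q ≠ 3 ∧ (q : ℤ) ∣ P.freyCurveInt.Δ := by
  by_contra hcon
  push Not at hcon
  have hb : (2 : ℤ) ∣ P.b := FA.Local.frey_two_dvd_b P
  have hsmall : ∀ x : ℤ, x ∣ P.a * P.b * P.c → x ≠ 0 → ¬ (2 : ℤ) ∣ x → ¬ (3 : ℤ) ∣ x →
      IsUnit x := by
    intro x hx hx0 h2 h3
    rw [Int.isUnit_iff_natAbs_eq]
    by_contra h1
    obtain ⟨q, hq, hqx⟩ := Nat.exists_prime_and_dvd h1
    have hqx' : (q : ℤ) ∣ x := Int.natCast_dvd.mpr hqx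
    have hq2 : q ≠ 2 := fun e => h2 (by exact_mod_cast e ▸ hqx')
    have hq3 : q ≠ 3 := fun e => h3 (by exact_mod_cast e ▸ hqx')
    exact hcon q hq hq2 hq3 (dvd_Δ_of_dvd_abc hq hq2 (hqx'.trans hx))
  have hab : IsCoprime P.a P.b := Int.isCoprime_iff_gcd_eq_one.mpr (by
    have := P.hgcdab; rw [← Int.coe_gcd] at this; exact_mod_cast this)
  have hac : IsCoprime P.a P.c := Int.isCoprime_iff_gcd_eq_one.mpr (by
    have := P.hgcdac; rw [← Int.coe_gcd] at this; exact_mod_cast this)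
  have hbc : IsCoprime P.b P.c := Int.isCoprime_iff_gcd_eq_one.mpr (by
    have := P.hgcdbc; rw [← Int.coe_gcd] at this; exact_mod_cast this)
  have ha2 : ¬ (2 : ℤ) ∣ P.a := fun h => by
    exact absurd (hab.isUnit_of_dvd' h hb) (by rw [Int.isUnit_iff]; norm_num)
  have hc2 : ¬ (2 : ℤ) ∣ P.c := fun h => by
    exact absurd (hbc.isUnit_of_dvd' hb h) (by rw [Int.isUnit_iff]; norm_num)
  have hp2 : 2 ≤ P.p := P.pp.two_le
  by_cases h3 : (3 : ℤ) ∣ P.a
  · have hc3 : ¬ (3 : ℤ) ∣ P.c := fun h => by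
      exact absurd (hac.isUnit_of_dvd' h3 h) (by rw [Int.isUnit_iff]; norm_num)
    have hc : IsUnit P.c := hsmall P.c (dvd_mul_left _ _) P.hc0 hc2 hc3
    exact pow_add_pow_ne_unit P.ha0 P.hb0 P.hp_odd hp2 (hc.pow P.p) P.hFLT
  · have ha : IsUnit P.a :=
      hsmall P.a (dvd_mul_of_dvd_left (dvd_mul_right _ _) _) P.ha0 ha2 h3
    refine pow_add_pow_ne_unit (x := P.c) (y := -P.b) P.hc0 (neg_ne_zero.mpr P.hb0) P.hp_odd hp2
      (ha.pow P.p) ?_
    rw [P.hp_odd.neg_pow, ← P.hFLT]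
    ring

/-! ### The chain -/

/-- The Frey curve is modular of conductor level. -/
theorem freyInt_modular (h2 : LiftTwo) (hodd : LiftOdd) (P : FreyPackage) :
    P.freyCurveInt.IsModularModelOfLevel (badProd P.freyCurveInt) := by
  classical
  set W₀ := P.freyCurveInt
  have hΔ₀ : W₀.Δ ≠ 0 := FA.Switch.freyInt_Δ_ne_zero P
  have hss₀ : W₀.IsSemistableModel := FA.Switch.freyInt_semistable P
  have hirr₀ := FA.Switch.freyInt_modRepIsIrreducible_five P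
  have hv2 : 2 ≤ padicValInt 2 W₀.Δ := by
    obtain ⟨m, hm⟩ := FA.Switch.freyInt_Δ_square P
    have : Fact (Nat.Prime 2) := ⟨Nat.prime_two⟩
    have hd : (2 : ℤ) ^ 2 ∣ W₀.Δ := ⟨m ^ 2, by rw [hm]; ring⟩
    exact ((padicValInt_dvd_iff 2 W₀.Δ).mp (by exact_mod_cast hd)).resolve_left hΔ₀
  obtain ⟨W₁, hΔ₁, hss₁, hirr₁, h2Δ₁, h3v₁, -, hiso5, hkeep₁⟩ :=
    FA.Switch.exists_five_switch W₀ hΔ₀ hss₀ hv2
  obtain ⟨W₂, hneg₂, hss₂, hgood₂, hap₂, hirr₂, hodd₂, hiso3, hred₂, hkeep₂⟩ :=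
    FA.Switch.exists_three_switch hΔ₁ hss₁ h2Δ₁ h3v₁
  obtain ⟨q₀, hq₀, hq₀2, hq₀3, hq₀d⟩ := exists_bad_prime_ge_five P
  have hq₀1 : (q₀ : ℤ) ∣ W₁.Δ :=
    dvd_of_padicValInt_eq hq₀ hΔ₀ (hkeep₁ q₀ hq₀ hq₀2 (Or.inl hq₀d)).2 hq₀d
  have hne3 : ∃ q : ℕ, q.Prime ∧ (q : ℤ) ∣ W₂.Δ ∧ q ≠ 3 :=
    ⟨q₀, hq₀, (hkeep₂ q₀ hq₀ hq₀2 hq₀1).2, hq₀3⟩
  -- at `2`
  have hmod₂ : W₂.IsModularModelOfLevel (badProd W₂) :=
    h2 W₂ hneg₂ hss₂ hgood₂ hap₂ hirr₂ hodd₂ hne3
      (FA.Theta.isResiduallyModularOfLevel_two hneg₂ hss₂ hgood₂ hap₂ hodd₂ hne3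
        fun g hg k _ _ φ => (Fermat.Agent.S29.result hg Nat.prime_two φ).imp fun ρ h => h.1)
  -- at `3`
  have hmod₁ : W₁.IsModularModelOfLevel (badProd W₁) :=
    hodd 3 W₁ W₂ (Or.inl rfl) hΔ₁ hneg₂.ne hss₁ hss₂ hirr₁ hiso3
      (dvd_Δ_iff_of_reductionMod hred₂).symm hmod₂
  -- at `5`
  exact hodd 5 W₀ W₁ (Or.inr rfl) hΔ₀ hΔ₁ hss₀ hss₁ hirr₀ hiso5
    (dvd_Δ_iff_of_reductionMod (hkeep₁ 5 (by norm_num) (by norm_num) (Or.inr (Or.inr rfl))).1).symm
    hmod₁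

/-- The shape of S04. -/
theorem frey_isModular_of (h2 : LiftTwo) (hodd : LiftOdd) (P : FreyPackage) :
    P.freyCurve.IsModular :=
  ⟨P.freyCurveInt, FA.Switch.freyInt_isIntegralModelOf P, badProd P.freyCurveInt, badProd_pos _,
    freyInt_modular h2 hodd P⟩

/-- The shape of S06. -/
theorem modularRepOfConductorLevel_of (h2 : LiftTwo) (hodd : LiftOdd) (P : FreyPackage) :
    ∃ N : ℕ, P.IsConductorLevel N ∧ P.ModularRepOfLevel N := by
  refine ⟨badProd P.freyCurveInt, ⟨badProd_pos _, squarefree_badProd _, fun q hq hqN =>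
    prime_dvd_abc hq ((prime_dvd_badProd_iff (FA.Switch.freyInt_Δ_ne_zero P) hq).mp hqN)⟩, ?_⟩
  obtain ⟨f, hf, hfq⟩ := freyInt_modular h2 hodd P
  obtain ⟨𝔪, hm, hp⟩ := FLTPrelim.exists_maximalIdeal_natCast_prime_mem P.pp
  refine ⟨f, P.freyCurveInt, 𝔪, hf, FA.Switch.freyInt_isIntegralModelOf P, hm, hp,
    fun l hl hg hlN _ => ⟨(P.freyCurveInt.apOfModel l : integralClosure ℤ ℂ), ?_,
      by rw [sub_self]; exact 𝔪.zero_mem⟩⟩
  rw [hfq l hl hg hlN]
  push_cast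
  rfl

/-- The shape of S03. -/
theorem false_of_freyPackage (h2 : LiftTwo) (hodd : LiftOdd) (hlow : Removal) (P : FreyPackage)
    (hirr : Affine.Point.GaloisRepIsIrreducible (K := AlgebraicClosure ℚ) ℚ P.freyCurve P.p) :
    False := by
  obtain ⟨N, hN, hmod⟩ := modularRepOfConductorLevel_of h2 hodd P
  obtain ⟨M, hM, h⟩ := exists_dvd_two_of_removal P (hlow P hirr) hN hmod
  exact false_of_modularRepOfLevel_dvd_two P hM h

/-- The shape of S45. -/
theorem level_lowering_to_two_of (h2 : LiftTwo) (hodd : LiftOdd) (hlow : Removal) (P : FreyPackage)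
    (hirr : Affine.Point.GaloisRepIsIrreducible (K := AlgebraicClosure ℚ) ℚ P.freyCurve P.p) :
    ∃ f : CuspForm (CongruenceSubgroup.Gamma0 2) 2, f ≠ 0 :=
  (false_of_freyPackage h2 hodd hlow P hirr).elim

/-- The shape of S01. -/
theorem flt_of (h2 : LiftTwo) (hodd : LiftOdd) (hlow : Removal) (hmazur : MazurFrey)
    (n : ℕ) (hn : 3 ≤ n) (a b c : ℕ) (ha : 0 < a) (hb : 0 < b) (hc : 0 < c) :
    a ^ n + b ^ n ≠ c ^ n :=
  flt_of_isEmpty (fun P => false_of_freyPackage h2 hodd hlow P (hmazur P)) n hn a b c ha hb hc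

end FA.Root
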