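import Fermat.Agent.Root.RemovalFrey
import Fermat.Agent.Root.Chain
import Fermat.Agent.RT.LiftSetting
import Fermat.Agent.S05

/-!
# The removal step, assembled

Removal of a prime `q ≠ p` needs the towers of the level; removal of `p` is a separate input.
-/

set_option autoImplicit false
set_option linter.style.haveILetI false
set_option linter.unusedSectionVars false

noncomputable section

open scoped WeierstrassCurve.Affine
open IsLocalRing Matrix WeierstrassCurve FA.RT FA.Deform FA.TW FA.Frob FA.HeckeH1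

namespace FA.Root

local notation "Qb" => AlgebraicClosure ℚ

/-- The towers of every level prime to `p` of a Frey representation exist. -/
def RemTowers : Prop :=
  ∀ (P : FreyPackage) [Fact P.p.Prime] (O : Type) [CommRing O] [IsDomain O]
    [IsDiscreteValuationRing O] [IsAdicComplete (maximalIdeal O) O] [CharZero O]
    [Finite (ResidueField O)] (hp2 : P.p ≠ 2) (hpO : (P.p : O) ∈ maximalIdeal O)
    (_ : maximalIdeal O = Ideal.span {(P.p : O)}) (ι : ℤ_[P.p] →+* O)
    (j : ZMod P.p →+* ResidueField O) (Pl : Places)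
    (hirr : Affine.Point.GaloisRepIsIrreducible (K := Qb) ℚ P.freyCurve P.p)
    (_ : ∀ t d : ZMod P.p, ∃ a, a * a - j t * a + j d = 0)
    (N q : ℕ) (hq : q.Prime) (hqp : q ≠ P.p) (hqN : q ∣ N) (hN : Squarefree N)
    (hpN : ¬ P.p ∣ N),
    ∃ sep : ∀ U, Setup.Separation
        (remSetup P.freyCurveInt hp2 hpO ι j Pl (FA.Switch.freyInt_Δ_ne_zero P)
          (FA.Switch.freyInt_semistable P) (freyInt_padicVal P) N)
        (remEmb P.freyCurveInt hp2 hpO ι j Pl (FA.Switch.freyInt_Δ_ne_zero P)
          (FA.Switch.freyInt_semistable P) (freyInt_padicVal P) N hq hqp hqN hN)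
        ((remLevels P.freyCurveInt hp2 hpO ι j Pl (FA.Switch.freyInt_Δ_ne_zero P)
          (FA.Switch.freyInt_semistable P) (freyInt_padicVal P) N hq hqp hqN hN hpN).baseLevels
          (remSys P.freyCurveInt)) U
        ((remSetup P.freyCurveInt hp2 hpO ι j Pl (FA.Switch.freyInt_Δ_ne_zero P)
          (FA.Switch.freyInt_semistable P) (freyInt_padicVal P) N).BaseAllowed
          fun B _ _ _ m => AtFlat P.p B m),
      Setup.MonoTower ((remLevels P.freyCurveInt hp2 hpO ι j Pl (FA.Switch.freyInt_Δ_ne_zero P)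
          (FA.Switch.freyInt_semistable P) (freyInt_padicVal P) N hq hqp hqN hN hpN).baseTower
        (remSetup P.freyCurveInt hp2 hpO ι j Pl (FA.Switch.freyInt_Δ_ne_zero P)
          (FA.Switch.freyInt_semistable P) (freyInt_padicVal P) N) (remSys P.freyCurveInt)
        (remSys_ne P.freyCurveInt hp2 hpO (FA.Switch.freyInt_Δ_ne_zero P)
          (freyInt_irreducible P hirr)) sep) ∧
      ∃ S₀ : Finset ℕ, ∀ (r n : ℕ) (D : (remSetup P.freyCurveInt hp2 hpO ι j Pl
          (FA.Switch.freyInt_Δ_ne_zero P) (FA.Switch.freyInt_semistable P) (freyInt_padicVal P)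
          N).TWSet r n), Function.Injective D.qv → IsTameGenSet D →
        (∀ i, D.qv i ∉ (remSetup P.freyCurveInt hp2 hpO ι j Pl (FA.Switch.freyInt_Δ_ne_zero P)
          (FA.Switch.freyInt_semistable P) (freyInt_padicVal P) N).T ∧ D.qv i ∉ S₀) →
        ∀ ab : Fin r → ResidueField O,
          (∀ i, ab i * ab i - ((remSetup P.freyCurveInt hp2 hpO ι j Pl
              (FA.Switch.freyInt_Δ_ne_zero P) (FA.Switch.freyInt_semistable P)
              (freyInt_padicVal P) N).rb (D.φ i)).trace * ab i +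
            ((remSetup P.freyCurveInt hp2 hpO ι j Pl (FA.Switch.freyInt_Δ_ne_zero P)
              (FA.Switch.freyInt_semistable P) (freyInt_padicVal P) N).rb (D.φ i)).det = 0) →
          Nonempty (Setup.DepthTower ((remLevels P.freyCurveInt hp2 hpO ι j Pl
              (FA.Switch.freyInt_Δ_ne_zero P) (FA.Switch.freyInt_semistable P)
              (freyInt_padicVal P) N hq hqp hqN hN hpN).baseTower
            (remSetup P.freyCurveInt hp2 hpO ι j Pl (FA.Switch.freyInt_Δ_ne_zero P)
              (FA.Switch.freyInt_semistable P) (freyInt_padicVal P) N) (remSys P.freyCurveInt)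
            (remSys_ne P.freyCurveInt hp2 hpO (FA.Switch.freyInt_Δ_ne_zero P)
              (freyInt_irreducible P hirr)) sep) D ab)

/-- Removal of `p` itself from a conductor level (Mazur's principle). -/
def RemovalAtP : Prop :=
  ∀ (P : FreyPackage) (N : ℕ), P.IsConductorLevel N → P.p ∣ N →
    Affine.Point.GaloisRepIsIrreducible (K := Qb) ℚ P.freyCurve P.p → P.ModularRepOfLevel N →
    ∃ M : ℕ, M ∣ N ∧ ¬ P.p ∣ M ∧ P.ModularRepOfLevel M

/-- **Removal of a prime `q ≠ p`** at which the representation is unramified. -/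
theorem removal_ne (ht : RemTowers) (hatp : RemovalAtP) (P : FreyPackage) {N q : ℕ}
    (hcond : P.IsConductorLevel N) (hq : q.Prime) (hqp : q ≠ P.p) (hqN : q ∣ N)
    (hirr : Affine.Point.GaloisRepIsIrreducible (K := Qb) ℚ P.freyCurve P.p)
    (hmod : P.ModularRepOfLevel N) (hunr : P.GaloisRepUnramifiedAt q) :
    ∃ M : ℕ, M ∣ N ∧ ¬ q ∣ M ∧ P.ModularRepOfLevel M := by
  classical
  haveI : Fact P.p.Prime := ⟨P.pp⟩
  obtain ⟨M, hMN, hpM, hM⟩ : ∃ M, M ∣ N ∧ ¬ P.p ∣ M ∧ P.ModularRepOfLevel M := by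
    by_cases hpN : P.p ∣ N
    · exact hatp P N hcond hpN hirr hmod
    · exact ⟨N, dvd_rfl, hpN, hmod⟩
  by_cases hqM : q ∣ M
  swap
  · exact ⟨M, hMN, hqM, hM⟩
  have hsq : Squarefree M := hcond.squarefree.squarefree_of_dvd hMN
  have hp2 : P.p ≠ 2 := by have := P.hp5; omega
  obtain ⟨O, iC, iD, iV, iA, iZ, iF, hpO, hspan, ⟨ι⟩, j, hsplit⟩ := exists_coefficients P.p
  obtain ⟨Pl⟩ := exists_places
  obtain ⟨sep, hmono, S₀, hdep⟩ := ht P O hp2 hpO hspan ι j Pl hirr hsplit M q hq hqp hqM hsq hpM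
  refine ⟨M / q, (Nat.div_dvd_of_dvd hqM).trans hMN, fun h => ?_,
    modularRepOfLevel_div P hp2 hpO ι j Pl M hq hqp hqM hsq hpM hirr hsplit hunr sep S₀ hdep
      hmono hM⟩
  exact hq.ne_one (Nat.isUnit_iff.mp (hsq q (by
    conv_rhs => rw [← Nat.mul_div_cancel' hqM]
    exact Nat.mul_dvd_mul_left q h)))

/-- **The removal step.** -/
theorem removal_of (ht : RemTowers) (hatp : RemovalAtP) : Removal := by
  intro P hirr N q hcond hq hq2 hqN hmod
  by_cases hqp : q = P.p
  · subst hqp
    exact hatp P N hcond hqN hirr hmod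
  · exact removal_ne ht hatp P hcond hq hqp hqN hirr hmod
      (Fermat.Agent.S05.result P hq hq2 hqp)

end FA.Root

end
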