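import Fermat.Agent.Root.CharForms
import Fermat.Agent.Root.RemovalEnd
import Fermat.Agent.ModField.Semistable.AtP.LowerAtP
import Fermat.Agent.LocalDef.EllipticMult
import Fermat.Agent.LocalDef.MultStrict
import Fermat.Agent.RT.SpanFrame

/-!
# Removal of `p` from the level of a Frey representation

At `p` dividing `abc` the curve is multiplicative and `p` divides the valuation of its
discriminant, so the representation is finite flat with an unramified quotient line.
-/

set_option autoImplicit false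
set_option linter.style.haveILetI false
set_option linter.unusedSectionVars false
set_option maxHeartbeats 1600000

noncomputable section

open scoped WeierstrassCurve.Affine
open WeierstrassCurve Matrix FA.Local FA.LocalDef FA.RT FA.Frob

namespace FA.Root

local notation "Qb" => AlgebraicClosure ℚ
local notation "GQ" => AlgebraicClosure ℚ ≃ₐ[ℚ] AlgebraicClosure ℚ

section Local

variable {p : ℕ} [hp : Fact p.Prime] (W : WeierstrassCurve ℤ) [(ratCurve W).IsElliptic]
  {A : ValuationSubring Qb}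

/-- Finite flatness at a multiplicative `p` with `p ∣ v_p(Δ)`. -/
theorem isFlatRes_curveRep_mult (hm : MultAt W p A) (hp2 : p ≠ 2)
    (hval : p ∣ padicValInt p W.Δ) : IsFlatRes A (curveRep p W) := by
  classical
  have := FA.EC.finite_torsion (ratCurve W) hp.out.ne_zero
  let _ : Fintype (Submodule.torsionBy ℤ ((ratCurve W)⁄Qb).Point p) := Fintype.ofFinite _
  obtain ⟨r, N⟩ := exists_nodeAt hm hp2
  obtain ⟨k, hk⟩ := hval
  let b := (torsBasis (p := p) W).equivFun
  refine (N.hasModel_torsion (k := k)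
      (by rw [exists_valuation_eq_pow hp.out hm.lies hm.ne_zero, hk])).of_injective
    (b.symm.toAddEquiv.toAddMonoidHom) b.symm.injective fun σ _ x => ?_
  show b.symm (curveRep p W σ *ᵥ x) = _
  obtain ⟨y, rfl⟩ := b.surjective x
  rw [toMatrix_mulVec]
  exact (b.symm_apply_apply _).trans (congrArg (σ • ·) (b.symm_apply_apply y).symm)

/-- The line with trivial inertia on the quotient. -/
theorem exists_line_curveRep (hm : MultAt W p A) (hp2 : p ≠ 2) :
    ∃ z : Fin 2 → ZMod p, z ≠ 0 ∧ ∀ σ ∈ A.inertiaSubgroupIn ℚ, ∀ v,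
      curveRep p W σ *ᵥ v - v ∈ Submodule.span (ZMod p) {z} := by
  obtain ⟨bb, -, hI, -⟩ := exists_strict_line hm hp2
  let b := (torsBasis (p := p) W).equivFun
  refine ⟨b (bb 0), b.map_ne_zero_iff.2 (bb.ne_zero 0), fun σ hσ v => ?_⟩
  obtain ⟨y, rfl⟩ := b.surjective v
  obtain ⟨c, hc⟩ := Submodule.mem_span_singleton.1 (hI σ hσ y)
  refine Submodule.mem_span_singleton.2 ⟨c, ?_⟩
  rw [toMatrix_mulVec, ← map_smul, hc]
  exact map_sub b _ _

end Local

open ModularCurve FA.CurveRed in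
/-- **Removal of `p`.** -/
theorem removalAtP : RemovalAtP := by
  classical
  intro P N hcond hpN hirr hmod
  haveI : Fact P.p.Prime := ⟨P.pp⟩
  haveI : NeZero P.p := ⟨P.pp.ne_zero⟩
  have hp2 : P.p ≠ 2 := by have := P.hp5; omega
  obtain ⟨M, rfl⟩ : ∃ M, N = M * P.p := by
    obtain ⟨M, hM⟩ := hpN
    exact ⟨M, by rw [hM, mul_comm]⟩
  have hN0 : M * P.p ≠ 0 := hcond.pos.ne'
  haveI : NeZero (M * P.p) := ⟨hN0⟩
  haveI : NeZero M := ⟨(mul_ne_zero_iff.1 hN0).1⟩
  have hpM : ¬ P.p ∣ M := fun h => hcond.sq_not_dvd P.pp (by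
    rw [pow_two]; exact Nat.mul_dvd_mul_right h P.p)
  refine ⟨M, dvd_mul_right M P.p, hpM, ?_⟩
  set W := P.freyCurveInt with hW
  have hΔ := FA.Switch.freyInt_Δ_ne_zero P
  have hss := FA.Switch.freyInt_semistable P
  have hbad : (P.p : ℤ) ∣ W.Δ := by
    have hq' : Prime (P.p : ℤ) := Nat.prime_iff_prime_int.mp P.pp
    have h : (P.p : ℤ) ∣ 256 * W.Δ := by
      rw [hW, FA.Switch.freyInt_Δ]
      refine dvd_pow ?_ two_ne_zero
      rw [← mul_pow, ← mul_pow]
      exact dvd_pow (hcond.p_dvd_abc hpN) P.hp0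
    rcases hq'.dvd_or_dvd h with h256 | h
    · exfalso
      have h2 : P.p ∣ 2 ^ 8 := by exact_mod_cast h256
      exact hp2 ((Nat.prime_dvd_prime_iff_eq P.pp Nat.prime_two).1 (P.pp.dvd_of_dvd_pow h2))
    · exact h
  obtain ⟨alg⟩ := FA.JTorsion.exists_algebra_qbar
  letI := alg
  obtain ⟨A, hA⟩ := FA.Deform.exists_liesOverPrime P.pp
  haveI : IsAlgClosed (IsLocalRing.ResidueField A) := FA.Frob.residueField_isAlgClosed A
  haveI : CharP (IsLocalRing.ResidueField A) P.p := FA.Frob.residueField_charP A P.pp hA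
  have hm : MultAt W P.p A := ⟨hΔ, P.pp, hbad, hss P.p P.pp hbad, hA⟩
  obtain ⟨z, hz, hquot⟩ := exists_line_curveRep W hm hp2
  let S : Finset ℕ := {P.p} ∪ M.primeFactors ∪ W.Δ.natAbs.primeFactors
  have hgood : ∀ ℓ : ℕ, ℓ.Prime → ℓ ∉ S → W.IsGoodPrimeFor ℓ := fun ℓ hℓ hℓS hd => hℓS
    (Finset.mem_union_right _ (Nat.mem_primeFactors.2
      ⟨hℓ, Int.natCast_dvd.1 hd, Int.natAbs_ne_zero.2 hΔ⟩))
  have hpS : P.p ∈ S := by simp [S]
  have hS : M.primeFactors ⊆ S := fun x hx => by simp [S, hx]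
  have hS' : (M * P.p).primeFactors ⊆ S := by
    rw [Nat.primeFactors_mul (NeZero.ne M) P.pp.ne_zero, P.pp.primeFactors]
    exact Finset.union_subset hS (Finset.singleton_subset_iff.2 hpS)
  obtain ⟨χ, hχ⟩ := exists_char_of_isResiduallyModular
    (isResiduallyModularOfLevel_of_modularRep hN0 hmod) S hS' hpS hgood
  have hirrW := freyInt_irreducible P hirr
  obtain ⟨χ', hχ'⟩ := FA.ModField.AtP.exists_chi_lowerAtP M A hA hpM P.hp5 S hS hpS
    (fun ℓ => (W.apOfModel ℓ : ZMod P.p)) (curveRep P.p W) (isOpen_ker_curveRep W)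
    (span_eq_top_of_noLine _ (algebraMap (ZMod P.p) (AlgebraicClosure (ZMod P.p)))
      (noLine_top_curveRep W hp2 hirrW _))
    (fun ℓ hℓ hℓS B hB τ hτ => by
      have hℓp : P.p ≠ ℓ := fun e => hℓS (e ▸ hpS)
      refine ⟨trace_curveRep W hℓ (hgood ℓ hℓ hℓS) hℓp hB hτ, ?_⟩
      rw [curveRep_apply, LinearMap.det_toMatrix]
      exact det_frobenius W hℓ (hgood ℓ hℓ hℓS) hℓp hB hτ)
    (by
      obtain ⟨l, hl, hlS, -, -, hl1, ha⟩ := HeckeH1.exists_prime_trace_ne_two (FA.Frob.ratCurve W)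
        (W := W) ⟨1, by rw [one_smul]⟩ P.pp hp2 hirrW one_pos S
      refine ⟨l, hl, hlS, fun h => ha ?_⟩
      have h1 : ((l : ℕ) : ZMod P.p) = 1 := by
        rw [← Nat.cast_one, ZMod.natCast_eq_natCast_iff]
        exact hl1.of_mul_left 1
      change (W.apOfModel l : ZMod P.p) = (l : ZMod P.p) + 1 at h
      rw [h, h1]; norm_num)
    (isFlatRes_curveRep_mult W hm hp2 (freyInt_padicVal P hbad))
    (detOmega_curveRep W A) hz hquot χ hχ
  exact modularRep_of_isResiduallyModularOfLevel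
    (isResiduallyModularOfLevel_of_char hΔ S χ' hχ')

end FA.Root

end
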