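import Fermat.Agent.Root.RemovalForms
import Fermat.Agent.Theta.Eigen
import Fermat.Agent.Deform.EigenLift

/-!
# Residual modularity and characters of the Hecke algebra with values in `ℤ / p`
-/

set_option autoImplicit false
set_option linter.style.haveILetI false
set_option linter.unusedSectionVars false
set_option maxHeartbeats 800000

noncomputable section

open CongruenceSubgroup WeierstrassCurve FA.Deform

namespace FA.Root

local notation "OC" => integralClosure ℤ ℂ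

variable {p : ℕ} [hp : Fact p.Prime] {N : ℕ} [NeZero N] {W : WeierstrassCurve ℤ}

/-- The character of a residually modular curve. -/
theorem exists_char_of_isResiduallyModular (h : W.IsResiduallyModularOfLevel p N) (S : Finset ℕ)
    (hS : N.primeFactors ⊆ S) (hpS : p ∈ S)
    (hgood : ∀ ℓ : ℕ, ℓ.Prime → ℓ ∉ S → W.IsGoodPrimeFor ℓ) :
    ∃ χ : CuspForm.heckeAlgebra N 2 (↑S : Set ℕ) →+* ZMod p,
      ∀ (ℓ : ℕ) (hℓ : ℓ.Prime) (hℓN : ¬ ℓ ∣ N) (hℓS : ℓ ∉ (↑S : Set ℕ)),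
        χ (CuspForm.heckeAlgebra.T hℓ hℓN hℓS) = (W.apOfModel ℓ : ZMod p) := by
  classical
  obtain ⟨f, 𝔪, hf, hm, hpm, hcong⟩ := h
  haveI := hm
  obtain ⟨ψ, hψ⟩ := FA.JTorsion.exists_eigenChar (S := (↑S : Set ℕ)) hf
  let k := OC ⧸ 𝔪
  letI : Field k := Ideal.Quotient.field 𝔪
  haveI : CharP k p := by
    refine (CharP.charP_iff_prime_eq_zero hp.out).2 ?_
    rw [← map_natCast (Ideal.Quotient.mk 𝔪)]
    exact Ideal.Quotient.eq_zero_iff_mem.2 hpm
  let f₀ : ZMod p →+* k := ZMod.castHom (dvd_refl p) k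
  let φ : CuspForm.heckeAlgebra N 2 (↑S : Set ℕ) →+* k := (Ideal.Quotient.mk 𝔪).comp ψ
  have hT : ∀ (ℓ : ℕ) (hℓ : ℓ.Prime) (hℓN : ¬ ℓ ∣ N) (hℓS : ℓ ∉ (↑S : Set ℕ)),
      φ (CuspForm.heckeAlgebra.T hℓ hℓN hℓS) = f₀ (W.apOfModel ℓ : ZMod p) := by
    intro ℓ hℓ hℓN hℓS
    have hℓS' : ℓ ∉ S := fun h => hℓS (Finset.mem_coe.2 h)
    obtain ⟨a, ha, ham⟩ := hcong ℓ hℓ (hgood ℓ hℓ hℓS') hℓN fun e => hℓS' (e ▸ hpS)
    show Ideal.Quotient.mk 𝔪 (ψ (CuspForm.heckeAlgebra.T hℓ hℓN hℓS)) = _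
    rw [show ψ (CuspForm.heckeAlgebra.T hℓ hℓN hℓS) = a from
      Subtype.ext ((hψ ℓ hℓ hℓN hℓS).trans ha.symm), map_intCast f₀,
      ← map_intCast (Ideal.Quotient.mk 𝔪)]
    exact Ideal.Quotient.eq.2 ham
  have hrange : ∀ t, φ t ∈ f₀.range := by
    rintro ⟨t, ht⟩
    induction ht using Algebra.adjoin_induction with
    | mem x hx =>
      rcases hx with ⟨ℓ, hℓ, hℓN, hℓS, rfl⟩ | ⟨q, hqN, hq, hqS, rfl⟩
      · exact ⟨_, (hT ℓ hℓ hℓN hℓS).symm⟩
      · exact absurd (hS (Nat.mem_primeFactors.2 ⟨hq, hqN, NeZero.ne N⟩)) hqS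
    | algebraMap n =>
      refine ⟨(n : ZMod p), ?_⟩
      rw [map_intCast f₀, ← map_intCast φ]
      exact congrArg φ (Subtype.ext (eq_intCast _ n).symm)
    | add x y hx hy h1 h2 =>
      obtain ⟨a, ha⟩ := h1
      obtain ⟨b, hb⟩ := h2
      exact ⟨a + b, by rw [map_add, ha, hb, ← map_add]; rfl⟩
    | mul x y hx hy h1 h2 =>
      obtain ⟨a, ha⟩ := h1
      obtain ⟨b, hb⟩ := h2
      exact ⟨a * b, by rw [map_mul, ha, hb, ← map_mul]; rfl⟩
  have hbij : Function.Bijective f₀.rangeRestrict :=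
    ⟨fun x y h => f₀.injective (congrArg Subtype.val h), f₀.rangeRestrict_surjective⟩
  refine ⟨(RingEquiv.ofBijective f₀.rangeRestrict hbij).symm.toRingHom.comp
    (φ.codRestrict f₀.range hrange), fun ℓ hℓ hℓN hℓS => ?_⟩
  show (RingEquiv.ofBijective f₀.rangeRestrict hbij).symm _ = _
  rw [RingEquiv.symm_apply_eq]
  exact Subtype.ext (hT ℓ hℓ hℓN hℓS)

/-- A character with the traces of a curve gives residual modularity. -/
theorem isResiduallyModularOfLevel_of_char (hΔ : W.Δ ≠ 0) (S : Finset ℕ)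
    (χ : CuspForm.heckeAlgebra N 2 (↑S : Set ℕ) →+* ZMod p)
    (hχ : ∀ (ℓ : ℕ) (hℓ : ℓ.Prime) (hℓN : ¬ ℓ ∣ N) (hℓS : ℓ ∉ (↑S : Set ℕ)),
      χ (CuspForm.heckeAlgebra.T hℓ hℓN hℓS) = (W.apOfModel ℓ : ZMod p)) :
    W.IsResiduallyModularOfLevel p N := by
  classical
  have hb : CuspForm.HasIntegralBasis N := by
    have h := FA.Period.hasIntegralStructure N 2
    rw [CuspForm.HasIntegralStructure, CuspForm.intLattice, Submodule.span_span_of_tower] at h
    rw [CuspForm.HasIntegralBasis, eq_top_iff, ← h]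
    refine Submodule.span_mono fun f hf n => ?_
    obtain ⟨z, hz⟩ := hf n
    exact hz ▸ intCast_mem _ z
  haveI := finite_of_hasIntegralBasis hb
  let TS := CuspForm.heckeAlgebra N 2 (↑S : Set ℕ)
  let T := CuspForm.heckeAlgebra N 2 (∅ : Set ℕ)
  let i : TS →+* T :=
    (Subalgebra.inclusion (CuspForm.heckeAlgebra_mono (Set.empty_subset _))).toRingHom
  letI : Algebra TS T := i.toAlgebra
  haveI : IsScalarTower ℤ TS T := IsScalarTower.of_algebraMap_eq' (RingHom.ext_int _ _)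
  haveI : Algebra.IsIntegral TS T := ⟨fun x => (isIntegral_heckeAlgebra hb x).tower_top⟩
  haveI : (RingHom.ker χ).IsPrime := RingHom.ker_isPrime χ
  obtain ⟨m, -, hmp, hm⟩ := Ideal.exists_ideal_over_prime_of_isIntegral (S := T) (RingHom.ker χ) ⊥
    (fun t ht => by
      have h0 : i t = 0 := ht
      have h1 : ((i t : T) : Module.End ℂ (CuspForm (Gamma0 N) 2)) = 0 := by rw [h0]; rfl
      have : t = 0 := Subtype.ext h1
      rw [this]; exact zero_mem _)
  haveI := hmp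
  let act : T →+* Module.End ℂ (CuspForm (Gamma0 N) 2) := T.val.toRingHom
  obtain ⟨v, ξ, hv, hev, hker⟩ := exists_eigenvector_of_prime act m
    (fun t ht => by rw [show t = 0 from Subtype.ext ht]; exact m.zero_mem)
  obtain ⟨f, hf, hfT⟩ := exists_normalized_of_eigen hv ξ hev
  let ξ' : T →+* OC := ξ.codRestrict (integralClosure ℤ ℂ).toSubring fun t =>
    (isIntegral_heckeAlgebra hb t).map ξ.toIntAlgHom
  letI : Algebra T OC := ξ'.toAlgebra
  haveI : IsScalarTower ℤ T OC := IsScalarTower.of_algebraMap_eq' (RingHom.ext_int _ _)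
  haveI : Algebra.IsIntegral T OC :=
    ⟨fun x => (Algebra.IsIntegral.isIntegral (R := ℤ) x).tower_top⟩
  obtain ⟨m', -, hm'p, hm'⟩ := Ideal.exists_ideal_over_prime_of_isIntegral (S := OC) m ⊥
    (fun t ht => hker (congrArg Subtype.val (show ξ' t = 0 from ht)))
  have hmem : ∀ t : TS, χ t = 0 → ξ' (i t) ∈ m' := fun t ht => by
    have h1 : t ∈ Ideal.comap (algebraMap TS T) m := by rw [hm]; exact ht
    have h2 : i t ∈ Ideal.comap (algebraMap T OC) m' := by rw [hm']; exact h1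
    exact h2
  have hpm : (p : OC) ∈ m' := by
    have h := hmem (p : TS) (by rw [map_natCast, ZMod.natCast_self])
    rwa [map_natCast, map_natCast] at h
  obtain ⟨𝔪, h𝔪, hle⟩ := m'.exists_le_maximal hm'p.ne_top
  haveI := h𝔪
  refine isResiduallyModularOfLevel_of_almost_all hΔ (NeZero.ne N) hf 𝔪 (hle hpm) S
    fun ℓ hℓ hℓS hℓN => ⟨ξ' (CuspForm.heckeAlgebra.T hℓ hℓN (Set.notMem_empty _)),
      (hfT ℓ hℓ hℓN).symm, hle ?_⟩
  have h := hmem (CuspForm.heckeAlgebra.T hℓ hℓN (fun h => hℓS (Finset.mem_coe.1 h)) -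
    (W.apOfModel ℓ : TS)) (by rw [map_sub, map_intCast, hχ, sub_self])
  rw [map_sub, map_intCast, map_sub, map_intCast] at h
  exact h

end FA.Root

end
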