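import Fermat.Agent.HeckeH1.Periods
import Fermat.Agent.HeckeH1.DiamondDegeneracy
import Fermat.Agent.JTorsion.Eigen

/-!
# Integral eigenclasses of modular curves

An eigenform with integral eigenvalues has an integral parabolic eigenclass, also at the level
raised by one auxiliary prime.
-/

set_option autoImplicit false
set_option linter.style.haveILetI false

noncomputable section

open CongruenceSubgroup WeierstrassCurve

namespace FA.Root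

open FA.HeckeH1

variable {N : ℕ} [NeZero N]

/-- An eigenform with integral eigenvalues has an integral parabolic eigenclass. -/
theorem exists_eigenclass_of_eigenform {f : CuspForm (Gamma0 N) 2} (hf : f.IsNormalizedEigenform)
    (a : ℕ → ℤ) (P : ℕ → Prop)
    (h : ∀ ℓ : ℕ, ℓ.Prime → ¬ ℓ ∣ N → P ℓ → ModularFormClass.qCoeff f ℓ = (a ℓ : ℂ)) :
    ∃ z : Hom1 (GamH N ⊤) ℤ, z ∈ Par (GamH N ⊤) ℤ ∧ z ≠ 0 ∧
      ∀ (ℓ : ℕ) [Fact ℓ.Prime], ¬ ℓ ∣ N → P ℓ → (Tc N ⊤ ℓ).act z = a ℓ • z := by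
  classical
  let z : Hom1 (GamH N ⊤) ℂ := perP N ⊤ (f, 0)
  have hz0 : z ≠ 0 := fun h0 => hf.ne_zero
    (congrArg Prod.fst (perP_injective (M := N) rfl (h0.trans (map_zero (perP N ⊤)).symm)))
  obtain ⟨n, co, zk, hsum, hfac⟩ := exists_coord z
  obtain ⟨k, hk⟩ : ∃ k, zk k ≠ 0 := by
    by_contra hc
    push Not at hc
    refine hz0 (hsum.trans (Finset.sum_eq_zero fun k _ => ?_))
    rw [hc k, AddMonoidHom.comp_zero, smul_zero]
  obtain ⟨g, hg⟩ := hfac k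
  refine ⟨zk k, fun γ s hs => ?_, hk, fun ℓ _ hℓN hP => ?_⟩
  · have hp : z ∈ Par (GamH N ⊤) ℂ := perP_mem_Par (f, 0)
    have : z.rangeRestrict (Additive.ofMul γ) = 0 := Subtype.ext (hp γ s hs)
    rw [hg]
    show g (z.rangeRestrict (Additive.ofMul γ)) = 0
    rw [this, map_zero]
  haveI : NeZero ℓ := ⟨(Fact.out : ℓ.Prime).ne_zero⟩
  have hT : (Tc N ⊤ ℓ).act z = a ℓ • z := by
    show (Tc N ⊤ ℓ).act (perP N ⊤ (f, 0)) = _
    rw [perP_Tc (fun _ => coprime_mem_top Fact.out hℓN), FA.JTorsion.heckeForm, dif_neg hℓN,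
      FA.JTorsion.heckeT_eigen hf Fact.out hℓN, map_zero, FA.Deform.qLin_apply, h ℓ Fact.out hℓN hP,
      show ((a ℓ : ℂ) • f, (0 : CuspForm (Gamma0 N) 2)) = (a ℓ : ℂ) • (f, 0) by
        rw [Prod.smul_mk, smul_zero], map_smul, Int.cast_smul_eq_zsmul]
  have hR : (Tc N ⊤ ℓ).act z.rangeRestrict = a ℓ • z.rangeRestrict := by
    refine AddMonoidHom.ext fun γ => Subtype.ext ?_
    have h2 := DFunLike.congr_fun ((Tc N ⊤ ℓ).act_comp_hom z.range.subtype z.rangeRestrict) γ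
    rw [show z.range.subtype.comp z.rangeRestrict = z from rfl, hT] at h2
    exact h2.symm
  rw [hg, Corr.act_comp_hom, hR]
  refine AddMonoidHom.ext fun γ => ?_
  exact map_zsmul g _ _

/-- A modular curve has an integral eigenclass of its level. -/
theorem exists_eigenclass_of_modular {W : WeierstrassCurve ℤ} (h : W.IsModularModelOfLevel N) :
    ∃ z : Hom1 (GamH N ⊤) ℤ, z ∈ Par (GamH N ⊤) ℤ ∧ z ≠ 0 ∧
      ∀ (ℓ : ℕ) [Fact ℓ.Prime], ¬ ℓ ∣ N → W.IsGoodPrimeFor ℓ →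
        (Tc N ⊤ ℓ).act z = W.apOfModel ℓ • z := by
  obtain ⟨f, hf, hfa⟩ := h
  exact exists_eigenclass_of_eigenform hf (fun ℓ => W.apOfModel ℓ) (fun ℓ => W.IsGoodPrimeFor ℓ)
    fun ℓ hℓ hℓN hg => hfa ℓ hℓ hg hℓN

/-- Pullback to the level with one more prime. -/
theorem exists_eigenclass_raised {r : ℕ} [Fact r.Prime] (hr : ¬ r ∣ N) {A : Type} [CommRing A]
    [IsAddTorsionFree A] (a : ℕ → ℤ) (P : ℕ → Prop) (z : Hom1 (GamH N ⊤) A)
    (hz : z ∈ Par (GamH N ⊤) A) (hz0 : z ≠ 0)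
    (heig : ∀ (ℓ : ℕ) [Fact ℓ.Prime], ¬ ℓ ∣ N → P ℓ → (Tc N ⊤ ℓ).act z = a ℓ • z) :
    haveI : NeZero (N * r) := ⟨mul_ne_zero (NeZero.ne N) (Fact.out : r.Prime).ne_zero⟩
    ∃ y : Hom1 (GamH (N * r) ⊤) A, y ∈ Par (GamH (N * r) ⊤) A ∧ y ≠ 0 ∧
      ∀ (ℓ : ℕ) [Fact ℓ.Prime], ¬ ℓ ∣ N * r → P ℓ → (Tc (N * r) ⊤ ℓ).act y = a ℓ • y := by
  haveI : NeZero (N * r) := ⟨mul_ne_zero (NeZero.ne N) (Fact.out : r.Prime).ne_zero⟩
  have s : IsStep N r (⊤ : Subgroup (ZMod N)ˣ) (N * r) ⊤ :=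
    ⟨hr, rfl, dvd_mul_right N r, fun u => by simp⟩
  refine ⟨s.res.act z, Par_act _ hz, fun h0 => hz0 ?_, fun ℓ _ hℓ hP => ?_⟩
  · exact res_injective_of_finite s.le (h0.trans (map_zero _).symm)
  have hℓr : ℓ ≠ r := fun h => hℓ (h ▸ dvd_mul_left r N)
  rw [s.res_Tc hℓr, heig ℓ (fun hd => hℓ (hd.mul_right r)) hP, map_zsmul]

end FA.Root

end
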