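import Fermat.Agent.Root.Semistable.Modular
import Fermat.Agent.Root.LowerQ.Main
import Fermat.Agent.Root.LowerP.Main
import Fermat.Agent.S07
import Fermat.Agent.S08

/-!
# Semistable discriminants are not `p`-th powers away from two

For a semistable integral equation whose representation modulo an odd prime `p` is irreducible
some odd prime divides the discriminant to an exponent prime to `p`: otherwise semistable
modularity and the removal of all odd primes give an eigenform of weight two and level `1` or `2`.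
-/

set_option autoImplicit false

noncomputable section

namespace FA.Root

open WeierstrassCurve
open FA.Theta (badProd)

/-- A model modular of some level is residually modular of it. -/
theorem isResiduallyModularOfLevel_of_modular {W : WeierstrassCurve ℤ} {p M : ℕ} (hp : p.Prime)
    (h : W.IsModularModelOfLevel M) : W.IsResiduallyModularOfLevel p M := by
  obtain ⟨f, hf, hfq⟩ := h
  obtain ⟨𝔪, hm, hpm⟩ := FLTPrelim.exists_maximalIdeal_natCast_prime_mem hp
  refine ⟨f, 𝔪, hf, hm, hpm, fun l hl hg hlM _ => ⟨(W.apOfModel l : integralClosure ℤ ℂ), ?_,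
    by rw [sub_self]; exact 𝔪.zero_mem⟩⟩
  rw [hfq l hl hg hlM]
  simp

/-- One odd prime whose exponent in the discriminant is a multiple of `p` leaves a residual
level. -/
theorem isResiduallyModularOfLevel_div_of_dvd {W : WeierstrassCurve ℤ} {p : ℕ} [Fact p.Prime]
    (hp2 : p ≠ 2) (hΔ : W.Δ ≠ 0) (hW : W.IsSemistableModel) (hirr : W.ModRepIsIrreducible p)
    (hpv : (p : ℤ) ∣ W.Δ → p ∣ padicValInt p W.Δ) {M q : ℕ} (hq : q.Prime) (hqM : q ∣ M)
    (hM : Squarefree M) (hqv : (q : ℤ) ∣ W.Δ → p ∣ padicValInt q W.Δ)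
    (h : W.IsResiduallyModularOfLevel p M) : W.IsResiduallyModularOfLevel p (M / q) := by
  have hlow : p ∣ M → W.IsResiduallyModularOfLevel p M → W.IsResiduallyModularOfLevel p (M / p) :=
    fun hpM h => isResiduallyModularOfLevel_div_atP hp2 hΔ (hW p Fact.out) hpv hirr
      (Nat.pos_of_ne_zero hM.ne_zero) hpM
      (fun hd => (Fact.out : p.Prime).ne_one (Nat.isUnit_iff.1 (hM p (pow_two p ▸ hd)))) h
  rcases eq_or_ne q p with rfl | hqp
  · exact hlow hqM h
  refine isResiduallyModularOfLevel_div_sqf hp2 hΔ hW hirr hq hqp hqM hM ?_ (fun _ => hlow) h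
  intro _ A hA σ hσ
  by_cases hbad : (q : ℤ) ∣ W.Δ
  · exact FA.RT.curveRep_eq_one_of_dvd W hΔ hW hp2 hq hqp hbad (hqv hbad) hA hσ
  · exact FA.RT.curveRep_unramified W hq hqp hbad hA hσ

/-- All odd primes leave a residual level, given that their exponents are multiples of `p`. -/
theorem exists_dvd_two_isResiduallyModular {W : WeierstrassCurve ℤ} {p : ℕ} [Fact p.Prime]
    (hp2 : p ≠ 2) (hΔ : W.Δ ≠ 0) (hW : W.IsSemistableModel) (hirr : W.ModRepIsIrreducible p)
    (hv : ∀ q : ℕ, q.Prime → q ≠ 2 → (q : ℤ) ∣ W.Δ → p ∣ padicValInt q W.Δ)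
    {M : ℕ} (hM : Squarefree M) (h : W.IsResiduallyModularOfLevel p M) :
    ∃ N : ℕ, N ∣ 2 ∧ W.IsResiduallyModularOfLevel p N := by
  induction M using Nat.strong_induction_on with
  | _ M ih =>
    by_cases hodd : ∃ q : ℕ, q.Prime ∧ q ≠ 2 ∧ q ∣ M
    · obtain ⟨q, hq, hq2, hqM⟩ := hodd
      exact ih (M / q) (Nat.div_lt_self (Nat.pos_of_ne_zero hM.ne_zero) hq.one_lt)
        (hM.squarefree_of_dvd (Nat.div_dvd_of_dvd hqM))
        (isResiduallyModularOfLevel_div_of_dvd hp2 hΔ hW hirr (hv p Fact.out hp2) hq hqM hM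
          (hv q hq hq2) h)
    · push Not at hodd
      refine ⟨M, ?_, h⟩
      rw [← Nat.prod_primeFactors_of_squarefree hM]
      refine Finset.prod_primes_dvd 2 (fun q hq => (Nat.prime_of_mem_primeFactors hq).prime)
        fun q hq => ?_
      obtain ⟨hqp, hqM, -⟩ := Nat.mem_primeFactors.mp hq
      by_contra hne
      exact hodd q hqp (fun e => hne (e ▸ dvd_rfl)) hqM

/-- **The discriminant of a semistable curve with irreducible `p`-torsion is not a `p`-th power
away from two.** -/
theorem exists_odd_prime_not_dvd_padicValInt {W : WeierstrassCurve ℤ} {p : ℕ} [Fact p.Prime]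
    (hp2 : p ≠ 2) (hΔ : W.Δ ≠ 0) (hW : W.IsSemistableModel) (hirr : W.ModRepIsIrreducible p) :
    ∃ q : ℕ, q.Prime ∧ q ≠ 2 ∧ (q : ℤ) ∣ W.Δ ∧ ¬ p ∣ padicValInt q W.Δ := by
  by_contra hcon
  push Not at hcon
  obtain ⟨N, hN, f, -, hf, -⟩ := exists_dvd_two_isResiduallyModular hp2 hΔ hW hirr hcon
    (squarefree_badProd W)
    (isResiduallyModularOfLevel_of_modular Fact.out (FA.SS.semistableModular W hΔ hW))
  rcases (Nat.dvd_prime Nat.prime_two).mp hN with rfl | rfl
  · exact hf.ne_zero (Fermat.Agent.S08.result f)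
  · exact hf.ne_zero (Fermat.Agent.S07.result f)

/-- A discriminant which is, away from two, a `p`-th power forces reducible `p`-torsion. -/
theorem not_modRepIsIrreducible_of_eq_pow {W : WeierstrassCurve ℤ} {p : ℕ} [Fact p.Prime]
    (hp2 : p ≠ 2) (hΔ : W.Δ ≠ 0) (hW : W.IsSemistableModel) {a b : ℕ} {t : ℤ}
    (h : (2 : ℤ) ^ a * W.Δ = 2 ^ b * t ^ p) : ¬ W.ModRepIsIrreducible p := by
  intro hirr
  obtain ⟨q, hq, hq2, -, hqv⟩ := exists_odd_prime_not_dvd_padicValInt hp2 hΔ hW hirr
  have : Fact q.Prime := ⟨hq⟩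
  have ht : t ≠ 0 := fun e => by
    rw [e, zero_pow (Fact.out : p.Prime).ne_zero, mul_zero] at h
    exact mul_ne_zero (pow_ne_zero _ two_ne_zero) hΔ h
  refine hqv ⟨padicValInt q t, ?_⟩
  have h2 : padicValNat q 2 = 0 :=
    padicValNat.eq_zero_of_not_dvd fun hd => hq2 ((Nat.prime_dvd_prime_iff_eq hq Nat.prime_two).mp hd)
  have e := congrArg (fun z : ℤ => padicValNat q z.natAbs) h
  simp only [Int.natAbs_mul, Int.natAbs_pow, show Int.natAbs 2 = 2 from rfl] at e
  rw [padicValNat.mul (by positivity) (Int.natAbs_ne_zero.mpr hΔ),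
    padicValNat.mul (by positivity) (pow_ne_zero _ (Int.natAbs_ne_zero.mpr ht)),
    padicValNat.pow _ _, padicValNat.pow _ _, padicValNat.pow _ _, h2] at e
  simpa [padicValInt] using e

end FA.Root

end
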