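import Fermat.Agent.Root.GlobalModel
import Fermat.Agent.Ribet.MazurTwo
import Fermat.Agent.Frob.VarChange

/-!
# Torsion and isogenies of semistable curves in Mathlib's language

For a semistable elliptic curve over `ℚ` and a prime `p ≥ 11` other than `13` there is no rational
point of order `p` and no Galois stable subgroup of order `p` of the points over the algebraic
closure.
-/

set_option autoImplicit false
set_option linter.style.haveILetI false

noncomputable section

open WeierstrassCurve WeierstrassCurve.Affine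
open FA.Frob (ratCurve)
open scoped WeierstrassCurve.Affine

local notation "Qb" => AlgebraicClosure ℚ
local notation "GQ" => AlgebraicClosure ℚ ≃ₐ[ℚ] AlgebraicClosure ℚ

namespace FA.Root

/-- A stable subgroup of order `p` makes the `p`-torsion reducible. -/
theorem not_modRepIsIrreducible_of_subgroup {W : WeierstrassCurve ℤ} (hΔ : W.Δ ≠ 0) {p : ℕ}
    (hp : p.Prime) (G : AddSubgroup ((ratCurve W)⁄Qb).Point) (hcard : Nat.card G = p)
    (hst : ∀ σ : GQ, ∀ P ∈ G, σ • P ∈ G) : ¬ W.ModRepIsIrreducible p := by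
  rintro ⟨-, hirr⟩
  haveI := Fact.mk hp
  haveI := FA.Frob.ratCurve_isElliptic_of_Δ hΔ
  haveI : Finite G := Nat.finite_of_card_ne_zero (hcard ▸ hp.ne_zero)
  let N : Submodule (ZMod p) (Submodule.torsionBy ℤ ((ratCurve W)⁄Qb).Point (p : ℤ)) :=
    AddSubgroup.toZModSubmodule p
      (G.comap (Submodule.torsionBy ℤ _ (p : ℤ)).subtype.toAddMonoidHom)
  rcases hirr N (fun σ x hx => hst σ x.1 hx) with h | h
  · haveI : Nontrivial G := Finite.one_lt_card_iff_nontrivial.1 (hcard ▸ hp.one_lt)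
    obtain ⟨⟨P, hP⟩, hne⟩ := exists_ne (0 : G)
    have hpP : p • P = 0 := by
      have := congrArg Subtype.val (card_nsmul_eq_zero' (x := (⟨P, hP⟩ : G)))
      rwa [hcard] at this
    let x : Submodule.torsionBy ℤ ((ratCurve W)⁄Qb).Point (p : ℤ) :=
      ⟨P, (Submodule.mem_torsionBy_iff _ _).mpr ((natCast_zsmul P p).trans hpP)⟩
    have hx : x ∈ N := hP
    rw [h, Submodule.mem_bot] at hx
    exact hne (Subtype.ext (congrArg Subtype.val hx : _))
  · have hle : Nat.card (Submodule.torsionBy ℤ ((ratCurve W)⁄Qb).Point (p : ℤ)) ≤ p := by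
      have hmem : ∀ x, x ∈ N := fun x => h ▸ Submodule.mem_top
      refine (Nat.card_le_card_of_injective (fun x => (⟨x.1, hmem x⟩ : G)) fun x y e =>
        Subtype.ext ?_).trans hcard.le
      exact congrArg (fun z : G => (z : ((ratCurve W)⁄Qb).Point)) e
    haveI : Finite (Submodule.torsionBy ℤ ((ratCurve W)⁄Qb).Point (p : ℤ)) :=
      Module.finite_of_finite (ZMod p)
    rw [Module.natCard_eq_pow_finrank (K := ZMod p), FA.EC.finrank_torsion (ratCurve W) p,
      Nat.card_zmod] at hle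
    nlinarith [hp.two_le]

section Model

variable {E : WeierstrassCurve ℚ} [E.IsElliptic] {W : WeierstrassCurve ℤ}

/-- The points of an integral model are the points of the curve, compatibly with Galois. -/
theorem exists_equiv_of_model (hW : W.IsIntegralModelOf E) :
    ∃ e : ((ratCurve W)⁄Qb).Point ≃+ (E.toAffine⁄Qb).Point,
      ∀ (σ : GQ) (Q : ((ratCurve W)⁄Qb).Point),
        e (σ • Q) = Affine.Point.map (W' := E.toAffine) σ.toAlgHom (e Q) := by
  haveI := FA.Frob.ratCurve_isElliptic_of_Δ (FA.Frob.Δ_ne_zero_of_model hW)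
  obtain ⟨C, hC⟩ := hW
  exact ⟨FA.Frob.pointEquiv C hC, FA.Frob.pointEquiv_smul C hC⟩

/-- The Galois action on the `N`-torsion passes from a model to the curve: if every automorphism
of the torsion of the model fixing the points killed by `m` comes from Galois, the same holds for
the curve. -/
theorem exists_map_eq_of_model_fix (hW : W.IsIntegralModelOf E) (N : ℤ) (m : ℕ)
    (h : ∀ ψ : Submodule.torsionBy ℤ ((ratCurve W)⁄Qb).Point N ≃+
        Submodule.torsionBy ℤ ((ratCurve W)⁄Qb).Point N,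
      (∀ x, m • x.1 = 0 → ψ x = x) → ∃ σ : GQ, ∀ x, σ • x.1 = (ψ x).1)
    (φ : Submodule.torsionBy ℤ (E.toAffine⁄Qb).Point N ≃+
      Submodule.torsionBy ℤ (E.toAffine⁄Qb).Point N)
    (hφ : ∀ P, m • P.1 = 0 → φ P = P) :
    ∃ σ : GQ, ∀ P, Affine.Point.map σ.toAlgHom P.1 = (φ P).1 := by
  obtain ⟨e, he⟩ := exists_equiv_of_model hW
  let eT : Submodule.torsionBy ℤ ((ratCurve W)⁄Qb).Point N ≃+
      Submodule.torsionBy ℤ (E.toAffine⁄Qb).Point N :=
    { toEquiv := e.toEquiv.subtypeEquiv fun Q => by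
        simp only [Submodule.mem_torsionBy_iff]
        exact ⟨fun hQ => (map_zsmul e _ Q).symm.trans (by rw [hQ, map_zero]),
          fun hQ => e.injective (by rw [map_zsmul, map_zero]; exact hQ)⟩
      map_add' := fun a b => Subtype.ext (map_add e a.1 b.1) }
  obtain ⟨σ, hσ⟩ := h ((eT.trans φ).trans eT.symm) fun x hx => by
    rw [AddEquiv.trans_apply, AddEquiv.trans_apply, hφ (eT x) (by
      show m • e x.1 = 0
      rw [← map_nsmul, hx, map_zero]), AddEquiv.symm_apply_apply]
  refine ⟨σ, fun P => ?_⟩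
  obtain ⟨Q, rfl⟩ := eT.surjective P
  calc Affine.Point.map σ.toAlgHom (eT Q).1 = e (σ • Q.1) := (he σ Q.1).symm
    _ = (eT (eT.symm (φ (eT Q)))).1 := by
        rw [hσ Q, AddEquiv.trans_apply, AddEquiv.trans_apply]; rfl
    _ = (φ (eT Q)).1 := by rw [AddEquiv.apply_symm_apply]

/-- Surjectivity on the torsion of a model passes to the curve. -/
theorem exists_map_eq_of_model (hW : W.IsIntegralModelOf E) (N : ℤ)
    (h : ∀ ψ : Submodule.torsionBy ℤ ((ratCurve W)⁄Qb).Point N ≃+
        Submodule.torsionBy ℤ ((ratCurve W)⁄Qb).Point N,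
      ∃ σ : GQ, ∀ x, σ • x.1 = (ψ x).1)
    (φ : Submodule.torsionBy ℤ (E.toAffine⁄Qb).Point N ≃+
      Submodule.torsionBy ℤ (E.toAffine⁄Qb).Point N) :
    ∃ σ : GQ, ∀ P, Affine.Point.map σ.toAlgHom P.1 = (φ P).1 :=
  exists_map_eq_of_model_fix hW N 1 (fun ψ _ => h ψ) φ fun P hP => by
    rw [show P = 0 from Subtype.ext ((one_nsmul _).symm.trans hP), map_zero]

/-- A stable subgroup of order `p` of a curve makes the `p`-torsion of a model reducible. -/
theorem not_modRepIsIrreducible_of_model_subgroup (hW : W.IsIntegralModelOf E) {p : ℕ}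
    (hp : p.Prime) (G : AddSubgroup (E.toAffine⁄Qb).Point) (hcard : Nat.card G = p)
    (hst : ∀ σ : GQ, ∀ P ∈ G, Affine.Point.map σ.toAlgHom P ∈ G) :
    ¬ W.ModRepIsIrreducible p := by
  obtain ⟨e, he⟩ := exists_equiv_of_model hW
  refine not_modRepIsIrreducible_of_subgroup (FA.Frob.Δ_ne_zero_of_model hW) hp
    (G.comap e.toAddMonoidHom) ?_ fun σ Q hQ => ?_
  · rw [← hcard]
    exact Nat.card_congr (e.toEquiv.subtypeEquiv fun _ => Iff.rfl)
  · show e (σ • Q) ∈ G
    rw [he]
    exact hst σ _ hQ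

end Model

end FA.Root

namespace FA.Summary

/-- **No rational point of order `p`** on a semistable elliptic curve over `ℚ`, for a prime
`p ≥ 11` other than `13`. -/
theorem noPointOfOrder (E : WeierstrassCurve ℚ) [E.IsElliptic]
    (h : ∀ p : ℕ, ∀ [Fact p.Prime], ∃ C : VariableChange ℚ_[p],
      HasGoodReduction ℤ_[p] (C • E.map (algebraMap ℚ ℚ_[p])) ∨
        HasMultiplicativeReduction ℤ_[p] (C • E.map (algebraMap ℚ ℚ_[p])))
    {p : ℕ} (hp : p.Prime) (h11 : 11 ≤ p) (h13 : p ≠ 13) (P : E.toAffine.Point) :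
    addOrderOf P ≠ p := by
  obtain ⟨W, hW, hs⟩ := FA.Root.exists_semistableModel E
    fun q _ => FA.Root.isSemistableAt_of_reduction E (h q).choose_spec
  have hΔ : W.Δ ≠ 0 := FA.Frob.Δ_ne_zero_of_model hW
  haveI := FA.Frob.ratCurve_isElliptic_of_Δ hΔ
  obtain ⟨C, hC⟩ := hW
  let e : (ratCurve W).toAffine.Point ≃+ E.toAffine.Point := FA.Frob.vcEquiv C hC
  intro hP
  refine FA.Ribet.addOrderOf_point_ne_of_semistable hΔ hs hp h11 h13 (e.symm P) ?_
  exact (addOrderOf_injective e.symm.toAddMonoidHom e.symm.injective P).trans hP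

/-- **No Galois stable subgroup of order `p`** among the points over the algebraic closure: a
semistable elliptic curve over `ℚ` has no rational isogeny of degree `p`, for a prime `p ≥ 11`
other than `13`. -/
theorem noStableSubgroup (E : WeierstrassCurve ℚ) [E.IsElliptic]
    (h : ∀ p : ℕ, ∀ [Fact p.Prime], ∃ C : VariableChange ℚ_[p],
      HasGoodReduction ℤ_[p] (C • E.map (algebraMap ℚ ℚ_[p])) ∨
        HasMultiplicativeReduction ℤ_[p] (C • E.map (algebraMap ℚ ℚ_[p])))
    [inst : DecidableEq (AlgebraicClosure ℚ)] {p : ℕ} (hp : p.Prime) (h11 : 11 ≤ p) (h13 : p ≠ 13)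
    (G : AddSubgroup (E.toAffine⁄(AlgebraicClosure ℚ)).Point) (hcard : Nat.card G = p) :
    ¬ ∀ σ : AlgebraicClosure ℚ ≃ₐ[ℚ] AlgebraicClosure ℚ, ∀ P ∈ G,
      Affine.Point.map σ.toAlgHom P ∈ G := by
  intro hst
  obtain rfl : inst = instDecEqAlgebraicClosureRat := Subsingleton.elim _ _
  obtain ⟨W, hW, hs⟩ := FA.Root.exists_semistableModel E
    fun q _ => FA.Root.isSemistableAt_of_reduction E (h q).choose_spec
  exact FA.Root.not_modRepIsIrreducible_of_model_subgroup hW hp G hcard hst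
    (FA.Ribet.modRepIsIrreducible_of_semistable (FA.Frob.Δ_ne_zero_of_model hW) hs hp h11 h13)

end FA.Summary

end
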