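import Fermat.Agent.Root.SummaryTorsion
import Fermat.Agent.Twists.Main
import Fermat.Agent.Root.LFunctionForm

/-!
# Quadratic twists of semistable curves in Mathlib's language

An elliptic curve `E` over `ℚ` with a quadratic twist `y² = x³ - 27 d² c₄ x - 54 d³ c₆` semistable at
every prime has the prime coefficients of its L-function given by a cusp form of weight two, up to
finitely many, and has no Galois stable subgroup of order `p ≥ 11`, `p ≠ 13`.
-/

set_option autoImplicit false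
set_option linter.style.haveILetI false

noncomputable section

open WeierstrassCurve WeierstrassCurve.Affine
open scoped WeierstrassCurve.Affine

local notation "Qb" => AlgebraicClosure ℚ
local notation "GQ" => AlgebraicClosure ℚ ≃ₐ[ℚ] AlgebraicClosure ℚ

namespace FA.Root

theorem point_some_ext {L : Type*} [Field L] {W : Affine L} {x y x' y' : L}
    (h : W.Nonsingular x y) (h' : W.Nonsingular x' y') (hx : x = x') (hy : y = y') :
    Affine.Point.some x y h = .some x' y' h' := by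
  subst hx hy; rfl

theorem quadTwist_isElliptic (E : WeierstrassCurve ℚ) [E.IsElliptic] {d : ℚ} (hd : d ≠ 0) :
    (FA.Twists.quadTwist E d).IsElliptic := by
  refine ⟨(show (FA.Twists.quadTwist E d).Δ ≠ 0 from ?_).isUnit⟩
  rw [FA.Twists.quadTwist, FA.Twists.short_Δ,
    show (d ^ 2 * E.c₄) ^ 3 - (d ^ 3 * E.c₆) ^ 2 = d ^ 6 * (E.c₄ ^ 3 - E.c₆ ^ 2) by ring,
    ← E.c_relation]
  exact mul_ne_zero (by norm_num) (mul_ne_zero (pow_ne_zero _ hd)
    (mul_ne_zero (by norm_num) E.isUnit_Δ.ne_zero))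

/-- Over the algebraic closure a twist by `d` is isomorphic to the curve, and Galois commutes
with the isomorphism up to the sign it gives to a square root of `d`. -/
theorem exists_twist_equiv_sqrt (E : WeierstrassCurve ℚ) [E.IsElliptic] {d : ℚ} (hd : d ≠ 0) :
    ∃ (s : Qb) (e : ((FA.Twists.quadTwist E d).toAffine⁄Qb).Point ≃+ (E.toAffine⁄Qb).Point),
      s ^ 2 = algebraMap ℚ Qb d ∧
        ∀ (σ : GQ) (Q : ((FA.Twists.quadTwist E d).toAffine⁄Qb).Point),
          (σ s = s → Affine.Point.map (W' := E.toAffine) σ.toAlgHom (e Q) = e (σ • Q)) ∧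
          (σ s = -s → Affine.Point.map (W' := E.toAffine) σ.toAlgHom (e Q) = -e (σ • Q)) := by
  haveI := quadTwist_isElliptic E hd
  obtain ⟨s, hs⟩ := IsAlgClosed.exists_pow_nat_eq (algebraMap ℚ Qb d) (n := 2) two_pos
  have hs0 : s ≠ 0 := fun e => hd ((map_eq_zero (algebraMap ℚ Qb)).1 (by rw [← hs, e]; simp))
  obtain ⟨C₀, hC₀⟩ := FA.Twists.exists_short E
  set C : VariableChange Qb := ⟨(Units.mk0 s hs0)⁻¹, 0, 0, 0⟩ * C₀.map (algebraMap ℚ Qb) with hC
  have hCE : C • E.map (algebraMap ℚ Qb) =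
      (FA.Twists.quadTwist E d).map (algebraMap ℚ Qb) := by
    rw [hC, mul_smul, WeierstrassCurve.map_variableChange, hC₀, FA.Twists.short_map,
      FA.Twists.quadTwist, FA.Twists.short_map]
    ext
    all_goals simp only [variableChange_a₁, variableChange_a₂, variableChange_a₃,
      variableChange_a₄, variableChange_a₆, inv_inv, Units.val_mk0, FA.Twists.short, map_mul,
      map_pow, ← hs]
    all_goals ring
  have hu : (C.u : Qb) = s⁻¹ * algebraMap ℚ Qb (C₀.u : ℚ) := by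
    rw [hC, VariableChange.mul_def]; simp
  have hr : C.r = algebraMap ℚ Qb C₀.r := by rw [hC, VariableChange.mul_def]; simp
  have hs' : C.s = algebraMap ℚ Qb C₀.s := by rw [hC, VariableChange.mul_def]; simp
  have ht : C.t = algebraMap ℚ Qb C₀.t := by rw [hC, VariableChange.mul_def]; simp
  refine ⟨s, FA.Frob.vcEquiv C hCE, hs, fun σ Q => ?_⟩
  rcases Q with _ | ⟨x, y, hxy⟩
  · exact ⟨fun _ => rfl, fun _ => rfl⟩
  refine ⟨fun h => ?_, fun h => ?_⟩
  · show Affine.Point.some (σ (FA.Frob.vcX C x)) (σ (FA.Frob.vcY C x y)) _ =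
      Affine.Point.some (FA.Frob.vcX C (σ x)) (FA.Frob.vcY C (σ x) (σ y)) _
    simp only [FA.Frob.vcX, FA.Frob.vcY, map_add, map_mul, map_pow, hu, hr, hs', ht, map_inv₀, h,
      AlgEquiv.commutes]
  · show Affine.Point.some (σ (FA.Frob.vcX C x)) (σ (FA.Frob.vcY C x y)) _ =
      -Affine.Point.some (FA.Frob.vcX C (σ x)) (FA.Frob.vcY C (σ x) (σ y)) _
    refine Eq.trans (point_some_ext _ _ ?_ (Eq.trans ?_ (FA.Frob.negY_vc C hCE _ _).symm))
      (Affine.Point.neg_some _).symm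
    · simp only [FA.Frob.vcX, map_add, map_mul, map_pow, hu, hr, map_inv₀, h, AlgEquiv.commutes]
      ring
    · simp only [FA.Frob.vcY, Affine.negY, FA.Twists.quadTwist, FA.Twists.short, map_add, map_mul,
        map_pow, map_zero, hu, hs', ht, map_inv₀, h, AlgEquiv.commutes, WeierstrassCurve.map_a₁,
        WeierstrassCurve.map_a₃]
      ring

/-- Over the algebraic closure a twist is isomorphic to the curve, up to sign compatibly with
Galois. -/
theorem exists_twist_equiv (E : WeierstrassCurve ℚ) [E.IsElliptic] {d : ℚ} (hd : d ≠ 0) :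
    ∃ e : ((FA.Twists.quadTwist E d).toAffine⁄Qb).Point ≃+ (E.toAffine⁄Qb).Point,
      ∀ (σ : GQ) (Q : ((FA.Twists.quadTwist E d).toAffine⁄Qb).Point),
        Affine.Point.map (W' := E.toAffine) σ.toAlgHom (e Q) = e (σ • Q) ∨
          Affine.Point.map (W' := E.toAffine) σ.toAlgHom (e Q) = -e (σ • Q) := by
  obtain ⟨s, e, hs, he⟩ := exists_twist_equiv_sqrt E hd
  refine ⟨e, fun σ Q => ?_⟩
  exact (sq_eq_sq_iff_eq_or_eq_neg.1 (show (σ s) ^ 2 = s ^ 2 by
    rw [← map_pow, hs, σ.commutes])).imp (he σ Q).1 (he σ Q).2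

end FA.Root

namespace FA.Summary

/-- **Modularity of twists of semistable curves**: if a quadratic twist of `E` has good or
multiplicative reduction at every prime, the prime coefficients of the L-function of `E` are, up
to finitely many, those of a cusp form of weight two. -/
theorem modularity_twist (E : WeierstrassCurve ℚ) [E.IsElliptic] {d : ℚ} (hd : d ≠ 0)
    (h : ∀ p : ℕ, ∀ [Fact p.Prime], ∃ C : VariableChange ℚ_[p],
      HasGoodReduction ℤ_[p] (C • (⟨0, 0, 0, -27 * (d ^ 2 * E.c₄), -54 * (d ^ 3 * E.c₆)⟩ :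
          WeierstrassCurve ℚ).map (algebraMap ℚ ℚ_[p])) ∨
        HasMultiplicativeReduction ℤ_[p] (C • (⟨0, 0, 0, -27 * (d ^ 2 * E.c₄),
          -54 * (d ^ 3 * E.c₆)⟩ : WeierstrassCurve ℚ).map (algebraMap ℚ ℚ_[p]))) :
    ∃ (N : ℕ) (f : CuspForm (CongruenceSubgroup.Gamma0 N) 2) (S : Finset ℕ), 0 < N ∧
      (UpperHalfPlane.qExpansion 1 f).coeff 1 = 1 ∧ ∀ p : ℕ, p.Prime → p ∉ S →
        (UpperHalfPlane.qExpansion 1 f).coeff p = (E.LFunction p : ℂ) := by
  haveI := FA.Root.quadTwist_isElliptic E hd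
  obtain ⟨W₁, hW₁, hs⟩ := FA.Root.exists_semistableModel (FA.Twists.quadTwist E d)
    fun q _ => FA.Root.isSemistableAt_of_reduction _ (h q).choose_spec
  obtain ⟨W, hW, N, hN, f, hf, hfp⟩ := FA.Twists.isModular_of_semistable_twist E hd W₁ hW₁ hs
  have hΔ : W.Δ ≠ 0 := FA.Frob.Δ_ne_zero_of_model hW
  refine ⟨N, f, N.primeFactors ∪ W.Δ.natAbs.primeFactors, hN, hf.qCoeff_one, fun p hp hpS => ?_⟩
  simp only [Finset.mem_union, Nat.mem_primeFactors, not_or] at hpS
  have hg : ¬ (p : ℤ) ∣ W.Δ := fun hd =>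
    hpS.2 ⟨hp, Int.natCast_dvd.1 hd, Int.natAbs_ne_zero.2 hΔ⟩
  refine (hfp p hp hg fun hd => hpS.1 ⟨hp, hd, hN.ne'⟩).trans ?_
  rw [FA.Root.LFunction_apply_prime E W hW hp hg]

/-- **No Galois stable subgroup of order `p`**, `p ≥ 11`, `p ≠ 13`, on a curve with a semistable
quadratic twist. -/
theorem noStableSubgroup_twist (E : WeierstrassCurve ℚ) [E.IsElliptic] {d : ℚ} (hd : d ≠ 0)
    (h : ∀ p : ℕ, ∀ [Fact p.Prime], ∃ C : VariableChange ℚ_[p],
      HasGoodReduction ℤ_[p] (C • (⟨0, 0, 0, -27 * (d ^ 2 * E.c₄), -54 * (d ^ 3 * E.c₆)⟩ :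
          WeierstrassCurve ℚ).map (algebraMap ℚ ℚ_[p])) ∨
        HasMultiplicativeReduction ℤ_[p] (C • (⟨0, 0, 0, -27 * (d ^ 2 * E.c₄),
          -54 * (d ^ 3 * E.c₆)⟩ : WeierstrassCurve ℚ).map (algebraMap ℚ ℚ_[p])))
    [inst : DecidableEq (AlgebraicClosure ℚ)] {p : ℕ} (hp : p.Prime) (h11 : 11 ≤ p) (h13 : p ≠ 13)
    (G : AddSubgroup (E.toAffine⁄(AlgebraicClosure ℚ)).Point) (hcard : Nat.card G = p) :
    ¬ ∀ σ : AlgebraicClosure ℚ ≃ₐ[ℚ] AlgebraicClosure ℚ, ∀ P ∈ G,
      Affine.Point.map σ.toAlgHom P ∈ G := by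
  intro hst
  obtain rfl : inst = instDecEqAlgebraicClosureRat := Subsingleton.elim _ _
  haveI := FA.Root.quadTwist_isElliptic E hd
  obtain ⟨e, he⟩ := FA.Root.exists_twist_equiv E hd
  refine noStableSubgroup (FA.Twists.quadTwist E d) h hp h11 h13 (G.comap e.toAddMonoidHom) ?_
    fun σ Q hQ => ?_
  · rw [← hcard]
    exact Nat.card_congr (e.toEquiv.subtypeEquiv fun _ => Iff.rfl)
  · show e (σ • Q) ∈ G
    rcases he σ Q with h' | h'
    · exact h' ▸ hst σ _ hQ
    · exact neg_mem_iff.1 (h' ▸ hst σ _ hQ)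

/-- **No rational point of order `p`**, `p ≥ 11`, `p ≠ 13`, on a curve with a semistable quadratic
twist. -/
theorem noPointOfOrder_twist (E : WeierstrassCurve ℚ) [E.IsElliptic] {d : ℚ} (hd : d ≠ 0)
    (h : ∀ p : ℕ, ∀ [Fact p.Prime], ∃ C : VariableChange ℚ_[p],
      HasGoodReduction ℤ_[p] (C • (⟨0, 0, 0, -27 * (d ^ 2 * E.c₄), -54 * (d ^ 3 * E.c₆)⟩ :
          WeierstrassCurve ℚ).map (algebraMap ℚ ℚ_[p])) ∨
        HasMultiplicativeReduction ℤ_[p] (C • (⟨0, 0, 0, -27 * (d ^ 2 * E.c₄),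
          -54 * (d ^ 3 * E.c₆)⟩ : WeierstrassCurve ℚ).map (algebraMap ℚ ℚ_[p])))
    {p : ℕ} (hp : p.Prime) (h11 : 11 ≤ p) (h13 : p ≠ 13) (P : E.toAffine.Point) :
    addOrderOf P ≠ p := by
  intro hP
  let ι : (E.toAffine⁄ℚ).Point →+ (E.toAffine⁄Qb).Point := Point.map (Algebra.ofId ℚ Qb)
  let P' : (E.toAffine⁄ℚ).Point := P
  have hP' : addOrderOf (ι P') = p :=
    (addOrderOf_injective ι (Point.map_injective _) P').trans hP
  refine noStableSubgroup_twist E hd h hp h11 h13 (AddSubgroup.zmultiples (ι P'))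
    (by rw [Nat.card_zmultiples, hP']) fun σ Q hQ => ?_
  obtain ⟨k, rfl⟩ := hQ
  show Point.map σ.toAlgHom (k • ι P') ∈ AddSubgroup.zmultiples (ι P')
  rw [map_zsmul, show Point.map (W' := E.toAffine) σ.toAlgHom (ι P') = ι P' by
    rw [Point.map_map]
    congr 2
    exact AlgHom.ext fun z => σ.commutes z]
  exact ⟨k, rfl⟩

end FA.Summary

end
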