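import Fermat.Agent.Root.InertiaNontrivial
import Fermat.Agent.Root.SummaryDeuring
import Fermat.Agent.Root.SummaryTorsion
import Fermat.Agent.Root.SummaryTwistCriterionAll
import Fermat.Agent.Root.SummaryTwists
import Fermat.Agent.Two.CurvePoint

/-!
# The criterion of Néron, Ogg and Shafarevich

At a prime `q` and for a prime `p ≠ q`: good reduction makes inertia at `q` fix all `p`-power torsion
of any elliptic curve over `ℚ`; a pole of `j` at `q` makes it move some; hence at a prime of good or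
multiplicative reduction the reduction is good exactly when the `p`-power torsion is unramified.
Additive reduction with integral `j` at `q` is not covered.
-/

set_option autoImplicit false
set_option linter.style.haveILetI false
set_option linter.unusedSectionVars false

noncomputable section

open WeierstrassCurve WeierstrassCurve.Affine Matrix FA.Frob FA.RT.Tate
open scoped WeierstrassCurve.Affine

local notation "Qb" => AlgebraicClosure ℚ
local notation "GQ" => AlgebraicClosure ℚ ≃ₐ[ℚ] AlgebraicClosure ℚ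

namespace FA.OggShafarevich

/-- An integral model semistable at every prime of a set of primes of semistable reduction. -/
theorem exists_model_semistableOn (E : WeierstrassCurve ℚ) [E.IsElliptic] (P : ℕ → Prop)
    (h : ∀ p : ℕ, ∀ [Fact p.Prime], P p → FA.Root.IsSemistableAt E p) :
    ∃ W : WeierstrassCurve ℤ, W.IsIntegralModelOf E ∧
      ∀ p : ℕ, p.Prime → P p → ¬ ((p : ℤ) ∣ W.Δ ∧ (p : ℤ) ∣ W.c₄) := by
  obtain ⟨W₀, hW₀⟩ := FA.Frob.exists_integralModel E
  generalize hn : W₀.Δ.natAbs = n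
  induction n using Nat.strong_induction_on generalizing W₀ with
  | _ n ih =>
    subst hn
    by_cases hs : ∀ p : ℕ, p.Prime → P p → ¬ ((p : ℤ) ∣ W₀.Δ ∧ (p : ℤ) ∣ W₀.c₄)
    · exact ⟨W₀, hW₀, hs⟩
    simp only [not_forall, not_not] at hs
    obtain ⟨p, hp, hP, hpΔ, hpc⟩ := hs
    have := Fact.mk hp
    obtain ⟨C, V, hC, hV⟩ := h p hP
    obtain ⟨C₀, hC₀⟩ := hW₀
    have hD : (C * (C₀.map (algebraMap ℚ ℚ_[p]))⁻¹) • W₀.map (Int.castRingHom ℚ_[p]) =
        V.map PadicInt.Coe.ringHom := by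
      have h1 : W₀.map (Int.castRingHom ℚ_[p]) =
          (C₀.map (algebraMap ℚ ℚ_[p])) • E.map (algebraMap ℚ ℚ_[p]) := by
        rw [WeierstrassCurve.map_variableChange, hC₀, WeierstrassCurve.map_map]
        congr 1
      rw [h1, mul_smul, inv_smul_smul, hC]
    obtain ⟨C', W', hW', hΔ'⟩ := FA.Root.exists_smaller_model W₀ _ V hD hV hpΔ hpc
    have hΔ0 : W'.Δ ≠ 0 := fun e =>
      FA.Frob.Δ_ne_zero_of_model (E := E) ⟨C₀, hC₀⟩ (by rw [← hΔ', e, zero_mul])
    refine ih _ ?_ W' ⟨C' * C₀, by rw [mul_smul, hC₀, hW']⟩ rfl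
    rw [← hΔ', Int.natAbs_mul, Int.natAbs_pow, Int.natAbs_natCast]
    exact lt_mul_of_one_lt_right (Int.natAbs_pos.mpr hΔ0)
      (Nat.one_lt_pow (by norm_num) hp.one_lt)

/-- An integral model not having both `Δ` and `c₄` divisible by a prime of semistable reduction. -/
theorem exists_model_semistableAt (E : WeierstrassCurve ℚ) [E.IsElliptic] {p : ℕ} [Fact p.Prime]
    (h : FA.Root.IsSemistableAt E p) :
    ∃ W : WeierstrassCurve ℤ,
      W.IsIntegralModelOf E ∧ ¬ ((p : ℤ) ∣ W.Δ ∧ (p : ℤ) ∣ W.c₄) := by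
  obtain ⟨W, hW, hs⟩ := exists_model_semistableOn E (· = p) fun l _ e => by subst e; exact h
  exact ⟨W, hW, hs p Fact.out rfl⟩

/-- The invariant in terms of an integral model. -/
theorem j_eq_of_model {E : WeierstrassCurve ℚ} [E.IsElliptic] {W : WeierstrassCurve ℤ}
    (hW : W.IsIntegralModelOf E) : E.j = (W.c₄ : ℚ) ^ 3 / (W.Δ : ℚ) := by
  obtain ⟨C₀, hC₀⟩ := hW
  have h1 := WeierstrassCurve.variableChange_j E C₀
  rw [← h1, WeierstrassCurve.j, Units.val_inv_eq_inv_val, coe_Δ', hC₀, map_Δ, map_c₄, eq_intCast,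
    eq_intCast, div_eq_inv_mul]

/-- The invariant of the rational curve of a model. -/
theorem j_ratCurve {E : WeierstrassCurve ℚ} [E.IsElliptic] {W : WeierstrassCurve ℤ}
    [(FA.Frob.ratCurve W).IsElliptic] (hW : W.IsIntegralModelOf E) :
    (FA.Frob.ratCurve W).j = E.j := by
  rw [j_eq_of_model hW,
    j_eq_of_model (E := FA.Frob.ratCurve W) (W := W) ⟨1, one_smul _ _⟩]

/-- The invariant of a quadratic twist. -/
theorem quadTwist_j (E : WeierstrassCurve ℚ) [E.IsElliptic] {d : ℚ} (hd : d ≠ 0)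
    [(FA.Twists.quadTwist E d).IsElliptic] : (FA.Twists.quadTwist E d).j = E.j := by
  have hΔ : (FA.Twists.quadTwist E d).Δ = 6 ^ 12 * d ^ 6 * E.Δ := by
    have h := (FA.Twists.quadTwist E d).c_relation
    rw [FA.Root.quadTwist_c₄, FA.Root.quadTwist_c₆] at h
    linear_combination (1 / 1728 : ℚ) * h + (6 ^ 12 * d ^ 6 / 1728 : ℚ) * (-E.c_relation)
  simp only [WeierstrassCurve.j, Units.val_inv_eq_inv_val, coe_Δ', hΔ, FA.Root.quadTwist_c₄]
  field_simp

/-- A pole of `j` is no prime of good reduction of any integral model. -/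
theorem dvd_Δ_of_pole {E : WeierstrassCurve ℚ} [E.IsElliptic] {W : WeierstrassCurve ℤ}
    (hW : W.IsIntegralModelOf E) {p : ℕ} [Fact p.Prime] (hj : padicValRat p E.j < 0) :
    (p : ℤ) ∣ W.Δ := by
  by_contra hd
  rw [j_eq_of_model hW] at hj
  rcases eq_or_ne W.c₄ 0 with hc | hc
  · simp [hc] at hj
  rw [padicValRat.div (pow_ne_zero 3 (by exact_mod_cast hc))
      (by exact_mod_cast FA.Frob.Δ_ne_zero_of_model hW), padicValRat.pow, padicValRat.of_int,
    padicValRat.of_int, padicValInt.eq_zero_of_not_dvd hd] at hj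
  omega

/-- One twist of a curve with a pole of `j` has a model with multiplicative reduction at every
pole of `j`. -/
theorem exists_twist_multiplicative_poles (E : WeierstrassCurve ℚ) [E.IsElliptic]
    (h : ∃ q : ℕ, q.Prime ∧ padicValRat q E.j < 0) :
    ∃ (d : ℚ) (_ : d ≠ 0) (W : WeierstrassCurve ℤ),
      W.IsIntegralModelOf (FA.Twists.quadTwist E d) ∧
      ∀ q : ℕ, q.Prime → padicValRat q E.j < 0 → (q : ℤ) ∣ W.Δ ∧ ¬ (q : ℤ) ∣ W.c₄ := by
  obtain ⟨Z, hZdef⟩ : ∃ Z, FA.Root.twistClass E = Z := ⟨_, rfl⟩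
  have hZ : Z ≠ 0 := by
    obtain ⟨q, hq, hj⟩ := h
    have := Fact.mk hq
    exact hZdef ▸ (FA.Root.isSemistableAt_twist_of_pole E hj).1
  have hd : (Z : ℚ) ≠ 0 := by exact_mod_cast hZ
  haveI := FA.Root.quadTwist_isElliptic E hd
  obtain ⟨W, hW, hW'⟩ := exists_model_semistableOn (FA.Twists.quadTwist E Z)
    (fun q => padicValRat q E.j < 0) fun q hq hj => by
    obtain ⟨i, u, hu, he⟩ := Nat.exists_eq_pow_mul_and_not_dvd (Int.natAbs_ne_zero.mpr hZ) q
      hq.out.ne_one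
    have hN : FA.Root.NearSquare q (Z * Z) := by
      refine ⟨i, (u : ℤ) ^ 2, ?_, fun h => hu ?_, fun h2 => ?_⟩
      · rw [← Int.natAbs_mul_self, he]; push_cast; ring
      · exact Int.natCast_dvd_natCast.mp (Int.Prime.dvd_pow' hq.out h)
      · obtain ⟨k, rfl⟩ : Odd u := Nat.not_even_iff_odd.mp fun hev => hu (h2 ▸ hev.two_dvd)
        have e : ((2 * k + 1 : ℕ) : ℤ) ^ 2 = 4 * ((k : ℤ) * k + k) + 1 := by push_cast; ring
        omega
    exact (FA.Root.isSemistableAt_twist_of_pole E hj).2 Z hZ (hZdef ▸ hN)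
  refine ⟨Z, hd, W, hW, fun q hq hj => ?_⟩
  have := Fact.mk hq
  have hdvd := dvd_Δ_of_pole hW (p := q) (by rwa [quadTwist_j E hd])
  exact ⟨hdvd, fun hc => hW' q hq hj ⟨hdvd, hc⟩⟩

/-- Some twist of a curve with a pole of `j` at `q` has a model with multiplicative reduction. -/
theorem exists_multiplicative_twist (E : WeierstrassCurve ℚ) [E.IsElliptic] {q : ℕ} [Fact q.Prime]
    (hj : padicValRat q E.j < 0) :
    ∃ (d : ℚ) (_ : d ≠ 0) (W : WeierstrassCurve ℤ),
      W.IsIntegralModelOf (FA.Twists.quadTwist E d) ∧ (q : ℤ) ∣ W.Δ ∧ ¬ (q : ℤ) ∣ W.c₄ := by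
  obtain ⟨d, hd, W, hW, hall⟩ := exists_twist_multiplicative_poles E ⟨q, Fact.out, hj⟩
  exact ⟨d, hd, W, hW, hall q Fact.out hj⟩

/-- At a multiplicative prime the square of some inertia element moves `p`-power torsion. -/
theorem exists_inertia_sq_ne {W : WeierstrassCurve ℤ} [(ratCurve W).IsElliptic] {q : ℕ}
    {A : ValuationSubring Qb} {p : ℕ} [Fact p.Prime] (hm : MultAt W q A) (hqp : q ≠ p) :
    ∃ σ ∈ A.inertiaSubgroupIn ℚ, ∃ (n : ℕ) (x : Pts W), p ^ n • x = 0 ∧ (σ * σ) • x ≠ x := by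
  obtain ⟨B⟩ := FA.RT.Tate.exists_tateBasis (p := p) W
  obtain ⟨σ, hσ, hne⟩ := FA.OpenImage.exists_inertia_rep_ne_one B hm
  refine ⟨σ, hσ, ?_⟩
  by_contra hall
  push Not at hall
  apply hne
  have h1 : B.rep (σ * σ) = 1 := sub_eq_zero.mp <| B.ext_phi fun n v => by
    rw [zero_mulVec, map_zero, sub_mulVec, one_mulVec, map_sub, ← B.rep_spec,
      hall n _ (B.nsmul_phi n v), sub_self]
  have h2 := FA.Two.rep_inertia_mult B hm hqp hσ hσ
  rw [map_mul] at h1
  rw [mul_sub, sub_mul, mul_one, one_mul, h1] at h2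
  ext i j
  have h3 : (2 : ℤ_[p]) * (B.rep σ i j - (1 : Matrix (Fin 2) (Fin 2) ℤ_[p]) i j) = 0 := by
    have h4 := congrFun (congrFun h2 i) j
    simp only [Matrix.sub_apply, Matrix.zero_apply] at h4
    linear_combination -h4
  exact sub_eq_zero.mp ((mul_eq_zero.mp h3).resolve_left two_ne_zero)

end FA.OggShafarevich

namespace FA.Summary

open FA.OggShafarevich

/-- **Good reduction at `q` makes the `p`-power torsion unramified at `q`**, for `p ≠ q`. -/
theorem inertia_fixes_torsion_of_good (E : WeierstrassCurve ℚ) [E.IsElliptic]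
    [inst : DecidableEq (AlgebraicClosure ℚ)] {q : ℕ} [Fact q.Prime]
    (hgood : ∃ C : VariableChange ℚ_[q], HasGoodReduction ℤ_[q] (C • E.map (algebraMap ℚ ℚ_[q])))
    {p : ℕ} (hp : p.Prime) (hpq : p ≠ q) {A : ValuationSubring (AlgebraicClosure ℚ)}
    (hA : A.LiesOverPrime q) {σ : AlgebraicClosure ℚ ≃ₐ[ℚ] AlgebraicClosure ℚ}
    (hσ : σ ∈ A.inertiaSubgroupIn ℚ) {n : ℕ} (P : (E.toAffine⁄(AlgebraicClosure ℚ)).Point)
    (hP : (p ^ n : ℕ) • P = 0) : Affine.Point.map σ.toAlgHom P = P := by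
  obtain rfl : inst = instDecEqAlgebraicClosureRat := Subsingleton.elim _ _
  have := Fact.mk hp
  obtain ⟨W, hW, hd⟩ := FA.CM.Deuring.exists_model_not_dvd E hgood
  haveI := FA.Frob.ratCurve_isElliptic_of_Δ (FA.Frob.Δ_ne_zero_of_model hW)
  obtain ⟨e, he⟩ := FA.Root.exists_equiv_of_model hW
  obtain ⟨x, rfl⟩ := e.surjective P
  rw [← he, smul_eq_of_good Fact.out hA hpq.symm hd hσ
    (e.injective (by rw [map_nsmul, hP, map_zero]))]

/-- **A pole of `j` at `q` makes the `p`-power torsion ramified at `q`**, for `p ≠ q`. -/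
theorem exists_inertia_moves_torsion_of_pole (E : WeierstrassCurve ℚ) [E.IsElliptic]
    [inst : DecidableEq (AlgebraicClosure ℚ)] {q : ℕ} [Fact q.Prime]
    (hj : padicValRat q E.j < 0) {p : ℕ} (hp : p.Prime) (hpq : p ≠ q)
    {A : ValuationSubring (AlgebraicClosure ℚ)} (hA : A.LiesOverPrime q) :
    ∃ σ ∈ A.inertiaSubgroupIn ℚ, ∃ (n : ℕ) (P : (E.toAffine⁄(AlgebraicClosure ℚ)).Point),
      (p ^ n : ℕ) • P = 0 ∧ Affine.Point.map σ.toAlgHom P ≠ P := by
  obtain rfl : inst = instDecEqAlgebraicClosureRat := Subsingleton.elim _ _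
  have := Fact.mk hp
  obtain ⟨d, hd, W, hW, hdvd, hc⟩ := exists_multiplicative_twist E hj
  haveI := FA.Root.quadTwist_isElliptic E hd
  have hΔ := FA.Frob.Δ_ne_zero_of_model hW
  haveI := FA.Frob.ratCurve_isElliptic_of_Δ hΔ
  obtain ⟨σ, hσ, n, x, hx, hne⟩ :=
    exists_inertia_sq_ne (p := p) ⟨hΔ, Fact.out, hdvd, hc, hA⟩ hpq.symm
  obtain ⟨e, he⟩ := FA.Root.exists_equiv_of_model hW
  obtain ⟨s, t, hs, ht⟩ := FA.Root.exists_twist_equiv_sqrt E hd
  have hfix : (σ * σ) s = s := by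
    rw [AlgEquiv.mul_apply]
    rcases sq_eq_sq_iff_eq_or_eq_neg.mp
        (show (σ s) ^ 2 = s ^ 2 by rw [← map_pow, hs, σ.commutes]) with h | h <;> simp [h]
  refine ⟨σ * σ, mul_mem hσ hσ, n, t (e x), by rw [← map_nsmul, ← map_nsmul, hx, map_zero, map_zero],
    fun h => hne (e.injective ?_)⟩
  rw [(ht (σ * σ) (e x)).1 hfix] at h
  exact (he _ x).trans (t.injective h)

/-- **The criterion of Néron, Ogg and Shafarevich** at a prime `q` of good or multiplicative
reduction: for a prime `p ≠ q` the reduction is good iff inertia at `q` fixes all `p`-power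
torsion. -/
theorem neronOggShafarevich (E : WeierstrassCurve ℚ) [E.IsElliptic]
    [inst : DecidableEq (AlgebraicClosure ℚ)] {q : ℕ} [Fact q.Prime]
    (h : ∃ C : VariableChange ℚ_[q],
      HasGoodReduction ℤ_[q] (C • E.map (algebraMap ℚ ℚ_[q])) ∨
        HasMultiplicativeReduction ℤ_[q] (C • E.map (algebraMap ℚ ℚ_[q])))
    {p : ℕ} (hp : p.Prime) (hpq : p ≠ q) :
    (∃ C : VariableChange ℚ_[q], HasGoodReduction ℤ_[q] (C • E.map (algebraMap ℚ ℚ_[q]))) ↔
      ∀ A : ValuationSubring (AlgebraicClosure ℚ), A.LiesOverPrime q →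
        ∀ σ ∈ A.inertiaSubgroupIn ℚ, ∀ (n : ℕ) (P : (E.toAffine⁄(AlgebraicClosure ℚ)).Point),
          (p ^ n : ℕ) • P = 0 → Affine.Point.map σ.toAlgHom P = P := by
  refine ⟨fun hg A hA σ hσ n P hP => inertia_fixes_torsion_of_good E hg hp hpq hA hσ P hP,
    fun hall => ?_⟩
  obtain ⟨C, hC⟩ := h
  obtain ⟨W, hW, hW'⟩ := exists_model_semistableAt E (FA.Root.isSemistableAt_of_reduction E hC)
  by_cases hdvd : (q : ℤ) ∣ W.Δ
  · exfalso
    have hc : ¬ (q : ℤ) ∣ W.c₄ := fun hc => hW' ⟨hdvd, hc⟩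
    have hΔ := FA.Frob.Δ_ne_zero_of_model hW
    have hj : padicValRat q E.j < 0 := by
      rw [j_eq_of_model hW, padicValRat.div
          (pow_ne_zero 3 (Int.cast_ne_zero.mpr fun e => hc (by rw [e]; exact dvd_zero _)))
          (Int.cast_ne_zero.mpr hΔ), padicValRat.pow, padicValRat.of_int, padicValRat.of_int,
        padicValInt.eq_zero_of_not_dvd hc]
      have := one_le_padicValNat_of_dvd (p := q) (Int.natAbs_ne_zero.mpr hΔ)
        (Int.natCast_dvd.mp hdvd)
      simp only [padicValInt]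
      omega
    obtain ⟨A, hA⟩ := FA.Deform.exists_liesOverPrime (Fact.out : q.Prime)
    obtain ⟨σ, hσ, n, P, hP, hne⟩ := exists_inertia_moves_torsion_of_pole E hj hp hpq hA
    exact hne (hall A hA σ hσ n P hP)
  · obtain ⟨C₁, hC₁⟩ := FA.Root.exists_good_of_not_dvd W q hdvd
    obtain ⟨C₀, h₀⟩ := hW
    exact ⟨C₁ * C₀.map (algebraMap ℚ ℚ_[q]),
      by rwa [mul_smul, WeierstrassCurve.map_variableChange, h₀]⟩

/-- **The field of the `p`-power torsion determines the reduction**: two semistable curves whose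
`p`-power torsion has the same fixing elements of Galois are good at the same primes `q ≠ p`. -/
theorem good_iff_of_same_torsion_field (E E' : WeierstrassCurve ℚ) [E.IsElliptic] [E'.IsElliptic]
    [DecidableEq (AlgebraicClosure ℚ)] {q : ℕ} [Fact q.Prime]
    (h : ∃ C : VariableChange ℚ_[q],
      HasGoodReduction ℤ_[q] (C • E.map (algebraMap ℚ ℚ_[q])) ∨
        HasMultiplicativeReduction ℤ_[q] (C • E.map (algebraMap ℚ ℚ_[q])))
    (h' : ∃ C : VariableChange ℚ_[q],
      HasGoodReduction ℤ_[q] (C • E'.map (algebraMap ℚ ℚ_[q])) ∨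
        HasMultiplicativeReduction ℤ_[q] (C • E'.map (algebraMap ℚ ℚ_[q])))
    {p : ℕ} (hp : p.Prime) (hpq : p ≠ q)
    (hsame : ∀ σ : AlgebraicClosure ℚ ≃ₐ[ℚ] AlgebraicClosure ℚ,
      (∀ (n : ℕ) (P : (E.toAffine⁄(AlgebraicClosure ℚ)).Point),
          (p ^ n : ℕ) • P = 0 → Affine.Point.map σ.toAlgHom P = P) ↔
        ∀ (n : ℕ) (P : (E'.toAffine⁄(AlgebraicClosure ℚ)).Point),
          (p ^ n : ℕ) • P = 0 → Affine.Point.map σ.toAlgHom P = P) :
    (∃ C : VariableChange ℚ_[q], HasGoodReduction ℤ_[q] (C • E.map (algebraMap ℚ ℚ_[q]))) ↔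
      ∃ C : VariableChange ℚ_[q], HasGoodReduction ℤ_[q] (C • E'.map (algebraMap ℚ ℚ_[q])) := by
  rw [neronOggShafarevich E h hp hpq, neronOggShafarevich E' h' hp hpq]
  exact forall₂_congr fun A _ => forall₂_congr fun σ _ => hsame σ

end FA.Summary

end
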