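import Fermat.Agent.Root.NoGoodReduction
import Fermat.Agent.Ribet.SerreLarge

/-!
# Semistable elliptic curves with few bad primes in Mathlib's language

At the squarefree levels `11`, `14`, `15`, `17`, `19` and `21` the space of cusp forms of weight two
is a line and the proper divisors have no forms. Hence a semistable elliptic curve over `ℚ` with
good reduction outside such a level has the L-function of one explicit curve.
-/

set_option autoImplicit false
set_option linter.style.haveILetI false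

noncomputable section

open WeierstrassCurve
open FA.Theta (badProd)

namespace FA.Root

/-- An equation `y² + xy + y = x³ + x²` of level `15`. -/
def curve15 : WeierstrassCurve ℤ := ⟨1, 1, 1, 0, 0⟩

/-- An equation `y² + xy = x³ + x` of level `21`. -/
def curve21 : WeierstrassCurve ℤ := ⟨1, 0, 0, 1, 0⟩

theorem genusFormula_15 : ModularCurve.genusFormula 15 = 1 := by
  have s3 : Squarefree 3 := Nat.prime_three.prime.squarefree
  have s5 : Squarefree 5 := Nat.prime_five.prime.squarefree
  have s15 : Squarefree 15 := (Nat.squarefree_mul (show Nat.Coprime 3 5 by norm_num)).mpr ⟨s3, s5⟩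
  simp only [ModularCurve.genusFormula, ModularCurve.nuTwo, ModularCurve.nuThree,
    ModularCurve.cuspCount, ModularCurve.dedekindPsi, Nat.card_eq_fintype_card]
  rw [show Fintype.card {x : ZMod 15 // x ^ 2 + 1 = 0} = 0 from rfl,
    show Fintype.card {x : ZMod 15 // x ^ 2 + x + 1 = 0} = 0 from rfl,
    show Nat.divisors 15 = {1, 3, 5, 15} by decide]
  simp [Finset.sum_filter, s3, s5, s15, Nat.totient]; norm_num

theorem genusFormula_21 : ModularCurve.genusFormula 21 = 1 := by
  have s3 : Squarefree 3 := Nat.prime_three.prime.squarefree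
  have s7 := FA.Ribet.squarefree_seven
  have s21 : Squarefree 21 := (Nat.squarefree_mul (show Nat.Coprime 3 7 by norm_num)).mpr ⟨s3, s7⟩
  simp only [ModularCurve.genusFormula, ModularCurve.nuTwo, ModularCurve.nuThree,
    ModularCurve.cuspCount, ModularCurve.dedekindPsi, Nat.card_eq_fintype_card]
  rw [show Fintype.card {x : ZMod 21 // x ^ 2 + 1 = 0} = 0 from rfl,
    show Fintype.card {x : ZMod 21 // x ^ 2 + x + 1 = 0} = 2 from rfl,
    show Nat.divisors 21 = {1, 3, 7, 21} by decide]
  simp [Finset.sum_filter, s3, s7, s21, Nat.totient]; norm_num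

/-- The newform of a semistable equation has the coefficients of the L-function. -/
theorem exists_newform_LFunction_of_model (E : WeierstrassCurve ℚ) [E.IsElliptic]
    {W : WeierstrassCurve ℤ} (hW : W.IsIntegralModelOf E) (hs : W.IsSemistableModel) :
    ∃ f : CuspForm (CongruenceSubgroup.Gamma0 (badProd W)) 2, f.IsNormalizedEigenform ∧
      ∀ n : ℕ, ModularFormClass.qCoeff f n = (E.LFunction n : ℂ) := by
  have hΔ : W.Δ ≠ 0 := FA.Frob.Δ_ne_zero_of_model hW
  obtain ⟨f, hf, hap⟩ := FA.SS.semistableModular W hΔ hs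
  have := FA.Frob.ratCurve_isElliptic_of_Δ hΔ
  have hsq := squarefree_badProd W
  have hN : ∀ q : ℕ, q.Prime → (q ∣ badProd W ↔ (q : ℤ) ∣ W.Δ) :=
    fun q hq => prime_dvd_badProd_iff hΔ hq
  refine ⟨f, hf, qCoeff_eq_LFunction_of hW hN
    (fun p r hp hgood => LFunction_apply_prime_pow_good E W hW hp hgood r)
    (fun q k hq hbad => LFunction_apply_prime_pow_mult E W hW hq hbad hΔ (hs q hq hbad) k) hf
    (fun p hp hpN => hap p hp (fun hd => hpN ((hN p hp).mpr hd)) hpN)
    fun q hq hqN => qCoeff_eq_splitSign hΔ hs hsq hN hf hap hq hqN⟩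

/-- **One L-function at a level of genus one**: if `X₀(N)` has genus one and its proper divisors
genus zero, a semistable curve with good reduction outside `N` has the L-function of any semistable
equation with the same bad primes. -/
theorem LFunction_eq_of_genusFormula {N : ℕ} (hsqN : Squarefree N)
    (hg : ModularCurve.genusFormula N = 1)
    (hlow : ∀ M : ℕ, M ∣ N → M ≠ N → ModularCurve.genusFormula M = 0) (W₀ : WeierstrassCurve ℤ)
    (hΔ₀ : W₀.Δ ≠ 0) (hs₀ : W₀.IsSemistableModel)
    (hN₀ : W₀.Δ.natAbs.primeFactors = N.primeFactors)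
    (E : WeierstrassCurve ℚ) [E.IsElliptic]
    (h : ∀ p : ℕ, ∀ [Fact p.Prime], ∃ C : VariableChange ℚ_[p],
      HasGoodReduction ℤ_[p] (C • E.map (algebraMap ℚ ℚ_[p])) ∨
        HasMultiplicativeReduction ℤ_[p] (C • E.map (algebraMap ℚ ℚ_[p])))
    (hgood : ∀ p : ℕ, ∀ [Fact p.Prime], ¬ p ∣ N → ∃ C : VariableChange ℚ_[p],
      HasGoodReduction ℤ_[p] (C • E.map (algebraMap ℚ ℚ_[p]))) :
    E.LFunction = (W₀.map (Int.castRingHom ℚ)).LFunction := by
  obtain ⟨W, hW, hs⟩ := exists_semistableModel E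
    fun p _ => isSemistableAt_of_reduction E (h p).choose_spec
  have hΔ : W.Δ ≠ 0 := FA.Frob.Δ_ne_zero_of_model hW
  obtain ⟨f, hf, hn⟩ := exists_newform_LFunction_of_model E hW hs
  haveI : (W₀.map (Int.castRingHom ℚ)).IsElliptic := FA.Frob.ratCurve_isElliptic_of_Δ hΔ₀
  obtain ⟨f₀, hf₀, hn₀⟩ :=
    exists_newform_LFunction_of_model (W₀.map (Int.castRingHom ℚ)) (W := W₀) ⟨1, one_smul _ _⟩ hs₀
  have hdvd : badProd W ∣ N := by
    rw [← Nat.prod_primeFactors_of_squarefree (squarefree_badProd W),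
      ← Nat.prod_primeFactors_of_squarefree hsqN]
    refine Finset.prod_dvd_prod_of_subset _ _ _ fun q hq => ?_
    obtain ⟨hqp, hqd, -⟩ := Nat.mem_primeFactors.mp hq
    refine Nat.mem_primeFactors.mpr ⟨hqp, ?_, hsqN.ne_zero⟩
    by_contra hqN
    have := Fact.mk hqp
    have hd := (prime_dvd_badProd_iff hΔ hqp).mp hqd
    obtain ⟨C, hC⟩ := hgood q hqN
    exact not_hasGoodReduction_of_bad hW hd (hs q hqp hd) C hC
  have e₀ : badProd W₀ = N := by
    rw [← Nat.prod_primeFactors_of_squarefree (squarefree_badProd W₀),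
      ← Nat.prod_primeFactors_of_squarefree hsqN, ← hN₀]
    congr 1
    ext q
    simp only [Nat.mem_primeFactors, ne_eq, (squarefree_badProd W₀).ne_zero, not_false_eq_true,
      and_true, Int.natAbs_eq_zero, hΔ₀, ← Int.natCast_dvd]
    exact and_congr_right fun hq => prime_dvd_badProd_iff hΔ₀ hq
  have e : badProd W = N := by
    by_contra hne
    have : NeZero (badProd W) := ⟨(squarefree_badProd W).ne_zero⟩
    exact hf.ne_zero (FA.Ribet.cuspForm_eq_zero_of_genusFormula (hlow _ hdvd hne) f)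
  have : NeZero N := ⟨hsqN.ne_zero⟩
  have hdim : Module.finrank ℂ (CuspForm (CongruenceSubgroup.Gamma0 N) 2) = 1 := by
    have h20 := (Fermat.Agent.S20.result N).trans hg
    exact_mod_cast h20
  revert f f₀
  rw [e, e₀]
  intro f hf hn f₀ hf₀ hn₀
  ext n
  have h1 := hn n
  rw [FA.Ribet.eq_of_finrank_eq_one hdim hf₀ hf, hn₀ n] at h1
  exact_mod_cast h1.symm

end FA.Root

namespace FA.Summary

variable (E : WeierstrassCurve ℚ) [E.IsElliptic]

/-- A semistable curve with good reduction outside `11` has the L-function of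
`y² + y = x³ - x²`. -/
theorem uniqueLevelEleven
    (h : ∀ p : ℕ, ∀ [Fact p.Prime], ∃ C : VariableChange ℚ_[p],
      HasGoodReduction ℤ_[p] (C • E.map (algebraMap ℚ ℚ_[p])) ∨
        HasMultiplicativeReduction ℤ_[p] (C • E.map (algebraMap ℚ ℚ_[p])))
    (hgood : ∀ p : ℕ, ∀ [Fact p.Prime], p ≠ 11 → ∃ C : VariableChange ℚ_[p],
      HasGoodReduction ℤ_[p] (C • E.map (algebraMap ℚ ℚ_[p]))) :
    E.LFunction = (⟨0, -1, 1, 0, 0⟩ : WeierstrassCurve ℚ).LFunction := by
  rw [show (⟨0, -1, 1, 0, 0⟩ : WeierstrassCurve ℚ) =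
    FA.Ribet.curve11.map (Int.castRingHom ℚ) by ext <;> simp [FA.Ribet.curve11]]
  exact FA.Root.LFunction_eq_of_genusFormula (N := 11) FA.Ribet.squarefree_eleven
    FA.Ribet.genusFormula_11
    (fun M hM hne => by
      rcases (Nat.dvd_prime (by norm_num)).mp hM with rfl | rfl
      · exact FA.Ribet.genusFormula_eq_zero (Or.inl rfl) (one_dvd 6)
      · exact absurd rfl hne)
    _ (by decide) (FA.Ribet.semistable_of_Δ (q := 11) (i := 0) (j := 1) (by norm_num)
      (by decide) (Or.inl rfl) (by decide))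
    (by rw [FA.Ribet.curve11_Δ]; rfl) E h fun p _ hp => hgood p fun e => hp (e ▸ dvd_rfl)

/-- A semistable curve with good reduction outside `2` and `7` has the L-function of
`y² + xy + y = x³ + 4x - 6`. -/
theorem uniqueLevelFourteen
    (h : ∀ p : ℕ, ∀ [Fact p.Prime], ∃ C : VariableChange ℚ_[p],
      HasGoodReduction ℤ_[p] (C • E.map (algebraMap ℚ ℚ_[p])) ∨
        HasMultiplicativeReduction ℤ_[p] (C • E.map (algebraMap ℚ ℚ_[p])))
    (hgood : ∀ p : ℕ, ∀ [Fact p.Prime], p ≠ 2 → p ≠ 7 → ∃ C : VariableChange ℚ_[p],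
      HasGoodReduction ℤ_[p] (C • E.map (algebraMap ℚ ℚ_[p]))) :
    E.LFunction = (⟨1, 0, 1, 4, -6⟩ : WeierstrassCurve ℚ).LFunction := by
  rw [show (⟨1, 0, 1, 4, -6⟩ : WeierstrassCurve ℚ) =
    FA.Ribet.curve14.map (Int.castRingHom ℚ) by ext <;> simp [FA.Ribet.curve14]]
  exact FA.Root.LFunction_eq_of_genusFormula (N := 14) FA.Ribet.squarefree_fourteen
    FA.Ribet.genusFormula_14
    (fun M hM hne => by
      have hle : M ≤ 14 := Nat.le_of_dvd (by norm_num) hM
      interval_cases M
      all_goals first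
        | omega
        | exact FA.Ribet.genusFormula_7
        | exact FA.Ribet.genusFormula_eq_zero (Or.inl rfl) (Nat.dvd_of_mod_eq_zero rfl))
    _ (by decide) (FA.Ribet.semistable_of_Δ (q := 7) (i := 6) (j := 3) (by norm_num)
      (by decide) (Or.inr (by decide)) (by decide))
    (FA.Ribet.natAbs_primeFactors (E := FA.Ribet.curve14) (q := 7) (i := 6) (j := 3)
      (by norm_num) FA.Ribet.curve14_Δ (by norm_num) (by norm_num))
    E h fun p _ hp => hgood p (fun e => hp (e ▸ by norm_num)) fun e => hp (e ▸ by norm_num)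

/-- A semistable curve with good reduction outside `3` and `5` has the L-function of
`y² + xy + y = x³ + x²`. -/
theorem uniqueLevelFifteen
    (h : ∀ p : ℕ, ∀ [Fact p.Prime], ∃ C : VariableChange ℚ_[p],
      HasGoodReduction ℤ_[p] (C • E.map (algebraMap ℚ ℚ_[p])) ∨
        HasMultiplicativeReduction ℤ_[p] (C • E.map (algebraMap ℚ ℚ_[p])))
    (hgood : ∀ p : ℕ, ∀ [Fact p.Prime], p ≠ 3 → p ≠ 5 → ∃ C : VariableChange ℚ_[p],
      HasGoodReduction ℤ_[p] (C • E.map (algebraMap ℚ ℚ_[p]))) :
    E.LFunction = (⟨1, 1, 1, 0, 0⟩ : WeierstrassCurve ℚ).LFunction := by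
  rw [show (⟨1, 1, 1, 0, 0⟩ : WeierstrassCurve ℚ) =
    FA.Root.curve15.map (Int.castRingHom ℚ) by ext <;> simp [FA.Root.curve15]]
  exact FA.Root.LFunction_eq_of_genusFormula (N := 15)
    ((Nat.squarefree_mul (show Nat.Coprime 3 5 by norm_num)).mpr
      ⟨Nat.prime_three.prime.squarefree, Nat.prime_five.prime.squarefree⟩)
    FA.Root.genusFormula_15
    (fun M hM hne => by
      have hle : M ≤ 15 := Nat.le_of_dvd (by norm_num) hM
      interval_cases M
      all_goals first
        | omega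
        | exact FA.Ribet.genusFormula_eq_zero (Or.inl rfl) (Nat.dvd_of_mod_eq_zero rfl)
        | exact FA.Ribet.genusFormula_eq_zero (Or.inr rfl) (Nat.dvd_of_mod_eq_zero rfl))
    _ (by decide)
    (fun r hr _ hc => hr.ne_one (Nat.dvd_one.mp (by
      rw [show FA.Root.curve15.c₄ = 1 from by decide] at hc; exact_mod_cast hc)))
    (by rw [show FA.Root.curve15.Δ = -15 from by decide]; rfl)
    E h fun p _ hp => hgood p (fun e => hp (e ▸ by norm_num)) fun e => hp (e ▸ by norm_num)

/-- A semistable curve with good reduction outside `17` has the L-function of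
`y² + xy + y = x³ - x² - x`. -/
theorem uniqueLevelSeventeen
    (h : ∀ p : ℕ, ∀ [Fact p.Prime], ∃ C : VariableChange ℚ_[p],
      HasGoodReduction ℤ_[p] (C • E.map (algebraMap ℚ ℚ_[p])) ∨
        HasMultiplicativeReduction ℤ_[p] (C • E.map (algebraMap ℚ ℚ_[p])))
    (hgood : ∀ p : ℕ, ∀ [Fact p.Prime], p ≠ 17 → ∃ C : VariableChange ℚ_[p],
      HasGoodReduction ℤ_[p] (C • E.map (algebraMap ℚ ℚ_[p]))) :
    E.LFunction = (⟨1, -1, 1, -1, 0⟩ : WeierstrassCurve ℚ).LFunction := by
  rw [show (⟨1, -1, 1, -1, 0⟩ : WeierstrassCurve ℚ) =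
    FA.Ribet.curve17.map (Int.castRingHom ℚ) by ext <;> simp [FA.Ribet.curve17]]
  exact FA.Root.LFunction_eq_of_genusFormula (N := 17)
    (show Nat.Prime 17 by norm_num).prime.squarefree FA.Ribet.genusFormula_17
    (fun M hM hne => by
      rcases (Nat.dvd_prime (by norm_num)).mp hM with rfl | rfl
      · exact FA.Ribet.genusFormula_eq_zero (Or.inl rfl) (one_dvd 6)
      · exact absurd rfl hne)
    _ (by decide)
    (fun r hr hd hc => by
      rw [show FA.Ribet.curve17.c₄ = 33 from by decide] at hc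
      rw [show FA.Ribet.curve17.Δ = 17 from by decide] at hd
      exact hr.ne_one (Nat.dvd_one.mp ((Nat.dvd_gcd (Int.natCast_dvd_natCast.mp hd)
        (Int.natCast_dvd_natCast.mp hc) :))))
    (by rw [show FA.Ribet.curve17.Δ = 17 from by decide]; rfl)
    E h fun p _ hp => hgood p fun e => hp (e ▸ dvd_rfl)

/-- A semistable curve with good reduction outside `19` has the L-function of
`y² + y = x³ + x² + x`. -/
theorem uniqueLevelNineteen
    (h : ∀ p : ℕ, ∀ [Fact p.Prime], ∃ C : VariableChange ℚ_[p],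
      HasGoodReduction ℤ_[p] (C • E.map (algebraMap ℚ ℚ_[p])) ∨
        HasMultiplicativeReduction ℤ_[p] (C • E.map (algebraMap ℚ ℚ_[p])))
    (hgood : ∀ p : ℕ, ∀ [Fact p.Prime], p ≠ 19 → ∃ C : VariableChange ℚ_[p],
      HasGoodReduction ℤ_[p] (C • E.map (algebraMap ℚ ℚ_[p]))) :
    E.LFunction = (⟨0, 1, 1, 1, 0⟩ : WeierstrassCurve ℚ).LFunction := by
  rw [show (⟨0, 1, 1, 1, 0⟩ : WeierstrassCurve ℚ) =
    FA.Ribet.curve19.map (Int.castRingHom ℚ) by ext <;> simp [FA.Ribet.curve19]]
  exact FA.Root.LFunction_eq_of_genusFormula (N := 19)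
    (show Nat.Prime 19 by norm_num).prime.squarefree FA.Ribet.genusFormula_19
    (fun M hM hne => by
      rcases (Nat.dvd_prime (by norm_num)).mp hM with rfl | rfl
      · exact FA.Ribet.genusFormula_eq_zero (Or.inl rfl) (one_dvd 6)
      · exact absurd rfl hne)
    _ (by decide)
    (FA.Ribet.semistable_of_Δ (q := 19) (i := 0) (j := 1) (by norm_num)
      (by decide) (Or.inl rfl) (by decide))
    (by rw [show FA.Ribet.curve19.Δ = -19 from by decide]; rfl)
    E h fun p _ hp => hgood p fun e => hp (e ▸ dvd_rfl)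

/-- A semistable curve with good reduction outside `3` and `7` has the L-function of
`y² + xy = x³ + x`. -/
theorem uniqueLevelTwentyOne
    (h : ∀ p : ℕ, ∀ [Fact p.Prime], ∃ C : VariableChange ℚ_[p],
      HasGoodReduction ℤ_[p] (C • E.map (algebraMap ℚ ℚ_[p])) ∨
        HasMultiplicativeReduction ℤ_[p] (C • E.map (algebraMap ℚ ℚ_[p])))
    (hgood : ∀ p : ℕ, ∀ [Fact p.Prime], p ≠ 3 → p ≠ 7 → ∃ C : VariableChange ℚ_[p],
      HasGoodReduction ℤ_[p] (C • E.map (algebraMap ℚ ℚ_[p]))) :
    E.LFunction = (⟨1, 0, 0, 1, 0⟩ : WeierstrassCurve ℚ).LFunction := by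
  rw [show (⟨1, 0, 0, 1, 0⟩ : WeierstrassCurve ℚ) =
    FA.Root.curve21.map (Int.castRingHom ℚ) by ext <;> simp [FA.Root.curve21]]
  exact FA.Root.LFunction_eq_of_genusFormula (N := 21)
    ((Nat.squarefree_mul (show Nat.Coprime 3 7 by norm_num)).mpr
      ⟨Nat.prime_three.prime.squarefree, FA.Ribet.squarefree_seven⟩)
    FA.Root.genusFormula_21
    (fun M hM hne => by
      have hle : M ≤ 21 := Nat.le_of_dvd (by norm_num) hM
      interval_cases M
      all_goals first
        | omega
        | exact FA.Ribet.genusFormula_7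
        | exact FA.Ribet.genusFormula_eq_zero (Or.inl rfl) (Nat.dvd_of_mod_eq_zero rfl))
    _ (by decide)
    (fun r hr hd hc => by
      rw [show FA.Root.curve21.c₄ = -47 from by decide, dvd_neg] at hc
      rw [show FA.Root.curve21.Δ = -63 from by decide, dvd_neg] at hd
      exact hr.ne_one (Nat.dvd_one.mp ((Nat.dvd_gcd (Int.natCast_dvd_natCast.mp hd)
        (Int.natCast_dvd_natCast.mp hc) :))))
    (by
      rw [show FA.Root.curve21.Δ.natAbs = 3 ^ 2 * 7 from by decide,
        Nat.primeFactors_mul (by norm_num) (by norm_num), Nat.primeFactors_pow _ two_ne_zero,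
        show (21 : ℕ) = 3 * 7 from rfl, Nat.primeFactors_mul (by norm_num) (by norm_num)])
    E h fun p _ hp => hgood p (fun e => hp (e ▸ by norm_num)) fun e => hp (e ▸ by norm_num)

end FA.Summary

end
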