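import Mathlib.NumberTheory.FLT.Basic
import Fermat.Agent.S01

/-!
# Fermat's Last Theorem in the forms used by Mathlib

The root statement, restated as Mathlib's `FermatLastTheorem`, and over `ℤ` and `ℚ`.
-/

set_option autoImplicit false

namespace FA.Root

/-- Mathlib's statement of Fermat's Last Theorem. -/
theorem fermatLastTheorem_closed : FermatLastTheorem :=
  fun n hn a b c ha hb hc =>
    Fermat.Agent.S01.result n hn a b c (Nat.pos_of_ne_zero ha) (Nat.pos_of_ne_zero hb)
      (Nat.pos_of_ne_zero hc)

/-- Fermat's Last Theorem over the integers. -/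
theorem fermatLastTheorem_int_closed {n : ℕ} (hn : 3 ≤ n) : FermatLastTheoremWith ℤ n :=
  fermatLastTheoremFor_iff_int.mp (fermatLastTheorem_closed n hn)

/-- Fermat's Last Theorem over the rationals. -/
theorem fermatLastTheorem_rat_closed {n : ℕ} (hn : 3 ≤ n) : FermatLastTheoremWith ℚ n :=
  fermatLastTheoremFor_iff_rat.mp (fermatLastTheorem_closed n hn)

end FA.Root
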