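import Fermat.Agent.Root.Summary
import Fermat.Agent.Root.SummaryLevels
import Fermat.Agent.Root.SummaryTwistCriterionAll
import Fermat.Agent.Torsion.Summary

/-!
# The hypotheses of the summary theorems hold for actual curves

The curve `11a3 : y² + y = x³ - x²` is semistable and has good reduction away from `11`, and its
twist by `-11`, `y² + y = x³ + 11x² - 333`, satisfies the criterion by the `j`-invariant without
having a unit `c₄` at `11`.
-/

set_option autoImplicit false

noncomputable section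

open WeierstrassCurve IsDedekindDomain.HeightOneSpectrum IsDiscreteValuationRing

namespace FA.Examples

/-- The curve `11a3`. -/
def curve11a3 : WeierstrassCurve ℚ := ⟨0, -1, 1, 0, 0⟩

/-- The twist of `11a3` by `-11`. -/
def curve11a3Twist : WeierstrassCurve ℚ := ⟨0, 11, 1, 0, -333⟩

instance isElliptic_curve11a3 : curve11a3.IsElliptic :=
  ⟨isUnit_iff_ne_zero.mpr (by norm_num [curve11a3, Δ, b₂, b₄, b₆, b₈])⟩

instance isElliptic_curve11a3Twist : curve11a3Twist.IsElliptic :=
  ⟨isUnit_iff_ne_zero.mpr (by norm_num [curve11a3Twist, Δ, b₂, b₄, b₆, b₈])⟩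

/-- `11a3` has good reduction away from `11`. -/
theorem curve11a3_good (p : ℕ) [hp : Fact p.Prime] (h : p ≠ 11) :
    ∃ C : VariableChange ℚ_[p],
      HasGoodReduction ℤ_[p] (C • curve11a3.map (algebraMap ℚ ℚ_[p])) := by
  have e : curve11a3 = (⟨0, -1, 1, 0, 0⟩ : WeierstrassCurve ℤ).map (Int.castRingHom ℚ) := by
    ext <;> simp [curve11a3]
  rw [e]
  refine FA.Root.exists_good_of_not_dvd _ p fun hd => h ?_
  have hd' : p ∣ 11 := by simpa [Δ, b₂, b₄, b₆, b₈] using Int.natCast_dvd.mp hd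
  exact (Nat.prime_dvd_prime_iff_eq hp.out (by norm_num)).mp hd'

/-- `11a3` is semistable in the sense of `FA.Summary.modularity`. -/
theorem curve11a3_semistable (p : ℕ) [hp : Fact p.Prime] : ∃ C : VariableChange ℚ_[p],
    HasGoodReduction ℤ_[p] (C • curve11a3.map (algebraMap ℚ ℚ_[p])) ∨
      HasMultiplicativeReduction ℤ_[p] (C • curve11a3.map (algebraMap ℚ ℚ_[p])) := by
  refine FA.Root.exists_reduction_of_isSemistableAt _
    (FA.Root.isSemistableAt_of_rat _ (C := 1) ?_ ?_ ?_ ?_ ?_ ?_)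
  all_goals rw [one_smul]
  case refine_6 =>
    rintro ⟨h1, h2⟩
    norm_num [curve11a3, Δ, c₄, b₂, b₄, b₆, b₈] at h1 h2
    have h3 : (p : ℤ) ∣ 1 := by simpa using dvd_sub (h1.mul_left 3) (h2.mul_left 2)
    exact hp.out.ne_one (Nat.dvd_one.mp (by exact_mod_cast h3))
  all_goals simp [curve11a3, hp.out.ne_one]

/-- `FA.Summary.modularity` applies to `11a3`. -/
theorem curve11a3_modular :
    ∃ (N : ℕ) (f : CuspForm (CongruenceSubgroup.Gamma0 N) 2), Squarefree N ∧
      ∀ n : ℕ, (UpperHalfPlane.qExpansion 1 f).coeff n = (curve11a3.LFunction n : ℂ) :=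
  FA.Summary.modularity curve11a3 curve11a3_semistable

/-- The curve `11a1 : y² + y = x³ - x² - 10x - 20`. -/
def curve11a1 : WeierstrassCurve ℚ := ⟨0, -1, 1, -10, -20⟩

instance isElliptic_curve11a1 : curve11a1.IsElliptic :=
  ⟨isUnit_iff_ne_zero.mpr (by norm_num [curve11a1, Δ, b₂, b₄, b₆, b₈])⟩

/-- `11a1` has good reduction away from `11`. -/
theorem curve11a1_good (p : ℕ) [hp : Fact p.Prime] (h : p ≠ 11) :
    ∃ C : VariableChange ℚ_[p],
      HasGoodReduction ℤ_[p] (C • curve11a1.map (algebraMap ℚ ℚ_[p])) := by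
  have e : curve11a1 = (⟨0, -1, 1, -10, -20⟩ : WeierstrassCurve ℤ).map (Int.castRingHom ℚ) := by
    ext <;> simp [curve11a1]
  rw [e]
  refine FA.Root.exists_good_of_not_dvd _ p fun hd => h ?_
  have hd' : p ∣ 11 ^ 5 := by simpa [Δ, b₂, b₄, b₆, b₈] using Int.natCast_dvd.mp hd
  exact (Nat.prime_dvd_prime_iff_eq hp.out (by norm_num)).mp (hp.out.dvd_of_dvd_pow hd')

/-- `11a1` is semistable. -/
theorem curve11a1_semistable (p : ℕ) [hp : Fact p.Prime] : ∃ C : VariableChange ℚ_[p],
    HasGoodReduction ℤ_[p] (C • curve11a1.map (algebraMap ℚ ℚ_[p])) ∨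
      HasMultiplicativeReduction ℤ_[p] (C • curve11a1.map (algebraMap ℚ ℚ_[p])) := by
  refine FA.Root.exists_reduction_of_isSemistableAt _
    (FA.Root.isSemistableAt_of_rat _ (C := 1) ?_ ?_ ?_ ?_ ?_ ?_)
  all_goals rw [one_smul]
  case refine_6 =>
    rintro ⟨h1, h2⟩
    norm_num [curve11a1, Δ, c₄, b₂, b₄, b₆, b₈] at h1 h2
    have h1' : p ∣ 161051 := by exact_mod_cast h1
    have h2' : p ∣ 496 := by exact_mod_cast h2
    exact hp.out.ne_one (Nat.dvd_one.mp (by simpa using Nat.dvd_gcd h1' h2'))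
  all_goals simp [curve11a1, hp.out.ne_one]

/-- `FA.Summary.uniqueLevelEleven` applies to `11a1`: it has the L-function of `11a3`. -/
theorem curve11a1_uniqueLevel : curve11a1.LFunction = curve11a3.LFunction :=
  FA.Summary.uniqueLevelEleven (E := curve11a1) curve11a1_semistable fun p _ h =>
    curve11a1_good p h

/-- `c₄` and `Δ` of the twist are both divisible by `11`: the given equation is not semistable. -/
theorem curve11a3Twist_invariants :
    curve11a3Twist.c₄ = 16 * 11 ^ 2 ∧ curve11a3Twist.Δ = -11 ^ 7 := by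
  constructor <;> norm_num [curve11a3Twist, Δ, c₄, b₂, b₄, b₆, b₈]

theorem curve11a3Twist_j : curve11a3Twist.j = -4096 / 11 := by
  rw [WeierstrassCurve.j, Units.val_inv_eq_inv_val, coe_Δ', curve11a3Twist_invariants.1,
    curve11a3Twist_invariants.2]
  norm_num

/-- The twist meets the criterion of `FA.Summary.modularity_of_j`. -/
theorem curve11a3Twist_criterion (p : ℕ) [hp : Fact p.Prime] :
    (∃ C : VariableChange ℚ_[p],
      HasGoodReduction ℤ_[p] (C • curve11a3Twist.map (algebraMap ℚ ℚ_[p])) ∨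
        HasMultiplicativeReduction ℤ_[p] (C • curve11a3Twist.map (algebraMap ℚ ℚ_[p]))) ∨
      (5 ≤ p ∧ padicValRat p curve11a3Twist.j < 0) := by
  by_cases h : p = 11
  · subst h
    refine Or.inr ⟨by norm_num, ?_⟩
    rw [curve11a3Twist_j, padicValRat.div (by norm_num) (by norm_num), padicValRat.neg,
      show (4096 : ℚ) = ((4096 : ℕ) : ℚ) by norm_num, show (11 : ℚ) = ((11 : ℕ) : ℚ) by norm_num,
      padicValRat.of_nat, padicValRat.of_nat,
      padicValNat.eq_zero_of_not_dvd (show ¬ 11 ∣ 4096 by norm_num), padicValNat_self]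
    norm_num
  left
  have e : curve11a3Twist =
      (⟨0, 11, 1, 0, -333⟩ : WeierstrassCurve ℤ).map (Int.castRingHom ℚ) := by
    ext <;> simp [curve11a3Twist]
  rw [e]
  obtain ⟨C, hC⟩ := FA.Root.exists_good_of_not_dvd ⟨0, 11, 1, 0, -333⟩ p fun hd => h <| by
    have hd' : p ∣ 11 ^ 7 := by simpa [Δ, b₂, b₄, b₆, b₈] using Int.natCast_dvd.mp hd
    exact (Nat.prime_dvd_prime_iff_eq hp.out (by norm_num)).mp (hp.out.dvd_of_dvd_pow hd')
  exact ⟨C, Or.inl hC⟩

/-- `FA.Summary.modularity_of_j` applies to the twist. -/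
theorem curve11a3Twist_modular :
    ∃ (N : ℕ) (f : CuspForm (CongruenceSubgroup.Gamma0 N) 2) (S : Finset ℕ), 0 < N ∧
      (UpperHalfPlane.qExpansion 1 f).coeff 1 = 1 ∧ ∀ p : ℕ, p.Prime → p ∉ S →
        (UpperHalfPlane.qExpansion 1 f).coeff p = (curve11a3Twist.LFunction p : ℂ) :=
  FA.Summary.modularity_of_j curve11a3Twist curve11a3Twist_criterion

/-- `11a3` has a rational point of order five. -/
theorem curve11a3_point : ∃ P : curve11a3.toAffine.Point, addOrderOf P = 5 := by
  have ns : ∀ {x y : ℚ}, curve11a3.toAffine.Equation x y → curve11a3.toAffine.Nonsingular x y :=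
    fun h => Affine.equation_iff_nonsingular.mp h
  have h0 : curve11a3.toAffine.Nonsingular 0 0 :=
    ns (by rw [Affine.equation_iff]; norm_num [curve11a3])
  have h1 : curve11a3.toAffine.Nonsingular 1 (-1) :=
    ns (by rw [Affine.equation_iff]; norm_num [curve11a3])
  have h4 : curve11a3.toAffine.Nonsingular 0 (-1) :=
    ns (by rw [Affine.equation_iff]; norm_num [curve11a3])
  have dbl : ∀ {x y x' y' : ℚ} (h : curve11a3.toAffine.Nonsingular x y)
      (h' : curve11a3.toAffine.Nonsingular x' y') (hy : y ≠ curve11a3.toAffine.negY x y),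
      curve11a3.toAffine.addX x x (curve11a3.toAffine.slope x x y y) = x' →
      curve11a3.toAffine.addY x x y (curve11a3.toAffine.slope x x y y) = y' →
      2 • Affine.Point.some x y h = Affine.Point.some x' y' h' := fun h h' hy ex ey => by
    rw [two_nsmul, Affine.Point.add_self_of_Y_ne hy, Affine.Point.some.injEq]
    exact ⟨ex, ey⟩
  have e2 : 2 • Affine.Point.some 0 0 h0 = Affine.Point.some 1 (-1) h1 := by
    refine dbl h0 h1 ?_ ?_ ?_ <;>
      norm_num [curve11a3, Affine.slope, Affine.negY, Affine.addX, Affine.addY, Affine.negAddY]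
  have e4 : 2 • Affine.Point.some 1 (-1) h1 = Affine.Point.some 0 (-1) h4 := by
    refine dbl h1 h4 ?_ ?_ ?_ <;>
      norm_num [curve11a3, Affine.slope, Affine.negY, Affine.addX, Affine.addY, Affine.negAddY]
  refine ⟨Affine.Point.some 0 0 h0,
    haveI := Fact.mk (show Nat.Prime 5 by norm_num)
    addOrderOf_eq_prime ?_ (Affine.Point.some_ne_zero h0)⟩
  rw [show (5 : ℕ) = 2 * 2 + 1 from rfl, succ_nsmul, mul_nsmul, e2, e4,
    Affine.Point.add_of_Y_eq rfl (by norm_num [curve11a3, Affine.negY])]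

/-- With `FA.Torsion.mazur_torsion`: the torsion subgroup of `11a3` is `ℤ/5` or `ℤ/10`. -/
theorem curve11a3_torsion : ∃ n ∈ ({5, 10} : Finset ℕ),
    Nonempty (AddCommGroup.torsion curve11a3.toAffine.Point ≃+ ZMod n) := by
  obtain ⟨P, hP⟩ := curve11a3_point
  have hPT : P ∈ AddCommGroup.torsion curve11a3.toAffine.Point :=
    addOrderOf_pos_iff.mp (by rw [hP]; norm_num)
  obtain ⟨Q, hQ⟩ : ∃ Q : AddCommGroup.torsion curve11a3.toAffine.Point, addOrderOf Q = 5 :=
    ⟨⟨P, hPT⟩, by rw [AddSubgroup.addOrderOf_mk, hP]⟩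
  rcases FA.Torsion.mazur_torsion curve11a3 with ⟨n, hn, ⟨e⟩⟩ | ⟨m, hm, ⟨e⟩⟩
  · have h5 : 5 ∣ n := by
      simpa [hQ] using addOrderOf_dvd_natCard (e Q)
    simp only [Finset.mem_insert, Finset.mem_singleton] at hn
    exact ⟨n, by simp only [Finset.mem_insert, Finset.mem_singleton]; omega, ⟨e⟩⟩
  · have h5 : 5 ∣ 2 * (2 * m) := by
      simpa [hQ] using addOrderOf_dvd_natCard (e Q)
    simp only [Finset.mem_insert, Finset.mem_singleton] at hm
    omega

end FA.Examples

end
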