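import Fermat.Agent.Root.SummarySurjectiveAdelic
import Fermat.Agent.RT.Tate.Good
import Fermat.Agent.Root.Examples
import Mathlib.FieldTheory.Galois.Infinite
import Mathlib.LinearAlgebra.Matrix.GeneralLinearGroup.Defs

/-!
# `GL₂(ℤ/N)` as a Galois group over `ℚ`

For every `N` prime to `2 · 3 · 5 · 7` the division field of level `N` of the curve `11a3` has
Galois group `GL₂(ℤ/N)` over `ℚ`; in particular `GL₂(𝔽_p)` is a Galois group over `ℚ` for every
prime `p ≥ 11`.
-/

set_option autoImplicit false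
set_option linter.unusedSectionVars false
set_option linter.style.haveILetI false

noncomputable section

open WeierstrassCurve Matrix
open scoped WeierstrassCurve.Affine

local notation "Qb" => AlgebraicClosure ℚ
local notation "GQ" => AlgebraicClosure ℚ ≃ₐ[ℚ] AlgebraicClosure ℚ

namespace FA.PadicImage

variable (W : WeierstrassCurve ℤ) [(FA.Frob.ratCurve W).IsElliptic]

/-- Two points generating the `N`-torsion freely. -/
theorem exists_torsion_basis (N : ℕ) (hN : N ≠ 0) :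
    ∃ P Q : ((FA.Frob.ratCurve W)⁄Qb).Point, N • P = 0 ∧ N • Q = 0 ∧
      ∀ i j : ℤ, i • P + j • Q = 0 → (N : ℤ) ∣ i ∧ (N : ℤ) ∣ j := by
  induction N using Nat.recOnPosPrimePosCoprime with
  | prime_pow l n hl hn =>
    have := Fact.mk hl
    obtain ⟨B⟩ := FA.RT.Tate.exists_tateBasis (p := l) W
    refine ⟨B.φ n (Pi.single 0 1), B.φ n (Pi.single 1 1), B.nsmul_phi n _, B.nsmul_phi n _,
      fun i j h => ?_⟩
    rw [← map_zsmul, ← map_zsmul, ← map_add, B.ker] at h
    have h0 := h 0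
    have h1 := h 1
    simp at h0 h1
    exact ⟨(ZMod.intCast_zmod_eq_zero_iff_dvd _ _).mp h0,
      (ZMod.intCast_zmod_eq_zero_iff_dvd _ _).mp h1⟩
  | zero => exact absurd rfl hN
  | one =>
    exact ⟨0, 0, one_nsmul _, one_nsmul _, fun i j _ => ⟨one_dvd _, one_dvd _⟩⟩
  | coprime a b _ _ hab iha ihb =>
    obtain ⟨P, Q, hP, hQ, hPQ⟩ := iha (left_ne_zero_of_mul hN)
    obtain ⟨P', Q', hP', hQ', hPQ'⟩ := ihb (right_ne_zero_of_mul hN)
    refine ⟨P + P', Q + Q', ?_, ?_, fun i j h => ?_⟩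
    · rw [nsmul_add, mul_comm a b, mul_nsmul', hP, nsmul_zero, zero_add, mul_comm b a, mul_nsmul',
        hP', nsmul_zero]
    · rw [nsmul_add, mul_comm a b, mul_nsmul', hQ, nsmul_zero, zero_add, mul_comm b a, mul_nsmul',
        hQ', nsmul_zero]
    have hco : IsCoprime (a : ℤ) (b : ℤ) := Int.isCoprime_iff_nat_coprime.mpr (by simpa using hab)
    have ha : (a : ℤ) ∣ (b : ℤ) * i ∧ (a : ℤ) ∣ (b : ℤ) * j := by
      refine hPQ _ _ ?_
      calc ((b : ℤ) * i) • P + ((b : ℤ) * j) • Q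
          = (b : ℤ) • (i • (P + P') + j • (Q + Q')) -
            (i • ((b : ℤ) • P') + j • ((b : ℤ) • Q')) := by module
        _ = 0 := by
          rw [h, natCast_zsmul P', natCast_zsmul Q', hP', hQ', zsmul_zero, zsmul_zero, zsmul_zero,
            add_zero, sub_zero]
    have hb : (b : ℤ) ∣ (a : ℤ) * i ∧ (b : ℤ) ∣ (a : ℤ) * j := by
      refine hPQ' _ _ ?_
      calc ((a : ℤ) * i) • P' + ((a : ℤ) * j) • Q'
          = (a : ℤ) • (i • (P + P') + j • (Q + Q')) -
            (i • ((a : ℤ) • P) + j • ((a : ℤ) • Q)) := by module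
        _ = 0 := by
          rw [h, natCast_zsmul P, natCast_zsmul Q, hP, hQ, zsmul_zero, zsmul_zero, zsmul_zero,
            add_zero, sub_zero]
    push_cast
    exact ⟨hco.mul_dvd (hco.dvd_of_dvd_mul_left ha.1) (hco.symm.dvd_of_dvd_mul_left hb.1),
      hco.mul_dvd (hco.dvd_of_dvd_mul_left ha.2) (hco.symm.dvd_of_dvd_mul_left hb.2)⟩

/-- The `N`-torsion over the algebraic closure is free of rank two. -/
theorem nonempty_torsion_equiv {N : ℕ} [NeZero N] :
    Nonempty ((Fin 2 → ZMod N) ≃ₗ[ZMod N]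
      Submodule.torsionBy ℤ ((FA.Frob.ratCurve W)⁄Qb).Point (N : ℤ)) := by
  obtain ⟨P, Q, hP, hQ, hPQ⟩ := exists_torsion_basis W N (NeZero.ne N)
  let T := Submodule.torsionBy ℤ ((FA.Frob.ratCurve W)⁄Qb).Point (N : ℤ)
  have hmem : ∀ {R : ((FA.Frob.ratCurve W)⁄Qb).Point}, N • R = 0 → R ∈ T := fun {R} h =>
    (Submodule.mem_torsionBy_iff _ _).mpr (by rw [natCast_zsmul]; exact h)
  let v : Fin 2 → T := ![⟨P, hmem hP⟩, ⟨Q, hmem hQ⟩]
  let f : (Fin 2 → ZMod N) →ₗ[ZMod N] T := Fintype.linearCombination (ZMod N) v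
  have hinj : Function.Injective f := (injective_iff_map_eq_zero f).mpr fun c hc => by
    obtain ⟨i, hi⟩ := ZMod.intCast_surjective (c 0)
    obtain ⟨j, hj⟩ := ZMod.intCast_surjective (c 1)
    simp only [f, Fintype.linearCombination_apply, Fin.sum_univ_two, ← hi, ← hj,
      Int.cast_smul_eq_zsmul] at hc
    have h := congrArg Subtype.val hc
    obtain ⟨h0, h1⟩ := hPQ i j h
    funext k
    fin_cases k
    · exact hi ▸ (ZMod.intCast_zmod_eq_zero_iff_dvd _ _).mpr h0
    · exact hj ▸ (ZMod.intCast_zmod_eq_zero_iff_dvd _ _).mpr h1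
  have := FA.EC.finite_torsion (FA.Frob.ratCurve W) (NeZero.ne N)
  have hbij : Function.Bijective f := (Nat.bijective_iff_injective_and_card f).mpr ⟨hinj, by
    rw [FA.EC.natCard_torsion (FA.Frob.ratCurve W) (NeZero.ne N), Nat.card_fun, Nat.card_zmod,
      Nat.card_fin]⟩
  exact ⟨LinearEquiv.ofBijective f hbij⟩

end FA.PadicImage

namespace FA.GaloisRamification

variable (W : WeierstrassCurve ℤ) [(FA.Frob.ratCurve W).IsElliptic]

/-- Inertia at a good prime not dividing `N` fixes the `N`-torsion. -/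
theorem smul_eq_of_good {l : ℕ} (hl : l.Prime) (hgood : W.IsGoodPrimeFor l)
    {A : ValuationSubring Qb} (hA : A.LiesOverPrime l) {σ : GQ}
    (hσ : σ ∈ A.inertiaSubgroupIn ℚ) (N : ℕ) (hlN : ¬ l ∣ N)
    (x : ((FA.Frob.ratCurve W)⁄Qb).Point) (hx : N • x = 0) : σ • x = x := by
  induction N using Nat.recOnPosPrimePosCoprime generalizing x with
  | prime_pow p n hp hn =>
    have := Fact.mk hp
    exact FA.RT.Tate.smul_eq_of_good hl hA
      (fun h => hlN (h ▸ dvd_pow_self p (Nat.pos_iff_ne_zero.mp hn))) hgood hσ hx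
  | zero => exact absurd (dvd_zero l) hlN
  | one => rw [one_nsmul] at hx; rw [hx]; exact FA.Local.gal_smul_zero _ σ
  | coprime a b _ _ hab iha ihb =>
    have h1 : σ • (b • x) = b • x :=
      iha (fun h => hlN (h.mul_right b)) _ (by rw [← mul_nsmul', hx])
    have h2 : σ • (a • x) = a • x :=
      ihb (fun h => hlN (h.mul_left a)) _ (by rw [← mul_nsmul', mul_comm, hx])
    obtain ⟨u, v, huv⟩ := Int.isCoprime_iff_nat_coprime.mpr
      (show Nat.Coprime (a : ℤ).natAbs (b : ℤ).natAbs by simpa using hab)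
    have hxe : x = u • (a • x) + v • (b • x) := by
      rw [← natCast_zsmul x a, ← natCast_zsmul x b, smul_smul, smul_smul, ← add_zsmul, huv,
        one_zsmul]
    calc σ • x = σ • (u • (a • x) + v • (b • x)) := by rw [← hxe]
      _ = u • (σ • (a • x)) + v • (σ • (b • x)) := by
          rw [FA.Local.gal_smul_add, FA.RT.Tate.gal_smul_zsmul (W := W), FA.RT.Tate.gal_smul_zsmul (W := W)]
      _ = x := by rw [h1, h2, ← hxe]

/-- The division field: its group is `GL₂(ℤ/N)` when Galois induces every automorphism of the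
torsion, only automorphisms fixing the torsion fix it, and it is unramified at the good primes not
dividing `N`. -/
theorem exists_galois_gl2_unramified {N : ℕ} [NeZero N]
    (hsurj : ∀ φ : Submodule.torsionBy ℤ ((FA.Frob.ratCurve W)⁄Qb).Point (N : ℤ) ≃+
      Submodule.torsionBy ℤ ((FA.Frob.ratCurve W)⁄Qb).Point (N : ℤ),
      ∃ σ : GQ, ∀ x, σ • x.1 = (φ x).1) :
    ∃ K : IntermediateField ℚ Qb, FiniteDimensional ℚ K ∧ IsGalois ℚ K ∧
      Nonempty ((K ≃ₐ[ℚ] K) ≃* GL (Fin 2) (ZMod N)) ∧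
      (∀ σ : GQ, (∀ x ∈ K, σ x = x) →
        ∀ P : ((FA.Frob.ratCurve W)⁄Qb).Point, N • P = 0 → σ • P = P) ∧
      ∀ l : ℕ, l.Prime → ¬ l ∣ N → W.IsGoodPrimeFor l →
        ∀ A : ValuationSubring Qb, (l : Qb) ∈ A.nonunits →
          ∀ σ ∈ A.inertiaSubgroup ℚ, ∀ x ∈ K, (σ : GQ) x = x := by
  obtain ⟨e⟩ := FA.PadicImage.nonempty_torsion_equiv W (N := N)
  let T := Submodule.torsionBy ℤ ((FA.Frob.ratCurve W)⁄Qb).Point (N : ℤ)
  let r := Affine.Point.galoisRepModuleEnd (K := Qb) ℚ (FA.Frob.ratCurve W).toAffine N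
  let u : GQ →* (Module.End (ZMod N) T)ˣ := r.toHomUnits
  let c : (Module.End (ZMod N) T)ˣ ≃* GL (Fin 2) (ZMod N) :=
    (LinearMap.GeneralLinearGroup.congrLinearEquiv e.symm).trans
      Matrix.GeneralLinearGroup.toLin.symm
  let ρ : GQ →* GL (Fin 2) (ZMod N) := c.toMonoidHom.comp u
  have hρ : Function.Surjective ρ := c.surjective.comp fun g => by
    obtain ⟨σ, hσ⟩ :=
      hsurj (LinearMap.GeneralLinearGroup.generalLinearEquiv _ _ g).toAddEquiv
    exact ⟨σ, Units.ext (LinearMap.ext fun x => Subtype.ext (hσ x))⟩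
  have hker : ∀ σ : GQ, (∀ x : T, σ • x.1 = x.1) → σ ∈ ρ.ker := fun σ h => by
    rw [MonoidHom.mem_ker]
    show c (u σ) = 1
    rw [show u σ = 1 from Units.ext (LinearMap.ext fun x => Subtype.ext (h x)), map_one]
  have hopen : IsOpen (ρ.ker : Set GQ) := by
    obtain ⟨L, hL, h⟩ := FA.EC.galoisFactorsThroughFiniteLevel (FA.Frob.ratCurve W) (NeZero.ne N)
    refine Subgroup.isOpen_mono (H₁ := L.fixingSubgroup) (fun σ hσ => hker σ fun x => ?_)
      (IntermediateField.fixingSubgroup_isOpen L)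
    exact congrArg Subtype.val
      (LinearMap.congr_fun (h σ ((IntermediateField.mem_fixingSubgroup_iff _ _).mp hσ)) x)
  have : IsGalois ℚ Qb := FA.EC.isGalois_algebraicClosure
  let H : ClosedSubgroup GQ := ⟨ρ.ker, Subgroup.isClosed_of_isOpen _ hopen⟩
  have : H.Normal := ρ.normal_ker
  obtain ⟨hfin, hgal⟩ :=
    (InfiniteGalois.isOpen_and_normal_iff_finite_and_isGalois (IntermediateField.fixedField H.1)).mp
      (by rw [InfiniteGalois.fixingSubgroup_fixedField H]; exact ⟨hopen, ρ.normal_ker⟩)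
  refine ⟨IntermediateField.fixedField H.1, hfin, hgal,
    ⟨(InfiniteGalois.normalAutEquivQuotient H).symm.trans
      (QuotientGroup.quotientKerEquivOfSurjective ρ hρ)⟩, fun σ hσ P hP => ?_,
      fun l hl hlN hgood A hA σ hσ x hx => ?_⟩
  · have hσ' : σ ∈ H.1 := by
      rw [← InfiniteGalois.fixingSubgroup_fixedField H]
      exact (IntermediateField.mem_fixingSubgroup_iff _ _).mpr hσ
    have h1 : u σ = 1 := c.injective ((MonoidHom.mem_ker.mp hσ').trans (map_one c).symm)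
    exact congrArg Subtype.val (LinearMap.congr_fun (congrArg Units.val h1)
      (⟨P, (Submodule.mem_torsionBy_iff _ _).mpr (by rw [natCast_zsmul]; exact hP)⟩ : T))
  refine (IntermediateField.mem_fixedField_iff _ _).mp hx (σ : GQ) (hker _ fun y => ?_)
  refine smul_eq_of_good W hl hgood hA ?_ N hlN y.1 ?_
  · exact Subgroup.mem_map.mpr ⟨σ, hσ, rfl⟩
  · rw [← natCast_zsmul]; exact (Submodule.mem_torsionBy_iff _ _).mp y.2

end FA.GaloisRamification

namespace FA.PadicImage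

variable (W : WeierstrassCurve ℤ) [(FA.Frob.ratCurve W).IsElliptic]

/-- If every automorphism of the `N`-torsion comes from Galois, `GL₂(ℤ/N)` is a Galois group. -/
theorem exists_galois_gl2 {N : ℕ} [NeZero N]
    (hsurj : ∀ φ : Submodule.torsionBy ℤ ((FA.Frob.ratCurve W)⁄Qb).Point (N : ℤ) ≃+
      Submodule.torsionBy ℤ ((FA.Frob.ratCurve W)⁄Qb).Point (N : ℤ),
      ∃ σ : GQ, ∀ x, σ • x.1 = (φ x).1) :
    ∃ K : IntermediateField ℚ Qb, FiniteDimensional ℚ K ∧ IsGalois ℚ K ∧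
      Nonempty ((K ≃ₐ[ℚ] K) ≃* GL (Fin 2) (ZMod N)) := by
  obtain ⟨K, hfin, hgal, he, -⟩ := FA.GaloisRamification.exists_galois_gl2_unramified W hsurj
  exact ⟨K, hfin, hgal, he⟩

end FA.PadicImage

namespace FA.Summary

/-- **`GL₂(ℤ/N)` is a Galois group over `ℚ`** for every `N` prime to `2 · 3 · 5 · 7`. -/
theorem exists_galois_gl2_zmod {N : ℕ} (hN : N.Coprime 210) :
    ∃ K : IntermediateField ℚ (AlgebraicClosure ℚ), FiniteDimensional ℚ K ∧ IsGalois ℚ K ∧
      Nonempty ((K ≃ₐ[ℚ] K) ≃* GL (Fin 2) (ZMod N)) := by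
  have : NeZero N := ⟨fun h => by rw [h] at hN; norm_num at hN⟩
  let W : WeierstrassCurve ℤ := ⟨0, -1, 1, 0, 0⟩
  have e : FA.Frob.ratCurve W = FA.Examples.curve11a3 := by
    ext <;> simp [W, FA.Examples.curve11a3]
  have hE : (FA.Frob.ratCurve W).IsElliptic := e ▸ FA.Examples.isElliptic_curve11a3
  refine FA.PadicImage.exists_galois_gl2 W fun φ => ?_
  obtain ⟨σ, hσ⟩ := galoisSurjectiveTorsion_adelic (FA.Frob.ratCurve W)
    (fun p _ => by rw [e]; exact FA.Examples.curve11a3_semistable p) hN φ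
  exact ⟨σ, hσ⟩

/-- **`GL₂(𝔽_p)` is a Galois group over `ℚ`** for every prime `p ≥ 11`. -/
theorem exists_galois_gl2_prime {p : ℕ} (hp : p.Prime) (h11 : 11 ≤ p) :
    ∃ K : IntermediateField ℚ (AlgebraicClosure ℚ), FiniteDimensional ℚ K ∧ IsGalois ℚ K ∧
      Nonempty ((K ≃ₐ[ℚ] K) ≃* GL (Fin 2) (ZMod p)) :=
  exists_galois_gl2_zmod ((hp.coprime_iff_not_dvd).mpr fun h => by
    have hle := Nat.le_of_dvd (by norm_num) h
    interval_cases p <;> revert hp h <;> decide +kernel)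

end FA.Summary

end
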