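import Fermat.Agent.Root.SummarySurjectiveAdelic
import Fermat.Agent.Root.SummaryGaloisGL2
import Fermat.Agent.Root.SummaryTwists
import Fermat.Agent.Root.SummaryTwistCriterionAll

/-!
# Full image for curves with a semistable twist

Passing to a quadratic twist changes the Galois action on the torsion by a sign character. If the
twist induces every automorphism of the `N`-torsion so does the curve: an automorphism with the
opposite sign is corrected by the square of one acting as a square root of `-1`, whose sign is `1`.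
-/

set_option autoImplicit false
set_option linter.style.haveILetI false

noncomputable section

open WeierstrassCurve WeierstrassCurve.Affine
open FA.Frob (ratCurve)
open scoped WeierstrassCurve.Affine

local notation "Qb" => AlgebraicClosure ℚ
local notation "GQ" => AlgebraicClosure ℚ ≃ₐ[ℚ] AlgebraicClosure ℚ

namespace FA.Root

/-- An isomorphism of groups restricts to the `N`-torsion. -/
theorem exists_torsionBy_congr {A B : Type*} [AddCommGroup A] [AddCommGroup B] (e : A ≃+ B)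
    (N : ℤ) : ∃ eT : Submodule.torsionBy ℤ A N ≃+ Submodule.torsionBy ℤ B N,
      ∀ x, (eT x).1 = e x.1 :=
  ⟨{ toEquiv := e.toEquiv.subtypeEquiv fun Q => by
       simp only [Submodule.mem_torsionBy_iff]
       exact ⟨fun hQ => (map_zsmul e _ Q).symm.trans (by rw [hQ, map_zero]),
         fun hQ => e.injective (by rw [map_zsmul, map_zero]; exact hQ)⟩
     map_add' := fun a b => Subtype.ext (map_add e a.1 b.1) }, fun _ => rfl⟩

/-- The `N`-torsion has an automorphism whose square is `-1`. -/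
theorem exists_addEquiv_sq_eq_neg {E : WeierstrassCurve ℚ} [E.IsElliptic]
    {W : WeierstrassCurve ℤ} (hW : W.IsIntegralModelOf E) (N : ℕ) [NeZero N] :
    ∃ J : Submodule.torsionBy ℤ (E.toAffine⁄Qb).Point (N : ℤ) ≃+
        Submodule.torsionBy ℤ (E.toAffine⁄Qb).Point (N : ℤ), ∀ x, J (J x) = -x := by
  haveI := FA.Frob.ratCurve_isElliptic_of_Δ (FA.Frob.Δ_ne_zero_of_model hW)
  obtain ⟨b⟩ := FA.PadicImage.nonempty_torsion_equiv W (N := N)
  obtain ⟨e, -⟩ := exists_equiv_of_model hW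
  obtain ⟨eT, -⟩ := exists_torsionBy_congr e (N : ℤ)
  let J₀ : (Fin 2 → ZMod N) ≃+ (Fin 2 → ZMod N) :=
    { toFun := fun v => ![-v 1, v 0]
      invFun := fun v => ![v 1, -v 0]
      left_inv := fun v => by funext i; fin_cases i <;> simp
      right_inv := fun v => by funext i; fin_cases i <;> simp
      map_add' := fun v w => by funext i; fin_cases i <;> simp [add_comm] }
  let c := b.toAddEquiv.trans eT
  refine ⟨(c.symm.trans J₀).trans c, fun x => ?_⟩
  obtain ⟨v, rfl⟩ := c.surjective x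
  simp only [AddEquiv.trans_apply, AddEquiv.symm_apply_apply]
  rw [← map_neg]
  congr 1
  funext i
  fin_cases i <;> simp [J₀]

/-- If the twist by `d` induces every automorphism of its `N`-torsion and one of them squares to
`-1`, then so does the curve. -/
theorem exists_map_eq_of_twist (E : WeierstrassCurve ℚ) [E.IsElliptic] {d : ℚ} (hd : d ≠ 0)
    (N : ℤ)
    (hJ : ∃ J : Submodule.torsionBy ℤ ((FA.Twists.quadTwist E d).toAffine⁄Qb).Point N ≃+
        Submodule.torsionBy ℤ ((FA.Twists.quadTwist E d).toAffine⁄Qb).Point N, ∀ x, J (J x) = -x)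
    (hsurj : ∀ ψ : Submodule.torsionBy ℤ ((FA.Twists.quadTwist E d).toAffine⁄Qb).Point N ≃+
        Submodule.torsionBy ℤ ((FA.Twists.quadTwist E d).toAffine⁄Qb).Point N,
      ∃ σ : GQ, ∀ P, Affine.Point.map σ.toAlgHom P.1 = (ψ P).1)
    (φ : Submodule.torsionBy ℤ (E.toAffine⁄Qb).Point N ≃+
      Submodule.torsionBy ℤ (E.toAffine⁄Qb).Point N) :
    ∃ σ : GQ, ∀ P, Affine.Point.map σ.toAlgHom P.1 = (φ P).1 := by
  haveI := quadTwist_isElliptic E hd
  obtain ⟨s, e, hs, he⟩ := exists_twist_equiv_sqrt E hd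
  obtain ⟨eT, heT⟩ := exists_torsionBy_congr e N
  obtain ⟨J, hJ⟩ := hJ
  obtain ⟨τ, hτ⟩ := hsurj (((eT.trans φ).trans eT.symm).trans (AddEquiv.neg _))
  obtain ⟨j, hj⟩ := hsurj J
  have hsign : ∀ σ : GQ, σ s = s ∨ σ s = -s := fun σ => sq_eq_sq_iff_eq_or_eq_neg.1 (by
    rw [← map_pow, hs, σ.commutes])
  rcases hsign τ with h | h
  · refine ⟨τ * (j * j), fun P => ?_⟩
    obtain ⟨Q, rfl⟩ := eT.surjective P
    have hjs : (j * j) s = s := by
      rcases hsign j with h' | h' <;> simp [AlgEquiv.mul_apply, h']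
    rw [heT, (he _ _).1 (by rw [AlgEquiv.mul_apply, hjs, h]),
      show φ (eT Q) = eT (eT.symm (φ (eT Q))) from (eT.apply_symm_apply _).symm, heT]
    congr 1
    show (τ * (j * j)) • Q.1 = _
    rw [mul_smul, mul_smul, show j • Q.1 = (J Q).1 from hj Q,
      show j • (J Q).1 = (J (J Q)).1 from hj (J Q), hJ,
      show τ • (-Q).1 = _ from hτ (-Q)]
    simp
  · refine ⟨τ, fun P => ?_⟩
    obtain ⟨Q, rfl⟩ := eT.surjective P
    rw [heT, (he _ _).2 h, show φ (eT Q) = eT (eT.symm (φ (eT Q))) from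
      (eT.apply_symm_apply _).symm, heT, ← map_neg]
    congr 1
    rw [show τ • Q.1 = _ from hτ Q]
    simp

end FA.Root

namespace FA.Summary

/-- **Serre's independence theorem for twists**: if a quadratic twist of `E` is semistable then for
`N` prime to `2 · 3 · 5 · 7` Galois induces every automorphism of the `N`-torsion of `E`. -/
theorem galoisSurjectiveTorsion_adelic_twist (E : WeierstrassCurve ℚ) [E.IsElliptic] {d : ℚ}
    (hd : d ≠ 0)
    (h : ∀ p : ℕ, ∀ [Fact p.Prime], ∃ C : VariableChange ℚ_[p],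
      HasGoodReduction ℤ_[p] (C • (⟨0, 0, 0, -27 * (d ^ 2 * E.c₄), -54 * (d ^ 3 * E.c₆)⟩ :
          WeierstrassCurve ℚ).map (algebraMap ℚ ℚ_[p])) ∨
        HasMultiplicativeReduction ℤ_[p] (C • (⟨0, 0, 0, -27 * (d ^ 2 * E.c₄),
          -54 * (d ^ 3 * E.c₆)⟩ : WeierstrassCurve ℚ).map (algebraMap ℚ ℚ_[p])))
    [inst : DecidableEq (AlgebraicClosure ℚ)] {N : ℕ} (hN : N.Coprime 210)
    (φ : Submodule.torsionBy ℤ (E.toAffine⁄(AlgebraicClosure ℚ)).Point (N : ℤ) ≃+
      Submodule.torsionBy ℤ (E.toAffine⁄(AlgebraicClosure ℚ)).Point (N : ℤ)) :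
    ∃ σ : AlgebraicClosure ℚ ≃ₐ[ℚ] AlgebraicClosure ℚ, ∀ P,
      Affine.Point.map σ.toAlgHom P.1 = (φ P).1 := by
  obtain rfl : inst = instDecEqAlgebraicClosureRat := Subsingleton.elim _ _
  haveI := FA.Root.quadTwist_isElliptic E hd
  haveI : NeZero N := ⟨fun h0 => by rw [h0] at hN; norm_num at hN⟩
  obtain ⟨W, hW, -⟩ := FA.Root.exists_semistableModel (FA.Twists.quadTwist E d)
    fun q _ => FA.Root.isSemistableAt_of_reduction _ (h q).choose_spec
  exact FA.Root.exists_map_eq_of_twist E hd N (FA.Root.exists_addEquiv_sq_eq_neg hW N)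
    (galoisSurjectiveTorsion_adelic (FA.Twists.quadTwist E d) h hN) φ

/-- The same under the criterion by the `j`-invariant. -/
theorem galoisSurjectiveTorsion_adelic_of_j (E : WeierstrassCurve ℚ) [E.IsElliptic]
    (h : ∀ p : ℕ, ∀ [Fact p.Prime], (∃ C : VariableChange ℚ_[p],
      HasGoodReduction ℤ_[p] (C • E.map (algebraMap ℚ ℚ_[p])) ∨
        HasMultiplicativeReduction ℤ_[p] (C • E.map (algebraMap ℚ ℚ_[p]))) ∨
      padicValRat p E.j < 0)
    [inst : DecidableEq (AlgebraicClosure ℚ)] {N : ℕ} (hN : N.Coprime 210)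
    (φ : Submodule.torsionBy ℤ (E.toAffine⁄(AlgebraicClosure ℚ)).Point (N : ℤ) ≃+
      Submodule.torsionBy ℤ (E.toAffine⁄(AlgebraicClosure ℚ)).Point (N : ℤ)) :
    ∃ σ : AlgebraicClosure ℚ ≃ₐ[ℚ] AlgebraicClosure ℚ, ∀ P,
      Affine.Point.map σ.toAlgHom P.1 = (φ P).1 := by
  obtain ⟨d, hd, hs⟩ := exists_semistable_twist_of_j_all E h
  exact galoisSurjectiveTorsion_adelic_twist E hd hs hN φ

/-- A prime `p ≥ 11` is prime to `2 · 3 · 5 · 7`. -/
theorem _root_.FA.Root.coprime_two_hundred_ten {p : ℕ} (hp : p.Prime) (h11 : 11 ≤ p) :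
    p.Coprime 210 :=
  hp.coprime_iff_not_dvd.mpr fun hd => by
    have hle := Nat.le_of_dvd (by norm_num) hd
    interval_cases p <;> revert hp hd <;> decide +kernel

/-- **Serre surjectivity for twists**: if a quadratic twist of `E` is semistable then for every
prime `p ≥ 11` Galois induces every automorphism of the `p`-torsion of `E`. -/
theorem galoisSurjectiveTorsion_twist_all (E : WeierstrassCurve ℚ) [E.IsElliptic] {d : ℚ}
    (hd : d ≠ 0)
    (h : ∀ p : ℕ, ∀ [Fact p.Prime], ∃ C : VariableChange ℚ_[p],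
      HasGoodReduction ℤ_[p] (C • (⟨0, 0, 0, -27 * (d ^ 2 * E.c₄), -54 * (d ^ 3 * E.c₆)⟩ :
          WeierstrassCurve ℚ).map (algebraMap ℚ ℚ_[p])) ∨
        HasMultiplicativeReduction ℤ_[p] (C • (⟨0, 0, 0, -27 * (d ^ 2 * E.c₄),
          -54 * (d ^ 3 * E.c₆)⟩ : WeierstrassCurve ℚ).map (algebraMap ℚ ℚ_[p])))
    [inst : DecidableEq (AlgebraicClosure ℚ)] {p : ℕ} (hp : p.Prime) (h11 : 11 ≤ p)
    (φ : Submodule.torsionBy ℤ (E.toAffine⁄(AlgebraicClosure ℚ)).Point (p : ℤ) ≃+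
      Submodule.torsionBy ℤ (E.toAffine⁄(AlgebraicClosure ℚ)).Point (p : ℤ)) :
    ∃ σ : AlgebraicClosure ℚ ≃ₐ[ℚ] AlgebraicClosure ℚ, ∀ P,
      Affine.Point.map σ.toAlgHom P.1 = (φ P).1 :=
  galoisSurjectiveTorsion_adelic_twist E hd h (FA.Root.coprime_two_hundred_ten hp h11) φ

/-- The same under the criterion by the `j`-invariant. -/
theorem galoisSurjectiveTorsion_of_j_all (E : WeierstrassCurve ℚ) [E.IsElliptic]
    (h : ∀ p : ℕ, ∀ [Fact p.Prime], (∃ C : VariableChange ℚ_[p],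
      HasGoodReduction ℤ_[p] (C • E.map (algebraMap ℚ ℚ_[p])) ∨
        HasMultiplicativeReduction ℤ_[p] (C • E.map (algebraMap ℚ ℚ_[p]))) ∨
      padicValRat p E.j < 0)
    [inst : DecidableEq (AlgebraicClosure ℚ)] {p : ℕ} (hp : p.Prime) (h11 : 11 ≤ p)
    (φ : Submodule.torsionBy ℤ (E.toAffine⁄(AlgebraicClosure ℚ)).Point (p : ℤ) ≃+
      Submodule.torsionBy ℤ (E.toAffine⁄(AlgebraicClosure ℚ)).Point (p : ℤ)) :
    ∃ σ : AlgebraicClosure ℚ ≃ₐ[ℚ] AlgebraicClosure ℚ, ∀ P,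
      Affine.Point.map σ.toAlgHom P.1 = (φ P).1 :=
  galoisSurjectiveTorsion_adelic_of_j E h (FA.Root.coprime_two_hundred_ten hp h11) φ

/-- **Serre's `p`-adic surjectivity for twists.** -/
theorem galoisSurjectiveTorsion_pow_twist (E : WeierstrassCurve ℚ) [E.IsElliptic] {d : ℚ}
    (hd : d ≠ 0)
    (h : ∀ p : ℕ, ∀ [Fact p.Prime], ∃ C : VariableChange ℚ_[p],
      HasGoodReduction ℤ_[p] (C • (⟨0, 0, 0, -27 * (d ^ 2 * E.c₄), -54 * (d ^ 3 * E.c₆)⟩ :
          WeierstrassCurve ℚ).map (algebraMap ℚ ℚ_[p])) ∨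
        HasMultiplicativeReduction ℤ_[p] (C • (⟨0, 0, 0, -27 * (d ^ 2 * E.c₄),
          -54 * (d ^ 3 * E.c₆)⟩ : WeierstrassCurve ℚ).map (algebraMap ℚ ℚ_[p])))
    [inst : DecidableEq (AlgebraicClosure ℚ)] {p : ℕ} (hp : p.Prime) (h11 : 11 ≤ p) (n : ℕ)
    (φ : Submodule.torsionBy ℤ (E.toAffine⁄(AlgebraicClosure ℚ)).Point ((p : ℤ) ^ n) ≃+
      Submodule.torsionBy ℤ (E.toAffine⁄(AlgebraicClosure ℚ)).Point ((p : ℤ) ^ n)) :
    ∃ σ : AlgebraicClosure ℚ ≃ₐ[ℚ] AlgebraicClosure ℚ, ∀ P,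
      Affine.Point.map σ.toAlgHom P.1 = (φ P).1 := by
  revert φ
  rw [← Nat.cast_pow]
  exact galoisSurjectiveTorsion_adelic_twist E hd h
    ((FA.Root.coprime_two_hundred_ten hp h11).pow_left n)

/-- The same under the criterion by the `j`-invariant. -/
theorem galoisSurjectiveTorsion_pow_of_j (E : WeierstrassCurve ℚ) [E.IsElliptic]
    (h : ∀ p : ℕ, ∀ [Fact p.Prime], (∃ C : VariableChange ℚ_[p],
      HasGoodReduction ℤ_[p] (C • E.map (algebraMap ℚ ℚ_[p])) ∨
        HasMultiplicativeReduction ℤ_[p] (C • E.map (algebraMap ℚ ℚ_[p]))) ∨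
      padicValRat p E.j < 0)
    [inst : DecidableEq (AlgebraicClosure ℚ)] {p : ℕ} (hp : p.Prime) (h11 : 11 ≤ p) (n : ℕ)
    (φ : Submodule.torsionBy ℤ (E.toAffine⁄(AlgebraicClosure ℚ)).Point ((p : ℤ) ^ n) ≃+
      Submodule.torsionBy ℤ (E.toAffine⁄(AlgebraicClosure ℚ)).Point ((p : ℤ) ^ n)) :
    ∃ σ : AlgebraicClosure ℚ ≃ₐ[ℚ] AlgebraicClosure ℚ, ∀ P,
      Affine.Point.map σ.toAlgHom P.1 = (φ P).1 := by
  obtain ⟨d, hd, hs⟩ := exists_semistable_twist_of_j_all E h
  exact galoisSurjectiveTorsion_pow_twist E hd hs hp h11 n φ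

end FA.Summary

end
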