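import Fermat.Agent.Root.SummaryIsogenyPrimes
import Fermat.Agent.Root.SummaryOggShafarevich
import Fermat.Agent.Root.SummarySurjectiveTwist

/-!
# Serre: surjectivity at all large primes for a non-integral invariant

An elliptic curve over `ℚ` whose invariant has a pole has, after a quadratic twist, multiplicative
reduction there; for a large prime `p` inertia there gives a transvection of the irreducible
`p`-torsion, so the image of Galois is everything. No semistability is assumed.
-/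

set_option autoImplicit false
set_option linter.style.haveILetI false

noncomputable section

open WeierstrassCurve WeierstrassCurve.Affine Matrix FA.EC FA.Frob FA.RT
open scoped WeierstrassCurve.Affine

local notation "Qb" => AlgebraicClosure ℚ
local notation "GQ" => AlgebraicClosure ℚ ≃ₐ[ℚ] AlgebraicClosure ℚ

namespace FA.IsogenyPrimes

variable {q : ℕ} [hq : Fact q.Prime]

/-- The exponent of the pole in the discriminant of a multiplicative equation. -/
theorem padicValInt_Δ_pos {W : WeierstrassCurve ℤ} (hΔ : W.Δ ≠ 0) (hd : (q : ℤ) ∣ W.Δ) :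
    0 < padicValInt q W.Δ :=
  one_le_padicValNat_of_dvd (Int.natAbs_ne_zero.mpr hΔ) (Int.natCast_dvd.mp hd)

/-- A multiplicative prime with exponent prime to `p` and irreducibility give every matrix. -/
theorem exists_curveRep_eq_of_mult {p : ℕ} [hp : Fact p.Prime] {W : WeierstrassCurve ℤ}
    [(ratCurve W).IsElliptic] (hp2 : p ≠ 2) (hirr : W.ModRepIsIrreducible p)
    (hΔ : W.Δ ≠ 0) (hd : (q : ℤ) ∣ W.Δ) (hc : ¬ (q : ℤ) ∣ W.c₄)
    (hv : ¬ p ∣ padicValInt q W.Δ) (M : Matrix (Fin 2) (Fin 2) (ZMod p)) (hM : M.det ≠ 0) :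
    ∃ σ : GQ, curveRep p W σ = M := by
  classical
  obtain ⟨A, hA⟩ := FA.Deform.exists_liesOverPrime hq.out
  have hcard : p ∣ Nat.card ((A.inertiaSubgroupIn ℚ).map (curveRep p W).toHomUnits) := by
    by_contra h
    exact hv (FA.Ribet.dvd_padicValInt_of_not_dvd_card ⟨hΔ, hq.out, hd, hc, hA⟩ hp2 h)
  obtain ⟨u, hu⟩ := exists_prime_orderOf_dvd_card' p hcard
  obtain ⟨σ, -, hσ⟩ := Subgroup.mem_map.mp u.2
  have ho : orderOf ((curveRep p W).toHomUnits σ) = p := by rw [hσ, Subgroup.orderOf_coe, hu]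
  have hne : curveRep p W σ ≠ 1 := fun h => hp.out.ne_one (by
    rw [← ho, orderOf_eq_one_iff]
    exact Units.ext (by rw [MonoidHom.coe_toHomUnits, h, Units.val_one]))
  have hsq : (curveRep p W σ - 1) * (curveRep p W σ - 1) = 0 := by
    have hpow : curveRep p W σ ^ p = 1 := by
      rw [← MonoidHom.coe_toHomUnits, ← Units.val_pow_eq_pow_val,
        (orderOf_dvd_iff_pow_eq_one (x := (curveRep p W).toHomUnits σ)).mp (dvd_of_eq ho),
        Units.val_one]
    refine FA.Ribet.sq_eq_zero_of_pow_eq_zero (n := p - 1) ?_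
    rw [show p - 1 + 1 = p by have := hp.out.two_le; omega,
      sub_pow_char_of_commute p (Commute.one_right _), one_pow, hpow, sub_self]
  refine FA.Ribet.exists_eq_of_transvection _
    (fun l hl => FA.Ribet.exists_moves_line hirr hl) (fun a ha => ?_) hne hsq hM
  obtain ⟨g, hg⟩ := FA.TW.exists_cyclotomic_action hp.out (a := a.val) fun hd' => ha <| by
    rw [← ZMod.natCast_zmod_val a, (ZMod.natCast_eq_zero_iff _ _).mpr hd']
  exact ⟨g, by rw [det_curveRep W g a.val hg, ZMod.natCast_zmod_val]⟩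

end FA.IsogenyPrimes

namespace FA.Summary

/-- **Serre's surjectivity without semistability**: if the invariant of an elliptic curve over `ℚ`
is not integral, then for all sufficiently large primes `p` and every `n` Galois induces every
automorphism of the `p ^ n`-torsion. -/
theorem galoisSurjectiveTorsion_pow_large (E : WeierstrassCurve ℚ) [E.IsElliptic]
    (h : ∃ q : ℕ, q.Prime ∧ padicValRat q E.j < 0) [inst : DecidableEq (AlgebraicClosure ℚ)] :
    ∃ M : ℕ, ∀ p : ℕ, p.Prime → M < p → ∀ (n : ℕ)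
      (φ : Submodule.torsionBy ℤ (E.toAffine⁄(AlgebraicClosure ℚ)).Point ((p : ℤ) ^ n) ≃+
        Submodule.torsionBy ℤ (E.toAffine⁄(AlgebraicClosure ℚ)).Point ((p : ℤ) ^ n)),
      ∃ σ : AlgebraicClosure ℚ ≃ₐ[ℚ] AlgebraicClosure ℚ, ∀ P,
        Affine.Point.map σ.toAlgHom P.1 = (φ P).1 := by
  obtain rfl : inst = instDecEqAlgebraicClosureRat := Subsingleton.elim _ _
  obtain ⟨q, hq, hj⟩ := h
  haveI := Fact.mk hq
  obtain ⟨d, hd, W, hW, hbad, hgc⟩ := FA.OggShafarevich.exists_multiplicative_twist E hj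
  haveI := FA.Root.quadTwist_isElliptic E hd
  have hΔ : W.Δ ≠ 0 := FA.Frob.Δ_ne_zero_of_model hW
  haveI := FA.Frob.ratCurve_isElliptic_of_Δ hΔ
  obtain ⟨M, hM⟩ := noStableSubgroup_large (FA.Twists.quadTwist E d)
  refine ⟨M + padicValInt q W.Δ + 5, fun p hp hlt n φ => ?_⟩
  haveI := Fact.mk hp
  haveI : NeZero (p ^ n) := ⟨pow_ne_zero _ hp.ne_zero⟩
  have hv : ¬ p ∣ padicValInt q W.Δ := fun hdvd => by
    have := Nat.le_of_dvd (FA.IsogenyPrimes.padicValInt_Δ_pos hΔ hbad) hdvd
    omega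
  have hirr := FA.Root.Irred.modRepIsIrreducible_of_noStableSubgroup hW (hM p hp (by omega))
  refine FA.Root.exists_map_eq_of_twist E hd _ ?_
    (FA.Root.exists_map_eq_of_model hW _ (FA.PadicImage.exists_smul_eq_pow_of_base (by omega)
      (fun B M hM => ?_) n)) φ
  · have hJ := FA.Root.exists_addEquiv_sq_eq_neg hW (p ^ n)
    rwa [Nat.cast_pow] at hJ
  · obtain ⟨σ, hσ⟩ :=
      FA.IsogenyPrimes.exists_curveRep_eq_of_mult (by omega) hirr hΔ hbad hgc hv M hM
    exact ⟨σ, (FA.PadicImage.rep_map_toZMod B σ).trans hσ⟩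

/-- In particular every automorphism of the `p`-torsion, for all sufficiently large `p`. -/
theorem galoisSurjectiveTorsion_large (E : WeierstrassCurve ℚ) [E.IsElliptic]
    (h : ∃ q : ℕ, q.Prime ∧ padicValRat q E.j < 0) [inst : DecidableEq (AlgebraicClosure ℚ)] :
    ∃ M : ℕ, ∀ p : ℕ, p.Prime → M < p →
      ∀ φ : Submodule.torsionBy ℤ (E.toAffine⁄(AlgebraicClosure ℚ)).Point (p : ℤ) ≃+
        Submodule.torsionBy ℤ (E.toAffine⁄(AlgebraicClosure ℚ)).Point (p : ℤ),
      ∃ σ : AlgebraicClosure ℚ ≃ₐ[ℚ] AlgebraicClosure ℚ, ∀ P,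
        Affine.Point.map σ.toAlgHom P.1 = (φ P).1 := by
  obtain ⟨M, hM⟩ := galoisSurjectiveTorsion_pow_large E h
  refine ⟨M, fun p hp hlt => ?_⟩
  have := hM p hp hlt 1
  rwa [pow_one] at this

end FA.Summary

end
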