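import Fermat.Agent.Root.SummaryRibet
import Fermat.Agent.Ribet.SerreMore

/-!
# Discriminants of semistable curves in Mathlib's language

For an integral equation with `Δ` and `c₄` without a common prime and a prime `p ≥ 11` other than
`13`, the product of the primes at which the exponent of `Δ` is prime to `p` is at least `11` and
is not `13`. In particular `Δ` is not `± t ^ p`.
-/

set_option autoImplicit false
set_option linter.style.haveILetI false

noncomputable section

open WeierstrassCurve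

namespace FA.Root

/-- The level of Serre's recipe carries a form, so it is at least `11` and is not `13`. -/
theorem discriminantPrimes_of_irreducible {W : WeierstrassCurve ℤ} (hΔ : W.Δ ≠ 0)
    (hW : W.IsSemistableModel) {p : ℕ} [Fact p.Prime] (hp2 : p ≠ 2)
    (hirr : W.ModRepIsIrreducible p) :
    11 ≤ (∏ q ∈ W.Δ.natAbs.primeFactors.filter (fun q => ¬ p ∣ padicValInt q W.Δ), q) ∧
      (∏ q ∈ W.Δ.natAbs.primeFactors.filter (fun q => ¬ p ∣ padicValInt q W.Δ), q) ≠ 13 := by
  set S := W.Δ.natAbs.primeFactors.filter (fun q => ¬ p ∣ padicValInt q W.Δ) with hS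
  have hprime : ∀ q ∈ S, q.Prime := fun q hq =>
    Nat.prime_of_mem_primeFactors (Finset.mem_filter.mp hq).1
  have hsq : Squarefree (∏ q ∈ S, q) := FA.Theta.squarefree_prod_primes S hprime
  obtain ⟨N, hN, f, -, hf, -⟩ := exists_level_recipe hp2 hΔ hW hirr (squarefree_badProd W)
    (isResiduallyModularOfLevel_of_modular Fact.out (FA.SS.semistableModular W hΔ hW))
  rw [← hS] at hN
  have hsqN : Squarefree N := hsq.squarefree_of_dvd hN
  have : NeZero N := ⟨hsqN.ne_zero⟩
  by_contra hsmall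
  refine hf.ne_zero (FA.Ribet.cuspForm_eq_zero_of_genusFormula ?_ f)
  rcases not_and_or.mp hsmall with hlt | hne
  · have hle : N < 11 := (Nat.le_of_dvd (Nat.pos_of_ne_zero hsq.ne_zero) hN).trans_lt (by omega)
    have hN0 : N ≠ 0 := hsqN.ne_zero
    have h4 : ¬ 2 * 2 ∣ N := fun hd => Nat.prime_two.not_isUnit (hsqN 2 hd)
    have h9 : ¬ 3 * 3 ∣ N := fun hd => Nat.prime_three.not_isUnit (hsqN 3 hd)
    interval_cases N
    all_goals first
      | omega
      | exact FA.Ribet.genusFormula_7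
      | exact FA.Ribet.genusFormula_eq_zero (Or.inl rfl) (Nat.dvd_of_mod_eq_zero rfl)
      | exact FA.Ribet.genusFormula_eq_zero (Or.inr rfl) (Nat.dvd_of_mod_eq_zero rfl)
  · rw [not_not.mp hne] at hN
    rcases (Nat.dvd_prime (by norm_num)).mp hN with rfl | rfl
    · exact FA.Ribet.genusFormula_eq_zero (Or.inl rfl) (one_dvd 6)
    · exact FA.Ribet.genusFormula_13

/-- Hence the discriminant is not, up to sign, a `p`-th power. -/
theorem discriminant_ne_pow_of_irreducible {W : WeierstrassCurve ℤ} (hΔ : W.Δ ≠ 0)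
    (hW : W.IsSemistableModel) {p : ℕ} [Fact p.Prime] (hp2 : p ≠ 2)
    (hirr : W.ModRepIsIrreducible p) (t : ℤ) : W.Δ.natAbs ≠ t.natAbs ^ p := by
  intro h
  have h1 := (discriminantPrimes_of_irreducible hΔ hW hp2 hirr).1
  have hempty : W.Δ.natAbs.primeFactors.filter (fun q => ¬ p ∣ padicValInt q W.Δ) = ∅ := by
    refine Finset.filter_eq_empty_iff.mpr fun q hq hv => hv ?_
    have := Fact.mk (Nat.prime_of_mem_primeFactors hq)
    rw [padicValInt, h, padicValNat.pow _ _]
    exact dvd_mul_right p _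
  rw [hempty, Finset.prod_empty] at h1
  omega

/-- Hence some exponent in the discriminant is prime to `p`. -/
theorem exists_exponent_not_dvd {W : WeierstrassCurve ℤ} (hΔ : W.Δ ≠ 0)
    (hW : W.IsSemistableModel) {p : ℕ} [Fact p.Prime] (hp2 : p ≠ 2)
    (hirr : W.ModRepIsIrreducible p) :
    ∃ q : ℕ, q.Prime ∧ (q : ℤ) ∣ W.Δ ∧ ¬ p ∣ padicValInt q W.Δ := by
  by_contra hall
  push Not at hall
  have h1 := (discriminantPrimes_of_irreducible hΔ hW hp2 hirr).1
  rw [show W.Δ.natAbs.primeFactors.filter (fun q => ¬ p ∣ padicValInt q W.Δ) = ∅ from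
      Finset.filter_eq_empty_iff.mpr fun q hq => not_not.mpr (by
        obtain ⟨hqp, hd, -⟩ := Nat.mem_primeFactors.mp hq
        exact hall q hqp (Int.natCast_dvd.mpr hd)),
    Finset.prod_empty] at h1
  omega

end FA.Root

namespace FA.Summary

/-- **The primes with exponent prime to `p` in the discriminant** of a semistable equation have
product at least `11` and different from `13`. -/
theorem discriminantPrimes (W : WeierstrassCurve ℤ) (hΔ : W.Δ ≠ 0)
    (hW : ∀ q : ℕ, q.Prime → (q : ℤ) ∣ W.Δ → ¬ (q : ℤ) ∣ W.c₄)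
    {p : ℕ} (hp : p.Prime) (h11 : 11 ≤ p) (h13 : p ≠ 13) :
    11 ≤ (∏ q ∈ W.Δ.natAbs.primeFactors.filter (fun q => ¬ p ∣ padicValInt q W.Δ), q) ∧
      (∏ q ∈ W.Δ.natAbs.primeFactors.filter (fun q => ¬ p ∣ padicValInt q W.Δ), q) ≠ 13 := by
  haveI := Fact.mk hp
  exact FA.Root.discriminantPrimes_of_irreducible hΔ hW (by omega)
    (FA.Ribet.modRepIsIrreducible_of_semistable hΔ hW hp h11 h13)

/-- **The discriminant of a semistable equation is not, up to sign, a `p`-th power.** -/
theorem discriminant_ne_pow (W : WeierstrassCurve ℤ) (hΔ : W.Δ ≠ 0)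
    (hW : ∀ q : ℕ, q.Prime → (q : ℤ) ∣ W.Δ → ¬ (q : ℤ) ∣ W.c₄)
    {p : ℕ} (hp : p.Prime) (h11 : 11 ≤ p) (h13 : p ≠ 13) (t : ℤ) :
    W.Δ.natAbs ≠ t.natAbs ^ p := by
  haveI := Fact.mk hp
  exact FA.Root.discriminant_ne_pow_of_irreducible hΔ hW (by omega)
    (FA.Ribet.modRepIsIrreducible_of_semistable hΔ hW hp h11 h13) t

end FA.Summary

end
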