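import Fermat.Agent.Two.CurveResidual
import Fermat.Agent.Local.Minkowski
import Fermat.Agent.Ribet.SerreSurjective

/-!
# Irreducible `2`-torsion of a semistable curve is everything

Without an element of order two in the image, `Δ` is a square, so `a₁` is odd: otherwise `Δ ≡ 5`
modulo `8`. Then inertia acts trivially at every prime (at `2` it fixes the root of the `2`-division
polynomial of unit residue), and Minkowski makes the image trivial.
-/

set_option autoImplicit false
set_option linter.unusedSectionVars false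

noncomputable section

open Matrix WeierstrassCurve FA.EC FA.Frob FA.RT FA.Local FA.LocalDef
open scoped WeierstrassCurve.Affine

namespace FA.Two

local notation "Qb" => AlgebraicClosure ℚ
local notation "GQ" => AlgebraicClosure ℚ ≃ₐ[ℚ] AlgebraicClosure ℚ
local notation "M2" k:max => Matrix (Fin 2) (Fin 2) k

lemma sgn_eq_zero_of_not_transp {M : M2 (ZMod 2)} (hd : M.det ≠ 0) (h : ¬ IsTransp M) :
    sgn M = 0 := by
  rcases six_cases hd with rfl | rfl | rfl | rfl | rfl | rfl <;> revert h <;> decide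

variable {W : WeierstrassCurve ℤ} [(ratCurve W).IsElliptic]

/-- Without a transposition the discriminant is a square. -/
theorem isSquare_Δ_of_no_transp (h : ∀ σ : GQ, ¬ IsTransp (curveRep 2 W σ)) : IsSquare W.Δ := by
  obtain ⟨r, hr⟩ := (InfiniteGalois.mem_range_algebraMap_iff_fixed (deltaRoot W)).mpr fun σ =>
    (apply_deltaRoot W σ).1 (sgn_eq_zero_of_not_transp (det_curveRep_two_ne W σ) (h σ))
  refine Rat.isSquare_intCast_iff.mp ⟨r, (algebraMap ℚ Qb).injective ?_⟩
  rw [map_mul, hr, ← sq, deltaRoot_sq, map_intCast]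

omit [(ratCurve W).IsElliptic] in
/-- A semistable equation with square discriminant has odd `a₁`. -/
theorem not_dvd_a₁_of_isSquare (hW : W.IsSemistableModel) (hsq : IsSquare W.Δ) :
    ¬ (2 : ℤ) ∣ W.a₁ := by
  rintro ⟨c, hc⟩
  obtain ⟨d, hd | hd⟩ := Int.even_or_odd' W.a₃
  · refine hW 2 Nat.prime_two ?_ ?_
    all_goals rw [← ZMod.intCast_zmod_eq_zero_iff_dvd]
    all_goals simp only [WeierstrassCurve.Δ, WeierstrassCurve.c₄, WeierstrassCurve.b₂,
      WeierstrassCurve.b₄, WeierstrassCurve.b₆, WeierstrassCurve.b₈, hc, hd]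
    all_goals push_cast
    all_goals simp [show (2 : ZMod 2) = 0 by decide, show (4 : ZMod 2) = 0 by decide,
      show (8 : ZMod 2) = 0 by decide, show (24 : ZMod 2) = 0 by decide]
  · obtain ⟨r, hr⟩ := hsq
    have h8 : (W.Δ : ZMod 8) = 5 := by
      simp only [WeierstrassCurve.Δ, WeierstrassCurve.b₂, WeierstrassCurve.b₄,
        WeierstrassCurve.b₆, WeierstrassCurve.b₈, hc, hd]
      push_cast
      ring_nf
      reduce_mod_char
    rw [hr, Int.cast_mul] at h8
    exact (show ∀ z : ZMod 8, z * z ≠ 5 by decide) _ h8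

/-- Inertia at `2` has no element of order three when `a₁` is odd. -/
theorem curveRep_two_inertia (ha : ¬ (2 : ℤ) ∣ W.a₁) {A : ValuationSubring Qb}
    (hA : A.LiesOverPrime 2) {σ : GQ} (hσ : σ ∈ A.inertiaSubgroupIn ℚ)
    (h : ¬ IsTransp (curveRep 2 W σ)) : curveRep 2 W σ = 1 := by
  by_contra h1
  have := res_charP Nat.prime_two hA
  set X : (Fin 2 → ZMod 2) → Qb := fun v => 4 * eRoot W v with hX
  have hcubic : ∀ v, v ≠ 0 →
      X v ^ 3 + (W.b₂ : Qb) * X v ^ 2 + 8 * (W.b₄ : Qb) * X v + 16 * (W.b₆ : Qb) = 0 :=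
    fun v hv => by simp only [hX]; linear_combination 16 * eRoot_eq W hv
  have hI : ∀ z : ℤ, A.valuation (z : Qb) ≤ 1 := fun z => FA.Local.intCast_le_one z
  have hN : ∀ k : ℕ, A.valuation (k : Qb) ≤ 1 := fun k => FA.Local.natCast_le_one k
  have hint : ∀ v, v ≠ 0 → A.valuation (X v) ≤ 1 := fun v hv => by
    by_contra hgt
    push Not at hgt
    have h0 := hcubic v hv
    set x := X v
    have hx2 : 1 ≤ A.valuation x ^ 2 := one_le_pow_of_one_le' hgt.le 2
    have hlow : A.valuation
        ((W.b₂ : Qb) * x ^ 2 + 8 * (W.b₄ : Qb) * x + 16 * (W.b₆ : Qb)) ≤ A.valuation x ^ 2 := by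
      refine A.valuation.map_add_le (A.valuation.map_add_le ?_ ?_) ?_
      · rw [map_mul, map_pow]; exact mul_le_of_le_one_left' (hI _)
      · rw [map_mul, pow_two]
        exact mul_le_mul' ((map_mul_le_one (hN 8) (hI _)).trans hgt.le) le_rfl
      · exact (map_mul_le_one (hN 16) (hI _)).trans hx2
    rw [show (W.b₂ : Qb) * x ^ 2 + 8 * (W.b₄ : Qb) * x + 16 * (W.b₆ : Qb) = -x ^ 3 by
      linear_combination h0, Valuation.map_neg, map_pow] at hlow
    exact absurd hlow (not_le.mpr (pow_lt_pow_right₀ hgt (by norm_num)))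
  have hres : ∀ v, v ≠ 0 → res A (X (curveRep 2 W σ *ᵥ v)) = res A (X v) := fun v hv => by
    rw [← res_inertia hσ (hint v hv)]
    simp only [hX, eRoot_mulVec, map_mul, map_ofNat]
  set a := X ![1, 0] with haX
  set b := X ![0, 1] with hbX
  set c := X ![1, 1] with hcX
  obtain ⟨eab, eac⟩ : res A b = res A a ∧ res A c = res A a := by
    have e10 := hres ![1, 0] (by decide)
    have e01 := hres ![0, 1] (by decide)
    rcases six_cases (det_curveRep_two_ne W σ) with e | e | e | e | e | e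
    · exact absurd e h1
    · rw [e, show !![0, 1; 1, 1] *ᵥ ![(1 : ZMod 2), 0] = ![0, 1] by decide] at e10
      rw [e, show !![0, 1; 1, 1] *ᵥ ![(0 : ZMod 2), 1] = ![1, 1] by decide] at e01
      exact ⟨e10, e01.trans e10⟩
    · rw [e, show !![1, 1; 1, 0] *ᵥ ![(1 : ZMod 2), 0] = ![1, 1] by decide] at e10
      rw [e, show !![1, 1; 1, 0] *ᵥ ![(0 : ZMod 2), 1] = ![1, 0] by decide] at e01
      exact ⟨e01.symm, e10⟩
    all_goals exact absurd (e ▸ (by decide)) h
  have ea := hcubic ![1, 0] (by decide)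
  have eb := hcubic ![0, 1] (by decide)
  have ec := hcubic ![1, 1] (by decide)
  have hne : ∀ v w : Fin 2 → ZMod 2, v ≠ 0 → w ≠ 0 → v ≠ w → X v - X w ≠ 0 :=
    fun v w hv hw hvw e => hvw (eRoot_injective W hv hw
      (mul_left_cancel₀ (by norm_num : (4 : Qb) ≠ 0) (sub_eq_zero.mp e)))
  have nab := hne ![1, 0] ![0, 1] (by decide) (by decide) (by decide)
  have nac := hne ![1, 0] ![1, 1] (by decide) (by decide) (by decide)
  have nbc := hne ![0, 1] ![1, 1] (by decide) (by decide) (by decide)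
  rw [← haX, ← hbX] at nab
  rw [← haX, ← hcX] at nac
  rw [← hbX, ← hcX] at nbc
  rw [← haX] at ea
  rw [← hbX] at eb
  rw [← hcX] at ec
  have dab : a ^ 2 + a * b + b ^ 2 + (W.b₂ : Qb) * (a + b) + 8 * (W.b₄ : Qb) = 0 :=
    mul_left_cancel₀ nab (by rw [mul_zero]; linear_combination ea - eb)
  have dac : a ^ 2 + a * c + c ^ 2 + (W.b₂ : Qb) * (a + c) + 8 * (W.b₄ : Qb) = 0 :=
    mul_left_cancel₀ nac (by rw [mul_zero]; linear_combination ea - ec)
  have hsum : a + b + c = -(W.b₂ : Qb) :=
    eq_neg_of_add_eq_zero_left (mul_left_cancel₀ nbc (by rw [mul_zero]; linear_combination dab - dac))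
  have hsym : a * b + a * c + b * c = 8 * (W.b₄ : Qb) := by
    linear_combination -dab + (a + b) * hsum
  have va : A.valuation a ≤ 1 := hint _ (by decide)
  have vb : A.valuation b ≤ 1 := hint _ (by decide)
  have vc : A.valuation c ≤ 1 := hint _ (by decide)
  have h3 : (3 : LocalDef.Res A) = 1 := by
    rw [show (3 : LocalDef.Res A) = 1 + 2 by norm_num, CharTwo.two_eq_zero, add_zero]
  have hb2 : res A (-(W.b₂ : Qb)) = 1 := by
    obtain ⟨k, hk⟩ : Odd (-W.b₂) := by
      obtain ⟨k, hk⟩ := Int.not_even_iff_odd.mp (fun hev => ha (even_iff_two_dvd.mp hev))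
      exact ⟨-(2 * k ^ 2 + 2 * k + 2 * W.a₂) - 1, by rw [WeierstrassCurve.b₂, hk]; ring⟩
    rw [← Int.cast_neg, hk, res_congr (y := (1 : Qb)) (by simp), res_one]
    push_cast
    rw [add_sub_cancel_right]
    rw [map_mul]
    exact lt_of_le_of_lt (mul_le_of_le_one_right' (hI k)) (by exact_mod_cast valuation_p_lt_one hA)
  have hsum' := congrArg (res A) hsum
  rw [res_add (A.valuation.map_add_le va vb) vc, res_add va vb, eab, eac, hb2,
    show res A a + res A a + res A a = 3 * res A a by ring, h3, one_mul] at hsum'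
  have hsym' := congrArg (res A) hsym
  rw [res_add (A.valuation.map_add_le (map_mul_le_one va vb) (map_mul_le_one va vc))
    (map_mul_le_one vb vc), res_add (map_mul_le_one va vb) (map_mul_le_one va vc),
    res_mul va vb, res_mul va vc, res_mul vb vc, eab, eac, hsum',
    res_mul (x := (8 : Qb)) (hN 8) (hI _), show (8 : Qb) = ((8 : ℕ) : Qb) by norm_num,
    res_natCast, show ((8 : ℕ) : LocalDef.Res A) = 2 * 4 by norm_num, CharTwo.two_eq_zero] at hsym'
  simp only [mul_one, zero_mul] at hsym'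
  exact one_ne_zero (α := LocalDef.Res A) (by linear_combination hsym' - h3)

/-- **An irreducible image on the `2`-torsion of a semistable equation is everything.** -/
theorem exists_curveRep_two_eq (hΔ : W.Δ ≠ 0) (hW : W.IsSemistableModel)
    (hirr : W.ModRepIsIrreducible 2) {M : M2 (ZMod 2)} (hM : M.det ≠ 0) :
    ∃ σ : GQ, curveRep 2 W σ = M := by
  by_cases hT : ∃ c : GQ, IsTransp (curveRep 2 W c)
  · obtain ⟨c, hc⟩ := hT
    exact surj_curveRep hirr hc hM
  exfalso
  push Not at hT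
  have ha := not_dvd_a₁_of_isSquare hW (isSquare_Δ_of_no_transp hT)
  obtain ⟨L, hL, hLfix⟩ :
      ∃ L : IntermediateField ℚ Qb, FiniteDimensional ℚ L ∧
        ∀ σ : GQ, (∀ x ∈ L, σ x = x) → σ ∈ (curveRep 2 W).ker := by
    obtain ⟨L, hL, h⟩ := FA.EC.galoisFactorsThroughFiniteLevel (ratCurve W) (n := 2) two_ne_zero
    exact ⟨L, hL, fun σ hσ => MonoidHom.mem_ker.mpr ((curveRep_eq_one_iff W σ).mpr fun x =>
      LinearMap.congr_fun (h σ hσ) x)⟩
  have htop : (curveRep 2 W).ker = ⊤ := eq_top_of_inertia_le _ L hLfix fun q hq => by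
    obtain ⟨A, hA⟩ := FA.Deform.exists_liesOverPrime hq
    refine ⟨A, hA, fun σ hσ => MonoidHom.mem_ker.mpr ?_⟩
    rcases eq_or_ne q 2 with rfl | hq2
    · exact curveRep_two_inertia ha hA hσ (hT σ)
    by_cases hbad : (q : ℤ) ∣ W.Δ
    · refine (unip_cases (det_curveRep_two_ne W σ) ?_).resolve_right (hT σ)
      rw [pow_two]
      exact curveRep_unipotent W hΔ hW hq hq2 hbad hA hσ
    · exact curveRep_unramified W hq hq2 hbad hA hσ
  obtain ⟨g, hg⟩ := FA.Ribet.exists_moves_line hirr (l := ![1, 0]) (by decide)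
  refine hg 1 ?_
  rw [MonoidHom.mem_ker.mp (htop ▸ Subgroup.mem_top g), one_mulVec, one_smul]

end FA.Two

end
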