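import Fermat.Agent.Root.SummarySurjectivePow
import Fermat.Agent.Root.SurjectiveTwo
import Fermat.Agent.Ribet.Line

/-!
# Serre: irreducible torsion of a semistable curve is everything

For a semistable elliptic curve over `ℚ` and every prime `p`, if no subgroup of order `p` is stable
under Galois then Galois induces every automorphism of the `p`-torsion, and for `p ≥ 5` of the
`p ^ n`-torsion. For odd `p` some bad prime has exponent prime to `p` in the discriminant, since
level lowering would otherwise give a form of level one; there inertia contains a transvection.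
-/

set_option autoImplicit false
set_option linter.style.haveILetI false
set_option linter.unusedSectionVars false

noncomputable section

open WeierstrassCurve WeierstrassCurve.Affine Matrix FA.EC FA.Frob FA.RT
open scoped WeierstrassCurve.Affine

local notation "Qb" => AlgebraicClosure ℚ
local notation "GQ" => AlgebraicClosure ℚ ≃ₐ[ℚ] AlgebraicClosure ℚ
local notation "M2" => Matrix (Fin 2) (Fin 2)

namespace FA.Root.Irred

section Model

variable {E : WeierstrassCurve ℚ} {W : WeierstrassCurve ℤ}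

/-- Without a stable subgroup of order `p` the `p`-torsion of a model is irreducible. -/
theorem modRepIsIrreducible_of_noStableSubgroup [E.IsElliptic] (hW : W.IsIntegralModelOf E)
    {p : ℕ} [hp : Fact p.Prime]
    (hno : ∀ G : AddSubgroup (E.toAffine⁄Qb).Point, Nat.card G = p →
      ¬ ∀ σ : GQ, ∀ P ∈ G, Affine.Point.map σ.toAlgHom P ∈ G) :
    W.ModRepIsIrreducible p := by
  haveI := FA.Frob.ratCurve_isElliptic_of_Δ (FA.Frob.Δ_ne_zero_of_model hW)
  by_contra hred
  obtain ⟨l, hl, hst⟩ := FA.Ribet.exists_eigenvector W hred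
  obtain ⟨e, he⟩ := exists_equiv_of_model hW
  obtain ⟨x, rfl⟩ := (torsBasis (p := p) W).equivFun.surjective l
  refine hno (AddSubgroup.zmultiples (e x.1)) ?_ fun σ P hP => ?_
  · rw [Nat.card_zmultiples]
    refine addOrderOf_eq_prime ?_ fun h0 => hl ?_
    · rw [← map_nsmul, nsmul_torsion x, map_zero]
    · rw [show x = 0 from Subtype.ext (e.injective (h0.trans (map_zero e).symm)), map_zero]
  obtain ⟨k, rfl⟩ := AddSubgroup.mem_zmultiples_iff.mp hP
  rw [map_zsmul, ← he]
  refine AddSubgroup.zsmul_mem _ ?_ k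
  obtain ⟨a, ha⟩ := hst σ
  rw [toMatrix_mulVec, ← map_smul] at ha
  have e1 : σ • x.1 = a.val • x.1 := by
    have h1 := congrArg Subtype.val ((torsBasis (p := p) W).equivFun.injective ha)
    rw [← ZMod.natCast_zmod_val a, Nat.cast_smul_eq_nsmul] at h1
    exact h1
  rw [e1, map_nsmul]
  exact AddSubgroup.nsmul_mem _ (AddSubgroup.mem_zmultiples _) _

end Model

variable {p : ℕ} [hp : Fact p.Prime] {W : WeierstrassCurve ℤ} [(ratCurve W).IsElliptic]

/-- **Serre**: an irreducible image of a semistable equation is all of `GL₂(𝔽_p)`, for every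
prime `p`. -/
theorem exists_curveRep_eq_of_irreducible (hΔ : W.Δ ≠ 0) (hW : W.IsSemistableModel)
    (hirr : W.ModRepIsIrreducible p) {M : M2 (ZMod p)} (hM : M.det ≠ 0) :
    ∃ σ : GQ, curveRep p W σ = M := by
  rcases eq_or_ne p 2 with rfl | hp2
  · exact FA.Two.exists_curveRep_two_eq hΔ hW hirr hM
  exact FA.Ribet.exists_curveRep_eq_of_irreducible_odd hΔ hW hp2 hirr hM

/-- Every automorphism of irreducible `p`-torsion of a semistable equation comes from Galois. -/
theorem exists_smul_eq_of_irreducible (hΔ : W.Δ ≠ 0) (hW : W.IsSemistableModel)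
    (hirr : W.ModRepIsIrreducible p)
    (φ : Submodule.torsionBy ℤ ((ratCurve W)⁄Qb).Point (p : ℤ) ≃+
      Submodule.torsionBy ℤ ((ratCurve W)⁄Qb).Point (p : ℤ)) :
    ∃ σ : GQ, ∀ x, σ • x.1 = (φ x).1 :=
  FA.Ribet.exists_smul_eq_of_curveRep
    (fun _ hM => exists_curveRep_eq_of_irreducible hΔ hW hirr hM) φ

/-- The residual image of the Tate module of irreducible torsion is everything. -/
theorem exists_rep_map_eq_of_irreducible (B : FA.RT.Tate.TateBasis p W) (hΔ : W.Δ ≠ 0)
    (hW : W.IsSemistableModel) (hirr : W.ModRepIsIrreducible p) (M : M2 (ZMod p))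
    (hM : M.det ≠ 0) : ∃ σ, (B.rep σ).map PadicInt.toZMod = M := by
  obtain ⟨σ, hσ⟩ := exists_curveRep_eq_of_irreducible hΔ hW hirr hM
  exact ⟨σ, (FA.PadicImage.rep_map_toZMod B σ).trans hσ⟩

end FA.Root.Irred

namespace FA.Summary

/-- **Serre's surjectivity, sharp form**: for a semistable elliptic curve over `ℚ` and every prime
`p`, if the `p`-torsion has no Galois stable subgroup of order `p` then Galois induces all its
automorphisms. -/
theorem galoisSurjectiveTorsion_irreducible (E : WeierstrassCurve ℚ) [E.IsElliptic]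
    (h : ∀ p : ℕ, ∀ [Fact p.Prime], ∃ C : VariableChange ℚ_[p],
      HasGoodReduction ℤ_[p] (C • E.map (algebraMap ℚ ℚ_[p])) ∨
        HasMultiplicativeReduction ℤ_[p] (C • E.map (algebraMap ℚ ℚ_[p])))
    [inst : DecidableEq (AlgebraicClosure ℚ)] {p : ℕ} (hp : p.Prime)
    (hno : ∀ G : AddSubgroup (E.toAffine⁄(AlgebraicClosure ℚ)).Point, Nat.card G = p →
      ¬ ∀ σ : AlgebraicClosure ℚ ≃ₐ[ℚ] AlgebraicClosure ℚ, ∀ P ∈ G,
        Affine.Point.map σ.toAlgHom P ∈ G)
    (φ : Submodule.torsionBy ℤ (E.toAffine⁄(AlgebraicClosure ℚ)).Point (p : ℤ) ≃+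
      Submodule.torsionBy ℤ (E.toAffine⁄(AlgebraicClosure ℚ)).Point (p : ℤ)) :
    ∃ σ : AlgebraicClosure ℚ ≃ₐ[ℚ] AlgebraicClosure ℚ, ∀ P,
      Affine.Point.map σ.toAlgHom P.1 = (φ P).1 := by
  obtain rfl : inst = instDecEqAlgebraicClosureRat := Subsingleton.elim _ _
  obtain ⟨W, hW, hs⟩ := FA.Root.exists_semistableModel E
    fun q _ => FA.Root.isSemistableAt_of_reduction E (h q).choose_spec
  have hΔ : W.Δ ≠ 0 := FA.Frob.Δ_ne_zero_of_model hW
  haveI := FA.Frob.ratCurve_isElliptic_of_Δ hΔ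
  haveI := Fact.mk hp
  exact FA.Root.exists_map_eq_of_model hW p
    (FA.Root.Irred.exists_smul_eq_of_irreducible hΔ hs
      (FA.Root.Irred.modRepIsIrreducible_of_noStableSubgroup hW hno)) φ

/-- **Serre's `p`-adic surjectivity, sharp form**: for `p ≥ 5` the same hypothesis gives every
automorphism of the `p ^ n`-torsion. -/
theorem galoisSurjectiveTorsion_pow_irreducible (E : WeierstrassCurve ℚ) [E.IsElliptic]
    (h : ∀ p : ℕ, ∀ [Fact p.Prime], ∃ C : VariableChange ℚ_[p],
      HasGoodReduction ℤ_[p] (C • E.map (algebraMap ℚ ℚ_[p])) ∨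
        HasMultiplicativeReduction ℤ_[p] (C • E.map (algebraMap ℚ ℚ_[p])))
    [inst : DecidableEq (AlgebraicClosure ℚ)] {p : ℕ} (hp : p.Prime) (h5 : 5 ≤ p)
    (hno : ∀ G : AddSubgroup (E.toAffine⁄(AlgebraicClosure ℚ)).Point, Nat.card G = p →
      ¬ ∀ σ : AlgebraicClosure ℚ ≃ₐ[ℚ] AlgebraicClosure ℚ, ∀ P ∈ G,
        Affine.Point.map σ.toAlgHom P ∈ G) (n : ℕ)
    (φ : Submodule.torsionBy ℤ (E.toAffine⁄(AlgebraicClosure ℚ)).Point ((p : ℤ) ^ n) ≃+
      Submodule.torsionBy ℤ (E.toAffine⁄(AlgebraicClosure ℚ)).Point ((p : ℤ) ^ n)) :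
    ∃ σ : AlgebraicClosure ℚ ≃ₐ[ℚ] AlgebraicClosure ℚ, ∀ P,
      Affine.Point.map σ.toAlgHom P.1 = (φ P).1 := by
  obtain rfl : inst = instDecEqAlgebraicClosureRat := Subsingleton.elim _ _
  obtain ⟨W, hW, hs⟩ := FA.Root.exists_semistableModel E
    fun q _ => FA.Root.isSemistableAt_of_reduction E (h q).choose_spec
  have hΔ : W.Δ ≠ 0 := FA.Frob.Δ_ne_zero_of_model hW
  haveI := FA.Frob.ratCurve_isElliptic_of_Δ hΔ
  haveI := Fact.mk hp
  have hirr := FA.Root.Irred.modRepIsIrreducible_of_noStableSubgroup hW hno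
  exact FA.Root.exists_map_eq_of_model hW _
    (FA.PadicImage.exists_smul_eq_pow_of_base h5
      (fun B => FA.Root.Irred.exists_rep_map_eq_of_irreducible B hΔ hs hirr) n) φ

end FA.Summary

end
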