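import Fermat.Agent.Ribet.MazurTorsion

/-!
# Mazur's theorem on rational points of prime order in Mathlib's language

No elliptic curve over `ℚ` has a rational point of order `p`, for a prime `p ≥ 11` other than `13`.
-/

set_option autoImplicit false

noncomputable section

open WeierstrassCurve

namespace FA.Summary

/-- **No rational point of order `p`** on any elliptic curve over `ℚ`, for a prime `p ≥ 11` other
than `13`. -/
theorem mazur (E : WeierstrassCurve ℚ) [E.IsElliptic] {p : ℕ} (hp : p.Prime) (h11 : 11 ≤ p)
    (h13 : p ≠ 13) (P : E.toAffine.Point) : addOrderOf P ≠ p :=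
  FA.Ribet.addOrderOf_point_ne_of_rat E hp h11 h13 P

/-- The primes dividing the order of a rational torsion point are at most `7`, or `13`. -/
theorem mazur_prime_dvd (E : WeierstrassCurve ℚ) [E.IsElliptic] (P : E.toAffine.Point)
    (hP : addOrderOf P ≠ 0) {p : ℕ} (hp : p.Prime) (hd : p ∣ addOrderOf P) : p ≤ 7 ∨ p = 13 := by
  by_contra hcon
  push Not at hcon
  have h11 : 11 ≤ p := by
    by_contra h
    interval_cases p <;> first | omega | norm_num at hp
  obtain ⟨k, hk⟩ := hd
  refine mazur E hp h11 hcon.2 (k • P) ?_
  have hk0 : k ≠ 0 := fun e => hP (by rw [hk, e, mul_zero])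
  rw [addOrderOf_nsmul' P hk0, hk, Nat.gcd_mul_left_left,
    Nat.mul_div_cancel _ (Nat.pos_of_ne_zero hk0)]

end FA.Summary

end
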