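import Fermat.Agent.Ribet.SerreSurjective
import Fermat.Agent.Root.SummaryTorsion

/-!
# Surjectivity of the Galois action on `p`-torsion in Mathlib's language

For a semistable elliptic curve over `ℚ` and a prime `p ≥ 11` other than `13` every additive
automorphism of the `p`-torsion points over the algebraic closure is given by an automorphism of
the algebraic closure.
-/

set_option autoImplicit false
set_option linter.style.haveILetI false

noncomputable section

open WeierstrassCurve WeierstrassCurve.Affine Matrix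
open FA.Frob (ratCurve)
open scoped WeierstrassCurve.Affine

local notation "Qb" => AlgebraicClosure ℚ
local notation "GQ" => AlgebraicClosure ℚ ≃ₐ[ℚ] AlgebraicClosure ℚ

namespace FA.Summary

/-- **Serre surjectivity** for semistable elliptic curves over `ℚ` and a prime `p ≥ 11` other than
`13`: the Galois group induces every automorphism of the group of `p`-torsion points. -/
theorem galoisSurjectiveTorsion (E : WeierstrassCurve ℚ) [E.IsElliptic]
    (h : ∀ p : ℕ, ∀ [Fact p.Prime], ∃ C : VariableChange ℚ_[p],
      HasGoodReduction ℤ_[p] (C • E.map (algebraMap ℚ ℚ_[p])) ∨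
        HasMultiplicativeReduction ℤ_[p] (C • E.map (algebraMap ℚ ℚ_[p])))
    [inst : DecidableEq (AlgebraicClosure ℚ)] {p : ℕ} (hp : p.Prime) (h11 : 11 ≤ p) (h13 : p ≠ 13)
    (φ : Submodule.torsionBy ℤ (E.toAffine⁄(AlgebraicClosure ℚ)).Point (p : ℤ) ≃+
      Submodule.torsionBy ℤ (E.toAffine⁄(AlgebraicClosure ℚ)).Point (p : ℤ)) :
    ∃ σ : AlgebraicClosure ℚ ≃ₐ[ℚ] AlgebraicClosure ℚ, ∀ P,
      Affine.Point.map σ.toAlgHom P.1 = (φ P).1 := by
  obtain rfl : inst = instDecEqAlgebraicClosureRat := Subsingleton.elim _ _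
  obtain ⟨W, hW, hs⟩ := FA.Root.exists_semistableModel E
    fun q _ => FA.Root.isSemistableAt_of_reduction E (h q).choose_spec
  have hΔ : W.Δ ≠ 0 := FA.Frob.Δ_ne_zero_of_model hW
  haveI := FA.Frob.ratCurve_isElliptic_of_Δ hΔ
  haveI := Fact.mk hp
  exact FA.Root.exists_map_eq_of_model hW p (FA.Ribet.exists_smul_eq_of_curveRep
    fun _ hM => FA.Ribet.exists_curveRep_eq hΔ hs h11 h13 hM) φ

end FA.Summary

end
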