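import Fermat.Agent.Density.Places
import Fermat.Agent.HasseBound.Summary
import Fermat.Agent.Root.SummarySurjectiveIrreducible
import Fermat.Agent.Thirteen.Summary

/-!
# Traces of Frobenius and Katz's theorem in the prime case

By Frobenius' density theorem an elliptic curve over `ℚ` has, for every prime `l`, infinitely many
primes `q` with `l ∣ #E(𝔽_q)`, hence infinitely many ordinary primes; and, if `E[l]` has no stable
subgroup of order `l`, infinitely many with `l ∤ #E(𝔽_q)`, since a group of `2 × 2` matrices all of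
which fix a nonzero vector has a common eigenvector.
-/

set_option autoImplicit false
set_option linter.style.haveILetI false

noncomputable section

open WeierstrassCurve WeierstrassCurve.Affine Matrix FA.Frob FA.RT
open scoped WeierstrassCurve.Affine

local notation "Qb" => AlgebraicClosure ℚ
local notation "GQ" => AlgebraicClosure ℚ ≃ₐ[ℚ] AlgebraicClosure ℚ
local notation "M2" => Matrix (Fin 2) (Fin 2)

namespace FA.Traces

variable {k : Type*} [Field k]

theorem det_sub_one (M : M2 k) : (M - 1).det = M.det - M.trace + 1 := by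
  simp [det_fin_two, trace_fin_two]
  ring

/-- **A group of matrices each fixing a nonzero vector has a common eigenvector.** -/
theorem exists_common_eigenvector {G : Type*} [Monoid G] (r : G →* M2 k)
    (h : ∀ g, (r g - 1).det = 0) : ∃ v : Fin 2 → k, v ≠ 0 ∧ ∀ g, ∃ c : k, r g *ᵥ v = c • v := by
  by_cases htriv : ∀ g, r g = 1
  · exact ⟨Pi.single 0 1, by simp, fun g => ⟨1, by rw [htriv g, one_mulVec, one_smul]⟩⟩
  -- some nontrivial element has determinant other than one, or all are one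
  obtain ⟨g, hg, hgd⟩ : ∃ g, r g ≠ 1 ∧ ((r g).det = 1 → ∀ h, (r h).det = 1) := by
    by_cases hd : ∀ h, (r h).det = 1
    · push Not at htriv
      obtain ⟨g, hg⟩ := htriv
      exact ⟨g, hg, fun _ => hd⟩
    · push Not at hd
      obtain ⟨g, hg⟩ := hd
      exact ⟨g, fun e => hg (by rw [e, det_one]), fun e => absurd e hg⟩
  obtain ⟨v, hv, hgv⟩ := exists_mulVec_eq_zero_iff.mpr (h g)
  rw [sub_mulVec, one_mulVec, sub_eq_zero] at hgv
  -- a basis starting with `v`, and if possible an eigenvector of `g`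
  obtain ⟨P, hP, hP0, hP1⟩ : ∃ P : M2 k, P.det ≠ 0 ∧ P *ᵥ Pi.single 0 1 = v ∧
      ((r g).det ≠ 1 → r g *ᵥ (P *ᵥ Pi.single 1 1) = (r g).det • P *ᵥ Pi.single 1 1) := by
    have hbuild : ∀ w : Fin 2 → k, v 0 * w 1 - v 1 * w 0 ≠ 0 →
        ((r g).det ≠ 1 → r g *ᵥ w = (r g).det • w) →
        ∃ P : M2 k, P.det ≠ 0 ∧ P *ᵥ Pi.single 0 1 = v ∧
          ((r g).det ≠ 1 → r g *ᵥ (P *ᵥ Pi.single 1 1) = (r g).det • P *ᵥ Pi.single 1 1) :=
      fun w hw hw' => by
        have e : ∀ i, !![v 0, w 0; v 1, w 1] *ᵥ Pi.single i 1 = ![v, w] i := fun i => by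
          funext j; fin_cases i <;> fin_cases j <;> simp [mulVec, dotProduct, Fin.sum_univ_two]
        exact ⟨!![v 0, w 0; v 1, w 1],
          by rw [det_fin_two_of]; intro h0; exact hw (by linear_combination h0), e 0, fun hd => by rw [e 1]; exact hw' hd⟩
    by_cases hd : (r g).det = 1
    · by_cases h0 : v 0 = 0
      · have h1 : v 1 ≠ 0 := fun h1 => hv (funext fun i => by fin_cases i <;> assumption)
        exact hbuild ![1, 0] (by simp [h0, h1]) (absurd hd)
      · exact hbuild ![0, 1] (by simp [h0]) (absurd hd)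
    · obtain ⟨w, hw0, hw⟩ : ∃ w, w ≠ 0 ∧ (r g - (r g).det • 1) *ᵥ w = 0 := by
        refine exists_mulVec_eq_zero_iff.mpr ?_
        have hs := det_sub_one (r g)
        rw [h g, det_fin_two, trace_fin_two] at hs
        simp only [det_fin_two, Matrix.sub_apply, Matrix.smul_apply, one_apply_eq,
          one_apply_ne zero_ne_one, one_apply_ne (one_ne_zero : (1 : Fin 2) ≠ 0), smul_eq_mul,
          mul_one, mul_zero, sub_zero]
        linear_combination (r g 0 0 * r g 1 1 - r g 0 1 * r g 1 0) * hs.symm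
      rw [sub_mulVec, smul_mulVec, one_mulVec, sub_eq_zero] at hw
      refine hbuild w (fun h0 => ?_) fun _ => hw
      have hvw : ∀ i j, v i * w j = v j * w i := by
        simp only [Fin.forall_fin_two]
        exact ⟨⟨trivial, by linear_combination h0⟩, ⟨by linear_combination -h0, trivial⟩⟩
      obtain ⟨i, hi⟩ := Function.ne_iff.mp hv
      have e : w = (w i / v i) • v := funext fun j => by
        rw [Pi.smul_apply, smul_eq_mul, div_mul_eq_mul_div, eq_div_iff hi]
        linear_combination hvw i j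
      rw [e, mulVec_smul, hgv, ← e] at hw
      exact hd (smul_left_injective k hw0 (hw.symm.trans (one_smul k w).symm))
  have hPu : IsUnit P.det := isUnit_iff_ne_zero.mpr hP
  let r' : G →* M2 k :=
    { toFun := fun x => P⁻¹ * r x * P
      map_one' := by rw [map_one, mul_one, nonsing_inv_mul P hPu]
      map_mul' := fun x y => by
        simp only [map_mul, Matrix.mul_assoc, mul_nonsing_inv_cancel_left _ _ hPu] }
  have hback : ∀ (x : G) (u : Fin 2 → k), r x *ᵥ (P *ᵥ u) = P *ᵥ (r' x *ᵥ u) := fun x u => by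
    show r x *ᵥ (P *ᵥ u) = P *ᵥ ((P⁻¹ * r x * P) *ᵥ u)
    rw [mulVec_mulVec, mulVec_mulVec, ← Matrix.mul_assoc, ← Matrix.mul_assoc,
      mul_nonsing_inv P hPu, Matrix.one_mul]
  have ht : ∀ x, (r' x) 0 0 + (r' x) 1 1 = 1 + (r x).det := fun x => by
    have e : (r' x).trace = (r x).trace := by
      show (P⁻¹ * r x * P).trace = _
      rw [trace_mul_cycle, mul_nonsing_inv P hPu, Matrix.one_mul]
    have hs := det_sub_one (r x)
    rw [h x, ← e, trace_fin_two] at hs
    linear_combination hs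
  have hd : ∀ x, (r' x) 0 0 * (r' x) 1 1 - (r' x) 0 1 * (r' x) 1 0 = (r x).det := fun x => by
    rw [← det_fin_two]
    show (P⁻¹ * r x * P).det = _
    rw [det_mul, det_mul, mul_right_comm, ← det_mul, nonsing_inv_mul P hPu, det_one, one_mul]
  have hg0 : r' g *ᵥ Pi.single 0 1 = Pi.single 0 1 := (mulVec_injective_iff_isUnit.mpr
    ((isUnit_iff_isUnit_det P).mpr hPu)) (by rw [← hback, hP0, hgv])
  have g00 : r' g 0 0 = 1 := by simpa [mulVec, dotProduct, Fin.sum_univ_two] using congrFun hg0 0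
  have g10 : r' g 1 0 = 0 := by simpa [mulVec, dotProduct, Fin.sum_univ_two] using congrFun hg0 1
  have g11 : r' g 1 1 = (r g).det := by linear_combination ht g - g00
  have key : ∀ x, r' g 0 1 * r' x 1 0 = (1 - (r g).det) * (1 - r' x 0 0) := fun x => by
    have h1 := ht (g * x)
    simp only [map_mul, det_mul, Matrix.mul_apply, Fin.sum_univ_two, g00, g10, g11] at h1
    linear_combination h1 - (r g).det * ht x
  have fin : ∀ i j : Fin 2, j ≠ i → (∀ x, r' x j i = 0) →
      ∃ v : Fin 2 → k, v ≠ 0 ∧ ∀ x, ∃ c : k, r x *ᵥ v = c • v := fun i j hij hi => by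
    refine ⟨P *ᵥ Pi.single i 1, fun e => ?_, fun x => ⟨r' x i i, ?_⟩⟩
    · have := (mulVec_injective_iff_isUnit.mpr ((isUnit_iff_isUnit_det P).mpr hPu))
        (e.trans (mulVec_zero P).symm)
      simpa using congrFun this i
    · rw [hback, ← mulVec_smul]
      congr 1
      funext m
      have := hi x
      fin_cases i <;> fin_cases j <;> fin_cases m <;>
        simp_all [mulVec, dotProduct, Fin.sum_univ_two]
  by_cases hd1 : (r g).det = 1
  · have g01 : r' g 0 1 ≠ 0 := fun e => hg <| by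
      have e1 : r' g = 1 := by
        ext i j; fin_cases i <;> fin_cases j <;> simp [g00, g10, g11, hd1, e]
      calc r g = P * r' g * P⁻¹ := by
            simp [r', Matrix.mul_assoc, mul_nonsing_inv_cancel_left _ _ hPu, mul_nonsing_inv P hPu]
        _ = 1 := by rw [e1, Matrix.mul_one, mul_nonsing_inv P hPu]
    refine fin 0 1 one_ne_zero fun x => (mul_eq_zero.mp ?_).resolve_left g01
    rw [key x, hd1, sub_self, zero_mul]
  have g01 : r' g 0 1 = 0 := by
    have e := hP1 hd1
    rw [hback, ← mulVec_smul] at e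
    simpa [mulVec, dotProduct, Fin.sum_univ_two] using
      congrFun ((mulVec_injective_iff_isUnit.mpr ((isUnit_iff_isUnit_det P).mpr hPu)) e) 0
  have h00 : ∀ x, r' x 0 0 = 1 := fun x => by
    have := key x
    rw [g01, zero_mul, eq_comm, mul_eq_zero, sub_eq_zero, sub_eq_zero] at this
    exact (this.resolve_left fun e => hd1 e.symm).symm
  have hor : ∀ x, r' x 0 1 * r' x 1 0 = 0 := fun x => by
    linear_combination h00 x * r' x 1 1 + ht x - h00 x - hd x
  by_contra hcon
  obtain ⟨x, hx⟩ := not_forall.mp fun hl => hcon (fin 0 1 one_ne_zero hl)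
  obtain ⟨y, hy⟩ := not_forall.mp fun hu => hcon (fin 1 0 zero_ne_one hu)
  have e := h00 (y * x)
  rw [map_mul, Matrix.mul_apply, Fin.sum_univ_two, h00 y, h00 x] at e
  exact mul_ne_zero hy hx (by linear_combination e)

/-! ### Frobenius elements -/

variable {W : WeierstrassCurve ℤ} [(ratCurve W).IsElliptic] {l : ℕ} [hl : Fact l.Prime]

/-- The number of points of the reduction in terms of a Frobenius element. -/
theorem dvd_card_iff {q : ℕ} (hq : q.Prime) (hql : q ≠ l) (hgood : W.IsGoodPrimeFor q)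
    {A : ValuationSubring Qb} (hA : A.LiesOverPrime q) {σ : GQ} (hσ : A.IsFrobeniusAt σ q) :
    l ∣ Nat.card (W.map (Int.castRingHom (ZMod q))).toAffine.Point ↔
      (curveRep l W σ - 1).det = 0 := by
  obtain ⟨htr, hdet⟩ := FA.Ribet.curveRep_frobenius (p := l) hq hql hgood hA hσ
  rw [det_sub_one, htr, hdet, ← ZMod.natCast_eq_zero_iff]
  have e : (W.apOfModel q : ZMod l) = (q : ZMod l) + 1 -
      (Nat.card (W.map (Int.castRingHom (ZMod q))).toAffine.Point : ZMod l) := by
    simp [apOfModel, traceOfFrobenius, WeierstrassCurve.card, reductionMod, Nat.card_zmod]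
  rw [e]
  constructor <;> intro h <;> linear_combination h

/-- **Every element is a power of a Frobenius with the same properties**, outside any finite set. -/
theorem exists_frobenius (s : GQ) (S : Finset ℕ) :
    ∃ (q : ℕ) (A : ValuationSubring Qb) (σ : GQ), q.Prime ∧ q ∉ S ∧ q ≠ l ∧
      W.IsGoodPrimeFor q ∧ A.LiesOverPrime q ∧ A.IsFrobeniusAt σ q ∧
      (∃ n : ℕ, curveRep l W s = curveRep l W σ ^ n) ∧
      ∃ n : ℕ, curveRep l W σ = curveRep l W s ^ n := by
  have hΔ : W.Δ ≠ 0 := fun h => (ratCurve W).isUnit_Δ.ne_zero (by simp [ratCurve, h])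
  obtain ⟨q, A, σ, m, hq, hqS, hA, hσ, hm, j, hj⟩ := FA.Density.exists_frobenius_generating
    (curveRep l W).ker (isOpen_ker_curveRep W) s (S ∪ insert l W.Δ.natAbs.divisors)
  simp only [Finset.mem_union, Finset.mem_insert, not_or] at hqS
  have hcancel : ∀ a b : GQ, a⁻¹ * b ∈ (curveRep l W).ker → curveRep l W b = curveRep l W a :=
    fun a b h => by
      rw [show b = a * (a⁻¹ * b) by group, map_mul, MonoidHom.mem_ker.mp h, mul_one]
  exact ⟨q, A, σ, hq, hqS.1, hqS.2.1,
    fun hd => hqS.2.2 (Nat.mem_divisors.mpr ⟨Int.natCast_dvd.mp hd, Int.natAbs_ne_zero.mpr hΔ⟩),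
    hA, hσ, ⟨m, by rw [hcancel _ _ hm, map_pow]⟩, ⟨j, by rw [hcancel _ _ hj, map_pow]⟩⟩

end FA.Traces

namespace FA.Summary

open FA.Traces

/-- **Infinitely many `#E(𝔽_q)` are divisible by a given prime `l`**, with `q ≡ 1 (mod l)`. -/
theorem infinitely_many_dvd_pointCount (E : WeierstrassCurve ℚ) [E.IsElliptic]
    (W : WeierstrassCurve ℤ) (C : VariableChange ℚ) (hW : C • E = W.map (Int.castRingHom ℚ))
    {l : ℕ} (hl : l.Prime) :
    {q : ℕ | q.Prime ∧ ¬ (q : ℤ) ∣ W.Δ ∧ (q : ZMod l) = 1 ∧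
      l ∣ Nat.card (W.map (Int.castRingHom (ZMod q))).toAffine.Point}.Infinite := by
  intro hfin
  haveI := Fact.mk hl
  haveI := FA.Frob.ratCurve_isElliptic_of_Δ (FA.Frob.Δ_ne_zero_of_model (E := E) ⟨C, hW⟩)
  obtain ⟨q, A, σ, hq, hqS, hql, hgood, hA, hσ, -, n, hn⟩ :=
    exists_frobenius (l := l) (W := W) 1 hfin.toFinset
  rw [map_one, one_pow] at hn
  refine hqS (hfin.mem_toFinset.mpr ⟨hq, hgood, ?_, (dvd_card_iff hq hql hgood hA hσ).mpr ?_⟩)
  · rw [← (FA.Ribet.curveRep_frobenius (p := l) hq hql hgood hA hσ).2, hn, det_one]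
  · rw [hn, sub_self, det_zero]

/-- **Infinitely many ordinary primes**: `q ∤ a_q`, in particular `a_q ≠ 0`. -/
theorem infinitely_many_ordinary (E : WeierstrassCurve ℚ) [E.IsElliptic] :
    {q : ℕ | q.Prime ∧ ¬ (q : ℤ) ∣ E.LFunction q}.Infinite := by
  intro hfin
  obtain ⟨W, C, hW⟩ := FA.Frob.exists_integralModel E
  haveI := Fact.mk Nat.prime_three
  haveI := FA.Frob.ratCurve_isElliptic_of_Δ (FA.Frob.Δ_ne_zero_of_model (E := E) ⟨C, hW⟩)
  obtain ⟨q, A, σ, hq, hqS, hql, hgood, hA, hσ, -, n, hn⟩ :=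
    exists_frobenius (l := 3) (W := W) 1 (hfin.toFinset ∪ Finset.range 5)
  rw [map_one, one_pow] at hn
  rw [Finset.mem_union, Finset.mem_range, not_or, not_lt] at hqS
  refine hqS.1 (hfin.mem_toFinset.mpr ⟨hq, fun hd => ?_⟩)
  have hH := hasse_LFunction E W C hW hq hgood
  rw [FA.Root.LFunction_apply_prime E W ⟨C, hW⟩ hq hgood] at hH hd
  obtain ⟨htr, -⟩ := FA.Ribet.curveRep_frobenius (p := 3) hq hql hgood hA hσ
  rw [hn, trace_one, Fintype.card_fin] at htr
  obtain ⟨c, hc⟩ := hd
  have hc0 : c ≠ 0 := fun e => by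
    rw [hc, e, mul_zero, Int.cast_zero, ZMod.natCast_eq_zero_iff] at htr
    omega
  have hq5 : (5 : ℤ) ≤ q := by exact_mod_cast hqS.2
  have hc1 : 0 < c ^ 2 := by positivity
  rw [hc, mul_pow] at hH
  nlinarith [mul_le_mul_of_nonneg_left (show (1 : ℤ) ≤ c ^ 2 by omega) (sq_nonneg (q : ℤ))]

/-- **Katz's theorem in the prime case**: if `E[l]` has no Galois stable subgroup of order `l`, then
`l` fails to divide `#E(𝔽_q)` for infinitely many good primes `q`. -/
theorem infinitely_many_not_dvd_pointCount (E : WeierstrassCurve ℚ) [E.IsElliptic]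
    (W : WeierstrassCurve ℤ) (C : VariableChange ℚ) (hW : C • E = W.map (Int.castRingHom ℚ))
    [inst : DecidableEq (AlgebraicClosure ℚ)] {l : ℕ} (hl : l.Prime)
    (hno : ∀ G : AddSubgroup (E.toAffine⁄(AlgebraicClosure ℚ)).Point, Nat.card G = l →
      ¬ ∀ σ : AlgebraicClosure ℚ ≃ₐ[ℚ] AlgebraicClosure ℚ, ∀ P ∈ G,
        Affine.Point.map σ.toAlgHom P ∈ G) :
    {q : ℕ | q.Prime ∧ ¬ (q : ℤ) ∣ W.Δ ∧
      ¬ l ∣ Nat.card (W.map (Int.castRingHom (ZMod q))).toAffine.Point}.Infinite := by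
  obtain rfl : inst = instDecEqAlgebraicClosureRat := Subsingleton.elim _ _
  intro hfin
  haveI := Fact.mk hl
  haveI := FA.Frob.ratCurve_isElliptic_of_Δ (FA.Frob.Δ_ne_zero_of_model (E := E) ⟨C, hW⟩)
  have hirr := FA.Root.Irred.modRepIsIrreducible_of_noStableSubgroup (E := E) ⟨C, hW⟩ hno
  obtain ⟨s, hs⟩ : ∃ s : GQ, (curveRep l W s - 1).det ≠ 0 := by
    by_contra hcon
    push Not at hcon
    obtain ⟨v, hv, hst⟩ := exists_common_eigenvector (curveRep l W) hcon
    obtain ⟨τ, hτ⟩ := FA.Ribet.exists_moves_line hirr hv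
    exact hτ _ (hst τ).choose_spec
  obtain ⟨q, A, σ, hq, hqS, hql, hgood, hA, hσ, ⟨n, hn⟩, -⟩ :=
    exists_frobenius (l := l) (W := W) s hfin.toFinset
  refine hqS (hfin.mem_toFinset.mpr ⟨hq, hgood, fun hd => hs ?_⟩)
  obtain ⟨v, hv, hσv⟩ := exists_mulVec_eq_zero_iff.mpr ((dvd_card_iff hq hql hgood hA hσ).mp hd)
  rw [sub_mulVec, one_mulVec, sub_eq_zero] at hσv
  refine exists_mulVec_eq_zero_iff.mp ⟨v, hv, ?_⟩
  rw [sub_mulVec, one_mulVec, sub_eq_zero, hn]
  clear hn
  induction n with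
  | zero => rw [pow_zero, one_mulVec]
  | succ m ih => rw [pow_succ, ← mulVec_mulVec, hσv, ih]

/-- For a semistable curve this holds at every prime `l ≥ 11`. -/
theorem infinitely_many_not_dvd_pointCount_all (E : WeierstrassCurve ℚ) [E.IsElliptic]
    (h : ∀ p : ℕ, ∀ [Fact p.Prime], ∃ C : VariableChange ℚ_[p],
      HasGoodReduction ℤ_[p] (C • E.map (algebraMap ℚ ℚ_[p])) ∨
        HasMultiplicativeReduction ℤ_[p] (C • E.map (algebraMap ℚ ℚ_[p])))
    (W : WeierstrassCurve ℤ) (C : VariableChange ℚ) (hW : C • E = W.map (Int.castRingHom ℚ))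
    {l : ℕ} (hl : l.Prime) (h11 : 11 ≤ l) :
    {q : ℕ | q.Prime ∧ ¬ (q : ℤ) ∣ W.Δ ∧
      ¬ l ∣ Nat.card (W.map (Int.castRingHom (ZMod q))).toAffine.Point}.Infinite :=
  infinitely_many_not_dvd_pointCount E W C hW hl fun G hG => noStableSubgroup_all E h hl h11 G hG

end FA.Summary

end
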