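import Fermat.Agent.Root.SummaryChebotarev
import Fermat.Agent.Root.SummarySurjectiveLarge
import Fermat.Agent.Root.SummaryTraces
import Mathlib.LinearAlgebra.Matrix.GeneralLinearGroup.Card

/-!
# Supersingular primes have density zero

For an elliptic curve over `ℚ` with non-integral invariant and any integer `t`, the primes with
`a_p = t` have Dirichlet density zero, hence so have the supersingular primes: for every large `l`
Galois gives all of `GL₂(𝔽_l)`, in which a fraction at most `4 / l` has a given trace, and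
Chebotarev's density theorem bounds the primes with `a_p ≡ t (mod l)`.
-/

set_option autoImplicit false
set_option linter.style.haveILetI false

noncomputable section

open NumberField IsDedekindDomain Filter Topology Matrix WeierstrassCurve
open FA.Ext (zN zN_nonneg primeIdeal zN_primeIdeal exists_lower_bound)
open scoped WeierstrassCurve.Affine

local notation "Qb" => AlgebraicClosure ℚ
local notation "GQ" => AlgebraicClosure ℚ ≃ₐ[ℚ] AlgebraicClosure ℚ

namespace FA.Supersingular

/-- The sum over all primes tends to infinity at `1`. -/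
theorem tendsto_univ_atTop :
    Tendsto (fun s => (Set.univ : Set (HeightOneSpectrum (𝓞 ℚ))).primeIdealZetaSum s) (𝓝[>] 1)
      atTop := by
  obtain ⟨M, hM⟩ := exists_lower_bound ℚ
  refine tendsto_atTop_mono' _ ?_ (tendsto_atTop_add_const_right _ (-M)
    FA.Chebotarev.tendsto_log_atTop)
  filter_upwards [FA.Chebotarev.Ioc_one_two_mem] with s hs
  obtain ⟨T, -, hT⟩ := hM s hs
  rw [FA.Chebotarev.primeIdealZetaSum_eq,
    tsum_univ fun v : HeightOneSpectrum (𝓞 ℚ) => zN s (primeIdeal v)]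
  exact ((sub_eq_add_neg _ M).symm.le.trans hT).trans
    ((FA.Chebotarev.summable_zN_primeIdeal hs.1).sum_le_tsum _ fun v _ => zN_nonneg _ _)

/-- A set approximated from above by sets of arbitrarily small density, up to finitely many primes,
has density zero. -/
theorem density_zero_of_approx {S : Set (HeightOneSpectrum (𝓞 ℚ))}
    (h : ∀ ε : ℝ, 0 < ε → ∃ (X F : Set (HeightOneSpectrum (𝓞 ℚ))) (δ : ℝ),
      X.HasDirichletDensity δ ∧ δ < ε ∧ F.Finite ∧ S ⊆ X ∪ F) :
    S.HasDirichletDensity 0 := by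
  refine tendsto_order.mpr ⟨fun b hb => Eventually.of_forall fun s => hb.trans_le
    (div_nonneg (S.primeIdealZetaSum_nonneg s) (Set.univ.primeIdealZetaSum_nonneg s)),
    fun ε hε => ?_⟩
  obtain ⟨X, F, δ, hX, hδ, hF, hSX⟩ := h (ε / 2) (by linarith)
  filter_upwards [hX.eventually_lt_const hδ, self_mem_nhdsWithin,
    tendsto_univ_atTop.eventually_gt_atTop (2 * F.ncard / ε)] with s hsX hs hU
  have hU0 : 0 < (Set.univ : Set (HeightOneSpectrum (𝓞 ℚ))).primeIdealZetaSum s :=
    lt_of_le_of_lt (by positivity) hU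
  have hsub : S \ X ⊆ F := fun v hv => (hSX hv.1).resolve_left hv.2
  have hle : S.primeIdealZetaSum s ≤ X.primeIdealZetaSum s + F.ncard :=
    (FA.Chebotarev.primeIdealZetaSum_le_add (hF.subset hsub) hs).trans
      (add_le_add le_rfl (Nat.cast_le.mpr (Set.ncard_le_ncard hsub hF)))
  rw [div_lt_iff₀ hU0] at hsX ⊢
  rw [div_lt_iff₀ hε] at hU
  linarith

/-- Finitely many primes of `ℚ` have norm in a finite set. -/
theorem finite_absNorm_mem (s : Finset ℕ) :
    {v : HeightOneSpectrum (𝓞 ℚ) | Ideal.absNorm v.asIdeal ∈ s}.Finite := by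
  refine Set.Finite.of_finite_image (f := fun v => v.asIdeal) (Set.Finite.subset
    (s.finite_toSet.biUnion fun n _ => Ideal.finite_setOfPred_absNorm_eq n) ?_)
    fun v _ w _ e => HeightOneSpectrum.ext e
  rintro _ ⟨v, hv, rfl⟩
  exact Set.mem_biUnion hv rfl

/-- Few invertible matrices have a given trace. -/
theorem card_trace_le {l : ℕ} [Fact l.Prime] (t : ZMod l) :
    (Nat.card {g : GL (Fin 2) (ZMod l) | (g : Matrix (Fin 2) (Fin 2) (ZMod l)).trace = t} : ℝ) /
      Fintype.card (GL (Fin 2) (ZMod l)) ≤ 4 / l := by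
  have hl2 : (2 : ℝ) ≤ l := by exact_mod_cast (Fact.out : l.Prime).two_le
  have h3 : Nat.card {g : GL (Fin 2) (ZMod l) |
      (g : Matrix (Fin 2) (Fin 2) (ZMod l)).trace = t} ≤ l ^ 3 := by
    refine (Nat.card_le_card_of_injective (β := ZMod l × ZMod l × ZMod l)
      (fun g => (g.1.1 0 0, g.1.1 0 1, g.1.1 1 0)) fun g g' h => ?_).trans
        (le_of_eq (by simp [pow_three]))
    simp only [Prod.mk.injEq] at h
    obtain ⟨h00, h01, h10⟩ := h
    have htr := g.2.trans g'.2.symm
    rw [trace_fin_two, trace_fin_two, h00, add_right_inj] at htr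
    refine Subtype.ext (Units.ext ?_)
    ext i j
    fin_cases i <;> fin_cases j
    exacts [h00, h01, h10, htr]
  rw [← Nat.card_eq_fintype_card (α := GL (Fin 2) (ZMod l)), Matrix.card_GL_field, ZMod.card,
    Fin.prod_univ_two]
  simp only [Fin.val_zero, Fin.val_one, pow_zero, pow_one]
  have hl1 : 1 ≤ l ^ 2 := Nat.one_le_pow _ _ (Fact.out : l.Prime).pos
  have hll : l ≤ l ^ 2 := Nat.le_self_pow two_ne_zero l
  push_cast [Nat.cast_sub hl1, Nat.cast_sub hll]
  have hpos : (0 : ℝ) < ((l : ℝ) ^ 2 - 1) * ((l : ℝ) ^ 2 - l) :=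
    mul_pos (by nlinarith) (by nlinarith)
  rw [div_le_div_iff₀ hpos (by linarith)]
  calc (Nat.card {g : GL (Fin 2) (ZMod l) |
        (g : Matrix (Fin 2) (Fin 2) (ZMod l)).trace = t} : ℝ) * l ≤ (l : ℝ) ^ 3 * l := by
          gcongr; exact_mod_cast h3
    _ = 4 * ((l : ℝ) ^ 2 / 2 * ((l : ℝ) ^ 2 / 2)) := by ring
    _ ≤ _ := mul_le_mul_of_nonneg_left (mul_le_mul (by nlinarith) (by nlinarith) (by positivity)
          (by nlinarith)) (by norm_num)

/-- Surjectivity on the torsion of the curve gives every matrix on the model. -/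
theorem exists_curveRep_eq_of_surjective {E : WeierstrassCurve ℚ} [E.IsElliptic]
    {W : WeierstrassCurve ℤ} [(FA.Frob.ratCurve W).IsElliptic] (hW : W.IsIntegralModelOf E)
    {l : ℕ} [Fact l.Prime]
    (h : ∀ φ : Submodule.torsionBy ℤ (E.toAffine⁄Qb).Point (l : ℤ) ≃+
      Submodule.torsionBy ℤ (E.toAffine⁄Qb).Point (l : ℤ),
      ∃ σ : GQ, ∀ P, Affine.Point.map σ.toAlgHom P.1 = (φ P).1)
    {M : Matrix (Fin 2) (Fin 2) (ZMod l)} (hM : M.det ≠ 0) :
    ∃ σ, FA.RT.curveRep l W σ = M := by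
  obtain ⟨e, he⟩ := FA.Root.exists_equiv_of_model hW
  let eT : Submodule.torsionBy ℤ ((FA.Frob.ratCurve W)⁄Qb).Point (l : ℤ) ≃+
      Submodule.torsionBy ℤ (E.toAffine⁄Qb).Point (l : ℤ) :=
    { toEquiv := e.toEquiv.subtypeEquiv fun Q => by
        simp only [Submodule.mem_torsionBy_iff]
        exact ⟨fun hQ => (map_zsmul e _ Q).symm.trans (by rw [hQ, map_zero]),
          fun hQ => e.injective (by rw [map_zsmul, map_zero]; exact hQ)⟩
      map_add' := fun a b => Subtype.ext (map_add e a.1 b.1) }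
  let L := Matrix.toLinearEquiv (FA.RT.torsBasis (p := l) W) M hM.isUnit
  obtain ⟨σ, hσ⟩ := h ((eT.symm.trans L.toAddEquiv).trans eT)
  refine ⟨σ, ?_⟩
  rw [FA.RT.curveRep_apply, ← LinearMap.toMatrix_toLin (FA.RT.torsBasis (p := l) W)
    (FA.RT.torsBasis (p := l) W) M]
  congr 1
  refine LinearMap.ext fun x => Subtype.ext (e.injective ?_)
  show e (σ • x.1) = _
  rw [he]
  exact (hσ (eT x)).trans (by
    show e (L (eT.symm (eT x))).1 = _
    rw [AddEquiv.symm_apply_apply]
    rfl)

/-- Surjectivity on the torsion of every large prime order makes the primes with a given trace of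
Frobenius a set of density zero. -/
theorem trace_density_zero_of_surjective (E : WeierstrassCurve ℚ) [E.IsElliptic]
    (hM : ∃ M : ℕ, ∀ p : ℕ, p.Prime → M < p →
      ∀ φ : Submodule.torsionBy ℤ (E.toAffine⁄Qb).Point (p : ℤ) ≃+
        Submodule.torsionBy ℤ (E.toAffine⁄Qb).Point (p : ℤ),
        ∃ σ : GQ, ∀ P, Affine.Point.map σ.toAlgHom P.1 = (φ P).1) (t : ℤ) :
    {v : HeightOneSpectrum (𝓞 ℚ) | E.LFunction (Ideal.absNorm v.asIdeal) = t}.HasDirichletDensity
      0 := by
  obtain ⟨M, hM⟩ := hM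
  obtain ⟨W, hW⟩ := FA.Frob.exists_integralModel E
  have hΔ := FA.Frob.Δ_ne_zero_of_model hW
  haveI := FA.Frob.ratCurve_isElliptic_of_Δ hΔ
  refine density_zero_of_approx fun ε hε => ?_
  obtain ⟨l, hl, hlp⟩ := Nat.exists_infinite_primes (max M ⌈4 / ε⌉₊ + 1)
  haveI := Fact.mk hlp
  let π : GQ →* GL (Fin 2) (ZMod l) := (FA.RT.curveRep l W).toHomUnits
  have hπ : Function.Surjective π := fun g => by
    obtain ⟨σ, hσ⟩ := exists_curveRep_eq_of_surjective hW
      (fun φ => hM l hlp (by omega) φ) (M := (g : Matrix (Fin 2) (Fin 2) (ZMod l)))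
      (g.isUnit.map Matrix.detMonoidHom).ne_zero
    exact ⟨σ, Units.ext hσ⟩
  have hker : IsOpen (π.ker : Set GQ) := Subgroup.isOpen_mono
    (fun σ hσ => MonoidHom.mem_ker.mpr (Units.ext (MonoidHom.mem_ker.mp hσ)))
    (FA.RT.isOpen_ker_curveRep W)
  let X : Set (GL (Fin 2) (ZMod l)) :=
    {g | (g : Matrix (Fin 2) (Fin 2) (ZMod l)).trace = (t : ZMod l)}
  have hX : ∀ g ∈ X, ∀ x, x * g * x⁻¹ ∈ X := fun g hg x => by
    show Matrix.trace (_ : Matrix (Fin 2) (Fin 2) (ZMod l)) = _
    rw [Units.val_mul, Units.val_mul, Matrix.trace_mul_cycle, ← Units.val_mul, inv_mul_cancel,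
      Units.val_one, one_mul]
    exact hg
  refine ⟨FA.Chebotarev.frobSet π X,
    {v | Ideal.absNorm v.asIdeal ∈ insert l W.Δ.natAbs.primeFactors}, _,
    FA.Chebotarev.hasDirichletDensity_frobSet π hπ hker hX, ?_, ?_, fun v hv => ?_⟩
  · refine (card_trace_le (t : ZMod l)).trans_lt ?_
    have hlε : 4 / ε < l := (Nat.le_ceil _).trans_lt (by exact_mod_cast (by omega : ⌈4 / ε⌉₊ < l))
    rw [div_lt_iff₀ hε] at hlε
    rw [div_lt_iff₀ (by exact_mod_cast hlp.pos)]
    linarith
  · exact finite_absNorm_mem _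
  · refine or_iff_not_imp_right.mpr fun hvF A hA σ hσ => ?_
    simp only [Set.mem_ofPred_eq, Finset.mem_insert, not_or] at hvF
    have hq := FA.Chebotarev.absNorm_prime v
    have hgood : W.IsGoodPrimeFor (Ideal.absNorm v.asIdeal) := fun hd => hvF.2
      (Nat.mem_primeFactors.mpr ⟨hq, Int.natCast_dvd.mp hd, Int.natAbs_ne_zero.mpr hΔ⟩)
    show (FA.RT.curveRep l W σ).trace = (t : ZMod l)
    rw [(FA.Ribet.curveRep_frobenius (p := l) hq hvF.1 hgood hA hσ).1,
      ← FA.Root.LFunction_apply_prime E W hW hq hgood, show E.LFunction _ = t from hv]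

/-- A finite exception does not alter the density: dividing `a_p` means `a_p = 0` at the good
primes `p ≥ 5`. -/
theorem density_dvd_of_density_eq_zero (E : WeierstrassCurve ℚ) [E.IsElliptic] {δ : ℝ}
    (h : {v : HeightOneSpectrum (𝓞 ℚ) |
      E.LFunction (Ideal.absNorm v.asIdeal) = 0}.HasDirichletDensity δ) :
    {v : HeightOneSpectrum (𝓞 ℚ) |
      (Ideal.absNorm v.asIdeal : ℤ) ∣ E.LFunction (Ideal.absNorm v.asIdeal)}.HasDirichletDensity
        δ := by
  obtain ⟨W, C, hW⟩ := FA.Frob.exists_integralModel E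
  have hΔ := FA.Frob.Δ_ne_zero_of_model (E := E) ⟨C, hW⟩
  haveI := FA.Frob.ratCurve_isElliptic_of_Δ hΔ
  refine FA.Chebotarev.hasDirichletDensity_congr ?_ ?_ h
  swap
  · refine Set.Finite.subset Set.finite_empty fun v hv => hv.2 ?_
    show _ ∣ E.LFunction _
    rw [show E.LFunction _ = 0 from hv.1]
    exact dvd_zero _
  refine (finite_absNorm_mem (Finset.range 5 ∪ W.Δ.natAbs.primeFactors)).subset fun v hv => ?_
  by_contra hvF
  simp only [Set.mem_ofPred_eq, Finset.mem_union, Finset.mem_range, not_or, not_lt] at hvF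
  have hq := FA.Chebotarev.absNorm_prime v
  have hgood : ¬ ((Ideal.absNorm v.asIdeal : ℕ) : ℤ) ∣ W.Δ := fun hd => hvF.2
    (Nat.mem_primeFactors.mpr ⟨hq, Int.natCast_dvd.mp hd, Int.natAbs_ne_zero.mpr hΔ⟩)
  have hH := FA.Summary.hasse_LFunction E W C hW hq hgood
  obtain ⟨c, hc⟩ : ((Ideal.absNorm v.asIdeal : ℕ) : ℤ) ∣
      E.LFunction (Ideal.absNorm v.asIdeal) := hv.1
  have hq5 : (5 : ℤ) ≤ Ideal.absNorm v.asIdeal := by exact_mod_cast hvF.1
  have hc0 : c ≠ 0 := fun e => hv.2 (show E.LFunction _ = 0 by rw [hc, e, mul_zero])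
  have hc1 : 0 < c ^ 2 := by positivity
  rw [hc, mul_pow] at hH
  nlinarith [mul_le_mul_of_nonneg_left (show (1 : ℤ) ≤ c ^ 2 by omega)
    (sq_nonneg (Ideal.absNorm v.asIdeal : ℤ))]

/-- The density of the complement. -/
theorem hasDirichletDensity_compl {S : Set (HeightOneSpectrum (𝓞 ℚ))} {δ : ℝ}
    (h : S.HasDirichletDensity δ) : Sᶜ.HasDirichletDensity (1 - δ) := by
  refine (h.const_sub 1).congr' ?_
  filter_upwards [self_mem_nhdsWithin, tendsto_univ_atTop.eventually_gt_atTop 0] with s hs hU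
  rw [one_sub_div hU.ne']
  congr 1
  rw [sub_eq_iff_eq_add]
  simp only [FA.Chebotarev.primeIdealZetaSum_eq]
  rw [tsum_univ fun v : HeightOneSpectrum (𝓞 ℚ) => zN s (primeIdeal v), add_comm]
  exact (Summable.tsum_add_tsum_compl (s := S) (f := fun v => zN s (primeIdeal v))
    (FA.Chebotarev.summable_subtype_zN S hs) (FA.Chebotarev.summable_subtype_zN Sᶜ hs)).symm

end FA.Supersingular

namespace FA.Summary

open FA.Supersingular

/-- **Primes with a given trace of Frobenius have density zero** for an elliptic curve over `ℚ`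
with non-integral invariant. -/
theorem traceFrobenius_density_zero (E : WeierstrassCurve ℚ) [E.IsElliptic]
    (h : ∃ q : ℕ, q.Prime ∧ padicValRat q E.j < 0) (t : ℤ) :
    {v : HeightOneSpectrum (𝓞 ℚ) | E.LFunction (Ideal.absNorm v.asIdeal) = t}.HasDirichletDensity
      0 := by
  obtain ⟨M, hM⟩ := galoisSurjectiveTorsion_large E h
  exact trace_density_zero_of_surjective E ⟨M, fun p hp hlt φ => hM p hp hlt φ⟩ t

/-- **Supersingular primes have density zero** (Serre): for an elliptic curve over `ℚ` with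
non-integral invariant, the primes `p` dividing `a_p` have Dirichlet density zero. -/
theorem supersingular_density_zero (E : WeierstrassCurve ℚ) [E.IsElliptic]
    (h : ∃ q : ℕ, q.Prime ∧ padicValRat q E.j < 0) :
    {v : HeightOneSpectrum (𝓞 ℚ) |
      (Ideal.absNorm v.asIdeal : ℤ) ∣ E.LFunction (Ideal.absNorm v.asIdeal)}.HasDirichletDensity
        0 :=
  density_dvd_of_density_eq_zero E (traceFrobenius_density_zero E h 0)

/-- **Ordinary primes have density one.** -/
theorem ordinary_density_one (E : WeierstrassCurve ℚ) [E.IsElliptic]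
    (h : ∃ q : ℕ, q.Prime ∧ padicValRat q E.j < 0) :
    {v : HeightOneSpectrum (𝓞 ℚ) |
      ¬ (Ideal.absNorm v.asIdeal : ℤ) ∣ E.LFunction (Ideal.absNorm v.asIdeal)}.HasDirichletDensity
        1 := by
  simpa [Set.compl_ofPred] using hasDirichletDensity_compl (supersingular_density_zero E h)

end FA.Summary

end
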