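import Fermat.Agent.Root.SummaryCauchyBernoulli
import Mathlib.NumberTheory.Bernoulli
import Mathlib.NumberTheory.ZetaValues
import Mathlib.Topology.Algebra.Order.Floor

/-!
# Kummer's congruence and Jensen's theorem on irregular primes

* `voronoi_congruence`, `kummer_congruence`: for `p ≥ 5` and even `m` with `p - 1 ∤ m`, `B_m / m` is
  `p`-integral, and modulo `p` it depends only on `m` modulo `p - 1`.
* `infinite_irregular_primes`: infinitely many primes `p` divide the numerator of some `B_k`,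
  `k` even, `2 ≤ k ≤ p - 3`: Kummer's proof of Fermat's last theorem fails at infinitely many exponents.
-/

set_option autoImplicit false

noncomputable section

open Finset
open scoped Real Nat

namespace FA.OrderTheta

variable {p : ℕ} [hp : Fact p.Prime]

theorem not_pIntegral_inv_self : ¬ PIntegral p ((p : ℚ)⁻¹) := by
  rw [PIntegral, Rat.inv_natCast_den_of_pos hp.out.pos]
  exact fun h => h dvd_rfl

/-- `p B_i` is `p`-integral. -/
theorem pIntegral_mul_bernoulli (i : ℕ) : PIntegral p ((p : ℚ) * bernoulli i) := by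
  rcases Nat.even_or_odd' i with ⟨k, rfl | rfl⟩
  · obtain ⟨z, hz⟩ := Bernoulli.vonStaudt_clausen k
    rw [show bernoulli (2 * k) = (z : ℚ) + ((-1 : ℤ) : ℚ) *
      (∑ q ∈ range (2 * k + 2) with q.Prime ∧ (q - 1) ∣ 2 * k, (1 : ℚ) / q) by
        rw [hz]; push_cast; ring, mul_add, ← mul_assoc, Finset.mul_sum]
    refine ((PIntegral.natCast p).mul (PIntegral.intCast z)).add (PIntegral.sum fun q hq => ?_)
    obtain ⟨-, hqp, -⟩ := mem_filter.mp hq
    by_cases e : q = p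
    · subst e
      rw [show (q : ℚ) * ((-1 : ℤ) : ℚ) * (1 / q) = ((-1 : ℤ) : ℚ) by
        field_simp [Nat.cast_ne_zero.mpr hqp.ne_zero]]
      exact PIntegral.intCast _
    · rw [one_div]
      exact ((PIntegral.natCast p).mul (PIntegral.intCast _)).mul
        (PIntegral.inv_natCast fun h => e ((Nat.prime_dvd_prime_iff_eq hp.out hqp).mp h).symm)
  · rcases k with _ | k
    · rw [mul_zero, zero_add, bernoulli_one]
      by_cases h2 : p = 2
      · subst h2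
        rw [show ((2 : ℕ) : ℚ) * (-1 / 2) = ((-1 : ℤ) : ℚ) by push_cast; ring]
        exact PIntegral.intCast _
      · rw [show (p : ℚ) * (-1 / 2) = (p : ℚ) * (((-1 : ℤ) : ℚ) * ((2 : ℕ) : ℚ)⁻¹) by push_cast; ring]
        exact (PIntegral.natCast p).mul ((PIntegral.intCast _).mul (PIntegral.inv_natCast fun h =>
          h2 ((Nat.prime_dvd_prime_iff_eq hp.out Nat.prime_two).mp h)))
    · rw [bernoulli_eq_zero_of_odd (by exact ⟨k + 1, rfl⟩) (by omega), mul_zero]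
      exact_mod_cast PIntegral.intCast 0

/-- The von Staudt primes are in the denominator. -/
theorem dvd_den_bernoulli {k : ℕ} (hk : 0 < k) (h : p - 1 ∣ 2 * k) :
    ¬ PIntegral p (bernoulli (2 * k)) := by
  intro hB
  obtain ⟨z, hz⟩ := Bernoulli.vonStaudt_clausen k
  set S := (range (2 * k + 2)).filter fun q => q.Prime ∧ (q - 1) ∣ 2 * k
  have hpS : p ∈ S := mem_filter.mpr ⟨mem_range.mpr (by
    have := Nat.le_of_dvd (by omega) h; omega), hp.out, h⟩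
  rw [← Finset.add_sum_erase S _ hpS] at hz
  refine not_pIntegral_inv_self (p := p) ?_
  rw [show (p : ℚ)⁻¹ = (z : ℚ) + ((-1 : ℤ) : ℚ) * bernoulli (2 * k) +
    ((-1 : ℤ) : ℚ) * ∑ q ∈ S.erase p, (1 : ℚ) / q by rw [hz]; push_cast; ring]
  refine ((PIntegral.intCast z).add ((PIntegral.intCast _).mul hB)).add
    ((PIntegral.intCast _).mul (PIntegral.sum fun q hq => ?_))
  obtain ⟨hne, hq'⟩ := mem_erase.mp hq
  rw [one_div]
  exact PIntegral.inv_natCast fun hd =>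
    hne ((Nat.prime_dvd_prime_iff_eq hp.out (mem_filter.mp hq').2.1).mp hd).symm

/-- `p^e / i` is integral when `p^v ≤ i` bounds `v` by `e`. -/
theorem pIntegral_pow_mul_inv (hp5 : 5 ≤ p) {i e : ℕ} (hi : i ≠ 0) (he : i ≤ e + 3) :
    PIntegral p (((p ^ e : ℕ) : ℚ) * (i : ℚ)⁻¹) := by
  obtain ⟨v, u, hu, rfl⟩ := Nat.exists_eq_pow_mul_and_not_dvd hi p hp.out.ne_one
  have hu0 : u ≠ 0 := right_ne_zero_of_mul hi
  have hv : v ≤ e := by
    rcases Nat.eq_zero_or_pos v with h0 | h0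
    · omega
    · have h5 : ∀ w : ℕ, 1 ≤ w → w + 4 ≤ 5 ^ w := fun w hw => by
        induction w, hw using Nat.le_induction with
        | base => norm_num
        | succ w _ ih => rw [pow_succ]; omega
      have h1 : 5 ^ v ≤ p ^ v := Nat.pow_le_pow_left hp5 v
      have h2 : p ^ v ≤ p ^ v * u := Nat.le_mul_of_pos_right _ (Nat.pos_of_ne_zero hu0)
      have := h5 v h0
      omega
  obtain ⟨d, rfl⟩ := Nat.exists_eq_add_of_le hv
  rw [show ((p ^ (v + d) : ℕ) : ℚ) * ((p ^ v * u : ℕ) : ℚ)⁻¹ = ((p ^ d : ℕ) : ℚ) * (u : ℚ)⁻¹ by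
    have : (p : ℚ) ≠ 0 := Nat.cast_ne_zero.mpr hp.out.ne_zero
    push_cast
    rw [pow_add]
    field_simp]
  exact (PIntegral.natCast _).mul (PIntegral.inv_natCast hu)

/-- Congruence of rationals modulo `p`. -/
def RatCong (p : ℕ) (x y : ℚ) : Prop := ∃ t : ℚ, PIntegral p t ∧ x = y + (p : ℚ) * t

theorem RatCong.pIntegral {x y : ℚ} (h : RatCong p x y) (hy : PIntegral p y) : PIntegral p x := by
  obtain ⟨t, ht, rfl⟩ := h
  exact hy.add ((PIntegral.natCast p).mul ht)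

theorem RatCong.intCast {x y : ℤ} (h : (x : ZMod p) = (y : ZMod p)) : RatCong p (x : ℚ) (y : ℚ) := by
  obtain ⟨c, hc⟩ := (ZMod.intCast_eq_intCast_iff_dvd_sub y x p).mp h.symm
  exact ⟨(c : ℚ), PIntegral.intCast c, by
    have e : (x : ℚ) - y = (p : ℚ) * c := by exact_mod_cast hc
    linarith⟩

theorem RatCong.num_dvd {x : ℚ} (h : RatCong p x 0) : (p : ℤ) ∣ x.num := by
  obtain ⟨t, ht, rfl⟩ := h
  set x := 0 + (p : ℚ) * t with hx
  have e : (x.num * t.den : ℤ) = (p : ℤ) * (t.num * x.den) := by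
    have h : (x.num : ℚ) * (t.den : ℚ) = (p : ℚ) * ((t.num : ℚ) * (x.den : ℚ)) := by
      rw [← Rat.mul_den_eq_num x, ← Rat.mul_den_eq_num t, hx]
      ring
    exact_mod_cast h
  rcases (Nat.prime_iff_prime_int.mp hp.out).dvd_or_dvd (Dvd.intro _ e.symm) with h' | h'
  · exact h'
  · exact absurd (Int.natCast_dvd_natCast.mp h') ht

/-- Second order remainder of the binomial theorem. -/
theorem binom_remainder (hp5 : 5 ≤ p) {m : ℕ} (hm : 2 ≤ m) (x q : ℤ) :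
    ∃ t : ℚ, PIntegral p t ∧ ((x : ℚ) + (p : ℚ) * q) ^ m =
      (x : ℚ) ^ m + (m : ℚ) * (x : ℚ) ^ (m - 1) * ((p : ℚ) * q) + (m : ℚ) * (p : ℚ) ^ 2 * t := by
  obtain ⟨m, rfl⟩ : ∃ n, m = n + 2 := ⟨m - 2, by omega⟩
  refine ⟨∑ i ∈ range (m + 1), ((((p ^ i : ℕ) : ℚ) * ((i + 2 : ℕ) : ℚ)⁻¹) *
    (((m + 1).choose (i + 1) : ℕ) : ℚ)) * ((q ^ (i + 2) * x ^ (m - i) : ℤ) : ℚ), ?_, ?_⟩
  · exact PIntegral.sum fun i _ => ((pIntegral_pow_mul_inv hp5 (by omega) (by omega)).mul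
      (PIntegral.natCast _)).mul (PIntegral.intCast _)
  · rw [add_comm (x : ℚ), add_pow, Finset.sum_range_succ', Finset.sum_range_succ', Finset.mul_sum]
    simp only [zero_add, pow_zero, pow_one, Nat.choose_zero_right, Nat.choose_one_right, Nat.cast_one,
      Nat.sub_zero, one_mul, mul_one, show m + 2 - 1 = m + 1 from rfl]
    have e : ∀ i ∈ range (m + 1), ((p : ℚ) * q) ^ (i + 1 + 1) * (x : ℚ) ^ (m + 2 - (i + 1 + 1)) *
        (((m + 2).choose (i + 1 + 1) : ℕ) : ℚ) = ((m + 2 : ℕ) : ℚ) * (p : ℚ) ^ 2 *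
          ((((p ^ i : ℕ) : ℚ) * ((i + 2 : ℕ) : ℚ)⁻¹ * (((m + 1).choose (i + 1) : ℕ) : ℚ)) *
            ((q ^ (i + 2) * x ^ (m - i) : ℤ) : ℚ)) := by
      intro i hi
      have h := Nat.add_one_mul_choose_eq (m + 1) (i + 1)
      have h' : ((m + 2 : ℕ) : ℚ) * (((m + 1).choose (i + 1) : ℕ) : ℚ) =
          (((m + 2).choose (i + 2) : ℕ) : ℚ) * ((i + 2 : ℕ) : ℚ) := by exact_mod_cast h
      have h0 : ((i + 2 : ℕ) : ℚ) ≠ 0 := by exact_mod_cast (show i + 2 ≠ 0 by omega)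
      rw [show i + 1 + 1 = i + 2 by omega, show m + 2 - (i + 2) = m - i by omega,
        show (((m + 2).choose (i + 2) : ℕ) : ℚ) =
          ((m + 2 : ℕ) : ℚ) * (((m + 1).choose (i + 1) : ℕ) : ℚ) * ((i + 2 : ℕ) : ℚ)⁻¹ by
            rw [h', mul_inv_cancel_right₀ h0]]
      push_cast
      ring
    rw [Finset.sum_congr rfl e]
    ring

/-- Faulhaber: `∑ r^m = p B_m + p² m T`. -/
theorem powerSum_remainder (hp5 : 5 ≤ p) {m : ℕ} (hm : 2 ≤ m) (hev : Even m) :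
    ∃ T : ℚ, PIntegral p T ∧
      ∑ r ∈ range p, (r : ℚ) ^ m = (p : ℚ) * bernoulli m + (m : ℚ) * (p : ℚ) ^ 2 * T := by
  have hterm : ∀ i ∈ range m, ∃ t : ℚ, PIntegral p t ∧
      bernoulli i * ((m + 1).choose i : ℚ) * (p : ℚ) ^ (m + 1 - i) / (m + 1) =
        (m : ℚ) * (p : ℚ) ^ 2 * t := by
    intro i hi
    rw [mem_range] at hi
    have hmQ : (m : ℚ) ≠ 0 := by exact_mod_cast (show m ≠ 0 by omega)
    rcases (show i + 1 = m ∨ i + 2 ≤ m by omega) with e | e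
    · rcases (show i = 1 ∨ 2 ≤ i by omega) with rfl | h2
      · subst e
        refine ⟨((-1 : ℤ) : ℚ) * (((2 : ℕ) : ℚ)⁻¹ * ((2 : ℕ) : ℚ)⁻¹), (PIntegral.intCast _).mul
          ((PIntegral.inv_natCast fun h => by have := Nat.le_of_dvd two_pos h; omega).mul
            (PIntegral.inv_natCast fun h => by have := Nat.le_of_dvd two_pos h; omega)), ?_⟩
        rw [bernoulli_one, Nat.choose_one_right]
        push_cast
        ring
      · refine ⟨0, by exact_mod_cast PIntegral.intCast 0, ?_⟩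
        rw [bernoulli_eq_zero_of_odd (by rw [Nat.odd_iff]; rw [Nat.even_iff] at hev; omega) (by omega)]
        ring
    · obtain ⟨d, rfl⟩ : ∃ d, m = i + 2 + d := ⟨m - i - 2, by omega⟩
      have hint : PIntegral p (((p ^ d : ℕ) : ℚ) * ((d + 2 : ℕ) : ℚ)⁻¹ * ((d + 3 : ℕ) : ℚ)⁻¹) := by
        by_cases hd : p ∣ d + 3
        · rw [mul_comm ((p ^ d : ℕ) : ℚ), mul_assoc]
          refine (PIntegral.inv_natCast fun h => ?_).mul (pIntegral_pow_mul_inv hp5 (by omega) le_rfl)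
          have := Nat.le_of_dvd one_pos ((Nat.dvd_add_right h).mp (show p ∣ d + 2 + 1 from hd))
          omega
        · exact (pIntegral_pow_mul_inv hp5 (by omega) (by omega)).mul (PIntegral.inv_natCast hd)
      refine ⟨((p : ℚ) * bernoulli i) * (((i + 2 + d - 1).choose i : ℕ) : ℚ) *
        (((p ^ d : ℕ) : ℚ) * ((d + 2 : ℕ) : ℚ)⁻¹ * ((d + 3 : ℕ) : ℚ)⁻¹),
        ((pIntegral_mul_bernoulli i).mul (PIntegral.natCast _)).mul hint, ?_⟩
      rw [show i + 2 + d - 1 = i + 1 + d by omega, show i + 2 + d + 1 - i = d + 3 by omega]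
      have h1 := Nat.choose_mul_succ_eq (i + 1 + d) i
      have h2 := Nat.choose_mul_succ_eq (i + 1 + d + 1) i
      rw [show i + 1 + d + 1 - i = d + 2 by omega] at h1
      rw [show i + 1 + d + 1 + 1 - i = d + 3 by omega] at h2
      have h1' : (((i + 1 + d).choose i : ℕ) : ℚ) * ((i + 1 + d + 1 : ℕ) : ℚ) =
          (((i + 1 + d + 1).choose i : ℕ) : ℚ) * ((d + 2 : ℕ) : ℚ) := by exact_mod_cast h1
      have h2' : (((i + 1 + d + 1).choose i : ℕ) : ℚ) * ((i + 1 + d + 1 + 1 : ℕ) : ℚ) =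
          (((i + 1 + d + 1 + 1).choose i : ℕ) : ℚ) * ((d + 3 : ℕ) : ℚ) := by exact_mod_cast h2
      rw [show i + 2 + d + 1 = i + 1 + d + 1 + 1 by omega]
      have ha : ((d + 2 : ℕ) : ℚ) ≠ 0 := by exact_mod_cast (show d + 2 ≠ 0 by omega)
      have hb : ((d + 3 : ℕ) : ℚ) ≠ 0 := by exact_mod_cast (show d + 3 ≠ 0 by omega)
      rw [show (((i + 1 + d + 1 + 1).choose i : ℕ) : ℚ) =
          (((i + 1 + d).choose i : ℕ) : ℚ) * ((i + 1 + d + 1 : ℕ) : ℚ) * ((d + 2 : ℕ) : ℚ)⁻¹ *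
            ((i + 1 + d + 1 + 1 : ℕ) : ℚ) * ((d + 3 : ℕ) : ℚ)⁻¹ by
          rw [h1', mul_inv_cancel_right₀ ha, h2', mul_inv_cancel_right₀ hb]]
      rw [show (((i + 2 + d : ℕ)) : ℚ) + 1 = ((i + 1 + d + 1 + 1 : ℕ) : ℚ) by push_cast; ring]
      have hn : ((i + 1 + d + 1 + 1 : ℕ) : ℚ) ≠ 0 := by
        exact_mod_cast (show i + 1 + d + 1 + 1 ≠ 0 by omega)
      rw [pow_add]
      field_simp
      push_cast
      ring
  choose t ht he using hterm
  refine ⟨∑ i ∈ (range m).attach, t i.1 i.2, PIntegral.sum fun i _ => ht i.1 i.2, ?_⟩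
  rw [sum_range_pow, Finset.sum_range_succ, Finset.mul_sum,
    ← Finset.sum_attach (range m) (fun i => bernoulli i * ((m + 1).choose i : ℚ) *
      (p : ℚ) ^ (m + 1 - i) / ((m : ℚ) + 1)), Finset.sum_congr rfl fun i _ => he i.1 i.2,
    Nat.choose_succ_self_right, show m + 1 - m = 1 by omega, add_comm]
  congr 1
  push_cast
  field_simp

/-- The Voronoi sum. -/
def voronoiSum (p a m : ℕ) : ℕ := a ^ (m - 1) * ∑ r ∈ range p, r ^ (m - 1) * (a * r / p)

/-- **Voronoi's congruence.** -/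
theorem voronoi_congruence (hp5 : 5 ≤ p) {m : ℕ} (hm : 2 ≤ m) (hev : Even m) {a : ℕ}
    (ha : (a : ZMod p) ≠ 0) :
    RatCong p (((a : ℚ) ^ m - 1) * (bernoulli m / m)) (voronoiSum p a m : ℚ) := by
  obtain ⟨T, hT, hS⟩ := powerSum_remainder hp5 hm hev
  choose t ht he using fun r : ℕ =>
    binom_remainder (p := p) hp5 hm ((a * r : ℕ) : ℤ) (-((a * r / p : ℕ) : ℤ))
  have hperm : ∑ r ∈ range p, ((a * r % p : ℕ) : ℚ) ^ m = ∑ r ∈ range p, (r : ℚ) ^ m := by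
    refine Finset.sum_nbij (fun r => a * r % p) (fun r _ => mem_range.mpr (Nat.mod_lt _ hp.out.pos))
      ?_ ?_ (fun r _ => rfl)
    · intro r hr r' hr' e
      rw [coe_range, Set.mem_Iio] at hr hr'
      have e' := congrArg (Nat.cast : ℕ → ZMod p) e
      rw [ZMod.natCast_mod, ZMod.natCast_mod, Nat.cast_mul, Nat.cast_mul] at e'
      have := (ZMod.natCast_eq_natCast_iff' r r' p).mp (mul_left_cancel₀ ha e')
      rwa [Nat.mod_eq_of_lt hr, Nat.mod_eq_of_lt hr'] at this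
    · intro r hr
      rw [coe_range, Set.mem_Iio] at hr
      refine ⟨((a : ZMod p)⁻¹ * (r : ZMod p)).val, mem_range.mpr (ZMod.val_lt _), ?_⟩
      show a * _ % p = r
      refine ((ZMod.natCast_eq_natCast_iff' _ _ p).mp ?_).trans (Nat.mod_eq_of_lt hr)
      rw [Nat.cast_mul, ZMod.natCast_zmod_val, mul_inv_cancel_left₀ ha]
  have hcast : ∀ r : ℕ, ((a * r % p : ℕ) : ℚ) =
      (((a * r : ℕ) : ℤ) : ℚ) + (p : ℚ) * ((-((a * r / p : ℕ) : ℤ)) : ℤ) := fun r => by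
    have h := Nat.mod_add_div (a * r) p
    have h' : ((a * r % p : ℕ) : ℚ) + (p : ℚ) * ((a * r / p : ℕ) : ℚ) = ((a * r : ℕ) : ℚ) := by
      exact_mod_cast h
    rw [Int.cast_natCast, Int.cast_neg, Int.cast_natCast]
    linarith
  rw [Finset.sum_congr rfl fun r _ => by rw [hcast r, he r], sum_add_distrib, sum_add_distrib,
    ← Finset.mul_sum] at hperm
  refine ⟨((-1 : ℤ) : ℚ) * ((((a ^ m : ℕ) : ℚ) + ((-1 : ℤ) : ℚ)) * T + ∑ r ∈ range p, t r),
    (PIntegral.intCast _).mul (((((PIntegral.natCast _).add (PIntegral.intCast _))).mul hT).add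
      (PIntegral.sum fun r _ => ht r)), ?_⟩
  have hmQ : (m : ℚ) ≠ 0 := by exact_mod_cast (show m ≠ 0 by omega)
  have hpQ : (p : ℚ) ≠ 0 := by exact_mod_cast hp.out.ne_zero
  have e1 : ∑ r ∈ range p, (((a * r : ℕ) : ℤ) : ℚ) ^ m = (a : ℚ) ^ m * ∑ r ∈ range p, (r : ℚ) ^ m := by
    rw [Finset.mul_sum]
    exact Finset.sum_congr rfl fun r _ => by push_cast; rw [mul_pow]
  have e2 : ∑ r ∈ range p, (m : ℚ) * (((a * r : ℕ) : ℤ) : ℚ) ^ (m - 1) *
      ((p : ℚ) * ((-((a * r / p : ℕ) : ℤ) : ℤ) : ℚ)) =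
      -((m : ℚ) * (p : ℚ) * (voronoiSum p a m : ℚ)) := by
    rw [voronoiSum, Nat.cast_mul, Nat.cast_sum, Finset.mul_sum, Finset.mul_sum,
      ← Finset.sum_neg_distrib]
    refine Finset.sum_congr rfl fun r _ => ?_
    rw [Int.cast_neg, Int.cast_natCast, Int.cast_natCast]
    push_cast
    rw [mul_pow]
    ring
  rw [e1, e2, hS] at hperm
  have hp2 : (p : ℚ) * (m : ℚ) ≠ 0 := mul_ne_zero hpQ hmQ
  push_cast
  refine mul_left_cancel₀ hp2 ?_
  field_simp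
  refine mul_left_cancel₀ hpQ ?_
  linear_combination hperm

theorem voronoiSum_congr {a m n : ℕ} (hm : 2 ≤ m) (hn : 2 ≤ n) (h : m ≡ n [MOD p - 1]) :
    (voronoiSum p a m : ZMod p) = (voronoiSum p a n : ZMod p) := by
  have key : ∀ x : ZMod p, x ^ (m - 1) = x ^ (n - 1) := by
    intro x
    by_cases hx : x = 0
    · rw [hx, zero_pow (by omega), zero_pow (by omega)]
    · refine mul_right_cancel₀ hx ?_
      rw [← pow_succ, ← pow_succ, show m - 1 + 1 = m by omega, show n - 1 + 1 = n by omega,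
        ← Nat.mod_add_div m (p - 1), ← Nat.mod_add_div n (p - 1), pow_add, pow_add, pow_mul, pow_mul,
        ZMod.pow_card_sub_one_eq_one hx, one_pow, one_pow, h]
  simp only [voronoiSum, Nat.cast_mul, Nat.cast_sum, Nat.cast_pow, key]

theorem exists_multiplier {m : ℕ} (hm : ¬ p - 1 ∣ m) :
    ∃ a : ℕ, (a : ZMod p) ≠ 0 ∧ (a : ZMod p) ^ m ≠ 1 := by
  obtain ⟨u, hu⟩ : ∃ u : (ZMod p)ˣ, u ^ m ≠ 1 := by
    by_contra h
    push Not at h
    have h' := (FiniteField.forall_pow_eq_one_iff (ZMod p) m).mp h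
    rw [ZMod.card] at h'
    exact hm h'
  refine ⟨(u : ZMod p).val, ?_, ?_⟩ <;> rw [ZMod.natCast_zmod_val]
  · exact u.ne_zero
  · exact fun e => hu (Units.ext (by rw [Units.val_pow_eq_pow_val, e, Units.val_one]))

theorem pIntegral_inv_pow_sub_one {a m : ℕ} (ha : 0 < a) (h : (a : ZMod p) ^ m ≠ 1) :
    PIntegral p (((a : ℚ) ^ m - 1)⁻¹) ∧ ((a : ℚ) ^ m - 1) ≠ 0 := by
  have h1 : 1 ≤ a ^ m := Nat.one_le_pow _ _ ha
  have e : (a : ℚ) ^ m - 1 = ((a ^ m - 1 : ℕ) : ℚ) := by push_cast [Nat.cast_sub h1]; rfl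
  have hnd : ¬ p ∣ a ^ m - 1 := fun hd => h (by
    have h' := (ZMod.natCast_eq_zero_iff _ p).mpr hd
    rw [Nat.cast_sub h1, Nat.cast_pow, Nat.cast_one, sub_eq_zero] at h'
    exact h')
  rw [e]
  exact ⟨PIntegral.inv_natCast hnd, Nat.cast_ne_zero.mpr fun h0 => hnd (h0 ▸ dvd_zero p)⟩

theorem pIntegral_bernoulli_div (hp5 : 5 ≤ p) {m : ℕ} (hm : 2 ≤ m) (hev : Even m)
    (hdvd : ¬ p - 1 ∣ m) : PIntegral p (bernoulli m / m) := by
  obtain ⟨a, ha, hne⟩ := exists_multiplier hdvd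
  have ha0 : 0 < a := Nat.pos_of_ne_zero fun e => ha (by rw [e, Nat.cast_zero])
  obtain ⟨hinv, h0⟩ := pIntegral_inv_pow_sub_one ha0 hne
  rw [show bernoulli m / (m : ℚ) = ((a : ℚ) ^ m - 1)⁻¹ * (((a : ℚ) ^ m - 1) * (bernoulli m / m)) by
    rw [inv_mul_cancel_left₀ h0]]
  exact hinv.mul ((voronoi_congruence hp5 hm hev ha).pIntegral (PIntegral.natCast _))

theorem ratCong_bernoulli_div (hp5 : 5 ≤ p) {m n : ℕ} (hm : 2 ≤ m) (hn : 2 ≤ n) (hev : Even m)
    (hev' : Even n) (hdvd : ¬ p - 1 ∣ m) (hmn : m ≡ n [MOD p - 1]) :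
    RatCong p (bernoulli m / m) (bernoulli n / n) := by
  have hdvd' : ¬ p - 1 ∣ n := fun h => hdvd ((Nat.ModEq.dvd_iff hmn dvd_rfl).mpr h)
  obtain ⟨a, ha, hne⟩ := exists_multiplier hdvd
  have ha0 : 0 < a := Nat.pos_of_ne_zero fun e => ha (by rw [e, Nat.cast_zero])
  obtain ⟨hinv, h0⟩ := pIntegral_inv_pow_sub_one ha0 hne
  obtain ⟨t, ht, e⟩ := voronoi_congruence hp5 hm hev ha
  obtain ⟨t', ht', e'⟩ := voronoi_congruence hp5 hn hev' ha
  obtain ⟨w, hw, ew⟩ := RatCong.intCast (p := p) (x := (voronoiSum p a m : ℤ))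
    (y := (voronoiSum p a n : ℤ)) (by exact_mod_cast voronoiSum_congr (a := a) hm hn hmn)
  have hpow : (a : ZMod p) ^ m = (a : ZMod p) ^ n := by
    rw [← Nat.mod_add_div m (p - 1), ← Nat.mod_add_div n (p - 1), pow_add, pow_add, pow_mul, pow_mul,
      ZMod.pow_card_sub_one_eq_one ha, one_pow, one_pow, hmn]
  obtain ⟨c, hc, ec⟩ := RatCong.intCast (p := p) (x := ((a ^ n : ℕ) : ℤ))
    (y := ((a ^ m : ℕ) : ℤ)) (by exact_mod_cast hpow.symm)
  push_cast at ew ec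
  refine ⟨((a : ℚ) ^ m - 1)⁻¹ * (t + w + ((-1 : ℤ) : ℚ) * t' + c * (bernoulli n / n)),
    hinv.mul (((ht.add hw).add ((PIntegral.intCast _).mul ht')).add
      (hc.mul (pIntegral_bernoulli_div hp5 hn hev' hdvd'))), ?_⟩
  refine mul_left_cancel₀ h0 ?_
  push_cast
  rw [mul_add (((a : ℚ) ^ m - 1)), mul_left_comm ((a : ℚ) ^ m - 1) (p : ℚ),
    ← mul_assoc ((a : ℚ) ^ m - 1) (((a : ℚ) ^ m - 1)⁻¹), mul_inv_cancel₀ h0, one_mul]
  linear_combination e - e' + ew + (bernoulli n / n) * ec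

end FA.OrderTheta

namespace FA.Summary

open FA.OrderTheta

/-- **Kummer's congruence.** -/
theorem kummer_congruence (p : ℕ) [Fact p.Prime] (hp5 : 5 ≤ p) (m n : ℕ) (hm : 2 ≤ m) (hn : 2 ≤ n)
    (hev : Even m) (hev' : Even n) (hdvd : ¬ p - 1 ∣ m) (hmn : m ≡ n [MOD p - 1]) :
    ¬ p ∣ (bernoulli m / m).den ∧ ¬ p ∣ (bernoulli n / n).den ∧
      (p : ℤ) ∣ (bernoulli m / m - bernoulli n / n).num := by
  refine ⟨pIntegral_bernoulli_div hp5 hm hev hdvd, pIntegral_bernoulli_div hp5 hn hev'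
    (fun h => hdvd ((Nat.ModEq.dvd_iff hmn dvd_rfl).mpr h)), RatCong.num_dvd ?_⟩
  obtain ⟨t, ht, e⟩ := ratCong_bernoulli_div hp5 hm hn hev hev' hdvd hmn
  exact ⟨t, ht, by rw [e]; ring⟩

theorem exists_large_bernoulli (L : ℕ) (hL : 0 < L) :
    ∃ k, 0 < k ∧ L ∣ k ∧ ((2 * k : ℕ) : ℝ) < |((bernoulli (2 * k) : ℚ) : ℝ)| := by
  have hev := (FloorSemiring.tendsto_pow_div_factorial_atTop (2 * π)).eventually
    (eventually_lt_nhds (show (0 : ℝ) < 2 / (2 * π) by positivity))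
  rw [Filter.eventually_atTop] at hev
  obtain ⟨N, hN⟩ := hev
  refine ⟨L * (N + 1), Nat.mul_pos hL (Nat.succ_pos N), dvd_mul_right _ _, ?_⟩
  set k := L * (N + 1) with hk
  have hk0 : 0 < k := Nat.mul_pos hL (Nat.succ_pos N)
  have hNk : N + 1 ≤ k := Nat.le_mul_of_pos_left _ hL
  obtain ⟨j, hj⟩ : ∃ j, 2 * k = j + 1 := ⟨2 * k - 1, by omega⟩
  have hjN := hN j (by omega)
  have hs := hasSum_zeta_nat (k := k) hk0.ne'
  have h1 : (1 : ℝ) ≤ (-1 : ℝ) ^ (k + 1) * (2 : ℝ) ^ (2 * k - 1) * π ^ (2 * k) *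
      bernoulli (2 * k) / (2 * k)! := by
    refine le_trans ?_ (le_hasSum hs 1 fun i _ => by positivity)
    simp
  have h2 : (1 : ℝ) ≤ (2 : ℝ) ^ (2 * k - 1) * π ^ (2 * k) *
      |((bernoulli (2 * k) : ℚ) : ℝ)| / (2 * k)! := by
    refine h1.trans ((le_abs_self _).trans (le_of_eq ?_))
    rw [abs_div, abs_mul, abs_mul, abs_mul, abs_pow, abs_neg, abs_one, one_pow, one_mul,
      abs_of_pos (show (0 : ℝ) < 2 ^ (2 * k - 1) by positivity),
      abs_of_pos (show (0 : ℝ) < π ^ (2 * k) by positivity), Nat.abs_cast]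
  rw [hj, Nat.add_sub_cancel, le_div_iff₀ (by positivity), one_mul, Nat.factorial_succ, Nat.cast_mul,
    pow_succ π] at h2
  rw [div_lt_div_iff₀ (by positivity) (by positivity), mul_pow] at hjN
  rw [hj]
  set B := |((bernoulli (j + 1) : ℚ) : ℝ)|
  have hB : 0 ≤ B := abs_nonneg _
  have hf : (0 : ℝ) < (j ! : ℝ) := by positivity
  have hu : (0 : ℝ) < 2 ^ j * π ^ j := by positivity
  by_contra hle
  push Not at hle
  have h3 := mul_le_mul_of_nonneg_left hle (show (0 : ℝ) ≤ 2 ^ j * π ^ j * π by positivity)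
  have h4 : (((j + 1 : ℕ)) : ℝ) * (j ! : ℝ) ≤ 2 ^ j * π ^ j * π * ((j + 1 : ℕ) : ℝ) :=
    le_trans h2 (le_of_eq_of_le (by ring) h3)
  have h5 : (0 : ℝ) < ((j + 1 : ℕ) : ℝ) := by positivity
  have h6 : (j ! : ℝ) ≤ 2 ^ j * π ^ j * π := le_of_mul_le_mul_left (by linarith) h5
  nlinarith [Real.pi_pos]

/-- **Jensen–Carlitz: there are infinitely many irregular primes.** -/
theorem infinite_irregular_primes :
    {p : ℕ | p.Prime ∧ ∃ k, Even k ∧ 2 ≤ k ∧ k ≤ p - 3 ∧ (p : ℤ) ∣ (bernoulli k).num}.Infinite := by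
  intro hfin
  set F := hfin.toFinset
  have hL : 0 < ∏ q ∈ F, (q - 1) := Finset.prod_pos fun q hq => by
    have := (hfin.mem_toFinset.mp hq).1.two_le
    omega
  obtain ⟨k, hk, hdvd, hbig⟩ := exists_large_bernoulli _ hL
  set x := bernoulli (2 * k) / ((2 * k : ℕ) : ℚ) with hx
  have hx1 : (1 : ℝ) < |((x : ℚ) : ℝ)| := by
    rw [hx, Rat.cast_div, Rat.cast_natCast, abs_div, Nat.abs_cast,
      one_lt_div (by positivity)]
    exact hbig
  have hnum : x.num.natAbs ≠ 1 := by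
    intro e
    refine hx1.not_ge ?_
    rw [← Rat.cast_abs, show |x| = (x.num.natAbs : ℚ) / x.den from ?_, e]
    · push_cast
      rw [div_le_one (by exact_mod_cast x.den_pos)]
      exact_mod_cast x.den_pos
    · rw [Nat.cast_natAbs, Int.cast_abs]
      nth_rewrite 1 [← Rat.num_div_den x]
      rw [abs_div, Nat.abs_cast]
  obtain ⟨q, hq, hqd⟩ := Nat.exists_prime_and_dvd hnum
  have : Fact q.Prime := ⟨hq⟩
  have hqx : (q : ℤ) ∣ x.num := Int.natCast_dvd.mpr hqd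
  have hxden : PIntegral q x := fun h => hq.ne_one (Nat.eq_one_of_dvd_coprimes x.reduced hqd h)
  have hB : bernoulli (2 * k) = ((2 * k : ℕ) : ℚ) * x := by
    rw [hx, mul_div_cancel₀ _ (by exact_mod_cast (show 2 * k ≠ 0 by omega))]
  have hq1 : ¬ q - 1 ∣ 2 * k := fun h =>
    dvd_den_bernoulli hk h (by rw [hB]; exact (PIntegral.natCast _).mul hxden)
  have h2 := hq.two_le
  have hq5 : 5 ≤ q := by
    by_contra h
    rcases (show q = 2 ∨ q = 3 ∨ q = 4 by omega) with rfl | rfl | rfl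
    · exact hq1 (one_dvd _)
    · exact hq1 (dvd_mul_right 2 k)
    · norm_num at hq
  have hqev : Even (q - 1) := Nat.even_iff.mpr (by have := hq.eq_two_or_odd; omega)
  set m := 2 * k % (q - 1) with hm
  have hm0 : m ≠ 0 := fun e => hq1 (Nat.dvd_of_mod_eq_zero e)
  have hmlt : m < q - 1 := Nat.mod_lt _ (by omega)
  have hmev : Even m := by
    rw [hm, Nat.even_iff, Nat.mod_mod_of_dvd _ hqev.two_dvd]
    omega
  have hmle : m ≤ q - 3 ∧ 2 ≤ m := by
    rw [Nat.even_iff] at hqev hmev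
    omega
  have hmdvd : ¬ q - 1 ∣ m := fun h => by
    have := Nat.le_of_dvd (by omega) h
    omega
  obtain ⟨t, ht, e⟩ := ratCong_bernoulli_div hq5 hmle.2 (show 2 ≤ 2 * k by omega) hmev
    (even_two_mul k) hmdvd (Nat.mod_modEq _ _)
  obtain ⟨c, hc⟩ := hqx
  have hxc : x = (q : ℚ) * ((c : ℚ) * ((x.den : ℕ) : ℚ)⁻¹) := by
    rw [← mul_assoc, ← div_eq_mul_inv]
    nth_rewrite 1 [← Rat.num_div_den x]
    rw [hc]
    push_cast
    rfl
  have hirr : (q : ℤ) ∣ (bernoulli m).num := RatCong.num_dvd ⟨(m : ℚ) *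
    ((c : ℚ) * ((x.den : ℕ) : ℚ)⁻¹ + t), (PIntegral.natCast _).mul
      (((PIntegral.intCast _).mul (PIntegral.inv_natCast hxden)).add ht), by
    rw [zero_add, ← mul_div_cancel₀ (bernoulli m) (show (m : ℚ) ≠ 0 by exact_mod_cast hm0), e,
      show bernoulli (2 * k) / ((2 * k : ℕ) : ℚ) = x from hx.symm]
    nth_rewrite 1 [hxc]
    ring⟩
  have hmem : q ∈ F := hfin.mem_toFinset.mpr ⟨hq, m, hmev, hmle.2, hmle.1, hirr⟩
  exact hq1 (((Finset.dvd_prod_of_mem _ hmem).trans hdvd).trans (dvd_mul_left k 2))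

end FA.Summary
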