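import Fermat.Agent.ThetaOne.LValueOne
import Fermat.Agent.Root.SummaryGaussSum
import Mathlib.NumberTheory.LegendreSymbol.QuadraticReciprocity
import Mathlib.Algebra.MonoidAlgebra.MapDomain
import Mathlib.RingTheory.Polynomial.Cyclotomic.Eval

/-!
# Dirichlet: the negative Pell equation from cyclotomy

* `cyclotomic_product_halves`: for `p ≡ 1 (mod 4)` the products of `1 - ζ^a` over residues and over
  non-residues are `(p t + B √p)/2` and `(p t - B √p)/2` with `B² - p t² = -4`.
* `negativePell_iff`: for an odd prime `p`, `x² - p y² = -1` is solvable iff `p ≡ 1 (mod 4)`.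
* `sine_products_ne`: the sine products over residues and over non-residues differ.
-/

set_option autoImplicit false

noncomputable section

open Finset AddMonoidAlgebra
open scoped Real

namespace FA.OrderTheta

variable (p : ℕ) [Fact p.Prime]

/-- The non-zero residues. -/
def resSet : Finset (ZMod p) := univ.filter fun a => quadraticChar (ZMod p) a = 1

/-- The non-residues. -/
def nonresSet : Finset (ZMod p) := univ.filter fun a => quadraticChar (ZMod p) a = -1

variable {p}

theorem sum_split_quadratic (f : ZMod p → ℂ) :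
    ∑ a, f a = f 0 + ∑ a ∈ resSet p, f a + ∑ a ∈ nonresSet p, f a := by
  classical
  have hu : (univ : Finset (ZMod p)).erase 0 = resSet p ∪ nonresSet p := by
    ext a
    simp only [resSet, nonresSet, mem_erase, mem_univ, and_true, mem_union, mem_filter, true_and]
    refine ⟨fun ha => quadraticChar_dichotomy ha, fun h ha => ?_⟩
    rw [ha, MulChar.map_zero] at h
    omega
  have hd : Disjoint (resSet p) (nonresSet p) := by
    rw [Finset.disjoint_left]
    intro a ha hb
    simp only [resSet, nonresSet, mem_filter, mem_univ, true_and] at ha hb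
    omega
  rw [← Finset.add_sum_erase _ _ (mem_univ (0 : ZMod p)), hu, sum_union hd, add_assoc]

theorem gauss_halves (hp : p % 4 = 1) :
    ∑ a ∈ resSet p, (ZMod.stdAddChar a : ℂ) = (-1 + (Real.sqrt p : ℂ)) / 2 ∧
      ∑ a ∈ nonresSet p, (ZMod.stdAddChar a : ℂ) = (-1 - (Real.sqrt p : ℂ)) / 2 := by
  have hodd : p ≠ 2 := by omega
  have h1 : ∑ a : ZMod p, (ZMod.stdAddChar a : ℂ) = 0 := by
    refine AddChar.sum_eq_zero_of_ne_one fun h => ?_
    have := DFunLike.congr_fun h (1 : ZMod p)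
    exact one_ne_zero (ZMod.injective_stdAddChar (this.trans (AddChar.map_zero_eq_one _).symm))
  rw [sum_split_quadratic, AddChar.map_zero_eq_one] at h1
  have h2 := FA.Summary.quadraticGaussSum_sign p hodd
  rw [if_pos hp, sum_split_quadratic, MulChar.map_zero, Int.cast_zero, zero_mul, zero_add,
    Finset.sum_congr rfl fun a ha => show
        (quadraticChar (ZMod p) a : ℂ) * ZMod.stdAddChar a = ZMod.stdAddChar a by
      rw [(mem_filter.mp ha).2]; simp,
    Finset.sum_congr (s₁ := nonresSet p) rfl fun a ha => show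
        (quadraticChar (ZMod p) a : ℂ) * ZMod.stdAddChar a = -ZMod.stdAddChar a by
      rw [(mem_filter.mp ha).2]; simp, sum_neg_distrib] at h2
  constructor
  · linear_combination (1 / 2 : ℂ) * h1 + (1 / 2 : ℂ) * h2
  · linear_combination (1 / 2 : ℂ) * h1 - (1 / 2 : ℂ) * h2

/-- Evaluation of the group algebra at `ζ`. -/
def evalRoot (p : ℕ) [Fact p.Prime] : ℤ[ZMod p] →ₐ[ℤ] ℂ :=
  AddMonoidAlgebra.lift ℤ ℂ (ZMod p) (ZMod.stdAddChar (N := p)).toMonoidHom

theorem evalRoot_apply (x : ℤ[ZMod p]) :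
    evalRoot p x = ∑ j, (x.coeff j : ℂ) * ZMod.stdAddChar j := by
  rw [evalRoot, AddMonoidAlgebra.lift_apply, Finsupp.sum_fintype _ _ (fun _ => by simp)]
  refine Finset.sum_congr rfl fun j _ => ?_
  rw [zsmul_eq_mul]
  rfl

/-- Multiplication of exponents by `s`. -/
def scale (s : ZMod p) : ℤ[ZMod p] →+* ℤ[ZMod p] :=
  AddMonoidAlgebra.mapDomainRingHom ℤ (AddMonoidHom.mulLeft s)

theorem scale_single (s a : ZMod p) (c : ℤ) : scale s (single a c) = single (s * a) c :=
  AddMonoidAlgebra.mapDomain_single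

theorem scale_coeff {s : ZMod p} (hs : s ≠ 0) (x : ℤ[ZMod p]) (j : ZMod p) :
    (scale s x).coeff (s * j) = x.coeff j :=
  Finsupp.mapDomain_apply (mul_right_injective₀ hs) x.coeff j

/-- `∏ (1 - X^a)` over residues, in the group algebra. -/
def halfProduct (p : ℕ) [Fact p.Prime] : ℤ[ZMod p] :=
  ∏ a ∈ resSet p, ((1 : ℤ[ZMod p]) - single a 1)

theorem scale_halfProduct_of_square {s : ZMod p} (hs : quadraticChar (ZMod p) s = 1) :
    scale s (halfProduct p) = halfProduct p := by
  have hs0 : s ≠ 0 := fun h => by rw [h, MulChar.map_zero] at hs; omega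
  rw [halfProduct, map_prod]
  refine Finset.prod_nbij' (fun a => s * a) (fun a => s⁻¹ * a) ?_ ?_ ?_ ?_ ?_
  · intro a ha
    simp only [resSet, mem_filter, mem_univ, true_and] at ha ⊢
    rw [map_mul, hs, ha, mul_one]
  · intro a ha
    simp only [resSet, mem_filter, mem_univ, true_and] at ha ⊢
    have h : quadraticChar (ZMod p) s * quadraticChar (ZMod p) (s⁻¹ * a) = 1 := by
      rw [← map_mul, mul_inv_cancel_left₀ hs0, ha]
    rwa [hs, one_mul] at h
  · exact fun a _ => inv_mul_cancel_left₀ hs0 a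
  · exact fun a _ => mul_inv_cancel_left₀ hs0 a
  · intro a _
    rw [map_sub, map_one, scale_single]

theorem evalRoot_scale {s : ZMod p} (hs : s ≠ 0) (x : ℤ[ZMod p]) :
    evalRoot p (scale s x) = ∑ j, (x.coeff j : ℂ) * ZMod.stdAddChar (s * j) := by
  rw [evalRoot_apply]
  refine (Fintype.sum_equiv (Equiv.mulLeft₀ s hs) _ _ fun j => ?_).symm
  rw [Equiv.mulLeft₀_apply, scale_coeff hs]

theorem evalRoot_halfProduct_scale (s : ZMod p) :
    evalRoot p (scale s (halfProduct p)) = ∏ a ∈ resSet p, (1 - ZMod.stdAddChar (s * a) : ℂ) := by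
  rw [halfProduct, map_prod, map_prod]
  refine Finset.prod_congr rfl fun a _ => ?_
  rw [map_sub, map_one, scale_single, map_sub, map_one, evalRoot, AddMonoidAlgebra.lift_single,
    one_smul]
  rfl

/-- The two half products. -/
theorem exists_halves (hp : p % 4 = 1) :
    ∃ A B : ℤ, (∏ a ∈ resSet p, (1 - ZMod.stdAddChar a : ℂ)) = (A + B * (Real.sqrt p : ℂ)) / 2 ∧
      (∏ a ∈ nonresSet p, (1 - ZMod.stdAddChar a : ℂ)) = (A - B * (Real.sqrt p : ℂ)) / 2 := by
  obtain ⟨n₀, hn₀⟩ := quadraticChar_exists_neg_one (F := ZMod p)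
    ((ZMod.ringChar_zmod_n p).trans_ne (by omega))
  have hn0 : n₀ ≠ 0 := fun h => by rw [h, MulChar.map_zero] at hn₀; omega
  set c : ZMod p → ℤ := fun j => (halfProduct p).coeff j with hc
  have hinv : ∀ s j, quadraticChar (ZMod p) s = 1 → c (s * j) = c j := fun s j hs => by
    have hs0 : s ≠ 0 := fun h => by rw [h, MulChar.map_zero] at hs; omega
    have h := scale_coeff hs0 (halfProduct p) j
    rwa [scale_halfProduct_of_square hs] at h
  have hR : ∀ j ∈ resSet p, c j = c 1 := fun j hj => by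
    simpa using hinv j 1 (mem_filter.mp hj).2
  have hN : ∀ j ∈ nonresSet p, c j = c n₀ := fun j hj => by
    have h := hinv (j * n₀⁻¹) n₀ (by
      have h1 : quadraticChar (ZMod p) (j * n₀⁻¹) * quadraticChar (ZMod p) n₀ = -1 := by
        rw [← map_mul, inv_mul_cancel_right₀ hn0, (mem_filter.mp hj).2]
      rw [hn₀] at h1
      linarith)
    rwa [inv_mul_cancel_right₀ hn0] at h
  obtain ⟨gR, gN⟩ := gauss_halves hp
  have hmem : ∀ a, (a ∈ resSet p → n₀ * a ∈ nonresSet p) ∧
      (a ∈ nonresSet p → n₀ * a ∈ resSet p) := fun a => by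
    refine ⟨fun h => ?_, fun h => ?_⟩ <;>
      simp only [resSet, nonresSet, mem_filter, mem_univ, true_and] at h ⊢ <;>
      rw [map_mul, hn₀, h] <;> norm_num
  have hmem' : ∀ a, (a ∈ resSet p → n₀⁻¹ * a ∈ nonresSet p) ∧
      (a ∈ nonresSet p → n₀⁻¹ * a ∈ resSet p) := fun a => by
    have h1 : quadraticChar (ZMod p) n₀⁻¹ = -1 := by
      have h : quadraticChar (ZMod p) n₀ * quadraticChar (ZMod p) n₀⁻¹ = 1 := by
        rw [← map_mul, mul_inv_cancel₀ hn0, map_one]
      rw [hn₀] at h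
      linarith
    refine ⟨fun h => ?_, fun h => ?_⟩ <;>
      simp only [resSet, nonresSet, mem_filter, mem_univ, true_and] at h ⊢ <;>
      rw [map_mul, h1, h] <;> norm_num
  refine ⟨2 * c 0 - c 1 - c n₀, c 1 - c n₀, ?_, ?_⟩
  · have h := evalRoot_apply (halfProduct p)
    have h1 := evalRoot_halfProduct_scale (p := p) 1
    rw [scale_halfProduct_of_square (map_one _)] at h1
    simp only [one_mul] at h1
    rw [h1, sum_split_quadratic, AddChar.map_zero_eq_one,
      Finset.sum_congr rfl fun j hj => by rw [show (halfProduct p).coeff j = c 1 from hR j hj],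
      Finset.sum_congr (s₁ := nonresSet p) rfl fun j hj => by
        rw [show (halfProduct p).coeff j = c n₀ from hN j hj],
      ← mul_sum, ← mul_sum, gR, gN] at h
    rw [h]
    push_cast [hc]
    ring
  · have h := evalRoot_scale hn0 (halfProduct p)
    rw [evalRoot_halfProduct_scale, sum_split_quadratic, mul_zero, AddChar.map_zero_eq_one,
      Finset.sum_congr rfl fun j hj => by rw [show (halfProduct p).coeff j = c 1 from hR j hj],
      Finset.sum_congr (s₁ := nonresSet p) rfl fun j hj => by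
        rw [show (halfProduct p).coeff j = c n₀ from hN j hj],
      ← mul_sum, ← mul_sum] at h
    have e1 : ∑ a ∈ resSet p, (ZMod.stdAddChar (n₀ * a) : ℂ) =
        ∑ a ∈ nonresSet p, (ZMod.stdAddChar a : ℂ) :=
      Finset.sum_nbij' (fun a => n₀ * a) (fun a => n₀⁻¹ * a) (fun a => (hmem a).1)
        (fun a => (hmem' a).2) (fun a _ => inv_mul_cancel_left₀ hn0 a)
        (fun a _ => mul_inv_cancel_left₀ hn0 a) fun a _ => rfl
    have e2 : ∑ a ∈ nonresSet p, (ZMod.stdAddChar (n₀ * a) : ℂ) =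
        ∑ a ∈ resSet p, (ZMod.stdAddChar a : ℂ) :=
      Finset.sum_nbij' (fun a => n₀ * a) (fun a => n₀⁻¹ * a) (fun a => (hmem a).2)
        (fun a => (hmem' a).1) (fun a _ => inv_mul_cancel_left₀ hn0 a)
        (fun a _ => mul_inv_cancel_left₀ hn0 a) fun a _ => rfl
    have e3 : ∏ a ∈ resSet p, (1 - ZMod.stdAddChar (n₀ * a) : ℂ) =
        ∏ a ∈ nonresSet p, (1 - ZMod.stdAddChar a : ℂ) :=
      Finset.prod_nbij' (fun a => n₀ * a) (fun a => n₀⁻¹ * a) (fun a => (hmem a).1)
        (fun a => (hmem' a).2) (fun a _ => inv_mul_cancel_left₀ hn0 a)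
        (fun a _ => mul_inv_cancel_left₀ hn0 a) fun a _ => rfl
    rw [e1, e2, e3, gR, gN] at h
    rw [h]
    push_cast [hc]
    ring

theorem prod_halves :
    (∏ a ∈ resSet p, (1 - ZMod.stdAddChar a : ℂ)) *
      (∏ a ∈ nonresSet p, (1 - ZMod.stdAddChar a : ℂ)) = p := by
  classical
  have hu : resSet p ∪ nonresSet p = (univ : Finset (ZMod p)).erase 0 := by
    ext a
    simp only [resSet, nonresSet, mem_erase, mem_univ, and_true, mem_union, mem_filter, true_and]
    refine ⟨fun h ha => ?_, fun ha => quadraticChar_dichotomy ha⟩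
    rw [ha, MulChar.map_zero] at h
    omega
  have hd : Disjoint (resSet p) (nonresSet p) := by
    rw [Finset.disjoint_left]
    intro a ha hb
    simp only [resSet, nonresSet, mem_filter, mem_univ, true_and] at ha hb
    omega
  rw [← prod_union hd, hu]
  have hpp : p.Prime := Fact.out
  have hz : IsPrimitiveRoot (ZMod.stdAddChar (1 : ZMod p) : ℂ) p := by
    have hpow : (ZMod.stdAddChar (1 : ZMod p) : ℂ) ^ p = 1 := by
      rw [← AddChar.map_nsmul_eq_pow, nsmul_one, ZMod.natCast_self, AddChar.map_zero_eq_one]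
    have ho := IsPrimitiveRoot.orderOf (ZMod.stdAddChar (1 : ZMod p) : ℂ)
    rwa [orderOf_eq_prime hpow fun h => one_ne_zero (ZMod.injective_stdAddChar
      (h.trans (AddChar.map_zero_eq_one _).symm))] at ho
  have h := Polynomial.eval_one_cyclotomic_prime (R := ℂ) (p := p)
  rw [Polynomial.cyclotomic_eq_prod_X_sub_primitiveRoots hz, Polynomial.eval_prod] at h
  simp only [Polynomial.eval_sub, Polynomial.eval_X, Polynomial.eval_C] at h
  rw [← h]
  refine Finset.prod_nbij (fun a => (ZMod.stdAddChar a : ℂ)) ?_ ?_ ?_ fun a _ => rfl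
  · intro a ha
    rw [mem_primitiveRoots hpp.pos]
    have e : (ZMod.stdAddChar a : ℂ) = ZMod.stdAddChar (1 : ZMod p) ^ a.val := by
      rw [stdAddChar_mul_val, mul_one]
    rw [e]
    refine hz.pow_of_coprime _ ((hpp.coprime_iff_not_dvd.mpr fun hd => ?_).symm)
    have := Nat.le_of_dvd (Nat.pos_of_ne_zero ((ZMod.val_ne_zero a).mpr (mem_erase.mp ha).1)) hd
    have := ZMod.val_lt a
    omega
  · exact fun a _ b _ e => ZMod.injective_stdAddChar e
  · intro μ hμ
    rw [mem_coe, mem_primitiveRoots hpp.pos] at hμ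
    obtain ⟨i, hi, -, he⟩ := (hz.isPrimitiveRoot_iff).mp hμ
    refine ⟨(i : ZMod p), mem_erase.mpr ⟨fun h0 => ?_, mem_univ _⟩, ?_⟩
    · rw [ZMod.natCast_eq_zero_iff] at h0
      obtain rfl := Nat.eq_zero_of_dvd_of_lt h0 hi
      rw [pow_zero] at he
      exact hpp.one_lt.ne' (hμ.unique (he ▸ IsPrimitiveRoot.one))
    · show (ZMod.stdAddChar (i : ZMod p) : ℂ) = μ
      rw [← he, ← AddChar.map_nsmul_eq_pow, nsmul_one]

end FA.OrderTheta

namespace FA.Summary

open FA.OrderTheta

variable (p : ℕ) [Fact p.Prime]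

/-- **Dirichlet's cyclotomic solution of `B² - p t² = -4`.** -/
theorem cyclotomic_product_halves (hp : p % 4 = 1) :
    ∃ t B : ℤ, B ^ 2 - p * t ^ 2 = -4 ∧
      (∏ a ∈ resSet p, (1 - ZMod.stdAddChar a : ℂ)) = (p * t + B * (Real.sqrt p : ℂ)) / 2 ∧
      (∏ a ∈ nonresSet p, (1 - ZMod.stdAddChar a : ℂ)) = (p * t - B * (Real.sqrt p : ℂ)) / 2 := by
  obtain ⟨A, B, hR, hN⟩ := exists_halves hp
  have h := prod_halves (p := p)
  rw [hR, hN] at h
  have hs : (Real.sqrt p : ℂ) ^ 2 = (p : ℂ) := by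
    rw [← Complex.ofReal_pow, Real.sq_sqrt (Nat.cast_nonneg p), Complex.ofReal_natCast]
  have hC : ((A ^ 2 : ℤ) : ℂ) = (((p : ℤ) * (B ^ 2 + 4) : ℤ) : ℂ) := by
    push_cast
    linear_combination 4 * h + (B : ℂ) ^ 2 * hs
  have hAB : A ^ 2 = (p : ℤ) * (B ^ 2 + 4) := Int.cast_injective hC
  obtain ⟨t, rfl⟩ : (p : ℤ) ∣ A :=
    (Nat.prime_iff_prime_int.mp Fact.out).dvd_of_dvd_pow ⟨_, hAB⟩
  refine ⟨t, B, ?_, by rw [hR]; push_cast; ring, by rw [hN]; push_cast; ring⟩
  have hp0 : (p : ℤ) ≠ 0 := by exact_mod_cast (Fact.out : p.Prime).ne_zero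
  refine mul_left_cancel₀ hp0 ?_
  linear_combination -hAB

/-- **Legendre: the negative Pell equation for a prime.** -/
theorem negativePell_iff (hp2 : p ≠ 2) :
    (∃ x y : ℤ, x ^ 2 - p * y ^ 2 = -1) ↔ p % 4 = 1 := by
  constructor
  · rintro ⟨x, y, h⟩
    have hsq : IsSquare (-1 : ZMod p) := ⟨(x : ZMod p), by
      have h' := congrArg (Int.cast : ℤ → ZMod p) h
      push_cast at h'
      rw [ZMod.natCast_self, zero_mul, sub_zero] at h'
      rw [← pow_two, h']⟩
    have := ZMod.exists_sq_eq_neg_one_iff.mp hsq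
    have := (Fact.out : p.Prime).eq_two_or_odd.resolve_left hp2
    omega
  · intro hp
    obtain ⟨t, B, h, -, -⟩ := cyclotomic_product_halves p hp
    rcases Int.emod_two_eq B with hB | hB
    · obtain ⟨x, rfl⟩ := Int.dvd_of_emod_eq_zero hB
      have h2 : (2 : ℤ) ∣ t := by
        have h1 : (2 : ℤ) ∣ (p : ℤ) * t ^ 2 := ⟨2 * x ^ 2 + 2, by linear_combination -h⟩
        rcases Int.prime_two.dvd_or_dvd h1 with h3 | h3
        · omega
        · exact Int.prime_two.dvd_of_dvd_pow h3
      obtain ⟨y, rfl⟩ := h2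
      exact ⟨x, y, by linarith⟩
    · obtain ⟨u, hu⟩ : (2 : ℤ) ∣ B ^ 2 + 1 := by
        have : B ^ 2 % 2 = 1 := by rw [pow_two, Int.mul_emod, hB]; rfl
        omega
      exact ⟨B * (u + 1), t * u, by
        linear_combination u ^ 2 * h + (2 * u + 1) * hu⟩

/-- The sine products over residues and non-residues differ. -/
theorem sine_products_ne (hp : p % 4 = 1) :
    ∏ a ∈ resSet p, Real.sin (π * ((a.val : ℝ) / p)) ≠
      ∏ a ∈ nonresSet p, Real.sin (π * ((a.val : ℝ) / p)) := by
  classical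
  obtain ⟨t, B, h, hR, hN⟩ := cyclotomic_product_halves p hp
  intro he
  have hnorm : ∀ S : Finset (ZMod p), (0 : ZMod p) ∉ S →
      ‖∏ a ∈ S, (1 - ZMod.stdAddChar a : ℂ)‖ = 2 ^ S.card * ∏ a ∈ S, Real.sin (π * ((a.val : ℝ) / p)) := by
    intro S hS
    rw [norm_prod, ← prod_const, ← prod_mul_distrib]
    refine Finset.prod_congr rfl fun a ha => ?_
    have ha0 : a ≠ 0 := fun e => hS (e ▸ ha)
    rw [norm_one_sub_stdAddChar ha0, sineLog, Real.exp_log (sin_pi_mul_pos (val_div_mem_Ioo ha0))]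
  have hcard : (resSet p).card = (nonresSet p).card := by
    obtain ⟨n₀, hn₀⟩ := quadraticChar_exists_neg_one (F := ZMod p)
      ((ZMod.ringChar_zmod_n p).trans_ne (by omega))
    have hn0 : n₀ ≠ 0 := fun h => by rw [h, MulChar.map_zero] at hn₀; omega
    have hn1 : quadraticChar (ZMod p) n₀⁻¹ = -1 := by
      have h : quadraticChar (ZMod p) n₀ * quadraticChar (ZMod p) n₀⁻¹ = 1 := by
        rw [← map_mul, mul_inv_cancel₀ hn0, map_one]
      rw [hn₀] at h
      linarith
    refine Finset.card_nbij' (fun a => n₀ * a) (fun a => n₀⁻¹ * a) ?_ ?_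
      (fun a _ => inv_mul_cancel_left₀ hn0 a) (fun a _ => mul_inv_cancel_left₀ hn0 a) <;>
      intro a ha <;>
      simp only [resSet, nonresSet, mem_univ, true_and, coe_filter,
        Set.mem_ofPred_eq] at ha ⊢ <;>
      simp only [map_mul, hn₀, hn1, ha] <;> norm_num
  have heq := (hnorm (resSet p) (by simp [resSet])).trans
    (by rw [hcard, he, ← hnorm (nonresSet p) (by simp [nonresSet])])
  rw [hR, hN] at heq
  have hreal : ∀ x : ℝ, ‖((x : ℂ)) / 2‖ = |x| / 2 := fun x => by
    rw [norm_div, Complex.norm_real, Real.norm_eq_abs]; norm_num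
  rw [show (p : ℂ) * t + B * (Real.sqrt p : ℂ) = (((p : ℝ) * t + B * Real.sqrt p : ℝ) : ℂ) by
      push_cast; ring,
    show (p : ℂ) * t - B * (Real.sqrt p : ℂ) = (((p : ℝ) * t - B * Real.sqrt p : ℝ) : ℂ) by
      push_cast; ring, hreal, hreal, div_left_inj' two_ne_zero] at heq
  have hp0 : (0 : ℝ) < p := by exact_mod_cast (Fact.out : p.Prime).pos
  have hs := Real.sqrt_pos.mpr hp0
  rcases abs_eq_abs.mp heq with e | e
  · have : (B : ℝ) = 0 := by nlinarith
    have hB : B = 0 := by exact_mod_cast this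
    subst hB
    have hpt : (p : ℤ) * t ^ 2 = 4 := by linarith
    have h4 : (p : ℤ) ∣ 4 := ⟨t ^ 2, hpt.symm⟩
    have h4' := Nat.le_of_dvd (by norm_num) (Int.natCast_dvd_natCast.mp (show (p : ℤ) ∣ ((4 : ℕ) : ℤ) by
      exact_mod_cast h4))
    have := (Fact.out : p.Prime).two_le
    omega
  · have : (p : ℝ) * t = 0 := by linarith
    have ht : t = 0 := by
      rcases mul_eq_zero.mp this with e' | e'
      · exact absurd e' hp0.ne'
      · exact_mod_cast e'
    subst ht
    nlinarith [sq_nonneg B]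

end FA.Summary
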