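import Fermat.Agent.Root.SummaryWolstenholme

/-!
# The congruences of Jacobsthal, Ljunggren and Morley

For a prime `p ≥ 5`:

* `jacobsthal`: `C(ap, bp) ≡ C(a, b) (1 - a b (a - b) p³ B_{p-3} / 3) (mod p⁴)` for `b ≤ a`.
* `ljunggren`: `C(ap, bp) ≡ C(a, b) (mod p³)`, and modulo `p⁴` when `p` divides the numerator of
  `B_{p-3}` (`jacobsthal_of_wolstenholme_prime`).
* `morley`: `(-1)^((p-1)/2) C(p-1, (p-1)/2) ≡ 4^(p-1) (mod p³)`.
-/

set_option autoImplicit false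

noncomputable section

open Finset
open scoped Nat

namespace FA.OrderTheta

/-- `∏_{k<n} ∏_{0<r<p} (1 + k p / r)`. -/
def blockProd (p n : ℕ) : ℚ :=
  ∏ k ∈ range n, ∏ i ∈ range (p - 1), (1 + (p : ℚ) * ((k : ℚ) * ((i + 1 : ℕ) : ℚ)⁻¹))

/-- `∏_{0<r<p/2} (1 + x p / r)`. -/
def halfProd (p : ℕ) (x : ℚ) : ℚ :=
  ∏ i ∈ range (p / 2), (1 + (p : ℚ) * (x * ((i + 1 : ℕ) : ℚ)⁻¹))

variable {p : ℕ} [hp : Fact p.Prime]

/-- Division by a unit `1 + p u`. -/
theorem pow_mul_of_add_mul {d u : ℚ} (hd : PIntegral p d) (hu : PIntegral p u) :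
    ∀ {N : ℕ} {I : ℚ}, PIntegral p I → d + (p : ℚ) * u * d = (p : ℚ) ^ N * I →
      ∃ t : ℚ, PIntegral p t ∧ d = (p : ℚ) ^ N * t := by
  intro N
  induction N with
  | zero => exact fun _ _ => ⟨d, hd, by rw [pow_zero, one_mul]⟩
  | succ N ih =>
    intro I hI e
    obtain ⟨v, hv, ev⟩ := ih (I := (p : ℚ) * I) ((PIntegral.natCast p).mul hI)
      (by rw [e, pow_succ]; ring)
    refine ⟨I + ((-1 : ℤ) : ℚ) * (u * v), hI.add ((PIntegral.intCast _).mul (hu.mul hv)), ?_⟩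
    rw [ev] at e ⊢
    rw [pow_succ] at e ⊢
    push_cast
    linear_combination e

theorem block_cong (hp5 : 5 ≤ p) (k : ℕ) : ∃ t : ℚ, PIntegral p t ∧
    ∏ i ∈ range (p - 1), (1 + (p : ℚ) * ((k : ℚ) * ((i + 1 : ℕ) : ℚ)⁻¹)) =
      1 - ((k : ℚ) ^ 2 + k) / 3 * (p : ℚ) ^ 3 * bernoulli (p - 3) + (p : ℚ) ^ 4 * t := by
  obtain ⟨a, ha, ea⟩ := recipPowerSum_one hp5
  obtain ⟨b, hb, eb⟩ := recipPowerSum_two hp5
  obtain ⟨c, hc, ec⟩ := recipPowerSum_three hp5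
  obtain ⟨t, ht, et⟩ := prod_one_add_mul_cube hp5 (range (p - 1))
    (fun i => (k : ℚ) * ((i + 1 : ℕ) : ℚ)⁻¹) fun i hi => by
      rw [mem_range] at hi
      exact (PIntegral.natCast k).mul
        (PIntegral.inv_natCast (not_dvd_of_lt_prime (Nat.succ_pos i) (by omega)))
  have e1 : ∑ i ∈ range (p - 1), (k : ℚ) * ((i + 1 : ℕ) : ℚ)⁻¹ = (k : ℚ) * recipPowerSum p 1 := by
    rw [recipPowerSum, Finset.mul_sum]
    exact Finset.sum_congr rfl fun i _ => by rw [pow_one]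
  have e2 : ∑ i ∈ range (p - 1), ((k : ℚ) * ((i + 1 : ℕ) : ℚ)⁻¹) ^ 2 =
      (k : ℚ) ^ 2 * recipPowerSum p 2 := by
    rw [recipPowerSum, Finset.mul_sum]
    exact Finset.sum_congr rfl fun i _ => by rw [mul_pow, inv_pow]
  have e3 : ∑ i ∈ range (p - 1), ((k : ℚ) * ((i + 1 : ℕ) : ℚ)⁻¹) ^ 3 =
      (k : ℚ) ^ 3 * recipPowerSum p 3 := by
    rw [recipPowerSum, Finset.mul_sum]
    exact Finset.sum_congr rfl fun i _ => by rw [mul_pow, inv_pow]
  have hB := pIntegral_bernoulli_sub_three hp5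
  set B := bernoulli (p - 3) with hB'
  set u := ((-1 : ℤ) : ℚ) * ((3 : ℕ) : ℚ)⁻¹ * B + (p : ℚ) * a with hu'
  set w := ((2 : ℕ) : ℚ) * ((3 : ℕ) : ℚ)⁻¹ * B + (p : ℚ) * b with hw'
  have h2 := pIntegral_inv_small (p := p) hp5 two_pos (by norm_num)
  have h3 := pIntegral_inv_small (p := p) hp5 three_pos (by norm_num)
  have hu : PIntegral p u := (((PIntegral.intCast _).mul h3).mul hB).add ((PIntegral.natCast p).mul ha)
  have hw : PIntegral p w := (((PIntegral.natCast _).mul h3).mul hB).add ((PIntegral.natCast p).mul hb)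
  refine ⟨t + (k : ℚ) * a + ((-1 : ℤ) : ℚ) * (((k ^ 2 : ℕ) : ℚ) * (((2 : ℕ) : ℚ)⁻¹ * b)) +
      ((p ^ 2 * k ^ 2 : ℕ) : ℚ) * ((2 : ℕ) : ℚ)⁻¹ * (u * u) +
      ((k ^ 3 : ℕ) : ℚ) * ((2 : ℕ) : ℚ)⁻¹ * ((3 : ℕ) : ℚ)⁻¹ * (((p ^ 5 : ℕ) : ℚ) * (u * u * u) +
        ((-3 : ℤ) : ℚ) * ((p ^ 2 : ℕ) : ℚ) * (u * w) + ((2 : ℕ) : ℚ) * c),
    (((ht.add ((PIntegral.natCast k).mul ha)).add
      ((PIntegral.intCast _).mul ((PIntegral.natCast _).mul (h2.mul hb)))).add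
      (((PIntegral.natCast _).mul h2).mul (hu.mul hu))).add
      ((((PIntegral.natCast _).mul h2).mul h3).mul ((((PIntegral.natCast _).mul ((hu.mul hu).mul hu)).add
        (((PIntegral.intCast _).mul (PIntegral.natCast _)).mul (hu.mul hw))).add
        ((PIntegral.natCast _).mul hc))), ?_⟩
  rw [et, e1, e2, e3, ea, eb, ec, hu', hw']
  push_cast
  ring

theorem blockProd_cong (hp5 : 5 ≤ p) (n : ℕ) : ∃ t : ℚ, PIntegral p t ∧
    blockProd p n =
      1 - ((n : ℚ) ^ 3 - n) / 9 * (p : ℚ) ^ 3 * bernoulli (p - 3) + (p : ℚ) ^ 4 * t := by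
  have h3 := pIntegral_inv_small (p := p) hp5 three_pos (by norm_num)
  induction n with
  | zero => exact ⟨0, by exact_mod_cast PIntegral.intCast 0, by simp [blockProd]⟩
  | succ n ih =>
    obtain ⟨T, hT, eT⟩ := ih
    obtain ⟨t, ht, et⟩ := block_cong hp5 n
    have hB := pIntegral_bernoulli_sub_three hp5
    refine ⟨T + t + ((p ^ 2 : ℕ) : ℚ) *
      ((((-((n : ℤ) ^ 3 - n)) : ℤ) : ℚ) * ((3 : ℕ) : ℚ)⁻¹ * ((3 : ℕ) : ℚ)⁻¹ * bernoulli (p - 3) +
        (p : ℚ) * T) * ((((-((n : ℤ) ^ 2 + n)) : ℤ) : ℚ) * ((3 : ℕ) : ℚ)⁻¹ * bernoulli (p - 3) +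
        (p : ℚ) * t), (hT.add ht).add (((PIntegral.natCast _).mul
      (((((PIntegral.intCast _).mul h3).mul h3).mul hB).add ((PIntegral.natCast p).mul hT))).mul
      ((((PIntegral.intCast _).mul h3).mul hB).add ((PIntegral.natCast p).mul ht))), ?_⟩
    rw [blockProd, Finset.prod_range_succ, ← blockProd, eT, et]
    push_cast
    ring

theorem factorial_mul_prime (n : ℕ) :
    (((n * p)! : ℕ) : ℚ) = (n ! : ℚ) * (p : ℚ) ^ n * (((p - 1)! : ℕ) : ℚ) ^ n * blockProd p n := by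
  induction n with
  | zero => simp [blockProd]
  | succ n ih =>
    have h1 := Nat.factorial_mul_ascFactorial (n * p) (p - 1)
    rw [Nat.ascFactorial_eq_prod_range] at h1
    have h2 : ((n + 1) * p)! = ((n + 1) * p) * (n * p + (p - 1))! := by
      have := hp.out.one_le
      rw [show (n + 1) * p = n * p + (p - 1) + 1 by rw [add_mul, one_mul]; omega,
        Nat.factorial_succ]
    have h3 : (∏ i ∈ range (p - 1), ((n * p + 1 + i : ℕ) : ℚ)) = (((p - 1)! : ℕ) : ℚ) *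
        ∏ i ∈ range (p - 1), (1 + (p : ℚ) * ((n : ℚ) * ((i + 1 : ℕ) : ℚ)⁻¹)) := by
      rw [← Finset.prod_range_add_one_eq_factorial, Nat.cast_prod, ← Finset.prod_mul_distrib]
      refine Finset.prod_congr rfl fun i _ => ?_
      have : ((i + 1 : ℕ) : ℚ) ≠ 0 := Nat.cast_ne_zero.mpr (Nat.succ_ne_zero i)
      field_simp
      push_cast
      ring
    rw [h2, ← h1, Nat.cast_mul, Nat.cast_mul ((n * p)!), Nat.cast_prod, h3, ih, blockProd, blockProd,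
      Finset.prod_range_succ, Nat.factorial_succ]
    push_cast
    ring

theorem choose_mul_prime {a b : ℕ} (hba : b ≤ a) :
    (((a * p).choose (b * p) : ℕ) : ℚ) * (blockProd p b * blockProd p (a - b)) =
      ((a.choose b : ℕ) : ℚ) * blockProd p a := by
  obtain ⟨c, rfl⟩ := Nat.exists_eq_add_of_le hba
  have h1 := Nat.choose_mul_factorial_mul_factorial (Nat.mul_le_mul_right p hba)
  rw [show (b + c) * p - b * p = c * p by rw [add_mul, Nat.add_sub_cancel_left]] at h1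
  have h2 := Nat.choose_mul_factorial_mul_factorial hba
  rw [Nat.add_sub_cancel_left] at h2 ⊢
  have h1' := congrArg (Nat.cast : ℕ → ℚ) h1
  have h2' := congrArg (Nat.cast : ℕ → ℚ) h2
  simp only [Nat.cast_mul, factorial_mul_prime] at h1' h2'
  rw [← h2', pow_add, pow_add] at h1'
  have hne : (b ! : ℚ) * (c ! : ℚ) * ((p : ℚ) ^ b * (p : ℚ) ^ c) *
      ((((p - 1)! : ℕ) : ℚ) ^ b * (((p - 1)! : ℕ) : ℚ) ^ c) ≠ 0 := by
    have : (p : ℚ) ≠ 0 := Nat.cast_ne_zero.mpr hp.out.ne_zero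
    have : (((p - 1)! : ℕ) : ℚ) ≠ 0 := Nat.cast_ne_zero.mpr (Nat.factorial_ne_zero _)
    positivity
  refine mul_left_cancel₀ hne ?_
  linear_combination h1'

theorem jacobsthal_cong (hp5 : 5 ≤ p) {a b : ℕ} (hba : b ≤ a) : ∃ t : ℚ, PIntegral p t ∧
    (((a * p).choose (b * p) : ℕ) : ℚ) = ((a.choose b : ℕ) : ℚ) *
      (1 - ((a * b * (a - b) : ℕ) : ℚ) / 3 * (p : ℚ) ^ 3 * bernoulli (p - 3)) + (p : ℚ) ^ 4 * t := by
  have e := choose_mul_prime (p := p) hba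
  obtain ⟨c, rfl⟩ := Nat.exists_eq_add_of_le hba
  rw [Nat.add_sub_cancel_left] at e ⊢
  obtain ⟨T, hT, eT⟩ := blockProd_cong hp5 (b + c)
  obtain ⟨R, hR, eR⟩ := blockProd_cong hp5 b
  obtain ⟨S, hS, eS⟩ := blockProd_cong hp5 c
  have hB := pIntegral_bernoulli_sub_three hp5
  have h3 := pIntegral_inv_small (p := p) hp5 three_pos (by norm_num)
  set B := bernoulli (p - 3) with hB'
  set C : ℚ := (((b + c).choose b : ℕ) : ℚ)
  set K : ℚ := (((b + c) * b * c : ℕ) : ℚ) * ((3 : ℕ) : ℚ)⁻¹ with hK'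
  set vb := ((-((b : ℤ) ^ 3 - b) : ℤ) : ℚ) * ((3 : ℕ) : ℚ)⁻¹ * ((3 : ℕ) : ℚ)⁻¹ * B + (p : ℚ) * R
    with hvb'
  set vc := ((-((c : ℤ) ^ 3 - c) : ℤ) : ℚ) * ((3 : ℕ) : ℚ)⁻¹ * ((3 : ℕ) : ℚ)⁻¹ * B + (p : ℚ) * S
    with hvc'
  have hK : PIntegral p K := (PIntegral.natCast _).mul h3
  have hvb : PIntegral p vb :=
    ((((PIntegral.intCast _).mul h3).mul h3).mul hB).add ((PIntegral.natCast p).mul hR)
  have hvc : PIntegral p vc :=
    ((((PIntegral.intCast _).mul h3).mul h3).mul hB).add ((PIntegral.natCast p).mul hS)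
  set X := ((((b + c) * p).choose (b * p) : ℕ) : ℚ) +
    ((-1 : ℤ) : ℚ) * (C * (1 + ((-1 : ℤ) : ℚ) * ((p ^ 3 : ℕ) : ℚ) * (K * B))) with hX'
  have hC : PIntegral p C := PIntegral.natCast _
  have hX : PIntegral p X := (PIntegral.natCast _).add ((PIntegral.intCast _).mul (hC.mul
    ((by exact_mod_cast PIntegral.intCast 1 : PIntegral p (1 : ℚ)).add
      (((PIntegral.intCast _).mul (PIntegral.natCast _)).mul (hK.mul hB)))))
  obtain ⟨t, ht, et⟩ := pow_mul_of_add_mul (N := 4) hX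
    (u := ((p ^ 2 : ℕ) : ℚ) * (vb + vc + ((p ^ 3 : ℕ) : ℚ) * (vb * vc)))
    ((PIntegral.natCast _).mul ((hvb.add hvc).add ((PIntegral.natCast _).mul (hvb.mul hvc))))
    (I := C * (T + ((-1 : ℤ) : ℚ) * (R + S) + ((-1 : ℤ) : ℚ) * ((p ^ 2 : ℕ) : ℚ) * (vb * vc) +
      ((p ^ 2 : ℕ) : ℚ) * (K * B) * (vb + vc + ((p ^ 3 : ℕ) : ℚ) * (vb * vc))))
    (hC.mul (((hT.add ((PIntegral.intCast _).mul (hR.add hS))).add
      (((PIntegral.intCast _).mul (PIntegral.natCast _)).mul (hvb.mul hvc))).add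
      (((PIntegral.natCast _).mul (hK.mul hB)).mul
        ((hvb.add hvc).add ((PIntegral.natCast _).mul (hvb.mul hvc))))))
    (by
      rw [eT, eR, eS] at e
      rw [hX', hvb', hvc', hK']
      push_cast at e ⊢
      linear_combination e)
  refine ⟨t, ht, ?_⟩
  rw [← et, hX', hK']
  push_cast
  ring

omit hp in
theorem prod_range_two_mul {R : Type*} [CommMonoid R] (f : ℕ → R) (h : ℕ) :
    ∏ i ∈ range (2 * h), f i = ∏ j ∈ range h, f (2 * j) * f (2 * j + 1) := by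
  induction h with
  | zero => simp
  | succ h ih =>
    rw [show 2 * (h + 1) = 2 * h + 1 + 1 by ring, prod_range_succ, prod_range_succ, prod_range_succ,
      ih, mul_assoc]

theorem two_pow_mul_halfProd (h2 : p ≠ 2) :
    (2 : ℚ) ^ (p - 1) * halfProd p (-(1 / 2)) = halfProd p (-1) := by
  have hodd := hp.out.eq_two_or_odd.resolve_left h2
  set h := p / 2 with hh'
  have hp' : p = 2 * h + 1 := by omega
  set f : ℕ → ℚ := fun i => ((i + 1 : ℕ) : ℚ)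
  have hA : ∏ i ∈ range (2 * h), f i = ∏ j ∈ range h, f (2 * j + 1) * ((p : ℚ) - f (2 * j + 1)) := by
    rw [prod_range_two_mul, Finset.prod_mul_distrib, Finset.prod_mul_distrib,
      mul_comm (∏ j ∈ range h, f (2 * j + 1)), ← Finset.prod_range_reflect (fun j => f (2 * j))]
    congr 1
    refine Finset.prod_congr rfl fun j hj => ?_
    rw [mem_range] at hj
    show ((2 * (h - 1 - j) + 1 : ℕ) : ℚ) = (p : ℚ) - ((2 * j + 1 + 1 : ℕ) : ℚ)
    rw [eq_sub_iff_add_eq]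
    exact_mod_cast (show 2 * (h - 1 - j) + 1 + (2 * j + 1 + 1) = p by omega)
  have hB : ∏ i ∈ range (2 * h), f i = ∏ j ∈ range h, f j * ((p : ℚ) - f j) := by
    rw [two_mul, Finset.prod_range_add, Finset.prod_mul_distrib,
      ← Finset.prod_range_reflect (fun j => f (h + j))]
    congr 1
    refine Finset.prod_congr rfl fun j hj => ?_
    rw [mem_range] at hj
    show ((h + (h - 1 - j) + 1 : ℕ) : ℚ) = (p : ℚ) - ((j + 1 : ℕ) : ℚ)
    rw [eq_sub_iff_add_eq]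
    exact_mod_cast (show h + (h - 1 - j) + 1 + (j + 1) = p by omega)
  have hne : ∏ j ∈ range h, -(f j * f j) ≠ 0 := Finset.prod_ne_zero_iff.mpr fun j _ =>
    neg_ne_zero.mpr (mul_ne_zero (Nat.cast_ne_zero.mpr j.succ_ne_zero) (Nat.cast_ne_zero.mpr j.succ_ne_zero))
  refine mul_left_cancel₀ hne ?_
  calc (∏ j ∈ range h, -(f j * f j)) * ((2 : ℚ) ^ (p - 1) * halfProd p (-(1 / 2)))
      = ∏ j ∈ range h, f (2 * j + 1) * ((p : ℚ) - f (2 * j + 1)) := by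
        rw [halfProd, ← hh', show p - 1 = 2 * h by omega, pow_mul,
          show ((2 : ℚ) ^ 2) ^ h = ∏ _j ∈ range h, (4 : ℚ) by rw [prod_const, card_range]; norm_num,
          ← Finset.prod_mul_distrib, ← Finset.prod_mul_distrib]
        refine Finset.prod_congr rfl fun j _ => ?_
        have : (j : ℚ) + 1 ≠ 0 := by positivity
        simp only [f]
        push_cast
        field_simp
        ring
    _ = ∏ j ∈ range h, f j * ((p : ℚ) - f j) := by rw [← hA, hB]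
    _ = (∏ j ∈ range h, -(f j * f j)) * halfProd p (-1) := by
        rw [halfProd, ← hh', ← Finset.prod_mul_distrib]
        refine Finset.prod_congr rfl fun j _ => ?_
        have : (j : ℚ) + 1 ≠ 0 := by positivity
        simp only [f]
        push_cast
        field_simp
        ring

theorem halfPowerSum_two (hp5 : 5 ≤ p) : ∃ g : ℚ, PIntegral p g ∧
    ∑ i ∈ range (p / 2), (((i + 1 : ℕ) : ℚ) ^ 2)⁻¹ = (p : ℚ) * g := by
  obtain ⟨b, hb, eb⟩ := recipPowerSum_two hp5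
  set h := p / 2 with hh'
  have hp' : p = 2 * h + 1 := by have := hp.out.eq_two_or_odd; omega
  set f : ℕ → ℚ := fun i => (((i + 1 : ℕ) : ℚ) ^ 2)⁻¹ with hf'
  have hsplit : recipPowerSum p 2 =
      ∑ j ∈ range h, f j + ∑ j ∈ range h, ((((p - (j + 1) : ℕ)) : ℚ) ^ 2)⁻¹ := by
    rw [recipPowerSum, show p - 1 = h + h by omega, Finset.sum_range_add,
      ← Finset.sum_range_reflect (fun j => (((h + j + 1 : ℕ) : ℚ) ^ 2)⁻¹)]
    congr 1
    refine Finset.sum_congr rfl fun j hj => ?_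
    rw [mem_range] at hj
    rw [show h + (h - 1 - j) + 1 = p - (j + 1) by omega]
  have e : ∑ j ∈ range h, (((((p - (j + 1) : ℕ)) : ℚ) ^ 2)⁻¹ - f j) = (p : ℚ) * ∑ j ∈ range h,
      (((2 * ((j + 1 : ℕ) : ℤ) - p : ℤ)) : ℚ) *
        ((((j + 1 : ℕ) : ℚ) ^ 2)⁻¹ * ((((p - (j + 1) : ℕ)) : ℚ) ^ 2)⁻¹) := by
    rw [Finset.mul_sum]
    refine Finset.sum_congr rfl fun j hj => ?_
    rw [mem_range] at hj
    obtain ⟨s, hs⟩ := Nat.exists_eq_add_of_le (show j + 1 ≤ p by omega)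
    rw [show p - (j + 1) = s by omega]
    have hr : ((j + 1 : ℕ) : ℚ) ≠ 0 := Nat.cast_ne_zero.mpr (by omega)
    have hs0 : (s : ℚ) ≠ 0 := Nat.cast_ne_zero.mpr (by omega)
    simp only [hf']
    rw [hs]
    push_cast at *
    field_simp
    ring
  set I := ∑ j ∈ range h, (((2 * ((j + 1 : ℕ) : ℤ) - p : ℤ)) : ℚ) *
    ((((j + 1 : ℕ) : ℚ) ^ 2)⁻¹ * ((((p - (j + 1) : ℕ)) : ℚ) ^ 2)⁻¹) with hI
  refine ⟨((2 : ℕ) : ℚ)⁻¹ * (((2 : ℕ) : ℚ) * ((3 : ℕ) : ℚ)⁻¹ * bernoulli (p - 3) + (p : ℚ) * b +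
      ((-1 : ℤ) : ℚ) * I),
    (pIntegral_inv_small hp5 two_pos (by norm_num)).mul
      (((((PIntegral.natCast _).mul (pIntegral_inv_small hp5 three_pos (by norm_num))).mul
        (pIntegral_bernoulli_sub_three hp5)).add ((PIntegral.natCast p).mul hb)).add
      ((PIntegral.intCast _).mul (PIntegral.sum fun j hj => ?_))), ?_⟩
  · rw [mem_range] at hj
    exact (PIntegral.intCast _).mul ((pIntegral_inv_pow (Nat.succ_pos j) (by omega) 2).mul
      (pIntegral_inv_pow (by omega) (by omega) 2))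
  rw [Finset.sum_sub_distrib] at e
  push_cast
  linear_combination (1 / 2 : ℚ) * eb - (1 / 2 : ℚ) * hsplit - (1 / 2 : ℚ) * e

theorem halfProd_cong (hp5 : 5 ≤ p) {x : ℚ} (hx : PIntegral p x) :
    ∃ t : ℚ, PIntegral p t ∧ halfProd p x =
      1 + (p : ℚ) * (x * ∑ i ∈ range (p / 2), ((i + 1 : ℕ) : ℚ)⁻¹) +
        (p : ℚ) ^ 2 * (x * ∑ i ∈ range (p / 2), ((i + 1 : ℕ) : ℚ)⁻¹) ^ 2 / 2 + (p : ℚ) ^ 3 * t := by
  obtain ⟨g, hg, eg⟩ := halfPowerSum_two hp5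
  have hinv : ∀ i ∈ range (p / 2), PIntegral p (((i + 1 : ℕ) : ℚ)⁻¹) := fun i hi => by
    rw [mem_range] at hi
    exact PIntegral.inv_natCast (not_dvd_of_lt_prime (Nat.succ_pos i) (by omega))
  obtain ⟨t, ht, et⟩ := prod_one_add_mul_cube hp5 (range (p / 2))
    (fun i => x * ((i + 1 : ℕ) : ℚ)⁻¹) fun i hi => hx.mul (hinv i hi)
  set G := ∑ i ∈ range (p / 2), ((i + 1 : ℕ) : ℚ)⁻¹ with hG
  set F := ∑ i ∈ range (p / 2), (x * ((i + 1 : ℕ) : ℚ)⁻¹) ^ 3 with hF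
  have e1 : ∑ i ∈ range (p / 2), x * ((i + 1 : ℕ) : ℚ)⁻¹ = x * G := by rw [hG, Finset.mul_sum]
  have e2 : ∑ i ∈ range (p / 2), (x * ((i + 1 : ℕ) : ℚ)⁻¹) ^ 2 = x ^ 2 * ((p : ℚ) * g) := by
    rw [← eg, Finset.mul_sum]
    exact Finset.sum_congr rfl fun i _ => by rw [mul_pow, inv_pow]
  have hGi : PIntegral p G := PIntegral.sum hinv
  have hFi : PIntegral p F := PIntegral.sum fun i hi => by
    rw [pow_succ, pow_two]
    exact ((hx.mul (hinv i hi)).mul (hx.mul (hinv i hi))).mul (hx.mul (hinv i hi))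
  have h2 := pIntegral_inv_small (p := p) hp5 two_pos (by norm_num)
  have h3 := pIntegral_inv_small (p := p) hp5 three_pos (by norm_num)
  refine ⟨((-1 : ℤ) : ℚ) * ((2 : ℕ) : ℚ)⁻¹ * (x * x * g) + (p : ℚ) * t + ((2 : ℕ) : ℚ)⁻¹ *
      ((3 : ℕ) : ℚ)⁻¹ * (x * G * (x * G) * (x * G) +
        ((-3 : ℤ) : ℚ) * (x * G) * (x * x * ((p : ℚ) * g)) + ((2 : ℕ) : ℚ) * F),
    ((((PIntegral.intCast _).mul h2).mul ((hx.mul hx).mul hg)).add ((PIntegral.natCast p).mul ht)).add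
      ((h2.mul h3).mul (((((hx.mul hGi).mul (hx.mul hGi)).mul (hx.mul hGi)).add
        (((PIntegral.intCast _).mul (hx.mul hGi)).mul
          ((hx.mul hx).mul ((PIntegral.natCast p).mul hg)))).add ((PIntegral.natCast _).mul hFi))), ?_⟩
  rw [halfProd, et, e1, e2]
  push_cast
  ring

theorem halfProd_neg_one (h2 : p ≠ 2) :
    halfProd p (-1) = (-1 : ℚ) ^ (p / 2) * (((p - 1).choose (p / 2) : ℕ) : ℚ) := by
  have hodd := hp.out.eq_two_or_odd.resolve_left h2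
  have h := Nat.descFactorial_eq_factorial_mul_choose (p - 1) (p / 2)
  rw [Nat.descFactorial_eq_prod_range, ← Finset.prod_range_add_one_eq_factorial] at h
  have h' : (∏ i ∈ range (p / 2), ((p - 1 - i : ℕ) : ℚ)) =
      (∏ i ∈ range (p / 2), ((i + 1 : ℕ) : ℚ)) * (((p - 1).choose (p / 2) : ℕ) : ℚ) := by
    exact_mod_cast h
  refine mul_left_cancel₀ (show (∏ i ∈ range (p / 2), ((i + 1 : ℕ) : ℚ)) ≠ 0 from
    Finset.prod_ne_zero_iff.mpr fun i _ => Nat.cast_ne_zero.mpr i.succ_ne_zero) ?_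
  rw [mul_left_comm, ← h', halfProd, show (-1 : ℚ) ^ (p / 2) = ∏ _i ∈ range (p / 2), (-1 : ℚ) by
      rw [prod_const, card_range],
    ← Finset.prod_mul_distrib, ← Finset.prod_mul_distrib]
  refine Finset.prod_congr rfl fun i hi => ?_
  rw [mem_range] at hi
  rw [show p - 1 - i = p - (i + 1) by omega, Nat.cast_sub (by omega)]
  have : ((i + 1 : ℕ) : ℚ) ≠ 0 := Nat.cast_ne_zero.mpr (Nat.succ_ne_zero i)
  field_simp
  ring

theorem morley_cong (hp5 : 5 ≤ p) : ∃ t : ℚ, PIntegral p t ∧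
    (-1 : ℚ) ^ (p / 2) * (((p - 1).choose (p / 2) : ℕ) : ℚ) - (4 : ℚ) ^ (p - 1) = (p : ℚ) ^ 3 * t := by
  have h2 := pIntegral_inv_small (p := p) hp5 two_pos (by norm_num)
  have hone : PIntegral p (1 : ℚ) := by exact_mod_cast PIntegral.intCast 1
  have hx1 : PIntegral p (-1 : ℚ) := by exact_mod_cast PIntegral.intCast (-1)
  have hx2 : PIntegral p (-(1 / 2) : ℚ) := by
    rw [show (-(1 / 2) : ℚ) = (-1 : ℚ) * ((2 : ℕ) : ℚ)⁻¹ by push_cast; ring]
    exact hx1.mul h2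
  obtain ⟨R, hR, eR⟩ := halfProd_cong hp5 hx2
  obtain ⟨S, hS, eS⟩ := halfProd_cong hp5 hx1
  set G := ∑ i ∈ range (p / 2), ((i + 1 : ℕ) : ℚ)⁻¹
  set y := (-(1 / 2) : ℚ) * G with hy'
  have hGi : PIntegral p G := PIntegral.sum fun i hi => by
    rw [mem_range] at hi
    exact PIntegral.inv_natCast (not_dvd_of_lt_prime (Nat.succ_pos i) (by omega))
  have hy : PIntegral p y := hx2.mul hGi
  set P := halfProd p (-(1 / 2)) with hP'
  set u := y + (p : ℚ) * (y * y) * ((2 : ℕ) : ℚ)⁻¹ + ((p ^ 2 : ℕ) : ℚ) * R with hu'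
  have hu : PIntegral p u := (hy.add (((PIntegral.natCast p).mul (hy.mul hy)).mul h2)).add
    ((PIntegral.natCast _).mul hR)
  have hP : P = 1 + (p : ℚ) * u := by rw [eR, hu']; push_cast; ring
  have hPi : PIntegral p P := by rw [hP]; exact hone.add ((PIntegral.natCast p).mul hu)
  set I := y * y * y + (p : ℚ) * (y * y * (y * y)) * (((2 : ℕ) : ℚ)⁻¹ * ((2 : ℕ) : ℚ)⁻¹) +
    R * (((2 : ℕ) : ℚ) * (P + ((-1 : ℤ) : ℚ) * ((p ^ 3 : ℕ) : ℚ) * R) + ((p ^ 3 : ℕ) : ℚ) * R) +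
    ((-1 : ℤ) : ℚ) * S with hI'
  have hI : PIntegral p I := ((((hy.mul hy).mul hy).add
    (((PIntegral.natCast p).mul ((hy.mul hy).mul (hy.mul hy))).mul (h2.mul h2))).add
    (hR.mul (((PIntegral.natCast _).mul
      (hPi.add (((PIntegral.intCast _).mul (PIntegral.natCast _)).mul hR))).add
      ((PIntegral.natCast _).mul hR)))).add ((PIntegral.intCast _).mul hS)
  have hsq : P ^ 2 - halfProd p (-1) = (p : ℚ) ^ 3 * I := by
    rw [hI', eR, eS, hy']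
    push_cast
    ring
  have hex := two_pow_mul_halfProd (p := p) (by omega)
  rw [← hP'] at hex
  obtain ⟨d, hd, ed⟩ := pow_mul_of_add_mul (N := 3) (u := u)
    (d := ((2 ^ (p - 1) : ℕ) : ℚ) + ((-1 : ℤ) : ℚ) * P)
    ((PIntegral.natCast _).add ((PIntegral.intCast _).mul hPi)) hu
    (I := ((-1 : ℤ) : ℚ) * I) ((PIntegral.intCast _).mul hI) (by
      push_cast
      rw [hP] at hsq hex ⊢
      linear_combination hex - hsq)
  refine ⟨((-1 : ℤ) : ℚ) * (d * (((2 ^ (p - 1) : ℕ) : ℚ) + P) + I),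
    (PIntegral.intCast _).mul ((hd.mul ((PIntegral.natCast _).add hPi)).add hI), ?_⟩
  rw [← halfProd_neg_one (by omega), show (4 : ℚ) ^ (p - 1) = ((2 : ℚ) ^ (p - 1)) ^ 2 by
    rw [← pow_mul, mul_comm, pow_mul]; norm_num]
  push_cast at ed ⊢
  linear_combination -hsq - ((2 : ℚ) ^ (p - 1) + P) * ed

theorem natModEq_pow_of_cast_sub {x y N : ℕ} {t : ℚ} (ht : PIntegral p t)
    (e : (x : ℚ) - (y : ℚ) = (p : ℚ) ^ N * t) : x ≡ y [MOD p ^ N] := by
  refine (Nat.modEq_iff_dvd.mpr ?_).symm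
  have := pow_dvd_num_of_eq_mul (x := (((x : ℤ) - y : ℤ) : ℚ)) ht (by push_cast; exact e)
  rwa [Rat.num_intCast] at this

end FA.OrderTheta

namespace FA.Summary

open FA.OrderTheta

/-- **Jacobsthal's congruence**, with Glaisher's Bernoulli term. -/
theorem jacobsthal (p : ℕ) [Fact p.Prime] (hp5 : 5 ≤ p) (a b : ℕ) (hba : b ≤ a) :
    ∃ t : ℚ, ¬ p ∣ t.den ∧ (((a * p).choose (b * p) : ℕ) : ℚ) = ((a.choose b : ℕ) : ℚ) *
      (1 - ((a * b * (a - b) : ℕ) : ℚ) / 3 * (p : ℚ) ^ 3 * bernoulli (p - 3)) + (p : ℚ) ^ 4 * t :=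
  jacobsthal_cong hp5 hba

/-- **Ljunggren's congruence.** -/
theorem ljunggren (p : ℕ) [Fact p.Prime] (hp5 : 5 ≤ p) (a b : ℕ) :
    (a * p).choose (b * p) ≡ a.choose b [MOD p ^ 3] := by
  rcases Nat.lt_or_ge a b with h | h
  · rw [Nat.choose_eq_zero_of_lt h,
      Nat.choose_eq_zero_of_lt (Nat.mul_lt_mul_of_pos_right h (by omega))]
  · obtain ⟨t, ht, e⟩ := jacobsthal_cong hp5 h
    refine natModEq_pow_of_cast_sub
      ((((PIntegral.intCast (-1)).mul ((PIntegral.natCast (a.choose b)).mul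
        (((PIntegral.natCast (a * b * (a - b))).mul
          (pIntegral_inv_small (n := 3) hp5 three_pos (by norm_num))).mul
        (pIntegral_bernoulli_sub_three hp5)))).add ((PIntegral.natCast p).mul ht))) ?_
    rw [e]
    push_cast
    ring

/-- For a Wolstenholme prime Ljunggren's congruence holds modulo `p⁴`. -/
theorem jacobsthal_of_wolstenholme_prime (p : ℕ) [Fact p.Prime] (hp5 : 5 ≤ p)
    (hW : (p : ℤ) ∣ (bernoulli (p - 3)).num) (a b : ℕ) :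
    (a * p).choose (b * p) ≡ a.choose b [MOD p ^ 4] := by
  rcases Nat.lt_or_ge a b with h | h
  · rw [Nat.choose_eq_zero_of_lt h,
      Nat.choose_eq_zero_of_lt (Nat.mul_lt_mul_of_pos_right h (by omega))]
  · obtain ⟨t, ht, e⟩ := jacobsthal_cong hp5 h
    obtain ⟨s, hs, es⟩ := ratCong_zero_of_dvd_num (pIntegral_bernoulli_sub_three hp5) hW
    refine natModEq_pow_of_cast_sub
      ((((PIntegral.intCast (-1)).mul ((PIntegral.natCast (a.choose b)).mul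
        (((PIntegral.natCast (a * b * (a - b))).mul
          (pIntegral_inv_small (n := 3) hp5 three_pos (by norm_num))).mul hs))).add ht)) ?_
    rw [e, es]
    push_cast
    ring

/-- **Morley's congruence.** -/
theorem morley (p : ℕ) [Fact p.Prime] (hp5 : 5 ≤ p) :
    (-1 : ℤ) ^ (p / 2) * ((p - 1).choose (p / 2) : ℤ) ≡ 4 ^ (p - 1) [ZMOD (p : ℤ) ^ 3] := by
  obtain ⟨t, ht, e⟩ := morley_cong hp5
  refine (Int.modEq_iff_dvd.mpr ?_).symm
  have := pow_dvd_num_of_eq_mul (N := 3)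
    (x := (((-1 : ℤ) ^ (p / 2) * ((p - 1).choose (p / 2) : ℤ) - 4 ^ (p - 1) : ℤ) : ℚ)) ht
    (by push_cast; exact e)
  rw [Rat.num_intCast] at this
  exact_mod_cast this

end FA.Summary
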