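import Fermat.Agent.PrimeNumberTheorem.Progression

/-!
# The prime number theorem

`π x ∼ x / log x`, `θ x ∼ x`, `ψ x ∼ x` (Hadamard, de la Vallée Poussin), the same in every
invertible residue class modulo `q` with the factor `1 / φ (q)`, and primes of such a class
between `x` and `(1 + ε) x` for all large `x`. The proof is Newman's (1980).
-/

set_option autoImplicit false

noncomputable section

namespace FA.PNT.Summary

open Filter Real
open scoped Topology Nat.Prime

theorem psiClass_one (x : ℝ) : psiClass (1 : ZMod 1) x = Chebyshev.psi x := by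
  refine Finset.sum_congr rfl fun n _ => ?_
  simp [ArithmeticFunction.vonMangoldt.residueClass, eq_iff_true_of_subsingleton]

theorem thetaClass_one (x : ℝ) : thetaClass (1 : ZMod 1) x = Chebyshev.theta x := by
  unfold thetaClass Chebyshev.theta
  exact Finset.sum_congr (Finset.filter_congr fun p _ =>
    and_iff_left (Subsingleton.elim _ _)) fun _ _ => rfl

theorem piClass_one (x : ℝ) : piClass (1 : ZMod 1) x = π ⌊x⌋₊ := by
  rw [piClass, Nat.primeCounting, Nat.primeCounting', Nat.count_eq_card_filter_range]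
  congr 2
  ext p
  simp only [Finset.mem_filter, Finset.mem_Icc, Finset.mem_range, eq_iff_true_of_subsingleton,
    and_true]
  exact ⟨fun h => ⟨by omega, h.2⟩, fun h => ⟨⟨h.2.one_le, by omega⟩, h.2⟩⟩

/-- **The prime number theorem.** -/
theorem prime_number_theorem :
    Tendsto (fun x : ℝ => (π ⌊x⌋₊ : ℝ) * log x / x) atTop (𝓝 1) := by
  simpa [piClass_one] using tendsto_piClass (1 : ZMod 1) isUnit_one

/-- **The prime number theorem**, `π x ∼ x / log x`. -/
theorem primeCounting_isEquivalent :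
    Asymptotics.IsEquivalent atTop (fun x : ℝ => (π ⌊x⌋₊ : ℝ)) fun x => x / log x := by
  refine Asymptotics.isEquivalent_of_tendsto_one ?_
  refine prime_number_theorem.congr' ?_
  filter_upwards [eventually_gt_atTop 1] with x hx
  simp only [Pi.div_apply]
  rw [div_div_eq_mul_div]

/-- `ψ x ∼ x`. -/
theorem tendsto_psi : Tendsto (fun x => Chebyshev.psi x / x) atTop (𝓝 1) := by
  simpa [psiClass_one] using tendsto_psiClass (1 : ZMod 1) isUnit_one

/-- `θ x ∼ x`. -/
theorem tendsto_theta : Tendsto (fun x => Chebyshev.theta x / x) atTop (𝓝 1) := by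
  simpa [thetaClass_one] using tendsto_thetaClass (1 : ZMod 1) isUnit_one

/-- **The prime number theorem in arithmetic progressions.** -/
theorem prime_number_theorem_progression {q : ℕ} [NeZero q] {a : ZMod q} (ha : IsUnit a) :
    Tendsto (fun x : ℝ => (((Finset.Icc 1 ⌊x⌋₊).filter
      fun p : ℕ => p.Prime ∧ (p : ZMod q) = a).card : ℝ) * log x / x) atTop
        (𝓝 (q.totient : ℝ)⁻¹) :=
  tendsto_piClass a ha

/-- `ψ (x; q, a) ∼ x / φ (q)`. -/
theorem tendsto_psi_progression {q : ℕ} [NeZero q] {a : ZMod q} (ha : IsUnit a) :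
    Tendsto (fun x : ℝ => (∑ n ∈ Finset.Icc 1 ⌊x⌋₊,
      ArithmeticFunction.vonMangoldt.residueClass a n) / x) atTop (𝓝 (q.totient : ℝ)⁻¹) :=
  tendsto_psiClass a ha

/-- Primes of a given class in short intervals. -/
theorem exists_prime_between {q : ℕ} [NeZero q] {a : ZMod q} (ha : IsUnit a) {ε : ℝ}
    (hε : 0 < ε) : ∀ᶠ x : ℝ in atTop,
      ∃ p : ℕ, p.Prime ∧ (p : ZMod q) = a ∧ x < p ∧ (p : ℝ) ≤ (1 + ε) * x :=
  eventually_exists_prime a ha hε

/-- **Newman's tauberian theorem.** -/
theorem newman_tauberian {f : ℝ → ℂ} (hf : Measurable f) {M : ℝ} (hM : ∀ t, ‖f t‖ ≤ M)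
    {G : ℂ → ℂ} {U : Set ℂ} (hU : IsOpen U) (hUsub : {z : ℂ | 0 ≤ z.re} ⊆ U)
    (hG : DifferentiableOn ℂ G U)
    (heq : ∀ z : ℂ, 0 < z.re → G z = ∫ t in Set.Ioi (0 : ℝ), f t * Complex.exp (-z * t)) :
    Tendsto (fun T : ℝ => ∫ t in (0 : ℝ)..T, f t) atTop (𝓝 (G 0)) :=
  newman hf hM hU hUsub hG heq

end FA.PNT.Summary

end
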