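import Fermat.Agent.ArithmeticTruth.Definable

/-!
# Truth in arithmetic: the theorems of Tarski and Gödel

In the language of `0`, `1`, `+` and `*` every recursively enumerable set of natural numbers is
definable in `ℕ`, while the set of codes of the true sentences is not definable (Tarski). So that
set is not recursively enumerable, and every recursively enumerable set of true sentences misses a
true sentence saying that an equation has no solution (Gödel).

Codes are the standard encodings of Mathlib's lists of symbols, so distinct sentences have distinct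
codes. Not claimed: a proof system, so nothing is said of formal provability.
-/

set_option autoImplicit false

namespace FA.ArithmeticTruth

open FirstOrder Language

/-- **Recursively enumerable sets are definable in arithmetic.** -/
theorem rePred_definable {S : Set ℕ} (hS : REPred fun n => n ∈ S) :
    (∅ : Set ℕ).Definable arithLanguage {v : Fin 1 → ℕ | v 0 ∈ S} := by
  obtain ⟨β, iβ, a, b, h⟩ := exists_equation
    (dioph_rePred hS (Dioph.proj_dioph (0 : Fin 1)))
  exact Set.empty_definable_iff.2 ⟨_, Set.ext h⟩

theorem mem_truth_iff (φ : arithLanguage.Sentence) : sentenceCode φ ∈ truth ↔ ℕ ⊨ φ :=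
  ⟨fun ⟨_, e, h⟩ => sentenceCode_injective e ▸ h, fun h => ⟨φ, rfl, h⟩⟩

/-- **Tarski.** Truth in arithmetic is not definable in arithmetic. -/
theorem tarski_undefinability :
    ¬(∅ : Set ℕ).Definable arithLanguage {v : Fin 1 → ℕ | v 0 ∈ truth} := by
  intro h
  obtain ⟨τ, hτ⟩ := Set.empty_definable_iff.1 h
  obtain ⟨D, hD⟩ := exists_graph
    (f := fun k => instanceCode k k)
    (primrec_instanceCode.comp Primrec.id Primrec.id).to_comp
  let ψ : arithLanguage.BoundedFormula Empty 1 :=
    (D ⊓ (BoundedFormula.relabel (fun _ => (Sum.inr 1 : Empty ⊕ Fin 2)) τ).not).ex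
  have hrel : ∀ (x y : ℕ),
      (BoundedFormula.relabel (fun _ => (Sum.inr 1 : Empty ⊕ Fin 2)) τ).Realize
        (default : Empty → ℕ) ![x, y] ↔ y ∈ truth := by
    intro x y
    refine BoundedFormula.realize_relabel.trans ((iff_of_eq (congrArg₂ _ ?_
      (Subsingleton.elim _ _))).trans (Set.ext_iff.1 hτ ![y]).symm)
    funext i
    rw [Fin.fin_one_eq_zero i]
    rfl
  have hψ : ∀ k, ψ.Realize (default : Empty → ℕ) ![k] ↔ instanceCode k k ∉ truth := by
    intro k
    have hs : ∀ y : ℕ, Fin.snoc ![k] y = ![k, y] := fun y => funext fun i => by
      fin_cases i <;> rfl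
    simp only [ψ, BoundedFormula.realize_ex, BoundedFormula.realize_inf,
      BoundedFormula.realize_not, hs, hD, hrel, exists_eq_left']
  have hd := hψ (Encodable.encode ψ.listEncode)
  rw [← sentenceCode_instance, mem_truth_iff, realize_instanceSentence] at hd
  exact not_iff_self hd.symm

/-- **Gödel's first incompleteness theorem for true arithmetic.** The true sentences are not
recursively enumerable. Moreover one equation has this property: every recursively enumerable set
of true sentences misses, for some `n`, the true sentence that it has no solution at `n`. -/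
theorem godel_incompleteness :
    (¬REPred fun k => k ∈ truth) ∧
    ∃ (β : Type) (_ : Finite β) (a b : arithLanguage.Term (Fin 1 ⊕ β)),
      ∀ S : Set ℕ, REPred (fun k => k ∈ S) → S ⊆ truth →
        ∃ n, ℕ ⊨ instanceSentence (bindVar (Formula.iExs β (Term.equal a b)).not) n ∧
          sentenceCode (instanceSentence (bindVar (Formula.iExs β (Term.equal a b)).not) n) ∉
            S := by
  refine ⟨fun h => tarski_undefinability (rePred_definable h), ?_⟩
  have hK : REPred fun n =>
      (Nat.Partrec.Code.eval (Denumerable.ofNat Nat.Partrec.Code n) 0).Dom :=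
    (Nat.Partrec.Code.eval_part.comp (Computable.ofNat _) (Computable.const 0)).dom_re
  obtain ⟨β, iβ, a, b, h⟩ := exists_equation (dioph_rePred hK (Dioph.proj_dioph (0 : Fin 1)))
  refine ⟨β, iβ, a, b, fun S hS hsub => ?_⟩
  by_contra! hall
  set φ := bindVar (Formula.iExs β (Term.equal a b)).not with hφ
  have hreal : ∀ n, ℕ ⊨ instanceSentence φ n ↔
      ¬(Nat.Partrec.Code.eval (Denumerable.ofNat Nat.Partrec.Code n) 0).Dom := by
    intro n
    rw [realize_instanceSentence, hφ, realize_bindVar, Formula.realize_not]
    exact not_congr (h ![n]).symm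
  have hc : Computable fun c : Nat.Partrec.Code =>
      instanceCode (Encodable.encode φ.listEncode) (Encodable.encode c) :=
    (primrec_instanceCode.comp (Primrec.const _) Primrec.encode).to_comp
  refine ComputablePred.halting_problem_not_re 0 ((REPred.of_eq (α := Nat.Partrec.Code)
    (p := fun c => instanceCode (Encodable.encode φ.listEncode) (Encodable.encode c) ∈ S)
    (Partrec.comp hS hc)) fun c => ?_)
  have hr := hreal (Encodable.encode c)
  rw [Denumerable.ofNat_encode] at hr
  rw [← sentenceCode_instance, ← hr]
  exact ⟨fun hm => (mem_truth_iff _).1 (hsub hm), hall _⟩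

end FA.ArithmeticTruth
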