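import Fermat.Agent.StarkZero.Main

/-!
# Stark: the exceptional zero, and effective lower bounds for `h R`

For an entire `E` with `E s = (s - 1) ζ_K(s)` on `1 < re s`, and `L = 1 + log |d_K|`:

* `stark_at_most_one_zero`: in degree `n` there is an explicit `c(n) > 0` such that `E` has at most
  one zero in `[1 - c(n) / L, 1]`, and that zero is simple;
* `heilbronn_simple_zero`: for Galois `K` a simple zero in `(0, 1)` is a zero of `ζ_F` for a
  quadratic subfield `F`;
* `stark_exceptional_zero_quadratic`: a zero in `[1 - c(n) / L, 1]` is a zero of `ζ_F` for a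
  quadratic subfield `F` of any Galois number field containing `K`;
* `stark_no_exceptional_zero`: so there is none if such a field has no quadratic subfield;
* `classNumber_mul_regulator_ge_stark`: then `h R ≥ c(n) √|d| / L` with an explicit `c(n)`, and
  `classNumber_mul_regulator_ge_odd_galois`: so for Galois fields of odd degree.

Nothing is asked of `K` beyond its degree; independent of S01.
-/

set_option autoImplicit false
set_option linter.style.haveILetI false

noncomputable section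

universe u v

open NumberField Module Complex Set
open FA.HeckeBS FA.StarkZero
open scoped Real Classical

namespace FA.Summary

variable (K : Type u) [Field K] [NumberField K]

/-- Zeros of the two normalisations in `0 < re s`. -/
theorem stark_xiFun_eq_zero_iff {E : ℂ → ℂ} (hE : Differentiable ℂ E)
    (hEL : ∀ s : ℂ, 1 < s.re → E s = (s - 1) * dedekindZeta K s) {s : ℂ} (hs : 0 < s.re) :
    (xiFun K s = 0 ↔ E s = 0) ∧ (E s = 0 → deriv E s = 0 → deriv (xiFun K) s = 0) := by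
  have h0 : s * FA.HeckeFE.gamFac K s ≠ 0 :=
    mul_ne_zero (fun h => by simp [h] at hs) (differentiableAt_gamFac K hs).2
  refine ⟨by rw [xiFun_eq_mul K hE hEL hs]; simp [h0], fun h1 h2 => ?_⟩
  have hev : xiFun K =ᶠ[nhds s] fun z => z * FA.HeckeFE.gamFac K z * E z :=
    Filter.eventually_of_mem ((isOpen_lt continuous_const continuous_re).mem_nhds hs)
      fun z hz => xiFun_eq_mul K hE hEL hz
  rw [hev.deriv_eq]
  exact ((((hasDerivAt_id s).mul (differentiableAt_gamFac K hs).1.hasDerivAt).mul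
    (hE s).hasDerivAt).deriv).trans (by simp [h1, h2])

/-- **At most one zero near `1`, and simple.** -/
theorem stark_at_most_one_zero (n : ℕ) :
    ∃ c > 0, ∀ (F : Type u) [Field F] [NumberField F], finrank ℚ F = n →
      ∀ E : ℂ → ℂ, Differentiable ℂ E → (∀ s : ℂ, 1 < s.re → E s = (s - 1) * dedekindZeta F s) →
      ∀ β ∈ Icc (1 - c / (1 + Real.log ((discr F).natAbs : ℝ))) 1, E (β : ℂ) = 0 →
        deriv E (β : ℂ) ≠ 0 ∧
        ∀ β' ∈ Icc (1 - c / (1 + Real.log ((discr F).natAbs : ℝ))) 1, E (β' : ℂ) = 0 → β' = β := by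
  refine ⟨starkC n, starkC_pos n, fun F _ _ hn E hE hEL β hβ h0 => ?_⟩
  subst hn
  have hpos : ∀ b ∈ Icc (1 - starkC (finrank ℚ F) / size F) 1, 0 < ((b : ℝ) : ℂ).re := fun b hb => by
    rw [ofReal_re]
    linarith [hb.1, starkC_div_le (one_le_size (K := F)) (finrank ℚ F)]
  obtain ⟨hiff, hder⟩ := stark_xiFun_eq_zero_iff F hE hEL (hpos β hβ)
  exact ⟨fun h1 => zero_simple F hβ (hiff.2 h0) (hder h0 h1), fun β' hβ' h0' =>
    zero_unique F hβ' hβ ((stark_xiFun_eq_zero_iff F hE hEL (hpos β' hβ')).1.2 h0') (hiff.2 h0)⟩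

/-- **Heilbronn.** -/
theorem heilbronn_simple_zero [IsGalois ℚ K] {E : ℂ → ℂ} (hE : Differentiable ℂ E)
    (hEL : ∀ s : ℂ, 1 < s.re → E s = (s - 1) * dedekindZeta K s) {ρ : ℝ} (hρ0 : 0 < ρ) (hρ1 : ρ < 1)
    (h0 : E (ρ : ℂ) = 0) (h1 : deriv E (ρ : ℂ) ≠ 0) :
    ∃ F : IntermediateField ℚ K, finrank ℚ F = 2 ∧
      ∀ E' : ℂ → ℂ, Differentiable ℂ E' → (∀ s : ℂ, 1 < s.re → E' s = (s - 1) * dedekindZeta F s) →
        E' (ρ : ℂ) = 0 := by
  have hre : 0 < (ρ : ℂ).re := by simpa using hρ0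
  have hne : (ρ : ℂ) * FA.HeckeFE.gamFac K ρ ≠ 0 :=
    mul_ne_zero (fun h => by simp [h] at hre) (differentiableAt_gamFac K hre).2
  have hd : deriv (xiFun K) (ρ : ℂ) ≠ 0 := by
    have hev : xiFun K =ᶠ[nhds (ρ : ℂ)] fun z => z * FA.HeckeFE.gamFac K z * E z :=
      Filter.eventually_of_mem ((isOpen_lt continuous_const continuous_re).mem_nhds hre)
        fun z hz => xiFun_eq_mul K hE hEL hz
    rw [hev.deriv_eq]
    refine fun h => h1 ?_
    have h2 := (((hasDerivAt_id (ρ : ℂ)).mul (differentiableAt_gamFac K hre).1.hasDerivAt).mul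
      (hE ρ).hasDerivAt).deriv.symm.trans h
    simp only [h0, mul_zero, zero_add, id, Pi.mul_apply] at h2
    exact (mul_eq_zero.1 h2).resolve_left hne
  obtain ⟨F, hF, hz, -⟩ := exists_quadratic_subfield hρ0 hρ1
    ((stark_xiFun_eq_zero_iff K hE hEL hre).1.2 h0) hd
  exact ⟨F, hF, fun E' hE' hEL' => (stark_xiFun_eq_zero_iff F hE' hEL' hre).1.1 hz⟩

/-- **The exceptional zero comes from a quadratic field.** -/
theorem stark_exceptional_zero_quadratic (n : ℕ) :
    ∃ c > 0, ∀ (F : Type u) [Field F] [NumberField F] (N : Type v) [Field N] [NumberField N]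
      [IsGalois ℚ N] [Algebra F N], finrank ℚ F = n →
      ∀ E : ℂ → ℂ, Differentiable ℂ E → (∀ s : ℂ, 1 < s.re → E s = (s - 1) * dedekindZeta F s) →
      ∀ β ∈ Icc (1 - c / (1 + Real.log ((discr F).natAbs : ℝ))) 1, E (β : ℂ) = 0 →
        ∃ Q : IntermediateField ℚ N, finrank ℚ Q = 2 ∧ ∀ E' : ℂ → ℂ, Differentiable ℂ E' →
          (∀ s : ℂ, 1 < s.re → E' s = (s - 1) * dedekindZeta Q s) → E' (β : ℂ) = 0 := by
  refine ⟨zoneC n, zoneC_pos n, fun F _ _ N _ _ _ _ hn E hE hEL β hβ h0 => ?_⟩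
  subst hn
  have hre : 0 < (β : ℂ).re := by
    have h300 : zoneC (finrank ℚ F) / size F ≤ 1 / 300 := zoneC_div_le _ one_le_size
    rw [size] at h300
    rw [ofReal_re]; linarith [hβ.1]
  obtain ⟨Q, hQ, hz⟩ := exists_quadratic_of_zero F N hβ ((stark_xiFun_eq_zero_iff F hE hEL hre).1.2 h0)
  exact ⟨Q, hQ, fun E' hE' hEL' => (stark_xiFun_eq_zero_iff Q hE' hEL' hre).1.1 hz⟩

/-- **No exceptional zero without quadratic subfields.** -/
theorem stark_no_exceptional_zero (n : ℕ) :
    ∃ c > 0, ∀ (F : Type u) [Field F] [NumberField F] (N : Type v) [Field N] [NumberField N]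
      [IsGalois ℚ N] [Algebra F N], finrank ℚ F = n → (∀ Q : IntermediateField ℚ N, finrank ℚ Q ≠ 2) →
      ∀ E : ℂ → ℂ, Differentiable ℂ E → (∀ s : ℂ, 1 < s.re → E s = (s - 1) * dedekindZeta F s) →
      ∀ β ∈ Icc (1 - c / (1 + Real.log ((discr F).natAbs : ℝ))) 1, E (β : ℂ) ≠ 0 := by
  obtain ⟨c, hc, h⟩ := stark_exceptional_zero_quadratic.{u, v} n
  exact ⟨c, hc, fun F _ _ N _ _ _ _ hn hN E hE hEL β hβ h0 =>
    let ⟨Q, hQ, _⟩ := h F N hn E hE hEL β hβ h0
    hN Q hQ⟩

/-- **Stark's lower bound for `h R`.** -/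
theorem classNumber_mul_regulator_ge_stark (n : ℕ) :
    ∃ c > 0, ∀ (F : Type u) [Field F] [NumberField F] (N : Type v) [Field N] [NumberField N]
      [IsGalois ℚ N] [Algebra F N], finrank ℚ F = n → (∀ Q : IntermediateField ℚ N, finrank ℚ Q ≠ 2) →
      c * (Real.sqrt |((discr F : ℤ) : ℝ)| / (1 + Real.log ((discr F).natAbs : ℝ))) ≤
        (classNumber F : ℝ) * Units.regulator F := by
  refine ⟨hRConst n, hRConst_pos n, fun F _ _ N _ _ _ _ hn hN => ?_⟩
  subst hn
  exact hR_ge_of_no_quadratic F N hN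

/-- **Galois fields of odd degree.** -/
theorem classNumber_mul_regulator_ge_odd_galois (n : ℕ) (hn : Odd n) :
    ∃ c > 0, ∀ (F : Type u) [Field F] [NumberField F] [IsGalois ℚ F], finrank ℚ F = n →
      c * (Real.sqrt |((discr F : ℤ) : ℝ)| / (1 + Real.log ((discr F).natAbs : ℝ))) ≤
        (classNumber F : ℝ) * Units.regulator F := by
  obtain ⟨c, hc, h⟩ := classNumber_mul_regulator_ge_stark.{u, u} n
  exact ⟨c, hc, fun F _ _ _ hF => h F F hF (no_quadratic_of_odd F (hF ▸ hn))⟩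

end FA.Summary
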