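import Fermat.Agent.ChebotarevError.Count

/-!
# Chebotarev's theorem with the classical error term

For a finite Galois extension `L/K` of number fields and a set `C` of automorphisms stable under
conjugation, with `c`, `A` depending on `L/K` and `C`:

* `chebotarev_error_term`: the primes of `K` of norm at most `x` below a maximal ideal of `𝓞 L`
  with an arithmetic Frobenius in `C` number `|C| / [L : K] ∫_2^x dt / log t` up to
  `A x exp (- c √(log x))`;
* `chebotarev_theta_error_term`: their `log N` sum to `|C| / [L : K] x` up to the same error.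

No functional equation is used: `(s - 1) L(s, f)` of a Hecke character of finite order grows
polynomially in a strip about the line `1`, whence the classical zero-free region, and
`|G| 1_C` is a combination of functions induced from characters of cyclic subgroups.
-/

set_option autoImplicit false
set_option linter.style.haveILetI false

noncomputable section

open NumberField IsDedekindDomain
open scoped Pointwise Classical Real

namespace FA.Summary

open FA.NaturalChebotarev FA.ChebError FA.Hecke

variable (K L : Type*) [Field K] [NumberField K] [Field L] [NumberField L] [Algebra K L]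
  [IsGalois K L] (C : Set (L ≃ₐ[K] L)) (hC : ∀ g ∈ C, ∀ x, x * g * x⁻¹ ∈ C)

include hC

/-- **Chebotarev's theorem with the classical error term.** -/
theorem chebotarev_error_term :
    ∃ c A : ℝ, 0 < c ∧ 0 ≤ A ∧ ∀ x : ℝ, 2 ≤ x →
      |(Nat.card {v : HeightOneSpectrum (𝓞 K) //
          (Ideal.absNorm v.asIdeal : ℝ) ≤ x ∧ ∃ Q : Ideal (𝓞 L), Q.IsMaximal ∧
            Q.under (𝓞 K) = v.asIdeal ∧ ∃ τ ∈ C, IsArithFrobAt (𝓞 K) τ Q} : ℝ) -
        (Nat.card C : ℝ) / Nat.card (L ≃ₐ[K] L) * ∫ t in (2 : ℝ)..x, 1 / Real.log t| ≤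
        A * (x * Real.exp (-(c * √(Real.log x)))) := by
  obtain ⟨c, A, hc, hA, h⟩ := exists_count_error hC
  refine ⟨c, A, hc, hA, fun x hx => ?_⟩
  have e := natCard_le_eq_countIn (someFrobSet K L C) (show (0 : ℝ) ≤ x by linarith)
  have h' := h x hx
  rw [← e] at h'
  rw [← share]
  exact h'

/-- **The same for the sums of `log N`.** -/
theorem chebotarev_theta_error_term :
    ∃ c A : ℝ, 0 < c ∧ 0 ≤ A ∧ ∀ x : ℝ, 2 ≤ x →
      |(∑ᶠ v ∈ {v : HeightOneSpectrum (𝓞 K) | (Ideal.absNorm v.asIdeal : ℝ) ≤ x ∧
          ∃ Q : Ideal (𝓞 L), Q.IsMaximal ∧ Q.under (𝓞 K) = v.asIdeal ∧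
            ∃ τ ∈ C, IsArithFrobAt (𝓞 K) τ Q}, Real.log (Ideal.absNorm v.asIdeal : ℝ)) -
        (Nat.card C : ℝ) / Nat.card (L ≃ₐ[K] L) * x| ≤
        A * (x * Real.exp (-(c * √(Real.log x)))) := by
  obtain ⟨c, A, hc, -, hA, h⟩ := exists_theta_error hC
  refine ⟨c, A, hc, hA, fun x hx => ?_⟩
  have h' := h x hx
  rw [partialSum_setLog, wSum, ← Finset.sum_filter] at h'
  rw [← share, finsum_mem_eq_sum_of_inter_support_eq _
    (t := (primesLE K ⌊x⌋₊).filter (· ∈ someFrobSet K L C)) ?_]
  · exact h'
  ext v
  simp only [Finset.coe_filter, mem_primesLE, Set.mem_inter_iff, Set.mem_ofPred_eq,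
    Nat.le_floor_iff (show (0 : ℝ) ≤ x by linarith), someFrobSet]

end FA.Summary

end
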