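import Fermat.Agent.EffectiveChebotarev.Count
import Fermat.Agent.Root.SummaryChebotarevErrorTerm

/-!
# Chebotarev's density theorem, effectively and uniformly in the extension

After Lagarias and Odlyzko. With absolute constants `c₀`, `c`, `A`, for every Galois extension `L/K`
of number fields and every set `C` of automorphisms stable under conjugation, put
`H = 1 + log |d_L| + n_L log 3`, `σ = |C| / [L : K]` and
`R(x) = A σ H ^ 4 x exp (- c log x / (1 + log |d_L| + 2 n_L + √(n_L log x)))`. For `x ≥ 2`: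

* `effective_chebotarev`: the primes of `K` of norm at most `x` below a maximal ideal of `𝓞 L` with
  an arithmetic Frobenius in `C` number `σ ∫_2^x dt / log t` up to `R(x)` if `ζ_L` has no real zero
  `β ≥ 1 - c₀ / H`, and `σ ∫_2^x (1 - θ t ^ (β - 1)) / log t` up to `R(x)`, `|θ| ≤ 1`, if it has one;
* `effective_chebotarev_psi`: the same for `∑ Λ_C n` against `σ (x - θ x ^ β / β)`;
* `effective_chebotarev_range`: if `log x ≥ n_L H ^ 2` then `R(x)` can be replaced by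
  `A σ x exp (- c √(log x / n_L))`.

The implied constants depend on nothing. The proof does not use S01.
-/

set_option autoImplicit false
set_option linter.style.haveILetI false

noncomputable section

universe u v

open NumberField IsDedekindDomain Module
open FA.DedekindZF (height zfrC zfrC_pos one_le_height)
open FA.DedekindPIT (partialSum gauge gaugeD)
open FA.ChebError (share mangoldtF)
open scoped Real Classical Pointwise

namespace FA.Summary

/-- **Chebotarev, effectively and uniformly.** -/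
theorem effective_chebotarev : ∃ c₀ c A : ℝ, 0 < c₀ ∧ 0 < c ∧
    ∀ (K : Type u) (L : Type v) [Field K] [NumberField K] [Field L] [NumberField L] [Algebra K L]
      [IsGalois K L] (C : Set (L ≃ₐ[K] L)), (∀ g ∈ C, ∀ x, x * g * x⁻¹ ∈ C) → ∀ E : ℂ → ℂ,
      Differentiable ℂ E → (∀ s : ℂ, 1 < s.re → E s = (s - 1) * dedekindZeta L s) →
        let D := Real.log ((discr L).natAbs : ℝ)
        let H := 1 + D + finrank ℚ L * Real.log 3
        let σ := (Nat.card C : ℝ) / Nat.card (L ≃ₐ[K] L)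
        let I := Set.Ici (1 - c₀ / H)
        let π' := fun x : ℝ => (Nat.card {v : HeightOneSpectrum (𝓞 K) //
          (Ideal.absNorm v.asIdeal : ℝ) ≤ x ∧ ∃ Q : Ideal (𝓞 L), Q.IsMaximal ∧
            Q.under (𝓞 K) = v.asIdeal ∧ ∃ τ ∈ C, IsArithFrobAt (𝓞 K) τ Q} : ℝ)
        let R := fun x : ℝ => A * σ * H ^ 4 * (x * Real.exp (-(c *
          (Real.log x / (1 + D + 2 * finrank ℚ L + √(finrank ℚ L * Real.log x))))))
        ((∀ β ∈ I, E ((β : ℝ) : ℂ) ≠ 0) → ∀ x : ℝ, 2 ≤ x →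
          |π' x - σ * ∫ t in (2 : ℝ)..x, 1 / Real.log t| ≤ R x) ∧
        ∀ β ∈ I, E ((β : ℝ) : ℂ) = 0 → ∃ θ : ℝ, |θ| ≤ 1 ∧ ∀ x : ℝ, 2 ≤ x →
          |π' x - σ * ∫ t in (2 : ℝ)..x, (1 - θ * t ^ (β - 1)) / Real.log t| ≤ R x := by
  obtain ⟨c, A, hc, -, h⟩ := FA.EffCheb.exists_effective.{u, v}
  refine ⟨zfrC, c, A, zfrC_pos, hc, fun K L _ _ _ _ _ _ C hC E hE hEL => ?_⟩
  have hH : height L 0 = 1 + Real.log ((discr L).natAbs : ℝ) + finrank ℚ L * Real.log 3 := by
    rw [FA.DedekindZF.height, abs_zero, zero_add]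
  simp only [Set.mem_Ici, ← hH]
  obtain ⟨h1, h2⟩ := h C hC E hE hEL
  have e : ∀ x : ℝ, 2 ≤ x → _ := fun x hx =>
    FA.NaturalChebotarev.natCard_le_eq_countIn (FA.NaturalChebotarev.someFrobSet K L C)
      (show (0 : ℝ) ≤ x by linarith)
  refine ⟨fun hno x hx => ?_, fun β hβ h0 => ?_⟩
  · have := (h1 hno x hx).2
    rw [← e x hx] at this
    exact this
  · obtain ⟨θ, hθ, h3⟩ := h2 β hβ h0
    refine ⟨θ, hθ, fun x hx => ?_⟩
    have := (h3 x hx).2
    rw [← e x hx] at this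
    exact this

/-- **The same for the Chebyshev function of `C`.** -/
theorem effective_chebotarev_psi : ∃ c₀ c A : ℝ, 0 < c₀ ∧ 0 < c ∧
    ∀ (K : Type u) (L : Type v) [Field K] [NumberField K] [Field L] [NumberField L] [Algebra K L]
      [IsGalois K L] (C : Set (L ≃ₐ[K] L)), (∀ g ∈ C, ∀ x, x * g * x⁻¹ ∈ C) → ∀ E : ℂ → ℂ,
      Differentiable ℂ E → (∀ s : ℂ, 1 < s.re → E s = (s - 1) * dedekindZeta L s) →
        let D := Real.log ((discr L).natAbs : ℝ)
        let H := 1 + D + finrank ℚ L * Real.log 3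
        let σ := (Nat.card C : ℝ) / Nat.card (L ≃ₐ[K] L)
        let I := Set.Ici (1 - c₀ / H)
        let R := fun x : ℝ => A * σ * H ^ 4 * (x * Real.exp (-(c *
          (Real.log x / (1 + D + 2 * finrank ℚ L + √(finrank ℚ L * Real.log x))))))
        ((∀ β ∈ I, E ((β : ℝ) : ℂ) ≠ 0) → ∀ x : ℝ, 2 ≤ x →
          |partialSum (mangoldtF C) x - σ * x| ≤ R x) ∧
        ∀ β ∈ I, E ((β : ℝ) : ℂ) = 0 → ∃ θ : ℝ, |θ| ≤ 1 ∧ ∀ x : ℝ, 2 ≤ x →
          |partialSum (mangoldtF C) x - σ * (x - θ * (x ^ β / β))| ≤ R x := by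
  obtain ⟨c, A, hc, -, h⟩ := FA.EffCheb.exists_effective.{u, v}
  refine ⟨zfrC, c, A, zfrC_pos, hc, fun K L _ _ _ _ _ _ C hC E hE hEL => ?_⟩
  have hH : height L 0 = 1 + Real.log ((discr L).natAbs : ℝ) + finrank ℚ L * Real.log 3 := by
    rw [FA.DedekindZF.height, abs_zero, zero_add]
  simp only [Set.mem_Ici, ← hH]
  obtain ⟨h1, h2⟩ := h C hC E hE hEL
  refine ⟨fun hno x hx => (h1 hno x hx).1, fun β hβ h0 => ?_⟩
  obtain ⟨θ, hθ, h3⟩ := h2 β hβ h0
  exact ⟨θ, hθ, fun x hx => (h3 x hx).1⟩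

/-- Beyond `exp (n H ^ 2)` the power of `H` is absorbed. -/
theorem effective_error_le (L : Type v) [Field L] [NumberField L] {c x : ℝ} (hc : 0 < c) (hx : 1 ≤ x)
    (hrange : finrank ℚ L * height L 0 ^ 2 ≤ Real.log x) :
    height L 0 ^ 4 * Real.exp (-(c * gauge L x)) ≤
      (32 / c) ^ 4 * Real.exp (-(c / 8 * √(Real.log x / finrank ℚ L))) := by
  have hn : (1 : ℝ) ≤ finrank ℚ L := Nat.one_le_cast.2 finrank_pos
  have hl : 0 ≤ Real.log x := Real.log_nonneg hx
  obtain ⟨H, hH⟩ : ∃ H, H = height L 0 := ⟨_, rfl⟩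
  have hH1 : 1 ≤ H := hH ▸ one_le_height L 0
  obtain ⟨u, hu⟩ : ∃ u, u = √(Real.log x / finrank ℚ L) := ⟨_, rfl⟩
  rw [← hH] at hrange ⊢
  rw [← hu]
  have hu0 : 0 ≤ u := hu ▸ Real.sqrt_nonneg _
  have hu2 : (finrank ℚ L : ℝ) * u ^ 2 = Real.log x := by
    rw [hu, Real.sq_sqrt (by positivity)]
    field_simp
  have hHu : H ≤ u := hu ▸ Real.le_sqrt_of_sq_le (by
    rw [le_div_iff₀ (by linarith)]
    linarith)
  have hD : gaugeD L x ≤ 4 * (finrank ℚ L * u) := by
    have hr : √(finrank ℚ L * Real.log x) = finrank ℚ L * u := by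
      rw [← hu2, ← mul_assoc, ← pow_two, ← mul_pow, Real.sqrt_sq (by positivity)]
    have h1 : 1 + Real.log ((discr L).natAbs : ℝ) ≤ H := by
      have h3 : 0 ≤ (finrank ℚ L : ℝ) * Real.log (|(0 : ℝ)| + 3) :=
        mul_nonneg (Nat.cast_nonneg _) (zero_le_one.trans (FA.DedekindZF.one_le_log 0))
      rw [hH, FA.DedekindZF.height]
      linarith
    have h2 : (finrank ℚ L : ℝ) ≤ H := hH ▸ FA.DedekindZF.finrank_le_height L 0
    have h3 : u ≤ finrank ℚ L * u := le_mul_of_one_le_left hu0 hn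
    rw [gaugeD, hr]
    linarith
  have hg : u / 4 ≤ gauge L x := by
    rw [FA.DedekindPIT.gauge, le_div_iff₀ (zero_lt_one.trans_le (FA.DedekindPIT.one_le_gaugeD L x)),
      ← hu2]
    refine (mul_le_mul_of_nonneg_left hD (by positivity)).trans (le_of_eq ?_)
    ring
  have hpow : H ^ 4 ≤ (32 / c) ^ 4 * Real.exp (c / 8 * H) := by
    have h1 : c * H / 32 ≤ Real.exp (c * H / 32) :=
      le_trans (by linarith) (Real.add_one_le_exp _)
    have h2 := pow_le_pow_left₀ (by positivity) h1 4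
    rw [← Real.exp_nat_mul] at h2
    calc H ^ 4 = (32 / c) ^ 4 * (c * H / 32) ^ 4 := by field_simp
      _ ≤ (32 / c) ^ 4 * Real.exp ((4 : ℕ) * (c * H / 32)) := by gcongr
      _ = _ := by congr 2; push_cast; ring
  calc H ^ 4 * Real.exp (-(c * gauge L x))
      ≤ (32 / c) ^ 4 * Real.exp (c / 8 * H) * Real.exp (-(c * gauge L x)) :=
        mul_le_mul_of_nonneg_right hpow (Real.exp_pos _).le
    _ ≤ _ := by
        rw [mul_assoc, ← Real.exp_add]
        refine mul_le_mul_of_nonneg_left (Real.exp_le_exp.2 ?_) (by positivity)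
        have := mul_le_mul_of_nonneg_left hg hc.le
        have := mul_le_mul_of_nonneg_left hHu (show 0 ≤ c / 8 by positivity)
        linarith

/-- **The range of Lagarias and Odlyzko.** -/
theorem effective_chebotarev_range : ∃ c₀ c A : ℝ, 0 < c₀ ∧ 0 < c ∧
    ∀ (K : Type u) (L : Type v) [Field K] [NumberField K] [Field L] [NumberField L] [Algebra K L]
      [IsGalois K L] (C : Set (L ≃ₐ[K] L)), (∀ g ∈ C, ∀ x, x * g * x⁻¹ ∈ C) → ∀ E : ℂ → ℂ,
      Differentiable ℂ E → (∀ s : ℂ, 1 < s.re → E s = (s - 1) * dedekindZeta L s) →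
        let H := 1 + Real.log ((discr L).natAbs : ℝ) + finrank ℚ L * Real.log 3
        let σ := (Nat.card C : ℝ) / Nat.card (L ≃ₐ[K] L)
        let I := Set.Ici (1 - c₀ / H)
        let π' := fun x : ℝ => (Nat.card {v : HeightOneSpectrum (𝓞 K) //
          (Ideal.absNorm v.asIdeal : ℝ) ≤ x ∧ ∃ Q : Ideal (𝓞 L), Q.IsMaximal ∧
            Q.under (𝓞 K) = v.asIdeal ∧ ∃ τ ∈ C, IsArithFrobAt (𝓞 K) τ Q} : ℝ)
        let R := fun x : ℝ => A * σ * (x * Real.exp (-(c * √(Real.log x / finrank ℚ L))))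
        ((∀ β ∈ I, E ((β : ℝ) : ℂ) ≠ 0) → ∀ x : ℝ, 2 ≤ x → finrank ℚ L * H ^ 2 ≤ Real.log x →
          |π' x - σ * ∫ t in (2 : ℝ)..x, 1 / Real.log t| ≤ R x) ∧
        ∀ β ∈ I, E ((β : ℝ) : ℂ) = 0 → ∃ θ : ℝ, |θ| ≤ 1 ∧
          ∀ x : ℝ, 2 ≤ x → finrank ℚ L * H ^ 2 ≤ Real.log x →
            |π' x - σ * ∫ t in (2 : ℝ)..x, (1 - θ * t ^ (β - 1)) / Real.log t| ≤ R x := by
  obtain ⟨c, A, hc, hA, h⟩ := FA.EffCheb.exists_effective.{u, v}
  refine ⟨zfrC, c / 8, A * (32 / c) ^ 4, zfrC_pos, by positivity,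
    fun K L _ _ _ _ _ _ C hC E hE hEL => ?_⟩
  have hH : height L 0 = 1 + Real.log ((discr L).natAbs : ℝ) + finrank ℚ L * Real.log 3 := by
    rw [FA.DedekindZF.height, abs_zero, zero_add]
  simp only [Set.mem_Ici, ← hH]
  obtain ⟨h1, h2⟩ := h C hC E hE hEL
  have e : ∀ x : ℝ, 2 ≤ x → _ := fun x hx =>
    FA.NaturalChebotarev.natCard_le_eq_countIn (FA.NaturalChebotarev.someFrobSet K L C)
      (show (0 : ℝ) ≤ x by linarith)
  have hR : ∀ x : ℝ, 2 ≤ x → finrank ℚ L * height L 0 ^ 2 ≤ Real.log x →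
      A * share C * height L 0 ^ 4 * (x * Real.exp (-(c * gauge L x))) ≤
      A * (32 / c) ^ 4 * share C * (x * Real.exp (-(c / 8 * √(Real.log x / finrank ℚ L)))) :=
    fun x hx hr => by
    have h3 := mul_le_mul_of_nonneg_left (effective_error_le L hc (show 1 ≤ x by linarith) hr)
      (mul_nonneg (mul_nonneg hA (FA.ChebError.share_nonneg C)) (show 0 ≤ x by linarith))
    linarith
  refine ⟨fun hno x hx hr => ?_, fun β hβ h0 => ?_⟩
  · have := (h1 hno x hx).2.trans (hR x hx hr)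
    rw [← e x hx] at this
    exact this
  · obtain ⟨θ, hθ, h3⟩ := h2 β hβ h0
    refine ⟨θ, hθ, fun x hx hr => ?_⟩
    have := (h3 x hx).2.trans (hR x hx hr)
    rw [← e x hx] at this
    exact this

end FA.Summary

end
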