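import Fermat.Agent.ConductorDiscr.Different
import Fermat.Agent.Root.SummaryAbelianZeta

/-!
# The conductor–discriminant formula for abelian number fields

* `conductor_discriminant`: for every subfield `F` of `ℚ(ζ_n)`, `|d_F|` is the product of the conductors of the
  Dirichlet characters of `F`.
* `conductor_discriminant_abelian`: for every finite abelian extension of `ℚ` one group of `[F : ℚ]` characters
  has `ζ_F` as the product of its `L`-functions and `|d_F|` as the product of its conductors.

Classical (Hasse); both sides are read off from the distances `‖1 - ζ‖` of roots of unity; independent of S01.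
-/

set_option autoImplicit false
set_option linter.style.haveILetI false

noncomputable section

open NumberField DirichletCharacter
open scoped Classical

namespace FA.Summary

/-- **The conductor–discriminant formula.** -/
theorem conductor_discriminant (n : ℕ) [NeZero n] (K : Type*) [Field K] [NumberField K]
    [IsCyclotomicExtension {n} ℚ K] [IsAbelianGalois ℚ K] (F : IntermediateField ℚ K) :
    (discr F).natAbs = ∏ χ ∈ (FA.AbelianZeta.fieldChars n K F : Set (DirichletCharacter ℂ n)).toFinite.toFinset,
      χ.conductor := by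
  have hset : (FA.AbelianZeta.fieldChars n K F : Set (DirichletCharacter ℂ n)).toFinite.toFinset =
      FA.ConductorDiscr.charsTrivialOn n (FA.ConductorDiscr.fieldUnits n K F) := by
    ext χ
    simp only [Set.Finite.mem_toFinset, SetLike.mem_coe, FA.AbelianZeta.mem_fieldChars_iff,
      FA.ConductorDiscr.charsTrivialOn, FA.ConductorDiscr.fieldUnits, Finset.mem_filter, Finset.mem_univ, true_and]
    exact ⟨fun h g ⟨σ, hσ, e⟩ => e ▸ h σ hσ, fun h σ hσ => h _ ⟨σ, hσ, rfl⟩⟩
  have h1 := FA.ConductorDiscr.card_mul_log_discr n K F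
  rw [← FA.ConductorDiscr.card_mul_sum_log_conductor_eq_rootLog, ← hset] at h1
  have hH : (Nat.card (FA.ConductorDiscr.fieldUnits n K F) : ℝ) ≠ 0 :=
    Nat.cast_ne_zero.mpr Nat.card_pos.ne'
  have h2 := mul_left_cancel₀ hH h1
  have hpos : ∀ χ : DirichletCharacter ℂ n, (0 : ℝ) < χ.conductor := fun χ =>
    Nat.cast_pos.mpr (Nat.pos_of_ne_zero χ.conductor_ne_zero)
  rw [← Real.log_prod fun χ _ => (hpos χ).ne'] at h2
  have h3 := Real.log_injOn_pos
    (Set.mem_Ioi.mpr (Nat.cast_pos.mpr (Int.natAbs_pos.mpr (discr_ne_zero F))))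
    (Set.mem_Ioi.mpr (Finset.prod_pos fun χ _ => hpos χ)) h2
  exact_mod_cast h3

/-- **For every abelian number field**: one group of characters gives the zeta function and the discriminant. -/
theorem conductor_discriminant_abelian (F : Type*) [Field F] [NumberField F] [IsAbelianGalois ℚ F] :
    ∃ (n : ℕ) (_ : NeZero n) (X : Subgroup (DirichletCharacter ℂ n)),
      Nat.card X = Module.finrank ℚ F ∧
      (∀ s : ℂ, 1 < s.re → dedekindZeta F s = ∏ χ ∈ (X : Set (DirichletCharacter ℂ n)).toFinite.toFinset,
        LFunction χ.primitiveCharacter s) ∧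
      (discr F).natAbs = ∏ χ ∈ (X : Set (DirichletCharacter ℂ n)).toFinite.toFinset, χ.conductor := by
  obtain ⟨n, hn, ⟨f⟩⟩ := kroneckerWeber_cyclotomicField F
  haveI : NeZero n := ⟨hn.ne'⟩
  haveI : NeZero (n : ℚ) := ⟨Nat.cast_ne_zero.mpr hn.ne'⟩
  haveI : IsCyclotomicExtension {n} ℚ (CyclotomicField n ℚ) :=
    CyclotomicField.isCyclotomicExtension n ℚ
  haveI : IsAbelianGalois ℚ (CyclotomicField n ℚ) :=
    IsCyclotomicExtension.isAbelianGalois {n} ℚ (CyclotomicField n ℚ)
  let e : F ≃ₐ[ℚ] f.fieldRange := AlgEquiv.ofInjectiveField f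
  refine ⟨n, inferInstance, FA.AbelianZeta.fieldChars n (CyclotomicField n ℚ) f.fieldRange, ?_, fun s hs => ?_, ?_⟩
  · rw [FA.AbelianZeta.fieldChars, IsCyclotomicExtension.Rat.card_intermediateFieldEquivSubgroupChar]
    exact e.symm.toLinearEquiv.finrank_eq
  · let _ : Fintype (FA.AbelianZeta.fieldChars n (CyclotomicField n ℚ) f.fieldRange) := Fintype.ofFinite _
    rw [FA.AbelianZeta.dedekindZeta_congr e.toRingEquiv,
      FA.AbelianZeta.dedekindZeta_eq_prod n (CyclotomicField n ℚ) f.fieldRange hs]
    refine Finset.prod_bij (fun χ _ => χ.1)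
      (fun χ _ => (Set.Finite.mem_toFinset _).mpr (SetLike.mem_coe.mpr χ.2))
      (fun _ _ _ _ e => Subtype.ext e)
      (fun χ hχ => ⟨⟨χ, SetLike.mem_coe.mp ((Set.Finite.mem_toFinset _).mp hχ)⟩,
        Finset.mem_univ _, rfl⟩) fun _ _ => rfl
  · rw [discr_eq_discr_of_algEquiv _ e]
    exact conductor_discriminant n (CyclotomicField n ℚ) f.fieldRange

end FA.Summary
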