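import Fermat.Agent.Chebotarev.Relative
import Mathlib.FieldTheory.Normal.Closure

/-!
# Chebotarev's density theorem over an arbitrary number field

For a finite Galois extension `L/K` of number fields and a set `C` of automorphisms stable under
conjugation, the primes of `K` below a maximal ideal of `𝓞 L` with an arithmetic Frobenius
(`IsArithFrobAt` over `𝓞 K`) in `C` have Dirichlet density (`Set.HasDirichletDensity`)
`|C| / [L : K]`; in particular every automorphism is a Frobenius at infinitely many unramified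
primes.
-/

set_option autoImplicit false
set_option linter.style.haveILetI false

noncomputable section

open NumberField IsDedekindDomain Filter Topology FA.Density
open FA.Ext (zN zN_nonneg primeIdeal zN_primeIdeal exists_sum_le exists_lower_bound)
open scoped Pointwise

namespace FA.Chebotarev

section base

variable {K : Type*} [Field K] [NumberField K]

theorem primeIdealZetaSum_eq_zN (S : Set (HeightOneSpectrum (𝓞 K))) (s : ℝ) :
    S.primeIdealZetaSum s = ∑' v : S, zN s (primeIdeal v.1) := by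
  simp only [Set.primeIdealZetaSum_def, zN_primeIdeal]

theorem primeIdealZetaSum_mono {S T : Set (HeightOneSpectrum (𝓞 K))} (h : S ⊆ T) {s : ℝ}
    (hs : 1 < s) : S.primeIdealZetaSum s ≤ T.primeIdealZetaSum s := by
  simp only [primeIdealZetaSum_eq_zN]
  exact ((summable_zN_primeIdeal hs).subtype S).tsum_le_tsum_of_inj (Set.inclusion h)
    (Set.inclusion_injective _) (fun _ _ => zN_nonneg _ _) (fun _ => le_rfl)
    ((summable_zN_primeIdeal hs).subtype T)

theorem primeIdealZetaSum_union {S T : Set (HeightOneSpectrum (𝓞 K))} (h : Disjoint S T) {s : ℝ}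
    (hs : 1 < s) :
    (S ∪ T).primeIdealZetaSum s = S.primeIdealZetaSum s + T.primeIdealZetaSum s := by
  simp only [primeIdealZetaSum_eq_zN]
  exact Summable.tsum_union_disjoint (f := fun v : HeightOneSpectrum (𝓞 K) => zN s (primeIdeal v)) h
    ((summable_zN_primeIdeal hs).subtype S) ((summable_zN_primeIdeal hs).subtype T)

/-- The sum over all primes is `log (1 / (s - 1))` up to a bounded amount. -/
theorem exists_univ_bounds : ∃ M : ℝ, ∀ s ∈ Set.Ioc (1 : ℝ) 2,
    |(Set.univ : Set (HeightOneSpectrum (𝓞 K))).primeIdealZetaSum s - Real.log (1 / (s - 1))| ≤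
      M := by
  obtain ⟨M₁, h₁⟩ := exists_sum_le K
  obtain ⟨M₂, h₂⟩ := exists_lower_bound K
  refine ⟨max M₁ M₂, fun s hs => ?_⟩
  rw [primeIdealZetaSum_eq_zN, tsum_univ fun v : HeightOneSpectrum (𝓞 K) => zN s (primeIdeal v),
    abs_le]
  obtain ⟨T, -, hT⟩ := h₂ s hs
  have h3 := (summable_zN_primeIdeal hs.1).sum_le_tsum T fun v _ => zN_nonneg s (primeIdeal v)
  have h4 := Real.tsum_le_of_sum_le (fun v => zN_nonneg s (primeIdeal v)) (h₁ s hs)
  exact ⟨by linarith [le_max_right M₁ M₂], by linarith [le_max_left M₁ M₂]⟩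

/-- The primes over finitely many prime numbers. -/
theorem finite_dvd {m : ℕ} (hm : m ≠ 0) :
    {v : HeightOneSpectrum (𝓞 K) | Ideal.absNorm v.asIdeal ∣ m ^ Module.finrank ℚ K}.Finite := by
  refine ((Set.Finite.biUnion (t := fun d => {I : Ideal (𝓞 K) | Ideal.absNorm I = d})
    (m ^ Module.finrank ℚ K).divisors.finite_toSet fun d _ =>
      Ideal.finite_setOfPred_absNorm_eq (S := 𝓞 K) d).preimage
    fun v _ w _ h => HeightOneSpectrum.ext h).subset fun v hv => ?_
  exact Set.mem_iUnion₂.mpr ⟨_, Finset.mem_coe.mpr (Nat.mem_divisors.mpr ⟨hv, pow_ne_zero _ hm⟩),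
    rfl⟩

theorem absNorm_dvd_of_mem {v : HeightOneSpectrum (𝓞 K)} {m : ℕ} (h : (m : 𝓞 K) ∈ v.asIdeal) :
    Ideal.absNorm v.asIdeal ∣ m ^ Module.finrank ℚ K := by
  have h1 : Ideal.absNorm (Ideal.span {(m : 𝓞 K)}) = m ^ Module.finrank ℚ K := by
    rw [Ideal.absNorm_span_singleton, show (m : 𝓞 K) = algebraMap ℤ (𝓞 K) m by simp,
      Algebra.norm_algebraMap]
    simp [Int.natAbs_pow, RingOfIntegers.rank]
  rw [← h1]
  exact map_dvd Ideal.absNorm (Ideal.dvd_iff_le.mpr ((Ideal.span_singleton_le_iff_mem _).mpr h))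

/-- Sets with complementary lower bounds have a density. -/
theorem hasDirichletDensity_of_lower {S S' T : Set (HeightOneSpectrum (𝓞 K))} {δ : ℝ}
    (hdisj : Disjoint S S') (hST : S ⊆ T) (hfin : (T \ S).Finite)
    (hS : ∀ ε > 0, ∃ B : ℝ, ∀ᶠ s in 𝓝[>] (1 : ℝ),
      (δ - ε) * Real.log (1 / (s - 1)) - B ≤ S.primeIdealZetaSum s)
    (hS' : ∀ ε > 0, ∃ B : ℝ, ∀ᶠ s in 𝓝[>] (1 : ℝ),
      (1 - δ - ε) * Real.log (1 / (s - 1)) - B ≤ S'.primeIdealZetaSum s) :
    T.HasDirichletDensity δ := by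
  obtain ⟨M, hM⟩ := exists_univ_bounds (K := K)
  set L : ℝ → ℝ := fun s => Real.log (1 / (s - 1)) with hL
  have hden : Tendsto (fun s => (Set.univ : Set (HeightOneSpectrum (𝓞 K))).primeIdealZetaSum s /
      L s) (𝓝[>] 1) (𝓝 1) := by
    refine tendsto_of_tendsto_of_tendsto_of_le_of_le'
      (g := fun s => 1 - M / L s) (h := fun s => 1 + M / L s)
      (by simpa only [sub_zero] using (tendsto_log_atTop.const_div_atTop M).const_sub 1)
      (by simpa only [add_zero] using (tendsto_log_atTop.const_div_atTop M).const_add 1) ?_ ?_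
    all_goals
      filter_upwards [Ioc_one_two_mem, tendsto_log_atTop.eventually_gt_atTop 0] with s hs hpos
    all_goals obtain ⟨h1, h2⟩ := abs_le.mp (hM s hs)
    · rw [le_div_iff₀ hpos, sub_mul, one_mul, div_mul_cancel₀ _ hpos.ne']
      linarith
    · rw [div_le_iff₀ hpos, add_mul, one_mul, div_mul_cancel₀ _ hpos.ne']
      linarith
  have hnum : Tendsto (fun s => T.primeIdealZetaSum s / L s) (𝓝[>] 1) (𝓝 δ) := by
    refine tendsto_order.mpr ⟨fun b hb => ?_, fun b hb => ?_⟩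
    · obtain ⟨B, hB⟩ := hS ((δ - b) / 2) (by linarith)
      filter_upwards [hB, Ioc_one_two_mem, tendsto_log_atTop.eventually_gt_atTop 0,
        (tendsto_log_atTop.const_div_atTop B).eventually
          (eventually_lt_nhds (show (0 : ℝ) < (δ - b) / 2 by linarith))] with s h hs hpos hB'
      rw [div_lt_iff₀ hpos] at hB'
      rw [lt_div_iff₀ hpos]
      linarith [primeIdealZetaSum_mono hST hs.1]
    · obtain ⟨B, hB⟩ := hS' ((b - δ) / 2) (by linarith)
      filter_upwards [hB, Ioc_one_two_mem, tendsto_log_atTop.eventually_gt_atTop 0,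
        (tendsto_log_atTop.const_div_atTop (B + M + (T \ S).ncard)).eventually
          (eventually_lt_nhds (show (0 : ℝ) < (b - δ) / 2 by linarith))] with s h hs hpos hB'
      rw [div_lt_iff₀ hpos] at hB'
      rw [div_lt_iff₀ hpos]
      have h1 : T.primeIdealZetaSum s ≤ S.primeIdealZetaSum s + (T \ S).ncard := by
        refine (primeIdealZetaSum_mono (show T ⊆ S ∪ T \ S from fun v hv => by
          by_cases hv' : v ∈ S <;> simp [hv, hv']) hs.1).trans ?_
        rw [primeIdealZetaSum_union disjoint_sdiff_self_right hs.1]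
        exact add_le_add le_rfl
          (Set.primeIdealZetaSum_le_card_of_finite hfin (by linarith [hs.1] : (0 : ℝ) ≤ s))
      have h2 : S.primeIdealZetaSum s + S'.primeIdealZetaSum s ≤ L s + M := by
        rw [← primeIdealZetaSum_union hdisj hs.1]
        linarith [(abs_le.mp (hM s hs)).2,
          primeIdealZetaSum_mono (Set.subset_univ (S ∪ S')) hs.1]
      linarith
  have h := hnum.div hden one_ne_zero
  rw [div_one] at h
  refine h.congr' ?_
  filter_upwards [tendsto_log_atTop.eventually_gt_atTop 0] with s hs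
  exact div_div_div_cancel_right₀ hs.ne' _ _

/-- A set of positive density is not inside the primes over finitely many prime numbers. -/
theorem not_subset_of_hasDirichletDensity {S : Set (HeightOneSpectrum (𝓞 K))} {δ : ℝ}
    (h : S.HasDirichletDensity δ) (hδ : 0 < δ) {T : Set (HeightOneSpectrum (𝓞 K))}
    (hT : T.Finite) : ¬ S ⊆ T := fun hsub => by
  obtain ⟨M, hM⟩ := exists_univ_bounds (K := K)
  have hden : Tendsto (fun s => (Set.univ : Set (HeightOneSpectrum (𝓞 K))).primeIdealZetaSum s)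
      (𝓝[>] 1) atTop := by
    refine tendsto_atTop_mono' _ ?_ (tendsto_atTop_add_const_right _ (-M) tendsto_log_atTop)
    filter_upwards [Ioc_one_two_mem] with s hs
    linarith [(abs_le.mp (hM s hs)).1]
  have h0 := le_of_tendsto_of_tendsto h (hden.const_div_atTop (T.ncard : ℝ)) (by
    filter_upwards [Ioc_one_two_mem, hden.eventually_gt_atTop 0] with s hs hpos
    exact div_le_div_of_nonneg_right ((primeIdealZetaSum_mono hsub hs.1).trans
      (Set.primeIdealZetaSum_le_card_of_finite hT (by linarith [hs.1] : (0 : ℝ) ≤ s))) hpos.le)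
  linarith

end base

variable {K L : Type*} [Field K] [NumberField K] [Field L] [NumberField L] [Algebra K L]
variable [IsGalois K L]

/-- Over a maximal ideal of `𝓞 K` some maximal ideal of `𝓞 L` has a Frobenius. -/
theorem exists_isArithFrobAt (v : HeightOneSpectrum (𝓞 K)) :
    ∃ Q : Ideal (𝓞 L), Q.IsMaximal ∧ Q.under (𝓞 K) = v.asIdeal ∧
      ∃ τ : L ≃ₐ[K] L, IsArithFrobAt (𝓞 K) τ Q := by
  have := v.isMaximal
  obtain ⟨Q, hQ, hQv⟩ :=
    Ideal.exists_maximal_ideal_liesOver_of_isIntegral (S := 𝓞 L) v.asIdeal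
  have : Finite (𝓞 L ⧸ Q) := Ideal.finiteQuotientOfFreeOfNeBot Q
    (Ring.ne_bot_of_isMaximal_of_not_isField hQ (RingOfIntegers.not_isField _))
  exact ⟨Q, hQ, hQv.over.symm, IsArithFrobAt.exists_of_isInvariant (𝓞 K) (L ≃ₐ[K] L) Q⟩

theorem hasDirichletDensity_frobenius (C : Set (L ≃ₐ[K] L))
    (hC : ∀ g ∈ C, ∀ x, x * g * x⁻¹ ∈ C) :
    {v : HeightOneSpectrum (𝓞 K) | ∃ Q : Ideal (𝓞 L), Q.IsMaximal ∧
      Q.under (𝓞 K) = v.asIdeal ∧ ∃ τ ∈ C, IsArithFrobAt (𝓞 K) τ Q}.HasDirichletDensity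
      ((Nat.card C : ℝ) / Nat.card (L ≃ₐ[K] L)) := by
  letI : Algebra L (AlgebraicClosure ℚ) :=
    (IsAlgClosed.lift : L →ₐ[ℚ] AlgebraicClosure ℚ).toRingHom.toAlgebra
  have : IsScalarTower ℚ L (AlgebraicClosure ℚ) :=
    IsScalarTower.of_algebraMap_eq fun r => (AlgHom.commutes _ r).symm
  let M := IntermediateField.normalClosure ℚ L (AlgebraicClosure ℚ)
  have : Algebra.IsAlgebraic ℚ (AlgebraicClosure ℚ) := AlgebraicClosure.isAlgebraic ℚ
  have : IsAlgClosure ℚ (AlgebraicClosure ℚ) := ⟨inferInstance, inferInstance⟩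
  have : Normal ℚ (AlgebraicClosure ℚ) := IsAlgClosure.normal ℚ _
  have : Normal ℚ M := normalClosure.normal ℚ L (AlgebraicClosure ℚ)
  have : IsGalois ℚ M := ⟨⟩
  have : NumberField M := { }
  let _ : Algebra K M := ((algebraMap L M).comp (algebraMap K L)).toAlgebra
  have : IsScalarTower K L M := IsScalarTower.of_algebraMap_eq fun _ => rfl
  have hlow := fun (C' : Set (L ≃ₐ[K] L)) (h : ∀ g ∈ C', ∀ x, x * g * x⁻¹ ∈ C') (ε : ℝ)
    (hε : 0 < ε) => exists_strict_lower (M := M) C' h hε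
  have hCc : ∀ g ∈ Cᶜ, ∀ y, y * g * y⁻¹ ∈ Cᶜ := fun g hg y h => hg (by
    have := hC _ h y⁻¹
    rwa [show y⁻¹ * (y * g * y⁻¹) * y⁻¹⁻¹ = g by group] at this)
  have hcard : (Nat.card (Cᶜ : Set (L ≃ₐ[K] L)) : ℝ) / Nat.card (L ≃ₐ[K] L) =
      1 - (Nat.card C : ℝ) / Nat.card (L ≃ₐ[K] L) := by
    rw [eq_sub_iff_add_eq, ← add_div, ← Nat.cast_add, Nat.card_coe_set_eq, Nat.card_coe_set_eq,
      add_comm, Set.ncard_add_ncard_compl, div_self (Nat.cast_ne_zero.mpr Nat.card_pos.ne')]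
  obtain ⟨mL, hmL0, hmL⟩ := exists_unramified L
  refine hasDirichletDensity_of_lower (S := strictFrobSet K L C) (S' := strictFrobSet K L Cᶜ)
    ?_ ?_ ((finite_dvd hmL0).subset ?_) (hlow C hC) ?_
  · refine Set.disjoint_left.mpr fun v h1 h2 => ?_
    obtain ⟨Q, hQ, hQv, τ, hτ⟩ := exists_isArithFrobAt (L := L) v
    exact h2 Q hQ hQv τ hτ (h1 Q hQ hQv τ hτ)
  · intro v hv
    obtain ⟨Q, hQ, hQv, τ, hτ⟩ := exists_isArithFrobAt (L := L) v
    exact ⟨Q, hQ, hQv, τ, hv Q hQ hQv τ hτ, hτ⟩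
  · rintro v ⟨⟨Q, hQ, hQv, τ, hτC, hτ⟩, hv⟩
    by_contra hdvd
    refine hv fun Q' hQ' hQ'v τ' hτ' => ?_
    obtain ⟨h, hh⟩ := Algebra.IsInvariant.exists_smul_of_under_eq (𝓞 K) (𝓞 L) (L ≃ₐ[K] L)
      Q Q' (hQv.trans hQ'v.symm)
    have h1 := IsArithFrobAt.mul_inv_mem_inertia (R := 𝓞 K) (hh ▸ hτ.conj h) hτ'
    obtain ⟨q, hq, hqv⟩ := FA.Ext.exists_rat_prime_mem v
    have hqQ' : (q : 𝓞 L) ∈ Q' := by
      rw [← hQ'v, Ideal.mem_comap, map_natCast] at hqv
      exact hqv
    have hqm : ¬ q ∣ mL := fun hd => hdvd (absNorm_dvd_of_mem (by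
      obtain ⟨c, rfl⟩ := hd
      rw [Nat.cast_mul]
      exact v.asIdeal.mul_mem_right _ hqv))
    have h2 := hmL q Q' hq hQ' hqQ' hqm ((h * τ * h⁻¹ * τ'⁻¹).restrictScalars ℚ) h1
    rw [← mul_inv_eq_one.mp (AlgEquiv.restrictScalars_injective ℚ (h2.trans rfl))]
    exact hC _ hτC h
  · intro ε hε
    rw [← hcard]
    exact hlow Cᶜ hCc ε hε

theorem infinite_frobenius (σ : L ≃ₐ[K] L) :
    {v : HeightOneSpectrum (𝓞 K) | ∃ Q : Ideal (𝓞 L), Q.IsMaximal ∧ Q.under (𝓞 K) = v.asIdeal ∧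
      Q.inertia (L ≃ₐ[K] L) = ⊥ ∧ IsArithFrobAt (𝓞 K) σ Q}.Infinite := by
  classical
  intro hfin
  obtain ⟨mL, hmL0, hmL⟩ := exists_unramified L
  have hpos : (0 : ℝ) < (Nat.card {τ : L ≃ₐ[K] L | IsConj σ τ} : ℝ) / Nat.card (L ≃ₐ[K] L) := by
    have : Nonempty {τ : L ≃ₐ[K] L | IsConj σ τ} := ⟨⟨σ, IsConj.refl σ⟩⟩
    exact div_pos (Nat.cast_pos.mpr Nat.card_pos) (Nat.cast_pos.mpr Nat.card_pos)
  refine not_subset_of_hasDirichletDensity
    (hasDirichletDensity_frobenius (K := K) {τ : L ≃ₐ[K] L | IsConj σ τ} fun g hg x =>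
      IsConj.trans hg (isConj_iff.mpr ⟨x, rfl⟩)) hpos (hfin.union (finite_dvd hmL0)) ?_
  rintro v ⟨Q, hQ, hQv, τ, hτσ, hτ⟩
  by_cases hdvd : Ideal.absNorm v.asIdeal ∣ mL ^ Module.finrank ℚ K
  · exact Or.inr hdvd
  obtain ⟨q, hq, hqv⟩ := FA.Ext.exists_rat_prime_mem v
  have hqm : ¬ q ∣ mL := fun hd => hdvd (absNorm_dvd_of_mem (by
    obtain ⟨c, rfl⟩ := hd
    rw [Nat.cast_mul]
    exact v.asIdeal.mul_mem_right _ hqv))
  obtain ⟨x, hx⟩ := isConj_iff.mp (hτσ : IsConj σ τ).symm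
  have hu : (x • Q).under (𝓞 K) = v.asIdeal := by
    rw [← hQv]
    ext y
    rw [Ideal.mem_comap, Ideal.mem_comap, Ideal.mem_pointwise_smul_iff_inv_smul_mem,
      smul_algebraMap]
  have hmax : (x • Q).IsMaximal := by
    have := hQ
    rw [Ideal.pointwise_smul_eq_comap]
    exact Ideal.comap_isMaximal_of_surjective _
      (MulSemiringAction.toRingEquiv (L ≃ₐ[K] L) (𝓞 L) x⁻¹).surjective
  refine Or.inl ⟨x • Q, hmax, hu, (Subgroup.eq_bot_iff_forall _).mpr fun ρ hρ => ?_,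
    hx ▸ hτ.conj x⟩
  have hqQ : (q : 𝓞 L) ∈ x • Q := by
    rw [← hu, Ideal.mem_comap, map_natCast] at hqv
    exact hqv
  exact AlgEquiv.restrictScalars_injective ℚ
    ((hmL q _ hq hmax hqQ hqm (ρ.restrictScalars ℚ) hρ).trans rfl)

end FA.Chebotarev

namespace FA.Summary

open FA.Chebotarev

/-- **Chebotarev's density theorem**: in a finite Galois extension `L/K` of number fields, for a set
`C` of automorphisms stable under conjugation, the primes of `K` below a maximal ideal with an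
arithmetic Frobenius in `C` have Dirichlet density `|C| / |Gal(L/K)|`. -/
theorem chebotarev_density_numberField (K L : Type*) [Field K] [NumberField K] [Field L]
    [NumberField L] [Algebra K L] [IsGalois K L] (C : Set (L ≃ₐ[K] L))
    (hC : ∀ g ∈ C, ∀ x, x * g * x⁻¹ ∈ C) :
    {v : HeightOneSpectrum (𝓞 K) | ∃ Q : Ideal (𝓞 L), Q.IsMaximal ∧
      Q.under (𝓞 K) = v.asIdeal ∧ ∃ τ ∈ C, IsArithFrobAt (𝓞 K) τ Q}.HasDirichletDensity
      ((Nat.card C : ℝ) / Nat.card (L ≃ₐ[K] L)) :=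
  hasDirichletDensity_frobenius C hC

/-- **Chebotarev**: every automorphism in a finite Galois extension of number fields is the
arithmetic Frobenius at an unramified maximal ideal over infinitely many primes of the base. -/
theorem chebotarev_infinite_numberField (K L : Type*) [Field K] [NumberField K] [Field L]
    [NumberField L] [Algebra K L] [IsGalois K L] (σ : L ≃ₐ[K] L) :
    {v : HeightOneSpectrum (𝓞 K) | ∃ Q : Ideal (𝓞 L), Q.IsMaximal ∧ Q.under (𝓞 K) = v.asIdeal ∧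
      Q.inertia (L ≃ₐ[K] L) = ⊥ ∧ IsArithFrobAt (𝓞 K) σ Q}.Infinite :=
  infinite_frobenius σ

end FA.Summary

end
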