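import Fermat.Agent.NaturalChebotarev.Relative
import Fermat.Agent.Root.SummaryChebotarevNumberField

/-!
# Chebotarev's theorem for natural density

For a finite Galois extension `L/K` of number fields and a set `C` of automorphisms stable under
conjugation:

* `chebotarev_natural_density`: the primes of `K` of norm at most `x` below a maximal ideal of
  `𝓞 L` with an arithmetic Frobenius in `C` number `(|C| / [L : K] + o(1)) x / log x`;
* `chebotarev_natural_density_ratio`: they are `|C| / [L : K]` of all primes of norm at most `x`.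

The lower bound for `C` is summed from the crossings with cyclotomic fields, where only Hecke
characters of finite order are needed; the one for the complement and the prime ideal theorem give
the upper bound.  No error term is proved.
-/

set_option autoImplicit false
set_option linter.style.haveILetI false

noncomputable section

open NumberField IsDedekindDomain Filter Topology FA.Density FA.Hecke
open FA.Chebotarev (strictFrobSet)
open scoped Pointwise Classical

namespace FA.NaturalChebotarev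

variable {K L : Type*} [Field K] [NumberField K] [Field L] [NumberField L] [Algebra K L]
variable [IsGalois K L]

theorem wSum_ind (S : Set (HeightOneSpectrum (𝓞 K))) (x : ℝ) :
    wSum (fun v => if v ∈ S then (1 : ℝ) else 0) x = countIn S x := by
  rw [wSum, Finset.sum_boole, countIn]

/-- Disjoint sets with complementary lower bounds have means. -/
theorem hasMean_of_lower {S S' : Set (HeightOneSpectrum (𝓞 K))} (h : Disjoint S S') {c : ℝ}
    (hS : ∀ δ > 0, ∀ᶠ x : ℝ in atTop, c - δ ≤ Real.log x / x * countIn S x)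
    (hS' : ∀ δ > 0, ∀ᶠ x : ℝ in atTop, 1 - c - δ ≤ Real.log x / x * countIn S' x) :
    HasMean (fun v => if v ∈ S then (1 : ℝ) else 0) c := by
  refine tendsto_order.mpr ⟨fun b hb => ?_, fun b hb => ?_⟩
  · filter_upwards [hS ((c - b) / 2) (by linarith)] with x hx
    rw [smul_eq_mul, wSum_ind]
    linarith
  · filter_upwards [hS' ((b - c) / 2) (by linarith), eventually_ge_atTop 1,
      (hasMean_one K).eventually (eventually_lt_nhds (show 1 < 1 + (b - c) / 2 by linarith))]
      with x hx hx1 htot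
    rw [smul_eq_mul, wSum_ind]
    have h1 : countIn S x + countIn S' x ≤ (primesLE K ⌊x⌋₊).card := by
      rw [countIn, countIn, ← Finset.card_union_of_disjoint (Finset.disjoint_filter.mpr
        fun v _ h1 h2 => Set.disjoint_left.mp h h1 h2)]
      exact Finset.card_le_card (Finset.union_subset (Finset.filter_subset _ _)
        (Finset.filter_subset _ _))
    have h2 : (countIn S x : ℝ) + countIn S' x ≤ wSum (fun _ : HeightOneSpectrum (𝓞 K) => (1 : ℝ))
        x := by
      rw [wSum, Finset.sum_const, nsmul_eq_mul, mul_one]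
      exact_mod_cast h1
    have h3 := mul_le_mul_of_nonneg_left h2 (div_nonneg (Real.log_nonneg hx1) (by linarith : 0 ≤ x))
    rw [smul_eq_mul] at htot
    linarith

theorem hasMean_strictFrobSet (C : Set (L ≃ₐ[K] L)) (hC : ∀ g ∈ C, ∀ x, x * g * x⁻¹ ∈ C) :
    HasMean (fun v => if v ∈ strictFrobSet K L C then (1 : ℝ) else 0)
      ((Nat.card C : ℝ) / Nat.card (L ≃ₐ[K] L)) := by
  letI : Algebra L (AlgebraicClosure ℚ) :=
    (IsAlgClosed.lift : L →ₐ[ℚ] AlgebraicClosure ℚ).toRingHom.toAlgebra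
  have : IsScalarTower ℚ L (AlgebraicClosure ℚ) :=
    IsScalarTower.of_algebraMap_eq fun r => (AlgHom.commutes _ r).symm
  let M := IntermediateField.normalClosure ℚ L (AlgebraicClosure ℚ)
  have : Algebra.IsAlgebraic ℚ (AlgebraicClosure ℚ) := AlgebraicClosure.isAlgebraic ℚ
  have : IsAlgClosure ℚ (AlgebraicClosure ℚ) := ⟨inferInstance, inferInstance⟩
  have : Normal ℚ (AlgebraicClosure ℚ) := IsAlgClosure.normal ℚ _
  have : Normal ℚ M := normalClosure.normal ℚ L (AlgebraicClosure ℚ)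
  have : IsGalois ℚ M := ⟨⟩
  have : NumberField M := { }
  let _ : Algebra K M := ((algebraMap L M).comp (algebraMap K L)).toAlgebra
  have : IsScalarTower K L M := IsScalarTower.of_algebraMap_eq fun _ => rfl
  have hCc : ∀ g ∈ Cᶜ, ∀ y, y * g * y⁻¹ ∈ Cᶜ := fun g hg y h => hg (by
    have := hC _ h y⁻¹
    rwa [show y⁻¹ * (y * g * y⁻¹) * y⁻¹⁻¹ = g by group] at this)
  have hcard : (Nat.card (Cᶜ : Set (L ≃ₐ[K] L)) : ℝ) / Nat.card (L ≃ₐ[K] L) =
      1 - (Nat.card C : ℝ) / Nat.card (L ≃ₐ[K] L) := by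
    rw [eq_sub_iff_add_eq, ← add_div, ← Nat.cast_add, Nat.card_coe_set_eq, Nat.card_coe_set_eq,
      add_comm, Set.ncard_add_ncard_compl, div_self (Nat.cast_ne_zero.mpr Nat.card_pos.ne')]
  refine hasMean_of_lower (S' := strictFrobSet K L Cᶜ) (Set.disjoint_left.mpr fun v h1 h2 => ?_)
    (fun δ hδ => exists_strict_natural_lower (M := M) C hC hδ) fun δ hδ => ?_
  · obtain ⟨Q, hQ, hQv, τ, hτ⟩ := FA.Chebotarev.exists_isArithFrobAt (L := L) v
    exact h2 Q hQ hQv τ hτ (h1 Q hQ hQv τ hτ)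
  · rw [← hcard]
    exact exists_strict_natural_lower (M := M) Cᶜ hCc hδ

variable (K L) in
/-- The primes with some Frobenius in `C`. -/
def someFrobSet (C : Set (L ≃ₐ[K] L)) : Set (HeightOneSpectrum (𝓞 K)) :=
  {v | ∃ Q : Ideal (𝓞 L), Q.IsMaximal ∧ Q.under (𝓞 K) = v.asIdeal ∧
    ∃ τ ∈ C, IsArithFrobAt (𝓞 K) τ Q}

theorem strictFrobSet_subset (C : Set (L ≃ₐ[K] L)) :
    strictFrobSet K L C ⊆ someFrobSet K L C := fun v hv => by
  obtain ⟨Q, hQ, hQv, τ, hτ⟩ := FA.Chebotarev.exists_isArithFrobAt (L := L) v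
  exact ⟨Q, hQ, hQv, τ, hv Q hQ hQv τ hτ, hτ⟩

/-- Only ramified primes can differ. -/
theorem finite_someFrobSet_diff (C : Set (L ≃ₐ[K] L)) (hC : ∀ g ∈ C, ∀ x, x * g * x⁻¹ ∈ C) :
    (someFrobSet K L C \ strictFrobSet K L C).Finite := by
  obtain ⟨mL, hmL0, hmL⟩ := exists_unramified L
  refine (FA.Chebotarev.finite_dvd hmL0).subset ?_
  rintro v ⟨⟨Q, hQ, hQv, τ, hτC, hτ⟩, hv⟩
  by_contra hdvd
  refine hv fun Q' hQ' hQ'v τ' hτ' => ?_
  obtain ⟨h, hh⟩ := Algebra.IsInvariant.exists_smul_of_under_eq (𝓞 K) (𝓞 L) (L ≃ₐ[K] L)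
    Q Q' (hQv.trans hQ'v.symm)
  have h1 := IsArithFrobAt.mul_inv_mem_inertia (R := 𝓞 K) (hh ▸ hτ.conj h) hτ'
  obtain ⟨q, hq, hqv⟩ := FA.Ext.exists_rat_prime_mem v
  have hqQ' : (q : 𝓞 L) ∈ Q' := by
    rw [← hQ'v, Ideal.mem_comap, map_natCast] at hqv
    exact hqv
  have hqm : ¬ q ∣ mL := fun hd => hdvd (FA.Chebotarev.absNorm_dvd_of_mem (by
    obtain ⟨c, rfl⟩ := hd
    rw [Nat.cast_mul]
    exact v.asIdeal.mul_mem_right _ hqv))
  have h2 := hmL q Q' hq hQ' hqQ' hqm ((h * τ * h⁻¹ * τ'⁻¹).restrictScalars ℚ) h1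
  rw [← mul_inv_eq_one.mp (AlgEquiv.restrictScalars_injective ℚ (h2.trans rfl))]
  exact hC _ hτC h

theorem hasMean_someFrobSet (C : Set (L ≃ₐ[K] L)) (hC : ∀ g ∈ C, ∀ x, x * g * x⁻¹ ∈ C) :
    HasMean (fun v => if v ∈ someFrobSet K L C then (1 : ℝ) else 0)
      ((Nat.card C : ℝ) / Nat.card (L ≃ₐ[K] L)) := by
  refine hasMean_congr _ (finite_someFrobSet_diff C hC) (B := 1) (fun v => ?_) (fun v hv _ => ?_)
    (hasMean_strictFrobSet C hC)
  · split_ifs <;> norm_num
  · by_cases h : v ∈ strictFrobSet K L C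
    · rw [if_pos h, if_pos (strictFrobSet_subset C h)]
    · rw [if_neg h, if_neg fun h' => hv ⟨h', h⟩]

theorem natCard_le_eq_countIn (S : Set (HeightOneSpectrum (𝓞 K))) {x : ℝ} (hx : 0 ≤ x) :
    Nat.card {v : HeightOneSpectrum (𝓞 K) // (Ideal.absNorm v.asIdeal : ℝ) ≤ x ∧ v ∈ S} =
      countIn S x := by
  rw [countIn, ← Nat.card_eq_finsetCard]
  refine Nat.card_congr (Equiv.subtypeEquivRight fun v => ?_)
  rw [Finset.mem_filter, mem_primesLE, Nat.le_floor_iff hx]

end FA.NaturalChebotarev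

namespace FA.Summary

open FA.NaturalChebotarev

variable (K L : Type*) [Field K] [NumberField K] [Field L] [NumberField L] [Algebra K L]
  [IsGalois K L] (C : Set (L ≃ₐ[K] L)) (hC : ∀ g ∈ C, ∀ x, x * g * x⁻¹ ∈ C)

include hC

/-- **Chebotarev's theorem for natural density.** -/
theorem chebotarev_natural_density :
    Tendsto (fun x : ℝ => (Nat.card {v : HeightOneSpectrum (𝓞 K) //
        (Ideal.absNorm v.asIdeal : ℝ) ≤ x ∧ ∃ Q : Ideal (𝓞 L), Q.IsMaximal ∧
          Q.under (𝓞 K) = v.asIdeal ∧ ∃ τ ∈ C, IsArithFrobAt (𝓞 K) τ Q} : ℝ) *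
        Real.log x / x) atTop (𝓝 ((Nat.card C : ℝ) / Nat.card (L ≃ₐ[K] L))) := by
  refine (hasMean_someFrobSet C hC).congr' ?_
  filter_upwards [eventually_ge_atTop 0] with x hx
  rw [smul_eq_mul, wSum_ind, ← natCard_le_eq_countIn _ hx, mul_comm, mul_div_assoc]
  rfl

/-- **Chebotarev's theorem for natural density, as a proportion.** -/
theorem chebotarev_natural_density_ratio :
    Tendsto (fun x : ℝ => (Nat.card {v : HeightOneSpectrum (𝓞 K) //
        (Ideal.absNorm v.asIdeal : ℝ) ≤ x ∧ ∃ Q : Ideal (𝓞 L), Q.IsMaximal ∧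
          Q.under (𝓞 K) = v.asIdeal ∧ ∃ τ ∈ C, IsArithFrobAt (𝓞 K) τ Q} : ℝ) /
        Nat.card {v : HeightOneSpectrum (𝓞 K) // (Ideal.absNorm v.asIdeal : ℝ) ≤ x})
      atTop (𝓝 ((Nat.card C : ℝ) / Nat.card (L ≃ₐ[K] L))) := by
  have h := Filter.Tendsto.div (hasMean_someFrobSet C hC) (hasMean_one K) one_ne_zero
  rw [div_one] at h
  refine h.congr' ?_
  filter_upwards [eventually_gt_atTop 1] with x hx
  have hl : Real.log x / x ≠ 0 := div_ne_zero (Real.log_pos hx).ne' (by linarith)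
  rw [Pi.div_apply, smul_eq_mul, smul_eq_mul, mul_div_mul_left _ _ hl, wSum_ind,
    ← natCard_le_eq_countIn _ (by linarith : 0 ≤ x), wSum, Finset.sum_const, nsmul_eq_mul, mul_one,
    ← Nat.card_eq_finsetCard]
  congr 2
  refine Nat.card_congr (Equiv.subtypeEquivRight fun v => ?_)
  rw [mem_primesLE, Nat.le_floor_iff (by linarith : (0 : ℝ) ≤ x)]

end FA.Summary

end
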