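import Fermat.Agent.Root.CentralValueFormula
import Fermat.Agent.Root.SummaryLevels
import Fermat.Agent.Root.Examples
import Fermat.Agent.CM.Curve32
import Fermat.Agent.CM.Form32Twist

/-!
# Analytic rank zero

`L (E, 1) ≠ 0` for the semistable curves with good reduction outside `11`, the curve `11a3` among
them, and for `y² = x³ - x`.
-/

set_option autoImplicit false

noncomputable section

open WeierstrassCurve
open FA.Theta (badProd)
open scoped Real

namespace FA.Central

/-- An entire continuation with the value of the series, for a form at hand. -/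
theorem exists_centralValue {L M : ℕ} [NeZero L] [NeZero M] (hM : M ≤ 32)
    (f : CuspForm (CongruenceSubgroup.Gamma0 L) 2)
    (hf : ∀ τ w : UpperHalfPlane, (w : ℂ) = -1 / ((M : ℂ) * (τ : ℂ)) →
      f w = -1 * ((M : ℂ) * (τ : ℂ) ^ 2) * f τ) (E : WeierstrassCurve ℚ)
    (ha : ∀ n, ModularFormClass.qCoeff f n = (E.LFunction n : ℂ)) :
    ∃ g : ℂ → ℂ, Differentiable ℂ g ∧ (∀ s : ℂ, 3 / 2 < s.re → g s = E.LSeries s) ∧
      g 1 = 2 * ∑' n : ℕ, (E.LFunction n : ℂ) / n *
        (Real.exp (-(2 * π * n / Real.sqrt M)) : ℂ) ∧ g 1 ≠ 0 := by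
  obtain ⟨g, hg, hgs⟩ := FA.Root.exists_differentiable_eq_LSeries_qCoeff f
  have h2 : ∀ s : ℂ, 2 < s.re → g s = E.LSeries s := fun s hs => by
    rw [← (hgs s hs).LSeries_eq, WeierstrassCurve.LSeries]
    exact congrArg (LSeries · s) (funext ha)
  exact ⟨g, hg, fun s hs => FA.HasseBound.eqOn_threeHalves (fun z _ => hg.analyticAt z)
    (FA.HasseBound.analyticOnNhd_LSeries E) h2 hs, centralValue_eq f hf E ha hg h2,
    centralValue_ne_zero f hM hf E ha hg h2⟩

/-- A semistable equation with conductor at most `32` whose signs at the bad primes make the root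
number one has a nonzero central value. -/
theorem exists_centralValue_of_model (E : WeierstrassCurve ℚ) [E.IsElliptic]
    {W : WeierstrassCurve ℤ} (hW : W.IsIntegralModelOf E) (hs : W.IsSemistableModel)
    (hle : badProd W ≤ 32)
    (hsign : ∏ q ∈ (badProd W).primeFactors, -FA.Root.splitSign W q = -1) :
    ∃ g : ℂ → ℂ, Differentiable ℂ g ∧ (∀ s : ℂ, 3 / 2 < s.re → g s = E.LSeries s) ∧
      g 1 = 2 * ∑' n : ℕ, (E.LFunction n : ℂ) / n *
        (Real.exp (-(2 * π * n / Real.sqrt (badProd W))) : ℂ) ∧ g 1 ≠ 0 := by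
  have hΔ : W.Δ ≠ 0 := FA.Frob.Δ_ne_zero_of_model hW
  have hsq := FA.Root.squarefree_badProd W
  have : NeZero (badProd W) := ⟨hsq.ne_zero⟩
  obtain ⟨f, hf, hn⟩ := FA.Root.exists_newform_LFunction_of_model E hW hs
  have hbad : ∀ q : ℕ, q.Prime → q ∣ badProd W →
      ModularFormClass.qCoeff f q = (FA.Root.splitSign W q : ℂ) := fun q hq hqN => by
    have hd := (FA.Root.prime_dvd_badProd_iff hΔ hq).mp hqN
    have e := FA.Root.LFunction_apply_prime_pow_mult E W hW hq hd hΔ (hs q hq hd) 1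
    rw [pow_one, pow_one] at e
    rw [hn q, e]
  refine exists_centralValue hle f (fun τ w hw => ?_) E hn
  rw [FA.Root.FuncEq.fricke_apply hf hsq (fun q hq hqN => by
      rw [hbad q hq hqN, FA.Root.splitSign]; split_ifs <;> simp) τ w hw,
    Finset.prod_congr rfl fun q hq => show -ModularFormClass.qCoeff f q =
      ((-FA.Root.splitSign W q : ℤ) : ℂ) by
        rw [hbad q (Nat.prime_of_mem_primeFactors hq) (Nat.dvd_of_mem_primeFactors hq)]
        push_cast; rfl,
    ← Int.cast_prod, hsign]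
  norm_num

end FA.Central

namespace FA.Summary

/-- **Analytic rank zero of `11a3`**: the entire continuation of the L-series of `y² + y = x³ - x²`
has the value `2 ∑ a_n / n e^(-2 π n / √11)` at `1`, which is not zero. -/
theorem centralValue_11a3 :
    ∃ g : ℂ → ℂ, Differentiable ℂ g ∧
      (∀ s : ℂ, 3 / 2 < s.re → g s = (⟨0, -1, 1, 0, 0⟩ : WeierstrassCurve ℚ).LSeries s) ∧
      g 1 = 2 * ∑' n : ℕ, ((⟨0, -1, 1, 0, 0⟩ : WeierstrassCurve ℚ).LFunction n : ℂ) / n *
        (Real.exp (-(2 * π * n / Real.sqrt 11)) : ℂ) ∧ g 1 ≠ 0 := by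
  have hE : FA.Ribet.curve11.map (Int.castRingHom ℚ) = ⟨0, -1, 1, 0, 0⟩ := by
    ext <;> simp [FA.Ribet.curve11]
  have hs : FA.Ribet.curve11.IsSemistableModel := FA.Ribet.semistable_of_Δ (q := 11) (i := 0)
    (j := 1) (by norm_num) (by decide) (Or.inl rfl) (by decide)
  have hΔ : FA.Ribet.curve11.Δ ≠ 0 := by decide
  have hbp : (badProd FA.Ribet.curve11).primeFactors = {11} := by
    ext q
    rw [Nat.mem_primeFactors, Finset.mem_singleton]
    refine ⟨fun h => ?_, fun h => ?_⟩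
    · have hd := (FA.Root.prime_dvd_badProd_iff hΔ h.1).mp h.2.1
      rw [FA.Ribet.curve11_Δ] at hd
      exact (Nat.prime_dvd_prime_iff_eq h.1 (by norm_num)).mp (by
        simpa using Int.natCast_dvd.mp hd)
    · subst h
      refine ⟨by norm_num, (FA.Root.prime_dvd_badProd_iff hΔ (by norm_num)).mpr ?_,
        (FA.Root.squarefree_badProd _).ne_zero⟩
      rw [FA.Ribet.curve11_Δ]; norm_num
  have h11 : badProd FA.Ribet.curve11 = 11 := by
    rw [← Nat.prod_primeFactors_of_squarefree (FA.Root.squarefree_badProd FA.Ribet.curve11), hbp,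
      Finset.prod_singleton]
  have : (FA.Ribet.curve11.map (Int.castRingHom ℚ)).IsElliptic :=
    FA.Frob.ratCurve_isElliptic_of_Δ hΔ
  have hsplit : FA.Root.splitSign FA.Ribet.curve11 11 = 1 :=
    if_pos (by unfold FA.Root.SplitModel; decide)
  have h := FA.Central.exists_centralValue_of_model (FA.Ribet.curve11.map (Int.castRingHom ℚ))
    (W := FA.Ribet.curve11) ⟨1, one_smul _ _⟩ hs (by omega)
    (by rw [hbp, Finset.prod_singleton, hsplit])
  rw [h11, hE, Nat.cast_ofNat] at h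
  exact h

/-- **Analytic rank zero in level `11`**: the same for every semistable curve with good reduction
outside `11`. -/
theorem centralValue_levelEleven (E : WeierstrassCurve ℚ) [E.IsElliptic]
    (h : ∀ p : ℕ, ∀ [Fact p.Prime], ∃ C : VariableChange ℚ_[p],
      HasGoodReduction ℤ_[p] (C • E.map (algebraMap ℚ ℚ_[p])) ∨
        HasMultiplicativeReduction ℤ_[p] (C • E.map (algebraMap ℚ ℚ_[p])))
    (hgood : ∀ p : ℕ, ∀ [Fact p.Prime], p ≠ 11 → ∃ C : VariableChange ℚ_[p],
      HasGoodReduction ℤ_[p] (C • E.map (algebraMap ℚ ℚ_[p]))) :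
    ∃ g : ℂ → ℂ, Differentiable ℂ g ∧ (∀ s : ℂ, 3 / 2 < s.re → g s = E.LSeries s) ∧ g 1 ≠ 0 := by
  obtain ⟨g, hg, hgs, -, h1⟩ := centralValue_11a3
  refine ⟨g, hg, fun s hs => ?_, h1⟩
  rw [hgs s hs, WeierstrassCurve.LSeries, WeierstrassCurve.LSeries,
    uniqueLevelEleven (E := E) h hgood]

/-- **Analytic rank zero of `y² = x³ - x`.** -/
theorem centralValue_32a :
    ∃ g : ℂ → ℂ, Differentiable ℂ g ∧
      (∀ s : ℂ, 3 / 2 < s.re → g s = (⟨0, 0, 0, -1, 0⟩ : WeierstrassCurve ℚ).LSeries s) ∧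
      g 1 = 2 * ∑' n : ℕ, ((⟨0, 0, 0, -1, 0⟩ : WeierstrassCurve ℚ).LFunction n : ℂ) / n *
        (Real.exp (-(2 * π * n / Real.sqrt 32)) : ℂ) ∧ g 1 ≠ 0 := by
  have h := FA.Central.exists_centralValue (M := 32) le_rfl FA.CM.form32 FA.CM.cm32_fricke
    (⟨0, 0, 0, -1, 0⟩ : WeierstrassCurve ℚ) FA.CM.qCoeff_form32_eq_LFunction
  rw [Nat.cast_ofNat] at h
  exact h

end FA.Summary

end
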