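import Fermat.Agent.Root.SummaryChebotarevNumberField

/-!
# Primes of a number field splitting completely

Over any number field `K` infinitely many primes split completely in a finite Galois extension, and
finite Galois extensions inside a given one are determined by the primes that split completely in
them, up to finitely many (Bauer).
-/

set_option autoImplicit false
set_option linter.style.haveILetI false

noncomputable section

open NumberField IsDedekindDomain FA.Density
open scoped Pointwise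

namespace FA.Chebotarev

variable {K L : Type*} [Field K] [NumberField K] [Field L] [NumberField L] [Algebra K L]
variable [IsGalois K L]

omit [IsGalois K L] in
/-- Outside the primes over finitely many prime numbers inertia is trivial. -/
theorem exists_inertia_eq_bot : ∃ S : Set (HeightOneSpectrum (𝓞 K)), S.Finite ∧
    ∀ v, v ∉ S → ∀ Q : Ideal (𝓞 L), Q.IsMaximal → Q.under (𝓞 K) = v.asIdeal →
      Q.inertia (L ≃ₐ[K] L) = ⊥ := by
  obtain ⟨mL, hmL0, hmL⟩ := exists_unramified L
  refine ⟨_, finite_dvd (K := K) hmL0, fun v hv Q hQ hQv => ?_⟩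
  obtain ⟨q, hq, hqv⟩ := FA.Ext.exists_rat_prime_mem v
  have hqm : ¬ q ∣ mL := fun hd => hv (absNorm_dvd_of_mem (by
    obtain ⟨c, rfl⟩ := hd
    rw [Nat.cast_mul]
    exact v.asIdeal.mul_mem_right _ hqv))
  rw [← hQv, Ideal.mem_comap, map_natCast] at hqv
  exact (Subgroup.eq_bot_iff_forall _).mpr fun ρ hρ => AlgEquiv.restrictScalars_injective ℚ
    ((hmL q Q hq hQ hqv hqm (ρ.restrictScalars ℚ) hρ).trans rfl)

/-- Frobenius elements restrict to Frobenius elements. -/
theorem isArithFrobAt_restrict (F : IntermediateField K L) [IsGalois K F]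
    {Q : Ideal (𝓞 L)} {τ : L ≃ₐ[K] L} (h : IsArithFrobAt (𝓞 K) τ Q) :
    IsArithFrobAt (𝓞 K) (AlgEquiv.restrictNormalHom F τ) (Q.under (𝓞 F)) := fun y => by
  rw [Ideal.under_under, Ideal.mem_comap, map_sub, map_pow]
  convert h (algebraMap (𝓞 F) (𝓞 L) y) using 2
  exact RingOfIntegers.ext (AlgEquiv.restrictNormal_commutes τ F (y : F))

/-- An unramified prime splits completely iff its Frobenius is trivial. -/
theorem split_iff_frobenius_one {v : HeightOneSpectrum (𝓞 K)} {Q : Ideal (𝓞 L)} (hQ : Q.IsMaximal)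
    (hQv : Q.under (𝓞 K) = v.asIdeal) (hI : Q.inertia (L ≃ₐ[K] L) = ⊥) {τ : L ≃ₐ[K] L}
    (hτ : IsArithFrobAt (𝓞 K) τ Q) :
    (v.asIdeal.primesOver (𝓞 L)).ncard = Module.finrank K L ↔ τ = 1 := by
  classical
  have : v.asIdeal.IsMaximal := v.isMaximal
  have horb : v.asIdeal.primesOver (𝓞 L) = MulAction.orbit (L ≃ₐ[K] L) Q := by
    ext R
    refine ⟨fun ⟨hR, hRv⟩ => ?_, ?_⟩
    · obtain ⟨x, hx⟩ := Algebra.IsInvariant.exists_smul_of_under_eq (𝓞 K) (𝓞 L) (L ≃ₐ[K] L) Q R
        (hQv.trans hRv.over)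
      exact ⟨x, hx.symm⟩
    · rintro ⟨x, rfl⟩
      refine ⟨?_, ⟨?_⟩⟩
      · show (x • Q).IsPrime
        rw [Ideal.pointwise_smul_eq_comap]
        exact Ideal.comap_isPrime _ _
      · rw [← hQv]
        ext y
        show _ ↔ y ∈ (x • Q).under (𝓞 K)
        rw [Ideal.mem_comap, Ideal.mem_comap, Ideal.mem_pointwise_smul_iff_inv_smul_mem,
          smul_algebraMap]
  rw [horb, ← MulAction.index_stabilizer, ← IsGalois.card_aut_eq_finrank]
  have hmul := Subgroup.card_mul_index (MulAction.stabilizer (L ≃ₐ[K] L) Q)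
  refine ⟨fun hc => ?_, fun h1 => ?_⟩
  · rw [hc] at hmul
    have hbot := Subgroup.card_eq_one.mp
      (Nat.eq_of_mul_eq_mul_right Nat.card_pos (hmul.trans (one_mul _).symm))
    exact (Subgroup.eq_bot_iff_forall _).mp hbot τ (IsArithFrobAt.mem_stabilizer hτ)
  subst h1
  suffices hbot : MulAction.stabilizer (L ≃ₐ[K] L) Q = ⊥ by rw [hbot, Subgroup.index_bot]
  refine (Subgroup.eq_bot_iff_forall _).mpr fun x hx =>
    (Subgroup.eq_bot_iff_forall _).mp hI x fun y => ?_
  -- the residue field is that of `v`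
  let _ : Field (𝓞 L ⧸ Q) := Ideal.Quotient.field Q
  have : Finite (𝓞 L ⧸ Q) := Ideal.finiteQuotientOfFreeOfNeBot Q
    (Ring.ne_bot_of_isMaximal_of_not_isField hQ (RingOfIntegers.not_isField _))
  set N := Nat.card (𝓞 K ⧸ Q.under (𝓞 K))
  have : Finite (𝓞 K ⧸ Q.under (𝓞 K)) := Finite.of_injective _ Ideal.algebraMap_quotient_injective
  have hN : 1 < N := by
    have : (Q.under (𝓞 K)).IsPrime := hQv ▸ v.isPrime
    exact Finite.one_lt_card
  have hroot : ∀ b : 𝓞 L ⧸ Q, b ^ N - b = 0 := fun b => by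
    obtain ⟨z, rfl⟩ := Ideal.Quotient.mk_surjective b
    rw [← map_pow, ← map_sub, Ideal.Quotient.eq_zero_iff_mem, ← Ideal.neg_mem_iff, neg_sub]
    have h := hτ z
    rwa [show MulSemiringAction.toAlgHom (𝓞 K) (𝓞 L) (1 : L ≃ₐ[K] L) z = z from one_smul _ z] at h
  have hcard : Nat.card (𝓞 L ⧸ Q) ≤ N := by
    have := Fintype.ofFinite (𝓞 L ⧸ Q)
    rw [Nat.card_eq_fintype_card, ← Finset.card_univ,
      ← FiniteField.X_pow_card_sub_X_natDegree_eq (𝓞 L ⧸ Q) hN]
    refine le_trans (Finset.card_le_card fun b _ => ?_) ((Multiset.toFinset_card_le _).trans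
      (Polynomial.card_roots' _))
    rw [Multiset.mem_toFinset, Polynomial.mem_roots
      (FiniteField.X_pow_card_sub_X_ne_zero _ hN), Polynomial.IsRoot.def]
    simp only [Polynomial.eval_sub, Polynomial.eval_pow, Polynomial.eval_X]
    exact hroot b
  obtain ⟨a, ha⟩ := (Ideal.algebraMap_quotient_injective (R := 𝓞 K) (I := Q)
    ).bijective_of_nat_card_le hcard |>.2 (Ideal.Quotient.mk Q y)
  obtain ⟨a, rfl⟩ := Ideal.Quotient.mk_surjective a
  rw [Ideal.Quotient.algebraMap_mk_of_liesOver] at ha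
  have hya := Ideal.Quotient.eq.mp ha
  have hxy := Ideal.smul_mem_pointwise_smul x _ Q hya
  rw [MulAction.mem_stabilizer_iff.mp hx, smul_sub, smul_algebraMap] at hxy
  simpa using sub_mem hya hxy

variable (K L) in
theorem infinite_split : {v : HeightOneSpectrum (𝓞 K) |
    (v.asIdeal.primesOver (𝓞 L)).ncard = Module.finrank K L}.Infinite := by
  refine (infinite_frobenius (K := K) (1 : L ≃ₐ[K] L)).mono ?_
  rintro v ⟨Q, hQ, hQv, hI, h⟩
  exact (split_iff_frobenius_one hQ hQv hI h).mpr rfl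

/-- Bauer's theorem for two subfields. -/
theorem bauer_iff (F₁ F₂ : IntermediateField K L) [IsGalois K F₁] [IsGalois K F₂] :
    F₁ ≤ F₂ ↔ ({v : HeightOneSpectrum (𝓞 K) |
          (v.asIdeal.primesOver (𝓞 F₂)).ncard = Module.finrank K F₂} \
        {v | (v.asIdeal.primesOver (𝓞 F₁)).ncard = Module.finrank K F₁}).Finite := by
  obtain ⟨S₁, hS₁, hI₁⟩ := exists_inertia_eq_bot (K := K) (L := F₁)
  obtain ⟨S₂, hS₂, hI₂⟩ := exists_inertia_eq_bot (K := K) (L := F₂)
  -- the splitting in `Fᵢ` is read off any Frobenius element of `L`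
  have hkey : ∀ v : HeightOneSpectrum (𝓞 K), v ∉ S₁ ∪ S₂ → ∀ Q : Ideal (𝓞 L), Q.IsMaximal →
      Q.under (𝓞 K) = v.asIdeal → ∀ τ : L ≃ₐ[K] L, IsArithFrobAt (𝓞 K) τ Q →
      ((v.asIdeal.primesOver (𝓞 F₁)).ncard = Module.finrank K F₁ ↔ τ ∈ F₁.fixingSubgroup) ∧
      ((v.asIdeal.primesOver (𝓞 F₂)).ncard = Module.finrank K F₂ ↔ τ ∈ F₂.fixingSubgroup) := by
    intro v hv Q hQ hQv τ hτ
    rw [Set.mem_union, not_or] at hv
    have h1 : (Q.under (𝓞 F₁)).IsMaximal := Ideal.IsMaximal.under (𝓞 F₁) Q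
    have h2 : (Q.under (𝓞 F₂)).IsMaximal := Ideal.IsMaximal.under (𝓞 F₂) Q
    have e1 : (Q.under (𝓞 F₁)).under (𝓞 K) = v.asIdeal := by rw [Ideal.under_under, hQv]
    have e2 : (Q.under (𝓞 F₂)).under (𝓞 K) = v.asIdeal := by rw [Ideal.under_under, hQv]
    rw [split_iff_frobenius_one h1 e1 (hI₁ v hv.1 _ h1 e1) (isArithFrobAt_restrict F₁ hτ),
      split_iff_frobenius_one h2 e2 (hI₂ v hv.2 _ h2 e2) (isArithFrobAt_restrict F₂ hτ),
      ← MonoidHom.mem_ker, ← MonoidHom.mem_ker, IntermediateField.restrictNormalHom_ker,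
      IntermediateField.restrictNormalHom_ker]
    exact ⟨Iff.rfl, Iff.rfl⟩
  refine ⟨fun hle => (hS₁.union hS₂).subset fun v ⟨hv2, hv1⟩ => ?_, fun hfin => ?_⟩
  · by_contra hv
    obtain ⟨Q, hQ, hQv, τ, hτ⟩ := exists_isArithFrobAt (L := L) v
    obtain ⟨k1, k2⟩ := hkey v hv Q hQ hQv τ hτ
    exact hv1 (k1.mpr (IntermediateField.fixingSubgroup_le hle (k2.mp hv2)))
  · rw [← IsGalois.fixedField_fixingSubgroup F₂]
    refine fun x hx => (IntermediateField.mem_fixedField_iff _ x).mpr fun s hs => ?_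
    obtain ⟨v, ⟨Q, hQ, hQv, -, hτ⟩, hv⟩ :=
      ((infinite_frobenius (K := K) s).sdiff (hfin.union (hS₁.union hS₂))).nonempty
    rw [Set.mem_union, not_or] at hv
    obtain ⟨k1, k2⟩ := hkey v hv.2 Q hQ hQv s hτ
    exact (IntermediateField.mem_fixingSubgroup_iff F₁ s).mp
      (k1.mp (not_not.mp fun h => hv.1 ⟨k2.mpr hs, h⟩)) x hx

end FA.Chebotarev

namespace FA.Summary

open FA.Chebotarev

/-- **Infinitely many primes of any number field split completely** in a finite Galois
extension. -/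
theorem infinitely_many_split_completely_numberField (K L : Type*) [Field K] [NumberField K]
    [Field L] [NumberField L] [Algebra K L] [IsGalois K L] :
    {v : HeightOneSpectrum (𝓞 K) |
      (v.asIdeal.primesOver (𝓞 L)).ncard = Module.finrank K L}.Infinite :=
  infinite_split K L

/-- **Bauer's theorem over a number field**: for Galois subextensions of a finite Galois extension,
`F₁ ≤ F₂` iff all but finitely many primes splitting completely in `F₂` do so in `F₁`. -/
theorem bauer_numberField (K L : Type*) [Field K] [NumberField K] [Field L] [NumberField L]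
    [Algebra K L] [IsGalois K L] (F₁ F₂ : IntermediateField K L) [IsGalois K F₁]
    [IsGalois K F₂] :
    F₁ ≤ F₂ ↔ ({v : HeightOneSpectrum (𝓞 K) |
          (v.asIdeal.primesOver (𝓞 F₂)).ncard = Module.finrank K F₂} \
        {v | (v.asIdeal.primesOver (𝓞 F₁)).ncard = Module.finrank K F₁}).Finite :=
  bauer_iff F₁ F₂

end FA.Summary

end
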