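import Fermat.Agent.BakerExplicit.Thue

/-!
# Baker's theorem without independence and the effective Thue equation

* `baker_algebraic_general`: for a number field of degree at most `d` with an embedding `ψ`, any
  `n` elements `α i` with `D α i` integral, `D` and all conjugates at most `2 ^ h`, any logarithms
  `l i` of the `ψ (α i)` of absolute value at most `h`, and integers `|b i| ≤ 2 ^ m`: if
  `∑ b i l i ≠ 0` then its absolute value is at least
  `1 / 2 ^ ((2 ^ (4 n² + 18) d (h + m)) ^ (6 n² + 6 n + 6))`. Dependent numbers, roots of unity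
  and `2 π i` are allowed.
* `unit_exponents_bound`: the exponents of a product of powers of units, injective in the
  exponents, are bounded through the logarithms of its conjugates, without the regulator.
* `thue_effective`: in a field of degree `n ≥ 3`, for an integer `θ` with distinct conjugates and
  a system of units of maximal rank, `h` bounding the logarithms of the data, every solution of
  `N (x - θ y) = m ≠ 0` in integers has `|x|, |y| < 2 ^ thueBound n h`.
* `thue_equation_effective`: the same for `F (x, y) = m` with `F` the form of a monic irreducible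
  polynomial of degree at least three; `thue_equation_finite_baker`: such units exist (Dirichlet),
  so this proves Thue's theorem again, by Baker's method.

Not claimed: good exponents, Thue–Mahler and superelliptic equations. The bound in the coefficients
alone, for every irreducible form, is in `SummaryThueCoefficients`.
-/

set_option autoImplicit false

noncomputable section

namespace FA.BakerExplicit.EffectiveThue

open NumberField NumberField.Units Module

variable {K : Type*} [Field K] [NumberField K]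

/-- **Baker's theorem for algebraic numbers, explicit and without independence.** -/
theorem baker_algebraic_general {d : ℕ} (hd : finrank ℚ K ≤ d) (ψ : K →+* ℂ) {n : ℕ}
    {α : Fin n → K} {D : ℕ} (hD0 : 0 < D) (hint : ∀ i, IsIntegral ℤ ((D : K) * α i)) {h m : ℕ}
    (hDh : D ≤ 2 ^ h) (hαh : ∀ i (σ : K →+* ℂ), ‖σ (α i)‖ ≤ (2 : ℝ) ^ h) {l : Fin n → ℂ}
    (hexp : ∀ i, Complex.exp (l i) = ψ (α i)) (hl : ∀ i, ‖l i‖ ≤ h) {b : Fin n → ℤ}
    (hbm : ∀ i, (b i).natAbs ≤ 2 ^ m) (hne : ∑ i, (b i : ℂ) * l i ≠ 0) :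
    1 / (2 : ℝ) ^ ((2 ^ (4 * n ^ 2 + 18) * d * (h + m)) ^ (6 * n ^ 2 + 6 * n + 6)) ≤
      ‖∑ i, (b i : ℂ) * l i‖ :=
  Algebraic.baker_algebraic_general_bound hd ψ hD0 hint hDh
    (fun i => Algebraic.house_le_of_forall (by positivity) (hαh i)) hexp hl hbm hne

/-- **Exponents of units are bounded by their sizes, explicitly.** -/
theorem unit_exponents_bound {r h : ℕ} {u : Fin r → (𝓞 K)ˣ}
    (hinj : Function.Injective fun k : Fin r → ℤ => ∏ i, u i ^ k i)
    (hu : ∀ i (σ : K →+* ℂ), |Real.log ‖σ (u i : K)‖| ≤ h) {k : Fin r → ℤ} {X : ℕ} (hX : 1 ≤ X)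
    (hk : ∀ σ : K →+* ℂ, |Real.log ‖σ ((∏ i, u i ^ k i : (𝓞 K)ˣ) : K)‖| ≤ X) (i : Fin r) :
    (k i).natAbs ≤ X * 2 ^ (2 * finrank ℚ K * (2 * (r * h) + 5)) :=
  UnitExponents.exponent_le hinj hu hX hk i

/-- **The effective Thue equation.** -/
theorem thue_effective {n h : ℕ} (hfin : finrank ℚ K = n) (hn : 3 ≤ n) (hh : 1 ≤ h) {θ : 𝓞 K}
    (hθ : Function.Injective fun σ : K →+* ℂ => σ (θ : K))
    (hθh : ∀ σ : K →+* ℂ, ‖σ (θ : K)‖ ≤ (2 : ℝ) ^ h) {u : Fin (rank K) → (𝓞 K)ˣ}
    (hu : IsMaxRank u) (huh : ∀ i (σ : K →+* ℂ), |Real.log ‖σ (u i : K)‖| ≤ h) {x y m : ℤ}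
    (hm : m ≠ 0) (hmh : m.natAbs ≤ 2 ^ h)
    (hnorm : Algebra.norm ℚ ((x : K) - (θ : K) * y) = (m : ℚ)) :
    x.natAbs < 2 ^ thueBound n h ∧ y.natAbs < 2 ^ thueBound n h :=
  solutions_bound hfin hn hh hθ hθh hu huh hm hmh hnorm

open Polynomial in
/-- **The effective Thue equation for a binary form.** -/
theorem thue_equation_effective {f : ℤ[X]} (hf : f.Monic) (hirr : Irreducible f)
    (hn : 3 ≤ f.natDegree) (hfin : finrank ℚ K = f.natDegree) {θ : 𝓞 K}
    (hroot : aeval (θ : K) f = 0) {u : Fin (rank K) → (𝓞 K)ˣ} (hu : IsMaxRank u) {h : ℕ}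
    (hh : 1 ≤ h) (hθh : ∀ σ : K →+* ℂ, ‖σ (θ : K)‖ ≤ (2 : ℝ) ^ h)
    (huh : ∀ i (σ : K →+* ℂ), |Real.log ‖σ (u i : K)‖| ≤ h) {x y m : ℤ} (hm : m ≠ 0)
    (hmh : m.natAbs ≤ 2 ^ h) (heq : FA.Thue.form f x y = m) :
    x.natAbs < 2 ^ thueBound f.natDegree h ∧ y.natAbs < 2 ^ thueBound f.natDegree h :=
  equation_bound hf hirr hn hfin hroot hu hh hθh huh hm hmh heq

open Polynomial in
/-- Finiteness, by Baker's method. -/
theorem thue_equation_finite_baker {f : ℤ[X]} (hf : f.Monic) (hirr : Irreducible f)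
    (hn : 3 ≤ f.natDegree) {m : ℤ} (hm : m ≠ 0) :
    {p : ℤ × ℤ | FA.Thue.form f p.1 p.2 = m}.Finite :=
  equation_finite hf hirr hn hm

end FA.BakerExplicit.EffectiveThue

end
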