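import Fermat.Agent.PsiOscillation.Main

/-!
# The oscillation of `ψ x - x`

* `schmidt_oscillation`: for some `c > 0` both `ψ n > n + c √n` and `ψ n < n - c √n` hold for
  infinitely many `n`; `psi_sign_changes`: so `ψ x - x` changes sign at arbitrarily large `x`.
* `psi_oscillation_of_zero`: a zero of real part above `α` gives the same with every `C n ^ α`.
* `zeta_zero_free_of_psi_bound`, `riemannHypothesis_of_psi_bound`: one-sided bounds for `ψ n - n`
  keep zeros out of half planes; with all exponents above `1/2` they give the Riemann hypothesis.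
-/

set_option autoImplicit false

noncomputable section

open Filter

namespace FA.Summary

/-- **Schmidt's oscillation theorem.** -/
theorem schmidt_oscillation : ∃ c : ℝ, 0 < c ∧
    {n : ℕ | n + c * Real.sqrt n < Chebyshev.psi n}.Infinite ∧
    {n : ℕ | Chebyshev.psi n < n - c * Real.sqrt n}.Infinite := by
  obtain ⟨c, hc, h⟩ := FA.PsiOscillation.exists_frequently_gt
  exact ⟨c, hc, Nat.frequently_atTop_iff_infinite.1 ((h 1 abs_one).mono fun n hn => by linarith),
    Nat.frequently_atTop_iff_infinite.1 ((h (-1) (by norm_num)).mono fun n hn => by linarith)⟩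

/-- **`ψ x - x` changes sign infinitely often.** -/
theorem psi_sign_changes (T : ℝ) :
    (∃ x, T ≤ x ∧ x < Chebyshev.psi x) ∧ ∃ x, T ≤ x ∧ Chebyshev.psi x < x :=
  ⟨frequently_atTop.1 FA.PsiOscillation.frequently_psi_gt T,
    frequently_atTop.1 FA.PsiOscillation.frequently_psi_lt T⟩

/-- A zero to the right of `α` forces oscillation beyond every `C n ^ α`. -/
theorem psi_oscillation_of_zero {ρ : ℂ} (hρ : riemannZeta ρ = 0) (hρ1 : ρ ≠ 1) {α : ℝ}
    (hα : 0 < α) (hαρ : α < ρ.re) (C : ℝ) :
    {n : ℕ | n + C * (n : ℝ) ^ α < Chebyshev.psi n}.Infinite ∧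
    {n : ℕ | Chebyshev.psi n < n - C * (n : ℝ) ^ α}.Infinite :=
  ⟨Nat.frequently_atTop_iff_infinite.1
      ((FA.PsiOscillation.frequently_gt_of_zero hρ hρ1 hα hαρ C (e := 1) one_ne_zero).mono
        fun n hn => by linarith),
    Nat.frequently_atTop_iff_infinite.1
      ((FA.PsiOscillation.frequently_gt_of_zero hρ hρ1 hα hαρ C (e := -1) (by norm_num)).mono
        fun n hn => by linarith)⟩

/-- **Landau's criterion**: a one-sided bound gives a zero-free half plane. -/
theorem zeta_zero_free_of_psi_bound {α C : ℝ} (hα : 0 < α) {e : ℝ} (he : e ≠ 0)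
    (h : ∀ᶠ n : ℕ in atTop, e * (Chebyshev.psi n - n) ≤ C * (n : ℝ) ^ α) {s : ℂ} (hs1 : s ≠ 1)
    (hs : α < s.re) : riemannZeta s ≠ 0 :=
  fun h0 => FA.PsiOscillation.frequently_gt_of_zero h0 hs1 hα hs C he
    (h.mono fun _ hn => not_lt.2 hn)

/-- **One-sided square root bounds imply the Riemann hypothesis.** -/
theorem riemannHypothesis_of_psi_bound (h : ∀ ε : ℝ, 0 < ε → ∃ C : ℝ,
      ∀ᶠ n : ℕ in atTop, Chebyshev.psi n - n ≤ C * (n : ℝ) ^ (1 / 2 + ε)) : RiemannHypothesis :=
  FA.PsiOscillation.riemannHypothesis_of_bound 1 one_ne_zero (by simpa using h)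

end FA.Summary

end
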