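import Fermat.Agent.Root.SummaryCentralValueLevels
import Fermat.Agent.Curve11.LevelsFourteenFifteen
import Fermat.Agent.Curve11.Main
import Fermat.Agent.CongruentNumber.One
import Fermat.Agent.MordellCurve.Cubic
import Fermat.Agent.Frob.VarChange

/-!
# Both sides of rank zero

For `11a3`, `14a4`, `15a1`, `27a` and `32a` the group of rational points is finite and the entire
continuation of the L-series does not vanish at `1`.
-/

set_option autoImplicit false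

noncomputable section

open WeierstrassCurve

namespace FA.Central

/-- Semistability and good reduction of an integral equation with `c₄` prime to `Δ`. -/
theorem reduction_of_coprime_c₄ (W : WeierstrassCurve ℤ) [(W.map (Int.castRingHom ℚ)).IsElliptic]
    (h : Int.gcd W.Δ W.c₄ = 1) (p : ℕ) [hp : Fact p.Prime] :
    ∃ C : VariableChange ℚ_[p],
      HasGoodReduction ℤ_[p] (C • (W.map (Int.castRingHom ℚ)).map (algebraMap ℚ ℚ_[p])) ∨
        HasMultiplicativeReduction ℤ_[p]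
          (C • (W.map (Int.castRingHom ℚ)).map (algebraMap ℚ ℚ_[p])) := by
  refine FA.Root.exists_reduction_of_isSemistableAt _
    (FA.Root.isSemistableAt_of_rat _ (C := 1) ?_ ?_ ?_ ?_ ?_ ?_)
  all_goals rw [one_smul]
  case refine_6 =>
    rintro ⟨h1, h2⟩
    rw [map_Δ, eq_intCast, Rat.num_intCast] at h1
    rw [map_c₄, eq_intCast, Rat.num_intCast] at h2
    have h3 := Int.dvd_coe_gcd h1 h2
    rw [h] at h3
    exact hp.out.ne_one (Nat.dvd_one.mp (by exact_mod_cast h3))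
  all_goals simp [hp.out.ne_one]

end FA.Central

namespace FA.Summary

open FA.Central

/-- `y² + y = x³ - x²` has finitely many rational points and `L (E, 1) ≠ 0`. -/
theorem rankZero_11a3 :
    Finite (⟨0, -1, 1, 0, 0⟩ : WeierstrassCurve ℚ).toAffine.Point ∧
      ∃ g : ℂ → ℂ, Differentiable ℂ g ∧
        (∀ s : ℂ, 3 / 2 < s.re → g s = (⟨0, -1, 1, 0, 0⟩ : WeierstrassCurve ℚ).LSeries s) ∧
        g 1 ≠ 0 := by
  obtain ⟨e⟩ := point_group_curve11
  obtain ⟨g, hg, hgs, -, h1⟩ := centralValue_11a3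
  exact ⟨Finite.of_equiv _ e.toEquiv.symm, g, hg, hgs, h1⟩

/-- `y² + xy + y = x³ - x` has finitely many rational points and `L (E, 1) ≠ 0`. -/
theorem rankZero_14a4 :
    Finite (⟨1, 0, 1, -1, 0⟩ : WeierstrassCurve ℚ).toAffine.Point ∧
      ∃ g : ℂ → ℂ, Differentiable ℂ g ∧
        (∀ s : ℂ, 3 / 2 < s.re → g s = (⟨1, 0, 1, -1, 0⟩ : WeierstrassCurve ℚ).LSeries s) ∧
        g 1 ≠ 0 := by
  obtain ⟨e⟩ := point_group_curve14
  set W : WeierstrassCurve ℤ := ⟨1, 0, 1, -1, 0⟩ with hW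
  have hE : W.map (Int.castRingHom ℚ) = ⟨1, 0, 1, -1, 0⟩ := by ext <;> simp [hW]
  have hΔ : W.Δ = -28 := by decide
  have hi : (W.map (Int.castRingHom ℚ)).IsElliptic :=
    FA.Frob.ratCurve_isElliptic_of_Δ (by rw [hΔ]; decide)
  obtain ⟨g, hg, hgs, -, h1⟩ := centralValue_levelFourteen (W.map (Int.castRingHom ℚ))
    (fun p _ => reduction_of_coprime_c₄ W (by decide) p)
    (fun p hp h2 h7 => FA.Root.exists_good_of_not_dvd W p fun hd => by
      rw [hΔ, dvd_neg] at hd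
      have hd' : p ∣ 2 ^ 2 * 7 := by exact_mod_cast hd
      rcases (Nat.Prime.dvd_mul hp.out).mp hd' with hq | hq
      · exact h2 ((Nat.prime_dvd_prime_iff_eq hp.out Nat.prime_two).mp (hp.out.dvd_of_dvd_pow hq))
      · exact h7 ((Nat.prime_dvd_prime_iff_eq hp.out (by norm_num)).mp hq))
  rw [hE] at hgs
  exact ⟨Finite.of_equiv _ e.toEquiv.symm, g, hg, hgs, h1⟩

/-- `y² + xy + y = x³ + x² - 10x - 10` has finitely many rational points and `L (E, 1) ≠ 0`. -/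
theorem rankZero_15a1 :
    Finite (⟨1, 1, 1, -10, -10⟩ : WeierstrassCurve ℚ).toAffine.Point ∧
      ∃ g : ℂ → ℂ, Differentiable ℂ g ∧
        (∀ s : ℂ, 3 / 2 < s.re → g s = (⟨1, 1, 1, -10, -10⟩ : WeierstrassCurve ℚ).LSeries s) ∧
        g 1 ≠ 0 := by
  obtain ⟨e⟩ := point_group_curve15
  set W : WeierstrassCurve ℤ := ⟨1, 1, 1, -10, -10⟩ with hW
  have hE : W.map (Int.castRingHom ℚ) = ⟨1, 1, 1, -10, -10⟩ := by ext <;> simp [hW]
  have hΔ : W.Δ = 50625 := by decide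
  have hi : (W.map (Int.castRingHom ℚ)).IsElliptic :=
    FA.Frob.ratCurve_isElliptic_of_Δ (by rw [hΔ]; decide)
  obtain ⟨g, hg, hgs, -, h1⟩ := centralValue_levelFifteen (W.map (Int.castRingHom ℚ))
    (fun p _ => reduction_of_coprime_c₄ W (by decide) p)
    (fun p hp h3 h5 => FA.Root.exists_good_of_not_dvd W p fun hd => by
      rw [hΔ] at hd
      have hd' : p ∣ 3 ^ 4 * 5 ^ 4 := by exact_mod_cast hd
      rcases (Nat.Prime.dvd_mul hp.out).mp hd' with hq | hq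
      · exact h3 ((Nat.prime_dvd_prime_iff_eq hp.out Nat.prime_three).mp (hp.out.dvd_of_dvd_pow hq))
      · exact h5 ((Nat.prime_dvd_prime_iff_eq hp.out Nat.prime_five).mp (hp.out.dvd_of_dvd_pow hq)))
  rw [hE] at hgs
  exact ⟨Finite.of_equiv _ e.toEquiv.symm, g, hg, hgs, h1⟩

/-- `y² + y = x³` has finitely many rational points and `L (E, 1) ≠ 0`. -/
theorem rankZero_27a :
    Finite (⟨0, 0, 1, 0, 0⟩ : WeierstrassCurve ℚ).toAffine.Point ∧
      ∃ g : ℂ → ℂ, Differentiable ℂ g ∧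
        (∀ s : ℂ, 3 / 2 < s.re → g s = (⟨0, 0, 1, 0, 0⟩ : WeierstrassCurve ℚ).LSeries s) ∧
        g 1 ≠ 0 := by
  obtain ⟨e⟩ := point_group_curve27_dual
  obtain ⟨g, hg, hgs, -, h1⟩ := centralValue_27a
  have hC : (⟨Units.mk0 (1 / 2) (by norm_num), 0, 0, -1 / 2⟩ : VariableChange ℚ) •
      (⟨0, 0, 1, 0, 0⟩ : WeierstrassCurve ℚ) = ⟨0, 0, 0, 0, 16⟩ := by
    ext <;> norm_num [variableChange_a₁, variableChange_a₂, variableChange_a₃, variableChange_a₄,
      variableChange_a₆]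
  have : (⟨0, 0, 1, 0, 0⟩ : WeierstrassCurve ℚ).IsElliptic :=
    ⟨isUnit_iff_ne_zero.mpr (by norm_num [Δ, b₂, b₄, b₆, b₈])⟩
  have : (⟨0, 0, 0, 0, 16⟩ : WeierstrassCurve ℚ).IsElliptic :=
    ⟨isUnit_iff_ne_zero.mpr (by norm_num [Δ, b₂, b₄, b₆, b₈])⟩
  exact ⟨Finite.of_equiv _ ((FA.Frob.vcEquiv _ hC).symm.trans e).toEquiv.symm, g, hg, hgs, h1⟩

/-- `y² = x³ - x` has finitely many rational points and `L (E, 1) ≠ 0`. -/
theorem rankZero_32a :
    Finite (⟨0, 0, 0, -1, 0⟩ : WeierstrassCurve ℚ).toAffine.Point ∧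
      ∃ g : ℂ → ℂ, Differentiable ℂ g ∧
        (∀ s : ℂ, 3 / 2 < s.re → g s = (⟨0, 0, 0, -1, 0⟩ : WeierstrassCurve ℚ).LSeries s) ∧
        g 1 ≠ 0 := by
  obtain ⟨e⟩ := point_group_curve32
  obtain ⟨g, hg, hgs, -, h1⟩ := centralValue_32a
  exact ⟨Finite.of_equiv _ e.toEquiv.symm, g, hg, hgs, h1⟩

end FA.Summary

end
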