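import Fermat.Agent.Root.SummaryTwistFunctionalEquation
import Fermat.Agent.HasseBound.Euler

/-!
# Parity of the order of vanishing at the centre

For a curve with a semistable quadratic twist the entire continuation of the L-series has a finite
order of vanishing at `1`, whose parity is given by the sign of the functional equation; in
particular it vanishes at `1` when the sign is `-1`.
-/

set_option autoImplicit false

noncomputable section

open WeierstrassCurve Filter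
open scoped Real Topology

namespace FA.Parity

/-- From a completed L-series with a functional equation to the continuation and its parity. -/
theorem exists_parity (E : WeierstrassCurve ℚ) {N : ℕ} {ε : ℂ} {Λ : ℂ → ℂ}
    (hN : N ≠ 0) (hΛ : Differentiable ℂ Λ)
    (hs : ∀ s : ℂ, 3 / 2 < s.re →
      Λ s = (N : ℂ) ^ (s / 2) * (2 * (π : ℂ)) ^ (-s) * Complex.Gamma s * E.LSeries s)
    (hfe : ∀ s : ℂ, Λ (2 - s) = ε * Λ s) :
    ∃ g : ℂ → ℂ, Differentiable ℂ g ∧ (∀ s : ℂ, 3 / 2 < s.re → g s = E.LSeries s) ∧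
      (∀ s : ℂ, 0 < s.re → s.re < 2 →
        (N : ℂ) ^ ((2 - s) / 2) * (2 * (π : ℂ)) ^ (-(2 - s)) * Complex.Gamma (2 - s) * g (2 - s) =
          ε * ((N : ℂ) ^ (s / 2) * (2 * (π : ℂ)) ^ (-s) * Complex.Gamma s * g s)) ∧
      (ε = -1 → g 1 = 0) ∧ ∃ r : ℕ, analyticOrderAt g 1 = r ∧ ε = (-1) ^ r := by
  have hN0 : (N : ℂ) ≠ 0 := Nat.cast_ne_zero.mpr hN
  have hπ : (2 * (π : ℂ)) ≠ 0 :=
    mul_ne_zero two_ne_zero (Complex.ofReal_ne_zero.mpr Real.pi_ne_zero)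
  set v : ℂ → ℂ :=
    fun s => (N : ℂ) ^ (-(s / 2)) * (2 * (π : ℂ)) ^ s * (Complex.Gamma s)⁻¹ with hv
  have hvd : Differentiable ℂ v :=
    (((differentiable_id.div_const 2).neg.const_cpow (Or.inl hN0)).mul
      (differentiable_id.const_cpow (Or.inl hπ))).mul Complex.differentiable_one_div_Gamma
  have hpre : ∀ s : ℂ, 0 < s.re →
      (N : ℂ) ^ (s / 2) * (2 * (π : ℂ)) ^ (-s) * Complex.Gamma s ≠ 0 := fun s hs' =>
    mul_ne_zero (mul_ne_zero ((Complex.cpow_ne_zero_iff).mpr (Or.inl hN0))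
      ((Complex.cpow_ne_zero_iff).mpr (Or.inl hπ))) (Complex.Gamma_ne_zero_of_re_pos hs')
  have hback : ∀ s : ℂ, 0 < s.re →
      (N : ℂ) ^ (s / 2) * (2 * (π : ℂ)) ^ (-s) * Complex.Gamma s * (v s * Λ s) = Λ s :=
    fun s hs' => by
    have hΓ : Complex.Gamma s ≠ 0 := Complex.Gamma_ne_zero_of_re_pos hs'
    have h1 : (N : ℂ) ^ (s / 2) ≠ 0 := (Complex.cpow_ne_zero_iff).mpr (Or.inl hN0)
    have h2 : (2 * (π : ℂ)) ^ s ≠ 0 := (Complex.cpow_ne_zero_iff).mpr (Or.inl hπ)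
    simp only [hv, Complex.cpow_neg]
    field_simp
  have hfin : analyticOrderAt Λ 1 ≠ ⊤ := by
    rw [Ne, AnalyticOnNhd.analyticOrderAt_eq_top_iff_eq_zero 1 fun z => hΛ.analyticAt z]
    intro h0
    have h2 : (3 / 2 : ℝ) < (2 : ℂ).re := by norm_num
    have e := hs 2 h2
    rw [h0, Pi.zero_apply, eq_comm, mul_eq_zero] at e
    exact e.elim (hpre 2 (by norm_num)) (FA.Summary.lSeries_ne_zero E h2)
  set r := analyticOrderNatAt Λ 1 with hr
  obtain ⟨u, hu, hu1, hΛu⟩ := ((hΛ.analyticAt 1).analyticOrderAt_ne_top).1 hfin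
  have hε : ε = (-1) ^ r := by
    have hrefl : Tendsto (fun s : ℂ => 2 - s) (𝓝 1) (𝓝 1) := by
      have := (continuous_const.sub continuous_id).tendsto (1 : ℂ) (f := fun s : ℂ => 2 - s)
      norm_num at this ⊢
      exact this
    have hlim : Tendsto (fun s => (-1 : ℂ) ^ r * u (2 - s) - ε * u s) (𝓝[≠] 1)
        (𝓝 ((-1) ^ r * u 1 - ε * u 1)) :=
      (((hu.continuousAt.tendsto.comp hrefl).const_mul _).sub
        (hu.continuousAt.tendsto.const_mul _)).mono_left nhdsWithin_le_nhds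
    have hzero : (fun s => (-1 : ℂ) ^ r * u (2 - s) - ε * u s) =ᶠ[𝓝[≠] 1] fun _ => 0 := by
      filter_upwards [(hrefl.eventually hΛu).filter_mono nhdsWithin_le_nhds,
        hΛu.filter_mono nhdsWithin_le_nhds, eventually_mem_nhdsWithin] with s h1 h2 h3
      have e := hfe s
      rw [h1, h2, smul_eq_mul, smul_eq_mul, show (2 : ℂ) - s - 1 = -1 * (s - 1) by ring, mul_pow,
        ← hr] at e
      refine (mul_eq_zero.1 ?_).resolve_left (pow_ne_zero r (sub_ne_zero.2 h3))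
      linear_combination e
    have e := tendsto_nhds_unique (hlim.congr' hzero) tendsto_const_nhds
    exact (mul_right_cancel₀ hu1 (sub_eq_zero.1 e)).symm
  have hord : analyticOrderAt (v * Λ) 1 = r := by
    rw [analyticOrderAt_mul (hvd.analyticAt 1) (hΛ.analyticAt 1),
      (hvd.analyticAt 1).analyticOrderAt_eq_zero.2 ?_, zero_add, hr,
      Nat.cast_analyticOrderNatAt hfin]
    simp [hv, hN0, hπ]
  refine ⟨v * Λ, hvd.mul hΛ, fun s hs2 => ?_, fun s hs0 hs2 => ?_, fun he => ?_, r, hord, hε⟩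
  · have hs' : 0 < s.re := by linarith
    refine mul_left_cancel₀ (hpre s hs') ?_
    rw [Pi.mul_apply, hback s hs', hs s hs2]
  · rw [Pi.mul_apply, Pi.mul_apply, hback (2 - s) (by simpa using by linarith), hback s hs0, hfe]
  · have e := hfe 1
    rw [he, show (2 : ℂ) - 1 = 1 by norm_num] at e
    have hΛ1 : Λ 1 = 0 := by linear_combination e / 2
    simp [hΛ1]

end FA.Parity

namespace FA.Summary

/-- **Parity for twists of semistable curves**: the L-series of `E` extends to an entire `g` whose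
completion for the conductor `N q²` has a functional equation with sign `ε`; `g 1 = 0` when
`ε = -1`, and `ε` is `-1` to the order of `g` at `1`. -/
theorem centralValue_twist (E : WeierstrassCurve ℚ) [E.IsElliptic] {d : ℚ} (hd : d ≠ 0)
    (h : ∀ p : ℕ, ∀ [Fact p.Prime], ∃ C : VariableChange ℚ_[p],
      HasGoodReduction ℤ_[p] (C • (⟨0, 0, 0, -27 * (d ^ 2 * E.c₄), -54 * (d ^ 3 * E.c₆)⟩ :
          WeierstrassCurve ℚ).map (algebraMap ℚ ℚ_[p])) ∨
        HasMultiplicativeReduction ℤ_[p] (C • (⟨0, 0, 0, -27 * (d ^ 2 * E.c₄),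
          -54 * (d ^ 3 * E.c₆)⟩ : WeierstrassCurve ℚ).map (algebraMap ℚ ℚ_[p]))) :
    ∃ (D : ℤ) (q N : ℕ) (ε : ℂ) (g : ℂ → ℂ), Squarefree D ∧ (∃ t : ℚ, t ≠ 0 ∧ d = t ^ 2 * D) ∧
      q = (if D % 4 = 1 then D.natAbs else 4 * D.natAbs) ∧ Squarefree N ∧
      (∀ p : ℕ, ∀ [Fact p.Prime], p ∣ N ↔ ¬ p ∣ q ∧ ¬ ∃ C : VariableChange ℚ_[p],
        HasGoodReduction ℤ_[p] (C • (⟨0, 0, 0, -27 * (d ^ 2 * E.c₄), -54 * (d ^ 3 * E.c₆)⟩ :
          WeierstrassCurve ℚ).map (algebraMap ℚ ℚ_[p]))) ∧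
      (ε = 1 ∨ ε = -1) ∧ Differentiable ℂ g ∧
      (∀ s : ℂ, 3 / 2 < s.re → g s = E.LSeries s) ∧
      (∀ s : ℂ, 0 < s.re → s.re < 2 →
        ((N * q ^ 2 : ℕ) : ℂ) ^ ((2 - s) / 2) * (2 * (π : ℂ)) ^ (-(2 - s)) * Complex.Gamma (2 - s) *
            g (2 - s) =
          ε * (((N * q ^ 2 : ℕ) : ℂ) ^ (s / 2) * (2 * (π : ℂ)) ^ (-s) * Complex.Gamma s * g s)) ∧
      (ε = -1 → g 1 = 0) ∧ ∃ r : ℕ, analyticOrderAt g 1 = r ∧ ε = (-1) ^ r := by
  obtain ⟨D, q, N, ε, Λ, hD, hDd, hq, hN, hbad, hε, hΛ, hs, hfe⟩ := functionalEquation_twist E hd h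
  have hq0 : q ≠ 0 := by
    rw [hq]
    have := Int.natAbs_pos.mpr hD.ne_zero
    split_ifs <;> omega
  obtain ⟨g, hg, hgs, hgfe, hg1, hord⟩ :=
    FA.Parity.exists_parity E (mul_ne_zero hN.ne_zero (pow_ne_zero 2 hq0)) hΛ hs hfe
  exact ⟨D, q, N, ε, g, hD, hDd, hq, hN, hbad, hε, hg, hgs, hgfe, hg1, hord⟩

/-- **Parity by the `j`-invariant**: the same when at every prime the curve is semistable or `j`
has a pole. -/
theorem centralValue_of_j (E : WeierstrassCurve ℚ) [E.IsElliptic]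
    (h : ∀ p : ℕ, ∀ [Fact p.Prime], (∃ C : VariableChange ℚ_[p],
      HasGoodReduction ℤ_[p] (C • E.map (algebraMap ℚ ℚ_[p])) ∨
        HasMultiplicativeReduction ℤ_[p] (C • E.map (algebraMap ℚ ℚ_[p]))) ∨
      padicValRat p E.j < 0) :
    ∃ (N : ℕ) (ε : ℂ) (g : ℂ → ℂ), 0 < N ∧ (ε = 1 ∨ ε = -1) ∧ Differentiable ℂ g ∧
      (∀ s : ℂ, 3 / 2 < s.re → g s = E.LSeries s) ∧
      (∀ s : ℂ, 0 < s.re → s.re < 2 →
        (N : ℂ) ^ ((2 - s) / 2) * (2 * (π : ℂ)) ^ (-(2 - s)) * Complex.Gamma (2 - s) * g (2 - s) =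
          ε * ((N : ℂ) ^ (s / 2) * (2 * (π : ℂ)) ^ (-s) * Complex.Gamma s * g s)) ∧
      (ε = -1 → g 1 = 0) ∧ ∃ r : ℕ, analyticOrderAt g 1 = r ∧ ε = (-1) ^ r := by
  obtain ⟨N, ε, Λ, hN, hε, hΛ, hs, hfe⟩ := functionalEquation_of_j E h
  obtain ⟨g, hg, hgs, hgfe, hg1, hord⟩ := FA.Parity.exists_parity E hN.ne' hΛ hs hfe
  exact ⟨N, ε, g, hN, hε, hg, hgs, hgfe, hg1, hord⟩

end FA.Summary

end
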