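import Fermat.Agent.Root.SummaryCentralValueLevels
import Fermat.Agent.Root.SummaryRankZero
import Fermat.Agent.Root.SummaryTwistParity
import Fermat.Agent.Torsion.RealisedBasic

/-!
# Infinitely many points and a central zero

For `37a1 : y² + y = x³ - x` and `43a1 : y² + y = x³ + x²` the point `(0, 0)` has infinite order and
the entire continuation of the L-series vanishes at `1` to odd order.
-/

set_option autoImplicit false
set_option linter.style.haveILetI false

noncomputable section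

open WeierstrassCurve
open FA.Theta (badProd)
open FA.Frob (ratCurve)
open FA.Torsion (countMod natCard_torsion_dvd)
open scoped Real

namespace FA.Central

/-- An element outside a torsion subgroup of order one has infinite order. -/
theorem not_isOfFinAddOrder_of_card {G : Type*} [AddCommGroup G]
    (h : Nat.card (AddCommGroup.torsion G) ∣ 1) {P : G}
    (hP : P ≠ 0) : ¬ IsOfFinAddOrder P := fun hf => hP <| by
  haveI := (Nat.card_eq_one_iff_unique.mp (Nat.dvd_one.mp h)).1
  exact congrArg Subtype.val (Subsingleton.elim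
    (⟨P, (AddCommGroup.mem_torsion P).mpr hf⟩ : AddCommGroup.torsion G) 0)

/-- A semistable equation with prime conductor and non-split reduction there has a central zero of
odd order. -/
theorem exists_centralZero_of_model (W : WeierstrassCurve ℤ) (hs : W.IsSemistableModel) {q : ℕ}
    (hq : q.Prime) (hΔ : W.Δ.natAbs.primeFactors = {q}) (hns : ¬ FA.Root.SplitModel W q) :
    ∃ g : ℂ → ℂ, Differentiable ℂ g ∧
      (∀ s : ℂ, 3 / 2 < s.re → g s = (W.map (Int.castRingHom ℚ)).LSeries s) ∧
      g 1 = 0 ∧ ∃ r : ℕ, Odd r ∧ analyticOrderAt g 1 = r := by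
  have hΔ0 : W.Δ ≠ 0 := fun e => by rw [e] at hΔ; simp at hΔ
  have : (W.map (Int.castRingHom ℚ)).IsElliptic := FA.Frob.ratCurve_isElliptic_of_Δ hΔ0
  set E := W.map (Int.castRingHom ℚ)
  have hW : W.IsIntegralModelOf E := ⟨1, one_smul _ _⟩
  have hsq := FA.Root.squarefree_badProd W
  have : NeZero (badProd W) := ⟨hsq.ne_zero⟩
  obtain ⟨f, hf, hn⟩ := FA.Root.exists_newform_LFunction_of_model E hW hs
  have hbp : (badProd W).primeFactors = {q} := by
    rw [← hΔ]
    ext r
    simp only [Nat.mem_primeFactors, ne_eq, hsq.ne_zero, not_false_eq_true, and_true,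
      Int.natAbs_eq_zero, hΔ0, ← Int.natCast_dvd]
    exact and_congr_right fun hr => FA.Root.prime_dvd_badProd_iff hΔ0 hr
  have hbad : ∀ r : ℕ, r.Prime → r ∣ badProd W →
      ModularFormClass.qCoeff f r = (FA.Root.splitSign W r : ℂ) := fun r hr hrN => by
    have hd := (FA.Root.prime_dvd_badProd_iff hΔ0 hr).mp hrN
    have e := FA.Root.LFunction_apply_prime_pow_mult E W hW hr hd hΔ0 (hs r hr hd) 1
    rw [pow_one, pow_one] at e
    rw [hn r, e]
  have hfe : ∀ s : ℂ, FA.Root.FuncEq.completed f (2 - s) = -1 * FA.Root.FuncEq.completed f s :=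
    fun s => by
      rw [FA.Root.FuncEq.completed_two_sub hf hsq (fun r hr hrN => by
          rw [hbad r hr hrN, FA.Root.splitSign]; split_ifs <;> simp) s, hbp, Finset.prod_singleton,
        hbad q hq (Nat.dvd_of_mem_primeFactors (hbp ▸ Finset.mem_singleton_self q)),
        splitSign_eq_neg_one hns]
      push_cast
      ring
  obtain ⟨g, hg, hgs, -, hg1, r, hord, hε⟩ := FA.Parity.exists_parity E hsq.ne_zero
    (FA.Root.FuncEq.differentiable_completed f) (fun s hs2 => FA.HasseBound.eqOn_threeHalves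
      (G := fun s => ((badProd W : ℕ) : ℂ) ^ (s / 2) * (2 * (π : ℂ)) ^ (-s) * Complex.Gamma s *
        E.LSeries s)
      (fun z _ => (FA.Root.FuncEq.differentiable_completed f).analyticAt z)
      ((FA.HasseBound.analyticOnNhd_completionFactor hsq.ne_zero).mul
        (FA.HasseBound.analyticOnNhd_LSeries E)) (fun z hz => by
          rw [FA.Root.FuncEq.completed_eq_LSeries f hz, WeierstrassCurve.LSeries]
          congr 1
          exact congrArg (LSeries · z) (funext hn)) hs2) hfe
  refine ⟨g, hg, hgs, hg1 rfl, r, ?_, hord⟩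
  rcases Nat.even_or_odd r with h | h
  · rw [h.neg_one_pow] at hε; norm_num at hε
  · exact h

local instance fact11 : Fact (Nat.Prime 11) := ⟨by norm_num⟩

local instance fact13 : Fact (Nat.Prime 13) := ⟨by norm_num⟩

/-- `37a1`. -/
def model37 : WeierstrassCurve ℤ := ⟨0, 0, 1, -1, 0⟩

/-- `43a1`. -/
def model43 : WeierstrassCurve ℤ := ⟨0, 1, 1, 0, 0⟩

theorem ratCurve_model37 : ratCurve model37 = ⟨0, 0, 1, -1, 0⟩ := by ext <;> simp [model37]

theorem ratCurve_model43 : ratCurve model43 = ⟨0, 1, 1, 0, 0⟩ := by ext <;> simp [model43]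

theorem gcd_count_37 : (countMod model37 11).gcd (countMod model37 13) ∣ 1 := by decide +kernel

theorem gcd_count_43 : (countMod model43 11).gcd (countMod model43 13) ∣ 1 := by decide +kernel

theorem torsion_trivial_37 :
    Finite (AddCommGroup.torsion (⟨0, 0, 1, -1, 0⟩ : WeierstrassCurve ℚ).toAffine.Point) ∧
      Nat.card (AddCommGroup.torsion (⟨0, 0, 1, -1, 0⟩ : WeierstrassCurve ℚ).toAffine.Point) ∣
        1 := by
  haveI := FA.Frob.ratCurve_isElliptic_of_Δ (W := model37) (by decide)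
  obtain ⟨h, hd⟩ := natCard_torsion_dvd 11 model37 (by norm_num) (by decide)
  obtain ⟨-, hd'⟩ := natCard_torsion_dvd 13 model37 (by norm_num) (by decide)
  rw [← ratCurve_model37]
  exact ⟨h, (Nat.dvd_gcd hd hd').trans gcd_count_37⟩

theorem torsion_trivial_43 :
    Finite (AddCommGroup.torsion (⟨0, 1, 1, 0, 0⟩ : WeierstrassCurve ℚ).toAffine.Point) ∧
      Nat.card (AddCommGroup.torsion (⟨0, 1, 1, 0, 0⟩ : WeierstrassCurve ℚ).toAffine.Point) ∣
        1 := by
  haveI := FA.Frob.ratCurve_isElliptic_of_Δ (W := model43) (by decide)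
  obtain ⟨h, hd⟩ := natCard_torsion_dvd 11 model43 (by norm_num) (by decide)
  obtain ⟨-, hd'⟩ := natCard_torsion_dvd 13 model43 (by norm_num) (by decide)
  rw [← ratCurve_model43]
  exact ⟨h, (Nat.dvd_gcd hd hd').trans gcd_count_43⟩

end FA.Central

namespace FA.Summary

open FA.Central

/-- **`37a1`**: `y² + y = x³ - x` is semistable with good reduction outside `37`, `(0, 0)` has
infinite order, and the entire continuation of the L-series vanishes at `1` to odd order. -/
theorem rankOne_37a1 :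
    (∀ p : ℕ, ∀ [Fact p.Prime], ∃ C : VariableChange ℚ_[p],
      HasGoodReduction ℤ_[p]
          (C • (⟨0, 0, 1, -1, 0⟩ : WeierstrassCurve ℚ).map (algebraMap ℚ ℚ_[p])) ∨
        HasMultiplicativeReduction ℤ_[p]
          (C • (⟨0, 0, 1, -1, 0⟩ : WeierstrassCurve ℚ).map (algebraMap ℚ ℚ_[p]))) ∧
    (∀ h : (⟨0, 0, 1, -1, 0⟩ : WeierstrassCurve ℚ).toAffine.Nonsingular 0 0,
      ¬ IsOfFinAddOrder (Affine.Point.some 0 0 h)) ∧
    Infinite (⟨0, 0, 1, -1, 0⟩ : WeierstrassCurve ℚ).toAffine.Point ∧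
    ∃ g : ℂ → ℂ, Differentiable ℂ g ∧
      (∀ s : ℂ, 3 / 2 < s.re → g s = (⟨0, 0, 1, -1, 0⟩ : WeierstrassCurve ℚ).LSeries s) ∧
      g 1 = 0 ∧ ∃ r : ℕ, Odd r ∧ analyticOrderAt g 1 = r := by
  obtain ⟨-, hcard⟩ := torsion_trivial_37
  have hns : (⟨0, 0, 1, -1, 0⟩ : WeierstrassCurve ℚ).toAffine.Nonsingular 0 0 := by
    rw [Affine.nonsingular_iff, Affine.equation_iff]; norm_num
  have hord : ∀ h : (⟨0, 0, 1, -1, 0⟩ : WeierstrassCurve ℚ).toAffine.Nonsingular 0 0,
      ¬ IsOfFinAddOrder (Affine.Point.some 0 0 h) := fun h =>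
    not_isOfFinAddOrder_of_card hcard (Affine.Point.some_ne_zero h)
  have hss := @reduction_of_coprime_c₄ model37 (FA.Frob.ratCurve_isElliptic_of_Δ (by decide)) (by decide)
  have hzero := exists_centralZero_of_model model37
    (fun r hr hd hc => hr.ne_one (Nat.dvd_one.mp (by
      have h3 := Int.dvd_coe_gcd hd hc
      rw [show Int.gcd model37.Δ model37.c₄ = 1 by decide] at h3
      exact_mod_cast h3)))
    (q := 37) (by norm_num) (by
      rw [show model37.Δ.natAbs = 37 from by decide]; exact (show Nat.Prime 37 by norm_num).primeFactors)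
    (by unfold FA.Root.SplitModel; decide +kernel)
  simp only [show model37.map (Int.castRingHom ℚ) = _ from ratCurve_model37] at hss hzero
  exact ⟨fun p _ => hss p, hord,
    Infinite.of_injective _ (injective_nsmul_iff_not_isOfFinAddOrder.mpr (hord hns)), hzero⟩

/-- **`43a1`**: the same for `y² + y = x³ + x²`. -/
theorem rankOne_43a1 :
    (∀ p : ℕ, ∀ [Fact p.Prime], ∃ C : VariableChange ℚ_[p],
      HasGoodReduction ℤ_[p]
          (C • (⟨0, 1, 1, 0, 0⟩ : WeierstrassCurve ℚ).map (algebraMap ℚ ℚ_[p])) ∨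
        HasMultiplicativeReduction ℤ_[p]
          (C • (⟨0, 1, 1, 0, 0⟩ : WeierstrassCurve ℚ).map (algebraMap ℚ ℚ_[p]))) ∧
    (∀ h : (⟨0, 1, 1, 0, 0⟩ : WeierstrassCurve ℚ).toAffine.Nonsingular 0 0,
      ¬ IsOfFinAddOrder (Affine.Point.some 0 0 h)) ∧
    Infinite (⟨0, 1, 1, 0, 0⟩ : WeierstrassCurve ℚ).toAffine.Point ∧
    ∃ g : ℂ → ℂ, Differentiable ℂ g ∧
      (∀ s : ℂ, 3 / 2 < s.re → g s = (⟨0, 1, 1, 0, 0⟩ : WeierstrassCurve ℚ).LSeries s) ∧
      g 1 = 0 ∧ ∃ r : ℕ, Odd r ∧ analyticOrderAt g 1 = r := by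
  obtain ⟨-, hcard⟩ := torsion_trivial_43
  have hns : (⟨0, 1, 1, 0, 0⟩ : WeierstrassCurve ℚ).toAffine.Nonsingular 0 0 := by
    rw [Affine.nonsingular_iff, Affine.equation_iff]; norm_num
  have hord : ∀ h : (⟨0, 1, 1, 0, 0⟩ : WeierstrassCurve ℚ).toAffine.Nonsingular 0 0,
      ¬ IsOfFinAddOrder (Affine.Point.some 0 0 h) := fun h =>
    not_isOfFinAddOrder_of_card hcard (Affine.Point.some_ne_zero h)
  have hss := @reduction_of_coprime_c₄ model43 (FA.Frob.ratCurve_isElliptic_of_Δ (by decide)) (by decide)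
  have hzero := exists_centralZero_of_model model43
    (fun r hr hd hc => hr.ne_one (Nat.dvd_one.mp (by
      have h3 := Int.dvd_coe_gcd hd hc
      rw [show Int.gcd model43.Δ model43.c₄ = 1 by decide] at h3
      exact_mod_cast h3)))
    (q := 43) (by norm_num) (by
      rw [show model43.Δ.natAbs = 43 from by decide]; exact (show Nat.Prime 43 by norm_num).primeFactors)
    (by unfold FA.Root.SplitModel; decide +kernel)
  simp only [show model43.map (Int.castRingHom ℚ) = _ from ratCurve_model43] at hss hzero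
  exact ⟨fun p _ => hss p, hord,
    Infinite.of_injective _ (injective_nsmul_iff_not_isOfFinAddOrder.mpr (hord hns)), hzero⟩

end FA.Summary

end
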