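import Fermat.Agent.Root.SummaryGaloisGL2
import Fermat.Agent.Root.SummaryRankOne
import Fermat.Agent.Ribet.SerreTrace

/-!
# `GL₂(𝔽_p)` as a Galois group over `ℚ` for every prime `p`

For `37a1 : y² + y = x³ - x` the characteristic polynomial of Frobenius at `2` or at `3` has no
root modulo `2`, `3`, `5` and `7`, so no subgroup of prime order is stable under Galois. Hence
`GL₂(𝔽_p)` is a Galois group over `ℚ` for every prime `p`, and `GL₂(ℤ/N)` for every `N` prime to
`6`.
-/

set_option autoImplicit false
set_option linter.style.haveILetI false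

noncomputable section

open WeierstrassCurve Matrix FA.EC FA.Frob FA.RT
open FA.Central (model37)
open scoped WeierstrassCurve.Affine

namespace FA.Root.Irred

/-- A Frobenius characteristic polynomial without roots modulo `p` makes the torsion
irreducible. -/
theorem modRepIsIrreducible_of_noRoot {W : WeierstrassCurve ℤ} [(ratCurve W).IsElliptic] {p l : ℕ}
    [Fact p.Prime] (hl : l.Prime) (hlp : l ≠ p) (hgood : W.IsGoodPrimeFor l) {a : ℤ}
    (ha : W.apOfModel l = a)
    (hnr : ∀ x : ZMod p, x * x - (a : ZMod p) * x + (l : ZMod p) ≠ 0) :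
    W.ModRepIsIrreducible p := by
  by_contra h
  obtain ⟨v, hv, hst⟩ := FA.Ribet.exists_eigenvector W h
  obtain ⟨A, hA⟩ := FA.Deform.exists_liesOverPrime hl
  obtain ⟨σ, hσ⟩ := FA.Deform.exists_isFrobeniusAt hl hA
  obtain ⟨htr, hdet⟩ := FA.Ribet.curveRep_frobenius (p := p) hl hlp hgood hA hσ
  obtain ⟨x, hx⟩ := hst σ
  refine hnr x ?_
  have hchar : (curveRep p W σ - x • 1).det = 0 := Matrix.exists_mulVec_eq_zero_iff.mp
    ⟨v, hv, by rw [sub_mulVec, smul_mulVec, one_mulVec, hx, sub_self]⟩
  rw [det_fin_two] at hdet hchar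
  rw [trace_fin_two, ha] at htr
  simp only [Matrix.sub_apply, Matrix.smul_apply, one_apply_eq, one_apply_ne zero_ne_one,
    one_apply_ne (one_ne_zero : (1 : Fin 2) ≠ 0), smul_eq_mul, mul_one, mul_zero, sub_zero]
    at hchar
  linear_combination hchar - hdet + x * htr

theorem model37_semistable : model37.IsSemistableModel := fun q hq hd => by
  rw [show model37.Δ = 37 by decide] at hd
  obtain rfl : q = 37 := (Nat.prime_dvd_prime_iff_eq hq (by norm_num)).mp (by exact_mod_cast hd)
  decide

theorem model37_apOfModel_two : model37.apOfModel 2 = -2 := by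
  haveI : Fact (Nat.Prime 2) := ⟨Nat.prime_two⟩
  rw [FA.Ribet.apOfModel_eq_nsPts (a₁ := 0) (a₂ := 0) (a₃ := 1) (a₄ := 1) (a₆ := 0)
    (by ext <;> rfl)]
  rfl

theorem model37_apOfModel_three : model37.apOfModel 3 = -3 := by
  rw [FA.Ribet.apOfModel_three_eq (a₁ := 0) (a₂ := 0) (a₃ := 1) (a₄ := -1) (a₆ := 0)
    (by ext <;> rfl)]
  rfl

/-- **The torsion of `37a1` is irreducible at every prime.** -/
theorem model37_irreducible [(ratCurve model37).IsElliptic] {p : ℕ} (hp : p.Prime) :
    model37.ModRepIsIrreducible p := by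
  haveI := Fact.mk hp
  have h2 : model37.IsGoodPrimeFor 2 := show ¬ (2 : ℤ) ∣ model37.Δ by decide
  have h3 : model37.IsGoodPrimeFor 3 := show ¬ (3 : ℤ) ∣ model37.Δ by decide
  rcases le_or_gt 11 p with h11 | h11
  · exact FA.Thirteen.modRepIsIrreducible_all (by decide) model37_semistable hp h11
  obtain rfl | rfl | rfl | rfl : p = 2 ∨ p = 3 ∨ p = 5 ∨ p = 7 := by
    interval_cases p <;> revert hp <;> decide
  · exact modRepIsIrreducible_of_noRoot Nat.prime_three (by norm_num) h3
      model37_apOfModel_three (by decide +revert)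
  · exact modRepIsIrreducible_of_noRoot Nat.prime_two (by norm_num) h2
      model37_apOfModel_two (by decide +revert)
  · exact modRepIsIrreducible_of_noRoot Nat.prime_three (by norm_num) h3
      model37_apOfModel_three (by decide +revert)
  · exact modRepIsIrreducible_of_noRoot Nat.prime_two (by norm_num) h2
      model37_apOfModel_two (by decide +revert)

theorem isElliptic_model37 : (ratCurve model37).IsElliptic :=
  FA.Frob.ratCurve_isElliptic_of_Δ (by decide)

end FA.Root.Irred

namespace FA.Summary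

open FA.Root.Irred

/-- **`GL₂(𝔽_p)` is a Galois group over `ℚ`** for every prime `p`. -/
theorem exists_galois_gl2_prime_all {p : ℕ} (hp : p.Prime) :
    ∃ K : IntermediateField ℚ (AlgebraicClosure ℚ), FiniteDimensional ℚ K ∧ IsGalois ℚ K ∧
      Nonempty ((K ≃ₐ[ℚ] K) ≃* GL (Fin 2) (ZMod p)) := by
  haveI := isElliptic_model37
  haveI := Fact.mk hp
  haveI : NeZero p := ⟨hp.ne_zero⟩
  exact FA.PadicImage.exists_galois_gl2 model37
    (exists_smul_eq_of_irreducible (by decide) model37_semistable (model37_irreducible hp))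

/-- **`GL₂(ℤ/N)` is a Galois group over `ℚ`** for every `N` prime to `6`. -/
theorem exists_galois_gl2_zmod_six {N : ℕ} (hN : N.Coprime 6) :
    ∃ K : IntermediateField ℚ (AlgebraicClosure ℚ), FiniteDimensional ℚ K ∧ IsGalois ℚ K ∧
      Nonempty ((K ≃ₐ[ℚ] K) ≃* GL (Fin 2) (ZMod N)) := by
  haveI := isElliptic_model37
  haveI : NeZero N := ⟨fun h => by rw [h] at hN; norm_num at hN⟩
  refine FA.PadicImage.exists_galois_gl2 model37 (FA.PadicImage.exists_smul_eq_adelic (by decide)
    model37_semistable (NeZero.ne N) fun l hl => ?_)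
  obtain ⟨hlp, hlN, -⟩ := Nat.mem_primeFactors.mp hl
  refine ⟨?_, model37_irreducible hlp⟩
  by_contra hlt
  push Not at hlt
  have h1 : l.Coprime 6 := hN.coprime_dvd_left hlN
  interval_cases l <;> revert hlp h1 <;> decide

end FA.Summary

end
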