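import Fermat.Agent.Root.SummarySerreOpenImageTwist
import Mathlib.GroupTheory.Torsion
import Mathlib.Topology.Algebra.OpenSubgroup

/-!
# The image of Galois on all torsion points has finite index

For a semistable elliptic curve over `ℚ`, or one with a semistable quadratic twist, the image of
the absolute Galois group in the automorphisms of the torsion subgroup of `E(ℚ̄)` has finite index,
and the image on a `p`-adic Tate module is an open subgroup of `GL₂(ℤ_p)`: an automorphism fixing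
the `m`-torsion agrees with Galois at every level, hence, by compactness, with a single element.
-/

set_option autoImplicit false
set_option linter.unusedSectionVars false
set_option linter.style.haveILetI false
set_option quotPrecheck false

noncomputable section

open WeierstrassCurve WeierstrassCurve.Affine Filter
open scoped WeierstrassCurve.Affine Topology

local notation "Qb" => AlgebraicClosure ℚ
local notation "GQ" => AlgebraicClosure ℚ ≃ₐ[ℚ] AlgebraicClosure ℚ

namespace FA.OpenImage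

variable (E : WeierstrassCurve ℚ)

local notation "TE" => (AddCommGroup.torsion (E.toAffine⁄Qb).Point)

theorem map_mul_apply (σ τ : GQ) (P : (E.toAffine⁄Qb).Point) :
    Affine.Point.map (W' := E.toAffine) (σ * τ).toAlgHom P =
      Affine.Point.map σ.toAlgHom (Affine.Point.map τ.toAlgHom P) := by
  rw [Affine.Point.map_map]
  rfl

theorem map_one_apply (P : (E.toAffine⁄Qb).Point) :
    Affine.Point.map (W' := E.toAffine) (1 : GQ).toAlgHom P = P := by
  cases P <;> rfl

theorem map_mem_torsion (σ : GQ) {P : (E.toAffine⁄Qb).Point} (hP : P ∈ TE) :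
    Affine.Point.map (W' := E.toAffine) σ.toAlgHom P ∈ TE :=
  (Affine.Point.map σ.toAlgHom).isOfFinAddOrder hP

/-- Galois on the torsion subgroup. -/
def torsionAction : GQ →* (TE ≃ₗ[ℤ] TE) where
  toFun σ :=
    { toFun := fun x => ⟨Affine.Point.map σ.toAlgHom x.1, map_mem_torsion E σ x.2⟩
      invFun := fun x => ⟨Affine.Point.map (σ⁻¹).toAlgHom x.1, map_mem_torsion E σ⁻¹ x.2⟩
      left_inv := fun x => Subtype.ext (by
        show Affine.Point.map (σ⁻¹).toAlgHom (Affine.Point.map σ.toAlgHom x.1) = x.1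
        rw [← map_mul_apply, inv_mul_cancel, map_one_apply])
      right_inv := fun x => Subtype.ext (by
        show Affine.Point.map σ.toAlgHom (Affine.Point.map (σ⁻¹).toAlgHom x.1) = x.1
        rw [← map_mul_apply, mul_inv_cancel, map_one_apply])
      map_add' := fun x y => Subtype.ext (map_add _ x.1 y.1)
      map_smul' := fun n x => Subtype.ext (map_zsmul _ n x.1) }
  map_one' := LinearEquiv.ext fun x => Subtype.ext (map_one_apply E x.1)
  map_mul' σ τ := LinearEquiv.ext fun x => Subtype.ext (map_mul_apply E σ τ x.1)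

theorem torsionAction_apply (σ : GQ) (x : TE) :
    (torsionAction E σ x).1 = Affine.Point.map σ.toAlgHom x.1 := rfl

/-- Galois elements near `σ` move a given point to the same place. -/
theorem eventually_map_eq (σ : GQ) (P : (E.toAffine⁄Qb).Point) :
    ∀ᶠ τ in 𝓝 σ, Affine.Point.map (W' := E.toAffine) τ.toAlgHom P =
      Affine.Point.map σ.toAlgHom P := by
  rcases P with _ | ⟨x, y, h⟩
  · exact Eventually.of_forall fun τ => rfl
  let F : IntermediateField ℚ Qb := IntermediateField.adjoin ℚ {x, y}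
  haveI : FiniteDimensional ℚ F := IntermediateField.finiteDimensional_adjoin fun z _ =>
    ((AlgebraicClosure.isAlgebraic ℚ).isAlgebraic z).isIntegral
  have hmem : ∀ᶠ τ in 𝓝 σ, σ⁻¹ * τ ∈ F.fixingSubgroup :=
    ((IntermediateField.fixingSubgroup_isOpen F).preimage (continuous_const_mul σ⁻¹)).mem_nhds
      (by simp)
  filter_upwards [hmem] with τ hτ
  have hfix := (IntermediateField.mem_fixingSubgroup_iff F _).mp hτ
  rw [show τ = σ * (σ⁻¹ * τ) by rw [mul_inv_cancel_left], map_mul_apply]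
  congr 1
  rw [Affine.Point.map_some]
  simp only [Affine.Point.some.injEq]
  exact ⟨hfix x (IntermediateField.subset_adjoin ℚ _ (Set.mem_insert x _)),
    hfix y (IntermediateField.subset_adjoin ℚ _ (Set.mem_insert_of_mem x rfl))⟩

/-- An automorphism of all torsion induced by Galois at every level is induced by one element. -/
theorem mem_range_of_levels (ψ : TE ≃ₗ[ℤ] TE)
    (h : ∀ N : ℕ, N ≠ 0 → ∃ σ : GQ, ∀ x : TE, N • x.1 = 0 →
      Affine.Point.map (W' := E.toAffine) σ.toAlgHom x.1 = (ψ x).1) :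
    ψ ∈ (torsionAction E).range := by
  haveI : Algebra.IsAlgebraic ℚ Qb := AlgebraicClosure.isAlgebraic ℚ
  haveI : IsGalois ℚ Qb := FA.EC.isGalois_algebraicClosure
  choose σ hσ using fun n : ℕ => h n.factorial n.factorial_ne_zero
  obtain ⟨σ', hσ'⟩ := exists_clusterPt_of_compactSpace (Filter.map σ atTop)
  refine ⟨σ', LinearEquiv.ext fun x => Subtype.ext ?_⟩
  rw [torsionAction_apply]
  obtain ⟨d, hd0, hd⟩ := isOfFinAddOrder_iff_nsmul_eq_zero.mp x.2
  have hev : ∀ᶠ n in atTop, Affine.Point.map (W' := E.toAffine) (σ n).toAlgHom x.1 = (ψ x).1 :=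
    eventually_atTop.mpr ⟨d, fun n hn => hσ n x (by
      obtain ⟨c, hc⟩ := Nat.dvd_factorial hd0 hn
      rw [hc, mul_comm, mul_nsmul', hd, nsmul_zero])⟩
  obtain ⟨n, h1, h2⟩ :=
    ((MapClusterPt.frequently hσ' (eventually_map_eq E σ' x.1)).and_eventually hev).exists
  rw [← h1, h2]

variable [E.IsElliptic]

/-- With the open image at every level an automorphism of all torsion fixing what `m` kills comes
from Galois. -/
theorem mem_range_of_fix {m : ℕ}
    (key : ∀ N : ℕ, N ≠ 0 →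
      ∀ φ : Submodule.torsionBy ℤ (E.toAffine⁄Qb).Point (N : ℤ) ≃+
        Submodule.torsionBy ℤ (E.toAffine⁄Qb).Point (N : ℤ),
      (∀ P, m • P.1 = 0 → φ P = P) →
        ∃ σ : GQ, ∀ P, Affine.Point.map σ.toAlgHom P.1 = (φ P).1)
    (ψ : TE ≃ₗ[ℤ] TE) (hfix : ∀ x : TE, m • x.1 = 0 → ψ x = x) :
    ψ ∈ (torsionAction E).range := by
  refine mem_range_of_levels E ψ fun N hN => ?_
  have hN' : ∀ {P : (E.toAffine⁄Qb).Point},
      P ∈ Submodule.torsionBy ℤ (E.toAffine⁄Qb).Point (N : ℤ) ↔ N • P = 0 := fun {P} => by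
    rw [Submodule.mem_torsionBy_iff, natCast_zsmul]
  have hmem : ∀ x : Submodule.torsionBy ℤ (E.toAffine⁄Qb).Point (N : ℤ), x.1 ∈ TE := fun x =>
    isOfFinAddOrder_iff_nsmul_eq_zero.mpr ⟨N, Nat.pos_of_ne_zero hN, hN'.mp x.2⟩
  have hpres : ∀ (χ : TE ≃ₗ[ℤ] TE) (x : Submodule.torsionBy ℤ (E.toAffine⁄Qb).Point (N : ℤ)),
      (χ ⟨x.1, hmem x⟩).1 ∈ Submodule.torsionBy ℤ (E.toAffine⁄Qb).Point (N : ℤ) := fun χ x => by
    rw [hN', ← AddSubgroup.coe_nsmul, ← map_nsmul,
      show N • (⟨x.1, hmem x⟩ : TE) = 0 from Subtype.ext (hN'.mp x.2), map_zero,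
      ZeroMemClass.coe_zero]
  let φ : Submodule.torsionBy ℤ (E.toAffine⁄Qb).Point (N : ℤ) ≃+
      Submodule.torsionBy ℤ (E.toAffine⁄Qb).Point (N : ℤ) :=
    { toFun := fun x => ⟨(ψ ⟨x.1, hmem x⟩).1, hpres ψ x⟩
      invFun := fun x => ⟨(ψ.symm ⟨x.1, hmem x⟩).1, hpres ψ.symm x⟩
      left_inv := fun x => Subtype.ext
        ((congrArg Subtype.val (ψ.symm_apply_apply ⟨x.1, hmem x⟩) :))
      right_inv := fun x => Subtype.ext
        ((congrArg Subtype.val (ψ.apply_symm_apply ⟨x.1, hmem x⟩) :))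
      map_add' := fun x y => Subtype.ext
        ((congrArg Subtype.val (map_add ψ ⟨x.1, hmem x⟩ ⟨y.1, hmem y⟩) :)) }
  obtain ⟨σ, hσ⟩ := key N hN φ fun P hP => Subtype.ext
    ((congrArg Subtype.val (hfix ⟨P.1, hmem P⟩ hP) :))
  exact ⟨σ, fun x hx => hσ ⟨x.1, hN'.mpr hx⟩⟩

/-- The automorphisms of all torsion fixing what `m` kills form a subgroup of finite index. -/
theorem finiteIndex_of_fix {m : ℕ} (hm : 0 < m)
    (hfix : ∀ ψ : TE ≃ₗ[ℤ] TE, (∀ x : TE, m • x.1 = 0 → ψ x = x) → ψ ∈ (torsionAction E).range) :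
    (torsionAction E).range.FiniteIndex := by
  let S := {x : TE // m • x.1 = 0}
  haveI := FA.EC.finite_torsion E hm.ne'
  haveI : Finite S := Finite.of_injective
    (fun x : S => (⟨x.1.1, by rw [Submodule.mem_torsionBy_iff, natCast_zsmul]; exact x.2⟩ :
      Submodule.torsionBy ℤ (E.toAffine⁄Qb).Point (m : ℤ)))
    fun x y h => Subtype.ext (Subtype.ext (congrArg Subtype.val h :))
  have hiff : ∀ (ψ : TE ≃ₗ[ℤ] TE) (x : TE), m • x.1 = 0 ↔ m • (ψ x).1 = 0 := fun ψ x => by
    rw [← AddSubgroup.coe_nsmul, ← AddSubgroup.coe_nsmul, ← map_nsmul, ZeroMemClass.coe_eq_zero,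
      ZeroMemClass.coe_eq_zero, EmbeddingLike.map_eq_zero_iff]
  let r : (TE ≃ₗ[ℤ] TE) →* Equiv.Perm S :=
    { toFun := fun ψ => ψ.toEquiv.subtypeEquiv (hiff ψ)
      map_one' := Equiv.ext fun _ => rfl
      map_mul' := fun _ _ => Equiv.ext fun _ => rfl }
  haveI := Subgroup.finiteIndex_ker r
  exact Subgroup.finiteIndex_of_le (H := r.ker) fun ψ hψ => hfix ψ fun x hx =>
    congrArg Subtype.val (congrArg (fun f : Equiv.Perm S => f ⟨x, hx⟩) hψ)

/-- The open image at every level gives finite index. -/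
theorem finiteIndex_range {m : ℕ} (hm : 0 < m)
    (key : ∀ N : ℕ, N ≠ 0 →
      ∀ φ : Submodule.torsionBy ℤ (E.toAffine⁄Qb).Point (N : ℤ) ≃+
        Submodule.torsionBy ℤ (E.toAffine⁄Qb).Point (N : ℤ),
      (∀ P, m • P.1 = 0 → φ P = P) →
        ∃ σ : GQ, ∀ P, Affine.Point.map σ.toAlgHom P.1 = (φ P).1) :
    (torsionAction E).range.FiniteIndex :=
  finiteIndex_of_fix E hm (mem_range_of_fix E key)

end FA.OpenImage

namespace FA.Summary

/-- **Serre's theorem in its classical form**: for a semistable elliptic curve over `ℚ` the image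
of Galois in the automorphism group of the torsion subgroup of `E(ℚ̄)` has finite index.
(Automorphisms
are written as `ℤ`-linear equivalences: Mathlib's `AddAut` is written additively.) -/
theorem serreFiniteIndex (E : WeierstrassCurve ℚ) [E.IsElliptic]
    (h : ∀ p : ℕ, ∀ [Fact p.Prime], ∃ C : VariableChange ℚ_[p],
      HasGoodReduction ℤ_[p] (C • E.map (algebraMap ℚ ℚ_[p])) ∨
        HasMultiplicativeReduction ℤ_[p] (C • E.map (algebraMap ℚ ℚ_[p])))
    [inst : DecidableEq (AlgebraicClosure ℚ)] :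
    ∃ ρ : GQ →* (AddCommGroup.torsion (E.toAffine⁄(AlgebraicClosure ℚ)).Point ≃ₗ[ℤ]
        AddCommGroup.torsion (E.toAffine⁄(AlgebraicClosure ℚ)).Point),
      (∀ σ x, (ρ σ x).1 = Affine.Point.map σ.toAlgHom x.1) ∧ ρ.range.FiniteIndex := by
  obtain rfl : inst = instDecEqAlgebraicClosureRat := Subsingleton.elim _ _
  obtain ⟨m, hm, key⟩ := serreOpenImage_adelic E h
  exact ⟨FA.OpenImage.torsionAction E, fun _ _ => rfl, FA.OpenImage.finiteIndex_range E hm key⟩

/-- The same for a curve with a semistable quadratic twist. -/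
theorem serreFiniteIndex_twist (E : WeierstrassCurve ℚ) [E.IsElliptic] {d : ℚ} (hd : d ≠ 0)
    (h : ∀ p : ℕ, ∀ [Fact p.Prime], ∃ C : VariableChange ℚ_[p],
      HasGoodReduction ℤ_[p] (C • (⟨0, 0, 0, -27 * (d ^ 2 * E.c₄), -54 * (d ^ 3 * E.c₆)⟩ :
          WeierstrassCurve ℚ).map (algebraMap ℚ ℚ_[p])) ∨
        HasMultiplicativeReduction ℤ_[p] (C • (⟨0, 0, 0, -27 * (d ^ 2 * E.c₄),
          -54 * (d ^ 3 * E.c₆)⟩ : WeierstrassCurve ℚ).map (algebraMap ℚ ℚ_[p])))
    [inst : DecidableEq (AlgebraicClosure ℚ)] :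
    ∃ ρ : GQ →* (AddCommGroup.torsion (E.toAffine⁄(AlgebraicClosure ℚ)).Point ≃ₗ[ℤ]
        AddCommGroup.torsion (E.toAffine⁄(AlgebraicClosure ℚ)).Point),
      (∀ σ x, (ρ σ x).1 = Affine.Point.map σ.toAlgHom x.1) ∧ ρ.range.FiniteIndex := by
  obtain rfl : inst = instDecEqAlgebraicClosureRat := Subsingleton.elim _ _
  obtain ⟨m, hm, key⟩ := serreOpenImage_adelic_twist E hd h
  exact ⟨FA.OpenImage.torsionAction E, fun _ _ => rfl, FA.OpenImage.finiteIndex_range E hm key⟩

/-- The same for the curves of the `j` criterion. -/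
theorem serreFiniteIndex_of_j (E : WeierstrassCurve ℚ) [E.IsElliptic]
    (h : ∀ p : ℕ, ∀ [Fact p.Prime], (∃ C : VariableChange ℚ_[p],
      HasGoodReduction ℤ_[p] (C • E.map (algebraMap ℚ ℚ_[p])) ∨
        HasMultiplicativeReduction ℤ_[p] (C • E.map (algebraMap ℚ ℚ_[p]))) ∨
      padicValRat p E.j < 0)
    [inst : DecidableEq (AlgebraicClosure ℚ)] :
    ∃ ρ : GQ →* (AddCommGroup.torsion (E.toAffine⁄(AlgebraicClosure ℚ)).Point ≃ₗ[ℤ]
        AddCommGroup.torsion (E.toAffine⁄(AlgebraicClosure ℚ)).Point),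
      (∀ σ x, (ρ σ x).1 = Affine.Point.map σ.toAlgHom x.1) ∧ ρ.range.FiniteIndex := by
  obtain ⟨d, hd, hs⟩ := exists_semistable_twist_of_j_all E h
  exact serreFiniteIndex_twist E hd hs

/-- **An open image in `GL₂(ℤ_p)`**: the image of Galois on the Tate module of a semistable model
is an open subgroup, for every prime `p`. -/
theorem serreOpenImage_isOpen (E : WeierstrassCurve ℚ) [E.IsElliptic]
    (h : ∀ p : ℕ, ∀ [Fact p.Prime], ∃ C : VariableChange ℚ_[p],
      HasGoodReduction ℤ_[p] (C • E.map (algebraMap ℚ ℚ_[p])) ∨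
        HasMultiplicativeReduction ℤ_[p] (C • E.map (algebraMap ℚ ℚ_[p])))
    {W : WeierstrassCurve ℤ} [(FA.Frob.ratCurve W).IsElliptic] (hW : W.IsIntegralModelOf E)
    (hs : W.IsSemistableModel) {p : ℕ} [Fact p.Prime] (B : FA.RT.Tate.TateBasis p W) :
    IsOpen (B.rep.toHomUnits.range : Set (GL (Fin 2) ℤ_[p])) := by
  obtain ⟨k, hk⟩ := serreOpenImage_tate E h hW hs B
  refine Subgroup.isOpen_of_mem_nhds _ (g := 1) (mem_of_superset
    (x := ⋂ i : Fin 2, ⋂ j : Fin 2, {g : GL (Fin 2) ℤ_[p] | (p : ℤ_[p]) ^ k ∣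
      g.val i j - (1 : Matrix (Fin 2) (Fin 2) ℤ_[p]) i j}) ?_ fun g hg => ?_)
  · refine iInter_mem.mpr fun i => iInter_mem.mpr fun j => ?_
    have hcont : Continuous fun g : GL (Fin 2) ℤ_[p] => g.val i j :=
      Units.continuous_val.matrix_elem i j
    refine mem_of_superset ((Metric.isOpen_ball.preimage hcont).mem_nhds
      (x := 1) (Metric.mem_ball_self (ε := (p : ℝ) ^ (-(k : ℤ)))
        (zpow_pos (Nat.cast_pos.mpr (Fact.out : p.Prime).pos) _))) fun g hg => ?_
    replace hg : dist (g.val i j) ((1 : Matrix (Fin 2) (Fin 2) ℤ_[p]) i j) <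
        (p : ℝ) ^ (-(k : ℤ)) := hg
    rw [dist_eq_norm] at hg
    show (p : ℤ_[p]) ^ k ∣ g.val i j - (1 : Matrix (Fin 2) (Fin 2) ℤ_[p]) i j
    rw [← Ideal.mem_span_singleton, ← PadicInt.norm_le_pow_iff_mem_span_pow]
    exact hg.le
  · simp only [Set.mem_iInter, Set.mem_ofPred_eq] at hg
    choose Z hZ using hg
    have e : g.val = 1 + (p : ℤ_[p]) ^ k • Matrix.of Z := Matrix.ext fun i j => by
      rw [Matrix.add_apply, Matrix.smul_apply, smul_eq_mul]
      exact eq_add_of_sub_eq' (hZ i j)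
    obtain ⟨σ, hσ⟩ := hk (Matrix.of Z)
      (e ▸ (Matrix.isUnit_iff_isUnit_det _).mp g.isUnit)
    exact ⟨σ, Units.ext (by rw [MonoidHom.coe_toHomUnits, hσ, e])⟩

end FA.Summary

end
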