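import Fermat.Agent.Bashmakov.Core
import Fermat.Agent.Root.SummarySerreFiniteIndex
import Fermat.Agent.Root.SummarySurjectiveTwist
import Fermat.Agent.Root.SummarySurjectiveLarge
import Fermat.Agent.Root.SummaryGaloisGL2All
import Fermat.Agent.Thirteen.Irreducible
import Fermat.Agent.Torsion.Basic
import Fermat.Agent.MordellWeil.Summary
import Fermat.Agent.MordellWeil.Structure
import Fermat.Agent.Curve37.Main

/-!
# Bashmakov's theorem: Kummer theory on elliptic curves

If Galois induces every automorphism of `E[pⁿ]`, `p` odd, and `P ∈ E(ℚ)` is not `p` times a rational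
point, then for `pⁿ Q = P` every pair of an automorphism of `E[pⁿ]` and a point `t` of it is given
by an element of Galois sending `Q` to `Q + t`: the Galois group of `ℚ(E[pⁿ], p⁻ⁿP)` is the whole
semidirect product of `GL₂(ℤ/pⁿ)` and `E[pⁿ]`. So this holds for all large `p` when `j` has a pole
and `P` has infinite order, and at every odd `p` for a generator of `37a1`.
-/

set_option autoImplicit false
set_option linter.style.haveILetI false

noncomputable section

open WeierstrassCurve WeierstrassCurve.Affine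
open scoped WeierstrassCurve.Affine

local notation "Qb" => AlgebraicClosure ℚ
local notation "GQ" => AlgebraicClosure ℚ ≃ₐ[ℚ] AlgebraicClosure ℚ

namespace FA.Bashmakov

/-- Galois acting on the points over the algebraic closure. -/
def pointAct (E : WeierstrassCurve ℚ) : GQ →* AddMonoid.End (E.toAffine⁄Qb).Point where
  toFun σ := Affine.Point.map (W' := E.toAffine) σ.toAlgHom
  map_one' := AddMonoidHom.ext fun P => FA.OpenImage.map_one_apply E P
  map_mul' σ τ := AddMonoidHom.ext fun P => FA.OpenImage.map_mul_apply E σ τ P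

/-- Coordinates on the torsion. -/
theorem exists_torsion_coord (E : WeierstrassCurve ℚ) [E.IsElliptic] (p n : ℕ) [Fact p.Prime] :
    Nonempty ((Fin 2 → ZMod (p ^ n)) ≃+
      Submodule.torsionBy ℤ (E.toAffine⁄Qb).Point ((p : ℤ) ^ n)) := by
  obtain ⟨W, hW⟩ := FA.Frob.exists_integralModel E
  haveI := FA.Frob.ratCurve_isElliptic_of_Δ (FA.Frob.Δ_ne_zero_of_model hW)
  haveI : NeZero (p ^ n) := ⟨pow_ne_zero _ (Fact.out : p.Prime).ne_zero⟩
  obtain ⟨b⟩ := FA.PadicImage.nonempty_torsion_equiv W (N := p ^ n)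
  obtain ⟨e, -⟩ := FA.Root.exists_equiv_of_model hW
  obtain ⟨eT, -⟩ := FA.Root.exists_torsionBy_congr e ((p ^ n : ℕ) : ℤ)
  rw [← Nat.cast_pow]
  exact ⟨b.toAddEquiv.trans eT⟩

/-- A point of infinite order of a finitely generated group is `p` times a point for finitely many
primes `p` only. -/
theorem exists_bound_not_mul {H : Type*} [AddCommGroup H] [AddGroup.FG H] {P : H}
    (hP : ¬ IsOfFinAddOrder P) : ∃ M : ℕ, ∀ p : ℕ, M < p → ∀ R : H, p • R ≠ P := by
  obtain ⟨r, ⟨e⟩⟩ := FA.MordellWeil.exists_equiv_torsion_prod H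
  obtain ⟨i, hi⟩ : ∃ i, (e P).2 i ≠ 0 := by
    by_contra h
    push Not at h
    refine hP ((e.injective.isOfFinAddOrder_iff (f := e.toAddMonoidHom)).mp ?_)
    obtain ⟨m, hm, hmx⟩ := isOfFinAddOrder_iff_nsmul_eq_zero.mp (e P).1.2
    refine isOfFinAddOrder_iff_nsmul_eq_zero.mpr ⟨m, hm, ?_⟩
    show m • e P = 0
    exact Prod.ext (Subtype.ext hmx) (funext fun j => by simp [h j])
  refine ⟨((e P).2 i).natAbs, fun p hp R hR => ?_⟩
  have h : (e P).2 i = (p : ℤ) * (e R).2 i := by
    rw [← hR, map_nsmul, Prod.smul_snd, Pi.smul_apply, nsmul_eq_mul]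
  have := Nat.le_of_dvd (Int.natAbs_pos.mpr hi) (Int.natCast_dvd.mp ⟨_, h⟩)
  omega

end FA.Bashmakov

namespace FA.Summary

open FA.Bashmakov

/-- **Bashmakov's theorem**: for an elliptic curve over `ℚ`, an odd prime `p` such that Galois
induces every automorphism of `E[pⁿ]`, a rational point `P` which is not `p` times a rational point
and `pⁿ Q = P`, every automorphism of `E[pⁿ]` and every `t ∈ E[pⁿ]` are given by one element of
Galois sending `Q` to `Q + t`. -/
theorem bashmakov (E : WeierstrassCurve ℚ) [E.IsElliptic]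
    [inst : DecidableEq (AlgebraicClosure ℚ)] {p : ℕ} (hp : p.Prime) (hp2 : p ≠ 2) (n : ℕ)
    (hfull : ∀ φ : Submodule.torsionBy ℤ (E.toAffine⁄(AlgebraicClosure ℚ)).Point ((p : ℤ) ^ n) ≃+
        Submodule.torsionBy ℤ (E.toAffine⁄(AlgebraicClosure ℚ)).Point ((p : ℤ) ^ n),
      ∃ σ : GQ, ∀ T, Affine.Point.map σ.toAlgHom T.1 = (φ T).1)
    (P : E.toAffine.Point) (hP : ∀ R : E.toAffine.Point, p • R ≠ P)
    {Q : (E.toAffine⁄(AlgebraicClosure ℚ)).Point}
    (hQ : p ^ n • Q = Affine.Point.map (W' := E.toAffine) (Algebra.ofId ℚ Qb) P)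
    (φ : Submodule.torsionBy ℤ (E.toAffine⁄(AlgebraicClosure ℚ)).Point ((p : ℤ) ^ n) ≃+
      Submodule.torsionBy ℤ (E.toAffine⁄(AlgebraicClosure ℚ)).Point ((p : ℤ) ^ n))
    (t : Submodule.torsionBy ℤ (E.toAffine⁄(AlgebraicClosure ℚ)).Point ((p : ℤ) ^ n)) :
    ∃ σ : GQ, (∀ T, Affine.Point.map σ.toAlgHom T.1 = (φ T).1) ∧
      Affine.Point.map σ.toAlgHom Q = Q + t.1 := by
  obtain rfl : inst = instDecEqAlgebraicClosureRat := Subsingleton.elim _ _
  haveI := Fact.mk hp
  obtain ⟨c⟩ := exists_torsion_coord E p n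
  refine exists_act_eq (pointAct E) hp hp2 c hfull (fun σ => ?_) (fun R hR he => ?_) φ t
  · rw [hQ]
    exact FA.Torsion.map_fixed E σ P
  · obtain ⟨R₀, hR₀⟩ := FA.Thirteen.exists_rat_point (E := E) R hR
    exact hP R₀ (Affine.Point.map_injective (W' := E.toAffine) (Algebra.ofId ℚ Qb)
      ((map_nsmul (Affine.Point.map (W' := E.toAffine) (Algebra.ofId ℚ Qb)) p R₀).trans
        ((congrArg (p • ·) hR₀).trans (he.trans hQ))))

/-- **Bashmakov's theorem for large primes**: if `j` has a pole and the rational point `P` has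
infinite order, then for all sufficiently large primes `p`, all `n` and all `Q` with `pⁿ Q = P`
Galois gives every pair of an automorphism of `E[pⁿ]` and a translation of `Q`. -/
theorem bashmakov_large (E : WeierstrassCurve ℚ) [E.IsElliptic]
    (h : ∃ q : ℕ, q.Prime ∧ padicValRat q E.j < 0) [inst : DecidableEq (AlgebraicClosure ℚ)]
    (P : E.toAffine.Point) (hP : ¬ IsOfFinAddOrder P) :
    ∃ M : ℕ, ∀ p : ℕ, p.Prime → M < p → ∀ (n : ℕ)
      (Q : (E.toAffine⁄(AlgebraicClosure ℚ)).Point),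
      p ^ n • Q = Affine.Point.map (W' := E.toAffine) (Algebra.ofId ℚ Qb) P →
      ∀ (φ : Submodule.torsionBy ℤ (E.toAffine⁄(AlgebraicClosure ℚ)).Point ((p : ℤ) ^ n) ≃+
          Submodule.torsionBy ℤ (E.toAffine⁄(AlgebraicClosure ℚ)).Point ((p : ℤ) ^ n))
        (t : Submodule.torsionBy ℤ (E.toAffine⁄(AlgebraicClosure ℚ)).Point ((p : ℤ) ^ n)),
      ∃ σ : GQ, (∀ T, Affine.Point.map σ.toAlgHom T.1 = (φ T).1) ∧
        Affine.Point.map σ.toAlgHom Q = Q + t.1 := by
  obtain rfl : inst = instDecEqAlgebraicClosureRat := Subsingleton.elim _ _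
  obtain ⟨M, hM⟩ := galoisSurjectiveTorsion_pow_large E h
  haveI := FA.MordellWeil.mordell E
  obtain ⟨M', hM'⟩ := exists_bound_not_mul hP
  exact ⟨M + M' + 2, fun p hp hlt n Q hQ φ t => bashmakov E hp (by omega) n
    (hM p hp (by omega) n) P (hM' p (by omega)) hQ φ t⟩

/-- **`37a1` and a generator**: at every odd prime and every `n` Galois gives every pair of an
automorphism of `E[pⁿ]` and a translation of a `pⁿ`th part of a generator of `E(ℚ)`. -/
theorem bashmakov_37a1 [inst : DecidableEq (AlgebraicClosure ℚ)] :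
    ∃ P : (⟨0, 0, 1, -1, 0⟩ : WeierstrassCurve ℚ).toAffine.Point,
      AddSubgroup.zmultiples P = ⊤ ∧ ∀ p : ℕ, p.Prime → p ≠ 2 → ∀ (n : ℕ)
      (Q : ((⟨0, 0, 1, -1, 0⟩ : WeierstrassCurve ℚ).toAffine⁄(AlgebraicClosure ℚ)).Point),
      p ^ n • Q = Affine.Point.map (W' := (⟨0, 0, 1, -1, 0⟩ : WeierstrassCurve ℚ).toAffine)
        (Algebra.ofId ℚ Qb) P →
      ∀ (φ : Submodule.torsionBy ℤ ((⟨0, 0, 1, -1, 0⟩ :
            WeierstrassCurve ℚ).toAffine⁄(AlgebraicClosure ℚ)).Point ((p : ℤ) ^ n) ≃+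
          Submodule.torsionBy ℤ ((⟨0, 0, 1, -1, 0⟩ :
            WeierstrassCurve ℚ).toAffine⁄(AlgebraicClosure ℚ)).Point ((p : ℤ) ^ n))
        (t : Submodule.torsionBy ℤ ((⟨0, 0, 1, -1, 0⟩ :
            WeierstrassCurve ℚ).toAffine⁄(AlgebraicClosure ℚ)).Point ((p : ℤ) ^ n)),
      ∃ σ : GQ, (∀ T, Affine.Point.map σ.toAlgHom T.1 = (φ T).1) ∧
        Affine.Point.map σ.toAlgHom Q = Q + t.1 := by
  obtain rfl : inst = instDecEqAlgebraicClosureRat := Subsingleton.elim _ _
  haveI := FA.Root.Irred.isElliptic_model37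
  obtain ⟨e⟩ := point_group_curve37
  refine ⟨e.symm 1, eq_top_iff.mpr fun R _ => AddSubgroup.mem_zmultiples_iff.mpr
    ⟨e R, e.injective (by rw [map_zsmul, AddEquiv.apply_symm_apply, smul_eq_mul, mul_one])⟩, ?_⟩
  intro p hp hp2 n
  haveI := Fact.mk hp
  have hfull := FA.PadicImage.exists_smul_eq_pow_of_reach
    (FA.Root.Irred.model37_reachAll (p := p)) n
  have hndiv : ∀ R, p • R ≠ e.symm (1 : ℤ) := fun R hR => by
    have := congrArg e hR
    rw [map_nsmul, AddEquiv.apply_symm_apply, nsmul_eq_mul] at this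
    exact hp.not_dvd_one (Int.natCast_dvd_natCast.mp ⟨e R, this.symm⟩)
  revert hndiv hfull
  generalize e.symm (1 : ℤ) = P
  revert P
  have hell : (⟨0, 0, 1, -1, 0⟩ : WeierstrassCurve ℚ).IsElliptic := by
    rw [← FA.Central.ratCurve_model37]; infer_instance
  rw [← FA.Central.ratCurve_model37] at hell ⊢
  intro P hfull hndiv Q hQ φ t
  exact bashmakov _ hp hp2 n hfull P hndiv hQ φ t

end FA.Summary

end
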