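import Fermat.Agent.Root.SummaryChebotarev
import Fermat.Agent.RT.CurveResidual
import Fermat.Agent.Frob.Charpoly
import Fermat.Agent.EC.TorsionCard

/-!
# The local-global principle for the divisibility of rational points by a prime

For an elliptic curve over `ℚ`, a prime `l` and a rational point `P`, if `P` modulo `q` is `l` times
a point for a set of primes `q` of density one, then `P` is `l` times a rational point.

By Chebotarev every element of Galois fixes some `Q` with `l Q = P`. So the kernel of the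
representation on the `l`-torsion fixes all of them, the group acting on them is a quotient of a
subgroup of `GL₂(𝔽_l)`, its `l`-Sylow subgroup is cyclic and fixes one of them, and the sum over the
orbit of that one, whose length is prime to `l`, is rational.
-/

set_option autoImplicit false
set_option linter.style.haveILetI false
set_option linter.unusedSectionVars false

noncomputable section

open WeierstrassCurve NumberField IsDedekindDomain FA.Frob FA.EC FA.RT
open FA.Local (smul_some)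
open scoped WeierstrassCurve.Affine Classical Pointwise

local notation "Qb" => AlgebraicClosure ℚ
local notation "GQ" => AlgebraicClosure ℚ ≃ₐ[ℚ] AlgebraicClosure ℚ

namespace FA.PointDiv

variable (W : WeierstrassCurve ℤ) [(ratCurve W).IsElliptic]

theorem smul_nat (σ : GQ) (n : ℕ) (Q : ((ratCurve W).toAffine⁄Qb).Point) :
    σ • (n • Q) = n • (σ • Q) := by
  induction n with
  | zero =>
    rw [zero_nsmul, zero_nsmul]
    exact FA.Local.gal_smul_zero (ratCurve W) σ
  | succ n ih =>
    rw [succ_nsmul, succ_nsmul, ← ih]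
    exact FA.Local.gal_smul_add (ratCurve W) σ _ _

/-- A rational point over `ℚ̄`. -/
def up : (ratCurve W).toAffine.Point →+ ((ratCurve W).toAffine⁄Qb).Point :=
  mapHom (algebraMap ℚ Qb) rfl

/-- Every point over `ℚ̄` is a multiple. -/
theorem exists_div {n : ℕ} (hn : n ≠ 0) (P : ((ratCurve W).toAffine⁄Qb).Point) :
    ∃ Q, n • Q = P := by
  rcases eq_or_ne P 0 with rfl | hP
  · exact ⟨0, nsmul_zero n⟩
  set x₀ := xc P with hx₀
  set f : Polynomial Qb := ((ratCurve W).toAffine⁄Qb).Φ n - Polynomial.C x₀ * ((ratCurve W).toAffine⁄Qb).ΨSq n with hf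
  have hc : f.coeff (n ^ 2) = 1 := by
    have h0 : (((ratCurve W).toAffine⁄Qb).ΨSq (n : ℤ)).coeff (n ^ 2) = 0 := by
      refine Polynomial.coeff_eq_zero_of_natDegree_lt ?_
      have h1 := ((ratCurve W).toAffine⁄Qb).natDegree_ΨSq_le (n : ℤ)
      rw [Int.natAbs_natCast] at h1
      have : 0 < n ^ 2 := by positivity
      omega
    rw [hf, Polynomial.coeff_sub, Polynomial.coeff_C_mul, h0, mul_zero, sub_zero]
    simpa using ((ratCurve W).toAffine⁄Qb).coeff_Φ (n : ℤ)
  obtain ⟨x, hx⟩ := IsAlgClosed.exists_root f fun h => by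
    have hC := Polynomial.eq_C_of_degree_le_zero h.le
    rw [hC, Polynomial.coeff_C, if_neg (pow_ne_zero 2 hn)] at hc
    exact zero_ne_one hc
  rw [Polynomial.IsRoot.def, hf, Polynomial.eval_sub, Polynomial.eval_mul, Polynomial.eval_C,
    sub_eq_zero] at hx
  obtain ⟨y, hy⟩ := exists_nonsingular ((ratCurve W).toAffine⁄Qb) x
  have hΨ : (((ratCurve W).toAffine⁄Qb).ΨSq n).eval x ≠ 0 := fun h => numDen_ne_zero ((ratCurve W).toAffine⁄Qb) n x <| by
    rw [h, mul_zero] at hx
    funext i
    fin_cases i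
    exacts [hx, h]
  have h0 : (n : ℤ) • Affine.Point.some x y hy ≠ 0 := fun h => hΨ ((zsmul_eq_zero_iff hy n).1 h)
  have hxc : xc ((n : ℤ) • Affine.Point.some x y hy) = x₀ := by
    rw [xc_zsmul hy n h0, hx, mul_div_cancel_right₀ _ hΨ]
  rcases eq_or_eq_neg_of_xc_eq h0 hP hxc with h | h
  · exact ⟨Affine.Point.some x y hy, by rw [← h, natCast_zsmul]⟩
  · exact ⟨-Affine.Point.some x y hy, by
      rw [neg_nsmul, ← natCast_zsmul]; exact neg_eq_iff_eq_neg.2 h⟩

/-- A point fixed by Galois is rational. -/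
theorem exists_up_eq {Q : ((ratCurve W).toAffine⁄Qb).Point} (h : ∀ σ : GQ, σ • Q = Q) :
    ∃ R, up W R = Q := by
  rcases Q with _ | ⟨x, y, hQ⟩
  · exact ⟨0, rfl⟩
  have hfix : ∀ z : Qb, (∀ σ : GQ, σ z = z) → ∃ r : ℚ, algebraMap ℚ Qb r = z := fun z hz => by
    have : z ∈ IntermediateField.fixedField (⊤ : Subgroup GQ) := fun σ => hz σ.1
    rwa [InfiniteGalois.fixedField_bot, IntermediateField.mem_bot] at this
  have hs : ∀ σ : GQ, σ x = x ∧ σ y = y := fun σ => by
    obtain ⟨h', e⟩ := smul_some (σ := σ) (ratCurve W) hQ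
    have := e.symm.trans (h σ)
    simpa [Affine.Point.some.injEq] using this
  obtain ⟨a, rfl⟩ := hfix x fun σ => (hs σ).1
  obtain ⟨b, rfl⟩ := hfix y fun σ => (hs σ).2
  exact ⟨Affine.Point.some a b
    (((ratCurve W).toAffine.map_nonsingular (algebraMap ℚ Qb).injective a b).mp hQ), rfl⟩

/-- Galois fixes the rational points. -/
theorem smul_up (σ : GQ) (R : (ratCurve W).toAffine.Point) : σ • up W R = up W R := by
  rcases R with _ | ⟨x, y, h⟩
  · exact FA.Local.gal_smul_zero (ratCurve W) σ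
  obtain ⟨h', e⟩ := smul_some (σ := σ) (ratCurve W)
    (nonsingular_mapHom (algebraMap ℚ Qb) rfl h : ((ratCurve W).toAffine⁄Qb).Nonsingular _ _)
  refine e.trans ?_
  simp only [up, mapHom_some, AlgEquiv.commutes]

/-- The point `P` modulo `q` is `l` times a point. -/
def LocDiv (l q : ℕ) (x y : ℚ) : Prop :=
  ∃ _ : Fact q.Prime, ∃ h : (W.map (Int.castRingHom (ZMod q))).toAffine.Nonsingular (x : ZMod q) y,
    ∃ R : (W.map (Int.castRingHom (ZMod q))).toAffine.Point,
      l • R = Affine.Point.some (x : ZMod q) (y : ZMod q) h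

section reduction

variable {q : ℕ} [Fact q.Prime] {A : ValuationSubring Qb} (hA : A.LiesOverPrime q)

include hA in
theorem ratCast_mem_and_resOf [CharP (Res A) q] {x : ℚ} (hx : ¬ q ∣ x.den) :
    algebraMap ℚ Qb x ∈ A ∧
      resOf A (algebraMap ℚ Qb x) = ZMod.castHom (dvd_refl q) (Res A) (x : ZMod q) := by
  have hd : A.valuation ((x.den : ℤ) : Qb) = 1 :=
    valuation_intCast_of_liesOverPrime Fact.out hA fun h => hx (Int.natCast_dvd_natCast.mp h)
  have e : algebraMap ℚ Qb x = ((x.num : ℤ) : Qb) / ((x.den : ℤ) : Qb) := by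
    rw [eq_ratCast, Rat.cast_def, Int.cast_natCast]
  have hm : algebraMap ℚ Qb x ∈ A := by
    refine mem_of_le A ?_
    rw [e, map_div₀, hd, div_one]
    exact FA.Local.intCast_le_one x.num
  refine ⟨hm, ?_⟩
  rw [resOf, dif_pos hm, map_ratCast, Rat.cast_def]
  have hk : ((x.den : ℕ) : Res A) ≠ 0 := fun h => hx ((CharP.cast_eq_zero_iff (Res A) q _).mp h)
  rw [eq_div_iff hk, ← map_natCast (IsLocalRing.residue A), ← map_mul,
    ← map_intCast (IsLocalRing.residue A) x.num]
  congr 1
  refine Subtype.ext ?_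
  show algebraMap ℚ Qb x * ((x.den : ℕ) : Qb) = ((x.num : ℤ) : Qb)
  have hd0 : ((x.den : ℕ) : Qb) ≠ 0 := Nat.cast_ne_zero.mpr x.den_nz
  rw [e, Int.cast_natCast, div_mul_cancel₀ _ hd0]

variable (hgood : W.IsGoodPrimeFor q)

include hgood in
theorem reductionMod_isElliptic : (W.map (Int.castRingHom (ZMod q))).IsElliptic :=
  ⟨by
    rw [WeierstrassCurve.map_Δ]
    exact (Ne.isUnit fun h => hgood ((ZMod.intCast_zmod_eq_zero_iff_dvd _ q).mp h))⟩

theorem map_castHom [CharP (Res A) q] :
    (W.map (Int.castRingHom (ZMod q))).map (ZMod.castHom (dvd_refl q) (Res A)) =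
      redCurve A ((ratCurve W)⁄Qb).toAffine (intCoeff_ratCurve W A) := by
  rw [redCurve_ratCurve, WeierstrassCurve.map_map]
  congr 1
  exact RingHom.ext_int _ _

include hA hgood in
/-- Reduction at a place of good reduction sends a rational point to its class modulo `q`. -/
theorem redHom_up [CharP (Res A) q]
    [(redCurve A ((ratCurve W)⁄Qb).toAffine (intCoeff_ratCurve W A)).IsElliptic] {x y : ℚ}
    (h : (ratCurve W).toAffine.Nonsingular x y) (hx : ¬ q ∣ x.den) (hy : ¬ q ∣ y.den) :
    ∃ h' : (W.map (Int.castRingHom (ZMod q))).toAffine.Nonsingular (x : ZMod q) y,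
      redHom (intCoeff_ratCurve W A) (valuation_Δ_ratCurve W Fact.out hA hgood)
          (up W (.some x y h)) =
        mapHom (ZMod.castHom (dvd_refl q) (Res A)) (map_castHom W)
          (Affine.Point.some (x : ZMod q) (y : ZMod q) h') := by
  obtain ⟨hxA, ex⟩ := ratCast_mem_and_resOf hA hx
  obtain ⟨-, ey⟩ := ratCast_mem_and_resOf hA hy
  obtain ⟨k, e⟩ := redFun_of_mem (intCoeff_ratCurve W A)
    (nonsingular_mapHom (algebraMap ℚ Qb) rfl h : ((ratCurve W).toAffine⁄Qb).Nonsingular _ _) hxA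
  have h' : (W.map (Int.castRingHom (ZMod q))).toAffine.Nonsingular (x : ZMod q) y := by
    refine ((W.map (Int.castRingHom (ZMod q))).toAffine.map_nonsingular
      (ZMod.castHom (dvd_refl q) (Res A)).injective _ _).mp ?_
    rw [← ex, ← ey]
    exact (congrArg (fun V : WeierstrassCurve (Res A) => V.toAffine.Nonsingular _ _)
      (map_castHom W (A := A))).mpr k
  refine ⟨h', ?_⟩
  rw [redHom_apply, mapHom_some]
  refine e.trans ?_
  simp only [Affine.Point.some.injEq]
  exact ⟨ex, ey⟩

end reduction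

/-- The points of the fibre of multiplication by `l`. -/
abbrev Fib (l : ℕ) (P : (ratCurve W).toAffine.Point) : Type :=
  {Q : ((ratCurve W).toAffine⁄Qb).Point // l • Q = up W P}

theorem finite_fib {l : ℕ} (hl : l ≠ 0) (P : (ratCurve W).toAffine.Point) :
    Finite (Fib W l P) := by
  obtain ⟨Q₀, hQ₀⟩ := exists_div W hl (up W P)
  have := finite_torsion (ratCurve W) hl
  refine Finite.of_injective (β := Submodule.torsionBy ℤ ((ratCurve W).toAffine⁄Qb).Point (l : ℤ))
    (fun Q => ⟨Q.1 - Q₀, by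
      rw [Submodule.mem_torsionBy_iff, natCast_zsmul, nsmul_sub, Q.2, hQ₀, sub_self]⟩)
    fun Q Q' h => Subtype.ext (sub_left_injective (congrArg Subtype.val h))

/-- The action of Galois on the fibre. -/
def fibHom (l : ℕ) (P : (ratCurve W).toAffine.Point) : GQ →* Equiv.Perm (Fib W l P) where
  toFun σ :=
    { toFun := fun Q => ⟨σ • Q.1, by rw [← smul_nat W σ l Q.1, Q.2, smul_up]⟩
      invFun := fun Q => ⟨σ⁻¹ • Q.1, by rw [← smul_nat W σ⁻¹ l Q.1, Q.2, smul_up]⟩
      left_inv := fun Q => Subtype.ext (inv_smul_smul σ Q.1)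
      right_inv := fun Q => Subtype.ext (smul_inv_smul σ Q.1) }
  map_one' := Equiv.ext fun Q => Subtype.ext (one_smul GQ Q.1)
  map_mul' σ τ := Equiv.ext fun Q => Subtype.ext (mul_smul σ τ Q.1)

theorem isOpen_ker_fibHom {l : ℕ} (hl : l ≠ 0) (P : (ratCurve W).toAffine.Point) :
    IsOpen ((fibHom W l P).ker : Set GQ) := by
  have := finite_fib W hl P
  let S : Set Qb := Set.range (fun Q : Fib W l P => (xyPair Q.1).1) ∪
    Set.range (fun Q : Fib W l P => (xyPair Q.1).2)
  have : Finite S := ((Set.finite_range _).union (Set.finite_range _)).to_subtype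
  have : FiniteDimensional ℚ (IntermediateField.adjoin ℚ S) :=
    IntermediateField.finiteDimensional_adjoin fun x _ =>
      ((AlgebraicClosure.isAlgebraic ℚ).isAlgebraic x).isIntegral
  refine Subgroup.isOpen_mono (H₁ := (IntermediateField.adjoin ℚ S).fixingSubgroup)
    (fun σ hσ => ?_) (IntermediateField.fixingSubgroup_isOpen _)
  refine MonoidHom.mem_ker.mpr (Equiv.ext fun Q => Subtype.ext ?_)
  show σ • Q.1 = Q.1
  have hfix := (IntermediateField.mem_fixingSubgroup_iff _ σ).mp hσ
  have hx : σ (xyPair Q.1).1 = (xyPair Q.1).1 :=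
    hfix _ (IntermediateField.subset_adjoin ℚ S (Or.inl ⟨Q, rfl⟩))
  have hy : σ (xyPair Q.1).2 = (xyPair Q.1).2 :=
    hfix _ (IntermediateField.subset_adjoin ℚ S (Or.inr ⟨Q, rfl⟩))
  obtain ⟨Q, hQ⟩ := Q
  rcases Q with _ | ⟨a, b, hab⟩
  · exact FA.Local.gal_smul_zero (ratCurve W) σ
  obtain ⟨h', e⟩ := smul_some (σ := σ) (ratCurve W) hab
  refine e.trans ?_
  simp only [Affine.Point.some.injEq]
  exact ⟨hx, hy⟩

/-- A Frobenius at a good prime where `P` is divisible fixes a point of the fibre. -/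
theorem exists_fixed_of_locDiv {l : ℕ} (hl : l.Prime) {x y : ℚ}
    (h : (ratCurve W).toAffine.Nonsingular x y) {q : ℕ} [hq : Fact q.Prime]
    (hgood : W.IsGoodPrimeFor q) (hql : q ≠ l) (hx : ¬ q ∣ x.den) (hy : ¬ q ∣ y.den)
    (hloc : LocDiv W l q x y) {A : ValuationSubring Qb} (hA : A.LiesOverPrime q) {σ : GQ}
    (hσ : A.IsFrobeniusAt σ q) :
    ∃ Q : Fib W l (.some x y h), fibHom W l (.some x y h) σ Q = Q := by
  haveI := Fact.mk hl
  haveI : CharP (Res A) q := residueField_charP A hq.out hA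
  haveI : IsAlgClosed (Res A) := residueField_isAlgClosed A
  haveI := reductionMod_isElliptic W hgood
  haveI := redCurve_isElliptic (intCoeff_ratCurve W A) (valuation_Δ_ratCurve W hq.out hA hgood)
  set r := redHom (intCoeff_ratCurve W A) (valuation_Δ_ratCurve W hq.out hA hgood) with hr
  set m := mapHom (ZMod.castHom (dvd_refl q) (Res A)) (map_castHom W (A := A)) with hm
  obtain ⟨_, h', R, hR⟩ := hloc
  obtain ⟨h'', hP⟩ := redHom_up W hA hgood h hx hy
  have hlk : (l : Res A) ≠ 0 := fun e => hql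
    ((Nat.prime_dvd_prime_iff_eq hq.out hl).mp ((CharP.cast_eq_zero_iff (Res A) q l).mp e))
  have hlv : A.valuation (l : Qb) = 1 := by
    have : A.valuation ((l : ℤ) : Qb) = 1 := valuation_intCast_of_liesOverPrime hq.out hA
      fun e => hql ((Nat.prime_dvd_prime_iff_eq hq.out hl).mp (Int.natCast_dvd_natCast.mp e))
    rwa [Int.cast_natCast] at this
  -- reduction is bijective on the torsion
  let T := Submodule.torsionBy ℤ ((ratCurve W).toAffine⁄Qb).Point (l : ℤ)
  let Tk := Submodule.torsionBy ℤ (redCurve A ((ratCurve W)⁄Qb).toAffine (intCoeff_ratCurve W A)).toAffine.Point (l : ℤ)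
  have hfT : Finite T := finite_torsion (ratCurve W) hl.ne_zero
  have hfk : Finite Tk := finite_torsionBy (redCurve A ((ratCurve W)⁄Qb).toAffine (intCoeff_ratCurve W A)) hlk
  let rT : T → Tk := fun t => ⟨r t.1, by
    have ht := (Submodule.mem_torsionBy_iff _ _).mp t.2
    rw [Submodule.mem_torsionBy_iff, ← map_zsmul r, ht, map_zero]⟩
  have hrinj : Function.Injective rT := fun t t' e => Subtype.ext (sub_eq_zero.mp
    (redHom_injOn (intCoeff_ratCurve W A) (valuation_Δ_ratCurve W hq.out hA hgood) hl hlv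
      (by
        rw [nsmul_sub, ← natCast_zsmul, ← natCast_zsmul, (Submodule.mem_torsionBy_iff _ _).mp t.2,
          (Submodule.mem_torsionBy_iff _ _).mp t'.2, sub_self])
      (by
        show r (t.1 - t'.1) = 0
        rw [map_sub, sub_eq_zero]
        exact congrArg Subtype.val e)))
  have hrsurj : Function.Surjective rT := ((Nat.bijective_iff_injective_and_card rT).mpr
    ⟨hrinj, (natCard_torsion (ratCurve W) hl.ne_zero).trans (natCard_torsionBy (redCurve A ((ratCurve W)⁄Qb).toAffine (intCoeff_ratCurve W A)) hlk).symm⟩).2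
  -- a point of the fibre over `R`
  obtain ⟨Q₀, hQ₀⟩ := exists_div W hl.ne_zero (up W (.some x y h))
  obtain ⟨t, ht⟩ := hrsurj ⟨m R - r Q₀, by
    rw [Submodule.mem_torsionBy_iff, natCast_zsmul, nsmul_sub, ← map_nsmul, ← map_nsmul, hR, hQ₀,
      hr, hP, ← hm, sub_self]⟩
  have ht' : r t.1 = m R - r Q₀ := congrArg Subtype.val ht
  have hQ : l • (Q₀ + t.1) = up W (.some x y h) := by
    rw [nsmul_add, hQ₀, ← natCast_zsmul t.1, (Submodule.mem_torsionBy_iff _ _).mp t.2, add_zero]
  have hrQ : r (Q₀ + t.1) = m R := by rw [map_add, ht', add_sub_cancel]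
  refine ⟨⟨Q₀ + t.1, hQ⟩, Subtype.ext ?_⟩
  show σ • (Q₀ + t.1) = Q₀ + t.1
  generalize Q₀ + t.1 = Q at hQ hrQ ⊢
  have hfix : r (σ • Q) = r Q := by
    have hstab : σ • A = A := hσ.mem_decompositionSubgroup
    have hmem : ∀ z, σ z ∈ A ↔ z ∈ A := fun z => by
      conv_lhs => rw [← hstab]
      exact ValuationSubring.smul_mem_pointwise_smul_iff (g := σ) (S := A) (x := z)
    have hres : ∀ z, z ∈ A → resOf A (σ z) = resOf A z ^ q := by
      intro z hz
      have e := hσ.smul_residue_eq (IsLocalRing.residue A ⟨z, hz⟩)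
      rw [← IsLocalRing.ResidueField.residue_smul] at e
      rw [resOf, resOf, dif_pos hz, dif_pos ((hmem z).mpr hz), ← e]
      rfl
    rcases Q with _ | ⟨a, b, hab⟩
    · exact congrArg r (FA.Local.gal_smul_zero (ratCurve W) σ)
    obtain ⟨k', e'⟩ := smul_some (σ := σ) (ratCurve W) hab
    rw [e']
    rw [hr, redHom_apply] at hrQ ⊢
    rw [redHom_apply]
    by_cases ha : a ∈ A
    · have hb := y_mem (intCoeff_ratCurve W A) hab.1 ha
      obtain ⟨k₁, e₁⟩ := redFun_of_mem (intCoeff_ratCurve W A) hab ha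
      obtain ⟨k₂, e₂⟩ := redFun_of_mem (intCoeff_ratCurve W A) k' ((hmem a).mpr ha)
      rw [e₁] at hrQ
      rw [e₁, e₂]
      rcases R with _ | ⟨c, d, hcd⟩
      · exact absurd hrQ (Affine.Point.some_ne_zero _)
      rw [hm, mapHom_some] at hrQ
      simp only [Affine.Point.some.injEq] at hrQ ⊢
      rw [hres a ha, hres b hb, hrQ.1, hrQ.2, ← map_pow, ← map_pow, ZMod.pow_card, ZMod.pow_card]
      exact ⟨rfl, rfl⟩
    · rw [redFun, redFun, dif_neg ha, dif_neg fun e => ha ((hmem a).mp e)]
  refine sub_eq_zero.mp (redHom_injOn (intCoeff_ratCurve W A)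
    (valuation_Δ_ratCurve W hq.out hA hgood) hl hlv ?_ ?_)
  · rw [nsmul_sub, ← smul_nat, hQ, smul_up, sub_self]
  · show r (σ • Q - Q) = 0
    rw [map_sub, hfix, sub_self]

/-- Two disjoint sets cannot have densities adding to more than one. -/
theorem density_add_le_one {S T : Set (HeightOneSpectrum (𝓞 ℚ))} (hST : Disjoint S T) {a b : ℝ}
    (hS : S.HasDirichletDensity a) (hT : T.HasDirichletDensity b) : a + b ≤ 1 := by
  refine le_of_tendsto (hS.add hT) ?_
  filter_upwards [FA.Chebotarev.Ioc_one_two_mem] with s hs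
  rw [← add_div]
  refine div_le_one_of_le₀ ?_ (Set.primeIdealZetaSum_nonneg _ _)
  simp only [FA.Chebotarev.primeIdealZetaSum_eq]
  rw [← Summable.tsum_union_disjoint (f := fun v : HeightOneSpectrum (𝓞 ℚ) =>
      FA.Ext.zN s (FA.Ext.primeIdeal v)) hST
    (FA.Chebotarev.summable_subtype_zN S hs.1) (FA.Chebotarev.summable_subtype_zN T hs.1),
    tsum_univ fun v : HeightOneSpectrum (𝓞 ℚ) => FA.Ext.zN s (FA.Ext.primeIdeal v)]
  exact Summable.tsum_subtype_le (fun v => FA.Ext.zN s (FA.Ext.primeIdeal v)) _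
    (fun v => FA.Ext.zN_nonneg _ _) (FA.Chebotarev.summable_zN_primeIdeal hs.1)

/-- Only finitely many primes of `ℚ` have their norm dividing a given nonzero number. -/
theorem finite_absNorm_dvd {n : ℕ} (hn : n ≠ 0) :
    {v : HeightOneSpectrum (𝓞 ℚ) | Ideal.absNorm v.asIdeal ∣ n}.Finite := by
  refine Set.Finite.of_finite_image (f := fun v => v.asIdeal) ?_
    fun v _ w _ e => HeightOneSpectrum.ext e
  refine ((Finset.range (n + 1)).finite_toSet.biUnion fun k _ =>
    Ideal.finite_setOfPred_absNorm_eq k).subset ?_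
  rintro _ ⟨v, hv, rfl⟩
  exact Set.mem_biUnion (x := Ideal.absNorm v.asIdeal)
    (Finset.mem_coe.mpr (Finset.mem_range.mpr
      (Nat.lt_succ_of_le (Nat.le_of_dvd (Nat.pos_of_ne_zero hn) hv)))) rfl

/-- The primes at which `P` is divisible, as primes of `ℚ`. -/
def locSet (l : ℕ) (x y : ℚ) : Set (HeightOneSpectrum (𝓞 ℚ)) :=
  {v | LocDiv W l (Ideal.absNorm v.asIdeal) x y}

/-- Every element of Galois fixes a point of the fibre. -/
theorem exists_fixed {l : ℕ} (hl : l.Prime) {x y : ℚ} (h : (ratCurve W).toAffine.Nonsingular x y)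
    (hloc : (locSet W l x y).HasDirichletDensity 1) (τ : GQ) :
    ∃ Q : Fib W l (.some x y h), fibHom W l (.some x y h) τ Q = Q := by
  by_contra hcon
  push Not at hcon
  set π := (fibHom W l (.some x y h)).rangeRestrict with hπdef
  have := finite_fib W hl.ne_zero (.some x y h)
  let _ : Fintype (fibHom W l (.some x y h)).range := Fintype.ofFinite _
  let X : Set (fibHom W l (.some x y h)).range := {g | ∀ Q, g.1 Q ≠ Q}
  have hX : ∀ g ∈ X, ∀ z, z * g * z⁻¹ ∈ X := fun g hg z Q e => by
    refine hg (z.1.symm Q) (z.1.injective ?_)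
    rw [Equiv.apply_symm_apply]
    exact e
  have hd := FA.Chebotarev.hasDirichletDensity_frobSet π (MonoidHom.rangeRestrict_surjective _)
    (by rw [hπdef, MonoidHom.ker_rangeRestrict]; exact isOpen_ker_fibHom W hl.ne_zero _) hX
  set N : ℕ := W.Δ.natAbs * l * x.den * y.den with hN
  have hN0 : N ≠ 0 := by
    have hΔ : W.Δ.natAbs ≠ 0 := fun e => (ratCurve W).isUnit_Δ.ne_zero (by
      simp [ratCurve, Int.natAbs_eq_zero.mp e])
    simp [hN, hΔ, hl.ne_zero]
  set T := FA.Chebotarev.frobSet π X \ {v | Ideal.absNorm v.asIdeal ∣ N}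
  have hT : T.HasDirichletDensity ((Nat.card X : ℝ) / Fintype.card _) :=
    FA.Chebotarev.hasDirichletDensity_congr (by simp [T])
      ((finite_absNorm_dvd hN0).subset fun v hv => by
        by_contra e
        exact hv.2 ⟨hv.1, e⟩) hd
  have hdisj : Disjoint (locSet W l x y) T := by
    refine Set.disjoint_left.mpr fun v hv hvT => ?_
    have hq := FA.Chebotarev.absNorm_prime v
    haveI := Fact.mk hq
    have hndvd : ¬ Ideal.absNorm v.asIdeal ∣ N := hvT.2
    obtain ⟨A, hA⟩ := FA.Deform.exists_liesOverPrime hq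
    obtain ⟨σ, hσ⟩ := FA.Deform.exists_isFrobeniusAt hq hA
    obtain ⟨Q, hQ⟩ := exists_fixed_of_locDiv W hl h (q := Ideal.absNorm v.asIdeal)
      (fun e => hndvd ((Int.natCast_dvd.mp e).mul_right _ |>.mul_right _ |>.mul_right _))
      (fun e => hndvd (by rw [e]; exact ((dvd_mul_left l _).mul_right _).mul_right _))
      (fun e => hndvd ((e.mul_left _).mul_right _))
      (fun e => hndvd (e.mul_left _)) hv hA hσ
    exact hvT.1 A hA σ hσ Q hQ
  have h1 := density_add_le_one hdisj hloc hT
  have hpos : 0 < (Nat.card X : ℝ) / Fintype.card (fibHom W l (.some x y h)).range := by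
    have : Nonempty X := ⟨⟨π τ, hcon⟩⟩
    exact div_pos (Nat.cast_pos.mpr Nat.card_pos) (Nat.cast_pos.mpr Fintype.card_pos)
  linarith

/-- The order of `GL₂(𝔽_l)` is not divisible by `l²`. -/
theorem not_sq_dvd_card_GL {l : ℕ} [hl : Fact l.Prime] :
    ¬ l ^ 2 ∣ Nat.card (GL (Fin 2) (ZMod l)) := by
  rw [Matrix.card_GL_field, Fin.prod_univ_two, ZMod.card]
  intro h
  simp only [Fin.val_zero, pow_zero, Fin.val_one, pow_one] at h
  have h2 := hl.out.two_le
  rw [show l ^ 2 - l = l * (l - 1) by rw [Nat.mul_sub, mul_one, sq], mul_left_comm, sq] at h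
  have h3 := Nat.dvd_of_mul_dvd_mul_left hl.out.pos h
  rcases hl.out.dvd_mul.mp h3 with h4 | h4
  · obtain ⟨c, hc⟩ := h4
    have : 1 ≤ l * l := Nat.one_le_iff_ne_zero.mpr (mul_ne_zero hl.out.ne_zero hl.out.ne_zero)
    have : l ∣ 1 := ⟨l - c, by rw [Nat.mul_sub]; omega⟩
    exact hl.out.not_dvd_one this
  · exact absurd (Nat.le_of_dvd (by omega) h4) (by omega)

/-- **If every element of Galois fixes a point of the fibre, `P` is a multiple.** -/
theorem exists_rational_of_fixed {l : ℕ} [hl : Fact l.Prime] (P : (ratCurve W).toAffine.Point)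
    (hfix : ∀ τ : GQ, ∃ Q : Fib W l P, fibHom W l P τ Q = Q) : ∃ R, l • R = P := by
  have hfin := finite_fib W hl.out.ne_zero P
  set f := fibHom W l P with hf
  set G := f.range
  -- the kernel of the linear part fixes the fibre
  set ρ := (curveRep l W).toHomUnits
  have hker : ρ.ker ≤ f.ker := fun τ hτ => by
    obtain ⟨Q, hQ⟩ := hfix τ
    have hT : ∀ t : Submodule.torsionBy ℤ ((ratCurve W)⁄Qb).Point l, τ • t = t :=
      (curveRep_eq_one_iff W τ).mp (congrArg Units.val (MonoidHom.mem_ker.mp hτ))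
    refine MonoidHom.mem_ker.mpr (Equiv.ext fun Q' => Subtype.ext ?_)
    show τ • Q'.1 = Q'.1
    have h1 := congrArg Subtype.val (hT ⟨Q'.1 - Q.1, by
      rw [Submodule.mem_torsionBy_iff, natCast_zsmul, nsmul_sub, Q.2, Q'.2, sub_self]⟩)
    have h2 : τ • Q.1 = Q.1 := congrArg Subtype.val hQ
    have h3 : τ • (Q'.1 - Q.1) = Q'.1 - Q.1 := h1
    rw [(FA.Local.gal_smul_sub (ratCurve W) τ Q'.1 Q.1 : τ • (Q'.1 - Q.1) = τ • Q'.1 - τ • Q.1), h2] at h3
    exact sub_left_injective h3
  have hG : Nat.card G ∣ Nat.card (GL (Fin 2) (ZMod l)) := by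
    rw [← Subgroup.index_ker]
    exact (Subgroup.index_dvd_of_le hker).trans
      (by rw [Subgroup.index_ker]; exact Subgroup.card_subgroup_dvd_card _)
  -- the Sylow subgroup
  obtain ⟨S⟩ : Nonempty (Sylow l G) := inferInstance
  have hS : Nat.card S ∣ l := by
    obtain ⟨k, hk⟩ := S.2.exists_card_eq
    have h1 : l ^ k ∣ Nat.card (GL (Fin 2) (ZMod l)) :=
      (hk ▸ Subgroup.card_subgroup_dvd_card (S : Subgroup G)).trans hG
    have : k ≤ 1 := by
      by_contra h2
      exact not_sq_dvd_card_GL ((pow_dvd_pow l (by omega)).trans h1)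
    rw [hk]
    exact (pow_dvd_pow l this).trans (by rw [pow_one])
  haveI : IsCyclic S := isCyclic_of_card_dvd_prime (p := l) hS
  obtain ⟨g, hg⟩ := IsCyclic.exists_generator (α := S)
  obtain ⟨τ, hτ⟩ := g.1.2
  obtain ⟨Q₁, hQ₁⟩ := hfix τ
  rw [hτ] at hQ₁
  have hSle : (S : Subgroup G) ≤ MulAction.stabilizer G Q₁ := fun s hs => by
    obtain ⟨k, hk⟩ := Subgroup.mem_zpowers_iff.mp (hg ⟨s, hs⟩)
    rw [show s = g.1 ^ k from congrArg Subtype.val hk.symm]
    exact zpow_mem (show g.1 ∈ MulAction.stabilizer G Q₁ from hQ₁) k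
  -- the orbit
  let _ : Fintype (MulAction.orbit G Q₁) := Fintype.ofFinite _
  set m := Fintype.card (MulAction.orbit G Q₁)
  have hm : ¬ l ∣ m := fun hd => S.not_dvd_index (hd.trans (by
    rw [show m = (MulAction.stabilizer G Q₁).index by
      rw [MulAction.index_stabilizer, ← Nat.card_coe_set_eq, Nat.card_eq_fintype_card]]
    exact Subgroup.index_dvd_of_le hSle))
  set tot := ∑ Q : MulAction.orbit G Q₁, Q.1.1
  obtain ⟨R, hR⟩ := exists_up_eq W (Q := tot) fun σ => by
    show σ • tot = tot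
    refine (map_sum ({ toFun := fun X : ((ratCurve W).toAffine⁄Qb).Point => σ • X
                       map_zero' := FA.Local.gal_smul_zero (ratCurve W) σ
                       map_add' := FA.Local.gal_smul_add (ratCurve W) σ } :
      ((ratCurve W).toAffine⁄Qb).Point →+ ((ratCurve W).toAffine⁄Qb).Point)
      (fun Q : MulAction.orbit G Q₁ => Q.1.1) Finset.univ).trans ?_
    exact Fintype.sum_equiv (MulAction.toPerm (⟨f σ, σ, rfl⟩ : G)) _ _ fun Q => rfl
  have hlR : l • R = m • P := mapHom_injective (algebraMap ℚ Qb) rfl (by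
    show up W (l • R) = up W (m • P)
    rw [map_nsmul, map_nsmul, hR, ← Finset.sum_nsmul, Finset.sum_congr rfl fun Q _ => Q.1.2,
      Finset.sum_const, Finset.card_univ])
  obtain ⟨a, b, hab⟩ := (Nat.Coprime.cast (R := ℤ) (hl.out.coprime_iff_not_dvd.mpr hm) :
    IsCoprime (l : ℤ) (m : ℤ))
  refine ⟨a • P + b • R, ?_⟩
  have hlR' : (l : ℤ) • R = (m : ℤ) • P := by rw [natCast_zsmul, natCast_zsmul, hlR]
  have e : (l : ℤ) • b • R = b • ((l : ℤ) • R) := smul_comm _ _ _
  rw [← natCast_zsmul, zsmul_add, e, hlR', ← mul_zsmul, ← mul_zsmul, ← add_zsmul,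
    mul_comm (l : ℤ) a, hab, one_zsmul]

end FA.PointDiv

namespace FA.Summary

/-- **The local-global principle for divisibility by a prime**: if the rational point `(x, y)` is
`l` times a point modulo a set of primes of Dirichlet density one, it is `l` times a rational
point. -/
theorem pointDivisibility_of_density (W : WeierstrassCurve ℤ) (hΔ : W.Δ ≠ 0) {l : ℕ}
    (hl : l.Prime) {x y : ℚ} (h : (W.map (Int.castRingHom ℚ)).toAffine.Nonsingular x y)
    (hloc : Set.HasDirichletDensity {v : HeightOneSpectrum (𝓞 ℚ) |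
      ∃ _ : Fact (Ideal.absNorm v.asIdeal).Prime,
      ∃ h : (W.map (Int.castRingHom (ZMod (Ideal.absNorm v.asIdeal)))).toAffine.Nonsingular
        (x : ZMod (Ideal.absNorm v.asIdeal)) y,
      ∃ R, l • R = Affine.Point.some (x : ZMod (Ideal.absNorm v.asIdeal)) _ h} 1) :
    ∃ R : (W.map (Int.castRingHom ℚ)).toAffine.Point, l • R = Affine.Point.some x y h := by
  haveI := FA.Frob.ratCurve_isElliptic_of_Δ hΔ
  haveI := Fact.mk hl
  exact FA.PointDiv.exists_rational_of_fixed W _ (FA.PointDiv.exists_fixed W hl h hloc)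

/-- **The local-global principle, for almost all primes**: a rational point is `l` times a rational
point iff modulo all but finitely many primes it is `l` times a point. -/
theorem pointDivisibility_iff (W : WeierstrassCurve ℤ) (hΔ : W.Δ ≠ 0) {l : ℕ}
    (hl : l.Prime) {x y : ℚ} (h : (W.map (Int.castRingHom ℚ)).toAffine.Nonsingular x y) :
    (∃ R : (W.map (Int.castRingHom ℚ)).toAffine.Point, l • R = Affine.Point.some x y h) ↔
      {q : ℕ | q.Prime ∧ ¬ ∃ _ : Fact q.Prime,
        ∃ h : (W.map (Int.castRingHom (ZMod q))).toAffine.Nonsingular (x : ZMod q) y,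
        ∃ R, l • R = Affine.Point.some (x : ZMod q) _ h}.Finite := by
  haveI := FA.Frob.ratCurve_isElliptic_of_Δ hΔ
  refine ⟨fun ⟨R, hR⟩ => ?_, fun hfin => ?_⟩
  · rcases R with _ | ⟨a, b, hab⟩
    · exact absurd hR.symm (by rw [← Affine.Point.zero_def, nsmul_zero]; exact Affine.Point.some_ne_zero h)
    refine (Finset.finite_toSet
      (W.Δ.natAbs * x.den * y.den * a.den * b.den).divisors).subset fun q ⟨hq, hnot⟩ => ?_
    by_contra hmem
    have hd : ¬ q ∣ W.Δ.natAbs * x.den * y.den * a.den * b.den := fun e => hmem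
      (Finset.mem_coe.mpr (Nat.mem_divisors.mpr ⟨e, by simp [hΔ]⟩))
    haveI := Fact.mk hq
    have hgood : W.IsGoodPrimeFor q := fun e =>
      hd ((((Int.natCast_dvd.mp e).mul_right _).mul_right _).mul_right _ |>.mul_right _)
    obtain ⟨A, hA⟩ := FA.Deform.exists_liesOverPrime hq
    haveI : CharP (Res A) q := residueField_charP A hq hA
    haveI := redCurve_isElliptic (intCoeff_ratCurve W A) (valuation_Δ_ratCurve W hq hA hgood)
    obtain ⟨h', hP⟩ := FA.PointDiv.redHom_up W hA hgood h
      (fun e => hd ((((e.mul_left _).mul_right _).mul_right _).mul_right _))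
      (fun e => hd (((e.mul_left _).mul_right _).mul_right _))
    obtain ⟨hab', hQ⟩ := FA.PointDiv.redHom_up W hA hgood hab
      (fun e => hd ((e.mul_left _).mul_right _)) (fun e => hd (e.mul_left _))
    refine hnot ⟨inferInstance, h', Affine.Point.some _ _ hab', ?_⟩
    apply mapHom_injective (ZMod.castHom (dvd_refl q) (Res A)) (FA.PointDiv.map_castHom W (A := A))
    rw [map_nsmul, ← hP, ← hQ, ← map_nsmul, ← map_nsmul, hR]
  · classical
    refine pointDivisibility_of_density W hΔ hl h ?_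
    have hu : (Set.univ : Set (HeightOneSpectrum (𝓞 ℚ))).HasDirichletDensity 1 := by
      have h0 := FA.Chebotarev.hasDirichletDensity_frobSet (G := Unit) (1 : _ →* Unit)
        (fun u => ⟨1, Subsingleton.elim _ _⟩) (by simp) (X := Set.univ) fun _ _ _ => Set.mem_univ _
      simpa [FA.Chebotarev.frobSet] using h0
    refine FA.Chebotarev.hasDirichletDensity_congr (by simp) ?_ hu
    set M := hfin.toFinset.prod id
    refine (FA.PointDiv.finite_absNorm_dvd (n := M) ?_).subset ?_
    · exact Finset.prod_ne_zero_iff.mpr fun q hq => (hfin.mem_toFinset.mp hq).1.ne_zero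
    · rintro v ⟨-, hv⟩
      exact Finset.dvd_prod_of_mem id
        (hfin.mem_toFinset.mpr ⟨FA.Chebotarev.absNorm_prime v, hv⟩)

/-- A rational point which is not `l` times a rational point stays so modulo infinitely many
primes. -/
theorem infinitely_many_not_divisible (W : WeierstrassCurve ℤ) (hΔ : W.Δ ≠ 0) {l : ℕ}
    (hl : l.Prime) {x y : ℚ} (h : (W.map (Int.castRingHom ℚ)).toAffine.Nonsingular x y)
    (hP : ¬ ∃ R : (W.map (Int.castRingHom ℚ)).toAffine.Point, l • R = Affine.Point.some x y h) :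
    {q : ℕ | q.Prime ∧ ¬ ∃ _ : Fact q.Prime,
      ∃ h : (W.map (Int.castRingHom (ZMod q))).toAffine.Nonsingular (x : ZMod q) y,
      ∃ R, l • R = Affine.Point.some (x : ZMod q) _ h}.Infinite :=
  fun hfin => hP ((pointDivisibility_iff W hΔ hl h).mpr hfin)

end FA.Summary

end
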