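import Fermat.Agent.SerreLarge.Main
import Fermat.Agent.SerreLarge.GoodModel
import Fermat.Agent.Root.SummarySurjectiveLarge

/-!
# Serre's dichotomy for every elliptic curve over `ℚ`

For every elliptic curve over `ℚ`, semistable or not and whatever its invariant, either Galois
induces every automorphism of the `p ^ n`-torsion for all sufficiently large primes `p` and all `n`,
or there is a quadratic field `ℚ(√d)` such that `a_l = 0` at every odd prime `l` of good reduction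
inert in it, as for curves with complex multiplication. That the second case implies complex
multiplication is not formalised.
-/

set_option autoImplicit false
set_option linter.style.haveILetI false

noncomputable section

open WeierstrassCurve WeierstrassCurve.Affine Matrix FA.EC FA.Frob FA.RT
open scoped WeierstrassCurve.Affine

local notation "Qb" => AlgebraicClosure ℚ
local notation "GQ" => AlgebraicClosure ℚ ≃ₐ[ℚ] AlgebraicClosure ℚ

namespace FA.Summary

/-- **Serre's dichotomy with the field localised**: the radicand is supported at the primes of bad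
reduction, and is not `3` modulo `4` if the reduction at `2` is good. -/
theorem galoisSurjectiveTorsion_large_or_dihedral_bad (E : WeierstrassCurve ℚ) [E.IsElliptic]
    [inst : DecidableEq (AlgebraicClosure ℚ)] :
    (∃ M : ℕ, ∀ p : ℕ, p.Prime → M < p → ∀ (n : ℕ)
      (φ : Submodule.torsionBy ℤ (E.toAffine⁄(AlgebraicClosure ℚ)).Point ((p : ℤ) ^ n) ≃+
        Submodule.torsionBy ℤ (E.toAffine⁄(AlgebraicClosure ℚ)).Point ((p : ℤ) ^ n)),
      ∃ σ : AlgebraicClosure ℚ ≃ₐ[ℚ] AlgebraicClosure ℚ, ∀ P,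
        Affine.Point.map σ.toAlgHom P.1 = (φ P).1) ∨
    ∃ d : ℤ, Squarefree d ∧ d ≠ 1 ∧
      (∀ q : ℕ, ∀ [Fact q.Prime], (q : ℤ) ∣ d → ¬ ∃ C : VariableChange ℚ_[q],
        HasGoodReduction ℤ_[q] (C • E.map (algebraMap ℚ ℚ_[q]))) ∧
      (d % 4 = 3 → ¬ ∃ C : VariableChange ℚ_[2],
        HasGoodReduction ℤ_[2] (C • E.map (algebraMap ℚ ℚ_[2]))) ∧
      ∀ l : ℕ, ∀ [Fact l.Prime],
      (∃ C : VariableChange ℚ_[l],
        HasGoodReduction ℤ_[l] (C • E.map (algebraMap ℚ ℚ_[l]))) →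
      ¬ IsSquare (d : ZMod l) → E.LFunction l = 0 := by
  obtain rfl : inst = instDecEqAlgebraicClosureRat := Subsingleton.elim _ _
  obtain ⟨W, hW, hmin⟩ := FA.SerreLarge.exists_goodModel E
  haveI := FA.Frob.ratCurve_isElliptic_of_Δ (FA.Frob.Δ_ne_zero_of_model hW)
  obtain ⟨M, hM⟩ := noStableSubgroup_large E
  have hirr : ∀ p : ℕ, p.Prime → M < p → W.ModRepIsIrreducible p := fun p hp hlt => by
    haveI := Fact.mk hp
    exact FA.Root.Irred.modRepIsIrreducible_of_noStableSubgroup hW (hM p hp hlt)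
  rcases FA.SerreLarge.surjective_or_dihedral_bad W ⟨M, hirr⟩ with
    ⟨M', hM'⟩ | ⟨d, hd, hd1, hq, h4, hd0⟩
  · refine Or.inl ⟨M' + 5, fun p hp hlt n φ => ?_⟩
    haveI := Fact.mk hp
    haveI : NeZero (p ^ n) := ⟨pow_ne_zero _ hp.ne_zero⟩
    exact FA.Root.exists_map_eq_of_model hW _ (FA.PadicImage.exists_smul_eq_pow_of_base (by omega)
      (fun B X hX => by
        obtain ⟨σ, hσ⟩ := hM' p (by omega) X hX
        exact ⟨σ, (FA.PadicImage.rep_map_toZMod B σ).trans hσ⟩) n) φ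
  · refine Or.inr ⟨d, hd, hd1, fun q hq' hqd hgood => hmin q hgood (hq q hq'.out hqd),
      fun h hgood => hmin 2 hgood (h4 h), fun l hl hgood hns => ?_⟩
    rw [FA.Root.LFunction_apply_prime E W hW hl.out (hmin l hgood)]
    exact_mod_cast hd0 l hl.out (hmin l hgood) hns

/-- **Serre's dichotomy**: surjectivity at all large primes, or vanishing traces at the odd good
primes inert in one quadratic field. -/
theorem galoisSurjectiveTorsion_large_or_dihedral (E : WeierstrassCurve ℚ) [E.IsElliptic]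
    [inst : DecidableEq (AlgebraicClosure ℚ)] :
    (∃ M : ℕ, ∀ p : ℕ, p.Prime → M < p → ∀ (n : ℕ)
      (φ : Submodule.torsionBy ℤ (E.toAffine⁄(AlgebraicClosure ℚ)).Point ((p : ℤ) ^ n) ≃+
        Submodule.torsionBy ℤ (E.toAffine⁄(AlgebraicClosure ℚ)).Point ((p : ℤ) ^ n)),
      ∃ σ : AlgebraicClosure ℚ ≃ₐ[ℚ] AlgebraicClosure ℚ, ∀ P,
        Affine.Point.map σ.toAlgHom P.1 = (φ P).1) ∨
    ∃ d : ℤ, Squarefree d ∧ d ≠ 1 ∧ ∀ l : ℕ, ∀ [Fact l.Prime],
      (∃ C : VariableChange ℚ_[l],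
        HasGoodReduction ℤ_[l] (C • E.map (algebraMap ℚ ℚ_[l]))) →
      ¬ IsSquare (d : ZMod l) → E.LFunction l = 0 :=
  (galoisSurjectiveTorsion_large_or_dihedral_bad E).imp_right
    fun ⟨d, hd, hd1, _, _, h⟩ => ⟨d, hd, hd1, h⟩

/-- A criterion: if every quadratic field has an inert prime of good reduction with `a_l ≠ 0`, then
Galois induces every automorphism of the `p ^ n`-torsion for all large `p`. -/
theorem galoisSurjectiveTorsion_large_of_traces (E : WeierstrassCurve ℚ) [E.IsElliptic]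
    [inst : DecidableEq (AlgebraicClosure ℚ)]
    (h : ∀ d : ℤ, Squarefree d → d ≠ 1 → ∃ (l : ℕ) (_ : Fact l.Prime),
      (∃ C : VariableChange ℚ_[l],
        HasGoodReduction ℤ_[l] (C • E.map (algebraMap ℚ ℚ_[l]))) ∧
      ¬ IsSquare (d : ZMod l) ∧ E.LFunction l ≠ 0) :
    ∃ M : ℕ, ∀ p : ℕ, p.Prime → M < p → ∀ (n : ℕ)
      (φ : Submodule.torsionBy ℤ (E.toAffine⁄(AlgebraicClosure ℚ)).Point ((p : ℤ) ^ n) ≃+
        Submodule.torsionBy ℤ (E.toAffine⁄(AlgebraicClosure ℚ)).Point ((p : ℤ) ^ n)),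
      ∃ σ : AlgebraicClosure ℚ ≃ₐ[ℚ] AlgebraicClosure ℚ, ∀ P,
        Affine.Point.map σ.toAlgHom P.1 = (φ P).1 := by
  refine (galoisSurjectiveTorsion_large_or_dihedral E).resolve_right ?_
  rintro ⟨d, hd, hd1, h0⟩
  obtain ⟨l, hl, hgood, hns, hne⟩ := h d hd hd1
  exact hne (h0 l hgood hns)

/-- The criterion with finitely many fields to test: only the radicands supported at the primes of
bad reduction, and not `3` modulo `4` if the reduction at `2` is good. -/
theorem galoisSurjectiveTorsion_large_of_traces_bad (E : WeierstrassCurve ℚ) [E.IsElliptic]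
    [inst : DecidableEq (AlgebraicClosure ℚ)]
    (h : ∀ d : ℤ, Squarefree d → d ≠ 1 →
      (∀ q : ℕ, ∀ [Fact q.Prime], (q : ℤ) ∣ d → ¬ ∃ C : VariableChange ℚ_[q],
        HasGoodReduction ℤ_[q] (C • E.map (algebraMap ℚ ℚ_[q]))) →
      (d % 4 = 3 → ¬ ∃ C : VariableChange ℚ_[2],
        HasGoodReduction ℤ_[2] (C • E.map (algebraMap ℚ ℚ_[2]))) →
      ∃ (l : ℕ) (_ : Fact l.Prime), (∃ C : VariableChange ℚ_[l],
        HasGoodReduction ℤ_[l] (C • E.map (algebraMap ℚ ℚ_[l]))) ∧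
      ¬ IsSquare (d : ZMod l) ∧ E.LFunction l ≠ 0) :
    ∃ M : ℕ, ∀ p : ℕ, p.Prime → M < p → ∀ (n : ℕ)
      (φ : Submodule.torsionBy ℤ (E.toAffine⁄(AlgebraicClosure ℚ)).Point ((p : ℤ) ^ n) ≃+
        Submodule.torsionBy ℤ (E.toAffine⁄(AlgebraicClosure ℚ)).Point ((p : ℤ) ^ n)),
      ∃ σ : AlgebraicClosure ℚ ≃ₐ[ℚ] AlgebraicClosure ℚ, ∀ P,
        Affine.Point.map σ.toAlgHom P.1 = (φ P).1 := by
  refine (galoisSurjectiveTorsion_large_or_dihedral_bad E).resolve_right ?_
  rintro ⟨d, hd, hd1, hq, h4, h0⟩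
  obtain ⟨l, hl, hgood, hns, hne⟩ := h d hd hd1 hq h4
  exact hne (h0 l hgood hns)

end FA.Summary

end
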