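import Fermat.Agent.Bashmakov.Family
import Fermat.Agent.Root.SummaryBashmakov
import Fermat.Agent.Root.SummarySerreDichotomy

/-!
# The theorem of Bashmakov and Ribet: Kummer theory for several points

If Galois induces every automorphism of `E[pⁿ]`, `p` odd, and the rational points `P i` are
independent modulo `p`, then for `pⁿ Q i = P i` every automorphism of `E[pⁿ]` with every family of
translations of the `Q i` is given by an element of Galois: the Galois group of
`ℚ(E[pⁿ], p⁻ⁿ⟨P i⟩)` is the whole semidirect product of `GL₂(ℤ/pⁿ)` and `E[pⁿ]ʳ`. So this holds for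
independent points at all large `p` when `j` has a pole, or with nonvanishing traces at inert primes
of every quadratic field.
-/

set_option autoImplicit false
set_option linter.style.haveILetI false

noncomputable section

open WeierstrassCurve WeierstrassCurve.Affine
open scoped WeierstrassCurve.Affine

local notation "Qb" => AlgebraicClosure ℚ
local notation "GQ" => AlgebraicClosure ℚ ≃ₐ[ℚ] AlgebraicClosure ℚ

namespace FA.Summary

open FA.Bashmakov

/-- **Bashmakov–Ribet**: for an odd prime `p` with every automorphism of `E[pⁿ]` induced by Galois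
and rational points independent modulo `p`, every automorphism of `E[pⁿ]` and every family of
translations of `pⁿ`-th parts are given by one element of Galois. -/
theorem bashmakovFamily (E : WeierstrassCurve ℚ) [E.IsElliptic]
    [inst : DecidableEq (AlgebraicClosure ℚ)] {p : ℕ} (hp : p.Prime) (hp2 : p ≠ 2) (n : ℕ)
    (hfull : ∀ φ : Submodule.torsionBy ℤ (E.toAffine⁄(AlgebraicClosure ℚ)).Point ((p : ℤ) ^ n) ≃+
        Submodule.torsionBy ℤ (E.toAffine⁄(AlgebraicClosure ℚ)).Point ((p : ℤ) ^ n),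
      ∃ σ : GQ, ∀ T, Affine.Point.map σ.toAlgHom T.1 = (φ T).1)
    {ι : Type*} [Fintype ι] (P : ι → E.toAffine.Point)
    (hP : ∀ a : ι → ℤ, (∃ i, ¬ (p : ℤ) ∣ a i) → ∀ R : E.toAffine.Point,
      p • R ≠ ∑ i, a i • P i)
    {Q : ι → (E.toAffine⁄(AlgebraicClosure ℚ)).Point}
    (hQ : ∀ i, p ^ n • Q i = Affine.Point.map (W' := E.toAffine) (Algebra.ofId ℚ Qb) (P i))
    (φ : Submodule.torsionBy ℤ (E.toAffine⁄(AlgebraicClosure ℚ)).Point ((p : ℤ) ^ n) ≃+
      Submodule.torsionBy ℤ (E.toAffine⁄(AlgebraicClosure ℚ)).Point ((p : ℤ) ^ n))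
    (t : ι → Submodule.torsionBy ℤ (E.toAffine⁄(AlgebraicClosure ℚ)).Point ((p : ℤ) ^ n)) :
    ∃ σ : GQ, (∀ T, Affine.Point.map σ.toAlgHom T.1 = (φ T).1) ∧
      ∀ i, Affine.Point.map σ.toAlgHom (Q i) = Q i + (t i).1 := by
  obtain rfl : inst = instDecEqAlgebraicClosureRat := Subsingleton.elim _ _
  haveI := Fact.mk hp
  obtain ⟨c⟩ := exists_torsion_coord E p n
  obtain ⟨c₁⟩ := exists_torsion_coord E p 1
  refine exists_act_family_pow (pointAct E) hp2 c₁ c hfull (fun i σ => ?_)
    (fun a ha R hR he => ?_) φ t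
  · rw [hQ i]
    exact FA.Torsion.map_fixed E σ (P i)
  · obtain ⟨R₀, hR₀⟩ := FA.Thirteen.exists_rat_point (E := E) R hR
    refine hP a ha R₀ (Affine.Point.map_injective (W' := E.toAffine) (Algebra.ofId ℚ Qb) ?_)
    refine (map_nsmul (Affine.Point.map (W' := E.toAffine) (Algebra.ofId ℚ Qb)) p R₀).trans
      ((congrArg (p • ·) hR₀).trans (he.trans ?_))
    refine Eq.trans ?_ (map_sum (Affine.Point.map (W' := E.toAffine) (Algebra.ofId ℚ Qb)) _ _).symm
    exact Finset.sum_congr rfl fun i _ => by rw [hQ i]; exact (map_zsmul _ _ _).symm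

/-- **Bashmakov–Ribet for large primes**: if `j` has a pole and the points are independent, then for
all sufficiently large primes `p` and all `n` Galois gives every automorphism of `E[pⁿ]` with every
family of translations of `pⁿ`-th parts. -/
theorem bashmakovFamily_large (E : WeierstrassCurve ℚ) [E.IsElliptic]
    (h : ∃ q : ℕ, q.Prime ∧ padicValRat q E.j < 0) [inst : DecidableEq (AlgebraicClosure ℚ)]
    {ι : Type*} [Fintype ι] (P : ι → E.toAffine.Point) (hP : LinearIndependent ℤ P) :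
    ∃ M : ℕ, ∀ p : ℕ, p.Prime → M < p → ∀ (n : ℕ)
      (Q : ι → (E.toAffine⁄(AlgebraicClosure ℚ)).Point),
      (∀ i, p ^ n • Q i = Affine.Point.map (W' := E.toAffine) (Algebra.ofId ℚ Qb) (P i)) →
      ∀ (φ : Submodule.torsionBy ℤ (E.toAffine⁄(AlgebraicClosure ℚ)).Point ((p : ℤ) ^ n) ≃+
          Submodule.torsionBy ℤ (E.toAffine⁄(AlgebraicClosure ℚ)).Point ((p : ℤ) ^ n))
        (t : ι → Submodule.torsionBy ℤ (E.toAffine⁄(AlgebraicClosure ℚ)).Point ((p : ℤ) ^ n)),
      ∃ σ : GQ, (∀ T, Affine.Point.map σ.toAlgHom T.1 = (φ T).1) ∧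
        ∀ i, Affine.Point.map σ.toAlgHom (Q i) = Q i + (t i).1 := by
  obtain rfl : inst = instDecEqAlgebraicClosureRat := Subsingleton.elim _ _
  obtain ⟨M, hM⟩ := galoisSurjectiveTorsion_pow_large E h
  haveI := FA.MordellWeil.mordell E
  obtain ⟨B, hB⟩ := FA.LinearDependence.exists_bound_independent_family hP
  exact ⟨M + B + 2, fun p hp hlt n Q hQ φ t => bashmakovFamily E hp (by omega) n
    (hM p hp (by omega) n) P (hB p hp (by omega)) hQ φ t⟩

/-- **Whatever the invariant**: the same holds if every quadratic field has an inert prime of good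
reduction with nonzero trace. -/
theorem bashmakovFamily_large_of_traces (E : WeierstrassCurve ℚ) [E.IsElliptic]
    [inst : DecidableEq (AlgebraicClosure ℚ)]
    (h : ∀ d : ℤ, Squarefree d → d ≠ 1 → ∃ (l : ℕ) (_ : Fact l.Prime),
      (∃ C : VariableChange ℚ_[l],
        HasGoodReduction ℤ_[l] (C • E.map (algebraMap ℚ ℚ_[l]))) ∧
      ¬ IsSquare (d : ZMod l) ∧ E.LFunction l ≠ 0)
    {ι : Type*} [Fintype ι] (P : ι → E.toAffine.Point) (hP : LinearIndependent ℤ P) :
    ∃ M : ℕ, ∀ p : ℕ, p.Prime → M < p → ∀ (n : ℕ)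
      (Q : ι → (E.toAffine⁄(AlgebraicClosure ℚ)).Point),
      (∀ i, p ^ n • Q i = Affine.Point.map (W' := E.toAffine) (Algebra.ofId ℚ Qb) (P i)) →
      ∀ (φ : Submodule.torsionBy ℤ (E.toAffine⁄(AlgebraicClosure ℚ)).Point ((p : ℤ) ^ n) ≃+
          Submodule.torsionBy ℤ (E.toAffine⁄(AlgebraicClosure ℚ)).Point ((p : ℤ) ^ n))
        (t : ι → Submodule.torsionBy ℤ (E.toAffine⁄(AlgebraicClosure ℚ)).Point ((p : ℤ) ^ n)),
      ∃ σ : GQ, (∀ T, Affine.Point.map σ.toAlgHom T.1 = (φ T).1) ∧
        ∀ i, Affine.Point.map σ.toAlgHom (Q i) = Q i + (t i).1 := by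
  obtain rfl : inst = instDecEqAlgebraicClosureRat := Subsingleton.elim _ _
  obtain ⟨M, hM⟩ := galoisSurjectiveTorsion_large_of_traces E h
  haveI := FA.MordellWeil.mordell E
  obtain ⟨B, hB⟩ := FA.LinearDependence.exists_bound_independent_family hP
  exact ⟨M + B + 2, fun p hp hlt n Q hQ φ t => bashmakovFamily E hp (by omega) n
    (hM p hp (by omega) n) P (hB p hp (by omega)) hQ φ t⟩

end FA.Summary

end
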