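import Fermat.Agent.PisotCriterion.Theorem

/-!
# Pisot's theorem

A Pisot number is a real algebraic integer `θ > 1` whose other conjugates have absolute value
below `1`. Write `‖x‖ = |x - round x|` for the distance to the nearest integer.

* `pisot_theorem`: if `θ > 1`, `λ ≠ 0` and `∑ ‖λ θ ^ n‖ ^ 2 < ∞` then `θ` is a Pisot number and
  `λ ∈ ℚ(θ)` (Pisot);
* `pisot_characterisation`: so `θ > 1` is a Pisot number iff such a `λ` exists;
* `pisot_pow_near_integer`: the powers of a Pisot number approach integers geometrically;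
* `hardy_pisot`: an algebraic `θ > 1` with `‖λ θ ^ n‖ → 0` for some `λ ≠ 0` is a Pisot number
  (Hardy);
* `pow_rat_not_tendsto_int`: for a rational non-integer `q > 1`, such as `3 / 2`, no
  `‖λ q ^ n‖` tends to zero.

Complements `SummarySmyth`; independent of S01.
-/

set_option autoImplicit false

noncomputable section

open Polynomial Filter Topology
open scoped IntermediateField

namespace FA.Summary

/-- **Pisot's theorem.** -/
theorem pisot_theorem {θ lam : ℝ} (hθ : 1 < θ) (hlam : lam ≠ 0)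
    (h : Summable fun n : ℕ => (lam * θ ^ n - round (lam * θ ^ n)) ^ 2) :
    (IsIntegral ℤ θ ∧
      ∀ z : ℂ, aeval z (minpoly ℤ θ) = 0 → z ≠ (θ : ℂ) → ‖z‖ < 1) ∧ lam ∈ ℚ⟮θ⟯ :=
  ⟨(FA.PisotCriterion.isPisot_of_summable hθ hlam h).1.2,
    (FA.PisotCriterion.isPisot_of_summable hθ hlam h).2⟩

/-- **The characterisation of Pisot numbers.** -/
theorem pisot_characterisation {θ : ℝ} (hθ : 1 < θ) :
    (IsIntegral ℤ θ ∧ ∀ z : ℂ, aeval z (minpoly ℤ θ) = 0 → z ≠ (θ : ℂ) → ‖z‖ < 1) ↔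
      ∃ lam : ℝ, lam ≠ 0 ∧
        Summable fun n : ℕ => (lam * θ ^ n - round (lam * θ ^ n)) ^ 2 :=
  ⟨fun h => (FA.PisotCriterion.isPisot_iff hθ).1 ⟨hθ, h⟩,
    fun h => ((FA.PisotCriterion.isPisot_iff hθ).2 h).2⟩

/-- **The powers of a Pisot number.** -/
theorem pisot_pow_near_integer {θ : ℝ} (hθ : 1 < θ) (hint : IsIntegral ℤ θ)
    (hconj : ∀ z : ℂ, aeval z (minpoly ℤ θ) = 0 → z ≠ (θ : ℂ) → ‖z‖ < 1) :
    ∃ C r : ℝ, 0 ≤ C ∧ 0 ≤ r ∧ r < 1 ∧ ∀ n : ℕ, |θ ^ n - round (θ ^ n)| ≤ C * r ^ n :=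
  FA.PisotCriterion.exists_round_pow_le ⟨hθ, hint, hconj⟩

/-- **The theorem of Hardy.** -/
theorem hardy_pisot {θ lam : ℝ} (hθ : 1 < θ) (halg : IsAlgebraic ℚ θ) (hlam : lam ≠ 0)
    (h : Tendsto (fun n : ℕ => lam * θ ^ n - round (lam * θ ^ n)) atTop (𝓝 0)) :
    (IsIntegral ℤ θ ∧
      ∀ z : ℂ, aeval z (minpoly ℤ θ) = 0 → z ≠ (θ : ℂ) → ‖z‖ < 1) ∧ lam ∈ ℚ⟮θ⟯ :=
  ⟨(FA.PisotCriterion.isPisot_of_tendsto hθ halg hlam h).1.2,
    (FA.PisotCriterion.isPisot_of_tendsto hθ halg hlam h).2⟩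

/-- **Powers of non-integral rationals.** -/
theorem pow_rat_not_tendsto_int {q : ℚ} (hq : 1 < q) (hden : q.den ≠ 1) {lam : ℝ}
    (hlam : lam ≠ 0) :
    ¬Tendsto (fun n : ℕ => lam * (q : ℝ) ^ n - round (lam * (q : ℝ) ^ n)) atTop (𝓝 0) :=
  FA.PisotCriterion.not_tendsto_of_rat hq hden hlam

end FA.Summary

end
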