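import Fermat.Agent.JordanZassenhaus.Representations

/-!
# The theorem of Jordan and Zassenhaus

An order is a subring, finitely generated as a group, containing a nonzero multiple of every element;
a lattice is a finitely generated subgroup containing a nonzero multiple of every vector.

* `classSet_finite`: an order in a division algebra has finitely many classes of one-sided ideals.
* `jordan_zassenhaus`: in a module over a semisimple algebra the lattices stable under an order fall
  into finitely many classes under the automorphisms of the module.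
* `jordan_zassenhaus_rank`: an order has finitely many lattices of bounded rank up to isomorphism.
* `integralRepresentations_finite`: a finite group has finitely many integral representations of
  each degree up to conjugation.
* `jordan_finite_subgroups`: `GL n ℤ` has finitely many conjugacy classes of finite subgroups.
-/

set_option autoImplicit false
set_option linter.style.haveILetI false

noncomputable section

open Module
open FA.JordanZassenhaus

namespace FA.Summary

universe v

/-- **The class set of an order in a division algebra is finite.** -/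
theorem classSet_finite {D : Type*} [DivisionRing D] [Algebra ℚ D] [FiniteDimensional ℚ D]
    (O : Subring D) (hfg : O.toAddSubgroup.FG) (hspan : ∀ a : D, ∃ n : ℕ, n ≠ 0 ∧ n • a ∈ O) :
    ∃ F : Finset (Submodule ℤ D), ∀ L : Submodule ℤ D, L.FG →
      (∀ a : D, ∃ n : ℕ, n ≠ 0 ∧ n • a ∈ L) → (∀ r ∈ O, ∀ x ∈ L, r * x ∈ L) →
      ∃ d : D, d ≠ 0 ∧ L.map (LinearMap.mulRight ℤ d) ∈ F := by
  haveI : IsAddTorsionFree D := IsAddTorsionFree.of_module_rat _
  obtain ⟨F, hF⟩ := (hasBoundedClasses (A := D) (R := AddSubgroup.toIntSubmodule O.toAddSubgroup)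
    ⟨(Submodule.fg_iff_addSubgroup_fg _).2 (by simpa using hfg), hspan⟩ D).exists_finite
  refine ⟨F, fun L hL hfull hst => ?_⟩
  obtain ⟨φ, hφ⟩ := hF L ⟨hL, hfull⟩ hst
  refine ⟨φ 1, fun h => one_ne_zero (φ.map_eq_zero_iff.1 h), ?_⟩
  have e : ∀ x, x * φ 1 = φ x := fun x => by
    rw [← smul_eq_mul, ← φ.map_smul, smul_eq_mul, mul_one]
  have h : L.map (LinearMap.mulRight ℤ (φ 1)) =
      L.map φ.toAddEquiv.toIntLinearEquiv.toLinearMap := by
    ext y
    exact exists_congr fun x => and_congr_right fun _ => by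
      show x * φ 1 = y ↔ φ x = y
      rw [e]
  rw [h]
  exact hφ

variable {A : Type*} [Ring A] [Algebra ℚ A] [IsSemisimpleRing A] (O : Subring A)

/-- **The theorem of Jordan and Zassenhaus.** -/
theorem jordan_zassenhaus (hfg : O.toAddSubgroup.FG) (hspan : ∀ a : A, ∃ n : ℕ, n ≠ 0 ∧ n • a ∈ O)
    (V : Type v) [AddCommGroup V] [Module A V] [Module ℚ V] [IsScalarTower ℚ A V]
    [FiniteDimensional ℚ V] :
    ∃ F : Finset (Submodule ℤ V), ∀ L : Submodule ℤ V, L.FG →
      (∀ x : V, ∃ n : ℕ, n ≠ 0 ∧ n • x ∈ L) → (∀ r ∈ O, ∀ x ∈ L, r • x ∈ L) →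
      ∃ φ : V ≃ₗ[A] V, L.map φ.toAddEquiv.toIntLinearEquiv.toLinearMap ∈ F := by
  haveI : IsAddTorsionFree V := IsAddTorsionFree.of_module_rat _
  obtain ⟨F, hF⟩ := (hasBoundedClasses (R := AddSubgroup.toIntSubmodule O.toAddSubgroup)
    ⟨(Submodule.fg_iff_addSubgroup_fg _).2 (by simpa using hfg), hspan⟩ V).exists_finite
  exact ⟨F, fun L hL hfull hst => hF L ⟨hL, hfull⟩ hst⟩

/-- **Finitely many lattices of bounded rank.** -/
theorem jordan_zassenhaus_rank [FiniteDimensional ℚ A] (hfg : O.toAddSubgroup.FG)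
    (hspan : ∀ a : A, ∃ n : ℕ, n ≠ 0 ∧ n • a ∈ O) (m : ℕ) :
    ∃ F : Set (Σ S : Submodule A (Fin m → A), Submodule ℤ S), F.Finite ∧
      ∀ (V : Type v) [AddCommGroup V] [Module A V] [Module ℚ V] [IsScalarTower ℚ A V]
        [FiniteDimensional ℚ V], finrank ℚ V ≤ m → ∀ L : Submodule ℤ V, L.FG →
        (∀ x : V, ∃ n : ℕ, n ≠ 0 ∧ n • x ∈ L) → (∀ r ∈ O, ∀ x ∈ L, r • x ∈ L) →
        ∃ SL ∈ F, ∃ f : V ≃ₗ[A] SL.1,
          L.map f.toAddEquiv.toIntLinearEquiv.toLinearMap = SL.2 := by
  obtain ⟨F, hfin, hF⟩ := exists_finite_lattices.{v}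
    (R := AddSubgroup.toIntSubmodule O.toAddSubgroup)
    ⟨(Submodule.fg_iff_addSubgroup_fg _).2 (by simpa using hfg), hspan⟩ m
  exact ⟨F, hfin, fun V _ _ _ _ _ hd L hL hfull hst => hF V hd L ⟨hL, hfull⟩ hst⟩

/-- **Finitely many integral representations of each degree.** -/
theorem integralRepresentations_finite (G : Type*) [Group G] [Finite G] (n : ℕ) :
    ∃ F : Finset (G →* Matrix.GeneralLinearGroup (Fin n) ℤ),
      ∀ ρ : G →* Matrix.GeneralLinearGroup (Fin n) ℤ,
        ∃ σ ∈ F, ∃ P, ∀ g, σ g = P * ρ g * P⁻¹ :=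
  finite_integral_representations G n

/-- **Jordan's finiteness theorem.** -/
theorem jordan_finite_subgroups (n : ℕ) :
    ∃ F : Finset (Subgroup (Matrix.GeneralLinearGroup (Fin n) ℤ)),
      ∀ H : Subgroup (Matrix.GeneralLinearGroup (Fin n) ℤ), Finite H →
        ∃ H' ∈ F, ∃ P, H' = H.map (MulAut.conj P).toMonoidHom :=
  finite_subgroup_classes n

end FA.Summary

end
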