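import Fermat.Agent.LinearGroups.CrystallographicRestriction
import Mathlib.LinearAlgebra.Matrix.GeneralLinearGroup.Defs

/-!
# The crystallographic restriction theorem

* `crystallographic_restriction`, `crystallographic_restriction_rat`: for `0 < n` there is an
  element of order `m` in `GL_n(ℤ)`, equally in `GL_n(ℚ)`, iff the sum of `φ(p ^ k)` over the prime
  powers exactly dividing `m`, other than `2 ^ 1`, is at most `n`;
* `crystallographic_two`, `crystallographic_three`, `crystallographic_four`: in dimensions `2` and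
  `3` the orders are `1, 2, 3, 4, 6`, in dimension `4` also `5, 8, 10, 12`.
-/

set_option autoImplicit false

noncomputable section

open FA.LinearGroups.Crystallographic

namespace FA.Summary

theorem crystalDim_formula (m : ℕ) : crystalDim m = ∑ p ∈ m.primeFactors,
    if p ^ m.factorization p = 2 then 0 else Nat.totient (p ^ m.factorization p) := by
  rw [crystalDim_eq_sum m subset_rfl]
  refine Finset.sum_congr rfl fun p hp => ?_
  have hk : m.factorization p ≠ 0 := by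
    rwa [← Finsupp.mem_support_iff, Nat.support_factorization]
  rw [weight]
  refine if_congr ?_ rfl rfl
  simp [hk, (Nat.prime_two).pow_eq_iff]

theorem orderOf_map_castRat {n : ℕ} (A : Matrix (Fin n) (Fin n) ℤ) :
    orderOf ((Int.castRingHom ℚ).mapMatrix A) = orderOf A :=
  orderOf_injective ((Int.castRingHom ℚ).mapMatrix (m := Fin n)).toMonoidHom
    (Matrix.map_injective Int.cast_injective) A

/-- **The crystallographic restriction over `ℤ`.** -/
theorem crystallographic_restriction {n m : ℕ} (hn : 0 < n) (hm : 0 < m) :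
    (∃ A : Matrix.GeneralLinearGroup (Fin n) ℤ, orderOf A = m) ↔
      (∑ p ∈ m.primeFactors,
        if p ^ m.factorization p = 2 then 0 else Nat.totient (p ^ m.factorization p)) ≤ n := by
  rw [← crystalDim_formula]
  refine ⟨fun ⟨A, hA⟩ => crystalDim_le_of_orderOf hm
    ((Int.castRingHom ℚ).mapMatrix (A : Matrix (Fin n) (Fin n) ℤ)) ?_, fun h => ?_⟩
  · rw [orderOf_map_castRat, orderOf_units, hA]
  · obtain ⟨A, hA⟩ := hasOrder_of_le hm hn h
    refine ⟨Units.ofPowEqOne A m (hA ▸ pow_orderOf_eq_one A) hm.ne', ?_⟩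
    rw [← orderOf_units, Units.val_ofPowEqOne, hA]

/-- **The crystallographic restriction over `ℚ`.** -/
theorem crystallographic_restriction_rat {n m : ℕ} (hn : 0 < n) (hm : 0 < m) :
    (∃ A : Matrix.GeneralLinearGroup (Fin n) ℚ, orderOf A = m) ↔
      (∑ p ∈ m.primeFactors,
        if p ^ m.factorization p = 2 then 0 else Nat.totient (p ^ m.factorization p)) ≤ n := by
  rw [← crystalDim_formula]
  refine ⟨fun ⟨A, hA⟩ => crystalDim_le_of_orderOf hm (A : Matrix (Fin n) (Fin n) ℚ)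
    (by rw [orderOf_units, hA]), fun h => ?_⟩
  obtain ⟨A, hA⟩ := hasOrder_of_le hm hn h
  refine ⟨Units.map (Int.castRingHom ℚ).mapMatrix.toMonoidHom
    (Units.ofPowEqOne A m (hA ▸ pow_orderOf_eq_one A) hm.ne'), ?_⟩
  rw [← orderOf_units, Units.coe_map, Units.val_ofPowEqOne, ← hA]
  exact orderOf_map_castRat A

/-- Prime powers of dimension at most four divide `120`. -/
theorem dvd_of_crystalDim_le {m : ℕ} (hm : m ≠ 0) (h : crystalDim m ≤ 4) : m ∣ 120 := by
  refine (Nat.dvd_iff_prime_pow_dvd_dvd 120 m).2 fun p k hp hpk => ?_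
  have hw := (weight_le_crystalDim hm hp hpk).trans h
  rcases Nat.eq_zero_or_pos k with rfl | hk
  · simp
  rw [weight] at hw
  split_ifs at hw with h'
  · rcases h' with h' | ⟨rfl, rfl⟩
    · omega
    · decide
  have h8 : p ^ k ≤ 8 := by
    rw [Nat.totient_prime_pow hp hk] at hw
    have h2 := hp.two_le
    have : p ^ k = p ^ (k - 1) * p := by rw [← pow_succ]; congr 1; omega
    rw [this]
    calc p ^ (k - 1) * p ≤ p ^ (k - 1) * ((p - 1) + (p - 1)) := Nat.mul_le_mul_left _ (by omega)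
      _ = p ^ (k - 1) * (p - 1) + p ^ (k - 1) * (p - 1) := mul_add _ _ _
      _ ≤ 8 := by omega
  have h1 : 1 ≤ p ^ k := Nat.one_le_pow _ _ hp.pos
  clear h' hpk
  interval_cases hq : p ^ k <;> revert hw <;> decide

/-- The dimensions of the candidates. -/
theorem crystalDim_le_iff {m n : ℕ} (hm : 0 < m) (hn : n ≤ 4) :
    crystalDim m ≤ n ↔ ∃ a b c, a ≤ 3 ∧ b ≤ 1 ∧ c ≤ 1 ∧ m = 2 ^ a * 3 ^ b * 5 ^ c ∧
      weight 2 a + weight 3 b + weight 5 c ≤ n := by
  have val : ∀ a b c, crystalDim (2 ^ a * 3 ^ b * 5 ^ c) = weight 2 a + weight 3 b + weight 5 c :=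
    fun a b c => by
      rw [crystalDim_mul, crystalDim_mul, crystalDim_prime_pow Nat.prime_two,
        crystalDim_prime_pow Nat.prime_three, crystalDim_prime_pow Nat.prime_five]
      · exact Nat.Coprime.pow _ _ (by decide)
      · exact Nat.Coprime.mul_left (Nat.Coprime.pow _ _ (by decide))
          (Nat.Coprime.pow _ _ (by decide))
  refine ⟨fun h => ?_, fun ⟨a, b, c, _, _, _, he, h⟩ => he ▸ (val a b c).symm ▸ h⟩
  have h120 : m ∣ 2 ^ 3 * 3 ^ 1 * 5 ^ 1 := dvd_of_crystalDim_le hm.ne' (h.trans hn)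
  obtain ⟨u, w, hu, hw, rfl⟩ := Nat.dvd_mul.1 h120
  obtain ⟨r, s, hr, hs, rfl⟩ := Nat.dvd_mul.1 hu
  obtain ⟨a, ha, rfl⟩ := (Nat.dvd_prime_pow Nat.prime_two).1 hr
  obtain ⟨b, hb, rfl⟩ := (Nat.dvd_prime_pow Nat.prime_three).1 hs
  obtain ⟨c, hc, rfl⟩ := (Nat.dvd_prime_pow Nat.prime_five).1 hw
  exact ⟨a, b, c, ha, hb, hc, rfl, val a b c ▸ h⟩

theorem weight_values : weight 2 0 = 0 ∧ weight 2 1 = 0 ∧ weight 2 2 = 2 ∧ weight 2 3 = 4 ∧
    weight 3 0 = 0 ∧ weight 3 1 = 2 ∧ weight 5 0 = 0 ∧ weight 5 1 = 4 := by decide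

theorem crystallographic_table {n : ℕ} (hn : 0 < n) (hn4 : n ≤ 4) {m : ℕ} (hm : 0 < m) :
    (∃ A : Matrix.GeneralLinearGroup (Fin n) ℤ, orderOf A = m) ↔
      m = 1 ∨ m = 2 ∨ ((m = 3 ∨ m = 4 ∨ m = 6) ∧ 2 ≤ n) ∨
        ((m = 5 ∨ m = 8 ∨ m = 10 ∨ m = 12) ∧ 4 ≤ n) := by
  rw [crystallographic_restriction hn hm, ← crystalDim_formula, crystalDim_le_iff hm hn4]
  obtain ⟨t1, t2, t3, t4, t5, t6, t7, t8⟩ := weight_values
  constructor
  · rintro ⟨a, b, c, ha, hb, hc, rfl, h⟩
    interval_cases a <;> interval_cases b <;> interval_cases c <;>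
      simp [t1, t2, t3, t4, t5, t6, t7, t8] at h ⊢ <;> omega
  · rintro (rfl | rfl | ⟨rfl | rfl | rfl, h⟩ | ⟨rfl | rfl | rfl | rfl, h⟩)
    exacts [⟨0, 0, 0, by simp [t1, t5, t7]⟩, ⟨1, 0, 0, by simp [t2, t5, t7]⟩,
      ⟨0, 1, 0, by simp [t1, t6, t7, h]⟩, ⟨2, 0, 0, by simp [t3, t5, t7, h]⟩,
      ⟨1, 1, 0, by simp [t2, t6, t7, h]⟩, ⟨0, 0, 1, by simp [t1, t5, t8, h]⟩,
      ⟨3, 0, 0, by simp [t4, t5, t7, h]⟩, ⟨1, 0, 1, by simp [t2, t5, t8, h]⟩,
      ⟨2, 1, 0, by simp [t3, t6, t7, h]⟩]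

/-- The orders in dimension two. -/
theorem crystallographic_two {m : ℕ} (hm : 0 < m) :
    (∃ A : Matrix.GeneralLinearGroup (Fin 2) ℤ, orderOf A = m) ↔
      m ∈ ({1, 2, 3, 4, 6} : Finset ℕ) := by
  rw [crystallographic_table two_pos (by norm_num) hm]
  simp

/-- The orders in dimension three. -/
theorem crystallographic_three {m : ℕ} (hm : 0 < m) :
    (∃ A : Matrix.GeneralLinearGroup (Fin 3) ℤ, orderOf A = m) ↔
      m ∈ ({1, 2, 3, 4, 6} : Finset ℕ) := by
  rw [crystallographic_table three_pos (by norm_num) hm]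
  simp

/-- The orders in dimension four. -/
theorem crystallographic_four {m : ℕ} (hm : 0 < m) :
    (∃ A : Matrix.GeneralLinearGroup (Fin 4) ℤ, orderOf A = m) ↔
      m ∈ ({1, 2, 3, 4, 5, 6, 8, 10, 12} : Finset ℕ) := by
  rw [crystallographic_table four_pos le_rfl hm]
  simp
  omega

end FA.Summary

end
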