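import Fermat.Agent.RealPoints.Equidistribution

/-!
# Equidistribution of the multiples of a point

Weyl's theorem, and for a point of infinite order on `y² = x³ + A x + B` over the reals or over
`ℚ`: its multiples have positive ordinate with natural density exactly one half, and abscissa
above any bound with a positive natural density.
-/

set_option autoImplicit false
set_option linter.style.haveILetI false

noncomputable section

open Filter Topology WeierstrassCurve MeasureTheory AddCircle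

namespace FA.Summary

theorem tendsto_ncard_of_hasDensity {p : ℕ → Prop} {d : ℝ} (h : FA.RealPoints.HasDensity p d) :
    Tendsto (fun N : ℕ => ({n : ℕ | n < N ∧ p n}.ncard : ℝ) / N) atTop (𝓝 d) := by
  classical
  refine Tendsto.congr (fun N => ?_) h
  rw [← Set.ncard_coe_finset]
  refine congrArg (fun s : Set ℕ => (s.ncard : ℝ) / N) (Set.ext fun n => ?_)
  simp

/-- **Weyl's equidistribution theorem.** -/
theorem weylEquidistribution {T : ℝ} [Fact (0 < T)] {α : AddCircle T}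
    (hα : ∀ n : ℤ, n ≠ 0 → n • α ≠ 0) (β : AddCircle T) (f : C(AddCircle T, ℂ)) :
    Tendsto (fun N : ℕ => (∑ n ∈ Finset.range N, f (β + n • α)) / N) atTop
      (𝓝 (∫ x, f x ∂(haarAddCircle : Measure (AddCircle T)))) :=
  FA.RealPoints.tendsto_average hα β f

/-- **Weyl for arcs**: the natural density of the visits to an arc is its relative length. -/
theorem weylEquidistribution_arc {T : ℝ} [Fact (0 < T)] {α : AddCircle T}
    (hα : ∀ n : ℤ, n ≠ 0 → n • α ≠ 0) (β : AddCircle T) {a b : ℝ} (hab : a ≤ b) (hb : b ≤ a + T) :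
    Tendsto (fun N : ℕ => ({n : ℕ | n < N ∧
        β + n • α ∈ ((↑) : ℝ → AddCircle T) '' Set.Ioo a b}.ncard : ℝ) / N) atTop
      (𝓝 ((b - a) / T)) := by
  set U := ((↑) : ℝ → AddCircle T) '' Set.Ioo a b
  set F := ((↑) : ℝ → AddCircle T) '' Set.Icc a b
  have hF : IsClosed F := (isCompact_Icc.image (AddCircle.continuous_mk' T)).isClosed
  have hU : IsOpen U := QuotientAddGroup.isOpenMap_coe _ isOpen_Ioo
  have hUF : U ⊆ F := Set.image_mono Set.Ioo_subset_Icc_self
  have h0 : (haarAddCircle : Measure (AddCircle T)) (F \ U) = 0 := by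
    refine FA.RealPoints.haar_finite
      ((Set.toFinite {(a : AddCircle T), (b : AddCircle T)}).subset ?_)
    rintro _ ⟨⟨x, hx, rfl⟩, hnot⟩
    rcases hx.1.eq_or_lt with rfl | h1
    · exact Or.inl rfl
    · exact hx.2.eq_or_lt.elim (fun e => Or.inr (by rw [e]; rfl))
        fun h2 => absurd ⟨x, ⟨h1, h2⟩, rfl⟩ hnot
  rw [← FA.RealPoints.haar_arc hab hb]
  exact tendsto_ncard_of_hasDensity (FA.RealPoints.hasDensity_visits hα β hU hF subset_rfl hUF h0
    fun _ => Iff.rfl)

/-- **Half of the multiples lie above the axis.** -/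
theorem multiples_y_pos_density {A B : ℝ} [(⟨0, 0, 0, A, B⟩ : WeierstrassCurve ℝ).IsElliptic]
    {P : (⟨0, 0, 0, A, B⟩ : WeierstrassCurve ℝ).toAffine.Point} (hP : ¬IsOfFinAddOrder P) :
    Tendsto (fun N : ℕ => ({n : ℕ | n < N ∧
        ∃ x y h, n • P = .some x y h ∧ 0 < y}.ncard : ℝ) / N) atTop (𝓝 (1 / 2)) :=
  tendsto_ncard_of_hasDensity (FA.RealPoints.equidistributed hP).1

/-- **A positive proportion of the multiples exceed any bound.** -/
theorem multiples_x_gt_density {A B : ℝ} [(⟨0, 0, 0, A, B⟩ : WeierstrassCurve ℝ).IsElliptic]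
    {P : (⟨0, 0, 0, A, B⟩ : WeierstrassCurve ℝ).toAffine.Point} (hP : ¬IsOfFinAddOrder P)
    (M : ℝ) : ∃ d, 0 < d ∧ Tendsto (fun N : ℕ => ({n : ℕ | n < N ∧
        ∃ x y h, n • P = .some x y h ∧ M < x}.ncard : ℝ) / N) atTop (𝓝 d) :=
  let ⟨d, hd, h⟩ := (FA.RealPoints.equidistributed hP).2 M
  ⟨d, hd, tendsto_ncard_of_hasDensity h⟩

/-- **The same over `ℚ`**: the multiples of a rational point of infinite order have positive
ordinate with density one half and large abscissa with positive density. -/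
theorem rationalMultiples_density {A B : ℚ} [(⟨0, 0, 0, A, B⟩ : WeierstrassCurve ℚ).IsElliptic]
    {P : (⟨0, 0, 0, A, B⟩ : WeierstrassCurve ℚ).toAffine.Point} (hP : ¬IsOfFinAddOrder P) :
    Tendsto (fun N : ℕ => ({n : ℕ | n < N ∧
        ∃ x y h, n • P = .some x y h ∧ 0 < y}.ncard : ℝ) / N) atTop (𝓝 (1 / 2)) ∧
      ∀ M : ℚ, ∃ d, 0 < d ∧ Tendsto (fun N : ℕ => ({n : ℕ | n < N ∧
        ∃ x y h, n • P = .some x y h ∧ M < x}.ncard : ℝ) / N) atTop (𝓝 d) := by
  have hE : ((⟨0, 0, 0, A, B⟩ : WeierstrassCurve ℚ)⁄ℝ) = FA.RealPoints.shortCurve A B := by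
    ext <;> simp
  haveI : (⟨0, 0, 0, (A : ℝ), (B : ℝ)⟩ : WeierstrassCurve ℝ).IsElliptic := by
    show (FA.RealPoints.shortCurve A B).IsElliptic
    rw [← hE]
    show ((⟨0, 0, 0, A, B⟩ : WeierstrassCurve ℚ).map (algebraMap ℚ ℝ)).IsElliptic
    infer_instance
  let ι : (⟨0, 0, 0, A, B⟩ : WeierstrassCurve ℚ).toAffine.Point →+
      (FA.RealPoints.shortCurve A B).toAffine.Point :=
    (FA.RealPoints.castPoint hE).comp (Affine.Point.map (W' := (⟨0, 0, 0, A, B⟩ :
      WeierstrassCurve ℚ).toAffine) (S := ℚ) (F := ℚ) (K := ℝ) (Algebra.ofId ℚ ℝ))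
  have hinj : Function.Injective ι := (FA.RealPoints.castPoint_injective hE).comp
    (Affine.Point.map_injective (W' := (⟨0, 0, 0, A, B⟩ : WeierstrassCurve ℚ).toAffine) (R := ℚ)
      (S := ℚ) (F := ℚ) (K := ℝ) (Algebra.ofId ℚ ℝ))
  have hsome : ∀ x' y'
      (h : (⟨0, 0, 0, A, B⟩ : WeierstrassCurve ℚ).toAffine.Nonsingular x' y'),
      ∃ h', ι (.some x' y' h) = .some (x' : ℝ) (y' : ℝ) h' := fun x' y' h =>
    ⟨_, FA.RealPoints.castPoint_some hE _⟩
  have hiff : ∀ (φ : ℝ → ℝ → Prop) (n : ℕ),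
      (∃ x y h, n • ι P = .some x y h ∧ φ x y) ↔
        ∃ x y h, n • P = Affine.Point.some x y h ∧ φ (x : ℝ) (y : ℝ) := by
    intro φ n
    rw [← map_nsmul]
    constructor
    · rintro ⟨x, y, h, e, hφ⟩
      generalize n • P = Q at e ⊢
      cases Q with
      | zero => exact absurd (e.symm.trans ι.map_zero) (Affine.Point.some_ne_zero _)
      | some q₁ q₂ hq =>
        obtain ⟨h', e'⟩ := hsome q₁ q₂ hq
        rw [e', Affine.Point.some.injEq] at e
        exact ⟨q₁, q₂, hq, rfl, by rw [e.1, e.2]; exact hφ⟩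
    · rintro ⟨x, y, h, e, hφ⟩
      obtain ⟨h', e'⟩ := hsome x y h
      exact ⟨_, _, h', by rw [e, e'], hφ⟩
  obtain ⟨h1, h2⟩ := FA.RealPoints.equidistributed
    (mt (hinj.isOfFinAddOrder_iff).mp hP : ¬IsOfFinAddOrder (ι P))
  refine ⟨tendsto_ncard_of_hasDensity (h1.congr fun n => ?_), fun M => ?_⟩
  · rw [hiff (fun _ y => 0 < y) n]
    simp only [Rat.cast_pos]
  · obtain ⟨d, hd, h⟩ := h2 M
    refine ⟨d, hd, tendsto_ncard_of_hasDensity (h.congr fun n => ?_)⟩
    rw [hiff (fun x _ => (M : ℝ) < x) n]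
    simp only [Rat.cast_lt]

end FA.Summary

end
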