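import Fermat.Agent.RealPoints.PeriodDensity
import Fermat.Agent.Root.SummaryRealEquidistribution

/-!
# Gauss's theorem and the real period

Gauss's integral is `π / (2 agm)`; half the least real period of a lattice with real invariants is
the complete integral of `dx / √(4 x³ - g₂ x - g₃)`, hence with three real roots the period is
`π / agm`; and the multiples of a point of infinite order on the identity component are
distributed by `dx / y`.
-/

set_option autoImplicit false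
set_option linter.style.haveILetI false

noncomputable section

open Filter Topology MeasureTheory WeierstrassCurve Set
open scoped Real NNReal

namespace FA.Summary

/-- **Gauss's theorem** on the arithmetic-geometric mean. -/
theorem gauss_agm {a b : ℝ≥0} (ha : 0 < a) (hb : 0 < b) :
    ∫ x in Ioi (0 : ℝ), (√((x ^ 2 + (a : ℝ) ^ 2) * (x ^ 2 + (b : ℝ) ^ 2)))⁻¹ =
      π / (2 * (NNReal.agm a b : ℝ)) :=
  FA.RealPoints.gaussIntegral_eq_agm ha hb

/-- **The real period is the complete elliptic integral.** -/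
theorem realPeriod_integral (L : PeriodPair) {a b e : ℝ} (h₂ : L.g₂ = a) (h₃ : L.g₃ = b)
    (he : 4 * e ^ 3 - a * e - b = 0) (hbeyond : ∀ t > e, 0 < 4 * t ^ 3 - a * t - b) :
    ∃ ω : ℝ, 0 < ω ∧ (∀ s : ℝ, (s : ℂ) ∈ L.lattice ↔ ∃ m : ℤ, s = m * ω) ∧
      ω = 2 * ∫ x in Ioi e, (√(4 * x ^ 3 - a * x - b))⁻¹ := by
  obtain ⟨ω, hω, hper⟩ := FA.RealPoints.exists_real_period L h₂ h₃
  exact ⟨ω, hω, hper, by rw [← FA.RealPoints.half_period_eq L h₂ h₃ hω hper he hbeyond]; ring⟩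

/-- The complete integral with three real roots. -/
theorem completeIntegral_agm {e₁ e₂ e₃ : ℝ} (h12 : e₁ < e₂) (h23 : e₂ < e₃) :
    ∫ x in Ioi e₃, (√(4 * ((x - e₁) * (x - e₂) * (x - e₃))))⁻¹ =
      π / (2 * (NNReal.agm (√(e₃ - e₁)).toNNReal (√(e₃ - e₂)).toNNReal : ℝ)) := by
  have h1 : 0 < (√(e₃ - e₁)).toNNReal :=
    Real.toNNReal_pos.mpr (Real.sqrt_pos.mpr (by linarith))
  have h2 : 0 < (√(e₃ - e₂)).toNNReal :=
    Real.toNNReal_pos.mpr (Real.sqrt_pos.mpr (by linarith))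
  rw [FA.RealPoints.integral_three_roots h12 h23, ← FA.RealPoints.gaussIntegral_eq_agm h1 h2,
    Real.coe_toNNReal _ (Real.sqrt_nonneg _), Real.coe_toNNReal _ (Real.sqrt_nonneg _)]

/-- **The real period as an arithmetic-geometric mean**: when `4 x³ - g₂ x - g₃` has three real
roots, the least positive real period is `π / agm(√(e₃ - e₁), √(e₃ - e₂))`. -/
theorem realPeriod_agm (L : PeriodPair) {e₁ e₂ e₃ : ℝ} (h12 : e₁ < e₂) (h23 : e₂ < e₃)
    (h0 : e₁ + e₂ + e₃ = 0) (h₂ : L.g₂ = ((-4 * (e₁ * e₂ + e₁ * e₃ + e₂ * e₃) : ℝ) : ℂ))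
    (h₃ : L.g₃ = ((4 * (e₁ * e₂ * e₃) : ℝ) : ℂ)) :
    ∃ ω : ℝ, 0 < ω ∧ (∀ s : ℝ, (s : ℂ) ∈ L.lattice ↔ ∃ m : ℤ, s = m * ω) ∧
      ω = π / (NNReal.agm (√(e₃ - e₁)).toNNReal (√(e₃ - e₂)).toNNReal : ℝ) := by
  have hf : ∀ t : ℝ, 4 * t ^ 3 - -4 * (e₁ * e₂ + e₁ * e₃ + e₂ * e₃) * t -
      4 * (e₁ * e₂ * e₃) = 4 * ((t - e₁) * (t - e₂) * (t - e₃)) := fun t => by
    linear_combination 4 * t ^ 2 * h0
  obtain ⟨ω, hω, hper, he⟩ := realPeriod_integral L (e := e₃) h₂ h₃
    (by rw [hf, sub_self, mul_zero, mul_zero])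
    (fun t ht => by
      rw [hf]
      exact mul_pos (by norm_num) (mul_pos (mul_pos (by linarith) (by linarith)) (by linarith)))
  refine ⟨ω, hω, hper, ?_⟩
  simp only [hf] at he
  rw [he, completeIntegral_agm h12 h23]
  field_simp

/-- The lemniscatic case, the curve `y² = x³ - x`. -/
theorem lemniscatic_agm :
    ∫ x in Ioi (1 : ℝ), (√(4 * (x ^ 3 - x)))⁻¹ =
      π / (2 * (NNReal.agm (√2).toNNReal 1 : ℝ)) := by
  have h := completeIntegral_agm (e₁ := -1) (e₂ := 0) (e₃ := 1) (by norm_num) (by norm_num)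
  norm_num at h
  rw [← h]
  refine setIntegral_congr_fun measurableSet_Ioi fun x _ => ?_
  rw [show 4 * (x ^ 3 - x) = 2 ^ 2 * ((x + 1) * x * (x - 1)) by ring,
    Real.sqrt_mul (by norm_num), Real.sqrt_sq zero_le_two]
  ring

/-- **The law of the multiples**: for a point of infinite order on the identity component and a
bound `M` not below the largest root `e`, the proportion of multiples with `x > M` is
`∫_M^∞ dx / y` over `∫_e^∞ dx / y`. -/
theorem multiples_distribution {A B : ℝ} [(⟨0, 0, 0, A, B⟩ : WeierstrassCurve ℝ).IsElliptic]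
    {P : (⟨0, 0, 0, A, B⟩ : WeierstrassCurve ℝ).toAffine.Point} (hP : ¬IsOfFinAddOrder P)
    (hid : ∀ x y h, P = .some x y h → ∀ t > x, 0 < t ^ 3 + A * t + B) {e M : ℝ}
    (he : e ^ 3 + A * e + B = 0) (hbeyond : ∀ t > e, 0 < t ^ 3 + A * t + B) (hM : e ≤ M) :
    Tendsto (fun N : ℕ => ({n : ℕ | n < N ∧
        ∃ x y h, n • P = .some x y h ∧ M < x}.ncard : ℝ) / N) atTop
      (𝓝 ((∫ x in Ioi M, (√(x ^ 3 + A * x + B))⁻¹) /
        ∫ x in Ioi e, (√(x ^ 3 + A * x + B))⁻¹)) :=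
  tendsto_ncard_of_hasDensity (FA.RealPoints.multiples_distribution hP hid he hbeyond hM)

end FA.Summary

end
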