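import Fermat.Agent.RealPoints.GammaPeriod
import Fermat.Agent.Root.SummaryRealPeriod

/-!
# Periods as values of the Gamma function

Gauss's lemniscate constant, the real periods of `y² = x³ - n² x` and of `y² = x³ - 1`, and
Hurwitz's value of the Eisenstein series of weight four of the Gaussian integers.
-/

set_option autoImplicit false
set_option linter.style.haveILetI false

noncomputable section

open MeasureTheory Set WeierstrassCurve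
open scoped Real NNReal

namespace FA.Summary

/-- **The complete integral of `y² = x³ - x`.** -/
theorem lemniscatic_gamma :
    ∫ x in Ioi (1 : ℝ), (√(x ^ 3 - x))⁻¹ = Real.Gamma (1 / 4) ^ 2 / (2 * √(2 * π)) :=
  FA.RealPoints.integral_lemniscatic

/-- **The complete integral of `y² = x³ - 1`.** -/
theorem equianharmonic_gamma :
    ∫ x in Ioi (1 : ℝ), (√(x ^ 3 - 1))⁻¹ =
      Real.Gamma (1 / 3) ^ 3 / ((2 : ℝ) ^ (4 / 3 : ℝ) * π) :=
  FA.RealPoints.integral_equianharmonic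

/-- **Gauss's constant**: `agm(√2, 1) = (2 π) ^ (3/2) / Γ(1/4)²`. -/
theorem agm_sqrt_two :
    (NNReal.agm (√2).toNNReal 1 : ℝ) = √(2 * π) ^ 3 / Real.Gamma (1 / 4) ^ 2 := by
  have h := lemniscatic_agm
  have e : ∫ x in Ioi (1 : ℝ), (√(4 * (x ^ 3 - x)))⁻¹ =
      2⁻¹ * ∫ x in Ioi (1 : ℝ), (√(x ^ 3 - x))⁻¹ := by
    rw [← integral_const_mul]
    refine setIntegral_congr_fun measurableSet_Ioi fun x _ => ?_
    rw [show (4 : ℝ) = 2 ^ 2 by norm_num, Real.sqrt_mul (by norm_num), Real.sqrt_sq zero_le_two,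
      mul_inv]
  rw [e, lemniscatic_gamma] at h
  have hM : (0 : ℝ) < (NNReal.agm (√2).toNNReal 1 : ℝ) := NNReal.coe_pos.mpr
    (NNReal.agm_pos (Real.toNNReal_pos.mpr (Real.sqrt_pos.mpr two_pos)) one_pos)
  have hg := Real.Gamma_pos_of_pos (show (0 : ℝ) < 1 / 4 by norm_num)
  have hs := Real.sq_sqrt (show (0 : ℝ) ≤ 2 * π by positivity)
  have hs0 : 0 < √(2 * π) := Real.sqrt_pos.mpr (by positivity)
  field_simp at h ⊢
  rw [pow_succ (√(2 * π)) 2, hs]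
  linear_combination h

/-- **The real period of the congruent number curve** `y² = x³ - n² x` is
`Γ(1/4)² / (2 √(2 π n))`. -/
theorem congruentCurve_realPeriod (L : PeriodPair) {n : ℝ} (hn : 0 < n)
    (h₂ : L.g₂ = ((4 * n ^ 2 : ℝ) : ℂ)) (h₃ : L.g₃ = 0) :
    ∃ ω : ℝ, 0 < ω ∧ (∀ s : ℝ, (s : ℂ) ∈ L.lattice ↔ ∃ m : ℤ, s = m * ω) ∧
      ω = Real.Gamma (1 / 4) ^ 2 / (2 * √(2 * π * n)) := by
  obtain ⟨ω, hω, hper, he⟩ := realPeriod_integral L (b := 0) (e := n) h₂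
    (by rw [h₃, Complex.ofReal_zero]) (by ring) (fun t ht => by
      have h1 : 0 < t := hn.trans ht
      have h2 : 0 < t ^ 2 - n ^ 2 := sub_pos.mpr (pow_lt_pow_left₀ ht hn.le two_ne_zero)
      nlinarith [mul_pos h1 h2])
  refine ⟨ω, hω, hper, ?_⟩
  have h := integral_comp_mul_left_Ioi' (fun x : ℝ => (√(x ^ 3 - n ^ 2 * x))⁻¹) 1 hn
  rw [mul_one] at h
  have e : ∀ x : ℝ, (√((n * x) ^ 3 - n ^ 2 * (n * x)))⁻¹ = (n * √n)⁻¹ * (√(x ^ 3 - x))⁻¹ := by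
    intro x
    rw [show (n * x) ^ 3 - n ^ 2 * (n * x) = n ^ 2 * n * (x ^ 3 - x) by ring,
      Real.sqrt_mul (by positivity), Real.sqrt_mul (sq_nonneg n), Real.sqrt_sq hn.le, mul_inv]
  simp only [e, integral_const_mul, lemniscatic_gamma, smul_eq_mul] at h
  rw [he]
  have e2 : ∫ x in Ioi n, (√(4 * x ^ 3 - 4 * n ^ 2 * x - 0))⁻¹ =
      2⁻¹ * ∫ x in Ioi n, (√(x ^ 3 - n ^ 2 * x))⁻¹ := by
    rw [← integral_const_mul]
    refine setIntegral_congr_fun measurableSet_Ioi fun x _ => ?_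
    rw [show 4 * x ^ 3 - 4 * n ^ 2 * x - 0 = 2 ^ 2 * (x ^ 3 - n ^ 2 * x) by ring,
      Real.sqrt_mul (by norm_num), Real.sqrt_sq zero_le_two, mul_inv]
  rw [e2, ← h, Real.sqrt_mul (by positivity) n]
  field_simp

/-- **The real period of `y² = x³ - 1`** is `Γ(1/3)³ / (2 ^ (4/3) π)`. -/
theorem mordellCurve_realPeriod (L : PeriodPair) (h₂ : L.g₂ = 0) (h₃ : L.g₃ = 4) :
    ∃ ω : ℝ, 0 < ω ∧ (∀ s : ℝ, (s : ℂ) ∈ L.lattice ↔ ∃ m : ℤ, s = m * ω) ∧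
      ω = Real.Gamma (1 / 3) ^ 3 / ((2 : ℝ) ^ (4 / 3 : ℝ) * π) := by
  obtain ⟨ω, hω, hper, he⟩ := realPeriod_integral L (a := 0) (b := 4) (e := 1)
    (by rw [h₂, Complex.ofReal_zero]) (by rw [h₃, Complex.ofReal_ofNat]) (by ring)
    (fun t ht => by nlinarith [one_lt_pow₀ ht three_ne_zero])
  refine ⟨ω, hω, hper, ?_⟩
  rw [he, ← equianharmonic_gamma, ← integral_const_mul]
  refine setIntegral_congr_fun measurableSet_Ioi fun x _ => ?_
  rw [show 4 * x ^ 3 - 0 * x - 4 = 2 ^ 2 * (x ^ 3 - 1) by ring, Real.sqrt_mul (by norm_num),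
    Real.sqrt_sq zero_le_two]
  ring

/-- **Hurwitz's value**: the sum of `(m + n i) ^ -4` over the nonzero Gaussian integers. -/
theorem hurwitz_gaussian_G4 :
    ∑' p : ℤ × ℤ, (((p.1 : ℂ) + (p.2 : ℂ) * Complex.I) ^ 4)⁻¹ =
      ((Real.Gamma (1 / 4) ^ 8 / (960 * π ^ 2) : ℝ) : ℂ) := by
  obtain ⟨L, h2, h3⟩ := FA.JInj.exists_g₂_g₃ (a := 4) (b := 0) (by norm_num)
  have h₂ : L.g₂ = ((4 * (1 : ℝ) ^ 2 : ℝ) : ℂ) := by rw [h2]; norm_num
  obtain ⟨ω, hω, hper, hval⟩ := congruentCurve_realPeriod L one_pos h₂ h3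
  have hmem := FA.RealPoints.mem_lattice_square L h₂ h3 hω hper one_pos (by norm_num)
    (fun t ht => by nlinarith [one_lt_pow₀ ht two_ne_zero])
  have hωc : (ω : ℂ) ≠ 0 := Complex.ofReal_ne_zero.mpr hω.ne'
  let e : ℤ × ℤ ≃ L.lattice := Equiv.ofBijective
    (fun p => ⟨(ω : ℂ) * ((p.1 : ℂ) + (p.2 : ℂ) * Complex.I), (hmem _).mpr ⟨p, rfl⟩⟩)
    ⟨fun p q h => by
      have h' := mul_left_cancel₀ hωc (congrArg Subtype.val h)
      have h1 := congrArg Complex.re h'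
      have h2 := congrArg Complex.im h'
      simp at h1 h2
      exact Prod.ext h1 h2,
    fun l => by
      obtain ⟨p, hp⟩ := (hmem _).mp l.2
      exact ⟨p, Subtype.ext hp.symm⟩⟩
  have hG : L.G 4 = ((ω : ℂ) ^ 4)⁻¹ *
      ∑' p : ℤ × ℤ, (((p.1 : ℂ) + (p.2 : ℂ) * Complex.I) ^ 4)⁻¹ := by
    rw [PeriodPair.G, ← e.tsum_eq, ← tsum_mul_left]
    refine tsum_congr fun p => ?_
    show (((ω : ℂ) * ((p.1 : ℂ) + (p.2 : ℂ) * Complex.I)) ^ 4)⁻¹ = _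
    rw [mul_pow, mul_inv]
  rw [PeriodPair.g₂, hG] at h2
  have hS : ∑' p : ℤ × ℤ, (((p.1 : ℂ) + (p.2 : ℂ) * Complex.I) ^ 4)⁻¹ =
      ((ω ^ 4 / 15 : ℝ) : ℂ) := by
    generalize ∑' p : ℤ × ℤ, (((p.1 : ℂ) + (p.2 : ℂ) * Complex.I) ^ 4)⁻¹ = S at h2 ⊢
    push_cast
    field_simp at h2 ⊢
    linear_combination (1 / 4 : ℂ) * h2
  rw [hS]
  congr 1
  rw [hval, mul_one, div_pow, mul_pow,
    show √(2 * π) ^ 4 = (√(2 * π) ^ 2) ^ 2 by ring, Real.sq_sqrt (by positivity)]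
  field_simp
  ring

end FA.Summary

end
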