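import Fermat.Agent.BSD32.CentralValue
import Fermat.Agent.Root.SummaryGammaPeriods

/-!
# The leading coefficient of Birch and Swinnerton-Dyer for `y² = x³ - x`

`L(E, 1) = Γ(1/4)² / (8 √(2 π))`, a quarter of the least real period; as `E(ℝ)` has two
components, `L(E, 1) / Ω = 1/8`.
-/

set_option autoImplicit false
set_option linter.style.haveILetI false

noncomputable section

open scoped Real

namespace FA.Summary

/-- **The central value, exactly**: any entire continuation of the L-series of `y² = x³ - x`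
has the value `Γ(1/4)² / (8 √(2 π))` at `1`. -/
theorem centralValue_32a_exact {G : ℂ → ℂ} (hG : Differentiable ℂ G)
    (hGs : ∀ s : ℂ, 2 < s.re →
      G s = (⟨0, 0, 0, -1, 0⟩ : WeierstrassCurve ℚ).LSeries s) :
    G 1 = ((Real.Gamma (1 / 4) ^ 2 / (8 * √(2 * π)) : ℝ) : ℂ) := by
  rw [FA.BSD32.centralValue_eq_integral hG hGs, FA.BSD32.integral_form32_axis,
    Real.Gamma_one_half_eq, show (2 : ℂ) * (π : ℂ) = ((2 * π : ℝ) : ℂ) by push_cast; ring,
    ← Complex.ofReal_mul]
  congr 1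
  have h1 := Real.Gamma_mul_Gamma_one_sub (1 / 4)
  rw [show π * (1 / 4) = π / 4 by ring, Real.sin_pi_div_four,
    show (1 : ℝ) - 1 / 4 = 3 / 4 by norm_num] at h1
  have hg := Real.Gamma_pos_of_pos (show (0 : ℝ) < 1 / 4 by norm_num)
  have hg' := Real.Gamma_pos_of_pos (show (0 : ℝ) < 3 / 4 by norm_num)
  have hπ2 : √π ^ 2 = π := Real.sq_sqrt Real.pi_pos.le
  have h22 : √(2 : ℝ) ^ 2 = 2 := Real.sq_sqrt zero_le_two
  have hs := Real.sqrt_pos.mpr Real.pi_pos
  rw [Real.sqrt_mul zero_le_two]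
  field_simp at h1 ⊢
  linear_combination (16 * √2) * hπ2 - (8 * √2) * h1 +
    (8 * Real.Gamma (1 / 4) * Real.Gamma (3 / 4)) * h22

/-- The same as an evaluation of the rapidly convergent series. -/
theorem centralValue_32a_series :
    2 * ∑' n : ℕ, ((⟨0, 0, 0, -1, 0⟩ : WeierstrassCurve ℚ).LFunction n : ℂ) / n *
        (Real.exp (-(2 * π * n / Real.sqrt 32)) : ℂ) =
      ((Real.Gamma (1 / 4) ^ 2 / (8 * √(2 * π)) : ℝ) : ℂ) := by
  obtain ⟨g, hg, hgs, hser, -⟩ := centralValue_32a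
  rw [← hser]
  exact centralValue_32a_exact hg fun s hs => hgs s (by linarith)

/-- **Birch and Swinnerton-Dyer's ratio**: the L-series of `y² = x³ - x` continues to an entire
function with value at `1` a quarter of the least positive real period `ω` of the lattice of the
curve, that is an eighth of `Ω = 2 ω`. -/
theorem bsd_ratio_32a (L : PeriodPair) (h₂ : L.g₂ = 4) (h₃ : L.g₃ = 0) :
    ∃ (G : ℂ → ℂ) (ω : ℝ), Differentiable ℂ G ∧
      (∀ s : ℂ, 3 / 2 < s.re → G s = (⟨0, 0, 0, -1, 0⟩ : WeierstrassCurve ℚ).LSeries s) ∧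
      0 < ω ∧ (∀ s : ℝ, (s : ℂ) ∈ L.lattice ↔ ∃ m : ℤ, s = m * ω) ∧
      G 1 = ((2 * ω / 8 : ℝ) : ℂ) := by
  obtain ⟨g, hg, hgs, -, -⟩ := centralValue_32a
  obtain ⟨ω, hω, hper, hval⟩ := congruentCurve_realPeriod L one_pos
    (by rw [h₂]; norm_num) h₃
  refine ⟨g, ω, hg, hgs, hω, hper, ?_⟩
  rw [centralValue_32a_exact hg fun s hs => hgs s (by linarith), hval, mul_one]
  congr 1
  ring

end FA.Summary

end
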