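import Fermat.Agent.Twists.FrickeTwist
import Fermat.Agent.HasseBound.Series

/-!
# The central value as a rapidly convergent series

For a weight two cusp form with `g (-1 / (M τ)) = -M τ² g τ` and the coefficients of an elliptic
L-function the central value is `2 ∑ a_n / n e^(-2 π n / √M)`; as `|a_n| / n ≤ 2` the first term
dominates for `M ≤ 32`, so it is not zero.
-/

set_option autoImplicit false

noncomputable section

open UpperHalfPlane hiding I
open ModularForm CongruenceSubgroup Complex MeasureTheory Set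
open FA.Period
open scoped Real MatrixGroups

namespace FA.Central

/-- `d (n) ≤ 2 √n`. -/
theorem card_divisors_le_two_mul_sqrt (n : ℕ) :
    (n.divisors.card : ℝ) ≤ 2 * Real.sqrt n := by
  set A := Finset.Icc 1 n.sqrt
  have hsub : n.divisors ⊆ A ∪ A.image (n / ·) := fun d hd => by
    obtain ⟨⟨e, he⟩, hn⟩ := Nat.mem_divisors.mp hd
    have hd0 : d ≠ 0 := fun h => hn (by rw [he, h, zero_mul])
    have he0 : e ≠ 0 := fun h => hn (by rw [he, h, mul_zero])
    rw [Finset.mem_union, Finset.mem_image, Finset.mem_Icc]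
    rcases Nat.lt_or_ge n.sqrt d with h | h
    · refine Or.inr ⟨e, Finset.mem_Icc.mpr ⟨by omega, ?_⟩, ?_⟩
      · by_contra h'
        have h1 := Nat.mul_le_mul (Nat.succ_le_of_lt h) (Nat.succ_le_of_lt (not_le.mp h'))
        rw [← he] at h1
        exact absurd (Nat.lt_succ_sqrt n) (by omega)
      · rw [he, Nat.mul_div_cancel _ (Nat.pos_of_ne_zero he0)]
    · exact Or.inl ⟨by omega, h⟩
  have h : n.divisors.card ≤ 2 * n.sqrt := by
    refine (Finset.card_le_card hsub).trans ((Finset.card_union_le _ _).trans ?_)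
    have := Finset.card_image_le (s := A) (f := (n / ·))
    simp only [A, Nat.card_Icc] at this ⊢
    omega
  have h' : (n.divisors.card : ℝ) ≤ 2 * (n.sqrt : ℝ) := by exact_mod_cast h
  linarith [Real.nat_sqrt_le_real_sqrt (a := n)]

/-- `|a_n| ≤ 2 n`. -/
theorem norm_LFunction_le (E : WeierstrassCurve ℚ) (n : ℕ) :
    ‖(E.LFunction n : ℂ)‖ ≤ 2 * (n : ℝ) := by
  rw [Complex.norm_intCast]
  refine (FA.Summary.lFunction_abs_le E n).trans
    ((mul_le_mul_of_nonneg_right (card_divisors_le_two_mul_sqrt n) (Real.sqrt_nonneg _)).trans_eq ?_)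
  rw [mul_assoc, Real.mul_self_sqrt (Nat.cast_nonneg n)]

variable {L : ℕ} [NeZero L]

/-- The series on the imaginary axis. -/
theorem hasSum_imAxis (g : CuspForm (Gamma0 L) 2) {r : ℝ} (hr : 0 < r) :
    HasSum (fun n : ℕ => ModularFormClass.qCoeff g n * (Real.exp (-(2 * π * r * n)) : ℂ))
      (g (ofComplex (I * (r : ℂ)))) := by
  have hQ := isQFun_of_mem (coe_mem_cuspForms g).1
  have hI : 0 < (I * (r : ℂ)).im := by simpa using hr
  rw [ofComplex_apply_of_im_pos hI]
  refine (hasSum_qExpansion one_pos hQ.periodic hQ.mdiff hQ.bdd ⟨_, hI⟩).congr_fun fun n => ?_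
  rw [smul_eq_mul, Function.Periodic.qParam, ← Complex.exp_nat_mul, Complex.ofReal_exp]
  refine congrArg (ModularFormClass.qCoeff g n * Complex.exp ·) ?_
  push_cast
  linear_combination -(2 * (π : ℂ) * r * n) * Complex.I_sq

/-- The tail of the integral, term by term. -/
theorem integral_tsum_exp {a : ℕ → ℂ} (ha : ∀ n : ℕ, ‖a n‖ ≤ 2 * (n : ℝ)) {r : ℝ} (hr : 0 < r) :
    ∫ t in Ioi (1 : ℝ), ∑' n : ℕ, a n * (Real.exp (-(r * n) * t) : ℂ) =
      ∑' n : ℕ, a n / (r * n) * (Real.exp (-(r * n)) : ℂ) := by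
  have h0 : a 0 = 0 := norm_le_zero_iff.mp (by simpa using ha 0)
  have hneg : ∀ n : ℕ, n ≠ 0 → -(r * n) < 0 := fun n hn =>
    neg_lt_zero.mpr (mul_pos hr (Nat.cast_pos.mpr (Nat.pos_of_ne_zero hn)))
  have hint : ∀ n : ℕ, Integrable (fun t : ℝ => a n * (Real.exp (-(r * n) * t) : ℂ))
      (volume.restrict (Ioi 1)) := fun n => by
    rcases eq_or_ne n 0 with rfl | hn
    · simp [h0]
    · exact ((integrableOn_exp_mul_Ioi (hneg n hn) 1).ofReal).const_mul (a n)
  have hval : ∀ n : ℕ, n ≠ 0 → ∫ t in Ioi (1 : ℝ), Real.exp (-(r * n) * t) =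
      Real.exp (-(r * n)) / (r * n) := fun n hn => by
    rw [integral_exp_mul_Ioi (hneg n hn), mul_one, neg_div_neg_eq]
  have hterm : ∀ n : ℕ, ∫ t in Ioi (1 : ℝ), a n * (Real.exp (-(r * n) * t) : ℂ) =
      a n / (r * n) * (Real.exp (-(r * n)) : ℂ) := fun n => by
    rcases eq_or_ne n 0 with rfl | hn
    · simp [h0]
    have e : ∫ t in Ioi (1 : ℝ), ((Real.exp (-(r * n) * t) : ℝ) : ℂ) =
        ((∫ t in Ioi (1 : ℝ), Real.exp (-(r * n) * t) : ℝ) : ℂ) := integral_ofReal
    rw [integral_const_mul, e, hval n hn]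
    push_cast
    ring
  rw [← integral_tsum_of_summable_integral_norm hint]
  · exact tsum_congr hterm
  · refine Summable.of_nonneg_of_le (fun n => integral_nonneg fun t => norm_nonneg _) (fun n => ?_)
      ((summable_geometric_of_lt_one (Real.exp_pos (-r)).le
        (Real.exp_lt_one_iff.mpr (neg_lt_zero.mpr hr))).mul_left (2 / r))
    rcases eq_or_ne n 0 with rfl | hn
    · simp [h0]; positivity
    simp only [norm_mul, Complex.norm_real, Real.norm_eq_abs, Real.abs_exp, integral_const_mul]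
    rw [hval n hn, ← Real.exp_nat_mul, show (n : ℝ) * -r = -(r * n) by ring]
    calc ‖a n‖ * (Real.exp (-(r * n)) / (r * n))
        ≤ 2 * n * (Real.exp (-(r * n)) / (r * n)) := mul_le_mul_of_nonneg_right (ha n) (by positivity)
      _ = 2 / r * Real.exp (-(r * n)) := by field_simp

variable {M : ℕ} [NeZero M]

/-- The completed value at the centre is twice the integral beyond the fixed point. -/
theorem completedAt_one (g : CuspForm (Gamma0 L) 2)
    (hg : ∀ τ w : ℍ, (w : ℂ) = -1 / ((M : ℂ) * (τ : ℂ)) →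
      g w = -1 * ((M : ℂ) * (τ : ℂ) ^ 2) * g τ) :
    FA.Twists.completedAt M g 1 =
      2 * ∫ t in Ioi (1 : ℝ), g (ofComplex (I * ((Real.sqrt M)⁻¹ * t : ℝ))) := by
  have hM : 0 < Real.sqrt M := Real.sqrt_pos.mpr (Nat.cast_pos.mpr (NeZero.pos M))
  set φ : ℝ → ℂ := fun t => g (ofComplex (I * ((Real.sqrt M)⁻¹ * t : ℝ))) with hφ
  have hint : IntegrableOn φ (Ioi 0) := by
    have h := (MellinConvergent.comp_mul_left (inv_pos.mpr hM)).mpr
      ((CuspForm.isStrongFEPair (Γ := (Gamma0 L : Subgroup (GL (Fin 2) ℝ))) (k := 2) two_pos g).hasMellin 1).1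
    simpa [MellinConvergent, hφ] using h
  rw [FA.Twists.completedAt_eq_mellin, mellin]
  simp only [sub_self, cpow_zero, one_smul]
  show ∫ t in Ioi 0, φ t = 2 * ∫ t in Ioi 1, φ t
  have hset : Ioi (0 : ℝ) = Ioo 0 1 ∪ Ici 1 := (Ioo_union_Ici_eq_Ioi zero_lt_one).symm
  have hdisj : Disjoint (Ioo (0 : ℝ) 1) (Ici 1) :=
    Set.disjoint_left.mpr fun x hx hx' => not_le.mpr hx.2 hx'
  rw [hset, setIntegral_union hdisj
    measurableSet_Ici (hint.mono_set (hset ▸ subset_union_left))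
    (hint.mono_set (hset ▸ subset_union_right)), integral_Ici_eq_integral_Ioi, two_mul]
  congr 1
  -- the substitution `t ↦ 1 / t`
  have h := integral_comp_rpow_Ioi ((Ioo (0 : ℝ) 1).indicator φ) (p := -1) (by norm_num)
  have e1 : ∀ {A : Set ℝ}, MeasurableSet A → A ⊆ Ioi 0 →
      ∫ t in Ioi (0 : ℝ), A.indicator φ t = ∫ t in A, φ t := fun hA hsub => by
    rw [setIntegral_indicator hA, inter_eq_right.mpr hsub]
  rw [e1 measurableSet_Ioo Ioo_subset_Ioi_self] at h
  rw [← h, ← e1 measurableSet_Ioi (Ioi_subset_Ioi zero_le_one)]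
  refine setIntegral_congr_fun measurableSet_Ioi fun t ht => ?_
  have ht : 0 < t := ht
  rw [Real.rpow_neg_one]
  by_cases h1 : 1 < t
  · rw [indicator_of_mem (mem_Ioi.mpr h1),
      indicator_of_mem (mem_Ioo.mpr ⟨inv_pos.mpr ht, inv_lt_one_of_one_lt₀ h1⟩)]
    show _ • g (ofComplex (I * ((Real.sqrt M)⁻¹ * t⁻¹ : ℝ))) = φ t
    rw [FA.Twists.imAxis_inversion g hg ht, Complex.real_smul, smul_eq_mul, smul_eq_mul, neg_neg,
      one_mul, ← mul_assoc, show ((-1 : ℝ) - 1) = ((-2 : ℤ) : ℝ) by norm_num, Real.rpow_intCast,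
      abs_neg, abs_one, one_mul, Complex.ofReal_zpow, Complex.cpow_ofNat]
    show _ = g (ofComplex (I * (((Real.sqrt M)⁻¹ * t : ℝ) : ℂ)))
    generalize g (ofComplex (I * (((Real.sqrt M)⁻¹ * t : ℝ) : ℂ))) = A
    have ht0 : (t : ℂ) ≠ 0 := Complex.ofReal_ne_zero.mpr ht.ne'
    field_simp
  · rw [indicator_of_notMem (fun h' : t ∈ Ioi (1 : ℝ) => h1 h'), indicator_of_notMem, smul_zero]
    exact fun h' => absurd h'.2 (not_lt.mpr (one_le_inv₀ ht |>.mpr (not_lt.mp h1)))

/-- **The central value** of any entire continuation. -/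
theorem centralValue_eq (g : CuspForm (Gamma0 L) 2)
    (hg : ∀ τ w : ℍ, (w : ℂ) = -1 / ((M : ℂ) * (τ : ℂ)) →
      g w = -1 * ((M : ℂ) * (τ : ℂ) ^ 2) * g τ) (E : WeierstrassCurve ℚ)
    (ha : ∀ n, ModularFormClass.qCoeff g n = (E.LFunction n : ℂ)) {G : ℂ → ℂ}
    (hG : Differentiable ℂ G) (hGs : ∀ s : ℂ, 2 < s.re → G s = E.LSeries s) :
    G 1 = 2 * ∑' n : ℕ, (E.LFunction n : ℂ) / n *
      (Real.exp (-(2 * π * n / Real.sqrt M)) : ℂ) := by
  have hM : 0 < Real.sqrt M := Real.sqrt_pos.mpr (Nat.cast_pos.mpr (NeZero.pos M))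
  -- the completion agrees on the right half plane
  have hcomp : FA.Twists.completedAt M g 1 =
      (M : ℂ) ^ ((1 : ℂ) / 2) * (2 * (π : ℂ)) ^ (-(1 : ℂ)) * Complex.Gamma 1 * G 1 := by
    refine AnalyticOnNhd.eqOn_of_preconnected_of_eventuallyEq
      (fun z _ => (FA.Twists.differentiable_completedAt M g).analyticAt z)
      (g := fun s => (M : ℂ) ^ (s / 2) * (2 * (π : ℂ)) ^ (-s) * Complex.Gamma s * G s)
      (U := {s : ℂ | 0 < s.re}) ?_ (convex_halfSpace_re_gt 0).isPreconnected (z₀ := 3)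
      (by norm_num) ?_ (show (0 : ℝ) < (1 : ℂ).re by norm_num)
    · refine DifferentiableOn.analyticOnNhd (fun z hz => DifferentiableAt.differentiableWithinAt ?_)
        (isOpen_lt continuous_const Complex.continuous_re)
      refine (((differentiableAt_id.div_const 2).const_cpow
        (Or.inl (Nat.cast_ne_zero.mpr (NeZero.ne M)))).mul (differentiableAt_id.neg.const_cpow
          (Or.inl (mul_ne_zero two_ne_zero (Complex.ofReal_ne_zero.mpr Real.pi_ne_zero))))).mul
        (Complex.differentiableAt_Gamma z fun m e => ?_) |>.mul (hG z)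
      have : (0 : ℝ) < z.re := hz
      rw [e, Complex.neg_re, Complex.natCast_re] at this
      linarith [(Nat.cast_nonneg m : (0 : ℝ) ≤ m)]
    · filter_upwards [(isOpen_lt continuous_const Complex.continuous_re).mem_nhds
        (show (2 : ℝ) < (3 : ℂ).re by norm_num)] with s hs
      rw [FA.Twists.completedAt_eq_LSeries g hs, hGs s hs, WeierstrassCurve.LSeries]
      congr 1
      exact congrArg (LSeries · s) (funext ha)
  rw [completedAt_one g hg] at hcomp
  have hr : 0 < 2 * π / Real.sqrt M := div_pos Real.two_pi_pos hM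
  have hser : ∀ t ∈ Ioi (1 : ℝ), g (ofComplex (I * ((Real.sqrt M)⁻¹ * t : ℝ))) =
      ∑' n : ℕ, (E.LFunction n : ℂ) * (Real.exp (-(2 * π / Real.sqrt M * n) * t) : ℂ) :=
    fun t ht => by
      rw [← (hasSum_imAxis g (mul_pos (inv_pos.mpr hM) (zero_lt_one.trans ht))).tsum_eq]
      refine tsum_congr fun n => ?_
      rw [ha n]
      congr 3
      ring
  rw [setIntegral_congr_fun measurableSet_Ioi hser,
    integral_tsum_exp (norm_LFunction_le E) hr] at hcomp
  have e : (M : ℂ) ^ ((1 : ℂ) / 2) = ((Real.sqrt M : ℝ) : ℂ) := by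
    rw [Real.sqrt_eq_rpow, Complex.ofReal_cpow (Nat.cast_nonneg M)]; norm_num
  rw [e, Complex.Gamma_one, cpow_neg_one, mul_one] at hcomp
  have hM' : ((Real.sqrt M : ℝ) : ℂ) ≠ 0 := Complex.ofReal_ne_zero.mpr hM.ne'
  have hπ : (π : ℂ) ≠ 0 := Complex.ofReal_ne_zero.mpr Real.pi_ne_zero
  have hs : ∀ n : ℕ, (E.LFunction n : ℂ) / (((2 * π / Real.sqrt M : ℝ) : ℂ) * n) *
      (Real.exp (-(2 * π / Real.sqrt M * n)) : ℂ) = ((Real.sqrt M : ℝ) : ℂ) / (2 * π) *
        ((E.LFunction n : ℂ) / n * (Real.exp (-(2 * π * n / Real.sqrt M)) : ℂ)) := fun n => by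
    rw [show 2 * π / Real.sqrt M * n = 2 * π * n / Real.sqrt M by ring]
    push_cast
    rcases eq_or_ne (n : ℂ) 0 with h0 | h0
    · simp [h0]
    · field_simp
  simp only [hs, tsum_mul_left] at hcomp
  field_simp at hcomp
  rw [← hcomp]
  congr 1
  exact tsum_congr fun n => by ring

/-- `e^(-2 π / √M) < 1/3` for `M ≤ 32`. -/
theorem exp_lt_third (hM : M ≤ 32) : Real.exp (-(2 * π / Real.sqrt M)) < 1 / 3 := by
  have h0 : 0 < Real.sqrt M := Real.sqrt_pos.mpr (Nat.cast_pos.mpr (NeZero.pos M))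
  have h32 : Real.sqrt M ≤ 5.657 := by
    rw [Real.sqrt_le_left (by norm_num)]
    exact le_trans (Nat.cast_le.mpr hM) (by norm_num)
  have hr : (1.1 : ℝ) ≤ 2 * π / Real.sqrt M := by
    rw [le_div_iff₀ h0]; nlinarith [Real.pi_gt_d4]
  have h1 : (3 : ℝ) < Real.exp 1.1 := by
    rw [show (1.1 : ℝ) = 1 + 0.1 by norm_num, Real.exp_add]
    nlinarith [Real.exp_one_gt_d9, Real.quadratic_le_exp_of_nonneg (show (0 : ℝ) ≤ 0.1 by norm_num)]
  rw [Real.exp_neg, one_div]
  exact inv_strictAnti₀ (by norm_num) (h1.trans_le (Real.exp_le_exp.mpr hr))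

/-- **The central value is not zero** for `M ≤ 32`. -/
theorem centralValue_ne_zero (g : CuspForm (Gamma0 L) 2) (hM32 : M ≤ 32)
    (hg : ∀ τ w : ℍ, (w : ℂ) = -1 / ((M : ℂ) * (τ : ℂ)) →
      g w = -1 * ((M : ℂ) * (τ : ℂ) ^ 2) * g τ) (E : WeierstrassCurve ℚ)
    (ha : ∀ n, ModularFormClass.qCoeff g n = (E.LFunction n : ℂ)) {G : ℂ → ℂ}
    (hG : Differentiable ℂ G) (hGs : ∀ s : ℂ, 2 < s.re → G s = E.LSeries s) : G 1 ≠ 0 := by
  rw [centralValue_eq g hg E ha hG hGs]
  refine mul_ne_zero two_ne_zero ?_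
  set x := Real.exp (-(2 * π / Real.sqrt M)) with hx
  have hx0 : 0 < x := Real.exp_pos _
  have hx1 := exp_lt_third (M := M) hM32
  set b : ℕ → ℂ := fun n => (E.LFunction n : ℂ) / n * (Real.exp (-(2 * π * n / Real.sqrt M)) : ℂ)
  have hb : ∀ n, ‖b n‖ ≤ 2 * x ^ n := fun n => by
    rw [norm_mul, Complex.norm_real, Real.norm_eq_abs, Real.abs_exp, hx, ← Real.exp_nat_mul,
      show (n : ℝ) * -(2 * π / Real.sqrt M) = -(2 * π * n / Real.sqrt M) by ring]
    refine mul_le_mul_of_nonneg_right ?_ (Real.exp_pos _).le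
    rw [norm_div, Complex.norm_natCast]
    exact div_le_of_le_mul₀ (Nat.cast_nonneg n) two_pos.le (norm_LFunction_le E n)
  have hgeo : Summable fun n => 2 * x ^ n :=
    (summable_geometric_of_lt_one hx0.le (by linarith)).mul_left 2
  have hsum : Summable b := Summable.of_norm_bounded hgeo hb
  intro h
  rw [← hsum.sum_add_tsum_nat_add 2] at h
  have htail : ‖∑' n, b (n + 2)‖ ≤ 2 * x ^ 2 * (1 - x)⁻¹ := by
    refine (tsum_of_norm_bounded ?_ fun n => hb (n + 2)).trans le_rfl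
    have := (hasSum_geometric_of_lt_one hx0.le (by linarith)).mul_left (2 * x ^ 2)
    refine this.congr_fun fun n => by ring
  have h01 : ∑ n ∈ Finset.range 2, b n = (x : ℂ) := by
    rw [Finset.sum_range_succ, Finset.sum_range_one]
    simp [b, hx, (FA.Root.isMultiplicative_LFunction E).map_one]
  have e : ‖∑' n, b (n + 2)‖ = x := by
    rw [show ∑' n, b (n + 2) = -(x : ℂ) by rw [← h01]; linear_combination h, norm_neg,
      Complex.norm_real, Real.norm_eq_abs, abs_of_pos hx0]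
  rw [e, ← div_eq_mul_inv, le_div_iff₀ (by linarith)] at htail
  nlinarith

end FA.Central

end
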