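import Mathlib.AlgebraicGeometry.EllipticCurve.Weierstrass
import Mathlib.Data.ZMod.Basic

/-!
# Split multiplicative reduction of an integral equation

The slope quadratic at the node, as in Mathlib's definition of split multiplicative reduction.
-/

set_option autoImplicit false

namespace FA.Root

/-- The slope quadratic of the node modulo `q` has a root in `ℤ/q`. -/
def SplitModel (W : WeierstrassCurve ℤ) (q : ℕ) : Prop :=
  ∃ T : ZMod q, (W.c₄ : ZMod q) * T ^ 2 + ((W.a₁ * W.c₄ : ℤ) : ZMod q) * T -
    ((54 * W.b₆ - 3 * W.b₂ * W.b₄ + W.a₂ * W.c₄ : ℤ) : ZMod q) = 0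

open scoped Classical in
/-- `1` for split and `-1` for non-split reduction. -/
noncomputable def splitSign (W : WeierstrassCurve ℤ) (q : ℕ) : ℤ :=
  if SplitModel W q then 1 else -1

end FA.Root
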