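import Fermat.Agent.Root.LFunctionForm
import Fermat.Agent.Root.LFunctionSplit
import Mathlib.Algebra.Polynomial.Splits

/-!
# Prime power coefficients of the L-function

The coefficients of Mathlib's `WeierstrassCurve.LFunction` at the powers of a prime `p` are those
of the inverse of the local polynomial at `p`. For an integral equation this polynomial is
`1 - a_p T + p T²` at a good prime and `1 - εT` at a multiplicative one, where `ε = ±1` tells
split from non-split reduction.
-/

set_option autoImplicit false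

noncomputable section

namespace FA.Root

open WeierstrassCurve IsDedekindDomain ArithmeticFunction

/-- The slope quadratic at the node of a multiplicative equation, evaluated at `T`. -/
def nodeQuad {A : Type*} [CommRing A] (V : WeierstrassCurve A) (T : A) : A :=
  V.c₄ * T ^ 2 + V.a₁ * V.c₄ * T - (54 * V.b₆ - 3 * V.b₂ * V.b₄ + V.a₂ * V.c₄)

theorem nodeQuad_variableChange {A : Type*} [CommRing A] (V : WeierstrassCurve A)
    (D : VariableChange A) (T : A) :
    nodeQuad V ((D.u : A) * T + D.s) = (D.u : A) ^ 6 * nodeQuad (D • V) T := by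
  have h : ∀ n : ℕ, (D.u : A) ^ n * ((D.u⁻¹ : Aˣ) : A) ^ n = 1 := fun n => by
    rw [← mul_pow, Units.mul_inv, one_pow]
  simp only [nodeQuad, variableChange_c₄, variableChange_a₁, variableChange_a₂,
    variableChange_b₂, variableChange_b₄, variableChange_b₆]
  set u := (D.u : A) with hu
  set y := ((D.u⁻¹ : Aˣ) : A) with hy
  calc nodeQuad V (u * T + D.s)
      = u ^ 2 * V.c₄ * T ^ 2 + u * (V.a₁ + 2 * D.s) * V.c₄ * T -
          (54 * V.b₆ - 3 * V.b₂ * V.b₄ + V.a₂ * V.c₄ - V.c₄ * D.s ^ 2 - V.a₁ * V.c₄ * D.s) := by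
        simp only [nodeQuad]; ring
    _ = _ := by
        simp only [WeierstrassCurve.c₄]
        linear_combination
          (-(u ^ 2 * (V.b₂ ^ 2 - 24 * V.b₄) * T ^ 2)) * h 4 +
          (-(u * (V.a₁ + 2 * D.s) * (V.b₂ ^ 2 - 24 * V.b₄) * T)) * h 5 +
          (54 * (V.b₆ + 2 * D.r * V.b₄ + D.r ^ 2 * V.b₂ + 4 * D.r ^ 3) -
            3 * (V.b₂ + 12 * D.r) * (V.b₄ + D.r * V.b₂ + 6 * D.r ^ 2) +
            (V.a₂ - D.s * V.a₁ + 3 * D.r - D.s ^ 2) * (V.b₂ ^ 2 - 24 * V.b₄)) * h 6

/-- The slope quadratic has a root after an admissible change of variables if and only if it had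
one before. -/
theorem exists_nodeQuad_variableChange {A : Type*} [CommRing A] (V : WeierstrassCurve A)
    (D : VariableChange A) :
    (∃ T, nodeQuad (D • V) T = 0) ↔ ∃ T, nodeQuad V T = 0 := by
  constructor
  · rintro ⟨T, hT⟩
    exact ⟨(D.u : A) * T + D.s, by rw [nodeQuad_variableChange, hT, mul_zero]⟩
  · rintro ⟨T, hT⟩
    refine ⟨((D.u⁻¹ : Aˣ) : A) * (T - D.s), (D.u ^ 6).isUnit.mul_right_eq_zero.mp ?_⟩
    rw [Units.val_pow_eq_pow_val, ← nodeQuad_variableChange, ← mul_assoc, Units.mul_inv, one_mul,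
      sub_add_cancel, hT]

/-- Changes of variables with unit scaling between integral equations are integral. -/
theorem exists_integral_change_of_unit {R K : Type*} [CommRing R] [IsDomain R] [Field K]
    [Algebra R K] [IsFractionRing R K] [IsIntegrallyClosed R] (V J : WeierstrassCurve R)
    (D : VariableChange K) (hD : D • V.map (algebraMap R K) = J.map (algebraMap R K))
    (a : Rˣ) (ha : algebraMap R K a = D.u) : ∃ D₀ : VariableChange R, D₀ • V = J := by
  have hinj := IsFractionRing.injective R K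
  have mem : ∀ (x : K) (P : Polynomial R), P.Monic → P.eval₂ (algebraMap R K) x = 0 →
      ∃ a : R, algebraMap R K a = x := fun x P hP h =>
    IsIntegrallyClosed.isIntegral_iff.mp ⟨P, hP, h⟩
  set f := algebraMap R K with hf
  set u := (D.u : K) with hu
  set y := ((D.u⁻¹ : Kˣ) : K) with hy
  have hyu : ∀ n : ℕ, u ^ n * y ^ n = 1 := fun n => by
    rw [← mul_pow, D.u.mul_inv, one_pow]
  obtain ⟨r, hr⟩ := mem D.r (Polynomial.X ^ 4 + (Polynomial.C (-V.b₄) * Polynomial.X ^ 2 +
      Polynomial.C (-2 * V.b₆ - (a : R) ^ 6 * J.b₆) * Polynomial.X +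
      Polynomial.C ((a : R) ^ 8 * J.b₈ - V.b₈))) (by
    apply Polynomial.monic_X_pow_add
    exact lt_of_le_of_lt (Polynomial.degree_quadratic_le) (by norm_num)) (by
    have e8 := congrArg WeierstrassCurve.b₈ hD
    have e6 := congrArg WeierstrassCurve.b₆ hD
    simp only [variableChange_b₈, variableChange_b₆, map_b₂, map_b₄, map_b₆, map_b₈, ← hy] at e8 e6
    simp only [Polynomial.eval₂_add, Polynomial.eval₂_mul, Polynomial.eval₂_pow,
      Polynomial.eval₂_X, Polynomial.eval₂_C]
    simp only [map_sub, map_mul, map_neg, map_pow, map_ofNat, ha]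
    linear_combination (u ^ 6 * D.r) * e6 - u ^ 8 * e8 -
      (D.r * (f V.b₆ + 2 * D.r * f V.b₄ + D.r ^ 2 * f V.b₂ + 4 * D.r ^ 3)) * hyu 6 +
      (f V.b₈ + 3 * D.r * f V.b₆ + 3 * D.r ^ 2 * f V.b₄ + D.r ^ 3 * f V.b₂ + 3 * D.r ^ 4) * hyu 8)
  obtain ⟨s, hs⟩ := mem D.s (Polynomial.X ^ 2 + (Polynomial.C V.a₁ * Polynomial.X +
      Polynomial.C ((a : R) ^ 2 * J.a₂ - V.a₂ - 3 * r))) (by
    apply Polynomial.monic_X_pow_add
    exact lt_of_le_of_lt (Polynomial.degree_linear_le) (by norm_num)) (by
    have e2 := congrArg WeierstrassCurve.a₂ hD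
    simp only [variableChange_a₂, map_a₁, map_a₂, ← hy] at e2
    simp only [Polynomial.eval₂_add, Polynomial.eval₂_mul, Polynomial.eval₂_pow,
      Polynomial.eval₂_X, Polynomial.eval₂_C]
    simp only [map_sub, map_mul, map_pow, map_ofNat, ha, hr]
    linear_combination (-(u ^ 2)) * e2 +
      (f V.a₂ - D.s * f V.a₁ + 3 * D.r - D.s ^ 2) * hyu 2)
  obtain ⟨t, ht⟩ := mem D.t (Polynomial.X ^ 2 + (Polynomial.C (V.a₃ + r * V.a₁) * Polynomial.X +
      Polynomial.C ((a : R) ^ 6 * J.a₆ - V.a₆ - r * V.a₄ - r ^ 2 * V.a₂ - r ^ 3))) (by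
    apply Polynomial.monic_X_pow_add
    exact lt_of_le_of_lt (Polynomial.degree_linear_le) (by norm_num)) (by
    have e6 := congrArg WeierstrassCurve.a₆ hD
    simp only [variableChange_a₆, map_a₁, map_a₂, map_a₃, map_a₄, map_a₆, ← hy] at e6
    simp only [Polynomial.eval₂_add, Polynomial.eval₂_mul, Polynomial.eval₂_pow,
      Polynomial.eval₂_X, Polynomial.eval₂_C]
    simp only [map_sub, map_add, map_mul, map_pow, ha, hr]
    linear_combination (-(u ^ 6)) * e6 + (f V.a₆ + D.r * f V.a₄ + D.r ^ 2 * f V.a₂ + D.r ^ 3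
      - D.t * f V.a₃ - D.t ^ 2 - D.r * D.t * f V.a₁) * hyu 6)
  let D₀ : VariableChange R := ⟨a, r, s, t⟩
  refine ⟨D₀, WeierstrassCurve.map_injective hinj ?_⟩
  have e : D₀.map f = D := VariableChange.ext (Units.ext ha) hr hs ht
  show (D₀ • V).map f = J.map f
  rw [← WeierstrassCurve.map_variableChange, e, hD]

section DVR

variable {R K : Type*} [CommRing R] [IsDomain R] [IsDiscreteValuationRing R] [Field K]
  [Algebra R K] [IsFractionRing R K]

open IsLocalRing IsDedekindDomain.HeightOneSpectrum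

local notation "val" => HeightOneSpectrum.valuation K (IsDiscreteValuationRing.maximalIdeal R)

theorem valuation_lt_one_iff_residue (x : R) :
    val (algebraMap R K x) < 1 ↔ residue R x = 0 := by
  rw [valuation_lt_one_iff_mem, residue_eq_zero_iff]
  rfl

theorem valuation_eq_one_iff_residue (x : R) :
    val (algebraMap R K x) = 1 ↔ residue R x ≠ 0 := by
  rw [ne_eq, ← valuation_lt_one_iff_residue (K := K), not_lt]
  exact (valuation_le_one _ x).ge_iff_eq.symm

theorem valuation_Δ_le_minimal (V : WeierstrassCurve R) (E : WeierstrassCurve K)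
    (C : VariableChange K) (hC : C • V.map (algebraMap R K) = E.minimal R) :
    val (algebraMap R K V.Δ) ≤ val (E.minimal R).Δ := by
  have h0 : C⁻¹ • E.minimal R = V.map (algebraMap R K) := by rw [← hC, inv_smul_smul]
  have hint : IsIntegral R (C⁻¹ • E.minimal R) := h0 ▸ ⟨V, rfl⟩
  have hmax := (IsMinimal.val_Δ_maximal (R := R) (W := E.minimal R)).2 (j := C⁻¹) hint
  simp only [one_smul] at hmax
  have h : valuation_Δ_aux R (C⁻¹ • E.minimal R) ≤ valuation_Δ_aux R (E.minimal R) :=
    (le_total _ _).elim id hmax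
  have h' : (valuation_Δ_aux R (C⁻¹ • E.minimal R)).1 ≤ (valuation_Δ_aux R (E.minimal R)).1 := h
  rw [valuation_Δ_aux_eq_of_isIntegral, valuation_Δ_aux_eq_of_isIntegral, h0, map_Δ] at h'
  exact h'

theorem residue_intCast_eq_zero_iff {p : ℕ} (e : ResidueField R ≃+* ZMod p) (n : ℤ) :
    residue R (n : R) = 0 ↔ (p : ℤ) ∣ n := by
  rw [map_intCast, ← map_eq_zero_iff e e.injective, map_intCast,
    ZMod.intCast_zmod_eq_zero_iff_dvd]

theorem exists_change_minimal (W : WeierstrassCurve ℤ) (E : WeierstrassCurve K)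
    (C : VariableChange K) (hC : C • E = W.map (Int.castRingHom K)) :
    ∃ D : VariableChange K,
      D • (W.map (Int.castRingHom R)).map (algebraMap R K) = E.minimal R := by
  refine ⟨(E.exists_isMinimal R).choose * C⁻¹, ?_⟩
  rw [WeierstrassCurve.map_map, show (algebraMap R K).comp (Int.castRingHom R) = Int.castRingHom K
    from RingHom.ext_int _ _, ← hC, mul_smul, inv_smul_smul]
  rfl

open Polynomial in
/-- The local polynomial at a good prime. -/
theorem localPolynomial_of_good {p : ℕ} [Fact p.Prime] (e : ResidueField R ≃+* ZMod p)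
    (W : WeierstrassCurve ℤ) (hp : ¬ (p : ℤ) ∣ W.Δ) (E : WeierstrassCurve K)
    (C : VariableChange K) (hC : C • E = W.map (Int.castRingHom K)) :
    E.localPolynomial R =
      1 - Polynomial.C (W.apOfModel p) * X + Polynomial.C (p : ℤ) * X ^ 2 := by
  obtain ⟨hcard, hcoeff⟩ := coeff_localPowerSeries_of_good e W hp E C hC
  obtain ⟨D, hD⟩ := exists_change_minimal (R := R) W E C hC
  have hgood : (E.minimal R).HasGoodReduction R := by
    refine (hasGoodReduction_iff R _).mpr ⟨inferInstance, le_antisymm ?_ ?_⟩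
    · rw [← integralModel_Δ_eq R (E.minimal R)]
      exact valuation_le_one _ _
    · refine le_trans ?_ (valuation_Δ_le_minimal _ E D hD)
      rw [map_Δ, eq_intCast, (valuation_eq_one_iff_residue _).mpr
        (mt (residue_intCast_eq_zero_iff e _).mp hp)]
  have key : ∀ a : ℤ, PowerSeries.coeff 1 (PowerSeries.invOfUnit
      ((1 - Polynomial.C a * X + Polynomial.C (p : ℤ) * X ^ 2 : ℤ[X]) : PowerSeries ℤ) 1) =
        a := fun a => by
    set P : ℤ[X] := 1 - Polynomial.C a * X + Polynomial.C (p : ℤ) * X ^ 2 with hP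
    have h0 : PowerSeries.constantCoeff (P : PowerSeries ℤ) = ((1 : ℤˣ) : ℤ) := by
      simp [hP]
    have h := congrArg (PowerSeries.coeff 1) (PowerSeries.mul_invOfUnit (P : PowerSeries ℤ) 1 h0)
    rw [PowerSeries.coeff_mul, show (Finset.HasAntidiagonal.antidiagonal 1 : Finset (ℕ × ℕ)) = {(0, 1), (1, 0)} from rfl,
      Finset.sum_pair (by decide), PowerSeries.coeff_zero_eq_constantCoeff, h0,
      PowerSeries.constantCoeff_invOfUnit, PowerSeries.coeff_one, if_neg one_ne_zero,
      Polynomial.coeff_coe, show P.coeff 1 = -a by simp [hP, Polynomial.coeff_one]] at h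
    simp only [inv_one, Units.val_one, one_mul, mul_one] at h
    linarith
  have hpoly : ∃ a : ℤ,
      E.localPolynomial R = 1 - Polynomial.C a * X + Polynomial.C (p : ℤ) * X ^ 2 :=
    ⟨_, by rw [localPolynomial, if_pos hgood, hcard]⟩
  obtain ⟨a, ha⟩ := hpoly
  rw [localPowerSeries, ha, key] at hcoeff
  rw [ha, hcoeff]

/-- At a prime dividing the discriminant but not `c₄` the reduction is multiplicative, and it is
split exactly when the slope quadratic of the given equation has a root modulo the prime. -/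
theorem reduction_of_multiplicative {p : ℕ} [Fact p.Prime] (e : ResidueField R ≃+* ZMod p)
    (W : WeierstrassCurve ℤ) (hΔ : (W.Δ : K) ≠ 0) (hp : (p : ℤ) ∣ W.Δ) (hc : ¬ (p : ℤ) ∣ W.c₄)
    (E : WeierstrassCurve K) (C : VariableChange K) (hC : C • E = W.map (Int.castRingHom K)) :
    (E.minimal R).HasMultiplicativeReduction R ∧
      ((E.minimal R).HasSplitMultiplicativeReduction R ↔ SplitModel W p) := by
  obtain ⟨D, hD⟩ := exists_change_minimal (R := R) W E C hC
  set V := W.map (Int.castRingHom R) with hV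
  have hJK : (integralModel R (E.minimal R)).map (algebraMap R K) = E.minimal R :=
    baseChange_integralModel_eq R _
  set J := integralModel R (E.minimal R) with hJ
  have hΔV : val (algebraMap R K V.Δ) < 1 := by
    rw [valuation_lt_one_iff_residue, hV, map_Δ, eq_intCast, residue_intCast_eq_zero_iff e]
    exact hp
  have hc4V : val (algebraMap R K V.c₄) = 1 := by
    rw [valuation_eq_one_iff_residue, hV, map_c₄, eq_intCast, ne_eq,
      residue_intCast_eq_zero_iff e]
    exact hc
  set w : K := ((D.u⁻¹ : Kˣ) : K) with hw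
  have hΔJ : (E.minimal R).Δ = w ^ 12 * algebraMap R K V.Δ := by
    rw [← hD, variableChange_Δ, map_Δ]
  have hc4J : (E.minimal R).c₄ = w ^ 4 * algebraMap R K V.c₄ := by
    rw [← hD, variableChange_c₄, map_c₄]
  have h1 : val w = 1 := by
    refine le_antisymm (not_lt.mp fun hlt => ?_) (not_lt.mp fun hlt => ?_)
    · have : val (E.minimal R).c₄ ≤ 1 := by
        rw [← integralModel_c₄_eq R (E.minimal R)]; exact valuation_le_one _ _
      rw [hc4J, map_mul, map_pow, hc4V, mul_one] at this
      exact absurd this (not_le.mpr (one_lt_pow₀ hlt (by norm_num)))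
    · have h0 : 0 < val (algebraMap R K V.Δ) := zero_lt_iff.mpr ((map_ne_zero _).mpr (by
        rw [hV, map_Δ, eq_intCast, map_intCast]; exact hΔ))
      have := valuation_Δ_le_minimal V E D hD
      rw [hΔJ, map_mul, map_pow] at this
      exact absurd this (not_le.mpr (mul_lt_of_lt_one_left h0
        (pow_lt_one₀ zero_le hlt (by norm_num))))
  have hΔJ1 : val (E.minimal R).Δ < 1 := by
    rwa [hΔJ, map_mul, map_pow, h1, one_pow, one_mul]
  have hc4J1 : val (E.minimal R).c₄ = 1 := by
    rw [hc4J, map_mul, map_pow, h1, one_pow, one_mul, hc4V]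
  have hmult : (E.minimal R).HasMultiplicativeReduction R :=
    (hasMultiplicativeReduction_iff R _).mpr ⟨inferInstance, hΔJ1, hc4J1⟩
  refine ⟨hmult, ?_⟩
  -- the scaling is a unit of `R`
  obtain ⟨b, hb⟩ := IsDiscreteValuationRing.exists_lift_of_le_one (A := R) (x := w) h1.le
  obtain ⟨a, ha⟩ := IsDiscreteValuationRing.exists_lift_of_le_one (A := R) (x := (D.u : K)) (by
    have h : val (D.u : K) * val w = 1 := by rw [← map_mul, hw, Units.mul_inv, map_one]
    rw [h1, mul_one] at h
    exact h.le)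
  have hab : a * b = 1 := IsFractionRing.injective R K (by
    rw [map_mul, map_one, ha, hb, hw, Units.mul_inv])
  obtain ⟨D₀, hD₀⟩ := exists_integral_change_of_unit V J D (by rw [hD, hJK])
    ⟨a, b, hab, by rw [mul_comm, hab]⟩ ha
  -- roots of the slope quadratics in the residue field
  have hroot : (∃ T, nodeQuad (J.map (residue R)) T = 0) ↔ SplitModel W p := by
    rw [← hD₀, ← WeierstrassCurve.map_variableChange, exists_nodeQuad_variableChange, hV,
      WeierstrassCurve.map_map]
    set g : ℤ →+* ResidueField R := (residue R).comp (Int.castRingHom R) with hg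
    have key : ∀ T : ResidueField R, nodeQuad (W.map g) T = 0 ↔
        (W.c₄ : ZMod p) * (e T) ^ 2 + ((W.a₁ * W.c₄ : ℤ) : ZMod p) * e T -
          ((54 * W.b₆ - 3 * W.b₂ * W.b₄ + W.a₂ * W.c₄ : ℤ) : ZMod p) = 0 := fun T => by
      rw [← map_eq_zero_iff e e.injective]
      simp only [nodeQuad, map_c₄, map_a₁, map_a₂, map_b₂, map_b₄, map_b₆, map_sub, map_add,
        map_mul, map_pow, map_ofNat, Int.cast_sub, Int.cast_add, Int.cast_mul,
        Int.cast_ofNat, eq_intCast, map_intCast]
    exact ⟨fun ⟨T, hT⟩ => ⟨e T, (key T).mp hT⟩,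
      fun ⟨T, hT⟩ => ⟨e.symm T, (key _).mpr (by rwa [e.apply_symm_apply])⟩⟩
  refine Iff.trans ?_ hroot
  set Q : Polynomial (ResidueField R) := Polynomial.map (algebraMap R (ResidueField R))
    (Polynomial.C J.c₄ * Polynomial.X ^ 2 + Polynomial.C (J.a₁ * J.c₄) * Polynomial.X -
      Polynomial.C (54 * J.b₆ - 3 * J.b₂ * J.b₄ + J.a₂ * J.c₄)) with hQ
  have heval : ∀ T, Q.eval T = nodeQuad (J.map (residue R)) T := fun T => by
    simp [hQ, nodeQuad, IsLocalRing.ResidueField.algebraMap_eq, map_ofNat]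
  have hne : residue R J.c₄ ≠ 0 := by
    rw [← valuation_eq_one_iff_residue (K := K), hJ, integralModel_c₄_eq]
    exact hc4J1
  have hdeg : Q.natDegree = 2 := by
    rw [hQ, IsLocalRing.ResidueField.algebraMap_eq]
    simp only [Polynomial.map_sub, Polynomial.map_add, Polynomial.map_mul, Polynomial.map_pow,
      Polynomial.map_X, Polynomial.map_C]
    rw [sub_eq_add_neg, ← Polynomial.C_neg]
    exact Polynomial.natDegree_quadratic hne
  rw [hasSplitMultiplicativeReduction_iff]
  refine ⟨fun ⟨_, h⟩ => ?_, fun ⟨T, hT⟩ =>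
    ⟨hmult, Polynomial.Splits.of_natDegree_eq_two (x := T) hdeg ((heval T).trans hT)⟩⟩
  obtain ⟨T, hT⟩ := Polynomial.Splits.exists_eval_eq_zero (f := Q) h
    (fun h0 => by simp [Polynomial.natDegree_eq_of_degree_eq_some (n := 0) h0] at hdeg)
  exact ⟨T, (heval T).symm.trans hT⟩

open Polynomial in
/-- The local polynomial at a multiplicative prime. -/
theorem localPolynomial_of_multiplicative {p : ℕ} [Fact p.Prime]
    (e : ResidueField R ≃+* ZMod p) (W : WeierstrassCurve ℤ) (hΔ : (W.Δ : K) ≠ 0)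
    (hp : (p : ℤ) ∣ W.Δ) (hc : ¬ (p : ℤ) ∣ W.c₄)
    (E : WeierstrassCurve K) (C : VariableChange K) (hC : C • E = W.map (Int.castRingHom K)) :
    E.localPolynomial R = 1 - Polynomial.C (splitSign W p) * X := by
  obtain ⟨hm, hsplit⟩ := reduction_of_multiplicative e W hΔ hp hc E C hC
  rw [localPolynomial, if_neg hm.not_hasGoodReduction]
  by_cases h : SplitModel W p
  · rw [if_pos (hsplit.mpr h), splitSign, if_pos h]
    simp
  · rw [if_neg (mt hsplit.mp h), if_pos hm, splitSign, if_neg h]
    simp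

end DVR

/-- The inverse of a quadratic satisfies the recursion. -/
theorem coeff_invOfUnit_quadratic (a b : ℤ) (r : ℕ) :
    PowerSeries.coeff (r + 2) (PowerSeries.invOfUnit
        ((1 - Polynomial.C a * Polynomial.X + Polynomial.C b * Polynomial.X ^ 2 : Polynomial ℤ) :
          PowerSeries ℤ) 1) =
      a * PowerSeries.coeff (r + 1) (PowerSeries.invOfUnit
        ((1 - Polynomial.C a * Polynomial.X + Polynomial.C b * Polynomial.X ^ 2 : Polynomial ℤ) :
          PowerSeries ℤ) 1) -
      b * PowerSeries.coeff r (PowerSeries.invOfUnit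
        ((1 - Polynomial.C a * Polynomial.X + Polynomial.C b * Polynomial.X ^ 2 : Polynomial ℤ) :
          PowerSeries ℤ) 1) := by
  set P : Polynomial ℤ :=
    1 - Polynomial.C a * Polynomial.X + Polynomial.C b * Polynomial.X ^ 2 with hP
  set φ := PowerSeries.invOfUnit (P : PowerSeries ℤ) 1 with hφ
  have h0 : PowerSeries.constantCoeff (P : PowerSeries ℤ) = ((1 : ℤˣ) : ℤ) := by simp [hP]
  have h := congrArg (PowerSeries.coeff (r + 2))
    (PowerSeries.mul_invOfUnit (P : PowerSeries ℤ) 1 h0)
  rw [← hφ] at h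
  have e : (P : PowerSeries ℤ) * φ = φ - PowerSeries.C a * (PowerSeries.X * φ) +
      PowerSeries.C b * (PowerSeries.X * (PowerSeries.X * φ)) := by
    simp only [hP, Polynomial.coe_add, Polynomial.coe_sub, Polynomial.coe_one, Polynomial.coe_mul,
      Polynomial.coe_C, Polynomial.coe_X, Polynomial.coe_pow]
    ring
  rw [e, map_add, map_sub, PowerSeries.coeff_C_mul, PowerSeries.coeff_C_mul,
    PowerSeries.coeff_succ_X_mul, PowerSeries.coeff_succ_X_mul, PowerSeries.coeff_succ_X_mul,
    PowerSeries.coeff_one, if_neg (by omega)] at h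
  linarith

/-- The inverse of a linear polynomial is a geometric series. -/
theorem coeff_invOfUnit_linear (a : ℤ) (k : ℕ) :
    PowerSeries.coeff k (PowerSeries.invOfUnit
      ((1 - Polynomial.C a * Polynomial.X : Polynomial ℤ) : PowerSeries ℤ) 1) = a ^ k := by
  set P : Polynomial ℤ := 1 - Polynomial.C a * Polynomial.X with hP
  set φ := PowerSeries.invOfUnit (P : PowerSeries ℤ) 1 with hφ
  have h0 : PowerSeries.constantCoeff (P : PowerSeries ℤ) = ((1 : ℤˣ) : ℤ) := by simp [hP]
  have h := PowerSeries.mul_invOfUnit (P : PowerSeries ℤ) 1 h0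
  rw [← hφ] at h
  have e : (P : PowerSeries ℤ) * φ = φ - PowerSeries.C a * (PowerSeries.X * φ) := by
    simp only [hP, Polynomial.coe_sub, Polynomial.coe_one, Polynomial.coe_mul, Polynomial.coe_C,
      Polynomial.coe_X]
    ring
  rw [e] at h
  induction k with
  | zero => simp [hφ, PowerSeries.coeff_zero_eq_constantCoeff,
      PowerSeries.constantCoeff_invOfUnit]
  | succ k ih =>
    have hk := congrArg (PowerSeries.coeff (k + 1)) h
    rw [map_sub, PowerSeries.coeff_C_mul, PowerSeries.coeff_succ_X_mul, ih, PowerSeries.coeff_one,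
      if_neg (by omega)] at hk
    rw [pow_succ']
    linarith

/-- Functions that agree with `1` on the divisors of `n` have products that do. -/
theorem prod_apply_eq_one_of_dvd {ι : Type*} (s : Finset ι) (f : ι → ArithmeticFunction ℤ) (n : ℕ)
    (h : ∀ i ∈ s, ∀ d, d ∣ n → f i d = (1 : ArithmeticFunction ℤ) d) :
    ∀ d, d ∣ n → (∏ i ∈ s, f i) d = (1 : ArithmeticFunction ℤ) d := by
  classical
  induction s using Finset.induction_on with
  | empty => simp
  | @insert a s ha ih =>
    intro d hd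
    rw [Finset.prod_insert ha, ← one_mul (1 : ArithmeticFunction ℤ), ArithmeticFunction.mul_apply,
      ArithmeticFunction.mul_apply]
    refine Finset.sum_congr rfl fun x hx => ?_
    rw [h a (Finset.mem_insert_self a s) x.1
        ((Nat.dvd_of_mem_divisors (Nat.fst_mem_divisors_of_mem_antidiagonal hx)).trans hd),
      ih (fun i hi => h i (Finset.mem_insert_of_mem hi)) x.2
        ((Nat.dvd_of_mem_divisors (Nat.snd_mem_divisors_of_mem_antidiagonal hx)).trans hd)]

section Rat

open NumberField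
open Rat.HeightOneSpectrum (primesEquiv)

/-- The L-function as the Euler product of the power series of the local factors. -/
theorem LFunction_eq_eulerProduct (E : WeierstrassCurve ℚ) :
    E.LFunction = eulerProduct fun v : HeightOneSpectrum (𝓞 ℚ) =>
      ofPowerSeries (primesEquiv v : ℕ)
        ((E.baseChange (v.adicCompletion ℚ)).localPowerSeries (v.adicCompletionIntegers ℚ)) := by
  have hL : E.LFunction = eulerProduct fun v : HeightOneSpectrum (𝓞 ℚ) =>
      (E.baseChange (v.adicCompletion ℚ)).localEulerFactor (v.adicCompletionIntegers ℚ) := by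
    unfold WeierstrassCurve.LFunction
    refine congrArg eulerProduct (funext fun v => ?_)
    show localEulerFactor _ (E.map _) = localEulerFactor _ (E.map _)
    congr 2
    exact Subsingleton.elim _ _
  rw [hL]
  exact congrArg eulerProduct (funext fun v => by rw [localEulerFactor, natCard_residueField])

theorem constantCoeff_localPowerSeries (E : WeierstrassCurve ℚ) (v : HeightOneSpectrum (𝓞 ℚ)) :
    ((E.baseChange (v.adicCompletion ℚ)).localPowerSeries
      (v.adicCompletionIntegers ℚ)).constantCoeff = 1 := by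
  simp [localPowerSeries]

/-- The coefficient of the L-function at a prime power is that of the local power series. -/
theorem LFunction_apply_prime_pow (E : WeierstrassCurve ℚ) (v : HeightOneSpectrum (𝓞 ℚ)) (k : ℕ) :
    E.LFunction ((primesEquiv v : ℕ) ^ k) = PowerSeries.coeff k
      ((E.baseChange (v.adicCompletion ℚ)).localPowerSeries (v.adicCompletionIntegers ℚ)) := by
  classical
  set F : HeightOneSpectrum (𝓞 ℚ) → PowerSeries ℤ := fun w =>
    (E.baseChange (w.adicCompletion ℚ)).localPowerSeries (w.adicCompletionIntegers ℚ) with hF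
  rw [show E.LFunction = eulerProduct fun w => ofPowerSeries (primesEquiv w : ℕ) (F w) from
    LFunction_eq_eulerProduct E]
  have : Northcott fun w : HeightOneSpectrum (𝓞 ℚ) => (primesEquiv w : ℕ) :=
    ⟨fun b => ((Set.finite_Iic b).preimage Nat.Primes.coe_nat_injective.injOn).preimage
      primesEquiv.injective.injOn⟩
  obtain ⟨s, hs, hv⟩ := ((tendsTo_eulerProduct_ofPowerSeries
    (fun w : HeightOneSpectrum (𝓞 ℚ) => (primesEquiv w : ℕ)) F
    (constantCoeff_localPowerSeries E) ((primesEquiv v : ℕ) ^ k)).and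
      (Filter.eventually_ge_atTop {v})).exists
  rw [← hs, ← Finset.mul_prod_erase s _ (Finset.singleton_subset_iff.mp hv),
    ← ofPowerSeries_apply_pow (primesEquiv v).2.one_lt (F v) k]
  conv_rhs => rw [← mul_one (ofPowerSeries (primesEquiv v : ℕ) (F v))]
  rw [ArithmeticFunction.mul_apply, ArithmeticFunction.mul_apply]
  refine Finset.sum_congr rfl fun x hx => congrArg _ ?_
  refine prod_apply_eq_one_of_dvd _ _ _ ?_ x.2
    (Nat.dvd_of_mem_divisors (Nat.snd_mem_divisors_of_mem_antidiagonal hx))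
  intro w hw d hd
  obtain ⟨j, -, rfl⟩ := (Nat.dvd_prime_pow (primesEquiv v).2).mp hd
  rcases j with _ | j
  · rw [pow_zero, ArithmeticFunction.one_one, ofPowerSeries_apply_one]
    exact constantCoeff_localPowerSeries E w
  · have h1 : (primesEquiv v : ℕ) ^ (j + 1) ≠ 1 :=
      (Nat.one_lt_pow (Nat.succ_ne_zero j) (primesEquiv v).2.one_lt).ne'
    rw [ArithmeticFunction.one_apply_ne h1, ofPowerSeries_apply (primesEquiv w).2.one_lt,
      Function.extend_apply' _ _ _ ?_]
    · rfl
    rintro ⟨i, hi⟩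
    rcases i with _ | i
    · exact h1 hi.symm
    · have hdvd : (primesEquiv w : ℕ) ∣ (primesEquiv v : ℕ) ^ (j + 1) :=
        hi ▸ dvd_pow_self _ (Nat.succ_ne_zero i)
      exact (Finset.mem_erase.mp hw).1 (primesEquiv.injective (Subtype.ext
        ((Nat.prime_dvd_prime_iff_eq (primesEquiv w).2 (primesEquiv v).2).mp
          ((primesEquiv w).2.dvd_of_dvd_pow hdvd))))

theorem exists_completion_change {E : WeierstrassCurve ℚ} {W : WeierstrassCurve ℤ}
    (hW : W.IsIntegralModelOf E) (v : HeightOneSpectrum (𝓞 ℚ)) :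
    ∃ C : VariableChange (v.adicCompletion ℚ),
      C • E.baseChange (v.adicCompletion ℚ) = W.map (Int.castRingHom (v.adicCompletion ℚ)) := by
  obtain ⟨C, hC⟩ := hW
  refine ⟨C.map (algebraMap ℚ (v.adicCompletion ℚ)), ?_⟩
  show C.map _ • E.map _ = _
  rw [WeierstrassCurve.map_variableChange, hC, WeierstrassCurve.map_map]
  congr 1
  exact RingHom.ext_int _ _

/-- **Powers of a good prime.** -/
theorem LFunction_apply_prime_pow_good (E : WeierstrassCurve ℚ) (W : WeierstrassCurve ℤ)
    (hW : W.IsIntegralModelOf E) {p : ℕ} (hp : p.Prime) (hgood : ¬ (p : ℤ) ∣ W.Δ) (r : ℕ) :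
    E.LFunction (p ^ (r + 2)) =
      W.apOfModel p * E.LFunction (p ^ (r + 1)) - p * E.LFunction (p ^ r) := by
  obtain ⟨v, rfl⟩ : ∃ v : HeightOneSpectrum (𝓞 ℚ), (primesEquiv v : ℕ) = p :=
    ⟨primesEquiv.symm (⟨p, hp⟩ : Nat.Primes),
      congrArg Subtype.val (primesEquiv.apply_symm_apply (⟨p, hp⟩ : Nat.Primes))⟩
  have : Fact (primesEquiv v : ℕ).Prime := ⟨hp⟩
  obtain ⟨C, hC⟩ := exists_completion_change hW v
  simp only [LFunction_apply_prime_pow, localPowerSeries,
    localPolynomial_of_good (residueEquivZMod v) W hgood _ C hC]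
  exact coeff_invOfUnit_quadratic _ _ r

/-- **Powers of a multiplicative prime.** -/
theorem LFunction_apply_prime_pow_mult (E : WeierstrassCurve ℚ) (W : WeierstrassCurve ℤ)
    (hW : W.IsIntegralModelOf E) {q : ℕ} (hq : q.Prime) (hbad : (q : ℤ) ∣ W.Δ) (hΔ : W.Δ ≠ 0)
    (hc : ¬ (q : ℤ) ∣ W.c₄) (k : ℕ) :
    E.LFunction (q ^ k) = splitSign W q ^ k := by
  obtain ⟨v, rfl⟩ : ∃ v : HeightOneSpectrum (𝓞 ℚ), (primesEquiv v : ℕ) = q :=
    ⟨primesEquiv.symm (⟨q, hq⟩ : Nat.Primes),
      congrArg Subtype.val (primesEquiv.apply_symm_apply (⟨q, hq⟩ : Nat.Primes))⟩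
  have : Fact (primesEquiv v : ℕ).Prime := ⟨hq⟩
  obtain ⟨C, hC⟩ := exists_completion_change hW v
  rw [LFunction_apply_prime_pow, localPowerSeries,
    localPolynomial_of_multiplicative (residueEquivZMod v) W (Int.cast_ne_zero.mpr hΔ) hbad hc _ C
      hC]
  exact coeff_invOfUnit_linear _ k

end Rat

end FA.Root

end
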