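import Fermat.Agent.S60

/-!
# Semistable elliptic curves over the rationals are modular

A corollary of S60, stated for a curve over `ℚ` with some semistable integral model.
-/

set_option autoImplicit false

open WeierstrassCurve

namespace FA.Root

/-- An elliptic curve over `ℚ` with a semistable integral model is modular. -/
theorem isModular_of_semistable_closed (E : WeierstrassCurve ℚ) [E.IsElliptic]
    (W : WeierstrassCurve ℤ) (hW : W.IsIntegralModelOf E) (hs : W.IsSemistableModel) :
    E.IsModular := by
  obtain ⟨C, hC⟩ := hW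
  have hΔ : W.Δ ≠ 0 := by
    intro h
    have h1 : (C • E).Δ = 0 := by rw [hC, map_Δ, h, map_zero]
    exact (C • E).isUnit_Δ.ne_zero h1
  obtain ⟨W', ⟨C', hC'⟩, hmod⟩ := Fermat.Agent.S60.result W hΔ hs
  exact ⟨W', ⟨C' * C, by rw [mul_smul, hC, hC']⟩, hmod⟩

end FA.Root
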