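import Fermat.Agent.Root.GlobalModelStep
import Fermat.Agent.Root.SemistableForm
import Fermat.Agent.Frob.Det
import Mathlib.AlgebraicGeometry.EllipticCurve.Reduction

/-!
# Semistable elliptic curves over the rationals, without a choice of model

An elliptic curve over `ℚ` that is semistable at every prime has a semistable integral model.
Semistability at `p` is given either by an equation with `p`-integral rational
coefficients, by an equation over `ℤ_p`, or by Mathlib's good or multiplicative reduction.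
-/

set_option autoImplicit false

noncomputable section

namespace FA.Root

open WeierstrassCurve

/-- Some equation over `ℤ_p` of `E` does not have both `Δ` and `c₄` divisible by `p`. -/
def IsSemistableAt (E : WeierstrassCurve ℚ) (p : ℕ) [Fact p.Prime] : Prop :=
  ∃ (C : VariableChange ℚ_[p]) (V : WeierstrassCurve ℤ_[p]),
    C • E.map (algebraMap ℚ ℚ_[p]) = V.map PadicInt.Coe.ringHom ∧
      ¬ ((p : ℤ_[p]) ∣ V.Δ ∧ (p : ℤ_[p]) ∣ V.c₄)

variable (E : WeierstrassCurve ℚ) [E.IsElliptic]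

/-- **A semistable integral model.** -/
theorem exists_semistableModel (h : ∀ p : ℕ, ∀ [Fact p.Prime], IsSemistableAt E p) :
    ∃ W : WeierstrassCurve ℤ, W.IsIntegralModelOf E ∧ W.IsSemistableModel := by
  obtain ⟨W₀, hW₀⟩ := FA.Frob.exists_integralModel E
  generalize hn : W₀.Δ.natAbs = n
  induction n using Nat.strong_induction_on generalizing W₀ with
  | _ n ih =>
    subst hn
    by_cases hs : W₀.IsSemistableModel
    · exact ⟨W₀, hW₀, hs⟩
    simp only [IsSemistableModel, not_forall, not_not] at hs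
    obtain ⟨p, hp, hpΔ, hpc⟩ := hs
    have := Fact.mk hp
    obtain ⟨C₀, hC₀⟩ := hW₀
    obtain ⟨C, V, hC, hV⟩ := h p
    have hD : (C * (C₀.map (algebraMap ℚ ℚ_[p]))⁻¹) • W₀.map (Int.castRingHom ℚ_[p]) =
        V.map PadicInt.Coe.ringHom := by
      have h1 : W₀.map (Int.castRingHom ℚ_[p]) =
          (C₀.map (algebraMap ℚ ℚ_[p])) • E.map (algebraMap ℚ ℚ_[p]) := by
        rw [WeierstrassCurve.map_variableChange, hC₀, WeierstrassCurve.map_map]
        congr 1
      rw [h1, mul_smul, inv_smul_smul, hC]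
    obtain ⟨C', W', hW', hΔ'⟩ := exists_smaller_model W₀ _ V hD hV hpΔ hpc
    have hΔ0 : W'.Δ ≠ 0 := fun e =>
      FA.Frob.Δ_ne_zero_of_model (E := E) ⟨C₀, hC₀⟩ (by rw [← hΔ', e, zero_mul])
    refine ih _ ?_ W' ⟨C' * C₀, by rw [mul_smul, hC₀, hW']⟩ rfl
    rw [← hΔ', Int.natAbs_mul, Int.natAbs_pow, Int.natAbs_natCast]
    exact lt_mul_of_one_lt_right (Int.natAbs_pos.mpr hΔ0) (Nat.one_lt_pow (by norm_num) hp.one_lt)

omit [E.IsElliptic] in
/-- An equation with `p`-integral rational coefficients gives semistability at `p`. -/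
theorem isSemistableAt_of_rat {p : ℕ} [Fact p.Prime] {C : VariableChange ℚ}
    (h₁ : ¬ p ∣ (C • E).a₁.den) (h₂ : ¬ p ∣ (C • E).a₂.den) (h₃ : ¬ p ∣ (C • E).a₃.den)
    (h₄ : ¬ p ∣ (C • E).a₄.den) (h₆ : ¬ p ∣ (C • E).a₆.den)
    (h : ¬ ((p : ℤ) ∣ (C • E).Δ.num ∧ (p : ℤ) ∣ (C • E).c₄.num)) : IsSemistableAt E p := by
  let V : WeierstrassCurve ℤ_[p] :=
    ⟨⟨_, Padic.norm_rat_le_one h₁⟩, ⟨_, Padic.norm_rat_le_one h₂⟩, ⟨_, Padic.norm_rat_le_one h₃⟩,
      ⟨_, Padic.norm_rat_le_one h₄⟩, ⟨_, Padic.norm_rat_le_one h₆⟩⟩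
  have hV : (C • E).map (algebraMap ℚ ℚ_[p]) = V.map PadicInt.Coe.ringHom := by
    ext <;> simp [V]
  refine ⟨C.map (algebraMap ℚ ℚ_[p]), V, by rw [WeierstrassCurve.map_variableChange, hV], ?_⟩
  have key : ∀ (q : ℚ) (v : ℤ_[p]), algebraMap ℚ ℚ_[p] q = PadicInt.Coe.ringHom v →
      (p : ℤ_[p]) ∣ v → (p : ℤ) ∣ q.num := fun q v e hv => by
    rw [← Padic.norm_intCast_lt_one_iff (p := p)]
    have h1 : ‖(q : ℚ_[p])‖ < 1 := by
      rw [eq_ratCast] at e
      rw [e]
      exact (PadicInt.norm_lt_one_iff_dvd v).mpr hv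
    have h2 : ((q.num : ℤ) : ℚ_[p]) = (q : ℚ_[p]) * ((q.den : ℕ) : ℚ_[p]) := by
      exact_mod_cast (congrArg (fun x : ℚ => (x : ℚ_[p])) (Rat.mul_den_eq_num q)).symm
    rw [h2, norm_mul]
    refine lt_of_le_of_lt (mul_le_of_le_one_right (norm_nonneg _) ?_) h1
    simpa using Padic.norm_int_le_one (p := p) (q.den : ℤ)
  exact fun ⟨hΔ, hc⟩ => h
    ⟨key _ V.Δ (by rw [← map_Δ, hV, map_Δ]) hΔ, key _ V.c₄ (by rw [← map_c₄, hV, map_c₄]) hc⟩

omit [E.IsElliptic] in
/-- Good or multiplicative reduction in Mathlib's sense gives semistability at `p`. -/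
theorem isSemistableAt_of_reduction {p : ℕ} [Fact p.Prime] {C : VariableChange ℚ_[p]}
    (h : HasGoodReduction ℤ_[p] (C • E.map (algebraMap ℚ ℚ_[p])) ∨
      HasMultiplicativeReduction ℤ_[p] (C • E.map (algebraMap ℚ ℚ_[p]))) :
    IsSemistableAt E p := by
  have : IsMinimal ℤ_[p] (C • E.map (algebraMap ℚ ℚ_[p])) := by
    rcases h with h | h <;> exact h.toIsMinimal
  refine ⟨C, integralModel ℤ_[p] (C • E.map (algebraMap ℚ ℚ_[p])),
    (baseChange_integralModel_eq ℤ_[p] _).symm, ?_⟩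
  rintro ⟨hΔ, hc⟩
  have key : ∀ v : ℤ_[p], (p : ℤ_[p]) ∣ v → IsDedekindDomain.HeightOneSpectrum.valuation ℚ_[p]
      (IsDiscreteValuationRing.maximalIdeal ℤ_[p]) (algebraMap ℤ_[p] ℚ_[p] v) < 1 := fun v hv => by
    rw [IsDedekindDomain.HeightOneSpectrum.valuation_lt_one_iff_mem]
    show v ∈ IsLocalRing.maximalIdeal ℤ_[p]
    rw [PadicInt.maximalIdeal_eq_span_p, Ideal.mem_span_singleton]
    exact hv
  rcases h with h | h
  · exact (key _ hΔ).ne (by rw [integralModel_Δ_eq]; exact h.goodReduction)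
  · exact (key _ hc).ne (by rw [integralModel_c₄_eq]; exact h.multiplicativeReduction)

end FA.Root

end
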