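import Fermat.Agent.RT.EllipticPoint
import Fermat.Agent.Root.LFunctionSplit
import Mathlib.FieldTheory.Finite.Basic

/-!
# The sign of Frobenius at a node

At a place of multiplicative reduction above `q` the trace of Frobenius on the torsion of the curve
is `q + 1` for split and `-(q + 1)` for non-split reduction: a decomposition element acts on the
classes modulo the points of nonsingular reduction by its action on the two slopes at the node, and
Frobenius fixes the slopes exactly when the slope quadratic has a root in `ℤ/q`.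
-/

set_option autoImplicit false
set_option linter.unusedSectionVars false

noncomputable section

open Matrix WeierstrassCurve FA.Local FA.Frob FA.EC FA.LocalDef FA.RT FA.RT.Tate FA.JTorsion
open scoped Pointwise WeierstrassCurve.Affine

namespace FA.Root

local notation "Qb" => AlgebraicClosure ℚ
local notation "GQ" => AlgebraicClosure ℚ ≃ₐ[ℚ] AlgebraicClosure ℚ

variable {W : WeierstrassCurve ℤ} [(ratCurve W).IsElliptic] {q : ℕ} {A : ValuationSubring Qb}
  {r : Qb}

local notation "EQ" => ((ratCurve W)⁄Qb)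
local notation "E'" => (toOrigin ((ratCurve W)⁄Qb) r)

/-- The split quadratic is the slope quadratic at the node, scaled and moved a little. -/
theorem splitPoly_eq (hr : psi2 EQ r = 0) (T : Qb) :
    (W.c₄ : Qb) * T ^ 2 + ((W.a₁ * W.c₄ : ℤ) : Qb) * T -
        ((54 * W.b₆ - 3 * W.b₂ * W.b₄ + W.a₂ * W.c₄ : ℤ) : Qb) =
      (W.c₄ : Qb) * qb (E').toAffine T + 6 * discB EQ r * (E').a₄ := by
  simp only [qb, toOrigin_a₁, toOrigin_a₂, toOrigin_a₄, discB, halfY, psi2,
    WeierstrassCurve.b₂, WeierstrassCurve.b₄, WeierstrassCurve.b₆, WeierstrassCurve.c₄,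
    WeierstrassCurve.baseChange, WeierstrassCurve.map_a₁, WeierstrassCurve.map_a₂,
    WeierstrassCurve.map_a₃, WeierstrassCurve.map_a₄, WeierstrassCurve.map_a₆] at hr ⊢
  simp only [eq_intCast, map_intCast] at hr ⊢
  push_cast
  linear_combination (-54 : Qb) * hr

variable (N : NodeData W q A r)

include N

lemma branch_le {s : Qb} (hs : A.valuation (qb (E').toAffine s) < 1) : A.valuation s ≤ 1 := by
  by_contra h
  rw [not_le] at h
  have h1 : A.valuation ((E').a₁ * s - (E').a₂) ≤ A.valuation s :=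
    A.valuation.map_sub_le (by rw [map_mul]; exact mul_le_of_le_one_left' N.node.hI.h₁)
      (N.node.hI.h₂.trans h.le)
  have h2 : A.valuation s < A.valuation (s ^ 2) := by
    rw [map_pow, sq]; exact lt_mul_of_one_lt_left (zero_lt_one.trans h) h
  have e : A.valuation (qb (E').toAffine s) = A.valuation (s ^ 2) := by
    rw [show qb (E').toAffine s = s ^ 2 + ((E').a₁ * s - (E').a₂) by simp only [qb]; ring]
    exact A.valuation.map_add_eq_of_lt_left (h1.trans_lt h2)
  rw [e] at hs
  exact lt_irrefl _ ((h.trans h2).trans hs)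

lemma smul_branch {σ : GQ} (hσ : σ ∈ A.decompositionSubgroup ℚ) {s : Qb}
    (hs : A.valuation (qb (E').toAffine s) < 1) : A.valuation (qb (E').toAffine (σ s)) < 1 := by
  have ha1 : σ (E').a₁ = (E').a₁ := by
    rw [toOrigin_a₁]
    simp [WeierstrassCurve.baseChange]
  have ha2 : σ (E').a₂ = (E').a₂ + 3 * (σ r - r) := by
    rw [toOrigin_a₂, map_add, map_mul, map_ofNat]
    simp [WeierstrassCurve.baseChange]
    ring
  have e : qb (E').toAffine (σ s) = σ (qb (E').toAffine s) + 3 * (σ r - r) := by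
    simp only [qb, map_sub, map_add, map_pow, map_mul, ha1, ha2]
    ring
  rw [e]
  exact A.valuation.map_add_lt (by rw [decomp_map_eq hσ]; exact hs)
    (map_mul_lt_one le_three ((N.delta_le hσ).trans_lt N.node.hb))

/-- The conjugate of a point at the node lies on the conjugate branch. -/
theorem br_smul {σ : GQ} (hσ : σ ∈ A.decompositionSubgroup ℚ) {P : (E').toAffine.Point}
    {g : A.ValueGroup} {s : Qb} (hP : Br A.valuation (E').toAffine P g s) :
    ∃ Q : (E').toAffine.Point, σ • originEquiv EQ r P = originEquiv EQ r Q ∧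
      Br A.valuation (E').toAffine Q g (σ s) := by
  obtain ⟨x, y, h, rfl⟩ := hP.exists_eq
  rw [br_some] at hP
  obtain ⟨hg, hlow, hhigh, hys, hs⟩ := hP
  obtain ⟨h₁, e₁⟩ := originEquiv_some h
  obtain ⟨h₂, e₂⟩ := smul_some (σ := σ) (ratCurve W) h₁
  obtain ⟨y', h', e⟩ := N.smul_origin (σ := σ) h
  obtain ⟨h₃, e₃⟩ := originEquiv_some h'
  have hy : y' = σ y + (σ (halfY EQ r) - halfY EQ r) := by
    have h1 := e
    rw [e₁, e₂, e₃, Affine.Point.some.injEq] at h1
    linear_combination -h1.2 + map_add σ y (halfY EQ r)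
  refine ⟨_, e, ?_⟩
  set δ := σ r - r with hδ
  have hδa : A.valuation δ ≤ A.valuation (E').a₄ := N.delta_le hσ
  have hxv : A.valuation (σ x + δ) = g := by
    rw [A.valuation.map_add_eq_of_lt_left (by
      rw [decomp_map_eq hσ, hg]; exact hδa.trans_lt hlow), decomp_map_eq hσ, hg]
  have hx0 : σ x + δ ≠ 0 := A.valuation.pos_iff.mp (hxv ▸ lt_of_le_of_lt zero_le hlow)
  have hε : A.valuation (σ (halfY EQ r) - halfY EQ r) ≤ A.valuation (E').a₄ := by
    have h2 : (2 : Qb) ≠ 0 := two_ne_zero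
    have e2 : σ (halfY EQ r) - halfY EQ r = -((EQ).a₁ * (δ / 2)) := by
      simp only [halfY, map_div₀, map_neg, map_add, map_mul, map_ofNat, δ,
        WeierstrassCurve.baseChange, WeierstrassCurve.map_a₁, WeierstrassCurve.map_a₃,
        AlgEquiv.commutes]
      field_simp
      ring
    have hδ4 : A.valuation δ ≤ A.valuation (4 : Qb) * A.valuation (E').a₄ := by
      have hroot : δ * (4 * δ ^ 2 + discB EQ r * δ + 4 * (E').a₄) = 0 := by
        have h := psi2_add h2 EQ r δ
        rwa [hδ, add_sub_cancel, ← psi2_map, N.root, map_zero, zero_add, eq_comm] at h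
      exact small_root_le (ratCurve W) N.node hroot (hδa.trans_lt N.node.hb)
    rw [e2, A.valuation.map_neg, map_mul, map_div₀]
    refine le_trans (mul_le_of_le_one_left' ?_) ?_
    · rw [← toOrigin_a₁ (r := r)]; exact N.node.hI.h₁
    · rw [div_le_iff₀ (A.valuation.pos_iff.mpr h2)]
      refine hδ4.trans ?_
      rw [mul_comm]
      refine mul_le_mul_right ?_ _
      rw [show (4 : Qb) = 2 * 2 by norm_num, map_mul]
      exact mul_le_of_le_one_left' le_two
  have hyx : A.valuation (y / x) ≤ 1 := by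
    rw [show y / x = (y / x - s) + s by ring]
    exact A.valuation.map_add_le hys.le (branch_le N hs)
  rw [br_some]
  refine ⟨hxv, hlow, hhigh, ?_, smul_branch N hσ hs⟩
  have hxne : x ≠ 0 := A.valuation.pos_iff.mp (hg ▸ lt_of_le_of_lt zero_le hlow)
  have key : y' / (σ x + δ) - σ s =
      (σ (halfY EQ r) - halfY EQ r - σ (y / x) * δ) / (σ x + δ) + σ (y / x - s) := by
    have hσx : σ x ≠ 0 := by simpa using hxne
    rw [hy, map_sub, map_div₀]
    field_simp
    ring
  rw [key]
  refine A.valuation.map_add_lt ?_ (by rw [decomp_map_eq hσ]; exact hys)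
  rw [map_div₀, hxv, div_lt_one₀ (lt_of_le_of_lt zero_le hlow)]
  refine lt_of_le_of_lt (A.valuation.map_sub_le hε ?_) hlow
  rw [map_mul, decomp_map_eq hσ]
  exact (mul_le_of_le_one_left' hyx).trans hδa

/-- A decomposition element fixing the branches fixes the classes at the node. -/
theorem smul_sub_mem_of_fixed {σ : GQ} (hσ : σ ∈ A.decompositionSubgroup ℚ) {s₀ : Qb}
    (hs₀ : A.valuation (qb (E').toAffine s₀) < 1) (hfix : A.valuation (σ s₀ - s₀) < 1)
    {m : ℕ} (hm : Odd m) {P : Pts W} (hP : m • P = 0) : σ • P - P ∈ N.e0Sub := by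
  obtain ⟨P, rfl⟩ := (originEquiv EQ r).surjective P
  have hP' : m • P = 0 := (originEquiv EQ r).injective (by rw [map_nsmul, hP, map_zero])
  rcases N.node.e0_or_br hm hP' with h0 | ⟨g, s, hbr⟩
  · exact sub_mem (N.smul_mem_e0Sub hσ (N.mem_e0Sub.mpr h0)) (N.mem_e0Sub.mpr h0)
  obtain ⟨Q, hQ, hbrQ⟩ := br_smul N hσ hbr
  have hs : A.valuation (qb (E').toAffine s) < 1 := by
    obtain ⟨a, b, hab, e⟩ := hbr.exists_eq
    have := hbr; rw [e, br_some] at this; exact this.2.2.2.2
  have hss : A.valuation (σ s - s) < 1 := by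
    rcases Node.root_cases hs₀ hs with h | h
    · rw [show σ s - s = σ (s - s₀) + (σ s₀ - s₀) - (s - s₀) by rw [map_sub]; ring]
      exact A.valuation.map_sub_lt
        (A.valuation.map_add_lt (by rw [decomp_map_eq hσ]; exact h) hfix) h
    · have ha1 : σ (E').a₁ = (E').a₁ := by
        rw [toOrigin_a₁]
        simp [WeierstrassCurve.baseChange]
      rw [show σ s - s = σ (s - (-(E').a₁ - s₀)) - (σ s₀ - s₀) - (s - (-(E').a₁ - s₀)) by
        rw [map_sub, map_sub, map_neg, ha1]; ring]
      exact A.valuation.map_sub_lt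
        (A.valuation.map_sub_lt (by rw [decomp_map_eq hσ]; exact h) hfix) h
  rw [hQ, ← map_sub, N.mem_e0Sub]
  exact N.node.sub_e0_of_br (Node.br_congr hbrQ hs hss) hbr

/-- A decomposition element exchanging the branches negates the classes at the node. -/
theorem smul_add_mem_of_swap {σ : GQ} (hσ : σ ∈ A.decompositionSubgroup ℚ) {s₀ : Qb}
    (hs₀ : A.valuation (qb (E').toAffine s₀) < 1)
    (hswap : A.valuation (σ s₀ - (-(E').a₁ - s₀)) < 1)
    {m : ℕ} (hm : Odd m) {P : Pts W} (hP : m • P = 0) : σ • P + P ∈ N.e0Sub := by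
  obtain ⟨P, rfl⟩ := (originEquiv EQ r).surjective P
  have hP' : m • P = 0 := (originEquiv EQ r).injective (by rw [map_nsmul, hP, map_zero])
  rcases N.node.e0_or_br hm hP' with h0 | ⟨g, s, hbr⟩
  · exact add_mem (N.smul_mem_e0Sub hσ (N.mem_e0Sub.mpr h0)) (N.mem_e0Sub.mpr h0)
  obtain ⟨Q, hQ, hbrQ⟩ := br_smul N hσ hbr
  have hs : A.valuation (qb (E').toAffine s) < 1 := by
    obtain ⟨a, b, hab, e⟩ := hbr.exists_eq
    have := hbr; rw [e, br_some] at this; exact this.2.2.2.2
  have ha1 : σ (E').a₁ = (E').a₁ := by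
    rw [toOrigin_a₁]
    simp [WeierstrassCurve.baseChange]
  have hss : A.valuation (σ s - (-(E').a₁ - s)) < 1 := by
    rcases Node.root_cases hs₀ hs with h | h
    · rw [show σ s - (-(E').a₁ - s) = σ (s - s₀) + (σ s₀ - (-(E').a₁ - s₀)) + (s - s₀) by
        rw [map_sub]; ring]
      exact A.valuation.map_add_lt
        (A.valuation.map_add_lt (by rw [decomp_map_eq hσ]; exact h) hswap) h
    · rw [show σ s - (-(E').a₁ - s) =
          σ (s - (-(E').a₁ - s₀)) - (σ s₀ - (-(E').a₁ - s₀)) + (s - (-(E').a₁ - s₀)) by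
        rw [map_sub, map_sub, map_neg, ha1]; ring]
      exact A.valuation.map_add_lt
        (A.valuation.map_sub_lt (by rw [decomp_map_eq hσ]; exact h) hswap) h
  rw [hQ, ← map_add, N.mem_e0Sub]
  have h2 := (N.node.add_opp hbr (Node.br_congr hbrQ (by rwa [Node.qb_other]) hss)).1 rfl
  rwa [add_comm] at h2

/-- The points of nonsingular reduction do not contain all `p`-torsion. -/
theorem exists_phi_not_mem_e0Sub {p : ℕ} [Fact p.Prime] (hp2 : p ≠ 2) (B : TateBasis p W) :
    ∃ w, B.φ 1 w ∉ N.e0Sub := by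
  by_contra hall
  push Not at hall
  have hpp : p.Prime := Fact.out
  have : Finite {x : Pts W // p • x = 0 ∧ x ∈ N.e0Sub} := by
    have := finite_torsion (ratCurve W) (n := p) hpp.ne_zero
    exact Finite.of_injective
      (fun x => (⟨x.1, (mem_torsion_iff W).mpr x.2.1⟩ :
        Submodule.torsionBy ℤ ((ratCurve W)⁄Qb).Point (p : ℤ)))
      fun a b h => Subtype.ext (congrArg Subtype.val h :)
  have hc := Nat.card_le_card_of_injective
    (fun v : Fin 2 → ZMod p => (⟨B.φ 1 fun i => ((v i).val : ℤ_[p]),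
      by simpa using B.nsmul_phi 1 (fun i => ((v i).val : ℤ_[p])), hall _⟩ :
        {x : Pts W // p • x = 0 ∧ x ∈ N.e0Sub}))
    fun v w h => funext fun i => by
      have : NeZero p := ⟨hpp.ne_zero⟩
      have h1 := B.phi_eq_iff.mp (congrArg Subtype.val h) i
      rw [map_natCast, map_natCast] at h1
      have h2 := congrArg (ZMod.castHom (pow_one p).symm.dvd (ZMod p)) h1
      rwa [map_natCast, map_natCast, ZMod.natCast_zmod_val, ZMod.natCast_zmod_val] at h2
  rw [Nat.card_fun, Nat.card_zmod, Nat.card_fin] at hc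
  exact absurd (hc.trans (N.card_e0_torsion_le hp2))
    (not_le.mpr (by rw [sq]; exact lt_mul_of_one_lt_left hpp.pos hpp.one_lt))

/-- If `σ - ε` moves the `p`-torsion into nonsingular reduction, then its determinant vanishes
modulo `p`. -/
theorem not_isUnit_det_of_mem {p : ℕ} [Fact p.Prime] (hp2 : p ≠ 2) (B : TateBasis p W) {σ : GQ}
    {ε : ℤ} (h : ∀ P : Pts W, p • P = 0 → σ • P - ε • P ∈ N.e0Sub) :
    ¬ IsUnit (B.rep σ - (ε : Matrix (Fin 2) (Fin 2) ℤ_[p])).det := by
  intro hu
  obtain ⟨w, hw⟩ := exists_phi_not_mem_e0Sub N hp2 B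
  set T := B.rep σ - (ε : Matrix (Fin 2) (Fin 2) ℤ_[p]) with hT
  have e : B.φ 1 w = σ • B.φ 1 (T⁻¹ *ᵥ w) - ε • B.φ 1 (T⁻¹ *ᵥ w) := by
    rw [B.rep_spec, ← map_zsmul, ← map_sub]
    congr 1
    conv_lhs => rw [← one_mulVec w, ← Matrix.mul_nonsing_inv _ hu, ← mulVec_mulVec]
    rw [hT, sub_mulVec, Matrix.intCast_mulVec, Int.cast_smul_eq_zsmul]
  exact hw (e ▸ h _ (by simpa using B.nsmul_phi 1 (T⁻¹ *ᵥ w)))

/-- Frobenius fixes a slope at the node exactly when the reduction is split. -/
theorem splitModel_iff_fixed {σ : GQ} (hσ : A.IsFrobeniusAt σ q) {s₀ : Qb}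
    (hs₀ : A.valuation (qb (E').toAffine s₀) < 1) :
    SplitModel W q ↔ A.valuation (σ s₀ - s₀) < 1 := by
  have hq : q.Prime := N.mult.prime
  have := Fact.mk hq
  have hA := N.mult.lies
  have := res_charP hq hA
  have hdvd : ∀ k : ℤ, A.valuation (k : Qb) < 1 ↔ (q : ℤ) ∣ k := fun k => by
    refine ⟨fun h => ?_, fun ⟨c, hc⟩ => ?_⟩
    · by_contra hk
      rw [natCast_eq_one_of_not_dvd (v := A.valuation) hq N.mult.map_lt_one hk] at h
      exact lt_irrefl _ h
    · rw [hc, Int.cast_mul, Int.cast_natCast]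
      exact map_mul_lt_one' (valuation_p_lt_one hA) (intCast_le_one c)
  have hc4 : A.valuation (W.c₄ : Qb) = 1 :=
    natCast_eq_one_of_not_dvd (v := A.valuation) hq N.mult.map_lt_one N.mult.not_dvd
  have h6 : A.valuation (6 * discB EQ r * (E').a₄) < 1 := by
    refine map_mul_lt_one (map_mul_le_one (natCast_le_one 6) ?_) N.node.hb
    rw [← toOrigin_disc]; exact N.node.hdisc.le
  have hsplit : SplitModel W q ↔ ∃ T : ℤ, A.valuation (qb (E').toAffine (T : Qb)) < 1 := by
    have hiff : ∀ T : ℤ, ((W.c₄ : ZMod q) * (T : ZMod q) ^ 2 +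
        ((W.a₁ * W.c₄ : ℤ) : ZMod q) * (T : ZMod q) -
          ((54 * W.b₆ - 3 * W.b₂ * W.b₄ + W.a₂ * W.c₄ : ℤ) : ZMod q) = 0) ↔
        A.valuation (qb (E').toAffine (T : Qb)) < 1 := fun T => by
      rw [← Int.cast_pow, ← Int.cast_mul, ← Int.cast_mul, ← Int.cast_add, ← Int.cast_sub,
        ZMod.intCast_zmod_eq_zero_iff_dvd, ← hdvd, Int.cast_sub, Int.cast_add, Int.cast_mul,
        Int.cast_mul (W.a₁ * W.c₄), Int.cast_pow, splitPoly_eq N.root]
      constructor
      · intro h
        have h1 := A.valuation.map_sub_lt h h6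
        rwa [add_sub_cancel_right, map_mul, hc4, one_mul] at h1
      · intro h
        exact A.valuation.map_add_lt (by rw [map_mul, hc4, one_mul]; exact h) h6
    constructor
    · rintro ⟨T, hT⟩
      obtain ⟨T, rfl⟩ := ZMod.intCast_surjective T
      exact ⟨T, (hiff T).mp hT⟩
    · rintro ⟨T, hT⟩
      exact ⟨T, (hiff T).mpr hT⟩
  rw [hsplit]
  have hfixint : ∀ T : ℤ, A.valuation (σ (T : Qb) - (T : Qb)) < 1 := fun T => by simp
  have hd := hσ.mem_decompositionSubgroup
  constructor
  · rintro ⟨T, hT⟩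
    rcases Node.root_cases hT hs₀ with h | h
    · rw [show σ s₀ - s₀ = σ (s₀ - (T : Qb)) - (s₀ - (T : Qb)) by rw [map_sub, map_intCast]; ring]
      exact A.valuation.map_sub_lt (by rw [decomp_map_eq hd]; exact h) h
    · have ha1 : σ (E').a₁ = (E').a₁ := by
        rw [toOrigin_a₁]
        simp [WeierstrassCurve.baseChange]
      rw [show σ s₀ - s₀ = σ (s₀ - (-(E').a₁ - (T : Qb))) - (s₀ - (-(E').a₁ - (T : Qb))) by
        rw [map_sub, map_sub, map_neg, ha1, map_intCast]; ring]
      exact A.valuation.map_sub_lt (by rw [decomp_map_eq hd]; exact h) h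
  · intro hfix
    have hle := branch_le N hs₀
    have hpow : res A s₀ ^ q = res A s₀ := by
      rw [← hσ.smul_residue_eq, res_eq hle, ← IsLocalRing.ResidueField.residue_smul]
      refine Eq.trans ?_ ((res_congr hle hfix).trans (res_eq hle))
      rw [res_eq (decomp_map_le hd hle)]
      rfl
    obtain ⟨T, hT⟩ : ∃ T : ℤ, (T : LocalDef.Res A) = res A s₀ := by
      have hb : res A s₀ ∈ (⊥ : Subfield (LocalDef.Res A)) := (Subfield.mem_bot_iff_pow_eq_self (F := LocalDef.Res A) (p := q)).mpr hpow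
      rw [← ZMod.fieldRange_castHom_eq_bot q, RingHom.mem_fieldRange] at hb
      obtain ⟨t, ht⟩ := hb
      obtain ⟨T, rfl⟩ := ZMod.intCast_surjective t
      exact ⟨T, by rw [← ht, map_intCast]⟩
    refine ⟨T, ?_⟩
    have hd1 : A.valuation ((T : Qb) - s₀) < 1 := by
      have hd0 : A.valuation ((T : Qb) - s₀) ≤ 1 :=
        A.valuation.map_sub_le (intCast_le_one T) hle
      rw [← res_eq_zero_iff hd0]
      have h2 := res_add (A := A) hd0 hle
      rw [sub_add_cancel, show res A (T : Qb) = T from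
        (res_eq (intCast_le_one T)).trans ((congrArg (IsLocalRing.residue A) (Subtype.ext (by simp))).trans
          (map_intCast _ T)), hT, right_eq_add] at h2
      exact h2
    rw [show qb (E').toAffine (T : Qb) = qb (E').toAffine s₀ +
        ((T : Qb) - s₀) * ((T : Qb) + s₀ + (E').a₁) by simp only [qb]; ring]
    exact A.valuation.map_add_lt hs₀ (map_mul_lt_one' hd1
      (A.valuation.map_add_le (A.valuation.map_add_le (intCast_le_one T) hle)
        N.node.hI.h₁))

omit N

/-- **The trace of Frobenius at a multiplicative prime** is `q + 1` or `-(q + 1)` by the splitting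
of the node. -/
theorem trace_frobenius_splitSign {p : ℕ} [hp : Fact p.Prime] (B : TateBasis p W) (hp2 : p ≠ 2)
    (hm : MultAt W q A) (hqp : q ≠ p) (hq1 : ¬ p ∣ q + 1) {σ : GQ} (hσ : A.IsFrobeniusAt σ q) :
    (B.rep σ).trace = (splitSign W q : ℤ_[p]) * (q + 1) := by
  classical
  obtain ⟨s, hs, htr⟩ := B.trace_frobenius_mult hp2 hm hqp hσ
  rw [htr]
  congr 1
  obtain ⟨r, N⟩ := exists_nodeData hm
  obtain ⟨s₀, hs₀⟩ := N.exists_branch
  have hd := hσ.mem_decompositionSubgroup
  have hodd : Odd p := hp.out.odd_of_ne_two hp2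
  have hdet : (B.rep σ).det = (q : ℤ_[p]) := by
    rw [B.det_rep, cycP_frobenius p hm.prime hqp hm.lies hσ]
  have hu : IsUnit (2 * ((q : ℤ_[p]) + 1)) := by
    rw [show (2 : ℤ_[p]) * ((q : ℤ_[p]) + 1) = ((2 * (q + 1) : ℕ) : ℤ_[p]) by push_cast; rfl,
      PadicInt.isUnit_iff, PadicInt.norm_natCast_eq_one_iff]
    exact Nat.Coprime.mul_right ((hp.out.coprime_iff_not_dvd).mpr fun h =>
      hp2 ((Nat.prime_dvd_prime_iff_eq hp.out Nat.prime_two).mp h))
      ((hp.out.coprime_iff_not_dvd).mpr hq1)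
  have key : ∀ ε : ℤ, (ε = 1 ∨ ε = -1) →
      (∀ P : Pts W, p • P = 0 → σ • P - ε • P ∈ N.e0Sub) → s = ε := by
    intro ε hε h
    by_contra hne
    refine not_isUnit_det_of_mem N hp2 B h ?_
    have hse : s = -ε := by omega
    have e : (B.rep σ - (ε : Matrix (Fin 2) (Fin 2) ℤ_[p])).det =
        (B.rep σ).det - (ε : ℤ_[p]) * (B.rep σ).trace + (ε : ℤ_[p]) ^ 2 := by
      rw [Matrix.det_fin_two, Matrix.det_fin_two, Matrix.trace_fin_two]
      simp [Matrix.sub_apply, Matrix.intCast_apply]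
      ring
    rw [e, hdet, htr, hse]
    have hε2 : (ε : ℤ_[p]) ^ 2 = 1 := by rcases hε with rfl | rfl <;> simp
    have e2 : (q : ℤ_[p]) - (ε : ℤ_[p]) * (((-ε : ℤ) : ℤ_[p]) * (q + 1)) + (ε : ℤ_[p]) ^ 2 =
        2 * ((q : ℤ_[p]) + 1) := by
      push_cast
      linear_combination ((q : ℤ_[p]) + 2) * hε2
    rw [e2]
    exact hu
  have hs' : s = splitSign W q := by
    by_cases hfix : A.valuation (σ s₀ - s₀) < 1
    · rw [splitSign, if_pos ((splitModel_iff_fixed N hσ hs₀).mpr hfix)]
      refine key 1 (Or.inl rfl) fun P hP => ?_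
      rw [one_zsmul]
      exact smul_sub_mem_of_fixed N hd hs₀ hfix hodd hP
    · rw [splitSign, if_neg fun h => hfix ((splitModel_iff_fixed N hσ hs₀).mp h)]
      refine key (-1) (Or.inr rfl) fun P hP => ?_
      rw [neg_one_zsmul, sub_neg_eq_add]
      exact smul_add_mem_of_swap N hd hs₀
        ((Node.root_cases hs₀ (smul_branch N hd hs₀)).resolve_left hfix) hodd hP
  rw [hs']

end FA.Root

end
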