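import Fermat.Agent.Root.LFunctionSign
import Fermat.Agent.Root.LFunctionNode
import Fermat.Agent.Root.GlobalModel

/-!
# The eigenform of a semistable curve is new, with the splitting signs as bad coefficients

An eigenform of level the product of the bad primes of a semistable integral equation with the good
coefficients of the equation is a newform, and at each bad prime its coefficient is `1` for split
and `-1` for non-split reduction.
-/

set_option autoImplicit false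

noncomputable section

open WeierstrassCurve CongruenceSubgroup FA.EC FA.Frob FA.RT.Tate
open FA.Theta (badProd)

namespace FA.Root

/-- An eigenform of squarefree level, all of whose primes are bad, is new. -/
theorem isNewform_of_ap {W : WeierstrassCurve ℤ} [(ratCurve W).IsElliptic] (hΔ : W.Δ ≠ 0)
    (hW : W.IsSemistableModel) {N : ℕ} (hsq : Squarefree N)
    (hN : ∀ q : ℕ, q.Prime → (q ∣ N ↔ (q : ℤ) ∣ W.Δ))
    {f : CuspForm (Gamma0 N) 2} (hf : f.IsNormalizedEigenform)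
    (hga : ∀ ℓ : ℕ, ℓ.Prime → W.IsGoodPrimeFor ℓ → ¬ ℓ ∣ N →
      ModularFormClass.qCoeff f ℓ = (W.apOfModel ℓ : ℂ)) : f.IsNewform := by
  refine ⟨hf, fun M hMN hne ⟨g, hg, hgf⟩ => hne ?_⟩
  have hN0 : N ≠ 0 := hsq.ne_zero
  have hM0 : M ≠ 0 := fun h => hN0 (by simpa [h] using hMN)
  have : NeZero M := ⟨hM0⟩
  have hmod : W.IsModularModelOfLevel M := ⟨g, hg, fun ℓ hℓ hgood _ => by
    have hℓN : ¬ ℓ ∣ N := fun h => hgood ((hN ℓ hℓ).mp h)
    rw [hgf ℓ hℓ hℓN, hga ℓ hℓ hgood hℓN]⟩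
  refine Nat.dvd_antisymm hMN ?_
  rw [← Nat.prod_primeFactors_of_squarefree hsq]
  refine Finset.prod_primes_dvd M (fun q hq => (Nat.prime_of_mem_primeFactors hq).prime) ?_
  intro q hq
  obtain ⟨hqp, hqN, -⟩ := Nat.mem_primeFactors.mp hq
  exact dvd_of_isModularModelOfLevel hΔ hW hqp ((hN q hqp).mp hqN) hmod

/-- The coefficient at a multiplicative prime of a form new there. -/
theorem qCoeff_eq_splitSign_of_new {W : WeierstrassCurve ℤ} [(ratCurve W).IsElliptic]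
    (hΔ : W.Δ ≠ 0) (hW : W.IsSemistableModel) {M q : ℕ} [NeZero M] (hq : q.Prime)
    (hbad : (q : ℤ) ∣ W.Δ) (hqM : ¬ q ∣ M) {g : CuspForm (Gamma0 (M * q)) 2}
    (hg : g.IsNormalizedEigenform) (hnew : ¬ CuspForm.GoodEigensystemOccursAt g M)
    (hga : ∀ ℓ : ℕ, ℓ.Prime → W.IsGoodPrimeFor ℓ → ¬ ℓ ∣ M * q →
      ModularFormClass.qCoeff g ℓ = (W.apOfModel ℓ : ℂ)) :
    ModularFormClass.qCoeff g q = (splitSign W q : ℂ) := by
  classical
  obtain ⟨p, hple, hp⟩ := Nat.exists_infinite_primes (q + 2)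
  have hp2 : p ≠ 2 := by have := hq.two_le; omega
  have hqp : q ≠ p := by omega
  have hq1 : ¬ p ∣ q + 1 := fun h => by have := Nat.le_of_dvd (Nat.succ_pos q) h; omega
  have : Fact p.Prime := ⟨hp⟩
  have : Fact q.Prime := ⟨hq⟩
  obtain ⟨B⟩ := exists_tateBasis (p := p) (W := W)
  obtain ⟨A, hA⟩ := FA.Deform.exists_liesOverPrime hq
  obtain ⟨σ, hσ⟩ := FA.Deform.exists_isFrobeniusAt hq hA
  refine qCoeff_eq_of_trace_frobenius hΔ hqM hg hnew hga hqp B hA hσ
    (trace_frobenius_splitSign B hp2 ⟨hΔ, hq, hbad, hW q hq hbad, hA⟩ hqp hq1 hσ) ?_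
  unfold splitSign
  split_ifs
  · exact Or.inl rfl
  · exact Or.inr rfl

/-- **The bad coefficients** of the eigenform of a semistable equation. -/
theorem qCoeff_eq_splitSign {W : WeierstrassCurve ℤ} [(ratCurve W).IsElliptic]
    (hΔ : W.Δ ≠ 0) (hW : W.IsSemistableModel) {N : ℕ} (hsq : Squarefree N)
    (hN : ∀ q : ℕ, q.Prime → (q ∣ N ↔ (q : ℤ) ∣ W.Δ))
    {f : CuspForm (Gamma0 N) 2} (hf : f.IsNormalizedEigenform)
    (hga : ∀ ℓ : ℕ, ℓ.Prime → W.IsGoodPrimeFor ℓ → ¬ ℓ ∣ N →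
      ModularFormClass.qCoeff f ℓ = (W.apOfModel ℓ : ℂ))
    {q : ℕ} (hq : q.Prime) (hqN : q ∣ N) :
    ModularFormClass.qCoeff f q = (splitSign W q : ℂ) := by
  have hnew := isNewform_of_ap hΔ hW hsq hN hf hga
  obtain ⟨M, rfl⟩ : ∃ M, N = M * q := ⟨N / q, (Nat.div_mul_cancel hqN).symm⟩
  have : NeZero M := ⟨left_ne_zero_of_mul hsq.ne_zero⟩
  have hqM : ¬ q ∣ M := fun ⟨c, hc⟩ =>
    hq.not_isUnit (hsq q ⟨c, by rw [hc]; ring⟩)
  exact qCoeff_eq_splitSign_of_new hΔ hW hq ((hN q hq).mp hqN) hqM hf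
    (hnew.2 M (dvd_mul_right M q) fun h => hqM (h ▸ dvd_mul_left q M)) hga

end FA.Root

end
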