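import Fermat.Agent.Root.LiftOddBadData
import Fermat.Agent.HeckeH1.PLevelsDepth

/-!
# The towers of a pair from separating lifts

The towers of a pair of congruent curves follow from the lifts separating the base levels and the
Taylor–Wiles levels.
-/

set_option autoImplicit false
set_option linter.style.haveILetI false
set_option linter.unusedSectionVars false
set_option maxHeartbeats 800000

noncomputable section

open IsLocalRing Matrix WeierstrassCurve FA.RT FA.Deform FA.TW FA.Frob FA.HeckeH1 FA.JTorsion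
open FA.Theta (badProd)

namespace FA.Root

local notation "M2" => Matrix (Fin 2) (Fin 2)
local notation "Qb" => AlgebraicClosure ℚ
local notation "GQ" => AlgebraicClosure ℚ ≃ₐ[ℚ] AlgebraicClosure ℚ

variable {p : ℕ} [Fact p.Prime] (W W' : WeierstrassCurve ℤ)
  [(FA.Frob.ratCurve W).IsElliptic] [(FA.Frob.ratCurve W').IsElliptic]
  {O : Type} [CommRing O] [IsDomain O] [IsDiscreteValuationRing O]
  [IsAdicComplete (maximalIdeal O) O] [Finite (ResidueField O)] [CharZero O]
  (hp2 : p ≠ 2) (hpO : (p : O) ∈ maximalIdeal O) (ι : ℤ_[p] →+* O)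
  (j : ZMod p →+* ResidueField O) (P : Places) (hΔ : W.Δ ≠ 0) (hΔ' : W'.Δ ≠ 0)
  (hW : W.IsSemistableModel) {r : ℕ} (haux : LiftAux p W W' r)

local notation "SS" => pairSetup W W' hp2 hpO ι j P hΔ hW haux
local notation "LL" => pairLevels W W' hp2 hpO ι j P hΔ hW haux

/-- Lifts separating the levels of a pair, at the base and at the Taylor–Wiles levels. -/
def PairSep : Prop :=
  Nonempty (∀ U, (SS).Separation (Subtype.val : Rem SS r → ↥(SS).Sig)
      ((LL).baseLevels (sysVal W j)) U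
      ((SS).BaseAllowed fun B _ _ _ m => AtWorld p W B m)) ∧
    ∀ (rr n : ℕ) (D : (SS).TWSet rr n) (ab : Fin rr → ResidueField O), Function.Injective D.qv →
      IsTameGenSet D → (∀ i, D.qv i ∉ (SS).T) →
      (∀ i, ab i * ab i - ((SS).rb (D.φ i)).trace * ab i + ((SS).rb (D.φ i)).det = 0) →
      haveI : NeZero (SS).p := ⟨(SS).hp.ne_zero⟩
      ∀ T : TWPart LL (sysVal W j) (DGroup (SS).p D.expo)
          (insert p (sigSet p W W' r) ∪ Finset.univ.image D.qv),
        T.p = (SS).p → T.Q = twQ D →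
        (∀ (i : Fin rr) (q : Nat.Primes), (q : ℕ) = D.qv i → residue O (T.α q) = ab i) →
        (∀ (i : Fin rr) (u : (ZMod (∏ q ∈ T.Q, (q : ℕ)))ˣ),
          haveI : Fact (D.qv i).Prime := ⟨(D.prime i).1⟩
          (ZMod.cast (u : ZMod (∏ q ∈ T.Q, (q : ℕ))) : ZMod (D.qv i)) =
            (FA.JTorsion.cycK (D.qv i) (ZMod (D.qv i)) (D.s i) : ZMod (D.qv i)) →
          (∀ j, j ≠ i →
            (ZMod.cast (u : ZMod (∏ q ∈ T.Q, (q : ℕ))) : ZMod (D.qv j)) = 1) →
          T.κ u * dGen (SS).p D.expo i ^ 2 = 1) →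
        ∃ sep : ∀ U, (SS).Separation (Subtype.val : Rem SS r → ↥(SS).Sig) T.depthLevels U
            (D.Allowed fun B _ _ _ m => AtWorld p W B m),
          ∀ U (i : Fin rr) (j : (sep U).pts.J), ∃ a : (sep U).pts.B j, (sep U).pts.ε j a = ab i ∧
            a * a - ((sep U).pts.r j (D.φ i)).trace * a + ((sep U).pts.r j (D.φ i)).det = 0 ∧
            (2 * a - ((sep U).pts.r j (D.φ i)).trace) *
                (sep U).ev (T.diaA U (dGen (SS).p D.expo i)) j =
              ((sep U).pts.r j (D.φ i) * (sep U).pts.r j (D.s i)).trace -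
                (((sep U).pts.r j (D.φ i)).trace - a) * ((sep U).pts.r j (D.s i)).trace

include hΔ' in
/-- **The towers of a pair**, from the separating lifts. -/
theorem pairTowers_aux (hirr : W.ModRepIsIrreducible p)
    (h : PairSep W W' hp2 hpO ι j P hΔ hW haux) :
    ∃ sep : ∀ U, (SS).Separation (Subtype.val : Rem SS r → ↥(SS).Sig)
        ((LL).baseLevels (sysVal W j)) U ((SS).BaseAllowed fun B _ _ _ m => AtWorld p W B m),
      Setup.MonoTower ((LL).baseTower SS (sysVal W j)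
        (pair_nonEisenstein W hp2 hpO j hΔ hirr) sep) ∧
      ∀ (rr n : ℕ) (D : (SS).TWSet rr n) (ab : Fin rr → ResidueField O),
        Function.Injective D.qv → IsTameGenSet D → (∀ i, D.qv i ∉ (SS).T) →
        (∀ i, ab i * ab i - ((SS).rb (D.φ i)).trace * ab i + ((SS).rb (D.φ i)).det = 0) →
        Nonempty (Setup.DepthTower ((LL).baseTower SS (sysVal W j)
          (pair_nonEisenstein W hp2 hpO j hΔ hirr) sep) D ab) := by
  obtain ⟨⟨sep⟩, hD⟩ := h
  letI : Algebra Qb ℂ := (IsAlgClosed.lift (R := ℚ) (S := Qb) (M := ℂ)).toRingHom.toAlgebra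
  refine ⟨sep, pair_monoTower W W' hp2 hpO ι j P hΔ hW haux hirr sep,
    fun rr n D ab hinj hgen hT hab => ?_⟩
  obtain ⟨T, hTp, hTQ, hTα, hTκ⟩ :=
    exists_pairTWPart W W' hp2 hpO ι j P hΔ hΔ' hW haux hirr D ab hinj hgen hT hab
  obtain ⟨sep', hev⟩ := hD rr n D ab hinj hgen hT hab T hTp hTQ hTα hTκ
  exact ⟨T.depthTower sep' hev⟩

variable (hbad : (p : ℤ) ∣ W.Δ) (hval : p ∣ padicValInt p W.Δ)

local notation "SU" => unionPairSetup W W' hp2 hpO ι j P hΔ hW hbad hval haux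
local notation "UL" => unionPairLevels W W' hp2 hpO ι j P hΔ hW hbad hval haux
local notation "UP" => unionPPart W W' hp2 hpO ι j P hΔ hW hbad hval haux

/-- Lifts separating the levels of a pair in the union of two worlds at `p`. -/
def UnionSep : Prop :=
  Nonempty (∀ U, (SU).Separation (Subtype.val : Rem SU r → ↥(SU).Sig)
      ((UL).baseLevels (sysVal W j)) U ((SU).BaseAllowed (fun _ _ _ _ _ => True))) ∧
    Nonempty (∀ U, (SU).PartSep (((UP).pLevels (sysVal W j)).TF U) (insert p (sigSet p W W' r))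
      fun B _ _ _ m => (SU).BaseAllowed (fun _ _ _ _ _ => True) B m ∧ AtFlat p B m) ∧
    Nonempty (∀ U, (SU).PartSep (((UP).pLevels (sysVal W j)).TS U) (insert p (sigSet p W W' r))
      fun B _ _ _ m => (SU).BaseAllowed (fun _ _ _ _ _ => True) B m ∧ AtStrict p B m) ∧
    ∀ (rr n : ℕ) (D : (SU).TWSet rr n) (ab : Fin rr → ResidueField O), Function.Injective D.qv →
      IsTameGenSet D → (∀ i, D.qv i ∉ (SU).T) →
      (∀ i, ab i * ab i - ((SU).rb (D.φ i)).trace * ab i + ((SU).rb (D.φ i)).det = 0) →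
      haveI : NeZero (SU).p := ⟨(SU).hp.ne_zero⟩
      ∀ (T : TWPart UL (sysVal W j) (DGroup (SU).p D.expo)
          (insert p (sigSet p W W' r) ∪ Finset.univ.image D.qv))
        (hneat : IsNeatOn O (GamH (UP).L0 ⊤)),
        T.p = (SU).p → T.Q = twQ D →
        (∀ (i : Fin rr) (q : Nat.Primes), (q : ℕ) = D.qv i → residue O (T.α q) = ab i) →
        (∀ (i : Fin rr) (u : (ZMod (∏ q ∈ T.Q, (q : ℕ)))ˣ),
          haveI : Fact (D.qv i).Prime := ⟨(D.prime i).1⟩
          (ZMod.cast (u : ZMod (∏ q ∈ T.Q, (q : ℕ))) : ZMod (D.qv i)) =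
            (FA.JTorsion.cycK (D.qv i) (ZMod (D.qv i)) (D.s i) : ZMod (D.qv i)) →
          (∀ j, j ≠ i →
            (ZMod.cast (u : ZMod (∏ q ∈ T.Q, (q : ℕ))) : ZMod (D.qv j)) = 1) →
          T.κ u * dGen (SU).p D.expo i ^ 2 = 1) →
        ∃ (sep : ∀ U, (SU).Separation (Subtype.val : Rem SU r → ↥(SU).Sig) T.depthLevels U
            (D.Allowed (fun _ _ _ _ _ => True)))
          (sepF : ∀ U, (SU).PartSep (((UP).pLevelsD T hneat).TF U)
            (insert p (sigSet p W W' r) ∪ Finset.univ.image D.qv)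
            fun B _ _ _ m => D.Allowed (fun _ _ _ _ _ => True) B m ∧ AtFlat p B m)
          (sepS : ∀ U, (SU).PartSep (((UP).pLevelsD T hneat).TS U)
            (insert p (sigSet p W W' r) ∪ Finset.univ.image D.qv)
            fun B _ _ _ m => D.Allowed (fun _ _ _ _ _ => True) B m ∧ AtStrict p B m),
          (∀ U (i : Fin rr) (j : (sep U).pts.J), ∃ a : (sep U).pts.B j, (sep U).pts.ε j a = ab i ∧
            a * a - ((sep U).pts.r j (D.φ i)).trace * a + ((sep U).pts.r j (D.φ i)).det = 0 ∧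
            (2 * a - ((sep U).pts.r j (D.φ i)).trace) *
                (sep U).ev (T.diaA U (dGen (SU).p D.expo i)) j =
              ((sep U).pts.r j (D.φ i) * (sep U).pts.r j (D.s i)).trace -
                (((sep U).pts.r j (D.φ i)).trace - a) * ((sep U).pts.r j (D.s i)).trace) ∧
          (∀ U, Setup.DiaRel D ab (sepF U).pts fun i =>
            (sepF U).ev (((UP).oldTW T hneat).dia U (dGen (SU).p D.expo i))) ∧
          ∀ U, Setup.DiaRel D ab (sepS U).pts fun i =>
            (sepS U).ev ((UP).diaNew T hneat U (dGen (SU).p D.expo i))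

include hΔ' in
/-- **The towers of a pair in the union**, from the separating lifts. -/
theorem unionTowers_aux (hW' : W'.IsSemistableModel) (hbad' : (p : ℤ) ∣ W'.Δ)
    (hirr : W.ModRepIsIrreducible p) (h : UnionSep W W' hp2 hpO ι j P hΔ hW haux hbad hval) :
    ∃ sep : ∀ U, (SU).Separation (Subtype.val : Rem SU r → ↥(SU).Sig)
        ((UL).baseLevels (sysVal W j)) U ((SU).BaseAllowed (fun _ _ _ _ _ => True)),
      Setup.MonoTower ((UL).baseTower SU (sysVal W j)
        (pair_nonEisenstein W hp2 hpO j hΔ hirr) sep) ∧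
      ∃ pb : Setup.PBase ((UL).baseTower SU (sysVal W j)
          (pair_nonEisenstein W hp2 hpO j hΔ hirr) sep)
          (fun B _ _ _ m => AtFlat p B m) (fun B _ _ _ m => AtStrict p B m),
        (¬ ∃ χF : Algebra.adjoin O {a : pb.AF (topSet SU r W') |
            ∃ ℓ : ℕ, ℓ.Prime ∧ ℓ ∉ insert p (sigSet p W W' r) ∧ a = pb.TF (topSet SU r W') ℓ}
            →ₐ[O] O,
          ∀ (ℓ : ℕ) (hℓ : ℓ.Prime) (hb : ℓ ∉ insert p (sigSet p W W' r)),
            χF ⟨pb.TF (topSet SU r W') ℓ, Algebra.subset_adjoin ⟨ℓ, hℓ, hb, rfl⟩⟩ =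
              (W'.apOfModel ℓ : O)) ∧
        ∀ (rr n : ℕ) (D : (SU).TWSet rr n) (ab : Fin rr → ResidueField O),
          Function.Injective D.qv → IsTameGenSet D → (∀ i, D.qv i ∉ (SU).T) →
          (∀ i, ab i * ab i - ((SU).rb (D.φ i)).trace * ab i + ((SU).rb (D.φ i)).det = 0) →
          ∃ dep : Setup.DepthTower ((UL).baseTower SU (sysVal W j)
              (pair_nonEisenstein W hp2 hpO j hΔ hirr) sep) D ab,
            Nonempty (Setup.PDepth pb dep) := by
  obtain ⟨⟨sep⟩, ⟨sepF⟩, ⟨sepS⟩, hD⟩ := h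
  refine ⟨sep, union_monoTower W W' hp2 hpO ι j P hΔ hW hbad hval haux hirr sep,
    (UP).pBase SU (sysVal W j) (pair_nonEisenstein W hp2 hpO j hΔ hirr) sep sepF sepS,
    not_oldPoint W W' hp2 hpO ι j P hΔ hΔ' hW hbad hval haux hW' hirr hbad' (topSet SU r W'),
    fun rr n D ab hinj hgen hT hab => ?_⟩
  haveI : Fact r.Prime := ⟨haux.prime⟩
  haveI : NeZero (UP).L0 := ⟨fun h0 => (UL).pos (by rw [(UP).eq, h0, zero_mul])⟩
  have hneat : IsNeatOn O (GamH (UP).L0 ⊤) := isNeatOn_of_prime hp2 hpO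
    (Finset.dvd_prod_of_mem _ ((mem_fixSet SU r).mpr
      ⟨mem_unionPairSetup_Sig W W' hp2 hpO ι j P hΔ hW hbad hval haux, Or.inl rfl⟩)) haux.cast_eq
  obtain ⟨T, hTp, hTQ, hTα, hTκ⟩ :=
    exists_unionTWPart W W' hp2 hpO ι j P hΔ hΔ' hW hbad hval haux hirr D ab hinj hgen hT hab
  obtain ⟨sep', sepF', sepS', hev, hevF, hevS⟩ :=
    hD rr n D ab hinj hgen hT hab T hneat hTp hTQ hTα hTκ
  exact ⟨T.depthTower sep' hev, ⟨(UP).pDepth T hneat sep' hev sepF' sepS' hevF hevS⟩⟩

/-- Separating lifts exist for every pair with one world at `p`. -/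
def PairSeps : Prop :=
  ∀ (p : ℕ) [Fact p.Prime] (W W' : WeierstrassCurve ℤ)
    [(FA.Frob.ratCurve W).IsElliptic] [(FA.Frob.ratCurve W').IsElliptic]
    (O : Type) [CommRing O] [IsDomain O] [IsDiscreteValuationRing O]
    [IsAdicComplete (maximalIdeal O) O] [Finite (ResidueField O)] [CharZero O]
    (hp2 : p ≠ 2) (hpO : (p : O) ∈ maximalIdeal O) (_ : maximalIdeal O = Ideal.span {(p : O)})
    (ι : ℤ_[p] →+* O) (j : ZMod p →+* ResidueField O) (P : Places)
    (hΔ : W.Δ ≠ 0) (_ : W'.Δ ≠ 0) (hW : W.IsSemistableModel) (_ : W'.IsSemistableModel)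
    (r : ℕ) (haux : LiftAux p W W' r) (_ : W.ModRepIsIrreducible p)
    (_ : ∃ U : M2 (ZMod p), IsUnit U ∧ ∀ σ, U * curveRep p W σ = curveRep p W' σ * U)
    (_ : (p : ℤ) ∣ W.Δ ↔ (p : ℤ) ∣ W'.Δ) (_ : (p : ℤ) ∣ W.Δ → ¬ p ∣ padicValInt p W.Δ)
    (_ : ∀ t d : ZMod p, ∃ a, a * a - j t * a + j d = 0),
    PairSep W W' hp2 hpO ι j P hΔ hW haux

/-- Separating lifts exist for every pair in the union of two worlds at `p`. -/
def UnionSeps : Prop :=
  ∀ (p : ℕ) [Fact p.Prime] (W W' : WeierstrassCurve ℤ)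
    [(FA.Frob.ratCurve W).IsElliptic] [(FA.Frob.ratCurve W').IsElliptic]
    (O : Type) [CommRing O] [IsDomain O] [IsDiscreteValuationRing O]
    [IsAdicComplete (maximalIdeal O) O] [Finite (ResidueField O)] [CharZero O]
    (hp2 : p ≠ 2) (hpO : (p : O) ∈ maximalIdeal O) (_ : maximalIdeal O = Ideal.span {(p : O)})
    (ι : ℤ_[p] →+* O) (j : ZMod p →+* ResidueField O) (P : Places)
    (hΔ : W.Δ ≠ 0) (_ : W'.Δ ≠ 0) (hW : W.IsSemistableModel) (_ : W'.IsSemistableModel)
    (hbad : (p : ℤ) ∣ W.Δ) (hval : p ∣ padicValInt p W.Δ) (_ : (p : ℤ) ∣ W'.Δ)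
    (r : ℕ) (haux : LiftAux p W W' r) (_ : W.ModRepIsIrreducible p)
    (_ : ∃ U : M2 (ZMod p), IsUnit U ∧ ∀ σ, U * curveRep p W σ = curveRep p W' σ * U)
    (_ : ∀ t d : ZMod p, ∃ a, a * a - j t * a + j d = 0),
    UnionSep W W' hp2 hpO ι j P hΔ hW haux hbad hval

/-- **`PairTowers` from the separating lifts.** -/
theorem pairTowers_of (h : PairSeps) : PairTowers := by
  intro p _ W W' _ _ O _ _ _ _ _ _ hp2 hpO hspan ι j P hΔ hΔ' hW hW' r haux hirr hcong hpp htres
    hsplit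
  exact pairTowers_aux W W' hp2 hpO ι j P hΔ hΔ' hW haux hirr
    (h p W W' O hp2 hpO hspan ι j P hΔ hΔ' hW hW' r haux hirr hcong hpp htres hsplit)

/-- **`UnionTowers` from the separating lifts.** -/
theorem unionTowers_of (h : UnionSeps) : UnionTowers := by
  intro p _ W W' _ _ O _ _ _ _ _ _ hp2 hpO hspan ι j P hΔ hΔ' hW hW' hbad hval hbad' r haux hirr
    hcong hsplit
  exact unionTowers_aux W W' hp2 hpO ι j P hΔ hΔ' hW haux hbad hval hW' hbad' hirr
    (h p W W' O hp2 hpO hspan ι j P hΔ hΔ' hW hW' hbad hval hbad' r haux hirr hcong hsplit)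

end FA.Root

end
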