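import Fermat.Agent.HeckeH1.EigenSystem
import Fermat.Agent.Theta.Residual
import Fermat.Agent.Density.Traces
import Fermat.Agent.S29

/-!
# From an eigenclass with the eigenvalues of a curve to an eigenform of the curve
-/

set_option autoImplicit false
set_option linter.style.haveILetI false

noncomputable section

open CongruenceSubgroup WeierstrassCurve
open scoped WeierstrassCurve.Affine

namespace FA.Root

open FA.HeckeH1

local notation "O" => integralClosure ℤ ℂ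
local notation "Qb" => AlgebraicClosure ℚ

/-- A nonzero algebraic integer lies in maximal ideals over only finitely many primes. -/
theorem eq_zero_of_mem_primes (x : O)
    (h : ∀ B : ℕ, ∃ p : ℕ, B < p ∧ p.Prime ∧ ∃ m : Ideal O, m.IsPrime ∧ (p : O) ∈ m ∧ x ∈ m) :
    x = 0 := by
  by_contra hx
  obtain ⟨P, hP, hP0⟩ := Algebra.IsIntegral.isIntegral (R := ℤ) x
  obtain ⟨c, hc, hcx⟩ := Ideal.exists_coeff_ne_zero_mem_comap_of_root_mem
    hx (Ideal.mem_span_singleton_self x) hP.ne_zero hP0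
  obtain ⟨p, hBp, hp, m, hm, hpm, hxm⟩ := h (P.coeff c).natAbs
  have hle : Ideal.span {x} ≤ m := by
    rw [Ideal.span_le, Set.singleton_subset_iff]
    exact hxm
  have h1 : (algebraMap ℤ O) (P.coeff c) ∈ m := hle (Ideal.mem_comap.1 hcx)
  have hbot : Int.gcd (P.coeff c) p = 1 := by
    rw [Int.gcd, Int.natAbs_natCast]
    exact ((hp.coprime_iff_not_dvd).2 fun hd =>
      absurd (Nat.le_of_dvd (Int.natAbs_pos.2 hc) hd) (not_le.2 hBp)).symm
  obtain ⟨u, v, huv⟩ := Int.isCoprime_iff_gcd_eq_one.2 hbot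
  refine hm.ne_top ((Ideal.eq_top_iff_one _).2 ?_)
  have h2 : algebraMap ℤ O (u * P.coeff c + v * p) ∈ m := by
    rw [map_add, map_mul, map_mul, map_natCast]
    exact m.add_mem (m.mul_mem_left _ h1) (m.mul_mem_left _ hpm)
  rwa [huv, map_one] at h2

variable {N : ℕ} [NeZero N]

/-- An eigenclass over a domain with integral eigenvalues gives an eigenform with the same
eigenvalues. -/
theorem exists_eigenform_of_eigenclass {A : Type} [CommRing A] [IsDomain A] [CharZero A]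
    (a : ℕ → ℤ) (P : ℕ → Prop) (z : Hom1 (GamH N ⊤) A) (hz : z ∈ Par (GamH N ⊤) A) (hz0 : z ≠ 0)
    (heig : ∀ (ℓ : ℕ) [Fact ℓ.Prime], ¬ ℓ ∣ N → P ℓ → (Tc N ⊤ ℓ).act z = a ℓ • z) :
    ∃ f : CuspForm (Gamma0 N) 2, f.IsNormalizedEigenform ∧
      ∀ ℓ : ℕ, ℓ.Prime → ¬ ℓ ∣ N → P ℓ → ModularFormClass.qCoeff f ℓ = (a ℓ : ℂ) := by
  classical
  -- to complex coefficients
  obtain ⟨γ, hγ⟩ : ∃ γ, z γ ≠ 0 := by
    by_contra h
    push Not at h
    exact hz0 (AddMonoidHom.ext h)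
  let K := FractionRing A
  haveI : CharZero K := charZero_of_injective_algebraMap (IsFractionRing.injective A K)
  obtain ⟨φ, hφ⟩ : ∃ φ : K →ₗ[ℚ] ℚ, φ (algebraMap A K (z γ)) ≠ 0 := by
    by_contra h
    push Not at h
    exact (map_ne_zero_iff _ (IsFractionRing.injective A K)).2 hγ
      ((Module.forall_dual_apply_eq_zero_iff ℚ _).1 h)
  let ψ : A →+ ℂ := (Rat.castHom ℂ).toAddMonoidHom.comp
    (φ.toAddMonoidHom.comp (algebraMap A K).toAddMonoidHom)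
  let y : Hom1 (GamH N ⊤) ℂ := ψ.comp z
  have hy0 : y ≠ 0 := fun h => hφ (Rat.cast_injective (α := ℂ)
    ((DFunLike.congr_fun h γ).trans Rat.cast_zero.symm))
  -- to forms
  obtain ⟨⟨f₁, g₁⟩, hfg⟩ := exists_perP_eq (M := N) (H := ⊤) rfl (Par_comp ψ hz)
  let S : Submodule ℂ (CuspForm (Gamma0 N) 2) :=
    ⨅ ℓ : {ℓ : ℕ // ℓ.Prime ∧ ¬ ℓ ∣ N ∧ P ℓ},
      LinearMap.ker (CuspForm.heckeTLin 2 ℓ.2.1 ℓ.2.2.1 - (a ℓ.1 : ℂ) • 1)
  have hS : ∀ v, v ∈ S ↔ ∀ (ℓ : ℕ) (hℓ : ℓ.Prime) (hℓN : ¬ ℓ ∣ N), P ℓ →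
      CuspForm.heckeTLin 2 hℓ hℓN v = (a ℓ : ℂ) • v := fun v => by
    simp [S, Submodule.mem_iInf, sub_eq_zero]
  have hT : ∀ (ℓ : ℕ) (hℓ : ℓ.Prime) (hℓN : ¬ ℓ ∣ N), P ℓ →
      (CuspForm.heckeTLin 2 hℓ hℓN f₁, CuspForm.heckeTLin 2 hℓ hℓN g₁) =
        (a ℓ : ℂ) • (f₁, g₁) := fun ℓ hℓ hℓN hP => by
    haveI : Fact ℓ.Prime := ⟨hℓ⟩
    haveI : NeZero ℓ := ⟨hℓ.ne_zero⟩
    apply perP_injective (M := N) (H := ⊤) rfl
    have h := perP_Tc (M := N) (H := ⊤) (ℓ := ℓ) (fun _ => coprime_mem_top hℓ hℓN) (f₁, g₁)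
    rw [hfg, Corr.act_comp_hom, heig ℓ hℓN hP] at h
    simp only [FA.JTorsion.heckeForm, dif_neg hℓN] at h
    rw [← h, map_smul, hfg]
    refine AddMonoidHom.ext fun δ => ?_
    show ψ (a ℓ • z δ) = (a ℓ : ℂ) • ψ (z δ)
    rw [map_zsmul, Int.cast_smul_eq_zsmul]
  have hne : S ≠ ⊥ := fun hbot => by
    have hf1 : f₁ ∈ S := (hS _).2 fun ℓ hℓ hℓN hP => congrArg Prod.fst (hT ℓ hℓ hℓN hP)
    have hg1 : g₁ ∈ S := (hS _).2 fun ℓ hℓ hℓN hP => congrArg Prod.snd (hT ℓ hℓ hℓN hP)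
    rw [hbot, Submodule.mem_bot] at hf1 hg1
    subst hf1 hg1
    exact hy0 (hfg.symm.trans (map_zero (perP N ⊤)))
  have hst : ∀ t : CuspForm.heckeAlgebra N 2 ∅, ∀ v ∈ S,
      (t : Module.End ℂ (CuspForm (Gamma0 N) 2)) v ∈ S := fun t v hv => (hS _).2
    fun ℓ hℓ hℓN hP => by
      have hc := congrArg (fun x : CuspForm.heckeAlgebra N 2 ∅ =>
        (x : Module.End ℂ (CuspForm (Gamma0 N) 2)) v)
        (mul_comm (CuspForm.heckeAlgebra.T (k := 2) hℓ hℓN (Set.notMem_empty _)) t)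
      simp only [MulMemClass.coe_mul, Module.End.mul_apply, CuspForm.heckeAlgebra.coe_T] at hc
      rw [hc, (hS v).1 hv ℓ hℓ hℓN hP, map_smul]
  obtain ⟨g, hg, hgn⟩ := exists_normalized_mem S hne hst
  refine ⟨g, hgn, fun ℓ hℓ hℓN hP => ?_⟩
  have h := (FA.JTorsion.heckeT_eigen hgn hℓ hℓN).symm.trans ((hS g).1 hg ℓ hℓ hℓN hP)
  rw [← FA.Deform.qLin_apply]
  exact smul_left_injective ℂ hgn.ne_zero h

omit [NeZero N] in
/-- An eigenform with almost all eigenvalues of a curve is attached to it. -/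
theorem qCoeff_eq_apOfModel {W : WeierstrassCurve ℤ} (hΔ : W.Δ ≠ 0) (hN : N ≠ 0)
    {f : CuspForm (Gamma0 N) 2} (hf : f.IsNormalizedEigenform) (bad : Finset ℕ)
    (h : ∀ ℓ : ℕ, ℓ.Prime → ℓ ∉ bad → ¬ ℓ ∣ N →
      ModularFormClass.qCoeff f ℓ = (W.apOfModel ℓ : ℂ))
    {ℓ : ℕ} (hℓ : ℓ.Prime) (hgood : W.IsGoodPrimeFor ℓ) (hℓN : ¬ ℓ ∣ N) :
    ModularFormClass.qCoeff f ℓ = (W.apOfModel ℓ : ℂ) := by
  classical
  haveI : NeZero N := ⟨hN⟩
  haveI : (FA.Frob.ratCurve W).IsElliptic := FA.Frob.ratCurve_isElliptic_of_Δ hΔ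
  obtain ⟨ψ, hψ⟩ := FA.JTorsion.exists_eigenChar (S := (∅ : Set ℕ)) hf
  set a := ψ (CuspForm.heckeAlgebra.T hℓ hℓN (Set.notMem_empty _)) with hadef
  have ha : (a : ℂ) = ModularFormClass.qCoeff f ℓ := hψ ℓ hℓ hℓN _
  have hkey : a - (W.apOfModel ℓ : O) = 0 := by
    refine eq_zero_of_mem_primes _ fun B => ?_
    obtain ⟨p, hBp, hp⟩ := Nat.exists_infinite_primes (max B ℓ + 1)
    haveI : Fact p.Prime := ⟨hp⟩
    obtain ⟨m, hm, hpm⟩ := FLTPrelim.exists_maximalIdeal_natCast_prime_mem hp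
    refine ⟨p, by omega, hp, m, hm.isPrime, hpm, ?_⟩
    let k := O ⧸ m
    letI : Field k := Ideal.Quotient.field m
    haveI : CharP k p := by
      refine (CharP.charP_iff_prime_eq_zero hp).2 ?_
      rw [← map_natCast (Ideal.Quotient.mk m)]
      exact Ideal.Quotient.eq_zero_iff_mem.2 hpm
    let φ : O →+* k := Ideal.Quotient.mk m
    obtain ⟨ρ, hρ, -⟩ := Fermat.Agent.S29.result hf hp φ
    let ρE : ResidualGaloisRep (ZMod p) := (FA.Frob.ratCurve W).residualGaloisRepOf p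
      (FA.EC.natCard_torsion _ hp.ne_zero) (FA.EC.galoisFactorsThroughFiniteLevel _ hp.ne_zero)
    let r := FA.Deform.resMatrix ρ
    let e : FA.Deform.GQ →* Matrix (Fin 2) (Fin 2) k :=
      ((ZMod.castHom (dvd_refl p) k).mapMatrix.toMonoidHom).comp (FA.Deform.resMatrix ρE)
    have hopen : ∀ {k' : Type} [Field k'] (σ : ResidualGaloisRep k'),
        IsOpen ((FA.Deform.resMatrix σ).ker : Set FA.Deform.GQ) := fun {k'} _ σ => by
      obtain ⟨L, hL, h⟩ := FA.Deform.resMatrix_eq_one σ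
      exact Subgroup.isOpen_mono (H₁ := L.fixingSubgroup)
        (fun τ hτ => h τ ((IntermediateField.mem_fixingSubgroup_iff L τ).mp hτ))
        (IntermediateField.fixingSubgroup_isOpen L)
    have he : IsOpen (e.ker : Set FA.Deform.GQ) :=
      Subgroup.isOpen_mono (fun σ hσ => by
        show (ZMod.castHom (dvd_refl p) k).mapMatrix (FA.Deform.resMatrix ρE σ) = 1
        rw [MonoidHom.mem_ker.1 hσ, map_one]) (hopen ρE)
    have hne : ∀ q : ℕ, q.Prime → q ≠ p → (q : k) ≠ 0 := fun q hq hqp h0 =>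
      hqp ((Nat.prime_dvd_prime_iff_eq hp hq).1 ((CharP.cast_eq_zero_iff k p q).1 h0)).symm
    have hr : ∀ q : ℕ, q.Prime → ¬ q ∣ N → q ≠ p → ∀ A : ValuationSubring Qb,
        A.LiesOverPrime q → ∀ σ : FA.Deform.GQ, A.IsFrobeniusAt σ q →
        ∃ b : O, (b : ℂ) = ModularFormClass.qCoeff f q ∧
          (r σ).trace = φ b ∧ (r σ).det = q := by
      intro q hq hqN hqp A hA σ hσ
      obtain ⟨b, hb, hchar⟩ := hρ q hq hqN (hne q hq hqp) A hA σ hσ
      exact ⟨b, hb, FA.Theta.trace_det_of_charpoly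
        ((LinearMap.charpoly_toMatrix (ρ.ρ σ) (FA.Deform.resBasis ρ)).trans hchar)⟩
    have hE : ∀ q : ℕ, q.Prime → W.IsGoodPrimeFor q → q ≠ p → ∀ A : ValuationSubring Qb,
        A.LiesOverPrime q → ∀ σ : FA.Deform.GQ, A.IsFrobeniusAt σ q →
        (e σ).trace = φ (W.apOfModel q : O) ∧ (e σ).det = q := by
      intro q hq hg hqp A hA σ hσ
      obtain ⟨ht, hd⟩ := FA.Theta.trace_det_of_charpoly
        ((LinearMap.charpoly_toMatrix (ρE.ρ σ) (FA.Deform.resBasis ρE)).trans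
          (FA.Frob.charpoly_galoisRep W hq hg (p := p) hqp.symm hA hσ))
      constructor
      · show ((FA.Deform.resMatrix ρE σ).map (ZMod.castHom (dvd_refl p) k)).trace = _
        rw [← AddMonoidHom.map_trace, map_intCast]
        exact (congrArg (ZMod.castHom (dvd_refl p) k) ht).trans (map_intCast _ _)
      · show ((ZMod.castHom (dvd_refl p) k).mapMatrix (FA.Deform.resMatrix ρE σ)).det = _
        rw [← RingHom.map_det]
        exact (congrArg (ZMod.castHom (dvd_refl p) k) hd).trans (map_natCast _ _)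
    obtain ⟨A, hA⟩ := FA.Deform.exists_liesOverPrime hℓ
    obtain ⟨σ, hσ⟩ := FA.Deform.exists_isFrobeniusAt hℓ hA
    have hℓp : ℓ ≠ p := by omega
    obtain ⟨hT, -⟩ := FA.Density.trace_det_eq_of_frobenius r e (hopen ρ) he
      (bad ∪ N.primeFactors ∪ W.Δ.natAbs.primeFactors ∪ {p}) (fun q hq hqS A hA σ hσ => by
        simp only [Finset.mem_union, Finset.mem_singleton, not_or, Nat.mem_primeFactors] at hqS
        obtain ⟨⟨⟨hqb, hqN⟩, hqW⟩, hqp⟩ := hqS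
        have hqN' : ¬ q ∣ N := fun hd => hqN ⟨hq, hd, hN⟩
        have hg : W.IsGoodPrimeFor q := fun hd =>
          hqW ⟨hq, Int.natCast_dvd.1 hd, Int.natAbs_ne_zero.2 hΔ⟩
        obtain ⟨b, hb, htr, hdr⟩ := hr q hq hqN' hqp A hA σ hσ
        obtain ⟨hte, hde⟩ := hE q hq hg hqp A hA σ hσ
        refine ⟨htr.trans ((congrArg φ (Subtype.ext ?_)).trans hte.symm), hdr.trans hde.symm⟩
        rw [hb, h q hq hqb hqN']
        push_cast
        rfl) σ
    obtain ⟨b, hb, htr, -⟩ := hr ℓ hℓ hℓN hℓp A hA σ hσ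
    rw [show b = a from Subtype.ext (hb.trans ha.symm), hT, (hE ℓ hℓ hgood hℓp A hA σ hσ).1] at htr
    exact Ideal.Quotient.eq.1 htr.symm
  rw [← ha, sub_eq_zero.1 hkey]
  push_cast
  rfl

/-- An eigenclass with almost all eigenvalues of a curve makes it modular. -/
theorem isModularModelOfLevel_of_eigenclass {W : WeierstrassCurve ℤ} (hΔ : W.Δ ≠ 0)
    {A : Type} [CommRing A] [IsDomain A] [CharZero A] (bad : Finset ℕ)
    (z : Hom1 (GamH N ⊤) A) (hz : z ∈ Par (GamH N ⊤) A) (hz0 : z ≠ 0)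
    (heig : ∀ (ℓ : ℕ) [Fact ℓ.Prime], ¬ ℓ ∣ N → ℓ ∉ bad →
      (Tc N ⊤ ℓ).act z = W.apOfModel ℓ • z) :
    W.IsModularModelOfLevel N := by
  obtain ⟨f, hf, hcoef⟩ := exists_eigenform_of_eigenclass (fun ℓ => W.apOfModel ℓ)
    (fun ℓ => ℓ ∉ bad) z hz hz0 heig
  exact ⟨f, hf, fun p hp hg hpN => qCoeff_eq_apOfModel hΔ (NeZero.ne N) hf bad
    (fun ℓ hℓ hb hN => hcoef ℓ hℓ hN hb) hp hg hpN⟩

end FA.Root

end
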