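import Fermat.Agent.Root.Chain
import Fermat.Agent.Two.CurveBase
import Fermat.Agent.Two.Limit
import Fermat.Agent.RT.LiftSetting

/-!
# Modularity lifting at `2` from approximate eigenfunctionals

The outer end: coefficients, a basis of the Tate module, the setting of the curve at every depth
with auxiliary primes above the depth, and the limit.
-/

set_option autoImplicit false
set_option linter.unusedSectionVars false
set_option linter.style.haveILetI false
set_option maxHeartbeats 1000000
set_option synthInstance.maxHeartbeats 400000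

noncomputable section

open IsLocalRing WeierstrassCurve FA.EC FA.Frob FA.HeckeH1
open scoped MatrixGroups

namespace FA.Two

open FA.RT.Tate
open FA.Theta (badProd)

local instance : Fact (Nat.Prime 2) := ⟨Nat.prime_two⟩

/-- **Approximate eigenfunctionals**: at every depth, for the setting of a curve at that depth, a
functional modulo that power of `2` on the classes of level `D` with the eigenvalues `a_ℓ` outside
the omitted primes, taking the value one at a parabolic class. -/
def Approx : Prop :=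
  ∀ (W : WeierstrassCurve ℤ) [(ratCurve W).IsElliptic] (hW : IsSwitchCurve W)
    (O : Type) [CommRing O] [IsDomain O] [IsDiscreteValuationRing O]
    [IsAdicComplete (maximalIdeal O) O] [CharZero O] [CharP (ResidueField O) 2]
    [Fintype (ResidueField O)],
    (∃ w : ResidueField O, w ^ 2 + w + 1 = 0) →
    (2 : O) ∈ maximalIdeal O → maximalIdeal O = Ideal.span {(2 : O)} →
    ∀ (_ : ℤ_[2] →+* O) (N : ℕ) (B : TateBasis 2 W) (avoid : Finset ℕ)
      (C : CurveBase W O N B avoid),
    ∃ ψ : Hom1 (GamH (C.Bd hW).D ⊤) O →ₗ[O] O ⧸ maximalIdeal O ^ N,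
      (∃ z ∈ Par (GamH (C.Bd hW).D ⊤) O, ψ z = 1) ∧
      ∀ ℓ : Nat.Primes, ℓ ∉ (C.Bd hW).S → ∀ z ∈ Par (GamH (C.Bd hW).D ⊤) O,
        ψ ((Tc (C.Bd hW).D ⊤ (ℓ : ℕ)).act z) =
          Ideal.Quotient.mk (maximalIdeal O ^ N) ((W.apOfModel ℓ : ℤ) : O) * ψ z

end FA.Two

namespace FA.Root

open FA.Theta (badProd)
open FA.RT.Tate

local instance : Fact (Nat.Prime 2) := ⟨Nat.prime_two⟩

/-- **Modularity lifting at `2`** from approximate eigenfunctionals. -/
theorem liftTwo_of (h : FA.Two.Approx) : LiftTwo := by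
  classical
  intro W hneg hss hgood hap hirr hodd hne3 _
  have hW : FA.Two.IsSwitchCurve W := ⟨hneg, hss, hgood, hap, hirr, hodd, hne3⟩
  haveI : (ratCurve W).IsElliptic := FA.Frob.ratCurve_isElliptic_of_Δ hneg.ne
  haveI : NeZero (badProd W) := ⟨(badProd_pos W).ne'⟩
  obtain ⟨O, _, _, _, _, _, _, h2, hmax, ⟨ι⟩, j, hj⟩ := FA.RT.exists_coefficients 2
  haveI : Fintype (ResidueField O) := Fintype.ofFinite _
  have h2' : (2 : O) ∈ maximalIdeal O := by exact_mod_cast h2
  haveI : CharP (ResidueField O) 2 := (CharP.charP_iff_prime_eq_zero Nat.prime_two).mpr (by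
    rw [← map_natCast (residue O), residue_eq_zero_iff]
    exact h2)
  obtain ⟨B⟩ := exists_tateBasis (p := 2) (W := W)
  obtain ⟨w, hw⟩ := hj 1 1
  have hω : ∃ w : ResidueField O, w ^ 2 + w + 1 = 0 := ⟨w, by
    rw [map_one, one_mul, CharTwo.sub_eq_add] at hw
    rw [sq]
    exact hw⟩
  refine FA.Two.isModularModelOfLevel_of_bounded_approx (O := O) W hneg.ne (badProd W)
    ((2 * badProd W).primeFactors.subtype Nat.Prime) (fun ℓ hℓ => ?_) fun N => ?_
  · exact Finset.mem_subtype.2 (Nat.mem_primeFactors.2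
      ⟨ℓ.2, hℓ.mul_left 2, mul_ne_zero two_ne_zero (badProd_pos W).ne'⟩)
  · obtain ⟨C⟩ := FA.Two.exists_curveBase W O hW N B (Finset.range (N + 1))
    obtain ⟨ψ, hz, hψ⟩ := h W hW O hω h2' (by exact_mod_cast hmax) ι N B _ C
    refine ⟨ψ, hz, fun ℓ hℓ hℓN => hψ ℓ fun hS => ?_⟩
    rcases (C.mem_Bd_S hW).1 hS with hd | hQ
    · exact hℓ (Finset.mem_subtype.2 (Nat.mem_primeFactors.2
        ⟨ℓ.2, hd, mul_ne_zero two_ne_zero (badProd_pos W).ne'⟩))
    · exact (C.aux _ hQ).2.2.2.1 (Finset.mem_range.2 (Nat.lt_succ_of_le hℓN))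

end FA.Root

end
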