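import Fermat.Agent.Root.RemovalTowers

/-!
# The towers of a removal from separating lifts

The towers of a removal follow from the lifts separating the base levels and the Taylor–Wiles
levels.
-/

set_option autoImplicit false
set_option linter.style.haveILetI false
set_option linter.unusedSectionVars false
set_option maxHeartbeats 800000

noncomputable section

open scoped WeierstrassCurve.Affine
open IsLocalRing Matrix WeierstrassCurve FA.RT FA.Deform FA.TW FA.Frob FA.HeckeH1 FA.JTorsion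

namespace FA.Root

local notation "Qb" => AlgebraicClosure ℚ

variable {p : ℕ} [Fact p.Prime] (W : WeierstrassCurve ℤ) [(FA.Frob.ratCurve W).IsElliptic]
  {O : Type} [CommRing O] [IsDomain O] [IsDiscreteValuationRing O]
  [IsAdicComplete (maximalIdeal O) O] [CharZero O] [Finite (ResidueField O)]
  (hp2 : p ≠ 2) (hpO : (p : O) ∈ maximalIdeal O) (ι : ℤ_[p] →+* O)
  (j : ZMod p →+* ResidueField O) (P : Places) (hΔ : W.Δ ≠ 0) (hW : W.IsSemistableModel)
  (hfl : (p : ℤ) ∣ W.Δ → p ∣ padicValInt p W.Δ) (N : ℕ)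
  {q : ℕ} (hq : q.Prime) (hqp : q ≠ p) (hqN : q ∣ N) (hN : Squarefree N) (hpN : ¬ p ∣ N)

local notation "SS" => remSetup W hp2 hpO ι j P hΔ hW hfl N
local notation "EE" => remEmb W hp2 hpO ι j P hΔ hW hfl N hq hqp hqN hN
local notation "LL" => remLevels W hp2 hpO ι j P hΔ hW hfl N hq hqp hqN hN hpN

/-- Lifts separating the levels of a removal, at the base and at the Taylor–Wiles levels. -/
def RemSep : Prop :=
  Nonempty (∀ U, (SS).Separation EE ((LL).baseLevels (remSys W)) U
      ((SS).BaseAllowed fun B _ _ _ m => AtFlat p B m)) ∧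
    ∀ (r n : ℕ) (D : (SS).TWSet r n) (ab : Fin r → ResidueField O), Function.Injective D.qv →
      IsTameGenSet D → (∀ i, D.qv i ∉ (SS).T) →
      (∀ i, ab i * ab i - ((SS).rb (D.φ i)).trace * ab i + ((SS).rb (D.φ i)).det = 0) →
      haveI : NeZero (SS).p := ⟨(SS).hp.ne_zero⟩
      ∀ T : TWPart LL (remSys W) (DGroup (SS).p D.expo) ((SS).T ∪ Finset.univ.image D.qv),
        T.p = (SS).p → T.Q = twQ D →
        (∀ (i : Fin r) (q : Nat.Primes), (q : ℕ) = D.qv i → residue O (T.α q) = ab i) →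
        (∀ (i : Fin r) (u : (ZMod (∏ q ∈ T.Q, (q : ℕ)))ˣ),
          haveI : Fact (D.qv i).Prime := ⟨(D.prime i).1⟩
          (ZMod.cast (u : ZMod (∏ q ∈ T.Q, (q : ℕ))) : ZMod (D.qv i)) =
            (cycK (D.qv i) (ZMod (D.qv i)) (D.s i) : ZMod (D.qv i)) →
          (∀ j, j ≠ i →
            (ZMod.cast (u : ZMod (∏ q ∈ T.Q, (q : ℕ))) : ZMod (D.qv j)) = 1) →
          T.κ u * dGen (SS).p D.expo i ^ 2 = 1) →
        ∃ sep : ∀ U, (SS).Separation EE T.depthLevels U
            (D.Allowed fun B _ _ _ m => AtFlat p B m),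
          ∀ U (i : Fin r) (j : (sep U).pts.J), ∃ a : (sep U).pts.B j, (sep U).pts.ε j a = ab i ∧
            a * a - ((sep U).pts.r j (D.φ i)).trace * a + ((sep U).pts.r j (D.φ i)).det = 0 ∧
            (2 * a - ((sep U).pts.r j (D.φ i)).trace) *
                (sep U).ev (T.diaA U (dGen (SS).p D.expo i)) j =
              ((sep U).pts.r j (D.φ i) * (sep U).pts.r j (D.s i)).trace -
                (((sep U).pts.r j (D.φ i)).trace - a) * ((sep U).pts.r j (D.s i)).trace

include hqp in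
/-- **The towers of a removal**, from the separating lifts. -/
theorem remTowers_aux (hp5 : 5 ≤ p) (hirr : W.ModRepIsIrreducible p)
    (h : RemSep W hp2 hpO ι j P hΔ hW hfl N hq hqp hqN hN hpN) :
    ∃ sep : ∀ U, (SS).Separation EE ((LL).baseLevels (remSys W)) U
      ((SS).BaseAllowed fun B _ _ _ m => AtFlat p B m),
      Setup.MonoTower ((LL).baseTower SS (remSys W) (remSys_ne W hp2 hpO hΔ hirr) sep) ∧
      ∃ S₀ : Finset ℕ, ∀ (r n : ℕ) (D : (SS).TWSet r n), Function.Injective D.qv →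
        IsTameGenSet D → (∀ i, D.qv i ∉ (SS).T ∧ D.qv i ∉ S₀) → ∀ ab : Fin r → ResidueField O,
          (∀ i, ab i * ab i - ((SS).rb (D.φ i)).trace * ab i + ((SS).rb (D.φ i)).det = 0) →
            Nonempty (Setup.DepthTower
              ((LL).baseTower SS (remSys W) (remSys_ne W hp2 hpO hΔ hirr) sep) D ab) := by
  obtain ⟨⟨sep⟩, hD⟩ := h
  refine ⟨sep, remMonoTower W hp2 hpO ι j P hΔ hW hfl N hq hqp hqN hN hpN hp5 hirr sep, ∅,
    fun r n D hinj hgen hT ab hab => ?_⟩
  obtain ⟨T, hTp, hTQ, hTα, hTκ⟩ := exists_remTWPart W hp2 hpO ι j P hΔ hW hfl N hq hqp hqN hN hpN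
    hp5 hirr D ab hinj hgen (fun i => (hT i).1) hab
  obtain ⟨sep', hev⟩ := hD r n D ab hinj hgen (fun i => (hT i).1) hab T hTp hTQ hTα hTκ
  exact ⟨T.depthTower sep' hev⟩

/-- Separating lifts exist for every Frey representation and level prime to `p`. -/
def RemSeps : Prop :=
  ∀ (P : FreyPackage) [Fact P.p.Prime] (O : Type) [CommRing O] [IsDomain O]
    [IsDiscreteValuationRing O] [IsAdicComplete (maximalIdeal O) O] [CharZero O]
    [Finite (ResidueField O)] (hp2 : P.p ≠ 2) (hpO : (P.p : O) ∈ maximalIdeal O)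
    (_ : maximalIdeal O = Ideal.span {(P.p : O)}) (ι : ℤ_[P.p] →+* O)
    (j : ZMod P.p →+* ResidueField O) (Pl : Places)
    (_ : Affine.Point.GaloisRepIsIrreducible (K := Qb) ℚ P.freyCurve P.p)
    (_ : ∀ t d : ZMod P.p, ∃ a, a * a - j t * a + j d = 0)
    (N q : ℕ) (hq : q.Prime) (hqp : q ≠ P.p) (hqN : q ∣ N) (hN : Squarefree N)
    (hpN : ¬ P.p ∣ N),
    RemSep P.freyCurveInt hp2 hpO ι j Pl (FA.Switch.freyInt_Δ_ne_zero P)
      (FA.Switch.freyInt_semistable P) (freyInt_padicVal P) N hq hqp hqN hN hpN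

/-- **`RemTowers` from the separating lifts.** -/
theorem remTowers_of (h : RemSeps) : RemTowers := by
  intro P _ O _ _ _ _ _ _ hp2 hpO hspan ι j Pl hirr hsplit N q hq hqp hqN hN hpN
  exact remTowers_aux P.freyCurveInt hp2 hpO ι j Pl _ _ _ N hq hqp hqN hN hpN P.hp5
    (freyInt_irreducible P hirr) (h P O hp2 hpO hspan ι j Pl hirr hsplit N q hq hqp hqN hN hpN)

end FA.Root

end
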