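import Fermat.Agent.HeckeH1.BaseTower
import Fermat.Agent.HeckeH1.PieceMaps
import Fermat.Agent.Root.EigenClass
import Fermat.Agent.Root.ModularEnd

/-!
# The two ends of a lifting step

An integral eigenclass congruent to a residual system gives a point of the algebra of the piece of
the system, and a point of that algebra with the eigenvalues of a curve makes the curve modular.
-/

set_option autoImplicit false
set_option linter.style.haveILetI false
set_option linter.unusedSectionVars false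

noncomputable section

namespace FA.Root

open IsLocalRing FA.HeckeH1
open scoped MatrixGroups

/-- Operators generating an algebra which multiply a vector by scalars give a character. -/
theorem exists_hom_of_eigenvector {O A V : Type} [CommRing O] [IsDomain O] [CommRing A]
    [Algebra O A] [AddCommGroup V] [Module O V] (ρ : A →ₐ[O] Module.End O V) (z : V)
    (hz : ∀ r : O, r • z = 0 → r = 0) (s : Set A) (hs : Algebra.adjoin O s = ⊤)
    (h : ∀ a ∈ s, ∃ r : O, ρ a z = r • z) :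
    ∃ f : A →ₐ[O] O, ∀ a, ρ a z = f a • z := by
  have hall : ∀ a : A, ∃ r : O, ρ a z = r • z := fun a => by
    have ha : a ∈ Algebra.adjoin O s := hs ▸ Algebra.mem_top
    induction ha using Algebra.adjoin_induction with
    | mem x hx => exact h x hx
    | algebraMap r => exact ⟨r, by rw [AlgHom.commutes, Module.algebraMap_end_apply]⟩
    | add x y _ _ hx hy =>
      obtain ⟨r, hr⟩ := hx
      obtain ⟨r', hr'⟩ := hy
      exact ⟨r + r', by rw [map_add, LinearMap.add_apply, hr, hr', add_smul]⟩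
    | mul x y _ _ hx hy =>
      obtain ⟨r, hr⟩ := hx
      obtain ⟨r', hr'⟩ := hy
      exact ⟨r * r', by
        rw [map_mul, Module.End.mul_apply, hr', map_smul, hr, smul_smul, mul_comm]⟩
  choose f hf using hall
  have huniq : ∀ a r, ρ a z = r • z → f a = r := fun a r hr =>
    sub_eq_zero.1 (hz _ (by rw [sub_smul, ← hf, hr, sub_self]))
  refine ⟨{ toFun := f
            map_one' := huniq 1 1 (by rw [map_one, Module.End.one_apply, one_smul])
            map_mul' := fun a b => huniq _ _ (by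
              rw [map_mul, Module.End.mul_apply, hf b, map_smul, hf a, smul_smul, mul_comm])
            map_zero' := huniq 0 0 (by rw [map_zero, LinearMap.zero_apply, zero_smul])
            map_add' := fun a b => huniq _ _ (by
              rw [map_add, LinearMap.add_apply, hf a, hf b, add_smul])
            commutes' := fun r => huniq _ _ (by
              rw [AlgHom.commutes, Module.algebraMap_end_apply]
              rfl) }, hf⟩

variable {O : Type} [CommRing O] [IsDomain O] [IsDiscreteValuationRing O]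
  [IsAdicComplete (maximalIdeal O) O] [CharZero O] {S : Finset Nat.Primes}
  {c : Nat.Primes → ResidueField O} {N : ℕ} [NeZero N]

theorem smul_eq_zero_of_ne {Γ : Subgroup SL(2, ℤ)} {z : Hom1 Γ O} (hz : z ≠ 0) (r : O)
    (h : r • z = 0) : r = 0 := by
  obtain ⟨γ, hγ⟩ : ∃ γ, z γ ≠ 0 := not_forall.1 fun hc => hz (AddMonoidHom.ext hc)
  have := DFunLike.congr_fun h γ
  exact (mul_eq_zero.1 this).resolve_right hγ

/-- **An eigenclass congruent to the system lies in its piece.** -/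
theorem sysIdem_eq_of_eigenclass (z : Hom1 (GamH N ⊤) O) (hz0 : z ≠ 0) (a : Nat.Primes → O)
    (hz : ∀ ℓ : Nat.Primes, ℓ ∉ S → (Tc N ⊤ (ℓ : ℕ)).act z = a ℓ • z)
    (ha : ∀ ℓ, ℓ ∉ S → residue O (a ℓ) = c ℓ) :
    HasSys S c N ∧ sysIdem S c N z = z := by
  classical
  obtain ⟨f, hf⟩ := exists_hom_of_eigenvector (heckeAlg N ⊤ O S).val z (smul_eq_zero_of_ne hz0)
    (Set.range (Tgen N ⊤ O S)) (top_unique fun x _ => mem_adjoin_Tgen N O S x) (by
      rintro x ⟨ℓ, rfl⟩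
      by_cases hℓ : ℓ ∈ S
      · exact ⟨0, by rw [Tgen_eq_zero hℓ, map_zero, LinearMap.zero_apply, zero_smul]⟩
      · exact ⟨a ℓ, (Tgen_apply N ⊤ O S hℓ z).trans (hz ℓ hℓ)⟩)
  let χ : heckeAlg N ⊤ O S →ₐ[O] ResidueField O := (Algebra.ofId O (ResidueField O)).comp f
  have hχ : IsSys S c χ := fun ℓ hℓ => by
    show algebraMap O (ResidueField O) (f _) = _
    rw [ResidueField.algebraMap_eq, ← ha ℓ hℓ]
    congr 1
    refine sub_eq_zero.1 (smul_eq_zero_of_ne hz0 _ ?_)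
    rw [sub_smul, ← hf, ← hz ℓ hℓ]
    exact sub_eq_zero.2 (Tgen_apply N ⊤ O S hℓ z)
  have hsys : HasSys S c N := ⟨χ, hχ⟩
  refine ⟨hsys, ?_⟩
  obtain ⟨χ', e, hχ', he, hee⟩ := exists_sysPiece hsys
  rw [← hee]
  have hfe : f e = 1 := by
    have h1 : f e * (f e - 1) = 0 := by rw [mul_sub, mul_one, ← map_mul, he.idem.eq, sub_self]
    have h2 : residue O (f e) = 1 := (congrArg (fun g => g e) (hχ.unique hχ')).trans he.char
    rcases mul_eq_zero.1 h1 with h | h
    · rw [h, map_zero] at h2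
      exact absurd h2 zero_ne_one
    · exact sub_eq_zero.1 h
  exact (hf e).trans (by rw [hfe, one_smul])

/-- **An eigenclass in a piece gives a point of its algebra.** -/
theorem exists_goodHom_of_eigenclass (e : Module.End O (Hom1 (GamH N ⊤) O))
    (z : Hom1 (GamH N ⊤) O) (hz0 : z ≠ 0) (hez : e z = z) (a : GP N → O)
    (hz : ∀ ℓ : GP N, (Tc N ⊤ ℓ.1).act z = a ℓ • z) :
    ∃ χ : GoodAlg e →ₐ[O] O, ∀ ℓ : GP N, χ (goodT e ℓ) = a ℓ := by
  classical
  have hgen : Algebra.adjoin O (Set.range (goodTp N ⊤ O) ∪ Set.range (goodDp N ⊤ O)) = ⊤ := by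
    refine top_unique ?_
    rintro ⟨x, hx⟩ -
    induction hx using Algebra.adjoin_induction with
    | mem y hy =>
      refine Algebra.subset_adjoin ?_
      rcases hy with ⟨ℓ, rfl⟩ | ⟨u, rfl⟩
      exacts [Or.inl ⟨ℓ, rfl⟩, Or.inr ⟨u, rfl⟩]
    | algebraMap r => exact Subalgebra.algebraMap_mem _ r
    | add x y hx' hy' hx hy => exact add_mem hx hy
    | mul x y hx' hy' hx hy => exact mul_mem hx hy
  obtain ⟨f, hf⟩ := exists_hom_of_eigenvector (goodOp N ⊤ O) z (smul_eq_zero_of_ne hz0) _ hgen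
    (by
      rintro x (⟨ℓ, rfl⟩ | ⟨u, rfl⟩)
      · exact ⟨a ℓ, (goodOp_goodTp N ⊤ O ℓ z).trans (hz ℓ)⟩
      · haveI := QuotientGroup.subsingleton_quotient_top (G := (ZMod N)ˣ)
        refine ⟨1, ?_⟩
        rw [Subsingleton.elim u 1, map_one, map_one, Module.End.one_apply, one_smul])
  refine ⟨Ideal.Quotient.liftₐ _ f fun x hx => smul_eq_zero_of_ne hz0 _ ?_, fun ℓ => ?_⟩
  · rw [← hf, ← hez]
    exact mem_annE.1 hx z
  · show f (goodTp N ⊤ O ℓ) = a ℓ
    exact sub_eq_zero.1 (smul_eq_zero_of_ne hz0 _ (by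
      rw [sub_smul, ← hf, goodOp_goodTp, hz, sub_self]))

/-- **The start of a lifting step**: an integral eigenclass congruent to the system gives a point of
the good algebra of its piece. -/
theorem exists_goodHom_of_int (a : ℕ → ℤ) (z : Hom1 (GamH N ⊤) ℤ) (hz0 : z ≠ 0)
    (heig : ∀ (ℓ : ℕ) [Fact ℓ.Prime], ¬ ℓ ∣ N → (Tc N ⊤ ℓ).act z = a ℓ • z)
    (hNS : ∀ ℓ : Nat.Primes, (ℓ : ℕ) ∣ N → ℓ ∈ S)
    (hres : ∀ ℓ : Nat.Primes, ℓ ∉ S → ((a ℓ : ℤ) : ResidueField O) = c ℓ) :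
    ∃ χ : GoodAlg (sysIdem S c N) →ₐ[O] O, ∀ ℓ : GP N,
      χ (goodT (sysIdem S c N) ℓ) = (a ℓ.1 : O) := by
  let zO : Hom1 (GamH N ⊤) O := (Int.castAddHom O).comp z
  have hzO : zO ≠ 0 := fun h => hz0 (AddMonoidHom.ext fun γ => Int.cast_injective
    ((DFunLike.congr_fun h γ).trans (Int.cast_zero (R := O)).symm))
  have hT : ∀ (ℓ : ℕ) [Fact ℓ.Prime], ¬ ℓ ∣ N → (Tc N ⊤ ℓ).act zO = (a ℓ : O) • zO :=
    fun ℓ _ hℓ => by
      rw [Corr.act_comp_hom, heig ℓ hℓ]
      refine AddMonoidHom.ext fun γ => ?_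
      show ((a ℓ • z γ : ℤ) : O) = (a ℓ : O) * (z γ : O)
      rw [smul_eq_mul, Int.cast_mul]
  obtain ⟨-, hez⟩ := sysIdem_eq_of_eigenclass (S := S) (c := c) zO hzO (fun ℓ => (a ℓ : O))
    (fun ℓ hℓ => haveI : Fact (ℓ : ℕ).Prime := ⟨ℓ.2⟩; hT ℓ fun h => hℓ (hNS ℓ h))
    fun ℓ hℓ => by rw [map_intCast]; exact hres ℓ hℓ
  exact exists_goodHom_of_eigenclass _ zO hzO hez _ fun ℓ =>
    haveI : Fact ℓ.1.Prime := ⟨ℓ.2.1⟩; hT ℓ.1 ℓ.2.2

omit [IsDiscreteValuationRing O] [IsAdicComplete (maximalIdeal O) O] [CharZero O] in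
/-- A character of a subalgebra of a finite torsion free algebra extends to a domain. -/
theorem exists_extension {A : Type} [CommRing A] [Algebra O A] [Module.Finite O A]
    {R : Subalgebra O A} (χ : R →ₐ[O] O) :
    ∃ (O' : Type) (_ : CommRing O') (_ : IsDomain O') (_ : Algebra O O')
      (_ : Module.IsTorsionFree O O') (f : A →ₐ[O] O'),
      ∀ x : R, f x = algebraMap O O' (χ x) := by
  haveI : Algebra.IsIntegral O A := Algebra.IsIntegral.of_finite O A
  haveI : Algebra.IsIntegral R A := Algebra.IsIntegral.tower_top (R := O)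
  have hker : RingHom.ker (algebraMap R A) ≤ RingHom.ker χ := fun x hx => by
    rw [show x = 0 from Subtype.ext hx]
    exact zero_mem _
  haveI : (RingHom.ker χ).IsPrime := RingHom.ker_isPrime χ
  obtain ⟨P, -, hP, hcomap⟩ := Ideal.exists_ideal_over_prime_of_isIntegral
    (RingHom.ker χ) (⊥ : Ideal A) ((RingHom.ker_eq_comap_bot _).symm.trans_le hker)
  have key : ∀ x : R, Ideal.Quotient.mk P (x : A) = algebraMap O (A ⧸ P) (χ x) := fun x => by
    rw [← Ideal.Quotient.mk_algebraMap, Ideal.Quotient.eq]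
    have h : x - algebraMap O R (χ x) ∈ P.comap (algebraMap R A) := by
      rw [hcomap, RingHom.mem_ker, map_sub, AlgHom.commutes, Algebra.algebraMap_self_apply,
        sub_self]
    rw [Ideal.mem_comap, map_sub] at h
    exact h
  refine ⟨A ⧸ P, inferInstance, inferInstance, inferInstance, ?_, Ideal.Quotient.mkₐ O P, key⟩
  refine .of_smul_eq_zero fun r x h => ?_
  rw [Algebra.smul_def, mul_eq_zero] at h
  refine h.imp (fun h => ?_) id
  have h' : Ideal.Quotient.mk P (algebraMap O A r) = 0 := h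
  rw [Ideal.Quotient.eq_zero_iff_mem] at h'
  have : algebraMap O R r ∈ P.comap (algebraMap R A) := h'
  rw [hcomap, RingHom.mem_ker, AlgHom.commutes] at this
  exact this

/-- **The end of a lifting step**: a point of the good algebra of a parabolic piece with the
eigenvalues of a curve at almost all primes makes the curve modular of its level. -/
theorem isModularModelOfLevel_of_point {W : WeierstrassCurve ℤ} (hΔ : W.Δ ≠ 0)
    [Finite (GamH N ⊤ ⧸ (GamH N ⊤).subgroupOf (GamH N ⊤))]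
    (e : Module.End O (Hom1 (GamH N ⊤) O)) (hpar : ∀ v, e v ∈ Par (GamH N ⊤) O)
    (hcomm : ∀ a v, goodOp N ⊤ O a (e v) = e (goodOp N ⊤ O a v))
    (bad : Finset ℕ) {R : Subalgebra O (GoodAlg e)} (χ : R →ₐ[O] O)
    (hχ : ∀ ℓ : GP N, ℓ.1 ∉ bad →
      ∃ x : R, (x : GoodAlg e) = goodT e ℓ ∧ χ x = (W.apOfModel ℓ.1 : O)) :
    W.IsModularModelOfLevel N := by
  haveI := GoodAlg.instFinite e
  obtain ⟨O', i₁, i₂, i₃, i₄, f, hf⟩ := exists_extension (O := O) (A := GoodAlg e) (R := R) χ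
  obtain ⟨z, hz, hz0, -, hT⟩ := exists_eigenclass e hpar hcomm f
  haveI : CharZero O' := charZero_of_injective_algebraMap
    (FaithfulSMul.algebraMap_injective O O')
  refine isModularModelOfLevel_of_eigenclass hΔ bad z hz hz0 fun ℓ hℓ hℓN hb => ?_
  obtain ⟨x, hx, hv⟩ := hχ ⟨ℓ, hℓ.out, hℓN⟩ hb
  rw [hT ⟨ℓ, hℓ.out, hℓN⟩, ← hx, hf x, hv, map_intCast, Int.cast_smul_eq_zsmul]

section levels

variable {X : Type} [DecidableEq X] {qn : X → ℕ} {bad : Finset ℕ} (L : LevelSet qn bad)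
  (c : Nat.Primes → ResidueField O)

/-- An integral eigenclass at one level of a family gives a point of that level. -/
theorem exists_levelPoint (U : Finset X) {M : ℕ} [NeZero M] (hM : L.lvl U = M) (a : ℕ → ℤ)
    (z : Hom1 (GamH M ⊤) ℤ) (hz0 : z ≠ 0)
    (heig : ∀ (ℓ : ℕ) [Fact ℓ.Prime], ¬ ℓ ∣ M → (Tc M ⊤ ℓ).act z = a ℓ • z)
    (hS : ∀ ℓ : Nat.Primes, (ℓ : ℕ) ∈ bad → ℓ ∈ L.S)
    (hres : ∀ ℓ : Nat.Primes, ℓ ∉ L.S → ((a ℓ : ℤ) : ResidueField O) = c ℓ) :
    ∃ χ : (L.baseLevels c).A U →ₐ[O] O, ∀ ℓ : ℕ, ℓ.Prime → ℓ ∉ bad →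
      χ ((L.baseLevels c).T U ℓ) = (a ℓ : O) := by
  subst hM
  obtain ⟨χ, hχ⟩ := exists_goodHom_of_int (O := O) (S := L.S) (c := c) a z hz0 heig
    (fun ℓ h => hS ℓ (by
      by_contra hb
      exact L.not_dvd_of_not_bad ℓ.2 hb _ h)) hres
  refine ⟨χ.comp (coreAlg (L.frame c U).e L.core).val, fun ℓ hℓ hb => ?_⟩
  have hℓN := L.not_dvd_of_not_bad hℓ hb U
  show χ (L.TB c U ℓ).1 = _
  rw [L.TB_val c U hℓ hℓN (L.core_of_not_bad hb)]
  exact hχ ⟨ℓ, hℓ, hℓN⟩

/-- A point at one level of a family with the eigenvalues of a curve makes it modular. -/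
theorem isModular_of_levelPoint
    (hNE : ∀ M : ℕ, M ≠ 0 → ∃ ℓ : Nat.Primes, ¬ (ℓ : ℕ) ∣ M ∧
      ((ℓ : ℕ) : ZMod M) = 1 ∧ c ℓ ≠ ((ℓ : ℕ) : ResidueField O) + 1)
    (U : Finset X) {M : ℕ} [NeZero M] (hM : L.lvl U = M) {W : WeierstrassCurve ℤ} (hΔ : W.Δ ≠ 0)
    (χ : Algebra.adjoin O {a : (L.baseLevels c).A U | ∃ ℓ : ℕ, ℓ.Prime ∧ ℓ ∉ bad ∧
      a = (L.baseLevels c).T U ℓ} →ₐ[O] O)
    (hχ : ∀ (ℓ : ℕ) (hℓ : ℓ.Prime) (hb : ℓ ∉ bad),
      χ ⟨(L.baseLevels c).T U ℓ, Algebra.subset_adjoin ⟨ℓ, hℓ, hb, rfl⟩⟩ = (W.apOfModel ℓ : O)) :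
    W.IsModularModelOfLevel M := by
  subst hM
  haveI : Finite (GamH (L.lvl U) ⊤ ⧸ (GamH (L.lvl U) ⊤).subgroupOf (GamH (L.lvl U) ⊤)) := by
    rw [Subgroup.subgroupOf_self]
    exact inferInstance
  let ad : Subalgebra O ((L.baseLevels c).A U) := Algebra.adjoin O
    {a : (L.baseLevels c).A U | ∃ ℓ : ℕ, ℓ.Prime ∧ ℓ ∉ bad ∧ a = (L.baseLevels c).T U ℓ}
  let em : ad ≃ₐ[O] ad.map (coreAlg (L.frame c U).e L.core).val :=
    ad.equivMapOfInjective (coreAlg (L.frame c U).e L.core).val Subtype.val_injective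
  refine isModularModelOfLevel_of_point hΔ (L.frame c U).e (L.frame_mem_Par c hNE U)
    (L.goodOp_frame_e c U) bad (χ.comp em.symm.toAlgHom) fun ℓ hb => ?_
  have hx : (L.baseLevels c).T U ℓ.1 ∈ ad := Algebra.subset_adjoin ⟨ℓ.1, ℓ.2.1, hb, rfl⟩
  refine ⟨em ⟨_, hx⟩, ?_, ?_⟩
  · show (L.TB c U ℓ.1).1 = _
    rw [L.TB_val c U ℓ.2.1 ℓ.2.2 (L.core_of_not_bad hb)]
  · show χ (em.symm (em ⟨_, hx⟩)) = _
    rw [AlgEquiv.symm_apply_apply]
    exact hχ ℓ.1 ℓ.2.1 hb

end levels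

end FA.Root

end
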