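import Fermat.Agent.ModField.Semistable.PairHecke
import Fermat.Agent.RT.EllipticPoint
import Fermat.Agent.JTorsion.Eigen
import Fermat.Agent.Petersson.HeckeBound
import Fermat.Agent.Root.LiftEnds
import Fermat.Agent.HeckeH1.PLevelsBase

/-!
# A bad prime of a semistable curve divides every level of modularity

On the torsion of the Jacobian of a level prime to `q` Frobenius at `q` has trace `a_q`, on the
torsion of a curve with multiplicative reduction at `q` trace `±(q + 1)`. If the two systems agree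
at almost all primes, so do these traces, against the strict bound on `a_q`.
-/

set_option autoImplicit false
set_option linter.style.haveILetI false
set_option linter.unusedSectionVars false
set_option synthInstance.maxHeartbeats 200000
set_option maxHeartbeats 800000

noncomputable section

open WeierstrassCurve Matrix CongruenceSubgroup FA.Deform FA.JTorsion FA.ModField FA.EC FA.Frob FA.RT
  FA.RT.Tate

namespace FA.Root

local notation "Qb" => AlgebraicClosure ℚ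
local notation "GQ" => AlgebraicClosure ℚ ≃ₐ[ℚ] AlgebraicClosure ℚ
local notation "M2" => Matrix (Fin 2) (Fin 2)

section Tate

variable {p : ℕ} [Fact p.Prime] {W : WeierstrassCurve ℤ} [(ratCurve W).IsElliptic]
  (B : TateBasis p W) (n : ℕ)

/-- The representation modulo `p ^ n` as operators. -/
def repModEnd : GQ →* Module.End (ZMod (p ^ n)) (Fin 2 → ZMod (p ^ n)) :=
  (Matrix.toLinAlgEquiv' : M2 (ZMod (p ^ n)) ≃ₐ[ZMod (p ^ n)] _).toMonoidHom.comp
    ((PadicInt.toZModPow n).mapMatrix.toMonoidHom.comp B.rep)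

theorem repModEnd_add (σ : GQ) (x : Fin 2 → ZMod (p ^ n)) :
    repModEnd B n σ x + ((cycMod p n σ : (ZMod (p ^ n))ˣ) : ZMod (p ^ n)).val •
        repModEnd B n σ⁻¹ x = PadicInt.toZModPow n (B.rep σ).trace • x := by
  haveI : NeZero (p ^ n) := ⟨pow_ne_zero n (Fact.out : p.Prime).ne_zero⟩
  have h1 : B.rep σ * B.rep σ⁻¹ = 1 := by rw [← map_mul, mul_inv_cancel, map_one]
  have h2 : (B.rep σ).det • B.rep σ⁻¹ = (B.rep σ).adjugate := by
    rw [← mul_one (Matrix.adjugate (B.rep σ)), ← h1, ← Matrix.mul_assoc, Matrix.adjugate_mul,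
      Matrix.smul_mul, Matrix.one_mul]
  have h3 : B.rep σ + (B.rep σ).det • B.rep σ⁻¹ = (B.rep σ).trace • (1 : M2 ℤ_[p]) := by
    rw [h2, Matrix.adjugate_fin_two, Matrix.trace_fin_two]
    ext i j
    fin_cases i <;> fin_cases j <;> simp [add_comm]
  have h4 := congrArg (fun m => (PadicInt.toZModPow n).mapMatrix m *ᵥ x) h3
  have hmap : ∀ (c : ℤ_[p]) (m : M2 ℤ_[p]), (c • m).map (PadicInt.toZModPow n) =
      PadicInt.toZModPow n c • m.map (PadicInt.toZModPow n) := fun c m => by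
    ext i j
    simp
  simp only [RingHom.mapMatrix_apply, Matrix.map_add _ (map_add _), hmap,
    Matrix.map_one _ (map_zero _) (map_one _), add_mulVec, smul_mulVec, one_mulVec] at h4
  rw [← Nat.cast_smul_eq_nsmul (ZMod (p ^ n)), ZMod.natCast_zmod_val, coe_cycMod, ← B.det_rep]
  exact h4

theorem exists_field_repModEnd : ∃ L : IntermediateField ℚ Qb, FiniteDimensional ℚ L ∧
    ∀ σ : GQ, (∀ a ∈ L, σ a = a) → repModEnd B n σ = 1 := by
  obtain ⟨L, hL, h⟩ := B.exists_field n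
  refine ⟨L, hL, fun σ hσ => ?_⟩
  show Matrix.toLinAlgEquiv' ((B.rep σ).map (PadicInt.toZModPow n)) = 1
  rw [h σ hσ, map_one]

end Tate

/-- A normalised eigenform has no eigenvalue `±(q + 1)` at a prime `q` outside its level. -/
theorem qCoeff_ne_of_isNormalizedEigenform {M : ℕ} [NeZero M] {g : CuspForm (Gamma0 M) 2}
    (hg : g.IsNormalizedEigenform) {q : ℕ} (hq : q.Prime) (hqM : ¬ q ∣ M) {s : ℤ}
    (hs : s = 1 ∨ s = -1) :
    ModularFormClass.qCoeff g q ≠ ((s * ((q : ℤ) + 1) : ℤ) : ℂ) := fun h => by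
  refine hg.ne_zero (FA.Petersson.eq_zero_of_norm_eigen g hq hqM
    (FA.JTorsion.heckeT_eigen hg hq hqM) ?_)
  rw [qLin_apply, h, Complex.norm_intCast]
  push_cast
  rw [abs_mul, abs_of_nonneg (by positivity : (0 : ℝ) ≤ (q : ℝ) + 1)]
  rcases hs with rfl | rfl <;> simp

/-- **A bad prime of a semistable curve divides every level of modularity.** -/
theorem dvd_of_isModularModelOfLevel {W : WeierstrassCurve ℤ} [(ratCurve W).IsElliptic]
    (hΔ : W.Δ ≠ 0) (hW : W.IsSemistableModel) {q : ℕ} (hq : q.Prime) (hbad : (q : ℤ) ∣ W.Δ)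
    {M : ℕ} [NeZero M] (hmod : W.IsModularModelOfLevel M) : q ∣ M := by
  classical
  by_contra hqM
  obtain ⟨alg⟩ := exists_algebra_qbar
  letI := alg
  obtain ⟨g, hg, hga⟩ := hmod
  obtain ⟨p, hp', hpq, hp2⟩ : ∃ p : ℕ, p.Prime ∧ p ≠ q ∧ p ≠ 2 := by
    rcases eq_or_ne q 3 with rfl | h
    · exact ⟨5, by norm_num, by norm_num, by norm_num⟩
    · exact ⟨3, Nat.prime_three, h.symm, by norm_num⟩
  haveI : Fact p.Prime := ⟨hp'⟩
  haveI : NeZero p := ⟨hp'.ne_zero⟩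
  haveI : Fact q.Prime := ⟨hq⟩
  obtain ⟨ψ, hψ⟩ := exists_eigenChar (∅ : Set ℕ) hg
  obtain ⟨B⟩ := exists_tateBasis (p := p) (W := W)
  obtain ⟨A, hA⟩ := FA.Deform.exists_liesOverPrime hq
  obtain ⟨σ, hσ⟩ := FA.Deform.exists_isFrobeniusAt hq hA
  have hm : MultAt W q A := ⟨hΔ, hq, hbad, hW q hq hbad, hA⟩
  obtain ⟨s, hs, htr⟩ := B.trace_frobenius_mult hp2 hm hpq.symm hσ
  set T₀ := CuspForm.heckeAlgebra.T (k := 2) hq hqM (Set.notMem_empty _)
  let bad : Finset ℕ := insert p (M.primeFactors ∪ W.Δ.natAbs.primeFactors)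
  let D : Subring (HFull M × ℤ) := Subring.closure
    {x | ∃ (ℓ : ℕ) (hℓ : ℓ.Prime) (hℓM : ¬ ℓ ∣ M), ℓ ∉ bad ∧
      x = (CuspForm.heckeAlgebra.T (k := 2) hℓ hℓM (Set.notMem_empty _), W.apOfModel ℓ)}
  have hgood : ∀ ℓ : ℕ, ℓ.Prime → ℓ ∉ bad → ℓ ≠ p ∧ ¬ ℓ ∣ M ∧ W.IsGoodPrimeFor ℓ := by
    intro ℓ hℓ hb
    simp only [bad, Finset.mem_insert, Finset.mem_union, Nat.mem_primeFactors, not_or] at hb
    exact ⟨hb.1, fun h => hb.2.1 ⟨hℓ, h, NeZero.ne M⟩, fun h => hb.2.2 ⟨hℓ,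
      Int.natCast_dvd.1 h, Int.natAbs_ne_zero.2 hΔ⟩⟩
  have hψD : ∀ t ∈ D, ψ t.1 = (t.2 : integralClosure ℤ ℂ) := by
    intro t ht
    induction ht using Subring.closure_induction with
    | mem x hx =>
      obtain ⟨ℓ, hℓ, hℓM, hb, rfl⟩ := hx
      refine Subtype.ext ?_
      rw [hψ ℓ hℓ hℓM _, hga ℓ hℓ (hgood ℓ hℓ hb).2.2 hℓM]
      simp
    | zero => simp
    | one => simp
    | add x y _ _ hx hy => simp [hx, hy]
    | neg x _ hx => simp [hx]
    | mul x y _ _ hx hy => simp [hx, hy]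
  haveI : Module.Finite ℤ (HFull M) := FA.Period.moduleFinite_heckeAlgebra M 2 _
  haveI := latMod_free M (∅ : Set ℕ)
  obtain ⟨cM, hcM⟩ := exists_saturation p hp'.ne_zero
    (fun _ h => latMod_faithful M (∅ : Set ℕ) h)
  set x := T₀ - ((s * ((q : ℤ) + 1) : ℤ) : HFull M)
  suffices key : ∀ k, ∃ y, x - p ^ k • y ∈
      (RingHom.ker ψ).toAddSubgroup.toIntSubmodule by
    obtain ⟨m, hm0, hmem⟩ := exists_nsmul_mem_of_forall_pow _ hp'.one_lt key
    have h0 : ψ x = 0 := by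
      have h : ψ (m • x) = 0 := hmem
      rw [map_nsmul] at h
      exact (smul_eq_zero.1 h).resolve_left hm0
    rw [map_sub, sub_eq_zero, map_intCast] at h0
    refine qCoeff_ne_of_isNormalizedEigenform hg hq hqM hs ?_
    rw [← hψ q hq hqM (Set.notMem_empty _), h0]
    simp
  intro k
  let n := k + cM
  have hkill : ∀ z : ModN M (∅ : Set ℕ) (p ^ n), p ^ n • z = 0 :=
    fun z => toTors_injective M _ _ (by rw [map_nsmul, nsmul_toTors, map_zero])
  have hd : ∀ ℓ : ℕ, ℓ.Prime → ℓ ≠ p → ¬ ℓ ∣ p ^ n := fun ℓ hℓ hℓp h =>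
    hℓp ((Nat.prime_dvd_prime_iff_eq hℓ hp').1 (hℓ.dvd_of_dvd_pow h))
  obtain ⟨h, hxM, hxW⟩ := exists_hecke_of_gal_pair p n ((RingHom.fst _ _).comp D.subtype)
    ((Int.castRingHom (ZMod (p ^ n))).comp ((RingHom.snd _ _).comp D.subtype)) hkill
    (fun z => funext fun i => by
      rw [Pi.smul_apply, nsmul_eq_mul, ZMod.natCast_self, zero_mul, Pi.zero_apply])
    (galMod M (∅ : Set ℕ) (p ^ n)) (repModEnd B n)
    (exists_field_galMod M (∅ : Set ℕ) (p ^ n)) (exists_field_repModEnd B n)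
    bad (Finset.mem_insert_self _ _)
    (fun ℓ hℓ hℓbad C hC τ hτ => by
      obtain ⟨hℓp, hℓM, hℓW⟩ := hgood ℓ hℓ hℓbad
      refine ⟨⟨_, Subring.subset_closure ⟨ℓ, hℓ, hℓM, hℓbad, rfl⟩⟩,
        fun z => galMod_frobenius M _ _ (goodRed_all M) hℓ hℓM (hd ℓ hℓ hℓp) hC
          (Set.notMem_empty _) hτ z, fun z => ?_⟩
      have e := repModEnd_add B n τ z
      rw [cycMod_frobenius p n hℓ hℓp hC hτ, ZMod.val_natCast,
        nsmul_mod_of_kill (funext fun i => by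
          rw [Pi.smul_apply, nsmul_eq_mul, ZMod.natCast_self, zero_mul, Pi.zero_apply]),
        (B.rep_frobenius hℓ hC hℓp hℓW hτ).1, map_intCast] at e
      exact e) σ
  have hW2 : (p ^ n : ℤ) ∣ s * ((q : ℤ) + 1) - h.1.2 := by
    have e1 := (hxW (Pi.single 0 1)).symm.trans (repModEnd_add B n σ (Pi.single 0 1))
    have e2 := congrFun e1 0
    rw [Pi.smul_apply, Pi.smul_apply, Pi.single_eq_same, smul_eq_mul, smul_eq_mul, mul_one,
      mul_one, htr, map_mul, map_intCast, map_add, map_natCast, map_one] at e2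
    rw [← Nat.cast_pow, ← ZMod.intCast_zmod_eq_zero_iff_dvd]
    push_cast
    rw [sub_eq_zero]
    exact e2.symm
  obtain ⟨d, hd'⟩ := hW2
  rw [cycMod_frobenius p n hq hpq.symm hA hσ, ZMod.val_natCast] at hxM
  have he : ∀ z : LatMod M (∅ : Set ℕ), ∃ y, (T₀ - h.1.1) • z = p ^ (k + cM) • y := fun z => by
    have e := hxM (Submodule.Quotient.mk z)
    rw [nsmul_mod_of_kill (hkill _), galMod_frobenius M _ _ (goodRed_all M) hq hqM
      (hd q hq hpq.symm) hA (Set.notMem_empty _) hσ] at e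
    simp only [← Submodule.Quotient.mk_smul] at e
    rw [← sub_eq_zero, ← Submodule.Quotient.mk_sub] at e
    have e' : ((T₀ - h.1.1) • z : LatMod M (∅ : Set ℕ)) ∈ nMultiples M (∅ : Set ℕ) (p ^ n) := by
      rw [sub_smul]
      exact (Submodule.Quotient.mk_eq_zero _).1 e
    obtain ⟨y, hy⟩ := (mem_nMultiples M (∅ : Set ℕ)).1 e'
    exact ⟨y, hy.symm⟩
  obtain ⟨y, hy⟩ := hcM k _ he
  refine ⟨y - ((p ^ cM * d : ℤ) : HFull M), ?_⟩
  show ψ _ = 0
  have e1 : ψ h.1.1 = (h.1.2 : integralClosure ℤ ℂ) := hψD _ h.2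
  have e2 := congrArg ψ hy
  have e3 := congrArg (Int.cast : ℤ → integralClosure ℤ ℂ) hd'
  simp only [x, n, map_sub, map_intCast, nsmul_eq_mul, e1, pow_add] at e2 e3 ⊢
  push_cast at e2 e3 ⊢
  simp only [map_sub, map_mul, map_pow, map_natCast, map_intCast] at e2 e3 ⊢
  linear_combination e2 - e3

open IsLocalRing in
/-- **No point of a family of levels prime to a bad `p`** has the eigenvalues of the curve. -/
theorem not_levelPoint_of_bad {W : WeierstrassCurve ℤ} [(ratCurve W).IsElliptic] (hΔ : W.Δ ≠ 0)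
    (hW : W.IsSemistableModel) {p : ℕ} (hp : p.Prime) (hbad : (p : ℤ) ∣ W.Δ)
    {O : Type} [CommRing O] [IsDomain O] [IsDiscreteValuationRing O]
    [IsAdicComplete (maximalIdeal O) O] [CharZero O] {X : Type} [DecidableEq X] {qn : X → ℕ}
    {bd : Finset ℕ} (L : FA.HeckeH1.LevelSet qn bd) (c : Nat.Primes → ResidueField O)
    (hNE : ∀ M : ℕ, M ≠ 0 → ∃ ℓ : Nat.Primes, ¬ (ℓ : ℕ) ∣ M ∧
      ((ℓ : ℕ) : ZMod M) = 1 ∧ c ℓ ≠ ((ℓ : ℕ) : ResidueField O) + 1)
    (U : Finset X) (hpU : ¬ p ∣ L.lvl U) :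
    ¬ ∃ χ : Algebra.adjoin O {a : (L.baseLevels c).A U | ∃ ℓ : ℕ, ℓ.Prime ∧ ℓ ∉ bd ∧
          a = (L.baseLevels c).T U ℓ} →ₐ[O] O,
        ∀ (ℓ : ℕ) (hℓ : ℓ.Prime) (hb : ℓ ∉ bd),
          χ ⟨(L.baseLevels c).T U ℓ, Algebra.subset_adjoin ⟨ℓ, hℓ, hb, rfl⟩⟩ =
            (W.apOfModel ℓ : O) := fun ⟨χ, hχ⟩ =>
  hpU (dvd_of_isModularModelOfLevel hΔ hW hp hbad
    (isModular_of_levelPoint L c hNE U rfl hΔ χ hχ))

open FA.HeckeH1 in
/-- **`T_q² - (q + 1)²` is injective on parabolic classes** of a level prime to `q`. -/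
theorem eq_zero_of_Tc_sq {N : ℕ} [NeZero N] {q : ℕ} [Fact q.Prime] (hqN : ¬ q ∣ N) {A : Type}
    [CommRing A] [IsDomain A] [CharZero A] (z : Hom1 (GamH N ⊤) A) (hz : z ∈ Par (GamH N ⊤) A)
    (h : (Tc N ⊤ q).act ((Tc N ⊤ q).act z) = ((q + 1) * (q + 1) : ℕ) • z) : z = 0 := by
  by_contra hz0
  obtain ⟨s, hs, w, hw, hw0, hTw⟩ : ∃ s : ℤ, (s = 1 ∨ s = -1) ∧
      ∃ w : Hom1 (GamH N ⊤) A, w ∈ Par (GamH N ⊤) A ∧ w ≠ 0 ∧
        (Tc N ⊤ q).act w = (s * ((q : ℤ) + 1)) • w := by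
    by_cases h0 : (Tc N ⊤ q).act z + (q + 1 : ℕ) • z = 0
    · refine ⟨-1, Or.inr rfl, z, hz, hz0, ?_⟩
      rw [eq_neg_of_add_eq_zero_left h0, neg_one_mul, neg_smul,
        show ((q : ℤ) + 1) = ((q + 1 : ℕ) : ℤ) by push_cast; rfl, natCast_zsmul]
    · refine ⟨1, Or.inl rfl, _, add_mem (Par_act _ hz) (nsmul_mem hz _), h0, ?_⟩
      rw [map_add, map_nsmul, h, one_mul, smul_add,
        show ((q : ℤ) + 1) = ((q + 1 : ℕ) : ℤ) by push_cast; rfl, natCast_zsmul, natCast_zsmul,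
        add_comm, mul_smul]
  obtain ⟨f, hf, hcoef⟩ := exists_eigenform_of_eigenclass (fun _ => s * ((q : ℤ) + 1))
    (fun ℓ => ℓ = q) w hw hw0 (fun ℓ _ _ hℓ => by subst hℓ; exact hTw)
  exact qCoeff_ne_of_isNormalizedEigenform hf Fact.out hqN hs (hcoef q Fact.out hqN rfl)

open IsLocalRing FA.HeckeH1 in
/-- The injectivity asked for by the classes killed by both traces at `p`. -/
theorem pPart_hdet {O : Type} [CommRing O] [IsDomain O] [IsDiscreteValuationRing O]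
    [IsAdicComplete (maximalIdeal O) O] [CharZero O] {X : Type} [DecidableEq X] {qn : X → ℕ}
    {bd : Finset ℕ} {L : LevelSet qn bd} (P : PPart L) (c : Nat.Primes → ResidueField O)
    (hNE : ∀ M : ℕ, M ≠ 0 → ∃ ℓ : Nat.Primes, ¬ (ℓ : ℕ) ∣ M ∧
      ((ℓ : ℕ) : ZMod M) = 1 ∧ c ℓ ≠ ((ℓ : ℕ) : ResidueField O) + 1)
    (U : Finset X) (z : Hom1 (GamH (P.old.lvl U) ⊤) O) (he : (P.old.frame c U).e z = z)
    (h : haveI : Fact P.p.Prime := ⟨P.hp⟩
      (Tc (P.old.lvl U) ⊤ P.p).act ((Tc (P.old.lvl U) ⊤ P.p).act z) =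
        ((P.p + 1) * (P.p + 1) : ℕ) • z) : z = 0 :=
  haveI : Fact P.p.Prime := ⟨P.hp⟩
  eq_zero_of_Tc_sq (P.not_dvd_lvl U) z (he ▸ P.old.frame_mem_Par c hNE U z) h

end FA.Root

end
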