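import Fermat.Agent.Root.NotOld
import Fermat.Agent.HeckeH1.PLevelsDepth

/-!
# The injectivity for the old parts at `p` at Taylor–Wiles levels

With nebentypus `ψ = η²` of odd order twisting by `η⁻¹` carries `T_q² = (q + 1)² ⟨q⟩` to
`T_q² = (q + 1)²` at level `Γ₀`, which has no parabolic solution.
-/

set_option autoImplicit false
set_option linter.unusedSectionVars false

noncomputable section

namespace FA.Root

open IsLocalRing FA.HeckeH1 Polynomial
open scoped MatrixGroups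

variable {M : ℕ} [NeZero M] {H : Subgroup (ZMod M)ˣ}

/-- An operator commuting with semisimple commuting operators is injective when it kills no
common eigenvector of these. -/
theorem injective_of_weights {K V ι : Type} [Field K] [IsAlgClosed K] [AddCommGroup V] [Module K V]
    [FiniteDimensional K V] (D : ι → Module.End K V) (hD : ∀ i j, Commute (D i) (D j))
    (hss : ∀ i, (D i).IsSemisimple) (L : Module.End K V) (hL : ∀ i, Commute (D i) L)
    (hw : ∀ (χ : ι → K) v, (∀ i, D i v = χ i • v) → L v = 0 → v = 0) : Function.Injective L := by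
  rw [LinearMap.injective_iff_surjective, ← LinearMap.range_eq_top]
  have htop : ⨆ χ : ι → K, ⨅ i, (D i).maxGenEigenspace (χ i) = ⊤ :=
    Module.End.iSup_iInf_maxGenEigenspace_eq_top_of_iSup_maxGenEigenspace_eq_top_of_commute _
      (fun i j _ => hD i j) fun i => Module.End.iSup_maxGenEigenspace_eq_top _
  rw [eq_top_iff, ← htop, iSup_le_iff]
  intro χ
  set W := ⨅ i, (D i).maxGenEigenspace (χ i)
  have hW : ∀ v ∈ W, ∀ i, D i v = χ i • v := fun v hv i => by
    have h := (Submodule.mem_iInf _).1 hv i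
    rwa [(hss i).isFinitelySemisimple.maxGenEigenspace_eq_eigenspace,
      Module.End.mem_eigenspace_iff] at h
  have hLW : ∀ v ∈ W, L v ∈ W := fun v hv => (Submodule.mem_iInf _).2 fun i => by
    rw [(hss i).isFinitelySemisimple.maxGenEigenspace_eq_eigenspace,
      Module.End.mem_eigenspace_iff, ← Module.End.mul_apply, (hL i).eq, Module.End.mul_apply,
      hW v hv i, map_smul]
  have hinj : Function.Injective (L.restrict hLW) := by
    rw [injective_iff_map_eq_zero]
    rintro ⟨v, hv⟩ hvL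
    exact Subtype.ext (hw χ v (hW v hv) (congrArg Subtype.val hvL))
  intro v hv
  obtain ⟨u, hu⟩ := LinearMap.injective_iff_surjective.1 hinj ⟨v, hv⟩
  exact ⟨u.1, congrArg Subtype.val hu⟩

/-- A class with a nebentypus and `T_q² = (q + 1)² ⟨q⟩` vanishes. -/
theorem eq_zero_of_weight {q : ℕ} [Fact q.Prime] (hqM : ¬ q ∣ M) (Q : Finset ℕ)
    (hQ : ∀ r ∈ Q, r.Prime ∧ r ∣ M ∧ ¬ r * r ∣ M)
    (hH : ∀ u : (ZMod M)ˣ, (∀ r ∈ Q, (ZMod.cast (u : ZMod M) : ZMod r) = 1) → u ∈ H)
    (hodd : Odd (Nat.card ((ZMod M)ˣ ⧸ H))) (F : Type) [Field F] [IsAlgClosed F] [CharZero F]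
    (z : Par (GamH M H) F) (χ : (ZMod M)ˣ ⧸ H → F) (hzx : ∀ x, diaPar M H F x z = χ x • z)
    (hzT : TPar F M H q (TPar F M H q z) =
      ((q + 1) * (q + 1) : ℕ) • diaPar M H F (qDia M H hqM) z) : z = 0 := by
  classical
  set x₀ := qDia M H hqM
  by_contra hz0
  replace hz0 : z ≠ 0 := hz0
  let ψ : (ZMod M)ˣ ⧸ H →* F :=
    { toFun := χ
      map_one' := smul_left_injective F hz0 (by
        show χ 1 • z = (1 : F) • z
        rw [one_smul, ← hzx, map_one, Module.End.one_apply])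
      map_mul' := fun x y => smul_left_injective F hz0 (by
        show χ (x * y) • z = (χ x * χ y) • z
        rw [mul_comm (χ x), mul_smul, ← hzx, ← hzx, ← map_smul, ← hzx, map_mul,
          Module.End.mul_apply]) }
  obtain ⟨η, -, hη₂, hη₃⟩ := exists_nebentypus (QuotientGroup.mk' H) Q hQ
    (fun u hu => (QuotientGroup.eq_one_iff u).2 (hH u hu)) hodd ψ
  let Q' := Q.filter fun r => η r ≠ 1
  have hψ : ∀ u : (ZMod M)ˣ,
      ∏ r ∈ Q', η r (ZMod.cast (u : ZMod M)) ^ 2 = χ (QuotientGroup.mk u) := fun u => by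
    refine Eq.trans ?_ (hη₂ u)
    refine Finset.prod_filter_of_ne (p := fun r => η r ≠ 1) fun r hr hne hη => hne ?_
    rw [hη, show (ZMod.cast (u : ZMod M) : ZMod r) = (ZMod.unitsMap (hQ r hr).2.1 u : ZMod r)
      from rfl, MulChar.one_apply_coe, one_pow]
  have hQ' : ∀ r ∈ Q', r.Prime ∧ r ∣ M ∧ ¬ r * r ∣ M ∧ η r ^ 2 ≠ 1 := fun r hr => by
    obtain ⟨h₁, h₂⟩ := Finset.mem_filter.1 hr
    exact ⟨(hQ r h₁).1, (hQ r h₁).2.1, (hQ r h₁).2.2, fun h => h₂ (hη₃ r h₁ h)⟩
  obtain ⟨Φ, hΦp, hΦi, hΦT⟩ := exists_twist_lin η Q' M H hQ'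
  have : NeZero (M * ∏ r ∈ Q', r) :=
    ⟨mul_ne_zero (NeZero.ne M) (Finset.prod_ne_zero_iff.2 fun r hr => (hQ' r hr).1.ne_zero)⟩
  have hqM' : ¬ q ∣ M * ∏ r ∈ Q', r := fun h => by
    rcases (Nat.Prime.dvd_mul Fact.out).1 h with h | h
    · exact hqM h
    · obtain ⟨r, hr, hd⟩ := (Prime.dvd_finsetProd_iff (Fact.out : q.Prime).prime _).1 h
      exact hqM (hd.trans (hQ' r hr).2.1)
  set cq : F := ∏ r ∈ Q', (η r)⁻¹ (q : ZMod r) with hcq
  have hc : cq * cq * χ x₀ = 1 := by
    have hu := hψ (ZMod.unitOfCoprime q ((Fact.out : q.Prime).coprime_iff_not_dvd.2 hqM))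
    rw [show χ x₀ = _ from hu.symm, hcq, ← Finset.prod_mul_distrib, ← Finset.prod_mul_distrib]
    refine Finset.prod_eq_one fun r hr => ?_
    have hrM := (hQ' r hr).2.1
    have hcast : (ZMod.cast ((ZMod.unitOfCoprime q
        ((Fact.out : q.Prime).coprime_iff_not_dvd.2 hqM) : (ZMod M)ˣ) : ZMod M) : ZMod r) =
        (q : ZMod r) := by
      rw [ZMod.coe_unitOfCoprime]
      exact ZMod.cast_natCast hrM q
    have hqu : IsUnit (q : ZMod r) := (ZMod.isUnit_iff_coprime q r).2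
      ((Fact.out : q.Prime).coprime_iff_not_dvd.2 fun h => hqM (h.trans hrM))
    rw [hcast, pow_two, mul_mul_mul_comm, ← MulChar.mul_apply, inv_mul_cancel,
      MulChar.one_apply hqu, one_mul]
  have hzT' : (Tc M H q).act ((Tc M H q).act z.1) =
      ((q + 1) * (q + 1) : ℕ) • (χ x₀ • z.1) := by
    have h1 := congrArg Subtype.val hzT
    rw [hzx] at h1
    exact h1
  have hΦz : Φ z.1 = 0 := by
    refine eq_zero_of_Tc_sq hqM' _ (hΦp _ z.2) ?_
    rw [hΦT q hqM, Corr.act_smul, hΦT q hqM, smul_smul, hzT', map_nsmul, map_smul,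
      smul_comm _ ((q + 1) * (q + 1)), smul_smul, hc, one_smul]
  refine hz0 (Subtype.ext (hΦi z.1 (fun g => ?_) hΦz))
  rw [hψ (ulHom M g), ← diaPar_apply g z, hzx]
  rfl

/-- **`T_q² - (q + 1)² ⟨q⟩` is injective on parabolic classes** with nebentypus of odd order at
primes exactly dividing the level, over an algebraically closed field. -/
theorem eq_zero_of_Tc_sq_dia_field {q : ℕ} [Fact q.Prime] (hqM : ¬ q ∣ M) (Q : Finset ℕ)
    (hQ : ∀ r ∈ Q, r.Prime ∧ r ∣ M ∧ ¬ r * r ∣ M)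
    (hH : ∀ u : (ZMod M)ˣ, (∀ r ∈ Q, (ZMod.cast (u : ZMod M) : ZMod r) = 1) → u ∈ H)
    (hodd : Odd (Nat.card ((ZMod M)ˣ ⧸ H))) (F : Type) [Field F] [IsAlgClosed F] [CharZero F]
    (v : Par (GamH M H) F)
    (h : TPar F M H q (TPar F M H q v) =
      ((q + 1) * (q + 1) : ℕ) • diaPar M H F (qDia M H hqM) v) : v = 0 := by
  have := par_finite (M := M) (H := H) F
  obtain ⟨Lop, hLop⟩ : ∃ L : Module.End F (Par (GamH M H) F), L =
      TPar F M H q * TPar F M H q -
        (((q + 1) * (q + 1) : ℕ) : Module.End F (Par (GamH M H) F)) *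
          diaPar M H F (qDia M H hqM) := ⟨_, rfl⟩
  have happ : ∀ z, Lop z = TPar F M H q (TPar F M H q z) -
      ((q + 1) * (q + 1) : ℕ) • diaPar M H F (qDia M H hqM) z := fun z => by
    rw [hLop, LinearMap.sub_apply, Module.End.mul_apply, Module.End.mul_apply,
      Module.End.natCast_apply]
  have hcomm : ∀ x, Commute (diaPar M H F x) Lop := fun x => by
    have hT : ∀ z, diaPar M H F x (TPar F M H q z) = TPar F M H q (diaPar M H F x z) := fun z =>
      (LinearMap.congr_fun (TPar_diaPar (A := F) q x).eq z).symm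
    have hD : ∀ z, diaPar M H F x (diaPar M H F (qDia M H hqM) z) =
        diaPar M H F (qDia M H hqM) (diaPar M H F x z) := fun z =>
      LinearMap.congr_fun (diaPar_commute (A := F) x (qDia M H hqM)).eq z
    refine LinearMap.ext fun z => ?_
    rw [Module.End.mul_apply, Module.End.mul_apply, happ, happ, map_sub, map_nsmul, hT, hT, hD]
  have hw : ∀ (χ : (ZMod M)ˣ ⧸ H → F) (z : Par (GamH M H) F),
      (∀ x, diaPar M H F x z = χ x • z) → Lop z = 0 → z = 0 := fun χ z hz hzL => by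
    rw [happ, sub_eq_zero] at hzL
    exact eq_zero_of_weight hqM Q hQ hH hodd F z χ hz hzL
  have hL := injective_of_weights (fun x => diaPar M H F x) (fun x y => diaPar_commute x y)
    (fun x => isSemisimple_diaPar F x) Lop hcomm hw
  refine hL ?_
  rw [map_zero, happ, sub_eq_zero]
  exact h

/-- **`T_q² - (q + 1)² ⟨q⟩` is injective on parabolic classes** with nebentypus of odd order at
primes exactly dividing the level. -/
theorem eq_zero_of_Tc_sq_dia {q : ℕ} [Fact q.Prime] (hqM : ¬ q ∣ M) (Q : Finset ℕ)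
    (hQ : ∀ r ∈ Q, r.Prime ∧ r ∣ M ∧ ¬ r * r ∣ M)
    (hH : ∀ u : (ZMod M)ˣ, (∀ r ∈ Q, (ZMod.cast (u : ZMod M) : ZMod r) = 1) → u ∈ H)
    (hodd : Odd (Nat.card ((ZMod M)ˣ ⧸ H))) {A : Type} [CommRing A] [IsDomain A] [CharZero A]
    (z : Hom1 (GamH M H) A) (hz : z ∈ Par (GamH M H) A)
    (h : (Tc M H q).act ((Tc M H q).act z) =
      ((q + 1) * (q + 1) : ℕ) • diaHom M H A (qDia M H hqM) z) : z = 0 := by
  let F := AlgebraicClosure (FractionRing A)
  have hinj : Function.Injective (algebraMap A F) := by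
    rw [IsScalarTower.algebraMap_eq A (FractionRing A) F]
    exact (algebraMap (FractionRing A) F).injective.comp
      (IsFractionRing.injective A (FractionRing A))
  have : CharZero F := charZero_of_injective_algebraMap hinj
  have h0 := eq_zero_of_Tc_sq_dia_field hqM Q hQ hH hodd F
    ⟨(algebraMap A F).toAddMonoidHom.comp z, Par_comp _ hz⟩ (Subtype.ext (by
      show (Tc M H q).act ((Tc M H q).act ((algebraMap A F).toAddMonoidHom.comp z)) =
        ((q + 1) * (q + 1) : ℕ) • diaHom M H F (qDia M H hqM)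
          ((algebraMap A F).toAddMonoidHom.comp z)
      rw [Corr.act_comp_hom, Corr.act_comp_hom, h, diaHom_comp_alg]
      exact AddMonoidHom.ext fun γ => (algebraMap A F).toAddMonoidHom.map_nsmul _ _))
  refine AddMonoidHom.ext fun γ => hinj ?_
  exact (DFunLike.congr_fun (congrArg Subtype.val h0) γ).trans (map_zero _).symm

/-- A unit trivial modulo every prime of a set of primes is trivial modulo their product. -/
theorem unitsMap_prod_eq_one {N : ℕ} (Q : Finset Nat.Primes) (hd : (∏ r ∈ Q, (r : ℕ)) ∣ N)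
    (u : (ZMod N)ˣ) (hu : ∀ r ∈ Q, (ZMod.cast (u : ZMod N) : ZMod (r : ℕ)) = 1) :
    ZMod.unitsMap hd u = 1 := by
  classical
  refine Units.ext ?_
  show (ZMod.cast (u : ZMod N) : ZMod (∏ r ∈ Q, (r : ℕ))) = 1
  obtain ⟨k, hk⟩ := ZMod.intCast_surjective (u : ZMod N)
  rw [← hk, ZMod.cast_intCast hd, ← Int.cast_one, ZMod.intCast_eq_intCast_iff_dvd_sub,
    Int.natCast_dvd]
  rw [show (∏ r ∈ Q, (r : ℕ)) = ∏ r ∈ Q.image fun r : Nat.Primes => (r : ℕ), r from
    (Finset.prod_image (f := fun r : ℕ => r) (g := fun r : Nat.Primes => (r : ℕ))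
      fun a _ b _ h => Subtype.ext h).symm]
  refine Finset.prod_primes_dvd _ (fun r hr => ?_) fun r hr => ?_
  · obtain ⟨r, -, rfl⟩ := Finset.mem_image.1 hr
    exact r.2.prime
  · obtain ⟨r, hrQ, rfl⟩ := Finset.mem_image.1 hr
    have hrN : (r : ℕ) ∣ N := (Finset.dvd_prod_of_mem _ hrQ).trans hd
    have h := hu r hrQ
    rw [← hk, ZMod.cast_intCast hrN, ← Int.cast_one, ZMod.intCast_eq_intCast_iff_dvd_sub,
      Int.natCast_dvd] at h
    exact h

section depth

variable {O : Type} [CommRing O] [IsDomain O] [IsDiscreteValuationRing O]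
  [IsAdicComplete (maximalIdeal O) O] [CharZero O] {X : Type} [DecidableEq X] {qn : X → ℕ}
  {bad : Finset ℕ} {L : LevelSet qn bad} {c : Nat.Primes → ResidueField O} {G : Type}
  [CommGroup G] {bad' : Finset ℕ}

/-- **The injectivity at the Taylor–Wiles levels without `p`**, for odd residue characteristic. -/
theorem detD (P : PPart L) (T : TWPart L c G bad') (hneat : IsNeatOn O (GamH P.L0 ⊤))
    (hp2 : T.p ≠ 2) (U : Finset X) : P.DetD T hneat U := by
  haveI : Fact P.p.Prime := ⟨P.hp⟩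
  intro z he h
  let T₀ := P.oldTW T hneat
  refine eq_zero_of_Tc_sq_dia (P.isStepD T hneat U).not_dvd
    (T.Q.image fun r : Nat.Primes => (r : ℕ)) (fun r hr => ?_) (fun u hu => ?_) ?_ z
    (he ▸ T₀.frame_mem_Par U z) h
  · obtain ⟨r, hrQ, rfl⟩ := Finset.mem_image.1 hr
    refine ⟨r.2, T₀.Q_dvd U hrQ, fun hrr => ?_⟩
    set d := ∏ s ∈ T.Q.erase r, (s : ℕ) with hd0
    have hd : ∏ s ∈ T.Q, (s : ℕ) = (r : ℕ) * d := (Finset.mul_prod_erase _ _ hrQ).symm
    have hd' : ¬ (r : ℕ) ∣ d := fun hdd => by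
      obtain ⟨s, hs, hds⟩ := (Prime.dvd_finsetProd_iff r.2.prime _).1 hdd
      exact (Finset.mem_erase.1 hs).1
        (Subtype.ext ((Nat.prime_dvd_prime_iff_eq r.2 s.2).1 hds)).symm
    have hrr' : (r : ℕ) * r ∣ P.old.lvl U * ((r : ℕ) * d) := hd ▸ hrr
    rw [mul_left_comm] at hrr'
    rcases r.2.dvd_mul.1 ((Nat.mul_dvd_mul_iff_left r.2.pos).1 hrr') with h' | h'
    · exact T₀.Q_not_dvd U hrQ h'
    · exact hd' h'
  · show T₀.κU U u = 1
    exact (congrArg T₀.κ (unitsMap_prod_eq_one T.Q _ u fun r hr =>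
      hu r (Finset.mem_image_of_mem _ hr))).trans (map_one _)
  · haveI := Fact.mk T₀.hp
    obtain ⟨n, hn⟩ := IsPGroup.iff_card.1
      (isPGroup_quotient_ker (T₀.κU_surjective U) T₀.isPGroup)
    show Odd (Nat.card ((ZMod (T₀.lvl U))ˣ ⧸ (T₀.κU U).ker))
    rw [hn]
    exact (T.hp.odd_of_ne_two hp2).pow

end depth

end FA.Root

end
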