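import Fermat.Agent.HeckeH1.DepthTower
import Fermat.Agent.RT.SetupExists
import Fermat.Agent.LocalDef.Connected
import Fermat.Agent.JTorsion.CycloRes

/-!
# Diamond characters of Taylor–Wiles sets

Tame generators at the primes of a set, and the Hecke side data of a set: the diamond character
sending the cyclotomic values of the generators to the inverse squares of the generators of the
diamond group.
-/

set_option autoImplicit false
set_option linter.style.haveILetI false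
set_option linter.unusedSectionVars false

noncomputable section

open IsLocalRing Matrix FA.RT FA.TW FA.HeckeH1 FA.JTorsion
open scoped MatrixGroups

namespace FA.Root

local notation "Qb" => AlgebraicClosure ℚ
local notation "GQ" => AlgebraicClosure ℚ ≃ₐ[ℚ] AlgebraicClosure ℚ

/-- Inertia at `q` realises every unit modulo `q`. -/
theorem exists_inertia_cycK {q : ℕ} [Fact q.Prime] {A : ValuationSubring Qb}
    (hA : A.LiesOverPrime q) (a : (ZMod q)ˣ) :
    ∃ σ ∈ A.inertiaSubgroupIn ℚ, cycK q (ZMod q) σ = a := by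
  have hq : q.Prime := Fact.out
  haveI : NeZero (q ^ 1) := ⟨pow_ne_zero _ hq.ne_zero⟩
  obtain ⟨ζ, hζ⟩ := HasEnoughRootsOfUnity.exists_primitiveRoot Qb (q ^ 1)
  have hm : ¬ q ∣ (a : ZMod q).val := fun h => a.ne_zero (by
    rw [← ZMod.natCast_zmod_val (a : ZMod q), ZMod.natCast_eq_zero_iff]
    exact h)
  obtain ⟨σ, hσ, hσζ⟩ := FA.LocalDef.exists_inertia_zeta hq hA
    (by simpa using hζ) (m := (a : ZMod q).val) hm
  refine ⟨σ, hσ, Units.ext ?_⟩
  rw [cycK_val, cycP_toZModPow,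
    ← modularCyclotomicCharacter.unique Qb _ (c := ((a : ZMod q).val : ZMod (q ^ 1))) _
      (fun t ht => ?_), map_natCast, ZMod.natCast_zmod_val]
  have ht' : (t : Qb) ^ q ^ 1 = 1 := by
    rw [← Units.val_pow_eq_pow_val, (mem_rootsOfUnity _ t).mp ht, Units.val_one]
  obtain ⟨i, -, hi⟩ := hζ.eq_pow_of_pow_eq_one ht'
  rw [ZMod.val_natCast, pow_one, Nat.mod_eq_of_lt (ZMod.val_lt _), ← hi]
  show σ (ζ ^ i) = _
  rw [map_pow, hσζ, ← pow_mul, ← pow_mul, mul_comm]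

variable {O : Type} [CommRing O] [IsDomain O] [IsDiscreteValuationRing O]
  [IsAdicComplete (maximalIdeal O) O] {S : Setup O} {r n : ℕ}

/-- The elements `s` of a set are tame generators. -/
def IsTameGenSet (D : S.TWSet r n) : Prop :=
  ∀ (i : Fin r) (X : Type) [Monoid X] (f : GQ →* X), IsOpen (f.ker : Set GQ) →
    (∀ σ ∈ (S.P.place (D.qv i)).inertiaSubgroupIn ℚ, ∃ m : ℕ, f σ ^ S.p ^ m = 1) →
    ∀ σ ∈ (S.P.place (D.qv i)).inertiaSubgroupIn ℚ, ∃ k : ℕ, f σ = f (D.s i) ^ k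

/-- The same set with tame generators at its primes. -/
theorem exists_retame (D : S.TWSet r n) :
    ∃ D' : S.TWSet r n, D'.qv = D.qv ∧ IsTameGenSet D' := by
  choose s hs hgen using fun i => exists_tame_gen S.hp (D.prime i).1 (D.prime i).2.symm
    (S.P.liesOver (D.qv i) (D.prime i).1)
  exact ⟨{ D with s := fun i => ⟨s i, hs i⟩ }, rfl, hgen⟩

theorem isPGroup_dGroup (D : S.TWSet r n) :
    haveI : NeZero S.p := ⟨S.hp.ne_zero⟩
    IsPGroup S.p (DGroup S.p D.expo) := by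
  haveI : NeZero S.p := ⟨S.hp.ne_zero⟩
  refine IsPGroup.of_card (n := ∑ i, D.expo i) ?_
  simp [DGroup, Nat.card_pi, Finset.prod_pow_eq_pow_sum]

theorem odd_card_dGroup (D : S.TWSet r n) :
    haveI : NeZero S.p := ⟨S.hp.ne_zero⟩
    Odd (Nat.card (DGroup S.p D.expo)) := by
  haveI : NeZero S.p := ⟨S.hp.ne_zero⟩
  have h : Odd S.p := S.hp.odd_of_ne_two S.hp2
  obtain h | h := (Nat.even_or_odd (Nat.card (DGroup S.p D.expo))).symm
  · exact h
  · exfalso
    obtain ⟨k, hk⟩ : ∃ k, Nat.card (DGroup S.p D.expo) = S.p ^ k :=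
      ⟨∑ i, D.expo i, by simp [DGroup, Nat.card_pi, Finset.prod_pow_eq_pow_sum]⟩
    rw [hk] at h
    exact (Nat.not_even_iff_odd.2 (S.hp.odd_of_ne_two S.hp2).pow) h

/-- A character modulo `q i` with a prescribed value at the generator. -/
theorem exists_component (D : S.TWSet r n) (hgen : IsTameGenSet D) (i : Fin r) :
    haveI : NeZero S.p := ⟨S.hp.ne_zero⟩
    haveI : Fact (D.qv i).Prime := ⟨(D.prime i).1⟩
    ∃ g : (ZMod (D.qv i))ˣ →* Multiplicative (ZMod (S.p ^ D.expo i)), Function.Surjective g ∧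
      g (cycK (D.qv i) (ZMod (D.qv i)) (D.s i)) = Multiplicative.ofAdd (-2) := by
  haveI : NeZero S.p := ⟨S.hp.ne_zero⟩
  haveI : Fact (D.qv i).Prime := ⟨(D.prime i).1⟩
  haveI : NeZero (S.p ^ D.expo i) := ⟨pow_ne_zero _ S.hp.ne_zero⟩
  obtain ⟨f, hf⟩ : ∃ f : (ZMod (D.qv i))ˣ →* Multiplicative (ZMod (S.p ^ D.expo i)),
      Function.Surjective f := exists_unit_log (Nat.ordProj_dvd (D.qv i - 1) S.p)
  let F : GQ →* Multiplicative (ZMod (S.p ^ D.expo i)) := f.comp (cycK (D.qv i) (ZMod (D.qv i)))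
  have hopen : IsOpen (F.ker : Set GQ) := by
    obtain ⟨L, hL, h⟩ := exists_field_cycK (D.qv i) (ZMod (D.qv i))
    refine Subgroup.isOpen_mono (H₁ := L.fixingSubgroup) (fun σ hσ => ?_)
      (IntermediateField.fixingSubgroup_isOpen L)
    rw [MonoidHom.mem_ker]
    show f (cycK (D.qv i) (ZMod (D.qv i)) σ) = 1
    rw [h σ ((IntermediateField.mem_fixingSubgroup_iff L σ).1 hσ), map_one]
  have hP : ∀ σ ∈ (S.P.place (D.qv i)).inertiaSubgroupIn ℚ, ∃ m : ℕ, F σ ^ S.p ^ m = 1 :=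
    fun σ _ => ⟨D.expo i, by
      have := pow_card_eq_one (x := F σ)
      rwa [Fintype.card_multiplicative, ZMod.card] at this⟩
  obtain ⟨v, hv⟩ : ∃ v, f v = Multiplicative.ofAdd 1 := hf _
  obtain ⟨σ, hσ, hσv⟩ := exists_inertia_cycK (S.P.liesOver (D.qv i) (D.prime i).1) v
  obtain ⟨k, hk⟩ := hgen i _ F hopen hP σ hσ
  set c : ZMod (S.p ^ D.expo i) := Multiplicative.toAdd (F (D.s i)) with hc
  have hunit : (k : ZMod (S.p ^ D.expo i)) * c = 1 := by
    have h1 := congrArg Multiplicative.toAdd hk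
    rw [show F σ = f v from congrArg f hσv, toAdd_pow, ← hc, nsmul_eq_mul, hv, toAdd_ofAdd] at h1
    exact h1.symm
  have h2 : IsUnit ((2 : ℕ) : ZMod (S.p ^ D.expo i)) :=
    (ZMod.isUnit_iff_coprime 2 _).2 (Nat.Coprime.pow_right _
      ((Nat.coprime_primes Nat.prime_two S.hp).2 S.hp2.symm))
  have hd : IsUnit ((-2 : ZMod (S.p ^ D.expo i)) * (k : ZMod (S.p ^ D.expo i))) := by
    refine IsUnit.mul ?_ (IsUnit.of_mul_eq_one _ hunit)
    have : IsUnit (2 : ZMod (S.p ^ D.expo i)) := by exact_mod_cast h2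
    exact this.neg
  obtain ⟨d, hd⟩ := hd
  let m : Multiplicative (ZMod (S.p ^ D.expo i)) →* Multiplicative (ZMod (S.p ^ D.expo i)) :=
    AddMonoidHom.toMultiplicative (AddMonoidHom.mulLeft (d : ZMod (S.p ^ D.expo i)))
  refine ⟨m.comp f, fun x => ?_, ?_⟩
  · obtain ⟨y, hy⟩ := hf (Multiplicative.ofAdd ((d⁻¹).1 * Multiplicative.toAdd x))
    refine ⟨y, ?_⟩
    show Multiplicative.ofAdd ((d : ZMod _) * Multiplicative.toAdd (f y)) = x
    rw [hy, toAdd_ofAdd, ← mul_assoc, Units.mul_inv, one_mul, ofAdd_toAdd]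
  · show Multiplicative.ofAdd ((d : ZMod _) * c) = _
    rw [hd, mul_assoc, hunit, mul_one]

/-- The primes of a set as a finite set of primes. -/
def twQ (D : S.TWSet r n) : Finset Nat.Primes :=
  Finset.univ.image fun i => (⟨D.qv i, (D.prime i).1⟩ : Nat.Primes)

theorem mem_twQ (D : S.TWSet r n) {q : Nat.Primes} : q ∈ twQ D ↔ ∃ i, D.qv i = (q : ℕ) := by
  simp only [twQ, Finset.mem_image, Finset.mem_univ, true_and]
  exact exists_congr fun i => Subtype.ext_iff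

theorem qv_dvd_prod (D : S.TWSet r n) (i : Fin r) : D.qv i ∣ ∏ q ∈ twQ D, (q : ℕ) :=
  Finset.dvd_prod_of_mem (fun q : Nat.Primes => (q : ℕ))
    ((mem_twQ D).2 ⟨i, rfl⟩ : (⟨D.qv i, (D.prime i).1⟩ : Nat.Primes) ∈ twQ D)

variable {X : Type} [DecidableEq X] {qn : X → ℕ} {bad : Finset ℕ} [CharZero O]

/-- **The Hecke side data of a Taylor–Wiles set.** -/
theorem exists_twPart (D : S.TWSet r n) (hinj : Function.Injective D.qv) (hgen : IsTameGenSet D)
    (L : LevelSet qn bad) (c : Nat.Primes → ResidueField O)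
    (hNE : ∀ N : ℕ, N ≠ 0 → ∃ ℓ : Nat.Primes, ¬ (ℓ : ℕ) ∣ N ∧
      ((ℓ : ℕ) : ZMod N) = 1 ∧ c ℓ ≠ ((ℓ : ℕ) : ResidueField O) + 1)
    (hneat : IsNeatOn O (GamH L.L0 ⊤)) (hbad : ∀ i, D.qv i ∉ bad)
    (hS : ∀ (i : Fin r) (ℓ : Nat.Primes), (ℓ : ℕ) = D.qv i → ℓ ∉ L.S)
    (ab : Fin r → ResidueField O)
    (hab : ∀ i, ab i * ab i - (S.rb (D.φ i)).trace * ab i + (S.rb (D.φ i)).det = 0)
    (htr : ∀ (i : Fin r) (ℓ : Nat.Primes), (ℓ : ℕ) = D.qv i →
      (S.rb (D.φ i)).trace = c ℓ ∧ (S.rb (D.φ i)).det = ((ℓ : ℕ) : ResidueField O)) :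
    haveI : NeZero S.p := ⟨S.hp.ne_zero⟩
    ∃ T : TWPart L c (DGroup S.p D.expo) (bad ∪ Finset.univ.image D.qv),
      T.p = S.p ∧ T.Q = twQ D ∧
      (∀ (i : Fin r) (q : Nat.Primes), (q : ℕ) = D.qv i → residue O (T.α q) = ab i) ∧
      ∀ (i : Fin r) (u : (ZMod (∏ q ∈ T.Q, (q : ℕ)))ˣ),
        haveI : Fact (D.qv i).Prime := ⟨(D.prime i).1⟩
        (ZMod.cast (u : ZMod (∏ q ∈ T.Q, (q : ℕ))) : ZMod (D.qv i)) =
          (cycK (D.qv i) (ZMod (D.qv i)) (D.s i) : ZMod (D.qv i)) →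
        (∀ j, j ≠ i →
          (ZMod.cast (u : ZMod (∏ q ∈ T.Q, (q : ℕ))) : ZMod (D.qv j)) = 1) →
        T.κ u * dGen S.p D.expo i ^ 2 = 1 := by
  classical
  haveI : NeZero S.p := ⟨S.hp.ne_zero⟩
  haveI : Fact S.p.Prime := ⟨S.hp⟩
  have hp0 : ((S.p : ℕ) : ResidueField O) = 0 := by
    rw [← map_natCast (residue O), residue_eq_zero_iff]
    exact S.hpO
  have hchar : CharP (ResidueField O) S.p := (CharP.charP_iff_prime_eq_zero S.hp).mpr hp0
  haveI : NeZero (∏ q ∈ twQ D, (q : ℕ)) :=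
    ⟨Finset.prod_ne_zero_iff.2 fun q _ => q.2.ne_zero⟩
  choose g hg hgs using exists_component D hgen
  let κ : (ZMod (∏ q ∈ twQ D, (q : ℕ)))ˣ →* DGroup S.p D.expo :=
    MonoidHom.pi fun i => (g i).comp (ZMod.unitsMap (qv_dvd_prod D i))
  have hsurj : Function.Surjective κ :=
    pi_unitsMap_surjective D.qv (fun i => (D.prime i).1) hinj (qv_dvd_prod D) g hg
  have hα : ∀ q : Nat.Primes, ∃ a : O, ∀ i, (q : ℕ) = D.qv i → residue O a = ab i := fun q => by
    by_cases h : ∃ i, (q : ℕ) = D.qv i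
    · obtain ⟨i, hi⟩ := h
      obtain ⟨a, ha⟩ := residue_surjective (ab i)
      exact ⟨a, fun j hj => by rw [ha, hinj (hi.symm.trans hj)]⟩
    · exact ⟨0, fun i hi => absurd ⟨i, hi⟩ h⟩
  choose α hα using hα
  let σ : ℕ → DGroup S.p D.expo := fun ℓ =>
    if h : ℓ.Coprime (∏ q ∈ twQ D, (q : ℕ)) then
      κ (ZMod.unitOfCoprime ℓ h) ^ halfExp (DGroup S.p D.expo) else 1
  refine ⟨{
    p := S.p
    hp := S.hp
    charP := hchar
    nonEis := hNE
    neat := hneat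
    Q := twQ D
    α := α
    not_dvd := fun q hq h => by
      obtain ⟨i, hi⟩ := (mem_twQ D).1 hq
      exact hbad i (hi ▸ L.mem_bad _ q.2 h)
    ne_qn := fun q hq x h => by
      obtain ⟨i, hi⟩ := (mem_twQ D).1 hq
      exact hbad i (by rw [hi, h]; exact L.qn_bad x)
    notMem_S := fun q hq => by
      obtain ⟨i, hi⟩ := (mem_twQ D).1 hq
      exact hS i q hi.symm
    root := fun q hq => by
      obtain ⟨i, hi⟩ := (mem_twQ D).1 hq
      obtain ⟨ht, hd⟩ := htr i q hi.symm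
      rw [hα q i hi.symm, ← ht, ← hd, sq]
      exact hab i
    simple := fun q hq h => by
      obtain ⟨i, hi⟩ := (mem_twQ D).1 hq
      obtain ⟨ht, hd⟩ := htr i q hi.symm
      refine D.regular i ?_
      rw [hα q i hi.symm, ← ht] at h
      linear_combination (2 * ab i - (S.rb (D.φ i)).trace) * h - 4 * hab i
    q_one := fun q hq => by
      obtain ⟨i, hi⟩ := (mem_twQ D).1 hq
      rw [← hi, ← Nat.sub_add_cancel (D.prime i).1.one_le, Nat.cast_add, Nat.cast_one,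
        (CharP.cast_eq_zero_iff (ResidueField O) S.p _).2
          ((dvd_pow_self S.p n.succ_ne_zero).trans (D.dvd i)), zero_add]
    κ := κ
    surj := hsurj
    neg_one := map_neg_one_eq_one (isPGroup_dGroup D) S.hp2 κ
    isPGroup := isPGroup_dGroup D
    σ := σ
    sq := fun ℓ _ h => by
      show σ ℓ ^ 2 = _
      simp only [σ, dif_pos h]
      exact pow_halfExp_sq (odd_card_dGroup D) _
    sub_bad := Finset.subset_union_left
    mem_bad := fun q hq => by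
      obtain ⟨i, hi⟩ := (mem_twQ D).1 hq
      exact Finset.mem_union_right _ (Finset.mem_image.2 ⟨i, Finset.mem_univ i, hi⟩) },
    rfl, rfl, fun i q hq => hα q i hq, fun i u hu hu' => funext fun j => ?_⟩
  show g j (ZMod.unitsMap (qv_dvd_prod D j) u) * dGen S.p D.expo i j ^ 2 = 1
  haveI : Fact (D.qv j).Prime := ⟨(D.prime j).1⟩
  rcases eq_or_ne j i with rfl | hne
  · rw [show ZMod.unitsMap (qv_dvd_prod D j) u = cycK (D.qv j) (ZMod (D.qv j)) (D.s j) from
      Units.ext hu, hgs, dGen, Pi.mulSingle_eq_same, ← ofAdd_nsmul, ← ofAdd_add, nsmul_one]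
    simp
  · rw [show ZMod.unitsMap (qv_dvd_prod D j) u = 1 from Units.ext (hu' j hne), map_one, dGen,
      Pi.mulSingle_eq_of_ne hne, one_pow, one_mul]

/-- Levels are neat over `O` below a prime `≡ -1` modulo `p`. -/
theorem isNeatOn_of_prime {p r₀ : ℕ} [Fact p.Prime] [Fact r₀.Prime] (hp2 : p ≠ 2)
    (hpO : (p : O) ∈ maximalIdeal O) {N : ℕ} [NeZero N] (hrN : r₀ ∣ N)
    (hr : (r₀ : ZMod p) = -1) : IsNeatOn O (GamH N ⊤) := by
  have hunit : ∀ m : ℕ, ¬ p ∣ m → IsUnit (m : O) := fun m hm => by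
    refine IsLocalRing.notMem_maximalIdeal.1 fun h => (maximalIdeal.isMaximal O).ne_top ?_
    obtain ⟨x, y, hxy⟩ := (Nat.isCoprime_iff_coprime.mpr
      ((Fact.out : p.Prime).coprime_iff_not_dvd.mpr hm) : IsCoprime (p : ℤ) (m : ℤ))
    refine (Ideal.eq_top_iff_one _).mpr ?_
    have h1 := congrArg (fun z : ℤ => (z : O)) hxy
    push_cast at h1
    rw [← h1]
    exact add_mem (Ideal.mul_mem_left _ _ hpO) (Ideal.mul_mem_left _ _ h)
  refine isNeatOn_of_trace (Or.inl ?_) ?_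
  · have := hunit 2 fun h => hp2 ((Nat.prime_dvd_prime_iff_eq Fact.out Nat.prime_two).1 h)
    exact_mod_cast this
  by_cases hp3 : p = 3
  · subst hp3
    refine Or.inr fun γ hγ => trace_abs_ne_one_of_prime (r := r₀) ?_ ?_
    · have h1 : ((r₀ : ℕ) : ZMod 3) = ((2 : ℕ) : ZMod 3) := by rw [hr]; rfl
      exact (ZMod.natCast_eq_natCast_iff _ _ _).1 h1
    · rw [GamH_top] at hγ
      exact (Int.natCast_dvd_natCast.2 hrN).trans
        ((ZMod.intCast_zmod_eq_zero_iff_dvd _ _).1 (CongruenceSubgroup.Gamma0_mem.1 hγ))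
  · refine Or.inl ?_
    have := hunit 3 fun h => hp3 ((Nat.prime_dvd_prime_iff_eq Fact.out Nat.prime_three).1 h)
    exact_mod_cast this

end FA.Root

end
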