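import Fermat.Agent.Root.SepsBase
import Fermat.Agent.RT.TWPoint.StrictSeps
import Fermat.Agent.HeckeH1.PLevelsPoints

/-!
# Separating strictly ordinary lifts of a pair in the union of two worlds

The quotients by the old part at `p` of the levels of a pair in the union, at the base and at a
Taylor–Wiles set, are separated by strictly ordinary lifts.
-/

set_option autoImplicit false
set_option linter.style.haveILetI false
set_option linter.unusedSectionVars false
set_option maxHeartbeats 2000000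
set_option synthInstance.maxHeartbeats 200000

noncomputable section

open IsLocalRing Matrix WeierstrassCurve FA.RT FA.Deform FA.TW FA.Frob FA.HeckeH1
open FA.JTorsion (cycP)
open FA.LocalDef (IsOrdType)

namespace FA.Root

local notation "M2" => Matrix (Fin 2) (Fin 2)
local notation "Qb" => AlgebraicClosure ℚ
local notation "GQ" => AlgebraicClosure ℚ ≃ₐ[ℚ] AlgebraicClosure ℚ

variable {p : ℕ} [Fact p.Prime] (W W' : WeierstrassCurve ℤ)
  [(FA.Frob.ratCurve W).IsElliptic] [(FA.Frob.ratCurve W').IsElliptic]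
  {O : Type} [CommRing O] [IsDomain O] [IsDiscreteValuationRing O]
  [IsAdicComplete (maximalIdeal O) O] [Finite (ResidueField O)] [CharZero O]
  (hp2 : p ≠ 2) (hpO : (p : O) ∈ maximalIdeal O) (ι : ℤ_[p] →+* O)
  (j : ZMod p →+* ResidueField O) (P : Places) (hΔ : W.Δ ≠ 0) (hΔ' : W'.Δ ≠ 0)
  (hW : W.IsSemistableModel) (hbad : (p : ℤ) ∣ W.Δ) (hval : p ∣ padicValInt p W.Δ)
  {r : ℕ} (haux : LiftAux p W W' r)

local notation "SU" => unionPairSetup W W' hp2 hpO ι j P hΔ hW hbad hval haux
local notation "UL" => unionPairLevels W W' hp2 hpO ι j P hΔ hW hbad hval haux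
local notation "UP" => unionPPart W W' hp2 hpO ι j P hΔ hW hbad hval haux

theorem ordType_unionPairRb (A : ValuationSubring Qb) (hA : A.LiesOverPrime p) :
    IsOrdType A (SU).rb :=
  isOrdType_mapRep_curveRep W hΔ hW hp2 hbad j A hA

include hpO in
theorem charP_residueField : CharP (ResidueField O) p :=
  (CharP.charP_iff_prime_eq_zero Fact.out).mpr (by
    rw [← map_natCast (residue O), residue_eq_zero_iff]; exact hpO)

include hΔ' in
/-- **Separating lifts of the new part at the base of a pair in the union.** -/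
theorem unionBaseSepS (hirr : W.ModRepIsIrreducible p) :
    Nonempty (∀ U, (SU).PartSep (((UP).pLevels (sysVal W j)).TS U) (insert p (sigSet p W W' r))
      fun B _ _ _ m => (SU).BaseAllowed (fun _ _ _ _ _ => True) B m ∧ AtStrict p B m) := by
  haveI : Fact (SU).p.Prime := ⟨(SU).hp⟩
  haveI := charP_residueField (p := p) (O := O) hpO
  have hNE := pair_nonEisenstein W hp2 hpO j hΔ (O := O) hirr
  refine ⟨fun U => Classical.choice ?_⟩
  exact nonempty_strictSep (p := p) (ι := ι) (UP) SU (fun _ _ _ _ _ => True) rfl rfl hp2 hpO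
    (fun _ => rfl)
    (unionCurveSetup_span W hp2 hpO ι j P hΔ hW hbad hval _ (sigSet_spec haux) hirr)
    (det_unionPairRb W W' hp2 hpO ι j P hΔ hW haux hbad hval)
    (ordType_unionPairRb W W' hp2 hpO ι j P hΔ hW hbad hval haux) hNE
    (fun _ _ _ _ _ => trivial) U
    (twPiece_base (S := SU) (emb := (Subtype.val : Rem SU r → ↥(SU).Sig)) UL (sysVal W j) hNE
      (frobTrace_union W W' hp2 hpO ι j P hΔ hΔ' hW haux hbad hval) U)
    (fun _ hq h => mem_T_of_dvd_unionPairLevels W W' hp2 hpO ι j P hΔ hW haux hbad hval hq h)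
    (squarefree_unionPairLevels W W' hp2 hpO ι j P hΔ hW haux hbad hval U)
    (coreAlg ((UL).frame (sysVal W j) U).e (UL).core).val
    (fun _ hℓ hb => (UL).TB_val (sysVal W j) U hℓ.1 hℓ.2 ((UL).core_of_not_bad hb))
    ((UP).exists_newPoints (sysVal W j) U hNE (p := p) Fact.out)

/-- **Separating lifts of the new part at a Taylor–Wiles set of a pair in the union**, from the
pieces of its levels. -/
theorem unionDepthSepS (hirr : W.ModRepIsIrreducible p) {rr n : ℕ} (D : (SU).TWSet rr n)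
    (ab : Fin rr → ResidueField O) (hinj : Function.Injective D.qv) (hT : ∀ i, D.qv i ∉ (SU).T)
    (hab : ∀ i, ab i * ab i - ((SU).rb (D.φ i)).trace * ab i + ((SU).rb (D.φ i)).det = 0)
    [NeZero (SU).p]
    (T : TWPart UL (sysVal W j) (DGroup (SU).p D.expo)
      (insert p (sigSet p W W' r) ∪ Finset.univ.image D.qv))
    (hneat : IsNeatOn O (GamH (UP).L0 ⊤)) (hTp : T.p = (SU).p) (hTQ : T.Q = twQ D)
    (hκ : ∀ (i : Fin rr) (u : (ZMod (∏ q ∈ T.Q, (q : ℕ)))ˣ),
      haveI : Fact (D.qv i).Prime := ⟨(D.prime i).1⟩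
      (ZMod.cast (u : ZMod (∏ q ∈ T.Q, (q : ℕ))) : ZMod (D.qv i)) =
        (FA.JTorsion.cycK (D.qv i) (ZMod (D.qv i)) (D.s i) : ZMod (D.qv i)) →
      (∀ j, j ≠ i → (ZMod.cast (u : ZMod (∏ q ∈ T.Q, (q : ℕ))) : ZMod (D.qv j)) = 1) →
      T.κ u * dGen (SU).p D.expo i ^ 2 = 1)
    (hpiece : ∀ U, ∃ (T0 : Finset ℕ) (c0 α : ℕ → O),
      (∀ i, residue O (α (D.qv i)) = ab i) ∧
        TWPiece p (SU).rb (T.Q.image fun q : Nat.Primes => (q : ℕ)) T0 c0 α (T.frame U).e) :
    ∃ sepS : ∀ U, (SU).PartSep (((UP).pLevelsD T hneat).TS U)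
        (insert p (sigSet p W W' r) ∪ Finset.univ.image D.qv)
        (fun B _ _ _ m => D.Allowed (fun _ _ _ _ _ => True) B m ∧ AtStrict p B m),
      ∀ U, Setup.DiaRel D ab (sepS U).pts fun i =>
        (sepS U).ev ((UP).diaNew T hneat U (dGen (SU).p D.expo i)) := by
  have hNE := pair_nonEisenstein W hp2 hpO j hΔ (O := O) hirr
  have hTp2 : T.p ≠ 2 := fun h => hp2 (hTp.symm.trans h)
  have hQD : ∀ q : Nat.Primes, q ∈ T.Q ↔ ∃ i, D.qv i = (q : ℕ) := fun q => by
    rw [hTQ]; exact mem_twQ D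
  have hQ : ∀ q : ℕ, q ∈ (T.Q.image fun q : Nat.Primes => (q : ℕ)) ↔ ∃ i, D.qv i = q :=
    fun q => by
      rw [Finset.mem_image]
      constructor
      · rintro ⟨s, hs, rfl⟩
        exact (hQD s).1 hs
      · rintro ⟨i, rfl⟩
        exact ⟨⟨D.qv i, (D.prime i).1⟩, (hQD _).2 ⟨i, rfl⟩, rfl⟩
  have key : ∀ U, ∃ sep : (SU).PartSep (((UP).pLevelsD T hneat).TS U)
      (insert p (sigSet p W W' r) ∪ Finset.univ.image D.qv)
      (fun B _ _ _ m => D.Allowed (fun _ _ _ _ _ => True) B m ∧ AtStrict p B m),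
      Setup.DiaRel D ab sep.pts fun i =>
        sep.ev ((UP).diaNew T hneat U (dGen (SU).p D.expo i)) := by
    intro U
    obtain ⟨T0, c0, α, hα, h⟩ := hpiece U
    haveI hred : IsReduced (GoodAlg (T.frame U).e) := h.isReduced hp2
    have e1 := exists_strictSepD (p := p) (ι := ι) (UP) SU (fun _ _ _ _ _ => True) T hneat D hinj hT
      hQD ab hα hab (fun i => dGen (SU).p D.expo i) hκ rfl rfl hp2 hTp2 hpO (fun _ => rfl)
      (unionCurveSetup_span W hp2 hpO ι j P hΔ hW hbad hval _ (sigSet_spec haux) hirr)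
      (det_unionPairRb W W' hp2 hpO ι j P hΔ hW haux hbad hval)
      (ordType_unionPairRb W W' hp2 hpO ι j P hΔ hW hbad hval haux)
      (fun _ _ _ _ _ => trivial) hQ U h
      (fun _ hq hd => mem_T_of_dvd_unionPairLevels W W' hp2 hpO ι j P hΔ hW haux hbad hval hq hd)
      (squarefree_unionPairLevels W W' hp2 hpO ι j P hΔ hW haux hbad hval U)
    have e2 := e1 (coreAlg (T.frame U).e (UL).core).val
    have e3 := e2 (fun _ hℓ hb =>
        T.TD_eq U hℓ.1 hℓ.2 ((UL).core_of_not_bad fun hd => hb (T.sub_bad hd)))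
    have e4 := e3 (fun _ => rfl)
    have hp := (UP).exists_newPointsD U T hneat hNE
    have e5 := e4 hp
    exact e5
  choose sep hsep using key
  exact ⟨sep, hsep⟩

end FA.Root

end
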