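import Fermat.Agent.Root.SepsDepth
import Fermat.Agent.Root.SepsStrict
import Fermat.Agent.RT.TWPoint.BaseSep

/-!
# Separating lifts of a removal and of a pair

The lifts of the points at the levels above the base: flat at a good `p`, strictly ordinary where
the residual representation is très ramifiée; in the union of the two worlds, those of the levels
without `p` are flat. With those of the base they give the separating lifts of a removal and of a
pair with one world at `p`.
-/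

set_option autoImplicit false
set_option linter.style.haveILetI false
set_option linter.unusedSectionVars false
set_option maxHeartbeats 800000
set_option synthInstance.maxHeartbeats 200000

noncomputable section

open scoped WeierstrassCurve.Affine
open IsLocalRing Matrix WeierstrassCurve FA.RT FA.Deform FA.TW FA.Frob FA.HeckeH1
open FA.JTorsion (cycP cycK)

namespace FA.Root

local notation "M2" => Matrix (Fin 2) (Fin 2)
local notation "Qb" => AlgebraicClosure ℚ
local notation "GQ" => AlgebraicClosure ℚ ≃ₐ[ℚ] AlgebraicClosure ℚ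

/-- The levels of a Taylor–Wiles set are pieces, with the roots as residual values. -/
def DepthPieces : Prop :=
  ∀ {O : Type} [CommRing O] [IsDomain O] [IsDiscreteValuationRing O]
    [IsAdicComplete (maximalIdeal O) O] [CharZero O] [Finite (ResidueField O)]
    {S : Setup O} [Fact S.p.Prime] {X : Type} [DecidableEq X] {emb : X → ↥S.Sig} {bad : Finset ℕ}
    {L : LevelSet (fun x => (emb x).1) bad} {c : Nat.Primes → ResidueField O}
    {G : Type} [CommGroup G] {bad' : Finset ℕ} (T : TWPart L c G bad'), T.p = S.p →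
    FrobTrace S L.L0 L.S c → ∀ U : Finset X,
      ∃ (T0 : Finset ℕ) (c0 α : ℕ → O),
        (∀ q : Nat.Primes, q ∈ T.Q → residue O (α (q : ℕ)) = residue O (T.α q)) ∧
          TWPiece S.p S.rb (T.Q.image fun q : Nat.Primes => (q : ℕ)) T0 c0 α (T.frame U).e

/-- The levels of a Taylor–Wiles set are separated by lifts which read the diamonds off inertia. -/
def DepthSeparations : Prop :=
  ∀ {O : Type} [CommRing O] [IsDomain O] [IsDiscreteValuationRing O]
    [IsAdicComplete (maximalIdeal O) O] [CharZero O] [Finite (ResidueField O)]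
    {S : Setup O} [Fact S.p.Prime] [NeZero S.p] {X : Type} [DecidableEq X] {emb : X → ↥S.Sig}
    {bad : Finset ℕ} {L : LevelSet (fun x => (emb x).1) bad} {c : Nat.Primes → ResidueField O}
    {AtP : ∀ (B : Type) [CommRing B] [IsLocalRing B] [Algebra O B], (GQ →* M2 B) → Prop}
    {r n : ℕ} (D : S.TWSet r n)
    (T : TWPart L c (DGroup S.p D.expo) (bad ∪ Finset.univ.image D.qv)) (_ : T.p = S.p)
    (_ : T.Q.image (fun q : Nat.Primes => (q : ℕ)) = Finset.univ.image D.qv)
    (ι : ℤ_[S.p] →+* O) (_ : ∀ σ, S.cyc σ = ι ((cycP S.p σ : ℤ_[S.p]ˣ) : ℤ_[S.p]))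
    (_ : Submodule.span (ResidueField O) (Set.range S.rb) = ⊤)
    (_ : ∀ σ, (S.rb σ).det = residue O (S.cyc σ)) (_ : FrobTrace S L.L0 L.S c)
    (_ : ∀ q : ℕ, q.Prime → q ∣ L.L0 → q ∈ S.T) (_ : ∀ q ∈ S.Sig, ¬ q * q ∣ L.L0)
    (_ : S.p ∈ bad) (_ : ∀ i, D.qv i ∉ S.T) (_ : Function.Injective D.qv)
    (ab : Fin r → ResidueField O)
    (_ : ∀ (i : Fin r) (q : Nat.Primes), (q : ℕ) = D.qv i → residue O (T.α q) = ab i)
    (_ : ∀ (i : Fin r) (u : (ZMod (∏ q ∈ T.Q, (q : ℕ)))ˣ),
      haveI : Fact (D.qv i).Prime := ⟨(D.prime i).1⟩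
      (ZMod.cast (u : ZMod (∏ q ∈ T.Q, (q : ℕ))) : ZMod (D.qv i)) =
        (cycK (D.qv i) (ZMod (D.qv i)) (D.s i) : ZMod (D.qv i)) →
      (∀ j, j ≠ i → (ZMod.cast (u : ZMod (∏ q ∈ T.Q, (q : ℕ))) : ZMod (D.qv j)) = 1) →
      T.κ u * dGen S.p D.expo i ^ 2 = 1)
    (U : Finset X)
    (_ : ∀ E : PiecePt ι S.rb (T.Q.image fun q : Nat.Primes => (q : ℕ)) (T.frame U).e,
      AtP (pointRing O E.R) E.r),
    ∃ sep : S.Separation emb T.depthLevels U (D.Allowed AtP),
      ∀ (i : Fin r) (j : sep.pts.J), ∃ a : sep.pts.B j, sep.pts.ε j a = ab i ∧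
        a * a - (sep.pts.r j (D.φ i)).trace * a + (sep.pts.r j (D.φ i)).det = 0 ∧
        (2 * a - (sep.pts.r j (D.φ i)).trace) * sep.ev (T.diaA U (dGen S.p D.expo i)) j =
          (sep.pts.r j (D.φ i) * sep.pts.r j (D.s i)).trace -
            ((sep.pts.r j (D.φ i)).trace - a) * (sep.pts.r j (D.s i)).trace

variable (hdp : DepthPieces) (hds : DepthSeparations)


theorem image_twQ {O : Type} [CommRing O] [IsDomain O] [IsDiscreteValuationRing O]
    [IsAdicComplete (maximalIdeal O) O] {S : Setup O} {r n : ℕ} (D : S.TWSet r n) :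
    (twQ D).image (fun q : Nat.Primes => (q : ℕ)) = Finset.univ.image D.qv := by
  ext x
  simp only [Finset.mem_image, mem_twQ, Finset.mem_univ, true_and]
  exact ⟨fun ⟨q, ⟨i, hi⟩, hx⟩ => ⟨i, hi.trans hx⟩, fun ⟨i, hi⟩ => ⟨⟨D.qv i, (D.prime i).1⟩, ⟨i, rfl⟩, hi⟩⟩

section generic

variable {O : Type} [CommRing O] [IsDomain O] [IsDiscreteValuationRing O]
  [IsAdicComplete (maximalIdeal O) O] [CharZero O] [Finite (ResidueField O)]
  {S : Setup O} [Fact S.p.Prime] {X : Type} [DecidableEq X] {emb : X → ↥S.Sig} {bad : Finset ℕ}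
  {L : LevelSet (fun x => (emb x).1) bad} {c : Nat.Primes → ResidueField O}

include hdp in
/-- The points at the levels of a Taylor–Wiles set over levels divisible once by `p` are strictly
ordinary, if the residual representation has no flat lift. -/
theorem atStrict_depthPoint {G : Type} [CommGroup G] {bad' : Finset ℕ} (T : TWPart L c G bad')
    (hTp : T.p = S.p) {ι : ℤ_[S.p] →+* O}
    (hspan : Submodule.span (ResidueField O) (Set.range S.rb) = ⊤)
    (hc : FrobTrace S L.L0 L.S c) (U : Finset X) (hpL : S.p ∣ L.lvl U) (hsqf : Squarefree L.L0)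
    (hord : ∀ A : ValuationSubring Qb, A.LiesOverPrime S.p → FA.LocalDef.IsOrdType A S.rb)
    (hnf : ∀ (O' : Type) [CommRing O'] [IsDomain O'] [IsDiscreteValuationRing O']
      [IsAdicComplete (maximalIdeal O') O'] [Algebra O O'] [IsLocalHom (algebraMap O O')]
      [Module.IsTorsionFree O O'] [Module.Finite O O'] [Module.Free O O']
      (m : GQ →* M2 (pointRing O O')), mapRep (pointRes O O') m = S.rb →
        ¬ AtFlat S.p (pointRing O O') m)
    (E : PiecePt ι S.rb (T.Q.image fun q : Nat.Primes => (q : ℕ)) (T.frame U).e) :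
    AtStrict S.p (pointRing O E.R) E.r :=
  by
  obtain ⟨T0, c0, α, -, h⟩ := hdp T hTp hc U
  exact h.atStrict_of_not_flat S.hp2 S.hpO (hpL.trans (T.base_dvd U))
    (sq_not_dvd_twLvl T U hsqf S.hp) hspan hord E.hz E.hη E.hm E.lift E.cont E.det E.trace
    (hnf E.R E.r E.lift)

include hdp in
/-- The points at the levels of a Taylor–Wiles set over levels prime to `p` are flat at `p`. -/
theorem atFlat_depthPoint {G : Type} [CommGroup G] {bad' : Finset ℕ} (T : TWPart L c G bad')
    (hTp : T.p = S.p) {ι : ℤ_[S.p] →+* O}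
    (hspan : Submodule.span (ResidueField O) (Set.range S.rb) = ⊤)
    (hc : FrobTrace S L.L0 L.S c) (hp : ¬ S.p ∣ L.L0) (U : Finset X)
    (E : PiecePt ι S.rb (T.Q.image fun q : Nat.Primes => (q : ℕ)) (T.frame U).e) :
    AtFlat S.p (pointRing O E.R) E.r := by
  obtain ⟨T0, c0, α, -, h⟩ := hdp T hTp hc U
  exact E.flat h S.hp2 S.hpO hspan fun hd => not_dvd_lvl_p L hp U
    (hTp ▸ dvd_lvl_of_dvd_twLvl T U (by rw [hTp]; exact hd))

end generic

variable {p : ℕ} [Fact p.Prime] (W W' : WeierstrassCurve ℤ)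
  [(FA.Frob.ratCurve W).IsElliptic] [(FA.Frob.ratCurve W').IsElliptic]
  {O : Type} [CommRing O] [IsDomain O] [IsDiscreteValuationRing O]
  [IsAdicComplete (maximalIdeal O) O] [Finite (ResidueField O)] [CharZero O]
  (hp2 : p ≠ 2) (hpO : (p : O) ∈ maximalIdeal O) (ι : ℤ_[p] →+* O)
  (j : ZMod p →+* ResidueField O) (P : Places) (hΔ : W.Δ ≠ 0) (hΔ' : W'.Δ ≠ 0)
  (hW : W.IsSemistableModel)

section removal

variable (hfl : (p : ℤ) ∣ W.Δ → p ∣ padicValInt p W.Δ) (N : ℕ)
  {q : ℕ} (hq : q.Prime) (hqp : q ≠ p) (hqN : q ∣ N) (hN : Squarefree N) (hpN : ¬ p ∣ N)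

local notation "SS" => remSetup W hp2 hpO ι j P hΔ hW hfl N
local notation "EE" => remEmb W hp2 hpO ι j P hΔ hW hfl N hq hqp hqN hN
local notation "LL" => remLevels W hp2 hpO ι j P hΔ hW hfl N hq hqp hqN hN hpN

include hdp hds in
/-- **The separating lifts of a removal.** -/
theorem remSep_of (hirr : W.ModRepIsIrreducible p) :
    RemSep W hp2 hpO ι j P hΔ hW hfl N hq hqp hqN hN hpN := by
  refine ⟨remBaseSep W hp2 hpO ι j P hΔ hW hfl N hq hqp hqN hN hpN hirr,
    fun r n D ab hinj _ hT _ => ?_⟩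
  intro T hTp hTQ hTα hTκ
  haveI : Fact (SS).p.Prime := ⟨(SS).hp⟩
  haveI : NeZero (SS).p := ⟨(SS).hp.ne_zero⟩
  have hspan := flatCurveSetup_span W hp2 hpO ι j P hΔ hW hfl _ (remSig_spec W N p) hirr
  have hc := frobTrace_rem W hp2 hpO ι j P hΔ hW hfl N hq hqp hqN hN hpN
  have h0 : ¬ p ∣ (LL).L0 := fun h => hpN (h.trans (Nat.div_dvd_of_dvd hqN))
  have key := fun U => hds (S := SS) (emb := EE)
    (AtP := fun B _ _ _ m => AtFlat p B m) D T hTp (by rw [hTQ]; exact image_twQ D) ι (fun _ => rfl)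
    hspan (det_remRb W hp2 hpO ι j P hΔ hW hfl N) hc (fun s hs h => (LL).mem_bad s hs h)
    (fun s hs h => ((SS).prime_Sig s hs).1.ne_one (Nat.isUnit_iff.1
      (hN s (h.trans (Nat.div_dvd_of_dvd hqN)))))
    (Finset.mem_insert_self _ _) hT hinj ab hTα hTκ U
    (fun E => atFlat_depthPoint hdp (S := SS) (emb := EE) T hTp hspan hc h0 U E)
  choose sep hsep using key
  exact ⟨sep, hsep⟩

end removal

variable {r : ℕ} (haux : LiftAux p W W' r)

local notation "SS" => pairSetup W W' hp2 hpO ι j P hΔ hW haux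
local notation "LL" => pairLevels W W' hp2 hpO ι j P hΔ hW haux

theorem squarefree_pairL0 : Squarefree (LL).L0 :=
  (squarefree_pairLevels W W' hp2 hpO ι j P hΔ hW haux ∅).squarefree_of_dvd ((LL).dvd_lvl ∅)

include hΔ' in
include hdp hds in
/-- **The separating lifts of a pair with one world at `p`.** -/
theorem pairSep_of (hirr : W.ModRepIsIrreducible p)
    (htres : (p : ℤ) ∣ W.Δ → ¬ p ∣ padicValInt p W.Δ) :
    PairSep W W' hp2 hpO ι j P hΔ hW haux := by
  refine ⟨pairBaseSep W W' hp2 hpO ι j P hΔ hΔ' hW haux hirr htres,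
    fun rr n D ab hinj _ hT _ => ?_⟩
  intro T hTp hTQ hTα hTκ
  haveI : Fact (SS).p.Prime := ⟨(SS).hp⟩
  haveI : NeZero (SS).p := ⟨(SS).hp.ne_zero⟩
  have hspan := curveSetup_span W hp2 hpO ι j P hΔ hW _ (sigSet_spec haux) hirr
  have hc := frobTrace_pair W W' hp2 hpO ι j P hΔ hΔ' hW haux
  have hsqf := squarefree_pairL0 W W' hp2 hpO ι j P hΔ hW haux
  have key := fun U => hds (S := SS)
    (emb := (Subtype.val : Rem SS r → ↥(SS).Sig)) (AtP := fun B _ _ _ m => AtWorld p W B m)
    D T hTp (by rw [hTQ]; exact image_twQ D) ι (fun _ => rfl) hspan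
    (det_pairRb W W' hp2 hpO ι j P hΔ hW haux) hc (fun s hs h => (LL).mem_bad s hs h)
    (sq_not_dvd_pairL0 W W' hp2 hpO ι j P hΔ hW haux) (Finset.mem_insert_self _ _) hT hinj ab
    hTα hTκ U (fun E => ⟨fun hbad => atStrict_depthPoint hdp (S := SS)
        (emb := (Subtype.val : Rem SS r → ↥(SS).Sig)) T hTp hspan hc U
        ((p_dvd_pairLevels_iff W W' hp2 hpO ι j P hΔ hW haux U).2 hbad) hsqf
        (fun A hA => isOrdType_mapRep_curveRep W hΔ hW hp2 hbad j A hA)
        (fun _ _ _ _ _ _ _ _ _ _ _ hr =>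
          not_atFlat_pointRing_of_tres W hΔ hW hp2 hbad (htres hbad) j hr) E,
      fun hgood => atFlat_depthPoint hdp (S := SS) (emb := (Subtype.val : Rem SS r → ↥(SS).Sig)) T hTp hspan hc
        (fun h => p_not_dvd_pairLevels W W' hp2 hpO ι j P hΔ hW haux hgood ∅
          (h.trans ((LL).dvd_lvl ∅))) U E⟩)
  choose sep hsep using key
  exact ⟨sep, hsep⟩

section union

variable (hbad : (p : ℤ) ∣ W.Δ) (hval : p ∣ padicValInt p W.Δ)

local notation "SU" => unionPairSetup W W' hp2 hpO ι j P hΔ hW hbad hval haux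
local notation "UL" => unionPairLevels W W' hp2 hpO ι j P hΔ hW hbad hval haux
local notation "UP" => unionPPart W W' hp2 hpO ι j P hΔ hW hbad hval haux

include hΔ' in
include hdp hds in
/-- **Separating lifts of the whole and of the old part at the levels of a Taylor–Wiles set of a
pair in the union.** -/
theorem unionDepthSepF (hirr : W.ModRepIsIrreducible p) {rr n : ℕ} (D : (SU).TWSet rr n)
    (ab : Fin rr → ResidueField O) (hinj : Function.Injective D.qv)
    (hT : ∀ i, D.qv i ∉ (SU).T) :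
    haveI : NeZero (SU).p := ⟨(SU).hp.ne_zero⟩
    ∀ (T : TWPart UL (sysVal W j) (DGroup (SU).p D.expo)
        (insert p (sigSet p W W' r) ∪ Finset.univ.image D.qv))
      (hneat : IsNeatOn O (GamH (UP).L0 ⊤)),
      T.p = (SU).p → T.Q = twQ D →
      (∀ (i : Fin rr) (q : Nat.Primes), (q : ℕ) = D.qv i → residue O (T.α q) = ab i) →
      (∀ (i : Fin rr) (u : (ZMod (∏ q ∈ T.Q, (q : ℕ)))ˣ),
        haveI : Fact (D.qv i).Prime := ⟨(D.prime i).1⟩
        (ZMod.cast (u : ZMod (∏ q ∈ T.Q, (q : ℕ))) : ZMod (D.qv i)) =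
          (cycK (D.qv i) (ZMod (D.qv i)) (D.s i) : ZMod (D.qv i)) →
        (∀ j, j ≠ i →
          (ZMod.cast (u : ZMod (∏ q ∈ T.Q, (q : ℕ))) : ZMod (D.qv j)) = 1) →
        T.κ u * dGen (SU).p D.expo i ^ 2 = 1) →
      ∃ (sep : ∀ U, (SU).Separation (Subtype.val : Rem SU r → ↥(SU).Sig) T.depthLevels U
          (D.Allowed (fun _ _ _ _ _ => True)))
        (sepF : ∀ U, (SU).PartSep (((UP).pLevelsD T hneat).TF U)
          (insert p (sigSet p W W' r) ∪ Finset.univ.image D.qv)
          fun B _ _ _ m => D.Allowed (fun _ _ _ _ _ => True) B m ∧ AtFlat p B m),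
        (∀ U (i : Fin rr) (j : (sep U).pts.J), ∃ a : (sep U).pts.B j, (sep U).pts.ε j a = ab i ∧
          a * a - ((sep U).pts.r j (D.φ i)).trace * a + ((sep U).pts.r j (D.φ i)).det = 0 ∧
          (2 * a - ((sep U).pts.r j (D.φ i)).trace) *
              (sep U).ev (T.diaA U (dGen (SU).p D.expo i)) j =
            ((sep U).pts.r j (D.φ i) * (sep U).pts.r j (D.s i)).trace -
              (((sep U).pts.r j (D.φ i)).trace - a) * ((sep U).pts.r j (D.s i)).trace) ∧
        ∀ U, Setup.DiaRel D ab (sepF U).pts fun i =>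
          (sepF U).ev (((UP).oldTW T hneat).dia U (dGen (SU).p D.expo i)) := by
  intro T hneat hTp hTQ hTα hTκ
  haveI : Fact (SU).p.Prime := ⟨(SU).hp⟩
  haveI : NeZero (SU).p := ⟨(SU).hp.ne_zero⟩
  have hspan := unionCurveSetup_span W hp2 hpO ι j P hΔ hW hbad hval _ (sigSet_spec haux) hirr
  have hQ : T.Q.image (fun q : Nat.Primes => (q : ℕ)) = Finset.univ.image D.qv := by
    rw [hTQ]; exact image_twQ D
  have key := fun U => hds (S := SU)
    (emb := (Subtype.val : Rem SU r → ↥(SU).Sig)) (AtP := fun _ _ _ _ _ => True)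
    D T hTp hQ ι (fun _ => rfl) hspan
    (det_unionPairRb W W' hp2 hpO ι j P hΔ hW haux hbad hval)
    (frobTrace_union W W' hp2 hpO ι j P hΔ hΔ' hW haux hbad hval)
    (fun s hs h => (UL).mem_bad s hs h)
    (fun s hs => sq_not_dvd_pairL0 W W' hp2 hpO ι j P hΔ hW haux s hs)
    (Finset.mem_insert_self _ _) hT hinj ab hTα hTκ U (fun _ => trivial)
  choose sep hsep using key
  let T' := (UP).oldTW T hneat
  have hc' := frobTrace_union W W' hp2 hpO ι j P hΔ hΔ' hW haux hbad hval (L0 := (UP).old.L0)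
  have keyF := fun U => hds (S := SU)
    (emb := (Subtype.val : Rem SU r → ↥(SU).Sig)) (AtP := fun B _ _ _ m => AtFlat p B m)
    D T' hTp hQ ι (fun _ => rfl) hspan
    (det_unionPairRb W W' hp2 hpO ι j P hΔ hW haux hbad hval) hc'
    (fun s hs h => (UP).old.mem_bad s hs h)
    (fun s hs h => sq_not_dvd_pairL0 W W' hp2 hpO ι j P hΔ hW haux s hs
      (h.trans (by show _ ∣ (UL).L0; rw [(UP).eq]; exact dvd_mul_right _ _)))
    (Finset.mem_insert_self _ _) hT hinj ab hTα hTκ U
    (fun E => atFlat_depthPoint hdp (S := SU) (emb := (Subtype.val : Rem SU r → ↥(SU).Sig)) T' hTp hspan hc' (UP).not_dvd U E)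
  choose sF hsF using keyF
  exact ⟨sep, fun U =>
    { pts := (sF U).pts
      ev := (sF U).ev
      ev_injective := (sF U).ev_injective
      good := fun i => ⟨⟨((sF U).good i).1, ((sF U).good i).2.1, trivial⟩, ((sF U).good i).2.2⟩
      ev_T := fun ℓ hℓ hb => (sF U).ev_T ℓ hℓ (Or.inl hb) },
    hsep, hsF⟩

end union


section unionAll

variable (hbad : (p : ℤ) ∣ W.Δ) (hval : p ∣ padicValInt p W.Δ)

local notation "SU" => unionPairSetup W W' hp2 hpO ι j P hΔ hW hbad hval haux
local notation "UL" => unionPairLevels W W' hp2 hpO ι j P hΔ hW hbad hval haux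
local notation "UP" => unionPPart W W' hp2 hpO ι j P hΔ hW hbad hval haux

include hΔ' in
include hdp hds in
/-- **The separating lifts of a pair in the union of two worlds at `p`.** -/
theorem unionSep_of (hirr : W.ModRepIsIrreducible p) :
    UnionSep W W' hp2 hpO ι j P hΔ hW haux hbad hval := by
  refine ⟨unionBaseSep W W' hp2 hpO ι j P hΔ hΔ' hW haux hbad hval hirr,
    unionBaseSepF W W' hp2 hpO ι j P hΔ hΔ' hW haux hbad hval hirr,
    unionBaseSepS W W' hp2 hpO ι j P hΔ hΔ' hW hbad hval haux hirr,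
    fun rr n D ab hinj _ hT hab => ?_⟩
  intro T hneat hTp hTQ hTα hTκ
  haveI : Fact (SU).p.Prime := ⟨(SU).hp⟩
  haveI : NeZero (SU).p := ⟨(SU).hp.ne_zero⟩
  have f0 := unionDepthSepF hdp hds W W' hp2 hpO ι j P hΔ hΔ' hW haux hbad hval hirr D ab hinj hT T hneat
  have f1 := f0 hTp hTQ
  have f2 := f1 hTα
  have f3 := f2 hTκ
  obtain ⟨sep, sepF, hsep, hsepF⟩ := f3
  have hpiece : ∀ U, ∃ (T0 : Finset ℕ) (c0 α : ℕ → O),
      (∀ i, residue O (α (D.qv i)) = ab i) ∧
        TWPiece p (SU).rb (T.Q.image fun q : Nat.Primes => (q : ℕ)) T0 c0 α (T.frame U).e := by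
    intro U
    obtain ⟨T0, c0, α, hα, h⟩ := hdp (S := SU)
      (emb := (Subtype.val : Rem SU r → ↥(SU).Sig)) T hTp
      (frobTrace_union W W' hp2 hpO ι j P hΔ hΔ' hW haux hbad hval) U
    refine ⟨T0, c0, α, fun i => ?_, h⟩
    have hq : (⟨D.qv i, (D.prime i).1⟩ : Nat.Primes) ∈ T.Q := by
      rw [hTQ]; exact (mem_twQ D).2 ⟨i, rfl⟩
    exact (hα _ hq).trans (hTα i _ rfl)
  have e0 := unionDepthSepS W W' hp2 hpO ι j P hΔ hW hbad hval haux hirr D ab
    hinj hT hab T hneat hTp hTQ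
  have e1 := e0 hTκ
  have e2 := e1 hpiece
  obtain ⟨sepS, hsepS⟩ := e2
  exact ⟨sep, sepF, sepS, hsep, hsepF, hsepS⟩

end unionAll

include hdp hds in
/-- **Separating lifts exist for every removal.** -/
theorem remSeps_of : RemSeps := by
  intro P _ O _ _ _ _ _ _ hp2 hpO _ ι j Pl hirr _ N q hq hqp hqN hN hpN
  exact remSep_of hdp hds P.freyCurveInt hp2 hpO ι j Pl _ _ _ N hq hqp hqN hN hpN (freyInt_irreducible P hirr)

include hdp hds in
/-- **Separating lifts exist for every pair with one world at `p`.** -/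
theorem pairSeps_of : PairSeps := by
  intro p _ W W' _ _ O _ _ _ _ _ _ hp2 hpO _ ι j P hΔ hΔ' hW _ r haux hirr _ _ htres _
  exact pairSep_of hdp hds W W' hp2 hpO ι j P hΔ hΔ' hW haux hirr htres

include hdp hds in
/-- **Separating lifts exist for every pair in the union of two worlds at `p`.** -/
theorem unionSeps_of : UnionSeps := by
  intro p _ W W' _ _ O _ _ _ _ _ _ hp2 hpO _ ι j P hΔ hΔ' hW _ hbad hval _ r haux hirr _ _
  exact unionSep_of hdp hds W W' hp2 hpO ι j P hΔ hΔ' hW haux hbad hval hirr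

end FA.Root

end
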