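import Fermat.Agent.Root.Final
import Fermat.Agent.Root.LiftOddSeps
import Fermat.Agent.Root.RemovalGlue
import Fermat.Agent.Root.RemovalAtP
import Fermat.Agent.Root.LiftTwoEnd
import Fermat.Agent.Root.SepsAll
import Fermat.Agent.Two.CurveApprox

/-!
# The last inputs

Fermat's Last Theorem follows from the pieces and separations at depth and the depth algebras at
`p = 2`.
-/

set_option autoImplicit false
set_option linter.style.haveILetI false

noncomputable section

open IsLocalRing WeierstrassCurve

namespace FA.Root

local notation "Qb" => AlgebraicClosure ℚ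

/-- The depth algebras at `2` exist for every setting of a curve. -/
def DepthAlgs : Prop :=
  ∀ (W : WeierstrassCurve ℤ) [(FA.Frob.ratCurve W).IsElliptic] (hW : FA.Two.IsSwitchCurve W)
    (O : Type) [CommRing O] [IsDomain O] [IsDiscreteValuationRing O]
    [IsAdicComplete (maximalIdeal O) O] [CharZero O] [CharP (ResidueField O) 2]
    [Fintype (ResidueField O)] [Algebra Qb ℂ] [Fact (Nat.Prime 2)], (2 : O) ∈ maximalIdeal O →
    ∀ (N : ℕ) (B : FA.RT.Tate.TateBasis 2 W) (avoid : Finset ℕ)
      (C : FA.Two.CurveBase W O N B avoid), C.HasDepthAlg hW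

/-- Approximate eigenfunctionals from the depth algebras. -/
theorem approx_of (h : DepthAlgs) : FA.Two.Approx := by
  intro W _ hW O _ _ _ _ _ _ _ hω h2 _ ι N B avoid C
  haveI : Fact (Nat.Prime 2) := ⟨Nat.prime_two⟩
  exact C.exists_approx hω hW h2 ι (h W hW O h2 N B avoid C)

variable (hdp : DepthPieces) (hds : DepthSeparations)

include hdp hds in
/-- **Removal of a prime `q ≠ p`.** -/
theorem removal_ne_last (P : FreyPackage) {N q : ℕ} (hcond : P.IsConductorLevel N) (hq : q.Prime)
    (hqp : q ≠ P.p) (hqN : q ∣ N)
    (hirr : Affine.Point.GaloisRepIsIrreducible (K := Qb) ℚ P.freyCurve P.p)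
    (hmod : P.ModularRepOfLevel N) (hunr : P.GaloisRepUnramifiedAt q) :
    ∃ M : ℕ, M ∣ N ∧ ¬ q ∣ M ∧ P.ModularRepOfLevel M :=
  removal_ne (remTowers_of (remSeps_of hdp hds)) removalAtP P hcond hq hqp hqN hirr hmod hunr

variable (h2 : DepthAlgs)

include hdp hds h2 in
/-- The Frey curve is modular. -/
theorem frey_isModular_last (P : FreyPackage) : P.freyCurve.IsModular :=
  frey_isModular_final (liftTwo_of (approx_of h2)) (pairTowers_of (pairSeps_of hdp hds))
    (unionTowers_of (unionSeps_of hdp hds)) P

include hdp hds h2 in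
/-- The Frey representation is modular of a conductor level. -/
theorem modularRepOfConductorLevel_last (P : FreyPackage) :
    ∃ N : ℕ, P.IsConductorLevel N ∧ P.ModularRepOfLevel N :=
  modularRepOfConductorLevel_final (liftTwo_of (approx_of h2))
    (pairTowers_of (pairSeps_of hdp hds)) (unionTowers_of (unionSeps_of hdp hds)) P

include hdp hds h2 in
/-- There is no Frey package. -/
theorem false_of_freyPackage_last (P : FreyPackage) : False :=
  false_of_freyPackage_final (liftTwo_of (approx_of h2)) (pairTowers_of (pairSeps_of hdp hds))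
    (unionTowers_of (unionSeps_of hdp hds)) (remTowers_of (remSeps_of hdp hds)) removalAtP P

include hdp hds h2 in
/-- **Fermat's Last Theorem.** -/
theorem flt_last (n : ℕ) (hn : 3 ≤ n) (a b c : ℕ) (ha : 0 < a) (hb : 0 < b) (hc : 0 < c) :
    a ^ n + b ^ n ≠ c ^ n :=
  flt_final (liftTwo_of (approx_of h2)) (pairTowers_of (pairSeps_of hdp hds))
    (unionTowers_of (unionSeps_of hdp hds)) (remTowers_of (remSeps_of hdp hds)) removalAtP
    n hn a b c ha hb hc

end FA.Root

end
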