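import Fermat.Agent.Root.SepsAll

/-!
# The levels of a Taylor–Wiles set are pieces

The idempotent of a level of a Taylor–Wiles set cuts out a piece of the residual system with the
chosen roots at the Taylor–Wiles primes, free over the group ring of the diamonds.
-/

set_option autoImplicit false
set_option linter.style.haveILetI false
set_option linter.unusedSectionVars false
set_option maxHeartbeats 1000000
set_option synthInstance.maxHeartbeats 200000

noncomputable section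

open IsLocalRing Matrix FA.RT FA.HeckeH1

namespace FA.Root

variable {O : Type} [CommRing O] [IsDomain O] [IsDiscreteValuationRing O]
  [IsAdicComplete (maximalIdeal O) O] [CharZero O] [Finite (ResidueField O)]
  {X : Type} [DecidableEq X] {qn : X → ℕ} {bad : Finset ℕ} {L : LevelSet qn bad}
  {c : Nat.Primes → ResidueField O} {G : Type} [CommGroup G] {bad' : Finset ℕ}
  (T : TWPart L c G bad') (U : Finset X)

/-- Units congruent to one at the primes of the set are in the subgroup of the level. -/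
theorem mem_H_twPart (u : (ZMod (T.lvl U))ˣ)
    (hu : ∀ q ∈ T.Q.image (fun q : Nat.Primes => (q : ℕ)),
      (ZMod.cast (u : ZMod (T.lvl U)) : ZMod q) = 1) : u ∈ T.H U := by
  haveI : NeZero (∏ q ∈ T.Q, (q : ℕ)) := T.prodQ_neZero
  have hd : T.prodQ ∣ T.lvl U := dvd_mul_left _ _
  refine MonoidHom.mem_ker.2 ?_
  show T.κ (ZMod.unitsMap hd u) = 1
  have h1 : ZMod.unitsMap hd u = 1 := by
    refine Units.ext ?_
    rw [Units.val_one, ← sub_eq_zero, ← ZMod.natCast_zmod_val ((ZMod.unitsMap hd u : ZMod T.prodQ) - 1),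
      ZMod.natCast_eq_zero_iff]
    have himg : T.prodQ = ∏ q ∈ T.Q.image (fun q : Nat.Primes => (q : ℕ)), q :=
      (Finset.prod_image (f := fun x : ℕ => x) (g := fun q : Nat.Primes => (q : ℕ))
        fun _ _ _ _ h => Subtype.ext h).symm
    conv_lhs => rw [himg]
    refine Finset.prod_primes_dvd _ (fun q hq => ?_) (fun q hq => ?_)
    · obtain ⟨s, -, rfl⟩ := Finset.mem_image.1 hq
      exact s.2.prime
    · have hqP : q ∣ T.prodQ := himg ▸ Finset.dvd_prod_of_mem _ hq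
      rw [← ZMod.natCast_eq_zero_iff, ← map_natCast (ZMod.castHom hqP (ZMod q)),
        ZMod.natCast_zmod_val, map_sub, map_one, sub_eq_zero, ZMod.unitsMap_val,
        ← ZMod.castHom_apply (h := hd), ← RingHom.comp_apply, ZMod.castHom_comp]
      exact (ZMod.castHom_apply _).trans (hu q hq)
  rw [h1]
  exact map_one T.κ

/-- The roots as functions of natural numbers. -/
def twRoot (q : ℕ) : O := if h : q.Prime then T.α ⟨q, h⟩ else 0

theorem twRoot_apply (q : Nat.Primes) : twRoot T (q : ℕ) = T.α q := dif_pos q.2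

theorem twFrame_comm (a : pairAlg (T.lvl U) (T.H U) O) (v : Hom1 (GamH (T.lvl U) (T.H U)) O) :
    fullOp (T.lvl U) (T.H U) O a ((T.frame U).e v) =
      (T.frame U).e (fullOp (T.lvl U) (T.H U) O a v) := by
  obtain ⟨x, hx, e⟩ := T.frame_e_mem U
  rw [← e]
  exact LinearMap.congr_fun (congrArg Prod.fst (setLike_mul_comm a.2 hx)) v

theorem twFrame_mem_Par (v : Hom1 (GamH (T.lvl U) (T.H U)) O) :
    (T.frame U).e v ∈ Par (GamH (T.lvl U) (T.H U)) O := by
  by_cases h : HasSys L.S c (L.lvl U)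
  swap
  · rw [T.frame_of_not U h]
    exact zero_mem _
  rw [T.frame_e_of U h]
  refine (T.tw U h).mem_Par (fun q hq => T.Q_dvd U hq) (fun N hN => ?_) v
  obtain ⟨ℓ, h1, h2, h3⟩ := T.nonEis (N * ∏ s ∈ L.S, (s : ℕ))
    (mul_ne_zero hN (Finset.prod_ne_zero_iff.2 fun s _ => s.2.ne_zero))
  refine ⟨ℓ, fun hd => h1 (hd.mul_right _), ?_, ?_⟩
  · simpa using congrArg (ZMod.castHom (dvd_mul_right N (∏ s ∈ L.S, (s : ℕ))) (ZMod N)) h2
  · rw [T.chi₀_spec U h ℓ fun hs => h1 ((Finset.dvd_prod_of_mem _ hs).mul_left N)]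
    exact h3

/-- A residual value in the kernel is nilpotent on the piece. -/
theorem twFrame_nilp (a : pairAlg (T.lvl U) (T.H U) O)
    (h : ∀ hs : HasSys L.S c (L.lvl U), ∃ x : pairAway (T.lvl U) (T.H U) O L.S,
      incl (T.lvl U) (T.H U) O L.S x = a ∧ (T.tw U hs).χ x = 0) :
    Nilp (T.frame U).e a := by
  by_cases hs : HasSys L.S c (L.lvl U)
  swap
  · refine ⟨0, fun v => ?_⟩
    rw [T.frame_of_not U hs]
    simp [Frame.zero]
  obtain ⟨x, hx, hx0⟩ := h hs
  have := pairAlg_finite (M := T.lvl U) (H := T.H U) (O := O)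
  have := pairAway_finite (T.lvl U) (T.H U) O L.S
  refine nilp_of_piece (T.tw U hs).piece
    ((AlgHom.fst O _ _).comp (pairAway (T.lvl U) (T.H U) O L.S).val) (x := x) ?_ ?_ hx0
  · exact (T.frame_e_of U hs).symm
  · rw [← hx]
    rfl

/-- The diamonds are the basis of the group ring. -/
def twBasis : Module.Basis ((ZMod (T.lvl U))ˣ ⧸ T.H U) O (MonoidAlgebra O G) :=
  (MonoidAlgebra.basis ((ZMod (T.lvl U))ˣ ⧸ T.H U) O).map (T.toQuot U).symm.toLinearEquiv

theorem rho_twBasis (g : (ZMod (T.lvl U))ˣ ⧸ T.H U) :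
    T.rho U (twBasis T U g) = diaHom (T.lvl U) (T.H U) O g := by
  rw [← T.lift_toQuot U]
  simp [twBasis]

end FA.Root

namespace FA.Root

open FA.TW

/-- **The levels of a Taylor–Wiles set are pieces.** -/
theorem depthPieces : DepthPieces := by
  intro O _ _ _ _ _ _ S _ X _ emb bad L c G _ bad' T hTp hc U
  classical
  haveI := T.charP
  refine ⟨insert S.p ((T.lvl U).primeFactors ∪ L.S.image Subtype.val), liftVal c, twRoot T,
    fun q _ => by rw [twRoot_apply], ?_⟩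
  have hQmem : ∀ {ℓ : Nat.Primes}, (ℓ : ℕ) ∉ insert S.p ((T.lvl U).primeFactors ∪
      L.S.image Subtype.val) → ℓ ∉ L.S ∧ ℓ ∉ T.Q ∧ ¬ (ℓ : ℕ) ∣ T.lvl U := fun {ℓ} h => by
    have hd : ¬ (ℓ : ℕ) ∣ T.lvl U := fun hd => h (Finset.mem_insert_of_mem
      (Finset.mem_union_left _ (Nat.mem_primeFactors.2 ⟨ℓ.2, hd, NeZero.ne _⟩)))
    exact ⟨fun hs => h (Finset.mem_insert_of_mem (Finset.mem_union_right _
      (Finset.mem_image.2 ⟨_, hs, rfl⟩))), fun hq => hd (T.Q_dvd U hq), hd⟩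
  refine ⟨fun q hq => ?_, fun q hq => ?_, mem_H_twPart T U, ?_, ?_, (T.frame U).e_e,
    twFrame_comm T U, twFrame_mem_Par T U, fun ℓ hℓ h => ?_, fun ℓ hℓ hℓT A hA σ hσ => ?_,
    fun ℓ hℓ => twFrame_nilp T U _ fun hs => ?_, fun x => twFrame_nilp T U _ fun hs => ?_,
    fun q hq => twFrame_nilp T U _ fun hs => ?_, ?_⟩
  · obtain ⟨s, hs, rfl⟩ := Finset.mem_image.1 hq
    refine ⟨s.2, T.Q_dvd U hs, fun hd => ?_⟩
    change (s : ℕ) * s ∣ L.lvl U * ∏ q ∈ T.Q, (q : ℕ) at hd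
    rw [← Finset.mul_prod_erase _ _ hs, mul_left_comm] at hd
    rcases s.2.dvd_mul.1 (Nat.dvd_of_mul_dvd_mul_left s.2.pos hd) with h | h
    · exact T.Q_not_dvd U hs h
    · obtain ⟨t, ht, hd⟩ := (Prime.dvd_finsetProd_iff s.2.prime _).1 h
      exact (Finset.mem_erase.1 ht).1
        (Subtype.ext ((Nat.prime_dvd_prime_iff_eq s.2 t.2).1 hd)).symm
  · obtain ⟨s, hs, rfl⟩ := Finset.mem_image.1 hq
    rw [← hTp, ← CharP.cast_eq_zero_iff (ResidueField O) T.p, Nat.cast_sub s.2.one_le, T.q_one s hs,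
      Nat.cast_one, sub_self]
  · show (-1 : (ZMod (T.lvl U))ˣ) ∈ (T.κU U).ker
    rw [MonoidHom.mem_ker, TWPart.κU, MonoidHom.comp_apply]
    convert T.neg_one
    exact Units.ext (by simp [ZMod.unitsMap])
  · exact hTp ▸ isPGroup_quotient_ker (T.κU_surjective U) T.isPGroup
  · rcases h with h | rfl
    · exact Finset.mem_insert_of_mem (Finset.mem_union_left _
        (Nat.mem_primeFactors.2 ⟨hℓ, h, NeZero.ne _⟩))
    · exact Finset.mem_insert_self _ _
  · obtain ⟨hS, -, hd⟩ := hQmem (ℓ := ⟨ℓ, hℓ⟩) hℓT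
    rw [residue_liftVal c ⟨ℓ, hℓ⟩]
    exact hc ⟨ℓ, hℓ⟩ hS (fun e => hℓT (e ▸ Finset.mem_insert_self _ _))
      (fun h => hd (h.trans ((L.dvd_lvl U).trans (T.base_dvd U)))) A hA σ hσ
  · obtain ⟨hS, hQ, -⟩ := hQmem hℓ
    refine ⟨Tp (T.lvl U) (T.H U) O L.S ℓ - algebraMap O _ (liftVal c ℓ), ?_, ?_⟩
    · rw [map_sub, AlgHom.commutes, Tp_incl _ _ _ _ hS]
    · rw [map_sub, AlgHom.commutes, (T.tw U hs).χ_T ℓ hQ, T.chi₀_spec U hs ℓ hS,
        ResidueField.algebraMap_eq, residue_liftVal, sub_self]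
  · exact ⟨diaP (T.lvl U) (T.H U) O L.S x - 1, by rw [map_sub, map_one]; rfl,
      by rw [map_sub, map_one, (T.tw U hs).χ_dia, sub_self]⟩
  · obtain ⟨s, hsQ, hsq⟩ := Finset.mem_image.1 hq
    obtain rfl : s = q := Subtype.ext hsq
    refine ⟨Tp (T.lvl U) (T.H U) O L.S s - algebraMap O _ (twRoot T s), ?_, ?_⟩
    · rw [map_sub, AlgHom.commutes, Tp_incl _ _ _ _ (T.notMem_S s hsQ)]
    · rw [map_sub, AlgHom.commutes, (T.tw U hs).χ_U s hsQ, ResidueField.algebraMap_eq, twRoot_apply,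
        sub_self]
  · exact exists_free_of_frame (T.frame U) (twBasis T U) (rho_twBasis T U)

end FA.Root

end
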