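import Fermat.Agent.Root.DepthPieces

/-!
# Separating lifts at the levels of a Taylor–Wiles set

The lifts of the points of the pieces separate the algebras of the levels, take the Hecke elements
to traces and read the diamonds off inertia at the Taylor–Wiles primes.
-/

set_option autoImplicit false
set_option linter.style.haveILetI false
set_option linter.unusedSectionVars false
set_option maxHeartbeats 3000000
set_option synthInstance.maxHeartbeats 200000

noncomputable section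

open IsLocalRing Matrix FA.RT FA.TW FA.HeckeH1 FA.Deform
open FA.JTorsion (cycP cycK cycP_frobenius)

namespace FA.Root

local notation "M2" => Matrix (Fin 2) (Fin 2)
local notation "Qb" => AlgebraicClosure ℚ
local notation "GQ" => AlgebraicClosure ℚ ≃ₐ[ℚ] AlgebraicClosure ℚ

/-- The Hecke elements of the levels are the twisted elements of the pieces. -/
theorem TD_val_twT {O : Type} [CommRing O] [IsDomain O] [IsDiscreteValuationRing O]
    [IsAdicComplete (maximalIdeal O) O] [CharZero O] [Finite (ResidueField O)] {X : Type}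
    [DecidableEq X] {qn : X → ℕ} {bad : Finset ℕ} {L : LevelSet qn bad}
    {c : Nat.Primes → ResidueField O} {G : Type} [CommGroup G] {bad' : Finset ℕ}
    (T : TWPart L c G bad') (U : Finset X)
    (hodd : Odd (Nat.card ((ZMod (T.lvl U))ˣ ⧸ T.H U))) {ℓ : ℕ} (hℓ : ℓ.Prime)
    (hM : ¬ ℓ ∣ T.lvl U) (hcore : ℓ ∈ L.core) :
    (T.TD U ℓ).1 = twT (T.frame U).e ⟨ℓ, hℓ, hM⟩ := by
  rw [T.TD_eq U hℓ hM hcore, T.dia_val, twT, mk_gpUnit_pow_halfExp T U hodd,
    map_inv (T.iota U).symm]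

/-- **The levels of a Taylor–Wiles set have separating lifts.** -/
theorem depthSeparations : DepthSeparations := by
  intro O _ _ _ _ _ _ S _ _ X _ emb bad L c AtP r n D T hTp hQ ι hcyc hspan hdet hc hT hsq hpbad
    hD hinj ab hab hκ U hAt
  classical
  obtain ⟨T0, c0, α, hα, h⟩ := depthPieces T hTp hc U
  have hQD : ∀ q : Nat.Primes, q ∈ T.Q ↔ ∃ i, D.qv i = (q : ℕ) := fun q => by
    constructor
    · intro hq
      obtain ⟨i, -, hi⟩ := Finset.mem_image.1 (hQ ▸ Finset.mem_image_of_mem _ hq)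
      exact ⟨i, hi⟩
    · rintro ⟨i, hi⟩
      obtain ⟨s, hs, hsq'⟩ := Finset.mem_image.1 (hQ.symm ▸
        Finset.mem_image_of_mem D.qv (Finset.mem_univ i) : D.qv i ∈ T.Q.image _)
      exact (Subtype.ext (hsq'.trans hi) : s = q) ▸ hs
  have hQn : ∀ q : ℕ, q ∈ T.Q.image (fun q : Nat.Primes => (q : ℕ)) ↔ ∃ i, D.qv i = q :=
    fun q => by rw [hQ]; simp
  obtain ⟨P⟩ := h.exists_pieceSep S.hp2 S.hpO ι hcyc S.rb_open hspan hdet
    (coreAlg (T.frame U).e L.core).val Subtype.val_injective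
    (Or.inl fun a => coreAlg_le_goodAway _ (fun hp => by
      obtain ⟨x, hx⟩ := hp hpbad
      exact (S.prime_Sig _ (emb x).2).2 hx) a.2) (Good := AtP) hAt
  have hT' : ∀ q : ℕ, q.Prime → q ∣ T.lvl U → q ∈ S.T ∪ Finset.univ.image D.qv := fun q hq hd => by
    rcases hq.dvd_mul.1 hd with hd | hd
    · rcases L.prime_dvd_lvl hq hd with hd | ⟨x, -, e⟩
      · exact Finset.mem_union_left _ (hT q hq hd)
      · exact Finset.mem_union_left _ (e ▸ Finset.mem_insert_of_mem (emb x).2)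
    · obtain ⟨s, hs, hd⟩ := (Prime.dvd_finsetProd_iff hq.prime _).1 hd
      obtain ⟨i, hi⟩ := (hQD s).1 hs
      exact Finset.mem_union_right _ (Finset.mem_image.2
        ⟨i, Finset.mem_univ i, hi.trans ((Nat.prime_dvd_prime_iff_eq hq s.2).1 hd).symm⟩)
  have hSig : ∀ q ∈ S.Sig, ¬ q * q ∣ T.lvl U := fun q hq hd => by
    refine sq_not_dvd_lvl L hsq U hq (Nat.Coprime.dvd_of_dvd_mul_right ?_ hd)
    have hc1 : q.Coprime T.prodQ := (S.prime_Sig q hq).1.coprime_iff_not_dvd.2 fun hd => by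
      obtain ⟨s, hs, hd⟩ := (Prime.dvd_finsetProd_iff (S.prime_Sig q hq).1.prime _).1 hd
      obtain ⟨i, hi⟩ := (hQD s).1 hs
      exact hD i (Finset.mem_insert_of_mem
        ((hi.trans ((Nat.prime_dvd_prime_iff_eq (S.prime_Sig q hq).1 s.2).1 hd).symm).symm ▸ hq))
    exact Nat.Coprime.mul_left hc1 hc1
  have hold : ∀ x, x ∉ U → ¬ (emb x).1 ∣ T.lvl U := fun x hx hd => by
    rcases (L.prime x).dvd_mul.1 hd with hd | hd
    · exact L.qn_not_dvd hx hd
    · exact (L.prime x).coprime_iff_not_dvd.1 (T.qn_coprime x) hd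
  have hgood : ∀ ℓ : ℕ, ℓ.Prime →
      (ℓ ∉ bad ∪ Finset.univ.image D.qv ∨ ∃ x, x ∉ U ∧ ℓ = (emb x).1) →
      ¬ ℓ ∣ T.lvl U ∧ ℓ ≠ S.p ∧ ℓ ∈ L.core := fun ℓ hℓ hb => by
    rcases hb with hb | ⟨x, hx, rfl⟩
    · exact ⟨T.not_dvd_of_not_bad hℓ hb U, fun e => hb (Finset.mem_union_left _ (e ▸ hpbad)),
        L.core_of_not_bad fun h => hb (Finset.mem_union_left _ h)⟩
    · exact ⟨hold x hx, (S.prime_Sig _ (emb x).2).2, L.qn_mem_core x⟩
  have hev : ∀ ℓ : ℕ, ℓ.Prime →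
      (ℓ ∉ bad ∪ Finset.univ.image D.qv ∨ ∃ x, x ∉ U ∧ ℓ = (emb x).1) →
      ∀ A : ValuationSubring Qb, A.LiesOverPrime ℓ → ∀ σ : GQ, A.IsFrobeniusAt σ ℓ →
        ∀ j, P.ev (T.TD U ℓ) j = (P.pts.r j σ).trace := fun ℓ hℓ hb A hA σ hσ j => by
    have hg := hgood ℓ hℓ hb
    have hM := hg.1
    have hp := hg.2.1
    have hcore := hg.2.2
    have ha := TD_val_twT T U (h.odd_card S.hp2) hℓ hM hcore
    exact P.ev_twT ⟨ℓ, hℓ, hM⟩ (T.TD U ℓ) ha hp A hA σ hσ j
  have hline : ∀ (i : Fin r) (j : P.pts.J), ∃ a : P.pts.B j, P.pts.ε j a = ab i ∧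
      a * a - (P.pts.r j (D.φ i)).trace * a + (P.pts.r j (D.φ i)).det = 0 ∧
      (2 * a - (P.pts.r j (D.φ i)).trace) * P.ev (T.dia U (dGen S.p D.expo i)) j =
        (P.pts.r j (D.φ i) * P.pts.r j (D.s i)).trace -
          ((P.pts.r j (D.φ i)).trace - a) * (P.pts.r j (D.s i)).trace := fun i j => by
    haveI : Fact (D.qv i).Prime := ⟨(D.prime i).1⟩
    have hiQ : D.qv i ∈ T.Q.image (fun q : Nat.Primes => (q : ℕ)) := (hQn _).2 ⟨i, rfl⟩
    have hq : (⟨D.qv i, (D.prime i).1⟩ : Nat.Primes) ∈ T.Q := (hQD _).2 ⟨i, rfl⟩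
    have hai : residue O (α (D.qv i)) = ab i := (hα _ hq).trans (hab i _ rfl)
    have hroot : ab i ^ 2 - (S.rb (D.φ i)).trace * ab i + (S.rb (D.φ i)).det = 0 := by
      have h1 := T.root _ hq
      rw [hab i ⟨D.qv i, (D.prime i).1⟩ rfl, hc _ (T.notMem_S _ hq) (D.prime i).2 (T.not_dvd _ hq) _
        (S.P.liesOver _ (D.prime i).1) _ (D.φ_spec i)] at h1
      rw [hdet, hcyc, cycP_frobenius S.p (D.prime i).1 (D.prime i).2
        (S.P.liesOver _ (D.prime i).1) (D.φ_spec i), map_natCast, map_natCast]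
      exact h1
    have k1 := exists_tameUnit S T D hinj hQD hQn U
    have k2 := k1 (fun q hq => h.exact q hq)
    have k3 := k2 (h.odd_card S.hp2)
    have k4 := k3 (fun i => dGen S.p D.expo i)
    have k5 := k4 hκ
    have k6 := k5 i
    obtain ⟨u, hu, hu', hu''⟩ := k6
    have ha := (T.dia_val U (dGen S.p D.expo i)).trans
      (congrArg (goodDia (T.frame U).e) hu''.symm)
    have l1 := P.line j (D.qv i) hiQ _ (S.P.liesOver _ (D.prime i).1) (D.φ i) (D.φ_spec i)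
      (D.s i) (D.s i).2 (D.unramified i)
    have l2 := l1 (by rw [hai]; exact hroot) (D.regular i) u hu hu'
    have l3 := l2 (T.dia U (dGen S.p D.expo i)) ha
    obtain ⟨a, ha1, ha2, ha3⟩ := l3
    exact ⟨a, ha1.trans hai, ha2, ha3⟩
  refine ⟨{
    pts := P.pts
    ev := P.ev
    ev_injective := P.ev_injective
    good := fun j => ⟨fun q hq hqT => ?_, fun q => ?_, P.good j⟩
    ev_T := hev
    tame_old := fun x hx j => P.unr j _ (L.prime x) (hold x hx) (S.prime_Sig _ (emb x).2).2 _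
      (S.P.liesOver _ (S.prime_Sig _ (emb x).2).1) _ (S.tame_mem (emb x)) }, hline⟩
  · exact P.unr j q hq (fun hd => hqT (hT' q hq hd))
      (fun e => hqT (Finset.mem_union_left _ (e ▸ S.p_mem_T)))
  · obtain ⟨q, hq⟩ := q
    refine P.tame j q (S.prime_Sig q hq).1 (S.prime_Sig q hq).2 (fun hqQ => ?_) (hSig q hq) _
      (S.P.liesOver _ (S.prime_Sig q hq).1) _ (S.tame_mem ⟨q, hq⟩)
    obtain ⟨i, hi⟩ := (hQn q).1 hqQ
    exact hD i (hi ▸ Finset.mem_insert_of_mem hq)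

end FA.Root

end
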