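import Fermat.Agent.Root.LFunctionCoeffs
import Fermat.Agent.Root.LFunctionNewform
import Fermat.Agent.Root.Semistable.Modular
import Fermat.Agent.Root.LFunctionBad

/-!
# The L-function of a semistable elliptic curve is that of a newform

For an elliptic curve over `ℚ` with good or multiplicative reduction at every prime there is a
newform of weight two, of level the squarefree product `N` of the bad primes, all of whose
coefficients are those of Mathlib's `WeierstrassCurve.LFunction`.
-/

set_option autoImplicit false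

noncomputable section

namespace FA.Root

open WeierstrassCurve
open FA.Theta (badProd)

/-- **Modularity of semistable elliptic curves over `ℚ`**: every coefficient of the L-function is
the coefficient of a newform of squarefree level. -/
theorem exists_newform_LFunction (E : WeierstrassCurve ℚ) [E.IsElliptic]
    (h : ∀ p : ℕ, ∀ [Fact p.Prime], ∃ C : VariableChange ℚ_[p],
      HasGoodReduction ℤ_[p] (C • E.map (algebraMap ℚ ℚ_[p])) ∨
        HasMultiplicativeReduction ℤ_[p] (C • E.map (algebraMap ℚ ℚ_[p]))) :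
    ∃ (W : WeierstrassCurve ℤ) (N : ℕ) (f : CuspForm (CongruenceSubgroup.Gamma0 N) 2),
      W.IsIntegralModelOf E ∧ W.IsSemistableModel ∧ Squarefree N ∧
      (∀ q : ℕ, q.Prime → (q ∣ N ↔ (q : ℤ) ∣ W.Δ)) ∧ f.IsNewform ∧
      ∀ n : ℕ, ModularFormClass.qCoeff f n = (E.LFunction n : ℂ) := by
  obtain ⟨W, hW, hs⟩ := exists_semistableModel E
    fun p _ => isSemistableAt_of_reduction E (h p).choose_spec
  have hΔ : W.Δ ≠ 0 := FA.Frob.Δ_ne_zero_of_model hW
  obtain ⟨f, hf, hap⟩ := FA.SS.semistableModular W hΔ hs
  have := FA.Frob.ratCurve_isElliptic_of_Δ hΔ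
  have hsq := squarefree_badProd W
  have hN : ∀ q : ℕ, q.Prime → (q ∣ badProd W ↔ (q : ℤ) ∣ W.Δ) :=
    fun q hq => prime_dvd_badProd_iff hΔ hq
  refine ⟨W, badProd W, f, hW, hs, hsq, hN, isNewform_of_ap hΔ hs hsq hN hf hap, ?_⟩
  exact qCoeff_eq_LFunction_of hW hN
    (fun p r hp hgood => LFunction_apply_prime_pow_good E W hW hp hgood r)
    (fun q k hq hbad => LFunction_apply_prime_pow_mult E W hW hq hbad hΔ (hs q hq hbad) k) hf
    (fun p hp hpN => hap p hp (fun hd => hpN ((hN p hp).mpr hd)) hpN)
    fun q hq hqN => qCoeff_eq_splitSign hΔ hs hsq hN hf hap hq hqN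

end FA.Root

end
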