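import Fermat.Agent.PeriodLattice.RealPeriod
import Fermat.Agent.Root.LFunctionAll
import Fermat.Agent.Root.CentralValueFormula

/-!
# Summary: the period lattice of a rational eigenform and `L(E, 1) / Ω`

* `period_lattice`: the periods of a normalised eigenform with integral coefficients are a lattice.
* `eigenform_rationality`: `(1 + p - a_p) 2π ∫₀^∞ f(it) dt` is an integer multiple of the least
  positive real number `Ω` among `2πi` times the periods.
* `centralValue_rationality`: for a semistable curve `E / ℚ` the newform `f` with the coefficients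
  of `E` has such an `Ω` and `#Ẽ(𝔽_p) L(E, 1) / Ω` is an integer at every good prime `p`.

`Ω` belongs to the newform: its comparison with the Néron period of `E` needs a modular
parametrisation and is not proved here.
-/

set_option autoImplicit false

noncomputable section

namespace FA.PeriodLattice

open UpperHalfPlane hiding I
open Complex CongruenceSubgroup MeasureTheory Set FA.Period
open scoped Real MatrixGroups

/-- The value at `1` of an entire continuation is `2π ∫₀^∞ g(it) dt`. -/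
theorem continuation_one {L : ℕ} [NeZero L] (g : CuspForm (Gamma0 L) 2)
    {G : ℂ → ℂ} (hG : Differentiable ℂ G)
    (hGs : ∀ s : ℂ, 2 < s.re → G s = LSeries (ModularFormClass.qCoeff g) s) :
    G 1 = 2 * π * ∫ t in Ioi (0 : ℝ), g (ofComplex (I * (t : ℂ))) := by
  have hcomp : FA.Twists.completedAt 1 g 1 =
      (2 * (π : ℂ)) ^ (-(1 : ℂ)) * Complex.Gamma 1 * G 1 := by
    refine AnalyticOnNhd.eqOn_of_preconnected_of_eventuallyEq
      (fun z _ => (FA.Twists.differentiable_completedAt 1 g).analyticAt z)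
      (g := fun s => (2 * (π : ℂ)) ^ (-s) * Complex.Gamma s * G s)
      (U := {s : ℂ | 0 < s.re}) ?_ (convex_halfSpace_re_gt 0).isPreconnected (z₀ := 3)
      (by norm_num) ?_ (show (0 : ℝ) < (1 : ℂ).re by norm_num)
    · refine DifferentiableOn.analyticOnNhd (fun z hz => DifferentiableAt.differentiableWithinAt ?_)
        (isOpen_lt continuous_const Complex.continuous_re)
      refine ((differentiableAt_id.neg.const_cpow
        (Or.inl (mul_ne_zero two_ne_zero (Complex.ofReal_ne_zero.mpr Real.pi_ne_zero)))).mul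
        (Complex.differentiableAt_Gamma z fun m e => ?_)).mul (hG z)
      have h0 : (0 : ℝ) < z.re := hz
      rw [e, Complex.neg_re, Complex.natCast_re] at h0
      linarith [(Nat.cast_nonneg m : (0 : ℝ) ≤ m)]
    · filter_upwards [(isOpen_lt continuous_const Complex.continuous_re).mem_nhds
        (show (2 : ℝ) < (3 : ℂ).re by norm_num)] with s hs
      rw [FA.Twists.completedAt_eq_LSeries g hs, ← hGs s hs, Nat.cast_one, Complex.one_cpow,
        one_mul]
  rw [FA.Twists.completedAt_eq_mellin, mellin, Complex.Gamma_one, Complex.cpow_neg_one,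
    mul_one] at hcomp
  simp only [sub_self, Complex.cpow_zero, one_smul, Nat.cast_one, Real.sqrt_one, inv_one,
    one_mul] at hcomp
  have hπ : (π : ℂ) ≠ 0 := Complex.ofReal_ne_zero.mpr Real.pi_ne_zero
  rw [hcomp]
  field_simp

end FA.PeriodLattice

namespace FA.Summary

open UpperHalfPlane hiding I
open Complex CongruenceSubgroup MeasureTheory Set WeierstrassCurve
open scoped Real MatrixGroups

/-- **The period lattice** of a normalised eigenform with integral coefficients. -/
theorem period_lattice {N : ℕ} [NeZero N] {f : CuspForm (Gamma0 N) 2}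
    (hf : f.IsNormalizedEigenform) {a : ℕ → ℤ}
    (ha : ∀ n, ModularFormClass.qCoeff f n = (a n : ℂ)) :
    ∃ w₁ w₂ : ℂ, (∀ x y : ℝ, (x : ℂ) * w₁ + (y : ℂ) * w₂ = 0 → x = 0 ∧ y = 0) ∧
      (ModularCurve.periodMap N f).range = AddSubgroup.closure ({w₁, w₂} : Set ℂ) :=
  FA.PeriodLattice.exists_lattice_basis hf ha

/-- **Manin's integrality and rationality** for an eigenform with integral coefficients. -/
theorem eigenform_rationality {N : ℕ} [NeZero N] {f : CuspForm (Gamma0 N) 2}
    (hf : f.IsNormalizedEigenform) {a : ℕ → ℤ}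
    (ha : ∀ n, ModularFormClass.qCoeff f n = (a n : ℂ)) :
    ∃ Ω : ℝ,
      IsLeast {x : ℝ | 0 < x ∧ ∃ γ, 2 * (π : ℂ) * I * ModularCurve.periodMap N f γ = x} Ω ∧
      ∀ p : ℕ, p.Prime → ¬ p ∣ N → ∃ m : ℤ, (1 + (p : ℂ) - a p) *
        (2 * π * ∫ t in Ioi (0 : ℝ), f (ofComplex (I * (t : ℂ)))) = m * Ω := by
  obtain ⟨Ω, hΩ⟩ := FA.PeriodLattice.exists_isLeast_realPeriod hf ha
  refine ⟨Ω, ?_, fun p hp hpN => FA.PeriodLattice.exists_eigen_mul_integral hf ha hΩ hp hpN⟩
  convert hΩ using 1
  ext x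
  simp only [Set.mem_ofPred_eq, FA.PeriodLattice.mem_realPeriods]
  exact and_comm

/-- **`L(E, 1) / Ω` is rational**: for a semistable `E / ℚ` there are the newform `f` of `E`, of
squarefree level, and the least positive real period `Ω` of `2πi f(τ) dτ` such that
`#Ẽ(𝔽_p) L(E, 1)` is an integer multiple of `Ω` at every good `p`, and `L(E, 1) ∈ ℚ Ω`. -/
theorem centralValue_rationality (E : WeierstrassCurve ℚ) [E.IsElliptic]
    (h : ∀ p : ℕ, ∀ [Fact p.Prime], ∃ C : VariableChange ℚ_[p],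
      HasGoodReduction ℤ_[p] (C • E.map (algebraMap ℚ ℚ_[p])) ∨
        HasMultiplicativeReduction ℤ_[p] (C • E.map (algebraMap ℚ ℚ_[p]))) :
    ∃ (W : WeierstrassCurve ℤ) (N : ℕ) (f : CuspForm (Gamma0 N) 2) (Ω : ℝ),
      W.IsIntegralModelOf E ∧ f.IsNewform ∧
      (∀ n : ℕ, ModularFormClass.qCoeff f n = (E.LFunction n : ℂ)) ∧
      IsLeast {x : ℝ | 0 < x ∧ ∃ γ, 2 * (π : ℂ) * I * ModularCurve.periodMap N f γ = x} Ω ∧
      ∀ G : ℂ → ℂ, Differentiable ℂ G → (∀ s : ℂ, 2 < s.re → G s = E.LSeries s) →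
        (∀ p : ℕ, p.Prime → ¬ (p : ℤ) ∣ W.Δ →
          ∃ m : ℤ, ((W.reductionMod p).card : ℂ) * G 1 = m * Ω) ∧
        ∃ r : ℚ, G 1 = r * Ω := by
  obtain ⟨W, N, f, hW, -, hsq, hN, hf, hn⟩ := FA.Root.exists_newform_LFunction E h
  have : NeZero N := ⟨hsq.ne_zero⟩
  obtain ⟨Ω, hΩ, hint⟩ := eigenform_rationality hf.isNormalizedEigenform
    (a := fun n => E.LFunction n) hn
  refine ⟨W, N, f, Ω, hW, hf, hn, hΩ, fun G hG hGs => ?_⟩
  have hG1 := FA.PeriodLattice.continuation_one f hG fun s hs => by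
    rw [hGs s hs, WeierstrassCurve.LSeries]
    exact congrArg (LSeries · s) (funext fun n => (hn n).symm)
  have hcard : ∀ p : ℕ, p.Prime → ¬ (p : ℤ) ∣ W.Δ →
      ((W.reductionMod p).card : ℂ) = 1 + (p : ℂ) - (E.LFunction p : ℂ) := by
    intro p hp hgood
    have hap := FA.Root.LFunction_apply_prime E W hW hp hgood
    simp only [WeierstrassCurve.apOfModel, WeierstrassCurve.traceOfFrobenius, Nat.card_zmod] at hap
    rw [hap]
    push_cast
    ring
  have hall : ∀ p : ℕ, p.Prime → ¬ (p : ℤ) ∣ W.Δ →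
      ∃ m : ℤ, ((W.reductionMod p).card : ℂ) * G 1 = m * Ω := fun p hp hgood => by
    obtain ⟨m, hm⟩ := hint p hp fun hd => hgood ((hN p hp).mp hd)
    exact ⟨m, by rw [hcard p hp hgood, hG1]; exact hm⟩
  refine ⟨hall, ?_⟩
  obtain ⟨p, hp1, hp⟩ := Nat.exists_infinite_primes (W.Δ.natAbs + 1)
  have hgood : ¬ (p : ℤ) ∣ W.Δ := fun hd => by
    have hΔ : W.Δ ≠ 0 := FA.Frob.Δ_ne_zero_of_model hW
    have := Nat.le_of_dvd (Int.natAbs_pos.mpr hΔ) (Int.natCast_dvd.mp hd)
    omega
  obtain ⟨m, hm⟩ := hall p hp hgood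
  have : Fact p.Prime := ⟨hp⟩
  have hc0 : ((W.reductionMod p).card : ℂ) ≠ 0 := Nat.cast_ne_zero.mpr Nat.card_pos.ne'
  refine ⟨(m : ℚ) / (W.reductionMod p).card, ?_⟩
  push_cast
  field_simp
  linear_combination hm

end FA.Summary

end
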