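import Fermat.Agent.PeriodLattice.Twist
import Fermat.Agent.Root.SummaryPeriodLattice
import Fermat.Agent.Root.SummaryTwistLFunction

/-!
# Summary: Manin–Drinfeld at every cusp and the rationality of twisted central values

* `manin_drinfeld_cusps`: for every cusp `δ∞` of `X₀(N)` a positive multiple of
  `f ↦ ∫_{i∞}^{δ∞} f` is a period: every cuspidal divisor of degree zero is torsion.
* `twisted_centralValue_rationality`: for an eigenform `f` with integral coefficients and a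
  character `ψ` of square one modulo `q` without smaller modulus, `√q L(f ⊗ ψ, 1)` is a rational
  multiple of the least positive real period `Ω⁺` of `2πi f dτ` for even `ψ` and of the least
  positive imaginary one `Ω⁻` for odd `ψ`.
* `centralValue_rationality_twist`: the same for every elliptic curve with a semistable twist.
-/

set_option autoImplicit false

noncomputable section

namespace FA.Summary

open UpperHalfPlane hiding I
open Complex CongruenceSubgroup Filter MeasureTheory WeierstrassCurve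
open scoped Real MatrixGroups Topology

/-- **Manin and Drinfeld at every cusp**: cuspidal divisors of degree zero of `X₀(N)` are
torsion. -/
theorem manin_drinfeld_cusps (N : ℕ) [NeZero N] (δ : SL(2, ℤ)) :
    ∃ (n : ℕ) (γ : Additive (Gamma0 N)), 0 < n ∧
      ∀ (f : CuspForm (Gamma0 N) 2) (F : ℍ → ℂ),
        (∀ τ : ℍ, HasDerivAt (F ∘ ofComplex) (f τ) (τ : ℂ)) → Tendsto F atImInfty (𝓝 0) →
          Tendsto (fun w : ℍ => (n : ℂ) * F (δ • w)) atImInfty
            (𝓝 (ModularCurve.periodMap N f γ)) := by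
  obtain ⟨n, γ, hn, h⟩ := FA.ManinDrinfeld.exists_smul_toCusp_eq_period (N := N) δ
  refine ⟨n, γ, hn, fun f F hF hF0 => ?_⟩
  rw [← h f, FA.ManinDrinfeld.primitive_unique hF (FA.ManinDrinfeld.isPrimitive_prim f) hF0
    (FA.ManinDrinfeld.tendsto_prim f)]
  exact (FA.ManinDrinfeld.tendsto_toCusp δ f).const_mul _

/-- **Birch's rationality** of twisted central values, with both periods pinned. -/
theorem twisted_centralValue_rationality {N : ℕ} [NeZero N] {f : CuspForm (Gamma0 N) 2}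
    (hf : f.IsNormalizedEigenform) {a : ℕ → ℤ}
    (ha : ∀ n, ModularFormClass.qCoeff f n = (a n : ℂ)) :
    ∃ Ωp Ωm : ℝ,
      IsLeast {x : ℝ | 0 < x ∧ ∃ γ, 2 * (π : ℂ) * I * ModularCurve.periodMap N f γ = x} Ωp ∧
      IsLeast {x : ℝ | 0 < x ∧ ∃ γ, 2 * (π : ℂ) * I * ModularCurve.periodMap N f γ = x * I} Ωm ∧
      ∀ (q : ℕ) [NeZero q] (ψ : DirichletCharacter ℂ q), (∀ u : (ZMod q)ˣ, ψ u * ψ u = 1) →
        (∀ p : ℕ, p.Prime → p ∣ q → ∃ n : ℕ, ((q / p : ℕ) : ℤ) ∣ (n : ℤ) - 1 ∧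
          ψ (n : ZMod q) = -1) →
        ∀ G : ℂ → ℂ, Differentiable ℂ G →
          (∀ s : ℂ, 2 < s.re → G s = LSeries (fun n : ℕ => ψ (n : ZMod q) * (a n : ℂ)) s) →
          (ψ (-1) = 1 → ∃ r : ℚ, (Real.sqrt q : ℂ) * G 1 = r * Ωp) ∧
          (ψ (-1) = -1 → ∃ r : ℚ, (Real.sqrt q : ℂ) * G 1 = r * Ωm) := by
  obtain ⟨Ωp, hΩp⟩ := FA.PeriodLattice.exists_isLeast_realPeriod hf ha
  obtain ⟨Ωm, hΩm⟩ := FA.PeriodLattice.exists_isLeast_imagPeriod hf ha
  refine ⟨Ωp, Ωm, ?_, ?_, fun q _ ψ hψ hnd G hG hGs => ?_⟩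
  · convert hΩp using 1
    ext x
    simp only [Set.mem_ofPred_eq, FA.PeriodLattice.mem_realPeriods]
    exact and_comm
  · convert hΩm using 1
    ext x
    simp only [Set.mem_ofPred_eq, FA.PeriodLattice.mem_imagPeriods]
    exact and_comm
  have : NeZero (N * q ^ 2) := ⟨mul_ne_zero (NeZero.ne N) (pow_ne_zero _ (NeZero.ne q))⟩
  obtain ⟨g, -, hg⟩ := FA.Twists.exists_twist_eigenform hf hψ
  have hg' : ∀ n, ModularFormClass.qCoeff g n = ψ (n : ZMod q) * (a n : ℂ) := fun n => by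
    rw [hg, ha]
  rw [FA.PeriodLattice.continuation_one g hG fun s hs => by
    rw [hGs s hs]
    exact congrArg (LSeries · s) (funext fun n => (hg' n).symm)]
  exact FA.PeriodLattice.exists_rat_twist_integral ha hψ hnd g hg' hΩp hΩm

/-- **`√|disc| L(E, 1) / Ω^±` is rational** for an elliptic curve with a semistable twist by `d`:
`f` is the newform of the twist, `ψ` the quadratic character of `ℚ(√d)`. -/
theorem centralValue_rationality_twist (E : WeierstrassCurve ℚ) [E.IsElliptic] {d : ℚ} (hd : d ≠ 0)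
    (h : ∀ p : ℕ, ∀ [Fact p.Prime], ∃ C : VariableChange ℚ_[p],
      HasGoodReduction ℤ_[p] (C • (⟨0, 0, 0, -27 * (d ^ 2 * E.c₄), -54 * (d ^ 3 * E.c₆)⟩ :
          WeierstrassCurve ℚ).map (algebraMap ℚ ℚ_[p])) ∨
        HasMultiplicativeReduction ℤ_[p] (C • (⟨0, 0, 0, -27 * (d ^ 2 * E.c₄),
          -54 * (d ^ 3 * E.c₆)⟩ : WeierstrassCurve ℚ).map (algebraMap ℚ ℚ_[p]))) :
    ∃ (D : ℤ) (q : ℕ) (ψ : DirichletCharacter ℂ q) (N : ℕ) (f : CuspForm (Gamma0 N) 2)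
      (Ωp Ωm : ℝ),
      (Squarefree D ∧ ∃ t : ℚ, t ≠ 0 ∧ d = t ^ 2 * D) ∧
      q = (if D % 4 = 1 then D.natAbs else 4 * D.natAbs) ∧ f.IsNewform ∧
      (∀ n : ℕ, ModularFormClass.qCoeff f n =
        ((⟨0, 0, 0, -27 * (d ^ 2 * E.c₄), -54 * (d ^ 3 * E.c₆)⟩ :
          WeierstrassCurve ℚ).LFunction n : ℂ)) ∧
      (∀ n : ℕ, (E.LFunction n : ℂ) = ψ (n : ZMod q) * ModularFormClass.qCoeff f n) ∧
      IsLeast {x : ℝ | 0 < x ∧ ∃ γ, 2 * (π : ℂ) * I * ModularCurve.periodMap N f γ = x} Ωp ∧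
      IsLeast {x : ℝ | 0 < x ∧ ∃ γ, 2 * (π : ℂ) * I * ModularCurve.periodMap N f γ = x * I} Ωm ∧
      ∀ G : ℂ → ℂ, Differentiable ℂ G → (∀ s : ℂ, 2 < s.re → G s = E.LSeries s) →
        (ψ (-1) = 1 ∧ ∃ r : ℚ, (Real.sqrt q : ℂ) * G 1 = r * Ωp) ∨
        (ψ (-1) = -1 ∧ ∃ r : ℚ, (Real.sqrt q : ℂ) * G 1 = r * Ωm) := by
  have := FA.Root.quadTwist_isElliptic E hd
  obtain ⟨W, N, f, hW, hs, hN, -, hf, hn⟩ :=
    FA.Root.exists_newform_LFunction (FA.Twists.quadTwist E d) h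
  obtain ⟨D, q, ψ, hD, hqD, hq, hψ, hnd, hL⟩ :=
    FA.Twists.exists_char_LFunction E hd hW (FA.Frob.Δ_ne_zero_of_model hW) hs
  have : NeZero N := ⟨hN.ne_zero⟩
  have : NeZero q := ⟨hq.ne'⟩
  obtain ⟨Ωp, Ωm, hp, hm, hval⟩ := twisted_centralValue_rationality hf.isNormalizedEigenform
    (a := fun n => (FA.Twists.quadTwist E d).LFunction n) hn
  refine ⟨D, q, ψ, N, f, Ωp, Ωm, hD, hqD, hf, hn, fun n => by rw [hL n, hn n], hp, hm,
    fun G hG hGs => ?_⟩
  obtain ⟨he, ho⟩ := hval q ψ hψ hnd G hG fun s hs' => by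
    rw [hGs s hs', WeierstrassCurve.LSeries]
    exact congrArg (LSeries · s) (funext hL)
  have hsign : ψ (-1) = 1 ∨ ψ (-1) = -1 := by
    refine mul_self_eq_one_iff.mp ?_
    rw [← map_mul, neg_one_mul, neg_neg, map_one]
  exact hsign.imp (fun h1 => ⟨h1, he h1⟩) fun h1 => ⟨h1, ho h1⟩

end FA.Summary

end
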