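import Fermat.Agent.Root.LFunctionForm
import Fermat.Agent.Root.LFunctionSplit

/-!
# All coefficients from the prime powers

Both the L-function of an elliptic curve and the coefficients of a normalised eigenform are
multiplicative, so they agree as soon as they agree at all prime powers.
-/

set_option autoImplicit false

noncomputable section

namespace FA.Root

open WeierstrassCurve IsDedekindDomain NumberField ArithmeticFunction
open Rat.HeightOneSpectrum (primesEquiv)

/-- The L-function of a Weierstrass curve over `ℚ` is multiplicative. -/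
theorem isMultiplicative_LFunction (E : WeierstrassCurve ℚ) : IsMultiplicative E.LFunction := by
  unfold WeierstrassCurve.LFunction
  refine isMultiplicative_eulerProduct _ fun v => ?_
  refine isMultiplicative_ofPowerSeries_of_isPrimePow _ ?_ _ ?_
  · rw [natCard_residueField]
    exact (primesEquiv v).2.isPrimePow
  · simp [localPowerSeries]

/-- The constant term of a cusp form vanishes. -/
theorem qCoeff_zero_cuspForm {N : ℕ} (f : CuspForm (CongruenceSubgroup.Gamma0 N) 2) :
    ModularFormClass.qCoeff f 0 = 0 :=
  CuspFormClass.qExpansion_coeff_zero f one_pos (by simp)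

/-- A normalised eigenform whose good prime powers follow the Hecke recursion of the L-function and
whose bad prime powers are the powers of the signs has all coefficients of the L-function. -/
theorem qCoeff_eq_LFunction_of {E : WeierstrassCurve ℚ} {W : WeierstrassCurve ℤ}
    (hW : W.IsIntegralModelOf E) {N : ℕ}
    (hN : ∀ q : ℕ, q.Prime → (q ∣ N ↔ (q : ℤ) ∣ W.Δ))
    (hrec : ∀ p r : ℕ, p.Prime → ¬ (p : ℤ) ∣ W.Δ → E.LFunction (p ^ (r + 2)) =
      W.apOfModel p * E.LFunction (p ^ (r + 1)) - p * E.LFunction (p ^ r))
    (hmult : ∀ q k : ℕ, q.Prime → (q : ℤ) ∣ W.Δ →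
      E.LFunction (q ^ k) = splitSign W q ^ k)
    {f : CuspForm (CongruenceSubgroup.Gamma0 N) 2} (hf : f.IsNormalizedEigenform)
    (hgood : ∀ p : ℕ, p.Prime → ¬ p ∣ N → ModularFormClass.qCoeff f p = (W.apOfModel p : ℂ))
    (hbad : ∀ q : ℕ, q.Prime → q ∣ N → ModularFormClass.qCoeff f q = (splitSign W q : ℂ))
    (n : ℕ) : ModularFormClass.qCoeff f n = (E.LFunction n : ℂ) := by
  have hL := isMultiplicative_LFunction E
  have hpow : ∀ p : ℕ, p.Prime → ∀ k : ℕ,
      ModularFormClass.qCoeff f (p ^ k) = (E.LFunction (p ^ k) : ℂ) := by
    intro p hp k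
    induction k using Nat.strong_induction_on with
    | _ k ih =>
      match k with
      | 0 => rw [pow_zero, hf.qCoeff_one, hL.map_one, Int.cast_one]
      | 1 =>
        rw [pow_one]
        by_cases hpN : p ∣ N
        · have h1 := hmult p 1 hp ((hN p hp).mp hpN)
          rw [pow_one, pow_one] at h1
          rw [hbad p hp hpN, h1]
        · rw [hgood p hp hpN,
            LFunction_apply_prime E W hW hp fun h => hpN ((hN p hp).mpr h)]
      | r + 2 =>
        by_cases hpN : p ∣ N
        · rw [hf.qCoeff_prime_pow_of_dvd p r hp hpN, hbad p hp hpN, ih (r + 1) (by omega),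
            hmult p (r + 1) hp ((hN p hp).mp hpN), hmult p (r + 2) hp ((hN p hp).mp hpN)]
          push_cast
          ring
        · rw [hf.qCoeff_prime_pow_of_not_dvd p r hp hpN, hgood p hp hpN, ih (r + 1) (by omega),
            ih r (by omega), hrec p r hp fun h => hpN ((hN p hp).mpr h)]
          push_cast
          ring
  induction n using Nat.recOnPosPrimePosCoprime with
  | prime_pow p k hp _ => exact hpow p hp k
  | zero => rw [qCoeff_zero_cuspForm, ArithmeticFunction.map_zero, Int.cast_zero]
  | one => rw [hf.qCoeff_one, hL.map_one, Int.cast_one]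
  | coprime a b _ _ hab iha ihb =>
    rw [hf.qCoeff_mul_of_coprime a b hab, iha, ihb, hL.map_mul_of_coprime hab, Int.cast_mul]

end FA.Root

end
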