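import Fermat.Agent.Root.SummaryPrincipalGenus
import Mathlib.NumberTheory.LegendreSymbol.QuadraticReciprocity

/-!
# Gauss: the class numbers of `ℤ[√-p]` and `ℤ[√-2p]` modulo four

* `classNumber_prime_mod_four`: `h(p)` is odd iff `p = 2` or `p ≡ 3 (mod 4)`, it is `2` modulo `4` for
  `p ≡ 5 (mod 8)` and a multiple of `4` for `p ≡ 1 (mod 8)`.
* `classNumber_two_prime_mod_four`: for odd `p`, `h(2p)` is even, a multiple of `4` iff `p ≡ ±1 (mod 8)`.
* `not_congruence_sq_add_prime`: for `p ≡ 1 (mod 8)` no congruence decides which primes are `x² + p y²`,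
  and the ring class field of `ℤ[√-p]` is not abelian.
-/

set_option autoImplicit false

noncomputable section

namespace FA.OrderTheta

variable {n : ℕ} [NeZero n]

/-- With two genera, `4 ∣ h` iff the ambiguous form `(a, 2b, c)` is in the principal genus. -/
theorem four_dvd_iff_ambiguous_principal (hn : 1 < n) (hmu : genusMu n = 2) {a : ℕ} {b : ℤ}
    (hr : IsRed n a b) (hamb : b = 0 ∨ 2 * |b| = a ∨ (a : ℤ) * a = b ^ 2 + n) (ha1 : a ≠ 1)
    {x y : ℤ} (hxy : x ≠ 0 ∨ y ≠ 0) {m : ℕ}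
    (hm : (m : ℤ) = (a : ℤ) * x ^ 2 + 2 * b * x * y + (b ^ 2 + n) / a * y ^ 2)
    (hmc : m.Coprime (4 * n)) :
    4 ∣ Nat.card (Cl n) ↔ ∃ u v : ZMod (4 * n), (m : ZMod (4 * n)) = u ^ 2 + n * v ^ 2 := by
  have := finite_cl (N := n)
  have hsq : (∃ d : Cl n, d * d = cls (redII hr)) ↔
      ∃ u v : ZMod (4 * n), (m : ZMod (4 * n)) = u ^ 2 + n * v ^ 2 := by
    obtain ⟨K, hK, hKn⟩ :=
      exists_ideal_of_value hr.1 (red_det hr) (bezout_of_gcd hr.2.2.1) x y hxy
    have hKm : nrm K = m := by exact_mod_cast hKn.trans hm.symm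
    have h := FA.Summary.principalGenus n hn K (hKm ▸ hmc)
    rw [hK, hKm] at h
    exact h
  rw [← hsq]
  set t := cls (redII hr) with ht
  have ht2 : t * t = 1 := (cls_mul_self_iff hr).mpr hamb
  have ht1 : t ≠ 1 := fun e => by
    have h1 : IsRed n 1 0 := ⟨one_pos, one_dvd _, by simp, by norm_num, by
      have : (0 : ℤ) < n := by exact_mod_cast NeZero.pos n
      push_cast; linarith, fun _ => le_rfl⟩
    have h0 : redII h1 = 1 := eq_one_of_nrm_eq_one (nrm_rootII ..)
    exact ha1 (red_unique hr h1 (by rw [h0, map_one, ← ht, e])).1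
  have hT : ∀ c : Cl n, c * c = 1 → c = 1 ∨ c = t := by
    have hc := (card_sq_eq_one (n := n) hn).trans (splits_total hn)
    rw [hmu] at hc
    intro c h
    by_contra hne
    push Not at hne
    let f : Fin 3 → {c : Cl n // c * c = 1} := ![⟨1, one_mul 1⟩, ⟨t, ht2⟩, ⟨c, h⟩]
    have hf : Function.Injective f := by
      intro i j hij
      fin_cases i <;> fin_cases j <;> first
        | rfl
        | (exfalso; simp [f, ht1, hne.1, hne.2, ht1.symm, hne.1.symm, hne.2.symm] at hij)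
    have := Nat.card_le_card_of_injective f hf
    rw [hc, Nat.card_fin] at this
    norm_num at this
  constructor
  · intro h4
    have hk : Nat.card (powMonoidHom (α := Cl n) 2).ker = 2 := by
      have hc := (card_sq_eq_one (n := n) hn).trans (splits_total hn)
      rw [hmu] at hc
      have e : Nat.card (powMonoidHom (α := Cl n) 2).ker = Nat.card {c : Cl n // c * c = 1} :=
        Nat.card_congr (Equiv.subtypeEquivRight fun c => by
          rw [MonoidHom.mem_ker, powMonoidHom_apply, pow_two])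
      rw [e, hc]
      norm_num
    have hcard := Subgroup.card_mul_index (powMonoidHom (α := Cl n) 2).ker
    rw [hk, Subgroup.index_ker] at hcard
    have : Fact (Nat.Prime 2) := ⟨Nat.prime_two⟩
    obtain ⟨⟨s, d, hd⟩, hs⟩ :=
      exists_prime_orderOf_dvd_card' (G := (powMonoidHom (α := Cl n) 2).range) 2 (by omega)
    rw [← Subgroup.orderOf_coe] at hs
    rw [powMonoidHom_apply, pow_two] at hd
    rcases hT s (by rw [← pow_two, ← hs, pow_orderOf_eq_one]) with rfl | rfl
    · simp at hs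
    · exact ⟨d, hd⟩
  · rintro ⟨d, hd⟩
    have : Fact (Nat.Prime 2) := ⟨Nat.prime_two⟩
    have ho : orderOf d = 2 ^ (1 + 1) := orderOf_eq_prime_pow (by rwa [pow_one, pow_two, hd])
      (by rw [show (2 : ℕ) ^ (1 + 1) = 2 + 2 from rfl, pow_add, pow_two, hd, ht2])
    exact (show 4 = orderOf d by rw [ho]; rfl) ▸ orderOf_dvd_natCard d

theorem two_dvd_of_genusMu (hn : 1 < n) (hmu : genusMu n = 2) : 2 ∣ Nat.card (Cl n) := by
  simpa [hmu] using FA.Summary.two_pow_dvd_classNumber n hn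

theorem genusMu_prime {p : ℕ} (hp : p.Prime) :
    genusMu p = if p % 4 = 1 then 2 else 1 := by
  rcases hp.eq_two_or_odd with rfl | hodd
  · simp [genusMu, Nat.prime_two.primeFactors]
  · have hc : (p.primeFactors.erase 2).card = 1 := by
      rw [hp.primeFactors, Finset.erase_eq_of_notMem (by simp; omega), Finset.card_singleton]
    unfold genusMu
    rw [hc]
    split_ifs <;> omega

theorem genusMu_two_mul_prime {p : ℕ} (hp : p.Prime) (hp2 : p ≠ 2) : genusMu (2 * p) = 2 := by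
  have hodd := hp.eq_two_or_odd.resolve_left hp2
  have hc : ((2 * p).primeFactors.erase 2).card = 1 := by
    rw [Nat.primeFactors_mul two_ne_zero hp.ne_zero, Nat.prime_two.primeFactors, hp.primeFactors,
      Finset.erase_union_distrib, Finset.erase_singleton, Finset.empty_union,
      Finset.erase_eq_of_notMem (by simp; omega), Finset.card_singleton]
  unfold genusMu
  rw [hc, if_neg (by omega), if_neg (by omega)]

/-- Congruences modulo `4` and modulo an odd `p` give one modulo `4 * p`. -/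
theorem natCast_zmod_mul_eq {k p : ℕ} (hc : k.Coprime p) {a b : ℤ} (hk : (k : ℤ) ∣ a - b)
    (hp : (p : ℤ) ∣ a - b) : (a : ZMod (k * p)) = (b : ZMod (k * p)) := by
  rw [← sub_eq_zero, ← Int.cast_sub, ZMod.intCast_zmod_eq_zero_iff_dvd, Nat.cast_mul]
  exact IsCoprime.mul_dvd (Int.isCoprime_iff_nat_coprime.mpr (by simpa using hc)) hk hp

/-- An odd root of a square modulo an odd `p`. -/
theorem exists_odd_root {p : ℕ} (hp : p % 2 = 1) {a : ℤ} (h : IsSquare (a : ZMod p)) :
    ∃ z : ℤ, z % 2 = 1 ∧ (p : ℤ) ∣ z ^ 2 - a := by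
  obtain ⟨r, hr⟩ := h
  obtain ⟨z, rfl⟩ := ZMod.intCast_surjective r
  have key : ∀ w : ℤ, (w : ZMod p) = z → (p : ℤ) ∣ w ^ 2 - a := fun w hw => by
    rw [← ZMod.intCast_zmod_eq_zero_iff_dvd]
    push_cast
    rw [hw, hr]
    ring
  rcases Int.emod_two_eq z with e | e
  · exact ⟨z + p, by omega, key _ (by simp)⟩
  · exact ⟨z, e, key _ rfl⟩

theorem eight_dvd_odd_sq_sub_one {z : ℤ} (hz : z % 2 = 1) : (8 : ℤ) ∣ z ^ 2 - 1 :=
  Int.eight_dvd_sq_sub_one_of_odd (Int.odd_iff.mpr hz)

theorem isRed_two_one {p : ℕ} (hp1 : p % 4 = 1) (hp : 3 ≤ p) : IsRed p 2 1 := by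
  have hdiv : ((1 : ℤ) ^ 2 + p) / (2 : ℕ) = ((p + 1) / 2 : ℕ) := by push_cast; omega
  refine ⟨two_pos, by push_cast; omega, ?_, by norm_num, by push_cast; omega, fun _ => zero_le_one⟩
  rw [hdiv]
  show Nat.gcd _ ((p + 1) / 2) = 1
  exact Nat.coprime_two_left.mpr (Nat.odd_iff.mpr (by omega))

theorem isRed_two_zero {p : ℕ} (hp : p % 2 = 1) (hp3 : 3 ≤ p) : IsRed (2 * p) 2 0 := by
  have hdiv : ((0 : ℤ) ^ 2 + (2 * p : ℕ)) / (2 : ℕ) = (p : ℕ) := by push_cast; omega
  refine ⟨two_pos, by push_cast; omega, ?_, by norm_num, by push_cast; nlinarith, fun _ => le_rfl⟩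
  rw [hdiv]
  show Nat.gcd _ p = 1
  exact Nat.coprime_two_left.mpr (Nat.odd_iff.mpr hp)

end FA.OrderTheta

namespace FA.Summary

open FA.OrderTheta

/-- **Gauss**: the class number of `ℤ[√-p]` modulo four. -/
theorem classNumber_prime_mod_four (p : ℕ) [NeZero p] (hp : p.Prime) :
    (Odd (Nat.card (Cl p)) ↔ p = 2 ∨ p % 4 = 3) ∧
      (p % 8 = 5 → Nat.card (Cl p) % 4 = 2) ∧ (p % 8 = 1 → 4 ∣ Nat.card (Cl p)) := by
  have h2 := hp.two_le
  refine ⟨?_, ?_⟩
  · rw [classNumber_odd_iff p hp.one_lt, genusMu_prime hp]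
    rcases hp.eq_two_or_odd with rfl | h
    · simp
    · split_ifs <;> omega
  by_cases h4 : p % 4 = 1
  swap
  · exact ⟨fun h => by omega, fun h => by omega⟩
  have hmu : genusMu p = 2 := by rw [genusMu_prime hp, if_pos h4]
  have := Fact.mk hp
  set m := (p + 1) / 2 with hm
  have hmc : m.Coprime (4 * p) := by
    refine Nat.Coprime.mul_right ?_ ?_
    · exact Nat.Coprime.pow_right 2 (Nat.coprime_two_right.mpr (Nat.odd_iff.mpr (by omega)))
    · exact ((Nat.Prime.coprime_iff_not_dvd hp).mpr fun h => by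
        have := Nat.le_of_dvd (by omega) h; omega).symm
  have key := four_dvd_iff_ambiguous_principal hp.one_lt hmu (isRed_two_one h4 (by omega))
    (Or.inr (Or.inl (by norm_num))) (by norm_num) (x := 0) (y := 1) (Or.inr one_ne_zero) (m := m)
    (by push_cast; omega) hmc
  refine ⟨fun h5 => ?_, fun h1 => key.mpr ?_⟩
  · have he := two_dvd_of_genusMu hp.one_lt hmu
    have hne : ¬ 4 ∣ Nat.card (Cl p) := fun h => by
      obtain ⟨u, v, huv⟩ := key.mp h
      have h' := congrArg (ZMod.castHom (dvd_mul_right 4 p) (ZMod 4)) huv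
      rw [map_natCast, map_add, map_mul, map_pow, map_pow, map_natCast,
        ← ZMod.natCast_mod m 4, ← ZMod.natCast_mod p 4, h4, show m % 4 = 3 by omega] at h'
      generalize ZMod.castHom (dvd_mul_right 4 p) (ZMod 4) u = u' at h'
      generalize ZMod.castHom (dvd_mul_right 4 p) (ZMod 4) v = v' at h'
      revert h'; revert u' v'; decide
    omega
  · obtain ⟨z, hz, hzp⟩ := exists_odd_root (p := p) (a := (m : ℤ)) (by omega) (by
      have hh : IsSquare (2 : ZMod p) :=
        (ZMod.exists_sq_eq_two_iff (by omega)).mpr (Or.inl h1)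
      have he : (2 : ZMod p) * (m : ZMod p) = 1 := by
        rw [show (2 : ZMod p) = ((2 : ℕ) : ZMod p) by norm_num, ← Nat.cast_mul,
          show 2 * m = p + 1 by omega]
        simp
      rw [Int.cast_natCast, show (m : ZMod p) = 2 * ((m : ZMod p) * m) by
        rw [← mul_assoc, he, one_mul]]
      exact hh.mul ⟨m, rfl⟩)
    refine ⟨z, 0, ?_⟩
    have h8 := eight_dvd_odd_sq_sub_one hz
    rw [zero_pow two_ne_zero, mul_zero, add_zero, ← Int.cast_natCast, ← Int.cast_pow]
    exact natCast_zmod_mul_eq ((Nat.coprime_primes Nat.prime_two hp).mpr (by omega) |>.pow_left 2)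
      (by omega) (dvd_sub_comm.mp hzp)

/-- **Gauss**: the class number of `ℤ[√-2p]` modulo four. -/
theorem classNumber_two_prime_mod_four (p : ℕ) [NeZero (2 * p)] (hp : p.Prime) (hp2 : p ≠ 2) :
    2 ∣ Nat.card (Cl (2 * p)) ∧ (4 ∣ Nat.card (Cl (2 * p)) ↔ p % 8 = 1 ∨ p % 8 = 7) := by
  have hodd := hp.eq_two_or_odd.resolve_left hp2
  have h2 := hp.two_le
  have hmu := genusMu_two_mul_prime hp hp2
  have := Fact.mk hp
  refine ⟨two_dvd_of_genusMu (by omega) hmu, ?_⟩
  have hmc : (p + 2).Coprime (4 * (2 * p)) := by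
    rw [← mul_assoc]
    refine Nat.Coprime.mul_right ?_ ?_
    · exact Nat.Coprime.pow_right 3 (Nat.coprime_two_right.mpr (Nat.odd_iff.mpr (by omega)))
    · refine ((Nat.Prime.coprime_iff_not_dvd hp).mpr fun h => ?_).symm
      have := Nat.le_of_dvd two_pos ((Nat.dvd_add_right dvd_rfl).mp h)
      omega
  rw [four_dvd_iff_ambiguous_principal (by omega) hmu (isRed_two_zero hodd (by omega))
    (Or.inl rfl) (by norm_num) (x := 1) (y := 1) (Or.inl one_ne_zero) (m := p + 2)
    (by push_cast; omega) hmc]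
  constructor
  · rintro ⟨u, v, huv⟩
    have h8 : 8 ∣ 4 * (2 * p) := ⟨p, by ring⟩
    have h' := congrArg (ZMod.castHom h8 (ZMod 8)) huv
    rw [map_natCast, map_add, map_mul, map_pow, map_pow, map_natCast, ← ZMod.natCast_mod (p + 2) 8,
      ← ZMod.natCast_mod (2 * p) 8, Nat.mul_mod, Nat.add_mod] at h'
    generalize ZMod.castHom h8 (ZMod 8) u = u' at h'
    generalize ZMod.castHom h8 (ZMod 8) v = v' at h'
    have : p % 8 < 8 := Nat.mod_lt _ (by norm_num)
    rcases (show p % 8 = 1 ∨ p % 8 = 7 ∨ p % 8 = 3 ∨ p % 8 = 5 by omega) with e | e | e | e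
    · exact Or.inl e
    · exact Or.inr e
    · rw [e] at h'; exfalso; revert h'; revert u' v'; decide
    · rw [e] at h'; exfalso; revert h'; revert u' v'; decide
  · intro h
    obtain ⟨z, hz, hzp⟩ := exists_odd_root (p := p) (a := 2) hodd (by
      rw [Int.cast_ofNat]; exact (ZMod.exists_sq_eq_two_iff hp2).mpr h)
    have h8 := eight_dvd_odd_sq_sub_one hz
    obtain ⟨v, hv, hv8⟩ : ∃ v : ℤ, (v = 0 ∨ v = 1) ∧ (8 : ℤ) ∣ (p + 2 : ℕ) - (1 + (2 * p : ℕ) * v) := by
      rcases h with h | h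
      · exact ⟨1, Or.inr rfl, by push_cast; omega⟩
      · exact ⟨0, Or.inl rfl, by push_cast; omega⟩
    refine ⟨z, v, ?_⟩
    rw [← Int.cast_natCast (p + 2), ← Int.cast_natCast (2 * p), ← Int.cast_pow, ← Int.cast_pow,
      ← Int.cast_mul, ← Int.cast_add, show 4 * (2 * p) = 8 * p by ring]
    refine natCast_zmod_mul_eq ((Nat.coprime_primes Nat.prime_two hp).mpr hp2.symm |>.pow_left 3)
      ?_ ?_
    · rcases hv with rfl | rfl <;> push_cast at hv8 ⊢ <;> omega
    · obtain ⟨k, hk⟩ := hzp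
      exact ⟨1 - k - 2 * v ^ 2, by push_cast; linear_combination -hk⟩

/-- For `p ≡ 1 (mod 8)`: no congruence for `x² + p y²`, and no abelian field whose totally split
primes are those of this form, as the ring class field would be. -/
theorem not_congruence_sq_add_prime (p : ℕ) [NeZero p] (hp : p.Prime) (h1 : p % 8 = 1) :
    (¬ ∀ c : Cl p, c * c = 1) ∧
      (¬ ∃ (N : ℕ) (S : Finset ℕ), 0 < N ∧ ∀ q r : ℕ, q.Prime → r.Prime → q ∉ S → r ∉ S →
        q ≡ r [MOD N] → ((∃ x y : ℤ, (q : ℤ) = x ^ 2 + p * y ^ 2) ↔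
          ∃ x y : ℤ, (r : ℤ) = x ^ 2 + p * y ^ 2)) ∧
      ¬ ∃ (L : IntermediateField ℚ (AlgebraicClosure ℚ)) (_ : FiniteDimensional ℚ L) (_ : IsGalois ℚ L),
        IsMulCommutative (L ≃ₐ[ℚ] L) ∧ Module.finrank ℚ L = 2 * Nat.card (Cl p) ∧
          ∀ q : ℕ, q.Prime → ¬ q ∣ 6 * p →
            (((Ideal.span {(q : ℤ)}).primesOver (NumberField.RingOfIntegers L)).ncard =
              Module.finrank ℚ L ↔ ∃ x y : ℤ, (q : ℤ) = x ^ 2 + p * y ^ 2) := by
  have hn : ¬ ∀ c : Cl p, c * c = 1 := fun h => by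
    have hh := (idoneal_iff_classNumber p hp.one_lt).mp h
    rw [genusMu_prime hp, if_pos (by omega)] at hh
    have := (classNumber_prime_mod_four p hp).2.2 h1
    rw [hh] at this
    norm_num at this
  exact ⟨hn, fun h => hn (((idoneal_tfae p).out 0 2).mp h),
    fun h => hn (((idoneal_tfae p).out 1 2).mp h)⟩

end FA.Summary
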