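import Fermat.Agent.ThetaOne.SineValue
import Fermat.Agent.ThetaOne.OrderClassFormula
import Fermat.Agent.Root.SummaryGaussSum
import Mathlib.NumberTheory.LSeries.DirichletContinuation
import Mathlib.NumberTheory.LegendreSymbol.QuadraticReciprocity

/-!
# Dirichlet: class numbers and quadratic residues below `p / 2`

* `lFunction_one_legendre`: for `p ≡ 3 (mod 4)`, `L(1, (·/p)) = -π/(p √p) ∑ (a/p) a`.
* `classNumber_residue_excess`: `h(p)`, the number of reduced forms of determinant `p`, is the number of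
  residues minus the number of non-residues in `(0, p/2)`.
* `residues_majority`, `nonresidue_sum_larger`: so there are more residues than non-residues below
  `p / 2`, and the non-residues below `p` have the larger sum.
-/

set_option autoImplicit false

noncomputable section

open Finset
open scoped Real ZMod

namespace FA.OrderTheta

variable (p : ℕ) [Fact p.Prime]

/-- The Legendre symbol as a complex Dirichlet character. -/
def legendreCharC : DirichletCharacter ℂ p :=
  (quadraticChar (ZMod p)).ringHomComp (Int.castRingHom ℂ)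

theorem legendreCharC_apply (x : ZMod p) :
    legendreCharC p x = ((quadraticChar (ZMod p) x : ℤ) : ℂ) := rfl

theorem legendreCharC_natCast (r : ℕ) :
    legendreCharC p (r : ZMod p) = ((legendreSym p r : ℤ) : ℂ) := by
  rw [legendreCharC_apply, legendreSym, Int.cast_natCast]

variable {p} (hp : p % 4 = 3)

include hp

theorem legendreCharC_neg_one : legendreCharC p (-1) = -1 := by
  rw [legendreCharC_apply, quadraticChar_neg_one ((ZMod.ringChar_zmod_n p).trans_ne (by omega)),
    ZMod.card, ZMod.χ₄_nat_three_mod_four hp]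
  simp

theorem legendreCharC_neg (x : ZMod p) : legendreCharC p (-x) = -legendreCharC p x := by
  rw [← neg_one_mul x, map_mul, legendreCharC_neg_one hp, neg_one_mul]

theorem legendreCharC_ne_one : legendreCharC p ≠ 1 := fun e => by
  have h := legendreCharC_neg_one hp
  rw [e, MulChar.one_apply isUnit_one.neg] at h
  norm_num at h

theorem legendreCharC_isPrimitive : (legendreCharC p).IsPrimitive := by
  rcases (Fact.out : p.Prime).eq_one_or_self_of_dvd _
    (DirichletCharacter.conductor_dvd_level (legendreCharC p)) with h | h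
  · exact absurd (DirichletCharacter.eq_one_iff_conductor_eq_one.mpr h)
      (legendreCharC_ne_one hp)
  · exact h

theorem dft_legendreCharC :
    𝓕 (legendreCharC p : ZMod p → ℂ) =
      fun k => (-(Complex.I * (Real.sqrt p : ℂ))) * legendreCharC p k := by
  funext k
  have hinv : (legendreCharC p)⁻¹ = legendreCharC p :=
    ((quadraticChar_isQuadratic (ZMod p)).comp _).inv
  have hg : gaussSum (legendreCharC p) ZMod.stdAddChar = Complex.I * (Real.sqrt p : ℂ) := by
    have h := FA.Summary.quadraticGaussSum_sign p (by omega)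
    rw [if_neg (by omega)] at h
    exact h
  rw [(legendreCharC_isPrimitive hp).fourierTransform_eq_inv_mul_gaussSum k, hinv, hg,
    legendreCharC_neg hp]
  ring

theorem lFunction_one_legendreCharC :
    DirichletCharacter.LFunction (legendreCharC p) 1 =
      -((π : ℂ) / ((p : ℂ) * (Real.sqrt p : ℂ))) *
        ∑ j : ZMod p, legendreCharC p j * (j.val : ℂ) := by
  have hp0 : (0 : ℝ) < p := by exact_mod_cast (Fact.out : p.Prime).pos
  have h0 : legendreCharC p 0 = 0 := MulChar.map_zero _
  have hsum : ∑ j, legendreCharC p j = 0 := MulChar.sum_eq_zero_of_ne_one (legendreCharC_ne_one hp)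
  have hd := ZMod.LFunction_dft (legendreCharC p : ZMod p → ℂ) (s := 1) (Or.inl h0)
  rw [dft_legendreCharC hp] at hd
  have hlin : ZMod.LFunction (fun k => (-(Complex.I * (Real.sqrt p : ℂ))) * legendreCharC p k) 1 =
      -(Complex.I * (Real.sqrt p : ℂ)) * DirichletCharacter.LFunction (legendreCharC p) 1 := by
    simp only [DirichletCharacter.LFunction, ZMod.LFunction, Finset.mul_sum]
    exact Finset.sum_congr rfl fun j _ => by ring
  rw [hlin] at hd
  set T := ∑ j : ZMod p, legendreCharC p j * HurwitzZeta.expZeta (ZMod.toAddCircle (-j)) 1 with hT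
  have hT' : T = -∑ j : ZMod p, legendreCharC p j * HurwitzZeta.expZeta (ZMod.toAddCircle j) 1 := by
    rw [hT, ← Finset.sum_neg_distrib]
    refine Fintype.sum_equiv (Equiv.neg _) _ _ fun j => ?_
    rw [Equiv.neg_apply, legendreCharC_neg hp, neg_mul, neg_neg]
  have h2 : 2 * T = -(2 * Complex.I) * ∑ j : ZMod p,
      legendreCharC p j * HurwitzZeta.sinZeta (ZMod.toAddCircle j) 1 := by
    rw [two_mul T]
    nth_rewrite 2 [hT']
    rw [hT, ← sub_eq_add_neg, ← Finset.sum_sub_distrib, Finset.mul_sum]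
    refine Finset.sum_congr rfl fun j _ => ?_
    rw [HurwitzZeta.sinZeta_eq, map_neg]
    field_simp
    ring
  have hval : ∀ j : ZMod p, legendreCharC p j * HurwitzZeta.sinZeta (ZMod.toAddCircle j) 1 =
      (π : ℂ) / 2 * legendreCharC p j - (π : ℂ) / p * (legendreCharC p j * (j.val : ℂ)) := by
    intro j
    by_cases hj : j = 0
    · rw [hj, h0]; ring
    rw [ZMod.toAddCircle_apply, sinZeta_one]
    · push_cast; ring
    · have h1 : 0 < j.val := Nat.pos_of_ne_zero ((ZMod.val_ne_zero j).mpr hj)
      have h2 : j.val < p := ZMod.val_lt j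
      exact ⟨div_pos (by exact_mod_cast h1) hp0, (div_lt_one hp0).mpr (by exact_mod_cast h2)⟩
  rw [Finset.sum_congr rfl fun j _ => hval j, Finset.sum_sub_distrib, ← Finset.mul_sum,
    ← Finset.mul_sum, hsum] at h2
  have hsq : (Real.sqrt p : ℂ) ≠ 0 := Complex.ofReal_ne_zero.mpr (Real.sqrt_pos.mpr hp0).ne'
  have hpC : (p : ℂ) ≠ 0 := by exact_mod_cast (Fact.out : p.Prime).ne_zero
  refine mul_left_cancel₀ (mul_ne_zero (mul_ne_zero two_ne_zero Complex.I_ne_zero) hsq) ?_
  field_simp at h2 hd ⊢
  linear_combination ((p : ℂ) * Complex.I) * hd + (Complex.I / 2) * h2 +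
    ((p : ℂ) * (Real.sqrt p : ℂ) * DirichletCharacter.LFunction (legendreCharC p) 1 +
      (π : ℂ) * ∑ j : ZMod p, legendreCharC p j * (j.val : ℂ)) * Complex.I_mul_I

omit hp in
theorem sum_legendreCharC_val :
    ∑ j : ZMod p, legendreCharC p j * (j.val : ℂ) =
      ((∑ r ∈ range p, legendreSym p r * r : ℤ) : ℂ) := by
  rw [Int.cast_sum]
  refine (Finset.sum_nbij (fun r : ℕ => (r : ZMod p)) (fun r _ => mem_univ _) ?_ ?_ ?_).symm
  · intro a ha b hb e
    rw [coe_range, Set.mem_Iio] at ha hb
    have := (ZMod.natCast_eq_natCast_iff' a b p).mp e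
    rwa [Nat.mod_eq_of_lt ha, Nat.mod_eq_of_lt hb] at this
  · exact fun j _ => ⟨j.val, by simpa using ZMod.val_lt j, ZMod.natCast_zmod_val j⟩
  · intro r hr
    rw [ZMod.val_natCast, Nat.mod_eq_of_lt (mem_range.mp hr), legendreCharC_natCast]
    push_cast
    ring

theorem legendreSym_sub (r : ℕ) (hr : r ≤ p) :
    legendreSym p ((p - r : ℕ) : ℤ) = -legendreSym p r := by
  have e : ((p - r : ℕ) : ZMod p) = (-1) * (r : ZMod p) := by
    rw [Nat.cast_sub hr, ZMod.natCast_self]; ring
  simp only [legendreSym, Int.cast_natCast]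
  rw [e, map_mul, quadraticChar_neg_one ((ZMod.ringChar_zmod_n p).trans_ne (by omega)), ZMod.card,
    ZMod.χ₄_nat_three_mod_four hp, neg_one_mul]

/-- The classical evaluation of `∑ (r/p) r`. -/
theorem legendre_weighted_sum :
    (2 - legendreSym p 2) * (∑ r ∈ range p, legendreSym p r * r) =
      -((p : ℤ) * ∑ r ∈ Icc 1 (p / 2), legendreSym p r) := by
  set k := p / 2 with hk
  set ε := legendreSym p 2 with hε
  set f : ℕ → ℤ := fun r => legendreSym p r * r with hf
  set U := ∑ r ∈ Icc 1 k, f r with hU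
  set H := ∑ r ∈ Icc 1 k, legendreSym p r with hH
  have hpk : p = 2 * k + 1 := by omega
  have hε2 : ε * ε = 1 := by
    rw [← pow_two]
    refine legendreSym.sq_one p ?_
    rw [show ((2 : ℤ) : ZMod p) = ((2 : ℕ) : ZMod p) by norm_num, Ne, ZMod.natCast_eq_zero_iff]
    intro h
    have := Nat.le_of_dvd two_pos h
    omega
  have hrange : ∑ r ∈ range p, f r = ∑ r ∈ Icc 1 (2 * k), f r := by
    refine (Finset.sum_subset (fun r hr => ?_) fun r hr hr' => ?_).symm
    · simp only [mem_Icc, mem_range] at hr ⊢; omega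
    · simp only [mem_range, mem_Icc, not_and, not_le] at hr hr'
      obtain rfl : r = 0 := by omega
      simp [hf]
  have hsplit : ∀ g : ℕ → ℤ, ∑ r ∈ Icc 1 (2 * k), g r =
      ∑ r ∈ Icc 1 k, (g r + g (p - r)) := by
    intro g
    rw [sum_add_distrib, ← Finset.sum_filter_add_sum_filter_not (Icc 1 (2 * k)) (· ≤ k)]
    congr 1
    · refine Finset.sum_congr ?_ fun _ _ => rfl
      ext r; simp only [mem_filter, mem_Icc]; omega
    · refine Finset.sum_nbij' (fun r => p - r) (fun r => p - r) ?_ ?_ ?_ ?_ ?_ <;>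
        intro r hr <;> simp only [mem_filter, mem_Icc] at hr ⊢ <;> first | omega | congr 1; omega
  have hparity : ∑ r ∈ Icc 1 (2 * k), f r = ∑ r ∈ Icc 1 k, (f (2 * r) + f (p - 2 * r)) := by
    rw [sum_add_distrib, ← Finset.sum_filter_add_sum_filter_not (Icc 1 (2 * k)) (fun r => 2 ∣ r)]
    congr 1
    · refine Finset.sum_nbij' (fun r => r / 2) (fun r => 2 * r) ?_ ?_ ?_ ?_ ?_ <;>
        intro r hr <;> simp only [mem_filter, mem_Icc] at hr ⊢ <;> first | omega | congr 1; omega
    · refine Finset.sum_nbij' (fun r => (p - r) / 2) (fun r => p - 2 * r) ?_ ?_ ?_ ?_ ?_ <;>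
        intro r hr <;> simp only [mem_filter, mem_Icc] at hr ⊢ <;> first | omega | congr 1; omega
  have h1 : ∑ r ∈ Icc 1 (2 * k), f r = 2 * U - p * H := by
    rw [hsplit, hU, hH, Finset.mul_sum, Finset.mul_sum, ← Finset.sum_sub_distrib]
    refine Finset.sum_congr rfl fun r hr => ?_
    have hr' : r ≤ p := by rw [mem_Icc] at hr; omega
    simp only [hf]
    rw [legendreSym_sub hp r hr', Nat.cast_sub hr']
    ring
  have h2 : ∑ r ∈ Icc 1 (2 * k), f r = 4 * ε * U - ε * (p * H) := by
    rw [hparity, hU, hH, Finset.mul_sum, Finset.mul_sum, Finset.mul_sum, ← Finset.sum_sub_distrib]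
    refine Finset.sum_congr rfl fun r hr => ?_
    have hr' : 2 * r ≤ p := by rw [mem_Icc] at hr; omega
    simp only [hf]
    rw [legendreSym_sub hp (2 * r) hr', Nat.cast_sub hr', Nat.cast_mul, Nat.cast_ofNat,
      legendreSym.mul, ← hε]
    ring
  rw [show (∑ r ∈ range p, legendreSym p r * r) = ∑ r ∈ Icc 1 (2 * k), f r from hrange]
  linear_combination 2 * h1 - ε * h2 + (p * H - 4 * U) * hε2

omit [Fact p.Prime] in
theorem jacobiSym_neg_eq {m : ℕ} (hm : Odd m) : jacobiSym (-(p : ℤ)) m = jacobiSym (m : ℤ) p := by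
  rw [jacobiSym.neg _ hm]
  have hm2 := Nat.odd_iff.mp hm
  rcases (show m % 4 = 1 ∨ m % 4 = 3 by omega) with h | h
  · rw [ZMod.χ₄_nat_one_mod_four h, one_mul,
      jacobiSym.quadratic_reciprocity_one_mod_four' (Nat.odd_iff.mpr (by omega)) h]
  · rw [ZMod.χ₄_nat_three_mod_four h, jacobiSym.quadratic_reciprocity_three_mod_four hp h]
    ring

theorem signChar_eq_changeLevel [NeZero p] :
    signChar p = DirichletCharacter.changeLevel (dvd_mul_left p 4) (legendreCharC p) := by
  have : NeZero (4 * p) := ⟨by omega⟩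
  refine MulChar.ext fun u => ?_
  rw [DirichletCharacter.changeLevel_eq_cast_of_dvd]
  obtain ⟨m, hm, hmc⟩ : ∃ m : ℕ, (m : ZMod (4 * p)) = (u : ZMod (4 * p)) ∧ m.Coprime (4 * p) :=
    ⟨(u : ZMod (4 * p)).val, ZMod.natCast_zmod_val _, ZMod.val_coe_unit_coprime u⟩
  have hodd : Odd m :=
    Nat.coprime_two_right.mp (hmc.coprime_dvd_right ⟨2 * p, by ring⟩)
  rw [← hm, ZMod.cast_natCast (dvd_mul_left p 4), signChar, FA.Twists.twistChar_natCast _ hmc,
    jacobiSym_neg_eq hp hodd, legendreCharC_natCast, jacobiSym.legendreSym.to_jacobiSym]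

/-- **Dirichlet**: the class number is the excess of residues below `p / 2`. -/
theorem card_cl_eq_sum_legendre [NeZero p] :
    (Nat.card (Cl p) : ℤ) = ∑ r ∈ Icc 1 (p / 2), legendreSym p r := by
  have hpp : p.Prime := Fact.out
  have : NeZero (4 * p) := ⟨by omega⟩
  have h := lFunction_one_eq (n := p) hpp.one_lt
  rw [signChar_eq_changeLevel hp,
    DirichletCharacter.LFunction_changeLevel _ _ (Or.inl (legendreCharC_ne_one hp))] at h
  have hpf : (4 * p).primeFactors = {2, p} := by
    rw [Nat.primeFactors_mul (by norm_num) hpp.ne_zero, show (4 : ℕ) = 2 ^ 2 by norm_num,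
      Nat.primeFactors_prime_pow two_ne_zero Nat.prime_two, hpp.primeFactors]
    rfl
  rw [hpf, Finset.prod_pair (by omega), ZMod.natCast_self, MulChar.map_zero, zero_mul, sub_zero,
    mul_one, legendreCharC_natCast, lFunction_one_legendreCharC hp, sum_legendreCharC_val,
    Complex.cpow_neg_one] at h
  have hid := congrArg (Int.cast : ℤ → ℂ) (legendre_weighted_sum hp)
  refine Int.cast_injective (α := ℂ) ?_
  push_cast at h hid ⊢
  have hsq : (Real.sqrt p : ℂ) ≠ 0 :=
    Complex.ofReal_ne_zero.mpr (Real.sqrt_pos.mpr (by exact_mod_cast hpp.pos)).ne'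
  have hpC : (p : ℂ) ≠ 0 := by exact_mod_cast hpp.ne_zero
  have hπ : (π : ℂ) ≠ 0 := Complex.ofReal_ne_zero.mpr Real.pi_ne_zero
  field_simp at h
  refine mul_left_cancel₀ hpC ?_
  linear_combination -h - hid

end FA.OrderTheta

namespace FA.Summary

open FA.OrderTheta

variable (p : ℕ) [Fact p.Prime]

/-- **`L(1)` of the Legendre symbol** for `p ≡ 3 (mod 4)`. -/
theorem lFunction_one_legendre (hp : p % 4 = 3) :
    DirichletCharacter.LFunction ((quadraticChar (ZMod p)).ringHomComp (Int.castRingHom ℂ)) 1 =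
      -((π : ℂ) / ((p : ℂ) * (Real.sqrt p : ℂ))) *
        ((∑ r ∈ range p, legendreSym p r * r : ℤ) : ℂ) :=
  (lFunction_one_legendreCharC hp).trans (by rw [sum_legendreCharC_val])

theorem legendre_sum_eq_card_sub (S : Finset ℕ) (hS : ∀ r ∈ S, (r : ZMod p) ≠ 0) :
    ∑ r ∈ S, legendreSym p r =
      ((S.filter fun r : ℕ => IsSquare (r : ZMod p)).card : ℤ) -
        (S.filter fun r : ℕ => ¬ IsSquare (r : ZMod p)).card := by
  rw [← Finset.sum_filter_add_sum_filter_not S fun r : ℕ => IsSquare (r : ZMod p),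
    Finset.sum_congr rfl fun r hr => (legendreSym.eq_one_iff p (by
      simpa using hS r (mem_filter.mp hr).1)).mpr (by simpa using (mem_filter.mp hr).2)]
  rw [Finset.sum_congr (s₁ := S.filter fun r : ℕ => ¬ IsSquare (r : ZMod p)) rfl fun r hr =>
      (legendreSym.eq_neg_one_iff p).mpr (by simpa using (mem_filter.mp hr).2)]
  simp [sub_eq_add_neg]

/-- **Dirichlet's class number formula**: `h(p) = R - N` for the residues in `(0, p/2)`. -/
theorem classNumber_residue_excess [NeZero p] (hp : p % 4 = 3) :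
    Nat.card (Cl p) + ((Icc 1 (p / 2)).filter fun r : ℕ => ¬ IsSquare (r : ZMod p)).card =
      ((Icc 1 (p / 2)).filter fun r : ℕ => IsSquare (r : ZMod p)).card := by
  have h := legendre_sum_eq_card_sub p (Icc 1 (p / 2)) fun r hr => by
    rw [mem_Icc] at hr
    rw [Ne, ZMod.natCast_eq_zero_iff]
    intro hd
    have := Nat.le_of_dvd (by omega) hd
    omega
  rw [← card_cl_eq_sum_legendre hp] at h
  omega

/-- **Dirichlet**: residues are the majority below `p / 2`. -/
theorem residues_majority (hp : p % 4 = 3) :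
    ((Icc 1 (p / 2)).filter fun r : ℕ => ¬ IsSquare (r : ZMod p)).card <
      ((Icc 1 (p / 2)).filter fun r : ℕ => IsSquare (r : ZMod p)).card := by
  have : NeZero p := ⟨(Fact.out : p.Prime).ne_zero⟩
  have := finite_cl (N := p)
  have := classNumber_residue_excess p hp
  have : 0 < Nat.card (Cl p) := Nat.card_pos
  omega

/-- **Dirichlet**: the non-residues have the larger sum. -/
theorem nonresidue_sum_larger (hp : p % 4 = 3) :
    ∑ r ∈ (range p).filter (fun r : ℕ => IsSquare (r : ZMod p)), r <
      ∑ r ∈ (range p).filter (fun r : ℕ => ¬ IsSquare (r : ZMod p)), r := by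
  have : NeZero p := ⟨(Fact.out : p.Prime).ne_zero⟩
  have := finite_cl (N := p)
  have hw := legendre_weighted_sum (p := p) hp
  rw [← card_cl_eq_sum_legendre hp] at hw
  have hcard : (0 : ℤ) < Nat.card (Cl p) := by exact_mod_cast Nat.card_pos
  have hneg : (∑ r ∈ range p, legendreSym p r * r) < 0 := by
    have hε : (0 : ℤ) < 2 - legendreSym p 2 := by
      rcases legendreSym.eq_one_or_neg_one p (a := 2) (by
        rw [show ((2 : ℤ) : ZMod p) = ((2 : ℕ) : ZMod p) by norm_num, Ne, ZMod.natCast_eq_zero_iff]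
        intro hd
        have := Nat.le_of_dvd two_pos hd
        omega) with e | e <;> omega
    have hp0 : (0 : ℤ) < p := by exact_mod_cast (Fact.out : p.Prime).pos
    nlinarith [mul_pos hp0 hcard]
  have key : ∀ r ∈ range p, legendreSym p r * (r : ℤ) =
      (if IsSquare (r : ZMod p) then (r : ℤ) else 0) - (if IsSquare (r : ZMod p) then 0 else (r : ℤ)) := by
    intro r hr
    by_cases h0 : (r : ZMod p) = 0
    · obtain rfl : r = 0 := by
        rw [ZMod.natCast_eq_zero_iff] at h0
        exact Nat.eq_zero_of_dvd_of_lt h0 (mem_range.mp hr)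
      simp
    split_ifs with h
    · rw [(legendreSym.eq_one_iff p (by simpa using h0)).mpr (by simpa using h)]; ring
    · rw [(legendreSym.eq_neg_one_iff p).mpr (by simpa using h)]; ring
  rw [Finset.sum_congr rfl key, Finset.sum_sub_distrib, Finset.sum_ite, Finset.sum_ite] at hneg
  simp only [Finset.sum_const_zero, add_zero, zero_add] at hneg
  have hneg' : ((∑ r ∈ (range p).filter (fun r : ℕ => IsSquare (r : ZMod p)), r : ℕ) : ℤ) <
      ((∑ r ∈ (range p).filter (fun r : ℕ => ¬ IsSquare (r : ZMod p)), r : ℕ) : ℤ) := by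
    push_cast
    linarith
  exact_mod_cast hneg'

end FA.Summary
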