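import Fermat.Agent.ThetaOne.SelfDual
import Fermat.Agent.Root.SummaryClassNumberModFour
import Fermat.Agent.Root.SummaryResidueExcess

/-!
# Dirichlet: class numbers and quadratic residues below `p / 4`

For a prime `p ≡ 1 (mod 4)`:

* `classNumber_quarter_excess`: `h(p)`, the number of reduced forms of determinant `p`, is twice the
  number of residues minus the number of non-residues in `(0, p/4)`.
* `quarter_residues_majority`, `quarter_excess_parity`: residues are the majority there, by an odd
  amount exactly when `p ≡ 5 (mod 8)`.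
-/

set_option autoImplicit false

noncomputable section

open Finset
open scoped Real ZMod

namespace FA.OrderTheta

variable {p : ℕ} [Fact p.Prime] (hp : p % 4 = 1)

/-- `χ₄(m) (m / p)`. -/
def fourSym (p : ℕ) [Fact p.Prime] (m : ℕ) : ℤ := ZMod.χ₄ (m : ZMod 4) * legendreSym p m

theorem fourLegendre_eq_fourSym (m : ℕ) :
    fourLegendre p (m : ZMod (4 * p)) = ((fourSym p m : ℤ) : ℂ) := by
  rw [fourLegendre_natCast, legendreMulC_natCast, fourSym, Int.cast_mul]
  rfl

include hp

theorem legendreSym_sub_even {r : ℕ} (hr : r ≤ p) :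
    legendreSym p ((p - r : ℕ) : ℤ) = legendreSym p r := by
  have e : ((p - r : ℕ) : ZMod p) = (-1) * (r : ZMod p) := by
    rw [Nat.cast_sub hr, ZMod.natCast_self]; ring
  simp only [legendreSym, Int.cast_natCast]
  rw [e, map_mul, quadraticChar_neg_one ((ZMod.ringChar_zmod_n p).trans_ne (by omega)), ZMod.card,
    ZMod.χ₄_nat_one_mod_four hp, one_mul]

theorem fourSym_add_two_mul (m : ℕ) : fourSym p (m + 2 * p) = -fourSym p m := by
  have h1 : legendreSym p ((m + 2 * p : ℕ) : ℤ) = legendreSym p m := by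
    simp [legendreSym]
  rw [fourSym, fourSym, h1, ZMod.χ₄_nat_eq_if_mod_four, ZMod.χ₄_nat_eq_if_mod_four]
  rcases (show m % 4 = 0 ∨ m % 4 = 1 ∨ m % 4 = 2 ∨ m % 4 = 3 by omega) with e | e | e | e <;>
    split_ifs <;> omega

theorem fourSym_two_mul_sub {m : ℕ} (hm : m ≤ p) : fourSym p (2 * p - m) = fourSym p m := by
  have h1 : legendreSym p ((2 * p - m : ℕ) : ℤ) = legendreSym p m := by
    rw [← legendreSym_sub_even hp hm]
    simp only [legendreSym, Int.cast_natCast]
    rw [show 2 * p - m = p + (p - m) by omega, Nat.cast_add, ZMod.natCast_self, zero_add]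
  rw [fourSym, fourSym, h1, ZMod.χ₄_nat_eq_if_mod_four, ZMod.χ₄_nat_eq_if_mod_four]
  split_ifs <;> omega

theorem fourSym_weighted_sum :
    ∑ j ∈ range (4 * p), fourSym p j * j = -(4 * (p : ℤ)) * ∑ j ∈ range p, fourSym p j := by
  rw [show 4 * p = 2 * p + 2 * p by omega, sum_range_add, ← sum_add_distrib,
    Finset.sum_congr rfl fun j (_ : j ∈ range (2 * p)) =>
      show fourSym p j * (j : ℤ) + fourSym p (2 * p + j) * ((2 * p + j : ℕ) : ℤ) =
          -(2 * (p : ℤ)) * fourSym p j by
        rw [add_comm (2 * p) j, fourSym_add_two_mul hp]; push_cast; ring,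
    ← Finset.mul_sum, show 2 * p = p + p by omega, sum_range_add]
  have h : ∑ j ∈ range p, fourSym p (p + j) = ∑ j ∈ range p, fourSym p j := by
    have h1 : ∑ j ∈ range p, fourSym p (p + j) = ∑ j ∈ range p, fourSym p (j + 1) := by
      rw [← Finset.sum_range_reflect]
      refine Finset.sum_congr rfl fun j hj => ?_
      rw [mem_range] at hj
      rw [← fourSym_two_mul_sub hp (show j + 1 ≤ p by omega)]
      congr 1
      omega
    have h2 := Finset.sum_range_succ' (fun j => fourSym p j) p
    rw [Finset.sum_range_succ, show fourSym p p = 0 by simp [fourSym, legendreSym],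
      show fourSym p 0 = 0 by simp [fourSym, legendreSym], add_zero, add_zero] at h2
    rw [h1, ← h2]
  rw [h]
  ring

theorem fourSym_half_sum :
    ∑ j ∈ range p, fourSym p j = 2 * ∑ r ∈ Icc 1 (p / 4), legendreSym p r := by
  set L : ℕ → ℤ := fun i => ∑ j ∈ (range p).filter (fun j => j % 4 = i), legendreSym p j with hL
  set S := ∑ r ∈ Icc 1 (p / 4), legendreSym p r with hS
  have hfour : ∀ f : ℕ → ℤ, ∑ j ∈ range p, f j =
      ∑ i ∈ range 4, ∑ j ∈ (range p).filter (fun j => j % 4 = i), f j := fun f =>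
    (Finset.sum_fiberwise_of_maps_to (fun j _ => mem_range.mpr (Nat.mod_lt j (by norm_num))) f).symm
  have h4 : ∀ r : ℕ, legendreSym p ((4 * r : ℕ) : ℤ) = legendreSym p r := by
    intro r
    rw [Nat.cast_mul, legendreSym.mul, show ((4 : ℕ) : ℤ) = 2 ^ 2 by norm_num, legendreSym.sq_one',
      one_mul]
    rw [show ((2 : ℤ) : ZMod p) = ((2 : ℕ) : ZMod p) by norm_num, Ne, ZMod.natCast_eq_zero_iff]
    intro hd
    have := Nat.le_of_dvd two_pos hd
    have := (Fact.out : p.Prime).two_le
    omega
  have hL1 : L 1 = S := by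
    refine Finset.sum_nbij' (fun j => (p - j) / 4) (fun r => p - 4 * r) ?_ ?_ ?_ ?_ ?_ <;>
      intro j hj <;> simp only [mem_filter, mem_range, mem_Icc] at hj ⊢
    · omega
    · omega
    · omega
    · omega
    · rw [← legendreSym_sub_even hp hj.1.le, show p - j = 4 * ((p - j) / 4) by omega, h4,
        show (4 * ((p - j) / 4)) / 4 = (p - j) / 4 by omega]
  have hL0 : L 0 = S := by
    have hins : (range p).filter (fun j => j % 4 = 0) =
        insert 0 (((range p).filter fun j => j % 4 = 0).erase 0) := by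
      rw [Finset.insert_erase (by simp [(Fact.out : p.Prime).pos])]
    simp only [hL]
    rw [hins, Finset.sum_insert (by simp), show legendreSym p ((0 : ℕ) : ℤ) = 0 by simp [legendreSym],
      zero_add]
    refine Finset.sum_nbij' (fun j => j / 4) (fun r => 4 * r) ?_ ?_ ?_ ?_ ?_ <;>
      intro j hj <;> simp only [mem_erase, mem_filter, mem_range, mem_Icc] at hj ⊢
    · omega
    · omega
    · omega
    · omega
    · conv_lhs => rw [show j = 4 * (j / 4) by omega]
      rw [h4]
  have hL2 : L 2 = L 3 := by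
    refine Finset.sum_nbij' (fun j => p - j) (fun j => p - j) ?_ ?_ ?_ ?_ ?_ <;>
      intro j hj <;> simp only [mem_filter, mem_range] at hj ⊢
    · omega
    · omega
    · omega
    · omega
    · exact (legendreSym_sub_even hp hj.1.le).symm
  have hall : ∑ j ∈ range p, legendreSym p j = 0 := by
    have h := quadraticChar_sum_zero (F := ZMod p) ((ZMod.ringChar_zmod_n p).trans_ne (by omega))
    rw [← h]
    refine Finset.sum_nbij (fun j : ℕ => (j : ZMod p)) (fun j _ => mem_univ _) ?_ ?_ ?_
    · intro a ha b hb e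
      rw [coe_range, Set.mem_Iio] at ha hb
      have := (ZMod.natCast_eq_natCast_iff' a b p).mp e
      rwa [Nat.mod_eq_of_lt ha, Nat.mod_eq_of_lt hb] at this
    · exact fun x _ => ⟨x.val, by simpa using ZMod.val_lt x, ZMod.natCast_zmod_val x⟩
    · intro j _
      simp [legendreSym]
  rw [hfour, sum_range_succ, sum_range_succ, sum_range_succ, sum_range_one] at hall
  have hclass : ∀ i : ℕ, i < 4 → ∑ j ∈ (range p).filter (fun j => j % 4 = i), fourSym p j =
      ZMod.χ₄ (i : ZMod 4) * L i := fun i hi => by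
    simp only [hL]
    rw [Finset.mul_sum]
    refine Finset.sum_congr rfl fun j hj => ?_
    rw [fourSym, ← ZMod.natCast_mod j 4, (mem_filter.mp hj).2]
  rw [hfour, sum_range_succ, sum_range_succ, sum_range_succ, sum_range_one, hclass 0 (by norm_num),
    hclass 1 (by norm_num), hclass 2 (by norm_num), hclass 3 (by norm_num),
    show ZMod.χ₄ ((0 : ℕ) : ZMod 4) = 0 by decide, show ZMod.χ₄ ((1 : ℕ) : ZMod 4) = 1 by decide,
    show ZMod.χ₄ ((2 : ℕ) : ZMod 4) = 0 by decide, show ZMod.χ₄ ((3 : ℕ) : ZMod 4) = -1 by decide]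
  change L 0 + L 1 + L 2 + L 3 = 0 at hall
  linarith

/-- **Dirichlet**: the class number is twice the excess of residues below `p / 4`. -/
theorem card_cl_eq_two_mul_quarter [NeZero p] :
    (Nat.card (Cl p) : ℤ) = 2 * ∑ r ∈ Icc 1 (p / 4), legendreSym p r := by
  have hpp : p.Prime := Fact.out
  have : NeZero (4 * p) := ⟨by omega⟩
  have hchar : signChar p = fourLegendre p := by
    refine MulChar.ext fun u => ?_
    obtain ⟨m, hm, hmc⟩ : ∃ m : ℕ, (m : ZMod (4 * p)) = (u : ZMod (4 * p)) ∧ m.Coprime (4 * p) :=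
      ⟨(u : ZMod (4 * p)).val, ZMod.natCast_zmod_val _, ZMod.val_coe_unit_coprime u⟩
    have hodd : Odd m := Nat.coprime_two_right.mp (hmc.coprime_dvd_right ⟨2 * p, by ring⟩)
    rw [← hm, fourLegendre_eq_fourSym, fourSym, signChar, FA.Twists.twistChar_natCast _ hmc,
      jacobiSym.neg _ hodd, jacobiSym.quadratic_reciprocity_one_mod_four hp hodd,
      ← jacobiSym.legendreSym.to_jacobiSym]
  have h := lFunction_one_eq (n := p) hpp.one_lt
  rw [hchar] at h
  have hL : DirichletCharacter.LFunction (fourLegendre p) 1 = _ :=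
    lFunction_one_selfDual (fourLegendre_odd hp) (dft_fourLegendre hp)
  have hA : ∑ j : ZMod (4 * p), fourLegendre p j * (j.val : ℂ) =
      ((∑ j ∈ range (4 * p), fourSym p j * j : ℤ) : ℂ) := by
    rw [Int.cast_sum]
    refine (Finset.sum_nbij (fun r : ℕ => (r : ZMod (4 * p))) (fun r _ => mem_univ _) ?_ ?_ ?_).symm
    · intro a ha b hb e
      rw [coe_range, Set.mem_Iio] at ha hb
      have := (ZMod.natCast_eq_natCast_iff' a b (4 * p)).mp e
      rwa [Nat.mod_eq_of_lt ha, Nat.mod_eq_of_lt hb] at this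
    · exact fun j _ => ⟨j.val, by simpa using ZMod.val_lt j, ZMod.natCast_zmod_val j⟩
    · intro r hr
      rw [ZMod.val_natCast, Nat.mod_eq_of_lt (mem_range.mp hr), fourLegendre_eq_fourSym]
      push_cast
      ring
  rw [hA, fourSym_weighted_sum hp, fourSym_half_sum hp, h] at hL
  refine Int.cast_injective (α := ℂ) ?_
  have hsqrt : Real.sqrt ((4 * p : ℕ) : ℝ) = 2 * Real.sqrt p := by
    rw [Nat.cast_mul, Nat.cast_ofNat, Real.sqrt_mul (by norm_num),
      show (4 : ℝ) = 2 ^ 2 by norm_num, Real.sqrt_sq zero_le_two]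
  rw [hsqrt] at hL
  push_cast at hL ⊢
  have hsq : (Real.sqrt p : ℂ) ≠ 0 :=
    Complex.ofReal_ne_zero.mpr (Real.sqrt_pos.mpr (by exact_mod_cast hpp.pos)).ne'
  have hpC : (p : ℂ) ≠ 0 := by exact_mod_cast hpp.ne_zero
  have hπ : (π : ℂ) ≠ 0 := Complex.ofReal_ne_zero.mpr Real.pi_ne_zero
  field_simp at hL
  linear_combination hL

end FA.OrderTheta

namespace FA.Summary

open FA.OrderTheta

variable (p : ℕ) [Fact p.Prime] [NeZero p]

/-- **Dirichlet's class number formula in the first quarter.** -/
theorem classNumber_quarter_excess (hp : p % 4 = 1) :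
    Nat.card (Cl p) + 2 * ((Icc 1 (p / 4)).filter fun r : ℕ => ¬ IsSquare (r : ZMod p)).card =
      2 * ((Icc 1 (p / 4)).filter fun r : ℕ => IsSquare (r : ZMod p)).card := by
  have h := legendre_sum_eq_card_sub p (Icc 1 (p / 4)) fun r hr => by
    rw [mem_Icc] at hr
    rw [Ne, ZMod.natCast_eq_zero_iff]
    intro hd
    have := Nat.le_of_dvd (by omega) hd
    omega
  have h' := card_cl_eq_two_mul_quarter (p := p) hp
  omega

/-- Residues are the majority in the first quarter. -/
theorem quarter_residues_majority (hp : p % 4 = 1) :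
    ((Icc 1 (p / 4)).filter fun r : ℕ => ¬ IsSquare (r : ZMod p)).card <
      ((Icc 1 (p / 4)).filter fun r : ℕ => IsSquare (r : ZMod p)).card := by
  have := finite_cl (N := p)
  have := classNumber_quarter_excess p hp
  have : 0 < Nat.card (Cl p) := Nat.card_pos
  omega

/-- The excess is odd exactly for `p ≡ 5 (mod 8)`. -/
theorem quarter_excess_parity (hp : p % 4 = 1) :
    Odd (((Icc 1 (p / 4)).filter fun r : ℕ => IsSquare (r : ZMod p)).card -
      ((Icc 1 (p / 4)).filter fun r : ℕ => ¬ IsSquare (r : ZMod p)).card) ↔ p % 8 = 5 := by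
  have h := classNumber_quarter_excess p hp
  obtain ⟨-, h5, h1⟩ := classNumber_prime_mod_four p Fact.out
  rw [Nat.odd_iff]
  rcases (show p % 8 = 1 ∨ p % 8 = 5 by omega) with e | e
  · obtain ⟨c, hc⟩ := h1 e
    omega
  · have := h5 e
    omega

end FA.Summary
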