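import Fermat.Agent.Root.SummaryResidueExcess
import Fermat.Agent.Root.SummaryQuarterExcess
import Fermat.Agent.ThetaOne.LValueOne
import Mathlib.NumberTheory.Harmonic.Bounds

/-!
# The Pólya–Vinogradov inequality

* `polyaVinogradov`: for a primitive character modulo `N > 1` the sum over any interval has absolute
  value at most `√N (1 + log N)`.
* `legendre_interval_bound`: residues and non-residues in any interval differ by at most
  `√p (1 + log p)`.
* `classNumber_upper_bound`: `h(p) ≤ 2 √p (1 + log p)`, and half that for `p ≡ 3 (mod 4)`.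
-/

set_option autoImplicit false

noncomputable section

open Finset
open scoped Real ZMod

namespace FA.OrderTheta

theorem norm_gaussSum_primitive {N : ℕ} [NeZero N] (hN : 1 < N) {χ : DirichletCharacter ℂ N}
    (hχ : χ.IsPrimitive) : ‖gaussSum χ ZMod.stdAddChar‖ = Real.sqrt N := by
  have : Fact (1 < N) := ⟨hN⟩
  have hχ' : χ⁻¹.IsPrimitive := (DirichletCharacter.conductor_inv χ).trans hχ
  set τ := gaussSum χ ZMod.stdAddChar with hτ
  set τ' := gaussSum χ⁻¹ ZMod.stdAddChar with hτ'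
  have e : 𝓕 (χ : ZMod N → ℂ) = fun k => (τ * χ⁻¹ (-1)) * χ⁻¹ k := by
    funext k
    rw [hχ.fourierTransform_eq_inv_mul_gaussSum, ← neg_one_mul k, map_mul]
    ring
  have h1 : 𝓕 ((χ⁻¹ : DirichletCharacter ℂ N) : ZMod N → ℂ) = fun k => (χ (-1) * τ') * χ k := by
    funext k
    rw [hχ'.fourierTransform_eq_inv_mul_gaussSum, inv_inv, ← neg_one_mul k, map_mul]
    ring
  have h := congrFun (ZMod.dft_dft (χ : ZMod N → ℂ)) 1
  rw [e, ZMod.dft_const_mul, h1] at h
  simp only [map_one, mul_one, smul_eq_mul] at h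
  have hu : χ⁻¹ (-1) * χ (-1) = 1 := by
    rw [← MulChar.mul_apply, inv_mul_cancel, MulChar.one_apply isUnit_one.neg]
  have hconj : (starRingEnd ℂ) τ = χ (-1) * τ' := by
    rw [hτ, hτ', gaussSum, gaussSum, map_sum, Finset.mul_sum]
    refine Fintype.sum_equiv (Equiv.neg _) _ _ fun a => ?_
    have hc : (starRingEnd ℂ) (χ a) = χ⁻¹ a := MulChar.star_apply' χ a
    have hψ : (starRingEnd ℂ) (ZMod.stdAddChar a) = ZMod.stdAddChar (-a) := by
      rw [AddChar.map_neg_eq_inv]
      exact (Complex.inv_eq_conj (by rw [← circlePoint_val, norm_circlePoint])).symm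
    rw [map_mul, hc, hψ, Equiv.neg_apply, ← neg_one_mul a, map_mul χ⁻¹]
    linear_combination (-(χ⁻¹ a * ZMod.stdAddChar (-1 * a))) * hu
  have hsq : ((‖τ‖ ^ 2 : ℝ) : ℂ) = (N : ℂ) := by
    rw [Complex.ofReal_pow, ← Complex.mul_conj', hconj]
    have hm : χ (-1) * χ (-1) = 1 := by rw [← map_mul, neg_mul_neg, one_mul, map_one]
    linear_combination χ (-1) * h - τ * χ (-1) * τ' * hu + (N : ℂ) * hm
  have hsq' : ‖τ‖ ^ 2 = (N : ℝ) := by exact_mod_cast hsq
  rw [← hsq', Real.sqrt_sq (norm_nonneg _)]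

theorem two_div_norm_le {N : ℕ} [NeZero N] {j : ZMod N} (hj : j ≠ 0) :
    2 / ‖ZMod.stdAddChar j - 1‖ ≤ (N : ℝ) / 2 * ((j.val : ℝ)⁻¹ + ((N - j.val : ℕ) : ℝ)⁻¹) := by
  have hN : (0 : ℝ) < N := by exact_mod_cast NeZero.pos N
  set v := j.val with hv
  have hv0 : 0 < v := Nat.pos_of_ne_zero ((ZMod.val_ne_zero j).mpr hj)
  have hvN : v < N := ZMod.val_lt j
  have hsin : ∀ m : ℕ, 0 < m → 2 * m ≤ N → 2 / (2 * Real.sin (π * ((m : ℝ) / N))) ≤
      (N : ℝ) / 2 * (m : ℝ)⁻¹ := by
    intro m hm hm2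
    have hm' : (0 : ℝ) < m := by exact_mod_cast hm
    have h1 : π * ((m : ℝ) / N) ≤ π / 2 := by
      rw [← mul_div_assoc, div_le_div_iff₀ hN two_pos, mul_assoc]
      exact mul_le_mul_of_nonneg_left (by exact_mod_cast (show m * 2 ≤ N by omega)) Real.pi_pos.le
    have h2 := Real.mul_le_sin (by positivity) h1
    rw [show 2 / π * (π * ((m : ℝ) / N)) = 2 * m / N by field_simp] at h2
    rw [show (N : ℝ) / 2 * (m : ℝ)⁻¹ = 2 / (2 * (2 * m / N)) by field_simp]
    gcongr
  have hx := val_div_mem_Ioo hj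
  rw [← circlePoint_val, norm_sub_rev, one_sub_circlePoint, norm_mul, Complex.norm_real,
    Complex.norm_exp_ofReal_mul_I, mul_one,
    Real.norm_of_nonneg (by have := sin_pi_mul_pos hx; linarith)]
  rcases le_total (2 * v) N with hle | hle
  · refine (hsin v hv0 hle).trans ?_
    gcongr
    exact le_add_of_nonneg_right (by positivity)
  · have e : Real.sin (π * ((v : ℝ) / N)) = Real.sin (π * (((N - v : ℕ) : ℝ) / N)) := by
      rw [Nat.cast_sub hvN.le, sub_div, div_self hN.ne', mul_sub, mul_one, Real.sin_pi_sub]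
    rw [e]
    refine (hsin (N - v) (by omega) (by omega)).trans ?_
    gcongr
    exact le_add_of_nonneg_left (by positivity)

theorem sum_two_div_norm_le {N : ℕ} [NeZero N] :
    ∑ j ∈ (univ : Finset (ZMod N)).erase 0, 2 / ‖ZMod.stdAddChar j - 1‖ ≤
      (N : ℝ) * (1 + Real.log N) := by
  refine (Finset.sum_le_sum fun j hj => two_div_norm_le (mem_erase.mp hj).1).trans ?_
  rw [← mul_sum, sum_add_distrib]
  have e1 : ∑ j ∈ (univ : Finset (ZMod N)).erase 0, (j.val : ℝ)⁻¹ =
      ∑ r ∈ Icc 1 (N - 1), (r : ℝ)⁻¹ := by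
    refine Finset.sum_nbij' (fun j => j.val) (fun r : ℕ => (r : ZMod N)) ?_ ?_ ?_ ?_ ?_
    · intro j hj
      have := Nat.pos_of_ne_zero ((ZMod.val_ne_zero j).mpr (mem_erase.mp hj).1)
      have := ZMod.val_lt j
      rw [mem_Icc]; omega
    · intro r hr
      rw [mem_Icc] at hr
      refine mem_erase.mpr ⟨fun h => ?_, mem_univ _⟩
      have h' := congrArg ZMod.val h
      rw [ZMod.val_natCast, Nat.mod_eq_of_lt (by omega), ZMod.val_zero] at h'
      omega
    · exact fun j _ => ZMod.natCast_zmod_val j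
    · intro r hr
      rw [mem_Icc] at hr
      rw [ZMod.val_natCast, Nat.mod_eq_of_lt (by omega)]
    · exact fun j _ => rfl
  have e2 : ∑ j ∈ (univ : Finset (ZMod N)).erase 0, ((N - j.val : ℕ) : ℝ)⁻¹ =
      ∑ j ∈ (univ : Finset (ZMod N)).erase 0, (j.val : ℝ)⁻¹ := by
    refine Finset.sum_nbij' (fun j => -j) (fun j => -j) ?_ ?_ (fun j _ => neg_neg j)
      (fun j _ => neg_neg j) ?_
    · exact fun j hj => mem_erase.mpr ⟨neg_ne_zero.mpr (mem_erase.mp hj).1, mem_univ _⟩
    · exact fun j hj => mem_erase.mpr ⟨neg_ne_zero.mpr (mem_erase.mp hj).1, mem_univ _⟩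
    · intro j hj
      rw [ZMod.neg_val, if_neg (mem_erase.mp hj).1]
  have hH : ∑ r ∈ Icc 1 (N - 1), (r : ℝ)⁻¹ ≤ 1 + Real.log N := by
    have h := harmonic_le_one_add_log N
    rw [harmonic_eq_sum_Icc, Rat.cast_sum] at h
    refine le_trans (b := ∑ r ∈ Icc 1 N, (r : ℝ)⁻¹) ?_ (le_trans (le_of_eq ?_) h)
    · exact Finset.sum_le_sum_of_subset_of_nonneg (Icc_subset_Icc le_rfl (Nat.sub_le N 1))
        fun r _ _ => by positivity
    · exact Finset.sum_congr rfl fun r _ => by push_cast; rfl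
  rw [e2, e1]
  have : (0 : ℝ) ≤ (N : ℝ) := Nat.cast_nonneg N
  nlinarith

end FA.OrderTheta

namespace FA.Summary

open FA.OrderTheta

/-- **The Pólya–Vinogradov inequality.** -/
theorem polyaVinogradov {N : ℕ} [NeZero N] (hN : 1 < N) {χ : DirichletCharacter ℂ N}
    (hχ : χ.IsPrimitive) (M : ℤ) (L : ℕ) :
    ‖∑ i ∈ range L, χ ((M + i : ℤ) : ZMod N)‖ ≤ Real.sqrt N * (1 + Real.log N) := by
  have : Fact (1 < N) := ⟨hN⟩
  have hχ' : χ⁻¹.IsPrimitive := (DirichletCharacter.conductor_inv χ).trans hχ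
  set τ' := gaussSum χ⁻¹ ZMod.stdAddChar with hτ'
  have key : τ' * ∑ i ∈ range L, χ ((M + i : ℤ) : ZMod N) = ∑ j : ZMod N,
      χ⁻¹ j * (ZMod.stdAddChar (j * (M : ZMod N)) * ∑ i ∈ range L, (ZMod.stdAddChar j) ^ i) := by
    rw [Finset.mul_sum]
    simp only [Finset.mul_sum]
    rw [Finset.sum_comm]
    refine Finset.sum_congr rfl fun i _ => ?_
    have h := hχ'.fourierTransform_eq_inv_mul_gaussSum (-(((M + i : ℤ)) : ZMod N))
    rw [inv_inv, neg_neg, ZMod.dft_apply] at h
    rw [mul_comm, ← h]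
    refine Finset.sum_congr rfl fun j _ => ?_
    rw [mul_neg, neg_neg, Int.cast_add, Int.cast_natCast, mul_add, AddChar.map_add_eq_mul,
      ← AddChar.map_nsmul_eq_pow, nsmul_eq_mul, mul_comm j (i : ZMod N), smul_eq_mul]
    ring
  have hsqrt : 0 < Real.sqrt N := Real.sqrt_pos.mpr (by exact_mod_cast NeZero.pos N)
  have hbound : Real.sqrt N * ‖∑ i ∈ range L, χ ((M + i : ℤ) : ZMod N)‖ ≤
      (N : ℝ) * (1 + Real.log N) := by
    rw [← norm_gaussSum_primitive hN hχ', ← norm_mul, key,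
      ← Finset.sum_erase_add _ _ (mem_univ (0 : ZMod N)), MulChar.map_zero, zero_mul, add_zero]
    refine (norm_sum_le _ _).trans (le_trans (Finset.sum_le_sum fun j hj => ?_) sum_two_div_norm_le)
    have hj := (mem_erase.mp hj).1
    have hne : ZMod.stdAddChar j ≠ (1 : ℂ) := fun h =>
      hj (ZMod.injective_stdAddChar (h.trans (AddChar.map_zero_eq_one _).symm))
    have hn1 : ∀ a : ZMod N, ‖(ZMod.stdAddChar a : ℂ)‖ = 1 := fun a => by
      rw [← circlePoint_val, norm_circlePoint]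
    rw [norm_mul, norm_mul, hn1, one_mul, geom_sum_eq hne, norm_div]
    refine le_trans (mul_le_of_le_one_left (by positivity) (DirichletCharacter.norm_le_one _ j)) ?_
    gcongr
    exact (norm_sub_le _ _).trans (by rw [norm_pow, hn1, one_pow, norm_one]; norm_num)
  refine le_of_mul_le_mul_left (hbound.trans (le_of_eq ?_)) hsqrt
  rw [← mul_assoc, Real.mul_self_sqrt (Nat.cast_nonneg N)]

variable (p : ℕ) [Fact p.Prime]

/-- Residues and non-residues are equally frequent in every interval up to `√p (1 + log p)`. -/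
theorem legendre_interval_bound (hp : p ≠ 2) (M : ℤ) (L : ℕ) :
    |((∑ i ∈ range L, legendreSym p (M + i) : ℤ) : ℝ)| ≤ Real.sqrt p * (1 + Real.log p) := by
  have hne : legendreCharC p ≠ 1 := fun e => by
    obtain ⟨a, ha⟩ := quadraticChar_exists_neg_one ((ZMod.ringChar_zmod_n p).trans_ne hp)
    have h := congrArg (fun χ : DirichletCharacter ℂ p => χ a) e
    have ha0 : a ≠ 0 := fun h0 => by rw [h0, MulChar.map_zero] at ha; norm_num at ha
    simp only [MulChar.one_apply (Ne.isUnit ha0), legendreCharC_apply, ha] at h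
    norm_num at h
  have h := polyaVinogradov (Fact.out : p.Prime).one_lt (isPrimitive_of_ne_one p hne) M L
  have e : ∑ i ∈ range L, legendreCharC p ((M + i : ℤ) : ZMod p) =
      (((∑ i ∈ range L, legendreSym p (M + i) : ℤ) : ℝ) : ℂ) := by
    push_cast
    exact Finset.sum_congr rfl fun i _ => by
      rw [legendreCharC_apply, legendreSym]; push_cast; rfl
  rwa [e, Complex.norm_real, Real.norm_eq_abs] at h

/-- **An upper bound for the class number.** -/
theorem classNumber_upper_bound [NeZero p] (hp : p ≠ 2) :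
    (Nat.card (Cl p) : ℝ) ≤ 2 * (Real.sqrt p * (1 + Real.log p)) ∧
      (p % 4 = 3 → (Nat.card (Cl p) : ℝ) ≤ Real.sqrt p * (1 + Real.log p)) := by
  have hodd := (Fact.out : p.Prime).eq_two_or_odd.resolve_left hp
  have hbound : ∀ k : ℕ, ((∑ r ∈ Icc 1 k, legendreSym p r : ℤ) : ℝ) ≤
      Real.sqrt p * (1 + Real.log p) := by
    intro k
    have e : ∑ r ∈ Icc 1 k, legendreSym p r = ∑ i ∈ range k, legendreSym p (1 + i) := by
      refine Finset.sum_nbij' (fun r => r - 1) (fun i => i + 1) ?_ ?_ ?_ ?_ ?_ <;>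
        intro r hr <;> simp only [mem_Icc, mem_range] at hr ⊢
      · omega
      · omega
      · omega
      · omega
      · congr 1; omega
    rw [e]
    exact le_trans (le_abs_self _) (legendre_interval_bound p hp 1 k)
  have hpos : 0 ≤ Real.sqrt p * (1 + Real.log p) := by
    have : 0 ≤ Real.log p := Real.log_nonneg (by exact_mod_cast (Fact.out : p.Prime).one_lt.le)
    positivity
  rcases (show p % 4 = 1 ∨ p % 4 = 3 by omega) with h4 | h4
  · refine ⟨?_, fun h => by omega⟩
    have h := card_cl_eq_two_mul_quarter (p := p) h4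
    have h' : (Nat.card (Cl p) : ℝ) = 2 * ((∑ r ∈ Icc 1 (p / 4), legendreSym p r : ℤ) : ℝ) := by
      exact_mod_cast h
    rw [h']
    linarith [hbound (p / 4)]
  · have h := card_cl_eq_sum_legendre (p := p) h4
    have h' : (Nat.card (Cl p) : ℝ) = ((∑ r ∈ Icc 1 (p / 2), legendreSym p r : ℤ) : ℝ) := by
      exact_mod_cast h
    exact ⟨by rw [h']; linarith [hbound (p / 2)], fun _ => by rw [h']; exact hbound _⟩

end FA.Summary
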