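import Fermat.Agent.SiegelWalfisz.Applications

/-!
# The Siegel-Walfisz theorem

`ψ (x; q, a) = x / φ q + O (x exp (-c (log x) ^ (1/15)))` uniformly for `q ≤ (log x) ^ A` and `a`
prime to `q`, so every such class has a prime `≤ C exp (q ^ ε)`; `L (s, χ) ≠ 0` for
`re s ≥ 1 - c q ^ (-ε) / log (q (|im s| + 100)) ^ 12` (Siegel, 1935; Walfisz, 1936).

The constants are INEFFECTIVE (they come from Siegel's lower bound for `L (1, χ)`). The exponents
`1/15` and `12` are those of the elementary `3-4-1` argument, not the classical `1/2` and `1`.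
-/

set_option autoImplicit false

namespace FA.SiegelWalfisz.Summary

open Real
open scoped ArithmeticFunction.vonMangoldt

/-- **The Siegel-Walfisz theorem**. -/
theorem siegel_walfisz (A : ℝ) (hA : 0 < A) : ∃ c C : ℝ, 0 < c ∧ 0 < C ∧
    ∀ (q : ℕ) [NeZero q] (a : ZMod q), IsUnit a → ∀ x : ℝ, 2 ≤ x → (q : ℝ) ≤ log x ^ A →
      |(∑ n ∈ (Finset.Icc 1 ⌊x⌋₊).filter (fun n : ℕ => (n : ZMod q) = a), Λ n) - x / q.totient| ≤
        C * x * exp (-(c * log x ^ (1 / 15 : ℝ))) := by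
  obtain ⟨c, C, hc, hC, h⟩ := exists_psiClass_error A hA
  refine ⟨c, C, hc, hC, fun q _ a ha x hx hq => ?_⟩
  have h1 := h q a ha x hx hq
  rw [inv_mul_eq_div] at h1
  have e : PNT.psiClass a x =
      ∑ n ∈ (Finset.Icc 1 ⌊x⌋₊).filter (fun n : ℕ => (n : ZMod q) = a), Λ n := by
    rw [PNT.psiClass, Finset.sum_filter]
    refine Finset.sum_congr rfl fun n _ => ?_
    simp [ArithmeticFunction.vonMangoldt.residueClass, Set.indicator_apply]
  rwa [e] at h1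

/-- The same for `θ (x; q, a)`, the sum of `log p` over the primes of the class. -/
theorem siegel_walfisz_theta (A : ℝ) (hA : 0 < A) : ∃ c C : ℝ, 0 < c ∧ 0 < C ∧
    ∀ (q : ℕ) [NeZero q] (a : ZMod q), IsUnit a → ∀ x : ℝ, 2 ≤ x → (q : ℝ) ≤ log x ^ A →
      |(∑ p ∈ (Finset.Icc 1 ⌊x⌋₊).filter (fun p : ℕ => p.Prime ∧ (p : ZMod q) = a),
          log p) - x / q.totient| ≤ C * x * exp (-(c * log x ^ (1 / 15 : ℝ))) := by
  obtain ⟨c, C, hc, hC, h⟩ := exists_thetaClass_error A hA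
  refine ⟨c, C, hc, hC, fun q _ a ha x hx hq => ?_⟩
  have h1 := h q a ha x hx hq
  rwa [inv_mul_eq_div, PNT.thetaClass] at h1

/-- The classical form, with an arbitrary power of `log x`. -/
theorem siegel_walfisz_log (A B : ℝ) (hA : 0 < A) (hB : 0 < B) : ∃ C : ℝ, 0 < C ∧
    ∀ (q : ℕ) [NeZero q] (a : ZMod q), IsUnit a → ∀ x : ℝ, 2 ≤ x → (q : ℝ) ≤ log x ^ A →
      |(∑ n ∈ (Finset.Icc 1 ⌊x⌋₊).filter (fun n : ℕ => (n : ZMod q) = a), Λ n) - x / q.totient| ≤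
        C * x / log x ^ B := by
  obtain ⟨c, C, hc, hC, h⟩ := siegel_walfisz A hA
  obtain ⟨K, hK, hk⟩ := exp_gauge_le B hB hc
  refine ⟨C * K, by positivity, fun q _ a ha x hx hq => (h q a ha x hx hq).trans ?_⟩
  have := mul_le_mul_of_nonneg_left (hk x hx) (show 0 ≤ C * x by positivity)
  rw [gauge] at this
  refine this.trans (le_of_eq ?_)
  ring

/-- **A small prime in every class**: `≤ C exp (q ^ ε)`. -/
theorem exists_prime_modEq_le (ε : ℝ) (hε : 0 < ε) : ∃ C : ℝ, 0 < C ∧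
    ∀ q a : ℕ, 1 ≤ q → a.Coprime q →
      ∃ p : ℕ, p.Prime ∧ p ≡ a [MOD q] ∧ (p : ℝ) ≤ C * exp ((q : ℝ) ^ ε) := by
  obtain ⟨C, hC, h⟩ := exists_prime_class_le ε hε
  refine ⟨C, hC, fun q a hq ha => ?_⟩
  have : NeZero q := ⟨by omega⟩
  obtain ⟨p, hp, hpa, hle⟩ := h q (a : ZMod q) ((ZMod.isUnit_iff_coprime a q).2 ha)
  exact ⟨p, hp, (ZMod.natCast_eq_natCast_iff _ _ _).1 hpa, hle⟩

/-- **The zero-free region of the Dirichlet L-functions.** -/
theorem lFunction_zero_free (ε : ℝ) (hε : 0 < ε) : ∃ c : ℝ, 0 < c ∧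
    ∀ (q : ℕ) [NeZero q] (χ : DirichletCharacter ℂ q), χ ≠ 1 → ∀ s : ℂ,
    1 - c * (q : ℝ) ^ (-ε) / log ((q : ℝ) * (|s.im| + 100)) ^ 12 ≤ s.re →
      DirichletCharacter.LFunction χ s ≠ 0 := by
  obtain ⟨a, A, ha, -, -, h⟩ := exists_region ε hε
  refine ⟨a, ha, fun q _ χ hχ s hs => ?_⟩
  rcases le_or_gt 1 s.re with h1 | h1
  · exact DirichletCharacter.LFunction_ne_zero_of_one_le_re χ (Or.inl hχ) h1
  refine (h q χ hχ s ?_ (by linarith)).1
  rwa [lg, ZeroFree.ell, ← log_mul (Nat.cast_ne_zero.2 (NeZero.ne q)) (by positivity)]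

end FA.SiegelWalfisz.Summary
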