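import Fermat.Agent.BombieriVinogradov.Main
import Fermat.Agent.ThreePrimes.Main

/-!
# The large sieve and the theorem of Bombieri and Vinogradov

For every `A` there is a `B` such that, for `Q ≤ √x / (log x) ^ B`, the sum over `q ≤ Q` of
`max_{y ≤ x} max_{(a, q) = 1} |ψ (y; q, a) - y / φ q|` is `O (x / (log x) ^ A)` (Bombieri and
A. I. Vinogradov, 1965): primes are equidistributed on average with the exponent `1/2` of the
generalised Riemann hypothesis. The maxima are stated as arbitrary choices of `y q` and `a q`.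

The constants are INEFFECTIVE (they come from the theorem of Siegel and Walfisz). The large sieve
is the elementary form, with a factor `log Q` on `Q²`; `B = 2 A + 10` is not the best exponent.
-/

set_option autoImplicit false

namespace FA.BombieriVinogradov.Summary

open Finset ArithmeticFunction
open FA.ThreePrimes (powerPart)
open scoped Real

/-- **The large sieve inequality.** -/
theorem large_sieve (Q M N : ℕ) (a : ℕ → ℂ) :
    ∑ q ∈ Icc 1 Q, ∑ r ∈ (range q).filter (fun r => q.Coprime r),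
        ‖∑ n ∈ Ioc M (M + N),
          a n * Complex.exp ((2 * Real.pi * (n * (r / q)) : ℝ) * Complex.I)‖ ^ 2 ≤
      (2 * N + 2 * ((Q : ℝ) * Q) * (1 + Real.log ((Q * Q + 1 : ℕ) : ℝ))) *
        ∑ n ∈ Ioc M (M + N), ‖a n‖ ^ 2 := by
  refine le_of_eq_of_le ?_ (largeSieve Q M N a)
  rw [ThreePrimes.arcCentres, sum_sigma]
  rfl

/-- `primChars q` is the set of the primitive characters modulo `q`. -/
theorem primChars_spec {q : ℕ} [NeZero q] (χ : DirichletCharacter ℂ q) :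
    χ ∈ FA.BombieriVinogradov.primChars q ↔ χ.IsPrimitive :=
  mem_primChars

/-- **The large sieve for characters.** -/
theorem large_sieve_characters (Q M N : ℕ) (a : ℕ → ℂ) :
    ∑ q ∈ Icc 1 Q, (q : ℝ) / q.totient * ∑ χ ∈ FA.BombieriVinogradov.primChars q,
        ‖∑ n ∈ Ioc M (M + N), a n * χ n‖ ^ 2 ≤
      (2 * N + 2 * ((Q : ℝ) * Q) * (1 + Real.log ((Q * Q + 1 : ℕ) : ℝ))) *
        ∑ n ∈ Ioc M (M + N), ‖a n‖ ^ 2 :=
  largeSieve_chars Q M N a

/-- **The mean value of `ψ (x, χ)`**, for every cut `U` of Vaughan's identity. -/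
theorem psi_character_mean_value {U R x : ℕ} (hU : 0 < U) (hx : 0 < x) (hR : R ≤ 2 * x) :
    ∑ d ∈ Icc 2 R, (d : ℝ) / d.totient * ∑ χ ∈ FA.BombieriVinogradov.primChars d,
        ‖∑ n ∈ Ioc 0 x, (Λ n : ℂ) * χ n‖ ≤
      2700 * (1 + Real.log x) ^ 5 * ((x : ℝ) + R * (x / Real.sqrt U) + (R : ℝ) ^ 2 * Real.sqrt x) +
        10 * (U : ℝ) ^ 2 * (1 + Real.log x) ^ 2 * ((R : ℝ) ^ 2 * Real.sqrt R) :=
  mean_charSum_le hU hx hR

/-- **The theorem of Bombieri and Vinogradov.** -/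
theorem bombieri_vinogradov (A : ℕ) : ∃ (B : ℕ) (C : ℝ), 0 < C ∧ ∀ x : ℕ, 3 ≤ x →
    ∀ Q : ℕ, (Q : ℝ) ≤ Real.sqrt x / Real.log x ^ B → ∀ y a : ℕ → ℕ,
      (∀ q ∈ Icc 1 Q, y q ≤ x ∧ (a q).Coprime q) →
        ∑ q ∈ Icc 1 Q, |(∑ n ∈ (Icc 1 (y q)).filter (fun n : ℕ => n ≡ a q [MOD q]), Λ n) -
            y q / q.totient| ≤ C * ((x : ℝ) / Real.log x ^ A) := by
  obtain ⟨B, C, hC, h⟩ := exists_bombieri_vinogradov A
  refine ⟨B, C, hC, fun x hx Q hQ y a hya => le_of_eq_of_le ?_ (h x hx Q hQ y a hya)⟩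
  refine sum_congr rfl fun q _ => ?_
  simp only [psiAP, ZMod.natCast_eq_natCast_iff]

/-- The same for `θ (y; q, a)`, the sum of `log p` over the primes. -/
theorem bombieri_vinogradov_theta (A : ℕ) : ∃ (B : ℕ) (C : ℝ), 0 < C ∧ ∀ x : ℕ, 3 ≤ x →
    ∀ Q : ℕ, (Q : ℝ) ≤ Real.sqrt x / Real.log x ^ B → ∀ y a : ℕ → ℕ,
      (∀ q ∈ Icc 1 Q, y q ≤ x ∧ (a q).Coprime q) →
        ∑ q ∈ Icc 1 Q, |(∑ p ∈ (Icc 1 (y q)).filter (fun p : ℕ => p.Prime ∧ p ≡ a q [MOD q]),
            Real.log p) - y q / q.totient| ≤ C * ((x : ℝ) / Real.log x ^ A) := by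
  obtain ⟨B, C, hC, h⟩ := bombieri_vinogradov A
  refine ⟨max B (A + 1), C + 2, by positivity, fun x hx Q hQ y a hya => ?_⟩
  obtain ⟨l, hl⟩ : ∃ l, l = Real.log x := ⟨_, rfl⟩
  rw [← hl] at hQ ⊢
  have hx0 : (0 : ℝ) < x := Nat.cast_pos.2 (by omega)
  have hl1 : 1 ≤ l := by
    rw [hl, Real.le_log_iff_exp_le hx0]
    have : (3 : ℝ) ≤ x := by exact_mod_cast hx
    linarith [Real.exp_one_lt_d9]
  have hmono : ∀ m, m ≤ max B (A + 1) → (Q : ℝ) ≤ Real.sqrt x / l ^ m := fun m hm =>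
    hQ.trans (div_le_div_of_nonneg_left (Real.sqrt_nonneg _) (by positivity)
      (pow_le_pow_right₀ hl1 hm))
  have h1 := h x hx Q (hl ▸ hmono B (le_max_left _ _)) y a hya
  rw [← hl] at h1
  refine (sum_le_sum (g := fun q =>
    |(∑ n ∈ (Icc 1 (y q)).filter (fun n : ℕ => n ≡ a q [MOD q]), Λ n) - y q / q.totient| +
      2 * Real.sqrt x * l) fun q hq => ?_).trans ?_
  · obtain ⟨P, hP⟩ : ∃ P, P = ∑ n ∈ (Icc 1 (y q)).filter (fun n : ℕ => n ≡ a q [MOD q]),
        powerPart n := ⟨_, rfl⟩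
    have e : (∑ n ∈ (Icc 1 (y q)).filter (fun n : ℕ => n ≡ a q [MOD q]), Λ n) =
        (∑ p ∈ (Icc 1 (y q)).filter (fun p : ℕ => p.Prime ∧ p ≡ a q [MOD q]), Real.log p) + P := by
      rw [hP, sum_filter, sum_filter, sum_filter, ← sum_add_distrib]
      refine sum_congr rfl fun n _ => ?_
      by_cases hm : n ≡ a q [MOD q] <;> by_cases hp : n.Prime <;>
        simp [powerPart, hm, hp, vonMangoldt_apply_prime]
    have hP0 : 0 ≤ P := hP ▸ sum_nonneg fun n _ => ThreePrimes.powerPart_nonneg n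
    have hP2 : P ≤ 2 * Real.sqrt x * l := by
      rw [hP, hl]
      refine le_trans (sum_le_sum_of_subset_of_nonneg
        ((filter_subset _ _).trans (Icc_subset_Icc_right (hya q hq).1))
        fun n _ _ => ThreePrimes.powerPart_nonneg n) (ThreePrimes.sum_powerPart_le (by omega))
    rw [e]
    rw [show ∀ u w : ℝ, u - w = (u + P - w) + -P from fun u w => by ring]
    exact (abs_add_le _ _).trans (add_le_add le_rfl (by rwa [abs_neg, abs_of_nonneg hP0]))
  rw [sum_add_distrib, sum_const, Nat.card_Icc, Nat.add_sub_cancel, nsmul_eq_mul, add_mul]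
  refine add_le_add h1 ?_
  refine (mul_le_mul_of_nonneg_right (hmono (A + 1) (le_max_right _ _))
    (by positivity)).trans (le_of_eq ?_)
  have : l ≠ 0 := by linarith
  rw [pow_succ]
  field_simp
  rw [Real.sq_sqrt hx0.le]

end FA.BombieriVinogradov.Summary
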