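import Fermat.Agent.LinearGroups.Selberg
import Mathlib.GroupTheory.ResiduallyFinite
import Mathlib.GroupTheory.Index

/-!
# Selberg's lemma, Malcev's and Schur's theorems

For a finitely generated subgroup `G` of `GL n K`, `K` of characteristic zero:

* `selberg_lemma`: `G` has a normal subgroup of finite index without torsion;
* `malcev_residuallyFinite`: `G` is residually finite;
* `schur_periodic_finite`: if every element of `G` has finite order, `G` is finite;
* `finite_subgroups_bounded`: the finite subgroups of `G` have bounded order.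
-/

set_option autoImplicit false
set_option linter.style.haveILetI false

noncomputable section

open FA.LinearGroups

namespace FA.Summary

variable {n : Type*} [Fintype n] [DecidableEq n] {K : Type*} [Field K] [CharZero K]

/-- **Selberg's lemma.** -/
theorem selberg_lemma (G : Subgroup (Matrix.GeneralLinearGroup n K)) (hG : G.FG) :
    ∃ N : Subgroup G, N.Normal ∧ N.FiniteIndex ∧ ∀ g ∈ N, IsOfFinOrder g → g = 1 := by
  obtain ⟨p, hp, hp2, f, hf⟩ := exists_hom_padic hG
  haveI := hp
  haveI : NeZero (p ^ 1) := ⟨pow_ne_zero 1 hp.out.ne_zero⟩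
  refine ⟨((reduction n p 1).comp f).ker, inferInstance, ?_, fun g hg hfin => ?_⟩
  · exact Subgroup.finiteIndex_ker _
  · exact hf ((eq_one_of_torsion hp2 hg (f.isOfFinOrder hfin)).trans f.map_one.symm)

/-- **Malcev's theorem.** -/
theorem malcev_residuallyFinite (G : Subgroup (Matrix.GeneralLinearGroup n K)) (hG : G.FG) :
    Group.ResiduallyFinite G := by
  obtain ⟨p, hp, -, f, hf⟩ := exists_hom_padic hG
  haveI := hp
  rw [Group.residuallyFinite_iff_exists_finiteIndex]
  intro g hg
  obtain ⟨k, hk⟩ := exists_reduction_ne_one (g := f g) fun e => hg (hf (e.trans f.map_one.symm))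
  haveI : NeZero (p ^ k) := ⟨pow_ne_zero k hp.out.ne_zero⟩
  exact ⟨((reduction n p k).comp f).ker, Subgroup.finiteIndex_ker _, hk⟩

/-- **Schur's theorem**: finitely generated periodic linear groups are finite. -/
theorem schur_periodic_finite (G : Subgroup (Matrix.GeneralLinearGroup n K)) (hG : G.FG)
    (h : ∀ g ∈ G, IsOfFinOrder g) : Finite G := by
  obtain ⟨p, hp, hp2, f, hf⟩ := exists_hom_padic hG
  haveI := hp
  haveI : NeZero (p ^ 1) := ⟨pow_ne_zero 1 hp.out.ne_zero⟩
  refine Finite.of_injective ((reduction n p 1).comp f)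
    ((injective_iff_map_eq_one _).2 fun g hg => ?_)
  exact hf ((eq_one_of_torsion hp2 hg (f.isOfFinOrder
    (Submonoid.isOfFinOrder_coe.1 (h g g.2)))).trans f.map_one.symm)

/-- **Bounded finite subgroups.** -/
theorem finite_subgroups_bounded (G : Subgroup (Matrix.GeneralLinearGroup n K)) (hG : G.FG) :
    ∃ B : ℕ, ∀ H : Subgroup (Matrix.GeneralLinearGroup n K), H ≤ G → Finite H → Nat.card H ≤ B := by
  obtain ⟨p, hp, hp2, f, hf⟩ := exists_hom_padic hG
  haveI := hp
  haveI : NeZero (p ^ 1) := ⟨pow_ne_zero 1 hp.out.ne_zero⟩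
  refine ⟨Nat.card (Matrix.GeneralLinearGroup n (ZMod (p ^ 1))), fun H hHG hH => ?_⟩
  refine Nat.card_le_card_of_injective (fun x : H => reduction n p 1 (f ⟨x, hHG x.2⟩))
    fun x y e => ?_
  set z : H := x * y⁻¹
  have hz : IsOfFinOrder (⟨z, hHG z.2⟩ : G) :=
    (Subgroup.inclusion hHG).isOfFinOrder (isOfFinOrder_of_finite z)
  have h1 : reduction n p 1 (f ⟨z, hHG z.2⟩) = 1 := by
    rw [show (⟨z, hHG z.2⟩ : G) = ⟨x, hHG x.2⟩ * ⟨y, hHG y.2⟩⁻¹ from rfl, map_mul, map_mul,
      map_inv, map_inv]
    exact mul_inv_eq_one.2 e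
  have h2 : (⟨z, hHG z.2⟩ : G) = 1 :=
    hf ((eq_one_of_torsion hp2 h1 (f.isOfFinOrder hz)).trans f.map_one.symm)
  exact mul_inv_eq_one.1 (Subtype.ext (congrArg Subtype.val h2 :) : z = 1)

end FA.Summary

end
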