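import Fermat.Agent.CSA.BrauerReal
import Mathlib.FieldTheory.IsAlgClosed.AlgebraicClosure
import Mathlib.LinearAlgebra.Matrix.Unique
import Mathlib.RingTheory.SimpleModule.IsAlgClosed

/-!
# Central simple algebras

* `tensor_centralSimple`: a simple algebra tensored with a central simple one is simple.
* `skolem_noether`, `automorphism_inner`: the theorem of Skolem and Noether.
* `centralizer_theorem`, `double_centralizer`: the centraliser theorems.
* `centralSimple_dim_square`, `separable_maximal_subfield`, `separable_splitting_field`: squares of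
  degrees; separable maximal subfields split.
* `frobenius_division_algebras`, `centralSimple_real`, `brauerGroup_real`: Frobenius' theorem and
  `Br(ℝ)`.
-/

set_option autoImplicit false

noncomputable section

open scoped TensorProduct
open Module

namespace FA.Summary

universe w

variable {F : Type*} [Field F] {A : Type*} [Ring A] [Algebra F A] [IsSimpleRing A]
  [Algebra.IsCentral F A]

/-- **A simple algebra tensored with a central simple algebra is simple.** -/
theorem tensor_centralSimple (B : Type*) [Ring B] [Algebra F B] [IsSimpleRing B] :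
    IsSimpleRing (B ⊗[F] A) :=
  FA.CSA.isSimpleRing_tensorProduct F B A

variable [FiniteDimensional F A]

/-- **The theorem of Skolem and Noether**: embeddings of a simple algebra are conjugate. -/
theorem skolem_noether {B : Type*} [Ring B] [Algebra F B] [IsSimpleRing B] [FiniteDimensional F B]
    (f g : B →ₐ[F] A) : ∃ u : Aˣ, ∀ b, g b = u * f b * (↑u⁻¹ : A) :=
  FA.CSA.exists_conj f g

/-- **Every automorphism is inner.** -/
theorem automorphism_inner (e : A ≃ₐ[F] A) : ∃ u : Aˣ, ∀ a, e a = u * a * (↑u⁻¹ : A) :=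
  FA.CSA.exists_conj (AlgHom.id F A) e.toAlgHom

/-- **The centraliser theorem.** -/
theorem centralizer_theorem (S : Subalgebra F A) [IsSimpleRing S] :
    IsSimpleRing (Subalgebra.centralizer F (S : Set A)) ∧
      finrank F S * finrank F (Subalgebra.centralizer F (S : Set A)) = finrank F A :=
  ⟨FA.CSA.isSimpleRing_centralizer S, FA.CSA.finrank_centralizer S⟩

/-- **The double centraliser theorem.** -/
theorem double_centralizer (S : Subalgebra F A) [IsSimpleRing S] :
    Subalgebra.centralizer F (Subalgebra.centralizer F (S : Set A) : Set A) = S :=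
  FA.CSA.centralizer_centralizer S

variable (F A) in
/-- **The dimension is a square.** -/
theorem centralSimple_dim_square : ∃ n : ℕ, finrank F A = n ^ 2 := by
  have := FA.CSA.isSimpleRing_tensorProduct F (AlgebraicClosure F) A
  obtain ⟨n, -, ⟨e⟩⟩ := IsSimpleRing.exists_algEquiv_matrix_of_isAlgClosed (AlgebraicClosure F)
    (AlgebraicClosure F ⊗[F] A)
  refine ⟨n, ?_⟩
  have h := e.toLinearEquiv.finrank_eq
  rwa [Module.finrank_baseChange, Module.finrank_matrix, Fintype.card_fin, Module.finrank_self,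
    mul_one, ← sq] at h

section division

variable (F) (D : Type w) [DivisionRing D] [Algebra F D] [FiniteDimensional F D]
  [Algebra.IsCentral F D]

/-- **A separable maximal subfield.** -/
theorem separable_maximal_subfield : ∃ L : Subalgebra F D, IsField L ∧
    Algebra.IsSeparable F L ∧ Subalgebra.centralizer F (L : Set D) = L ∧
      finrank F L ^ 2 = finrank F D := by
  obtain ⟨L, hc, hs, hC, hn⟩ := FA.CSA.exists_maximal_subfield (F := F) (D := D)
  exact ⟨L, FA.CSA.isField_of_comm L hc,
    ⟨fun a => (isSeparable_map_iff L.val Subtype.val_injective).1 (hs a a.2)⟩, hC, hn⟩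

/-- **Separable splitting fields.** -/
theorem separable_splitting_field : ∃ (L : Type w) (_ : Field L) (_ : Algebra F L) (n : ℕ),
    Algebra.IsSeparable F L ∧ finrank F L = n ∧ n ^ 2 = finrank F D ∧
      Nonempty ((L ⊗[F] D) ≃ₐ[L] Matrix (Fin n) (Fin n) L) := by
  obtain ⟨L, hL, hs, hn, he⟩ := FA.CSA.exists_splitting (F := F) (D := D)
  exact ⟨L, hL.toField, L.algebra, _, hs, rfl, hn, he⟩

end division

/-- **The theorem of Frobenius**: the finite-dimensional real division algebras are `ℝ`, `ℂ`,
`ℍ`. -/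
theorem frobenius_division_algebras (D : Type*) [DivisionRing D] [Algebra ℝ D]
    [FiniteDimensional ℝ D] : Nonempty (D ≃ₐ[ℝ] ℝ) ∨ Nonempty (D ≃ₐ[ℝ] ℂ) ∨
      Nonempty (D ≃ₐ[ℝ] Quaternion ℝ) :=
  FA.CSA.frobenius_real D

/-- **Central simple real algebras.** -/
theorem centralSimple_real (R : Type*) [Ring R] [Algebra ℝ R] [IsSimpleRing R]
    [Algebra.IsCentral ℝ R] [FiniteDimensional ℝ R] :
    ∃ n : ℕ, n ≠ 0 ∧ (Nonempty (R ≃ₐ[ℝ] Matrix (Fin n) (Fin n) ℝ) ∨
      Nonempty (R ≃ₐ[ℝ] Matrix (Fin n) (Fin n) (Quaternion ℝ))) :=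
  FA.CSA.exists_algEquiv_matrix_real R

/-- **The Brauer group of `ℝ` has two elements.** -/
theorem brauerGroup_real : Nat.card (BrauerGroup.{0, 0} ℝ) = 2 := by
  have := FA.CSA.isCentral_quaternion
  let X : CSA.{0, 0} ℝ := { __ := AlgCat.of ℝ ℝ }
  let Y : CSA.{0, 0} ℝ := { __ := AlgCat.of ℝ (Quaternion ℝ) }
  rw [Nat.card_eq_two_iff]
  refine ⟨⟦X⟧, ⟦Y⟧, fun h => ?_, Set.eq_univ_of_forall fun z => ?_⟩
  · obtain ⟨n, m, -, hm, ⟨e⟩⟩ := Quotient.exact h
    exact (FA.CSA.isEmpty_matrix_quaternion_algEquiv hm).false e.symm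
  · induction z using Quotient.inductionOn with
    | h R =>
      obtain ⟨n, hn, ⟨⟨e⟩⟩ | ⟨⟨e⟩⟩⟩ := FA.CSA.exists_algEquiv_matrix_real R
      · exact Or.inl (Quotient.sound ⟨1, n, one_ne_zero, hn, ⟨(e.mapMatrix.trans
          (Matrix.compAlgEquiv _ _ _ _)).trans
            (Matrix.reindexAlgEquiv _ _ (Equiv.uniqueProd (Fin n) (Fin 1)))⟩⟩)
      · exact Or.inr (Quotient.sound ⟨1, n, one_ne_zero, hn, ⟨(e.mapMatrix.trans
          (Matrix.compAlgEquiv _ _ _ _)).trans
            (Matrix.reindexAlgEquiv _ _ (Equiv.uniqueProd (Fin n) (Fin 1)))⟩⟩)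

end FA.Summary

end
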