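import Fermat.Agent.BrauerInduction.Main
import Fermat.Agent.ComplexGalois.FiniteImage
import Mathlib.Algebra.BigOperators.Finprod
import Mathlib.FieldTheory.IsAlgClosed.AlgebraicClosure

/-!
# Brauer's induction theorem

A subgroup is elementary (`FA.BrauerInduction.IsElementary`) when it is generated by an element `c`
and a `p`-group commuting with `c`, for a prime `p` not dividing the order of `c`.

* `solomon_induction`: `1` is an integral combination of the permutation characters of the
  hyperelementary subgroups;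
* `brauer_induction`: every character is an integral combination of functions induced from linear
  characters of elementary subgroups;
* `brauer_characterisation`: a class function is a virtual character iff its restriction to every
  elementary subgroup is one;
* `complexGalois_brauer`: the trace of a continuous complex representation of an absolute Galois
  group is an integral combination of inductions of finite order characters with open kernel of open
  subgroups of finite index.
-/

set_option autoImplicit false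
set_option linter.style.haveILetI false

noncomputable section

open Module FA.CharacterTheory FA.BrauerInduction

namespace FA.Summary

variable (G : Type*) [Group G] [Fintype G]

/-- **Solomon's induction theorem.** -/
theorem solomon_induction :
    (1 : G → ℤ) ∈ AddSubgroup.closure {f : G → ℤ | ∃ H : Subgroup G,
      IsHyper H ∧ f = fun x => (Nat.card (MulAction.fixedBy (G ⧸ H) x) : ℤ)} :=
  solomon G

open scoped Classical in
/-- **Brauer's induction theorem.** -/
theorem brauer_induction (V : Type*) [AddCommGroup V] [Module ℂ V] [FiniteDimensional ℂ V]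
    (σ : Representation ℂ G V) :
    σ.character ∈ AddSubgroup.closure {f : G → ℂ | ∃ H : Subgroup G, IsElementary H ∧
      ∃ ψ : H →* ℂˣ, f = fun x => (Nat.card H : ℂ)⁻¹ * ∑ g : G,
        if h : g * x * g⁻¹ ∈ H then (ψ ⟨_, h⟩ : ℂ) else 0} :=
  character_mem_brauerSpan σ

open scoped Classical in
/-- **Brauer's characterisation of characters.** -/
theorem brauer_characterisation {f : G → ℂ} (hf : ∀ g x, f (g * x * g⁻¹) = f x) :
    f ∈ AddSubgroup.closure (irr G : Set (G → ℂ)) ↔
      ∀ H : Subgroup G, IsElementary H →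
        (fun y : H => f y) ∈ AddSubgroup.closure (irr H : Set (H → ℂ)) := by
  constructor
  · intro h H _
    clear hf
    induction h using AddSubgroup.closure_induction with
    | zero => exact zero_mem _
    | add a b _ _ ha hb => exact add_mem ha hb
    | neg a _ ha => exact neg_mem ha
    | mem a ha =>
      obtain ⟨W, -, rfl⟩ := exists_of_mem_irr ha
      exact character_mem_closure (G := H) (W.toRepresentation.comp H.subtype)
  · intro h
    choose! k hk using fun (χ : G → ℂ) (hχ : χ ∈ irr G) =>
      exists_int_pairing_of_elementary hf (fun H hH φ hφ => by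
        have h' := h H hH
        generalize (fun y : H => f y) = F at h' ⊢
        induction h' using AddSubgroup.closure_induction with
        | zero => exact ⟨0, by simp [FA.FrobeniusGroups.pairing]⟩
        | add a b _ _ ha hb =>
          obtain ⟨m, hm⟩ := ha
          obtain ⟨l, hl⟩ := hb
          refine ⟨m + l, ?_⟩
          rw [Int.cast_add, ← hm, ← hl]
          simp only [FA.FrobeniusGroups.pairing, Pi.add_apply, add_mul, mul_add,
            Finset.sum_add_distrib]
        | neg a _ ha =>
          obtain ⟨m, hm⟩ := ha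
          exact ⟨-m, by rw [Int.cast_neg, ← hm]; simp [FA.FrobeniusGroups.pairing]⟩
        | mem a ha =>
          exact ⟨if a = φ then 1 else 0, by rw [pairing_irr ha hφ]; split_ifs <;> simp⟩) hχ
    have he : f = ∑ χ ∈ irr G, k χ • χ := funext fun x => by
      rw [expansion hf x, Finset.sum_apply]
      exact Finset.sum_congr rfl fun χ hχ => by rw [hk χ hχ, Pi.smul_apply, zsmul_eq_mul]
    rw [he]
    exact AddSubgroup.sum_mem _ fun χ hχ =>
      AddSubgroup.zsmul_mem _ (AddSubgroup.subset_closure hχ) _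

open scoped Classical in
/-- Induction along a surjection is a sum over cosets. -/
theorem induced_eq_finsum {Γ : Type*} [Group Γ] (r : Γ →* G) (hr : Function.Surjective r)
    (H : Subgroup G) (ψ : H →* ℂˣ) (γ : Γ) :
    induced H (fun y => (ψ y : ℂ)) (r γ) =
      ∑ᶠ q : Γ ⧸ H.comap r,
        if h : q.out⁻¹ * γ * q.out ∈ H.comap r then (ψ ⟨_, h⟩ : ℂ) else 0 := by
  set z : G → ℂ := fun g => zext H (fun y => (ψ y : ℂ)) (g⁻¹ * r γ * g)
  have hz : ∀ g, ∀ k ∈ H, z (g * k) = z g := fun g k hk => by
    show zext H _ _ = zext H _ _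
    have he : (g * k)⁻¹ * r γ * (g * k) = k⁻¹ * (g⁻¹ * r γ * g) * k := by group
    by_cases h : g⁻¹ * r γ * g ∈ H
    · have h' : (g * k)⁻¹ * r γ * (g * k) ∈ H :=
        he ▸ H.mul_mem (H.mul_mem (H.inv_mem hk) h) hk
      rw [zext, dif_pos h', zext, dif_pos h]
      have hs : (⟨_, h'⟩ : H) = ⟨k, hk⟩⁻¹ * ⟨_, h⟩ * ⟨k, hk⟩ := Subtype.ext he
      rw [hs, map_mul, map_mul, map_inv, mul_comm, mul_inv_cancel_left]
    · rw [zext_of_notMem H _ h, zext_of_notMem H _ fun h' => h ?_]
      have := H.mul_mem (H.mul_mem hk (he ▸ h')) (H.inv_mem hk)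
      rwa [show k * (k⁻¹ * (g⁻¹ * r γ * g) * k) * k⁻¹ = g⁻¹ * r γ * g by group] at this
  set e : Γ ⧸ H.comap r → G ⧸ H := fun q => (r q.out : G ⧸ H)
  have he : Function.Bijective e := by
    refine ⟨fun a b hab => ?_, fun q => ?_⟩
    · rw [← QuotientGroup.out_eq' a, ← QuotientGroup.out_eq' b, QuotientGroup.eq,
        Subgroup.mem_comap,
        map_mul, map_inv]
      exact QuotientGroup.eq.1 hab
    · obtain ⟨g, rfl⟩ := QuotientGroup.mk_surjective q
      obtain ⟨d, rfl⟩ := hr g
      refine ⟨(d : Γ ⧸ H.comap r), ?_⟩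
      obtain ⟨k, hk⟩ := QuotientGroup.mk_out_eq_mul (H.comap r) d
      show (r (d : Γ ⧸ H.comap r).out : G ⧸ H) = r d
      rw [hk, map_mul, QuotientGroup.mk_mul_of_mem _ (show r (k : Γ) ∈ H from k.2)]
  haveI : Finite (Γ ⧸ H.comap r) := Finite.of_injective e he.1
  haveI := Fintype.ofFinite (Γ ⧸ H.comap r)
  rw [finsum_eq_sum_of_fintype, induced_eq]
  have h1 : ∑ g : G, zext H (fun y => (ψ y : ℂ)) (g * r γ * g⁻¹) =
      (Nat.card H : ℂ) * ∑ q : G ⧸ H, z q.out := by
    rw [Fintype.sum_equiv (Equiv.inv G) _ z fun g => by simp [z],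
      Fintype.sum_equiv Subgroup.groupEquivQuotientProdSubgroup z
        (fun a : (G ⧸ H) × H => z a.1.out) fun g => ?_,
      Fintype.sum_prod_type, Finset.mul_sum]
    · exact Finset.sum_congr rfl fun q _ => by
        show ∑ _y : H, z q.out = _
        rw [Finset.sum_const, Finset.card_univ, ← Nat.card_eq_fintype_card, nsmul_eq_mul]
    · have hq : (Subgroup.groupEquivQuotientProdSubgroup g).1 = (g : G ⧸ H) := rfl
      rw [hq]
      obtain ⟨k, hk⟩ := QuotientGroup.mk_out_eq_mul H g
      show z g = z (g : G ⧸ H).out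
      rw [hk, hz g k k.2]
  rw [h1, inv_mul_cancel_left₀ (Nat.cast_ne_zero.2 Nat.card_pos.ne')]
  refine (Fintype.sum_equiv (Equiv.ofBijective e he) _ _ fun q => ?_).symm
  obtain ⟨k, hk⟩ := QuotientGroup.mk_out_eq_mul H (r q.out)
  show _ = z (r q.out : G ⧸ H).out
  rw [hk, hz _ k k.2]
  show _ = zext H _ _
  simp only [zext, Subgroup.mem_comap, map_mul, map_inv]

open scoped Classical in
/-- **Brauer's theorem for complex Galois representations.** -/
theorem complexGalois_brauer (K : Type*) [Field K] (n : ℕ)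
    (ρ : (AlgebraicClosure K ≃ₐ[K] AlgebraicClosure K) →* Matrix.GeneralLinearGroup (Fin n) ℂ)
    (hρ : Continuous ρ) :
    (fun γ => (ρ γ : Matrix (Fin n) (Fin n) ℂ).trace) ∈ AddSubgroup.closure
      {F : (AlgebraicClosure K ≃ₐ[K] AlgebraicClosure K) → ℂ |
        ∃ (U : Subgroup (AlgebraicClosure K ≃ₐ[K] AlgebraicClosure K)) (ψ : U →* ℂˣ),
          IsOpen (U : Set (AlgebraicClosure K ≃ₐ[K] AlgebraicClosure K)) ∧ U.FiniteIndex ∧
          IsOpen ((ψ.ker.map U.subtype : Subgroup _) :
            Set (AlgebraicClosure K ≃ₐ[K] AlgebraicClosure K)) ∧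
          (∃ N : ℕ, N ≠ 0 ∧ ∀ u, ψ u ^ N = 1) ∧
          F = fun γ => ∑ᶠ q : (AlgebraicClosure K ≃ₐ[K] AlgebraicClosure K) ⧸ U,
            if h : q.out⁻¹ * γ * q.out ∈ U then (ψ ⟨_, h⟩ : ℂ) else 0} := by
  haveI := FA.ComplexGalois.finite_range ρ hρ
  haveI := Fintype.ofFinite ρ.range
  set τ : Representation ℂ ρ.range (Fin n → ℂ) :=
    (Matrix.toLinAlgEquiv' : Matrix (Fin n) (Fin n) ℂ ≃ₐ[ℂ] _).toAlgHom.toMonoidHom.comp
      ((Units.coeHom _).comp ρ.range.subtype)
  set P : ((ρ.range → ℂ) →+ _) :=
    { toFun := fun F γ => F (ρ.rangeRestrict γ), map_zero' := rfl, map_add' := fun _ _ => rfl }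
  have hτ : (fun γ => (ρ γ : Matrix (Fin n) (Fin n) ℂ).trace) = P τ.character := funext fun γ => by
    show _ = LinearMap.trace ℂ (Fin n → ℂ) (Matrix.toLin' (ρ γ : Matrix (Fin n) (Fin n) ℂ))
    rw [Matrix.trace_toLin'_eq]
  rw [hτ]
  have h := AddSubgroup.mem_map_of_mem P (character_mem_brauerSpan τ)
  rw [brauerSpan, AddMonoidHom.map_closure] at h
  refine AddSubgroup.closure_mono ?_ h
  rintro _ ⟨_, ⟨H, -, ψ, rfl⟩, rfl⟩
  set U := H.comap ρ.rangeRestrict
  set r : U →* H := ρ.rangeRestrict.subgroupComap H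
  have hker : ρ.ker ≤ U := fun x hx => by
    rw [Subgroup.mem_comap, show ρ.rangeRestrict x = 1 from Subtype.ext (MonoidHom.mem_ker.1 hx)]
    exact H.one_mem
  refine ⟨U, ψ.comp r, Subgroup.isOpen_mono hker (FA.ComplexGalois.isOpen_ker ρ hρ), ?_, ?_, ?_, ?_⟩
  · refine ⟨?_⟩
    rw [Subgroup.index_comap_of_surjective _ ρ.rangeRestrict_surjective]
    exact Subgroup.index_ne_zero_of_finite
  · refine Subgroup.isOpen_mono (fun x hx => ⟨⟨x, hker hx⟩, ?_, rfl⟩)
      (FA.ComplexGalois.isOpen_ker ρ hρ)
    rw [SetLike.mem_coe, MonoidHom.mem_ker, MonoidHom.comp_apply,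
      show r ⟨x, hker hx⟩ = 1 from Subtype.ext (Subtype.ext (MonoidHom.mem_ker.1 hx)), map_one]
  · exact ⟨Nat.card H, Nat.card_pos.ne', fun u => by
      rw [MonoidHom.comp_apply, ← map_pow, pow_card_eq_one', map_one]⟩
  · funext γ
    exact induced_eq_finsum ρ.range ρ.rangeRestrict ρ.rangeRestrict_surjective H ψ γ

end FA.Summary

end
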