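import Fermat.Agent.StarkEffective.Main
import Fermat.Agent.Root.SummaryStarkLowerBound

/-!
# Stark: effective Brauer–Siegel and the class numbers of CM fields

The constants `c(n)` and `D(n, B)` are written out by formulas (`hRConst`, `lowConst`, `cmDiscrBound`);
no theorem of Siegel is used. With `L = 1 + log |d_K|`:

* `stark_exceptional_zero_subfield`: a zero of `(s - 1) ζ_K` in `[1 - c(n)/L, 1]` is a zero of `ζ_Q`
  for a quadratic subfield `Q` of `K` itself, normal or not;
* `classNumber_mul_regulator_ge_no_quadratic`, `classNumber_mul_regulator_ge_odd`: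
  `h R ≥ c(n) √|d| / L` without quadratic subfields, in particular in every odd degree;
* `classNumber_mul_regulator_ge_effective`: `h R ≥ c(n) |d|^(1/2 - 1/n) / L²` for every field;
* `classNumber_mul_regulator_le_effective`: `h R ≤ 8 n² √|d| (2 L)^n`;
* `cm_relativeClassNumber_discr_effective`, `cm_classNumber_discr_effective`: a CM field of degree
  `n ≥ 6` with `h⁻ ≤ B`, in particular with `h ≤ B`, has `|d| ≤ D(n, B)`.

Degrees `2` and `4` are not covered by the last item. Independent of S01.
-/

set_option autoImplicit false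
set_option linter.style.haveILetI false

noncomputable section

universe u

open NumberField Module Complex Set
open FA.HeckeBS FA.StarkZero FA.StarkEff
open scoped Real Classical

namespace FA.Summary

/-- **The exceptional zero comes from a quadratic subfield of the field itself.** -/
theorem stark_exceptional_zero_subfield (F : Type u) [Field F] [NumberField F] {E : ℂ → ℂ}
    (hE : Differentiable ℂ E) (hEL : ∀ s : ℂ, 1 < s.re → E s = (s - 1) * dedekindZeta F s) {β : ℝ}
    (hβ : β ∈ Icc (1 - zoneC (finrank ℚ F) / (1 + Real.log ((discr F).natAbs : ℝ))) 1)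
    (h0 : E (β : ℂ) = 0) :
    ∃ Q : IntermediateField ℚ F, finrank ℚ Q = 2 ∧ ∀ E' : ℂ → ℂ, Differentiable ℂ E' →
      (∀ s : ℂ, 1 < s.re → E' s = (s - 1) * dedekindZeta Q s) → E' (β : ℂ) = 0 := by
  have hre : 0 < (β : ℂ).re := by
    have h300 : zoneC (finrank ℚ F) / size F ≤ 1 / 300 := zoneC_div_le _ one_le_size
    rw [size] at h300
    rw [ofReal_re]; linarith [hβ.1]
  obtain ⟨Q, hQ, hz⟩ :=
    FA.StarkEff.exists_quadratic_of_zero F hβ ((stark_xiFun_eq_zero_iff F hE hEL hre).1.2 h0)
  exact ⟨Q, hQ, fun E' hE' hEL' => (stark_xiFun_eq_zero_iff Q hE' hEL' hre).1.1 hz⟩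

/-- **No quadratic subfield**: `h R ≫ √|d| / log |d|`, effectively. -/
theorem classNumber_mul_regulator_ge_no_quadratic (F : Type u) [Field F] [NumberField F]
    (h : ∀ Q : IntermediateField ℚ F, finrank ℚ Q ≠ 2) :
    0 < hRConst (finrank ℚ F) ∧
    hRConst (finrank ℚ F) * (Real.sqrt |((discr F : ℤ) : ℝ)| / (1 + Real.log ((discr F).natAbs : ℝ))) ≤
      (classNumber F : ℝ) * Units.regulator F :=
  ⟨hRConst_pos _, FA.StarkEff.hR_ge_of_no_quadratic F h⟩

/-- **Every field of odd degree.** -/
theorem classNumber_mul_regulator_ge_odd (F : Type u) [Field F] [NumberField F]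
    (h : Odd (finrank ℚ F)) :
    0 < hRConst (finrank ℚ F) ∧
    hRConst (finrank ℚ F) * (Real.sqrt |((discr F : ℤ) : ℝ)| / (1 + Real.log ((discr F).natAbs : ℝ))) ≤
      (classNumber F : ℝ) * Units.regulator F :=
  classNumber_mul_regulator_ge_no_quadratic F (FA.StarkEff.no_quadratic F h)

/-- **Effective Brauer–Siegel in every degree.** -/
theorem classNumber_mul_regulator_ge_effective (F : Type u) [Field F] [NumberField F] :
    0 < lowConst (finrank ℚ F) ∧
    lowConst (finrank ℚ F) * (|((discr F : ℤ) : ℝ)| ^ (1 / 2 - 1 / (finrank ℚ F : ℝ)) /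
        (1 + Real.log ((discr F).natAbs : ℝ)) ^ 2) ≤
      (classNumber F : ℝ) * Units.regulator F :=
  ⟨lowConst_pos _, FA.StarkEff.hR_ge F⟩

/-- **Landau's upper bound, explicit.** -/
theorem classNumber_mul_regulator_le_effective (F : Type u) [Field F] [NumberField F] :
    (classNumber F : ℝ) * Units.regulator F ≤
      8 * (finrank ℚ F : ℝ) ^ 2 * Real.sqrt |((discr F : ℤ) : ℝ)| *
        (2 * (1 + Real.log ((discr F).natAbs : ℝ))) ^ finrank ℚ F :=
  FA.StarkEff.hR_le F

/-- **CM fields of bounded relative class number, effectively.** -/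
theorem cm_relativeClassNumber_discr_effective (F : Type u) [Field F] [NumberField F] [IsCMField F]
    {B : ℕ} (hn : 6 ≤ finrank ℚ F) (hB : classNumber F ≤ B * classNumber (maximalRealSubfield F)) :
    (discr F).natAbs ≤ cmDiscrBound (finrank ℚ F) B :=
  cm_discr_le F hn hB

/-- **The class number problem for CM fields of degree at least `6`.** -/
theorem cm_classNumber_discr_effective (F : Type u) [Field F] [NumberField F] [IsCMField F] {B : ℕ}
    (hn : 6 ≤ finrank ℚ F) (hB : classNumber F ≤ B) :
    (discr F).natAbs ≤ cmDiscrBound (finrank ℚ F) B :=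
  cm_discr_le F hn (hB.trans (Nat.le_mul_of_pos_right B (classNumber_pos _)))

end FA.Summary
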