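import Fermat.Agent.RegulatorBound.Main
import Mathlib.NumberTheory.NumberField.Discriminant.Basic
import Mathlib.FieldTheory.IsAlgClosed.AlgebraicClosure

/-!
# Silverman: the regulator is bounded below by powers of the logarithm of the discriminant

For a number field `K` of degree `n`, discriminant `D` and unit rank `r`:

* `regulator_uniform_lower`: `R ≥ c_n > 0`;
* `unit_discriminant_bound`: a unit `u` generating `K` has
  `log |D| ≤ 2 log n! + 2 (n - 1) ∑ log⁺ |φ u|`;
* `silverman`: if all proper subfields have unit rank at most `ρ` then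
  `R ≥ c (log |D|) ^ (r - ρ)`, every signature, imprimitive fields included;
* `silverman_primitive`: without proper intermediate fields `R ≥ c (log |D|) ^ r`;
* `totally_real_regulator`: for totally real `K`, `R ≥ c (log |D|) ^ ⌈n / 2⌉`;
* `totally_real_finiteness`: so only finitely many totally real subfields of `ℚ̄` of degree `n ≥ 2`
  have `R ≤ B`.

Zimmert's explicit constants, growth in `n` and `p`-adic regulators are not claimed. The constants
depend on `n` and `ρ` only. Independent of S01.
-/

set_option autoImplicit false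
set_option linter.style.haveILetI false

noncomputable section

namespace FA.RegulatorBound.Summary

open NumberField NumberField.Units Module

/-- **A lower bound by the degree alone.** -/
theorem regulator_uniform_lower (n : ℕ) :
    ∃ c : ℝ, 0 < c ∧ ∀ (K : Type) [Field K] [NumberField K], finrank ℚ K = n →
      c ≤ regulator K := by
  obtain ⟨c, hc, h⟩ := exists_silverman n n
  refine ⟨c, hc, fun K _ _ hn => ?_⟩
  have h1 := h K hn fun F _ => ((rank_lt_finrank F).le.trans
    (Submodule.finrank_le F.toSubalgebra.toSubmodule)).trans hn.le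
  rwa [Nat.sub_eq_zero_of_le ((rank_lt_finrank K).le.trans hn.le), pow_zero, mul_one] at h1

/-- **The discriminant of a field generated by a unit.** -/
theorem unit_discriminant_bound (K : Type) [Field K] [NumberField K] (u : (𝓞 K)ˣ)
    (hu : IntermediateField.adjoin ℚ {(u : K)} = ⊤) :
    Real.log |(discr K : ℝ)| ≤ 2 * Real.log (finrank ℚ K).factorial +
      2 * ((finrank ℚ K : ℝ) - 1) * ∑ φ : K →+* ℂ, max (Real.log ‖φ (u : K)‖) 0 := by
  have h := Real.log_le_log (abs_pos.2 (Int.cast_ne_zero.2 (discr_ne_zero K)))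
    (abs_discr_le_of_unit u hu)
  have hmax : ∀ φ : K →+* ℂ, max ‖φ (u : K)‖ 1 ≠ 0 := fun φ =>
    (lt_max_of_lt_right one_pos).ne'
  rw [Real.log_mul (pow_ne_zero _ (Nat.cast_ne_zero.2 (Nat.factorial_ne_zero _)))
    (pow_ne_zero _ (Finset.prod_ne_zero_iff.2 fun φ _ => hmax φ)), Real.log_pow, Real.log_pow,
    Real.log_prod fun φ _ => hmax φ, Nat.cast_mul, Nat.cast_sub finrank_pos] at h
  refine h.trans (le_of_eq ?_)
  push_cast
  congr 2
  refine Finset.sum_congr rfl fun φ _ => ?_
  have hpos : 0 < ‖φ (u : K)‖ := norm_pos_iff.2 ((map_ne_zero φ).2 (coe_ne_zero u))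
  rcases le_total ‖φ (u : K)‖ 1 with hle | hle
  · rw [max_eq_right hle, Real.log_one, max_eq_right (Real.log_nonpos hpos.le hle)]
  · rw [max_eq_left hle, max_eq_left (Real.log_nonneg hle)]

/-- **Silverman's theorem.** -/
theorem silverman (n ρ : ℕ) :
    ∃ c : ℝ, 0 < c ∧ ∀ (K : Type) [Field K] [NumberField K], finrank ℚ K = n →
      (∀ F : IntermediateField ℚ K, F ≠ ⊤ → rank F ≤ ρ) →
      c * Real.log |(discr K : ℝ)| ^ (rank K - ρ) ≤ regulator K :=
  exists_silverman n ρ

/-- **Fields without proper intermediate fields.** -/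
theorem silverman_primitive (n : ℕ) :
    ∃ c : ℝ, 0 < c ∧ ∀ (K : Type) [Field K] [NumberField K], finrank ℚ K = n →
      (∀ F : IntermediateField ℚ K, F = ⊥ ∨ F = ⊤) →
      c * Real.log |(discr K : ℝ)| ^ rank K ≤ regulator K := by
  obtain ⟨c, hc, h⟩ := exists_silverman n 0
  refine ⟨c, hc, fun K _ _ hn hprim => ?_⟩
  simpa using h K hn fun F hF => by
    obtain rfl : F = ⊥ := (hprim F).resolve_right hF
    have := rank_lt_finrank (⊥ : IntermediateField ℚ K)
    rw [IntermediateField.finrank_bot] at this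
    omega

/-- **Totally real fields.** -/
theorem totally_real_regulator (n : ℕ) (hn : 2 ≤ n) :
    ∃ c : ℝ, 0 < c ∧ ∀ (K : Type) [Field K] [NumberField K] [IsTotallyReal K], finrank ℚ K = n →
      c * Real.log |(discr K : ℝ)| ^ ((n + 1) / 2) ≤ regulator K :=
  exists_totallyReal n hn

/-- **Few totally real fields have a small regulator.** -/
theorem totally_real_finiteness (n : ℕ) (hn : 2 ≤ n) (B : ℝ) :
    {K : IntermediateField ℚ (AlgebraicClosure ℚ) |
      finrank ℚ K = n ∧ ∀ [NumberField K], IsTotallyReal K ∧ regulator K ≤ B}.Finite := by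
  obtain ⟨c, hc, h⟩ := exists_totallyReal n hn
  obtain ⟨N, hN⟩ : ∃ N : ℕ, Real.exp (max 1 (B / c)) ≤ N := exists_nat_ge _
  refine ((finite_of_discr_bdd (AlgebraicClosure ℚ) (N := N)).image Subtype.val).subset
    fun K hK => ?_
  have hfd : FiniteDimensional ℚ K := FiniteDimensional.of_finrank_pos (by rw [hK.1]; omega)
  haveI : NumberField K := @NumberField.mk _ _ inferInstance hfd
  obtain ⟨hreal, hR⟩ := @hK.2 this
  refine ⟨⟨K, hfd⟩, ?_, rfl⟩
  show |discr K| ≤ (N : ℤ)
  have h1 := (h K hK.1).trans hR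
  have hlog : Real.log |(discr K : ℝ)| ≤ max 1 (B / c) := by
    rcases le_or_gt (Real.log |(discr K : ℝ)|) 1 with h2 | h2
    · exact le_max_of_le_left h2
    · refine le_max_of_le_right ((le_self_pow₀ h2.le (show (n + 1) / 2 ≠ 0 by omega)).trans ?_)
      rw [le_div_iff₀ hc, mul_comm]
      exact h1
  have h3 : |(discr K : ℝ)| ≤ N :=
    ((Real.log_le_iff_le_exp (abs_pos.2 (Int.cast_ne_zero.2 (discr_ne_zero K)))).1 hlog).trans hN
  exact_mod_cast h3

end FA.RegulatorBound.Summary

end
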