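import Fermat.Agent.Root.SummaryGaloisGL2PrimePowers
import Mathlib.FieldTheory.Galois.Profinite
import Mathlib.NumberTheory.Padics.ProperSpace
import Mathlib.Topology.Instances.Matrix

/-!
# `GL₂(ℤ_p)` as a Galois group over `ℚ`

The Galois representation on the Tate module of `37a1` is continuous with dense, hence full,
image: for every prime `p` there is a continuous surjection of the absolute Galois group of `ℚ`
onto `GL₂(ℤ_p)`.
-/

set_option autoImplicit false
set_option linter.style.haveILetI false

noncomputable section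

open Filter Matrix WeierstrassCurve FA.EC FA.Frob FA.RT
open FA.Central (model37)
open scoped WeierstrassCurve.Affine Topology

local notation "Qb" => AlgebraicClosure ℚ
local notation "GQ" => AlgebraicClosure ℚ ≃ₐ[ℚ] AlgebraicClosure ℚ

namespace FA.PadicImage

/-- A continuous homomorphism from a group to a monoid is continuous into the units. -/
theorem continuous_toHomUnits {G M : Type*} [Group G] [TopologicalSpace G] [ContinuousInv G]
    [Monoid M] [TopologicalSpace M] {f : G →* M} (hf : Continuous f) :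
    Continuous f.toHomUnits := by
  refine Units.continuous_iff.mpr ⟨hf, ?_⟩
  have e : (fun σ => ((f.toHomUnits σ)⁻¹ : Mˣ).val) = fun σ => f σ⁻¹ :=
    funext fun σ => by rw [← map_inv, MonoidHom.coe_toHomUnits]
  rw [e]
  exact hf.comp continuous_inv

variable {p : ℕ} [hp : Fact p.Prime] {W : WeierstrassCurve ℤ} [(ratCurve W).IsElliptic]
  (B : FA.RT.Tate.TateBasis p W)

/-- The Galois action on the Tate module is continuous. -/
theorem continuous_rep : Continuous B.rep := by
  refine continuous_pi fun i => continuous_pi fun j => continuous_iff_continuousAt.mpr fun σ₀ => ?_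
  refine Metric.tendsto_nhds.mpr fun ε hε => ?_
  obtain ⟨n, hn⟩ := PadicInt.exists_pow_neg_lt p hε
  obtain ⟨L, hL, h⟩ := B.exists_field n
  have hmem : ∀ᶠ σ in 𝓝 σ₀, σ₀⁻¹ * σ ∈ L.fixingSubgroup :=
    ((IntermediateField.fixingSubgroup_isOpen L).preimage (continuous_const_mul σ₀⁻¹)).mem_nhds
      (by simp)
  filter_upwards [hmem] with σ hσ
  refine lt_of_le_of_lt ?_ hn
  rw [dist_eq_norm, PadicInt.norm_le_pow_iff_mem_span_pow, ← PadicInt.ker_toZModPow,
    RingHom.mem_ker, map_sub, sub_eq_zero, show B.rep σ = B.rep σ₀ * B.rep (σ₀⁻¹ * σ) by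
      rw [← map_mul, mul_inv_cancel_left]]
  have e := congrArg (fun M : Matrix (Fin 2) (Fin 2) (ZMod (p ^ n)) =>
      ((B.rep σ₀).map (PadicInt.toZModPow n) * M) i j)
    (h (σ₀⁻¹ * σ) ((IntermediateField.mem_fixingSubgroup_iff L _).mp hσ))
  simpa [← Matrix.map_mul] using e

/-- When the image meets every invertible class modulo every power of `p` it is everything. -/
theorem exists_rep_eq (h : ReachAll p W) {M : Matrix (Fin 2) (Fin 2) ℤ_[p]} (hM : IsUnit M.det) :
    ∃ σ, B.rep σ = M := by
  haveI : Algebra.IsAlgebraic ℚ Qb := AlgebraicClosure.isAlgebraic ℚ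
  haveI : IsGalois ℚ Qb := FA.EC.isGalois_algebraicClosure
  choose σ Y hY using fun n => h B n M hM
  suffices ht : Tendsto (fun n => B.rep (σ n)) atTop (𝓝 M) from
    (isCompact_range (continuous_rep B)).isClosed.mem_of_tendsto ht
      (Eventually.of_forall fun n => Set.mem_range_self _)
  refine tendsto_pi_nhds.mpr fun i => tendsto_pi_nhds.mpr fun j => Metric.tendsto_atTop.mpr
    fun ε hε => ?_
  obtain ⟨k, hk⟩ := PadicInt.exists_pow_neg_lt p hε
  refine ⟨k, fun n hn => lt_of_le_of_lt ?_ hk⟩
  rw [dist_eq_norm, hY, Matrix.add_apply, add_sub_cancel_left, Matrix.smul_apply, smul_eq_mul,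
    PadicInt.norm_le_pow_iff_mem_span_pow, Ideal.mem_span_singleton]
  exact (pow_dvd_pow _ hn).mul_right _

/-- A Tate module with full image gives a continuous surjection onto `GL₂(ℤ_p)`. -/
theorem exists_continuous_surjective (h : ReachAll p W) :
    ∃ ρ : GQ →* GL (Fin 2) ℤ_[p], Continuous ρ ∧ Function.Surjective ρ := by
  obtain ⟨B⟩ := FA.RT.Tate.exists_tateBasis (p := p) W
  refine ⟨B.rep.toHomUnits, continuous_toHomUnits (continuous_rep B), fun g => ?_⟩
  obtain ⟨σ, hσ⟩ := exists_rep_eq B h (M := g.val)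
      ((Matrix.isUnit_iff_isUnit_det _).mp g.isUnit)
  exact ⟨σ, Units.ext hσ⟩

end FA.PadicImage

namespace FA.Summary

open FA.Root.Irred

/-- **A Galois representation with image all of `GL₂(ℤ_p)`**, for every prime `p`. -/
theorem exists_continuous_surjective_gl2_padic (p : ℕ) [Fact p.Prime] :
    ∃ ρ : GQ →* GL (Fin 2) ℤ_[p], Continuous ρ ∧ Function.Surjective ρ := by
  haveI := isElliptic_model37
  exact FA.PadicImage.exists_continuous_surjective (W := model37) model37_reachAll

/-- **`GL₂(ℤ_p)` is a Galois group over `ℚ`** for every prime `p`. -/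
theorem exists_galois_gl2_padic (p : ℕ) [Fact p.Prime] :
    ∃ K : IntermediateField ℚ (AlgebraicClosure ℚ), IsGalois ℚ K ∧
      Nonempty ((K ≃ₐ[ℚ] K) ≃* GL (Fin 2) ℤ_[p]) := by
  obtain ⟨ρ, hc, hs⟩ := exists_continuous_surjective_gl2_padic p
  haveI : IsGalois ℚ Qb := FA.EC.isGalois_algebraicClosure
  let H : ClosedSubgroup GQ := ⟨ρ.ker, isClosed_singleton.preimage hc⟩
  haveI : H.Normal := ρ.normal_ker
  refine ⟨IntermediateField.fixedField H.1, (InfiniteGalois.normal_iff_isGalois _).mp ?_,
    ⟨(InfiniteGalois.normalAutEquivQuotient H).symm.trans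
      (QuotientGroup.quotientKerEquivOfSurjective ρ hs)⟩⟩
  rw [InfiniteGalois.fixingSubgroup_fixedField H]
  exact ρ.normal_ker

end FA.Summary

end
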