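import Fermat.Agent.Root.SummarySerreOpenImage
import Fermat.Agent.Root.SummaryGaloisGL2Padic

/-!
# Torsion over abelian extensions of number fields

For a semistable elliptic curve over `ℚ` and a number field `K` only finitely many torsion points
are fixed by every commutator of the Galois group of `K`: two opposite transvections in the image
modulo `l ^ n` have a commutator moving every point whose order does not divide a fixed number.
-/

set_option autoImplicit false
set_option linter.style.haveILetI false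

noncomputable section

open Matrix WeierstrassCurve WeierstrassCurve.Affine FA.EC FA.Frob FA.RT FA.RT.Tate
open scoped WeierstrassCurve.Affine Nat

local notation "Qb" => AlgebraicClosure ℚ
local notation "GQ" => AlgebraicClosure ℚ ≃ₐ[ℚ] AlgebraicClosure ℚ

namespace FA.AbelianTorsion

variable {W : WeierstrassCurve ℤ} [(ratCurve W).IsElliptic] {l : ℕ} [hl : Fact l.Prime]

/-- A transvection and its powers. -/
theorem one_add_pow_of_sq_eq_zero {R : Type*} [Ring R] {Y : R} (h : Y * Y = 0) (d : ℕ) :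
    (1 + Y) ^ d = 1 + d • Y := by
  induction d with
  | zero => simp
  | succ d ih =>
    rw [pow_succ, ih, mul_add, mul_one, add_mul, one_mul, smul_mul_assoc, h, smul_zero, add_zero,
      succ_nsmul]
    abel

/-- **The key step at one prime**: if the image contains all invertible matrices congruent to one
modulo `l ^ k`, a point of `l`-power order fixed by the commutators of a subgroup containing all
`d`-th powers is killed by `(d l ^ k) ^ 2`. -/
theorem nsmul_eq_zero_of_commute (B : TateBasis l W) {k d : ℕ}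
    (hk : ∀ Y : Matrix (Fin 2) (Fin 2) ℤ_[l],
      IsUnit (1 + (l : ℤ_[l]) ^ k • Y).det → ∃ σ, B.rep σ = 1 + (l : ℤ_[l]) ^ k • Y)
    (H : Subgroup GQ) (hd : ∀ σ : GQ, σ ^ d ∈ H) {n : ℕ} {x : Pts W} (hx : l ^ n • x = 0)
    (hfix : ∀ σ ∈ H, ∀ τ ∈ H, σ • τ • x = τ • σ • x) : (d * l ^ k) ^ 2 • x = 0 := by
  set c : ℤ_[l] := (l : ℤ_[l]) ^ k with hc
  obtain ⟨s, hs⟩ := hk !![0, 1; 0, 0] (by simp [det_fin_two])
  obtain ⟨t, ht⟩ := hk !![0, 0; 1, 0] (by simp [det_fin_two])
  have hsd : B.rep (s ^ d) = 1 + d • (c • !![0, 1; 0, 0]) := by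
    rw [map_pow, hs, one_add_pow_of_sq_eq_zero (by ext i j; fin_cases i <;> fin_cases j <;> simp)]
  have htd : B.rep (t ^ d) = 1 + d • (c • !![0, 0; 1, 0]) := by
    rw [map_pow, ht, one_add_pow_of_sq_eq_zero (by ext i j; fin_cases i <;> fin_cases j <;> simp)]
  obtain ⟨v, rfl⟩ := B.surj n x hx
  have h := hfix _ (hd s) _ (hd t)
  rw [B.rep_spec, B.rep_spec, B.rep_spec, B.rep_spec, B.phi_eq_iff] at h
  rw [← map_nsmul, B.ker]
  intro i
  have h0 := h 0
  have h1 := h 1
  rw [hsd, htd] at h0 h1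
  simp [mulVec, dotProduct, Fin.sum_univ_two, Matrix.add_apply, map_mul, map_add] at h0 h1
  fin_cases i <;> simp [map_pow, map_mul, hc] at h0 h1 ⊢
  · linear_combination h0
  · linear_combination -h1

/-- **Uniform bound** on the points fixed by the commutators of a subgroup of finite index. -/
theorem exists_bound (hlevels : ∃ m : ℕ, 0 < m ∧ ∀ (l : ℕ) [Fact l.Prime],
    ∃ (k : ℕ) (B : TateBasis l W), l ^ k ∣ m ∧
      ∀ Y : Matrix (Fin 2) (Fin 2) ℤ_[l],
        IsUnit (1 + (l : ℤ_[l]) ^ k • Y).det → ∃ σ, B.rep σ = 1 + (l : ℤ_[l]) ^ k • Y)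
    (H : Subgroup GQ) (hH : H.index ≠ 0) :
    ∃ D : ℕ, 0 < D ∧ ∀ x : Pts W, IsOfFinAddOrder x →
      (∀ σ ∈ H, ∀ τ ∈ H, σ • τ • x = τ • σ • x) → D • x = 0 := by
  have hd : ∀ σ : GQ, σ ^ H.index ! ∈ H := fun σ => by
    obtain ⟨m, hm0, hm, hσ⟩ := Subgroup.exists_pow_mem_of_index_ne_zero hH σ
    obtain ⟨e, he⟩ := Nat.dvd_factorial hm0 hm
    rw [he, pow_mul]
    exact H.pow_mem hσ e
  obtain ⟨P, hP0, hlev⟩ := hlevels
  refine ⟨(H.index ! * P) ^ 2, pow_pos (Nat.mul_pos (Nat.factorial_pos _) hP0) 2,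
    fun x hx hfix => addOrderOf_dvd_iff_nsmul_eq_zero.mp ?_⟩
  refine (Nat.dvd_iff_prime_pow_dvd_dvd _ _).mpr fun l v hlp hv => ?_
  haveI := Fact.mk hlp
  obtain ⟨e, he⟩ := hv
  have he0 : e ≠ 0 := fun h => hx.addOrderOf_pos.ne' (by rw [he, h, mul_zero])
  have hord : addOrderOf (e • x) = l ^ v := by
    rw [addOrderOf_nsmul' x he0, he, Nat.gcd_eq_right (dvd_mul_left e _),
      Nat.mul_div_cancel _ (Nat.pos_of_ne_zero he0)]
  obtain ⟨k, B, hdvd, hk⟩ := hlev l
  have hsm : ∀ (σ : GQ) (y : Pts W), σ • (e • y) = e • (σ • y) :=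
    fun σ y => map_nsmul (DistribSMul.toAddMonoidHom (Pts W) σ) e y
  have hzero := nsmul_eq_zero_of_commute B hk H hd (hord ▸ addOrderOf_nsmul_eq_zero (e • x))
    fun σ hσ τ hτ => by rw [hsm, hsm, hsm, hsm, hfix σ hσ τ hτ]
  rw [← addOrderOf_dvd_iff_nsmul_eq_zero, hord] at hzero
  exact hzero.trans (pow_dvd_pow_of_dvd (mul_dvd_mul_left _ hdvd) 2)

/-- The subgroup fixing a number field has finite index. -/
theorem index_fixingSubgroup_ne_zero (K : IntermediateField ℚ Qb) [FiniteDimensional ℚ K] :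
    K.fixingSubgroup.index ≠ 0 := by
  haveI : IsGalois ℚ Qb := FA.EC.isGalois_algebraicClosure
  have hfin := Subgroup.quotient_finite_of_isOpen _ (IntermediateField.fixingSubgroup_isOpen K)
  exact (Subgroup.finiteIndex_of_finite_quotient (H := K.fixingSubgroup)).index_ne_zero

/-- With levels at all primes, finitely many torsion points are fixed by the commutators of the
automorphisms fixing a number field. -/
theorem finite_fixed_commutators {E : WeierstrassCurve ℚ} [E.IsElliptic]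
    (hW : W.IsIntegralModelOf E) (hlevels : ∃ m : ℕ, 0 < m ∧ ∀ (l : ℕ) [Fact l.Prime],
    ∃ (k : ℕ) (B : TateBasis l W), l ^ k ∣ m ∧
      ∀ Y : Matrix (Fin 2) (Fin 2) ℤ_[l],
        IsUnit (1 + (l : ℤ_[l]) ^ k • Y).det → ∃ σ, B.rep σ = 1 + (l : ℤ_[l]) ^ k • Y)
    (K : IntermediateField ℚ Qb) [FiniteDimensional ℚ K] :
    {P : (E.toAffine⁄Qb).Point | IsOfFinAddOrder P ∧
      ∀ σ ∈ K.fixingSubgroup, ∀ τ ∈ K.fixingSubgroup,
        Affine.Point.map (σ * τ * σ⁻¹ * τ⁻¹).toAlgHom P = P}.Finite := by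
  obtain ⟨D, hD, key⟩ := exists_bound hlevels K.fixingSubgroup
    (index_fixingSubgroup_ne_zero K)
  obtain ⟨e, he⟩ := FA.Root.exists_equiv_of_model hW
  haveI : Finite (Submodule.torsionBy ℤ ((ratCurve W)⁄Qb).Point (D : ℤ)) :=
    FA.EC.finite_torsionBy _ (Nat.cast_ne_zero.mpr hD.ne')
  refine ((Set.finite_range fun Q : Submodule.torsionBy ℤ ((ratCurve W)⁄Qb).Point (D : ℤ) =>
    e Q.1)).subset fun P ⟨hP, hfix⟩ => ?_
  refine ⟨⟨e.symm P, ?_⟩, e.apply_symm_apply P⟩
  rw [Submodule.mem_torsionBy_iff, natCast_zsmul]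
  refine key _ (e.symm.toAddMonoidHom.isOfFinAddOrder hP) fun σ hσ τ hτ => ?_
  obtain ⟨Q, rfl⟩ := e.surjective P
  rw [AddEquiv.symm_apply_apply]
  have h2 : (σ⁻¹ * τ⁻¹ * σ * τ) • Q = Q := e.injective <| by
    rw [he]
    simpa using hfix σ⁻¹ (inv_mem hσ) τ⁻¹ (inv_mem hτ)
  calc σ • τ • Q = (σ * τ) • Q := (mul_smul _ _ _).symm
    _ = (τ * σ * (σ⁻¹ * τ⁻¹ * σ * τ)) • Q := by congr 1; group
    _ = τ • σ • Q := by rw [mul_smul, h2, mul_smul]

end FA.AbelianTorsion

namespace FA.Summary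

/-- **Torsion over abelian extensions of number fields** (a consequence of the open image):
only finitely many torsion points are fixed by every commutator of `Gal(ℚ̄/K)`, `K` a number field;
so there are only finitely many over the maximal abelian extension of `K`. -/
theorem finite_torsion_abelian (E : WeierstrassCurve ℚ) [E.IsElliptic]
    (h : ∀ p : ℕ, ∀ [Fact p.Prime], ∃ C : VariableChange ℚ_[p],
      HasGoodReduction ℤ_[p] (C • E.map (algebraMap ℚ ℚ_[p])) ∨
        HasMultiplicativeReduction ℤ_[p] (C • E.map (algebraMap ℚ ℚ_[p])))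
    [inst : DecidableEq (AlgebraicClosure ℚ)] (K : IntermediateField ℚ (AlgebraicClosure ℚ))
    [FiniteDimensional ℚ K] :
    {P : (E.toAffine⁄(AlgebraicClosure ℚ)).Point | IsOfFinAddOrder P ∧
      ∀ σ ∈ K.fixingSubgroup, ∀ τ ∈ K.fixingSubgroup,
        Affine.Point.map (σ * τ * σ⁻¹ * τ⁻¹).toAlgHom P = P}.Finite := by
  obtain rfl : inst = instDecEqAlgebraicClosureRat := Subsingleton.elim _ _
  obtain ⟨W, hW, hs⟩ := FA.Root.exists_semistableModel E
    fun q _ => FA.Root.isSemistableAt_of_reduction E (h q).choose_spec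
  haveI := FA.Frob.ratCurve_isElliptic_of_Δ (FA.Frob.Δ_ne_zero_of_model hW)
  exact FA.AbelianTorsion.finite_fixed_commutators hW
    (FA.OpenImage.exists_levels (FA.Frob.Δ_ne_zero_of_model hW) hs
      fun p hp => FA.OpenImage.exists_bad_ne h hW hs hp) K

/-- **Finitely many torsion points over the maximal abelian extension of `ℚ`**: only finitely many
torsion points of a semistable elliptic curve are fixed by every commutator of the absolute
Galois group. -/
theorem finite_torsion_maxAbelian (E : WeierstrassCurve ℚ) [E.IsElliptic]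
    (h : ∀ p : ℕ, ∀ [Fact p.Prime], ∃ C : VariableChange ℚ_[p],
      HasGoodReduction ℤ_[p] (C • E.map (algebraMap ℚ ℚ_[p])) ∨
        HasMultiplicativeReduction ℤ_[p] (C • E.map (algebraMap ℚ ℚ_[p])))
    [inst : DecidableEq (AlgebraicClosure ℚ)] :
    {P : (E.toAffine⁄(AlgebraicClosure ℚ)).Point | IsOfFinAddOrder P ∧
      ∀ σ τ : AlgebraicClosure ℚ ≃ₐ[ℚ] AlgebraicClosure ℚ,
        Affine.Point.map (σ * τ * σ⁻¹ * τ⁻¹).toAlgHom P = P}.Finite :=
  (finite_torsion_abelian E h ⊥).subset fun _ ⟨hP, hfix⟩ => ⟨hP, fun _ _ _ _ => hfix _ _⟩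

/-- **Finitely many torsion points over a number field.** -/
theorem finite_torsion_numberField (E : WeierstrassCurve ℚ) [E.IsElliptic]
    (h : ∀ p : ℕ, ∀ [Fact p.Prime], ∃ C : VariableChange ℚ_[p],
      HasGoodReduction ℤ_[p] (C • E.map (algebraMap ℚ ℚ_[p])) ∨
        HasMultiplicativeReduction ℤ_[p] (C • E.map (algebraMap ℚ ℚ_[p])))
    [inst : DecidableEq (AlgebraicClosure ℚ)] (K : IntermediateField ℚ (AlgebraicClosure ℚ))
    [FiniteDimensional ℚ K] :
    {P : (E.toAffine⁄(AlgebraicClosure ℚ)).Point | IsOfFinAddOrder P ∧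
      ∀ σ ∈ K.fixingSubgroup, Affine.Point.map σ.toAlgHom P = P}.Finite :=
  (finite_torsion_abelian E h K).subset fun _ ⟨hP, hfix⟩ => ⟨hP, fun _ hσ _ hτ =>
    hfix _ (mul_mem (mul_mem (mul_mem hσ hτ) (inv_mem hσ)) (inv_mem hτ))⟩

end FA.Summary

end
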