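import Fermat.Agent.Root.SummaryCMIsogeny

/-!
# The torsion of curves with complex multiplication

For the curves over `ℚ` with multiplication by the integers of `ℚ(√-q)`, `q = 11, 19, 43, 67, 163`,
the endomorphism `α = (1 + √-q) / 2` is scalar on no `E[p]`, so each `E[p ^ k]` is generated by one
point and its image under `α`. So the automorphisms of `ℚ̄` fixing `√-q` commute on all torsion:
it is rational over the maximal abelian extension of `ℚ(√-q)`, and the image of Galois on the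
`p`-power torsion is open for no prime `p`.
-/

set_option autoImplicit false
set_option linter.style.haveILetI false

noncomputable section

open WeierstrassCurve
open scoped WeierstrassCurve.Affine

namespace FA.CM.ClassOne

local notation "Qb" => AlgebraicClosure ℚ
local notation "GQ" => AlgebraicClosure ℚ ≃ₐ[ℚ] AlgebraicClosure ℚ

section alpha

variable {K₀ k : Type*} [Field K₀] [Field k] [CharZero k] [IsAlgClosed k] [DecidableEq k]
  [Algebra K₀ k]

/-- A certificate gives the endomorphism `α`, with the action of Galois on it. -/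
theorem exists_alpha_endo_of_cert (a b : K₀) [(shortCurve a b).IsElliptic] {n : ℤ} {α : k}
    (hα2 : α * α - α + (n : k) = 0) (hα0 : α ≠ 0) (c : CertOver a b α) :
    ∃ g : ((shortCurve a b).toAffine⁄k).Point →+ ((shortCurve a b).toAffine⁄k).Point,
      (∀ P, g (g P) - g P + n • P = 0) ∧
      (∀ σ : k ≃ₐ[K₀] k, σ α = α →
        ∀ P, Affine.Point.map σ.toAlgHom (g P) = g (Affine.Point.map σ.toAlgHom P)) ∧
      ∀ σ : k ≃ₐ[K₀] k, α + σ α = 1 → ∀ P, Affine.Point.map σ.toAlgHom (g P) =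
        Affine.Point.map σ.toAlgHom P - g (Affine.Point.map σ.toAlgHom P) :=
  ⟨certHom c (genericSetting k a b),
    fun P => by simpa using certHom_sq c _ (t := 1) (n := n) (by simpa using hα2) hα0 P,
    fun σ h P => (certHom_conj c _ σ P).trans (certHom_congr (c.conj σ) _ c h _),
    fun σ h P => (certHom_conj c _ σ P).trans
      (eq_sub_of_add_eq' (by
        simpa using certHom_add c (genericSetting k a b) (c.conj σ) (t := 1) (by simpa using h)
          (Affine.Point.map σ.toAlgHom P)))⟩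

end alpha

/-- A certificate gives `α` on the points of every curve with the invariant of its equation, with
the action of Galois on it. -/
theorem exists_endo_of_certificates {q n : ℕ} (hn0 : n ≠ 0) (hqn : q + 1 = 4 * n) {a b : ℚ}
    (ha : a ≠ 0) (hb : b ≠ 0) (hab : 4 * a ^ 3 + 27 * b ^ 2 ≠ 0)
    (hc : ∀ α : Qb, α ^ 2 - α + (n : Qb) = 0 → Nonempty (CertOver a b α))
    (E : WeierstrassCurve ℚ) [E.IsElliptic]
    (hj : E.j = 6912 * a ^ 3 / (4 * a ^ 3 + 27 * b ^ 2)) {s : Qb} (hs : s ^ 2 = -(q : Qb)) :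
    ∃ g : (E⁄Qb).Point →+ (E⁄Qb).Point, (∀ P, g (g P) - g P + (n : ℤ) • P = 0) ∧
      (∀ σ : GQ, σ s = s → ∀ P, σ • g P = g (σ • P)) ∧
      ∀ σ : GQ, σ s = -s → ∀ P, σ • g P = σ • P - g (σ • P) := by
  obtain ⟨d, hd, htw⟩ := exists_quadTwist_eq_short ha hb hab E hj
  haveI : (shortCurve a b).IsElliptic := htw ▸ FA.Root.quadTwist_isElliptic E hd
  set α := (1 + s) / 2 with hα
  have hqk : (q : Qb) + 1 = 4 * (n : Qb) := by exact_mod_cast hqn
  have hα2 : α * α - α + ((n : ℤ) : Qb) = 0 := by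
    rw [hα]; push_cast; field_simp; linear_combination hs - hqk
  have hα0 : α ≠ 0 := fun e => Nat.cast_ne_zero (R := Qb).mpr hn0 (by
    rw [e] at hα2; push_cast at hα2; linear_combination hα2)
  obtain ⟨c⟩ := hc α (by push_cast at hα2; linear_combination hα2)
  obtain ⟨g, hgg, hfix, hflip⟩ : ∃ g : ((shortCurve a b).toAffine⁄Qb).Point →+
      ((shortCurve a b).toAffine⁄Qb).Point, (∀ P, g (g P) - g P + (n : ℤ) • P = 0) ∧
      (∀ σ : GQ, σ s = s → ∀ P, σ • g P = g (σ • P)) ∧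
      ∀ σ : GQ, σ s = -s → ∀ P, σ • g P = σ • P - g (σ • P) := by
    obtain ⟨g, h1, h2, h3⟩ := exists_alpha_endo_of_cert a b hα2 hα0 c
    exact ⟨g, h1, fun σ h => h2 σ (by rw [hα, map_div₀, map_add, map_one, map_ofNat, h]),
      fun σ h => h3 σ (by rw [hα, map_div₀, map_add, map_one, map_ofNat, h]; field_simp; ring)⟩
  revert g
  rw [← htw]
  intro g hgg hfix hflip
  obtain ⟨r, e, hr, he⟩ := FA.Root.exists_twist_equiv_sqrt E hd
  have hsign : ∀ σ : GQ, (∀ Q, σ • e Q = e (σ • Q)) ∨ ∀ Q, σ • e Q = -e (σ • Q) := fun σ =>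
    (sq_eq_sq_iff_eq_or_eq_neg.1 (show (σ r) ^ 2 = r ^ 2 by rw [← map_pow, hr, σ.commutes])).imp
      (fun h Q => (he σ Q).1 h) fun h Q => (he σ Q).2 h
  refine ⟨e.toAddMonoidHom.comp (g.comp e.symm.toAddMonoidHom), fun P => ?_, fun σ h P => ?_,
    fun σ h P => ?_⟩ <;> obtain ⟨Q, rfl⟩ := e.surjective P <;>
    simp only [AddMonoidHom.coe_comp, Function.comp_apply, AddEquiv.coe_toAddMonoidHom,
      AddEquiv.symm_apply_apply]
  · rw [← map_zsmul e, ← map_sub, ← map_add, hgg, map_zero]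
  · rcases hsign σ with hσ | hσ <;> simp [hσ, hfix σ h]
  · rcases hsign σ with hσ | hσ <;> simp [hσ, hflip σ h, neg_add_eq_sub]

section

variable {q n : ℕ} [hqf : Fact q.Prime] (hqn : q + 1 = 4 * n) {s : Qb} (hs : s ^ 2 = -(q : Qb))
  {E : WeierstrassCurve ℚ} [E.IsElliptic] {g : (E⁄Qb).Point →+ (E⁄Qb).Point}
  (hgg : ∀ P, g (g P) - g P + (n : ℤ) • P = 0)
  (hflip : ∀ σ : GQ, σ s = -s → ∀ P, σ • g P = σ • P - g (σ • P))

include hs in
/-- Some automorphism moves `√-q`. -/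
theorem exists_flip : ∃ σ : GQ, σ s = -s := by
  by_contra H
  push Not at H
  obtain ⟨r, rfl⟩ := FA.EC.mem_range_of_fixed fun σ => (apply_sqrt hs σ).resolve_right (H σ)
  have h : r ^ 2 = -(q : ℚ) := (algebraMap ℚ Qb).injective (by simpa using hs)
  have : (0 : ℚ) < q := by exact_mod_cast hqf.out.pos
  nlinarith [sq_nonneg r]

include hqn hs hgg hflip in
/-- `α` is scalar on no `E[p]`: some `w` is independent of `α w`. -/
theorem exists_independent {p : ℕ} [Fact p.Prime] :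
    ∃ w : Submodule.torsionBy ℤ (E⁄Qb).Point p,
      LinearIndependent (ZMod p) ![w, torsEnd E g p w] := by
  by_contra H
  push Not at H
  obtain ⟨c, hc⟩ := LinearMap.exists_eq_smul_id_of_forall_notLinearIndependent H
  have hgc : ∀ w, torsEnd E g p w = c • w := fun w => by rw [hc]; rfl
  have : Nontrivial (Submodule.torsionBy ℤ (E⁄Qb).Point p) :=
    Module.nontrivial_of_finrank_eq_succ (R := ZMod p) (n := 1) (FA.EC.finrank_torsion E p)
  obtain ⟨w, hw⟩ := exists_ne (0 : Submodule.torsionBy ℤ (E⁄Qb).Point p)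
  obtain ⟨σ, hσ⟩ := exists_flip (q := q) hs
  have h1 : torsRep E p σ (torsEnd E g p w) = torsRep E p σ w - torsEnd E g p (torsRep E p σ w) :=
    Subtype.ext (hflip σ hσ w.1)
  rw [hgc, hgc, map_smul, ← sub_eq_zero] at h1
  have hu : torsRep E p σ w ≠ 0 := fun e => hw (by
    simpa [← Module.End.mul_apply, ← map_mul] using congrArg (torsRep E p σ⁻¹) e)
  have hc2 : 2 * c = 1 := by
    have h : ((2 : ZMod p) * c - 1) • torsRep E p σ w = 0 := by
      rw [← h1]; module
    exact sub_eq_zero.mp ((smul_eq_zero.mp h).resolve_right hu)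
  have hcn : c * c - c + (n : ZMod p) = 0 := by
    have h : torsEnd E g p (torsEnd E g p w) - torsEnd E g p w + ((n : ℤ) : ZMod p) • w = 0 := by
      rw [Int.cast_smul_eq_zsmul]; exact Subtype.ext (hgg w.1)
    rw [hgc, hgc, smul_smul, ← sub_smul, ← add_smul, smul_eq_zero] at h
    exact_mod_cast h.resolve_right hw
  have hq0 : (q : ZMod p) = 0 := by
    have h : (q : ZMod p) + 1 = 4 * (n : ZMod p) := by exact_mod_cast congrArg Nat.cast hqn
    linear_combination h + 4 * hcn - (2 * c - 1) * hc2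
  obtain rfl : p = q := (Nat.prime_dvd_prime_iff_eq Fact.out hqf.out).mp
    ((ZMod.natCast_eq_zero_iff _ _).mp hq0)
  refine torsEnd_ne_zero (q := p) (M := g + g - AddMonoidHom.id _) (fun P => ?_) ?_
  · simp only [AddMonoidHom.sub_apply, AddMonoidHom.add_apply, AddMonoidHom.id_apply, map_sub,
      map_add]
    rw [show -(p : ℤ) = 1 - 4 * (n : ℤ) by omega]
    linear_combination (norm := module) (4 : ℤ) • hgg P
  · refine LinearMap.ext fun P => ?_
    have h : ((2 : ℤ) : ZMod p) • torsEnd E g p P - P = 0 := by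
      rw [hgc, smul_smul]; push_cast; rw [hc2, one_smul, sub_self]
    rw [Int.cast_smul_eq_zsmul, two_zsmul] at h
    exact Subtype.ext (congrArg Subtype.val h)

end

section

variable {E : WeierstrassCurve ℚ} [E.IsElliptic] {g : (E⁄Qb).Point →+ (E⁄Qb).Point}
  {p : ℕ} [hp : Fact p.Prime]

/-- The torsion points are divisible by `p` among the torsion points. -/
theorem exists_torsion_div (m : ℕ) {x : (E⁄Qb).Point} (hx : p ^ m • x = 0) :
    ∃ y : (E⁄Qb).Point, p ^ (m + 1) • y = 0 ∧ p • y = x := by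
  let T := fun k : ℕ => (Submodule.torsionBy ℤ (E⁄Qb).Point (k : ℤ)).toAddSubgroup
  have hT : ∀ k y, y ∈ T k ↔ k • y = 0 := fun k y => by
    show y ∈ Submodule.torsionBy ℤ (E⁄Qb).Point (k : ℤ) ↔ _
    rw [Submodule.mem_torsionBy_iff, natCast_zsmul]
  have hcard : ∀ k, k ≠ 0 → Nat.card (T k) = k ^ 2 := fun k hk => FA.EC.natCard_torsion E hk
  have hp0 : ∀ k, p ^ k ≠ 0 := fun k => pow_ne_zero _ hp.out.ne_zero
  haveI : Finite (T p) := FA.EC.finite_torsion E hp.out.ne_zero
  haveI : Finite (T (p ^ m)) := FA.EC.finite_torsion E (hp0 m)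
  haveI : Finite (T (p ^ (m + 1))) := FA.EC.finite_torsion E (hp0 _)
  let f : T (p ^ (m + 1)) →+ T (p ^ m) := AddMonoidHom.mk'
    (fun y => ⟨p • y.1, (hT _ _).mpr (by rw [← mul_nsmul', ← pow_succ]; exact (hT _ _).mp y.2)⟩)
    fun a b => Subtype.ext (nsmul_add _ _ _)
  have hker : Nat.card f.ker ≤ p ^ 2 := by
    rw [← hcard p hp.out.ne_zero]
    exact Nat.card_le_card_of_injective (fun y => (⟨y.1.1, (hT _ _).mpr
        (congrArg Subtype.val (AddMonoidHom.mem_ker.mp y.2))⟩ : T p))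
      fun a b h => Subtype.ext (Subtype.ext (congrArg Subtype.val h :))
  have h1 := AddSubgroup.card_eq_card_quotient_mul_card_addSubgroup f.ker
  rw [hcard _ (hp0 _), Nat.card_congr (QuotientAddGroup.quotientKerEquivRange f).toEquiv] at h1
  have hle : Nat.card (T (p ^ m)) ≤ Nat.card f.range := by
    rw [hcard _ (hp0 _)]
    refine Nat.le_of_mul_le_mul_right (c := p ^ 2) ?_ (pow_pos hp.out.pos 2)
    calc (p ^ m) ^ 2 * p ^ 2 = (p ^ (m + 1)) ^ 2 := by ring
      _ ≤ Nat.card f.range * p ^ 2 := h1.le.trans (Nat.mul_le_mul_left _ hker)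
  have htop : f.range = ⊤ := AddSubgroup.eq_top_of_card_eq _
    (le_antisymm (Nat.card_le_card_of_injective Subtype.val Subtype.val_injective) hle)
  obtain ⟨y, hy⟩ := AddMonoidHom.range_eq_top.mp htop ⟨x, (hT _ _).mpr hx⟩
  exact ⟨y.1, (hT _ _).mp y.2, congrArg Subtype.val hy⟩

/-- A point independent of its image lifts to one generating `E[p ^ (k + 1)]` with its image. -/
theorem exists_generator {w : Submodule.torsionBy ℤ (E⁄Qb).Point p}
    (hw : LinearIndependent (ZMod p) ![w, torsEnd E g p w]) (k : ℕ) :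
    ∃ v : (E⁄Qb).Point, p ^ (k + 1) • v = 0 ∧ p ^ k • v = w.1 ∧
      ∀ Q, p ^ (k + 1) • Q = 0 → ∃ a b : ℤ, Q = a • v + b • g v := by
  have hw1 : p • w.1 = 0 := by
    rw [← natCast_zsmul]; exact (Submodule.mem_torsionBy_iff _ _).mp w.2
  have hbase : ∀ Q, p • Q = 0 → ∃ a b : ℤ, Q = a • w.1 + b • g w.1 := fun Q hQ => by
    have htop := hw.span_eq_top_of_card_eq_finrank (by simp [FA.EC.finrank_torsion E p])
    have hmem : (⟨Q, (Submodule.mem_torsionBy_iff _ _).mpr (by rwa [natCast_zsmul])⟩ :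
        Submodule.torsionBy ℤ (E⁄Qb).Point p) ∈
        Submodule.span (ZMod p) (Set.range ![w, torsEnd E g p w]) := htop ▸ Submodule.mem_top
    rw [Matrix.range_cons, Matrix.range_cons, Matrix.range_empty, Set.union_empty,
      Set.union_singleton, Set.pair_comm, Submodule.mem_span_pair] at hmem
    obtain ⟨a, b, h⟩ := hmem
    refine ⟨(a.val : ℤ), (b.val : ℤ), ?_⟩
    rw [show a = (((a.val : ℕ) : ℤ) : ZMod p) by simp,
      show b = (((b.val : ℕ) : ℤ) : ZMod p) by simp, Int.cast_smul_eq_zsmul,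
      Int.cast_smul_eq_zsmul] at h
    exact (congrArg Subtype.val h).symm
  induction k with
  | zero => exact ⟨w.1, by simp [hw1], by simp, by simpa using hbase⟩
  | succ k ih =>
    obtain ⟨v, hv, hvw, hspan⟩ := ih
    obtain ⟨v', hv', hpv⟩ := exists_torsion_div (k + 1) hv
    have hvw' : p ^ (k + 1) • v' = w.1 := by rw [pow_succ, mul_nsmul', hpv, hvw]
    refine ⟨v', hv', hvw', fun Q hQ => ?_⟩
    obtain ⟨a, b, hab⟩ := hspan (p • Q) (by rw [← mul_nsmul', ← pow_succ]; exact hQ)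
    obtain ⟨c, d, hcd⟩ := hbase (Q - (a • v' + b • g v')) (by
      rw [nsmul_sub, hab, nsmul_add, smul_comm p a, smul_comm p b, ← map_nsmul, hpv, sub_self])
    refine ⟨a + c * (p ^ (k + 1) : ℕ), b + d * (p ^ (k + 1) : ℕ), ?_⟩
    rw [eq_add_of_sub_eq hcd, ← hvw', map_nsmul]
    simp only [← natCast_zsmul]
    module

/-- Endomorphisms commuting with `α` commute on the `p`-power torsion. -/
theorem commute_primePow {w : Submodule.torsionBy ℤ (E⁄Qb).Point p}
    (hw : LinearIndependent (ZMod p) ![w, torsEnd E g p w])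
    {F G : (E⁄Qb).Point →+ (E⁄Qb).Point} (hF : ∀ P, F (g P) = g (F P))
    (hG : ∀ P, G (g P) = g (G P)) (k : ℕ) {Q : (E⁄Qb).Point} (hQ : p ^ k • Q = 0) :
    F (G Q) = G (F Q) := by
  obtain ⟨v, hv, -, hspan⟩ := exists_generator hw k
  obtain ⟨a, b, rfl⟩ := hspan Q (by rw [pow_succ', mul_nsmul', hQ, nsmul_zero])
  obtain ⟨a₁, b₁, hFv⟩ := hspan (F v) (by rw [← map_nsmul, hv, map_zero])
  obtain ⟨a₂, b₂, hGv⟩ := hspan (G v) (by rw [← map_nsmul, hv, map_zero])
  simp only [map_add, map_zsmul, hF, hG, hFv, hGv]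
  module

end

/-- Endomorphisms commuting with `α` commute on all torsion, once `α` is scalar on no `E[p]`. -/
theorem commute_torsion {E : WeierstrassCurve ℚ} [E.IsElliptic]
    {g : (E⁄Qb).Point →+ (E⁄Qb).Point}
    (hw : ∀ p : ℕ, ∀ [Fact p.Prime], ∃ w : Submodule.torsionBy ℤ (E⁄Qb).Point p,
      LinearIndependent (ZMod p) ![w, torsEnd E g p w])
    {F G : (E⁄Qb).Point →+ (E⁄Qb).Point} (hF : ∀ P, F (g P) = g (F P))
    (hG : ∀ P, G (g P) = g (G P)) :
    ∀ m : ℕ, m ≠ 0 → ∀ Q, m • Q = 0 → F (G Q) = G (F Q) := by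
  intro m
  induction m using Nat.recOnPrimeCoprime with
  | zero => exact fun h => (h rfl).elim
  | prime_pow p k hp =>
    intro _ Q hQ
    haveI := Fact.mk hp
    obtain ⟨w, hw⟩ := hw p
    exact commute_primePow hw hF hG k hQ
  | coprime a b ha hb hab iha ihb =>
    intro _ Q hQ
    have h1 := ihb (by omega) (a • Q) (by rw [← mul_nsmul', mul_comm, hQ])
    have h2 := iha (by omega) (b • Q) (by rw [← mul_nsmul', hQ])
    obtain ⟨x, y, hxy⟩ := Int.isCoprime_iff_gcd_eq_one.mpr (by exact_mod_cast hab :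
      Int.gcd (a : ℤ) (b : ℤ) = 1)
    rw [show Q = x • a • Q + y • b • Q by
      rw [← natCast_zsmul Q a, ← natCast_zsmul Q b, smul_smul, smul_smul, ← add_zsmul, hxy,
        one_zsmul]]
    simp only [map_add, map_zsmul, h1, h2]

/-- The endomorphism `α` of the five invariants. -/
theorem exists_endo_of_cm (E : WeierstrassCurve ℚ) [E.IsElliptic] {q : ℕ}
    (h : q = 11 ∧ E.j = -32768 ∨ q = 19 ∧ E.j = -884736 ∨ q = 43 ∧ E.j = -884736000 ∨
      q = 67 ∧ E.j = -147197952000 ∨ q = 163 ∧ E.j = -262537412640768000)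
    {s : Qb} (hs : s ^ 2 = -(q : Qb)) :
    ∃ g : (E⁄Qb).Point →+ (E⁄Qb).Point,
      (∀ P, (4 : ℤ) • (g (g P) - g P) + ((q : ℤ) + 1) • P = 0) ∧
      (∀ σ : GQ, σ s = s → ∀ P, σ • g P = g (σ • P)) ∧
      (∀ σ : GQ, σ s = -s → ∀ P, σ • g P = σ • P - g (σ • P)) ∧
      ∀ p : ℕ, ∀ [Fact p.Prime], ∃ w : Submodule.torsionBy ℤ (E⁄Qb).Point p,
        LinearIndependent (ZMod p) ![w, torsEnd E g p w] := by
  obtain ⟨n, a, b, hq, hn, ha, hb, hab, hc, hj⟩ : ∃ (n : ℕ) (a b : ℚ), q.Prime ∧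
      q + 1 = 4 * n ∧ a ≠ 0 ∧ b ≠ 0 ∧ 4 * a ^ 3 + 27 * b ^ 2 ≠ 0 ∧
      (∀ α : Qb, α ^ 2 - α + (n : Qb) = 0 → Nonempty (CertOver a b α)) ∧
      E.j = 6912 * a ^ 3 / (4 * a ^ 3 + 27 * b ^ 2) := by
    rcases h with ⟨rfl, hj⟩ | ⟨rfl, hj⟩ | ⟨rfl, hj⟩ | ⟨rfl, hj⟩ | ⟨rfl, hj⟩
    exacts [⟨3, _, _, by norm_num, rfl, by norm_num, by norm_num, by norm_num,
        certificates_eleven, hj.trans (by norm_num)⟩,
      ⟨5, _, _, by norm_num, rfl, by norm_num, by norm_num, by norm_num,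
        certificates_nineteen, hj.trans (by norm_num)⟩,
      ⟨11, _, _, by norm_num, rfl, by norm_num, by norm_num, by norm_num,
        certificates_fortyThree, hj.trans (by norm_num)⟩,
      ⟨17, _, _, by norm_num, rfl, by norm_num, by norm_num, by norm_num,
        certificates_sixtySeven, hj.trans (by norm_num)⟩,
      ⟨41, _, _, by norm_num, rfl, by norm_num, by norm_num, by norm_num,
        certificates_oneSixtyThree, hj.trans (by norm_num)⟩]
  haveI := Fact.mk hq
  obtain ⟨g, hgg, hfix, hflip⟩ :=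
    exists_endo_of_certificates (by omega) hn ha hb hab hc E hj hs
  refine ⟨g, fun P => ?_, hfix, hflip, fun p _ => exists_independent hn hs hgg hflip⟩
  rw [show (q : ℤ) + 1 = 4 * (n : ℤ) by exact_mod_cast hn]
  linear_combination (norm := module) (4 : ℤ) • hgg P

end FA.CM.ClassOne

namespace FA.Summary

open FA.CM.ClassOne

/-- **The torsion of the curves with complex multiplication is abelian over `ℚ(√-q)`**: every
torsion point is fixed by all commutators of the automorphisms fixing `√-q`. -/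
theorem torsion_fixed_of_cm (E : WeierstrassCurve ℚ) [E.IsElliptic]
    [inst : DecidableEq (AlgebraicClosure ℚ)] {q : ℕ}
    (h : q = 11 ∧ E.j = -32768 ∨ q = 19 ∧ E.j = -884736 ∨ q = 43 ∧ E.j = -884736000 ∨
      q = 67 ∧ E.j = -147197952000 ∨ q = 163 ∧ E.j = -262537412640768000)
    {s : AlgebraicClosure ℚ} (hs : s ^ 2 = -(q : AlgebraicClosure ℚ))
    {σ τ : AlgebraicClosure ℚ ≃ₐ[ℚ] AlgebraicClosure ℚ} (hσ : σ s = s) (hτ : τ s = s)
    {P : (E.toAffine⁄(AlgebraicClosure ℚ)).Point} (hP : IsOfFinAddOrder P) :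
    Affine.Point.map (σ * τ * σ⁻¹ * τ⁻¹).toAlgHom P = P := by
  obtain rfl : inst = instDecEqAlgebraicClosureRat := Subsingleton.elim _ _
  obtain ⟨g, -, hfix, -, hw⟩ := exists_endo_of_cm E h hs
  show (σ * τ * σ⁻¹ * τ⁻¹) • P = P
  have hQ : addOrderOf P • (σ⁻¹ • τ⁻¹ • P) = 0 := by
    exact ((map_nsmul (DistribSMul.toAddMonoidHom _ σ⁻¹) _ _).symm).trans (by
      show σ⁻¹ • (addOrderOf P • τ⁻¹ • P) = 0
      rw [show addOrderOf P • τ⁻¹ • P = τ⁻¹ • (addOrderOf P • P) from
        (map_nsmul (DistribSMul.toAddMonoidHom _ τ⁻¹) _ _).symm, addOrderOf_nsmul_eq_zero,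
        smul_zero, smul_zero])
  have hc : σ • τ • σ⁻¹ • τ⁻¹ • P = τ • σ • σ⁻¹ • τ⁻¹ • P := commute_torsion hw
    (F := DistribSMul.toAddMonoidHom _ σ) (G := DistribSMul.toAddMonoidHom _ τ)
    (hfix σ hσ) (hfix τ hτ) _ hP.addOrderOf_pos.ne' _ hQ
  rw [mul_smul, mul_smul, mul_smul, hc, smul_inv_smul, smul_inv_smul]

/-- So the semistability hypothesis of `finite_torsion_abelian` cannot be dropped: infinitely many
torsion points are rational over the maximal abelian extension of a number field. -/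
theorem infinite_torsion_abelian_of_cm (E : WeierstrassCurve ℚ) [E.IsElliptic]
    [inst : DecidableEq (AlgebraicClosure ℚ)]
    (h : E.j ∈ ({-32768, -884736, -884736000, -147197952000, -262537412640768000} : Finset ℚ)) :
    ∃ K : IntermediateField ℚ (AlgebraicClosure ℚ), FiniteDimensional ℚ K ∧
      {P : (E.toAffine⁄(AlgebraicClosure ℚ)).Point | IsOfFinAddOrder P ∧
        ∀ σ ∈ K.fixingSubgroup, ∀ τ ∈ K.fixingSubgroup,
          Affine.Point.map (σ * τ * σ⁻¹ * τ⁻¹).toAlgHom P = P}.Infinite := by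
  obtain rfl : inst = instDecEqAlgebraicClosureRat := Subsingleton.elim _ _
  simp only [Finset.mem_insert, Finset.mem_singleton] at h
  obtain ⟨q, hqj⟩ : ∃ q : ℕ, q = 11 ∧ E.j = -32768 ∨ q = 19 ∧ E.j = -884736 ∨
      q = 43 ∧ E.j = -884736000 ∨ q = 67 ∧ E.j = -147197952000 ∨
      q = 163 ∧ E.j = -262537412640768000 := by
    rcases h with h | h | h | h | h
    exacts [⟨11, by simp [h]⟩, ⟨19, by simp [h]⟩, ⟨43, by simp [h]⟩, ⟨67, by simp [h]⟩,
      ⟨163, by simp [h]⟩]
  obtain ⟨s, hs⟩ := IsAlgClosed.exists_pow_nat_eq (-(q : AlgebraicClosure ℚ)) two_pos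
  refine ⟨IntermediateField.adjoin ℚ {s}, IntermediateField.adjoin.finiteDimensional
    (Algebra.IsIntegral.isIntegral s), fun hfin => ?_⟩
  have := hfin.to_subtype
  set T := {P : (E.toAffine⁄(AlgebraicClosure ℚ)).Point | IsOfFinAddOrder P ∧
    ∀ σ ∈ (IntermediateField.adjoin ℚ {s}).fixingSubgroup,
      ∀ τ ∈ (IntermediateField.adjoin ℚ {s}).fixingSubgroup,
        Affine.Point.map (σ * τ * σ⁻¹ * τ⁻¹).toAlgHom P = P} with hT
  set N := Nat.card T + 1 with hN
  have hsub : ∀ P : Submodule.torsionBy ℤ (E.toAffine⁄(AlgebraicClosure ℚ)).Point (N : ℤ),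
      P.1 ∈ T := fun P => by
    have hP : IsOfFinAddOrder P.1 := isOfFinAddOrder_iff_nsmul_eq_zero.mpr ⟨N, by omega, by
      rw [← natCast_zsmul]; exact (Submodule.mem_torsionBy_iff _ _).mp P.2⟩
    refine ⟨hP, fun σ hσ τ hτ => torsion_fixed_of_cm E hqj hs ?_ ?_ hP⟩ <;>
      exact (IntermediateField.mem_fixingSubgroup_iff _ _).mp ‹_› s
        (IntermediateField.mem_adjoin_simple_self ℚ s)
  have hle := Nat.card_le_card_of_injective (fun P => (⟨P.1, hsub P⟩ : T))
    fun P Q e => Subtype.ext (congrArg Subtype.val e :)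
  rw [FA.EC.natCard_torsion E (by omega : N ≠ 0)] at hle
  nlinarith

/-- **Serre's open image theorem fails with complex multiplication**, at every prime. -/
theorem not_serreOpenImage_of_cm (E : WeierstrassCurve ℚ) [E.IsElliptic]
    [inst : DecidableEq (AlgebraicClosure ℚ)]
    (h : E.j ∈ ({-32768, -884736, -884736000, -147197952000, -262537412640768000} : Finset ℚ))
    {p : ℕ} (hp : p.Prime) :
    ¬ ∃ k : ℕ, ∀ (n : ℕ)
      (φ : Submodule.torsionBy ℤ (E.toAffine⁄(AlgebraicClosure ℚ)).Point ((p : ℤ) ^ n) ≃+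
        Submodule.torsionBy ℤ (E.toAffine⁄(AlgebraicClosure ℚ)).Point ((p : ℤ) ^ n)),
      (∀ P, p ^ k • P.1 = 0 → φ P = P) →
        ∃ σ : AlgebraicClosure ℚ ≃ₐ[ℚ] AlgebraicClosure ℚ, ∀ P,
          Affine.Point.map σ.toAlgHom P.1 = (φ P).1 := by
  obtain rfl : inst = instDecEqAlgebraicClosureRat := Subsingleton.elim _ _
  rintro ⟨k, hk⟩
  simp only [Finset.mem_insert, Finset.mem_singleton] at h
  obtain ⟨q, hqj⟩ : ∃ q : ℕ, q = 11 ∧ E.j = -32768 ∨ q = 19 ∧ E.j = -884736 ∨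
      q = 43 ∧ E.j = -884736000 ∨ q = 67 ∧ E.j = -147197952000 ∨
      q = 163 ∧ E.j = -262537412640768000 := by
    rcases h with h | h | h | h | h
    exacts [⟨11, by simp [h]⟩, ⟨19, by simp [h]⟩, ⟨43, by simp [h]⟩, ⟨67, by simp [h]⟩,
      ⟨163, by simp [h]⟩]
  obtain ⟨s, hs⟩ := IsAlgClosed.exists_pow_nat_eq (-(q : AlgebraicClosure ℚ)) two_pos
  obtain ⟨g, -, hfix, hflip, hw⟩ := exists_endo_of_cm E hqj hs
  haveI := Fact.mk hp
  obtain ⟨w, hw⟩ := hw p
  let T := Submodule.torsionBy ℤ (E.toAffine⁄(AlgebraicClosure ℚ)).Point ((p : ℤ) ^ (k + 2))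
  let B := basisOfLinearIndependentOfCardEqFinrank hw (by simp [FA.EC.finrank_torsion E p])
  let N := B.constr (ZMod p) ![0, w]
  have hN0 : N w = 0 := by
    simpa [N, B] using B.constr_basis (ZMod p) ![0, w] 0
  have hN1 : N (torsEnd E g p w) = w := by
    simpa [N, B] using B.constr_basis (ZMod p) ![0, w] 1
  have hT : ∀ P : T, p ^ (k + 2) • P.1 = 0 := fun P => by
    rw [← natCast_zsmul]; push_cast; exact (Submodule.mem_torsionBy_iff _ _).mp P.2
  have hlow : ∀ R : Submodule.torsionBy ℤ (E.toAffine⁄(AlgebraicClosure ℚ)).Point (p : ℤ),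
      ∀ j : ℕ, p ^ (j + 1) • R.1 = 0 := fun R j => by
    rw [pow_succ, mul_nsmul', ← natCast_zsmul (R.1) p,
      (Submodule.mem_torsionBy_iff _ _).mp R.2, nsmul_zero]
  let π : T →+ Submodule.torsionBy ℤ (E.toAffine⁄(AlgebraicClosure ℚ)).Point (p : ℤ) :=
    AddMonoidHom.mk' (fun P => ⟨p ^ (k + 1) • P.1, (Submodule.mem_torsionBy_iff _ _).mpr (by
        rw [natCast_zsmul, ← mul_nsmul', ← pow_succ']; exact hT P)⟩)
      fun P Q => Subtype.ext (nsmul_add _ _ _)
  let ι : Submodule.torsionBy ℤ (E.toAffine⁄(AlgebraicClosure ℚ)).Point (p : ℤ) →+ T :=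
    AddMonoidHom.mk' (fun R => ⟨R.1, (Submodule.mem_torsionBy_iff _ _).mpr (by
        rw [← Nat.cast_pow, natCast_zsmul]; exact hlow R (k + 1))⟩) fun P Q => rfl
  let D : T →+ T := (ι.comp N.toAddMonoidHom).comp π
  have hπ : ∀ P, π P = 0 → D P = 0 := fun P h => by simp [D, h]
  have hD : ∀ P : T, p ^ (k + 1) • P.1 = 0 → D P = 0 := fun P hP => hπ P (Subtype.ext hP)
  have hDD : ∀ P, D (D P) = 0 := fun P => hD _ (hlow _ k)
  let φ : T ≃+ T :=
    { toFun := fun P => P + D P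
      invFun := fun P => P - D P
      left_inv := fun P => by simp [map_add, hDD]
      right_inv := fun P => by simp [map_sub, hDD]
      map_add' := fun P Q => by rw [map_add]; abel }
  obtain ⟨σ, hσ⟩ := hk (k + 2) φ fun P hP => show P + D P = P by
    rw [hD P (by rw [pow_succ', mul_nsmul', hP, nsmul_zero]), add_zero]
  have hσ' : ∀ P : T, σ • P.1 = P.1 + (D P).1 := fun P => hσ P
  obtain ⟨v, hv, hvw, -⟩ := exists_generator hw (k + 1)
  have hmem : ∀ {X : (E.toAffine⁄(AlgebraicClosure ℚ)).Point}, p ^ (k + 2) • X = 0 → X ∈ T :=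
    fun h => (Submodule.mem_torsionBy_iff _ _).mpr (by rwa [← Nat.cast_pow, natCast_zsmul])
  have hsmall : ∀ R : Submodule.torsionBy ℤ (E.toAffine⁄(AlgebraicClosure ℚ)).Point (p : ℤ),
      σ • R.1 = R.1 := fun R => by
    have h := hσ' ⟨R.1, hmem (hlow R (k + 1))⟩
    rwa [hD _ (hlow R k), Submodule.coe_zero, add_zero] at h
  rcases apply_sqrt hs σ with hσs | hσs
  · -- `σ` commutes with `α`, the automorphism does not
    have h1 := hfix σ hσs v
    rw [hσ' ⟨g v, hmem (by rw [← map_nsmul, hv, map_zero])⟩, hσ' ⟨v, hmem hv⟩, map_add,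
      add_right_inj] at h1
    have hπv : π ⟨v, hmem hv⟩ = w := Subtype.ext hvw
    have hπg : π ⟨g v, hmem (by rw [← map_nsmul, hv, map_zero])⟩ = torsEnd E g p w :=
      Subtype.ext ((map_nsmul g _ v).symm.trans (congrArg g hvw))
    have e0 : (D ⟨v, hmem hv⟩).1 = 0 := by
      show (N (π _)).1 = 0
      rw [hπv, hN0]; rfl
    have e1 : (D ⟨g v, hmem (by rw [← map_nsmul, hv, map_zero])⟩).1 = w.1 := by
      show (N (π _)).1 = w.1
      rw [hπg, hN1]
    rw [e0, e1, map_zero] at h1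
    exact hw.ne_zero 0 (Subtype.ext h1)
  · -- `σ` fixes `E[p]`, so it does not send `α` to `1 - α` there
    have h1 := hflip σ hσs w.1
    rw [hsmall w, show σ • g w.1 = g w.1 from hsmall (torsEnd E g p w)] at h1
    have h2 : (-1 : ZMod p) • w + (2 : ZMod p) • torsEnd E g p w = 0 := by
      rw [show (2 : ZMod p) = ((2 : ℤ) : ZMod p) by simp, neg_one_smul,
        Int.cast_smul_eq_zsmul, two_zsmul]
      refine Subtype.ext ?_
      show -w.1 + (g w.1 + g w.1) = 0
      conv_lhs => enter [2, 1]; rw [h1]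
      abel
    exact neg_ne_zero.mpr one_ne_zero (LinearIndependent.pair_iff.mp hw _ _ h2).1

end FA.Summary

end
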