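import Fermat.Agent.Root.SummarySerreFiniteIndex
import Fermat.Agent.Root.SummarySurjectiveTwist
import Fermat.Agent.Root.SummaryAbelianTorsion
import Fermat.Agent.Root.SummaryFrobenius
import Fermat.Agent.Root.SummaryCMAbelianTorsion

/-!
# The endomorphisms of the torsion of a semistable curve, and no complex multiplication

For a semistable elliptic curve over `ℚ`, or one with a semistable quadratic twist, and any number
field `K`, an endomorphism of the torsion commuting with the automorphisms fixing `K` is a scalar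
at every level: two opposite transvections in the open image leave nothing else. Hence no
endomorphism of `E(ℚ̄)` defined over a number field is an imaginary quadratic integer, unlike the
curves with complex multiplication.
-/

set_option autoImplicit false
set_option linter.style.haveILetI false

noncomputable section

open WeierstrassCurve Polynomial
open scoped WeierstrassCurve.Affine

local notation "Qb" => AlgebraicClosure ℚ
local notation "GQ" => AlgebraicClosure ℚ ≃ₐ[ℚ] AlgebraicClosure ℚ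

namespace FA.EndTorsion

/-- The two opposite nilpotent maps of `(ℤ/M)²`. -/
def nilMap (M : ℕ) (b : Bool) : (Fin 2 → ZMod M) →+ (Fin 2 → ZMod M) :=
  AddMonoidHom.mk' (fun v => if b then ![v 1, 0] else ![0, v 0]) fun v w => by
    cases b <;> (funext i; fin_cases i <;> simp)

theorem nilMap_sq (M : ℕ) (b : Bool) (v : Fin 2 → ZMod M) :
    nilMap M b (nilMap M b v) = 0 := by
  cases b <;> (funext i; fin_cases i <;> simp [nilMap])

/-- A map commuting with both nilpotent maps up to the factor `D` is scalar on what `N` kills. -/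
theorem scalar_of_commute {M N D : ℕ} [NeZero M] (hM : M = N * D) (hN : N ≠ 0)
    (A : (Fin 2 → ZMod M) →+ (Fin 2 → ZMod M))
    (h : ∀ b v, D • A (nilMap M b v) = D • nilMap M b (A v)) :
    ∃ c : ℤ, ∀ w : Fin 2 → ZMod M, N • w = 0 → A w = c • w := by
  have h0 : (![0, 0] : Fin 2 → ZMod M) = 0 := by funext i; fin_cases i <;> simp
  have h10 := congrFun (h true ![1, 0]) 0
  have h01 := congrFun (h true ![0, 1]) 0
  have h01' := congrFun (h false ![0, 1]) 1
  simp [nilMap, h0] at h10 h01 h01'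
  refine ⟨(A ![1, 0] 0).val, fun w hw => ?_⟩
  have hdiv : ∀ i, ∃ z : ZMod M, w i = (D : ZMod M) * z := fun i => by
    have h0 : ((N * (w i).val : ℕ) : ZMod M) = 0 := by
      rw [Nat.cast_mul, ZMod.natCast_zmod_val]
      simpa using congrFun hw i
    obtain ⟨k, hk⟩ := (ZMod.natCast_eq_zero_iff _ _).mp h0
    refine ⟨(k : ZMod M), ?_⟩
    rw [← ZMod.natCast_zmod_val (w i), ← Nat.cast_mul]
    congr 1
    exact Nat.eq_of_mul_eq_mul_left (Nat.pos_of_ne_zero hN) (by rw [hk, hM, mul_assoc])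
  choose z hz using hdiv
  have hw' : w = (D : ZMod M) • (z 0 • ![1, 0] + z 1 • ![0, 1]) := by
    funext i; fin_cases i <;> simp [hz]
  have hA : A w = (D : ZMod M) • (z 0 • A ![1, 0] + z 1 • A ![0, 1]) := by
    conv_lhs => rw [hw', ZMod.map_smul, map_add, ZMod.map_smul, ZMod.map_smul]
  rw [hA]
  funext i
  fin_cases i <;> simp [hz]
  · linear_combination -z 1 * h01'
  · linear_combination -z 0 * h10 - z 1 * h01

variable (E : WeierstrassCurve ℚ) [E.IsElliptic]

/-- The `M`-torsion is free of rank two. -/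
theorem exists_coord (M : ℕ) [NeZero M] :
    Nonempty ((Fin 2 → ZMod M) ≃+ Submodule.torsionBy ℤ (E.toAffine⁄Qb).Point (M : ℤ)) := by
  obtain ⟨W, hW⟩ := FA.Frob.exists_integralModel E
  haveI := FA.Frob.ratCurve_isElliptic_of_Δ (FA.Frob.Δ_ne_zero_of_model hW)
  obtain ⟨b⟩ := FA.PadicImage.nonempty_torsion_equiv W (N := M)
  obtain ⟨e, -⟩ := FA.Root.exists_equiv_of_model hW
  obtain ⟨eT, -⟩ := FA.Root.exists_torsionBy_congr e (M : ℤ)
  exact ⟨b.toAddEquiv.trans eT⟩

/-- **Scalars**: what commutes with a subgroup of finite index is scalar on each level, if Galois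
induces every automorphism fixing the `m`-torsion. -/
theorem exists_scalar {m : ℕ} (hm : 0 < m)
    (key : ∀ N : ℕ, N ≠ 0 →
      ∀ φ : Submodule.torsionBy ℤ (E.toAffine⁄Qb).Point (N : ℤ) ≃+
        Submodule.torsionBy ℤ (E.toAffine⁄Qb).Point (N : ℤ),
      (∀ P, m • P.1 = 0 → φ P = P) →
        ∃ σ : GQ, ∀ P, Affine.Point.map σ.toAlgHom P.1 = (φ P).1)
    {H : Subgroup GQ} (hH : H.index ≠ 0)
    (φ : AddCommGroup.torsion (E.toAffine⁄Qb).Point →+ AddCommGroup.torsion (E.toAffine⁄Qb).Point)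
    (hφ : ∀ σ ∈ H, ∀ x y, y.1 = Affine.Point.map σ.toAlgHom x.1 →
      (φ y).1 = Affine.Point.map σ.toAlgHom (φ x).1)
    {N : ℕ} (hN : N ≠ 0) : ∃ c : ℤ, ∀ x, N • x = 0 → φ x = c • x := by
  obtain ⟨D, hD⟩ : ∃ D, H.index.factorial * m = D := ⟨_, rfl⟩
  obtain ⟨M, hM⟩ : ∃ M, N * D = M := ⟨_, rfl⟩
  have hM0 : M ≠ 0 := hM ▸ Nat.mul_ne_zero hN (hD ▸ Nat.mul_ne_zero (Nat.factorial_ne_zero _) hm.ne')
  haveI : NeZero M := ⟨hM0⟩
  obtain ⟨e⟩ := exists_coord E M
  let emb : (Fin 2 → ZMod M) →+ AddCommGroup.torsion (E.toAffine⁄Qb).Point :=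
    AddMonoidHom.mk' (fun v => ⟨(e v).1, isOfFinAddOrder_iff_nsmul_eq_zero.mpr
      ⟨M, Nat.pos_of_ne_zero hM0, by
        rw [← natCast_zsmul]; exact (Submodule.mem_torsionBy_iff _ _).mp (e v).2⟩⟩)
      fun v w => Subtype.ext (by simp)
  have hemb : ∀ v, (emb v).1 = (e v).1 := fun v => rfl
  have hkill : ∀ v, M • v = (0 : Fin 2 → ZMod M) := fun v => by funext i; simp
  have hmem : ∀ v, (φ (emb v)).1 ∈ Submodule.torsionBy ℤ (E.toAffine⁄Qb).Point (M : ℤ) := fun v => by
    rw [Submodule.mem_torsionBy_iff, natCast_zsmul, ← AddSubgroup.coe_nsmul, ← map_nsmul,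
      ← map_nsmul, hkill, map_zero, map_zero, ZeroMemClass.coe_zero]
  let A : (Fin 2 → ZMod M) →+ (Fin 2 → ZMod M) :=
    AddMonoidHom.mk' (fun v => e.symm ⟨(φ (emb v)).1, hmem v⟩)
      fun v w => by rw [← map_add e.symm]; congr 1; exact Subtype.ext (by simp)
  have hA : ∀ v, (e (A v)).1 = (φ (emb v)).1 := fun v => by simp [A]
  have hcomm : ∀ b v, D • A (nilMap M b v) = D • nilMap M b (A v) := by
    intro b v
    let f := nilMap M b
    have hf2 : ∀ w (j : ℕ), f (j • f w) = 0 := fun w j => by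
      rw [map_nsmul, show f (f w) = 0 from nilMap_sq M b w, nsmul_zero]
    let u : (Fin 2 → ZMod M) ≃+ (Fin 2 → ZMod M) :=
      { toFun := fun v => v + m • f v
        invFun := fun v => v - m • f v
        left_inv := fun v => by show v + m • f v - m • f (v + m • f v) = v; rw [map_add, hf2, add_zero, add_sub_cancel_right]
        right_inv := fun v => by show v - m • f v + m • f (v - m • f v) = v; rw [map_sub, hf2, sub_zero, sub_add_cancel]
        map_add' := fun v w => by rw [map_add, nsmul_add]; abel }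
    obtain ⟨σ, hσ⟩ := key M hM0 ((e.symm.trans u).trans e) fun P hP => by
      have h0 : m • e.symm P = 0 := by
        rw [← map_nsmul, show m • P = 0 from Subtype.ext hP, map_zero]
      show e (e.symm P + m • f (e.symm P)) = P
      rw [← map_nsmul f, h0, map_zero, add_zero, AddEquiv.apply_symm_apply]
    have hu : ∀ w, Affine.Point.map σ.toAlgHom (e w).1 = (e (w + m • f w)).1 := fun w => by
      refine (hσ (e w)).trans ?_
      show (e (u (e.symm (e w)))).1 = _
      rw [AddEquiv.symm_apply_apply]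
      rfl
    have hpow : ∀ (k : ℕ) (w), Affine.Point.map (σ ^ k).toAlgHom (e w).1 =
        (e (w + (k * m) • f w)).1 := fun k => by
      induction k with
      | zero => intro w; rw [pow_zero, FA.OpenImage.map_one_apply]; simp
      | succ k ih =>
        intro w
        rw [pow_succ, FA.OpenImage.map_mul_apply, hu, ih]
        congr 2
        rw [map_add, hf2, add_zero, Nat.succ_mul, add_nsmul]
        abel
    have hmemH : σ ^ H.index.factorial ∈ H := by
      obtain ⟨k, hk0, hk, hσk⟩ := Subgroup.exists_pow_mem_of_index_ne_zero hH σ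
      obtain ⟨j, hj⟩ := Nat.dvd_factorial hk0 hk
      rw [hj, pow_mul]
      exact H.pow_mem hσk j
    have h1 := hφ _ hmemH (emb v) (emb (v + D • f v)) (by
      rw [hemb, hemb, hpow, hD])
    rw [← hA, ← hA, hpow, hD] at h1
    have h2 := e.injective (Subtype.ext h1)
    rw [map_add, map_nsmul] at h2
    exact add_left_cancel h2
  obtain ⟨c, hc⟩ := scalar_of_commute hM.symm hN A hcomm
  refine ⟨c, fun x hx => Subtype.ext ?_⟩
  have hxM : x.1 ∈ Submodule.torsionBy ℤ (E.toAffine⁄Qb).Point (M : ℤ) := by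
    rw [Submodule.mem_torsionBy_iff, natCast_zsmul, ← AddSubgroup.coe_nsmul, ← hM, mul_comm,
      mul_nsmul', hx, nsmul_zero, ZeroMemClass.coe_zero]
  obtain ⟨w, hw⟩ := e.surjective ⟨x.1, hxM⟩
  have hxw : x = emb w := Subtype.ext (by rw [hemb, hw])
  have hw0 : N • w = 0 := e.injective (by
    rw [map_nsmul, map_zero, hw]
    exact Subtype.ext (congrArg Subtype.val hx :))
  rw [hxw, ← hA, hc w hw0, map_zsmul]
  rfl

/-- An endomorphism of the points as one of the torsion. -/
def restrictTorsion (φ : (E.toAffine⁄Qb).Point →+ (E.toAffine⁄Qb).Point) :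
    AddCommGroup.torsion (E.toAffine⁄Qb).Point →+ AddCommGroup.torsion (E.toAffine⁄Qb).Point :=
  AddMonoidHom.mk' (fun x => ⟨φ x.1, φ.isOfFinAddOrder x.2⟩) fun x y =>
    Subtype.ext (map_add φ x.1 y.1)

/-- **No imaginary quadratic endomorphism**, if the endomorphisms are scalar at every level. -/
theorem not_quadratic {K : IntermediateField ℚ Qb}
    (hs : ∀ (ψ : AddCommGroup.torsion (E.toAffine⁄Qb).Point →+
        AddCommGroup.torsion (E.toAffine⁄Qb).Point),
      (∀ σ ∈ K.fixingSubgroup, ∀ x y, y.1 = Affine.Point.map σ.toAlgHom x.1 →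
        (ψ y).1 = Affine.Point.map σ.toAlgHom (ψ x).1) →
      ∀ {N : ℕ}, N ≠ 0 → ∃ c : ℤ, ∀ x, N • x = 0 → ψ x = c • x)
    (φ : (E.toAffine⁄Qb).Point →+ (E.toAffine⁄Qb).Point)
    (hφ : ∀ σ ∈ K.fixingSubgroup, ∀ P, IsOfFinAddOrder P →
      φ (Affine.Point.map σ.toAlgHom P) = Affine.Point.map σ.toAlgHom (φ P))
    {a b : ℤ} (hsq : ¬ IsSquare (a ^ 2 - 4 * b)) :
    ¬ ∀ P, IsOfFinAddOrder P → φ (φ P) + a • φ P + b • P = 0 := by
  intro hquad
  have hirr : Irreducible (X ^ 2 + C a * X + C b : ℤ[X]) := by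
    have hm : (X ^ 2 + C a * X + C b : ℤ[X]).Monic := by monicity!
    have hd : (X ^ 2 + C a * X + C b : ℤ[X]).natDegree = 2 := by compute_degree!
    rw [hm.irreducible_iff_roots_eq_zero_of_degree_le_three (by omega) (by omega)]
    refine Multiset.eq_zero_of_forall_notMem fun r hr => hsq ⟨2 * r + a, ?_⟩
    have h0 := (mem_roots'.mp hr).2
    simp at h0
    linear_combination -4 * h0
  obtain ⟨l, hl, hroot⟩ := (FA.Summary.infinitely_many_primes_without_root _
    (by monicity!) hirr (le_of_eq (Eq.symm (by compute_degree!)))).nonempty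
  haveI := Fact.mk hl
  obtain ⟨c, hc⟩ := hs (restrictTorsion E φ)
    (fun σ hσ x y hxy => by
      show φ y.1 = _
      rw [hxy]
      exact hφ σ hσ x.1 x.2)
    (N := l) hl.ne_zero
  haveI : Nontrivial (Submodule.torsionBy ℤ (E.toAffine⁄Qb).Point (l : ℤ)) :=
    Module.nontrivial_of_finrank_eq_succ (R := ZMod l) (n := 1) (FA.EC.finrank_torsion E l)
  obtain ⟨P, hP⟩ := exists_ne (0 : Submodule.torsionBy ℤ (E.toAffine⁄Qb).Point (l : ℤ))
  have hl0 : l • P.1 = 0 := by
    rw [← natCast_zsmul]; exact (Submodule.mem_torsionBy_iff _ _).mp P.2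
  have hfin : IsOfFinAddOrder P.1 := isOfFinAddOrder_iff_nsmul_eq_zero.mpr ⟨l, hl.pos, hl0⟩
  have e1 : φ P.1 = c • P.1 := congrArg Subtype.val (hc ⟨P.1, hfin⟩ (Subtype.ext hl0))
  have e2 : (c ^ 2 + a * c + b) • P.1 = 0 := by
    have h := hquad P.1 hfin
    rw [e1, map_zsmul, e1] at h
    linear_combination (norm := module) h
  have hdvd := addOrderOf_dvd_iff_zsmul_eq_zero.mpr e2
  rw [addOrderOf_eq_prime hl0 fun h => hP (Subtype.ext h),
    ← ZMod.intCast_zmod_eq_zero_iff_dvd] at hdvd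
  refine hroot (c : ZMod l) ?_
  push_cast at hdvd
  simpa using hdvd

end FA.EndTorsion

namespace FA.Summary

/-- **The endomorphisms of the torsion are scalars** (Tate's conjecture for endomorphisms): for a
semistable elliptic curve and a number field `K`, an endomorphism of the torsion of `E(ℚ̄)`
commuting with the automorphisms fixing `K` is an integer on the points killed by any `N ≠ 0`. -/
theorem torsionEnd_scalar (E : WeierstrassCurve ℚ) [E.IsElliptic]
    (h : ∀ p : ℕ, ∀ [Fact p.Prime], ∃ C : VariableChange ℚ_[p],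
      HasGoodReduction ℤ_[p] (C • E.map (algebraMap ℚ ℚ_[p])) ∨
        HasMultiplicativeReduction ℤ_[p] (C • E.map (algebraMap ℚ ℚ_[p])))
    [inst : DecidableEq (AlgebraicClosure ℚ)] (K : IntermediateField ℚ (AlgebraicClosure ℚ))
    [FiniteDimensional ℚ K]
    (φ : AddCommGroup.torsion (E.toAffine⁄(AlgebraicClosure ℚ)).Point →+
      AddCommGroup.torsion (E.toAffine⁄(AlgebraicClosure ℚ)).Point)
    (hφ : ∀ σ ∈ K.fixingSubgroup, ∀ x y, y.1 = Affine.Point.map σ.toAlgHom x.1 →
      (φ y).1 = Affine.Point.map σ.toAlgHom (φ x).1)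
    {N : ℕ} (hN : N ≠ 0) : ∃ c : ℤ, ∀ x, N • x = 0 → φ x = c • x := by
  obtain rfl : inst = instDecEqAlgebraicClosureRat := Subsingleton.elim _ _
  obtain ⟨m, hm, key⟩ := serreOpenImage_adelic E h
  exact FA.EndTorsion.exists_scalar E hm key
    (FA.AbelianTorsion.index_fixingSubgroup_ne_zero K) φ hφ hN

/-- The same for a curve with a semistable quadratic twist. -/
theorem torsionEnd_scalar_twist (E : WeierstrassCurve ℚ) [E.IsElliptic] {d : ℚ} (hd : d ≠ 0)
    (h : ∀ p : ℕ, ∀ [Fact p.Prime], ∃ C : VariableChange ℚ_[p],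
      HasGoodReduction ℤ_[p] (C • (⟨0, 0, 0, -27 * (d ^ 2 * E.c₄), -54 * (d ^ 3 * E.c₆)⟩ :
          WeierstrassCurve ℚ).map (algebraMap ℚ ℚ_[p])) ∨
        HasMultiplicativeReduction ℤ_[p] (C • (⟨0, 0, 0, -27 * (d ^ 2 * E.c₄),
          -54 * (d ^ 3 * E.c₆)⟩ : WeierstrassCurve ℚ).map (algebraMap ℚ ℚ_[p])))
    [inst : DecidableEq (AlgebraicClosure ℚ)] (K : IntermediateField ℚ (AlgebraicClosure ℚ))
    [FiniteDimensional ℚ K]
    (φ : AddCommGroup.torsion (E.toAffine⁄(AlgebraicClosure ℚ)).Point →+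
      AddCommGroup.torsion (E.toAffine⁄(AlgebraicClosure ℚ)).Point)
    (hφ : ∀ σ ∈ K.fixingSubgroup, ∀ x y, y.1 = Affine.Point.map σ.toAlgHom x.1 →
      (φ y).1 = Affine.Point.map σ.toAlgHom (φ x).1)
    {N : ℕ} (hN : N ≠ 0) : ∃ c : ℤ, ∀ x, N • x = 0 → φ x = c • x := by
  obtain rfl : inst = instDecEqAlgebraicClosureRat := Subsingleton.elim _ _
  obtain ⟨m, hm, key⟩ := serreOpenImage_adelic_twist E hd h
  exact FA.EndTorsion.exists_scalar E hm key
    (FA.AbelianTorsion.index_fixingSubgroup_ne_zero K) φ hφ hN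

/-- The same for the curves of the `j` criterion. -/
theorem torsionEnd_scalar_of_j (E : WeierstrassCurve ℚ) [E.IsElliptic]
    (h : ∀ p : ℕ, ∀ [Fact p.Prime], (∃ C : VariableChange ℚ_[p],
      HasGoodReduction ℤ_[p] (C • E.map (algebraMap ℚ ℚ_[p])) ∨
        HasMultiplicativeReduction ℤ_[p] (C • E.map (algebraMap ℚ ℚ_[p]))) ∨
      padicValRat p E.j < 0)
    [inst : DecidableEq (AlgebraicClosure ℚ)] (K : IntermediateField ℚ (AlgebraicClosure ℚ))
    [FiniteDimensional ℚ K]
    (φ : AddCommGroup.torsion (E.toAffine⁄(AlgebraicClosure ℚ)).Point →+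
      AddCommGroup.torsion (E.toAffine⁄(AlgebraicClosure ℚ)).Point)
    (hφ : ∀ σ ∈ K.fixingSubgroup, ∀ x y, y.1 = Affine.Point.map σ.toAlgHom x.1 →
      (φ y).1 = Affine.Point.map σ.toAlgHom (φ x).1)
    {N : ℕ} (hN : N ≠ 0) : ∃ c : ℤ, ∀ x, N • x = 0 → φ x = c • x := by
  obtain ⟨d, hd, hs⟩ := exists_semistable_twist_of_j_all E h
  exact torsionEnd_scalar_twist E hd hs K φ hφ hN

/-- **A semistable curve has no complex multiplication, over any number field**: an endomorphism
of the group `E(ℚ̄)` commuting on torsion with the automorphisms fixing a number field is no root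
of `x² + a x + b` with `a² - 4 b` not a square, in particular no imaginary quadratic integer. -/
theorem no_complexMultiplication (E : WeierstrassCurve ℚ) [E.IsElliptic]
    (h : ∀ p : ℕ, ∀ [Fact p.Prime], ∃ C : VariableChange ℚ_[p],
      HasGoodReduction ℤ_[p] (C • E.map (algebraMap ℚ ℚ_[p])) ∨
        HasMultiplicativeReduction ℤ_[p] (C • E.map (algebraMap ℚ ℚ_[p])))
    [inst : DecidableEq (AlgebraicClosure ℚ)] (K : IntermediateField ℚ (AlgebraicClosure ℚ))
    [FiniteDimensional ℚ K]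
    (φ : (E.toAffine⁄(AlgebraicClosure ℚ)).Point →+ (E.toAffine⁄(AlgebraicClosure ℚ)).Point)
    (hφ : ∀ σ ∈ K.fixingSubgroup, ∀ P, IsOfFinAddOrder P →
      φ (Affine.Point.map σ.toAlgHom P) = Affine.Point.map σ.toAlgHom (φ P))
    {a b : ℤ} (hsq : ¬ IsSquare (a ^ 2 - 4 * b)) :
    ¬ ∀ P, IsOfFinAddOrder P → φ (φ P) + a • φ P + b • P = 0 := by
  obtain rfl : inst = instDecEqAlgebraicClosureRat := Subsingleton.elim _ _
  exact FA.EndTorsion.not_quadratic E (fun ψ hψ {_} hN => torsionEnd_scalar E h K ψ hψ hN) φ hφ hsq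

/-- The same for a curve with a semistable quadratic twist. -/
theorem no_complexMultiplication_twist (E : WeierstrassCurve ℚ) [E.IsElliptic] {d : ℚ} (hd : d ≠ 0)
    (h : ∀ p : ℕ, ∀ [Fact p.Prime], ∃ C : VariableChange ℚ_[p],
      HasGoodReduction ℤ_[p] (C • (⟨0, 0, 0, -27 * (d ^ 2 * E.c₄), -54 * (d ^ 3 * E.c₆)⟩ :
          WeierstrassCurve ℚ).map (algebraMap ℚ ℚ_[p])) ∨
        HasMultiplicativeReduction ℤ_[p] (C • (⟨0, 0, 0, -27 * (d ^ 2 * E.c₄),
          -54 * (d ^ 3 * E.c₆)⟩ : WeierstrassCurve ℚ).map (algebraMap ℚ ℚ_[p])))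
    [inst : DecidableEq (AlgebraicClosure ℚ)] (K : IntermediateField ℚ (AlgebraicClosure ℚ))
    [FiniteDimensional ℚ K]
    (φ : (E.toAffine⁄(AlgebraicClosure ℚ)).Point →+ (E.toAffine⁄(AlgebraicClosure ℚ)).Point)
    (hφ : ∀ σ ∈ K.fixingSubgroup, ∀ P, IsOfFinAddOrder P →
      φ (Affine.Point.map σ.toAlgHom P) = Affine.Point.map σ.toAlgHom (φ P))
    {a b : ℤ} (hsq : ¬ IsSquare (a ^ 2 - 4 * b)) :
    ¬ ∀ P, IsOfFinAddOrder P → φ (φ P) + a • φ P + b • P = 0 := by
  obtain rfl : inst = instDecEqAlgebraicClosureRat := Subsingleton.elim _ _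
  exact FA.EndTorsion.not_quadratic E
    (fun ψ hψ {_} hN => torsionEnd_scalar_twist E hd h K ψ hψ hN) φ hφ hsq

/-- The same for the curves of the `j` criterion. -/
theorem no_complexMultiplication_of_j (E : WeierstrassCurve ℚ) [E.IsElliptic]
    (h : ∀ p : ℕ, ∀ [Fact p.Prime], (∃ C : VariableChange ℚ_[p],
      HasGoodReduction ℤ_[p] (C • E.map (algebraMap ℚ ℚ_[p])) ∨
        HasMultiplicativeReduction ℤ_[p] (C • E.map (algebraMap ℚ ℚ_[p]))) ∨
      padicValRat p E.j < 0)
    [inst : DecidableEq (AlgebraicClosure ℚ)] (K : IntermediateField ℚ (AlgebraicClosure ℚ))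
    [FiniteDimensional ℚ K]
    (φ : (E.toAffine⁄(AlgebraicClosure ℚ)).Point →+ (E.toAffine⁄(AlgebraicClosure ℚ)).Point)
    (hφ : ∀ σ ∈ K.fixingSubgroup, ∀ P, IsOfFinAddOrder P →
      φ (Affine.Point.map σ.toAlgHom P) = Affine.Point.map σ.toAlgHom (φ P))
    {a b : ℤ} (hsq : ¬ IsSquare (a ^ 2 - 4 * b)) :
    ¬ ∀ P, IsOfFinAddOrder P → φ (φ P) + a • φ P + b • P = 0 := by
  obtain ⟨d, hd, hs⟩ := exists_semistable_twist_of_j_all E h
  exact no_complexMultiplication_twist E hd hs K φ hφ hsq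

/-- **In contrast, complex multiplication**: for the five CM invariants of `q = 11, 19, 43, 67,
163` some endomorphism of `E(ℚ̄)` commuting with the automorphisms fixing a number field squares
to `-q`. -/
theorem exists_complexMultiplication_of_cm (E : WeierstrassCurve ℚ) [E.IsElliptic]
    [inst : DecidableEq (AlgebraicClosure ℚ)] {q : ℕ}
    (h : q = 11 ∧ E.j = -32768 ∨ q = 19 ∧ E.j = -884736 ∨ q = 43 ∧ E.j = -884736000 ∨
      q = 67 ∧ E.j = -147197952000 ∨ q = 163 ∧ E.j = -262537412640768000) :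
    ∃ K : IntermediateField ℚ (AlgebraicClosure ℚ), FiniteDimensional ℚ K ∧
      ∃ φ : (E.toAffine⁄(AlgebraicClosure ℚ)).Point →+ (E.toAffine⁄(AlgebraicClosure ℚ)).Point,
        (∀ σ ∈ K.fixingSubgroup, ∀ P,
          φ (Affine.Point.map σ.toAlgHom P) = Affine.Point.map σ.toAlgHom (φ P)) ∧
        ∀ P, φ (φ P) = -((q : ℤ) • P) := by
  obtain rfl : inst = instDecEqAlgebraicClosureRat := Subsingleton.elim _ _
  obtain ⟨s, hs⟩ := IsAlgClosed.exists_pow_nat_eq (-(q : AlgebraicClosure ℚ)) two_pos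
  obtain ⟨g, hgg, hfix, -, -⟩ := FA.CM.ClassOne.exists_endo_of_cm E h hs
  refine ⟨IntermediateField.adjoin ℚ {s}, IntermediateField.adjoin.finiteDimensional
    (Algebra.IsIntegral.isIntegral s), g + g - AddMonoidHom.id _, fun σ hσ P => ?_, fun P => ?_⟩
  · have hg : Affine.Point.map σ.toAlgHom (g P) = g (Affine.Point.map σ.toAlgHom P) :=
      hfix σ ((IntermediateField.mem_fixingSubgroup_iff _ _).mp hσ s
        (IntermediateField.mem_adjoin_simple_self ℚ s)) P
    simp only [AddMonoidHom.sub_apply, AddMonoidHom.add_apply, AddMonoidHom.id_apply, map_sub,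
      map_add, hg]
  · simp only [AddMonoidHom.sub_apply, AddMonoidHom.add_apply, AddMonoidHom.id_apply, map_sub,
      map_add]
    linear_combination (norm := module) hgg P

end FA.Summary

end
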