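import Fermat.Agent.Root.PadicImageTransvection

/-!
# Independence of the prime power images from inertia at multiplicative primes

Suppose every prime `p ∣ N` has a multiplicative prime `q ∤ N` with exponent in the discriminant
prime to `p`. A power prime to `p` of a transvection in inertia at `q` fixes the roots of unity of
order dividing `N` and the torsion at the other primes dividing `N`, and so do its conjugates. They
generate `SL₂(ℤ / p ^ n)`, so for irreducible torsion the image on the `N`-torsion is everything,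
also for even `N`.
-/

set_option autoImplicit false
set_option linter.unusedSectionVars false
set_option linter.style.haveILetI false

noncomputable section

open Matrix WeierstrassCurve FA.EC FA.Frob FA.RT
open FA.TW (rootsFix mem_rootsFix)
open scoped WeierstrassCurve.Affine

local notation "Qb" => AlgebraicClosure ℚ
local notation "GQ" => AlgebraicClosure ℚ ≃ₐ[ℚ] AlgebraicClosure ℚ

namespace FA.PadicImage

variable {W : WeierstrassCurve ℤ} [(ratCurve W).IsElliptic]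

/-- Conjugates of elements of a `fixer` lie in it. -/
theorem conj_mem_fixer {f : ℕ → ℕ} {S T : Finset ℕ} {τ : GQ} (hτ : τ ∈ fixer W f S T) (g : GQ) :
    g * τ * g⁻¹ ∈ fixer W f S T := by
  refine ⟨fun l hl => (FA.TW.rootsFix_normal l (f l)).conj_mem τ (hτ.1 l hl) g, fun l hl x hx => ?_⟩
  rw [mul_smul, mul_smul, hτ.2 l hl (g⁻¹ • x) (by
    rw [← FA.RT.Tate.gal_smul_nsmul (W := W), hx, FA.Local.gal_smul_zero]), smul_inv_smul]

/-- Powers of a unipotent matrix. -/
theorem pow_eq_of_sq_eq_zero {R : Type*} [CommRing R] {M : Matrix (Fin 2) (Fin 2) R}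
    (h : (M - 1) * (M - 1) = 0) (m : ℕ) : M ^ m = 1 + (m : R) • (M - 1) := by
  obtain ⟨V, hV⟩ := exists_one_add_pow_two (M - 1) m
  rwa [h, zero_mul, add_zero, add_sub_cancel] at hV

/-- A multiple of `l ^ n` as power of inertia at `q ≠ l` fixes the `l ^ n`-torsion at a
multiplicative `q`. -/
theorem inertia_pow_smul {q l : ℕ} [Fact l.Prime] {A : ValuationSubring Qb} (hm : MultAt W q A)
    (hql : q ≠ l) {σ : GQ} (hσ : σ ∈ A.inertiaSubgroupIn ℚ) {n m : ℕ} (hd : l ^ n ∣ m)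
    {x : ((ratCurve W)⁄Qb).Point} (hx : l ^ n • x = 0) : σ ^ m • x = x := by
  obtain ⟨B⟩ := FA.RT.Tate.exists_tateBasis (p := l) W
  obtain ⟨v, rfl⟩ := B.surj n x hx
  refine (B.rep_spec _ n v).trans (B.phi_eq_iff.mpr fun i => ?_)
  rw [map_pow, pow_eq_of_sq_eq_zero (FA.Two.rep_inertia_mult B hm hql hσ hσ), add_mulVec,
    one_mulVec, smul_mulVec, Pi.add_apply, Pi.smul_apply, smul_eq_mul, map_add, map_mul,
    map_natCast, (ZMod.natCast_eq_zero_iff _ _).mpr hd, zero_mul, add_zero]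

/-- **Independence at one prime**: an automorphism fixing the roots of unity agrees on the
`p ^ f p`-torsion with one fixing also the torsion at the other primes. -/
theorem exists_mem_fixer_of_transvection {p : ℕ} [hp : Fact p.Prime]
    (hirr : W.ModRepIsIrreducible p) {q : ℕ} {A : ValuationSubring Qb} (hm : MultAt W q A)
    (hqp : q ≠ p) (hv : ¬ p ∣ padicValInt q W.Δ) (f : ℕ → ℕ) {T : Finset ℕ}
    (hT : ∀ l ∈ T, l.Prime ∧ q ≠ l) (g : GQ) (hg : g ∈ rootsFix p (f p)) :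
    ∃ τ ∈ fixer W f (T.erase p) T, ∀ x : ((ratCurve W)⁄Qb).Point,
      p ^ f p • x = 0 → τ • x = g • x := by
  obtain ⟨σ, hσ, hne⟩ := exists_inertia_curveRep_ne_one hm hv
  obtain ⟨B⟩ := FA.RT.Tate.exists_tateBasis (p := p) W
  obtain ⟨m, hmdef⟩ : ∃ m, ∏ l ∈ T.erase p, l ^ f l = m := ⟨_, rfl⟩
  have hpm : ¬ p ∣ m := by
    rw [← hmdef, Prime.dvd_finsetProd_iff hp.out.prime]
    rintro ⟨l, hl, hd⟩
    exact (Finset.ne_of_mem_erase hl) ((Nat.prime_dvd_prime_iff_eq hp.out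
      (hT l (Finset.mem_of_mem_erase hl)).1).mp (hp.out.dvd_of_dvd_pow hd)).symm
  have hmem : σ ^ m ∈ fixer W f (T.erase p) T := by
    refine ⟨fun l hl => pow_mem (mem_rootsFix.mpr fun μ hμ => ?_) m, fun l hl x hx => ?_⟩
    · haveI := Fact.mk (hT l hl).1
      exact FA.JTorsion.inertia_fixes_root l hm.prime (hT l hl).2 hm.lies hσ hμ
    · haveI := Fact.mk (hT l (Finset.mem_of_mem_erase hl)).1
      exact inertia_pow_smul hm (hT l (Finset.mem_of_mem_erase hl)).2 hσ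
        (hmdef ▸ Finset.dvd_prod_of_mem _ hl) hx
  have hsq0 := FA.Two.rep_inertia_mult B hm hqp hσ hσ
  have hpow : B.rep (σ ^ m) - 1 = (m : ℤ_[p]) • (B.rep σ - 1) := by
    rw [map_pow, pow_eq_of_sq_eq_zero hsq0, add_sub_cancel_left]
  have hsq : (B.rep (σ ^ m) - 1) * (B.rep (σ ^ m) - 1) = 0 := by
    rw [hpow, smul_mul_assoc, Algebra.mul_smul_comm, hsq0, smul_zero, smul_zero]
  have hne' : (B.rep (σ ^ m)).map PadicInt.toZMod ≠ 1 := fun h => hne <| by
    rw [← rep_map_toZMod B]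
    ext i j
    have h2 := congrArg (fun M : Matrix (Fin 2) (Fin 2) ℤ_[p] => PadicInt.toZMod (M i j)) hpow
    have h1 := congrFun (congrFun h i) j
    rw [Matrix.map_apply] at h1 ⊢
    simp only [Matrix.sub_apply, Matrix.smul_apply, smul_eq_mul, map_sub, map_mul, map_natCast,
      h1] at h2
    rw [show PadicInt.toZMod ((1 : Matrix (Fin 2) (Fin 2) ℤ_[p]) i j) =
      (1 : Matrix (Fin 2) (Fin 2) (ZMod p)) i j by
        rw [Matrix.one_apply, Matrix.one_apply, apply_ite PadicInt.toZMod, map_one, map_zero],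
      sub_self, eq_comm, mul_eq_zero] at h2
    exact sub_eq_zero.mp (h2.resolve_left fun h0 => hpm ((ZMod.natCast_eq_zero_iff _ _).mp h0))
  have : NeZero (p ^ f p) := ⟨pow_ne_zero _ hp.out.ne_zero⟩
  obtain ⟨y, hy⟩ : ∃ y, (B.rep g).det = 1 + (p : ℤ_[p]) ^ f p * y :=
    toZModPow_eq_iff.mp (by
      rw [B.det_rep, FA.RT.Tate.cycP_eq_natCast (a := 1) fun μ hμ => by
        rw [pow_one]; exact mem_rootsFix.mp hg μ hμ, Nat.cast_one, map_one])
  obtain ⟨τ, hτ, Y, hY⟩ := exists_mem_congr_of_transvection B.rep (fixer W f (T.erase p) T)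
    (fun l hl => by
      obtain ⟨k, hk⟩ := FA.Ribet.exists_moves_line hirr hl
      exact ⟨k, by rw [rep_map_toZMod]; exact hk⟩)
    (conj_mem_fixer hmem) hsq hne' (f p) hy
  refine ⟨τ, hτ, fun x hx => ?_⟩
  obtain ⟨v, rfl⟩ := B.surj _ x hx
  rw [B.rep_spec g]
  exact Acts.congr (fun v => B.rep_spec τ (f p) v) ⟨Y, hY⟩ v

/-- The same, fixing the torsion at the smaller primes. -/
theorem exists_mem_filter_of_transvection {p : ℕ} [Fact p.Prime]
    (hirr : W.ModRepIsIrreducible p) {q : ℕ} {A : ValuationSubring Qb} (hm : MultAt W q A)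
    (hqp : q ≠ p) (hv : ¬ p ∣ padicValInt q W.Δ) (f : ℕ → ℕ) {T : Finset ℕ}
    (hT : ∀ l ∈ T, l.Prime ∧ q ≠ l) (g : GQ) (hg : g ∈ rootsFix p (f p)) :
    ∃ τ ∈ fixer W f (T.filter (· < p)) T, ∀ x : ((ratCurve W)⁄Qb).Point,
      p ^ f p • x = 0 → τ • x = g • x := by
  obtain ⟨τ, hτ, hτx⟩ := exists_mem_fixer_of_transvection hirr hm hqp hv f hT g hg
  refine ⟨τ, ⟨hτ.1, fun l hl => hτ.2 l ?_⟩, hτx⟩
  exact Finset.mem_erase.mpr ⟨(Finset.mem_filter.mp hl).2.ne, (Finset.mem_filter.mp hl).1⟩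

/-- **Every automorphism of the `N`-torsion comes from Galois** for every `N` such that each prime
`p ∣ N` has irreducible torsion and a multiplicative prime `q ∤ N` whose exponent in the
discriminant is prime to `p`. -/
theorem exists_smul_eq_adelic_of_transvection (hΔ : W.Δ ≠ 0) {N : ℕ} (hN0 : N ≠ 0)
    (hirr : ∀ p ∈ N.primeFactors, ∀ [Fact p.Prime], W.ModRepIsIrreducible p)
    (hq : ∀ p ∈ N.primeFactors, ∃ q : ℕ, q.Prime ∧ ¬ q ∣ N ∧ (q : ℤ) ∣ W.Δ ∧ ¬ (q : ℤ) ∣ W.c₄ ∧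
      ¬ p ∣ padicValInt q W.Δ)
    (φ : Submodule.torsionBy ℤ ((ratCurve W)⁄Qb).Point (N : ℤ) ≃+
      Submodule.torsionBy ℤ ((ratCurve W)⁄Qb).Point (N : ℤ)) :
    ∃ σ : GQ, ∀ x, σ • x.1 = (φ x).1 := by
  have hne : ∀ {q l : ℕ}, ¬ q ∣ N → l ∈ N.primeFactors → q ≠ l := fun {q l} h hl e =>
    h (e ▸ Nat.dvd_of_mem_primeFactors hl)
  refine exists_smul_eq_adelic_of_glue hN0 (fun p hp _ B n M hM => ?_) (fun h hh => ?_) φ
  · obtain ⟨q, hqp, hqN, hd, hc, hv⟩ := hq p hp
    obtain ⟨A, hA⟩ := FA.Deform.exists_liesOverPrime hqp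
    exact reach_of_multAt (hirr p hp) ⟨hΔ, hqp, hd, hc, hA⟩ (hne hqN hp) hv B n hM
  refine exists_glue_of_moves _ h hh fun a ha g hg => ?_
  haveI := Fact.mk (Nat.prime_of_mem_primeFactors ha)
  obtain ⟨q, hqp, hqN, hd, hc, hv⟩ := hq a ha
  obtain ⟨A, hA⟩ := FA.Deform.exists_liesOverPrime hqp
  exact exists_mem_filter_of_transvection (hirr a ha) ⟨hΔ, hqp, hd, hc, hA⟩ (hne hqN ha) hv _
    (fun l hl => ⟨Nat.prime_of_mem_primeFactors hl, hne hqN hl⟩) g hg

end FA.PadicImage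

end
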