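import Fermat.Agent.IsogenyPrimes.LocalModel
import Fermat.Agent.Root.AdelicTransvection
import Fermat.Agent.Root.SummaryOggShafarevich

/-!
# Potentially good reduction

For an elliptic curve over `ℚ`, a prime `q` and a prime `p ≠ q`: the invariant `j` is integral at `q`
exactly when inertia at `q` acts on the `p`-power torsion through a finite quotient, that is when
the inertia elements fixing some number field fix all of it. If `j` is integral the field does not
depend on `p`: it is generated by a change of variables to an equation with unit discriminant.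
-/

set_option autoImplicit false
set_option linter.style.haveILetI false
set_option linter.unusedSectionVars false

noncomputable section

open WeierstrassCurve WeierstrassCurve.Affine Matrix FA.Frob FA.RT.Tate FA.Local
open scoped WeierstrassCurve.Affine

local notation "Qb" => AlgebraicClosure ℚ
local notation "GQ" => AlgebraicClosure ℚ ≃ₐ[ℚ] AlgebraicClosure ℚ

namespace FA.PotentialGood

variable {q : ℕ} {A : ValuationSubring Qb}

/-- A rational number integral at `q` is integral at a place above `q`. -/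
theorem valuation_le_one_of_padicValRat (hq : q.Prime) (hA : A.LiesOverPrime q) {x : ℚ}
    (hx : 0 ≤ padicValRat q x) : A.valuation (algebraMap ℚ Qb x) ≤ 1 := by
  have := Fact.mk hq
  have hd : ¬ (q : ℤ) ∣ (x.den : ℤ) := fun h => by
    rw [Int.natCast_dvd_natCast] at h
    have hn : ¬ (q : ℤ) ∣ x.num := fun h' => hq.ne_one
      (Nat.eq_one_of_dvd_one (x.reduced.gcd_eq_one ▸ Nat.dvd_gcd (Int.natCast_dvd.mp h') h))
    have := one_le_padicValNat_of_dvd (p := q) x.den_nz h
    rw [padicValRat_def, padicValInt.eq_zero_of_not_dvd hn] at hx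
    omega
  have h1 : A.valuation ((x.den : ℤ) : Qb) = 1 := valuation_intCast_of_liesOverPrime hq hA hd
  rw [Int.cast_natCast] at h1
  rw [eq_ratCast, Rat.cast_def, map_div₀, h1, div_one]
  exact (A.valuation_le_one_iff _).mpr (intCast_mem A _)

/-- An inertia element moves a point with integral equation and unit discriminant inside the kernel
of reduction, if the image point is given by the conjugate coordinates. -/
theorem e1_sub_conj {V : Affine Qb} (hI : IntCoeff A.valuation V) (hΔ : A.valuation V.Δ = 1)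
    {σ : GQ} (hσ : Inert A.valuation σ) {x y : Qb} (h : V.Nonsingular x y)
    (h' : V.Nonsingular (σ x) (σ y)) :
    E1 A.valuation V (Affine.Point.some (σ x) (σ y) h' - Affine.Point.some x y h) := by
  rcases le_or_gt (A.valuation x) 1 with hx | hx
  · rw [← e1_neg, neg_sub]
    refine e1_sub_of_congr hI h h' hx (nsRed_of_unit_Δ hI hΔ h.1 hx) ?_ ?_
    · rw [A.valuation.map_sub_swap]; exact hσ.sub_lt x hx
    · rw [A.valuation.map_sub_swap]; exact hσ.sub_lt y (le_y_of_le_x hI h.1 hx)
  · refine e1_sub hI ?_ hx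
    rw [e1_some, hσ.map_eq]
    exact hx

/-- The kernel of reduction has no `p`-power torsion. -/
theorem eq_zero_of_e1_prime_pow {V : Affine Qb} [WeierstrassCurve.IsElliptic V]
    (hI : IntCoeff A.valuation V) {p : ℕ} (hp : p.Prime) (hpv : A.valuation (p : Qb) = 1)
    {P : V.Point} (hP : E1 A.valuation V P) {n : ℕ} (hn : p ^ n • P = 0) : P = 0 := by
  induction n generalizing P with
  | zero => simpa using hn
  | succ n ih =>
    have hk : ∀ k : ℕ, E1 A.valuation V (k • P) := fun k => by
      induction k with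
      | zero => rw [zero_nsmul]; exact e1_zero
      | succ k ihk => rw [succ_nsmul]; exact e1_add hI ihk hP
    have h0 : p • p ^ n • P = 0 := by rw [← mul_nsmul', ← pow_succ', hn]
    refine ih hP ?_
    rcases hp.eq_two_or_odd' with rfl | hodd
    · exact eq_zero_of_e1_of_two hI (by simpa using hpv) (hk _) h0
    · exact eq_zero_of_e1_of_nsmul hI hodd hpv (hk _) h0

/-- No power of some inertia element fixes all `p`-power torsion at a multiplicative prime. -/
theorem exists_inertia_pow_ne {W : WeierstrassCurve ℤ} [(ratCurve W).IsElliptic] {p : ℕ}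
    [Fact p.Prime] (hm : MultAt W q A) (hqp : q ≠ p) :
    ∃ σ ∈ A.inertiaSubgroupIn ℚ, ∀ k : ℕ, k ≠ 0 →
      ∃ (n : ℕ) (x : Pts W), p ^ n • x = 0 ∧ σ ^ k • x ≠ x := by
  obtain ⟨B⟩ := FA.RT.Tate.exists_tateBasis (p := p) W
  obtain ⟨σ, hσ, hne⟩ := FA.OpenImage.exists_inertia_rep_ne_one B hm
  refine ⟨σ, hσ, fun k hk => ?_⟩
  by_contra hall
  push Not at hall
  apply hne
  have h1 : B.rep (σ ^ k) = 1 := sub_eq_zero.mp <| B.ext_phi fun n v => by
    rw [zero_mulVec, map_zero, sub_mulVec, one_mulVec, map_sub, ← B.rep_spec,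
      hall n _ (B.nsmul_phi n v), sub_self]
  rw [map_pow, FA.PadicImage.pow_eq_of_sq_eq_zero (FA.Two.rep_inertia_mult B hm hqp hσ hσ),
    add_eq_left] at h1
  ext i j
  have h2 := congrFun (congrFun h1 i) j
  simp only [Matrix.smul_apply, smul_eq_mul, Matrix.sub_apply, Matrix.zero_apply] at h2
  exact sub_eq_zero.mp ((mul_eq_zero.mp h2).resolve_left (Nat.cast_ne_zero.mpr hk))

/-- An equation over `ℚ̄` with integral coefficients and unit discriminant at a place where `j` is
integral. -/
theorem exists_goodModel (E : WeierstrassCurve ℚ) [E.IsElliptic] (hq : q.Prime)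
    (hA : A.LiesOverPrime q) (hj : 0 ≤ padicValRat q E.j) :
    ∃ (C : VariableChange Qb) (V : WeierstrassCurve Qb), V = C • (E⁄Qb) ∧
      IntCoeff A.valuation V.toAffine ∧ A.valuation V.Δ = 1 := by
  haveI : (E⁄Qb).IsElliptic := inferInstanceAs (E.map (algebraMap ℚ Qb)).IsElliptic
  obtain ⟨C, hI₀, hcase₀⟩ := FA.IsogenyPrimes.exists_localModel E hq hA
  obtain ⟨V, hV, hI, hcase⟩ : ∃ V : WeierstrassCurve Qb, V = C • (E⁄Qb) ∧
      IntCoeff A.valuation V.toAffine ∧
      (A.valuation V.Δ = 1 ∨ (A.valuation V.Δ < 1 ∧ A.valuation V.c₄ = 1)) :=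
    ⟨_, rfl, hI₀, hcase₀⟩
  have hJ := valuation_le_one_of_padicValRat hq hA hj
  have hΔ : A.valuation V.Δ = 1 := by
    rcases hcase with h | ⟨hlt, hc⟩
    · exact h
    have e : V.c₄ ^ 3 = algebraMap ℚ Qb E.j * V.Δ := by
      have eE : E.c₄ ^ 3 = E.j * E.Δ := by
        rw [WeierstrassCurve.j, Units.val_inv_eq_inv_val, coe_Δ']
        field_simp [E.isUnit_Δ.ne_zero]
      rw [hV, variableChange_c₄, variableChange_Δ, show (E⁄Qb).c₄ = algebraMap ℚ Qb E.c₄ from
        map_c₄ _ _, show (E⁄Qb).Δ = algebraMap ℚ Qb E.Δ from map_Δ _ _]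
      have eQ := congrArg (algebraMap ℚ Qb) eE
      rw [map_pow, map_mul] at eQ
      linear_combination ((C.u⁻¹ : Qbˣ) : Qb) ^ 12 * eQ
    have h1 := congrArg A.valuation e
    rw [map_mul, map_pow, hc, one_pow] at h1
    exact absurd h1.symm (ne_of_lt ((mul_le_of_le_one_left' hJ).trans_lt hlt))
  exact ⟨C, V, hV, hI, hΔ⟩

/-- Inertia fixing the change of variables moves every point inside the kernel of reduction. -/
theorem exists_map_eq_e1_sub (E : WeierstrassCurve ℚ) [E.IsElliptic] {C : VariableChange Qb}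
    {V : WeierstrassCurve Qb} [V.IsElliptic] (hV : V = C • (E⁄Qb))
    (hI : IntCoeff A.valuation V.toAffine) (hΔ : A.valuation V.Δ = 1) {σ : GQ}
    (hσ : σ ∈ A.inertiaSubgroupIn ℚ) (hu : σ (C.u : Qb) = C.u) (hr : σ C.r = C.r)
    (hs : σ C.s = C.s) (ht : σ C.t = C.t) (Q : V.toAffine.Point) :
    ∃ Q' : V.toAffine.Point, vcEquiv C hV.symm Q' =
        Affine.Point.map (W' := E.toAffine) σ.toAlgHom (vcEquiv C hV.symm Q) ∧
      E1 A.valuation V.toAffine (Q' - Q) := by
  haveI : (E⁄Qb).IsElliptic := inferInstanceAs (E.map (algebraMap ℚ Qb)).IsElliptic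
  let e : V.toAffine.Point ≃+ (E⁄Qb).toAffine.Point := vcEquiv C hV.symm
  rcases Q with _ | ⟨x, y, h⟩
  · exact ⟨0, by rw [← Affine.Point.zero_def, map_zero]; exact (map_zero _).symm,
      by rw [← Affine.Point.zero_def, sub_zero]; exact e1_zero⟩
  obtain ⟨Q', hQ'⟩ := e.surjective (Affine.Point.map (W' := E.toAffine) σ.toAlgHom
    (e (Affine.Point.some x y h)))
  rcases Q' with _ | ⟨x', y', h'⟩
  · exact absurd hQ' (by
      rw [← Affine.Point.zero_def, map_zero]
      exact (Affine.Point.some_ne_zero _).symm)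
  have hxy : x' = σ x ∧ y' = σ y := by
    have h1 : vcX C x' = σ (vcX C x) ∧ vcY C x' y' = σ (vcY C x y) := by
      simpa [e, vcEquiv, vcFun, Affine.Point.map_some] using hQ'
    obtain ⟨hx, hy⟩ := h1
    simp only [vcX, vcY, map_add, map_mul, map_pow, hu, hr, hs, ht] at hx hy
    have ex : x' = σ x := mul_left_cancel₀ (pow_ne_zero 2 C.u.ne_zero) (add_right_cancel hx)
    subst ex
    exact ⟨rfl, mul_left_cancel₀ (pow_ne_zero 3 C.u.ne_zero)
      (add_right_cancel (add_right_cancel hy))⟩
  obtain ⟨rfl, rfl⟩ := hxy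
  exact ⟨_, hQ', e1_sub_conj hI hΔ (inert_of_mem_inertiaSubgroupIn A hσ) h h'⟩

end FA.PotentialGood

namespace FA.Summary

open FA.PotentialGood

/-- **Potentially good reduction makes inertia act through a finite quotient**: if `j` is integral
at `q` then some number field is such that the elements of inertia fixing it fix the `p`-power
torsion for every prime `p ≠ q`. -/
theorem exists_field_inertia_fixes_torsion (E : WeierstrassCurve ℚ) [E.IsElliptic]
    [inst : DecidableEq (AlgebraicClosure ℚ)] {q : ℕ} [Fact q.Prime]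
    (hj : 0 ≤ padicValRat q E.j) {A : ValuationSubring (AlgebraicClosure ℚ)}
    (hA : A.LiesOverPrime q) :
    ∃ K : IntermediateField ℚ (AlgebraicClosure ℚ), FiniteDimensional ℚ K ∧
      ∀ σ ∈ A.inertiaSubgroupIn ℚ, (∀ x ∈ K, σ x = x) → ∀ p : ℕ, p.Prime → p ≠ q →
        ∀ (n : ℕ) (P : (E.toAffine⁄(AlgebraicClosure ℚ)).Point), (p ^ n : ℕ) • P = 0 →
          Affine.Point.map σ.toAlgHom P = P := by
  obtain rfl : inst = instDecEqAlgebraicClosureRat := Subsingleton.elim _ _
  have hq : q.Prime := Fact.out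
  haveI : (E⁄Qb).IsElliptic := inferInstanceAs (E.map (algebraMap ℚ Qb)).IsElliptic
  obtain ⟨C, V, hV, hI, hΔ⟩ := exists_goodModel E hq hA hj
  refine ⟨IntermediateField.adjoin ℚ {(C.u : Qb), C.r, C.s, C.t},
    IntermediateField.finiteDimensional_adjoin fun x _ => Algebra.IsIntegral.isIntegral x,
    fun σ hσ hfix p hp hpq n P hP => ?_⟩
  have hu : σ (C.u : Qb) = C.u := hfix _ (IntermediateField.subset_adjoin _ _ (by simp))
  have hr : σ C.r = C.r := hfix _ (IntermediateField.subset_adjoin _ _ (by simp))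
  have hs : σ C.s = C.s := hfix _ (IntermediateField.subset_adjoin _ _ (by simp))
  have ht : σ C.t = C.t := hfix _ (IntermediateField.subset_adjoin _ _ (by simp))
  haveI : V.IsElliptic := ⟨isUnit_iff_ne_zero.mpr fun h0 => by simp [h0] at hΔ⟩
  let e : V.toAffine.Point ≃+ (E⁄Qb).toAffine.Point := vcEquiv C hV.symm
  obtain ⟨Q, rfl⟩ := e.surjective P
  obtain ⟨Q', hQ', hE⟩ := exists_map_eq_e1_sub E hV hI hΔ hσ hu hr hs ht Q
  change e Q' = _ at hQ'
  have hpv : A.valuation (p : Qb) = 1 := by
    have h1 := valuation_intCast_of_liesOverPrime hq hA (n := (p : ℤ)) fun hd =>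
      hpq ((Nat.prime_dvd_prime_iff_eq hq hp).mp (Int.natCast_dvd_natCast.mp hd)).symm
    rwa [Int.cast_natCast] at h1
  have hz : Q' - Q = 0 := eq_zero_of_e1_prime_pow hI hp hpv hE (n := n) (e.injective (by
    rw [map_nsmul, map_sub, hQ', nsmul_sub, ← map_nsmul, hP, map_zero, sub_zero]
    exact (map_zero e).symm))
  rw [← hQ', sub_eq_zero.mp hz]

/-- **The criterion of Néron, Ogg and Shafarevich for potentially good reduction**: `j` is integral
at `q` exactly when inertia at a place above `q` acts on the `p`-power torsion through a finite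
quotient, `p ≠ q`. -/
theorem potentiallyGood_iff (E : WeierstrassCurve ℚ) [E.IsElliptic]
    [inst : DecidableEq (AlgebraicClosure ℚ)] {q : ℕ} [Fact q.Prime] {p : ℕ} (hp : p.Prime)
    (hpq : p ≠ q) {A : ValuationSubring (AlgebraicClosure ℚ)} (hA : A.LiesOverPrime q) :
    0 ≤ padicValRat q E.j ↔
      ∃ K : IntermediateField ℚ (AlgebraicClosure ℚ), FiniteDimensional ℚ K ∧
        ∀ σ ∈ A.inertiaSubgroupIn ℚ, (∀ x ∈ K, σ x = x) →
          ∀ (n : ℕ) (P : (E.toAffine⁄(AlgebraicClosure ℚ)).Point), (p ^ n : ℕ) • P = 0 →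
            Affine.Point.map σ.toAlgHom P = P := by
  obtain rfl : inst = instDecEqAlgebraicClosureRat := Subsingleton.elim _ _
  constructor
  · intro hj
    obtain ⟨K, hK, hfix⟩ := exists_field_inertia_fixes_torsion E hj hA
    exact ⟨K, hK, fun σ hσ hx => hfix σ hσ hx p hp hpq⟩
  rintro ⟨K, hK, hfix⟩
  by_contra hneg
  have := Fact.mk hp
  obtain ⟨d, hd, W, hW, hdvd, hc⟩ :=
    FA.OggShafarevich.exists_multiplicative_twist E (not_le.mp hneg)
  haveI := FA.Root.quadTwist_isElliptic E hd
  have hΔ := FA.Frob.Δ_ne_zero_of_model hW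
  haveI := FA.Frob.ratCurve_isElliptic_of_Δ hΔ
  obtain ⟨σ, hσ, hne⟩ := exists_inertia_pow_ne (p := p) ⟨hΔ, Fact.out, hdvd, hc, hA⟩ hpq.symm
  obtain ⟨e, he⟩ := FA.Root.exists_equiv_of_model hW
  obtain ⟨s, t, hs, ht⟩ := FA.Root.exists_twist_equiv_sqrt E hd
  -- a power of `σ` fixes the field and the square root
  let H : Subgroup GQ := K.fixingSubgroup ⊓ (IntermediateField.adjoin ℚ {s}).fixingSubgroup
  haveI : FiniteDimensional ℚ (IntermediateField.adjoin ℚ {s}) :=
    IntermediateField.adjoin.finiteDimensional (Algebra.IsIntegral.isIntegral s)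
  have hH : IsOpen (H : Set GQ) :=
    (IntermediateField.fixingSubgroup_isOpen K).inter (IntermediateField.fixingSubgroup_isOpen _)
  haveI : Finite (GQ ⧸ H) := Subgroup.quotient_finite_of_isOpen H hH
  haveI : H.FiniteIndex := Subgroup.finiteIndex_of_finite_quotient
  obtain ⟨k, hk, -, hmem⟩ :=
    Subgroup.exists_pow_mem_of_index_ne_zero (H := H) Subgroup.FiniteIndex.index_ne_zero σ
  obtain ⟨hmK, hms⟩ := Subgroup.mem_inf.mp hmem
  obtain ⟨n, x, hx, hxne⟩ := hne k hk.ne'
  have hfixs : (σ ^ k) s = s := (IntermediateField.mem_fixingSubgroup_iff _ _).mp hms s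
    (IntermediateField.subset_adjoin ℚ _ rfl)
  refine hxne (e.injective (t.injective ?_))
  rw [he]
  exact ((ht (σ ^ k) (e x)).1 hfixs).symm.trans
    (hfix (σ ^ k) (pow_mem hσ k) ((IntermediateField.mem_fixingSubgroup_iff _ _).mp hmK) n _
      (by rw [← map_nsmul, ← map_nsmul, hx, map_zero, map_zero]))

end FA.Summary

end
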