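import Fermat.Agent.Root.SummaryTateIsogenyAll
import Fermat.Agent.Root.SummaryPotentialGoodReduction

/-!
# Faltings' theorems on Tate modules, for elliptic curves over `ℚ`

A Galois equivariant surjection with finite kernel between the groups of points of `p`-power order
of two elliptic curves over `ℚ` exists for one prime `p` exactly when it exists for all, exactly
when `a_q` agrees at all common good primes: the Frobenius relations pass through the map. Such
curves have the same primes of potentially good reduction. Complex multiplication or not, the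
Galois equivariant endomorphisms of the points of `p`-power order are scalars on each level, and
the rational Tate modules are semisimple over every number field.
-/

set_option autoImplicit false
set_option linter.unusedSectionVars false
set_option linter.style.haveILetI false

noncomputable section

open Matrix WeierstrassCurve WeierstrassCurve.Affine FA.EC FA.Frob FA.RT FA.RT.Tate
open scoped WeierstrassCurve.Affine

local notation "Qb" => AlgebraicClosure ℚ
local notation "GQ" => AlgebraicClosure ℚ ≃ₐ[ℚ] AlgebraicClosure ℚ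
local notation "M2" => Matrix (Fin 2) (Fin 2)

namespace FA.TateModules

section Points

variable (E : WeierstrassCurve ℚ) [E.IsElliptic]

/-- The points of `p`-power order are divisible by `p`. -/
theorem exists_divisible {p : ℕ} (hp : p.Prime) (m : ℕ)
    (x : AddCommGroup.primaryComponent (E.toAffine⁄Qb).Point p) :
    ∃ y : AddCommGroup.primaryComponent (E.toAffine⁄Qb).Point p, p ^ m • y = x := by
  haveI := Fact.mk hp
  obtain ⟨W, hW⟩ := FA.Frob.exists_integralModel E
  haveI := FA.Frob.ratCurve_isElliptic_of_Δ (FA.Frob.Δ_ne_zero_of_model hW)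
  obtain ⟨B⟩ := exists_tateBasis (p := p) W
  obtain ⟨e, -⟩ := FA.Root.exists_equiv_of_model hW
  obtain ⟨n, hn⟩ := AddCommGroup.mem_primaryComponent.mp x.2
  obtain ⟨v, hv⟩ := B.surj n (e.symm x.1) (by rw [← map_nsmul, hn, map_zero])
  refine ⟨⟨e (B.φ (n + m) v), AddCommGroup.mem_primaryComponent.mpr
    ⟨n + m, by rw [← map_nsmul, B.nsmul_phi, map_zero]⟩⟩, Subtype.ext ?_⟩
  show p ^ m • e (B.φ (n + m) v) = x.1
  rw [← map_nsmul, B.pow_compat, hv, AddEquiv.apply_symm_apply]

/-- There are points of every `p`-power order. -/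
theorem dvd_of_forall_zsmul_eq_zero {p : ℕ} (hp : p.Prime) {c : ℤ}
    (h : ∀ x : AddCommGroup.primaryComponent (E.toAffine⁄Qb).Point p, c • x.1 = 0) : c = 0 := by
  haveI := Fact.mk hp
  obtain ⟨W, hW⟩ := FA.Frob.exists_integralModel E
  haveI := FA.Frob.ratCurve_isElliptic_of_Δ (FA.Frob.Δ_ne_zero_of_model hW)
  obtain ⟨B⟩ := exists_tateBasis (p := p) W
  obtain ⟨e, -⟩ := FA.Root.exists_equiv_of_model hW
  have hdvd : ∀ n : ℕ, ((p ^ n : ℕ) : ℤ) ∣ c := fun n => by
    have h0 := h ⟨e (B.φ n (Pi.single 0 1)), AddCommGroup.mem_primaryComponent.mpr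
      ⟨n, by rw [← map_nsmul, B.nsmul_phi, map_zero]⟩⟩
    rw [← map_zsmul, EmbeddingLike.map_eq_zero_iff, ← map_zsmul, B.ker] at h0
    have h1 := h0 0
    rw [Pi.smul_apply, Pi.single_eq_same, zsmul_one, map_intCast] at h1
    exact (ZMod.intCast_zmod_eq_zero_iff_dvd _ _).mp h1
  by_contra hc
  obtain ⟨n, hn⟩ := pow_unbounded_of_one_lt c.natAbs hp.one_lt
  exact absurd (Nat.le_of_dvd (Int.natAbs_pos.mpr hc) (Int.natCast_dvd.mp (hdvd n)))
    (Nat.not_le.mpr hn)

/-- The relation of Frobenius at a good prime. -/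
theorem frobenius_relation {p : ℕ} (hp : p.Prime) {q : ℕ} [hq : Fact q.Prime] (hqp : q ≠ p)
    (h : ∃ C : VariableChange ℚ_[q], HasGoodReduction ℤ_[q] (C • E.map (algebraMap ℚ ℚ_[q])))
    {A : ValuationSubring Qb} (hA : A.LiesOverPrime q) {σ : GQ} (hσ : A.IsFrobeniusAt σ q)
    (x : AddCommGroup.primaryComponent (E.toAffine⁄Qb).Point p) :
    Affine.Point.map σ.toAlgHom (Affine.Point.map σ.toAlgHom x.1) -
        E.LFunction q • Affine.Point.map σ.toAlgHom x.1 + (q : ℤ) • x.1 = 0 := by
  haveI := Fact.mk hp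
  obtain ⟨W, hW, hd⟩ := FA.CM.Deuring.exists_model_not_dvd E h
  haveI := FA.Frob.ratCurve_isElliptic_of_Δ (FA.Frob.Δ_ne_zero_of_model hW)
  obtain ⟨e, he⟩ := FA.Root.exists_equiv_of_model hW
  obtain ⟨n, hn⟩ := AddCommGroup.mem_primaryComponent.mp x.2
  obtain ⟨z, hz⟩ := e.surjective x.1
  have hrel := (frobenius_relations hq.out hA hqp hd hσ).1 n z
    (e.injective (by rw [map_nsmul, hz, hn, map_zero]))
  have h' := congrArg e hrel
  rw [map_add, map_sub, map_zsmul, map_zsmul, map_zero, he, he, hz] at h'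
  rw [FA.Root.LFunction_apply_prime E W hW hq.out hd]
  exact h'

/-- The image of a point of `p`-power order under Galois. -/
def galPrimary {p : ℕ} (σ : GQ) (x : AddCommGroup.primaryComponent (E.toAffine⁄Qb).Point p) :
    AddCommGroup.primaryComponent (E.toAffine⁄Qb).Point p :=
  ⟨Affine.Point.map σ.toAlgHom x.1, by
    obtain ⟨n, hn⟩ := AddCommGroup.mem_primaryComponent.mp x.2
    exact AddCommGroup.mem_primaryComponent.mpr ⟨n, by rw [← map_nsmul, hn, map_zero]⟩⟩

end Points

section Isogeny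

variable {E E' : WeierstrassCurve ℚ} [E.IsElliptic] [E'.IsElliptic] {p : ℕ}
  {f : AddCommGroup.primaryComponent (E.toAffine⁄Qb).Point p →+
    AddCommGroup.primaryComponent (E'.toAffine⁄Qb).Point p}

/-- An equivariant surjection preserves the coefficient at a common good prime other than `p`. -/
theorem trace_eq (hp : p.Prime) (hfs : Function.Surjective f)
    (hf : ∀ (σ : GQ) P Q, Affine.Point.map σ.toAlgHom P.1 = Q.1 →
      Affine.Point.map σ.toAlgHom (f P).1 = (f Q).1) {q : ℕ} [hq : Fact q.Prime] (hqp : q ≠ p)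
    (h : ∃ C : VariableChange ℚ_[q], HasGoodReduction ℤ_[q] (C • E.map (algebraMap ℚ ℚ_[q])))
    (h' : ∃ C : VariableChange ℚ_[q], HasGoodReduction ℤ_[q] (C • E'.map (algebraMap ℚ ℚ_[q]))) :
    E.LFunction q = E'.LFunction q := by
  obtain ⟨A, hA⟩ := FA.Deform.exists_liesOverPrime hq.out
  obtain ⟨σ, hσ⟩ := FA.Deform.exists_isFrobeniusAt hq.out hA
  refine sub_eq_zero.mp (dvd_of_forall_zsmul_eq_zero E' hp fun y => ?_)
  -- `σ` is bijective on the points
  obtain ⟨y', hy'⟩ : ∃ y', galPrimary E' σ y' = y := ⟨galPrimary E' σ⁻¹ y, Subtype.ext (by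
    show Affine.Point.map σ.toAlgHom (Affine.Point.map (σ⁻¹).toAlgHom y.1) = y.1
    rw [Affine.Point.map_map]
    rcases y.1 with _ | ⟨a, b, hab⟩
    · rfl
    · simp [Affine.Point.map_some, AlgEquiv.aut_inv])⟩
  obtain ⟨x, rfl⟩ := hfs y'
  have e1 : Affine.Point.map σ.toAlgHom (f x).1 = (f (galPrimary E σ x)).1 := hf σ x _ rfl
  have e2 : Affine.Point.map σ.toAlgHom (f (galPrimary E σ x)).1 =
      (f (galPrimary E σ (galPrimary E σ x))).1 := hf σ _ _ rfl
  have r := frobenius_relation E hp hqp h hA hσ x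
  have r' := frobenius_relation E' hp hqp h' hA hσ (f x)
  have hsub : galPrimary E σ (galPrimary E σ x) - E.LFunction q • galPrimary E σ x +
      (q : ℤ) • x = 0 := Subtype.ext (by push_cast; exact r)
  have hf0 := congrArg Subtype.val (congrArg f hsub)
  rw [map_add, map_sub, map_zsmul, map_zsmul, map_zero] at hf0
  push_cast at hf0
  rw [e1, e2] at r'
  rw [← hy']
  show (E.LFunction q - E'.LFunction q) • Affine.Point.map σ.toAlgHom (f x).1 = 0
  rw [e1, sub_zsmul, ← sub_self (0 : (E'.toAffine⁄Qb).Point)]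
  nth_rw 1 [← r']
  rw [← hf0]
  abel

/-- Potentially good reduction passes along an equivariant surjection with finite kernel. -/
theorem potentiallyGood_iff_of_hom (hp : p.Prime) (hfs : Function.Surjective f) (hfk : Finite f.ker)
    (hf : ∀ (σ : GQ) P Q, Affine.Point.map σ.toAlgHom P.1 = Q.1 →
      Affine.Point.map σ.toAlgHom (f P).1 = (f Q).1) {q : ℕ} [hq : Fact q.Prime] (hpq : p ≠ q) :
    0 ≤ padicValRat q E.j ↔ 0 ≤ padicValRat q E'.j := by
  obtain ⟨A, hA⟩ := FA.Deform.exists_liesOverPrime hq.out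
  rw [FA.Summary.potentiallyGood_iff E hp hpq hA, FA.Summary.potentiallyGood_iff E' hp hpq hA]
  refine exists_congr fun K => and_congr_right fun _ => ⟨fun h σ hσ hx n P hP => ?_,
    fun h σ hσ hx n P hP => ?_⟩
  · obtain ⟨x, hxP⟩ := hfs ⟨P, AddCommGroup.mem_primaryComponent.mpr ⟨n, hP⟩⟩
    obtain ⟨m, hm⟩ := AddCommGroup.mem_primaryComponent.mp x.2
    have := hf σ x x (h σ hσ hx m x.1 hm)
    rwa [hxP] at this
  · -- the kernel is killed by a power of `p`, and the group is divisible
    obtain ⟨M, hM⟩ : ∃ M : ℕ, ∀ z : f.ker, p ^ M • z.1 = 0 := by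
      choose N hN using fun z : f.ker => AddCommGroup.mem_primaryComponent.mp z.1.2
      have := Fintype.ofFinite f.ker
      refine ⟨Finset.univ.sup N, fun z => Subtype.ext ?_⟩
      obtain ⟨d, hd⟩ := Nat.exists_eq_add_of_le (Finset.le_sup (f := N) (Finset.mem_univ z))
      show p ^ Finset.univ.sup N • z.1.1 = 0
      rw [hd, pow_add, mul_comm, mul_nsmul', hN, nsmul_zero]
    obtain ⟨x, hx'⟩ := exists_divisible E hp M ⟨P, AddCommGroup.mem_primaryComponent.mpr ⟨n, hP⟩⟩
    obtain ⟨m, hm⟩ := AddCommGroup.mem_primaryComponent.mp (f x).2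
    have hker : galPrimary E σ x - x ∈ f.ker := by
      rw [AddMonoidHom.mem_ker, map_sub, sub_eq_zero]
      exact Subtype.ext ((hf σ x (galPrimary E σ x) rfl).symm.trans (h σ hσ hx m _ hm))
    have h0 := congrArg Subtype.val (hM ⟨_, hker⟩)
    rw [nsmul_sub, sub_eq_add_neg] at h0
    push_cast at h0
    rw [← sub_eq_add_neg, sub_eq_zero] at h0
    have hx'' : p ^ M • x.1 = P := congrArg Subtype.val hx'
    rw [← hx'', map_nsmul]
    exact h0

end Isogeny

section Semisimple

variable {k : Type*} [Field k] [CharZero k] {V : Type*} [AddCommGroup V] [Module k V]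
  {G : Type*} [Group G] (r : G →* Module.End k V)

/-- A stable subspace with a complement stable under a normal subgroup of finite index has a
stable complement: average the projection. -/
theorem exists_compl_of_finiteIndex (N : Subgroup G) [N.FiniteIndex] [N.Normal] {U W : Submodule k V}
    (hUW : IsCompl U W) (hU : ∀ g, ∀ u ∈ U, r g u ∈ U) (hW : ∀ n ∈ N, ∀ w ∈ W, r n w ∈ W) :
    ∃ U' : Submodule k V, IsCompl U U' ∧ ∀ g, ∀ u ∈ U', r g u ∈ U' := by
  classical
  haveI : Finite (G ⧸ N) := Subgroup.finite_quotient_of_finiteIndex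
  haveI := Fintype.ofFinite (G ⧸ N)
  have hinv : ∀ g (v : V), r g (r g⁻¹ v) = v := fun g v => by
    rw [← Module.End.mul_apply, ← map_mul, mul_inv_cancel, map_one, Module.End.one_apply]
  have hinv' : ∀ g (v : V), r g⁻¹ (r g v) = v := fun g v => by
    rw [← Module.End.mul_apply, ← map_mul, inv_mul_cancel, map_one, Module.End.one_apply]
  obtain ⟨P, hPU, hPW, hPm⟩ : ∃ P : Module.End k V,
      (∀ u ∈ U, P u = u) ∧ (∀ w ∈ W, P w = 0) ∧ ∀ v, P v ∈ U :=
    ⟨U.projection W hUW, fun u hu => Submodule.projection_apply_left hUW ⟨u, hu⟩,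
      fun w hw => Submodule.projection_apply_right hUW ⟨w, hw⟩,
      fun v => Submodule.projection_apply_mem hUW v⟩
  have hPn : ∀ n ∈ N, ∀ v, r n (P v) = P (r n v) := fun n hn v => by
    obtain ⟨u, hu, w, hw, rfl⟩ :=
      Submodule.mem_sup.mp (show v ∈ U ⊔ W by rw [hUW.sup_eq_top]; trivial)
    rw [map_add P, hPU u hu, hPW w hw, add_zero, map_add (r n), map_add P, hPU _ (hU n u hu),
      hPW _ (hW n hn w hw), add_zero]
  let F : G ⧸ N → Module.End k V := Quotient.lift (fun g => r g * P * r g⁻¹) fun a b hab => by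
    obtain ⟨n, hn, rfl⟩ : ∃ n ∈ N, a * n = b :=
      ⟨a⁻¹ * b, QuotientGroup.leftRel_apply.mp hab, by rw [mul_inv_cancel_left]⟩
    refine LinearMap.ext fun v => ?_
    simp only [_root_.mul_inv_rev, map_mul, Module.End.mul_apply]
    rw [hPn n hn, hinv]
  have hF : ∀ g : G, ∀ v, F g v = r g (P (r g⁻¹ v)) := fun g v => rfl
  let π : Module.End k V := (Fintype.card (G ⧸ N) : k)⁻¹ • ∑ x, F x
  have hmem : ∀ v, π v ∈ U := fun v => by
    simp only [π, LinearMap.smul_apply, LinearMap.sum_apply]
    refine U.smul_mem _ (U.sum_mem fun x _ => ?_)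
    induction x using QuotientGroup.induction_on with
    | H g => rw [hF]; exact hU g _ (hPm _)
  have hid : ∀ u ∈ U, π u = u := fun u hu => by
    have : ∀ x, F x u = u := fun x => by
      induction x using QuotientGroup.induction_on with
      | H g => rw [hF, hPU _ (hU g⁻¹ u hu), hinv]
    simp only [π, LinearMap.smul_apply, LinearMap.sum_apply, this, Finset.sum_const,
      Finset.card_univ]
    rw [← Nat.cast_smul_eq_nsmul k, smul_smul,
      inv_mul_cancel₀ (Nat.cast_ne_zero.mpr Fintype.card_ne_zero), one_smul]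
  have hequiv : ∀ g v, π (r g v) = r g (π v) := fun g v => by
    simp only [π, LinearMap.smul_apply, LinearMap.sum_apply, map_smul, map_sum]
    congr 1
    refine (Fintype.sum_equiv (Equiv.mulLeft (g : G ⧸ N)) _ _ fun x => ?_).symm
    induction x using QuotientGroup.induction_on with
    | H h =>
      simp only [Equiv.coe_mulLeft]
      rw [← QuotientGroup.mk_mul, hF, hF, _root_.mul_inv_rev, map_mul, map_mul,
        Module.End.mul_apply, Module.End.mul_apply, hinv']
  refine ⟨LinearMap.ker π, ⟨?_, ?_⟩, fun g u hu => ?_⟩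
  · rw [Submodule.disjoint_def]
    intro u hu hu'
    rw [← hid u hu]
    exact hu'
  · rw [codisjoint_iff, eq_top_iff]
    intro v _
    exact Submodule.mem_sup.mpr ⟨π v, hmem v, v - π v,
      LinearMap.mem_ker.mpr (by rw [map_sub, hid _ (hmem v), sub_self]), add_sub_cancel _ _⟩
  · rw [LinearMap.mem_ker] at hu ⊢
    rw [hequiv, hu, map_zero]

/-- **Clifford**: without a stable line the restriction to a subgroup of finite index of a
representation of dimension two is semisimple. -/
theorem exists_compl_two (hV : Module.finrank k V = 2)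
    (hline : ∀ v : V, v ≠ 0 → ∃ g, ∀ a : k, r g v ≠ a • v) (H : Subgroup G) [H.FiniteIndex]
    {U : Submodule k V} (hU : ∀ g ∈ H, ∀ u ∈ U, r g u ∈ U) :
    ∃ U' : Submodule k V, IsCompl U U' ∧ ∀ g ∈ H, ∀ u ∈ U', r g u ∈ U' := by
  haveI : FiniteDimensional k V := Module.finite_of_finrank_eq_succ hV
  have h2 : Module.finrank k U ≤ 2 := hV ▸ U.finrank_le
  obtain h0 | h1 | htop :
      Module.finrank k U = 0 ∨ Module.finrank k U = 1 ∨ Module.finrank k U = 2 := by omega
  · exact ⟨⊤, Submodule.finrank_eq_zero.mp h0 ▸ isCompl_bot_top, fun _ _ _ _ => trivial⟩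
  swap
  · refine ⟨⊥, Submodule.eq_top_of_finrank_eq (htop.trans hV.symm) ▸ isCompl_top_bot,
      fun g _ u hu => ?_⟩
    rw [Submodule.mem_bot] at hu ⊢
    rw [hu, map_zero]
  obtain ⟨v, hv, hv0, hspan⟩ : ∃ v ∈ U, v ≠ 0 ∧ ∀ u ∈ U, ∃ a : k, u = a • v := by
    obtain ⟨⟨v, hv⟩, hne, hall⟩ := finrank_eq_one_iff'.mp h1
    refine ⟨v, hv, fun h => hne (Subtype.ext h), fun u hu => ?_⟩
    obtain ⟨a, ha⟩ := hall ⟨u, hu⟩
    exact ⟨a, (congrArg Subtype.val ha).symm⟩
  obtain ⟨g, hg⟩ := hline v hv0
  have hli : LinearIndependent k ![v, r g v] :=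
    LinearIndependent.pair_iff' hv0 |>.mpr fun a e => hg a e.symm
  set W : Submodule k V := Submodule.span k {r g v}
  have hUW : IsCompl U W := by
    have hdis : Disjoint U W := by
      rw [Submodule.disjoint_def]
      intro x hx hx'
      obtain ⟨a, rfl⟩ := hspan x hx
      obtain ⟨b, hb⟩ := Submodule.mem_span_singleton.mp hx'
      obtain ⟨h1, -⟩ := LinearIndependent.pair_iff.mp hli a (-b) (by rw [neg_smul, hb, add_neg_cancel])
      rw [h1, zero_smul]
    refine ⟨hdis, codisjoint_iff.mpr ?_⟩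
    have hgv : r g v ≠ 0 := by simpa using hli.ne_zero 1
    refine Submodule.eq_top_of_finrank_eq ?_
    have := Submodule.finrank_sup_add_finrank_inf_eq U W
    rw [hdis.eq_bot, finrank_bot, h1, finrank_span_singleton hgv] at this
    omega
  haveI : H.normalCore.FiniteIndex := inferInstance
  obtain ⟨U', hc, hU'⟩ := exists_compl_of_finiteIndex (G := H) (r.comp H.subtype)
    (H.normalCore.subgroupOf H) hUW (fun h u hu => hU h.1 h.2 u hu) fun n hn w hw => by
      obtain ⟨b, rfl⟩ := Submodule.mem_span_singleton.mp hw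
      rw [map_smul]
      refine W.smul_mem _ ?_
      have hn' : g⁻¹ * n.1 * g ∈ H := H.normalCore_le (by
        have := H.normalCore_normal.conj_mem n.1 hn g⁻¹
        rwa [inv_inv] at this)
      obtain ⟨a, ha⟩ := hspan _ (hU _ hn' v hv)
      show r n.1 (r g v) ∈ W
      rw [show r n.1 (r g v) = r g (r (g⁻¹ * n.1 * g) v) by
        rw [← Module.End.mul_apply, ← Module.End.mul_apply, ← map_mul, ← map_mul, mul_assoc g⁻¹,
          mul_inv_cancel_left], ha, map_smul]
      exact W.smul_mem _ (Submodule.mem_span_singleton_self _)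
  exact ⟨U', hc, fun g hg u hu => hU' ⟨g, hg⟩ u hu⟩

end Semisimple

variable {p : ℕ} [hp : Fact p.Prime] {W : WeierstrassCurve ℤ} [(ratCurve W).IsElliptic]

/-- An endomorphism of the torsion is given by a matrix. -/
theorem exists_matrix_hom (B : TateBasis p W)
    (f : AddCommGroup.primaryComponent (Pts W) p →+ AddCommGroup.primaryComponent (Pts W) p) :
    ∃ M : M2 ℤ_[p], ∀ n v x, B.φ n v = Subtype.val x → (f x).1 = B.φ n (M *ᵥ v) := by
  let pt : ℕ → (Fin 2 → ℤ_[p]) → AddCommGroup.primaryComponent (Pts W) p := fun n v =>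
    ⟨B.φ n v, AddCommGroup.mem_primaryComponent.mpr ⟨n, B.nsmul_phi _ _⟩⟩
  choose c hc using fun j : Fin 2 => B.exists_vec (x := fun n => (f (pt n (Pi.single j 1))).1)
    (fun n => by
      rw [← AddSubgroupClass.coe_nsmul, ← map_nsmul,
        show p ^ n • pt n (Pi.single j 1) = 0 from Subtype.ext (B.nsmul_phi _ _), map_zero]
      rfl)
    (fun n => by
      rw [← AddSubgroupClass.coe_nsmul, ← map_nsmul,
        show p • pt (n + 1) (Pi.single j 1) = pt n (Pi.single j 1) from Subtype.ext (B.compat _ _)])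
  refine ⟨Matrix.of fun i j => c j i, fun n v x hx => ?_⟩
  have : NeZero (p ^ n) := ⟨pow_ne_zero _ hp.out.ne_zero⟩
  let k : Fin 2 → ℕ := fun i => (PadicInt.toZModPow n (v i)).val
  let v' : Fin 2 → ℤ_[p] := fun i => (k i : ℤ_[p])
  have hv : B.φ n v = B.φ n v' := B.phi_eq_iff.mpr fun i => by
    show _ = PadicInt.toZModPow n (k i : ℤ_[p])
    rw [map_natCast, ZMod.natCast_zmod_val]
  have hv' : v' = k 0 • Pi.single 0 1 + k 1 • Pi.single 1 1 := by
    funext i
    fin_cases i <;> simp [v', nsmul_eq_mul]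
  obtain rfl : x = k 0 • pt n (Pi.single 0 1) + k 1 • pt n (Pi.single 1 1) := Subtype.ext (by
    rw [← hx, hv, hv', map_add, map_nsmul, map_nsmul]
    rfl)
  rw [map_add, map_nsmul, map_nsmul, AddSubgroup.coe_add, AddSubgroupClass.coe_nsmul,
    AddSubgroupClass.coe_nsmul, ← hc, ← hc, B.phi_mulVec_congr _ hv, hv', mulVec_add, mulVec_smul,
    mulVec_smul, mulVec_single_one, mulVec_single_one, map_add, map_nsmul, map_nsmul]
  rfl

/-- An equivariant endomorphism of the torsion is a scalar. -/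
theorem exists_scalar (B : TateBasis p W)
    (f : AddCommGroup.primaryComponent (Pts W) p →+ AddCommGroup.primaryComponent (Pts W) p)
    (hf : ∀ (σ : GQ) x y, σ • x.1 = y.1 → σ • (f x).1 = (f y).1) (n : ℕ) :
    ∃ c : ℕ, ∀ x : AddCommGroup.primaryComponent (Pts W) p, p ^ n • x.1 = 0 →
      (f x).1 = c • x.1 := by
  obtain ⟨M, hM⟩ := exists_matrix_hom B f
  have hcomm : ∀ σ, B.rep σ * M = M * B.rep σ := fun σ => B.ext_phi fun m v => by
    let x : AddCommGroup.primaryComponent (Pts W) p :=
      ⟨B.φ m v, AddCommGroup.mem_primaryComponent.mpr ⟨m, B.nsmul_phi _ _⟩⟩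
    let y : AddCommGroup.primaryComponent (Pts W) p :=
      ⟨B.φ m (B.rep σ *ᵥ v), AddCommGroup.mem_primaryComponent.mpr ⟨m, B.nsmul_phi _ _⟩⟩
    rw [← mulVec_mulVec, ← mulVec_mulVec, ← B.rep_spec, ← hM m v x rfl, ← hM m _ y rfl]
    exact hf σ x y (B.rep_spec σ m v)
  let ι : ℤ_[p] →+* ℚ_[p] := PadicInt.Coe.ringHom
  have hall : ∀ X : M2 ℚ_[p], Commute X (M.map ι) := fun X => by
    have hX : X ∈ Submodule.span ℚ_[p] (Set.range ((PadicInt.Coe.ringHom.mapMatrix :
        M2 ℤ_[p] →+* M2 ℚ_[p]).toMonoidHom.comp B.rep)) := by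
      rw [FA.TateIsogenyAll.span_rep_eq_top B]
      trivial
    induction hX using Submodule.span_induction with
    | mem y hy =>
      obtain ⟨σ, rfl⟩ := hy
      show ι.mapMatrix (B.rep σ) * ι.mapMatrix M = ι.mapMatrix M * ι.mapMatrix (B.rep σ)
      rw [← map_mul, ← map_mul, hcomm]
    | zero => exact Commute.zero_left _
    | add a b _ _ ha hb => exact ha.add_left hb
    | smul a y _ hy => exact hy.smul_left a
  obtain ⟨a, ha⟩ := Matrix.mem_range_scalar_of_commute_single fun i j _ =>
    hall (Matrix.single i j 1)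
  have hι : Function.Injective ι := Subtype.val_injective
  have hM01 : ∀ i j, i ≠ j → M i j = 0 := fun i j hij => hι (by
    have := congrFun (congrFun ha i) j
    rw [Matrix.scalar_apply, Matrix.diagonal_apply_ne _ hij, Matrix.map_apply] at this
    rw [map_zero, ← this])
  have hM11 : M 1 1 = M 0 0 := hι (by
    have h0 := congrFun (congrFun ha 0) 0
    have h1 := congrFun (congrFun ha 1) 1
    rw [Matrix.scalar_apply, Matrix.diagonal_apply_eq, Matrix.map_apply] at h0 h1
    rw [← h0, ← h1])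
  have : NeZero (p ^ n) := ⟨pow_ne_zero _ hp.out.ne_zero⟩
  refine ⟨(PadicInt.toZModPow n (M 0 0)).val, fun x hx => ?_⟩
  obtain ⟨v, hv⟩ := B.surj n x.1 hx
  rw [hM n v x hv, ← hv, ← map_nsmul, B.phi_eq_iff]
  intro i
  rw [Pi.smul_apply, nsmul_eq_mul, map_mul, map_natCast, ZMod.natCast_zmod_val, ← map_mul]
  fin_cases i <;>
    simp [mulVec, dotProduct, Fin.sum_univ_two, hM01 0 1 (by decide), hM01 1 0 (by decide), hM11]

end FA.TateModules

namespace FA.Summary

open FA.TateModules

/-- **An isogeny of Tate modules preserves the traces**, and exists as soon as they agree: for one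
prime `p` a Galois equivariant surjection with finite kernel between the groups of points of
`p`-power order exists if and only if `a_q` agrees at every common good prime `q`. -/
theorem tateIsogeny_iff_traces (E E' : WeierstrassCurve ℚ) [E.IsElliptic] [E'.IsElliptic]
    [inst : DecidableEq (AlgebraicClosure ℚ)] {p : ℕ} (hp : p.Prime) :
    (∃ f : AddCommGroup.primaryComponent (E.toAffine⁄(AlgebraicClosure ℚ)).Point p →+
        AddCommGroup.primaryComponent (E'.toAffine⁄(AlgebraicClosure ℚ)).Point p,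
      Function.Surjective f ∧ Finite f.ker ∧
        ∀ (σ : AlgebraicClosure ℚ ≃ₐ[ℚ] AlgebraicClosure ℚ) P Q,
          Affine.Point.map σ.toAlgHom P.1 = Q.1 →
            Affine.Point.map σ.toAlgHom (f P).1 = (f Q).1) ↔
    ∀ q : ℕ, ∀ [Fact q.Prime],
      (∃ C : VariableChange ℚ_[q], HasGoodReduction ℤ_[q] (C • E.map (algebraMap ℚ ℚ_[q]))) →
      (∃ C : VariableChange ℚ_[q], HasGoodReduction ℤ_[q] (C • E'.map (algebraMap ℚ ℚ_[q]))) →
      E.LFunction q = E'.LFunction q := by
  obtain rfl : inst = instDecEqAlgebraicClosureRat := Subsingleton.elim _ _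
  obtain ⟨W, hW⟩ := FA.Frob.exists_integralModel E
  obtain ⟨W', hW'⟩ := FA.Frob.exists_integralModel E'
  have hΔ := FA.Frob.Δ_ne_zero_of_model hW
  have hΔ' := FA.Frob.Δ_ne_zero_of_model hW'
  have hgood : ∀ {F : WeierstrassCurve ℚ} {V : WeierstrassCurve ℤ}, V.IsIntegralModelOf F →
      V.Δ ≠ 0 → ∀ {r : ℕ} [Fact r.Prime], r ∉ V.Δ.natAbs.divisors →
      ∃ C : VariableChange ℚ_[r], HasGoodReduction ℤ_[r] (C • F.map (algebraMap ℚ ℚ_[r])) := by
    intro F V hV hV0 r _ hr
    exact FA.Root.exists_good_of_model hV r fun h => hr (Nat.mem_divisors.mpr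
      ⟨Int.natCast_dvd.mp h, Int.natAbs_ne_zero.mpr hV0⟩)
  constructor
  · rintro ⟨f, hfs, -, hf⟩ q hq h h'
    haveI := hq
    refine traces_eq_of_almost_all E E' (W.Δ.natAbs.divisors ∪ W'.Δ.natAbs.divisors ∪ {p})
      (fun r hr hrS => ?_) h h'
    haveI := Fact.mk hr
    simp only [Finset.mem_union, Finset.mem_singleton, not_or] at hrS
    exact trace_eq hp hfs hf hrS.2 (hgood hW hΔ hrS.1.1) (hgood hW' hΔ' hrS.1.2)
  · intro h
    refine tateIsogeny_of_traces_all E E' (W.Δ.natAbs.divisors ∪ W'.Δ.natAbs.divisors)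
      (fun r hr hrS => ?_) hp
    haveI := Fact.mk hr
    rw [Finset.mem_union, not_or] at hrS
    exact h r (hgood hW hΔ hrS.1) (hgood hW' hΔ' hrS.2)

/-- **Independence of `p`**: an equivariant surjection with finite kernel at one prime gives one at
every prime. -/
theorem tateIsogeny_independent (E E' : WeierstrassCurve ℚ) [E.IsElliptic] [E'.IsElliptic]
    [inst : DecidableEq (AlgebraicClosure ℚ)] {p p' : ℕ} (hp : p.Prime) (hp' : p'.Prime)
    (h : ∃ f : AddCommGroup.primaryComponent (E.toAffine⁄(AlgebraicClosure ℚ)).Point p →+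
        AddCommGroup.primaryComponent (E'.toAffine⁄(AlgebraicClosure ℚ)).Point p,
      Function.Surjective f ∧ Finite f.ker ∧
        ∀ (σ : AlgebraicClosure ℚ ≃ₐ[ℚ] AlgebraicClosure ℚ) P Q,
          Affine.Point.map σ.toAlgHom P.1 = Q.1 →
            Affine.Point.map σ.toAlgHom (f P).1 = (f Q).1) :
    ∃ f : AddCommGroup.primaryComponent (E.toAffine⁄(AlgebraicClosure ℚ)).Point p' →+
        AddCommGroup.primaryComponent (E'.toAffine⁄(AlgebraicClosure ℚ)).Point p',
      Function.Surjective f ∧ Finite f.ker ∧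
        ∀ (σ : AlgebraicClosure ℚ ≃ₐ[ℚ] AlgebraicClosure ℚ) P Q,
          Affine.Point.map σ.toAlgHom P.1 = Q.1 →
            Affine.Point.map σ.toAlgHom (f P).1 = (f Q).1 :=
  (tateIsogeny_iff_traces E E' hp').mpr ((tateIsogeny_iff_traces E E' hp).mp h)

/-- **Equal traces give the same poles of the invariant**: two elliptic curves over `ℚ` with the
same `a_q` at almost all primes have the same primes of potentially good reduction. -/
theorem poles_eq_of_traces (E E' : WeierstrassCurve ℚ) [E.IsElliptic] [E'.IsElliptic]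
    (S : Finset ℕ) (heq : ∀ l : ℕ, l.Prime → l ∉ S → E.LFunction l = E'.LFunction l)
    {q : ℕ} (hq : q.Prime) : padicValRat q E.j < 0 ↔ padicValRat q E'.j < 0 := by
  haveI := Fact.mk hq
  obtain ⟨p, hpq, hp⟩ := Nat.exists_infinite_primes (q + 1)
  obtain ⟨f, hfs, hfk, hf⟩ := tateIsogeny_of_traces_all E E' S heq hp
  rw [← not_le, ← not_le, potentiallyGood_iff_of_hom hp hfs hfk hf (by omega)]

/-- **Tate's theorem for endomorphisms over `ℚ`**: on every elliptic curve over `ℚ`, complex
multiplication or not, a Galois equivariant endomorphism of the points of `p`-power order is a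
scalar on the points killed by each `p ^ n`. -/
theorem tateEnd_scalar_rat (E : WeierstrassCurve ℚ) [E.IsElliptic]
    [inst : DecidableEq (AlgebraicClosure ℚ)] {p : ℕ} (hp : p.Prime)
    (f : AddCommGroup.primaryComponent (E.toAffine⁄(AlgebraicClosure ℚ)).Point p →+
      AddCommGroup.primaryComponent (E.toAffine⁄(AlgebraicClosure ℚ)).Point p)
    (hf : ∀ (σ : AlgebraicClosure ℚ ≃ₐ[ℚ] AlgebraicClosure ℚ) P Q,
      Affine.Point.map σ.toAlgHom P.1 = Q.1 → Affine.Point.map σ.toAlgHom (f P).1 = (f Q).1)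
    (n : ℕ) :
    ∃ c : ℕ, ∀ P : AddCommGroup.primaryComponent (E.toAffine⁄(AlgebraicClosure ℚ)).Point p,
      p ^ n • P = 0 → f P = c • P := by
  obtain rfl : inst = instDecEqAlgebraicClosureRat := Subsingleton.elim _ _
  haveI := Fact.mk hp
  obtain ⟨W, hW⟩ := FA.Frob.exists_integralModel E
  haveI := FA.Frob.ratCurve_isElliptic_of_Δ (FA.Frob.Δ_ne_zero_of_model hW)
  obtain ⟨B⟩ := exists_tateBasis (p := p) W
  obtain ⟨e, he⟩ := FA.Root.exists_equiv_of_model hW
  let T : AddCommGroup.primaryComponent (Pts W) p ≃+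
      AddCommGroup.primaryComponent (E.toAffine⁄Qb).Point p :=
    { toEquiv := e.toEquiv.subtypeEquiv fun Q => by
        simp only [AddCommGroup.mem_primaryComponent]
        exact exists_congr fun n => ⟨fun hQ => (map_nsmul e _ Q).symm.trans (by rw [hQ, map_zero]),
          fun hQ => e.injective (by rw [map_nsmul, map_zero]; exact hQ)⟩
      map_add' := fun u v => Subtype.ext (map_add e u.1 v.1) }
  obtain ⟨c, hc⟩ := exists_scalar B ((T.symm.toAddMonoidHom.comp f).comp T.toAddMonoidHom)
    (fun σ x y hxy => e.injective (by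
      show e (σ • (T.symm (f (T x))).1) = e (T.symm (f (T y))).1
      rw [he, show e (T.symm (f (T x))).1 = (f (T x)).1 from
          congrArg Subtype.val (T.apply_symm_apply _),
        show e (T.symm (f (T y))).1 = (f (T y)).1 from
          congrArg Subtype.val (T.apply_symm_apply _)]
      exact hf σ _ _ ((he σ x.1).symm.trans (congrArg e hxy)))) n
  refine ⟨c, fun P hP => T.symm.injective (Subtype.ext ?_)⟩
  have h := hc (T.symm P) (by
    have := congrArg Subtype.val (congrArg T.symm hP)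
    rwa [map_nsmul, map_zero] at this)
  simp only [AddMonoidHom.comp_apply, AddEquiv.coe_toAddMonoidHom, AddEquiv.apply_symm_apply] at h
  rw [h, map_nsmul]
  rfl

/-- **Semisimplicity of the rational Tate module over every number field** (Faltings' theorem for
elliptic curves over `ℚ`): a subspace of `ℚ_p²` stable under the Galois group of a number field
`K` through the Tate module has a complement stable under it. -/
theorem tateModule_semisimple {W : WeierstrassCurve ℤ} [(FA.Frob.ratCurve W).IsElliptic] {p : ℕ}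
    [Fact p.Prime] (B : FA.RT.Tate.TateBasis p W)
    (K : IntermediateField ℚ (AlgebraicClosure ℚ)) [FiniteDimensional ℚ K]
    (U : Submodule ℚ_[p] (Fin 2 → ℚ_[p]))
    (hU : ∀ σ ∈ K.fixingSubgroup, ∀ u ∈ U, (B.rep σ).map PadicInt.Coe.ringHom *ᵥ u ∈ U) :
    ∃ U' : Submodule ℚ_[p] (Fin 2 → ℚ_[p]), IsCompl U U' ∧
      ∀ σ ∈ K.fixingSubgroup, ∀ u ∈ U', (B.rep σ).map PadicInt.Coe.ringHom *ᵥ u ∈ U' := by
  let ι : ℤ_[p] →+* ℚ_[p] := PadicInt.Coe.ringHom
  let r : GQ →* Module.End ℚ_[p] (Fin 2 → ℚ_[p]) :=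
    (Matrix.toLinAlgEquiv' : M2 ℚ_[p] ≃ₐ[ℚ_[p]] _).toMonoidHom.comp
      (ι.mapMatrix.toMonoidHom.comp B.rep)
  have hr : ∀ σ v, r σ v = (B.rep σ).map ι *ᵥ v := fun σ v => Matrix.toLinAlgEquiv'_apply _ _
  haveI : Finite (GQ ⧸ K.fixingSubgroup) :=
    Subgroup.quotient_finite_of_isOpen _ (IntermediateField.fixingSubgroup_isOpen K)
  haveI : K.fixingSubgroup.FiniteIndex := Subgroup.finiteIndex_of_finite_quotient
  have hspan := FA.TateIsogenyAll.span_rep_eq_top B
  have hline : ∀ v : Fin 2 → ℚ_[p], v ≠ 0 → ∃ g, ∀ a : ℚ_[p], r g v ≠ a • v := by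
    intro v hv
    by_contra hcon
    push Not at hcon
    have hall : ∀ X : M2 ℚ_[p], ∃ a : ℚ_[p], X *ᵥ v = a • v := fun X => by
      have hX : X ∈ Submodule.span ℚ_[p] (Set.range ((PadicInt.Coe.ringHom.mapMatrix :
          M2 ℤ_[p] →+* M2 ℚ_[p]).toMonoidHom.comp B.rep)) := by rw [hspan]; trivial
      induction hX using Submodule.span_induction with
      | mem y hy =>
        obtain ⟨σ, rfl⟩ := hy
        obtain ⟨a, ha⟩ := hcon σ
        exact ⟨a, (hr σ v).symm.trans ha⟩
      | zero => exact ⟨0, by rw [zero_mulVec, zero_smul]⟩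
      | add x y _ _ hx hy =>
        obtain ⟨a, ha⟩ := hx
        obtain ⟨b, hb⟩ := hy
        exact ⟨a + b, by rw [add_mulVec, ha, hb, add_smul]⟩
      | smul c x _ hx =>
        obtain ⟨a, ha⟩ := hx
        exact ⟨c * a, by rw [smul_mulVec, ha, smul_smul]⟩
    obtain ⟨a, ha⟩ := hall !![0, 1; 0, 0]
    obtain ⟨b, hb⟩ := hall !![0, 0; 1, 0]
    have a0 := congrFun ha 0
    have a1 := congrFun ha 1
    have b0 := congrFun hb 0
    have b1 := congrFun hb 1
    simp [mulVec, dotProduct, Fin.sum_univ_two] at a0 a1 b0 b1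
    refine hv (funext fun i => ?_)
    fin_cases i
    · rcases a1 with h | h
      · rw [h, zero_mul] at a0
        rcases b0 with h' | h'
        · rw [h', zero_mul] at b1; exact b1
        · exact h'
      · rw [h, mul_zero] at b1; exact b1
    · rcases b0 with h | h
      · rw [h, zero_mul] at b1
        rw [b1, mul_zero] at a0
        exact a0
      · rw [h, mul_zero] at a0; exact a0
  obtain ⟨U', hc, hU'⟩ := exists_compl_two r (by simp) hline K.fixingSubgroup
    (U := U) fun σ hσ u hu => by rw [hr]; exact hU σ hσ u hu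
  exact ⟨U', hc, fun σ hσ u hu => hr σ u ▸ hU' σ hσ u hu⟩

end FA.Summary

end
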