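import Fermat.Agent.Root.SummaryIndependenceAdelic
import Fermat.Agent.TraceDistribution.Basic

/-!
# Pairs of traces of Frobenius for every modulus

The adelic independence of two curves and Chebotarev: some `m` is such that for every `N` every
pair of classes of matrices congruent to one modulo `m` with equal determinants is the class of
Frobenius at infinitely many primes; so every triple `(t, t', d)`, `d` a unit, is
`(a_r, a'_r, r)` modulo every `N` prime to `m`.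
-/

set_option autoImplicit false
set_option linter.style.haveILetI false

noncomputable section

open WeierstrassCurve WeierstrassCurve.Affine Matrix FA.Frob FA.RT FA.RT.Tate FA.TraceDist
open FA.OpenImageAll (SurjectiveLarge)
open scoped WeierstrassCurve.Affine

local notation "Qb" => AlgebraicClosure ℚ
local notation "GQ" => AlgebraicClosure ℚ ≃ₐ[ℚ] AlgebraicClosure ℚ

namespace FA.Independence

/-- Coordinates on the `N`-torsion in which Galois acts by the representation of level `N`. -/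
theorem exists_coord_level (W : WeierstrassCurve ℤ) [(ratCurve W).IsElliptic] (N : ℕ) [NeZero N] :
    ∃ e : Submodule.torsionBy ℤ (Pts W) (N : ℤ) ≃+ (Fin 2 → ZMod N),
      ∀ (σ : GQ) (v : Fin 2 → ZMod N),
        σ • (e.symm v).1 = (e.symm (repLevel W N σ *ᵥ v)).1 := by
  classical
  let E' := ZMod.equivPi N (NeZero.ne N)
  let red : ∀ p : N.primeFactors, (Fin 2 → ZMod N) → Fin 2 → ZMod ((p : ℕ) ^ N.factorization p) :=
    fun p v i => E' (v i) p
  let part : ∀ p : N.primeFactors, (Fin 2 → ZMod N) → Pts W := fun p v =>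
    haveI := fact_prime_of_mem p
    (basisAt W p).φ (N.factorization p) fun i => ((red p v i).val : ℤ_[(p : ℕ)])
  have hkill : ∀ (p : N.primeFactors) v, (p : ℕ) ^ N.factorization p • part p v = 0 := fun p v => by
    haveI := fact_prime_of_mem p
    exact (basisAt W p).nsmul_phi _ _
  have hlift : ∀ (p : N.primeFactors) (v : Fin 2 → ZMod N) i,
      haveI := fact_prime_of_mem p
      PadicInt.toZModPow (N.factorization p) ((red p v i).val : ℤ_[(p : ℕ)]) = red p v i := by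
    intro p v i
    haveI := fact_prime_of_mem p
    haveI : NeZero ((p : ℕ) ^ N.factorization p) :=
      ⟨pow_ne_zero _ (fact_prime_of_mem p).out.ne_zero⟩
    rw [map_natCast, ZMod.natCast_zmod_val]
  have hadd : ∀ p u v, part p (u + v) = part p u + part p v := fun p u v => by
    haveI := fact_prime_of_mem p
    show (basisAt W p).φ _ _ = (basisAt W p).φ _ _ + (basisAt W p).φ _ _
    rw [← map_add, (basisAt W p).phi_eq_iff]
    intro i
    rw [Pi.add_apply, map_add, hlift, hlift, hlift]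
    show E' (u i + v i) p = E' (u i) p + E' (v i) p
    rw [map_add]
    rfl
  have hact : ∀ p (σ : GQ) v, σ • part p v = part p (repLevel W N σ *ᵥ v) := fun p σ v => by
    haveI := fact_prime_of_mem p
    show σ • (basisAt W p).φ _ _ = (basisAt W p).φ _ _
    rw [(basisAt W p).rep_spec, (basisAt W p).phi_eq_iff]
    intro i
    rw [RingHom.map_mulVec, hlift]
    show (repAt W p σ *ᵥ _) i = E' ((repLevel W N σ *ᵥ v) i) p
    simp only [mulVec, dotProduct, map_sum, map_mul, Finset.sum_apply, Pi.mul_apply,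
      Function.comp_apply, hlift]
    refine Finset.sum_congr rfl fun j _ => ?_
    congr 1
    simp [E', repLevel]
  have hmem : ∀ v, N • ∑ p : N.primeFactors, part p v = 0 := fun v => by
    rw [Finset.smul_sum]
    refine Finset.sum_eq_zero fun p _ => ?_
    obtain ⟨d, hd⟩ := Nat.ordProj_dvd N (p : ℕ)
    rw [hd, mul_comm, mul_nsmul', hkill, nsmul_zero]
  let Φ : (Fin 2 → ZMod N) →+ Submodule.torsionBy ℤ (Pts W) (N : ℤ) :=
    AddMonoidHom.mk' (fun v => ⟨∑ p, part p v, (mem_torsion_iff W).mpr (hmem v)⟩) fun u v =>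
      Subtype.ext (by simp only [Submodule.coe_add, hadd, Finset.sum_add_distrib])
  have hinj : Function.Injective Φ := (injective_iff_map_eq_zero Φ).mpr fun v hv => by
    funext i
    refine E'.injective (funext fun p => ?_)
    haveI := fact_prime_of_mem p
    set n := N.factorization p
    obtain ⟨c, hc⟩ := Nat.ordProj_dvd N (p : ℕ)
    have hothers : ∀ l : N.primeFactors, l ≠ p → c • part l v = 0 := fun l hl => by
      have hcop : Nat.Coprime ((l : ℕ) ^ N.factorization l) ((p : ℕ) ^ n) :=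
        Nat.Coprime.pow _ _ ((Nat.coprime_primes (fact_prime_of_mem l).out
          (fact_prime_of_mem p).out).mpr fun e => hl (Subtype.ext e))
      obtain ⟨d, hd⟩ := hcop.dvd_of_dvd_mul_left ((Nat.ordProj_dvd N (l : ℕ)).trans (dvd_of_eq hc))
      rw [hd, mul_comm, mul_nsmul', hkill, nsmul_zero]
    have hcp : c • part p v = 0 := by
      have h0 : c • ∑ l : N.primeFactors, part l v = 0 := by
        rw [show ∑ l : N.primeFactors, part l v = 0 from congrArg Subtype.val hv, nsmul_zero]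
      rwa [Finset.smul_sum, Finset.sum_eq_single p (fun l _ hl => hothers l hl)
        (fun h => absurd (Finset.mem_univ p) h)] at h0
    have hcop : Nat.Coprime ((p : ℕ) ^ n) c :=
      Nat.Coprime.pow_left _ ((fact_prime_of_mem p).out.coprime_iff_not_dvd.mpr fun hd =>
        Nat.pow_succ_factorization_not_dvd (NeZero.ne N) (fact_prime_of_mem p).out
          (by rw [pow_succ]; exact (mul_dvd_mul_left _ hd).trans (dvd_of_eq hc.symm)))
    have hzero : part p v = 0 := AddMonoid.addOrderOf_eq_one_iff.mp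
      (Nat.eq_one_of_dvd_coprimes hcop (addOrderOf_dvd_iff_nsmul_eq_zero.mpr (hkill p v))
        (addOrderOf_dvd_iff_nsmul_eq_zero.mpr hcp))
    have h := ((basisAt W p).ker _ _).mp hzero i
    rw [hlift] at h
    rw [Pi.zero_apply, map_zero]
    exact h
  have := FA.EC.finite_torsion (ratCurve W) (NeZero.ne N)
  have hbij : Function.Bijective Φ := (Nat.bijective_iff_injective_and_card Φ).mpr ⟨hinj, by
    rw [FA.EC.natCard_torsion (ratCurve W) (NeZero.ne N), Nat.card_fun, Nat.card_zmod,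
      Nat.card_fin]⟩
  refine ⟨(AddEquiv.ofBijective Φ hbij).symm, fun σ v => ?_⟩
  show σ • ∑ p, part p v = ∑ p, part p (repLevel W N σ *ᵥ v)
  have hsum : ∀ s : Finset N.primeFactors,
      σ • ∑ p ∈ s, part p v = ∑ p ∈ s, σ • part p v := fun s => by
    induction s using Finset.induction_on with
    | empty => simp
    | insert a s ha ih =>
      rw [Finset.sum_insert ha, Finset.sum_insert ha, FA.Local.gal_smul_add, ih]
  rw [hsum]
  exact Finset.sum_congr rfl fun p _ => hact p σ v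

/-- Frobenius pairs congruent to one modulo some `m`, for every `N`. -/
theorem frobeniusTrace_pairs_adelic_of_surjective (E E' : WeierstrassCurve ℚ)
    [E.IsElliptic] [E'.IsElliptic]
    {W W' : WeierstrassCurve ℤ} [(ratCurve W).IsElliptic] [(ratCurve W').IsElliptic]
    (hW : W.IsIntegralModelOf E) (hW' : W'.IsIntegralModelOf E')
    (hs : SurjectiveLarge W) (hs' : SurjectiveLarge W')
    {q : ℕ} (hq : q.Prime) (hgood : ¬ (q : ℤ) ∣ W.Δ) (hgood' : ¬ (q : ℤ) ∣ W'.Δ)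
    (hne : E.LFunction q ^ 2 ≠ E'.LFunction q ^ 2) :
    ∃ m : ℕ, 0 < m ∧ ∀ (N : ℕ), N ≠ 0 → ∀ X X' : Matrix (Fin 2) (Fin 2) (ZMod N),
      (1 + (m : ZMod N) • X).det = (1 + (m : ZMod N) • X').det →
      IsUnit (1 + (m : ZMod N) • X).det →
      {r : ℕ | r.Prime ∧ (E.LFunction r : ZMod N) = (1 + (m : ZMod N) • X).trace ∧
        (E'.LFunction r : ZMod N) = (1 + (m : ZMod N) • X').trace ∧
        (r : ZMod N) = (1 + (m : ZMod N) • X).det}.Infinite := by
  classical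
  obtain ⟨m, hm, key⟩ :=
    galois_independence_adelic_of_surjective E E' hW hW' hs hs' hq hgood hgood' hne
  refine ⟨m, hm, fun N hN X X' hd hu hfin => ?_⟩
  haveI : NeZero N := ⟨hN⟩
  obtain ⟨f, hf⟩ := FA.Root.exists_equiv_of_model hW
  obtain ⟨f', hf'⟩ := FA.Root.exists_equiv_of_model hW'
  obtain ⟨T, hT⟩ := FA.Root.exists_torsionBy_congr f (N : ℤ)
  obtain ⟨T', hT'⟩ := FA.Root.exists_torsionBy_congr f' (N : ℤ)
  obtain ⟨e, he⟩ := exists_coord_level W N
  obtain ⟨e', he'⟩ := exists_coord_level W' N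
  obtain ⟨σ, hσ, hσ'⟩ := key N hN (T.symm.trans e) (T'.symm.trans e') X X' hd hu
  have hrep : repLevel W N σ = 1 + (m : ZMod N) • X := by
    refine Matrix.ext_iff_mulVec.mpr fun v => e.symm.injective (Subtype.ext (f.injective ?_))
    rw [← he, hf, ← hT, ← hT]
    exact hσ _ _ (by simp)
  have hrep' : repLevel W' N σ = 1 + (m : ZMod N) • X' := by
    refine Matrix.ext_iff_mulVec.mpr fun v => e'.symm.injective (Subtype.ext (f'.injective ?_))
    rw [← he', hf', ← hT', ← hT']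
    exact hσ' _ _ (by simp)
  obtain ⟨r, hr, hrS, hF⟩ := FA.OpenImageAll.exists_frobenius_mem_of_mem
    ((glLevel W N).prod (glLevel W' N))
    (Subgroup.isOpen_mono (H₁ := (glLevel W N).ker ⊓ (glLevel W' N).ker)
      (fun g hg => MonoidHom.mem_ker.mpr
        (Prod.ext (MonoidHom.mem_ker.mp hg.1) (MonoidHom.mem_ker.mp hg.2)))
      (isOpen_ker_glLevel.inter isOpen_ker_glLevel))
    (X := {g | g.1.val.trace = (1 + (m : ZMod N) • X).trace ∧
      g.2.val.trace = (1 + (m : ZMod N) • X').trace ∧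
      g.1.val.det = (1 + (m : ZMod N) • X).det})
    (fun g hg x => by
      show _ ∧ _ ∧ _
      simp only [Prod.fst_mul, Prod.snd_mul, Prod.fst_inv, Prod.snd_inv, Units.val_mul,
        Matrix.trace_units_conj, Matrix.det_units_conj]
      exact hg)
    (σ := σ) (by
      show (repLevel W N σ).trace = _ ∧ (repLevel W' N σ).trace = _ ∧ (repLevel W N σ).det = _
      rw [hrep, hrep']
      exact ⟨rfl, rfl, rfl⟩)
    (hfin.toFinset ∪ N.primeFactors ∪ (W.Δ * W'.Δ).natAbs.primeFactors)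
  simp only [Finset.mem_union, not_or] at hrS
  have hrN : ¬ r ∣ N := fun hd => hrS.1.2 (Nat.mem_primeFactors.mpr ⟨hr, hd, hN⟩)
  obtain ⟨g1, g2⟩ := good_of_not_mem hr hrS.2
  obtain ⟨A, hA⟩ := FA.Deform.exists_liesOverPrime hr
  obtain ⟨τ, hτ⟩ := FA.Deform.exists_isFrobeniusAt hr hA
  obtain ⟨f1, f2, f3⟩ := hF A hA τ hτ
  change (repLevel W N τ).trace = _ at f1
  change (repLevel W' N τ).trace = _ at f2
  change (repLevel W N τ).det = _ at f3
  obtain ⟨a1, a3⟩ := repLevel_frobenius hr hrN g1 hA hτ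
  rw [a1, ← FA.Root.LFunction_apply_prime E W hW hr g1] at f1
  rw [(repLevel_frobenius hr hrN g2 hA hτ).1,
    ← FA.Root.LFunction_apply_prime E' W' hW' hr g2] at f2
  rw [a3] at f3
  exact hrS.1.1 (hfin.mem_toFinset.mpr ⟨hr, f1, f2, f3⟩)

/-- All triples, for `N` prime to `m`. -/
theorem frobeniusTrace_pairs_coprime_of_surjective (E E' : WeierstrassCurve ℚ)
    [E.IsElliptic] [E'.IsElliptic]
    {W W' : WeierstrassCurve ℤ} [(ratCurve W).IsElliptic] [(ratCurve W').IsElliptic]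
    (hW : W.IsIntegralModelOf E) (hW' : W'.IsIntegralModelOf E')
    (hs : SurjectiveLarge W) (hs' : SurjectiveLarge W')
    {q : ℕ} (hq : q.Prime) (hgood : ¬ (q : ℤ) ∣ W.Δ) (hgood' : ¬ (q : ℤ) ∣ W'.Δ)
    (hne : E.LFunction q ^ 2 ≠ E'.LFunction q ^ 2) :
    ∃ m : ℕ, 0 < m ∧ ∀ (N : ℕ), N ≠ 0 → N.Coprime m → ∀ t t' d : ZMod N, IsUnit d →
      {r : ℕ | r.Prime ∧ (E.LFunction r : ZMod N) = t ∧ (E'.LFunction r : ZMod N) = t' ∧
        (r : ZMod N) = d}.Infinite := by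
  obtain ⟨m, hm, key⟩ :=
    frobeniusTrace_pairs_adelic_of_surjective E E' hW hW' hs hs' hq hgood hgood' hne
  refine ⟨m, hm, fun N hN hcop t t' d hd => ?_⟩
  obtain ⟨u, hu⟩ : ∃ u : ZMod N, (m : ZMod N) * u = 1 :=
    ((ZMod.isUnit_iff_coprime m N).mpr hcop.symm).exists_right_inv
  have hA : ∀ s : ZMod N, 1 + (m : ZMod N) • (u • (!![0, -d; 1, s] - 1)) =
      (!![0, -d; 1, s] : Matrix (Fin 2) (Fin 2) (ZMod N)) := fun s => by
    rw [smul_smul, hu, one_smul, add_sub_cancel]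
  have h := key N hN (u • (!![0, -d; 1, t] - 1)) (u • (!![0, -d; 1, t'] - 1))
    (by rw [hA, hA]; simp [det_fin_two_of]) (by rw [hA]; simpa [det_fin_two_of] using hd)
  simpa [hA, det_fin_two_of, trace_fin_two] using h

/-- One number of points divisible by `N`, the other prime to it. -/
theorem pointCount_separated_of_surjective (E E' : WeierstrassCurve ℚ)
    [E.IsElliptic] [E'.IsElliptic]
    {W W' : WeierstrassCurve ℤ} [(ratCurve W).IsElliptic] [(ratCurve W').IsElliptic]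
    (hW : W.IsIntegralModelOf E) (hW' : W'.IsIntegralModelOf E')
    (hs : SurjectiveLarge W) (hs' : SurjectiveLarge W')
    {q : ℕ} (hq : q.Prime) (hgood : ¬ (q : ℤ) ∣ W.Δ) (hgood' : ¬ (q : ℤ) ∣ W'.Δ)
    (hne : E.LFunction q ^ 2 ≠ E'.LFunction q ^ 2) :
    ∃ m : ℕ, 0 < m ∧ ∀ (N : ℕ), N ≠ 0 → N.Coprime m →
      {r : ℕ | r.Prime ∧ (N : ℤ) ∣ (r : ℤ) + 1 - E.LFunction r ∧
        IsCoprime ((r : ℤ) + 1 - E'.LFunction r) (N : ℤ)}.Infinite := by
  obtain ⟨m, hm, key⟩ :=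
    frobeniusTrace_pairs_coprime_of_surjective E E' hW hW' hs hs' hq hgood hgood' hne
  refine ⟨m, hm, fun N hN hcop => (key N hN hcop 2 1 1 isUnit_one).mono ?_⟩
  rintro r ⟨hr, h1, h2, h3⟩
  refine ⟨hr, (ZMod.intCast_zmod_eq_zero_iff_dvd _ _).mp ?_, ?_⟩
  · push_cast; rw [h1, h3]; ring
  · obtain ⟨k, hk⟩ : (N : ℤ) ∣ (r : ℤ) + 1 - E'.LFunction r - 1 :=
      (ZMod.intCast_zmod_eq_zero_iff_dvd _ _).mp (by push_cast; rw [h2, h3]; ring)
    exact ⟨1, -k, by linear_combination hk⟩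

end FA.Independence

namespace FA.Summary

open FA.Independence

/-- **Pairs of traces for every modulus**: if curves over `ℚ` with non-integral invariants differ in
`a_q²` at one prime of good reduction, some `m` is such that for every `N` and every two matrices
congruent to one modulo `m` with one unit determinant `d`, infinitely many primes `r` have
`(a_r, a'_r, r)` congruent to their traces and `d` modulo `N`. -/
theorem frobeniusTrace_pairs_adelic (E E' : WeierstrassCurve ℚ) [E.IsElliptic] [E'.IsElliptic]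
    (hj : ∃ p : ℕ, p.Prime ∧ padicValRat p E.j < 0)
    (hj' : ∃ p : ℕ, p.Prime ∧ padicValRat p E'.j < 0)
    (W W' : WeierstrassCurve ℤ) (C C' : VariableChange ℚ)
    (hW : C • E = W.map (Int.castRingHom ℚ)) (hW' : C' • E' = W'.map (Int.castRingHom ℚ))
    {q : ℕ} (hq : q.Prime) (hgood : ¬ (q : ℤ) ∣ W.Δ) (hgood' : ¬ (q : ℤ) ∣ W'.Δ)
    (hne : E.LFunction q ^ 2 ≠ E'.LFunction q ^ 2) :
    ∃ m : ℕ, 0 < m ∧ ∀ (N : ℕ), N ≠ 0 → ∀ X X' : Matrix (Fin 2) (Fin 2) (ZMod N),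
      (1 + (m : ZMod N) • X).det = (1 + (m : ZMod N) • X').det →
      IsUnit (1 + (m : ZMod N) • X).det →
      {r : ℕ | r.Prime ∧ (E.LFunction r : ZMod N) = (1 + (m : ZMod N) • X).trace ∧
        (E'.LFunction r : ZMod N) = (1 + (m : ZMod N) • X').trace ∧
        (r : ZMod N) = (1 + (m : ZMod N) • X).det}.Infinite := by
  haveI := FA.Frob.ratCurve_isElliptic_of_Δ (FA.Frob.Δ_ne_zero_of_model (E := E) ⟨C, hW⟩)
  haveI := FA.Frob.ratCurve_isElliptic_of_Δ (FA.Frob.Δ_ne_zero_of_model (E := E') ⟨C', hW'⟩)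
  exact frobeniusTrace_pairs_adelic_of_surjective E E' ⟨C, hW⟩ ⟨C', hW'⟩
    (surjectiveLarge_of_pole hj ⟨C, hW⟩)
    (surjectiveLarge_of_pole hj' ⟨C', hW'⟩) hq hgood hgood' hne

/-- The same for every two curves with a nonzero trace at an inert good prime of each quadratic
field. -/
theorem frobeniusTrace_pairs_adelic_of_traces (E E' : WeierstrassCurve ℚ) [E.IsElliptic]
    [E'.IsElliptic]
    (h : ∀ d : ℤ, Squarefree d → d ≠ 1 → ∃ (l : ℕ) (_ : Fact l.Prime),
      (∃ C : VariableChange ℚ_[l],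
        HasGoodReduction ℤ_[l] (C • E.map (algebraMap ℚ ℚ_[l]))) ∧
      ¬ IsSquare (d : ZMod l) ∧ E.LFunction l ≠ 0)
    (h' : ∀ d : ℤ, Squarefree d → d ≠ 1 → ∃ (l : ℕ) (_ : Fact l.Prime),
      (∃ C : VariableChange ℚ_[l],
        HasGoodReduction ℤ_[l] (C • E'.map (algebraMap ℚ ℚ_[l]))) ∧
      ¬ IsSquare (d : ZMod l) ∧ E'.LFunction l ≠ 0)
    (W W' : WeierstrassCurve ℤ) (C C' : VariableChange ℚ)
    (hW : C • E = W.map (Int.castRingHom ℚ)) (hW' : C' • E' = W'.map (Int.castRingHom ℚ))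
    {q : ℕ} (hq : q.Prime) (hgood : ¬ (q : ℤ) ∣ W.Δ) (hgood' : ¬ (q : ℤ) ∣ W'.Δ)
    (hne : E.LFunction q ^ 2 ≠ E'.LFunction q ^ 2) :
    ∃ m : ℕ, 0 < m ∧ ∀ (N : ℕ), N ≠ 0 → ∀ X X' : Matrix (Fin 2) (Fin 2) (ZMod N),
      (1 + (m : ZMod N) • X).det = (1 + (m : ZMod N) • X').det →
      IsUnit (1 + (m : ZMod N) • X).det →
      {r : ℕ | r.Prime ∧ (E.LFunction r : ZMod N) = (1 + (m : ZMod N) • X).trace ∧
        (E'.LFunction r : ZMod N) = (1 + (m : ZMod N) • X').trace ∧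
        (r : ZMod N) = (1 + (m : ZMod N) • X).det}.Infinite := by
  haveI := FA.Frob.ratCurve_isElliptic_of_Δ (FA.Frob.Δ_ne_zero_of_model (E := E) ⟨C, hW⟩)
  haveI := FA.Frob.ratCurve_isElliptic_of_Δ (FA.Frob.Δ_ne_zero_of_model (E := E') ⟨C', hW'⟩)
  exact frobeniusTrace_pairs_adelic_of_surjective E E' ⟨C, hW⟩ ⟨C', hW'⟩
    (FA.OpenImageAll.surjectiveLarge_of_traces h ⟨C, hW⟩)
    (FA.OpenImageAll.surjectiveLarge_of_traces h' ⟨C', hW'⟩) hq hgood hgood' hne

/-- **Every triple modulo every `N` prime to one `m`**: every `(t, t', d)`, `d` a unit, is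
`(a_r, a'_r, r)` modulo `N` for infinitely many primes. -/
theorem frobeniusTrace_pairs_coprime (E E' : WeierstrassCurve ℚ) [E.IsElliptic] [E'.IsElliptic]
    (hj : ∃ p : ℕ, p.Prime ∧ padicValRat p E.j < 0)
    (hj' : ∃ p : ℕ, p.Prime ∧ padicValRat p E'.j < 0)
    (W W' : WeierstrassCurve ℤ) (C C' : VariableChange ℚ)
    (hW : C • E = W.map (Int.castRingHom ℚ)) (hW' : C' • E' = W'.map (Int.castRingHom ℚ))
    {q : ℕ} (hq : q.Prime) (hgood : ¬ (q : ℤ) ∣ W.Δ) (hgood' : ¬ (q : ℤ) ∣ W'.Δ)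
    (hne : E.LFunction q ^ 2 ≠ E'.LFunction q ^ 2) :
    ∃ m : ℕ, 0 < m ∧ ∀ (N : ℕ), N ≠ 0 → N.Coprime m → ∀ t t' d : ZMod N, IsUnit d →
      {r : ℕ | r.Prime ∧ (E.LFunction r : ZMod N) = t ∧ (E'.LFunction r : ZMod N) = t' ∧
        (r : ZMod N) = d}.Infinite := by
  haveI := FA.Frob.ratCurve_isElliptic_of_Δ (FA.Frob.Δ_ne_zero_of_model (E := E) ⟨C, hW⟩)
  haveI := FA.Frob.ratCurve_isElliptic_of_Δ (FA.Frob.Δ_ne_zero_of_model (E := E') ⟨C', hW'⟩)
  exact frobeniusTrace_pairs_coprime_of_surjective E E' ⟨C, hW⟩ ⟨C', hW'⟩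
    (surjectiveLarge_of_pole hj ⟨C, hW⟩)
    (surjectiveLarge_of_pole hj' ⟨C', hW'⟩) hq hgood hgood' hne

/-- The same without a condition on the invariants. -/
theorem frobeniusTrace_pairs_coprime_of_traces (E E' : WeierstrassCurve ℚ) [E.IsElliptic]
    [E'.IsElliptic]
    (h : ∀ d : ℤ, Squarefree d → d ≠ 1 → ∃ (l : ℕ) (_ : Fact l.Prime),
      (∃ C : VariableChange ℚ_[l],
        HasGoodReduction ℤ_[l] (C • E.map (algebraMap ℚ ℚ_[l]))) ∧
      ¬ IsSquare (d : ZMod l) ∧ E.LFunction l ≠ 0)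
    (h' : ∀ d : ℤ, Squarefree d → d ≠ 1 → ∃ (l : ℕ) (_ : Fact l.Prime),
      (∃ C : VariableChange ℚ_[l],
        HasGoodReduction ℤ_[l] (C • E'.map (algebraMap ℚ ℚ_[l]))) ∧
      ¬ IsSquare (d : ZMod l) ∧ E'.LFunction l ≠ 0)
    (W W' : WeierstrassCurve ℤ) (C C' : VariableChange ℚ)
    (hW : C • E = W.map (Int.castRingHom ℚ)) (hW' : C' • E' = W'.map (Int.castRingHom ℚ))
    {q : ℕ} (hq : q.Prime) (hgood : ¬ (q : ℤ) ∣ W.Δ) (hgood' : ¬ (q : ℤ) ∣ W'.Δ)
    (hne : E.LFunction q ^ 2 ≠ E'.LFunction q ^ 2) :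
    ∃ m : ℕ, 0 < m ∧ ∀ (N : ℕ), N ≠ 0 → N.Coprime m → ∀ t t' d : ZMod N, IsUnit d →
      {r : ℕ | r.Prime ∧ (E.LFunction r : ZMod N) = t ∧ (E'.LFunction r : ZMod N) = t' ∧
        (r : ZMod N) = d}.Infinite := by
  haveI := FA.Frob.ratCurve_isElliptic_of_Δ (FA.Frob.Δ_ne_zero_of_model (E := E) ⟨C, hW⟩)
  haveI := FA.Frob.ratCurve_isElliptic_of_Δ (FA.Frob.Δ_ne_zero_of_model (E := E') ⟨C', hW'⟩)
  exact frobeniusTrace_pairs_coprime_of_surjective E E' ⟨C, hW⟩ ⟨C', hW'⟩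
    (FA.OpenImageAll.surjectiveLarge_of_traces h ⟨C, hW⟩)
    (FA.OpenImageAll.surjectiveLarge_of_traces h' ⟨C', hW'⟩) hq hgood hgood' hne

/-- **The numbers of points are unrelated**: for every `N` prime to one `m` infinitely many primes
`r` have `N ∣ r + 1 - a_r` and `r + 1 - a'_r` prime to `N`. -/
theorem pointCount_separated (E E' : WeierstrassCurve ℚ) [E.IsElliptic] [E'.IsElliptic]
    (hj : ∃ p : ℕ, p.Prime ∧ padicValRat p E.j < 0)
    (hj' : ∃ p : ℕ, p.Prime ∧ padicValRat p E'.j < 0)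
    (W W' : WeierstrassCurve ℤ) (C C' : VariableChange ℚ)
    (hW : C • E = W.map (Int.castRingHom ℚ)) (hW' : C' • E' = W'.map (Int.castRingHom ℚ))
    {q : ℕ} (hq : q.Prime) (hgood : ¬ (q : ℤ) ∣ W.Δ) (hgood' : ¬ (q : ℤ) ∣ W'.Δ)
    (hne : E.LFunction q ^ 2 ≠ E'.LFunction q ^ 2) :
    ∃ m : ℕ, 0 < m ∧ ∀ (N : ℕ), N ≠ 0 → N.Coprime m →
      {r : ℕ | r.Prime ∧ (N : ℤ) ∣ (r : ℤ) + 1 - E.LFunction r ∧
        IsCoprime ((r : ℤ) + 1 - E'.LFunction r) (N : ℤ)}.Infinite := by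
  haveI := FA.Frob.ratCurve_isElliptic_of_Δ (FA.Frob.Δ_ne_zero_of_model (E := E) ⟨C, hW⟩)
  haveI := FA.Frob.ratCurve_isElliptic_of_Δ (FA.Frob.Δ_ne_zero_of_model (E := E') ⟨C', hW'⟩)
  exact pointCount_separated_of_surjective E E' ⟨C, hW⟩ ⟨C', hW'⟩
    (surjectiveLarge_of_pole hj ⟨C, hW⟩)
    (surjectiveLarge_of_pole hj' ⟨C', hW'⟩) hq hgood hgood' hne

/-- The same without a condition on the invariants. -/
theorem pointCount_separated_of_traces (E E' : WeierstrassCurve ℚ) [E.IsElliptic]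
    [E'.IsElliptic]
    (h : ∀ d : ℤ, Squarefree d → d ≠ 1 → ∃ (l : ℕ) (_ : Fact l.Prime),
      (∃ C : VariableChange ℚ_[l],
        HasGoodReduction ℤ_[l] (C • E.map (algebraMap ℚ ℚ_[l]))) ∧
      ¬ IsSquare (d : ZMod l) ∧ E.LFunction l ≠ 0)
    (h' : ∀ d : ℤ, Squarefree d → d ≠ 1 → ∃ (l : ℕ) (_ : Fact l.Prime),
      (∃ C : VariableChange ℚ_[l],
        HasGoodReduction ℤ_[l] (C • E'.map (algebraMap ℚ ℚ_[l]))) ∧
      ¬ IsSquare (d : ZMod l) ∧ E'.LFunction l ≠ 0)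
    (W W' : WeierstrassCurve ℤ) (C C' : VariableChange ℚ)
    (hW : C • E = W.map (Int.castRingHom ℚ)) (hW' : C' • E' = W'.map (Int.castRingHom ℚ))
    {q : ℕ} (hq : q.Prime) (hgood : ¬ (q : ℤ) ∣ W.Δ) (hgood' : ¬ (q : ℤ) ∣ W'.Δ)
    (hne : E.LFunction q ^ 2 ≠ E'.LFunction q ^ 2) :
    ∃ m : ℕ, 0 < m ∧ ∀ (N : ℕ), N ≠ 0 → N.Coprime m →
      {r : ℕ | r.Prime ∧ (N : ℤ) ∣ (r : ℤ) + 1 - E.LFunction r ∧
        IsCoprime ((r : ℤ) + 1 - E'.LFunction r) (N : ℤ)}.Infinite := by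
  haveI := FA.Frob.ratCurve_isElliptic_of_Δ (FA.Frob.Δ_ne_zero_of_model (E := E) ⟨C, hW⟩)
  haveI := FA.Frob.ratCurve_isElliptic_of_Δ (FA.Frob.Δ_ne_zero_of_model (E := E') ⟨C', hW'⟩)
  exact pointCount_separated_of_surjective E E' ⟨C, hW⟩ ⟨C', hW'⟩
    (FA.OpenImageAll.surjectiveLarge_of_traces h ⟨C, hW⟩)
    (FA.OpenImageAll.surjectiveLarge_of_traces h' ⟨C', hW'⟩) hq hgood hgood' hne

end FA.Summary

end
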