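import Fermat.Agent.ArtinReciprocity.Abelian

/-!
# Class field theory of number fields: the norm index and Artin reciprocity

For a finite Galois extension `L/K` of number fields, with `RayClassGroup 𝔪` the narrow ray class
group of `K` modulo `𝔪`:

* `norm_index_le`: for every modulus the classes of the norms of the primes of `L` generate a
  subgroup of index at most `[L : K]` (the second inequality);
* `norm_index_cyclic`: if the Galois group is cyclic there is a modulus supported at the ramified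
  primes for which the index is `[L : K]` (the first and the second inequality);
* `artin_reciprocity`: if the Galois group is abelian there is a modulus with prime divisors the
  ramified primes and a homomorphism of its ray class group onto the Galois group that sends the
  class of a prime to its Frobenius element and has for kernel the classes of the norms;
* `frobenius_eq_of_rayClass_eq`: hence primes in the same ray class have the same Frobenius element.

The first inequality comes from Herbrand quotients of the units outside a finite set of primes and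
of the local groups of congruence classes; the second from the natural density of the completely
split primes and the equidistribution of primes in the ray classes.  For reciprocity the symbol of a
cyclic extension is compared with auxiliary cyclotomic extensions (Artin's crossing argument).
-/

set_option autoImplicit false
set_option linter.style.haveILetI false

noncomputable section

open NumberField IsDedekindDomain
open FA.Hecke (RayClassGroup rayClass coprimeIdeals)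
open FA.Ext (primeIdeal)
open scoped Pointwise nonZeroDivisors

namespace FA.ArtinRec

variable {K L : Type*} [Field K] [NumberField K] [Field L] [NumberField L] [Algebra K L]

theorem normClasses_eq_closure {𝔪 : Ideal (𝓞 K)} (h𝔪 : 𝔪 ≠ ⊥) :
    normClasses L h𝔪 = Subgroup.closure {γ | ∃ I : coprimeIdeals 𝔪,
      (∃ Q : HeightOneSpectrum (𝓞 L), Ideal.relNorm (𝓞 K) Q.asIdeal = I.1.1) ∧
        rayClass h𝔪 I = γ} := by
  refine congrArg Subgroup.closure (Set.ext fun γ => ⟨?_, ?_⟩)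
  · rintro ⟨Q, h, rfl⟩
    exact ⟨⟨normPrime K Q, h⟩, ⟨Q, rfl⟩, rfl⟩
  · rintro ⟨I, ⟨Q, hQ⟩, rfl⟩
    have e : normPrime K Q = I.1 := Subtype.ext hQ
    exact ⟨Q, e ▸ I.2, congrArg _ (Subtype.ext e)⟩

end FA.ArtinRec

namespace FA.Summary

open FA.ArtinRec

variable (K L : Type*) [Field K] [NumberField K] [Field L] [NumberField L] [Algebra K L]
  [IsGalois K L]

/-- **The second inequality of class field theory.** -/
theorem norm_index_le {𝔪 : Ideal (𝓞 K)} (h𝔪 : 𝔪 ≠ ⊥) :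
    (Subgroup.closure {γ : RayClassGroup 𝔪 | ∃ I : coprimeIdeals 𝔪,
      (∃ Q : HeightOneSpectrum (𝓞 L), Ideal.relNorm (𝓞 K) Q.asIdeal = I.1.1) ∧
        rayClass h𝔪 I = γ}).index ≤ Module.finrank K L := by
  rw [← normClasses_eq_closure h𝔪]
  exact normClasses_index_le h𝔪

/-- **The norm index theorem for cyclic extensions.** -/
theorem norm_index_cyclic [IsCyclic (L ≃ₐ[K] L)] :
    ∃ (𝔪 : Ideal (𝓞 K)) (h𝔪 : 𝔪 ≠ ⊥),
      (∀ v : HeightOneSpectrum (𝓞 K), v.asIdeal ∣ 𝔪 → ∃ Q : HeightOneSpectrum (𝓞 L),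
        Q.asIdeal.under (𝓞 K) = v.asIdeal ∧ Q.asIdeal.inertia (L ≃ₐ[K] L) ≠ ⊥) ∧
      (Subgroup.closure {γ : RayClassGroup 𝔪 | ∃ I : coprimeIdeals 𝔪,
        (∃ Q : HeightOneSpectrum (𝓞 L), Ideal.relNorm (𝓞 K) Q.asIdeal = I.1.1) ∧
          rayClass h𝔪 I = γ}).index = Module.finrank K L := by
  obtain ⟨σ, hσ⟩ := IsCyclic.exists_generator (α := L ≃ₐ[K] L)
  obtain ⟨𝔪, h𝔪, h1, h2⟩ := exists_norm_index hσ
  refine ⟨𝔪, h𝔪, fun v hv => ?_, by rw [← normClasses_eq_closure h𝔪]; exact h2⟩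
  obtain ⟨Q, hQ, hI⟩ := (h1 v).1 hv
  exact ⟨Q, congrArg HeightOneSpectrum.asIdeal hQ, hI⟩

/-- **Artin's reciprocity law.** -/
theorem artin_reciprocity (hab : ∀ g h : L ≃ₐ[K] L, g * h = h * g) :
    ∃ (𝔪 : Ideal (𝓞 K)) (h𝔪 : 𝔪 ≠ ⊥),
      (∀ v : HeightOneSpectrum (𝓞 K), v.asIdeal ∣ 𝔪 ↔ ∃ Q : HeightOneSpectrum (𝓞 L),
        Q.asIdeal.under (𝓞 K) = v.asIdeal ∧ Q.asIdeal.inertia (L ≃ₐ[K] L) ≠ ⊥) ∧
      ∃ ω : RayClassGroup 𝔪 →* (L ≃ₐ[K] L), Function.Surjective ω ∧
        ω.ker = Subgroup.closure {γ : RayClassGroup 𝔪 | ∃ I : coprimeIdeals 𝔪,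
          (∃ Q : HeightOneSpectrum (𝓞 L), Ideal.relNorm (𝓞 K) Q.asIdeal = I.1.1) ∧
            rayClass h𝔪 I = γ} ∧
        ∀ (v : HeightOneSpectrum (𝓞 K)) (hv : v.asIdeal ⊔ 𝔪 = ⊤) (Q : HeightOneSpectrum (𝓞 L))
          (τ : L ≃ₐ[K] L), Q.asIdeal.under (𝓞 K) = v.asIdeal →
          IsArithFrobAt (𝓞 K) τ Q.asIdeal → ω (rayClass h𝔪 ⟨primeIdeal v, hv⟩) = τ := by
  haveI : IsMulCommutative (L ≃ₐ[K] L) := ⟨⟨hab⟩⟩
  obtain ⟨𝔪, h𝔪, hiff, ω, hsurj, hker, hω⟩ := exists_artinRayHom (K := K) (L := L)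
  refine ⟨𝔪, h𝔪, fun v => (hiff v).trans ⟨fun ⟨Q, hQ, hI⟩ =>
    ⟨Q, congrArg HeightOneSpectrum.asIdeal hQ, hI⟩, fun ⟨Q, hQ, hI⟩ =>
    ⟨Q, HeightOneSpectrum.ext hQ, hI⟩⟩, ω, hsurj, by rw [hker, normClasses_eq_closure h𝔪],
    fun v hv Q τ hQ hτ => ?_⟩
  rw [hω]
  exact (artinHom_prime v).trans (artinAt_eq (fun hr => (sup_eq_top_iff_not_le v 𝔪).1 hv
    (Ideal.le_of_dvd ((hiff v).2 hr))) (HeightOneSpectrum.ext hQ) hτ).symm

/-- **Frobenius elements in an abelian extension are given by congruences.** -/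
theorem frobenius_eq_of_rayClass_eq (hab : ∀ g h : L ≃ₐ[K] L, g * h = h * g) :
    ∃ 𝔪 : Ideal (𝓞 K), 𝔪 ≠ ⊥ ∧ ∀ (v w : HeightOneSpectrum (𝓞 K)),
      v.asIdeal ⊔ 𝔪 = ⊤ → w.asIdeal ⊔ 𝔪 = ⊤ →
      ∀ x y : 𝓞 K, FA.Hecke.IsRayElt 𝔪 x → FA.Hecke.IsRayElt 𝔪 y →
        Ideal.span {x} * v.asIdeal = Ideal.span {y} * w.asIdeal →
      ∀ (Q R : HeightOneSpectrum (𝓞 L)) (τ ρ : L ≃ₐ[K] L), Q.asIdeal.under (𝓞 K) = v.asIdeal →
        R.asIdeal.under (𝓞 K) = w.asIdeal → IsArithFrobAt (𝓞 K) τ Q.asIdeal →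
        IsArithFrobAt (𝓞 K) ρ R.asIdeal → τ = ρ := by
  obtain ⟨𝔪, h𝔪, -, ω, -, -, hω⟩ := artin_reciprocity K L hab
  refine ⟨𝔪, h𝔪, fun v w hv hw x y hx hy hxy Q R τ ρ hQ hR hτ hρ => ?_⟩
  rw [← hω v hv Q τ hQ hτ, ← hω w hw R ρ hR hρ]
  exact congrArg ω ((FA.Hecke.rayClass_eq_iff h𝔪).2 ⟨x, y, hx, hy, hxy⟩)

end FA.Summary

end
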