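import Fermat.Agent.Root.SummarySupersingular
import Fermat.Agent.Root.SummaryTorsion
import Fermat.Agent.Root.SummaryTraces
import Fermat.Agent.CM.ClassOne.Galois

/-!
# The image of Galois for the curves with complex multiplication

For the thirteen CM values of `j` and every prime `l ≥ 3` Galois does not induce every automorphism
of the `l`-torsion. Otherwise some Frobenius at a prime inert in the CM field would have nonzero
trace modulo `l`: either `√d` is independent of the `l`-torsion, or its sign is a function of the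
determinant, and then `diag (1, r)` with a generator `r` (for `l = 3` an element of order eight)
has the sign `-1` and no power of it generating the same subgroup has trace zero.
-/

set_option autoImplicit false
set_option linter.style.haveILetI false
set_option linter.unusedSectionVars false

noncomputable section

open WeierstrassCurve WeierstrassCurve.Affine Matrix FA.Frob FA.RT
open scoped WeierstrassCurve.Affine

local notation "Qb" => AlgebraicClosure ℚ
local notation "GQ" => AlgebraicClosure ℚ ≃ₐ[ℚ] AlgebraicClosure ℚ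
local notation "M2" => Matrix (Fin 2) (Fin 2)

namespace FA.CMImage

/-- A Frobenius moving `√d` makes `d` a non-square. -/
theorem not_isSquare_of_moves {d : ℤ} {q : ℕ} {A : ValuationSubring Qb} {σ : GQ} (hq : q.Prime)
    (hq2 : q ≠ 2) (hqd : ¬ (q : ℤ) ∣ d) (hA : A.LiesOverPrime q) (hσ : A.IsFrobeniusAt σ q)
    {s : Qb} (hs : s ^ 2 = (d : Qb)) (hmove : σ s = -s) : ¬ IsSquare ((d : ℤ) : ZMod q) := by
  intro hsq
  have h := (FA.CM.ClassOne.frobenius_fix_iff_int hq hq2 hqd hA hσ hs).mpr hsq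
  have h0 : s = 0 := by linear_combination (1 / 2 : Qb) * (hmove - h)
  rw [h0, zero_pow two_ne_zero] at hs
  exact hqd (by rw [show d = 0 from by exact_mod_cast hs.symm]; exact dvd_zero _)

/-- The sign of an element of Galois on `√d`. -/
def signHom {d : ℤ} (hd : d ≠ 0) {s : Qb} (hs : s ^ 2 = (d : Qb)) : GQ →* ℤˣ where
  toFun σ := if σ s = s then 1 else -1
  map_one' := if_pos rfl
  map_mul' σ τ := by
    have hne : -s ≠ s := fun e => hd (by
      have : s = 0 := by linear_combination -(1 / 2 : Qb) * e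
      rw [this, zero_pow two_ne_zero] at hs
      exact_mod_cast hs.symm)
    have hor : ∀ g : GQ, g s = s ∨ g s = -s := fun g =>
      sq_eq_sq_iff_eq_or_eq_neg.mp (by rw [← map_pow, hs, map_intCast])
    rw [AlgEquiv.mul_apply]
    rcases hor σ with h | h <;> rcases hor τ with h' | h' <;> simp [h, h', hne]

theorem signHom_eq_neg_one {d : ℤ} (hd : d ≠ 0) {s : Qb} (hs : s ^ 2 = (d : Qb)) {σ : GQ}
    (h : signHom hd hs σ = -1) : σ s = -s := by
  refine (sq_eq_sq_iff_eq_or_eq_neg.mp (by rw [← map_pow, hs, map_intCast])).resolve_left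
    fun e => ?_
  rw [show signHom hd hs σ = 1 from if_pos e] at h
  exact absurd h (by decide)

theorem isOpen_ker_signHom {d : ℤ} (hd : d ≠ 0) {s : Qb} (hs : s ^ 2 = (d : Qb)) :
    IsOpen ((signHom hd hs).ker : Set GQ) := by
  haveI : FiniteDimensional ℚ (IntermediateField.adjoin ℚ {s}) :=
    IntermediateField.adjoin.finiteDimensional (Algebra.IsIntegral.isIntegral s)
  refine Subgroup.isOpen_mono (H₁ := (IntermediateField.adjoin ℚ {s}).fixingSubgroup)
    (fun σ hσ => ?_) (IntermediateField.fixingSubgroup_isOpen _)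
  exact MonoidHom.mem_ker.mpr (if_pos ((IntermediateField.mem_fixingSubgroup_iff _ σ).mp hσ s
    (IntermediateField.subset_adjoin ℚ _ rfl)))

theorem exists_signHom_eq_neg_one {d : ℤ} (hd : d < 0) {s : Qb} (hs : s ^ 2 = (d : Qb)) :
    ∃ σ : GQ, signHom hd.ne hs σ = -1 := by
  by_contra hcon
  push Not at hcon
  obtain ⟨c, hc⟩ : s ∈ Set.range (algebraMap ℚ Qb) :=
    (InfiniteGalois.mem_range_algebraMap_iff_fixed s).mpr fun σ => by
      rcases Int.units_eq_one_or (signHom hd.ne hs σ) with h | h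
      · by_contra hne
        rw [show signHom hd.ne hs σ = -1 from if_neg hne] at h
        exact absurd h (by decide)
      · exact absurd h (hcon σ)
  rw [← hc, ← map_pow, ← map_intCast (algebraMap ℚ Qb)] at hs
  have h := (algebraMap ℚ Qb).injective hs
  have : (d : ℚ) < 0 := Int.cast_lt_zero.mpr hd
  nlinarith [sq_nonneg c]

variable {l : ℕ} [hl : Fact l.Prime]

/-- `diag (1, δ)`. -/
def detMat (δ : ZMod l) : M2 (ZMod l) := !![1, 0; 0, δ]

/-- **A character of the invertible matrices is a function of the determinant.** -/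
theorem eq_apply_detMat (hl2 : l ≠ 2) (f : M2 (ZMod l) → ℤˣ)
    (hf : ∀ M N : M2 (ZMod l), M.det ≠ 0 → N.det ≠ 0 → f (M * N) = f M * f N)
    (M : M2 (ZMod l)) (hM : M.det ≠ 0) : f M = f (detMat M.det) := by
  have h2 : (2 : ZMod l) ≠ 0 := fun e => hl2 ((Nat.prime_dvd_prime_iff_eq hl.out Nat.prime_two).mp
    ((ZMod.natCast_eq_zero_iff 2 l).mp (by exact_mod_cast e)))
  have hx : ∀ x : ZMod l, x / 2 + x / 2 = x := fun x => by field_simp; ring
  have hU : ∀ x : ZMod l, f !![1, x; 0, 1] = 1 := fun x => by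
    have e : !![1, x; 0, 1] = !![1, x / 2; 0, 1] * !![1, x / 2; 0, 1] := by
      ext i j; fin_cases i <;> fin_cases j <;> simp [hx]
    rw [e, hf _ _ (by simp [det_fin_two]) (by simp [det_fin_two]), Int.units_mul_self]
  have hL : ∀ x : ZMod l, f !![1, 0; x, 1] = 1 := fun x => by
    have e : !![1, 0; x, 1] = !![1, 0; x / 2, 1] * !![1, 0; x / 2, 1] := by
      ext i j; fin_cases i <;> fin_cases j <;> simp [hx]
    rw [e, hf _ _ (by simp [det_fin_two]) (by simp [det_fin_two]), Int.units_mul_self]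
  have hgen : ∀ N : M2 (ZMod l), N.det ≠ 0 → N 1 0 ≠ 0 → f N = f (detMat N.det) := fun N hN hc => by
    have e : N = !![1, (N 0 0 - 1) / N 1 0; 0, 1] * !![1, 0; N 1 0, 1] *
        !![1, (N 1 1 / N.det - 1) / N 1 0; 0, 1] * detMat N.det := by
      ext i j
      fin_cases i <;> fin_cases j <;> simp [detMat] <;> field_simp
      · ring
      · rw [det_fin_two]; ring
      · ring
    conv_lhs => rw [e]
    rw [hf _ _ (by rw [det_mul, det_mul]; simp [det_fin_two])
        (by simpa [det_fin_two, detMat] using hN),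
      hf _ _ (by simp [det_fin_two]) (by simp [det_fin_two]),
      hf _ _ (by simp [det_fin_two]) (by simp [det_fin_two]), hU, hL, hU, one_mul, one_mul, one_mul]
  by_cases hc : M 1 0 = 0
  · have h11 : M 1 1 ≠ 0 := fun h => hM (by rw [det_fin_two, hc, h]; ring)
    have h := hgen (M * !![1, 0; 1, 1]) (by simpa [det_fin_two] using hM)
      (by simpa [Matrix.mul_apply, hc] using h11)
    rw [hf _ _ hM (by simp [det_fin_two]), hL, mul_one, det_mul,
      show (!![1, 0; 1, 1] : M2 (ZMod l)).det = 1 by simp [det_fin_two], mul_one] at h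
    exact h
  · exact hgen M hM hc

theorem test_three : ((!![1, 1; 1, 0] : M2 (ZMod 3)).det ≠ 0 ∧
    ∀ δ : ZMod 3, δ ≠ 0 → (!![1, 1; 1, 0] : M2 (ZMod 3)).det ^ (if δ = 1 then 0 else 1) = δ) ∧
    (!![1, 1; 1, 0] : M2 (ZMod 3)) ^ 8 = 1 ∧
    ∀ j : Fin 8, j.val % 2 = 1 → ((!![1, 1; 1, 0] : M2 (ZMod 3)) ^ j.val).trace ≠ 0 := by
  decide +kernel

/-- An element with sign `-1` for every nontrivial character, no odd generating power of which has
trace zero. -/
theorem exists_test (hl2 : l ≠ 2) :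
    ∃ g : M2 (ZMod l), g.det ≠ 0 ∧ (∀ δ : ZMod l, δ ≠ 0 → ∃ i : ℕ, g.det ^ i = δ) ∧
      ∀ j k : ℕ, Odd j → g ^ (j * k) = g → (g ^ j).trace ≠ 0 := by
  rcases eq_or_ne l 3 with rfl | hl3
  · obtain ⟨⟨hdet, hgen⟩, h8, htr⟩ := test_three
    refine ⟨!![1, 1; 1, 0], hdet, fun δ hδ => ⟨_, hgen δ hδ⟩, fun j k hj _ => ?_⟩
    rw [pow_eq_pow_mod j h8]
    exact htr ⟨j % 8, Nat.mod_lt _ (by norm_num)⟩
      (show j % 8 % 2 = 1 by have := Nat.odd_iff.mp hj; omega)
  obtain ⟨r, hr⟩ := IsCyclic.exists_generator (α := (ZMod l)ˣ)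
  have hdet : (detMat (r : ZMod l)).det = r := by simp [detMat, det_fin_two]
  refine ⟨detMat r, by rw [hdet]; exact r.ne_zero, fun δ hδ => ?_, fun j k _ hjk => ?_⟩
  · obtain ⟨i, hi⟩ := mem_powers_iff_mem_zpowers.mpr (hr (Units.mk0 δ hδ))
    exact ⟨i, by rw [hdet, ← Units.val_pow_eq_pow_val]; exact congrArg Units.val hi⟩
  · have hpow : ∀ n : ℕ, detMat (r : ZMod l) ^ n = detMat ((r : ZMod l) ^ n) := fun n => by
      induction n with
      | zero => ext i j; fin_cases i <;> fin_cases j <;> simp [detMat]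
      | succ m ih =>
        rw [pow_succ, ih, pow_succ]
        ext i j; fin_cases i <;> fin_cases j <;> simp [detMat, Matrix.mul_apply]
    intro htr
    rw [hpow] at htr hjk
    have hj : (r : ZMod l) ^ j = -1 := by
      simp [detMat, trace_fin_two] at htr; linear_combination htr
    have hr' : (r : ZMod l) ^ (j * k) = r := by
      simpa [detMat] using congrFun (congrFun hjk 1) 1
    have hr2 : r ^ 2 = 1 := by
      ext
      rw [Units.val_pow_eq_pow_val, Units.val_one, ← hr', pow_mul, hj, ← pow_mul, mul_comm k,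
        pow_mul, neg_one_sq, one_pow]
    have hord := orderOf_eq_card_of_forall_mem_zpowers hr
    rw [Nat.card_eq_fintype_card, ZMod.card_units] at hord
    have := Nat.le_of_dvd two_pos (orderOf_dvd_of_pow_eq_one hr2)
    have := hl.out.two_le
    have h4 : l ≠ 4 := fun e => by have := hl.out; rw [e] at this; exact absurd this (by decide)
    omega

end FA.CMImage

namespace FA.Summary

open FA.CMImage

/-- **Galois does not induce every automorphism of the `l`-torsion of a CM curve**, for the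
thirteen values of `j` and every prime `l ≠ 2`. -/
theorem not_galoisSurjectiveTorsion_of_cm_all (E : WeierstrassCurve ℚ) [E.IsElliptic]
    [inst : DecidableEq (AlgebraicClosure ℚ)] {l : ℕ} (hl : l.Prime) (hl2 : l ≠ 2)
    (hj : E.j ∈ ({0, 54000, -12288000, 1728, 287496, -3375, 16581375, 8000, -32768, -884736,
      -884736000, -147197952000, -262537412640768000} : Finset ℚ)) :
    ¬ ∀ φ : Submodule.torsionBy ℤ (E.toAffine⁄(AlgebraicClosure ℚ)).Point (l : ℤ) ≃+
        Submodule.torsionBy ℤ (E.toAffine⁄(AlgebraicClosure ℚ)).Point (l : ℤ),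
      ∃ σ : AlgebraicClosure ℚ ≃ₐ[ℚ] AlgebraicClosure ℚ, ∀ P,
        Affine.Point.map σ.toAlgHom P.1 = (φ P).1 := by
  obtain rfl : inst = instDecEqAlgebraicClosureRat := Subsingleton.elim _ _
  intro hall
  haveI := Fact.mk hl
  obtain ⟨d, hd, hpair⟩ : ∃ d : ℤ, d < 0 ∧ (E.j, d) ∈ ({(0, -3), (54000, -3), (-12288000, -3),
      (1728, -4), (287496, -4), (-3375, -7), (16581375, -7), (8000, -8), (-32768, -11),
      (-884736, -19), (-884736000, -43), (-147197952000, -67),
      (-262537412640768000, -163)} : Finset (ℚ × ℤ)) := by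
    simp only [Finset.mem_insert, Finset.mem_singleton] at hj
    rcases hj with hj | hj | hj | hj | hj | hj | hj | hj | hj | hj | hj | hj | hj
    exacts [⟨-3, by norm_num, by simp [hj]⟩, ⟨-3, by norm_num, by simp [hj]⟩,
      ⟨-3, by norm_num, by simp [hj]⟩, ⟨-4, by norm_num, by simp [hj]⟩,
      ⟨-4, by norm_num, by simp [hj]⟩, ⟨-7, by norm_num, by simp [hj]⟩,
      ⟨-7, by norm_num, by simp [hj]⟩, ⟨-8, by norm_num, by simp [hj]⟩,
      ⟨-11, by norm_num, by simp [hj]⟩, ⟨-19, by norm_num, by simp [hj]⟩,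
      ⟨-43, by norm_num, by simp [hj]⟩, ⟨-67, by norm_num, by simp [hj]⟩,
      ⟨-163, by norm_num, by simp [hj]⟩]
  obtain ⟨W, hW⟩ := FA.Frob.exists_integralModel E
  haveI := FA.Frob.ratCurve_isElliptic_of_Δ (FA.Frob.Δ_ne_zero_of_model hW)
  obtain ⟨e, he⟩ := FA.Root.exists_equiv_of_model hW
  -- every invertible matrix is the image of an element of Galois
  have hsurj : ∀ M : M2 (ZMod l), M.det ≠ 0 → ∃ σ : GQ, curveRep l W σ = M := by
    intro M hM
    let T := Submodule.torsionBy ℤ ((ratCurve W)⁄Qb).Point (l : ℤ)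
    let TE := Submodule.torsionBy ℤ (E.toAffine⁄Qb).Point (l : ℤ)
    let eT : T ≃+ TE :=
      { toFun := fun P => ⟨e P.1, (Submodule.mem_torsionBy_iff _ _).mpr (by
          rw [← map_zsmul, (Submodule.mem_torsionBy_iff _ _).mp P.2, map_zero])⟩
        invFun := fun P => ⟨e.symm P.1, (Submodule.mem_torsionBy_iff _ _).mpr (by
          rw [← map_zsmul, (Submodule.mem_torsionBy_iff _ _).mp P.2, map_zero])⟩
        left_inv := fun P => Subtype.ext (e.symm_apply_apply _)
        right_inv := fun P => Subtype.ext (e.apply_symm_apply _)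
        map_add' := fun P Q => Subtype.ext (map_add e _ _) }
    set b := torsBasis (p := l) W
    obtain ⟨L, hL⟩ : ∃ L : T ≃ₗ[ZMod l] T, LinearMap.toMatrix b b L.toLinearMap = M :=
      ⟨Matrix.toLinearEquiv b M (isUnit_iff_ne_zero.mpr hM), LinearMap.toMatrix_toLin b b M⟩
    obtain ⟨σ, hσ⟩ := hall ((eT.symm.trans L.toAddEquiv).trans eT)
    refine ⟨σ, ?_⟩
    rw [curveRep_apply, ← hL]
    congr 1
    refine LinearMap.ext fun x => Subtype.ext (e.injective ?_)
    refine ((he σ x.1).trans (hσ (eT x))).trans ?_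
    simp [eT]
  -- an element moving `√d` all whose generating powers have nonzero trace
  obtain ⟨s, hs⟩ := IsAlgClosed.exists_pow_nat_eq (d : Qb) two_pos
  set χ := signHom hd.ne hs with hχdef
  obtain ⟨τ, hτ, htr⟩ : ∃ τ : GQ, χ τ = -1 ∧
      ∀ j k : ℕ, Odd j → curveRep l W τ ^ (j * k) = curveRep l W τ →
        (curveRep l W τ ^ j).trace ≠ 0 := by
    by_cases hA : ∃ τ, curveRep l W τ = 1 ∧ χ τ = -1
    · obtain ⟨τ, h1, h2⟩ := hA
      refine ⟨τ, h2, fun j k _ _ => ?_⟩
      rw [h1, one_pow, trace_one, Fintype.card_fin]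
      intro h0
      exact hl2 ((Nat.prime_dvd_prime_iff_eq hl Nat.prime_two).mp
        ((ZMod.natCast_eq_zero_iff 2 l).mp h0))
    push Not at hA
    choose pre hpre using hsurj
    have hwd : ∀ a b : GQ, curveRep l W a = curveRep l W b → χ a = χ b := fun a b h => by
      have h1 : curveRep l W (a⁻¹ * b) = 1 := by
        rw [map_mul, ← h, ← map_mul, inv_mul_cancel, map_one]
      have h2 := (Int.units_eq_one_or (χ (a⁻¹ * b))).resolve_right (hA _ h1)
      rwa [map_mul, map_inv, inv_mul_eq_one] at h2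
    let f : M2 (ZMod l) → ℤˣ := fun M => if h : M.det ≠ 0 then χ (pre M h) else 1
    have hf : ∀ M N : M2 (ZMod l), M.det ≠ 0 → N.det ≠ 0 → f (M * N) = f M * f N := by
      intro M N hM hN
      have hMN : (M * N).det ≠ 0 := by rw [det_mul]; exact mul_ne_zero hM hN
      simp only [f, dif_pos hM, dif_pos hN, dif_pos hMN, ← map_mul]
      exact hwd _ _ (by rw [map_mul, hpre, hpre, hpre])
    obtain ⟨g, hg, hgen, htr⟩ := exists_test (l := l) hl2
    refine ⟨pre g hg, ?_, by rw [hpre]; exact htr⟩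
    obtain ⟨τ, hτ⟩ := exists_signHom_eq_neg_one hd hs
    rcases Int.units_eq_one_or (χ (pre g hg)) with h1 | h1
    · exfalso
      have hdet : (curveRep l W τ).det ≠ 0 := fun h0 => by
        have := congrArg Matrix.det (map_mul (curveRep l W) τ τ⁻¹)
        rw [mul_inv_cancel, map_one, det_one, det_mul, h0, zero_mul] at this
        exact one_ne_zero this
      obtain ⟨i, hi⟩ := hgen _ hdet
      have hgi : (g ^ i).det ≠ 0 := by rw [det_pow]; exact pow_ne_zero i hg
      have e1 : f (curveRep l W τ) = χ τ := by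
        simp only [f, dif_pos hdet]; exact hwd _ _ (hpre _ _)
      have e2 : f (g ^ i) = 1 := by
        simp only [f, dif_pos hgi]
        rw [hwd _ (pre g hg ^ i) (by rw [hpre, map_pow, hpre]), map_pow, h1, one_pow]
      have e3 : f (curveRep l W τ) = f (g ^ i) := by
        rw [eq_apply_detMat hl2 f hf _ hdet, eq_apply_detMat hl2 f hf _ hgi, det_pow, hi]
      rw [e1, e2, hτ] at e3
      exact absurd e3 (by decide)
    · exact h1
  -- a Frobenius generating the same subgroup
  let N : Subgroup GQ := (curveRep l W).ker ⊓ χ.ker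
  have hNn : N.Normal := ⟨fun n hn g => Subgroup.mem_inf.mpr
    ⟨(curveRep l W).normal_ker.conj_mem n (Subgroup.mem_inf.mp hn).1 g,
      χ.normal_ker.conj_mem n (Subgroup.mem_inf.mp hn).2 g⟩⟩
  obtain ⟨q, A, σ, k, hq, hqS, hA, hσ, hk, j, hjσ⟩ := FA.Density.exists_frobenius_generating N
    ((isOpen_ker_curveRep W).inter (isOpen_ker_signHom hd.ne hs)) τ
    (insert 2 (insert l (W.Δ.natAbs.divisors ∪ d.natAbs.divisors)))
  simp only [Finset.mem_insert, Finset.mem_union, not_or, Nat.mem_divisors, ne_eq,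
    Int.natAbs_eq_zero, FA.Frob.Δ_ne_zero_of_model hW, hd.ne, not_false_eq_true, and_true] at hqS
  obtain ⟨hq2, hql, hqΔ, hqd⟩ := hqS
  obtain ⟨hk1, hk2⟩ := Subgroup.mem_inf.mp hk
  obtain ⟨hj1, hj2⟩ := Subgroup.mem_inf.mp hjσ
  rw [MonoidHom.mem_ker, map_mul, map_inv, inv_mul_eq_one, map_pow] at hk2 hj2
  rw [hτ] at hk2 hj2
  have hσχ : χ σ = -1 := (Int.units_eq_one_or (χ σ)).resolve_left fun h => by
    rw [h, one_pow] at hk2; exact absurd hk2 (by decide)
  have hjodd : Odd j := by
    rcases Nat.even_or_odd j with he' | ho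
    · rw [he'.neg_one_pow, hσχ] at hj2; exact absurd hj2 (by decide)
    · exact ho
  have hcan : ∀ a b : GQ, a⁻¹ * b ∈ (curveRep l W).ker → curveRep l W b = curveRep l W a :=
    fun a b h => by
      rw [show b = a * (a⁻¹ * b) by group, map_mul, MonoidHom.mem_ker.mp h, mul_one]
  have eσ := hcan _ _ hj1
  have eτ := hcan _ _ hk1
  rw [map_pow] at eσ eτ
  have hgood : ¬ (q : ℤ) ∣ W.Δ := fun h => hqΔ (Int.natCast_dvd.mp h)
  have ha := lFunction_eq_zero_of_inert E hpair hq
    (not_isSquare_of_moves hq hq2 (fun h => hqd (Int.natCast_dvd.mp h)) hA hσ hs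
      (signHom_eq_neg_one hd.ne hs hσχ))
  rw [FA.Root.LFunction_apply_prime E W hW hq hgood] at ha
  have htσ := (FA.Ribet.curveRep_frobenius (p := l) hq hql hgood hA hσ).1
  rw [ha, Int.cast_zero, eσ] at htσ
  exact htr j k hjodd (by rw [pow_mul, ← eσ, ← eτ]) htσ

/-- **Serre's adelic open image theorem fails with complex multiplication**, for the thirteen
values of `j`. -/
theorem not_serreOpenImage_adelic_of_cm_all (E : WeierstrassCurve ℚ) [E.IsElliptic]
    [inst : DecidableEq (AlgebraicClosure ℚ)]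
    (hj : E.j ∈ ({0, 54000, -12288000, 1728, 287496, -3375, 16581375, 8000, -32768, -884736,
      -884736000, -147197952000, -262537412640768000} : Finset ℚ)) :
    ¬ ∃ m : ℕ, 0 < m ∧ ∀ (N : ℕ), N ≠ 0 →
      ∀ φ : Submodule.torsionBy ℤ (E.toAffine⁄(AlgebraicClosure ℚ)).Point (N : ℤ) ≃+
        Submodule.torsionBy ℤ (E.toAffine⁄(AlgebraicClosure ℚ)).Point (N : ℤ),
      (∀ P, m • P.1 = 0 → φ P = P) →
        ∃ σ : AlgebraicClosure ℚ ≃ₐ[ℚ] AlgebraicClosure ℚ, ∀ P,
          Affine.Point.map σ.toAlgHom P.1 = (φ P).1 := by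
  rintro ⟨m, hm, key⟩
  obtain ⟨l, hl, hlp⟩ := Nat.exists_infinite_primes (m + 3)
  refine not_galoisSurjectiveTorsion_of_cm_all E hlp (by omega) hj fun φ =>
    key l hlp.ne_zero φ fun P hP => ?_
  have hl0 : l • P.1 = 0 := by
    rw [← natCast_zsmul]; exact (Submodule.mem_torsionBy_iff _ _).mp P.2
  have hcop : l.Coprime m := hlp.coprime_iff_not_dvd.mpr fun hd => by
    have := Nat.le_of_dvd hm hd; omega
  obtain rfl : P = 0 := Subtype.ext (AddMonoid.addOrderOf_eq_one_iff.mp (Nat.eq_one_of_dvd_coprimes hcop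
    (addOrderOf_dvd_iff_nsmul_eq_zero.mpr hl0) (addOrderOf_dvd_iff_nsmul_eq_zero.mpr hP)))
  exact map_zero φ

end FA.Summary

end
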