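import Fermat.Agent.OpenImageJ.Main
import Fermat.Agent.Root.SummarySerreFiniteIndex

/-!
# Serre's open image theorem for a non-integral invariant

For every elliptic curve over `ℚ` whose invariant is not an integer, with no condition on the
reduction, one `m` is such that Galois induces every automorphism of the `N`-torsion fixing the
points killed by `m`, for all `N`; so the image on every `p`-power torsion is open and the image on
all torsion has finite index.
-/

set_option autoImplicit false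
set_option linter.unusedSectionVars false
set_option linter.style.haveILetI false

noncomputable section

open WeierstrassCurve WeierstrassCurve.Affine FA.EC FA.Frob FA.RT
open scoped WeierstrassCurve.Affine

namespace FA.OpenImage

/-- One level for all `N` gives one for the powers of each prime. -/
theorem exists_primePow_level_of_adelic (E : WeierstrassCurve ℚ) [E.IsElliptic] {m : ℕ} (hm : 0 < m)
    (key : ∀ N : ℕ, N ≠ 0 →
      ∀ φ : Submodule.torsionBy ℤ (E.toAffine⁄(AlgebraicClosure ℚ)).Point (N : ℤ) ≃+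
        Submodule.torsionBy ℤ (E.toAffine⁄(AlgebraicClosure ℚ)).Point (N : ℤ),
      (∀ P, m • P.1 = 0 → φ P = P) →
        ∃ σ : AlgebraicClosure ℚ ≃ₐ[ℚ] AlgebraicClosure ℚ, ∀ P,
          Affine.Point.map σ.toAlgHom P.1 = (φ P).1) {p : ℕ} (hp : p.Prime) :
    ∃ k : ℕ, ∀ (n : ℕ)
      (φ : Submodule.torsionBy ℤ (E.toAffine⁄(AlgebraicClosure ℚ)).Point ((p : ℤ) ^ n) ≃+
        Submodule.torsionBy ℤ (E.toAffine⁄(AlgebraicClosure ℚ)).Point ((p : ℤ) ^ n)),
      (∀ P, p ^ k • P.1 = 0 → φ P = P) →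
        ∃ σ : AlgebraicClosure ℚ ≃ₐ[ℚ] AlgebraicClosure ℚ, ∀ P,
          Affine.Point.map σ.toAlgHom P.1 = (φ P).1 := by
  refine ⟨m.factorization p, fun n => ?_⟩
  rw [show ((p : ℤ) ^ n) = ((p ^ n : ℕ) : ℤ) from (Nat.cast_pow p n).symm]
  intro φ hφ
  refine key (p ^ n) (pow_ne_zero _ hp.ne_zero) φ fun P hP => hφ P ?_
  have h1 : p ^ n • P.1 = 0 := by
    rw [← natCast_zsmul]
    exact (Submodule.mem_torsionBy_iff _ _).mp P.2
  obtain ⟨i, -, hi⟩ := (Nat.dvd_prime_pow hp).mp (addOrderOf_dvd_of_nsmul_eq_zero h1)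
  have hle : i ≤ m.factorization p :=
    (hp.pow_dvd_iff_le_factorization hm.ne').mp (hi ▸ addOrderOf_dvd_of_nsmul_eq_zero hP)
  exact addOrderOf_dvd_iff_nsmul_eq_zero.mp (hi ▸ Nat.pow_dvd_pow p hle)

end FA.OpenImage

namespace FA.Summary

/-- **Serre's open image theorem, adelic form, for a non-integral invariant**: if `j` has a pole,
some `m` is such that for every `N ≠ 0` Galois induces every automorphism of the `N`-torsion
fixing the points killed by `m`. -/
theorem serreOpenImage_adelic_of_pole (E : WeierstrassCurve ℚ) [E.IsElliptic]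
    (h : ∃ q : ℕ, q.Prime ∧ padicValRat q E.j < 0) [inst : DecidableEq (AlgebraicClosure ℚ)] :
    ∃ m : ℕ, 0 < m ∧ ∀ (N : ℕ), N ≠ 0 →
      ∀ φ : Submodule.torsionBy ℤ (E.toAffine⁄(AlgebraicClosure ℚ)).Point (N : ℤ) ≃+
        Submodule.torsionBy ℤ (E.toAffine⁄(AlgebraicClosure ℚ)).Point (N : ℤ),
      (∀ P, m • P.1 = 0 → φ P = P) →
        ∃ σ : AlgebraicClosure ℚ ≃ₐ[ℚ] AlgebraicClosure ℚ, ∀ P,
          Affine.Point.map σ.toAlgHom P.1 = (φ P).1 := by
  obtain rfl : inst = instDecEqAlgebraicClosureRat := Subsingleton.elim _ _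
  obtain ⟨d, hd, W, hW, hpole⟩ := FA.OggShafarevich.exists_twist_multiplicative_poles E h
  haveI := FA.Root.quadTwist_isElliptic E hd
  haveI := FA.Frob.ratCurve_isElliptic_of_Δ (FA.Frob.Δ_ne_zero_of_model hW)
  have hj := FA.OggShafarevich.quadTwist_j E hd
  obtain ⟨m, hm, key⟩ := FA.OpenImageJ.exists_uniform_level hW
    (fun q hq hq' => hpole q hq (hj ▸ hq')) (by rwa [hj])
  exact FA.OpenImage.exists_level_of_twist E hd hW hm fun N hN =>
    FA.Root.exists_map_eq_of_model_fix hW _ _ (key N hN)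

/-- **Serre's open image theorem for a non-integral invariant**: for every prime `p` some `k` is
such that, for every `n`, Galois induces every automorphism of the `p ^ n`-torsion fixing the
points killed by `p ^ k`. -/
theorem serreOpenImage_of_pole (E : WeierstrassCurve ℚ) [E.IsElliptic]
    (h : ∃ q : ℕ, q.Prime ∧ padicValRat q E.j < 0) [inst : DecidableEq (AlgebraicClosure ℚ)]
    {p : ℕ} (hp : p.Prime) :
    ∃ k : ℕ, ∀ (n : ℕ)
      (φ : Submodule.torsionBy ℤ (E.toAffine⁄(AlgebraicClosure ℚ)).Point ((p : ℤ) ^ n) ≃+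
        Submodule.torsionBy ℤ (E.toAffine⁄(AlgebraicClosure ℚ)).Point ((p : ℤ) ^ n)),
      (∀ P, p ^ k • P.1 = 0 → φ P = P) →
        ∃ σ : AlgebraicClosure ℚ ≃ₐ[ℚ] AlgebraicClosure ℚ, ∀ P,
          Affine.Point.map σ.toAlgHom P.1 = (φ P).1 := by
  obtain rfl : inst = instDecEqAlgebraicClosureRat := Subsingleton.elim _ _
  obtain ⟨m, hm, key⟩ := serreOpenImage_adelic_of_pole E h
  exact FA.OpenImage.exists_primePow_level_of_adelic E hm key hp

/-- **Finite index**: for a non-integral invariant the image of Galois in the automorphisms of all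
torsion points has finite index. -/
theorem serreFiniteIndex_of_pole (E : WeierstrassCurve ℚ) [E.IsElliptic]
    (h : ∃ q : ℕ, q.Prime ∧ padicValRat q E.j < 0) [inst : DecidableEq (AlgebraicClosure ℚ)] :
    ∃ ρ : (AlgebraicClosure ℚ ≃ₐ[ℚ] AlgebraicClosure ℚ) →*
        (AddCommGroup.torsion (E.toAffine⁄(AlgebraicClosure ℚ)).Point ≃ₗ[ℤ]
          AddCommGroup.torsion (E.toAffine⁄(AlgebraicClosure ℚ)).Point),
      (∀ σ x, (ρ σ x).1 = Affine.Point.map σ.toAlgHom x.1) ∧ ρ.range.FiniteIndex := by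
  obtain rfl : inst = instDecEqAlgebraicClosureRat := Subsingleton.elim _ _
  obtain ⟨m, hm, key⟩ := serreOpenImage_adelic_of_pole E h
  exact ⟨FA.OpenImage.torsionAction E, fun _ _ => rfl, FA.OpenImage.finiteIndex_range E hm key⟩

/-- The hypothesis says that `j` is not an integer. -/
theorem serreFiniteIndex_of_nonintegral (E : WeierstrassCurve ℚ) [E.IsElliptic]
    (h : E.j.den ≠ 1) [DecidableEq (AlgebraicClosure ℚ)] :
    ∃ ρ : (AlgebraicClosure ℚ ≃ₐ[ℚ] AlgebraicClosure ℚ) →*
        (AddCommGroup.torsion (E.toAffine⁄(AlgebraicClosure ℚ)).Point ≃ₗ[ℤ]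
          AddCommGroup.torsion (E.toAffine⁄(AlgebraicClosure ℚ)).Point),
      (∀ σ x, (ρ σ x).1 = Affine.Point.map σ.toAlgHom x.1) ∧ ρ.range.FiniteIndex := by
  obtain ⟨q, hq, hd⟩ := Nat.exists_prime_and_dvd h
  refine serreFiniteIndex_of_pole E ⟨q, hq, ?_⟩
  haveI := Fact.mk hq
  have hn : ¬ (q : ℤ) ∣ E.j.num := fun hc => hq.not_dvd_one
    (E.j.reduced ▸ Nat.dvd_gcd (Int.natCast_dvd.mp hc) hd)
  have h1 := one_le_padicValNat_of_dvd (p := q) E.j.den_nz hd
  rw [padicValRat.eq_def, padicValInt.eq_zero_of_not_dvd hn]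
  omega

end FA.Summary

end
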