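import Fermat.Agent.OpenImageAll.Main
import Fermat.Agent.Root.SummaryOpenImageJ
import Fermat.Agent.Root.SummarySerreDichotomy
import Fermat.Agent.Root.SummarySupersingularDensity

/-!
# Serre's open image theorem for every elliptic curve over `ℚ`

For every elliptic curve over `ℚ` the image of Galois on all torsion is open exactly when there is
no quadratic field `ℚ(√d)` with `a_l = 0` at all odd good primes inert in it, exactly when Galois
is onto `Aut E[p]` for all large primes `p`. In particular the image is then open on the `p`-power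
torsion for every `p` and of finite index in the automorphisms of all torsion. (That the
exceptional curves are those with complex multiplication is not formalised.)
-/

set_option autoImplicit false
set_option linter.unusedSectionVars false
set_option linter.style.haveILetI false

noncomputable section

open WeierstrassCurve WeierstrassCurve.Affine FA.EC FA.Frob FA.RT
open scoped WeierstrassCurve.Affine

local notation "Qb" => AlgebraicClosure ℚ
local notation "GQ" => AlgebraicClosure ℚ ≃ₐ[ℚ] AlgebraicClosure ℚ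

namespace FA.OpenImageAll

/-- Surjectivity on the torsion of large prime order gives it for every model. -/
theorem surjectiveLarge_of_torsion {E : WeierstrassCurve ℚ} [E.IsElliptic] {W : WeierstrassCurve ℤ}
    [(ratCurve W).IsElliptic] (hW : W.IsIntegralModelOf E)
    (h : ∃ M : ℕ, ∀ p : ℕ, p.Prime → M < p →
      ∀ φ : Submodule.torsionBy ℤ (E.toAffine⁄Qb).Point (p : ℤ) ≃+
        Submodule.torsionBy ℤ (E.toAffine⁄Qb).Point (p : ℤ),
        ∃ σ : GQ, ∀ P, Affine.Point.map σ.toAlgHom P.1 = (φ P).1) :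
    SurjectiveLarge W := by
  obtain ⟨M, hM⟩ := h
  exact ⟨M, fun q hq hlt X hX =>
    FA.Supersingular.exists_curveRep_eq_of_surjective hW (fun φ => hM q hq.out hlt φ) hX⟩

/-- The adelic open image gives surjectivity at the primes not dividing the level. -/
theorem torsion_surjective_of_adelic {E : WeierstrassCurve ℚ} [E.IsElliptic] {m : ℕ} (hm : 0 < m)
    (key : ∀ N : ℕ, N ≠ 0 →
      ∀ φ : Submodule.torsionBy ℤ (E.toAffine⁄Qb).Point (N : ℤ) ≃+
        Submodule.torsionBy ℤ (E.toAffine⁄Qb).Point (N : ℤ),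
      (∀ P, m • P.1 = 0 → φ P = P) →
        ∃ σ : GQ, ∀ P, Affine.Point.map σ.toAlgHom P.1 = (φ P).1) :
    ∃ M : ℕ, ∀ p : ℕ, p.Prime → M < p →
      ∀ φ : Submodule.torsionBy ℤ (E.toAffine⁄Qb).Point (p : ℤ) ≃+
        Submodule.torsionBy ℤ (E.toAffine⁄Qb).Point (p : ℤ),
        ∃ σ : GQ, ∀ P, Affine.Point.map σ.toAlgHom P.1 = (φ P).1 := by
  refine ⟨m, fun l hl hlt φ => key l hl.ne_zero φ fun P hP => ?_⟩
  have hl0 : l • P.1 = 0 := by
    rw [← natCast_zsmul]; exact (Submodule.mem_torsionBy_iff _ _).mp P.2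
  have hcop : l.Coprime m := hl.coprime_iff_not_dvd.mpr fun hd => by
    have := Nat.le_of_dvd hm hd; omega
  obtain rfl : P = 0 := Subtype.ext (AddMonoid.addOrderOf_eq_one_iff.mp
    (Nat.eq_one_of_dvd_coprimes hcop (addOrderOf_dvd_iff_nsmul_eq_zero.mpr hl0)
      (addOrderOf_dvd_iff_nsmul_eq_zero.mpr hP)))
  exact map_zero φ

end FA.OpenImageAll

namespace FA.Summary

/-- **Serre's open image theorem, adelic form, for every elliptic curve over `ℚ`**: if every
quadratic field has an inert good prime with `a_l ≠ 0`, some `m` is such that for every `N ≠ 0`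
Galois induces every automorphism of the `N`-torsion fixing the points killed by `m`. -/
theorem serreOpenImage_adelic_of_traces (E : WeierstrassCurve ℚ) [E.IsElliptic]
    [inst : DecidableEq (AlgebraicClosure ℚ)]
    (h : ∀ d : ℤ, Squarefree d → d ≠ 1 → ∃ (l : ℕ) (_ : Fact l.Prime),
      (∃ C : VariableChange ℚ_[l],
        HasGoodReduction ℤ_[l] (C • E.map (algebraMap ℚ ℚ_[l]))) ∧
      ¬ IsSquare (d : ZMod l) ∧ E.LFunction l ≠ 0) :
    ∃ m : ℕ, 0 < m ∧ ∀ (N : ℕ), N ≠ 0 →
      ∀ φ : Submodule.torsionBy ℤ (E.toAffine⁄(AlgebraicClosure ℚ)).Point (N : ℤ) ≃+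
        Submodule.torsionBy ℤ (E.toAffine⁄(AlgebraicClosure ℚ)).Point (N : ℤ),
      (∀ P, m • P.1 = 0 → φ P = P) →
        ∃ σ : AlgebraicClosure ℚ ≃ₐ[ℚ] AlgebraicClosure ℚ, ∀ P,
          Affine.Point.map σ.toAlgHom P.1 = (φ P).1 := by
  obtain rfl : inst = instDecEqAlgebraicClosureRat := Subsingleton.elim _ _
  by_cases hj : ∃ q : ℕ, q.Prime ∧ padicValRat q E.j < 0
  · exact serreOpenImage_adelic_of_pole E hj
  push Not at hj
  obtain ⟨W, hW⟩ := FA.Frob.exists_integralModel E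
  haveI := FA.Frob.ratCurve_isElliptic_of_Δ (FA.Frob.Δ_ne_zero_of_model hW)
  have hjW : (ratCurve W).j = E.j := FA.OggShafarevich.j_ratCurve hW
  obtain ⟨M, hM⟩ := galoisSurjectiveTorsion_large_of_traces E h
  obtain ⟨m, hm, key⟩ := FA.OpenImageAll.exists_uniform_level (W := W) (fun q hq => hjW ▸ hj q hq)
    (FA.OpenImageAll.surjectiveLarge_of_torsion hW ⟨M, fun p hp hlt => by
      have := hM p hp hlt 1
      rwa [pow_one] at this⟩)
  exact ⟨m, hm, fun N hN => FA.Root.exists_map_eq_of_model_fix hW _ _ (key N hN)⟩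

/-- **The open image excludes a quadratic field with vanishing traces at its inert primes.** -/
theorem exists_inert_trace_ne_zero (E : WeierstrassCurve ℚ) [E.IsElliptic]
    [inst : DecidableEq (AlgebraicClosure ℚ)]
    (h : ∃ M : ℕ, ∀ p : ℕ, p.Prime → M < p →
      ∀ φ : Submodule.torsionBy ℤ (E.toAffine⁄(AlgebraicClosure ℚ)).Point (p : ℤ) ≃+
        Submodule.torsionBy ℤ (E.toAffine⁄(AlgebraicClosure ℚ)).Point (p : ℤ),
        ∃ σ : AlgebraicClosure ℚ ≃ₐ[ℚ] AlgebraicClosure ℚ, ∀ P,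
          Affine.Point.map σ.toAlgHom P.1 = (φ P).1)
    {d : ℤ} (hd : Squarefree d) (hd1 : d ≠ 1) :
    ∃ (l : ℕ) (_ : Fact l.Prime),
      (∃ C : VariableChange ℚ_[l],
        HasGoodReduction ℤ_[l] (C • E.map (algebraMap ℚ ℚ_[l]))) ∧
      ¬ IsSquare (d : ZMod l) ∧ E.LFunction l ≠ 0 := by
  obtain rfl : inst = instDecEqAlgebraicClosureRat := Subsingleton.elim _ _
  obtain ⟨W, hW⟩ := FA.Frob.exists_integralModel E
  haveI := FA.Frob.ratCurve_isElliptic_of_Δ (FA.Frob.Δ_ne_zero_of_model hW)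
  obtain ⟨s, H, hs, hH, hopen, hfix⟩ := FA.OpenImageAll.exists_index_two_of_sqrt hd hd1
  obtain ⟨l, hl, hlS, hgood, hne, hF⟩ := FA.OpenImageAll.exists_frobenius_trace_ne
    (FA.OpenImageAll.surjectiveLarge_of_torsion hW h) hH hopen
    (insert 2 d.natAbs.primeFactors)
  simp only [Finset.mem_insert, not_or] at hlS
  haveI := Fact.mk hl
  obtain ⟨A, hA⟩ := FA.Deform.exists_liesOverPrime hl
  obtain ⟨F, hFr⟩ := FA.Deform.exists_isFrobeniusAt hl hA
  refine ⟨l, ⟨hl⟩, ?_, FA.OpenImageAll.not_isSquare_of_frobenius_apply_ne hl hlS.1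
    (fun hdvd => hlS.2 (Nat.mem_primeFactors.mpr ⟨hl, Int.natCast_dvd.mp hdvd,
      Int.natAbs_ne_zero.mpr hd.ne_zero⟩)) hA hFr hs fun e => hF A hA F hFr ((hfix F).mpr e), ?_⟩
  · exact FA.Root.exists_good_of_model hW l hgood
  · rw [FA.Root.LFunction_apply_prime E W hW hl hgood]
    exact_mod_cast hne

/-- **Serre's open image theorem for every elliptic curve over `ℚ`**: the adelic image is open if
and only if no quadratic field has `a_l = 0` at all its inert good primes. -/
theorem serreOpenImage_adelic_iff (E : WeierstrassCurve ℚ) [E.IsElliptic]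
    [inst : DecidableEq (AlgebraicClosure ℚ)] :
    (∃ m : ℕ, 0 < m ∧ ∀ (N : ℕ), N ≠ 0 →
      ∀ φ : Submodule.torsionBy ℤ (E.toAffine⁄(AlgebraicClosure ℚ)).Point (N : ℤ) ≃+
        Submodule.torsionBy ℤ (E.toAffine⁄(AlgebraicClosure ℚ)).Point (N : ℤ),
      (∀ P, m • P.1 = 0 → φ P = P) →
        ∃ σ : AlgebraicClosure ℚ ≃ₐ[ℚ] AlgebraicClosure ℚ, ∀ P,
          Affine.Point.map σ.toAlgHom P.1 = (φ P).1) ↔
    ¬ ∃ d : ℤ, Squarefree d ∧ d ≠ 1 ∧ ∀ l : ℕ, ∀ [Fact l.Prime],
      (∃ C : VariableChange ℚ_[l],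
        HasGoodReduction ℤ_[l] (C • E.map (algebraMap ℚ ℚ_[l]))) →
      ¬ IsSquare (d : ZMod l) → E.LFunction l = 0 := by
  obtain rfl : inst = instDecEqAlgebraicClosureRat := Subsingleton.elim _ _
  constructor
  · rintro ⟨m, hm, key⟩ ⟨d, hd, hd1, h0⟩
    obtain ⟨l, hl, hgood, hns, hne⟩ := exists_inert_trace_ne_zero E
      (FA.OpenImageAll.torsion_surjective_of_adelic hm key) hd hd1
    exact hne (h0 l hgood hns)
  · intro hno
    refine serreOpenImage_adelic_of_traces E fun d hd hd1 => ?_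
    by_contra hc
    refine hno ⟨d, hd, hd1, fun l hl hgood hns => ?_⟩
    by_contra hne
    exact hc ⟨l, hl, hgood, hns, hne⟩

/-- **Open image if and only if full images at the large primes.** -/
theorem serreOpenImage_adelic_iff_surjective_large (E : WeierstrassCurve ℚ) [E.IsElliptic]
    [inst : DecidableEq (AlgebraicClosure ℚ)] :
    (∃ m : ℕ, 0 < m ∧ ∀ (N : ℕ), N ≠ 0 →
      ∀ φ : Submodule.torsionBy ℤ (E.toAffine⁄(AlgebraicClosure ℚ)).Point (N : ℤ) ≃+
        Submodule.torsionBy ℤ (E.toAffine⁄(AlgebraicClosure ℚ)).Point (N : ℤ),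
      (∀ P, m • P.1 = 0 → φ P = P) →
        ∃ σ : AlgebraicClosure ℚ ≃ₐ[ℚ] AlgebraicClosure ℚ, ∀ P,
          Affine.Point.map σ.toAlgHom P.1 = (φ P).1) ↔
    ∃ M : ℕ, ∀ p : ℕ, p.Prime → M < p →
      ∀ φ : Submodule.torsionBy ℤ (E.toAffine⁄(AlgebraicClosure ℚ)).Point (p : ℤ) ≃+
        Submodule.torsionBy ℤ (E.toAffine⁄(AlgebraicClosure ℚ)).Point (p : ℤ),
        ∃ σ : AlgebraicClosure ℚ ≃ₐ[ℚ] AlgebraicClosure ℚ, ∀ P,
          Affine.Point.map σ.toAlgHom P.1 = (φ P).1 := by
  obtain rfl : inst = instDecEqAlgebraicClosureRat := Subsingleton.elim _ _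
  exact ⟨fun ⟨m, hm, key⟩ => FA.OpenImageAll.torsion_surjective_of_adelic hm key, fun h =>
    serreOpenImage_adelic_of_traces E fun d hd hd1 => exists_inert_trace_ne_zero E h hd hd1⟩

/-- **Finite index**: if every quadratic field has an inert good prime with `a_l ≠ 0`, the image of
Galois in the automorphisms of all torsion points has finite index. -/
theorem serreFiniteIndex_of_traces (E : WeierstrassCurve ℚ) [E.IsElliptic]
    [inst : DecidableEq (AlgebraicClosure ℚ)]
    (h : ∀ d : ℤ, Squarefree d → d ≠ 1 → ∃ (l : ℕ) (_ : Fact l.Prime),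
      (∃ C : VariableChange ℚ_[l],
        HasGoodReduction ℤ_[l] (C • E.map (algebraMap ℚ ℚ_[l]))) ∧
      ¬ IsSquare (d : ZMod l) ∧ E.LFunction l ≠ 0) :
    ∃ ρ : (AlgebraicClosure ℚ ≃ₐ[ℚ] AlgebraicClosure ℚ) →*
        (AddCommGroup.torsion (E.toAffine⁄(AlgebraicClosure ℚ)).Point ≃ₗ[ℤ]
          AddCommGroup.torsion (E.toAffine⁄(AlgebraicClosure ℚ)).Point),
      (∀ σ x, (ρ σ x).1 = Affine.Point.map σ.toAlgHom x.1) ∧ ρ.range.FiniteIndex := by
  obtain rfl : inst = instDecEqAlgebraicClosureRat := Subsingleton.elim _ _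
  obtain ⟨m, hm, key⟩ := serreOpenImage_adelic_of_traces E h
  exact ⟨FA.OpenImage.torsionAction E, fun _ _ => rfl, FA.OpenImage.finiteIndex_range E hm key⟩

/-- **The open image at every prime**: under the same hypothesis, for every prime `p` some `k` is
such that, for every `n`, Galois induces every automorphism of the `p ^ n`-torsion fixing the
points killed by `p ^ k`. -/
theorem serreOpenImage_of_traces (E : WeierstrassCurve ℚ) [E.IsElliptic]
    [inst : DecidableEq (AlgebraicClosure ℚ)]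
    (h : ∀ d : ℤ, Squarefree d → d ≠ 1 → ∃ (l : ℕ) (_ : Fact l.Prime),
      (∃ C : VariableChange ℚ_[l],
        HasGoodReduction ℤ_[l] (C • E.map (algebraMap ℚ ℚ_[l]))) ∧
      ¬ IsSquare (d : ZMod l) ∧ E.LFunction l ≠ 0)
    {p : ℕ} (hp : p.Prime) :
    ∃ k : ℕ, ∀ (n : ℕ)
      (φ : Submodule.torsionBy ℤ (E.toAffine⁄(AlgebraicClosure ℚ)).Point ((p : ℤ) ^ n) ≃+
        Submodule.torsionBy ℤ (E.toAffine⁄(AlgebraicClosure ℚ)).Point ((p : ℤ) ^ n)),
      (∀ P, p ^ k • P.1 = 0 → φ P = P) →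
        ∃ σ : AlgebraicClosure ℚ ≃ₐ[ℚ] AlgebraicClosure ℚ, ∀ P,
          Affine.Point.map σ.toAlgHom P.1 = (φ P).1 := by
  obtain rfl : inst = instDecEqAlgebraicClosureRat := Subsingleton.elim _ _
  obtain ⟨m, hm, key⟩ := serreOpenImage_adelic_of_traces E h
  exact FA.OpenImage.exists_primePow_level_of_adelic E hm key hp

end FA.Summary

end
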