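import Fermat.Agent.Root.SummaryAbelianTorsion
import Fermat.Agent.Root.SummaryEndTorsion
import Fermat.Agent.Root.SummaryOpenImageAll

/-!
# Consequences of the open image for every elliptic curve over `ℚ`

If every quadratic field has an inert good prime with `a_l ≠ 0` the endomorphisms of the torsion
commuting with Galois over a number field are scalars. So a curve with complex multiplication over
some number field has a quadratic field with `a_l = 0` at all its inert good primes: one half of the
characterisation of the exceptional curves.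
-/

set_option autoImplicit false
set_option linter.unusedSectionVars false
set_option linter.style.haveILetI false

noncomputable section

open WeierstrassCurve WeierstrassCurve.Affine FA.EC FA.Frob FA.RT
open scoped WeierstrassCurve.Affine

namespace FA.Summary

/-- **The endomorphisms of the torsion are scalars** unless a quadratic field has vanishing
traces at its inert good primes. -/
theorem torsionEnd_scalar_of_traces (E : WeierstrassCurve ℚ) [E.IsElliptic]
    [inst : DecidableEq (AlgebraicClosure ℚ)]
    (h : ∀ d : ℤ, Squarefree d → d ≠ 1 → ∃ (l : ℕ) (_ : Fact l.Prime),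
      (∃ C : VariableChange ℚ_[l],
        HasGoodReduction ℤ_[l] (C • E.map (algebraMap ℚ ℚ_[l]))) ∧
      ¬ IsSquare (d : ZMod l) ∧ E.LFunction l ≠ 0)
    (K : IntermediateField ℚ (AlgebraicClosure ℚ)) [FiniteDimensional ℚ K]
    (φ : AddCommGroup.torsion (E.toAffine⁄(AlgebraicClosure ℚ)).Point →+
      AddCommGroup.torsion (E.toAffine⁄(AlgebraicClosure ℚ)).Point)
    (hφ : ∀ σ ∈ K.fixingSubgroup, ∀ x y, y.1 = Affine.Point.map σ.toAlgHom x.1 →
      (φ y).1 = Affine.Point.map σ.toAlgHom (φ x).1)
    {N : ℕ} (hN : N ≠ 0) : ∃ c : ℤ, ∀ x, N • x = 0 → φ x = c • x := by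
  obtain rfl : inst = instDecEqAlgebraicClosureRat := Subsingleton.elim _ _
  obtain ⟨m, hm, key⟩ := serreOpenImage_adelic_of_traces E h
  exact FA.EndTorsion.exists_scalar E hm key
    (FA.AbelianTorsion.index_fixingSubgroup_ne_zero K) φ hφ hN

/-- **Complex multiplication forces vanishing traces**: if over some number field an endomorphism
commuting with Galois on the torsion satisfies a quadratic equation without rational roots, some
quadratic field has `a_l = 0` at all its inert good primes. -/
theorem exists_trace_zero_of_complexMultiplication (E : WeierstrassCurve ℚ) [E.IsElliptic]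
    [inst : DecidableEq (AlgebraicClosure ℚ)]
    (K : IntermediateField ℚ (AlgebraicClosure ℚ)) [FiniteDimensional ℚ K]
    (φ : (E.toAffine⁄(AlgebraicClosure ℚ)).Point →+ (E.toAffine⁄(AlgebraicClosure ℚ)).Point)
    (hφ : ∀ σ ∈ K.fixingSubgroup, ∀ P, IsOfFinAddOrder P →
      φ (Affine.Point.map σ.toAlgHom P) = Affine.Point.map σ.toAlgHom (φ P))
    {a b : ℤ} (hsq : ¬ IsSquare (a ^ 2 - 4 * b))
    (hquad : ∀ P, IsOfFinAddOrder P → φ (φ P) + a • φ P + b • P = 0) :
    ∃ d : ℤ, Squarefree d ∧ d ≠ 1 ∧ ∀ l : ℕ, ∀ [Fact l.Prime],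
      (∃ C : VariableChange ℚ_[l],
        HasGoodReduction ℤ_[l] (C • E.map (algebraMap ℚ ℚ_[l]))) →
      ¬ IsSquare (d : ZMod l) → E.LFunction l = 0 := by
  obtain rfl : inst = instDecEqAlgebraicClosureRat := Subsingleton.elim _ _
  by_contra hno
  refine FA.EndTorsion.not_quadratic E
    (fun ψ hψ {_} hN => torsionEnd_scalar_of_traces E (fun d hd hd1 => ?_) K ψ hψ hN) φ hφ hsq hquad
  by_contra hc
  refine hno ⟨d, hd, hd1, fun l hl hgood hns => ?_⟩
  by_contra hne
  exact hc ⟨l, hl, hgood, hns, hne⟩

end FA.Summary

end
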