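import Fermat.Agent.Root.SummarySerreOpenImage
import Fermat.Agent.Root.SummaryTwists

/-!
# Only finitely many cyclic Galois stable subgroups

A semistable elliptic curve over `ℚ`, or a quadratic twist of one, has only finitely many finite
cyclic subgroups of its geometric points stable under Galois, hence finitely many cyclic isogenies
defined over `ℚ`: the open image moves every point of order `p ^ v` off the line it generates once
`v` exceeds the level at `p`, which is zero for `p ≥ 11`.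
-/

set_option autoImplicit false
set_option linter.unusedSectionVars false
set_option linter.style.haveILetI false

noncomputable section

open Matrix WeierstrassCurve WeierstrassCurve.Affine FA.EC FA.Frob FA.RT FA.RT.Tate
open scoped WeierstrassCurve.Affine

local notation "Qb" => AlgebraicClosure ℚ
local notation "GQ" => AlgebraicClosure ℚ ≃ₐ[ℚ] AlgebraicClosure ℚ

namespace FA.IsogenyBound

variable {W : WeierstrassCurve ℤ} [(ratCurve W).IsElliptic] {p : ℕ} [hp : Fact p.Prime]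

/-- A point of order `p ^ v` has a coordinate which is a unit. -/
theorem exists_isUnit_coord (B : TateBasis p W) {v : ℕ} (hv0 : 0 < v) {w : Fin 2 → ℤ_[p]}
    (hP : addOrderOf (B.φ v w) = p ^ v) : ∃ i, IsUnit (w i) := by
  by_contra hc
  push Not at hc
  choose z hz using fun i => FA.PadicImage.toZMod_eq_zero_iff.mp
    (not_not.mp fun h => hc i (FA.PadicImage.isUnit_iff_toZMod.mpr h))
  have h0 : p ^ (v - 1) • B.φ v w = 0 := by
    rw [← map_nsmul, ← map_zero (B.φ v)]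
    refine B.phi_eq_iff.mpr fun i => ?_
    rw [Pi.smul_apply, hz i, nsmul_eq_mul, Nat.cast_pow, ← mul_assoc, ← pow_succ,
      Nat.sub_add_cancel hv0, map_mul, map_pow, map_natCast, ← Nat.cast_pow, ZMod.natCast_self,
      zero_mul, Pi.zero_apply, map_zero]
  have hd := addOrderOf_dvd_of_nsmul_eq_zero h0
  rw [hP, Nat.pow_dvd_pow_iff_le_right hp.out.one_lt] at hd
  omega

/-- With level `k` a point of order `p ^ v` generating a stable subgroup has `v ≤ k`. -/
theorem le_of_stable (B : TateBasis p W) {k : ℕ}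
    (hk : ∀ Y : Matrix (Fin 2) (Fin 2) ℤ_[p],
      IsUnit (1 + (p : ℤ_[p]) ^ k • Y).det → ∃ σ, B.rep σ = 1 + (p : ℤ_[p]) ^ k • Y) {v : ℕ}
    {P : Pts W} (hP : addOrderOf P = p ^ v)
    (hst : ∀ σ : GQ, σ • P ∈ AddSubgroup.zmultiples P) : v ≤ k := by
  by_contra hlt
  have hv0 : 0 < v := by omega
  have hPv : p ^ v • P = 0 := by rw [← hP]; exact addOrderOf_nsmul_eq_zero P
  obtain ⟨w, rfl⟩ := B.surj v P hPv
  obtain ⟨i, hi⟩ := exists_isUnit_coord B hv0 hP
  -- move it in the other direction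
  obtain ⟨j, hji⟩ : ∃ j : Fin 2, j ≠ i := exists_ne i
  obtain ⟨σ, hσ⟩ := hk (Matrix.single j i 1) (by
    fin_cases i <;> fin_cases j <;> first
      | exact absurd rfl hji
      | simp [det_fin_two, Matrix.single])
  obtain ⟨t, ht⟩ := AddSubgroup.mem_zmultiples_iff.mp (hst σ)
  rw [B.rep_spec, hσ, ← map_zsmul] at ht
  have hc := fun l => B.phi_eq_iff.mp ht l
  have e1 := hc i
  have e2 := hc j
  simp only [add_mulVec, one_mulVec, smul_mulVec, Pi.add_apply, Pi.smul_apply, single_mulVec,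
    smul_eq_mul, one_mul, Function.update_self, zsmul_eq_mul, map_mul, map_add, map_intCast,
    Function.update_of_ne hji.symm, Pi.zero_apply, mul_zero, add_zero, map_pow,
    map_natCast] at e1 e2
  obtain ⟨u, hu⟩ := (hi.map (PadicInt.toZModPow v)).exists_left_inv
  have ht1 : (t : ZMod (p ^ v)) = 1 := by linear_combination u * e1 + (1 - (t : ZMod (p ^ v))) * hu
  have hk0 : ((p ^ k : ℕ) : ZMod (p ^ v)) = 0 := by
    push_cast
    rw [ht1] at e2
    linear_combination -u * e2 - (p : ZMod (p ^ v)) ^ k * hu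
  have hd := (ZMod.natCast_eq_zero_iff _ _).mp hk0
  rw [Nat.pow_dvd_pow_iff_le_right hp.out.one_lt] at hd
  omega

/-- The orders of points generating stable subgroups divide one number. -/
theorem exists_stable_bound (hlevels : ∃ m : ℕ, 0 < m ∧ ∀ (l : ℕ) [Fact l.Prime],
    ∃ (k : ℕ) (B : TateBasis l W), l ^ k ∣ m ∧
      ∀ Y : Matrix (Fin 2) (Fin 2) ℤ_[l],
        IsUnit (1 + (l : ℤ_[l]) ^ k • Y).det → ∃ σ, B.rep σ = 1 + (l : ℤ_[l]) ^ k • Y) :
    ∃ m : ℕ, 0 < m ∧ ∀ P : Pts W, addOrderOf P ≠ 0 →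
      (∀ σ : GQ, σ • P ∈ AddSubgroup.zmultiples P) → addOrderOf P ∣ m := by
  obtain ⟨m, hm, hlev⟩ := hlevels
  refine ⟨m, hm, fun P hP hst => (Nat.dvd_iff_prime_pow_dvd_dvd _ _).mpr fun p v hp hv => ?_⟩
  obtain ⟨d, hd⟩ := hv
  have := Fact.mk hp
  have hd0 : d ≠ 0 := fun e => hP (by rw [hd, e, mul_zero])
  obtain ⟨k, B, hdvd, hB⟩ := hlev p
  have hle := le_of_stable B hB (P := d • P) (v := v)
    (by rw [addOrderOf_nsmul' P hd0, hd, Nat.gcd_mul_left_left, Nat.mul_div_cancel _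
      (Nat.pos_of_ne_zero hd0)]) fun σ => by
        obtain ⟨t, ht⟩ := AddSubgroup.mem_zmultiples_iff.mp (hst σ)
        rw [FA.RT.Tate.gal_smul_nsmul, ← ht, smul_comm]
        exact AddSubgroup.zsmul_mem_zmultiples _ _
  exact (pow_dvd_pow p hle).trans hdvd

variable {E E' : WeierstrassCurve ℚ}

/-- A bound on the orders of cyclic stable subgroups passes along an isomorphism over `ℚ̄` which
commutes with Galois up to sign. -/
theorem card_dvd_of_equiv {X Y : Type*} [AddCommGroup X] [AddCommGroup Y] (e : X ≃+ Y)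
    (a : GQ → X → X) (b : GQ → Y → Y)
    (he : ∀ σ x, b σ (e x) = e (a σ x) ∨ b σ (e x) = -e (a σ x)) {m : ℕ}
    (h : ∀ P : X, addOrderOf P ≠ 0 → (∀ σ, a σ P ∈ AddSubgroup.zmultiples P) → addOrderOf P ∣ m)
    (G : AddSubgroup Y) (hfin : Finite G) (hcyc : IsAddCyclic G)
    (hst : ∀ σ, ∀ P ∈ G, b σ P ∈ G) : Nat.card G ∣ m := by
  obtain ⟨⟨g, hg⟩, hgen⟩ := hcyc.exists_generator
  have hord : addOrderOf (e.symm g) = Nat.card G := by
    rw [← addOrderOf_eq_card_of_forall_mem_zmultiples hgen]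
    conv_rhs => rw [← AddSubgroup.addOrderOf_coe]
    exact AddEquiv.addOrderOf_eq e.symm g
  rw [← hord]
  refine h _ (hord ▸ Nat.card_pos.ne') fun σ => ?_
  have hmem : e (a σ (e.symm g)) ∈ G := by
    rcases he σ (e.symm g) with h' | h' <;> rw [e.apply_symm_apply] at h'
    · exact h' ▸ hst σ g hg
    · exact neg_mem_iff.mp (h' ▸ hst σ g hg)
  obtain ⟨t, ht⟩ := AddSubgroup.mem_zmultiples_iff.mp (hgen ⟨_, hmem⟩)
  refine AddSubgroup.mem_zmultiples_iff.mpr ⟨t, ?_⟩
  rw [← map_zsmul, show t • g = e (a σ (e.symm g)) from congrArg Subtype.val ht,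
    e.symm_apply_apply]

/-- Subgroups whose orders divide `m` are finite in number. -/
theorem finite_of_card_dvd [E.IsElliptic] {m : ℕ} (hm : 0 < m)
    (S : Set (AddSubgroup (E.toAffine⁄Qb).Point)) (h : ∀ G ∈ S, Nat.card G ∣ m) : S.Finite := by
  haveI := FA.EC.finite_torsion E hm.ne'
  have hfin : {P : (E.toAffine⁄Qb).Point | m • P = 0}.Finite :=
    (Submodule.torsionBy ℤ (E.toAffine⁄Qb).Point (m : ℤ) : Set _).toFinite.subset fun P hP => by
      rw [SetLike.mem_coe, Submodule.mem_torsionBy_iff, natCast_zsmul]; exact hP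
  refine (hfin.finite_subsets.preimage SetLike.coe_injective.injOn).subset fun G hG => ?_
  intro P hP
  obtain ⟨c, hc⟩ := h G hG
  show m • P = 0
  rw [hc, mul_comm, mul_nsmul', show Nat.card G • P = 0 from
    congrArg Subtype.val (card_nsmul_eq_zero' (x := (⟨P, hP⟩ : G))), nsmul_zero]

/-- The bound for the points of a curve with levels at all primes for an integral model. -/
theorem exists_stable_bound_model {E : WeierstrassCurve ℚ} [E.IsElliptic]
    (hW : W.IsIntegralModelOf E) (hlevels : ∃ m : ℕ, 0 < m ∧ ∀ (l : ℕ) [Fact l.Prime],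
    ∃ (k : ℕ) (B : TateBasis l W), l ^ k ∣ m ∧
      ∀ Y : Matrix (Fin 2) (Fin 2) ℤ_[l],
        IsUnit (1 + (l : ℤ_[l]) ^ k • Y).det → ∃ σ, B.rep σ = 1 + (l : ℤ_[l]) ^ k • Y) :
    ∃ m : ℕ, 0 < m ∧ ∀ P : (E.toAffine⁄Qb).Point, addOrderOf P ≠ 0 →
      (∀ σ : GQ, Affine.Point.map (W' := E.toAffine) σ.toAlgHom P ∈ AddSubgroup.zmultiples P) →
        addOrderOf P ∣ m := by
  obtain ⟨m, hm, key⟩ := exists_stable_bound hlevels
  obtain ⟨e, he⟩ := FA.Root.exists_equiv_of_model hW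
  refine ⟨m, hm, fun P hP hst => ?_⟩
  obtain ⟨Q, rfl⟩ := e.surjective P
  rw [AddEquiv.addOrderOf_eq] at hP ⊢
  refine key Q hP fun σ => ?_
  obtain ⟨t, ht⟩ := AddSubgroup.mem_zmultiples_iff.mp (hst σ)
  exact AddSubgroup.mem_zmultiples_iff.mpr ⟨t, e.injective (by rw [map_zsmul, ht, he])⟩

/-- The bound for the points of a semistable curve. -/
theorem exists_stable_bound_curve (E : WeierstrassCurve ℚ) [E.IsElliptic]
    (h : ∀ p : ℕ, ∀ [Fact p.Prime], ∃ C : VariableChange ℚ_[p],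
      HasGoodReduction ℤ_[p] (C • E.map (algebraMap ℚ ℚ_[p])) ∨
        HasMultiplicativeReduction ℤ_[p] (C • E.map (algebraMap ℚ ℚ_[p]))) :
    ∃ m : ℕ, 0 < m ∧ ∀ P : (E.toAffine⁄Qb).Point, addOrderOf P ≠ 0 →
      (∀ σ : GQ, Affine.Point.map (W' := E.toAffine) σ.toAlgHom P ∈ AddSubgroup.zmultiples P) →
        addOrderOf P ∣ m := by
  obtain ⟨W, hW, hs⟩ := FA.Root.exists_semistableModel E
    fun q _ => FA.Root.isSemistableAt_of_reduction E (h q).choose_spec
  haveI := FA.Frob.ratCurve_isElliptic_of_Δ (FA.Frob.Δ_ne_zero_of_model hW)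
  exact exists_stable_bound_model hW
    (FA.OpenImage.exists_levels (FA.Frob.Δ_ne_zero_of_model hW) hs
      fun p hp => FA.OpenImage.exists_bad_ne h hW hs hp)

end FA.IsogenyBound

namespace FA.Summary

/-- **Cyclic Galois stable subgroups have bounded order** on a semistable elliptic curve over
`ℚ`. -/
theorem cyclicStableSubgroup_card_dvd (E : WeierstrassCurve ℚ) [E.IsElliptic]
    (h : ∀ p : ℕ, ∀ [Fact p.Prime], ∃ C : VariableChange ℚ_[p],
      HasGoodReduction ℤ_[p] (C • E.map (algebraMap ℚ ℚ_[p])) ∨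
        HasMultiplicativeReduction ℤ_[p] (C • E.map (algebraMap ℚ ℚ_[p])))
    [inst : DecidableEq (AlgebraicClosure ℚ)] :
    ∃ m : ℕ, 0 < m ∧ ∀ G : AddSubgroup (E.toAffine⁄(AlgebraicClosure ℚ)).Point, Finite G →
      IsAddCyclic G → (∀ σ : AlgebraicClosure ℚ ≃ₐ[ℚ] AlgebraicClosure ℚ, ∀ P ∈ G,
        Affine.Point.map σ.toAlgHom P ∈ G) → Nat.card G ∣ m := by
  obtain rfl : inst = instDecEqAlgebraicClosureRat := Subsingleton.elim _ _
  obtain ⟨m, hm, key⟩ := FA.IsogenyBound.exists_stable_bound_curve E h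
  exact ⟨m, hm, FA.IsogenyBound.card_dvd_of_equiv (AddEquiv.refl _)
    (fun σ => Affine.Point.map (W' := E.toAffine) σ.toAlgHom) _ (fun _ _ => Or.inl rfl) key⟩

/-- The same for a curve with a semistable quadratic twist. -/
theorem cyclicStableSubgroup_card_dvd_twist (E : WeierstrassCurve ℚ) [E.IsElliptic] {d : ℚ}
    (hd : d ≠ 0) (h : ∀ p : ℕ, ∀ [Fact p.Prime], ∃ C : VariableChange ℚ_[p],
      HasGoodReduction ℤ_[p] (C • (⟨0, 0, 0, -27 * (d ^ 2 * E.c₄), -54 * (d ^ 3 * E.c₆)⟩ :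
          WeierstrassCurve ℚ).map (algebraMap ℚ ℚ_[p])) ∨
        HasMultiplicativeReduction ℤ_[p] (C • (⟨0, 0, 0, -27 * (d ^ 2 * E.c₄),
          -54 * (d ^ 3 * E.c₆)⟩ : WeierstrassCurve ℚ).map (algebraMap ℚ ℚ_[p])))
    [inst : DecidableEq (AlgebraicClosure ℚ)] :
    ∃ m : ℕ, 0 < m ∧ ∀ G : AddSubgroup (E.toAffine⁄(AlgebraicClosure ℚ)).Point, Finite G →
      IsAddCyclic G → (∀ σ : AlgebraicClosure ℚ ≃ₐ[ℚ] AlgebraicClosure ℚ, ∀ P ∈ G,
        Affine.Point.map σ.toAlgHom P ∈ G) → Nat.card G ∣ m := by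
  obtain rfl : inst = instDecEqAlgebraicClosureRat := Subsingleton.elim _ _
  haveI := FA.Root.quadTwist_isElliptic E hd
  obtain ⟨m, hm, key⟩ := FA.IsogenyBound.exists_stable_bound_curve (FA.Twists.quadTwist E d) h
  obtain ⟨e, he⟩ := FA.Root.exists_twist_equiv E hd
  exact ⟨m, hm, FA.IsogenyBound.card_dvd_of_equiv e
    (fun σ => Affine.Point.map (W' := (FA.Twists.quadTwist E d).toAffine) σ.toAlgHom) _
    (fun σ Q => he σ Q) key⟩

/-- **Finitely many cyclic Galois stable subgroups** (finiteness of the isogeny class) for a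
semistable elliptic curve over `ℚ`. -/
theorem finite_cyclicStableSubgroups (E : WeierstrassCurve ℚ) [E.IsElliptic]
    (h : ∀ p : ℕ, ∀ [Fact p.Prime], ∃ C : VariableChange ℚ_[p],
      HasGoodReduction ℤ_[p] (C • E.map (algebraMap ℚ ℚ_[p])) ∨
        HasMultiplicativeReduction ℤ_[p] (C • E.map (algebraMap ℚ ℚ_[p])))
    [inst : DecidableEq (AlgebraicClosure ℚ)] :
    {G : AddSubgroup (E.toAffine⁄(AlgebraicClosure ℚ)).Point | Finite G ∧ IsAddCyclic G ∧
      ∀ σ : AlgebraicClosure ℚ ≃ₐ[ℚ] AlgebraicClosure ℚ, ∀ P ∈ G,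
        Affine.Point.map σ.toAlgHom P ∈ G}.Finite := by
  obtain rfl : inst = instDecEqAlgebraicClosureRat := Subsingleton.elim _ _
  obtain ⟨m, hm, key⟩ := cyclicStableSubgroup_card_dvd E h
  exact FA.IsogenyBound.finite_of_card_dvd hm _ fun G hG => key G hG.1 hG.2.1 hG.2.2

/-- The same for a curve with a semistable quadratic twist. -/
theorem finite_cyclicStableSubgroups_twist (E : WeierstrassCurve ℚ) [E.IsElliptic] {d : ℚ}
    (hd : d ≠ 0) (h : ∀ p : ℕ, ∀ [Fact p.Prime], ∃ C : VariableChange ℚ_[p],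
      HasGoodReduction ℤ_[p] (C • (⟨0, 0, 0, -27 * (d ^ 2 * E.c₄), -54 * (d ^ 3 * E.c₆)⟩ :
          WeierstrassCurve ℚ).map (algebraMap ℚ ℚ_[p])) ∨
        HasMultiplicativeReduction ℤ_[p] (C • (⟨0, 0, 0, -27 * (d ^ 2 * E.c₄),
          -54 * (d ^ 3 * E.c₆)⟩ : WeierstrassCurve ℚ).map (algebraMap ℚ ℚ_[p])))
    [inst : DecidableEq (AlgebraicClosure ℚ)] :
    {G : AddSubgroup (E.toAffine⁄(AlgebraicClosure ℚ)).Point | Finite G ∧ IsAddCyclic G ∧
      ∀ σ : AlgebraicClosure ℚ ≃ₐ[ℚ] AlgebraicClosure ℚ, ∀ P ∈ G,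
        Affine.Point.map σ.toAlgHom P ∈ G}.Finite := by
  obtain rfl : inst = instDecEqAlgebraicClosureRat := Subsingleton.elim _ _
  obtain ⟨m, hm, key⟩ := cyclicStableSubgroup_card_dvd_twist E hd h
  exact FA.IsogenyBound.finite_of_card_dvd hm _ fun G hG => key G hG.1 hG.2.1 hG.2.2

end FA.Summary

end
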