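import Fermat.Agent.Root.NoGoodReduction
import Fermat.Agent.Ribet.SerreMore

/-!
# The bad primes of a semistable curve in Mathlib's language

The product of the primes of bad reduction of a semistable elliptic curve over `ℚ` is at least
`11` and different from `13`: the levels left over have no cusp forms of weight two.
-/

set_option autoImplicit false

noncomputable section

open WeierstrassCurve

namespace FA.Summary

/-- **The product of the bad primes is at least `11` and is not `13`**: a semistable elliptic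
curve over `ℚ` does not have good reduction outside a set of primes with a smaller product. -/
theorem badPrimes (E : WeierstrassCurve ℚ) [E.IsElliptic]
    (h : ∀ p : ℕ, ∀ [Fact p.Prime], ∃ C : VariableChange ℚ_[p],
      HasGoodReduction ℤ_[p] (C • E.map (algebraMap ℚ ℚ_[p])) ∨
        HasMultiplicativeReduction ℤ_[p] (C • E.map (algebraMap ℚ ℚ_[p])))
    (S : Finset ℕ) (hS : ∀ q ∈ S, q.Prime) (hsmall : S.prod id < 11 ∨ S.prod id = 13) :
    ¬ ∀ p : ℕ, ∀ [Fact p.Prime], p ∉ S → ∃ C : VariableChange ℚ_[p],
      HasGoodReduction ℤ_[p] (C • E.map (algebraMap ℚ ℚ_[p])) := by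
  intro hgood
  obtain ⟨W, N, f, hW, hs, hsq, hN, hf, -⟩ := FA.Root.exists_newform_LFunction E h
  have hsub : N.primeFactors ⊆ S := fun q hq => by
    obtain ⟨hqp, hqN, -⟩ := Nat.mem_primeFactors.mp hq
    by_contra hqS
    have := Fact.mk hqp
    have hd := (hN q hqp).mp hqN
    obtain ⟨C, hC⟩ := hgood q hqS
    exact FA.Root.not_hasGoodReduction_of_bad hW hd (hs q hqp hd) C hC
  have hNS : N ∣ S.prod id := by
    rw [← Nat.prod_primeFactors_of_squarefree hsq]
    exact Finset.prod_dvd_prod_of_subset _ _ id hsub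
  have : NeZero N := ⟨hsq.ne_zero⟩
  have hpos : 0 < S.prod id := Finset.prod_pos fun q hq => (hS q hq).pos
  refine hf.ne_zero (FA.Ribet.cuspForm_eq_zero_of_genusFormula ?_ f)
  rcases hsmall with hlt | h13
  · have hle : N < 11 := (Nat.le_of_dvd hpos hNS).trans_lt hlt
    have hN0 : N ≠ 0 := hsq.ne_zero
    have h4 : ¬ 2 * 2 ∣ N := fun hd => Nat.prime_two.not_isUnit (hsq 2 hd)
    have h9 : ¬ 3 * 3 ∣ N := fun hd => Nat.prime_three.not_isUnit (hsq 3 hd)
    interval_cases N
    all_goals first
      | omega
      | exact FA.Ribet.genusFormula_7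
      | exact FA.Ribet.genusFormula_eq_zero (Or.inl rfl) (Nat.dvd_of_mod_eq_zero rfl)
      | exact FA.Ribet.genusFormula_eq_zero (Or.inr rfl) (Nat.dvd_of_mod_eq_zero rfl)
  · rw [h13] at hNS
    rcases (Nat.dvd_prime (by norm_num)).mp hNS with rfl | rfl
    · exact FA.Ribet.genusFormula_eq_zero (Or.inl rfl) (one_dvd 6)
    · exact FA.Ribet.genusFormula_13

end FA.Summary

end
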