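import Fermat.Agent.Root.PadicImageOpen
import Fermat.Agent.Two.CurveResidual
import Fermat.Agent.Local.Torsion
import Fermat.Agent.Local.Minkowski
import Fermat.Agent.Ribet.SerreTrace

/-!
# The Tate module of a semistable equation has no stable line

With a stable line some point of order `p` reduces to a nonzero point, so an element `σ` of
inertia at `p` has the eigenvalue `1`. The character of the line is then trivial or cyclotomic by
Minkowski, and at a good prime `q` this gives `a_q = q + 1`, against Hasse's bound.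
-/

set_option autoImplicit false
set_option linter.unusedSectionVars false
set_option linter.style.haveILetI false

noncomputable section

open Matrix WeierstrassCurve FA.EC FA.Frob FA.RT FA.RT.Tate
open FA.Local
open FA.JTorsion (cycP)
open scoped WeierstrassCurve.Affine

local notation "Qb" => AlgebraicClosure ℚ
local notation "GQ" => AlgebraicClosure ℚ ≃ₐ[ℚ] AlgebraicClosure ℚ

namespace FA.OpenImage

theorem vecs_two : (![1, 0] : Fin 2 → ZMod 2) ≠ 0 ∧ (![0, 1] : Fin 2 → ZMod 2) ≠ 0 ∧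
    (![1, 1] : Fin 2 → ZMod 2) ≠ 0 ∧ (![1, 0] : Fin 2 → ZMod 2) ≠ ![0, 1] ∧
    (![1, 0] : Fin 2 → ZMod 2) ≠ ![1, 1] ∧ (![0, 1] : Fin 2 → ZMod 2) ≠ ![1, 1] := by decide

theorem val_eq_one_two : ∀ z : ZMod (2 ^ 1), IsUnit z → z.val = 1 := by decide

variable {W : WeierstrassCurve ℤ} [(ratCurve W).IsElliptic]

local notation "EQ" => ((ratCurve W)⁄Qb)

/-- With a stable subgroup of odd order `p` some point of order `p` has integral coordinates. -/
theorem exists_not_e1_of_stable_odd {p : ℕ} [hp : Fact p.Prime] (hp2 : p ≠ 2)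
    {A : ValuationSubring Qb} (hA : A.LiesOverPrime p) {g : Pts W} (hg0 : g ≠ 0)
    (hgp : p • g = 0) (hst : ∀ σ : GQ, ∃ k : ℕ, σ • g = k • g) :
    ∃ P : Pts W, p • P = 0 ∧ ¬ E1 A.valuation (EQ).toAffine P := by
  classical
  by_contra hc
  push Not at hc
  have hodd := hp.out.odd_of_ne_two hp2
  have hp3 : 2 < p := lt_of_le_of_ne hp.out.two_le (Ne.symm hp2)
  have hv : A.valuation (p : Qb) < 1 := A.mem_nonunits_iff.mp hA
  have hkg : ∀ k : ℕ, ¬ p ∣ k → k • g ≠ 0 := fun k hk h =>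
    hk (addOrderOf_eq_prime hgp hg0 ▸ addOrderOf_dvd_of_nsmul_eq_zero h)
  set s : Finset Qb := (Finset.Icc 1 ((p - 1) / 2)).image fun k => xc (k • g) with hs
  have hmem : ∀ k : ℕ, k • g ≠ 0 → xc (k • g) ∈ s := by
    intro k hk
    rw [← Nat.mod_add_div k p, add_nsmul, mul_nsmul, hgp, nsmul_zero, add_zero] at hk ⊢
    have hlt := Nat.mod_lt k hp.out.pos
    rw [hs, Finset.mem_image]
    have h0 : k % p ≠ 0 := fun h => hk (by rw [h, zero_nsmul])
    by_cases h2 : k % p ≤ (p - 1) / 2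
    · exact ⟨k % p, Finset.mem_Icc.mpr ⟨by omega, h2⟩, rfl⟩
    · refine ⟨p - k % p, Finset.mem_Icc.mpr ⟨by omega, ?_⟩, ?_⟩
      · obtain ⟨m, hm⟩ := hodd; omega
      · rw [show (p - k % p) • g = -((k % p) • g) by
          rw [eq_neg_iff_add_eq_zero, ← add_nsmul, Nat.sub_add_cancel hlt.le, hgp], xc_neg]
  have hfacts : ∀ a ∈ s, ((EQ).preΨ' p).eval a = 0 ∧ 1 < A.valuation a := by
    intro a ha
    rw [hs, Finset.mem_image] at ha
    obtain ⟨k, hk, rfl⟩ := ha
    rw [Finset.mem_Icc] at hk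
    have h1 : p • (k • g) = 0 := by rw [← mul_nsmul, mul_nsmul', hgp, nsmul_zero]
    obtain ⟨x, y, h, e⟩ := exists_some_of_ne_zero
      (hkg k fun hd => by have := Nat.le_of_dvd (by omega) hd; omega)
    have h2 := hc _ h1
    rw [e] at h1 h2 ⊢
    rw [xc_some]
    exact ⟨(eval_preΨ'_eq_zero_iff (W := (EQ).toAffine) hodd h).mp h1, h2⟩
  have hsigma : ∀ σ : GQ, s.image σ = s := by
    intro σ
    refine Finset.eq_of_subset_of_card_le ?_ (by rw [Finset.card_image_of_injective _ σ.injective])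
    intro a ha
    rw [Finset.mem_image] at ha
    obtain ⟨_, hb, rfl⟩ := ha
    rw [hs, Finset.mem_image] at hb
    obtain ⟨k, hk, rfl⟩ := hb
    rw [Finset.mem_Icc] at hk
    obtain ⟨j, hj⟩ := hst σ
    have hne : σ • (k • g) ≠ 0 := fun h =>
      hkg k (fun hd => by have := Nat.le_of_dvd (by omega) hd; omega)
        (by rw [← inv_smul_smul σ (k • g), h]; exact gal_smul_zero _ _)
    rw [← xc_smul (ratCurve W) σ, gal_smul_nsmul (W := W), hj, ← mul_nsmul']
    refine hmem _ ?_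
    rw [mul_nsmul', ← hj, ← gal_smul_nsmul (W := W)]
    exact hne
  obtain ⟨c, hc'⟩ := exists_ratCast_of_fixed (∏ a ∈ s, a) fun σ => by
    refine (map_prod σ (fun a : Qb => a) s).trans ?_
    exact (Finset.prod_image (f := fun a : Qb => a) σ.injective.injOn).symm.trans
      (congrArg (fun t => ∏ a ∈ t, a) (hsigma σ))
  have hne : s.Nonempty := ⟨_, hmem 1 (by rwa [one_nsmul])⟩
  have hbig : 1 < A.valuation (∏ a ∈ s, a) := by
    obtain ⟨a, ha⟩ := hne
    rw [← Finset.mul_prod_erase s _ ha, map_mul, map_prod]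
    exact one_lt_mul_of_lt_of_le' (hfacts a ha).2
      (Finset.one_le_prod fun b hb => (hfacts b (Finset.mem_of_mem_erase hb)).2.le)
  obtain ⟨Q, hQ, hQ1⟩ := exists_torsion_not_e1 (intCoeff_ratCurve W A) hp.out hp3
    (Nat.cast_ne_zero.mpr hp.out.ne_zero) s (fun a ha => (hfacts a ha).1)
    (Finset.card_image_le.trans (by simp))
    (hc' ▸ one_le_mul_of_one_lt hp.out hv (c := c) (hc'.symm ▸ hbig))
  exact hQ1 (hc Q hQ)

/-- With a rational point of order two some point of order two has integral coordinates. -/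
theorem exists_not_e1_of_stable_two [Fact (Nat.Prime 2)] {A : ValuationSubring Qb}
    (hA : A.LiesOverPrime 2) {g : Pts W} (hg0 : g ≠ 0) (hg2 : 2 • g = 0)
    (hst : ∀ σ : GQ, σ • g = g) :
    ∃ P : Pts W, 2 • P = 0 ∧ ¬ E1 A.valuation (EQ).toAffine P := by
  by_contra hc
  push Not at hc
  set t := A.valuation (2 : Qb) with ht
  have ht1 : t < 1 := by
    have := A.mem_nonunits_iff.mp hA
    rwa [Nat.cast_ofNat] at this
  have ht0 : 0 < t := A.valuation.pos_iff.mpr two_ne_zero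
  have hI : ∀ z : ℤ, A.valuation (z : Qb) ≤ 1 := fun z => intCast_le_one z
  have hlarge : ∀ v : Fin 2 → ZMod 2, v ≠ 0 → 1 < A.valuation (FA.Two.eRoot W v) := fun v hv => by
    obtain ⟨x, y, h, e, ex, -⟩ := FA.Two.exists_coords W hv
    have := hc _ (nsmul_torsion (FA.Two.torsPt W v))
    rw [e] at this
    rw [ex]
    exact this
  -- the rational root
  obtain ⟨v₀, hv₀, c, hc₀⟩ : ∃ v : Fin 2 → ZMod 2, v ≠ 0 ∧ ∃ c : ℚ, (c : Qb) = FA.Two.eRoot W v := by
    let x : FA.Two.twoTors W := ⟨g, (mem_torsion_iff W).mpr hg2⟩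
    refine ⟨(torsBasis (p := 2) W).equivFun x, fun h => hg0 ?_, ?_⟩
    · exact congrArg Subtype.val ((LinearEquiv.map_eq_zero_iff _).mp h)
    · refine exists_ratCast_of_fixed _ fun σ => ?_
      rw [FA.Two.eRoot, FA.Two.torsPt, LinearEquiv.symm_apply_apply]
      exact (xc_smul (ratCurve W) σ g).symm.trans (by rw [hst σ])
  have htX : 1 ≤ t * A.valuation (FA.Two.eRoot W v₀) := by
    rw [← hc₀, ht, show (2 : Qb) = ((2 : ℕ) : Qb) by norm_num]
    exact one_le_mul_of_one_lt Nat.prime_two (A.mem_nonunits_iff.mp hA) (hc₀.symm ▸ hlarge v₀ hv₀)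
  have hX1 := hlarge v₀ hv₀
  set x := FA.Two.eRoot W v₀
  set X := A.valuation x
  have h4 : A.valuation (4 : Qb) = t * t := by rw [ht, ← map_mul]; norm_num
  -- the coefficient `b₂` is odd
  have hb2 : A.valuation (W.b₂ : Qb) = 1 := by
    refine le_antisymm (hI _) (not_lt.mp fun hlt => ?_)
    have hd : (2 : ℤ) ∣ W.b₂ := by
      by_contra hd
      exact hlt.ne (valuation_intCast_of_liesOverPrime Nat.prime_two hA (by exact_mod_cast hd))
    have h4d : (4 : ℤ) ∣ W.b₂ := by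
      rw [WeierstrassCurve.b₂] at hd ⊢
      have : (2 : ℤ) ∣ W.a₁ ^ 2 := (Int.dvd_add_left (by omega)).mp hd
      obtain ⟨d, hd'⟩ := Int.prime_two.dvd_of_dvd_pow this
      exact ⟨d ^ 2 + W.a₂, by rw [hd']; ring⟩
    have hb : A.valuation (W.b₂ : Qb) ≤ t * t := by
      obtain ⟨d, hd'⟩ := h4d
      rw [hd', Int.cast_mul, map_mul, Int.cast_ofNat, h4]
      exact mul_le_of_le_one_right' (hI d)
    have htop : A.valuation (4 * x ^ 3) = t * t * X ^ 3 := by rw [map_mul, map_pow, h4]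
    have hlow : A.valuation ((W.b₂ : Qb) * x ^ 2 + 2 * (W.b₄ : Qb) * x + (W.b₆ : Qb)) <
        t * t * X ^ 3 := by
      have hX0 : 0 < X := zero_lt_one.trans hX1
      have e2 : t * X < t * t * X ^ 3 := by
        calc t * X = t * X * 1 := (mul_one _).symm
          _ < t * X * (t * X * X) := by
            refine (mul_lt_mul_iff_right₀ (mul_pos ht0 hX0)).mpr ?_
            exact lt_of_lt_of_le hX1 (le_mul_of_one_le_left' htX)
          _ = t * t * X ^ 3 := by rw [pow_succ, pow_two]; ac_rfl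
      refine A.valuation.map_add_lt (A.valuation.map_add_lt ?_ ?_) ?_
      · rw [map_mul, map_pow]
        refine lt_of_le_of_lt (mul_le_mul' hb le_rfl) ?_
        refine (mul_lt_mul_iff_right₀ (mul_pos ht0 ht0)).mpr ?_
        exact pow_lt_pow_right₀ hX1 (by norm_num)
      · rw [map_mul, map_mul]
        exact lt_of_le_of_lt (mul_le_mul' (mul_le_of_le_one_right' (hI _)) le_rfl) e2
      · exact lt_of_le_of_lt ((hI _).trans htX) e2
    have h0 := FA.Two.eRoot_eq W hv₀
    rw [show (W.b₂ : Qb) * x ^ 2 + 2 * (W.b₄ : Qb) * x + (W.b₆ : Qb) = -(4 * x ^ 3) by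
      linear_combination h0, Valuation.map_neg, htop] at hlow
    exact lt_irrefl _ hlow
  -- the sum and the product of the three roots
  obtain ⟨n10, n01, n11, n1, n2, n3⟩ := vecs_two
  have ea := FA.Two.eRoot_eq W (v := ![1, 0]) n10
  have eb := FA.Two.eRoot_eq W (v := ![0, 1]) n01
  have ec := FA.Two.eRoot_eq W (v := ![1, 1]) n11
  have hne : ∀ v w : Fin 2 → ZMod 2, v ≠ 0 → w ≠ 0 → v ≠ w →
      FA.Two.eRoot W v - FA.Two.eRoot W w ≠ 0 := fun v w hv hw hvw h =>
    hvw (FA.Two.eRoot_injective W hv hw (sub_eq_zero.mp h))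
  have nab := hne ![1, 0] ![0, 1] n10 n01 n1
  have nac := hne ![1, 0] ![1, 1] n10 n11 n2
  have nbc := hne ![0, 1] ![1, 1] n01 n11 n3
  have va := hlarge ![1, 0] n10
  have vb := hlarge ![0, 1] n01
  have vc := hlarge ![1, 1] n11
  set a := FA.Two.eRoot W ![1, 0]
  set b := FA.Two.eRoot W ![0, 1]
  set c' := FA.Two.eRoot W ![1, 1]
  have dab : 4 * (a ^ 2 + a * b + b ^ 2) + (W.b₂ : Qb) * (a + b) + 2 * (W.b₄ : Qb) = 0 :=
    mul_left_cancel₀ nab (by rw [mul_zero]; linear_combination ea - eb)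
  have dac : 4 * (a ^ 2 + a * c' + c' ^ 2) + (W.b₂ : Qb) * (a + c') + 2 * (W.b₄ : Qb) = 0 :=
    mul_left_cancel₀ nac (by rw [mul_zero]; linear_combination ea - ec)
  have hsum : (W.b₂ : Qb) = -4 * (a + b + c') := by
    linear_combination mul_left_cancel₀ nbc (show (b - c') * (4 * (a + b + c') + (W.b₂ : Qb)) =
      (b - c') * 0 by rw [mul_zero]; linear_combination dab - dac)
  have hb4 : 2 * (W.b₄ : Qb) = 4 * (a * b + a * c' + b * c') := by
    linear_combination dab - (a + b) * hsum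
  have hprod : (W.b₆ : Qb) = -4 * (a * b * c') := by
    linear_combination ea - a ^ 2 * hsum - a * hb4
  have hs1 := congrArg A.valuation hsum
  rw [hb2, map_mul, Valuation.map_neg, h4] at hs1
  have hp1 := hI W.b₆
  rw [hprod, map_mul, Valuation.map_neg, h4, map_mul, map_mul] at hp1
  have hmax : A.valuation (a + b + c') < A.valuation a * A.valuation b * A.valuation c' := by
    refine A.valuation.map_add_lt (A.valuation.map_add_lt ?_ ?_) ?_
    · rw [mul_assoc]
      exact lt_mul_of_one_lt_right (zero_lt_one.trans va) (one_lt_mul'' vb vc)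
    · rw [mul_right_comm]
      exact lt_mul_of_one_lt_left (zero_lt_one.trans vb) (one_lt_mul'' va vc)
    · exact lt_mul_of_one_lt_left (zero_lt_one.trans vc) (one_lt_mul'' va vb)
  refine absurd hp1 (not_le.mpr ?_)
  rw [hs1]
  exact (mul_lt_mul_iff_right₀ (mul_pos ht0 ht0)).mpr hmax

variable {p : ℕ} [hp : Fact p.Prime] (B : TateBasis p W)

/-- An element `σ` with `(σ - 1)²` of values in the kernel of reduction has the eigenvalue `1`
as soon as some point of order `p` lies outside it. -/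
theorem det_rep_sub_one_of_e1 {A : ValuationSubring Qb} {σ : GQ}
    (h2 : ∀ P : Pts W, E1 A.valuation (EQ).toAffine (σ • (σ • P - P) - (σ • P - P)))
    (hP : ∃ P : Pts W, p • P = 0 ∧ ¬ E1 A.valuation (EQ).toAffine P) :
    (B.rep σ - 1).det = 0 := by
  by_contra hd
  obtain ⟨k, w, hw⟩ := FA.PadicImage.exists_dvd_prime_pow (mul_ne_zero hd hd)
  obtain ⟨P, hPp, hP1⟩ := hP
  obtain ⟨u, rfl⟩ := B.surj 1 P (by rwa [pow_one])
  refine hP1 ?_
  have h := h2 (B.φ (1 + k) (w • (((B.rep σ - 1) * (B.rep σ - 1)).adjugate *ᵥ u)))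
  rw [B.rep_spec, ← map_sub, B.rep_spec, ← map_sub,
    show ∀ x : Fin 2 → ℤ_[p], B.rep σ *ᵥ (B.rep σ *ᵥ x - x) - (B.rep σ *ᵥ x - x) =
      ((B.rep σ - 1) * (B.rep σ - 1)) *ᵥ x from fun x => by
        rw [← mulVec_mulVec, sub_mulVec, one_mulVec, sub_mulVec, one_mulVec],
    mulVec_smul, mulVec_mulVec, mul_adjugate, smul_mulVec, one_mulVec, det_mul, smul_smul,
    mul_comm w, ← hw, ← Nat.cast_pow, Nat.cast_smul_eq_nsmul, map_nsmul, B.pow_compat] at h
  exact h

/-- Inertia at `p` has the eigenvalue `1` as soon as some point of order `p` has integral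
coordinates. -/
theorem det_rep_sub_one_eq_zero (hΔ : W.Δ ≠ 0) (hW : W.IsSemistableModel)
    {A : ValuationSubring Qb} (hA : A.LiesOverPrime p)
    (hP : ∃ P : Pts W, p • P = 0 ∧ ¬ E1 A.valuation (EQ).toAffine P) {σ : GQ}
    (hσ : σ ∈ A.inertiaSubgroupIn ℚ) : (B.rep σ - 1).det = 0 := by
  refine det_rep_sub_one_of_e1 B (fun P => ?_) hP
  by_cases hbad : (p : ℤ) ∣ W.Δ
  · exact (⟨hΔ, hp.out, hbad, hW p hp.out hbad, hA⟩ :
      MultAt W p A).e1_smul_sub_smul_sub hσ hσ P
  · exact (inert_of_mem_inertiaSubgroupIn A hσ).e1_smul_sub_of_good (ratCurve W)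
      (intCoeff_ratCurve W A) (valuation_Δ_ratCurve W hp.out hA hbad) _

/-- The determinant of `M - 1` of a matrix with an eigenvector of unit coordinate. -/
theorem eigen_mul_det_sub_one {M : Matrix (Fin 2) (Fin 2) ℤ_[p]} {e : Fin 2 → ℤ_[p]}
    (he : e ≠ 0) {x : ℤ_[p]} (h : M *ᵥ e = x • e) :
    x * x - M.trace * x + M.det = 0 ∧ x * (M - 1).det = (x - 1) * (M.det - x) := by
  have hdet : (M - x • 1).det = 0 := Matrix.exists_mulVec_eq_zero_iff.mp
    ⟨e, he, by rw [sub_mulVec, smul_mulVec, one_mulVec, h, sub_self]⟩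
  simp only [det_fin_two, trace_fin_two, Matrix.sub_apply, Matrix.smul_apply, one_apply_eq,
    one_apply_ne zero_ne_one, one_apply_ne (one_ne_zero : (1 : Fin 2) ≠ 0), smul_eq_mul] at hdet ⊢
  exact ⟨by linear_combination hdet, by linear_combination hdet⟩

/-- **The Tate module of a semistable equation has no stable line.** -/
theorem exists_moves_line (hΔ : W.Δ ≠ 0) (hW : W.IsSemistableModel) {e : Fin 2 → ℤ_[p]}
    (he : e ≠ 0) : ∃ g, e 0 * (B.rep g *ᵥ e) 1 - e 1 * (B.rep g *ᵥ e) 0 ≠ 0 := by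
  by_contra hall
  push Not at hall
  -- a primitive vector on the line
  obtain ⟨d, e', i, hi, rfl⟩ : ∃ (d : ℤ_[p]) (e' : Fin 2 → ℤ_[p]) (i : Fin 2),
      e' i = 1 ∧ e = d • e' := by
    rcases ValuationRing.dvd_total (e 0) (e 1) with ⟨c, hc⟩ | ⟨c, hc⟩
    · exact ⟨e 0, ![1, c], 0, rfl, funext fun j => by fin_cases j <;> simp [hc]⟩
    · exact ⟨e 1, ![c, 1], 1, rfl, funext fun j => by fin_cases j <;> simp [hc]⟩
  have hd : d ≠ 0 := fun h => he (by rw [h, zero_smul])
  have he' : e' ≠ 0 := fun h => he (by rw [h, smul_zero])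
  have hcross : ∀ σ, e' 0 * (B.rep σ *ᵥ e') 1 = e' 1 * (B.rep σ *ᵥ e') 0 := fun σ => by
    have h := hall σ
    simp only [mulVec_smul, Pi.smul_apply, smul_eq_mul] at h
    exact mul_left_cancel₀ (mul_ne_zero hd hd) (by linear_combination h)
  have hscal : ∀ σ, B.rep σ *ᵥ e' = (B.rep σ *ᵥ e') i • e' := fun σ => funext fun j => by
    have h := hcross σ
    generalize B.rep σ *ᵥ e' = x at h ⊢
    rw [Pi.smul_apply, smul_eq_mul]
    fin_cases i <;> fin_cases j <;> simp at hi <;> simp [hi] at h ⊢ <;>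
      first | linear_combination h | linear_combination -h
  let χ : GQ →* ℤ_[p] :=
    { toFun := fun σ => (B.rep σ *ᵥ e') i
      map_one' := by rw [map_one, one_mulVec, hi]
      map_mul' := fun σ τ => by
        rw [map_mul, ← mulVec_mulVec]
        conv_lhs => rw [hscal τ]
        rw [mulVec_smul, Pi.smul_apply, smul_eq_mul, mul_comm] }
  have hχ : ∀ σ, B.rep σ *ᵥ e' = χ σ • e' := hscal
  have hunit : ∀ σ, IsUnit (χ σ) := fun σ => (χ.toHomUnits σ).isUnit
  -- some point of order `p` has integral coordinates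
  obtain ⟨Ap, hAp⟩ := FA.Deform.exists_liesOverPrime hp.out
  have hPt : ∃ P : Pts W, p • P = 0 ∧ ¬ E1 Ap.valuation (EQ).toAffine P := by
    have : NeZero (p ^ 1) := ⟨pow_ne_zero _ hp.out.ne_zero⟩
    have hg0 : B.φ 1 e' ≠ 0 := fun h => by
      have h1 := (B.ker 1 e').mp h i
      rw [hi, map_one] at h1
      have : Fact (1 < p ^ 1) := ⟨by rw [pow_one]; exact hp.out.one_lt⟩
      exact one_ne_zero h1
    have hgp : p • B.φ 1 e' = 0 := by simpa using B.nsmul_phi 1 e'
    have hk : ∀ σ : GQ, σ • B.φ 1 e' = (PadicInt.toZModPow 1 (χ σ)).val • B.φ 1 e' := fun σ => by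
      rw [B.rep_spec, hχ, ← map_nsmul, B.phi_eq_iff]
      intro j
      simp
    rcases eq_or_ne p 2 with rfl | hp2
    · refine exists_not_e1_of_stable_two hAp hg0 hgp fun σ => ?_
      have hu : IsUnit (PadicInt.toZModPow 1 (χ σ)) := (hunit σ).map _
      rw [hk σ, val_eq_one_two _ hu, one_nsmul]
    · exact exists_not_e1_of_stable_odd hp2 hAp hg0 hgp fun σ => ⟨_, hk σ⟩
  -- the character is trivial or the cyclotomic one at every inertia group
  let δ : GQ →* ℤ_[p] := Matrix.detMonoidHom.comp B.rep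
  have hδ : ∀ σ, δ σ = (cycP p σ : ℤ_[p]ˣ) := fun σ => B.det_rep σ
  let H₁ : Subgroup GQ := χ.toHomUnits.ker
  let H₂ : Subgroup GQ := (χ.toHomUnits / δ.toHomUnits).ker
  have hH₁ : ∀ σ, σ ∈ H₁ ↔ χ σ = 1 := fun σ => by
    rw [MonoidHom.mem_ker, Units.ext_iff, MonoidHom.coe_toHomUnits, Units.val_one]
  have hH₂ : ∀ σ, σ ∈ H₂ ↔ χ σ = δ σ := fun σ => by
    rw [MonoidHom.mem_ker, MonoidHom.div_apply, div_eq_one, Units.ext_iff,
      MonoidHom.coe_toHomUnits, MonoidHom.coe_toHomUnits]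
  have hor : Ap.inertiaSubgroupIn ℚ ≤ H₁ ∨ Ap.inertiaSubgroupIn ℚ ≤ H₂ := by
    by_contra hcon
    rw [not_or, SetLike.not_le_iff_exists, SetLike.not_le_iff_exists] at hcon
    obtain ⟨⟨a, ha, ha1⟩, b, hb, hb2⟩ := hcon
    have key : ∀ σ ∈ Ap.inertiaSubgroupIn ℚ, σ ∈ H₁ ∨ σ ∈ H₂ := fun σ hσ => by
      have h := (eigen_mul_det_sub_one he' (hχ σ)).2
      rw [det_rep_sub_one_eq_zero B hΔ hW hAp hPt hσ, mul_zero, eq_comm, mul_eq_zero, sub_eq_zero,
        sub_eq_zero] at h
      exact h.imp (hH₁ σ).mpr fun h => (hH₂ σ).mpr h.symm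
    have ha2 := (key a ha).resolve_left ha1
    have hb1 := (key b hb).resolve_right hb2
    rcases key (a * b) (mul_mem ha hb) with h | h
    · exact ha1 ((H₁.mul_mem_cancel_right hb1).mp h)
    · exact hb2 ((H₂.mul_mem_cancel_left ha2).mp h)
  -- away from `p` both are trivial
  have haway : ∀ l : ℕ, l.Prime → l ≠ p → ∀ A : ValuationSubring Qb, A.LiesOverPrime l →
      ∀ σ ∈ A.inertiaSubgroupIn ℚ, χ σ = 1 ∧ δ σ = 1 := fun l hl hlp A hA σ hσ => by
    refine ⟨?_, by rw [hδ, FA.JTorsion.cycP_inertia p hl hlp hA hσ, Units.val_one]⟩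
    by_cases hbad : (l : ℤ) ∣ W.Δ
    · have h0 := FA.Two.rep_inertia_mult B ⟨hΔ, hl, hbad, hW l hl hbad, hA⟩ hlp hσ hσ
      have h1 : (B.rep σ - 1) *ᵥ e' = (χ σ - 1) • e' := by
        rw [sub_mulVec, one_mulVec, hχ, sub_smul, one_smul]
      have h2 := congrArg (· *ᵥ e') h0
      simp only [← mulVec_mulVec, h1, mulVec_smul, smul_smul, zero_mulVec, smul_eq_zero,
        mul_self_eq_zero, he', or_false] at h2
      exact sub_eq_zero.mp h2
    · show (B.rep σ *ᵥ e') i = 1
      rw [B.rep_inertia_good hl hA hlp hbad hσ, one_mulVec, hi]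
  -- Minkowski
  have hall' : (∀ σ, χ σ = 1) ∨ ∀ σ, χ σ = δ σ := by
    have key : ∀ ψ : GQ →* ℤ_[p],
        (∀ σ ∈ Ap.inertiaSubgroupIn ℚ, χ σ = ψ σ) →
        (∀ l : ℕ, l.Prime → l ≠ p → ∀ A : ValuationSubring Qb, A.LiesOverPrime l →
          ∀ σ ∈ A.inertiaSubgroupIn ℚ, χ σ = ψ σ) →
        (∀ n (σ : GQ), (B.rep σ).map (PadicInt.toZModPow n) = 1 →
          PadicInt.toZModPow n (ψ σ) = 1) →
        ∀ σ, χ σ = ψ σ := by
      intro ψ hatp hne hlevel σ
      refine PadicInt.ext_of_toZModPow.mp fun n => ?_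
      let f : GQ →* (ZMod (p ^ n))ˣ :=
        (Units.map (PadicInt.toZModPow n).toMonoidHom).comp (χ.toHomUnits / ψ.toHomUnits)
      obtain ⟨L, hL, hfix⟩ := B.exists_field n
      have hf : ∀ τ, τ ∈ f.ker ↔ PadicInt.toZModPow n (χ τ) = PadicInt.toZModPow n (ψ τ) :=
          fun τ => by
        show Units.map (PadicInt.toZModPow n).toMonoidHom
          ((χ.toHomUnits / ψ.toHomUnits) τ) = 1 ↔ _
        rw [MonoidHom.div_apply, map_div, div_eq_one, Units.ext_iff]
        rfl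
      refine (hf σ).mp (eq_top_of_inertia_le f.ker L (fun τ hτ => (hf τ).mpr ?_) (fun l hl => ?_) ▸
        Subgroup.mem_top σ)
      · rw [hlevel n τ (hfix τ hτ)]
        have h := congrArg (fun M : Matrix (Fin 2) (Fin 2) (ZMod (p ^ n)) =>
          (M *ᵥ (PadicInt.toZModPow n ∘ e')) i) (hfix τ hτ)
        rw [one_mulVec, ← RingHom.map_mulVec, Function.comp_apply, hi, map_one] at h
        exact h
      · rcases eq_or_ne l p with rfl | hlp
        · exact ⟨Ap, hAp, fun τ hτ => (hf τ).mpr (by rw [hatp τ hτ])⟩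
        · obtain ⟨A, hA⟩ := FA.Deform.exists_liesOverPrime hl
          exact ⟨A, hA, fun τ hτ => (hf τ).mpr (by rw [hne l hl hlp A hA τ hτ])⟩
    rcases hor with h | h
    · exact Or.inl (key 1 (fun σ hσ => (hH₁ σ).mp (h hσ))
        (fun l hl hlp A hA σ hσ => (haway l hl hlp A hA σ hσ).1) fun n σ _ => map_one _)
    · refine Or.inr (key δ (fun σ hσ => (hH₂ σ).mp (h hσ))
        (fun l hl hlp A hA σ hσ => ?_) fun n σ hσ => ?_)
      · obtain ⟨h1, h2⟩ := haway l hl hlp A hA σ hσ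
        rw [h1, h2]
      · show PadicInt.toZModPow n (B.rep σ).det = 1
        rw [RingHom.map_det, RingHom.mapMatrix_apply, hσ, det_one]
  -- a good prime
  obtain ⟨q, hq1, hq⟩ := Nat.exists_infinite_primes (W.Δ.natAbs + p + 1)
  have hgood : W.IsGoodPrimeFor q := fun hd => by
    have h1 := Nat.le_of_dvd (Int.natAbs_pos.mpr hΔ) (Int.natCast_dvd.mp hd)
    omega
  obtain ⟨A, hA⟩ := FA.Deform.exists_liesOverPrime hq
  obtain ⟨F, hF⟩ := FA.Deform.exists_isFrobeniusAt hq hA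
  obtain ⟨htr, hdt⟩ := B.rep_frobenius hq hA (by omega) hgood hF
  have hchar := (eigen_mul_det_sub_one he' (hχ F)).1
  rw [htr, hdt] at hchar
  have hq1' : (((W.apOfModel q - ((q : ℤ) + 1)) : ℤ) : ℤ_[p]) = 0 := by
    rcases hall' with h | h
    · rw [h F] at hchar
      push_cast
      linear_combination -hchar
    · rw [h F, show δ F = (q : ℤ_[p]) from hdt] at hchar
      push_cast
      refine mul_left_cancel₀ (Nat.cast_ne_zero.mpr hq.ne_zero : (q : ℤ_[p]) ≠ 0) ?_
      linear_combination -hchar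
  rw [Int.cast_eq_zero, sub_eq_zero] at hq1'
  haveI := Fact.mk hq
  haveI : (W.reductionMod q).IsElliptic := by
    refine ⟨isUnit_iff_ne_zero.mpr ?_⟩
    rw [reductionMod, WeierstrassCurve.map_Δ]
    exact fun h => hgood ((ZMod.intCast_zmod_eq_zero_iff_dvd _ q).mp h)
  have hH := FA.HasseBound.traceOfFrobenius_sq_le (W.reductionMod q)
  rw [show (W.reductionMod q).traceOfFrobenius = (q : ℤ) + 1 from hq1'] at hH
  have := hq.two_le
  nlinarith

end FA.OpenImage

end
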