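import Fermat.Agent.Root.InertiaNontrivial
import Fermat.Agent.Root.TateNoStableLine
import Fermat.Agent.Root.SummaryMultiplicityOne
import Fermat.Agent.Root.SummaryConductor
import Fermat.Agent.Thirteen.Summary

/-!
# Serre's open image theorem for semistable elliptic curves over `ℚ`

For every prime `p` the image of the absolute Galois group in the automorphisms of the `p`-adic
Tate module of a semistable elliptic curve over `ℚ` contains all matrices congruent to one modulo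
some power of `p`: an element of inertia at a multiplicative `q ≠ p` acts as a nontrivial
unipotent, and no line is stable.
-/

set_option autoImplicit false
set_option linter.unusedSectionVars false
set_option linter.style.haveILetI false

noncomputable section

open Matrix WeierstrassCurve WeierstrassCurve.Affine FA.EC FA.Frob FA.RT FA.RT.Tate
open scoped WeierstrassCurve.Affine

local notation "Qb" => AlgebraicClosure ℚ
local notation "GQ" => AlgebraicClosure ℚ ≃ₐ[ℚ] AlgebraicClosure ℚ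

namespace FA.OpenImage

variable {E : WeierstrassCurve ℚ} {W : WeierstrassCurve ℤ}

/-- A semistable curve has bad reduction at a prime different from a given `p < 11`. -/
theorem exists_bad_ne [E.IsElliptic]
    (h : ∀ p : ℕ, ∀ [Fact p.Prime], ∃ C : VariableChange ℚ_[p],
      HasGoodReduction ℤ_[p] (C • E.map (algebraMap ℚ ℚ_[p])) ∨
        HasMultiplicativeReduction ℤ_[p] (C • E.map (algebraMap ℚ ℚ_[p])))
    (hW : W.IsIntegralModelOf E) (hs : W.IsSemistableModel) {p : ℕ} (hp : p.Prime) (hlt : p < 11) :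
    ∃ q : ℕ, q.Prime ∧ q ≠ p ∧ (q : ℤ) ∣ W.Δ := by
  by_contra hc
  push Not at hc
  refine FA.Summary.badPrimes E h {p} (fun q hq => Finset.mem_singleton.mp hq ▸ hp)
    (Or.inl (by rwa [Finset.prod_singleton])) fun q _ hq => ?_
  exact (FA.Root.MultOne.exists_good_iff hW hs q).mpr
    (hc q (Fact.out) fun e => hq (Finset.mem_singleton.mpr e))

variable [(ratCurve W).IsElliptic] {p : ℕ} [hp : Fact p.Prime]

/-- The image of the Tate module of a semistable equation contains the matrices congruent to one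
modulo a power of `p`. -/
theorem exists_level (hΔ : W.Δ ≠ 0) (hW : W.IsSemistableModel)
    (hmult : p < 11 → ∃ q : ℕ, q.Prime ∧ q ≠ p ∧ (q : ℤ) ∣ W.Δ) (B : TateBasis p W) :
    ∃ k : ℕ, 0 < k ∧ ∀ Y : Matrix (Fin 2) (Fin 2) ℤ_[p],
      IsUnit (1 + (p : ℤ_[p]) ^ k • Y).det → ∃ σ, B.rep σ = 1 + (p : ℤ_[p]) ^ k • Y := by
  rcases le_or_gt 11 p with h11 | hlt
  · exact ⟨1, one_pos, fun Y hY => FA.PadicImage.exists_rep_eq B
      (FA.Root.Irred.reachAll_of_irreducible hΔ hW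
        (FA.Thirteen.modRepIsIrreducible_all hΔ hW hp.out h11) (Or.inl (by omega))) hY⟩
  obtain ⟨q, hq, hqp, hd⟩ := hmult hlt
  obtain ⟨A, hA⟩ := FA.Deform.exists_liesOverPrime hq
  have hm : MultAt W q A := ⟨hΔ, hq, hd, hW q hq hd, hA⟩
  obtain ⟨σ, hσ, hne⟩ := exists_inertia_rep_ne_one B hm
  obtain ⟨k, hk⟩ := FA.PadicImage.exists_level_of_unipotent B
    (fun e he => exists_moves_line B hΔ hW he) (FA.Two.rep_inertia_mult B hm hqp hσ hσ) hne
  refine ⟨k + 1, k.succ_pos, fun Y => ?_⟩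
  rw [pow_succ, mul_smul]
  exact hk _

/-- With level `k` the automorphisms of the `p ^ n`-torsion fixing the `p ^ k`-torsion come from
Galois. -/
theorem exists_smul_eq_of_level (B : TateBasis p W) {k : ℕ} (hk0 : 0 < k)
    (hk : ∀ Y : Matrix (Fin 2) (Fin 2) ℤ_[p],
      IsUnit (1 + (p : ℤ_[p]) ^ k • Y).det → ∃ σ, B.rep σ = 1 + (p : ℤ_[p]) ^ k • Y) (n : ℕ)
    (φ : Submodule.torsionBy ℤ ((ratCurve W)⁄Qb).Point ((p : ℤ) ^ n) ≃+
      Submodule.torsionBy ℤ ((ratCurve W)⁄Qb).Point ((p : ℤ) ^ n))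
    (hφ : ∀ x, p ^ k • x.1 = 0 → φ x = x) :
    ∃ σ : GQ, ∀ x, σ • x.1 = (φ x).1 := by
  rcases le_or_gt n k with hnk | hkn
  · refine ⟨1, fun x => ?_⟩
    obtain ⟨c, hc⟩ := Nat.pow_dvd_pow p hnk
    rw [one_smul, hφ x (by
      rw [hc, mul_comm, mul_nsmul', FA.PadicImage.mem_torsionBy_pow_iff.mp x.2, nsmul_zero])]
  obtain ⟨j, rfl⟩ := Nat.le.dest hkn.le
  have mem : ∀ v, B.φ (k + j) v ∈
      Submodule.torsionBy ℤ ((ratCurve W)⁄Qb).Point ((p : ℤ) ^ (k + j)) :=
    fun v => FA.PadicImage.mem_torsionBy_pow_iff.mpr (B.nsmul_phi _ v)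
  obtain ⟨M, hM⟩ := FA.PadicImage.exists_matrix_of_addHom B (k + j) φ.toAddMonoidHom mem
  have hfix : ∀ w, B.φ k (M *ᵥ w) = B.φ k w := fun w => by
    rw [← B.pow_compat k j (M *ᵥ w), ← hM, ← B.pow_compat k j w, AddEquiv.coe_toAddMonoidHom,
      ← Submodule.coe_smul_of_tower, ← map_nsmul, hφ _ (by
        rw [Submodule.coe_smul_of_tower, ← mul_nsmul', ← pow_add]
        exact B.nsmul_phi _ w), Submodule.coe_smul_of_tower]
  obtain ⟨Z, hMZ⟩ := FA.PadicImage.exists_eq_one_add_of_map (n := k) (A := M) (Matrix.ext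
    fun i l => by
      have h := B.phi_eq_iff.mp (hfix (Pi.single l 1)) i
      rw [mulVec_single_one] at h
      exact h.trans (by rw [Matrix.one_apply, Pi.single_apply, apply_ite (PadicInt.toZModPow k),
        map_one, map_zero]))
  obtain ⟨σ, hσ⟩ := hk Z (by
    rw [FA.PadicImage.isUnit_iff_toZMod, det_fin_two]
    simp [zero_pow hk0.ne'])
  refine ⟨σ, fun x => ?_⟩
  obtain ⟨v, hv⟩ := B.surj _ x.1 (FA.PadicImage.mem_torsionBy_pow_iff.mp x.2)
  rw [show x = ⟨B.φ (k + j) v, mem v⟩ from Subtype.ext hv.symm]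
  exact (B.rep_spec σ _ v).trans (by rw [hσ, ← hMZ]; exact (hM v).symm)

/-- **The levels of all primes have one bound**: from a level at each prime below a bound and full
image above. -/
theorem exists_levels_of {L : ℕ}
    (hlev : ∀ (l : ℕ) [Fact l.Prime], l < L → ∀ B : TateBasis l W, ∃ k : ℕ, 0 < k ∧
      ∀ Y : Matrix (Fin 2) (Fin 2) ℤ_[l],
        IsUnit (1 + (l : ℤ_[l]) ^ k • Y).det → ∃ σ, B.rep σ = 1 + (l : ℤ_[l]) ^ k • Y)
    (hreach : ∀ l : ℕ, L ≤ l → ∀ [Fact l.Prime], FA.PadicImage.ReachAll l W) :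
    ∃ m : ℕ, 0 < m ∧ ∀ (l : ℕ) [Fact l.Prime], ∃ (k : ℕ) (B : TateBasis l W), l ^ k ∣ m ∧
      ∀ Y : Matrix (Fin 2) (Fin 2) ℤ_[l],
        IsUnit (1 + (l : ℤ_[l]) ^ k • Y).det → ∃ σ, B.rep σ = 1 + (l : ℤ_[l]) ^ k • Y := by
  classical
  have hlev' : ∀ l : ℕ, ∃ k : ℕ, (L ≤ l → k = 0) ∧ ∀ [Fact l.Prime], ∃ B : TateBasis l W,
      ∀ Y : Matrix (Fin 2) (Fin 2) ℤ_[l],
        IsUnit (1 + (l : ℤ_[l]) ^ k • Y).det → ∃ σ, B.rep σ = 1 + (l : ℤ_[l]) ^ k • Y := by
    intro l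
    by_cases hl : l.Prime
    swap
    · exact ⟨0, fun _ => rfl, fun {i} => absurd i.out hl⟩
    have := Fact.mk hl
    obtain ⟨B⟩ := exists_tateBasis (p := l) W
    rcases le_or_gt L l with hLl | hlt
    · exact ⟨0, fun _ => rfl,
        fun {_} => ⟨B, fun Y hY => FA.PadicImage.exists_rep_eq B (hreach l hLl) hY⟩⟩
    · obtain ⟨k, -, hk⟩ := hlev l hlt B
      exact ⟨k, fun h => absurd h (not_le.mpr hlt), fun {_} => ⟨B, hk⟩⟩
  choose k hk0 hk using hlev'
  refine ⟨∏ l ∈ Finset.range L with l.Prime, l ^ k l,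
    Finset.prod_pos fun l hl => pow_pos (Finset.mem_filter.mp hl).2.pos _, fun l hl => ?_⟩
  obtain ⟨B, hB⟩ := @hk l hl
  refine ⟨k l, B, ?_, hB⟩
  rcases le_or_gt L l with hLl | hlt
  · rw [hk0 l hLl, pow_zero]
    exact one_dvd _
  · exact Finset.dvd_prod_of_mem (fun l => l ^ k l)
      (Finset.mem_filter.mpr ⟨Finset.mem_range.mpr hlt, hl.out⟩)

/-- The levels of all primes have one bound, for a semistable equation. -/
theorem exists_levels (hΔ : W.Δ ≠ 0) (hW : W.IsSemistableModel)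
    (hmult : ∀ l : ℕ, l.Prime → l < 11 → ∃ q : ℕ, q.Prime ∧ q ≠ l ∧ (q : ℤ) ∣ W.Δ) :
    ∃ m : ℕ, 0 < m ∧ ∀ (l : ℕ) [Fact l.Prime], ∃ (k : ℕ) (B : TateBasis l W), l ^ k ∣ m ∧
      ∀ Y : Matrix (Fin 2) (Fin 2) ℤ_[l],
        IsUnit (1 + (l : ℤ_[l]) ^ k • Y).det → ∃ σ, B.rep σ = 1 + (l : ℤ_[l]) ^ k • Y :=
  exists_levels_of (L := 11) (fun l _ _ B => exists_level hΔ hW (hmult l Fact.out) B)
    fun l h11 _ => FA.Root.Irred.reachAll_of_irreducible hΔ hW
      (FA.Thirteen.modRepIsIrreducible_all hΔ hW Fact.out h11) (Or.inl (by omega))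

end FA.OpenImage

namespace FA.Summary

/-- **Serre's open image theorem, Tate module form**: for a semistable elliptic curve over `ℚ`
and every prime `p` the image of Galois on the Tate module of a semistable model contains every
invertible matrix congruent to one modulo some power of `p`. -/
theorem serreOpenImage_tate (E : WeierstrassCurve ℚ) [E.IsElliptic]
    (h : ∀ p : ℕ, ∀ [Fact p.Prime], ∃ C : VariableChange ℚ_[p],
      HasGoodReduction ℤ_[p] (C • E.map (algebraMap ℚ ℚ_[p])) ∨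
        HasMultiplicativeReduction ℤ_[p] (C • E.map (algebraMap ℚ ℚ_[p])))
    {W : WeierstrassCurve ℤ} [(ratCurve W).IsElliptic] (hW : W.IsIntegralModelOf E)
    (hs : W.IsSemistableModel) {p : ℕ} [Fact p.Prime] (B : TateBasis p W) :
    ∃ k : ℕ, ∀ Y : Matrix (Fin 2) (Fin 2) ℤ_[p],
      IsUnit (1 + (p : ℤ_[p]) ^ k • Y).det → ∃ σ, B.rep σ = 1 + (p : ℤ_[p]) ^ k • Y := by
  obtain ⟨k, -, hk⟩ := FA.OpenImage.exists_level (FA.Frob.Δ_ne_zero_of_model hW) hs
    (FA.OpenImage.exists_bad_ne h hW hs Fact.out) B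
  exact ⟨k, hk⟩

/-- **Serre's open image theorem** for semistable elliptic curves over `ℚ`: for every prime `p`
some `k` is such that, for every `n`, Galois induces every automorphism of the `p ^ n`-torsion
fixing the points killed by `p ^ k`. -/
theorem serreOpenImage (E : WeierstrassCurve ℚ) [E.IsElliptic]
    (h : ∀ p : ℕ, ∀ [Fact p.Prime], ∃ C : VariableChange ℚ_[p],
      HasGoodReduction ℤ_[p] (C • E.map (algebraMap ℚ ℚ_[p])) ∨
        HasMultiplicativeReduction ℤ_[p] (C • E.map (algebraMap ℚ ℚ_[p])))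
    [inst : DecidableEq (AlgebraicClosure ℚ)] {p : ℕ} (hp : p.Prime) :
    ∃ k : ℕ, ∀ (n : ℕ)
      (φ : Submodule.torsionBy ℤ (E.toAffine⁄(AlgebraicClosure ℚ)).Point ((p : ℤ) ^ n) ≃+
        Submodule.torsionBy ℤ (E.toAffine⁄(AlgebraicClosure ℚ)).Point ((p : ℤ) ^ n)),
      (∀ P, p ^ k • P.1 = 0 → φ P = P) →
        ∃ σ : AlgebraicClosure ℚ ≃ₐ[ℚ] AlgebraicClosure ℚ, ∀ P,
          Affine.Point.map σ.toAlgHom P.1 = (φ P).1 := by
  obtain rfl : inst = instDecEqAlgebraicClosureRat := Subsingleton.elim _ _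
  obtain ⟨W, hW, hs⟩ := FA.Root.exists_semistableModel E
    fun q _ => FA.Root.isSemistableAt_of_reduction E (h q).choose_spec
  haveI := FA.Frob.ratCurve_isElliptic_of_Δ (FA.Frob.Δ_ne_zero_of_model hW)
  haveI := Fact.mk hp
  obtain ⟨B⟩ := exists_tateBasis (p := p) W
  obtain ⟨k, hk0, hk⟩ := FA.OpenImage.exists_level (FA.Frob.Δ_ne_zero_of_model hW) hs
    (FA.OpenImage.exists_bad_ne h hW hs hp) B
  exact ⟨k, fun n => FA.Root.exists_map_eq_of_model_fix hW _ _
    (FA.OpenImage.exists_smul_eq_of_level B hk0 hk n)⟩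

end FA.Summary

end
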