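import Fermat.Agent.Root.SummaryTorsionIso
import Fermat.Agent.Root.SummarySerreOpenImage

/-!
# Curves with the same traces have isogenous `p`-divisible groups at every prime

If a semistable elliptic curve `E` and an elliptic curve `E'` over `ℚ` have the same `a_q` at
almost all primes, then for every prime `p` (also `p = 2, 3, 5, 7`) their rational Tate modules are
isomorphic as Galois modules: there is a Galois equivariant surjection with finite kernel between
the groups of their points of `p`-power order. The image of Galois is open, so it spans all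
matrices over `ℚ_p` and the traces give a conjugating matrix (Brauer–Nesbitt); clearing its
denominators gives the map.
-/

set_option autoImplicit false
set_option linter.style.haveILetI false

noncomputable section

open Matrix WeierstrassCurve WeierstrassCurve.Affine FA.EC FA.Frob FA.RT FA.RT.Tate
open scoped WeierstrassCurve.Affine

local notation "Qb" => AlgebraicClosure ℚ
local notation "GQ" => AlgebraicClosure ℚ ≃ₐ[ℚ] AlgebraicClosure ℚ
local notation "M2" => Matrix (Fin 2) (Fin 2)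

namespace FA.TateIsogeny

variable {p : ℕ} [hp : Fact p.Prime]

/-- The matrices congruent to one modulo a power of `p` span all matrices over `ℚ_p`. -/
theorem span_map_eq_top {G : Type*} [Group G] (r : G →* M2 ℤ_[p]) {k : ℕ} (hk0 : 0 < k)
    (hk : ∀ Y : M2 ℤ_[p], IsUnit (1 + (p : ℤ_[p]) ^ k • Y).det →
      ∃ g, r g = 1 + (p : ℤ_[p]) ^ k • Y) :
    Submodule.span ℚ_[p]
      (Set.range ((PadicInt.Coe.ringHom.mapMatrix : M2 ℤ_[p] →+* M2 ℚ_[p]).toMonoidHom.comp r)) =
      ⊤ := by
  set S := Submodule.span ℚ_[p]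
    (Set.range ((PadicInt.Coe.ringHom.mapMatrix : M2 ℤ_[p] →+* M2 ℚ_[p]).toMonoidHom.comp r))
  have hu : ∀ i j : Fin 2, IsUnit (1 + (p : ℤ_[p]) ^ k • Matrix.single i j (1 : ℤ_[p])).det := by
    intro i j
    rw [FA.PadicImage.isUnit_iff_toZMod, det_fin_two]
    simp only [Matrix.add_apply, Matrix.smul_apply, smul_eq_mul, map_sub, map_mul, map_add, map_pow,
      map_natCast, ZMod.natCast_self, zero_pow hk0.ne', zero_mul, add_zero]
    simp
  have hE : ∀ i j : Fin 2, Matrix.single i j (1 : ℚ_[p]) ∈ S := fun i j => by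
    obtain ⟨g, hg⟩ := hk _ (hu i j)
    have h1 : ((r g).map PadicInt.Coe.ringHom - (r 1).map PadicInt.Coe.ringHom) ∈ S :=
      S.sub_mem (Submodule.subset_span ⟨g, rfl⟩) (Submodule.subset_span ⟨1, rfl⟩)
    have h2 := S.smul_mem ((p : ℚ_[p]) ^ k)⁻¹ h1
    convert h2 using 1
    rw [hg, map_one]
    ext a b
    simp [Matrix.one_apply, Matrix.single_apply]
    split_ifs <;> simp [hp.out.ne_zero]
  refine Submodule.eq_top_iff'.mpr fun M => ?_
  rw [matrix_eq_sum_single M]
  refine S.sum_mem fun i _ => S.sum_mem fun j _ => ?_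
  rw [show Matrix.single i j (M i j) = M i j • Matrix.single i j (1 : ℚ_[p]) by simp]
  exact S.smul_mem _ (hE i j)

variable {W W' : WeierstrassCurve ℤ} [(ratCurve W).IsElliptic] [(ratCurve W').IsElliptic]

/-- An integral matrix of nonzero determinant commuting with Galois, from equal traces and an
image spanning all matrices over `ℚ_p`. -/
theorem exists_matrix_of_span (B : TateBasis p W) (B' : TateBasis p W')
    (hspan : Submodule.span ℚ_[p] (Set.range
      ((PadicInt.Coe.ringHom.mapMatrix : M2 ℤ_[p] →+* M2 ℚ_[p]).toMonoidHom.comp B.rep)) = ⊤)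
    (htr : ∀ σ, (B.rep σ).trace = (B'.rep σ).trace) :
    ∃ P : M2 ℤ_[p], P.det ≠ 0 ∧ ∀ σ, B'.rep σ * P = P * B.rep σ := by
  let ι : ℤ_[p] →+* ℚ_[p] := PadicInt.Coe.ringHom
  obtain ⟨Q, hQ, hcomm⟩ := FA.Density.exists_conj_of_trace_eq (ι.mapMatrix.toMonoidHom.comp B.rep)
    (ι.mapMatrix.toMonoidHom.comp B'.rep) hspan fun σ => by
      show ((B.rep σ).map ι).trace = ((B'.rep σ).map ι).trace
      rw [← AddMonoidHom.map_trace, ← AddMonoidHom.map_trace, htr]
  obtain ⟨b, hb⟩ := IsLocalization.exist_integer_multiples_of_finite (nonZeroDivisors ℤ_[p])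
    fun ij : Fin 2 × Fin 2 => Q ij.1 ij.2
  choose c hc using hb
  let P : M2 ℤ_[p] := Matrix.of fun i j => c (i, j)
  have hP : P.map ι = ι b • Q := by
    ext i j
    exact hc (i, j)
  have hb0 : ι b ≠ 0 := fun h => nonZeroDivisors.coe_ne_zero b (Subtype.val_injective h)
  refine ⟨P, fun h => ?_, fun σ => ?_⟩
  · have h2 := congrArg Matrix.det hP
    rw [← RingHom.mapMatrix_apply, ← RingHom.map_det, h, map_zero, det_smul] at h2
    exact mul_ne_zero (pow_ne_zero _ hb0) hQ.ne_zero h2.symm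
  · refine Matrix.map_injective (f := ι) Subtype.val_injective ?_
    show (B'.rep σ * P).map ι = (P * B.rep σ).map ι
    rw [Matrix.map_mul, Matrix.map_mul, hP, mul_smul_comm, smul_mul_assoc]
    exact congrArg (ι b • ·) (hcomm σ)

/-- An integral matrix of nonzero determinant commuting with Galois, from equal traces. -/
theorem exists_matrix (B : TateBasis p W) (B' : TateBasis p W') {k : ℕ} (hk0 : 0 < k)
    (hk : ∀ Y : M2 ℤ_[p], IsUnit (1 + (p : ℤ_[p]) ^ k • Y).det →
      ∃ σ, B.rep σ = 1 + (p : ℤ_[p]) ^ k • Y)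
    (htr : ∀ σ, (B.rep σ).trace = (B'.rep σ).trace) :
    ∃ P : M2 ℤ_[p], P.det ≠ 0 ∧ ∀ σ, B'.rep σ * P = P * B.rep σ :=
  exists_matrix_of_span B B' (span_map_eq_top B.rep hk0 hk) htr

/-- A matrix of nonzero determinant commuting with a set of automorphisms gives a surjection with
finite kernel between the points of `p`-power order equivariant for that set. -/
theorem exists_hom_on (B : TateBasis p W) (B' : TateBasis p W') {P : M2 ℤ_[p]} (hP : P.det ≠ 0)
    {S : Set GQ} (hcomm : ∀ σ ∈ S, B'.rep σ * P = P * B.rep σ) :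
    ∃ f : AddCommGroup.primaryComponent (Pts W) p →+ AddCommGroup.primaryComponent (Pts W') p,
      Function.Surjective f ∧ Finite f.ker ∧
        ∀ σ ∈ S, ∀ x y, σ • x.1 = y.1 → σ • (f x).1 = (f y).1 := by
  set k := P.det.valuation
  set u := PadicInt.unitCoeff hP
  have hdet : P.det = (u : ℤ_[p]) * (p : ℤ_[p]) ^ k := PadicInt.unitCoeff_spec hP
  have hup : ∀ n m v, B.φ n v = B.φ (n + m) (p ^ m • v) := fun n m v => by
    rw [map_nsmul, B.pow_compat]
  have hup' : ∀ n m v, B'.φ n v = B'.φ (n + m) (p ^ m • v) := fun n m v => by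
    rw [map_nsmul, B'.pow_compat]
  -- well defined
  have hwd : ∀ n m v w, B.φ n v = B.φ m w → B'.φ n (P *ᵥ v) = B'.φ m (P *ᵥ w) := by
    intro n m v w h
    rw [hup n m, hup m n, add_comm m n, B.phi_eq_iff] at h
    rw [hup' n m, hup' m n, add_comm m n, B'.phi_eq_iff, ← mulVec_smul, ← mulVec_smul]
    intro i
    simp only [RingHom.map_mulVec]
    exact congrFun (congrArg _ (funext h)) i
  have hsurj : ∀ x : AddCommGroup.primaryComponent (Pts W) p, ∃ n v, B.φ n v = x.1 := fun x => by
    obtain ⟨n, hn⟩ := AddCommGroup.mem_primaryComponent.mp x.2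
    exact ⟨n, B.surj n x.1 hn⟩
  choose N c hc using hsurj
  let f₀ : AddCommGroup.primaryComponent (Pts W) p → AddCommGroup.primaryComponent (Pts W') p :=
    fun x => ⟨B'.φ (N x) (P *ᵥ c x),
      AddCommGroup.mem_primaryComponent.mpr ⟨N x, B'.nsmul_phi _ _⟩⟩
  let f := AddMonoidHom.mk' f₀ fun a b => Subtype.ext <| by
    show B'.φ (N (a + b)) (P *ᵥ c (a + b)) = B'.φ (N a) (P *ᵥ c a) + B'.φ (N b) (P *ᵥ c b)
    rw [hup' (N a) (N b), hup' (N b) (N a), add_comm (N b) (N a), ← mulVec_smul, ← mulVec_smul,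
      ← map_add, ← mulVec_add]
    refine hwd _ _ _ _ ?_
    rw [hc, map_add, ← hup, add_comm (N a) (N b), ← hup, hc, hc]
    rfl
  have hf : ∀ (n : ℕ) v x, B.φ n v = Subtype.val x → (f x).1 = B'.φ n (P *ᵥ v) :=
    fun n v x h => hwd _ _ _ _ ((hc x).trans h.symm)
  refine ⟨f, fun y => ?_, ?_, fun σ hσ x y hxy => ?_⟩
  · obtain ⟨n, hn⟩ := AddCommGroup.mem_primaryComponent.mp y.2
    obtain ⟨w, hw⟩ := B'.surj n y.1 hn
    set v : Fin 2 → ℤ_[p] := ((u⁻¹ : ℤ_[p]ˣ) : ℤ_[p]) • (P.adjugate *ᵥ w) with hv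
    refine ⟨⟨B.φ (n + k) v, AddCommGroup.mem_primaryComponent.mpr ⟨n + k, B.nsmul_phi _ _⟩⟩,
      Subtype.ext ?_⟩
    rw [hf (n + k) v _ rfl, ← hw, hup' n k, hv, mulVec_smul, mulVec_mulVec, mul_adjugate,
      smul_mulVec, one_mulVec, smul_smul, hdet, ← mul_assoc, Units.inv_mul, one_mul,
      ← Nat.cast_pow, Nat.cast_smul_eq_nsmul]
  · have hfin : Finite (Submodule.torsionBy ℤ ((ratCurve W)⁄Qb).Point ((p ^ k : ℕ) : ℤ)) :=
      finite_torsion (ratCurve W) (pow_ne_zero _ hp.out.ne_zero)
    have hk : ∀ x : f.ker, p ^ k • x.1.1 = 0 := fun x => by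
      have h0 : B'.φ (N x.1) (P *ᵥ c x.1) = 0 := congrArg Subtype.val x.2
      rw [B'.ker] at h0
      rw [← hc x.1, ← map_nsmul, B.ker]
      intro i
      have h2 : PadicInt.toZModPow (N x.1) ((P.adjugate *ᵥ (P *ᵥ c x.1)) i) = 0 := by
        rw [RingHom.map_mulVec,
          show ⇑(PadicInt.toZModPow (p := p) (N x.1)) ∘ (P *ᵥ c x.1) = 0 from funext h0,
          mulVec_zero, Pi.zero_apply]
      rw [mulVec_mulVec, adjugate_mul, smul_mulVec, one_mulVec, Pi.smul_apply, smul_eq_mul, hdet,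
        mul_assoc, map_mul, IsUnit.mul_right_eq_zero (u.isUnit.map _)] at h2
      rwa [Pi.smul_apply, nsmul_eq_mul, Nat.cast_pow]
    refine Finite.of_injective (β := Submodule.torsionBy ℤ ((ratCurve W)⁄Qb).Point
      ((p ^ k : ℕ) : ℤ)) (fun x => ⟨x.1.1, (mem_torsion_iff W).mpr (hk x)⟩)
      fun x y h => Subtype.ext (Subtype.ext (congrArg Subtype.val h :))
  · rw [hf _ _ y ((B.rep_spec σ (N x) (c x)).symm.trans (by rw [hc, hxy])), hf _ _ x (hc x),
      B'.rep_spec, mulVec_mulVec, mulVec_mulVec, hcomm σ hσ]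

/-- A matrix of nonzero determinant commuting with Galois gives an equivariant surjection with
finite kernel between the points of `p`-power order. -/
theorem exists_hom (B : TateBasis p W) (B' : TateBasis p W') {P : M2 ℤ_[p]} (hP : P.det ≠ 0)
    (hcomm : ∀ σ, B'.rep σ * P = P * B.rep σ) :
    ∃ f : AddCommGroup.primaryComponent (Pts W) p →+ AddCommGroup.primaryComponent (Pts W') p,
      Function.Surjective f ∧ Finite f.ker ∧
        ∀ (σ : GQ) x y, σ • x.1 = y.1 → σ • (f x).1 = (f y).1 := by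
  obtain ⟨f, h1, h2, h3⟩ := exists_hom_on B B' hP (S := Set.univ) fun σ _ => hcomm σ
  exact ⟨f, h1, h2, fun σ => h3 σ trivial⟩

omit hp [(ratCurve W).IsElliptic] [(ratCurve W').IsElliptic] in
/-- Such maps pass from models to curves, for any set of automorphisms. -/
theorem exists_hom_of_models_on {E E' : WeierstrassCurve ℚ} [E.IsElliptic] [E'.IsElliptic]
    (hW : W.IsIntegralModelOf E) (hW' : W'.IsIntegralModelOf E') {S : Set GQ}
    (h : ∃ f : AddCommGroup.primaryComponent (Pts W) p →+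
        AddCommGroup.primaryComponent (Pts W') p,
      Function.Surjective f ∧ Finite f.ker ∧
        ∀ σ ∈ S, ∀ x y, σ • x.1 = y.1 → σ • (f x).1 = (f y).1) :
    ∃ f : AddCommGroup.primaryComponent (E.toAffine⁄Qb).Point p →+
        AddCommGroup.primaryComponent (E'.toAffine⁄Qb).Point p,
      Function.Surjective f ∧ Finite f.ker ∧
        ∀ σ ∈ S, ∀ P Q, Affine.Point.map σ.toAlgHom P.1 = Q.1 →
          Affine.Point.map σ.toAlgHom (f P).1 = (f Q).1 := by
  obtain ⟨a, ha⟩ := FA.Root.exists_equiv_of_model hW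
  obtain ⟨a', ha'⟩ := FA.Root.exists_equiv_of_model hW'
  obtain ⟨f, hfs, hfk, hf⟩ := h
  let T : ∀ {A B : Type} [AddCommGroup A] [AddCommGroup B], (A ≃+ B) →
      AddCommGroup.primaryComponent A p ≃+ AddCommGroup.primaryComponent B p := fun {A B} _ _ c =>
    { toEquiv := c.toEquiv.subtypeEquiv fun Q => by
        simp only [AddCommGroup.mem_primaryComponent]
        exact exists_congr fun n => ⟨fun hQ => (map_nsmul c _ Q).symm.trans (by rw [hQ, map_zero]),
          fun hQ => c.injective (by rw [map_nsmul, map_zero]; exact hQ)⟩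
      map_add' := fun u v => Subtype.ext (map_add c u.1 v.1) }
  refine ⟨((T a').toAddMonoidHom.comp f).comp (T a).symm.toAddMonoidHom,
    ((T a').surjective.comp hfs).comp (T a).symm.surjective, ?_, fun σ hσ P Q hPQ => ?_⟩
  · refine Finite.of_injective (β := f.ker)
      (fun x => ⟨(T a).symm x.1, (T a').injective (x.2.trans (map_zero _).symm)⟩)
      fun x y h => Subtype.ext ((T a).symm.injective (congrArg Subtype.val h :))
  obtain ⟨x, rfl⟩ := (T a).surjective P
  obtain ⟨y, rfl⟩ := (T a).surjective Q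
  simp only [AddMonoidHom.comp_apply, AddEquiv.coe_toAddMonoidHom, AddEquiv.symm_apply_apply]
  show Affine.Point.map σ.toAlgHom (a' (f x).1) = a' (f y).1
  rw [← ha', hf σ hσ x y (a.injective ((ha σ x.1).trans hPQ))]

omit hp [(ratCurve W).IsElliptic] [(ratCurve W').IsElliptic] in
/-- Such maps pass from models to curves. -/
theorem exists_hom_of_models {E E' : WeierstrassCurve ℚ} [E.IsElliptic] [E'.IsElliptic]
    (hW : W.IsIntegralModelOf E) (hW' : W'.IsIntegralModelOf E')
    (h : ∃ f : AddCommGroup.primaryComponent (Pts W) p →+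
        AddCommGroup.primaryComponent (Pts W') p,
      Function.Surjective f ∧ Finite f.ker ∧
        ∀ (σ : GQ) x y, σ • x.1 = y.1 → σ • (f x).1 = (f y).1) :
    ∃ f : AddCommGroup.primaryComponent (E.toAffine⁄Qb).Point p →+
        AddCommGroup.primaryComponent (E'.toAffine⁄Qb).Point p,
      Function.Surjective f ∧ Finite f.ker ∧
        ∀ (σ : GQ) P Q, Affine.Point.map σ.toAlgHom P.1 = Q.1 →
          Affine.Point.map σ.toAlgHom (f P).1 = (f Q).1 := by
  obtain ⟨f, h1, h2, h3⟩ := h
  obtain ⟨g, g1, g2, g3⟩ :=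
    exists_hom_of_models_on hW hW' (S := Set.univ) ⟨f, h1, h2, fun σ _ => h3 σ⟩
  exact ⟨g, g1, g2, fun σ => g3 σ trivial⟩

end FA.TateIsogeny

namespace FA.Summary

open FA.TateIsogeny

/-- **Equal traces give isomorphic rational Tate modules at every prime**: if `E` is semistable and
`E'` has the same `a_q` at almost all primes, then for every prime `p` there is a Galois
equivariant surjection with finite kernel from the points of `p`-power order of `E` to those of
`E'`. -/
theorem tateIsogeny_of_traces (E E' : WeierstrassCurve ℚ) [E.IsElliptic] [E'.IsElliptic]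
    (h : ∀ p : ℕ, ∀ [Fact p.Prime], ∃ C : VariableChange ℚ_[p],
      HasGoodReduction ℤ_[p] (C • E.map (algebraMap ℚ ℚ_[p])) ∨
        HasMultiplicativeReduction ℤ_[p] (C • E.map (algebraMap ℚ ℚ_[p])))
    (S : Finset ℕ) (heq : ∀ q : ℕ, q.Prime → q ∉ S → E.LFunction q = E'.LFunction q)
    [inst : DecidableEq (AlgebraicClosure ℚ)] {p : ℕ} (hp : p.Prime) :
    ∃ f : AddCommGroup.primaryComponent (E.toAffine⁄(AlgebraicClosure ℚ)).Point p →+
        AddCommGroup.primaryComponent (E'.toAffine⁄(AlgebraicClosure ℚ)).Point p,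
      Function.Surjective f ∧ Finite f.ker ∧
        ∀ (σ : AlgebraicClosure ℚ ≃ₐ[ℚ] AlgebraicClosure ℚ) P Q,
          Affine.Point.map σ.toAlgHom P.1 = Q.1 →
            Affine.Point.map σ.toAlgHom (f P).1 = (f Q).1 := by
  obtain rfl : inst = instDecEqAlgebraicClosureRat := Subsingleton.elim _ _
  obtain ⟨W, hW, hs⟩ := FA.Root.exists_semistableModel E
    fun q _ => FA.Root.isSemistableAt_of_reduction E (h q).choose_spec
  obtain ⟨W', hW'⟩ := FA.Frob.exists_integralModel E'
  have hΔ := FA.Frob.Δ_ne_zero_of_model hW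
  have hΔ' := FA.Frob.Δ_ne_zero_of_model hW'
  haveI := FA.Frob.ratCurve_isElliptic_of_Δ hΔ
  haveI := FA.Frob.ratCurve_isElliptic_of_Δ hΔ'
  haveI := Fact.mk hp
  obtain ⟨B⟩ := exists_tateBasis (p := p) W
  obtain ⟨B'⟩ := exists_tateBasis (p := p) W'
  obtain ⟨k, hk0, hk⟩ := FA.OpenImage.exists_level hΔ hs (FA.OpenImage.exists_bad_ne h hW hs hp) B
  obtain ⟨P, hP, hcomm⟩ := exists_matrix B B' hk0 hk
    (FA.TorsionIso.trace_rep_eq_of_LFunction hW hW' B B' S heq)
  exact exists_hom_of_models hW hW' (exists_hom B B' hP hcomm)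

end FA.Summary

end
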