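import Fermat.Agent.Root.SummaryAbelianTorsion
import Fermat.Agent.Root.SummaryTateIsogeny
import Fermat.Agent.Root.SummaryTraces
import Fermat.Agent.Root.SummarySurjectiveTwist

/-!
# Torsion and traces for curves with a semistable twist

The consequences of the open image for semistable curves which involve commutators, point counts
and curves with equal traces, for curves with a semistable quadratic twist and hence under the `j`
criterion: a twist changes the action of Galois by a sign, which disappears in commutators and is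
the same for two curves twisted by the same number.
-/

set_option autoImplicit false
set_option linter.style.haveILetI false

noncomputable section

open WeierstrassCurve
open scoped WeierstrassCurve.Affine

local notation "Qb" => AlgebraicClosure ℚ
local notation "GQ" => AlgebraicClosure ℚ ≃ₐ[ℚ] AlgebraicClosure ℚ

namespace FA.TwistForms

/-- Twisting by `d` multiplies almost all traces by signs depending on `d` alone. -/
theorem exists_twist_trace (E : WeierstrassCurve ℚ) [E.IsElliptic] {d : ℚ} (hd : d ≠ 0) :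
    ∃ S : Finset ℕ, ∀ l : ℕ, l.Prime → l ∉ S → ∀ [Fact l.Prime],
      (FA.Twists.quadTwist E d).LFunction l =
        legendreSym l (d.num * d.den) * E.LFunction l := by
  obtain ⟨W, hW⟩ := FA.Frob.exists_integralModel E
  have hΔ : W.Δ ≠ 0 := FA.Frob.Δ_ne_zero_of_model hW
  obtain ⟨C, hC⟩ := id hW
  set D : ℤ := d.num * d.den with hD
  have hD0 : D ≠ 0 := mul_ne_zero (Rat.num_ne_zero.mpr hd) (Int.natCast_ne_zero.mpr d.den_nz)
  have hDd : (D : ℚ) = (d.den : ℚ) ^ 2 * d := by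
    rw [hD, Int.cast_mul, Int.cast_natCast, pow_two, mul_assoc, Rat.den_mul_eq_num]
    ring
  set w : ℚ := ((C.u⁻¹ : ℚˣ) : ℚ)
  have hw0 : w ≠ 0 := Units.ne_zero _
  have h4 : (W.c₄ : ℚ) = w ^ 4 * E.c₄ := by
    have h := congrArg WeierstrassCurve.c₄ hC
    rw [variableChange_c₄, map_c₄, eq_intCast] at h
    exact h.symm
  have h6 : (W.c₆ : ℚ) = w ^ 6 * E.c₆ := by
    have h := congrArg WeierstrassCurve.c₆ hC
    rw [variableChange_c₆, map_c₆, eq_intCast] at h
    exact h.symm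
  haveI := FA.Root.quadTwist_isElliptic E hd
  let W₀ : WeierstrassCurve ℤ := FA.Twists.short W.c₄ W.c₆
  let W₁ : WeierstrassCurve ℤ := FA.Twists.short (D ^ 2 * W.c₄) (D ^ 3 * W.c₆)
  have hW₀ : W₀.IsIntegralModelOf E := FA.Twists.isIntegralModelOf_of_invariants
    (w := 6 * w) (mul_ne_zero (by norm_num) hw0)
    (by simp only [W₀, FA.Twists.short_c₄]; push_cast; rw [h4]; ring)
    (by simp only [W₀, FA.Twists.short_c₆]; push_cast; rw [h6]; ring)
  have hW₁ : W₁.IsIntegralModelOf (FA.Twists.quadTwist E d) :=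
    FA.Twists.isIntegralModelOf_of_invariants (w := d.den * w)
      (mul_ne_zero (Nat.cast_ne_zero.mpr d.den_nz) hw0)
      (by simp only [W₁, FA.Twists.quadTwist, FA.Twists.short_c₄]; push_cast; rw [hDd, h4]; ring)
      (by simp only [W₁, FA.Twists.quadTwist, FA.Twists.short_c₆]; push_cast; rw [hDd, h6]; ring)
  have hΔ₀ : W₀.Δ = 6 ^ 12 * W.Δ := by
    simp only [W₀, FA.Twists.short_Δ, ← W.c_relation]; ring
  have hΔ₁ : W₁.Δ = D ^ 6 * W₀.Δ := by
    simp only [W₁, W₀, FA.Twists.short_Δ]; ring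
  refine ⟨((6 : ℤ) * D * W.Δ).natAbs.divisors, fun l hl hlS hf => ?_⟩
  have hn : ¬ (l : ℤ) ∣ 6 * D * W.Δ := fun h => hlS (Nat.mem_divisors.mpr
    ⟨Int.natCast_dvd.mp h, Int.natAbs_ne_zero.mpr (by positivity)⟩)
  have hl' : Prime (l : ℤ) := Nat.prime_iff_prime_int.mp hl
  have h6l : ¬ (l : ℤ) ∣ 6 := fun h => hn ((h.mul_right D).mul_right W.Δ)
  have hDl : ¬ (l : ℤ) ∣ D := fun h => hn ((h.mul_left 6).mul_right W.Δ)
  have hg₀ : ¬ (l : ℤ) ∣ W₀.Δ := fun h => by
    rw [hΔ₀] at h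
    exact (hl'.dvd_or_dvd h).elim (fun h => h6l (hl'.dvd_of_dvd_pow h)) fun h =>
      hn (h.mul_left (6 * D))
  have hg₁ : ¬ (l : ℤ) ∣ W₁.Δ := fun h => by
    rw [hΔ₁] at h
    exact (hl'.dvd_or_dvd h).elim (fun h => hDl (hl'.dvd_of_dvd_pow h)) hg₀
  rw [FA.Root.LFunction_apply_prime _ W₁ hW₁ hl hg₁, FA.Root.LFunction_apply_prime E W₀ hW₀ hl hg₀]
  exact FA.Twists.apOfModel_short_twist (fun e => h6l (by rw [e]; norm_num)) hDl hg₀

/-- Curves with equal traces outside a finite set have twists with the same property. -/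
theorem exists_traces_twist (E E' : WeierstrassCurve ℚ) [E.IsElliptic] [E'.IsElliptic] {d : ℚ}
    (hd : d ≠ 0) (S : Finset ℕ)
    (heq : ∀ q : ℕ, q.Prime → q ∉ S → E.LFunction q = E'.LFunction q) :
    ∃ T : Finset ℕ, ∀ q : ℕ, q.Prime → q ∉ T →
      (FA.Twists.quadTwist E d).LFunction q = (FA.Twists.quadTwist E' d).LFunction q := by
  obtain ⟨S₁, h₁⟩ := exists_twist_trace E hd
  obtain ⟨S₂, h₂⟩ := exists_twist_trace E' hd
  refine ⟨S ∪ S₁ ∪ S₂, fun q hq hqT => ?_⟩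
  simp only [Finset.mem_union, not_or] at hqT
  haveI := Fact.mk hq
  rw [h₁ q hq hqT.1.2, h₂ q hq hqT.2, heq q hq hqT.1.1]

/-- The isomorphisms of two curves with their twists by the same number commute with Galois up to
the same sign. -/
theorem exists_twist_equiv_pair (E E' : WeierstrassCurve ℚ) [E.IsElliptic] [E'.IsElliptic]
    {d : ℚ} (hd : d ≠ 0) :
    ∃ (e : ((FA.Twists.quadTwist E d).toAffine⁄Qb).Point ≃+ (E.toAffine⁄Qb).Point)
      (e' : ((FA.Twists.quadTwist E' d).toAffine⁄Qb).Point ≃+ (E'.toAffine⁄Qb).Point),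
      ∀ σ : GQ,
        ((∀ Q, Affine.Point.map (W' := E.toAffine) σ.toAlgHom (e Q) = e (σ • Q)) ∧
          ∀ Q, Affine.Point.map (W' := E'.toAffine) σ.toAlgHom (e' Q) = e' (σ • Q)) ∨
        ((∀ Q, Affine.Point.map (W' := E.toAffine) σ.toAlgHom (e Q) = -e (σ • Q)) ∧
          ∀ Q, Affine.Point.map (W' := E'.toAffine) σ.toAlgHom (e' Q) = -e' (σ • Q)) := by
  obtain ⟨s, e, hs, he⟩ := FA.Root.exists_twist_equiv_sqrt E hd
  obtain ⟨s', e', hs', he'⟩ := FA.Root.exists_twist_equiv_sqrt E' hd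
  refine ⟨e, e', fun σ => ?_⟩
  have hss : s' = s ∨ s' = -s := sq_eq_sq_iff_eq_or_eq_neg.mp (hs'.trans hs.symm)
  have hσ : σ s = s ∨ σ s = -s :=
    sq_eq_sq_iff_eq_or_eq_neg.1 (by rw [← map_pow, hs, σ.commutes])
  rcases hσ with h | h
  · have h' : σ s' = s' := by rcases hss with e | e <;> simp [e, h]
    exact Or.inl ⟨fun Q => (he σ Q).1 h, fun Q => (he' σ Q).1 h'⟩
  · have h' : σ s' = -s' := by rcases hss with e | e <;> simp [e, h]
    exact Or.inr ⟨fun Q => (he σ Q).2 h, fun Q => (he' σ Q).2 h'⟩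

/-- An isomorphism of Galois modules of torsion of the twists gives one of the curves. -/
theorem exists_equiv_of_twist (E E' : WeierstrassCurve ℚ) [E.IsElliptic] [E'.IsElliptic] {d : ℚ}
    (hd : d ≠ 0) (N : ℤ)
    (h : ∃ f : Submodule.torsionBy ℤ ((FA.Twists.quadTwist E d).toAffine⁄Qb).Point N ≃+
        Submodule.torsionBy ℤ ((FA.Twists.quadTwist E' d).toAffine⁄Qb).Point N,
      ∀ (σ : GQ) P Q, Affine.Point.map σ.toAlgHom P.1 = Q.1 →
        Affine.Point.map σ.toAlgHom (f P).1 = (f Q).1) :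
    ∃ f : Submodule.torsionBy ℤ (E.toAffine⁄Qb).Point N ≃+
        Submodule.torsionBy ℤ (E'.toAffine⁄Qb).Point N,
      ∀ (σ : GQ) P Q, Affine.Point.map σ.toAlgHom P.1 = Q.1 →
        Affine.Point.map σ.toAlgHom (f P).1 = (f Q).1 := by
  obtain ⟨e, e', he⟩ := exists_twist_equiv_pair E E' hd
  obtain ⟨eT, heT⟩ := FA.Root.exists_torsionBy_congr e N
  obtain ⟨eT', heT'⟩ := FA.Root.exists_torsionBy_congr e' N
  obtain ⟨f, hf⟩ := h
  refine ⟨(eT.symm.trans f).trans eT', fun σ P Q hPQ => ?_⟩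
  obtain ⟨x, rfl⟩ := eT.surjective P
  obtain ⟨y, rfl⟩ := eT.surjective Q
  simp only [AddEquiv.trans_apply, AddEquiv.symm_apply_apply]
  rw [heT, heT] at hPQ
  rw [heT', heT']
  rcases he σ with ⟨h1, h2⟩ | ⟨h1, h2⟩
  · rw [h1] at hPQ
    rw [h2]
    exact congrArg e' (hf σ x y (e.injective hPQ))
  · rw [h1, ← map_neg] at hPQ
    rw [h2, ← map_neg]
    refine congrArg e' (Eq.trans (congrArg Neg.neg (hf σ x (-y) ?_)) ?_)
    · exact (neg_eq_iff_eq_neg.mp (e.injective hPQ)).trans rfl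
    · simp

/-- The same for the groups of points of `p`-power order. -/
theorem exists_hom_of_twist (E E' : WeierstrassCurve ℚ) [E.IsElliptic] [E'.IsElliptic] {d : ℚ}
    (hd : d ≠ 0) {p : ℕ}
    (h : ∃ f : AddCommGroup.primaryComponent ((FA.Twists.quadTwist E d).toAffine⁄Qb).Point p →+
        AddCommGroup.primaryComponent ((FA.Twists.quadTwist E' d).toAffine⁄Qb).Point p,
      Function.Surjective f ∧ Finite f.ker ∧
        ∀ (σ : GQ) P Q, Affine.Point.map σ.toAlgHom P.1 = Q.1 →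
          Affine.Point.map σ.toAlgHom (f P).1 = (f Q).1) :
    ∃ f : AddCommGroup.primaryComponent (E.toAffine⁄Qb).Point p →+
        AddCommGroup.primaryComponent (E'.toAffine⁄Qb).Point p,
      Function.Surjective f ∧ Finite f.ker ∧
        ∀ (σ : GQ) P Q, Affine.Point.map σ.toAlgHom P.1 = Q.1 →
          Affine.Point.map σ.toAlgHom (f P).1 = (f Q).1 := by
  obtain ⟨e, e', he⟩ := exists_twist_equiv_pair E E' hd
  obtain ⟨f, hfs, hfk, hf⟩ := h
  let T : ∀ {A B : Type} [AddCommGroup A] [AddCommGroup B], (A ≃+ B) →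
      AddCommGroup.primaryComponent A p ≃+ AddCommGroup.primaryComponent B p := fun {A B} _ _ c =>
    { toEquiv := c.toEquiv.subtypeEquiv fun Q => by
        simp only [AddCommGroup.mem_primaryComponent]
        exact exists_congr fun n => ⟨fun hQ => (map_nsmul c _ Q).symm.trans (by rw [hQ, map_zero]),
          fun hQ => c.injective (by rw [map_nsmul, map_zero]; exact hQ)⟩
      map_add' := fun u v => Subtype.ext (map_add c u.1 v.1) }
  refine ⟨((T e').toAddMonoidHom.comp f).comp (T e).symm.toAddMonoidHom,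
    ((T e').surjective.comp hfs).comp (T e).symm.surjective, ?_, fun σ P Q hPQ => ?_⟩
  · refine Finite.of_injective (β := f.ker)
      (fun x => ⟨(T e).symm x.1, (T e').injective (x.2.trans (map_zero _).symm)⟩)
      fun x y h => Subtype.ext ((T e).symm.injective (congrArg Subtype.val h :))
  obtain ⟨x, rfl⟩ := (T e).surjective P
  obtain ⟨y, rfl⟩ := (T e).surjective Q
  simp only [AddMonoidHom.comp_apply, AddEquiv.coe_toAddMonoidHom, AddEquiv.symm_apply_apply]
  show Affine.Point.map (W' := E'.toAffine) σ.toAlgHom (e' (f x).1) = e' (f y).1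
  replace hPQ : Affine.Point.map (W' := E.toAffine) σ.toAlgHom (e x.1) = e y.1 := hPQ
  rcases he σ with ⟨h1, h2⟩ | ⟨h1, h2⟩
  · rw [h1] at hPQ
    rw [h2]
    exact congrArg e' (hf σ x y (e.injective hPQ))
  · rw [h1, ← map_neg] at hPQ
    rw [h2, ← map_neg]
    refine congrArg e' (Eq.trans (congrArg Neg.neg (hf σ x (-y) ?_)) ?_)
    · exact neg_eq_iff_eq_neg.mp (e.injective hPQ)
    · simp

/-- The sign of a twist disappears in commutators. -/
theorem finite_fixed_commutators_of_twist (E : WeierstrassCurve ℚ) [E.IsElliptic] {d : ℚ}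
    (hd : d ≠ 0) (K : IntermediateField ℚ Qb)
    (h : {P : ((FA.Twists.quadTwist E d).toAffine⁄Qb).Point | IsOfFinAddOrder P ∧
      ∀ σ ∈ K.fixingSubgroup, ∀ τ ∈ K.fixingSubgroup,
        Affine.Point.map (σ * τ * σ⁻¹ * τ⁻¹).toAlgHom P = P}.Finite) :
    {P : (E.toAffine⁄Qb).Point | IsOfFinAddOrder P ∧
      ∀ σ ∈ K.fixingSubgroup, ∀ τ ∈ K.fixingSubgroup,
        Affine.Point.map (σ * τ * σ⁻¹ * τ⁻¹).toAlgHom P = P}.Finite := by
  haveI := FA.Root.quadTwist_isElliptic E hd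
  obtain ⟨s, e, hs, he⟩ := FA.Root.exists_twist_equiv_sqrt E hd
  refine (h.image e).subset ?_
  rintro P ⟨hP, hfix⟩
  obtain ⟨Q, rfl⟩ := e.surjective P
  refine ⟨Q, ⟨?_, fun σ hσ τ hτ => e.injective ?_⟩, rfl⟩
  · simpa using e.symm.toAddMonoidHom.isOfFinAddOrder hP
  have hsign : ∀ g : GQ, g s = s ∨ g s = -s := fun g =>
    sq_eq_sq_iff_eq_or_eq_neg.1 (by rw [← map_pow, hs, g.commutes])
  have hinv : ∀ g : GQ, (g s = s ∧ g⁻¹ s = s) ∨ (g s = -s ∧ g⁻¹ s = -s) := fun g =>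
    (hsign g).imp (fun h => ⟨h, g.injective (by rw [h]; exact g.apply_symm_apply s)⟩)
      fun h => ⟨h, g.injective (by rw [map_neg, h, neg_neg]; exact g.apply_symm_apply s)⟩
  have hc : (σ * τ * σ⁻¹ * τ⁻¹) s = s := by
    rcases hinv σ with ⟨h1, h1'⟩ | ⟨h1, h1'⟩ <;> rcases hinv τ with ⟨h2, h2'⟩ | ⟨h2, h2'⟩ <;>
      simp only [AlgEquiv.mul_apply, h2', map_neg, h1', h2, h1, neg_neg]
  exact ((he _ Q).1 hc).symm.trans (hfix σ hσ τ hτ)

end FA.TwistForms

namespace FA.Summary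

open FA.TwistForms

variable (E E' : WeierstrassCurve ℚ) [E.IsElliptic] [E'.IsElliptic]

/-- **Finitely many torsion points over abelian extensions of a number field** for a curve with a
semistable quadratic twist. -/
theorem finite_torsion_abelian_twist {d : ℚ} (hd : d ≠ 0)
    (h : ∀ p : ℕ, ∀ [Fact p.Prime], ∃ C : VariableChange ℚ_[p],
      HasGoodReduction ℤ_[p] (C • (⟨0, 0, 0, -27 * (d ^ 2 * E.c₄), -54 * (d ^ 3 * E.c₆)⟩ :
          WeierstrassCurve ℚ).map (algebraMap ℚ ℚ_[p])) ∨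
        HasMultiplicativeReduction ℤ_[p] (C • (⟨0, 0, 0, -27 * (d ^ 2 * E.c₄),
          -54 * (d ^ 3 * E.c₆)⟩ : WeierstrassCurve ℚ).map (algebraMap ℚ ℚ_[p])))
    [inst : DecidableEq (AlgebraicClosure ℚ)] (K : IntermediateField ℚ (AlgebraicClosure ℚ))
    [FiniteDimensional ℚ K] :
    {P : (E.toAffine⁄(AlgebraicClosure ℚ)).Point | IsOfFinAddOrder P ∧
      ∀ σ ∈ K.fixingSubgroup, ∀ τ ∈ K.fixingSubgroup,
        Affine.Point.map (σ * τ * σ⁻¹ * τ⁻¹).toAlgHom P = P}.Finite := by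
  obtain rfl : inst = instDecEqAlgebraicClosureRat := Subsingleton.elim _ _
  haveI := FA.Root.quadTwist_isElliptic E hd
  exact finite_fixed_commutators_of_twist E hd K
    (finite_torsion_abelian (FA.Twists.quadTwist E d) h K)

/-- The same under the criterion by the `j`-invariant. -/
theorem finite_torsion_abelian_of_j
    (h : ∀ p : ℕ, ∀ [Fact p.Prime], (∃ C : VariableChange ℚ_[p],
      HasGoodReduction ℤ_[p] (C • E.map (algebraMap ℚ ℚ_[p])) ∨
        HasMultiplicativeReduction ℤ_[p] (C • E.map (algebraMap ℚ ℚ_[p]))) ∨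
      padicValRat p E.j < 0)
    [inst : DecidableEq (AlgebraicClosure ℚ)] (K : IntermediateField ℚ (AlgebraicClosure ℚ))
    [FiniteDimensional ℚ K] :
    {P : (E.toAffine⁄(AlgebraicClosure ℚ)).Point | IsOfFinAddOrder P ∧
      ∀ σ ∈ K.fixingSubgroup, ∀ τ ∈ K.fixingSubgroup,
        Affine.Point.map (σ * τ * σ⁻¹ * τ⁻¹).toAlgHom P = P}.Finite := by
  obtain ⟨d, hd, hs⟩ := exists_semistable_twist_of_j_all E h
  exact finite_torsion_abelian_twist E hd hs K

/-- **Infinitely many `#E(𝔽_q)` prime to `l ≥ 11`** for a curve with a semistable twist. -/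
theorem infinitely_many_not_dvd_pointCount_twist_all {d : ℚ} (hd : d ≠ 0)
    (h : ∀ p : ℕ, ∀ [Fact p.Prime], ∃ C : VariableChange ℚ_[p],
      HasGoodReduction ℤ_[p] (C • (⟨0, 0, 0, -27 * (d ^ 2 * E.c₄), -54 * (d ^ 3 * E.c₆)⟩ :
          WeierstrassCurve ℚ).map (algebraMap ℚ ℚ_[p])) ∨
        HasMultiplicativeReduction ℤ_[p] (C • (⟨0, 0, 0, -27 * (d ^ 2 * E.c₄),
          -54 * (d ^ 3 * E.c₆)⟩ : WeierstrassCurve ℚ).map (algebraMap ℚ ℚ_[p])))
    (W : WeierstrassCurve ℤ) (C : VariableChange ℚ) (hW : C • E = W.map (Int.castRingHom ℚ))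
    {l : ℕ} (hl : l.Prime) (h11 : 11 ≤ l) :
    {q : ℕ | q.Prime ∧ ¬ (q : ℤ) ∣ W.Δ ∧
      ¬ l ∣ Nat.card (W.map (Int.castRingHom (ZMod q))).toAffine.Point}.Infinite :=
  infinitely_many_not_dvd_pointCount E W C hW hl fun G hG =>
    noStableSubgroup_twist_all E hd h hl h11 G hG

/-- The same under the criterion by the `j`-invariant. -/
theorem infinitely_many_not_dvd_pointCount_of_j_all
    (h : ∀ p : ℕ, ∀ [Fact p.Prime], (∃ C : VariableChange ℚ_[p],
      HasGoodReduction ℤ_[p] (C • E.map (algebraMap ℚ ℚ_[p])) ∨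
        HasMultiplicativeReduction ℤ_[p] (C • E.map (algebraMap ℚ ℚ_[p]))) ∨
      padicValRat p E.j < 0)
    (W : WeierstrassCurve ℤ) (C : VariableChange ℚ) (hW : C • E = W.map (Int.castRingHom ℚ))
    {l : ℕ} (hl : l.Prime) (h11 : 11 ≤ l) :
    {q : ℕ | q.Prime ∧ ¬ (q : ℤ) ∣ W.Δ ∧
      ¬ l ∣ Nat.card (W.map (Int.castRingHom (ZMod q))).toAffine.Point}.Infinite :=
  infinitely_many_not_dvd_pointCount E W C hW hl fun G hG =>
    noStableSubgroup_of_j_all E h hl h11 G hG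

/-- **Equal traces give isomorphic rational Tate modules at every prime** if a quadratic twist of
`E` is semistable. -/
theorem tateIsogeny_of_traces_twist {d : ℚ} (hd : d ≠ 0)
    (h : ∀ p : ℕ, ∀ [Fact p.Prime], ∃ C : VariableChange ℚ_[p],
      HasGoodReduction ℤ_[p] (C • (⟨0, 0, 0, -27 * (d ^ 2 * E.c₄), -54 * (d ^ 3 * E.c₆)⟩ :
          WeierstrassCurve ℚ).map (algebraMap ℚ ℚ_[p])) ∨
        HasMultiplicativeReduction ℤ_[p] (C • (⟨0, 0, 0, -27 * (d ^ 2 * E.c₄),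
          -54 * (d ^ 3 * E.c₆)⟩ : WeierstrassCurve ℚ).map (algebraMap ℚ ℚ_[p])))
    (S : Finset ℕ) (heq : ∀ q : ℕ, q.Prime → q ∉ S → E.LFunction q = E'.LFunction q)
    [inst : DecidableEq (AlgebraicClosure ℚ)] {p : ℕ} (hp : p.Prime) :
    ∃ f : AddCommGroup.primaryComponent (E.toAffine⁄(AlgebraicClosure ℚ)).Point p →+
        AddCommGroup.primaryComponent (E'.toAffine⁄(AlgebraicClosure ℚ)).Point p,
      Function.Surjective f ∧ Finite f.ker ∧
        ∀ (σ : AlgebraicClosure ℚ ≃ₐ[ℚ] AlgebraicClosure ℚ) P Q,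
          Affine.Point.map σ.toAlgHom P.1 = Q.1 →
            Affine.Point.map σ.toAlgHom (f P).1 = (f Q).1 := by
  obtain rfl : inst = instDecEqAlgebraicClosureRat := Subsingleton.elim _ _
  haveI := FA.Root.quadTwist_isElliptic E hd
  haveI := FA.Root.quadTwist_isElliptic E' hd
  obtain ⟨T, hT⟩ := exists_traces_twist E E' hd S heq
  exact exists_hom_of_twist E E' hd (tateIsogeny_of_traces (FA.Twists.quadTwist E d)
    (FA.Twists.quadTwist E' d) h T hT hp)

/-- The same under the criterion by the `j`-invariant. -/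
theorem tateIsogeny_of_traces_of_j
    (h : ∀ p : ℕ, ∀ [Fact p.Prime], (∃ C : VariableChange ℚ_[p],
      HasGoodReduction ℤ_[p] (C • E.map (algebraMap ℚ ℚ_[p])) ∨
        HasMultiplicativeReduction ℤ_[p] (C • E.map (algebraMap ℚ ℚ_[p]))) ∨
      padicValRat p E.j < 0)
    (S : Finset ℕ) (heq : ∀ q : ℕ, q.Prime → q ∉ S → E.LFunction q = E'.LFunction q)
    [inst : DecidableEq (AlgebraicClosure ℚ)] {p : ℕ} (hp : p.Prime) :
    ∃ f : AddCommGroup.primaryComponent (E.toAffine⁄(AlgebraicClosure ℚ)).Point p →+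
        AddCommGroup.primaryComponent (E'.toAffine⁄(AlgebraicClosure ℚ)).Point p,
      Function.Surjective f ∧ Finite f.ker ∧
        ∀ (σ : AlgebraicClosure ℚ ≃ₐ[ℚ] AlgebraicClosure ℚ) P Q,
          Affine.Point.map σ.toAlgHom P.1 = Q.1 →
            Affine.Point.map σ.toAlgHom (f P).1 = (f Q).1 := by
  obtain ⟨d, hd, hs⟩ := exists_semistable_twist_of_j_all E h
  exact tateIsogeny_of_traces_twist E E' hd hs S heq hp

/-- **Equal traces give isomorphic Galois modules of `l`-torsion** if a quadratic twist of `E` is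
semistable and `E[l]` has no Galois stable subgroup of order `l`. -/
theorem torsionIso_of_traces_twist {d : ℚ} (hd : d ≠ 0)
    (h : ∀ p : ℕ, ∀ [Fact p.Prime], ∃ C : VariableChange ℚ_[p],
      HasGoodReduction ℤ_[p] (C • (⟨0, 0, 0, -27 * (d ^ 2 * E.c₄), -54 * (d ^ 3 * E.c₆)⟩ :
          WeierstrassCurve ℚ).map (algebraMap ℚ ℚ_[p])) ∨
        HasMultiplicativeReduction ℤ_[p] (C • (⟨0, 0, 0, -27 * (d ^ 2 * E.c₄),
          -54 * (d ^ 3 * E.c₆)⟩ : WeierstrassCurve ℚ).map (algebraMap ℚ ℚ_[p])))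
    (S : Finset ℕ) (heq : ∀ q : ℕ, q.Prime → q ∉ S → E.LFunction q = E'.LFunction q)
    [inst : DecidableEq (AlgebraicClosure ℚ)] {l : ℕ} (hl : l.Prime)
    (hno : ∀ G : AddSubgroup (E.toAffine⁄(AlgebraicClosure ℚ)).Point, Nat.card G = l →
      ¬ ∀ σ : AlgebraicClosure ℚ ≃ₐ[ℚ] AlgebraicClosure ℚ, ∀ P ∈ G,
        Affine.Point.map σ.toAlgHom P ∈ G) :
    ∃ e : Submodule.torsionBy ℤ (E.toAffine⁄(AlgebraicClosure ℚ)).Point (l : ℤ) ≃+
        Submodule.torsionBy ℤ (E'.toAffine⁄(AlgebraicClosure ℚ)).Point (l : ℤ),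
      ∀ (σ : AlgebraicClosure ℚ ≃ₐ[ℚ] AlgebraicClosure ℚ) P Q,
        Affine.Point.map σ.toAlgHom P.1 = Q.1 →
          Affine.Point.map σ.toAlgHom (e P).1 = (e Q).1 := by
  obtain rfl : inst = instDecEqAlgebraicClosureRat := Subsingleton.elim _ _
  haveI := FA.Root.quadTwist_isElliptic E hd
  haveI := FA.Root.quadTwist_isElliptic E' hd
  obtain ⟨T, hT⟩ := exists_traces_twist E E' hd S heq
  obtain ⟨e, he⟩ := FA.Root.exists_twist_equiv E hd
  refine exists_equiv_of_twist E E' hd _ (torsionIso_of_traces (FA.Twists.quadTwist E d)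
    (FA.Twists.quadTwist E' d) h T hT hl fun G hG hst => ?_)
  refine hno (G.map e.toAddMonoidHom)
    ((Nat.card_congr (G.equivMapOfInjective _ e.injective).toEquiv).symm.trans hG) fun σ P hP => ?_
  obtain ⟨Q, hQ, rfl⟩ := AddSubgroup.mem_map.mp hP
  rcases he σ Q with h' | h'
  · exact AddSubgroup.mem_map.mpr ⟨_, hst σ Q hQ, h'.symm⟩
  · exact AddSubgroup.mem_map.mpr ⟨_, neg_mem (hst σ Q hQ), (map_neg e _).trans h'.symm⟩

/-- The same under the criterion by the `j`-invariant. -/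
theorem torsionIso_of_traces_of_j
    (h : ∀ p : ℕ, ∀ [Fact p.Prime], (∃ C : VariableChange ℚ_[p],
      HasGoodReduction ℤ_[p] (C • E.map (algebraMap ℚ ℚ_[p])) ∨
        HasMultiplicativeReduction ℤ_[p] (C • E.map (algebraMap ℚ ℚ_[p]))) ∨
      padicValRat p E.j < 0)
    (S : Finset ℕ) (heq : ∀ q : ℕ, q.Prime → q ∉ S → E.LFunction q = E'.LFunction q)
    [inst : DecidableEq (AlgebraicClosure ℚ)] {l : ℕ} (hl : l.Prime)
    (hno : ∀ G : AddSubgroup (E.toAffine⁄(AlgebraicClosure ℚ)).Point, Nat.card G = l →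
      ¬ ∀ σ : AlgebraicClosure ℚ ≃ₐ[ℚ] AlgebraicClosure ℚ, ∀ P ∈ G,
        Affine.Point.map σ.toAlgHom P ∈ G) :
    ∃ e : Submodule.torsionBy ℤ (E.toAffine⁄(AlgebraicClosure ℚ)).Point (l : ℤ) ≃+
        Submodule.torsionBy ℤ (E'.toAffine⁄(AlgebraicClosure ℚ)).Point (l : ℤ),
      ∀ (σ : AlgebraicClosure ℚ ≃ₐ[ℚ] AlgebraicClosure ℚ) P Q,
        Affine.Point.map σ.toAlgHom P.1 = Q.1 →
          Affine.Point.map σ.toAlgHom (e P).1 = (e Q).1 := by
  obtain ⟨d, hd, hs⟩ := exists_semistable_twist_of_j_all E h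
  exact torsionIso_of_traces_twist E E' hd hs S heq hl hno

/-- **Isomorphic Galois modules of `l ^ n`-torsion at every prime `l ≥ 11`** from equal traces, if a
quadratic twist of `E` is semistable. -/
theorem torsionIso_pow_twist_all {d : ℚ} (hd : d ≠ 0)
    (h : ∀ p : ℕ, ∀ [Fact p.Prime], ∃ C : VariableChange ℚ_[p],
      HasGoodReduction ℤ_[p] (C • (⟨0, 0, 0, -27 * (d ^ 2 * E.c₄), -54 * (d ^ 3 * E.c₆)⟩ :
          WeierstrassCurve ℚ).map (algebraMap ℚ ℚ_[p])) ∨
        HasMultiplicativeReduction ℤ_[p] (C • (⟨0, 0, 0, -27 * (d ^ 2 * E.c₄),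
          -54 * (d ^ 3 * E.c₆)⟩ : WeierstrassCurve ℚ).map (algebraMap ℚ ℚ_[p])))
    (S : Finset ℕ) (heq : ∀ q : ℕ, q.Prime → q ∉ S → E.LFunction q = E'.LFunction q)
    [inst : DecidableEq (AlgebraicClosure ℚ)] {l : ℕ} (hl : l.Prime) (h11 : 11 ≤ l) (n : ℕ) :
    ∃ e : Submodule.torsionBy ℤ (E.toAffine⁄(AlgebraicClosure ℚ)).Point ((l : ℤ) ^ n) ≃+
        Submodule.torsionBy ℤ (E'.toAffine⁄(AlgebraicClosure ℚ)).Point ((l : ℤ) ^ n),
      ∀ (σ : AlgebraicClosure ℚ ≃ₐ[ℚ] AlgebraicClosure ℚ) P Q,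
        Affine.Point.map σ.toAlgHom P.1 = Q.1 →
          Affine.Point.map σ.toAlgHom (e P).1 = (e Q).1 := by
  obtain rfl : inst = instDecEqAlgebraicClosureRat := Subsingleton.elim _ _
  haveI := FA.Root.quadTwist_isElliptic E hd
  haveI := FA.Root.quadTwist_isElliptic E' hd
  obtain ⟨T, hT⟩ := exists_traces_twist E E' hd S heq
  exact exists_equiv_of_twist E E' hd _ (torsionIso_pow_all (FA.Twists.quadTwist E d)
    (FA.Twists.quadTwist E' d) h T hT hl h11 n)

/-- The same under the criterion by the `j`-invariant. -/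
theorem torsionIso_pow_of_j_all
    (h : ∀ p : ℕ, ∀ [Fact p.Prime], (∃ C : VariableChange ℚ_[p],
      HasGoodReduction ℤ_[p] (C • E.map (algebraMap ℚ ℚ_[p])) ∨
        HasMultiplicativeReduction ℤ_[p] (C • E.map (algebraMap ℚ ℚ_[p]))) ∨
      padicValRat p E.j < 0)
    (S : Finset ℕ) (heq : ∀ q : ℕ, q.Prime → q ∉ S → E.LFunction q = E'.LFunction q)
    [inst : DecidableEq (AlgebraicClosure ℚ)] {l : ℕ} (hl : l.Prime) (h11 : 11 ≤ l) (n : ℕ) :
    ∃ e : Submodule.torsionBy ℤ (E.toAffine⁄(AlgebraicClosure ℚ)).Point ((l : ℤ) ^ n) ≃+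
        Submodule.torsionBy ℤ (E'.toAffine⁄(AlgebraicClosure ℚ)).Point ((l : ℤ) ^ n),
      ∀ (σ : AlgebraicClosure ℚ ≃ₐ[ℚ] AlgebraicClosure ℚ) P Q,
        Affine.Point.map σ.toAlgHom P.1 = Q.1 →
          Affine.Point.map σ.toAlgHom (e P).1 = (e Q).1 := by
  obtain ⟨d, hd, hs⟩ := exists_semistable_twist_of_j_all E h
  exact torsionIso_pow_twist_all E E' hd hs S heq hl h11 n

end FA.Summary

end
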