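import Fermat.Agent.Root.SummaryEndTorsion
import Fermat.Agent.Root.SummaryIsogenyBound
import Fermat.Agent.Root.SummaryOpenImageJ
import Fermat.Agent.Root.SummaryTwistForms

/-!
# Consequences of the open image for a non-integral invariant

For an elliptic curve over `ℚ` whose invariant has a pole: only finitely many cyclic subgroups are
stable under Galois, only finitely many torsion points are fixed by the commutators over a number
field, the endomorphisms of the torsion over a number field are scalars, and so there is no complex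
multiplication.
-/

set_option autoImplicit false
set_option linter.unusedSectionVars false
set_option linter.style.haveILetI false

noncomputable section

open WeierstrassCurve WeierstrassCurve.Affine FA.EC FA.Frob FA.RT
open scoped WeierstrassCurve.Affine

namespace FA.Summary

/-- **Cyclic Galois stable subgroups have bounded order** if `j` has a pole. -/
theorem cyclicStableSubgroup_card_dvd_of_pole (E : WeierstrassCurve ℚ) [E.IsElliptic]
    (h : ∃ q : ℕ, q.Prime ∧ padicValRat q E.j < 0) [inst : DecidableEq (AlgebraicClosure ℚ)] :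
    ∃ m : ℕ, 0 < m ∧ ∀ G : AddSubgroup (E.toAffine⁄(AlgebraicClosure ℚ)).Point, Finite G →
      IsAddCyclic G → (∀ σ : AlgebraicClosure ℚ ≃ₐ[ℚ] AlgebraicClosure ℚ, ∀ P ∈ G,
        Affine.Point.map σ.toAlgHom P ∈ G) → Nat.card G ∣ m := by
  obtain rfl : inst = instDecEqAlgebraicClosureRat := Subsingleton.elim _ _
  obtain ⟨d, hd, W, hW, hpole⟩ := FA.OggShafarevich.exists_twist_multiplicative_poles E h
  haveI := FA.Root.quadTwist_isElliptic E hd
  haveI := FA.Frob.ratCurve_isElliptic_of_Δ (FA.Frob.Δ_ne_zero_of_model hW)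
  have hj := FA.OggShafarevich.quadTwist_j E hd
  obtain ⟨m, hm, key⟩ := FA.IsogenyBound.exists_stable_bound_model hW
    (FA.OpenImageJ.exists_levels hW (fun q hq hq' => hpole q hq (hj ▸ hq')) (by rwa [hj]))
  obtain ⟨e, he⟩ := FA.Root.exists_twist_equiv E hd
  exact ⟨m, hm, FA.IsogenyBound.card_dvd_of_equiv e
    (fun σ => Affine.Point.map (W' := (FA.Twists.quadTwist E d).toAffine) σ.toAlgHom) _
    (fun σ Q => he σ Q) key⟩

/-- **Finitely many cyclic Galois stable subgroups** if `j` has a pole. -/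
theorem finite_cyclicStableSubgroups_of_pole (E : WeierstrassCurve ℚ) [E.IsElliptic]
    (h : ∃ q : ℕ, q.Prime ∧ padicValRat q E.j < 0) [inst : DecidableEq (AlgebraicClosure ℚ)] :
    {G : AddSubgroup (E.toAffine⁄(AlgebraicClosure ℚ)).Point | Finite G ∧ IsAddCyclic G ∧
      ∀ σ : AlgebraicClosure ℚ ≃ₐ[ℚ] AlgebraicClosure ℚ, ∀ P ∈ G,
        Affine.Point.map σ.toAlgHom P ∈ G}.Finite := by
  obtain rfl : inst = instDecEqAlgebraicClosureRat := Subsingleton.elim _ _
  obtain ⟨m, hm, key⟩ := cyclicStableSubgroup_card_dvd_of_pole E h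
  exact FA.IsogenyBound.finite_of_card_dvd hm _ fun G hG => key G hG.1 hG.2.1 hG.2.2

/-- **Finitely many torsion points over the maximal abelian extension of a number field** if `j`
has a pole. -/
theorem finite_torsion_abelian_of_pole (E : WeierstrassCurve ℚ) [E.IsElliptic]
    (h : ∃ q : ℕ, q.Prime ∧ padicValRat q E.j < 0) [inst : DecidableEq (AlgebraicClosure ℚ)]
    (K : IntermediateField ℚ (AlgebraicClosure ℚ)) [FiniteDimensional ℚ K] :
    {P : (E.toAffine⁄(AlgebraicClosure ℚ)).Point | IsOfFinAddOrder P ∧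
      ∀ σ ∈ K.fixingSubgroup, ∀ τ ∈ K.fixingSubgroup,
        Affine.Point.map (σ * τ * σ⁻¹ * τ⁻¹).toAlgHom P = P}.Finite := by
  obtain rfl : inst = instDecEqAlgebraicClosureRat := Subsingleton.elim _ _
  obtain ⟨d, hd, W, hW, hpole⟩ := FA.OggShafarevich.exists_twist_multiplicative_poles E h
  haveI := FA.Root.quadTwist_isElliptic E hd
  haveI := FA.Frob.ratCurve_isElliptic_of_Δ (FA.Frob.Δ_ne_zero_of_model hW)
  have hj := FA.OggShafarevich.quadTwist_j E hd
  exact FA.TwistForms.finite_fixed_commutators_of_twist E hd K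
    (FA.AbelianTorsion.finite_fixed_commutators hW
      (FA.OpenImageJ.exists_levels hW (fun q hq hq' => hpole q hq (hj ▸ hq')) (by rwa [hj])) K)

/-- **Finitely many torsion points over the maximal abelian extension of `ℚ`** if `j` has a
pole. -/
theorem finite_torsion_maxAbelian_of_pole (E : WeierstrassCurve ℚ) [E.IsElliptic]
    (h : ∃ q : ℕ, q.Prime ∧ padicValRat q E.j < 0) [inst : DecidableEq (AlgebraicClosure ℚ)] :
    {P : (E.toAffine⁄(AlgebraicClosure ℚ)).Point | IsOfFinAddOrder P ∧
      ∀ σ τ : AlgebraicClosure ℚ ≃ₐ[ℚ] AlgebraicClosure ℚ,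
        Affine.Point.map (σ * τ * σ⁻¹ * τ⁻¹).toAlgHom P = P}.Finite :=
  (finite_torsion_abelian_of_pole E h ⊥).subset fun _ ⟨hP, hfix⟩ =>
    ⟨hP, fun _ _ _ _ => hfix _ _⟩

/-- **The endomorphisms of the torsion are scalars** if `j` has a pole. -/
theorem torsionEnd_scalar_of_pole (E : WeierstrassCurve ℚ) [E.IsElliptic]
    (h : ∃ q : ℕ, q.Prime ∧ padicValRat q E.j < 0) [inst : DecidableEq (AlgebraicClosure ℚ)]
    (K : IntermediateField ℚ (AlgebraicClosure ℚ)) [FiniteDimensional ℚ K]
    (φ : AddCommGroup.torsion (E.toAffine⁄(AlgebraicClosure ℚ)).Point →+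
      AddCommGroup.torsion (E.toAffine⁄(AlgebraicClosure ℚ)).Point)
    (hφ : ∀ σ ∈ K.fixingSubgroup, ∀ x y, y.1 = Affine.Point.map σ.toAlgHom x.1 →
      (φ y).1 = Affine.Point.map σ.toAlgHom (φ x).1)
    {N : ℕ} (hN : N ≠ 0) : ∃ c : ℤ, ∀ x, N • x = 0 → φ x = c • x := by
  obtain rfl : inst = instDecEqAlgebraicClosureRat := Subsingleton.elim _ _
  obtain ⟨m, hm, key⟩ := serreOpenImage_adelic_of_pole E h
  exact FA.EndTorsion.exists_scalar E hm key
    (FA.AbelianTorsion.index_fixingSubgroup_ne_zero K) φ hφ hN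

/-- **No complex multiplication over any number field** if `j` has a pole. -/
theorem no_complexMultiplication_of_pole (E : WeierstrassCurve ℚ) [E.IsElliptic]
    (h : ∃ q : ℕ, q.Prime ∧ padicValRat q E.j < 0) [inst : DecidableEq (AlgebraicClosure ℚ)]
    (K : IntermediateField ℚ (AlgebraicClosure ℚ)) [FiniteDimensional ℚ K]
    (φ : (E.toAffine⁄(AlgebraicClosure ℚ)).Point →+ (E.toAffine⁄(AlgebraicClosure ℚ)).Point)
    (hφ : ∀ σ ∈ K.fixingSubgroup, ∀ P, IsOfFinAddOrder P →
      φ (Affine.Point.map σ.toAlgHom P) = Affine.Point.map σ.toAlgHom (φ P))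
    {a b : ℤ} (hsq : ¬ IsSquare (a ^ 2 - 4 * b)) :
    ¬ ∀ P, IsOfFinAddOrder P → φ (φ P) + a • φ P + b • P = 0 := by
  obtain rfl : inst = instDecEqAlgebraicClosureRat := Subsingleton.elim _ _
  exact FA.EndTorsion.not_quadratic E
    (fun ψ hψ {_} hN => torsionEnd_scalar_of_pole E h K ψ hψ hN) φ hφ hsq

end FA.Summary

end
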