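import Fermat.Agent.Independence.Twist
import Fermat.Agent.Independence.Density

/-!
# Strong multiplicity one with densities; rigidity of quadratic twists

For two curves over `ℚ` with non-integral invariants either `a_q² = a'_q²` at almost all primes,
and then `a'_q = χ(q) a_q` for a quadratic Dirichlet character `χ`, or the primes with
`a_q = ± a'_q` have density zero. So the coefficients agree at almost all primes as soon as they
agree on a set of primes of density above one half.
-/

set_option autoImplicit false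
set_option linter.style.haveILetI false

noncomputable section

open NumberField IsDedekindDomain WeierstrassCurve FA.Frob FA.RT

namespace FA.Independence

/-- Equal squares at almost all primes, on the models. -/
theorem exists_finset_sq {E E' : WeierstrassCurve ℚ} {W W' : WeierstrassCurve ℤ}
    (hW : W.IsIntegralModelOf E) (hW' : W'.IsIntegralModelOf E')
    (h : {q : ℕ | q.Prime ∧ E'.LFunction q ^ 2 ≠ E.LFunction q ^ 2}.Finite) :
    ∃ S : Finset ℕ, ∀ q : ℕ, q.Prime → q ∉ S → W.IsGoodPrimeFor q → W'.IsGoodPrimeFor q →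
      W.apOfModel q ^ 2 = W'.apOfModel q ^ 2 := by
  refine ⟨h.toFinset, fun q hq hqS hg hg' => ?_⟩
  rw [← FA.Root.LFunction_apply_prime E W hW hq hg, ← FA.Root.LFunction_apply_prime E' W' hW' hq hg']
  exact (not_not.mp fun e => hqS (h.mem_toFinset.mpr ⟨hq, e⟩)).symm

/-- Equal or rare, on models with full images at the large primes. -/
theorem traceSquares_finite_or_density_zero_of_surjective (E E' : WeierstrassCurve ℚ)
    [E.IsElliptic] [E'.IsElliptic]
    {W W' : WeierstrassCurve ℤ} [(ratCurve W).IsElliptic] [(ratCurve W').IsElliptic]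
    (hW : W.IsIntegralModelOf E) (hW' : W'.IsIntegralModelOf E')
    (hs : FA.OpenImageAll.SurjectiveLarge W) (hs' : FA.OpenImageAll.SurjectiveLarge W') :
    {q : ℕ | q.Prime ∧ E'.LFunction q ^ 2 ≠ E.LFunction q ^ 2}.Finite ∨
      {v : HeightOneSpectrum (𝓞 ℚ) |
        E.LFunction (Ideal.absNorm v.asIdeal) = E'.LFunction (Ideal.absNorm v.asIdeal) ∨
          E.LFunction (Ideal.absNorm v.asIdeal) =
            -E'.LFunction (Ideal.absNorm v.asIdeal)}.HasDirichletDensity 0 := by
  refine or_iff_not_imp_left.mpr fun hinf => ?_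
  obtain ⟨q, ⟨hq, hne⟩, hqΔ⟩ :=
    (Set.Infinite.sdiff hinf (W.Δ * W'.Δ).natAbs.primeFactors.finite_toSet).nonempty
  obtain ⟨g1, g2⟩ := good_of_not_mem hq hqΔ
  simp only [← sq_eq_sq_iff_eq_or_eq_neg]
  exact density_sq_eq_zero E E' hs hs' hW hW' hq g1 g2 (Ne.symm hne)

/-- Rigidity of twists, on models with full images at the large primes. -/
theorem traceSquares_iff_quadraticTwist_of_surjective (E E' : WeierstrassCurve ℚ)
    [E.IsElliptic] [E'.IsElliptic]
    {W W' : WeierstrassCurve ℤ} [(ratCurve W).IsElliptic] [(ratCurve W').IsElliptic]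
    (hW : W.IsIntegralModelOf E) (hW' : W'.IsIntegralModelOf E')
    (hs : FA.OpenImageAll.SurjectiveLarge W) (hs' : FA.OpenImageAll.SurjectiveLarge W') :
    {q : ℕ | q.Prime ∧ E'.LFunction q ^ 2 ≠ E.LFunction q ^ 2}.Finite ↔
      ∃ N : ℕ, 0 < N ∧ ∃ χ : DirichletCharacter ℤ N, χ.IsQuadratic ∧
        {q : ℕ | q.Prime ∧ E'.LFunction q ≠ χ q * E.LFunction q}.Finite := by
  constructor
  · intro h
    obtain ⟨S, hS⟩ := exists_finset_sq hW hW' h
    obtain ⟨N, hN, χ, hχ, he⟩ := exists_quadraticCharacter hs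
      hs' hS
    refine ⟨N, hN, χ, hχ,
      (N.primeFactors ∪ (W.Δ * W'.Δ).natAbs.primeFactors).finite_toSet.subset fun q hqe => ?_⟩
    obtain ⟨hq, hne⟩ := hqe
    by_contra hn
    simp only [Finset.coe_union, Set.mem_union, Finset.mem_coe, not_or] at hn
    obtain ⟨g1, g2⟩ := good_of_not_mem hq hn.2
    refine hne ?_
    rw [FA.Root.LFunction_apply_prime E W hW hq g1, FA.Root.LFunction_apply_prime E' W' hW' hq g2]
    exact he q hq (fun hd => hn.1 (Nat.mem_primeFactors.mpr ⟨hq, hd, hN.ne'⟩)) g1 g2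
  · rintro ⟨N, hN, χ, hχ, h⟩
    refine (h.union N.primeFactors.finite_toSet).subset fun q ⟨hq, hne⟩ => ?_
    refine or_iff_not_imp_left.mpr fun hn => ?_
    by_contra hqN
    have hu : IsUnit (q : ZMod N) := (ZMod.isUnit_iff_coprime q N).mpr
      (hq.coprime_iff_not_dvd.mpr fun hd => hqN (Nat.mem_primeFactors.mpr ⟨hq, hd, hN.ne'⟩))
    refine hne ?_
    rw [not_not.mp fun e => hn ⟨hq, e⟩, mul_pow]
    rcases hχ (q : ZMod N) with e | e | e
    · exact absurd e ((hu.map χ).ne_zero)
    · rw [e]; ring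
    · rw [e]; ring

/-- Density above one half, on models with full images at the large primes. -/
theorem coefficients_eq_of_density_gt_half_of_surjective (E E' : WeierstrassCurve ℚ)
    [E.IsElliptic] [E'.IsElliptic]
    {W W' : WeierstrassCurve ℤ} [(ratCurve W).IsElliptic] [(ratCurve W').IsElliptic]
    (hW : W.IsIntegralModelOf E) (hW' : W'.IsIntegralModelOf E')
    (hs : FA.OpenImageAll.SurjectiveLarge W) (hs' : FA.OpenImageAll.SurjectiveLarge W')
    {S : Set (HeightOneSpectrum (𝓞 ℚ))} {δ : ℝ} (hS : S.HasDirichletDensity δ) (hδ : 1 / 2 < δ)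
    (h : ∀ v ∈ S, E.LFunction (Ideal.absNorm v.asIdeal) = E'.LFunction (Ideal.absNorm v.asIdeal)) :
    {q : ℕ | q.Prime ∧ E.LFunction q ≠ E'.LFunction q}.Finite := by
  rcases traceSquares_finite_or_density_zero_of_surjective E E' hW hW' hs hs' with hfin | h0
  swap
  · have := density_le_add hS h0 Set.hasDirichletDensity_empty Set.finite_empty
      fun v hv => Or.inl (Or.inl (Or.inl (h v hv)))
    linarith
  obtain ⟨T, hT⟩ := exists_finset_sq hW hW' hfin
  obtain ⟨ε, hε, he⟩ := exists_signChar hs hs' hT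
  refine (W.Δ * W'.Δ).natAbs.primeFactors.finite_toSet.subset fun q ⟨hq, hne⟩ => ?_
  by_contra hqΔ
  obtain ⟨g1, g2⟩ := good_of_not_mem hq hqΔ
  obtain ⟨A, hA⟩ := FA.Deform.exists_liesOverPrime hq
  obtain ⟨σ, hσ⟩ := FA.Deform.exists_isFrobeniusAt hq hA
  rw [FA.Root.LFunction_apply_prime E W hW hq g1, FA.Root.LFunction_apply_prime E' W' hW' hq g2,
    he q hq g1 g2 A hA σ hσ] at hne
  have hσ1 : ε σ = -1 := (Int.units_eq_one_or _).resolve_left fun e => hne (by simp [e])
  have hsurj : Function.Surjective ε := fun u => by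
    rcases Int.units_eq_one_or u with rfl | rfl
    exacts [⟨1, map_one ε⟩, ⟨σ, hσ1⟩]
  obtain ⟨M, hM⟩ := exists_dvd_density hs
  obtain ⟨l, hl, hlp⟩ := Nat.exists_infinite_primes (max M ⌈4 / (δ - 1 / 2)⌉₊ + 1)
  haveI := Fact.mk hlp
  obtain ⟨X, x, hX, hx, hmem⟩ := hM l (by omega)
  have hle := density_le_add hS
    (FA.Chebotarev.hasDirichletDensity_frobSet ε hsurj hε (X := {1}) fun g hg x => by
      show x * g * x⁻¹ = 1
      rw [show g = 1 from hg, mul_one, mul_inv_cancel]) hX
    (FA.Supersingular.finite_absNorm_mem (insert l (W.Δ * W'.Δ).natAbs.primeFactors)) fun v hv => ?_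
  · rw [Nat.card_coe_set_eq, Set.ncard_singleton, Fintype.card_units_int] at hle
    norm_num at hle
    have hlb : 4 / (δ - 1 / 2) < l :=
      (Nat.le_ceil _).trans_lt (by exact_mod_cast (by omega : ⌈4 / (δ - 1 / 2)⌉₊ < l))
    have hx' : x < δ - 1 / 2 := hx.trans_lt (by
      rw [div_lt_iff₀ (by exact_mod_cast hlp.pos)]
      rw [div_lt_iff₀ (by linarith)] at hlb
      linarith)
    linarith
  · refine or_iff_not_imp_right.mpr fun hvF => or_iff_not_imp_right.mpr fun hvX B hB τ hτ => ?_
    simp only [Set.mem_ofPred_eq, Finset.mem_insert, not_or] at hvF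
    have hn := FA.Chebotarev.absNorm_prime v
    obtain ⟨f1, f2⟩ := good_of_not_mem hn hvF.2
    have hev := h v hv
    rw [FA.Root.LFunction_apply_prime E W hW hn f1,
      FA.Root.LFunction_apply_prime E' W' hW' hn f2, he _ hn f1 f2 B hB τ hτ] at hev
    refine Units.ext (mul_right_cancel₀
      (fun e => hvX (hmem v hvF.1 f1 (e ▸ dvd_zero _)) : W.apOfModel _ ≠ 0) ?_)
    rw [← hev, Units.val_one, one_mul]

end FA.Independence

namespace FA.Summary

open FA.Independence

/-- **Equal or rare**: for curves over `ℚ` with non-integral invariants, either `a_q² = a'_q²` at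
almost all primes, or the primes with `a_q = ± a'_q` have Dirichlet density zero. -/
theorem traceSquares_finite_or_density_zero (E E' : WeierstrassCurve ℚ) [E.IsElliptic]
    [E'.IsElliptic] (hj : ∃ p : ℕ, p.Prime ∧ padicValRat p E.j < 0)
    (hj' : ∃ p : ℕ, p.Prime ∧ padicValRat p E'.j < 0) :
    {q : ℕ | q.Prime ∧ E'.LFunction q ^ 2 ≠ E.LFunction q ^ 2}.Finite ∨
      {v : HeightOneSpectrum (𝓞 ℚ) |
        E.LFunction (Ideal.absNorm v.asIdeal) = E'.LFunction (Ideal.absNorm v.asIdeal) ∨
          E.LFunction (Ideal.absNorm v.asIdeal) =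
            -E'.LFunction (Ideal.absNorm v.asIdeal)}.HasDirichletDensity 0 := by
  obtain ⟨W, hW⟩ := exists_integralModel E
  obtain ⟨W', hW'⟩ := exists_integralModel E'
  haveI := ratCurve_isElliptic_of_Δ (Δ_ne_zero_of_model hW)
  haveI := ratCurve_isElliptic_of_Δ (Δ_ne_zero_of_model hW')
  exact traceSquares_finite_or_density_zero_of_surjective E E' hW hW'
    (surjectiveLarge_of_pole hj hW) (surjectiveLarge_of_pole hj' hW')

/-- **Rigidity of twists**: for curves over `ℚ` with non-integral invariants `a_q² = a'_q²` at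
almost all primes iff one quadratic Dirichlet character `χ` has `a'_q = χ(q) a_q` at almost all
primes. -/
theorem traceSquares_iff_quadraticTwist (E E' : WeierstrassCurve ℚ) [E.IsElliptic] [E'.IsElliptic]
    (hj : ∃ p : ℕ, p.Prime ∧ padicValRat p E.j < 0)
    (hj' : ∃ p : ℕ, p.Prime ∧ padicValRat p E'.j < 0) :
    {q : ℕ | q.Prime ∧ E'.LFunction q ^ 2 ≠ E.LFunction q ^ 2}.Finite ↔
      ∃ N : ℕ, 0 < N ∧ ∃ χ : DirichletCharacter ℤ N, χ.IsQuadratic ∧
        {q : ℕ | q.Prime ∧ E'.LFunction q ≠ χ q * E.LFunction q}.Finite := by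
  obtain ⟨W, hW⟩ := exists_integralModel E
  obtain ⟨W', hW'⟩ := exists_integralModel E'
  haveI := ratCurve_isElliptic_of_Δ (Δ_ne_zero_of_model hW)
  haveI := ratCurve_isElliptic_of_Δ (Δ_ne_zero_of_model hW')
  exact traceSquares_iff_quadraticTwist_of_surjective E E' hW hW'
    (surjectiveLarge_of_pole hj hW) (surjectiveLarge_of_pole hj' hW')

/-- **Agreement on more than half of the primes is agreement at almost all primes**: a refinement
of strong multiplicity one for curves over `ℚ` with non-integral invariants. -/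
theorem coefficients_eq_of_density_gt_half (E E' : WeierstrassCurve ℚ) [E.IsElliptic]
    [E'.IsElliptic] (hj : ∃ p : ℕ, p.Prime ∧ padicValRat p E.j < 0)
    (hj' : ∃ p : ℕ, p.Prime ∧ padicValRat p E'.j < 0)
    {S : Set (HeightOneSpectrum (𝓞 ℚ))} {δ : ℝ} (hS : S.HasDirichletDensity δ) (hδ : 1 / 2 < δ)
    (h : ∀ v ∈ S, E.LFunction (Ideal.absNorm v.asIdeal) = E'.LFunction (Ideal.absNorm v.asIdeal)) :
    {q : ℕ | q.Prime ∧ E.LFunction q ≠ E'.LFunction q}.Finite := by
  obtain ⟨W, hW⟩ := exists_integralModel E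
  obtain ⟨W', hW'⟩ := exists_integralModel E'
  haveI := ratCurve_isElliptic_of_Δ (Δ_ne_zero_of_model hW)
  haveI := ratCurve_isElliptic_of_Δ (Δ_ne_zero_of_model hW')
  exact coefficients_eq_of_density_gt_half_of_surjective E E' hW hW'
    (surjectiveLarge_of_pole hj hW) (surjectiveLarge_of_pole hj' hW') hS hδ h

end FA.Summary

end
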