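import Fermat.Agent.Root.SummaryBashmakov
import Fermat.Agent.Root.SummaryOpenImageAllConsequences
import Fermat.Agent.Root.SummaryOpenImageJConsequences
import Fermat.Agent.Root.SummaryTwistRigidity

/-!
# The consequences of the open image for every non-exceptional curve

The consequences proved for curves with a pole of `j` hold for every elliptic curve over `ℚ` for
which each quadratic field has an inert good prime with `a_l ≠ 0` (equivalently the image is open):
finite torsion over the maximal abelian extension of a number field, Bashmakov's theorem at the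
large primes, Serre's independence of two curves, rigidity of twists and strong multiplicity one
with densities.
-/

set_option autoImplicit false
set_option linter.unusedSectionVars false
set_option linter.style.haveILetI false

noncomputable section

open NumberField IsDedekindDomain WeierstrassCurve WeierstrassCurve.Affine FA.EC FA.Frob FA.RT
open FA.RT.Tate Matrix
open scoped WeierstrassCurve.Affine

local notation "Qb" => AlgebraicClosure ℚ
local notation "GQ" => AlgebraicClosure ℚ ≃ₐ[ℚ] AlgebraicClosure ℚ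

namespace FA.OpenImageAll

/-- Nonvanishing traces give the full image at the large primes on every model. -/
theorem surjectiveLarge_of_traces {E : WeierstrassCurve ℚ} [E.IsElliptic]
    (h : ∀ d : ℤ, Squarefree d → d ≠ 1 → ∃ (l : ℕ) (_ : Fact l.Prime),
      (∃ C : VariableChange ℚ_[l],
        HasGoodReduction ℤ_[l] (C • E.map (algebraMap ℚ ℚ_[l]))) ∧
      ¬ IsSquare (d : ZMod l) ∧ E.LFunction l ≠ 0)
    {W : WeierstrassCurve ℤ} [(ratCurve W).IsElliptic] (hW : W.IsIntegralModelOf E) :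
    SurjectiveLarge W := by
  obtain ⟨M, hM⟩ := FA.Summary.galoisSurjectiveTorsion_large_of_traces E h
  refine surjectiveLarge_of_torsion hW ⟨M, fun p hp hlt => ?_⟩
  have := hM p hp hlt 1
  rwa [pow_one] at this

/-- The levels of all primes have one bound: an equation with integral invariant and full image at
the large primes. -/
theorem exists_levels {W : WeierstrassCurve ℤ} [(ratCurve W).IsElliptic]
    (hj : ∀ l : ℕ, l.Prime → 0 ≤ padicValRat l (ratCurve W).j) (hsurj : SurjectiveLarge W) :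
    ∃ m : ℕ, 0 < m ∧ ∀ (l : ℕ) [Fact l.Prime], ∃ (k : ℕ) (B : TateBasis l W), l ^ k ∣ m ∧
      ∀ Y : Matrix (Fin 2) (Fin 2) ℤ_[l],
        IsUnit (1 + (l : ℤ_[l]) ^ k • Y).det → ∃ σ, B.rep σ = 1 + (l : ℤ_[l]) ^ k • Y := by
  obtain ⟨M, hM⟩ := hsurj
  refine FA.OpenImage.exists_levels_of (L := M + 5)
    (fun l _ _ B => exists_level_of_surjective B (noStableLine_of_integral B hj) ⟨M, hM⟩)
    fun l hl _ => FA.PadicImage.reachAll_of_base (by omega) fun B X hX => ?_
  obtain ⟨σ, hσ⟩ := hM l (by omega) X hX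
  exact ⟨σ, (FA.PadicImage.rep_map_toZMod B σ).trans hσ⟩

end FA.OpenImageAll

namespace FA.Summary

open FA.OpenImageAll (surjectiveLarge_of_traces)

/-- **Finitely many torsion points over abelian extensions of a number field**, for every curve
with a nonzero trace at an inert good prime of each quadratic field. -/
theorem finite_torsion_abelian_of_traces (E : WeierstrassCurve ℚ) [E.IsElliptic]
    [inst : DecidableEq (AlgebraicClosure ℚ)]
    (h : ∀ d : ℤ, Squarefree d → d ≠ 1 → ∃ (l : ℕ) (_ : Fact l.Prime),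
      (∃ C : VariableChange ℚ_[l],
        HasGoodReduction ℤ_[l] (C • E.map (algebraMap ℚ ℚ_[l]))) ∧
      ¬ IsSquare (d : ZMod l) ∧ E.LFunction l ≠ 0)
    (K : IntermediateField ℚ (AlgebraicClosure ℚ)) [FiniteDimensional ℚ K] :
    {P : (E.toAffine⁄(AlgebraicClosure ℚ)).Point | IsOfFinAddOrder P ∧
      ∀ σ ∈ K.fixingSubgroup, ∀ τ ∈ K.fixingSubgroup,
        Affine.Point.map (σ * τ * σ⁻¹ * τ⁻¹).toAlgHom P = P}.Finite := by
  obtain rfl : inst = instDecEqAlgebraicClosureRat := Subsingleton.elim _ _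
  by_cases hj : ∃ q : ℕ, q.Prime ∧ padicValRat q E.j < 0
  · exact finite_torsion_abelian_of_pole E hj K
  push Not at hj
  obtain ⟨W, hW⟩ := exists_integralModel E
  haveI := ratCurve_isElliptic_of_Δ (Δ_ne_zero_of_model hW)
  have hjW : (ratCurve W).j = E.j := FA.OggShafarevich.j_ratCurve hW
  exact FA.AbelianTorsion.finite_fixed_commutators hW
    (FA.OpenImageAll.exists_levels (fun q hq => hjW ▸ hj q hq)
      (surjectiveLarge_of_traces h hW)) K

/-- **Bashmakov's theorem for large primes** for every curve with a nonzero trace at an inert good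
prime of each quadratic field and every rational point of infinite order. -/
theorem bashmakov_large_of_traces (E : WeierstrassCurve ℚ) [E.IsElliptic]
    [inst : DecidableEq (AlgebraicClosure ℚ)]
    (h : ∀ d : ℤ, Squarefree d → d ≠ 1 → ∃ (l : ℕ) (_ : Fact l.Prime),
      (∃ C : VariableChange ℚ_[l],
        HasGoodReduction ℤ_[l] (C • E.map (algebraMap ℚ ℚ_[l]))) ∧
      ¬ IsSquare (d : ZMod l) ∧ E.LFunction l ≠ 0)
    (P : E.toAffine.Point) (hP : ¬ IsOfFinAddOrder P) :
    ∃ M : ℕ, ∀ p : ℕ, p.Prime → M < p → ∀ (n : ℕ)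
      (Q : (E.toAffine⁄(AlgebraicClosure ℚ)).Point),
      p ^ n • Q = Affine.Point.map (W' := E.toAffine) (Algebra.ofId ℚ Qb) P →
      ∀ (φ : Submodule.torsionBy ℤ (E.toAffine⁄(AlgebraicClosure ℚ)).Point ((p : ℤ) ^ n) ≃+
          Submodule.torsionBy ℤ (E.toAffine⁄(AlgebraicClosure ℚ)).Point ((p : ℤ) ^ n))
        (t : Submodule.torsionBy ℤ (E.toAffine⁄(AlgebraicClosure ℚ)).Point ((p : ℤ) ^ n)),
      ∃ σ : GQ, (∀ T, Affine.Point.map σ.toAlgHom T.1 = (φ T).1) ∧
        Affine.Point.map σ.toAlgHom Q = Q + t.1 := by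
  obtain rfl : inst = instDecEqAlgebraicClosureRat := Subsingleton.elim _ _
  obtain ⟨M, hM⟩ := galoisSurjectiveTorsion_large_of_traces E h
  haveI := FA.MordellWeil.mordell E
  obtain ⟨M', hM'⟩ := FA.Bashmakov.exists_bound_not_mul hP
  exact ⟨M + M' + 2, fun p hp hlt n Q hQ φ t => bashmakov E hp (by omega) n
    (hM p hp (by omega) n) P (hM' p (by omega)) hQ φ t⟩

/-- **Independence of two elliptic curves** (Serre), in the generality of his theorem: two curves
each with a nonzero trace at an inert good prime of every quadratic field, which differ in `a_q²`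
at one good prime, have independent `l`-torsion for all large `l`. -/
theorem galois_independence_of_traces (E E' : WeierstrassCurve ℚ) [E.IsElliptic] [E'.IsElliptic]
    [inst : DecidableEq (AlgebraicClosure ℚ)]
    (h : ∀ d : ℤ, Squarefree d → d ≠ 1 → ∃ (l : ℕ) (_ : Fact l.Prime),
      (∃ C : VariableChange ℚ_[l],
        HasGoodReduction ℤ_[l] (C • E.map (algebraMap ℚ ℚ_[l]))) ∧
      ¬ IsSquare (d : ZMod l) ∧ E.LFunction l ≠ 0)
    (h' : ∀ d : ℤ, Squarefree d → d ≠ 1 → ∃ (l : ℕ) (_ : Fact l.Prime),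
      (∃ C : VariableChange ℚ_[l],
        HasGoodReduction ℤ_[l] (C • E'.map (algebraMap ℚ ℚ_[l]))) ∧
      ¬ IsSquare (d : ZMod l) ∧ E'.LFunction l ≠ 0)
    (W W' : WeierstrassCurve ℤ) (C C' : VariableChange ℚ)
    (hW : C • E = W.map (Int.castRingHom ℚ)) (hW' : C' • E' = W'.map (Int.castRingHom ℚ))
    {q : ℕ} (hq : q.Prime) (hgood : ¬ (q : ℤ) ∣ W.Δ) (hgood' : ¬ (q : ℤ) ∣ W'.Δ)
    (hne : E.LFunction q ^ 2 ≠ E'.LFunction q ^ 2) :
    ∃ M : ℕ, ∀ l : ℕ, l.Prime → M < l →
      ∃ (e : Submodule.torsionBy ℤ (E.toAffine⁄(AlgebraicClosure ℚ)).Point (l : ℤ) ≃+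
          (Fin 2 → ZMod l))
        (e' : Submodule.torsionBy ℤ (E'.toAffine⁄(AlgebraicClosure ℚ)).Point (l : ℤ) ≃+
          (Fin 2 → ZMod l)),
        ∀ A B : Matrix (Fin 2) (Fin 2) (ZMod l), A.det = B.det → A.det ≠ 0 →
          ∃ σ : AlgebraicClosure ℚ ≃ₐ[ℚ] AlgebraicClosure ℚ,
            (∀ P Q, e Q = A *ᵥ e P → Affine.Point.map σ.toAlgHom P.1 = Q.1) ∧
            ∀ P Q, e' Q = B *ᵥ e' P → Affine.Point.map σ.toAlgHom P.1 = Q.1 := by
  obtain rfl : inst = instDecEqAlgebraicClosureRat := Subsingleton.elim _ _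
  haveI := ratCurve_isElliptic_of_Δ (Δ_ne_zero_of_model (E := E) ⟨C, hW⟩)
  haveI := ratCurve_isElliptic_of_Δ (Δ_ne_zero_of_model (E := E') ⟨C', hW'⟩)
  exact FA.Independence.galois_independence_of_surjective E E' W W' C C' hW hW'
    (surjectiveLarge_of_traces h ⟨C, hW⟩) (surjectiveLarge_of_traces h' ⟨C', hW'⟩) hq hgood
    hgood' hne

/-- Every `(t, t', d ≠ 0)` is `(a_q, a'_q, q)` modulo `l` for infinitely many primes, for two such
curves and all large `l`. -/
theorem frobeniusTrace_pairs_of_traces (E E' : WeierstrassCurve ℚ) [E.IsElliptic] [E'.IsElliptic]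
    (h : ∀ d : ℤ, Squarefree d → d ≠ 1 → ∃ (l : ℕ) (_ : Fact l.Prime),
      (∃ C : VariableChange ℚ_[l],
        HasGoodReduction ℤ_[l] (C • E.map (algebraMap ℚ ℚ_[l]))) ∧
      ¬ IsSquare (d : ZMod l) ∧ E.LFunction l ≠ 0)
    (h' : ∀ d : ℤ, Squarefree d → d ≠ 1 → ∃ (l : ℕ) (_ : Fact l.Prime),
      (∃ C : VariableChange ℚ_[l],
        HasGoodReduction ℤ_[l] (C • E'.map (algebraMap ℚ ℚ_[l]))) ∧
      ¬ IsSquare (d : ZMod l) ∧ E'.LFunction l ≠ 0)
    (W W' : WeierstrassCurve ℤ) (C C' : VariableChange ℚ)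
    (hW : C • E = W.map (Int.castRingHom ℚ)) (hW' : C' • E' = W'.map (Int.castRingHom ℚ))
    {q : ℕ} (hq : q.Prime) (hgood : ¬ (q : ℤ) ∣ W.Δ) (hgood' : ¬ (q : ℤ) ∣ W'.Δ)
    (hne : E.LFunction q ^ 2 ≠ E'.LFunction q ^ 2) :
    ∃ M : ℕ, ∀ l : ℕ, l.Prime → M < l → ∀ t t' d : ZMod l, d ≠ 0 →
      {r : ℕ | r.Prime ∧ (E.LFunction r : ZMod l) = t ∧ (E'.LFunction r : ZMod l) = t' ∧
        (r : ZMod l) = d}.Infinite := by
  haveI := ratCurve_isElliptic_of_Δ (Δ_ne_zero_of_model (E := E) ⟨C, hW⟩)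
  haveI := ratCurve_isElliptic_of_Δ (Δ_ne_zero_of_model (E := E') ⟨C', hW'⟩)
  exact FA.Independence.frobeniusTrace_pairs_of_surjective E E' W W' C C' hW hW'
    (surjectiveLarge_of_traces h ⟨C, hW⟩) (surjectiveLarge_of_traces h' ⟨C', hW'⟩) hq hgood
    hgood' hne

/-- **Equal or rare**: for two such curves either `a_q² = a'_q²` at almost all primes, or the
primes with `a_q = ± a'_q` have Dirichlet density zero. -/
theorem traceSquares_finite_or_density_zero_of_traces (E E' : WeierstrassCurve ℚ) [E.IsElliptic]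
    [E'.IsElliptic]
    (h : ∀ d : ℤ, Squarefree d → d ≠ 1 → ∃ (l : ℕ) (_ : Fact l.Prime),
      (∃ C : VariableChange ℚ_[l],
        HasGoodReduction ℤ_[l] (C • E.map (algebraMap ℚ ℚ_[l]))) ∧
      ¬ IsSquare (d : ZMod l) ∧ E.LFunction l ≠ 0)
    (h' : ∀ d : ℤ, Squarefree d → d ≠ 1 → ∃ (l : ℕ) (_ : Fact l.Prime),
      (∃ C : VariableChange ℚ_[l],
        HasGoodReduction ℤ_[l] (C • E'.map (algebraMap ℚ ℚ_[l]))) ∧
      ¬ IsSquare (d : ZMod l) ∧ E'.LFunction l ≠ 0) :
    {q : ℕ | q.Prime ∧ E'.LFunction q ^ 2 ≠ E.LFunction q ^ 2}.Finite ∨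
      {v : HeightOneSpectrum (𝓞 ℚ) |
        E.LFunction (Ideal.absNorm v.asIdeal) = E'.LFunction (Ideal.absNorm v.asIdeal) ∨
          E.LFunction (Ideal.absNorm v.asIdeal) =
            -E'.LFunction (Ideal.absNorm v.asIdeal)}.HasDirichletDensity 0 := by
  obtain ⟨W, hW⟩ := exists_integralModel E
  obtain ⟨W', hW'⟩ := exists_integralModel E'
  haveI := ratCurve_isElliptic_of_Δ (Δ_ne_zero_of_model hW)
  haveI := ratCurve_isElliptic_of_Δ (Δ_ne_zero_of_model hW')
  exact FA.Independence.traceSquares_finite_or_density_zero_of_surjective E E' hW hW'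
    (surjectiveLarge_of_traces h hW) (surjectiveLarge_of_traces h' hW')

/-- **Rigidity of twists**: for two such curves `a_q² = a'_q²` at almost all primes iff one
quadratic Dirichlet character `χ` has `a'_q = χ(q) a_q` at almost all primes. -/
theorem traceSquares_iff_quadraticTwist_of_traces (E E' : WeierstrassCurve ℚ) [E.IsElliptic]
    [E'.IsElliptic]
    (h : ∀ d : ℤ, Squarefree d → d ≠ 1 → ∃ (l : ℕ) (_ : Fact l.Prime),
      (∃ C : VariableChange ℚ_[l],
        HasGoodReduction ℤ_[l] (C • E.map (algebraMap ℚ ℚ_[l]))) ∧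
      ¬ IsSquare (d : ZMod l) ∧ E.LFunction l ≠ 0)
    (h' : ∀ d : ℤ, Squarefree d → d ≠ 1 → ∃ (l : ℕ) (_ : Fact l.Prime),
      (∃ C : VariableChange ℚ_[l],
        HasGoodReduction ℤ_[l] (C • E'.map (algebraMap ℚ ℚ_[l]))) ∧
      ¬ IsSquare (d : ZMod l) ∧ E'.LFunction l ≠ 0) :
    {q : ℕ | q.Prime ∧ E'.LFunction q ^ 2 ≠ E.LFunction q ^ 2}.Finite ↔
      ∃ N : ℕ, 0 < N ∧ ∃ χ : DirichletCharacter ℤ N, χ.IsQuadratic ∧
        {q : ℕ | q.Prime ∧ E'.LFunction q ≠ χ q * E.LFunction q}.Finite := by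
  obtain ⟨W, hW⟩ := exists_integralModel E
  obtain ⟨W', hW'⟩ := exists_integralModel E'
  haveI := ratCurve_isElliptic_of_Δ (Δ_ne_zero_of_model hW)
  haveI := ratCurve_isElliptic_of_Δ (Δ_ne_zero_of_model hW')
  exact FA.Independence.traceSquares_iff_quadraticTwist_of_surjective E E' hW hW'
    (surjectiveLarge_of_traces h hW) (surjectiveLarge_of_traces h' hW')

/-- **Agreement on more than half of the primes is agreement at almost all primes**, for two such
curves. -/
theorem coefficients_eq_of_density_gt_half_of_traces (E E' : WeierstrassCurve ℚ) [E.IsElliptic]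
    [E'.IsElliptic]
    (h : ∀ d : ℤ, Squarefree d → d ≠ 1 → ∃ (l : ℕ) (_ : Fact l.Prime),
      (∃ C : VariableChange ℚ_[l],
        HasGoodReduction ℤ_[l] (C • E.map (algebraMap ℚ ℚ_[l]))) ∧
      ¬ IsSquare (d : ZMod l) ∧ E.LFunction l ≠ 0)
    (h' : ∀ d : ℤ, Squarefree d → d ≠ 1 → ∃ (l : ℕ) (_ : Fact l.Prime),
      (∃ C : VariableChange ℚ_[l],
        HasGoodReduction ℤ_[l] (C • E'.map (algebraMap ℚ ℚ_[l]))) ∧
      ¬ IsSquare (d : ZMod l) ∧ E'.LFunction l ≠ 0)
    {S : Set (HeightOneSpectrum (𝓞 ℚ))} {δ : ℝ} (hS : S.HasDirichletDensity δ) (hδ : 1 / 2 < δ)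
    (hagree : ∀ v ∈ S,
      E.LFunction (Ideal.absNorm v.asIdeal) = E'.LFunction (Ideal.absNorm v.asIdeal)) :
    {q : ℕ | q.Prime ∧ E.LFunction q ≠ E'.LFunction q}.Finite := by
  obtain ⟨W, hW⟩ := exists_integralModel E
  obtain ⟨W', hW'⟩ := exists_integralModel E'
  haveI := ratCurve_isElliptic_of_Δ (Δ_ne_zero_of_model hW)
  haveI := ratCurve_isElliptic_of_Δ (Δ_ne_zero_of_model hW')
  exact FA.Independence.coefficients_eq_of_density_gt_half_of_surjective E E' hW hW'
    (surjectiveLarge_of_traces h hW) (surjectiveLarge_of_traces h' hW') hS hδ hagree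

end FA.Summary

end
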