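import Fermat.Agent.OpenImageAll.Exceptional
import Fermat.Agent.Root.SummaryOpenImageAllApplications
import Fermat.Agent.Root.SummaryCMImage

/-!
# The exceptional curves have abelian torsion over an imaginary quadratic field

If `a_l = 0` at all inert good primes of a quadratic field, that field is imaginary and its
automorphisms act commutatively on all torsion points. So the adelic image fails to be open exactly
when the torsion generates an abelian extension of some number field, exactly when it does so over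
an imaginary quadratic field: complex multiplication as seen by Galois. (That such a curve has an
endomorphism other than the integers is not formalised.)
-/

set_option autoImplicit false
set_option linter.unusedSectionVars false
set_option linter.style.haveILetI false

noncomputable section

open WeierstrassCurve WeierstrassCurve.Affine FA.EC FA.Frob FA.RT
open scoped WeierstrassCurve.Affine

local notation "Qb" => AlgebraicClosure ℚ
local notation "GQ" => AlgebraicClosure ℚ ≃ₐ[ℚ] AlgebraicClosure ℚ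

namespace FA.Exceptional

/-- Vanishing at the inert good primes, on every model. -/
theorem apOfModel_eq_zero {E : WeierstrassCurve ℚ} {W : WeierstrassCurve ℤ}
    (hW : W.IsIntegralModelOf E) {d : ℤ}
    (h : ∀ l : ℕ, ∀ [Fact l.Prime],
      (∃ C : VariableChange ℚ_[l],
        HasGoodReduction ℤ_[l] (C • E.map (algebraMap ℚ ℚ_[l]))) →
      ¬ IsSquare (d : ZMod l) → E.LFunction l = 0)
    {l : ℕ} (hl : l.Prime) (hgood : W.IsGoodPrimeFor l) (hns : ¬ IsSquare (d : ZMod l)) :
    W.apOfModel l = 0 := by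
  haveI := Fact.mk hl
  rw [← FA.Root.LFunction_apply_prime E W hW hl hgood]
  refine h l ?_ hns
  obtain ⟨C, hC⟩ := FA.Root.exists_good_of_not_dvd W l hgood
  obtain ⟨C₀, h₀⟩ := hW
  exact ⟨C * C₀.map (algebraMap ℚ ℚ_[l]),
    by rwa [mul_smul, WeierstrassCurve.map_variableChange, h₀]⟩

end FA.Exceptional

namespace FA.Summary

/-- **The exceptional field is imaginary**: `a_l = 0` at all inert good primes only happens for
`d < 0`. -/
theorem exceptional_imaginary (E : WeierstrassCurve ℚ) [E.IsElliptic] {d : ℤ} (hd : Squarefree d)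
    (hd1 : d ≠ 1)
    (h : ∀ l : ℕ, ∀ [Fact l.Prime],
      (∃ C : VariableChange ℚ_[l],
        HasGoodReduction ℤ_[l] (C • E.map (algebraMap ℚ ℚ_[l]))) →
      ¬ IsSquare (d : ZMod l) → E.LFunction l = 0) : d < 0 := by
  obtain ⟨W, hW⟩ := exists_integralModel E
  haveI := ratCurve_isElliptic_of_Δ (Δ_ne_zero_of_model hW)
  obtain ⟨s, H, hs, hH, hopen, hfix⟩ := FA.OpenImageAll.exists_index_two_of_sqrt hd hd1
  exact FA.Exceptional.neg_of_vanishing hd.ne_zero hs hH hopen hfix
    fun l => FA.Exceptional.apOfModel_eq_zero hW h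

/-- **Abelian torsion over the exceptional field**: if `a_l = 0` at the inert good primes of
`ℚ(√d)`, the commutators of its automorphisms fix every torsion point. -/
theorem exceptional_torsion_commute (E : WeierstrassCurve ℚ) [E.IsElliptic]
    [inst : DecidableEq (AlgebraicClosure ℚ)] {d : ℤ} (hd : Squarefree d) (hd1 : d ≠ 1)
    (h : ∀ l : ℕ, ∀ [Fact l.Prime],
      (∃ C : VariableChange ℚ_[l],
        HasGoodReduction ℤ_[l] (C • E.map (algebraMap ℚ ℚ_[l]))) →
      ¬ IsSquare (d : ZMod l) → E.LFunction l = 0)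
    {s : AlgebraicClosure ℚ} (hs : s ^ 2 = (d : AlgebraicClosure ℚ))
    {σ τ : AlgebraicClosure ℚ ≃ₐ[ℚ] AlgebraicClosure ℚ} (hσ : σ s = s) (hτ : τ s = s)
    {P : (E.toAffine⁄(AlgebraicClosure ℚ)).Point} (hP : IsOfFinAddOrder P) :
    Affine.Point.map (σ * τ * σ⁻¹ * τ⁻¹).toAlgHom P = P := by
  obtain rfl : inst = instDecEqAlgebraicClosureRat := Subsingleton.elim _ _
  obtain ⟨W, hW⟩ := exists_integralModel E
  haveI := ratCurve_isElliptic_of_Δ (Δ_ne_zero_of_model hW)
  obtain ⟨t, H, ht, hH, hopen, hfix⟩ := FA.OpenImageAll.exists_index_two_of_sqrt hd hd1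
  have hmem : ∀ g : GQ, g s = s → g ∈ H := fun g hg => (hfix g).mpr (by
    rcases sq_eq_sq_iff_eq_or_eq_neg.mp (ht.trans hs.symm) with e | e
    · rw [e, hg]
    · rw [e, map_neg, hg])
  obtain ⟨e, he⟩ := FA.Root.exists_equiv_of_model hW
  obtain ⟨Q, rfl⟩ := e.surjective P
  rw [← he]
  refine congrArg e ?_
  have hQ : IsOfFinAddOrder ((σ⁻¹ * τ⁻¹) • Q) :=
    (DistribSMul.toAddMonoidHom _ (σ⁻¹ * τ⁻¹)).isOfFinAddOrder
      (by
        have h := e.symm.toAddMonoidHom.isOfFinAddOrder hP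
        rwa [AddEquiv.coe_toAddMonoidHom, e.symm_apply_apply] at h)
  have h1 := FA.Exceptional.smul_comm_of_fixed hd.ne_zero ht hH hopen hfix
    (fun l => FA.Exceptional.apOfModel_eq_zero hW h) (hmem σ hσ) (hmem τ hτ) hQ
  calc (σ * τ * σ⁻¹ * τ⁻¹) • Q = σ • τ • (σ⁻¹ * τ⁻¹) • Q := by simp only [mul_smul]
    _ = τ • σ • (σ⁻¹ * τ⁻¹) • Q := h1
    _ = Q := by rw [mul_smul, smul_inv_smul, smul_inv_smul]

/-- **Serre's open image theorem: open image or abelian torsion.** The adelic image fails to be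
open iff over some number field all torsion points are fixed by the commutators of Galois. -/
theorem not_openImage_iff_abelianTorsion (E : WeierstrassCurve ℚ) [E.IsElliptic]
    [inst : DecidableEq (AlgebraicClosure ℚ)] :
    (¬ ∃ m : ℕ, 0 < m ∧ ∀ (N : ℕ), N ≠ 0 →
      ∀ φ : Submodule.torsionBy ℤ (E.toAffine⁄(AlgebraicClosure ℚ)).Point (N : ℤ) ≃+
        Submodule.torsionBy ℤ (E.toAffine⁄(AlgebraicClosure ℚ)).Point (N : ℤ),
      (∀ P, m • P.1 = 0 → φ P = P) →
        ∃ σ : AlgebraicClosure ℚ ≃ₐ[ℚ] AlgebraicClosure ℚ, ∀ P,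
          Affine.Point.map σ.toAlgHom P.1 = (φ P).1) ↔
    ∃ K : IntermediateField ℚ (AlgebraicClosure ℚ), FiniteDimensional ℚ K ∧
      ∀ σ ∈ K.fixingSubgroup, ∀ τ ∈ K.fixingSubgroup,
        ∀ P : (E.toAffine⁄(AlgebraicClosure ℚ)).Point, IsOfFinAddOrder P →
          Affine.Point.map (σ * τ * σ⁻¹ * τ⁻¹).toAlgHom P = P := by
  obtain rfl : inst = instDecEqAlgebraicClosureRat := Subsingleton.elim _ _
  constructor
  · intro hno
    obtain ⟨d, hd, hd1, h⟩ := not_not.mp fun hc => hno ((serreOpenImage_adelic_iff E).mpr hc)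
    obtain ⟨s, hs⟩ := IsAlgClosed.exists_pow_nat_eq (d : Qb) two_pos
    have hmem : ∀ g ∈ (IntermediateField.adjoin ℚ {s}).fixingSubgroup, g s = s := fun g hg =>
      (IntermediateField.mem_fixingSubgroup_iff _ _).mp hg s
        (IntermediateField.mem_adjoin_simple_self ℚ s)
    exact ⟨IntermediateField.adjoin ℚ {s},
      IntermediateField.adjoin.finiteDimensional (Algebra.IsIntegral.isIntegral s),
      fun σ hσ τ hτ P hP =>
        exceptional_torsion_commute E hd hd1 h hs (hmem σ hσ) (hmem τ hτ) hP⟩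
  · rintro ⟨K, hK, hcomm⟩ ⟨m, hm, key⟩
    have hfin := finite_torsion_abelian_of_traces E (fun d hd hd1 => exists_inert_trace_ne_zero E
      (FA.OpenImageAll.torsion_surjective_of_adelic hm key) hd hd1) K
    haveI := hfin.to_subtype
    set T := {P : (E.toAffine⁄Qb).Point | IsOfFinAddOrder P ∧
      ∀ σ ∈ K.fixingSubgroup, ∀ τ ∈ K.fixingSubgroup,
        Affine.Point.map (σ * τ * σ⁻¹ * τ⁻¹).toAlgHom P = P}
    set N := Nat.card T + 1 with hN
    have hsub : ∀ P : Submodule.torsionBy ℤ (E.toAffine⁄Qb).Point (N : ℤ), P.1 ∈ T := fun P => by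
      have hP : IsOfFinAddOrder P.1 := isOfFinAddOrder_iff_nsmul_eq_zero.mpr ⟨N, by omega, by
        rw [← natCast_zsmul]; exact (Submodule.mem_torsionBy_iff _ _).mp P.2⟩
      exact ⟨hP, fun σ hσ τ hτ => hcomm σ hσ τ hτ P.1 hP⟩
    have hle := Nat.card_le_card_of_injective (fun P => (⟨P.1, hsub P⟩ : T))
      fun P Q e => Subtype.ext (congrArg Subtype.val e :)
    rw [FA.EC.natCard_torsion E (by omega : N ≠ 0)] at hle
    nlinarith

/-- **The same over an imaginary quadratic field**: the adelic image fails to be open iff for some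
imaginary quadratic field `ℚ(√d)` the commutators of its automorphisms fix all torsion. -/
theorem not_openImage_iff_abelianTorsion_imaginaryQuadratic (E : WeierstrassCurve ℚ) [E.IsElliptic]
    [inst : DecidableEq (AlgebraicClosure ℚ)] :
    (¬ ∃ m : ℕ, 0 < m ∧ ∀ (N : ℕ), N ≠ 0 →
      ∀ φ : Submodule.torsionBy ℤ (E.toAffine⁄(AlgebraicClosure ℚ)).Point (N : ℤ) ≃+
        Submodule.torsionBy ℤ (E.toAffine⁄(AlgebraicClosure ℚ)).Point (N : ℤ),
      (∀ P, m • P.1 = 0 → φ P = P) →
        ∃ σ : AlgebraicClosure ℚ ≃ₐ[ℚ] AlgebraicClosure ℚ, ∀ P,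
          Affine.Point.map σ.toAlgHom P.1 = (φ P).1) ↔
    ∃ (d : ℤ) (s : AlgebraicClosure ℚ), Squarefree d ∧ d < 0 ∧
      s ^ 2 = (d : AlgebraicClosure ℚ) ∧
      ∀ σ τ : AlgebraicClosure ℚ ≃ₐ[ℚ] AlgebraicClosure ℚ, σ s = s → τ s = s →
        ∀ P : (E.toAffine⁄(AlgebraicClosure ℚ)).Point, IsOfFinAddOrder P →
          Affine.Point.map (σ * τ * σ⁻¹ * τ⁻¹).toAlgHom P = P := by
  obtain rfl : inst = instDecEqAlgebraicClosureRat := Subsingleton.elim _ _
  constructor
  · intro hno
    obtain ⟨d, hd, hd1, h⟩ := not_not.mp fun hc => hno ((serreOpenImage_adelic_iff E).mpr hc)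
    obtain ⟨s, hs⟩ := IsAlgClosed.exists_pow_nat_eq (d : Qb) two_pos
    exact ⟨d, s, hd, exceptional_imaginary E hd hd1 h, hs,
      fun σ τ hσ hτ P hP => exceptional_torsion_commute E hd hd1 h hs hσ hτ hP⟩
  · rintro ⟨d, s, -, -, -, hcomm⟩
    have hmem : ∀ g ∈ (IntermediateField.adjoin ℚ {s}).fixingSubgroup, g s = s := fun g hg =>
      (IntermediateField.mem_fixingSubgroup_iff _ _).mp hg s
        (IntermediateField.mem_adjoin_simple_self ℚ s)
    exact (not_openImage_iff_abelianTorsion E).mpr ⟨IntermediateField.adjoin ℚ {s},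
      IntermediateField.adjoin.finiteDimensional (Algebra.IsIntegral.isIntegral s),
      fun σ hσ τ hτ => hcomm σ τ (hmem σ hσ) (hmem τ hτ)⟩

/-- **Only imaginary quadratic fields need testing**: the adelic image is open iff no imaginary
quadratic field has `a_l = 0` at all its inert good primes. -/
theorem serreOpenImage_adelic_iff_imaginary (E : WeierstrassCurve ℚ) [E.IsElliptic]
    [inst : DecidableEq (AlgebraicClosure ℚ)] :
    (∃ m : ℕ, 0 < m ∧ ∀ (N : ℕ), N ≠ 0 →
      ∀ φ : Submodule.torsionBy ℤ (E.toAffine⁄(AlgebraicClosure ℚ)).Point (N : ℤ) ≃+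
        Submodule.torsionBy ℤ (E.toAffine⁄(AlgebraicClosure ℚ)).Point (N : ℤ),
      (∀ P, m • P.1 = 0 → φ P = P) →
        ∃ σ : AlgebraicClosure ℚ ≃ₐ[ℚ] AlgebraicClosure ℚ, ∀ P,
          Affine.Point.map σ.toAlgHom P.1 = (φ P).1) ↔
    ¬ ∃ d : ℤ, Squarefree d ∧ d < 0 ∧ ∀ l : ℕ, ∀ [Fact l.Prime],
      (∃ C : VariableChange ℚ_[l],
        HasGoodReduction ℤ_[l] (C • E.map (algebraMap ℚ ℚ_[l]))) →
      ¬ IsSquare (d : ZMod l) → E.LFunction l = 0 := by
  obtain rfl : inst = instDecEqAlgebraicClosureRat := Subsingleton.elim _ _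
  rw [serreOpenImage_adelic_iff]
  refine not_congr ⟨fun ⟨d, hd, hd1, h⟩ => ⟨d, hd, exceptional_imaginary E hd hd1 h, h⟩,
    fun ⟨d, hd, hneg, h⟩ => ⟨d, hd, by omega, h⟩⟩

/-- **Complex multiplication of class number one**: for the thirteen values of `j` all torsion is
abelian over an imaginary quadratic field. -/
theorem abelianTorsion_of_cm_all (E : WeierstrassCurve ℚ) [E.IsElliptic]
    [inst : DecidableEq (AlgebraicClosure ℚ)]
    (hj : E.j ∈ ({0, 54000, -12288000, 1728, 287496, -3375, 16581375, 8000, -32768, -884736,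
      -884736000, -147197952000, -262537412640768000} : Finset ℚ)) :
    ∃ (d : ℤ) (s : AlgebraicClosure ℚ), Squarefree d ∧ d < 0 ∧
      s ^ 2 = (d : AlgebraicClosure ℚ) ∧
      ∀ σ τ : AlgebraicClosure ℚ ≃ₐ[ℚ] AlgebraicClosure ℚ, σ s = s → τ s = s →
        ∀ P : (E.toAffine⁄(AlgebraicClosure ℚ)).Point, IsOfFinAddOrder P →
          Affine.Point.map (σ * τ * σ⁻¹ * τ⁻¹).toAlgHom P = P :=
  (not_openImage_iff_abelianTorsion_imaginaryQuadratic E).mp
    (not_serreOpenImage_adelic_of_cm_all E hj)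

end FA.Summary

end
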