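import Fermat.Agent.OpenImageAll.FrobeniusField
import Fermat.Agent.Root.SummaryExceptional
import Fermat.Agent.SerreLarge.GoodModel

/-!
# Exceptional curves are those with one Frobenius field

For an elliptic curve over `ℚ` and a quadratic field `ℚ(√d)`, `a_l = 0` at all inert good primes
iff `ℚ(√(a_l² - 4 l)) = ℚ(√d)` at all good primes with `a_l ≠ 0`; then `4 l = a_l² + |d| b²`. So
the adelic image of Galois is open iff two Frobenius fields differ, which two primes certify.
-/

set_option autoImplicit false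
set_option linter.style.haveILetI false

noncomputable section

open WeierstrassCurve WeierstrassCurve.Affine FA.EC FA.Frob FA.RT
open scoped WeierstrassCurve.Affine

local notation "Qb" => AlgebraicClosure ℚ

namespace FA.Exceptional

/-- Good reduction at a prime not dividing the discriminant of an equation. -/
theorem exists_good_reduction {E : WeierstrassCurve ℚ} {W : WeierstrassCurve ℤ}
    (hW : W.IsIntegralModelOf E) (l : ℕ) [Fact l.Prime] (hgood : W.IsGoodPrimeFor l) :
    ∃ C : VariableChange ℚ_[l], HasGoodReduction ℤ_[l] (C • E.map (algebraMap ℚ ℚ_[l])) := by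
  obtain ⟨C, hC⟩ := FA.Root.exists_good_of_not_dvd W l hgood
  obtain ⟨C₀, h₀⟩ := hW
  exact ⟨C * C₀.map (algebraMap ℚ ℚ_[l]),
    by rwa [mul_smul, WeierstrassCurve.map_variableChange, h₀]⟩

end FA.Exceptional

namespace FA.Summary

/-- **The norm equation of an exceptional curve**: if `a_l = 0` at the inert good primes of
`ℚ(√d)`, then `d < 0` and `4 l = a_l² + |d| b²` with `b ≠ 0` at every good prime with `a_l ≠ 0`. -/
theorem exceptional_normEquation (E : WeierstrassCurve ℚ) [E.IsElliptic] {d : ℤ}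
    (hd : Squarefree d) (hd1 : d ≠ 1)
    (h : ∀ l : ℕ, ∀ [Fact l.Prime],
      (∃ C : VariableChange ℚ_[l],
        HasGoodReduction ℤ_[l] (C • E.map (algebraMap ℚ ℚ_[l]))) →
      ¬ IsSquare (d : ZMod l) → E.LFunction l = 0)
    (l : ℕ) [Fact l.Prime]
    (hgood : ∃ C : VariableChange ℚ_[l],
      HasGoodReduction ℤ_[l] (C • E.map (algebraMap ℚ ℚ_[l])))
    (ha : E.LFunction l ≠ 0) :
    d < 0 ∧ ∃ b : ℤ, b ≠ 0 ∧ 4 * (l : ℤ) = E.LFunction l ^ 2 + |d| * b ^ 2 := by
  obtain ⟨W, hW, hWgood⟩ := FA.SerreLarge.exists_goodModel E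
  haveI := ratCurve_isElliptic_of_Δ (Δ_ne_zero_of_model hW)
  have hl : l.Prime := Fact.out
  have hg := hWgood l hgood
  have hL := FA.Root.LFunction_apply_prime E W hW hl hg
  rw [hL] at ha ⊢
  obtain ⟨b, hb⟩ := FA.Exceptional.exists_disc_eq hd hd1
    (fun q hq => FA.Exceptional.apOfModel_eq_zero hW h hq) hl hg ha
  have hneg := exceptional_imaginary E hd hd1 h
  refine ⟨hneg, b, fun hb0 => (FA.Exceptional.disc_neg hl hg).ne (by rw [hb, hb0]; ring), ?_⟩
  rw [abs_of_neg hneg]
  linear_combination -hb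

/-- **Exceptional means one Frobenius field**: `a_l = 0` at the inert good primes of `ℚ(√d)` iff
`a_l² - 4 l` is `d` times a square at all good primes with `a_l ≠ 0`. -/
theorem exceptional_iff_frobeniusField (E : WeierstrassCurve ℚ) [E.IsElliptic] {d : ℤ}
    (hd : Squarefree d) (hd1 : d ≠ 1) :
    (∀ l : ℕ, ∀ [Fact l.Prime],
      (∃ C : VariableChange ℚ_[l],
        HasGoodReduction ℤ_[l] (C • E.map (algebraMap ℚ ℚ_[l]))) →
      ¬ IsSquare (d : ZMod l) → E.LFunction l = 0) ↔
    ∀ l : ℕ, ∀ [Fact l.Prime],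
      (∃ C : VariableChange ℚ_[l],
        HasGoodReduction ℤ_[l] (C • E.map (algebraMap ℚ ℚ_[l]))) →
      E.LFunction l ≠ 0 → ∃ b : ℤ, E.LFunction l ^ 2 - 4 * l = d * b ^ 2 := by
  refine ⟨fun h l _ hgood ha => ?_, fun h l hl hgood hns => ?_⟩
  · obtain ⟨hneg, b, -, hb⟩ := exceptional_normEquation E hd hd1 h l hgood ha
    rw [abs_of_neg hneg] at hb
    exact ⟨b, by linear_combination -hb⟩
  · exact FA.Exceptional.vanishing_of_field hl.out hns (h l hgood)

/-- **Open image or one Frobenius field**: the adelic image fails to be open iff for some negative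
squarefree `d` every good prime with `a_l ≠ 0` has Frobenius field `ℚ(√d)`. -/
theorem not_openImage_iff_frobeniusField_constant (E : WeierstrassCurve ℚ) [E.IsElliptic]
    [inst : DecidableEq (AlgebraicClosure ℚ)] :
    (¬ ∃ m : ℕ, 0 < m ∧ ∀ (N : ℕ), N ≠ 0 →
      ∀ φ : Submodule.torsionBy ℤ (E.toAffine⁄(AlgebraicClosure ℚ)).Point (N : ℤ) ≃+
        Submodule.torsionBy ℤ (E.toAffine⁄(AlgebraicClosure ℚ)).Point (N : ℤ),
      (∀ P, m • P.1 = 0 → φ P = P) →
        ∃ σ : AlgebraicClosure ℚ ≃ₐ[ℚ] AlgebraicClosure ℚ, ∀ P,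
          Affine.Point.map σ.toAlgHom P.1 = (φ P).1) ↔
    ∃ d : ℤ, Squarefree d ∧ d < 0 ∧ ∀ l : ℕ, ∀ [Fact l.Prime],
      (∃ C : VariableChange ℚ_[l],
        HasGoodReduction ℤ_[l] (C • E.map (algebraMap ℚ ℚ_[l]))) →
      E.LFunction l ≠ 0 → ∃ b : ℤ, E.LFunction l ^ 2 - 4 * l = d * b ^ 2 := by
  rw [serreOpenImage_adelic_iff_imaginary E, not_not]
  exact exists_congr fun d => and_congr_right fun hd => and_congr_right fun hneg =>
    exceptional_iff_frobeniusField E hd (by omega)

/-- **Serre's theorem, two-prime form**: the adelic image is open iff two good primes with nonzero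
traces have Frobenius fields that differ. -/
theorem serreOpenImage_adelic_iff_two_frobeniusFields (E : WeierstrassCurve ℚ) [E.IsElliptic]
    [inst : DecidableEq (AlgebraicClosure ℚ)] :
    (∃ m : ℕ, 0 < m ∧ ∀ (N : ℕ), N ≠ 0 →
      ∀ φ : Submodule.torsionBy ℤ (E.toAffine⁄(AlgebraicClosure ℚ)).Point (N : ℤ) ≃+
        Submodule.torsionBy ℤ (E.toAffine⁄(AlgebraicClosure ℚ)).Point (N : ℤ),
      (∀ P, m • P.1 = 0 → φ P = P) →
        ∃ σ : AlgebraicClosure ℚ ≃ₐ[ℚ] AlgebraicClosure ℚ, ∀ P,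
          Affine.Point.map σ.toAlgHom P.1 = (φ P).1) ↔
    ∃ (l : ℕ) (_ : Fact l.Prime) (l' : ℕ) (_ : Fact l'.Prime),
      (∃ C : VariableChange ℚ_[l],
        HasGoodReduction ℤ_[l] (C • E.map (algebraMap ℚ ℚ_[l]))) ∧
      (∃ C : VariableChange ℚ_[l'],
        HasGoodReduction ℤ_[l'] (C • E.map (algebraMap ℚ ℚ_[l']))) ∧
      E.LFunction l ≠ 0 ∧ E.LFunction l' ≠ 0 ∧
      ¬ IsSquare ((E.LFunction l ^ 2 - 4 * l) * (E.LFunction l' ^ 2 - 4 * l')) := by
  constructor
  · intro hopen
    by_contra hc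
    obtain ⟨W, hW, hWgood⟩ := FA.SerreLarge.exists_goodModel E
    haveI := ratCurve_isElliptic_of_Δ (Δ_ne_zero_of_model hW)
    obtain ⟨d, hd, hneg, hall⟩ := FA.Exceptional.exists_field_of_isSquare (W := W)
      fun l l' hl hl' hg hg' ha ha' => by
        haveI := Fact.mk hl
        haveI := Fact.mk hl'
        rw [← FA.Root.LFunction_apply_prime E W hW hl hg] at ha ⊢
        rw [← FA.Root.LFunction_apply_prime E W hW hl' hg'] at ha' ⊢
        by_contra hns
        exact hc ⟨l, inferInstance, l', inferInstance, FA.Exceptional.exists_good_reduction hW l hg,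
          FA.Exceptional.exists_good_reduction hW l' hg', ha, ha', hns⟩
    refine (not_openImage_iff_frobeniusField_constant E).mpr ⟨d, hd, hneg, fun l hl hgood ha => ?_⟩
      hopen
    rw [FA.Root.LFunction_apply_prime E W hW hl.out (hWgood l hgood)] at ha ⊢
    exact hall l hl.out (hWgood l hgood) ha
  · rintro ⟨l, hl, l', hl', hg, hg', ha, ha', hns⟩
    by_contra hno
    obtain ⟨d, -, -, h⟩ := (not_openImage_iff_frobeniusField_constant E).mp hno
    obtain ⟨b, hb⟩ := h l hg ha
    obtain ⟨b', hb'⟩ := h l' hg' ha'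
    exact hns ⟨d * b * b', by rw [hb, hb']; ring⟩

end FA.Summary

end
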