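import Fermat.Agent.ReducedGroups.Exponent
import Fermat.Agent.PrimeDivisors.Exceptional
import Mathlib.Analysis.SpecialFunctions.Pow.Asymptotics

/-!
# The exponent of `E(𝔽_q)` is almost always large

For every integral equation with nonzero discriminant the good primes `q` at which the group
`E(𝔽_q)` has exponent below `q ^ (3/4) / log q` have convergent sum of reciprocals (Duke, without
any hypothesis), so they have density zero, as do those with exponent at most a multiple of `√q`;
the exponent is at least `√q - 1` at every good prime.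
-/

set_option autoImplicit false
set_option linter.style.haveILetI false
set_option linter.unusedSectionVars false

noncomputable section

open NumberField IsDedekindDomain WeierstrassCurve FA.Frob Filter
open scoped WeierstrassCurve.Affine Classical

namespace FA.Summary

variable (W : WeierstrassCurve ℤ) (hΔ : W.Δ ≠ 0)

include hΔ

/-- **Duke's theorem**: the primes with a small exponent have convergent sum of reciprocals. -/
theorem exponent_duke_summable :
    Summable ({q : ℕ | ∃ _ : Fact q.Prime, W.IsGoodPrimeFor q ∧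
      (AddMonoid.exponent (W.map (Int.castRingHom (ZMod q))).toAffine.Point : ℝ) <
        (q : ℝ) ^ (3 / 4 : ℝ) / Real.log q}.indicator fun n : ℕ => (1 : ℝ) / n) := by
  haveI := ratCurve_isElliptic_of_Δ hΔ
  refine FA.ReducedGroups.summable_of_candidates fun q hq h4 => ?_
  obtain ⟨_, hgood, he⟩ := hq
  exact FA.ReducedGroups.mem_candidates h4 hgood he

/-- **Almost every reduction has exponent at least `q ^ (3/4) / log q`.** -/
theorem exponent_duke_density :
    {v : HeightOneSpectrum (𝓞 ℚ) | ∃ _ : Fact (Ideal.absNorm v.asIdeal).Prime,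
      W.IsGoodPrimeFor (Ideal.absNorm v.asIdeal) ∧
      (AddMonoid.exponent
        (W.map (Int.castRingHom (ZMod (Ideal.absNorm v.asIdeal)))).toAffine.Point : ℝ) <
        (Ideal.absNorm v.asIdeal : ℝ) ^ (3 / 4 : ℝ) /
          Real.log (Ideal.absNorm v.asIdeal : ℝ)}.HasDirichletDensity 0 := by
  have h := FA.PrimeDivisors.density_zero_of_summable (exponent_duke_summable W hΔ)
  exact h

/-- **The exponent outgrows every multiple of `√q`** on a set of density one. -/
theorem exponent_le_sqrt_density_zero (C : ℝ) :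
    {v : HeightOneSpectrum (𝓞 ℚ) | ∃ _ : Fact (Ideal.absNorm v.asIdeal).Prime,
      W.IsGoodPrimeFor (Ideal.absNorm v.asIdeal) ∧
      (AddMonoid.exponent
        (W.map (Int.castRingHom (ZMod (Ideal.absNorm v.asIdeal)))).toAffine.Point : ℝ) ≤
        C * Real.sqrt (Ideal.absNorm v.asIdeal : ℝ)}.HasDirichletDensity 0 := by
  have hev : ∀ᶠ x : ℝ in atTop, 1 < x ∧ C * Real.sqrt x < x ^ (3 / 4 : ℝ) / Real.log x := by
    filter_upwards [(isLittleO_log_rpow_atTop (show (0 : ℝ) < 1 / 4 by norm_num)).bound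
      (show (0 : ℝ) < 1 / (|C| + 1) by positivity), eventually_gt_atTop (1 : ℝ)] with x hx h1
    refine ⟨h1, ?_⟩
    have hL : 0 < Real.log x := Real.log_pos h1
    have hx0 : (0 : ℝ) < x := one_pos.trans h1
    rw [Real.norm_eq_abs, Real.norm_eq_abs, abs_of_pos hL, abs_of_pos (Real.rpow_pos_of_pos hx0 _),
      one_div_mul_eq_div, le_div_iff₀ (by positivity)] at hx
    rw [lt_div_iff₀ hL, show (3 / 4 : ℝ) = 1 / 2 + 1 / 4 by norm_num, Real.rpow_add hx0,
      ← Real.sqrt_eq_rpow, mul_comm C, mul_assoc]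
    refine mul_lt_mul_of_pos_left (lt_of_lt_of_le ?_ hx) (Real.sqrt_pos.mpr hx0)
    nlinarith [mul_le_mul_of_nonneg_right (le_abs_self C) hL.le]
  obtain ⟨M, hM⟩ := eventually_atTop.mp hev
  refine FA.Supersingular.density_zero_of_approx fun ε hε => ⟨_,
    {v : HeightOneSpectrum (𝓞 ℚ) | Ideal.absNorm v.asIdeal ∈ Finset.range ⌈M⌉₊}, 0,
    exponent_duke_density W hΔ, hε, FA.Supersingular.finite_absNorm_mem _, fun v hv => ?_⟩
  refine or_iff_not_imp_right.mpr fun hvF => ?_
  obtain ⟨hp, hgood, he⟩ := hv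
  refine ⟨hp, hgood, he.trans_lt (hM _ ?_).2⟩
  rw [Set.mem_ofPred_eq, Finset.mem_range, not_lt, Nat.ceil_le] at hvF
  exact hvF

/-- **The exponent is at least `√q - 1`** at every good prime. -/
theorem sqrt_sub_one_le_exponent {q : ℕ} [hq : Fact q.Prime] (hgood : W.IsGoodPrimeFor q) :
    Real.sqrt q - 1 ≤
      (AddMonoid.exponent (W.map (Int.castRingHom (ZMod q))).toAffine.Point : ℝ) := by
  haveI := ratCurve_isElliptic_of_Δ hΔ
  have he : 1 ≤ (AddMonoid.exponent (W.map (Int.castRingHom (ZMod q))).toAffine.Point : ℝ) := by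
    exact_mod_cast Nat.one_le_iff_ne_zero.mpr AddMonoid.exponent_ne_zero_of_finite
  rcases le_or_gt q 2 with h2 | h3
  · have : Real.sqrt q ≤ 2 := Real.sqrt_le_iff.mpr ⟨two_pos.le, by
      have : (q : ℝ) ≤ 2 := by exact_mod_cast h2
      linarith⟩
    linarith
  obtain ⟨d, hd0, hde, hdvd, -⟩ := FA.ReducedGroups.exists_structure (W := W) h3 hgood
  have hH : (W.apOfModel q : ℝ) ^ 2 ≤ 4 * (q : ℝ) := by
    haveI : (W.reductionMod q).IsElliptic := FA.PointDiv.reductionMod_isElliptic W hgood
    exact_mod_cast FA.HasseBound.traceOfFrobenius_sq_le (W.reductionMod q)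
  set e := AddMonoid.exponent (W.map (Int.castRingHom (ZMod q))).toAffine.Point
  have hde' : (d : ℝ) * e = (q : ℝ) + 1 - W.apOfModel q := by exact_mod_cast hde
  have hdle : (d : ℝ) ≤ e := by
    exact_mod_cast Nat.le_of_dvd (Nat.pos_of_ne_zero AddMonoid.exponent_ne_zero_of_finite) hdvd
  have hs : Real.sqrt q ^ 2 = q := Real.sq_sqrt (Nat.cast_nonneg _)
  have hs1 : 1 ≤ Real.sqrt q := Real.le_sqrt_of_sq_le (by
    rw [one_pow]; exact_mod_cast hq.out.one_le)
  have ha := le_of_abs_le (abs_le_of_sq_le_sq (b := 2 * Real.sqrt q)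
    (a := (W.apOfModel q : ℝ)) (by rw [mul_pow, hs]; linarith) (by positivity))
  refine (abs_le_of_sq_le_sq' ?_ (by linarith)).2
  nlinarith

/-- **The structure of `E(𝔽_q)`**: with exponent `e` it has order `d e` for some `d ∣ e` dividing
`q - 1` and `a_q - 2`, and has `d ^ 2` points killed by `d`. -/
theorem reduced_group_structure {q : ℕ} [hq : Fact q.Prime] (h3 : 3 ≤ q)
    (hgood : W.IsGoodPrimeFor q) :
    ∃ d : ℕ, d * AddMonoid.exponent (W.map (Int.castRingHom (ZMod q))).toAffine.Point =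
        Nat.card (W.map (Int.castRingHom (ZMod q))).toAffine.Point ∧
      d ∣ AddMonoid.exponent (W.map (Int.castRingHom (ZMod q))).toAffine.Point ∧
      Nat.card {P : (W.map (Int.castRingHom (ZMod q))).toAffine.Point // d • P = 0} = d ^ 2 ∧
      d ∣ q - 1 ∧ (d : ℤ) ∣ W.apOfModel q - 2 := by
  haveI := ratCurve_isElliptic_of_Δ hΔ
  obtain ⟨d, -, hde, hdvd, ⟨_, hfull⟩, h1, h2⟩ :=
    FA.ReducedGroups.exists_structure (W := W) h3 hgood
  refine ⟨d, Int.natCast_inj.mp ?_, hdvd, hfull, h1, h2⟩
  push_cast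
  refine hde.trans ?_
  show (q : ℤ) + 1 - ((Nat.card (ZMod q) : ℤ) + 1 - _) = _
  rw [Nat.card_zmod]
  show (q : ℤ) + 1 - ((q : ℤ) + 1 - _) = _
  rw [sub_sub_cancel]
  rfl

end FA.Summary

end
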