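import Fermat.Agent.ReducedGroups.NaturalDensity
import Fermat.Agent.ReducedGroups.SubgroupOrder
import Fermat.Agent.ReducedGroups.ExponentCM
import Fermat.Agent.Root.SummaryFrobeniusFieldCM

/-!
# Small exponents and small orders, counted up to `n`

The exceptional primes of the theorems of Duke, of Matthews and of Gupta and Murty number at most
`C n / (log n) ²` up to `n`, so they are `o(π(n))`: natural density zero among the primes.
-/

set_option autoImplicit false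
set_option linter.style.haveILetI false
set_option linter.unusedSectionVars false

noncomputable section

open WeierstrassCurve FA.Frob Filter Topology
open scoped WeierstrassCurve.Affine Classical

namespace FA.Summary

variable (W : WeierstrassCurve ℤ) (hΔ : W.Δ ≠ 0)

include hΔ

/-- **Duke's theorem by counting.** -/
theorem exponent_duke_natural :
    (∃ C : ℝ, ∀ n : ℕ, 2 ≤ n →
      ({q : ℕ | q ≤ n ∧ ∃ _ : Fact q.Prime, W.IsGoodPrimeFor q ∧
        (AddMonoid.exponent (W.map (Int.castRingHom (ZMod q))).toAffine.Point : ℝ) <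
          (q : ℝ) ^ (3 / 4 : ℝ) / Real.log q}.ncard : ℝ) ≤ C * n / Real.log n ^ 2) ∧
    Tendsto (fun n : ℕ => ({q : ℕ | q ≤ n ∧ ∃ _ : Fact q.Prime, W.IsGoodPrimeFor q ∧
        (AddMonoid.exponent (W.map (Int.castRingHom (ZMod q))).toAffine.Point : ℝ) <
          (q : ℝ) ^ (3 / 4 : ℝ) / Real.log q}.ncard : ℝ) / Nat.primeCounting n)
      atTop (𝓝 0) := by
  haveI := ratCurve_isElliptic_of_Δ hΔ
  have hP : ∀ q ∈ {q : ℕ | ∃ _ : Fact q.Prime, W.IsGoodPrimeFor q ∧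
      (AddMonoid.exponent (W.map (Int.castRingHom (ZMod q))).toAffine.Point : ℝ) <
        (q : ℝ) ^ (3 / 4 : ℝ) / Real.log q}, 4 ≤ q →
      q ∈ FA.ReducedGroups.candidates (Nat.log 2 q) := by
    rintro q ⟨_, hgood, he⟩ h4
    exact FA.ReducedGroups.mem_candidates h4 hgood he
  exact ⟨⟨_, fun n hn => FA.ReducedGroups.ncard_le_of_dyadic (by norm_num : (0 : ℝ) ≤ 15360)
      (fun k hk => FA.ReducedGroups.card_candidates_le hk) hP hn⟩,
    FA.ReducedGroups.tendsto_ratio_of_dyadic (by norm_num : (0 : ℝ) ≤ 15360)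
      (fun k hk => FA.ReducedGroups.card_candidates_le hk) hP⟩

/-- **Matthews, Gupta and Murty by counting**: one point of infinite order. -/
theorem pointOrder_natural {x y : ℚ} (h : (ratCurve W).toAffine.Nonsingular x y)
    (hP : ¬ IsOfFinAddOrder (Affine.Point.some x y h)) :
    (∃ C : ℝ, ∀ n : ℕ, 2 ≤ n →
      ({q : ℕ | q ≤ n ∧ ∃ _ : Fact q.Prime, W.IsGoodPrimeFor q ∧ ¬ q ∣ x.den ∧
        ∃ h' : (W.map (Int.castRingHom (ZMod q))).toAffine.Nonsingular (x : ZMod q) y,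
          (addOrderOf (Affine.Point.some (x : ZMod q) (y : ZMod q) h') : ℝ) <
            (q : ℝ) ^ (1 / 3 : ℝ) / Real.log q}.ncard : ℝ) ≤ C * n / Real.log n ^ 2) ∧
    Tendsto (fun n : ℕ => ({q : ℕ | q ≤ n ∧ ∃ _ : Fact q.Prime, W.IsGoodPrimeFor q ∧
        ¬ q ∣ x.den ∧
        ∃ h' : (W.map (Int.castRingHom (ZMod q))).toAffine.Nonsingular (x : ZMod q) y,
          (addOrderOf (Affine.Point.some (x : ZMod q) (y : ZMod q) h') : ℝ) <
            (q : ℝ) ^ (1 / 3 : ℝ) / Real.log q}.ncard : ℝ) / Nat.primeCounting n)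
      atTop (𝓝 0) := by
  haveI := ratCurve_isElliptic_of_Δ hΔ
  obtain ⟨c, K, hK, hc, hmem⟩ := FA.ReducedGroups.exists_candidates_order W h fun n hn e =>
    hP (isOfFinAddOrder_iff_nsmul_eq_zero.mpr ⟨n, hn, e⟩)
  have hQ : ∀ q ∈ {q : ℕ | ∃ _ : Fact q.Prime, W.IsGoodPrimeFor q ∧ ¬ q ∣ x.den ∧
      ∃ h' : (W.map (Int.castRingHom (ZMod q))).toAffine.Nonsingular (x : ZMod q) y,
        (addOrderOf (Affine.Point.some (x : ZMod q) (y : ZMod q) h') : ℝ) <
          (q : ℝ) ^ (1 / 3 : ℝ) / Real.log q}, 4 ≤ q → q ∈ c (Nat.log 2 q) := by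
    rintro q ⟨_, hgood, hx, h', hlt⟩ h4
    exact hmem q h4 hgood hx h' hlt
  exact ⟨⟨_, fun n hn => FA.ReducedGroups.ncard_le_of_dyadic hK hc hQ hn⟩,
    FA.ReducedGroups.tendsto_ratio_of_dyadic hK hc hQ⟩

/-- **Matthews, Gupta and Murty by counting**: `r` independent points. -/
theorem subgroupOrder_natural {r : ℕ} (hr : 1 ≤ r) {x y : Fin r → ℚ}
    (hns : ∀ i, (ratCurve W).toAffine.Nonsingular (x i) (y i))
    (hP : LinearIndependent ℤ fun i => Affine.Point.some (x i) (y i) (hns i)) :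
    (∃ C : ℝ, ∀ n : ℕ, 2 ≤ n →
      ({q : ℕ | q ≤ n ∧ ∃ _ : Fact q.Prime, W.IsGoodPrimeFor q ∧
        (∀ i, ¬ q ∣ (x i).den ∧ ¬ q ∣ (y i).den) ∧
        ∃ h : ∀ i, (W.map (Int.castRingHom (ZMod q))).toAffine.Nonsingular (x i : ZMod q) (y i),
          (Nat.card (AddSubgroup.closure (Set.range fun i => Affine.Point.some _ _ (h i))) : ℝ) <
            (q : ℝ) ^ ((r : ℝ) / (r + 2)) / Real.log q}.ncard : ℝ) ≤ C * n / Real.log n ^ 2) ∧
    Tendsto (fun n : ℕ => ({q : ℕ | q ≤ n ∧ ∃ _ : Fact q.Prime, W.IsGoodPrimeFor q ∧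
        (∀ i, ¬ q ∣ (x i).den ∧ ¬ q ∣ (y i).den) ∧
        ∃ h : ∀ i, (W.map (Int.castRingHom (ZMod q))).toAffine.Nonsingular (x i : ZMod q) (y i),
          (Nat.card (AddSubgroup.closure (Set.range fun i => Affine.Point.some _ _ (h i))) : ℝ) <
            (q : ℝ) ^ ((r : ℝ) / (r + 2)) / Real.log q}.ncard : ℝ) / Nat.primeCounting n)
      atTop (𝓝 0) := by
  haveI := ratCurve_isElliptic_of_Δ hΔ
  obtain ⟨c, K, hK, hc, hmem⟩ := FA.ReducedGroups.exists_candidates_subgroup W hr hns fun n hn =>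
    funext (Fintype.linearIndependent_iff.mp hP n hn)
  have hQ : ∀ q ∈ {q : ℕ | ∃ _ : Fact q.Prime, W.IsGoodPrimeFor q ∧
      (∀ i, ¬ q ∣ (x i).den ∧ ¬ q ∣ (y i).den) ∧
      ∃ h : ∀ i, (W.map (Int.castRingHom (ZMod q))).toAffine.Nonsingular (x i : ZMod q) (y i),
        (Nat.card (AddSubgroup.closure (Set.range fun i => Affine.Point.some _ _ (h i))) : ℝ) <
          (q : ℝ) ^ ((r : ℝ) / (r + 2)) / Real.log q}, 4 ≤ q → q ∈ c (Nat.log 2 q) := by
    rintro q ⟨_, hgood, hden, h, hlt⟩ h4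
    exact hmem q h4 hgood hden h hlt
  exact ⟨⟨_, fun n hn => FA.ReducedGroups.ncard_le_of_dyadic hK hc hQ hn⟩,
    FA.ReducedGroups.tendsto_ratio_of_dyadic hK hc hQ⟩

omit hΔ in
/-- **Duke's theorem for complex multiplication by counting.** -/
theorem exponent_cm_natural (E : WeierstrassCurve ℚ) [E.IsElliptic] (hW : W.IsIntegralModelOf E)
    {D : ℤ} (hD : Squarefree D) (hD1 : D ≠ 1)
    (h : ∀ l : ℕ, ∀ [Fact l.Prime],
      (∃ C : VariableChange ℚ_[l],
        HasGoodReduction ℤ_[l] (C • E.map (algebraMap ℚ ℚ_[l]))) →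
      ¬ IsSquare (D : ZMod l) → E.LFunction l = 0) :
    (∃ C : ℝ, ∀ n : ℕ, 2 ≤ n →
      ({q : ℕ | q ≤ n ∧ ∃ _ : Fact q.Prime, W.IsGoodPrimeFor q ∧
        (AddMonoid.exponent (W.map (Int.castRingHom (ZMod q))).toAffine.Point : ℝ) <
          (q : ℝ) / Real.log q ^ 2}.ncard : ℝ) ≤ C * n / Real.log n ^ 2) ∧
    Tendsto (fun n : ℕ => ({q : ℕ | q ≤ n ∧ ∃ _ : Fact q.Prime, W.IsGoodPrimeFor q ∧
        (AddMonoid.exponent (W.map (Int.castRingHom (ZMod q))).toAffine.Point : ℝ) <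
          (q : ℝ) / Real.log q ^ 2}.ncard : ℝ) / Nat.primeCounting n)
      atTop (𝓝 0) := by
  haveI := ratCurve_isElliptic_of_Δ (FA.Frob.Δ_ne_zero_of_model hW)
  have hP : ∀ q ∈ {q : ℕ | ∃ _ : Fact q.Prime, W.IsGoodPrimeFor q ∧
      (AddMonoid.exponent (W.map (Int.castRingHom (ZMod q))).toAffine.Point : ℝ) <
        (q : ℝ) / Real.log q ^ 2}, 4 ≤ q →
      q ∈ FA.ReducedGroups.candidatesCM D (Nat.log 2 q) := by
    rintro q ⟨_, hgood, he⟩ h4
    exact FA.ReducedGroups.mem_candidatesCM hD hD1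
      (fun l hl => FA.Exceptional.apOfModel_eq_zero hW h hl) h4 hgood he
  exact ⟨⟨_, fun n hn => FA.ReducedGroups.ncard_le_of_dyadic (by norm_num : (0 : ℝ) ≤ 7300)
      (fun k hk => FA.ReducedGroups.card_candidatesCM_le D hk) hP hn⟩,
    FA.ReducedGroups.tendsto_ratio_of_dyadic (by norm_num : (0 : ℝ) ≤ 7300)
      (fun k hk => FA.ReducedGroups.card_candidatesCM_le D hk) hP⟩

end FA.Summary

end
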