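import Fermat.Agent.ReducedGroups.SplitLevel
import Fermat.Agent.Root.SummaryExponents
import Fermat.Agent.Root.SummaryExponentsNatural

/-!
# The division fields in which a prime splits completely

Frobenius at a good `q` is trivial on `E[n]` exactly for the divisors `n` of one number, the order
of `E(𝔽_q)` over its exponent; for every curve and almost all `q` that number is at most
`4 q^(1/4) log q`.
-/

set_option autoImplicit false
set_option linter.style.haveILetI false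
set_option linter.unusedSectionVars false

noncomputable section

open WeierstrassCurve FA.Frob Filter Topology
open scoped WeierstrassCurve.Affine Classical

local notation "Qb" => AlgebraicClosure ℚ
local notation "GQ" => AlgebraicClosure ℚ ≃ₐ[ℚ] AlgebraicClosure ℚ

namespace FA.Summary

/-- **The splitting levels are the divisors of one number.** -/
theorem splitCompletely_divisionField_iff (W : WeierstrassCurve ℤ) (hΔ : W.Δ ≠ 0) {q : ℕ}
    [Fact q.Prime] (h3 : 3 ≤ q) (hgood : W.IsGoodPrimeFor q) :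
    ∃ d : ℕ, d ∣ q - 1 ∧ (d : ℤ) ∣ W.apOfModel q - 2 ∧ ∀ n : ℕ, ¬ q ∣ n →
      ∀ A : ValuationSubring Qb, A.LiesOverPrime q → ∀ σ : GQ, A.IsFrobeniusAt σ q →
        ((∀ x : FA.RT.Tate.Pts W, n • x = 0 → σ • x = x) ↔ n ∣ d) := by
  haveI := ratCurve_isElliptic_of_Δ hΔ
  haveI : (W.map (Int.castRingHom (ZMod q))).IsElliptic :=
    FA.PointDiv.reductionMod_isElliptic W hgood
  obtain ⟨d, -, hcard, h1, h2, -⟩ :=
    FA.ReducedGroups.exists_equiv_zmod h3 (W.map (Int.castRingHom (ZMod q)))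
  refine ⟨d, h1, h2, fun n hn A hA σ hσ => ?_⟩
  rw [FA.ReducedGroups.frobenius_trivial_iff W h3 hgood hn hA hσ, ← hcard,
    Nat.mul_div_cancel _ (Nat.pos_of_ne_zero AddMonoid.exponent_ne_zero_of_finite)]

/-- A level above `4 q^(1/4) log q` forces an exponent below `q^(3/4) / log q`. -/
theorem exponent_lt_of_split (W : WeierstrassCurve ℤ) (hΔ : W.Δ ≠ 0) {q : ℕ} [Fact q.Prime]
    (h3 : 3 ≤ q) (hgood : W.IsGoodPrimeFor q) {n : ℕ} (hqn : ¬ q ∣ n)
    (hbig : 4 * (q : ℝ) ^ (1 / 4 : ℝ) * Real.log q < n)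
    {A : ValuationSubring Qb} (hA : A.LiesOverPrime q) {σ : GQ} (hσ : A.IsFrobeniusAt σ q)
    (hfix : ∀ x : FA.RT.Tate.Pts W, n • x = 0 → σ • x = x) :
    (AddMonoid.exponent (W.map (Int.castRingHom (ZMod q))).toAffine.Point : ℝ) <
      (q : ℝ) ^ (3 / 4 : ℝ) / Real.log q := by
  haveI := ratCurve_isElliptic_of_Δ hΔ
  haveI : (W.map (Int.castRingHom (ZMod q))).IsElliptic :=
    FA.PointDiv.reductionMod_isElliptic W hgood
  set V := W.map (Int.castRingHom (ZMod q))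
  obtain ⟨d, -, hcard, -, -, -⟩ := FA.ReducedGroups.exists_equiv_zmod h3 V
  have he0 : 0 < AddMonoid.exponent V.toAffine.Point :=
    Nat.pos_of_ne_zero AddMonoid.exponent_ne_zero_of_finite
  have hdiv := (FA.ReducedGroups.frobenius_trivial_iff W h3 hgood hqn hA hσ).mp hfix
  rw [← hcard, Nat.mul_div_cancel _ he0] at hdiv
  have hd0 : 0 < d := Nat.pos_of_ne_zero fun e => by
    rw [e, zero_mul] at hcard; exact Nat.card_pos.ne hcard
  have hnd : (n : ℝ) ≤ d := by exact_mod_cast Nat.le_of_dvd hd0 hdiv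
  have hq0 : (0 : ℝ) < q := by exact_mod_cast (show 0 < q by omega)
  have hq3 : (3 : ℝ) ≤ q := by exact_mod_cast h3
  have hL : 0 < Real.log q := Real.log_pos (by linarith)
  have hN : (Nat.card V.toAffine.Point : ℝ) ≤ 4 * q := by
    have hH := (abs_le.mp (FA.HasseBound.hasse V)).1
    have hs : Real.sqrt q ≤ q := Real.sqrt_le_iff.mpr ⟨hq0.le, by nlinarith⟩
    linarith
  rw [← hcard, Nat.cast_mul] at hN
  rw [lt_div_iff₀ hL]
  set e : ℝ := (AddMonoid.exponent V.toAffine.Point : ℝ)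
  have he : 0 < e := Nat.cast_pos.mpr he0
  have h1 : e * (4 * (q : ℝ) ^ (1 / 4 : ℝ) * Real.log q) < 4 * q := by
    calc e * (4 * (q : ℝ) ^ (1 / 4 : ℝ) * Real.log q) < e * d :=
          mul_lt_mul_of_pos_left (hbig.trans_le hnd) he
      _ ≤ 4 * q := by rw [mul_comm]; exact hN
  have h2 : (q : ℝ) ^ (1 / 4 : ℝ) * (q : ℝ) ^ (3 / 4 : ℝ) = q := by
    rw [← Real.rpow_add hq0]; norm_num
  have h3' : 0 < (q : ℝ) ^ (1 / 4 : ℝ) := by positivity
  nlinarith

/-- **Almost no prime splits completely in a division field of level above `4 q^(1/4) log q`.** -/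
theorem splitCompletely_level_small (W : WeierstrassCurve ℤ) (hΔ : W.Δ ≠ 0) :
    Summable ({q : ℕ | ∃ _ : Fact q.Prime, W.IsGoodPrimeFor q ∧ ∃ n : ℕ, ¬ q ∣ n ∧
      4 * (q : ℝ) ^ (1 / 4 : ℝ) * Real.log q < n ∧ ∃ A : ValuationSubring Qb,
        A.LiesOverPrime q ∧ ∃ σ : GQ, A.IsFrobeniusAt σ q ∧
          ∀ x : FA.RT.Tate.Pts W, n • x = 0 → σ • x = x}.indicator fun m : ℕ => (1 : ℝ) / m) ∧
    Tendsto (fun m : ℕ => ({q : ℕ | q ≤ m ∧ ∃ _ : Fact q.Prime, W.IsGoodPrimeFor q ∧ ∃ n : ℕ,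
      ¬ q ∣ n ∧ 4 * (q : ℝ) ^ (1 / 4 : ℝ) * Real.log q < n ∧ ∃ A : ValuationSubring Qb,
        A.LiesOverPrime q ∧ ∃ σ : GQ, A.IsFrobeniusAt σ q ∧
          ∀ x : FA.RT.Tate.Pts W, n • x = 0 → σ • x = x}.ncard : ℝ) / Nat.primeCounting m)
      atTop (𝓝 0) := by
  haveI := ratCurve_isElliptic_of_Δ hΔ
  have hP : ∀ q ∈ {q : ℕ | ∃ _ : Fact q.Prime, W.IsGoodPrimeFor q ∧ ∃ n : ℕ, ¬ q ∣ n ∧
      4 * (q : ℝ) ^ (1 / 4 : ℝ) * Real.log q < n ∧ ∃ A : ValuationSubring Qb,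
        A.LiesOverPrime q ∧ ∃ σ : GQ, A.IsFrobeniusAt σ q ∧
          ∀ x : FA.RT.Tate.Pts W, n • x = 0 → σ • x = x}, 4 ≤ q →
      q ∈ FA.ReducedGroups.candidates (Nat.log 2 q) := by
    rintro q ⟨_, hgood, n, hqn, hbig, A, hA, σ, hσ, hfix⟩ h4
    exact FA.ReducedGroups.mem_candidates h4 hgood
      (exponent_lt_of_split W hΔ (by omega) hgood hqn hbig hA hσ hfix)
  exact ⟨FA.ReducedGroups.summable_of_candidates hP,
    FA.ReducedGroups.tendsto_ratio_of_dyadic (by norm_num : (0 : ℝ) ≤ 15360)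
      (fun k hk => FA.ReducedGroups.card_candidates_le hk) hP⟩

end FA.Summary

end
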