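import Fermat.Agent.Tau.SingularConjugate

/-!
# The class polynomial

Reduced primitive forms of negative discriminant are pairwise inequivalent; the values of `j` at
their roots are all conjugate, so `j(τ)` has degree exactly `h(D)` and one irreducible monic
integral polynomial of degree `h(D)` has exactly these values as its roots.
-/

set_option autoImplicit false

noncomputable section

open UpperHalfPlane hiding I
open ModularForm EisensteinSeries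
open scoped MatrixGroups

namespace FA.Summary

/-- **Reduced primitive forms are pairwise inequivalent.** -/
theorem reducedForm_unique {a b c a' b' c' : ℤ} (hD : b ^ 2 - 4 * a * c < 0)
    (hd : b' ^ 2 - 4 * a' * c' = b ^ 2 - 4 * a * c)
    (hp : Int.gcd (Int.gcd a b) c = 1) (hp' : Int.gcd (Int.gcd a' b') c' = 1)
    (hr : 0 < a ∧ |b| ≤ a ∧ a ≤ c ∧ ((|b| = a ∨ a = c) → 0 ≤ b))
    (hr' : 0 < a' ∧ |b'| ≤ a' ∧ a' ≤ c' ∧ ((|b'| = a' ∨ a' = c') → 0 ≤ b'))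
    {τ τ' : ℍ} (hτ : (a : ℂ) * (τ : ℂ) ^ 2 + b * (τ : ℂ) + c = 0)
    (hτ' : (a' : ℂ) * (τ' : ℂ) ^ 2 + b' * (τ' : ℂ) + c' = 0) {g : SL(2, ℤ)} (hg : g • τ = τ') :
    a = a' ∧ b = b' ∧ c = c' := by
  have h := FA.Singular.red_eq_of_smul hD (f := (a, b, c)) (f' := (a', b', c')) ⟨rfl, hp, hr⟩
    ⟨hd, hp', hr'⟩ hτ hτ' hg
  simpa [Prod.ext_iff] using h

/-- **All singular moduli of one discriminant are Galois conjugate.** -/
theorem singularModuli_conjugate {a b c a' b' c' : ℤ}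
    (hp : Int.gcd (Int.gcd a b) c = 1) (hp' : Int.gcd (Int.gcd a' b') c' = 1)
    (ha : 0 < a) (ha' : 0 < a') (hD : b ^ 2 - 4 * a * c < 0)
    (hd : b' ^ 2 - 4 * a' * c' = b ^ 2 - 4 * a * c) {τ τ' : ℍ}
    (hτ : (a : ℂ) * (τ : ℂ) ^ 2 + b * (τ : ℂ) + c = 0)
    (hτ' : (a' : ℂ) * (τ' : ℂ) ^ 2 + b' * (τ' : ℂ) + c' = 0) :
    ∃ σ : ℂ ≃+* ℂ,
      σ (E₄ τ ^ 3 / ModularForm.discriminant τ) = E₄ τ' ^ 3 / ModularForm.discriminant τ' := by
  have hu := FA.Singular.jfun_mem_values (t := (a, b, c)) ha hD hp hτ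
  have hv := FA.Singular.jfun_mem_values (t := (a', b', c')) ha' (hd.trans_lt hD) hp' hτ'
  rw [show FA.Singular.disc (a', b', c') = FA.Singular.disc (a, b, c) from hd] at hv
  have hi := FA.Singular.isIntegral_values hD hu
  show ∃ σ : ℂ ≃+* ℂ, σ (FA.ModField.jfun τ) = FA.ModField.jfun τ'
  refine FA.Singular.exists_aut_of_root hi.tower_top ?_
  rw [minpoly.isIntegrallyClosed_eq_field_fractions' ℚ hi, Polynomial.aeval_map_algebraMap,
    FA.Singular.minpoly_eq_of_mem hD hu hv]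
  exact minpoly.aeval ℤ _

/-- **The degree of a singular modulus is the class number.** -/
theorem singularModulus_degree {a b c : ℤ} (hp : Int.gcd (Int.gcd a b) c = 1) (ha : 0 < a)
    (hD : b ^ 2 - 4 * a * c < 0) {τ : ℍ}
    (hτ : (a : ℂ) * (τ : ℂ) ^ 2 + b * (τ : ℂ) + c = 0) :
    (minpoly ℚ (E₄ τ ^ 3 / ModularForm.discriminant τ)).natDegree =
      {t : ℤ × ℤ × ℤ | t.2.1 ^ 2 - 4 * t.1 * t.2.2 = b ^ 2 - 4 * a * c ∧
        Int.gcd (Int.gcd t.1 t.2.1) t.2.2 = 1 ∧ 0 < t.1 ∧ |t.2.1| ≤ t.1 ∧ t.1 ≤ t.2.2 ∧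
        ((|t.2.1| = t.1 ∨ t.1 = t.2.2) → 0 ≤ t.2.1)}.ncard :=
  FA.Singular.natDegree_minpoly (D := b ^ 2 - 4 * a * c) hD
    (FA.Singular.jfun_mem_values (t := (a, b, c)) ha hD hp hτ)

/-- **A singular modulus is rational exactly when the class number is one.** -/
theorem singularModulus_rational_iff {a b c : ℤ} (hp : Int.gcd (Int.gcd a b) c = 1) (ha : 0 < a)
    (hD : b ^ 2 - 4 * a * c < 0) {τ : ℍ}
    (hτ : (a : ℂ) * (τ : ℂ) ^ 2 + b * (τ : ℂ) + c = 0) :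
    (∃ q : ℚ, (q : ℂ) = E₄ τ ^ 3 / ModularForm.discriminant τ) ↔
      {t : ℤ × ℤ × ℤ | t.2.1 ^ 2 - 4 * t.1 * t.2.2 = b ^ 2 - 4 * a * c ∧
        Int.gcd (Int.gcd t.1 t.2.1) t.2.2 = 1 ∧ 0 < t.1 ∧ |t.2.1| ≤ t.1 ∧ t.1 ≤ t.2.2 ∧
        ((|t.2.1| = t.1 ∨ t.1 = t.2.2) → 0 ≤ t.2.1)}.ncard = 1 := by
  have hi : IsIntegral ℚ (FA.ModField.jfun τ) :=
    (FA.SingularIntegral.isIntegral_jfun hD hτ).tower_top
  rw [← singularModulus_degree hp ha hD hτ]
  show _ ↔ (minpoly ℚ (FA.ModField.jfun τ)).natDegree = 1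
  rw [minpoly.natDegree_eq_one_iff]
  rfl

/-- **The class polynomial**: monic, integral, irreducible, of degree `h(D)`, with exactly the
singular moduli of discriminant `D` as roots. -/
theorem classPolynomial {D : ℤ} (hD : D < 0)
    (hne : ∃ a b c : ℤ, 0 < a ∧ b ^ 2 - 4 * a * c = D ∧ Int.gcd (Int.gcd a b) c = 1) :
    ∃ H : Polynomial ℤ, H.Monic ∧ Irreducible (H.map (Int.castRingHom ℚ)) ∧
      H.natDegree = {t : ℤ × ℤ × ℤ | t.2.1 ^ 2 - 4 * t.1 * t.2.2 = D ∧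
        Int.gcd (Int.gcd t.1 t.2.1) t.2.2 = 1 ∧ 0 < t.1 ∧ |t.2.1| ≤ t.1 ∧ t.1 ≤ t.2.2 ∧
        ((|t.2.1| = t.1 ∨ t.1 = t.2.2) → 0 ≤ t.2.1)}.ncard ∧
      ∀ z : ℂ, Polynomial.aeval z H = 0 ↔ ∃ (a b c : ℤ) (τ : ℍ), 0 < a ∧
        b ^ 2 - 4 * a * c = D ∧ Int.gcd (Int.gcd a b) c = 1 ∧
        (a : ℂ) * (τ : ℂ) ^ 2 + b * (τ : ℂ) + c = 0 ∧
        E₄ τ ^ 3 / ModularForm.discriminant τ = z := by
  obtain ⟨a, b, c, ha, hd, hp⟩ := hne
  obtain ⟨τ, hτ⟩ := FA.Singular.exists_isRoot (t := (a, b, c)) ha (hd.trans_lt hD)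
  have hu : FA.ModField.jfun τ ∈ FA.Singular.values D := by
    have := FA.Singular.jfun_mem_values (t := (a, b, c)) ha (hd.trans_lt hD) hp hτ
    rwa [show FA.Singular.disc (a, b, c) = D from hd] at this
  have hi := FA.Singular.isIntegral_values hD hu
  have hmap := minpoly.isIntegrallyClosed_eq_field_fractions' ℚ hi
  refine ⟨minpoly ℤ (FA.ModField.jfun τ), minpoly.monic hi, ?_, ?_, fun z => ⟨fun hz => ?_, ?_⟩⟩
  · rw [← algebraMap_int_eq, ← hmap]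
    exact minpoly.irreducible hi.tower_top
  · rw [← (minpoly.monic hi).natDegree_map (algebraMap ℤ ℚ), ← hmap]
    exact FA.Singular.natDegree_minpoly hD hu
  · obtain ⟨⟨a', b', c'⟩, hf, τ', hτ', hz'⟩ := FA.Singular.root_mem_values hD hu hz
    exact ⟨a', b', c', τ', hf.2.2.1, hf.1, hf.2.1, hτ', hz'⟩
  · rintro ⟨a', b', c', τ', ha', hd', hp', hτ', rfl⟩
    have hv := FA.Singular.jfun_mem_values (t := (a', b', c')) ha' (hd'.trans_lt hD) hp' hτ'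
    rw [show FA.Singular.disc (a', b', c') = D from hd'] at hv
    rw [FA.Singular.minpoly_eq_of_mem hD hu hv]
    exact minpoly.aeval ℤ _

end FA.Summary

end
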