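import Fermat.Agent.ChowlaSelberg.Periods
import Fermat.Agent.ChowlaSelberg.Sqrt

/-!
# The theorem of Chowla and Selberg on CM periods

`chowla_selberg_periods`: for an imaginary quadratic field `K` with discriminant `D`, class number
`h` and `w` roots of unity let `Ω = π ^ (-1/2) ∏ Γ (a / |D|) ^ (w χ a / (4 h))`. The number
`∏ Γ (a / |D|) ^ (w χ a) / π ^ (2 h)` is transcendental; at every point of `K` in the upper half
plane `Δ / Ω ^ 12`, `E₄ / Ω ^ 4`, `E₆ / Ω ^ 6` and `F / Ω ^ k` for a rational cusp form `F` of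
weight `k` are algebraic; for a lattice with algebraic invariants and period ratio in `K` every
period is an algebraic multiple of `π Ω`.
-/

set_option autoImplicit false
set_option linter.style.haveILetI false

noncomputable section

open NumberField Module CongruenceSubgroup
open scoped Real UpperHalfPlane

namespace FA.Summary

/-- **The theorem of Chowla and Selberg on periods.** -/
theorem chowla_selberg_periods (K : Type*) [Field K] [NumberField K] [IsTotallyComplex K]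
    (hK : finrank ℚ K = 2) :
    haveI : NeZero (discr K).natAbs := ⟨Int.natAbs_ne_zero.mpr (discr_ne_zero K)⟩
    ∃ χ : DirichletCharacter ℂ (discr K).natAbs, χ.IsPrimitive ∧ χ ^ 2 = 1 ∧ χ.Odd ∧
      (∀ z : ℂ, 1 < z.re →
        dedekindZeta K z = riemannZeta z * DirichletCharacter.LFunction χ z) ∧
      Transcendental ℚ ((∏ a : ZMod (discr K).natAbs,
        Real.Gamma ((a.val : ℝ) / (discr K).natAbs) ^
          ((Units.torsionOrder K : ℝ) * (χ a).re)) / π ^ (2 * classNumber K)) ∧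
      ∀ e : K →+* ℂ,
        letI Ω : ℂ := (((√π)⁻¹ * ∏ a : ZMod (discr K).natAbs,
          Real.Gamma ((a.val : ℝ) / (discr K).natAbs) ^
            ((Units.torsionOrder K : ℝ) * (χ a).re / (4 * classNumber K)) : ℝ) : ℂ)
        Ω ≠ 0 ∧
        (∀ τ : ℍ, (τ : ℂ) ∈ e.range →
          IsAlgebraic ℚ (ModularForm.discriminant τ / Ω ^ 12) ∧
          IsAlgebraic ℚ (ModularForm.E₄ τ / Ω ^ 4) ∧
          IsAlgebraic ℚ (ModularForm.E₆ τ / Ω ^ 6) ∧
          ∀ (N k : ℕ) [NeZero N] (F : CuspForm (Gamma0 N) (k : ℤ)), 0 < k →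
            (∀ n, ∃ r : ℚ, ModularFormClass.qCoeff F n = r) → IsAlgebraic ℚ (F τ / Ω ^ k)) ∧
        ∀ L : PeriodPair, IsAlgebraic ℚ L.g₂ → IsAlgebraic ℚ L.g₃ →
          L.ω₁ / L.ω₂ ∈ e.range → ∀ l ∈ L.lattice, IsAlgebraic ℚ (l / (π * Ω)) := by
  obtain ⟨d, hd, hd0, s, hs⟩ := FA.ChowlaSelberg.exists_sq_eq_intCast_neg K hK
  haveI : NeZero (discr K).natAbs := ⟨Int.natAbs_ne_zero.mpr (discr_ne_zero K)⟩
  obtain ⟨χ, hprim, hq, hodd, hζ⟩ := FA.ChowlaSelberg.exists_fieldChar hK hd0 hs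
  have hΩ0 : FA.ChowlaSelberg.csOmega K χ ≠ 0 := FA.ChowlaSelberg.csOmega_ne_zero hodd
  have hmain : ∀ e : K →+* ℂ, ∀ τ : ℍ, (τ : ℂ) ∈ e.range →
      IsAlgebraic ℚ ((FA.ChowlaSelberg.csOmega K χ : ℂ) ^ 12 / ModularForm.discriminant τ) ∧
      IsAlgebraic ℚ (FA.ModField.jfun τ) := by
    intro e τ hτ
    have hsq : (e s) ^ 2 = (Complex.I * (Real.sqrt (-(d : ℝ)) : ℂ)) ^ 2 := by
      rw [← map_pow, hs, map_intCast, mul_pow, Complex.I_sq, ← Complex.ofReal_pow,
        Real.sq_sqrt (neg_nonneg.2 (Int.cast_nonpos.2 hd0.le))]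
      push_cast
      ring
    rcases sq_eq_sq_iff_eq_or_eq_neg.1 hsq with he | he
    · exact ⟨FA.ChowlaSelberg.isAlgebraic_omega_div hK hd hd0 hs he rfl hprim hq hodd hζ hτ,
        FA.ChowlaSelberg.isAlgebraic_jfun_of_mem hK hd0 hs hτ⟩
    · have hs' : (-s) ^ 2 = (d : K) := by rw [neg_sq]; exact hs
      have he' : e (-s) = Complex.I * (Real.sqrt (-(d : ℝ)) : ℂ) := by rw [map_neg, he, neg_neg]
      exact ⟨FA.ChowlaSelberg.isAlgebraic_omega_div hK hd hd0 hs' he' rfl hprim hq hodd hζ hτ,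
        FA.ChowlaSelberg.isAlgebraic_jfun_of_mem hK hd0 hs hτ⟩
  refine ⟨χ, hprim, hq, hodd, hζ, ?_, fun e => ⟨Complex.ofReal_ne_zero.2 hΩ0, fun τ hτ => ?_,
    fun L h2 h3 hL l hl =>
      FA.ChowlaSelberg.isAlgebraic_period_div h2 h3 hL (fun τ hτ => (hmain e τ hτ).1) hl⟩⟩
  · set h := classNumber K
    have hh0 : 0 < h := Fintype.card_pos
    have hpow : (∏ a : ZMod (discr K).natAbs,
        Real.Gamma ((a.val : ℝ) / (discr K).natAbs) ^ ((Units.torsionOrder K : ℝ) * (χ a).re)) /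
          π ^ (2 * h) = FA.ChowlaSelberg.csOmega K χ ^ (4 * h) := by
      rw [FA.ChowlaSelberg.csOmega, mul_pow, inv_pow, show 4 * h = 2 * (2 * h) by ring,
        pow_mul (√π), Real.sq_sqrt Real.pi_pos.le, ← show 4 * h = 2 * (2 * h) by ring,
        ← Finset.prod_pow, div_eq_inv_mul]
      congr 1
      refine Finset.prod_congr rfl fun a _ => ?_
      have hnn : 0 ≤ Real.Gamma ((a.val : ℝ) / (discr K).natAbs) := by
        rcases eq_or_ne a.val 0 with ha | ha
        · simp [ha]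
        · have : 0 < a.val := Nat.pos_of_ne_zero ha
          have : 0 < (discr K).natAbs := Nat.pos_of_ne_zero (NeZero.ne _)
          exact (Real.Gamma_pos_of_pos (by positivity)).le
      rw [← Real.rpow_mul_natCast hnn]
      congr 1
      have : (classNumber K : ℝ) ≠ 0 := Nat.cast_ne_zero.2 hh0.ne'
      simp only [h]
      push_cast
      field_simp
    rw [hpow]
    intro halg
    obtain ⟨e, he⟩ := FA.FieldClassBound.exists_emb hd0 hs
    have him : 0 < (e s).im := by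
      rw [he]
      simpa using Real.sqrt_pos.2 (neg_pos.2 (Int.cast_lt_zero.2 hd0 : (d : ℝ) < 0))
    obtain ⟨h12, hj⟩ := hmain e ⟨e s, him⟩ ⟨s, rfl⟩
    have hΩ : IsAlgebraic ℚ ((FA.ChowlaSelberg.csOmega K χ : ℂ)) := by
      refine IsAlgebraic.of_pow (n := 4 * h) (by omega) ?_
      rw [← Complex.ofReal_pow]
      exact halg.algHom (Algebra.ofId ℝ ℂ |>.restrictScalars ℚ)
    refine FA.ModularParametrization.transcendental_discriminant hj ?_
    have h' := (hΩ.pow 12).mul h12.inv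
    rwa [inv_div, mul_div_cancel₀ _ (pow_ne_zero 12 (Complex.ofReal_ne_zero.2 hΩ0))] at h'
  · obtain ⟨h12, hj⟩ := hmain e τ hτ
    set Ω : ℂ := (FA.ChowlaSelberg.csOmega K χ : ℂ) with hΩdef
    have hΔ := ModularForm.discriminant_ne_zero τ
    have hΩ : Ω ≠ 0 := Complex.ofReal_ne_zero.2 hΩ0
    have h1 : IsAlgebraic ℚ (ModularForm.discriminant τ / Ω ^ 12) := by
      rw [← inv_div]; exact h12.inv
    have h4 : IsAlgebraic ℚ ((ModularForm.E₄ τ / Ω ^ 4) ^ 3) := by
      rw [show (ModularForm.E₄ τ / Ω ^ 4) ^ 3 =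
        FA.ModField.jfun τ * (ModularForm.discriminant τ / Ω ^ 12) by
          rw [FA.ModField.jfun]; field_simp]
      exact hj.mul h1
    refine ⟨h1, IsAlgebraic.of_pow three_pos h4, IsAlgebraic.of_pow two_pos ?_, ?_⟩
    · show IsAlgebraic ℚ ((ModularForm.E₆ τ / Ω ^ 6) ^ 2)
      rw [show (ModularForm.E₆ τ / Ω ^ 6) ^ 2 =
        (ModularForm.E₄ τ / Ω ^ 4) ^ 3 - 1728 * (ModularForm.discriminant τ / Ω ^ 12) by
          rw [ModularForm.discriminant_eq_E₄_cube_sub_E₆_sq]; field_simp; ring]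
      exact h4.sub ((isAlgebraic_natCast 1728).mul h1)
    · intro N k _ F hk hF
      refine IsAlgebraic.of_pow (n := 12) (by norm_num) ?_
      show IsAlgebraic ℚ ((F τ / Ω ^ k) ^ 12)
      rw [show (F τ / Ω ^ k) ^ 12 = F τ ^ 12 / ModularForm.discriminant τ ^ k *
        (ModularForm.discriminant τ / Ω ^ 12) ^ k by
          rw [div_pow, div_pow, ← pow_mul, ← pow_mul, mul_comm k 12]; field_simp]
      exact (FA.ModularParametrization.isAlgebraic_modularValue hk F hF hj).mul (h1.pow k)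

end FA.Summary

end
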