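import Fermat.Agent.ThetaOne.CubicTwo
import Fermat.Agent.ThetaOne.OrderField
import Fermat.Agent.ThetaOne.OrderReduced

/-!
# Primes of the form `x² + n y²` for every `n`, and Dirichlet's theorem on binary forms

`h(n)` is the number `Nat.card (FA.OrderTheta.Cl n)` of classes of invertible ideals of `ℤ[√-n]`.

* `ringClassField_order`: for every `n ≥ 1` a Galois field of degree `2 h(n)`, abelian over
  `ℚ(√-n)` and generalised dihedral over `ℚ`, in which a prime `p ∤ 6n` splits completely iff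
  `p = x² + n y²`; its irreducible two dimensional representations come from weight one cusp forms.
* `primes_sq_add_mul_sq_all`: almost all primes are `x² + n y²` iff a monic irreducible polynomial
  of degree `2 h(n)` has a root modulo them.
* `dirichlet_forms_all`: a primitive form `A x² + 2 B x y + C y²` of determinant `n` represents a set
  of primes of density `1/(2h(n))` or `1/h(n)`, the former if `A = 1`.
* `infinite_primes_primitive_form`: every primitive positive definite form `a x² + b x y + c y²`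
  represents infinitely many primes.
* `classNumber_reduced_forms`: `h(n)` is the number of reduced primitive forms of determinant `n`;
  `classNumber_order_examples`, `primes_sq_add_fourteen_mul_sq`: small values and `n = 14`.
* `two_cubic_residue`: for `p ≡ 1 (mod 3)`, `2` is a cube modulo `p` iff `p = x² + 27 y²` (Gauss).
-/

set_option autoImplicit false
set_option linter.style.haveILetI false

noncomputable section

open NumberField IsDedekindDomain Polynomial Module FA.Density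
open CongruenceSubgroup (Gamma1)
open scoped MatrixGroups Pointwise

namespace FA.OrderTheta

local notation "Qb" => AlgebraicClosure ℚ
local notation "GQ" => AlgebraicClosure ℚ ≃ₐ[ℚ] AlgebraicClosure ℚ

theorem exists_bezout {a b c : ℤ} (h : Int.gcd (Int.gcd a b) c = 1) :
    ∃ u v w : ℤ, u * a + v * c + w * b = 1 := by
  have h1 := Int.gcd_eq_gcd_ab (Int.gcd a b : ℤ) c
  have h2 := Int.gcd_eq_gcd_ab a b
  rw [h] at h1
  refine ⟨Int.gcdA a b * Int.gcdA (Int.gcd a b : ℤ) c, Int.gcdB (Int.gcd a b : ℤ) c,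
    Int.gcdB a b * Int.gcdA (Int.gcd a b : ℤ) c, ?_⟩
  push_cast at h1
  linear_combination -h1 - Int.gcdA (Int.gcd a b : ℤ) c * h2

variable {n : ℕ} [NeZero n]

theorem principal_iff {q : ℕ} (hq : q.Prime) :
    (∃ P : II n, nrm P = q ∧ (cls P = 1 ∨ cls P = (1 : Cl n)⁻¹)) ↔
      ∃ x y : ℤ, (q : ℤ) = x ^ 2 + n * y ^ 2 := by
  have hp : ∃ u v w : ℤ, u * ((1 : ℕ) : ℤ) + v * (n : ℤ) + w * (2 * 0) = 1 := ⟨1, 0, 0, by simp⟩
  have h : ((1 : ℕ) : ℤ) * (n : ℤ) - 0 ^ 2 = n := by simp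
  have h1 : rootII 1 0 (n : ℤ) one_pos h hp = 1 :=
    eq_one_of_nrm_eq_one (nrm_rootII one_pos h hp)
  have hrep := represents_iff one_pos h hp hq
  rw [h1, map_one] at hrep
  rw [← hrep]
  simp [eq_comm]

theorem exists_frob_field {L : IntermediateField ℚ Qb} [NumberField L] [IsGalois ℚ L]
    (R : ClassData (81 * n)) (res : (R.L ≃ₐ[ℚ] R.L) →* (L ≃ₐ[ℚ] L))
    (hres1 : ∀ g, res g = 1 ↔ g ∈ R.kerSub)
    (hres : ∀ σ : GQ, res (AlgEquiv.restrictNormalHom R.L σ) = AlgEquiv.restrictNormalHom L σ)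
    {q : ℕ} (hq : q.Prime) (hqn : ¬ q ∣ 6 * n) :
    ∃ (A : ValuationSubring Qb) (σ : GQ) (P : Ideal (𝓞 L)), A.LiesOverPrime q ∧
      A.IsFrobeniusAt σ q ∧ IsFrobPair q P (AlgEquiv.restrictNormalHom L σ) ∧
      (AlgEquiv.restrictNormalHom L σ = 1 ↔ ∃ x y : ℤ, (q : ℤ) = x ^ 2 + n * y ^ 2) := by
  obtain ⟨h81, -⟩ := not_dvd_four_mul hq hqn
  obtain ⟨A, σ, P, hA, hσ, hP⟩ := exists_frobPair L hq fun A hA σ hσ => by
    rw [← hres, R.unram q hq h81 A hA σ hσ, map_one]
  refine ⟨A, σ, P, hA, hσ, hP, ?_⟩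
  rw [← hres, hres1, ← principal_iff hq]
  exact R.mem_classSet_iff hq hqn hA hσ 1

theorem signChar_eightyOne {q : ℕ} (hq : q.Prime) (hqn : ¬ q ∣ 6 * n) :
    signChar (81 * n) (q : ZMod (4 * (81 * n))) = (jacobiSym (-(n : ℤ)) q : ℂ) := by
  obtain ⟨h81, -⟩ := not_dvd_four_mul hq hqn
  have : NeZero (4 * (81 * n)) := ⟨by have := NeZero.pos n; omega⟩
  have h9 : Int.gcd 9 q = 1 := by
    show Nat.gcd 9 q = 1
    refine Nat.Coprime.gcd_eq_one ((Nat.coprime_comm.mp ((Nat.Prime.coprime_iff_not_dvd hq).mpr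
      fun h => hqn ?_)))
    exact ((hq.dvd_of_dvd_pow (show q ∣ 3 ^ 2 from h))).trans (dvd_mul_of_dvd_left (by norm_num) n)
  rw [signChar, FA.Twists.twistChar_natCast _ ((Nat.Prime.coprime_iff_not_dvd hq).mpr h81),
    show (-((81 * n : ℕ) : ℤ)) = 9 ^ 2 * -(n : ℤ) by push_cast; ring, jacobiSym.mul_left,
    jacobiSym.sq_one' h9, one_mul]

end FA.OrderTheta

namespace FA.Summary

open FA.OrderTheta

local notation "Qb" => AlgebraicClosure ℚ
local notation "GQ" => AlgebraicClosure ℚ ≃ₐ[ℚ] AlgebraicClosure ℚ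

/-- **The ring class field of `ℤ[√-n]` for every `n ≥ 1`, and modularity of its dihedral
representations.** -/
theorem ringClassField_order (n : ℕ) [NeZero n] :
    ∃ (L : IntermediateField ℚ Qb) (_ : FiniteDimensional ℚ L) (_ : IsGalois ℚ L) (d : L),
      d ^ 2 = -(n : L) ∧ finrank ℚ L = 2 * Nat.card (Cl n) ∧
      (∀ σ τ : L ≃ₐ[ℚ] L, σ d = d → τ d = d → σ * τ = τ * σ) ∧
      (∀ σ τ : L ≃ₐ[ℚ] L, σ d = d → τ d ≠ d → τ * σ * τ⁻¹ = σ⁻¹) ∧
      (∀ p : ℕ, p.Prime → ¬ p ∣ 6 * n →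
        (((Ideal.span {(p : ℤ)}).primesOver (𝓞 L)).ncard = finrank ℚ L ↔
          ∃ x y : ℤ, (p : ℤ) = x ^ 2 + n * y ^ 2)) ∧
      ∀ ρ : (L ≃ₐ[ℚ] L) →* Matrix (Fin 2) (Fin 2) ℂ,
        (∀ v : Fin 2 → ℂ, v ≠ 0 → ∃ g, ∀ μ : ℂ, Matrix.mulVec (ρ g) v ≠ μ • v) →
        ∃ f : CuspForm (Gamma1 (4 * (81 * n))) 1, ModularFormClass.qCoeff f 1 = 1 ∧
          ∀ p : ℕ, p.Prime → ¬ p ∣ 6 * n → ∀ Q : Ideal (𝓞 L), Q.IsMaximal → (p : 𝓞 L) ∈ Q →
            ∀ τ : L ≃ₐ[ℚ] L, IsArithFrobAt ℤ τ Q →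
              (ρ τ).trace = ModularFormClass.qCoeff f p ∧
                (ρ τ).det = (jacobiSym (-(n : ℤ)) p : ℂ) := by
  classical
  obtain ⟨L, hfin, hgal, d, h1, h2, h3, h4, R, res, hsurj, hres1, hres⟩ := exists_ringClassField n
  have : NumberField L := { }
  refine ⟨L, hfin, hgal, d, h1, h2, h3, h4, fun p hp hpn => ?_, fun ρ hρ => ?_⟩
  · obtain ⟨A, σ, P, -, -, hP, h⟩ := exists_frob_field R res hres1 hres hp hpn
    rw [ncard_primesOver_iff hP, h]
  · let _ : Fintype (Cl (81 * n)) := Fintype.ofFinite _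
    obtain ⟨ψ, hψ⟩ := R.W.exists_eq_trace_det (ρ.comp res) fun v hv => by
      obtain ⟨g, hg⟩ := hρ v hv
      obtain ⟨g', rfl⟩ := hsurj g
      exact ⟨g', hg⟩
    obtain ⟨f, hf, hf1, -⟩ := exists_weightOne
      (by have := NeZero.pos n; omega : 1 < 81 * n) ψ.1 ψ.2
    refine ⟨f, hf1, fun p hp hpn Q hQ hpQ τ hτ => ?_⟩
    obtain ⟨A, σ, P, hA, hσ, hP, -⟩ := exists_frob_field R res hres1 hres hp hpn
    obtain ⟨x, hx⟩ := isConj_iff.mp (FA.Chebotarev.isConj_of_isFrobPair hP hQ hpQ hτ)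
    obtain ⟨ht, hd⟩ := R.coefRel p hp (not_dvd_four_mul hp hpn).1 A hA σ hσ ψ
    rw [← (hψ _).1, MonoidHom.comp_apply, hres, ← hf] at ht
    rw [← (hψ _).2, MonoidHom.comp_apply, hres, signChar_eightyOne hp hpn] at hd
    rw [← hx, map_mul, map_mul]
    constructor
    · rw [Matrix.trace_mul_cycle, ← map_mul, inv_mul_cancel, map_one, one_mul, ht]
    · rw [Matrix.det_mul, Matrix.det_mul, mul_right_comm, ← Matrix.det_mul, ← map_mul,
        mul_inv_cancel, map_one, Matrix.det_one, one_mul, hd]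

/-- **Primes of the form `x² + n y²`**, `n ≥ 1`: apart from finitely many primes they are those
modulo which a monic irreducible polynomial of degree `2 h(n)` has a root. -/
theorem primes_sq_add_mul_sq_all (n : ℕ) [NeZero n] :
    ∃ f : ℤ[X], f.Monic ∧ Irreducible f ∧ f.natDegree = 2 * Nat.card (Cl n) ∧
      ∃ T : Finset ℕ, ∀ p : ℕ, p.Prime → p ∉ T →
        ((∃ x y : ℤ, (p : ℤ) = x ^ 2 + n * y ^ 2) ↔
          ∃ z : ZMod p, (f.map (Int.castRingHom (ZMod p))).eval z = 0) := by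
  obtain ⟨L, hfin, hgal, d, -, h2, -, -, R, res, -, hres1, hres⟩ := exists_ringClassField n
  have : NumberField L := { }
  rw [← h2]
  refine exists_polynomial_of_frob L _ (6 * n).divisors fun q hq hqT => ?_
  obtain ⟨A, σ, P, -, -, hP, h⟩ := exists_frob_field R res hres1 hres hq
    fun h => hqT (Nat.mem_divisors.mpr ⟨h, mul_ne_zero (by norm_num) (NeZero.ne n)⟩)
  exact ⟨_, P, hP, h⟩

/-- **Dirichlet-Weber**: the primes represented by a primitive positive form of determinant `n` have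
density `1/(2h(n))` or `1/h(n)`, and `1/(2h(n))` if its first coefficient is `1`. -/
theorem dirichlet_forms_all (n : ℕ) [NeZero n] (A B C : ℤ) (hA : 0 < A)
    (hdet : A * C - B ^ 2 = n) (hprim : Int.gcd (Int.gcd A (2 * B)) C = 1) :
    ∃ m : ℕ, (m = 1 ∨ m = 2) ∧ (A = 1 → m = 1) ∧
      {v : HeightOneSpectrum (𝓞 ℚ) | ∃ x y : ℤ, (Ideal.absNorm v.asIdeal : ℤ) =
          A * x ^ 2 + 2 * B * x * y + C * y ^ 2}.HasDirichletDensity
        ((m : ℝ) / (2 * Nat.card (Cl n) : ℕ)) := by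
  classical
  obtain ⟨a, rfl⟩ := Int.eq_ofNat_of_zero_le hA.le
  have ha : 0 < a := by exact_mod_cast hA
  have hp := exists_bezout hprim
  set c := cls (rootII a B C ha hdet hp) with hc
  obtain ⟨R⟩ := exists_classData n
  have : NumberField R.L := { }
  refine ⟨Nat.card ({c, c⁻¹} : Set (Cl n)), ?_, fun h => ?_, ?_⟩
  · rw [Nat.card_coe_set_eq]
    by_cases h : c = c⁻¹
    · left; rw [← h, Set.insert_eq_of_mem (Set.mem_singleton _), Set.ncard_singleton]
    · right; rw [Set.ncard_pair h]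
  · have : rootII a B C ha hdet hp = 1 :=
      eq_one_of_nrm_eq_one ((nrm_rootII ha hdet hp).trans (by exact_mod_cast h))
    rw [hc, this, map_one, inv_one, Set.insert_eq_of_mem (Set.mem_singleton _),
      Nat.card_coe_set_eq, Set.ncard_singleton]
  · have hd := hasDirichletDensity_of_frob R.L (R.classSet c)
      (fun g hg x => R.classSet_conj c hg x)
      (fun q => ∃ x y : ℤ, (q : ℤ) = (a : ℤ) * x ^ 2 + 2 * B * x * y + C * y ^ 2)
      (6 * n).divisors fun q hq hqT => by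
        have hqn : ¬ q ∣ 6 * n :=
          fun h => hqT (Nat.mem_divisors.mpr ⟨h, mul_ne_zero (by norm_num) (NeZero.ne n)⟩)
        obtain ⟨A, σ, P, hA, hσ, hP⟩ := exists_frobPair R.L hq
          fun A hA σ hσ => R.unram q hq (not_dvd_four_mul hq hqn).1 A hA σ hσ
        refine ⟨_, P, hP, ?_⟩
        rw [R.mem_classSet_iff hq hqn hA hσ c, hc, ← represents_iff ha hdet hp hq]
        simp [eq_comm]
    rw [R.card_classSet, R.card_gal] at hd
    convert hd using 1
    have hk : ((Nat.card (extCls n).ker : ℕ) : ℝ) ≠ 0 := Nat.cast_ne_zero.mpr Nat.card_pos.ne'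
    push_cast
    field_simp

/-- A primitive form with even middle coefficient represents infinitely many primes. -/
theorem infinite_primes_even_form (A B C : ℤ) (hA : 0 < A) (hdet : 0 < A * C - B ^ 2)
    (hprim : Int.gcd (Int.gcd A (2 * B)) C = 1) :
    {p : ℕ | p.Prime ∧ ∃ x y : ℤ, (p : ℤ) = A * x ^ 2 + 2 * B * x * y + C * y ^ 2}.Infinite := by
  obtain ⟨n, hn⟩ := Int.eq_ofNat_of_zero_le hdet.le
  have : NeZero n := ⟨by rintro rfl; simp [hn] at hdet⟩
  obtain ⟨m, hm, -, hd⟩ := dirichlet_forms_all n A B C hA hn hprim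
  have hinf := FA.Chebotarev.infinite_of_hasDirichletDensity hd (by
    have : 0 < Nat.card (Cl n) := Nat.card_pos
    rcases hm with rfl | rfl <;> positivity)
  intro hfin
  refine hinf ((((Set.Finite.biUnion (t := fun d => {I : Ideal (𝓞 ℚ) | Ideal.absNorm I = d})
    hfin fun d _ => Ideal.finite_setOfPred_absNorm_eq (S := 𝓞 ℚ) d).preimage
    fun v _ w _ h => HeightOneSpectrum.ext h)).subset fun v hv => ?_)
  exact Set.mem_iUnion₂.mpr ⟨_, ⟨FA.Chebotarev.absNorm_prime v, hv⟩, rfl⟩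

/-- **Dirichlet's theorem on binary quadratic forms**: every primitive positive definite form
represents infinitely many primes. -/
theorem infinite_primes_primitive_form (a b c : ℤ) (ha : 0 < a) (hdisc : b ^ 2 - 4 * a * c < 0)
    (hprim : Int.gcd (Int.gcd a b) c = 1) :
    {p : ℕ | p.Prime ∧ ∃ x y : ℤ, (p : ℤ) = a * x ^ 2 + b * x * y + c * y ^ 2}.Infinite := by
  obtain ⟨u, v, w, e⟩ := exists_bezout hprim
  -- a primitive form stays primitive on doubling `y` if it takes an odd value at `(1, 0)`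
  have key : ∀ a b c : ℤ, 0 < a → b ^ 2 - 4 * a * c < 0 → Odd a →
      (∃ u v w : ℤ, u * a + v * c + w * b = 1) →
      {p : ℕ | p.Prime ∧ ∃ x y : ℤ, (p : ℤ) = a * x ^ 2 + b * x * y + c * y ^ 2}.Infinite := by
    intro a b c ha hdisc hodd hbez
    obtain ⟨k, hk⟩ := hodd
    obtain ⟨u, v, w, e⟩ := hbez
    refine (infinite_primes_even_form a b (4 * c) ha (by linarith) ?_).mono ?_
    · have h4 : IsCoprime a (4 : ℤ) := by
        refine (IsCoprime.pow_right (n := 2) (⟨1, -k, by rw [hk]; ring⟩ : IsCoprime a 2)).of_isCoprime_of_dvd_right ?_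
        norm_num
      obtain ⟨s, t, hst⟩ := h4
      -- `1 = u a + (v c + w b) (s a + 4 t)`
      have hb : (u + (v * c + w * b) * s) * a + (t * v) * (4 * c) + (2 * t * w) * (2 * b) = 1 := by
        linear_combination e + (v * c + w * b) * hst
      have hg : ((Int.gcd (Int.gcd a (2 * b)) (4 * c) : ℕ) : ℤ) ∣ 1 := by
        have d1 : ((Int.gcd (Int.gcd a (2 * b)) (4 * c) : ℕ) : ℤ) ∣ a :=
          (Int.gcd_dvd_left _ _).trans (Int.gcd_dvd_left _ _)
        have d2 : ((Int.gcd (Int.gcd a (2 * b)) (4 * c) : ℕ) : ℤ) ∣ 2 * b :=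
          (Int.gcd_dvd_left _ _).trans (Int.gcd_dvd_right _ _)
        have d3 : ((Int.gcd (Int.gcd a (2 * b)) (4 * c) : ℕ) : ℤ) ∣ 4 * c := Int.gcd_dvd_right _ _
        exact hb ▸ dvd_add (dvd_add (d1.mul_left _) (d3.mul_left _)) (d2.mul_left _)
      exact Nat.dvd_one.mp (Int.natCast_dvd_natCast.mp (by simpa using hg))
    · rintro p ⟨hp, x, y, e⟩
      exact ⟨hp, x, 2 * y, by rw [e]; ring⟩
  rcases Int.even_or_odd a with hae | hao
  swap
  · exact key a b c ha hdisc hao ⟨u, v, w, e⟩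
  rcases Int.even_or_odd c with hce | hco
  · -- both outer coefficients even: the value at `(1, 1)` is odd
    have hbo : Odd b := by
      rcases Int.even_or_odd b with hb | hb
      · exfalso
        have h : Even (u * a + v * c + w * b) :=
          ((hae.mul_left u).add (hce.mul_left v)).add (hb.mul_left w)
        rw [e] at h
        exact absurd h (by decide)
      · exact hb
    have hpos : 0 < a + b + c := by
      nlinarith [sq_nonneg (2 * a + b)]
    refine (key (a + b + c) (b + 2 * c) c hpos (by linarith) ?_ ⟨u, u + v - 2 * w + 0, w - u, ?_⟩).mono ?_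
    · exact (hae.add_odd hbo).add_even hce
    · linear_combination e
    · rintro p ⟨hp, x, y, e'⟩
      exact ⟨hp, x, x + y, by rw [e']; ring⟩
  · have hc : 0 < c := by nlinarith [sq_nonneg b]
    refine (key c b a hc (by linarith) hco ⟨v, u, w, by linarith⟩).mono ?_
    rintro p ⟨hp, x, y, e'⟩
    exact ⟨hp, y, x, by rw [e']; ring⟩

/-- The reduced primitive forms `a x² + 2 b x y + c y²` of determinant `n`, as pairs `(a, b)`. -/
theorem classNumber_reduced_forms (n : ℕ) [NeZero n] (M : ℕ) (hM : 4 * n < 3 * (M + 1) ^ 2) :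
    Nat.card (Cl n) = ((Finset.range (M + 1) ×ˢ Finset.Icc (-(M : ℤ)) M).filter fun t =>
      0 < t.1 ∧ (t.1 : ℤ) ∣ t.2 ^ 2 + n ∧
        Int.gcd (Int.gcd t.1 (2 * t.2)) ((t.2 ^ 2 + n) / t.1) = 1 ∧ 2 * |t.2| ≤ (t.1 : ℤ) ∧
        (t.1 : ℤ) * t.1 ≤ t.2 ^ 2 + n ∧
        ((2 * |t.2| = (t.1 : ℤ) ∨ (t.1 : ℤ) * t.1 = t.2 ^ 2 + n) → 0 ≤ t.2)).card := by
  rw [card_cl_eq_redSet M hM, redSet]
  congr 1

/-- `h(1) = 1`, `h(5) = 2`, `h(14) = 4`, `h(27) = 3`. -/
theorem classNumber_order_examples :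
    Nat.card (Cl 1) = 1 ∧ Nat.card (Cl 5) = 2 ∧ Nat.card (Cl 14) = 4 ∧ Nat.card (Cl 27) = 3 :=
  card_cl_examples

/-- The primes `x² + 14 y²` are given by a root of a polynomial of degree `8`. -/
theorem primes_sq_add_fourteen_mul_sq :
    ∃ f : ℤ[X], f.Monic ∧ Irreducible f ∧ f.natDegree = 8 ∧
      ∃ T : Finset ℕ, ∀ p : ℕ, p.Prime → p ∉ T →
        ((∃ x y : ℤ, (p : ℤ) = x ^ 2 + 14 * y ^ 2) ↔
          ∃ z : ZMod p, (f.map (Int.castRingHom (ZMod p))).eval z = 0) := by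
  have h := primes_sq_add_mul_sq_all 14
  rw [card_cl_examples.2.2.1] at h
  simpa using h

/-- **Gauss**: for a prime `p ≡ 1 (mod 3)`, `2` is a cube modulo `p` iff `p = x² + 27 y²`. -/
theorem two_cubic_residue (p : ℕ) (hp : p.Prime) (h : p % 3 = 1) :
    (∃ x : ZMod p, x ^ 3 = 2) ↔ ∃ x y : ℤ, (p : ℤ) = x ^ 2 + 27 * y ^ 2 :=
  two_cube_iff_form hp h

end FA.Summary
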