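import Fermat.Agent.PowerResidue.Roots
import Fermat.Agent.Root.SummaryPointDivisibility

/-!
# The local-global principle for `n`th powers, and Wang's counterexample

For `8 ∤ n` an integer is an `n`th power if it is one modulo a set of primes of Dirichlet density
one (Trost; Grunwald and Wang). The condition on `n` is needed: `16` is an eighth power modulo
every prime but is not the eighth power of a rational number.
-/

set_option autoImplicit false
set_option linter.style.haveILetI false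

noncomputable section

open NumberField IsDedekindDomain Polynomial

local notation "Qb" => AlgebraicClosure ℚ
local notation "GQ" => AlgebraicClosure ℚ ≃ₐ[ℚ] AlgebraicClosure ℚ

namespace FA.PowerResidue

/-- The roots of `a`. -/
abbrev RootSet (n : ℕ) (a : ℤ) : Type := {r : Qb // r ^ n = (a : Qb)}

theorem finite_rootSet {n : ℕ} (hn : n ≠ 0) (a : ℤ) : Finite (RootSet n a) := by
  refine ((nthRoots n (a : Qb)).toFinset.finite_toSet.subset fun r hr => ?_).to_subtype
  exact Multiset.mem_toFinset.mpr ((mem_nthRoots (Nat.pos_of_ne_zero hn)).mpr hr)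

/-- The action of Galois on the roots. -/
def rootHom (n : ℕ) (a : ℤ) : GQ →* Equiv.Perm (RootSet n a) where
  toFun σ :=
    { toFun := fun r => ⟨σ r.1, by rw [← map_pow, r.2, map_intCast]⟩
      invFun := fun r => ⟨σ.symm r.1, by rw [← map_pow, r.2, map_intCast]⟩
      left_inv := fun r => Subtype.ext (σ.symm_apply_apply r.1)
      right_inv := fun r => Subtype.ext (σ.apply_symm_apply r.1) }
  map_one' := Equiv.ext fun _ => Subtype.ext rfl
  map_mul' _ _ := Equiv.ext fun _ => Subtype.ext rfl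

theorem isOpen_ker_rootHom {n : ℕ} (hn : n ≠ 0) (a : ℤ) :
    IsOpen ((rootHom n a).ker : Set GQ) := by
  haveI := finite_rootSet hn a
  let R : Set Qb := Set.range fun r : RootSet n a => r.1
  haveI : Finite R := (Set.finite_range _).to_subtype
  haveI : FiniteDimensional ℚ (IntermediateField.adjoin ℚ R) :=
    IntermediateField.finiteDimensional_adjoin fun x _ =>
      ((AlgebraicClosure.isAlgebraic ℚ).isAlgebraic x).isIntegral
  refine Subgroup.isOpen_mono (H₁ := (IntermediateField.adjoin ℚ R).fixingSubgroup)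
    (fun σ hσ => MonoidHom.mem_ker.mpr (Equiv.ext fun r => Subtype.ext ?_))
    (IntermediateField.fixingSubgroup_isOpen _)
  exact (IntermediateField.mem_fixingSubgroup_iff _ σ).mp hσ r.1
    (IntermediateField.subset_adjoin ℚ R ⟨r, rfl⟩)

/-- If `a` is an `n`th power modulo a density one set of primes, every element fixes a root. -/
theorem exists_fixed_of_density {n : ℕ} (hn : n ≠ 0) {a : ℤ} (ha : a ≠ 0)
    {S : Set (HeightOneSpectrum (𝓞 ℚ))} (hS : S.HasDirichletDensity 1)
    (h : ∀ v ∈ S, ∃ b : ℤ, (Ideal.absNorm v.asIdeal : ℤ) ∣ b ^ n - a) (τ : GQ) :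
    ∃ r : Qb, r ^ n = (a : Qb) ∧ τ r = r := by
  by_contra hcon
  push Not at hcon
  set π := (rootHom n a).rangeRestrict with hπ
  haveI := finite_rootSet hn a
  let _ : Fintype (rootHom n a).range := Fintype.ofFinite _
  let X : Set (rootHom n a).range := {g | ∀ r, g.1 r ≠ r}
  have hX : ∀ g ∈ X, ∀ z, z * g * z⁻¹ ∈ X := fun g hg z r e => by
    refine hg (z.1.symm r) (z.1.injective ?_)
    rw [Equiv.apply_symm_apply]
    exact e
  have hd := FA.Chebotarev.hasDirichletDensity_frobSet π (MonoidHom.rangeRestrict_surjective _)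
    (by rw [hπ, MonoidHom.ker_rangeRestrict]; exact isOpen_ker_rootHom hn a) hX
  have hN : n * a.natAbs ≠ 0 := mul_ne_zero hn (Int.natAbs_ne_zero.mpr ha)
  set T := FA.Chebotarev.frobSet π X \ {v | Ideal.absNorm v.asIdeal ∣ n * a.natAbs}
  have hT : T.HasDirichletDensity ((Nat.card X : ℝ) / Fintype.card (rootHom n a).range) :=
    FA.Chebotarev.hasDirichletDensity_congr (S := T) (T := FA.Chebotarev.frobSet π X) (by simp [T])
      ((FA.PointDiv.finite_absNorm_dvd hN).subset fun v hv =>
        by_contra fun e => hv.2 ⟨hv.1, e⟩) hd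
  have hdisj : Disjoint S T := by
    refine Set.disjoint_left.mpr fun v hv hvT => ?_
    have hq := FA.Chebotarev.absNorm_prime v
    obtain ⟨b, hb⟩ := h v hv
    obtain ⟨A, hA⟩ := FA.Deform.exists_liesOverPrime hq
    obtain ⟨σ, hσ⟩ := FA.Deform.exists_isFrobeniusAt hq hA
    obtain ⟨r, hr, hσr⟩ := exists_fixed_of_dvd hn hq (fun e => hvT.2 (e.mul_right _))
      (fun e => hvT.2 ((Int.natCast_dvd.mp e).mul_left _)) hb hA hσ.mem_decompositionSubgroup
    exact hvT.1 A hA σ hσ ⟨r, hr⟩ (Subtype.ext hσr)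
  have hpos : 0 < (Nat.card X : ℝ) / Fintype.card (rootHom n a).range := by
    have : Nonempty X := ⟨⟨π τ, fun r e => hcon r.1 r.2 (congrArg Subtype.val e)⟩⟩
    exact div_pos (Nat.cast_pos.mpr Nat.card_pos) (Nat.cast_pos.mpr Fintype.card_pos)
  linarith [FA.PointDiv.density_add_le_one hdisj hS hT]

end FA.PowerResidue

namespace FA.Summary

open FA.PowerResidue

/-- **The local-global principle for `n`th powers**: if `8 ∤ n`, an integer which is an `n`th power
modulo the primes of a set of Dirichlet density one is an `n`th power. -/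
theorem nthPower_of_density {n : ℕ} (hn : n ≠ 0) (h8 : ¬ 8 ∣ n) (a : ℤ)
    {S : Set (HeightOneSpectrum (𝓞 ℚ))} (hS : S.HasDirichletDensity 1)
    (h : ∀ v ∈ S, ∃ b : ℤ, (Ideal.absNorm v.asIdeal : ℤ) ∣ b ^ n - a) :
    ∃ b : ℤ, b ^ n = a := by
  rcases eq_or_ne a 0 with rfl | ha
  · exact ⟨0, zero_pow hn⟩
  obtain ⟨x, hx⟩ := exists_root_of_fixed hn h8 (c := (a : ℚ)) fun σ => by
    rw [map_intCast]
    exact exists_fixed_of_density hn ha hS h σ
  have hden : x.den = 1 := by
    have h1 := congrArg Rat.den hx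
    rw [Rat.den_pow, Rat.den_intCast] at h1
    exact (pow_eq_one_iff.mp h1).resolve_right hn
  refine ⟨x.num, ?_⟩
  rw [← Rat.coe_int_num_of_den_eq_one hden] at hx
  exact_mod_cast hx

/-- **For `8 ∤ n`**: an integer is an `n`th power iff it is one modulo almost every prime. -/
theorem nthPower_iff {n : ℕ} (hn : n ≠ 0) (h8 : ¬ 8 ∣ n) (a : ℤ) :
    (∃ b : ℤ, b ^ n = a) ↔ {q : ℕ | q.Prime ∧ ¬ ∃ b : ZMod q, b ^ n = (a : ZMod q)}.Finite := by
  refine ⟨fun ⟨b, hb⟩ => Set.finite_empty.subset fun q ⟨_, hq⟩ =>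
    hq ⟨(b : ZMod q), by rw [← hb, Int.cast_pow]⟩, fun hfin => ?_⟩
  set M := hfin.toFinset.prod id
  have hM : M ≠ 0 :=
    Finset.prod_ne_zero_iff.mpr fun q hq => (hfin.mem_toFinset.mp hq).1.ne_zero
  have hu : (Set.univ : Set (HeightOneSpectrum (𝓞 ℚ))).HasDirichletDensity 1 := by
    have h0 := FA.Chebotarev.hasDirichletDensity_frobSet (G := Unit) (1 : GQ →* Unit)
      (fun u => ⟨1, Subsingleton.elim _ _⟩) (by simp) (X := Set.univ) fun _ _ _ => Set.mem_univ _
    simpa [FA.Chebotarev.frobSet] using h0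
  refine nthPower_of_density hn h8 a (S := {v | ¬ Ideal.absNorm v.asIdeal ∣ M})
    (FA.Chebotarev.hasDirichletDensity_congr (by simp)
      ((FA.PointDiv.finite_absNorm_dvd hM).subset fun v hv => by simpa using hv) hu) fun v hv => ?_
  by_contra hcon
  refine hv (Finset.dvd_prod_of_mem id (hfin.mem_toFinset.mpr
    ⟨FA.Chebotarev.absNorm_prime v, fun ⟨c, hc⟩ => hcon ?_⟩))
  obtain ⟨b, rfl⟩ := ZMod.intCast_surjective c
  exact ⟨b, (ZMod.intCast_eq_intCast_iff_dvd_sub _ _ _).mp (by rw [Int.cast_pow]; exact hc.symm)⟩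

/-- **Wang's counterexample**: `16` is an eighth power modulo every prime, but not the eighth power
of a rational number. -/
theorem sixteen_eighthPower :
    (∀ q : ℕ, q.Prime → ∃ b : ZMod q, b ^ 8 = 16) ∧ ¬ ∃ x : ℚ, x ^ 8 = 16 := by
  refine ⟨fun q hq => ?_, ?_⟩
  · haveI := Fact.mk hq
    rcases eq_or_ne q 2 with rfl | hq2
    · exact ⟨0, rfl⟩
    by_cases h2 : IsSquare (2 : ZMod q)
    · obtain ⟨x, hx⟩ := h2
      exact ⟨x, by linear_combination -(x * x + 2) * ((x * x) ^ 2 + 4) * hx⟩
    by_cases h1 : IsSquare (-1 : ZMod q)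
    · obtain ⟨i, hi⟩ := h1
      exact ⟨1 + i, by
        rw [show (1 + i) ^ 8 = ((1 + i * i + 2 * i) ^ 2) ^ 2 by ring, ← hi]
        rw [show ((1 + -1 + 2 * i) ^ 2) ^ 2 = 16 * (i * i) ^ 2 by ring, ← hi]
        ring⟩
    have hc : ringChar (ZMod q) ≠ 2 := by rwa [ZMod.ringChar_zmod_n]
    obtain ⟨x, hx⟩ : IsSquare (-2 : ZMod q) := by
      rw [← quadraticChar_one_iff_isSquare (neg_ne_zero.mpr (Ring.two_ne_zero hc)),
        show (-2 : ZMod q) = -1 * 2 by ring, map_mul,
        quadraticChar_neg_one_iff_not_isSquare.mpr h1,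
        quadraticChar_neg_one_iff_not_isSquare.mpr h2]
      norm_num
    exact ⟨x, by linear_combination -(x * x - 2) * ((x * x) ^ 2 + 4) * hx⟩
  · rintro ⟨x, hx⟩
    have h4 : x ^ 4 = 4 := sub_eq_zero.mp ((mul_eq_zero.mp
      (show (x ^ 4 - 4) * (x ^ 4 + 4) = 0 by linear_combination hx)).resolve_right (by positivity))
    have h1 : x ^ 2 = 2 := sub_eq_zero.mp ((mul_eq_zero.mp
      (show (x ^ 2 - 2) * (x ^ 2 + 2) = 0 by linear_combination h4)).resolve_right (by positivity))
    have hden : x.den = 1 := by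
      have h2 := congrArg Rat.den h1
      rw [Rat.den_pow] at h2
      exact (pow_eq_one_iff.mp h2).resolve_right two_ne_zero
    rw [← Rat.coe_int_num_of_den_eq_one hden] at h1
    have h3 : x.num ^ 2 = 2 := by exact_mod_cast h1
    have : x.num ≤ 2 := by nlinarith
    have : -2 ≤ x.num := by nlinarith
    interval_cases x.num <;> norm_num at h3

end FA.Summary

end
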