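import Fermat.Agent.Tau.CMFields

/-!
# Elliptic curves with complex multiplication over number fields

If the lattice of an elliptic curve over a number field `K ⊆ ℂ` has the order of discriminant `D`
as its multiplier ring, then `j` has degree `h(D)`, which divides `[K : ℚ]`; every primitive form
gives such a curve over a field of degree exactly `h(D)`. For `ℤ[√-n]` an odd degree is possible
exactly for `n = 1, 2, 4` and odd powers of primes `p ≡ 3 (mod 4)`.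
-/

set_option autoImplicit false

noncomputable section

open UpperHalfPlane hiding I
open scoped MatrixGroups

namespace FA.Summary

/-- **The multipliers of `ℤτ + ℤ`** for a root `τ` of a primitive form of discriminant `D`. -/
theorem multiplierRing_of_form {a b c : ℤ} (ha : 0 < a) (hg : Int.gcd (Int.gcd a b) c = 1)
    {τ : ℍ} (hτ : (a : ℂ) * (τ : ℂ) ^ 2 + b * (τ : ℂ) + c = 0) (w : ℂ) :
    (∀ l ∈ (FA.Mazur.Wp.latPair τ).lattice, w * l ∈ (FA.Mazur.Wp.latPair τ).lattice) ↔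
      ∃ x y : ℤ, w = (x : ℂ) + (y : ℂ) * (((b ^ 2 - 4 * a * c : ℤ) : ℂ) +
        Complex.I * (Real.sqrt (-((b ^ 2 - 4 * a * c : ℤ) : ℝ)) : ℂ)) / 2 := by
  have h := FA.CMFields.isMultiplierRing_of_root ha rfl hg (τ := τ) hτ w
  simp only [FA.CMFields.omega, FA.Singular.Stable, ← mul_div_assoc] at h
  exact h

/-- **CM by the order of discriminant `D` forces degree a multiple of `h(D)`.** -/
theorem cmCurve_degree {K : IntermediateField ℚ ℂ} [FiniteDimensional ℚ K]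
    (E : WeierstrassCurve K) [E.IsElliptic] {D : ℤ} (hD : D < 0) {L : PeriodPair}
    (h2 : L.g₂ = (E.c₄ : ℂ) / 12) (h3 : L.g₃ = (E.c₆ : ℂ) / 216)
    (hring : ∀ w : ℂ, (∀ l ∈ L.lattice, w * l ∈ L.lattice) ↔
      ∃ x y : ℤ, w = (x : ℂ) + (y : ℂ) *
        (((D : ℂ) + Complex.I * (Real.sqrt (-(D : ℝ)) : ℂ)) / 2)) :
    (minpoly ℚ (E.j : ℂ)).natDegree =
      {t : ℤ × ℤ × ℤ | t.2.1 ^ 2 - 4 * t.1 * t.2.2 = D ∧
        Int.gcd (Int.gcd t.1 t.2.1) t.2.2 = 1 ∧ 0 < t.1 ∧ |t.2.1| ≤ t.1 ∧ t.1 ≤ t.2.2 ∧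
        ((|t.2.1| = t.1 ∨ t.1 = t.2.2) → 0 ≤ t.2.1)}.ncard ∧
    {t : ℤ × ℤ × ℤ | t.2.1 ^ 2 - 4 * t.1 * t.2.2 = D ∧
        Int.gcd (Int.gcd t.1 t.2.1) t.2.2 = 1 ∧ 0 < t.1 ∧ |t.2.1| ≤ t.1 ∧ t.1 ≤ t.2.2 ∧
        ((|t.2.1| = t.1 ∨ t.1 = t.2.2) → 0 ≤ t.2.1)}.ncard ∣ Module.finrank ℚ K :=
  FA.CMFields.degree_of_cmBy E hD ⟨L, h2, h3, hring⟩

/-- **A curve with CM by the order of discriminant `D` over a field of degree `h(D)`.** -/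
theorem cmCurve_exists {a b c : ℤ} (ha : 0 < a) (hD : b ^ 2 - 4 * a * c < 0)
    (hg : Int.gcd (Int.gcd a b) c = 1) :
    ∃ (K : IntermediateField ℚ ℂ) (_ : FiniteDimensional ℚ K) (E : WeierstrassCurve K)
      (_ : E.IsElliptic) (L : PeriodPair), L.g₂ = (E.c₄ : ℂ) / 12 ∧ L.g₃ = (E.c₆ : ℂ) / 216 ∧
      (∀ w : ℂ, (∀ l ∈ L.lattice, w * l ∈ L.lattice) ↔
        ∃ x y : ℤ, w = (x : ℂ) + (y : ℂ) * ((((b ^ 2 - 4 * a * c : ℤ) : ℂ) +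
          Complex.I * (Real.sqrt (-((b ^ 2 - 4 * a * c : ℤ) : ℝ)) : ℂ)) / 2)) ∧
      Module.finrank ℚ K =
        {t : ℤ × ℤ × ℤ | t.2.1 ^ 2 - 4 * t.1 * t.2.2 = b ^ 2 - 4 * a * c ∧
          Int.gcd (Int.gcd t.1 t.2.1) t.2.2 = 1 ∧ 0 < t.1 ∧ |t.2.1| ≤ t.1 ∧ t.1 ≤ t.2.2 ∧
          ((|t.2.1| = t.1 ∨ t.1 = t.2.2) → 0 ≤ t.2.1)}.ncard := by
  obtain ⟨K, hK, E, hE, ⟨L, h2, h3, hr⟩, hd⟩ := FA.CMFields.exists_cmBy ha rfl hD hg
  exact ⟨K, hK, E, hE, L, h2, h3, hr, hd⟩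

/-- **CM by `ℤ[√-n]` over a field of odd degree**: `n = 1, 2, 4` or an odd power of a prime
`p ≡ 3 (mod 4)`. -/
theorem cmCurve_oddDegree_iff (n : ℕ) [NeZero n] :
    (∃ (K : IntermediateField ℚ ℂ) (_ : FiniteDimensional ℚ K) (E : WeierstrassCurve K)
      (_ : E.IsElliptic) (L : PeriodPair), L.g₂ = (E.c₄ : ℂ) / 12 ∧ L.g₃ = (E.c₆ : ℂ) / 216 ∧
      (∀ w : ℂ, (∀ l ∈ L.lattice, w * l ∈ L.lattice) ↔
        ∃ x y : ℤ, w = (x : ℂ) + (y : ℂ) * (((-4 * (n : ℤ) : ℤ) : ℂ) +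
          Complex.I * (Real.sqrt (-((-4 * (n : ℤ) : ℤ) : ℝ)) : ℂ)) / 2) ∧
      Odd (Module.finrank ℚ K)) ↔
    n = 1 ∨ n = 2 ∨ n = 4 ∨ ∃ p k : ℕ, p.Prime ∧ p % 4 = 3 ∧ Odd k ∧ n = p ^ k := by
  have hn := NeZero.pos n
  have hD : -4 * (n : ℤ) < 0 := by omega
  rw [← FA.CMFields.odd_classNumber_iff n, ← FA.RingClassJ.ncard_red_eq n]
  constructor
  · rintro ⟨K, hK, E, hE, L, h2, h3, hr, hodd⟩
    exact Odd.of_dvd_nat hodd (FA.CMFields.degree_of_cmBy E hD ⟨L, h2, h3, fun w => by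
      simp only [FA.CMFields.omega, ← mul_div_assoc]; exact hr w⟩).2
  · intro h
    obtain ⟨K, hK, E, hE, ⟨L, h2, h3, hr⟩, hd⟩ := FA.CMFields.exists_cmBy (a := 1) (b := 0)
      (c := (n : ℤ)) one_pos (by ring : (0 : ℤ) ^ 2 - 4 * 1 * n = -4 * n) hD (by simp)
    refine ⟨K, hK, E, hE, L, h2, h3, fun w => ?_, hd ▸ h⟩
    have := hr w
    simp only [FA.CMFields.omega, FA.Singular.Stable, ← mul_div_assoc] at this
    exact this

end FA.Summary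

end
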