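import Fermat.Agent.JugendtraumField.Main
import Fermat.Agent.JugendtraumField.NormEquation
import Fermat.Agent.Root.SummaryCMFields

/-!
# Kronecker's Jugendtraum for every imaginary quadratic field

Let `E` be an elliptic curve over a number field `F` with a multiplier in `K = ℚ(√d)`.

* `cm_frobenius_normEquation`: if `√d ∈ F`, then `a_v² - 4 N v` is `d` times a square at every place
  of good reduction.
* `jugendtraum_numberField`: an algebraic number fixed by the commutators of the automorphisms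
  fixing `√d`, that is an element of the maximal abelian extension of `K`, lies in `F K (E[n])`
  for some `n`.
* `kronecker_jugendtraum_all`: every imaginary quadratic field has such a curve over a number field
  of degree its class number.

That the torsion is abelian over `K` when the class number exceeds one, and which torsion generates
a given ray class field, are not discussed.
-/

set_option autoImplicit false
set_option linter.style.haveILetI false
set_option linter.unusedSectionVars false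

noncomputable section

open WeierstrassCurve NumberField IsDedekindDomain
open FA.ClassNumberOne (xP yP)
open scoped WeierstrassCurve.Affine

local notation "Qb" => AlgebraicClosure ℚ
local notation "GQ" => AlgebraicClosure ℚ ≃ₐ[ℚ] AlgebraicClosure ℚ

namespace FA.Summary

universe u

/-- **The norm equation of a curve with complex multiplication**: `a_v² - 4 N v = d b²`. -/
theorem cm_frobenius_normEquation {K : Type u} [Field K] [NumberField K]
    (W₀ : WeierstrassCurve (𝓞 K)) [(W₀.map (algebraMap (𝓞 K) K)).IsElliptic] (ψ : K →+* ℂ) {d : ℤ}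
    (hd : Squarefree d)
    (hcm : ∃ L : PeriodPair, L.g₂ = ψ (W₀.map (algebraMap (𝓞 K) K)).c₄ / 12 ∧
      L.g₃ = ψ (W₀.map (algebraMap (𝓞 K) K)).c₆ / 216 ∧
      ∃ ω : ℂ, (∀ m : ℤ, ω ≠ m) ∧ (∀ l ∈ L.lattice, ω * l ∈ L.lattice) ∧
        ∃ x y : ℚ, (ω - (x : ℂ)) ^ 2 = (d : ℂ) * (y : ℂ) ^ 2)
    {s : K} (hs : s ^ 2 = (d : K)) {v : HeightOneSpectrum (𝓞 K)} (hΔ : W₀.Δ ∉ v.asIdeal) :
    ∃ b : ℤ, ((Ideal.absNorm v.asIdeal : ℤ) + 1 -
        Nat.card (W₀.map (Ideal.Quotient.mk v.asIdeal)).toAffine.Point) ^ 2 -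
      4 * (Ideal.absNorm v.asIdeal : ℤ) = d * b ^ 2 := by
  classical
  exact FA.JugendtraumField.frobTrace_normEquation W₀ ψ hd hcm hs hΔ

/-- **Every element of the maximal abelian extension of `ℚ(√d)` lies in a field of torsion points
over `F`.** -/
theorem jugendtraum_numberField [inst : DecidableEq (AlgebraicClosure ℚ)]
    (F : IntermediateField ℚ (AlgebraicClosure ℚ)) [FiniteDimensional ℚ F]
    (E : WeierstrassCurve F) [E.IsElliptic] (ψ : F →+* ℂ) {d : ℤ} (hd : Squarefree d) (hd0 : d < 0)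
    (hcm : ∃ L : PeriodPair, L.g₂ = ψ E.c₄ / 12 ∧ L.g₃ = ψ E.c₆ / 216 ∧
      ∃ ω : ℂ, (∀ m : ℤ, ω ≠ m) ∧ (∀ l ∈ L.lattice, ω * l ∈ L.lattice) ∧
        ∃ x y : ℚ, (ω - (x : ℂ)) ^ 2 = (d : ℂ) * (y : ℂ) ^ 2)
    {s : AlgebraicClosure ℚ} (hs : s ^ 2 = (d : AlgebraicClosure ℚ)) {x : AlgebraicClosure ℚ}
    (hx : ∀ σ τ : AlgebraicClosure ℚ ≃ₐ[ℚ] AlgebraicClosure ℚ, σ s = s → τ s = s →
      (σ * τ * σ⁻¹ * τ⁻¹) x = x) :
    ∃ n : ℕ, 0 < n ∧ x ∈ IntermediateField.adjoin ℚ ((F : Set (AlgebraicClosure ℚ)) ∪ {s} ∪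
      {z | ∃ (u w : AlgebraicClosure ℚ)
        (hu : (E.toAffine⁄(AlgebraicClosure ℚ)).Nonsingular u w),
        n • (Affine.Point.some u w hu : (E.toAffine⁄(AlgebraicClosure ℚ)).Point) = 0 ∧
          (z = u ∨ z = w)}) := by
  obtain rfl : inst = instDecEqAlgebraicClosureRat := Subsingleton.elim _ _
  haveI : IsGalois ℚ Qb := FA.EC.isGalois_algebraicClosure
  set K₀ := IntermediateField.adjoin ℚ ({s, x} : Set Qb) with hK₀
  haveI : FiniteDimensional ℚ K₀ :=
    IntermediateField.finiteDimensional_adjoin fun z _ => Algebra.IsIntegral.isIntegral z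
  set L := IntermediateField.normalClosure ℚ K₀ Qb with hL
  haveI : Normal ℚ L := normalClosure.normal ℚ K₀ Qb
  haveI : IsGalois ℚ L := ⟨⟩
  haveI : FiniteDimensional ℚ L := normalClosure.is_finiteDimensional ℚ K₀ Qb
  have hle : K₀ ≤ L := IntermediateField.le_normalClosure K₀
  have hcomm : ∀ σ τ : GQ, σ s = s → τ s = s → ∀ z ∈ L, (σ * τ * σ⁻¹ * τ⁻¹) z = z := by
    intro σ τ hσ hτ z hz
    suffices hL' : L ≤ IntermediateField.fixedField (Subgroup.zpowers (σ * τ * σ⁻¹ * τ⁻¹)) from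
      (IntermediateField.mem_fixedField_iff _ _).mp (hL' hz) _ (Subgroup.mem_zpowers _)
    rw [hL, normalClosure_le_iff]
    intro f
    obtain ⟨g, hg⟩ : ∃ g : GQ, ∀ k : K₀, g (k : Qb) = f k := by
      refine ⟨AlgEquiv.ofBijective (f.liftNormal Qb)
        (AlgHom.normal_bijective ℚ Qb Qb _), fun k => ?_⟩
      exact f.liftNormal_commutes Qb k
    rintro _ ⟨k, rfl⟩
    rw [IntermediateField.mem_fixedField_iff]
    intro c hc
    obtain ⟨i, rfl⟩ := hc
    have hmem : g⁻¹ * (σ * τ * σ⁻¹ * τ⁻¹) * g ∈ K₀.fixingSubgroup := by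
      rw [IntermediateField.mem_fixingSubgroup_iff]
      intro w hw
      induction hw using IntermediateField.adjoin_induction with
      | mem v hv =>
        rw [show g⁻¹ * (σ * τ * σ⁻¹ * τ⁻¹) * g =
          (g⁻¹ * σ * g⁻¹⁻¹) * (g⁻¹ * τ * g⁻¹⁻¹) * (g⁻¹ * σ * g⁻¹⁻¹)⁻¹ *
            (g⁻¹ * τ * g⁻¹⁻¹)⁻¹ by group]
        have h1 := FA.Jugendtraum.conj_apply_sqrt hs hσ g⁻¹
        have h2 := FA.Jugendtraum.conj_apply_sqrt hs hτ g⁻¹
        rcases hv with hv | hv
        · have key : ∀ u : GQ, u s = s → u⁻¹ s = s := fun u hu => by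
            conv_lhs => rw [← hu]
            exact u.symm_apply_apply s
          rw [hv]
          generalize g⁻¹ * σ * g⁻¹⁻¹ = σ' at h1 ⊢
          generalize g⁻¹ * τ * g⁻¹⁻¹ = τ' at h2 ⊢
          simp only [AlgEquiv.mul_apply]
          rw [key _ h2, key _ h1, h2, h1]
        · rw [Set.mem_singleton_iff.mp hv]
          exact hx _ _ h1 h2
      | algebraMap v => exact AlgEquiv.commutes _ v
      | add v w _ _ hv hw => rw [map_add, hv, hw]
      | inv v _ hv => rw [map_inv₀, hv]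
      | mul v w _ _ hv hw => rw [map_mul, hv, hw]
    have hmem' := zpow_mem hmem i
    rw [show g⁻¹ * (σ * τ * σ⁻¹ * τ⁻¹) * g = g⁻¹ * (σ * τ * σ⁻¹ * τ⁻¹) * g⁻¹⁻¹ by
      rw [inv_inv], conj_zpow, inv_inv] at hmem'
    have h1 := congrArg g ((IntermediateField.mem_fixingSubgroup_iff _ _).mp hmem' k k.2)
    rw [AlgEquiv.mul_apply, AlgEquiv.mul_apply, hg k] at h1
    refine Eq.trans ?_ h1
    exact (g.apply_symm_apply _).symm
  obtain ⟨n, hn, hlev⟩ := FA.JugendtraumField.exists_level F E ψ hd hd0 hcm hs L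
    (hle (IntermediateField.subset_adjoin _ _ (Set.mem_insert _ _))) hcomm
  refine ⟨n, hn, ?_⟩
  set S : Set Qb := (F : Set Qb) ∪ {s} ∪ {z | ∃ (u w : Qb) (hu : (E.toAffine⁄Qb).Nonsingular u w),
    n • (Affine.Point.some u w hu : (E.toAffine⁄Qb).Point) = 0 ∧ (z = u ∨ z = w)} with hS
  rw [← InfiniteGalois.fixedField_fixingSubgroup (IntermediateField.adjoin ℚ S),
    IntermediateField.mem_fixedField_iff]
  intro σ hσ
  rw [IntermediateField.mem_fixingSubgroup_iff] at hσ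
  have hσ' : ∀ z ∈ S, σ z = z := fun z hz => hσ z (IntermediateField.subset_adjoin _ _ hz)
  refine hlev σ (hσ' s (Or.inl (Or.inr rfl))) (fun z hz => hσ' z (Or.inl (Or.inl hz)))
    (fun P hP => ?_) x
    (hle (IntermediateField.subset_adjoin _ _ (Set.mem_insert_of_mem _ rfl)))
  rcases P with _ | ⟨u, w, hu⟩
  · exact ⟨map_zero σ, map_zero σ⟩
  · exact ⟨hσ' u (Or.inr ⟨u, w, hu, hP, Or.inl rfl⟩), hσ' w (Or.inr ⟨u, w, hu, hP, Or.inr rfl⟩)⟩

/-- **The Jugendtraum for every imaginary quadratic field**: for every squarefree `d < 0` there are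
a number field `F` of degree the class number of `ℚ(√d)` and a curve `E` over `F` with complex
multiplication by the maximal order such that every element of the maximal abelian extension of
`ℚ(√d)` lies in `F(√d, E[n])` for some `n`. -/
theorem kronecker_jugendtraum_all [inst : DecidableEq (AlgebraicClosure ℚ)] {d : ℤ}
    (hd : Squarefree d) (hd0 : d < 0)
    {s : AlgebraicClosure ℚ} (hs : s ^ 2 = (d : AlgebraicClosure ℚ)) :
    ∃ (F : IntermediateField ℚ (AlgebraicClosure ℚ)) (E : WeierstrassCurve F) (_ : E.IsElliptic),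
      Module.finrank ℚ F = {t : ℤ × ℤ × ℤ |
        t.2.1 ^ 2 - 4 * t.1 * t.2.2 = (if d % 4 = 1 then d else 4 * d) ∧
        Int.gcd (Int.gcd t.1 t.2.1) t.2.2 = 1 ∧ 0 < t.1 ∧ |t.2.1| ≤ t.1 ∧ t.1 ≤ t.2.2 ∧
        ((|t.2.1| = t.1 ∨ t.1 = t.2.2) → 0 ≤ t.2.1)}.ncard ∧
      (∃ (ψ : F →+* ℂ) (L : PeriodPair), L.g₂ = ψ E.c₄ / 12 ∧ L.g₃ = ψ E.c₆ / 216 ∧
        ∀ w : ℂ, (∀ l ∈ L.lattice, w * l ∈ L.lattice) ↔
          ∃ u v : ℤ, w = (u : ℂ) + (v : ℂ) * ((((if d % 4 = 1 then d else 4 * d : ℤ)) : ℂ) +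
            Complex.I * (Real.sqrt (-((if d % 4 = 1 then d else 4 * d : ℤ) : ℝ)) : ℂ)) / 2) ∧
      ∀ x : AlgebraicClosure ℚ,
        (∀ σ τ : AlgebraicClosure ℚ ≃ₐ[ℚ] AlgebraicClosure ℚ, σ s = s → τ s = s →
          (σ * τ * σ⁻¹ * τ⁻¹) x = x) →
        ∃ n : ℕ, 0 < n ∧ x ∈ IntermediateField.adjoin ℚ ((F : Set (AlgebraicClosure ℚ)) ∪ {s} ∪
          {z | ∃ (u w : AlgebraicClosure ℚ)
            (hu : (E.toAffine⁄(AlgebraicClosure ℚ)).Nonsingular u w),
            n • (Affine.Point.some u w hu : (E.toAffine⁄(AlgebraicClosure ℚ)).Point) = 0 ∧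
              (z = u ∨ z = w)}) := by
  obtain ⟨b, c, y, hbc, hy⟩ : ∃ (b c : ℤ) (y : ℚ),
      b ^ 2 - 4 * 1 * c = (if d % 4 = 1 then d else 4 * d) ∧
        (((if d % 4 = 1 then d else 4 * d : ℤ)) : ℚ) = 4 * d * y ^ 2 := by
    by_cases h : d % 4 = 1
    · exact ⟨1, (1 - d) / 4, 1 / 2, by rw [if_pos h]; omega, by rw [if_pos h]; ring⟩
    · exact ⟨0, -d, 1, by rw [if_neg h]; ring, by rw [if_neg h]; push_cast; ring⟩
  set D : ℤ := if d % 4 = 1 then d else 4 * d with hD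
  have hD0 : D < 0 := by rw [hD]; split <;> omega
  obtain ⟨K, hK, E₀, hE₀, L, h2, h3, hring, hdeg⟩ :=
    cmCurve_exists (a := 1) (b := b) (c := c) one_pos (hbc.trans_lt hD0) (by simp)
  rw [hbc] at hring hdeg
  let e : K →ₐ[ℚ] Qb := IsAlgClosed.lift
  let i : K ≃ₐ[ℚ] e.fieldRange := AlgEquiv.ofInjectiveField e
  haveI : FiniteDimensional ℚ e.fieldRange := Module.Finite.equiv i.toLinearEquiv
  have h2' : L.g₂ = (K.val.toRingHom.comp i.symm.toRingEquiv.toRingHom)
      (E₀.map i.toRingEquiv.toRingHom).c₄ / 12 := by rw [h2, map_c₄]; simp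
  have h3' : L.g₃ = (K.val.toRingHom.comp i.symm.toRingEquiv.toRingHom)
      (E₀.map i.toRingEquiv.toRingHom).c₆ / 216 := by rw [h3, map_c₆]; simp
  refine ⟨e.fieldRange, E₀.map i.toRingEquiv.toRingHom, inferInstance,
    i.toLinearEquiv.finrank_eq.symm.trans hdeg,
    ⟨_, L, h2', h3', fun w => (hring w).trans (by simp only [mul_div_assoc])⟩, fun x hx =>
    jugendtraum_numberField e.fieldRange (E₀.map i.toRingEquiv.toRingHom)
      (K.val.toRingHom.comp i.symm.toRingEquiv.toRingHom) hd hd0 ⟨L, h2', h3',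
      ((D : ℂ) + Complex.I * (Real.sqrt (-(D : ℝ)) : ℂ)) / 2, fun m hm => ?_,
      (hring _).2 ⟨0, 1, by simp⟩, (D : ℚ) / 2, y, ?_⟩ hs hx⟩
  · have := congrArg Complex.im hm
    simp at this
    have hD' : (D : ℝ) < 0 := Int.cast_lt_zero.mpr hD0
    have := Real.sqrt_pos.mpr (neg_pos.mpr hD')
    linarith
  · have hsq : ((Real.sqrt (-(D : ℝ)) : ℂ)) ^ 2 = -(D : ℂ) := by
      rw [← Complex.ofReal_pow, Real.sq_sqrt (neg_nonneg.mpr (Int.cast_nonpos.mpr hD0.le))]
      push_cast; ring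
    have hyc := congrArg (Rat.cast : ℚ → ℂ) hy
    push_cast at hyc ⊢
    linear_combination Complex.I ^ 2 / 4 * hsq + (-(D : ℂ) / 4) * Complex.I_sq + hyc / 4

end FA.Summary

end
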