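import Fermat.Agent.ClassFieldTheory.NormLimitation

/-!
# Ray class fields, conductors and the norm limitation

With `RayClassGroup 𝔪` the narrow ray class group of a number field `K` modulo `𝔪` and
`FrobeniusClasses E h𝔪 ω` saying that the primes prime to `𝔪` are unramified in `E` and that `ω`
sends their classes to their Frobenius elements:

* `ray_class_field`: for every modulus there is an abelian extension with Galois group the ray class
  group through Frobenius; its subfields correspond to the subgroups, with degree the index, and it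
  contains exactly the abelian extensions in which Frobenius only depends on the class modulo `𝔪`;
* `abelian_conductor`: every abelian extension has a conductor `𝔣`: Frobenius only depends on the
  classes modulo `𝔪`, equivalently the extension lies in the ray class field of `𝔪`, if and only if
  `𝔣 ∣ 𝔪`, and the prime divisors of `𝔣` are the ramified primes;
* `abelian_extension_in_ray_class_field`: in particular every abelian extension lies in a ray class
  field;
* `norm_limitation`: for any finite extension `L/K`, Galois or not, the subgroup of a ray class group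
  generated by the norms of the primes of `L` is the kernel of Frobenius on an abelian subextension,
  the largest one with that modulus, so its index divides the degree;
* `norm_classes_maximal_abelian`: the norms from `L` are the norms from the maximal abelian
  subextension as soon as the modulus works for that subextension.
-/

set_option autoImplicit false
set_option linter.style.haveILetI false

noncomputable section

universe u

open NumberField IsDedekindDomain
open FA.Hecke (RayClassGroup rayClass coprimeIdeals)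
open FA.Ext (primeIdeal)
open scoped Pointwise nonZeroDivisors Classical

namespace FA.RayFields

/-- The primes prime to `𝔪` are unramified and `ω` sends their classes to their Frobenius. -/
def FrobeniusClasses {K : Type*} [Field K] [NumberField K] (E : Type*) [Field E] [NumberField E]
    [Algebra K E] [IsGalois K E] {𝔪 : Ideal (𝓞 K)} (h𝔪 : 𝔪 ≠ ⊥) (ω : RayClassGroup 𝔪 →* (E ≃ₐ[K] E)) : Prop :=
  ∀ (v : HeightOneSpectrum (𝓞 K)) (hv : v.asIdeal ⊔ 𝔪 = ⊤) (Q : HeightOneSpectrum (𝓞 E)),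
    Q.asIdeal.under (𝓞 K) = v.asIdeal → Q.asIdeal.inertia (E ≃ₐ[K] E) = ⊥ ∧
      ∀ τ : E ≃ₐ[K] E, IsArithFrobAt (𝓞 K) τ Q.asIdeal →
        ω (rayClass h𝔪 ⟨primeIdeal v, hv⟩) = τ

open FA.ArtinRec

variable {K E : Type*} [Field K] [NumberField K] [Field E] [NumberField E] [Algebra K E]
  [IsGalois K E] [IsMulCommutative (E ≃ₐ[K] E)] {𝔪 : Ideal (𝓞 K)} {h𝔪 : 𝔪 ≠ ⊥}
  {ω : RayClassGroup 𝔪 →* (E ≃ₐ[K] E)}

theorem frobeniusClasses_iff :
    FrobeniusClasses E h𝔪 ω ↔ ∀ (v : HeightOneSpectrum (𝓞 K)) (hv : v.asIdeal ⊔ 𝔪 = ⊤),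
      ¬ IsRam E v ∧ ω (rayClass h𝔪 ⟨primeIdeal v, hv⟩) = artinAt E v := by
  refine ⟨fun h v hv => ⟨?_, ?_⟩, fun h v hv Q hQ =>
    ⟨inertia_eq_bot (h v hv).1 (HeightOneSpectrum.ext hQ), fun τ hτ => ?_⟩⟩
  · rintro ⟨Q, hQ, hne⟩
    exact hne (h v hv Q (congrArg HeightOneSpectrum.asIdeal hQ)).1
  · obtain ⟨Q, hQ, hτ⟩ := artinAt_spec (L := E) v
    exact (h v hv Q (congrArg HeightOneSpectrum.asIdeal hQ)).2 _ hτ
  · rw [(h v hv).2, artinAt_eq (h v hv).1 (HeightOneSpectrum.ext hQ) hτ]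

theorem exists_frobeniusClasses_iff :
    (∃ ω, FrobeniusClasses E h𝔪 ω) ↔ IsModulus E 𝔪 :=
  ⟨fun ⟨ω, hω⟩ => ⟨h𝔪, ω, frobeniusClasses_iff.1 hω⟩,
    fun ⟨_, ω, hω⟩ => ⟨ω, frobeniusClasses_iff.2 hω⟩⟩

theorem isClassField_of_frobeniusClasses (hs : Function.Surjective ω)
    (h : FrobeniusClasses E h𝔪 ω) : IsClassField E h𝔪 Set.univ ω.ker := by
  rw [frobeniusClasses_iff] at h
  let _ : CommMonoid (E ≃ₐ[K] E) :=
    { (inferInstance : Monoid (E ≃ₐ[K] E)) with mul_comm := mul_comm' }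
  have hall : ω.comp (rayClass h𝔪) = (artinHom E).comp (coprimeIdeals 𝔪).subtype :=
    hom_ext_primes fun v hv => by
      show ω (rayClass h𝔪 ⟨primeIdeal v, hv⟩) = artinHom E (primeIdeal v)
      rw [artinHom_prime, (h v hv).2]
  exact ⟨fun v hv => (h v hv).1, fun w hw => absurd (Set.mem_univ w) hw, ω, hs, rfl,
    fun I => DFunLike.congr_fun hall I⟩

theorem IsClassField.frobeniusClasses {S : Set (InfinitePlace K)}
    {H : Subgroup (RayClassGroup 𝔪)} (h : IsClassField E h𝔪 S H) :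
    ∃ ω : RayClassGroup 𝔪 →* (E ≃ₐ[K] E), Function.Surjective ω ∧ ω.ker = H ∧
      FrobeniusClasses E h𝔪 ω := by
  obtain ⟨ω, hs, hker, hω⟩ := h.artin
  exact ⟨ω, hs, hker, frobeniusClasses_iff.2 fun v hv =>
    ⟨h.unram v hv, (hω _).trans (artinHom_prime v)⟩⟩

end FA.RayFields

namespace FA.Summary

open FA.ArtinRec FA.RayFields

variable (K : Type u) [Field K] [NumberField K]

/-- **Ray class fields exist.** -/
theorem ray_class_field {𝔪 : Ideal (𝓞 K)} (h𝔪 : 𝔪 ≠ ⊥) :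
    ∃ (L : Type u) (_ : Field L) (_ : NumberField L) (_ : Algebra K L) (_ : IsGalois K L),
      (∀ g h : L ≃ₐ[K] L, g * h = h * g) ∧
      ∃ ω : RayClassGroup 𝔪 →* (L ≃ₐ[K] L), Function.Bijective ω ∧ FrobeniusClasses L h𝔪 ω ∧
        Module.finrank K L = Nat.card (RayClassGroup 𝔪) ∧
        (∀ H : Subgroup (RayClassGroup 𝔪),
          Module.finrank K (IntermediateField.fixedField (H.map ω)) = H.index) ∧
        Function.Bijective (fun H : Subgroup (RayClassGroup 𝔪) =>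
          IntermediateField.fixedField (H.map ω)) ∧
        ∀ (E : Type u) [Field E] [NumberField E] [Algebra K E] [IsGalois K E],
          (∀ g h : E ≃ₐ[K] E, g * h = h * g) →
            ((∃ ω' : RayClassGroup 𝔪 →* (E ≃ₐ[K] E), FrobeniusClasses E h𝔪 ω') ↔
              Nonempty (E →ₐ[K] L)) := by
  obtain ⟨L, _, _, _, _, hc, hL⟩ :=
    exists_classField h𝔪 Set.univ ⊥ (by rw [semiClasses_univ])
  obtain ⟨ω, hs, hker, hω⟩ := IsClassField.frobeniusClasses hL
  have hb : Function.Bijective ω := ⟨(MonoidHom.ker_eq_bot_iff ω).1 hker, hs⟩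
  have hcard : Nat.card (L ≃ₐ[K] L) = Nat.card (RayClassGroup 𝔪) :=
    (Nat.card_eq_of_bijective ω hb).symm
  refine ⟨L, inferInstance, inferInstance, inferInstance, inferInstance, mul_comm', ω, hb, hω,
    (IsGalois.card_aut_eq_finrank K L).symm.trans hcard, fun H => ?_, ?_, fun E _ _ _ _ hE => ?_⟩
  · have h1 := Module.finrank_mul_finrank K (IntermediateField.fixedField (H.map ω)) L
    rw [IntermediateField.finrank_fixedField_eq_card, mul_comm,
      show Module.finrank K L = Nat.card (L ≃ₐ[K] L) from (IsGalois.card_aut_eq_finrank K L).symm,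
      ← Subgroup.card_mul_index (H.map ω), Subgroup.index_map_of_bijective hb] at h1
    exact Nat.eq_of_mul_eq_mul_left Nat.card_pos h1
  · exact IsGalois.intermediateFieldEquivSubgroup.symm.bijective.comp
      (MulEquiv.mapSubgroup (MulEquiv.ofBijective ω hb)).bijective
  · haveI : IsMulCommutative (E ≃ₐ[K] E) := ⟨⟨hE⟩⟩
    exact exists_frobeniusClasses_iff.trans (isModulus_iff_algHom hL)

/-- **The conductor of an abelian extension.** -/
theorem abelian_conductor (E : Type u) [Field E] [NumberField E] [Algebra K E] [IsGalois K E]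
    (hE : ∀ g h : E ≃ₐ[K] E, g * h = h * g) :
    ∃ 𝔣 : Ideal (𝓞 K), 𝔣 ≠ ⊥ ∧
      (∀ (𝔪 : Ideal (𝓞 K)) (h𝔪 : 𝔪 ≠ ⊥),
        (∃ ω : RayClassGroup 𝔪 →* (E ≃ₐ[K] E), FrobeniusClasses E h𝔪 ω) ↔ 𝔣 ∣ 𝔪) ∧
      (∀ (𝔪 : Ideal (𝓞 K)) (h𝔪 : 𝔪 ≠ ⊥) (L : Type u) [Field L] [NumberField L] [Algebra K L]
        [IsGalois K L], (∀ g h : L ≃ₐ[K] L, g * h = h * g) →
          ∀ ω : RayClassGroup 𝔪 →* (L ≃ₐ[K] L), Function.Bijective ω → FrobeniusClasses L h𝔪 ω →
            (Nonempty (E →ₐ[K] L) ↔ 𝔣 ∣ 𝔪)) ∧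
      ∀ v : HeightOneSpectrum (𝓞 K), v.asIdeal ∣ 𝔣 ↔
        ∃ Q : HeightOneSpectrum (𝓞 E), Q.asIdeal.under (𝓞 K) = v.asIdeal ∧
          Q.asIdeal.inertia (E ≃ₐ[K] E) ≠ ⊥ := by
  haveI : IsMulCommutative (E ≃ₐ[K] E) := ⟨⟨hE⟩⟩
  obtain ⟨𝔣, hiff, hf, hram⟩ := exists_conductor K E
  refine ⟨𝔣, hf.ne_bot, fun 𝔪 h𝔪 => exists_frobeniusClasses_iff.trans (hiff 𝔪 h𝔪),
    fun 𝔪 h𝔪 L _ _ _ _ hL ω hb hω => ?_, fun v => (hram v).trans ?_⟩
  · haveI : IsMulCommutative (L ≃ₐ[K] L) := ⟨⟨hL⟩⟩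
    have hcl := isClassField_of_frobeniusClasses hb.2 hω
    rw [(MonoidHom.ker_eq_bot_iff ω).2 hb.1] at hcl
    exact (isModulus_iff_algHom hcl).symm.trans (hiff 𝔪 h𝔪)
  · exact ⟨fun ⟨Q, hQ, hne⟩ => ⟨Q, congrArg HeightOneSpectrum.asIdeal hQ, hne⟩,
      fun ⟨Q, hQ, hne⟩ => ⟨Q, HeightOneSpectrum.ext hQ, hne⟩⟩

/-- **Every abelian extension lies in a ray class field.** -/
theorem abelian_extension_in_ray_class_field (E : Type u) [Field E] [NumberField E] [Algebra K E]
    [IsGalois K E] (hE : ∀ g h : E ≃ₐ[K] E, g * h = h * g) :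
    ∃ (𝔪 : Ideal (𝓞 K)) (h𝔪 : 𝔪 ≠ ⊥) (L : Type u) (_ : Field L) (_ : NumberField L)
      (_ : Algebra K L) (_ : IsGalois K L) (ω : RayClassGroup 𝔪 →* (L ≃ₐ[K] L)),
      Function.Bijective ω ∧ FrobeniusClasses L h𝔪 ω ∧ Nonempty (E →ₐ[K] L) := by
  obtain ⟨𝔣, h0, -, hL, -⟩ := abelian_conductor K E hE
  obtain ⟨L, _, _, _, _, hc, ω, hb, hω, -⟩ := ray_class_field K h0
  exact ⟨𝔣, h0, L, inferInstance, inferInstance, inferInstance, inferInstance, ω, hb, hω,
    (hL 𝔣 h0 L hc ω hb hω).2 dvd_rfl⟩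

/-- **The norm limitation theorem.** -/
theorem norm_limitation (L : Type*) [Field L] [NumberField L] [Algebra K L] {𝔪 : Ideal (𝓞 K)}
    (h𝔪 : 𝔪 ≠ ⊥) :
    ∃ (E : Type u) (_ : Field E) (_ : NumberField E) (_ : Algebra K E) (_ : IsGalois K E),
      (∀ g h : E ≃ₐ[K] E, g * h = h * g) ∧ Nonempty (E →ₐ[K] L) ∧
      (∃ ω : RayClassGroup 𝔪 →* (E ≃ₐ[K] E), Function.Surjective ω ∧ FrobeniusClasses E h𝔪 ω ∧
        ω.ker = normClasses L h𝔪) ∧
      Module.finrank K E = (normClasses L h𝔪).index ∧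
      (normClasses L h𝔪).index ∣ Module.finrank K L ∧
      ∀ (A : Type u) [Field A] [NumberField A] [Algebra K A] [IsGalois K A],
        (∀ g h : A ≃ₐ[K] A, g * h = h * g) → (A →ₐ[K] L) →
          (∃ ω : RayClassGroup 𝔪 →* (A ≃ₐ[K] A), FrobeniusClasses A h𝔪 ω) →
            Nonempty (A →ₐ[K] E) := by
  obtain ⟨E, _, _, _, _, _, hE, hi, hdeg, hdvd⟩ := exists_normLimit L h𝔪
  obtain ⟨ω, hs, hker, hω⟩ := IsClassField.frobeniusClasses hE
  refine ⟨E, inferInstance, inferInstance, inferInstance, inferInstance, mul_comm', hi,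
    ⟨ω, hs, hω, hker⟩, hdeg, hdvd, fun A _ _ _ _ hA i hmod => ?_⟩
  haveI : IsMulCommutative (A ≃ₐ[K] A) := ⟨⟨hA⟩⟩
  obtain ⟨H, hH⟩ := (exists_frobeniusClasses_iff.1 hmod).exists_classField
  exact (nonempty_algHom_iff hH hE).2 (normClasses_le_of_classField hH i)

/-- **The norms see only the maximal abelian subextension.** -/
theorem norm_classes_maximal_abelian (L : Type*) [Field L] [NumberField L] [Algebra K L]
    (A : Type u) [Field A] [NumberField A] [Algebra K A] [IsGalois K A]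
    (hA : ∀ g h : A ≃ₐ[K] A, g * h = h * g) (i : A →ₐ[K] L)
    (hmax : ∀ (B : Type u) [Field B] [NumberField B] [Algebra K B] [IsGalois K B],
      (∀ g h : B ≃ₐ[K] B, g * h = h * g) → (B →ₐ[K] L) → Nonempty (B →ₐ[K] A))
    {𝔪 : Ideal (𝓞 K)} (h𝔪 : 𝔪 ≠ ⊥)
    (hmod : ∃ ω : RayClassGroup 𝔪 →* (A ≃ₐ[K] A), FrobeniusClasses A h𝔪 ω) :
    normClasses L h𝔪 = normClasses A h𝔪 := by
  haveI : IsMulCommutative (A ≃ₐ[K] A) := ⟨⟨hA⟩⟩
  exact normClasses_eq_of_maximal (exists_frobeniusClasses_iff.1 hmod) i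
    fun B _ _ _ _ _ f => hmax B mul_comm' f

end FA.Summary

end
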