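import Fermat.Agent.CMRayClass.Torsion
import Fermat.Agent.CMRayClass.Closure
import Fermat.Agent.Root.SummaryRayClassFields
import Fermat.Agent.Root.SummaryJugendtraumField

/-!
# Ray class fields of imaginary quadratic fields

Let `d < 0` be squarefree, neither `-1` nor `-3`, `K = ℚ(√d)`, and `E` a curve over `F = ℚ(j(E))`
with multiplication by the maximal order of `K`.

* `rayClassField_eq_adjoin_torsion`: for every `n ≥ 1` the field `K(j, x(E[n]))` is the ray class
  field modulo `n`: it has degree the ray class number over `K`, is abelian, is the image of an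
  extension with group the ray class group through Frobenius, and contains every abelian extension
  whose Frobenius elements only depend on the class modulo `n`.
* `kronecker_jugendtraum_exact`: so the maximal abelian extension of `K` is the union of these
  fields.
* `cmCurve_over_adjoin_j`: every imaginary quadratic field has such a curve.

For `d = -1, -3` the abscissae must be replaced by their squares and cubes; this is not treated.
-/

set_option autoImplicit false
set_option linter.style.haveILetI false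
set_option linter.unusedSectionVars false

noncomputable section

open WeierstrassCurve NumberField IsDedekindDomain Module FA.CMRayClass
open FA.Hecke (RayClassGroup)
open FA.RayFields (FrobeniusClasses)
open FA.ClassNumberOne (xP)
open scoped WeierstrassCurve.Affine Classical

local notation "Qb" => AlgebraicClosure ℚ
local notation "GQ" => AlgebraicClosure ℚ ≃ₐ[ℚ] AlgebraicClosure ℚ

namespace FA.CMRayClass

/-- The coordinate of the origin adds nothing. -/
theorem adjoin_abscissae (F : IntermediateField ℚ Qb) (E : WeierstrassCurve F) [E.IsElliptic]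
    [DecidableEq (AlgebraicClosure ℚ)] (s : Qb) (n : ℕ) :
    IntermediateField.adjoin ℚ ((F : Set Qb) ∪ {s} ∪
        {u | ∃ (w : Qb) (hu : (E.toAffine⁄Qb).Nonsingular u w),
          n • (Affine.Point.some u w hu : (E.toAffine⁄Qb).Point) = 0}) =
      IntermediateField.adjoin ℚ ((F : Set Qb) ∪ {s} ∪
        xP '' {P : (E.toAffine⁄Qb).Point | n • P = 0}) := by
  refine le_antisymm (IntermediateField.adjoin.mono ℚ _ _ (Set.union_subset_union_right _ ?_))
    (IntermediateField.adjoin_le_iff.mpr ?_)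
  · rintro u ⟨w, hu, hP⟩
    exact ⟨_, hP, rfl⟩
  · rintro z (hz | ⟨P, hP, rfl⟩)
    · exact IntermediateField.subset_adjoin ℚ _ (Or.inl hz)
    rcases P with _ | ⟨u, w, hu⟩
    · exact zero_mem _
    · exact IntermediateField.subset_adjoin ℚ _ (Or.inr ⟨w, hu, hP⟩)

/-- The automorphisms fixing `K(j, x(E[n]))`. -/
theorem fix_of_mem_fixingSubgroup (F : IntermediateField ℚ Qb) (E : WeierstrassCurve F)
    [E.IsElliptic] [DecidableEq (AlgebraicClosure ℚ)] (s : Qb) (n : ℕ) {σ : GQ}
    (hσ : σ ∈ (IntermediateField.adjoin ℚ ((F : Set Qb) ∪ {s} ∪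
      xP '' {P : (E.toAffine⁄Qb).Point | n • P = 0})).fixingSubgroup) :
    σ s = s ∧ (∀ z ∈ F, σ z = z) ∧
      ∀ P : (E.toAffine⁄Qb).Point, n • P = 0 → σ (xP P) = xP P := by
  rw [IntermediateField.mem_fixingSubgroup_iff] at hσ
  exact ⟨hσ s (IntermediateField.subset_adjoin ℚ _ (Or.inl (Or.inr (Set.mem_singleton s)))),
    fun z hz => hσ z (IntermediateField.subset_adjoin ℚ _ (Or.inl (Or.inl hz))),
    fun P hP => hσ _ (IntermediateField.subset_adjoin ℚ _ (Or.inr ⟨P, hP, rfl⟩))⟩

end FA.CMRayClass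

namespace FA.Summary

/-- **The main theorem of complex multiplication**: `K(j, x(E[n]))` is the ray class field of
modulus `n`. -/
theorem rayClassField_eq_adjoin_torsion [inst : DecidableEq (AlgebraicClosure ℚ)] {d : ℤ}
    (hd : Squarefree d) (hd0 : d < 0) (hd1 : d ≠ -1) (hd3 : d ≠ -3)
    (F : IntermediateField ℚ (AlgebraicClosure ℚ)) [FiniteDimensional ℚ F]
    (E : WeierstrassCurve F) [E.IsElliptic]
    (hF : F = IntermediateField.adjoin ℚ {(E.j : AlgebraicClosure ℚ)}) (ψ : F →+* ℂ)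
    {L : PeriodPair} (h2 : L.g₂ = ψ E.c₄ / 12) (h3 : L.g₃ = ψ E.c₆ / 216)
    (hring : ∀ w : ℂ, (∀ l ∈ L.lattice, w * l ∈ L.lattice) ↔
      ∃ u v : ℤ, w = (u : ℂ) + (v : ℂ) * ((((if d % 4 = 1 then d else 4 * d : ℤ)) : ℂ) +
        Complex.I * (Real.sqrt (-((if d % 4 = 1 then d else 4 * d : ℤ) : ℝ)) : ℂ)) / 2)
    {s : AlgebraicClosure ℚ} (hs : s ^ 2 = (d : AlgebraicClosure ℚ))
    [NumberField (IntermediateField.adjoin ℚ {s})] {n : ℕ} (hn : n ≠ 0)
    {M : IntermediateField ℚ (AlgebraicClosure ℚ)}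
    (hM : M = IntermediateField.adjoin ℚ ((F : Set (AlgebraicClosure ℚ)) ∪ {s} ∪
      {u | ∃ (w : AlgebraicClosure ℚ) (hu : (E.toAffine⁄(AlgebraicClosure ℚ)).Nonsingular u w),
        n • (Affine.Point.some u w hu : (E.toAffine⁄(AlgebraicClosure ℚ)).Point) = 0})) :
    finrank ℚ M = 2 * Nat.card (RayClassGroup
        (Ideal.span {(n : 𝓞 (IntermediateField.adjoin ℚ {s}))})) ∧
    (∀ σ τ : GQ, σ s = s → τ s = s → ∀ x ∈ M, (σ * τ * σ⁻¹ * τ⁻¹) x = x) ∧
    (∃ (R : Type) (_ : Field R) (_ : NumberField R)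
        (_ : Algebra (IntermediateField.adjoin ℚ {s}) R)
        (_ : IsGalois (IntermediateField.adjoin ℚ {s}) R)
        (ι : R →ₐ[IntermediateField.adjoin ℚ {s}] AlgebraicClosure ℚ)
        (ω : RayClassGroup (Ideal.span {(n : 𝓞 (IntermediateField.adjoin ℚ {s}))}) →*
          (R ≃ₐ[IntermediateField.adjoin ℚ {s}] R)),
      Function.Bijective ω ∧ FrobeniusClasses R (span_natCast_ne_bot hn) ω ∧
        Set.range ι = (M : Set (AlgebraicClosure ℚ))) ∧
    ∀ (R : Type) [Field R] [NumberField R] [Algebra (IntermediateField.adjoin ℚ {s}) R]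
      [IsGalois (IntermediateField.adjoin ℚ {s}) R],
      (∃ ω : RayClassGroup (Ideal.span {(n : 𝓞 (IntermediateField.adjoin ℚ {s}))}) →*
          (R ≃ₐ[IntermediateField.adjoin ℚ {s}] R),
        FrobeniusClasses R (span_natCast_ne_bot hn) ω) →
        ∀ (ι : R →ₐ[IntermediateField.adjoin ℚ {s}] AlgebraicClosure ℚ) (z : R), ι z ∈ M := by
  obtain rfl : inst = instDecEqAlgebraicClosureRat := Subsingleton.elim _ _
  rw [adjoin_abscissae] at hM
  have hring' : FA.CMFields.IsMultiplierRing L (FA.FieldClassBound.discK d) := fun w =>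
    (hring w).trans (by simp only [FA.CMFields.omega, FA.FieldClassBound.discK, mul_div_assoc])
  haveI : IsGalois ℚ Qb := FA.EC.isGalois_algebraicClosure
  have hK := FA.Jugendtraum.finrank_adjoin_sqrt hd0 hs
  have hcm := exists_multiplier_mem hd0 hring'
  have hmem : ∀ (R : Type) [Field R] [NumberField R] [Algebra (IntermediateField.adjoin ℚ {s}) R]
      [IsGalois (IntermediateField.adjoin ℚ {s}) R],
      (∃ ω : RayClassGroup (Ideal.span {(n : 𝓞 (IntermediateField.adjoin ℚ {s}))}) →*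
          (R ≃ₐ[IntermediateField.adjoin ℚ {s}] R),
        FrobeniusClasses R (span_natCast_ne_bot hn) ω) →
        ∀ (ι : R →ₐ[IntermediateField.adjoin ℚ {s}] Qb) (z : R), ι z ∈ M := by
    intro R _ _ _ _ ⟨ω, hω⟩ ι z
    rw [← InfiniteGalois.fixedField_fixingSubgroup M, IntermediateField.mem_fixedField_iff]
    intro σ hσ
    rw [hM] at hσ
    obtain ⟨hσs, hσF, hσn⟩ := fix_of_mem_fixingSubgroup F E s n hσ
    exact fixed_of_level F E ψ hd hd0 ⟨L, h2, h3, hcm⟩ hs (span_natCast_ne_bot hn) hn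
      (Ideal.mem_span_singleton_self _) ω (fun v hv Q τ hQ hτ => (hω v hv Q hQ).2 τ hτ) ι
      hσs hσF hσn z
  have hupper : finrank ℚ M ≤ 2 * Nat.card (RayClassGroup
      (Ideal.span {(n : 𝓞 (IntermediateField.adjoin ℚ {s}))})) := by
    rw [hM]
    refine (finrank_adjoin_torsion_le F E ψ hd hd0 h2 h3 hring' hs hn).trans ?_
    refine le_trans ?_ (Nat.mul_le_mul_left 2 (classNumber_mul_le hn fun u => ?_))
    · rw [← mul_assoc]
      refine Nat.mul_le_mul_right _ ((IntermediateField.finrank_sup_le _ _).trans ?_)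
      rw [hK, classNumber_adjoin hd hd0 hs, hF,
        (exists_curve_adjoin_j E ψ (FA.FieldClassBound.discK_neg hd0) h2 h3 hring').1, mul_comm]
    · rcases unit_eq_one_or (s := ⟨s, IntermediateField.mem_adjoin_simple_self ℚ s⟩) hK hd hd0
        hd1 hd3 (Subtype.ext (by simpa using hs)) u with h | h
      · exact Or.inl (by rw [h, sub_self]; exact dvd_zero _)
      · exact Or.inr (by rw [h, neg_add_cancel]; exact dvd_zero _)
  obtain ⟨R, _, _, _, _, hab, ω, hωb, hω, hrank, -⟩ :=
    ray_class_field (IntermediateField.adjoin ℚ {s}) (span_natCast_ne_bot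
      (K := IntermediateField.adjoin ℚ {s}) hn)
  haveI : Algebra.IsAlgebraic (IntermediateField.adjoin ℚ {s}) R :=
    Algebra.IsAlgebraic.of_finite _ _
  let ι : R →ₐ[IntermediateField.adjoin ℚ {s}] Qb := IsAlgClosed.lift
  let ιℚ : R →ₐ[ℚ] Qb := ι.toRingHom.toRatAlgHom
  haveI : FiniteDimensional ℚ M := by
    rw [hM]
    haveI : Finite (xP '' {P : (E.toAffine⁄Qb).Point | n • P = 0}) :=
      ((FA.IsogenyNF.finite_nsmul_eq_zero (W := E) hn).image _).to_subtype
    haveI : FiniteDimensional ℚ (IntermediateField.adjoin ℚ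
        ({s} ∪ xP '' {P : (E.toAffine⁄Qb).Point | n • P = 0})) :=
      IntermediateField.finiteDimensional_adjoin fun z _ => Algebra.IsIntegral.isIntegral z
    rw [Set.union_assoc, IntermediateField.adjoin_union, IntermediateField.adjoin_self]
    exact IntermediateField.finiteDimensional_sup _ _
  have hR : finrank ℚ ιℚ.fieldRange = 2 * Nat.card (RayClassGroup
      (Ideal.span {(n : 𝓞 (IntermediateField.adjoin ℚ {s}))})) := by
    show finrank ℚ ιℚ.range = _
    rw [← (AlgEquiv.ofInjectiveField ιℚ).toLinearEquiv.finrank_eq,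
      ← finrank_mul_finrank ℚ (IntermediateField.adjoin ℚ {s}) R, hK, hrank]
  have heq : ιℚ.fieldRange = M := IntermediateField.eq_of_le_of_finrank_le
    (by rintro _ ⟨z, rfl⟩; exact hmem R ⟨ω, hω⟩ ι z) (hupper.trans hR.ge)
  refine ⟨heq ▸ hR, fun σ τ hσ hτ x hx => ?_,
    ⟨R, inferInstance, inferInstance, inferInstance, inferInstance, ι, ω, hωb, hω, ?_⟩, hmem⟩
  · rw [← heq] at hx
    obtain ⟨z, rfl⟩ := hx
    exact commutator_fix hab ι hσ hτ z
  · rw [← heq]; rfl

/-- **Kronecker's Jugendtraum**: the maximal abelian extension of `K` is generated by `j` and the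
abscissae of the torsion points. -/
theorem kronecker_jugendtraum_exact [inst : DecidableEq (AlgebraicClosure ℚ)] {d : ℤ}
    (hd : Squarefree d) (hd0 : d < 0) (hd1 : d ≠ -1) (hd3 : d ≠ -3)
    (F : IntermediateField ℚ (AlgebraicClosure ℚ)) [FiniteDimensional ℚ F]
    (E : WeierstrassCurve F) [E.IsElliptic]
    (hF : F = IntermediateField.adjoin ℚ {(E.j : AlgebraicClosure ℚ)}) (ψ : F →+* ℂ)
    {L : PeriodPair} (h2 : L.g₂ = ψ E.c₄ / 12) (h3 : L.g₃ = ψ E.c₆ / 216)
    (hring : ∀ w : ℂ, (∀ l ∈ L.lattice, w * l ∈ L.lattice) ↔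
      ∃ u v : ℤ, w = (u : ℂ) + (v : ℂ) * ((((if d % 4 = 1 then d else 4 * d : ℤ)) : ℂ) +
        Complex.I * (Real.sqrt (-((if d % 4 = 1 then d else 4 * d : ℤ) : ℝ)) : ℂ)) / 2)
    {s : AlgebraicClosure ℚ} (hs : s ^ 2 = (d : AlgebraicClosure ℚ)) (x : AlgebraicClosure ℚ) :
    (∀ σ τ : GQ, σ s = s → τ s = s → (σ * τ * σ⁻¹ * τ⁻¹) x = x) ↔
      ∃ n : ℕ, 0 < n ∧ x ∈ IntermediateField.adjoin ℚ ((F : Set (AlgebraicClosure ℚ)) ∪ {s} ∪
        {u | ∃ (w : AlgebraicClosure ℚ) (hu : (E.toAffine⁄(AlgebraicClosure ℚ)).Nonsingular u w),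
          n • (Affine.Point.some u w hu : (E.toAffine⁄(AlgebraicClosure ℚ)).Point) = 0}) := by
  obtain rfl : inst = instDecEqAlgebraicClosureRat := Subsingleton.elim _ _
  haveI : IsGalois ℚ Qb := FA.EC.isGalois_algebraicClosure
  haveI : FiniteDimensional ℚ (IntermediateField.adjoin ℚ {s}) :=
    IntermediateField.adjoin.finiteDimensional (Algebra.IsIntegral.isIntegral s)
  haveI : NumberField (IntermediateField.adjoin ℚ {s}) := { }
  constructor
  · intro hx
    have hring' : FA.CMFields.IsMultiplierRing L (FA.FieldClassBound.discK d) := fun w =>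
      (hring w).trans (by simp only [FA.CMFields.omega, FA.FieldClassBound.discK, mul_div_assoc])
    obtain ⟨n, hn, hfix⟩ := exists_level_of_commutators F E ψ hd hd0
      ⟨L, h2, h3, exists_multiplier_mem hd0 hring'⟩ hs hx
    refine ⟨n, hn, ?_⟩
    rw [adjoin_abscissae, ← InfiniteGalois.fixedField_fixingSubgroup (IntermediateField.adjoin ℚ
      ((F : Set Qb) ∪ {s} ∪ xP '' {P : (E.toAffine⁄Qb).Point | n • P = 0})),
      IntermediateField.mem_fixedField_iff]
    intro σ hσ
    obtain ⟨hσs, hσF, hσn⟩ := fix_of_mem_fixingSubgroup F E s n hσ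
    exact hfix σ hσs hσF hσn
  · rintro ⟨n, hn, hx⟩ σ τ hσ hτ
    exact (rayClassField_eq_adjoin_torsion hd hd0 hd1 hd3 F E hF ψ h2 h3 hring hs hn.ne' rfl).2.1
      σ τ hσ hτ x hx

/-- **Every imaginary quadratic field has a curve over `ℚ(j)` with multiplication by its maximal
order.** -/
theorem cmCurve_over_adjoin_j {d : ℤ} (hd : Squarefree d) (hd0 : d < 0) :
    ∃ (F : IntermediateField ℚ (AlgebraicClosure ℚ)) (_ : FiniteDimensional ℚ F)
      (E : WeierstrassCurve F) (_ : E.IsElliptic) (ψ : F →+* ℂ) (L : PeriodPair),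
      F = IntermediateField.adjoin ℚ {(E.j : AlgebraicClosure ℚ)} ∧
      L.g₂ = ψ E.c₄ / 12 ∧ L.g₃ = ψ E.c₆ / 216 ∧
      ∀ w : ℂ, (∀ l ∈ L.lattice, w * l ∈ L.lattice) ↔
        ∃ u v : ℤ, w = (u : ℂ) + (v : ℂ) * ((((if d % 4 = 1 then d else 4 * d : ℤ)) : ℂ) +
          Complex.I * (Real.sqrt (-((if d % 4 = 1 then d else 4 * d : ℤ) : ℝ)) : ℂ)) / 2 := by
  obtain ⟨s, hs⟩ := IsAlgClosed.exists_pow_nat_eq ((d : ℤ) : AlgebraicClosure ℚ) two_pos
  obtain ⟨F₀, E₀, hE₀, -, ⟨ψ₀, L₀, h2, h3, hring⟩, -⟩ :=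
    kronecker_jugendtraum_all hd hd0 hs
  have hring' : FA.CMFields.IsMultiplierRing L₀ (FA.FieldClassBound.discK d) := fun w =>
    (hring w).trans (by simp only [FA.CMFields.omega, FA.FieldClassBound.discK, mul_div_assoc])
  obtain ⟨hdeg, E', hE', ψ', L', h2', h3', hring''⟩ :=
    exists_curve_adjoin_j E₀ ψ₀ (FA.FieldClassBound.discK_neg hd0) h2 h3 hring'
  haveI : FiniteDimensional ℚ (IntermediateField.adjoin ℚ {(E₀.j : Qb)}) :=
    IntermediateField.adjoin.finiteDimensional (Algebra.IsIntegral.isIntegral _)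
  obtain ⟨hdeg', -⟩ :=
    exists_curve_adjoin_j E' ψ' (FA.FieldClassBound.discK_neg hd0) h2' h3' hring''
  refine ⟨_, inferInstance, E', hE', ψ', L', (IntermediateField.eq_of_le_of_finrank_le
    (IntermediateField.adjoin_simple_le_iff.mpr E'.j.2) (hdeg.trans hdeg'.symm).le).symm,
    h2', h3', fun w => (hring'' w).trans
      (by simp only [FA.CMFields.omega, FA.FieldClassBound.discK, mul_div_assoc])⟩

end FA.Summary

end
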