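import Fermat.Agent.CMWeber.Main
import Fermat.Agent.Root.SummaryCMRayClassFields

/-!
# Ray class fields of `ℚ(i)` and `ℚ(ζ₃)`

Let `(d, k)` be `(-1, 2)` or `(-3, 3)`, `K = ℚ(√d)`, and `E` a curve over `F = ℚ(j(E))` with
multiplication by the maximal order of `K`.  Weber's function of `E` is `(x + b₂/12) ^ k`.

* `rayClassField_eq_adjoin_weber`: for every `n ≥ 1` the field generated over `K` by `j` and the
  values of Weber's function at the points killed by `n` is the ray class field modulo `n`.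
* `kronecker_jugendtraum_weber`: so the maximal abelian extension of `K` is the union of these
  fields.

With `SummaryCMRayClassFields`, which treats all other `d`, this covers every imaginary quadratic
field.
-/

set_option autoImplicit false
set_option linter.style.haveILetI false
set_option linter.unusedSectionVars false

noncomputable section

open WeierstrassCurve NumberField IsDedekindDomain Module FA.CMWeber
open FA.Hecke (RayClassGroup)
open FA.RayFields (FrobeniusClasses)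
open FA.CMRayClass (span_natCast_ne_bot)
open scoped WeierstrassCurve.Affine Classical

local notation "Qb" => AlgebraicClosure ℚ
local notation "GQ" => AlgebraicClosure ℚ ≃ₐ[ℚ] AlgebraicClosure ℚ

namespace FA.Summary

/-- **The main theorem of complex multiplication for `ℚ(i)` and `ℚ(ζ₃)`**: Weber's values at the
points killed by `n` generate the ray class field of modulus `n`. -/
theorem rayClassField_eq_adjoin_weber [inst : DecidableEq (AlgebraicClosure ℚ)] {d : ℤ} {k : ℕ}
    (hdk : d = -1 ∧ k = 2 ∨ d = -3 ∧ k = 3)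
    (F : IntermediateField ℚ (AlgebraicClosure ℚ)) [FiniteDimensional ℚ F]
    (E : WeierstrassCurve F) [E.IsElliptic]
    (hF : F = IntermediateField.adjoin ℚ {(E.j : AlgebraicClosure ℚ)}) (ψ : F →+* ℂ)
    {L : PeriodPair} (h2 : L.g₂ = ψ E.c₄ / 12) (h3 : L.g₃ = ψ E.c₆ / 216)
    (hring : ∀ w : ℂ, (∀ l ∈ L.lattice, w * l ∈ L.lattice) ↔
      ∃ u v : ℤ, w = (u : ℂ) + (v : ℂ) * ((((if d % 4 = 1 then d else 4 * d : ℤ)) : ℂ) +
        Complex.I * (Real.sqrt (-((if d % 4 = 1 then d else 4 * d : ℤ) : ℝ)) : ℂ)) / 2)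
    {s : AlgebraicClosure ℚ} (hs : s ^ 2 = (d : AlgebraicClosure ℚ))
    [NumberField (IntermediateField.adjoin ℚ {s})] {n : ℕ} (hn : n ≠ 0)
    {M : IntermediateField ℚ (AlgebraicClosure ℚ)}
    (hM : M = IntermediateField.adjoin ℚ ((F : Set (AlgebraicClosure ℚ)) ∪ {s} ∪
      {z | ∃ (u w : AlgebraicClosure ℚ) (hu : (E.toAffine⁄(AlgebraicClosure ℚ)).Nonsingular u w),
        n • (Affine.Point.some u w hu : (E.toAffine⁄(AlgebraicClosure ℚ)).Point) = 0 ∧
          z = (u + (E.b₂ : AlgebraicClosure ℚ) / 12) ^ k})) :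
    finrank ℚ M = 2 * Nat.card (RayClassGroup
        (Ideal.span {(n : 𝓞 (IntermediateField.adjoin ℚ {s}))})) ∧
    (∀ σ τ : GQ, σ s = s → τ s = s → ∀ x ∈ M, (σ * τ * σ⁻¹ * τ⁻¹) x = x) ∧
    (∃ (R : Type) (_ : Field R) (_ : NumberField R)
        (_ : Algebra (IntermediateField.adjoin ℚ {s}) R)
        (_ : IsGalois (IntermediateField.adjoin ℚ {s}) R)
        (ι : R →ₐ[IntermediateField.adjoin ℚ {s}] AlgebraicClosure ℚ)
        (ω : RayClassGroup (Ideal.span {(n : 𝓞 (IntermediateField.adjoin ℚ {s}))}) →*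
          (R ≃ₐ[IntermediateField.adjoin ℚ {s}] R)),
      Function.Bijective ω ∧ FrobeniusClasses R (span_natCast_ne_bot hn) ω ∧
        Set.range ι = (M : Set (AlgebraicClosure ℚ))) ∧
    ∀ (R : Type) [Field R] [NumberField R] [Algebra (IntermediateField.adjoin ℚ {s}) R]
      [IsGalois (IntermediateField.adjoin ℚ {s}) R],
      (∃ ω : RayClassGroup (Ideal.span {(n : 𝓞 (IntermediateField.adjoin ℚ {s}))}) →*
          (R ≃ₐ[IntermediateField.adjoin ℚ {s}] R),
        FrobeniusClasses R (span_natCast_ne_bot hn) ω) →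
        ∀ (ι : R →ₐ[IntermediateField.adjoin ℚ {s}] AlgebraicClosure ℚ) (z : R), ι z ∈ M := by
  obtain rfl : inst = instDecEqAlgebraicClosureRat := Subsingleton.elim _ _
  haveI := isElliptic_shortModel E
  rw [adjoin_weberValues hdk] at hM
  exact weber_ray_class_field hdk F E hF ψ h2 h3 (fun w => (hring w).trans
    (by simp only [FA.CMFields.omega, FA.FieldClassBound.discK, mul_div_assoc])) hs hn hM

/-- **Kronecker's Jugendtraum for `ℚ(i)` and `ℚ(ζ₃)`**: the maximal abelian extension is generated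
by the values of Weber's function at the torsion points. -/
theorem kronecker_jugendtraum_weber [inst : DecidableEq (AlgebraicClosure ℚ)] {d : ℤ} {k : ℕ}
    (hdk : d = -1 ∧ k = 2 ∨ d = -3 ∧ k = 3)
    (F : IntermediateField ℚ (AlgebraicClosure ℚ)) [FiniteDimensional ℚ F]
    (E : WeierstrassCurve F) [E.IsElliptic]
    (hF : F = IntermediateField.adjoin ℚ {(E.j : AlgebraicClosure ℚ)}) (ψ : F →+* ℂ)
    {L : PeriodPair} (h2 : L.g₂ = ψ E.c₄ / 12) (h3 : L.g₃ = ψ E.c₆ / 216)
    (hring : ∀ w : ℂ, (∀ l ∈ L.lattice, w * l ∈ L.lattice) ↔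
      ∃ u v : ℤ, w = (u : ℂ) + (v : ℂ) * ((((if d % 4 = 1 then d else 4 * d : ℤ)) : ℂ) +
        Complex.I * (Real.sqrt (-((if d % 4 = 1 then d else 4 * d : ℤ) : ℝ)) : ℂ)) / 2)
    {s : AlgebraicClosure ℚ} (hs : s ^ 2 = (d : AlgebraicClosure ℚ)) (x : AlgebraicClosure ℚ) :
    (∀ σ τ : GQ, σ s = s → τ s = s → (σ * τ * σ⁻¹ * τ⁻¹) x = x) ↔
      ∃ n : ℕ, 0 < n ∧ x ∈ IntermediateField.adjoin ℚ ((F : Set (AlgebraicClosure ℚ)) ∪ {s} ∪
        {z | ∃ (u w : AlgebraicClosure ℚ) (hu : (E.toAffine⁄(AlgebraicClosure ℚ)).Nonsingular u w),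
          n • (Affine.Point.some u w hu : (E.toAffine⁄(AlgebraicClosure ℚ)).Point) = 0 ∧
            z = (u + (E.b₂ : AlgebraicClosure ℚ) / 12) ^ k}) := by
  obtain rfl : inst = instDecEqAlgebraicClosureRat := Subsingleton.elim _ _
  haveI := isElliptic_shortModel E
  haveI : IsGalois ℚ Qb := FA.EC.isGalois_algebraicClosure
  haveI : FiniteDimensional ℚ (IntermediateField.adjoin ℚ {s}) :=
    IntermediateField.adjoin.finiteDimensional (Algebra.IsIntegral.isIntegral s)
  haveI : NumberField (IntermediateField.adjoin ℚ {s}) := { }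
  have hring' : FA.CMFields.IsMultiplierRing L (FA.FieldClassBound.discK d) := fun w =>
    (hring w).trans (by simp only [FA.CMFields.omega, FA.FieldClassBound.discK, mul_div_assoc])
  constructor
  · intro hx
    obtain ⟨R, _, _, _, _, 𝔪, h𝔪, ω, ι, z, rfl, hω⟩ :=
      FA.CMRayClass.exists_artin_of_commutators hs hx
    refine ⟨Ideal.absNorm 𝔪, Nat.pos_of_ne_zero (Ideal.absNorm_eq_zero_iff.not.mpr h𝔪), ?_⟩
    rw [adjoin_weberValues hdk, ← InfiniteGalois.fixedField_fixingSubgroup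
      (IntermediateField.adjoin ℚ ((F : Set Qb) ∪ {s} ∪
        weberValues (FA.IsogenyNF.shortModel E) k (Ideal.absNorm 𝔪))),
      IntermediateField.mem_fixedField_iff]
    intro σ hσ
    obtain ⟨hσs, hσF, hσn⟩ := FA.CMWeber.fix_of_mem_fixingSubgroup F _ s k _ hσ
    exact fixed_of_weber_level hdk F E ψ h2 h3 hring' hs h𝔪
      (Ideal.absNorm_eq_zero_iff.not.mpr h𝔪) (Ideal.absNorm_mem 𝔪) ω hω ι hσs hσF hσn z
  · rintro ⟨n, hn, hx⟩ σ τ hσ hτ
    exact (rayClassField_eq_adjoin_weber hdk F E hF ψ h2 h3 hring hs hn.ne' rfl).2.1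
      σ τ hσ hτ x hx

end FA.Summary

end
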