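import Fermat.Agent.FrobeniusGroups.Kernel
import Mathlib.GroupTheory.GroupAction.Quotient
import Mathlib.FieldTheory.Galois.Basic

/-!
# Frobenius' theorem on Frobenius groups

* `frobenius_kernel`: if a subgroup `H` of a finite group `G` meets its conjugates by outside
  elements trivially, the identity and the elements conjugate to no element of `H` form a normal
  subgroup complementary to `H`;
* `frobenius_transitive`: in a finite transitive group in which only `1` fixes two points the
  fixed-point-free elements and `1` form a normal subgroup, acting regularly;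
* `frobenius_galois`: if a finite Galois extension `L / F` is generated by `E` and `σ E` for every
  `σ` not fixing `E`, it has a Galois subextension `M / F` with `M E = L`, `M ∩ E = F`.
-/

set_option autoImplicit false
set_option linter.style.haveILetI false

noncomputable section

open FA.FrobeniusGroups

namespace FA.Summary

/-- **Frobenius' theorem.** -/
theorem frobenius_kernel (G : Type*) [Group G] [Finite G] (H : Subgroup G)
    (hH : ∀ g ∉ H, ∀ x ∈ H, g * x * g⁻¹ ∈ H → x = 1) :
    ∃ K : Subgroup G, K.Normal ∧ K.IsComplement' H ∧ Nat.card K = H.index ∧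
      ∀ x, x ∈ K ↔ x = 1 ∨ ∀ g, g * x * g⁻¹ ∉ H := by
  obtain ⟨K, hn, hK, hc⟩ := exists_kernel hH
  refine ⟨K, hn, hc, hc.index_eq_card.symm, fun x => ?_⟩
  rw [← SetLike.mem_coe, hK]
  rfl

/-- **Transitive groups in which only `1` fixes two points.** -/
theorem frobenius_transitive (G X : Type*) [Group G] [Finite G] [MulAction G X] [Nonempty X]
    [MulAction.IsPretransitive G X]
    (h : ∀ g : G, g ≠ 1 → ∀ x y : X, g • x = x → g • y = y → x = y) :
    ∃ K : Subgroup G, K.Normal ∧ (∀ g, g ∈ K ↔ g = 1 ∨ ∀ x : X, g • x ≠ x) ∧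
      ∀ x y : X, ∃! k : K, (k : G) • x = y := by
  obtain ⟨x₀⟩ := ‹Nonempty X›
  obtain ⟨K, hn, hc, hcard, hmem⟩ := frobenius_kernel G (MulAction.stabilizer G x₀)
    fun g hg x hx hgx => by
      by_contra h1
      rw [MulAction.mem_stabilizer_iff] at hg hx hgx
      refine hg ?_
      have h2 : x • g⁻¹ • x₀ = g⁻¹ • x₀ := by
        rwa [eq_inv_smul_iff, smul_smul, smul_smul]
      exact (inv_smul_eq_iff.1 (h x h1 _ _ h2 hx)).symm
  have hiff : ∀ g, g ∈ K ↔ g = 1 ∨ ∀ x : X, g • x ≠ x := fun g => by
    rw [hmem]
    refine or_congr_right ⟨fun hg x hgx => ?_, fun hg c hc' => ?_⟩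
    · obtain ⟨c, rfl⟩ := MulAction.exists_smul_eq G x₀ x
      refine hg c⁻¹ (MulAction.mem_stabilizer_iff.2 ?_)
      rw [inv_inv, mul_smul, mul_smul, hgx, inv_smul_smul]
    · refine hg (c⁻¹ • x₀) ?_
      rw [eq_inv_smul_iff, smul_smul, smul_smul]
      exact MulAction.mem_stabilizer_iff.1 hc'
  refine ⟨K, hn, hiff, fun x => ?_⟩
  haveI : Finite X :=
    Finite.of_surjective (fun g : G => g • x₀) (MulAction.exists_smul_eq G x₀)
  have hinj : Function.Injective fun k : K => (k : G) • x := fun a b hab => by
    have hab' : ((b : G)⁻¹ * a) • x = x := by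
      rw [mul_smul, inv_smul_eq_iff]
      exact hab
    exact Subtype.ext (inv_mul_eq_one.1 (((hiff _).1 (K.mul_mem (K.inv_mem b.2) a.2)).resolve_right
      fun hh => hh x hab')).symm
  have hbij := (Nat.bijective_iff_injective_and_card _).2
    ⟨hinj, hcard.trans (MulAction.index_stabilizer_of_transitive G x₀)⟩
  exact hbij.existsUnique

/-- **Galois form.** -/
theorem frobenius_galois (F L : Type*) [Field F] [Field L] [Algebra F L] [FiniteDimensional F L]
    [IsGalois F L] (E : IntermediateField F L)
    (hE : ∀ σ : L ≃ₐ[F] L, σ ∉ E.fixingSubgroup → E ⊔ E.map σ.toAlgHom = ⊤) :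
    ∃ M : IntermediateField F L, IsGalois F M ∧ M ⊔ E = ⊤ ∧ M ⊓ E = ⊥ ∧
      Module.finrank M L = Module.finrank F E := by
  obtain ⟨K, hn, hc, hcard, -⟩ := frobenius_kernel (L ≃ₐ[F] L) E.fixingSubgroup
    fun g hg x hx hgx => by
      have hg' : g⁻¹ ∉ E.fixingSubgroup := fun h => hg (inv_mem_iff.1 h)
      have hle : E ⊔ E.map (g⁻¹).toAlgHom ≤ IntermediateField.fixedField (Subgroup.zpowers x) := by
        rw [sup_le_iff, IntermediateField.le_iff_le, IntermediateField.le_iff_le,
          Subgroup.zpowers_le, Subgroup.zpowers_le]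
        refine ⟨hx, (IntermediateField.mem_fixingSubgroup_iff _ _).2 ?_⟩
        rintro _ ⟨e, he, rfl⟩
        have h1 := (IntermediateField.mem_fixingSubgroup_iff _ _).1 hgx e he
        have h2 : x (g⁻¹ e) = g⁻¹ e := g.injective (h1.trans (g.apply_symm_apply e).symm)
        exact h2
      rw [hE _ hg', top_le_iff] at hle
      have := congrArg IntermediateField.fixingSubgroup hle
      rw [IntermediateField.fixingSubgroup_fixedField, IntermediateField.fixingSubgroup_top,
        Subgroup.zpowers_eq_bot] at this
      exact this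
  haveI := hn
  set M := IntermediateField.fixedField K
  have hM : M.fixingSubgroup = K := IntermediateField.fixingSubgroup_fixedField K
  refine ⟨M, ?_, ?_, ?_, ?_⟩
  · haveI : M.fixingSubgroup.Normal := by rw [hM]; exact hn
    exact IsGalois.of_fixedField_normal_subgroup K
  · rw [← IsGalois.fixedField_fixingSubgroup (M ⊔ E), IntermediateField.fixingSubgroup_sup, hM,
      hc.disjoint.eq_bot, IntermediateField.fixedField_bot]
  · refine (IsGalois.intermediateFieldEquivSubgroup (F := F) (E := L)).injective ?_
    simp only [map_inf, map_bot]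
    refine OrderDual.ofDual.injective ?_
    exact (show M.fixingSubgroup ⊔ E.fixingSubgroup = ⊤ from hM ▸ hc.sup_eq_top)
  · rw [IntermediateField.finrank_eq_fixingSubgroup_index, ← hcard,
      IntermediateField.finrank_fixedField_eq_card]

end FA.Summary

end
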