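import Fermat.Agent.FrobeniusComplements.Structure
import Fermat.Agent.Root.SummaryFrobeniusGroups

/-!
# Burnside's theorems on Frobenius complements

For a finite group `H` acting on a nontrivial finite group `K` so that only `1` has a fixed point
other than `1` (as a Frobenius complement does on the kernel):

* `complement_pq_cyclic`, `complement_abelian_cyclic`: subgroups of order `p q` and abelian
  subgroups are cyclic;
* `complement_sylow`: the `p`-subgroups are cyclic for odd `p`, cyclic or generalised quaternion for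
  `p = 2`;
* `complement_involution`: there is at most one involution, it is central and inverts `K`, so `K`
  is abelian;
* `complement_odd_metacyclic`: for odd order the group is a Z-group with cyclic derived group and
  cyclic quotient by it, so it is solvable;
* `unique_subgroup_order_p`: a `p`-group with one subgroup of order `p` is cyclic or, for `p = 2`,
  generalised quaternion;
* `frobenius_group_odd_solvable`, `frobenius_galois_odd_solvable`: Frobenius groups of odd order
  are solvable, and so are the corresponding Galois extensions.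

The non-solvable complements (Zassenhaus) are not claimed.
-/

set_option autoImplicit false
set_option linter.style.haveILetI false

noncomputable section

namespace FA.FrobeniusComplements.Summary

open Subgroup

/-- **Groups with one subgroup of order `p`.** -/
theorem unique_subgroup_order_p {P : Type*} [Group P] [Finite P] {p : ℕ} (hp : p.Prime)
    (hP : IsPGroup p P) (h : ∀ A B : Subgroup P, Nat.card A = p → Nat.card B = p → A = B) :
    IsCyclic P ∨ p = 2 ∧ ∃ n : ℕ, Nonempty (P ≃* QuaternionGroup (2 ^ (n + 1))) := by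
  haveI : Fact p.Prime := ⟨hp⟩
  have hu : UniqueSubgroup p P := by
    intro a b ha hb
    rcases eq_or_ne b 1 with rfl | hb1
    · exact one_mem _
    rw [← h (zpowers b) (zpowers a) (by rw [Nat.card_zpowers, orderOf_eq_prime hb hb1])
      (by rw [Nat.card_zpowers, ha])]
    exact mem_zpowers b
  rcases eq_or_ne p 2 with rfl | hp2
  · exact (isCyclic_or_quaternion hP hu).imp id fun h => ⟨rfl, h⟩
  · exact Or.inl (isCyclic_of_unique_odd hp2 hP hu)

variable {H : Type*} [Group H] [Finite H] {K : Type*} [Group K] [Finite K] [Nontrivial K]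
  (φ : H →* MulAut K) (hφ : ∀ h : H, h ≠ 1 → ∀ k : K, φ h k = k → k = 1)

include hφ

/-- **Subgroups of order `p q` are cyclic.** -/
theorem complement_pq_cyclic {p q : ℕ} (hp : p.Prime) (hq : q.Prime) {E : Subgroup H}
    (hE : Nat.card E = p * q) : IsCyclic E :=
  isCyclic_of_card_mul (φ := φ) hφ hp hq hE

/-- **Abelian subgroups are cyclic.** -/
theorem complement_abelian_cyclic (A : Subgroup H) (hA : ∀ x ∈ A, ∀ y ∈ A, x * y = y * x) :
    IsCyclic A :=
  isCyclic_of_ab (φ := φ) hφ A hA

/-- **Sylow subgroups.** -/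
theorem complement_sylow {p : ℕ} [Fact p.Prime] {P : Subgroup H} (hP : IsPGroup p P) :
    IsCyclic P ∨ p = 2 ∧ ∃ n : ℕ, Nonempty (P ≃* QuaternionGroup (2 ^ (n + 1))) := by
  rcases eq_or_ne p 2 with rfl | hp2
  · exact (isCyclic_or_quaternion_of_isPGroup (φ := φ) hφ hP).imp id fun h => ⟨rfl, h⟩
  · exact Or.inl (isCyclic_of_isPGroup_odd (φ := φ) hφ hp2 hP)

/-- **Even order.** -/
theorem complement_involution (hH : Even (Nat.card H)) :
    ∃ t : H, t ≠ 1 ∧ t ^ 2 = 1 ∧ (∀ s : H, s ≠ 1 → s ^ 2 = 1 → s = t) ∧
      (∀ h : H, h * t = t * h) ∧ (∀ k : K, φ t k = k⁻¹) ∧ ∀ a b : K, a * b = b * a := by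
  haveI : Fact (Nat.Prime 2) := ⟨Nat.prime_two⟩
  obtain ⟨t, ht⟩ := exists_prime_orderOf_dvd_card' 2 (even_iff_two_dvd.1 hH)
  have ht1 : t ≠ 1 := fun h => by rw [h, orderOf_one] at ht; omega
  have ht2 : t ^ 2 = 1 := by rw [← ht, pow_orderOf_eq_one]
  obtain ⟨h1, h2⟩ := involution_unique (φ := φ) hφ ht1 ht2
  exact ⟨t, ht1, ht2, h1, h2, apply_eq_inv (φ := φ) hφ ht1 ht2,
    commute_of_involution (φ := φ) hφ ht1 ht2⟩

/-- **Odd order.** -/
theorem complement_odd_metacyclic (hH : Odd (Nat.card H)) :
    IsZGroup H ∧ Group.IsSolvable H ∧ IsCyclic (commutator H) ∧ IsCyclic (Abelianization H) := by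
  haveI := isZGroup_of_odd (φ := φ) hφ hH
  exact ⟨inferInstance, inferInstance, IsZGroup.isCyclic_commutator H, inferInstance⟩

omit hφ

omit [Finite K] [Nontrivial K] [Finite H] in
/-- **Frobenius groups of odd order are solvable.** -/
theorem frobenius_group_odd_solvable {G : Type*} [Group G] [Finite G] (hG : Odd (Nat.card G))
    (L : Subgroup G) (hL0 : L ≠ ⊥) (hLtop : L ≠ ⊤)
    (hL : ∀ g ∉ L, ∀ x ∈ L, g * x * g⁻¹ ∈ L → x = 1) : Group.IsSolvable G := by
  obtain ⟨N, hN, hc, -, -⟩ := FA.Summary.frobenius_kernel G L hL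
  haveI := hN
  haveI : Nontrivial N := (nontrivial_iff_ne_bot N).2 fun h0 => hLtop (by
    have := hc.sup_eq_top
    rwa [h0, bot_sup_eq] at this)
  haveI : Nontrivial L := (nontrivial_iff_ne_bot L).2 hL0
  have hφ := fpfAction_conj hL hc.disjoint
  haveI : Group.IsNilpotent N := isNilpotent_of_action hφ
  haveI : IsZGroup L := isZGroup_of_odd hφ (hG.of_dvd_nat L.card_subgroup_dvd_card)
  haveI : Group.IsSolvable (G ⧸ N) := by
    refine Group.isSolvable_of_surjective (f := (QuotientGroup.mk' N).comp L.subtype) fun q => ?_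
    obtain ⟨g, rfl⟩ := QuotientGroup.mk_surjective q
    obtain ⟨⟨n, l⟩, hnl⟩ := hc.2 g
    refine ⟨l, QuotientGroup.eq.2 ?_⟩
    rw [show g = (n : G) * l from hnl.symm]
    have := hN.conj_mem n n.2 ((l : G)⁻¹)
    simpa [mul_assoc] using this
  exact Group.isSolvable_of_ker_le_range N.subtype (QuotientGroup.mk' N)
    (by rw [QuotientGroup.ker_mk', range_subtype])

omit [Finite K] [Nontrivial K] [Finite H] in
/-- **Galois form.** -/
theorem frobenius_galois_odd_solvable (F L : Type*) [Field F] [Field L] [Algebra F L]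
    [FiniteDimensional F L] [IsGalois F L] (hodd : Odd (Module.finrank F L))
    (E : IntermediateField F L) (hE0 : E ≠ ⊤) (hEbot : E ≠ ⊥)
    (hE : ∀ σ : L ≃ₐ[F] L, σ ∉ E.fixingSubgroup → E ⊔ E.map σ.toAlgHom = ⊤) :
    Group.IsSolvable (L ≃ₐ[F] L) := by
  refine frobenius_group_odd_solvable (by rwa [IsGalois.card_aut_eq_finrank]) E.fixingSubgroup
    (fun h => hE0 (by
      rw [← IsGalois.fixedField_fixingSubgroup E, h, IntermediateField.fixedField_bot]))
    (fun h => hEbot (by
      rw [← IsGalois.fixedField_fixingSubgroup E, h, IsGalois.fixedField_top]))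
    fun g hg x hx hgx => ?_
  have hg' : g⁻¹ ∉ E.fixingSubgroup := fun h => hg (inv_mem_iff.1 h)
  have hle : E ⊔ E.map (g⁻¹).toAlgHom ≤ IntermediateField.fixedField (Subgroup.zpowers x) := by
    rw [sup_le_iff, IntermediateField.le_iff_le, IntermediateField.le_iff_le,
      Subgroup.zpowers_le, Subgroup.zpowers_le]
    refine ⟨hx, (IntermediateField.mem_fixingSubgroup_iff _ _).2 ?_⟩
    rintro _ ⟨e, he, rfl⟩
    have h1 := (IntermediateField.mem_fixingSubgroup_iff _ _).1 hgx e he
    exact g.injective (h1.trans (g.apply_symm_apply e).symm)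
  rw [hE _ hg', top_le_iff] at hle
  have := congrArg IntermediateField.fixingSubgroup hle
  rw [IntermediateField.fixingSubgroup_fixedField, IntermediateField.fixingSubgroup_top,
    Subgroup.zpowers_eq_bot] at this
  exact this

end FA.FrobeniusComplements.Summary

end
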