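import Fermat.Agent.MordellWeil.Summary
import Fermat.Agent.Faltings.Small

/-!
# The theorem of Mordell and Weil over every number field

For an elliptic curve over `ℚ` the points over every number field form a finitely generated group.
The stabiliser of a third of a point over `K` has bounded index and contains inertia outside a
finite set of primes, so there are finitely many of them; the naive height does the descent.
-/

set_option autoImplicit false
set_option linter.style.haveILetI false

noncomputable section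

open WeierstrassCurve Height NumberField FA.EC FA.MordellWeil
open scoped WeierstrassCurve.Affine

local notation "Qb" => AlgebraicClosure ℚ
local notation "GQ" => AlgebraicClosure ℚ ≃ₐ[ℚ] AlgebraicClosure ℚ

namespace FA.MordellWeilNF

/-- The approximate parallelogram law of the naive height. -/
theorem exists_parallelogram {K : Type*} [Field K] [NumberField K] [DecidableEq K]
    (E : WeierstrassCurve K) [E.IsElliptic] :
    ∃ C, ∀ P Q : E.toAffine.Point, |logHeight (P + Q).xRep + logHeight (P - Q).xRep -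
      2 * (logHeight P.xRep + logHeight Q.xRep)| ≤ C := by
  obtain ⟨C₁, h₁⟩ := abs_logHeight_addSubMap_sub_two_mul_logHeight_le E
  obtain ⟨C₂, h₂⟩ := abs_logHeight_sym2_sub_le (K := K)
  have hsym : ∀ P Q : E.toAffine.Point,
      |logHeight (FA.EC.symPair P.xRep Q.xRep) - (logHeight P.xRep + logHeight Q.xRep)| ≤ C₂ :=
      fun P Q => by
    have hP : ![P.xRep 0, P.xRep 1] = P.xRep := by ext i; fin_cases i <;> rfl
    have hQ : ![Q.xRep 0, Q.xRep 1] = Q.xRep := by ext i; fin_cases i <;> rfl
    have h := h₂ (a := P.xRep 0) (b := P.xRep 1) (c := Q.xRep 0) (d := Q.xRep 1)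
      (hP.symm ▸ Affine.Point.xRep_ne_zero P) (hQ.symm ▸ Affine.Point.xRep_ne_zero Q)
    rw [hP, hQ] at h
    exact h
  refine ⟨C₁ + 3 * C₂, fun P Q => ?_⟩
  obtain ⟨c, hc, hcm⟩ := FA.EC.asub_xRep P Q
  have h := h₁ (FA.EC.symPair P.xRep Q.xRep)
  rw [← FA.EC.asub_eq_eval, hcm, logHeight_smul_eq_logHeight _ hc] at h
  have hd := hsym (P + Q) (P - Q)
  have hs := hsym P Q
  rw [abs_le] at h hd hs ⊢
  constructor <;> linarith [h.1, h.2, hd.1, hd.2, hs.1, hs.2]

/-- The naive height over a number field has the Northcott property. -/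
theorem finite_le_height {K : Type*} [Field K] [NumberField K] [DecidableEq K]
    (E : WeierstrassCurve K) (b : ℝ) : {P : E.toAffine.Point | logHeight P.xRep ≤ b}.Finite := by
  have himg : ((fun P : E.toAffine.Point => P.xRep) '' {P | logHeight P.xRep ≤ b}).Finite := by
    refine ((Northcott.finite_le (h := logHeight₁ (K := K)) b).image fun x => ![x, 1]).insert
      ![1, 0] |>.subset ?_
    rintro _ ⟨P, hP, rfl⟩
    rcases P with _ | ⟨x, y, h⟩
    · exact Or.inl rfl
    · refine Or.inr ⟨x, ?_, rfl⟩
      show logHeight₁ x ≤ b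
      rw [logHeight₁_eq_logHeight]
      exact hP
  refine Set.Finite.of_finite_fibers _ himg fun v hv => ?_
  obtain ⟨P₀, -, rfl⟩ := hv
  refine ((Set.finite_singleton (-P₀)).insert P₀).subset fun P hP => ?_
  rcases Affine.Point.eq_or_eq_neg_of_xRep_eq_xRep hP.2 with e | e
  · exact Or.inl e
  · exact Or.inr e

/-- Descent by the naive height over a number field. -/
theorem fg_of_finiteIndex {K : Type*} [Field K] [NumberField K] [DecidableEq K]
    (E : WeierstrassCurve K) [E.IsElliptic]
    (h : (nsmulAddMonoidHom (α := E.toAffine.Point) 3).range.FiniteIndex) :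
    AddGroup.FG E.toAffine.Point := by
  let hgt : E.toAffine.Point → ℝ := fun P => logHeight P.xRep
  have h0 : ∀ P, 0 ≤ hgt P := fun P => logHeight_nonneg _
  obtain ⟨C, hC⟩ : ∃ C, ∀ P Q : E.toAffine.Point,
      |hgt (P + Q) + hgt (P - Q) - 2 * (hgt P + hgt Q)| ≤ C := exists_parallelogram E
  haveI : Northcott hgt := ⟨finite_le_height E⟩
  refine AddCommGroup.fg_of_descent (n := 3) (h := hgt) (a := 2) (b := 9)
    (c := fun g => 2 * hgt g + C)
    (c₀ := 3 * C + 2 * hgt (0 : E.toAffine.Point))
    (by norm_num) (by norm_num) h (fun g x => ?_) fun x => ?_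
  · have h1 := (abs_le.mp (hC (g + x) g)).2
    rw [show g + x - g = x by abel] at h1
    linarith [h0 (g + x + g)]
  · have h1 := (abs_le.mp (hC (2 • x) x)).1
    have h2 := (abs_le.mp (hC x x)).1
    rw [← succ_nsmul, show 2 • x - x = x by rw [two_nsmul, add_sub_cancel_right]] at h1
    rw [sub_self, ← two_nsmul] at h2
    linarith

variable (W : WeierstrassCurve ℚ)

theorem gal_add (σ : GQ) (P Q : (W⁄Qb).Point) : σ • (P + Q) = σ • P + σ • Q := smul_add σ P Q

theorem gal_sub (σ : GQ) (P Q : (W⁄Qb).Point) : σ • (P - Q) = σ • P - σ • Q :=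
  (DistribSMul.toAddMonoidHom (W⁄Qb).Point σ).map_sub P Q

theorem gal_zero (σ : GQ) : σ • (0 : (W⁄Qb).Point) = 0 :=
  (DistribSMul.toAddMonoidHom (W⁄Qb).Point σ).map_zero

theorem gal_nsmul (σ : GQ) (n : ℕ) (P : (W⁄Qb).Point) : σ • (n • P) = n • σ • P :=
  (DistribSMul.toAddMonoidHom (W⁄Qb).Point σ).map_nsmul n P


/-- The points fixed by a subgroup of the Galois group. -/
def fixedPts (H : Subgroup GQ) : AddSubgroup (W⁄Qb).Point where
  carrier := {P | ∀ σ ∈ H, σ • P = P}
  zero_mem' := fun σ _ => gal_zero W σ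
  add_mem' := fun hP hQ σ hσ => by rw [gal_add, hP σ hσ, hQ σ hσ]
  neg_mem' := fun hP σ hσ => by exact (smul_neg σ _).trans (congrArg _ (hP σ hσ))

theorem mem_fixedPts {H : Subgroup GQ} {P : (W⁄Qb).Point} :
    P ∈ fixedPts W H ↔ ∀ σ ∈ H, σ • P = P := Iff.rfl

theorem isOpen_stabilizer (Q : (W⁄Qb).Point) :
    IsOpen (MulAction.stabilizer GQ Q : Set GQ) := by
  rcases Q with _ | ⟨x, y, hn⟩
  · exact Subgroup.isOpen_mono (H₁ := ⊤)
      (fun σ _ => MulAction.mem_stabilizer_iff.mpr (gal_zero W σ)) isOpen_univ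
  haveI : FiniteDimensional ℚ (IntermediateField.adjoin ℚ ({x, y} : Set Qb)) :=
    IntermediateField.finiteDimensional_adjoin fun z _ =>
      ((AlgebraicClosure.isAlgebraic ℚ).isAlgebraic z).isIntegral
  refine Subgroup.isOpen_mono (fun σ hσ => ?_)
    (IntermediateField.fixingSubgroup_isOpen (IntermediateField.adjoin ℚ ({x, y} : Set Qb)))
  rw [MulAction.mem_stabilizer_iff, Affine.Point.algEquiv_smul_def, Affine.Point.map_some]
  simp only [Affine.Point.some.injEq]
  exact ⟨(IntermediateField.mem_fixingSubgroup_iff _ _).1 hσ x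
      (IntermediateField.subset_adjoin ℚ _ (by simp)),
    (IntermediateField.mem_fixingSubgroup_iff _ _).1 hσ y
      (IntermediateField.subset_adjoin ℚ _ (by simp))⟩

theorem three_nsmul_smul_sub {H : Subgroup GQ} {Q : (W⁄Qb).Point}
    (hQ : 3 • Q ∈ fixedPts W H) {σ : GQ} (hσ : σ ∈ H) : 3 • (σ • Q - Q) = 0 := by
  rw [nsmul_sub, ← gal_nsmul, (mem_fixedPts W).mp hQ σ hσ, sub_self]

variable [W.IsElliptic]

/-- The stabiliser of a third has index at most nine times that of the subgroup. -/
theorem index_stabilizer_le {H : Subgroup GQ} [H.FiniteIndex] {Q : (W⁄Qb).Point}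
    (hQ : 3 • Q ∈ fixedPts W H) :
    (MulAction.stabilizer GQ Q).index ≤
      H.index * Nat.card (Submodule.torsionBy ℤ (W⁄Qb).Point ((3 : ℕ) : ℤ)) := by
  haveI : Finite (Submodule.torsionBy ℤ (W⁄Qb).Point ((3 : ℕ) : ℤ)) :=
    FA.EC.finite_torsionBy _ (by norm_num)
  haveI : Finite (GQ ⧸ H) := Subgroup.finite_quotient_of_finiteIndex
  have hmem : ∀ c : GQ ⧸ MulAction.stabilizer GQ Q,
      ((c.out : GQ ⧸ H).out⁻¹ * c.out) • Q - Q ∈
        Submodule.torsionBy ℤ (W⁄Qb).Point ((3 : ℕ) : ℤ) := fun c => by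
    rw [Submodule.mem_torsionBy_iff, natCast_zsmul]
    exact three_nsmul_smul_sub W hQ (QuotientGroup.eq.mp (QuotientGroup.out_eq' _))
  rw [Subgroup.index, Subgroup.index, ← Nat.card_prod]
  refine Nat.card_le_card_of_injective
    (fun c => ((c.out : GQ ⧸ H), ⟨_, hmem c⟩)) fun c c' e => ?_
  obtain ⟨e1, e2⟩ := Prod.mk.injEq .. ▸ e
  have e3 := congrArg Subtype.val e2
  simp only [e1, sub_left_inj, mul_smul, smul_left_cancel_iff] at e3
  rw [← QuotientGroup.out_eq' c, ← QuotientGroup.out_eq' c', QuotientGroup.eq,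
    MulAction.mem_stabilizer_iff, mul_smul, ← e3, inv_smul_smul]

/-- **Weak Mordell–Weil at three over a number field**, for the points in `ℚ̄`. -/
theorem finite_quotient_three (K : IntermediateField ℚ Qb) [FiniteDimensional ℚ K] :
    Finite (fixedPts W K.fixingSubgroup ⧸
      (nsmulAddMonoidHom (α := fixedPts W K.fixingSubgroup) 3).range) := by
  classical
  haveI : NumberField K := { }
  set H := K.fixingSubgroup
  have hH : IsOpen (H : Set GQ) := IntermediateField.fixingSubgroup_isOpen K
  haveI := FA.Faltings.finiteIndex_of_open hH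
  set S : Finset ℕ := (badNat W).primeFactors ∪ (discr K).natAbs.primeFactors
  set T := Submodule.torsionBy ℤ (W⁄Qb).Point ((3 : ℕ) : ℤ)
  haveI : Finite T := FA.EC.finite_torsionBy _ (by norm_num)
  have hfin := FA.Faltings.finite_openSubgroups S (H.index * Nat.card T)
  set U : Subgroup GQ := H ⊓ ⨅ G ∈ hfin.toFinset, G
  have hU : IsOpen (U : Set GQ) := by
    rw [Subgroup.coe_inf, Subgroup.coe_iInf]
    refine hH.inter ?_
    simp only [Subgroup.coe_iInf]
    exact isOpen_biInter_finset fun G hG => (hfin.mem_toFinset.mp hG).1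
  haveI := FA.Faltings.finiteIndex_of_open hU
  haveI : Finite (GQ ⧸ U) := Subgroup.finite_quotient_of_finiteIndex
  choose third hthird using fun P : fixedPts W H => exists_third W P.1
  have hfix : ∀ P, 3 • third P ∈ fixedPts W H := fun P => (hthird P).symm ▸ P.2
  have hstab : ∀ P, U ≤ MulAction.stabilizer GQ (third P) := fun P => by
    refine inf_le_right.trans (iInf₂_le_of_le _ (hfin.mem_toFinset.mpr
      ⟨isOpen_stabilizer W _, index_stabilizer_le W (hfix P), fun q hq hqS A hA σ hσ => ?_⟩) le_rfl)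
    haveI : Fact q.Prime := ⟨hq⟩
    simp only [S, Finset.mem_union, Nat.mem_primeFactors, not_or, not_and] at hqS
    have hσH : σ ∈ H := FA.Faltings.inertia_le_of_unramified K hq (fun P' _ hP' => by
      refine (NumberField.not_dvd_discr_iff_forall_mem K (𝓞 K)
        (Nat.prime_iff_prime_int.mp hq)).mp ?_ P' inferInstance (by exact_mod_cast hP')
      exact fun h => hqS.2 hq (Int.natCast_dvd.mp h)
        (Int.natAbs_ne_zero.mpr (NumberField.discr_ne_zero K))) hA hσ
    obtain ⟨τ, hτ⟩ := FA.TW.exists_smul_eq_of_liesOver hq (A := A) (B := padicPlace q) hA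
      (GalCoh.liesOverPrime_padicPlace q)
    have h := inertia_fix W (fun h => hqS.1 hq h (badNat_ne_zero W))
      (hτ ▸ FA.TW.conj_mem_inertia hq hA hσ τ) (P := τ • third P) (by
        rw [mul_smul, mul_smul, inv_smul_smul, ← gal_sub, ← gal_nsmul,
          three_nsmul_smul_sub W (hfix P) hσH, gal_zero])
    rw [mul_smul, mul_smul, inv_smul_smul, sub_eq_zero, smul_left_cancel_iff] at h
    exact h
  have hT : ∀ (P : fixedPts W H) (c : GQ ⧸ U),
      (if c.out ∈ H then c.out • third P - third P else 0) ∈ T := fun P c => by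
    split
    · rw [Submodule.mem_torsionBy_iff, natCast_zsmul]
      exact three_nsmul_smul_sub W (hfix P) (by assumption)
    · exact T.zero_mem
  refine Finite.of_injective (β := GQ ⧸ U → T) (fun a c => ⟨_, hT a.out c⟩) fun a b e => ?_
  rw [← QuotientAddGroup.out_eq' a, ← QuotientAddGroup.out_eq' b, QuotientAddGroup.eq]
  have hR : third b.out - third a.out ∈ fixedPts W H := fun σ hσ => by
    obtain ⟨u, hu⟩ := QuotientGroup.mk_out_eq_mul U σ
    have hc : (σ : GQ ⧸ U).out ∈ H := hu ▸ H.mul_mem hσ (inf_le_left (a := H) u.2)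
    have e' := congrArg Subtype.val (congrFun e (σ : GQ ⧸ U))
    dsimp only at e'
    rw [if_pos hc, if_pos hc] at e'
    simp only [hu, mul_smul, MulAction.mem_stabilizer_iff.mp (hstab _ u.2)] at e'
    rw [gal_sub, eq_comm, ← sub_eq_zero]
    rw [← sub_eq_zero] at e'
    linear_combination (norm := abel) e'
  refine ⟨⟨_, hR⟩, Subtype.ext ?_⟩
  show 3 • (third b.out - third a.out) = -a.out.1 + b.out.1
  rw [nsmul_sub, hthird, hthird, sub_eq_neg_add]

omit [W.IsElliptic] in
/-- The points over `K` are the points fixed by the automorphisms fixing `K`. -/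
theorem exists_pointEquiv (K : IntermediateField ℚ Qb) :
    ∃ e : (W⁄K).Point ≃+ fixedPts W K.fixingSubgroup,
      ∀ P, (e P).1 = Affine.Point.map (W' := W.toAffine) K.val P := by
  set ι : (W⁄K).Point →+ (W⁄Qb).Point := Affine.Point.map (W' := W.toAffine) K.val
  have hmem : ∀ P, ι P ∈ fixedPts W K.fixingSubgroup := fun P σ hσ => by
    rcases P with _ | ⟨x, y, h⟩
    · exact gal_zero W σ
    show σ • Affine.Point.map (W' := W.toAffine) K.val (Affine.Point.some x y h) = _
    rw [Affine.Point.algEquiv_smul_def, Affine.Point.map_some, Affine.Point.map_some]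
    simp only [Affine.Point.some.injEq]
    exact ⟨(IntermediateField.mem_fixingSubgroup_iff _ _).1 hσ x x.2,
      (IntermediateField.mem_fixingSubgroup_iff _ _).1 hσ y y.2⟩
  have hsurj : ∀ P ∈ fixedPts W K.fixingSubgroup, ∃ Q, ι Q = P := fun P hP => by
    rcases P with _ | ⟨x, y, h⟩
    · exact ⟨0, map_zero _⟩
    have hin : ∀ z : Qb, (∀ σ ∈ K.fixingSubgroup, σ z = z) → z ∈ K := fun z hz => by
      rw [← InfiniteGalois.fixedField_fixingSubgroup K]
      exact (IntermediateField.mem_fixedField_iff _ _).mpr hz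
    have hx : x ∈ K := hin x fun σ hσ => by
      have e := hP σ hσ
      rw [Affine.Point.algEquiv_smul_def, Affine.Point.map_some, Affine.Point.some.injEq] at e
      exact e.1
    have hy : y ∈ K := hin y fun σ hσ => by
      have e := hP σ hσ
      rw [Affine.Point.algEquiv_smul_def, Affine.Point.map_some, Affine.Point.some.injEq] at e
      exact e.2
    exact ⟨.some (⟨x, hx⟩ : K) ⟨y, hy⟩ ((W.toAffine.baseChange_nonsingular (f := K.val)
      K.val.injective _ _).mp h), rfl⟩
  exact ⟨AddEquiv.ofBijective (ι.codRestrict _ hmem)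
    ⟨fun P Q e => Affine.Point.map_injective (W' := W.toAffine) K.val (congrArg Subtype.val e),
      fun P => (hsurj P.1 P.2).imp fun Q hQ => Subtype.ext hQ⟩, fun _ => rfl⟩

/-- **Mordell–Weil** for the points fixed by an open subgroup of a fixing subgroup. -/
theorem fg_fixedPts (K : IntermediateField ℚ Qb) [FiniteDimensional ℚ K] :
    AddGroup.FG (fixedPts W K.fixingSubgroup) := by
  classical
  haveI : NumberField K := { }
  obtain ⟨e, -⟩ := exists_pointEquiv W K
  have h3 : (nsmulAddMonoidHom (α := (W⁄K).Point) 3).range.FiniteIndex := by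
    haveI := finite_quotient_three W K
    haveI : Finite ((W⁄K).Point ⧸ (nsmulAddMonoidHom (α := (W⁄K).Point) 3).range) :=
      Finite.of_equiv _ (QuotientAddGroup.congr
        (nsmulAddMonoidHom (α := fixedPts W K.fixingSubgroup) 3).range
        (nsmulAddMonoidHom (α := (W⁄K).Point) 3).range e.symm (by
          ext z
          simp only [AddSubgroup.mem_map, AddMonoidHom.mem_range]
          constructor
          · rintro ⟨_, ⟨t, rfl⟩, rfl⟩
            exact ⟨e.symm t, (map_nsmul e.symm 3 t).symm⟩
          · rintro ⟨t, rfl⟩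
            exact ⟨_, ⟨e t, rfl⟩, (map_nsmul e.symm 3 (e t)).trans
              (congrArg _ (e.symm_apply_apply t))⟩)).toEquiv
    exact AddSubgroup.finiteIndex_of_finite_quotient
  haveI : (W⁄K).IsElliptic := inferInstanceAs (W.map _).IsElliptic
  haveI : AddGroup.FG (W⁄K).Point := fg_of_finiteIndex (W⁄K) h3
  exact AddGroup.fg_of_surjective (f := e.toAddMonoidHom) e.surjective

end FA.MordellWeilNF

namespace FA.Summary

/-- **The theorem of Mordell and Weil**: for every elliptic curve over `ℚ` and every number field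
`K` the group of points over `K` is finitely generated. -/
theorem mordellWeil_numberField (E : WeierstrassCurve ℚ) [E.IsElliptic] (K : Type*) [Field K]
    [Algebra ℚ K] [FiniteDimensional ℚ K] [DecidableEq K] :
    AddGroup.FG (E.toAffine⁄K).Point := by
  let f : K →ₐ[ℚ] Qb := IsAlgClosed.lift
  haveI : FiniteDimensional ℚ f.fieldRange := f.toLinearMap.finiteDimensional_range
  haveI := FA.MordellWeilNF.fg_fixedPts E f.fieldRange
  haveI : Module.Finite ℤ (FA.MordellWeilNF.fixedPts E f.fieldRange.fixingSubgroup) :=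
    Module.Finite.iff_addGroup_fg.mpr inferInstance
  have hmem : ∀ P : (E.toAffine⁄K).Point, Affine.Point.map (W' := E.toAffine) f P ∈
      FA.MordellWeilNF.fixedPts E f.fieldRange.fixingSubgroup := fun P σ hσ => by
    rcases P with _ | ⟨x, y, h⟩
    · exact FA.MordellWeilNF.gal_zero E σ
    rw [Affine.Point.map_some, Affine.Point.algEquiv_smul_def, Affine.Point.map_some]
    simp only [Affine.Point.some.injEq]
    exact ⟨(IntermediateField.mem_fixingSubgroup_iff _ _).1 hσ _ ⟨x, rfl⟩,
      (IntermediateField.mem_fixingSubgroup_iff _ _).1 hσ _ ⟨y, rfl⟩⟩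
  have : Module.Finite ℤ (E.toAffine⁄K).Point := Module.Finite.of_injective
    (((Affine.Point.map (W' := E.toAffine) f).codRestrict _ hmem).toIntLinearMap)
    fun P Q e => Affine.Point.map_injective (W' := E.toAffine) f (congrArg Subtype.val e)
  exact Module.Finite.iff_addGroup_fg.mp this

end FA.Summary

end
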