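import Fermat.Agent.Weight1.CycLevel
import Fermat.Agent.OpenImageJ.KWOdd

/-!
# Every finite abelian group is a Galois group over `ℚ`

With any finitely many primes prescribed unramified: the group is a quotient of `(ℤ/m)ˣ` for `m`
a product of primes `≡ 1` modulo its exponent (Dirichlet), and the cyclotomic character is
surjective. A nontrivial group occurs for infinitely many fields, by Minkowski.
-/

set_option autoImplicit false

noncomputable section

local notation "Qb" => AlgebraicClosure ℚ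
local notation "GQ" => AlgebraicClosure ℚ ≃ₐ[ℚ] AlgebraicClosure ℚ

namespace FA.AbelianInverseGalois

theorem cycM_surjective (M : ℕ) [NeZero M] : Function.Surjective (FA.Weight1.cycM M) := fun u => by
  obtain ⟨ζ, hζ⟩ := HasEnoughRootsOfUnity.exists_primitiveRoot Qb M
  obtain ⟨σ, hσ⟩ :=
    FA.OpenImageJ.exists_apply_eq_pow (NeZero.pos M) hζ (ZMod.val_coe_unit_coprime u)
  refine ⟨σ, Units.ext (FA.Weight1.cycM_val M σ _ fun t ht => ?_)⟩
  obtain ⟨i, -, rfl⟩ := hζ.eq_pow_of_pow_eq_one ht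
  rw [map_pow, hσ, ← pow_mul, ← pow_mul, mul_comm]

/-- The units of a prime field map onto every cyclic group of order dividing `l - 1`. -/
theorem exists_units_surjective {l n : ℕ} (hl : l.Prime) (hn : n ∣ l - 1) :
    ∃ f : (ZMod l)ˣ →* Multiplicative (ZMod n), Function.Surjective f := by
  have : Fact l.Prime := ⟨hl⟩
  have hc : Nat.card (ZMod l)ˣ = l - 1 := by
    rw [Nat.card_eq_fintype_card, ZMod.card_units]
  let e : (ZMod l)ˣ ≃* Multiplicative (ZMod (l - 1)) :=
    hc ▸ (zmodCyclicMulEquiv (inferInstance : IsCyclic (ZMod l)ˣ)).symm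
  exact ⟨((ZMod.castHom hn (ZMod n)).toAddMonoidHom.toMultiplicative).comp e.toMonoidHom,
    (ZMod.castHom_surjective hn).comp e.surjective⟩

/-- A finite abelian group is a quotient of the units modulo some `m` prime to `M`. -/
theorem exists_units_quotient (G : Type*) [CommGroup G] [Finite G] {M : ℕ} (hM : M ≠ 0) :
    ∃ m : ℕ, 1 < m ∧ m.Coprime M ∧ ∃ f : (ZMod m)ˣ →* G, Function.Surjective f := by
  classical
  obtain ⟨ι, hι, n, hn, ⟨e⟩⟩ := CommGroup.equiv_prod_multiplicative_zmod_of_finite G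
  set N := ∏ i, n i with hN
  have : NeZero N := ⟨Finset.prod_ne_zero_iff.2 fun i _ => (zero_lt_one.trans (hn i)).ne'⟩
  have hinf : {q : ℕ | q.Prime ∧ (q : ZMod N) = 1 ∧ M < q}.Infinite :=
    Set.infinite_of_forall_exists_gt fun b => by
      obtain ⟨q, hq, hqp, hqe⟩ := Nat.forall_exists_prime_gt_and_eq_mod (q := N) isUnit_one (max b M)
      exact ⟨q, ⟨hqp, hqe, (le_max_right _ _).trans_lt hq⟩, (le_max_left _ _).trans_lt hq⟩
  let l : Option ι ↪ ℕ :=
    ((Fintype.equivFin (Option ι)).toEmbedding.trans Fin.valEmbedding).trans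
      ((hinf.natEmbedding _).trans (Function.Embedding.subtype _))
  have hl : ∀ i, (l i).Prime ∧ (l i : ZMod N) = 1 ∧ M < l i := fun i =>
    ((hinf.natEmbedding _) _).2
  have hco : Pairwise (Function.onFun Nat.Coprime l) := fun i j hij =>
    (Nat.coprime_primes (hl i).1 (hl j).1).2 fun h => hij (l.injective h)
  have hdvd : ∀ i : ι, n i ∣ l (some i) - 1 := fun i =>
    (Finset.dvd_prod_of_mem n (Finset.mem_univ i)).trans
      ((ZMod.natCast_eq_zero_iff _ N).1 (by
        rw [Nat.cast_sub (hl _).1.one_le, (hl _).2.1, Nat.cast_one, sub_self]))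
  choose g hg using fun i => exists_units_surjective (hl (some i)).1 (hdvd i)
  let c : (ZMod (∏ i, l i))ˣ ≃* ∀ i, (ZMod (l i))ˣ :=
    (Units.mapEquiv (ZMod.prodEquivPi (fun i => l i) hco).toMulEquiv).trans MulEquiv.piUnits
  let h : (∀ i, (ZMod (l i))ˣ) →* ∀ i, Multiplicative (ZMod (n i)) :=
    MonoidHom.pi fun i => (g i).comp (Pi.evalMonoidHom (fun j => (ZMod (l j))ˣ) (some i))
  refine ⟨∏ i, l i, ?_, Nat.Coprime.prod_left fun i _ => (hl i).1.coprime_iff_not_dvd.2 fun h =>
    absurd (Nat.le_of_dvd (Nat.pos_of_ne_zero hM) h) (not_le.2 (hl i).2.2),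
    (e.symm.toMonoidHom.comp h).comp c.toMonoidHom, ?_⟩
  · exact (hl none).1.one_lt.trans_le (Nat.le_of_dvd (Finset.prod_pos fun i _ => (hl i).1.pos)
      (Finset.dvd_prod_of_mem _ (Finset.mem_univ none)))
  · refine (e.symm.surjective.comp fun x => ?_).comp c.surjective
    choose y hy using fun i => hg i (x i)
    exact ⟨fun | none => 1 | some i => y i, funext hy⟩

/-- A surjection from the Galois group with open kernel gives the field. -/
theorem exists_field_of_surjective {G : Type*} [Group G] (ρ : GQ →* G) (hρ : Function.Surjective ρ)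
    (hopen : IsOpen (ρ.ker : Set GQ)) :
    ∃ K : IntermediateField ℚ Qb, FiniteDimensional ℚ K ∧ IsGalois ℚ K ∧
      Nonempty ((K ≃ₐ[ℚ] K) ≃* G) ∧ ∀ σ : GQ, (∀ x ∈ K, σ x = x) ↔ ρ σ = 1 := by
  have : IsGalois ℚ Qb := FA.Local.isGalois_qbar
  let H : ClosedSubgroup GQ := ⟨ρ.ker, Subgroup.isClosed_of_isOpen _ hopen⟩
  have : H.Normal := ρ.normal_ker
  obtain ⟨hfin, hgal⟩ :=
    (InfiniteGalois.isOpen_and_normal_iff_finite_and_isGalois (IntermediateField.fixedField H.1)).mp
      (by rw [InfiniteGalois.fixingSubgroup_fixedField H]; exact ⟨hopen, ρ.normal_ker⟩)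
  refine ⟨IntermediateField.fixedField H.1, hfin, hgal,
    ⟨(InfiniteGalois.normalAutEquivQuotient H).symm.trans
      (QuotientGroup.quotientKerEquivOfSurjective ρ hρ)⟩, fun σ => ?_⟩
  rw [← IntermediateField.mem_fixingSubgroup_iff, InfiniteGalois.fixingSubgroup_fixedField H]
  exact MonoidHom.mem_ker

end FA.AbelianInverseGalois

namespace FA.Summary

open FA.AbelianInverseGalois

/-- **The abelian inverse Galois problem**: every finite abelian group is the Galois group of an
extension of `ℚ`, unramified at any finitely many prescribed primes. -/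
theorem exists_galois_abelian (G : Type*) [CommGroup G] [Finite G] (S : Finset ℕ) :
    ∃ K : IntermediateField ℚ (AlgebraicClosure ℚ), FiniteDimensional ℚ K ∧ IsGalois ℚ K ∧
      Nonempty ((K ≃ₐ[ℚ] K) ≃* G) ∧
      ∀ l ∈ S, l.Prime → ∀ A : ValuationSubring (AlgebraicClosure ℚ),
        (l : AlgebraicClosure ℚ) ∈ A.nonunits → ∀ σ ∈ A.inertiaSubgroup ℚ, ∀ x ∈ K,
          (σ : AlgebraicClosure ℚ ≃ₐ[ℚ] AlgebraicClosure ℚ) x = x := by
  obtain ⟨m, hm, hmM, f, hf⟩ := exists_units_quotient G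
    (M := ∏ l ∈ S.filter Nat.Prime, l) (Finset.prod_ne_zero_iff.2 fun l hl =>
      (Finset.mem_filter.1 hl).2.ne_zero)
  have : NeZero m := ⟨by omega⟩
  have : Fact (1 < m) := ⟨hm⟩
  obtain ⟨L, hL, hfix⟩ := FA.Weight1.exists_field_cycM (M := m)
  obtain ⟨K, hK, hgal, he, hiff⟩ := exists_field_of_surjective (f.comp (FA.Weight1.cycM m))
    (hf.comp (cycM_surjective m)) (Subgroup.isOpen_mono (H₁ := L.fixingSubgroup)
      (fun σ hσ => by
        show f (FA.Weight1.cycM m σ) = 1
        rw [hfix σ ((IntermediateField.mem_fixingSubgroup_iff _ _).1 hσ), map_one])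
      (IntermediateField.fixingSubgroup_isOpen L))
  refine ⟨K, hK, hgal, he, fun l hlS hl A hA σ hσ x hx => (hiff (σ : GQ)).2 ?_ x hx⟩
  have hlm : ¬ l ∣ m := fun h => hl.not_dvd_one (hmM ▸ Nat.dvd_gcd h
    (Finset.dvd_prod_of_mem _ (Finset.mem_filter.2 ⟨hlS, hl⟩)))
  show f (FA.Weight1.cycM m (σ : GQ)) = 1
  rw [FA.Weight1.cycM_inertia m hl hlm hA (σ := (σ : GQ)) (Subgroup.mem_map.mpr ⟨σ, hσ, rfl⟩),
    map_one]

/-- **A nontrivial finite abelian group is the Galois group of infinitely many extensions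
of `ℚ`.** -/
theorem infinite_galois_abelian (G : Type*) [CommGroup G] [Finite G] [Nontrivial G] :
    {K : IntermediateField ℚ (AlgebraicClosure ℚ) | FiniteDimensional ℚ K ∧ IsGalois ℚ K ∧
      Nonempty ((K ≃ₐ[ℚ] K) ≃* G)}.Infinite := by
  intro hfin
  -- each such field has a ramified prime
  have hram : ∀ K ∈ {K : IntermediateField ℚ Qb | FiniteDimensional ℚ K ∧ IsGalois ℚ K ∧
      Nonempty ((K ≃ₐ[ℚ] K) ≃* G)}, ∃ q : ℕ, q.Prime ∧ ∀ A : ValuationSubring Qb,
        A.LiesOverPrime q → ∃ σ ∈ A.inertiaSubgroup ℚ, ∃ x ∈ K, (σ : GQ) x ≠ x := by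
    rintro K ⟨hK, hgal, ⟨e⟩⟩
    by_contra hcon
    push Not at hcon
    have : IsGalois ℚ Qb := FA.Local.isGalois_qbar
    have : K.fixingSubgroup.Normal := (InfiniteGalois.normal_iff_isGalois K).mpr hgal
    have htop := FA.Local.eq_top_of_inertia_le K.fixingSubgroup K
      (fun σ hσ => (IntermediateField.mem_fixingSubgroup_iff _ _).2 hσ) fun q hq => by
        obtain ⟨A, hA, hfix⟩ := hcon q hq
        refine ⟨A, hA, ?_⟩
        rintro _ ⟨σ, hσ, rfl⟩
        exact (IntermediateField.mem_fixingSubgroup_iff _ _).2 (hfix σ hσ)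
    have hbot : K = ⊥ := by
      rw [← InfiniteGalois.fixedField_fixingSubgroup K, htop,
        ← IntermediateField.fixingSubgroup_bot, InfiniteGalois.fixedField_fixingSubgroup]
    have h1 : Nat.card (K ≃ₐ[ℚ] K) = 1 := by
      rw [IsGalois.card_aut_eq_finrank, hbot, IntermediateField.finrank_bot]
    rw [Nat.card_congr e.toEquiv] at h1
    exact absurd (Finite.one_lt_card (α := G)) (by omega)
  choose q hq hmove using hram
  let S : Finset ℕ := hfin.toFinset.attach.image fun K => q K.1 (hfin.mem_toFinset.1 K.2)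
  obtain ⟨K, hK, hgal, he, hunr⟩ := exists_galois_abelian G S
  have hmem : K ∈ {K : IntermediateField ℚ Qb | FiniteDimensional ℚ K ∧ IsGalois ℚ K ∧
      Nonempty ((K ≃ₐ[ℚ] K) ≃* G)} := ⟨hK, hgal, he⟩
  obtain ⟨A, hA⟩ := FA.Deform.exists_liesOverPrime (hq K hmem)
  obtain ⟨σ, hσ, x, hx, hne⟩ := hmove K hmem A hA
  exact hne (hunr _ (Finset.mem_image.2 ⟨⟨K, hfin.mem_toFinset.2 hmem⟩, Finset.mem_attach _ _, rfl⟩)
    (hq K hmem) A hA σ hσ x hx)

end FA.Summary

end
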