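import Fermat.Agent.Catalan.KoChao

/-!
# Catalan's equation with an even exponent

* `catalan_even`: `x^m = y^n + 1` in positive integers, `m, n ≥ 2`, `m` or `n` even, only for `3² = 2³ + 1`
  (Lebesgue, Euler, Ko Chao);
* `sq_add_one_not_perfect_power`, `fermatNumber_not_perfect_power`: no `y² + 1` with `y ≠ 0`, in particular no
  Fermat number, is a perfect power.
-/

set_option autoImplicit false

namespace FA.Summary

/-- **Lebesgue**: `y² + 1` is no perfect power. -/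
theorem sq_add_one_not_perfect_power {n x y : ℕ} (hn : 2 ≤ n) (hy : y ≠ 0) : y ^ 2 + 1 ≠ x ^ n := fun h =>
  FA.Catalan.sq_add_one_ne_pow (x := (x : ℤ)) (y := (y : ℤ)) hn (Int.natCast_ne_zero.mpr hy) (mod_cast h)

/-- **No Fermat number is a perfect power.** -/
theorem fermatNumber_not_perfect_power (k : ℕ) {n x : ℕ} (hn : 2 ≤ n) : Nat.fermatNumber k ≠ x ^ n := by
  rcases k with _ | k
  · rw [Nat.fermatNumber_zero]
    intro h
    rcases Nat.lt_or_ge x 2 with h2 | h2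
    · interval_cases x <;> simp [show n ≠ 0 by omega] at h
    · have := le_trans (Nat.pow_le_pow_left h2 2) (Nat.pow_le_pow_right (by omega) hn)
      omega
  · rw [Nat.fermatNumber, pow_succ, pow_mul]
    exact sq_add_one_not_perfect_power hn (pow_ne_zero _ two_ne_zero)

/-- **Euler, Ko Chao**: a square is one more than a proper power only for `3² = 2³ + 1`. -/
theorem sq_eq_pow_add_one_iff {n x y : ℕ} (hn : 2 ≤ n) (hx : 0 < x) (hy : 0 < y) :
    x ^ 2 = y ^ n + 1 ↔ x = 3 ∧ y = 2 ∧ n = 3 := by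
  refine ⟨fun h => ?_, fun ⟨h1, h2, h3⟩ => by subst h1 h2 h3; norm_num⟩
  rcases Nat.even_or_odd n with ⟨j, rfl⟩ | hodd
  · rw [← two_mul, pow_mul', eq_comm] at h
    exact absurd h (sq_add_one_not_perfect_power le_rfl (pow_ne_zero _ hy.ne'))
  obtain ⟨q, hq, j, rfl⟩ := Nat.exists_prime_and_dvd (show n ≠ 1 by omega)
  rw [mul_comm, pow_mul] at h
  have hq2 : q ≠ 2 := by rintro rfl; exact Nat.not_even_iff_odd.mpr hodd (even_two_mul j)
  have h5 : q = 3 ∨ 5 ≤ q := by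
    have := hq.two_le
    have h4 : q ≠ 4 := fun e => absurd hq (by rw [e]; norm_num)
    omega
  rcases h5 with rfl | h5
  · rcases FA.Catalan.sq_eq_cube_add_one (x := (x : ℤ)) (y := ((y ^ j : ℕ) : ℤ)) (mod_cast h) with
      ⟨h1, -⟩ | ⟨-, h2⟩ | ⟨h1, -⟩ | ⟨h1, h2⟩ | ⟨h1, -⟩
    · omega
    · have : 0 < y ^ j := pow_pos hy j
      omega
    · omega
    · obtain ⟨rfl, rfl⟩ := (Nat.prime_two.pow_eq_iff).mp (show y ^ j = 2 by omega)
      exact ⟨by omega, rfl, rfl⟩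
    · omega
  · exact absurd (show (x : ℤ) ^ 2 = ((y ^ j : ℕ) : ℤ) ^ q + 1 by exact_mod_cast h)
      (FA.Catalan.sq_ne_pow_add_one hq h5 (by omega) (mod_cast (pow_pos hy j).ne'))

/-- **Catalan's equation with an even exponent.** -/
theorem catalan_even {m n x y : ℕ} (hm : 2 ≤ m) (hn : 2 ≤ n) (hx : 0 < x) (hy : 0 < y)
    (heven : Even m ∨ Even n) : x ^ m = y ^ n + 1 ↔ x = 3 ∧ m = 2 ∧ y = 2 ∧ n = 3 := by
  refine ⟨fun h => ?_, fun ⟨h1, h2, h3, h4⟩ => by subst h1 h2 h3 h4; norm_num⟩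
  rcases Nat.even_or_odd n with ⟨j, rfl⟩ | hodd
  · rw [← two_mul, pow_mul', eq_comm] at h
    exact absurd h (sq_add_one_not_perfect_power hm (pow_ne_zero _ hy.ne'))
  obtain ⟨i, rfl⟩ := heven.resolve_right (Nat.not_even_iff_odd.mpr hodd)
  rw [← two_mul, pow_mul'] at h
  obtain ⟨h1, rfl, rfl⟩ := (sq_eq_pow_add_one_iff hn (pow_pos hx i) hy).mp h
  obtain ⟨rfl, rfl⟩ := (Nat.prime_three.pow_eq_iff).mp h1
  exact ⟨rfl, rfl, rfl, rfl⟩

end FA.Summary
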