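import Fermat.Agent.Root.SummaryPrimitiveDivisor

/-!
# Primitive divisors of `a ^ n + b ^ n`, and repunits that are prime powers
-/

set_option autoImplicit false

namespace FA.Summary

/-- **Zsigmondy for sums**: a prime of `a ^ n + b ^ n` dividing no earlier `a ^ j + b ^ j`, congruent
to one modulo `2 n`. -/
theorem zsigmondy_add {a b n : ℕ} (hab : a.Coprime b) (hb : 0 < b) (hba : b < a) (hn : 2 ≤ n)
    (h23 : ¬ (a = 2 ∧ b = 1 ∧ n = 3)) :
    ∃ p : ℕ, p.Prime ∧ p ∣ a ^ n + b ^ n ∧ (∀ j : ℕ, 0 < j → j < n → ¬ p ∣ a ^ j + b ^ j) ∧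
      2 * n ∣ p - 1 ∧ 2 * n < p := by
  obtain ⟨p, hp, hd, hmin, hmod⟩ := zsigmondy hab hb hba (show 3 ≤ 2 * n by omega)
    fun h => h23 ⟨h.1, h.2.1, by omega⟩
  have key : ∀ j : ℕ, a ^ (2 * j) - b ^ (2 * j) = (a ^ j + b ^ j) * (a ^ j - b ^ j) := fun j => by
    rw [mul_comm 2 j, pow_mul, pow_mul, Nat.sq_sub_sq]
  refine ⟨p, hp, ?_, fun j hj hjn h => hmin (2 * j) (by omega) (by omega) ?_, hmod, ?_⟩
  · exact (hp.dvd_mul.mp (key n ▸ hd)).resolve_right (hmin n (by omega) (by omega))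
  · exact key j ▸ h.mul_right _
  · have := Nat.le_of_dvd (by have := hp.two_le; omega) hmod
    omega

/-- **A repunit is a prime power only in prime length**: if `1 + a + ⋯ + a ^ (n - 1)` is a prime
power then `n` is prime. -/
theorem prime_of_isPrimePow_repunit {a n : ℕ} (ha : 2 ≤ a)
    (h : IsPrimePow (∑ i ∈ Finset.range n, a ^ i)) : n.Prime := by
  set R := ∑ i ∈ Finset.range n, a ^ i
  have hn1 : 1 < n := by
    by_contra hle
    rcases (show n = 0 ∨ n = 1 by omega) with rfl | rfl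
    · exact not_isPrimePow_zero (by simpa [R] using h)
    · exact not_isPrimePow_one (by simpa [R] using h)
  have hR : R * (a - 1) + 1 = a ^ n := by
    have := geom_sum_mul_add (a - 1) n
    rwa [Nat.sub_add_cancel (show 1 ≤ a by omega)] at this
  have hdvd : ∀ d : ℕ, d ∣ n → ∀ p : ℕ, p.Prime → p ∣ a ^ d - 1 → ¬ p ∣ a ^ 1 - 1 → p ∣ R :=
    fun d hd p hp hpd hp1 => by
      have h' : p ∣ R * (a - 1) := by
        rw [show R * (a - 1) = a ^ n - 1 by omega]
        exact hpd.trans (Nat.pow_sub_one_dvd_pow_sub_one a hd)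
      exact (hp.dvd_mul.mp h').resolve_right (by simpa using hp1)
  obtain ⟨q, k, hq, -, hqk⟩ := (isPrimePow_nat_iff _).mp h
  have huniq : ∀ p : ℕ, p.Prime → p ∣ R → p = q := fun p hp hd =>
    (Nat.prime_dvd_prime_iff_eq hp hq).mp (hp.dvd_of_dvd_pow (hqk ▸ hd))
  by_contra hnp
  obtain ⟨d, hdn, hd2, hdlt⟩ := Nat.exists_dvd_of_not_prime2 hn1 hnp
  obtain ⟨e, he⟩ := hdn
  have he2 : 2 ≤ e := by
    rcases Nat.lt_or_ge e 2 with h' | h'
    · interval_cases e <;> omega
    · exact h'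
  by_cases h4 : n = 4
  · subst h4
    have hR4 : R = (a + 1) * (a ^ 2 + 1) := by
      simp only [R, Finset.sum_range_succ, Finset.sum_range_zero]; ring
    have hq2 : q = 2 := by
      obtain ⟨p, hp, hpd⟩ := Nat.exists_prime_and_dvd (show a + 1 ≠ 1 by omega)
      obtain ⟨r, hr, hrd⟩ := Nat.exists_prime_and_dvd (show a ^ 2 + 1 ≠ 1 by
        have : 0 < a ^ 2 := by positivity
        omega)
      obtain rfl := huniq p hp (hR4 ▸ hpd.mul_right _)
      obtain rfl := huniq r hr (hR4 ▸ hrd.mul_left _)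
      have h2 : r ∣ 2 := by
        have h1 : r ∣ (a + 1) * (a - 1) := hpd.mul_right _
        rw [← Nat.sq_sub_sq, one_pow] at h1
        have := Nat.dvd_sub hrd h1
        rwa [show a ^ 2 + 1 - (a ^ 2 - 1) = 2 by
          have : 0 < a ^ 2 := by positivity
          omega] at this
      exact (Nat.prime_dvd_prime_iff_eq hr Nat.prime_two).mp h2
    subst hq2
    have hsq : a ^ 2 + 1 ∣ 2 ^ k := hqk ▸ hR4 ▸ dvd_mul_left _ _
    obtain ⟨j, -, hj⟩ := (Nat.dvd_prime_pow Nat.prime_two).mp hsq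
    have hlt : 4 < a ^ 2 + 1 := by nlinarith
    rcases j with _ | _ | j
    · simp at hj
      omega
    · simp at hj
      omega
    · rcases Nat.even_or_odd a with ⟨r, hr⟩ | ⟨r, hr⟩
      · rw [hr, pow_succ 2 (j + 1), pow_succ 2 j] at hj
        ring_nf at hj
        omega
      · rw [hr, pow_succ 2 (j + 1), pow_succ 2 j] at hj
        ring_nf at hj
        omega
  by_cases h26 : a = 2 ∧ n = 6
  · obtain ⟨rfl, rfl⟩ := h26
    have h3 := huniq 3 Nat.prime_three (by simp [R, Finset.sum_range_succ])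
    have h7 := huniq 7 (by norm_num) (by simp [R, Finset.sum_range_succ])
    omega
  obtain ⟨c, hcn, hc3, hclt⟩ : ∃ c, c ∣ n ∧ 3 ≤ c ∧ c < n := by
    rcases Nat.lt_or_ge d 3 with h' | h'
    · obtain rfl : d = 2 := by omega
      exact ⟨e, ⟨2, by rw [he]; ring⟩, by omega, by omega⟩
    · exact ⟨d, ⟨e, he⟩, h', hdlt⟩
  obtain ⟨p, hp, hpn, hpmin, -⟩ := exists_primitive_prime_divisor ha (show 3 ≤ n by omega) h26
  by_cases hc6 : a = 2 ∧ c = 6
  · obtain ⟨rfl, rfl⟩ := hc6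
    have h7 := huniq 7 (by norm_num) (hdvd 6 hcn 7 (by norm_num) (by norm_num) (by norm_num))
    have hpR := huniq p hp (hdvd n dvd_rfl p hp hpn (hpmin 1 one_pos hn1))
    exact hpmin 6 (by norm_num) hclt (by rw [hpR, ← h7]; norm_num)
  obtain ⟨r, hr, hrc, hrmin, -⟩ := exists_primitive_prime_divisor ha hc3 hc6
  obtain rfl := huniq p hp (hdvd n dvd_rfl p hp hpn (hpmin 1 one_pos hn1))
  obtain rfl := huniq r hr (hdvd c hcn r hr hrc (hrmin 1 one_pos (by omega)))
  exact hpmin c (by omega) hclt hrc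

end FA.Summary
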