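import Fermat.Agent.Catalan.CasselsMain
import Fermat.Agent.Root.SummaryCatalanEven
import Fermat.Agent.Root.SummaryZsigmondyPlus

/-!
# Cassels' theorem on Catalan's equation and its consequences

* `cassels`, `cassels_bound`: `x^p - y^q = 1`, `p`, `q` odd primes, `x y ≠ 0`: then `p ∣ y`, `q ∣ x`,
  `x - 1 = p^(q-1) a^q`, `y + 1 = q^(p-1) b^p`, `|x| ≥ q^(p-1) + 1` and `|y| ≥ p^(q-1) + 1`.
* `no_three_consecutive_perfect_powers`: Mąkowski's theorem.
* `catalan_primePower`: Catalan's conjecture when one of the bases is a prime power.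
-/

set_option autoImplicit false

namespace FA.Summary

open FA.Catalan

variable {p q : ℕ}

/-- **Cassels' theorem** (1960). -/
theorem cassels (hp : p.Prime) (hq : q.Prime) (hp2 : Odd p) (hq2 : Odd q) {x y : ℤ} (hx : x ≠ 0)
    (hy : y ≠ 0) (h : x ^ p - y ^ q = 1) :
    (p : ℤ) ∣ y ∧ (q : ℤ) ∣ x ∧
      (∃ a : ℤ, x - 1 = (p : ℤ) ^ (q - 1) * a ^ q) ∧ ∃ b : ℤ, y + 1 = (q : ℤ) ^ (p - 1) * b ^ p := by
  have h' := catalan_symm hp2 hq2 h
  have h1 := cassels_dvd hp hq hp2 hq2 hx hy h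
  have h2 := cassels_dvd hq hp hq2 hp2 (neg_ne_zero.mpr hy) (neg_ne_zero.mpr hx) h'
  obtain ⟨a, _, _, ha, -⟩ := exists_pow_of_dvd hp hp2 hq2 h h1
  obtain ⟨b, _, _, hb, -⟩ := exists_pow_of_dvd hq hq2 hp2 h' h2
  exact ⟨h1, dvd_neg.mp h2, ⟨a, ha⟩, -b, by rw [hp2.neg_pow]; linear_combination -hb⟩

/-- For `3 ≤ p < q`: `q^(p-1) + 2 ≤ p^(q-1)`. -/
theorem pow_add_two_le_pow_swap {p q : ℕ} (hp : 3 ≤ p) (hpq : p < q) : q ^ (p - 1) + 2 ≤ p ^ (q - 1) := by
  have hbern : ∀ q k : ℕ, k ≤ q → q ^ k * (q - k) ≤ (q - 1) ^ k * q := by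
    intro q k hk
    induction k with
    | zero => simp
    | succ k ih =>
      have := ih (by omega)
      obtain ⟨j, rfl⟩ : ∃ j, q = j + (k + 1) := ⟨q - (k + 1), by omega⟩
      rw [Nat.add_sub_cancel, show j + (k + 1) - k = j + 1 by omega] at *
      rw [show j + (k + 1) - 1 = j + k by omega] at *
      rw [pow_succ, pow_succ (j + k)]
      have e : (j + (k + 1)) * j ≤ (j + k) * (j + 1) := by nlinarith
      calc (j + (k + 1)) ^ k * (j + (k + 1)) * j = (j + (k + 1)) ^ k * ((j + (k + 1)) * j) := by ring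
        _ ≤ (j + (k + 1)) ^ k * ((j + k) * (j + 1)) := Nat.mul_le_mul_left _ e
        _ = (j + (k + 1)) ^ k * (j + 1) * (j + k) := by ring
        _ ≤ (j + k) ^ k * (j + (k + 1)) * (j + k) := Nat.mul_le_mul_right _ this
        _ = (j + k) ^ k * (j + k) * (j + (k + 1)) := by ring
  have step : ∀ n, p < n → n ^ (p - 1) + 2 ≤ p * (n - 1) ^ (p - 1) := by
    intro n hn
    have h1 := hbern n (p - 1) (by omega)
    refine Nat.le_of_mul_le_mul_left ?_ (show 0 < n by omega)
    have h2 : n + 2 ≤ p * (n - (p - 1)) := by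
      obtain ⟨d, rfl⟩ : ∃ d, n = p + d + 1 := ⟨n - p - 1, by omega⟩
      rw [show p + d + 1 - (p - 1) = d + 2 by omega]
      nlinarith
    have h3 : n ≤ n ^ (p - 1) := Nat.le_self_pow (by omega) n
    calc n * (n ^ (p - 1) + 2) ≤ (n + 2) * n ^ (p - 1) := by nlinarith
      _ ≤ p * (n - (p - 1)) * n ^ (p - 1) := Nat.mul_le_mul_right _ h2
      _ = p * (n ^ (p - 1) * (n - (p - 1))) := by ring
      _ ≤ p * ((n - 1) ^ (p - 1) * n) := Nat.mul_le_mul_left _ h1
      _ = n * (p * (n - 1) ^ (p - 1)) := by ring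
  have main : ∀ d, (p + d + 1) ^ (p - 1) + 2 ≤ p ^ (p + d) := by
    intro d
    induction d with
    | zero =>
      refine (step (p + 1) (by omega)).trans_eq ?_
      rw [Nat.add_sub_cancel, ← pow_succ', Nat.sub_add_cancel (by omega), add_zero]
    | succ d ih =>
      refine (step (p + (d + 1) + 1) (by omega)).trans ?_
      rw [show p + (d + 1) + 1 - 1 = p + d + 1 by omega, ← add_assoc, pow_succ']
      exact Nat.mul_le_mul_left _ (by omega)
  have := main (q - p - 1)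
  rwa [show p + (q - p - 1) + 1 = q by omega, show p + (q - p - 1) = q - 1 by omega] at this

/-- **Cassels' lower bound**. -/
theorem cassels_bound (hp : p.Prime) (hq : q.Prime) (hp2 : Odd p) (hq2 : Odd q) {x y : ℤ} (hx : x ≠ 0)
    (hy : y ≠ 0) (h : x ^ p - y ^ q = 1) :
    (q : ℤ) ^ (p - 1) + 1 ≤ |x| ∧ (p : ℤ) ^ (q - 1) + 1 ≤ |y| := by
  have key : ∀ {p q : ℕ}, p.Prime → q.Prime → Odd p → Odd q → ∀ {x y : ℤ}, x ≠ 0 → y ≠ 0 →
      x ^ p - y ^ q = 1 → (q : ℤ) ^ (p - 1) + 1 ≤ |x| := by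
    intro p q hp hq hp2 hq2 x y hx hy h
    have h1 := abs_sub x 1
    rw [abs_one] at h1
    rcases lt_trichotomy q p with hlt | rfl | hgt
    · have h2 := lt_abs_sub_one hp hq hp2 hq2 hlt hx hy h
      have h3 : (q : ℤ) ^ (p - 1) < (q : ℤ) ^ p :=
        pow_lt_pow_right₀ (by exact_mod_cast hq.one_lt) (by have := hp.two_le; omega)
      omega
    · exact absurd h (ne_of_pow_sub_pow_eq_one hp.two_le hp2 hx hy)
    · obtain ⟨-, -, ⟨a, ha⟩, -⟩ := cassels hp hq hp2 hq2 hx hy h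
      have h2 : (p : ℤ) ^ (q - 1) ≤ |x - 1| := by
        rw [ha, abs_mul, abs_pow, abs_pow, Nat.abs_cast]
        refine le_mul_of_one_le_right (by positivity) (one_le_pow₀ (Int.one_le_abs ?_))
        rintro rfl
        rw [zero_pow hq.ne_zero, mul_zero, sub_eq_zero] at ha
        subst ha
        rw [one_pow] at h
        exact hy ((pow_eq_zero_iff hq.ne_zero).mp (by linear_combination -h))
      have h4 : q ^ (p - 1) + 2 ≤ p ^ (q - 1) := pow_add_two_le_pow_swap (by
        have := hp.two_le; rw [Nat.odd_iff] at hp2; omega) hgt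
      zify at h4
      omega
  refine ⟨key hp hq hp2 hq2 hx hy h, ?_⟩
  have := key hq hp hq2 hp2 (neg_ne_zero.mpr hy) (neg_ne_zero.mpr hx) (catalan_symm hp2 hq2 h)
  rwa [abs_neg] at this

/-- **Mąkowski's theorem**: no three consecutive positive integers are all perfect powers. -/
theorem no_three_consecutive_perfect_powers {a b c k l m : ℕ} (ha : 0 < a) (hb : 0 < b) (hc : 0 < c)
    (hk : 2 ≤ k) (hl : 2 ≤ l) (hm : 2 ≤ m) : ¬ (b ^ l = a ^ k + 1 ∧ c ^ m = b ^ l + 1) := by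
  rintro ⟨h1, h2⟩
  by_cases hkl : Even l ∨ Even k
  · obtain ⟨rfl, rfl, rfl, rfl⟩ := (catalan_even hl hk hb ha hkl).mp h1
    have hc2 : 2 ≤ c := by
      by_contra hlt
      interval_cases c
      simp at h2
    have : c ≤ 3 := by
      by_contra hlt
      have := le_trans (Nat.pow_le_pow_left (show 4 ≤ c by omega) 2) (Nat.pow_le_pow_right (by omega) hm)
      omega
    interval_cases c
    · have h4 : m ≠ 1 ∧ 2 ∣ 2 ^ m := ⟨by omega, dvd_pow_self 2 (by omega)⟩
      rw [h2] at h4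
      have h5 : m ≤ 3 := by
        by_contra hlt
        have := Nat.pow_le_pow_right two_pos (show 4 ≤ m by omega)
        omega
      interval_cases m <;> simp at h2
    · have h5 : 3 ∣ 3 ^ m := dvd_pow_self 3 (by omega)
      omega
  by_cases hlm : Even m
  · obtain ⟨-, -, hb', hl'⟩ := (catalan_even hm hl hc hb (Or.inl hlm)).mp h2
    subst hb' hl'
    rcases Nat.lt_or_ge a 2 with h | h
    · interval_cases a; simp at h1
    · push Not at hkl
      have h3 : 3 ≤ k := by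
        have := Nat.not_even_iff_odd.mp hkl.2
        rw [Nat.odd_iff] at this
        omega
      have := le_trans (Nat.pow_le_pow_right two_pos h3) (Nat.pow_le_pow_left h k)
      omega
  push Not at hkl
  obtain ⟨r, hr, k', rfl⟩ := Nat.exists_prime_and_dvd (show k ≠ 1 by omega)
  obtain ⟨q, hq, l', rfl⟩ := Nat.exists_prime_and_dvd (show l ≠ 1 by omega)
  obtain ⟨p, hp, m', rfl⟩ := Nat.exists_prime_and_dvd (show m ≠ 1 by omega)
  simp only [Nat.not_even_iff_odd, Nat.odd_mul] at hkl hlm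
  rw [mul_comm q, mul_comm r, pow_mul, pow_mul] at h1
  rw [mul_comm q, mul_comm p, pow_mul, pow_mul] at h2
  have e1 : ((b ^ l' : ℕ) : ℤ) ^ q - ((a ^ k' : ℕ) : ℤ) ^ r = 1 := by
    rw [← Nat.cast_pow, ← Nat.cast_pow, h1]; push_cast; ring
  have e2 : ((c ^ m' : ℕ) : ℤ) ^ p - ((b ^ l' : ℕ) : ℤ) ^ q = 1 := by
    rw [← Nat.cast_pow, ← Nat.cast_pow, h2]; push_cast; ring
  have hz : ∀ {u : ℕ} (n : ℕ), 0 < u → ((u ^ n : ℕ) : ℤ) ≠ 0 := fun n hu =>
    Int.natCast_ne_zero.mpr (pow_pos hu n).ne'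
  have h3 := (cassels hq hr hkl.1.1 hkl.2.1 (hz l' hb) (hz k' ha) e1).1
  have h4 := (cassels hp hq hlm.1 hkl.1.1 (hz m' hc) (hz l' hb) e2).2.1
  have h5 : (q : ℤ) ∣ 2 := by
    have := (dvd_pow h4 hp.ne_zero).sub (dvd_pow h3 hr.ne_zero)
    rwa [show ((c ^ m' : ℕ) : ℤ) ^ p - ((a ^ k' : ℕ) : ℤ) ^ r = 2 by linear_combination e1 + e2] at this
  have h6 := Nat.le_of_dvd two_pos (Int.natCast_dvd_natCast.mp h5)
  have := hq.two_le
  have h7 := hkl.1.1
  rw [Nat.odd_iff] at h7
  omega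

/-- **Catalan's conjecture when a base is a prime power**. -/
theorem catalan_primePower {m n x y : ℕ} (hm : 2 ≤ m) (hn : 2 ≤ n) (hy : 0 < y)
    (hpp : IsPrimePow x ∨ IsPrimePow y) (h : x ^ m = y ^ n + 1) : x = 3 ∧ m = 2 ∧ y = 2 ∧ n = 3 := by
  have hx : 0 < x := by
    by_contra h0
    obtain rfl : x = 0 := by omega
    rw [zero_pow (by omega)] at h
    omega
  by_cases heven : Even m ∨ Even n
  · exact (catalan_even hm hn hx hy heven).mp h
  exfalso
  push Not at heven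
  simp only [Nat.not_even_iff_odd] at heven
  have hy2 : 2 ≤ y := by
    by_contra hlt
    obtain rfl : y = 1 := by omega
    rw [one_pow] at h
    rcases Nat.lt_or_ge x 2 with hx2 | hx2
    · interval_cases x; simp at h
    · have := le_trans (Nat.pow_le_pow_left hx2 2) (Nat.pow_le_pow_right (by omega) hm)
      omega
  by_cases hxp : IsPrimePow x
  · -- a primitive prime of `y^n + 1` does not divide `y + 1`
    obtain ⟨s, k, hs, -, rfl⟩ := (isPrimePow_nat_iff _).mp hxp
    obtain ⟨r, hr, hrd, hmin, -⟩ := zsigmondy_add (a := y) (b := 1) (n := n) (by simp) one_pos hy2 hn (by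
      rintro ⟨rfl, -, rfl⟩
      rcases Nat.lt_or_ge (s ^ k) 3 with h3 | h3
      · have : s ^ k = 2 := by
          have := hs.two_le
          have := hxp.one_lt
          omega
        rw [this] at h
        have h5 : 2 ∣ 2 ^ m := dvd_pow_self 2 (by omega)
        omega
      · have h5 := le_trans (Nat.pow_le_pow_left h3 3) (Nat.pow_le_pow_right (by omega) (show 3 ≤ m by
          obtain ⟨i, rfl⟩ := heven.1; omega))
        omega)
    rw [one_pow, ← h, ← pow_mul] at hrd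
    obtain rfl := (Nat.prime_dvd_prime_iff_eq hr hs).mp (hr.dvd_of_dvd_pow hrd)
    obtain ⟨t, ht, htd⟩ := Nat.exists_prime_and_dvd (show y + 1 ≠ 1 by omega)
    have hts : t ∣ r ^ (k * m) := by
      rw [pow_mul, h]
      simpa using htd.trans (heven.2.nat_add_dvd_pow_add_pow y 1)
    obtain rfl := (Nat.prime_dvd_prime_iff_eq ht hr).mp (ht.dvd_of_dvd_pow hts)
    exact hmin 1 one_pos (by omega) (by simpa using htd)
  · -- a primitive prime of `x^m - 1` does not divide `x - 1`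
    obtain ⟨s, k, hs, -, rfl⟩ := (isPrimePow_nat_iff _).mp (hpp.resolve_left hxp)
    have hm3 : 3 ≤ m := by obtain ⟨i, rfl⟩ := heven.1; omega
    have hx2 : x ≠ 2 := fun e => hxp (e ▸ Nat.prime_two.isPrimePow)
    have hx1 : 1 < x := by
      by_contra hlt
      obtain rfl : x = 1 := by omega
      rw [one_pow] at h
      have : 0 < (s ^ k) ^ n := pow_pos hy n
      omega
    obtain ⟨r, hr, hrd, hmin, -⟩ := zsigmondy (a := x) (b := 1) (n := m) (by simp) one_pos hx1 hm3
      (fun e => hx2 e.1)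
    rw [one_pow, h, Nat.add_sub_cancel, ← pow_mul] at hrd
    obtain rfl := (Nat.prime_dvd_prime_iff_eq hr hs).mp (hr.dvd_of_dvd_pow hrd)
    obtain ⟨t, ht, htd⟩ := Nat.exists_prime_and_dvd (show x - 1 ≠ 1 by omega)
    have hts : t ∣ r ^ (k * n) := by
      rw [pow_mul, show (r ^ k) ^ n = x ^ m - 1 by omega]
      simpa using htd.trans (by simpa using Nat.sub_dvd_pow_sub_pow x 1 m)
    obtain rfl := (Nat.prime_dvd_prime_iff_eq ht hr).mp (ht.dvd_of_dvd_pow hts)
    exact hmin 1 one_pos (by omega) (by simpa using htd)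

end FA.Summary
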