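import Fermat.Agent.ChowlaSelberg.Main
import Fermat.Agent.ChowlaSelberg.Sqrt

/-!
# The formula of Chowla and Selberg

`chowla_selberg`: for an imaginary quadratic field of discriminant `D` with `h` classes and `w`
roots of unity, `∏ √y |η τ|²` over the reduced forms is
`(4 π √|D|) ^ (-h/2) ∏ Γ (a / |D|) ^ (w χ a / 4)`, and `L (1, χ) = 2 π h / (w √|D|)`.
-/

set_option autoImplicit false
set_option linter.style.haveILetI false

noncomputable section

open NumberField Module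
open scoped Real UpperHalfPlane

namespace FA.Summary

/-- **The formula of Chowla and Selberg.** The forms `(a, b, c)` in `R` are the reduced forms of
the discriminant of the imaginary quadratic field `K`, `τ f` is the root of `f` in the upper half
plane, and `χ` is the odd real primitive character with `ζ_K = ζ L (·, χ)`. -/
theorem chowla_selberg (K : Type*) [Field K] [NumberField K] [IsTotallyComplex K]
    (hK : finrank ℚ K = 2) :
    haveI : NeZero (discr K).natAbs := ⟨Int.natAbs_ne_zero.mpr (discr_ne_zero K)⟩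
    ∃ χ : DirichletCharacter ℂ (discr K).natAbs, χ.IsPrimitive ∧ χ ^ 2 = 1 ∧ χ.Odd ∧
      (∀ z : ℂ, 1 < z.re →
        dedekindZeta K z = riemannZeta z * DirichletCharacter.LFunction χ z) ∧
      DirichletCharacter.LFunction χ 1 =
        ((2 * π * classNumber K / (Units.torsionOrder K * √((discr K).natAbs : ℝ)) : ℝ) : ℂ) ∧
      ∀ (R : Finset (ℤ × ℤ × ℤ)) (τ : ℤ × ℤ × ℤ → ℍ),
        (∀ f : ℤ × ℤ × ℤ, f ∈ R ↔ f.2.1 ^ 2 - 4 * f.1 * f.2.2 = discr K ∧
          Int.gcd (Int.gcd f.1 f.2.1) f.2.2 = 1 ∧ 0 < f.1 ∧ |f.2.1| ≤ f.1 ∧ f.1 ≤ f.2.2 ∧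
          ((|f.2.1| = f.1 ∨ f.1 = f.2.2) → 0 ≤ f.2.1)) →
        (∀ f ∈ R, (f.1 : ℂ) * (τ f : ℂ) ^ 2 + f.2.1 * (τ f : ℂ) + f.2.2 = 0) →
        ∏ f ∈ R, √(τ f).im * ‖ModularForm.eta (τ f)‖ ^ 2 =
            (4 * π * √((discr K).natAbs : ℝ)) ^ (-((classNumber K : ℝ) / 2)) *
              ∏ a : ZMod (discr K).natAbs, Real.Gamma ((a.val : ℝ) / (discr K).natAbs) ^
                ((Units.torsionOrder K : ℝ) / 4 * (χ a).re) ∧
          ∑ f ∈ R, Real.log (√(τ f).im * ‖ModularForm.eta (τ f)‖ ^ 2) =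
            -((classNumber K : ℝ) / 2) * Real.log (4 * π * √((discr K).natAbs : ℝ)) +
              (Units.torsionOrder K : ℝ) / 4 *
                ∑ a : ZMod (discr K).natAbs,
                  (χ a).re * Real.log (Real.Gamma ((a.val : ℝ) / (discr K).natAbs)) := by
  obtain ⟨d, hd, hd0, s, hs⟩ := FA.ChowlaSelberg.exists_sq_eq_intCast_neg K hK
  haveI : NeZero (discr K).natAbs := ⟨Int.natAbs_ne_zero.mpr (discr_ne_zero K)⟩
  obtain ⟨χ, hprim, hq, hodd, hζ⟩ := FA.ChowlaSelberg.exists_fieldChar hK hd0 hs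
  have hD := FA.ChowlaSelberg.discr_eq_discK hK hd hd0 hs
  obtain ⟨e, he⟩ := FA.FieldClassBound.exists_emb hd0 hs
  choose T A hg using fun f : FA.Singular.Red (FA.FieldClassBound.discK d) =>
    FA.FieldClassBound.exists_gen e hd0 hs he (f := (f : ℤ × ℤ × ℤ)) f.2.2.2.1 f.2.1
  haveI : Fintype (FA.Singular.Red (FA.FieldClassBound.discK d)) :=
    (FA.Singular.red_finite _).fintype
  refine ⟨χ, hprim, hq, hodd, hζ,
    (FA.ChowlaSelberg.main hK hd hd0 hs rfl hprim hq hodd hζ T fun f => (hg f).1).1,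
    fun R τ hR hτ => ?_⟩
  have hR' : ∀ f : ℤ × ℤ × ℤ, f ∈ R ↔ f ∈ FA.Singular.Red (FA.FieldClassBound.discK d) := fun f =>
    by rw [hR f, hD]; rfl
  have hT : ∀ f : FA.Singular.Red (FA.FieldClassBound.discK d),
      FA.Singular.IsRoot (f : ℤ × ℤ × ℤ) (τ f) := fun f => hτ f ((hR' f).2 f.2)
  rw [Finset.prod_subtype R hR', Finset.sum_subtype R hR']
  exact ⟨FA.ChowlaSelberg.prod_height hK hd hd0 hs rfl hprim hq hodd hζ (fun f => τ f) hT,
    (FA.ChowlaSelberg.main hK hd hd0 hs rfl hprim hq hodd hζ (fun f => τ f) hT).2⟩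

end FA.Summary

end
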