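import Fermat.Agent.GrossKoblitz.Main

/-!
# The Gross–Koblitz formula

`F` is a field with `q = p ^ f` elements, `ω` its Teichmüller character (any multiplicative
character with values in `ℂ_p` that is additive modulo the maximal ideal), `π = dworkPi p`,
`π ^ (p - 1) = -p`, `ζ = dworkRoot p` the primitive `p`th root of unity with `ζ ≡ 1 + π` to higher
order, and `ψ x = ζ ^ Tr x`.

* `padicGamma_morita`: Morita's `p`-adic Gamma function, continuous, with
  `Γ_p n = (-1) ^ n ∏ j` over `j < n` prime to `p`, unit valued, and unique;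
* `gross_koblitz` (Gross and Koblitz 1979): for `a < q - 1`
  `-∑ ω (x) ^ (-a) ψ x = π ^ S ∏ Γ_p ⟨p ^ i a / (q - 1)⟩`, `S` the sum of the digits of `a`;
* `gross_koblitz_prime`: the case `q = p`;
* `gaussSum_norm_stickelberger`, `gaussSum_congruence_stickelberger`: so the Gauss sum has absolute
  value `|π| ^ S`, and times `∏ a_i!` it is `π ^ S` to higher order.
-/

set_option autoImplicit false
set_option linter.unusedSectionVars false

noncomputable section

open Finset FA.DworkRationality FA.GrossKoblitz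

namespace FA.Summary

variable (p : ℕ) [hp : Fact p.Prime]

/-- **Dwork's constants.** -/
theorem dworkPi_dworkRoot_spec :
    dworkPi p ^ (p - 1) = -(p : ℂ_[p]) ∧ IsPrimitiveRoot (dworkRoot p) p ∧
      ‖dworkRoot p - 1 - dworkPi p‖ < ‖dworkPi p‖ :=
  ⟨dworkPi_pow, dworkRoot_spec, norm_dworkRoot_sub_lt⟩

/-- **Morita's `p`-adic Gamma function.** -/
theorem padicGamma_morita : Continuous (padicGamma p) ∧
    (∀ n : ℕ, padicGamma p (n : ℤ_[p]) =
      (-1) ^ n * ∏ j ∈ (range n).filter (fun j => ¬ p ∣ j), (j : ℂ_[p])) ∧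
    (∀ x : ℤ_[p], (IsUnit x →
        padicGamma p (x + 1) = -algebraMap ℚ_[p] ℂ_[p] (x : ℚ_[p]) * padicGamma p x) ∧
      (¬ IsUnit x → padicGamma p (x + 1) = -padicGamma p x)) ∧
    (∀ x : ℤ_[p], ∃ u : ℤ_[p]ˣ, algebraMap ℚ_[p] ℂ_[p] ((u : ℤ_[p]) : ℚ_[p]) = padicGamma p x) ∧
    ∀ g : ℤ_[p] → ℂ_[p], Continuous g → (∀ n : ℕ, g (n : ℤ_[p]) =
      (-1) ^ n * ∏ j ∈ (range n).filter (fun j => ¬ p ∣ j), (j : ℂ_[p])) → g = padicGamma p := by
  refine ⟨continuous_padicGamma, padicGamma_natCast, fun x => ?_, exists_padicGamma_eq,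
    fun g hg hn => PadicInt.denseRange_natCast.equalizer hg continuous_padicGamma
      (funext fun n => (hn n).trans (padicGamma_natCast n).symm)⟩
  have hiff : IsUnit x ↔ ¬ (p : ℤ_[p]) ∣ x := by
    rw [PadicInt.isUnit_iff, ← PadicInt.norm_lt_one_iff_dvd, not_lt]
    exact ⟨fun h => h.ge, fun h => le_antisymm x.norm_le_one h⟩
  exact ⟨fun h => padicGamma_add_one_of_not_dvd (hiff.1 h),
    fun h => padicGamma_add_one_of_dvd (not_not.1 (mt hiff.2 h))⟩

variable (F : Type*) [Field F] [Fintype F] [Algebra (ZMod p) F]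

/-- **Teichmüller characters exist.** -/
theorem exists_teichmuller_mulChar :
    ∃ ω : MulChar F ℂ_[p], ∀ x y : F, ‖ω (x + y) - ω x - ω y‖ < 1 := by
  classical
  obtain ⟨⟨f, hf0⟩, -, hcard⟩ := @FiniteField.card F _ _ p (charP_of_injective_algebraMap
    (algebraMap (ZMod p) F).injective p)
  simp only [PNat.mk_coe] at hcard
  have hf : f ≠ 0 := by omega
  have := finite_fixedField (p := p) hf
  have := Fintype.ofFinite (fixedField p f)
  let φ : F ≃+* fixedField p f := FiniteField.ringEquivOfCardEq (by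
    rw [hcard, ← Nat.card_eq_fintype_card, natCard_fixedField hf])
  have hfin : ∀ x : F, IsFin ((φ x : fixedField p f) : Residue p) := fun x =>
    isFin_of_mem hf (φ x).2
  refine ⟨{ toFun := fun x => teich ((φ x : fixedField p f) : Residue p)
            map_one' := by simp [teich_one]
            map_mul' := fun x y => by
              rw [map_mul, Subfield.coe_mul]; exact teich_mul (hfin x) (hfin y)
            map_nonunit' := fun x hx => by
              rw [isUnit_iff_ne_zero, not_not] at hx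
              simp [hx, teich_zero] }, fun x y => ?_⟩
  obtain ⟨u, hu, hur⟩ := exists_ball_teich (hfin x)
  obtain ⟨v, hv, hvr⟩ := exists_ball_teich (hfin y)
  obtain ⟨w, hw, hwr⟩ := exists_ball_teich (hfin (x + y))
  show ‖teich _ - teich _ - teich _‖ < 1
  rw [← hu, ← hv, ← hw, sub_sub, ← Subring.coe_add]
  refine red_eq_red.1 ?_
  rw [map_add, hur, hvr, hwr, map_add, Subfield.coe_add]

variable {F} {f : ℕ} (hcard : Fintype.card F = p ^ f) (ω : MulChar F ℂ_[p])
  (hω : ∀ x y : F, ‖ω (x + y) - ω x - ω y‖ < 1) {a : ℕ} (ha : a < p ^ f - 1)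

include hcard hω ha

/-- **The Gross–Koblitz formula.** -/
theorem gross_koblitz : ∃ x : ℕ → ℤ_[p],
    (∀ i, (x i : ℚ_[p]) =
      ((Int.fract (((a * p ^ i : ℕ) : ℚ) / ((p ^ f - 1 : ℕ) : ℚ)) : ℚ) : ℚ_[p])) ∧
    -gaussSum (ω⁻¹ ^ a)
        ((AddChar.zmodChar p (dworkRoot_pow (p := p))).compAddMonoidHom
          (Algebra.trace (ZMod p) F).toAddMonoidHom) =
      dworkPi p ^ (p.digits a).sum * ∏ i ∈ range f, padicGamma p (x i) := by
  have hf : f ≠ 0 := by rintro rfl; simp at ha
  refine ⟨fracPart p f a, fun i => coe_fracPart hf a i, ?_⟩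
  rw [← sum_digits_eq hp.out.two_le (show a < p ^ f by omega)]
  exact grossKoblitz_field F hcard ω hω ha

/-- **The absolute value of the Gauss sum (Stickelberger).** -/
theorem gaussSum_norm_stickelberger :
    ‖gaussSum (ω⁻¹ ^ a) ((AddChar.zmodChar p (dworkRoot_pow (p := p))).compAddMonoidHom
        (Algebra.trace (ZMod p) F).toAddMonoidHom)‖ = ‖dworkPi p‖ ^ (p.digits a).sum := by
  rw [← norm_neg, grossKoblitz_field F hcard ω hω ha, norm_prod_padicGamma,
    sum_digits_eq hp.out.two_le (show a < p ^ f by omega)]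

/-- **Stickelberger's congruence.** -/
theorem gaussSum_congruence_stickelberger :
    ‖(∏ i ∈ range f, ((a / p ^ i % p).factorial : ℂ_[p])) *
        -gaussSum (ω⁻¹ ^ a) ((AddChar.zmodChar p (dworkRoot_pow (p := p))).compAddMonoidHom
          (Algebra.trace (ZMod p) F).toAddMonoidHom) - dworkPi p ^ (p.digits a).sum‖ <
      ‖dworkPi p‖ ^ (p.digits a).sum := by
  have hf : f ≠ 0 := by rintro rfl; simp at ha
  have h := norm_prod_factorial_sub_lt (p := p) hf ha
  rw [grossKoblitz_field F hcard ω hω ha, sum_digits_eq hp.out.two_le (show a < p ^ f by omega),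
    mul_left_comm, ← mul_sub_one, norm_mul, norm_pow]
  exact mul_lt_of_lt_one_right (pow_pos norm_dworkPi_pos _) h

omit hcard hω ha

/-- **Gross–Koblitz for the prime field.** -/
theorem gross_koblitz_prime (χ : MulChar (ZMod p) ℂ_[p])
    (hχ : ∀ x y : ZMod p, ‖χ (x + y) - χ x - χ y‖ < 1) {b : ℕ} (hb : b < p - 1) :
    ∃ x : ℤ_[p], ((p - 1 : ℕ) : ℤ_[p]) * x = (b : ℤ_[p]) ∧
      -gaussSum (χ⁻¹ ^ b) (AddChar.zmodChar p (dworkRoot_pow (p := p))) =
        dworkPi p ^ b * padicGamma p x := by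
  have hb' : b < p ^ 1 - 1 := by rwa [pow_one]
  refine ⟨fracPart p 1 b 0, ?_, ?_⟩
  · have h := sub_one_mul_fracPart (p := p) one_ne_zero b 0
    rwa [pow_one, pow_zero, mul_one, Nat.mod_eq_of_lt hb] at h
  · have h := grossKoblitz_field (p := p) (ZMod p) (f := 1) (by rw [ZMod.card, pow_one]) χ hχ hb'
    rw [range_one, sum_singleton, prod_singleton, pow_zero, Nat.div_one,
      Nat.mod_eq_of_lt (by omega : b < p), Algebra.trace_self] at h
    exact h

end FA.Summary

end
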