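import Fermat.Agent.CM.Count
import Mathlib.FieldTheory.Finite.Basic

/-!
# Gauss: the binomial congruence for sums of two squares

For a prime `p = 4 m + 1 = a² + b²` with `a ≡ 1 (mod 4)`: `(2m choose m) ≡ 2 a (mod p)`, and `2 |a| < p / 2`,
so `2 a` is the absolutely least residue of the binomial coefficient.
-/

set_option autoImplicit false

noncomputable section

open Finset

namespace FA.CM

variable {p : ℕ} [hp : Fact p.Prime]

theorem sum_pow_eq_ite {e : ℕ} (he : 0 < e) :
    ∑ x : ZMod p, x ^ e = if p - 1 ∣ e then -1 else 0 := by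
  classical
  let φ : (ZMod p)ˣ ↪ ZMod p := ⟨fun x ↦ x, Units.val_injective⟩
  have hmap : univ.map φ = univ \ {0} := by
    ext x
    simpa only [mem_map, mem_univ, Function.Embedding.coeFn_mk, true_and, mem_sdiff,
      mem_singleton, φ] using! isUnit_iff_ne_zero
  have h := FiniteField.sum_pow_units (ZMod p) e
  rw [ZMod.card] at h
  rw [← h, ← sum_sdiff ({0} : Finset (ZMod p)).subset_univ, sum_singleton, zero_pow he.ne', add_zero,
    ← hmap, sum_map]
  simp [φ]

theorem jacobsthal_cast (hp2 : p ≠ 2) {m : ℕ} (hm : p = 4 * m + 1) :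
    ((jacobsthal (1 : ZMod p) : ℤ) : ZMod p) = -((-1) ^ m * ((2 * m).choose m : ZMod p)) := by
  have hF : ringChar (ZMod p) ≠ 2 := (ZMod.ringChar_zmod_n p).trans_ne hp2
  have hm0 : 0 < m := by have := hp.out.two_le; omega
  rw [jacobsthal, Int.cast_sum]
  have e : ∀ x : ZMod p, ((quadraticChar (ZMod p) (x ^ 3 - 1 * x) : ℤ) : ZMod p) =
      ∑ j ∈ range (2 * m + 1), ((-1) ^ (2 * m - j) * ((2 * m).choose j : ZMod p)) *
        x ^ (2 * m + 2 * j) := by
    intro x
    rw [quadraticChar_eq_pow_of_char_ne_two' hF, ZMod.card, show p / 2 = 2 * m by omega,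
      show x ^ 3 - 1 * x = x * (x ^ 2 + -1) by ring, mul_pow, add_pow, Finset.mul_sum]
    refine Finset.sum_congr rfl fun j _ => ?_
    rw [← pow_mul, pow_add]
    ring
  rw [Finset.sum_congr rfl fun x _ => e x, Finset.sum_comm]
  simp only [← Finset.mul_sum]
  rw [Finset.sum_eq_single m]
  · rw [sum_pow_eq_ite (by omega), if_pos (by rw [show p - 1 = 2 * m + 2 * m by omega]),
      show 2 * m - m = m by omega]
    ring
  · intro j hj hjm
    rw [mem_range] at hj
    rw [sum_pow_eq_ite (by omega), if_neg, mul_zero]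
    rintro ⟨c, hc⟩
    rw [show p - 1 = 4 * m by omega] at hc
    rcases (show c = 0 ∨ c = 1 ∨ 2 ≤ c by omega) with h | h | h
    · subst h; omega
    · subst h; omega
    · have := Nat.mul_le_mul_left (4 * m) h
      omega
  · intro h; simp at h; omega

/-- The odd part of a representation as two squares is unique up to sign. -/
theorem sq_eq_of_two_squares {a b a' b' : ℤ} (h : (p : ℤ) = a ^ 2 + b ^ 2)
    (h' : (p : ℤ) = a' ^ 2 + b' ^ 2) (ha : a % 2 = 1) (ha' : a' % 2 = 1) (hb' : b' % 2 = 0) :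
    a ^ 2 = a' ^ 2 := by
  have hpI : Prime (p : ℤ) := Nat.prime_iff_prime_int.mp hp.out
  have hkey : ∀ s : ℤ, s = 1 ∨ s = -1 → (p : ℤ) ∣ a * b' + s * (a' * b) →
      a * b' + s * (a' * b) = 0 := by
    intro s hs hd
    by_contra hne
    obtain ⟨c, hc⟩ := hd
    have hid : (a * b' + s * (a' * b)) ^ 2 + (a * a' - s * (b * b')) ^ 2 = (p : ℤ) ^ 2 := by
      rcases hs with rfl | rfl
      · linear_combination (-(a' ^ 2 + b' ^ 2)) * h + (-(p : ℤ)) * h'
      · linear_combination (-(a' ^ 2 + b' ^ 2)) * h + (-(p : ℤ)) * h'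
    have hc0 : c ≠ 0 := fun h0 => hne (by rw [hc, h0, mul_zero])
    have h1 : (p : ℤ) ^ 2 ≤ (a * b' + s * (a' * b)) ^ 2 := by
      rw [hc, mul_pow]
      exact le_mul_of_one_le_right (sq_nonneg _) (by
        have := Int.one_le_abs hc0
        nlinarith [sq_abs c])
    have h2 : (a * a' - s * (b * b')) ^ 2 = 0 := le_antisymm (by linarith) (sq_nonneg _)
    have h3 := pow_eq_zero_iff (two_ne_zero) |>.mp h2
    have h4 : a * a' % 2 = 1 := by rw [Int.mul_emod, ha, ha']; rfl
    have h5 : s * (b * b') % 2 = 0 := by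
      rw [Int.mul_emod, Int.mul_emod b, hb', mul_zero]; simp
    omega
  have hd : (p : ℤ) ∣ (a * b' + 1 * (a' * b)) * (a * b' + -1 * (a' * b)) :=
    ⟨b' ^ 2 - b ^ 2, by linear_combination (-b' ^ 2) * h + b ^ 2 * h'⟩
  have hz : (a * b') ^ 2 = (a' * b) ^ 2 := by
    rcases hpI.dvd_or_dvd hd with hd' | hd'
    · have := hkey 1 (Or.inl rfl) hd'
      linear_combination (a * b' - a' * b) * this
    · have := hkey (-1) (Or.inr rfl) hd'
      linear_combination (a * b' + a' * b) * this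
  have hp0 : (p : ℤ) ≠ 0 := by exact_mod_cast hp.out.ne_zero
  refine mul_left_cancel₀ hp0 ?_
  linear_combination hz + a ^ 2 * h' - a' ^ 2 * h

end FA.CM

namespace FA.Summary

open FA.CM

variable (p : ℕ) [Fact p.Prime]

/-- **Gauss's binomial congruence**, with the least residue. -/
theorem gauss_binomial (a b : ℤ) (h : (p : ℤ) = a ^ 2 + b ^ 2) (ha : a % 4 = 1) (hp : p % 4 = 1) :
    (((p - 1) / 2).choose ((p - 1) / 4) : ZMod p) = 2 * (a : ZMod p) ∧ 4 * |a| < p := by
  obtain ⟨m, hm⟩ : ∃ m, p = 4 * m + 1 := ⟨p / 4, by omega⟩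
  have hp2 : p ≠ 2 := by omega
  rw [show (p - 1) / 2 = 2 * m by omega, show (p - 1) / 4 = m by omega]
  refine ⟨?_, ?_⟩
  swap
  · have ha2 : a ^ 2 % 4 = 1 := by rw [pow_two, Int.mul_emod, ha]; rfl
    have hb0 : b ≠ 0 := by
      rintro rfl
      have hsq : IsSquare (p : ℤ) := ⟨a, by rw [h]; ring⟩
      exact (Nat.prime_iff_prime_int.mp (Fact.out : p.Prime)).irreducible.not_isSquare hsq
    obtain ⟨c, hc⟩ : (2 : ℤ) ∣ b := by
      rcases Int.emod_two_eq b with e | e
      · exact Int.dvd_of_emod_eq_zero e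
      · exfalso
        have hb2 : b ^ 2 % 2 = 1 := by rw [pow_two, Int.mul_emod, e]; rfl
        omega
    have hc1 : 1 ≤ c ^ 2 := by
      have := Int.one_le_abs (show c ≠ 0 by omega)
      nlinarith [sq_abs c]
    have hne : |a| ≠ 2 := by rcases abs_choice a with e | e <;> omega
    have := Int.one_le_abs (show |a| - 2 ≠ 0 by omega)
    rw [hc] at h
    nlinarith [sq_abs a, sq_abs (|a| - 2)]
  obtain ⟨k, b', hab, heven, hap⟩ := exists_apOfModel_curve32 (p := p) hp
  rw [apOfModel_curve32 hp2] at hap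
  have hJ := jacobsthal_cast (p := p) hp2 hm
  rw [show jacobsthal (1 : ZMod p) = -(2 * (2 * k + 1)) by linarith] at hJ
  have hsq := sq_eq_of_two_squares (p := p) h
    (show (p : ℤ) = (2 * k + 1) ^ 2 + (2 * b') ^ 2 by rw [hab]; ring) (by omega) (by omega) (by omega)
  have hpar : (-1 : ℤ) ^ m * (2 * k + 1) = a := by
    obtain ⟨r, hr⟩ := Int.even_mul_succ_self k
    obtain ⟨s, hs⟩ := heven
    have hm2 : (m : ℤ) = 2 * r + b' ^ 2 := by
      have : (p : ℤ) = 4 * m + 1 := by exact_mod_cast hm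
      rw [hab] at this
      linarith [show (2 * k + 1) ^ 2 = 4 * (k * (k + 1)) + 1 by ring]
    have hb : b' ^ 2 % 2 = b' % 2 := by
      rw [pow_two, Int.mul_emod]
      rcases Int.emod_two_eq b' with e | e <;> rw [e] <;> rfl
    rcases Nat.even_or_odd m with he | ho
    · rw [he.neg_one_pow, one_mul]
      have hm' : (m : ℤ) % 2 = 0 := by exact_mod_cast Nat.even_iff.mp he
      rcases sq_eq_sq_iff_eq_or_eq_neg.mp hsq with e | e <;> omega
    · rw [ho.neg_one_pow]
      have hm' : (m : ℤ) % 2 = 1 := by exact_mod_cast Nat.odd_iff.mp ho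
      rcases sq_eq_sq_iff_eq_or_eq_neg.mp hsq with e | e <;> omega
  have hsq1 : ((-1 : ZMod p) ^ m) * (-1) ^ m = 1 := by rw [← mul_pow]; norm_num
  rw [← hpar]
  push_cast at hJ ⊢
  linear_combination (-1 : ZMod p) ^ m * hJ - ((2 * m).choose m : ZMod p) * hsq1

/-- **Fermat's two squares by Gauss's formula**: `2 a` is the least residue of the binomial
coefficient, so `a` is unique. -/
theorem gauss_two_squares_unique (a a' b b' : ℤ) (h : (p : ℤ) = a ^ 2 + b ^ 2)
    (h' : (p : ℤ) = a' ^ 2 + b' ^ 2) (ha : a % 4 = 1) (ha' : a' % 4 = 1) (hp : p % 4 = 1) :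
    a = a' := by
  obtain ⟨e, hb⟩ := gauss_binomial p a b h ha hp
  obtain ⟨e', hb'⟩ := gauss_binomial p a' b' h' ha' hp
  have h2 : (2 : ZMod p) * ((a - a' : ℤ) : ZMod p) = 0 := by
    push_cast
    linear_combination e' - e
  have h20 : (2 : ZMod p) ≠ 0 := by
    rw [show (2 : ZMod p) = ((2 : ℕ) : ZMod p) by norm_num, Ne, ZMod.natCast_eq_zero_iff]
    intro hd
    have := Nat.le_of_dvd two_pos hd
    have := (Fact.out : p.Prime).two_le
    omega
  have hd : (p : ℤ) ∣ a - a' :=
    (ZMod.intCast_zmod_eq_zero_iff_dvd _ p).mp ((mul_eq_zero.mp h2).resolve_left h20)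
  have hlt : |a - a'| < p := by
    have h5 : (5 : ℤ) ≤ p := by
      have := (Fact.out : p.Prime).two_le
      omega
    have := abs_sub a a'
    omega
  have := Int.eq_zero_of_abs_lt_dvd hd hlt
  omega

end FA.Summary
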