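import Fermat.Agent.Forms3.EightLattice

/-!
# The lattice `E₈`

* `e8_unimodular`: a Gram matrix of `E₈`, symmetric, even, positive definite, with integral
  inverse;
* `e8_representations`: it represents `2 n` exactly `240 σ₃(n)` times, its theta series is `E₄`;
* `e8e8_representations`, `sigma_seven_convolution`: two copies represent `2 n` exactly `480 σ₇(n)`
  times, as `E₄² = E₈`, whence `σ₇(n) = σ₃(n) + 120 ∑ σ₃(m) σ₃(n - m)`.
-/

set_option autoImplicit false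

noncomputable section

open scoped ArithmeticFunction.sigma

namespace FA.Summary

open FA.EightLattice FA.QuarticTheta

/-- The Gram matrix of `E₈` used below. -/
def e8Gram : Matrix (Fin 8) (Fin 8) ℤ :=
  !![2, 1, 1, 1, 0, 1, 1, 1;
    1, 2, 1, 1, 1, 0, 1, 1;
    1, 1, 2, 1, 1, 1, 0, 1;
    1, 1, 1, 2, 1, 1, 1, 0;
    0, 1, 1, 1, 2, 0, 0, 0;
    1, 0, 1, 1, 0, 2, 0, 0;
    1, 1, 0, 1, 0, 0, 2, 0;
    1, 1, 1, 0, 0, 0, 0, 2]

/-- **`E₈` is an even unimodular positive lattice.** -/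
theorem e8_unimodular :
    e8Gram.transpose = e8Gram ∧ (∀ i, Even (e8Gram i i)) ∧
      (∀ y : Fin 8 → ℤ, y ≠ 0 → 0 < ∑ i, ∑ j, y i * e8Gram i j * y j) ∧
      IsUnit e8Gram := by
  refine ⟨?_, ?_, fun y hy => gram_pos hy, ?_⟩
  · unfold e8Gram
    decide +kernel
  · intro i
    fin_cases i <;> simp [e8Gram]
  · refine IsUnit.of_mul_eq_one (!![2, 0, 0, 0, 0, -1, -1, -1;
      0, 2, 0, 0, -1, 0, -1, -1;
      0, 0, 2, 0, -1, -1, 0, -1;
      0, 0, 0, 2, -1, -1, -1, 0;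
      0, -1, -1, -1, 2, 1, 1, 1;
      -1, 0, -1, -1, 1, 2, 1, 1;
      -1, -1, 0, -1, 1, 1, 2, 1;
      -1, -1, -1, 0, 1, 1, 1, 2] : Matrix (Fin 8) (Fin 8) ℤ) ?_
    unfold e8Gram
    decide +kernel

/-- **The theta series of `E₈` is `E₄`**: `240 σ₃(n)` vectors of norm `2 n`. -/
theorem e8_representations (n : ℕ) (hn : 0 < n) :
    Nat.card {y : Fin 8 → ℤ // ∑ i, ∑ j, y i * e8Gram i j * y j = 2 * (n : ℤ)} = 240 * σ 3 n := by
  have h : Nat.card {y : Fin 8 → ℤ // ∑ i, ∑ j, y i * e8Gram i j * y j = 2 * (n : ℤ)} =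
      (latVecs n).card := by
    rw [← Nat.card_eq_finsetCard]
    exact Nat.card_congr (Equiv.subtypeEquivRight fun y => mem_latVecs.symm)
  rw [h, card_latVecs]
  exact_mod_cast card_codeTuples hn.ne'

/-- **Two copies of `E₈`**: `480 σ₇(n)` vectors of norm `2 n`, as `E₄² = E₈`. -/
theorem e8e8_representations (n : ℕ) (hn : 0 < n) :
    Nat.card {w : (Fin 8 → ℤ) × (Fin 8 → ℤ) //
      ∑ i, ∑ j, w.1 i * e8Gram i j * w.1 j + ∑ i, ∑ j, w.2 i * e8Gram i j * w.2 j =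
        2 * (n : ℤ)} = 480 * σ 7 n := by
  let e8q : (Fin 8 → ℤ) → ℕ := fun y => ((∑ i, ∑ j, y i * e8Gram i j * y j) / 2).toNat
  have key : ∀ y : Fin 8 → ℤ, ∑ i, ∑ j, y i * e8Gram i j * y j = 2 * (e8q y : ℤ) := fun y => by
    have h := sum_sq_embed y
    have hev : (2 : ℤ) ∣ ∑ i, ∑ j, y i * e8Gram i j * y j := by
      simp [Fin.sum_univ_eight, e8Gram]
      refine ⟨y 0 ^ 2 + y 1 ^ 2 + y 2 ^ 2 + y 3 ^ 2 + y 4 ^ 2 + y 5 ^ 2 + y 6 ^ 2 + y 7 ^ 2 +
        y 0 * (y 1 + y 2 + y 3) + y 1 * (y 2 + y 3) + y 2 * y 3 +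
        y 4 * (y 1 + y 2 + y 3) + y 5 * (y 0 + y 2 + y 3) + y 6 * (y 0 + y 1 + y 3) +
        y 7 * (y 0 + y 1 + y 2), by ring⟩
    have hpos : 0 ≤ ∑ i, ∑ j, y i * e8Gram i j * y j := by
      rcases eq_or_ne y 0 with rfl | hy
      · simp
      · exact (gram_pos hy).le
    simp only [e8q]
    rw [Int.toNat_of_nonneg (by omega), Int.mul_ediv_cancel' hev]
  have hmem : ∀ m (y : Fin 8 → ℤ), y ∈ latVecs m ↔ e8q y = m := fun m y => by
    rw [mem_latVecs, show ∑ i, ∑ j, y i * gram i j * y j = 2 * (e8q y : ℤ) from key y]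
    omega
  let U : ℕ → Finset ((Fin 8 → ℤ) × (Fin 8 → ℤ)) := fun m =>
    (((Finset.range (m + 1)).biUnion latVecs) ×ˢ ((Finset.range (m + 1)).biUnion latVecs)).filter
      fun w => e8q w.1 + e8q w.2 = m
  have hU : ∀ m (w : (Fin 8 → ℤ) × (Fin 8 → ℤ)), w ∈ U m ↔ e8q w.1 + e8q w.2 = m := fun m w => by
    simp only [U, Finset.mem_filter, Finset.mem_product, Finset.mem_biUnion, Finset.mem_range,
      hmem, exists_eq_right', and_iff_right_iff_imp]
    omega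
  have h := fibreSer_mul e8q hmem e8q hmem (U := U) (Equiv.refl _) (by simpa using hU)
    (fun _ => 1) (fun _ => 1)
  rw [latSer_eq, eFourInt_sq] at h
  have hc := congrArg (PowerSeries.coeff n) h
  simp only [eEightInt, fibreSer, PowerSeries.coeff_mk, if_neg hn.ne', Finset.sum_const,
    nsmul_eq_mul, mul_one] at hc
  have e : Nat.card {w : (Fin 8 → ℤ) × (Fin 8 → ℤ) //
      ∑ i, ∑ j, w.1 i * e8Gram i j * w.1 j + ∑ i, ∑ j, w.2 i * e8Gram i j * w.2 j =
        2 * (n : ℤ)} = (U n).card := by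
    rw [← Nat.card_eq_finsetCard]
    refine Nat.card_congr (Equiv.subtypeEquivRight fun w => ?_)
    rw [hU, key, key]
    omega
  rw [e]
  exact_mod_cast hc.symm

/-- **`E₄² = E₈` on coefficients.** -/
theorem sigma_seven_convolution (n : ℕ) (hn : 0 < n) :
    σ 7 n = σ 3 n + 120 * ∑ m ∈ Finset.Ico 1 n, σ 3 m * σ 3 (n - m) := by
  obtain ⟨k, rfl⟩ : ∃ k, n = k + 1 := ⟨n - 1, by omega⟩
  have h := congrArg (PowerSeries.coeff (k + 1)) eFourInt_sq
  rw [PowerSeries.coeff_mul, Finset.Nat.sum_antidiagonal_eq_sum_range_succ_mk,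
    Finset.sum_range_succ, Finset.range_eq_Ico, Finset.sum_eq_sum_Ico_succ_bot (by omega)] at h
  simp only [FA.Tau.eFourInt, eEightInt, PowerSeries.coeff_mk, Nat.sub_zero, Nat.sub_self,
    zero_add, if_pos, if_neg (show k + 1 ≠ 0 by omega)] at h
  rw [Finset.sum_congr rfl fun m hm => show _ = 57600 * ((σ 3 m * σ 3 (k + 1 - m) : ℕ) : ℤ) by
    rw [Finset.mem_Ico] at hm
    rw [if_neg (by omega), if_neg (by omega)]
    push_cast
    ring, ← Finset.mul_sum, ← Nat.cast_sum] at h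
  omega

end FA.Summary

end
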