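import Fermat.Agent.UnimodularTheta.Bound
import Fermat.Agent.Root.SummaryEightLattice

/-!
# Summary: even unimodular lattices

For an integral symmetric positive form of determinant one with even diagonal in `n` variables, with
`r(m)` vectors of value `2 m`: `8 ∣ n`; the theta series is a form of level one and weight `n / 2`;
`r(m) = 240 σ₃(m)` for `n = 8`, `480 σ₇(m)` for `n = 16`, one free number for `n = 24`; in general
the Eisenstein term up to `O(m^(n/4 - 1/4) (1 + log m)^6)`, so every large `m` is represented; some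
nonzero vector has value at most `2 ⌊n / 24⌋ + 2`. Higher levels, Siegel's average over a genus and
theta series with spherical polynomials are not treated.
-/

set_option autoImplicit false

noncomputable section

namespace FA.Summary

open UpperHalfPlane hiding I
open Complex Filter
open scoped MatrixGroups Real ArithmeticFunction.sigma
open UnimodularTheta (IsEvenUnimodular normQ repCount)

variable {n : ℕ} {Q : Matrix (Fin n) (Fin n) ℤ}

/-- The hypotheses spelt out; finiteness of the counts. -/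
theorem unimodularLattice_def :
    (IsEvenUnimodular Q ↔ Q.transpose = Q ∧ (∀ i, Even (Q i i)) ∧
      (∀ v : Fin n → ℤ, v ≠ 0 → 0 < ∑ i, ∑ j, v i * Q i j * v j) ∧ Q.det = 1) ∧
    (∀ v : Fin n → ℤ, normQ Q v = ∑ i, ∑ j, v i * Q i j * v j) ∧
    ∀ m : ℕ, repCount Q m = Nat.card {v : Fin n → ℤ // normQ Q v = 2 * (m : ℤ)} ∧
      (IsEvenUnimodular Q → {v : Fin n → ℤ | normQ Q v = 2 * (m : ℤ)}.Finite) := by
  have hq : ∀ v : Fin n → ℤ, normQ Q v = ∑ i, ∑ j, v i * Q i j * v j := fun v => by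
    simp only [normQ, Matrix.mulVec, dotProduct, Finset.mul_sum, mul_assoc]
  exact ⟨⟨fun h => ⟨h.symm, h.even, fun v hv => hq v ▸ h.pos v hv, h.det_eq⟩,
      fun h => ⟨h.1, h.2.1, fun v hv => (hq v).symm ▸ h.2.2.1 v hv, h.2.2.2⟩⟩, hq,
    fun m => ⟨rfl, fun h => UnimodularTheta.finite_rep h m⟩⟩

/-- The rank is divisible by eight. -/
theorem unimodularLattice_eight_dvd (hQ : IsEvenUnimodular Q) : 8 ∣ n :=
  UnimodularTheta.eight_dvd hQ

/-- **Hecke**: the theta series is a modular form of level one and weight `n / 2`. -/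
theorem unimodularLattice_theta (hQ : IsEvenUnimodular Q) :
    ∃ f : ModularForm 𝒮ℒ ((n / 2 : ℕ) : ℤ),
      (∀ z : ℍ, f z = ∑' v : Fin n → ℤ, cexp (π * I * normQ Q v * z)) ∧
      ∀ m, (qExpansion 1 f).coeff m = (repCount Q m : ℂ) := by
  obtain ⟨j, hj⟩ := UnimodularTheta.eight_dvd hQ
  refine ⟨ModularForm.mcast (show ((4 * (n / 8) : ℕ) : ℤ) = ((n / 2 : ℕ) : ℤ) by omega)
    (UnimodularTheta.thetaForm hQ), fun z => rfl, fun m => ?_⟩
  rw [ModularForm.qExpansion_mcast, UnimodularTheta.coeff_thetaForm]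

/-- Rank `8`. -/
theorem unimodularLattice_eight (hQ : IsEvenUnimodular Q) (hn : n = 8) {m : ℕ} (hm : m ≠ 0) :
    repCount Q m = 240 * σ 3 m :=
  UnimodularTheta.repCount_eight hQ hn hm

/-- Rank `16`. -/
theorem unimodularLattice_sixteen (hQ : IsEvenUnimodular Q) (hn : n = 16) {m : ℕ} (hm : m ≠ 0) :
    repCount Q m = 480 * σ 7 m :=
  UnimodularTheta.repCount_sixteen hQ hn hm

/-- Rank `24`: all is determined by the number of roots. -/
theorem unimodularLattice_twentyFour (hQ : IsEvenUnimodular Q) (hn : n = 24) {m : ℕ} (hm : m ≠ 0) :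
    (repCount Q m : ℂ) = 65520 / 691 * (σ 11 m : ℂ) +
      ((repCount Q 1 : ℂ) - 65520 / 691) * (qExpansion 1 ModularForm.discriminant).coeff m :=
  UnimodularTheta.repCount_twentyFour hQ hn hm

/-- **Siegel's main term**: with `k = n / 2`,
`r(m) = -(2 k / B_k) σ_(k-1)(m) + O(m^(k/2 - 1/4) (1 + log m)^6)`. -/
theorem unimodularLattice_asymptotic (hQ : IsEvenUnimodular Q) (hn : 0 < n) :
    ∃ C : ℝ, ∀ m : ℕ, 1 ≤ m →
      ‖(repCount Q m : ℂ) + 2 * ((n / 2 : ℕ) : ℂ) / bernoulli (n / 2) * σ (n / 2 - 1) m‖ ≤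
        C * (m : ℝ) ^ (((n / 2 : ℕ) : ℝ) / 2 - 1 / 4) * (1 + Real.log m) ^ 6 := by
  obtain ⟨j, hj⟩ := UnimodularTheta.eight_dvd hQ
  have e : n / 2 = 4 * (n / 8) := by omega
  rw [e]
  exact UnimodularTheta.repCount_asymptotic hQ hn

/-- Every sufficiently large even number is represented. -/
theorem unimodularLattice_represents (hQ : IsEvenUnimodular Q) (hn : 0 < n) :
    ∀ᶠ m : ℕ in atTop, ∃ v : Fin n → ℤ, normQ Q v = 2 * (m : ℤ) := by
  filter_upwards [UnimodularTheta.repCount_eventually_pos hQ hn] with m hm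
  obtain ⟨⟨v, hv⟩⟩ := (Nat.card_pos_iff.1 hm).1
  exact ⟨v, hv⟩

/-- **Mallows, Odlyzko, Sloane**: the minimum is at most `2 ⌊n / 24⌋ + 2`. -/
theorem unimodularLattice_minimum_le (hQ : IsEvenUnimodular Q) (hn : 0 < n) :
    ∃ v : Fin n → ℤ, v ≠ 0 ∧ normQ Q v ≤ 2 * ((n / 24 : ℕ) : ℤ) + 2 :=
  UnimodularTheta.exists_normQ_le hQ hn

/-- The Gram matrix of `E₈` meets the hypotheses. -/
theorem unimodularLattice_example : IsEvenUnimodular e8Gram := by
  obtain ⟨hs, he, hp, hu⟩ := e8_unimodular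
  refine IsEvenUnimodular.of_isUnit hs he (fun v hv => ?_) hu
  rw [unimodularLattice_def.2.1]
  exact hp v hv

end FA.Summary

end
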