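import Fermat.Agent.Venkov.EightUnique
import Fermat.Agent.Root.SummaryUnimodularLattices

/-!
# Summary: Venkov's designs and the uniqueness of `E₈`

In an even unimodular lattice of rank `n ≤ 24` every shell is a spherical 2-design, so a nonempty
one spans; in rank `24` each root has `r(1)/12 - 4` neighbours and `24 ∣ r(1)`; in rank eight there
is only `E₈`. The classifications in ranks `16` and `24` and higher designs are not treated.
-/

set_option autoImplicit false

noncomputable section

namespace FA.Summary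

open Matrix
open UnimodularTheta (IsEvenUnimodular normQ repCount realMat)

variable {n : ℕ} {Q : Matrix (Fin n) (Fin n) ℤ}

/-- The shells and the inner product. -/
theorem venkov_def (hQ : IsEvenUnimodular Q) :
    (∀ (m : ℕ) (v : Fin n → ℤ), v ∈ Venkov.shell hQ m ↔ normQ Q v = 2 * (m : ℤ)) ∧
    (∀ m, (Venkov.shell hQ m).card = repCount Q m) ∧
    ∀ v w : Fin n → ℤ, Venkov.innerQ Q v w = v ⬝ᵥ Q *ᵥ w :=
  ⟨fun _ _ => Venkov.mem_shell hQ, Venkov.card_shell hQ, fun _ _ => rfl⟩

/-- **Venkov**: the shells are spherical 2-designs. -/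
theorem venkov_design (hQ : IsEvenUnimodular Q) (hn : n ≤ 24) (m : ℕ) (x : Fin n → ℝ) :
    (n : ℝ) * ∑ v ∈ Venkov.shell hQ m, (x ⬝ᵥ realMat Q *ᵥ fun i => (v i : ℝ)) ^ 2 =
      2 * (m : ℝ) * repCount Q m * (x ⬝ᵥ realMat Q *ᵥ x) :=
  Venkov.design hQ hn m x

/-- A nonempty shell spans. -/
theorem venkov_shell_span (hQ : IsEvenUnimodular Q) (hn : n ≤ 24) {m : ℕ} (hm : 0 < m)
    (hr : 0 < repCount Q m) :
    Submodule.span ℝ
      ((fun v i => (v i : ℝ)) '' (Venkov.shell hQ m : Set (Fin n → ℤ))) = ⊤ :=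
  Venkov.shell_span hQ hn hm hr

/-- In ranks `8` and `16` the roots span. -/
theorem venkov_roots_span (hQ : IsEvenUnimodular Q) (hn : n = 8 ∨ n = 16) :
    Submodule.span ℝ
      ((fun v i => (v i : ℝ)) '' (Venkov.shell hQ 1 : Set (Fin n → ℤ))) = ⊤ := by
  refine Venkov.shell_span hQ (by omega) one_pos ?_
  rcases hn with h | h
  · rw [UnimodularTheta.repCount_eight hQ h one_ne_zero]
    simp [ArithmeticFunction.sigma_apply]
  · rw [UnimodularTheta.repCount_sixteen hQ h one_ne_zero]
    simp [ArithmeticFunction.sigma_apply]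

/-- **Coxeter numbers**: in rank `24` the number `2 h - 4` of neighbours is the same at every root,
`h = r(1)/24`. -/
theorem venkov_coxeter (hQ : IsEvenUnimodular Q) (hn : n = 24) :
    24 ∣ repCount Q 1 ∧ ∀ a ∈ Venkov.shell hQ 1,
      ((Venkov.shell hQ 1).filter fun b => Venkov.innerQ Q a b = 1).card + 4 =
        2 * (repCount Q 1 / 24) := by
  refine ⟨Venkov.twentyFour_dvd_roots hQ hn, fun a ha => ?_⟩
  obtain ⟨h, k, hk⟩ := Venkov.root_neighbours hQ hn ha
  omega

/-- **Mordell**: `E₈` is the only even unimodular lattice of rank eight. -/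
theorem eightLattice_unique {P : Matrix (Fin 8) (Fin 8) ℤ} (hP : IsEvenUnimodular P) :
    ∃ U : Matrix (Fin 8) (Fin 8) ℤ, IsUnit U ∧ U.transpose * P * U = e8Gram :=
  Venkov.equivalent hP unimodularLattice_example

end FA.Summary

end
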