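import Fermat.Agent.LandauSquares.Constant

/-!
# Landau's theorem on sums of two squares

The positive sums of two squares up to `N` number asymptotically `C N / √(log N)` with
`C = √(∏_(p ≡ 3 (4)) (1 - p⁻²)⁻¹ / 2)` (Landau 1908; Ramanujan), their reciprocals sum to about
`2 C √(log N)`, they outnumber the primes and have density zero; on the way, Mertens' first theorem
in the classes modulo 4 with bounded error.

Proved by a Wirsing argument from Mertens, the prime number theorem in progressions and an Euler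
product. Error terms are not claimed; there is no link with Fermat's last theorem.
-/

set_option autoImplicit false

noncomputable section

namespace FA.LandauSquares.Summary

open Finset Filter
open scoped Topology Classical

/-- The count as a sum of the indicator. -/
theorem card_eq (N : ℕ) :
    (((Icc 1 N).filter fun n : ℕ => ∃ a b : ℕ, n = a ^ 2 + b ^ 2).card : ℝ) =
      ∑ n ∈ Icc 1 N, sqInd n := by
  rw [card_filter, Nat.cast_sum]
  refine sum_congr rfl fun n hn => ?_
  rw [sqInd, apply_ite Nat.cast, Nat.cast_one, Nat.cast_zero]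
  exact if_congr ⟨fun h => ⟨by have := (mem_Icc.1 hn).1; omega, evenExp_iff_exists.2 h⟩,
    fun h => evenExp_iff_exists.1 h.2⟩ rfl rfl

/-- **Landau's theorem, with Ramanujan's constant.** -/
theorem landau :
    Tendsto (fun N : ℕ => (((Icc 1 N).filter fun n : ℕ => ∃ a b : ℕ, n = a ^ 2 + b ^ 2).card : ℝ) *
        Real.sqrt (Real.log N) / N) atTop
      (𝓝 (Real.sqrt ((∏' p : Nat.Primes,
        if (p : ℕ) % 4 = 3 then (1 - 1 / ((p : ℕ) : ℝ) ^ 2)⁻¹ else 1) / 2))) := by
  simp only [card_eq]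
  exact count_tendsto_threeProd

/-- The constant is positive and is that of the logarithmic mean, halved. -/
theorem landau_logarithmic : ∃ C : ℝ, 0 < C ∧
    Tendsto (fun N : ℕ => (((Icc 1 N).filter fun n : ℕ => ∃ a b : ℕ, n = a ^ 2 + b ^ 2).card : ℝ) *
        Real.sqrt (Real.log N) / N) atTop (𝓝 C) ∧
    Tendsto (fun N : ℕ => (∑ n ∈ (Icc 1 N).filter (fun n : ℕ => ∃ a b : ℕ, n = a ^ 2 + b ^ 2),
        (1 : ℝ) / n) / Real.sqrt (Real.log N)) atTop (𝓝 (2 * C)) := by
  obtain ⟨C, hC, h1, h2⟩ := exists_count_asymptotic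
  refine ⟨C, hC, by simpa only [card_eq] using h1, h2.congr fun N => ?_⟩
  rw [logMean, sum_filter]
  congr 1
  refine sum_congr rfl fun n hn => ?_
  have hiff : (n ≠ 0 ∧ EvenExp n) ↔ ∃ a b : ℕ, n = a ^ 2 + b ^ 2 :=
    ⟨fun h => evenExp_iff_exists.1 h.2,
      fun h => ⟨by have := (mem_Icc.1 hn).1; omega, evenExp_iff_exists.2 h⟩⟩
  rw [sqInd, ite_div, zero_div]
  exact if_congr hiff rfl rfl

/-- They have density zero. -/
theorem landau_density_zero :
    Tendsto (fun N : ℕ => (((Icc 1 N).filter fun n : ℕ => ∃ a b : ℕ, n = a ^ 2 + b ^ 2).card : ℝ) /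
        N) atTop (𝓝 0) := by
  have hs : Tendsto (fun N : ℕ => Real.sqrt (Real.log N)) atTop atTop :=
    Real.tendsto_sqrt_atTop.comp (Real.tendsto_log_atTop.comp tendsto_natCast_atTop_atTop)
  have h := landau.mul hs.inv_tendsto_atTop
  rw [mul_zero] at h
  refine h.congr' ?_
  filter_upwards [hs.eventually_gt_atTop 0] with N hN
  simp only [Pi.inv_apply]
  field_simp

/-- They outnumber the primes. -/
theorem landau_outnumber_primes :
    Tendsto (fun N : ℕ => (((Icc 1 N).filter fun n : ℕ => ∃ a b : ℕ, n = a ^ 2 + b ^ 2).card : ℝ) /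
        Nat.primeCounting N) atTop atTop := by
  obtain ⟨C, hC, h1, -⟩ := landau_logarithmic
  have hp := (PNT.Summary.prime_number_theorem.comp
    (tendsto_natCast_atTop_atTop (R := ℝ))).inv₀ one_ne_zero
  have hs : Tendsto (fun N : ℕ => Real.sqrt (Real.log N)) atTop atTop :=
    Real.tendsto_sqrt_atTop.comp (Real.tendsto_log_atTop.comp tendsto_natCast_atTop_atTop)
  have h := (h1.mul hp).pos_mul_atTop (by rw [inv_one, mul_one]; exact hC) hs
  refine h.congr' ?_
  filter_upwards [hs.eventually_gt_atTop 0, eventually_ge_atTop 2] with N hN hN2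
  have hl : (0 : ℝ) < Real.log N := Real.sqrt_pos.1 hN
  have hn : (0 : ℝ) < N := Nat.cast_pos.2 (by omega)
  simp only [Function.comp_apply, Nat.floor_natCast]
  field_simp
  rw [Real.sq_sqrt hl.le]

/-- **Mertens' first theorem in the classes modulo 4.** -/
theorem mertens_mod_four (a : ℕ) (ha : a = 1 ∨ a = 3) : ∃ C : ℝ, ∀ N : ℕ, 1 ≤ N →
    |∑ p ∈ (Icc 1 N).filter (fun p => p.Prime ∧ p % 4 = a), Real.log p / p - Real.log N / 2| ≤
      C := by
  obtain ⟨T, hT⟩ := exists_abs_twisted_le
  obtain ⟨E, hE⟩ := exists_sum_smallPart_div_le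
  obtain ⟨M, hM⟩ := ErdosKac.exists_abs_sum_log_div_sub_le
  refine ⟨(M + T + E + 1) / 2, fun N hN => ?_⟩
  obtain ⟨σ, hσdef⟩ : ∃ σ : ℝ, σ = if a = 1 then 1 else -1 := ⟨_, rfl⟩
  obtain ⟨Y, hY⟩ : ∃ Y : ℝ, Y = ∑ d ∈ Icc 1 N, if d.Prime then chi d * (Real.log d / d) else 0 :=
    ⟨_, rfl⟩
  have hY1 : |Y - twisted N| ≤ E := by
    rw [hY, twisted, ← sum_sub_distrib]
    refine (abs_sum_le_sum_abs _ _).trans ((sum_le_sum fun d _ => ?_).trans (hE N))
    rw [smallPart]
    have h0 : (0 : ℝ) ≤ ArithmeticFunction.vonMangoldt d := ArithmeticFunction.vonMangoldt_nonneg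
    by_cases hp : d.Prime
    · rw [if_pos hp, ArithmeticFunction.vonMangoldt_apply_prime hp, mul_comm (Real.log d),
        mul_div_assoc, sub_self, abs_zero]
      split_ifs <;> positivity
    · rw [if_neg hp, if_neg (fun h => hp h.1), zero_sub, abs_neg, abs_div, abs_mul,
        abs_of_nonneg h0, Nat.abs_cast]
      exact div_le_div_of_nonneg_right
        (by nlinarith [abs_chi_le d, abs_nonneg (chi d)]) (Nat.cast_nonneg d)
  have hP := abs_le.1 (hM N hN)
  rw [ErdosKac.primesUpTo, sum_filter] at hP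
  have e : ∑ p ∈ (Icc 1 N).filter (fun p => p.Prime ∧ p % 4 = a), Real.log p / p =
      ((∑ d ∈ Icc 1 N, if d.Prime then Real.log d / d else 0) + σ * Y -
        if 2 ∈ Icc 1 N then Real.log 2 / 2 else 0) / 2 := by
    rw [hY, sum_filter, mul_sum, ← sum_add_distrib, ← sum_ite_eq' (Icc 1 N) 2
      (fun _ => Real.log 2 / 2), ← sum_sub_distrib, sum_div]
    refine sum_congr rfl fun d _ => ?_
    by_cases hp : d.Prime
    · rcases hp.eq_two_or_odd with h2 | h2
      · subst h2
        rcases ha with rfl | rfl <;> simp [chi, hp]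
      · have hd2 : d ≠ 2 := by omega
        rcases (show d % 4 = 1 ∨ d % 4 = 3 by omega) with h4 | h4 <;>
          rcases ha with rfl | rfl <;> simp [chi, hp, h4, hd2, hσdef]
    · have hd2 : d ≠ 2 := fun h => hp (h ▸ Nat.prime_two)
      simp [hp, hd2]
  have hσ : |σ * Y| ≤ T + E := by
    rw [abs_mul, show |σ| = 1 by rw [hσdef]; split_ifs <;> simp, one_mul]
    have h1 := abs_sub_abs_le_abs_sub Y (twisted N)
    linarith [hT N]
  obtain ⟨s1, s2⟩ := abs_le.1 hσ
  have h3 : 0 ≤ (if 2 ∈ Icc 1 N then Real.log 2 / 2 else 0 : ℝ) ∧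
      (if 2 ∈ Icc 1 N then Real.log 2 / 2 else 0 : ℝ) ≤ 1 := by
    split_ifs
    · constructor <;> linarith [Real.log_pos one_lt_two, Real.log_two_lt_d9]
    · norm_num
  rw [e, abs_le]
  constructor <;> linarith [h3.1, h3.2]

end FA.LandauSquares.Summary
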