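import Fermat.Agent.CharacterSums.Points

/-!
# Weil's theorem on multiplicative character sums

For a finite field with `q` elements, a character `χ` of order `d` and a monic `f` with `m`
distinct roots that is no `d`-th power: the sums `∑_(x ∈ K) χ (N (f x))` over the extensions `K` of
degree `n` are `-∑ α ^ n` for at most `m - 1` numbers with `|α| ≤ √q`; hence for every `f`, no
constant times a `d`-th power, `|∑_x χ (f x)| ≤ (m - 1) √q`, the curve `y ^ d = f x` has
`q + O ((d - 1) (m - 1) √q)` points, and every pattern of values of `χ` at shifts occurs for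
large `q` (Weil 1948).

Proved by Stepanov's method. `|α| = √q`, additive characters and general curves are not claimed;
there is no link with Fermat's last theorem.
-/

set_option autoImplicit false

noncomputable section

namespace FA.CharacterSums.Summary

open Finset Polynomial UniqueFactorizationMonoid

universe u v

variable {F : Type u} [Field F] [Fintype F] [DecidableEq F]

/-- **The Riemann hypothesis for the L-polynomial of `χ ∘ f`.** -/
theorem riemann_hypothesis (χ : MulChar F ℂ) (f : F[X]) (hf : f.Monic)
    (hnot : ¬ ∃ u : F[X], f = u ^ orderOf χ) :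
    ∃ s : Multiset ℂ,
      Multiset.card s ≤ (f.rootSet (AlgebraicClosure F)).ncard - 1 ∧
      (∀ a ∈ s, ‖a‖ ≤ Real.sqrt (Fintype.card F)) ∧
      ∀ (K : Type v) [Field K] [Fintype K] [DecidableEq K] [Algebra F K],
        ∑ x : K, χ (Algebra.norm F (aeval x f)) = -(s.map (· ^ Module.finrank F K)).sum := by
  have hnd := (nondeg_iff_not_pow hf).2 hnot
  refine ⟨lRootsC χ f, ?_, fun _ ha => norm_lRootsC_le hf hnd ha, fun K _ _ _ _ => ?_⟩
  · classical
    rw [rootSet_def, Set.ncard_coe_finset, card_aroots_eq_natDegree_radical hf.ne_zero]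
    exact card_lRootsC_le
  · rw [sum_eq_powSumC χ f, powSumC_eq_neg hf hnd Module.finrank_pos]

/-- **The bound of Weil.** -/
theorem weil_character_sum (χ : MulChar F ℂ) (f : F[X])
    (hnot : ¬ ∃ (c : F) (u : F[X]), f = C c * u ^ orderOf χ) :
    ‖∑ x : F, χ (f.eval x)‖ ≤
      ((f.rootSet (AlgebraicClosure F)).ncard - 1 : ℕ) * Real.sqrt (Fintype.card F) := by
  classical
  rw [rootSet_def, Set.ncard_coe_finset,
    card_aroots_eq_natDegree_radical fun e => hnot ⟨0, 0, by simp [e]⟩]
  exact norm_sum_mulChar_le (nondeg_of_not_pow hnot)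

/-- The points of the superelliptic curve `y ^ d = f x`. -/
theorem superelliptic_points {d : ℕ} (hd : d ∣ Fintype.card F - 1) (f : F[X]) (hsq : Squarefree f)
    (hm : 1 ≤ f.natDegree) :
    |((univ.filter fun z : F × F => z.2 ^ d = f.eval z.1).card : ℝ) - Fintype.card F| ≤
      (d - 1 : ℕ) * ((f.natDegree - 1 : ℕ) * Real.sqrt (Fintype.card F)) :=
  abs_card_points_sub_le hd hsq hm

/-- Every pattern of values of a character occurs in a large field. -/
theorem mulChar_patterns (χ : MulChar F ℂ) {k : ℕ} (a : Fin k → F) (ha : Function.Injective a)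
    (ζ : Fin k → ℂ) (hζ : ∀ i, ζ i ^ orderOf χ = 1)
    (hq : (2 * k * orderOf χ ^ k) ^ 2 < Fintype.card F) :
    ∃ x : F, ∀ i, χ (x + a i) = ζ i :=
  exists_pattern a ha ζ hζ hq

end FA.CharacterSums.Summary
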