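import Fermat.Agent.PrimeIdealTheorem.Counting
import Fermat.Agent.ArtinL.Brauer
import Mathlib.Analysis.Meromorphic.Basic

/-!
# Continuation of Dedekind zeta functions and the prime ideal theorem

For every number field `K`:

* `dedekindZeta_continuation`: `ζ_K(s) - κ / (s - 1)` is entire, `κ` the residue, and `ζ_K` has no
  zero on `1 ≤ re s`;
* `classZeta_continuation`: the same for the zeta function of every ideal class, with `κ / h`;
* `classCharacter_LSeries_entire`: the L-series of a nontrivial character of the class group is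
  entire and has no zero on `1 ≤ re s`, so `L(1, χ) ≠ 0`;
* `prime_ideal_theorem`: Landau's theorem `π_K(x) ∼ x / log x`;
* `prime_ideal_theorem_class`, `infinite_primes_in_class`: the primes are equidistributed in the
  ideal classes for natural density, and every class contains infinitely many;
* `artinL_rational_meromorphic`: the `|G|`-th power of the Artin L-series of a rational-valued
  character is meromorphic on the plane, analytic and nonzero on `1 ≤ re s` except at `1`.

No functional equation, growth bound or error term is proved; characters of ray class groups and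
Artin L-series of other characters are not treated.
-/

set_option autoImplicit false
set_option linter.unusedSectionVars false

noncomputable section

open NumberField IsDedekindDomain Module Filter Topology FA.PrimeIdeal
open scoped nonZeroDivisors Classical

namespace FA.Summary

variable (K : Type*) [Field K] [NumberField K]

/-- **`ζ_K` continues to `ℂ` with a simple pole at `1`, and has no zero on `1 ≤ re s`.** -/
theorem dedekindZeta_continuation :
    ∃ H : ℂ → ℂ, Differentiable ℂ H ∧
      (∀ s : ℂ, 1 < s.re → dedekindZeta K s = dedekindZeta_residue K / (s - 1) + H s) ∧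
      ∀ s : ℂ, 1 ≤ s.re → s ≠ 1 → dedekindZeta_residue K / (s - 1) + H s ≠ 0 := by
  obtain ⟨G, hG, h1, hG'⟩ := exists_charG (1 : ClassGroup (𝓞 K) →* ℂˣ)
  rw [if_pos rfl] at h1
  have key : ∀ s : ℂ, s ≠ 1 →
      (dedekindZeta_residue K : ℂ) / (s - 1) + dslope G 1 s = G s / (s - 1) := fun s hs => by
    have h := sub_smul_dslope G 1 s
    rw [h1, smul_eq_mul] at h
    have := sub_ne_zero.mpr hs
    field_simp
    linear_combination h
  refine ⟨dslope G 1, differentiable_dslope hG 1, fun s hs => ?_, fun s hs hs1 => ?_⟩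
  · rw [key s fun h => sub_one_ne_zero hs (sub_eq_zero.mpr h), ← hG' s hs, classLC_one hs,
      mul_div_cancel_left₀ _ (sub_one_ne_zero hs)]
  · rw [key s hs1]
    exact div_ne_zero (zetaG_ne_zero hG h1 hG' hs) (sub_ne_zero.mpr hs1)

/-- **The zeta function of an ideal class continues to `ℂ`.** -/
theorem classZeta_continuation (C : ClassGroup (𝓞 K)) :
    ∃ H : ℂ → ℂ, Differentiable ℂ H ∧ ∀ s : ℂ, 1 < s.re →
      ∑' I : {I : (Ideal (𝓞 K))⁰ // ClassGroup.mk0 I = C},
          ((Ideal.absNorm I.1.1 : ℕ) : ℂ) ^ (-s) =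
        (dedekindZeta_residue K / classNumber K : ℝ) / (s - 1) + H s := by
  obtain ⟨G, hG, h1, hG'⟩ := exists_classG K
  refine ⟨dslope (G C) 1, differentiable_dslope (hG C) 1, fun s hs => ?_⟩
  have h := sub_smul_dslope (G C) 1 s
  rw [h1, smul_eq_mul, ← hG' C s hs] at h
  have := sub_one_ne_zero hs
  show classZ C s = _
  field_simp
  linear_combination -h

/-- **`L(s, χ)` is entire for a nontrivial class group character, nonzero on `1 ≤ re s`.** -/
theorem classCharacter_LSeries_entire {χ : ClassGroup (𝓞 K) →* ℂˣ} (hχ : χ ≠ 1) :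
    ∃ E : ℂ → ℂ, Differentiable ℂ E ∧ (∀ s : ℂ, 1 < s.re →
      ∑' I : (Ideal (𝓞 K))⁰,
        (χ (ClassGroup.mk0 I) : ℂ) * ((Ideal.absNorm I.1 : ℕ) : ℂ) ^ (-s) = E s) ∧
      ∀ s : ℂ, 1 ≤ s.re → E s ≠ 0 := by
  obtain ⟨E, hE, hE'⟩ := exists_charL hχ
  refine ⟨E, hE, fun s hs => ?_, fun s hs => charL_ne_zero hE hE' hs⟩
  have hsum : Summable fun I : (Ideal (𝓞 K))⁰ =>
      (χ (ClassGroup.mk0 I) : ℂ) * FA.AbelianZeta.normPow s I :=
    Summable.of_norm ((FA.AbelianZeta.summable_norm_normPow hs).congr fun I => by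
      rw [norm_mul, FA.Weight1.norm_char_apply, one_mul])
  rw [← hE' s hs, classLC]
  show ∑' I, (χ (ClassGroup.mk0 I) : ℂ) * FA.AbelianZeta.normPow s I = _
  have hsig : Summable fun c => (χ (ClassGroup.mk0
      ((Equiv.sigmaFiberEquiv (ClassGroup.mk0 (R := 𝓞 K))) c)) : ℂ) * FA.AbelianZeta.normPow s
        ((Equiv.sigmaFiberEquiv (ClassGroup.mk0 (R := 𝓞 K))) c) :=
    (Equiv.sigmaFiberEquiv _).summable_iff.mpr hsum
  rw [← (Equiv.sigmaFiberEquiv (ClassGroup.mk0 (R := 𝓞 K))).tsum_eq, hsig.tsum_sigma,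
    tsum_fintype]
  refine Finset.sum_congr rfl fun C _ => ?_
  rw [classZ, ← tsum_mul_left]
  exact tsum_congr fun I => by
    show (χ (ClassGroup.mk0 I.1) : ℂ) * _ = _
    rw [I.2]
    rfl

/-- The primes of norm at most `x` in the class `C`, counted. -/
theorem card_primes_in_class (C : ClassGroup (𝓞 K)) {x : ℝ} (hx : 0 ≤ x) :
    (Nat.card {v : HeightOneSpectrum (𝓞 K) // (Ideal.absNorm v.asIdeal : ℝ) ≤ x ∧
      ClassGroup.mk0 ⟨v.asIdeal, mem_nonZeroDivisors_iff_ne_zero.mpr v.ne_bot⟩ = C} : ℝ) =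
      piC C x := by
  rw [piC, ← Nat.card_eq_finsetCard]
  congr 1
  refine Nat.card_congr (Equiv.subtypeEquivRight fun v => ?_)
  rw [mem_primesUpTo, Nat.le_floor_iff hx]
  rfl

/-- **The prime ideal theorem in every ideal class**: natural density `1 / h`. -/
theorem prime_ideal_theorem_class (C : ClassGroup (𝓞 K)) :
    Tendsto (fun x : ℝ => (Nat.card {v : HeightOneSpectrum (𝓞 K) //
        (Ideal.absNorm v.asIdeal : ℝ) ≤ x ∧
          ClassGroup.mk0 ⟨v.asIdeal, mem_nonZeroDivisors_iff_ne_zero.mpr v.ne_bot⟩ = C} : ℝ) *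
        Real.log x / x) atTop (𝓝 (classNumber K : ℝ)⁻¹) := by
  refine (tendsto_piC C).congr' ?_
  filter_upwards [eventually_ge_atTop 0] with x hx
  rw [card_primes_in_class K C hx]

/-- **Landau's prime ideal theorem.** -/
theorem prime_ideal_theorem :
    Tendsto (fun x : ℝ => (Nat.card {v : HeightOneSpectrum (𝓞 K) //
        (Ideal.absNorm v.asIdeal : ℝ) ≤ x} : ℝ) * Real.log x / x) atTop (𝓝 1) := by
  have h := tendsto_finsetSum (Finset.univ : Finset (ClassGroup (𝓞 K)))
    fun C _ => tendsto_piC C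
  rw [Finset.sum_const, Finset.card_univ, nsmul_eq_mul, classNumber,
    mul_inv_cancel₀ (Nat.cast_ne_zero.mpr Fintype.card_ne_zero)] at h
  refine h.congr' ?_
  filter_upwards [eventually_ge_atTop 0] with x hx
  rw [← Finset.sum_div, ← Finset.sum_mul]
  congr 2
  simp only [piC, ← Nat.cast_sum]
  congr 1
  have hfin : {v : HeightOneSpectrum (𝓞 K) | (Ideal.absNorm v.asIdeal : ℝ) ≤ x}.Finite :=
    (finite_primes_le ⌊x⌋₊).subset fun v hv => Nat.le_floor hv
  show _ = Nat.card ↥{v : HeightOneSpectrum (𝓞 K) | (Ideal.absNorm v.asIdeal : ℝ) ≤ x}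
  rw [Nat.card_eq_card_finite_toFinset hfin,
    Finset.card_eq_sum_card_fiberwise (f := primeClass) (t := Finset.univ)
      fun v _ => Finset.mem_univ _]
  refine Finset.sum_congr rfl fun C _ => congrArg Finset.card (Finset.ext fun v => ?_)
  simp [mem_primesUpTo, Nat.le_floor_iff hx]

/-- **Every ideal class contains infinitely many primes.** -/
theorem infinite_primes_in_class (C : ClassGroup (𝓞 K)) :
    {v : HeightOneSpectrum (𝓞 K) |
      ClassGroup.mk0 ⟨v.asIdeal, mem_nonZeroDivisors_iff_ne_zero.mpr v.ne_bot⟩ = C}.Infinite := by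
  intro hfin
  have h0 : Tendsto (fun x => piC C x * Real.log x / x) atTop (𝓝 0) := by
    have hb : Tendsto (fun x => (hfin.toFinset.card : ℝ) * (Real.log x / x)) atTop (𝓝 0) := by
      simpa using (Real.isLittleO_log_id_atTop.tendsto_div_nhds_zero).const_mul
        (hfin.toFinset.card : ℝ)
    refine squeeze_zero' ?_ ?_ hb <;> filter_upwards [eventually_ge_atTop 1] with x hx
    · exact div_nonneg (mul_nonneg (Nat.cast_nonneg _) (Real.log_nonneg hx)) (by linarith)
    · rw [mul_div_assoc]
      refine mul_le_mul_of_nonneg_right (Nat.cast_le.mpr (Finset.card_le_card fun v hv =>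
        hfin.mem_toFinset.mpr (mem_primesUpTo.mp hv).2)) ?_
      exact div_nonneg (Real.log_nonneg hx) (by linarith)
  exact inv_ne_zero (Nat.cast_ne_zero.mpr (classNumber_pos K).ne')
    (tendsto_nhds_unique (tendsto_piC C) h0)

variable (L : Type*) [Field L] [NumberField L] [Algebra K L]
  [IsGalois K L] (V : Type*) [AddCommGroup V] [Module ℂ V] [FiniteDimensional ℂ V]
  (ρ : Representation ℂ (L ≃ₐ[K] L) V)

/-- **Artin L-series of rational-valued characters: a power is meromorphic on the plane.** -/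
theorem artinL_rational_meromorphic (hrat : ∀ g, ∃ q : ℚ, ρ.character g = q) :
    ∃ F : ℂ → ℂ, (∀ s, MeromorphicAt F s) ∧
      (∀ s : ℂ, 1 < s.re →
        FA.ArtinL.artinL ρ.character s ^ Nat.card (L ≃ₐ[K] L) = F s) ∧
      ∀ s : ℂ, 1 ≤ s.re → s ≠ 1 → AnalyticAt ℂ F s ∧ F s ≠ 0 := by
  obtain ⟨m, -, hm⟩ := FA.ArtinL.exists_zeta_product ρ hrat
  choose H hH hH' hH0 using fun M : Subgroup (L ≃ₐ[K] L) =>
    dedekindZeta_continuation (IntermediateField.fixedField M)
  set Z : Subgroup (L ≃ₐ[K] L) → ℂ → ℂ := fun M s =>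
    (dedekindZeta_residue (IntermediateField.fixedField M) : ℂ) / (s - 1) + H M s
  have hZ : ∀ (M : Subgroup (L ≃ₐ[K] L)) (s : ℂ), s ≠ 1 → AnalyticAt ℂ (Z M) s := fun M s hs =>
    (analyticAt_const.div (analyticAt_id.sub analyticAt_const) (sub_ne_zero.mpr hs)).add
      ((hH M).analyticAt s)
  refine ⟨fun s => ∏ M ∈ m.support, Z M s ^ m M, fun s => MeromorphicAt.fun_prod fun M _ => ?_,
    fun s hs => ?_, fun s hs hs1 => ⟨Finset.analyticAt_fun_prod _ fun M _ =>
      (hZ M s hs1).fun_zpow (hH0 M s hs hs1), Finset.prod_ne_zero_iff.mpr fun M _ =>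
        zpow_ne_zero _ (hH0 M s hs hs1)⟩⟩
  · exact (((MeromorphicAt.const _ s).fun_div ((MeromorphicAt.id s).fun_sub
      (MeromorphicAt.const 1 s))).fun_add ((hH M).analyticAt s).meromorphicAt).fun_zpow _
  · rw [hm s hs]
    exact Finset.prod_congr rfl fun M _ => by rw [hH' M s hs]

end FA.Summary

end
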