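import Fermat.Agent.Transcendence.Baker
import Mathlib.Analysis.SpecialFunctions.Complex.Log
import Mathlib.Analysis.SpecialFunctions.Integrals.Basic
import Mathlib.Analysis.SpecialFunctions.Trigonometric.ArctanDeriv

/-!
# Baker's theorem

*If logarithms of algebraic numbers are linearly independent over `ℚ`, then `1` and these
logarithms are linearly independent over the field of algebraic numbers* (Baker 1966).

The proof is Gelfond's method in several variables. No Kummer theory and no zero estimate enters,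
and nothing effective is claimed.
-/

set_option autoImplicit false

noncomputable section

namespace FA.BakerTheorem.Summary

open scoped Real

/-- **Baker's theorem.** -/
theorem baker {n : ℕ} (ℓ : Fin n → ℂ) (hexp : ∀ i, IsAlgebraic ℚ (Complex.exp (ℓ i)))
    (hind : LinearIndependent ℚ ℓ) :
    LinearIndependent (algebraicClosure ℚ ℂ) (Fin.cons 1 ℓ : Fin (n + 1) → ℂ) := by
  rw [Fintype.linearIndependent_iff]
  intro c hc
  have halg : ∀ k, IsAlgebraic ℚ (c k : ℂ) := fun k => mem_algebraicClosure_iff.mp (c k).2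
  simp only [Fin.sum_univ_succ, Fin.cons_zero, Fin.cons_succ, IntermediateField.smul_def,
    smul_eq_mul, mul_one] at hc
  have hsucc : (fun i => (c (Fin.succ i) : ℂ)) = 0 := by
    by_contra hne
    exact false_of_relation ℓ hexp hind _ (fun i => halg _) (-(c 0 : ℂ))
      (halg 0).neg hne (eq_neg_of_add_eq_zero_right hc)
  refine Fin.cases ?_ fun i => Subtype.ext (congrFun hsucc i)
  exact Subtype.ext (by simpa [show ∀ i, (c (Fin.succ i) : ℂ) = 0 from congrFun hsucc] using hc)

/-- The principal logarithms of non-zero algebraic numbers. -/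
theorem baker_log {n : ℕ} (α : Fin n → ℂ) (hα : ∀ i, IsAlgebraic ℚ (α i)) (hα0 : ∀ i, α i ≠ 0)
    (hind : LinearIndependent ℚ fun i => Complex.log (α i)) :
    LinearIndependent (algebraicClosure ℚ ℂ)
      (Fin.cons 1 fun i => Complex.log (α i) : Fin (n + 1) → ℂ) :=
  baker _ (fun i => by rw [Complex.exp_log (hα0 i)]; exact hα i) hind

/-- A non-trivial algebraic combination of independent logarithms is transcendental. -/
theorem transcendental_sum {n : ℕ} (ℓ : Fin n → ℂ)
    (hexp : ∀ i, IsAlgebraic ℚ (Complex.exp (ℓ i))) (hind : LinearIndependent ℚ ℓ)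
    (β : Fin n → ℂ) (hβ : ∀ i, IsAlgebraic ℚ (β i)) (hne : β ≠ 0) :
    Transcendental ℚ (∑ i, β i * ℓ i) := fun h =>
  false_of_relation ℓ hexp hind β hβ _ h hne rfl

/-- An algebraic combination of logarithms is never a non-zero algebraic number. -/
theorem eq_zero_of_algebraic {n : ℕ} (ℓ : Fin n → ℂ)
    (hexp : ∀ i, IsAlgebraic ℚ (Complex.exp (ℓ i))) (β : Fin n → ℂ)
    (hβ : ∀ i, IsAlgebraic ℚ (β i)) (h : IsAlgebraic ℚ (∑ i, β i * ℓ i)) :
    ∑ i, β i * ℓ i = 0 :=
  (exists_relation_coeffs ℓ hexp β hβ _ h rfl).1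

/-- `e ^ β₀ α₁ ^ β₁ ⋯ αₙ ^ βₙ` is transcendental when `β₀ ≠ 0`. -/
theorem transcendental_exp_mul_prod_cpow {n : ℕ} (α β : Fin n → ℂ)
    (hα : ∀ i, IsAlgebraic ℚ (α i)) (hα0 : ∀ i, α i ≠ 0) (hβ : ∀ i, IsAlgebraic ℚ (β i))
    {β₀ : ℂ} (hβ₀ : IsAlgebraic ℚ β₀) (hne : β₀ ≠ 0) :
    Transcendental ℚ (Complex.exp β₀ * ∏ i, α i ^ β i) := by
  intro h
  simp only [Complex.cpow_def_of_ne_zero (hα0 _), ← Complex.exp_sum, ← Complex.exp_add] at h
  refine hne (exists_relation_coeffs
    (Fin.cons (β₀ + ∑ i, Complex.log (α i) * β i) fun i => Complex.log (α i) : Fin (n + 1) → ℂ)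
    (Fin.cases (by simpa using h) fun i => by
      simp only [Fin.cons_succ, Complex.exp_log (hα0 i)]; exact hα i)
    (Fin.cons 1 fun i => -β i : Fin (n + 1) → ℂ)
    (Fin.cases (by simpa using isAlgebraic_one) fun i => by simpa using (hβ i).neg)
    β₀ hβ₀ ?_).1
  simp [Fin.sum_univ_succ, Finset.sum_neg_distrib, mul_comm]

/-- `α₁ ^ β₁ ⋯ αₙ ^ βₙ` is transcendental when `1, β₁, …, βₙ` are independent over `ℚ`: for
`n = 1` the theorem of Gelfond and Schneider. -/
theorem transcendental_prod_cpow {n : ℕ} (hn : 0 < n) (α β : Fin n → ℂ)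
    (hα : ∀ i, IsAlgebraic ℚ (α i)) (hα0 : ∀ i, α i ≠ 0) (hα1 : ∀ i, α i ≠ 1)
    (hβ : ∀ i, IsAlgebraic ℚ (β i))
    (hind : LinearIndependent ℚ (Fin.cons (-1) β : Fin (n + 1) → ℂ)) :
    Transcendental ℚ (∏ i, α i ^ β i) := by
  intro h
  simp only [Complex.cpow_def_of_ne_zero (hα0 _), ← Complex.exp_sum] at h
  have h0 := congrFun (eq_zero_of_relation
    (Fin.cons (∑ i, Complex.log (α i) * β i) fun i => Complex.log (α i) : Fin (n + 1) → ℂ)
    (Fin.cases (by simpa using h) fun i => by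
      simp only [Fin.cons_succ, Complex.exp_log (hα0 i)]; exact hα i)
    (Fin.cons (-1) β : Fin (n + 1) → ℂ)
    (Fin.cases (by simpa using isAlgebraic_one.neg) fun i => by simpa using hβ i) hind
    (by simp [Fin.sum_univ_succ, mul_comm])) (Fin.succ ⟨0, hn⟩)
  simp only [Fin.cons_succ, Pi.zero_apply] at h0
  exact hα1 _ (by rw [← Complex.exp_log (hα0 ⟨0, hn⟩), h0, Complex.exp_zero])

theorem isAlgebraic_ofReal {x : ℝ} (hx : IsAlgebraic ℚ x) : IsAlgebraic ℚ (x : ℂ) :=
  hx.algebraMap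

theorem isAlgebraic_I : IsAlgebraic ℚ Complex.I :=
  IsAlgebraic.of_pow two_pos (by simpa using (isAlgebraic_one (R := ℚ) (A := ℂ)).neg)

/-- `u π + v log a` is transcendental for real algebraic `u`, `v`, not both zero, and
`a > 0`, `a ≠ 1`. -/
theorem transcendental_pi_log {u v a : ℝ} (hu : IsAlgebraic ℚ u) (hv : IsAlgebraic ℚ v)
    (ha : IsAlgebraic ℚ a) (ha0 : 0 < a) (ha1 : a ≠ 1) (huv : u ≠ 0 ∨ v ≠ 0) :
    Transcendental ℚ (u * π + v * Real.log a) := by
  intro h
  have hlog : Real.log a ≠ 0 := Real.log_ne_zero_of_pos_of_ne_one ha0 ha1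
  refine transcendental_sum (n := 2) ![(π : ℂ) * Complex.I, (Real.log a : ℂ)] ?_ ?_
    ![-((u : ℂ) * Complex.I), (v : ℂ)] ?_ ?_ ?_
  · intro i
    fin_cases i
    · simpa using (isAlgebraic_one (R := ℚ) (A := ℂ)).neg
    · simpa [← Complex.ofReal_exp, Real.exp_log ha0] using isAlgebraic_ofReal ha
  · rw [linearIndependent_fin2]
    refine ⟨by simpa using hlog, fun c hc => ?_⟩
    have h1 := congrArg Complex.im hc
    simp [Rat.smul_def] at h1
    exact Real.pi_ne_zero h1.symm
  · intro i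
    fin_cases i
    · exact ((isAlgebraic_ofReal hu).mul isAlgebraic_I).neg
    · exact isAlgebraic_ofReal hv
  · intro h0
    rcases huv with hu0 | hv0
    · exact hu0 (by simpa using congrFun h0 0)
    · exact hv0 (by simpa using congrFun h0 1)
  · convert isAlgebraic_ofReal h using 1
    simp only [Fin.sum_univ_two, Matrix.cons_val_zero, Matrix.cons_val_one]
    push_cast
    linear_combination -(u : ℂ) * (π : ℂ) * Complex.I_mul_I

/-- `π + log a` is transcendental. -/
theorem transcendental_pi_add_log {a : ℝ} (ha : IsAlgebraic ℚ a) (ha0 : 0 < a) (ha1 : a ≠ 1) :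
    Transcendental ℚ (π + Real.log a) := by
  simpa using transcendental_pi_log (u := 1) (v := 1) isAlgebraic_one isAlgebraic_one ha ha0 ha1
    (Or.inl one_ne_zero)

theorem integral_inv_one_add_cube :
    ∫ x in (0 : ℝ)..1, (1 + x ^ 3)⁻¹ = (3 * √3)⁻¹ * π + 3⁻¹ * Real.log 2 := by
  have h3 : (√3) ^ 2 = 3 := Real.sq_sqrt (by norm_num)
  have hs : (0 : ℝ) < √3 := by positivity
  set F : ℝ → ℝ := fun x => 3⁻¹ * Real.log (1 + x) - 6⁻¹ * Real.log (x ^ 2 - x + 1) +
    (√3)⁻¹ * Real.arctan ((2 * x - 1) / √3)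
  rw [intervalIntegral.integral_eq_sub_of_hasDerivAt (f := F) ?_ ?_]
  · simp only [F]
    norm_num
    rw [show (-1 : ℝ) / √3 = -(1 / √3) by ring, Real.arctan_neg]
    norm_num
    ring
  · intro x hx
    rw [Set.uIcc_of_le zero_le_one] at hx
    have h1 : 0 < 1 + x := by linarith [hx.1]
    have h2 : 0 < x ^ 2 - x + 1 := by nlinarith [sq_nonneg (2 * x - 1)]
    have hd : HasDerivAt F (3⁻¹ * (1 / (1 + x)) - 6⁻¹ * ((2 * x - 1) / (x ^ 2 - x + 1)) +
        (√3)⁻¹ * (1 / (1 + ((2 * x - 1) / √3) ^ 2) * (2 / √3))) x := by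
      have hQ : HasDerivAt (fun x : ℝ => x ^ 2 - x + 1) (2 * x - 1) x := by
        simpa using (((hasDerivAt_id x).pow 2).sub (hasDerivAt_id x)).add_const 1
      have hT : HasDerivAt (fun x : ℝ => (2 * x - 1) / √3) (2 / √3) x := by
        simpa using (((hasDerivAt_id x).const_mul 2).sub_const 1).div_const √3
      exact (((((hasDerivAt_id x).const_add 1).log h1.ne').const_mul _).sub
        ((hQ.log h2.ne').const_mul _)).add (hT.arctan.const_mul _)
    refine hd.congr_deriv ?_
    have h4 : 1 + x ^ 3 = (1 + x) * (x ^ 2 - x + 1) := by ring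
    have h5 : 1 + ((2 * x - 1) / √3) ^ 2 = 4 * (x ^ 2 - x + 1) / 3 := by
      rw [div_pow, h3]; ring
    rw [h4, h5]
    generalize hQ : x ^ 2 - x + 1 = Q at h2 ⊢
    have h6 : (√3)⁻¹ * (1 / (4 * Q / 3) * (2 / √3)) = 1 / (2 * Q) := by
      field_simp
      rw [h3]
      ring
    rw [h6]
    field_simp
    rw [← hQ]
    ring
  · refine ContinuousOn.intervalIntegrable (ContinuousOn.inv₀
      (f := fun x : ℝ => 1 + x ^ 3) (by fun_prop) fun x hx => ?_)
    rw [Set.uIcc_of_le zero_le_one] at hx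
    nlinarith [hx.1, pow_nonneg hx.1 3]

/-- The example with which Baker's theorem is usually introduced:
`∫₀¹ dx / (1 + x³)` is transcendental. -/
theorem transcendental_integral_inv_one_add_cube :
    Transcendental ℚ (∫ x in (0 : ℝ)..1, (1 + x ^ 3)⁻¹) := by
  rw [integral_inv_one_add_cube]
  have hk : ∀ k : ℕ, IsAlgebraic ℚ (k : ℝ) := fun k => by
    simpa using isAlgebraic_algebraMap (R := ℚ) (A := ℝ) (k : ℚ)
  have h3 : IsAlgebraic ℚ √3 := IsAlgebraic.of_pow two_pos (by
    rw [Real.sq_sqrt (by norm_num)]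
    simpa using hk 3)
  exact transcendental_pi_log (((by simpa using hk 3 : IsAlgebraic ℚ (3 : ℝ)).mul h3).inv)
    (by simpa using hk 3 : IsAlgebraic ℚ (3 : ℝ)).inv (by simpa using hk 2) two_pos (by norm_num)
    (Or.inl (by positivity))

end FA.BakerTheorem.Summary

end
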