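import Fermat.Agent.ChowlaSelberg.ClassLValues
import Fermat.Agent.ChowlaSelberg.Sqrt

/-!
# Kronecker's limit formula for ideal classes

`kronecker_class_limit`: for an imaginary quadratic field of discriminant `D` let
`H C = √y |η τ|²` at the root `τ` of the reduced form of the class `C`. Then
* `ζ (s, C) = κ / (s - 1) + F s` with `κ = 2 π / (w √|D|)`, `F` entire and `F 1` given by
  `γ`, `log 2`, `log |D|` and `log H (C⁻¹)`;
* for a character `χ ≠ 1` of the class group `L (1, χ) = -4 π / (w √|D|) ∑ χ C log H (C⁻¹)`, a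
  nonzero number;
* so the matrix `log H (A B) - log H A` on the nontrivial classes is nonsingular.
-/

set_option autoImplicit false
set_option linter.style.haveILetI false

noncomputable section

open NumberField Module
open scoped Real UpperHalfPlane nonZeroDivisors Classical

namespace FA.Summary

/-- **Kronecker's limit formula for ideal classes and class group characters.** -/
theorem kronecker_class_limit (K : Type*) [Field K] [NumberField K] [IsTotallyComplex K]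
    (hK : finrank ℚ K = 2) :
    letI N : ℝ := ((discr K).natAbs : ℝ)
    letI w : ℝ := (Units.torsionOrder K : ℝ)
    ∃ (e : K →+* ℂ) (H : ClassGroup (𝓞 K) → ℝ),
      (∀ C, 0 < H C ∧ ∃ (a b c : ℤ) (α : 𝓞 K) (τ : ℍ)
          (hJ : Ideal.span {(a : 𝓞 K), α} ∈ (Ideal (𝓞 K))⁰),
        b ^ 2 - 4 * a * c = discr K ∧ 0 < a ∧ |b| ≤ a ∧ a ≤ c ∧
          (a : ℂ) * (τ : ℂ) ^ 2 + b * (τ : ℂ) + c = 0 ∧ e (α : K) = (a : ℂ) * τ ∧
          ClassGroup.mk0 ⟨_, hJ⟩ = C ∧ H C = √τ.im * ‖ModularForm.eta τ‖ ^ 2) ∧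
      (∀ C, ∃ F : ℂ → ℂ, Differentiable ℂ F ∧
        (∀ s : ℂ, 1 < s.re →
          ∑' I : {I : (Ideal (𝓞 K))⁰ // ClassGroup.mk0 I = C},
              ((Ideal.absNorm I.1.1 : ℕ) : ℂ) ^ (-s) =
            ((2 * π / (w * √N) : ℝ) : ℂ) / (s - 1) + F s) ∧
        F 1 = ((4 * π / (w * √N) *
            (Real.eulerMascheroniConstant - Real.log 2 - Real.log (H C⁻¹)) -
          2 * π / (w * √N) * Real.log (√N / 2) : ℝ) : ℂ)) ∧
      (∀ χ : ClassGroup (𝓞 K) →* ℂˣ, χ ≠ 1 → ∃ E : ℂ → ℂ, Differentiable ℂ E ∧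
        (∀ s : ℂ, 1 < s.re → ∑' I : (Ideal (𝓞 K))⁰,
          (χ (ClassGroup.mk0 I) : ℂ) * ((Ideal.absNorm I.1 : ℕ) : ℂ) ^ (-s) = E s) ∧
        E 1 = -((4 * π / (w * √N) : ℝ) : ℂ) * ∑ C, (χ C : ℂ) * (Real.log (H C⁻¹) : ℂ) ∧
        E 1 ≠ 0) ∧
      (Matrix.of fun A B : {C : ClassGroup (𝓞 K) // C ≠ 1} =>
        Real.log (H (A.1 * B.1)) - Real.log (H A.1)).det ≠ 0 := by
  obtain ⟨d, hd, hd0, s, hs⟩ := FA.ChowlaSelberg.exists_sq_eq_intCast_neg K hK
  obtain ⟨e, he⟩ := FA.FieldClassBound.exists_emb hd0 hs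
  haveI : Fintype (FA.Singular.Red (FA.FieldClassBound.discK d)) :=
    (FA.Singular.red_finite _).fintype
  choose T A hg using fun f : FA.Singular.Red (FA.FieldClassBound.discK d) =>
    FA.FieldClassBound.exists_gen e hd0 hs he (f := (f : ℤ × ℤ × ℤ)) f.2.2.2.1 f.2.1
  set cls : FA.Singular.Red (FA.FieldClassBound.discK d) → ClassGroup (𝓞 K) :=
    fun f => FA.FieldClassBound.formClass f.1 f.2.2.2.1 (A f)
  have hsurj : Function.Surjective cls := by
    have hinj : Function.Injective cls := fun f g h => Subtype.ext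
      (FA.FieldClassBound.eq_of_formClass_eq e hK hd hd0 hs he f.2 g.2 (hg f) (hg g) h)
    refine ((Fintype.bijective_iff_injective_and_card cls).2 ⟨hinj, ?_⟩).2
    have h := FA.FieldClassBound.classNumber_eq_ncard_red hK hd hd0 hs
    rw [classNumber, ← Nat.card_coe_set_eq, Nat.card_eq_fintype_card] at h
    exact h.symm
  choose g hgC using hsurj
  have hclass : ∀ C, ∃ F : ℂ → ℂ, Differentiable ℂ F ∧
      (∀ z : ℂ, 1 < z.re →
        ∑' I : {I : (Ideal (𝓞 K))⁰ // ClassGroup.mk0 I = C},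
            ((Ideal.absNorm I.1.1 : ℕ) : ℂ) ^ (-z) =
          ((2 * π / (Units.torsionOrder K * √((discr K).natAbs : ℝ)) : ℝ) : ℂ) / (z - 1) + F z) ∧
      F 1 = ((4 * π / (Units.torsionOrder K * √((discr K).natAbs : ℝ)) *
          (Real.eulerMascheroniConstant - Real.log 2 -
            Real.log (FA.ChowlaSelberg.height (T (g C⁻¹)))) -
        2 * π / (Units.torsionOrder K * √((discr K).natAbs : ℝ)) *
          Real.log (√((discr K).natAbs : ℝ) / 2) : ℝ) : ℂ) := fun C =>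
    FA.ChowlaSelberg.classZeta_at_one hK hd hd0 hs he (g C⁻¹).2 (hg (g C⁻¹))
      (inv_eq_iff_eq_inv.2 (hgC C⁻¹))
  choose F hF hFs hF1 using hclass
  have hchar : ∀ χ : ClassGroup (𝓞 K) →* ℂˣ, χ ≠ 1 → ∃ E : ℂ → ℂ, Differentiable ℂ E ∧
      (∀ s : ℂ, 1 < s.re → ∑' I : (Ideal (𝓞 K))⁰,
        (χ (ClassGroup.mk0 I) : ℂ) * ((Ideal.absNorm I.1 : ℕ) : ℂ) ^ (-s) = E s) ∧
      E 1 = -((4 * π / (Units.torsionOrder K * √((discr K).natAbs : ℝ)) : ℝ) : ℂ) *
        ∑ C, (χ C : ℂ) * (Real.log (FA.ChowlaSelberg.height (T (g C⁻¹))) : ℂ) ∧ E 1 ≠ 0 := by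
    intro χ hχ
    obtain ⟨E, hE, hEs, hE0⟩ := classCharacter_LSeries_entire K hχ
    have h0 : ∑ C, (χ C : ℂ) = 0 := (FA.PrimeIdeal.sum_char_eq χ).trans (if_neg hχ)
    have heq : ∀ z : ℂ, 1 < z.re → E z = ∑ C, (χ C : ℂ) * F C z := by
      intro z hz
      have hsummable : Summable fun I : (Ideal (𝓞 K))⁰ =>
          (χ (ClassGroup.mk0 I) : ℂ) * FA.AbelianZeta.normPow z I :=
        Summable.of_norm ((FA.AbelianZeta.summable_norm_normPow hz).congr fun I => by
          rw [norm_mul, FA.Weight1.norm_char_apply, one_mul])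
      have hsig := (Equiv.sigmaFiberEquiv (ClassGroup.mk0 (R := 𝓞 K))).summable_iff.mpr hsummable
      rw [← hEs z hz]
      show ∑' I, (χ (ClassGroup.mk0 I) : ℂ) * FA.AbelianZeta.normPow z I = _
      rw [← (Equiv.sigmaFiberEquiv (ClassGroup.mk0 (R := 𝓞 K))).tsum_eq, Summable.tsum_sigma,
        tsum_fintype]
      · rw [← add_zero (∑ C, (χ C : ℂ) * F C z), ← zero_mul
          (((2 * π / (Units.torsionOrder K * √((discr K).natAbs : ℝ)) : ℝ) : ℂ) / (z - 1)), ← h0,
          Finset.sum_mul, ← Finset.sum_add_distrib]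
        refine Finset.sum_congr rfl fun C _ => ?_
        rw [← mul_add, add_comm (F C z), ← hFs C z hz, ← tsum_mul_left]
        exact tsum_congr fun I => by
          show (χ (ClassGroup.mk0 I.1) : ℂ) * _ = _
          rw [I.2]
          rfl
      · exact hsig
    have h1 : E 1 = ∑ C, (χ C : ℂ) * F C 1 := by
      have hc : Continuous fun z => ∑ C, (χ C : ℂ) * F C z :=
        continuous_finsetSum _ fun C _ => continuous_const.mul (hF C).continuous
      have hev : (fun z : ℝ => E z) =ᶠ[nhdsWithin 1 (Set.Ioi 1)]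
          fun z : ℝ => ∑ C, (χ C : ℂ) * F C z := by
        filter_upwards [self_mem_nhdsWithin] with z hz
        exact heq z (by simpa using hz)
      refine tendsto_nhds_unique (l := nhdsWithin (1 : ℝ) (Set.Ioi 1)) ?_
        ((Filter.Tendsto.mono_left ?_ nhdsWithin_le_nhds).congr' hev.symm)
      · simpa [Function.comp_def] using ((hE.continuous.comp Complex.continuous_ofReal).tendsto 1
          ).mono_left nhdsWithin_le_nhds
      · simpa [Function.comp_def] using (hc.comp Complex.continuous_ofReal).tendsto 1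
    refine ⟨E, hE, hEs, ?_, hE0 1 (by simp)⟩
    have key : ∀ (a b : ℂ) (x : ClassGroup (𝓞 K) → ℂ),
        ∑ C, (χ C : ℂ) * (a * (b - x C) - (2 * a / 4) * (Real.log
          (√((discr K).natAbs : ℝ) / 2) : ℂ)) = -a * ∑ C, (χ C : ℂ) * x C := by
      intro a b x
      rw [Finset.sum_congr rfl fun C _ => show (χ C : ℂ) * (a * (b - x C) - (2 * a / 4) *
          (Real.log (√((discr K).natAbs : ℝ) / 2) : ℂ)) = (χ C : ℂ) * (a * b - (2 * a / 4) *
          (Real.log (√((discr K).natAbs : ℝ) / 2) : ℂ)) + -a * ((χ C : ℂ) * x C) by ring,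
        Finset.sum_add_distrib, ← Finset.sum_mul, h0, zero_mul, zero_add, ← Finset.mul_sum]
    rw [h1, ← key _ ((Real.eulerMascheroniConstant - Real.log 2 : ℝ) : ℂ)
      fun C => (Real.log (FA.ChowlaSelberg.height (T (g C⁻¹))) : ℂ)]
    refine Finset.sum_congr rfl fun C _ => ?_
    rw [hF1]
    push_cast
    ring
  refine ⟨e, fun C => FA.ChowlaSelberg.height (T (g C)), fun C => ⟨FA.ChowlaSelberg.height_pos _,
    _, _, _, A (g C), T (g C), FA.FieldClassBound.formIdeal_mem_nonZeroDivisors (g C).2.2.2.1 _,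
      (g C).2.1.trans (FA.ChowlaSelberg.discr_eq_discK hK hd hd0 hs).symm, (g C).2.2.2.1,
      (g C).2.2.2.2.1, (g C).2.2.2.2.2.1, (hg (g C)).1, (hg (g C)).2, hgC C, rfl⟩,
    fun C => ⟨F C, hF C, hFs C, hF1 C⟩, hchar, ?_⟩
  refine FA.ChowlaSelberg.det_ne_zero_of_char_sum
    (fun C => Real.log (FA.ChowlaSelberg.height (T (g C)))) fun φ hφ hsum => ?_
  obtain ⟨E, -, -, hE1, hE0⟩ := hchar φ⁻¹ fun h => hφ (MonoidHom.ext fun x => by
    simpa using DFunLike.congr_fun h x)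
  refine hE0 ?_
  rw [hE1, ← Equiv.sum_comp (Equiv.inv (ClassGroup (𝓞 K)))]
  simp only [Equiv.inv_apply, inv_inv, MonoidHom.inv_apply, map_inv]
  rw [hsum, mul_zero]

end FA.Summary

end
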