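import Fermat.Agent.IsogenyNF.QuotientTransfer

/-!
# Quotient curves over number fields

Every finite Galois-stable group of points of an elliptic curve over a number field is the kernel
of a surjective equivariant homomorphism onto the points of a curve over the same field, given in
short form by Vélu's abscissa. Without complex multiplication finitely many curves occur, and for
every curve finitely many invariants; the invariants satisfy a modular equation.
-/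

set_option autoImplicit false
set_option linter.unusedSectionVars false

noncomputable section

namespace FA.Summary

open WeierstrassCurve FA.IsogenyNF
open scoped WeierstrassCurve.Affine

universe u

variable {K : Type u} [Field K] [NumberField K] [DecidableEq (AlgebraicClosure K)]
  (E : WeierstrassCurve K) [E.IsElliptic]

local notation "Kc" => AlgebraicClosure K

/-- **Quotient curves.** -/
theorem exists_quotient_curve (G : AddSubgroup (E.toAffine⁄Kc).Point) [Finite G]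
    (hst : ∀ σ : Kc ≃ₐ[K] Kc, ∀ Q ∈ G, σ • Q ∈ G) :
    ∃ (E' : WeierstrassCurve K) (_ : E'.IsElliptic),
      (IsIntegral ℤ E'.j ↔ IsIntegral ℤ E.j) ∧
      (∃ (N : ℕ) (_ : NeZero N), ∀ [Fintype (FA.Dim.Cos N)],
        (FA.ModPoly.phi N).eval₂ (Polynomial.aeval (R := ℤ) E'.j).toRingHom E.j = 0) ∧
      ∃ θ : (E.toAffine⁄Kc).Point →+ (E'.toAffine⁄Kc).Point, Function.Surjective θ ∧
        (∀ σ : Kc ≃ₐ[K] Kc, ∀ P, θ (σ • P) = σ • θ P) ∧ θ.ker = G := by
  obtain ⟨hW, φ, L, hL, e, -, hj, he⟩ :=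
    exists_short (Kb := Kc) E (Classical.arbitrary (K →+* ℂ))
  obtain ⟨hfin, hst', htr⟩ := transport e he hst
  obtain ⟨W', hW', ⟨θ, hs, hθ, hker, -⟩, ⟨g, hg, -, L₁, h₁, hj₁⟩, hint⟩ := exists_quotient hL hst'
  refine ⟨W', hW', by rw [hint]; simp only [hj], ⟨addOrderOf g, ⟨hg.ne'⟩, ?_⟩, htr θ hs hθ hker⟩
  have : NeZero (addOrderOf g) := ⟨hg.ne'⟩
  intro _
  rw [← hj]
  exact modular_equation hg h₁ hj₁

/-- **Vélu's abscissa**: for a curve `y² = x³ + a x + b` the map is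
`P ↦ x(P) + ∑ (x(P - Q) - x(Q))`, the sum over the `Q ≠ 0` of the group. -/
theorem exists_quotient_curve_velu [E.IsShortNF] (G : AddSubgroup (E.toAffine⁄Kc).Point) [Finite G]
    (hst : ∀ σ : Kc ≃ₐ[K] Kc, ∀ Q ∈ G, σ • Q ∈ G) :
    ∃ (E' : WeierstrassCurve K) (_ : E'.IsElliptic)
      (θ : (E.toAffine⁄Kc).Point →+ (E'.toAffine⁄Kc).Point), Function.Surjective θ ∧
        (∀ σ : Kc ≃ₐ[K] Kc, ∀ P, θ (σ • P) = σ • θ P) ∧ θ.ker = G ∧
        ∀ P, FA.ClassNumberOne.xP (θ P) = ∑ᶠ Q : G,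
          (FA.ClassNumberOne.xP (P - (Q : (E.toAffine⁄Kc).Point)) -
            FA.ClassNumberOne.xP (Q : (E.toAffine⁄Kc).Point)) := by
  let ψ : K →+* ℂ := Classical.arbitrary _
  obtain ⟨L, h2, h3⟩ := exists_lattice E ψ
  let _ := ψ.toAlgebra
  let φ : Kc →ₐ[K] ℂ := IsAlgClosed.lift
  have hL : (E.baseChange Kc).map (φ : Kc →+* ℂ) = FA.Mazur.Wp.latCurve L := by
    rw [WeierstrassCurve.baseChange, map_map, AlgHom.comp_algebraMap]
    ext <;> simp [FA.Mazur.Wp.latCurve, h2, h3, RingHom.algebraMap_toAlgebra, map_ofNat] <;>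
      ring
  obtain ⟨W', hW', ⟨θ, hs, hθ, hker, hx⟩, -, -⟩ := exists_quotient hL (G := G) hst
  exact ⟨W', hW', θ, hs, hθ, hker, hx⟩

/-- **Finitely many quotient curves** without complex multiplication. -/
theorem finite_quotient_curves (ψ : K →+* ℂ) (hcm : ¬ HasCM E ψ) :
    ∃ F : Set (WeierstrassCurve K), F.Finite ∧
      ∀ G : AddSubgroup (E.toAffine⁄Kc).Point, Finite G →
        (∀ σ : Kc ≃ₐ[K] Kc, ∀ Q ∈ G, σ • Q ∈ G) →
        ∃ E' ∈ F, E'.IsElliptic ∧
          ∃ θ : (E.toAffine⁄Kc).Point →+ (E'.toAffine⁄Kc).Point, Function.Surjective θ ∧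
            (∀ σ : Kc ≃ₐ[K] Kc, ∀ P, θ (σ • P) = σ • θ P) ∧ θ.ker = G := by
  obtain ⟨hW, φ, L, hL, e, hno, -, he⟩ := exists_short (Kb := Kc) E ψ
  obtain ⟨F, hF, hmem⟩ := exists_finite_quotients hL (not_not.1 fun h => hcm (hno.2 h))
  refine ⟨F, hF, fun G _ hst => ?_⟩
  obtain ⟨hfin, hst', htr⟩ := transport e he hst
  obtain ⟨W', hW'F, hW', θ, hs, hθ, hker⟩ := hmem _ hfin hst'
  exact ⟨W', hW'F, hW', htr θ hs hθ hker⟩

/-- The same for a curve whose invariant is not an algebraic integer. -/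
theorem finite_quotient_curves_of_not_isIntegral_j (hj : ¬ IsIntegral ℤ E.j) :
    ∃ F : Set (WeierstrassCurve K), F.Finite ∧
      ∀ G : AddSubgroup (E.toAffine⁄Kc).Point, Finite G →
        (∀ σ : Kc ≃ₐ[K] Kc, ∀ Q ∈ G, σ • Q ∈ G) →
        ∃ E' ∈ F, E'.IsElliptic ∧
          ∃ θ : (E.toAffine⁄Kc).Point →+ (E'.toAffine⁄Kc).Point, Function.Surjective θ ∧
            (∀ σ : Kc ≃ₐ[K] Kc, ∀ P, θ (σ • P) = σ • θ P) ∧ θ.ker = G :=
  finite_quotient_curves E (Classical.arbitrary (K →+* ℂ)) fun h => hj (isIntegral_j E h)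

/-- **Finitely many invariants** of quotient curves, for every curve. -/
theorem finite_quotient_j :
    ∃ J : Set K, J.Finite ∧ ∀ G : AddSubgroup (E.toAffine⁄Kc).Point, Finite G →
      (∀ σ : Kc ≃ₐ[K] Kc, ∀ Q ∈ G, σ • Q ∈ G) →
      ∃ (E' : WeierstrassCurve K) (_ : E'.IsElliptic), E'.j ∈ J ∧
        ∃ θ : (E.toAffine⁄Kc).Point →+ (E'.toAffine⁄Kc).Point, Function.Surjective θ ∧
          (∀ σ : Kc ≃ₐ[K] Kc, ∀ P, θ (σ • P) = σ • θ P) ∧ θ.ker = G := by
  obtain ⟨hW, φ, L, hL, e, -, -, he⟩ :=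
    exists_short (Kb := Kc) E (Classical.arbitrary (K →+* ℂ))
  refine ⟨_, (finite_jInv_quot hL).preimage
    (φ.comp (algebraMap K Kc)).injective.injOn, fun G _ hst => ?_⟩
  obtain ⟨hfin, hst', htr⟩ := transport e he hst
  obtain ⟨W', hW', ⟨θ, hs, hθ, hker, -⟩, ⟨g, hg, hgs, L₁, h₁, hj⟩, -⟩ := exists_quotient hL hst'
  exact ⟨W', hW', ⟨g, hg, hgs, L₁, h₁, hj⟩, htr θ hs hθ hker⟩

end FA.Summary

end
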