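import Fermat.Agent.Thirteen.Summary
import Fermat.Agent.Root.SummaryTwists

/-!
# Semistability of quadratic twists, seen on the invariants

A semistable equation gives good or multiplicative reduction, semistability is seen on `(c₄, c₆)`
up to scaling, and `twistEquation` is the twist of an equation by a number congruent to one modulo
four. The criterion by the `j`-invariant is in `SummaryTwistCriterionAll`.
-/

set_option autoImplicit false
set_option linter.style.haveILetI false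

noncomputable section

open WeierstrassCurve IsDedekindDomain.HeightOneSpectrum IsDiscreteValuationRing
open scoped WeierstrassCurve.Affine

namespace FA.Root

open FA.Twists (short quadTwist short_map short_c₄ short_c₆)

variable {p : ℕ} [Fact p.Prime]

theorem dvd_of_valuation_lt_one {v : ℤ_[p]}
    (h : valuation ℚ_[p] (maximalIdeal ℤ_[p]) (algebraMap ℤ_[p] ℚ_[p] v) < 1) :
    (p : ℤ_[p]) ∣ v := by
  rw [valuation_lt_one_iff_mem] at h
  change v ∈ IsLocalRing.maximalIdeal ℤ_[p] at h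
  rwa [PadicInt.maximalIdeal_eq_span_p, Ideal.mem_span_singleton] at h

/-- An integral equation has good reduction at each prime not dividing its discriminant. -/
theorem exists_good_of_not_dvd (W : WeierstrassCurve ℤ) (p : ℕ) [Fact p.Prime]
    (h : ¬ (p : ℤ) ∣ W.Δ) : ∃ C : VariableChange ℚ_[p],
      HasGoodReduction ℤ_[p] (C • (W.map (Int.castRingHom ℚ)).map (algebraMap ℚ ℚ_[p])) := by
  refine ⟨1, ?_⟩
  rw [one_smul]
  set M := (W.map (Int.castRingHom ℚ)).map (algebraMap ℚ ℚ_[p])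
  have hM : M = (W.map (Int.castRingHom ℤ_[p])).baseChange ℚ_[p] := by
    ext <;> simp [M, baseChange]
  have hi : IsIntegral ℤ_[p] M := ⟨⟨W.map (Int.castRingHom ℤ_[p]), hM⟩⟩
  have hval : valuation ℚ_[p] (maximalIdeal ℤ_[p]) M.Δ = 1 := by
    rw [show M.Δ = algebraMap ℤ_[p] ℚ_[p] (W.Δ : ℤ_[p]) by
      simp only [M, map_Δ, eq_intCast, map_intCast]]
    refine le_antisymm (valuation_le_one _ _) (not_lt.mp fun hlt => h ?_)
    have := (PadicInt.norm_lt_one_iff_dvd _).mpr (dvd_of_valuation_lt_one hlt)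
    rwa [PadicInt.norm_intCast_lt_one_iff] at this
  refine @HasGoodReduction.mk _ _ _ _ _ _ _ _ _ ⟨⟨by simpa using hi, fun j _ _ => ?_⟩⟩ hval
  simp only [one_smul]
  rw [← Subtype.coe_le_coe, valuation_Δ_aux_eq_of_isIntegral ℤ_[p] M, hval]
  exact (valuation_Δ_aux ℤ_[p] (j • M)).2

/-- A curve has good reduction at each prime not dividing the discriminant of a model. -/
theorem exists_good_of_model {E : WeierstrassCurve ℚ} {W : WeierstrassCurve ℤ}
    (hW : W.IsIntegralModelOf E) (p : ℕ) [Fact p.Prime] (h : ¬ (p : ℤ) ∣ W.Δ) :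
    ∃ C : VariableChange ℚ_[p], HasGoodReduction ℤ_[p] (C • E.map (algebraMap ℚ ℚ_[p])) := by
  obtain ⟨C, hC⟩ := exists_good_of_not_dvd W p h
  obtain ⟨C₀, h₀⟩ := hW
  exact ⟨C * C₀.map (algebraMap ℚ ℚ_[p]),
    by rwa [mul_smul, WeierstrassCurve.map_variableChange, h₀]⟩

/-- A semistable equation gives good or multiplicative reduction in Mathlib's sense. -/
theorem exists_reduction_of_isSemistableAt (E : WeierstrassCurve ℚ) [E.IsElliptic]
    (h : IsSemistableAt E p) : ∃ C : VariableChange ℚ_[p],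
      HasGoodReduction ℤ_[p] (C • E.map (algebraMap ℚ ℚ_[p])) ∨
        HasMultiplicativeReduction ℤ_[p] (C • E.map (algebraMap ℚ ℚ_[p])) := by
  obtain ⟨C₀, V, hC₀, hV⟩ := h
  obtain ⟨C, hC⟩ := exists_isMinimal ℤ_[p] (E.map (algebraMap ℚ ℚ_[p]))
  haveI := hC
  refine ⟨C, ?_⟩
  rcases hasGoodReduction_or_hasMultiplicativeReduction_or_hasAdditiveReduction ℤ_[p]
    (W := C • E.map (algebraMap ℚ ℚ_[p])) with h | h | h
  · exact Or.inl h
  · exact Or.inr h
  exfalso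
  set M := C • E.map (algebraMap ℚ ℚ_[p]) with hMdef
  have hM : (C₀ * C⁻¹) • M = V.map PadicInt.Coe.ringHom := by
    rw [hMdef, mul_smul, inv_smul_smul, hC₀]
  haveI hi : IsIntegral ℤ_[p] ((C₀ * C⁻¹) • M) := ⟨⟨V, hM⟩⟩
  haveI : IsIntegral ℤ_[p] ((1 : VariableChange ℚ_[p]) • M) := by rw [one_smul]; infer_instance
  set w : ℚ_[p] := Units.val ((C₀ * C⁻¹).u⁻¹) with hw
  have eΔ : algebraMap ℤ_[p] ℚ_[p] V.Δ = w ^ 12 * M.Δ := by
    rw [← variableChange_Δ, hM, map_Δ]; rfl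
  have e4 : algebraMap ℤ_[p] ℚ_[p] V.c₄ = w ^ 4 * M.c₄ := by
    rw [← variableChange_c₄, hM, map_c₄]; rfl
  set ν := valuation ℚ_[p] (maximalIdeal ℤ_[p]) with hν
  have hΔM : M.Δ ≠ 0 := M.isUnit_Δ.ne_zero
  have hle : ν ((C₀ * C⁻¹) • M).Δ ≤ ν M.Δ := by
    rcases le_total (ν ((C₀ * C⁻¹) • M).Δ) (ν M.Δ) with h' | h'
    · exact h'
    have hmax := hC.val_Δ_maximal.2 (j := C₀ * C⁻¹) hi (by
      rw [← Subtype.coe_le_coe, valuation_Δ_aux_eq_of_isIntegral,
        valuation_Δ_aux_eq_of_isIntegral, one_smul]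
      exact h')
    rw [← Subtype.coe_le_coe, valuation_Δ_aux_eq_of_isIntegral,
      valuation_Δ_aux_eq_of_isIntegral, one_smul] at hmax
    exact hmax
  rw [variableChange_Δ, ← hw, map_mul, map_pow] at hle
  have hw1 : ν w ≤ 1 := by
    by_contra hc
    exact (mul_le_mul_iff_of_pos_right (zero_lt_iff.mpr ((map_ne_zero ν).mpr hΔM))).not.mpr
      (not_le.mpr (one_lt_pow₀ (not_le.mp hc) (by norm_num : (12 : ℕ) ≠ 0)))
      (le_of_le_of_eq hle (one_mul _).symm)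
  refine hV ⟨dvd_of_valuation_lt_one ?_, dvd_of_valuation_lt_one ?_⟩
  · rw [eΔ, map_mul, map_pow]
    exact (mul_le_of_le_one_left' (pow_le_one₀ zero_le hw1)).trans_lt h.badReduction
  · rw [e4, map_mul, map_pow]
    exact (mul_le_of_le_one_left' (pow_le_one₀ zero_le hw1)).trans_lt h.additiveReduction

theorem exists_smul_short (F : WeierstrassCurve ℚ_[p]) :
    ∃ C : VariableChange ℚ_[p], C • F = short F.c₄ F.c₆ := by
  refine ⟨⟨Units.mk0 (1 / 6 : ℚ_[p]) (by norm_num), -F.b₂ / 12, -F.a₁ / 2,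
    F.a₁ * F.b₂ / 24 - F.a₃ / 2⟩, ?_⟩
  ext
  all_goals simp only [variableChange_a₁, variableChange_a₂, variableChange_a₃, variableChange_a₄,
    variableChange_a₆, Units.val_inv_eq_inv_val, Units.val_mk0, short, c₄, c₆, b₂, b₄, b₆]
  all_goals ring

/-- Semistability is seen on the invariants, up to scaling. -/
theorem isSemistableAt_of_invariants (F : WeierstrassCurve ℚ) (V : WeierstrassCurve ℤ_[p])
    {w : ℚ_[p]} (hw : w ≠ 0) (h4 : (V.c₄ : ℚ_[p]) = w ^ 4 * (F.c₄ : ℚ_[p]))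
    (h6 : (V.c₆ : ℚ_[p]) = w ^ 6 * (F.c₆ : ℚ_[p]))
    (hV : ¬ ((p : ℤ_[p]) ∣ V.Δ ∧ (p : ℤ_[p]) ∣ V.c₄)) : IsSemistableAt F p := by
  obtain ⟨C₁, h₁⟩ := exists_smul_short (F.map (algebraMap ℚ ℚ_[p]))
  obtain ⟨C₂, h₂⟩ := exists_smul_short (V.map PadicInt.Coe.ringHom)
  refine ⟨C₂⁻¹ * ⟨(Units.mk0 w hw)⁻¹, 0, 0, 0⟩ * C₁, V, ?_, hV⟩
  rw [mul_smul, h₁, mul_smul, inv_smul_eq_iff, h₂, map_c₄, map_c₆, map_c₄, map_c₆, eq_ratCast,
    eq_ratCast, show PadicInt.Coe.ringHom V.c₄ = (V.c₄ : ℚ_[p]) from rfl,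
    show PadicInt.Coe.ringHom V.c₆ = (V.c₆ : ℚ_[p]) from rfl, h4, h6]
  ext <;> simp only [variableChange_a₁, variableChange_a₂, variableChange_a₃, variableChange_a₄,
    variableChange_a₆, short, inv_inv, Units.val_mk0] <;> ring

theorem quadTwist_c₄ (E : WeierstrassCurve ℚ) (d : ℚ) :
    (quadTwist E d).c₄ = 6 ^ 4 * (d ^ 2 * E.c₄) := short_c₄ _ _

theorem quadTwist_c₆ (E : WeierstrassCurve ℚ) (d : ℚ) :
    (quadTwist E d).c₆ = 6 ^ 6 * (d ^ 3 * E.c₆) := short_c₆ _ _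

/-- The twist by `d ≡ 1 mod 4` of an equation. -/
def twistEquation {R : Type*} [CommRing R] (V : WeierstrassCurve R) (k : R) : WeierstrassCurve R :=
  ⟨V.a₁, (4 * k + 1) * V.a₂ + k * V.a₁ ^ 2, V.a₃,
    (4 * k + 1) ^ 2 * V.a₄ + (4 * k + 8 * k ^ 2) * V.a₁ * V.a₃,
    (4 * k + 1) ^ 3 * V.a₆ + (3 * k + 12 * k ^ 2 + 16 * k ^ 3) * V.a₃ ^ 2⟩

theorem isSemistableAt_of_model {E : WeierstrassCurve ℚ} {W : WeierstrassCurve ℤ}
    (hW : W.IsIntegralModelOf E) (h : ¬ (p : ℤ) ∣ W.Δ) : IsSemistableAt E p := by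
  obtain ⟨C, hC⟩ := hW
  refine isSemistableAt_of_rat E (C := C) ?_ ?_ ?_ ?_ ?_ ?_
  all_goals rw [hC]
  case refine_6 => exact fun hd => h (by simpa using hd.1)
  all_goals simpa using (Nat.Prime.ne_one Fact.out : p ≠ 1)

end FA.Root

end
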