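import Fermat.Agent.Root.NoGoodReduction
import Fermat.Agent.Root.SummaryTwistCriterion

/-!
# The invariant of a semistable curve is not an integer

A semistable elliptic curve over `ℚ` has multiplicative reduction somewhere, as none has good
reduction everywhere, and there its invariant has a pole. In particular the curves with complex
multiplication are not semistable.
-/

set_option autoImplicit false

noncomputable section

open WeierstrassCurve

namespace FA.Summary

/-- **The invariant of a semistable curve has a pole** at some prime. -/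
theorem exists_pole_j_of_semistable (E : WeierstrassCurve ℚ) [E.IsElliptic]
    (h : ∀ p : ℕ, ∀ [Fact p.Prime], ∃ C : VariableChange ℚ_[p],
      HasGoodReduction ℤ_[p] (C • E.map (algebraMap ℚ ℚ_[p])) ∨
        HasMultiplicativeReduction ℤ_[p] (C • E.map (algebraMap ℚ ℚ_[p]))) :
    ∃ p : ℕ, p.Prime ∧ padicValRat p E.j < 0 := by
  obtain ⟨W, hW, hs⟩ := FA.Root.exists_semistableModel E
    fun q _ => FA.Root.isSemistableAt_of_reduction E (h q).choose_spec
  obtain ⟨p, hp, hdvd⟩ : ∃ p : ℕ, p.Prime ∧ (p : ℤ) ∣ W.Δ := by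
    by_contra hnone
    push Not at hnone
    exact FA.Root.not_forall_hasGoodReduction E fun q hq =>
      FA.Root.exists_good_of_model hW q (hnone q hq.out)
  have := Fact.mk hp
  refine ⟨p, hp, ?_⟩
  obtain ⟨C₀, hC₀⟩ := hW
  have hΔ0 : W.Δ ≠ 0 := FA.Frob.Δ_ne_zero_of_model (E := E) ⟨C₀, hC₀⟩
  have hc : ¬ (p : ℤ) ∣ W.c₄ := hs p hp hdvd
  have hc0 : W.c₄ ≠ 0 := fun e => hc (e ▸ dvd_zero _)
  have hj : E.j = (W.c₄ : ℚ) ^ 3 / (W.Δ : ℚ) := by
    have h1 := WeierstrassCurve.variableChange_j E C₀
    rw [← h1, WeierstrassCurve.j, Units.val_inv_eq_inv_val, coe_Δ', hC₀, map_Δ, map_c₄, eq_intCast,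
      eq_intCast, div_eq_inv_mul]
  rw [hj, padicValRat.div (pow_ne_zero 3 (by exact_mod_cast hc0)) (by exact_mod_cast hΔ0),
    padicValRat.pow, padicValRat.of_int, padicValRat.of_int,
    padicValInt.eq_zero_of_not_dvd hc]
  have : 1 ≤ padicValNat p W.Δ.natAbs :=
    one_le_padicValNat_of_dvd (Int.natAbs_ne_zero.mpr hΔ0) (Int.natCast_dvd.mp hdvd)
  simp only [padicValInt]
  omega

/-- **A curve with integral invariant is not semistable.** -/
theorem not_semistable_of_integral_j (E : WeierstrassCurve ℚ) [E.IsElliptic] (z : ℤ)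
    (hj : E.j = z) :
    ¬ ∀ p : ℕ, ∀ [Fact p.Prime], ∃ C : VariableChange ℚ_[p],
      HasGoodReduction ℤ_[p] (C • E.map (algebraMap ℚ ℚ_[p])) ∨
        HasMultiplicativeReduction ℤ_[p] (C • E.map (algebraMap ℚ ℚ_[p])) := by
  intro h
  obtain ⟨p, hp, hneg⟩ := exists_pole_j_of_semistable E h
  rw [hj, padicValRat.of_int] at hneg
  omega

/-- No curve with complex multiplication is semistable. -/
theorem not_semistable_of_cm_all (E : WeierstrassCurve ℚ) [E.IsElliptic]
    (hj : E.j ∈ ({0, 54000, -12288000, 1728, 287496, -3375, 16581375, 8000, -32768, -884736,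
      -884736000, -147197952000, -262537412640768000} : Finset ℚ)) :
    ¬ ∀ p : ℕ, ∀ [Fact p.Prime], ∃ C : VariableChange ℚ_[p],
      HasGoodReduction ℤ_[p] (C • E.map (algebraMap ℚ ℚ_[p])) ∨
        HasMultiplicativeReduction ℤ_[p] (C • E.map (algebraMap ℚ ℚ_[p])) := by
  simp only [Finset.mem_insert, Finset.mem_singleton] at hj
  obtain ⟨z, hz⟩ : ∃ z : ℤ, E.j = z := by
    rcases hj with h | h | h | h | h | h | h | h | h | h | h | h | h <;>
      exact ⟨_, h.trans (by norm_cast)⟩
  exact not_semistable_of_integral_j E z hz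

end FA.Summary

end
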