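import Fermat.Agent.CM.ClassOne.Setting
import Fermat.Agent.CM.ClassOne.DataEleven
import Fermat.Agent.CM.ClassOne.DataNineteen
import Fermat.Agent.CM.ClassOne.DataFortyThree
import Fermat.Agent.CM.ClassOne.DataSixtySeven
import Fermat.Agent.CM.ClassOne.DataOneSixtyThree
import Fermat.Agent.Root.SummaryIntegralJ
import Fermat.Agent.Root.SummaryTwists

/-!
# The isogeny degrees of the curves with complex multiplication

For `q = 11, 19, 43, 67, 163` the curves over `ℚ` with multiplication by the integers of `ℚ(√-q)`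
have a Galois stable subgroup of order `q`, the kernel of `√-q` on the `q`-torsion. So the action
of Galois on their `q`-torsion is not surjective. Their `j` is integral, so they are not
semistable.
-/

set_option autoImplicit false
set_option linter.style.haveILetI false

noncomputable section

open WeierstrassCurve
open scoped WeierstrassCurve.Affine

namespace FA.CM.ClassOne

local notation "Qb" => AlgebraicClosure ℚ
local notation "GQ" => AlgebraicClosure ℚ ≃ₐ[ℚ] AlgebraicClosure ℚ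

variable {q : ℕ} [hqf : Fact q.Prime]

/-- A square root `M` of `-q` whose kernel is stable under Galois spans a stable line in the
`q`-torsion. -/
theorem exists_stable_generator (E : WeierstrassCurve ℚ) [E.IsElliptic]
    (M : (E⁄Qb).Point →+ (E⁄Qb).Point) (hMM : ∀ P, M (M P) = (-(q : ℤ)) • P)
    (hker : ∀ σ : GQ, ∀ P, M P = 0 → M (σ • P) = 0) :
    ∃ v : (E⁄Qb).Point, addOrderOf v = q ∧ ∀ σ : GQ, ∃ c : ℤ, c • v = σ • v := by
  have hNN : ∀ v, torsEnd E M q (torsEnd E M q v) = 0 := fun v => by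
    rw [torsEnd_torsEnd hMM]
    push_cast [ZMod.natCast_self]
    simp
  obtain ⟨v, hv, hNv, hspan⟩ :=
    exists_kernel_generator (FA.EC.finrank_torsion E q) (torsEnd_ne_zero hMM) hNN
  refine ⟨v.1, addOrderOf_eq_prime ?_ (fun h => hv (Subtype.ext h)), fun σ => ?_⟩
  · rw [← natCast_zsmul]
    exact (Submodule.mem_torsionBy_iff _ _).mp v.2
  · obtain ⟨c, hc⟩ := hspan (torsRep E q σ v)
      (Subtype.ext (hker σ v.1 (congrArg Subtype.val hNv)))
    refine ⟨(c.val : ℤ), ?_⟩
    rw [show c = (((c.val : ℕ) : ℤ) : ZMod q) by simp, Int.cast_smul_eq_zsmul] at hc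
    exact congrArg Subtype.val hc

omit hqf in
/-- A stable line of a twist gives a stable subgroup of the curve. -/
theorem exists_stable_subgroup_of_twist (E : WeierstrassCurve ℚ) [E.IsElliptic] {d : ℚ}
    (hd : d ≠ 0) {E' : WeierstrassCurve ℚ} (htw : FA.Twists.quadTwist E d = E')
    {v : (E'.toAffine⁄Qb).Point} (hv : addOrderOf v = q)
    (hst : ∀ σ : GQ, ∃ c : ℤ, c • v = σ • v) :
    ∃ G : AddSubgroup (E.toAffine⁄Qb).Point, Nat.card G = q ∧
      ∀ σ : GQ, ∀ P ∈ G, Affine.Point.map σ.toAlgHom P ∈ G := by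
  subst htw
  obtain ⟨e, he⟩ := FA.Root.exists_twist_equiv E hd
  refine ⟨AddSubgroup.zmultiples (e v), ?_, fun σ P hP => ?_⟩
  · rw [Nat.card_zmultiples, AddEquiv.addOrderOf_eq, hv]
  obtain ⟨k, rfl⟩ := AddSubgroup.mem_zmultiples_iff.mp hP
  rw [map_zsmul]
  refine AddSubgroup.zsmul_mem _ ?_ k
  obtain ⟨c, hc⟩ := hst σ
  have hmem : e (σ • v) ∈ AddSubgroup.zmultiples (e v) :=
    AddSubgroup.mem_zmultiples_iff.mpr ⟨c, by rw [← map_zsmul, hc]⟩
  rcases he σ v with h | h <;> rw [h]
  · exact hmem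
  · exact neg_mem hmem

omit hqf in
/-- A curve with the invariant of a short equation has a quadratic twist equal to it. -/
theorem exists_quadTwist_eq_short {a b : ℚ} (ha : a ≠ 0) (hb : b ≠ 0)
    (hab : 4 * a ^ 3 + 27 * b ^ 2 ≠ 0) (E : WeierstrassCurve ℚ) [E.IsElliptic]
    (hj : E.j = 6912 * a ^ 3 / (4 * a ^ 3 + 27 * b ^ 2)) :
    ∃ d : ℚ, d ≠ 0 ∧ FA.Twists.quadTwist E d = shortCurve a b := by
  have hΔ : E.Δ ≠ 0 := E.isUnit_Δ.ne_zero
  have hjΔ : E.c₄ ^ 3 = E.j * E.Δ := by
    rw [WeierstrassCurve.j, ← E.coe_Δ', mul_comm, ← mul_assoc, Units.mul_inv, one_mul]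
  rw [hj, div_mul_eq_mul_div, eq_div_iff hab] at hjΔ
  have key : 27 * b ^ 2 * E.c₄ ^ 3 = -4 * a ^ 3 * E.c₆ ^ 2 := by
    linear_combination hjΔ + 4 * a ^ 3 * E.c_relation
  have h4 : E.c₄ ≠ 0 := fun h => hΔ (by
    rw [h] at hjΔ
    simpa [ha] using hjΔ)
  have h6 : E.c₆ ≠ 0 := fun h => by
    rw [h] at key
    simp [hb, h4] at key
  set d := b * E.c₄ / (2 * a * E.c₆) with hd'
  have htw : FA.Twists.quadTwist E d = shortCurve a b := by
    ext <;> simp only [FA.Twists.quadTwist, FA.Twists.short, hd']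
    all_goals field_simp
    · linear_combination -key
    · linear_combination -2 * key
  have hd : d ≠ 0 := div_ne_zero (mul_ne_zero hb h4) (mul_ne_zero (mul_ne_zero two_ne_zero ha) h6)
  exact ⟨d, hd, htw⟩

/-- **Certificates give a stable subgroup of order `q`** on every curve with the invariant of
their short equation. -/
theorem exists_stable_subgroup_of_certificates {n : ℕ} (hqn : q + 1 = 4 * n) {a b : ℚ}
    (ha : a ≠ 0) (hb : b ≠ 0) (hab : 4 * a ^ 3 + 27 * b ^ 2 ≠ 0)
    (hc : ∀ α : Qb, α ^ 2 - α + (n : Qb) = 0 → Nonempty (CertOver a b α))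
    (E : WeierstrassCurve ℚ) [E.IsElliptic]
    (hj : E.j = 6912 * a ^ 3 / (4 * a ^ 3 + 27 * b ^ 2)) :
    ∃ G : AddSubgroup (E.toAffine⁄Qb).Point, Nat.card G = q ∧
      ∀ σ : GQ, ∀ P ∈ G, Affine.Point.map σ.toAlgHom P ∈ G := by
  obtain ⟨d, hd, htw⟩ := exists_quadTwist_eq_short ha hb hab E hj
  haveI : (shortCurve a b).IsElliptic := htw ▸ FA.Root.quadTwist_isElliptic E hd
  obtain ⟨s, hs⟩ := IsAlgClosed.exists_pow_nat_eq (-(q : Qb)) two_pos
  have hn : (q : Qb) + 1 = 4 * (n : Qb) := by exact_mod_cast hqn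
  obtain ⟨c⟩ := hc ((1 + s) / 2) (by field_simp; linear_combination hs - hn)
  obtain ⟨M, hMM, hM⟩ := exists_sqrt_endo_of_cert a b (q := (q : ℤ))
    (n := (n : ℤ)) (by exact_mod_cast hqn) (by exact_mod_cast (show n ≠ 0 by omega))
    (by simpa using hs) c
  obtain ⟨v, hv, hst⟩ := exists_stable_generator (q := q) (shortCurve a b) M hMM fun σ P hP => by
    rcases apply_sqrt hs σ with h | h
    · exact ((hM σ).1 h P).symm.trans (by rw [hP, map_zero])
    · exact neg_eq_zero.mp (((hM σ).2 h P).symm.trans (by rw [hP, map_zero]))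
  exact exists_stable_subgroup_of_twist E hd htw hv hst

end FA.CM.ClassOne

namespace FA.Summary

open FA.CM.ClassOne

/-- **Complex multiplication gives rational isogenies of degree `11, 19, 43, 67, 163`**: every
curve over `ℚ` with the invariant of the integers of `ℚ(√-q)` has a Galois stable subgroup of
order `q`. -/
theorem exists_stable_subgroup_of_cm (E : WeierstrassCurve ℚ) [E.IsElliptic]
    [inst : DecidableEq (AlgebraicClosure ℚ)] {q : ℕ}
    (h : q = 11 ∧ E.j = -32768 ∨ q = 19 ∧ E.j = -884736 ∨ q = 43 ∧ E.j = -884736000 ∨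
      q = 67 ∧ E.j = -147197952000 ∨ q = 163 ∧ E.j = -262537412640768000) :
    ∃ G : AddSubgroup (E.toAffine⁄(AlgebraicClosure ℚ)).Point, Nat.card G = q ∧
      ∀ σ : AlgebraicClosure ℚ ≃ₐ[ℚ] AlgebraicClosure ℚ, ∀ P ∈ G,
        Affine.Point.map σ.toAlgHom P ∈ G := by
  obtain rfl : inst = instDecEqAlgebraicClosureRat := Subsingleton.elim _ _
  rcases h with ⟨rfl, hj⟩ | ⟨rfl, hj⟩ | ⟨rfl, hj⟩ | ⟨rfl, hj⟩ | ⟨rfl, hj⟩
  · haveI := Fact.mk (show Nat.Prime 11 by norm_num)
    exact exists_stable_subgroup_of_certificates (n := 3) rfl (by norm_num) (by norm_num)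
      (by norm_num) certificates_eleven E (hj.trans (by norm_num))
  · haveI := Fact.mk (show Nat.Prime 19 by norm_num)
    exact exists_stable_subgroup_of_certificates (n := 5) rfl (by norm_num) (by norm_num)
      (by norm_num) certificates_nineteen E (hj.trans (by norm_num))
  · haveI := Fact.mk (show Nat.Prime 43 by norm_num)
    exact exists_stable_subgroup_of_certificates (n := 11) rfl (by norm_num) (by norm_num)
      (by norm_num) certificates_fortyThree E (hj.trans (by norm_num))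
  · haveI := Fact.mk (show Nat.Prime 67 by norm_num)
    exact exists_stable_subgroup_of_certificates (n := 17) rfl (by norm_num) (by norm_num)
      (by norm_num) certificates_sixtySeven E (hj.trans (by norm_num))
  · haveI := Fact.mk (show Nat.Prime 163 by norm_num)
    exact exists_stable_subgroup_of_certificates (n := 41) rfl (by norm_num) (by norm_num)
      (by norm_num) certificates_oneSixtyThree E (hj.trans (by norm_num))

/-- So Galois does not induce every automorphism of their `q`-torsion. -/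
theorem not_galoisSurjectiveTorsion_of_cm (E : WeierstrassCurve ℚ) [E.IsElliptic]
    [inst : DecidableEq (AlgebraicClosure ℚ)] {q : ℕ}
    (h : q = 11 ∧ E.j = -32768 ∨ q = 19 ∧ E.j = -884736 ∨ q = 43 ∧ E.j = -884736000 ∨
      q = 67 ∧ E.j = -147197952000 ∨ q = 163 ∧ E.j = -262537412640768000) :
    ¬ ∀ φ : Submodule.torsionBy ℤ (E.toAffine⁄(AlgebraicClosure ℚ)).Point (q : ℤ) ≃+
        Submodule.torsionBy ℤ (E.toAffine⁄(AlgebraicClosure ℚ)).Point (q : ℤ),
      ∃ σ : AlgebraicClosure ℚ ≃ₐ[ℚ] AlgebraicClosure ℚ, ∀ P,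
        Affine.Point.map σ.toAlgHom P.1 = (φ P).1 := by
  obtain rfl : inst = instDecEqAlgebraicClosureRat := Subsingleton.elim _ _
  have hq : q.Prime := by
    rcases h with ⟨rfl, -⟩ | ⟨rfl, -⟩ | ⟨rfl, -⟩ | ⟨rfl, -⟩ | ⟨rfl, -⟩ <;> norm_num
  obtain ⟨G, hcard, hst⟩ := exists_stable_subgroup_of_cm E h
  haveI := Fact.mk hq
  haveI : Finite G := Nat.finite_of_card_ne_zero (hcard ▸ hq.ne_zero)
  haveI : Nontrivial G := Finite.one_lt_card_iff_nontrivial.mp (hcard ▸ hq.one_lt)
  obtain ⟨⟨v₀, hv₀⟩, hne⟩ := exists_ne (0 : G)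
  let T := Submodule.torsionBy ℤ (E.toAffine⁄(AlgebraicClosure ℚ)).Point (q : ℤ)
  let v : T := ⟨v₀, (Submodule.mem_torsionBy_iff _ _).mpr (by
    rw [natCast_zsmul, ← hcard]
    exact congrArg Subtype.val (card_nsmul_eq_zero' (G := G) (x := ⟨v₀, hv₀⟩)))⟩
  have hv : v ≠ 0 := fun e => hne (Subtype.ext (show v₀ = 0 from congrArg (fun P : T => P.1) e))
  have hV : Module.finrank (ZMod q) T = 2 := FA.EC.finrank_torsion E q
  obtain ⟨w, hw⟩ : ∃ w : T, ∀ c : ZMod q, c • v ≠ w := by
    by_contra H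
    push Not at H
    exact absurd hV (by rw [(finrank_eq_one_iff_of_nonzero' v hv).mpr H]; omega)
  have hli : LinearIndependent (ZMod q) ![v, w] := (LinearIndependent.pair_iff' hv).mpr hw
  haveI : Nonempty (Fin 2) := ⟨0⟩
  let B := basisOfLinearIndependentOfCardEqFinrank hli (by simp [hV])
  intro hall
  obtain ⟨σ, hσ⟩ := hall (B.equiv B (Equiv.swap 0 1)).toAddEquiv
  have hφ : B.equiv B (Equiv.swap 0 1) v = w := by
    have h01 := B.equiv_apply 0 B (Equiv.swap 0 1)
    simpa [B] using h01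
  have hwG : w.1 ∈ G := by
    have := hst σ v₀ hv₀
    rwa [show Affine.Point.map σ.toAlgHom v₀ = w.1 from (hσ v).trans (congrArg Subtype.val hφ)]
      at this
  obtain ⟨k, hk⟩ := AddSubgroup.mem_zmultiples_iff.mp
    (mem_zmultiples_of_prime_card hcard hne (g' := ⟨w.1, hwG⟩))
  refine hw (k : ZMod q) ?_
  rw [Int.cast_smul_eq_zsmul]
  exact Subtype.ext (congrArg Subtype.val hk : k • v₀ = w.1)

/-- So these curves are not semistable. -/
theorem not_semistable_of_cm (E : WeierstrassCurve ℚ) [E.IsElliptic]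
    (h : E.j ∈ ({-32768, -884736, -884736000, -147197952000, -262537412640768000} : Finset ℚ)) :
    ¬ ∀ p : ℕ, ∀ [Fact p.Prime], ∃ C : VariableChange ℚ_[p],
      HasGoodReduction ℤ_[p] (C • E.map (algebraMap ℚ ℚ_[p])) ∨
        HasMultiplicativeReduction ℤ_[p] (C • E.map (algebraMap ℚ ℚ_[p])) := by
  obtain ⟨z, hz⟩ : ∃ z : ℤ, E.j = z := by
    simp only [Finset.mem_insert, Finset.mem_singleton] at h
    rcases h with h | h | h | h | h <;> exact ⟨_, h.trans (by norm_cast)⟩
  exact not_semistable_of_integral_j E z hz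

end FA.Summary

end
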