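import Fermat.Agent.EC.SevenSemistable
import Fermat.Agent.EC.S51Aux
import Fermat.Agent.IsogenyDegrees.FifteenTwentyOne
import Fermat.Agent.Root.SummaryOggShafarevich
import Fermat.Agent.Root.SummaryTorsion

/-!
# Cyclic isogenies of degree `14`, `15` and `21` over `ℚ`

* `isogeny_fourteen_j_iff`: a stable cyclic subgroup of order `14` exists exactly for
  `j = -15³, 255³`.
* `isogeny_fifteen_j_iff`, `isogeny_twentyOne_j_iff`: one of order `15` exactly for four values of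
  `j`, and one of order `21` exactly for four.
-/

set_option autoImplicit false
set_option linter.style.haveILetI false
set_option linter.unusedSectionVars false

noncomputable section

open WeierstrassCurve FA.KerPoly FA.EC
open FA.Frob (ratCurve)
open scoped WeierstrassCurve.Affine

local notation "Qb" => AlgebraicClosure ℚ
local notation "GQ" => AlgebraicClosure ℚ ≃ₐ[ℚ] AlgebraicClosure ℚ

namespace FA.X0Composite

variable {E : WeierstrassCurve ℚ} [E.IsElliptic]

/-- A divisor of the order of a stable line is one. -/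
theorem hasStableOrder_of_dvd {n d : ℕ} (h : HasStableOrder E n) (hn : n ≠ 0) (hd : d ∣ n) :
    HasStableOrder E d := by
  obtain ⟨g, hg, hst⟩ := h
  obtain ⟨k, rfl⟩ := hd
  have hd0 : 0 < d := Nat.pos_of_ne_zero (left_ne_zero_of_mul hn)
  refine ⟨k • g, ?_, fun σ => ?_⟩
  · rw [addOrderOf_nsmul' _ (right_ne_zero_of_mul hn), hg, Nat.gcd_eq_right (dvd_mul_left k d),
      Nat.mul_div_cancel _ (Nat.pos_of_ne_zero (right_ne_zero_of_mul hn))]
  · obtain ⟨c, hc⟩ := hst σ
    exact ⟨c, by rw [map_nsmul, ← hc]; exact (zsmulAddGroupHom c : _ →+ _).map_nsmul k g⟩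

/-- An integral model with the data of a stable line. -/
theorem exists_model (E : WeierstrassCurve ℚ) [E.IsElliptic] :
    ∃ (W : WeierstrassCurve ℤ) (_ : (ratCurve W).IsElliptic), W.IsIntegralModelOf E ∧
      (W.Δ : ℚ) ≠ 0 ∧ E.j = (W.c₄ : ℚ) ^ 3 / W.Δ := by
  obtain ⟨W, hW⟩ := FA.Frob.exists_integralModel E
  haveI := FA.Frob.ratCurve_isElliptic_of_Δ (FA.Frob.Δ_ne_zero_of_model hW)
  refine ⟨W, inferInstance, hW, Int.cast_ne_zero.2 (FA.Frob.Δ_ne_zero_of_model hW), ?_⟩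
  rw [← FA.OggShafarevich.j_ratCurve hW, WeierstrassCurve.j, Units.val_inv_eq_inv_val, coe_Δ',
    map_Δ, map_c₄, eq_intCast, eq_intCast, div_eq_mul_inv, mul_comm]

/-- A stable line of prime order makes the torsion of a model reducible. -/
theorem not_irreducible {W : WeierstrassCurve ℤ} (hW : W.IsIntegralModelOf E) {p : ℕ}
    (hp : p.Prime) (h : HasStableOrder E p) : ¬ W.ModRepIsIrreducible p := by
  obtain ⟨G, hcard, -, hst⟩ := h.exists_subgroup
  exact FA.Root.not_modRepIsIrreducible_of_model_subgroup hW hp G hcard hst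

/-- A stable line of order `2` gives a rational root of the cubic of a model. -/
theorem exists_root_two {W : WeierstrassCurve ℤ} [(ratCurve W).IsElliptic]
    (hW : W.IsIntegralModelOf E) (h : HasStableOrder E 2) :
    ∃ e : ℚ, 4 * e ^ 3 + (W.b₂ : ℚ) * e ^ 2 + 2 * (W.b₄ : ℚ) * e + (W.b₆ : ℚ) = 0 := by
  obtain ⟨f, hf⟩ := FA.Root.exists_equiv_of_model hW
  obtain ⟨g, hg, hst⟩ := h
  obtain ⟨P, rfl⟩ := f.surjective g
  rw [AddEquiv.addOrderOf_eq] at hg
  have hP0 : P ≠ 0 := fun h0 => by rw [h0, addOrderOf_zero] at hg; omega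
  have h2 : P + P = 0 := by rw [← two_nsmul, ← hg, addOrderOf_nsmul_eq_zero]
  have hfix : ∀ σ : GQ, σ • P = P := fun σ => f.injective (by
    obtain ⟨c, hc⟩ := hst σ
    rw [hf, ← hc]
    rcases Int.even_or_odd c with ⟨r, rfl⟩ | ⟨r, rfl⟩
    · exfalso
      rw [add_zsmul, ← zsmul_add, ← map_add, h2, map_zero, zsmul_zero] at hc
      rw [← hf] at hc
      exact hP0 ((smul_eq_zero_iff_eq σ).1 (f.injective (by rw [map_zero]; exact hc.symm)))
    · rw [add_zsmul, one_zsmul, two_mul, add_zsmul, ← zsmul_add, ← map_add, h2, map_zero,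
        zsmul_zero, zero_add])
  obtain ⟨x, y, hns, rfl⟩ := FA.EC.exists_some_of_ne_zero (W := (ratCurve W)⁄Qb) hP0
  obtain ⟨e, rfl⟩ := FA.EC.mem_range_of_fixed fun σ => (Affine.Point.some.inj (hfix σ)).1
  refine ⟨e, (algebraMap ℚ Qb).injective ?_⟩
  have hpc : ((ratCurve W)⁄Qb).Ψ₂Sq.eval (algebraMap ℚ Qb e) = 0 := by
    have := FA.EC.pc_sq (W := (ratCurve W)⁄Qb) hP0
    rw [FA.EC.pc_eq_zero_of_add_self h2, zero_pow two_ne_zero, FA.EC.xc_some] at this
    exact this.symm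
  simp [WeierstrassCurve.Ψ₂Sq, FA.Frob.ratCurve, b₂, b₄, b₆, baseChange] at hpc
  simp [b₂, b₄, b₆]
  linear_combination hpc

/-- The three fibre products, on the invariant. -/
theorem j_of_stable_fifteen (h : HasStableOrder E 15) :
    E.j = -25 / 2 ∨ E.j = -349938025 / 8 ∨ E.j = -121945 / 32 ∨ E.j = 46969655 / 32768 := by
  obtain ⟨W, _, hW, hΔ, hj⟩ := exists_model E
  obtain ⟨x, hx⟩ := exists_root_Ψ₃ _ (not_irreducible hW Nat.prime_three
    (hasStableOrder_of_dvd h (by norm_num) (by norm_num)))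
  obtain ⟨s, hs, hsj⟩ := exists_param_three _ x hx
  obtain ⟨t, ht, htj⟩ := exists_param_five (E := W.map (Int.castRingHom ℚ))
    (not_irreducible hW Nat.prime_five (hasStableOrder_of_dvd h (by norm_num) (by norm_num)))
  rw [map_c₄, map_Δ, eq_intCast, eq_intCast] at hsj htj
  have hF : (s + 27) * (s + 3) ^ 3 * t = (t ^ 2 + 10 * t + 5) ^ 3 * s :=
    mul_right_cancel₀ hΔ (by linear_combination s * htj - t * hsj)
  have hjt : E.j = (t ^ 2 + 10 * t + 5) ^ 3 / t := by
    rw [hj, div_eq_div_iff hΔ ht, htj]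
  rcases X15.fibre_points hs ht hF with rfl | rfl | rfl | rfl <;> norm_num [hjt]

theorem j_of_stable_twentyOne (h : HasStableOrder E 21) :
    E.j = 3375 / 2 ∨ E.j = -140625 / 8 ∨ E.j = -189613868625 / 128 ∨
      E.j = -1159088625 / 2097152 := by
  obtain ⟨W, _, hW, hΔ, hj⟩ := exists_model E
  obtain ⟨x, hx⟩ := exists_root_Ψ₃ _ (not_irreducible hW Nat.prime_three
    (hasStableOrder_of_dvd h (by norm_num) (by norm_num)))
  obtain ⟨s, hs, hsj⟩ := exists_param_three _ x hx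
  obtain ⟨t, ht, htj⟩ := exists_param_seven (E := W.map (Int.castRingHom ℚ))
    (not_irreducible hW (by norm_num) (hasStableOrder_of_dvd h (by norm_num) (by norm_num)))
  rw [map_c₄, map_Δ, eq_intCast, eq_intCast] at hsj htj
  have hF : (s + 27) * (s + 3) ^ 3 * t = (t ^ 2 + 13 * t + 49) * (t ^ 2 + 5 * t + 1) ^ 3 * s :=
    mul_right_cancel₀ hΔ (by linear_combination s * htj - t * hsj)
  have hjt : E.j = (t ^ 2 + 13 * t + 49) * (t ^ 2 + 5 * t + 1) ^ 3 / t := by
    rw [hj, div_eq_div_iff hΔ ht, htj]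
  rcases FA.Torsion.X21.fibre_points ht hF with rfl | rfl | rfl | rfl <;> norm_num [hjt]

theorem j_of_stable_fourteen (h : HasStableOrder E 14) : E.j = -3375 ∨ E.j = 16581375 := by
  obtain ⟨W, _, hW, hΔ, hj⟩ := exists_model E
  obtain ⟨e, he⟩ := exists_root_two hW (hasStableOrder_of_dvd h (by norm_num) (by norm_num))
  obtain ⟨t, ht, htj⟩ := exists_param_seven (E := W.map (Int.castRingHom ℚ))
    (not_irreducible hW (by norm_num) (hasStableOrder_of_dvd h (by norm_num) (by norm_num)))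
  rw [map_c₄, map_Δ, eq_intCast, eq_intCast] at htj
  have hrel : (W.c₄ : ℚ) ^ 3 - (W.c₆ : ℚ) ^ 2 = 1728 * (W.Δ : ℚ) := by
    exact_mod_cast W.c_relation.symm
  have hx : (3 * e + (W.b₂ : ℚ) / 4) ^ 3 -
      3 * (W.c₄ : ℚ) / 16 * (3 * e + (W.b₂ : ℚ) / 4) - (W.c₆ : ℚ) / 32 = 0 := by
    simp only [c₄, c₆]; push_cast; linear_combination 27 / 4 * he
  have hjt : E.j = (t ^ 2 + 13 * t + 49) * (t ^ 2 + 5 * t + 1) ^ 3 / t := by
    rw [hj, div_eq_div_iff hΔ ht, htj]
  rcases SevenFibre.param_of_root hx hrel hΔ ht htj with rfl | rfl <;> norm_num [hjt]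

end FA.X0Composite

namespace FA.Summary

variable (E : WeierstrassCurve ℚ) [E.IsElliptic] [inst : DecidableEq (AlgebraicClosure ℚ)]

/-- **The cyclic isogenies of degree `14` over `ℚ`.** -/
theorem isogeny_fourteen_j_iff :
    (∃ G : AddSubgroup (E.toAffine⁄(AlgebraicClosure ℚ)).Point, Nat.card G = 14 ∧ IsAddCyclic G ∧
      ∀ σ : AlgebraicClosure ℚ ≃ₐ[ℚ] AlgebraicClosure ℚ, ∀ P ∈ G,
        Affine.Point.map σ.toAlgHom P ∈ G) ↔ E.j = -3375 ∨ E.j = 16581375 := by
  obtain rfl : inst = instDecEqAlgebraicClosureRat := Subsingleton.elim _ _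
  refine ⟨fun ⟨G, hcard, hcyc, hst⟩ => ?_, fun h => (hasStableOrder_fourteen E h).exists_subgroup⟩
  exact FA.X0Composite.j_of_stable_fourteen (@hasStableOrder_of_subgroup _ _ G _ hcard hcyc hst)

/-- **The cyclic isogenies of degree `15` over `ℚ`.** -/
theorem isogeny_fifteen_j_iff :
    (∃ G : AddSubgroup (E.toAffine⁄(AlgebraicClosure ℚ)).Point, Nat.card G = 15 ∧ IsAddCyclic G ∧
      ∀ σ : AlgebraicClosure ℚ ≃ₐ[ℚ] AlgebraicClosure ℚ, ∀ P ∈ G,
        Affine.Point.map σ.toAlgHom P ∈ G) ↔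
      E.j = -25 / 2 ∨ E.j = -349938025 / 8 ∨ E.j = -121945 / 32 ∨ E.j = 46969655 / 32768 := by
  obtain rfl : inst = instDecEqAlgebraicClosureRat := Subsingleton.elim _ _
  refine ⟨fun ⟨G, hcard, hcyc, hst⟩ => ?_, fun h => (hasStableOrder_fifteen E h).exists_subgroup⟩
  exact FA.X0Composite.j_of_stable_fifteen (@hasStableOrder_of_subgroup _ _ G _ hcard hcyc hst)

/-- **The cyclic isogenies of degree `21` over `ℚ`.** -/
theorem isogeny_twentyOne_j_iff :
    (∃ G : AddSubgroup (E.toAffine⁄(AlgebraicClosure ℚ)).Point, Nat.card G = 21 ∧ IsAddCyclic G ∧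
      ∀ σ : AlgebraicClosure ℚ ≃ₐ[ℚ] AlgebraicClosure ℚ, ∀ P ∈ G,
        Affine.Point.map σ.toAlgHom P ∈ G) ↔
      E.j = 3375 / 2 ∨ E.j = -140625 / 8 ∨ E.j = -189613868625 / 128 ∨
        E.j = -1159088625 / 2097152 := by
  obtain rfl : inst = instDecEqAlgebraicClosureRat := Subsingleton.elim _ _
  refine ⟨fun ⟨G, hcard, hcyc, hst⟩ => ?_,
    fun h => (hasStableOrder_twentyOne E h).exists_subgroup⟩
  exact FA.X0Composite.j_of_stable_twentyOne (@hasStableOrder_of_subgroup _ _ G _ hcard hcyc hst)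

end FA.Summary

end
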