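import Fermat.Agent.Root.SummarySerreOpenImageTwist
import Mathlib.NumberTheory.LegendreSymbol.AddCharacter

/-!
# A Weil pairing on the `N`-torsion

For every elliptic curve over `ℚ` and every `N ≠ 0` the `N`-torsion of `E(ℚ̄)` carries a pairing
with values in the `N`-th roots of unity which is bimultiplicative, trivial on the diagonal,
non-degenerate and compatible with Galois. On the torsion of prime power order it is a determinant
in a basis of the Tate module, Galois acting on determinants by the cyclotomic character; the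
general level follows by the Chinese remainder theorem. Only the existence of a pairing with these
properties is proved, not its description by divisors or its behaviour under isogenies.
-/

set_option autoImplicit false
set_option linter.unusedSectionVars false
set_option linter.style.haveILetI false

noncomputable section

open Matrix WeierstrassCurve WeierstrassCurve.Affine FA.EC FA.Frob FA.RT FA.RT.Tate FA.JTorsion
open scoped WeierstrassCurve.Affine

local notation "Qb" => AlgebraicClosure ℚ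
local notation "GQ" => AlgebraicClosure ℚ ≃ₐ[ℚ] AlgebraicClosure ℚ

namespace FA.WeilPairing

variable (W : WeierstrassCurve ℤ) [(ratCurve W).IsElliptic]

/-- The properties of a Weil pairing on the points killed by `N`. -/
structure IsPairing (N : ℕ) (e : Pts W → Pts W → Qb) : Prop where
  pow : ∀ P Q, N • P = 0 → N • Q = 0 → e P Q ^ N = 1
  mul_left : ∀ P P' Q, N • P = 0 → N • P' = 0 → N • Q = 0 → e (P + P') Q = e P Q * e P' Q
  mul_right : ∀ P Q Q', N • P = 0 → N • Q = 0 → N • Q' = 0 → e P (Q + Q') = e P Q * e P Q'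
  self : ∀ P, N • P = 0 → e P P = 1
  nondeg : ∀ P, N • P = 0 → (∀ Q, N • Q = 0 → e P Q = 1) → P = 0
  gal : ∀ (σ : GQ) P Q, N • P = 0 → N • Q = 0 → e (σ • P) (σ • Q) = σ (e P Q)

variable {W}

theorem IsPairing.right_zero {N : ℕ} {e : Pts W → Pts W → Qb} (h : IsPairing W N e) (hN : N ≠ 0)
    {P : Pts W} (hP : N • P = 0) : e P 0 = 1 := by
  have hne : e P 0 ≠ 0 := fun h0 => by
    have := h.pow P 0 hP (nsmul_zero N)
    rw [h0, zero_pow hN] at this
    exact zero_ne_one this
  have := h.mul_right P 0 0 hP (nsmul_zero N) (nsmul_zero N)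
  rw [add_zero] at this
  exact mul_left_cancel₀ hne (this.symm.trans (mul_one _).symm)

/-- The pairing at a prime power: the determinant in a basis of the Tate module. -/
theorem exists_primePow (W : WeierstrassCurve ℤ) [(ratCurve W).IsElliptic] {p : ℕ} [Fact p.Prime]
    (n : ℕ) : ∃ e, IsPairing W (p ^ n) e := by
  classical
  obtain ⟨B⟩ := exists_tateBasis (p := p) W
  have : NeZero (p ^ n) := ⟨pow_ne_zero _ (Fact.out : p.Prime).ne_zero⟩
  obtain ⟨ζ, hζ⟩ := FA.TW.exists_primitiveRoot (Fact.out : p.Prime) n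
  let χ : AddChar (ZMod (p ^ n)) Qb := AddChar.zmodChar (p ^ n) hζ.pow_eq_one
  let c : Pts W → Fin 2 → ℤ_[p] := fun P =>
    if h : p ^ n • P = 0 then (B.surj n P h).choose else 0
  have hc : ∀ {P}, p ^ n • P = 0 → B.φ n (c P) = P := fun {P} h => by
    simp only [c, dif_pos h]
    exact (B.surj n P h).choose_spec
  let r : Pts W → Fin 2 → ZMod (p ^ n) := fun P i => PadicInt.toZModPow n (c P i)
  have hr : ∀ {P} {v : Fin 2 → ℤ_[p]}, B.φ n v = P →
      ∀ i, r P i = PadicInt.toZModPow n (v i) := fun {P v} h i => by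
    have hP : p ^ n • P = 0 := h ▸ B.nsmul_phi n v
    exact B.phi_eq_iff.mp ((hc hP).trans h.symm) i
  have hadd : ∀ {P Q}, p ^ n • P = 0 → p ^ n • Q = 0 → ∀ i, r (P + Q) i = r P i + r Q i :=
    fun {P Q} hP hQ i => by
      rw [hr (v := c P + c Q) (by rw [map_add, hc hP, hc hQ]), Pi.add_apply, map_add]
  refine ⟨fun P Q => χ (r P 0 * r Q 1 - r P 1 * r Q 0), ?_, ?_, ?_, ?_, ?_, ?_⟩
  · intro P Q _ _
    rw [← AddChar.map_nsmul_eq_pow, nsmul_eq_mul, ZMod.natCast_self, zero_mul,
      AddChar.map_zero_eq_one]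
  · intro P P' Q hP hP' _
    rw [← AddChar.map_add_eq_mul, hadd hP hP', hadd hP hP']
    congr 1
    ring
  · intro P Q Q' _ hQ hQ'
    rw [← AddChar.map_add_eq_mul, hadd hQ hQ', hadd hQ hQ']
    congr 1
    ring
  · intro P _
    rw [mul_comm, sub_self, AddChar.map_zero_eq_one]
  · intro P hP hall
    have hz : ∀ a : ZMod (p ^ n), χ a = 1 → a = 0 := fun a ha => by
      rw [AddChar.zmodChar_apply] at ha
      exact (ZMod.val_eq_zero a).mp
        (Nat.eq_zero_of_dvd_of_lt (hζ.dvd_of_pow_eq_one _ ha) a.val_lt)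
    have hj : ∀ (j i : Fin 2),
        r (B.φ n (Pi.single j 1)) i = if i = j then 1 else 0 := fun j i => by
      rw [hr rfl, Pi.single_apply, apply_ite (PadicInt.toZModPow n), map_one, map_zero]
    have h0 : r P 0 = 0 := hz _ (by simpa [hj] using hall _ (B.nsmul_phi n (Pi.single 1 1)))
    have h1 : r P 1 = 0 :=
      neg_eq_zero.mp (hz _ (by simpa [hj] using hall _ (B.nsmul_phi n (Pi.single 0 1))))
    rw [← hc hP, B.ker]
    intro i
    fin_cases i
    · exact h0
    · exact h1
  · intro σ P Q hP hQ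
    obtain ⟨a, -, ha⟩ := FA.PadicImage.exists_exponent_roots σ (Fact.out : p.Prime) n
    have hdet : PadicInt.toZModPow n (B.rep σ).det = (a : ZMod (p ^ n)) := by
      rw [B.det_rep, cycP_eq_natCast ha]
    have hs : ∀ {R}, p ^ n • R = 0 → ∀ i, r (σ • R) i =
        PadicInt.toZModPow n (B.rep σ i 0) * r R 0 + PadicInt.toZModPow n (B.rep σ i 1) * r R 1 :=
      fun {R} hR i => by
        rw [hr (v := B.rep σ *ᵥ c R) (by rw [← B.rep_spec, hc hR]), Matrix.mulVec, dotProduct,
          Fin.sum_univ_two, map_add, map_mul, map_mul]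
    rw [ha (χ _) (by rw [← AddChar.map_nsmul_eq_pow, nsmul_eq_mul, ZMod.natCast_self, zero_mul,
      AddChar.map_zero_eq_one]), ← AddChar.map_nsmul_eq_pow, nsmul_eq_mul, hs hP, hs hP, hs hQ,
      hs hQ, ← hdet, det_fin_two, map_sub (PadicInt.toZModPow n), map_mul (PadicInt.toZModPow n),
      map_mul (PadicInt.toZModPow n)]
    congr 1
    ring

/-- The pairing at coprime levels gives one at their product. -/
theorem exists_mul {a b : ℕ} (ha : a ≠ 0) (hb : b ≠ 0) (hab : a.Coprime b)
    {e f : Pts W → Pts W → Qb} (he : IsPairing W a e) (hf : IsPairing W b f) :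
    ∃ g, IsPairing W (a * b) g := by
  obtain ⟨u, v, huv⟩ := Int.isCoprime_iff_nat_coprime.mpr (by simpa using hab :
    (a : ℤ).natAbs.Coprime (b : ℤ).natAbs)
  have kb : ∀ {P : Pts W}, (a * b) • P = 0 → a • (b • P) = 0 := fun {P} h => by
    rw [← mul_nsmul', h]
  have ka : ∀ {P : Pts W}, (a * b) • P = 0 → b • (a • P) = 0 := fun {P} h => by
    rw [← mul_nsmul', mul_comm, h]
  refine ⟨fun P Q => e (b • P) (b • Q) * f (a • P) (a • Q), ?_, ?_, ?_, ?_, ?_, ?_⟩
  · intro P Q hP hQ
    rw [mul_pow, pow_mul, he.pow _ _ (kb hP) (kb hQ), mul_comm a b, pow_mul,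
      hf.pow _ _ (ka hP) (ka hQ), one_pow, one_pow, one_mul]
  · intro P P' Q hP hP' hQ
    rw [nsmul_add, nsmul_add, he.mul_left _ _ _ (kb hP) (kb hP') (kb hQ),
      hf.mul_left _ _ _ (ka hP) (ka hP') (ka hQ)]
    ring
  · intro P Q Q' hP hQ hQ'
    rw [nsmul_add, nsmul_add, he.mul_right _ _ _ (kb hP) (kb hQ) (kb hQ'),
      hf.mul_right _ _ _ (ka hP) (ka hQ) (ka hQ')]
    ring
  · intro P hP
    rw [he.self _ (kb hP), hf.self _ (ka hP), one_mul]
  · intro P hP hall
    have hbP : b • P = 0 := he.nondeg _ (kb hP) fun R hR => by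
      have hv : a • (v • R) = 0 := by rw [smul_comm, hR, zsmul_zero]
      have hbv : b • (v • R) = R := by
        rw [← natCast_zsmul, smul_smul]
        calc ((b : ℤ) * v) • R = (1 - u * a : ℤ) • R := by
              congr 1; linear_combination huv
          _ = R := by rw [sub_zsmul, one_zsmul, mul_smul, natCast_zsmul, hR, zsmul_zero]; simp
      have h := hall (v • R) (by rw [mul_comm, mul_nsmul', hv, nsmul_zero])
      rwa [hbv, hv, hf.right_zero hb (ka hP), mul_one] at h
    have haP : a • P = 0 := hf.nondeg _ (ka hP) fun R hR => by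
      have hu : b • (u • R) = 0 := by rw [smul_comm, hR, zsmul_zero]
      have hau : a • (u • R) = R := by
        rw [← natCast_zsmul, smul_smul]
        calc ((a : ℤ) * u) • R = (1 - v * b : ℤ) • R := by
              congr 1; linear_combination huv
          _ = R := by rw [sub_zsmul, one_zsmul, mul_smul, natCast_zsmul, hR, zsmul_zero]; simp
      have h := hall (u • R) (by rw [mul_nsmul', hu, nsmul_zero])
      rwa [hau, hu, he.right_zero ha (kb hP), one_mul] at h
    rw [← one_zsmul P, ← huv, add_zsmul, mul_smul, mul_smul, natCast_zsmul, natCast_zsmul, haP,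
      hbP, zsmul_zero, zsmul_zero, add_zero]
  · intro σ P Q hP hQ
    rw [smul_comm b σ P, smul_comm b σ Q, smul_comm a σ P, smul_comm a σ Q,
      he.gal σ _ _ (kb hP) (kb hQ), hf.gal σ _ _ (ka hP) (ka hQ), map_mul]

/-- A pairing at every level. -/
theorem exists_pairing (W : WeierstrassCurve ℤ) [(ratCurve W).IsElliptic] (N : ℕ) (hN : N ≠ 0) :
    ∃ e, IsPairing W N e := by
  induction N using Nat.recOnPosPrimePosCoprime with
  | zero => exact absurd rfl hN
  | one =>
    refine ⟨fun _ _ => 1, fun _ _ _ _ => one_pow _, fun _ _ _ _ _ _ => (one_mul _).symm,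
      fun _ _ _ _ _ _ => (one_mul _).symm, fun _ _ => rfl, fun P hP _ => by
        rwa [one_nsmul] at hP, fun σ _ _ _ _ => (map_one σ).symm⟩
  | prime_pow p k hp _ =>
    have := Fact.mk hp
    exact exists_primePow W k
  | coprime a b ha hb hab iha ihb =>
    obtain ⟨e, he⟩ := iha (by omega)
    obtain ⟨f, hf⟩ := ihb (by omega)
    exact exists_mul (by omega) (by omega) hab he hf

end FA.WeilPairing

namespace FA.Summary

/-- **A Weil pairing**: for every elliptic curve over `ℚ` and every `N ≠ 0` there is a pairing on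
the points of `E(ℚ̄)` killed by `N` with values the `N`-th roots of unity, bimultiplicative,
trivial on the diagonal, non-degenerate and Galois equivariant. -/
theorem weilPairing_exists (E : WeierstrassCurve ℚ) [E.IsElliptic] {N : ℕ} (hN : N ≠ 0)
    [inst : DecidableEq (AlgebraicClosure ℚ)] :
    ∃ e : (E.toAffine⁄Qb).Point → (E.toAffine⁄Qb).Point → Qb,
      (∀ P Q, N • P = 0 → N • Q = 0 → e P Q ^ N = 1) ∧
      (∀ P P' Q, N • P = 0 → N • P' = 0 → N • Q = 0 → e (P + P') Q = e P Q * e P' Q) ∧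
      (∀ P Q Q', N • P = 0 → N • Q = 0 → N • Q' = 0 → e P (Q + Q') = e P Q * e P Q') ∧
      (∀ P, N • P = 0 → e P P = 1) ∧
      (∀ P, N • P = 0 → (∀ Q, N • Q = 0 → e P Q = 1) → P = 0) ∧
      ∀ (σ : GQ) P Q, N • P = 0 → N • Q = 0 →
        e (Affine.Point.map σ.toAlgHom P) (Affine.Point.map σ.toAlgHom Q) = σ (e P Q) := by
  obtain rfl : inst = instDecEqAlgebraicClosureRat := Subsingleton.elim _ _
  obtain ⟨W, hW⟩ := FA.Frob.exists_integralModel E
  haveI := FA.Frob.ratCurve_isElliptic_of_Δ (FA.Frob.Δ_ne_zero_of_model hW)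
  obtain ⟨ε, hε⟩ := FA.Root.exists_equiv_of_model hW
  obtain ⟨e, he⟩ := FA.WeilPairing.exists_pairing W N hN
  have k : ∀ {P : (E.toAffine⁄Qb).Point}, N • P = 0 → N • ε.symm P = 0 := fun {P} h => by
    rw [← map_nsmul, h, map_zero]
  refine ⟨fun P Q => e (ε.symm P) (ε.symm Q), fun P Q hP hQ => he.pow _ _ (k hP) (k hQ),
    fun P P' Q hP hP' hQ => by simp only [map_add]; exact he.mul_left _ _ _ (k hP) (k hP') (k hQ),
    fun P Q Q' hP hQ hQ' => by simp only [map_add]; exact he.mul_right _ _ _ (k hP) (k hQ) (k hQ'),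
    fun P hP => he.self _ (k hP), fun P hP hall => ?_, fun σ P Q hP hQ => ?_⟩
  · refine ε.symm.injective ((he.nondeg _ (k hP) fun R hR => ?_).trans (map_zero _).symm)
    simpa using hall (ε R) (by rw [← map_nsmul, hR, map_zero])
  · have hs : ∀ R, ε.symm (Affine.Point.map (W' := E.toAffine) σ.toAlgHom R) = σ • ε.symm R :=
      fun R => ε.symm_apply_eq.mpr (by rw [hε, ε.apply_symm_apply])
    simp only [hs]
    exact he.gal σ _ _ (k hP) (k hQ)

/-- A field over which all `N`-torsion is rational contains the `N`-th roots of unity. -/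
theorem rootsOfUnity_of_full_torsion (E : WeierstrassCurve ℚ) [E.IsElliptic] {N : ℕ} (hN : N ≠ 0)
    [inst : DecidableEq (AlgebraicClosure ℚ)] (K : IntermediateField ℚ Qb)
    (h : ∀ σ ∈ K.fixingSubgroup, ∀ P : (E.toAffine⁄Qb).Point, N • P = 0 →
      Affine.Point.map σ.toAlgHom P = P)
    {μ : Qb} (hμ : μ ^ N = 1) : μ ∈ K := by
  obtain rfl : inst = instDecEqAlgebraicClosureRat := Subsingleton.elim _ _
  obtain ⟨W, hW⟩ := FA.Frob.exists_integralModel E
  haveI := FA.Frob.ratCurve_isElliptic_of_Δ (FA.Frob.Δ_ne_zero_of_model hW)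
  obtain ⟨ε, hε⟩ := FA.Root.exists_equiv_of_model hW
  haveI : IsGalois ℚ Qb := FA.EC.isGalois_algebraicClosure
  rw [← InfiniteGalois.fixedField_fixingSubgroup K]
  rintro ⟨σ, hσ⟩
  exact FA.OpenImage.smul_root_of_fix_torsion (W := W) hN (fun x hx => ε.injective (by
    rw [hε]; exact h σ hσ _ (by rw [← map_nsmul, hx, map_zero]))) hμ

/-- The `N`-torsion is not all rational for `N ≥ 3`. -/
theorem exists_torsion_not_rational (E : WeierstrassCurve ℚ) [E.IsElliptic] {N : ℕ} (hN : 3 ≤ N)
    [inst : DecidableEq (AlgebraicClosure ℚ)] :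
    ∃ P : (E.toAffine⁄Qb).Point, N • P = 0 ∧
      ∃ σ : GQ, Affine.Point.map σ.toAlgHom P ≠ P := by
  by_contra hcon
  push Not at hcon
  have : NeZero (N : Qb) := ⟨Nat.cast_ne_zero.mpr (by omega)⟩
  obtain ⟨μ, hμ⟩ := HasEnoughRootsOfUnity.exists_primitiveRoot Qb N
  obtain ⟨q, hq⟩ := IntermediateField.mem_bot.mp (rootsOfUnity_of_full_torsion E (by omega) ⊥
    (fun σ _ P hP => hcon P hP σ) hμ.pow_eq_one)
  have hq1 : |q| ^ N = 1 := by
    rw [← abs_pow, (algebraMap ℚ Qb).injective (by rw [map_pow, hq, hμ.pow_eq_one, map_one] :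
      algebraMap ℚ Qb (q ^ N) = algebraMap ℚ Qb 1), abs_one]
  have hq2 : q ^ 2 = 1 := by
    rw [← sq_abs, (pow_eq_one_iff_of_nonneg (abs_nonneg q) (by omega)).mp hq1, one_pow]
  have := Nat.le_of_dvd two_pos (hμ.dvd_of_pow_eq_one 2 (by rw [← hq, ← map_pow, hq2, map_one]))
  omega

end FA.Summary

end
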