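import Fermat.Agent.Root.SummaryIrregularPrimes

/-!
# Kummer's table: the irregular primes below one hundred

* `irregular_index_criterion`: for `p ≥ 5`, even `2 ≤ k ≤ p - 3` and `a ^ k ≢ 1 (mod p)`, `p` divides the
  numerator of `B_k` iff `∑ r^(k-1) ⌊a r / p⌋ ≡ 0 (mod p)`.
* `irregular_pairs_lt_hundred`, `irregular_primes_lt_hundred`: below `100` the irregular pairs are `(37, 32)`, `(59, 44)`, `(67, 58)`.
-/

set_option autoImplicit false

noncomputable section

open Finset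

namespace FA.OrderTheta

variable {p : ℕ} [hp : Fact p.Prime]

theorem ratCong_zero_of_dvd_num {x : ℚ} (hx : PIntegral p x) (h : (p : ℤ) ∣ x.num) :
    RatCong p x 0 := by
  obtain ⟨c, hc⟩ := h
  refine ⟨(c : ℚ) * (x.den : ℚ)⁻¹, (PIntegral.intCast c).mul (PIntegral.inv_natCast hx), ?_⟩
  nth_rewrite 1 [← Rat.num_div_den x]
  rw [hc, zero_add]
  push_cast
  ring

theorem RatCong.zero_mul_left {x z : ℚ} (hz : PIntegral p z) (h : RatCong p x 0) :
    RatCong p (z * x) 0 := by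
  obtain ⟨t, ht, rfl⟩ := h
  exact ⟨z * t, hz.mul ht, by ring⟩

theorem RatCong.zero_of_cong {x y : ℚ} (hxy : RatCong p x y) (h : RatCong p x 0) :
    RatCong p y 0 := by
  obtain ⟨t, ht, e⟩ := hxy
  obtain ⟨u, hu, e'⟩ := h
  exact ⟨u + ((-1 : ℤ) : ℚ) * t, hu.add ((PIntegral.intCast _).mul ht), by push_cast; linarith⟩

theorem RatCong.zero_of_cong' {x y : ℚ} (hxy : RatCong p x y) (h : RatCong p y 0) :
    RatCong p x 0 := by
  obtain ⟨t, ht, e⟩ := hxy
  obtain ⟨u, hu, e'⟩ := h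
  exact ⟨u + t, hu.add ht, by rw [e, e']; ring⟩

theorem dvd_num_bernoulli_iff (hp5 : 5 ≤ p) {k : ℕ} (hk : 2 ≤ k) (hkp : k ≤ p - 3) (hev : Even k)
    {a : ℕ} (ha : (a : ZMod p) ≠ 0) (hne : (a : ZMod p) ^ k ≠ 1) :
    (p : ℤ) ∣ (bernoulli k).num ↔
      p ∣ ∑ r ∈ range p, r ^ (k - 1) * (a * r / p) := by
  have hpk : ¬ p ∣ k := fun h => by
    have := Nat.le_of_dvd (by omega) h
    omega
  have hk1 : ¬ p - 1 ∣ k := fun h => by
    have := Nat.le_of_dvd (by omega) h
    omega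
  have ha0 : 0 < a := Nat.pos_of_ne_zero fun e => ha (by rw [e, Nat.cast_zero])
  have hkQ : (k : ℚ) ≠ 0 := by exact_mod_cast (show k ≠ 0 by omega)
  obtain ⟨hinv, h0⟩ := pIntegral_inv_pow_sub_one ha0 hne
  have hV := voronoi_congruence hp5 hk hev ha
  have hA : PIntegral p ((a : ℚ) ^ k - 1) := by
    rw [show (a : ℚ) ^ k - 1 = ((a ^ k : ℕ) : ℚ) + ((-1 : ℤ) : ℚ) by push_cast; ring]
    exact (PIntegral.natCast _).add (PIntegral.intCast _)
  have hW : RatCong p (voronoiSum p a k : ℚ) 0 ↔ p ∣ ∑ r ∈ range p, r ^ (k - 1) * (a * r / p) := by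
    have hcop : Nat.Coprime p (a ^ (k - 1)) := Nat.Coprime.pow_right _
      ((hp.out.coprime_iff_not_dvd).mpr fun h => ha ((ZMod.natCast_eq_zero_iff a p).mpr h))
    constructor
    · intro h
      have h' := RatCong.num_dvd h
      rw [Rat.num_natCast, Int.natCast_dvd_natCast] at h'
      exact hcop.dvd_of_dvd_mul_left h'
    · intro h
      refine ratCong_zero_of_dvd_num (PIntegral.natCast _) ?_
      rw [Rat.num_natCast, Int.natCast_dvd_natCast]
      exact h.mul_left _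
  rw [← hW]
  constructor
  · intro h
    have hB : PIntegral p (bernoulli k) := pIntegral_bernoulli k (by omega)
    refine hV.zero_of_cong (RatCong.zero_mul_left hA ?_)
    rw [div_eq_inv_mul]
    exact RatCong.zero_mul_left (PIntegral.inv_natCast hpk) (ratCong_zero_of_dvd_num hB h)
  · intro h
    refine RatCong.num_dvd ?_
    rw [show bernoulli k = ((k : ℚ) * ((a : ℚ) ^ k - 1)⁻¹) * (((a : ℚ) ^ k - 1) * (bernoulli k / k)) by
      field_simp]
    exact RatCong.zero_mul_left ((PIntegral.natCast _).mul hinv) (hV.zero_of_cong' h)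

/-- The primes from `5` to `97` with a primitive root each. -/
def kummerTable : List (ℕ × ℕ) :=
  [(5, 2), (7, 3), (11, 2), (13, 2), (17, 3), (19, 2), (23, 5), (29, 2), (31, 3), (37, 2), (41, 6),
    (43, 3), (47, 5), (53, 2), (59, 2), (61, 2), (67, 2), (71, 7), (73, 5), (79, 3), (83, 2), (89, 3),
    (97, 5)]

/-- The irregular pairs below one hundred. -/
def irregularPairs : List (ℕ × ℕ) := [(37, 32), (59, 44), (67, 58)]

theorem kummerTable_check : ∀ t ∈ kummerTable, t.2 % t.1 ≠ 0 ∧ ∀ j < (t.1 - 3) / 2,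
    t.2 ^ (2 * j + 2) % t.1 ≠ 1 ∧
      ((∑ r ∈ range t.1, r ^ (2 * j + 1) * (t.2 * r / t.1)) % t.1 = 0 ↔
        (t.1, 2 * j + 2) ∈ irregularPairs) := by
  unfold kummerTable irregularPairs
  decide +kernel

theorem kummerTable_complete : ∀ q < 100, q.Prime → 5 ≤ q → ∃ t ∈ kummerTable, t.1 = q := by
  unfold kummerTable
  decide +kernel

end FA.OrderTheta

namespace FA.Summary

open FA.OrderTheta

/-- **The criterion for an irregular index**, without Bernoulli numbers. -/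
theorem irregular_index_criterion (p : ℕ) [Fact p.Prime] (hp5 : 5 ≤ p) (k : ℕ) (hk : 2 ≤ k)
    (hkp : k ≤ p - 3) (hev : Even k) (a : ℕ) (ha : (a : ZMod p) ≠ 0)
    (hne : (a : ZMod p) ^ k ≠ 1) :
    (p : ℤ) ∣ (bernoulli k).num ↔ p ∣ ∑ r ∈ range p, r ^ (k - 1) * (a * r / p) :=
  dvd_num_bernoulli_iff hp5 hk hkp hev ha hne

/-- **Kummer's table below one hundred.** -/
theorem irregular_pairs_lt_hundred (p k : ℕ) (hp : p.Prime) (hp100 : p < 100) (hev : Even k)
    (hk : 2 ≤ k) (hkp : k ≤ p - 3) :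
    (p : ℤ) ∣ (bernoulli k).num ↔ (p, k) ∈ [(37, 32), (59, 44), (67, 58)] := by
  have hp5 : 5 ≤ p := by omega
  have := Fact.mk hp
  obtain ⟨⟨q, g⟩, ht, rfl⟩ := kummerTable_complete p hp100 hp hp5
  obtain ⟨hg, hj⟩ := kummerTable_check _ ht
  obtain ⟨j, rfl⟩ : ∃ j, k = 2 * j + 2 := ⟨k / 2 - 1, by rw [Nat.even_iff] at hev; omega⟩
  simp only at hg hj hp100 hp5 hkp ⊢
  obtain ⟨h1, h2⟩ := hj j (by omega)
  rw [dvd_num_bernoulli_iff hp5 hk hkp hev (a := g) (fun e => hg (by
      rwa [← Nat.dvd_iff_mod_eq_zero, ← ZMod.natCast_eq_zero_iff]))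
    (fun e => h1 (by
      rw [← Nat.cast_pow, ← Nat.cast_one, ZMod.natCast_eq_natCast_iff'] at e
      rwa [Nat.one_mod_eq_one.mpr (by omega)] at e)),
    show 2 * j + 2 - 1 = 2 * j + 1 by omega, Nat.dvd_iff_mod_eq_zero]
  exact h2

/-- **The irregular primes below one hundred are `37, 59, 67`.** -/
theorem irregular_primes_lt_hundred (p : ℕ) (hp : p.Prime) (hp100 : p < 100) :
    (∃ k, Even k ∧ 2 ≤ k ∧ k ≤ p - 3 ∧ (p : ℤ) ∣ (bernoulli k).num) ↔
      p = 37 ∨ p = 59 ∨ p = 67 := by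
  constructor
  · rintro ⟨k, hev, hk, hkp, h⟩
    rw [irregular_pairs_lt_hundred p k hp hp100 hev hk hkp] at h
    simp only [List.mem_cons, Prod.mk.injEq, List.not_mem_nil, or_false] at h
    omega
  · intro h
    rcases h with rfl | rfl | rfl
    · exact ⟨32, by decide, by norm_num, by norm_num,
        (irregular_pairs_lt_hundred 37 32 hp hp100 (by decide) (by norm_num) (by norm_num)).mpr
          (by simp)⟩
    · exact ⟨44, by decide, by norm_num, by norm_num,
        (irregular_pairs_lt_hundred 59 44 hp hp100 (by decide) (by norm_num) (by norm_num)).mpr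
          (by simp)⟩
    · exact ⟨58, by decide, by norm_num, by norm_num,
        (irregular_pairs_lt_hundred 67 58 hp hp100 (by decide) (by norm_num) (by norm_num)).mpr
          (by simp)⟩

end FA.Summary
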