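import Fermat.Agent.MertensThird.Extreme

/-!
# Mertens' third theorem and the extreme orders of `φ` and `σ`

`∏_{p ≤ x} (1 - 1/p) ∼ e^(-γ) / log x` (Mertens 1874). The constant `γ` comes from
`log ζ (1 + h) + log h → 0` by Abel's limit theorem. Hence Landau's
`liminf φ n log log n / n = e^(-γ)` and Gronwall's `limsup σ n / (n log log n) = e^γ`.

No error term is claimed.
-/

set_option autoImplicit false

noncomputable section

namespace FA.MertensThird.Summary

open Finset Filter Real
open scoped Topology

/-- **Mertens' third theorem.** -/
theorem mertens_third :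
    Tendsto (fun x : ℝ => log x * ∏ p ∈ (Icc 1 ⌊x⌋₊).filter Nat.Prime, (1 - (p : ℝ)⁻¹)) atTop
      (𝓝 (exp (-eulerMascheroniConstant))) :=
  tendsto_log_mul_prod

/-- **Landau's theorem** on the least order of Euler's function. -/
theorem landau_totient :
    liminf (fun n : ℕ => (n.totient : ℝ) * log (log n) / n) atTop =
      exp (-eulerMascheroniConstant) :=
  liminf_phiRatio

/-- **Gronwall's theorem** on the greatest order of the sum of divisors. -/
theorem gronwall :
    limsup (fun n : ℕ => (∑ d ∈ n.divisors, (d : ℝ)) / (n * log (log n))) atTop =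
      exp eulerMascheroniConstant :=
  limsup_sigmaRatio

end FA.MertensThird.Summary
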