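import Fermat.Agent.ThirteenOrders.Conductor

/-!
# The thirteen orders of class number one and the thirteen rational singular moduli

For a root `τ` of a primitive form of discriminant `D < 0`, `j(τ)` is rational iff `D` is one of
`-3, -4, -7, -8, -11, -12, -16, -19, -27, -28, -43, -67, -163`, and these are exactly the
discriminants all of whose forms are equivalent. So exactly thirteen rational numbers are
invariants of quadratic points. (That they are the thirteen classical numbers is not shown here.)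
-/

set_option autoImplicit false

noncomputable section

namespace FA.ThirteenOrders

open FA.ModField (jfun)
open scoped MatrixGroups UpperHalfPlane

/-- The points of discriminant `D` are all equivalent. -/
def OneClass (D : ℤ) : Prop :=
  ∀ (τ τ' : ℍ) (A B C A' B' C' : ℤ), IsRootOf τ A B C → IsRootOf τ' A' B' C' →
    B ^ 2 - 4 * A * C = D → B' ^ 2 - 4 * A' * C' = D → ∃ g : SL(2, ℤ), g • τ = τ'

theorem oneClass_of_mem {D : ℤ} (hD : D ∈ thirteen) : OneClass D :=
  fun _ _ _ _ _ _ _ _ h h' e e' => h.exists_smul_eq h' (e.trans e'.symm) (e ▸ allOne_of_mem hD)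

/-- A point of each discriminant. -/
theorem exists_root {D : ℤ} (hD : D < 0) (h4 : D % 4 = 0 ∨ D % 4 = 1) :
    ∃ (τ : ℍ) (A B C : ℤ), IsRootOf τ A B C ∧ B ^ 2 - 4 * A * C = D := by
  obtain ⟨B, C, hBC⟩ : ∃ B C : ℤ, B ^ 2 - 4 * C = D := by
    rcases h4 with h | h
    · exact ⟨0, -(D / 4), by omega⟩
    · exact ⟨1, -(D / 4), by omega⟩
  have hpos : (0 : ℝ) < -(D : ℝ) := by
    have : (D : ℝ) < 0 := Int.cast_lt_zero.mpr hD
    linarith
  refine ⟨UpperHalfPlane.mk ⟨-(B : ℝ) / 2, Real.sqrt (-(D : ℝ)) / 2⟩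
    (div_pos (Real.sqrt_pos.2 hpos) two_pos), 1, B, C, ⟨one_pos, by simp, ?_⟩,
    by rw [mul_one]; exact hBC⟩
  have h := Real.mul_self_sqrt hpos.le
  have hBC' : (B : ℝ) ^ 2 - 4 * C = D := by exact_mod_cast hBC
  apply Complex.ext
  · simp [pow_two]
    nlinarith
  · simp [pow_two]
    ring

theorem mem_thirteen_mod {D : ℤ} (hD : D ∈ thirteen) : D < 0 ∧ (D % 4 = 0 ∨ D % 4 = 1) := by
  simp only [thirteen, Finset.mem_insert, Finset.mem_singleton] at hD
  omega

end FA.ThirteenOrders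

namespace FA.Summary

open FA.ThirteenOrders
open FA.ModField (jfun)
open scoped MatrixGroups UpperHalfPlane

/-- **The rational singular moduli**: for a root `τ` of a primitive form `A x² + B x + C`,
`j(τ)` is rational iff the discriminant is one of thirteen. -/
theorem rational_singularModulus_iff (τ : ℍ) (A B C : ℤ) (hA : 0 < A)
    (hprim : Int.gcd (Int.gcd A B) C = 1) (hτ : (A : ℂ) * (τ : ℂ) ^ 2 + B * τ + C = 0) :
    (∃ r : ℚ, jfun τ = r) ↔ B ^ 2 - 4 * A * C ∈
      ({-3, -4, -7, -8, -11, -12, -16, -19, -27, -28, -43, -67, -163} : Finset ℤ) := by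
  have h : IsRootOf τ A B C := ⟨hA, hprim, hτ⟩
  exact ⟨fun ⟨r, hr⟩ => mem_thirteen_of_rat h hr, fun hD => exists_rat_of_equiv h
    fun τ' A' B' C' h' e => oneClass_of_mem hD τ τ' A B C A' B' C' h h' rfl e⟩

/-- **The thirteen orders of class number one**: all points of discriminant `D` are equivalent
under `SL₂(ℤ)` iff `D` is one of thirteen. -/
theorem oneClass_iff_thirteen (D : ℤ) (hD : D < 0) (h4 : D % 4 = 0 ∨ D % 4 = 1) :
    (∀ (τ τ' : ℍ) (A B C A' B' C' : ℤ), 0 < A → 0 < A' →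
      Int.gcd (Int.gcd A B) C = 1 → Int.gcd (Int.gcd A' B') C' = 1 →
      (A : ℂ) * (τ : ℂ) ^ 2 + B * τ + C = 0 → (A' : ℂ) * (τ' : ℂ) ^ 2 + B' * τ' + C' = 0 →
      B ^ 2 - 4 * A * C = D → B' ^ 2 - 4 * A' * C' = D → ∃ g : SL(2, ℤ), g • τ = τ') ↔
    D ∈ ({-3, -4, -7, -8, -11, -12, -16, -19, -27, -28, -43, -67, -163} : Finset ℤ) := by
  refine ⟨fun hall => ?_, fun hmem τ τ' A B C A' B' C' hA hA' hp hp' hτ hτ' e e' =>
    oneClass_of_mem hmem τ τ' A B C A' B' C' ⟨hA, hp, hτ⟩ ⟨hA', hp', hτ'⟩ e e'⟩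
  obtain ⟨τ, A, B, C, h, e⟩ := exists_root hD h4
  obtain ⟨r, hr⟩ := exists_rat_of_equiv h fun τ' A' B' C' h' e' =>
    hall τ τ' A B C A' B' C' h.pos h'.pos h.prim h'.prim h.eq h'.eq e (e'.trans e)
  exact e ▸ mem_thirteen_of_rat h hr

/-- **Class number one for every order, in forms**: each primitive positive form of discriminant
`D` represents `1` iff `D` is one of thirteen. -/
theorem forms_repOne_iff_thirteen (D : ℤ) (hD : D < 0) (h4 : D % 4 = 0 ∨ D % 4 = 1) :
    (∀ A B C : ℤ, 0 < A → B ^ 2 - 4 * A * C = D → Int.gcd (Int.gcd A B) C = 1 →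
      ∃ x y : ℤ, A * x ^ 2 + B * x * y + C * y ^ 2 = 1) ↔
    D ∈ ({-3, -4, -7, -8, -11, -12, -16, -19, -27, -28, -43, -67, -163} : Finset ℤ) := by
  refine ⟨fun hall => ?_, allOne_of_mem⟩
  obtain ⟨τ, A, B, C, h, e⟩ := exists_root hD h4
  obtain ⟨r, hr⟩ := exists_rat_of_equiv h fun τ' A' B' C' h' e' =>
    h.exists_smul_eq h' e'.symm (e ▸ hall)
  exact e ▸ mem_thirteen_of_rat h hr

/-- **There are exactly thirteen rational singular moduli.** -/
theorem ncard_rational_singularModuli :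
    {r : ℚ | ∃ (τ : ℍ) (A B C : ℤ), 0 < A ∧ Int.gcd (Int.gcd A B) C = 1 ∧
      (A : ℂ) * (τ : ℂ) ^ 2 + B * τ + C = 0 ∧ jfun τ = r}.ncard = 13 := by
  classical
  choose τ A B C h e using fun D : thirteen =>
    exists_root (mem_thirteen_mod D.2).1 (mem_thirteen_mod D.2).2
  have hrat : ∀ D : thirteen, ∃ r : ℚ, jfun (τ D) = r := fun D =>
    (rational_singularModulus_iff (τ D) (A D) (B D) (C D) (h D).pos (h D).prim (h D).eq).mpr
      (by rw [e D]; exact D.2)
  choose r hr using hrat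
  have hinj : Function.Injective r := fun D D' he => by
    obtain ⟨g, hg⟩ := (FA.JInj.jfun_eq_iff (τ D) (τ D')).mp (by rw [hr, hr, he])
    exact Subtype.ext ((e D).symm.trans (((h D).disc_eq_of_smul (h D') hg).trans (e D')))
  have hset : {r : ℚ | ∃ (τ : ℍ) (A B C : ℤ), 0 < A ∧ Int.gcd (Int.gcd A B) C = 1 ∧
      (A : ℂ) * (τ : ℂ) ^ 2 + B * τ + C = 0 ∧ jfun τ = r} = Set.range r := by
    refine Set.Subset.antisymm ?_ ?_
    · rintro q ⟨σ, a, b, c, ha, hp, hσ, hq⟩
      have h' : IsRootOf σ a b c := ⟨ha, hp, hσ⟩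
      let D : thirteen := ⟨_, mem_thirteen_of_rat h' hq⟩
      obtain ⟨g, hg⟩ := oneClass_of_mem D.2 (τ D) σ _ _ _ _ _ _ (h D) h' (e D) rfl
      refine ⟨D, Rat.cast_injective (α := ℂ) ?_⟩
      rw [← hr D, ← hq, ← hg, FA.ModField.jfun_smul]
    · rintro q ⟨D, rfl⟩
      exact ⟨τ D, A D, B D, C D, (h D).pos, (h D).prim, (h D).eq, hr D⟩
  rw [hset, ← Set.image_univ, Set.ncard_image_of_injective _ hinj, Set.ncard_univ,
    Nat.card_eq_fintype_card, Fintype.card_coe]
  rfl

end FA.Summary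

end
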