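import Fermat.Agent.Root.SummaryGaloisGL2Padic
import Mathlib.Topology.Algebra.OpenSubgroup

/-!
# A unipotent element and no stable line give an open image in `GL₂(ℤ_p)`

In the basis of the fixed vectors of a unipotent element and of a conjugate both are elementary,
so a closed image contains the elementary matrices with entries divisible by a fixed power of `p`,
hence the matrices of determinant one congruent to one modulo a power of `p`. The determinant of
the cyclotomic character does the rest.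
-/

set_option autoImplicit false
set_option linter.unusedSectionVars false
set_option linter.style.haveILetI false

noncomputable section

open Filter Matrix
open scoped Topology

namespace FA.PadicImage

variable {p : ℕ} [hp : Fact p.Prime]

local notation "Mp" => Matrix (Fin 2) (Fin 2) ℤ_[p]
local notation "π" => (p : ℤ_[p])

/-- Elementary matrices with entries divisible by `b` generate the matrices of determinant one
congruent to one modulo `p b²`. -/
theorem mem_of_elementary_congr (S : Submonoid Mp) (b : ℤ_[p])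
    (hU : ∀ z, (!![1, b * z; 0, 1] : Mp) ∈ S) (hL : ∀ z, (!![1, 0; b * z, 1] : Mp) ∈ S)
    {Y : Mp} (h : (1 + (π * (b * b)) • Y).det = 1) : 1 + (π * (b * b)) • Y ∈ S := by
  obtain ⟨X, hX⟩ : ∃ X, (1 : Mp) + (π * (b * b)) • Y = X := ⟨_, rfl⟩
  rw [hX] at h ⊢
  have e00 : X 0 0 = 1 + π * (b * b) * Y 0 0 := by rw [← hX]; simp
  have e01 : X 0 1 = π * (b * b) * Y 0 1 := by rw [← hX]; simp
  have e10 : X 1 0 = π * (b * b) * Y 1 0 := by rw [← hX]; simp
  obtain ⟨u, hu⟩ := (isUnit_iff_toZMod.mpr (show PadicInt.toZMod (X 0 0) ≠ 0 by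
    rw [e00, map_add, map_one, map_mul, map_mul, map_natCast, ZMod.natCast_self, zero_mul,
      zero_mul, add_zero]
    exact one_ne_zero)).exists_left_inv
  rw [det_fin_two] at h
  have hmid : ∀ t s a : ℤ_[p], a = 1 + t * s → u * a = 1 →
      (!![1, 0; -(s * u), 1] : Mp) * !![1, t; 0, 1] * !![1, 0; s, 1] * !![1, -(t * u); 0, 1] =
        !![a, 0; 0, u] := fun t s a ha hua => by
    subst ha
    ext i j
    fin_cases i <;> fin_cases j <;> simp [Matrix.mul_apply, Fin.sum_univ_two]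
    · linear_combination -t * hua
    · linear_combination -s * hua
    · linear_combination (-1 + s * t * u) * hua
  have e : X = !![1, 0; b * (π * b * Y 1 0 * u), 1] *
      (!![1, 0; b * (-(π * Y 0 0) * u), 1] * !![1, b * 1; 0, 1] *
        !![1, 0; b * (π * Y 0 0), 1] * !![1, b * -u; 0, 1]) *
      !![1, b * (π * b * Y 0 1 * u); 0, 1] := by
    have hm := hmid (b * 1) (b * (π * Y 0 0)) (X 0 0) (by rw [e00]; ring) hu
    rw [show b * (-(π * Y 0 0) * u) = -(b * (π * Y 0 0) * u) by ring,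
      show b * -u = -(b * 1 * u) by ring, hm,
      show b * (π * b * Y 1 0 * u) = X 1 0 * u by rw [e10]; ring,
      show b * (π * b * Y 0 1 * u) = X 0 1 * u by rw [e01]; ring]
    ext i j
    fin_cases i <;> fin_cases j <;> simp [Matrix.mul_apply, Fin.sum_univ_two]
    · linear_combination -(X 0 1) * hu
    · linear_combination -(X 1 0) * hu
    · linear_combination u * h - (X 1 1 + X 1 0 * X 0 1 * u) * hu
  rw [e]
  exact S.mul_mem (S.mul_mem (hL _) (S.mul_mem (S.mul_mem (S.mul_mem (hL _) (hU _)) (hL _))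
    (hU _))) (hU _)

/-- A nonzero `p`-adic integer divides a power of `p`. -/
theorem exists_dvd_prime_pow {x : ℤ_[p]} (hx : x ≠ 0) : ∃ k : ℕ, x ∣ π ^ k :=
  ⟨x.valuation, by
    conv_lhs => rw [PadicInt.unitCoeff_spec hx]
    exact (Units.mul_left_dvd).mpr dvd_rfl⟩

/-- With a closed image, the line `1 + t N` of a unipotent element `1 + N` lies in the image. -/
theorem exists_apply_eq_one_add {G : Type*} [Group G] (r : G →* Mp) (hcl : IsClosed (Set.range r))
    {σ : G} (hsq : (r σ - 1) * (r σ - 1) = 0) (t : ℤ_[p]) :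
    ∃ h, r h = 1 + t • (r σ - 1) := by
  have hc : Continuous fun t : ℤ_[p] => (1 : Mp) + t • (r σ - 1) :=
    continuous_const.add (continuous_id.smul continuous_const)
  refine PadicInt.denseRange_natCast.induction_on (p := fun t => ∃ h, r h = 1 + t • (r σ - 1)) t
    (hcl.preimage hc) fun n => ⟨σ ^ n, ?_⟩
  obtain ⟨V, hV⟩ := exists_one_add_pow_two (r σ - 1) n
  rwa [hsq, zero_mul, add_zero, add_sub_cancel, ← map_pow] at hV

/-- **A unipotent element and no stable line give an open part of `SL₂(ℤ_p)`.** -/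
theorem exists_level_det_one {G : Type*} [Group G] (r : G →* Mp) (hcl : IsClosed (Set.range r))
    (hline : ∀ e : Fin 2 → ℤ_[p], e ≠ 0 → ∃ g, e 0 * (r g *ᵥ e) 1 - e 1 * (r g *ᵥ e) 0 ≠ 0)
    {σ : G} (hsq : (r σ - 1) * (r σ - 1) = 0) (hne : r σ ≠ 1) :
    ∃ k : ℕ, ∀ Y : Mp, (1 + π ^ k • Y).det = 1 → ∃ h, r h = 1 + π ^ k • Y := by
  obtain ⟨v, hv⟩ : ∃ v, (r σ - 1) *ᵥ v ≠ 0 := by
    by_contra hall
    push Not at hall
    exact hne (sub_eq_zero.mp (Matrix.ext_of_mulVec_single fun i => by rw [hall, zero_mulVec]))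
  obtain ⟨e, he⟩ : ∃ e, (r σ - 1) *ᵥ v = e := ⟨_, rfl⟩
  rw [he] at hv
  have hNe : (r σ - 1) *ᵥ e = 0 := by rw [← he, mulVec_mulVec, hsq, zero_mulVec]
  obtain ⟨g, hg⟩ := hline e hv
  obtain ⟨f, hf⟩ : ∃ f, r g *ᵥ e = f := ⟨_, rfl⟩
  rw [hf] at hg
  obtain ⟨τ, hτ⟩ : ∃ τ, g * σ * g⁻¹ = τ := ⟨_, rfl⟩
  have h1 : r g⁻¹ * r g = 1 := by rw [← map_mul, inv_mul_cancel, map_one]
  have h1' : r g * r g⁻¹ = 1 := by rw [← map_mul, mul_inv_cancel, map_one]
  have eτ : r τ - 1 = r g * (r σ - 1) * r g⁻¹ := by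
    rw [← hτ, map_mul, map_mul, mul_sub, sub_mul, mul_one, h1']
  have hτsq : (r τ - 1) * (r τ - 1) = 0 := by
    rw [eτ, show r g * (r σ - 1) * r g⁻¹ * (r g * (r σ - 1) * r g⁻¹) =
      r g * ((r σ - 1) * (r g⁻¹ * r g) * (r σ - 1)) * r g⁻¹ by simp only [mul_assoc], h1, mul_one,
      hsq, mul_zero, zero_mul]
  have hNf : (r τ - 1) *ᵥ f = 0 := by
    rw [← hf, mulVec_mulVec, eτ, mul_assoc, h1, mul_one, ← mulVec_mulVec, hNe, mulVec_zero]
  have hτne : r τ - 1 ≠ 0 := fun h0 => hne <| sub_eq_zero.mp <| by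
    rw [show r σ - 1 = r g⁻¹ * (r τ - 1) * r g by
      rw [eτ, show r g⁻¹ * (r g * (r σ - 1) * r g⁻¹) * r g =
        r g⁻¹ * r g * (r σ - 1) * (r g⁻¹ * r g) by simp only [mul_assoc], h1, one_mul, mul_one],
      h0, mul_zero, zero_mul]
  let P : Mp := !![e 0, f 0; e 1, f 1]
  obtain ⟨d, hd⟩ : ∃ d, P.det = d := ⟨_, rfl⟩
  have hd0 : d ≠ 0 := by
    rw [← hd]
    simp only [P, det_fin_two_of]
    intro h0
    exact hg (by linear_combination h0)
  have hPQ : P * P.adjugate = d • 1 := by rw [mul_adjugate, hd]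
  have hQP : P.adjugate * P = d • 1 := by rw [adjugate_mul, hd]
  have hPe : P *ᵥ ![1, 0] = e := funext fun i => by
    fin_cases i <;> simp [P, Matrix.mulVec, dotProduct]
  have hPf : P *ᵥ ![0, 1] = f := funext fun i => by
    fin_cases i <;> simp [P, Matrix.mulVec, dotProduct]
  generalize P.adjugate = Q at hPQ hQP
  clear_value P
  -- a unipotent element in the new coordinates
  have hcoord : ∀ (N : Mp) (w : Fin 2 → ℤ_[p]), N * N = 0 → N ≠ 0 → N *ᵥ (P *ᵥ w) = 0 →
      (Q * N * P) * (Q * N * P) = 0 ∧ Q * N * P ≠ 0 ∧ (Q * N * P) *ᵥ w = 0 := by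
    intro N w hN hN0 hw
    refine ⟨?_, fun h0 => hN0 ?_, ?_⟩
    · rw [show Q * N * P * (Q * N * P) = Q * (N * (P * Q) * N) * P by simp only [mul_assoc], hPQ,
        Algebra.mul_smul_comm, mul_one, smul_mul_assoc, hN, smul_zero, mul_zero, zero_mul]
    · have h2 : P * (Q * N * P) * Q = (d * d) • N := by
        rw [show P * (Q * N * P) * Q = P * Q * N * (P * Q) by simp only [mul_assoc], hPQ,
          Algebra.mul_smul_comm, mul_one, smul_mul_assoc, one_mul, smul_smul]
      rw [h0, mul_zero, zero_mul, eq_comm, smul_eq_zero] at h2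
      exact h2.resolve_left (mul_ne_zero hd0 hd0)
    · rw [← mulVec_mulVec, ← mulVec_mulVec, hw, mulVec_zero]
  obtain ⟨b, hb, hZσ⟩ : ∃ b, b ≠ 0 ∧ Q * (r σ - 1) * P = !![0, b; 0, 0] := by
    obtain ⟨hZ2, hZ0, hZe⟩ := hcoord (r σ - 1) ![1, 0] hsq (sub_ne_zero.mpr hne)
      (by rw [hPe, hNe])
    generalize Q * (r σ - 1) * P = Z at hZ2 hZ0 hZe
    have h00 : Z 0 0 = 0 := by simpa [Matrix.mulVec, dotProduct] using congrFun hZe 0
    have h10 : Z 1 0 = 0 := by simpa [Matrix.mulVec, dotProduct] using congrFun hZe 1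
    have h11 : Z 1 1 = 0 := by
      have h := congrFun (congrFun hZ2 1) 1
      simpa [Matrix.mul_apply, Fin.sum_univ_two, h10] using h
    refine ⟨Z 0 1, fun h01 => hZ0 ?_, ?_⟩ <;> ext i j <;> fin_cases i <;> fin_cases j <;>
      simp [*]
  obtain ⟨c, hc, hZτ⟩ : ∃ c, c ≠ 0 ∧ Q * (r τ - 1) * P = !![0, 0; c, 0] := by
    obtain ⟨hZ2, hZ0, hZf⟩ := hcoord (r τ - 1) ![0, 1] hτsq hτne (by rw [hPf, hNf])
    generalize Q * (r τ - 1) * P = Z at hZ2 hZ0 hZf
    have h01 : Z 0 1 = 0 := by simpa [Matrix.mulVec, dotProduct] using congrFun hZf 0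
    have h11 : Z 1 1 = 0 := by simpa [Matrix.mulVec, dotProduct] using congrFun hZf 1
    have h00 : Z 0 0 = 0 := by
      have h := congrFun (congrFun hZ2 0) 0
      simpa [Matrix.mul_apply, Fin.sum_univ_two, h01] using h
    refine ⟨Z 1 0, fun h10 => hZ0 ?_, ?_⟩ <;> ext i j <;> fin_cases i <;> fin_cases j <;>
      simp [*]
  let S : Submonoid Mp :=
    { carrier := {X | ∃ h, r h * P = P * X}
      one_mem' := ⟨1, by rw [map_one, one_mul, mul_one]⟩
      mul_mem' := fun {X X'} ⟨h, hX⟩ ⟨h', hX'⟩ =>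
        ⟨h * h', by rw [map_mul, mul_assoc, hX', ← mul_assoc, hX, mul_assoc]⟩ }
  -- in the new coordinates the line of each element lies in the image
  have hmem : ∀ (ρ : G) (Z : Mp) (s : ℤ_[p]), (r ρ - 1) * (r ρ - 1) = 0 →
      Q * (r ρ - 1) * P = Z → 1 + s • Z ∈ S := by
    intro ρ Z s h2 hZ
    obtain ⟨h, hh⟩ := exists_apply_eq_one_add r hcl h2 (d * s)
    refine ⟨h, ?_⟩
    rw [hh, add_mul, one_mul, mul_add, mul_one, ← hZ, Algebra.mul_smul_comm, smul_mul_assoc,
      show P * (Q * (r ρ - 1) * P) = P * Q * ((r ρ - 1) * P) by simp only [mul_assoc], hPQ,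
      smul_mul_assoc, one_mul, smul_smul, mul_comm s d]
  have hU : ∀ z, (!![1, b * c * z; 0, 1] : Mp) ∈ S := fun z => by
    convert hmem σ _ (c * z) hsq hZσ using 1
    ext i j; fin_cases i <;> fin_cases j <;> simp
    ring
  have hL : ∀ z, (!![1, 0; b * c * z, 1] : Mp) ∈ S := fun z => by
    convert hmem τ _ (b * z) hτsq hZτ using 1
    ext i j; fin_cases i <;> fin_cases j <;> simp
    ring
  obtain ⟨k, w, hw⟩ := exists_dvd_prime_pow
    (mul_ne_zero (mul_ne_zero (NeZero.ne π) (mul_ne_zero (mul_ne_zero hb hc) (mul_ne_zero hb hc)))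
      hd0)
  refine ⟨k, fun Y hY => ?_⟩
  obtain ⟨X, hX⟩ : ∃ X, (1 : Mp) + (π * (b * c * (b * c))) • (w • (Q * Y * P)) = X := ⟨_, rfl⟩
  have hXP : P * X = (1 + π ^ k • Y) * P := by
    rw [← hX, mul_add, mul_one, Algebra.mul_smul_comm, Algebra.mul_smul_comm,
      show P * (Q * Y * P) = P * Q * (Y * P) by simp only [mul_assoc], hPQ, smul_mul_assoc, one_mul,
      smul_smul, smul_smul, add_mul, one_mul, smul_mul_assoc, hw]
    congr 2
    ring
  have hdetX : X.det = 1 := by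
    have h := congrArg Matrix.det hXP
    rw [det_mul, det_mul, hY, one_mul, hd] at h
    exact mul_left_cancel₀ hd0 (h.trans (mul_one d).symm)
  obtain ⟨h, hh⟩ : X ∈ S := hX ▸ mem_of_elementary_congr S (b * c) hU hL (hX.symm ▸ hdetX)
  refine ⟨h, ?_⟩
  rw [hXP] at hh
  have h3 := congrArg (· * Q) hh
  simp only [mul_assoc, hPQ, Algebra.mul_smul_comm, mul_one] at h3
  exact smul_right_injective Mp hd0 h3

section Curve

open WeierstrassCurve FA.EC FA.Frob FA.RT
open scoped WeierstrassCurve.Affine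

local notation "Qb" => AlgebraicClosure ℚ
local notation "GQ" => AlgebraicClosure ℚ ≃ₐ[ℚ] AlgebraicClosure ℚ

variable {W : WeierstrassCurve ℤ} [(ratCurve W).IsElliptic] (B : FA.RT.Tate.TateBasis p W)

/-- The image of the Tate module is closed. -/
theorem isClosed_range_rep : IsClosed (Set.range B.rep) := by
  haveI : IsGalois ℚ Qb := FA.EC.isGalois_algebraicClosure
  exact (isCompact_range (continuous_rep B)).isClosed

/-- The determinants of the elements congruent to one modulo `p ^ j` fill a neighbourhood of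
one. -/
theorem exists_level_det (j : ℕ) : ∃ k : ℕ, ∀ y : ℤ_[p], IsUnit (1 + π ^ k * y) →
    ∃ (g : GQ) (Z : Mp), B.rep g = 1 + π ^ j • Z ∧ (B.rep g).det = 1 + π ^ k * y := by
  haveI : IsGalois ℚ Qb := FA.EC.isGalois_algebraicClosure
  let d : GQ →* ℤ_[p] := Matrix.detMonoidHom.comp B.rep
  have hd : Continuous d := (continuous_rep B).matrix_det
  let χ : GQ →* ℤ_[p]ˣ := d.toHomUnits
  have hχ : Continuous χ := continuous_toHomUnits hd
  have hsurj : Function.Surjective χ := fun u => by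
    suffices h : (u : ℤ_[p]) ∈ Set.range d by
      obtain ⟨σ, hσ⟩ := h
      exact ⟨σ, Units.ext hσ⟩
    choose σ y hy using fun n => exists_det_rep_eq B n (u : ℤ_[p]) u.isUnit
    suffices ht : Tendsto (fun n => d (σ n)) atTop (𝓝 (u : ℤ_[p])) from
      (isCompact_range hd).isClosed.mem_of_tendsto ht
        (Eventually.of_forall fun n => Set.mem_range_self _)
    refine Metric.tendsto_atTop.mpr fun ε hε => ?_
    obtain ⟨k, hk⟩ := PadicInt.exists_pow_neg_lt p hε
    refine ⟨k, fun n hn => lt_of_le_of_lt ?_ hk⟩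
    rw [dist_eq_norm, show d (σ n) = _ from hy n, add_sub_cancel_left,
      PadicInt.norm_le_pow_iff_mem_span_pow, Ideal.mem_span_singleton]
    exact (pow_dvd_pow _ hn).mul_right _
  obtain ⟨L, hL, hfix⟩ := B.exists_field j
  have hfin : L.fixingSubgroup.FiniteIndex :=
    @Subgroup.finiteIndex_of_finite_quotient _ _ _ (Subgroup.quotient_finite_of_isOpen _
      (IntermediateField.fixingSubgroup_isOpen L))
  have hclosed : IsClosed (L.fixingSubgroup.map χ : Set ℤ_[p]ˣ) := by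
    rw [Subgroup.coe_map]
    exact ((IntermediateField.fixingSubgroup_isClosed L).isCompact.image hχ).isClosed
  haveI : (L.fixingSubgroup.map χ).FiniteIndex :=
    ⟨ne_zero_of_dvd_ne_zero hfin.index_ne_zero (Subgroup.index_map_dvd _ hsurj)⟩
  have hopen := Units.isOpenEmbedding_val.isOpenMap _
    (Subgroup.isOpen_of_isClosed_of_finiteIndex _ hclosed)
  obtain ⟨ε, hε, hball⟩ := Metric.isOpen_iff.mp hopen 1 ⟨1, one_mem _, rfl⟩
  obtain ⟨k, hk⟩ := PadicInt.exists_pow_neg_lt p hε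
  refine ⟨k, fun y _ => ?_⟩
  obtain ⟨u, ⟨g, hg, rfl⟩, hu⟩ := hball (show 1 + π ^ k * y ∈ Metric.ball (1 : ℤ_[p]) ε by
    rw [Metric.mem_ball]
    refine lt_of_le_of_lt ?_ hk
    rw [dist_eq_norm, add_sub_cancel_left, PadicInt.norm_le_pow_iff_mem_span_pow,
      Ideal.mem_span_singleton]
    exact dvd_mul_right _ _)
  obtain ⟨Z, hZ⟩ :=
    exists_eq_one_add_of_map (hfix g ((IntermediateField.mem_fixingSubgroup_iff L g).mp hg))
  exact ⟨g, Z, hZ, hu⟩

/-- A level for the determinant one gives a level for everything. -/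
theorem exists_level_of_det_one {j : ℕ}
    (hj : ∀ Y : Mp, (1 + π ^ j • Y).det = 1 → ∃ h, B.rep h = 1 + π ^ j • Y) :
    ∃ k : ℕ, ∀ Y : Mp, IsUnit (1 + π ^ k • Y).det → ∃ h, B.rep h = 1 + π ^ k • Y := by
  obtain ⟨k, hk⟩ := exists_level_det B j
  refine ⟨j + k, fun Y hY => ?_⟩
  obtain ⟨y, hy⟩ : ∃ y, (1 + π ^ (j + k) • Y).det = 1 + π ^ k * y :=
    ⟨π ^ j * (Y 0 0 + Y 1 1) + π ^ (2 * j + k) * (Y 0 0 * Y 1 1 - Y 0 1 * Y 1 0), by
      simp [det_fin_two]; ring⟩
  obtain ⟨g, Z, hgZ, hdet⟩ := hk y (hy ▸ hY)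
  have hgi : B.rep g⁻¹ * B.rep g = 1 := by rw [← map_mul, inv_mul_cancel, map_one]
  have hrew : B.rep g⁻¹ * (1 + π ^ (j + k) • Y) =
      1 + π ^ j • (B.rep g⁻¹ * (π ^ k • Y - Z)) := by
    have e : B.rep g⁻¹ = 1 - π ^ j • (B.rep g⁻¹ * Z) := by
      rw [eq_sub_iff_add_eq, ← Algebra.mul_smul_comm]
      conv_lhs => arg 1; rw [← mul_one (B.rep g⁻¹)]
      rw [← mul_add, ← hgZ, hgi]
    rw [mul_add, mul_one, Algebra.mul_smul_comm, mul_sub, Algebra.mul_smul_comm, smul_sub,
      smul_smul, ← pow_add]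
    conv_lhs => arg 1; rw [e]
    abel
  obtain ⟨h, hh⟩ := hj (B.rep g⁻¹ * (π ^ k • Y - Z)) (by
    have hdd : (B.rep g⁻¹).det * (B.rep g).det = 1 := by rw [← det_mul, hgi, det_one]
    rw [← hrew, det_mul, hy, ← hdet]
    exact hdd)
  refine ⟨g * h, ?_⟩
  rw [map_mul, hh, ← hrew, ← mul_assoc, ← map_mul, mul_inv_cancel, map_one, one_mul]

/-- **An open image**: without a stable line and with a unipotent element the image of the Tate
module contains every matrix congruent to one modulo a power of `p`. -/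
theorem exists_level_of_unipotent
    (hline : ∀ e : Fin 2 → ℤ_[p], e ≠ 0 →
      ∃ g, e 0 * (B.rep g *ᵥ e) 1 - e 1 * (B.rep g *ᵥ e) 0 ≠ 0)
    {σ : GQ} (hsq : (B.rep σ - 1) * (B.rep σ - 1) = 0) (hne : B.rep σ ≠ 1) :
    ∃ k : ℕ, ∀ Y : Mp, IsUnit (1 + π ^ k • Y).det → ∃ h, B.rep h = 1 + π ^ k • Y :=
  exists_level_of_det_one B
    (exists_level_det_one B.rep (isClosed_range_rep B) hline hsq hne).choose_spec

end Curve

end FA.PadicImage

end
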