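import Fermat.Agent.Root.SummaryKroneckerWeber
import Fermat.Agent.Root.SummaryWeilPairing
import Fermat.Agent.Root.SummaryTraces

/-!
# Torsion fields contain the abelian extensions, and complex conjugation as a Frobenius

For every elliptic curve over `ℚ` the fields generated by the torsion points contain every finite
abelian extension of `ℚ` (Kronecker–Weber and the Weil pairing), in particular every square root
of an integer; and complex conjugation is a Frobenius on every `E[N]`, so infinitely many primes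
`q ≡ -1 (mod N)` have `a_q ≡ 0 (mod N)`.
-/

set_option autoImplicit false
set_option linter.unusedSectionVars false
set_option linter.style.haveILetI false

noncomputable section

open WeierstrassCurve Matrix FA.Frob FA.RT.Tate
open FA.JTorsion (cycP)
open scoped WeierstrassCurve.Affine IntermediateField

local notation "Qb" => AlgebraicClosure ℚ
local notation "GQ" => AlgebraicClosure ℚ ≃ₐ[ℚ] AlgebraicClosure ℚ

namespace FA.TorsionField

/-- Complex conjugation is `-1` on all cyclotomic units. -/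
theorem cycP_complexConjugation (p : ℕ) [hp : Fact p.Prime] :
    ((cycP p complexConjugation : ℤ_[p]ˣ) : ℤ_[p]) = -1 :=
  PadicInt.ext_of_toZModPow.mp fun n => by
    rw [FA.RT.Tate.cycP_eq_natCast (a := p ^ n - 1) fun μ hμ =>
      FA.TW.complexConjugation_apply_of_pow (pow_ne_zero n hp.out.ne_zero) hμ,
      Nat.cast_sub (Nat.one_le_pow _ _ hp.out.pos), ZMod.natCast_self, Nat.cast_one, zero_sub,
      map_neg, map_one]

/-- An involution of determinant `-1` has trace zero. -/
theorem trace_eq_zero_of_involution {R : Type*} [CommRing R] [IsDomain R]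
    {M : Matrix (Fin 2) (Fin 2) R} (h : M * M = 1) (hd : M.det = -1) : M.trace = 0 := by
  have h0 := congrFun (congrFun h 0) 0
  have h1 := congrFun (congrFun h 1) 1
  simp only [Matrix.mul_apply, Fin.sum_univ_two, one_apply_eq] at h0 h1
  rw [det_fin_two] at hd
  exact sq_eq_zero_iff.mp (by rw [trace_fin_two]; linear_combination h0 + h1 + 2 * hd)

/-- A field generated by a square root of an integer is abelian over `ℚ`. -/
theorem isAbelianGalois_adjoin_sqrt {x : Qb} {d : ℤ} (hx : x ^ 2 = (d : Qb)) :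
    IsAbelianGalois ℚ ℚ⟮x⟯ := by
  have hpm : ∀ σ : GQ, σ x = x ∨ σ x = -x := fun σ =>
    sq_eq_sq_iff_eq_or_eq_neg.mp (by rw [← map_pow, hx, map_intCast])
  haveI : IsGalois ℚ Qb := FA.EC.isGalois_algebraicClosure
  haveI : IsGalois ℚ ℚ⟮x⟯ := by
    refine (InfiniteGalois.normal_iff_isGalois _).mp ⟨fun τ hτ σ => ?_⟩
    have hτx : τ x = x := (IntermediateField.mem_fixingSubgroup_iff _ _).mp hτ x
      (IntermediateField.mem_adjoin_simple_self ℚ x)
    rw [IntermediateField.mem_fixingSubgroup_iff]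
    intro y hy
    induction hy using IntermediateField.adjoin_induction with
    | mem z hz =>
      rw [Set.mem_singleton_iff.mp hz, AlgEquiv.mul_apply, AlgEquiv.mul_apply]
      rcases hpm σ⁻¹ with e | e
      · have e' := congrArg σ e
        rw [← AlgEquiv.mul_apply, mul_inv_cancel, AlgEquiv.one_apply] at e'
        rw [e, hτx, ← e']
      · have e' := congrArg σ e
        rw [← AlgEquiv.mul_apply, mul_inv_cancel, AlgEquiv.one_apply, map_neg] at e'
        rw [e, map_neg, hτx, map_neg, ← e']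
    | algebraMap r => exact AlgEquiv.commutes _ r
    | add a b _ _ ha hb => rw [map_add, ha, hb]
    | inv a _ ha => rw [map_inv₀, ha]
    | mul a b _ _ ha hb => rw [map_mul, ha, hb]
  have hmem := IntermediateField.mem_adjoin_simple_self ℚ x
  refine { is_comm := ⟨fun a b => ?_⟩ }
  set g : ℚ⟮x⟯ := ⟨x, hmem⟩ with hg
  have hpm' : ∀ c : ℚ⟮x⟯ ≃ₐ[ℚ] ℚ⟮x⟯, c g = g ∨ c g = -g := fun c => by
    refine sq_eq_sq_iff_eq_or_eq_neg.mp ?_
    have hgd : g ^ 2 = (d : ℚ⟮x⟯) := Subtype.ext (by simp [hg, hx])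
    rw [← map_pow, hgd, map_intCast]
  have key : (a * b) g = (b * a) g := by
    rw [AlgEquiv.mul_apply, AlgEquiv.mul_apply]
    rcases hpm' a with ea | ea <;> rcases hpm' b with eb | eb <;> simp [ea, eb]
  refine AlgEquiv.ext fun y => Subtype.ext ?_
  obtain ⟨y, hy⟩ := y
  induction hy using IntermediateField.adjoin_induction with
  | mem z hz =>
    obtain rfl := Set.mem_singleton_iff.mp hz
    exact congrArg Subtype.val key
  | algebraMap r =>
    exact congrArg Subtype.val
      ((AlgEquiv.commutes (a * b) r).trans (AlgEquiv.commutes (b * a) r).symm)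
  | add u v hu hv ihu ihv =>
    have e : (⟨u + v, add_mem hu hv⟩ : ℚ⟮x⟯) = ⟨u, hu⟩ + ⟨v, hv⟩ := rfl
    rw [e, map_add, map_add, IntermediateField.coe_add, IntermediateField.coe_add, ihu, ihv]
  | inv u hu ihu =>
    have e : (⟨u⁻¹, inv_mem hu⟩ : ℚ⟮x⟯) = (⟨u, hu⟩ : ℚ⟮x⟯)⁻¹ := rfl
    rw [e, map_inv₀, map_inv₀, IntermediateField.coe_inv, IntermediateField.coe_inv, ihu]
  | mul u v hu hv ihu ihv =>
    have e : (⟨u * v, mul_mem hu hv⟩ : ℚ⟮x⟯) = ⟨u, hu⟩ * ⟨v, hv⟩ := rfl
    rw [e, map_mul, map_mul, IntermediateField.coe_mul, IntermediateField.coe_mul, ihu, ihv]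

/-- A Frobenius outside a finite set acting as complex conjugation on the `N`-torsion, `4 ∣ N`. -/
theorem exists_conj_frobenius {W : WeierstrassCurve ℤ} [(ratCurve W).IsElliptic] (hΔ : W.Δ ≠ 0)
    {N : ℕ} (hN : N ≠ 0) (h4 : 4 ∣ N) (S : Finset ℕ) :
    ∃ q : ℕ, q.Prime ∧ q ∉ S ∧ W.IsGoodPrimeFor q ∧
      (N : ℤ) ∣ W.apOfModel q ∧ (N : ℤ) ∣ (q : ℤ) + 1 := by
  haveI : NeZero N := ⟨hN⟩
  let T := Submodule.torsionBy ℤ ((ratCurve W)⁄Qb).Point (N : ℤ)
  let r := (Affine.Point.galoisRepModuleEnd (K := Qb) ℚ (ratCurve W).toAffine N).toHomUnits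
  have hfix : ∀ η ∈ r.ker, ∀ y : Pts W, N • y = 0 → η • y = y := fun η hη y hy =>
    congrArg Subtype.val (LinearMap.congr_fun (congrArg Units.val (MonoidHom.mem_ker.mp hη))
      (⟨y, (Submodule.mem_torsionBy_iff _ _).mpr (by rw [natCast_zsmul]; exact hy)⟩ : T))
  have hopen : IsOpen (r.ker : Set GQ) := by
    obtain ⟨L, hL, h⟩ := FA.EC.galoisFactorsThroughFiniteLevel (ratCurve W) hN
    refine Subgroup.isOpen_mono (H₁ := L.fixingSubgroup) (fun σ hσ => ?_)
      (IntermediateField.fixingSubgroup_isOpen L)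
    exact Units.ext (LinearMap.ext fun x => LinearMap.congr_fun
      (h σ ((IntermediateField.mem_fixingSubgroup_iff _ _).mp hσ)) x)
  obtain ⟨q, A, σ, m, hq, hqS, hA, hσ, hm, j, hj⟩ := FA.Density.exists_frobenius_generating
    r.ker hopen complexConjugation (S ∪ (N.divisors ∪ W.Δ.natAbs.divisors))
  simp only [Finset.mem_union, not_or] at hqS
  have hgood : W.IsGoodPrimeFor q := fun hd => hqS.2.2
    (Nat.mem_divisors.mpr ⟨Int.natCast_dvd.mp hd, Int.natAbs_ne_zero.mpr hΔ⟩)
  have hqN : ¬ q ∣ N := fun h => hqS.2.1 (Nat.mem_divisors.mpr ⟨h, hN⟩)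
  -- `σ` is complex conjugation times an element fixing the torsion
  have hσc : complexConjugation⁻¹ * σ ∈ r.ker := by
    rcases Nat.even_or_odd j with ⟨i, rfl⟩ | ⟨i, rfl⟩
    · exfalso
      rw [← two_mul, pow_mul, pow_two, complexConjugation_mul_self, one_pow, inv_one, one_mul] at hj
      have hc : complexConjugation ∈ r.ker :=
        (Subgroup.mul_mem_cancel_left _ (inv_mem (pow_mem hj m))).mp hm
      haveI := Fact.mk Nat.prime_two
      obtain ⟨B⟩ := exists_tateBasis (p := 2) (W := W)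
      have h1 : (B.rep complexConjugation).map (PadicInt.toZModPow 2) = 1 :=
        B.rep_congr_one fun y hy => hfix _ hc y (by
          obtain ⟨k, rfl⟩ := h4
          rw [mul_comm, mul_nsmul', show 4 • y = 0 by simpa using hy, nsmul_zero])
      have h2 := congrArg Matrix.det h1
      rw [det_one, ← RingHom.mapMatrix_apply, ← RingHom.map_det, B.det_rep,
        cycP_complexConjugation, map_neg, map_one] at h2
      revert h2; decide
    · rwa [pow_succ, pow_mul, pow_two, complexConjugation_mul_self, one_pow, one_mul] at hj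
  have key : ∀ p v : ℕ, p.Prime → p ^ v ∣ N →
      ((p ^ v : ℕ) : ℤ) ∣ W.apOfModel q ∧ ((p ^ v : ℕ) : ℤ) ∣ (q : ℤ) + 1 := fun p v hp hv => by
    rcases Nat.eq_zero_or_pos v with rfl | hv0
    · simp
    haveI := Fact.mk hp
    obtain ⟨B⟩ := exists_tateBasis (p := p) (W := W)
    have hη : (B.rep (complexConjugation⁻¹ * σ)).map (PadicInt.toZModPow v) = 1 :=
      B.rep_congr_one fun y hy => hfix _ hσc y (by
        obtain ⟨k, rfl⟩ := hv
        rw [mul_comm, mul_nsmul', hy, nsmul_zero])
    have hqp : q ≠ p := fun e => hqN (e ▸ (dvd_pow_self p hv0.ne').trans hv)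
    have hM : (B.rep σ).map (PadicInt.toZModPow v) =
        (B.rep complexConjugation).map (PadicInt.toZModPow v) := by
      conv_lhs => rw [show σ = complexConjugation * (complexConjugation⁻¹ * σ) by group]
      rw [map_mul, Matrix.map_mul, hη, mul_one]
    obtain ⟨htr, hdet⟩ := B.rep_frobenius hq hA hqp hgood hσ
    have hcd : (B.rep complexConjugation).det = -1 := by
      rw [B.det_rep, cycP_complexConjugation]
    have hct : (B.rep complexConjugation).trace = 0 := trace_eq_zero_of_involution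
      (by rw [← map_mul, complexConjugation_mul_self, map_one]) hcd
    constructor
    · have e := congrArg Matrix.trace hM
      simp only [trace_fin_two, Matrix.map_apply] at e
      rw [← map_add, ← map_add, ← trace_fin_two, ← trace_fin_two, htr, hct, map_intCast,
        map_zero] at e
      exact (ZMod.intCast_zmod_eq_zero_iff_dvd _ _).mp e
    · have e := congrArg Matrix.det hM
      rw [← RingHom.mapMatrix_apply, ← RingHom.mapMatrix_apply, ← RingHom.map_det,
        ← RingHom.map_det, hdet, hcd, map_natCast, map_neg, map_one] at e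
      refine (ZMod.intCast_zmod_eq_zero_iff_dvd _ _).mp ?_
      push_cast
      rw [e, neg_add_cancel]
  refine ⟨q, hq, hqS.1, hgood, ?_, ?_⟩ <;>
    refine Int.natCast_dvd.mpr ((Nat.dvd_iff_prime_pow_dvd_dvd _ _).mpr fun p v hp hv => ?_)
  · exact Int.natCast_dvd.mp (key p v hp hv).1
  · exact Int.natCast_dvd.mp (key p v hp hv).2

end FA.TorsionField

namespace FA.Summary

/-- **Torsion fields contain every abelian extension**: for a finite abelian extension `K` of `ℚ`
some `N` is such that what fixes the `N`-torsion fixes `K`. -/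
theorem abelian_le_torsionField (E : WeierstrassCurve ℚ) [E.IsElliptic]
    [inst : DecidableEq (AlgebraicClosure ℚ)] (K : IntermediateField ℚ (AlgebraicClosure ℚ))
    [FiniteDimensional ℚ K] [IsAbelianGalois ℚ K] :
    ∃ N : ℕ, 0 < N ∧ ∀ σ : AlgebraicClosure ℚ ≃ₐ[ℚ] AlgebraicClosure ℚ,
      (∀ P : (E.toAffine⁄(AlgebraicClosure ℚ)).Point, N • P = 0 →
        Affine.Point.map σ.toAlgHom P = P) → ∀ x ∈ K, σ x = x := by
  obtain rfl : inst = instDecEqAlgebraicClosureRat := Subsingleton.elim _ _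
  obtain ⟨W, hW⟩ := FA.Frob.exists_integralModel E
  haveI := FA.Frob.ratCurve_isElliptic_of_Δ (FA.Frob.Δ_ne_zero_of_model hW)
  obtain ⟨ε, hε⟩ := FA.Root.exists_equiv_of_model hW
  obtain ⟨N, hN, hK⟩ := kroneckerWeber K
  refine ⟨N, hN, fun σ hσ x hx => ?_⟩
  have hx' := hK hx
  clear hx
  induction hx' using IntermediateField.adjoin_induction with
  | mem μ hμ =>
    exact FA.OpenImage.smul_root_of_fix_torsion (W := W) hN.ne' (fun y hy => ε.injective (by
      rw [hε]; exact hσ _ (by rw [← map_nsmul, hy, map_zero]))) hμ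
  | algebraMap r => exact σ.commutes r
  | add a b _ _ ha hb => rw [map_add, ha, hb]
  | inv a _ ha => rw [map_inv₀, ha]
  | mul a b _ _ ha hb => rw [map_mul, ha, hb]

/-- **Every square root of an integer lies in a torsion field.** -/
theorem sqrt_mem_torsionField (E : WeierstrassCurve ℚ) [E.IsElliptic]
    [inst : DecidableEq (AlgebraicClosure ℚ)] (d : ℤ) {x : AlgebraicClosure ℚ}
    (hx : x ^ 2 = (d : AlgebraicClosure ℚ)) :
    ∃ N : ℕ, 0 < N ∧ ∀ σ : AlgebraicClosure ℚ ≃ₐ[ℚ] AlgebraicClosure ℚ,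
      (∀ P : (E.toAffine⁄(AlgebraicClosure ℚ)).Point, N • P = 0 →
        Affine.Point.map σ.toAlgHom P = P) → σ x = x := by
  haveI := FA.TorsionField.isAbelianGalois_adjoin_sqrt hx
  haveI : FiniteDimensional ℚ ℚ⟮x⟯ :=
    IntermediateField.adjoin.finiteDimensional (Algebra.IsIntegral.isIntegral x)
  obtain ⟨N, hN, h⟩ := abelian_le_torsionField E ℚ⟮x⟯
  exact ⟨N, hN, fun σ hσ => h σ hσ x (IntermediateField.mem_adjoin_simple_self ℚ x)⟩

/-- **Infinitely many primes `q ≡ -1 (mod N)` with `a_q ≡ 0 (mod N)`**, for every elliptic curve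
over `ℚ` and every `N`. -/
theorem infinitely_many_conj_traces (E : WeierstrassCurve ℚ) [E.IsElliptic] {N : ℕ} (hN : N ≠ 0) :
    {q : ℕ | q.Prime ∧ (q : ZMod N) = -1 ∧ (E.LFunction q : ZMod N) = 0}.Infinite := by
  intro hfin
  obtain ⟨W, hW⟩ := FA.Frob.exists_integralModel E
  have hΔ := FA.Frob.Δ_ne_zero_of_model hW
  haveI := FA.Frob.ratCurve_isElliptic_of_Δ hΔ
  obtain ⟨q, hq, hqS, hgood, ha, hq1⟩ := FA.TorsionField.exists_conj_frobenius (W := W) hΔ
    (N := 4 * N) (by omega) (dvd_mul_right 4 N) hfin.toFinset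
  refine hqS (hfin.mem_toFinset.mpr ⟨hq, ?_, ?_⟩)
  · refine eq_neg_of_add_eq_zero_left ?_
    have := (ZMod.intCast_zmod_eq_zero_iff_dvd ((q : ℤ) + 1) N).mpr
      ((Int.natCast_dvd_natCast.mpr (dvd_mul_left N 4)).trans hq1)
    push_cast at this
    exact this
  · rw [FA.Root.LFunction_apply_prime E W hW hq hgood, ZMod.intCast_zmod_eq_zero_iff_dvd]
    exact (Int.natCast_dvd_natCast.mpr (dvd_mul_left N 4)).trans ha

end FA.Summary

end
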