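import Fermat.Agent.Supersingular.DeuringCount
import Mathlib.FieldTheory.IsAlgClosed.AlgebraicClosure

/-!
# The number of supersingular invariants

In an algebraically closed field of characteristic `q ≥ 5` exactly
`⌊q / 12⌋ + [q ≡ 2 (mod 3)] + [q ≡ 3 (mod 4)]` invariants belong to curves without a point of order
`q`; `0` is one of them iff `q ≡ 2 (mod 3)` and `1728` iff `q ≡ 3 (mod 4)`, and weighting these two by
`1 / 3` and `1 / 2` the total is `(q - 1) / 12` (Deuring, Igusa, Eichler).
-/

set_option autoImplicit false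
set_option linter.style.haveILetI false

noncomputable section

open WeierstrassCurve
open scoped Classical

namespace FA.Summary

variable (k : Type) [Field k] (q : ℕ) [hq : Fact q.Prime] [CharP k q] [IsAlgClosed k]

/-- **Deuring and Igusa: the number of supersingular invariants.** -/
theorem supersingular_invariants_card (h5 : 5 ≤ q) :
    {j : k | ∃ (W : WeierstrassCurve k) (_ : W.IsElliptic),
        W.j = j ∧ ∀ P : W.toAffine.Point, q • P = 0 → P = 0}.ncard =
      q / 12 + (if q % 3 = 2 then 1 else 0) + (if q % 4 = 3 then 1 else 0) :=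
  (FA.SupersingularCount.count (k := k) h5).2.2.1

/-- `0` and `1728` among them. -/
theorem supersingular_special_invariants (h5 : 5 ≤ q) :
    ((∃ (W : WeierstrassCurve k) (_ : W.IsElliptic),
        W.j = 0 ∧ ∀ P : W.toAffine.Point, q • P = 0 → P = 0) ↔ q % 3 = 2) ∧
    ((∃ (W : WeierstrassCurve k) (_ : W.IsElliptic),
        W.j = 1728 ∧ ∀ P : W.toAffine.Point, q • P = 0 → P = 0) ↔ q % 4 = 3) :=
  ⟨(FA.SupersingularCount.count (k := k) h5).1, (FA.SupersingularCount.count (k := k) h5).2.1⟩

/-- **The Eichler–Deuring mass formula.** -/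
theorem supersingular_mass_formula (h5 : 5 ≤ q) :
    ∑ᶠ j ∈ {j : k | ∃ (W : WeierstrassCurve k) (_ : W.IsElliptic),
        W.j = j ∧ ∀ P : W.toAffine.Point, q • P = 0 → P = 0},
      (if j = 0 then (1 : ℚ) / 3 else if j = 1728 then 1 / 2 else 1) = ((q : ℚ) - 1) / 12 := by
  show ∑ᶠ j ∈ FA.SupersingularCount.ssInvariants k q, _ = _
  rw [FA.SupersingularCount.ssInvariants_eq h5, finsum_mem_coe_finset,
    Finset.sum_congr rfl fun (j : k) _ => show (if j = 0 then (1 : ℚ) / 3 else if j = 1728 then 1 / 2 else 1) =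
      ((FA.SupersingularCount.fibre j).card : ℚ) / 6 by
      rw [FA.SupersingularCount.card_fibre h5]; split_ifs <;> norm_num,
    ← Finset.sum_div, ← Nat.cast_sum, FA.SupersingularCount.sum_card_fibre h5]
  obtain ⟨m, hm⟩ := hq.out.odd_of_ne_two (by omega)
  rw [hm, show (2 * m + 1 - 1) / 2 = m by omega]
  push_cast
  ring

/-- The count in `𝔽̄_q`. -/
theorem supersingular_invariants_card_algClosure (h5 : 5 ≤ q) :
    {j : AlgebraicClosure (ZMod q) | ∃ (W : WeierstrassCurve (AlgebraicClosure (ZMod q)))
        (_ : W.IsElliptic), W.j = j ∧ ∀ P : W.toAffine.Point, q • P = 0 → P = 0}.ncard =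
      q / 12 + (if q % 3 = 2 then 1 else 0) + (if q % 4 = 3 then 1 else 0) := by
  haveI : CharP (AlgebraicClosure (ZMod q)) q :=
    charP_of_injective_algebraMap (algebraMap (ZMod q) (AlgebraicClosure (ZMod q))).injective q
  exact supersingular_invariants_card _ q h5

end FA.Summary

end
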