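import Fermat.Agent.LangNeron.Siegel

/-!
# Summary: Siegel's theorem on integral points over `k[T]`

Let `k` have characteristic zero and `W` be an equation over `k[T]` with nonzero discriminant whose
curve over `k(T)` is not constant (it may be isotrivial). Then there are finitely many points of
bounded height, finitely many torsion points (`northcott`, `torsion_finite`), and only finitely
many points whose abscissa has a denominator dividing a power of a given `q` (`siegel`, Lang's
analogue of Siegel's theorem): in particular finitely many polynomial solutions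
(`polynomial_solutions`), for `y² = x³ + D` as soon as `D` is not a constant times a sixth power
(`mordell_equation`). Behind it, at every place at most rank-many pole orders of abscissae occur.

Not claimed: effective (Mason) bounds, bases of higher genus, positive characteristic.
-/

set_option autoImplicit false
set_option linter.style.haveILetI false
set_option linter.unusedSectionVars false

noncomputable section

open WeierstrassCurve Polynomial
open FA.CallSilverman
open FA.NeronSpecialisation (genW genW_isElliptic)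
open scoped Classical

namespace FA.SiegelFunctionField.Summary

open FA.LangNeron

variable {k : Type*} [Field k] [CharZero k] {W : WeierstrassCurve k[X]}

theorem nonSplit_of_hyp (hW : W.Δ ≠ 0)
    (hE : ¬∃ (E₀ : WeierstrassCurve k) (C₀ : VariableChange (RatFunc k)),
      C₀ • W.map (algebraMap k[X] (RatFunc k)) = E₀.map (algebraMap k (RatFunc k))) :
    NonSplit W :=
  ⟨hW, fun e => hE ((isSplit_iff hW).1 e)⟩

/-- **Finitely many points of bounded height.** -/
theorem northcott (hW : W.Δ ≠ 0)
    (hE : ¬∃ (E₀ : WeierstrassCurve k) (C₀ : VariableChange (RatFunc k)),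
      C₀ • W.map (algebraMap k[X] (RatFunc k)) = E₀.map (algebraMap k (RatFunc k))) (B : ℝ) :
    {P : (W.map (algebraMap k[X] (RatFunc k))).toAffine.Point | genHgt W P ≤ B}.Finite :=
  finite_genHgt_le (nonSplit_of_hyp hW hE) B

/-- **Finitely many torsion points.** -/
theorem torsion_finite (hW : W.Δ ≠ 0)
    (hE : ¬∃ (E₀ : WeierstrassCurve k) (C₀ : VariableChange (RatFunc k)),
      C₀ • W.map (algebraMap k[X] (RatFunc k)) = E₀.map (algebraMap k (RatFunc k))) :
    {P : (W.map (algebraMap k[X] (RatFunc k))).toAffine.Point | IsOfFinAddOrder P}.Finite :=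
  (northcott hW hE 0).subset fun P hP =>
    ((genHgt_eq_zero_iff (nonSplit_of_hyp hW hE) P).2 hP).le

/-- **Siegel's theorem over `k(T)`.** -/
theorem siegel (hW : W.Δ ≠ 0)
    (hE : ¬∃ (E₀ : WeierstrassCurve k) (C₀ : VariableChange (RatFunc k)),
      C₀ • W.map (algebraMap k[X] (RatFunc k)) = E₀.map (algebraMap k (RatFunc k)))
    {q : k[X]} (hq : q ≠ 0) :
    {p : RatFunc k × RatFunc k | (W.map (algebraMap k[X] (RatFunc k))).toAffine.Equation p.1 p.2 ∧
      ∃ m : ℕ, p.1.denom ∣ q ^ m}.Finite := by
  haveI := genW_isElliptic hW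
  refine (Set.Finite.image (fun P : (W.map (algebraMap k[X] (RatFunc k))).toAffine.Point =>
    match P with
    | .zero => ((0 : RatFunc k), (0 : RatFunc k))
    | .some x y _ => (x, y)) (finite_siegel (nonSplit_of_hyp hW hE) hq)).subset ?_
  rintro ⟨x, y⟩ ⟨he, hm⟩
  exact ⟨_, ⟨x, y, Affine.equation_iff_nonsingular.1 he, rfl, hm⟩, rfl⟩

/-- **Finitely many polynomial solutions.** -/
theorem polynomial_solutions (hW : W.Δ ≠ 0)
    (hE : ¬∃ (E₀ : WeierstrassCurve k) (C₀ : VariableChange (RatFunc k)),
      C₀ • W.map (algebraMap k[X] (RatFunc k)) = E₀.map (algebraMap k (RatFunc k))) :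
    {p : k[X] × k[X] | W.toAffine.Equation p.1 p.2}.Finite := by
  set g := algebraMap k[X] (RatFunc k)
  refine ((siegel hW hE one_ne_zero).preimage
    (f := fun p : k[X] × k[X] => (g p.1, g p.2)) fun p _ p' _ e => ?_).subset fun p hp => ?_
  · simp only [Prod.mk.injEq] at e
    exact Prod.ext (RatFunc.algebraMap_injective k e.1) (RatFunc.algebraMap_injective k e.2)
  · exact ⟨(W.toAffine.map_equation (RatFunc.algebraMap_injective k) p.1 p.2).2 hp, 1, by
      rw [RatFunc.denom_algebraMap]; exact one_dvd _⟩

/-- **Mordell's equation over `k[T]`.** -/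
theorem mordell_equation {D : k[X]} (hD : ∀ (c : k) (R : k[X]), D ≠ Polynomial.C c * R ^ 6) :
    {p : k[X] × k[X] | p.2 ^ 2 = p.1 ^ 3 + D}.Finite := by
  have hD0 : D ≠ 0 := fun e => hD 0 0 (by rw [e, map_zero, zero_mul])
  set W : WeierstrassCurve k[X] := ⟨0, 0, 0, 0, D⟩
  have h6 : W.c₆ = -864 * D := by
    simp only [W, WeierstrassCurve.c₆, WeierstrassCurve.b₂, WeierstrassCurve.b₄, WeierstrassCurve.b₆]
    ring
  have hΔ : W.Δ = -432 * D ^ 2 := by
    simp only [W, WeierstrassCurve.Δ, WeierstrassCurve.b₂, WeierstrassCurve.b₄, WeierstrassCurve.b₆,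
      WeierstrassCurve.b₈]
    ring
  have hW : W.Δ ≠ 0 := by
    rw [hΔ]
    exact mul_ne_zero (neg_ne_zero.2 (by norm_num)) (pow_ne_zero 2 hD0)
  refine (polynomial_solutions hW fun hE => ?_).subset fun p hp => ?_
  · obtain ⟨R, κ, μ, -, h6'⟩ := (isSplit_iff hW).2 hE
    refine hD (μ / -864) R (mul_left_cancel₀ (neg_ne_zero.2 (by norm_num) : (-864 : k[X]) ≠ 0) ?_)
    rw [← h6, h6', ← mul_assoc,
      show (-864 : k[X]) = Polynomial.C (-864 : k) by rw [map_neg, map_ofNat], ← C_mul,
      mul_div_cancel₀ _ (by norm_num)]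
  · show W.toAffine.Equation p.1 p.2
    rw [Affine.equation_iff]
    have hp' : p.2 ^ 2 = p.1 ^ 3 + D := hp
    simp only [W]
    linear_combination hp'

end FA.SiegelFunctionField.Summary
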