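import Fermat.Agent.BirchMerriman.Reduce
import Fermat.Agent.BirchMerriman.Discriminant
import Fermat.Agent.BirchMerriman.Quadratic

/-!
# The Birch–Merriman theorem

Binary forms of degree `n` are the homogenisations of polynomials of degree at most `n`; the
discriminant `formDiscr n f` is `discr f`, or `lc ² discr f` with a root at infinity.

Birch and Merriman (1972): for every `n ≥ 2` the integral binary forms of degree `n` of bounded
nonzero discriminant lie in finitely many classes under `SL₂(ℤ)` (`birch_merriman`), also with the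
discriminant read off linear factors (`birch_merriman_factors`). The cross ratios are solutions of a
unit equation in one number field; forms with bounded cross ratios are reduced by Hermite's method
(`binary_forms_bounded_cross_ratios`; for cubic forms this is already everything,
`binary_cubic_forms_finite`). Discriminant zero must be excluded (`birch_merriman_zero_discr`) and
one discriminant is shared by infinitely many forms (`infinite_forms_same_discr`).
-/

set_option autoImplicit false

noncomputable section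

namespace FA.Summary

open Polynomial BirchMerriman

/-- **Reduction**: bounded cross ratios and discriminant give finitely many classes. -/
theorem binary_forms_bounded_cross_ratios {n : ℕ} (hn : 3 ≤ n) (C M : ℝ) :
    ∃ P : Finset ℤ[X], ∀ (f : ℤ[X]) (l : Fin n → ℂ × ℂ), f.natDegree ≤ n →
      (∀ x y : ℂ, MvPolynomial.aeval ![x, y] (f.homogenize n) =
        ∏ i, ((l i).1 * x + (l i).2 * y)) →
      crossProd l ≠ 0 → ‖crossProd l‖ ≤ M → CrossBounded C l →
      ∃ g ∈ P, ∃ a b c d : ℤ, a * d - b * c = 1 ∧ g.homogenize n = MvPolynomial.aeval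
        ![MvPolynomial.C a * MvPolynomial.X 0 + MvPolynomial.C b * MvPolynomial.X 1,
          MvPolynomial.C c * MvPolynomial.X 0 + MvPolynomial.C d * MvPolynomial.X 1]
        (f.homogenize n) :=
  exists_finite_reduced hn C M

/-- **Binary cubic forms** of bounded nonzero discriminant form finitely many classes. -/
theorem binary_cubic_forms_finite (D : ℕ) :
    ∃ P : Finset ℤ[X], ∀ f : ℤ[X], formDiscr 3 f ≠ 0 → (formDiscr 3 f).natAbs ≤ D →
      ∃ g ∈ P, SLEquiv 3 f g := by
  obtain ⟨P, hP⟩ := exists_finite_reduced (n := 3) le_rfl 1 D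
  refine ⟨P, fun f h0 hD => ?_⟩
  obtain ⟨hf, l, hl, hd⟩ := exists_factors (by norm_num) h0
  refine hP f l hf hl (fun h => ?_) ?_ fun i j k m hij hik him hjk hjm hkm => ?_
  · rw [h, norm_zero, eq_comm, abs_eq_zero, Int.cast_eq_zero] at hd
    exact h0 hd
  · rw [hd, ← Int.cast_abs, Int.abs_eq_natAbs, Int.cast_natCast]
    exact_mod_cast hD
  · exact absurd ⟨hij, hik, him, hjk, hjm, hkm⟩ ((by decide : ∀ i j k m : Fin 3,
      ¬(i ≠ j ∧ i ≠ k ∧ i ≠ m ∧ j ≠ k ∧ j ≠ m ∧ k ≠ m)) i j k m)

/-- **The theorem of Birch and Merriman**, roots at infinity included. -/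
theorem birch_merriman {n : ℕ} (hn : 2 ≤ n) (M : ℕ) :
    ∃ P : Finset ℤ[X], ∀ f : ℤ[X], formDiscr n f ≠ 0 → (formDiscr n f).natAbs ≤ M →
      ∃ g ∈ P, SLEquiv n f g :=
  exists_finite_classes_discr hn M

/-- **Birch–Merriman** with the discriminant through the linear factors, in explicit terms. -/
theorem birch_merriman_factors {n : ℕ} (hn : 2 ≤ n) (M : ℕ) :
    ∃ P : Finset ℤ[X], ∀ (f : ℤ[X]) (l : Fin n → ℂ × ℂ), f.natDegree ≤ n →
      (∀ x y : ℂ, MvPolynomial.aeval ![x, y] (f.homogenize n) =
        ∏ i, ((l i).1 * x + (l i).2 * y)) →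
      crossProd l ≠ 0 → ‖crossProd l‖ ≤ M →
      ∃ g ∈ P, ∃ a b c d : ℤ, a * d - b * c = 1 ∧ g.homogenize n = MvPolynomial.aeval
        ![MvPolynomial.C a * MvPolynomial.X 0 + MvPolynomial.C b * MvPolynomial.X 1,
          MvPolynomial.C c * MvPolynomial.X 0 + MvPolynomial.C d * MvPolynomial.X 1]
        (f.homogenize n) :=
  exists_finite_classes_factors hn M

/-- **Given degree and discriminant**, for polynomials of exact degree. -/
theorem birch_merriman_discr {n : ℕ} (hn : 2 ≤ n) {D : ℤ} (hD : D ≠ 0) :
    ∃ P : Finset ℤ[X], ∀ f : ℤ[X], f.natDegree = n → f.discr = D →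
      ∃ g ∈ P, SLEquiv n f g := by
  obtain ⟨P, hP⟩ := birch_merriman hn D.natAbs
  refine ⟨P, fun f hf hfD => hP f ?_ ?_⟩ <;> rw [formDiscr, if_pos hf, hfD]
  exact hD

/-- **Discriminant zero must be excluded**: the forms `k X ^ n` have discriminant zero and lie in
infinitely many classes. -/
theorem birch_merriman_zero_discr {n : ℕ} (hn : 2 ≤ n) (P : Finset ℤ[X]) :
    ∃ f : ℤ[X], f.natDegree = n ∧ formDiscr n f = 0 ∧
      ∀ g ∈ P, g.natDegree ≤ n → ¬SLEquiv n f g := by
  classical
  set B := P.sup fun g => (Finset.range (n + 1)).sup fun i => (g.coeff i).natAbs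
  set k : ℤ := (B : ℤ) + 1
  have hk0 : k ≠ 0 := by simp only [k]; omega
  refine ⟨C k * X ^ n, natDegree_C_mul_X_pow n k hk0, ?_, ?_⟩
  · set z : Fin n := ⟨0, by omega⟩
    set l : Fin n → ℂ × ℂ := fun i => (if i = z then (k : ℂ) else 1, 0)
    have hsp : Splitting (C k * X ^ n) l := by
      rw [Splitting, Polynomial.map_mul, Polynomial.map_pow, map_C, map_X]
      simp only [l, map_zero, add_zero, Finset.prod_mul_distrib, Finset.prod_const,
        Finset.card_univ, Fintype.card_fin, ← map_prod, Finset.prod_ite_eq', Finset.mem_univ,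
        if_true, eq_intCast]
    have hz : z ≠ ⟨1, by omega⟩ := by simp [z, Fin.ext_iff]
    have h1 := hsp.crossProd_eq (natDegree_C_mul_X_pow n k hk0) (by omega)
    rw [crossProd, Finset.prod_eq_zero (Finset.mem_univ z) (Finset.prod_eq_zero
      (Finset.mem_erase.2 ⟨hz.symm, Finset.mem_univ _⟩) (by simp [cross, l])), eq_comm,
      Int.cast_eq_zero, mul_eq_zero] at h1
    rw [formDiscr, if_pos (natDegree_C_mul_X_pow n k hk0)]
    exact h1.resolve_left fun h => by
      have := natAbs_discrSign n
      rw [h] at this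
      simp at this
  rintro g hg hgd ⟨a, b, c, d, hdet, h⟩
  rw [homogenize_C_mul, map_mul, MvPolynomial.aeval_C] at h
  have hdvd : ∀ i ≤ n, k ∣ g.coeff i := by
    intro i hi
    have h1 := congrArg (MvPolynomial.coeff
      (Finsupp.single 0 i + Finsupp.single 1 (n - i) : Fin 2 →₀ ℕ)) h
    rw [show algebraMap ℤ (MvPolynomial (Fin 2) ℤ) k = MvPolynomial.C k from rfl,
      MvPolynomial.coeff_C_mul, coeff_homogenize, if_pos (by simp; omega)] at h1
    simp only [Finsupp.add_apply, Finsupp.single_eq_same, ne_eq, zero_ne_one, not_false_eq_true,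
      Finsupp.single_eq_of_ne, add_zero] at h1
    exact ⟨_, h1⟩
  have hg0 : g = 0 := by
    ext i
    rw [coeff_zero]
    by_cases hi : i ≤ n
    · refine Int.eq_zero_of_dvd_of_natAbs_lt_natAbs (hdvd i hi) ?_
      have h1 : (g.coeff i).natAbs ≤ B := le_trans
        (Finset.le_sup (f := fun i => (g.coeff i).natAbs) (Finset.mem_range.2 (by omega)))
        (Finset.le_sup (f := fun g => (Finset.range (n + 1)).sup fun i => (g.coeff i).natAbs) hg)
      simp only [k]
      omega
    · exact coeff_eq_zero_of_natDegree_lt (by omega)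
  rw [hg0, homogenize_zero, eq_comm, mul_eq_zero] at h
  rcases h with h | h
  · exact hk0 (MvPolynomial.C_injective _ _ (h.trans (map_zero MvPolynomial.C).symm))
  · rw [homogenize_X_pow le_rfl, map_mul, map_pow, map_pow, MvPolynomial.aeval_X,
      MvPolynomial.aeval_X, Nat.sub_self, pow_zero, mul_one] at h
    have h0 := pow_eq_zero_iff'.1 h
    have hX := congrArg (MvPolynomial.eval ![d, -c]) h0.1
    simp at hX
    linarith

/-- **Classes are needed**: infinitely many quadratic forms share the discriminant `1`. -/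
theorem infinite_forms_same_discr : {f : ℤ[X] | formDiscr 2 f = 1}.Infinite := by
  refine Set.infinite_of_injective_forall_mem (f := fun k : ℕ => (X + C (k : ℤ) : ℤ[X]))
    (fun a b h => ?_) fun k => ?_
  · simpa using congrArg (fun p => coeff p 0) h
  · show formDiscr 2 _ = 1
    rw [formDiscr, if_neg (by rw [natDegree_X_add_C]; norm_num),
      if_pos (by rw [natDegree_X_add_C]), discr_of_degree_eq_one (degree_X_add_C _),
      leadingCoeff_X_add_C]
    norm_num

end FA.Summary

end
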