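import Fermat.Agent.CubicFormCount.Main
import Fermat.Agent.DeloneFaddeev.Domain
import Fermat.Agent.DeloneFaddeev.Finite

/-!
# Davenport's theorem on the class number of binary cubic forms

Davenport (1951): the classes of integral binary cubic forms without rational zero and with
`0 < disc ≤ X`, resp. `0 < -disc ≤ X`, number asymptotically `π² / 72 X`, resp. `π² / 24 X`.
By the correspondence of Delone and Faddeev this counts the orders in cubic fields.
-/

set_option autoImplicit false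

noncomputable section

open FA.Thue FA.DeloneFaddeev Filter Module
open scoped Topology Real Classical

namespace FA.CubicFormCount.Summary

/-- The forms equivalent to `f` under `GL₂ (ℤ)`. -/
def formClass (f : CubicForm) : Set CubicForm :=
  {g | ∃ p q r s : ℤ, (p * s - q * r = 1 ∨ p * s - q * r = -1) ∧
    ∀ X Y : ℤ, g.eval X Y = f.eval (p * X + q * Y) (r * X + s * Y)}

theorem classSet_eq_formClass (f : CubicForm) : classSet f = formClass f := by
  have hs : ∀ (k : ℤ) (h : CubicForm) (X Y : ℤ), (scale k h).eval X Y = k * h.eval X Y := by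
    intro k h X Y
    simp only [scale, CubicForm.eval, Int.cast_id]
    ring
  ext g
  constructor
  · rintro ⟨M, hM, rfl⟩
    have hd := Int.isUnit_iff.mp hM
    set u := M.det
    refine ⟨u * M 0 0, u * M 0 1, u * M 1 0, u * M 1 1, ?_, fun X Y => ?_⟩
    · have hu : u = M 0 0 * M 1 1 - M 0 1 * M 1 0 := Matrix.det_fin_two M
      rcases hd with hd | hd
      · left; rw [hd] at hu ⊢; linarith
      · right; rw [hd] at hu ⊢; linarith
    · rw [hs, actMat, CubicForm.eval_act]
      simp only [Int.cast_id, CubicForm.eval]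
      rcases hd with hd | hd <;> rw [hd] <;> ring
  · rintro ⟨p, q, r, s, hd, h⟩
    set u := p * s - q * r
    have hdet : (!![u * p, u * q; u * r, u * s] : Matrix (Fin 2) (Fin 2) ℤ).det = u := by
      rw [Matrix.det_fin_two_of]
      rcases hd with hd | hd <;> rw [show u * p * (u * s) - u * q * (u * r) = u ^ 2 * u by ring, hd]
        <;> norm_num
    refine ⟨_, hdet ▸ Int.isUnit_iff.mpr hd, form_ext fun X Y => ?_⟩
    rw [h, hs, hdet, actMat, CubicForm.eval_act]
    simp only [Int.cast_id, CubicForm.eval]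
    rcases hd with hd | hd <;> simp [hd] <;> ring

/-- The number of classes of forms without rational zero with discriminant in the set `I`. -/
def classCount (I : Set ℤ) : ℕ :=
  {c : Set CubicForm | ∃ f : CubicForm, (∀ u v : ℤ, f.eval u v = 0 → u = 0 ∧ v = 0) ∧
    f.disc ∈ I ∧ c = formClass f}.ncard

theorem classes_eq (ε : Bool) (Q : Set CubicForm) (X : ℝ) :
    classes ε Q X = {c : Set CubicForm | ∃ f ∈ Q, (∀ u v : ℤ, f.eval u v = 0 → u = 0 ∧ v = 0) ∧
      (0 < sgn ε * f.disc ∧ sgn ε * f.disc ≤ X) ∧ c = formClass f} := by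
  ext c
  simp only [classes, Set.mem_ofPred_eq, CubicForm.Anisotropic, classSet_eq_formClass, and_assoc]

theorem classCount_pos (X : ℝ) :
    (classes true Set.univ X).ncard = classCount {D | 0 < D ∧ (D : ℝ) ≤ X} := by
  rw [classes_eq, classCount]
  congr 1
  ext c
  simp [sgn]

theorem classCount_neg (X : ℝ) :
    (classes false Set.univ X).ncard = classCount {D | D < 0 ∧ (-D : ℝ) ≤ X} := by
  rw [classes_eq, classCount]
  congr 1
  ext c
  simp [sgn]

/-- **Davenport's theorem**: the classes of integral binary cubic forms without rational zero of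
discriminant in `(0, X]` number `~ π² / 72 X`, those in `[-X, 0)` number `~ π² / 24 X`, and all
with `0 < |disc| ≤ X` number `~ π² / 18 X`. -/
theorem davenport_class_number :
    Tendsto (fun X : ℝ => (classCount {D | 0 < D ∧ (D : ℝ) ≤ X} : ℝ) / X) atTop
      (𝓝 (π ^ 2 / 72)) ∧
    Tendsto (fun X : ℝ => (classCount {D | D < 0 ∧ (-D : ℝ) ≤ X} : ℝ) / X) atTop
      (𝓝 (π ^ 2 / 24)) ∧
    Tendsto (fun X : ℝ => (classCount {D | D ≠ 0 ∧ |(D : ℝ)| ≤ X} : ℝ) / X) atTop
      (𝓝 (π ^ 2 / 18)) := by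
  have h := fun ε => tendsto_classes ε one_pos (Q := Set.univ) (fun _ _ _ _ => trivial)
    periodic_ones
  simp only [density_univ, one_mul] at h
  have hp := h true
  have hn := h false
  rw [mainConst_true] at hp
  rw [mainConst_false] at hn
  have e : ∀ X : ℝ, classCount {D | D ≠ 0 ∧ |(D : ℝ)| ≤ X} =
      (classes true Set.univ X).ncard + (classes false Set.univ X).ncard := by
    intro X
    rw [← Set.ncard_union_eq ?_ (classes_finite _ _ _) (classes_finite _ _ _), classCount]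
    · congr 1
      ext c
      simp only [classes_eq, Set.mem_union, Set.mem_ofPred_eq, Set.mem_univ, true_and, sgn,
        Bool.false_eq_true, if_true, if_false, one_mul, neg_one_mul]
      constructor
      · rintro ⟨f, ha, ⟨h0, hX⟩, rfl⟩
        rw [abs_le] at hX
        rcases lt_or_gt_of_ne h0 with hh | hh
        · exact Or.inr ⟨f, ha, ⟨neg_pos.mpr (Int.cast_lt_zero.mpr hh), by linarith⟩, rfl⟩
        · exact Or.inl ⟨f, ha, ⟨Int.cast_pos.mpr hh, hX.2⟩, rfl⟩
      · rintro (⟨f, ha, ⟨h0, hX⟩, rfl⟩ | ⟨f, ha, ⟨h0, hX⟩, rfl⟩)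
        · exact ⟨f, ha, ⟨(Int.cast_pos.mp h0).ne', abs_le.mpr ⟨by linarith, hX⟩⟩, rfl⟩
        · exact ⟨f, ha, ⟨(Int.cast_lt_zero.mp (neg_pos.mp h0)).ne,
            abs_le.mpr ⟨by linarith, by linarith⟩⟩, rfl⟩
    · rw [Set.disjoint_left]
      rintro c ⟨f, -, -, h1, -, rfl⟩ ⟨g, -, -, h2, -, e⟩
      rw [twisted_disc (twisted_of_classSet e.symm)] at h1
      simp [sgn] at h1 h2
      omega
  refine ⟨?_, ?_, ?_⟩
  · simpa [classCount_pos] using hp
  · simpa [classCount_neg] using hn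
  · have := hp.add hn
    rw [show π ^ 2 / 72 + π ^ 2 / 24 = π ^ 2 / 18 by ring] at this
    refine this.congr fun X => ?_
    rw [e, Nat.cast_add, add_div]

theorem exists_system (ε : Bool) (X : ℝ) :
    ∃ S : Finset CubicForm, S.card = (classes ε Set.univ X).ncard ∧
      (∀ f ∈ S, IsDomain (CubicOrder f) ∧
        0 < sgn ε * Algebra.discr ℤ (CubicOrder.basis f) ∧
        sgn ε * Algebra.discr ℤ (CubicOrder.basis f) ≤ X) ∧
      (∀ f ∈ S, ∀ g ∈ S, Nonempty (CubicOrder f ≃+* CubicOrder g) → f = g) ∧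
      ∀ (R : Type) [CommRing R] [IsDomain R] (b : Basis (Fin 3) ℤ R),
        0 < sgn ε * Algebra.discr ℤ b → sgn ε * Algebra.discr ℤ b ≤ X →
        ∃ f ∈ S, Nonempty (CubicOrder f ≃+* R) := by
  have hfin := classes_finite ε Set.univ X
  have hch : ∀ c ∈ classes ε Set.univ X, ∃ f : CubicForm, f.Anisotropic ∧ 0 < sgn ε * f.disc ∧
      sgn ε * f.disc ≤ X ∧ c = classSet f := fun c ⟨f, _, h⟩ => ⟨f, h⟩
  have : Nonempty CubicForm := ⟨⟨0, 0, 0, 0⟩⟩
  choose! F hF using hch
  have hFinj : ∀ c ∈ classes ε Set.univ X, ∀ d ∈ classes ε Set.univ X, F c = F d → c = d :=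
    fun c hc d hd e => by rw [(hF c hc).2.2.2, (hF d hd).2.2.2, e]
  refine ⟨hfin.toFinset.image F, ?_, ?_, ?_, ?_⟩
  · rw [Finset.card_image_of_injOn fun c hc d hd => hFinj c (hfin.mem_toFinset.mp hc) d
      (hfin.mem_toFinset.mp hd), Set.ncard_eq_toFinset_card _ hfin]
  · intro f hf
    obtain ⟨c, hc, rfl⟩ := Finset.mem_image.mp hf
    obtain ⟨h1, h2, h3, -⟩ := hF c (hfin.mem_toFinset.mp hc)
    rw [CubicOrder.discr_basis]
    exact ⟨(CubicOrder.isDomain_iff _).mpr h1, h2, h3⟩
  · intro f hf g hg e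
    obtain ⟨c, hc, rfl⟩ := Finset.mem_image.mp hf
    obtain ⟨d, hd, rfl⟩ := Finset.mem_image.mp hg
    rw [hfin.mem_toFinset] at hc hd
    have h := classSet_eq ((CubicOrder.nonempty_ringEquiv_iff _ _).mp e)
    rw [← (hF c hc).2.2.2, ← (hF d hd).2.2.2] at h
    rw [h]
  · intro R _ _ b h0 h1
    obtain ⟨f, ⟨e⟩⟩ := CubicOrder.exists_form_of_basis b
    rw [discr_eq_disc b e] at h0 h1
    have hdom : IsDomain (CubicOrder f) := e.toMulEquiv.isDomain
    have hc : classSet f ∈ classes ε Set.univ X :=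
      ⟨f, trivial, (CubicOrder.isDomain_iff f).mp hdom, h0, h1, rfl⟩
    refine ⟨F (classSet f), Finset.mem_image.mpr ⟨_, hfin.mem_toFinset.mpr hc, rfl⟩, ?_⟩
    obtain ⟨e'⟩ := (CubicOrder.nonempty_ringEquiv_iff (F (classSet f)) f).mpr
      (twisted_of_classSet (hF _ hc).2.2.2)
    exact ⟨e'.trans e⟩

/-- **The number of cubic orders**: for every `X` there is a complete irredundant finite system of
the domains free of rank three over `ℤ` with `0 < disc ≤ X`, resp. `0 < -disc ≤ X`, and it has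
`~ π² / 72 X`, resp. `~ π² / 24 X` members. -/
theorem cubic_orders_asymptotic :
    (∃ S : ℝ → Finset CubicForm,
      (∀ X, (∀ f ∈ S X, IsDomain (CubicOrder f) ∧
          0 < Algebra.discr ℤ (CubicOrder.basis f) ∧
          (Algebra.discr ℤ (CubicOrder.basis f) : ℝ) ≤ X) ∧
        (∀ f ∈ S X, ∀ g ∈ S X, Nonempty (CubicOrder f ≃+* CubicOrder g) → f = g) ∧
        ∀ (R : Type) [CommRing R] [IsDomain R] (b : Basis (Fin 3) ℤ R),
          0 < Algebra.discr ℤ b → (Algebra.discr ℤ b : ℝ) ≤ X →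
          ∃ f ∈ S X, Nonempty (CubicOrder f ≃+* R)) ∧
      Tendsto (fun X : ℝ => ((S X).card : ℝ) / X) atTop (𝓝 (π ^ 2 / 72))) ∧
    ∃ S : ℝ → Finset CubicForm,
      (∀ X, (∀ f ∈ S X, IsDomain (CubicOrder f) ∧
          Algebra.discr ℤ (CubicOrder.basis f) < 0 ∧
          (-Algebra.discr ℤ (CubicOrder.basis f) : ℝ) ≤ X) ∧
        (∀ f ∈ S X, ∀ g ∈ S X, Nonempty (CubicOrder f ≃+* CubicOrder g) → f = g) ∧
        ∀ (R : Type) [CommRing R] [IsDomain R] (b : Basis (Fin 3) ℤ R),
          Algebra.discr ℤ b < 0 → (-Algebra.discr ℤ b : ℝ) ≤ X →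
          ∃ f ∈ S X, Nonempty (CubicOrder f ≃+* R)) ∧
      Tendsto (fun X : ℝ => ((S X).card : ℝ) / X) atTop (𝓝 (π ^ 2 / 24)) := by
  choose S hS using exists_system
  obtain ⟨hp, hn, -⟩ := davenport_class_number
  refine ⟨⟨S true, fun X => ?_, ?_⟩, S false, fun X => ?_, ?_⟩
  · simpa [sgn] using (hS true X).2
  · exact hp.congr fun X => by rw [(hS true X).1, classCount_pos]
  · simpa [sgn] using (hS false X).2
  · exact hn.congr fun X => by rw [(hS false X).1, classCount_neg]

/-- **Davenport's theorem with congruence conditions**: for a `GL₂ (ℤ)`-invariant set `Q` of forms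
defined by `k` residue classes modulo `m`, the classes in `Q` number `k / m⁴ · π² / 72 X`,
resp. `k / m⁴ · π² / 24 X`. -/
theorem davenport_congruence {m : ℕ} (hm : 0 < m) {Q : Set CubicForm}
    (hinv : ∀ f, ∀ g ∈ formClass f, f ∈ Q → g ∈ Q)
    (hmod : ∀ f g : CubicForm, (m : ℤ) ∣ f.a - g.a → (m : ℤ) ∣ f.b - g.b → (m : ℤ) ∣ f.c - g.c →
      (m : ℤ) ∣ f.d - g.d → f ∈ Q → g ∈ Q) :
    let k := Nat.card {r : Fin 4 → Fin m //
      (⟨(r 0 : ℕ), (r 1 : ℕ), (r 2 : ℕ), (r 3 : ℕ)⟩ : CubicForm) ∈ Q}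
    Tendsto (fun X : ℝ => (({c : Set CubicForm | ∃ f ∈ Q,
        (∀ u v : ℤ, f.eval u v = 0 → u = 0 ∧ v = 0) ∧
        (0 < f.disc ∧ (f.disc : ℝ) ≤ X) ∧ c = formClass f}.ncard : ℝ)) / X) atTop
      (𝓝 (k / (m : ℝ) ^ 4 * (π ^ 2 / 72))) ∧
    Tendsto (fun X : ℝ => (({c : Set CubicForm | ∃ f ∈ Q,
        (∀ u v : ℤ, f.eval u v = 0 → u = 0 ∧ v = 0) ∧
        (f.disc < 0 ∧ (-f.disc : ℝ) ≤ X) ∧ c = formClass f}.ncard : ℝ)) / X) atTop
      (𝓝 (k / (m : ℝ) ^ 4 * (π ^ 2 / 24))) := by
  intro k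
  have hQ : PeriodicSet m Q := fun v w h hv => hmod _ _ (h 0) (h 1) (h 2) (h 3) hv
  have hinv' : ∀ f g, Twisted f g → f ∈ Q → g ∈ Q := fun f g h => hinv f g (by
    rw [← classSet_eq_formClass]; exact h)
  have hk : k = (residues m Q).card := by
    rw [← Nat.card_eq_finsetCard]
    refine Nat.card_congr
      { toFun := fun r => ⟨fun i => ((r.1 i : ℕ) : ℤ), ?_⟩
        invFun := fun r => ⟨fun i => ⟨(r.1 i).toNat, ?_⟩, ?_⟩
        left_inv := fun r => by ext i; simp
        right_inv := fun r => ?_ }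
    · simp only [residues, Finset.mem_filter, Fintype.mem_piFinset, Finset.mem_Ico]
      exact ⟨fun i => ⟨by positivity, by exact_mod_cast (r.1 i).isLt⟩, r.2⟩
    · have := Fintype.mem_piFinset.mp (Finset.mem_filter.mp r.2).1 i
      rw [Finset.mem_Ico] at this
      omega
    · have h := Finset.mem_filter.mp r.2
      have hb := fun i => Finset.mem_Ico.mp (Fintype.mem_piFinset.mp h.1 i)
      simp only [Int.toNat_of_nonneg (hb _).1]
      exact h.2
    · have hb := fun i => Finset.mem_Ico.mp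
        (Fintype.mem_piFinset.mp (Finset.mem_filter.mp r.2).1 i)
      ext i
      exact Int.toNat_of_nonneg (hb i).1
  have hp := tendsto_classes true hm hinv' hQ
  have hn := tendsto_classes false hm hinv' hQ
  rw [mainConst_true, density, ← hk] at hp
  rw [mainConst_false, density, ← hk] at hn
  simp only [classes_eq, sgn, if_true, Bool.false_eq_true, if_false, one_mul, neg_one_mul,
    Int.cast_pos, neg_pos, Int.cast_lt_zero] at hp hn
  exact ⟨hp, hn⟩

end FA.CubicFormCount.Summary
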