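import Fermat.Agent.CubicFields.Fields
import Fermat.Agent.Root.SummaryDavenportCubic

/-!
# The theorem of Davenport and Heilbronn on cubic fields

Davenport and Heilbronn (1971): cubic fields up to isomorphism with `0 < d ≤ X` number
`~ X / (12 ζ (3))`, those with `-X ≤ d < 0` number `~ X / (4 ζ (3))`.
-/

set_option autoImplicit false

noncomputable section

open Module NumberField Filter
open FA.Thue FA.DeloneFaddeev FA.CubicFormCount FA.CubicFormCount.Summary
open scoped Topology Real Classical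

namespace FA.CubicFields.Summary

theorem maxDensity_mainConst :
    maxDensity * mainConst true = 1 / (12 * (riemannZeta 3).re) ∧
      maxDensity * mainConst false = 1 / (4 * (riemannZeta 3).re) := by
  rw [mainConst_true, mainConst_false, maxDensity]
  constructor <;> field_simp <;> ring

/-- **Davenport–Heilbronn, totally real fields**: a complete irredundant system of the cubic
fields with `0 < d ≤ X` has `~ X / (12 ζ (3))` members. -/
theorem davenport_heilbronn_real :
    ∃ N : ℝ → ℕ,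
      (∀ X, ∃ (F : Fin (N X) → Type) (_ : ∀ i, Field (F i)) (_ : ∀ i, NumberField (F i)),
        (∀ i, finrank ℚ (F i) = 3 ∧ 0 < discr (F i) ∧ (discr (F i) : ℝ) ≤ X) ∧
        (∀ i j, Nonempty (F i ≃+* F j) → i = j) ∧
        ∀ (L : Type) [Field L] [NumberField L], finrank ℚ L = 3 → 0 < discr L →
          (discr L : ℝ) ≤ X → ∃ i, Nonempty (F i ≃+* L)) ∧
      Tendsto (fun X => (N X : ℝ) / X) atTop (𝓝 (1 / (12 * (riemannZeta 3).re))) := by
  refine ⟨fun X => (classes true maxForms X).ncard, fun X => ?_, ?_⟩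
  · obtain ⟨F, h1, h2, h⟩ := exists_field_system true X
    exact ⟨F, h1, h2, by simpa [sgn] using h⟩
  · rw [← maxDensity_mainConst.1]
    exact tendsto_maxForms true

/-- **Davenport–Heilbronn, complex cubic fields**: a complete irredundant system of the cubic
fields with `-X ≤ d < 0` has `~ X / (4 ζ (3))` members. -/
theorem davenport_heilbronn_complex :
    ∃ N : ℝ → ℕ,
      (∀ X, ∃ (F : Fin (N X) → Type) (_ : ∀ i, Field (F i)) (_ : ∀ i, NumberField (F i)),
        (∀ i, finrank ℚ (F i) = 3 ∧ discr (F i) < 0 ∧ (-discr (F i) : ℝ) ≤ X) ∧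
        (∀ i j, Nonempty (F i ≃+* F j) → i = j) ∧
        ∀ (L : Type) [Field L] [NumberField L], finrank ℚ L = 3 → discr L < 0 →
          (-discr L : ℝ) ≤ X → ∃ i, Nonempty (F i ≃+* L)) ∧
      Tendsto (fun X => (N X : ℝ) / X) atTop (𝓝 (1 / (4 * (riemannZeta 3).re))) := by
  refine ⟨fun X => (classes false maxForms X).ncard, fun X => ?_, ?_⟩
  · obtain ⟨F, h1, h2, h⟩ := exists_field_system false X
    exact ⟨F, h1, h2, by simpa [sgn] using h⟩
  · rw [← maxDensity_mainConst.2]
    exact tendsto_maxForms false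

/-- `ζ (3)` is positive, so the two constants are. -/
theorem zeta_three_pos : 0 < (riemannZeta 3).re := by
  rw [show riemannZeta 3 = riemannZeta ((3 : ℕ) : ℂ) by norm_num,
    zeta_nat_eq_tsum_of_gt_one (by norm_num : 1 < 3),
    show (∑' n : ℕ, 1 / (n : ℂ) ^ 3) = ((∑' n : ℕ, 1 / (n : ℝ) ^ 3 : ℝ) : ℂ) by
      rw [Complex.ofReal_tsum]; push_cast; rfl, Complex.ofReal_re]
  exact (Real.summable_one_div_nat_pow.2 (by norm_num)).tsum_pos
    (fun n => by positivity) 1 (by norm_num)

/-- `f` is non-maximal at `p`, spelled out. -/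
def Nonmaximal (p : ℕ) (f : CubicForm) : Prop :=
  ((p : ℤ) ∣ f.a ∧ (p : ℤ) ∣ f.b ∧ (p : ℤ) ∣ f.c ∧ (p : ℤ) ∣ f.d) ∨
    ∃ g ∈ formClass f, (p : ℤ) ^ 2 ∣ g.a ∧ (p : ℤ) ∣ g.b

theorem badAt_eq (p : ℕ) : badAt p = {f | Nonmaximal p f} := by
  ext f
  simp only [badAt, NonmaximalForm, Nonmaximal, Set.mem_ofPred_eq, ← classSet_eq_formClass,
    classSet]

/-- **The uniformity estimate**: classes non-maximal at `p` with `0 < |disc| ≤ X` are at most
`C X / p²`, uniformly in `p`. -/
theorem nonmaximal_uniformity :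
    ∃ C : ℝ, ∀ p : ℕ, p.Prime → ∀ X : ℝ, 0 ≤ X →
      ({c : Set CubicForm | ∃ f : CubicForm, Nonmaximal p f ∧
          (∀ u v : ℤ, f.eval u v = 0 → u = 0 ∧ v = 0) ∧ (f.disc ≠ 0 ∧ |(f.disc : ℝ)| ≤ X) ∧
          c = formClass f}.ncard : ℝ) ≤ C * (X / (p : ℝ) ^ 2) := by
  obtain ⟨C₁, -, h1⟩ := exists_badAt_bound true
  obtain ⟨C₂, -, h2⟩ := exists_badAt_bound false
  refine ⟨C₁ + C₂, fun p hp X hX => ?_⟩
  have hsub : {c : Set CubicForm | ∃ f : CubicForm, Nonmaximal p f ∧
      (∀ u v : ℤ, f.eval u v = 0 → u = 0 ∧ v = 0) ∧ (f.disc ≠ 0 ∧ |(f.disc : ℝ)| ≤ X) ∧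
      c = formClass f} ⊆ classes true (badAt p) X ∪ classes false (badAt p) X := by
    rintro c ⟨f, hn, ha, ⟨h0, hd⟩, rfl⟩
    rw [← classSet_eq_formClass]
    have hb : f ∈ badAt p := by rw [badAt_eq]; exact hn
    rw [abs_le] at hd
    rcases lt_or_gt_of_ne h0 with h | h
    · exact Or.inr ⟨f, hb, ha, by simpa [sgn] using h,
        by simp only [sgn, Bool.false_eq_true, if_false, neg_one_mul]; linarith, rfl⟩
    · exact Or.inl ⟨f, hb, ha, by simpa [sgn] using h,
        by simp only [sgn, if_true, one_mul]; exact hd.2, rfl⟩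
  refine (Nat.cast_le.mpr ((Set.ncard_le_ncard hsub ((classes_finite _ _ _).union
    (classes_finite _ _ _))).trans (Set.ncard_union_le _ _))).trans ?_
  push_cast
  rw [add_mul]
  exact add_le_add (h1 p hp X hX) (h2 p hp X hX)

/-- **The local density**: exactly `p⁶ + p⁵ - p³` forms modulo `p²` are non-maximal at `p`. -/
theorem nonmaximal_local_count {p : ℕ} (hp : p.Prime) :
    Nat.card {r : Fin 4 → Fin (p ^ 2) //
      Nonmaximal p ⟨(r 0 : ℕ), (r 1 : ℕ), (r 2 : ℕ), (r 3 : ℕ)⟩} + p ^ 3 = p ^ 6 + p ^ 5 := by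
  rw [← card_residues_badAt hp]
  congr 1
  rw [← Nat.card_eq_finsetCard]
  refine Nat.card_congr
    { toFun := fun r => ⟨fun i => ((r.1 i : ℕ) : ℤ), mem_residues.mpr ⟨fun i =>
        Finset.mem_Ico.mpr ⟨by positivity, by exact_mod_cast (r.1 i).isLt⟩, by
          rw [badAt_eq]; exact r.2⟩⟩
      invFun := fun r => ⟨fun i => ⟨(r.1 i).toNat, ?_⟩, ?_⟩
      left_inv := fun r => by ext i; simp
      right_inv := fun r => ?_ }
  · have := Finset.mem_Ico.mp ((mem_residues.mp r.2).1 i)
    omega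
  · have hb := fun i => Finset.mem_Ico.mp ((mem_residues.mp r.2).1 i)
    have h := (Set.ext_iff.mp (badAt_eq p) _).mp (mem_residues.mp r.2).2
    simp only [Int.toNat_of_nonneg (hb _).1]
    exact h
  · ext i
    exact Int.toNat_of_nonneg (Finset.mem_Ico.mp ((mem_residues.mp r.2).1 i)).1

/-- **Maximal orders among all cubic orders** have density `1 / (ζ (2) ζ (3))`, for either sign of
the discriminant. -/
theorem maximal_density (ε : Bool) :
    Tendsto (fun X : ℝ => ((classes ε maxForms X).ncard : ℝ) / (classes ε Set.univ X).ncard) atTop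
      (𝓝 (6 / (π ^ 2 * (riemannZeta 3).re))) := by
  have hu := tendsto_classes ε one_pos (Q := Set.univ) (fun _ _ _ _ => trivial) periodic_ones
  rw [density_univ, one_mul] at hu
  have hne : mainConst ε ≠ 0 := by
    have := cst_pos ε
    have := kst_pos ε
    rw [mainConst]
    positivity
  have h := (tendsto_maxForms ε).div hu hne
  rw [mul_div_assoc, div_self hne, mul_one, maxDensity] at h
  have e : (6 : ℝ) / (π ^ 2 * (riemannZeta 3).re) =
      (π ^ 2 / 6)⁻¹ * ((riemannZeta 3).re)⁻¹ := by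
    field_simp
  rw [e]
  refine h.congr' ?_
  filter_upwards [eventually_gt_atTop (0 : ℝ)] with X hX
  exact div_div_div_cancel_right₀ hX.ne' _ _

end FA.CubicFields.Summary
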