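import Fermat.Agent.CM.Form32
import Fermat.Agent.Eisenstein.QOps
import Fermat.Agent.Root.SummaryLevels
import Fermat.Agent.Deform.EigenLift

/-!
# The newform `η(z)² η(11z)²` of level 11

Its cube and its fourth power are exactly invariant under `Γ₀(11)`, so it is invariant. The space
of cusp forms of weight two of level 11 being a line, it is the newform of `y² + y = x³ - x²`; its
`q`-series is `q ∏ (1 - qⁿ)² (1 - q¹¹ⁿ)²`.
-/

set_option autoImplicit false
set_option linter.style.haveILetI false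

noncomputable section

namespace FA.EtaEleven

open UpperHalfPlane hiding I
open Complex Filter Topology CongruenceSubgroup ModularForm FA.ModField FA.ModField.EtaQ
open scoped Real MatrixGroups Manifold

local notation "𝕢" => Function.Periodic.qParam

/-- `η(z)² η(11z)²`. -/
def eta11 (z : ℍ) : ℂ := η (z : ℂ) ^ 2 * η (scaleH 11 z : ℂ) ^ 2

theorem eta11_pow (w : ℕ) (z : ℍ) :
    eta11 z ^ w = etaPow w z * etaPow w (scaleH 11 z) := by
  rw [eta11, etaPow, etaPow, mul_pow, ← pow_mul, ← pow_mul]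

theorem eta11_ne_zero (z : ℍ) : eta11 z ≠ 0 :=
  mul_ne_zero (pow_ne_zero 2 (eta_ne_zero z.im_pos))
    (pow_ne_zero 2 (eta_ne_zero (scaleH 11 z).im_pos))

theorem exists_scaled {d : ℕ} [NeZero d] {g : SL(2, ℤ)} {c : ℤ} (hc : g 1 0 = d * c) :
    ∃ g' : SL(2, ℤ),
      (g' : Matrix (Fin 2) (Fin 2) ℤ) = !![g 0 0, (d : ℤ) * g 0 1; c, g 1 1] ∧
      ∀ z : ℍ, scaleH d (g • z) = g' • scaleH d z ∧ denom g' (scaleH d z) = denom g z := by
  have hdet : g 0 0 * g 1 1 - g 0 1 * g 1 0 = 1 := by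
    have := g.det_coe; rwa [Matrix.det_fin_two] at this
  obtain ⟨g', hg'⟩ : ∃ g' : SL(2, ℤ),
      (g' : Matrix (Fin 2) (Fin 2) ℤ) = !![g 0 0, (d : ℤ) * g 0 1; c, g 1 1] :=
    ⟨⟨_, by rw [Matrix.det_fin_two_of]; linear_combination hdet + g 0 1 * hc⟩, rfl⟩
  have hc' : ((g 1 0 : ℤ) : ℂ) = (d : ℂ) * c := by exact_mod_cast hc
  refine ⟨g', hg', fun z => ⟨?_, ?_⟩⟩
  · ext
    rw [coe_scaleH, coe_smul_int, coe_smul_int, hg']
    simp only [Matrix.of_apply, Matrix.cons_val', Matrix.cons_val_zero, Matrix.cons_val_one,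
      Matrix.empty_val', Matrix.cons_val_fin_one, coe_scaleH, Int.cast_mul, Int.cast_natCast, hc']
    rw [← mul_div_assoc]
    congr 1 <;> ring
  · rw [denom_SL, denom_SL, hg']
    simp only [Matrix.of_apply, Matrix.cons_val', Matrix.cons_val_zero, Matrix.cons_val_one,
      Matrix.empty_val', Matrix.cons_val_fin_one, coe_scaleH, hc']
    ring

/-- The exponent of the multiplier of the eighth power of `η`, modulo three. -/
def formula3 (a b c d : ZMod 3) : ZMod 3 := (a + d) * c - b * d * (c * c - 1)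

theorem etaPow_three_smul (g : SL(2, ℤ)) (z : ℍ) : etaPow 3 (g • z) =
    rootC 4 ^ (formula4 (g 0 0) (g 0 1) (g 1 0) (g 1 1)).val * denom g z ^ 3 * etaPow 3 z := by
  obtain ⟨a1, a2, a3, a4, a5⟩ := formula_four
  let h : SL(2, ZMod 4) → ZMod 4 := fun x => formula4 (x 0 0) (x 0 1) (x 1 0) (x 1 1)
  have hall : ∀ γ, Good 3 4 h γ := by
    refine good_all 3 4 (by simpa [h] using a1) ⟨fun x => ?_, fun z => ?_⟩
      ⟨fun x => ?_, fun z => ?_⟩
    · have hd : x 0 0 * x 1 1 - x 0 1 * x 1 0 = 1 := by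
        have := x.det_coe; rwa [Matrix.det_fin_two] at this
      simpa [h, redMod, ModularGroup.S, Matrix.mul_apply, Fin.sum_univ_two] using a3 _ _ _ _ hd
    · rw [etaPow_S, show h (redMod 4 ModularGroup.S) = 1 by
        simp [h, redMod, ModularGroup.S]; exact a5, denom_SL]
      rw [show (1 : ZMod 4).val = 1 from rfl, pow_one, rootC,
        show (2 : ℂ) * π * I / ((4 : ℕ) : ℂ) = π / 2 * I by push_cast; ring,
        Complex.exp_pi_div_two_mul_I, inv_pow, show (3 : ℕ) = 2 + 1 from rfl, pow_succ,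
        Complex.I_sq]
      simp [ModularGroup.S]
    · have hd : x 0 0 * x 1 1 - x 0 1 * x 1 0 = 1 := by
        have := x.det_coe; rwa [Matrix.det_fin_two] at this
      simpa [h, redMod, ModularGroup.T, Matrix.mul_apply, Fin.sum_univ_two] using a2 _ _ _ _ hd
    · rw [etaPow_T 3 4 rfl, show h (redMod 4 ModularGroup.T) = 1 by
        simp [h, redMod, ModularGroup.T]; exact a4, denom_SL]
      simp [ModularGroup.T, show (1 : ZMod 4).val = 1 from rfl]
  simpa [h, redMod] using (hall g).2 z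

theorem etaPow_four_smul (g : SL(2, ℤ)) (z : ℍ) : etaPow 4 (g • z) =
    rootC 3 ^ (formula3 (g 0 0) (g 0 1) (g 1 0) (g 1 1)).val * denom g z ^ 4 * etaPow 4 z := by
  obtain ⟨-, b2, b3, -, -⟩ := formula_three
  have hI : I⁻¹ ^ 4 = 1 := by rw [inv_pow, Complex.I_pow_four, inv_one]
  let h : SL(2, ZMod 3) → ZMod 3 := fun x => formula3 (x 0 0) (x 0 1) (x 1 0) (x 1 1)
  have hall : ∀ γ, Good 4 3 h γ := by
    refine good_all 4 3 (by simp [h, formula3]) ⟨fun x => ?_, fun z => ?_⟩
      ⟨fun x => ?_, fun z => ?_⟩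
    · have hd : x 0 0 * x 1 1 - x 0 1 * x 1 0 = 1 := by
        have := x.det_coe; rwa [Matrix.det_fin_two] at this
      simpa [h, formula3, redMod, ModularGroup.S, Matrix.mul_apply, Fin.sum_univ_two]
        using b3 _ _ _ _ hd
    · rw [etaPow_S, hI, show h (redMod 3 ModularGroup.S) = 0 by
        simp [h, formula3, redMod, ModularGroup.S], denom_SL]
      simp [ModularGroup.S]
    · have hd : x 0 0 * x 1 1 - x 0 1 * x 1 0 = 1 := by
        have := x.det_coe; rwa [Matrix.det_fin_two] at this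
      simpa [h, formula3, redMod, ModularGroup.T, Matrix.mul_apply, Fin.sum_univ_two]
        using b2 _ _ _ _ hd
    · rw [etaPow_T 4 3 rfl, show h (redMod 3 ModularGroup.T) = 1 by
        simp [h, formula3, redMod, ModularGroup.T], denom_SL]
      simp [ModularGroup.T, show (1 : ZMod 3).val = 1 from rfl]
  simpa [h, redMod] using (hall g).2 z

theorem formula4_neg : ∀ a b c d : ZMod 4, a * d - b * (-c) = 1 →
    formula4 a b (-c) d + formula4 a (-b) c d = 0 := by
  decide +kernel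

/-- The transformation of the cube and the fourth power. -/
theorem eta11_pow_smul {g : SL(2, ℤ)} (hg : g ∈ Gamma0 11) (z : ℍ) :
    eta11 (g • z) ^ 3 = (denom g z ^ 2 * eta11 z) ^ 3 ∧
      eta11 (g • z) ^ 4 = (denom g z ^ 2 * eta11 z) ^ 4 := by
  rw [Gamma0_mem, ZMod.intCast_zmod_eq_zero_iff_dvd] at hg
  obtain ⟨c, hc⟩ := hg
  obtain ⟨gb, hgb, hb⟩ := exists_scaled (d := 11) (g := g) (c := c) hc
  push_cast at hc
  have hdet : g 0 0 * g 1 1 - g 0 1 * g 1 0 = 1 := by
    have := g.det_coe; rwa [Matrix.det_fin_two] at this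
  constructor
  · rw [eta11_pow, mul_pow, eta11_pow, (hb z).1, etaPow_three_smul, etaPow_three_smul gb, (hb z).2]
    have e : formula4 (g 0 0) (g 0 1) (g 1 0) (g 1 1) +
        formula4 (gb 0 0) (gb 0 1) (gb 1 0) (gb 1 1) = (0 : ZMod 4) := by
      have hd' : ((g 0 0 : ℤ) : ZMod 4) * ((g 1 1 : ℤ) : ZMod 4) -
          ((g 0 1 : ℤ) : ZMod 4) * -((c : ℤ) : ZMod 4) = 1 := by
        have := congrArg (Int.cast : ℤ → ZMod 4) hdet
        rw [hc] at this
        push_cast at this
        rw [show (11 : ZMod 4) = -1 from rfl] at this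
        linear_combination this
      simpa [hgb, hc, show (11 : ZMod 4) = -1 from rfl] using formula4_neg _ _ _ _ hd'
    have hr := rootC_pow_add 4 (formula4 (g 0 0) (g 0 1) (g 1 0) (g 1 1))
      (formula4 (gb 0 0) (gb 0 1) (gb 1 0) (gb 1 1))
    rw [e, ZMod.val_zero, pow_zero] at hr
    linear_combination -(denom g z ^ 6 * etaPow 3 z * etaPow 3 (scaleH 11 z)) * hr
  · rw [eta11_pow, mul_pow, eta11_pow, (hb z).1, etaPow_four_smul, etaPow_four_smul gb, (hb z).2]
    have e : formula3 (g 0 0) (g 0 1) (g 1 0) (g 1 1) +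
        formula3 (gb 0 0) (gb 0 1) (gb 1 0) (gb 1 1) = (0 : ZMod 3) := by
      simp [formula3, hgb, hc, show (11 : ZMod 3) = -1 from rfl]
    have hr := rootC_pow_add 3 (formula3 (g 0 0) (g 0 1) (g 1 0) (g 1 1))
      (formula3 (gb 0 0) (gb 0 1) (gb 1 0) (gb 1 1))
    rw [e, ZMod.val_zero, pow_zero] at hr
    linear_combination -(denom g z ^ 8 * etaPow 4 z * etaPow 4 (scaleH 11 z)) * hr

theorem eta11_slash {g : SL(2, ℤ)} (hg : g ∈ Gamma0 11) : eta11 ∣[(2 : ℤ)] g = eta11 := by
  funext z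
  obtain ⟨h3, h4⟩ := eta11_pow_smul hg z
  have hd : denom g z ≠ 0 := denom_ne_zero _ _
  have h0 : (denom g z ^ 2 * eta11 z) ^ 3 ≠ 0 :=
    pow_ne_zero 3 (mul_ne_zero (pow_ne_zero 2 hd) (eta11_ne_zero z))
  have h : eta11 (g • z) = denom g z ^ 2 * eta11 z :=
    mul_left_cancel₀ h0 (by rw [← pow_succ]; exact (h3 ▸ pow_succ (eta11 (g • z)) 3).symm.trans h4)
  rw [ModularForm.SL_slash_apply, h, zpow_neg, zpow_two]
  field_simp

/-! ### The `q`-series -/

/-- `∏ (1 - qⁿ)`. -/
def prodFun (z : ℍ) : ℂ := ∏' n : ℕ, (1 - qp 1 z ^ (n + 1))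

theorem hasQ_prodFun :
    FA.Eis.HasQ 1 prodFun (ModularCurve.etaProd.map (Int.castRingHom ℂ)) := by
  intro z
  have hq : qp 1 z = 𝕢 (1 : ℝ) (z : ℂ) := by simp [qp]
  have hz : qp 1 z ∈ Metric.ball (0 : ℂ) ((1 : NNReal) : ℝ) := by
    simpa using norm_qp_lt_one 1 z
  have h := Complex.hasSum_taylorSeries_on_ball (c := 0) (r := (1 : NNReal))
    (f := fun q : ℂ => ∏' n : ℕ, (1 - q ^ (n + 1)))
    (by simpa using ModularForm.differentiableOn_tprod_one_sub_pow) hz
  rw [← hq, prodFun]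
  refine h.congr_fun fun n => ?_
  rw [etaProd_taylor, PowerSeries.coeff_map, smul_eq_mul, smul_eq_mul, sub_zero]
  have : (n.factorial : ℂ) ≠ 0 := by exact_mod_cast n.factorial_ne_zero
  field_simp
  simp [mul_comm]

/-- `q ∏ (1 - qⁿ)² (1 - q¹¹ⁿ)²`. -/
def series : PowerSeries ℤ :=
  PowerSeries.X * (ModularCurve.etaProd ^ 2 *
    PowerSeries.expand 11 (by norm_num) (ModularCurve.etaProd ^ 2))

theorem hasQ_eta11 : FA.Eis.HasQ 1 eta11 (series.map (Int.castRingHom ℂ)) := by
  have hX : FA.Eis.HasQ 1 (fun z : ℍ => 𝕢 1 (z : ℂ)) PowerSeries.X := fun z => by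
    convert hasSum_single (f := fun n => PowerSeries.coeff n (PowerSeries.X : PowerSeries ℂ) *
      𝕢 (1 : ℝ) (z : ℂ) ^ n) 1 (fun n hn => by simp [PowerSeries.coeff_X, hn]) using 1
    simp
  have hP := hasQ_prodFun.pow one_pos 2
  have hfun : eta11 = (fun z : ℍ => 𝕢 1 (z : ℂ)) * (prodFun ^ 2 * FA.Eis.dil 11 (prodFun ^ 2)) := by
    funext z
    have hs : FA.Eis.scalePt 11 z = scaleH 11 z := by
      ext; rw [FA.Eis.coe_scalePt, coe_scaleH]
    have e := eta11_pow 1 z
    rw [pow_one, etaPow_eq, etaPow_eq] at e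
    rw [e]
    simp only [Pi.mul_apply, Pi.pow_apply, FA.Eis.dil, hs, prodFun, mul_one]
    rw [show 𝕢 1 (z : ℂ) = cexp (2 * π * I * z * (2 * (1 : ℕ)) / 24) *
        cexp (2 * π * I * (scaleH 11 z : ℍ) * (2 * (1 : ℕ)) / 24) by
      rw [Function.Periodic.qParam, ← Complex.exp_add, coe_scaleH]
      congr 1
      push_cast
      ring]
    ring
  rw [hfun, series, map_mul, map_mul, PowerSeries.map_X, PowerSeries.map_expand, map_pow]
  exact hX.mul one_pos (hP.mul one_pos (hP.dil 11))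

/-- It vanishes at every cusp. -/
theorem eta11_isZero (γ : SL(2, ℤ)) : IsZeroAtImInfty (eta11 ∣[(2 : ℤ)] γ) := by
  obtain ⟨Fa, hFa, hA⟩ := FA.CM.exists_tendsto_scaled 1 γ
  obtain ⟨Fb, hFb, hB⟩ := FA.CM.exists_tendsto_scaled 11 γ
  have h1 : ∀ z : ℍ, scaleH 1 z = z := fun z => by ext; rw [coe_scaleH, Nat.cast_one, one_mul]
  have hpow : ∀ z, (eta11 ∣[(2 : ℤ)] γ) z ^ 12 = Fa z * Fb z := fun z => by
    have hd : denom γ z ≠ 0 := denom_ne_zero _ _
    have hA' := hA z
    rw [h1] at hA'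
    rw [ModularForm.SL_slash_apply, mul_pow, eta11_pow, hA', hB, zpow_neg, zpow_two, inv_pow]
    field_simp
  have h : Tendsto (fun z => ‖(eta11 ∣[(2 : ℤ)] γ) z‖ ^ 12) atImInfty (𝓝 0) := by
    simp only [← norm_pow, hpow]
    simpa using (hFa.mul hFb).norm
  show Tendsto _ _ _
  rw [tendsto_zero_iff_norm_tendsto_zero]
  have := h.rpow_const (p := ((12 : ℕ) : ℝ)⁻¹) (Or.inr (by positivity))
  rw [Real.zero_rpow (by norm_num)] at this
  exact this.congr fun z => Real.pow_rpow_inv_natCast (norm_nonneg _) (by norm_num)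

/-- **The cusp form of level 11.** -/
def formEleven : CuspForm (Gamma0 11) 2 where
  toFun := eta11
  slash_action_eq' := by
    rintro _ ⟨M, hM, rfl⟩
    exact eta11_slash hM
  holo' := hasQ_eta11.mdiff one_pos
  zero_at_cusps' := fun hc => by
    rw [Subgroup.IsArithmetic.isCusp_iff_isCusp_SL2Z] at hc
    exact (OnePoint.isZeroAt_iff_forall_SL2Z hc).mpr fun M _ => eta11_isZero M

theorem qCoeff_formEleven (n : ℕ) :
    ModularFormClass.qCoeff formEleven n = ((PowerSeries.coeff n series : ℤ) : ℂ) := by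
  show PowerSeries.coeff n (UpperHalfPlane.qExpansion 1 eta11) = _
  rw [hasQ_eta11.qExpansion_eq one_pos, PowerSeries.coeff_map]
  rfl

theorem coeff_series_one : PowerSeries.coeff 1 series = 1 := by
  rw [series, PowerSeries.coeff_succ_X_mul, PowerSeries.coeff_zero_eq_constantCoeff, map_mul,
    PowerSeries.constantCoeff_expand, map_pow, ModularCurve.constantCoeff_etaProd]
  norm_num

/-! ### The identification -/

theorem badProd_curve11 : FA.Theta.badProd FA.Ribet.curve11 = 11 := by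
  rw [FA.Theta.badProd, FA.Ribet.curve11_Δ, show (-11 : ℤ).natAbs = 11 from rfl,
    Nat.Prime.primeFactors (by norm_num), Finset.prod_singleton]

/-- **It is the newform of `y² + y = x³ - x²`.** -/
theorem qCoeff_eq_LFunction (n : ℕ) :
    ModularFormClass.qCoeff formEleven n =
      ((FA.Ribet.curve11.map (Int.castRingHom ℚ)).LFunction n : ℂ) := by
  haveI : (FA.Ribet.curve11.map (Int.castRingHom ℚ)).IsElliptic :=
    FA.Frob.ratCurve_isElliptic_of_Δ (by decide)
  have key : ∀ N : ℕ, N = FA.Theta.badProd FA.Ribet.curve11 → ∃ f : CuspForm (Gamma0 N) 2,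
      f.IsNormalizedEigenform ∧ ∀ n : ℕ, ModularFormClass.qCoeff f n =
        ((FA.Ribet.curve11.map (Int.castRingHom ℚ)).LFunction n : ℂ) := by
    rintro N rfl
    exact FA.Root.exists_newform_LFunction_of_model _ ⟨1, one_smul _ _⟩
      (FA.Ribet.semistable_of_Δ (q := 11) (i := 0) (j := 1) (by norm_num) (by decide) (Or.inl rfl)
        (by decide))
  obtain ⟨f, hf, hn⟩ := key 11 badProd_curve11.symm
  have hdim : Module.finrank ℂ (CuspForm (Gamma0 11) 2) = 1 := by
    have h20 := (Fermat.Agent.S20.result 11).trans FA.Ribet.genusFormula_11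
    exact_mod_cast h20
  obtain ⟨x, hx⟩ := (finrank_eq_one_iff_of_nonzero' f hf.ne_zero).mp hdim formEleven
  have h1 := qCoeff_formEleven 1
  rw [coeff_series_one, ← hx, ← FA.Deform.qLin_apply, map_smul, Pi.smul_apply, smul_eq_mul,
    FA.Deform.qLin_apply, hf.qCoeff_one, mul_one, Int.cast_one] at h1
  rw [← hx, h1, one_smul, hn]

theorem LFunction_eq_series (n : ℕ) :
    (⟨0, -1, 1, 0, 0⟩ : WeierstrassCurve ℚ).LFunction n = PowerSeries.coeff n series := by
  have h := (qCoeff_eq_LFunction n).symm.trans (qCoeff_formEleven n)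
  rw [show (⟨0, -1, 1, 0, 0⟩ : WeierstrassCurve ℚ) =
    FA.Ribet.curve11.map (Int.castRingHom ℚ) by ext <;> simp [FA.Ribet.curve11]]
  exact_mod_cast h

/-! ### Finite products -/

/-- The infinite product agrees with a finite one up to the exponent of its last factor. -/
theorem coeff_etaProd {n m : ℕ} (h : n ≤ m) : PowerSeries.coeff n ModularCurve.etaProd =
    PowerSeries.coeff n (∏ k ∈ Finset.range m, ((1 : PowerSeries ℤ) - PowerSeries.X ^ (k + 1))) := by
  classical
  open scoped PowerSeries.WithPiTopology in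
  have h1 : HasProd (fun n : ℕ => (1 : PowerSeries ℤ) - PowerSeries.X ^ (n + 1))
      ModularCurve.etaProd := (PowerSeries.WithPiTopology.multipliable_one_sub_X_pow ℤ).hasProd
  open scoped PowerSeries.WithPiTopology in
  refine tendsto_nhds_unique
    (((PowerSeries.WithPiTopology.continuous_coeff ℤ n).tendsto _).comp h1) ?_
  refine tendsto_const_nhds.congr' ?_
  filter_upwards [Filter.eventually_ge_atTop (Finset.range m)] with s hs
  show _ = PowerSeries.coeff n (∏ k ∈ s, _)
  rw [← Finset.prod_sdiff hs]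
  obtain ⟨R, hR⟩ : (PowerSeries.X : PowerSeries ℤ) ^ (n + 1) ∣
      (∏ k ∈ s \ Finset.range m, ((1 : PowerSeries ℤ) - PowerSeries.X ^ (k + 1))) - 1 := by
    refine Finset.prod_induction _
      (fun x => (PowerSeries.X : PowerSeries ℤ) ^ (n + 1) ∣ x - 1) (fun a b ha hb => ?_) (by simp)
      fun k hk => ?_
    · rw [show a * b - 1 = a * (b - 1) + (a - 1) by ring]
      exact dvd_add (hb.mul_left a) ha
    · rw [sub_sub_cancel_left, dvd_neg]
      simp only [Finset.mem_sdiff, Finset.mem_range, not_lt] at hk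
      exact pow_dvd_pow _ (by omega)
  rw [sub_eq_iff_eq_add] at hR
  rw [hR, add_mul, one_mul, map_add, mul_assoc, PowerSeries.coeff_X_pow_mul',
    if_neg (by omega), zero_add]

/-- A coefficient of a product depends only on the coefficients up to it. -/
theorem coeff_mul_congr {R : Type*} [Semiring R] {A B C D : PowerSeries R} {n : ℕ}
    (h : ∀ i ≤ n, PowerSeries.coeff i A = PowerSeries.coeff i B)
    (h' : ∀ i ≤ n, PowerSeries.coeff i C = PowerSeries.coeff i D) :
    PowerSeries.coeff n (A * C) = PowerSeries.coeff n (B * D) := by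
  rw [PowerSeries.coeff_mul, PowerSeries.coeff_mul]
  refine Finset.sum_congr rfl fun x hx => ?_
  have := Finset.HasAntidiagonal.mem_antidiagonal.mp hx
  rw [h x.1 (by omega), h' x.2 (by omega)]

end FA.EtaEleven

end
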