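import Fermat.Agent.CM.Order
import Fermat.Agent.CM.OrderTwelve
import Fermat.Agent.CM.OrderThree
import Fermat.Agent.CM.Quartic.Modular1728
import Fermat.Agent.CM.Cubic.ModularJZero
import Fermat.Agent.CM.Seven.ModularSeven
import Fermat.Agent.CM.Eight.ModularEight
import Fermat.Agent.CM.Eleven.ModularEleven
import Fermat.Agent.CM.Nineteen.ModularNineteen
import Fermat.Agent.CM.ClassOne.Main
import Fermat.Agent.Root.SummaryTwistCriterion
import Mathlib.NumberTheory.LSeries.PrimesInAP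

/-!
# Supersingular primes of the curves with complex multiplication

For the thirteen values of `j` of the orders of discriminant `d₀ f²` of class number one, the
coefficient `a_p` of the L-function vanishes at every prime `p` at which `d₀` is not a square, that
is at every odd prime inert in `ℚ(√d₀)`. By Dirichlet's theorem these curves have infinitely many
primes of good reduction with `a_p = 0`, that is of supersingular reduction.
-/

set_option autoImplicit false

noncomputable section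

open WeierstrassCurve FA.Twists

namespace FA.CM.Supersingular

theorem mod_three_of_not_isSquare {p : ℕ} (hp : p.Prime)
    (h : ¬ IsSquare ((-3 : ℤ) : ZMod p)) : p % 3 = 2 := by
  have := Fact.mk hp
  have h2 : p ≠ 2 := by rintro rfl; exact h (by decide)
  have h3 : p ≠ 3 := by rintro rfl; exact h (by decide)
  have : Fact (Nat.Prime 3) := ⟨Nat.prime_three⟩
  have hj : jacobiSym (p : ℤ) 3 = -1 := by
    rw [← FA.CM.PrimeSymbols.jacobiSym_neg_prime (p := 3) rfl (hp.odd_of_ne_two h2),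
      ← jacobiSym.legendreSym.to_jacobiSym]
    exact (legendreSym.eq_neg_one_iff p).mpr h
  rw [jacobiSym.mod_left] at hj
  rcases (show p % 3 = 0 ∨ p % 3 = 1 ∨ p % 3 = 2 by omega) with e | e | e
  · exact absurd ((Nat.prime_dvd_prime_iff_eq Nat.prime_three hp).mp
      (Nat.dvd_of_mod_eq_zero e)).symm h3
  · rw [show ((p : ℤ) % ((3 : ℕ) : ℤ)) = 1 by omega] at hj; norm_num at hj
  · exact e

theorem mod_four_of_not_isSquare {p : ℕ} (hp : p.Prime)
    (h : ¬ IsSquare ((-4 : ℤ) : ZMod p)) : p % 4 = 3 := by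
  have := Fact.mk hp
  by_contra hne
  obtain ⟨c, hc⟩ := ZMod.exists_sq_eq_neg_one_iff.mpr hne
  exact h ⟨2 * c, by push_cast; linear_combination (4 : ZMod p) * hc⟩

theorem coeff_eq_zero_1728 (E : WeierstrassCurve ℚ) [E.IsElliptic] (hj : E.j = 1728) {p : ℕ}
    (hp : p.Prime) (h : ¬ IsSquare ((-4 : ℤ) : ZMod p)) : E.LFunction p = 0 := by
  have := Fact.mk hp
  obtain ⟨D, x, hD, hfree, hx, h4, h6⟩ := FA.CM.Quartic.exists_invariants_of_j_eq_1728 E hj
  obtain ⟨φ, hφ⟩ := FA.CM.Quartic.exists_isWeight (D := 4 * D ^ 3)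
    (mul_ne_zero (by norm_num) (pow_ne_zero 3 hD))
  have hs : FA.CM.Quartic.primarySum φ (p * 1) = 0 := by
    by_cases hpD : (p : ℤ) ∣ 4 * D ^ 3
    · exact FA.CM.Quartic.primarySum_bad hφ hp (Or.inr hpD) 1
    · simpa [hp.ne_one] using
        FA.CM.Quartic.primarySum_inert hφ (mod_four_of_not_isSquare hp h) hpD 1
  have e := FA.CM.Quartic.LFunction_eq_primarySum hD hfree hx h4 h6 hφ p
  rw [← mul_one p, hs, mul_one] at e
  exact_mod_cast e

theorem coeff_eq_zero_zero (E : WeierstrassCurve ℚ) [E.IsElliptic] (h4 : E.c₄ = 0) {p : ℕ}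
    (hp : p.Prime) (h : ¬ IsSquare ((-3 : ℤ) : ZMod p)) : E.LFunction p = 0 := by
  have := Fact.mk hp
  have h6 : E.c₆ ≠ 0 := fun h' => E.isUnit_Δ.ne_zero (by
    have := E.c_relation; rw [h4, h'] at this; linarith)
  obtain ⟨c, z, hc, hfree, hz, hc6⟩ := FA.CM.Cubic.exists_invariants_of_c₄ E h6
  obtain ⟨D, t, hD, ht, rfl⟩ := exists_squarefree_mul_sq hz
  obtain ⟨q, ψ, -, -, -, -, hval⟩ := exists_twistSign_char hD
  obtain ⟨φ, hφ⟩ := FA.CM.Cubic.exists_isWeight (pow_ne_zero 2 hc)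
  have hs : FA.CM.Cubic.primarySum φ (p * 1) = 0 := by
    by_cases hpc : (p : ℤ) ∣ c ^ 2
    · exact FA.CM.Cubic.primarySum_bad hφ hp (Or.inr hpc) 1
    · simpa [hp.ne_one] using
        FA.CM.Cubic.primarySum_inert hφ (mod_three_of_not_isSquare hp h) hpc 1
  have e := FA.CM.Cubic.LFunction_eq_primarySum hfree hφ (p * 1)
  rw [hs, mul_one] at e
  have e0 : (FA.CM.Cubic.jZeroModel (c : ℚ)).LFunction p = 0 := by exact_mod_cast e
  have := FA.CM.Cubic.LFunction_twist_jZero E hfree hc hD ht h4 hc6 ψ hval p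
  rw [e0, Int.cast_zero, mul_zero] at this
  exact_mod_cast this

theorem coeff_eq_zero_54000 (E : WeierstrassCurve ℚ) [E.IsElliptic] (hj : E.j = 54000) {p : ℕ}
    (hp : p.Prime) (h : ¬ IsSquare ((-3 : ℤ) : ZMod p)) : E.LFunction p = 0 := by
  obtain ⟨d, hd, hL⟩ := FA.CM.exists_mordell_of_j_eq_54000 E hj
  have : (⟨0, 0, 0, 0, d ^ 3⟩ : WeierstrassCurve ℚ).IsElliptic :=
    ⟨isUnit_iff_ne_zero.mpr (by
      simp only [WeierstrassCurve.Δ, b₂, b₄, b₆, b₈]; ring_nf; simp [hd])⟩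
  rw [hL]
  exact coeff_eq_zero_zero _ (FA.CM.mordell_invariants _).1 hp h

theorem coeff_eq_zero_neg_12288000 (E : WeierstrassCurve ℚ) [E.IsElliptic]
    (hj : E.j = -12288000) {p : ℕ} (hp : p.Prime) (h : ¬ IsSquare ((-3 : ℤ) : ZMod p)) :
    E.LFunction p = 0 := by
  obtain ⟨E', z, hz, h4, h6, hL⟩ := FA.CM.exists_twist27_of_j_eq E hj
  have : E'.IsElliptic := ⟨isUnit_iff_ne_zero.mpr fun h0 => by
    have := E'.c_relation
    rw [h0, h4, h6] at this
    have : z ^ 6 = 0 := by linarith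
    exact hz (pow_eq_zero_iff (by norm_num) |>.mp this)⟩
  rw [hL]
  exact coeff_eq_zero_zero E' h4 hp h

theorem coeff_eq_zero_287496 (E : WeierstrassCurve ℚ) [E.IsElliptic] (hj : E.j = 287496) {p : ℕ}
    (hp : p.Prime) (h : ¬ IsSquare ((-4 : ℤ) : ZMod p)) : E.LFunction p = 0 := by
  obtain ⟨m, hm, hL⟩ := FA.CM.exists_congruentCurve_of_j_eq E hj
  have : (FA.CM.congruentCurve m).IsElliptic := ⟨isUnit_iff_ne_zero.mpr (by
    simp only [WeierstrassCurve.Δ, b₂, b₄, b₆, b₈]; ring_nf; simp [hm])⟩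
  rw [hL]
  refine coeff_eq_zero_1728 _ ?_ hp h
  rw [WeierstrassCurve.j, Units.val_inv_eq_inv_val, coe_Δ', inv_mul_eq_iff_eq_mul₀
    (FA.CM.congruentCurve m).isUnit_Δ.ne_zero]
  simp only [c₄, WeierstrassCurve.Δ, b₂, b₄, b₆, b₈]
  ring

theorem coeff_eq_zero_seven (E : WeierstrassCurve ℚ) [E.IsElliptic]
    (hj : E.j = -3375 ∨ E.j = 16581375) {p : ℕ} (hp : p.Prime)
    (h : ¬ IsSquare ((-7 : ℤ) : ZMod p)) : E.LFunction p = 0 := by
  have : Fact (Nat.Prime 7) := ⟨Nat.prime_seven⟩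
  obtain ⟨W, hW, h4W, h6W, hjW⟩ : ∃ W : WeierstrassCurve ℤ,
      (W = FA.CM.Seven.curveA ∨ W = FA.CM.Seven.curveB) ∧
        W.c₄ ≠ 0 ∧ W.c₆ ≠ 0 ∧ (W.c₄ : ℚ) ^ 3 = E.j * (W.Δ : ℚ) := by
    obtain ⟨a4, a6, aΔ⟩ := FA.CM.Seven.curveA_invariants
    obtain ⟨b4, b6, bΔ⟩ := FA.CM.Seven.curveB_invariants
    rcases hj with hj | hj
    · exact ⟨_, Or.inl rfl, by rw [a4]; decide, by rw [a6]; decide,
        by rw [hj, a4, aΔ]; norm_num⟩
    · exact ⟨_, Or.inr rfl, by rw [b4]; decide, by rw [b6]; decide,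
        by rw [hj, b4, bΔ]; norm_num⟩
  obtain ⟨x, D, hD, hx, h4, h6⟩ := FA.CM.exists_twist_of_j E W h4W h6W hjW
  obtain ⟨q, ψ, -, -, -, -, hval⟩ := exists_twistSign_char hD
  have e := FA.CM.Seven.LFunction_seven_twist hW E hD hx h4 h6 ψ hval p
  have hs := FA.CM.OddOrder.oddCoeff_inert 7 (m := 2) hp
    (by rintro rfl; exact h ⟨0, rfl⟩) (Or.inl (by simpa using h)) 1
  rw [if_neg (by simpa using hp.ne_one), add_zero, mul_one] at hs
  rw [hs, mul_zero] at e
  exact_mod_cast e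

theorem coeff_eq_zero_eight (E : WeierstrassCurve ℚ) [E.IsElliptic] (hj : E.j = 8000) {p : ℕ}
    (hp : p.Prime) (h : ¬ IsSquare ((-8 : ℤ) : ZMod p)) : E.LFunction p = 0 := by
  obtain ⟨e4, e6, eΔ⟩ := FA.CM.Eight.curveEight_invariants
  obtain ⟨x, D, hD, hx, h4, h6⟩ := FA.CM.exists_twist_of_j E FA.CM.Eight.curveEight
    (by rw [e4]; decide) (by rw [e6]; decide) (by rw [hj, e4, eΔ]; norm_num)
  obtain ⟨q, ψ, -, -, -, -, hval⟩ := exists_twistSign_char hD
  have e := FA.CM.Eight.LFunction_eight_twist E hD hx h4 h6 ψ hval p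
  have hs := FA.CM.Eight.eightCoeff_inert hp (by rintro rfl; exact h ⟨0, by decide⟩)
    (fun ⟨r, hr⟩ => h ⟨2 * r, by push_cast; linear_combination (4 : ZMod p) * hr⟩) 1
  rw [if_neg (by simpa using hp.ne_one), add_zero, mul_one] at hs
  rw [hs, mul_zero] at e
  exact_mod_cast e

theorem coeff_eq_zero_classOne {q n : ℕ} [Fact q.Prime] (hqn : q + 1 = 4 * n) (hodd : Odd n)
    (h2n : 2 ≤ n) {W : WeierstrassCurve ℤ} (hΔ : W.Δ = -(q : ℤ) ^ 3) (hc4 : (q : ℤ) ∣ W.c₄)
    (h4W : W.c₄ ≠ 0) (h6W : W.c₆ ≠ 0) (hlaw : FA.CM.ClassOne.TraceLaw q W) (E : WeierstrassCurve ℚ)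
    [E.IsElliptic] (hj : (W.c₄ : ℚ) ^ 3 = E.j * (W.Δ : ℚ)) {p : ℕ} (hp : p.Prime)
    (h : ¬ IsSquare ((-(q : ℤ)) : ZMod p)) : E.LFunction p = 0 := by
  have := Fact.mk hqn
  have : NeZero n := ⟨by omega⟩
  obtain ⟨x, D, hD, hx, h4, h6⟩ := FA.CM.exists_twist_of_j E W h4W h6W hj
  obtain ⟨r, ψ, -, -, -, -, hval⟩ := exists_twistSign_char hD
  have e := FA.CM.ClassOne.LFunction_twist hodd h2n hΔ hc4 hlaw E hD hx h4 h6 ψ hval p
  have hpq : p ≠ q := by rintro rfl; exact h ⟨0, by simp⟩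
  have hs := FA.CM.OddOrder.oddCoeff_inert q (m := n) hp hpq (Or.inl (by simpa using h)) 1
  rw [if_neg (by simpa using hp.ne_one), add_zero, mul_one] at hs
  rw [hs, mul_zero] at e
  exact_mod_cast e

theorem coeff_eq_zero_eleven (E : WeierstrassCurve ℚ) [E.IsElliptic] (hj : E.j = -32768) {p : ℕ}
    (hp : p.Prime) (h : ¬ IsSquare ((-11 : ℤ) : ZMod p)) : E.LFunction p = 0 :=
  haveI := Fact.mk FA.CM.Eleven.prime_eleven_arith
  coeff_eq_zero_classOne (q := 11) (n := 3) (W := FA.CM.Eleven.curveEleven) (by norm_num) (by decide)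
    (by norm_num) (by rw [FA.CM.Eleven.curveEleven_invariants.2.2]; norm_num)
    (by rw [FA.CM.Eleven.curveEleven_invariants.1]; norm_num)
    (by rw [FA.CM.Eleven.curveEleven_invariants.1]; decide)
    (by rw [FA.CM.Eleven.curveEleven_invariants.2.1]; decide) FA.CM.Eleven.traceLaw_eleven E
    (by rw [hj, FA.CM.Eleven.curveEleven_invariants.1, FA.CM.Eleven.curveEleven_invariants.2.2]; norm_num) hp
    (by simpa using h)

theorem coeff_eq_zero_nineteen (E : WeierstrassCurve ℚ) [E.IsElliptic] (hj : E.j = -884736)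
    {p : ℕ} (hp : p.Prime) (h : ¬ IsSquare ((-19 : ℤ) : ZMod p)) : E.LFunction p = 0 :=
  haveI := Fact.mk FA.CM.Nineteen.prime_nineteen_arith
  coeff_eq_zero_classOne (q := 19) (n := 5) (W := FA.CM.Nineteen.curveNineteen) (by norm_num) (by decide)
    (by norm_num) (by rw [FA.CM.Nineteen.curveNineteen_invariants.2.2]; norm_num)
    (by rw [FA.CM.Nineteen.curveNineteen_invariants.1]; norm_num)
    (by rw [FA.CM.Nineteen.curveNineteen_invariants.1]; decide)
    (by rw [FA.CM.Nineteen.curveNineteen_invariants.2.1]; decide) FA.CM.Nineteen.traceLaw_nineteen E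
    (by rw [hj, FA.CM.Nineteen.curveNineteen_invariants.1, FA.CM.Nineteen.curveNineteen_invariants.2.2]; norm_num) hp
    (by simpa using h)

theorem coeff_eq_zero_fortyThree (E : WeierstrassCurve ℚ) [E.IsElliptic] (hj : E.j = -884736000)
    {p : ℕ} (hp : p.Prime) (h : ¬ IsSquare ((-43 : ℤ) : ZMod p)) : E.LFunction p = 0 :=
  haveI := Fact.mk FA.CM.ClassOne.prime_fortyThree
  coeff_eq_zero_classOne (q := 43) (n := 11) (W := ⟨0, 0, 1, -860, 9707⟩) (by norm_num) (by decide)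
    (by norm_num) (by norm_num [WeierstrassCurve.Δ, b₂, b₄, b₆, b₈])
    ⟨960, by norm_num [c₄, b₂, b₄]⟩ (by norm_num [c₄, b₂, b₄]) (by norm_num [c₆, b₂, b₄, b₆])
    FA.CM.ClassOne.traceLaw_fortyThree
    E (by rw [hj]; norm_num [c₄, WeierstrassCurve.Δ, b₂, b₄, b₆, b₈]) hp (by simpa using h)

theorem coeff_eq_zero_sixtySeven (E : WeierstrassCurve ℚ) [E.IsElliptic]
    (hj : E.j = -147197952000) {p : ℕ} (hp : p.Prime) (h : ¬ IsSquare ((-67 : ℤ) : ZMod p)) :
    E.LFunction p = 0 :=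
  haveI := Fact.mk FA.CM.ClassOne.prime_sixtySeven
  coeff_eq_zero_classOne (q := 67) (n := 17) (W := ⟨0, 0, 1, -7370, 243528⟩) (by norm_num)
    (by decide) (by norm_num) (by norm_num [WeierstrassCurve.Δ, b₂, b₄, b₆, b₈])
    ⟨5280, by norm_num [c₄, b₂, b₄]⟩ (by norm_num [c₄, b₂, b₄]) (by norm_num [c₆, b₂, b₄, b₆])
    FA.CM.ClassOne.traceLaw_sixtySeven
    E (by rw [hj]; norm_num [c₄, WeierstrassCurve.Δ, b₂, b₄, b₆, b₈]) hp (by simpa using h)

theorem coeff_eq_zero_oneSixtyThree (E : WeierstrassCurve ℚ) [E.IsElliptic]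
    (hj : E.j = -262537412640768000) {p : ℕ} (hp : p.Prime)
    (h : ¬ IsSquare ((-163 : ℤ) : ZMod p)) : E.LFunction p = 0 :=
  haveI := Fact.mk FA.CM.ClassOne.prime_oneSixtyThree
  coeff_eq_zero_classOne (q := 163) (n := 41) (W := ⟨0, 0, 1, -2174420, 1234136692⟩) (by norm_num)
    (by decide) (by norm_num) (by norm_num [WeierstrassCurve.Δ, b₂, b₄, b₆, b₈])
    ⟨640320, by norm_num [c₄, b₂, b₄]⟩ (by norm_num [c₄, b₂, b₄]) (by norm_num [c₆, b₂, b₄, b₆])
    FA.CM.ClassOne.traceLaw_oneSixtyThree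
    E (by rw [hj]; norm_num [c₄, WeierstrassCurve.Δ, b₂, b₄, b₆, b₈]) hp (by simpa using h)

/-- A residue class in which `d` is no square gives arbitrarily large such primes. -/
theorem exists_prime_not_isSquare {d : ℤ} {a : ℕ} (ha : a.Coprime (4 * d.natAbs)) (hao : Odd a)
    (hd : jacobiSym d a = -1) (B : ℕ) :
    ∃ p : ℕ, B < p ∧ p.Prime ∧ ¬ IsSquare ((d : ℤ) : ZMod p) := by
  have hd0 : 4 * d.natAbs ≠ 0 := fun h => by
    have : d = 0 := by omega
    subst this
    simp at ha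
    subst ha
    norm_num at hd
  obtain ⟨p, hp, hpp, hmod⟩ := Nat.forall_exists_prime_gt_and_modEq (max B 2) hd0 ha
  have := Fact.mk hpp
  refine ⟨p, by omega, hpp, ZMod.nonsquare_of_jacobiSym_eq_neg_one ?_⟩
  rw [jacobiSym.mod_right _ (hpp.odd_of_ne_two (by omega)),
    show p % (4 * d.natAbs) = a % (4 * d.natAbs) from hmod, ← jacobiSym.mod_right _ hao, hd]

end FA.CM.Supersingular

namespace FA.Summary

open FA.CM.Supersingular

/-- **Vanishing at the inert primes**: for a curve with one of these CM values of `j`, paired with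
the discriminant `d` of the field, `a_p = 0` at every prime modulo which `d` is no square. -/
theorem lFunction_eq_zero_of_inert (E : WeierstrassCurve ℚ) [E.IsElliptic] {d : ℤ}
    (hd : (E.j, d) ∈ ({(0, -3), (54000, -3), (-12288000, -3), (1728, -4), (287496, -4),
      (-3375, -7), (16581375, -7), (8000, -8), (-32768, -11), (-884736, -19), (-884736000, -43),
      (-147197952000, -67), (-262537412640768000, -163)} : Finset (ℚ × ℤ)))
    {p : ℕ} (hp : p.Prime) (h : ¬ IsSquare ((d : ℤ) : ZMod p)) : E.LFunction p = 0 := by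
  simp only [Finset.mem_insert, Finset.mem_singleton, Prod.mk.injEq] at hd
  rcases hd with ⟨hj, rfl⟩ | ⟨hj, rfl⟩ | ⟨hj, rfl⟩ | ⟨hj, rfl⟩ | ⟨hj, rfl⟩ | ⟨hj, rfl⟩ |
    ⟨hj, rfl⟩ | ⟨hj, rfl⟩ | ⟨hj, rfl⟩ | ⟨hj, rfl⟩ | ⟨hj, rfl⟩ | ⟨hj, rfl⟩ | ⟨hj, rfl⟩
  · exact coeff_eq_zero_zero E (E.j_eq_zero_iff.mp hj) hp h
  · exact coeff_eq_zero_54000 E hj hp h
  · exact coeff_eq_zero_neg_12288000 E hj hp h
  · exact coeff_eq_zero_1728 E hj hp h
  · exact coeff_eq_zero_287496 E hj hp h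
  · exact coeff_eq_zero_seven E (Or.inl hj) hp h
  · exact coeff_eq_zero_seven E (Or.inr hj) hp h
  · exact coeff_eq_zero_eight E hj hp h
  · exact coeff_eq_zero_eleven E hj hp h
  · exact coeff_eq_zero_nineteen E hj hp h
  · exact coeff_eq_zero_fortyThree E hj hp h
  · exact coeff_eq_zero_sixtySeven E hj hp h
  · exact coeff_eq_zero_oneSixtyThree E hj hp h

/-- **Infinitely many supersingular primes**: a curve with complex multiplication, that is with
one of the thirteen invariants, has infinitely many primes `p` of good reduction with `a_p = 0`. -/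
theorem infinite_supersingular_primes (E : WeierstrassCurve ℚ) [E.IsElliptic]
    (hj : E.j ∈ ({0, 54000, -12288000, 1728, 287496, -3375, 16581375, 8000, -32768, -884736,
      -884736000, -147197952000, -262537412640768000} : Finset ℚ)) :
    {p : ℕ | ∃ _ : Fact p.Prime, (∃ C : VariableChange ℚ_[p],
        HasGoodReduction ℤ_[p] (C • E.map (algebraMap ℚ ℚ_[p]))) ∧ E.LFunction p = 0}.Infinite := by
  obtain ⟨d, a, hd, ha, hao, hJ⟩ : ∃ (d : ℤ) (a : ℕ), (E.j, d) ∈ ({(0, -3), (54000, -3),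
      (-12288000, -3), (1728, -4), (287496, -4), (-3375, -7), (16581375, -7), (8000, -8),
      (-32768, -11), (-884736, -19), (-884736000, -43), (-147197952000, -67),
      (-262537412640768000, -163)} : Finset (ℚ × ℤ)) ∧
        a.Coprime (4 * d.natAbs) ∧ Odd a ∧ jacobiSym d a = -1 := by
    simp only [Finset.mem_insert, Finset.mem_singleton] at hj
    rcases hj with hj | hj | hj | hj | hj | hj | hj | hj | hj | hj | hj | hj | hj
    · exact ⟨-3, 5, by simp [hj], by decide, by decide, by norm_num⟩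
    · exact ⟨-3, 5, by simp [hj], by decide, by decide, by norm_num⟩
    · exact ⟨-3, 5, by simp [hj], by decide, by decide, by norm_num⟩
    · exact ⟨-4, 3, by simp [hj], by decide, by decide, by norm_num⟩
    · exact ⟨-4, 3, by simp [hj], by decide, by decide, by norm_num⟩
    · exact ⟨-7, 3, by simp [hj], by decide, by decide, by norm_num⟩
    · exact ⟨-7, 3, by simp [hj], by decide, by decide, by norm_num⟩
    · exact ⟨-8, 5, by simp [hj], by decide, by decide, by norm_num⟩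
    · exact ⟨-11, 7, by simp [hj], by decide, by decide, by norm_num⟩
    · exact ⟨-19, 3, by simp [hj], by decide, by decide, by norm_num⟩
    · exact ⟨-43, 3, by simp [hj], by decide, by decide, by norm_num⟩
    · exact ⟨-67, 3, by simp [hj], by decide, by decide, by norm_num⟩
    · exact ⟨-163, 3, by simp [hj], by decide, by decide, by norm_num⟩
  obtain ⟨W, hW⟩ := FA.Frob.exists_integralModel E
  have hW0 := FA.Frob.Δ_ne_zero_of_model hW
  refine Set.infinite_of_forall_exists_gt fun B => ?_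
  obtain ⟨p, hB, hp, hns⟩ := exists_prime_not_isSquare ha hao hJ (max B W.Δ.natAbs)
  have := Fact.mk hp
  have hgood : ¬ (p : ℤ) ∣ W.Δ := fun h => by
    have := Nat.le_of_dvd (Int.natAbs_pos.mpr hW0) (Int.natCast_dvd.mp h)
    omega
  exact ⟨p, ⟨this, FA.Root.exists_good_of_model hW p hgood,
    lFunction_eq_zero_of_inert E hd hp hns⟩, by omega⟩

end FA.Summary

end
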