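import Fermat.Agent.Root.SummarySerreDichotomy
import Fermat.Agent.Root.SummarySupersingular
import Fermat.Agent.Supersingular.Dihedral

/-!
# The density of supersingular primes is zero or one half

For every elliptic curve over `ℚ`, whatever its invariant, either every value of `a_p` is taken on
a set of primes of Dirichlet density zero, so the ordinary primes have density one, or there is a
unique quadratic field with `a_p = 0` at its inert good primes, and then the supersingular and the
ordinary primes have density one half each. (That the second case is exactly complex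
multiplication is not formalised.)
-/

set_option autoImplicit false
set_option linter.style.haveILetI false

noncomputable section

open NumberField IsDedekindDomain WeierstrassCurve WeierstrassCurve.Affine FA.EC FA.Frob FA.RT
open scoped WeierstrassCurve.Affine

local notation "Qb" => AlgebraicClosure ℚ
local notation "GQ" => AlgebraicClosure ℚ ≃ₐ[ℚ] AlgebraicClosure ℚ

namespace FA.Supersingular

/-- The hypothesis on the curve, on an integral equation. -/
theorem inertVanish_of_curve {E : WeierstrassCurve ℚ} [E.IsElliptic] {W : WeierstrassCurve ℤ}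
    [(ratCurve W).IsElliptic] (hW : W.IsIntegralModelOf E) {d : ℤ}
    (h : ∀ l : ℕ, ∀ [Fact l.Prime],
      (∃ C : VariableChange ℚ_[l],
        HasGoodReduction ℤ_[l] (C • E.map (algebraMap ℚ ℚ_[l]))) →
      ¬ IsSquare (d : ZMod l) → E.LFunction l = 0) :
    InertVanish W d := fun l hl hgood hns => by
  haveI := Fact.mk hl
  have hC : ∃ C : VariableChange ℚ_[l],
      HasGoodReduction ℤ_[l] (C • E.map (algebraMap ℚ ℚ_[l])) := by
    obtain ⟨C, hC⟩ := FA.Root.exists_good_of_not_dvd W l hgood
    obtain ⟨C₀, h₀⟩ := hW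
    exact ⟨C * C₀.map (algebraMap ℚ ℚ_[l]),
      by rwa [mul_smul, WeierstrassCurve.map_variableChange, h₀]⟩
  have h0 := h l hC hns
  rw [FA.Root.LFunction_apply_prime E W hW hl hgood] at h0
  exact_mod_cast h0

/-- The traces vanishing at the inert primes of a field give density one half to `a = 0`. -/
theorem trace_zero_density_half (E : WeierstrassCurve ℚ) [E.IsElliptic] {d : ℤ}
    (hd : Squarefree d) (hd1 : d ≠ 1)
    (h : ∀ l : ℕ, ∀ [Fact l.Prime],
      (∃ C : VariableChange ℚ_[l],
        HasGoodReduction ℤ_[l] (C • E.map (algebraMap ℚ ℚ_[l]))) →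
      ¬ IsSquare (d : ZMod l) → E.LFunction l = 0) :
    {v : HeightOneSpectrum (𝓞 ℚ) | E.LFunction (Ideal.absNorm v.asIdeal) = 0}.HasDirichletDensity
      (1 / 2) := by
  obtain ⟨W, hW⟩ := FA.Frob.exists_integralModel E
  have hΔ := FA.Frob.Δ_ne_zero_of_model hW
  haveI := FA.Frob.ratCurve_isElliptic_of_Δ hΔ
  have hiff : ∀ v : HeightOneSpectrum (𝓞 ℚ), Ideal.absNorm v.asIdeal ∉ W.Δ.natAbs.primeFactors →
      (E.LFunction (Ideal.absNorm v.asIdeal) = 0 ↔
        W.apOfModel (Ideal.absNorm v.asIdeal) = 0) := fun v hv => by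
    have hq := FA.Chebotarev.absNorm_prime v
    rw [FA.Root.LFunction_apply_prime E W hW hq fun hd' => hv (Nat.mem_primeFactors.mpr
      ⟨hq, Int.natCast_dvd.mp hd', Int.natAbs_ne_zero.mpr hΔ⟩)]
  exact FA.Chebotarev.hasDirichletDensity_congr
    ((finite_absNorm_mem W.Δ.natAbs.primeFactors).subset fun v hv =>
      by_contra fun hn => hv.2 ((hiff v hn).mp hv.1))
    ((finite_absNorm_mem W.Δ.natAbs.primeFactors).subset fun v hv =>
      by_contra fun hn => hv.2 ((hiff v hn).mpr hv.1))
    (density_half_of_inertVanish hd hd1 (inertVanish_of_curve hW h))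

end FA.Supersingular

namespace FA.Summary

open FA.Supersingular

/-- **The dichotomy**: for every elliptic curve over `ℚ`, either for every `t` the primes with
`a_p = t` have Dirichlet density zero, or a unique squarefree `d ≠ 1` has `a_p = 0` at the good
primes inert in `ℚ(√d)`, and then the primes with `a_p = 0` have density one half. -/
theorem traceFrobenius_density_dichotomy (E : WeierstrassCurve ℚ) [E.IsElliptic] :
    (∀ t : ℤ, {v : HeightOneSpectrum (𝓞 ℚ) |
      E.LFunction (Ideal.absNorm v.asIdeal) = t}.HasDirichletDensity 0) ∨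
    (∃! d : ℤ, Squarefree d ∧ d ≠ 1 ∧ ∀ l : ℕ, ∀ [Fact l.Prime],
      (∃ C : VariableChange ℚ_[l],
        HasGoodReduction ℤ_[l] (C • E.map (algebraMap ℚ ℚ_[l]))) →
      ¬ IsSquare (d : ZMod l) → E.LFunction l = 0) ∧
    {v : HeightOneSpectrum (𝓞 ℚ) |
      E.LFunction (Ideal.absNorm v.asIdeal) = 0}.HasDirichletDensity (1 / 2) := by
  rcases galoisSurjectiveTorsion_large_or_dihedral E with ⟨M, hM⟩ | ⟨d, hd, hd1, h0⟩
  · exact Or.inl (trace_density_zero_of_surjective E ⟨M, fun p hp hlt => by
      have := hM p hp hlt 1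
      rwa [pow_one] at this⟩)
  · refine Or.inr ⟨⟨d, ⟨hd, hd1, h0⟩, fun d' hd' => ?_⟩, trace_zero_density_half E hd hd1 h0⟩
    obtain ⟨W, hW⟩ := FA.Frob.exists_integralModel E
    haveI := FA.Frob.ratCurve_isElliptic_of_Δ (FA.Frob.Δ_ne_zero_of_model hW)
    exact inertVanish_unique hd'.1 hd'.2.1 (inertVanish_of_curve hW hd'.2.2) hd hd1
      (inertVanish_of_curve hW h0)

/-- **Supersingular primes have density zero or one half** (Serre, Deuring), for every elliptic
curve over `ℚ`; the ordinary primes have density one or one half. -/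
theorem supersingular_density_dichotomy (E : WeierstrassCurve ℚ) [E.IsElliptic] :
    {v : HeightOneSpectrum (𝓞 ℚ) |
      (Ideal.absNorm v.asIdeal : ℤ) ∣ E.LFunction (Ideal.absNorm v.asIdeal)}.HasDirichletDensity
        0 ∧
      {v : HeightOneSpectrum (𝓞 ℚ) |
        ¬ (Ideal.absNorm v.asIdeal : ℤ) ∣ E.LFunction (Ideal.absNorm v.asIdeal)}.HasDirichletDensity
          1 ∨
    {v : HeightOneSpectrum (𝓞 ℚ) |
      (Ideal.absNorm v.asIdeal : ℤ) ∣ E.LFunction (Ideal.absNorm v.asIdeal)}.HasDirichletDensity
        (1 / 2) ∧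
      {v : HeightOneSpectrum (𝓞 ℚ) |
        ¬ (Ideal.absNorm v.asIdeal : ℤ) ∣ E.LFunction (Ideal.absNorm v.asIdeal)}.HasDirichletDensity
          (1 / 2) := by
  rcases traceFrobenius_density_dichotomy E with h | ⟨-, h⟩
  · left
    have h' := density_dvd_of_density_eq_zero E (h 0)
    exact ⟨h', by simpa [Set.compl_ofPred] using hasDirichletDensity_compl h'⟩
  · right
    have h' := density_dvd_of_density_eq_zero E h
    refine ⟨h', ?_⟩
    have h'' := hasDirichletDensity_compl h'
    rw [sub_half] at h''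
    simpa [Set.compl_ofPred] using h''

/-- **When it is one half**: exactly when some quadratic field has `a_p = 0` at its inert good
primes. -/
theorem supersingular_density_half_iff (E : WeierstrassCurve ℚ) [E.IsElliptic] :
    {v : HeightOneSpectrum (𝓞 ℚ) |
      (Ideal.absNorm v.asIdeal : ℤ) ∣ E.LFunction (Ideal.absNorm v.asIdeal)}.HasDirichletDensity
        (1 / 2) ↔
    ∃ d : ℤ, Squarefree d ∧ d ≠ 1 ∧ ∀ l : ℕ, ∀ [Fact l.Prime],
      (∃ C : VariableChange ℚ_[l],
        HasGoodReduction ℤ_[l] (C • E.map (algebraMap ℚ ℚ_[l]))) →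
      ¬ IsSquare (d : ZMod l) → E.LFunction l = 0 := by
  refine ⟨fun h => ?_, fun ⟨d, hd, hd1, h0⟩ =>
    density_dvd_of_density_eq_zero E (trace_zero_density_half E hd hd1 h0)⟩
  rcases traceFrobenius_density_dichotomy E with h0 | ⟨h0, -⟩
  · exact absurd (tendsto_nhds_unique h (density_dvd_of_density_eq_zero E (h0 0))) (by norm_num)
  · exact h0.exists

/-- **When it is zero**: exactly when no quadratic field has `a_p = 0` at its inert good primes. -/
theorem supersingular_density_zero_iff (E : WeierstrassCurve ℚ) [E.IsElliptic] :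
    {v : HeightOneSpectrum (𝓞 ℚ) |
      (Ideal.absNorm v.asIdeal : ℤ) ∣ E.LFunction (Ideal.absNorm v.asIdeal)}.HasDirichletDensity
        0 ↔
    ¬ ∃ d : ℤ, Squarefree d ∧ d ≠ 1 ∧ ∀ l : ℕ, ∀ [Fact l.Prime],
      (∃ C : VariableChange ℚ_[l],
        HasGoodReduction ℤ_[l] (C • E.map (algebraMap ℚ ℚ_[l]))) →
      ¬ IsSquare (d : ZMod l) → E.LFunction l = 0 := by
  refine ⟨fun h hd => absurd (tendsto_nhds_unique h ((supersingular_density_half_iff E).mpr hd))
    (by norm_num), fun hno => ?_⟩
  rcases traceFrobenius_density_dichotomy E with h0 | ⟨h0, -⟩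
  · exact density_dvd_of_density_eq_zero E (h0 0)
  · exact absurd h0.exists hno

/-- **Complex multiplication**: for the thirteen CM invariants the supersingular primes, and the
ordinary ones, have density one half. -/
theorem supersingular_density_half_of_cm (E : WeierstrassCurve ℚ) [E.IsElliptic]
    (hj : E.j ∈ ({0, 54000, -12288000, 1728, 287496, -3375, 16581375, 8000, -32768, -884736,
      -884736000, -147197952000, -262537412640768000} : Finset ℚ)) :
    {v : HeightOneSpectrum (𝓞 ℚ) |
      (Ideal.absNorm v.asIdeal : ℤ) ∣ E.LFunction (Ideal.absNorm v.asIdeal)}.HasDirichletDensity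
        (1 / 2) := by
  refine (supersingular_density_half_iff E).mpr ?_
  have key : ∀ d D c : ℤ, c ∣ 2 → D = d * c ^ 2 → Squarefree d → d ≠ 1 →
      (E.j, D) ∈ ({(0, -3), (54000, -3), (-12288000, -3), (1728, -4), (287496, -4),
        (-3375, -7), (16581375, -7), (8000, -8), (-32768, -11), (-884736, -19), (-884736000, -43),
        (-147197952000, -67), (-262537412640768000, -163)} : Finset (ℚ × ℤ)) →
      ∃ d : ℤ, Squarefree d ∧ d ≠ 1 ∧ ∀ l : ℕ, ∀ [Fact l.Prime],
        (∃ C : VariableChange ℚ_[l],
          HasGoodReduction ℤ_[l] (C • E.map (algebraMap ℚ ℚ_[l]))) →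
        ¬ IsSquare (d : ZMod l) → E.LFunction l = 0 := by
    intro d D c hc hD hd hd1 hmem
    refine ⟨d, hd, hd1, fun l hl _ hns =>
      lFunction_eq_zero_of_inert E hmem hl.out fun hsq => hns ?_⟩
    rcases eq_or_ne l 2 with rfl | hl2
    · exact FiniteField.isSquare_of_char_two (ZMod.ringChar_zmod_n 2) _
    have hc0 : (c : ZMod l) ≠ 0 := fun h => hl2 ((Nat.prime_dvd_prime_iff_eq hl.out
      Nat.prime_two).mp (Int.natCast_dvd_natCast.mp
        (((ZMod.intCast_zmod_eq_zero_iff_dvd c l).mp h).trans hc)))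
    obtain ⟨x, hx⟩ := hsq
    rw [hD] at hx
    refine ⟨x / (c : ZMod l), ?_⟩
    push_cast at hx
    field_simp
    linear_combination hx
  have hsf : ∀ q : ℕ, q.Prime → Squarefree (-(q : ℤ)) := fun q hq =>
    Int.squarefree_natAbs.mp (by rw [Int.natAbs_neg, Int.natAbs_natCast]; exact hq.squarefree)
  simp only [Finset.mem_insert, Finset.mem_singleton] at hj
  rcases hj with hj | hj | hj | hj | hj | hj | hj | hj | hj | hj | hj | hj | hj
  · exact key (-3) (-3) 1 (by norm_num) rfl (hsf 3 (by norm_num)) (by norm_num) (by simp [hj])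
  · exact key (-3) (-3) 1 (by norm_num) rfl (hsf 3 (by norm_num)) (by norm_num) (by simp [hj])
  · exact key (-3) (-3) 1 (by norm_num) rfl (hsf 3 (by norm_num)) (by norm_num) (by simp [hj])
  · exact key (-1) (-4) 2 dvd_rfl rfl (Int.squarefree_natAbs.mp squarefree_one) (by norm_num)
      (by simp [hj])
  · exact key (-1) (-4) 2 dvd_rfl rfl (Int.squarefree_natAbs.mp squarefree_one) (by norm_num)
      (by simp [hj])
  · exact key (-7) (-7) 1 (by norm_num) rfl (hsf 7 (by norm_num)) (by norm_num) (by simp [hj])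
  · exact key (-7) (-7) 1 (by norm_num) rfl (hsf 7 (by norm_num)) (by norm_num) (by simp [hj])
  · exact key (-2) (-8) 2 dvd_rfl rfl (hsf 2 Nat.prime_two) (by norm_num) (by simp [hj])
  · exact key (-11) (-11) 1 (by norm_num) rfl (hsf 11 (by norm_num)) (by norm_num) (by simp [hj])
  · exact key (-19) (-19) 1 (by norm_num) rfl (hsf 19 (by norm_num)) (by norm_num) (by simp [hj])
  · exact key (-43) (-43) 1 (by norm_num) rfl (hsf 43 (by norm_num)) (by norm_num) (by simp [hj])
  · exact key (-67) (-67) 1 (by norm_num) rfl (hsf 67 (by norm_num)) (by norm_num) (by simp [hj])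
  · exact key (-163) (-163) 1 (by norm_num) rfl (hsf 163 (by norm_num)) (by norm_num)
      (by simp [hj])

end FA.Summary

end
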