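import Fermat.Agent.OpenImageAll.Deuring
import Fermat.Agent.Root.SummaryFrobeniusFieldCM
import Fermat.Agent.Root.SummarySupersingularDichotomy

/-!
# Deuring's criterion for the exceptional curves

If `a_l = 0` at the good primes inert in `ℚ(√d)`, no good prime divides `d`, and at an odd good
prime `l` the curve is supersingular, equivalently `a_l = 0`, exactly when `d` is no square modulo
`l`; otherwise `4 l = a_l² + |d| b²`.
-/

set_option autoImplicit false
set_option linter.style.haveILetI false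

noncomputable section

open WeierstrassCurve WeierstrassCurve.Affine FA.EC FA.Frob FA.RT
open scoped WeierstrassCurve.Affine

namespace FA.Exceptional

/-- Everything is a square modulo two. -/
theorem isSquare_zmod_two : ∀ z : ZMod 2, IsSquare z := fun z => ⟨z, by revert z; decide⟩

end FA.Exceptional

namespace FA.Summary

/-- **The exceptional field is unramified outside the bad primes.** -/
theorem exceptional_unramified (E : WeierstrassCurve ℚ) [E.IsElliptic] {d : ℤ}
    (hd : Squarefree d) (hd1 : d ≠ 1)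
    (h : ∀ l : ℕ, ∀ [Fact l.Prime],
      (∃ C : VariableChange ℚ_[l],
        HasGoodReduction ℤ_[l] (C • E.map (algebraMap ℚ ℚ_[l]))) →
      ¬ IsSquare (d : ZMod l) → E.LFunction l = 0) :
    (∀ q : ℕ, ∀ [Fact q.Prime], (∃ C : VariableChange ℚ_[q],
      HasGoodReduction ℤ_[q] (C • E.map (algebraMap ℚ ℚ_[q]))) → ¬ (q : ℤ) ∣ d) ∧
    ((∃ C : VariableChange ℚ_[2],
      HasGoodReduction ℤ_[2] (C • E.map (algebraMap ℚ ℚ_[2]))) → d % 4 = 1) := by
  rcases galoisSurjectiveTorsion_large_or_dihedral_bad E with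
    ⟨M, hM⟩ | ⟨d', hd', hd1', hbad, hbad4, h'⟩
  · obtain ⟨l, hl, hgood, hns, hne⟩ := exists_inert_trace_ne_zero E
      ⟨M, fun p hp hlt => by have := hM p hp hlt 1; rwa [pow_one] at this⟩ hd hd1
    exact absurd (h l hgood hns) hne
  · obtain ⟨W, hW⟩ := exists_integralModel E
    haveI := ratCurve_isElliptic_of_Δ (Δ_ne_zero_of_model hW)
    obtain rfl : d = d' := FA.Supersingular.inertVanish_unique (W := W) hd hd1
      (FA.Supersingular.inertVanish_of_curve hW h) hd' hd1'
      (FA.Supersingular.inertVanish_of_curve hW h')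
    refine ⟨fun q _ hgood hdvd => hbad q hdvd hgood, fun hgood => ?_⟩
    have h3 : d % 4 ≠ 3 := fun e => hbad4 e hgood
    have h2 : ¬ (2 : ℤ) ∣ d := fun hdvd => hbad 2 hdvd hgood
    omega

/-- **Deuring's criterion for an exceptional curve**: at an odd good prime `l`, `a_l = 0` iff `l`
divides `a_l` iff `d` is no square modulo `l`, and otherwise `4 l = a_l² + |d| b²`. -/
theorem exceptional_deuring (E : WeierstrassCurve ℚ) [E.IsElliptic] {d : ℤ}
    (hd : Squarefree d) (hd1 : d ≠ 1)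
    (h : ∀ l : ℕ, ∀ [Fact l.Prime],
      (∃ C : VariableChange ℚ_[l],
        HasGoodReduction ℤ_[l] (C • E.map (algebraMap ℚ ℚ_[l]))) →
      ¬ IsSquare (d : ZMod l) → E.LFunction l = 0)
    (l : ℕ) [Fact l.Prime] (hl2 : l ≠ 2)
    (hgood : ∃ C : VariableChange ℚ_[l],
      HasGoodReduction ℤ_[l] (C • E.map (algebraMap ℚ ℚ_[l]))) :
    (E.LFunction l = 0 ↔ ¬ IsSquare (d : ZMod l)) ∧
    ((l : ℤ) ∣ E.LFunction l ↔ ¬ IsSquare (d : ZMod l)) ∧
    (IsSquare (d : ZMod l) →
      ∃ b : ℤ, b ≠ 0 ∧ 4 * (l : ℤ) = E.LFunction l ^ 2 + |d| * b ^ 2) := by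
  have hld := (exceptional_unramified E hd hd1 h).1 l hgood
  obtain ⟨W, hW, hWgood⟩ := FA.SerreLarge.exists_goodModel E
  haveI := ratCurve_isElliptic_of_Δ (Δ_ne_zero_of_model hW)
  have hl : l.Prime := Fact.out
  have hg := hWgood l hgood
  have hne : IsSquare (d : ZMod l) → E.LFunction l ≠ 0 := fun hsq => by
    rw [FA.Root.LFunction_apply_prime E W hW hl hg]
    exact FA.Exceptional.apOfModel_ne_zero_of_split hd hd1
      (fun q hq => FA.Exceptional.apOfModel_eq_zero hW h hq) hl hg hl2 hld hsq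
  refine ⟨⟨fun e hsq => hne hsq e, h l hgood⟩, ⟨fun hdvd hsq => ?_, fun hns => ?_⟩,
    fun hsq => (exceptional_normEquation E hd hd1 h l hgood (hne hsq)).2⟩
  · obtain ⟨b, hb⟩ := (exceptional_iff_frobeniusField E hd hd1).mp h l hgood (hne hsq)
    exact FA.Exceptional.false_of_dvd_trace hl hl2 hld hb hdvd
  · rw [h l hgood hns]
    exact dvd_zero _

/-- **Small good primes are inert**: an odd good prime splitting in the exceptional field is larger
than `|d| / 4`. -/
theorem exceptional_split_prime_gt (E : WeierstrassCurve ℚ) [E.IsElliptic] {d : ℤ}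
    (hd : Squarefree d) (hd1 : d ≠ 1)
    (h : ∀ l : ℕ, ∀ [Fact l.Prime],
      (∃ C : VariableChange ℚ_[l],
        HasGoodReduction ℤ_[l] (C • E.map (algebraMap ℚ ℚ_[l]))) →
      ¬ IsSquare (d : ZMod l) → E.LFunction l = 0)
    (l : ℕ) [Fact l.Prime] (hl2 : l ≠ 2)
    (hgood : ∃ C : VariableChange ℚ_[l],
      HasGoodReduction ℤ_[l] (C • E.map (algebraMap ℚ ℚ_[l])))
    (hsq : IsSquare (d : ZMod l)) : |d| < 4 * (l : ℤ) := by
  obtain ⟨hzero, -, heq⟩ := exceptional_deuring E hd hd1 h l hl2 hgood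
  obtain ⟨b, hb, he⟩ := heq hsq
  have ha : E.LFunction l ≠ 0 := fun e => hzero.mp e hsq
  have h1 : 0 < E.LFunction l ^ 2 := by positivity
  have h2 : 1 ≤ b ^ 2 := by
    have : 0 < b ^ 2 := by positivity
    omega
  nlinarith [abs_nonneg d]

/-- **The image is not open exactly when Deuring's criterion holds for some field**: for some
negative squarefree `d` the odd good primes with `a_l = 0` are those inert in `ℚ(√d)`. -/
theorem not_openImage_iff_deuring (E : WeierstrassCurve ℚ) [E.IsElliptic]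
    [inst : DecidableEq (AlgebraicClosure ℚ)] :
    (¬ ∃ m : ℕ, 0 < m ∧ ∀ (N : ℕ), N ≠ 0 →
      ∀ φ : Submodule.torsionBy ℤ (E.toAffine⁄(AlgebraicClosure ℚ)).Point (N : ℤ) ≃+
        Submodule.torsionBy ℤ (E.toAffine⁄(AlgebraicClosure ℚ)).Point (N : ℤ),
      (∀ P, m • P.1 = 0 → φ P = P) →
        ∃ σ : AlgebraicClosure ℚ ≃ₐ[ℚ] AlgebraicClosure ℚ, ∀ P,
          Affine.Point.map σ.toAlgHom P.1 = (φ P).1) ↔
    ∃ d : ℤ, Squarefree d ∧ d < 0 ∧ ∀ l : ℕ, ∀ [Fact l.Prime], l ≠ 2 →
      (∃ C : VariableChange ℚ_[l],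
        HasGoodReduction ℤ_[l] (C • E.map (algebraMap ℚ ℚ_[l]))) →
      (E.LFunction l = 0 ↔ ¬ IsSquare (d : ZMod l)) := by
  rw [serreOpenImage_adelic_iff_imaginary E, not_not]
  refine exists_congr fun d => and_congr_right fun hd => and_congr_right fun hneg =>
    ⟨fun h l _ hl2 hgood => (exceptional_deuring E hd (by omega) h l hl2 hgood).1,
      fun h l hl hgood hns => ?_⟩
  by_cases hl2 : l = 2
  · subst hl2
    exact absurd (FA.Exceptional.isSquare_zmod_two _) hns
  · exact (h l hl2 hgood).mpr hns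

end FA.Summary

end
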