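import Fermat.Agent.Root.SummaryDeuring
import Fermat.Agent.Root.SummaryFrobenius
import Fermat.Agent.Root.SummarySurjectiveTwist
import Fermat.Agent.Root.SummaryTorsion
import Fermat.Agent.Root.SummaryTraces

/-!
# Frobenius fields of semistable curves

A semistable curve (or one with a semistable quadratic twist) has infinitely many fields
`ℚ(√(a_q² - 4 q))` at ordinary primes `q`, whereas a curve with complex multiplication has one. For
this take an element of Galois acting as complex conjugation on the `l`-torsion for the finitely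
many `l` chosen and as the identity on the `l₀`-torsion: a Frobenius generating the same subgroup
has `a_q ≡ 0`, `q ≡ -1` modulo every `l` and `a_q ≡ 2` modulo `l₀`.
-/

set_option autoImplicit false
set_option linter.style.haveILetI false
set_option linter.unusedSectionVars false

noncomputable section

open WeierstrassCurve WeierstrassCurve.Affine Matrix FA.Frob FA.RT
open scoped WeierstrassCurve.Affine

local notation "Qb" => AlgebraicClosure ℚ
local notation "GQ" => AlgebraicClosure ℚ ≃ₐ[ℚ] AlgebraicClosure ℚ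
local notation "M2" => Matrix (Fin 2) (Fin 2)

namespace FA.FrobeniusFields

theorem trace_eq_zero_of_sq {l : ℕ} [Fact l.Prime] (C : M2 (ZMod l)) (h : C * C = 1)
    (hd : C.det = -1) : C.trace = 0 := by
  have h0 := congrFun (congrFun h 0) 0
  have h1 := congrFun (congrFun h 1) 1
  simp only [Matrix.mul_apply, Fin.sum_univ_two, one_apply_eq] at h0 h1
  rw [det_fin_two] at hd
  exact sq_eq_zero_iff.mp (by rw [trace_fin_two]; linear_combination h0 + h1 + 2 * hd)

/-- Full image prime to `m`. -/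
abbrev FullImage (E : WeierstrassCurve ℚ) (m : ℕ) : Prop :=
  ∀ N : ℕ, N.Coprime m →
    ∀ φ : Submodule.torsionBy ℤ (E.toAffine⁄Qb).Point (N : ℤ) ≃+
        Submodule.torsionBy ℤ (E.toAffine⁄Qb).Point (N : ℤ),
      ∃ σ : GQ, ∀ P, Affine.Point.map σ.toAlgHom P.1 = (φ P).1

/-- **A Frobenius acting as complex conjugation on some torsion and trivially on other.** -/
theorem exists_split_frobenius (E : WeierstrassCurve ℚ) [E.IsElliptic] {m : ℕ} (hm : 0 < m)
    (hall : FullImage E m) (L S : Finset ℕ) (hL : ∀ l ∈ L, l.Prime ∧ 2 < l ∧ m < l) :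
    ∃ (q : ℕ) (_ : Fact q.Prime), q ∉ S ∧
      (∃ C : VariableChange ℚ_[q], HasGoodReduction ℤ_[q] (C • E.map (algebraMap ℚ ℚ_[q]))) ∧
      ¬ (q : ℤ) ∣ E.LFunction q ∧
      ∀ l ∈ L, ((E.LFunction q ^ 2 - 4 * q : ℤ) : ZMod l) = 4 := by
  classical
  obtain ⟨W, hW⟩ := FA.Frob.exists_integralModel E
  have hΔ := FA.Frob.Δ_ne_zero_of_model hW
  haveI := FA.Frob.ratCurve_isElliptic_of_Δ hΔ
  obtain ⟨e, he⟩ := FA.Root.exists_equiv_of_model hW
  -- an auxiliary prime
  obtain ⟨l₀, hl₀, hl₀p⟩ := Nat.exists_infinite_primes (11 + m + ∑ l ∈ L, l + 1)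
  have := Fact.mk hl₀p
  set M := ∏ l ∈ L, l
  have hne : ∀ l ∈ L, l₀ ≠ l := fun l hl e' => by
    have := Finset.single_le_sum (f := fun i => i) (fun i _ => Nat.zero_le i) hl
    omega
  have hcop : l₀.Coprime M := Nat.Coprime.prod_right fun l hl =>
    (Nat.coprime_primes hl₀p (hL l hl).1).mpr (hne l hl)
  have hcopm : ∀ l : ℕ, l.Prime → m < l → l.Coprime m := fun l hl hlt =>
    (hl.coprime_iff_not_dvd).mpr fun hd => by
      have := Nat.le_of_dvd hm hd
      omega
  have hNm : (l₀ * M).Coprime m := Nat.Coprime.mul_left (hcopm l₀ hl₀p (by omega))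
    (Nat.Coprime.prod_left fun l hl => hcopm l (hL l hl).1 (hL l hl).2.2)
  obtain ⟨a, b, hab⟩ := Int.isCoprime_iff_gcd_eq_one.mpr
    (show Int.gcd (l₀ : ℤ) (M : ℤ) = 1 by rw [Int.gcd_natCast_natCast]; exact hcop)
  set u : ℤ := b * M with hu
  set v : ℤ := a * l₀ with hv
  -- complex conjugation on one part, the identity on the other
  set c : GQ := complexConjugation with hc
  let TE := Submodule.torsionBy ℤ (E.toAffine⁄Qb).Point ((l₀ * M : ℕ) : ℤ)
  let cT : TE →+ TE :=
    { toFun := fun P => ⟨Affine.Point.map c.toAlgHom P.1, (Submodule.mem_torsionBy_iff _ _).mpr (by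
        rw [← map_zsmul, (Submodule.mem_torsionBy_iff _ _).mp P.2, map_zero])⟩
      map_zero' := Subtype.ext (map_zero _)
      map_add' := fun P Q => Subtype.ext (map_add _ _ _) }
  have hcT : ∀ P, cT (cT P) = P := fun P => Subtype.ext (by
    show Affine.Point.map c.toAlgHom (Affine.Point.map c.toAlgHom P.1) = P.1
    obtain ⟨Q, hQ⟩ := e.surjective P.1
    rw [← hQ, ← he, ← he, ← mul_smul, hc, complexConjugation_mul_self, one_smul])
  let φ₀ : TE → TE := fun P => u • P + v • cT P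
  have hφ : Function.Involutive φ₀ := fun P => by
    have huv : (u * v) • P = 0 := Subtype.ext (by
      show (u * v) • P.1 = 0
      rw [show u * v = a * b * ((l₀ * M : ℕ) : ℤ) by rw [hu, hv]; push_cast; ring, mul_smul,
        (Submodule.mem_torsionBy_iff _ _).mp P.2, zsmul_zero])
    have huv' : (u * v) • cT P = 0 := by rw [← map_zsmul, huv, map_zero]
    have h1 : φ₀ (φ₀ P) = (u * u + v * v) • P + (2 * (u * v)) • cT P := by
      simp only [φ₀, map_add, map_zsmul, hcT, smul_add, smul_smul]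
      module
    rw [h1, show u * u + v * v = 1 - 2 * (u * v) by
        rw [hu, hv]; linear_combination (u + v + 1) * hab, sub_smul, one_smul,
      mul_smul 2 (u * v) P, mul_smul 2 (u * v) (cT P), huv, huv', zsmul_zero, sub_zero, add_zero]
  obtain ⟨s, hs⟩ := hall _ hNm
    { hφ.toPerm φ₀ with
      map_add' := fun P Q => by
        show φ₀ (P + Q) = φ₀ P + φ₀ Q
        simp only [φ₀, map_add, smul_add]
        abel }
  -- the action on the parts
  have hrep : ∀ l : ℕ, ∀ [Fact l.Prime], ∀ t : GQ, (l ∣ l₀ * M) →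
      (∀ Q : (E.toAffine⁄Qb).Point, (l : ℤ) • Q = 0 →
        u • Q + v • Affine.Point.map c.toAlgHom Q = Affine.Point.map t.toAlgHom Q) →
      curveRep l W s = curveRep l W t := by
    intro l _ t hd ht
    rw [curveRep_apply, curveRep_apply]
    congr 1
    refine LinearMap.ext fun x => Subtype.ext (e.injective ?_)
    have hx : (l : ℤ) • e x.1 = 0 := by
      rw [← map_zsmul, (Submodule.mem_torsionBy_iff _ _).mp x.2, map_zero]
    obtain ⟨m, hm⟩ := hd
    have hmem : e x.1 ∈ TE := (Submodule.mem_torsionBy_iff _ _).mpr (by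
      rw [hm, Nat.cast_mul, mul_comm, mul_smul, hx, zsmul_zero])
    exact ((he s x.1).trans (hs ⟨_, hmem⟩)).trans ((ht _ hx).trans (he t x.1).symm)
  have hs₀ : curveRep l₀ W s = 1 := by
    rw [hrep l₀ 1 (dvd_mul_right _ _) fun Q hQ => ?_, map_one]
    rw [show Affine.Point.map (W' := E.toAffine) (1 : GQ).toAlgHom Q = Q by
        obtain ⟨R, rfl⟩ := e.surjective Q
        rw [← he, one_smul],
      show u = 1 - a * l₀ by rw [hu]; linear_combination hab, hv, sub_smul, one_smul,
      mul_smul, hQ, zsmul_zero, sub_zero, mul_smul, ← map_zsmul, hQ, map_zero, zsmul_zero, add_zero]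
  have hsl : ∀ l : ℕ, ∀ [Fact l.Prime], l ∈ L → curveRep l W s = curveRep l W c := by
    intro l _ hl
    obtain ⟨m, hm⟩ : l ∣ M := Finset.dvd_prod_of_mem (fun i : ℕ => i) hl
    refine hrep l c (dvd_mul_of_dvd_right ⟨m, hm⟩ _) fun Q hQ => ?_
    have hM : (M : ℤ) • Q = 0 := by rw [hm, Nat.cast_mul, mul_comm, mul_smul, hQ, zsmul_zero]
    rw [show v = 1 - b * M by rw [hv]; linear_combination hab, sub_smul, one_smul, hu, mul_smul,
      hM, zsmul_zero, mul_smul, ← map_zsmul, hM, map_zero, zsmul_zero, sub_zero, zero_add]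
  -- a Frobenius with the same action
  let K : ℕ → Subgroup GQ := fun l =>
    if h : l.Prime then (@curveRep l ⟨h⟩ W _).ker else ⊤
  have hKn : ∀ l, (K l).Normal := fun l => by simp only [K]; split <;> infer_instance
  have hKo : ∀ l, IsOpen (K l : Set GQ) := fun l => by
    simp only [K]
    split
    · exact isOpen_ker_curveRep (hp := ⟨by assumption⟩) W
    · simp
  let N : Subgroup GQ := ⨅ l ∈ insert l₀ L, K l
  have : N.Normal := Subgroup.normal_iInf_normal fun l => Subgroup.normal_iInf_normal fun _ => hKn l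
  obtain ⟨q, A, σ, k, hq, hqS, hA, hσ, hk, j, hjσ⟩ :=
    FA.Density.exists_frobenius_generating N (by
      simp only [N, Subgroup.coe_iInf]
      exact isOpen_biInter_finset fun l _ => hKo l) s
      (S ∪ insert l₀ L ∪ Finset.range 5 ∪ W.Δ.natAbs.divisors)
  simp only [Finset.mem_union, Finset.mem_range, Nat.mem_divisors, ne_eq, Int.natAbs_eq_zero,
    hΔ, not_false_eq_true, and_true, not_or, not_lt] at hqS
  obtain ⟨⟨⟨hqS, hqL⟩, hq5⟩, hqΔ⟩ := hqS
  have hgood : ¬ (q : ℤ) ∣ W.Δ := fun h => hqΔ (Int.natCast_dvd.mp h)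
  have := Fact.mk hq
  have hker : ∀ l : ℕ, ∀ [Fact l.Prime], l ∈ insert l₀ L → ∀ g ∈ N, curveRep l W g = 1 := by
    intro l hl' hl g hg
    simp only [N, Subgroup.mem_iInf, K] at hg
    have := hg l hl
    rw [dif_pos hl'.out] at this
    exact this
  have hpow : ∀ l : ℕ, ∀ [Fact l.Prime], l ∈ insert l₀ L →
      curveRep l W σ = curveRep l W s ^ j ∧ curveRep l W s = curveRep l W σ ^ k := by
    intro l _ hl
    rw [← map_pow, ← map_pow]
    exact ⟨by rw [show σ = s ^ j * ((s ^ j)⁻¹ * σ) by group, map_mul, hker l hl _ hjσ, mul_one],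
      by rw [show s = σ ^ k * ((σ ^ k)⁻¹ * s) by group, map_mul, hker l hl _ hk, mul_one]⟩
  have hfrob : ∀ l : ℕ, ∀ [Fact l.Prime], q ≠ l →
      (curveRep l W σ).trace = (E.LFunction q : ZMod l) ∧ (curveRep l W σ).det = (q : ZMod l) :=
    fun l _ hql => by
      rw [FA.Root.LFunction_apply_prime E W hW hq hgood]
      exact FA.Ribet.curveRep_frobenius (p := l) hq hql hgood hA hσ
  refine ⟨q, this, hqS, ?_, fun hd => ?_, fun l hl => ?_⟩
  · obtain ⟨C, hC⟩ := FA.Root.exists_good_of_not_dvd W q hgood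
    obtain ⟨C₀, h₀⟩ := hW
    exact ⟨C * C₀.map (algebraMap ℚ ℚ_[q]),
      by rwa [mul_smul, WeierstrassCurve.map_variableChange, h₀]⟩
  · have hql : q ≠ l₀ := fun h => hqL (h ▸ Finset.mem_insert_self _ _)
    obtain ⟨C₀, h₀⟩ := hW
    have hH := FA.Summary.hasse_LFunction E W C₀ h₀ hq hgood
    have htr := (hfrob l₀ hql).1
    rw [(hpow l₀ (Finset.mem_insert_self _ _)).1, hs₀, one_pow, trace_one, Fintype.card_fin] at htr
    obtain ⟨t, ht⟩ := hd
    have ht0 : t ≠ 0 := fun e' => by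
      rw [ht, e', mul_zero, Int.cast_zero, ZMod.natCast_eq_zero_iff] at htr
      have := Nat.le_of_dvd two_pos htr
      omega
    have ht1 : 1 ≤ t ^ 2 := by
      have : 0 < t ^ 2 := by positivity
      omega
    have hq5' : (5 : ℤ) ≤ q := by exact_mod_cast hq5
    rw [ht, mul_pow] at hH
    nlinarith [mul_le_mul_of_nonneg_left ht1 (sq_nonneg (q : ℤ))]
  · have := Fact.mk (hL l hl).1
    have hl2 : l ≠ 2 := (hL l hl).2.1.ne'
    obtain ⟨h1, h2⟩ := hpow l (Finset.mem_insert_of_mem hl)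
    have hC : curveRep l W c * curveRep l W c = 1 := by
      rw [← map_mul, hc, complexConjugation_mul_self, map_one]
    have hdet : (curveRep l W c).det = -1 := det_complexConjugation W hl2
    rw [hsl l hl] at h1 h2
    have hσc : curveRep l W σ = curveRep l W c := by
      rcases Nat.even_or_odd' j with ⟨m, rfl | rfl⟩
      · rw [pow_mul, pow_two, hC, one_pow] at h1
        rw [h1, one_pow] at h2
        rw [h2, det_one] at hdet
        have h3 : ((2 : ℕ) : ZMod l) = 0 := by push_cast; linear_combination hdet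
        exact absurd ((Nat.prime_dvd_prime_iff_eq (hL l hl).1 Nat.prime_two).mp
          ((ZMod.natCast_eq_zero_iff 2 l).mp h3)) hl2
      · rw [h1, pow_succ, pow_mul, pow_two, hC, one_pow, one_mul]
    obtain ⟨h3, h4⟩ := hfrob l fun h => hqL (h ▸ Finset.mem_insert_of_mem hl)
    rw [hσc, trace_eq_zero_of_sq _ hC hdet] at h3
    rw [hσc, hdet] at h4
    push_cast
    rw [← h3, ← h4]
    ring

/-- A negative integer is a non-square modulo some prime above any bound. -/
theorem exists_not_isSquare_gt {D : ℤ} (hD : D < 0) (n : ℕ) :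
    ∃ l : ℕ, l.Prime ∧ n < l ∧ ¬ IsSquare ((D : ℤ) : ZMod l) := by
  have hm : (Polynomial.X ^ 2 - Polynomial.C D).Monic := Polynomial.monic_X_pow_sub_C D two_ne_zero
  have hdeg : (Polynomial.X ^ 2 - Polynomial.C D).natDegree = 2 := Polynomial.natDegree_X_pow_sub_C
  have hirr : Irreducible (Polynomial.X ^ 2 - Polynomial.C D) := by
    rw [hm.irreducible_iff_roots_eq_zero_of_degree_le_three (by omega) (by omega)]
    refine Multiset.eq_zero_of_forall_notMem fun x hx => ?_
    have h0 := (Polynomial.mem_roots hm.ne_zero).mp hx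
    simp at h0
    nlinarith [sq_nonneg x]
  obtain ⟨l, ⟨hl, hroot⟩, hlt⟩ :=
    (FA.Summary.infinitely_many_primes_without_root _ hm hirr (by omega)).exists_gt n
  refine ⟨l, hl, hlt, fun ⟨x, hx⟩ => hroot x ?_⟩
  simp [hx, pow_two]

/-- A negative integer is a non-square modulo a prime at least `11`. -/
theorem exists_not_isSquare {D : ℤ} (hD : D < 0) :
    ∃ l : ℕ, l.Prime ∧ 11 ≤ l ∧ ¬ IsSquare ((D : ℤ) : ZMod l) :=
  exists_not_isSquare_gt hD 10

/-- The Frobenius fields at ordinary primes are infinitely many. -/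
theorem infinite_of_fullImage (E : WeierstrassCurve ℚ) [E.IsElliptic] {m : ℕ} (hm : 0 < m)
    (hall : FullImage E m) (S : Finset ℤ) (hS : ∀ D ∈ S, D < 0) :
    {q : ℕ | ∃ _ : Fact q.Prime,
      (∃ C : VariableChange ℚ_[q], HasGoodReduction ℤ_[q] (C • E.map (algebraMap ℚ ℚ_[q]))) ∧
      ¬ (q : ℤ) ∣ E.LFunction q ∧
      ∀ D ∈ S, ∀ b : ℤ, E.LFunction q ^ 2 - 4 * q ≠ D * b ^ 2}.Infinite := by
  classical
  intro hfin
  choose f hf using fun D : {D // D ∈ S} => exists_not_isSquare_gt (hS D.1 D.2) (m + 10)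
  obtain ⟨q, hq, hqS, hg, ho, hL⟩ := exists_split_frobenius E hm hall (S.attach.image f)
    hfin.toFinset fun l hl => by
      obtain ⟨D, -, rfl⟩ := Finset.mem_image.mp hl
      exact ⟨(hf D).1, by have := (hf D).2.1; omega, by have := (hf D).2.1; omega⟩
  refine hqS (hfin.mem_toFinset.mpr ⟨hq, hg, ho, fun D hD b hb => ?_⟩)
  obtain ⟨hl, h11, hns⟩ := hf ⟨D, hD⟩
  have := Fact.mk hl
  have h := hL _ (Finset.mem_image_of_mem f (Finset.mem_attach _ ⟨D, hD⟩))
  rw [hb] at h
  push_cast at h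
  have h4 : (4 : ZMod (f ⟨D, hD⟩)) ≠ 0 := fun e' => by
    have e'' : ((4 : ℕ) : ZMod (f ⟨D, hD⟩)) = 0 := by exact_mod_cast e'
    have := Nat.le_of_dvd (by norm_num) ((ZMod.natCast_eq_zero_iff 4 _).mp e'')
    omega
  have hb0 : (b : ZMod (f ⟨D, hD⟩)) ≠ 0 := fun e' =>
    h4 (by rw [← h, e', zero_pow two_ne_zero, mul_zero])
  refine hns ⟨2 / b, ?_⟩
  field_simp
  linear_combination h

end FA.FrobeniusFields

namespace FA.Summary

open FA.FrobeniusFields

/-- **Infinitely many Frobenius fields**: for a semistable curve and any finite set of negative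
`D`, at infinitely many ordinary primes `q` of good reduction `ℚ(√(a_q² - 4 q))` is none of the
`ℚ(√D)`. -/
theorem infinitely_many_frobeniusFields (E : WeierstrassCurve ℚ) [E.IsElliptic]
    (h : ∀ p : ℕ, ∀ [Fact p.Prime], ∃ C : VariableChange ℚ_[p],
      HasGoodReduction ℤ_[p] (C • E.map (algebraMap ℚ ℚ_[p])) ∨
        HasMultiplicativeReduction ℤ_[p] (C • E.map (algebraMap ℚ ℚ_[p])))
    (S : Finset ℤ) (hS : ∀ D ∈ S, D < 0) :
    {q : ℕ | ∃ _ : Fact q.Prime,
      (∃ C : VariableChange ℚ_[q], HasGoodReduction ℤ_[q] (C • E.map (algebraMap ℚ ℚ_[q]))) ∧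
      ¬ (q : ℤ) ∣ E.LFunction q ∧
      ∀ D ∈ S, ∀ b : ℤ, E.LFunction q ^ 2 - 4 * q ≠ D * b ^ 2}.Infinite :=
  infinite_of_fullImage E (m := 210) (by norm_num)
    (fun _ hN φ => galoisSurjectiveTorsion_adelic E h hN φ) S hS

/-- The same for curves with a semistable quadratic twist. -/
theorem infinitely_many_frobeniusFields_twist (E : WeierstrassCurve ℚ) [E.IsElliptic] {d : ℚ}
    (hd : d ≠ 0)
    (h : ∀ p : ℕ, ∀ [Fact p.Prime], ∃ C : VariableChange ℚ_[p],
      HasGoodReduction ℤ_[p] (C • (⟨0, 0, 0, -27 * (d ^ 2 * E.c₄), -54 * (d ^ 3 * E.c₆)⟩ :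
          WeierstrassCurve ℚ).map (algebraMap ℚ ℚ_[p])) ∨
        HasMultiplicativeReduction ℤ_[p] (C • (⟨0, 0, 0, -27 * (d ^ 2 * E.c₄),
          -54 * (d ^ 3 * E.c₆)⟩ : WeierstrassCurve ℚ).map (algebraMap ℚ ℚ_[p])))
    (S : Finset ℤ) (hS : ∀ D ∈ S, D < 0) :
    {q : ℕ | ∃ _ : Fact q.Prime,
      (∃ C : VariableChange ℚ_[q], HasGoodReduction ℤ_[q] (C • E.map (algebraMap ℚ ℚ_[q]))) ∧
      ¬ (q : ℤ) ∣ E.LFunction q ∧
      ∀ D ∈ S, ∀ b : ℤ, E.LFunction q ^ 2 - 4 * q ≠ D * b ^ 2}.Infinite :=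
  infinite_of_fullImage E (m := 210) (by norm_num)
    (fun _ hN φ => galoisSurjectiveTorsion_adelic_twist E hd h hN φ) S hS

/-- **A semistable curve shares its L-function with none of the thirteen CM invariants**: for a
curve `E'` with one of these `j` the L-functions differ at infinitely many primes. -/
theorem infinite_LFunction_ne_cm (E E' : WeierstrassCurve ℚ) [E.IsElliptic] [E'.IsElliptic]
    (h : ∀ p : ℕ, ∀ [Fact p.Prime], ∃ C : VariableChange ℚ_[p],
      HasGoodReduction ℤ_[p] (C • E.map (algebraMap ℚ ℚ_[p])) ∨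
        HasMultiplicativeReduction ℤ_[p] (C • E.map (algebraMap ℚ ℚ_[p])))
    (hj : E'.j ∈ ({0, 54000, -12288000, 1728, 287496, -3375, 16581375, 8000, -32768, -884736,
      -884736000, -147197952000, -262537412640768000} : Finset ℚ)) :
    {q : ℕ | q.Prime ∧ E.LFunction q ≠ E'.LFunction q}.Infinite := by
  classical
  obtain ⟨d, hd, hpair⟩ : ∃ d : ℤ, d < 0 ∧ (E'.j, d) ∈ ({(0, -3), (54000, -3), (-12288000, -3),
      (1728, -4), (287496, -4), (-3375, -7), (16581375, -7), (8000, -8), (-32768, -11),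
      (-884736, -19), (-884736000, -43), (-147197952000, -67),
      (-262537412640768000, -163)} : Finset (ℚ × ℤ)) := by
    simp only [Finset.mem_insert, Finset.mem_singleton] at hj
    rcases hj with hj | hj | hj | hj | hj | hj | hj | hj | hj | hj | hj | hj | hj
    exacts [⟨-3, by norm_num, by simp [hj]⟩, ⟨-3, by norm_num, by simp [hj]⟩,
      ⟨-3, by norm_num, by simp [hj]⟩, ⟨-4, by norm_num, by simp [hj]⟩,
      ⟨-4, by norm_num, by simp [hj]⟩, ⟨-7, by norm_num, by simp [hj]⟩,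
      ⟨-7, by norm_num, by simp [hj]⟩, ⟨-8, by norm_num, by simp [hj]⟩,
      ⟨-11, by norm_num, by simp [hj]⟩, ⟨-19, by norm_num, by simp [hj]⟩,
      ⟨-43, by norm_num, by simp [hj]⟩, ⟨-67, by norm_num, by simp [hj]⟩,
      ⟨-163, by norm_num, by simp [hj]⟩]
  obtain ⟨W, hW⟩ := FA.Frob.exists_integralModel E'
  have hΔ := FA.Frob.Δ_ne_zero_of_model hW
  refine ((infinitely_many_frobeniusFields E h {d} (by simpa using hd)).sdiff
    (insert 2 (d.natAbs.divisors ∪ W.Δ.natAbs.divisors)).finite_toSet).mono ?_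
  rintro q ⟨⟨hq, -, ho, hne⟩, hqS⟩
  simp only [Finset.coe_insert, Finset.coe_union, Set.mem_insert_iff, Set.mem_union,
    Finset.mem_coe, Nat.mem_divisors, ne_eq, Int.natAbs_eq_zero, hd.ne, hΔ, not_false_eq_true,
    and_true, not_or] at hqS
  obtain ⟨hq2, hqd, hqΔ⟩ := hqS
  refine ⟨hq.out, fun heq => ?_⟩
  have hgood : ∃ C : VariableChange ℚ_[q],
      HasGoodReduction ℤ_[q] (C • E'.map (algebraMap ℚ ℚ_[q])) := by
    obtain ⟨C, hC⟩ := FA.Root.exists_good_of_not_dvd W q fun hd' => hqΔ (Int.natCast_dvd.mp hd')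
    obtain ⟨C₀, h₀⟩ := hW
    exact ⟨C * C₀.map (algebraMap ℚ ℚ_[q]),
      by rwa [mul_smul, WeierstrassCurve.map_variableChange, h₀]⟩
  have hpd : ¬ (q : ℤ) ∣ d := fun h' => hqd (Int.natCast_dvd.mp h')
  rw [heq] at ho
  have hsq : IsSquare ((d : ℤ) : ZMod q) := by
    by_contra hns
    exact ho ((dvd_lFunction_iff_inert E' hpair hq2 hpd hgood).mpr hns)
  obtain ⟨b, hb⟩ := four_mul_eq_sq_add_of_split E' hpair hq2 hpd hsq hgood
  exact hne d (Finset.mem_singleton_self d) b (by rw [heq]; linear_combination -hb)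

end FA.Summary

end
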