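import Fermat.Agent.Root.PadicImage
import Fermat.Agent.RT.Tate.Det
import Fermat.Agent.Thirteen.Summary

/-!
# Surjectivity of the Galois action on `p`-power torsion in Mathlib's language

For a semistable elliptic curve over `ℚ` and a prime `p ≥ 11` every additive automorphism of the
`p ^ n`-torsion points over the algebraic closure is given by an automorphism of the algebraic
closure: Serre's `p`-adic surjectivity.
-/

set_option autoImplicit false
set_option linter.unusedSectionVars false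
set_option linter.style.haveILetI false

noncomputable section

open WeierstrassCurve WeierstrassCurve.Affine Matrix
open FA.Frob (ratCurve)
open FA.JTorsion (cycP)
open scoped WeierstrassCurve.Affine

local notation "Qb" => AlgebraicClosure ℚ
local notation "GQ" => AlgebraicClosure ℚ ≃ₐ[ℚ] AlgebraicClosure ℚ

namespace FA.PadicImage

variable {p : ℕ} [hp : Fact p.Prime]

/-- Every unit of `ℤ / p ^ n` is the action of some automorphism on the roots of unity. -/
theorem exists_cyclotomic_action_pow (n : ℕ) {a : ℕ} (ha : ¬ p ∣ a) :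
    ∃ σ : GQ, ∀ μ : Qb, μ ^ p ^ n = 1 → σ μ = μ ^ a := by
  obtain ⟨ζ, hζ⟩ := FA.TW.exists_primitiveRoot hp.out n
  have : NeZero (p ^ n) := ⟨pow_ne_zero _ hp.out.ne_zero⟩
  have hζa : IsPrimitiveRoot (ζ ^ a) (p ^ n) := hζ.pow_of_coprime a
    (((hp.out.coprime_iff_not_dvd).mpr ha).symm.pow_right n)
  have hc : IsConjRoot ℚ ζ (ζ ^ a) := by
    show minpoly ℚ ζ = minpoly ℚ (ζ ^ a)
    rw [← Polynomial.cyclotomic_eq_minpoly_rat hζ (NeZero.pos _),
      ← Polynomial.cyclotomic_eq_minpoly_rat hζa (NeZero.pos _)]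
  have : Normal ℚ Qb := by
    have : Algebra.IsAlgebraic ℚ Qb := AlgebraicClosure.isAlgebraic ℚ
    have : IsAlgClosure ℚ Qb := ⟨inferInstance, inferInstance⟩
    exact IsAlgClosure.normal ℚ Qb
  obtain ⟨σ, hσ⟩ := (IsConjRoot.symm hc).exists_algEquiv
  refine ⟨σ, fun μ hμ => ?_⟩
  obtain ⟨i, -, rfl⟩ := hζ.eq_pow_of_pow_eq_one hμ
  rw [map_pow, hσ, ← pow_mul, ← pow_mul, mul_comm]

/-- Congruences modulo `p ^ n`. -/
theorem toZModPow_eq_iff {n : ℕ} {x y : ℤ_[p]} :
    PadicInt.toZModPow n x = PadicInt.toZModPow n y ↔ ∃ z, x = y + (p : ℤ_[p]) ^ n * z := by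
  rw [← sub_eq_zero, ← map_sub, ← RingHom.mem_ker, PadicInt.ker_toZModPow,
    Ideal.mem_span_singleton']
  exact ⟨fun ⟨z, hz⟩ => ⟨z, by linear_combination -hz⟩,
    fun ⟨z, hz⟩ => ⟨z, by linear_combination -hz⟩⟩

/-- A matrix which is one modulo `p ^ n` is one plus a multiple of `p ^ n`. -/
theorem exists_eq_one_add_of_map {n : ℕ} {A : Matrix (Fin 2) (Fin 2) ℤ_[p]}
    (h : A.map (PadicInt.toZModPow n) = 1) :
    ∃ Z : Matrix (Fin 2) (Fin 2) ℤ_[p], A = 1 + (p : ℤ_[p]) ^ n • Z := by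
  choose Z hZ using fun i l => (toZModPow_eq_iff (n := n) (x := A i l)
    (y := (1 : Matrix (Fin 2) (Fin 2) ℤ_[p]) i l)).mp (by
      rw [← Matrix.map_apply (f := PadicInt.toZModPow n), h, Matrix.one_apply, Matrix.one_apply,
        apply_ite (PadicInt.toZModPow n), map_one, map_zero])
  exact ⟨Matrix.of Z, Matrix.ext fun i l => by
    rw [hZ, Matrix.add_apply, Matrix.smul_apply, smul_eq_mul]; rfl⟩

/-- Reduction modulo `p` through `ℤ / p ^ 1`. -/
theorem toZMod_eq_val (x : ℤ_[p]) :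
    PadicInt.toZMod x = ((PadicInt.toZModPow 1 x).val : ZMod p) := by
  have : NeZero (p ^ 1) := ⟨pow_ne_zero _ hp.out.ne_zero⟩
  obtain ⟨z, hz⟩ := (toZModPow_eq_iff (n := 1) (x := x)
    (y := ((PadicInt.toZModPow 1 x).val : ℤ_[p]))).mp (by rw [map_natCast, ZMod.natCast_zmod_val])
  conv_lhs => rw [hz]
  rw [map_add, map_mul, map_pow, map_natCast, map_natCast, ZMod.natCast_self,
    zero_pow one_ne_zero, zero_mul, add_zero]

variable {W : WeierstrassCurve ℤ} [(ratCurve W).IsElliptic] (B : FA.RT.Tate.TateBasis p W)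

/-- The determinant takes every unit value modulo every power of `p`. -/
theorem exists_det_rep_eq (n : ℕ) (u : ℤ_[p]) (hu : IsUnit u) :
    ∃ (σ : GQ) (y : ℤ_[p]), (B.rep σ).det = u + (p : ℤ_[p]) ^ n * y := by
  rcases Nat.eq_zero_or_pos n with rfl | hn
  · exact ⟨1, (B.rep 1).det - u, by rw [pow_zero, one_mul, add_sub_cancel]⟩
  have : NeZero (p ^ n) := ⟨pow_ne_zero _ hp.out.ne_zero⟩
  obtain ⟨z, hz⟩ := (toZModPow_eq_iff (n := n) (x := u)
    (y := ((PadicInt.toZModPow n u).val : ℤ_[p]))).mp (by rw [map_natCast, ZMod.natCast_zmod_val])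
  obtain ⟨σ, hσ⟩ := exists_cyclotomic_action_pow (p := p) n
    (a := (PadicInt.toZModPow n u).val) fun hd => isUnit_iff_toZMod.mp hu <| by
      rw [hz, map_add, map_mul, map_pow, map_natCast, map_natCast, ZMod.natCast_self,
        zero_pow hn.ne', zero_mul, add_zero, (ZMod.natCast_eq_zero_iff _ _).mpr hd]
  obtain ⟨y, hy⟩ := (toZModPow_eq_iff (n := n) (x := ((cycP p σ : ℤ_[p]ˣ) : ℤ_[p])) (y := u)).mp (by
    rw [FA.RT.Tate.cycP_eq_natCast hσ, ZMod.natCast_zmod_val])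
  exact ⟨σ, y, by rw [B.det_rep, hy]⟩

/-- The reduction of the Tate module is the residual representation. -/
theorem rep_map_toZMod (σ : GQ) : (B.rep σ).map PadicInt.toZMod = FA.RT.curveRep p W σ := by
  ext i j
  rw [Matrix.map_apply, B.rep_toZMod, toZMod_eq_val]

/-- The residual image is everything. -/
theorem exists_rep_map_eq (hΔ : W.Δ ≠ 0) (hW : W.IsSemistableModel) (h11 : 11 ≤ p)
    (M : Matrix (Fin 2) (Fin 2) (ZMod p)) (hM : M.det ≠ 0) :
    ∃ σ, (B.rep σ).map PadicInt.toZMod = M := by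
  obtain ⟨σ, hσ⟩ :=
    FA.Thirteen.exists_curveRep_eq_of_onlyCusps FA.Thirteen.onlyCusps hΔ hW h11 hM
  exact ⟨σ, (rep_map_toZMod B σ).trans hσ⟩

/-- Membership in the `p ^ n`-torsion. -/
theorem mem_torsionBy_pow_iff {n : ℕ} {Q : ((ratCurve W)⁄Qb).Point} :
    Q ∈ Submodule.torsionBy ℤ ((ratCurve W)⁄Qb).Point ((p : ℤ) ^ n) ↔ p ^ n • Q = 0 := by
  rw [Submodule.mem_torsionBy_iff, ← Nat.cast_pow, natCast_zsmul]

/-- An additive map of the `p ^ n`-torsion is given by a matrix. -/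
theorem exists_matrix_of_addHom (n : ℕ)
    (f : Submodule.torsionBy ℤ ((ratCurve W)⁄Qb).Point ((p : ℤ) ^ n) →+
      Submodule.torsionBy ℤ ((ratCurve W)⁄Qb).Point ((p : ℤ) ^ n))
    (mem : ∀ v, B.φ n v ∈ Submodule.torsionBy ℤ ((ratCurve W)⁄Qb).Point ((p : ℤ) ^ n)) :
    ∃ M : Matrix (Fin 2) (Fin 2) ℤ_[p], ∀ v, (f ⟨B.φ n v, mem v⟩).1 = B.φ n (M *ᵥ v) := by
  have hT : ∀ x : Submodule.torsionBy ℤ ((ratCurve W)⁄Qb).Point ((p : ℤ) ^ n),
      p ^ n • x.1 = 0 := fun x => mem_torsionBy_pow_iff.mp x.2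
  choose c hc using fun j : Fin 2 => B.surj n _ (hT (f ⟨B.φ n (Pi.single j 1), mem _⟩))
  refine ⟨Matrix.of fun i j => c j i, fun v => ?_⟩
  have : NeZero (p ^ n) := ⟨pow_ne_zero _ hp.out.ne_zero⟩
  let k : Fin 2 → ℕ := fun i => (PadicInt.toZModPow n (v i)).val
  let v' : Fin 2 → ℤ_[p] := fun i => (k i : ℤ_[p])
  have hv : B.φ n v = B.φ n v' := B.phi_eq_iff.mpr fun i => by
    show _ = PadicInt.toZModPow n (k i : ℤ_[p])
    rw [map_natCast, ZMod.natCast_zmod_val]
  have hv' : v' = k 0 • Pi.single 0 1 + k 1 • Pi.single 1 1 := by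
    funext i
    fin_cases i <;> simp [v', nsmul_eq_mul]
  have e1 : (⟨B.φ n v, mem v⟩ : Submodule.torsionBy ℤ ((ratCurve W)⁄Qb).Point ((p : ℤ) ^ n)) =
      k 0 • ⟨B.φ n (Pi.single 0 1), mem _⟩ + k 1 • ⟨B.φ n (Pi.single 1 1), mem _⟩ :=
    Subtype.ext (by
      show B.φ n v = k 0 • B.φ n (Pi.single 0 1) + k 1 • B.φ n (Pi.single 1 1)
      rw [hv, hv', map_add, map_nsmul, map_nsmul])
  rw [e1, map_add, map_nsmul, map_nsmul, B.phi_mulVec_congr _ hv, hv', mulVec_add, mulVec_smul,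
    mulVec_smul, mulVec_single_one, mulVec_single_one, map_add, map_nsmul, map_nsmul]
  have e : ∀ j, (Matrix.of fun i j => c j i).col j = c j := fun j => rfl
  rw [e, e, hc, hc]
  rfl

/-- The image of the Tate module meets every invertible class modulo every power of `p`. -/
def ReachAll (p : ℕ) [Fact p.Prime] (W : WeierstrassCurve ℤ) [(ratCurve W).IsElliptic] : Prop :=
  ∀ (B : FA.RT.Tate.TateBasis p W) (n : ℕ) (M : Matrix (Fin 2) (Fin 2) ℤ_[p]),
    IsUnit M.det → Reach B.rep n M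

/-- Every additive automorphism of the `p ^ n`-torsion comes from Galois when the image is
everything modulo every power of `p`. -/
theorem exists_smul_eq_pow_of_reach (hreach : ReachAll p W) (n : ℕ)
    (φ : Submodule.torsionBy ℤ ((ratCurve W)⁄Qb).Point ((p : ℤ) ^ n) ≃+
      Submodule.torsionBy ℤ ((ratCurve W)⁄Qb).Point ((p : ℤ) ^ n)) :
    ∃ σ : GQ, ∀ x, σ • x.1 = (φ x).1 := by
  have hT : ∀ x : Submodule.torsionBy ℤ ((ratCurve W)⁄Qb).Point ((p : ℤ) ^ n),
      p ^ n • x.1 = 0 := fun x => mem_torsionBy_pow_iff.mp x.2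
  rcases Nat.eq_zero_or_pos n with rfl | hn
  · refine ⟨1, fun x => ?_⟩
    have h1 := hT x
    have h2 := hT (φ x)
    rw [pow_zero, one_nsmul] at h1 h2
    rw [one_smul]
    exact h1.trans h2.symm
  obtain ⟨B⟩ := FA.RT.Tate.exists_tateBasis (p := p) W
  have mem : ∀ v, B.φ n v ∈
      Submodule.torsionBy ℤ ((ratCurve W)⁄Qb).Point ((p : ℤ) ^ n) :=
    fun v => mem_torsionBy_pow_iff.mpr (B.nsmul_phi n v)
  obtain ⟨M, hM⟩ := exists_matrix_of_addHom B n φ.toAddMonoidHom mem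
  obtain ⟨N, hN⟩ := exists_matrix_of_addHom B n φ.symm.toAddMonoidHom mem
  have hMN : ∀ v, B.φ n ((N * M) *ᵥ v) = B.φ n v := fun v => by
    rw [← mulVec_mulVec, ← hN]
    have e : (⟨B.φ n (M *ᵥ v), mem _⟩ :
        Submodule.torsionBy ℤ ((ratCurve W)⁄Qb).Point ((p : ℤ) ^ n)) = φ ⟨B.φ n v, mem v⟩ :=
      Subtype.ext (hM v).symm
    rw [e]
    exact congrArg Subtype.val (φ.symm_apply_apply _)
  have hdet : IsUnit M.det := by
    have h1 : (PadicInt.toZModPow n).mapMatrix (N * M) = 1 := by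
      ext i j
      have h := B.phi_eq_iff.mp (hMN (Pi.single j 1)) i
      rw [mulVec_single_one] at h
      rw [RingHom.mapMatrix_apply, Matrix.map_apply]
      exact h.trans (by rw [Matrix.one_apply, Pi.single_apply,
        apply_ite (PadicInt.toZModPow n), map_one, map_zero])
    have h2 := congrArg Matrix.det h1
    rw [← RingHom.map_det, det_one, ← (PadicInt.toZModPow n).map_one, toZModPow_eq_iff] at h2
    obtain ⟨z, hz⟩ := h2
    refine isUnit_iff_toZMod.mpr fun h0 => ?_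
    have h3 := congrArg PadicInt.toZMod hz
    rw [det_mul, map_mul, h0, mul_zero, map_add, map_mul, map_pow, map_natCast, ZMod.natCast_self,
      zero_pow hn.ne', zero_mul, add_zero, map_one] at h3
    exact zero_ne_one h3
  obtain ⟨σ, Y, hσ⟩ := hreach B n M hdet
  refine ⟨σ, fun x => ?_⟩
  obtain ⟨v, hv⟩ := B.surj n x.1 (hT x)
  have e : x = ⟨B.φ n v, mem v⟩ := Subtype.ext hv.symm
  rw [e]
  refine (B.rep_spec σ n v).trans ((B.phi_eq_iff.mpr fun i => ?_).trans (hM v).symm)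
  rw [hσ, add_mulVec, smul_mulVec, Pi.add_apply, Pi.smul_apply, smul_eq_mul, map_add, map_mul,
    map_pow, map_natCast, ← Nat.cast_pow, ZMod.natCast_self, zero_mul, add_zero]

/-- A full residual image gives everything modulo every power of `p ≥ 5`. -/
theorem reachAll_of_base (h5 : 5 ≤ p)
    (hbase : ∀ (B : FA.RT.Tate.TateBasis p W) (M : Matrix (Fin 2) (Fin 2) (ZMod p)), M.det ≠ 0 →
      ∃ σ, (B.rep σ).map PadicInt.toZMod = M) : ReachAll p W := fun B n _ hM =>
  reach_all (r := B.rep) h5 (hbase B) (exists_det_rep_eq B) n hM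

/-- Every additive automorphism of the `p ^ n`-torsion comes from Galois as soon as the residual
image is everything and `p ≥ 5`. -/
theorem exists_smul_eq_pow_of_base (h5 : 5 ≤ p)
    (hbase : ∀ (B : FA.RT.Tate.TateBasis p W) (M : Matrix (Fin 2) (Fin 2) (ZMod p)), M.det ≠ 0 →
      ∃ σ, (B.rep σ).map PadicInt.toZMod = M) (n : ℕ)
    (φ : Submodule.torsionBy ℤ ((ratCurve W)⁄Qb).Point ((p : ℤ) ^ n) ≃+
      Submodule.torsionBy ℤ ((ratCurve W)⁄Qb).Point ((p : ℤ) ^ n)) :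
    ∃ σ : GQ, ∀ x, σ • x.1 = (φ x).1 :=
  exists_smul_eq_pow_of_reach (reachAll_of_base h5 hbase) n φ

/-- Every additive automorphism of the `p ^ n`-torsion of a semistable equation comes from
Galois. -/
theorem exists_smul_eq_pow (hΔ : W.Δ ≠ 0) (hW : W.IsSemistableModel) (h11 : 11 ≤ p) (n : ℕ)
    (φ : Submodule.torsionBy ℤ ((ratCurve W)⁄Qb).Point ((p : ℤ) ^ n) ≃+
      Submodule.torsionBy ℤ ((ratCurve W)⁄Qb).Point ((p : ℤ) ^ n)) :
    ∃ σ : GQ, ∀ x, σ • x.1 = (φ x).1 :=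
  exists_smul_eq_pow_of_base (by omega) (fun B => exists_rep_map_eq B hΔ hW h11) n φ

end FA.PadicImage

namespace FA.Summary

/-- **Serre's `p`-adic surjectivity** for semistable elliptic curves over `ℚ` and every prime
`p ≥ 11`: the Galois group induces every automorphism of the group of `p ^ n`-torsion points. -/
theorem galoisSurjectiveTorsion_pow (E : WeierstrassCurve ℚ) [E.IsElliptic]
    (h : ∀ p : ℕ, ∀ [Fact p.Prime], ∃ C : VariableChange ℚ_[p],
      HasGoodReduction ℤ_[p] (C • E.map (algebraMap ℚ ℚ_[p])) ∨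
        HasMultiplicativeReduction ℤ_[p] (C • E.map (algebraMap ℚ ℚ_[p])))
    [inst : DecidableEq (AlgebraicClosure ℚ)] {p : ℕ} (hp : p.Prime) (h11 : 11 ≤ p) (n : ℕ)
    (φ : Submodule.torsionBy ℤ (E.toAffine⁄(AlgebraicClosure ℚ)).Point ((p : ℤ) ^ n) ≃+
      Submodule.torsionBy ℤ (E.toAffine⁄(AlgebraicClosure ℚ)).Point ((p : ℤ) ^ n)) :
    ∃ σ : AlgebraicClosure ℚ ≃ₐ[ℚ] AlgebraicClosure ℚ, ∀ P,
      Affine.Point.map σ.toAlgHom P.1 = (φ P).1 := by
  obtain rfl : inst = instDecEqAlgebraicClosureRat := Subsingleton.elim _ _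
  obtain ⟨W, hW, hs⟩ := FA.Root.exists_semistableModel E
    fun q _ => FA.Root.isSemistableAt_of_reduction E (h q).choose_spec
  have hΔ : W.Δ ≠ 0 := FA.Frob.Δ_ne_zero_of_model hW
  haveI := FA.Frob.ratCurve_isElliptic_of_Δ hΔ
  haveI := Fact.mk hp
  exact FA.Root.exists_map_eq_of_model hW _ (FA.PadicImage.exists_smul_eq_pow hΔ hs h11 n) φ

end FA.Summary

end
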