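import Fermat.Agent.Root.EtaEleven

/-!
# The eta product of level 11

The classical example of modularity: `η(z)² η(11z)²` is the newform of `E : y² + y = x³ - x²`, so
the coefficients of the L-function of `E` are those of `q ∏ (1 - qⁿ)² (1 - q¹¹ⁿ)²`, and this
product counts the points of `E` modulo every prime `p ≠ 11`.
-/

set_option autoImplicit false

noncomputable section

open WeierstrassCurve

namespace FA.Summary

/-- **`η(z)² η(11z)²` is the newform of `y² + y = x³ - x²`**: a cusp form of weight two of level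
`11` with the coefficients of the L-function. -/
theorem eta_product_levelEleven : ∃ f : CuspForm (CongruenceSubgroup.Gamma0 11) 2,
    (∀ z : UpperHalfPlane,
      f z = ModularForm.eta (z : ℂ) ^ 2 * ModularForm.eta (11 * (z : ℂ)) ^ 2) ∧
    ∀ n : ℕ, (UpperHalfPlane.qExpansion 1 f).coeff n =
      ((⟨0, -1, 1, 0, 0⟩ : WeierstrassCurve ℚ).LFunction n : ℂ) := by
  refine ⟨FA.EtaEleven.formEleven, fun z => ?_, fun n => ?_⟩
  · show FA.EtaEleven.eta11 z = _
    rw [FA.EtaEleven.eta11, FA.ModField.coe_scaleH, Nat.cast_ofNat]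
  · rw [FA.EtaEleven.LFunction_eq_series]
    exact FA.EtaEleven.qCoeff_formEleven n

/-- **The L-function of `y² + y = x³ - x²` as a product**: its `n`-th coefficient is that of
`X ∏ (1 - Xᵏ)² (1 - X¹¹ᵏ)²`, the product over any range reaching `n - 1`. -/
theorem lFunction_11a3_eq_coeff (n m : ℕ) (h : n ≤ m + 1) :
    (⟨0, -1, 1, 0, 0⟩ : WeierstrassCurve ℚ).LFunction n =
      PowerSeries.coeff n (PowerSeries.X *
        ((∏ k ∈ Finset.range m, (1 - PowerSeries.X ^ (k + 1) : PowerSeries ℤ)) ^ 2 *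
          (∏ k ∈ Finset.range m, (1 - PowerSeries.X ^ (11 * (k + 1)))) ^ 2)) := by
  set P : PowerSeries ℤ := ∏ k ∈ Finset.range m, (1 - PowerSeries.X ^ (k + 1)) with hP
  have e : (∏ k ∈ Finset.range m, (1 - PowerSeries.X ^ (11 * (k + 1))) : PowerSeries ℤ) =
      PowerSeries.expand 11 (by norm_num) P := by
    rw [hP, map_prod]
    exact Finset.prod_congr rfl fun k _ => by
      rw [map_sub, map_one, map_pow, PowerSeries.expand_X, pow_mul]
  rw [FA.EtaEleven.LFunction_eq_series, e, ← map_pow, FA.EtaEleven.series]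
  rcases n with _ | n
  · simp
  rw [PowerSeries.coeff_succ_X_mul, PowerSeries.coeff_succ_X_mul]
  have hsq : ∀ i ≤ n, PowerSeries.coeff i (ModularCurve.etaProd ^ 2) =
      PowerSeries.coeff i (P ^ 2) := fun i hi => by
    rw [pow_two, pow_two]
    have hP' : ∀ j ≤ i, PowerSeries.coeff j ModularCurve.etaProd = PowerSeries.coeff j P :=
      fun j hj => FA.EtaEleven.coeff_etaProd (by omega)
    exact FA.EtaEleven.coeff_mul_congr hP' hP'
  refine FA.EtaEleven.coeff_mul_congr hsq fun i hi => ?_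
  rw [PowerSeries.coeff_expand, PowerSeries.coeff_expand]
  split_ifs with hd
  · rw [hsq _ ((Nat.div_le_self _ _).trans hi)]
  · rfl

/-- The coefficient at a prime `p ≠ 11` counts the points of `y² + y = x³ - x²` modulo `p`. -/
theorem pointCount_11a3 {p : ℕ} (hp : p.Prime) (h11 : p ≠ 11) :
    (Nat.card ((⟨0, -1, 1, 0, 0⟩ : WeierstrassCurve ℤ).map
      (Int.castRingHom (ZMod p))).toAffine.Point : ℤ) =
      p + 1 - (⟨0, -1, 1, 0, 0⟩ : WeierstrassCurve ℚ).LFunction p := by
  have hgood : ¬ (p : ℤ) ∣ FA.Ribet.curve11.Δ := fun hd => by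
    rw [FA.Ribet.curve11_Δ, Int.dvd_neg] at hd
    exact h11 ((Nat.prime_dvd_prime_iff_eq hp (by norm_num)).mp (by exact_mod_cast hd))
  rw [show (⟨0, -1, 1, 0, 0⟩ : WeierstrassCurve ℚ) =
      FA.Ribet.curve11.map (Int.castRingHom ℚ) by ext <;> simp [FA.Ribet.curve11],
    FA.Root.LFunction_apply_prime _ FA.Ribet.curve11 ⟨1, one_smul _ _⟩ hp hgood, apOfModel,
    traceOfFrobenius, Nat.card_zmod, WeierstrassCurve.card, reductionMod, FA.Ribet.curve11]
  ring

/-- The same coefficients for every semistable curve with good reduction outside `11`. -/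
theorem lFunction_levelEleven_eq_coeff (E : WeierstrassCurve ℚ) [E.IsElliptic]
    (h : ∀ p : ℕ, ∀ [Fact p.Prime], ∃ C : VariableChange ℚ_[p],
      HasGoodReduction ℤ_[p] (C • E.map (algebraMap ℚ ℚ_[p])) ∨
        HasMultiplicativeReduction ℤ_[p] (C • E.map (algebraMap ℚ ℚ_[p])))
    (hgood : ∀ p : ℕ, ∀ [Fact p.Prime], p ≠ 11 → ∃ C : VariableChange ℚ_[p],
      HasGoodReduction ℤ_[p] (C • E.map (algebraMap ℚ ℚ_[p]))) (n m : ℕ) (hn : n ≤ m + 1) :
    E.LFunction n = PowerSeries.coeff n (PowerSeries.X *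
      ((∏ k ∈ Finset.range m, (1 - PowerSeries.X ^ (k + 1) : PowerSeries ℤ)) ^ 2 *
        (∏ k ∈ Finset.range m, (1 - PowerSeries.X ^ (11 * (k + 1)))) ^ 2)) := by
  rw [uniqueLevelEleven (E := E) h hgood]
  exact lFunction_11a3_eq_coeff n m hn

end FA.Summary

end
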