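import Fermat.Agent.Tau.GaloisEleven
import Fermat.Agent.Root.SummaryEtaEleven

/-!
# Ramanujan's `τ` modulo 11

The coefficients `τ(n)` of `Δ` are congruent modulo `11` to those of the L-function of
`y² + y = x³ - x²`, whose point counts they thus give modulo `11`; so the representation modulo
`11` attached to `Δ` has image `GL₂(𝔽₁₁)`.
-/

set_option autoImplicit false

noncomputable section

open UpperHalfPlane hiding I
open IsLocalRing (ResidueField)

namespace FA.Tau

/-- The coefficients of `Δ` and the congruence, with the integral series named. -/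
theorem exists_tau (n : ℕ) :
    (qExpansion 1 ModularForm.discriminant).coeff n = ((PowerSeries.coeff n deltaInt : ℤ) : ℂ) ∧
      (11 : ℤ) ∣ PowerSeries.coeff n deltaInt -
        (⟨0, -1, 1, 0, 0⟩ : WeierstrassCurve ℚ).LFunction n := by
  refine ⟨qExpansion_discriminant n, ?_⟩
  rw [show (⟨0, -1, 1, 0, 0⟩ : WeierstrassCurve ℚ).LFunction n = PowerSeries.coeff n elevenInt from
    FA.EtaEleven.LFunction_eq_series n]
  exact dvd_coeff_deltaInt_sub n

end FA.Tau

namespace FA.Summary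

/-- **Ramanujan's `τ` modulo 11**: the coefficients of `Δ` are congruent modulo `11` to those of
the L-function of `y² + y = x³ - x²`. -/
theorem ramanujanTau_mod_eleven (n : ℕ) : ∃ k : ℤ,
    (qExpansion 1 ModularForm.discriminant).coeff n =
      (((⟨0, -1, 1, 0, 0⟩ : WeierstrassCurve ℚ).LFunction n + 11 * k : ℤ) : ℂ) := by
  obtain ⟨h, k, hk⟩ := FA.Tau.exists_tau n
  exact ⟨k, by rw [h, ← hk, add_sub_cancel]⟩

/-- **`τ(p)` counts points modulo 11**: for a prime `p ≠ 11` the curve `y² + y = x³ - x²` has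
`p + 1 - τ(p)` points over `𝔽_p` up to a multiple of `11`. -/
theorem ramanujanTau_pointCount {p : ℕ} (hp : p.Prime) (h11 : p ≠ 11) : ∃ τ : ℤ,
    (τ : ℂ) = (qExpansion 1 ModularForm.discriminant).coeff p ∧
      (11 : ℤ) ∣ (Nat.card ((⟨0, -1, 1, 0, 0⟩ : WeierstrassCurve ℤ).map
        (Int.castRingHom (ZMod p))).toAffine.Point : ℤ) - (p + 1 - τ) := by
  obtain ⟨h, hd⟩ := FA.Tau.exists_tau p
  refine ⟨_, h.symm, ?_⟩
  rw [pointCount_11a3 hp h11]
  convert hd using 1
  ring

/-- **The representation modulo 11 attached to `Δ`** has image `GL₂(𝔽₁₁)`: there is a surjective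
representation with open kernel, unramified at the primes `l ≠ 11`, where a Frobenius has trace
`τ(l)` and determinant `l¹¹`. -/
theorem ramanujanTau_galois_eleven :
    ∃ ρ : (AlgebraicClosure ℚ ≃ₐ[ℚ] AlgebraicClosure ℚ) →* GL (Fin 2) (ZMod 11),
      IsOpen (ρ.ker : Set (AlgebraicClosure ℚ ≃ₐ[ℚ] AlgebraicClosure ℚ)) ∧ Function.Surjective ρ ∧
      ∀ l : ℕ, l.Prime → l ≠ 11 →
        ∀ A : ValuationSubring (AlgebraicClosure ℚ), (l : AlgebraicClosure ℚ) ∈ A.nonunits →
          (∀ σ ∈ A.inertiaSubgroup ℚ, ρ σ = 1) ∧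
          ∀ σ : A.decompositionSubgroup ℚ, (∀ x : ResidueField A, σ • x = x ^ l) →
            ∃ τ : ℤ, (τ : ℂ) = (qExpansion 1 ModularForm.discriminant).coeff l ∧
              (ρ σ).val.trace = (τ : ZMod 11) ∧ (ρ σ).val.det = (l : ZMod 11) ^ 11 := by
  obtain ⟨ρ, hopen, hsurj, h⟩ := FA.Tau.exists_rep_eleven
    (fun n => PowerSeries.coeff n FA.Tau.deltaInt) fun n => (FA.Tau.exists_tau n).2
  exact ⟨ρ, hopen, hsurj, fun l hl h11 A hA => ⟨(h l hl h11 A hA).1, fun σ hσ =>
    ⟨_, (FA.Tau.exists_tau l).1.symm, (h l hl h11 A hA).2 σ hσ⟩⟩⟩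

end FA.Summary

end
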