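import Fermat.Agent.Chebotarev.Density
import Fermat.Agent.Root.SummarySurjectivePow
import Fermat.Agent.Root.SummaryTauEleven
import Fermat.Agent.Root.SummaryTraces
import Fermat.Agent.Root.SummaryFrobeniusFields

/-!
# Consequences of Chebotarev's theorem

For a surjection of the absolute Galois group onto a finite group with open kernel, infinitely many
primes have their Frobenius elements in a given conjugacy class. Hence for a semistable curve and a
prime `l ≥ 11` every pair (trace, nonzero determinant) modulo `l` is `(a_q, q)` for infinitely many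
primes `q`, and `(τ(p), p)` takes every such value modulo `11` infinitely often.
-/

set_option autoImplicit false
set_option linter.style.haveILetI false

noncomputable section

open WeierstrassCurve Matrix Filter Topology FA.Frob FA.RT
open UpperHalfPlane hiding I
open IsLocalRing (ResidueField)

local notation "Qb" => AlgebraicClosure ℚ
local notation "GQ" => AlgebraicClosure ℚ ≃ₐ[ℚ] AlgebraicClosure ℚ

namespace FA.Chebotarev

/-- A nonempty set stable under conjugation contains the Frobenius elements of a prime outside a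
given finite set. -/
theorem exists_frobenius_mem {G : Type} [Group G] [Fintype G] (π : GQ →* G)
    (hπ : Function.Surjective π) (hker : IsOpen (π.ker : Set GQ)) {X : Set G}
    (hX : ∀ g ∈ X, ∀ x, x * g * x⁻¹ ∈ X) (hne : X.Nonempty) (S : Finset ℕ) :
    ∃ p : ℕ, p.Prime ∧ p ∉ S ∧ ∀ A : ValuationSubring Qb, A.LiesOverPrime p →
      ∀ σ : GQ, A.IsFrobeniusAt σ p → π σ ∈ X := by
  classical
  set r : ℝ := (Nat.card X : ℝ) / Fintype.card G with hr
  have hr0 : 0 < r := by
    have : Nonempty X := hne.to_subtype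
    exact div_pos (Nat.cast_pos.mpr Nat.card_pos) (Nat.cast_pos.mpr Fintype.card_pos)
  obtain ⟨C, hC⟩ := exists_density_lower π hπ hker hX (half_pos hr0)
  obtain ⟨s, ⟨T, hT, hsum⟩, hs, hL⟩ := (hC.and
    ((eventually_mem_nhdsWithin (s := Set.Ioi (1 : ℝ))).and
    ((tendsto_log_atTop.const_mul_atTop (half_pos hr0)).eventually_gt_atTop
      (C + S.card)))).exists
  by_contra hcon
  push Not at hcon
  have hsub : T ⊆ S := fun p hp => by
    by_contra h
    obtain ⟨A, hA, σ, hσ, hne'⟩ := hcon p (hT p hp).1 h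
    exact hne' ((hT p hp).2 A hA σ hσ)
  have hle : ∑ p ∈ T, (p : ℝ) ^ (-s) ≤ S.card := by
    refine (Finset.sum_le_card_nsmul _ _ 1 fun p hp => ?_).trans ?_
    · exact Real.rpow_le_one_of_one_le_of_nonpos (by exact_mod_cast (hT p hp).1.one_lt.le)
        (by linarith [hs.out])
    · rw [nsmul_eq_mul, mul_one]
      exact_mod_cast Finset.card_le_card hsub
  rw [show r - r / 2 = r / 2 by ring] at hsum
  linarith

theorem mkTraceDet {l : ℕ} [Fact l.Prime] (t d : ZMod l) :
    (!![0, -d; 1, t] : Matrix (Fin 2) (Fin 2) (ZMod l)).trace = t ∧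
      (!![0, -d; 1, t] : Matrix (Fin 2) (Fin 2) (ZMod l)).det = d := by
  constructor <;> simp [Matrix.trace_fin_two, Matrix.det_fin_two_of]

end FA.Chebotarev

namespace FA.Summary

/-- **Chebotarev in the absolute Galois group**: for a surjection of `G_ℚ` onto a finite group with
open kernel and any element `g`, infinitely many primes have all their Frobenius elements mapping
to conjugates of `g`. -/
theorem chebotarev_galois {G : Type} [Group G] [Finite G] (π : GQ →* G)
    (hπ : Function.Surjective π) (hker : IsOpen (π.ker : Set GQ)) (g : G) :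
    {p : ℕ | p.Prime ∧ ∀ A : ValuationSubring Qb, (p : Qb) ∈ A.nonunits →
      ∀ σ : A.decompositionSubgroup ℚ, (∀ x : ResidueField A, σ • x = x ^ p) →
        IsConj g (π σ)}.Infinite := by
  classical
  have := Fintype.ofFinite G
  intro hfin
  obtain ⟨p, hp, hpS, h⟩ := FA.Chebotarev.exists_frobenius_mem π hπ hker (X := {x | IsConj g x})
    (fun y hy x => hy.trans (isConj_iff.mpr ⟨x, rfl⟩)) ⟨g, IsConj.refl g⟩ hfin.toFinset
  exact hpS (hfin.mem_toFinset.mpr ⟨hp, fun A hA σ hσ => h A hA σ.1 ⟨σ.2, hσ⟩⟩)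

/-- **The residues of the traces**: for a semistable elliptic curve and a prime `l ≥ 11`, every
`t` and every `d ≠ 0` modulo `l` are `a_q` and `q` for infinitely many good primes `q`. -/
theorem frobeniusTrace_residues (E : WeierstrassCurve ℚ) [E.IsElliptic]
    (h : ∀ p : ℕ, ∀ [Fact p.Prime], ∃ C : VariableChange ℚ_[p],
      HasGoodReduction ℤ_[p] (C • E.map (algebraMap ℚ ℚ_[p])) ∨
        HasMultiplicativeReduction ℤ_[p] (C • E.map (algebraMap ℚ ℚ_[p])))
    {l : ℕ} [hl : Fact l.Prime] (h11 : 11 ≤ l) (t : ZMod l) {d : ZMod l} (hd : d ≠ 0) :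
    {q : ℕ | ∃ _ : Fact q.Prime,
      (∃ C : VariableChange ℚ_[q], HasGoodReduction ℤ_[q] (C • E.map (algebraMap ℚ ℚ_[q]))) ∧
      (E.LFunction q : ZMod l) = t ∧ (q : ZMod l) = d}.Infinite := by
  classical
  obtain ⟨W, hW, hs⟩ := FA.Root.exists_semistableModel E
    fun q _ => FA.Root.isSemistableAt_of_reduction E (h q).choose_spec
  have hΔ : W.Δ ≠ 0 := FA.Frob.Δ_ne_zero_of_model hW
  haveI := FA.Frob.ratCurve_isElliptic_of_Δ hΔ
  set r := (curveRep l W).toHomUnits
  have hopen : IsOpen (r.ker : Set GQ) := by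
    rw [show (r.ker : Set GQ) = ((curveRep l W).ker : Set GQ) from Set.ext fun σ => by
      simp [r, MonoidHom.mem_ker]]
    exact isOpen_ker_curveRep W
  have hsurj : Function.Surjective r := fun M => by
    obtain ⟨σ, hσ⟩ := FA.Thirteen.exists_curveRep_eq_of_onlyCusps FA.Thirteen.onlyCusps hΔ hs h11
      (M := M.val) (((Matrix.isUnit_iff_isUnit_det _).mp M.isUnit).ne_zero)
    exact ⟨σ, Units.ext hσ⟩
  intro hfin
  obtain ⟨htr, hdet⟩ := FA.Chebotarev.mkTraceDet t d
  obtain ⟨q, hq, hqS, hF⟩ := FA.Chebotarev.exists_frobenius_mem r hsurj hopen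
    (X := {M | M.val.trace = t ∧ M.val.det = d})
    (fun M hM x => by
      show _ ∧ _
      rw [Units.val_mul, Units.val_mul, Matrix.trace_units_conj, Matrix.det_units_conj]
      exact hM)
    ⟨Matrix.GeneralLinearGroup.mkOfDetNeZero !![0, -d; 1, t] (by rw [hdet]; exact hd), htr, hdet⟩
    (hfin.toFinset ∪ {l} ∪ W.Δ.natAbs.divisors)
  simp only [Finset.mem_union, Finset.mem_singleton, Nat.mem_divisors, ne_eq, Int.natAbs_eq_zero,
    hΔ, not_false_eq_true, and_true, not_or] at hqS
  obtain ⟨⟨hqS, hql⟩, hqΔ⟩ := hqS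
  have hgood : ¬ (q : ℤ) ∣ W.Δ := fun h => hqΔ (Int.natCast_dvd.mp h)
  haveI := Fact.mk hq
  obtain ⟨A, hA⟩ := FA.Deform.exists_liesOverPrime hq
  obtain ⟨σ, hσ⟩ := FA.Deform.exists_isFrobeniusAt hq hA
  obtain ⟨h1, h2⟩ := hF A hA σ hσ
  obtain ⟨h3, h4⟩ := FA.Ribet.curveRep_frobenius (p := l) hq hql hgood hA hσ
  refine hqS (hfin.mem_toFinset.mpr ⟨this, ?_, ?_, ?_⟩)
  · exact FA.Root.exists_good_of_model hW q hgood
  · rw [FA.Root.LFunction_apply_prime E W hW hq hgood, ← h3]
    exact h1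
  · rw [← h4]
    exact h2

/-- **`τ` modulo 11**: for every `t` and every `d ≠ 0` modulo `11` infinitely many primes `p` have
`τ(p) ≡ t` and `p ≡ d` modulo `11`. -/
theorem ramanujanTau_residues_eleven (t : ZMod 11) {d : ZMod 11} (hd : d ≠ 0) :
    {p : ℕ | p.Prime ∧ ∃ τ : ℤ, (τ : ℂ) =
      (qExpansion 1 ModularForm.discriminant).coeff p ∧ (τ : ZMod 11) = t ∧
        (p : ZMod 11) = d}.Infinite := by
  classical
  have : Fact (Nat.Prime 11) := ⟨by norm_num⟩
  obtain ⟨ρ, hopen, hsurj, h⟩ := ramanujanTau_galois_eleven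
  intro hfin
  obtain ⟨htr, hdet⟩ := FA.Chebotarev.mkTraceDet t d
  obtain ⟨p, hp, hpS, hF⟩ := FA.Chebotarev.exists_frobenius_mem ρ hsurj hopen
    (X := {M | M.val.trace = t ∧ M.val.det = d})
    (fun M hM x => by
      show _ ∧ _
      rw [Units.val_mul, Units.val_mul, Matrix.trace_units_conj, Matrix.det_units_conj]
      exact hM)
    ⟨Matrix.GeneralLinearGroup.mkOfDetNeZero !![0, -d; 1, t] (by rw [hdet]; exact hd), htr, hdet⟩
    (hfin.toFinset ∪ {11})
  simp only [Finset.mem_union, Finset.mem_singleton, not_or] at hpS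
  obtain ⟨hpS, hp11⟩ := hpS
  obtain ⟨A, hA⟩ := FA.Deform.exists_liesOverPrime hp
  obtain ⟨σ, hσ⟩ := FA.Deform.exists_isFrobeniusAt hp hA
  obtain ⟨h1, h2⟩ := hF A hA σ hσ
  obtain ⟨τ, hτ, h3, h4⟩ := (h p hp hp11 A hA).2 ⟨σ, hσ.1⟩ hσ.2
  refine hpS (hfin.mem_toFinset.mpr ⟨hp, τ, hτ, h3.symm.trans h1, ?_⟩)
  have h5 : (p : ZMod 11) ^ 11 = p := ZMod.pow_card _
  rw [← h5, ← h4]
  exact h2

end FA.Summary

end
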