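import Fermat.Agent.Independence.Group
import Fermat.Agent.OpenImageAll.Traces
import Fermat.Agent.Root.SummarySupersingularDensity
import Fermat.Agent.Root.SummaryChebotarevTraces

/-!
# The independence of the torsion fields of two elliptic curves

Serre's theorem for two curves (Invent. Math. 15 (1972), Théorème 6), modulo large primes: if two
curves over `ℚ` with non-integral invariants differ in `a_q²` at one prime `q` of good reduction,
then for every large prime `l` every pair of automorphisms of their `l`-torsion groups with equal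
determinants comes from one element of Galois; hence every triple `(t, t', d ≠ 0)` is
`(a_q, a'_q, q)` modulo `l` for infinitely many `q`.
-/

set_option autoImplicit false
set_option linter.style.haveILetI false

noncomputable section

open WeierstrassCurve Matrix FA.Frob FA.RT
open scoped WeierstrassCurve.Affine
open FA.OpenImageAll (SurjectiveLarge)

local notation "Qb" => AlgebraicClosure ℚ
local notation "GQ" => AlgebraicClosure ℚ ≃ₐ[ℚ] AlgebraicClosure ℚ

namespace FA.Independence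

/-- The determinants of the representations of two curves agree. -/
theorem det_eq (W W' : WeierstrassCurve ℤ) [(ratCurve W).IsElliptic] [(ratCurve W').IsElliptic]
    {l : ℕ} [hl : Fact l.Prime] (σ : GQ) :
    (curveRep l W σ).det = (curveRep l W' σ).det := by
  haveI : NeZero l := ⟨hl.out.ne_zero⟩
  rw [curveRep_apply, curveRep_apply, LinearMap.det_toMatrix, LinearMap.det_toMatrix,
    det_galoisRepModuleEnd l _ natCard_rootsOfUnity, det_galoisRepModuleEnd l _ natCard_rootsOfUnity]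

/-- The two representations together. -/
def pairRep (W W' : WeierstrassCurve ℤ) [(ratCurve W).IsElliptic] [(ratCurve W').IsElliptic]
    (l : ℕ) [Fact l.Prime] : GQ →* GL (Fin 2) (ZMod l) × GL (Fin 2) (ZMod l) :=
  (curveRep l W).toHomUnits.prod (curveRep l W').toHomUnits

/-- The kernel of the pair is open. -/
theorem isOpen_ker_pairRep (W W' : WeierstrassCurve ℤ) [(ratCurve W).IsElliptic]
    [(ratCurve W').IsElliptic] (l : ℕ) [Fact l.Prime] :
    IsOpen ((pairRep W W' l).ker : Set GQ) := by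
  refine Subgroup.isOpen_mono (H₁ := (curveRep l W).ker ⊓ (curveRep l W').ker) (fun σ hσ => ?_)
    ((isOpen_ker_curveRep W).inter (isOpen_ker_curveRep W'))
  exact MonoidHom.mem_ker.mpr
    (Prod.ext (Units.ext (MonoidHom.mem_ker.mp hσ.1)) (Units.ext (MonoidHom.mem_ker.mp hσ.2)))

/-- A non-integral invariant gives the full image modulo every large prime. -/
theorem surjectiveLarge_of_pole {E : WeierstrassCurve ℚ} [E.IsElliptic]
    (hj : ∃ p : ℕ, p.Prime ∧ padicValRat p E.j < 0) {W : WeierstrassCurve ℤ}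
    [(ratCurve W).IsElliptic] (hW : W.IsIntegralModelOf E) : SurjectiveLarge W := by
  obtain ⟨M, hM⟩ := FA.Summary.galoisSurjectiveTorsion_large E hj
  exact ⟨M, fun q _ hq X hX => FA.Supersingular.exists_curveRep_eq_of_surjective hW
    (fun φ => hM q (Fact.out : q.Prime) hq φ) hX⟩

/-- **The image of the pair**: every pair of matrices with equal determinants, for all large `l`. -/
theorem exists_bound (E E' : WeierstrassCurve ℚ) [E.IsElliptic] [E'.IsElliptic]
    {W W' : WeierstrassCurve ℤ} [(ratCurve W).IsElliptic] [(ratCurve W').IsElliptic]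
    (hs : SurjectiveLarge W) (hs' : SurjectiveLarge W')
    (hW : W.IsIntegralModelOf E) (hW' : W'.IsIntegralModelOf E') {q : ℕ} (hq : q.Prime)
    (hgood : ¬ (q : ℤ) ∣ W.Δ) (hgood' : ¬ (q : ℤ) ∣ W'.Δ)
    (hne : E.LFunction q ^ 2 ≠ E'.LFunction q ^ 2) :
    ∃ M : ℕ, ∀ (l : ℕ) [Fact l.Prime], M < l → ∀ A B : GL (Fin 2) (ZMod l),
      (A : Matrix (Fin 2) (Fin 2) (ZMod l)).det = (B : Matrix (Fin 2) (Fin 2) (ZMod l)).det →
      ∃ σ : GQ, pairRep W W' l σ = (A, B) := by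
  obtain ⟨M₁, hM₁⟩ := hs
  obtain ⟨M₂, hM₂⟩ := hs'
  set k := (E.LFunction q ^ 2 - E'.LFunction q ^ 2).natAbs with hk
  refine ⟨max (max M₁ M₂) (max 7 (max q k)), fun l hl hlt A B hAB => ?_⟩
  simp only [max_lt_iff] at hlt
  obtain ⟨⟨hl1, hl2⟩, h7, hlq, hlk⟩ := hlt
  set H := (pairRep W W' l).range
  have h1 : ∀ X, ∃ Y, (X, Y) ∈ H := fun X => by
    obtain ⟨σ, hσ⟩ := hM₁ l hl1 X (det_ne_zero' X)
    exact ⟨_, σ, Prod.ext (Units.ext hσ) rfl⟩
  have h2 : ∀ Y, ∃ X, (X, Y) ∈ H := fun Y => by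
    obtain ⟨σ, hσ⟩ := hM₂ l hl2 Y (det_ne_zero' Y)
    exact ⟨_, σ, Prod.ext rfl (Units.ext hσ)⟩
  rcases full_or_trace_sq h7.le h1 (fun p ⟨σ, hσ⟩ => hσ ▸ det_eq W W' σ) h2 with hfull | htr
  · exact hfull A B hAB
  exfalso
  obtain ⟨P, hP⟩ := FA.Deform.exists_liesOverPrime hq
  obtain ⟨σ, hσ⟩ := FA.Deform.exists_isFrobeniusAt hq hP
  have h := htr _ _ (show ((pairRep W W' l σ).1, (pairRep W W' l σ).2) ∈ H from ⟨σ, rfl⟩)
  change (curveRep l W σ).trace ^ 2 = (curveRep l W' σ).trace ^ 2 at h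
  rw [(FA.Ribet.curveRep_frobenius (p := l) hq (by omega) hgood hP hσ).1,
    (FA.Ribet.curveRep_frobenius (p := l) hq (by omega) hgood' hP hσ).1,
    ← FA.Root.LFunction_apply_prime E W hW hq hgood,
    ← FA.Root.LFunction_apply_prime E' W' hW' hq hgood', ← sub_eq_zero, ← Int.cast_pow,
    ← Int.cast_pow, ← Int.cast_sub, ZMod.intCast_zmod_eq_zero_iff_dvd, Int.natCast_dvd] at h
  have hk0 : 0 < k := Int.natAbs_pos.mpr (sub_ne_zero.mpr hne)
  exact absurd (Nat.le_of_dvd hk0 h) (by omega)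

/-- Transport of the coordinates to the torsion of the curve. -/
theorem exists_coord {E : WeierstrassCurve ℚ} [E.IsElliptic] {W : WeierstrassCurve ℤ}
    [(ratCurve W).IsElliptic] (hW : W.IsIntegralModelOf E) (l : ℕ) [Fact l.Prime] :
    ∃ e : Submodule.torsionBy ℤ (E.toAffine⁄Qb).Point (l : ℤ) ≃+ (Fin 2 → ZMod l),
      ∀ (σ : GQ) (P Q : Submodule.torsionBy ℤ (E.toAffine⁄Qb).Point (l : ℤ)),
        e Q = curveRep l W σ *ᵥ e P → Affine.Point.map σ.toAlgHom P.1 = Q.1 := by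
  obtain ⟨f, hf⟩ := FA.Root.exists_equiv_of_model hW
  let fT : Submodule.torsionBy ℤ ((ratCurve W)⁄Qb).Point (l : ℤ) ≃+
      Submodule.torsionBy ℤ (E.toAffine⁄Qb).Point (l : ℤ) :=
    { toEquiv := f.toEquiv.subtypeEquiv fun Q => by
        simp only [Submodule.mem_torsionBy_iff]
        exact ⟨fun hQ => (map_zsmul f _ Q).symm.trans (by rw [hQ, map_zero]),
          fun hQ => f.injective (by rw [map_zsmul, map_zero]; exact hQ)⟩
      map_add' := fun a b => Subtype.ext (map_add f a.1 b.1) }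
  refine ⟨fT.symm.trans (torsBasis (p := l) W).equivFun.toAddEquiv, fun σ P Q h => ?_⟩
  obtain ⟨P, rfl⟩ := fT.surjective P
  obtain ⟨Q, rfl⟩ := fT.surjective Q
  simp only [AddEquiv.trans_apply, AddEquiv.symm_apply_apply, LinearEquiv.coe_toAddEquiv] at h
  erw [toMatrix_mulVec] at h
  rw [(torsBasis (p := l) W).equivFun.injective h]
  exact (hf σ P.1).symm

end FA.Independence

namespace FA.Independence

/-- Independence, on models with full images at the large primes. -/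
theorem galois_independence_of_surjective (E E' : WeierstrassCurve ℚ) [E.IsElliptic] [E'.IsElliptic]
    (W W' : WeierstrassCurve ℤ) (C C' : VariableChange ℚ)
    (hW : C • E = W.map (Int.castRingHom ℚ)) (hW' : C' • E' = W'.map (Int.castRingHom ℚ))
    [(ratCurve W).IsElliptic] [(ratCurve W').IsElliptic]
    (hs : SurjectiveLarge W) (hs' : SurjectiveLarge W')
    {q : ℕ} (hq : q.Prime) (hgood : ¬ (q : ℤ) ∣ W.Δ) (hgood' : ¬ (q : ℤ) ∣ W'.Δ)
    (hne : E.LFunction q ^ 2 ≠ E'.LFunction q ^ 2) :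
    ∃ M : ℕ, ∀ l : ℕ, l.Prime → M < l →
      ∃ (e : Submodule.torsionBy ℤ (E.toAffine⁄(AlgebraicClosure ℚ)).Point (l : ℤ) ≃+
          (Fin 2 → ZMod l))
        (e' : Submodule.torsionBy ℤ (E'.toAffine⁄(AlgebraicClosure ℚ)).Point (l : ℤ) ≃+
          (Fin 2 → ZMod l)),
        ∀ A B : Matrix (Fin 2) (Fin 2) (ZMod l), A.det = B.det → A.det ≠ 0 →
          ∃ σ : AlgebraicClosure ℚ ≃ₐ[ℚ] AlgebraicClosure ℚ,
            (∀ P Q, e Q = A *ᵥ e P → Affine.Point.map σ.toAlgHom P.1 = Q.1) ∧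
            ∀ P Q, e' Q = B *ᵥ e' P → Affine.Point.map σ.toAlgHom P.1 = Q.1 := by
  have hWm : W.IsIntegralModelOf E := ⟨C, hW⟩
  have hWm' : W'.IsIntegralModelOf E' := ⟨C', hW'⟩
  obtain ⟨M, hM⟩ := exists_bound E E' hs hs' hWm hWm' hq hgood hgood' hne
  refine ⟨M, fun l hl hlt => ?_⟩
  haveI := Fact.mk hl
  obtain ⟨e, he⟩ := exists_coord hWm l
  obtain ⟨e', he'⟩ := exists_coord hWm' l
  refine ⟨e, e', fun A B hAB hA => ?_⟩
  obtain ⟨σ, hσ⟩ := hM l hlt (GeneralLinearGroup.mkOfDetNeZero A hA)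
    (GeneralLinearGroup.mkOfDetNeZero B (hAB ▸ hA)) hAB
  have h1 : curveRep l W σ = A := congrArg Units.val (congrArg Prod.fst hσ)
  have h2 : curveRep l W' σ = B := congrArg Units.val (congrArg Prod.snd hσ)
  exact ⟨σ, fun P Q h => he σ P Q (by rw [h1]; exact h),
    fun P Q h => he' σ P Q (by rw [h2]; exact h)⟩

/-- Pairs of traces, on models with full images at the large primes. -/
theorem frobeniusTrace_pairs_of_surjective (E E' : WeierstrassCurve ℚ) [E.IsElliptic]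
    [E'.IsElliptic]
    (W W' : WeierstrassCurve ℤ) (C C' : VariableChange ℚ)
    (hW : C • E = W.map (Int.castRingHom ℚ)) (hW' : C' • E' = W'.map (Int.castRingHom ℚ))
    [(ratCurve W).IsElliptic] [(ratCurve W').IsElliptic]
    (hs : SurjectiveLarge W) (hs' : SurjectiveLarge W')
    {q : ℕ} (hq : q.Prime) (hgood : ¬ (q : ℤ) ∣ W.Δ) (hgood' : ¬ (q : ℤ) ∣ W'.Δ)
    (hne : E.LFunction q ^ 2 ≠ E'.LFunction q ^ 2) :
    ∃ M : ℕ, ∀ l : ℕ, l.Prime → M < l → ∀ t t' d : ZMod l, d ≠ 0 →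
      {r : ℕ | r.Prime ∧ (E.LFunction r : ZMod l) = t ∧ (E'.LFunction r : ZMod l) = t' ∧
        (r : ZMod l) = d}.Infinite := by
  classical
  have hWm : W.IsIntegralModelOf E := ⟨C, hW⟩
  have hWm' : W'.IsIntegralModelOf E' := ⟨C', hW'⟩
  have hΔ := FA.Frob.Δ_ne_zero_of_model hWm
  have hΔ' := FA.Frob.Δ_ne_zero_of_model hWm'
  obtain ⟨M, hM⟩ := exists_bound E E' hs hs' hWm hWm' hq hgood hgood' hne
  refine ⟨M, fun l hl hlt t t' d hd hfin => ?_⟩
  haveI := Fact.mk hl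
  set π := (pairRep W W' l).rangeRestrict
  let _ : Fintype (pairRep W W' l).range := Fintype.ofFinite _
  have hker : IsOpen (π.ker : Set GQ) := by
    rw [MonoidHom.ker_rangeRestrict]
    exact isOpen_ker_pairRep W W' l
  obtain ⟨ht, htd⟩ := FA.Chebotarev.mkTraceDet t d
  obtain ⟨ht', htd'⟩ := FA.Chebotarev.mkTraceDet t' d
  obtain ⟨σ₀, hσ₀⟩ := hM l hlt (GeneralLinearGroup.mkOfDetNeZero _ (by rw [htd]; exact hd))
    (GeneralLinearGroup.mkOfDetNeZero _ (by rw [htd']; exact hd)) (htd.trans htd'.symm)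
  obtain ⟨r, hr, hrS, hF⟩ := FA.Chebotarev.exists_frobenius_mem π
    (MonoidHom.rangeRestrict_surjective _) hker
    (X := {g | g.1.1.val.trace = t ∧ g.1.1.val.det = d ∧ g.1.2.val.trace = t'})
    (fun g hg x => by
      show _ ∧ _ ∧ _
      simp only [Subgroup.coe_mul, Subgroup.coe_inv, Prod.fst_mul, Prod.snd_mul, Prod.fst_inv,
        Prod.snd_inv, Units.val_mul, Matrix.trace_units_conj, Matrix.det_units_conj]
      exact hg)
    ⟨π σ₀, by
      show (pairRep W W' l σ₀).1.val.trace = t ∧ (pairRep W W' l σ₀).1.val.det = d ∧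
        (pairRep W W' l σ₀).2.val.trace = t'
      rw [hσ₀]
      exact ⟨ht, htd, ht'⟩⟩
    (hfin.toFinset ∪ {l} ∪ W.Δ.natAbs.primeFactors ∪ W'.Δ.natAbs.primeFactors)
  simp only [Finset.mem_union, Finset.mem_singleton, not_or] at hrS
  obtain ⟨⟨⟨hrfin, hrl⟩, hr1⟩, hr2⟩ := hrS
  have hg1 : ¬ (r : ℤ) ∣ W.Δ := fun hd => hr1
    (Nat.mem_primeFactors.mpr ⟨hr, Int.natCast_dvd.mp hd, Int.natAbs_ne_zero.mpr hΔ⟩)
  have hg2 : ¬ (r : ℤ) ∣ W'.Δ := fun hd => hr2
    (Nat.mem_primeFactors.mpr ⟨hr, Int.natCast_dvd.mp hd, Int.natAbs_ne_zero.mpr hΔ'⟩)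
  obtain ⟨A, hA⟩ := FA.Deform.exists_liesOverPrime hr
  obtain ⟨σ, hσ⟩ := FA.Deform.exists_isFrobeniusAt hr hA
  obtain ⟨f1, f2, f3⟩ := hF A hA σ hσ
  change (curveRep l W σ).trace = t at f1
  change (curveRep l W σ).det = d at f2
  change (curveRep l W' σ).trace = t' at f3
  obtain ⟨e1, e2⟩ := FA.Ribet.curveRep_frobenius (p := l) hr hrl hg1 hA hσ
  rw [e1, ← FA.Root.LFunction_apply_prime E W hWm hr hg1] at f1
  rw [e2] at f2
  rw [(FA.Ribet.curveRep_frobenius (p := l) hr hrl hg2 hA hσ).1,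
    ← FA.Root.LFunction_apply_prime E' W' hWm' hr hg2] at f3
  exact hrfin (hfin.mem_toFinset.mpr ⟨hr, f1, f3, f2⟩)

end FA.Independence

namespace FA.Summary

open FA.Independence

/-- **Independence of two elliptic curves** (Serre): if curves over `ℚ` with non-integral
invariants differ in `a_q²` at one prime of good reduction, then for every large prime `l` there are
bases of `E[l]` and `E'[l]` in which every pair of matrices with the same nonzero determinant is the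
action of one element of Galois. -/
theorem galois_independence (E E' : WeierstrassCurve ℚ) [E.IsElliptic] [E'.IsElliptic]
    [inst : DecidableEq (AlgebraicClosure ℚ)]
    (hj : ∃ p : ℕ, p.Prime ∧ padicValRat p E.j < 0)
    (hj' : ∃ p : ℕ, p.Prime ∧ padicValRat p E'.j < 0)
    (W W' : WeierstrassCurve ℤ) (C C' : VariableChange ℚ)
    (hW : C • E = W.map (Int.castRingHom ℚ)) (hW' : C' • E' = W'.map (Int.castRingHom ℚ))
    {q : ℕ} (hq : q.Prime) (hgood : ¬ (q : ℤ) ∣ W.Δ) (hgood' : ¬ (q : ℤ) ∣ W'.Δ)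
    (hne : E.LFunction q ^ 2 ≠ E'.LFunction q ^ 2) :
    ∃ M : ℕ, ∀ l : ℕ, l.Prime → M < l →
      ∃ (e : Submodule.torsionBy ℤ (E.toAffine⁄(AlgebraicClosure ℚ)).Point (l : ℤ) ≃+
          (Fin 2 → ZMod l))
        (e' : Submodule.torsionBy ℤ (E'.toAffine⁄(AlgebraicClosure ℚ)).Point (l : ℤ) ≃+
          (Fin 2 → ZMod l)),
        ∀ A B : Matrix (Fin 2) (Fin 2) (ZMod l), A.det = B.det → A.det ≠ 0 →
          ∃ σ : AlgebraicClosure ℚ ≃ₐ[ℚ] AlgebraicClosure ℚ,
            (∀ P Q, e Q = A *ᵥ e P → Affine.Point.map σ.toAlgHom P.1 = Q.1) ∧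
            ∀ P Q, e' Q = B *ᵥ e' P → Affine.Point.map σ.toAlgHom P.1 = Q.1 := by
  obtain rfl : inst = instDecEqAlgebraicClosureRat := Subsingleton.elim _ _
  haveI := FA.Frob.ratCurve_isElliptic_of_Δ (FA.Frob.Δ_ne_zero_of_model (E := E) ⟨C, hW⟩)
  haveI := FA.Frob.ratCurve_isElliptic_of_Δ (FA.Frob.Δ_ne_zero_of_model (E := E') ⟨C', hW'⟩)
  exact galois_independence_of_surjective E E' W W' C C' hW hW'
    (surjectiveLarge_of_pole hj ⟨C, hW⟩) (surjectiveLarge_of_pole hj' ⟨C', hW'⟩) hq hgood hgood' hne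

/-- So every `(t, t', d ≠ 0)` is `(a_q, a'_q, q)` modulo `l` for infinitely many primes. -/
theorem frobeniusTrace_pairs (E E' : WeierstrassCurve ℚ) [E.IsElliptic] [E'.IsElliptic]
    (hj : ∃ p : ℕ, p.Prime ∧ padicValRat p E.j < 0)
    (hj' : ∃ p : ℕ, p.Prime ∧ padicValRat p E'.j < 0)
    (W W' : WeierstrassCurve ℤ) (C C' : VariableChange ℚ)
    (hW : C • E = W.map (Int.castRingHom ℚ)) (hW' : C' • E' = W'.map (Int.castRingHom ℚ))
    {q : ℕ} (hq : q.Prime) (hgood : ¬ (q : ℤ) ∣ W.Δ) (hgood' : ¬ (q : ℤ) ∣ W'.Δ)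
    (hne : E.LFunction q ^ 2 ≠ E'.LFunction q ^ 2) :
    ∃ M : ℕ, ∀ l : ℕ, l.Prime → M < l → ∀ t t' d : ZMod l, d ≠ 0 →
      {r : ℕ | r.Prime ∧ (E.LFunction r : ZMod l) = t ∧ (E'.LFunction r : ZMod l) = t' ∧
        (r : ZMod l) = d}.Infinite := by
  haveI := FA.Frob.ratCurve_isElliptic_of_Δ (FA.Frob.Δ_ne_zero_of_model (E := E) ⟨C, hW⟩)
  haveI := FA.Frob.ratCurve_isElliptic_of_Δ (FA.Frob.Δ_ne_zero_of_model (E := E') ⟨C', hW'⟩)
  exact frobeniusTrace_pairs_of_surjective E E' W W' C C' hW hW'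
    (surjectiveLarge_of_pole hj ⟨C, hW⟩) (surjectiveLarge_of_pole hj' ⟨C', hW'⟩) hq hgood hgood' hne

end FA.Summary

end
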