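import Fermat.Agent.IsogenyPrimes.Main
import Fermat.Agent.IsogenyPrimes.LocalModel
import Mathlib.FieldTheory.Finite.GaloisField

/-!
# Finitely many isogeny primes for every elliptic curve over `ℚ`

Serre: for every elliptic curve over `ℚ`, semistable or not, the `p`-torsion has no Galois stable
subgroup of order `p` for all sufficiently large primes `p`.
-/

set_option autoImplicit false
set_option linter.style.haveILetI false

noncomputable section

open WeierstrassCurve FA.EC FA.Frob FA.RT FA.RT.Tate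
open FA.Local
open scoped WeierstrassCurve.Affine

local notation "Qb" => AlgebraicClosure ℚ
local notation "GQ" => AlgebraicClosure ℚ ≃ₐ[ℚ] AlgebraicClosure ℚ

namespace FA.IsogenyPrimes

variable (W : WeierstrassCurve ℤ) [(ratCurve W).IsElliptic]

/-- One exponent for all primes away from `p`: its power of inertia fixes the points of odd prime
order `p` which all of Galois multiplies by scalars. -/
theorem exists_exponent : ∃ N : ℕ, N ≠ 0 ∧ ∀ p : ℕ, p.Prime → Odd p → ∀ q : ℕ, q.Prime → q ≠ p →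
    ∃ A : ValuationSubring Qb, A.LiesOverPrime q ∧
      ∀ σ ∈ A.inertiaSubgroupIn ℚ, ∀ g : Pts W, p • g = 0 →
        (∀ τ : GQ, ∃ k : ℕ, τ • g = k • g) → (σ ^ N) • g = g := by
  classical
  have hΔ : W.Δ ≠ 0 := fun h => (ratCurve W).isUnit_Δ.ne_zero (by simp [ratCurve, h])
  have hloc : ∀ q : ℕ, ∃ n : ℕ, n ≠ 0 ∧ ∀ N : ℕ, n ∣ N → q.Prime →
      ∃ A : ValuationSubring Qb, A.LiesOverPrime q ∧
        ∀ p : ℕ, p.Prime → Odd p → q ≠ p → ∀ σ ∈ A.inertiaSubgroupIn ℚ, ∀ g : Pts W, p • g = 0 →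
          (∀ τ : GQ, ∃ k : ℕ, τ • g = k • g) → (σ ^ N) • g = g := by
    intro q
    by_cases hq : q.Prime
    swap
    · exact ⟨1, one_ne_zero, fun _ _ h => absurd h hq⟩
    obtain ⟨A, hA⟩ := FA.Deform.exists_liesOverPrime hq
    obtain ⟨C, hI, hred⟩ := exists_localModel (ratCurve W) hq hA
    let K := IntermediateField.adjoin ℚ ({(C.u : Qb), C.r, C.s, C.t} : Set Qb)
    haveI : FiniteDimensional ℚ K := IntermediateField.finiteDimensional_adjoin fun z _ =>
      ((AlgebraicClosure.isAlgebraic ℚ).isAlgebraic z).isIntegral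
    have hH := FA.AbelianTorsion.index_fixingSubgroup_ne_zero K
    refine ⟨K.fixingSubgroup.index.factorial, Nat.factorial_ne_zero _, fun N hN _ => ⟨A, hA,
      fun p hp hodd hqp σ hσ g hg hst => ?_⟩⟩
    have hmem : σ ^ N ∈ K.fixingSubgroup := by
      obtain ⟨m, hm0, hm, hσm⟩ := Subgroup.exists_pow_mem_of_index_ne_zero hH σ
      obtain ⟨e, he⟩ := (Nat.dvd_factorial hm0 hm).trans hN
      rw [he, pow_mul]
      exact K.fixingSubgroup.pow_mem hσm e
    have hfix : ∀ x ∈ ({(C.u : Qb), C.r, C.s, C.t} : Set Qb), (σ ^ N) x = x := fun x hx =>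
      (IntermediateField.mem_fixingSubgroup_iff K _).mp hmem x
        (IntermediateField.subset_adjoin ℚ _ hx)
    obtain ⟨k, hk⟩ := hst (σ ^ N)
    exact smul_eq_of_localModel (ratCurve W) hq hA C hI hred (pow_mem hσ N)
      (hfix _ (by simp)) (hfix _ (by simp)) (hfix _ (by simp)) (hfix _ (by simp)) hp hodd hqp.symm
      hg hk
  choose n hn0 hn using hloc
  let S := W.Δ.natAbs.primeFactors
  refine ⟨∏ q ∈ S, n q, Finset.prod_ne_zero_iff.mpr fun q _ => hn0 q,
    fun p hp hodd q hq hqp => ?_⟩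
  by_cases hbad : (q : ℤ) ∣ W.Δ
  · obtain ⟨A, hA, h⟩ := hn q _ (Finset.dvd_prod_of_mem n (Nat.mem_primeFactors.mpr
      ⟨hq, Int.natCast_dvd.mp hbad, Int.natAbs_ne_zero.mpr hΔ⟩)) hq
    exact ⟨A, hA, h p hp hodd hqp⟩
  · obtain ⟨A, hA⟩ := FA.Deform.exists_liesOverPrime hq
    haveI := Fact.mk hp
    exact ⟨A, hA, fun σ hσ g hg _ => FA.RT.Tate.smul_eq_of_good hq hA hqp hbad
      (pow_mem hσ _) (n := 1) (by rwa [pow_one])⟩

/-- **A bound for the orders of stable subgroups.** -/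
theorem exists_bound : ∃ M : ℕ, ∀ p : ℕ, p.Prime → M < p →
    ∀ g : Pts W, p • g = 0 → (∀ σ : GQ, ∃ k : ℕ, σ • g = k • g) → g = 0 := by
  classical
  have hΔ : W.Δ ≠ 0 := fun h => (ratCurve W).isUnit_Δ.ne_zero (by simp [ratCurve, h])
  obtain ⟨N, hN0, hN⟩ := exists_exponent W
  obtain ⟨l, hl1, hl⟩ := Nat.exists_infinite_primes (W.Δ.natAbs + 1)
  have hlgood : W.IsGoodPrimeFor l := fun hd => by
    have := Nat.le_of_dvd (Int.natAbs_pos.mpr hΔ) (Int.natCast_dvd.mp hd)
    omega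
  haveI := Fact.mk hl
  haveI : (W.reductionMod l).IsElliptic := ⟨isUnit_iff_ne_zero.mpr (by
    rw [reductionMod, WeierstrassCurve.map_Δ]
    exact fun h => hlgood ((ZMod.intCast_zmod_eq_zero_iff_dvd _ l).mp h))⟩
  set D : ℤ := (l : ℤ) ^ N + 1 - FA.HasseBound.pointTrace (W.apOfModel l) l N with hD
  have hD0 : D ≠ 0 := by
    haveI : Fintype (GaloisField l N) := Fintype.ofFinite _
    have h := FA.HasseBound.natCard_point_extension (W.reductionMod l) (GaloisField l N)
    rw [GaloisField.finrank l hN0, ZMod.card] at h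
    have hap : (l : ℤ) + 1 - Nat.card (W.reductionMod l).toAffine.Point = W.apOfModel l := by
      rw [apOfModel, traceOfFrobenius, Nat.card_zmod, WeierstrassCurve.card]
    rw [hap, ← hD] at h
    rw [← h]
    exact_mod_cast (Nat.card_pos (α := ((W.reductionMod l).map
      (algebraMap (ZMod l) (GaloisField l N))).toAffine.Point)).ne'
  refine ⟨W.Δ.natAbs + D.natAbs + l + 2, fun p hp hlt g hgp hst => ?_⟩
  by_contra hg0
  haveI := Fact.mk hp
  have hp2 : p ≠ 2 := by omega
  have hgood : W.IsGoodPrimeFor p := fun hd => by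
    have := Nat.le_of_dvd (Int.natAbs_pos.mpr hΔ) (Int.natCast_dvd.mp hd)
    omega
  have hdvd := dvd_of_stable hgood hp2
    (fun q hq hqp => hN p hp (hp.odd_of_ne_two hp2) q hq hqp) hg0 hgp hst hl (by omega) hlgood
  have := Nat.le_of_dvd (Int.natAbs_pos.mpr hD0) (Int.natCast_dvd.mp hdvd)
  omega

omit [(ratCurve W).IsElliptic] in
variable {W} in
/-- A stable subgroup of prime order is generated by a point which Galois multiplies by scalars. -/
theorem exists_stable_point {E : WeierstrassCurve ℚ} [E.IsElliptic]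
    (hW : W.IsIntegralModelOf E) {p : ℕ} (hp : p.Prime)
    (G : AddSubgroup (E.toAffine⁄Qb).Point) (hcard : Nat.card G = p)
    (hst : ∀ σ : GQ, ∀ P ∈ G, Affine.Point.map σ.toAlgHom P ∈ G) :
    ∃ g : Pts W, g ≠ 0 ∧ p • g = 0 ∧ ∀ σ : GQ, ∃ k : ℕ, σ • g = k • g := by
  haveI := FA.Frob.ratCurve_isElliptic_of_Δ (FA.Frob.Δ_ne_zero_of_model hW)
  obtain ⟨e, he⟩ := FA.Root.exists_equiv_of_model hW
  haveI := Fact.mk hp
  haveI : Finite G := Nat.finite_of_card_ne_zero (by rw [hcard]; exact hp.ne_zero)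
  have : Nontrivial G := Finite.one_lt_card_iff_nontrivial.mp (hcard ▸ hp.one_lt)
  obtain ⟨P, hP⟩ := exists_ne (0 : G)
  have hord : addOrderOf P = p := addOrderOf_eq_prime (hcard ▸ card_nsmul_eq_zero') hP
  have hgen : ∀ Q : G, ∃ k : ℕ, k • P = Q := fun Q => by
    have h := mem_multiples_iff_mem_zmultiples (x := P) (y := Q) |>.mpr
      (zmultiples_eq_top_of_prime_card hcard hP ▸ AddSubgroup.mem_top Q)
    exact AddSubmonoid.mem_multiples_iff _ _ |>.mp h
  obtain ⟨g, hg⟩ := e.surjective P.1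
  refine ⟨g, fun h => hP (Subtype.ext ?_), e.injective ?_, fun σ => ?_⟩
  · rw [ZeroMemClass.coe_zero, ← hg, h, map_zero]
  · rw [map_nsmul, hg, map_zero, ← AddSubgroup.coe_nsmul]
    exact congrArg Subtype.val (hord ▸ addOrderOf_nsmul_eq_zero P)
  · obtain ⟨k, hk⟩ := hgen ⟨_, hst σ P.1 P.2⟩
    refine ⟨k, e.injective ?_⟩
    rw [he, map_nsmul, hg]
    exact (congrArg Subtype.val hk).symm

end FA.IsogenyPrimes

namespace FA.Summary

/-- **Serre: finitely many isogeny primes.** For every elliptic curve over `ℚ` and every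
sufficiently large prime `p` no subgroup of order `p` of `E(ℚ̄)` is stable under Galois. -/
theorem noStableSubgroup_large (E : WeierstrassCurve ℚ) [E.IsElliptic]
    [inst : DecidableEq (AlgebraicClosure ℚ)] :
    ∃ M : ℕ, ∀ p : ℕ, p.Prime → M < p →
      ∀ G : AddSubgroup (E.toAffine⁄(AlgebraicClosure ℚ)).Point, Nat.card G = p →
        ¬ ∀ σ : AlgebraicClosure ℚ ≃ₐ[ℚ] AlgebraicClosure ℚ, ∀ P ∈ G,
          Affine.Point.map σ.toAlgHom P ∈ G := by
  obtain rfl : inst = instDecEqAlgebraicClosureRat := Subsingleton.elim _ _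
  obtain ⟨W, hW⟩ := FA.Frob.exists_integralModel E
  haveI := FA.Frob.ratCurve_isElliptic_of_Δ (FA.Frob.Δ_ne_zero_of_model hW)
  obtain ⟨M, hM⟩ := FA.IsogenyPrimes.exists_bound W
  refine ⟨M, fun p hp hlt G hcard hst => ?_⟩
  obtain ⟨g, hg0, hgp, hgst⟩ := FA.IsogenyPrimes.exists_stable_point hW hp G hcard hst
  exact hg0 (hM p hp hlt g hgp hgst)

/-- So every elliptic curve over `ℚ` has only finitely many primes `p` with a rational isogeny of
degree `p`, in the subgroup form. -/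
theorem finite_isogenyPrimes (E : WeierstrassCurve ℚ) [E.IsElliptic]
    [inst : DecidableEq (AlgebraicClosure ℚ)] :
    {p : ℕ | p.Prime ∧ ∃ G : AddSubgroup (E.toAffine⁄(AlgebraicClosure ℚ)).Point, Nat.card G = p ∧
      ∀ σ : AlgebraicClosure ℚ ≃ₐ[ℚ] AlgebraicClosure ℚ, ∀ P ∈ G,
        Affine.Point.map σ.toAlgHom P ∈ G}.Finite := by
  obtain ⟨M, hM⟩ := noStableSubgroup_large E
  exact (Set.finite_Iic M).subset fun p ⟨hp, G, hG, hst⟩ => Set.mem_Iic.mpr
    (not_lt.mp fun h => hM p hp h G hG hst)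

end FA.Summary

end
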