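import Fermat.Agent.OpenImageAll.CMStructure
import Fermat.Agent.Root.SummaryExceptional
import Fermat.Agent.Root.SummaryIntegralJ
import Fermat.Agent.Root.SummaryIsogenyPrimes
import Fermat.Agent.Root.SummaryIndependence

/-!
# The structure of an exceptional curve, as for complex multiplication

An elliptic curve over `ℚ` with `a_l = 0` at the good primes inert in `ℚ(√d)` has an integral
invariant and no multiplicative reduction; its torsion of odd prime order `p` is never acted on by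
all automorphisms; it has a stable subgroup of order `p` for odd `p ∣ d`, and for all large `p` an
endomorphism of `E[p]` of square `d` commuting with Galois of `ℚ(√d)` and anticommuting outside it
(the normaliser of a Cartan subgroup, split or not with `d` modulo `p`).
-/

set_option autoImplicit false
set_option linter.unusedSectionVars false
set_option linter.style.haveILetI false

noncomputable section

open Matrix WeierstrassCurve WeierstrassCurve.Affine FA.EC FA.Frob FA.RT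
open scoped WeierstrassCurve.Affine

local notation "Qb" => AlgebraicClosure ℚ
local notation "GQ" => AlgebraicClosure ℚ ≃ₐ[ℚ] AlgebraicClosure ℚ

namespace FA.CMStructure

/-- The data on every model. -/
theorem isExceptional_of_curve {E : WeierstrassCurve ℚ} {W : WeierstrassCurve ℤ}
    (hW : W.IsIntegralModelOf E) {d : ℤ} (hd : Squarefree d) (hd1 : d ≠ 1)
    (h : ∀ l : ℕ, ∀ [Fact l.Prime],
      (∃ C : VariableChange ℚ_[l],
        HasGoodReduction ℤ_[l] (C • E.map (algebraMap ℚ ℚ_[l]))) →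
      ¬ IsSquare (d : ZMod l) → E.LFunction l = 0) : IsExceptional W d :=
  ⟨hd, hd1, fun _ => FA.Exceptional.apOfModel_eq_zero hW h⟩

/-- A rational number without primes in the denominator is an integer. -/
theorem exists_int_eq {x : ℚ} (h : ∀ q : ℕ, q.Prime → 0 ≤ padicValRat q x) : ∃ z : ℤ, x = z := by
  refine ⟨x.num, ((Rat.den_eq_one_iff x).mp ?_).symm⟩
  by_contra hne
  obtain ⟨q, hq, hqd⟩ := Nat.exists_prime_and_dvd hne
  have := Fact.mk hq
  have h1 := h q hq
  have hn : ¬ (q : ℤ) ∣ x.num := fun h' => hq.ne_one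
    (Nat.eq_one_of_dvd_one (x.reduced.gcd_eq_one ▸ Nat.dvd_gcd (Int.natCast_dvd.mp h') hqd))
  rw [padicValRat_def, padicValInt.eq_zero_of_not_dvd hn] at h1
  have := one_le_padicValNat_of_dvd x.den_ne_zero hqd
  omega

end FA.CMStructure

namespace FA.Summary

open FA.CMStructure

/-- **An exceptional curve has an integral invariant.** -/
theorem exceptional_integral_j (E : WeierstrassCurve ℚ) [E.IsElliptic] {d : ℤ} (hd : Squarefree d)
    (hd1 : d ≠ 1)
    (h : ∀ l : ℕ, ∀ [Fact l.Prime],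
      (∃ C : VariableChange ℚ_[l],
        HasGoodReduction ℤ_[l] (C • E.map (algebraMap ℚ ℚ_[l]))) →
      ¬ IsSquare (d : ZMod l) → E.LFunction l = 0) : ∃ z : ℤ, E.j = z := by
  refine exists_int_eq fun q hq => ?_
  by_contra hneg
  exact (serreOpenImage_adelic_iff E).mp (serreOpenImage_adelic_of_pole E ⟨q, hq, by omega⟩)
    ⟨d, hd, hd1, h⟩

/-- **An exceptional curve has no multiplicative reduction**: where it is semistable it is good. -/
theorem exceptional_good_of_semistable (E : WeierstrassCurve ℚ) [E.IsElliptic] {d : ℤ}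
    (hd : Squarefree d) (hd1 : d ≠ 1)
    (h : ∀ l : ℕ, ∀ [Fact l.Prime],
      (∃ C : VariableChange ℚ_[l],
        HasGoodReduction ℤ_[l] (C • E.map (algebraMap ℚ ℚ_[l]))) →
      ¬ IsSquare (d : ZMod l) → E.LFunction l = 0)
    (p : ℕ) [Fact p.Prime]
    (hp : ∃ C : VariableChange ℚ_[p], HasGoodReduction ℤ_[p] (C • E.map (algebraMap ℚ ℚ_[p])) ∨
      HasMultiplicativeReduction ℤ_[p] (C • E.map (algebraMap ℚ ℚ_[p]))) :
    ∃ C : VariableChange ℚ_[p], HasGoodReduction ℤ_[p] (C • E.map (algebraMap ℚ ℚ_[p])) := by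
  obtain ⟨z, hz⟩ := exceptional_integral_j E hd hd1 h
  obtain ⟨W, hW, hs⟩ := FA.OggShafarevich.exists_model_semistableAt E
    (FA.Root.isSemistableAt_of_reduction E hp.choose_spec)
  have hgood : ¬ (p : ℤ) ∣ W.Δ := fun hdvd => by
    have hc : ¬ (p : ℤ) ∣ W.c₄ := fun hc => hs ⟨hdvd, hc⟩
    have hc0 : W.c₄ ≠ 0 := fun e => hc (e ▸ dvd_zero _)
    have hΔ := FA.Frob.Δ_ne_zero_of_model hW
    have hj := congrArg (padicValRat p) (FA.OggShafarevich.j_eq_of_model hW)
    rw [hz, padicValRat.of_int, padicValRat.div (pow_ne_zero 3 (by exact_mod_cast hc0))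
      (by exact_mod_cast hΔ), padicValRat.pow, padicValRat.of_int, padicValRat.of_int,
      padicValInt.eq_zero_of_not_dvd hc] at hj
    have : 1 ≤ padicValNat p W.Δ.natAbs :=
      one_le_padicValNat_of_dvd (Int.natAbs_ne_zero.mpr hΔ) (Int.natCast_dvd.mp hdvd)
    simp only [padicValInt] at hj
    omega
  obtain ⟨C, hC⟩ := FA.Root.exists_good_of_not_dvd W p hgood
  obtain ⟨C₀, h₀⟩ := hW
  exact ⟨C * C₀.map (algebraMap ℚ ℚ_[p]),
    by rwa [mul_smul, WeierstrassCurve.map_variableChange, h₀]⟩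

/-- **An exceptional curve is not semistable.** -/
theorem exceptional_not_semistable (E : WeierstrassCurve ℚ) [E.IsElliptic] {d : ℤ}
    (hd : Squarefree d) (hd1 : d ≠ 1)
    (h : ∀ l : ℕ, ∀ [Fact l.Prime],
      (∃ C : VariableChange ℚ_[l],
        HasGoodReduction ℤ_[l] (C • E.map (algebraMap ℚ ℚ_[l]))) →
      ¬ IsSquare (d : ZMod l) → E.LFunction l = 0) :
    ¬ ∀ p : ℕ, ∀ [Fact p.Prime], ∃ C : VariableChange ℚ_[p],
      HasGoodReduction ℤ_[p] (C • E.map (algebraMap ℚ ℚ_[p])) ∨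
        HasMultiplicativeReduction ℤ_[p] (C • E.map (algebraMap ℚ ℚ_[p])) := by
  obtain ⟨z, hz⟩ := exceptional_integral_j E hd hd1 h
  exact not_semistable_of_integral_j E z hz

/-- **Multiplication by `√d` on every rational Tate module** of an exceptional curve, in a Tate
basis of an integral model. -/
theorem exceptional_sqrt_tateModule (E : WeierstrassCurve ℚ) [E.IsElliptic] {d : ℤ}
    (hd : Squarefree d) (hd1 : d ≠ 1)
    (h : ∀ l : ℕ, ∀ [Fact l.Prime],
      (∃ C : VariableChange ℚ_[l],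
        HasGoodReduction ℤ_[l] (C • E.map (algebraMap ℚ ℚ_[l]))) →
      ¬ IsSquare (d : ZMod l) → E.LFunction l = 0)
    {W : WeierstrassCurve ℤ} [(ratCurve W).IsElliptic] (hW : W.IsIntegralModelOf E)
    {p : ℕ} [Fact p.Prime] (B : FA.RT.Tate.TateBasis p W)
    {s : AlgebraicClosure ℚ} (hs : s ^ 2 = (d : AlgebraicClosure ℚ)) :
    ∃ X : Matrix (Fin 2) (Fin 2) ℚ_[p], X * X = (d : ℚ_[p]) • 1 ∧
      ∀ σ : AlgebraicClosure ℚ ≃ₐ[ℚ] AlgebraicClosure ℚ,
        (σ s = s → (B.rep σ).map PadicInt.Coe.ringHom * X =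
          X * (B.rep σ).map PadicInt.Coe.ringHom) ∧
        (σ s ≠ s → (B.rep σ).map PadicInt.Coe.ringHom * X =
          -(X * (B.rep σ).map PadicInt.Coe.ringHom)) := by
  obtain ⟨t, H, ht, hH, hopen, hfix⟩ := FA.OpenImageAll.exists_index_two_of_sqrt hd hd1
  obtain ⟨X, hXX, -, hc, ha⟩ :=
    exists_sqrt_matrix (isExceptional_of_curve hW hd hd1 h) ht hH hopen hfix B
  have hst : ∀ g : GQ, g t = t ↔ g s = s := fun g => by
    rcases sq_eq_sq_iff_eq_or_eq_neg.mp (ht.trans hs.symm) with e | e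
    · rw [e]
    · rw [e, map_neg, neg_inj]
  exact ⟨X, hXX, fun σ => ⟨fun hσ => hc σ ((hfix σ).mpr ((hst σ).mpr hσ)),
    fun hσ => ha σ fun hmem => hσ ((hst σ).mp ((hfix σ).mp hmem))⟩⟩

/-- **Galois is never onto `Aut E[p]`**, for every odd prime `p`, on an exceptional curve. -/
theorem exceptional_not_surjective (E : WeierstrassCurve ℚ) [E.IsElliptic]
    [inst : DecidableEq (AlgebraicClosure ℚ)] {d : ℤ} (hd : Squarefree d) (hd1 : d ≠ 1)
    (h : ∀ l : ℕ, ∀ [Fact l.Prime],
      (∃ C : VariableChange ℚ_[l],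
        HasGoodReduction ℤ_[l] (C • E.map (algebraMap ℚ ℚ_[l]))) →
      ¬ IsSquare (d : ZMod l) → E.LFunction l = 0)
    {p : ℕ} (hp : p.Prime) (hp2 : p ≠ 2) :
    ¬ ∀ φ : Submodule.torsionBy ℤ (E.toAffine⁄(AlgebraicClosure ℚ)).Point (p : ℤ) ≃+
        Submodule.torsionBy ℤ (E.toAffine⁄(AlgebraicClosure ℚ)).Point (p : ℤ),
      ∃ σ : AlgebraicClosure ℚ ≃ₐ[ℚ] AlgebraicClosure ℚ, ∀ P,
        Affine.Point.map σ.toAlgHom P.1 = (φ P).1 := by
  obtain rfl : inst = instDecEqAlgebraicClosureRat := Subsingleton.elim _ _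
  intro hsurj
  haveI := Fact.mk hp
  obtain ⟨W, hW⟩ := exists_integralModel E
  haveI := ratCurve_isElliptic_of_Δ (Δ_ne_zero_of_model hW)
  obtain ⟨X, hX, hne⟩ := exists_matrix_not_mem (p := p) (isExceptional_of_curve hW hd hd1 h) hp2
  obtain ⟨σ, hσ⟩ := FA.Supersingular.exists_curveRep_eq_of_surjective hW hsurj hX
  exact hne σ hσ

/-- **A stable subgroup at the primes dividing `d`** on an exceptional curve, as the rational
isogeny of degree `q` of complex multiplication by `ℚ(√-q)`. -/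
theorem exceptional_stableSubgroup (E : WeierstrassCurve ℚ) [E.IsElliptic]
    [inst : DecidableEq (AlgebraicClosure ℚ)] {d : ℤ} (hd : Squarefree d) (hd1 : d ≠ 1)
    (h : ∀ l : ℕ, ∀ [Fact l.Prime],
      (∃ C : VariableChange ℚ_[l],
        HasGoodReduction ℤ_[l] (C • E.map (algebraMap ℚ ℚ_[l]))) →
      ¬ IsSquare (d : ZMod l) → E.LFunction l = 0)
    {p : ℕ} (hp : p.Prime) (hpd : (p : ℤ) ∣ d) :
    ∃ G : AddSubgroup (E.toAffine⁄(AlgebraicClosure ℚ)).Point, Nat.card G = p ∧
      ∀ σ : AlgebraicClosure ℚ ≃ₐ[ℚ] AlgebraicClosure ℚ, ∀ P ∈ G,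
        Affine.Point.map σ.toAlgHom P ∈ G := by
  obtain rfl : inst = instDecEqAlgebraicClosureRat := Subsingleton.elim _ _
  haveI := Fact.mk hp
  obtain ⟨W, hW⟩ := exists_integralModel E
  haveI := ratCurve_isElliptic_of_Δ (Δ_ne_zero_of_model hW)
  by_contra hcon
  exact not_irreducible_of_dvd (isExceptional_of_curve hW hd hd1 h) hpd
    (FA.Root.Irred.modRepIsIrreducible_of_noStableSubgroup hW
      fun G hG hst => hcon ⟨G, hG, hst⟩)

/-- **The normaliser of a Cartan subgroup at all large primes**: an endomorphism of `E[p]` of square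
`d` commuting with the automorphisms fixing `√d` and anticommuting with the others. -/
theorem exceptional_cartan (E : WeierstrassCurve ℚ) [E.IsElliptic]
    [inst : DecidableEq (AlgebraicClosure ℚ)] {d : ℤ} (hd : Squarefree d) (hd1 : d ≠ 1)
    (h : ∀ l : ℕ, ∀ [Fact l.Prime],
      (∃ C : VariableChange ℚ_[l],
        HasGoodReduction ℤ_[l] (C • E.map (algebraMap ℚ ℚ_[l]))) →
      ¬ IsSquare (d : ZMod l) → E.LFunction l = 0)
    {s : AlgebraicClosure ℚ} (hs : s ^ 2 = (d : AlgebraicClosure ℚ)) :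
    ∃ M : ℕ, ∀ p : ℕ, p.Prime → M < p →
      ∃ φ : Submodule.torsionBy ℤ (E.toAffine⁄(AlgebraicClosure ℚ)).Point (p : ℤ) →+
          Submodule.torsionBy ℤ (E.toAffine⁄(AlgebraicClosure ℚ)).Point (p : ℤ),
        (∀ P, φ (φ P) = d • P) ∧
        ∀ (σ : AlgebraicClosure ℚ ≃ₐ[ℚ] AlgebraicClosure ℚ) P Q,
          Affine.Point.map σ.toAlgHom P.1 = Q.1 →
            (σ s = s → Affine.Point.map σ.toAlgHom (φ P).1 = (φ Q).1) ∧
            (σ s ≠ s → Affine.Point.map σ.toAlgHom (φ P).1 = -(φ Q).1) := by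
  obtain rfl : inst = instDecEqAlgebraicClosureRat := Subsingleton.elim _ _
  obtain ⟨W, hW⟩ := exists_integralModel E
  haveI := ratCurve_isElliptic_of_Δ (Δ_ne_zero_of_model hW)
  obtain ⟨M, hM⟩ := noStableSubgroup_large E
  refine ⟨M, fun p hp hlt => ?_⟩
  haveI := Fact.mk hp
  obtain ⟨Y, hYY, hY⟩ := exists_cartan (p := p) (isExceptional_of_curve hW hd hd1 h)
    (FA.Root.Irred.modRepIsIrreducible_of_noStableSubgroup hW (hM p hp hlt)) hs
  obtain ⟨e, he⟩ := FA.Independence.exists_coord hW p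
  let φ := (e.symm.toAddMonoidHom.comp (Matrix.mulVecLin Y).toAddMonoidHom).comp e.toAddMonoidHom
  have hφ : ∀ P, e (φ P) = Y *ᵥ e P := fun P => e.apply_symm_apply _
  refine ⟨φ, fun P => e.injective ?_, fun σ P Q hPQ => ?_⟩
  · rw [hφ, hφ, mulVec_mulVec, hYY, smul_mulVec, one_mulVec, map_zsmul, Int.cast_smul_eq_zsmul]
  have hQ : e Q = curveRep p W σ *ᵥ e P := by
    have h1 := he σ P (e.symm (curveRep p W σ *ᵥ e P)) (e.apply_symm_apply _)
    rw [hPQ] at h1
    rw [Subtype.ext h1, e.apply_symm_apply]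
  refine ⟨fun hσ => he σ (φ P) (φ Q) ?_, fun hσ => ?_⟩
  · rw [hφ, hφ, hQ, mulVec_mulVec, mulVec_mulVec, (hY σ).1 hσ]
  · rw [← NegMemClass.coe_neg]
    refine he σ (φ P) (-φ Q) ?_
    rw [map_neg, hφ, hφ, hQ, mulVec_mulVec, mulVec_mulVec, (hY σ).2 hσ, neg_mulVec]

end FA.Summary

end
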