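import Fermat.Agent.OpenImageAll.Genus
import Fermat.Agent.Root.SummaryDeuringExceptional
import Fermat.Agent.Root.SummaryExceptionalStructure

/-!
# The exceptional field has one ramified prime

If `a_l = 0` at the good primes inert in `ℚ(√d)`, then `d` is `-1`, `-2` or `-p` for a prime
`p ≡ 3 mod 4`: at the split primes `4 l = a_l² + |d| b²`, so these are squares modulo every odd
prime dividing `d`, which genus theory forbids otherwise. The ramified prime is one of bad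
reduction.
-/

set_option autoImplicit false
set_option linter.style.haveILetI false

noncomputable section

open WeierstrassCurve WeierstrassCurve.Affine FA.EC FA.Frob FA.RT
open scoped WeierstrassCurve.Affine NumberTheorySymbols

namespace FA.Genus

/-- The radicands in question are squarefree and negative. -/
theorem squarefree_and_neg {d : ℤ}
    (h : d = -1 ∨ d = -2 ∨ ∃ p : ℕ, p.Prime ∧ p % 4 = 3 ∧ d = -(p : ℤ)) :
    Squarefree d ∧ d < 0 := by
  rcases h with rfl | rfl | ⟨p, hp, -, rfl⟩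
  · exact ⟨by rw [← Int.squarefree_natAbs]; exact squarefree_one, by norm_num⟩
  · exact ⟨by rw [← Int.squarefree_natAbs]; exact Nat.prime_two.squarefree, by norm_num⟩
  · refine ⟨?_, by have := hp.pos; omega⟩
    rw [← Int.squarefree_natAbs, Int.natAbs_neg, Int.natAbs_natCast]
    exact hp.squarefree

end FA.Genus

namespace FA.Summary

/-- **One ramified prime**: if `a_l = 0` at the inert good primes of `ℚ(√d)`, then `d` is `-1`,
`-2` or `-p` for a prime `p ≡ 3 mod 4`. -/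
theorem exceptional_field_shape (E : WeierstrassCurve ℚ) [E.IsElliptic] {d : ℤ}
    (hd : Squarefree d) (hd1 : d ≠ 1)
    (h : ∀ l : ℕ, ∀ [Fact l.Prime],
      (∃ C : VariableChange ℚ_[l],
        HasGoodReduction ℤ_[l] (C • E.map (algebraMap ℚ ℚ_[l]))) →
      ¬ IsSquare (d : ZMod l) → E.LFunction l = 0) :
    d = -1 ∨ d = -2 ∨ ∃ p : ℕ, p.Prime ∧ p % 4 = 3 ∧ d = -(p : ℤ) := by
  by_contra hc
  push Not at hc
  obtain ⟨h1, h2, h3⟩ := hc
  have hneg := exceptional_imaginary E hd hd1 h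
  obtain ⟨W, hW⟩ := exists_integralModel E
  have hΔ := Δ_ne_zero_of_model hW
  obtain ⟨l, p, hln, hl, hp, hp2, hpd, hjl, hjp⟩ :=
    FA.Genus.exists_split_nonsquare hd hneg h1 h2 h3 (W.Δ.natAbs + 2)
  haveI := Fact.mk hl
  haveI := Fact.mk hp
  have hgood := FA.Exceptional.exists_good_reduction hW l fun hdvd => by
    have := Nat.le_of_dvd (Int.natAbs_pos.mpr hΔ) (Int.natCast_dvd.mp hdvd)
    omega
  obtain ⟨b, -, he⟩ := (exceptional_deuring E hd hd1 h l (by omega) hgood).2.2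
    (ZMod.isSquare_of_jacobiSym_eq_one hjl)
  refine ZMod.nonsquare_iff_jacobiSym_eq_neg_one.mp hjp ⟨(E.LFunction l : ZMod p) / 2, ?_⟩
  have h4 := congrArg (Int.cast (R := ZMod p)) he
  rw [abs_of_neg hneg] at h4
  push_cast at h4
  rw [(ZMod.intCast_zmod_eq_zero_iff_dvd d p).mpr hpd] at h4
  have h20 : (2 : ZMod p) ≠ 0 := fun e => hp2 ((Nat.prime_dvd_prime_iff_eq hp Nat.prime_two).mp
    ((ZMod.natCast_eq_zero_iff 2 p).mp (by exact_mod_cast e)))
  push_cast
  field_simp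
  linear_combination h4

/-- **Bad reduction at the ramified prime**, and for `d = -p` a stable subgroup of order `p`. -/
theorem exceptional_ramified_prime (E : WeierstrassCurve ℚ) [E.IsElliptic]
    [inst : DecidableEq (AlgebraicClosure ℚ)] {d : ℤ} (hd : Squarefree d) (hd1 : d ≠ 1)
    (h : ∀ l : ℕ, ∀ [Fact l.Prime],
      (∃ C : VariableChange ℚ_[l],
        HasGoodReduction ℤ_[l] (C • E.map (algebraMap ℚ ℚ_[l]))) →
      ¬ IsSquare (d : ZMod l) → E.LFunction l = 0) :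
    ((d = -1 ∨ d = -2) ∧ ¬ ∃ C : VariableChange ℚ_[2],
      HasGoodReduction ℤ_[2] (C • E.map (algebraMap ℚ ℚ_[2]))) ∨
    ∃ (p : ℕ) (_ : Fact p.Prime), p % 4 = 3 ∧ d = -(p : ℤ) ∧
      (¬ ∃ C : VariableChange ℚ_[p],
        HasGoodReduction ℤ_[p] (C • E.map (algebraMap ℚ ℚ_[p]))) ∧
      ∃ G : AddSubgroup (E.toAffine⁄(AlgebraicClosure ℚ)).Point, Nat.card G = p ∧
        ∀ σ : AlgebraicClosure ℚ ≃ₐ[ℚ] AlgebraicClosure ℚ, ∀ P ∈ G,
          Affine.Point.map σ.toAlgHom P ∈ G := by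
  obtain ⟨hun, h2⟩ := exceptional_unramified E hd hd1 h
  rcases exceptional_field_shape E hd hd1 h with rfl | rfl | ⟨p, hp, hp4, rfl⟩
  · exact Or.inl ⟨Or.inl rfl, fun hg => absurd (h2 hg) (by norm_num)⟩
  · exact Or.inl ⟨Or.inr rfl, fun hg => absurd (h2 hg) (by norm_num)⟩
  · haveI := Fact.mk hp
    exact Or.inr ⟨p, inferInstance, hp4, rfl, fun hg => hun p hg (dvd_neg.mpr dvd_rfl),
      exceptional_stableSubgroup E hd hd1 h hp (dvd_neg.mpr dvd_rfl)⟩

/-- **Serre's theorem with genus theory**: the adelic image is open iff none of the fields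
`ℚ(i)`, `ℚ(√-2)` and `ℚ(√-p)`, `p ≡ 3 mod 4`, ramified only at bad primes, has vanishing traces
at its inert good primes. -/
theorem serreOpenImage_adelic_iff_genus (E : WeierstrassCurve ℚ) [E.IsElliptic]
    [inst : DecidableEq (AlgebraicClosure ℚ)] :
    (∃ m : ℕ, 0 < m ∧ ∀ (N : ℕ), N ≠ 0 →
      ∀ φ : Submodule.torsionBy ℤ (E.toAffine⁄(AlgebraicClosure ℚ)).Point (N : ℤ) ≃+
        Submodule.torsionBy ℤ (E.toAffine⁄(AlgebraicClosure ℚ)).Point (N : ℤ),
      (∀ P, m • P.1 = 0 → φ P = P) →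
        ∃ σ : AlgebraicClosure ℚ ≃ₐ[ℚ] AlgebraicClosure ℚ, ∀ P,
          Affine.Point.map σ.toAlgHom P.1 = (φ P).1) ↔
    ¬ ∃ d : ℤ, (d = -1 ∨ d = -2 ∨ ∃ p : ℕ, p.Prime ∧ p % 4 = 3 ∧ d = -(p : ℤ)) ∧
      (∀ q : ℕ, ∀ [Fact q.Prime], (∃ C : VariableChange ℚ_[q],
        HasGoodReduction ℤ_[q] (C • E.map (algebraMap ℚ ℚ_[q]))) → ¬ (q : ℤ) ∣ d) ∧
      ∀ l : ℕ, ∀ [Fact l.Prime],
      (∃ C : VariableChange ℚ_[l],
        HasGoodReduction ℤ_[l] (C • E.map (algebraMap ℚ ℚ_[l]))) →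
      ¬ IsSquare (d : ZMod l) → E.LFunction l = 0 := by
  rw [serreOpenImage_adelic_iff_imaginary E]
  refine not_congr ⟨fun ⟨d, hd, hneg, h⟩ => ⟨d, exceptional_field_shape E hd (by omega) h,
    (exceptional_unramified E hd (by omega) h).1, h⟩, fun ⟨d, hshape, _, h⟩ => ?_⟩
  obtain ⟨hd, hneg⟩ := FA.Genus.squarefree_and_neg hshape
  exact ⟨d, hd, hneg, h⟩

end FA.Summary

end
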