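import Fermat.Agent.OpenImageAll.ClassNumber
import Fermat.Agent.Root.SummaryExceptionalField

/-!
# The exceptional field has class number one

If `a_l = 0` at the good primes inert in `ℚ(√d)`, then at the split good primes
`4 l = a_l² + |d| b²`, so almost all primes of `ℚ(√d)` are principal and the class number is one.
(That only nine such fields exist is `Fermat.Agent.Root.SummaryClassNumberOne`.)
-/

set_option autoImplicit false
set_option linter.style.haveILetI false

noncomputable section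

open WeierstrassCurve WeierstrassCurve.Affine FA.EC FA.Frob FA.RT NumberField IsDedekindDomain
open scoped WeierstrassCurve.Affine

namespace FA.Summary

/-- **The exceptional field has class number one.** -/
theorem exceptional_classNumber_one (E : WeierstrassCurve ℚ) [E.IsElliptic] {d : ℤ}
    (hd : Squarefree d) (hd1 : d ≠ 1)
    (h : ∀ l : ℕ, ∀ [Fact l.Prime],
      (∃ C : VariableChange ℚ_[l],
        HasGoodReduction ℤ_[l] (C • E.map (algebraMap ℚ ℚ_[l]))) →
      ¬ IsSquare (d : ZMod l) → E.LFunction l = 0)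
    (K : Type*) [Field K] [NumberField K] (hK : Module.finrank ℚ K = 2)
    (hs : ∃ s : K, s ^ 2 = (d : K)) : classNumber K = 1 := by
  classical
  obtain ⟨s, hs⟩ := hs
  obtain ⟨W, hW⟩ := exists_integralModel E
  have hΔ := Δ_ne_zero_of_model hW
  set M : ℕ := 2 * W.Δ.natAbs
  have hM0 : M ≠ 0 := mul_ne_zero two_ne_zero (Int.natAbs_ne_zero.mpr hΔ)
  have hI : Ideal.span {(M : 𝓞 K)} ≠ 0 := by
    rw [Ne, Ideal.zero_eq_bot, Ideal.span_singleton_eq_bot]
    exact_mod_cast hM0
  refine FA.ClassOneField.classNumber_eq_one_of_primes K (Ideal.finite_factors hI).toFinset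
    fun v hv => ?_
  rw [Set.Finite.mem_toFinset, Set.mem_ofPred_eq, Ideal.dvd_iff_le,
    Ideal.span_singleton_le_iff_mem] at hv
  obtain ⟨l, hl, hlv⟩ : ∃ l : ℕ, l.Prime ∧ (l : 𝓞 K) ∈ v.asIdeal := by
    have hn := Ideal.absNorm_mem v.asIdeal
    rw [← Nat.prod_primeFactorsList (Ideal.absNorm_eq_zero_iff.not.mpr v.ne_bot),
      Nat.cast_list_prod, ← Multiset.prod_coe, v.isPrime.multiset_prod_mem_iff_exists_mem] at hn
    obtain ⟨x, hx, hxv⟩ := hn
    rw [Multiset.mem_coe, List.mem_map] at hx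
    obtain ⟨l, hl, rfl⟩ := hx
    exact ⟨l, Nat.prime_of_mem_primeFactorsList hl, hxv⟩
  have hlM : ¬ l ∣ M := fun ⟨c, hc⟩ => hv (by
    rw [hc, Nat.cast_mul]
    exact v.asIdeal.mul_mem_right _ hlv)
  haveI := Fact.mk hl
  have hgood := FA.Exceptional.exists_good_reduction hW l fun hdvd =>
    hlM (dvd_mul_of_dvd_right (Int.natCast_dvd.mp hdvd) 2)
  refine FA.ClassOneField.isPrincipal_prime hK (exceptional_imaginary E hd hd1 h) hs v.isPrime hl
    hlv fun hsq => ?_
  obtain ⟨b, hb, he⟩ := (exceptional_deuring E hd hd1 h l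
    (fun e => hlM (e ▸ dvd_mul_right 2 _)) hgood).2.2 hsq
  rw [abs_of_neg (exceptional_imaginary E hd hd1 h)] at he
  exact ⟨E.LFunction l, b, hb, by linear_combination -he⟩

/-- **Image not open: complex multiplication by a field of class number one, in Galois terms**: for
some imaginary quadratic field of class number one, ramified at one prime, `a_l = 0` at the inert
good primes and all torsion is abelian over it. -/
theorem not_openImage_classNumber_one (E : WeierstrassCurve ℚ) [E.IsElliptic]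
    [inst : DecidableEq (AlgebraicClosure ℚ)]
    (hno : ¬ ∃ m : ℕ, 0 < m ∧ ∀ (N : ℕ), N ≠ 0 →
      ∀ φ : Submodule.torsionBy ℤ (E.toAffine⁄(AlgebraicClosure ℚ)).Point (N : ℤ) ≃+
        Submodule.torsionBy ℤ (E.toAffine⁄(AlgebraicClosure ℚ)).Point (N : ℤ),
      (∀ P, m • P.1 = 0 → φ P = P) →
        ∃ σ : AlgebraicClosure ℚ ≃ₐ[ℚ] AlgebraicClosure ℚ, ∀ P,
          Affine.Point.map σ.toAlgHom P.1 = (φ P).1) :
    ∃ d : ℤ, (d = -1 ∨ d = -2 ∨ ∃ p : ℕ, p.Prime ∧ p % 4 = 3 ∧ d = -(p : ℤ)) ∧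
      (∀ (K : Type) [Field K] [NumberField K], Module.finrank ℚ K = 2 →
        (∃ s : K, s ^ 2 = (d : K)) → classNumber K = 1) ∧
      (∀ l : ℕ, ∀ [Fact l.Prime],
        (∃ C : VariableChange ℚ_[l],
          HasGoodReduction ℤ_[l] (C • E.map (algebraMap ℚ ℚ_[l]))) →
        ¬ IsSquare (d : ZMod l) → E.LFunction l = 0) ∧
      ∀ s : AlgebraicClosure ℚ, s ^ 2 = (d : AlgebraicClosure ℚ) →
        ∀ σ τ : AlgebraicClosure ℚ ≃ₐ[ℚ] AlgebraicClosure ℚ, σ s = s → τ s = s →
          ∀ P : (E.toAffine⁄(AlgebraicClosure ℚ)).Point, IsOfFinAddOrder P →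
            Affine.Point.map (σ * τ * σ⁻¹ * τ⁻¹).toAlgHom P = P := by
  obtain rfl : inst = instDecEqAlgebraicClosureRat := Subsingleton.elim _ _
  rw [serreOpenImage_adelic_iff_genus E, not_not] at hno
  obtain ⟨d, hshape, -, h⟩ := hno
  obtain ⟨hd, hneg⟩ := FA.Genus.squarefree_and_neg hshape
  exact ⟨d, hshape, fun K _ _ hK hs => exceptional_classNumber_one E hd (by omega) h K hK hs, h,
    fun s hs σ τ hσ hτ P hP => exceptional_torsion_commute E hd (by omega) h hs hσ hτ hP⟩

end FA.Summary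

end
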