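import Fermat.Agent.OpenImageAll.NormalForm
import Fermat.Agent.Root.SummaryExceptionalClassNumber
import Fermat.Agent.Root.SummaryTorsion

/-!
# The isogeny primes of an exceptional curve

At an inert good prime `q` of an exceptional curve an eigenvalue of Frobenius on a stable line of
`E[l]` squares to `-q`. So `-q` would be a square modulo `l` for all these `q`, which Dirichlet's
theorem excludes for an odd `l ∤ d`: the odd prime orders of stable subgroups are exactly the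
primes dividing `d`. A stable subgroup of prime order `l ≡ 1 mod 4` forces an open image.
-/

set_option autoImplicit false
set_option linter.style.haveILetI false

noncomputable section

open Matrix WeierstrassCurve WeierstrassCurve.Affine FA.EC FA.Frob FA.RT
open scoped WeierstrassCurve.Affine NumberTheorySymbols

local notation "Qb" => AlgebraicClosure ℚ
local notation "GQ" => AlgebraicClosure ℚ ≃ₐ[ℚ] AlgebraicClosure ℚ

namespace FA.ExceptionalIsogeny

/-- For an exceptional radicand there is a class of inert primes. -/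
theorem exists_inert_class {d : ℤ}
    (hshape : d = -1 ∨ d = -2 ∨ ∃ p : ℕ, p.Prime ∧ p % 4 = 3 ∧ d = -(p : ℤ)) :
    ∃ N a : ℕ, 0 < N ∧ a.Coprime N ∧
      (∀ r : ℕ, r.Prime → r ≠ 2 → r ∣ N → (r : ℤ) ∣ d) ∧
      ∀ q : ℕ, ∀ [Fact q.Prime], q ≠ 2 → ¬ q ∣ N → q ≡ a [MOD N] → ¬ IsSquare (d : ZMod q) := by
  rcases hshape with rfl | rfl | ⟨p, hp, hp4, rfl⟩
  · refine ⟨4, 3, by norm_num, by decide, fun r hr hr2 hr4 => absurd
      ((Nat.prime_dvd_prime_iff_eq hr Nat.prime_two).mp (hr.dvd_of_dvd_pow (n := 2) hr4)) hr2,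
      fun q _ _ _ hqa hsq => ?_⟩
    rw [Int.cast_neg, Int.cast_one, ZMod.exists_sq_eq_neg_one_iff] at hsq
    exact hsq hqa
  · refine ⟨8, 5, by norm_num, by decide, fun r hr hr2 hr8 => absurd
      ((Nat.prime_dvd_prime_iff_eq hr Nat.prime_two).mp (hr.dvd_of_dvd_pow (n := 3) hr8)) hr2,
      fun q _ hq2 _ hqa hsq => ?_⟩
    rw [Int.cast_neg, Int.cast_ofNat, ZMod.exists_sq_eq_neg_two_iff hq2] at hsq
    rw [Nat.ModEq] at hqa
    omega
  · haveI := Fact.mk hp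
    obtain ⟨c, hc, hj⟩ := FA.Genus.exists_nonresidue hp (by omega)
    refine ⟨p, c, hp.pos, hc, fun r hr _ hrp => ?_, fun q _ hq2 hqp hqa hsq => ?_⟩
    · rw [(Nat.prime_dvd_prime_iff_eq hr hp).mp hrp]
      exact dvd_neg.mpr dvd_rfl
    · have h2 := (FA.NormalForm.isSquare_neg_iff hp4 hq2
        (fun e => hqp (e ▸ dvd_rfl))).mp hsq
      rw [(ZMod.natCast_eq_natCast_iff q c p).mpr hqa, ← Int.cast_natCast] at h2
      exact ZMod.nonsquare_iff_jacobiSym_eq_neg_one.mp hj h2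

/-- **No stable line modulo an odd prime not dividing `d`.** -/
theorem false_of_stable (E : WeierstrassCurve ℚ) [E.IsElliptic]
    [inst : DecidableEq (AlgebraicClosure ℚ)] {d : ℤ} (hd : Squarefree d) (hd1 : d ≠ 1)
    (h : ∀ l : ℕ, ∀ [Fact l.Prime],
      (∃ C : VariableChange ℚ_[l],
        HasGoodReduction ℤ_[l] (C • E.map (algebraMap ℚ ℚ_[l]))) →
      ¬ IsSquare (d : ZMod l) → E.LFunction l = 0)
    {l : ℕ} (hl : l.Prime) (hl2 : l ≠ 2) (hld : ¬ (l : ℤ) ∣ d)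
    (G : AddSubgroup (E.toAffine⁄Qb).Point) (hcard : Nat.card G = l)
    (hst : ∀ σ : GQ, ∀ P ∈ G, Affine.Point.map σ.toAlgHom P ∈ G) : False := by
  obtain rfl : inst = instDecEqAlgebraicClosureRat := Subsingleton.elim _ _
  haveI := Fact.mk hl
  obtain ⟨W, hW⟩ := exists_integralModel E
  have hΔ := Δ_ne_zero_of_model hW
  haveI := ratCurve_isElliptic_of_Δ hΔ
  obtain ⟨v, hv, heig⟩ := FA.Ribet.exists_eigenvector W
    (FA.Root.not_modRepIsIrreducible_of_model_subgroup hW hl G hcard hst)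
  obtain ⟨N, a, hN0, ha, hNd, hinert⟩ :=
    exists_inert_class (FA.Summary.exceptional_field_shape E hd hd1 h)
  have hlN : ¬ l ∣ N := fun e => hld (hNd l hl hl2 e)
  obtain ⟨c₀, hc₀, hj⟩ := FA.Genus.exists_nonresidue hl hl2
  set c : ℕ := (-(c₀ : ZMod l)).val
  have hc : (c : ZMod l) = -(c₀ : ZMod l) := ZMod.natCast_zmod_val _
  have hccop : c.Coprime l := by
    rw [Nat.coprime_comm, hl.coprime_iff_not_dvd, ← ZMod.natCast_eq_zero_iff, hc, neg_eq_zero,
      ZMod.natCast_eq_zero_iff, ← hl.coprime_iff_not_dvd, Nat.coprime_comm]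
    exact hc₀
  obtain ⟨k, hkN, hkl⟩ :=
    Nat.chineseRemainder ((hl.coprime_iff_not_dvd.mpr hlN).symm : N.Coprime l) a c
  have hk : k.Coprime (N * l) := Nat.Coprime.mul_right
    (by rw [Nat.Coprime, hkN.gcd_eq]; exact ha) (by rw [Nat.Coprime, hkl.gcd_eq]; exact hccop)
  obtain ⟨q, hqgt, hq, hqk⟩ := Nat.forall_exists_prime_gt_and_modEq
    (max (max N l) (max W.Δ.natAbs 2)) (Nat.mul_ne_zero hN0.ne' hl.ne_zero) hk
  haveI := Fact.mk hq
  have hgood : ¬ (q : ℤ) ∣ W.Δ := fun hdvd => by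
    have := Nat.le_of_dvd (Int.natAbs_pos.mpr hΔ) (Int.natCast_dvd.mp hdvd)
    omega
  have hns := hinert q (by omega) (fun e => by have := Nat.le_of_dvd hN0 e; omega)
    ((hqk.of_mul_right l).trans hkN)
  have ha0 := FA.Exceptional.apOfModel_eq_zero hW h hq hgood hns
  obtain ⟨A, hA⟩ := FA.Deform.exists_liesOverPrime hq
  obtain ⟨F, hF⟩ := FA.Deform.exists_isFrobeniusAt hq hA
  obtain ⟨ht, hdet⟩ := FA.Ribet.curveRep_frobenius (p := l) hq (by omega) hgood hA hF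
  obtain ⟨x, hx⟩ := heig F
  have he := FA.Ribet.sq_sub_trace_mul_add_det hv hx
  rw [ht, hdet, ha0, Int.cast_zero, zero_mul, sub_zero,
    (ZMod.natCast_eq_natCast_iff q c l).mpr ((hqk.of_mul_left N).trans hkl), hc] at he
  refine ZMod.nonsquare_iff_jacobiSym_eq_neg_one.mp hj ⟨x, ?_⟩
  rw [Int.cast_natCast]
  linear_combination -he

end FA.ExceptionalIsogeny

namespace FA.Summary

/-- **The odd isogeny primes of an exceptional curve are the primes dividing `d`.** -/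
theorem exceptional_isogenyPrime_iff (E : WeierstrassCurve ℚ) [E.IsElliptic]
    [inst : DecidableEq (AlgebraicClosure ℚ)] {d : ℤ} (hd : Squarefree d) (hd1 : d ≠ 1)
    (h : ∀ l : ℕ, ∀ [Fact l.Prime],
      (∃ C : VariableChange ℚ_[l],
        HasGoodReduction ℤ_[l] (C • E.map (algebraMap ℚ ℚ_[l]))) →
      ¬ IsSquare (d : ZMod l) → E.LFunction l = 0)
    {l : ℕ} (hl : l.Prime) (hl2 : l ≠ 2) :
    (∃ G : AddSubgroup (E.toAffine⁄(AlgebraicClosure ℚ)).Point, Nat.card G = l ∧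
      ∀ σ : AlgebraicClosure ℚ ≃ₐ[ℚ] AlgebraicClosure ℚ, ∀ P ∈ G,
        Affine.Point.map σ.toAlgHom P ∈ G) ↔ (l : ℤ) ∣ d :=
  ⟨fun ⟨G, hcard, hst⟩ => by_contra fun hld =>
      FA.ExceptionalIsogeny.false_of_stable E hd hd1 h hl hl2 hld G hcard hst,
    exceptional_stableSubgroup E hd hd1 h hl⟩

/-- **An isogeny prime without open image**: if the image is not open and there is a stable
subgroup of odd prime order `l`, then `l ≡ 3 mod 4`, `ℚ(√-l)` has class number one and `a_q = 0`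
at its inert good primes. -/
theorem isogenyPrime_of_not_openImage (E : WeierstrassCurve ℚ) [E.IsElliptic]
    [inst : DecidableEq (AlgebraicClosure ℚ)]
    (hno : ¬ ∃ m : ℕ, 0 < m ∧ ∀ (N : ℕ), N ≠ 0 →
      ∀ φ : Submodule.torsionBy ℤ (E.toAffine⁄(AlgebraicClosure ℚ)).Point (N : ℤ) ≃+
        Submodule.torsionBy ℤ (E.toAffine⁄(AlgebraicClosure ℚ)).Point (N : ℤ),
      (∀ P, m • P.1 = 0 → φ P = P) →
        ∃ σ : AlgebraicClosure ℚ ≃ₐ[ℚ] AlgebraicClosure ℚ, ∀ P,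
          Affine.Point.map σ.toAlgHom P.1 = (φ P).1)
    {l : ℕ} (hl : l.Prime) (hl2 : l ≠ 2)
    (G : AddSubgroup (E.toAffine⁄(AlgebraicClosure ℚ)).Point) (hcard : Nat.card G = l)
    (hst : ∀ σ : AlgebraicClosure ℚ ≃ₐ[ℚ] AlgebraicClosure ℚ, ∀ P ∈ G,
      Affine.Point.map σ.toAlgHom P ∈ G) :
    l % 4 = 3 ∧
      (∀ (K : Type) [Field K] [NumberField K], Module.finrank ℚ K = 2 →
        (∃ s : K, s ^ 2 = -(l : K)) → NumberField.classNumber K = 1) ∧
      ∀ q : ℕ, ∀ [Fact q.Prime],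
        (∃ C : VariableChange ℚ_[q],
          HasGoodReduction ℤ_[q] (C • E.map (algebraMap ℚ ℚ_[q]))) →
        ¬ IsSquare ((-(l : ℤ) : ℤ) : ZMod q) → E.LFunction q = 0 := by
  rw [serreOpenImage_adelic_iff_genus E, not_not] at hno
  obtain ⟨d, hshape, -, h⟩ := hno
  obtain ⟨hd, hneg⟩ := FA.Genus.squarefree_and_neg hshape
  have hd1 : d ≠ 1 := by omega
  have hld := (exceptional_isogenyPrime_iff E hd hd1 h hl hl2).mp ⟨G, hcard, hst⟩
  obtain ⟨hl4, rfl⟩ : l % 4 = 3 ∧ d = -(l : ℤ) := by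
    rcases hshape with rfl | rfl | ⟨p, hp, hp4, rfl⟩
    · exact absurd (Int.natCast_dvd_natCast.mp (dvd_neg.mp hld) : l ∣ 1) hl.not_dvd_one
    · exact absurd ((Nat.prime_dvd_prime_iff_eq hl Nat.prime_two).mp
        (Int.natCast_dvd_natCast.mp (dvd_neg.mp hld) : l ∣ 2)) hl2
    · obtain rfl := (Nat.prime_dvd_prime_iff_eq hl hp).mp
        (Int.natCast_dvd_natCast.mp (dvd_neg.mp hld))
      exact ⟨hp4, rfl⟩
  exact ⟨hl4, fun K _ _ hK hs => exceptional_classNumber_one E hd hd1 h K hK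
    (hs.imp fun s hs => by rw [hs]; push_cast; rfl), h⟩

/-- **An isogeny of prime degree `1 mod 4` forces an open image** (`5`, `13`, `17`, `37`, ...). -/
theorem openImage_of_isogeny_one_mod_four (E : WeierstrassCurve ℚ) [E.IsElliptic]
    [inst : DecidableEq (AlgebraicClosure ℚ)] {l : ℕ} (hl : l.Prime) (hl4 : l % 4 = 1)
    (G : AddSubgroup (E.toAffine⁄(AlgebraicClosure ℚ)).Point) (hcard : Nat.card G = l)
    (hst : ∀ σ : AlgebraicClosure ℚ ≃ₐ[ℚ] AlgebraicClosure ℚ, ∀ P ∈ G,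
      Affine.Point.map σ.toAlgHom P ∈ G) :
    ∃ m : ℕ, 0 < m ∧ ∀ (N : ℕ), N ≠ 0 →
      ∀ φ : Submodule.torsionBy ℤ (E.toAffine⁄(AlgebraicClosure ℚ)).Point (N : ℤ) ≃+
        Submodule.torsionBy ℤ (E.toAffine⁄(AlgebraicClosure ℚ)).Point (N : ℤ),
      (∀ P, m • P.1 = 0 → φ P = P) →
        ∃ σ : AlgebraicClosure ℚ ≃ₐ[ℚ] AlgebraicClosure ℚ, ∀ P,
          Affine.Point.map σ.toAlgHom P.1 = (φ P).1 := by
  by_contra hno
  have h := (isogenyPrime_of_not_openImage E hno hl (by omega) G hcard hst).1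
  omega

/-- **Two odd isogeny primes force an open image.** -/
theorem openImage_of_two_isogenyPrimes (E : WeierstrassCurve ℚ) [E.IsElliptic]
    [inst : DecidableEq (AlgebraicClosure ℚ)] {l l' : ℕ} (hl : l.Prime) (hl2 : l ≠ 2)
    (hl' : l'.Prime) (hl2' : l' ≠ 2) (hne : l ≠ l')
    (G G' : AddSubgroup (E.toAffine⁄(AlgebraicClosure ℚ)).Point) (hcard : Nat.card G = l)
    (hst : ∀ σ : AlgebraicClosure ℚ ≃ₐ[ℚ] AlgebraicClosure ℚ, ∀ P ∈ G,
      Affine.Point.map σ.toAlgHom P ∈ G)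
    (hcard' : Nat.card G' = l')
    (hst' : ∀ σ : AlgebraicClosure ℚ ≃ₐ[ℚ] AlgebraicClosure ℚ, ∀ P ∈ G',
      Affine.Point.map σ.toAlgHom P ∈ G') :
    ∃ m : ℕ, 0 < m ∧ ∀ (N : ℕ), N ≠ 0 →
      ∀ φ : Submodule.torsionBy ℤ (E.toAffine⁄(AlgebraicClosure ℚ)).Point (N : ℤ) ≃+
        Submodule.torsionBy ℤ (E.toAffine⁄(AlgebraicClosure ℚ)).Point (N : ℤ),
      (∀ P, m • P.1 = 0 → φ P = P) →
        ∃ σ : AlgebraicClosure ℚ ≃ₐ[ℚ] AlgebraicClosure ℚ, ∀ P,
          Affine.Point.map σ.toAlgHom P.1 = (φ P).1 := by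
  by_contra hno
  obtain ⟨hl4, -, h⟩ := isogenyPrime_of_not_openImage E hno hl hl2 G hcard hst
  have hd : Squarefree (-(l : ℤ)) := by
    rw [← Int.squarefree_natAbs, Int.natAbs_neg, Int.natAbs_natCast]
    exact hl.squarefree
  have hld := (exceptional_isogenyPrime_iff E hd (by omega) h hl' hl2').mp ⟨G', hcard', hst'⟩
  exact hne ((Nat.prime_dvd_prime_iff_eq hl' hl).mp
    (Int.natCast_dvd_natCast.mp (dvd_neg.mp hld))).symm

end FA.Summary

end
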