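import Fermat.Agent.Root.SummaryPrimeLevelNumerator
import Fermat.Agent.EisReducible.TorsionLattice

/-!
# Galois-stable cyclic subgroups of `J₀(p)`

For a prime `l ≥ 5`, `l ≠ p`, a Galois-stable cyclic subgroup of order `l` of `J₀(p)` exists only
when `l` divides the numerator `n` of `(p - 1) / 12`: a maximal ideal containing the annihilator
of a generator has the reducible representation `a ⊕ χ a⁻¹`, where `a` is the character of the
subgroup. So a rational point of such an order has `l ∣ n`, the upper bound in Mazur's theorem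
on the torsion of `J₀(p)(ℚ)` for these primes.
-/

set_option autoImplicit false
set_option linter.style.haveILetI false
set_option synthInstance.maxHeartbeats 400000
set_option maxHeartbeats 2000000

noncomputable section

open ModularCurve FA.Mazur FA.JTorsion
open scoped Matrix

local notation "Qb" => AlgebraicClosure ℚ
local notation "GQ" => AlgebraicClosure ℚ ≃ₐ[ℚ] AlgebraicClosure ℚ

namespace FA.Summary

variable {p : ℕ} [Fact p.Prime] {l : ℕ} [Fact l.Prime]

/-- **A stable cyclic subgroup of order `l` of `J₀(p)` has `l` dividing the numerator.** -/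
theorem prime_level_stable_cyclic_dvd_numerator (h5 : 5 ≤ l) (hlp : l ≠ p) (x : JZero p)
    (hx0 : x ≠ 0) (hlx : l • x = 0) (hstab : ∀ σ : GQ, σ • x ∈ AddSubgroup.zmultiples x) :
    l ∣ eisensteinNumerator p := by
  classical
  obtain ⟨alg⟩ := exists_algebra_qbar
  letI := alg
  have hl : l.Prime := Fact.out
  haveI : NeZero l := ⟨hl.ne_zero⟩
  obtain ⟨q₀, hq₀⟩ := FA.EisReducible.exists_toTors_eq_of_nsmul p l x hlx
  set γ := galMod p (∅ : Set ℕ) l
  have hq0 : q₀ ≠ 0 := fun h => hx0 (by rw [← hq₀, h, map_zero])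
  have hlq : (l : ℤ) • q₀ = 0 := toTors_injective p (∅ : Set ℕ) l (by
    rw [map_zsmul, hq₀, map_zero, natCast_zsmul, hlx])
  -- the character of the subgroup
  have hgen : ∀ σ : GQ, ∃ z : ℤ, γ σ q₀ = z • q₀ := fun σ => by
    obtain ⟨z, hz⟩ := AddSubgroup.mem_zmultiples_iff.1 (hstab σ)
    refine ⟨z, toTors_injective p (∅ : Set ℕ) l ?_⟩
    rw [toTors_galMod, map_zsmul, hq₀, hz]
  choose z hz using hgen
  have hord : ∀ {u v : ℤ}, u • q₀ = v • q₀ → (u : ZMod l) = v := fun {u v} h => by
    rw [ZMod.intCast_eq_intCast_iff_dvd_sub]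
    by_contra hd
    obtain ⟨s, t, hst⟩ :=
      ((Nat.prime_iff_prime_int.1 hl).coprime_iff_not_dvd.2 hd)
    refine hq0 ?_
    rw [← one_smul ℤ q₀, ← hst, add_smul, mul_smul, mul_smul, hlq, sub_smul, h, sub_self,
      smul_zero, smul_zero, add_zero]
  let a : GQ →* ZMod l :=
    { toFun := fun σ => (z σ : ZMod l)
      map_one' := by
        have h : z 1 • q₀ = (1 : ℤ) • q₀ := by rw [← hz, map_one, Module.End.one_apply, one_smul]
        rw [hord h, Int.cast_one]
      map_mul' := fun σ τ => by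
        have h : z (σ * τ) • q₀ = (z σ * z τ) • q₀ := by
          rw [← hz, map_mul, Module.End.mul_apply, hz, map_zsmul, hz, smul_smul, mul_comm]
        rw [hord h, Int.cast_mul] }
  -- a maximal ideal containing the annihilator
  let I : Ideal (TAlg p) :=
    { carrier := {t | t • q₀ = 0}
      add_mem' := fun {s t} (hs : s • q₀ = 0) (ht : t • q₀ = 0) =>
        show (s + t) • q₀ = 0 by rw [add_smul, hs, ht, add_zero]
      zero_mem' := zero_smul _ q₀
      smul_mem' := fun s t (ht : t • q₀ = 0) =>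
        show (s * t) • q₀ = 0 by rw [mul_smul, ht, smul_zero] }
  have hI : I ≠ ⊤ := fun h => hq0 (by
    have h1 : (1 : TAlg p) • q₀ = 0 := (h.symm ▸ Submodule.mem_top : (1 : TAlg p) ∈ I)
    rwa [one_smul] at h1)
  obtain ⟨m, hm, hIm⟩ := Ideal.exists_le_maximal I hI
  letI := Ideal.Quotient.field m
  set θ : TAlg p →+* TAlg p ⧸ m := Ideal.Quotient.mk m
  have hkill : ∀ t : TAlg p, t • q₀ = 0 → θ t = 0 := fun t ht =>
    Ideal.Quotient.eq_zero_iff_mem.2 (hIm ht)
  haveI : CharP (TAlg p ⧸ m) l := (CharP.charP_iff_prime_eq_zero hl).2 (by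
    rw [← map_natCast θ]
    refine hkill _ ?_
    rw [Nat.cast_smul_eq_nsmul, ← natCast_zsmul]
    exact hlq)
  let c := ZMod.castHom (dvd_refl l) (TAlg p ⧸ m)
  let χ := cycK l (ZMod l)
  let r : GQ →* Matrix (Fin 2) (Fin 2) (TAlg p ⧸ m) :=
    { toFun := fun σ => Matrix.diagonal ![c (a σ), c ((χ σ : ZMod l) * a σ⁻¹)]
      map_one' := by
        rw [inv_one, map_one a, map_one χ, Units.val_one, mul_one, map_one, ← Matrix.diagonal_one]
        congr 1
        ext i; fin_cases i <;> rfl
      map_mul' := fun σ τ => by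
        rw [Matrix.diagonal_mul_diagonal, map_mul a, map_mul χ, Units.val_mul, mul_inv_rev,
          map_mul a]
        congr 1
        ext i
        fin_cases i
        · simp
        · simp
          ring }
  obtain ⟨L, hL, hLγ⟩ := exists_field_galMod p (∅ : Set ℕ) l
  obtain ⟨L', hL', hLχ⟩ := exists_field_cycK l (ZMod l)
  have hopen : IsOpen (r.ker : Set GQ) := isOpen_ker_of_field r
      ⟨L ⊔ L', inferInstance, fun σ hσ => by
    have hfix : ∀ τ : GQ, (∀ b ∈ L, τ b = b) → a τ = 1 := fun τ hτ => by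
      have h : z τ • q₀ = (1 : ℤ) • q₀ := by
        rw [← hz, show γ τ = 1 from hLγ τ hτ, Module.End.one_apply, one_smul]
      rw [← Int.cast_one (R := ZMod l), ← hord h]
      rfl
    have hσL : ∀ b ∈ L, σ b = b := fun b hb => hσ b ((le_sup_left : L ≤ L ⊔ L') hb)
    have hσi : ∀ b ∈ L, σ⁻¹ b = b := fun b hb => by
      conv_lhs => rw [← hσL b hb, ← AlgEquiv.mul_apply, inv_mul_cancel]
      rfl
    show Matrix.diagonal ![c (a σ), c ((χ σ : ZMod l) * a σ⁻¹)] = 1
    rw [hfix σ hσL, hfix σ⁻¹ hσi,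
      show χ σ = 1 from hLχ σ fun b hb => hσ b ((le_sup_right : L' ≤ L ⊔ L') hb), Units.val_one,
      mul_one, map_one, ← Matrix.diagonal_one]
    congr 1
    ext i; fin_cases i <;> rfl⟩
  refine prime_level_reducible_dvd_numerator h5 hlp θ r hopen (fun q hqp hql A hA σ hσ => ?_)
    ⟨![1, 0], fun h => by simpa using congrFun h 0, fun σ => ⟨c (a σ), ?_⟩⟩
  · have hqN : ¬ (q : ℕ) ∣ p := fun h => hqp ((Nat.prime_dvd_prime_iff_eq q.2 Fact.out).1 h)
    have hqn : ¬ (q : ℕ) ∣ l := fun h => hql ((Nat.prime_dvd_prime_iff_eq q.2 hl).1 h)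
    haveI : NeZero (q : ℕ) := ⟨q.2.ne_zero⟩
    have hχ : (χ σ : ZMod l) = (q : ℕ) := cycK_frobenius l _ q.2 hql hA hσ
    have hai : a σ * a σ⁻¹ = 1 := by rw [← map_mul, mul_inv_cancel, map_one]
    have hf := galMod_frobenius p (∅ : Set ℕ) l (goodRed_all p) q.2 hqN hqn hA
      (Set.notMem_empty _) hσ q₀
    rw [hz, hz, ← natCast_zsmul, smul_smul, ← add_smul,
      ← CuspForm.heckeEvalForms_heckeGen_of_not_dvd (ℓ := q) hqN, ← Int.cast_smul_eq_zsmul (TAlg p),
      ← sub_eq_zero, ← sub_smul] at hf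
    have hθ := hkill _ hf
    rw [map_sub, sub_eq_zero, map_intCast, ← map_intCast c, Int.cast_add, Int.cast_mul,
      Int.cast_natCast] at hθ
    show (Matrix.diagonal _).trace = _ ∧ (Matrix.diagonal _).det = _
    rw [Matrix.trace_diagonal, Matrix.det_diagonal, Fin.sum_univ_two, Fin.prod_univ_two]
    simp only [Matrix.cons_val_zero, Matrix.cons_val_one, Matrix.cons_val_fin_one, hχ]
    refine ⟨?_, ?_⟩
    · rw [← map_add]
      exact hθ
    · rw [← map_mul, ← map_natCast c, mul_left_comm, hai, mul_one]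
  · show Matrix.diagonal _ *ᵥ _ = _
    ext i
    fin_cases i <;> simp [Matrix.mulVec_diagonal]

/-- **A rational point of prime order `l ≥ 5`, `l ≠ p`, of `J₀(p)` has `l` dividing the
numerator.** -/
theorem prime_level_torsion_dvd_numerator (h5 : 5 ≤ l) (hlp : l ≠ p) (x : JZero p) (hx0 : x ≠ 0)
    (hlx : l • x = 0) (hfix : ∀ σ : GQ, σ • x = x) : l ∣ eisensteinNumerator p :=
  prime_level_stable_cyclic_dvd_numerator h5 hlp x hx0 hlx fun σ => by
    rw [hfix σ]
    exact AddSubgroup.mem_zmultiples x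

/-- The rational points of prime order `l ≥ 5`, `l ≠ 11`, of `J₀(11)` have order `5`. -/
theorem prime_level_torsion_eleven [Fact (Nat.Prime 11)] (h5 : 5 ≤ l) (hl11 : l ≠ 11)
    (x : JZero 11) (hx0 : x ≠ 0) (hlx : l • x = 0) (hfix : ∀ σ : GQ, σ • x = x) : l = 5 := by
  have h := (prime_level_torsion_dvd_numerator h5 hl11 x hx0 hlx hfix).trans
    (by decide : eisensteinNumerator 11 ∣ 5)
  exact (Nat.prime_dvd_prime_iff_eq Fact.out (by norm_num)).1 h

end FA.Summary

end
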