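import Fermat.Agent.CuspClass.Order
import Fermat.Agent.Root.SummaryPrimeLevelTorsion

/-!
# The cuspidal divisor class of `J₀(p)`

* `prime_level_cuspidal_class_order`: the poles of `j` on `X₀(p)` are two rational places, `∞` and
  `0`; the class of `(0) - (∞)` is rational of order exactly the numerator of `(p - 1) / 12`.
* `prime_level_rational_torsion_iff`: for a prime `l ≥ 5`, `l ≠ p`, there is a rational point of
  order `l` on `J₀(p)` if and only if `l` divides the numerator.
-/

set_option autoImplicit false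
set_option linter.style.haveILetI false
set_option synthInstance.maxHeartbeats 400000
set_option maxHeartbeats 1600000

noncomputable section

open ModularCurve AlgebraicCurve FA.Curve FA.ModField

local notation "Qb" => AlgebraicClosure ℚ
local notation "GQ" => AlgebraicClosure ℚ ≃ₐ[ℚ] AlgebraicClosure ℚ

namespace FA.CuspClass

theorem exists_cuspidal_class [Algebra Qb ℂ] (p : ℕ) [Fact p.Prime] [NeZero p] (hp5 : 5 ≤ p)
    (N : ℕ) [NeZero N] (hN : N = 1 * p) :
    ∃ (Pinf P0 : Place Qb (modularFunctionFieldBar N))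
      (hdeg : Finsupp.single P0 (1 : ℤ) - Finsupp.single Pinf 1 ∈
        Divisor.degZero (K := Qb) (F := modularFunctionFieldBar N)),
      Pinf ≠ P0 ∧
      (∀ f : modularFunctionFieldBar N, Pinf.ord f = (f : LaurentSeries Qb).order) ∧
      (∀ J : modularFunctionFieldBar N, (J : LaurentSeries Qb) = jqModC Qb →
        Pinf.ord J = -1 ∧ P0.ord J = -(p : ℤ) ∧
          ∀ v : Place Qb (modularFunctionFieldBar N), v.ord J < 0 → v = Pinf ∨ v = P0) ∧
      addOrderOf (Pic0.mk ⟨_, hdeg⟩ : JZero N) = eisensteinNumerator p ∧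
      ∀ σ : GQ, σ • (Pic0.mk ⟨_, hdeg⟩ : JZero N) = Pic0.mk ⟨_, hdeg⟩ := by
  subst hN
  refine ⟨infty p, zero p, (cuspDiv p).2, infty_ne_zero p, ord_infty p, fun J hJ => ?_,
    addOrderOf_cuspCls p hp5, gal_cuspCls p⟩
  obtain rfl : J = levelJ (1 * p) Qb := Subtype.ext hJ
  exact ⟨ord_levelJ_infty p, ord_levelJ_zero p, fun v hv => eq_cusp_of_pole p hv⟩

end FA.CuspClass

namespace FA.Summary

variable {p : ℕ} [Fact p.Prime]

/-- **The cuspidal divisor class of `J₀(p)` has order the numerator of `(p - 1) / 12`.** -/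
theorem prime_level_cuspidal_class_order [NeZero p] (hp5 : 5 ≤ p) :
    ∃ (Pinf P0 : Place Qb (modularFunctionFieldBar p))
      (hdeg : Finsupp.single P0 (1 : ℤ) - Finsupp.single Pinf 1 ∈
        Divisor.degZero (K := Qb) (F := modularFunctionFieldBar p)),
      Pinf ≠ P0 ∧
      (∀ f : modularFunctionFieldBar p, Pinf.ord f = (f : LaurentSeries Qb).order) ∧
      (∀ J : modularFunctionFieldBar p, (J : LaurentSeries Qb) = jqModC Qb →
        Pinf.ord J = -1 ∧ P0.ord J = -(p : ℤ) ∧
          ∀ v : Place Qb (modularFunctionFieldBar p), v.ord J < 0 → v = Pinf ∨ v = P0) ∧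
      addOrderOf (Pic0.mk ⟨_, hdeg⟩ : JZero p) = eisensteinNumerator p ∧
      ∀ σ : GQ, σ • (Pic0.mk ⟨_, hdeg⟩ : JZero p) = Pic0.mk ⟨_, hdeg⟩ := by
  obtain ⟨alg⟩ := FA.JTorsion.exists_algebra_qbar
  letI := alg
  exact FA.CuspClass.exists_cuspidal_class p hp5 p (one_mul p).symm

/-- **`J₀(p)` has a rational point of prime order `l ≥ 5`, `l ≠ p`, exactly when `l` divides the
numerator of `(p - 1) / 12`.** -/
theorem prime_level_rational_torsion_iff (hp5 : 5 ≤ p) {l : ℕ} [Fact l.Prime] (h5 : 5 ≤ l)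
    (hlp : l ≠ p) :
    (∃ x : JZero p, addOrderOf x = l ∧ ∀ σ : GQ, σ • x = x) ↔ l ∣ eisensteinNumerator p := by
  haveI : NeZero p := ⟨(Fact.out : p.Prime).ne_zero⟩
  constructor
  · rintro ⟨x, hx, hfix⟩
    refine prime_level_torsion_dvd_numerator h5 hlp x (fun h => ?_)
      (hx ▸ addOrderOf_nsmul_eq_zero x) hfix
    rw [h, addOrderOf_zero] at hx
    omega
  · rintro ⟨r, hr⟩
    obtain ⟨Pinf, P0, hdeg, -, -, -, hord, hfix⟩ := prime_level_cuspidal_class_order hp5
    set c : JZero p := Pic0.mk ⟨_, hdeg⟩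
    have hn : eisensteinNumerator p ≠ 0 := by
      rw [eisensteinNumerator]
      exact (Nat.div_pos (Nat.le_of_dvd (by omega) (Nat.gcd_dvd_left _ _))
        (Nat.gcd_pos_of_pos_right _ (by norm_num))).ne'
    have hr0 : r ≠ 0 := fun h => hn (by rw [hr, h, mul_zero])
    refine ⟨r • c, ?_, fun σ =>
      ((DistribSMul.toAddMonoidHom (JZero p) σ).map_nsmul r c).trans (congrArg (r • ·) (hfix σ))⟩
    have hdvd : r ∣ addOrderOf c := by rw [hord, hr]; exact dvd_mul_left r l
    rw [addOrderOf_nsmul' c hr0, Nat.gcd_eq_right hdvd, hord, hr,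
      Nat.mul_div_cancel _ (Nat.pos_of_ne_zero hr0)]

/-- `J₀(11)` has a rational point of order `5`. -/
theorem prime_level_torsion_five_eleven [Fact (Nat.Prime 11)] :
    ∃ x : JZero 11, addOrderOf x = 5 ∧ ∀ σ : GQ, σ • x = x :=
  haveI : Fact (Nat.Prime 5) := ⟨by norm_num⟩
  (prime_level_rational_torsion_iff (p := 11) (l := 5) (by norm_num) le_rfl (by norm_num)).2
    (by decide)

end FA.Summary

end
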