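import Fermat.Agent.CuspClass.EisensteinKill
import Fermat.Agent.Root.SummaryPrimeLevelCuspidal

/-!
# The rational torsion of `J₀(p)` of order prime to `6 p`

* `prime_level_rational_torsion_hecke`: `T_q = 1 + q` on rational torsion for the odd primes
  `q ≠ p`, whatever the order.
* `prime_level_rational_torsion_orders`: the orders prime to `6 p` of rational points of `J₀(p)`
  are exactly the divisors of the numerator of `(p - 1) / 12`, prime powers included.
-/

set_option autoImplicit false
set_option linter.style.haveILetI false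
set_option synthInstance.maxHeartbeats 400000
set_option maxHeartbeats 1000000

noncomputable section

open ModularCurve FA.JTorsion FA.ModField

local notation "Qb" => AlgebraicClosure ℚ
local notation "GQ" => AlgebraicClosure ℚ ≃ₐ[ℚ] AlgebraicClosure ℚ

namespace FA.Summary

variable {p : ℕ} [Fact p.Prime]

/-- **The Eisenstein congruence relation on rational torsion of `J₀(p)`.** -/
theorem prime_level_rational_torsion_hecke [NeZero p] {q : ℕ} [Fact q.Prime] [NeZero q]
    (hq2 : q ≠ 2) (hqp : q ≠ p) (x : JZero p) (hx : IsOfFinAddOrder x)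
    (hfix : ∀ σ : GQ, σ • x = x) : heckeOperatorAlong Qb p q x = (1 + q) • x := by
  obtain ⟨alg⟩ := FA.JTorsion.exists_algebra_qbar
  letI := alg
  exact FA.CuspClass.hecke_eq_of_fixed p hq2
    (fun h => hqp ((Nat.prime_dvd_prime_iff_eq Fact.out Fact.out).1 h)) hx hfix

/-- **`J₀(p)` has a rational point of order `M` prime to `6 p` exactly when `M` divides the
numerator of `(p - 1) / 12`.** -/
theorem prime_level_rational_torsion_orders (hp5 : 5 ≤ p) {M : ℕ} (hM : M.Coprime (6 * p)) :
    (∃ x : JZero p, addOrderOf x = M ∧ ∀ σ : GQ, σ • x = x) ↔ M ∣ eisensteinNumerator p := by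
  haveI : NeZero p := ⟨(Fact.out : p.Prime).ne_zero⟩
  obtain ⟨alg⟩ := FA.JTorsion.exists_algebra_qbar
  letI := alg
  have hM0 : M ≠ 0 := by
    rintro rfl
    rw [Nat.coprime_zero_left] at hM
    omega
  haveI : NeZero M := ⟨hM0⟩
  constructor
  · rintro ⟨x, rfl, hfix⟩
    obtain ⟨q₀, hq₀⟩ := FA.EisReducible.exists_toTors_eq_of_nsmul p (addOrderOf x) x
      (addOrderOf_nsmul_eq_zero x)
    have h := congrArg (toTors p (∅ : Set ℕ) (addOrderOf x))
      (FA.CuspClass.numerator_nsmul_of_fixed (addOrderOf x) hM (q₀ := q₀) (hq₀.symm ▸ hfix))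
    rw [map_nsmul, hq₀, map_zero] at h
    exact addOrderOf_dvd_of_nsmul_eq_zero h
  · rintro ⟨r, hr⟩
    obtain ⟨Pinf, P0, hdeg, -, -, -, hord, hfix⟩ := prime_level_cuspidal_class_order hp5
    set c : JZero p := AlgebraicCurve.Pic0.mk ⟨_, hdeg⟩
    have hn : eisensteinNumerator p ≠ 0 := by
      rw [eisensteinNumerator]
      exact (Nat.div_pos (Nat.le_of_dvd (by omega) (Nat.gcd_dvd_left _ _))
        (Nat.gcd_pos_of_pos_right _ (by norm_num))).ne'
    have hr0 : r ≠ 0 := fun h => hn (by rw [hr, h, mul_zero])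
    refine ⟨r • c, ?_, fun σ => FA.CuspClass.gal_nsmul p hfix r σ⟩
    have hdvd : r ∣ addOrderOf c := by rw [hord, hr]; exact dvd_mul_left r M
    rw [addOrderOf_nsmul' c hr0, Nat.gcd_eq_right hdvd, hord, hr,
      Nat.mul_div_cancel _ (Nat.pos_of_ne_zero hr0)]

end FA.Summary

end
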