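import Fermat.Agent.CuspClass.MultOne
import Fermat.Agent.Root.SummaryPrimeLevelTorsionOrders

/-!
# The rational torsion of `J₀(p)` away from `6 p` is generated by the cuspidal class

* `prime_level_rational_torsion_generated`: a class killed by an `M` prime to `6 p` is rational if
  and only if it is a multiple of the class of `(0) - (∞)`.
* `prime_level_rational_torsion_card`: there are exactly `gcd (M, n)` of them, `n` the numerator
  of `(p - 1) / 12`.
-/

set_option autoImplicit false
set_option linter.style.haveILetI false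
set_option synthInstance.maxHeartbeats 400000
set_option maxHeartbeats 1000000

noncomputable section

open ModularCurve AlgebraicCurve FA.JTorsion FA.ModField

local notation "Qb" => AlgebraicClosure ℚ
local notation "GQ" => AlgebraicClosure ℚ ≃ₐ[ℚ] AlgebraicClosure ℚ

namespace FA.CuspClass

variable [Algebra Qb ℂ] {p : ℕ} [Fact p.Prime] [NeZero p]

omit [Algebra Qb ℂ] [Fact p.Prime] [NeZero p] in
theorem eisensteinNumerator_ne_zero (hp5 : 5 ≤ p) : eisensteinNumerator p ≠ 0 := by
  rw [eisensteinNumerator]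
  exact (Nat.div_pos (Nat.le_of_dvd (by omega) (Nat.gcd_dvd_left _ _))
    (Nat.gcd_pos_of_pos_right _ (by norm_num))).ne'

theorem mem_zmultiples_of_fixed (hp5 : 5 ≤ p) {c : JZero p}
    (hc : addOrderOf c = eisensteinNumerator p) (hcfix : ∀ σ : GQ, σ • c = c) :
    ∀ (d : ℕ) (x : JZero p), d.Coprime (6 * p) → d • x = 0 → (∀ σ : GQ, σ • x = x) →
      x ∈ AddSubgroup.zmultiples c := by
  intro d
  induction d using Nat.strong_induction_on with
  | _ d ih =>
    intro x hd hdx hx
    rcases eq_or_ne d 1 with rfl | hd1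
    · rw [one_smul] at hdx
      rw [hdx]
      exact zero_mem _
    have hd0 : d ≠ 0 := fun h => by
      rw [h, Nat.coprime_zero_left] at hd
      omega
    have hpos : 0 < addOrderOf x :=
      (isOfFinAddOrder_iff_nsmul_eq_zero.2 ⟨d, Nat.pos_of_ne_zero hd0, hdx⟩).addOrderOf_pos
    have hxd := addOrderOf_dvd_of_nsmul_eq_zero hdx
    rcases (Nat.le_of_dvd (Nat.pos_of_ne_zero hd0) hxd).lt_or_eq with hlt | heq
    · exact ih _ hlt x (hd.coprime_dvd_left hxd) (addOrderOf_nsmul_eq_zero x) hx
    obtain ⟨l, hl, e, rfl⟩ := Nat.exists_prime_and_dvd hd1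
    haveI := Fact.mk hl
    have hl6 : ∀ t, t ∣ 6 * p → l ≠ t := fun t ht h =>
      hl.one_lt.ne' (Nat.eq_one_of_dvd_coprimes hd (dvd_mul_right l e) (h ▸ ht))
    have h2 : l ≠ 2 := hl6 2 ((by norm_num : 2 ∣ 6).mul_right p)
    have h3 : l ≠ 3 := hl6 3 ((by norm_num : 3 ∣ 6).mul_right p)
    have h4 : l ≠ 4 := fun h => by rw [h] at hl; norm_num at hl
    have h5 : 5 ≤ l := by have := hl.two_le; omega
    obtain ⟨f, hf⟩ := (FA.Summary.prime_level_rational_torsion_orders hp5 hd).1 ⟨x, heq, hx⟩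
    have he0 : e ≠ 0 := fun h => hd0 (by rw [h, mul_zero])
    have hkill : l • (e * f) • c = 0 := by
      rw [smul_smul, ← mul_assoc, ← hf, ← hc, addOrderOf_nsmul_eq_zero]
    have hne : (e * f) • c ≠ 0 := fun h => by
      have hn0 := eisensteinNumerator_ne_zero hp5
      have hef : 0 < e * f := Nat.pos_of_ne_zero fun h0 => hn0 (by rw [hf, mul_assoc, h0, mul_zero])
      have := Nat.le_of_dvd hef (addOrderOf_dvd_of_nsmul_eq_zero h)
      rw [hc, hf, mul_assoc] at this
      nlinarith
    have hex : l • e • x = 0 := by rw [smul_smul, hdx]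
    obtain ⟨m, hm⟩ := exists_nsmul_eq_of_fixed h5 (hl6 p (dvd_mul_left p 6)) hex
      (gal_nsmul p hx e) hkill (gal_nsmul p hcfix _) hne
    set y := x - (m * f) • c with hy
    have hey : e • y = 0 := by
      rw [hy, nsmul_sub, hm, smul_smul, smul_smul,
        show e * (m * f) = m * (e * f) by ring, sub_self]
    have hmem : y ∈ AddSubgroup.zmultiples c :=
      ih e (lt_mul_left (Nat.pos_of_ne_zero he0) hl.one_lt) y
        (hd.coprime_dvd_left (dvd_mul_left e l)) hey fun σ => by
          refine (map_sub (DistribSMul.toAddMonoidHom (JZero p) σ) x ((m * f) • c)).trans ?_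
          show σ • x - σ • ((m * f) • c) = _
          rw [hx, gal_nsmul p hcfix]
    have h := add_mem hmem (AddSubgroup.nsmul_mem _ (AddSubgroup.mem_zmultiples c) (m * f))
    rwa [hy, sub_add_cancel] at h

omit [Algebra Qb ℂ] [Fact p.Prime] in
theorem fixed_of_mem_zmultiples {c : JZero p} (hcfix : ∀ σ : GQ, σ • c = c) {x : JZero p}
    (hx : x ∈ AddSubgroup.zmultiples c) (σ : GQ) : σ • x = x := by
  obtain ⟨k, rfl⟩ := AddSubgroup.mem_zmultiples_iff.1 hx
  exact ((DistribSMul.toAddMonoidHom (JZero p) σ).map_zsmul k c).trans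
    (congrArg (k • ·) (hcfix σ))

end FA.CuspClass

namespace FA.Summary

variable {p : ℕ} [Fact p.Prime]

/-- **The cuspidal class generates the rational torsion of `J₀(p)` prime to `6 p`.** -/
theorem prime_level_rational_torsion_generated [NeZero p] (hp5 : 5 ≤ p) :
    ∃ (Pinf P0 : Place Qb (modularFunctionFieldBar p))
      (hdeg : Finsupp.single P0 (1 : ℤ) - Finsupp.single Pinf 1 ∈
        Divisor.degZero (K := Qb) (F := modularFunctionFieldBar p)),
      Pinf ≠ P0 ∧
      (∀ f : modularFunctionFieldBar p, Pinf.ord f = (f : LaurentSeries Qb).order) ∧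
      (∀ J : modularFunctionFieldBar p, (J : LaurentSeries Qb) = jqModC Qb →
        Pinf.ord J = -1 ∧ P0.ord J = -(p : ℤ) ∧
          ∀ v : Place Qb (modularFunctionFieldBar p), v.ord J < 0 → v = Pinf ∨ v = P0) ∧
      addOrderOf (Pic0.mk ⟨_, hdeg⟩ : JZero p) = eisensteinNumerator p ∧
      ∀ M : ℕ, M.Coprime (6 * p) → ∀ x : JZero p, M • x = 0 →
        ((∀ σ : GQ, σ • x = x) ↔
          x ∈ AddSubgroup.zmultiples (Pic0.mk ⟨_, hdeg⟩ : JZero p)) := by
  obtain ⟨alg⟩ := FA.JTorsion.exists_algebra_qbar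
  letI := alg
  obtain ⟨Pinf, P0, hdeg, hne, hord, hJ, hn, hfix⟩ := prime_level_cuspidal_class_order hp5
  exact ⟨Pinf, P0, hdeg, hne, hord, hJ, hn, fun M hM x hMx =>
    ⟨fun h => FA.CuspClass.mem_zmultiples_of_fixed hp5 hn hfix M x hM hMx h,
      fun h => FA.CuspClass.fixed_of_mem_zmultiples hfix h⟩⟩

/-- **There are `gcd (M, n)` rational classes killed by `M` prime to `6 p`.** -/
theorem prime_level_rational_torsion_card [NeZero p] (hp5 : 5 ≤ p) {M : ℕ}
    (hM : M.Coprime (6 * p)) :
    Nat.card {x : JZero p // M • x = 0 ∧ ∀ σ : GQ, σ • x = x} =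
      M.gcd (eisensteinNumerator p) := by
  obtain ⟨alg⟩ := FA.JTorsion.exists_algebra_qbar
  letI := alg
  obtain ⟨Pinf, P0, hdeg, -, -, -, hn, hfix⟩ := prime_level_cuspidal_class_order hp5
  set c : JZero p := Pic0.mk ⟨_, hdeg⟩
  haveI : Finite (AddSubgroup.zmultiples c) :=
    Nat.finite_of_card_ne_zero (by
      rw [Nat.card_zmultiples, hn]; exact FA.CuspClass.eisensteinNumerator_ne_zero hp5)
  rw [show Nat.card {x : JZero p // M • x = 0 ∧ ∀ σ : GQ, σ • x = x} =
      Nat.card (nsmulAddMonoidHom M : AddSubgroup.zmultiples c →+ _).ker from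
    Nat.card_congr {
      toFun := fun x => ⟨⟨x, FA.CuspClass.mem_zmultiples_of_fixed hp5 hn hfix M x hM x.2.1 x.2.2⟩,
        Subtype.ext x.2.1⟩
      invFun := fun x => ⟨(x : AddSubgroup.zmultiples c), congrArg Subtype.val x.2,
        FA.CuspClass.fixed_of_mem_zmultiples hfix x.1.2⟩
      left_inv := fun x => rfl
      right_inv := fun x => rfl },
    IsAddCyclic.card_nsmulAddMonoidHom_ker, Nat.card_zmultiples, hn, Nat.gcd_comm]

end FA.Summary

end
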