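import Fermat.Agent.CuspClass.LevelPrimeTorsion
import Fermat.Agent.Root.SummaryPrimeLevelTorsionGroup

/-!
# The rational torsion of `J₀(p)` away from `6`

* `prime_level_no_level_torsion`: `J₀(p)`, `p ≥ 5`, has no rational point of order `p`.
* `prime_level_rational_torsion_prime_to_six`: a class killed by an `M` prime to `6` is rational if
  and only if it is a multiple of the class of `(0) - (∞)`.
* `prime_level_rational_torsion_card_prime_to_six`: there are `gcd (M, n)` of them, `n` the
  numerator of `(p - 1) / 12`.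
-/

set_option autoImplicit false
set_option linter.style.haveILetI false
set_option synthInstance.maxHeartbeats 400000
set_option maxHeartbeats 1000000

noncomputable section

open ModularCurve AlgebraicCurve FA.JTorsion FA.ModField

local notation "Qb" => AlgebraicClosure ℚ
local notation "GQ" => AlgebraicClosure ℚ ≃ₐ[ℚ] AlgebraicClosure ℚ

namespace FA.CuspClass

variable [Algebra Qb ℂ] {p : ℕ} [Fact p.Prime] [NeZero p]

/-- The order of a rational class killed by an `M` prime to `6` is prime to `6 p`. -/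
theorem addOrderOf_coprime_of_fixed (hp5 : 5 ≤ p) {M : ℕ} (hM : M.Coprime 6) {x : JZero p}
    (hMx : M • x = 0) (hfix : ∀ σ : GQ, σ • x = x) : (addOrderOf x).Coprime (6 * p) := by
  have hdM := addOrderOf_dvd_of_nsmul_eq_zero hMx
  refine Nat.Coprime.mul_right (hM.coprime_dvd_left hdM) ?_
  refine ((Fact.out : p.Prime).coprime_iff_not_dvd.2 ?_).symm
  rintro ⟨e, he⟩
  have hpos : 0 < addOrderOf x := by
    refine Nat.pos_of_ne_zero fun h => ?_
    have hM6 := hM.coprime_dvd_left hdM
    rw [h, Nat.coprime_zero_left] at hM6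
    omega
  have h0 : e • x = 0 := eq_zero_of_fixed_level hp5
    (by rw [smul_smul, ← he, addOrderOf_nsmul_eq_zero]) (gal_nsmul p hfix e)
  have hpe : 0 < e := Nat.pos_of_ne_zero fun h => by rw [h, mul_zero] at he; omega
  have hle := Nat.le_of_dvd hpe (addOrderOf_dvd_of_nsmul_eq_zero h0)
  rw [he] at hle
  nlinarith

end FA.CuspClass

namespace FA.Summary

variable {p : ℕ} [Fact p.Prime]

/-- **`J₀(p)` has no rational point of order `p`.** -/
theorem prime_level_no_level_torsion [NeZero p] (hp5 : 5 ≤ p) {x : JZero p} (hpx : p • x = 0)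
    (hfix : ∀ σ : GQ, σ • x = x) : x = 0 := by
  obtain ⟨alg⟩ := FA.JTorsion.exists_algebra_qbar
  letI := alg
  exact FA.CuspClass.eq_zero_of_fixed_level hp5 hpx hfix

/-- **Mazur: the cuspidal class generates the rational torsion of `J₀(p)` prime to `6`.** -/
theorem prime_level_rational_torsion_prime_to_six [NeZero p] (hp5 : 5 ≤ p) :
    ∃ (Pinf P0 : Place Qb (modularFunctionFieldBar p))
      (hdeg : Finsupp.single P0 (1 : ℤ) - Finsupp.single Pinf 1 ∈
        Divisor.degZero (K := Qb) (F := modularFunctionFieldBar p)),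
      Pinf ≠ P0 ∧
      (∀ f : modularFunctionFieldBar p, Pinf.ord f = (f : LaurentSeries Qb).order) ∧
      (∀ J : modularFunctionFieldBar p, (J : LaurentSeries Qb) = jqModC Qb →
        Pinf.ord J = -1 ∧ P0.ord J = -(p : ℤ) ∧
          ∀ v : Place Qb (modularFunctionFieldBar p), v.ord J < 0 → v = Pinf ∨ v = P0) ∧
      addOrderOf (Pic0.mk ⟨_, hdeg⟩ : JZero p) = eisensteinNumerator p ∧
      ∀ M : ℕ, M.Coprime 6 → ∀ x : JZero p, M • x = 0 →
        ((∀ σ : GQ, σ • x = x) ↔
          x ∈ AddSubgroup.zmultiples (Pic0.mk ⟨_, hdeg⟩ : JZero p)) := by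
  obtain ⟨alg⟩ := FA.JTorsion.exists_algebra_qbar
  letI := alg
  obtain ⟨Pinf, P0, hdeg, hne, hord, hJ, hn, hfix⟩ := prime_level_cuspidal_class_order hp5
  exact ⟨Pinf, P0, hdeg, hne, hord, hJ, hn, fun M hM x hMx =>
    ⟨fun h => FA.CuspClass.mem_zmultiples_of_fixed hp5 hn hfix (addOrderOf x) x
        (FA.CuspClass.addOrderOf_coprime_of_fixed hp5 hM hMx h) (addOrderOf_nsmul_eq_zero x) h,
      fun h => FA.CuspClass.fixed_of_mem_zmultiples hfix h⟩⟩

/-- **There are `gcd (M, n)` rational classes killed by `M` prime to `6`.** -/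
theorem prime_level_rational_torsion_card_prime_to_six [NeZero p] (hp5 : 5 ≤ p) {M : ℕ}
    (hM : M.Coprime 6) :
    Nat.card {x : JZero p // M • x = 0 ∧ ∀ σ : GQ, σ • x = x} =
      M.gcd (eisensteinNumerator p) := by
  obtain ⟨alg⟩ := FA.JTorsion.exists_algebra_qbar
  letI := alg
  obtain ⟨Pinf, P0, hdeg, -, -, -, hn, hfix⟩ := prime_level_cuspidal_class_order hp5
  set c : JZero p := Pic0.mk ⟨_, hdeg⟩
  haveI : Finite (AddSubgroup.zmultiples c) :=
    Nat.finite_of_card_ne_zero (by
      rw [Nat.card_zmultiples, hn]; exact FA.CuspClass.eisensteinNumerator_ne_zero hp5)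
  rw [show Nat.card {x : JZero p // M • x = 0 ∧ ∀ σ : GQ, σ • x = x} =
      Nat.card (nsmulAddMonoidHom M : AddSubgroup.zmultiples c →+ _).ker from
    Nat.card_congr {
      toFun := fun x => ⟨⟨x, FA.CuspClass.mem_zmultiples_of_fixed hp5 hn hfix (addOrderOf x.1) x
          (FA.CuspClass.addOrderOf_coprime_of_fixed hp5 hM x.2.1 x.2.2)
          (addOrderOf_nsmul_eq_zero x.1) x.2.2⟩,
        Subtype.ext x.2.1⟩
      invFun := fun x => ⟨(x : AddSubgroup.zmultiples c), congrArg Subtype.val x.2,
        FA.CuspClass.fixed_of_mem_zmultiples hfix x.1.2⟩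
      left_inv := fun x => rfl
      right_inv := fun x => rfl },
    IsAddCyclic.card_nsmulAddMonoidHom_ker, Nat.card_zmultiples, hn, Nat.gcd_comm]

end FA.Summary

end
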