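import Fermat.Agent.CuspClass.ThreeTorsion
import Fermat.Agent.Root.SummaryPrimeLevelTorsionSix

/-!
# The odd rational torsion of `J₀(p)`

* `prime_level_rational_torsion_odd`: a class killed by an odd `M` is rational if and only if it
  is a multiple of the class of `(0) - (∞)`.
* `prime_level_rational_torsion_card_odd`: there are `gcd (M, n)` of them, `n` the numerator of
  `(p - 1) / 12`.
* `prime_level_three_torsion_iff`: there is a rational class of order `3` if and only if
  `9 ∣ p - 1`.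
-/

set_option autoImplicit false
set_option linter.style.haveILetI false
set_option synthInstance.maxHeartbeats 400000
set_option maxHeartbeats 1000000

noncomputable section

open ModularCurve AlgebraicCurve FA.JTorsion FA.ModField

local notation "Qb" => AlgebraicClosure ℚ
local notation "GQ" => AlgebraicClosure ℚ ≃ₐ[ℚ] AlgebraicClosure ℚ

namespace FA.Summary

variable {p : ℕ} [Fact p.Prime]

/-- **Mazur: the cuspidal class generates the odd rational torsion of `J₀(p)`.** -/
theorem prime_level_rational_torsion_odd [NeZero p] (hp5 : 5 ≤ p) :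
    ∃ (Pinf P0 : Place Qb (modularFunctionFieldBar p))
      (hdeg : Finsupp.single P0 (1 : ℤ) - Finsupp.single Pinf 1 ∈
        Divisor.degZero (K := Qb) (F := modularFunctionFieldBar p)),
      Pinf ≠ P0 ∧
      (∀ f : modularFunctionFieldBar p, Pinf.ord f = (f : LaurentSeries Qb).order) ∧
      (∀ J : modularFunctionFieldBar p, (J : LaurentSeries Qb) = jqModC Qb →
        Pinf.ord J = -1 ∧ P0.ord J = -(p : ℤ) ∧
          ∀ v : Place Qb (modularFunctionFieldBar p), v.ord J < 0 → v = Pinf ∨ v = P0) ∧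
      addOrderOf (Pic0.mk ⟨_, hdeg⟩ : JZero p) = eisensteinNumerator p ∧
      ∀ M : ℕ, Odd M → ∀ x : JZero p, M • x = 0 →
        ((∀ σ : GQ, σ • x = x) ↔
          x ∈ AddSubgroup.zmultiples (Pic0.mk ⟨_, hdeg⟩ : JZero p)) := by
  obtain ⟨alg⟩ := FA.JTorsion.exists_algebra_qbar
  letI := alg
  obtain ⟨Pinf, P0, hdeg, hne, hord, hJ, hn, hfix⟩ := prime_level_cuspidal_class_order hp5
  exact ⟨Pinf, P0, hdeg, hne, hord, hJ, hn, fun M hM x hMx =>
    ⟨fun h => FA.CuspClass.mem_zmultiples_of_fixed_odd hp5 hn hfix (addOrderOf x) x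
        (FA.CuspClass.addOrderOf_coprime_of_fixed_odd hp5 hM hMx h) (addOrderOf_nsmul_eq_zero x) h,
      fun h => FA.CuspClass.fixed_of_mem_zmultiples hfix h⟩⟩

/-- **There are `gcd (M, n)` rational classes killed by an odd `M`.** -/
theorem prime_level_rational_torsion_card_odd [NeZero p] (hp5 : 5 ≤ p) {M : ℕ} (hM : Odd M) :
    Nat.card {x : JZero p // M • x = 0 ∧ ∀ σ : GQ, σ • x = x} =
      M.gcd (eisensteinNumerator p) := by
  obtain ⟨alg⟩ := FA.JTorsion.exists_algebra_qbar
  letI := alg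
  obtain ⟨Pinf, P0, hdeg, -, -, -, hn, hfix⟩ := prime_level_cuspidal_class_order hp5
  set c : JZero p := Pic0.mk ⟨_, hdeg⟩
  haveI : Finite (AddSubgroup.zmultiples c) :=
    Nat.finite_of_card_ne_zero (by
      rw [Nat.card_zmultiples, hn]; exact FA.CuspClass.eisensteinNumerator_ne_zero hp5)
  rw [show Nat.card {x : JZero p // M • x = 0 ∧ ∀ σ : GQ, σ • x = x} =
      Nat.card (nsmulAddMonoidHom M : AddSubgroup.zmultiples c →+ _).ker from
    Nat.card_congr {
      toFun := fun x => ⟨⟨x, FA.CuspClass.mem_zmultiples_of_fixed_odd hp5 hn hfix (addOrderOf x.1) x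
          (FA.CuspClass.addOrderOf_coprime_of_fixed_odd hp5 hM x.2.1 x.2.2)
          (addOrderOf_nsmul_eq_zero x.1) x.2.2⟩,
        Subtype.ext x.2.1⟩
      invFun := fun x => ⟨(x : AddSubgroup.zmultiples c), congrArg Subtype.val x.2,
        FA.CuspClass.fixed_of_mem_zmultiples hfix x.1.2⟩
      left_inv := fun x => rfl
      right_inv := fun x => rfl },
    IsAddCyclic.card_nsmulAddMonoidHom_ker, Nat.card_zmultiples, hn, Nat.gcd_comm]

/-- **`J₀(p)` has a rational point of order `3` if and only if `p ≡ 1 (mod 9)`.** -/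
theorem prime_level_three_torsion_iff [NeZero p] (hp5 : 5 ≤ p) :
    (∃ x : JZero p, x ≠ 0 ∧ 3 • x = 0 ∧ ∀ σ : GQ, σ • x = x) ↔ 9 ∣ p - 1 := by
  obtain ⟨Pinf, P0, hdeg, -, -, -, hn, hiff⟩ := prime_level_rational_torsion_odd hp5
  set c : JZero p := Pic0.mk ⟨_, hdeg⟩
  have hg : 3 ∣ eisensteinNumerator p ↔ 9 ∣ p - 1 := by
    have hd : (p - 1).gcd 12 ∣ 12 := Nat.gcd_dvd_right _ _
    rw [eisensteinNumerator]
    constructor
    · rintro ⟨j, hj⟩
      by_cases h3 : 3 ∣ (p - 1).gcd 12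
      · obtain ⟨i, hi⟩ := h3
        exact ⟨i * j, by
          rw [← Nat.div_mul_cancel (Nat.gcd_dvd_left (p - 1) 12), hj, hi]; ring⟩
      · exfalso
        refine h3 (Nat.dvd_gcd ?_ (by norm_num))
        exact ⟨j * (p - 1).gcd 12, by
          rw [← mul_assoc, ← hj, Nat.div_mul_cancel (Nat.gcd_dvd_left (p - 1) 12)]⟩
    · intro h9
      have h : 3 * (p - 1).gcd 12 ∣ p - 1 := by
        obtain ⟨i, hi⟩ : 3 ∣ (p - 1).gcd 12 :=
          Nat.dvd_gcd ((by norm_num : 3 ∣ 9).trans h9) (by norm_num)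
        have hi4 : i ∣ 4 := Nat.dvd_of_mul_dvd_mul_left (by norm_num : 0 < 3)
          (by rw [← hi]; exact hd)
        have hip : i ∣ p - 1 := dvd_trans ⟨3, by rw [hi]; ring⟩ (Nat.gcd_dvd_left (p - 1) 12)
        rw [hi, ← mul_assoc]
        exact Nat.Coprime.mul_dvd_of_dvd_of_dvd
          ((by norm_num : Nat.Coprime 9 4).coprime_dvd_right hi4) h9 hip
      exact Nat.dvd_div_of_mul_dvd (by rwa [mul_comm] at h)
  rw [← hg]
  constructor
  · rintro ⟨x, hx0, h3, hfix⟩
    obtain ⟨k, hk⟩ := AddSubgroup.mem_zmultiples_iff.1 ((hiff 3 (by decide) x h3).1 hfix)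
    rw [← hn, show 3 = addOrderOf x from
      (addOrderOf_eq_prime (hp := ⟨Nat.prime_three⟩) h3 hx0).symm, ← hk]
    exact addOrderOf_dvd_of_mem_zmultiples (AddSubgroup.zsmul_mem_zmultiples c k)
  · rintro ⟨j, hj⟩
    have h3 : 3 • j • c = 0 := by rw [smul_smul, ← hj, ← hn, addOrderOf_nsmul_eq_zero]
    refine ⟨j • c, fun h => ?_, h3,
      (hiff 3 (by decide) _ h3).2 (AddSubgroup.nsmul_mem _ (AddSubgroup.mem_zmultiples c) j)⟩
    have hj0 : 0 < j := Nat.pos_of_ne_zero fun h0 =>
      FA.CuspClass.eisensteinNumerator_ne_zero hp5 (by rw [hj, h0, mul_zero])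
    have := Nat.le_of_dvd hj0 (addOrderOf_dvd_of_nsmul_eq_zero h)
    rw [hn, hj] at this
    omega

end FA.Summary

end
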