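import Fermat.Agent.Root.SummarySurjectiveIrreducible
import Mathlib.LinearAlgebra.Matrix.GeneralLinearGroup.Card
import Mathlib.Data.Nat.ChineseRemainder

/-!
# Surjectivity of the Galois action on `N`-torsion in Mathlib's language

For a semistable elliptic curve over `ℚ` and `N` prime to `6` without Galois stable subgroups of
prime order dividing `N` (automatic for `N` prime to `2 · 3 · 5 · 7`) every additive automorphism of
the `N`-torsion points over the algebraic closure is given by an automorphism of the algebraic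
closure: Serre's theorem on the independence of the `p`-adic images.

A prime `p` exceeds every prime dividing the order of `GL₂(𝔽_l)` for `l < p`, so a power of a
commutator acting as a transvection on the `p ^ e`-torsion fixes the torsion at the smaller
primes; induction on the largest prime gives the independence.
-/

set_option autoImplicit false
set_option linter.unusedSectionVars false
set_option linter.style.haveILetI false

noncomputable section

open WeierstrassCurve WeierstrassCurve.Affine Matrix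
open FA.Frob (ratCurve)
open FA.JTorsion (cycP)
open FA.TW (rootsFix mem_rootsFix commutator_mem_rootsFix exists_primitiveRoot)
open scoped WeierstrassCurve.Affine

local notation "Qb" => AlgebraicClosure ℚ
local notation "GQ" => AlgebraicClosure ℚ ≃ₐ[ℚ] AlgebraicClosure ℚ

namespace FA.PadicImage

/-- Powers of a matrix congruent to one. -/
theorem exists_one_add_pow_two {R : Type*} [CommRing R] (a : Matrix (Fin 2) (Fin 2) R) (m : ℕ) :
    ∃ V, (1 + a) ^ m = 1 + (m : R) • a + a * a * V := by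
  induction m with
  | zero => exact ⟨0, by simp⟩
  | succ m ih =>
    obtain ⟨V, hV⟩ := ih
    refine ⟨V * (1 + a) + (m : R) • 1, ?_⟩
    rw [pow_succ, hV, Nat.cast_succ]
    simp only [mul_add, add_mul, mul_one, one_mul, smul_mul_assoc, add_smul, one_smul,
      Algebra.mul_smul_comm, mul_assoc]
    abel

/-- A matrix congruent to one modulo `l` is congruent to one modulo `l ^ (e + 1)` after taking
its `l ^ e`-th power. -/
theorem exists_pow_congr_one {l : ℕ} [Fact l.Prime] (X : Matrix (Fin 2) (Fin 2) ℤ_[l]) (e : ℕ) :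
    ∃ Y : Matrix (Fin 2) (Fin 2) ℤ_[l],
      (1 + (l : ℤ_[l]) • X) ^ l ^ e = 1 + (l : ℤ_[l]) ^ (e + 1) • Y := by
  induction e with
  | zero => exact ⟨X, by rw [pow_zero, pow_one, pow_one]⟩
  | succ e ih =>
    obtain ⟨Y, hY⟩ := ih
    obtain ⟨V, hV⟩ := exists_one_add_pow_two ((l : ℤ_[l]) ^ (e + 1) • Y) l
    refine ⟨Y + (l : ℤ_[l]) ^ e • (Y * Y * V), ?_⟩
    rw [pow_succ, pow_mul, hY, hV]
    simp only [smul_mul_assoc, Algebra.mul_smul_comm, smul_smul, smul_add]
    ring_nf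
    abel

/-- Elementary matrices generate the matrices of determinant one over a local ring. -/
theorem mem_of_elementary_local {R : Type*} [CommRing R] [IsLocalRing R]
    (S : Submonoid (Matrix (Fin 2) (Fin 2) R))
    (hU : ∀ z, (!![1, z; 0, 1] : Matrix (Fin 2) (Fin 2) R) ∈ S)
    (hL : ∀ z, (!![1, 0; z, 1] : Matrix (Fin 2) (Fin 2) R) ∈ S)
    {M : Matrix (Fin 2) (Fin 2) R} (h : M.det = 1) : M ∈ S := by
  have key : ∀ M : Matrix (Fin 2) (Fin 2) R, M.det = 1 → IsUnit (M 1 0) → M ∈ S :=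
    fun M h hc => by
    obtain ⟨c', hc'⟩ := hc.exists_left_inv
    rw [det_fin_two] at h
    have e : M = !![1, (M 0 0 - 1) * c'; 0, 1] * !![1, 0; M 1 0, 1] *
        !![1, (M 1 1 - 1) * c'; 0, 1] := by
      ext i j
      fin_cases i <;> fin_cases j <;> simp [Matrix.mul_apply, Fin.sum_univ_two]
      · linear_combination -(M 0 0 - 1) * hc'
      · linear_combination -c' * h - (c' * (M 0 0 - 1) * (M 1 1 - 1) + M 0 1) * hc'
      · linear_combination -(M 1 1 - 1) * hc'
    rw [e]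
    exact S.mul_mem (S.mul_mem (hU _) (hL _)) (hU _)
  rcases em (IsUnit (M 1 0)) with hc | hc
  · exact key M h hc
  have h00 : IsUnit (M 0 0) := by
    have hu : IsUnit (M 0 0 * M 1 1 + -(M 0 1 * M 1 0)) := by
      rw [← sub_eq_add_neg, ← det_fin_two, h]; exact isUnit_one
    rcases IsLocalRing.isUnit_or_isUnit_of_isUnit_add hu with h1 | h1
    · exact (IsUnit.mul_iff.mp h1).1
    · rw [IsUnit.neg_iff] at h1
      exact absurd (IsUnit.mul_iff.mp h1).2 hc
  have hd : ((!![1, 0; 1, 1] : Matrix (Fin 2) (Fin 2) R) * M).det = 1 := by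
    rw [det_mul, h, mul_one]; simp [det_fin_two]
  have hne : IsUnit (((!![1, 0; 1, 1] : Matrix (Fin 2) (Fin 2) R) * M) 1 0) := by
    have e : ((!![1, 0; 1, 1] : Matrix (Fin 2) (Fin 2) R) * M) 1 0 = M 0 0 + M 1 0 := by
      simp [Matrix.mul_apply, Fin.sum_univ_two]
    rw [e]
    have hu : IsUnit (M 0 0 + M 1 0 + -M 1 0) := by rw [add_neg_cancel_right]; exact h00
    exact (IsLocalRing.isUnit_or_isUnit_of_isUnit_add hu).resolve_right
      fun h1 => hc ((IsUnit.neg_iff _).mp h1)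
  have e : M = !![1, 0; -1, 1] * (!![1, 0; 1, 1] * M) := by
    rw [← mul_assoc, show (!![1, 0; -1, 1] : Matrix (Fin 2) (Fin 2) R) * !![1, 0; 1, 1] = 1 by
      simp [one_fin_two], one_mul]
  rw [e]
  exact S.mul_mem (hL _) (key _ hd hne)

variable {W : WeierstrassCurve ℤ} [(ratCurve W).IsElliptic]

/-- An exponent for the automorphisms of the `l ^ e`-torsion. -/
theorem pow_card_smul {l : ℕ} [Fact l.Prime] (g : GQ) {e : ℕ} {x : ((ratCurve W)⁄Qb).Point}
    (hx : l ^ e • x = 0) : g ^ (Nat.card (GL (Fin 2) (ZMod l)) * l ^ e) • x = x := by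
  obtain ⟨B⟩ := FA.RT.Tate.exists_tateBasis (p := l) W
  obtain ⟨v, rfl⟩ := B.surj e x hx
  let ρ : GQ →* Matrix (Fin 2) (Fin 2) (ZMod l) :=
    (PadicInt.toZMod (p := l)).mapMatrix.toMonoidHom.comp B.rep
  have h1 : ρ (g ^ Nat.card (GL (Fin 2) (ZMod l))) = 1 := by
    rw [map_pow, ← MonoidHom.coe_toHomUnits, ← Units.val_pow_eq_pow_val, pow_card_eq_one',
      Units.val_one]
  obtain ⟨X, hX⟩ := exists_eq_add (A := B.rep (g ^ Nat.card (GL (Fin 2) (ZMod l)))) (B := 1)
    (h1.trans (map_one (PadicInt.toZMod (p := l)).mapMatrix).symm)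
  obtain ⟨Y, hY⟩ := exists_pow_congr_one X e
  refine (B.rep_spec _ e v).trans (B.phi_eq_iff.mpr fun i => ?_)
  rw [pow_mul, map_pow, hX, hY, add_mulVec, smul_mulVec, one_mulVec, Pi.add_apply, Pi.smul_apply,
    smul_eq_mul, map_add, map_mul, map_pow, map_natCast, pow_succ, ← Nat.cast_pow,
    ZMod.natCast_self, zero_mul, zero_mul, add_zero]

/-- A power prime to `p` of every automorphism fixes the torsion at a smaller prime. -/
theorem exists_pow_fix {p l : ℕ} (hp : p.Prime) (hl : l.Prime) (hlp : l + 1 < p) (e : ℕ) :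
    ∃ m : ℕ, ¬ p ∣ m ∧ ∀ (g : GQ) (x : ((ratCurve W)⁄Qb).Point), l ^ e • x = 0 → g ^ m • x = x := by
  have := Fact.mk hl
  refine ⟨Nat.card (GL (Fin 2) (ZMod l)) * l ^ e, ?_, fun g x hx => ?_⟩
  · have hl2 := hl.two_le
    have hsmall : ∀ k, 0 < k → k ≤ l + 1 → ¬ p ∣ k := fun k h0 hk hd => by
      have := Nat.le_of_dvd h0 hd; omega
    rw [Matrix.card_GL_field, Fin.prod_univ_two, hp.dvd_mul, hp.dvd_mul, not_or, not_or]
    simp only [ZMod.card, Fin.val_zero, Fin.val_one, pow_zero, pow_one]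
    refine ⟨⟨?_, ?_⟩, fun hd => hsmall l hl.pos (by omega) (hp.dvd_of_dvd_pow hd)⟩
    · rw [show l ^ 2 - 1 = (l + 1) * (l - 1) by rw [← Nat.sq_sub_sq, one_pow], hp.dvd_mul, not_or]
      exact ⟨hsmall _ (by omega) le_rfl, hsmall _ (by omega) (by omega)⟩
    · rw [show l ^ 2 - l = l * (l - 1) by rw [Nat.mul_sub, mul_one, sq], hp.dvd_mul, not_or]
      exact ⟨hsmall _ hl.pos (by omega), hsmall _ (by omega) (by omega)⟩
  exact pow_card_smul g hx

/-- The automorphisms fixing the torsion and roots of unity of the orders `l ^ f l` at which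
they are to be trivial. -/
def fixer (W : WeierstrassCurve ℤ) [(ratCurve W).IsElliptic] (f : ℕ → ℕ) (S T : Finset ℕ) :
    Submonoid GQ where
  carrier := {g | (∀ l ∈ T, g ∈ rootsFix l (f l)) ∧
    ∀ l ∈ S, ∀ x : ((ratCurve W)⁄Qb).Point, l ^ f l • x = 0 → g • x = x}
  one_mem' := ⟨fun l _ => one_mem _, fun _ _ x _ => one_smul _ x⟩
  mul_mem' {a b} ha hb := ⟨fun l hl => mul_mem (ha.1 l hl) (hb.1 l hl),
    fun l hl x hx => by rw [mul_smul, hb.2 l hl x hx, ha.2 l hl x hx]⟩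

section Prime

variable {p : ℕ} [hp : Fact p.Prime] (B : FA.RT.Tate.TateBasis p W) (n : ℕ)

/-- `g` acts on the `p ^ n`-torsion through `M`. -/
def Acts (g : GQ) (M : Matrix (Fin 2) (Fin 2) ℤ_[p]) : Prop :=
  ∀ v, g • B.φ n v = B.φ n (M *ᵥ v)

variable {B n}

theorem Acts.mul {g h : GQ} {M N : Matrix (Fin 2) (Fin 2) ℤ_[p]} (hg : Acts B n g M)
    (hh : Acts B n h N) : Acts B n (g * h) (M * N) := fun v => by
  rw [mul_smul, hh, hg, mulVec_mulVec]

theorem Acts.inv {g : GQ} {M N : Matrix (Fin 2) (Fin 2) ℤ_[p]} (hg : Acts B n g M)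
    (h : M * N = 1) : Acts B n g⁻¹ N := fun v => by
  rw [inv_smul_eq_iff, hg, mulVec_mulVec, h, one_mulVec]

theorem Acts.congr {g : GQ} {M N : Matrix (Fin 2) (Fin 2) ℤ_[p]} (hg : Acts B n g M)
    (h : ∃ Y : Matrix (Fin 2) (Fin 2) ℤ_[p], M = N + (p : ℤ_[p]) ^ n • Y) : Acts B n g N := by
  obtain ⟨Y, rfl⟩ := h
  refine fun v => (hg v).trans (B.phi_eq_iff.mpr fun i => ?_)
  rw [add_mulVec, smul_mulVec, Pi.add_apply, Pi.smul_apply, smul_eq_mul, map_add, map_mul,
    map_pow, map_natCast, ← Nat.cast_pow, ZMod.natCast_self, zero_mul, add_zero]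

theorem exists_acts (hreach : ReachAll p W)
    {M : Matrix (Fin 2) (Fin 2) ℤ_[p]} (hM : IsUnit M.det) : ∃ g, Acts B n g M := by
  obtain ⟨g, Y, hg⟩ := hreach B n M hM
  exact ⟨g, Acts.congr (fun v => B.rep_spec g n v) ⟨Y, hg⟩⟩

/-- **Independence at the largest prime**: an automorphism fixing the roots of unity can be
moved into the automorphisms fixing the torsion at the smaller primes. -/
theorem exists_mem_fixer (hp2 : p ≠ 2) (hreach : ReachAll p W)
    (f : ℕ → ℕ) {S T : Finset ℕ} (hS : ∀ l ∈ S, l.Prime ∧ l + 1 < p) (hT : ∀ l ∈ T, l.Prime)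
    (g : GQ) (hg : g ∈ rootsFix p (f p)) :
    ∃ τ ∈ fixer W f S T, ∀ x : ((ratCurve W)⁄Qb).Point, p ^ f p • x = 0 → τ • x = g • x := by
  obtain ⟨B⟩ := FA.RT.Tate.exists_tateBasis (p := p) W
  -- the exponent
  obtain ⟨m, hm, hfix⟩ : ∃ m : ℕ, ¬ p ∣ m ∧ ∀ l ∈ S, ∀ (h : GQ) (x : ((ratCurve W)⁄Qb).Point),
      l ^ f l • x = 0 → h ^ m • x = x := by
    induction S using Finset.induction_on with
    | empty => exact ⟨1, hp.out.not_dvd_one, fun l hl => absurd hl (Finset.notMem_empty l)⟩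
    | insert a s has ih =>
      obtain ⟨m, hm, h⟩ := ih fun l hl => hS l (Finset.mem_insert_of_mem hl)
      obtain ⟨k, hk, h'⟩ := exists_pow_fix (W := W) hp.out (hS a (Finset.mem_insert_self a s)).1
        (hS a (Finset.mem_insert_self a s)).2 (f a)
      refine ⟨m * k, fun hd => (hp.out.dvd_mul.mp hd).elim hm hk, fun l hl u x hx => ?_⟩
      rcases Finset.mem_insert.mp hl with rfl | hl
      · rw [pow_mul]; exact h' _ x hx
      · rw [mul_comm, pow_mul]; exact h l hl _ x hx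
  let A : Submonoid (Matrix (Fin 2) (Fin 2) ℤ_[p]) :=
    { carrier := {M | ∃ τ ∈ fixer W f S T, Acts B (f p) τ M}
      one_mem' := ⟨1, one_mem _, fun v => by rw [one_smul, one_mulVec]⟩
      mul_mem' := fun ⟨a, ha, ha'⟩ ⟨b, hb, hb'⟩ => ⟨a * b, mul_mem ha hb, ha'.mul hb'⟩ }
  have hcomm : ∀ a b : GQ, (a * b * a⁻¹ * b⁻¹) ^ m ∈ fixer W f S T := fun a b =>
    ⟨fun l hl => pow_mem (commutator_mem_rootsFix (hT l hl) (f l) a b) m,
      fun l hl x hx => hfix l hl _ x hx⟩
  have : NeZero (p ^ f p) := ⟨pow_ne_zero _ hp.out.ne_zero⟩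
  obtain ⟨m', hm'⟩ : ∃ c, c * (m : ℤ_[p]) = 1 := (isUnit_iff_toZMod.mpr (by
    rw [map_natCast, Ne, ZMod.natCast_eq_zero_iff]; exact hm)).exists_left_inv
  -- a root of a unipotent matrix
  have hk : ∀ z : ℤ_[p], ∃ (k : ℕ) (y : ℤ_[p]), ((m * k : ℕ) : ℤ_[p]) =
      z + (p : ℤ_[p]) ^ f p * y := fun z => by
    obtain ⟨y, hy⟩ := (toZModPow_eq_iff (n := f p)
      (x := ((PadicInt.toZModPow (f p) (z * m')).val : ℤ_[p])) (y := z * m')).mp
      (by rw [map_natCast, ZMod.natCast_zmod_val])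
    refine ⟨(PadicInt.toZModPow (f p) (z * m')).val, (m : ℤ_[p]) * y, ?_⟩
    rw [Nat.cast_mul, hy]
    linear_combination z * hm'
  obtain ⟨w, hw⟩ : ∃ w, w * (2 : ℤ_[p]) = 1 := (isUnit_iff_toZMod.mpr (by
    rw [map_ofNat]
    intro e
    have : p ∣ 2 := (ZMod.natCast_eq_zero_iff 2 p).mp (by exact_mod_cast e)
    exact hp2 ((Nat.prime_dvd_prime_iff_eq hp.out Nat.prime_two).mp this))).exists_left_inv
  have hu : IsUnit (!![2, 0; 0, 1] : Matrix (Fin 2) (Fin 2) ℤ_[p]).det := by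
    simpa [det_fin_two] using IsUnit.of_mul_eq_one_right w hw
  obtain ⟨d, hd⟩ := exists_acts (B := B) (n := f p) hreach hu
  have hd' : Acts B (f p) d⁻¹ !![w, 0; 0, 1] := hd.inv (by
    simp [one_fin_two, mul_comm (2 : ℤ_[p]) w, hw])
  have hU : ∀ z, (!![1, z; 0, 1] : Matrix (Fin 2) (Fin 2) ℤ_[p]) ∈ A := fun z => by
    obtain ⟨h, hh⟩ := exists_acts (B := B) (n := f p) hreach
      (M := !![1, 1; 0, 1]) (by simp [det_fin_two])
    have hc : Acts B (f p) (d * h * d⁻¹ * h⁻¹) !![1, 1; 0, 1] := by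
      have h' := ((hd.mul hh).mul hd').mul (hh.inv (N := !![1, -1; 0, 1]) (by simp [one_fin_two]))
      convert h' using 1
      ext i j; fin_cases i <;> fin_cases j <;>
        simp [Matrix.mul_apply, Fin.sum_univ_two, mul_comm (2 : ℤ_[p]) w, hw]
      ring
    have hpow : ∀ k : ℕ, Acts B (f p) ((d * h * d⁻¹ * h⁻¹) ^ k) !![1, (k : ℤ_[p]); 0, 1] := by
      intro k
      induction k with
      | zero => intro v; rw [pow_zero, one_smul, Nat.cast_zero, ← one_fin_two, one_mulVec]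
      | succ k ih =>
        rw [pow_succ]
        convert ih.mul hc using 1
        ext i j; fin_cases i <;> fin_cases j <;> simp [Matrix.mul_apply, Fin.sum_univ_two, add_comm]
    obtain ⟨k, y, hy⟩ := hk z
    refine ⟨_, pow_mem (hcomm d h) k, ?_⟩
    rw [← pow_mul]
    exact (hpow (m * k)).congr ⟨!![0, y; 0, 0], by
      rw [hy]; ext i j; fin_cases i <;> fin_cases j <;> simp⟩
  have hL : ∀ z, (!![1, 0; z, 1] : Matrix (Fin 2) (Fin 2) ℤ_[p]) ∈ A := fun z => by
    obtain ⟨h, hh⟩ := exists_acts (B := B) (n := f p) hreach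
      (M := !![1, 0; -2, 1]) (by simp [det_fin_two])
    have hc : Acts B (f p) (d * h * d⁻¹ * h⁻¹) !![1, 0; 1, 1] := by
      have h' := ((hd.mul hh).mul hd').mul (hh.inv (N := !![1, 0; 2, 1]) (by simp [one_fin_two]))
      convert h' using 1
      ext i j; fin_cases i <;> fin_cases j <;>
        simp [Matrix.mul_apply, Fin.sum_univ_two, mul_comm (2 : ℤ_[p]) w, hw]
      norm_num
    have hpow : ∀ k : ℕ, Acts B (f p) ((d * h * d⁻¹ * h⁻¹) ^ k) !![1, 0; (k : ℤ_[p]), 1] := by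
      intro k
      induction k with
      | zero => intro v; rw [pow_zero, one_smul, Nat.cast_zero, ← one_fin_two, one_mulVec]
      | succ k ih =>
        rw [pow_succ]
        convert ih.mul hc using 1
        ext i j; fin_cases i <;> fin_cases j <;> simp [Matrix.mul_apply, Fin.sum_univ_two]
    obtain ⟨k, y, hy⟩ := hk z
    refine ⟨_, pow_mem (hcomm d h) k, ?_⟩
    rw [← pow_mul]
    exact (hpow (m * k)).congr ⟨!![0, 0; y, 0], by
      rw [hy]; ext i j; fin_cases i <;> fin_cases j <;> simp⟩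
  -- the matrix of `g`, made of determinant one
  obtain ⟨y, hy⟩ : ∃ y, (B.rep g).det = 1 + (p : ℤ_[p]) ^ f p * y :=
    toZModPow_eq_iff.mp (by
      rw [B.det_rep, FA.RT.Tate.cycP_eq_natCast (a := 1) fun μ hμ => by
        rw [pow_one]; exact mem_rootsFix.mp hg μ hμ, Nat.cast_one, map_one])
  rcases Nat.eq_zero_or_pos (f p) with h0 | hpos
  · refine ⟨1, one_mem _, fun x hx => ?_⟩
    rw [h0, pow_zero, one_nsmul] at hx
    rw [hx, FA.Local.gal_smul_zero, FA.Local.gal_smul_zero]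
  obtain ⟨u, hu⟩ : ∃ u, u * (B.rep g).det = 1 := (isUnit_iff_toZMod.mpr (by
    rw [hy, map_add, map_one, map_mul, map_pow, map_natCast, ZMod.natCast_self,
      zero_pow hpos.ne', zero_mul, add_zero]
    exact one_ne_zero)).exists_left_inv
  obtain ⟨τ, hτ, hact⟩ := mem_of_elementary_local A hU hL
    (M := B.rep g * !![u, 0; 0, 1]) (by
      rw [det_mul, det_fin_two_of, mul_one, mul_zero, sub_zero, mul_comm]; exact hu)
  refine ⟨τ, hτ, fun x hx => ?_⟩
  obtain ⟨v, rfl⟩ := B.surj _ x hx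
  rw [B.rep_spec g]
  refine Acts.congr hact ⟨B.rep g * !![-(u * y), 0; 0, 0], ?_⟩ v
  rw [← Algebra.mul_smul_comm]
  conv_rhs => rw [← mul_one (B.rep g)]
  rw [mul_assoc, one_mul, ← mul_add]
  congr 1
  ext i j
  fin_cases i <;> fin_cases j <;> simp
  linear_combination hu - u * hy

end Prime

/-- **Glueing**: automorphisms fixing the roots of unity come from one automorphism, if at each
prime such an automorphism can be moved into the automorphisms fixing the torsion at the smaller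
primes. -/
theorem exists_glue_of_moves (f : ℕ → ℕ) {T : Finset ℕ} (h : ℕ → GQ)
    (hh : ∀ l ∈ T, h l ∈ rootsFix l (f l))
    (hmove : ∀ a ∈ T, ∀ g ∈ rootsFix a (f a), ∃ τ ∈ fixer W f (T.filter (· < a)) T,
      ∀ x : ((ratCurve W)⁄Qb).Point, a ^ f a • x = 0 → τ • x = g • x) :
    ∃ σ : GQ, ∀ l ∈ T, ∀ x : ((ratCurve W)⁄Qb).Point, l ^ f l • x = 0 → σ • x = h l • x := by
  suffices key : ∀ S ⊆ T, ∃ σ ∈ fixer W f ∅ T,
      ∀ l ∈ S, ∀ x : ((ratCurve W)⁄Qb).Point, l ^ f l • x = 0 → σ • x = h l • x by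
    obtain ⟨σ, -, hσ⟩ := key T Finset.Subset.rfl
    exact ⟨σ, hσ⟩
  intro S hST
  induction S using Finset.induction_on_max with
  | empty => exact ⟨1, one_mem _, fun l hl => absurd hl (Finset.notMem_empty l)⟩
  | insert a s hlt ih =>
    obtain ⟨σ, hσ, hσh⟩ := ih ((Finset.subset_insert a s).trans hST)
    have haT := hST (Finset.mem_insert_self a s)
    obtain ⟨τ, hτ, hτx⟩ :=
      hmove a haT (σ⁻¹ * h a) (mul_mem (inv_mem (hσ.1 a haT)) (hh a haT))
    refine ⟨σ * τ, mul_mem hσ ⟨hτ.1, fun l hl => absurd hl (Finset.notMem_empty l)⟩,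
      fun l hl x hx => ?_⟩
    rw [mul_smul]
    rcases Finset.mem_insert.mp hl with rfl | hl
    · rw [hτx x hx, mul_smul, smul_inv_smul]
    · rw [hτ.2 l (Finset.mem_filter.mpr ⟨hST (Finset.mem_insert_of_mem hl), hlt l hl⟩) x hx,
        hσh l hl x hx]

/-- Automorphisms fixing the roots of unity glue at odd primes with full image. -/
theorem exists_glue (f : ℕ → ℕ) {T : Finset ℕ} (hT : ∀ l ∈ T, l.Prime ∧ l ≠ 2)
    (hreach : ∀ l ∈ T, ∀ [Fact l.Prime], ReachAll l W) (h : ℕ → GQ)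
    (hh : ∀ l ∈ T, h l ∈ rootsFix l (f l)) :
    ∃ σ : GQ, ∀ l ∈ T, ∀ x : ((ratCurve W)⁄Qb).Point, l ^ f l • x = 0 → σ • x = h l • x :=
  exists_glue_of_moves f h hh fun a ha g hg => by
    haveI := Fact.mk (hT a ha).1
    refine exists_mem_fixer (hT a ha).2 (hreach a ha) f (fun l hl => ?_)
      (fun l hl => (hT l hl).1) g hg
    obtain ⟨hlT, hla⟩ := Finset.mem_filter.mp hl
    have ho := Nat.odd_iff.mp ((hT l hlT).1.odd_of_ne_two (hT l hlT).2)
    have ho' := Nat.odd_iff.mp ((hT a ha).1.odd_of_ne_two (hT a ha).2)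
    exact ⟨(hT l hlT).1, by omega⟩

/-- An automorphism of the `N`-torsion restricts to the `d`-torsion for `d ∣ N`. -/
theorem exists_restrict {N d : ℤ} (hd : d ∣ N)
    (φ : Submodule.torsionBy ℤ (((ratCurve W)⁄Qb).Point) N ≃+ Submodule.torsionBy ℤ (((ratCurve W)⁄Qb).Point) N) :
    ∃ ψ : Submodule.torsionBy ℤ (((ratCurve W)⁄Qb).Point) d ≃+ Submodule.torsionBy ℤ (((ratCurve W)⁄Qb).Point) d,
      ∀ x : Submodule.torsionBy ℤ (((ratCurve W)⁄Qb).Point) d, ∃ h, (ψ x).1 = (φ ⟨x.1, h⟩).1 := by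
  have hle := Submodule.torsionBy_le_torsionBy_of_dvd (R := ℤ) (M := ((ratCurve W)⁄Qb).Point) d N hd
  have hpres : ∀ (χ : Submodule.torsionBy ℤ (((ratCurve W)⁄Qb).Point) N ≃+
      Submodule.torsionBy ℤ (((ratCurve W)⁄Qb).Point) N) (x : Submodule.torsionBy ℤ (((ratCurve W)⁄Qb).Point) d),
      (χ ⟨x.1, hle x.2⟩).1 ∈ Submodule.torsionBy ℤ (((ratCurve W)⁄Qb).Point) d := fun χ x => by
    have e : d • (⟨x.1, hle x.2⟩ : Submodule.torsionBy ℤ (((ratCurve W)⁄Qb).Point) N) = 0 :=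
      Subtype.ext x.2
    rw [Submodule.mem_torsionBy_iff, ← Submodule.coe_smul_of_tower, ← map_zsmul, e, map_zero,
      Submodule.coe_zero]
  exact ⟨{ toFun := fun x => ⟨(φ ⟨x.1, hle x.2⟩).1, hpres φ x⟩
           invFun := fun x => ⟨(φ.symm ⟨x.1, hle x.2⟩).1, hpres φ.symm x⟩
           left_inv := fun x => Subtype.ext
             ((congrArg Subtype.val (φ.symm_apply_apply ⟨x.1, hle x.2⟩) :))
           right_inv := fun x => Subtype.ext
             ((congrArg Subtype.val (φ.apply_symm_apply ⟨x.1, hle x.2⟩) :))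
           map_add' := fun x y => Subtype.ext
             ((congrArg Subtype.val (map_add φ ⟨x.1, hle x.2⟩ ⟨y.1, hle y.2⟩) :)) },
    fun x => ⟨hle x.2, rfl⟩⟩

/-- An action agreeing with `φ` on each prime power part agrees with it everywhere. -/
theorem smul_eq_of_prime_powers {N : ℕ} (hN : N ≠ 0)
    (φ : Submodule.torsionBy ℤ (((ratCurve W)⁄Qb).Point) (N : ℤ) ≃+ Submodule.torsionBy ℤ (((ratCurve W)⁄Qb).Point) (N : ℤ)) (σ : GQ)
    (h : ∀ l ∈ N.primeFactors, ∀ x : Submodule.torsionBy ℤ (((ratCurve W)⁄Qb).Point) (N : ℤ),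
      l ^ N.factorization l • x.1 = 0 → σ • x.1 = (φ x).1)
    (x : Submodule.torsionBy ℤ (((ratCurve W)⁄Qb).Point) (N : ℤ)) : σ • x.1 = (φ x).1 := by
  have key : ∀ d, d ∣ N → ∀ y : Submodule.torsionBy ℤ (((ratCurve W)⁄Qb).Point) (N : ℤ),
      d • y.1 = 0 → σ • y.1 = (φ y).1 := by
    intro d
    induction d using Nat.recOnPosPrimePosCoprime with
    | prime_pow l k hl hk =>
      intro hd y hy
      refine h l (Nat.mem_primeFactors.mpr ⟨hl, (dvd_pow_self l hk.ne').trans hd, hN⟩) y ?_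
      obtain ⟨c, hc⟩ := Nat.pow_dvd_pow l ((hl.pow_dvd_iff_le_factorization hN).mp hd)
      rw [hc, mul_comm, mul_nsmul', hy, nsmul_zero]
    | zero => intro hd; exact absurd (zero_dvd_iff.mp hd) hN
    | one =>
      intro _ y hy
      rw [one_nsmul] at hy
      obtain rfl : y = 0 := Subtype.ext hy
      rw [map_zero, Submodule.coe_zero, smul_zero]
    | coprime a b _ _ hab iha ihb =>
      intro hd y hy
      obtain ⟨u, v, huv⟩ := Int.isCoprime_iff_nat_coprime.mpr (by simpa using hab :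
        (a : ℤ).natAbs.Coprime (b : ℤ).natAbs)
      have e : y = (v * b) • y + (u * a) • y := by rw [← add_zsmul, add_comm, huv, one_zsmul]
      have e1 : a • ((v * b) • y).1 = 0 := by
        rw [Submodule.coe_smul_of_tower, ← natCast_zsmul, smul_smul,
          show (a : ℤ) * (v * b) = v * ((a * b : ℕ) : ℤ) by push_cast; ring, mul_smul,
          natCast_zsmul, hy, zsmul_zero]
      have e2 : b • ((u * a) • y).1 = 0 := by
        rw [Submodule.coe_smul_of_tower, ← natCast_zsmul, smul_smul,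
          show (b : ℤ) * (u * a) = u * ((a * b : ℕ) : ℤ) by push_cast; ring, mul_smul,
          natCast_zsmul, hy, zsmul_zero]
      rw [e, map_add, Submodule.coe_add, Submodule.coe_add, FA.Local.gal_smul_add,
        iha ((dvd_mul_right a b).trans hd) _ e1, ihb ((dvd_mul_left b a).trans hd) _ e2]
  exact key N dvd_rfl x (by
    rw [← natCast_zsmul]; exact (Submodule.mem_torsionBy_iff _ _).mp x.2)

/-- On the roots of unity of order `l ^ n` an automorphism is raising to an exponent prime to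
`l ^ n`. -/
theorem exists_exponent_roots (g : GQ) {l : ℕ} (hl : l.Prime) (n : ℕ) :
    ∃ a : ℕ, a.Coprime (l ^ n) ∧ ∀ μ : Qb, μ ^ l ^ n = 1 → g μ = μ ^ a := by
  have : NeZero (l ^ n) := ⟨pow_ne_zero _ hl.ne_zero⟩
  obtain ⟨ζ, hζ⟩ := exists_primitiveRoot hl n
  obtain ⟨a, -, ha⟩ := hζ.eq_pow_of_pow_eq_one (ξ := g ζ)
    (by rw [← map_pow, hζ.pow_eq_one, map_one])
  refine ⟨a, (hζ.pow_iff_coprime (NeZero.pos _) a).mp (ha.symm ▸ hζ.map_of_injective g.injective),
    fun μ hμ => ?_⟩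
  obtain ⟨i, -, rfl⟩ := hζ.eq_pow_of_pow_eq_one hμ
  rw [map_pow, ← ha, ← pow_mul, ← pow_mul, mul_comm]

/-- Automorphisms given at distinct primes act on the roots of unity of prime power orders through
one exponent prime to these orders. -/
theorem exists_exponent_adelic (f : ℕ → ℕ) {T : Finset ℕ} (hT : ∀ l ∈ T, l.Prime) (h : ℕ → GQ) :
    ∃ c : ℕ, ∀ l ∈ T, c.Coprime (l ^ f l) ∧
      ∀ μ : Qb, μ ^ l ^ f l = 1 → h l μ = μ ^ c := by
  choose! a hac ha using fun (l : ℕ) (hl : l ∈ T) => exists_exponent_roots (h l) (hT l hl) (f l)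
  obtain ⟨c, hc⟩ := Nat.chineseRemainderOfFinset a (fun l => l ^ f l) T
    (fun l hl => pow_ne_zero _ (hT l hl).ne_zero)
    (fun l hl m hm hlm => Nat.Coprime.pow _ _ ((Nat.coprime_primes (hT l hl) (hT m hm)).mpr hlm))
  refine ⟨c, fun l hl => ⟨?_, fun μ hμ => ?_⟩⟩
  · rw [Nat.Coprime, (hc l hl).gcd_eq]
    exact hac l hl
  · rw [ha l hl μ hμ, pow_eq_pow_mod (a l) hμ, pow_eq_pow_mod c hμ]
    exact congrArg (μ ^ ·) (hc l hl).symm

/-- Automorphisms given at distinct primes can be corrected by one automorphism to fix the roots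
of unity of prime power orders. -/
theorem exists_cyclotomic_common (f : ℕ → ℕ) {T : Finset ℕ} (hT : ∀ l ∈ T, l.Prime) (h : ℕ → GQ) :
    ∃ σ₀ : GQ, ∀ l ∈ T, σ₀⁻¹ * h l ∈ rootsFix l (f l) := by
  obtain ⟨c, hc⟩ := exists_exponent_adelic f hT h
  have hN : ∏ l ∈ T, l ^ f l ≠ 0 :=
    Finset.prod_ne_zero_iff.mpr fun l hl => pow_ne_zero _ (hT l hl).ne_zero
  have : NeZero (∏ l ∈ T, l ^ f l) := ⟨hN⟩
  have : NeZero ((∏ l ∈ T, l ^ f l : ℕ) : Qb) := ⟨Nat.cast_ne_zero.mpr hN⟩
  obtain ⟨ζ, hζ⟩ := HasEnoughRootsOfUnity.exists_primitiveRoot Qb (∏ l ∈ T, l ^ f l)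
  have hc' : IsConjRoot ℚ ζ (ζ ^ c) := by
    show minpoly ℚ ζ = minpoly ℚ (ζ ^ c)
    rw [← Polynomial.cyclotomic_eq_minpoly_rat hζ (NeZero.pos _),
      ← Polynomial.cyclotomic_eq_minpoly_rat
        (hζ.pow_of_coprime c (Nat.Coprime.prod_right fun l hl => (hc l hl).1)) (NeZero.pos _)]
  have : Normal ℚ Qb := by
    have : Algebra.IsAlgebraic ℚ Qb := AlgebraicClosure.isAlgebraic ℚ
    have : IsAlgClosure ℚ Qb := ⟨inferInstance, inferInstance⟩
    exact IsAlgClosure.normal ℚ Qb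
  obtain ⟨σ, hσ⟩ := (IsConjRoot.symm hc').exists_algEquiv
  refine ⟨σ, fun l hl => mem_rootsFix.mpr fun μ hμ => ?_⟩
  show σ⁻¹ (h l μ) = μ
  obtain ⟨k, hk⟩ := Finset.dvd_prod_of_mem (fun l => l ^ f l) hl
  obtain ⟨i, -, rfl⟩ := hζ.eq_pow_of_pow_eq_one (ξ := μ) (by rw [hk, pow_mul, hμ, one_pow])
  rw [AlgEquiv.aut_inv, AlgEquiv.symm_apply_eq, (hc l hl).2 _ hμ, map_pow, hσ, ← pow_mul, ← pow_mul,
    mul_comm]

/-- Automorphisms of the `N`-torsion are realised prime by prime. -/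
theorem exists_local_smul_eq {N : ℕ} (hreach : ∀ l ∈ N.primeFactors, ∀ [Fact l.Prime], ReachAll l W)
    (φ : Submodule.torsionBy ℤ ((ratCurve W)⁄Qb).Point (N : ℤ) ≃+
      Submodule.torsionBy ℤ ((ratCurve W)⁄Qb).Point (N : ℤ)) :
    ∃ h : ℕ → GQ, ∀ l ∈ N.primeFactors,
      ∀ x : Submodule.torsionBy ℤ ((ratCurve W)⁄Qb).Point (N : ℤ),
        l ^ N.factorization l • x.1 = 0 → h l • x.1 = (φ x).1 := by
  have hlocal : ∀ l ∈ N.primeFactors, ∃ g : GQ,
      ∀ x : Submodule.torsionBy ℤ ((ratCurve W)⁄Qb).Point (N : ℤ),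
        l ^ N.factorization l • x.1 = 0 → g • x.1 = (φ x).1 := fun l hl => by
    have := Fact.mk (Nat.prime_of_mem_primeFactors hl)
    obtain ⟨ψ, hψ⟩ := exists_restrict (d := (l : ℤ) ^ N.factorization l)
      (by exact_mod_cast Nat.ordProj_dvd N l) φ
    obtain ⟨g, hg⟩ := exists_smul_eq_pow_of_reach (hreach l hl) (N.factorization l) ψ
    refine ⟨g, fun x hx => ?_⟩
    obtain ⟨h, e⟩ := hψ ⟨x.1, mem_torsionBy_pow_iff.mpr hx⟩
    exact (hg _).trans e
  choose! h hh using hlocal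
  exact ⟨h, hh⟩

/-- Every additive automorphism of the `N`-torsion comes from Galois when the image is everything
modulo every prime power dividing `N` and automorphisms fixing the roots of unity glue. -/
theorem exists_smul_eq_adelic_of_glue {N : ℕ} (hN0 : N ≠ 0)
    (hreach : ∀ l ∈ N.primeFactors, ∀ [Fact l.Prime], ReachAll l W)
    (hglue : ∀ h : ℕ → GQ, (∀ l ∈ N.primeFactors, h l ∈ rootsFix l (N.factorization l)) →
      ∃ τ : GQ, ∀ l ∈ N.primeFactors, ∀ x : ((ratCurve W)⁄Qb).Point,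
        l ^ N.factorization l • x = 0 → τ • x = h l • x)
    (φ : Submodule.torsionBy ℤ ((ratCurve W)⁄Qb).Point (N : ℤ) ≃+
      Submodule.torsionBy ℤ ((ratCurve W)⁄Qb).Point (N : ℤ)) :
    ∃ σ : GQ, ∀ x, σ • x.1 = (φ x).1 := by
  obtain ⟨h, hh⟩ := exists_local_smul_eq hreach φ
  -- one automorphism with the same action on the roots of unity
  obtain ⟨σ₀, hagree⟩ := exists_cyclotomic_common (fun l => N.factorization l) (T := N.primeFactors)
    (fun l hl => Nat.prime_of_mem_primeFactors hl) h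
  obtain ⟨τ, hτ⟩ := hglue (fun l => σ₀⁻¹ * h l) hagree
  refine ⟨σ₀ * τ, smul_eq_of_prime_powers hN0 φ _ fun l hl x hx => ?_⟩
  rw [mul_smul, hτ l hl _ hx, mul_smul, smul_inv_smul, hh l hl _ hx]

/-- Every additive automorphism of the `N`-torsion comes from Galois for odd `N` at whose primes
the image is everything modulo every prime power. -/
theorem exists_smul_eq_adelic_of_reach {N : ℕ} (hN0 : N ≠ 0) (h2 : ∀ l ∈ N.primeFactors, l ≠ 2)
    (hreach : ∀ l ∈ N.primeFactors, ∀ [Fact l.Prime], ReachAll l W)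
    (φ : Submodule.torsionBy ℤ ((ratCurve W)⁄Qb).Point (N : ℤ) ≃+
      Submodule.torsionBy ℤ ((ratCurve W)⁄Qb).Point (N : ℤ)) :
    ∃ σ : GQ, ∀ x, σ • x.1 = (φ x).1 :=
  exists_smul_eq_adelic_of_glue hN0 hreach (fun h hh =>
    exists_glue _ (fun l hl => ⟨Nat.prime_of_mem_primeFactors hl, h2 l hl⟩) hreach h hh) φ

/-- Every additive automorphism of the `N`-torsion of a semistable equation comes from Galois,
for `N` with all prime factors at least `5` and irreducible torsion there. -/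
theorem exists_smul_eq_adelic (hΔ : W.Δ ≠ 0) (hW : W.IsSemistableModel) {N : ℕ} (hN0 : N ≠ 0)
    (hN : ∀ l ∈ N.primeFactors, 5 ≤ l ∧ W.ModRepIsIrreducible l)
    (φ : Submodule.torsionBy ℤ ((ratCurve W)⁄Qb).Point (N : ℤ) ≃+
      Submodule.torsionBy ℤ ((ratCurve W)⁄Qb).Point (N : ℤ)) :
    ∃ σ : GQ, ∀ x, σ • x.1 = (φ x).1 :=
  exists_smul_eq_adelic_of_reach hN0 (fun l hl => by have := (hN l hl).1; omega)
    (fun l hl _ => reachAll_of_base (hN l hl).1
      fun B => FA.Root.Irred.exists_rep_map_eq_of_irreducible B hΔ hW (hN l hl).2) φ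

end FA.PadicImage

namespace FA.Summary

/-- **Serre's independence theorem, sharp form**: for a semistable elliptic curve over `ℚ` and `N`
prime to `6` without a Galois stable subgroup of order `p` for any prime `p ∣ N` the Galois group
induces every automorphism of the group of `N`-torsion points. -/
theorem galoisSurjectiveTorsion_adelic_irreducible (E : WeierstrassCurve ℚ) [E.IsElliptic]
    (h : ∀ p : ℕ, ∀ [Fact p.Prime], ∃ C : VariableChange ℚ_[p],
      HasGoodReduction ℤ_[p] (C • E.map (algebraMap ℚ ℚ_[p])) ∨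
        HasMultiplicativeReduction ℤ_[p] (C • E.map (algebraMap ℚ ℚ_[p])))
    [inst : DecidableEq (AlgebraicClosure ℚ)] {N : ℕ} (hN : N.Coprime 6)
    (hno : ∀ p : ℕ, p.Prime → p ∣ N → ∀ G : AddSubgroup (E.toAffine⁄(AlgebraicClosure ℚ)).Point,
      Nat.card G = p → ¬ ∀ σ : AlgebraicClosure ℚ ≃ₐ[ℚ] AlgebraicClosure ℚ, ∀ P ∈ G,
        Affine.Point.map σ.toAlgHom P ∈ G)
    (φ : Submodule.torsionBy ℤ (E.toAffine⁄(AlgebraicClosure ℚ)).Point (N : ℤ) ≃+
      Submodule.torsionBy ℤ (E.toAffine⁄(AlgebraicClosure ℚ)).Point (N : ℤ)) :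
    ∃ σ : AlgebraicClosure ℚ ≃ₐ[ℚ] AlgebraicClosure ℚ, ∀ P,
      Affine.Point.map σ.toAlgHom P.1 = (φ P).1 := by
  obtain rfl : inst = instDecEqAlgebraicClosureRat := Subsingleton.elim _ _
  obtain ⟨W, hW, hs⟩ := FA.Root.exists_semistableModel E
    fun q _ => FA.Root.isSemistableAt_of_reduction E (h q).choose_spec
  have hΔ : W.Δ ≠ 0 := FA.Frob.Δ_ne_zero_of_model hW
  haveI := FA.Frob.ratCurve_isElliptic_of_Δ hΔ
  refine FA.Root.exists_map_eq_of_model hW N
    (FA.PadicImage.exists_smul_eq_adelic hΔ hs (fun h0 => by rw [h0] at hN; norm_num at hN)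
      fun l hl => ?_) φ
  obtain ⟨hlp, hlN, -⟩ := Nat.mem_primeFactors.mp hl
  haveI := Fact.mk hlp
  refine ⟨?_, FA.Root.Irred.modRepIsIrreducible_of_noStableSubgroup hW (hno l hlp hlN)⟩
  by_contra hlt
  push Not at hlt
  have h1 : l.Coprime 6 := hN.coprime_dvd_left hlN
  interval_cases l <;> revert hlp h1 <;> decide

/-- **Serre's independence theorem** for semistable elliptic curves over `ℚ`: for `N` prime to
`2 · 3 · 5 · 7` the Galois group induces every automorphism of the group of `N`-torsion points. -/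
theorem galoisSurjectiveTorsion_adelic (E : WeierstrassCurve ℚ) [E.IsElliptic]
    (h : ∀ p : ℕ, ∀ [Fact p.Prime], ∃ C : VariableChange ℚ_[p],
      HasGoodReduction ℤ_[p] (C • E.map (algebraMap ℚ ℚ_[p])) ∨
        HasMultiplicativeReduction ℤ_[p] (C • E.map (algebraMap ℚ ℚ_[p])))
    [inst : DecidableEq (AlgebraicClosure ℚ)] {N : ℕ} (hN : N.Coprime 210)
    (φ : Submodule.torsionBy ℤ (E.toAffine⁄(AlgebraicClosure ℚ)).Point (N : ℤ) ≃+
      Submodule.torsionBy ℤ (E.toAffine⁄(AlgebraicClosure ℚ)).Point (N : ℤ)) :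
    ∃ σ : AlgebraicClosure ℚ ≃ₐ[ℚ] AlgebraicClosure ℚ, ∀ P,
      Affine.Point.map σ.toAlgHom P.1 = (φ P).1 :=
  galoisSurjectiveTorsion_adelic_irreducible E h (hN.coprime_dvd_right (by norm_num))
    (fun p hp hpN G hG => noStableSubgroup_all E h hp (by
      by_contra hlt
      push Not at hlt
      have h1 : p.Coprime 210 := hN.coprime_dvd_left hpN
      interval_cases p <;> revert hp h1 <;> decide) G hG) φ

end FA.Summary

end
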