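import Fermat.Agent.TraceDistribution.Basic
import Fermat.Agent.TraceDistribution.Counts
import Fermat.Agent.Root.SummarySurjectiveAdelic
import Fermat.Agent.Root.SummaryTauEleven
import Fermat.Agent.Root.Examples

/-!
# The distribution of `(a_q, q)` modulo `N`

When Galois induces every automorphism of `E[N]`, the primes with `(a_q, q)` in a given set of
residue pairs have Dirichlet density the proportion of `GL₂(ℤ/N)` with trace and determinant in that
set; for semistable curves this covers every `N` prime to `2 · 3 · 5 · 7`.  A prime `l` then divides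
`#E(𝔽_q)` for a proportion `(l² - 2) / ((l - 1)(l² - 1))` of the primes, and `11` divides `τ(p)`
for a proportion `11 / 120`.
-/

set_option autoImplicit false
set_option linter.style.haveILetI false

noncomputable section

open NumberField IsDedekindDomain WeierstrassCurve Matrix FA.Frob
open scoped WeierstrassCurve.Affine

local notation "Qb" => AlgebraicClosure ℚ
local notation "GQ" => AlgebraicClosure ℚ ≃ₐ[ℚ] AlgebraicClosure ℚ

namespace FA.TraceDist

/-- Surjectivity on the torsion of a curve passes to a model. -/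
theorem surjective_of_curve {E : WeierstrassCurve ℚ} [E.IsElliptic] {W : WeierstrassCurve ℤ}
    (hW : W.IsIntegralModelOf E) [(ratCurve W).IsElliptic] (N : ℤ)
    (h : ∀ φ : Submodule.torsionBy ℤ (E.toAffine⁄Qb).Point N ≃+
        Submodule.torsionBy ℤ (E.toAffine⁄Qb).Point N,
      ∃ σ : GQ, ∀ P, Affine.Point.map σ.toAlgHom P.1 = (φ P).1)
    (ψ : Submodule.torsionBy ℤ ((ratCurve W)⁄Qb).Point N ≃+
      Submodule.torsionBy ℤ ((ratCurve W)⁄Qb).Point N) :
    ∃ σ : GQ, ∀ x, σ • x.1 = (ψ x).1 := by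
  obtain ⟨e, he⟩ := FA.Root.exists_equiv_of_model hW
  let eT : Submodule.torsionBy ℤ ((ratCurve W)⁄Qb).Point N ≃+
      Submodule.torsionBy ℤ (E.toAffine⁄Qb).Point N :=
    { toEquiv := e.toEquiv.subtypeEquiv fun Q => by
        simp only [Submodule.mem_torsionBy_iff]
        exact ⟨fun hQ => (map_zsmul e _ Q).symm.trans (by rw [hQ, map_zero]),
          fun hQ => e.injective (by rw [map_zsmul, map_zero]; exact hQ)⟩
      map_add' := fun a b => Subtype.ext (map_add e a.1 b.1) }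
  obtain ⟨σ, hσ⟩ := h ((eT.symm.trans ψ).trans eT)
  refine ⟨σ, fun x => e.injective ?_⟩
  rw [he]
  calc Affine.Point.map σ.toAlgHom (e x.1) = (eT (ψ (eT.symm (eT x)))).1 := hσ (eT x)
    _ = e (ψ x).1 := by rw [eT.symm_apply_apply]; rfl

/-- The distribution for the L-function of a curve. -/
theorem hasDirichletDensity_curve (E : WeierstrassCurve ℚ) [E.IsElliptic] {N : ℕ} (hN : N ≠ 0)
    (hsurj : ∀ φ : Submodule.torsionBy ℤ (E.toAffine⁄Qb).Point (N : ℤ) ≃+
        Submodule.torsionBy ℤ (E.toAffine⁄Qb).Point (N : ℤ),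
      ∃ σ : GQ, ∀ P, Affine.Point.map σ.toAlgHom P.1 = (φ P).1)
    (S : Set (ZMod N × ZMod N)) :
    Set.HasDirichletDensity {v : HeightOneSpectrum (𝓞 ℚ) |
      ((E.LFunction (Ideal.absNorm v.asIdeal) : ZMod N),
        (Ideal.absNorm v.asIdeal : ZMod N)) ∈ S}
      ((Nat.card {M : GL (Fin 2) (ZMod N) // (M.val.trace, M.val.det) ∈ S} : ℝ) /
        Nat.card (GL (Fin 2) (ZMod N))) := by
  haveI : NeZero N := ⟨hN⟩
  obtain ⟨W, hW⟩ := FA.Frob.exists_integralModel E
  have hΔ := FA.Frob.Δ_ne_zero_of_model hW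
  haveI := FA.Frob.ratCurve_isElliptic_of_Δ hΔ
  refine hasDirichletDensity_congr (hasDirichletDensity_level (W := W) hΔ S
    (surjective_of_curve hW N hsurj)) (finite_dvd hΔ) fun v hv => ?_
  simp only [Set.mem_ofPred_eq]
  rw [FA.Root.LFunction_apply_prime E W hW (FA.Chebotarev.absNorm_prime v) hv]

end FA.TraceDist

namespace FA.Summary

open FA.TraceDist

/-- **The distribution of `(a_q, q)` modulo `N`** when Galois induces every automorphism of
`E[N]`: a pair `(t, d)` occurs with density the proportion of matrices of trace `t` and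
determinant `d`. -/
theorem traceDistribution (E : WeierstrassCurve ℚ) [E.IsElliptic]
    [inst : DecidableEq (AlgebraicClosure ℚ)] {N : ℕ} (hN : N ≠ 0)
    (hsurj : ∀ φ : Submodule.torsionBy ℤ (E.toAffine⁄(AlgebraicClosure ℚ)).Point (N : ℤ) ≃+
        Submodule.torsionBy ℤ (E.toAffine⁄(AlgebraicClosure ℚ)).Point (N : ℤ),
      ∃ σ : AlgebraicClosure ℚ ≃ₐ[ℚ] AlgebraicClosure ℚ,
        ∀ P, Affine.Point.map σ.toAlgHom P.1 = (φ P).1)
    (t d : ZMod N) :
    Set.HasDirichletDensity {v : HeightOneSpectrum (𝓞 ℚ) |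
      (E.LFunction (Ideal.absNorm v.asIdeal) : ZMod N) = t ∧
        (Ideal.absNorm v.asIdeal : ZMod N) = d}
      ((Nat.card {M : GL (Fin 2) (ZMod N) // M.val.trace = t ∧ M.val.det = d} : ℝ) /
        Nat.card (GL (Fin 2) (ZMod N))) := by
  obtain rfl : inst = instDecEqAlgebraicClosureRat := Subsingleton.elim _ _
  have h := hasDirichletDensity_curve E hN hsurj {(t, d)}
  simp only [Set.mem_singleton_iff, Prod.mk.injEq] at h
  exact h

/-- The distribution for semistable curves, `N` prime to `2 · 3 · 5 · 7`. -/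
theorem traceDistribution_semistable (E : WeierstrassCurve ℚ) [E.IsElliptic]
    (h : ∀ p : ℕ, ∀ [Fact p.Prime], ∃ C : VariableChange ℚ_[p],
      HasGoodReduction ℤ_[p] (C • E.map (algebraMap ℚ ℚ_[p])) ∨
        HasMultiplicativeReduction ℤ_[p] (C • E.map (algebraMap ℚ ℚ_[p])))
    {N : ℕ} (hN : N.Coprime 210) (t d : ZMod N) :
    Set.HasDirichletDensity {v : HeightOneSpectrum (𝓞 ℚ) |
      (E.LFunction (Ideal.absNorm v.asIdeal) : ZMod N) = t ∧
        (Ideal.absNorm v.asIdeal : ZMod N) = d}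
      ((Nat.card {M : GL (Fin 2) (ZMod N) // M.val.trace = t ∧ M.val.det = d} : ℝ) /
        Nat.card (GL (Fin 2) (ZMod N))) :=
  traceDistribution E (fun e => by rw [e] at hN; norm_num at hN)
    (fun φ => galoisSurjectiveTorsion_adelic E h hN φ) t d

/-- **Every admissible pair `(a_q, q)` modulo `N` occurs infinitely often.** -/
theorem infinite_traces_semistable (E : WeierstrassCurve ℚ) [E.IsElliptic]
    (h : ∀ p : ℕ, ∀ [Fact p.Prime], ∃ C : VariableChange ℚ_[p],
      HasGoodReduction ℤ_[p] (C • E.map (algebraMap ℚ ℚ_[p])) ∨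
        HasMultiplicativeReduction ℤ_[p] (C • E.map (algebraMap ℚ ℚ_[p])))
    {N : ℕ} (hN : N.Coprime 210) (t : ZMod N) {d : ZMod N} (hd : IsUnit d) :
    {q : ℕ | q.Prime ∧ (E.LFunction q : ZMod N) = t ∧ (q : ZMod N) = d}.Infinite := by
  haveI : NeZero N := ⟨fun e => by rw [e] at hN; norm_num at hN⟩
  refine infinite_of_density (P := fun q => (E.LFunction q : ZMod N) = t ∧ (q : ZMod N) = d) ?_
    (traceDistribution_semistable E h hN t d)
  have hdet : IsUnit (!![t, -d; 1, 0] : Matrix (Fin 2) (Fin 2) (ZMod N)) :=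
    (Matrix.isUnit_iff_isUnit_det _).mpr (by simpa [det_fin_two_of] using hd)
  have : Nonempty {M : GL (Fin 2) (ZMod N) // M.val.trace = t ∧ M.val.det = d} :=
    ⟨⟨hdet.unit, by simp [trace_fin_two], by simp [det_fin_two]⟩⟩
  exact div_ne_zero (Nat.cast_ne_zero.mpr Nat.card_pos.ne')
    (Nat.cast_ne_zero.mpr Nat.card_pos.ne')

/-- **How often a prime divides the number of points**: if Galois induces every automorphism of
`E[l]`, then `l ∣ #E(𝔽_q)` for a proportion `(l² - 2) / ((l - 1)(l² - 1))` of the primes. -/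
theorem density_dvd_pointCount (E : WeierstrassCurve ℚ) [E.IsElliptic] (W : WeierstrassCurve ℤ)
    (C : VariableChange ℚ) (hW : C • E = W.map (Int.castRingHom ℚ))
    [inst : DecidableEq (AlgebraicClosure ℚ)] {l : ℕ} (hl : l.Prime)
    (hsurj : ∀ φ : Submodule.torsionBy ℤ (E.toAffine⁄(AlgebraicClosure ℚ)).Point (l : ℤ) ≃+
        Submodule.torsionBy ℤ (E.toAffine⁄(AlgebraicClosure ℚ)).Point (l : ℤ),
      ∃ σ : AlgebraicClosure ℚ ≃ₐ[ℚ] AlgebraicClosure ℚ,
        ∀ P, Affine.Point.map σ.toAlgHom P.1 = (φ P).1) :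
    Set.HasDirichletDensity {v : HeightOneSpectrum (𝓞 ℚ) |
      l ∣ Nat.card (W.map (Int.castRingHom (ZMod (Ideal.absNorm v.asIdeal)))).toAffine.Point}
      (((l : ℝ) ^ 2 - 2) / (((l : ℝ) - 1) * ((l : ℝ) ^ 2 - 1))) := by
  obtain rfl : inst = instDecEqAlgebraicClosureRat := Subsingleton.elim _ _
  haveI := Fact.mk hl
  have hΔ := FA.Frob.Δ_ne_zero_of_model (E := E) ⟨C, hW⟩
  have h := hasDirichletDensity_curve E hl.ne_zero hsurj {p | p.1 = p.2 + 1}
  simp only [Set.mem_ofPred_eq] at h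
  have hval : ((Nat.card {M : GL (Fin 2) (ZMod l) // M.val.trace = M.val.det + 1} : ℝ) /
      Nat.card (GL (Fin 2) (ZMod l))) =
      ((l : ℝ) ^ 2 - 2) / (((l : ℝ) - 1) * ((l : ℝ) ^ 2 - 1)) := by
    have hc := card_fixing (k := ZMod l)
    rw [ZMod.card] at hc
    rw [card_gl2, ZMod.card]
    have h2 := hl.two_le
    have e : (Nat.card {M : GL (Fin 2) (ZMod l) // M.val.trace = M.val.det + 1} : ℝ) =
        (l : ℝ) ^ 3 - 2 * l := by
      rw [eq_sub_iff_add_eq]
      exact_mod_cast hc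
    have h1l : (1 : ℕ) ≤ l ^ 2 := Nat.one_le_pow _ _ hl.pos
    have hll : l ≤ l ^ 2 := Nat.le_self_pow two_ne_zero l
    rw [e, Nat.cast_mul, Nat.cast_sub h1l, Nat.cast_sub hll, Nat.cast_pow, Nat.cast_one]
    have h2' : (2 : ℝ) ≤ l := by exact_mod_cast h2
    have a1 : (l : ℝ) - 1 ≠ 0 := by linarith
    have a2 : (l : ℝ) ^ 2 - 1 ≠ 0 := by nlinarith
    have a3 : (l : ℝ) ^ 2 - l ≠ 0 := by nlinarith
    field_simp
  rw [hval] at h
  refine hasDirichletDensity_congr h (finite_dvd hΔ) fun v hv => ?_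
  have hq := FA.Chebotarev.absNorm_prime v
  haveI := Fact.mk hq
  simp only [Set.mem_ofPred_eq]
  rw [FA.Root.LFunction_apply_prime E W ⟨C, hW⟩ hq hv, ← ZMod.natCast_eq_zero_iff]
  have e : (W.apOfModel (Ideal.absNorm v.asIdeal) : ZMod l) =
      (Ideal.absNorm v.asIdeal : ZMod l) + 1 - (Nat.card
        (W.map (Int.castRingHom (ZMod (Ideal.absNorm v.asIdeal)))).toAffine.Point : ZMod l) := by
    simp [apOfModel, traceOfFrobenius, WeierstrassCurve.card, reductionMod]
  rw [e]
  constructor <;> intro h <;> linear_combination -h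

/-- **How often `l` divides `a_q`**: a proportion `l / (l² - 1)` of the primes if Galois induces
every automorphism of `E[l]`. -/
theorem density_dvd_trace (E : WeierstrassCurve ℚ) [E.IsElliptic]
    [inst : DecidableEq (AlgebraicClosure ℚ)] {l : ℕ} (hl : l.Prime)
    (hsurj : ∀ φ : Submodule.torsionBy ℤ (E.toAffine⁄(AlgebraicClosure ℚ)).Point (l : ℤ) ≃+
        Submodule.torsionBy ℤ (E.toAffine⁄(AlgebraicClosure ℚ)).Point (l : ℤ),
      ∃ σ : AlgebraicClosure ℚ ≃ₐ[ℚ] AlgebraicClosure ℚ,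
        ∀ P, Affine.Point.map σ.toAlgHom P.1 = (φ P).1) :
    Set.HasDirichletDensity {v : HeightOneSpectrum (𝓞 ℚ) |
      (l : ℤ) ∣ E.LFunction (Ideal.absNorm v.asIdeal)} ((l : ℝ) / ((l : ℝ) ^ 2 - 1)) := by
  obtain rfl : inst = instDecEqAlgebraicClosureRat := Subsingleton.elim _ _
  haveI := Fact.mk hl
  have h := hasDirichletDensity_curve E hl.ne_zero hsurj {p | p.1 = 0}
  simp only [Set.mem_ofPred_eq, ZMod.intCast_zmod_eq_zero_iff_dvd] at h
  convert h using 1
  rw [card_trace_zero, card_gl2, ZMod.card]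
  have h2 : (2 : ℝ) ≤ l := by exact_mod_cast hl.two_le
  have h1l : (1 : ℕ) ≤ l ^ 2 := Nat.one_le_pow _ _ hl.pos
  have hll : l ≤ l ^ 2 := Nat.le_self_pow two_ne_zero l
  rw [Nat.cast_mul, Nat.cast_mul, Nat.cast_sub h1l, Nat.cast_sub hll, Nat.cast_sub hl.one_le,
    Nat.cast_pow, Nat.cast_one]
  have a2 : (l : ℝ) ^ 2 - 1 ≠ 0 := by nlinarith
  have a1 : (l : ℝ) - 1 ≠ 0 := by linarith
  rw [show (l : ℝ) ^ 2 - l = l * (l - 1) by ring]
  field_simp

/-- **`11` divides `τ(p)` for a proportion `11 / 120` of the primes.** -/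
theorem ramanujanTau_density_eleven :
    Set.HasDirichletDensity {v : HeightOneSpectrum (𝓞 ℚ) | ∃ k : ℤ,
      (UpperHalfPlane.qExpansion 1 ModularForm.discriminant).coeff (Ideal.absNorm v.asIdeal) =
        ((11 * k : ℤ) : ℂ)}
      (11 / 120) := by
  have hsurj := galoisSurjectiveTorsion_adelic FA.Examples.curve11a3
    FA.Examples.curve11a3_semistable (N := 11) (by norm_num)
  have h := density_dvd_trace FA.Examples.curve11a3 (l := 11) (by norm_num) hsurj
  norm_num at h
  refine hasDirichletDensity_congr h (Set.finite_empty) fun v _ => ?_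
  obtain ⟨k, hk⟩ := ramanujanTau_mod_eleven (Ideal.absNorm v.asIdeal)
  simp only [Set.mem_ofPred_eq]
  rw [hk]
  constructor
  · rintro ⟨m, hm⟩
    refine ⟨m + k, congrArg _ ?_⟩
    show (⟨0, -1, 1, 0, 0⟩ : WeierstrassCurve ℚ).LFunction _ + 11 * k = _
    rw [show (⟨0, -1, 1, 0, 0⟩ : WeierstrassCurve ℚ) = FA.Examples.curve11a3 from rfl, hm]
    ring
  · rintro ⟨m, hm⟩
    have hm' := Int.cast_injective hm
    refine ⟨m - k, ?_⟩
    show (⟨0, -1, 1, 0, 0⟩ : WeierstrassCurve ℚ).LFunction _ = _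
    linarith

end FA.Summary

end
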