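import Fermat.Agent.ExtVanish.Herbrand

/-!
# Stickelberger and Herbrand

For a prime `p ≥ 5` and `K = ℚ(ζ_p)`, with `a(σ) : (ℤ/p)ˣ` given by `σ ζ = ζ ^ a(σ)`:

* `stickelberger_degreeOne`: for a prime of prime norm other than `p` and `b < p` the product of the
  classes `σ C` with exponents `⌊b a(σ⁻¹) / p⌋` is trivial.
* `herbrand`: a class `x ≠ 1` with `x^p = 1` and `σ x = x^(a(σ)^i)`, `i` odd, forces `i ≥ 3` and `p` to
  divide the numerator of `B_{p-i}`.
* `kummer_minus_part`: if no such numerator is divisible by `p`, complex conjugation inverts no class of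
  order `p`; so below one hundred only `37, 59, 67` can have one (`kummer_minus_part_lt_hundred`).
-/

set_option autoImplicit false

noncomputable section

open NumberField IsDedekindDomain
open scoped nonZeroDivisors

namespace FA.Summary

variable (p : ℕ) [Fact p.Prime] (K : Type*) [Field K] [NumberField K]
  [IsCyclotomicExtension {p} ℚ K]

/-- **Stickelberger's relation** at a degree one prime. -/
theorem stickelberger_degreeOne (v : HeightOneSpectrum (𝓞 K)) (hvp : (p : 𝓞 K) ∉ v.asIdeal)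
    (hv : (Ideal.absNorm v.asIdeal).Prime) (b : ℕ) (hb : b < p) :
    ∏ σ : K ≃ₐ[ℚ] K, ClassGroup.mulEquiv (RingOfIntegers.mapRingEquiv σ.toRingEquiv)
        (ClassGroup.mk0 ⟨v.asIdeal, mem_nonZeroDivisors_iff_ne_zero.mpr v.ne_bot⟩) ^
      (b * ((IsCyclotomicExtension.Rat.galEquivZMod p K σ⁻¹ : (ZMod p)ˣ) : ZMod p).val / p) = 1 := by
  classical
  refine Eq.trans ?_ (FA.Ext.stickelberger_relation p K v hvp hv b hb)
  refine (Fintype.prod_equiv
    ((Equiv.inv (ZMod p)ˣ).trans (IsCyclotomicExtension.Rat.galEquivZMod p K).symm.toEquiv)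
    _ _ fun d => ?_).symm
  rw [Equiv.trans_apply, Equiv.inv_apply, MulEquiv.toEquiv_eq_coe, MulEquiv.coe_toEquiv,
    ← map_inv, inv_inv, MulEquiv.apply_symm_apply]
  congr 1
  exact (FA.Ext.sigmaCl_mk0 p K d⁻¹ (FA.Ext.primeIdeal v) _ rfl).symm

/-- **Herbrand's theorem.** -/
theorem herbrand (hp5 : 5 ≤ p) (i : ℕ) (hi : Odd i) (hip : i ≤ p - 2) (x : ClassGroup (𝓞 K))
    (hx : x ^ p = 1) (hx1 : x ≠ 1)
    (heig : ∀ σ : K ≃ₐ[ℚ] K, ClassGroup.mulEquiv (RingOfIntegers.mapRingEquiv σ.toRingEquiv) x =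
      x ^ ((((IsCyclotomicExtension.Rat.galEquivZMod p K σ : (ZMod p)ˣ) : ZMod p)) ^ i).val) :
    3 ≤ i ∧ (p : ℤ) ∣ (bernoulli (p - i)).num :=
  FA.Ext.herbrand p K hp5 hi hip hx hx1 fun d => by
    have h := heig (FA.Ext.sigmaK p K d)
    rwa [show IsCyclotomicExtension.Rat.galEquivZMod p K (FA.Ext.sigmaK p K d) = d from
      MulEquiv.apply_symm_apply _ d] at h

/-- **Kummer**: no minus part at regular primes. -/
theorem kummer_minus_part (hp5 : 5 ≤ p)
    (hreg : ∀ k, Even k → 2 ≤ k → k ≤ p - 3 → ¬ (p : ℤ) ∣ (bernoulli k).num)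
    (c : K ≃ₐ[ℚ] K) (hc : IsCyclotomicExtension.Rat.galEquivZMod p K c = -1)
    (x : ClassGroup (𝓞 K)) (hx : x ^ p = 1)
    (hconj : ClassGroup.mulEquiv (RingOfIntegers.mapRingEquiv c.toRingEquiv) x = x⁻¹) : x = 1 := by
  refine FA.Ext.minus_torsion_trivial p K hp5 hreg hx ?_
  have e : FA.Ext.sigmaK p K (-1) = c := by
    rw [← hc]; exact MulEquiv.symm_apply_apply _ c
  rw [← hconj, ← e]
  rfl

/-- Kummer's theorem below one hundred. -/
theorem kummer_minus_part_lt_hundred (hp5 : 5 ≤ p) (hp100 : p < 100) (h37 : p ≠ 37) (h59 : p ≠ 59)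
    (h67 : p ≠ 67) (c : K ≃ₐ[ℚ] K) (hc : IsCyclotomicExtension.Rat.galEquivZMod p K c = -1)
    (x : ClassGroup (𝓞 K)) (hx : x ^ p = 1)
    (hconj : ClassGroup.mulEquiv (RingOfIntegers.mapRingEquiv c.toRingEquiv) x = x⁻¹) : x = 1 :=
  kummer_minus_part p K hp5 (fun k hev hk hkp h => by
    rcases (irregular_primes_lt_hundred p Fact.out hp100).mp ⟨k, hev, hk, hkp, h⟩ with e | e | e <;>
      omega) c hc x hx hconj

end FA.Summary
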