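import Fermat.Agent.Regular.Criterion

/-!
# Kummer's criterion and Kummer's lemma

Call a prime `p ≥ 5` Bernoulli regular if it divides no numerator of `B_2, B_4, …, B_{p-3}`.

* `kummer_criterion`: a Bernoulli regular prime does not divide the class number of `ℚ(ζ_p)`.
* `kummer_criterion_lt_hundred`: so `p` does not divide it for `5 ≤ p < 100`, `p ≠ 37, 59, 67`.
* `kummer_lemma`: at a Bernoulli regular prime a unit of `ℤ[ζ_p]` congruent to a rational integer
  modulo `p` is a `p`-th power of a unit.

The odd eigenspaces of the class group are Herbrand's theorem; the even ones follow from Thaine's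
relation for the cyclotomic units and Kummer's logarithmic derivatives.  Independent of S01.
-/

set_option autoImplicit false

open NumberField

namespace FA.Summary

variable (p : ℕ) [Fact p.Prime] (K : Type*) [Field K] [NumberField K]
  [IsCyclotomicExtension {p} ℚ K]

/-- **Kummer's criterion**, the sufficient direction. -/
theorem kummer_criterion (hp5 : 5 ≤ p)
    (hreg : ∀ k, Even k → 2 ≤ k → k ≤ p - 3 → ¬ (p : ℤ) ∣ (bernoulli k).num) :
    ¬ p ∣ classNumber K :=
  FA.Regular.not_dvd_classNumber_of_regular p K hp5 hreg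

/-- Kummer's criterion below one hundred. -/
theorem kummer_criterion_lt_hundred (hp5 : 5 ≤ p) (hp100 : p < 100) (h37 : p ≠ 37) (h59 : p ≠ 59)
    (h67 : p ≠ 67) : ¬ p ∣ classNumber K :=
  kummer_criterion p K hp5 fun k hev hk hkp hd => by
    rcases (irregular_primes_lt_hundred p Fact.out hp100).mp ⟨k, hev, hk, hkp, hd⟩ with e | e | e <;>
      omega

/-- **Kummer's lemma**. -/
theorem kummer_lemma (hp5 : 5 ≤ p)
    (hreg : ∀ k, Even k → 2 ≤ k → k ≤ p - 3 → ¬ (p : ℤ) ∣ (bernoulli k).num) (u : (𝓞 K)ˣ)
    (h : ∃ n : ℤ, (p : 𝓞 K) ∣ (u : 𝓞 K) - (n : 𝓞 K)) : ∃ v : (𝓞 K)ˣ, v ^ p = u :=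
  FA.Regular.kummerProp_of_regular p K hp5 hreg u h

end FA.Summary
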