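import Fermat.Agent.Regular.FirstCaseBernoulli
import Fermat.Agent.Root.SummaryIrregularBelowHundred

/-!
# Kummer's first case

For a prime `p ≥ 5` dividing none of the numerators of `B_2, B_4, …, B_{p-3}`:

* `kummer_cofactor_not_pow`: for coprime integers `x`, `y` with `p ∤ x y (x + y) (x - y)`, the number
  `(x^p + y^p)/(x + y)` is not a `p`-th power.
* `kummer_first_case`: `a^p + b^p ≠ c^p` whenever `p ∤ a b c`.
* `kummer_first_case_lt_hundred`: this covers every prime from `5` to `97` except `37, 59, 67`.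

These are proved by Kummer's method, from the triviality of the minus part of the class group
(Stickelberger and Herbrand, `SummaryHerbrand`).  They are independent of the statement S01 and use
neither elliptic curves nor modularity.
-/

set_option autoImplicit false

namespace FA.Summary

variable (p : ℕ) [Fact p.Prime]

/-- **Kummer**: `(x^p + y^p)/(x + y)` is not a `p`-th power. -/
theorem kummer_cofactor_not_pow (hp5 : 5 ≤ p)
    (hreg : ∀ k, Even k → 2 ≤ k → k ≤ p - 3 → ¬ (p : ℤ) ∣ (bernoulli k).num) (x y w : ℤ)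
    (hxy : IsCoprime x y) (h : ¬ (p : ℤ) ∣ x * y * (x + y) * (x - y)) :
    x ^ p + y ^ p ≠ (x + y) * w ^ p :=
  FA.Regular.cofactor_ne_pow hp5 hreg hxy
    (fun e => h (((e.mul_right y).mul_right (x + y)).mul_right (x - y)))
    (fun e => h (((e.mul_left x).mul_right (x + y)).mul_right (x - y)))
    (fun e => h ((e.mul_left (x * y)).mul_right (x - y)))
    (fun e => h (e.mul_left (x * y * (x + y))))

/-- **Kummer**: the first case of Fermat's equation at a Bernoulli regular prime. -/
theorem kummer_first_case (hp5 : 5 ≤ p)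
    (hreg : ∀ k, Even k → 2 ≤ k → k ≤ p - 3 → ¬ (p : ℤ) ∣ (bernoulli k).num) (a b c : ℤ)
    (h : ¬ (p : ℤ) ∣ a * b * c) : a ^ p + b ^ p ≠ c ^ p := by
  intro heq
  have hp : p.Prime := Fact.out
  have ha0 : a ≠ 0 := fun e => h (by simp [e])
  obtain ⟨g, a', b', hg, hab, rfl, rfl⟩ :=
    Int.exists_gcd_one' (Int.gcd_pos_of_ne_zero_left b ha0)
  have hgc : (g : ℤ) ∣ c := (Int.pow_dvd_pow_iff hp.ne_zero).mp
    (heq ▸ dvd_add (pow_dvd_pow_of_dvd (dvd_mul_left _ _) p) (pow_dvd_pow_of_dvd (dvd_mul_left _ _) p))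
  obtain ⟨c', rfl⟩ := hgc
  have heq' : a' ^ p + b' ^ p = c' ^ p := by
    refine mul_left_cancel₀ (pow_ne_zero p (Int.natCast_ne_zero.mpr hg.ne')) ?_
    linear_combination heq
  rw [← Int.isCoprime_iff_gcd_eq_one] at hab
  have hcop : ∀ {u v : ℤ}, u ^ p + v ^ p = c' ^ p → IsCoprime u v → IsCoprime u c' := by
    intro u v huv hc
    refine (IsCoprime.pow_iff hp.pos hp.pos).mp ?_
    rw [← huv, add_comm]
    simpa using (hc.pow (m := p) (n := p)).add_mul_left_right 1
  have hodd : Odd p := hp.odd_of_ne_two (by omega)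
  refine FA.Regular.first_case_of_regular hp5 hreg hab
    ((hcop (by linear_combination heq') hab.symm).neg_right) (hcop heq' hab).symm.neg_left
    (fun e => h (((e.mul_right _).mul_right _).mul_right _))
    (fun e => h (((e.mul_right _).mul_left _).mul_right _))
    (fun e => h ((dvd_neg.mp e |>.mul_left _).mul_left _)) ?_
  rw [hodd.neg_pow]
  linear_combination heq'

/-- Kummer's theorem below one hundred. -/
theorem kummer_first_case_lt_hundred (hp5 : 5 ≤ p) (hp100 : p < 100) (h37 : p ≠ 37) (h59 : p ≠ 59)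
    (h67 : p ≠ 67) (a b c : ℤ) (h : ¬ (p : ℤ) ∣ a * b * c) : a ^ p + b ^ p ≠ c ^ p :=
  kummer_first_case p hp5 (fun k hev hk hkp hd => by
    rcases (irregular_primes_lt_hundred p Fact.out hp100).mp ⟨k, hev, hk, hkp, hd⟩ with e | e | e <;>
      omega) a b c h

end FA.Summary
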