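import Fermat.Agent.Regular.CaseTwoClassGroup
import Fermat.Agent.Root.SummaryKummerFirstCase
import Fermat.Agent.Root.SummaryKummerCriterion

/-!
# Kummer's theorem on Fermat's equation

* `kummer_fermat`: if the prime `p ≥ 5` divides no numerator of `B_2, B_4, …, B_{p-3}` then
  `a^p + b^p ≠ c^p` for all nonzero integers, both cases.
* `kummer_fermat_lt_hundred`: this covers the primes from `5` to `97` except `37, 59, 67`.
* `kummer_fermat_exponent`: so Fermat's Last Theorem holds for every exponent with such a prime divisor.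

This is Kummer's proof: the first case from the minus part of the class group, the second by descent
from Kummer's criterion and Kummer's lemma.  It is independent of S01 and does not use elliptic curves
or modularity.
-/

set_option autoImplicit false

open NumberField

namespace FA.Summary

variable (p : ℕ) [Fact p.Prime]

set_option backward.isDefEq.respectTransparency false in
/-- The second case at a Bernoulli regular prime. -/
theorem kummer_second_case (hp5 : 5 ≤ p)
    (hreg : ∀ k, Even k → 2 ≤ k → k ≤ p - 3 → ¬ (p : ℤ) ∣ (bernoulli k).num) (a b c : ℤ)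
    (hc0 : c ≠ 0) (hab : IsCoprime a b) (ha : ¬ (p : ℤ) ∣ a) (hb : ¬ (p : ℤ) ∣ b) (hc : (p : ℤ) ∣ c) :
    a ^ p + b ^ p + c ^ p ≠ 0 := by
  intro hsum
  have : NeZero p := ⟨(Fact.out : p.Prime).ne_zero⟩
  have H := FA.Regular.cycloRing_ringOfIntegers (K := CyclotomicField p ℚ) (p := p) (by omega)
    (IsCyclotomicExtension.zeta_spec p ℚ (CyclotomicField p ℚ))
  exact H.case_two_of_rootProp (by omega)
    (FA.Regular.kummerProp_of_regular p (CyclotomicField p ℚ) hp5 hreg)
    (FA.Regular.rootProp_of_torsion_trivial (CyclotomicField p ℚ) fun _ hx =>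
      FA.Regular.torsion_trivial_of_regular p (CyclotomicField p ℚ) hp5 hreg hx)
    hc0 hsum hab ha hb hc

/-- **Kummer**: Fermat's Last Theorem at a Bernoulli regular prime. -/
theorem kummer_fermat (hp5 : 5 ≤ p)
    (hreg : ∀ k, Even k → 2 ≤ k → k ≤ p - 3 → ¬ (p : ℤ) ∣ (bernoulli k).num) (a b c : ℤ)
    (ha : a ≠ 0) (hb : b ≠ 0) (hc : c ≠ 0) : a ^ p + b ^ p ≠ c ^ p := by
  intro heq
  have hp : p.Prime := Fact.out
  have hodd : Odd p := hp.odd_of_ne_two (by omega)
  obtain ⟨g, a', b', hg, hab, rfl, rfl⟩ :=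
    Int.exists_gcd_one' (Int.gcd_pos_of_ne_zero_left b ha)
  have hgc : (g : ℤ) ∣ c := (Int.pow_dvd_pow_iff hp.ne_zero).mp
    (heq ▸ dvd_add (pow_dvd_pow_of_dvd (dvd_mul_left _ _) p) (pow_dvd_pow_of_dvd (dvd_mul_left _ _) p))
  obtain ⟨c', rfl⟩ := hgc
  have ha' : a' ≠ 0 := left_ne_zero_of_mul ha
  have hb' : b' ≠ 0 := left_ne_zero_of_mul hb
  have hc' : c' ≠ 0 := right_ne_zero_of_mul hc
  have heq' : a' ^ p + b' ^ p = c' ^ p := by
    refine mul_left_cancel₀ (pow_ne_zero p (Int.natCast_ne_zero.mpr hg.ne')) ?_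
    linear_combination heq
  rw [← Int.isCoprime_iff_gcd_eq_one] at hab
  have hcop : ∀ {u v : ℤ}, u ^ p + v ^ p = c' ^ p → IsCoprime u v → IsCoprime u c' := by
    intro u v huv hc
    refine (IsCoprime.pow_iff hp.pos hp.pos).mp ?_
    rw [← huv, add_comm]
    simpa using (hc.pow (m := p) (n := p)).add_mul_left_right 1
  have hac : IsCoprime a' c' := hcop heq' hab
  have hbc : IsCoprime b' c' := hcop (by linear_combination heq') hab.symm
  have hpI : Prime (p : ℤ) := Nat.prime_iff_prime_int.mp hp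
  have hexcl : ∀ {x y : ℤ}, IsCoprime x y → (p : ℤ) ∣ x → ¬ (p : ℤ) ∣ y := fun hxy hx hy =>
    hpI.not_isUnit (hxy.isUnit_of_dvd' hx hy)
  have hsum : a' ^ p + b' ^ p + (-c') ^ p = 0 := by
    rw [hodd.neg_pow]; linear_combination heq'
  by_cases h1 : (p : ℤ) ∣ a'
  · exact kummer_second_case p hp5 hreg b' (-c') a' ha' hbc.neg_right (hexcl hab h1)
      (fun h => hexcl hac h1 (dvd_neg.1 h)) h1 (by linear_combination hsum)
  by_cases h2 : (p : ℤ) ∣ b'
  · exact kummer_second_case p hp5 hreg (-c') a' b' hb' hac.symm.neg_left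
      (fun h => hexcl hbc h2 (dvd_neg.1 h)) h1 h2 (by linear_combination hsum)
  by_cases h3 : (p : ℤ) ∣ c'
  · exact kummer_second_case p hp5 hreg a' b' (-c') (neg_ne_zero.2 hc') hab h1 h2 h3.neg_right hsum
  exact kummer_first_case p hp5 hreg a' b' c'
    (fun h => (hpI.dvd_or_dvd h).elim (fun h => (hpI.dvd_or_dvd h).elim h1 h2) h3) heq'

/-- Kummer's theorem below one hundred. -/
theorem kummer_fermat_lt_hundred (hp5 : 5 ≤ p) (hp100 : p < 100) (h37 : p ≠ 37) (h59 : p ≠ 59)
    (h67 : p ≠ 67) : FermatLastTheoremFor p :=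
  fermatLastTheoremFor_iff_int.mpr fun a b c ha hb hc =>
    kummer_fermat p hp5 (fun k hev hk hkp hd => by
      rcases (irregular_primes_lt_hundred p Fact.out hp100).mp ⟨k, hev, hk, hkp, hd⟩ with e | e | e <;>
        omega) a b c ha hb hc

/-- Every exponent with a Bernoulli regular prime divisor `p ≥ 5`. -/
theorem kummer_fermat_exponent (hp5 : 5 ≤ p)
    (hreg : ∀ k, Even k → 2 ≤ k → k ≤ p - 3 → ¬ (p : ℤ) ∣ (bernoulli k).num) (n : ℕ) (hn : p ∣ n) :
    FermatLastTheoremFor n :=
  FermatLastTheoremFor.mono hn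
    (fermatLastTheoremFor_iff_int.mpr fun a b c ha hb hc => kummer_fermat p hp5 hreg a b c ha hb hc)

end FA.Summary
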