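import Fermat.Agent.Regular.CriterionConverse
import Fermat.Agent.Root.SummaryKummerFermat
import Fermat.Agent.Root.SummaryKummerCriterion

/-!
# Kummer's criterion as an equivalence, and his theorem in its original form

* `kummer_criterion_iff`: an odd prime `p ≥ 5` divides the class number of `ℚ(ζ_p)` if and only if
  it divides the numerator of some `B_k`, `k` even, `2 ≤ k ≤ p - 3`.
* `kummer_criterion_lt_hundred_iff`: below one hundred exactly `37, 59, 67` divide their class number.
* `infinite_dvd_classNumber`: infinitely many primes do.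
* `kummer_fermat_regular`: if an odd prime does not divide the class number of its cyclotomic field
  then Fermat's Last Theorem holds for that exponent.
* `not_isPrincipalIdealRing_thirtySeven`: `ℤ[ζ₃₇]` is not a principal ideal ring.

Classical proofs (Stickelberger, Thaine, the class number formula); independent of S01.
-/

set_option autoImplicit false

open NumberField

namespace FA.Summary

variable (p : ℕ) [Fact p.Prime] (K : Type*) [Field K] [NumberField K]
  [IsCyclotomicExtension {p} ℚ K]

/-- **Kummer's criterion**. -/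
theorem kummer_criterion_iff (hp5 : 5 ≤ p) :
    p ∣ classNumber K ↔ ∃ k, Even k ∧ 2 ≤ k ∧ k ≤ p - 3 ∧ (p : ℤ) ∣ (bernoulli k).num := by
  refine ⟨fun h => ?_, fun ⟨k, hev, hk, hkp, hB⟩ =>
    FA.Regular.dvd_classNumber_of_dvd_bernoulli hp5 hev hk hkp hB⟩
  by_contra hno
  exact kummer_criterion p K hp5 (fun k hev hk hkp hB => hno ⟨k, hev, hk, hkp, hB⟩) h

/-- The irregular primes below one hundred. -/
theorem kummer_criterion_lt_hundred_iff (hp5 : 5 ≤ p) (hp100 : p < 100) :
    p ∣ classNumber K ↔ p = 37 ∨ p = 59 ∨ p = 67 := by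
  rw [kummer_criterion_iff p K hp5]
  exact irregular_primes_lt_hundred p Fact.out hp100

set_option backward.isDefEq.respectTransparency false in
/-- **Kummer's theorem** in its original form. -/
theorem kummer_fermat_regular (hp3 : 3 ≤ p)
    (hreg : ¬ p ∣ classNumber (CyclotomicField p ℚ)) : FermatLastTheoremFor p := by
  rcases (show p = 3 ∨ p = 4 ∨ 5 ≤ p by omega) with rfl | rfl | h5
  · exact fermatLastTheoremThree
  · exact fermatLastTheoremFour
  · refine fermatLastTheoremFor_iff_int.mpr fun a b c ha hb hc =>
      kummer_fermat p h5 (fun k hev hk hkp hB => hreg ?_) a b c ha hb hc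
    have : NeZero p := ⟨(Fact.out : p.Prime).ne_zero⟩
    exact (kummer_criterion_iff p (CyclotomicField p ℚ) h5).mpr ⟨k, hev, hk, hkp, hB⟩

set_option backward.isDefEq.respectTransparency false in
/-- **Infinitely many primes divide the class number of their cyclotomic field.** -/
theorem infinite_dvd_classNumber :
    {q : ℕ | q.Prime ∧ q ∣ classNumber (CyclotomicField q ℚ)}.Infinite := by
  refine infinite_irregular_primes.mono fun q hq => ?_
  obtain ⟨hq, k, hev, hk, hkp, hB⟩ := hq
  have : Fact q.Prime := ⟨hq⟩
  have : NeZero q := ⟨hq.ne_zero⟩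
  exact ⟨hq, (kummer_criterion_iff q (CyclotomicField q ℚ) (by omega)).mpr
    ⟨k, hev, hk, hkp, hB⟩⟩

/-- `ℤ[ζ₃₇]` is not principal. -/
theorem not_isPrincipalIdealRing_thirtySeven (L : Type*) [Field L] [NumberField L]
    [IsCyclotomicExtension {37} ℚ L] : ¬ IsPrincipalIdealRing (𝓞 L) := by
  intro h
  have : Fact (Nat.Prime 37) := ⟨by norm_num⟩
  have h37 := (kummer_criterion_lt_hundred_iff 37 L (by norm_num) (by norm_num)).mpr (Or.inl rfl)
  rw [classNumber_eq_one_iff.mpr h] at h37
  norm_num at h37

end FA.Summary
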