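import Fermat.Agent.Regular.VandiverBelowHundred
import Fermat.Agent.Root.SummaryKummerCriterionIff
import Fermat.Agent.Regular.SingleIndex

/-!
# Herbrand–Ribet and Kummer–Vandiver below one hundred, and the first case there

For a prime `5 ≤ p < 100` and `K = ℚ(ζ_p)`:

* `vandiver_lt_hundred`: no class of order `p` is fixed by complex conjugation.
* `herbrand_ribet_lt_hundred`: for odd `i ≤ p - 2` some class `x ≠ 1` with `x^p = 1` has
  `σ x = x^(a(σ)^i)` for all `σ` iff `3 ≤ i` and `p` divides the numerator of `B_{p-i}`.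
* `eigenspace_thirtySeven`: at `p = 37` every class killed by `37` is of weight `5`.
* `fermat_first_case_lt_hundred`: for every prime `p < 100`, `a^p + b^p ≠ c^p` when `p ∤ a b c`
  (Kummer, and Sophie Germain at `37, 59, 67`).

Classical; independent of S01.
-/

set_option autoImplicit false

noncomputable section

open NumberField
open scoped nonZeroDivisors

namespace FA.Summary

variable (p : ℕ) [Fact p.Prime] (K : Type*) [Field K] [NumberField K]
  [IsCyclotomicExtension {p} ℚ K]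

/-- **The conjecture of Kummer and Vandiver below one hundred.** -/
theorem vandiver_lt_hundred (hp5 : 5 ≤ p) (hp100 : p < 100) (c : K ≃ₐ[ℚ] K)
    (hc : IsCyclotomicExtension.Rat.galEquivZMod p K c = -1) (x : ClassGroup (𝓞 K)) (hx : x ^ p = 1)
    (hfix : ClassGroup.mulEquiv (RingOfIntegers.mapRingEquiv c.toRingEquiv) x = x) : x = 1 := by
  have hconj : FA.Ext.sigmaCl p K (-1) x = x := by
    have e : FA.Ext.sigmaK p K (-1) = c := by
      rw [← hc]; exact MulEquiv.symm_apply_apply _ c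
    conv_rhs => rw [← hfix, ← e]
    rfl
  exact FA.Regular.eq_one_of_fixed p K hp5
    (fun _ hev hi => FA.Regular.even_weightProj_eq_one_lt_hundred p K hp5 hp100 hev hi hx) hx hconj

/-- Every class killed by `p` has the weight of the irregular index. -/
theorem eigen_of_irregular (hp5 : 5 ≤ p) (hp100 : p < 100) {k : ℕ} (hev : Even k) (hk : 2 ≤ k)
    (hkp : k ≤ p - 3) (hB : (p : ℤ) ∣ (bernoulli k).num) {x : ClassGroup (𝓞 K)} (hx : x ^ p = 1)
    (σ : K ≃ₐ[ℚ] K) :
    ClassGroup.mulEquiv (RingOfIntegers.mapRingEquiv σ.toRingEquiv) x =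
      x ^ ((((IsCyclotomicExtension.Rat.galEquivZMod p K σ : (ZMod p)ˣ) : ZMod p)) ^ (p - k)).val := by
  refine FA.Regular.eigen_of_single_index p K hp5
    (fun i hev' hi' y hy => FA.Regular.even_weightProj_eq_one_lt_hundred p K hp5 hp100 hev' hi' hy)
    hev hk hkp (fun i hev' hi hip hd => ?_) hx σ
  have e1 := (irregular_pairs_lt_hundred p i Fact.out hp100 hev' hi hip).mp hd
  have e2 := (irregular_pairs_lt_hundred p k Fact.out hp100 hev hk hkp).mp hB
  simp only [List.mem_cons, Prod.mk.injEq, List.not_mem_nil, or_false] at e1 e2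
  omega

/-- **The theorem of Herbrand and Ribet below one hundred.** -/
theorem herbrand_ribet_lt_hundred (hp5 : 5 ≤ p) (hp100 : p < 100) (i : ℕ) (hi : Odd i)
    (hip : i ≤ p - 2) :
    (∃ x : ClassGroup (𝓞 K), x ≠ 1 ∧ x ^ p = 1 ∧ ∀ σ : K ≃ₐ[ℚ] K,
      ClassGroup.mulEquiv (RingOfIntegers.mapRingEquiv σ.toRingEquiv) x =
        x ^ ((((IsCyclotomicExtension.Rat.galEquivZMod p K σ : (ZMod p)ˣ) : ZMod p)) ^ i).val) ↔
      3 ≤ i ∧ (p : ℤ) ∣ (bernoulli (p - i)).num :=
  FA.Regular.herbrand_ribet_of_single_index p K hp5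
    (fun _ hev' hi' _ hy => FA.Regular.even_weightProj_eq_one_lt_hundred p K hp5 hp100 hev' hi' hy)
    (fun i j h1 h2 h3 h4 h1' h2' h3' h4' => by
      have e1 := (irregular_pairs_lt_hundred p i Fact.out hp100 h1 h2 h3).mp h4
      have e2 := (irregular_pairs_lt_hundred p j Fact.out hp100 h1' h2' h3').mp h4'
      simp only [List.mem_cons, Prod.mk.injEq, List.not_mem_nil, or_false] at e1 e2
      omega) i hi hip

/-- At `37` the classes killed by `37` have weight five. -/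
theorem eigenspace_thirtySeven (L : Type*) [Field L] [NumberField L]
    [IsCyclotomicExtension {37} ℚ L] [Fact (Nat.Prime 37)] (x : ClassGroup (𝓞 L)) (hx : x ^ 37 = 1)
    (σ : L ≃ₐ[ℚ] L) :
    ClassGroup.mulEquiv (RingOfIntegers.mapRingEquiv σ.toRingEquiv) x =
      x ^ ((((IsCyclotomicExtension.Rat.galEquivZMod 37 L σ : (ZMod 37)ˣ) : ZMod 37)) ^ 5).val :=
  eigen_of_irregular 37 L (by norm_num) (by norm_num) (k := 32) (by decide) (by norm_num)
    (by norm_num) ((irregular_pairs_lt_hundred 37 32 (by norm_num) (by norm_num) (by decide)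
      (by norm_num) (by norm_num)).mpr (by simp)) hx σ

/-- The first case from an auxiliary prime, without coprimality assumptions. -/
theorem first_case_of_auxiliary {q : ℕ} [Fact q.Prime] (hodd : Odd p) (S : List (ZMod q))
    (hS : ∀ x : ZMod q, x ^ p ∈ S)
    (h1 : ∀ x ∈ S, ∀ y ∈ S, ∀ z ∈ S, x + y + z = 0 → x = 0 ∨ y = 0 ∨ z = 0)
    (h2 : (p : ZMod q) ∉ S) (a b c : ℤ) (h : ¬ (p : ℤ) ∣ a * b * c) : a ^ p + b ^ p ≠ c ^ p := by
  intro heq
  have hp : p.Prime := Fact.out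
  have ha0 : a ≠ 0 := fun e => h (by simp [e])
  obtain ⟨g, a', b', hg, hab, rfl, rfl⟩ :=
    Int.exists_gcd_one' (Int.gcd_pos_of_ne_zero_left b ha0)
  have hgc : (g : ℤ) ∣ c := (Int.pow_dvd_pow_iff hp.ne_zero).mp
    (heq ▸ dvd_add (pow_dvd_pow_of_dvd (dvd_mul_left _ _) p) (pow_dvd_pow_of_dvd (dvd_mul_left _ _) p))
  obtain ⟨c', rfl⟩ := hgc
  have heq' : a' ^ p + b' ^ p = c' ^ p := by
    refine mul_left_cancel₀ (pow_ne_zero p (Int.natCast_ne_zero.mpr hg.ne')) ?_
    linear_combination heq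
  rw [← Int.isCoprime_iff_gcd_eq_one] at hab
  have hcop : ∀ {u v : ℤ}, u ^ p + v ^ p = c' ^ p → IsCoprime u v → IsCoprime u c' := by
    intro u v huv hc
    refine (IsCoprime.pow_iff hp.pos hp.pos).mp ?_
    rw [← huv, add_comm]
    simpa using (hc.pow (m := p) (n := p)).add_mul_left_right 1
  refine FA.Regular.sophie_germain (q := q) hodd ?_ ?_ (a := a') (b := b') (c := -c')
    (by rw [hodd.neg_pow]; linear_combination heq') hab
    ((hcop (by linear_combination heq') hab.symm).neg_right) (hcop heq' hab).symm.neg_left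
    (fun e => h (((e.mul_right _).mul_right _).mul_right _))
    (fun e => h (((e.mul_right _).mul_left _).mul_right _))
    (fun e => h ((dvd_neg.mp e |>.mul_left _).mul_left _))
  · intro x y z hxyz
    rcases h1 _ (hS x) _ (hS y) _ (hS z) hxyz with h | h | h
    · exact Or.inl (eq_zero_of_pow_eq_zero h)
    · exact Or.inr (Or.inl (eq_zero_of_pow_eq_zero h))
    · exact Or.inr (Or.inr (eq_zero_of_pow_eq_zero h))
  · exact fun x hx => h2 (hx ▸ hS x)

theorem first_case_two : ∀ x y z : ZMod 2, x * y * z ≠ 0 → x ^ 2 + y ^ 2 ≠ z ^ 2 := by decide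

theorem first_case_three : ∀ x y z : ZMod 9, 3 * (x * y * z) ≠ 0 → x ^ 3 + y ^ 3 ≠ z ^ 3 := by
  decide +kernel

theorem auxiliary_thirtySeven : (∀ x : ZMod 149, x ^ 37 ∈ ([0, 1, 44, 105, 148] : List (ZMod 149))) ∧
    (∀ x ∈ ([0, 1, 44, 105, 148] : List (ZMod 149)), ∀ y ∈ ([0, 1, 44, 105, 148] : List (ZMod 149)),
      ∀ z ∈ ([0, 1, 44, 105, 148] : List (ZMod 149)), x + y + z = 0 → x = 0 ∨ y = 0 ∨ z = 0) ∧
    ((37 : ℕ) : ZMod 149) ∉ ([0, 1, 44, 105, 148] : List (ZMod 149)) := by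
  refine ⟨?_, ?_, ?_⟩ <;> decide +kernel

theorem auxiliary_powers_fiftyNine :
    (∀ x : ZMod 827, x ^ 59 ∈ ([0, 1, 20, 124, 270, 337, 389, 400, 427, 438, 490, 557, 703, 807, 826] : List (ZMod 827))) ∧
    (∀ x ∈ ([0, 1, 20, 124, 270, 337, 389, 400, 427, 438, 490, 557, 703, 807, 826] : List (ZMod 827)),
      ∀ y ∈ ([0, 1, 20, 124, 270, 337, 389, 400, 427, 438, 490, 557, 703, 807, 826] : List (ZMod 827)),
      ∀ z ∈ ([0, 1, 20, 124, 270, 337, 389, 400, 427, 438, 490, 557, 703, 807, 826] : List (ZMod 827)),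
        x + y + z = 0 → x = 0 ∨ y = 0 ∨ z = 0) ∧
    ((59 : ℕ) : ZMod 827) ∉ ([0, 1, 20, 124, 270, 337, 389, 400, 427, 438, 490, 557, 703, 807, 826] : List (ZMod 827)) := by
  refine ⟨?_, ?_, ?_⟩ <;> decide +kernel

theorem auxiliary_fiftyNine : ∃ S : List (ZMod 827), (∀ x : ZMod 827, x ^ 59 ∈ S) ∧
    (∀ x ∈ S, ∀ y ∈ S, ∀ z ∈ S, x + y + z = 0 → x = 0 ∨ y = 0 ∨ z = 0) ∧
    ((59 : ℕ) : ZMod 827) ∉ S :=
  ⟨_, auxiliary_powers_fiftyNine⟩

theorem auxiliary_sixtySeven : (∀ x : ZMod 269, x ^ 67 ∈ ([0, 1, 82, 187, 268] : List (ZMod 269))) ∧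
    (∀ x ∈ ([0, 1, 82, 187, 268] : List (ZMod 269)), ∀ y ∈ ([0, 1, 82, 187, 268] : List (ZMod 269)),
      ∀ z ∈ ([0, 1, 82, 187, 268] : List (ZMod 269)), x + y + z = 0 → x = 0 ∨ y = 0 ∨ z = 0) ∧
    ((67 : ℕ) : ZMod 269) ∉ ([0, 1, 82, 187, 268] : List (ZMod 269)) := by
  refine ⟨?_, ?_, ?_⟩ <;> decide +kernel

/-- **The first case below one hundred**, classically. -/
theorem fermat_first_case_lt_hundred (hp100 : p < 100) (a b c : ℤ) (h : ¬ (p : ℤ) ∣ a * b * c) :
    a ^ p + b ^ p ≠ c ^ p := by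
  have hp : p.Prime := Fact.out
  rcases (show p = 2 ∨ p = 3 ∨ p = 4 ∨ p = 37 ∨ p = 59 ∨ p = 67 ∨
      (5 ≤ p ∧ p ≠ 37 ∧ p ≠ 59 ∧ p ≠ 67) by have := hp.two_le; omega) with
    rfl | rfl | rfl | rfl | rfl | rfl | ⟨h5, h37, h59, h67⟩
  · intro e
    refine first_case_two a b c (fun e' => h ?_) (by exact_mod_cast congrArg (Int.cast : ℤ → ZMod 2) e)
    exact (ZMod.intCast_zmod_eq_zero_iff_dvd _ 2).mp (by push_cast; exact e')
  · intro e
    refine first_case_three a b c (fun e' => h ?_) (by exact_mod_cast congrArg (Int.cast : ℤ → ZMod 9) e)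
    have h9 : ((9 : ℕ) : ℤ) ∣ 3 * (a * b * c) :=
      (ZMod.intCast_zmod_eq_zero_iff_dvd _ 9).mp (by push_cast; exact e')
    omega
  · norm_num at hp
  · have : Fact (Nat.Prime 149) := ⟨by norm_num⟩
    exact first_case_of_auxiliary 37 (q := 149) (by decide) _ auxiliary_thirtySeven.1
      auxiliary_thirtySeven.2.1 auxiliary_thirtySeven.2.2 a b c h
  · have : Fact (Nat.Prime 827) := ⟨by norm_num⟩
    obtain ⟨S, h1, h2, h3⟩ := auxiliary_fiftyNine
    exact first_case_of_auxiliary 59 (q := 827) (by decide) S h1 h2 h3 a b c h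
  · have : Fact (Nat.Prime 269) := ⟨by norm_num⟩
    exact first_case_of_auxiliary 67 (q := 269) (by decide) _ auxiliary_sixtySeven.1
      auxiliary_sixtySeven.2.1 auxiliary_sixtySeven.2.2 a b c h
  · exact kummer_first_case_lt_hundred p h5 hp100 h37 h59 h67 a b c h

end FA.Summary
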