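import Fermat.Agent.Regular.VandiverGeneric
import Fermat.Agent.Root.SummaryHerbrandRibetBelowHundred
import Fermat.Agent.Root.SummaryKummerFermat

/-!
# Fermat's Last Theorem below exponent one hundred, classically

* `vandiver_second_case`: for `p = 37, 59, 67` there is no solution of `a^p + b^p + c^p = 0` in pairwise
  coprime integers with `p ∣ c`, `c ≠ 0`.
* `fermat_prime_lt_hundred`: Fermat's Last Theorem for every odd prime exponent below one hundred.
* `fermat_classical_all_lt_hundred`: and for every exponent `3 ≤ n < 100`.
* `fermat_classical_of_dvd`: and for every `n` divisible by `4` or by an odd prime below one hundred.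

Kummer's proof at the regular primes and Sophie Germain's and Vandiver's at `37, 59, 67`, with finite
computations at `149, 827, 269`; no elliptic curves or modularity, and independent of S01.
-/

set_option autoImplicit false

open NumberField

namespace FA.Summary

theorem descentData_thirtySeven : FA.Regular.DescentData 37 32 149 2 (16 : ZMod 149) 7 where
  eight_le := by norm_num
  even := by decide
  two_le := by norm_num
  le := by norm_num
  regular i hev h2 hi hne hd := by
    have h := (irregular_pairs_lt_hundred 37 i (by norm_num) (by norm_num) hev h2 hi).mp hd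
    simp at h; omega
  base := by decide
  ne := by norm_num
  dvd := by norm_num
  root := FA.Regular.root_thirtySeven
  symbol := FA.Regular.residueSymbol_thirtySeven
  symbol_sq := FA.Regular.residueSymbol_thirtySeven_sq
  not_dvd := by norm_num
  single := FA.Regular.certSingle_thirtySeven
  double := FA.Regular.certDouble_thirtySeven

theorem descentData_fiftyNine : FA.Regular.DescentData 59 44 827 2 (671 : ZMod 827) 36 where
  eight_le := by norm_num
  even := by decide
  two_le := by norm_num
  le := by norm_num
  regular i hev h2 hi hne hd := by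
    have h := (irregular_pairs_lt_hundred 59 i (by norm_num) (by norm_num) hev h2 hi).mp hd
    simp at h; omega
  base := by decide
  ne := by norm_num
  dvd := by norm_num
  root := FA.Regular.root_fiftyNine_aux
  symbol := FA.Regular.residueSymbol_fiftyNine_aux
  symbol_sq := FA.Regular.residueSymbol_fiftyNine_sq
  not_dvd := by norm_num
  single := FA.Regular.certSingle_fiftyNine
  double := FA.Regular.certDouble_fiftyNine

theorem descentData_sixtySeven : FA.Regular.DescentData 67 58 269 2 (16 : ZMod 269) 39 where
  eight_le := by norm_num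
  even := by decide
  two_le := by norm_num
  le := by norm_num
  regular i hev h2 hi hne hd := by
    have h := (irregular_pairs_lt_hundred 67 i (by norm_num) (by norm_num) hev h2 hi).mp hd
    simp at h; omega
  base := by decide
  ne := by norm_num
  dvd := by norm_num
  root := FA.Regular.root_sixtySeven
  symbol := FA.Regular.residueSymbol_sixtySeven
  symbol_sq := FA.Regular.residueSymbol_sixtySeven_sq
  not_dvd := by norm_num
  single := FA.Regular.certSingle_sixtySeven
  double := FA.Regular.certDouble_sixtySeven

set_option backward.isDefEq.respectTransparency false in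
/-- **Vandiver's theorem**: the second case at `37`, `59` and `67`. -/
theorem vandiver_second_case (p : ℕ) [Fact p.Prime] (h : p = 37 ∨ p = 59 ∨ p = 67) (a b c : ℤ)
    (hc0 : c ≠ 0) (hab : IsCoprime a b) (hbc : IsCoprime b c) (hca : IsCoprime c a)
    (ha : ¬ (p : ℤ) ∣ a) (hb : ¬ (p : ℤ) ∣ b) (hc : (p : ℤ) ∣ c) :
    a ^ p + b ^ p + c ^ p ≠ 0 := by
  intro hsum
  have : NeZero p := ⟨(Fact.out : p.Prime).ne_zero⟩
  have hclass : ∀ C : ClassGroup (𝓞 (CyclotomicField p ℚ)), C ^ p = 1 →
      FA.Ext.sigmaCl p (CyclotomicField p ℚ) (-1) C = C → C = 1 := fun C hC hfix =>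
    vandiver_lt_hundred p (CyclotomicField p ℚ) (by omega) (by omega)
      (FA.Ext.sigmaK p (CyclotomicField p ℚ) (-1)) (MulEquiv.apply_symm_apply _ _) C hC hfix
  rcases h with rfl | rfl | rfl
  · have : Fact (Nat.Prime 149) := ⟨by norm_num⟩
    exact FA.Regular.second_case_of_descentData _ descentData_thirtySeven hclass _
      auxiliary_thirtySeven.1 auxiliary_thirtySeven.2.1 auxiliary_thirtySeven.2.2
      FA.Regular.certPowers_thirtySeven hc0 hsum hab hbc hca ha hb hc
  · have : Fact (Nat.Prime 827) := ⟨by norm_num⟩
    exact FA.Regular.second_case_of_descentData _ descentData_fiftyNine hclass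
      [0, 1, 20, 124, 270, 337, 389, 400, 427, 438, 490, 557, 703, 807, 826]
      auxiliary_powers_fiftyNine.1 auxiliary_powers_fiftyNine.2.1 auxiliary_powers_fiftyNine.2.2
      FA.Regular.certPowers_fiftyNine hc0 hsum hab hbc hca ha hb hc
  · have : Fact (Nat.Prime 269) := ⟨by norm_num⟩
    exact FA.Regular.second_case_of_descentData _ descentData_sixtySeven hclass _
      auxiliary_sixtySeven.1 auxiliary_sixtySeven.2.1 auxiliary_sixtySeven.2.2
      FA.Regular.certPowers_sixtySeven hc0 hsum hab hbc hca ha hb hc

/-- **Fermat's Last Theorem at `37`, `59` and `67`.** -/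
theorem fermat_irregular_lt_hundred (p : ℕ) [Fact p.Prime] (h : p = 37 ∨ p = 59 ∨ p = 67) :
    FermatLastTheoremFor p :=
  FA.Regular.fermat_of_cases p (by omega) (fermat_first_case_lt_hundred p (by omega))
    (vandiver_second_case p h)

/-- **Fermat's Last Theorem for every odd prime exponent below one hundred.** -/
theorem fermat_prime_lt_hundred (p : ℕ) (hp : p.Prime) (h3 : 3 ≤ p) (hp100 : p < 100) :
    FermatLastTheoremFor p := by
  have : Fact p.Prime := ⟨hp⟩
  by_cases h : p = 37 ∨ p = 59 ∨ p = 67
  · exact fermat_irregular_lt_hundred p h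
  rcases (show p = 3 ∨ p = 4 ∨ 5 ≤ p by omega) with rfl | rfl | h5
  · exact fermatLastTheoremThree
  · norm_num at hp
  · exact kummer_fermat_lt_hundred p h5 hp100 (by tauto) (by tauto) (by tauto)

/-- Fermat's Last Theorem for every exponent divisible by `4` or by an odd prime below one hundred. -/
theorem fermat_classical_of_dvd (n : ℕ)
    (h : 4 ∣ n ∨ ∃ p, p.Prime ∧ 3 ≤ p ∧ p < 100 ∧ p ∣ n) : FermatLastTheoremFor n := by
  rcases h with h | ⟨p, hp, h3, h100, h⟩
  · exact FermatLastTheoremFor.mono h fermatLastTheoremFour
  · exact FermatLastTheoremFor.mono h (fermat_prime_lt_hundred p hp h3 h100)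

/-- **Fermat's Last Theorem for all exponents `3 ≤ n < 100`**, classically. -/
theorem fermat_classical_all_lt_hundred (n : ℕ) (h3 : 3 ≤ n) (h100 : n < 100) :
    FermatLastTheoremFor n := by
  refine fermat_classical_of_dvd n ?_
  rcases Nat.four_dvd_or_exists_odd_prime_and_dvd_of_two_lt (show 2 < n by omega) with h | ⟨p, hp, hpn, hodd⟩
  · exact Or.inl h
  · refine Or.inr ⟨p, hp, ?_, ?_, hpn⟩
    · have := hp.two_le
      rw [Nat.odd_iff] at hodd
      omega
    · have := Nat.le_of_dvd (by omega) hpn
      omega

end FA.Summary
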