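import Fermat.Agent.Regular.KummerTableBelow157
import Fermat.Agent.Regular.VandiverCertificatesBelow157
import Fermat.Agent.Root.SummaryVandiverSecondCase

/-!
# Fermat's Last Theorem for exponents below `157`, classically

`157` is the least prime with two irregular indices.

* `irregular_pairs_lt_157`: the irregular pairs below `157`.
* `vandiver_lt_157`: the conjecture of Kummer and Vandiver for the primes below `157`.
* `fermat_classical_lt_157`: Fermat's Last Theorem for every exponent `3 ≤ n < 157`.
* `fermat_classical_of_dvd_lt_157`: and for every `n` divisible by `4` or by an odd prime below `157`.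

Kummer's proof at the regular primes, Sophie Germain's and Vandiver's at the seven irregular ones; no
elliptic curves or modularity, and independent of S01.
-/

set_option autoImplicit false

noncomputable section

open NumberField
open scoped nonZeroDivisors

namespace FA.Summary

/-- The irregular pairs below `157`. -/
theorem irregular_pairs_lt_157 (p k : ℕ) (hp : p.Prime) (h157 : p < 157) (hev : Even k) (hk : 2 ≤ k)
    (hkp : k ≤ p - 3) :
    (p : ℤ) ∣ (bernoulli k).num ↔
      (p, k) ∈ [(37, 32), (59, 44), (67, 58), (101, 68), (103, 24), (131, 22), (149, 130)] := by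
  by_cases h : p < 100
  · rw [irregular_pairs_lt_hundred p k hp h hev hk hkp]
    simp only [List.mem_cons, Prod.mk.injEq, List.not_mem_nil, or_false]
    omega
  · rw [FA.OrderTheta.irregular_pairs_high p k hp (by omega) h157 hev hk hkp]
    simp only [List.mem_cons, Prod.mk.injEq, List.not_mem_nil, or_false]
    omega

theorem descentData_oneHundredOne : FA.Regular.DescentData 101 68 809 2 (256 : ZMod 809) 52 where
  eight_le := by norm_num
  even := by decide
  two_le := by norm_num
  le := by norm_num
  regular i hev h2 hi hne hd := by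
    have h := (irregular_pairs_lt_157 101 i (by norm_num) (by norm_num) hev h2 hi).mp hd
    simp at h; omega
  base := by decide
  ne := by norm_num
  dvd := by norm_num
  root := FA.Regular.root_oneHundredOne
  symbol := FA.Regular.residueSymbol_oneHundredOne
  symbol_sq := FA.Regular.residueSymbol_oneHundredOne_sq
  not_dvd := by norm_num
  single := FA.Regular.certSingle_oneHundredOne
  double := FA.Regular.certDouble_oneHundredOne

theorem descentData_oneHundredThree : FA.Regular.DescentData 103 24 1031 2 (1024 : ZMod 1031) 61 where
  eight_le := by norm_num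
  even := by decide
  two_le := by norm_num
  le := by norm_num
  regular i hev h2 hi hne hd := by
    have h := (irregular_pairs_lt_157 103 i (by norm_num) (by norm_num) hev h2 hi).mp hd
    simp at h; omega
  base := by decide
  ne := by norm_num
  dvd := by norm_num
  root := FA.Regular.root_oneHundredThree
  symbol := FA.Regular.residueSymbol_oneHundredThree
  symbol_sq := FA.Regular.residueSymbol_oneHundredThree_sq
  not_dvd := by norm_num
  single := FA.Regular.certSingle_oneHundredThree
  double := FA.Regular.certDouble_oneHundredThree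

theorem descentData_oneHundredThirtyOne : FA.Regular.DescentData 131 22 1049 2 (256 : ZMod 1049) 77 where
  eight_le := by norm_num
  even := by decide
  two_le := by norm_num
  le := by norm_num
  regular i hev h2 hi hne hd := by
    have h := (irregular_pairs_lt_157 131 i (by norm_num) (by norm_num) hev h2 hi).mp hd
    simp at h; omega
  base := by decide
  ne := by norm_num
  dvd := by norm_num
  root := FA.Regular.root_oneHundredThirtyOne
  symbol := FA.Regular.residueSymbol_oneHundredThirtyOne
  symbol_sq := FA.Regular.residueSymbol_oneHundredThirtyOne_sq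
  not_dvd := by norm_num
  single := FA.Regular.certSingle_oneHundredThirtyOne
  double := FA.Regular.certDouble_oneHundredThirtyOne

theorem descentData_oneHundredFortyNine : FA.Regular.DescentData 149 130 1193 2 (256 : ZMod 1193) 45 where
  eight_le := by norm_num
  even := by decide
  two_le := by norm_num
  le := by norm_num
  regular i hev h2 hi hne hd := by
    have h := (irregular_pairs_lt_157 149 i (by norm_num) (by norm_num) hev h2 hi).mp hd
    simp at h; omega
  base := by decide
  ne := by norm_num
  dvd := by norm_num
  root := FA.Regular.root_oneHundredFortyNine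
  symbol := FA.Regular.residueSymbol_oneHundredFortyNine
  symbol_sq := FA.Regular.residueSymbol_oneHundredFortyNine_sq
  not_dvd := by norm_num
  single := FA.Regular.certSingle_oneHundredFortyNine
  double := FA.Regular.certDouble_oneHundredFortyNine

/-- Above one hundred a prime below `157` is regular or one of four. -/
theorem regular_of_ne (p : ℕ) (hp : p.Prime) (h157 : p < 157) (h100 : 100 ≤ p) (h1 : p ≠ 101)
    (h2 : p ≠ 103) (h3 : p ≠ 131) (h4 : p ≠ 149) (k : ℕ) (hev : Even k) (hk : 2 ≤ k) (hkp : k ≤ p - 3) :
    ¬ (p : ℤ) ∣ (bernoulli k).num := fun hd => by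
  have h := (irregular_pairs_lt_157 p k hp h157 hev hk hkp).mp hd
  simp only [List.mem_cons, Prod.mk.injEq, List.not_mem_nil, or_false] at h
  omega

/-- **The conjecture of Kummer and Vandiver below `157`.** -/
theorem vandiver_lt_157 (p : ℕ) [Fact p.Prime] (K : Type*) [Field K] [NumberField K]
    [IsCyclotomicExtension {p} ℚ K] (hp5 : 5 ≤ p) (h157 : p < 157) (c : K ≃ₐ[ℚ] K)
    (hc : IsCyclotomicExtension.Rat.galEquivZMod p K c = -1) (x : ClassGroup (𝓞 K)) (hx : x ^ p = 1)
    (hfix : ClassGroup.mulEquiv (RingOfIntegers.mapRingEquiv c.toRingEquiv) x = x) : x = 1 := by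
  by_cases h : p < 100
  · exact vandiver_lt_hundred p K hp5 h c hc x hx hfix
  have hconj : FA.Ext.sigmaCl p K (-1) x = x := by
    have e : FA.Ext.sigmaK p K (-1) = c := by
      rw [← hc]; exact MulEquiv.symm_apply_apply _ c
    conv_rhs => rw [← hfix, ← e]
    rfl
  rcases (show p = 101 ∨ p = 103 ∨ p = 131 ∨ p = 149 ∨
      (p ≠ 101 ∧ p ≠ 103 ∧ p ≠ 131 ∧ p ≠ 149) by omega) with rfl | rfl | rfl | rfl | ⟨h1, h2, h3, h4⟩
  · have : Fact (Nat.Prime 809) := ⟨by norm_num⟩
    exact FA.Regular.vandiver_of_descentData K descentData_oneHundredOne x hx hconj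
  · have : Fact (Nat.Prime 1031) := ⟨by norm_num⟩
    exact FA.Regular.vandiver_of_descentData K descentData_oneHundredThree x hx hconj
  · have : Fact (Nat.Prime 1049) := ⟨by norm_num⟩
    exact FA.Regular.vandiver_of_descentData K descentData_oneHundredThirtyOne x hx hconj
  · have : Fact (Nat.Prime 1193) := ⟨by norm_num⟩
    exact FA.Regular.vandiver_of_descentData K descentData_oneHundredFortyNine x hx hconj
  · exact FA.Regular.torsion_trivial_of_regular p K hp5
      (regular_of_ne p Fact.out h157 (by omega) h1 h2 h3 h4) hx

/-- **Fermat's Last Theorem for every odd prime exponent below `157`.** -/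
theorem fermat_prime_lt_157 (p : ℕ) (hp : p.Prime) (h3 : 3 ≤ p) (h157 : p < 157) :
    FermatLastTheoremFor p := by
  by_cases h : p < 100
  · exact fermat_prime_lt_hundred p hp h3 h
  have : Fact p.Prime := ⟨hp⟩
  rcases (show p = 101 ∨ p = 103 ∨ p = 131 ∨ p = 149 ∨
      (p ≠ 101 ∧ p ≠ 103 ∧ p ≠ 131 ∧ p ≠ 149) by omega) with rfl | rfl | rfl | rfl | ⟨h1, h2, h3', h4⟩
  · have : Fact (Nat.Prime 809) := ⟨by norm_num⟩
    exact FA.Regular.fermat_of_descentData descentData_oneHundredOne FA.Regular.auxPowers_oneHundredOne
  · have : Fact (Nat.Prime 1031) := ⟨by norm_num⟩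
    exact FA.Regular.fermat_of_descentData descentData_oneHundredThree FA.Regular.auxPowers_oneHundredThree
  · have : Fact (Nat.Prime 1049) := ⟨by norm_num⟩
    exact FA.Regular.fermat_of_descentData descentData_oneHundredThirtyOne FA.Regular.auxPowers_oneHundredThirtyOne
  · have : Fact (Nat.Prime 1193) := ⟨by norm_num⟩
    exact FA.Regular.fermat_of_descentData descentData_oneHundredFortyNine FA.Regular.auxPowers_oneHundredFortyNine
  · exact fermatLastTheoremFor_iff_int.mpr fun a b c =>
      kummer_fermat p (by omega) (regular_of_ne p hp h157 (by omega) h1 h2 h3' h4) a b c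

/-- Fermat's Last Theorem for every exponent divisible by `4` or by an odd prime below `157`. -/
theorem fermat_classical_of_dvd_lt_157 (n : ℕ)
    (h : 4 ∣ n ∨ ∃ p, p.Prime ∧ 3 ≤ p ∧ p < 157 ∧ p ∣ n) : FermatLastTheoremFor n := by
  rcases h with h | ⟨p, hp, h3, h157, h⟩
  · exact FermatLastTheoremFor.mono h fermatLastTheoremFour
  · exact FermatLastTheoremFor.mono h (fermat_prime_lt_157 p hp h3 h157)

/-- **Fermat's Last Theorem for all exponents `3 ≤ n < 157`**, classically. -/
theorem fermat_classical_lt_157 (n : ℕ) (h3 : 3 ≤ n) (h157 : n < 157) : FermatLastTheoremFor n := by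
  refine fermat_classical_of_dvd_lt_157 n ?_
  rcases Nat.four_dvd_or_exists_odd_prime_and_dvd_of_two_lt (show 2 < n by omega) with
    h | ⟨p, hp, hpn, hodd⟩
  · exact Or.inl h
  · refine Or.inr ⟨p, hp, ?_, ?_, hpn⟩
    · have := hp.two_le
      rw [Nat.odd_iff] at hodd
      omega
    · have := Nat.le_of_dvd (by omega) hpn
      omega

end FA.Summary
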