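import Fermat.Agent.Regular.CyclotomicUnitIndex
import Fermat.Agent.Root.SummaryFermatBelow157

/-!
# The index of the cyclotomic units and Kummer's lemma at irregular primes

* `cyclotomicUnits_index_of_regular`, `cyclotomicUnits_index_lt_157`: for a Bernoulli regular `p ≥ 5` and
  for every prime `5 ≤ p < 157` the cyclotomic units of `ℚ(ζ_p)` have finite index prime to `p`.
* `exists_eq_cyclotomicUnit_mul_pow_lt_157`: so every unit is a cyclotomic unit times a `p`-th power.
* `kummer_lemma_residue`: where one index is irregular, with `DescentData` at `q`: a unit congruent to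
  an integer modulo `p` is a `p`-th power iff it is a `p`-th power residue at a prime above `q`; this
  applies to `p = 37, 59, 67, 101, 103, 131, 149` (`descentData_thirtySeven`, …).

Classical; independent of S01.
-/

set_option autoImplicit false

noncomputable section

open NumberField

namespace FA.Summary

variable (p : ℕ) [Fact p.Prime] (K : Type*) [Field K] [NumberField K]
  [IsCyclotomicExtension {p} ℚ K]

/-- At a regular index some projected cyclotomic unit is no root of unity times a `p`-th power. -/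
theorem exists_cycU_good_of_regular_index (hp5 : 5 ≤ p) {i : ℕ} (hev : Even i) (h2 : 2 ≤ i)
    (hip : i ≤ p - 3) (hB : ¬ (p : ℤ) ∣ (bernoulli i).num) :
    ∃ (a : ℕ) (ha : (a : ZMod p) ≠ 0), ∀ t w : (𝓞 K)ˣ, t ∈ Units.torsion K →
      FA.Regular.unitProj p K i (FA.Regular.cycU p K ha) ≠ t * w ^ p := by
  obtain ⟨j, rfl⟩ : ∃ j, i = j + 2 := ⟨i - 2, by omega⟩
  have hodd := (Fact.out : p.Prime).eq_two_or_odd
  rw [Nat.even_iff] at hev
  obtain ⟨a, ha, hL⟩ := FA.Regular.exists_cycU_logDer_ne_zero p K hp5 (j := j) (by omega)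
    (Nat.even_iff.mpr (by omega)) hB
  exact ⟨a, ha, fun t w ht he => hL (by
    rw [he]; exact FA.Regular.logDer_torsion_mul_pow p K (by omega) ht w)⟩

/-- **The index of the cyclotomic units at a regular prime.** -/
theorem cyclotomicUnits_index_of_regular (hp5 : 5 ≤ p)
    (hreg : ∀ k, Even k → 2 ≤ k → k ≤ p - 3 → ¬ (p : ℤ) ∣ (bernoulli k).num) :
    (FA.Regular.cycloUnits p K).FiniteIndex ∧ ¬ p ∣ (FA.Regular.cycloUnits p K).index :=
  FA.Regular.cycloUnits_index p K hp5 fun i hev h2 hip =>
    exists_cycU_good_of_regular_index p K hp5 hev h2 hip (hreg i hev h2 hip)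

variable {p} in
/-- The same from `DescentData`. -/
theorem exists_cycU_good_of_descentData {k q a t : ℕ} {r : ZMod q} [Fact q.Prime]
    (D : FA.Regular.DescentData p k q a r t) {i : ℕ} (hev : Even i) (h2 : 2 ≤ i) (hip : i ≤ p - 3) :
    ∃ (a : ℕ) (ha : (a : ZMod p) ≠ 0), ∀ t w : (𝓞 K)ˣ, t ∈ Units.torsion K →
      FA.Regular.unitProj p K i (FA.Regular.cycU p K ha) ≠ t * w ^ p := by
  have h8 := D.eight_le
  by_cases hik : i = k
  · subst hik
    exact ⟨a, D.base, FA.Regular.ne_torsion_mul_pow_of_not_pow p K (by omega) h2 hip D.base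
      (FA.Regular.not_pow_of_residueSymbol p K (by omega) D.root D.dvd D.base D.symbol)⟩
  · exact exists_cycU_good_of_regular_index p K (by omega) hev h2 hip (D.regular i hev h2 hip hik)

/-- At every prime below `157` each even weight has a good cyclotomic unit. -/
theorem exists_cycU_good_lt_157 (hp5 : 5 ≤ p) (h157 : p < 157) {i : ℕ} (hev : Even i) (h2 : 2 ≤ i)
    (hip : i ≤ p - 3) : ∃ (a : ℕ) (ha : (a : ZMod p) ≠ 0), ∀ t w : (𝓞 K)ˣ, t ∈ Units.torsion K →
      FA.Regular.unitProj p K i (FA.Regular.cycU p K ha) ≠ t * w ^ p := by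
  by_cases hB : (p : ℤ) ∣ (bernoulli i).num
  · have h := (irregular_pairs_lt_157 p i Fact.out h157 hev h2 hip).mp hB
    simp only [List.mem_cons, Prod.mk.injEq, List.not_mem_nil, or_false] at h
    rcases h with ⟨rfl, -⟩ | ⟨rfl, -⟩ | ⟨rfl, -⟩ | ⟨rfl, -⟩ | ⟨rfl, -⟩ | ⟨rfl, -⟩ | ⟨rfl, -⟩
    · have : Fact (Nat.Prime 149) := ⟨by norm_num⟩
      exact exists_cycU_good_of_descentData K descentData_thirtySeven hev h2 hip
    · have : Fact (Nat.Prime 827) := ⟨by norm_num⟩
      exact exists_cycU_good_of_descentData K descentData_fiftyNine hev h2 hip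
    · have : Fact (Nat.Prime 269) := ⟨by norm_num⟩
      exact exists_cycU_good_of_descentData K descentData_sixtySeven hev h2 hip
    · have : Fact (Nat.Prime 809) := ⟨by norm_num⟩
      exact exists_cycU_good_of_descentData K descentData_oneHundredOne hev h2 hip
    · have : Fact (Nat.Prime 1031) := ⟨by norm_num⟩
      exact exists_cycU_good_of_descentData K descentData_oneHundredThree hev h2 hip
    · have : Fact (Nat.Prime 1049) := ⟨by norm_num⟩
      exact exists_cycU_good_of_descentData K descentData_oneHundredThirtyOne hev h2 hip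
    · have : Fact (Nat.Prime 1193) := ⟨by norm_num⟩
      exact exists_cycU_good_of_descentData K descentData_oneHundredFortyNine hev h2 hip
  · exact exists_cycU_good_of_regular_index p K hp5 hev h2 hip hB

/-- **The index of the cyclotomic units below `157`**: finite and prime to `p`. -/
theorem cyclotomicUnits_index_lt_157 (hp5 : 5 ≤ p) (h157 : p < 157) :
    (FA.Regular.cycloUnits p K).FiniteIndex ∧ ¬ p ∣ (FA.Regular.cycloUnits p K).index :=
  FA.Regular.cycloUnits_index p K hp5 fun _ hev h2 hip =>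
    exists_cycU_good_lt_157 p K hp5 h157 hev h2 hip

/-- Every unit is a cyclotomic unit times a `p`-th power, `p < 157`. -/
theorem exists_eq_cyclotomicUnit_mul_pow_lt_157 (hp5 : 5 ≤ p) (h157 : p < 157) (u : (𝓞 K)ˣ) :
    ∃ c ∈ FA.Regular.cycloUnits p K, ∃ w : (𝓞 K)ˣ, u = c * w ^ p :=
  FA.Regular.exists_eq_cyclo_mul_pow p K hp5
    (fun _ hev h2 hip => exists_cycU_good_lt_157 p K hp5 h157 hev h2 hip) u

variable {p} in
/-- **Kummer's lemma at an irregular prime**: the residue at `q` decides. -/
theorem kummer_lemma_residue {k q a t : ℕ} {r : ZMod q} [Fact q.Prime]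
    (D : FA.Regular.DescentData p k q a r t) (u : (𝓞 K)ˣ)
    (hu : ∃ n : ℤ, (p : 𝓞 K) ∣ (u : 𝓞 K) - (n : 𝓞 K)) :
    (∃ v : (𝓞 K)ˣ, v ^ p = u) ↔
      FA.Regular.residueHom p K D.root (u : 𝓞 K) ^ ((q - 1) / p) = 1 := by
  have hp : p.Prime := Fact.out
  have h8 := D.eight_le
  have hle := D.le
  set f := FA.Regular.residueHom p K D.root
  have hpow : ∀ w : (𝓞 K)ˣ, (f (w : 𝓞 K) ^ p) ^ ((q - 1) / p) = 1 := fun w => by
    rw [← pow_mul, Nat.mul_div_cancel' D.dvd]
    exact ZMod.pow_card_sub_one_eq_one ((Units.isUnit w).map _).ne_zero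
  constructor
  · rintro ⟨v, rfl⟩
    rw [Units.val_pow_eq_pow_val, map_pow, hpow]
  · intro h
    obtain ⟨n, hn⟩ := hu
    obtain ⟨x, v, rfl⟩ := FA.Regular.exists_eq_pow_mul_pow_of_congr p K (by omega) D.even D.two_le
      D.le D.regular D.base
      (FA.Regular.not_pow_of_residueSymbol p K (by omega) D.root D.dvd D.base D.symbol) hn
    rw [Units.val_mul, Units.val_pow_eq_pow_val, Units.val_pow_eq_pow_val, map_mul, map_pow, map_pow,
      mul_pow, hpow, mul_one, pow_right_comm, FA.Regular.residueHom_unitProj p K (by omega) D.root D.base]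
      at h
    have hord : orderOf (FA.Regular.residueSymbol p k q r a) = p := by
      refine orderOf_eq_prime ?_ D.symbol
      rw [← FA.Regular.residueHom_unitProj p K (by omega) D.root D.base, pow_right_comm, hpow]
    obtain ⟨x', rfl⟩ := hord ▸ orderOf_dvd_iff_pow_eq_one.mpr h
    exact ⟨FA.Regular.unitProj p K k (FA.Regular.cycU p K D.base) ^ x' * v, by
      rw [mul_pow, ← pow_mul, mul_comm x' p]⟩

end FA.Summary
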