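import Fermat.Agent.CycloIndex.Main
import Fermat.Agent.Root.SummaryCyclotomicUnitIndex

/-!
# Kummer's index theorem for `ℚ(ζ_p)`

* `kummer_index`: the cyclotomic units have index exactly `h(ℚ(ζ_p)⁺)` in the unit group.
* `discr_realSubfield`, `indexRealUnits_cyclotomic`: `|d⁺| = p^((p-3)/2)`, every unit is real times a root of unity.
* `dvd_classNumber_real_iff`, `not_dvd_classNumber_real_lt_157`: so `q ∣ h⁺` iff `q ∣ [E : C]`, and for
  `5 ≤ p < 157` Vandiver's `p ∤ h⁺` follows from the index.

Classical (group determinant, `L(1, χ)`, class number formula); independent of S01.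
-/

set_option autoImplicit false

noncomputable section

open NumberField

namespace FA.Summary

variable (p : ℕ) [Fact p.Prime] (K : Type*) [Field K] [NumberField K] [IsCyclotomicExtension {p} ℚ K]

/-- **Kummer's index theorem**: `[E : C] = h⁺`. -/
theorem kummer_index (hp5 : 5 ≤ p) :
    (FA.Regular.cycloUnits p K).index = classNumber (maximalRealSubfield K) :=
  FA.CycloIndex.index_cycloUnits K hp5

/-- The discriminant of the real subfield. -/
theorem discr_realSubfield [IsCMField K] (h3 : 3 ≤ p) :
    (discr (maximalRealSubfield K)).natAbs = p ^ ((p - 3) / 2) :=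
  FA.CycloIndex.natAbs_discr_real p K h3

/-- Every unit is a real unit times a root of unity. -/
theorem indexRealUnits_cyclotomic [IsCMField K] (h3 : 3 ≤ p) : IsCMField.indexRealUnits K = 1 :=
  FA.CycloIndex.indexRealUnits_eq_one p K h3

/-- `q ∣ h⁺` iff `q ∣ [E : C]`. -/
theorem dvd_classNumber_real_iff (hp5 : 5 ≤ p) (q : ℕ) :
    q ∣ classNumber (maximalRealSubfield K) ↔ q ∣ (FA.Regular.cycloUnits p K).index := by
  rw [kummer_index p K hp5]

/-- Vandiver's conjecture below `157`, from the index. -/
theorem not_dvd_classNumber_real_lt_157 (hp5 : 5 ≤ p) (h157 : p < 157) :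
    ¬ p ∣ classNumber (maximalRealSubfield K) := fun h =>
  (cyclotomicUnits_index_lt_157 p K hp5 h157).2 ((dvd_classNumber_real_iff p K hp5 p).mp h)

end FA.Summary
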