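import Fermat.Agent.CycloTower.Main
import Fermat.Agent.Root.SummaryCyclotomicUnitIndex
import Fermat.Agent.Root.SummaryKummerCriterionIff

/-!
# Iwasawa's theorem on the cyclotomic tower of a regular prime

* `iwasawa_regular`: if `p ≥ 5` is regular then `p` divides the class number of no `ℚ(ζ_(p^(n+1)))`.
* `iwasawa_regular_units`: and every unit there is, up to a `p`-th power, a product of `-1`, roots of unity and
  the quotients `(ζ^a - 1)/(ζ - 1)`.
* `iwasawa_regular_lt_hundred`: so for `5 ≤ p < 100` other than `37, 59, 67`, unconditionally.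

Classical (1956), here without class field theory; independent of S01.
-/

set_option autoImplicit false

noncomputable section

open NumberField

namespace FA.Summary

variable {p : ℕ} [Fact p.Prime]

/-- The units and classes at level one. -/
theorem tower_base (hp5 : 5 ≤ p) (hreg : ∀ k, Even k → 2 ≤ k → k ≤ p - 3 → ¬ (p : ℤ) ∣ (bernoulli k).num)
    (K : Type) [Field K] [NumberField K] [IsCyclotomicExtension {p} ℚ K] :
    ¬ p ∣ classNumber K ∧ ∀ u : (𝓞 K)ˣ, ∃ c ∈ FA.Regular.cycloUnits p K, ∃ w : (𝓞 K)ˣ, u = c * w ^ p :=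
  ⟨kummer_criterion p K hp5 hreg, fun u => FA.Regular.exists_eq_cyclo_mul_pow p K hp5
    (fun _ hev h2 hip => exists_cycU_good_of_regular_index p K hp5 hev h2 hip (hreg _ hev h2 hip)) u⟩

/-- **The units of the tower**. -/
theorem iwasawa_regular_units (hp5 : 5 ≤ p)
    (hreg : ∀ k, Even k → 2 ≤ k → k ≤ p - 3 → ¬ (p : ℤ) ∣ (bernoulli k).num) (n : ℕ) (K : Type) [Field K]
    [NumberField K] [IsCyclotomicExtension {p ^ (n + 1)} ℚ K] {ζ : 𝓞 K} (hζ : IsPrimitiveRoot ζ (p ^ (n + 1)))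
    (u : (𝓞 K)ˣ) : ∃ s ∈ FA.CycloTower.levelUnits p ζ, ∃ v : (𝓞 K)ˣ, u = s * v ^ p :=
  (FA.CycloTower.levelGood_all hp5 (fun K _ _ _ => tower_base hp5 hreg K) n K).2 ζ hζ u

set_option backward.isDefEq.respectTransparency false in
/-- **Iwasawa's theorem**. -/
theorem iwasawa_regular (hp5 : 5 ≤ p) (hreg : ∀ k, Even k → 2 ≤ k → k ≤ p - 3 → ¬ (p : ℤ) ∣ (bernoulli k).num)
    (n : ℕ) (K : Type*) [Field K] [NumberField K] [IsCyclotomicExtension {p ^ (n + 1)} ℚ K] :
    ¬ p ∣ classNumber K := by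
  have : NeZero (p ^ (n + 1)) := ⟨pow_ne_zero _ (Fact.out : p.Prime).ne_zero⟩
  have h := (FA.CycloTower.levelGood_all hp5 (fun K _ _ _ => tower_base hp5 hreg K) n
    (CyclotomicField (p ^ (n + 1)) ℚ)).1
  let e := IsCyclotomicExtension.algEquiv {p ^ (n + 1)} ℚ K (CyclotomicField (p ^ (n + 1)) ℚ)
  rwa [classNumber, Fintype.card_congr (ClassGroup.mulEquiv (RingOfIntegers.mapRingEquiv e.toRingEquiv)).toEquiv]

set_option backward.isDefEq.respectTransparency false in
/-- The same from the class number of `ℚ(ζ_p)`. -/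
theorem iwasawa_regular_classNumber (hp5 : 5 ≤ p) (hreg : ¬ p ∣ classNumber (CyclotomicField p ℚ)) (n : ℕ)
    (K : Type*) [Field K] [NumberField K] [IsCyclotomicExtension {p ^ (n + 1)} ℚ K] : ¬ p ∣ classNumber K :=
  have : NeZero p := ⟨(Fact.out : p.Prime).ne_zero⟩
  iwasawa_regular hp5 (fun k hev hk hkp hB =>
    hreg ((kummer_criterion_iff p (CyclotomicField p ℚ) hp5).mpr ⟨k, hev, hk, hkp, hB⟩)) n K

/-- Unconditionally below one hundred. -/
theorem iwasawa_regular_lt_hundred (hp5 : 5 ≤ p) (hp100 : p < 100) (h37 : p ≠ 37) (h59 : p ≠ 59) (h67 : p ≠ 67)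
    (n : ℕ) (K : Type*) [Field K] [NumberField K] [IsCyclotomicExtension {p ^ (n + 1)} ℚ K] :
    ¬ p ∣ classNumber K :=
  iwasawa_regular hp5 (fun k hev hk hkp hd => by
    rcases (irregular_primes_lt_hundred p Fact.out hp100).mp ⟨k, hev, hk, hkp, hd⟩ with e | e | e <;> omega) n K

end FA.Summary
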