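import Fermat.Agent.CycloTower.WeberStep
import Fermat.Agent.CycloTower.WeberReal
import Fermat.Agent.Root.SummaryIwasawaRegular

/-!
# Weber's theorem, and Iwasawa's for every regular prime

* `weber_classNumber_odd`: for `m ≥ 2` the class number of `ℚ(ζ_(2^m))` is odd.
* `weber_classNumber_real_odd`: and so is that of its maximal real subfield.
* `weber_units`: every unit of `ℚ(ζ_(2^m))` is a product of `-1`, powers of `ζ`, quotients `(ζ^a - 1)/(ζ - 1)`
  with `a` odd, and a square.
* `iwasawa_three`: `3` divides the class number of no `ℚ(ζ_(3^(n+1)))`.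
* `iwasawa_every_regular`: for every prime `p` not dividing the class number of `ℚ(ζ_p)`, the small primes
  included, `p` divides the class number of no `ℚ(ζ_(p^(n+1)))`.

Classical (Weber 1886, Iwasawa 1956), here without class field theory; independent of S01.
-/

set_option autoImplicit false

noncomputable section

open NumberField

namespace FA.Summary

set_option backward.isDefEq.respectTransparency false in
/-- Isomorphic cyclotomic fields have the same class number. -/
theorem classNumber_cyclotomicField (m : ℕ) [NeZero m] (K : Type*) [Field K] [NumberField K]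
    [IsCyclotomicExtension {m} ℚ K] : classNumber K = classNumber (CyclotomicField m ℚ) := by
  let e := IsCyclotomicExtension.algEquiv {m} ℚ K (CyclotomicField m ℚ)
  rw [classNumber, classNumber,
    Fintype.card_congr (ClassGroup.mulEquiv (RingOfIntegers.mapRingEquiv e.toRingEquiv)).toEquiv]

set_option backward.isDefEq.respectTransparency false in
/-- **Weber's theorem**. -/
theorem weber_classNumber_odd (n : ℕ) (K : Type*) [Field K] [NumberField K]
    [IsCyclotomicExtension {2 ^ (n + 2)} ℚ K] : Odd (classNumber K) := by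
  have : Fact (Nat.Prime 2) := ⟨Nat.prime_two⟩
  have : NeZero (2 ^ (n + 1 + 1)) := ⟨pow_ne_zero _ two_ne_zero⟩
  rw [classNumber_cyclotomicField (2 ^ (n + 1 + 1)) K, Nat.odd_iff]
  exact Nat.two_dvd_ne_zero.mp (FA.CycloTower.levelGood_two_all n (CyclotomicField (2 ^ (n + 1 + 1)) ℚ)).1

/-- **Weber's theorem for the real subfield**. -/
theorem weber_classNumber_real_odd (n : ℕ) (K : Type*) [Field K] [NumberField K]
    [IsCyclotomicExtension {2 ^ (n + 2)} ℚ K] : Odd (classNumber (maximalRealSubfield K)) := by
  have : IsCMField K := IsCyclotomicExtension.Rat.isCMField K (S := {2 ^ (n + 2)})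
    ⟨_, rfl, lt_of_lt_of_le (by norm_num) (Nat.pow_le_pow_right two_pos (Nat.le_add_left 2 n))⟩
  rw [Nat.odd_iff]
  exact Nat.two_dvd_ne_zero.mp (FA.CycloTower.not_two_dvd_classNumber_real (n := n)
    (fun h => Nat.not_even_iff_odd.mpr (weber_classNumber_odd n K) (even_iff_two_dvd.mpr h)))

/-- **The units**. -/
theorem weber_units (n : ℕ) (K : Type) [Field K] [NumberField K] [IsCyclotomicExtension {2 ^ (n + 2)} ℚ K]
    {ζ : 𝓞 K} (hζ : IsPrimitiveRoot ζ (2 ^ (n + 2))) (u : (𝓞 K)ˣ) :
    ∃ s ∈ FA.CycloTower.levelUnits 2 ζ, ∃ v : (𝓞 K)ˣ, u = s * v ^ 2 :=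
  have : IsCyclotomicExtension {2 ^ (n + 1 + 1)} ℚ K := ‹_›
  (FA.CycloTower.levelGood_two_all n K).2 ζ hζ u

set_option backward.isDefEq.respectTransparency false in
/-- **The tower of `ℚ(ζ_3)`**. -/
theorem iwasawa_three (n : ℕ) (K : Type*) [Field K] [NumberField K] [IsCyclotomicExtension {3 ^ (n + 1)} ℚ K] :
    ¬ 3 ∣ classNumber K := by
  have : Fact (Nat.Prime 3) := ⟨Nat.prime_three⟩
  have : NeZero (3 ^ (n + 1)) := ⟨pow_ne_zero _ three_ne_zero⟩
  rw [classNumber_cyclotomicField (3 ^ (n + 1)) K]
  exact (FA.CycloTower.levelGood_three_all n (CyclotomicField (3 ^ (n + 1)) ℚ)).1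

set_option backward.isDefEq.respectTransparency false in
/-- **Iwasawa's theorem for every regular prime**. -/
theorem iwasawa_every_regular {p : ℕ} [hp : Fact p.Prime] (hreg : ¬ p ∣ classNumber (CyclotomicField p ℚ)) (n : ℕ)
    (K : Type*) [Field K] [NumberField K] [IsCyclotomicExtension {p ^ (n + 1)} ℚ K] : ¬ p ∣ classNumber K := by
  have : NeZero p := ⟨hp.out.ne_zero⟩
  by_cases h5 : 5 ≤ p
  · exact iwasawa_regular_classNumber h5 hreg n K
  have hcases : p = 2 ∨ p = 3 := by
    have h1 := hp.out.two_le
    by_contra h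
    have : p = 4 := by omega
    exact absurd (this ▸ hp.out) (by decide)
  rcases hcases with rfl | rfl
  · cases n with
    | zero =>
      have : IsCyclotomicExtension {2} ℚ K := by
        simpa using (inferInstance : IsCyclotomicExtension {2 ^ (0 + 1)} ℚ K)
      rwa [classNumber_cyclotomicField 2 K]
    | succ n =>
      intro h
      exact Nat.not_even_iff_odd.mpr (weber_classNumber_odd n K) (even_iff_two_dvd.mpr h)
  · exact iwasawa_three n K

end FA.Summary
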