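import Fermat.Agent.RT.Tate.Good
import Fermat.Agent.HasseBound.Extensions
import Fermat.Agent.Root.SummaryTorsion
import Fermat.Agent.Root.SummaryAbelianTorsion

/-!
# Torsion over number fields

Every elliptic curve over `ℚ` has only finitely many torsion points over a number field `K`: at a
good prime `q` a power `σ ^ f` of a Frobenius element fixes `K`, and on every `l`-adic Tate module,
`l ≠ q`, the determinant of `σ ^ f - 1` is the nonzero number of points over the field with `q ^ f`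
elements, which therefore kills the fixed points of `l`-power order.
-/

set_option autoImplicit false
set_option linter.style.haveILetI false

noncomputable section

open Matrix WeierstrassCurve WeierstrassCurve.Affine FA.EC FA.Frob FA.RT FA.RT.Tate FA.HasseBound
open scoped WeierstrassCurve.Affine Nat

local notation "Qb" => AlgebraicClosure ℚ
local notation "GQ" => AlgebraicClosure ℚ ≃ₐ[ℚ] AlgebraicClosure ℚ
local notation "M2" => Matrix (Fin 2) (Fin 2)

namespace FA.TorsionNumberField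

/-- The traces of the powers of a matrix follow the recursion of the point counts. -/
theorem trace_pow {R : Type*} [CommRing R] (M : M2 R) {t d : ℤ} (ht : M.trace = (t : R))
    (hd : M.det = (d : R)) : ∀ j, (M ^ j).trace = (pointTrace t d j : R)
  | 0 => by simp [pointTrace]
  | 1 => by simp [pointTrace, ht]
  | j + 2 => by
    have h2 : M * M = M.trace • M - M.det • (1 : M2 R) := by
      ext i k
      fin_cases i <;> fin_cases k <;>
        simp [Matrix.mul_apply, Fin.sum_univ_two, det_fin_two, trace_fin_two] <;> ring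
    rw [show M ^ (j + 2) = M ^ j * (M * M) by rw [← pow_two, ← pow_add], h2, mul_sub,
      mul_smul_comm, mul_smul_comm, mul_one, ← pow_succ, trace_sub, trace_smul, trace_smul,
      trace_pow M ht hd (j + 1), trace_pow M ht hd j, ht, hd, pointTrace]
    simp only [smul_eq_mul]
    push_cast
    ring

/-- The determinant of `M ^ j - 1` is the number of points of the extension of degree `j`. -/
theorem det_pow_sub_one {R : Type*} [CommRing R] (M : M2 R) {t d : ℤ} (ht : M.trace = (t : R))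
    (hd : M.det = (d : R)) (j : ℕ) :
    (M ^ j - 1).det = ((d ^ j + 1 - pointTrace t d j : ℤ) : R) := by
  have h := trace_pow M ht hd j
  have h' : (M ^ j).det = (d : R) ^ j := by rw [det_pow, hd]
  rw [det_fin_two] at h' ⊢
  rw [trace_fin_two] at h
  simp only [Matrix.sub_apply, Matrix.one_apply_eq,
    Matrix.one_apply_ne (show (0 : Fin 2) ≠ 1 by decide),
    Matrix.one_apply_ne (show (1 : Fin 2) ≠ 0 by decide), sub_zero]
  push_cast
  linear_combination h' - h

/-- That number is not zero. -/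
theorem pointTrace_ne {t : ℤ} {q : ℕ} (ht : t ^ 2 ≤ 4 * (q : ℤ)) (hq : 1 < q) {j : ℕ} (hj : j ≠ 0) :
    (q : ℤ) ^ j + 1 - pointTrace t q j ≠ 0 := by
  intro h
  obtain ⟨α, β, hs, hp, hα, hβ⟩ := exists_roots_norm_eq (a := (t : ℝ)) (q := (q : ℝ))
    (by exact_mod_cast ht)
  push_cast at hs hp
  have e : α ^ j + β ^ j = ((q ^ j + 1 : ℕ) : ℂ) := by
    rw [← pointTrace_eq (t := t) (q := q) hs (by push_cast; exact hp)]
    exact_mod_cast (sub_eq_zero.mp h).symm
  have hn := congrArg norm e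
  rw [Complex.norm_natCast] at hn
  have hle := (norm_add_le (α ^ j) (β ^ j))
  rw [hn, norm_pow, norm_pow, hα, hβ] at hle
  push_cast at hle
  set r : ℝ := Real.sqrt q ^ j
  have hr : r ^ 2 = (q : ℝ) ^ j := by
    rw [← pow_mul, mul_comm, pow_mul, Real.sq_sqrt (Nat.cast_nonneg q)]
  have h1 : (1 : ℝ) < (q : ℝ) ^ j := one_lt_pow₀ (by exact_mod_cast hq) hj
  have h2 : r = 1 := by nlinarith [sq_nonneg (r - 1)]
  rw [h2, one_pow] at hr
  linarith

variable {W : WeierstrassCurve ℤ} [(ratCurve W).IsElliptic]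

/-- **A bound at the primes `l ≠ q`** on the points fixed by a power of a Frobenius element. -/
theorem nsmul_eq_zero_of_fixed {l q : ℕ} [Fact l.Prime] (hq : q.Prime) (hlq : q ≠ l)
    (hgood : W.IsGoodPrimeFor q) {A : ValuationSubring Qb} (hA : A.LiesOverPrime q) {σ : GQ}
    (hσ : A.IsFrobeniusAt σ q) {f v : ℕ} {x : Pts W} (hx : l ^ v • x = 0)
    (hfix : σ ^ f • x = x) :
    ((q : ℤ) ^ f + 1 - pointTrace (W.apOfModel q) q f) • x = 0 := by
  obtain ⟨B⟩ := exists_tateBasis (p := l) W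
  obtain ⟨ht, hd⟩ := B.rep_frobenius hq hA hlq hgood hσ
  obtain ⟨c, rfl⟩ := B.surj v x hx
  rw [B.rep_spec, ← sub_eq_zero, ← map_sub, B.ker] at hfix
  have h0 : PadicInt.toZModPow v ∘ ((B.rep (σ ^ f) - 1) *ᵥ c) = 0 := by
    funext i
    rw [Function.comp_apply, sub_mulVec, one_mulVec]
    exact hfix i
  rw [← map_zsmul, B.ker]
  intro i
  have h1 : ((B.rep (σ ^ f) - 1).adjugate *ᵥ ((B.rep (σ ^ f) - 1) *ᵥ c)) =
      ((q : ℤ) ^ f + 1 - pointTrace (W.apOfModel q) q f) • c := by
    rw [mulVec_mulVec, adjugate_mul, smul_mulVec, one_mulVec, map_pow,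
      det_pow_sub_one _ ht (hd.trans (Int.cast_natCast q).symm), Int.cast_smul_eq_zsmul]
  rw [← h1, RingHom.map_mulVec, h0, mulVec_zero, Pi.zero_apply]

/-- **A bound** on the torsion points fixed by a subgroup of finite index. -/
theorem exists_bound (H : Subgroup GQ) (hH : H.index ≠ 0) :
    ∃ D : ℕ, 0 < D ∧ ∀ x : Pts W, IsOfFinAddOrder x → (∀ σ ∈ H, σ • x = x) → D • x = 0 := by
  have hΔ : W.Δ ≠ 0 := fun h => (ratCurve W).isUnit_Δ.ne_zero (by simp [ratCurve, h])
  have hd : ∀ σ : GQ, σ ^ H.index ! ∈ H := fun σ => by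
    obtain ⟨m, hm0, hm, hσ⟩ := Subgroup.exists_pow_mem_of_index_ne_zero hH σ
    obtain ⟨e, he⟩ := Nat.dvd_factorial hm0 hm
    rw [he, pow_mul]
    exact H.pow_mem hσ e
  -- the bound from a good prime
  have key : ∀ k : ℕ, ∃ q N : ℕ, q.Prime ∧ k < q ∧ N ≠ 0 ∧ ∀ (l v : ℕ) (x : Pts W), l.Prime →
      l ≠ q → l ^ v • x = 0 → (∀ σ ∈ H, σ • x = x) → N • x = 0 := fun k => by
    obtain ⟨q, hq, hqp⟩ := Nat.exists_infinite_primes (k + W.Δ.natAbs + 1)
    have hgood : W.IsGoodPrimeFor q := fun h => by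
      have := Nat.le_of_dvd (Int.natAbs_pos.mpr hΔ) (Int.natCast_dvd.mp h)
      omega
    obtain ⟨A, hA⟩ := FA.Deform.exists_liesOverPrime hqp
    obtain ⟨σ, hσ⟩ := FA.Deform.exists_isFrobeniusAt hqp hA
    haveI := Fact.mk hqp
    haveI : (W.reductionMod q).IsElliptic := ⟨by
      rw [reductionMod, WeierstrassCurve.map_Δ]
      exact (Ne.isUnit fun h => hgood ((ZMod.intCast_zmod_eq_zero_iff_dvd _ q).mp h))⟩
    refine ⟨q, ((q : ℤ) ^ H.index ! + 1 - pointTrace (W.apOfModel q) q H.index !).natAbs, hqp,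
      by omega, Int.natAbs_ne_zero.mpr (pointTrace_ne
        (FA.HasseBound.traceOfFrobenius_sq_le (W.reductionMod q)) hqp.one_lt
        (Nat.factorial_pos _).ne'), fun l v x hl hlq hx hfix => ?_⟩
    haveI := Fact.mk hl
    rw [natAbs_nsmul_eq_zero]
    exact nsmul_eq_zero_of_fixed hqp (Ne.symm hlq) hgood hA hσ hx (hfix _ (hd σ))
  obtain ⟨q, N, -, -, hN, hNx⟩ := key 0
  obtain ⟨q', N', -, hqq', hN', hNx'⟩ := key q
  refine ⟨N * N', Nat.pos_of_ne_zero (mul_ne_zero hN hN'), fun x hx hfix =>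
    addOrderOf_dvd_iff_nsmul_eq_zero.mp ?_⟩
  refine (Nat.dvd_iff_prime_pow_dvd_dvd _ _).mpr fun l v hlp hv => ?_
  obtain ⟨e, he⟩ := hv
  have he0 : e ≠ 0 := fun h => hx.addOrderOf_pos.ne' (by rw [he, h, mul_zero])
  have hord : addOrderOf (e • x) = l ^ v := by
    rw [addOrderOf_nsmul' x he0, he, Nat.gcd_eq_right (dvd_mul_left e _),
      Nat.mul_div_cancel _ (Nat.pos_of_ne_zero he0)]
  have hfix' : ∀ σ ∈ H, σ • (e • x) = e • x := fun σ hσ =>
    (map_nsmul (DistribSMul.toAddMonoidHom (Pts W) σ) e x).trans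
      (congrArg (e • ·) (hfix σ hσ))
  have h0 : l ^ v • (e • x) = 0 := hord ▸ addOrderOf_nsmul_eq_zero (e • x)
  rw [← hord]
  rcases eq_or_ne l q with rfl | h
  · exact (addOrderOf_dvd_iff_nsmul_eq_zero.mpr
      (hNx' l v _ hlp hqq'.ne h0 hfix')).trans (dvd_mul_left _ _)
  · exact (addOrderOf_dvd_iff_nsmul_eq_zero.mpr
      (hNx l v _ hlp h h0 hfix')).trans (dvd_mul_right _ _)

end FA.TorsionNumberField

namespace FA.Summary

/-- **Finitely many torsion points over a number field**, for every elliptic curve over `ℚ`: only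
finitely many torsion points are fixed by `Gal(ℚ̄/K)`. -/
theorem finite_torsion_numberField_all (E : WeierstrassCurve ℚ) [E.IsElliptic]
    [inst : DecidableEq (AlgebraicClosure ℚ)] (K : IntermediateField ℚ (AlgebraicClosure ℚ))
    [FiniteDimensional ℚ K] :
    {P : (E.toAffine⁄(AlgebraicClosure ℚ)).Point | IsOfFinAddOrder P ∧
      ∀ σ ∈ K.fixingSubgroup, Affine.Point.map σ.toAlgHom P = P}.Finite := by
  obtain rfl : inst = instDecEqAlgebraicClosureRat := Subsingleton.elim _ _
  obtain ⟨W, hW⟩ := FA.Frob.exists_integralModel E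
  haveI := FA.Frob.ratCurve_isElliptic_of_Δ (FA.Frob.Δ_ne_zero_of_model hW)
  obtain ⟨D, hD, key⟩ := FA.TorsionNumberField.exists_bound (W := W) K.fixingSubgroup
    (FA.AbelianTorsion.index_fixingSubgroup_ne_zero K)
  obtain ⟨e, he⟩ := FA.Root.exists_equiv_of_model hW
  haveI : Finite (Submodule.torsionBy ℤ ((ratCurve W)⁄Qb).Point (D : ℤ)) :=
    FA.EC.finite_torsion (ratCurve W) hD.ne'
  refine ((Set.finite_range fun Q : Submodule.torsionBy ℤ ((ratCurve W)⁄Qb).Point (D : ℤ) =>
    e Q.1)).subset fun P ⟨hP, hfix⟩ => ?_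
  refine ⟨⟨e.symm P, ?_⟩, e.apply_symm_apply P⟩
  rw [Submodule.mem_torsionBy_iff, natCast_zsmul]
  refine key _ (e.symm.toAddMonoidHom.isOfFinAddOrder hP) fun σ hσ => e.injective ?_
  rw [he, e.apply_symm_apply]
  exact hfix σ hσ

/-- **The torsion of `E(K)` is finite** for every elliptic curve `E` over `ℚ` and every number
field `K`. -/
theorem finite_torsion_point_numberField (E : WeierstrassCurve ℚ) [E.IsElliptic] (K : Type*)
    [Field K] [NumberField K] [DecidableEq K] :
    {P : (E.toAffine⁄K).Point | IsOfFinAddOrder P}.Finite := by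
  let f : K →ₐ[ℚ] Qb := IsAlgClosed.lift
  haveI : FiniteDimensional ℚ f.fieldRange :=
    (AlgEquiv.ofInjectiveField f).toLinearEquiv.finiteDimensional
  refine Set.Finite.of_finite_image ((finite_torsion_numberField_all E f.fieldRange).subset ?_)
    (Affine.Point.map_injective (W' := E.toAffine) f).injOn
  rintro _ ⟨P, hP, rfl⟩
  refine ⟨(Affine.Point.map (W' := E.toAffine) f).isOfFinAddOrder hP, fun σ hσ => ?_⟩
  have hcomp : σ.toAlgHom.comp f = f := AlgHom.ext fun x =>
    (IntermediateField.mem_fixingSubgroup_iff _ _).mp hσ _ ⟨x, rfl⟩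
  rw [Affine.Point.map_map, hcomp]

end FA.Summary

end
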