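import Fermat.Agent.Transcendence.EllipticExp
import Fermat.Agent.Transcendence.EllipticValues
import Fermat.Agent.Root.SummaryGammaPeriods

/-!
# Transcendence of periods

Consequences of the theorem of Schneider and Lang for a lattice with algebraic invariants:
`π / ω`, the values of `℘` at algebraic points and, without complex multiplication, the ratio of
the periods are transcendental.  Hence the arithmetic-geometric mean of two distinct positive
algebraic numbers is transcendental, as are Gauss's constant and some monomials in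
`Γ(1/4)`, `Γ(1/3)` and `π`.
-/

set_option autoImplicit false
set_option linter.style.haveILetI false

noncomputable section

open scoped Real NNReal

namespace FA.Summary

/-- **`π / ω` is transcendental.** -/
theorem schneider_pi_div_period {L : PeriodPair} (h₂ : IsAlgebraic ℚ L.g₂)
    (h₃ : IsAlgebraic ℚ L.g₃) {ω : ℂ} (hω : ω ∈ L.lattice) (h0 : ω ≠ 0) :
    Transcendental ℚ ((π : ℂ) / ω) :=
  FA.SchneiderLang.transcendental_pi_div_period h₂ h₃ hω h0

/-- **`℘ α` is transcendental** at a non-zero algebraic `α`. -/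
theorem schneider_weierstrassP {L : PeriodPair} (h₂ : IsAlgebraic ℚ L.g₂)
    (h₃ : IsAlgebraic ℚ L.g₃) {α : ℂ} (hα : IsAlgebraic ℚ α) (h0 : α ≠ 0) :
    Transcendental ℚ (L.weierstrassP α) :=
  FA.SchneiderLang.transcendental_weierstrassP h₂ h₃ hα h0

/-- **The ratio of the periods is transcendental** without complex multiplication. -/
theorem schneider_period_ratio {L : PeriodPair} (h₂ : IsAlgebraic ℚ L.g₂)
    (h₃ : IsAlgebraic ℚ L.g₃)
    (hnq : ∀ a b c : ℤ, (a : ℂ) * (L.ω₂ / L.ω₁) ^ 2 + b * (L.ω₂ / L.ω₁) + c = 0 → a = 0) :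
    Transcendental ℚ (L.ω₂ / L.ω₁) := fun hal => by
  obtain ⟨a, b, c, ha, h⟩ := FA.SchneiderLang.exists_quadratic_period_ratio h₂ h₃ hal
  exact ha (hnq a b c h)

/-- A real period gives two transcendental real numbers. -/
theorem transcendental_realPeriod {L : PeriodPair} (h₂ : IsAlgebraic ℚ L.g₂)
    (h₃ : IsAlgebraic ℚ L.g₃) {ω : ℝ} (hω : 0 < ω)
    (hper : ∀ s : ℝ, (s : ℂ) ∈ L.lattice ↔ ∃ m : ℤ, s = m * ω) :
    Transcendental ℚ ω ∧ Transcendental ℚ (π / ω) := by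
  have hmem : (ω : ℂ) ∈ L.lattice := (hper ω).2 ⟨1, by simp⟩
  have h0 : (ω : ℂ) ≠ 0 := Complex.ofReal_ne_zero.2 hω.ne'
  refine ⟨fun h => FA.SchneiderLang.transcendental_period h₂ h₃ hmem h0 (h.algebraMap (A := ℂ)),
    fun h => schneider_pi_div_period h₂ h₃ hmem h0 ?_⟩
  simpa using h.algebraMap (A := ℂ)

theorem transcendental_agm_of_lt {a b : ℝ≥0} (hb : 0 < b) (hlt : b < a)
    (ha' : IsAlgebraic ℚ (a : ℝ)) (hb' : IsAlgebraic ℚ (b : ℝ)) :
    Transcendental ℚ (NNReal.agm a b : ℝ) := by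
  have hlt' : (b : ℝ) < a := by exact_mod_cast hlt
  have hb0 : (0 : ℝ) < b := by exact_mod_cast hb
  set A : ℝ := (a : ℝ) ^ 2 with hA
  set B : ℝ := (b : ℝ) ^ 2 with hB
  have hAB : B < A := pow_lt_pow_left₀ hlt' hb0.le two_ne_zero
  have hBp : 0 < B := by positivity
  set e₃ : ℝ := (A + B) / 3 with he₃
  set e₁ : ℝ := e₃ - A with he₁
  set e₂ : ℝ := e₃ - B with he₂
  have hA' : IsAlgebraic ℚ A := ha'.pow 2
  have hB' : IsAlgebraic ℚ B := hb'.pow 2
  have h3' : IsAlgebraic ℚ e₃ := by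
    rw [he₃, div_eq_mul_inv]
    exact (hA'.add hB').mul (by simpa using (isAlgebraic_natCast (R := ℚ) (A := ℝ) 3).inv)
  have h1' : IsAlgebraic ℚ e₁ := h3'.sub hA'
  have h2' : IsAlgebraic ℚ e₂ := h3'.sub hB'
  have hg₂ : IsAlgebraic ℚ (-4 * (e₁ * e₂ + e₁ * e₃ + e₂ * e₃)) :=
    ((isAlgebraic_natCast (R := ℚ) (A := ℝ) 4).neg).mul
      (((h1'.mul h2').add (h1'.mul h3')).add (h2'.mul h3'))
  have hg₃ : IsAlgebraic ℚ (4 * (e₁ * e₂ * e₃)) :=
    (isAlgebraic_natCast (R := ℚ) (A := ℝ) 4).mul ((h1'.mul h2').mul h3')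
  have hdisc : (-4 * (e₁ * e₂ + e₁ * e₃ + e₂ * e₃)) ^ 3 - 27 * (4 * (e₁ * e₂ * e₃)) ^ 2 =
      16 * ((e₁ - e₂) * (e₁ - e₃) * (e₂ - e₃)) ^ 2 := by
    rw [he₁, he₂, he₃]; ring
  have hd0 : (0 : ℝ) < 16 * ((e₁ - e₂) * (e₁ - e₃) * (e₂ - e₃)) ^ 2 := by
    have : (e₁ - e₂) * (e₁ - e₃) * (e₂ - e₃) ≠ 0 :=
      mul_ne_zero (mul_ne_zero (by linarith) (by linarith)) (by linarith)
    positivity
  obtain ⟨L, hL₂, hL₃⟩ := FA.JInj.exists_g₂_g₃
    (a := ((-4 * (e₁ * e₂ + e₁ * e₃ + e₂ * e₃) : ℝ) : ℂ))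
    (b := ((4 * (e₁ * e₂ * e₃) : ℝ) : ℂ)) (by
      rw [← hdisc] at hd0
      exact_mod_cast hd0.ne')
  obtain ⟨ω, hω, hper, hval⟩ := realPeriod_agm L (e₁ := e₁) (e₂ := e₂) (e₃ := e₃) (by linarith)
    (by linarith) (by linarith) hL₂ hL₃
  have hsa : (√(e₃ - e₁)).toNNReal = a := by
    rw [show e₃ - e₁ = (a : ℝ) ^ 2 by linarith, Real.sqrt_sq a.coe_nonneg, Real.toNNReal_coe]
  have hsb : (√(e₃ - e₂)).toNNReal = b := by
    rw [show e₃ - e₂ = (b : ℝ) ^ 2 by linarith, Real.sqrt_sq b.coe_nonneg, Real.toNNReal_coe]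
  rw [hsa, hsb] at hval
  have hT := (transcendental_realPeriod (hL₂ ▸ hg₂.algebraMap (A := ℂ))
    (hL₃ ▸ hg₃.algebraMap (A := ℂ)) hω hper).2
  rwa [hval, div_div_cancel₀ Real.pi_ne_zero] at hT

/-- **The arithmetic-geometric mean of two distinct positive algebraic numbers is
transcendental.** -/
theorem transcendental_agm {a b : ℝ≥0} (ha : 0 < a) (hb : 0 < b) (hne : a ≠ b)
    (ha' : IsAlgebraic ℚ (a : ℝ)) (hb' : IsAlgebraic ℚ (b : ℝ)) :
    Transcendental ℚ (NNReal.agm a b : ℝ) := by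
  rcases lt_or_gt_of_ne hne with h | h
  · rw [NNReal.agm_comm]; exact transcendental_agm_of_lt ha h hb' ha'
  · exact transcendental_agm_of_lt hb h ha' hb'

/-- Its only algebraic values are the trivial ones. -/
theorem isAlgebraic_agm_iff {a b : ℝ≥0} (ha : 0 < a) (hb : 0 < b)
    (ha' : IsAlgebraic ℚ (a : ℝ)) (hb' : IsAlgebraic ℚ (b : ℝ)) :
    IsAlgebraic ℚ (NNReal.agm a b : ℝ) ↔ a = b :=
  ⟨fun h => by_contra fun hne => transcendental_agm ha hb hne ha' hb' h,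
    fun h => by subst h; simpa using ha'⟩

/-- **Gauss's constant is transcendental.** -/
theorem transcendental_gauss_constant :
    Transcendental ℚ (1 / (NNReal.agm 1 (√2).toNNReal : ℝ)) := by
  have h2 : (1 : ℝ) < √2 := by
    rw [← Real.sqrt_one]; exact Real.sqrt_lt_sqrt zero_le_one one_lt_two
  have hne : (1 : ℝ≥0) ≠ (√2).toNNReal := (Real.one_lt_toNNReal.2 h2).ne
  intro h
  refine transcendental_agm one_pos (Real.toNNReal_pos.2 (by linarith)) hne ?_ ?_ ?_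
  · simpa using isAlgebraic_one
  · rw [Real.coe_toNNReal _ (Real.sqrt_nonneg _)]
    exact IsAlgebraic.of_pow two_pos (by
      rw [Real.sq_sqrt zero_le_two]; simpa using isAlgebraic_natCast (R := ℚ) (A := ℝ) 2)
  · simpa using h.inv

theorem sqrt_isAlgebraic (n : ℕ) : IsAlgebraic ℚ √(n : ℝ) :=
  IsAlgebraic.of_pow two_pos (by
    rw [Real.sq_sqrt (Nat.cast_nonneg n)]; exact isAlgebraic_natCast n)

/-- **`Γ(1/4)² / √π` and `Γ(1/4)⁴ / π³` are transcendental.** -/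
theorem transcendental_Gamma_quarter :
    Transcendental ℚ (Real.Gamma (1 / 4) ^ 2 / √π) ∧
      Transcendental ℚ (Real.Gamma (1 / 4) ^ 4 / π ^ 3) := by
  obtain ⟨L, h2, h3⟩ := FA.JInj.exists_g₂_g₃ (a := 4) (b := 0) (by norm_num)
  obtain ⟨ω, hω, hper, hval⟩ := congruentCurve_realPeriod L one_pos
    (by rw [h2]; norm_num) h3
  obtain ⟨hT, hTπ⟩ := transcendental_realPeriod
    (h2 ▸ (by simpa using isAlgebraic_natCast (R := ℚ) (A := ℂ) 4)) (h3 ▸ isAlgebraic_zero) hω hper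
  have hg := Real.Gamma_pos_of_pos (show (0 : ℝ) < 1 / 4 by norm_num)
  rw [mul_one] at hval
  have hs : √(2 * π) = √((2 : ℕ) : ℝ) * √π := by
    rw [Nat.cast_two, Real.sqrt_mul zero_le_two]
  have h2' : IsAlgebraic ℚ (2 * √((2 : ℕ) : ℝ)) :=
    ((isAlgebraic_natCast (R := ℚ) (A := ℝ) 2)).mul (sqrt_isAlgebraic 2)
  constructor
  · intro h
    refine hT ?_
    rw [hval, hs, show Real.Gamma (1 / 4) ^ 2 / (2 * (√((2 : ℕ) : ℝ) * √π)) =
      Real.Gamma (1 / 4) ^ 2 / √π * (2 * √((2 : ℕ) : ℝ))⁻¹ by field_simp]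
    exact h.mul h2'.inv
  · intro h
    refine hTπ (IsAlgebraic.of_pow two_pos ?_)
    have e : (π / ω) ^ 2 = ((8 : ℕ) : ℝ) * (Real.Gamma (1 / 4) ^ 4 / π ^ 3)⁻¹ := by
      rw [hval, div_pow, div_pow, mul_pow, Real.sq_sqrt (by positivity)]
      field_simp
      ring
    rw [e]
    exact (isAlgebraic_natCast 8).mul h.inv

/-- **`Γ(1/3)³ / π` and `Γ(1/3)³ / π²` are transcendental.** -/
theorem transcendental_Gamma_third :
    Transcendental ℚ (Real.Gamma (1 / 3) ^ 3 / π) ∧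
      Transcendental ℚ (Real.Gamma (1 / 3) ^ 3 / π ^ 2) := by
  obtain ⟨L, h2, h3⟩ := FA.JInj.exists_g₂_g₃ (a := 0) (b := 4) (by norm_num)
  obtain ⟨ω, hω, hper, hval⟩ := mordellCurve_realPeriod L h2 h3
  obtain ⟨hT, hTπ⟩ := transcendental_realPeriod (h2 ▸ isAlgebraic_zero)
    (h3 ▸ (by simpa using isAlgebraic_natCast (R := ℚ) (A := ℂ) 4)) hω hper
  have hg := Real.Gamma_pos_of_pos (show (0 : ℝ) < 1 / 3 by norm_num)
  set c : ℝ := (2 : ℝ) ^ (4 / 3 : ℝ) with hc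
  have hc0 : 0 < c := Real.rpow_pos_of_pos two_pos _
  have hc' : IsAlgebraic ℚ c := IsAlgebraic.of_pow (n := 3) (by norm_num) (by
    rw [hc, ← Real.rpow_natCast, ← Real.rpow_mul zero_le_two]
    norm_num
    simpa using isAlgebraic_natCast (R := ℚ) (A := ℝ) 16)
  constructor
  · intro h
    refine hT ?_
    rw [hval, show Real.Gamma (1 / 3) ^ 3 / (c * π) = Real.Gamma (1 / 3) ^ 3 / π * c⁻¹ by
      field_simp]
    exact h.mul hc'.inv
  · intro h
    refine hTπ ?_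
    rw [hval, show π / (Real.Gamma (1 / 3) ^ 3 / (c * π)) =
      c * (Real.Gamma (1 / 3) ^ 3 / π ^ 2)⁻¹ by field_simp]
    exact hc'.mul h.inv

end FA.Summary

end
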