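import Fermat.Agent.LevelPPadic.Classical

/-!
# Summary: forms of level `p` are `p`-adic forms; Hida's classicality in level one, `p ≥ 5`

An *ordinary* `p`-adic form of weight `κ` is a `p`-adic form of level one in the sense of Serre
(`FA.PadicForms.Summary`) fixed by `e = lim U ^ n!` (`FA.OrdinaryProj.Summary`). In all statements
the forms on `Γ₀(p)` are assumed to have a `q`-expansion at `∞` with rational coefficients.

* `level_p_padic`: Serre's Theorem 10: such a form of weight `k` is a `p`-adic form of weight `k`;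
* `level_p_operator_U`, `weight_two_U_sq`: `U` keeps these forms, and `U² = 1` in weight two;
* `ordinary_classical`: for `k ≥ 3` every ordinary `p`-adic form of weight `k` is a combination over
  `ℚ_p` of forms of weight `k` on `Γ₀(p)`, and the ordinary part is the image of `e` on their span;
* `ordinary_weight_two`: the ordinary part of weight `2` is exactly the span of the forms of weight
  `2` on `Γ₀(p)`.

Not proved here: `p = 2, 3`; levels `p ^ r` with `r ≥ 2`, characters and tame levels; classicality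
in positive slope; families over the Iwasawa algebra.
-/

set_option autoImplicit false

noncomputable section

open UpperHalfPlane hiding I
open PowerSeries CongruenceSubgroup
open scoped MatrixGroups ModularForm

namespace FA.LevelPPadic.Summary

open FA.PadicForms FA.OrdinaryProj

variable {p : ℕ} [Fact p.Prime]

/-- **Serre, Theorem 10.** -/
theorem level_p_padic (h5 : 5 ≤ p) {k : ℕ}
    (F : ModularForm (Gamma0 p : Subgroup (GL (Fin 2) ℝ)) (k : ℤ)) {A : PowerSeries ℚ}
    (hA : qExpansion 1 ⇑F = A.map (Rat.castHom ℂ)) :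
    IsPadicForm (toQp p A) (natWeight p k) :=
  (isRatLevel_iff.2 ⟨F, hA⟩).isPadicForm h5

/-- `U` keeps the rational forms on `Γ₀(p)`. -/
theorem level_p_operator_U {k : ℕ}
    (F : ModularForm (Gamma0 p : Subgroup (GL (Fin 2) ℝ)) (k : ℤ)) {A : PowerSeries ℚ}
    (hA : qExpansion 1 ⇑F = A.map (Rat.castHom ℂ)) :
    ∃ G : ModularForm (Gamma0 p : Subgroup (GL (Fin 2) ℝ)) (k : ℤ),
      qExpansion 1 ⇑G =
        (PowerSeries.mk fun n => coeff (p * n) A).map (Rat.castHom ℂ) :=
  isRatLevel_iff.1 (isRatLevel_iff.2 ⟨F, hA⟩).uSer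

/-- **`U² = 1` in weight two.** -/
theorem weight_two_U_sq
    (F : ModularForm (Gamma0 p : Subgroup (GL (Fin 2) ℝ)) ((2 : ℕ) : ℤ)) {A : PowerSeries ℚ}
    (hA : qExpansion 1 ⇑F = A.map (Rat.castHom ℂ)) (n : ℕ) :
    coeff (p * (p * n)) A = coeff n A := by
  have h := congrArg (coeff n) (isRatLevel_iff.2 ⟨F, hA⟩).uSer_uSer
  rwa [coeff_uSer, coeff_uSer] at h

/-- The span of the forms of level `p`. -/
theorem classicalSpace_eq (k : ℕ) : classicalSpace p k = Submodule.span ℚ_[p]
    {s : PowerSeries ℚ_[p] | ∃ (F : ModularForm (Gamma0 p : Subgroup (GL (Fin 2) ℝ)) (k : ℤ))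
      (A : PowerSeries ℚ), qExpansion 1 ⇑F = A.map (Rat.castHom ℂ) ∧ toQp p A = s} := by
  refine congrArg _ (Set.ext fun s => ⟨?_, ?_⟩)
  · rintro ⟨A, hA, rfl⟩
    obtain ⟨F, hF⟩ := isRatLevel_iff.1 hA
    exact ⟨F, A, hF, rfl⟩
  · rintro ⟨F, A, hF, rfl⟩
    exact ⟨A, isRatLevel_iff.2 ⟨F, hF⟩, rfl⟩

/-- **Hida's classicality**: ordinary forms of weight `k ≥ 3` come from level `p`. -/
theorem ordinary_classical (h5 : 5 ≤ p) {k : ℕ} (hk : 3 ≤ k) {f : PowerSeries ℚ_[p]}
    (hf : IsPadicForm f (natWeight p k)) (he : ordProj p f = f) :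
    f ∈ Submodule.span ℚ_[p]
      {s : PowerSeries ℚ_[p] | ∃ (F : ModularForm (Gamma0 p : Subgroup (GL (Fin 2) ℝ)) (k : ℤ))
        (A : PowerSeries ℚ), qExpansion 1 ⇑F = A.map (Rat.castHom ℂ) ∧ toQp p A = s} :=
  classicalSpace_eq (p := p) k ▸ ordPart_le_classicalSpace h5 hk ((mem_ordPart h5).2 ⟨hf, he⟩)

/-- The ordinary part is the image of `e` on the forms of level `p`, of finite dimension. -/
theorem ordinary_image (h5 : 5 ≤ p) {k : ℕ} (hk : 3 ≤ k) :
    Module.Finite ℚ_[p] ↥(classicalSpace p k) ∧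
      (∀ h ∈ classicalSpace p k, ordProj p h ∈ ordPart (natWeight p k) ∧
        ordProj p h ∈ classicalSpace p k) ∧
      ∀ f ∈ ordPart (natWeight p k), f ∈ classicalSpace p k ∧ ordProj p f = f :=
  ⟨finite_classicalSpace k,
    fun _ hh => ⟨ordProj_mem h5 (isPadicForm_of_mem h5 hh), ordProj_mem_classicalSpace h5 hh⟩,
    fun _ hf => ⟨ordPart_le_classicalSpace h5 hk hf, ((mem_ordPart h5).1 hf).2⟩⟩

/-- **In weight two the ordinary part is the span of the forms on `Γ₀(p)`.** -/
theorem ordinary_weight_two (h5 : 5 ≤ p) : ordPart (natWeight p 2) = Submodule.span ℚ_[p]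
    {s : PowerSeries ℚ_[p] | ∃ (F : ModularForm (Gamma0 p : Subgroup (GL (Fin 2) ℝ)) ((2 : ℕ) : ℤ))
      (A : PowerSeries ℚ), qExpansion 1 ⇑F = A.map (Rat.castHom ℂ) ∧ toQp p A = s} :=
  (ordPart_two h5).trans (classicalSpace_eq 2)

end FA.LevelPPadic.Summary

end
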