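import Fermat.Agent.RiemannMangoldt.Main

/-!
# The formula of Riemann and von Mangoldt

`N T = (T / 2π) log (T / (2π e)) + O (log T)` for the number `N T` of zeros `ρ` of `ζ` with
`0 < re ρ < 1` and `0 < im ρ ≤ T`, counted with multiplicity (von Mangoldt 1905), and
`N (T + 1) - N T = O (log T)`.
-/

set_option autoImplicit false

noncomputable section

namespace FA.RiemannMangoldt.Summary

open Real Filter Topology

private theorem ell_le_log {T : ℝ} (hT : 2 ≤ T) : FA.ZeroFree.ell T ≤ 7 * log T := by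
  have h7 : (7 : ℝ) * log T = log (T ^ 7) := by rw [log_pow]; norm_num
  rw [h7]
  refine log_le_log (by positivity) ?_
  rw [abs_of_nonneg (by linarith)]
  have : (64 : ℝ) ≤ T ^ 6 := by
    calc (64 : ℝ) = 2 ^ 6 := by norm_num
      _ ≤ _ := pow_le_pow_left₀ two_pos.le hT 6
  nlinarith

/-- `zeroCount T` is `N T`: the sum of the orders of the zeros in the region. -/
theorem zeroCount_spec (T : ℝ) :
    zeroCount T = ∑ ρ ∈ (finite_zetaZeros T).toFinset, analyticOrderNatAt riemannZeta ρ :=
  rfl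

/-- The region in `zeroCount_spec`. -/
theorem zetaZeros_spec (T : ℝ) : zetaZeros T =
    {ρ : ℂ | riemannZeta ρ = 0 ∧ 0 < ρ.re ∧ ρ.re < 1 ∧ 0 < ρ.im ∧ ρ.im ≤ T} :=
  rfl

/-- **The formula of Riemann and von Mangoldt.** -/
theorem riemann_von_mangoldt : ∃ C : ℝ, ∀ T : ℝ, 2 ≤ T →
    |(zeroCount T : ℝ) - T / (2 * π) * log (T / (2 * π * exp 1))| ≤ C * log T := by
  obtain ⟨C, hC, h⟩ := exists_count
  obtain ⟨M, hM⟩ : ∃ M, M = (zeroCount 3 : ℝ) + 100 := ⟨_, rfl⟩
  have hM0 : 0 ≤ M := by rw [hM]; positivity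
  refine ⟨7 * C + 2 * M, fun T hT => ?_⟩
  have hl : 1 / 2 ≤ log T := by
    have := log_le_log two_pos hT
    linarith [log_two_gt_d9]
  have e : T / (2 * π) * log (T / (2 * π * exp 1)) = mainTerm T := by
    have hT0 : T ≠ 0 := by linarith
    rw [mainTerm, log_div hT0 (by positivity), log_mul (by positivity) (exp_pos 1).ne', log_exp,
      log_div hT0 (by positivity)]
    ring
  rw [e]
  rcases le_or_gt 3 T with h3 | h3
  · refine (h T h3).trans ?_
    nlinarith [mul_le_mul_of_nonneg_left (ell_le_log hT) hC,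
      mul_nonneg hM0 (show 0 ≤ log T by linarith)]
  · have h1 : (zeroCount T : ℝ) ≤ zeroCount 3 := Nat.cast_le.2 (zeroCount_mono h3.le)
    have hπ := pi_gt_three
    have hq : |log (T / (2 * π))| ≤ 10 := by
      rw [log_div (by linarith) (by positivity)]
      have := log_le_self (show 0 ≤ 2 * π by positivity)
      have := log_le_self (show 0 ≤ T by linarith)
      have := log_nonneg (show 1 ≤ 2 * π by linarith)
      rw [abs_le]
      constructor <;> linarith [pi_lt_d2]
    have hr : T / (2 * π) ≤ 1 := by rw [div_le_one (by positivity)]; linarith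
    have h2 : |mainTerm T| ≤ 100 := by
      rw [mainTerm]
      refine (abs_sub _ _).trans ?_
      rw [abs_mul, abs_of_nonneg (show 0 ≤ T / (2 * π) by positivity)]
      nlinarith [abs_nonneg (log (T / (2 * π)))]
    refine (abs_sub _ _).trans ?_
    rw [Nat.abs_cast]
    nlinarith [mul_nonneg hC (show 0 ≤ log T by linarith)]

/-- **`N (T + 1) - N T = O (log T)`.** -/
theorem zeroCount_short_interval : ∃ C : ℝ, ∀ T : ℝ, 2 ≤ T →
    (zeroCount (T + 1) : ℝ) ≤ zeroCount T + C * log T := by
  obtain ⟨C, hC, h⟩ := exists_zeroCount_succ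
  refine ⟨7 * C, fun T hT => (h T (by linarith)).trans ?_⟩
  nlinarith [mul_le_mul_of_nonneg_left (ell_le_log hT) hC]

/-- `N T` is asymptotic to `T log T / 2π`. -/
theorem zeroCount_asymptotic :
    Tendsto (fun T : ℝ => (zeroCount T : ℝ) / (T * log T)) atTop (𝓝 (1 / (2 * π))) := by
  obtain ⟨C, hC⟩ := riemann_von_mangoldt
  obtain ⟨c, hc⟩ : ∃ c, c = 1 + log (2 * π) := ⟨_, rfl⟩
  have h1 : Tendsto (fun T : ℝ => C / T + |c| / (2 * π) / log T) atTop (𝓝 0) := by
    simpa using (tendsto_const_nhds.div_atTop tendsto_id).add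
      ((tendsto_const_nhds (x := |c| / (2 * π))).div_atTop tendsto_log_atTop)
  refine tendsto_sub_nhds_zero_iff.1 (squeeze_zero_norm' ?_ h1)
  filter_upwards [eventually_ge_atTop 2] with T hT
  have hl : 0 < log T := log_pos (by linarith)
  have e : T / (2 * π) * log (T / (2 * π * exp 1)) =
      T * log T / (2 * π) - T * c / (2 * π) := by
    rw [log_div (by linarith) (by positivity), log_mul (by positivity) (exp_pos 1).ne', log_exp, hc]
    ring
  have h2 := hC T hT
  rw [e] at h2
  have h3 : (zeroCount T : ℝ) / (T * log T) - 1 / (2 * π) =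
      ((zeroCount T : ℝ) - (T * log T / (2 * π) - T * c / (2 * π))) / (T * log T) -
        c / (2 * π) / log T := by
    have := pi_ne_zero
    field_simp
    ring
  rw [norm_eq_abs, h3]
  refine (abs_sub _ _).trans (add_le_add ?_ (le_of_eq ?_))
  · rw [abs_div, abs_of_pos (show 0 < T * log T by positivity)]
    refine (div_le_div_of_nonneg_right h2 (by positivity)).trans (le_of_eq ?_)
    field_simp
  · rw [abs_div, abs_div, abs_of_pos hl, abs_of_pos (show 0 < 2 * π by positivity)]

/-- **Stirling's formula for the argument of `Γ`.** -/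
theorem arg_gamma : ∃ L : ℂ → ℂ, (∀ z : ℂ, 0 < z.re → Complex.exp (L z) = Complex.Gamma z) ∧
    (∀ z : ℂ, 0 < z.re → DifferentiableAt ℂ L z) ∧ ∀ σ t : ℝ, 0 < σ → σ ≤ 1 → 1 ≤ |t| →
      |(L ((σ : ℂ) + t * Complex.I)).im - (t * log |t| - t)| ≤ 5 :=
  ⟨logGam, fun _ h => exp_logGam h, fun _ h => differentiableAt_logGam h,
    fun _ _ h1 h2 h3 => abs_im_logGam_sub_le h1 h2 h3⟩

end FA.RiemannMangoldt.Summary

end
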