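import Fermat.Agent.BohrLandau.Zeros
import Fermat.Agent.Root.SummaryRiemannMangoldt

/-!
# The theorem of Bohr and Landau

* `zeta_meanSquare`: `∫_2^T ‖ζ (σ + it)‖² dt ∼ ζ (2 σ) T` for `1/2 < σ ≤ 4`.
* `bohr_landau`: `N (σ, T) = O (T)` for every `σ > 1/2`.
* `almost_all_zeros_near_line`: for each `ε > 0` all but a proportion `o (1)` of the zeros of height
  at most `T` have `|re ρ - 1/2| < ε`.
-/

set_option autoImplicit false

noncomputable section

namespace FA.BohrLandau.Summary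

open Filter FA.RiemannMangoldt
open scoped Topology

/-- **The mean square of `ζ` on `re s = σ > 1/2`.** -/
theorem zeta_meanSquare {σ : ℝ} (hσ : 1 / 2 < σ) (hσ4 : σ ≤ 4) :
    Tendsto (fun T : ℝ =>
        (((∫ t in (2 : ℝ)..T, ‖riemannZeta (σ + t * Complex.I)‖ ^ 2) / T : ℝ) : ℂ))
      atTop (𝓝 (riemannZeta (2 * σ))) := by
  have e : riemannZeta (2 * σ) = ((∑' n : ℕ, (n : ℝ) ^ (-(2 * σ)) : ℝ) : ℂ) := by
    have h2 : 1 < (2 * (σ : ℂ)).re := by simp; linarith
    rw [zeta_eq_tsum_one_div_nat_cpow h2, Complex.ofReal_tsum]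
    refine tsum_congr fun n => ?_
    rw [Complex.ofReal_cpow (Nat.cast_nonneg n), one_div, ← Complex.cpow_neg]
    push_cast
    rfl
  rw [e]
  exact (Complex.continuous_ofReal.tendsto _).comp (tendsto_meanSquare hσ hσ4)

/-- The mean square is `O (T)` uniformly to the right of `σ₀ > 1/2`. -/
theorem zeta_meanSquare_uniform {σ₀ : ℝ} (h : 1 / 2 < σ₀) :
    ∃ C : ℝ, ∀ σ T : ℝ, σ₀ ≤ σ → σ ≤ 4 → 2 ≤ T →
      ∫ t in (2 : ℝ)..T, ‖riemannZeta (σ + t * Complex.I)‖ ^ 2 ≤ C * T :=
  (exists_meanSquare_le h).imp fun _ hC => hC.2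

/-- `rightCount σ T` is `N (σ, T)`, the zeros counted with multiplicity. -/
theorem rightCount_spec (σ T : ℝ) :
    rightCount σ T = ∑ ρ ∈ (finite_zetaZeros T).toFinset.filter (fun ρ => σ ≤ ρ.re),
      analyticOrderNatAt riemannZeta ρ :=
  rfl

/-- **Bohr–Landau: `N (σ, T) = O (T)`.** -/
theorem bohr_landau {σ : ℝ} (hσ : 1 / 2 < σ) :
    ∃ C : ℝ, ∀ T : ℝ, 1 ≤ T → (rightCount σ T : ℝ) ≤ C * T :=
  (exists_rightCount_le hσ).imp fun _ hC => hC.2

/-- `offLineCount ε T` counts the zeros at distance `≥ ε` from the critical line. -/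
theorem offLineCount_spec (ε T : ℝ) :
    offLineCount ε T = ∑ ρ ∈ (finite_zetaZeros T).toFinset.filter (fun ρ => ε ≤ |ρ.re - 1 / 2|),
      analyticOrderNatAt riemannZeta ρ :=
  rfl

/-- **Almost all zeros lie within `ε` of the critical line.** -/
theorem almost_all_zeros_near_line {ε : ℝ} (hε : 0 < ε) :
    Tendsto (fun T : ℝ => (offLineCount ε T : ℝ) / zeroCount T) atTop (𝓝 0) := by
  obtain ⟨K, hK0, hK⟩ := exists_offLineCount_le hε
  have hN := FA.RiemannMangoldt.Summary.zeroCount_asymptotic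
  have hpos : ∀ᶠ T : ℝ in atTop, 1 / (4 * Real.pi) < (zeroCount T : ℝ) / (T * Real.log T) :=
    hN.eventually_const_lt (by
      rw [one_div_lt_one_div (by positivity) (by positivity)]
      linarith [Real.pi_pos])
  have hlim : Tendsto (fun T : ℝ => 4 * Real.pi * K / Real.log T) atTop (𝓝 0) :=
    tendsto_const_nhds.div_atTop Real.tendsto_log_atTop
  refine squeeze_zero' (Eventually.of_forall fun T => by positivity) ?_ hlim
  filter_upwards [hpos, eventually_gt_atTop (1 : ℝ)] with T hT hT1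
  have hl : 0 < Real.log T := Real.log_pos hT1
  have hTl : 0 < T * Real.log T := mul_pos (by linarith) hl
  rw [lt_div_iff₀ hTl] at hT
  have h0 : 0 < 1 / (4 * Real.pi) * (T * Real.log T) := by positivity
  refine ((div_le_div_of_nonneg_right (hK T hT1.le) (h0.trans hT).le).trans
    (div_le_div_of_nonneg_left (by positivity) h0 hT.le)).trans (le_of_eq ?_)
  field_simp

end FA.BohrLandau.Summary
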