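import Fermat.Agent.ErdosKac.Turan

/-!
# The theorem of Erdős and Kac

`ω n`, the number of prime divisors, is normally distributed (Erdős and Kac, 1940): the proportion
of `n ≤ N` with `ω n - log log N ≤ x √(log log N)` tends to `∫_(-∞)^x e^(-u²/2) / √(2π)`. With it
Mertens' second theorem `∑_{p ≤ N} 1 / p = log log N + O (1)`, Turán's inequality and the normal
order `log log N` of Hardy and Ramanujan.

No rate of convergence, nothing on prime factors with multiplicity; no link with Fermat's last
theorem.
-/

set_option autoImplicit false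

noncomputable section

namespace FA.ErdosKac.Summary

open Finset Filter
open scoped Topology ArithmeticFunction.omega Real

theorem omega_eq (n : ℕ) : ω n = n.primeFactors.card := by
  rw [ArithmeticFunction.cardDistinctFactors_apply, ← List.card_toFinset]
  rfl

/-- **Erdős and Kac.** -/
theorem erdos_kac (x : ℝ) :
    Tendsto (fun N : ℕ => (((Icc 1 N).filter fun n : ℕ => (ω n : ℝ) - Real.log (Real.log N) ≤
        x * Real.sqrt (Real.log (Real.log N))).card : ℝ) / N) atTop
      (𝓝 (∫ u in Set.Iic x, Real.exp (-u ^ 2 / 2) / Real.sqrt (2 * π))) := by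
  simp only [omega_eq]
  have h := tendsto_omega_le x
  rw [MeasureTheory.measureReal_def,
    ProbabilityTheory.gaussianReal_apply_eq_integral 0 one_ne_zero, ENNReal.toReal_ofReal
      (MeasureTheory.setIntegral_nonneg measurableSet_Iic fun u _ =>
        ProbabilityTheory.gaussianPDFReal_nonneg 0 1 u)] at h
  rw [show (fun u : ℝ => Real.exp (-u ^ 2 / 2) / Real.sqrt (2 * π)) =
    ProbabilityTheory.gaussianPDFReal 0 1 from funext fun u => by
      simp [ProbabilityTheory.gaussianPDFReal, div_eq_inv_mul]]
  simp only [loglog] at h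
  exact h

/-- **Mertens' second theorem.** -/
theorem mertens_second : ∃ C : ℝ, ∀ n : ℕ, 2 ≤ n →
    |∑ p ∈ (Icc 1 n).filter Nat.Prime, (p : ℝ)⁻¹ - Real.log (Real.log n)| ≤ C :=
  exists_abs_recipSum_sub_le

/-- **Turán.** -/
theorem turan : ∃ C : ℝ, ∀ᶠ N : ℕ in atTop,
    ∑ n ∈ Icc 1 N, ((ω n : ℝ) - Real.log (Real.log N)) ^ 2 ≤
      C * N * Real.log (Real.log N) := by
  simpa only [omega_eq, loglog] using exists_turan

/-- **The normal order, Hardy and Ramanujan.** -/
theorem hardy_ramanujan {ε : ℝ} (hε : 0 < ε) :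
    Tendsto (fun N : ℕ => (((Icc 1 N).filter fun n : ℕ => ε * Real.log (Real.log N) ≤
      |(ω n : ℝ) - Real.log (Real.log N)|).card : ℝ) / N) atTop (𝓝 0) := by
  simpa only [omega_eq, loglog] using tendsto_normal_order hε

end FA.ErdosKac.Summary
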