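import Fermat.Agent.SatheSelberg.Main
import Mathlib.Analysis.Asymptotics.AsymptoticEquivalent

/-!
# The formula of Sathe and Selberg

With `φ z = (1 / Γ (z + 1)) ∏ₚ (1 + z / (p - 1)) (1 - 1/p) ^ z`, the mean value theorem of Selberg
`∑_{n ≤ N} z ^ ω n = z φ z N (log N) ^ (z - 1) + O (N (log N) ^ (|z| - 5/4))` for bounded `z`, and
from it the formula of Sathe and Selberg: for `k ≤ R log log N`, the numbers `n ≤ N` with `k`
distinct prime factors number `N / log N · Λ ^ (k - 1) / (k - 1)! · (φ r + O (k / Λ ^ 2))`, where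
`Λ = log log N` and `r = (k - 1) / Λ`.

The error term of the mean value is weaker than Selberg's `O (N (log N) ^ (re z - 2))`, and nothing
is said about `Ω`, or about `k` beyond a multiple of `log log N`.
-/

set_option autoImplicit false

noncomputable section

namespace FA.Summary

open Finset Filter Asymptotics
open scoped Topology ArithmeticFunction.omega

private theorem sathe_selberg_filter_eq (N k : ℕ) :
    ((Icc 1 N).filter fun n : ℕ => ω n = k).card = SatheSelberg.omegaCount N k := rfl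

private theorem sathe_selberg_re (r : ℝ) : (SatheSelberg.selConst (r : ℂ)).re =
    (∏' p : Nat.Primes, (1 + r / (((p : ℕ) : ℝ) - 1)) * (1 - 1 / ((p : ℕ) : ℝ)) ^ r) /
      Real.Gamma (r + 1) := by
  rw [SatheSelberg.selConst_ofReal, Complex.ofReal_re, SatheSelberg.selbergProduct]

/-- **The mean value theorem of Selberg.** -/
theorem selberg_omega_mean_value (R : ℝ) : ∃ C : ℝ, 0 < C ∧ ∀ z : ℂ, ‖z‖ ≤ R → ∀ N : ℕ, 3 ≤ N →
    ‖(∑ n ∈ Icc 1 N, z ^ ω n) -
        z * ((∏' p : Nat.Primes, (1 + z / (((p : ℕ) : ℂ) - 1)) * (1 - 1 / ((p : ℕ) : ℂ)) ^ z) /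
          Complex.Gamma (z + 1)) * (N : ℂ) * (Real.log N : ℂ) ^ (z - 1)‖ ≤
      C * N * Real.log N ^ (‖z‖ - 5 / 4) := by
  obtain ⟨C, hC, h⟩ := SatheSelberg.exists_omegaSum_asymptotic (max 1 R) (le_max_left _ _)
  refine ⟨C, hC, fun z hz N hN => le_of_eq_of_le ?_ (h z (hz.trans (le_max_right _ _)) N hN)⟩
  have e : ∀ p : Nat.Primes, SatheSelberg.selFactor p (z, 1) =
      (1 + z / (((p : ℕ) : ℂ) - 1)) * (1 - 1 / ((p : ℕ) : ℂ)) ^ z := fun p => by
    have hp : (2 : ℝ) ≤ ((p : ℕ) : ℝ) := by exact_mod_cast p.2.two_le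
    have h0 : (0 : ℝ) < 1 - 1 / ((p : ℕ) : ℝ) := by
      have : 1 / ((p : ℕ) : ℝ) ≤ 1 / 2 := one_div_le_one_div_of_le two_pos hp
      linarith
    rw [SatheSelberg.selFactor, show (1 - 1 / ((p : ℕ) : ℂ)) = ((1 - 1 / ((p : ℕ) : ℝ) : ℝ) : ℂ) by
      push_cast; rfl, Complex.cpow_def_of_ne_zero (Complex.ofReal_ne_zero.2 h0.ne'),
      ← Complex.ofReal_log h0.le, mul_comm ((Real.log _ : ℝ) : ℂ) z]
    simp only [Real.rpow_one, one_div]
    push_cast
    rfl
  rw [← tprod_congr e, div_eq_mul_inv]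
  rfl

/-- **The formula of Sathe and Selberg.** -/
theorem sathe_selberg (R : ℝ) : ∃ C : ℝ, 0 < C ∧ ∀ N : ℕ, 16 ≤ N → ∀ (k : ℕ) (r : ℝ), 1 ≤ k →
    (k : ℝ) ≤ R * Real.log (Real.log N) → r = ((k : ℝ) - 1) / Real.log (Real.log N) →
      |(((Icc 1 N).filter fun n : ℕ => ω n = k).card : ℝ) -
          (N : ℝ) / Real.log N * (Real.log (Real.log N) ^ (k - 1) / (k - 1).factorial) *
            ((∏' p : Nat.Primes, (1 + r / (((p : ℕ) : ℝ) - 1)) * (1 - 1 / ((p : ℕ) : ℝ)) ^ r) /
              Real.Gamma (r + 1))| ≤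
        C * ((N : ℝ) / Real.log N * (Real.log (Real.log N) ^ (k - 1) / (k - 1).factorial) *
          (k / Real.log (Real.log N) ^ 2)) := by
  obtain ⟨C, hC, h⟩ := SatheSelberg.exists_sathe_selberg R
  refine ⟨C, hC, fun N hN k r hk hkR hr => ?_⟩
  have h' := h N hN k hk hkR
  rwa [Nat.cast_sub hk, Nat.cast_one, SatheSelberg.loglog, ← hr, sathe_selberg_re,
    SatheSelberg.omegaScale, SatheSelberg.loglog, ← sathe_selberg_filter_eq] at h'

/-- **The limit of the count**, when `k / log log N → c`. -/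
theorem sathe_selberg_limit {c : ℝ} (k : ℕ → ℕ) (hk : ∀ᶠ N in atTop, 1 ≤ k N)
    (hlim : Tendsto (fun N : ℕ => (k N : ℝ) / Real.log (Real.log N)) atTop (𝓝 c)) :
    Tendsto (fun N : ℕ => (((Icc 1 N).filter fun n : ℕ => ω n = k N).card : ℝ) /
        ((N : ℝ) / Real.log N * (Real.log (Real.log N) ^ (k N - 1) / (k N - 1).factorial)))
      atTop (𝓝 ((∏' p : Nat.Primes, (1 + c / (((p : ℕ) : ℝ) - 1)) * (1 - 1 / ((p : ℕ) : ℝ)) ^ c) /
        Real.Gamma (c + 1))) := by
  obtain ⟨C, hC, h⟩ := SatheSelberg.exists_sathe_selberg (c + 1)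
  have hl : Tendsto SatheSelberg.loglog atTop atTop :=
    Real.tendsto_log_atTop.comp (Real.tendsto_log_atTop.comp tendsto_natCast_atTop_atTop)
  have hr : Tendsto (fun N => ((k N - 1 : ℕ) : ℝ) / SatheSelberg.loglog N) atTop (𝓝 c) := by
    have h1 := hlim.sub ((tendsto_const_nhds (x := (1 : ℝ))).div_atTop hl)
    rw [sub_zero] at h1
    refine h1.congr' (hk.mono fun N hN => ?_)
    simp only [Nat.cast_sub hN, Nat.cast_one, sub_div]
    rfl
  have hφ : Tendsto (fun N => (SatheSelberg.selConst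
      (((k N - 1 : ℕ) : ℝ) / SatheSelberg.loglog N : ℝ)).re) atTop
      (𝓝 (SatheSelberg.selConst (c : ℂ)).re) :=
    ((Complex.continuous_re.comp (SatheSelberg.differentiable_selConst.continuous.comp
      Complex.continuous_ofReal)).tendsto c).comp hr
  rw [← sathe_selberg_re]
  have herr : Tendsto (fun N : ℕ => C * ((k N : ℝ) / Real.log (Real.log N)) *
      (1 / SatheSelberg.loglog N)) atTop (𝓝 0) := by
    have h1 := (hlim.const_mul C).mul ((tendsto_const_nhds (x := (1 : ℝ))).div_atTop hl)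
    rwa [mul_zero] at h1
  suffices hd : Tendsto (fun N : ℕ => (((Icc 1 N).filter fun n : ℕ => ω n = k N).card : ℝ) /
      ((N : ℝ) / Real.log N * (Real.log (Real.log N) ^ (k N - 1) / (k N - 1).factorial)) -
      (SatheSelberg.selConst (((k N - 1 : ℕ) : ℝ) / SatheSelberg.loglog N : ℝ)).re) atTop (𝓝 0) by
    have h1 := hd.add hφ
    simp only [sub_add_cancel, zero_add] at h1
    exact h1
  refine squeeze_zero_norm' ?_ herr
  filter_upwards [hk, eventually_ge_atTop 16,
    hlim.eventually (eventually_le_nhds (lt_add_one c))] with N hN h16 hkc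
  have hl1 := SatheSelberg.one_le_loglog h16
  have hL : 0 < Real.log N := zero_lt_one.trans_le (SatheSelberg.one_le_log_natCast (by omega))
  have h0 : 0 < SatheSelberg.omegaScale N (k N - 1) := by
    rw [SatheSelberg.omegaScale]
    have : (0 : ℝ) < N := Nat.cast_pos.2 (by omega)
    positivity
  have h' := h N h16 (k N) hN (by
    rwa [SatheSelberg.loglog,
      ← div_le_iff₀ (show 0 < Real.log (Real.log (N : ℝ)) from zero_lt_one.trans_le hl1)])
  rw [Real.norm_eq_abs, sathe_selberg_filter_eq, show ∀ N m : ℕ,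
    (N : ℝ) / Real.log N * (Real.log (Real.log N) ^ m / m.factorial) =
      SatheSelberg.omegaScale N m from fun _ _ => rfl, div_sub' h0.ne', abs_div,
    abs_of_pos h0, div_le_iff₀ h0]
  refine h'.trans (le_of_eq ?_)
  rw [SatheSelberg.loglog]
  ring

/-- **At the normal order**: as many numbers with `k ∼ log log N` prime factors as in Landau's
theorem for fixed `k`. -/
theorem sathe_selberg_normal_order (k : ℕ → ℕ)
    (hlim : Tendsto (fun N : ℕ => (k N : ℝ) / Real.log (Real.log N)) atTop (𝓝 1)) :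
    (fun N : ℕ => (((Icc 1 N).filter fun n : ℕ => ω n = k N).card : ℝ)) ~[atTop] fun N : ℕ =>
      (N : ℝ) / Real.log N * (Real.log (Real.log N) ^ (k N - 1) / (k N - 1).factorial) := by
  have hk : ∀ᶠ N in atTop, 1 ≤ k N := by
    filter_upwards [hlim.eventually (eventually_gt_nhds zero_lt_one)] with N hN
    rcases Nat.eq_zero_or_pos (k N) with h | h
    · simp [h] at hN
    · exact h
  have h := sathe_selberg_limit k hk hlim
  rw [← SatheSelberg.selbergProduct, SatheSelberg.selbergProduct_one,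
    show (1 : ℝ) + 1 = 2 by norm_num, Real.Gamma_two, div_one] at h
  exact isEquivalent_of_tendsto_one h

/-- The constant is positive. -/
theorem sathe_selberg_constant_pos {r : ℝ} (hr : 0 ≤ r) :
    0 < (∏' p : Nat.Primes, (1 + r / (((p : ℕ) : ℝ) - 1)) * (1 - 1 / ((p : ℕ) : ℝ)) ^ r) /
      Real.Gamma (r + 1) :=
  div_pos (SatheSelberg.selbergProduct_pos hr) (Real.Gamma_pos_of_pos (by linarith))

end FA.Summary

end
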