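import Fermat.Agent.Poincare.LevelOne
import Fermat.Agent.Poincare.Bound

/-!
# Summary: Poincaré series and Petersson's product

For `N ≥ 1`, an integer `k ≥ 3` and `m ≥ 1` the Poincaré series
`P_m(z) = ∑ e(m γ z) (c z + d) ^ (-k)` over coprime `(c, d)` with `N ∣ c` is a cusp form for
`Γ₀(N)`; its Petersson product with a cusp form is that form's `m`th coefficient up to a
positive constant; the `P_m` span the space; in weight twelve and level one `P_m = 0` exactly when
`τ(m) = 0`. The coefficients of the series are sums of Kloosterman sums times integrals (their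
identification with Bessel functions is not proved), and Weil's bound gives
`a_n ≪ n ^ (k/2 - 1/4) (1 + log n) ^ 6` for every cusp form; Deligne's bound is not proved.
For odd `k` the space and the series are zero.
-/

set_option autoImplicit false
set_option linter.style.haveILetI false

noncomputable section

namespace FA.Summary

open UpperHalfPlane hiding I
open CongruenceSubgroup MeasureTheory ModularGroup
open scoped MatrixGroups Modular ModularForm Real

variable {N : ℕ} [NeZero N] {k : ℤ} {m : ℕ}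

/-- **The Poincaré series is a cusp form**: whatever matrices with bottom row `(c, d)` are
chosen, the series converges absolutely to the value of `FA.Poincare.cuspForm`. -/
theorem poincareSeries_hasSum (hk : 3 ≤ k) (hm : m ≠ 0) (γ : (Fin 2 → ℤ) → SL(2, ℤ))
    (hγ : ∀ v : Fin 2 → ℤ, IsCoprime (v 0) (v 1) → γ v 1 = v) (z : ℍ) :
    HasSum (fun v : {v : Fin 2 → ℤ | IsCoprime (v 0) (v 1) ∧ (N : ℤ) ∣ v 0} =>
      Complex.exp (2 * π * Complex.I * m * (γ v.1 • z : ℍ)) *
        ((v.1 0 : ℂ) * z + v.1 1) ^ (-k)) (Poincare.cuspForm N hk hm z) := by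
  have h := (Poincare.summable_norm_term (N := N) (m := m) hk z).of_norm.hasSum
  rw [Poincare.cuspForm_apply]
  refine h.congr_fun fun v => ?_
  rw [Poincare.term_apply m k v.2.1, ← Poincare.smul_eq_of_row
    (fun n w => Poincare.kernel_T_zpow_smul m n w)
    ((hγ v.1 v.2.1).trans (Poincare.lift_row v.2.1).symm) z]
  rfl

/-- **Petersson's formula**: the product of `P_m` with `f`, a sum over the cosets of `Γ₀(N)` of
integrals over the standard domain, is `2 Γ(k - 1) (4 π m) ^ (1 - k) a_m(f)`. -/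
theorem petersson_poincare (hk : 3 ≤ k) (hm : m ≠ 0) (f : CuspForm (Gamma0 N) k) :
    (letI := Fintype.ofFinite (SL(2, ℤ) ⧸ Gamma0 N)
      ∑ x : SL(2, ℤ) ⧸ Gamma0 N,
        ∫ z in fdo, petersson k (Poincare.cuspForm N hk hm) f ((Quotient.out x)⁻¹ • z)) =
      ((2 * Real.Gamma (k - 1) / (4 * π * m) ^ ((k : ℝ) - 1) : ℝ) : ℂ) *
        (qExpansion 1 f).coeff m := by
  refine (Poincare.pairing_poincare hk hm f).trans ?_
  congr 2
  rw [one_div, Real.inv_rpow (by positivity), div_eq_mul_inv]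
  ring

/-- **The Poincaré series span** the cusp forms of weight `k ≥ 3` for `Γ₀(N)`. -/
theorem poincare_span (hk : 3 ≤ k) :
    Submodule.span ℂ (Set.range fun m : ℕ => Poincare.cuspForm N hk (Nat.succ_ne_zero m)) = ⊤ :=
  Poincare.span_poincare hk

/-- `P_m = 0` in weight twelve and level one exactly when `τ(m) = 0`. -/
theorem poincare_eq_zero_iff_tau (hm : m ≠ 0) :
    Poincare.cuspForm 1 (by norm_num : (3 : ℤ) ≤ 12) hm = 0 ↔
      (qExpansion 1 ModularForm.discriminant).coeff m = 0 :=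
  Poincare.poincare_twelve_eq_zero_iff hm

/-- The first Poincaré series of weight twelve and level one is nonzero. -/
theorem poincare_twelve_ne_zero :
    Poincare.cuspForm 1 (by norm_num : (3 : ℤ) ≤ 12) (one_ne_zero : (1 : ℕ) ≠ 0) ≠ 0 := fun h => by
  have h1 := (poincare_eq_zero_iff_tau one_ne_zero).1 h
  rw [ModularForm.discriminant_qExpansion_coeff_one] at h1
  exact one_ne_zero h1

/-- **The coefficients of a Poincaré series**, on any line `y > 0`. -/
theorem poincare_coefficient (hk : 3 ≤ k) (hm : m ≠ 0) (n : ℕ) {y : ℝ} (hy : 0 < y) :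
    HasSum (fun c : Poincare.moduli N => (1 + (-1) ^ k) * ((((c : ℕ) : ℂ) ^ (-k)) *
        (∑ x : (ZMod c)ˣ, ZMod.stdAddChar
          ((n : ZMod c) * (x : ZMod c) + (m : ZMod c) * ((x⁻¹ : (ZMod c)ˣ) : ZMod c))) *
        ∫ t : ℝ, ((t : ℂ) + y * Complex.I) ^ (-k) * Complex.exp (-(2 * π * Complex.I *
          (m / (((c : ℕ) : ℂ) ^ 2 * (t + y * Complex.I)) + n * (t + y * Complex.I))))))
      ((qExpansion 1 (Poincare.cuspForm N hk hm)).coeff n -
        (1 + (-1) ^ k) * if m = n then 1 else 0) :=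
  Poincare.coefficient hk hm n hy

/-- **The bound of Kloosterman and Weil**: `a_n ≪ n ^ (k/2 - 1/4) (1 + log n) ^ 6` for every cusp
form of weight `k ≥ 3` on `Γ₀(N)`. -/
theorem cuspForm_coeff_bound (hk : 3 ≤ k) (f : CuspForm (Gamma0 N) k) :
    ∃ C : ℝ, ∀ n : ℕ, 1 ≤ n → ‖(qExpansion 1 f).coeff n‖ ≤
      C * (n : ℝ) ^ ((k : ℝ) / 2 - 1 / 4) * (1 + Real.log n) ^ 6 :=
  Poincare.isKloostermanBounded hk f

/-- `|τ(n)| ≪ n ^ (23/4) (1 + log n) ^ 6`. -/
theorem ramanujanTau_bound : ∃ C : ℝ, ∀ n : ℕ, 1 ≤ n →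
    ‖(qExpansion 1 ModularForm.discriminant).coeff n‖ ≤
      C * (n : ℝ) ^ (23 / 4 : ℝ) * (1 + Real.log n) ^ 6 := by
  obtain ⟨C, hC⟩ := cuspForm_coeff_bound (by norm_num : (3 : ℤ) ≤ 12) Poincare.deltaOne
  exact ⟨C, fun n hn => (hC n hn).trans_eq (by norm_num)⟩

end FA.Summary

end
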