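import Fermat.Agent.WienerIkehara.Series

/-!
# The Wiener–Ikehara theorem

* `FA.Summary.wiener_ikehara`: if `S ≥ 0` is monotone and `∫_0^∞ S u e^(-(s+1) u) du - A / s`
  continues continuously to `0 ≤ re s`, then `S u / e ^ u → A`. No bound on `S u / e ^ u` is
  assumed, and the continuation need only be continuous.
* `FA.Summary.wiener_ikehara_dirichlet`: if `a n ≥ 0` and `∑ a n n ^ (-s) - A / (s - 1)` continues
  continuously to `1 ≤ re s`, then `(∑_{n ≤ x} a n) / x → A`.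
* `FA.Summary.wiener_ikehara_general_dirichlet`: the same for `∑ w i exp (-s x i)`.
-/

set_option autoImplicit false

noncomputable section

open MeasureTheory Filter Set Complex
open scoped Topology

namespace FA.Summary

/-- **The Wiener–Ikehara theorem.** -/
theorem wiener_ikehara {S : ℝ → ℝ} (hS : Monotone S) (hS0 : ∀ u, 0 ≤ S u) {A : ℝ} {G : ℂ → ℂ}
    (hint : ∀ σ > 1, IntegrableOn (fun u => S u * Real.exp (-(σ * u))) (Ioi 0))
    (hG : ContinuousOn G {s | 0 ≤ s.re})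
    (heq : ∀ s : ℂ, 0 < s.re →
      G s = (∫ u in Ioi (0 : ℝ), (S u : ℂ) * cexp (-((s + 1) * u))) - A / s) :
    Tendsto (fun u => S u * Real.exp (-u)) atTop (𝓝 A) :=
  FA.WienerIkehara.tendsto_of_laplace hS hS0 hint hG heq

/-- **Wiener–Ikehara for Dirichlet series with nonnegative coefficients.** -/
theorem wiener_ikehara_dirichlet {a : ℕ → ℝ} (ha : ∀ n, 0 ≤ a n)
    (hsum : ∀ σ : ℝ, 1 < σ → LSeriesSummable (fun n => (a n : ℂ)) σ) {A : ℝ} {G : ℂ → ℂ}
    (hG : ContinuousOn G {s | 1 ≤ s.re})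
    (heq : ∀ s : ℂ, 1 < s.re → G s = LSeries (fun n => (a n : ℂ)) s - A / (s - 1)) :
    Tendsto (fun x : ℝ => (∑ n ∈ Finset.Icc 1 ⌊x⌋₊, a n) / x) atTop (𝓝 A) :=
  FA.WienerIkehara.tendsto_sum_div ha hsum hG heq

/-- **Wiener–Ikehara for general Dirichlet series with nonnegative coefficients.** -/
theorem wiener_ikehara_general_dirichlet {ι : Type*} [Countable ι] {x w : ι → ℝ}
    (hx : ∀ i, 0 ≤ x i) (hw : ∀ i, 0 ≤ w i)
    (hsum : ∀ σ > 1, Summable fun i => w i * Real.exp (-(σ * x i))) {A : ℝ} {G : ℂ → ℂ}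
    (hG : ContinuousOn G {s | 1 ≤ s.re})
    (heq : ∀ s : ℂ, 1 < s.re → G s = (∑' i, (w i : ℂ) * cexp (-(s * x i))) - A / (s - 1)) :
    Tendsto (fun u => (∑' i, if x i ≤ u then w i else 0) * Real.exp (-u)) atTop (𝓝 A) :=
  FA.WienerIkehara.tendsto_weightSum hx hw hsum hG heq

end FA.Summary
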