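import Fermat.Agent.Tau.JInjective

/-!
# The `j`-invariant as a coordinate on `SL(2, ℤ) \ ℍ`

`j = E₄³/Δ` identifies the orbits of `SL(2, ℤ)` on the upper half plane with `ℂ`; a lattice in `ℂ`
is determined by `g₂` and `g₃`, and every pair with `g₂³ ≠ 27 g₃²` comes from a lattice.
-/

set_option autoImplicit false

noncomputable section

open UpperHalfPlane hiding I
open ModularForm EisensteinSeries
open scoped MatrixGroups

namespace FA.Summary

/-- **`j(z) = j(w)` exactly when `z` and `w` are equivalent under `SL(2, ℤ)`.** -/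
theorem jInvariant_eq_iff (z w : ℍ) :
    E₄ z ^ 3 / ModularForm.discriminant z = E₄ w ^ 3 / ModularForm.discriminant w ↔
      ∃ g : SL(2, ℤ), g • z = w :=
  FA.JInj.jfun_eq_iff z w

/-- **`j` is a bijection `SL(2, ℤ) \ ℍ → ℂ`.** -/
theorem jInvariant_bijective :
    ∃ e : MulAction.orbitRel.Quotient SL(2, ℤ) ℍ ≃ ℂ,
      ∀ z : ℍ, e ⟦z⟧ = E₄ z ^ 3 / ModularForm.discriminant z :=
  ⟨FA.JInj.orbitEquiv, fun _ => rfl⟩

/-- **The zeros of `E₆` are the orbit of `i`.** -/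
theorem eisensteinSix_eq_zero_iff (z : ℍ) :
    E₆ z = 0 ↔ ∃ g : SL(2, ℤ), g • UpperHalfPlane.I = z :=
  FA.JInj.E6_eq_zero_iff z

/-- **The zeros of `E₄` are the orbit of the primitive cube root of unity.** -/
theorem eisensteinFour_eq_zero_iff (z : ℍ) :
    E₄ z = 0 ↔ ∃ g : SL(2, ℤ), ((g • z : ℍ) : ℂ) ^ 2 + (g • z : ℍ) + 1 = 0 := by
  rw [FA.JInj.E4_eq_zero_iff]
  constructor
  · rintro ⟨g, rfl⟩
    exact ⟨g⁻¹, by rw [inv_smul_smul]; exact FA.ModField.rho_sq⟩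
  · rintro ⟨g, hg⟩
    refine ⟨g⁻¹, ?_⟩
    rw [eq_comm, ← inv_smul_smul g z]
    refine congrArg (g⁻¹ • ·) ?_
    generalize g • z = u at hg
    have h0 : ((u : ℂ) - FA.ModField.rho) * ((u : ℂ) + FA.ModField.rho + 1) = 0 := by
      linear_combination hg - FA.ModField.rho_sq
    refine UpperHalfPlane.ext (sub_eq_zero.mp ((mul_eq_zero.mp h0).resolve_right fun h1 => ?_))
    have := congrArg Complex.im h1
    simp at this
    linarith [u.im_pos, FA.ModField.rho.im_pos]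

/-- **A lattice is determined by `g₂` and `g₃`.** -/
theorem lattice_eq_iff_g₂_g₃ (L M : PeriodPair) :
    L.lattice = M.lattice ↔ L.g₂ = M.g₂ ∧ L.g₃ = M.g₃ :=
  FA.JInj.lattice_eq_iff L M

/-- **The uniformisation theorem**: every pair `(a, b)` with `a³ ≠ 27 b²` is `(g₂, g₃)` of a
lattice. -/
theorem exists_lattice_g₂_g₃ {a b : ℂ} (h : a ^ 3 - 27 * b ^ 2 ≠ 0) :
    ∃ L : PeriodPair, L.g₂ = a ∧ L.g₃ = b :=
  FA.JInj.exists_g₂_g₃ h

/-- **The discriminant of a lattice does not vanish.** -/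
theorem lattice_discriminant_ne_zero (L : PeriodPair) : L.g₂ ^ 3 - 27 * L.g₃ ^ 2 ≠ 0 := by
  obtain ⟨τ, c, hc, hL⟩ := FA.JInj.exists_latPair L
  have e2 : L.g₂ = (c ^ 4)⁻¹ * (FA.Mazur.Wp.latPair τ).g₂ := by
    rw [← FA.JInj.g₂_scalePair _ c hc, PeriodPair.g₂, PeriodPair.g₂, FA.JInj.G_congr hL]
  have e3 : L.g₃ = (c ^ 6)⁻¹ * (FA.Mazur.Wp.latPair τ).g₃ := by
    rw [← FA.JInj.g₃_scalePair _ c hc, PeriodPair.g₃, PeriodPair.g₃, FA.JInj.G_congr hL]
  rw [e2, e3, mul_pow, mul_pow, ← inv_pow, ← inv_pow, ← pow_mul, ← pow_mul, mul_left_comm,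
    ← mul_sub]
  exact mul_ne_zero (pow_ne_zero _ (inv_ne_zero hc))
    (FA.Mazur.Wp.discr_latPair_ne_zero τ)

end FA.Summary

end
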