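import Fermat.Agent.NearlyCyclic.Main
import Fermat.Agent.ReducedGroups.Exponent
import Mathlib.NumberTheory.PrimeCounting

/-!
# Reductions are nearly cyclic, on the Riemann hypothesis

For an integral equation with `Δ ≠ 0`, with or without complex multiplication, on the Riemann
hypothesis for all number fields (Duke):

* `nearly_cyclic_of_GRH`: for every `f → ∞` almost all primes have `exponent E(𝔽_p) ≥ p / f(p)`;
* `first_invariant_bounded_density_of_GRH`: the index of a largest cyclic subgroup of `E(𝔽_p)` is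
  bounded off a set of primes of arbitrarily small proportion.

The hypothesis is an argument and is never assumed.
-/

set_option autoImplicit false
set_option linter.style.haveILetI false

noncomputable section

open Finset Filter NumberField WeierstrassCurve FA.Frob FA.CyclicRed FA.ReducedGroups
open scoped WeierstrassCurve.Affine Classical Topology

namespace FA.NearlyCyclic

/-- `π N ≥ N / (3 log N)` from `64` on. -/
theorem third_le_primeCounting {n : ℕ} (hn : 64 ≤ n) :
    (n : ℝ) / (3 * Real.log n) ≤ Nat.primeCounting n := by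
  have hn64 : (64 : ℝ) ≤ n := by exact_mod_cast hn
  have hlog : 0 < Real.log n := Real.log_pos (by linarith)
  refine le_trans ?_ (Chebyshev.pi_ge n)
  have hsmall : Real.log ((n : ℝ) + 1) ≤ 0.3 * n := by
    have h0 : (0 : ℝ) < n + 1 := by linarith
    have h1 := Real.log_le_sub_one_of_pos (show (0 : ℝ) < (n + 1) / 8 by positivity)
    rw [Real.log_div h0.ne' (by norm_num), show (8 : ℝ) = 2 ^ 3 by norm_num, Real.log_pow] at h1
    push_cast at h1
    linarith [Real.log_two_lt_d9]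
  rw [div_le_div_iff₀ (by positivity) hlog]
  have hb : (n : ℝ) / 3 ≤ n * Real.log 2 - Real.log (n + 1) := by
    nlinarith [Real.log_two_gt_d9]
  nlinarith [mul_le_mul_of_nonneg_right hb hlog.le]

variable {W : WeierstrassCurve ℤ}

/-- A set inside `bigSet` and a finite set is `ε π N`. -/
theorem exists_share_le (hΔ : W.Δ ≠ 0) (hGRH : AllFieldsRH) {ε : ℝ} (hε : 0 < ε) :
    ∃ D : ℕ, ∀ (T : ℕ → Finset ℕ) (F : Finset ℕ), (∀ N, T N ⊆ bigSet W D N ∪ F) →
      ∀ᶠ N : ℕ in atTop, ((T N).card : ℝ) ≤ ε * Nat.primeCounting N := by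
  haveI := ratCurve_isElliptic_of_Δ hΔ
  obtain ⟨D, hD⟩ := exists_bigSet_le hΔ hGRH (show (0 : ℝ) < ε / 6 by linarith)
  refine ⟨D, fun T F hT => ?_⟩
  have hb : Tendsto (fun N : ℕ => (F.card : ℝ) * (Real.log N / N)) atTop (𝓝 0) := by
    have := ((Real.isLittleO_log_id_atTop.tendsto_div_nhds_zero).comp
      tendsto_natCast_atTop_atTop).const_mul (F.card : ℝ)
    simpa [Function.comp_def] using this
  filter_upwards [eventually_ge_atTop 64, hD,
    hb.eventually (eventually_le_nhds (show (0 : ℝ) < ε / 6 by linarith))] with N hN h1 h2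
  have hN0 : (0 : ℝ) < N := Nat.cast_pos.2 (by omega)
  have hL : 0 < Real.log (N : ℝ) := Real.log_pos (by exact_mod_cast (show 1 < N by omega))
  have h3 : ((T N).card : ℝ) ≤ (bigSet W D N).card + F.card := by
    exact_mod_cast (card_le_card (hT N)).trans (card_union_le _ _)
  have h4 : ((T N).card : ℝ) * (Real.log N / N) ≤ ε / 3 := by
    rw [mul_div_assoc] at h1
    nlinarith [mul_le_mul_of_nonneg_right h3 (show 0 ≤ Real.log (N : ℝ) / N by positivity)]
  rw [← mul_div_assoc, div_le_iff₀ hN0] at h4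
  have h5 := mul_le_mul_of_nonneg_left (third_le_primeCounting hN) hε.le
  refine le_trans ?_ h5
  rw [← mul_div_assoc, le_div_iff₀ (by positivity)]
  linarith

/-- Where the exponent times `D` is below the order, some level above `D` is full. -/
theorem mem_bigSet {p D : ℕ} [hp : Fact p.Prime] {N : ℕ} (hpN : p ∈ Icc 1 N)
    (hΔ : W.Δ ≠ 0) (hbad : p ∉ badPrimes W)
    (h : D * AddMonoid.exponent (W.map (Int.castRingHom (ZMod p))).toAffine.Point <
      Nat.card (W.map (Int.castRingHom (ZMod p))).toAffine.Point) :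
    p ∈ bigSet W D N := by
  haveI := ratCurve_isElliptic_of_Δ hΔ
  obtain ⟨h3, hgood⟩ := good_of_not_mem hΔ hp.out hbad
  obtain ⟨d, -, hde, -, hfull, -⟩ := exists_structure (W := W) h3 hgood
  refine mem_filter.2 ⟨hpN, hp.out, hbad, d, ?_, hfull⟩
  by_contra hle
  have hcard : (Nat.card (W.map (Int.castRingHom (ZMod p))).toAffine.Point : ℤ) =
      (p : ℤ) + 1 - W.apOfModel p := by
    show _ = (p : ℤ) + 1 - ((Nat.card (ZMod p) : ℤ) + 1 - _)
    rw [Nat.card_zmod, sub_sub_cancel]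
    rfl
  rw [← hcard, ← Nat.cast_mul, Nat.cast_inj] at hde
  exact h.not_ge (hde ▸ Nat.mul_le_mul_right _ (not_lt.1 hle))

/-- From `8` on a reduction has at least `p / 4` points. -/
theorem quarter_le_card {p : ℕ} [hp : Fact p.Prime] (h8 : 8 ≤ p) (hgood : W.IsGoodPrimeFor p) :
    p ≤ 4 * Nat.card (W.map (Int.castRingHom (ZMod p))).toAffine.Point := by
  haveI := ratCurve_isElliptic W (l := p) hgood
  haveI : (W.map (Int.castRingHom (ZMod p))).IsElliptic :=
    FA.PointDiv.reductionMod_isElliptic W hgood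
  have h := FA.HasseBound.traceOfFrobenius_sq_le (W.map (Int.castRingHom (ZMod p)))
  obtain ⟨a, ha⟩ : ∃ a, a = (W.map (Int.castRingHom (ZMod p))).traceOfFrobenius := ⟨_, rfl⟩
  have hcard : (Nat.card (W.map (Int.castRingHom (ZMod p))).toAffine.Point : ℤ) =
      (p : ℤ) + 1 - a := by
    rw [ha]
    show _ = (p : ℤ) + 1 - ((Nat.card (ZMod p) : ℤ) + 1 - _)
    rw [Nat.card_zmod, sub_sub_cancel]
    rfl
  rw [← ha] at h
  zify
  rw [hcard]
  nlinarith [(Int.ofNat_le.2 h8 : (8 : ℤ) ≤ p), sq_nonneg (a + p)]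

theorem exceptions_subset {f : ℕ → ℝ} {D : ℕ} {p0 : ℕ} (hΔ : W.Δ ≠ 0)
    (hf : ∀ p, p0 ≤ p → 4 * (D : ℝ) + 1 ≤ f p) (N : ℕ) :
    ((Icc 1 N).filter fun p : ℕ => ∃ _ : Fact p.Prime, ¬ (p : ℤ) ∣ W.Δ ∧
      (AddMonoid.exponent (W.map (Int.castRingHom (ZMod p))).toAffine.Point : ℝ) * f p < p) ⊆
      bigSet W D N ∪ (badPrimes W ∪ range (p0 + 8)) := fun p hp => by
  obtain ⟨hpI, hpf, hgood, he⟩ := mem_filter.1 hp
  rw [mem_union, mem_union, mem_range]
  by_cases hbad : p ∈ badPrimes W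
  · exact Or.inr (Or.inl hbad)
  by_cases hsmall : p < p0 + 8
  · exact Or.inr (Or.inr hsmall)
  refine Or.inl (mem_bigSet hpI hΔ hbad ?_)
  have h4 := quarter_le_card (W := W) (show 8 ≤ p by omega) hgood
  obtain ⟨e, hedef⟩ : ∃ e,
      e = AddMonoid.exponent (W.map (Int.castRingHom (ZMod p))).toAffine.Point := ⟨_, rfl⟩
  rw [← hedef] at he ⊢
  have h5 : (p : ℝ) ≤ 4 * Nat.card (W.map (Int.castRingHom (ZMod p))).toAffine.Point := by
    exact_mod_cast h4
  rw [← Nat.cast_lt (α := ℝ), Nat.cast_mul]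
  nlinarith [mul_le_mul_of_nonneg_left (hf p (by omega)) (Nat.cast_nonneg (α := ℝ) e),
    Nat.cast_nonneg (α := ℝ) e]

theorem invariant_subset {D : ℕ} (hΔ : W.Δ ≠ 0) (N : ℕ) :
    ((Icc 1 N).filter fun p : ℕ => ∃ _ : Fact p.Prime, ¬ (p : ℤ) ∣ W.Δ ∧
      D * AddMonoid.exponent (W.map (Int.castRingHom (ZMod p))).toAffine.Point <
        Nat.card (W.map (Int.castRingHom (ZMod p))).toAffine.Point) ⊆
      bigSet W D N ∪ badPrimes W := fun p hp => by
  obtain ⟨hpI, hpf, -, h⟩ := mem_filter.1 hp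
  rw [mem_union]
  by_cases hbad : p ∈ badPrimes W
  exacts [Or.inr hbad, Or.inl (mem_bigSet hpI hΔ hbad h)]

end FA.NearlyCyclic

namespace FA.Summary

/-- **Duke's theorem, reductions are nearly cyclic**, on the Riemann hypothesis: for every
`f → ∞` almost all good primes have `exponent E(𝔽_p) ≥ p / f(p)`. -/
theorem nearly_cyclic_of_GRH (W : WeierstrassCurve ℤ) (hΔ : W.Δ ≠ 0)
    (hGRH : ∀ (K : Type) [Field K] [NumberField K] (E : ℂ → ℂ), Differentiable ℂ E →
      (∀ s : ℂ, 1 < s.re → E s = (s - 1) * dedekindZeta K s) →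
      ∀ z : ℂ, E z = 0 → 0 < z.re → z.re < 1 → z.re = 1 / 2)
    (f : ℕ → ℝ) (hf : Tendsto f atTop atTop) :
    Tendsto (fun N : ℕ => (((Icc 1 N).filter fun p : ℕ => ∃ _ : Fact p.Prime,
        ¬ (p : ℤ) ∣ W.Δ ∧
          (AddMonoid.exponent (W.map (Int.castRingHom (ZMod p))).toAffine.Point : ℝ) * f p <
            p).card : ℝ) / Nat.primeCounting N) atTop (𝓝 0) := by
  rw [Metric.tendsto_nhds]
  intro ε hε
  obtain ⟨D, hD⟩ := FA.NearlyCyclic.exists_share_le hΔ hGRH (show (0 : ℝ) < ε / 2 by linarith)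
  obtain ⟨p0, hp0⟩ := eventually_atTop.1 (hf.eventually_ge_atTop (4 * (D : ℝ) + 1))
  filter_upwards [hD _ _ (FA.NearlyCyclic.exceptions_subset hΔ hp0)] with N hN
  rw [dist_zero_right, Real.norm_eq_abs,
    abs_of_nonneg (div_nonneg (Nat.cast_nonneg _) (Nat.cast_nonneg _))]
  exact (div_le_of_le_mul₀ (Nat.cast_nonneg _) (by linarith) hN).trans_lt (by linarith)

/-- **The first invariant is bounded in density**, on the Riemann hypothesis: for `ε > 0` some `D`
leaves at most `ε π(x)` good primes with `D · exponent E(𝔽_p) < #E(𝔽_p)`. -/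
theorem first_invariant_bounded_density_of_GRH (W : WeierstrassCurve ℤ) (hΔ : W.Δ ≠ 0)
    (hGRH : ∀ (K : Type) [Field K] [NumberField K] (E : ℂ → ℂ), Differentiable ℂ E →
      (∀ s : ℂ, 1 < s.re → E s = (s - 1) * dedekindZeta K s) →
      ∀ z : ℂ, E z = 0 → 0 < z.re → z.re < 1 → z.re = 1 / 2)
    {ε : ℝ} (hε : 0 < ε) :
    ∃ D : ℕ, ∀ᶠ N : ℕ in atTop, (((Icc 1 N).filter fun p : ℕ => ∃ _ : Fact p.Prime,
        ¬ (p : ℤ) ∣ W.Δ ∧
          D * AddMonoid.exponent (W.map (Int.castRingHom (ZMod p))).toAffine.Point <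
            Nat.card (W.map (Int.castRingHom (ZMod p))).toAffine.Point).card : ℝ) ≤
      ε * Nat.primeCounting N := by
  obtain ⟨D, hD⟩ := FA.NearlyCyclic.exists_share_le hΔ hGRH hε
  exact ⟨D, hD _ _ (FA.NearlyCyclic.invariant_subset hΔ)⟩

end FA.Summary

end
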