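import Fermat.Agent.PrimesMinusOne.Titchmarsh
import Fermat.Agent.PrimesMinusOne.Goldfeld
import Fermat.Agent.PrimesMinusOne.EulerConst

/-!
# The numbers `p - 1`: Brun-Titchmarsh, Titchmarsh's divisor problem, Goldfeld's theorem

`π (x; q, a) ≤ C x / (φ q log (x / q))`; `∑_{p ≤ x} τ (p - 1) ∼ c x` with
`c = ζ 2 ζ 3 / ζ 6` (Linnik 1961, by the proof of Rodriquez and Halberstam); a positive proportion
of the primes `p ≤ x` have a prime factor of `p - 1` above `x ^ (1/2 + 1/400)` (Goldfeld, 1969).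

The thresholds are ineffective, `C = 24` is not `2`, and `1/400` is not Goldfeld's exponent. This
does NOT give the exponent `2/3` that the first case of Fermat's last theorem needs.
-/

set_option autoImplicit false

noncomputable section

namespace FA.PrimesMinusOne.Summary

open Finset Filter
open scoped Topology

/-- **The inequality of Brun and Titchmarsh.** -/
theorem brun_titchmarsh (N q a : ℕ) (hq : 0 < q) (hqN : q < N) :
    (((Icc 1 N).filter fun p => p.Prime ∧ p ≡ a [MOD q]).card : ℝ) ≤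
      24 * N / ((q.totient : ℕ) * Real.log ((N : ℝ) / q)) :=
  FA.PrimesMinusOne.brunTitchmarsh hq hqN

/-- **Mertens' first theorem.** -/
theorem mertens_first (n : ℕ) (hn : 1 ≤ n) :
    |∑ d ∈ Ioc 0 n, ArithmeticFunction.vonMangoldt d / d - Real.log n| ≤ 6 :=
  FA.PrimesMinusOne.abs_sum_vonMangoldt_div_sub_le hn

/-- The constant is `ζ 2 ζ 3 / ζ 6`. -/
theorem titchmarshConst_spec :
    1 ≤ FA.PrimesMinusOne.titchmarshConst ∧
      (FA.PrimesMinusOne.titchmarshConst : ℂ) * riemannZeta 6 = riemannZeta 2 * riemannZeta 3 :=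
  ⟨one_le_titchmarshConst, titchmarshConst_zeta⟩

/-- `∑_{d ≤ n} 1 / φ d ∼ (ζ 2 ζ 3 / ζ 6) log n` (Landau). -/
theorem sum_inv_totient :
    Tendsto (fun n : ℕ => (∑ d ∈ Icc 1 n, ((d.totient : ℕ) : ℝ)⁻¹) / Real.log n) atTop
      (𝓝 FA.PrimesMinusOne.titchmarshConst) :=
  tendsto_sum_inv_totient

/-- **The divisor problem of Titchmarsh.** -/
theorem titchmarsh_divisor_problem :
    Tendsto (fun N : ℕ =>
      (∑ p ∈ (Icc 1 N).filter Nat.Prime, ((p - 1).divisors.card : ℝ)) / N) atTop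
      (𝓝 FA.PrimesMinusOne.titchmarshConst) := by
  refine tendsto_divisorSum.congr fun N => ?_
  rw [divisorSum]
  push_cast
  rfl

open Classical in
/-- **Goldfeld's theorem**: a positive proportion of the primes. -/
theorem goldfeld : ∀ᶠ N : ℕ in atTop,
    (((Icc 1 N).filter Nat.Prime).card : ℝ) / 8 ≤
      (((Icc 1 N).filter fun p => p.Prime ∧ ∃ q : ℕ, q.Prime ∧ q ∣ p - 1 ∧
        (N : ℝ) ^ ((1 : ℝ) / 2 + 1 / 400) < q).card : ℝ) := by
  rw [show (1 : ℝ) / 2 + 1 / 400 = 201 / 400 by norm_num]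
  exact eventually_largePrimes

/-- Infinitely many primes `p` have a prime factor of `p - 1` above `p ^ (1/2 + 1/400)`. -/
theorem goldfeld_infinite :
    {p : ℕ | p.Prime ∧ ∃ q : ℕ, q.Prime ∧ q ∣ p - 1 ∧
      (p : ℝ) ^ ((1 : ℝ) / 2 + 1 / 400) < q}.Infinite := by
  classical
  refine Set.infinite_of_forall_exists_gt fun a => ?_
  obtain ⟨s, hs, hcard⟩ := Nat.infinite_setOfPred_prime.exists_subset_card_eq (8 * (a + 2))
  obtain ⟨N, hN, hNs⟩ := (goldfeld.and (eventually_ge_atTop (s.sup id))).exists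
  have h1 : 8 * (a + 2) ≤ ((Icc 1 N).filter Nat.Prime).card :=
    hcard ▸ card_le_card fun p hp => mem_filter.2
      ⟨mem_Icc.2 ⟨(hs hp).one_le, (le_sup (f := id) hp).trans hNs⟩, hs hp⟩
  obtain ⟨G, hG⟩ : ∃ G, G = (Icc 1 N).filter fun p => p.Prime ∧ ∃ q : ℕ, q.Prime ∧ q ∣ p - 1 ∧
      (N : ℝ) ^ ((1 : ℝ) / 2 + 1 / 400) < q := ⟨_, rfl⟩
  have h2 : a + 1 < G.card := by
    have : ((8 * (a + 2) : ℕ) : ℝ) ≤ ((Icc 1 N).filter Nat.Prime).card := Nat.cast_le.2 h1
    push_cast at this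
    rw [← Nat.cast_lt (α := ℝ), hG]
    push_cast
    linarith
  obtain ⟨p, hp, hpa⟩ : ∃ p ∈ G, a < p := by
    by_contra hcon
    push Not at hcon
    have := card_le_card (t := Icc 1 (a + 1)) fun p hp => mem_Icc.2
      ⟨(mem_Icc.1 (mem_filter.1 (hG ▸ hp)).1).1, (hcon p hp).trans (Nat.le_succ a)⟩
    rw [Nat.card_Icc] at this
    omega
  rw [hG, mem_filter, mem_Icc] at hp
  obtain ⟨⟨-, hpN⟩, hpp, q, hq, hqd, hlt⟩ := hp
  exact ⟨p, ⟨hpp, q, hq, hqd, (Real.rpow_le_rpow (Nat.cast_nonneg p) (Nat.cast_le.2 hpN)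
    (by norm_num)).trans_lt hlt⟩, hpa⟩

end FA.PrimesMinusOne.Summary
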