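import Fermat.Agent.GoodReduction.Semistable
import Fermat.Agent.GoodReduction.LocalFactor
import Fermat.Agent.Root.SummaryMultiplicityOne

/-!
# Strong multiplicity one for all elliptic curves over `ℚ`

An elliptic curve over `ℚ` is semistable at `q` exactly when inertia acts unipotently on its
`p`-power torsion, `p ≠ q`, and unipotence is read off from the traces. So two curves with the same
`a_l` at almost all primes have good, multiplicative and additive reduction at the same primes,
the same `a_q` where it is good, the same sign where it is multiplicative, and trivial factors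
where it is additive: their L-functions are equal.
-/

set_option autoImplicit false
set_option linter.style.haveILetI false
set_option linter.unusedSectionVars false

noncomputable section

open WeierstrassCurve WeierstrassCurve.Affine FA.EC FA.Frob FA.RT FA.RT.Tate FA.GoodReduction
open scoped WeierstrassCurve.Affine

local notation "Qb" => AlgebraicClosure ℚ
local notation "GQ" => AlgebraicClosure ℚ ≃ₐ[ℚ] AlgebraicClosure ℚ

namespace FA.Summary

/-- **Grothendieck's criterion for semistable reduction**, at every prime `q` and with no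
hypothesis on the reduction: an elliptic curve over `ℚ` has good or multiplicative reduction at
`q` exactly when every element of inertia above `q` acts unipotently on the points of `p`-power
order, for one prime `p ≠ q`. -/
theorem semistableAt_iff_unipotent (E : WeierstrassCurve ℚ) [E.IsElliptic]
    [inst : DecidableEq (AlgebraicClosure ℚ)] {q : ℕ} [Fact q.Prime]
    {p : ℕ} (hp : p.Prime) (hpq : p ≠ q) :
    (∃ C : VariableChange ℚ_[q], HasGoodReduction ℤ_[q] (C • E.map (algebraMap ℚ ℚ_[q])) ∨
        HasMultiplicativeReduction ℤ_[q] (C • E.map (algebraMap ℚ ℚ_[q]))) ↔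
      ∀ A : ValuationSubring (AlgebraicClosure ℚ), A.LiesOverPrime q →
        ∀ σ ∈ A.inertiaSubgroupIn ℚ, ∀ (n : ℕ) (P : (E.toAffine⁄(AlgebraicClosure ℚ)).Point),
          (p ^ n : ℕ) • P = 0 →
            Affine.Point.map σ.toAlgHom (Affine.Point.map σ.toAlgHom P - P) =
              Affine.Point.map σ.toAlgHom P - P := by
  obtain rfl : inst = instDecEqAlgebraicClosureRat := Subsingleton.elim _ _
  have := Fact.mk hp
  have hq : q.Prime := Fact.out
  constructor
  · rintro hred A hA σ hσ n P hP
    obtain ⟨W, hW, hs⟩ := FA.OggShafarevich.exists_model_semistableAt E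
      (FA.Root.isSemistableAt_of_reduction E hred.choose_spec)
    have hΔ := FA.Frob.Δ_ne_zero_of_model hW
    haveI := FA.Frob.ratCurve_isElliptic_of_Δ hΔ
    obtain ⟨e, he⟩ := FA.Root.exists_equiv_of_model hW
    obtain ⟨B⟩ := exists_tateBasis (p := p) W
    have hu : (B.rep σ - 1) * (B.rep σ - 1) = 0 := by
      by_cases hd : (q : ℤ) ∣ W.Δ
      · exact FA.Two.rep_inertia_mult B ⟨hΔ, hq, hd, fun h => hs ⟨hd, h⟩, hA⟩ hpq.symm hσ hσ
      · rw [B.rep_inertia_good hq hA hpq.symm hd hσ, sub_self, mul_zero]
    obtain ⟨x, rfl⟩ := e.surjective P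
    rw [← he, ← map_sub, ← he,
      (rep_sub_one_sq_iff B σ).mp hu n x (e.injective (by rw [map_nsmul, hP, map_zero]))]
  intro h
  obtain ⟨A, hA⟩ := FA.Deform.exists_liesOverPrime hq
  by_cases hj : 0 ≤ padicValRat q E.j
  · -- potentially good: the action is trivial
    obtain ⟨W, hW⟩ := FA.Frob.exists_integralModel E
    haveI := FA.Frob.ratCurve_isElliptic_of_Δ (FA.Frob.Δ_ne_zero_of_model hW)
    obtain ⟨e, he⟩ := FA.Root.exists_equiv_of_model hW
    obtain ⟨B⟩ := exists_tateBasis (p := p) W
    obtain ⟨C, hC⟩ := (neronOggShafarevich_all E hp hpq).mpr fun A hA σ hσ n P hP => by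
      obtain ⟨K, hK, hfix⟩ := exists_field_inertia_fixes_torsion E hj hA
      have : Finite (GQ ⧸ K.fixingSubgroup) :=
        Subgroup.quotient_finite_of_isOpen _ (IntermediateField.fixingSubgroup_isOpen K)
      have : K.fixingSubgroup.FiniteIndex := Subgroup.finiteIndex_of_finite_quotient
      obtain ⟨k, hk, -, hmem⟩ := Subgroup.exists_pow_mem_of_index_ne_zero
        (H := K.fixingSubgroup) Subgroup.FiniteIndex.index_ne_zero σ
      have hu : (B.rep σ - 1) * (B.rep σ - 1) = 0 := (rep_sub_one_sq_iff B σ).mpr fun m x hx =>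
        e.injective (by
          rw [he, map_sub, he]
          exact h A hA σ hσ m (e x) (by rw [← map_nsmul, hx, map_zero]))
      have h1 : B.rep (σ ^ k) = 1 := B.ext_phi fun m v => by
        rw [← B.rep_spec, Matrix.one_mulVec]
        exact e.injective (by
          rw [he]
          exact hfix (σ ^ k) (pow_mem hσ k)
            ((IntermediateField.mem_fixingSubgroup_iff _ _).mp hmem) p hp hpq m _
            (by rw [← map_nsmul, B.nsmul_phi, map_zero]))
      rw [map_pow, FA.PadicImage.pow_eq_of_sq_eq_zero hu, add_eq_left] at h1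
      have hσ1 : B.rep σ = 1 := by
        rw [← sub_eq_zero]
        ext i j
        have h2 := congrFun (congrFun h1 i) j
        simp only [Matrix.smul_apply, smul_eq_mul, Matrix.zero_apply] at h2
        exact (mul_eq_zero.mp h2).resolve_left (Nat.cast_ne_zero.mpr hk.ne')
      obtain ⟨x, rfl⟩ := e.surjective P
      obtain ⟨v, rfl⟩ := B.surj n x (e.injective (by rw [map_nsmul, hP, map_zero]))
      rw [← he, B.rep_spec, hσ1, Matrix.one_mulVec]
    exact ⟨C, Or.inl hC⟩
  -- a pole: the twisting character is trivial on inertia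
  obtain ⟨d, hd, W, hW, hdvd, hc⟩ :=
    FA.OggShafarevich.exists_multiplicative_twist E (not_le.mp hj)
  haveI := FA.Root.quadTwist_isElliptic E hd
  have hΔ := FA.Frob.Δ_ne_zero_of_model hW
  haveI := FA.Frob.ratCurve_isElliptic_of_Δ hΔ
  obtain ⟨e, he⟩ := FA.Root.exists_equiv_of_model hW
  obtain ⟨B⟩ := exists_tateBasis (p := p) W
  obtain ⟨s, t, hs, ht⟩ := FA.Root.exists_twist_equiv_sqrt E hd
  refine FA.Root.exists_reduction_of_isSemistableAt E
    (isSemistableAt_of_twist_fixed hA hd hW (fun h' => hc h'.2) hs fun σ hσ => ?_)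
  by_contra hne
  have hneg : σ s = -s := by
    have h2 : σ s ^ 2 = s ^ 2 := by rw [← map_pow, hs, σ.commutes]
    exact (sq_eq_sq_iff_eq_or_eq_neg.mp h2).resolve_left hne
  have hu := FA.Two.rep_inertia_mult B (A := A) ⟨hΔ, hq, hdvd, hc, hA⟩ hpq.symm hσ hσ
  have hu' : (-B.rep σ - 1) * (-B.rep σ - 1) = 0 := B.ext_phi fun n v => by
    set x := B.φ n v
    have hx : p ^ n • x = 0 := B.nsmul_phi n v
    rw [← Matrix.mulVec_mulVec, Matrix.sub_mulVec, Matrix.one_mulVec, Matrix.neg_mulVec, map_sub,
      map_neg, ← B.rep_spec, Matrix.sub_mulVec, Matrix.one_mulVec, Matrix.neg_mulVec, map_sub,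
      map_neg, ← B.rep_spec, Matrix.zero_mulVec, map_zero, sub_eq_zero]
    have h0 := h A hA σ hσ n (t (e x)) (by
      rw [← map_nsmul, ← map_nsmul, hx, map_zero, map_zero])
    rw [(ht σ (e x)).2 hneg, Affine.Point.algEquiv_smul_def, ← he, ← map_neg, ← map_neg,
      ← map_sub, ← map_sub, (ht σ _).2 hneg, Affine.Point.algEquiv_smul_def, ← he, ← map_neg,
      ← map_neg] at h0
    exact e.injective (t.injective h0)
  have htr := trace_eq_two hu
  have htr' := trace_eq_two hu'
  rw [Matrix.trace_neg, htr] at htr'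
  have h4 : ((4 : ℕ) : ℤ_[p]) = 0 := by push_cast; linear_combination -htr'
  exact absurd h4 (Nat.cast_ne_zero.mpr (by norm_num))

/-- **Equal traces give the same semistable primes**: two elliptic curves over `ℚ` with the same
`a_l` at almost all primes have good or multiplicative reduction at the same primes, so with
`good_iff_of_traces` the same multiplicative and the same additive primes. -/
theorem semistable_iff_of_traces (E E' : WeierstrassCurve ℚ) [E.IsElliptic] [E'.IsElliptic]
    (S : Finset ℕ) (heq : ∀ l : ℕ, l.Prime → l ∉ S → E.LFunction l = E'.LFunction l)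
    {q : ℕ} [Fact q.Prime] :
    (∃ C : VariableChange ℚ_[q], HasGoodReduction ℤ_[q] (C • E.map (algebraMap ℚ ℚ_[q])) ∨
        HasMultiplicativeReduction ℤ_[q] (C • E.map (algebraMap ℚ ℚ_[q]))) ↔
      ∃ C : VariableChange ℚ_[q], HasGoodReduction ℤ_[q] (C • E'.map (algebraMap ℚ ℚ_[q])) ∨
        HasMultiplicativeReduction ℤ_[q] (C • E'.map (algebraMap ℚ ℚ_[q])) := by
  obtain ⟨p, hpq, hp⟩ := Nat.exists_infinite_primes (q + 1)
  have := Fact.mk hp
  suffices key : ∀ (F F' : WeierstrassCurve ℚ) [F.IsElliptic] [F'.IsElliptic],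
      (∀ l : ℕ, l.Prime → l ∉ S → F.LFunction l = F'.LFunction l) →
      (∀ A : ValuationSubring Qb, A.LiesOverPrime q → ∀ σ ∈ A.inertiaSubgroupIn ℚ,
        ∀ (n : ℕ) (P : (F.toAffine⁄Qb).Point), p ^ n • P = 0 →
          Affine.Point.map σ.toAlgHom (Affine.Point.map σ.toAlgHom P - P) =
            Affine.Point.map σ.toAlgHom P - P) →
      ∀ A : ValuationSubring Qb, A.LiesOverPrime q → ∀ σ ∈ A.inertiaSubgroupIn ℚ,
        ∀ (n : ℕ) (P : (F'.toAffine⁄Qb).Point), p ^ n • P = 0 →
          Affine.Point.map σ.toAlgHom (Affine.Point.map σ.toAlgHom P - P) =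
            Affine.Point.map σ.toAlgHom P - P by
    rw [semistableAt_iff_unipotent E hp (by omega : p ≠ q),
      semistableAt_iff_unipotent E' hp (by omega : p ≠ q)]
    exact ⟨key E E' heq, key E' E fun l hl hlS => (heq l hl hlS).symm⟩
  intro F F' _ _ hF h A hA σ hσ n P hP
  obtain ⟨W, hW⟩ := FA.Frob.exists_integralModel F
  obtain ⟨W', hW'⟩ := FA.Frob.exists_integralModel F'
  haveI := FA.Frob.ratCurve_isElliptic_of_Δ (FA.Frob.Δ_ne_zero_of_model hW)
  haveI := FA.Frob.ratCurve_isElliptic_of_Δ (FA.Frob.Δ_ne_zero_of_model hW')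
  obtain ⟨e, he⟩ := FA.Root.exists_equiv_of_model hW
  obtain ⟨e', he'⟩ := FA.Root.exists_equiv_of_model hW'
  obtain ⟨B⟩ := exists_tateBasis (p := p) W
  obtain ⟨B'⟩ := exists_tateBasis (p := p) W'
  have hu : (B.rep σ - 1) * (B.rep σ - 1) = 0 := (rep_sub_one_sq_iff B σ).mpr fun m x hx =>
    e.injective (by
      rw [he, map_sub, he]
      exact h A hA σ hσ m (e x) (by rw [← map_nsmul, hx, map_zero]))
  have hu' := sub_one_sq_of_trace
    ((FA.TorsionIso.trace_rep_eq_of_LFunction hW hW' B B' S hF σ).symm.trans (trace_eq_two hu))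
    (det_rep_inertia B' (Fact.out : q.Prime) (by omega) hA hσ)
  obtain ⟨x, rfl⟩ := e'.surjective P
  rw [← he', ← map_sub, ← he',
    (rep_sub_one_sq_iff B' σ).mp hu' n x (e'.injective (by rw [map_nsmul, hP, map_zero]))]

/-- **The coefficients at an additive prime vanish**, for every equation. -/
theorem LFunction_eq_zero_of_additive (E : WeierstrassCurve ℚ) [E.IsElliptic] {q : ℕ}
    [Fact q.Prime]
    (h : ¬ ∃ C : VariableChange ℚ_[q],
      HasGoodReduction ℤ_[q] (C • E.map (algebraMap ℚ ℚ_[q])) ∨
        HasMultiplicativeReduction ℤ_[q] (C • E.map (algebraMap ℚ ℚ_[q])))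
    {k : ℕ} (hk : 0 < k) : E.LFunction (q ^ k) = 0 :=
  FA.GoodReduction.LFunction_prime_pow_eq_zero E
    (fun hs => h (FA.Root.exists_reduction_of_isSemistableAt E hs)) hk

/-- **Strong multiplicity one for every elliptic curve over `ℚ`**: if two elliptic curves over `ℚ`
have the same `a_l` at almost all primes, then their L-functions are equal, in every coefficient,
the bad primes included. -/
theorem LFunction_eq_of_traces (E E' : WeierstrassCurve ℚ) [E.IsElliptic] [E'.IsElliptic]
    (S : Finset ℕ) (heq : ∀ l : ℕ, l.Prime → l ∉ S → E.LFunction l = E'.LFunction l) :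
    E.LFunction = E'.LFunction := by
  have hL := FA.Root.isMultiplicative_LFunction E
  have hL' := FA.Root.isMultiplicative_LFunction E'
  ext m
  induction m using Nat.recOnPosPrimePosCoprime with
  | zero => rw [ArithmeticFunction.map_zero, ArithmeticFunction.map_zero]
  | one => rw [hL.map_one, hL'.map_one]
  | coprime a b _ _ hab iha ihb =>
    rw [hL.map_mul_of_coprime hab, hL'.map_mul_of_coprime hab, iha, ihb]
  | prime_pow q k hq hk =>
    have := Fact.mk hq
    by_cases hgood : ∃ C : VariableChange ℚ_[q],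
        HasGoodReduction ℤ_[q] (C • E.map (algebraMap ℚ ℚ_[q]))
    · have hgood' := (good_iff_of_traces E E' S heq).mp hgood
      obtain ⟨W, hW, hd⟩ := FA.CM.Deuring.exists_model_not_dvd E hgood
      obtain ⟨W', hW', hd'⟩ := FA.CM.Deuring.exists_model_not_dvd E' hgood'
      have ha : W.apOfModel q = W'.apOfModel q := by
        rw [← FA.Root.LFunction_apply_prime E W hW hq hd,
          ← FA.Root.LFunction_apply_prime E' W' hW' hq hd']
        exact traces_eq_of_good E E' S heq hgood
      clear hk
      induction k using Nat.twoStepInduction with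
      | zero => rw [pow_zero, hL.map_one, hL'.map_one]
      | one => rw [pow_one, FA.Root.LFunction_apply_prime E W hW hq hd,
          FA.Root.LFunction_apply_prime E' W' hW' hq hd', ha]
      | more r ih1 ih2 => rw [FA.Root.LFunction_apply_prime_pow_good E W hW hq hd r,
          FA.Root.LFunction_apply_prime_pow_good E' W' hW' hq hd' r, ha, ih1, ih2]
    by_cases hss : ∃ C : VariableChange ℚ_[q],
        HasGoodReduction ℤ_[q] (C • E.map (algebraMap ℚ ℚ_[q])) ∨
          HasMultiplicativeReduction ℤ_[q] (C • E.map (algebraMap ℚ ℚ_[q]))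
    · have hss' := (semistable_iff_of_traces E E' S heq).mp hss
      obtain ⟨W, hW, hs⟩ := FA.OggShafarevich.exists_model_semistableAt E
        (FA.Root.isSemistableAt_of_reduction E hss.choose_spec)
      obtain ⟨W', hW', hs'⟩ := FA.OggShafarevich.exists_model_semistableAt E'
        (FA.Root.isSemistableAt_of_reduction E' hss'.choose_spec)
      have hd : (q : ℤ) ∣ W.Δ :=
        by_contra fun hd => hgood (FA.Root.exists_good_of_model hW q hd)
      have hd' : (q : ℤ) ∣ W'.Δ := by_contra fun hd' =>
        hgood ((good_iff_of_traces E E' S heq).mpr (FA.Root.exists_good_of_model hW' q hd'))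
      have hc : ¬ (q : ℤ) ∣ W.c₄ := fun h => hs ⟨hd, h⟩
      have hc' : ¬ (q : ℤ) ∣ W'.c₄ := fun h => hs' ⟨hd', h⟩
      have hΔ := FA.Frob.Δ_ne_zero_of_model hW
      have hΔ' := FA.Frob.Δ_ne_zero_of_model hW'
      haveI := FA.Frob.ratCurve_isElliptic_of_Δ hΔ
      haveI := FA.Frob.ratCurve_isElliptic_of_Δ hΔ'
      obtain ⟨p, hp, hpp⟩ := Nat.exists_infinite_primes (q + 2)
      have := Fact.mk hpp
      obtain ⟨B⟩ := exists_tateBasis (p := p) W
      obtain ⟨B'⟩ := exists_tateBasis (p := p) W'
      obtain ⟨A, hA⟩ := FA.Deform.exists_liesOverPrime hq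
      obtain ⟨σ, hσ⟩ := FA.Deform.exists_isFrobeniusAt hq hA
      have hp2 : p ≠ 2 := by have := hq.two_le; omega
      have hq1 : ¬ p ∣ q + 1 := fun hd => by have := Nat.le_of_dvd (Nat.succ_pos q) hd; omega
      have htr := FA.TorsionIso.trace_rep_eq_of_LFunction hW hW' B B' S heq σ
      rw [FA.Root.trace_frobenius_splitSign B hp2 ⟨hΔ, hq, hd, hc, hA⟩ (by omega) hq1 hσ,
        FA.Root.trace_frobenius_splitSign B' hp2 ⟨hΔ', hq, hd', hc', hA⟩ (by omega) hq1 hσ,
        mul_left_inj' (show ((q : ℤ_[p]) + 1) ≠ 0 by exact_mod_cast Nat.succ_ne_zero q),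
        Int.cast_inj] at htr
      rw [FA.Root.LFunction_apply_prime_pow_mult E W hW hq hd hΔ hc k,
        FA.Root.LFunction_apply_prime_pow_mult E' W' hW' hq hd' hΔ' hc' k, htr]
    rw [LFunction_eq_zero_of_additive E hss hk, LFunction_eq_zero_of_additive E'
      (fun h => hss ((semistable_iff_of_traces E E' S heq).mpr h)) hk]

end FA.Summary

end
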