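import Fermat.Agent.GoodReduction.Level
import Fermat.Agent.Root.SummaryLFunctionInvariance

/-!
# Raynaud's criterion and independence of the prime

Let `j` be integral at a prime `q`, also `2` or `3`. An inertia element fixing the `p`-power torsion
for one `p ≠ q`, or the torsion of one level `m ≥ 3` prime to `q`, or one point of prime power order
at least `4`, fixes all torsion prime to `q`; the image of inertia has order dividing `24`. So an
elliptic curve over `ℚ` with the torsion of level `m ≥ 3`, or a point of prime order `≥ 5`,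
unramified at `q` has good or multiplicative reduction there.
-/

set_option autoImplicit false
set_option linter.style.haveILetI false
set_option linter.unusedSectionVars false

noncomputable section

open WeierstrassCurve WeierstrassCurve.Affine FA.EC FA.Frob FA.RT FA.RT.Tate FA.GoodReduction
open scoped WeierstrassCurve.Affine

local notation "Qb" => AlgebraicClosure ℚ
local notation "GQ" => AlgebraicClosure ℚ ≃ₐ[ℚ] AlgebraicClosure ℚ

namespace FA.GoodReduction

/-- At a pole of `j` the reduction is multiplicative as soon as no inertia element acts on the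
points as minus a unipotent one does on those of an equation over `ℤ`. -/
theorem exists_reduction_of_pole (E : WeierstrassCurve ℚ) [E.IsElliptic] {q : ℕ} [Fact q.Prime]
    (hj : padicValRat q E.j < 0) {A : ValuationSubring Qb} (hA : A.LiesOverPrime q) {p : ℕ}
    (hp : p.Prime) (hpq : p ≠ q)
    (h : ∀ σ ∈ A.inertiaSubgroupIn ℚ, ∀ (W : WeierstrassCurve ℤ) [(ratCurve W).IsElliptic],
      (∀ (n : ℕ) (x : Pts W), p ^ n • x = 0 → σ • (σ • x - x) = σ • x - x) →
      ∀ φ : Pts W ≃+ (E.toAffine⁄Qb).Point,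
        (∀ x, Affine.Point.map σ.toAlgHom (φ x) = -φ (σ • x)) → False) :
    ∃ C : VariableChange ℚ_[q], HasGoodReduction ℤ_[q] (C • E.map (algebraMap ℚ ℚ_[q])) ∨
      HasMultiplicativeReduction ℤ_[q] (C • E.map (algebraMap ℚ ℚ_[q])) := by
  have := Fact.mk hp
  have hq : q.Prime := Fact.out
  obtain ⟨d, hd, W, hW, hdvd, hc⟩ := FA.OggShafarevich.exists_multiplicative_twist E hj
  haveI := FA.Root.quadTwist_isElliptic E hd
  have hΔ := FA.Frob.Δ_ne_zero_of_model hW
  haveI := FA.Frob.ratCurve_isElliptic_of_Δ hΔ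
  obtain ⟨e, he⟩ := FA.Root.exists_equiv_of_model hW
  obtain ⟨B⟩ := exists_tateBasis (p := p) W
  obtain ⟨s, t, hs, ht⟩ := FA.Root.exists_twist_equiv_sqrt E hd
  refine FA.Root.exists_reduction_of_isSemistableAt E
    (isSemistableAt_of_twist_fixed hA hd hW (fun h' => hc h'.2) hs fun σ hσ => ?_)
  by_contra hne
  have hneg : σ s = -s := by
    have h2 : σ s ^ 2 = s ^ 2 := by rw [← map_pow, hs, σ.commutes]
    exact (sq_eq_sq_iff_eq_or_eq_neg.mp h2).resolve_left hne
  refine h σ hσ W ((rep_sub_one_sq_iff B σ).mp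
    (FA.Two.rep_inertia_mult B (A := A) ⟨hΔ, hq, hdvd, hc, hA⟩ hpq.symm hσ hσ)) (e.trans t)
    fun x => ?_
  rw [AddEquiv.trans_apply, AddEquiv.trans_apply, (ht σ (e x)).2 hneg,
    Affine.Point.algEquiv_smul_def, ← he]

end FA.GoodReduction

namespace FA.Summary

/-- **One point of order at least `4` suffices**: if `j` is integral at `q`, an inertia element at
`q` fixing a point of `p`-power order at least `4`, `p ≠ q`, fixes all torsion prime to `q`. -/
theorem inertia_fixes_torsion_of_point (E : WeierstrassCurve ℚ) [E.IsElliptic]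
    [inst : DecidableEq (AlgebraicClosure ℚ)] {q : ℕ} [Fact q.Prime]
    (hj : 0 ≤ padicValRat q E.j) {A : ValuationSubring (AlgebraicClosure ℚ)}
    (hA : A.LiesOverPrime q) {σ : AlgebraicClosure ℚ ≃ₐ[ℚ] AlgebraicClosure ℚ}
    (hσ : σ ∈ A.inertiaSubgroupIn ℚ) {p : ℕ} (hp : p.Prime) (hpq : p ≠ q) {a : ℕ}
    {P : (E.toAffine⁄(AlgebraicClosure ℚ)).Point} (hP : (p ^ a : ℕ) • P = 0)
    (h4 : 4 ≤ addOrderOf P) (hfix : Affine.Point.map σ.toAlgHom P = P)
    {N : ℕ} (hN : ¬ q ∣ N) (Q : (E.toAffine⁄(AlgebraicClosure ℚ)).Point) (hQ : N • Q = 0) :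
    Affine.Point.map σ.toAlgHom Q = Q := by
  obtain rfl : inst = instDecEqAlgebraicClosureRat := Subsingleton.elim _ _
  have := Fact.mk hp
  obtain ⟨W, hW⟩ := FA.Frob.exists_integralModel E
  haveI := FA.Frob.ratCurve_isElliptic_of_Δ (FA.Frob.Δ_ne_zero_of_model hW)
  obtain ⟨e, he⟩ := FA.Root.exists_equiv_of_model hW
  obtain ⟨x, rfl⟩ := e.surjective P
  obtain ⟨y, rfl⟩ := e.surjective Q
  rw [← he]
  congr 1
  refine smul_eq_of_point (p := p) hA hpq.symm (by rwa [FA.OggShafarevich.j_ratCurve hW])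
    (e.injective (by rw [map_nsmul, hP, map_zero])) (fun k hk0 hk4 h => ?_) hσ
    (e.injective (by rw [he, hfix])) hN (e.injective (by rw [map_nsmul, hQ, map_zero]))
  have := Nat.le_of_dvd hk0 (addOrderOf_dvd_of_nsmul_eq_zero
    (show k • e x = 0 by rw [← map_nsmul, h, map_zero]))
  omega

/-- **Independence of `p`**: if `j` is integral at `q`, an inertia element at `q` fixing the
`p`-power torsion for one prime `p ≠ q` fixes all torsion prime to `q`. -/
theorem inertia_torsion_independent (E : WeierstrassCurve ℚ) [E.IsElliptic]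
    [inst : DecidableEq (AlgebraicClosure ℚ)] {q : ℕ} [Fact q.Prime]
    (hj : 0 ≤ padicValRat q E.j) {A : ValuationSubring (AlgebraicClosure ℚ)}
    (hA : A.LiesOverPrime q) {σ : AlgebraicClosure ℚ ≃ₐ[ℚ] AlgebraicClosure ℚ}
    (hσ : σ ∈ A.inertiaSubgroupIn ℚ) {p : ℕ} (hp : p.Prime) (hpq : p ≠ q)
    (h : ∀ (n : ℕ) (P : (E.toAffine⁄(AlgebraicClosure ℚ)).Point), (p ^ n : ℕ) • P = 0 →
      Affine.Point.map σ.toAlgHom P = P) {N : ℕ} (hN : ¬ q ∣ N)
    (Q : (E.toAffine⁄(AlgebraicClosure ℚ)).Point) (hQ : N • Q = 0) :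
    Affine.Point.map σ.toAlgHom Q = Q := by
  obtain rfl : inst = instDecEqAlgebraicClosureRat := Subsingleton.elim _ _
  have := Fact.mk hp
  obtain ⟨W, hW⟩ := FA.Frob.exists_integralModel E
  haveI := FA.Frob.ratCurve_isElliptic_of_Δ (FA.Frob.Δ_ne_zero_of_model hW)
  obtain ⟨e, he⟩ := FA.Root.exists_equiv_of_model hW
  obtain ⟨y, rfl⟩ := e.surjective Q
  rw [← he]
  congr 1
  refine smul_eq_of_prime_pow (p := p) hA hpq.symm (by rwa [FA.OggShafarevich.j_ratCurve hW])
    (n := 2) ?_ hσ (fun x hx => e.injective ?_) hN (e.injective (by rw [map_nsmul, hQ, map_zero]))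
  · exact le_trans (by norm_num) (Nat.pow_le_pow_left hp.two_le 2)
  · rw [he, h 2 (e x) (by rw [← map_nsmul, hx, map_zero])]

/-- **One level suffices**: if `j` is integral at `q` and `m ≥ 3` is prime to `q`, an inertia
element at `q` fixes `E[m]` exactly when it fixes all torsion prime to `q`. -/
theorem inertia_level_iff (E : WeierstrassCurve ℚ) [E.IsElliptic]
    [inst : DecidableEq (AlgebraicClosure ℚ)] {q : ℕ} [Fact q.Prime]
    (hj : 0 ≤ padicValRat q E.j) {A : ValuationSubring (AlgebraicClosure ℚ)}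
    (hA : A.LiesOverPrime q) {σ : AlgebraicClosure ℚ ≃ₐ[ℚ] AlgebraicClosure ℚ}
    (hσ : σ ∈ A.inertiaSubgroupIn ℚ) {m : ℕ} (hm : 3 ≤ m) (hqm : ¬ q ∣ m) :
    (∀ P : (E.toAffine⁄(AlgebraicClosure ℚ)).Point, m • P = 0 →
        Affine.Point.map σ.toAlgHom P = P) ↔
      ∀ N : ℕ, ¬ q ∣ N → ∀ P : (E.toAffine⁄(AlgebraicClosure ℚ)).Point, N • P = 0 →
        Affine.Point.map σ.toAlgHom P = P := by
  obtain rfl : inst = instDecEqAlgebraicClosureRat := Subsingleton.elim _ _
  refine ⟨fun h N hN Q hQ => ?_, fun h => h m hqm⟩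
  obtain ⟨W, hW⟩ := FA.Frob.exists_integralModel E
  haveI := FA.Frob.ratCurve_isElliptic_of_Δ (FA.Frob.Δ_ne_zero_of_model hW)
  obtain ⟨e, he⟩ := FA.Root.exists_equiv_of_model hW
  obtain ⟨y, rfl⟩ := e.surjective Q
  rw [← he]
  congr 1
  refine smul_eq_of_level hA (by rwa [FA.OggShafarevich.j_ratCurve hW]) hm hqm hσ
    (fun x hx => e.injective ?_) hN (e.injective (by rw [map_nsmul, hQ, map_zero]))
  rw [he, h (e x) (by rw [← map_nsmul, hx, map_zero])]

/-- **The image of inertia on the torsion prime to `q` has order dividing `24`** at every prime `q`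
at which `j` is integral. -/
theorem inertiaImage_card_dvd (E : WeierstrassCurve ℚ) [E.IsElliptic]
    [inst : DecidableEq (AlgebraicClosure ℚ)] {q : ℕ} [Fact q.Prime]
    (hj : 0 ≤ padicValRat q E.j) {A : ValuationSubring (AlgebraicClosure ℚ)}
    (hA : A.LiesOverPrime q) :
    ∃ H : Subgroup (AlgebraicClosure ℚ ≃ₐ[ℚ] AlgebraicClosure ℚ),
      (∀ σ, σ ∈ H ↔ ∀ N : ℕ, ¬ q ∣ N → ∀ P : (E.toAffine⁄(AlgebraicClosure ℚ)).Point,
        N • P = 0 → Affine.Point.map σ.toAlgHom P = P) ∧
      H.relIndex (A.inertiaSubgroupIn ℚ) ∣ 24 := by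
  obtain rfl : inst = instDecEqAlgebraicClosureRat := Subsingleton.elim _ _
  obtain ⟨W, hW⟩ := FA.Frob.exists_integralModel E
  haveI := FA.Frob.ratCurve_isElliptic_of_Δ (FA.Frob.Δ_ne_zero_of_model hW)
  obtain ⟨e, he⟩ := FA.Root.exists_equiv_of_model hW
  refine ⟨torsionFixer q W, fun σ => ⟨fun h N hN P hP => ?_, fun h N hN x hx => ?_⟩,
    relIndex_torsionFixer_dvd_twentyfour hA (by rwa [FA.OggShafarevich.j_ratCurve hW])⟩
  · obtain ⟨x, rfl⟩ := e.surjective P
    rw [← he, h N hN x (e.injective (by rw [map_nsmul, hP, map_zero]))]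
  · exact e.injective (by rw [he, h N hN (e x) (by rw [← map_nsmul, hx, map_zero])])

/-- **Good reduction is seen at one level**: for `m ≥ 3` prime to `q` an elliptic curve over `ℚ`
has good reduction at `q` exactly when `j` is integral at `q` and inertia fixes `E[m]`. -/
theorem good_iff_level (E : WeierstrassCurve ℚ) [E.IsElliptic]
    [inst : DecidableEq (AlgebraicClosure ℚ)] {q : ℕ} [Fact q.Prime]
    {m : ℕ} (hm : 3 ≤ m) (hqm : ¬ q ∣ m) :
    (∃ C : VariableChange ℚ_[q], HasGoodReduction ℤ_[q] (C • E.map (algebraMap ℚ ℚ_[q]))) ↔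
      0 ≤ padicValRat q E.j ∧
        ∀ A : ValuationSubring (AlgebraicClosure ℚ), A.LiesOverPrime q →
          ∀ σ ∈ A.inertiaSubgroupIn ℚ, ∀ P : (E.toAffine⁄(AlgebraicClosure ℚ)).Point,
            m • P = 0 → Affine.Point.map σ.toAlgHom P = P := by
  obtain rfl : inst = instDecEqAlgebraicClosureRat := Subsingleton.elim _ _
  obtain ⟨p, hpq, hp⟩ := Nat.exists_infinite_primes (q + 1)
  have hne : p ≠ q := by omega
  rw [neronOggShafarevich_all E hp hne]
  constructor
  · intro h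
    obtain ⟨A, hA⟩ := FA.Deform.exists_liesOverPrime (Fact.out : q.Prime)
    have hj : 0 ≤ padicValRat q E.j :=
      (potentiallyGood_iff E hp hne hA).mpr ⟨⊥, inferInstance, fun σ hσ _ => h A hA σ hσ⟩
    exact ⟨hj, fun A hA σ hσ P hP =>
      inertia_torsion_independent E hj hA hσ hp hne (h A hA σ hσ) hqm P hP⟩
  · rintro ⟨hj, h⟩ A hA σ hσ n P hP
    exact (inertia_level_iff E hj hA hσ hm hqm).mp (h A hA σ hσ) _ (fun hd => hne
      ((Nat.prime_dvd_prime_iff_eq Fact.out hp).mp
        ((Fact.out : q.Prime).dvd_of_dvd_pow hd)).symm) P hP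

/-- **Raynaud's criterion**: if inertia at `q` fixes the `m`-torsion for some `m ≥ 3` prime to `q`
then an elliptic curve over `ℚ` has good or multiplicative reduction at `q`. For example, a curve
with all its `3`-torsion, or all its `4`-torsion, unramified at `q` is semistable there. -/
theorem raynaud_semistable (E : WeierstrassCurve ℚ) [E.IsElliptic]
    [inst : DecidableEq (AlgebraicClosure ℚ)] {q : ℕ} [Fact q.Prime]
    {m : ℕ} (hm : 3 ≤ m) (hqm : ¬ q ∣ m)
    (h : ∀ A : ValuationSubring (AlgebraicClosure ℚ), A.LiesOverPrime q →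
      ∀ σ ∈ A.inertiaSubgroupIn ℚ, ∀ P : (E.toAffine⁄(AlgebraicClosure ℚ)).Point,
        m • P = 0 → Affine.Point.map σ.toAlgHom P = P) :
    ∃ C : VariableChange ℚ_[q], HasGoodReduction ℤ_[q] (C • E.map (algebraMap ℚ ℚ_[q])) ∨
      HasMultiplicativeReduction ℤ_[q] (C • E.map (algebraMap ℚ ℚ_[q])) := by
  obtain rfl : inst = instDecEqAlgebraicClosureRat := Subsingleton.elim _ _
  have hq : q.Prime := Fact.out
  by_cases hj : 0 ≤ padicValRat q E.j
  · obtain ⟨C, hC⟩ := (good_iff_level E hm hqm).mpr ⟨hj, h⟩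
    exact ⟨C, Or.inl hC⟩
  obtain ⟨A, hA⟩ := FA.Deform.exists_liesOverPrime hq
  obtain ⟨p, n, hp, hn, hpm⟩ : ∃ p n : ℕ, p.Prime ∧ 3 ≤ p ^ n ∧ p ^ n ∣ m := by
    rcases Nat.four_dvd_or_exists_odd_prime_and_dvd_of_two_lt (show 2 < m by omega) with
      h4 | ⟨l, hl, hlm, c, hc⟩
    · exact ⟨2, 2, Nat.prime_two, by norm_num, h4⟩
    · have := hl.two_le
      exact ⟨l, 1, hl, by rw [pow_one]; omega, by rwa [pow_one]⟩
  have hpq : p ≠ q := fun e => hqm (e ▸ (dvd_pow_self p (by
    rintro rfl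
    norm_num at hn)).trans hpm)
  refine exists_reduction_of_pole E (not_le.mp hj) hA hp hpq fun σ hσ W _ hu φ hφ => ?_
  have := Fact.mk hp
  refine not_smul_eq_neg hu hn fun x hx => φ.injective ?_
  obtain ⟨c, rfl⟩ := hpm
  have h1 := h A hA σ hσ (φ x) (by
    rw [← map_nsmul, mul_comm, mul_nsmul', hx, nsmul_zero, map_zero])
  rw [hφ] at h1
  rw [map_neg, ← h1, neg_neg]

/-- **A point of prime order `p ≥ 5` unramified at `q ≠ p` forces semistable reduction at `q`**:
in particular a curve with a rational point of order `p ≥ 5` is semistable away from `p`. -/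
theorem semistableAt_of_torsion_point (E : WeierstrassCurve ℚ) [E.IsElliptic]
    [inst : DecidableEq (AlgebraicClosure ℚ)] {q : ℕ} [Fact q.Prime] {p : ℕ} (hp : p.Prime)
    (h5 : 5 ≤ p) (hpq : p ≠ q) {P : (E.toAffine⁄(AlgebraicClosure ℚ)).Point} (hP0 : P ≠ 0)
    (hP : p • P = 0) (h : ∀ A : ValuationSubring (AlgebraicClosure ℚ), A.LiesOverPrime q →
      ∀ σ ∈ A.inertiaSubgroupIn ℚ, Affine.Point.map σ.toAlgHom P = P) :
    ∃ C : VariableChange ℚ_[q], HasGoodReduction ℤ_[q] (C • E.map (algebraMap ℚ ℚ_[q])) ∨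
      HasMultiplicativeReduction ℤ_[q] (C • E.map (algebraMap ℚ ℚ_[q])) := by
  obtain rfl : inst = instDecEqAlgebraicClosureRat := Subsingleton.elim _ _
  have hq : q.Prime := Fact.out
  have := Fact.mk hp
  have hord : addOrderOf P = p := addOrderOf_eq_prime hP hP0
  by_cases hj : 0 ≤ padicValRat q E.j
  · obtain ⟨C, hC⟩ := (neronOggShafarevich_all E hp hpq).mpr fun A hA σ hσ n Q hQ =>
      inertia_fixes_torsion_of_point E hj hA hσ hp hpq (a := 1) (by rwa [pow_one])
        (by omega) (h A hA σ hσ)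
        (fun hd => hpq ((Nat.prime_dvd_prime_iff_eq hq hp).mp (hq.dvd_of_dvd_pow hd)).symm) Q hQ
    exact ⟨C, Or.inl hC⟩
  obtain ⟨A, hA⟩ := FA.Deform.exists_liesOverPrime hq
  refine exists_reduction_of_pole E (not_le.mp hj) hA hp hpq fun σ hσ W _ hu φ hφ => ?_
  obtain ⟨x, rfl⟩ := φ.surjective P
  have h1 := h A hA σ hσ
  rw [hφ, ← map_neg] at h1
  have hx : σ • x = -x := by rw [← neg_eq_iff_eq_neg]; exact φ.injective h1
  have hx1 : p ^ 1 • x = 0 := by
    rw [pow_one]
    exact φ.injective (by rw [map_nsmul, hP, map_zero])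
  have h4 : 4 • x = 0 := by
    have e : 4 • x = 4 • (σ • x + x) := four_nsmul_eq_of_unipotent (hu 1 x hx1) (by
      rw [hx, neg_add_cancel, FA.Local.gal_smul_zero, neg_zero])
    rwa [hx, neg_add_cancel, nsmul_zero] at e
  have := Nat.le_of_dvd (by norm_num) (addOrderOf_dvd_of_nsmul_eq_zero
    (show 4 • φ x = 0 by rw [← map_nsmul, h4, map_zero]))
  omega

end FA.Summary

end
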