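import Fermat.Agent.Root.PadicImageTransvection
import Fermat.Agent.Root.SummaryGaloisGL2All

/-!
# `GL₂(ℤ/pⁿ)` as a Galois group over `ℚ` for every prime power

For a semistable elliptic curve over `ℚ` without a Galois stable subgroup of order `p` and with a
pole of `j` at some `q ≠ p` of order prime to `p`, Galois induces every automorphism of the
`pⁿ`-torsion, also for `p = 2` and `p = 3`. For odd `N` the images at the primes dividing `N` are
independent. As `37a1` has `v₃₇(Δ) = 1`, the group `GL₂(ℤ/pⁿ)` is a Galois group over `ℚ` for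
every prime power and `GL₂(ℤ/N)` for every odd `N`.
-/

set_option autoImplicit false
set_option linter.style.haveILetI false

noncomputable section

open WeierstrassCurve Matrix FA.EC FA.Frob FA.RT
open FA.Central (model37)
open scoped WeierstrassCurve.Affine

local notation "Qb" => AlgebraicClosure ℚ

namespace FA.Root.Irred

/-- A pole of `j` is a bad prime of a semistable model, with the same exponent. -/
theorem exists_bad_of_j {E : WeierstrassCurve ℚ} [E.IsElliptic] {W : WeierstrassCurve ℤ}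
    (hW : W.IsIntegralModelOf E) (hs : W.IsSemistableModel) {q : ℕ} [hq : Fact q.Prime]
    (hj : padicValRat q E.j < 0) :
    (q : ℤ) ∣ W.Δ ∧ (padicValInt q W.Δ : ℤ) = -padicValRat q E.j := by
  have hΔ : W.Δ ≠ 0 := FA.Frob.Δ_ne_zero_of_model hW
  have hΔq : (W.Δ : ℚ) ≠ 0 := Int.cast_ne_zero.mpr hΔ
  obtain ⟨C, hC⟩ := hW
  have h4 : (W.c₄ : ℚ) = (C.u⁻¹ : ℚˣ) ^ 4 * E.c₄ := by
    rw [← variableChange_c₄, hC, map_c₄]; rfl
  have hD : (W.Δ : ℚ) = (C.u⁻¹ : ℚˣ) ^ 12 * E.Δ := by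
    rw [← variableChange_Δ, hC, map_Δ]; rfl
  have ej : E.j = (W.c₄ : ℚ) ^ 3 / (W.Δ : ℚ) := by
    have := E.isUnit_Δ.ne_zero
    rw [WeierstrassCurve.j, Units.val_inv_eq_inv_val, coe_Δ', h4, hD]
    field_simp
  have hc : W.c₄ ≠ 0 := fun h => by simp [ej, h] at hj
  rw [ej, padicValRat.div (pow_ne_zero 3 (Int.cast_ne_zero.mpr hc)) hΔq,
    padicValRat.pow, padicValRat.of_int, padicValRat.of_int] at hj ⊢
  have hd : (q : ℤ) ∣ W.Δ := by
    by_contra h
    rw [padicValInt.eq_zero_of_not_dvd h] at hj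
    omega
  rw [padicValInt.eq_zero_of_not_dvd (hs q hq.out hd)]
  exact ⟨hd, by omega⟩

variable {p : ℕ} [Fact p.Prime] {W : WeierstrassCurve ℤ} [(ratCurve W).IsElliptic]

/-- Irreducible torsion gives every class modulo every power of `p`, when `5 ≤ p` or some bad
prime `q ≠ p` has exponent prime to `p`. -/
theorem reachAll_of_irreducible (hΔ : W.Δ ≠ 0) (hW : W.IsSemistableModel)
    (hirr : W.ModRepIsIrreducible p)
    (h : 5 ≤ p ∨ ∃ q : ℕ, q.Prime ∧ q ≠ p ∧ (q : ℤ) ∣ W.Δ ∧ ¬ p ∣ padicValInt q W.Δ) :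
    FA.PadicImage.ReachAll p W := by
  rcases h with h5 | ⟨q, hq, hqp, hd, hv⟩
  · exact FA.PadicImage.reachAll_of_base h5
      fun B => exists_rep_map_eq_of_irreducible B hΔ hW hirr
  · obtain ⟨A, hA⟩ := FA.Deform.exists_liesOverPrime hq
    exact fun B n _ hM =>
      FA.PadicImage.reach_of_multAt hirr ⟨hΔ, hq, hd, hW q hq hd, hA⟩ hqp hv B n hM

/-- The image of `37a1` is everything modulo every prime power. -/
theorem model37_reachAll [(ratCurve model37).IsElliptic] {p : ℕ} [hp : Fact p.Prime] :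
    FA.PadicImage.ReachAll p model37 := by
  refine reachAll_of_irreducible (by decide) model37_semistable (model37_irreducible hp.out) ?_
  rcases le_or_gt 5 p with h5 | h5
  · exact Or.inl h5
  · refine Or.inr ⟨37, by norm_num, by omega, by decide, ?_⟩
    rw [show model37.Δ = 37 by decide, show padicValInt 37 37 = 1 from by haveI := Fact.mk (show Nat.Prime 37 by norm_num); exact padicValInt_self]
    exact hp.out.not_dvd_one

end FA.Root.Irred

namespace FA.Summary

open FA.Root.Irred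

/-- **Serre's `p`-adic surjectivity at every prime, `2` and `3` included**: for a semistable
elliptic curve over `ℚ` without a Galois stable subgroup of order `p` and with a pole of `j` at
some prime `q ≠ p` of order prime to `p`, Galois induces every automorphism of the
`p ^ n`-torsion. -/
theorem galoisSurjectiveTorsion_pow_pole (E : WeierstrassCurve ℚ) [E.IsElliptic]
    (h : ∀ p : ℕ, ∀ [Fact p.Prime], ∃ C : VariableChange ℚ_[p],
      HasGoodReduction ℤ_[p] (C • E.map (algebraMap ℚ ℚ_[p])) ∨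
        HasMultiplicativeReduction ℤ_[p] (C • E.map (algebraMap ℚ ℚ_[p])))
    [inst : DecidableEq (AlgebraicClosure ℚ)] {p : ℕ} (hp : p.Prime)
    (hno : ∀ G : AddSubgroup (E.toAffine⁄(AlgebraicClosure ℚ)).Point, Nat.card G = p →
      ¬ ∀ σ : AlgebraicClosure ℚ ≃ₐ[ℚ] AlgebraicClosure ℚ, ∀ P ∈ G,
        Affine.Point.map σ.toAlgHom P ∈ G)
    {q : ℕ} (hq : q.Prime) (hqp : q ≠ p) (hj : padicValRat q E.j < 0)
    (hv : ¬ (p : ℤ) ∣ padicValRat q E.j) (n : ℕ)
    (φ : Submodule.torsionBy ℤ (E.toAffine⁄(AlgebraicClosure ℚ)).Point ((p : ℤ) ^ n) ≃+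
      Submodule.torsionBy ℤ (E.toAffine⁄(AlgebraicClosure ℚ)).Point ((p : ℤ) ^ n)) :
    ∃ σ : AlgebraicClosure ℚ ≃ₐ[ℚ] AlgebraicClosure ℚ, ∀ P,
      Affine.Point.map σ.toAlgHom P.1 = (φ P).1 := by
  obtain rfl : inst = instDecEqAlgebraicClosureRat := Subsingleton.elim _ _
  obtain ⟨W, hW, hs⟩ := FA.Root.exists_semistableModel E
    fun q _ => FA.Root.isSemistableAt_of_reduction E (h q).choose_spec
  have hΔ : W.Δ ≠ 0 := FA.Frob.Δ_ne_zero_of_model hW
  haveI := FA.Frob.ratCurve_isElliptic_of_Δ hΔ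
  haveI := Fact.mk hp
  haveI := Fact.mk hq
  obtain ⟨hd, hval⟩ := exists_bad_of_j hW hs hj
  refine FA.Root.exists_map_eq_of_model hW _ (FA.PadicImage.exists_smul_eq_pow_of_reach
    (reachAll_of_irreducible hΔ hs (modRepIsIrreducible_of_noStableSubgroup hW hno)
      (Or.inr ⟨q, hq, hqp, hd, fun hdv => hv ?_⟩)) n) φ
  rw [← Int.natCast_dvd_natCast, hval, dvd_neg] at hdv
  exact hdv

/-- **Independence for every odd `N`**: for a semistable elliptic curve over `ℚ` without a Galois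
stable subgroup of order `p` for any `p ∣ N`, and, if `3 ∣ N`, with a pole of `j` at some prime
`q ≠ 3` of order prime to `3`, Galois induces every automorphism of the `N`-torsion. -/
theorem galoisSurjectiveTorsion_adelic_odd (E : WeierstrassCurve ℚ) [E.IsElliptic]
    (h : ∀ p : ℕ, ∀ [Fact p.Prime], ∃ C : VariableChange ℚ_[p],
      HasGoodReduction ℤ_[p] (C • E.map (algebraMap ℚ ℚ_[p])) ∨
        HasMultiplicativeReduction ℤ_[p] (C • E.map (algebraMap ℚ ℚ_[p])))
    [inst : DecidableEq (AlgebraicClosure ℚ)] {N : ℕ} (hN : Odd N)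
    (hno : ∀ p : ℕ, p.Prime → p ∣ N → ∀ G : AddSubgroup (E.toAffine⁄(AlgebraicClosure ℚ)).Point,
      Nat.card G = p → ¬ ∀ σ : AlgebraicClosure ℚ ≃ₐ[ℚ] AlgebraicClosure ℚ, ∀ P ∈ G,
        Affine.Point.map σ.toAlgHom P ∈ G)
    (h3 : 3 ∣ N → ∃ q : ℕ, q.Prime ∧ q ≠ 3 ∧ padicValRat q E.j < 0 ∧
      ¬ (3 : ℤ) ∣ padicValRat q E.j)
    (φ : Submodule.torsionBy ℤ (E.toAffine⁄(AlgebraicClosure ℚ)).Point (N : ℤ) ≃+
      Submodule.torsionBy ℤ (E.toAffine⁄(AlgebraicClosure ℚ)).Point (N : ℤ)) :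
    ∃ σ : AlgebraicClosure ℚ ≃ₐ[ℚ] AlgebraicClosure ℚ, ∀ P,
      Affine.Point.map σ.toAlgHom P.1 = (φ P).1 := by
  obtain rfl : inst = instDecEqAlgebraicClosureRat := Subsingleton.elim _ _
  obtain ⟨W, hW, hs⟩ := FA.Root.exists_semistableModel E
    fun q _ => FA.Root.isSemistableAt_of_reduction E (h q).choose_spec
  have hΔ : W.Δ ≠ 0 := FA.Frob.Δ_ne_zero_of_model hW
  haveI := FA.Frob.ratCurve_isElliptic_of_Δ hΔ
  have hodd : ∀ l ∈ N.primeFactors, l ≠ 2 := fun l hl hl2 => by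
    subst hl2
    exact Nat.not_even_iff_odd.mpr hN (even_iff_two_dvd.mpr (Nat.dvd_of_mem_primeFactors hl))
  refine FA.Root.exists_map_eq_of_model hW N
    (FA.PadicImage.exists_smul_eq_adelic_of_reach hN.pos.ne' hodd fun l hl _ => ?_) φ
  obtain ⟨hlp, hlN, -⟩ := Nat.mem_primeFactors.mp hl
  refine reachAll_of_irreducible hΔ hs
    (modRepIsIrreducible_of_noStableSubgroup hW (hno l hlp hlN)) ?_
  rcases le_or_gt 5 l with h5 | h5
  · exact Or.inl h5
  obtain rfl : l = 3 := by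
    have := hlp.two_le
    have := hodd l hl
    interval_cases l
    · omega
    · rfl
    · exact absurd hlp (by norm_num)
  obtain ⟨q, hq, hq3, hj, hv⟩ := h3 hlN
  haveI := Fact.mk hq
  obtain ⟨hd, hval⟩ := exists_bad_of_j hW hs hj
  refine Or.inr ⟨q, hq, hq3, hd, fun hdv => hv ?_⟩
  rw [← Int.natCast_dvd_natCast, hval, dvd_neg] at hdv
  exact hdv

/-- **`GL₂(ℤ/pⁿ)` is a Galois group over `ℚ`** for every prime power. -/
theorem exists_galois_gl2_prime_pow {p : ℕ} (hp : p.Prime) (n : ℕ) :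
    ∃ K : IntermediateField ℚ (AlgebraicClosure ℚ), FiniteDimensional ℚ K ∧ IsGalois ℚ K ∧
      Nonempty ((K ≃ₐ[ℚ] K) ≃* GL (Fin 2) (ZMod (p ^ n))) := by
  haveI := isElliptic_model37
  haveI := Fact.mk hp
  haveI : NeZero (p ^ n) := ⟨pow_ne_zero _ hp.ne_zero⟩
  refine FA.PadicImage.exists_galois_gl2 model37 ?_
  rw [Nat.cast_pow]
  exact FA.PadicImage.exists_smul_eq_pow_of_reach model37_reachAll n

/-- **`GL₂(ℤ/N)` is a Galois group over `ℚ`** for every odd `N`. -/
theorem exists_galois_gl2_zmod_odd {N : ℕ} (hN : Odd N) :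
    ∃ K : IntermediateField ℚ (AlgebraicClosure ℚ), FiniteDimensional ℚ K ∧ IsGalois ℚ K ∧
      Nonempty ((K ≃ₐ[ℚ] K) ≃* GL (Fin 2) (ZMod N)) := by
  haveI := isElliptic_model37
  haveI : NeZero N := ⟨hN.pos.ne'⟩
  refine FA.PadicImage.exists_galois_gl2 model37
    (FA.PadicImage.exists_smul_eq_adelic_of_reach (NeZero.ne N) (fun l hl hl2 => ?_)
      fun _ _ _ => model37_reachAll)
  subst hl2
  exact Nat.not_even_iff_odd.mpr hN (even_iff_two_dvd.mpr (Nat.dvd_of_mem_primeFactors hl))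

end FA.Summary

end
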