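import Fermat.Agent.Root.AdelicTransvection
import Fermat.Agent.Root.SummaryGaloisGL2PrimePowers

/-!
# `GL₂(ℤ/N)` as a Galois group over `ℚ` for every `N`

The curves `E_k : y² + y = x³ - x + k` with `6 ∣ k` are semistable and have irreducible torsion at
every prime, having the Frobenius traces of `37a1` at `2` and `3`. Minus the discriminant is `2`
modulo `3`, so it is not a square. For given `N` some `k` makes the discriminant prime to `N`, and
then inertia at the bad primes makes the Galois image on the `N`-torsion everything.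
-/

set_option autoImplicit false
set_option linter.style.haveILetI false

noncomputable section

open WeierstrassCurve Matrix FA.EC FA.Frob FA.RT
open scoped WeierstrassCurve.Affine

local notation "Qb" => AlgebraicClosure ℚ
local notation "GQ" => AlgebraicClosure ℚ ≃ₐ[ℚ] AlgebraicClosure ℚ

namespace FA.Root.Irred

/-- The curve `y² + y = x³ - x + k`. -/
def model37Shift (k : ℤ) : WeierstrassCurve ℤ := ⟨0, 0, 1, -1, k⟩

theorem model37Shift_c₄ (k : ℤ) : (model37Shift k).c₄ = 48 := by
  simp only [model37Shift, WeierstrassCurve.c₄, WeierstrassCurve.b₂, WeierstrassCurve.b₄]; ring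

theorem model37Shift_Δ (k : ℤ) : (model37Shift k).Δ = 64 - 27 * (1 + 4 * k) ^ 2 := by
  simp only [model37Shift, WeierstrassCurve.Δ, WeierstrassCurve.b₂, WeierstrassCurve.b₄,
    WeierstrassCurve.b₆, WeierstrassCurve.b₈]; ring

variable {k : ℤ} (hk : (6 : ℤ) ∣ k)

include hk

theorem model37Shift_good {q : ℕ} (hq : q ∣ 6) (hq1 : q ≠ 1) :
    (model37Shift k).IsGoodPrimeFor q := fun hd => hq1 <| by
  obtain ⟨c, hc⟩ := hk
  have h6 : (q : ℤ) ∣ 6 := Int.natCast_dvd_natCast.mpr hq
  rw [model37Shift_Δ] at hd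
  have h : (q : ℤ) ∣ 64 - 27 * (1 + 4 * k) ^ 2 + 6 * (216 * c + 2592 * c ^ 2 - 6) :=
    dvd_add hd (h6.mul_right _)
  rw [hc, show (64 : ℤ) - 27 * (1 + 4 * (6 * c)) ^ 2 + 6 * (216 * c + 2592 * c ^ 2 - 6) = 1 by ring]
    at h
  exact Nat.dvd_one.mp (Int.natCast_dvd_natCast.mp h)

theorem model37Shift_semistable : (model37Shift k).IsSemistableModel := fun q hq hd hc => by
  rw [model37Shift_c₄] at hc
  have h : q ∣ 2 ^ 4 * 3 := Int.natCast_dvd_natCast.mp hc
  refine model37Shift_good hk ?_ hq.ne_one hd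
  rcases hq.dvd_mul.mp h with h | h
  · exact (hq.dvd_of_dvd_pow h).trans (by norm_num)
  · exact h.trans (by norm_num)

theorem model37Shift_Δ_ne_zero : (model37Shift k).Δ ≠ 0 := fun h =>
  model37Shift_good hk (q := 2) (by norm_num) (by norm_num) (h ▸ dvd_zero _)

theorem model37Shift_reductionMod {q : ℕ} (hq : q ∣ 6) :
    (model37Shift k).reductionMod q = ⟨0, 0, 1, -1, 0⟩ := by
  ext <;> simp [reductionMod, model37Shift]
  exact (ZMod.intCast_zmod_eq_zero_iff_dvd k q).mpr ((Int.natCast_dvd_natCast.mpr hq).trans hk)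

/-- **The torsion of `E_k` is irreducible at every prime.** -/
theorem model37Shift_irreducible [(ratCurve (model37Shift k)).IsElliptic] {p : ℕ} (hp : p.Prime) :
    (model37Shift k).ModRepIsIrreducible p := by
  haveI := Fact.mk hp
  rcases le_or_gt 11 p with h11 | h11
  · exact FA.Thirteen.modRepIsIrreducible_all (model37Shift_Δ_ne_zero hk)
      (model37Shift_semistable hk) hp h11
  have h2 : (model37Shift k).IsGoodPrimeFor 2 := model37Shift_good hk (by norm_num) (by norm_num)
  have h3 : (model37Shift k).IsGoodPrimeFor 3 := model37Shift_good hk (by norm_num) (by norm_num)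
  have a2 : (model37Shift k).apOfModel 2 = -2 := by
    haveI : Fact (Nat.Prime 2) := ⟨Nat.prime_two⟩
    rw [FA.Ribet.apOfModel_eq_nsPts (model37Shift_reductionMod hk (q := 2) (by norm_num))]
    rfl
  have a3 : (model37Shift k).apOfModel 3 = -3 := by
    rw [FA.Ribet.apOfModel_three_eq (model37Shift_reductionMod hk (q := 3) (by norm_num))]
    rfl
  obtain rfl | rfl | rfl | rfl : p = 2 ∨ p = 3 ∨ p = 5 ∨ p = 7 := by
    interval_cases p <;> revert hp <;> decide
  · exact modRepIsIrreducible_of_noRoot Nat.prime_three (by norm_num) h3 a3 (by decide +revert)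
  · exact modRepIsIrreducible_of_noRoot Nat.prime_two (by norm_num) h2 a2 (by decide +revert)
  · exact modRepIsIrreducible_of_noRoot Nat.prime_three (by norm_num) h3 a3 (by decide +revert)
  · exact modRepIsIrreducible_of_noRoot Nat.prime_two (by norm_num) h2 a2 (by decide +revert)

/-- Some bad prime of `E_k` has exponent prime to any given prime `p`. -/
theorem model37Shift_exponent [(ratCurve (model37Shift k)).IsElliptic] {p : ℕ} (hp : p.Prime) :
    ∃ q : ℕ, q.Prime ∧ (q : ℤ) ∣ (model37Shift k).Δ ∧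
      ¬ p ∣ padicValInt q (model37Shift k).Δ := by
  haveI := Fact.mk hp
  rcases eq_or_ne p 2 with rfl | hp2
  swap
  · exact FA.Root.exists_exponent_not_dvd (model37Shift_Δ_ne_zero hk) (model37Shift_semistable hk) hp2
      (model37Shift_irreducible hk hp)
  obtain ⟨a, b, hab, ha⟩ := Nat.sq_mul_squarefree (model37Shift k).Δ.natAbs
  rcases eq_or_ne a 1 with rfl | ha1
  · exfalso
    obtain ⟨c, rfl⟩ := hk
    have h : ((model37Shift (6 * c)).Δ : ℤ).natAbs = b ^ 2 := by rw [← hab, mul_one]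
    have hneg : (model37Shift (6 * c)).Δ = -((b : ℤ) ^ 2) ∨
        (model37Shift (6 * c)).Δ = (b : ℤ) ^ 2 := by
      rw [← Nat.cast_pow, ← h]; omega
    rcases hneg with e | e
    · have e3 := congrArg (Int.cast : ℤ → ZMod 3) e
      rw [model37Shift_Δ] at e3
      push_cast at e3
      rw [show (27 : ZMod 3) = 0 by decide, zero_mul, sub_zero] at e3
      exact (show ∀ x : ZMod 3, (64 : ZMod 3) ≠ -(x ^ 2) by decide) _ e3
    · rw [model37Shift_Δ] at e
      rcases eq_or_ne c 0 with rfl | hc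
      · have hb : b ^ 2 = 37 := by zify; rw [← e]; norm_num
        rcases Nat.lt_or_ge b 7 with hlt | hge
        · interval_cases b <;> simp at hb
        · nlinarith
      · have hc2 : 1 ≤ c ^ 2 := by have := sq_pos_of_ne_zero hc; omega
        rcases le_or_gt 0 c with h0 | h0 <;> nlinarith [sq_nonneg (b : ℤ)]
  obtain ⟨q, hq, hqa⟩ := Nat.exists_prime_and_dvd ha1
  haveI := Fact.mk hq
  have hn0 : (model37Shift k).Δ.natAbs ≠ 0 := Int.natAbs_ne_zero.mpr (model37Shift_Δ_ne_zero hk)
  have ha0 : a ≠ 0 := fun h => hn0 (by rw [← hab, h, mul_zero])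
  have hb0 : b ≠ 0 := fun h => hn0 (by rw [← hab, h]; simp)
  refine ⟨q, hq, Int.natCast_dvd.mpr (hab ▸ hqa.mul_left _), fun h => ?_⟩
  have hv : padicValNat q a = 1 := by
    rw [← Nat.factorization_def a hq]
    exact (Nat.squarefree_iff_factorization_le_one ha0).mp ha q |>.antisymm
      (hq.factorization_pos_of_dvd ha0 hqa)
  rw [padicValInt, ← hab, padicValNat.mul (pow_ne_zero 2 hb0) ha0, padicValNat.pow b 2, hv] at h
  omega

omit hk in
/-- Some curve `E_k` with `6 ∣ k` is good at every prime dividing a given `L ≠ 0`. -/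
theorem exists_shift_good {L : ℕ} (hL : L ≠ 0) :
    ∃ k : ℤ, (6 : ℤ) ∣ k ∧ ∀ q : ℕ, q.Prime → q ∣ L →
      (model37Shift k).IsGoodPrimeFor q := by
  have h37 : Nat.Prime 37 := by norm_num
  have hco : Nat.Coprime 37 (210 * (L / 37 ^ L.factorization 37)) :=
    Nat.Coprime.mul_right (by norm_num) (Nat.coprime_ordCompl h37 hL)
  obtain ⟨k, hk1, hk0⟩ := Nat.chineseRemainder hco 1 0
  have hk0' : 210 * (L / 37 ^ L.factorization 37) ∣ k := Nat.modEq_zero_iff_dvd.mp hk0
  have hk6 : (6 : ℤ) ∣ (k : ℤ) :=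
    (show (6 : ℤ) ∣ ((210 : ℕ) : ℤ) by norm_num).trans
      (Int.natCast_dvd_natCast.mpr ((dvd_mul_right _ _).trans hk0'))
  refine ⟨k, hk6, ?_⟩
  intro q hq hqL hd
  haveI := Fact.mk hq
  rw [model37Shift_Δ, ← ZMod.intCast_zmod_eq_zero_iff_dvd] at hd
  push_cast at hd
  by_cases h : q = 37
  · subst h
    rw [(ZMod.natCast_eq_natCast_iff k 1 37).mpr hk1, Nat.cast_one] at hd
    revert hd
    decide +revert
  · have hqk : q ∣ k := by
      refine (Dvd.dvd.mul_left ?_ 210).trans hk0'
      rcases hq.dvd_mul.mp ((Nat.ordProj_mul_ordCompl_eq_self L 37).symm ▸ hqL) with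
        h' | h'
      · exact absurd ((Nat.prime_dvd_prime_iff_eq hq h37).mp (hq.dvd_of_dvd_pow h')) h
      · exact h'
    rw [(ZMod.natCast_eq_zero_iff k q).mpr hqk] at hd
    refine h ((Nat.prime_dvd_prime_iff_eq hq h37).mp ((ZMod.natCast_eq_zero_iff 37 q).mp ?_))
    rw [← hd]
    norm_num

/-- Galois induces every automorphism of the `N`-torsion of `E_k` when `E_k` is good at the primes
dividing `N`. -/
theorem exists_smul_eq_shift [(ratCurve (model37Shift k)).IsElliptic] {N : ℕ}
    (hN : N ≠ 0) (hgood : ∀ q : ℕ, q.Prime → q ∣ N → (model37Shift k).IsGoodPrimeFor q)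
    (φ : Submodule.torsionBy ℤ ((ratCurve (model37Shift k))⁄Qb).Point (N : ℤ) ≃+
      Submodule.torsionBy ℤ ((ratCurve (model37Shift k))⁄Qb).Point (N : ℤ)) :
    ∃ σ : GQ, ∀ x, σ • x.1 = (φ x).1 :=
  FA.PadicImage.exists_smul_eq_adelic_of_transvection (model37Shift_Δ_ne_zero hk) hN
    (fun p hp _ => model37Shift_irreducible hk (Nat.prime_of_mem_primeFactors hp)) (fun p hp => by
      obtain ⟨q, hq, hd, hv⟩ := model37Shift_exponent hk (Nat.prime_of_mem_primeFactors hp)
      exact ⟨q, hq, fun hqN => hgood q hq hqN hd, hd, model37Shift_semistable hk q hq hd, hv⟩) φ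

end FA.Root.Irred

namespace FA.Summary

open FA.Root.Irred

/-- **`GL₂(ℤ/N)` is a Galois group over `ℚ`** for every `N ≥ 1`. -/
theorem exists_galois_gl2_zmod_all {N : ℕ} (hN : N ≠ 0) :
    ∃ K : IntermediateField ℚ (AlgebraicClosure ℚ), FiniteDimensional ℚ K ∧ IsGalois ℚ K ∧
      Nonempty ((K ≃ₐ[ℚ] K) ≃* GL (Fin 2) (ZMod N)) := by
  haveI : NeZero N := ⟨hN⟩
  obtain ⟨k, hk6, hgood⟩ := exists_shift_good hN
  haveI := FA.Frob.ratCurve_isElliptic_of_Δ (model37Shift_Δ_ne_zero hk6)
  exact FA.PadicImage.exists_galois_gl2 (model37Shift k) (exists_smul_eq_shift hk6 hN hgood)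

end FA.Summary

end
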