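import Fermat.Agent.SerreCurve.Compat
import Fermat.Agent.Root.SummaryGaloisGL2Full

/-!
# Serre curves: a criterion and an infinite family

For a semistable elliptic curve over `ℚ` without stable subgroups of prime order whose invariant
has a pole of odd order at a prime `q ≥ 5` and one of order prime to `3` at a prime `≠ 3`, the
image of Galois in the automorphisms of the torsion has index two, the least possible. The curves
`y² + y = x³ - x + k` with `6 ∣ k` are all such, so infinitely many invariants are those of Serre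
curves.
-/

set_option autoImplicit false
set_option linter.style.haveILetI false

noncomputable section

open WeierstrassCurve WeierstrassCurve.Affine FA.Frob FA.Root.Irred
open scoped WeierstrassCurve.Affine

local notation "Qb" => AlgebraicClosure ℚ
local notation "GQ" => AlgebraicClosure ℚ ≃ₐ[ℚ] AlgebraicClosure ℚ

namespace FA.SerreCurve

/-- The index of the image does not depend on the model. -/
theorem index_range_of_equiv {W : WeierstrassCurve ℤ} [(ratCurve W).IsElliptic]
    {E : WeierstrassCurve ℚ} (e : ((ratCurve W)⁄Qb).Point ≃+ (E.toAffine⁄Qb).Point)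
    (he : ∀ (σ : GQ) Q, e (σ • Q) = Affine.Point.map (W' := E.toAffine) σ.toAlgHom (e Q))
    (ρ : GQ →* (AddCommGroup.torsion (E.toAffine⁄Qb).Point ≃ₗ[ℤ]
      AddCommGroup.torsion (E.toAffine⁄Qb).Point))
    (hρ : ∀ σ x, (ρ σ x).1 = Affine.Point.map σ.toAlgHom x.1) :
    ρ.range.index = (FA.OpenImage.torsionAction (ratCurve W)).range.index := by
  let eT : AddCommGroup.torsion (E.toAffine⁄Qb).Point ≃ₗ[ℤ] Tors W :=
    AddEquiv.toIntLinearEquiv
      { toEquiv := e.symm.toEquiv.subtypeEquiv fun Q =>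
          ⟨fun hQ => e.symm.toAddMonoidHom.isOfFinAddOrder hQ, fun hQ => by
            have := e.toAddMonoidHom.isOfFinAddOrder hQ
            simp only [AddEquiv.toAddMonoidHom_eq_coe, AddMonoidHom.coe_coe] at this
            rwa [show e (e.symm.toEquiv Q) = Q from e.apply_symm_apply Q] at this⟩
        map_add' := fun a b => Subtype.ext (map_add e.symm a.1 b.1) }
  let Φ : (AddCommGroup.torsion (E.toAffine⁄Qb).Point ≃ₗ[ℤ]
      AddCommGroup.torsion (E.toAffine⁄Qb).Point) ≃* (Tors W ≃ₗ[ℤ] Tors W) :=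
    { toFun := fun ψ => eT.symm.trans (ψ.trans eT)
      invFun := fun χ => eT.trans (χ.trans eT.symm)
      left_inv := fun ψ => LinearEquiv.ext fun x => by simp
      right_inv := fun χ => LinearEquiv.ext fun x => by simp
      map_mul' := fun ψ χ => LinearEquiv.ext fun x => by simp [LinearEquiv.mul_apply] }
  have h : Φ.toMonoidHom.comp ρ = FA.OpenImage.torsionAction (ratCurve W) :=
    MonoidHom.ext fun σ => LinearEquiv.ext fun x => Subtype.ext (e.injective (by
      rw [show (FA.OpenImage.torsionAction (ratCurve W) σ x).1 = σ • x.1 from rfl, he]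
      show e (e.symm (ρ σ (eT.symm x)).1) = _
      rw [AddEquiv.apply_symm_apply, hρ]
      rfl))
  rw [← h, MonoidHom.range_comp]
  exact (Subgroup.index_map_equiv _ Φ).symm

/-- Every curve `E_k` with `6 ∣ k` is in the setting. -/
theorem exists_setting_shift {k : ℤ} (hk : (6 : ℤ) ∣ k)
    [(ratCurve (model37Shift k)).IsElliptic] : ∃ q, Setting (model37Shift k) q := by
  have hΔ := model37Shift_Δ_ne_zero hk
  have hne : ∀ {q r : ℕ}, (q : ℤ) ∣ (model37Shift k).Δ → r ∣ 6 → r ≠ 1 → q ≠ r :=
    fun hq hr h1 e => model37Shift_good hk hr h1 (e ▸ hq)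
  obtain ⟨q, hq, hd, hv⟩ := model37Shift_exponent hk Nat.prime_two
  obtain ⟨r, hr, hdr, hvr⟩ := model37Shift_exponent hk Nat.prime_three
  have h5 : 5 ≤ q := by
    have h2 := hq.two_le
    have := hne hd (r := 2) (by norm_num) (by norm_num)
    have := hne hd (r := 3) (by norm_num) (by norm_num)
    by_contra hlt
    obtain rfl : q = 4 := by omega
    norm_num at hq
  exact ⟨q, setting_of_semistable hΔ (model37Shift_semistable hk)
    (fun p hp => model37Shift_irreducible hk hp.out) hq h5 hd hv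
    ⟨r, hr, hne hdr (by norm_num) (by norm_num), hdr, hvr⟩⟩

end FA.SerreCurve

namespace FA.Summary

open FA.SerreCurve

/-- **A criterion for Serre curves**: for a semistable elliptic curve over `ℚ` without Galois stable
subgroups of prime order, with a pole of `j` of odd order at a prime `q ≥ 5` and one of order prime
to `3` at a prime `r ≠ 3`, the image of Galois in the automorphisms of the torsion has index two. -/
theorem serreCurve_criterion (E : WeierstrassCurve ℚ) [E.IsElliptic]
    (h : ∀ p : ℕ, ∀ [Fact p.Prime], ∃ C : VariableChange ℚ_[p],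
      HasGoodReduction ℤ_[p] (C • E.map (algebraMap ℚ ℚ_[p])) ∨
        HasMultiplicativeReduction ℤ_[p] (C • E.map (algebraMap ℚ ℚ_[p])))
    [inst : DecidableEq (AlgebraicClosure ℚ)]
    (hno : ∀ p : ℕ, p.Prime → ∀ G : AddSubgroup (E.toAffine⁄(AlgebraicClosure ℚ)).Point,
      Nat.card G = p → ¬ ∀ σ : GQ, ∀ P ∈ G, Affine.Point.map σ.toAlgHom P ∈ G)
    {q : ℕ} (hq : q.Prime) (h5 : 5 ≤ q) (hj : padicValRat q E.j < 0)
    (hodd : ¬ (2 : ℤ) ∣ padicValRat q E.j)
    {r : ℕ} (hr : r.Prime) (hr3 : r ≠ 3) (hjr : padicValRat r E.j < 0)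
    (h3 : ¬ (3 : ℤ) ∣ padicValRat r E.j)
    (ρ : GQ →* (AddCommGroup.torsion (E.toAffine⁄(AlgebraicClosure ℚ)).Point ≃ₗ[ℤ]
      AddCommGroup.torsion (E.toAffine⁄(AlgebraicClosure ℚ)).Point))
    (hρ : ∀ σ x, (ρ σ x).1 = Affine.Point.map σ.toAlgHom x.1) : ρ.range.index = 2 := by
  obtain rfl : inst = instDecEqAlgebraicClosureRat := Subsingleton.elim _ _
  obtain ⟨W, hW, hs⟩ := FA.Root.exists_semistableModel E
    fun q _ => FA.Root.isSemistableAt_of_reduction E (h q).choose_spec
  have hΔ : W.Δ ≠ 0 := FA.Frob.Δ_ne_zero_of_model hW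
  haveI := FA.Frob.ratCurve_isElliptic_of_Δ hΔ
  haveI := Fact.mk hq
  haveI := Fact.mk hr
  obtain ⟨hdq, hvq⟩ := exists_bad_of_j hW hs hj
  obtain ⟨hdr, hvr⟩ := exists_bad_of_j hW hs hjr
  obtain ⟨e, he⟩ := FA.Root.exists_equiv_of_model hW
  rw [index_range_of_equiv e he ρ hρ]
  refine index_range (setting_of_semistable hΔ hs
    (fun p hp => modRepIsIrreducible_of_noStableSubgroup hW (hno p hp.out)) hq h5 hdq
    (fun hd => hodd ?_) ⟨r, hr, hr3, hdr, fun hd => h3 ?_⟩)
  · rw [← Int.natCast_dvd_natCast, hvq, dvd_neg] at hd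
    exact hd
  · rw [← Int.natCast_dvd_natCast, hvr, dvd_neg] at hd
    exact hd

/-- **Infinitely many Serre curves**: infinitely many rational numbers are `j`-invariants of curves
over `ℚ` whose image of Galois in the automorphisms of the torsion has index exactly two. -/
theorem infinite_serreCurves [inst : DecidableEq (AlgebraicClosure ℚ)] :
    {j : ℚ | ∃ (E : WeierstrassCurve ℚ) (_ : E.IsElliptic), E.j = j ∧
      ∃ ρ : GQ →* (AddCommGroup.torsion (E.toAffine⁄(AlgebraicClosure ℚ)).Point ≃ₗ[ℤ]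
          AddCommGroup.torsion (E.toAffine⁄(AlgebraicClosure ℚ)).Point),
        (∀ σ x, (ρ σ x).1 = Affine.Point.map σ.toAlgHom x.1) ∧ ρ.range.index = 2}.Infinite := by
  obtain rfl : inst = instDecEqAlgebraicClosureRat := Subsingleton.elim _ _
  have hk : ∀ m : ℕ, (6 : ℤ) ∣ 6 * (m : ℤ) := fun m => dvd_mul_right 6 _
  have hj : ∀ (m : ℕ) (h : (ratCurve (model37Shift (6 * m))).IsElliptic),
      (ratCurve (model37Shift (6 * m))).j = 48 ^ 3 / (64 - 27 * (1 + 24 * (m : ℚ)) ^ 2) := by
    intro m h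
    rw [WeierstrassCurve.j, Units.val_inv_eq_inv_val, coe_Δ', map_Δ, map_c₄, model37Shift_c₄,
      model37Shift_Δ, div_eq_mul_inv, mul_comm]
    simp only [eq_intCast]
    push_cast
    ring
  refine Set.infinite_of_injective_forall_mem
    (f := fun m : ℕ => (48 : ℚ) ^ 3 / (64 - 27 * (1 + 24 * (m : ℚ)) ^ 2)) ?_ fun m => ?_
  · intro a b hab
    simp only at hab
    rw [div_eq_mul_inv, div_eq_mul_inv, mul_right_inj' (by norm_num), inv_inj] at hab
    have h2 : (1 + 24 * (a : ℚ)) ^ 2 = (1 + 24 * (b : ℚ)) ^ 2 := by linarith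
    have h3 := (pow_left_inj₀ (by positivity) (by positivity) two_ne_zero).mp h2
    exact_mod_cast (show (a : ℚ) = b by linarith)
  · haveI := ratCurve_isElliptic_of_Δ (model37Shift_Δ_ne_zero (hk m))
    obtain ⟨q, hS⟩ := exists_setting_shift (hk m)
    exact ⟨ratCurve (model37Shift (6 * m)), inferInstance, hj m inferInstance,
      FA.OpenImage.torsionAction _, fun _ _ => rfl, index_range hS⟩

/-- **The odd levels of these curves**: for `6 ∣ k` Galois induces every automorphism of the
`N`-torsion of `y² + y = x³ - x + k` for every odd `N`. -/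
theorem serreCurves_odd_torsion [inst : DecidableEq (AlgebraicClosure ℚ)] {k : ℤ}
    (hk : (6 : ℤ) ∣ k) {N : ℕ} (hN : Odd N)
    (φ : Submodule.torsionBy ℤ ((⟨0, 0, 1, -1, (k : ℚ)⟩ :
          WeierstrassCurve ℚ).toAffine⁄(AlgebraicClosure ℚ)).Point (N : ℤ) ≃+
      Submodule.torsionBy ℤ ((⟨0, 0, 1, -1, (k : ℚ)⟩ :
          WeierstrassCurve ℚ).toAffine⁄(AlgebraicClosure ℚ)).Point (N : ℤ)) :
    ∃ σ : GQ, ∀ P, Affine.Point.map σ.toAlgHom P.1 = (φ P).1 := by
  obtain rfl : inst = instDecEqAlgebraicClosureRat := Subsingleton.elim _ _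
  haveI := ratCurve_isElliptic_of_Δ (model37Shift_Δ_ne_zero hk)
  obtain ⟨q, hS⟩ := exists_setting_shift hk
  revert φ
  rw [show (⟨0, 0, 1, -1, (k : ℚ)⟩ : WeierstrassCurve ℚ) = ratCurve (model37Shift k) by
    ext <;> simp [model37Shift]]
  exact fun φ => exists_smul_eq_of_odd hS hN.pos.ne'
    (fun h => Nat.not_even_iff_odd.mpr hN (even_iff_two_dvd.mpr h)) φ

end FA.Summary

end
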