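import Fermat.Agent.Root.SummaryAlmostAllOpenImage
import Fermat.Agent.Root.SummarySerreCurves
import Fermat.Agent.Root.SummaryTraceDistribution
import Fermat.Agent.Root.SummaryTorsion
import Fermat.Agent.PrimeDivisors.Exceptional
import Fermat.Agent.OpenImageAll.CharPolys
import Fermat.Agent.Ribet.SerreTrace

/-!
# Almost all elliptic curves have the largest image modulo each prime

Modulo an odd prime `p`, for each trace `t` and determinant `d ≠ 0` almost every `y² = x³ + A x + B`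
has a good prime `q` with `(a_q, q) ≡ (t, d)`: Chebotarev for one curve with surjective `p`-torsion
gives such `q` with a divergent sum of inverses, and its twists fill `(q - 1) / 2` classes modulo
`q`. So almost no curve has a stable subgroup of order `p`, and for `p ≥ 5` almost every curve has
all of `Aut E[p]` as its image (Duke's theorem for a fixed prime).
-/

set_option autoImplicit false
set_option linter.style.haveILetI false

noncomputable section

open Filter Topology IsDedekindDomain NumberField Matrix WeierstrassCurve WeierstrassCurve.Affine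
  FA.EC FA.Frob FA.RT
open scoped WeierstrassCurve.Affine

local notation "Qb" => AlgebraicClosure ℚ
local notation "GQ" => AlgebraicClosure ℚ ≃ₐ[ℚ] AlgebraicClosure ℚ

namespace FA.AlmostAll

/-- The integral equation `y² = x³ + A x + B`. -/
abbrev shortInt (AB : ℤ × ℤ) : WeierstrassCurve ℤ := ⟨0, 0, 0, AB.1, AB.2⟩

/-- The rational equation `y² = x³ + A x + B`. -/
abbrev shortRat (AB : ℤ × ℤ) : WeierstrassCurve ℚ := ⟨0, 0, 0, (AB.1 : ℚ), (AB.2 : ℚ)⟩

theorem shortInt_isIntegralModelOf (AB : ℤ × ℤ) : (shortInt AB).IsIntegralModelOf (shortRat AB) :=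
  ⟨1, by rw [one_smul]; ext <;> simp⟩

/-- Some good prime `q ≠ p` has `(a_q, q) ≡ (t, d)` modulo `p`. -/
def HasFrob (p : ℕ) (t d : ZMod p) (AB : ℤ × ℤ) : Prop :=
  ∃ q : ℕ, q.Prime ∧ q ≠ p ∧ (shortInt AB).IsGoodPrimeFor q ∧
    ((shortInt AB).apOfModel q : ZMod p) = t ∧ (q : ZMod p) = d

/-- The classes modulo `q` of the twists of `y² = x³ - 16 x + 16`. -/
def twistClasses (q : ℕ) : Finset (ZMod q × ZMod q) :=
  if h : q = 0 then ∅ else
    have : NeZero q := ⟨h⟩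
    (Finset.univ.erase (0 : ZMod q)).image fun u => (u ^ 4 * -16, u ^ 6 * 16)

/-- These classes number at least `q / 4`. -/
theorem card_twistClasses {q : ℕ} (hq : q.Prime) (h5 : 5 ≤ q) :
    (1 / 4 : ℝ) * q ≤ (twistClasses q).card := by
  haveI := Fact.mk hq
  rw [twistClasses, dif_neg hq.ne_zero]
  set S := Finset.univ.erase (0 : ZMod q) with hS
  set f : ZMod q → ZMod q × ZMod q := fun u => (u ^ 4 * -16, u ^ 6 * 16)
  have hcard : S.card = q - 1 := by
    rw [hS, Finset.card_erase_of_mem (Finset.mem_univ _), Finset.card_univ, ZMod.card]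
  have h2 : (2 : ZMod q) ≠ 0 := fun e => by
    have := Nat.le_of_dvd two_pos ((ZMod.natCast_eq_zero_iff 2 q).mp (by exact_mod_cast e))
    omega
  have h16 : (16 : ZMod q) ≠ 0 := by
    rw [show (16 : ZMod q) = 2 ^ 4 by norm_num]
    exact pow_ne_zero 4 h2
  have hle : S.card ≤ 2 * (S.image f).card := by
    refine Finset.card_le_mul_card_image _ _ fun b hb => ?_
    obtain ⟨v, hv, rfl⟩ := Finset.mem_image.mp hb
    refine (Finset.card_le_card (t := {v, -v}) fun u hu => ?_).trans Finset.card_le_two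
    obtain ⟨hu, he⟩ := Finset.mem_filter.mp hu
    obtain ⟨e1, e2⟩ := Prod.mk.inj he
    have a1 : u ^ 4 = v ^ 4 := mul_right_cancel₀ (neg_ne_zero.mpr h16) e1
    have a2 : u ^ 6 = v ^ 6 := mul_right_cancel₀ h16 e2
    have a3 : u ^ 2 = v ^ 2 := mul_left_cancel₀ (pow_ne_zero 4 (Finset.ne_of_mem_erase hu))
      (by rw [← pow_add, a2]; linear_combination -v ^ 2 * a1)
    rcases sq_eq_sq_iff_eq_or_eq_neg.mp a3 with e | e <;> simp [e]
  rw [hcard] at hle
  have h1 : ((q - 1 : ℕ) : ℝ) ≤ 2 * ((S.image f).card : ℝ) := by exact_mod_cast hle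
  rw [Nat.cast_sub hq.one_le, Nat.cast_one] at h1
  have h5' : (5 : ℝ) ≤ q := by exact_mod_cast h5
  linarith

/-- A pair in a twist class has the trace of `37a`. -/
theorem apOfModel_of_twistClass {q : ℕ} (hq : q.Prime) (h5 : 5 ≤ q) (h37 : q ≠ 37) {AB : ℤ × ℤ}
    (h : ((AB.1 : ZMod q), (AB.2 : ZMod q)) ∈ twistClasses q) :
    (shortInt AB).IsGoodPrimeFor q ∧ (shortInt AB).apOfModel q =
      (⟨0, 0, 1, -1, ((0 : ℤ) : ℚ)⟩ : WeierstrassCurve ℚ).LFunction q := by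
  haveI := Fact.mk hq
  rw [twistClasses, dif_neg hq.ne_zero, Finset.mem_image] at h
  obtain ⟨u, hu, he⟩ := h
  obtain ⟨e1, e2⟩ := Prod.mk.inj he
  have hu0 := Finset.ne_of_mem_erase hu
  obtain ⟨k, rfl⟩ : ∃ k : ℕ, (k : ZMod q) = u := ⟨u.val, ZMod.natCast_zmod_val u⟩
  have hkq : ¬ q ∣ k := fun hd => hu0 ((ZMod.natCast_eq_zero_iff k q).mpr hd)
  have hk0 : k ≠ 0 := fun e => hkq (e ▸ dvd_zero q)
  set V : WeierstrassCurve ℤ := shortInt ((k : ℤ) ^ 4 * -16, (k : ℤ) ^ 6 * 16) with hV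
  have hred : (shortInt AB).reductionMod q = V.reductionMod q := by
    ext <;> simp [shortInt, hV, reductionMod, ← e1, ← e2]
  have hmodel : V.IsIntegralModelOf (⟨0, 0, 1, -1, ((0 : ℤ) : ℚ)⟩ : WeierstrassCurve ℚ) := by
    have hk : (1 / (2 * k) : ℚ) ≠ 0 := by positivity
    refine ⟨⟨Units.mk0 _ hk, 0, 0, -1 / 2⟩, ?_⟩
    ext <;> simp [hV, variableChange_a₁, variableChange_a₂, variableChange_a₃, variableChange_a₄,
      variableChange_a₆] <;> field_simp <;> (first | ring1 | simp)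
  have hΔV : V.Δ = (k : ℤ) ^ 12 * (2 ^ 12 * 37) := by
    simp only [hV, shortInt, WeierstrassCurve.Δ, WeierstrassCurve.b₂, WeierstrassCurve.b₄,
      WeierstrassCurve.b₆, WeierstrassCurve.b₈]
    ring
  have hgoodV : V.IsGoodPrimeFor q := by
    rw [IsGoodPrimeFor, hΔV, ← Int.natCast_pow k 12,
      show (2 : ℤ) ^ 12 * 37 = ((2 ^ 12 * 37 : ℕ) : ℤ) by norm_num, ← Nat.cast_mul,
      Int.natCast_dvd_natCast]
    intro hd
    rcases hq.dvd_mul.mp hd with hd | hd
    · exact hkq (hq.dvd_of_dvd_pow hd)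
    · rcases hq.dvd_mul.mp hd with hd | hd
      · have := Nat.le_of_dvd two_pos (hq.dvd_of_dvd_pow hd)
        omega
      · exact h37 ((Nat.prime_dvd_prime_iff_eq hq (by norm_num)).mp hd)
  refine ⟨fun hd => hgoodV ?_, ?_⟩
  · rw [← ZMod.intCast_zmod_eq_zero_iff_dvd] at hd ⊢
    rw [← eq_intCast (Int.castRingHom (ZMod q)), ← WeierstrassCurve.map_Δ] at hd ⊢
    rw [show V.map (Int.castRingHom (ZMod q)) =
      (shortInt AB).map (Int.castRingHom (ZMod q)) from hred.symm]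
    exact hd
  · haveI : (⟨0, 0, 1, -1, ((0 : ℤ) : ℚ)⟩ : WeierstrassCurve ℚ).IsElliptic :=
      ⟨isUnit_iff_ne_zero.mpr (by norm_num [WeierstrassCurve.Δ, WeierstrassCurve.b₂,
        WeierstrassCurve.b₄, WeierstrassCurve.b₆, WeierstrassCurve.b₈])⟩
    rw [apOfModel, hred, FA.Root.LFunction_apply_prime _ V hmodel hq hgoodV]
    rfl

/-- **For each trace and determinant almost every curve has such a Frobenius.** -/
theorem tendsto_not_hasFrob {p : ℕ} (hp : p.Prime) (hp2 : p ≠ 2) (t : ZMod p) {d : ZMod p}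
    (hd : d ≠ 0) [DecidablePred fun AB => ¬ HasFrob p t d AB] :
    Tendsto (fun XY : ℕ × ℕ => (((box XY.1 XY.2).filter fun AB => ¬ HasFrob p t d AB).card : ℝ) /
      ((2 * XY.1 + 1) * (2 * XY.2 + 1))) atTop (𝓝 0) := by
  haveI := Fact.mk hp
  let E₀ : WeierstrassCurve ℚ := ⟨0, 0, 1, -1, ((0 : ℤ) : ℚ)⟩
  haveI : E₀.IsElliptic :=
    ⟨isUnit_iff_ne_zero.mpr (by norm_num [E₀, WeierstrassCurve.Δ, WeierstrassCurve.b₂,
      WeierstrassCurve.b₄, WeierstrassCurve.b₆, WeierstrassCurve.b₈])⟩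
  set Q : Set ℕ := {q | q.Prime ∧ 5 ≤ q ∧ q ≠ 37 ∧ q ≠ p ∧
    (E₀.LFunction q : ZMod p) = t ∧ (q : ZMod p) = d}
  have hdens := FA.Summary.traceDistribution E₀ hp.ne_zero
    (fun φ => FA.Summary.serreCurves_odd_torsion (k := 0) (dvd_zero _) (hp.odd_of_ne_two hp2) φ) t d
  have hne : (Nat.card {M : GL (Fin 2) (ZMod p) // M.val.trace = t ∧ M.val.det = d} : ℝ) /
      Nat.card (GL (Fin 2) (ZMod p)) ≠ 0 := by
    have hdet : IsUnit (!![t, -d; 1, 0] : Matrix (Fin 2) (Fin 2) (ZMod p)) :=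
      (Matrix.isUnit_iff_isUnit_det _).mpr (by simpa [det_fin_two_of] using hd)
    have : Nonempty {M : GL (Fin 2) (ZMod p) // M.val.trace = t ∧ M.val.det = d} :=
      ⟨⟨hdet.unit, by simp [trace_fin_two], by simp [det_fin_two]⟩⟩
    exact div_ne_zero (Nat.cast_ne_zero.mpr Nat.card_pos.ne') (Nat.cast_ne_zero.mpr Nat.card_pos.ne')
  have hdiv : ¬ Summable (Q.indicator fun n : ℕ => (1 : ℝ) / n) := by
    refine FA.PrimeDivisors.not_summable_of_density hdens hne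
      (F := {v | Ideal.absNorm v.asIdeal ∈ (insert 37 (insert p (Finset.range 5)) : Finset ℕ)})
      ((Finset.finite_toSet _).preimage fun a _ b _ e => FA.PrimeDivisors.absNorm_injective e)
      fun v hv => or_iff_not_imp_left.mpr fun hF => ?_
    simp only [Set.mem_ofPred_eq, Finset.mem_insert, Finset.mem_range, not_or, not_lt] at hF
    exact ⟨FA.Chebotarev.absNorm_prime v, hF.2.2, hF.1, hF.2.1, hv⟩
  refine tendsto_avoid (fun q hq => hq.1) hdiv (show (0 : ℝ) < 1 / 4 by norm_num) twistClasses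
    (fun q hq => card_twistClasses hq.1 hq.2.1) _ fun AB hbad q hq hmem => ?_
  obtain ⟨hgood, ha⟩ := apOfModel_of_twistClass hq.1 hq.2.1 hq.2.2.1 hmem
  exact hbad ⟨q, hq.1, hq.2.2.2.1, hgood, by rw [ha]; exact hq.2.2.2.2.1, hq.2.2.2.2.2⟩

/-- Every Frobenius class gives every matrix. -/
theorem exists_curveRep_of_hasFrob {p : ℕ} [Fact p.Prime] (h5 : 5 ≤ p) {AB : ℤ × ℤ}
    [(ratCurve (shortInt AB)).IsElliptic] (h : ∀ t d : ZMod p, d ≠ 0 → HasFrob p t d AB)
    {M : Matrix (Fin 2) (Fin 2) (ZMod p)} (hM : M.det ≠ 0) :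
    ∃ σ : GQ, curveRep p (shortInt AB) σ = M := by
  refine FA.CharPolys.exists_eq_of_charPolys h5 _ (fun t d hd => ?_) hM
  obtain ⟨q, hq, hqp, hgood, ht, hdq⟩ := h t d hd
  obtain ⟨A, hA⟩ := FA.Deform.exists_liesOverPrime hq
  obtain ⟨σ, hσ⟩ := FA.Deform.exists_isFrobeniusAt hq hA
  obtain ⟨e1, e2⟩ := FA.Ribet.curveRep_frobenius (p := p) hq hqp hgood hA hσ
  exact ⟨σ, e1.trans ht, e2.trans hdq⟩

/-- A Frobenius with nonsquare discriminant forbids a stable subgroup. -/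
theorem false_of_stable_hasFrob {p : ℕ} (hp : p.Prime) {AB : ℤ × ℤ} {t d : ZMod p}
    (hns : ¬ IsSquare (t ^ 2 - 4 * d)) (h : HasFrob p t d AB) [(shortRat AB).IsElliptic]
    (G : AddSubgroup ((shortRat AB).toAffine⁄Qb).Point) (hcard : Nat.card G = p)
    (hst : ∀ σ : GQ, ∀ P ∈ G, Affine.Point.map σ.toAlgHom P ∈ G) : False := by
  haveI := Fact.mk hp
  have hW := shortInt_isIntegralModelOf AB
  haveI := ratCurve_isElliptic_of_Δ (Δ_ne_zero_of_model hW)
  obtain ⟨v, hv, heig⟩ := FA.Ribet.exists_eigenvector (shortInt AB)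
    (FA.Root.not_modRepIsIrreducible_of_model_subgroup hW hp G hcard hst)
  obtain ⟨q, hq, hqp, hgood, ht, hdq⟩ := h
  obtain ⟨A, hA⟩ := FA.Deform.exists_liesOverPrime hq
  obtain ⟨σ, hσ⟩ := FA.Deform.exists_isFrobeniusAt hq hA
  obtain ⟨e1, e2⟩ := FA.Ribet.curveRep_frobenius (p := p) hq hqp hgood hA hσ
  obtain ⟨a, ha⟩ := heig σ
  exact FA.CharPolys.moves_line (by rw [e1.trans ht, e2.trans hdq]; exact hns) hv a ha

end FA.AlmostAll

namespace FA.Summary

open FA.AlmostAll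

/-- **Almost all elliptic curves have no isogeny of a given odd prime degree.** -/
theorem almostAll_noIsogeny [inst : DecidableEq (AlgebraicClosure ℚ)] {p : ℕ} (hp : p.Prime)
    (hp2 : p ≠ 2) :
    Tendsto (fun XY : ℕ × ℕ => (Set.ncard {AB : ℤ × ℤ | |AB.1| ≤ XY.1 ∧ |AB.2| ≤ XY.2 ∧
        4 * AB.1 ^ 3 + 27 * AB.2 ^ 2 ≠ 0 ∧
        ∃ G : AddSubgroup ((⟨0, 0, 0, (AB.1 : ℚ), (AB.2 : ℚ)⟩ :
            WeierstrassCurve ℚ).toAffine⁄(AlgebraicClosure ℚ)).Point, Nat.card G = p ∧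
          ∀ σ : AlgebraicClosure ℚ ≃ₐ[ℚ] AlgebraicClosure ℚ, ∀ P ∈ G,
            Affine.Point.map σ.toAlgHom P ∈ G} : ℝ) /
      ((2 * XY.1 + 1) * (2 * XY.2 + 1))) atTop (𝓝 0) := by
  classical
  obtain rfl : inst = instDecEqAlgebraicClosureRat := Subsingleton.elim _ _
  haveI := Fact.mk hp
  obtain ⟨d, hd0, hns⟩ := FA.CharPolys.exists_nonsquare_disc (p := p) hp2
  refine squeeze_zero (fun XY => by positivity) (fun XY => ?_) (tendsto_not_hasFrob hp hp2 1 hd0)
  refine div_le_div_of_nonneg_right (Nat.cast_le.mpr ?_) (by positivity)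
  rw [← Set.ncard_coe_finset]
  refine Set.ncard_le_ncard (fun AB h => ?_) (Finset.finite_toSet _)
  obtain ⟨hX, hY, hne, G, hcard, hst⟩ := h
  rw [Finset.mem_coe, Finset.mem_filter, box, Finset.mem_product, Finset.mem_Icc, Finset.mem_Icc]
  haveI : (shortRat AB).IsElliptic := isElliptic_of_ne hne
  exact ⟨⟨abs_le.mp hX, abs_le.mp hY⟩, fun hF => false_of_stable_hasFrob hp hns hF G hcard hst⟩

/-- **Duke's theorem for a prime**: for `p ≥ 5` Galois induces every automorphism of the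
`p`-torsion of almost all elliptic curves over `ℚ`. -/
theorem almostAll_surjective [inst : DecidableEq (AlgebraicClosure ℚ)] {p : ℕ} (hp : p.Prime)
    (h5 : 5 ≤ p) :
    Tendsto (fun XY : ℕ × ℕ => (Set.ncard {AB : ℤ × ℤ | |AB.1| ≤ XY.1 ∧ |AB.2| ≤ XY.2 ∧
        4 * AB.1 ^ 3 + 27 * AB.2 ^ 2 ≠ 0 ∧
        ¬ ∀ φ : Submodule.torsionBy ℤ ((⟨0, 0, 0, (AB.1 : ℚ), (AB.2 : ℚ)⟩ :
              WeierstrassCurve ℚ).toAffine⁄(AlgebraicClosure ℚ)).Point (p : ℤ) ≃+
            Submodule.torsionBy ℤ ((⟨0, 0, 0, (AB.1 : ℚ), (AB.2 : ℚ)⟩ :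
              WeierstrassCurve ℚ).toAffine⁄(AlgebraicClosure ℚ)).Point (p : ℤ),
          ∃ σ : AlgebraicClosure ℚ ≃ₐ[ℚ] AlgebraicClosure ℚ, ∀ P,
            Affine.Point.map σ.toAlgHom P.1 = (φ P).1} : ℝ) /
      ((2 * XY.1 + 1) * (2 * XY.2 + 1))) atTop (𝓝 0) := by
  classical
  obtain rfl : inst = instDecEqAlgebraicClosureRat := Subsingleton.elim _ _
  haveI := Fact.mk hp
  refine squeeze_zero (fun XY => by positivity) (fun XY => ?_)
    (tendsto_exists (bad := fun (i : ZMod p × (ZMod p)ˣ) AB => ¬ HasFrob p i.1 i.2 AB)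
      fun i => tendsto_not_hasFrob hp (by omega) i.1 i.2.ne_zero)
  refine div_le_div_of_nonneg_right (Nat.cast_le.mpr ?_) (by positivity)
  rw [← Set.ncard_coe_finset]
  refine Set.ncard_le_ncard (fun AB h => ?_) (Finset.finite_toSet _)
  obtain ⟨hX, hY, hne, hns⟩ := h
  rw [Finset.mem_coe, Finset.mem_filter, box, Finset.mem_product, Finset.mem_Icc, Finset.mem_Icc]
  refine ⟨⟨abs_le.mp hX, abs_le.mp hY⟩, by_contra fun hall => hns ?_⟩
  push Not at hall
  haveI : (shortRat AB).IsElliptic := isElliptic_of_ne hne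
  have hW := shortInt_isIntegralModelOf AB
  haveI := ratCurve_isElliptic_of_Δ (Δ_ne_zero_of_model hW)
  exact fun φ => FA.Root.exists_map_eq_of_model hW p
    (FA.Ribet.exists_smul_eq_of_curveRep fun M hM => exists_curveRep_of_hasFrob h5
      (fun t d hd => hall (t, Units.mk0 d hd)) hM) φ

/-- **Almost all elliptic curves are surjective at all primes of a finite range at once.** -/
theorem almostAll_surjective_range [inst : DecidableEq (AlgebraicClosure ℚ)] (L : ℕ) :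
    Tendsto (fun XY : ℕ × ℕ => (Set.ncard {AB : ℤ × ℤ | |AB.1| ≤ XY.1 ∧ |AB.2| ≤ XY.2 ∧
        4 * AB.1 ^ 3 + 27 * AB.2 ^ 2 ≠ 0 ∧
        ∃ p : ℕ, p.Prime ∧ 5 ≤ p ∧ p ≤ L ∧
        ¬ ∀ φ : Submodule.torsionBy ℤ ((⟨0, 0, 0, (AB.1 : ℚ), (AB.2 : ℚ)⟩ :
              WeierstrassCurve ℚ).toAffine⁄(AlgebraicClosure ℚ)).Point (p : ℤ) ≃+
            Submodule.torsionBy ℤ ((⟨0, 0, 0, (AB.1 : ℚ), (AB.2 : ℚ)⟩ :
              WeierstrassCurve ℚ).toAffine⁄(AlgebraicClosure ℚ)).Point (p : ℤ),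
          ∃ σ : AlgebraicClosure ℚ ≃ₐ[ℚ] AlgebraicClosure ℚ, ∀ P,
            Affine.Point.map σ.toAlgHom P.1 = (φ P).1} : ℝ) /
      ((2 * XY.1 + 1) * (2 * XY.2 + 1))) atTop (𝓝 0) := by
  classical
  set S := (Finset.Icc 5 L).filter Nat.Prime
  have hsum := tendsto_finsetSum S fun p hp => almostAll_surjective (inst := inst)
    (Finset.mem_filter.mp hp).2 (Finset.mem_Icc.mp (Finset.mem_filter.mp hp).1).1
  rw [Finset.sum_const_zero] at hsum
  refine squeeze_zero (fun XY => by positivity) (fun XY => ?_) hsum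
  rw [← Finset.sum_div, ← Nat.cast_sum]
  refine div_le_div_of_nonneg_right (Nat.cast_le.mpr ?_) (by positivity)
  refine le_trans (Set.ncard_le_ncard (t := ⋃ p ∈ S, _) (fun AB h => ?_) ?_)
    (Finset.set_ncard_biUnion_le _ _)
  · obtain ⟨hX, hY, hne, p, hp, h5, hL, h⟩ := h
    exact Set.mem_biUnion (x := p) (Finset.mem_filter.mpr ⟨Finset.mem_Icc.mpr ⟨h5, hL⟩, hp⟩)
      ⟨hX, hY, hne, h⟩
  · exact Set.Finite.biUnion (Finset.finite_toSet _) fun p _ =>
      ((Finset.Icc (-(XY.1 : ℤ)) XY.1 ×ˢ Finset.Icc (-(XY.2 : ℤ)) XY.2).finite_toSet).subset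
        fun AB h => Finset.mem_coe.mpr (Finset.mem_product.mpr
          ⟨Finset.mem_Icc.mpr (abs_le.mp h.1), Finset.mem_Icc.mpr (abs_le.mp h.2.1)⟩)

end FA.Summary

end
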