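import Fermat.Agent.Transference.Bad
import Fermat.Agent.Transference.Exponents
import Fermat.Agent.SchmidtGames.Dimension

/-!
# Khintchine's transference principle

Simultaneous approximation of a vector and small values of its linear form: the exponents
determine each other within Khintchine's bounds. Norms are sup norms.
-/

set_option autoImplicit false

noncomputable section

namespace FA.Transference.Summary

variable {d : ℕ}

/-- **Khintchine's transference principle, first half.** Exponent `w` for simultaneous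
approximation gives every exponent below `d w + d - 1` for the linear form. -/
theorem khintchine_transference_forms (hd : 0 < d) {x : Fin d → ℝ} {w w' : ℝ}
    (h : {q : ℕ | 0 < q ∧ ∃ p : Fin d → ℤ,
      ∀ i, |(q : ℝ) * x i - p i| ≤ (q : ℝ) ^ (-w)}.Infinite)
    (hw' : w' < d * w + d - 1) :
    {m : Fin d → ℤ | m ≠ 0 ∧ ∃ n : ℤ,
      |∑ i, (m i : ℝ) * x i + n| ≤ ‖m‖ ^ (-w')}.Infinite :=
  formSet_infinite_of_simSet hd h hw'

/-- **Khintchine's transference principle, second half.** Exponent `w` for the linear form gives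
every exponent below `w / ((d - 1) w + d)` for simultaneous approximation. -/
theorem khintchine_transference_simultaneous (hd : 0 < d) {x : Fin d → ℝ} {w w' : ℝ} (hw : 0 ≤ w)
    (h : {m : Fin d → ℤ | m ≠ 0 ∧ ∃ n : ℤ,
      |∑ i, (m i : ℝ) * x i + n| ≤ ‖m‖ ^ (-w)}.Infinite)
    (hw' : w' < w / (((d : ℝ) - 1) * w + d)) :
    {q : ℕ | 0 < q ∧ ∃ p : Fin d → ℤ,
      ∀ i, |(q : ℝ) * x i - p i| ≤ (q : ℝ) ^ (-w')}.Infinite :=
  simSet_infinite_of_formSet hd hw h hw'

/-- **A vector is very well approximable iff its linear form is.** -/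
theorem very_well_approximable_iff (hd : 0 < d) (x : Fin d → ℝ) :
    (∃ w : ℝ, 1 / d < w ∧ {q : ℕ | 0 < q ∧ ∃ p : Fin d → ℤ,
      ∀ i, |(q : ℝ) * x i - p i| ≤ (q : ℝ) ^ (-w)}.Infinite) ↔
    ∃ w : ℝ, (d : ℝ) < w ∧ {m : Fin d → ℤ | m ≠ 0 ∧ ∃ n : ℤ,
      |∑ i, (m i : ℝ) * x i + n| ≤ ‖m‖ ^ (-w)}.Infinite :=
  veryWellApproximable_iff hd x

/-- **A vector is badly approximable iff its linear form is.** -/
theorem badly_approximable_forms_iff (hd : 0 < d) (x : Fin d → ℝ) :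
    (∃ c : ℝ, 0 < c ∧ ∀ m : Fin d → ℤ, m ≠ 0 → ∀ n : ℤ,
      c / ‖m‖ ^ d ≤ |∑ i, (m i : ℝ) * x i + n|) ↔
    ∃ c : ℝ, 0 < c ∧ ∀ q : ℕ, 0 < q → ∀ p : Fin d → ℤ,
      ∃ i, c / (q : ℝ) ^ (1 / (d : ℝ)) ≤ |(q : ℝ) * x i - p i| :=
  Set.ext_iff.1 (badForms_eq_badVectors hd) x

/-- **The badly approximable linear forms are winning and have Hausdorff dimension `d`.** -/
theorem schmidt_badForms (hd : 0 < d) :
    (∀ α : ℝ, 0 < α → α ≤ 1 / 2 →
      SchmidtGames.IsWinning α {x : Fin d → ℝ | ∃ c : ℝ, 0 < c ∧ ∀ m : Fin d → ℤ, m ≠ 0 →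
        ∀ n : ℤ, c / ‖m‖ ^ d ≤ |∑ i, (m i : ℝ) * x i + n|}) ∧
    dimH {x : Fin d → ℝ | ∃ c : ℝ, 0 < c ∧ ∀ m : Fin d → ℤ, m ≠ 0 →
        ∀ n : ℤ, c / ‖m‖ ^ d ≤ |∑ i, (m i : ℝ) * x i + n|} = d := by
  change (∀ α : ℝ, 0 < α → α ≤ 1 / 2 → SchmidtGames.IsWinning α (badForms d)) ∧
    dimH (badForms d) = d
  rw [badForms_eq_badVectors hd]
  exact ⟨fun α h1 h2 => SchmidtGames.isWinning_badVectors hd h1 h2,
    SchmidtGames.dimH_of_isWinning_pi hd one_half_pos one_half_lt_one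
      (SchmidtGames.isWinning_badVectors hd one_half_pos le_rfl)⟩

end FA.Transference.Summary
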