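import Fermat.Agent.Root.SummaryTwistLFunction
import Fermat.Agent.Root.NoGoodReduction
import Fermat.Agent.Period.Integral

/-!
# Finiteness of the L-functions with given bad primes

For a finite set `S` of primes the semistable elliptic curves over `ℚ` with good reduction outside
`S` have finitely many L-functions, and so do the curves which at each prime of `S` are semistable
or have a pole of `j`. Their coefficients are bounded integers and those of cusp forms of weight two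
of bounded level, which Sturm's bound determines by finitely many of them.
-/

set_option autoImplicit false

noncomputable section

open WeierstrassCurve CongruenceSubgroup

namespace FA.Root.Finiteness

/-- The coefficients are bounded. -/
theorem abs_LFunction_le_sq (E : WeierstrassCurve ℚ) (n : ℕ) :
    |E.LFunction n| ≤ ((n * n : ℕ) : ℤ) := by
  have hle : |(E.LFunction n : ℝ)| ≤ ((n * n : ℕ) : ℝ) := by
    refine (FA.Summary.lFunction_abs_le E n).trans ?_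
    rw [Nat.cast_mul]
    refine mul_le_mul (Nat.cast_le.mpr (Nat.card_divisors_le_self n)) ?_ (Real.sqrt_nonneg _)
      (Nat.cast_nonneg _)
    rcases n.eq_zero_or_pos with rfl | hn
    · simp
    · exact Real.sqrt_le_iff.mpr ⟨Nat.cast_nonneg _, by
        have : (1 : ℝ) ≤ n := by exact_mod_cast hn
        nlinarith⟩
  exact_mod_cast hle

/-- **Finitely many integral coefficient sequences** with given bounds belong to each level. -/
theorem finite_bounded_coeffs (N : ℕ) [NeZero N] (B : ℕ → ℤ) :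
    {a : ArithmeticFunction ℤ | (∀ n, |a n| ≤ B n) ∧ ∃ f : CuspForm (Gamma0 N) 2,
      ∀ n, (UpperHalfPlane.qExpansion 1 f).coeff n = (a n : ℂ)}.Finite := by
  set J := Finset.range ((2 * (Gamma0 N).index : ℤ).toNat / 12 + 1)
  refine Set.Finite.of_finite_image (f := fun (a : ArithmeticFunction ℤ) (i : J) => a i.1)
    ((Set.Finite.pi fun i : J => Set.finite_Icc (-B i.1) (B i.1)).subset ?_) ?_
  · rintro _ ⟨a, ⟨hB, -⟩, rfl⟩ i -
    exact Set.mem_Icc.mpr (abs_le.mp (hB i.1))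
  rintro a ⟨-, f, hf⟩ b ⟨-, g, hg⟩ hab
  have hcf : ∀ n, FA.Period.coeffMap N 2 f n = (a n : ℂ) := hf
  have hcg : ∀ n, FA.Period.coeffMap N 2 g n = (b n : ℂ) := hg
  have hfg : f - g = 0 := FA.Period.cuspForm_eq_zero_of_coeff N 2 _ fun n hn => by
    rw [map_sub, Pi.sub_apply, hcf, hcg, show a n = b n from congrFun hab ⟨n, hn⟩, sub_self]
  refine DFunLike.ext _ _ fun n => ?_
  have h := hcf n
  rw [sub_eq_zero.mp hfg, hcg n] at h
  exact_mod_cast h.symm

/-- **At a prime of good reduction of `E`** a semistable model of the twist by `t ^ 2 * D`, `D`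
squarefree, has good reduction and `D` is a unit. -/
theorem not_dvd_twist_of_good {E : WeierstrassCurve ℚ} {W : WeierstrassCurve ℤ} {t : ℚ} {D : ℤ}
    (ht : t ≠ 0) (hD : Squarefree D)
    (hW : W.IsIntegralModelOf (FA.Twists.quadTwist E (t ^ 2 * D))) {p : ℕ} [hp : Fact p.Prime]
    (hs : (p : ℤ) ∣ W.Δ → ¬ (p : ℤ) ∣ W.c₄) {C : VariableChange ℚ_[p]}
    (hC : HasGoodReduction ℤ_[p] (C • E.map (algebraMap ℚ ℚ_[p]))) :
    ¬ (p : ℤ) ∣ W.Δ ∧ ¬ (p : ℤ) ∣ D := by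
  obtain ⟨C₀, hC₀⟩ := hW
  set w : ℚ := ((C₀.u⁻¹ : ℚˣ) : ℚ)
  set r : ℚ := 36 * w ^ 2 * (t ^ 2 * D) with hr
  have h4 : (W.c₄ : ℚ) = r ^ 2 * E.c₄ := by
    have h := congrArg WeierstrassCurve.c₄ hC₀
    rw [variableChange_c₄, map_c₄, eq_intCast, FA.Root.quadTwist_c₄] at h
    rw [← h, hr]; ring
  have h6 : (W.c₆ : ℚ) = r ^ 3 * E.c₆ := by
    have h := congrArg WeierstrassCurve.c₆ hC₀
    rw [variableChange_c₆, map_c₆, eq_intCast, FA.Root.quadTwist_c₆] at h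
    rw [← h, hr]; ring
  have hΔ : (W.Δ : ℚ) = r ^ 6 * E.Δ := by
    have h := congrArg (Int.cast : ℤ → ℚ) W.c_relation
    push_cast at h
    rw [h4, h6] at h
    refine mul_left_cancel₀ (by norm_num : (1728 : ℚ) ≠ 0) ?_
    linear_combination h - r ^ 6 * E.c_relation
  have : IsMinimal ℤ_[p] (C • E.map (algebraMap ℚ ℚ_[p])) := hC.toIsMinimal
  set V := integralModel ℤ_[p] (C • E.map (algebraMap ℚ ℚ_[p])) with hVdef
  set u : ℚ_[p] := ((C.u⁻¹ : ℚ_[p]ˣ) : ℚ_[p])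
  have hVn : ‖u‖ ^ 12 * ‖(E.Δ : ℚ_[p])‖ = 1 := by
    rw [← norm_pow, ← norm_mul, ← eq_ratCast (algebraMap ℚ ℚ_[p]), ← map_Δ,
      ← variableChange_Δ, ← integralModel_Δ_eq ℤ_[p]]
    show ‖((V.Δ : ℤ_[p]) : ℚ_[p])‖ = 1
    rw [← PadicInt.norm_def]
    refine le_antisymm (PadicInt.norm_le_one _) (not_lt.mp fun hlt => ?_)
    have h1 : IsDedekindDomain.HeightOneSpectrum.valuation ℚ_[p]
        (IsDiscreteValuationRing.maximalIdeal ℤ_[p]) (algebraMap ℤ_[p] ℚ_[p] V.Δ) < 1 := by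
      rw [IsDedekindDomain.HeightOneSpectrum.valuation_lt_one_iff_mem]
      show V.Δ ∈ IsLocalRing.maximalIdeal ℤ_[p]
      rw [PadicInt.maximalIdeal_eq_span_p, Ideal.mem_span_singleton]
      exact (PadicInt.norm_lt_one_iff_dvd _).mp hlt
    exact h1.ne (by rw [hVdef, integralModel_Δ_eq]; exact hC.goodReduction)
  have hVc : ‖u‖ ^ 4 * ‖(E.c₄ : ℚ_[p])‖ ≤ 1 := by
    rw [← norm_pow, ← norm_mul, ← eq_ratCast (algebraMap ℚ ℚ_[p]), ← map_c₄,
      ← variableChange_c₄, ← integralModel_c₄_eq ℤ_[p]]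
    exact PadicInt.norm_le_one _
  have hΔn : ‖(W.Δ : ℚ_[p])‖ = ‖(r : ℚ_[p])‖ ^ 6 * ‖(E.Δ : ℚ_[p])‖ := by
    rw [← Rat.cast_intCast (α := ℚ_[p]) W.Δ, hΔ, Rat.cast_mul, Rat.cast_pow, norm_mul, norm_pow]
  have h4n : ‖(W.c₄ : ℚ_[p])‖ = ‖(r : ℚ_[p])‖ ^ 2 * ‖(E.c₄ : ℚ_[p])‖ := by
    rw [← Rat.cast_intCast (α := ℚ_[p]) W.c₄, h4, Rat.cast_mul, Rat.cast_pow, norm_mul, norm_pow]
  have hu : 0 < ‖u‖ := norm_pos_iff.mpr (Units.ne_zero _)
  have hEΔ : 0 < ‖(E.Δ : ℚ_[p])‖ := by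
    refine (norm_nonneg _).lt_of_ne fun h => ?_
    rw [← h, mul_zero] at hVn
    exact zero_ne_one hVn
  have heq : ‖(r : ℚ_[p])‖ = ‖u‖ ^ 2 := by
    rcases lt_trichotomy ‖(r : ℚ_[p])‖ (‖u‖ ^ 2) with hlt | heq | hgt
    · exfalso
      have e1 : ‖(W.Δ : ℚ_[p])‖ < 1 := by
        rw [hΔn, ← hVn, show ‖u‖ ^ 12 = (‖u‖ ^ 2) ^ 6 by ring]
        gcongr
      refine hs (Padic.norm_intCast_lt_one_iff.mp e1) (Padic.norm_intCast_lt_one_iff.mp ?_)
      rw [h4n]
      rcases (norm_nonneg (E.c₄ : ℚ_[p])).eq_or_lt with h0 | h0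
      · rw [← h0, mul_zero]; exact one_pos
      refine lt_of_lt_of_le ?_ hVc
      rw [show ‖u‖ ^ 4 = (‖u‖ ^ 2) ^ 2 by ring]
      gcongr
    · exact heq
    · exfalso
      refine (Padic.norm_int_le_one (p := p) W.Δ).not_gt ?_
      rw [hΔn, ← hVn, show ‖u‖ ^ 12 = (‖u‖ ^ 2) ^ 6 by ring]
      gcongr
  constructor
  · intro hd
    refine (Padic.norm_intCast_lt_one_iff.mpr hd).ne ?_
    rw [hΔn, heq, ← hVn]; ring
  intro hd
  obtain ⟨e, rfl⟩ := hd
  have he : ‖(e : ℚ_[p])‖ = 1 := le_antisymm (Padic.norm_int_le_one _) (not_lt.mp fun hlt => by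
    obtain ⟨c, rfl⟩ := Padic.norm_intCast_lt_one_iff.mp hlt
    exact hp.out.not_isUnit (Int.ofNat_isUnit.mp (hD _ ⟨c, by ring⟩)))
  have hw : w ≠ 0 := Units.ne_zero _
  have hval : ∀ x : ℚ_[p], x ≠ 0 → ∃ k : ℤ, ‖x‖ = (p : ℝ) ^ k := fun x hx =>
    ⟨_, Padic.norm_eq_zpow_neg_valuation hx⟩
  obtain ⟨k, hk⟩ := hval (u / ((6 : ℚ) * w * t : ℚ)) (div_ne_zero (Units.ne_zero _)
    (Rat.cast_ne_zero.mpr (mul_ne_zero (mul_ne_zero (by norm_num) hw) ht)))
  have hsq : ‖(r : ℚ_[p])‖ = ‖(((6 : ℚ) * w * t : ℚ) : ℚ_[p])‖ ^ 2 * (p : ℝ)⁻¹ := by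
    rw [show r = ((6 : ℚ) * w * t) ^ 2 * ((p : ℤ) : ℚ) * (e : ℚ) by rw [hr]; push_cast; ring,
      Rat.cast_mul, Rat.cast_mul, Rat.cast_pow, norm_mul, norm_mul, norm_pow, Rat.cast_intCast,
      Rat.cast_intCast, he, mul_one, Int.cast_natCast, Padic.norm_p]
  have hne : ‖(((6 : ℚ) * w * t : ℚ) : ℚ_[p])‖ ≠ 0 := norm_ne_zero_iff.mpr
    (Rat.cast_ne_zero.mpr (mul_ne_zero (mul_ne_zero (by norm_num) hw) ht))
  rw [norm_div, div_eq_iff hne] at hk
  rw [heq, hk, mul_pow, mul_comm] at hsq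
  have hp0 : (0 : ℝ) < p := Nat.cast_pos.mpr hp.out.pos
  have h2 := mul_left_cancel₀ (pow_ne_zero 2 hne) hsq
  rw [← zpow_natCast, ← zpow_mul, ← zpow_neg_one,
    zpow_right_inj₀ hp0 (by exact_mod_cast hp.out.ne_one)] at h2
  push_cast at h2
  omega

/-- The level bound. -/
def levelBound (S : Finset ℕ) : ℕ := (∏ x ∈ S, max x 1) * (4 * ∏ x ∈ S, max x 1) ^ 2

theorem squarefree_le_prod {S : Finset ℕ} {M : ℕ} (hM : Squarefree M)
    (h : ∀ q : ℕ, q.Prime → q ∣ M → q ∈ S) : M ≤ ∏ x ∈ S, max x 1 := by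
  rw [← Nat.prod_primeFactors_of_squarefree hM]
  refine (Finset.prod_le_prod' fun q _ => le_max_left q 1).trans
    (Finset.prod_le_prod_of_subset_of_one_le' (fun q hq => ?_) fun q _ _ => le_max_right q 1)
  obtain ⟨hq, hqM, -⟩ := Nat.mem_primeFactors.mp hq
  exact h q hq hqM

/-- **The level is bounded by the bad primes.** -/
theorem exists_form_bounded (S : Finset ℕ) (E : WeierstrassCurve ℚ) [E.IsElliptic]
    (h : ∀ p : ℕ, ∀ [Fact p.Prime], (∃ C : VariableChange ℚ_[p],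
      HasGoodReduction ℤ_[p] (C • E.map (algebraMap ℚ ℚ_[p])) ∨
        HasMultiplicativeReduction ℤ_[p] (C • E.map (algebraMap ℚ ℚ_[p]))) ∨
      padicValRat p E.j < 0)
    (hgood : ∀ p : ℕ, ∀ [Fact p.Prime], p ∉ S → ∃ C : VariableChange ℚ_[p],
      HasGoodReduction ℤ_[p] (C • E.map (algebraMap ℚ ℚ_[p]))) :
    ∃ M ∈ Finset.Icc 1 (levelBound S), ∃ f : CuspForm (Gamma0 M) 2,
      ∀ n, (UpperHalfPlane.qExpansion 1 f).coeff n = (E.LFunction n : ℂ) := by
  obtain ⟨d, hd, hss⟩ := FA.Summary.exists_semistable_twist_of_j_all E h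
  have := FA.Root.quadTwist_isElliptic E hd
  obtain ⟨W, N, f, hW, hs, hN, hNp, hf, hn⟩ :=
    FA.Root.exists_newform_LFunction (FA.Twists.quadTwist E d) hss
  obtain ⟨D, q, ψ, ⟨hD, t, ht, rfl⟩, hqD, hq, hψ, -, hL⟩ :=
    FA.Twists.exists_char_LFunction E hd hW (FA.Frob.Δ_ne_zero_of_model hW) hs
  have : NeZero N := ⟨hN.ne_zero⟩
  have : NeZero q := ⟨hq.ne'⟩
  obtain ⟨g, -, hg⟩ := FA.Twists.exists_twist_eigenform hf.isNormalizedEigenform hψ
  refine ⟨N * q ^ 2, Finset.mem_Icc.mpr ⟨Nat.mul_pos (Nat.pos_of_ne_zero hN.ne_zero)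
    (pow_pos hq 2), ?_⟩, g, fun n => by rw [hL n, ← hn n, ← hg n]; rfl⟩
  have hunit : ∀ p : ℕ, p.Prime → p ∉ S → ¬ (p : ℤ) ∣ W.Δ ∧ ¬ (p : ℤ) ∣ D := fun p hp hpS => by
    have := Fact.mk hp
    obtain ⟨C, hC⟩ := hgood p hpS
    exact not_dvd_twist_of_good ht hD hW (hs p hp) hC
  have hNle : N ≤ ∏ x ∈ S, max x 1 := squarefree_le_prod hN fun p hp hpN => by
    by_contra hpS
    exact (hunit p hp hpS).1 ((hNp p hp).mp hpN)
  have hDle : D.natAbs ≤ ∏ x ∈ S, max x 1 :=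
    squarefree_le_prod (Int.squarefree_natAbs.mpr hD) fun p hp hpD => by
      by_contra hpS
      exact (hunit p hp hpS).2 (Int.natCast_dvd.mpr hpD)
  refine Nat.mul_le_mul hNle (Nat.pow_le_pow_left (le_trans ?_ (Nat.mul_le_mul_left 4 hDle)) 2)
  rw [hqD]
  split_ifs <;> omega

end FA.Root.Finiteness

namespace FA.Summary

open FA.Root.Finiteness

/-- **Finiteness by modularity, with poles of `j`**: for a finite set `S` the L-functions of the
elliptic curves over `ℚ` with good reduction outside `S` which are at every prime semistable or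
have a pole of `j` form a finite set. -/
theorem finite_LFunctions_of_j (S : Finset ℕ) :
    {L : ArithmeticFunction ℤ | ∃ (E : WeierstrassCurve ℚ) (_ : E.IsElliptic),
      (∀ p : ℕ, ∀ [Fact p.Prime], (∃ C : VariableChange ℚ_[p],
        HasGoodReduction ℤ_[p] (C • E.map (algebraMap ℚ ℚ_[p])) ∨
          HasMultiplicativeReduction ℤ_[p] (C • E.map (algebraMap ℚ ℚ_[p]))) ∨
        padicValRat p E.j < 0) ∧
      (∀ p : ℕ, ∀ [Fact p.Prime], p ∉ S → ∃ C : VariableChange ℚ_[p],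
        HasGoodReduction ℤ_[p] (C • E.map (algebraMap ℚ ℚ_[p]))) ∧
      E.LFunction = L}.Finite := by
  have key : ∀ M ∈ (Finset.Icc 1 (levelBound S) : Set ℕ),
      {a : ArithmeticFunction ℤ | (∀ n, |a n| ≤ ((n * n : ℕ) : ℤ)) ∧
        ∃ f : CuspForm (Gamma0 M) 2,
          ∀ n, (UpperHalfPlane.qExpansion 1 f).coeff n = (a n : ℂ)}.Finite := fun M hM => by
    have : NeZero M := ⟨Nat.one_le_iff_ne_zero.mp (Finset.mem_Icc.mp hM).1⟩
    exact finite_bounded_coeffs M _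
  refine ((Finset.Icc 1 (levelBound S)).finite_toSet.biUnion key).subset ?_
  rintro _ ⟨E, hE, h, hgood, rfl⟩
  obtain ⟨M, hM, hf⟩ := exists_form_bounded S E h hgood
  exact Set.mem_biUnion hM ⟨fun n => abs_LFunction_le_sq E n, hf⟩

/-- **Finiteness by modularity (Shafarevich up to L-functions)**: for a finite set `S` of primes
the L-functions of the semistable elliptic curves over `ℚ` with good reduction outside `S` form a
finite set. -/
theorem finite_LFunctions_semistable (S : Finset ℕ) :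
    {L : ArithmeticFunction ℤ | ∃ (E : WeierstrassCurve ℚ) (_ : E.IsElliptic),
      (∀ p : ℕ, ∀ [Fact p.Prime], ∃ C : VariableChange ℚ_[p],
        HasGoodReduction ℤ_[p] (C • E.map (algebraMap ℚ ℚ_[p])) ∨
          HasMultiplicativeReduction ℤ_[p] (C • E.map (algebraMap ℚ ℚ_[p]))) ∧
      (∀ p : ℕ, ∀ [Fact p.Prime], p ∉ S → ∃ C : VariableChange ℚ_[p],
        HasGoodReduction ℤ_[p] (C • E.map (algebraMap ℚ ℚ_[p]))) ∧
      E.LFunction = L}.Finite := by
  refine (finite_LFunctions_of_j S).subset ?_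
  rintro L ⟨E, hE, h, hgood, hL⟩
  exact ⟨E, hE, fun p _ => Or.inl (h p), hgood, hL⟩

end FA.Summary

end
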