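import Fermat.Agent.BakerLastHeight.Descent

/-!
# Baker's theorem linear in the height of one number

* `baker_last_height`: for a number field of degree at most `d` with an embedding `ψ`, numbers
  `α i` of logarithmic height at most `h` and `α₀` of height at most `h R`, logarithms on any
  branches bounded by the same numbers, and integers of absolute value at most `2 ^ m` with
  `b₀ ≠ 0`: if the form `∑ b i l i + b₀ l₀` is not zero then its absolute value is at least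
  `1 / 2 ^ (R (C (h + m + 1)) ^ κ)`, with `C = lastHeightConst n d` and `κ = lastHeightKappa n`
  closed expressions. No independence is assumed.

* `baker_last_height_ratio`: Baker's sharpening: the same with `|b i| ≤ 2 ^ m R` and `|b₀| ≤ 2 ^ m`,
  so that for bounded `b₀` only the logarithm of `B / R` enters (Feldman's condition).

The height is `Height.logHeight₁`, natural logarithm and not divided by the degree.

Not claimed: good constants, or a bound linear in several heights at once (Baker, Waldschmidt,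
Matveev).
-/

set_option autoImplicit false

noncomputable section

namespace FA.BakerLastHeight

open Finset NumberField Module

variable {K : Type*} [Field K] [NumberField K]

/-- **Baker's theorem, linear in the last height.** -/
theorem baker_last_height {d : ℕ} (hd : finrank ℚ K ≤ d) (ψ : K →+* ℂ) {n h m R : ℕ}
    (hR : 1 ≤ R) {α : Fin n → K} {α₀ : K} (hα : ∀ i, Height.logHeight₁ (α i) ≤ h)
    (hα₀ : Height.logHeight₁ α₀ ≤ (h * R : ℕ)) {l : Fin n → ℂ} {l₀ : ℂ}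
    (hexp : ∀ i, Complex.exp (l i) = ψ (α i)) (hexp₀ : Complex.exp l₀ = ψ α₀)
    (hl : ∀ i, ‖l i‖ ≤ h) (hl₀ : ‖l₀‖ ≤ (h * R : ℕ)) {b : Fin n → ℤ} {b₀ : ℤ}
    (hb : ∀ i, (b i).natAbs ≤ 2 ^ m) (hb₀m : b₀.natAbs ≤ 2 ^ m) (hb₀ : b₀ ≠ 0)
    (hne : ∑ i, (b i : ℂ) * l i + (b₀ : ℂ) * l₀ ≠ 0) :
    1 / (2 : ℝ) ^ (R * (lastHeightConst n d * (h + m + 1)) ^ lastHeightKappa n) ≤
      ‖∑ i, (b i : ℂ) * l i + (b₀ : ℂ) * l₀‖ :=
  linear_form_bound hd ψ hR hα hα₀ hexp hexp₀ hl hl₀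
    (fun i => (hb i).trans (Nat.le_mul_of_pos_right _ hR)) hb₀m hb₀ hne

/-- **Baker's sharpening**: only `B / R` enters. -/
theorem baker_last_height_ratio {d : ℕ} (hd : finrank ℚ K ≤ d) (ψ : K →+* ℂ) {n h m R : ℕ}
    (hR : 1 ≤ R) {α : Fin n → K} {α₀ : K} (hα : ∀ i, Height.logHeight₁ (α i) ≤ h)
    (hα₀ : Height.logHeight₁ α₀ ≤ (h * R : ℕ)) {l : Fin n → ℂ} {l₀ : ℂ}
    (hexp : ∀ i, Complex.exp (l i) = ψ (α i)) (hexp₀ : Complex.exp l₀ = ψ α₀)
    (hl : ∀ i, ‖l i‖ ≤ h) (hl₀ : ‖l₀‖ ≤ (h * R : ℕ)) {b : Fin n → ℤ} {b₀ : ℤ}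
    (hb : ∀ i, (b i).natAbs ≤ 2 ^ m * R) (hb₀m : b₀.natAbs ≤ 2 ^ m) (hb₀ : b₀ ≠ 0)
    (hne : ∑ i, (b i : ℂ) * l i + (b₀ : ℂ) * l₀ ≠ 0) :
    1 / (2 : ℝ) ^ (R * (lastHeightConst n d * (h + m + 1)) ^ lastHeightKappa n) ≤
      ‖∑ i, (b i : ℂ) * l i + (b₀ : ℂ) * l₀‖ :=
  linear_form_bound hd ψ hR hα hα₀ hexp hexp₀ hl hl₀ hb hb₀m hb₀ hne

end FA.BakerLastHeight

end
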