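import Fermat.Agent.Root.SummaryMordellWeilNumberField

/-!
# The theorem of Mordell and Weil in full

For every number field `K` and every elliptic curve with coefficients in `K` the points over `K`
form a finitely generated group.  At a prime `q` not dividing `3` and a common denominator of the
coefficients and of the inverse of the discriminant inertia fixes the thirds of the points over
`K`, so their fields are finitely many; the naive height does the descent.
-/

set_option autoImplicit false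
set_option linter.style.haveILetI false
set_option linter.unusedSectionVars false

noncomputable section

open WeierstrassCurve NumberField FA.EC
open scoped WeierstrassCurve.Affine

local notation "Qb" => AlgebraicClosure ℚ
local notation "GQ" => AlgebraicClosure ℚ ≃ₐ[ℚ] AlgebraicClosure ℚ

namespace FA.MordellWeilGeneral

variable {K : Type*} [Field K] [NumberField K] [Algebra K Qb] [IsScalarTower ℚ K Qb]

variable (K) in
/-- The copy of `K` in `ℚ̄`. -/
def image : IntermediateField ℚ Qb := (IsScalarTower.toAlgHom ℚ K Qb).fieldRange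

variable (K) in
/-- An automorphism fixing the copy of `K` as an automorphism over `K`. -/
def overK : (image K).fixingSubgroup →* (Qb ≃ₐ[K] Qb) where
  toFun σ := AlgEquiv.ofRingEquiv (f := σ.1.toRingEquiv) fun x =>
    (IntermediateField.mem_fixingSubgroup_iff _ _).1 σ.2 _ ⟨x, rfl⟩
  map_one' := AlgEquiv.ext fun _ => rfl
  map_mul' _ _ := AlgEquiv.ext fun _ => rfl

theorem overK_apply (σ : (image K).fixingSubgroup) (z : Qb) : overK K σ z = σ.1 z := rfl

theorem overK_surjective : Function.Surjective (overK K) := fun g => by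
  refine ⟨⟨g.restrictScalars ℚ, (IntermediateField.mem_fixingSubgroup_iff _ _).2 ?_⟩,
    AlgEquiv.ext fun _ => rfl⟩
  rintro _ ⟨x, rfl⟩
  exact g.commutes x

variable (W : WeierstrassCurve K)

theorem gal_nsmul (g : Qb ≃ₐ[K] Qb) (n : ℕ) (P : (W⁄Qb).Point) : g • (n • P) = n • g • P :=
  (DistribSMul.toAddMonoidHom (W⁄Qb).Point g).map_nsmul n P

theorem gal_sub (g : Qb ≃ₐ[K] Qb) (P Q : (W⁄Qb).Point) : g • (P - Q) = g • P - g • Q :=
  (DistribSMul.toAddMonoidHom (W⁄Qb).Point g).map_sub P Q

/-- Outside a finite set of primes every place sees an integral model of good reduction. -/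
theorem exists_bad [W.IsElliptic] : ∃ D : ℕ, D ≠ 0 ∧ ∀ q : ℕ, q.Prime → ¬ q ∣ D →
    ∀ A : ValuationSubring Qb, A.LiesOverPrime q →
      FA.Local.IntCoeff A.valuation (W⁄Qb).toAffine ∧ A.valuation (W⁄Qb).toAffine.Δ = 1 ∧
        A.valuation ((3 : ℕ) : Qb) = 1 := by
  classical
  obtain ⟨y, hy, hint⟩ := exists_integral_multiples ℤ ℚ
    ({W.a₁, W.a₂, W.a₃, W.a₄, W.a₆, W.Δ, W.Δ⁻¹} : Finset K)
  refine ⟨3 * y.natAbs, mul_ne_zero three_ne_zero (Int.natAbs_ne_zero.mpr hy),
    fun q hq hqD A hA => ?_⟩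
  have hv : A.valuation (q : Qb) < 1 := A.mem_nonunits_iff.mp hA
  have h3 : A.valuation ((3 : ℕ) : Qb) = 1 := by
    have := FA.Local.natCast_eq_one_of_not_dvd hq hv (n := ((3 : ℕ) : ℤ)) fun h =>
      hqD ((Int.natCast_dvd_natCast.1 h).mul_right _)
    rwa [Int.cast_natCast] at this
  have hy1 : A.valuation (y : Qb) = 1 := FA.Local.natCast_eq_one_of_not_dvd hq hv fun h =>
    hqD ((Int.natCast_dvd.1 h).mul_left 3)
  have hle : ∀ c ∈ ({W.a₁, W.a₂, W.a₃, W.a₄, W.a₆, W.Δ, W.Δ⁻¹} : Finset K),
      A.valuation (algebraMap K Qb c) ≤ 1 := fun c hc => by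
    have h := (A.valuation_le_one_iff _).mpr (FA.Deform.zbar_mem_valuationSubring A
      ⟨_, (hint c hc).map ((IsScalarTower.toAlgHom ℚ K Qb).restrictScalars ℤ)⟩)
    change A.valuation (algebraMap K Qb (y • c)) ≤ 1 at h
    rwa [zsmul_eq_mul, map_mul, map_mul, map_intCast, hy1, one_mul] at h
  refine ⟨⟨?_, ?_, ?_, ?_, ?_⟩, ?_, h3⟩
  iterate 5 exact hle _ (by simp)
  show A.valuation (W.map (algebraMap K Qb)).Δ = 1
  rw [WeierstrassCurve.map_Δ]
  refine le_antisymm (hle _ (by simp)) ?_
  have h := hle W.Δ⁻¹ (by simp)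
  rwa [map_inv₀, map_inv₀, inv_le_one₀] at h
  exact zero_lt_iff.mpr ((A.valuation.ne_zero_iff).mpr
    ((map_ne_zero _).mpr W.isUnit_Δ.ne_zero))

/-- The automorphisms over the copy of `K` which fix a point, inside the absolute group. -/
def fixer (Q : (W⁄Qb).Point) : Subgroup GQ :=
  ((MulAction.stabilizer (Qb ≃ₐ[K] Qb) Q).comap (overK K)).map (image K).fixingSubgroup.subtype

theorem mem_fixer {Q : (W⁄Qb).Point} {σ : GQ} :
    σ ∈ fixer W Q ↔ ∃ h : σ ∈ (image K).fixingSubgroup, overK K ⟨σ, h⟩ • Q = Q := by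
  simp [fixer, MulAction.mem_stabilizer_iff]

instance finiteDimensional_image : FiniteDimensional ℚ (image K) :=
  (IsScalarTower.toAlgHom ℚ K Qb).toLinearMap.finiteDimensional_range

theorem isOpen_fixer (Q : (W⁄Qb).Point) : IsOpen (fixer W Q : Set GQ) := by
  rcases Q with _ | ⟨x, y, hn⟩
  · exact Subgroup.isOpen_mono (fun σ hσ => (mem_fixer W).mpr ⟨hσ, rfl⟩)
      (IntermediateField.fixingSubgroup_isOpen (image K))
  haveI : FiniteDimensional ℚ (IntermediateField.adjoin ℚ ({x, y} : Set Qb)) :=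
    IntermediateField.finiteDimensional_adjoin fun z _ =>
      ((AlgebraicClosure.isAlgebraic ℚ).isAlgebraic z).isIntegral
  refine Subgroup.isOpen_mono (H₁ := (image K).fixingSubgroup ⊓
      (IntermediateField.adjoin ℚ ({x, y} : Set Qb)).fixingSubgroup)
    (fun σ hσ => (mem_fixer W).mpr ⟨hσ.1, ?_⟩) (by
      rw [Subgroup.coe_inf]
      exact (IntermediateField.fixingSubgroup_isOpen _).inter
        (IntermediateField.fixingSubgroup_isOpen _))
  rw [Affine.Point.algEquiv_smul_def, Affine.Point.map_some]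
  simp only [Affine.Point.some.injEq]
  exact ⟨(IntermediateField.mem_fixingSubgroup_iff _ _).1 hσ.2 x
      (IntermediateField.subset_adjoin ℚ _ (by simp)),
    (IntermediateField.mem_fixingSubgroup_iff _ _).1 hσ.2 y
      (IntermediateField.subset_adjoin ℚ _ (by simp))⟩

/-- Every point over `ℚ̄` is three times a point. -/
theorem exists_third [W.IsElliptic] (P : (W⁄Qb).Point) : ∃ Q : (W⁄Qb).Point, 3 • Q = P := by
  rcases eq_or_ne P 0 with rfl | hP
  · exact ⟨0, nsmul_zero 3⟩
  set x₀ := xc (W := W⁄Qb) P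
  set f : Polynomial Qb := (W⁄Qb).Φ 3 - Polynomial.C x₀ * (W⁄Qb).ΨSq 3 with hf
  have hc : f.coeff 9 = 1 := by
    rw [hf, Polynomial.coeff_sub, Polynomial.coeff_C_mul,
      Polynomial.coeff_eq_zero_of_natDegree_lt (p := (W⁄Qb).ΨSq 3)
        (lt_of_le_of_lt ((W⁄Qb).natDegree_ΨSq_le 3) (by decide)), mul_zero, sub_zero]
    simpa using (W⁄Qb).coeff_Φ 3
  obtain ⟨x, hx⟩ := IsAlgClosed.exists_root f fun h => by
    have hC := Polynomial.eq_C_of_degree_le_zero h.le
    rw [hC, Polynomial.coeff_C] at hc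
    simp at hc
  rw [Polynomial.IsRoot.def, hf, Polynomial.eval_sub, Polynomial.eval_mul, Polynomial.eval_C,
    sub_eq_zero] at hx
  obtain ⟨y, hy⟩ := exists_nonsingular (W⁄Qb) x
  have hΨ : ((W⁄Qb).ΨSq 3).eval x ≠ 0 := fun h => numDen_ne_zero (W⁄Qb) 3 x <| by
    rw [h, mul_zero] at hx
    funext i
    fin_cases i
    exacts [hx, h]
  have h0 : (3 : ℤ) • Affine.Point.some x y hy ≠ 0 := fun h => hΨ ((zsmul_eq_zero_iff hy 3).1 h)
  have hxc : xc ((3 : ℤ) • Affine.Point.some x y hy) = x₀ := by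
    rw [xc_zsmul hy 3 h0, hx, mul_div_cancel_right₀ _ hΨ]
  rcases eq_or_eq_neg_of_xc_eq h0 hP hxc with h | h
  · exact ⟨Affine.Point.some x y hy, by rw [← h, ← natCast_zsmul]; rfl⟩
  · exact ⟨-Affine.Point.some x y hy, by
      rw [neg_nsmul, ← natCast_zsmul]; exact neg_eq_iff_eq_neg.2 h⟩

theorem three_nsmul_smul_sub {Q : (W⁄Qb).Point}
    (hQ : ∀ g : Qb ≃ₐ[K] Qb, g • (3 • Q) = 3 • Q) (g : Qb ≃ₐ[K] Qb) :
    3 • (g • Q - Q) = 0 := by
  rw [nsmul_sub, ← gal_nsmul, hQ, sub_self]

theorem index_fixer_le [W.IsElliptic] {Q : (W⁄Qb).Point}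
    (hQ : ∀ g : Qb ≃ₐ[K] Qb, g • (3 • Q) = 3 • Q) :
    (fixer W Q).index ≤ (image K).fixingSubgroup.index *
      Nat.card (Submodule.torsionBy ℤ (W⁄Qb).Point ((3 : ℕ) : ℤ)) := by
  haveI : Finite (Submodule.torsionBy ℤ (W⁄Qb).Point ((3 : ℕ) : ℤ)) :=
    FA.EC.finite_torsionBy _ (by norm_num)
  rw [fixer, Subgroup.index_map_subtype, mul_comm (image K).fixingSubgroup.index]
  refine Nat.mul_le_mul_right _ ?_
  rw [Subgroup.index_comap_of_surjective _ overK_surjective, MulAction.index_stabilizer,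
    ← Nat.card_coe_set_eq]
  refine Nat.card_le_card_of_injective (fun R : MulAction.orbit (Qb ≃ₐ[K] Qb) Q =>
    (⟨R.1 - Q, ?_⟩ : Submodule.torsionBy ℤ (W⁄Qb).Point ((3 : ℕ) : ℤ)))
    fun R R' e => Subtype.ext (sub_left_injective (congrArg Subtype.val e :))
  obtain ⟨g, hg⟩ := R.2
  rw [Submodule.mem_torsionBy_iff, natCast_zsmul, ← hg]
  exact three_nsmul_smul_sub W hQ g

/-- Inertia at a good prime fixes every point a triple of which is defined over `K`. -/
theorem inertia_fix [W.IsElliptic] {A : ValuationSubring Qb}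
    (hI : FA.Local.IntCoeff A.valuation (W⁄Qb).toAffine)
    (hΔ : A.valuation (W⁄Qb).toAffine.Δ = 1) (h3 : A.valuation ((3 : ℕ) : Qb) = 1)
    (σ : (image K).fixingSubgroup) (hσ : σ.1 ∈ A.inertiaSubgroupIn ℚ) {P : (W⁄Qb).Point}
    (hP : 3 • (overK K σ • P - P) = 0) : overK K σ • P - P = 0 := by
  classical
  haveI := FA.Frob.redCurve_isElliptic hI hΔ
  have hin := FA.Local.inert_of_mem_inertiaSubgroupIn A hσ
  refine FA.Frob.redHom_injOn hI hΔ Nat.prime_three h3 hP ?_
  rw [map_sub, sub_eq_zero, FA.Frob.redHom_apply, FA.Frob.redHom_apply]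
  rcases P with _ | ⟨x, y, h⟩
  · rfl
  have hmem : ∀ z, σ.1 z ∈ A ↔ z ∈ A := fun z => by
    rw [← A.valuation_le_one_iff, hin.map_eq, A.valuation_le_one_iff]
  by_cases hx : x ∈ A
  · have hy := FA.Frob.y_mem hI h.1 hx
    obtain ⟨h₁, e₁⟩ := FA.Frob.redFun_of_mem hI h hx
    have hn : (W⁄Qb).toAffine.Nonsingular (σ.1 x) (σ.1 y) :=
      (W.toAffine.baseChange_nonsingular (f := (overK K σ).toAlgHom)
        (overK K σ).toAlgHom.injective x y).mpr h
    obtain ⟨h₂, e₂⟩ := FA.Frob.redFun_of_mem hI hn ((hmem x).2 hx)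
    refine e₂.trans (Eq.trans ?_ e₁.symm)
    simp only [Affine.Point.some.injEq]
    exact ⟨(FA.Frob.resOf_eq_iff A ((hmem x).2 hx) hx).2
        (hin.sub_lt x ((A.valuation_le_one_iff x).2 hx)),
      (FA.Frob.resOf_eq_iff A ((hmem y).2 hy) hy).2
        (hin.sub_lt y ((A.valuation_le_one_iff y).2 hy))⟩
  · rw [Affine.Point.algEquiv_smul_def, Affine.Point.map_some, FA.Frob.redFun, FA.Frob.redFun,
      dif_neg hx]
    exact dif_neg fun e => hx ((hmem x).1 e)

/-- **Weak Mordell–Weil at three** over a number field, coefficients in that field. -/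
theorem finiteIndex_three [W.IsElliptic] [DecidableEq K] :
    (nsmulAddMonoidHom (α := W.toAffine.Point) 3).range.FiniteIndex := by
  classical
  haveI : NumberField (image K) := { }
  set H := (image K).fixingSubgroup
  haveI := FA.Faltings.finiteIndex_of_open (IntermediateField.fixingSubgroup_isOpen (image K))
  set T := Submodule.torsionBy ℤ (W⁄Qb).Point ((3 : ℕ) : ℤ)
  haveI : Finite T := FA.EC.finite_torsionBy _ (by norm_num)
  obtain ⟨D, hD, hgood⟩ := exists_bad W
  set S : Finset ℕ := D.primeFactors ∪ (discr (image K)).natAbs.primeFactors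
  have hfin := FA.Faltings.finite_openSubgroups S (H.index * Nat.card T)
  set U : Subgroup GQ := H ⊓ ⨅ G ∈ hfin.toFinset, G
  have hU : IsOpen (U : Set GQ) := by
    rw [Subgroup.coe_inf, Subgroup.coe_iInf]
    refine (IntermediateField.fixingSubgroup_isOpen _).inter ?_
    simp only [Subgroup.coe_iInf]
    exact isOpen_biInter_finset fun G hG => (hfin.mem_toFinset.mp hG).1
  haveI := FA.Faltings.finiteIndex_of_open hU
  haveI : Finite (GQ ⧸ U) := Subgroup.finite_quotient_of_finiteIndex
  set ι : W.toAffine.Point →+ (W⁄Qb).Point :=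
    Affine.Point.map (W' := W.toAffine) (S := K) (Algebra.ofId K Qb)
  have hι : ∀ (g : Qb ≃ₐ[K] Qb) P, g • ι P = ι P := fun g P => by
    rcases P with _ | ⟨x, y, h⟩
    · rfl
    · show Affine.Point.some (g (algebraMap K Qb x)) (g (algebraMap K Qb y)) _ =
        Affine.Point.some (algebraMap K Qb x) (algebraMap K Qb y) _
      simp only [AlgEquiv.commutes]
  choose third hthird using fun P : W.toAffine.Point => exists_third W (ι P)
  have hfix : ∀ P (g : Qb ≃ₐ[K] Qb), g • (3 • third P) = 3 • third P := fun P g => by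
    rw [hthird, hι]
  have hstab : ∀ P, U ≤ fixer W (third P) := fun P => by
    refine inf_le_right.trans (iInf₂_le_of_le _ (hfin.mem_toFinset.mpr
      ⟨isOpen_fixer W _, index_fixer_le W (hfix P), fun q hq hqS A hA σ hσ => ?_⟩) le_rfl)
    simp only [S, Finset.mem_union, Nat.mem_primeFactors, not_or, not_and] at hqS
    have hσH : σ ∈ H := FA.Faltings.inertia_le_of_unramified (image K) hq (fun P' _ hP' => by
      refine (NumberField.not_dvd_discr_iff_forall_mem (image K) (𝓞 (image K))
        (Nat.prime_iff_prime_int.mp hq)).mp ?_ P' inferInstance (by exact_mod_cast hP')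
      exact fun h => hqS.2 hq (Int.natCast_dvd.mp h)
        (Int.natAbs_ne_zero.mpr (NumberField.discr_ne_zero _))) hA hσ
    obtain ⟨hI, hΔ, h3⟩ := hgood q hq (fun h => hqS.1 hq h hD) A hA
    exact (mem_fixer W).mpr ⟨hσH, sub_eq_zero.mp (inertia_fix W hI hΔ h3 ⟨σ, hσH⟩ hσ
      (three_nsmul_smul_sub W (hfix P) _))⟩
  have hT : ∀ (P : W.toAffine.Point) (c : GQ ⧸ U),
      (if h : c.out ∈ H then overK K ⟨c.out, h⟩ • third P - third P else 0) ∈ T := fun P c => by
    split
    · rw [Submodule.mem_torsionBy_iff, natCast_zsmul]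
      exact three_nsmul_smul_sub W (hfix P) _
    · exact T.zero_mem
  set R := (nsmulAddMonoidHom (α := W.toAffine.Point) 3).range
  haveI : Finite (W.toAffine.Point ⧸ R) := by
    refine Finite.of_injective (β := GQ ⧸ U → T) (fun a c => ⟨_, hT a.out c⟩) fun a b e => ?_
    rw [← QuotientAddGroup.out_eq' a, ← QuotientAddGroup.out_eq' b, QuotientAddGroup.eq]
    have hR : ∀ g : Qb ≃ₐ[K] Qb,
        g • (third b.out - third a.out) = third b.out - third a.out := fun g => by
      obtain ⟨⟨σ, hσ⟩, rfl⟩ := overK_surjective (K := K) g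
      obtain ⟨u, hu⟩ := QuotientGroup.mk_out_eq_mul U σ
      have huH : u.1 ∈ H := inf_le_left (a := H) u.2
      have hc : (σ : GQ ⧸ U).out ∈ H := hu ▸ H.mul_mem hσ huH
      have e' := congrArg Subtype.val (congrFun e (σ : GQ ⧸ U))
      dsimp only at e'
      rw [dif_pos hc, dif_pos hc] at e'
      have hmul : overK K ⟨_, hc⟩ = overK K ⟨σ, hσ⟩ * overK K ⟨u.1, huH⟩ := by
        rw [← map_mul]
        exact congrArg _ (Subtype.ext hu)
      have hu' : ∀ P, overK K ⟨u.1, huH⟩ • third P = third P := fun P =>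
        ((mem_fixer W).mp (hstab P u.2)).2
      rw [hmul, mul_smul, mul_smul, hu', hu'] at e'
      rw [gal_sub, eq_comm, ← sub_eq_zero]
      rw [← sub_eq_zero] at e'
      linear_combination (norm := abel) e'
    obtain ⟨Z, hZ⟩ : ∃ Z, ι Z = third b.out - third a.out := by
      haveI : Algebra.IsAlgebraic K Qb := Algebra.IsAlgebraic.tower_top (K := ℚ) K
      haveI : IsAlgClosure K Qb := ⟨inferInstance, inferInstance⟩
      haveI : IsGalois K Qb := IsAlgClosure.isGalois K Qb
      rcases hD' : third b.out - third a.out with _ | ⟨x, y, hn⟩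
      · exact ⟨0, map_zero _⟩
      simp only [hD', Affine.Point.algEquiv_smul_def, Affine.Point.map_some,
        Affine.Point.some.injEq] at hR
      obtain ⟨x', hx'⟩ := (InfiniteGalois.mem_range_algebraMap_iff_fixed x).mpr fun g => (hR g).1
      obtain ⟨y', hy'⟩ := (InfiniteGalois.mem_range_algebraMap_iff_fixed y).mpr fun g => (hR g).2
      subst hx' hy'
      exact ⟨.some x' y' ((W.toAffine.baseChange_nonsingular (f := Algebra.ofId K Qb)
        (algebraMap K Qb).injective x' y').mp hn), rfl⟩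
    refine ⟨Z, Affine.Point.map_injective (W' := W.toAffine) (S := K) (Algebra.ofId K Qb) ?_⟩
    show ι (3 • Z) = ι (-a.out + b.out)
    rw [map_nsmul, hZ, nsmul_sub, hthird, hthird, map_add, map_neg, sub_eq_neg_add]
  exact AddSubgroup.finiteIndex_of_finite_quotient

end FA.MordellWeilGeneral

namespace FA.Summary

/-- **The theorem of Mordell and Weil in full**: for every number field `K` and every elliptic
curve over `K` the group of points over `K` is finitely generated. -/
theorem mordellWeil {K : Type*} [Field K] [NumberField K] [DecidableEq K] (E : WeierstrassCurve K)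
    [E.IsElliptic] : AddGroup.FG E.toAffine.Point := by
  letI : Algebra K Qb := (IsAlgClosed.lift : K →ₐ[ℚ] Qb).toRingHom.toAlgebra
  haveI : IsScalarTower ℚ K Qb := IsScalarTower.of_algebraMap_eq fun x =>
    ((IsAlgClosed.lift : K →ₐ[ℚ] Qb).commutes x).symm
  exact FA.MordellWeilNF.fg_of_finiteIndex E (FA.MordellWeilGeneral.finiteIndex_three E)

/-- **Finite torsion**: an elliptic curve over a number field has finitely many torsion points
there. -/
theorem finite_torsion_numberField_any {K : Type*} [Field K] [NumberField K] [DecidableEq K]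
    (E : WeierstrassCurve K) [E.IsElliptic] :
    {P : E.toAffine.Point | IsOfFinAddOrder P}.Finite := by
  haveI := mordellWeil E
  haveI : Module.Finite ℤ E.toAffine.Point := Module.Finite.iff_addGroup_fg.mpr inferInstance
  haveI : Finite (Submodule.torsion ℤ E.toAffine.Point) := Module.finite_of_fg_torsion _
    (Submodule.torsion_isTorsion)
  refine (Set.finite_range (Subtype.val : Submodule.torsion ℤ E.toAffine.Point → _)).subset
    fun P hP => ⟨⟨P, ?_⟩, rfl⟩
  rw [← Submodule.mem_toAddSubgroup, Submodule.torsion_int]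
  exact hP

end FA.Summary

end
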