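import Fermat.Agent.RealPoints.Density
import Fermat.Agent.Root.SummaryMordellWeilGeneral

/-!
# Rational points are dense on the identity component

The theorem of Poincaré and Hurwitz: if an elliptic curve over `ℚ` has infinitely many rational
points, they are dense in the identity component of its real points, and in all real points when
there is only one component.  The identity component of `y² = x³ + A x + B` consists of the
points whose abscissa `x` has `t³ + A t + B > 0` for every `t > x`.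
-/

set_option autoImplicit false
set_option linter.style.haveILetI false

noncomputable section

open WeierstrassCurve

namespace FA.Summary

/-- **The multiples of a real point of infinite order are dense in the identity component.** -/
theorem multiples_dense_identityComponent {A B : ℝ}
    [(⟨0, 0, 0, A, B⟩ : WeierstrassCurve ℝ).IsElliptic]
    {P : (⟨0, 0, 0, A, B⟩ : WeierstrassCurve ℝ).toAffine.Point} (hP : ¬IsOfFinAddOrder P)
    {x y : ℝ} (hy : y ^ 2 = x ^ 3 + A * x + B) (hx : ∀ t > x, 0 < t ^ 3 + A * t + B)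
    {ε : ℝ} (hε : 0 < ε) :
    {n : ℤ | ∃ x' y' h, n • P = .some x' y' h ∧ |x' - x| < ε ∧ |y' - y| < ε}.Infinite :=
  FA.RealPoints.dense_multiples hP hy hx hε

/-- **They also come arbitrarily close to the origin.** -/
theorem multiples_x_unbounded {A B : ℝ}
    [(⟨0, 0, 0, A, B⟩ : WeierstrassCurve ℝ).IsElliptic]
    {P : (⟨0, 0, 0, A, B⟩ : WeierstrassCurve ℝ).toAffine.Point} (hP : ¬IsOfFinAddOrder P)
    (M : ℝ) : {n : ℤ | ∃ x' y' h, n • P = .some x' y' h ∧ M < x'}.Infinite := by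
  set x := |M| + |A| + |B| + 2
  have hpos : ∀ t ≥ x, 0 < t ^ 3 + A * t + B := fun t ht => by
    have h1 : |A| + |B| + 2 ≤ t := by linarith [abs_nonneg M]
    have h2 : 1 ≤ t := by linarith [abs_nonneg A, abs_nonneg B]
    have h3 : (|A| + |B| + 2) * t ≤ t ^ 2 := by
      rw [pow_two]; exact mul_le_mul_of_nonneg_right h1 (by linarith)
    have h4 : t ^ 2 * 1 ≤ t ^ 3 := by
      rw [pow_succ t 2]; exact mul_le_mul_of_nonneg_left h2 (sq_nonneg t)
    nlinarith [neg_abs_le A, neg_abs_le B, abs_nonneg A, abs_nonneg B]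
  refine (multiples_dense_identityComponent hP (Real.sq_sqrt (hpos x le_rfl).le)
    (fun t ht => hpos t ht.le) (ε := 1) one_pos).mono ?_
  rintro n ⟨x', y', h, e, hx', -⟩
  exact ⟨x', y', h, e,
    by linarith [(abs_lt.mp hx').1, le_abs_self M, abs_nonneg A, abs_nonneg B]⟩

/-- **The theorem of Poincaré and Hurwitz.** -/
theorem rationalPoints_dense {A B : ℚ} [(⟨0, 0, 0, A, B⟩ : WeierstrassCurve ℚ).IsElliptic]
    [Infinite (⟨0, 0, 0, A, B⟩ : WeierstrassCurve ℚ).toAffine.Point] {x y : ℝ}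
    (hy : y ^ 2 = x ^ 3 + A * x + B) (hx : ∀ t > x, 0 < t ^ 3 + (A : ℝ) * t + B)
    {ε : ℝ} (hε : 0 < ε) :
    {p : ℚ × ℚ | p.2 ^ 2 = p.1 ^ 3 + A * p.1 + B ∧
      |(p.1 : ℝ) - x| < ε ∧ |(p.2 : ℝ) - y| < ε}.Infinite := by
  set E : WeierstrassCurve ℚ := ⟨0, 0, 0, A, B⟩
  obtain ⟨P, hP⟩ : ∃ P : E.toAffine.Point, ¬IsOfFinAddOrder P := by
    by_contra h
    push Not at h
    exact Set.infinite_univ
      ((finite_torsion_numberField_any E).subset fun P _ => h P)
  have hE : (E⁄ℝ) = FA.RealPoints.shortCurve A B := by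
    ext <;> simp [E]
  haveI : (⟨0, 0, 0, (A : ℝ), (B : ℝ)⟩ : WeierstrassCurve ℝ).IsElliptic := by
    show (FA.RealPoints.shortCurve A B).IsElliptic
    rw [← hE]
    infer_instance
  let ι : E.toAffine.Point →+ (FA.RealPoints.shortCurve A B).toAffine.Point :=
    (FA.RealPoints.castPoint hE).comp (Affine.Point.map (W' := E.toAffine) (S := ℚ) (F := ℚ)
      (K := ℝ) (Algebra.ofId ℚ ℝ))
  have hinj : Function.Injective ι := (FA.RealPoints.castPoint_injective hE).comp
    (Affine.Point.map_injective (W' := E.toAffine) (R := ℚ) (S := ℚ) (F := ℚ) (K := ℝ)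
      (Algebra.ofId ℚ ℝ))
  have hsome : ∀ x' y' (h : E.toAffine.Nonsingular x' y'),
      ∃ h', ι (.some x' y' h) = .some (x' : ℝ) (y' : ℝ) h' := fun x' y' h =>
    ⟨_, FA.RealPoints.castPoint_some hE _⟩
  have hS := multiples_dense_identityComponent
    (mt (hinj.isOfFinAddOrder_iff).mp hP : ¬IsOfFinAddOrder (ι P)) hy hx hε
  have hrat : ∀ n ∈ {n : ℤ | ∃ x' y' h, n • ι P = .some x' y' h ∧ |x' - x| < ε ∧ |y' - y| < ε},
      ∃ q₁ q₂ h, n • P = Affine.Point.some q₁ q₂ h ∧
        |(q₁ : ℝ) - x| < ε ∧ |(q₂ : ℝ) - y| < ε := by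
    rintro n ⟨x', y', h, e, h1, h2⟩
    rw [← map_zsmul] at e
    generalize n • P = Q at e ⊢
    cases Q with
    | zero => exact absurd (e.symm.trans ι.map_zero) (Affine.Point.some_ne_zero _)
    | some q₁ q₂ hq =>
      obtain ⟨h', e'⟩ := hsome q₁ q₂ hq
      rw [e', Affine.Point.some.injEq] at e
      exact ⟨q₁, q₂, hq, rfl, e.1 ▸ h1, e.2 ▸ h2⟩
  choose! q₁ q₂ hq hnP h1 h2 using hrat
  refine ((Set.infinite_image_iff fun n hn m hm e => ?_).mpr hS).mono
    (Set.image_subset_iff.mpr fun n hn => ?_ : (fun n => (q₁ n, q₂ n)) '' _ ⊆ _)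
  · rw [Prod.mk.injEq] at e
    have e' : n • P = m • P := by
      rw [hnP n hn, hnP m hm, Affine.Point.some.injEq]
      exact e
    by_contra hne
    exact hP (isOfFinAddOrder_iff_zsmul_eq_zero.mpr
      ⟨n - m, sub_ne_zero.mpr hne, by rw [sub_zsmul, e', add_neg_cancel]⟩)
  · refine ⟨?_, h1 n hn, h2 n hn⟩
    have h := (Affine.equation_iff _ _).mp (hq n hn).1
    simp only [E, zero_mul, add_zero] at h
    exact h

/-- The real points form one component when the discriminant is negative. -/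
theorem identityComponent_of_discriminant_neg {A B : ℝ} (hd : 0 < 4 * A ^ 3 + 27 * B ^ 2)
    {x : ℝ} (hx : 0 ≤ x ^ 3 + A * x + B) {t : ℝ} (ht : x < t) : 0 < t ^ 3 + A * t + B := by
  by_contra hle
  push Not at hle
  have hA : A < 0 := by
    by_contra hA
    nlinarith [mul_pos (sub_pos.mpr ht) (sub_pos.mpr ht), sq_nonneg (t + x), sq_nonneg x,
      sq_nonneg t, mul_nonneg (not_lt.mp hA) (sub_pos.mpr ht).le]
  obtain ⟨c, hc, rfl⟩ : ∃ c : ℝ, 0 < c ∧ A = -3 * c ^ 2 :=
    ⟨√(-A / 3), Real.sqrt_pos.mpr (by linarith), by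
      rw [Real.sq_sqrt (by linarith)]; ring⟩
  have key : ∀ u v : ℝ, u < v → (2 * c ≤ u ∨ v ≤ -2 * c) →
      u ^ 3 + -3 * c ^ 2 * u < v ^ 3 + -3 * c ^ 2 * v := by
    intro u v huv h
    have : 0 < u ^ 2 + u * v + v ^ 2 - 3 * c ^ 2 := by
      rcases h with h | h
      · nlinarith [mul_le_mul h h (by linarith) (by linarith : (0 : ℝ) ≤ u)]
      · nlinarith [mul_le_mul_of_nonpos_of_nonpos h h (by linarith) (by linarith : -2 * c ≤ 0)]
    nlinarith [mul_pos (sub_pos.mpr huv) this]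
  rcases le_or_gt x (2 * c) with h1 | h1
  · rcases le_or_gt (-2 * c) t with h2 | h2
    · have e1 : 0 ≤ 2 * c ^ 3 + B := by
        nlinarith [mul_nonneg (sq_nonneg (x + c)) (sub_nonneg.mpr h1)]
      have e2 : B - 2 * c ^ 3 ≤ 0 := by
        nlinarith [mul_nonneg (sq_nonneg (t - c)) (by linarith : (0 : ℝ) ≤ t + 2 * c)]
      nlinarith [mul_nonneg e1 (neg_nonneg.mpr e2)]
    · linarith [key x t ht (Or.inr h2.le)]
  · linarith [key x t ht (Or.inl h1.le)]

/-- **With negative discriminant the rational points are dense in all the real points.** -/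
theorem rationalPoints_dense_all {A B : ℚ} [(⟨0, 0, 0, A, B⟩ : WeierstrassCurve ℚ).IsElliptic]
    [Infinite (⟨0, 0, 0, A, B⟩ : WeierstrassCurve ℚ).toAffine.Point]
    (hd : 0 < 4 * A ^ 3 + 27 * B ^ 2) {x y : ℝ} (hy : y ^ 2 = x ^ 3 + A * x + B)
    {ε : ℝ} (hε : 0 < ε) :
    {p : ℚ × ℚ | p.2 ^ 2 = p.1 ^ 3 + A * p.1 + B ∧
      |(p.1 : ℝ) - x| < ε ∧ |(p.2 : ℝ) - y| < ε}.Infinite :=
  rationalPoints_dense hy (fun _ ht => identityComponent_of_discriminant_neg
    (by exact_mod_cast hd) (hy ▸ sq_nonneg y) ht) hε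

end FA.Summary

end
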