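import Fermat.Agent.IwasawaMinus.Growth

/-!
# Iwasawa's class number formula, minus part

For an odd prime `p` put `K n = ℚ(ζ_{p^(n+1)})`, with maximal real subfield `K⁺ n`.

* `iwasawaMinus_classNumber`: there are `μ`, `λ`, `ν` with `v_p h(K n) = v_p h(K⁺ n) + μ p^n + λ n + ν` for large `n`.
* `iwasawaMinus_classNumber_of_eq`: if `v_p h = v_p h⁺` for `ℚ(ζ_p)`, then the same holds for every `K n`.
* `iwasawaMinus_classNumber_of_regular`: in particular this holds for a regular prime.

The proof is analytic: the relative class number formula and the compatibility of the Stickelberger elements in the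
tower give, for each odd branch, a power series whose Newton polygon governs the growth. Classical (Iwasawa 1959,
1962). The vanishing of `μ` (Ferrero–Washington) is not claimed. Independent of S01.
-/

set_option autoImplicit false
set_option linter.style.haveILetI false

noncomputable section

open NumberField FA.IwasawaMinus
open scoped Classical

universe u v

namespace FA.Summary

theorem iwasawaMinus_cyclotomic_extension (n : ℕ) [NeZero n] :
    IsCyclotomicExtension {n} ℚ (CyclotomicField n ℚ) :=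
  have : NeZero (n : ℚ) := ⟨Nat.cast_ne_zero.mpr (NeZero.ne n)⟩
  CyclotomicField.isCyclotomicExtension n ℚ

attribute [local instance] iwasawaMinus_cyclotomic_extension

theorem iwasawaMinus_cyclotomic_numberField (n : ℕ) [NeZero n] : NumberField (CyclotomicField n ℚ) :=
  IsCyclotomicExtension.numberField {n} ℚ _

attribute [local instance] iwasawaMinus_cyclotomic_numberField

variable (p : ℕ) [hp : Fact p.Prime]

theorem iwasawaMinus_neZero (n : ℕ) : NeZero (p ^ n) := ⟨pow_ne_zero _ hp.out.ne_zero⟩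

attribute [local instance] iwasawaMinus_neZero

/-- The exponent of `p` in `h / h⁺` for `ℚ(ζ_{p^(n+1)})`. -/
def iwasawaMinusExp (n : ℕ) : ℤ := minusExp p (CyclotomicField (p ^ (n + 1)) ℚ)

variable {p}

theorem minusExp_eq_iwasawaMinusExp (hp2 : p ≠ 2) (n : ℕ) (K : Type u) [Field K] [NumberField K]
    [IsCyclotomicExtension {p ^ (n + 1)} ℚ K] : minusExp p K = iwasawaMinusExp p n := by
  obtain ⟨g, hg⟩ := exists_isGen (p := p) hp2
  exact minusExp_congr hp2 hg n K _

theorem iwasawaMinusExp_succ (hp2 : p ≠ 2) {g : ℕ} (hg : IsGen p g) {μ lam : (ZMod p)ˣ → ℕ}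
    (hD : ∀ w ∈ oddU p, Dominant (sys hg w) (μ w) (lam w)) {k : ℕ}
    (hk : ∀ w ∈ oddU p, lam w < (p - 1) * p ^ k) :
    iwasawaMinusExp p (k + 1) = iwasawaMinusExp p k +
      (((∑ w ∈ oddU p, μ w) * ((p - 1) * p ^ k) + ∑ w ∈ oddU p, lam w : ℕ) : ℤ) :=
  minusExp_succ hp2 hg hD hk (CyclotomicField (p ^ (k + 1)) ℚ) (CyclotomicField (p ^ (k + 1 + 1)) ℚ)

/-- **Iwasawa's class number formula for the minus part.** -/
theorem iwasawaMinus_classNumber (hp2 : p ≠ 2) :
    ∃ (μ lam : ℕ) (ν : ℤ) (n₀ : ℕ), ∀ n, n₀ ≤ n → ∀ (K : Type u) [Field K] [NumberField K]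
      [IsCyclotomicExtension {p ^ (n + 1)} ℚ K],
        (padicValNat p (classNumber K) : ℤ) =
          padicValNat p (classNumber (maximalRealSubfield K)) + μ * (p : ℤ) ^ n + lam * n + ν := by
  obtain ⟨g, hg⟩ := exists_isGen (p := p) hp2
  choose! μ lam hD using fun w (hw : w ∈ oddU p) => exists_dominant_sys hp2 hg hw
  refine ⟨∑ w ∈ oddU p, μ w, ∑ w ∈ oddU p, lam w, iwasawaMinusExp p (∑ w ∈ oddU p, lam w) -
    (∑ w ∈ oddU p, μ w : ℕ) * (p : ℤ) ^ (∑ w ∈ oddU p, lam w) -
      (∑ w ∈ oddU p, lam w : ℕ) * (∑ w ∈ oddU p, lam w : ℕ), ∑ w ∈ oddU p, lam w, fun n hn K _ _ _ => ?_⟩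
  have key : ∀ m, ∑ w ∈ oddU p, lam w ≤ m → iwasawaMinusExp p m =
      (∑ w ∈ oddU p, μ w : ℕ) * (p : ℤ) ^ m + (∑ w ∈ oddU p, lam w : ℕ) * (m : ℤ) +
      (iwasawaMinusExp p (∑ w ∈ oddU p, lam w) -
        (∑ w ∈ oddU p, μ w : ℕ) * (p : ℤ) ^ (∑ w ∈ oddU p, lam w) -
          (∑ w ∈ oddU p, lam w : ℕ) * (∑ w ∈ oddU p, lam w : ℕ)) := fun m hm => by
    induction m, hm using Nat.le_induction with
    | base => ring
    | succ k hk ih =>
      have hlt : ∀ w ∈ oddU p, lam w < (p - 1) * p ^ k := fun w hw =>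
        calc lam w ≤ k := (Finset.single_le_sum (f := lam) (fun _ _ => Nat.zero_le _) hw).trans hk
          _ < p ^ k := Nat.lt_pow_self hp.out.one_lt
          _ ≤ (p - 1) * p ^ k := Nat.le_mul_of_pos_left _ (Nat.sub_pos_of_lt hp.out.one_lt)
      rw [iwasawaMinusExp_succ hp2 hg hD hlt, ih]
      push_cast [Nat.cast_sub hp.out.one_le]
      ring
  have hK := key n hn
  rw [← minusExp_eq_iwasawaMinusExp hp2 n K, minusExp, sub_eq_iff_eq_add'] at hK
  rw [hK]
  ring

/-- **No growth from the bottom.** If `v_p h = v_p h⁺` for `ℚ(ζ_p)`, then for every `ℚ(ζ_{p^(n+1)})`. -/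
theorem iwasawaMinus_classNumber_of_eq (hp2 : p ≠ 2) (K : Type u) [Field K] [NumberField K]
    [IsCyclotomicExtension {p} ℚ K]
    (h : padicValNat p (classNumber K) = padicValNat p (classNumber (maximalRealSubfield K)))
    (n : ℕ) (L : Type v) [Field L] [NumberField L] [IsCyclotomicExtension {p ^ (n + 1)} ℚ L] :
    padicValNat p (classNumber L) = padicValNat p (classNumber (maximalRealSubfield L)) := by
  obtain ⟨g, hg⟩ := exists_isGen (p := p) hp2
  haveI : IsCyclotomicExtension {p ^ (0 + 1)} ℚ K := by rwa [zero_add, pow_one]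
  have h0 : minusExp p K = 0 := by rw [minusExp, h, sub_self]
  have hprod : ∏ w ∈ oddU p, ‖(sys hg w 0).coeff 0‖ = 1 := by
    rw [← ratio_zero_eq hp2 hg, ← zpow_minusExp hp2 hg 0 K, h0, zpow_zero]
  have hD : ∀ w ∈ oddU p, Dominant (sys hg w) 0 0 := fun w hw => by
    refine dominant_zero (sys_compatible hg w) fun hdvd => ?_
    have hlt : ‖(sys hg w 0).coeff 0‖ < 1 := (PadicInt.norm_lt_one_iff_dvd _).mpr hdvd
    refine absurd hprod (ne_of_lt ?_)
    rw [← Finset.mul_prod_erase _ _ hw]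
    exact mul_lt_one_of_nonneg_of_lt_one_left (norm_nonneg _) hlt
      (Finset.prod_le_one (fun _ _ => norm_nonneg _) fun _ _ => PadicInt.norm_le_one _)
  have key : iwasawaMinusExp p n = 0 := by
    induction n with
    | zero => rw [← minusExp_eq_iwasawaMinusExp hp2 0 K, h0]
    | succ k ih =>
      rw [iwasawaMinusExp_succ hp2 hg hD fun w _ => Nat.mul_pos (Nat.sub_pos_of_lt hp.out.one_lt)
        (pow_pos hp.out.pos k), ih]
      simp
  rw [← minusExp_eq_iwasawaMinusExp hp2 n L, minusExp, sub_eq_zero] at key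
  exact_mod_cast key

/-- **Regular primes.** If `p ∤ h(ℚ(ζ_p))`, the exponents of `p` in `h` and `h⁺` agree at every level. -/
theorem iwasawaMinus_classNumber_of_regular (hp2 : p ≠ 2) (K : Type u) [Field K] [NumberField K]
    [IsCyclotomicExtension {p} ℚ K] (h : ¬ p ∣ classNumber K)
    (n : ℕ) (L : Type v) [Field L] [NumberField L] [IsCyclotomicExtension {p ^ (n + 1)} ℚ L] :
    padicValNat p (classNumber L) = padicValNat p (classNumber (maximalRealSubfield L)) := by
  refine iwasawaMinus_classNumber_of_eq hp2 K ?_ n L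
  obtain ⟨g, hg⟩ := exists_isGen (p := p) hp2
  haveI : IsCyclotomicExtension {p ^ (0 + 1)} ℚ K := by rwa [zero_add, pow_one]
  rw [padicValNat.eq_zero_of_not_dvd h]
  by_contra hne
  have hlt : (1 : ℝ) < (p : ℝ)⁻¹ ^ minusExp p K := by
    rw [minusExp, padicValNat.eq_zero_of_not_dvd h, Nat.cast_zero, zero_sub, inv_zpow', neg_neg, zpow_natCast]
    exact one_lt_pow₀ (Nat.one_lt_cast.mpr hp.out.one_lt) (Ne.symm hne)
  rw [zpow_minusExp hp2 hg 0 K, ratio_zero_eq hp2 hg] at hlt
  exact hlt.not_ge (Finset.prod_le_one (fun _ _ => norm_nonneg _) fun _ _ => PadicInt.norm_le_one _)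

end FA.Summary
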