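import Fermat.Agent.IwasawaMinus.MuZero
import Fermat.Agent.Root.SummaryIwasawaMinus

/-!
# The theorem of Ferrero and Washington, minus part of the cyclotomic tower

For an odd prime `p` put `K n = ℚ(ζ_{p^(n+1)})`, with maximal real subfield `K⁺ n`.

* `ferreroWashington_minus`: there are `λ`, `ν` with `v_p h(K n) = v_p h(K⁺ n) + λ n + ν` for large `n`; so the
  invariant `μ` of the minus part is `0`.
* `ferreroWashington_branch`: on every odd branch the Stickelberger system has a coefficient prime to `p`.

The proof avoids `p`-adic normal numbers: at one high level the points `β (1, ζ, …)/p^n` come near any point of the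
torus, and the branch coefficient jumps by a unit across `val β / p^n = 1/c`. Ferrero–Washington (1979) treat all
abelian fields; only this tower and its minus part are claimed. Independent of S01.
-/

set_option autoImplicit false
set_option linter.style.haveILetI false

noncomputable section

open NumberField FA.IwasawaMinus
open scoped Classical

universe u

namespace FA.Summary

variable {p : ℕ} [hp : Fact p.Prime]

/-- **`μ = 0` on every branch.** -/
theorem ferreroWashington_branch (hp2 : p ≠ 2) {g : ℕ} (hg : IsGen p g) {w : (ZMod p)ˣ} (hw : w ∈ oddU p) :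
    ∃ lam, Dominant (sys hg w) 0 lam := by
  obtain ⟨μ, lam, hD⟩ := exists_dominant_sys hp2 hg hw
  exact ⟨lam, mu_eq_zero hp2 hg hw hD ▸ hD⟩

/-- **The theorem of Ferrero and Washington, minus part.** -/
theorem ferreroWashington_minus (hp2 : p ≠ 2) :
    ∃ (lam : ℕ) (ν : ℤ) (n₀ : ℕ), ∀ n, n₀ ≤ n → ∀ (K : Type u) [Field K] [NumberField K]
      [IsCyclotomicExtension {p ^ (n + 1)} ℚ K],
        (padicValNat p (classNumber K) : ℤ) =
          padicValNat p (classNumber (maximalRealSubfield K)) + lam * n + ν := by
  obtain ⟨g, hg⟩ := exists_isGen (p := p) hp2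
  choose! lam hD using fun w (hw : w ∈ oddU p) => ferreroWashington_branch hp2 hg hw
  set Λ := ∑ w ∈ oddU p, lam w
  refine ⟨Λ, iwasawaMinusExp p Λ - Λ * Λ, Λ, fun n hn K _ _ _ => ?_⟩
  have key : ∀ m, Λ ≤ m → iwasawaMinusExp p m =
      (Λ : ℤ) * (m : ℤ) + (iwasawaMinusExp p Λ - (Λ : ℤ) * Λ) := fun m hm => by
    induction m, hm using Nat.le_induction with
    | base => ring
    | succ k hk ih =>
      have hlt : ∀ w ∈ oddU p, lam w < (p - 1) * p ^ k := fun w hw =>
        calc lam w ≤ k := (Finset.single_le_sum (f := lam) (fun _ _ => Nat.zero_le _) hw).trans hk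
          _ < p ^ k := Nat.lt_pow_self hp.out.one_lt
          _ ≤ (p - 1) * p ^ k := Nat.le_mul_of_pos_left _ (Nat.sub_pos_of_lt hp.out.one_lt)
      rw [iwasawaMinusExp_succ (μ := fun _ => 0) hp2 hg hD hlt, ih, Finset.sum_const_zero, zero_mul, zero_add,
        show ∑ w ∈ oddU p, lam w = Λ from rfl]
      push_cast
      ring
  have hK := key n hn
  rw [← minusExp_eq_iwasawaMinusExp hp2 n K, minusExp, sub_eq_iff_eq_add'] at hK
  rw [hK]
  ring

end FA.Summary
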