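import Fermat.Agent.FormCount.Classes
import Fermat.Agent.GenusPrimes.Main

/-!
# Dirichlet: representations by the forms of a negative discriminant

`D < 0` is any discriminant, `n ≥ 1` is prime to `D`, the forms are the primitive positive forms of
`SummaryGaussComposition` and `R` is a system of representatives of their classes under proper
equivalence. `kronecker D d` is the Kronecker symbol `(D / d)`, the Jacobi symbol for odd `d` and
`(d / |D|)` for odd `D`, and `autCount D` is `6`, `4` or `2` as `D = -3`, `D = -4` or neither.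

* `dirichlet_representations`: the forms of `R` represent `n` in all
  `autCount D ∑_{d ∣ n} (D / d)` times;
* `genus_representations`: if some form takes a value `≡ n (mod D)`, all these representations are
  by the forms of its genus (Siegel's formula for binary forms);
* `one_class_count`: so a form alone in its genus has exactly so many;
* `prime_representations`: a prime with `(D / p) = 1` is represented by one class and its opposite
  only, one with `(D / p) = -1` by none;
* `sum_two_squares_count`, `hexagonal_count`, `minus_seven_count`: the forms `x² + y²`,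
  `x² + x y + y²`, `x² + x y + 2 y²`.
-/

set_option autoImplicit false

noncomputable section

namespace FA.FormCount.Summary

open FA.GaussComposition FA.GaussDuplication

variable {D : ℤ}

/-- The symbol used. -/
theorem kronecker_spec (hD4 : D % 4 = 0 ∨ D % 4 = 1) :
    (∀ d : ℕ, Odd d → kronecker D d = jacobiSym D d) ∧
      (Odd D → ∀ d : ℕ, kronecker D d = jacobiSym d D.natAbs) :=
  ⟨fun _ hd => kronecker_of_odd hD4 hd, fun hD _ => if_pos hD⟩

/-- Systems of representatives exist. -/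
theorem exists_system (hneg : D < 0) :
    ∃ R : Finset (Form D), ∀ f : Form D, ∃! g, g ∈ R ∧ g.Equivalent f := by
  classical
  have hns := GenusPrimes.not_isSquare_of_neg hneg
  have := finite_formClass hns
  have := Fintype.ofFinite (FormClass D)
  refine ⟨Finset.univ.image fun x : FormClass D => x.out, fun f =>
    ⟨(f.cl).out, ⟨Finset.mem_image_of_mem _ (Finset.mem_univ _),
      (cl_eq_iff hns).1 (Quot.out_eq _)⟩, fun g ⟨hg, he⟩ => ?_⟩⟩
  obtain ⟨x, -, rfl⟩ := Finset.mem_image.1 hg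
  rw [← show x = f.cl from (Quot.out_eq x).symm.trans (Quot.sound he)]

/-- **Dirichlet's theorem.** -/
theorem dirichlet_representations (hneg : D < 0) (hD4 : D % 4 = 0 ∨ D % 4 = 1)
    {R : Finset (Form D)} (hR : ∀ f : Form D, ∃! g, g ∈ R ∧ g.Equivalent f) {n : ℕ} (hn : n ≠ 0)
    (hc : IsCoprime (n : ℤ) D) :
    (∑ f ∈ R, (Nat.card {v : ℤ × ℤ // f.eval v.1 v.2 = n} : ℤ)) =
      autCount D * ∑ d ∈ n.divisors, kronecker D d :=
  sum_card_reps hneg hD4 hR hn hc

open Classical in
/-- **Siegel's formula for a genus.** -/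
theorem genus_representations (hneg : D < 0) {f : Form D} {R : Finset (Form D)}
    (hR : ∀ g : Form D, ∃! h, h ∈ R ∧ h.Equivalent g) {n : ℕ} (hn : n ≠ 0)
    (hc : IsCoprime (n : ℤ) D) {x y : ℤ} (hf : f.eval x y ≡ n [ZMOD D]) :
    (∀ g : Form D, g.Represents n → SameGenus f g) ∧
      (∑ g ∈ R with SameGenus f g, (Nat.card {v : ℤ × ℤ // g.eval v.1 v.2 = n} : ℤ)) =
        autCount D * ∑ d ∈ n.divisors, kronecker D d := by
  have h : ∀ g : Form D, g.Represents n → SameGenus f g := fun g ⟨u, v, hg⟩ =>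
    ⟨x, y, u, v, isCoprime_of_modEq hf.symm hc, by rw [hg]; exact hf⟩
  refine ⟨h, ?_⟩
  rw [← sum_card_reps hneg (disc_mod_four f) hR hn hc]
  refine Finset.sum_filter_of_ne fun g _ hg => h g ?_
  by_contra hrep
  refine hg ?_
  have : IsEmpty {v : ℤ × ℤ // g.eval v.1 v.2 = n} := ⟨fun v => hrep ⟨_, _, v.2⟩⟩
  simp

theorem card_congr_of_equivalent {f g : Form D} (h : f.Equivalent g) (n : ℤ) :
    Nat.card {v : ℤ × ℤ // g.eval v.1 v.2 = n} = Nat.card {v : ℤ × ℤ // f.eval v.1 v.2 = n} := by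
  obtain ⟨M, hM⟩ := exists_carries h
  have hd := det_eq M
  refine Nat.card_congr (Equiv.subtypeEquiv
    ⟨fun v => (M 0 0 * v.1 + M 0 1 * v.2, M 1 0 * v.1 + M 1 1 * v.2),
      fun v => (M 1 1 * v.1 - M 0 1 * v.2, M 0 0 * v.2 - M 1 0 * v.1),
      fun v => Prod.ext (by simp only; linear_combination v.1 * hd)
        (by simp only; linear_combination v.2 * hd),
      fun v => Prod.ext (by simp only; linear_combination v.1 * hd)
        (by simp only; linear_combination v.2 * hd)⟩ fun v => ?_)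
  simp only [Equiv.coe_fn_mk]
  rw [hM]

/-- **A form alone in its genus.** -/
theorem one_class_count (hneg : D < 0) {f : Form D}
    (h1 : ∀ g : Form D, SameGenus f g → f.Equivalent g) {n : ℕ} (hn : n ≠ 0)
    (hc : IsCoprime (n : ℤ) D) {x y : ℤ} (hf : f.eval x y ≡ n [ZMOD D]) :
    (Nat.card {v : ℤ × ℤ // f.eval v.1 v.2 = n} : ℤ) =
      autCount D * ∑ d ∈ n.divisors, kronecker D d := by
  classical
  obtain ⟨R, hR⟩ := exists_system hneg
  rw [← (genus_representations hneg hR hn hc hf).2]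
  obtain ⟨g, ⟨hgR, hge⟩, huniq⟩ := hR f
  have hfg : SameGenus f g := by
    obtain ⟨p, q, r, s, hd, ha, hb, hgc⟩ := hge
    exact ⟨x, y, p * x + q * y, r * x + s * y, isCoprime_of_modEq hf.symm hc,
      by rw [Form.Equivalent.eval_eq ha hb hgc]⟩
  rw [Finset.sum_eq_single g (fun k hk hne => absurd (huniq k ⟨(Finset.mem_filter.1 hk).1, ?_⟩) hne)
    (fun h => absurd (Finset.mem_filter.2 ⟨hgR, hfg⟩) h), card_congr_of_equivalent hge]
  have hns := GenusPrimes.not_isSquare_of_neg hneg
  exact (cl_eq_iff hns).1 (Quot.sound (h1 k (Finset.mem_filter.1 hk).2)).symm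

/-- **Primes.** -/
theorem prime_representations (hneg : D < 0) (hD4 : D % 4 = 0 ∨ D % 4 = 1) {p : ℕ} (hp : p.Prime)
    (hc : IsCoprime (p : ℤ) D) :
    (kronecker D p = 1 → ∃ f : Form D, f.Represents p ∧
        ∀ g : Form D, g.Represents p → g.cl = f.cl ∨ g.cl = f.opp.cl) ∧
      (kronecker D p = -1 → ∀ g : Form D, ¬g.Represents p) := by
  have : NeZero p := ⟨hp.ne_zero⟩
  have hpD : ¬(p : ℤ) ∣ D := fun h =>
    (Nat.prime_iff_prime_int.1 hp).not_isUnit (hc.isUnit_of_dvd' dvd_rfl h)
  have hroots := rootCount_prime_pow (i := 0) hp hpD hD4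
  rw [zero_add, pow_one] at hroots
  choose F hF using exists_rootForm hD4 hp.ne_zero hc
  refine ⟨fun h1 => ?_, fun h1 g ⟨x, y, hg⟩ => ?_⟩
  · obtain ⟨j⟩ : Nonempty (Root D p) := by
      by_contra hno
      rw [not_nonempty_iff] at hno
      rw [rootCount, Nat.card_of_isEmpty, h1] at hroots
      norm_num at hroots
    have hr : (F j).Represents p := ⟨1, 0, by rw [Form.eval, (hF j).1]; ring⟩
    exact ⟨F j, hr, fun g hg => GenusPrimes.eq_or_opp_of_prime hneg hp hg hr⟩
  · obtain ⟨k, hk, hka⟩ := GenusPrimes.exists_prime_first hneg hp ⟨x, y, hg⟩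
    obtain ⟨⟨j, -⟩, -⟩ := (proper_bijective hD4 hp.ne_zero k hF).2
      ⟨(1, 0), isCoprime_one_left, by rw [Form.eval, hka]; ring⟩
    rw [h1] at hroots
    have h0 : rootCount D p = 0 := by omega
    rcases Nat.card_eq_zero.1 h0 with h | h
    · exact h.false j
    · exact h.not_finite inferInstance

theorem equivalent_of_small (hneg : D < 0) (h12 : -12 < D) (e g : Form D) (he : e.a = 1) :
    e.Equivalent g := by
  have hns := GenusPrimes.not_isSquare_of_neg hneg
  obtain ⟨k, hk, hb, hac⟩ := exists_reduced hns _ g rfl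
  have ha := k.pos hneg
  rw [abs_of_pos ha] at hb hac
  rw [abs_of_pos (GenusCount.c_pos hneg k)] at hac
  have h1 : k.b ^ 2 ≤ k.a ^ 2 := by rw [← sq_abs k.b]; exact pow_le_pow_left₀ (abs_nonneg _) hb 2
  have h2 : k.a ^ 2 ≤ k.a * k.c := by rw [sq]; exact mul_le_mul_of_nonneg_left hac ha.le
  have hk1 : k.a = 1 := by
    by_contra hne
    have h3 : 2 ≤ k.a := by omega
    nlinarith [k.disc]
  exact (cl_eq_iff hns).1 ((Quot.sound (equivalent_of_a_eq_one he hk1)).trans hk)

/-- For `-12 < D < 0` there is one form to count. -/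
theorem small_count (hneg : D < 0) (h12 : -12 < D) (e : Form D) (he : e.a = 1) {n : ℕ} (hn : n ≠ 0)
    (hc : IsCoprime (n : ℤ) D) :
    (Nat.card {v : ℤ × ℤ // e.eval v.1 v.2 = n} : ℤ) =
      autCount D * ∑ d ∈ n.divisors, kronecker D d := by
  rw [← sum_card_reps hneg (disc_mod_four e) (R := {e}) (fun f => ⟨e,
    ⟨Finset.mem_singleton_self e, equivalent_of_small hneg h12 e f he⟩,
    fun g hg => Finset.mem_singleton.1 hg.1⟩) hn hc, Finset.sum_singleton]

theorem principal_prim {b c : ℤ} : ∀ p : ℕ, p.Prime → (p : ℤ) ∣ 1 → (p : ℤ) ∣ b → (p : ℤ) ∣ c →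
    False :=
  fun _ hp h _ _ => (Nat.prime_iff_prime_int.1 hp).not_dvd_one h

/-- Jacobi's two square count, for odd `n`. -/
theorem sum_two_squares_count {n : ℕ} (hn : Odd n) :
    (Nat.card {v : ℤ × ℤ // v.1 ^ 2 + v.2 ^ 2 = n} : ℤ) = 4 * ∑ d ∈ n.divisors, ZMod.χ₄ d := by
  let e : Form (-4) := ⟨1, 0, 1, by norm_num, principal_prim, fun _ => one_pos⟩
  have hc : IsCoprime (n : ℤ) (-4) := by
    rw [Int.isCoprime_iff_nat_coprime]
    simpa using (Nat.coprime_two_right.2 hn).pow_right 2
  have h := small_count (D := -4) (by norm_num) (by norm_num) e rfl hn.pos.ne' hc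
  rw [show autCount (-4) = 4 from rfl] at h
  rw [Nat.card_congr (Equiv.subtypeEquivRight fun v : ℤ × ℤ => show
      v.1 ^ 2 + v.2 ^ 2 = n ↔ e.eval v.1 v.2 = n by simp [Form.eval, e]), h]
  congr 1
  refine Finset.sum_congr rfl fun d hd => ?_
  have hdo : Odd d := hn.of_dvd_nat (Nat.dvd_of_mem_divisors hd)
  rw [kronecker_of_odd (by norm_num) hdo, show (-4 : ℤ) = -1 * 2 ^ 2 by norm_num,
    jacobiSym.mul_left, jacobiSym.sq_one' (a := 2) (by
      simpa [Int.gcd_eq_natAbs] using Nat.coprime_two_left.2 hdo), mul_one,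
    jacobiSym.at_neg_one hdo]

/-- The count for `x² + x y + y²`. -/
theorem hexagonal_count {n : ℕ} (h3 : ¬3 ∣ n) :
    (Nat.card {v : ℤ × ℤ // v.1 ^ 2 + v.1 * v.2 + v.2 ^ 2 = n} : ℤ) =
      6 * ∑ d ∈ n.divisors, jacobiSym d 3 := by
  let e : Form (-3) := ⟨1, 1, 1, by norm_num, principal_prim, fun _ => one_pos⟩
  have hc : IsCoprime (n : ℤ) (-3) := by
    rw [Int.isCoprime_iff_nat_coprime]
    simpa using ((Nat.prime_three.coprime_iff_not_dvd).2 h3).symm
  have hn : n ≠ 0 := fun h => h3 (by rw [h]; exact dvd_zero 3)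
  have h := small_count (D := -3) (by norm_num) (by norm_num) e rfl hn hc
  rw [show autCount (-3) = 6 from rfl] at h
  rw [Nat.card_congr (Equiv.subtypeEquivRight fun v : ℤ × ℤ => show
      v.1 ^ 2 + v.1 * v.2 + v.2 ^ 2 = n ↔ e.eval v.1 v.2 = n by simp [Form.eval, e]), h]
  rfl

/-- The count for `x² + x y + 2 y²`; `n` may be even. -/
theorem minus_seven_count {n : ℕ} (h7 : ¬7 ∣ n) :
    (Nat.card {v : ℤ × ℤ // v.1 ^ 2 + v.1 * v.2 + 2 * v.2 ^ 2 = n} : ℤ) =
      2 * ∑ d ∈ n.divisors, jacobiSym d 7 := by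
  let e : Form (-7) := ⟨1, 1, 2, by norm_num, principal_prim, fun _ => one_pos⟩
  have hc : IsCoprime (n : ℤ) (-7) := by
    rw [Int.isCoprime_iff_nat_coprime]
    simpa using (((by norm_num : Nat.Prime 7)).coprime_iff_not_dvd.2 h7).symm
  have hn : n ≠ 0 := fun h => h7 (by rw [h]; exact dvd_zero 7)
  have h := small_count (D := -7) (by norm_num) (by norm_num) e rfl hn hc
  rw [show autCount (-7) = 2 from rfl] at h
  rw [Nat.card_congr (Equiv.subtypeEquivRight fun v : ℤ × ℤ => show
      v.1 ^ 2 + v.1 * v.2 + 2 * v.2 ^ 2 = n ↔ e.eval v.1 v.2 = n by simp [Form.eval, e]), h]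
  rfl

end FA.FormCount.Summary
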