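import Fermat.Agent.QuadForms.Corollaries
import Fermat.Agent.QuadForms.Diagonal

/-!
# The theorem of Hasse and Minkowski

A quadratic form over `ℚ`, in any number of variables and given by any matrix, has a non-trivial
rational zero iff it has one over `ℝ` and over every `ℚ_p`; consequences are Meyer's theorem in
five or more variables, the local criterion for representing a number and the rationals that are
sums of three squares. Everything is unconditional.
-/

set_option autoImplicit false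

noncomputable section

open Matrix

namespace FA.Summary

/-- **The theorem of Hasse and Minkowski.** -/
theorem hasse_minkowski {n : Type*} [Fintype n] [DecidableEq n] (M : Matrix n n ℚ) :
    (∃ x : n → ℚ, x ≠ 0 ∧ x ⬝ᵥ M *ᵥ x = 0) ↔
      (∃ x : n → ℝ, x ≠ 0 ∧ x ⬝ᵥ (M.map (Rat.cast : ℚ → ℝ)) *ᵥ x = 0) ∧
        ∀ (p : ℕ) [Fact p.Prime],
          ∃ x : n → ℚ_[p], x ≠ 0 ∧ x ⬝ᵥ (M.map (Rat.cast : ℚ → ℚ_[p])) *ᵥ x = 0 := by
  have h := FA.QuadForms.hasseMinkowski_matrix M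
  unfold FA.QuadForms.MatrixIsotropic at h
  simpa using h

/-- The theorem of Hasse and Minkowski for a diagonal form. -/
theorem hasse_minkowski_diagonal {ι : Type*} [Fintype ι] (a : ι → ℚ) :
    (∃ x : ι → ℚ, x ≠ 0 ∧ ∑ i, a i * x i ^ 2 = 0) ↔
      (∃ x : ι → ℝ, x ≠ 0 ∧ ∑ i, (a i : ℝ) * x i ^ 2 = 0) ∧
        ∀ (p : ℕ) [Fact p.Prime],
          ∃ x : ι → ℚ_[p], x ≠ 0 ∧ ∑ i, (a i : ℚ_[p]) * x i ^ 2 = 0 :=
  FA.QuadForms.hasseMinkowski_diagonal a

/-- **Meyer's theorem**: an indefinite diagonal form in at least five variables has a non-trivial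
rational zero. -/
theorem meyer_indefinite {ι : Type*} [Fintype ι] (h : 5 ≤ Fintype.card ι) (a : ι → ℚ)
    {i j : ι} (hi : 0 < a i) (hj : a j < 0) :
    ∃ x : ι → ℚ, x ≠ 0 ∧ ∑ k, a k * x k ^ 2 = 0 := by
  classical
  by_cases h0 : ∃ k, a k = 0
  · obtain ⟨k, hk⟩ := h0
    exact FA.QuadForms.Isotropic.of_eq_zero hk
  push Not at h0
  refine (FA.QuadForms.isotropic_of_five h a).2 ((FA.QuadForms.isotropic_real_iff fun k =>
    Rat.cast_ne_zero.2 (h0 k)).2 ⟨⟨i, by exact_mod_cast hi⟩, ⟨j, by exact_mod_cast hj⟩⟩)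

/-- Over `ℚ_p` every quadratic form `∑ aᵢ xᵢ²` in at least five variables has a non-trivial
zero. -/
theorem padic_five_variables {p : ℕ} [Fact p.Prime] {ι : Type*} [Fintype ι]
    (h : 5 ≤ Fintype.card ι) (a : ι → ℚ_[p]) :
    ∃ x : ι → ℚ_[p], x ≠ 0 ∧ ∑ i, a i * x i ^ 2 = 0 :=
  FA.QuadForms.isotropic_five h a

/-- A rational is represented by a non-degenerate diagonal form iff it is represented
over `ℝ` and over every `ℚ_p`. -/
theorem hasse_minkowski_represents {ι : Type*} [Fintype ι] {a : ι → ℚ} (ha : ∀ i, a i ≠ 0)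
    (q : ℚ) :
    (∃ x : ι → ℚ, ∑ i, a i * x i ^ 2 = q) ↔
      (∃ x : ι → ℝ, ∑ i, (a i : ℝ) * x i ^ 2 = q) ∧
        ∀ (p : ℕ) [Fact p.Prime], ∃ x : ι → ℚ_[p], ∑ i, (a i : ℚ_[p]) * x i ^ 2 = q :=
  FA.QuadForms.represents_iff ha

/-- A non-zero rational is a sum of three rational squares iff it is positive and its negative is
not a square in `ℚ_2`. -/
theorem sum_three_rational_squares {q : ℚ} (hq : q ≠ 0) :
    (∃ x y z : ℚ, x ^ 2 + y ^ 2 + z ^ 2 = q) ↔ 0 < q ∧ ¬IsSquare (-(q : ℚ_[2])) :=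
  FA.QuadForms.three_squares_rat hq

end FA.Summary

end
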