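import Fermat.Agent.Theta.Modular
import Fermat.Agent.Eisenstein.EForm
import Fermat.Agent.Dim.Cosets
import Fermat.Prelude.Thm_ModularForm_sturm_bound_Gamma0

/-!
# Jacobi's four-square theorem

A positive `n` has `8 ∑_{d ∣ n, 4 ∤ d} d` representations as a sum of four squares. Both sides are
the coefficients of modular forms of weight two and level four, the fourth power of the theta
series and the Eisenstein series `4 E₂(4z) - E₂(z)` divided by three, so two coefficients identify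
them.
-/

set_option autoImplicit false
set_option linter.style.haveILetI false

noncomputable section

namespace FA.FourSquares

open UpperHalfPlane hiding I
open CongruenceSubgroup FA.Eis Filter Topology
open PowerSeries (coeff)
open scoped MatrixGroups ModularForm

/-- The form `x² + y²`. -/
abbrev Q₀ : FA.Theta.BQF 1 := FA.Theta.BQF.princ 1 Nat.one_pos

theorem val_Q₀ (v : ℤ × ℤ) : Q₀.val v = v.1 ^ 2 + v.2 ^ 2 := by
  rw [FA.Theta.BQF.val_princ]; simp

/-- `(∑ q^(x² + y²))²`. -/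
def thetaFour : ℍ → ℂ := Q₀.theta * Q₀.theta

/-- `4 E₂(4z) - E₂(z)`. -/
def eisFour : ℍ → ℂ := Efun 2 + (2 : ℂ) • dil 2 (Efun 2)

theorem bdd_thetaFour : BddAllCusps 2 thetaFour := fun γ => by
  obtain ⟨n, hn, u, K, hK⟩ := FA.Theta.BQF.tendsto_cusp (D := 1) γ
  refine (((hK Q₀).mul (hK Q₀)).congr fun τ => ?_).isBigO_one ℝ
  rw [ModularForm.SL_slash_apply, thetaFour, Pi.mul_apply,
    show UpperHalfPlane.denom γ τ = (γ 1 0 : ℂ) * τ + γ 1 1 by simp [UpperHalfPlane.denom],
    zpow_neg, zpow_two, mul_inv]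
  ring

theorem bdd_eisFour : BddAllCusps 2 eisFour :=
  (isLv_Efun 2).bdd.add (((isLv_Efun 2).bdd.dil 2).smul _)

theorem eisFour_slash {γ : SL(2, ℤ)} (hγ : γ ∈ Gamma0 4) : eisFour ∣[(2 : ℤ)] γ = eisFour := by
  obtain ⟨c, hc⟩ := mem_Gamma0_iff_dvd.mp hγ
  have h2 : (2 : ℤ) ∣ γ 1 0 := ⟨2 * c, by rw [hc]; push_cast; ring⟩
  obtain ⟨B, -, -, hB, -, hdil⟩ := dil_slash (p := 2) (Efun 2) 2 γ (c' := 2 * c)
    (by rw [hc]; push_cast; ring)
  rw [eisFour, SlashAction.add_slash, ModularForm.SL_smul_slash, hdil,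
    (isLv_Efun 2).inv γ (mem_Gamma0_iff_dvd.mpr (by exact_mod_cast h2)),
    (isLv_Efun 2).inv B (mem_Gamma0_iff_dvd.mpr ⟨c, by rw [hB]; rfl⟩)]

/-- The series of `eisFour`. -/
def eisSer : PowerSeries ℤ := EZ 2 + (Vp 2 (EZ 2) + Vp 2 (EZ 2))

theorem hasQ_eisFour : HasQ 1 eisFour (eisSer.map (Int.castRingHom ℂ)) := by
  have h := (hasQ_Efun 2).add (((hasQ_Efun 2).dil 2).smul (2 : ℂ))
  rw [eisFour]
  convert h using 1
  ext n
  simp only [eisSer, map_add, PowerSeries.coeff_map, coeff_Vp, PowerSeries.coeff_smul, smul_eq_mul,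
    eq_intCast]
  split_ifs <;> push_cast <;> ring

/-- The difference. -/
def diffForm : ModularForm (Gamma0 4) 2 where
  toFun := (3 : ℂ) • thetaFour + (-1 : ℂ) • eisFour
  slash_action_eq' := by
    rintro _ ⟨M, hM, rfl⟩
    show ((3 : ℂ) • thetaFour + (-1 : ℂ) • eisFour) ∣[(2 : ℤ)] M = _
    rw [SlashAction.add_slash, ModularForm.SL_smul_slash, ModularForm.SL_smul_slash,
      eisFour_slash hM, thetaFour, Q₀.theta_mul_slash Q₀ (by rwa [mul_one])]
  holo' := (((Q₀.hasQ_theta.mul one_pos Q₀.hasQ_theta).smul (3 : ℂ)).add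
    (hasQ_eisFour.smul (-1 : ℂ))).mdiff one_pos
  bdd_at_cusps' := fun hc => by
    rw [Subgroup.IsArithmetic.isCusp_iff_isCusp_SL2Z] at hc
    exact ((bdd_thetaFour.smul _).add (bdd_eisFour.smul _)).isBoundedAt hc

theorem index_four : (Gamma0 4).index = 6 := by
  show Nat.card (FA.Dim.Cos 4) = 6
  rw [FA.Dim.card_cos]
  have h := FA.Dim.dedekindPsi_prime_pow Nat.prime_two 1
  norm_num at h
  exact h

/-- The number of representations as two sums of two squares. -/
def rep4 (n : ℕ) : ℕ :=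
  Nat.card {v : ℤ × ℤ × ℤ × ℤ // v.1 ^ 2 + v.2.1 ^ 2 + v.2.2.1 ^ 2 + v.2.2.2 ^ 2 = (n : ℤ)}

theorem coeff_theta_sq (n : ℕ) : coeff n (Q₀.series * Q₀.series) = (rep4 n : ℂ) := by
  classical
  have key : rep4 n = ∑ x ∈ Finset.HasAntidiagonal.antidiagonal n, Q₀.rep x.1 * Q₀.rep x.2 := by
    let S : Finset ((ℤ × ℤ) × ℤ × ℤ) := (Finset.HasAntidiagonal.antidiagonal n).biUnion fun x =>
      (Q₀.finite_val_eq x.1).toFinset ×ˢ (Q₀.finite_val_eq x.2).toFinset
    have hS : ∀ v w, (v, w) ∈ S ↔ Q₀.val v + Q₀.val w = (n : ℤ) := fun v w => by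
      simp only [S, Finset.mem_biUnion, Finset.mem_product, Set.Finite.mem_toFinset,
        Set.mem_ofPred_eq]
      constructor
      · rintro ⟨⟨i, j⟩, hx, h1, h2⟩
        rw [h1, h2, ← Finset.HasAntidiagonal.mem_antidiagonal.mp hx]
        push_cast
        rfl
      · intro h
        have h1 := Q₀.val_nonneg v
        have h2 := Q₀.val_nonneg w
        exact ⟨((Q₀.val v).toNat, (Q₀.val w).toNat),
          Finset.HasAntidiagonal.mem_antidiagonal.mpr (by omega), (Int.toNat_of_nonneg h1).symm,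
          (Int.toNat_of_nonneg h2).symm⟩
    have e : rep4 n = S.card := by
      rw [rep4, ← Nat.card_eq_finsetCard]
      refine Nat.card_congr
        { toFun := fun v => ⟨((v.1.1, v.1.2.1), v.1.2.2), by
            rw [hS, val_Q₀, val_Q₀]; linear_combination v.2⟩
          invFun := fun v => ⟨(v.1.1.1, v.1.1.2, v.1.2), by
            have := (hS _ _).mp v.2
            rw [val_Q₀, val_Q₀] at this
            linear_combination this⟩
          left_inv := fun v => rfl
          right_inv := fun v => rfl }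
    rw [e, Finset.card_biUnion]
    · exact Finset.sum_congr rfl fun x _ => Finset.card_product _ _
    · intro x _ y _ hxy
      rw [Function.onFun, Finset.disjoint_left]
      intro p hp hp'
      simp only [Finset.mem_product, Set.Finite.mem_toFinset, Set.mem_ofPred_eq] at hp hp'
      refine hxy (Prod.ext ?_ ?_)
      · exact_mod_cast hp.1.symm.trans hp'.1
      · exact_mod_cast hp.2.symm.trans hp'.2
  rw [PowerSeries.coeff_mul, key, Nat.cast_sum]
  refine Finset.sum_congr rfl fun x _ => ?_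
  simp [FA.Theta.BQF.series]

theorem card_squares_eq (i : ℕ) (l : Finset (ℤ × ℤ))
    (h : ∀ v ∈ l, v.1 ^ 2 + v.2 ^ 2 = (i : ℤ))
    (h' : ∀ v : ℤ × ℤ, v.1 ^ 2 + v.2 ^ 2 = (i : ℤ) → v ∈ l) : Q₀.rep i = l.card := by
  rw [FA.Theta.BQF.rep]
  congr 1
  ext v
  rw [Set.Finite.mem_toFinset, Set.mem_ofPred_eq, val_Q₀]
  exact ⟨h' v, h v⟩

theorem rep_zero : Q₀.rep 0 = 1 :=
  card_squares_eq 0 {(0, 0)} (by simp) fun v hv => by
    obtain ⟨a, b⟩ := v
    simp only [Nat.cast_zero] at hv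
    have ha : a = 0 := by nlinarith [sq_nonneg a, sq_nonneg b]
    have hb : b = 0 := by nlinarith [sq_nonneg a, sq_nonneg b]
    simp [ha, hb]

theorem rep_one : Q₀.rep 1 = 4 :=
  (card_squares_eq 1 {(1, 0), (-1, 0), (0, 1), (0, -1)} (by decide) fun v hv => by
    obtain ⟨a, b⟩ := v
    simp only [Nat.cast_one] at hv
    have ha : -1 ≤ a ∧ a ≤ 1 := ⟨by nlinarith [sq_nonneg b], by nlinarith [sq_nonneg b]⟩
    have hb : -1 ≤ b ∧ b ≤ 1 := ⟨by nlinarith [sq_nonneg a], by nlinarith [sq_nonneg a]⟩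
    obtain ⟨ha1, ha2⟩ := ha
    obtain ⟨hb1, hb2⟩ := hb
    interval_cases a <;> interval_cases b <;> simp_all).trans rfl

/-- Three times the number of representations is the coefficient of the Eisenstein series. -/
theorem three_mul_rep4 (n : ℕ) : 3 * (rep4 n : ℤ) = coeff n eisSer := by
  set A := (3 : ℂ) • (Q₀.series * Q₀.series) + (-1 : ℂ) • eisSer.map (Int.castRingHom ℂ) with hA
  have hQ : HasQ 1 ⇑diffForm A := ((Q₀.hasQ_theta.mul one_pos Q₀.hasQ_theta).smul (3 : ℂ)).add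
    (hasQ_eisFour.smul (-1 : ℂ))
  have hF : diffForm = 0 := ModularForm.sturm_bound_Gamma0 4 diffForm fun m hm => by
    rw [index_four] at hm
    have hm1 : m ≤ 1 := by simpa using hm
    rw [hQ.qExpansion_eq one_pos, hA, map_add, PowerSeries.coeff_smul, PowerSeries.coeff_smul,
      PowerSeries.coeff_map, PowerSeries.coeff_mul]
    interval_cases m
    · rw [show (Finset.HasAntidiagonal.antidiagonal 0 : Finset (ℕ × ℕ)) = {(0, 0)} from rfl,
        Finset.sum_singleton]
      have e0 : PowerSeries.constantCoeff (EZ 2) = 1 := by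
        rw [← PowerSeries.coeff_zero_eq_constantCoeff, coeff_EZ]; rfl
      simp [FA.Theta.BQF.series, rep_zero, eisSer, e0]
    · rw [show (Finset.HasAntidiagonal.antidiagonal 1 : Finset (ℕ × ℕ)) = {(0, 1), (1, 0)} from rfl,
        Finset.sum_pair (by decide)]
      simp [FA.Theta.BQF.series, rep_zero, rep_one, eisSer, coeff_Vp, coeff_EZ, sigP_one]
      norm_num
  have h0 : A = 0 := (FA.Eis.HasQ.eq_zero_of_fun (h := 1) (by
    have e : (0 : ℍ → ℂ) = ⇑diffForm := by rw [hF]; rfl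
    rw [e]; exact hQ) one_pos)
  have := congrArg (coeff n) h0
  rw [hA, map_add, PowerSeries.coeff_smul, PowerSeries.coeff_smul, map_zero, coeff_theta_sq,
    PowerSeries.coeff_map] at this
  have h3 : ((3 * (rep4 n : ℤ) : ℤ) : ℂ) = ((coeff n eisSer : ℤ) : ℂ) := by
    push_cast
    simp only [smul_eq_mul, eq_intCast] at this
    linear_combination this
  exact_mod_cast h3

/-- The coefficient in terms of the divisors not divisible by four. -/
theorem coeff_eisSer {n : ℕ} (hn : n ≠ 0) :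
    coeff n eisSer = 24 * ∑ d ∈ n.divisors with ¬ 4 ∣ d, (d : ℤ) := by
  rw [eisSer, map_add, map_add, coeff_Vp, coeff_EZ, if_neg hn]
  by_cases h2 : 2 ∣ n
  · obtain ⟨k, rfl⟩ := h2
    have hk : k ≠ 0 := fun h => hn (by simp [h])
    rw [if_pos (dvd_mul_right 2 k), Nat.mul_div_cancel_left k two_pos, coeff_EZ, if_neg hk,
      sigP_p_mul, Finset.sum_filter,
      sum_divisors_prime_mul Nat.prime_two k fun d => if ¬ 4 ∣ d then (d : ℤ) else 0]
    have e1 : ∑ d ∈ k.divisors with ¬ 2 ∣ d, (if ¬ 4 ∣ d then (d : ℤ) else 0) = sigP 2 k := by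
      rw [sigP]
      exact Finset.sum_congr rfl fun d hd =>
        if_pos fun h => (Finset.mem_filter.mp hd).2 (dvd_trans (by norm_num) h)
    have e2 : ∑ d ∈ k.divisors, (if ¬ 4 ∣ 2 * d then ((2 * d : ℕ) : ℤ) else 0) = 2 * sigP 2 k := by
      rw [sigP, Finset.sum_filter, Finset.mul_sum]
      refine Finset.sum_congr rfl fun d _ => ?_
      have e : 4 ∣ 2 * d ↔ 2 ∣ d := by omega
      simp only [e]
      split_ifs <;> simp
    rw [e1, e2]
    ring
  · rw [if_neg h2, add_zero, add_zero, sigP]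
    congr 1
    refine Finset.sum_congr (Finset.filter_congr fun d hd => ?_) fun _ _ => rfl
    have hd2 : ¬ 2 ∣ d := fun h => h2 (h.trans (Nat.dvd_of_mem_divisors hd))
    exact iff_of_true hd2 fun h => hd2 (dvd_trans (by norm_num) h)

end FA.FourSquares

namespace FA.Summary

/-- **Jacobi's four-square theorem**: a positive `n` is a sum of four squares of integers in
`8 ∑_{d ∣ n, 4 ∤ d} d` ways. -/
theorem jacobi_four_squares {n : ℕ} (hn : 0 < n) :
    Nat.card {v : ℤ × ℤ × ℤ × ℤ // v.1 ^ 2 + v.2.1 ^ 2 + v.2.2.1 ^ 2 + v.2.2.2 ^ 2 = (n : ℤ)} =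
      8 * ∑ d ∈ n.divisors with ¬ 4 ∣ d, d := by
  have h := (FA.FourSquares.three_mul_rep4 n).trans (FA.FourSquares.coeff_eisSer hn.ne')
  rw [← Nat.cast_sum] at h
  show FA.FourSquares.rep4 n = _
  omega

/-- For odd `n` there are `8 σ(n)` of them. -/
theorem jacobi_four_squares_odd {n : ℕ} (hn : Odd n) :
    Nat.card {v : ℤ × ℤ × ℤ × ℤ // v.1 ^ 2 + v.2.1 ^ 2 + v.2.2.1 ^ 2 + v.2.2.2 ^ 2 = (n : ℤ)} =
      8 * ArithmeticFunction.sigma 1 n := by
  rw [jacobi_four_squares hn.pos, ArithmeticFunction.sigma_one_apply]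
  congr 1
  refine Finset.sum_congr (Finset.filter_eq_self.mpr fun d hd h4 => ?_) fun _ _ => rfl
  exact Nat.not_even_iff_odd.mpr hn
    (even_iff_two_dvd.mpr (((by norm_num : 2 ∣ 4).trans h4).trans (Nat.dvd_of_mem_divisors hd)))

end FA.Summary

end
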