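import Fermat.Agent.Root.SummaryFourSquares
import Fermat.Agent.Eisenstein.LevelOne

/-!
# Jacobi's eight-square theorem

A positive `n` has `16 ∑_{d ∣ n} (-1)^(n + d) d³` representations as a sum of eight squares. The
eighth power of the theta series and the combination `E₄(z) - 2 E₄(2z) + 16 E₄(4z)` divided by
fifteen are forms of weight four and level four, so three coefficients identify them.
-/

set_option autoImplicit false
set_option linter.style.haveILetI false

noncomputable section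

namespace FA.EightSquares

open UpperHalfPlane hiding I
open CongruenceSubgroup FA.Eis FA.FourSquares
open PowerSeries (coeff)
open scoped MatrixGroups ModularForm ArithmeticFunction.sigma

/-- The Eisenstein series of weight four, as a function. -/
abbrev E4 : ℍ → ℂ := ⇑ModularForm.E₄

theorem isLv_thetaFour : IsLv 4 2 thetaFour where
  inv γ hγ := by rw [thetaFour, Q₀.theta_mul_slash Q₀ (by rwa [mul_one])]
  hol := (Q₀.hasQ_theta.mul one_pos Q₀.hasQ_theta).mdiff one_pos
  bdd := bdd_thetaFour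

/-- The difference of the two sides, multiplied by fifteen. -/
def diffFun : ℍ → ℂ :=
  (15 : ℂ) • (thetaFour * thetaFour) +
    (-1 : ℂ) • (E4 + (-2 : ℂ) • dil 2 E4 + (16 : ℂ) • dil 4 E4)

theorem isLv_diffFun : IsLv 4 4 diffFun := by
  have h1 : IsLv 1 4 E4 := IsLv.of_modularForm ModularForm.E₄
  have h2 : IsLv 4 4 (dil 2 E4) :=
    { inv := fun γ hγ => (h1.dil 2).inv γ (mem_Gamma0_iff_dvd.mpr
        (dvd_trans (by norm_num) (mem_Gamma0_iff_dvd.mp hγ)))
      hol := (h1.dil 2).hol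
      bdd := (h1.dil 2).bdd }
  exact ((isLv_thetaFour.mul isLv_thetaFour).smul (15 : ℂ)).add
    ((((h1.of_levelOne 4).add (h2.smul (-2 : ℂ))).add ((h1.dil 4).smul (16 : ℂ))).smul (-1 : ℂ))

/-- The difference as a modular form. -/
def diffForm : ModularForm (Gamma0 4) 4 where
  toFun := diffFun
  slash_action_eq' := by
    rintro _ ⟨M, hM, rfl⟩
    exact isLv_diffFun.inv M hM
  holo' := isLv_diffFun.hol
  bdd_at_cusps' := fun hc => by
    rw [Subgroup.IsArithmetic.isCusp_iff_isCusp_SL2Z] at hc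
    exact isLv_diffFun.bdd.isBoundedAt hc

/-- The series of `E₄(z) - 2 E₄(2z) + 16 E₄(4z)`. -/
def eisSer8 : PowerSeries ℤ :=
  Qz + PowerSeries.C (-2) * Vp 2 Qz + PowerSeries.C 16 * Vp 4 Qz

/-- The series of the fourth power of the theta series. -/
def thetaSer : PowerSeries ℤ := PowerSeries.mk fun n => (rep4 n : ℤ)

theorem toC_thetaSer : toC thetaSer = Q₀.series * Q₀.series := by
  ext n
  rw [coeff_toC, coeff_theta_sq, thetaSer, PowerSeries.coeff_mk]
  push_cast
  rfl

theorem toC_Vp (p : ℕ) [NeZero p] (A : PowerSeries ℤ) : toC (Vp p A) = Vp p (toC A) :=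
  PowerSeries.map_expand p (NeZero.ne p) (Int.castRingHom ℂ) A

theorem hasQ_diffFun :
    HasQ 1 diffFun (toC (PowerSeries.C 15 * (thetaSer * thetaSer) - eisSer8)) := by
  have hE : HasQ 1 E4 (toC Qz) := hasQ_E₄
  have hT : HasQ 1 thetaFour (toC thetaSer) := by
    rw [toC_thetaSer]
    exact Q₀.hasQ_theta.mul one_pos Q₀.hasQ_theta
  have h := ((hT.mul one_pos hT).smul (15 : ℂ)).add
    (((hE.add ((hE.dil 2).smul (-2 : ℂ))).add ((hE.dil 4).smul (16 : ℂ))).smul (-1 : ℂ))
  rw [diffFun]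
  convert h using 1
  simp only [eisSer8, map_sub, map_add, map_mul, toC_Vp, PowerSeries.smul_eq_C_mul]
  simp only [toC, map_ofNat, map_neg, map_one]
  ring

theorem coeff_Qz (n : ℕ) : coeff n Qz = if n = 0 then 1 else 240 * (σ 3 n : ℤ) := by
  rw [Qz, show (240 : PowerSeries ℤ) = PowerSeries.C 240 from (map_ofNat PowerSeries.C 240).symm,
    map_add, PowerSeries.coeff_C_mul, coeff_sigmaSeries, PowerSeries.coeff_one]
  split_ifs <;> simp

theorem coeff_eisSer8 (n : ℕ) : coeff n eisSer8 =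
    coeff n Qz + -2 * (if 2 ∣ n then coeff (n / 2) Qz else 0) +
      16 * (if 4 ∣ n then coeff (n / 4) Qz else 0) := by
  rw [eisSer8, map_add, map_add, PowerSeries.coeff_C_mul, PowerSeries.coeff_C_mul, coeff_Vp,
    coeff_Vp]

theorem rep4_zero : rep4 0 = 1 := by
  have h := three_mul_rep4 0
  rw [eisSer, map_add, map_add, coeff_Vp, coeff_EZ] at h
  simp at h
  omega

theorem fifteen_mul_coeff (n : ℕ) : 15 * coeff n (thetaSer * thetaSer) = coeff n eisSer8 := by
  have hF : diffForm = 0 := ModularForm.sturm_bound_Gamma0 4 diffForm fun m hm => by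
    rw [index_four] at hm
    have hm2 : m ≤ 2 := by simpa using hm
    show coeff m (qExpansion 1 diffFun) = 0
    rw [hasQ_diffFun.qExpansion_eq one_pos, coeff_toC, Int.cast_eq_zero, map_sub,
      PowerSeries.coeff_C_mul, sub_eq_zero, PowerSeries.coeff_mul, coeff_eisSer8]
    have r1 : rep4 1 = 8 := by
      have := FA.Summary.jacobi_four_squares (n := 1) one_pos
      rw [rep4, this]
      decide +kernel
    have r2 : rep4 2 = 24 := by
      have := FA.Summary.jacobi_four_squares (n := 2) two_pos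
      rw [rep4, this]
      decide +kernel
    have s1 : σ 3 1 = 1 := by decide +kernel
    have s2 : σ 3 2 = 9 := by decide +kernel
    interval_cases m <;>
      simp [Finset.Nat.sum_antidiagonal_eq_sum_range_succ_mk, Finset.sum_range_succ, thetaSer,
        coeff_Qz, rep4_zero, r1, r2, s1, s2]
  have h0 : toC (PowerSeries.C 15 * (thetaSer * thetaSer) - eisSer8) = 0 :=
    FA.Eis.HasQ.eq_zero_of_fun (h := 1) (by
      have e : (0 : ℍ → ℂ) = diffFun := (congrArg DFunLike.coe hF).symm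
      rw [e]; exact hasQ_diffFun) one_pos
  have := congrArg (coeff n) h0
  rw [coeff_toC, map_zero, Int.cast_eq_zero, map_sub, PowerSeries.coeff_C_mul, sub_eq_zero] at this
  exact this

/-- The sum of the cubes of the odd divisors. -/
def oddCubes (n : ℕ) : ℤ := ∑ d ∈ n.divisors with ¬ 2 ∣ d, (d : ℤ) ^ 3

theorem sigma_two_mul (k : ℕ) : (σ 3 (2 * k) : ℤ) = oddCubes k + 8 * (σ 3 k : ℤ) := by
  simp only [ArithmeticFunction.sigma_apply, Nat.cast_sum, Nat.cast_pow, oddCubes]
  rw [sum_divisors_prime_mul Nat.prime_two k, Finset.mul_sum]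
  congr 1
  refine Finset.sum_congr rfl fun d _ => ?_
  push_cast
  ring

theorem oddCubes_two_mul (k : ℕ) : oddCubes (2 * k) = oddCubes k := by
  rw [oddCubes, Finset.sum_filter, sum_divisors_prime_mul Nat.prime_two k,
    Finset.sum_eq_zero (s := k.divisors) (fun d _ => by simp), add_zero, oddCubes]
  exact Finset.sum_congr rfl fun d hd => if_pos (Finset.mem_filter.mp hd).2

theorem oddCubes_odd {n : ℕ} (hn : ¬ 2 ∣ n) : oddCubes n = (σ 3 n : ℤ) := by
  rw [oddCubes, ArithmeticFunction.sigma_apply, Nat.cast_sum]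
  refine Finset.sum_congr (Finset.filter_eq_self.mpr fun d hd h => hn
    (h.trans (Nat.dvd_of_mem_divisors hd))) fun d _ => ?_
  push_cast
  rfl

/-- The coefficient in terms of the signed cubes of the divisors. -/
theorem coeff_eisSer8_eq {n : ℕ} (hn : n ≠ 0) :
    coeff n eisSer8 = 240 * ∑ d ∈ n.divisors, (-1 : ℤ) ^ (n + d) * (d : ℤ) ^ 3 := by
  rw [coeff_eisSer8, coeff_Qz, if_neg hn]
  by_cases h2 : 2 ∣ n
  · obtain ⟨k, rfl⟩ := h2
    have hk : k ≠ 0 := fun h => hn (by simp [h])
    have e : ∑ d ∈ (2 * k).divisors, (-1 : ℤ) ^ (2 * k + d) * (d : ℤ) ^ 3 =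
        8 * (σ 3 k : ℤ) - oddCubes k := by
      have e1 : ∑ d ∈ k.divisors with ¬ 2 ∣ d, (-1 : ℤ) ^ (2 * k + d) * (d : ℤ) ^ 3 =
          -oddCubes k := by
        rw [oddCubes, ← Finset.sum_neg_distrib]
        refine Finset.sum_congr rfl fun d hd => ?_
        have hodd : Odd d :=
          Nat.not_even_iff_odd.mp fun h => (Finset.mem_filter.mp hd).2 h.two_dvd
        rw [pow_add, pow_mul, hodd.neg_one_pow]
        simp
      have e2 : ∑ d ∈ k.divisors, (-1 : ℤ) ^ (2 * k + 2 * d) * ((2 * d : ℕ) : ℤ) ^ 3 =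
          8 * (σ 3 k : ℤ) := by
        rw [ArithmeticFunction.sigma_apply, Nat.cast_sum, Finset.mul_sum]
        refine Finset.sum_congr rfl fun d _ => ?_
        rw [pow_add, pow_mul, pow_mul]
        push_cast
        ring
      rw [sum_divisors_prime_mul Nat.prime_two k, e1, e2]
      ring
    rw [if_pos (dvd_mul_right 2 k), Nat.mul_div_cancel_left k two_pos, coeff_Qz, if_neg hk,
      sigma_two_mul, e]
    by_cases h4 : 2 ∣ k
    · obtain ⟨j, rfl⟩ := h4
      have hj : j ≠ 0 := fun h => hk (by simp [h])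
      rw [if_pos ⟨j, by ring⟩, show 2 * (2 * j) / 4 = j by omega, coeff_Qz, if_neg hj,
        sigma_two_mul j, oddCubes_two_mul]
      ring
    · rw [if_neg (by omega), oddCubes_odd h4]
      ring
  · have e : ∑ d ∈ n.divisors, (-1 : ℤ) ^ (n + d) * (d : ℤ) ^ 3 = (σ 3 n : ℤ) := by
      rw [ArithmeticFunction.sigma_apply, Nat.cast_sum]
      refine Finset.sum_congr rfl fun d hd => ?_
      have hd2 : ¬ 2 ∣ d := fun h => h2 (h.trans (Nat.dvd_of_mem_divisors hd))
      rw [(show Even (n + d) from even_iff_two_dvd.mpr (by omega)).neg_one_pow]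
      simp
    rw [if_neg h2, if_neg (by omega), e]
    ring

/-- The number of representations as two quadruples. -/
def rep8 (n : ℕ) : ℕ := Nat.card {v : Fin 8 → ℤ // ∑ i, v i ^ 2 = (n : ℤ)}

theorem finite_rep4 (i : ℕ) : Finite
    {v : ℤ × ℤ × ℤ × ℤ // v.1 ^ 2 + v.2.1 ^ 2 + v.2.2.1 ^ 2 + v.2.2.2 ^ 2 = (i : ℤ)} := by
  refine Nat.finite_of_card_ne_zero ?_
  rcases Nat.eq_zero_or_pos i with rfl | hi
  · exact (rep4_zero.trans_ne one_ne_zero)
  · rw [FA.Summary.jacobi_four_squares hi]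
    have h1 : 0 < ∑ d ∈ i.divisors with ¬ 4 ∣ d, d :=
      lt_of_lt_of_le one_pos (Finset.single_le_sum (f := fun d => d) (fun _ _ => Nat.zero_le _)
        (Finset.mem_filter.mpr ⟨Nat.one_mem_divisors.mpr hi.ne', by norm_num⟩))
    omega

theorem rep8_eq (n : ℕ) :
    (rep8 n : ℤ) = coeff n (thetaSer * thetaSer) := by
  classical
  let f : ℤ × ℤ × ℤ × ℤ → ℤ := fun v => v.1 ^ 2 + v.2.1 ^ 2 + v.2.2.1 ^ 2 + v.2.2.2 ^ 2
  have e : rep8 n = Nat.card (Σ x : {x : ℕ × ℕ // x ∈ Finset.HasAntidiagonal.antidiagonal n},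
      {v // f v = (x.1.1 : ℤ)} × {v // f v = (x.1.2 : ℤ)}) := by
    let e1 : {v : Fin 8 → ℤ // ∑ i, v i ^ 2 = (n : ℤ)} ≃
        {w : (ℤ × ℤ × ℤ × ℤ) × ℤ × ℤ × ℤ × ℤ // f w.1 + f w.2 = (n : ℤ)} :=
      { toFun := fun v => ⟨((v.1 0, v.1 1, v.1 2, v.1 3), v.1 4, v.1 5, v.1 6, v.1 7), by
          have := v.2
          rw [Fin.sum_univ_eight] at this
          simp only [f]
          linear_combination this⟩
        invFun := fun w => ⟨![w.1.1.1, w.1.1.2.1, w.1.1.2.2.1, w.1.1.2.2.2, w.1.2.1, w.1.2.2.1,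
          w.1.2.2.2.1, w.1.2.2.2.2], by
          have := w.2
          simp only [f] at this
          rw [Fin.sum_univ_eight]
          simp
          linear_combination this⟩
        left_inv := fun v => Subtype.ext (funext fun i => by fin_cases i <;> rfl)
        right_inv := fun w => rfl }
    have hf : ∀ v, 0 ≤ f v := fun v => by simp only [f]; positivity
    refine (Nat.card_congr e1).trans (Nat.card_congr
      { toFun := fun w => ⟨⟨((f w.1.1).toNat, (f w.1.2).toNat),
          Finset.HasAntidiagonal.mem_antidiagonal.mpr (by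
            have := w.2; have := hf w.1.1; have := hf w.1.2; omega)⟩,
          ⟨w.1.1, (Int.toNat_of_nonneg (hf _)).symm⟩, ⟨w.1.2, (Int.toNat_of_nonneg (hf _)).symm⟩⟩
        invFun := fun y => ⟨(y.2.1.1, y.2.2.1), by
          rw [y.2.1.2, y.2.2.2]
          exact_mod_cast Finset.HasAntidiagonal.mem_antidiagonal.mp y.1.2⟩
        left_inv := fun w => rfl
        right_inv := fun y => by
          obtain ⟨⟨⟨i, j⟩, hij⟩, ⟨v, hv⟩, ⟨w, hw⟩⟩ := y
          have ei : (f v).toNat = i := by rw [hv]; rfl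
          have ej : (f w).toNat = j := by rw [hw]; rfl
          subst ei ej
          rfl })
  have : ∀ i : ℕ, Finite {v // f v = (i : ℤ)} := finite_rep4
  rw [e, Nat.card_sigma, PowerSeries.coeff_mul, ← Finset.attach_eq_univ,
    Finset.sum_attach _ (fun x : ℕ × ℕ =>
      Nat.card ({v // f v = (x.1 : ℤ)} × {v // f v = (x.2 : ℤ)}))]
  push_cast
  refine Finset.sum_congr rfl fun x _ => ?_
  rw [Nat.card_prod, thetaSer, PowerSeries.coeff_mk, PowerSeries.coeff_mk, Nat.cast_mul]
  rfl

end FA.EightSquares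

namespace FA.Summary

/-- **Jacobi's eight-square theorem**: a positive `n` is a sum of eight squares of integers in
`16 ∑_{d ∣ n} (-1)^(n + d) d³` ways. -/
theorem jacobi_eight_squares {n : ℕ} (hn : 0 < n) :
    (Nat.card {v : Fin 8 → ℤ // ∑ i, v i ^ 2 = (n : ℤ)} : ℤ) =
      16 * ∑ d ∈ n.divisors, (-1 : ℤ) ^ (n + d) * (d : ℤ) ^ 3 := by
  have h := (FA.EightSquares.fifteen_mul_coeff n).trans (FA.EightSquares.coeff_eisSer8_eq hn.ne')
  rw [← FA.EightSquares.rep8_eq, FA.EightSquares.rep8] at h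
  omega

/-- For odd `n` there are `16 σ₃(n)` of them. -/
theorem jacobi_eight_squares_odd {n : ℕ} (hn : Odd n) :
    Nat.card {v : Fin 8 → ℤ // ∑ i, v i ^ 2 = (n : ℤ)} = 16 * ArithmeticFunction.sigma 3 n := by
  have h := jacobi_eight_squares hn.pos
  rw [show ∑ d ∈ n.divisors, (-1 : ℤ) ^ (n + d) * (d : ℤ) ^ 3 =
      (ArithmeticFunction.sigma 3 n : ℤ) from by
    rw [ArithmeticFunction.sigma_apply, Nat.cast_sum]
    refine Finset.sum_congr rfl fun d hd => ?_
    rw [(hn.add_odd (hn.of_dvd_nat (Nat.dvd_of_mem_divisors hd))).neg_one_pow]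
    simp] at h
  exact_mod_cast h

end FA.Summary

end
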