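import Fermat.Agent.VonKoch.Main
import Fermat.Agent.VonKoch.PrimeCount

/-!
# The Riemann hypothesis and the error terms of von Koch and Littlewood

For `1/2 ≤ β < 1`, a half-plane `re s > β` free of zeros is equivalent to each of
`ψ x - x`, `π x - li x` and `∑_{n ≤ x} μ n` being `O (x ^ (β + ε))` for all `ε > 0`.
With `β = 1/2` these are equivalents of the Riemann hypothesis (von Koch 1901, Littlewood 1912),
which also gives `ζ` and `1/ζ` the bound `O (|t| ^ η)` on `re s ≥ σ > 1/2`.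
-/

set_option autoImplicit false

noncomputable section

namespace FA.VonKoch.Summary

open Real Filter
open scoped Chebyshev ArithmeticFunction.Moebius

variable {β : ℝ}

private theorem completed_iff :
    (∀ s : ℂ, β < s.re → s ≠ 1 → riemannZeta s ≠ 0) ↔
      ∀ s : ℂ, β < s.re → riemannZeta₁ s ≠ 0 := by
  refine ⟨fun H s hs h0 => ?_, fun H s hs h1 h0 => ?_⟩
  · rcases eq_or_ne s 1 with rfl | h1
    · simp at h0
    · exact H s hs h1 (by rw [riemannZeta_eq_inv_sub_mul h1, h0, mul_zero])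
  · exact H s hs (FA.PsiOscillation.riemannZeta₁_eq_zero h0 h1)

/-- **von Koch's theorem**: zeros and the error term of `ψ`. -/
theorem zeroFree_iff_psi (hβ : 1 / 2 ≤ β) (hβ1 : β < 1) :
    (∀ s : ℂ, β < s.re → s ≠ 1 → riemannZeta s ≠ 0) ↔
      ∀ ε : ℝ, 0 < ε → ∃ C : ℝ, ∀ x : ℝ, 2 ≤ x → |ψ x - x| ≤ C * x ^ (β + ε) := by
  refine ⟨fun H ε hε => exists_psi_le hβ hβ1 (completed_iff.1 H) hε, fun h s hs hs1 => ?_⟩
  obtain ⟨C, hC⟩ := h ((s.re - β) / 2) (by linarith)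
  refine FA.Summary.zeta_zero_free_of_psi_bound (α := β + (s.re - β) / 2) (C := C) (e := 1)
    (by linarith) one_ne_zero ?_ hs1 (by linarith)
  filter_upwards [eventually_ge_atTop 2] with n hn
  rw [one_mul]
  exact (le_abs_self _).trans (hC n (by exact_mod_cast hn))

/-- The same for `π x - li x`. -/
theorem zeroFree_iff_primeCounting (hβ : 1 / 2 ≤ β) (hβ1 : β < 1) :
    (∀ s : ℂ, β < s.re → s ≠ 1 → riemannZeta s ≠ 0) ↔
      ∀ ε : ℝ, 0 < ε → ∃ C : ℝ, ∀ x : ℝ, 2 ≤ x →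
        |(Nat.primeCounting ⌊x⌋₊ : ℝ) - ∫ t in (2 : ℝ)..x, 1 / log t| ≤ C * x ^ (β + ε) := by
  rw [zeroFree_iff_psi hβ hβ1]
  refine ⟨fun h ε hε => ?_, fun h ε hε => ?_⟩
  · obtain ⟨C, hC⟩ := h ε hε
    have hθ : ∀ x : ℝ, 2 ≤ x → |Chebyshev.theta x - x| ≤
        max (C + 2 / (β + ε - 1 / 2)) 0 * x ^ (β + ε) := fun x hx =>
      (theta_le_of_psi (by linarith) hC x hx).trans
        (mul_le_mul_of_nonneg_right (le_max_left _ _) (rpow_nonneg (by linarith) _))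
    exact ⟨_, primeCount_of_theta (by linarith) (le_max_right _ _) hθ⟩
  · obtain ⟨C, hC⟩ := h (ε / 2) (by linarith)
    have hπ : ∀ x : ℝ, 2 ≤ x → |(Nat.primeCounting ⌊x⌋₊ : ℝ) - liTwo x| ≤
        max C 0 * x ^ (β + ε / 2) := fun x hx =>
      (hC x hx).trans
        (mul_le_mul_of_nonneg_right (le_max_left _ _) (rpow_nonneg (by linarith) _))
    exact ⟨_, psi_le_of_theta (a := β + ε) (by linarith)
      (theta_of_primeCount (b := β + ε) (by linarith) (by linarith) (le_max_right _ _) hπ)⟩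

/-- **Littlewood's theorem**: zeros and the Mertens function. -/
theorem zeroFree_iff_mertens (hβ : 1 / 2 ≤ β) (hβ1 : β < 1) :
    (∀ s : ℂ, β < s.re → s ≠ 1 → riemannZeta s ≠ 0) ↔
      ∀ ε : ℝ, 0 < ε → ∃ C : ℝ, ∀ x : ℝ, 1 ≤ x →
        |∑ n ∈ Finset.Icc 1 ⌊x⌋₊, (μ n : ℝ)| ≤ C * x ^ (β + ε) := by
  refine ⟨fun H ε hε => exists_mertens_le hβ hβ1 (completed_iff.1 H) hε,
    fun h => completed_iff.2 fun s hs => ?_⟩
  obtain ⟨C, hC⟩ := h ((s.re - β) / 2) (by linarith)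
  exact riemannZeta₁_ne_zero_of_mertens (α := β + (s.re - β) / 2) (by linarith) hC (by linarith)

private theorem zeroFree_of_riemannHypothesis (h : RiemannHypothesis) :
    ∀ s : ℂ, 1 / 2 < s.re → s ≠ 1 → riemannZeta s ≠ 0 := fun s hs hs1 h0 => by
  refine hs.ne' (h s h0 ?_ hs1)
  rintro ⟨n, rfl⟩
  simp at hs
  linarith [(Nat.cast_nonneg n : (0 : ℝ) ≤ n)]

private theorem riemannHypothesis_iff_zeroFree :
    RiemannHypothesis ↔ ∀ s : ℂ, 1 / 2 < s.re → s ≠ 1 → riemannZeta s ≠ 0 := by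
  refine ⟨zeroFree_of_riemannHypothesis, fun H => ?_⟩
  refine FA.Summary.riemannHypothesis_of_psi_bound fun ε hε => ?_
  obtain ⟨C, hC⟩ := (zeroFree_iff_psi le_rfl (by norm_num)).1 H ε hε
  refine ⟨C, ?_⟩
  filter_upwards [eventually_ge_atTop 2] with n hn
  exact (le_abs_self _).trans (hC n (by exact_mod_cast hn))

/-- **The Riemann hypothesis says `ψ x = x + O (x ^ (1/2 + ε))`.** -/
theorem riemannHypothesis_iff_psi : RiemannHypothesis ↔
    ∀ ε : ℝ, 0 < ε → ∃ C : ℝ, ∀ x : ℝ, 2 ≤ x → |ψ x - x| ≤ C * x ^ (1 / 2 + ε) :=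
  riemannHypothesis_iff_zeroFree.trans (zeroFree_iff_psi le_rfl (by norm_num))

/-- **The Riemann hypothesis says `π x = li x + O (x ^ (1/2 + ε))`.** -/
theorem riemannHypothesis_iff_primeCounting : RiemannHypothesis ↔
    ∀ ε : ℝ, 0 < ε → ∃ C : ℝ, ∀ x : ℝ, 2 ≤ x →
      |(Nat.primeCounting ⌊x⌋₊ : ℝ) - ∫ t in (2 : ℝ)..x, 1 / log t| ≤ C * x ^ (1 / 2 + ε) :=
  riemannHypothesis_iff_zeroFree.trans (zeroFree_iff_primeCounting le_rfl (by norm_num))

/-- **The Riemann hypothesis says `∑_{n ≤ x} μ n = O (x ^ (1/2 + ε))`.** -/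
theorem riemannHypothesis_iff_mertens : RiemannHypothesis ↔
    ∀ ε : ℝ, 0 < ε → ∃ C : ℝ, ∀ x : ℝ, 1 ≤ x →
      |∑ n ∈ Finset.Icc 1 ⌊x⌋₊, (μ n : ℝ)| ≤ C * x ^ (1 / 2 + ε) :=
  riemannHypothesis_iff_zeroFree.trans (zeroFree_iff_mertens le_rfl (by norm_num))

/-- **The Riemann hypothesis bounds `ζ` and `1/ζ` by every power of `|t|`** (Littlewood). -/
theorem zeta_bounds_of_riemannHypothesis (h : RiemannHypothesis) {σ η : ℝ} (hσ : 1 / 2 < σ)
    (hη : 0 < η) :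
    ∃ C : ℝ, ∀ s : ℂ, σ ≤ s.re → s.re ≤ 2 → 3 ≤ |s.im| →
      ‖riemannZeta s‖ ≤ C * |s.im| ^ η ∧ ‖(riemannZeta s)⁻¹‖ ≤ C * |s.im| ^ η := by
  obtain ⟨C, hC, hb⟩ := exists_growth (σ₁ := min σ 1) (le_refl (1 / 2 : ℝ))
    (lt_min hσ (by norm_num)) (min_le_right _ _)
    (completed_iff.1 (zeroFree_of_riemannHypothesis h)) hη
  refine ⟨C * 2 ^ η, fun s hs hs2 ht => ?_⟩
  obtain ⟨h1, -, h3⟩ := hb s ((min_le_left _ _).trans hs) hs2
  have hs1 : s ≠ 1 := fun hh => by rw [hh] at ht; norm_num at ht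
  rw [invZeta_eq hs1] at h3
  have hw : C * weight η s.im ≤ C * 2 ^ η * |s.im| ^ η := by
    rw [mul_assoc, ← mul_rpow two_pos.le (abs_nonneg _), weight,
      show (2 * |s.im|) ^ η = ((2 * |s.im|) ^ 2) ^ (η / 2) by
        rw [← rpow_natCast, ← rpow_mul (by positivity)]; congr 1; push_cast; ring]
    refine mul_le_mul_of_nonneg_left (rpow_le_rpow (by positivity) ?_ (by linarith)) hC
    rw [mul_pow, sq_abs]
    nlinarith [sq_abs s.im]
  exact ⟨(h1 ht).trans hw, h3.trans hw⟩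

end FA.VonKoch.Summary

end
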