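import Fermat.Agent.Neukirch.Global
import Mathlib.FieldTheory.AbsoluteGaloisGroup

/-!
# Neukirch's theorem

* `neukirch`: a number field which is Galois over `ℚ` is determined inside `ℚ̄` by its absolute
  Galois group: a continuous isomorphism with the group of any other number field forces equality;
* `neukirch_normalClosure`: number fields with isomorphic absolute Galois groups have the same
  degree and the same normal closure;
* `neukirch_numberField`: the same for abstract number fields.

Classical (Neukirch 1969); the proof is by the local correspondence and Frobenius density.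
-/

set_option autoImplicit false
set_option linter.unusedSectionVars false

noncomputable section

local notation "Qb" => AlgebraicClosure ℚ

namespace Fermat.Agent.Neukirch

open FA.GalCoh
open scoped Topology

theorem compat_of_continuous_levels {H H' : Subgroup GQ} (f : H →* H') (hf : Continuous f) :
    Compat (LQ.sub H') (LQ.sub H) f := by
  rintro _ ⟨R, hR, rfl⟩
  have hopen : IsOpen ((R.subgroupOf H').comap f : Set H) :=
    ((isOpen_level hR).preimage continuous_subtype_val).preimage hf
  obtain ⟨U, hU, hUeq⟩ := isOpen_induced_iff.1 hopen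
  have h1 : (1 : GQ) ∈ U := by
    have h2 : (1 : H) ∈ Subtype.val ⁻¹' U := hUeq ▸ one_mem ((R.subgroupOf H').comap f)
    exact h2
  obtain ⟨M, hM, -, hMU⟩ := exists_normal_level_subset (hU.mem_nhds h1)
  refine ⟨_, ⟨M, hM, rfl⟩, fun x hx => ?_⟩
  have h2 : x ∈ Subtype.val ⁻¹' U := hMU (Subgroup.mem_subgroupOf.1 hx)
  rw [hUeq] at h2
  exact h2

/-- A continuous isomorphism of levels. -/
def levelIsoOfContinuous {H H' : Subgroup GQ} (hH : H ∈ LQ.carrier) (hH' : H' ∈ LQ.carrier)
    (e : H ≃* H') (he : Continuous e) : LevelIso H H' where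
  mem₁ := hH
  mem₂ := hH'
  e := e
  compat := compat_of_continuous_levels e.toMonoidHom he
  compat' :=
    have := compactSpace_level hH
    compat_of_continuous_levels e.symm.toMonoidHom
      (Continuous.continuous_symm_of_equiv_compact_to_t2 (f := e.toEquiv) he)

/-- The fixing subgroup of the normal closure is the normal core. -/
theorem fixingSubgroup_normalClosure (F : IntermediateField ℚ Qb) [FiniteDimensional ℚ F] :
    (IntermediateField.normalClosure ℚ F Qb).fixingSubgroup = F.fixingSubgroup.normalCore := by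
  have hn : (IntermediateField.normalClosure ℚ F Qb).fixingSubgroup.Normal :=
    fixingSubgroup_normal ℚ Qb _
  refine le_antisymm (Subgroup.normal_le_normalCore.2
    (IntermediateField.fixingSubgroup_antitone F.le_normalClosure)) ?_
  have hmem := normalCore_mem (fixingSubgroup_mem_fieldLevels (F := ℚ) (Ω := Qb) F)
  set E := IntermediateField.fixedField F.fixingSubgroup.normalCore
  have hE : E.fixingSubgroup = F.fixingSubgroup.normalCore := fixingSubgroup_fixedField_LQ hmem
  have : IsGalois ℚ E := (InfiniteGalois.normal_iff_isGalois E).1 (hE.symm ▸ inferInstance)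
  have hFE : F ≤ E := by
    conv_lhs => rw [← InfiniteGalois.fixedField_fixingSubgroup F]
    exact IntermediateField.fixedField_antitone (Subgroup.normalCore_le _)
  rw [← hE]
  refine IntermediateField.fixingSubgroup_antitone (normalClosure_le_iff.2 fun f => ?_)
  rintro _ ⟨x, rfl⟩
  let s : Qb →ₐ[ℚ] Qb := f.liftNormal Qb
  have h1 : (s.comp E.val).fieldRange = E := AlgHom.fieldRange_of_normal _
  rw [← h1]
  exact ⟨⟨x, hFE x.2⟩, f.liftNormal_commutes Qb x⟩

end Fermat.Agent.Neukirch

namespace FA.Summary

open FA.GalCoh Fermat.Agent.Neukirch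

variable (F₁ F₂ : IntermediateField ℚ Qb) [FiniteDimensional ℚ F₁] [FiniteDimensional ℚ F₂]

/-- **Number fields with isomorphic absolute Galois groups have the same degree and the same
normal closure.** -/
theorem neukirch_normalClosure (e : F₁.fixingSubgroup ≃* F₂.fixingSubgroup) (he : Continuous e) :
    Module.finrank ℚ F₁ = Module.finrank ℚ F₂ ∧
      IntermediateField.normalClosure ℚ F₁ Qb = IntermediateField.normalClosure ℚ F₂ Qb := by
  let σ := levelIsoOfContinuous (fixingSubgroup_mem_fieldLevels F₁)
    (fixingSubgroup_mem_fieldLevels F₂) e he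
  refine ⟨?_, ?_⟩
  · rw [IntermediateField.finrank_eq_fixingSubgroup_index,
      IntermediateField.finrank_eq_fixingSubgroup_index]
    exact index_eq σ
  · rw [← InfiniteGalois.fixedField_fixingSubgroup (IntermediateField.normalClosure ℚ F₁ Qb),
      ← InfiniteGalois.fixedField_fixingSubgroup (IntermediateField.normalClosure ℚ F₂ Qb),
      fixingSubgroup_normalClosure, fixingSubgroup_normalClosure, normalCore_eq σ]

/-- **Neukirch's theorem**: a Galois number field is determined by its absolute Galois group. -/
theorem neukirch [IsGalois ℚ F₁] (e : F₁.fixingSubgroup ≃* F₂.fixingSubgroup)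
    (he : Continuous e) : F₁ = F₂ := by
  have : F₁.fixingSubgroup.Normal := (InfiniteGalois.normal_iff_isGalois F₁).2 ‹_›
  have h := eq_of_levelIso (levelIsoOfContinuous (fixingSubgroup_mem_fieldLevels F₁)
    (fixingSubgroup_mem_fieldLevels F₂) e he)
  rw [← InfiniteGalois.fixedField_fixingSubgroup F₁,
    ← InfiniteGalois.fixedField_fixingSubgroup F₂, h]

section Abstract

variable {K : Type*} [Field K] [NumberField K]

/-- The absolute Galois group of a number field is the fixing subgroup of an embedded copy. -/
theorem exists_absoluteGaloisGroup_equiv (ι : K →ₐ[ℚ] Qb) :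
    Nonempty (Field.absoluteGaloisGroup K ≃ₜ* ι.fieldRange.fixingSubgroup) := by
  let _ : Algebra K Qb := ι.toRingHom.toAlgebra
  have : IsScalarTower ℚ K Qb :=
    IsScalarTower.of_algebraMap_eq fun x => (ι.commutes x).symm
  have : Algebra.IsAlgebraic K Qb := Algebra.IsAlgebraic.tower_top (K := ℚ) K
  have : IsAlgClosure K Qb := ⟨inferInstance, inferInstance⟩
  let ε : AlgebraicClosure K ≃ₐ[K] Qb := IsAlgClosure.equiv K (AlgebraicClosure K) Qb
  let Φ : (AlgebraicClosure K ≃ₐ[K] AlgebraicClosure K) →* GQ :=
    MonoidHom.mk' (fun σ => ((ε.symm.trans σ).trans ε).restrictScalars ℚ) fun a b =>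
      AlgEquiv.ext fun x => by
        show ε (a (b (ε.symm x))) = ε (a (ε.symm (ε (b (ε.symm x)))))
        rw [ε.symm_apply_apply]
  have hΦ : ∀ σ x, Φ σ x = ε (σ (ε.symm x)) := fun _ _ => rfl
  have hmem : ∀ σ, Φ σ ∈ ι.fieldRange.fixingSubgroup := fun σ =>
    (IntermediateField.mem_fixingSubgroup_iff _ _).2 fun x ⟨k, hk⟩ => by
      rw [← hk, hΦ, show ε.symm (ι.toRingHom k) = algebraMap K _ k from ε.symm.commutes k,
        σ.commutes, ε.commutes]
      rfl
  have hcont : Continuous Φ := by
    refine continuous_of_continuousAt_one _ ?_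
    rw [ContinuousAt, map_one]
    intro s hs
    obtain ⟨E, hE, hEs⟩ := (krullTopology_mem_nhds_one_iff _ _ _).1 hs
    let b := Module.finBasis ℚ E
    let E' : IntermediateField K (AlgebraicClosure K) :=
      IntermediateField.adjoin K (Set.range fun i => ε.symm (b i : Qb))
    have : FiniteDimensional K E' :=
      IntermediateField.finiteDimensional_adjoin fun x _ => Algebra.IsIntegral.isIntegral x
    refine Filter.mem_map.2 ((krullTopology_mem_nhds_one_iff _ _ _).2 ⟨E', inferInstance,
      fun σ hσ => hEs ((IntermediateField.mem_fixingSubgroup_iff _ _).2 fun x hx => ?_)⟩)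
    have e1 : (x : Qb) = ∑ i, b.repr ⟨x, hx⟩ i • (b i : Qb) := by
      have h1 := congrArg E.val (b.sum_repr ⟨x, hx⟩)
      rw [map_sum] at h1
      simpa using h1.symm
    rw [e1, map_sum]
    refine Finset.sum_congr rfl fun i _ => ?_
    rw [Algebra.smul_def, map_mul, eq_ratCast (algebraMap ℚ Qb), map_ratCast, hΦ,
      (IntermediateField.mem_fixingSubgroup_iff E' σ).1 hσ _
        (IntermediateField.subset_adjoin _ _ ⟨i, rfl⟩), ε.apply_symm_apply]
  let Φ' : (AlgebraicClosure K ≃ₐ[K] AlgebraicClosure K) →* ι.fieldRange.fixingSubgroup :=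
    Φ.codRestrict _ hmem
  have hb : Function.Bijective Φ' := by
    refine ⟨fun a b h => AlgEquiv.ext fun x => ?_, fun τ => ?_⟩
    · have h1 := AlgEquiv.congr_fun (congrArg Subtype.val h) (ε x)
      change Φ a (ε x) = Φ b (ε x) at h1
      rwa [hΦ, hΦ, ε.symm_apply_apply, ε.injective.eq_iff] at h1
    · let τK : Qb ≃ₐ[K] Qb := AlgEquiv.ofRingEquiv (f := (τ : GQ).toRingEquiv) fun k =>
        (IntermediateField.mem_fixingSubgroup_iff _ _).1 τ.2 _ ⟨k, rfl⟩
      refine ⟨(ε.trans τK).trans ε.symm, Subtype.ext (AlgEquiv.ext fun x => ?_)⟩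
      show ε (ε.symm (τK (ε (ε.symm x)))) = (τ : GQ) x
      rw [ε.apply_symm_apply, ε.apply_symm_apply]
      rfl
  let e := MulEquiv.ofBijective Φ' hb
  have hec : Continuous e := continuous_induced_rng.2 hcont
  exact ⟨{ e with
    continuous_toFun := hec
    continuous_invFun := Continuous.continuous_symm_of_equiv_compact_to_t2 (f := e.toEquiv) hec }⟩

/-- **Neukirch's theorem** for abstract number fields. -/
theorem neukirch_numberField {L : Type*} [Field L] [NumberField L] [IsGalois ℚ K]
    (h : Nonempty (Field.absoluteGaloisGroup K ≃ₜ* Field.absoluteGaloisGroup L)) :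
    Nonempty (K ≃+* L) := by
  obtain ⟨f⟩ := h
  let ιK : K →ₐ[ℚ] Qb := IsAlgClosed.lift
  let ιL : L →ₐ[ℚ] Qb := IsAlgClosed.lift
  obtain ⟨a⟩ := exists_absoluteGaloisGroup_equiv ιK
  obtain ⟨b⟩ := exists_absoluteGaloisGroup_equiv ιL
  have : FiniteDimensional ℚ ιK.fieldRange :=
    (AlgEquiv.ofInjectiveField ιK).toLinearEquiv.finiteDimensional
  have : FiniteDimensional ℚ ιL.fieldRange :=
    (AlgEquiv.ofInjectiveField ιL).toLinearEquiv.finiteDimensional
  have : IsGalois ℚ ιK.fieldRange := IsGalois.of_algEquiv (AlgEquiv.ofInjectiveField ιK)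
  let e := a.symm.trans (f.trans b)
  have heq := neukirch ιK.fieldRange ιL.fieldRange e.toMulEquiv e.continuous
  exact ⟨(((AlgEquiv.ofInjectiveField ιK).trans (IntermediateField.equivOfEq heq)).trans
    (AlgEquiv.ofInjectiveField ιL).symm).toRingEquiv⟩

end Abstract

end FA.Summary
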