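import Fermat.Agent.Neukirch.Uchida
import Fermat.Agent.Root.SummaryNeukirch

/-!
# The theorem of Neukirch and Uchida

* `neukirchUchida`: a continuous isomorphism between the absolute Galois groups of two number
  fields in `ℚ̄` is the conjugation by a unique automorphism of `ℚ̄`, which carries one field to the
  other;
* `neukirchUchida_iff`, `neukirchUchida_numberField_iff`: two number fields have isomorphic
  absolute Galois groups iff they are isomorphic as fields;
* `absoluteGalois_rat_aut_inner`, `absoluteGalois_centralizer`: the continuous automorphisms of the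
  absolute Galois group of `ℚ` are inner, in one way only, and no non-trivial element centralises
  the group of a number field;
* `neukirchUchida_out`: the outer continuous automorphisms of the absolute Galois group of a
  number field are the automorphisms of the field.

Classical (Neukirch, Uchida 1976, Ikeda, Iwasawa).
-/

set_option autoImplicit false
set_option linter.unusedSectionVars false

noncomputable section

local notation "Qb" => AlgebraicClosure ℚ

namespace Fermat.Agent.Neukirch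

open FA.GalCoh
open scoped Topology

variable (F₁ F₂ : IntermediateField ℚ Qb) [FiniteDimensional ℚ F₁] [FiniteDimensional ℚ F₂]

theorem map_eq_of_conj {g : GQ}
    (hg : ∀ y : GQ, y ∈ F₂.fixingSubgroup ↔ g⁻¹ * y * g ∈ F₁.fixingSubgroup) :
    F₁.map (g : Qb →ₐ[ℚ] Qb) = F₂ := by
  rw [← InfiniteGalois.fixedField_fixingSubgroup F₂,
    ← InfiniteGalois.fixedField_fixingSubgroup (F₁.map (g : Qb →ₐ[ℚ] Qb))]
  congr 1
  ext y
  rw [hg, IsGalois.map_fixingSubgroup, Subgroup.mem_smul_pointwise_iff_exists]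
  simp only [MulAut.smul_def, MulAut.conj_apply]
  exact ⟨fun ⟨x, hx, hxy⟩ => by rw [← hxy]; simpa [mul_assoc] using hx,
    fun h => ⟨_, h, by group⟩⟩

/-- The continuous automorphisms of the Galois group of a number field. -/
def contAut (F : IntermediateField ℚ Qb) [FiniteDimensional ℚ F] :
    Subgroup (MulAut F.fixingSubgroup) where
  carrier := {e | Continuous e}
  one_mem' := continuous_id
  mul_mem' ha hb := ha.comp hb
  inv_mem' {a} ha :=
    have := compactSpace_level (fixingSubgroup_mem_fieldLevels (F := ℚ) (Ω := Qb) F)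
    Continuous.continuous_symm_of_equiv_compact_to_t2 (f := a.toEquiv) ha

/-- An isomorphism of number fields extends to `ℚ̄`. -/
theorem exists_lift_map (f : F₁ ≃ₐ[ℚ] F₂) :
    ∃ g : GQ, F₁.map (g : Qb →ₐ[ℚ] Qb) = F₂ ∧ ∀ x : F₁, g x = (f x : Qb) := by
  let g : GQ := AlgEquiv.ofBijective ((F₂.val.comp f.toAlgHom).liftNormal Qb)
    (Algebra.IsAlgebraic.algHom_bijective _)
  have hg : ∀ x : F₁, g x = (f x : Qb) := fun x => by
    show ((F₂.val.comp f.toAlgHom).liftNormal Qb) (algebraMap F₁ Qb x) = _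
    rw [AlgHom.liftNormal_commutes]
    rfl
  refine ⟨g, SetLike.ext fun y => ⟨?_, fun hy => ?_⟩, hg⟩
  · rintro ⟨x, hx, rfl⟩
    exact (hg ⟨x, hx⟩).symm ▸ (f ⟨x, hx⟩).2
  · exact ⟨(f.symm ⟨y, hy⟩ : F₁), (f.symm ⟨y, hy⟩).2, by
      show g _ = y
      rw [hg, f.apply_symm_apply]⟩

variable {F₁ F₂}

theorem mem_fixingSubgroup_conj_iff {g : GQ} (hmap : F₁.map (g : Qb →ₐ[ℚ] Qb) = F₂) (y : GQ) :
    y ∈ F₁.fixingSubgroup ↔ g * y * g⁻¹ ∈ F₂.fixingSubgroup := by
  rw [← hmap, IsGalois.map_fixingSubgroup, Subgroup.mem_pointwise_smul_iff_inv_smul_mem]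
  simp [MulAut.smul_def, mul_assoc]

/-- Conjugation between the Galois groups of conjugate fields. -/
def conjFixEquiv {g : GQ} (hmap : F₁.map (g : Qb →ₐ[ℚ] Qb) = F₂) :
    F₁.fixingSubgroup ≃ₜ* F₂.fixingSubgroup where
  toFun x := ⟨g * x * g⁻¹, (mem_fixingSubgroup_conj_iff hmap x).1 x.2⟩
  invFun y := ⟨g⁻¹ * y * g, (mem_fixingSubgroup_conj_iff hmap _).2 (by simp [mul_assoc])⟩
  left_inv x := Subtype.ext (by simp [mul_assoc])
  right_inv y := Subtype.ext (by simp [mul_assoc])
  map_mul' _ _ := Subtype.ext (by simp [mul_assoc])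
  continuous_toFun := ((continuous_const.mul continuous_subtype_val).mul
    continuous_const).subtype_mk _
  continuous_invFun := ((continuous_const.mul continuous_subtype_val).mul
    continuous_const).subtype_mk _

end Fermat.Agent.Neukirch

namespace FA.Summary

open FA.GalCoh Fermat.Agent.Neukirch

variable (F₁ F₂ : IntermediateField ℚ Qb) [FiniteDimensional ℚ F₁] [FiniteDimensional ℚ F₂]

/-- **Neukirch–Uchida**: an isomorphism of absolute Galois groups of number fields is induced by a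
unique isomorphism of the algebraic closures, which carries one field to the other. -/
theorem neukirchUchida (e : F₁.fixingSubgroup ≃* F₂.fixingSubgroup) (he : Continuous e) :
    ∃! g : GQ, F₁.map (g : Qb →ₐ[ℚ] Qb) = F₂ ∧
      ∀ x : F₁.fixingSubgroup, (e x : GQ) = g * x * g⁻¹ := by
  let σ := levelIsoOfContinuous (fixingSubgroup_mem_fieldLevels F₁)
    (fixingSubgroup_mem_fieldLevels F₂) e he
  obtain ⟨g, hg, huniq⟩ := σ.existsUnique_conj
  exact ⟨g, ⟨map_eq_of_conj F₁ F₂ (σ.mem_target_iff hg), hg⟩, fun g' hg' => huniq g' hg'.2⟩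

/-- **Number fields are determined by their absolute Galois groups.** -/
theorem neukirchUchida_iff :
    Nonempty (F₁.fixingSubgroup ≃ₜ* F₂.fixingSubgroup) ↔ Nonempty (F₁ ≃ₐ[ℚ] F₂) := by
  constructor
  · rintro ⟨e⟩
    obtain ⟨g, ⟨hg, -⟩, -⟩ := neukirchUchida F₁ F₂ e.toMulEquiv e.continuous
    exact ⟨(F₁.equivMap (g : Qb →ₐ[ℚ] Qb)).trans (IntermediateField.equivOfEq hg)⟩
  · rintro ⟨f⟩
    obtain ⟨g, hmap, -⟩ := exists_lift_map F₁ F₂ f
    exact ⟨conjFixEquiv hmap⟩

/-- **Neukirch–Uchida** for abstract number fields. -/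
theorem neukirchUchida_numberField_iff {K L : Type*} [Field K] [NumberField K] [Field L]
    [NumberField L] :
    Nonempty (Field.absoluteGaloisGroup K ≃ₜ* Field.absoluteGaloisGroup L) ↔
      Nonempty (K ≃+* L) := by
  let ιK : K →ₐ[ℚ] Qb := IsAlgClosed.lift
  let ιL : L →ₐ[ℚ] Qb := IsAlgClosed.lift
  obtain ⟨a⟩ := exists_absoluteGaloisGroup_equiv ιK
  obtain ⟨b⟩ := exists_absoluteGaloisGroup_equiv ιL
  let εK := AlgEquiv.ofInjectiveField ιK
  let εL := AlgEquiv.ofInjectiveField ιL
  have : FiniteDimensional ℚ ιK.fieldRange := εK.toLinearEquiv.finiteDimensional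
  have : FiniteDimensional ℚ ιL.fieldRange := εL.toLinearEquiv.finiteDimensional
  refine Iff.trans ?_ ((neukirchUchida_iff ιK.fieldRange ιL.fieldRange).trans ?_)
  · exact ⟨fun ⟨f⟩ => ⟨a.symm.trans (f.trans b)⟩, fun ⟨f⟩ => ⟨a.trans (f.trans b.symm)⟩⟩
  · exact ⟨fun ⟨f⟩ => ⟨((εK.trans f).trans εL.symm).toRingEquiv⟩, fun ⟨f⟩ =>
      ⟨εK.symm.trans (f.toRatAlgEquiv.trans εL)⟩⟩

/-- **Every continuous automorphism of the absolute Galois group of `ℚ` is inner**, in one way. -/
theorem absoluteGalois_rat_aut_inner (e : GQ ≃* GQ) (he : Continuous e) :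
    ∃! g : GQ, ∀ x, e x = g * x * g⁻¹ := by
  let e' : (⊤ : Subgroup GQ) ≃* (⊤ : Subgroup GQ) :=
    (Subgroup.topEquiv.trans e).trans Subgroup.topEquiv.symm
  obtain ⟨g, hg, huniq⟩ := (levelIsoOfContinuous LQ.top_mem LQ.top_mem e'
    ((he.comp continuous_subtype_val).subtype_mk _)).existsUnique_conj
  exact ⟨g, fun x => hg ⟨x, Subgroup.mem_top x⟩, fun g' hg' => huniq g' fun x => hg' x⟩

/-- **The centraliser of the Galois group of a number field in that of `ℚ` is trivial.** -/
theorem absoluteGalois_centralizer (F : IntermediateField ℚ Qb) [FiniteDimensional ℚ F] :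
    Subgroup.centralizer (F.fixingSubgroup : Set GQ) = ⊥ :=
  eq_bot_iff.2 fun _ hu => Subgroup.mem_bot.2 (eq_one_of_forall_commute
    (fixingSubgroup_mem_fieldLevels F) fun x hx => (Subgroup.mem_centralizer_iff.1 hu x hx).symm)

set_option maxHeartbeats 800000 in
-- composites of automorphisms of intermediate fields
/-- **Outer automorphisms**: the continuous automorphisms of the absolute Galois group of a number
field `F` map onto the automorphisms of `F`, and the kernel consists of the inner ones. -/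
theorem neukirchUchida_out (F : IntermediateField ℚ Qb) [FiniteDimensional ℚ F] :
    ∃ Θ : contAut F →* (F ≃ₐ[ℚ] F), Function.Surjective Θ ∧
      ∀ e, e ∈ Θ.ker ↔ ∃ h : F.fixingSubgroup, (e : MulAut F.fixingSubgroup) = MulAut.conj h := by
  choose g hg huniq using fun e : contAut F =>
    neukirchUchida F F (e : MulAut F.fixingSubgroup) e.2
  have hmul : ∀ a b, g (a * b) = g a * g b := fun a b => by
    refine (huniq (a * b) _ ⟨?_, fun x => ?_⟩).symm
    · rw [show ((g a * g b : GQ) : Qb →ₐ[ℚ] Qb)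
        = (g a : Qb →ₐ[ℚ] Qb).comp (g b : Qb →ₐ[ℚ] Qb) from rfl, ← IntermediateField.map_map,
        (hg b).1, (hg a).1]
    · show (((a : MulAut F.fixingSubgroup) ((b : MulAut F.fixingSubgroup) x)) : GQ) = _
      rw [(hg a).2, (hg b).2]
      group
  have hmem : ∀ (e : contAut F) (x : F), g e x ∈ F := fun e x => by
    have h : g e x ∈ F.map (g e : Qb →ₐ[ℚ] Qb) := ⟨x, x.2, rfl⟩
    rwa [(hg e).1] at h
  let θ : contAut F → (F ≃ₐ[ℚ] F) := fun e =>
    (F.equivMap (g e : Qb →ₐ[ℚ] Qb)).trans (IntermediateField.equivOfEq (hg e).1)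
  have hθ : ∀ e (x : F), (θ e x : Qb) = g e x := fun e x => rfl
  let Θ : contAut F →* (F ≃ₐ[ℚ] F) := MonoidHom.mk' θ fun a b => AlgEquiv.ext fun x =>
    Subtype.ext (by
      show (θ (a * b) x : Qb) = θ a (θ b x)
      rw [hθ, hθ, hθ, hmul]
      rfl)
  refine ⟨Θ, fun f => ?_, fun e => ⟨fun he => ?_, ?_⟩⟩
  · obtain ⟨s, hmap, hs⟩ := exists_lift_map F F f
    let e : contAut F := ⟨(conjFixEquiv hmap).toMulEquiv, (conjFixEquiv hmap).continuous⟩
    refine ⟨e, AlgEquiv.ext fun x => Subtype.ext ?_⟩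
    show (θ e x : Qb) = f x
    rw [hθ, ← huniq e s ⟨hmap, fun x => rfl⟩, hs]
  · have hfix : g e ∈ F.fixingSubgroup := (IntermediateField.mem_fixingSubgroup_iff _ _).2
      fun x hx => by
        have h1 := congrArg Subtype.val (AlgEquiv.congr_fun (MonoidHom.mem_ker.1 he) ⟨x, hx⟩)
        exact h1
    exact ⟨⟨g e, hfix⟩, MulEquiv.ext fun x => Subtype.ext ((hg e).2 x)⟩
  · rintro ⟨h, hh⟩
    refine MonoidHom.mem_ker.2 (AlgEquiv.ext fun x => Subtype.ext ?_)
    show (θ e x : Qb) = x
    have h1 : (h : GQ) = g e := huniq e h ⟨?_, fun y => by rw [hh]; rfl⟩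
    · rw [hθ, ← h1]
      exact (IntermediateField.mem_fixingSubgroup_iff _ _).1 h.2 x x.2
    · refine SetLike.ext fun y => ⟨?_, fun hy => ?_⟩
      · rintro ⟨z, hz, rfl⟩
        show (h : GQ) z ∈ F
        rw [(IntermediateField.mem_fixingSubgroup_iff _ _).1 h.2 z hz]
        exact hz
      · exact ⟨y, hy, (IntermediateField.mem_fixingSubgroup_iff _ _).1 h.2 y hy⟩

end FA.Summary
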