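import Fermat.Agent.OpenImageAll.Irreducible
import Fermat.Agent.Root.SummaryOpenImageJConsequences

/-!
# Finitely many cyclic stable subgroups, for every elliptic curve over `ℚ`

The Tate modules have no stable line, and the prime degrees of rational isogenies are bounded: so
the finite cyclic subgroups stable under Galois have bounded order and are finite in number,
equivalently there are finitely many cyclic isogenies defined over `ℚ`. No condition is placed on
the curve.
-/

set_option autoImplicit false
set_option linter.unusedSectionVars false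
set_option linter.style.haveILetI false

noncomputable section

open WeierstrassCurve WeierstrassCurve.Affine FA.EC FA.Frob FA.RT
open scoped WeierstrassCurve.Affine

namespace FA.Summary

/-- **Cyclic Galois stable subgroups have bounded order** on every elliptic curve over `ℚ`. -/
theorem cyclicStableSubgroup_card_dvd_all (E : WeierstrassCurve ℚ) [E.IsElliptic]
    [inst : DecidableEq (AlgebraicClosure ℚ)] :
    ∃ m : ℕ, 0 < m ∧ ∀ G : AddSubgroup (E.toAffine⁄(AlgebraicClosure ℚ)).Point, Finite G →
      IsAddCyclic G → (∀ σ : AlgebraicClosure ℚ ≃ₐ[ℚ] AlgebraicClosure ℚ, ∀ P ∈ G,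
        Affine.Point.map σ.toAlgHom P ∈ G) → Nat.card G ∣ m := by
  obtain rfl : inst = instDecEqAlgebraicClosureRat := Subsingleton.elim _ _
  by_cases h : ∃ q : ℕ, q.Prime ∧ padicValRat q E.j < 0
  · exact cyclicStableSubgroup_card_dvd_of_pole E h
  push Not at h
  obtain ⟨W, hW⟩ := FA.Frob.exists_integralModel E
  haveI := FA.Frob.ratCurve_isElliptic_of_Δ (FA.Frob.Δ_ne_zero_of_model hW)
  have hjW : (ratCurve W).j = E.j := FA.OggShafarevich.j_ratCurve hW
  obtain ⟨m, hm, key⟩ := FA.OpenImageAll.exists_stable_bound fun _ _ B =>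
    FA.OpenImageAll.noStableLine_of_integral B fun q hq => hjW ▸ h q hq
  obtain ⟨e, he⟩ := FA.Root.exists_equiv_of_model hW
  exact ⟨m, hm, FA.IsogenyBound.card_dvd_of_equiv e (fun σ P => σ • P) _
    (fun σ P => Or.inl (he σ P).symm) key⟩

/-- **Finitely many cyclic Galois stable subgroups** on every elliptic curve over `ℚ`. -/
theorem finite_cyclicStableSubgroups_all (E : WeierstrassCurve ℚ) [E.IsElliptic]
    [inst : DecidableEq (AlgebraicClosure ℚ)] :
    {G : AddSubgroup (E.toAffine⁄(AlgebraicClosure ℚ)).Point | Finite G ∧ IsAddCyclic G ∧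
      ∀ σ : AlgebraicClosure ℚ ≃ₐ[ℚ] AlgebraicClosure ℚ, ∀ P ∈ G,
        Affine.Point.map σ.toAlgHom P ∈ G}.Finite := by
  obtain rfl : inst = instDecEqAlgebraicClosureRat := Subsingleton.elim _ _
  obtain ⟨m, hm, key⟩ := cyclicStableSubgroup_card_dvd_all E
  exact FA.IsogenyBound.finite_of_card_dvd hm _ fun G hG => key G hG.1 hG.2.1 hG.2.2

/-- **The Tate module at `p` has no stable line**: the orders of the points of `p`-power order
generating subgroups stable under Galois are bounded, for every prime `p`. -/
theorem exists_bound_stable_primePow (E : WeierstrassCurve ℚ) [E.IsElliptic]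
    [inst : DecidableEq (AlgebraicClosure ℚ)] {p : ℕ} (hp : p.Prime) :
    ∃ n : ℕ, ∀ (v : ℕ) (P : (E.toAffine⁄(AlgebraicClosure ℚ)).Point), addOrderOf P = p ^ v →
      (∀ σ : AlgebraicClosure ℚ ≃ₐ[ℚ] AlgebraicClosure ℚ,
        Affine.Point.map σ.toAlgHom P ∈ AddSubgroup.zmultiples P) → v ≤ n := by
  obtain rfl : inst = instDecEqAlgebraicClosureRat := Subsingleton.elim _ _
  obtain ⟨m, hm, key⟩ := cyclicStableSubgroup_card_dvd_all E
  refine ⟨m.factorization p, fun v P hP hst => (hp.pow_dvd_iff_le_factorization hm.ne').mp ?_⟩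
  rw [← hP, ← Nat.card_zmultiples]
  refine key _ (Nat.finite_of_card_ne_zero ?_) inferInstance fun σ Q hQ => ?_
  · rw [Nat.card_zmultiples, hP]
    exact pow_ne_zero _ hp.ne_zero
  · obtain ⟨t, rfl⟩ := AddSubgroup.mem_zmultiples_iff.mp hQ
    rw [map_zsmul]
    exact AddSubgroup.zsmul_mem _ (hst σ) t

end FA.Summary

end
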