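import Fermat.Agent.Root.SummaryFaltings
import Fermat.Agent.Root.SummaryTateIsogeny
import Fermat.Agent.Root.SummaryIrreducibleTate
import Fermat.Agent.Root.SummaryOpenImageAll

/-!
# The isogeny theorem in Galois form, for all elliptic curves over `ℚ`

On every Tate module no line is stable and complex conjugation has eigenvalues `1` and `-1`, so
the image spans all matrices over `ℚ_p`, complex multiplication or not. Hence any two elliptic
curves over `ℚ` with the same `a_q` at almost all primes have at every prime a Galois equivariant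
surjection with finite kernel between their groups of points of `p`-power order (isomorphic
rational Tate modules), and for a finite set `S` finitely many curves represent in this sense all
curves with good reduction outside `S` (Faltings).
-/

set_option autoImplicit false
set_option linter.unusedSectionVars false
set_option linter.style.haveILetI false

noncomputable section

open Matrix WeierstrassCurve WeierstrassCurve.Affine FA.EC FA.Frob FA.RT FA.RT.Tate
open FA.OpenImageJ (NoStableLine)
open scoped WeierstrassCurve.Affine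

local notation "Qb" => AlgebraicClosure ℚ
local notation "GQ" => AlgebraicClosure ℚ ≃ₐ[ℚ] AlgebraicClosure ℚ
local notation "M2" => Matrix (Fin 2) (Fin 2)

namespace FA.TateIsogenyAll

section Algebra

variable {k : Type*} [Field k]

/-- An involution other than `1` fixes no two independent vectors. -/
theorem exists_smul_of_fixed {C : M2 k} (hC : C ≠ 1) {v w : Fin 2 → k} (hv : v ≠ 0)
    (h1 : C *ᵥ v = v) (h2 : C *ᵥ w = w) : ∃ a : k, w = a • v := by
  by_contra hcon
  push Not at hcon
  have hli : LinearIndependent k ![v, w] :=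
    LinearIndependent.pair_iff' hv |>.mpr fun a e => hcon a e.symm
  refine hC (Matrix.toLin'.injective ((LinearMap.ext_on_range (v := ![v, w]) (f := Matrix.toLin' C)
    (g := LinearMap.id) (hli.span_eq_top_of_card_eq_finrank (by simp)) fun i => ?_).trans
      Matrix.toLin'_one.symm))
  fin_cases i
  exacts [h1, h2]

/-- If the projection to one eigenline of an involution followed by the group never reaches the
other eigenline, the first eigenline is stable. -/
theorem exists_mul_mul_ne_zero {G : Type*} [Group G] (r : G →* M2 k) {C : M2 k}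
    (hC : C * C = 1) (hC1 : C ≠ 1) (hC' : C ≠ -1)
    (hline : ∀ v : Fin 2 → k, v ≠ 0 → ∃ g, ∀ a : k, r g *ᵥ v ≠ a • v) :
    ∃ g, (1 - C) * r g * (1 + C) ≠ 0 := by
  by_contra hcon
  push Not at hcon
  obtain ⟨u, hu⟩ : ∃ u : Fin 2 → k, (1 + C) *ᵥ u ≠ 0 := by
    by_contra h
    push Not at h
    refine hC' (eq_neg_of_add_eq_zero_right (Matrix.ext_iff_mulVec.mpr fun u => ?_))
    rw [h u, zero_mulVec]
  set v := (1 + C) *ᵥ u with hvdef
  have hfix : C *ᵥ v = v := by
    rw [hvdef, mulVec_mulVec, mul_add, mul_one, hC, add_comm]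
  obtain ⟨g, hg⟩ := hline v hu
  have h0 : (1 - C) *ᵥ (r g *ᵥ v) = 0 := by
    rw [mulVec_mulVec, hvdef, mulVec_mulVec, hcon g, zero_mulVec]
  rw [sub_mulVec, one_mulVec, sub_eq_zero] at h0
  obtain ⟨a, ha⟩ := exists_smul_of_fixed hC1 hu hfix h0.symm
  exact hg a ha

/-- **Absolute irreducibility**: no stable line and an element of square one and determinant `-1`
make the image span all matrices. -/
theorem span_eq_top (h2 : (2 : k) ≠ 0) {G : Type*} [Group G] (r : G →* M2 k) {c : G}
    (hc : c * c = 1) (hdet : (r c).det = -1)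
    (hline : ∀ v : Fin 2 → k, v ≠ 0 → ∃ g, ∀ a : k, r g *ᵥ v ≠ a • v) :
    Submodule.span k (Set.range r) = ⊤ := by
  set S := Submodule.span k (Set.range r)
  have hmem : ∀ g, r g ∈ S := fun g => Submodule.subset_span ⟨g, rfl⟩
  have hmul : ∀ a ∈ S, ∀ b ∈ S, a * b ∈ S := by
    intro a ha b hb
    induction ha, hb using Submodule.span_induction₂ with
    | mem_mem x y hx hy =>
      obtain ⟨g, rfl⟩ := hx
      obtain ⟨g', rfl⟩ := hy
      rw [← map_mul]
      exact hmem _
    | zero_left => simp
    | zero_right => simp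
    | add_left x y z _ _ _ hx hy => rw [add_mul]; exact S.add_mem hx hy
    | add_right x y z _ _ _ hx hy => rw [mul_add]; exact S.add_mem hx hy
    | smul_left a x y _ _ hx => rw [smul_mul_assoc]; exact S.smul_mem a hx
    | smul_right a x y _ _ hx => rw [mul_smul_comm]; exact S.smul_mem a hx
  set C := r c
  have hC : C * C = 1 := by rw [← map_mul, hc, map_one]
  have hdet1 : (-1 : M2 k).det = 1 := by simp [det_fin_two]
  have hne : (1 : k) ≠ -1 := fun h => h2 (by linear_combination h)
  have hC1 : C ≠ 1 := fun h => hne (by rw [← hdet, h, det_one])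
  have hC' : C ≠ -1 := fun h => hne (by rw [← hdet, h, hdet1])
  set P := 1 + C with hP
  set Q := 1 - C with hQ
  have h1 : (1 : M2 k) ∈ S := map_one r ▸ hmem 1
  have hPS : P ∈ S := S.add_mem h1 (hmem c)
  have hQS : Q ∈ S := S.sub_mem h1 (hmem c)
  obtain ⟨g, hg⟩ := exists_mul_mul_ne_zero r hC hC1 hC' hline
  obtain ⟨g', hg'⟩ := exists_mul_mul_ne_zero r (C := -C) (by rw [neg_mul_neg, hC])
    (fun h => hC' (by rw [← h, neg_neg])) (fun h => hC1 (neg_injective h)) hline
  rw [sub_neg_eq_add, ← sub_eq_add_neg, ← hP, ← hQ] at hg'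
  rw [← hP, ← hQ] at hg
  have hPP : P * P = (2 : k) • P := by
    rw [hP, two_smul, mul_add, add_mul, add_mul, hC]; simp only [mul_one, one_mul]; abel
  have hQQ : Q * Q = (2 : k) • Q := by
    rw [hQ, two_smul, mul_sub, sub_mul, sub_mul, hC]; simp only [mul_one, one_mul]; abel
  have hPQ : P * Q = 0 := by
    rw [hP, hQ, mul_sub, add_mul, add_mul, hC]; simp only [mul_one, one_mul]; abel
  have hQP : Q * P = 0 := by
    rw [hP, hQ, mul_add, sub_mul, sub_mul, hC]; simp only [mul_one, one_mul]; abel
  have hPP' : ∀ x, x * P * P = (2 : k) • (x * P) := fun x => by rw [mul_assoc, hPP, mul_smul_comm]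
  have hQQ' : ∀ x, x * Q * Q = (2 : k) • (x * Q) := fun x => by rw [mul_assoc, hQQ, mul_smul_comm]
  have hPQ' : ∀ x, x * P * Q = 0 := fun x => by rw [mul_assoc, hPQ, mul_zero]
  have hQP' : ∀ x, x * Q * P = 0 := fun x => by rw [mul_assoc, hQP, mul_zero]
  let X := Q * r g * P
  let Y := P * r g' * Q
  have hfour : LinearIndependent k ![P, Q, X, Y] := by
    refine Fintype.linearIndependent_iff.mpr fun a ha => ?_
    simp only [Fin.sum_univ_four, Matrix.cons_val_zero, Matrix.cons_val_one, Matrix.cons_val] at ha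
    have key : ∀ L R : M2 k, L * (a 0 • P + a 1 • Q + a 2 • X + a 3 • Y) * R = 0 := fun L R => by
      rw [ha, mul_zero, zero_mul]
    have h4 : ((2 : k) * 2) ≠ 0 := mul_ne_zero h2 h2
    have e0 := key P P
    have e1 := key Q Q
    have e2 := key Q P
    have e3 := key P Q
    simp only [X, Y, mul_add, add_mul, mul_smul_comm, smul_mul_assoc, ← mul_assoc, hPP, hQQ, hPQ,
      hQP, hPP', hQQ', hPQ', hQP', zero_mul, smul_zero, add_zero, zero_add, smul_smul]
      at e0 e1 e2 e3
    intro i
    fin_cases i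
    · rcases smul_eq_zero.mp e0 with h | h
      · simpa [h2] using h
      · exact absurd h (fun h' => hC' (eq_neg_of_add_eq_zero_right h'))
    · rcases smul_eq_zero.mp e1 with h | h
      · simpa [h2] using h
      · exact absurd (sub_eq_zero.mp h).symm hC1
    · rcases smul_eq_zero.mp e2 with h | h
      · simpa [h2] using h
      · exact absurd h hg
    · rcases smul_eq_zero.mp e3 with h | h
      · simpa [h2] using h
      · exact absurd h hg'
  refine eq_top_iff.mpr ?_
  rw [← hfour.span_eq_top_of_card_eq_finrank (by simp [Module.finrank_matrix]), Submodule.span_le]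
  rintro _ ⟨i, rfl⟩
  fin_cases i
  exacts [hPS, hQS, hmul _ (hmul _ hQS _ (hmem g)) _ hPS, hmul _ (hmul _ hPS _ (hmem g')) _ hQS]

end Algebra

variable {p : ℕ} [hp : Fact p.Prime] {W W' : WeierstrassCurve ℤ} [(ratCurve W).IsElliptic]
  [(ratCurve W').IsElliptic]

/-- **No Tate module of any elliptic curve over `ℚ` has a stable line.** -/
theorem noStableLine_all (B : TateBasis p W) : NoStableLine B := by
  by_contra hline
  obtain ⟨e, i, χ, hi, hχ⟩ := FA.OpenImageJ.exists_character_of_not_noStableLine hline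
  obtain ⟨n, hn⟩ := FA.Summary.exists_bound_stable_primePow (ratCurve W) hp.out
  have hord : addOrderOf (B.φ (n + 1) e) = p ^ (n + 1) := by
    refine addOrderOf_eq_prime_pow (fun h => ?_) (B.nsmul_phi _ _)
    rw [← map_nsmul, B.ker] at h
    have h1 := h i
    rw [Pi.smul_apply, hi, nsmul_one, map_natCast, ZMod.natCast_eq_zero_iff] at h1
    rw [Nat.pow_dvd_pow_iff_le_right hp.out.one_lt] at h1
    omega
  have := hn (n + 1) (B.φ (n + 1) e) hord fun σ => by
    refine AddSubgroup.mem_zmultiples_iff.mpr ⟨((PadicInt.toZModPow (n + 1) (χ σ)).val : ℕ), ?_⟩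
    show ((((PadicInt.toZModPow (n + 1) (χ σ)).val : ℕ) : ℤ)) • B.φ (n + 1) e =
      σ • B.φ (n + 1) e
    rw [B.rep_spec, hχ σ, natCast_zsmul, ← map_nsmul, B.phi_eq_iff]
    intro j
    have : NeZero (p ^ (n + 1)) := ⟨pow_ne_zero _ hp.out.ne_zero⟩
    simp [nsmul_eq_mul]
  omega

/-- The image of Galois spans all matrices over `ℚ_p`. -/
theorem span_rep_eq_top (B : TateBasis p W) :
    Submodule.span ℚ_[p]
      (Set.range ((PadicInt.Coe.ringHom.mapMatrix : M2 ℤ_[p] →+* M2 ℚ_[p]).toMonoidHom.comp B.rep)) =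
      ⊤ := by
  let ι : ℤ_[p] →+* ℚ_[p] := PadicInt.Coe.ringHom
  have hι : Function.Injective ι := Subtype.val_injective
  refine span_eq_top two_ne_zero _ complexConjugation_mul_self ?_ fun v hv => ?_
  · show (ι.mapMatrix (B.rep _)).det = -1
    rw [← RingHom.map_det, B.det_rep, FA.TorsionField.cycP_complexConjugation, map_neg, map_one]
  obtain ⟨⟨b, hb⟩, hint⟩ :=
    IsLocalization.exist_integer_multiples_of_finite (nonZeroDivisors ℤ_[p]) v
  choose e he using hint
  have hb0 : ι b ≠ 0 := fun h => nonZeroDivisors.ne_zero hb (hι (by rw [h, map_zero]))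
  have he' : ι ∘ e = ι b • v := funext fun i => by
    rw [Function.comp_apply, Pi.smul_apply]
    exact (he i).trans (Algebra.smul_def b (v i))
  obtain ⟨g, hg⟩ := noStableLine_all B e fun h0 => hv (funext fun i => by
    have h1 := congrFun he' i
    rw [h0, Function.comp_apply, Pi.zero_apply, map_zero, eq_comm, Pi.smul_apply, smul_eq_mul,
      mul_eq_zero] at h1
    exact h1.resolve_left hb0)
  refine ⟨g, fun a ha => hg (hι ?_)⟩
  have hc : ∀ i, ι ((B.rep g *ᵥ e) i) = a * ι (e i) := fun i => by
    rw [RingHom.map_mulVec ι (B.rep g) e i, he', mulVec_smul]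
    show (ι b • ((B.rep g).map ι *ᵥ v)) i = _
    rw [show (B.rep g).map ι *ᵥ v = a • v from ha]
    have h1 := congrFun he' i
    rw [Function.comp_apply] at h1
    rw [h1, Pi.smul_apply, Pi.smul_apply, Pi.smul_apply, smul_eq_mul, smul_eq_mul, smul_eq_mul]
    ring
  rw [map_sub, map_mul, map_mul, hc, hc, map_zero]
  ring

/-- An integral matrix of nonzero determinant commuting with Galois, from equal traces. -/
theorem exists_matrix_all (B : TateBasis p W) (B' : TateBasis p W')
    (htr : ∀ σ, (B.rep σ).trace = (B'.rep σ).trace) :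
    ∃ P : M2 ℤ_[p], P.det ≠ 0 ∧ ∀ σ, B'.rep σ * P = P * B.rep σ :=
  FA.TateIsogeny.exists_matrix_of_span B B' (span_rep_eq_top B) htr

end FA.TateIsogenyAll

namespace FA.Summary

open FA.TateIsogenyAll FA.TateIsogeny

/-- **The isogeny theorem in Galois form**: if two elliptic curves over `ℚ`, with no condition on
the reduction or the invariant, have the same `a_q` at almost all primes, then for every prime `p`
there is a Galois equivariant surjection with finite kernel from the points of `p`-power order of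
the one to those of the other. -/
theorem tateIsogeny_of_traces_all (E E' : WeierstrassCurve ℚ) [E.IsElliptic] [E'.IsElliptic]
    (S : Finset ℕ) (heq : ∀ q : ℕ, q.Prime → q ∉ S → E.LFunction q = E'.LFunction q)
    [inst : DecidableEq (AlgebraicClosure ℚ)] {p : ℕ} (hp : p.Prime) :
    ∃ f : AddCommGroup.primaryComponent (E.toAffine⁄(AlgebraicClosure ℚ)).Point p →+
        AddCommGroup.primaryComponent (E'.toAffine⁄(AlgebraicClosure ℚ)).Point p,
      Function.Surjective f ∧ Finite f.ker ∧
        ∀ (σ : AlgebraicClosure ℚ ≃ₐ[ℚ] AlgebraicClosure ℚ) P Q,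
          Affine.Point.map σ.toAlgHom P.1 = Q.1 →
            Affine.Point.map σ.toAlgHom (f P).1 = (f Q).1 := by
  obtain rfl : inst = instDecEqAlgebraicClosureRat := Subsingleton.elim _ _
  obtain ⟨W, hW⟩ := FA.Frob.exists_integralModel E
  obtain ⟨W', hW'⟩ := FA.Frob.exists_integralModel E'
  have hΔ := FA.Frob.Δ_ne_zero_of_model hW
  have hΔ' := FA.Frob.Δ_ne_zero_of_model hW'
  haveI := FA.Frob.ratCurve_isElliptic_of_Δ hΔ
  haveI := FA.Frob.ratCurve_isElliptic_of_Δ hΔ'
  haveI := Fact.mk hp
  obtain ⟨B⟩ := exists_tateBasis (p := p) W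
  obtain ⟨B'⟩ := exists_tateBasis (p := p) W'
  obtain ⟨P, hP, hcomm⟩ := exists_matrix_all B B'
    (FA.TorsionIso.trace_rep_eq_of_LFunction hW hW' B B' S heq)
  exact exists_hom_of_models hW hW' (exists_hom B B' hP hcomm)

/-- **Equal traces at almost all primes are equal at all common good primes.** -/
theorem traces_eq_of_almost_all (E E' : WeierstrassCurve ℚ) [E.IsElliptic] [E'.IsElliptic]
    (S : Finset ℕ) (heq : ∀ q : ℕ, q.Prime → q ∉ S → E.LFunction q = E'.LFunction q)
    {q : ℕ} [hq : Fact q.Prime]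
    (h : ∃ C : VariableChange ℚ_[q], HasGoodReduction ℤ_[q] (C • E.map (algebraMap ℚ ℚ_[q])))
    (h' : ∃ C : VariableChange ℚ_[q], HasGoodReduction ℤ_[q] (C • E'.map (algebraMap ℚ ℚ_[q]))) :
    E.LFunction q = E'.LFunction q := by
  obtain ⟨W, hW, hd⟩ := FA.CM.Deuring.exists_model_not_dvd E h
  obtain ⟨W', hW', hd'⟩ := FA.CM.Deuring.exists_model_not_dvd E' h'
  have hΔ := FA.Frob.Δ_ne_zero_of_model hW
  have hΔ' := FA.Frob.Δ_ne_zero_of_model hW'
  haveI := FA.Frob.ratCurve_isElliptic_of_Δ hΔ
  haveI := FA.Frob.ratCurve_isElliptic_of_Δ hΔ'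
  obtain ⟨p, hpq, hp⟩ := Nat.exists_infinite_primes (q + 1)
  haveI := Fact.mk hp
  obtain ⟨B⟩ := exists_tateBasis (p := p) W
  obtain ⟨B'⟩ := exists_tateBasis (p := p) W'
  obtain ⟨A, hA⟩ := FA.Deform.exists_liesOverPrime hq.out
  obtain ⟨σ, hσ⟩ := FA.Deform.exists_isFrobeniusAt hq.out hA
  have htr := FA.TorsionIso.trace_rep_eq_of_LFunction hW hW' B B' S heq σ
  rw [(B.rep_frobenius hq.out hA (by omega) hd hσ).1,
    (B'.rep_frobenius hq.out hA (by omega) hd' hσ).1, Int.cast_inj] at htr
  rw [FA.Root.LFunction_apply_prime E W hW hq.out hd,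
    FA.Root.LFunction_apply_prime E' W' hW' hq.out hd', htr]

/-- **Faltings' finiteness for the Galois representations of elliptic curves**: for a finite set
`S` there are finitely many elliptic curves such that every elliptic curve over `ℚ` with good
reduction outside `S` has, for one of them and every prime `p`, a Galois equivariant surjection
with finite kernel onto it on the points of `p`-power order (isomorphic rational Tate modules). -/
theorem finite_tateModules (S : Finset ℕ) [inst : DecidableEq (AlgebraicClosure ℚ)] :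
    ∃ L : Set (WeierstrassCurve ℚ), L.Finite ∧
      ∀ (E : WeierstrassCurve ℚ) [E.IsElliptic],
        (∀ p : ℕ, ∀ [Fact p.Prime], p ∉ S → ∃ C : VariableChange ℚ_[p],
          HasGoodReduction ℤ_[p] (C • E.map (algebraMap ℚ ℚ_[p]))) →
        ∃ E₀ ∈ L, E₀.IsElliptic ∧ ∀ p : ℕ, p.Prime →
          ∃ f : AddCommGroup.primaryComponent (E.toAffine⁄(AlgebraicClosure ℚ)).Point p →+
              AddCommGroup.primaryComponent (E₀.toAffine⁄(AlgebraicClosure ℚ)).Point p,
            Function.Surjective f ∧ Finite f.ker ∧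
              ∀ (σ : AlgebraicClosure ℚ ≃ₐ[ℚ] AlgebraicClosure ℚ) P Q,
                Affine.Point.map σ.toAlgHom P.1 = Q.1 →
                  Affine.Point.map σ.toAlgHom (f P).1 = (f Q).1 := by
  classical
  let Good : WeierstrassCurve ℚ → Prop := fun E => ∃ _ : E.IsElliptic,
    ∀ p : ℕ, ∀ [Fact p.Prime], p ∉ S → ∃ C : VariableChange ℚ_[p],
      HasGoodReduction ℤ_[p] (C • E.map (algebraMap ℚ ℚ_[p]))
  let pick : ArithmeticFunction ℤ → WeierstrassCurve ℚ := fun L =>
    if h : ∃ E, Good E ∧ E.LFunction = L then h.choose else ⟨0, 0, 0, 0, 0⟩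
  refine ⟨pick '' {L | ∃ (E : WeierstrassCurve ℚ) (_ : E.IsElliptic),
    (∀ p : ℕ, ∀ [Fact p.Prime], p ∉ S → ∃ C : VariableChange ℚ_[p],
      HasGoodReduction ℤ_[p] (C • E.map (algebraMap ℚ ℚ_[p]))) ∧ E.LFunction = L},
    (finite_LFunctions S).image pick, fun E _ hg => ?_⟩
  have hex : ∃ E', Good E' ∧ E'.LFunction = E.LFunction := ⟨E, ⟨inferInstance, hg⟩, rfl⟩
  obtain ⟨⟨hE₀, -⟩, heq⟩ : Good hex.choose ∧ hex.choose.LFunction = E.LFunction := hex.choose_spec
  refine ⟨hex.choose, ⟨E.LFunction, ⟨E, inferInstance, hg, rfl⟩, by simp [pick, dif_pos hex]⟩,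
    hE₀, fun p hp => ?_⟩
  exact tateIsogeny_of_traces_all E hex.choose ∅ (fun q _ _ => by rw [heq]) hp

end FA.Summary

end
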