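import Fermat.Agent.Transcendence.HermiteLindemann
import Mathlib.Analysis.SpecialFunctions.Trigonometric.Basic
import Mathlib.Analysis.SpecialFunctions.Complex.Log

/-!
# Transcendence of `e` and `π`

* `hermite_lindemann`: `exp α` is transcendental for every algebraic `α ≠ 0`.
* `transcendental_e` (Hermite), `transcendental_pi` (Lindemann), `squaring_the_circle`: `√π` lies
  in no finite extension of `ℚ`.
* `transcendental_log`, `transcendental_sin`, `transcendental_cos`: logarithms of algebraic numbers
  other than `1`, and sines and cosines of algebraic numbers other than `0`, are transcendental.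
-/

set_option autoImplicit false
set_option linter.style.haveILetI false

noncomputable section

open scoped Real

namespace FA.Summary

/-- **Hermite–Lindemann.** -/
theorem hermite_lindemann {α : ℂ} (hα : α ≠ 0) (halg : IsAlgebraic ℚ α) :
    Transcendental ℚ (Complex.exp α) :=
  FA.HermiteLindemann.transcendental_exp hα halg

/-- **Hermite**: `e` is transcendental. -/
theorem transcendental_e : Transcendental ℚ (Real.exp 1) := by
  intro h
  have h2 : IsAlgebraic ℚ (Complex.exp 1) := by
    rw [← Complex.ofReal_one, ← Complex.ofReal_exp]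
    exact h.algebraMap (A := ℂ)
  exact hermite_lindemann one_ne_zero isAlgebraic_one h2

/-- **Lindemann**: `π` is transcendental. -/
theorem transcendental_pi : Transcendental ℚ π := by
  intro h
  have hI : IsAlgebraic ℚ Complex.I :=
    (IsIntegral.of_pow two_pos (by rw [Complex.I_sq]; exact isIntegral_one.neg)).isAlgebraic
  have hα : IsAlgebraic ℚ ((π : ℂ) * Complex.I) := (h.algebraMap (A := ℂ)).mul hI
  refine hermite_lindemann
    (mul_ne_zero (Complex.ofReal_ne_zero.2 Real.pi_ne_zero) Complex.I_ne_zero) hα ?_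
  rw [Complex.exp_pi_mul_I]
  exact isAlgebraic_one.neg

/-- **The circle cannot be squared**: `√π` lies in no finite extension of `ℚ`. -/
theorem squaring_the_circle (K : IntermediateField ℚ ℝ) [FiniteDimensional ℚ K] : √π ∉ K := by
  intro h
  have h2 : IsAlgebraic ℚ (√π ^ 2) :=
    ((Algebra.IsAlgebraic.isAlgebraic (⟨√π, h⟩ : K)).algebraMap (A := ℝ)).pow 2
  rw [Real.sq_sqrt Real.pi_pos.le] at h2
  exact transcendental_pi h2

/-- **Logarithms of algebraic numbers.** -/
theorem transcendental_log {x : ℂ} (h0 : x ≠ 0) (h1 : x ≠ 1) (halg : IsAlgebraic ℚ x) :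
    Transcendental ℚ (Complex.log x) := fun h =>
  hermite_lindemann (fun hl => h1 (by rw [← Complex.exp_log h0, hl, Complex.exp_zero])) h
    (by rwa [Complex.exp_log h0])

/-- **Real logarithms.** -/
theorem transcendental_real_log {x : ℝ} (h0 : 0 < x) (h1 : x ≠ 1) (halg : IsAlgebraic ℚ x) :
    Transcendental ℚ (Real.log x) := fun h => by
  have h2 : IsAlgebraic ℚ ((Real.log x : ℝ) : ℂ) := h.algebraMap (A := ℂ)
  refine transcendental_log (Complex.ofReal_ne_zero.2 h0.ne')
    (fun e => h1 (by exact_mod_cast e)) (halg.algebraMap (A := ℂ)) ?_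
  rwa [← Complex.ofReal_log h0.le]

/-- Exponentials from sines and cosines. -/
theorem isAlgebraic_exp_mul_I {x : ℂ}
    (h : IsAlgebraic ℚ (Complex.sin x) ∨ IsAlgebraic ℚ (Complex.cos x)) :
    IsAlgebraic ℚ (Complex.exp (x * Complex.I)) := by
  have hI : IsAlgebraic ℚ Complex.I :=
    (IsIntegral.of_pow two_pos (by rw [Complex.I_sq]; exact isIntegral_one.neg)).isAlgebraic
  have hsq := Complex.sin_sq_add_cos_sq x
  obtain ⟨hs, hc⟩ : IsAlgebraic ℚ (Complex.sin x) ∧ IsAlgebraic ℚ (Complex.cos x) := by
    rcases h with h | h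
    · refine ⟨h, IsAlgebraic.of_pow two_pos ?_⟩
      rw [show Complex.cos x ^ 2 = 1 - Complex.sin x ^ 2 by linear_combination hsq]
      exact isAlgebraic_one.sub (h.pow 2)
    · refine ⟨IsAlgebraic.of_pow two_pos ?_, h⟩
      rw [show Complex.sin x ^ 2 = 1 - Complex.cos x ^ 2 by linear_combination hsq]
      exact isAlgebraic_one.sub (h.pow 2)
  rw [Complex.exp_mul_I]
  exact hc.add (hs.mul hI)

/-- **Sines of algebraic numbers.** -/
theorem transcendental_sin {x : ℂ} (h0 : x ≠ 0) (halg : IsAlgebraic ℚ x) :
    Transcendental ℚ (Complex.sin x) := fun h =>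
  hermite_lindemann (mul_ne_zero h0 Complex.I_ne_zero) (halg.mul
    (IsIntegral.of_pow two_pos (by rw [Complex.I_sq]; exact isIntegral_one.neg)).isAlgebraic)
    (isAlgebraic_exp_mul_I (Or.inl h))

/-- **Cosines of algebraic numbers.** -/
theorem transcendental_cos {x : ℂ} (h0 : x ≠ 0) (halg : IsAlgebraic ℚ x) :
    Transcendental ℚ (Complex.cos x) := fun h =>
  hermite_lindemann (mul_ne_zero h0 Complex.I_ne_zero) (halg.mul
    (IsIntegral.of_pow two_pos (by rw [Complex.I_sq]; exact isIntegral_one.neg)).isAlgebraic)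
    (isAlgebraic_exp_mul_I (Or.inr h))

end FA.Summary

end
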