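import Fermat.Agent.GoodReduction.Coinvariants

/-!
# The L-function of an elliptic curve is the L-function of its Galois representation

For every elliptic curve over `ℚ`, every prime `q` and every prime `p ≠ q`, the Euler factor at `q`
of the L-function is `det (1 - X F | V_I)`, `V_I` the coinvariants of inertia at `q` in
`V = T_p E ⊗ ℚ_p` and `F` an arithmetic Frobenius. This holds at the bad primes too, and the
dimension `2, 1, 0` of `V_I` is good, multiplicative, additive reduction.
-/

set_option autoImplicit false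
set_option linter.style.haveILetI false
set_option linter.unusedSectionVars false

noncomputable section

open WeierstrassCurve WeierstrassCurve.Affine FA.Frob FA.RT.Tate FA.GoodReduction
open scoped WeierstrassCurve.Affine

local notation "Qb" => AlgebraicClosure ℚ
local notation "GQ" => AlgebraicClosure ℚ ≃ₐ[ℚ] AlgebraicClosure ℚ

namespace FA.GoodReduction

variable {E : WeierstrassCurve ℚ} [E.IsElliptic] {p : ℕ} [Fact p.Prime] {W : WeierstrassCurve ℤ}
  [(ratCurve W).IsElliptic] {q : ℕ} [Fact q.Prime] {A : ValuationSubring Qb}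

/-- The Euler factor inverts the coefficients at the powers of `q`. -/
def InvertsLFunction (E : WeierstrassCurve ℚ) (q : ℕ) (P : Polynomial ℚ_[p]) : Prop :=
  PowerSeries.mk (fun k => (E.LFunction (q ^ k) : ℚ_[p])) * (P : PowerSeries ℚ_[p]) = 1

/-- The three reduction types and their coinvariants. -/
theorem coinv_cases (hW : W.IsIntegralModelOf E) (B : TateBasis p W) (hA : A.LiesOverPrime q)
    (hqp : q ≠ p) :
    let good := ∃ C : VariableChange ℚ_[q],
      HasGoodReduction ℤ_[q] (C • E.map (algebraMap ℚ ℚ_[q]))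
    let ss := ∃ C : VariableChange ℚ_[q],
      HasGoodReduction ℤ_[q] (C • E.map (algebraMap ℚ ℚ_[q])) ∨
        HasMultiplicativeReduction ℤ_[q] (C • E.map (algebraMap ℚ ℚ_[q]))
    let d := Module.finrank ℚ_[p] ((Fin 2 → ℚ_[p]) ⧸ inertiaSpan B A)
    ((good ∧ d = 2) ∨ (ss ∧ ¬ good ∧ d = 1) ∨ (¬ ss ∧ d = 0)) ∧
      ∀ {F : GQ} (hF : A.IsFrobeniusAt F q),
        InvertsLFunction E q (coinvMap B hF.mem_decompositionSubgroup).charpoly.reverse := by
  intro good ss d
  have hq : q.Prime := Fact.out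
  have hL := FA.Root.isMultiplicative_LFunction E
  by_cases hss : ss
  swap
  · obtain ⟨σ, hσ, hdet⟩ := exists_det_ne_zero_of_additive hW B hA hqp hss
    obtain ⟨hd, hchar⟩ := coinv_additive B hσ hdet
    refine ⟨Or.inr (Or.inr ⟨hss, hd⟩), fun {F} hF => ?_⟩
    rw [InvertsLFunction, hchar, Polynomial.coe_one, mul_one]
    ext k
    rcases Nat.eq_zero_or_pos k with rfl | hk
    · simp [hL.map_one]
    · simp [PowerSeries.coeff_one, hk.ne', FA.Summary.LFunction_eq_zero_of_additive E hss hk]
  obtain ⟨W', hW', hs⟩ := FA.OggShafarevich.exists_model_semistableAt E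
    (FA.Root.isSemistableAt_of_reduction E hss.choose_spec)
  have hΔ := FA.Frob.Δ_ne_zero_of_model hW'
  haveI := FA.Frob.ratCurve_isElliptic_of_Δ hΔ
  obtain ⟨B'⟩ := exists_tateBasis (p := p) W'
  obtain ⟨e, he⟩ := FA.Root.exists_equiv_of_model hW
  obtain ⟨e', he'⟩ := FA.Root.exists_equiv_of_model hW'
  obtain ⟨T, hT⟩ := exists_coinv_conj B B' (e.trans e'.symm) (fun σ x => e'.injective (by
    simp only [AddEquiv.trans_apply, AddEquiv.apply_symm_apply]
    rw [he, he', AddEquiv.apply_symm_apply])) A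
  have hd' : d = Module.finrank ℚ_[p] ((Fin 2 → ℚ_[p]) ⧸ inertiaSpan B' A) := T.finrank_eq
  have hchar : ∀ {F : GQ} (hF : F ∈ A.decompositionSubgroup ℚ),
      (coinvMap B hF).charpoly = (coinvMap B' hF).charpoly := fun hF => by
    rw [← hT _ hF, LinearEquiv.charpoly_conj]
  by_cases hbad : (q : ℤ) ∣ W'.Δ
  · have hc : ¬ (q : ℤ) ∣ W'.c₄ := fun h => hs ⟨hbad, h⟩
    obtain ⟨hd, hrev⟩ := coinv_mult B' ⟨hΔ, hq, hbad, hc, hA⟩ hqp
    have hng : ¬ good := fun hg => by
      obtain ⟨σ, hσ, hne⟩ := FA.OpenImage.exists_inertia_rep_ne_one B'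
        (⟨hΔ, hq, hbad, hc, hA⟩ : FA.Frob.MultAt W' q A)
      refine hne (B'.rep_eq_one fun n x hx => e'.injective ?_)
      rw [he']
      exact FA.Summary.inertia_fixes_torsion_of_good E hg Fact.out (Ne.symm hqp) hA hσ (n := n)
        (e' x) (by rw [← map_nsmul, hx, map_zero])
    refine ⟨Or.inr (Or.inl ⟨hss, hng, hd'.trans hd⟩), fun {F} hF => ?_⟩
    rw [InvertsLFunction, hchar, hrev hF,
      show (1 - Polynomial.C (FA.Root.splitSign W' q : ℚ_[p]) * Polynomial.X : Polynomial ℚ_[p]) =
        1 - Polynomial.C (FA.Root.splitSign W' q : ℚ_[p]) * Polynomial.X +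
          Polynomial.C 0 * Polynomial.X ^ 2 by simp]
    refine mk_mul_quadratic _ _ _ ?_ ?_ fun r => ?_
    · simp [hL.map_one]
    · rw [FA.Root.LFunction_apply_prime_pow_mult E W' hW' hq hbad hΔ hc, pow_one]
    · simp only [FA.Root.LFunction_apply_prime_pow_mult E W' hW' hq hbad hΔ hc, zero_mul, sub_zero]
      push_cast
      ring
  · obtain ⟨hd, hrev⟩ := coinv_good B' hq hA hqp hbad
    refine ⟨Or.inl ⟨FA.Root.exists_good_of_model hW' q hbad, hd'.trans hd⟩, fun {F} hF => ?_⟩
    rw [InvertsLFunction, hchar, hrev hF]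
    refine mk_mul_quadratic _ _ _ ?_ ?_ fun r => ?_
    · simp [hL.map_one]
    · rw [pow_one, FA.Root.LFunction_apply_prime E W' hW' hq hbad]
    · rw [FA.Root.LFunction_apply_prime_pow_good E W' hW' hq hbad r]
      push_cast
      ring

end FA.GoodReduction

namespace FA.Summary

/-- **Every Euler factor is the Galois one**: for every elliptic curve over `ℚ`, every prime `q`,
bad or not, and every prime `p ≠ q` the series `∑ a(q ^ k) X ^ k` of the coefficients of the
L-function is inverse to `det (1 - X F)` on the coinvariants of inertia at `q` in the rational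
`p`-adic Tate module, `F` an arithmetic Frobenius. So the L-function is that of the Galois
representation. -/
theorem LFunction_eq_artinFactor (E : WeierstrassCurve ℚ) [E.IsElliptic] {q : ℕ} [Fact q.Prime]
    {p : ℕ} [Fact p.Prime] (hqp : q ≠ p) {W : WeierstrassCurve ℤ} [(ratCurve W).IsElliptic]
    (hW : W.IsIntegralModelOf E) (B : TateBasis p W)
    {A : ValuationSubring (AlgebraicClosure ℚ)} (hA : A.LiesOverPrime q)
    {F : AlgebraicClosure ℚ ≃ₐ[ℚ] AlgebraicClosure ℚ} (hF : A.IsFrobeniusAt F q) :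
    PowerSeries.mk (fun k => (E.LFunction (q ^ k) : ℚ_[p])) *
      ((coinvMap B hF.mem_decompositionSubgroup).charpoly.reverse : PowerSeries ℚ_[p]) = 1 :=
  (coinv_cases hW B hA hqp).2 hF

/-- **The coinvariants of inertia know the reduction**: their dimension in the rational `p`-adic
Tate module is `2` exactly for good, `1` for multiplicative, `0` for additive reduction at `q`. -/
theorem coinvariants_rank (E : WeierstrassCurve ℚ) [E.IsElliptic] {q : ℕ} [Fact q.Prime]
    {p : ℕ} [Fact p.Prime] (hqp : q ≠ p) {W : WeierstrassCurve ℤ} [(ratCurve W).IsElliptic]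
    (hW : W.IsIntegralModelOf E) (B : TateBasis p W)
    {A : ValuationSubring (AlgebraicClosure ℚ)} (hA : A.LiesOverPrime q) :
    let d := Module.finrank ℚ_[p] ((Fin 2 → ℚ_[p]) ⧸ inertiaSpan B A)
    let good := ∃ C : VariableChange ℚ_[q],
      HasGoodReduction ℤ_[q] (C • E.map (algebraMap ℚ ℚ_[q]))
    let ss := ∃ C : VariableChange ℚ_[q],
      HasGoodReduction ℤ_[q] (C • E.map (algebraMap ℚ ℚ_[q])) ∨
        HasMultiplicativeReduction ℤ_[q] (C • E.map (algebraMap ℚ ℚ_[q]))
    (d = 2 ↔ good) ∧ (d = 1 ↔ ss ∧ ¬ good) ∧ (d = 0 ↔ ¬ ss) := by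
  intro d good ss
  have hgs : good → ss := fun ⟨C, hC⟩ => ⟨C, Or.inl hC⟩
  rcases (coinv_cases hW B hA hqp).1 with ⟨h1, h2⟩ | ⟨h1, h2, h3⟩ | ⟨h1, h2⟩
  · have h2' : d = 2 := h2
    exact ⟨iff_of_true h2' h1, iff_of_false (by omega) (fun h => h.2 h1),
      iff_of_false (by omega) (fun h => h (hgs h1))⟩
  · have h3' : d = 1 := h3
    exact ⟨iff_of_false (by omega) h2, iff_of_true h3' ⟨h1, h2⟩,
      iff_of_false (by omega) (fun h => h h1)⟩
  · have h2' : d = 0 := h2
    exact ⟨iff_of_false (by omega) (fun h => h1 (hgs h)), iff_of_false (by omega) (fun h => h1 h.1),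
      iff_of_true h2' h1⟩

end FA.Summary

end
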