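import Fermat.Agent.Density.Traces
import Fermat.Agent.Density.BrauerNesbitt
import Fermat.Agent.Root.SummaryGaloisGL2Padic

/-!
# Curves with the same traces have the same Galois modules of torsion

If a semistable elliptic curve `E` and an elliptic curve `E'` over `ℚ` have the same `a_q` at almost
all primes and `E[l]` has no stable subgroup of order `l`, then `E[l] ≅ E'[l]` as Galois modules,
and for `l ≥ 5` also `E[l ^ n] ≅ E'[l ^ n]` for every `n`: the image on the side of `E` spans all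
matrices, so equal traces at the Frobenius elements give a conjugating matrix (Brauer–Nesbitt).
-/

set_option autoImplicit false
set_option linter.style.haveILetI false

noncomputable section

open Matrix WeierstrassCurve WeierstrassCurve.Affine FA.EC FA.Frob FA.RT FA.RT.Tate
open scoped WeierstrassCurve.Affine

local notation "Qb" => AlgebraicClosure ℚ
local notation "GQ" => AlgebraicClosure ℚ ≃ₐ[ℚ] AlgebraicClosure ℚ
local notation "M2" => Matrix (Fin 2) (Fin 2)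

namespace FA.TorsionIso

/-- A family of matrices containing all invertible ones spans everything. -/
theorem span_eq_top {A : Type*} [CommRing A] {G : Type*} (r : G → M2 A)
    (h : ∀ M : M2 A, IsUnit M.det → ∃ g, r g = M) : Submodule.span A (Set.range r) = ⊤ := by
  set S := Submodule.span A (Set.range r)
  have hmem : ∀ a b c d : A, IsUnit (a * d - b * c) → !![a, b; c, d] ∈ S := fun a b c d hu => by
    obtain ⟨g, hg⟩ := h !![a, b; c, d] (by rwa [det_fin_two_of])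
    exact hg ▸ Submodule.subset_span ⟨g, rfl⟩
  have h01 := S.sub_mem (hmem 1 1 0 1 (by simp)) (hmem 1 0 0 1 (by simp))
  have h10 := S.sub_mem (hmem 1 0 1 1 (by simp)) (hmem 1 0 0 1 (by simp))
  have h00 := S.sub_mem (S.sub_mem (hmem 1 1 1 0 (by simp)) h01) h10
  have h11 := S.sub_mem (S.sub_mem (hmem 0 1 1 1 (by simp)) h01) h10
  refine Submodule.eq_top_iff'.mpr fun M => ?_
  have e : M = M 0 0 • (!![1, 1; 1, 0] - (!![1, 1; 0, 1] - !![1, 0; 0, 1]) -
        (!![1, 0; 1, 1] - !![1, 0; 0, 1])) + M 0 1 • (!![1, 1; 0, 1] - !![1, 0; 0, 1]) +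
      M 1 0 • (!![1, 0; 1, 1] - !![1, 0; 0, 1]) +
      M 1 1 • (!![0, 1; 1, 1] - (!![1, 1; 0, 1] - !![1, 0; 0, 1]) -
        (!![1, 0; 1, 1] - !![1, 0; 0, 1])) := by
    ext i j; fin_cases i <;> fin_cases j <;> simp
  rw [e]
  exact S.add_mem (S.add_mem (S.add_mem (S.smul_mem _ h00) (S.smul_mem _ h01))
    (S.smul_mem _ h10)) (S.smul_mem _ h11)

variable {W W' : WeierstrassCurve ℤ} [(ratCurve W).IsElliptic] [(ratCurve W').IsElliptic] {l : ℕ}
  [hl : Fact l.Prime]

/-- The reduction modulo `l ^ n` of the `l`-adic representation. -/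
def repMod (B : TateBasis l W) (n : ℕ) : GQ →* M2 (ZMod (l ^ n)) :=
  ((PadicInt.toZModPow (p := l) n).mapMatrix : M2 ℤ_[l] →+* _).toMonoidHom.comp B.rep

theorem isOpen_ker_repMod (B : TateBasis l W) (n : ℕ) :
    IsOpen ((repMod B n).ker : Set GQ) := by
  obtain ⟨L, hL, h⟩ := B.exists_field n
  exact Subgroup.isOpen_mono (fun σ hσ => MonoidHom.mem_ker.mpr
    (h σ ((IntermediateField.mem_fixingSubgroup_iff _ _).mp hσ))) L.fixingSubgroup_isOpen

/-- **Equal traces at almost all Frobenius elements give equal traces** on the Tate modules. -/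
theorem trace_rep_eq (B : TateBasis l W) (B' : TateBasis l W') (S : Finset ℕ)
    (h : ∀ q : ℕ, q.Prime → q ∉ S → W.apOfModel q = W'.apOfModel q) (s : GQ) :
    (B.rep s).trace = (B'.rep s).trace := by
  have hne : ∀ {V : WeierstrassCurve ℤ} [(ratCurve V).IsElliptic], V.Δ ≠ 0 := fun {V} _ h => by
    exact (ratCurve V).isUnit_Δ.ne_zero (by simp [ratCurve, h])
  refine PadicInt.ext_of_toZModPow.mp fun n => ?_
  have := (FA.Density.trace_det_eq_of_frobenius (repMod B n) (repMod B' n) (isOpen_ker_repMod B n)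
    (isOpen_ker_repMod B' n) (insert l (S ∪ W.Δ.natAbs.divisors ∪ W'.Δ.natAbs.divisors))
    (fun q hq hqS A hA σ hσ => by
      simp only [Finset.mem_insert, Finset.mem_union, not_or] at hqS
      obtain ⟨hql, ⟨hS, hW⟩, hW'⟩ := hqS
      have hg : W.IsGoodPrimeFor q := fun hd => hW (Nat.mem_divisors.mpr
        ⟨Int.natCast_dvd.mp hd, Int.natAbs_ne_zero.mpr hne⟩)
      have hg' : W'.IsGoodPrimeFor q := fun hd => hW' (Nat.mem_divisors.mpr
        ⟨Int.natCast_dvd.mp hd, Int.natAbs_ne_zero.mpr hne⟩)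
      obtain ⟨t, d⟩ := B.rep_frobenius hq hA hql hg hσ
      obtain ⟨t', d'⟩ := B'.rep_frobenius hq hA hql hg' hσ
      show ((B.rep σ).map (PadicInt.toZModPow n)).trace =
          ((B'.rep σ).map (PadicInt.toZModPow n)).trace ∧
        ((B.rep σ).map (PadicInt.toZModPow n)).det = ((B'.rep σ).map (PadicInt.toZModPow n)).det
      rw [← AddMonoidHom.map_trace, ← AddMonoidHom.map_trace, t, t', h q hq hS,
        ← RingHom.mapMatrix_apply, ← RingHom.mapMatrix_apply, ← RingHom.map_det,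
        ← RingHom.map_det, d, d']
      exact ⟨rfl, rfl⟩) s).1
  simpa [repMod, ← AddMonoidHom.map_trace] using this

/-- Equal coefficients at almost all primes give equal traces on the Tate modules. -/
theorem trace_rep_eq_of_LFunction {E E' : WeierstrassCurve ℚ} (hW : W.IsIntegralModelOf E)
    (hW' : W'.IsIntegralModelOf E') (B : TateBasis l W) (B' : TateBasis l W') (S : Finset ℕ)
    (h : ∀ q : ℕ, q.Prime → q ∉ S → E.LFunction q = E'.LFunction q) (s : GQ) :
    (B.rep s).trace = (B'.rep s).trace := by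
  refine trace_rep_eq B B' (S ∪ W.Δ.natAbs.divisors ∪ W'.Δ.natAbs.divisors) (fun q hq hqS => ?_) s
  simp only [Finset.mem_union, not_or] at hqS
  obtain ⟨⟨hS, hd⟩, hd'⟩ := hqS
  have hne : ∀ {V : WeierstrassCurve ℤ} [(ratCurve V).IsElliptic], V.Δ ≠ 0 := fun {V} _ h => by
    exact (ratCurve V).isUnit_Δ.ne_zero (by simp [ratCurve, h])
  rw [← FA.Root.LFunction_apply_prime E W hW hq (fun h => hd (Nat.mem_divisors.mpr
      ⟨Int.natCast_dvd.mp h, Int.natAbs_ne_zero.mpr hne⟩)),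
    ← FA.Root.LFunction_apply_prime E' W' hW' hq (fun h => hd' (Nat.mem_divisors.mpr
      ⟨Int.natCast_dvd.mp h, Int.natAbs_ne_zero.mpr hne⟩)), h q hq hS]

theorem exists_addEquiv_mul {n : ℕ} (B : TateBasis l W) (B' : TateBasis l W') {P : M2 ℤ_[l]}
    (hP : IsUnit P.det) (hcomm : ∀ σ, B'.rep σ * P = P * B.rep σ) :
    ∃ e : Submodule.torsionBy ℤ (Pts W) ((l : ℤ) ^ n) ≃+
        Submodule.torsionBy ℤ (Pts W') ((l : ℤ) ^ n),
      ∀ (σ : GQ) x y, σ • x.1 = y.1 → σ • (e x).1 = (e y).1 := by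
  have mem : ∀ v, B.φ n v ∈ Submodule.torsionBy ℤ (Pts W) ((l : ℤ) ^ n) :=
    fun v => FA.PadicImage.mem_torsionBy_pow_iff.mpr (B.nsmul_phi n v)
  have mem' : ∀ v, B'.φ n v ∈ Submodule.torsionBy ℤ (Pts W') ((l : ℤ) ^ n) :=
    fun v => FA.PadicImage.mem_torsionBy_pow_iff.mpr (B'.nsmul_phi n v)
  let f : (Fin 2 → ℤ_[l]) →+ Submodule.torsionBy ℤ (Pts W) ((l : ℤ) ^ n) :=
    AddMonoidHom.codRestrict (B.φ n) _ mem
  let g : (Fin 2 → ℤ_[l]) →+ Submodule.torsionBy ℤ (Pts W') ((l : ℤ) ^ n) :=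
    (AddMonoidHom.codRestrict (B'.φ n) _ mem').comp (Matrix.mulVecLin P).toAddMonoidHom
  have hfs : Function.Surjective f := fun x => by
    obtain ⟨v, hv⟩ := B.surj n x.1 (FA.PadicImage.mem_torsionBy_pow_iff.mp x.2)
    exact ⟨v, Subtype.ext hv⟩
  have hgs : Function.Surjective g := fun x => by
    obtain ⟨v, hv⟩ := B'.surj n x.1 (FA.PadicImage.mem_torsionBy_pow_iff.mp x.2)
    exact ⟨P⁻¹ *ᵥ v, Subtype.ext (by
      show B'.φ n (P *ᵥ P⁻¹ *ᵥ v) = x.1
      rw [mulVec_mulVec, mul_nonsing_inv P hP, one_mulVec, hv])⟩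
  have hmv : ∀ (M : M2 ℤ_[l]) (v : Fin 2 → ℤ_[l]),
      (∀ i, PadicInt.toZModPow n (v i) = 0) → ∀ i, PadicInt.toZModPow n ((M *ᵥ v) i) = 0 :=
    fun M v hv i => by simp [mulVec, dotProduct, Fin.sum_univ_two, hv]
  have hker : ∀ v, f v = 0 ↔ g v = 0 := fun v => by
    refine Subtype.ext_iff.trans (Iff.trans ?_ Subtype.ext_iff.symm)
    show B.φ n v = 0 ↔ B'.φ n (P *ᵥ v) = 0
    rw [B.ker, B'.ker]
    refine ⟨hmv P v, fun hv i => ?_⟩
    have := hmv P⁻¹ _ hv i
    rwa [mulVec_mulVec, nonsing_inv_mul P hP, one_mulVec] at this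
  choose c hc using hfs
  have hwd : ∀ v, g v = g (c (f v)) := fun v => sub_eq_zero.mp (by
    rw [← map_sub, ← hker, map_sub, hc, sub_self])
  let e₀ : Submodule.torsionBy ℤ (Pts W) ((l : ℤ) ^ n) →+
      Submodule.torsionBy ℤ (Pts W') ((l : ℤ) ^ n) :=
    AddMonoidHom.mk' (fun x => g (c x)) fun a b => by
      rw [← map_add g, hwd (c a + c b), map_add, hc, hc]
  have hbij : Function.Bijective e₀ := by
    refine ⟨(injective_iff_map_eq_zero _).mpr fun x hx => ?_, fun y => ?_⟩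
    · rw [← hc x]; exact (hker _).mpr hx
    · obtain ⟨v, rfl⟩ := hgs y
      exact ⟨f v, (hwd v).symm⟩
  refine ⟨AddEquiv.ofBijective e₀ hbij, fun σ x y hxy => ?_⟩
  have hy : y = f (B.rep σ *ᵥ c x) := Subtype.ext <| hxy.symm.trans <| by
    conv_lhs => rw [← hc x]
    exact B.rep_spec σ n (c x)
  show σ • (g (c x)).1 = (g (c y)).1
  rw [hy, ← hwd]
  show σ • B'.φ n (P *ᵥ c x) = B'.φ n (P *ᵥ (B.rep σ *ᵥ c x))
  rw [B'.rep_spec, mulVec_mulVec, mulVec_mulVec, hcomm]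

/-- The mod `l` version. -/
theorem exists_addEquiv_one (hΔ : W.Δ ≠ 0) (hW : W.IsSemistableModel)
    (hirr : W.ModRepIsIrreducible l) (hΔ' : W'.Δ ≠ 0) (S : Finset ℕ)
    (h : ∀ q : ℕ, q.Prime → q ∉ S → W.apOfModel q = W'.apOfModel q) :
    ∃ e : Submodule.torsionBy ℤ (Pts W) (l : ℤ) ≃+ Submodule.torsionBy ℤ (Pts W') (l : ℤ),
      ∀ (σ : GQ) x y, σ • x.1 = y.1 → σ • (e x).1 = (e y).1 := by
  have htr := fun s => (FA.Density.trace_det_eq_of_frobenius (curveRep l W) (curveRep l W')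
    (isOpen_ker_curveRep W) (isOpen_ker_curveRep W')
    (insert l (S ∪ W.Δ.natAbs.divisors ∪ W'.Δ.natAbs.divisors))
    (fun q hq hqS A hA σ hσ => by
      simp only [Finset.mem_insert, Finset.mem_union, not_or] at hqS
      obtain ⟨hql, ⟨hS, hW⟩, hW'⟩ := hqS
      have hg : W.IsGoodPrimeFor q := fun hd => hW (Nat.mem_divisors.mpr
        ⟨Int.natCast_dvd.mp hd, Int.natAbs_ne_zero.mpr hΔ⟩)
      have hg' : W'.IsGoodPrimeFor q := fun hd => hW' (Nat.mem_divisors.mpr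
        ⟨Int.natCast_dvd.mp hd, Int.natAbs_ne_zero.mpr hΔ'⟩)
      obtain ⟨t, d⟩ := FA.Ribet.curveRep_frobenius (p := l) hq hql hg hA hσ
      obtain ⟨t', d'⟩ := FA.Ribet.curveRep_frobenius (p := l) hq hql hg' hA hσ
      exact ⟨by rw [t, t', h q hq hS], d.trans d'.symm⟩) s).1
  obtain ⟨P, hP, hcomm⟩ := FA.Density.exists_conj_of_trace_eq (curveRep l W) (curveRep l W')
    (span_eq_top _ fun M hM =>
      FA.Root.Irred.exists_curveRep_eq_of_irreducible hΔ hW hirr hM.ne_zero) htr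
  set b := (torsBasis (p := l) W).equivFun
  set b' := (torsBasis (p := l) W').equivFun
  let m := (Matrix.toLinearEquiv' P (Matrix.invertibleOfIsUnitDet P hP))
  refine ⟨((b.trans m).trans b'.symm).toAddEquiv, fun σ x y hxy => ?_⟩
  obtain rfl : y = σ • x := Subtype.ext hxy.symm
  show σ • (b'.symm (m (b x))).1 = (b'.symm (m (b (σ • x)))).1
  refine congrArg Subtype.val (?_ : σ • b'.symm (m (b x)) = b'.symm (m (b (σ • x))))
  apply b'.injective
  rw [LinearEquiv.apply_symm_apply, ← FA.RT.toMatrix_mulVec, ← FA.RT.toMatrix_mulVec]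
  show curveRep l W' σ *ᵥ b' (b'.symm (m (b x))) = m (curveRep l W σ *ᵥ b x)
  rw [LinearEquiv.apply_symm_apply]
  show curveRep l W' σ *ᵥ (P *ᵥ b x) = P *ᵥ (curveRep l W σ *ᵥ b x)
  rw [mulVec_mulVec, mulVec_mulVec, hcomm]

omit [(ratCurve W).IsElliptic] [(ratCurve W').IsElliptic] in
/-- Equivariant isomorphisms pass from models to curves. -/
theorem exists_equiv_of_models {E E' : WeierstrassCurve ℚ} [E.IsElliptic] [E'.IsElliptic]
    (hW : W.IsIntegralModelOf E) (hW' : W'.IsIntegralModelOf E') (N : ℤ)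
    (h : ∃ e : Submodule.torsionBy ℤ (Pts W) N ≃+ Submodule.torsionBy ℤ (Pts W') N,
      ∀ (σ : GQ) x y, σ • x.1 = y.1 → σ • (e x).1 = (e y).1) :
    ∃ e : Submodule.torsionBy ℤ (E.toAffine⁄Qb).Point N ≃+
        Submodule.torsionBy ℤ (E'.toAffine⁄Qb).Point N,
      ∀ (σ : GQ) P Q, Affine.Point.map σ.toAlgHom P.1 = Q.1 →
        Affine.Point.map σ.toAlgHom (e P).1 = (e Q).1 := by
  obtain ⟨a, ha⟩ := FA.Root.exists_equiv_of_model hW
  obtain ⟨a', ha'⟩ := FA.Root.exists_equiv_of_model hW'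
  obtain ⟨e, he⟩ := h
  let T : ∀ {A B : Type} [AddCommGroup A] [AddCommGroup B], (A ≃+ B) →
      Submodule.torsionBy ℤ A N ≃+ Submodule.torsionBy ℤ B N := fun {A B} _ _ c =>
    { toEquiv := c.toEquiv.subtypeEquiv fun Q => by
        simp only [Submodule.mem_torsionBy_iff]
        exact ⟨fun hQ => (map_zsmul c _ Q).symm.trans (by rw [hQ, map_zero]),
          fun hQ => c.injective (by rw [map_zsmul, map_zero]; exact hQ)⟩
      map_add' := fun u v => Subtype.ext (map_add c u.1 v.1) }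
  refine ⟨((T a).symm.trans e).trans (T a'), fun σ P Q hPQ => ?_⟩
  obtain ⟨x, rfl⟩ := (T a).surjective P
  obtain ⟨y, rfl⟩ := (T a).surjective Q
  rw [AddEquiv.trans_apply, AddEquiv.trans_apply, AddEquiv.trans_apply, AddEquiv.trans_apply,
    AddEquiv.symm_apply_apply, AddEquiv.symm_apply_apply]
  show Affine.Point.map σ.toAlgHom (a' (e x).1) = a' (e y).1
  rw [← ha', he σ x y (a.injective ((ha σ x.1).trans hPQ))]

end FA.TorsionIso

namespace FA.Summary

open FA.TorsionIso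

/-- **Equal traces give isomorphic Galois modules of `l`-torsion**: if `E` is semistable, `E'` has
the same `a_q` at almost all primes and `E[l]` has no Galois stable subgroup of order `l`, then
`E[l] ≅ E'[l]` compatibly with Galois. -/
theorem torsionIso_of_traces (E E' : WeierstrassCurve ℚ) [E.IsElliptic] [E'.IsElliptic]
    (h : ∀ p : ℕ, ∀ [Fact p.Prime], ∃ C : VariableChange ℚ_[p],
      HasGoodReduction ℤ_[p] (C • E.map (algebraMap ℚ ℚ_[p])) ∨
        HasMultiplicativeReduction ℤ_[p] (C • E.map (algebraMap ℚ ℚ_[p])))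
    (S : Finset ℕ) (heq : ∀ q : ℕ, q.Prime → q ∉ S → E.LFunction q = E'.LFunction q)
    [inst : DecidableEq (AlgebraicClosure ℚ)] {l : ℕ} (hl : l.Prime)
    (hno : ∀ G : AddSubgroup (E.toAffine⁄(AlgebraicClosure ℚ)).Point, Nat.card G = l →
      ¬ ∀ σ : AlgebraicClosure ℚ ≃ₐ[ℚ] AlgebraicClosure ℚ, ∀ P ∈ G,
        Affine.Point.map σ.toAlgHom P ∈ G) :
    ∃ e : Submodule.torsionBy ℤ (E.toAffine⁄(AlgebraicClosure ℚ)).Point (l : ℤ) ≃+
        Submodule.torsionBy ℤ (E'.toAffine⁄(AlgebraicClosure ℚ)).Point (l : ℤ),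
      ∀ (σ : AlgebraicClosure ℚ ≃ₐ[ℚ] AlgebraicClosure ℚ) P Q,
        Affine.Point.map σ.toAlgHom P.1 = Q.1 →
          Affine.Point.map σ.toAlgHom (e P).1 = (e Q).1 := by
  obtain rfl : inst = instDecEqAlgebraicClosureRat := Subsingleton.elim _ _
  obtain ⟨W, hW, hs⟩ := FA.Root.exists_semistableModel E
    fun q _ => FA.Root.isSemistableAt_of_reduction E (h q).choose_spec
  obtain ⟨W', hW'⟩ := FA.Frob.exists_integralModel E'
  have hΔ := FA.Frob.Δ_ne_zero_of_model hW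
  have hΔ' := FA.Frob.Δ_ne_zero_of_model hW'
  haveI := FA.Frob.ratCurve_isElliptic_of_Δ hΔ
  haveI := FA.Frob.ratCurve_isElliptic_of_Δ hΔ'
  haveI := Fact.mk hl
  refine exists_equiv_of_models hW hW' _ (exists_addEquiv_one hΔ hs
    (FA.Root.Irred.modRepIsIrreducible_of_noStableSubgroup hW hno) hΔ'
    (S ∪ W.Δ.natAbs.divisors ∪ W'.Δ.natAbs.divisors) fun q hq hqS => ?_)
  simp only [Finset.mem_union, not_or] at hqS
  obtain ⟨⟨hS, hd⟩, hd'⟩ := hqS
  rw [← FA.Root.LFunction_apply_prime E W hW hq (fun h => hd (Nat.mem_divisors.mpr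
      ⟨Int.natCast_dvd.mp h, Int.natAbs_ne_zero.mpr hΔ⟩)),
    ← FA.Root.LFunction_apply_prime E' W' hW' hq (fun h => hd' (Nat.mem_divisors.mpr
      ⟨Int.natCast_dvd.mp h, Int.natAbs_ne_zero.mpr hΔ'⟩)), heq q hq hS]

/-- **Equal traces give isomorphic Galois modules of `l ^ n`-torsion** for `l ≥ 5`, every `n`,
under the same hypotheses. -/
theorem torsionIso_pow_of_traces (E E' : WeierstrassCurve ℚ) [E.IsElliptic] [E'.IsElliptic]
    (h : ∀ p : ℕ, ∀ [Fact p.Prime], ∃ C : VariableChange ℚ_[p],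
      HasGoodReduction ℤ_[p] (C • E.map (algebraMap ℚ ℚ_[p])) ∨
        HasMultiplicativeReduction ℤ_[p] (C • E.map (algebraMap ℚ ℚ_[p])))
    (S : Finset ℕ) (heq : ∀ q : ℕ, q.Prime → q ∉ S → E.LFunction q = E'.LFunction q)
    [inst : DecidableEq (AlgebraicClosure ℚ)] {l : ℕ} (hl : l.Prime) (h5 : 5 ≤ l)
    (hno : ∀ G : AddSubgroup (E.toAffine⁄(AlgebraicClosure ℚ)).Point, Nat.card G = l →
      ¬ ∀ σ : AlgebraicClosure ℚ ≃ₐ[ℚ] AlgebraicClosure ℚ, ∀ P ∈ G,
        Affine.Point.map σ.toAlgHom P ∈ G) (n : ℕ) :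
    ∃ e : Submodule.torsionBy ℤ (E.toAffine⁄(AlgebraicClosure ℚ)).Point ((l : ℤ) ^ n) ≃+
        Submodule.torsionBy ℤ (E'.toAffine⁄(AlgebraicClosure ℚ)).Point ((l : ℤ) ^ n),
      ∀ (σ : AlgebraicClosure ℚ ≃ₐ[ℚ] AlgebraicClosure ℚ) P Q,
        Affine.Point.map σ.toAlgHom P.1 = Q.1 →
          Affine.Point.map σ.toAlgHom (e P).1 = (e Q).1 := by
  obtain rfl : inst = instDecEqAlgebraicClosureRat := Subsingleton.elim _ _
  obtain ⟨W, hW, hs⟩ := FA.Root.exists_semistableModel E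
    fun q _ => FA.Root.isSemistableAt_of_reduction E (h q).choose_spec
  obtain ⟨W', hW'⟩ := FA.Frob.exists_integralModel E'
  have hΔ := FA.Frob.Δ_ne_zero_of_model hW
  have hΔ' := FA.Frob.Δ_ne_zero_of_model hW'
  haveI := FA.Frob.ratCurve_isElliptic_of_Δ hΔ
  haveI := FA.Frob.ratCurve_isElliptic_of_Δ hΔ'
  haveI := Fact.mk hl
  obtain ⟨B⟩ := exists_tateBasis (p := l) W
  obtain ⟨B'⟩ := exists_tateBasis (p := l) W'
  obtain ⟨P, hP, hcomm⟩ := FA.Density.exists_conj_of_trace_eq B.rep B'.rep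
    (span_eq_top _ fun M hM => FA.PadicImage.exists_rep_eq B
      (FA.Root.Irred.reachAll_of_irreducible hΔ hs
        (FA.Root.Irred.modRepIsIrreducible_of_noStableSubgroup hW hno) (Or.inl h5)) hM)
    (trace_rep_eq_of_LFunction hW hW' B B' S heq)
  exact exists_equiv_of_models hW hW' _ (exists_addEquiv_mul B B' hP hcomm)

/-- For two semistable curves with the same L-function this holds at every prime `l ≥ 11`. -/
theorem torsionIso_pow_all (E E' : WeierstrassCurve ℚ) [E.IsElliptic] [E'.IsElliptic]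
    (h : ∀ p : ℕ, ∀ [Fact p.Prime], ∃ C : VariableChange ℚ_[p],
      HasGoodReduction ℤ_[p] (C • E.map (algebraMap ℚ ℚ_[p])) ∨
        HasMultiplicativeReduction ℤ_[p] (C • E.map (algebraMap ℚ ℚ_[p])))
    (S : Finset ℕ) (heq : ∀ q : ℕ, q.Prime → q ∉ S → E.LFunction q = E'.LFunction q)
    [inst : DecidableEq (AlgebraicClosure ℚ)] {l : ℕ} (hl : l.Prime) (h11 : 11 ≤ l) (n : ℕ) :
    ∃ e : Submodule.torsionBy ℤ (E.toAffine⁄(AlgebraicClosure ℚ)).Point ((l : ℤ) ^ n) ≃+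
        Submodule.torsionBy ℤ (E'.toAffine⁄(AlgebraicClosure ℚ)).Point ((l : ℤ) ^ n),
      ∀ (σ : AlgebraicClosure ℚ ≃ₐ[ℚ] AlgebraicClosure ℚ) P Q,
        Affine.Point.map σ.toAlgHom P.1 = Q.1 →
          Affine.Point.map σ.toAlgHom (e P).1 = (e Q).1 :=
  torsionIso_pow_of_traces E E' h S heq hl (by omega)
    (fun G hG => noStableSubgroup_all E h hl h11 G hG) n

end FA.Summary

end
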