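import Fermat.Agent.Root.SummarySurjectiveAdelic
import Fermat.Agent.Two.CurvePoint

/-!
# A transvection generates the `p`-adic image

A group of matrices over `ℤ_p` which moves every line modulo `p`, reaches every determinant modulo
every power of `p` and contains a unipotent element nontrivial modulo `p` reaches every invertible
matrix modulo every power of `p`, also for `p = 2` and `p = 3`: the element and a conjugate are
elementary matrices with unit entry in the basis of their fixed vectors.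

For a semistable equation inertia at a multiplicative prime `q ≠ p` supplies such an element as
soon as `p` does not divide the exponent of `q` in the discriminant.
-/

set_option autoImplicit false
set_option linter.unusedSectionVars false

noncomputable section

open Matrix

namespace FA.PadicImage

variable {p : ℕ} [hp : Fact p.Prime]

local notation "Mp" => Matrix (Fin 2) (Fin 2) ℤ_[p]
local notation "π" => (p : ℤ_[p])

theorem Reach.mul {G : Type*} [Group G] {r : G →* Mp} {n : ℕ} {A B : Mp} (hA : Reach r n A)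
    (hB : Reach r n B) : Reach r n (A * B) := by
  obtain ⟨g, Y, hg⟩ := hA
  obtain ⟨h, Z, hh⟩ := hB
  refine ⟨g * h, Y * B + A * Z + π ^ n • (Y * Z), ?_⟩
  rw [map_mul, hg, hh]
  simp only [mul_add, add_mul, smul_mul_assoc, Algebra.mul_smul_comm, smul_smul, smul_add]
  abel

/-- **The conjugates of a transvection generate `SL₂` modulo every power of `p`** when every line
modulo `p` is moved. -/
theorem exists_mem_congr_of_transvection {G : Type*} [Group G] (r : G →* Mp) (T : Submonoid G)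
    (hmove : ∀ l : Fin 2 → ZMod p, l ≠ 0 →
      ∃ g, ∀ a : ZMod p, (r g).map PadicInt.toZMod *ᵥ l ≠ a • l)
    {σ : G} (hT : ∀ g : G, g * σ * g⁻¹ ∈ T) (hsq : (r σ - 1) * (r σ - 1) = 0)
    (hne : (r σ).map PadicInt.toZMod ≠ 1) (n : ℕ) {M : Mp} {w : ℤ_[p]}
    (hM : M.det = 1 + π ^ n * w) : ∃ h ∈ T, ∃ Y : Mp, r h = M + π ^ n • Y := by
  have hone : ((1 : Mp).map PadicInt.toZMod) = 1 := map_one (PadicInt.toZMod (p := p)).mapMatrix
  -- a fixed vector which is nonzero modulo `p`
  obtain ⟨v, hv⟩ : ∃ v : Fin 2 → ℤ_[p], PadicInt.toZMod ∘ ((r σ - 1) *ᵥ v) ≠ 0 := by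
    by_contra hall
    push Not at hall
    refine hne (sub_eq_zero.mp (Matrix.ext fun i j => ?_))
    have h := congrFun (hall (Pi.single j 1)) i
    rw [Function.comp_apply, mulVec_single_one, Pi.zero_apply] at h
    rw [← hone, Matrix.sub_apply, Matrix.map_apply, Matrix.map_apply, ← map_sub]
    exact h
  obtain ⟨e, he⟩ : ∃ e, (r σ - 1) *ᵥ v = e := ⟨_, rfl⟩
  rw [he] at hv
  have hefix : r σ *ᵥ e = e := by
    have h : (r σ - 1) *ᵥ e = 0 := by rw [← he, mulVec_mulVec, hsq, zero_mulVec]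
    rwa [sub_mulVec, one_mulVec, sub_eq_zero] at h
  -- a conjugate fixing an independent vector
  obtain ⟨g, hg⟩ := hmove _ hv
  obtain ⟨f, hf⟩ : ∃ f, r g *ᵥ e = f := ⟨_, rfl⟩
  have hffix : r (g * σ * g⁻¹) *ᵥ f = f := by
    have h1 : r g⁻¹ * r g = 1 := by rw [← map_mul, inv_mul_cancel, map_one]
    conv_lhs => rw [← hf, map_mul, map_mul, mulVec_mulVec, mul_assoc, h1, mul_one, ← mulVec_mulVec,
      hefix, hf]
  let P : Mp := !![e 0, f 0; e 1, f 1]
  have hU : IsUnit P.det := by
    refine isUnit_iff_toZMod.mpr fun h0 => ?_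
    have hfe : (r g).map PadicInt.toZMod *ᵥ (PadicInt.toZMod ∘ e) = PadicInt.toZMod ∘ f := by
      funext i
      rw [← RingHom.map_mulVec, hf]
      rfl
    simp only [P, det_fin_two_of, map_sub, map_mul] at h0
    rw [hfe] at hg
    by_cases h : PadicInt.toZMod (e 0) = 0
    · have h1 : PadicInt.toZMod (e 1) ≠ 0 := fun h1 =>
        hv (funext fun i => by fin_cases i <;> assumption)
      refine hg (PadicInt.toZMod (f 1) / PadicInt.toZMod (e 1)) (funext fun i => ?_)
      fin_cases i <;> simp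
      · field_simp; linear_combination -h0
      · field_simp
    · refine hg (PadicInt.toZMod (f 0) / PadicInt.toZMod (e 0)) (funext fun i => ?_)
      fin_cases i <;> simp
      · field_simp
      · field_simp; linear_combination h0
  have hPQ : P * P⁻¹ = 1 := Matrix.mul_nonsing_inv P hU
  have hQP : P⁻¹ * P = 1 := Matrix.nonsing_inv_mul P hU
  have hPe : P *ᵥ ![1, 0] = e := funext fun i => by
    fin_cases i <;> simp [P, Matrix.mulVec, dotProduct]
  have hPf : P *ᵥ ![0, 1] = f := funext fun i => by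
    fin_cases i <;> simp [P, Matrix.mulVec, dotProduct]
  generalize P⁻¹ = Q at hPQ hQP
  clear_value P
  obtain ⟨ψ, hψ⟩ : ∃ ψ : G →* Mp, ∀ h, ψ h = Q * r h * P :=
    ⟨{ toFun := fun h => Q * r h * P
       map_one' := by rw [map_one, mul_one, hQP]
       map_mul' := fun a b => by
        rw [map_mul, show Q * r a * P * (Q * r b * P) = Q * r a * (P * Q) * r b * P by
          simp only [mul_assoc], hPQ, mul_one]
        simp only [mul_assoc] }, fun h => rfl⟩
  have hback : ∀ h : G, r h = P * ψ h * Q := fun h => by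
    rw [hψ, show P * (Q * r h * P) * Q = P * Q * r h * (P * Q) by simp only [mul_assoc], hPQ,
      one_mul, mul_one]
  have hconjsq : ∀ h : G, (r h - 1) * (r h - 1) = 0 → (ψ h - 1) * (ψ h - 1) = 0 := fun h h0 => by
    have e1 : ψ h - 1 = Q * (r h - 1) * P := by rw [hψ, mul_sub, sub_mul, mul_one, hQP]
    rw [e1, show Q * (r h - 1) * P * (Q * (r h - 1) * P) =
      Q * ((r h - 1) * (P * Q) * (r h - 1)) * P by simp only [mul_assoc], hPQ, mul_one, h0,
      mul_zero, zero_mul]
  have hfix : ∀ (h : G) (w : Fin 2 → ℤ_[p]), r h *ᵥ (P *ᵥ w) = P *ᵥ w → ψ h *ᵥ w = w :=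
    fun h w h0 => by
    rw [hψ, ← mulVec_mulVec, ← mulVec_mulVec, h0, mulVec_mulVec, hQP, one_mulVec]
  have hnontriv : ∀ h : G, (ψ h).map PadicInt.toZMod = 1 → (r h).map PadicInt.toZMod = 1 :=
    fun h h0 => by
    rw [hback, ← RingHom.mapMatrix_apply, map_mul, map_mul, RingHom.mapMatrix_apply (f :=
      PadicInt.toZMod) (M := ψ h), h0, mul_one, ← map_mul, hPQ, map_one]
  -- the two elementary matrices
  have hconj : (r (g * σ * g⁻¹) - 1) * (r (g * σ * g⁻¹) - 1) = 0 := by
    have h1 : r g * r g⁻¹ = 1 := by rw [← map_mul, mul_inv_cancel, map_one]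
    have h2 : r g⁻¹ * r g = 1 := by rw [← map_mul, inv_mul_cancel, map_one]
    have e1 : r (g * σ * g⁻¹) - 1 = r g * (r σ - 1) * r g⁻¹ := by
      rw [map_mul, map_mul, mul_sub, sub_mul, mul_one, h1]
    rw [e1, show r g * (r σ - 1) * r g⁻¹ * (r g * (r σ - 1) * r g⁻¹) =
      r g * ((r σ - 1) * (r g⁻¹ * r g) * (r σ - 1)) * r g⁻¹ by simp only [mul_assoc], h2, mul_one,
      hsq, mul_zero, zero_mul]
  obtain ⟨b, hb, hψb⟩ : ∃ b, IsUnit b ∧ ψ σ = !![1, b; 0, 1] := by
    have hc := hfix σ ![1, 0] (by rw [hPe]; exact hefix)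
    have hs := hconjsq σ hsq
    have h00 : ψ σ 0 0 = 1 := by simpa [Matrix.mulVec, dotProduct] using congrFun hc 0
    have h10 : ψ σ 1 0 = 0 := by simpa [Matrix.mulVec, dotProduct] using congrFun hc 1
    have h11 : ψ σ 1 1 = 1 := by
      have h := congrFun (congrFun hs 1) 1
      simp [Matrix.mul_apply, Fin.sum_univ_two, h10, sub_eq_zero] at h
      exact h
    have hm : ψ σ = !![1, ψ σ 0 1; 0, 1] := by
      ext i j; fin_cases i <;> fin_cases j <;> simp [h00, h10, h11]
    refine ⟨_, isUnit_iff_toZMod.mpr fun h0 => hne (hnontriv σ ?_), hm⟩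
    rw [hm]; ext i j; fin_cases i <;> fin_cases j <;> simp [h0]
  obtain ⟨τ, hτ⟩ : ∃ τ, g * σ * g⁻¹ = τ := ⟨_, rfl⟩
  have hσT : σ ∈ T := by simpa using hT 1
  have hτT : τ ∈ T := hτ ▸ hT g
  rw [hτ] at hffix hconj
  obtain ⟨c, hc, hψc⟩ : ∃ c, IsUnit c ∧ ψ τ = !![1, 0; c, 1] := by
    have hc := hfix τ ![0, 1] (by rw [hPf]; exact hffix)
    have hs := hconjsq _ hconj
    have h01 : ψ τ 0 1 = 0 := by simpa [Matrix.mulVec, dotProduct] using congrFun hc 0
    have h11 : ψ τ 1 1 = 1 := by simpa [Matrix.mulVec, dotProduct] using congrFun hc 1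
    have h00 : ψ τ 0 0 = 1 := by
      have h := congrFun (congrFun hs 0) 0
      simp [Matrix.mul_apply, Fin.sum_univ_two, h01, sub_eq_zero] at h
      exact h
    have hm : ψ τ = !![1, 0; ψ τ 1 0, 1] := by
      ext i j; fin_cases i <;> fin_cases j <;> simp [h00, h01, h11]
    refine ⟨_, isUnit_iff_toZMod.mpr fun h0 => hne ?_, hm⟩
    have h1 := hnontriv τ (by
      rw [hm]; ext i j; fin_cases i <;> fin_cases j <;> simp [h0])
    rw [show σ = g⁻¹ * τ * g by rw [← hτ]; group, ← RingHom.mapMatrix_apply, map_mul, map_mul,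
      map_mul, map_mul, RingHom.mapMatrix_apply (M := r τ), h1, mul_one, ← map_mul, ← map_mul,
      inv_mul_cancel, map_one, map_one]
  -- every determinant one matrix in the new basis
  rcases Nat.eq_zero_or_pos n with rfl | hn
  · exact ⟨1, T.one_mem, 1 - M, by rw [map_one, pow_zero, one_smul, add_sub_cancel]⟩
  have : NeZero (p ^ n) := ⟨pow_ne_zero _ hp.out.ne_zero⟩
  have hnat : ∀ (z : ℤ_[p]), ∃ (k : ℕ) (y : ℤ_[p]), (k : ℤ_[p]) = z + π ^ n * y := fun z => by
    obtain ⟨y, hy⟩ := (toZModPow_eq_iff (n := n)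
      (x := ((PadicInt.toZModPow n z).val : ℤ_[p])) (y := z)).mp
      (by rw [map_natCast, ZMod.natCast_zmod_val])
    exact ⟨_, y, hy⟩
  let S : Submonoid Mp :=
    { carrier := {X | ∃ h : T, ∃ Y : Mp, ψ h = X + π ^ n • Y}
      one_mem' := ⟨1, 0, by rw [OneMemClass.coe_one, map_one, smul_zero, add_zero]⟩
      mul_mem' := fun {A B} ⟨a, Y, ha⟩ ⟨b, Z, hb⟩ => by
        refine ⟨a * b, Y * B + A * Z + π ^ n • (Y * Z), ?_⟩
        rw [Submonoid.coe_mul, map_mul, ha, hb]
        simp only [mul_add, add_mul, smul_mul_assoc, Algebra.mul_smul_comm, smul_smul, smul_add]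
        abel }
  have hupow : ∀ k : ℕ, ψ (σ ^ k) = !![1, (k : ℤ_[p]) * b; 0, 1] := fun k => by
    induction k with
    | zero => rw [pow_zero, map_one, Nat.cast_zero, zero_mul, one_fin_two]
    | succ k ih =>
      rw [pow_succ, map_mul, ih, hψb]
      ext i j; fin_cases i <;> fin_cases j <;> simp [Matrix.mul_apply, Fin.sum_univ_two]
      ring
  have hlpow : ∀ k : ℕ, ψ (τ ^ k) = !![1, 0; (k : ℤ_[p]) * c, 1] := fun k => by
    induction k with
    | zero => rw [pow_zero, map_one, Nat.cast_zero, zero_mul, one_fin_two]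
    | succ k ih =>
      rw [pow_succ, map_mul, ih, hψc]
      ext i j; fin_cases i <;> fin_cases j <;> simp [Matrix.mul_apply, Fin.sum_univ_two]
      ring
  obtain ⟨b', hb'⟩ := hb.exists_left_inv
  obtain ⟨c', hc'⟩ := hc.exists_left_inv
  obtain ⟨X, hX⟩ : ∃ X, Q * M * P = X := ⟨_, rfl⟩
  replace hM : X.det = 1 + π ^ n * w := by
    have hQPdet : Q.det * P.det = 1 := by rw [← det_mul, hQP, det_one]
    rw [← hX, det_mul, det_mul]
    linear_combination M.det * hQPdet + hM
  obtain ⟨u, hu⟩ : ∃ u, u * X.det = 1 := (isUnit_iff_toZMod.mpr (by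
    rw [hM, map_add, map_one, map_mul, map_pow, map_natCast, ZMod.natCast_self,
      zero_pow hn.ne', zero_mul, add_zero]
    exact one_ne_zero)).exists_left_inv
  obtain ⟨⟨h, hh⟩, Y, hY⟩ : X * !![u, 0; 0, 1] ∈ S := by
    refine mem_of_elementary_local S (fun z => ?_) (fun z => ?_) (by
      rw [det_mul, det_fin_two_of, mul_one, mul_zero, sub_zero, mul_comm, hu])
    · obtain ⟨k, y, hk⟩ := hnat (z * b')
      refine ⟨⟨σ ^ k, pow_mem hσT k⟩, !![0, y * b; 0, 0], ?_⟩
      rw [hupow, hk]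
      ext i j; fin_cases i <;> fin_cases j <;> simp
      linear_combination z * hb'
    · obtain ⟨k, y, hk⟩ := hnat (z * c')
      refine ⟨⟨τ ^ k, pow_mem hτT k⟩, !![0, 0; y * c, 0], ?_⟩
      rw [hlpow, hk]
      ext i j; fin_cases i <;> fin_cases j <;> simp
      linear_combination z * hc'
  have hXu : X * !![u, 0; 0, 1] = X + π ^ n • (X * !![-(u * w), 0; 0, 0]) := by
    rw [← Algebra.mul_smul_comm]
    conv_rhs => arg 1; rw [← mul_one X]
    rw [← mul_add]
    congr 1
    ext i j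
    fin_cases i <;> fin_cases j <;> simp
    linear_combination hu - u * hM
  refine ⟨h, hh, P * (X * !![-(u * w), 0; 0, 0] + Y) * Q, ?_⟩
  rw [hback h, hY, hXu]
  have hXM : P * X * Q = M := by
    rw [← hX, show P * (Q * M * P) * Q = P * Q * M * (P * Q) by simp only [mul_assoc], hPQ, one_mul,
      mul_one]
  simp only [mul_add, add_mul, smul_mul_assoc, Algebra.mul_smul_comm, smul_add]
  rw [← hXM]
  abel

/-- **A transvection and irreducibility give everything modulo every power of `p`.** -/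
theorem reach_of_transvection {G : Type*} [Group G] (r : G →* Mp)
    (hmove : ∀ l : Fin 2 → ZMod p, l ≠ 0 →
      ∃ g, ∀ a : ZMod p, (r g).map PadicInt.toZMod *ᵥ l ≠ a • l)
    (hdet : ∀ (n : ℕ) (u : ℤ_[p]), IsUnit u → ∃ (g : G) (y : ℤ_[p]),
      (r g).det = u + π ^ n * y)
    {σ : G} (hsq : (r σ - 1) * (r σ - 1) = 0) (hne : (r σ).map PadicInt.toZMod ≠ 1)
    (n : ℕ) {M : Mp} (hM : IsUnit M.det) : Reach r n M := by
  obtain ⟨g₀, y, hg₀⟩ := hdet n M.det hM
  have hD : r g₀ * r g₀⁻¹ = 1 := by rw [← map_mul, mul_inv_cancel, map_one]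
  have hdd : (r g₀).det * (r g₀⁻¹).det = 1 := by rw [← det_mul, hD, det_one]
  obtain ⟨h, -, Y, hY⟩ := exists_mem_congr_of_transvection r ⊤ hmove
    (fun _ => Submonoid.mem_top _) hsq hne n (M := r g₀⁻¹ * M)
    (w := -(y * (r g₀⁻¹).det)) (by
      rw [hg₀] at hdd
      rw [det_mul]
      linear_combination hdd)
  refine ⟨g₀ * h, r g₀ * Y, ?_⟩
  rw [map_mul, hY, mul_add, ← mul_assoc, hD, one_mul, Algebra.mul_smul_comm]

section Curve

open WeierstrassCurve FA.EC FA.Frob FA.RT
open scoped WeierstrassCurve.Affine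

local notation "Qb" => AlgebraicClosure ℚ
local notation "GQ" => AlgebraicClosure ℚ ≃ₐ[ℚ] AlgebraicClosure ℚ

variable {W : WeierstrassCurve ℤ} [(ratCurve W).IsElliptic] {q : ℕ} {A : ValuationSubring Qb}

/-- Inertia at `q ≠ p` acts nontrivially on the `p`-torsion when `p` does not divide the exponent
of `q` in the discriminant. -/
theorem exists_inertia_curveRep_ne_one (hm : MultAt W q A) (hv : ¬ p ∣ padicValInt q W.Δ) :
    ∃ σ ∈ A.inertiaSubgroupIn ℚ, curveRep p W σ ≠ 1 := by
  by_contra hall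
  push Not at hall
  rcases eq_or_ne p 2 with rfl | hp2
  · refine hv ?_
    have hfix : ∀ σ ∈ A.inertiaSubgroupIn ℚ, σ (FA.Two.deltaRoot W) = FA.Two.deltaRoot W :=
      fun σ hσ => (FA.Two.apply_deltaRoot W σ).1 (by rw [hall σ hσ]; simp [FA.Two.sgn])
    have h := FA.Two.even_of_sq hm.prime hm.lies (c := (W.Δ : ℚ))
      (Int.cast_ne_zero.mpr hm.ne_zero) (by rw [FA.Two.deltaRoot_sq]; push_cast; rfl) hfix
    rw [padicValRat.of_int] at h
    exact_mod_cast h
  · refine hv (FA.Ribet.dvd_padicValInt_of_not_dvd_card hm hp2 fun hd => ?_)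
    have hbot : (A.inertiaSubgroupIn ℚ).map (curveRep p W).toHomUnits = ⊥ := by
      refine (Subgroup.eq_bot_iff_forall _).mpr fun u hu => ?_
      obtain ⟨σ, hσ, rfl⟩ := Subgroup.mem_map.mp hu
      exact Units.ext (by rw [MonoidHom.coe_toHomUnits, hall σ hσ, Units.val_one])
    rw [hbot, Subgroup.card_bot] at hd
    exact hp.out.not_dvd_one hd

/-- **A multiplicative prime `q ≠ p` with exponent prime to `p` gives everything**: irreducible
torsion then has all of `GL₂(ℤ / p ^ n)` as image, for every prime `p`. -/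
theorem reach_of_multAt (hirr : W.ModRepIsIrreducible p) (hm : MultAt W q A) (hqp : q ≠ p)
    (hv : ¬ p ∣ padicValInt q W.Δ) (B : FA.RT.Tate.TateBasis p W) (n : ℕ)
    {M : Matrix (Fin 2) (Fin 2) ℤ_[p]} (hM : IsUnit M.det) : Reach B.rep n M := by
  obtain ⟨σ, hσ, hne⟩ := exists_inertia_curveRep_ne_one hm hv
  refine reach_of_transvection B.rep (fun l hl => ?_) (exists_det_rep_eq B)
    (FA.Two.rep_inertia_mult B hm hqp hσ hσ) (by rwa [rep_map_toZMod]) n hM
  obtain ⟨g, hg⟩ := FA.Ribet.exists_moves_line hirr hl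
  exact ⟨g, by rw [rep_map_toZMod]; exact hg⟩

end Curve

end FA.PadicImage

end
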