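import Fermat.Agent.Root.SummaryRaynaudCriterion
import Fermat.Agent.Root.PadicImageTransvection

/-!
# The ramified primes of the field of `p`-torsion

For an elliptic curve over `ℚ`, an odd prime `p` and a prime `q ≠ p`, inertia at `q` fixes `E[p]`
exactly when the reduction at `q` is good, or multiplicative with `p ∣ v_q(j)`. So additive primes
always ramify in `ℚ(E[p])`, and apart from `p` and finitely many exceptional pairs the ramified
primes are the bad primes.
-/

set_option autoImplicit false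
set_option linter.style.haveILetI false
set_option linter.unusedSectionVars false

noncomputable section

open WeierstrassCurve WeierstrassCurve.Affine FA.EC FA.Frob FA.RT FA.RT.Tate
open scoped WeierstrassCurve.Affine

local notation "Qb" => AlgebraicClosure ℚ
local notation "GQ" => AlgebraicClosure ℚ ≃ₐ[ℚ] AlgebraicClosure ℚ

namespace FA.Root

/-- Multiplicative reduction gives a pole of `j`. -/
theorem padicValRat_j_neg_of_multiplicative {E : WeierstrassCurve ℚ} [E.IsElliptic] {q : ℕ}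
    [Fact q.Prime] {C : VariableChange ℚ_[q]}
    (h : HasMultiplicativeReduction ℤ_[q] (C • E.map (algebraMap ℚ ℚ_[q]))) :
    padicValRat q E.j < 0 := by
  have : IsMinimal ℤ_[q] (C • E.map (algebraMap ℚ ℚ_[q])) := h.toIsMinimal
  set X := C • E.map (algebraMap ℚ ℚ_[q]) with hX
  set V := integralModel ℤ_[q] X with hV
  have hval : ∀ v : ℤ_[q], ‖(v : ℚ_[q])‖ < 1 ↔ IsDedekindDomain.HeightOneSpectrum.valuation ℚ_[q]
      (IsDiscreteValuationRing.maximalIdeal ℤ_[q]) (algebraMap ℤ_[q] ℚ_[q] v) < 1 := fun v => by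
    rw [IsDedekindDomain.HeightOneSpectrum.valuation_lt_one_iff_mem, ← PadicInt.norm_def,
      PadicInt.norm_lt_one_iff_dvd]
    show _ ↔ v ∈ IsLocalRing.maximalIdeal ℤ_[q]
    rw [PadicInt.maximalIdeal_eq_span_p, Ideal.mem_span_singleton]
  have hΔ : ‖X.Δ‖ < 1 := by
    rw [← integralModel_Δ_eq ℤ_[q]]
    exact (hval _).mpr (by rw [integralModel_Δ_eq]; exact h.badReduction)
  have hc : ‖X.c₄‖ = 1 := by
    rw [← integralModel_c₄_eq ℤ_[q]]
    refine le_antisymm (PadicInt.norm_le_one _) (not_lt.mp fun hlt => ?_)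
    exact ((hval _).mp hlt).ne (by rw [integralModel_c₄_eq]; exact h.multiplicativeReduction)
  have hj : (E.j : ℚ_[q]) = X.c₄ ^ 3 / X.Δ := by
    have e : X.j = (E.j : ℚ_[q]) := by
      simp only [hX, variableChange_j, WeierstrassCurve.map_j]
      exact eq_ratCast _ _
    rw [← e, WeierstrassCurve.j, Units.val_inv_eq_inv_val, coe_Δ', div_eq_inv_mul]
  have h1 : 1 < ‖(E.j : ℚ_[q])‖ := by
    rw [hj, norm_div, norm_pow, hc, one_pow]
    exact one_lt_one_div (norm_pos_iff.mpr X.isUnit_Δ.ne_zero) hΔ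
  by_contra hv
  rcases eq_or_ne E.j 0 with h0 | h0
  · rw [h0, Rat.cast_zero, norm_zero] at h1
    exact absurd h1 (by norm_num)
  rw [Padic.eq_padicNorm, padicNorm.eq_zpow_of_nonzero h0] at h1
  refine h1.not_ge ?_
  push_cast
  exact zpow_le_one_of_nonpos₀ (by exact_mod_cast (Fact.out : q.Prime).one_lt.le)
    (neg_nonpos.mpr (not_lt.mp hv))

end FA.Root

namespace FA.OggShafarevich

/-- At a model with `q ∣ Δ` and `q ∤ c₄` the exponent of `q` in `j` is minus that in `Δ`. -/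
theorem padicValRat_j_eq {E : WeierstrassCurve ℚ} [E.IsElliptic] {W : WeierstrassCurve ℤ}
    (hW : W.IsIntegralModelOf E) {q : ℕ} [Fact q.Prime] (hc : ¬ (q : ℤ) ∣ W.c₄) :
    padicValRat q E.j = -(padicValInt q W.Δ : ℤ) := by
  rw [j_eq_of_model hW, padicValRat.div
      (pow_ne_zero 3 (Int.cast_ne_zero.mpr fun e => hc (by rw [e]; exact dvd_zero _)))
      (Int.cast_ne_zero.mpr (FA.Frob.Δ_ne_zero_of_model hW)), padicValRat.pow, padicValRat.of_int,
    padicValRat.of_int, padicValInt.eq_zero_of_not_dvd hc]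
  simp

end FA.OggShafarevich

namespace FA.Summary

variable (E : WeierstrassCurve ℚ) [E.IsElliptic] [DecidableEq (AlgebraicClosure ℚ)] {p : ℕ}
  (hp : p.Prime) (hp2 : p ≠ 2) {q : ℕ} [Fact q.Prime] (hpq : p ≠ q)

include hp hp2 hpq

/-- **The criterion for `E[p]` to be unramified at `q ≠ p`**, `p` odd: good reduction, or
multiplicative reduction with `p ∣ v_q(j)`. -/
theorem torsion_unramified_iff :
    (∀ A : ValuationSubring (AlgebraicClosure ℚ), A.LiesOverPrime q →
      ∀ σ ∈ A.inertiaSubgroupIn ℚ, ∀ P : (E.toAffine⁄(AlgebraicClosure ℚ)).Point, p • P = 0 →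
        Affine.Point.map σ.toAlgHom P = P) ↔
      (∃ C : VariableChange ℚ_[q], HasGoodReduction ℤ_[q] (C • E.map (algebraMap ℚ ℚ_[q]))) ∨
        ((∃ C : VariableChange ℚ_[q],
          HasMultiplicativeReduction ℤ_[q] (C • E.map (algebraMap ℚ ℚ_[q]))) ∧
          (p : ℤ) ∣ padicValRat q E.j) := by
  obtain rfl : (inferInstance : DecidableEq (AlgebraicClosure ℚ)) =
      instDecEqAlgebraicClosureRat := Subsingleton.elim _ _
  have := Fact.mk hp
  have hq : q.Prime := Fact.out
  constructor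
  · intro h
    have h3 : 3 ≤ p := by have := hp.two_le; omega
    obtain ⟨C, hC⟩ := raynaud_semistable E h3
      (fun hd => hpq ((Nat.prime_dvd_prime_iff_eq hq hp).mp hd).symm) h
    rcases hC with hC | hC
    · exact Or.inl ⟨C, hC⟩
    obtain ⟨W, hW, hW'⟩ := FA.OggShafarevich.exists_model_semistableAt E
      (FA.Root.isSemistableAt_of_reduction E (Or.inr hC))
    refine Or.inr ⟨⟨C, hC⟩, ?_⟩
    haveI := FA.Frob.ratCurve_isElliptic_of_Δ (FA.Frob.Δ_ne_zero_of_model hW)
    by_cases hbad : (q : ℤ) ∣ W.Δ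
    swap
    · by_cases hc : (q : ℤ) ∣ W.c₄
      · obtain ⟨C₁, hC₁⟩ := FA.Root.exists_good_of_not_dvd W q hbad
        obtain ⟨C₀, h₀⟩ := hW
        have hg : HasGoodReduction ℤ_[q]
            ((C₁ * C₀.map (algebraMap ℚ ℚ_[q])) • E.map (algebraMap ℚ ℚ_[q])) := by
          rwa [mul_smul, WeierstrassCurve.map_variableChange, h₀]
        exfalso
        have h1 := FA.Root.padicValRat_j_neg_of_multiplicative hC
        rw [FA.OggShafarevich.j_eq_of_model ⟨C₀, h₀⟩] at h1
        rcases eq_or_ne W.c₄ 0 with hc0 | hc0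
        · simp [hc0] at h1
        rw [padicValRat.div (pow_ne_zero 3 (Int.cast_ne_zero.mpr hc0))
            (Int.cast_ne_zero.mpr (FA.Frob.Δ_ne_zero_of_model ⟨C₀, h₀⟩)), padicValRat.pow,
          padicValRat.of_int, padicValRat.of_int, padicValInt.eq_zero_of_not_dvd hbad] at h1
        omega
      · rw [FA.OggShafarevich.padicValRat_j_eq hW hc, padicValInt.eq_zero_of_not_dvd hbad]
        simp
    have hc : ¬ (q : ℤ) ∣ W.c₄ := fun hc => hW' ⟨hbad, hc⟩
    rw [FA.OggShafarevich.padicValRat_j_eq hW hc, dvd_neg, Int.natCast_dvd_natCast]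
    by_contra hv
    obtain ⟨A, hA⟩ := FA.Deform.exists_liesOverPrime hq
    obtain ⟨σ, hσ, hne⟩ := FA.PadicImage.exists_inertia_curveRep_ne_one (p := p)
      (⟨FA.Frob.Δ_ne_zero_of_model hW, hq, hbad, hc, hA⟩ : MultAt W q A) hv
    refine hne ((curveRep_eq_one_iff W σ).mpr fun x => Subtype.ext ?_)
    obtain ⟨e, he⟩ := FA.Root.exists_equiv_of_model hW
    exact e.injective (by
      rw [← h A hA σ hσ (e x.1) (by rw [← map_nsmul, nsmul_torsion x, map_zero])]
      exact he _ _)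
  · intro h A hA σ hσ P hP
    rcases h with hg | ⟨⟨C, hC⟩, hdvd⟩
    · exact inertia_fixes_torsion_of_good E hg hp hpq hA hσ (n := 1) P (by rwa [pow_one])
    obtain ⟨W, hW, hW'⟩ := FA.OggShafarevich.exists_model_semistableAt E
      (FA.Root.isSemistableAt_of_reduction E (Or.inr hC))
    haveI := FA.Frob.ratCurve_isElliptic_of_Δ (FA.Frob.Δ_ne_zero_of_model hW)
    obtain ⟨e, he⟩ := FA.Root.exists_equiv_of_model hW
    obtain ⟨x, rfl⟩ := e.surjective P
    rw [← he]
    refine congrArg e ?_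
    have hx : p • x = 0 := e.injective (by rw [map_nsmul, hP, map_zero])
    by_cases hbad : (q : ℤ) ∣ W.Δ
    swap
    · exact smul_eq_of_good hq hA (Ne.symm hpq) hbad hσ (n := 1) (by rwa [pow_one])
    have hc : ¬ (q : ℤ) ∣ W.c₄ := fun hc => hW' ⟨hbad, hc⟩
    rw [FA.OggShafarevich.padicValRat_j_eq hW hc, dvd_neg] at hdvd
    have hm : MultAt W q A := ⟨FA.Frob.Δ_ne_zero_of_model hW, hq, hbad, hc, hA⟩
    exact congrArg Subtype.val (hm.smul_eq hp2 hpq
      (by rwa [WeierstrassCurve.map_Δ, eq_intCast, padicValRat.of_int]) hσ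
      ⟨x, (Submodule.mem_torsionBy_iff _ _).mpr (by rw [natCast_zsmul]; exact hx)⟩)

/-- **Additive primes ramify in every `ℚ(E[p])`**, `p ≠ q` odd. -/
theorem torsion_ramified_of_additive
    (hadd : ¬ ∃ C : VariableChange ℚ_[q], HasGoodReduction ℤ_[q] (C • E.map (algebraMap ℚ ℚ_[q])) ∨
      HasMultiplicativeReduction ℤ_[q] (C • E.map (algebraMap ℚ ℚ_[q]))) :
    ∃ A : ValuationSubring (AlgebraicClosure ℚ), A.LiesOverPrime q ∧
      ∃ σ ∈ A.inertiaSubgroupIn ℚ, ∃ P : (E.toAffine⁄(AlgebraicClosure ℚ)).Point,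
        p • P = 0 ∧ Affine.Point.map σ.toAlgHom P ≠ P := by
  by_contra h
  push Not at h
  rcases (torsion_unramified_iff E hp hp2 hpq).mp h with ⟨C, hC⟩ | ⟨⟨C, hC⟩, -⟩
  · exact hadd ⟨C, Or.inl hC⟩
  · exact hadd ⟨C, Or.inr hC⟩

/-- **The bad primes from `E[p]`**: if `p` divides no exponent of a pole of `j`, then `E[p]` is
unramified at `q ≠ p` exactly at good reduction. -/
theorem badPrimes_of_torsion (hj : padicValRat q E.j < 0 → ¬ (p : ℤ) ∣ padicValRat q E.j) :
    (∀ A : ValuationSubring (AlgebraicClosure ℚ), A.LiesOverPrime q →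
      ∀ σ ∈ A.inertiaSubgroupIn ℚ, ∀ P : (E.toAffine⁄(AlgebraicClosure ℚ)).Point, p • P = 0 →
        Affine.Point.map σ.toAlgHom P = P) ↔
      ∃ C : VariableChange ℚ_[q], HasGoodReduction ℤ_[q] (C • E.map (algebraMap ℚ ℚ_[q])) := by
  rw [torsion_unramified_iff E hp hp2 hpq]
  refine or_iff_left fun ⟨⟨C, hC⟩, hd⟩ => hj ?_ hd
  exact FA.Root.padicValRat_j_neg_of_multiplicative hC

/-- **Curves with the same field of `p`-torsion have the same bad primes**, apart from `p` and
the exponents divisible by `p`. -/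
theorem good_iff_of_same_torsion (E' : WeierstrassCurve ℚ) [E'.IsElliptic]
    (hj : padicValRat q E.j < 0 → ¬ (p : ℤ) ∣ padicValRat q E.j)
    (hj' : padicValRat q E'.j < 0 → ¬ (p : ℤ) ∣ padicValRat q E'.j)
    (h : ∀ σ : AlgebraicClosure ℚ ≃ₐ[ℚ] AlgebraicClosure ℚ,
      (∀ P : (E.toAffine⁄(AlgebraicClosure ℚ)).Point, p • P = 0 →
        Affine.Point.map σ.toAlgHom P = P) ↔
      ∀ P : (E'.toAffine⁄(AlgebraicClosure ℚ)).Point, p • P = 0 →
        Affine.Point.map σ.toAlgHom P = P) :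
    (∃ C : VariableChange ℚ_[q], HasGoodReduction ℤ_[q] (C • E.map (algebraMap ℚ ℚ_[q]))) ↔
      ∃ C : VariableChange ℚ_[q], HasGoodReduction ℤ_[q] (C • E'.map (algebraMap ℚ ℚ_[q])) := by
  rw [← badPrimes_of_torsion E hp hp2 hpq hj, ← badPrimes_of_torsion E' hp hp2 hpq hj']
  exact ⟨fun H A hA σ hσ => (h σ).mp (H A hA σ hσ), fun H A hA σ hσ => (h σ).mpr (H A hA σ hσ)⟩

end FA.Summary

namespace FA.Summary

/-- **For all large `p` the ramified primes of `ℚ(E[p])` other than `p` are the bad primes.** -/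
theorem exists_bound_torsion_ramification (E : WeierstrassCurve ℚ) [E.IsElliptic]
    [DecidableEq (AlgebraicClosure ℚ)] :
    ∃ M : ℕ, ∀ p : ℕ, p.Prime → M < p → ∀ q : ℕ, ∀ [Fact q.Prime], p ≠ q →
      ((∀ A : ValuationSubring (AlgebraicClosure ℚ), A.LiesOverPrime q →
        ∀ σ ∈ A.inertiaSubgroupIn ℚ, ∀ P : (E.toAffine⁄(AlgebraicClosure ℚ)).Point, p • P = 0 →
          Affine.Point.map σ.toAlgHom P = P) ↔
        ∃ C : VariableChange ℚ_[q], HasGoodReduction ℤ_[q] (C • E.map (algebraMap ℚ ℚ_[q]))) := by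
  refine ⟨E.j.den + 2, fun p hp hlt q _ hpq => badPrimes_of_torsion E hp (by omega) hpq
    fun hneg hd => ?_⟩
  have h1 : -(padicValNat q E.j.den : ℤ) ≤ padicValRat q E.j := by
    rw [padicValRat]
    omega
  have h2 : padicValNat q E.j.den ≤ E.j.den := by
    refine le_trans ?_ (Nat.le_of_dvd E.j.den_pos (pow_padicValNat_dvd (p := q)))
    exact (Nat.lt_pow_self (Fact.out : q.Prime).one_lt).le
  have h3 := Int.le_of_dvd (by omega) (dvd_neg.mpr hd)
  omega

end FA.Summary

end
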