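import Fermat.Agent.Root.SummaryIsogenyGoodTwo
import Fermat.Agent.Root.SummarySurjectiveLarge
import Fermat.Agent.Root.SummaryTorsionRamification

/-!
# An explicit form of Serre's surjectivity theorem

Let the invariant of an elliptic curve over `ℚ` have a pole at `q` and let `p` be a prime of
good or multiplicative reduction not dividing `v_q(j)`. If the curve is good at a prime `l ≠ p`
and `p > (l⁶ + 1)²`, or good at `2` and `p ∉ {2, 3, 5, 7, 13, 37}`, Galois induces every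
automorphism of every `E[p^n]`.
-/

set_option autoImplicit false
set_option linter.style.haveILetI false
set_option linter.unusedSectionVars false

noncomputable section

open WeierstrassCurve WeierstrassCurve.Affine Matrix FA.EC FA.Frob FA.RT
open scoped WeierstrassCurve.Affine

local notation "Qb" => AlgebraicClosure ℚ
local notation "GQ" => AlgebraicClosure ℚ ≃ₐ[ℚ] AlgebraicClosure ℚ

namespace FA.IsogenyPrimes

/-- A stable subgroup of a quadratic twist gives one of the curve of the same order. -/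
theorem exists_stableSubgroup_of_twist (E : WeierstrassCurve ℚ) [E.IsElliptic] {d : ℚ} (hd : d ≠ 0)
    (G : AddSubgroup ((FA.Twists.quadTwist E d).toAffine⁄Qb).Point)
    (hst : ∀ σ : GQ, ∀ P ∈ G, Affine.Point.map σ.toAlgHom P ∈ G) :
    ∃ G' : AddSubgroup (E.toAffine⁄Qb).Point, Nat.card G' = Nat.card G ∧
      ∀ σ : GQ, ∀ P ∈ G', Affine.Point.map σ.toAlgHom P ∈ G' := by
  obtain ⟨e, he⟩ := FA.Root.exists_twist_equiv E hd
  refine ⟨G.map e.toAddMonoidHom, (Nat.card_congr (e.addSubgroupMap G).toEquiv).symm, ?_⟩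
  rintro σ _ ⟨Q, hQ, rfl⟩
  rcases he σ Q with h | h
  · exact ⟨σ • Q, hst σ Q hQ, h.symm⟩
  · exact ⟨-(σ • Q), G.neg_mem (hst σ Q hQ), (map_neg e.toAddMonoidHom _).trans h.symm⟩

end FA.IsogenyPrimes

namespace FA.Summary

variable (E : WeierstrassCurve ℚ) [E.IsElliptic] [DecidableEq (AlgebraicClosure ℚ)] {p : ℕ}

/-- **Surjectivity from a pole of `j` and irreducibility**, with no semistability: if `p ≥ 5` has
no stable subgroup of order `p` and does not divide `v_q(j) < 0`, every automorphism of every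
`E[p^n]` comes from Galois. -/
theorem galoisSurjective_of_pole_noStable (hp : p.Prime) (h5 : 5 ≤ p)
    (hno : ∀ G : AddSubgroup (E.toAffine⁄(AlgebraicClosure ℚ)).Point, Nat.card G = p →
      ¬ ∀ σ : AlgebraicClosure ℚ ≃ₐ[ℚ] AlgebraicClosure ℚ, ∀ P ∈ G,
        Affine.Point.map σ.toAlgHom P ∈ G)
    {q : ℕ} [Fact q.Prime] (hj : padicValRat q E.j < 0) (hv : ¬ (p : ℤ) ∣ padicValRat q E.j)
    (n : ℕ) (φ : Submodule.torsionBy ℤ (E.toAffine⁄(AlgebraicClosure ℚ)).Point ((p : ℤ) ^ n) ≃+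
      Submodule.torsionBy ℤ (E.toAffine⁄(AlgebraicClosure ℚ)).Point ((p : ℤ) ^ n)) :
    ∃ σ : AlgebraicClosure ℚ ≃ₐ[ℚ] AlgebraicClosure ℚ, ∀ P,
      Affine.Point.map σ.toAlgHom P.1 = (φ P).1 := by
  obtain rfl : (inferInstance : DecidableEq (AlgebraicClosure ℚ)) =
      instDecEqAlgebraicClosureRat := Subsingleton.elim _ _
  haveI := Fact.mk hp
  haveI : NeZero (p ^ n) := ⟨pow_ne_zero _ hp.ne_zero⟩
  obtain ⟨d, hd, W, hW, hbad, hgc⟩ := FA.OggShafarevich.exists_multiplicative_twist E hj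
  haveI := FA.Root.quadTwist_isElliptic E hd
  have hΔ : W.Δ ≠ 0 := FA.Frob.Δ_ne_zero_of_model hW
  haveI := FA.Frob.ratCurve_isElliptic_of_Δ hΔ
  have hv' : ¬ p ∣ padicValInt q W.Δ := fun hdvd => hv (by
    rw [← FA.OggShafarevich.quadTwist_j E hd, FA.OggShafarevich.padicValRat_j_eq hW hgc, dvd_neg]
    exact_mod_cast hdvd)
  have hirr := FA.Root.Irred.modRepIsIrreducible_of_noStableSubgroup (p := p) hW fun G hG hst => by
    obtain ⟨G', hG', hst'⟩ := FA.IsogenyPrimes.exists_stableSubgroup_of_twist E hd G hst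
    exact hno G' (hG'.trans hG) hst'
  refine FA.Root.exists_map_eq_of_twist E hd _ ?_
    (FA.Root.exists_map_eq_of_model hW _ (FA.PadicImage.exists_smul_eq_pow_of_base h5
      (fun B M hM => ?_) n)) φ
  · have hJ := FA.Root.exists_addEquiv_sq_eq_neg hW (p ^ n)
    rwa [Nat.cast_pow] at hJ
  · obtain ⟨σ, hσ⟩ :=
      FA.IsogenyPrimes.exists_curveRep_eq_of_mult (by omega) hirr hΔ hbad hgc hv' M hM
    exact ⟨σ, (FA.PadicImage.rep_map_toZMod B σ).trans hσ⟩

variable [Fact p.Prime]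
  (hss : ∃ C : VariableChange ℚ_[p], HasGoodReduction ℤ_[p] (C • E.map (algebraMap ℚ ℚ_[p])) ∨
    HasMultiplicativeReduction ℤ_[p] (C • E.map (algebraMap ℚ ℚ_[p])))
  {q : ℕ} [Fact q.Prime] (hj : padicValRat q E.j < 0) (hv : ¬ (p : ℤ) ∣ padicValRat q E.j)

include hss hj hv

/-- **Serre's theorem with an explicit bound**: one good prime `l` and one pole of `j` at `q` give
surjectivity on every `E[p^n]` for the primes `p > (l ^ 6 + 1) ^ 2` of good or multiplicative
reduction not dividing `v_q(j)`. -/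
theorem galoisSurjective_of_good {l : ℕ} [Fact l.Prime]
    (hl : ∃ C : VariableChange ℚ_[l], HasGoodReduction ℤ_[l] (C • E.map (algebraMap ℚ ℚ_[l])))
    (hp : (l ^ 6 + 1) ^ 2 < p) (n : ℕ)
    (φ : Submodule.torsionBy ℤ (E.toAffine⁄(AlgebraicClosure ℚ)).Point ((p : ℤ) ^ n) ≃+
      Submodule.torsionBy ℤ (E.toAffine⁄(AlgebraicClosure ℚ)).Point ((p : ℤ) ^ n)) :
    ∃ σ : AlgebraicClosure ℚ ≃ₐ[ℚ] AlgebraicClosure ℚ, ∀ P,
      Affine.Point.map σ.toAlgHom P.1 = (φ P).1 := by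
  have h2 : 2 ≤ l := (Fact.out : l.Prime).two_le
  have h6 : l ≤ l ^ 6 := Nat.le_self_pow (by norm_num) l
  have hsq : l ^ 6 + 1 ≤ (l ^ 6 + 1) ^ 2 := Nat.le_self_pow (by norm_num) _
  refine galoisSurjective_of_pole_noStable E Fact.out (by nlinarith) (fun G hG hst => ?_) hj hv n φ
  have := isogenyPrime_le_twelve E (by omega) hss G hG hst (l := l) (by omega) hl
  omega

/-- **Serre's theorem at a curve good at `2`**: surjectivity on every `E[p^n]` at the primes of good
or multiplicative reduction outside `{2, 3, 5, 7, 13, 37}` not dividing `v_q(j) < 0`. -/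
theorem galoisSurjective_of_good_two
    (h2 : ∃ C : VariableChange ℚ_[2], HasGoodReduction ℤ_[2] (C • E.map (algebraMap ℚ ℚ_[2])))
    (hp : p ∉ ({2, 3, 5, 7, 13, 37} : Finset ℕ)) (n : ℕ)
    (φ : Submodule.torsionBy ℤ (E.toAffine⁄(AlgebraicClosure ℚ)).Point ((p : ℤ) ^ n) ≃+
      Submodule.torsionBy ℤ (E.toAffine⁄(AlgebraicClosure ℚ)).Point ((p : ℤ) ^ n)) :
    ∃ σ : AlgebraicClosure ℚ ≃ₐ[ℚ] AlgebraicClosure ℚ, ∀ P,
      Affine.Point.map σ.toAlgHom P.1 = (φ P).1 := by
  simp only [Finset.mem_insert, Finset.mem_singleton, not_or] at hp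
  have hp1 := (Fact.out : p.Prime).two_le
  have hp4 : p ≠ 4 := fun e => absurd (e ▸ (Fact.out : p.Prime)) (by norm_num)
  refine galoisSurjective_of_pole_noStable E Fact.out (by omega) (fun G hG hst => ?_) hj hv n φ
  have := isogenyPrime_of_good_two E (by omega) hss G hG hst h2
  omega

/-- **Good at `2` and `3`**: only `2, 3, 5, 7, 13` remain when `a₂` or `a₃` is not `±1`. -/
theorem galoisSurjective_of_good_two_three
    (h2 : ∃ C : VariableChange ℚ_[2], HasGoodReduction ℤ_[2] (C • E.map (algebraMap ℚ ℚ_[2])))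
    (h3 : ∃ C : VariableChange ℚ_[3], HasGoodReduction ℤ_[3] (C • E.map (algebraMap ℚ ℚ_[3])))
    (ha : |E.LFunction 2| ≠ 1 ∨ |E.LFunction 3| ≠ 1) (hp : 7 < p) (hp13 : p ≠ 13) (n : ℕ)
    (φ : Submodule.torsionBy ℤ (E.toAffine⁄(AlgebraicClosure ℚ)).Point ((p : ℤ) ^ n) ≃+
      Submodule.torsionBy ℤ (E.toAffine⁄(AlgebraicClosure ℚ)).Point ((p : ℤ) ^ n)) :
    ∃ σ : AlgebraicClosure ℚ ≃ₐ[ℚ] AlgebraicClosure ℚ, ∀ P,
      Affine.Point.map σ.toAlgHom P.1 = (φ P).1 := by
  refine galoisSurjective_of_pole_noStable E Fact.out (by omega) (fun G hG hst => ?_) hj hv n φ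
  rcases isogenyPrime_of_good_two_three E (by omega) hss G hG hst (by omega) h2 h3 with
    h | h | h | ⟨-, hb, hc⟩
  · omega
  · omega
  · omega
  · rcases ha with ha | ha <;> [exact ha hb; exact ha hc]

end FA.Summary

end
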