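import Fermat.Agent.GoodReduction.InertiaTrace
import Fermat.Agent.GoodReduction.PotentialFrobenius
import Fermat.Agent.Root.SummarySurjectiveExplicit

/-!
# Independence of the prime at potentially good reduction

At every prime `q` where `j` is integral, bad ones and `2`, `3` included, a Frobenius element has
on all torsion prime to `q` one equation `σ² - a σ + q = 0` with an integer `a`, `a² ≤ 4 q`. So the
isogeny primes of semistable reduction of a curve with `j` integral at `2` are among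
`3, 5, 7, 13, 37`.
-/

set_option autoImplicit false
set_option linter.style.haveILetI false
set_option linter.unusedSectionVars false

noncomputable section

open WeierstrassCurve WeierstrassCurve.Affine Matrix FA.EC FA.Frob FA.RT FA.RT.Tate
open FA.GoodReduction
open scoped WeierstrassCurve.Affine

local notation "Qb" => AlgebraicClosure ℚ
local notation "GQ" => AlgebraicClosure ℚ ≃ₐ[ℚ] AlgebraicClosure ℚ

namespace FA.GoodReduction

variable {W : WeierstrassCurve ℤ} [(ratCurve W).IsElliptic] {q : ℕ} [hqf : Fact q.Prime]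
  {A : ValuationSubring Qb}

/-- The trace of a Frobenius element at a prime of potentially good reduction, on every Tate
module at `p ≠ q`, is one integer. -/
theorem exists_trace_frobenius_of_integral (hA : A.LiesOverPrime q)
    (hj : 0 ≤ padicValRat q (ratCurve W).j) {σ : GQ} (hσ : A.IsFrobeniusAt σ q) :
    ∃ a : ℤ, a ^ 2 ≤ 4 * q ∧
      (∀ p : ℕ, p.Prime → p ≠ q → ∀ (n : ℕ) (x : Pts W), p ^ n • x = 0 →
        σ • σ • x - a • σ • x + (q : ℤ) • x = 0) ∧
      ∀ (p : ℕ) [Fact p.Prime], q ≠ p → ∀ B : TateBasis p W,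
        (B.rep σ).trace = (a : ℤ_[p]) ∧ (B.rep σ).det = (q : ℤ_[p]) := by
  have hq : q.Prime := hqf.out
  obtain ⟨a, ha, hquad⟩ := exists_frobenius_equation hA hj hσ
  refine ⟨a, ha, hquad, fun p _ hqp B => ?_⟩
  have hd := det_rep_frobenius B hq hA hqp hσ
  refine ⟨?_, hd⟩
  set M := B.rep σ
  have h0 : M * M - (a : ℤ_[p]) • M + (q : ℤ_[p]) • 1 = 0 := by
    refine B.ext_phi fun n v => ?_
    rw [zero_mulVec, map_zero, add_mulVec, sub_mulVec, smul_mulVec, smul_mulVec, one_mulVec,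
      ← mulVec_mulVec, Int.cast_smul_eq_zsmul, Nat.cast_smul_eq_nsmul, map_add, map_sub,
      map_zsmul, map_nsmul, ← B.rep_spec, ← B.rep_spec, ← natCast_zsmul]
    exact hquad p Fact.out (Ne.symm hqp) n _ (B.nsmul_phi n v)
  rw [LocalDef.mul_self_two M, hd] at h0
  have h1 : (M.trace - (a : ℤ_[p])) • M = 0 := by
    rw [← h0]
    module
  refine sub_eq_zero.mp ((smul_eq_zero.mp h1).resolve_right fun hM => ?_)
  rw [hM, det_zero, eq_comm, Nat.cast_eq_zero] at hd
  exact hq.ne_zero hd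

end FA.GoodReduction

namespace FA.Summary

variable (E : WeierstrassCurve ℚ) [E.IsElliptic] [DecidableEq (AlgebraicClosure ℚ)]

/-- **Independence of `l` at potentially good reduction**: if `j` is integral at `q` every
Frobenius element at `q` satisfies `σ² - a σ + q = 0` on all torsion prime to `q` for one integer
`a` with `a² ≤ 4 q`. -/
theorem potentiallyGood_frobenius {q : ℕ} [Fact q.Prime] (hj : 0 ≤ padicValRat q E.j)
    {A : ValuationSubring (AlgebraicClosure ℚ)} (hA : A.LiesOverPrime q)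
    {σ : AlgebraicClosure ℚ ≃ₐ[ℚ] AlgebraicClosure ℚ} (hσ : A.IsFrobeniusAt σ q) :
    ∃ a : ℤ, a ^ 2 ≤ 4 * q ∧ ∀ N : ℕ, ¬ q ∣ N →
      ∀ P : (E.toAffine⁄(AlgebraicClosure ℚ)).Point, N • P = 0 →
        Affine.Point.map σ.toAlgHom (Affine.Point.map σ.toAlgHom P) + (q : ℤ) • P =
          a • Affine.Point.map σ.toAlgHom P := by
  obtain rfl : (inferInstance : DecidableEq (AlgebraicClosure ℚ)) =
      instDecEqAlgebraicClosureRat := Subsingleton.elim _ _
  obtain ⟨W, hW⟩ := FA.Frob.exists_integralModel E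
  haveI := FA.Frob.ratCurve_isElliptic_of_Δ (FA.Frob.Δ_ne_zero_of_model hW)
  obtain ⟨e, he⟩ := FA.Root.exists_equiv_of_model hW
  obtain ⟨a, ha, hquad, -⟩ := exists_trace_frobenius_of_integral (W := W) hA
    (by rwa [FA.OggShafarevich.j_ratCurve hW]) hσ
  refine ⟨a, ha, fun N hN P hP => ?_⟩
  obtain ⟨x, rfl⟩ := e.surjective P
  rw [← he, ← he, ← map_zsmul, ← map_zsmul, ← map_add]
  congr 1
  let μ : Pts W →+ Pts W := DistribSMul.toAddMonoidHom (Pts W) σ
  have hF := hom_eq_zero_of_prime_pow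
    (μ.comp μ + (q : ℤ) • AddMonoidHom.id _ - a • μ) (fun p hp hpq n y hy => by
      show σ • σ • y + (q : ℤ) • y - a • (σ • y) = 0
      rw [← hquad p hp hpq n y hy]
      abel) N hN x (e.injective (by rw [map_nsmul, hP, map_zero]))
  exact sub_eq_zero.mp hF

variable {p : ℕ} [Fact p.Prime]
  (hss : ∃ C : VariableChange ℚ_[p], HasGoodReduction ℤ_[p] (C • E.map (algebraMap ℚ ℚ_[p])) ∨
    HasMultiplicativeReduction ℤ_[p] (C • E.map (algebraMap ℚ ℚ_[p])))

include hss

/-- **A prime of an isogeny and a prime `l` with `j` integral**: `p ∣ l¹² + 1 - t₁₂` for the trace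
`a` of a Frobenius element at `l`. -/
theorem isogenyPrime_dvd_twelve_of_integral (hp2 : p ≠ 2)
    (G : AddSubgroup (E.toAffine⁄(AlgebraicClosure ℚ)).Point) (hcard : Nat.card G = p)
    (hst : ∀ σ : AlgebraicClosure ℚ ≃ₐ[ℚ] AlgebraicClosure ℚ, ∀ P ∈ G,
      Affine.Point.map σ.toAlgHom P ∈ G)
    {l : ℕ} [Fact l.Prime] (hlp : l ≠ p) (hl : 0 ≤ padicValRat l E.j) :
    ∃ a : ℤ, a ^ 2 ≤ 4 * l ∧
      (p : ℤ) ∣ (l : ℤ) ^ 12 + 1 - FA.HasseBound.pointTrace a l 12 := by
  obtain rfl : (inferInstance : DecidableEq (AlgebraicClosure ℚ)) =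
      instDecEqAlgebraicClosureRat := Subsingleton.elim _ _
  have hp : p.Prime := Fact.out
  obtain ⟨C, hC⟩ := hss
  obtain ⟨W, hW, hs⟩ := FA.OggShafarevich.exists_model_semistableAt E
    (FA.Root.isSemistableAt_of_reduction E hC)
  haveI := FA.Frob.ratCurve_isElliptic_of_Δ (FA.Frob.Δ_ne_zero_of_model hW)
  obtain ⟨g, hg0, hgp, hgst⟩ := FA.IsogenyPrimes.exists_stable_point hW hp G hcard hst
  obtain ⟨A, hA⟩ := FA.Deform.exists_liesOverPrime (Fact.out : l.Prime)
  obtain ⟨F, hF⟩ := FA.Deform.exists_isFrobeniusAt (Fact.out : l.Prime) hA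
  obtain ⟨a, ha, -, htr⟩ := exists_trace_frobenius_of_integral (W := W) hA
    (by rwa [FA.OggShafarevich.j_ratCurve hW]) hF
  refine ⟨a, ha, FA.IsogenyPrimes.dvd_of_stable_of_trace (fun B A' hA' σ hσ => ?_)
    (fun q hq hqp => ?_) hg0 hgp hgst Fact.out hlp F a fun B => htr p hlp B⟩
  · by_cases hbad : (p : ℤ) ∣ W.Δ
    · have h := congrArg (PadicInt.toZMod (p := p)) (FA.OpenImageJ.det_rep_sub_one_of_multAt
        (A := A') ⟨FA.Frob.Δ_ne_zero_of_model hW, hp, hbad, fun h => hs ⟨hbad, h⟩, hA'⟩ B hσ)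
      rw [map_zero, RingHom.map_det, map_sub, map_one] at h
      exact h
    · exact FA.IsogenyPrimes.det_repBar_sub_one B hbad hA'
        (FA.OpenImage.exists_not_e1_of_stable_odd hp2 hA' hg0 hgp hgst) hσ
  · obtain ⟨A', hA'⟩ := FA.Deform.exists_liesOverPrime hq
    exact ⟨A', hA', fun σ hσ x hx hxs =>
      FA.IsogenyPrimes.pow_twelve_smul_eq hq hqp hA' hσ hx hxs⟩

/-- **Isogeny primes of curves with `j` integral at `2`**: an odd isogeny prime of good or
multiplicative reduction is `3, 5, 7, 13` or `37`. -/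
theorem isogenyPrime_of_integral_two (hp2 : p ≠ 2) (hl : 0 ≤ padicValRat 2 E.j)
    (G : AddSubgroup (E.toAffine⁄(AlgebraicClosure ℚ)).Point) (hcard : Nat.card G = p)
    (hst : ∀ σ : AlgebraicClosure ℚ ≃ₐ[ℚ] AlgebraicClosure ℚ, ∀ P ∈ G,
      Affine.Point.map σ.toAlgHom P ∈ G) :
    p ∈ ({3, 5, 7, 13, 37} : Finset ℕ) := by
  obtain ⟨a, ha, hd⟩ :=
    isogenyPrime_dvd_twelve_of_integral E hss hp2 G hcard hst (Ne.symm hp2) hl
  have hp : p.Prime := Fact.out
  norm_num at ha
  obtain ⟨h1, h2⟩ : -2 ≤ a ∧ a ≤ 2 := by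
    constructor <;> by_contra hc <;> nlinarith [not_le.mp hc]
  have h5 : p ∣ 5 ^ 2 * 13 ^ 2 → p = 5 ∨ p = 13 :=
    FA.IsogenyPrimes.eq_or_eq_of_dvd hp (by norm_num) (by norm_num)
  have h3 : p ∣ 3 ^ 4 * 7 ^ 2 → p = 3 ∨ p = 7 :=
    FA.IsogenyPrimes.eq_or_eq_of_dvd hp (by norm_num) (by norm_num)
  have h7 : p ∣ 2 ^ 4 * (7 ^ 1 * 37 ^ 1) → p = 7 ∨ p = 37 :=
    FA.IsogenyPrimes.eq_or_eq_of_dvd_two hp hp2 (by norm_num) (by norm_num)
  interval_cases a <;> norm_num [FA.HasseBound.pointTrace] at hd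
  · rcases h5 (by exact_mod_cast hd) with h | h <;> simp [h]
  · rcases h7 (by exact_mod_cast hd) with h | h <;> simp [h]
  · rcases h3 (by exact_mod_cast hd) with h | h <;> simp [h]
  · rcases h7 (by exact_mod_cast hd) with h | h <;> simp [h]
  · rcases h5 (by exact_mod_cast hd) with h | h <;> simp [h]

/-- **Explicit surjectivity with `j` integral at `2`**: a pole of `j` at `q` gives all of
`Aut E[p^n]` at the primes of good or multiplicative reduction outside `{2, 3, 5, 7, 13, 37}`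
not dividing `v_q(j)`. -/
theorem galoisSurjective_of_integral_two (hl : 0 ≤ padicValRat 2 E.j) {q : ℕ} [Fact q.Prime]
    (hj : padicValRat q E.j < 0) (hv : ¬ (p : ℤ) ∣ padicValRat q E.j)
    (hp : p ∉ ({2, 3, 5, 7, 13, 37} : Finset ℕ)) (n : ℕ)
    (φ : Submodule.torsionBy ℤ (E.toAffine⁄(AlgebraicClosure ℚ)).Point ((p : ℤ) ^ n) ≃+
      Submodule.torsionBy ℤ (E.toAffine⁄(AlgebraicClosure ℚ)).Point ((p : ℤ) ^ n)) :
    ∃ σ : AlgebraicClosure ℚ ≃ₐ[ℚ] AlgebraicClosure ℚ, ∀ P,
      Affine.Point.map σ.toAlgHom P.1 = (φ P).1 := by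
  simp only [Finset.mem_insert, Finset.mem_singleton, not_or] at hp
  have hp1 := (Fact.out : p.Prime).two_le
  have hp4 : p ≠ 4 := fun e => absurd (e ▸ (Fact.out : p.Prime)) (by norm_num)
  refine galoisSurjective_of_pole_noStable E Fact.out (by omega) (fun G hG hst => ?_) hj hv n φ
  have := isogenyPrime_of_integral_two E hss (by omega) hl G hG hst
  simp only [Finset.mem_insert, Finset.mem_singleton] at this
  omega

end FA.Summary

end
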