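import Fermat.Agent.GoodReduction.InertiaTrace
import Fermat.Agent.Root.SummaryRaynaudCriterion

/-!
# Independence of the prime for inertia, and semistable reduction after a finite extension

At every prime `q` and for every elliptic curve over `ℚ` an inertia element `σ` satisfies on all
torsion prime to `q` one equation `σ² + 1 = t σ` with `t` one of `0, ±1, ±2`: its trace on the Tate
modules is an integer independent of the prime. So `σ ^ 12` is unipotent, inertia fixing a level
`m ≥ 3` prime to `q` is unipotent on all of them, and semistable reduction is `t = 2`.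
-/

set_option autoImplicit false
set_option linter.style.haveILetI false
set_option linter.unusedSectionVars false

noncomputable section

open WeierstrassCurve WeierstrassCurve.Affine FA.EC FA.Frob FA.RT FA.RT.Tate FA.GoodReduction
open scoped WeierstrassCurve.Affine

local notation "Qb" => AlgebraicClosure ℚ
local notation "GQ" => AlgebraicClosure ℚ ≃ₐ[ℚ] AlgebraicClosure ℚ

namespace FA.GoodReduction

variable {E : WeierstrassCurve ℚ} [E.IsElliptic] {q : ℕ} [Fact q.Prime]
  {A : ValuationSubring Qb}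

/-- At a pole of `j` an inertia element is a sign times a unipotent one, the sign being that on a
square root. -/
theorem equation_of_pole (hj : padicValRat q E.j < 0) (hA : A.LiesOverPrime q) :
    ∃ s : Qb, s ≠ 0 ∧ ∀ σ ∈ A.inertiaSubgroupIn ℚ,
      (σ s = s ∨ σ s = -s) ∧ ∀ t : ℤ, (σ s = s → t = 2) → (σ s = -s → t = -2) →
        ∀ N : ℕ, ¬ q ∣ N → ∀ P : (E.toAffine⁄Qb).Point, N • P = 0 →
          Affine.Point.map σ.toAlgHom (Affine.Point.map σ.toAlgHom P) + P =
            t • Affine.Point.map σ.toAlgHom P := by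
  have hq : q.Prime := Fact.out
  obtain ⟨d, hd, W, hW, hdvd, hc⟩ := FA.OggShafarevich.exists_multiplicative_twist E hj
  haveI := FA.Root.quadTwist_isElliptic E hd
  have hΔ := FA.Frob.Δ_ne_zero_of_model hW
  haveI := FA.Frob.ratCurve_isElliptic_of_Δ hΔ
  obtain ⟨e, he⟩ := FA.Root.exists_equiv_of_model hW
  obtain ⟨s, r, hs, hr⟩ := FA.Root.exists_twist_equiv_sqrt E hd
  refine ⟨s, fun h0 => hd ((map_eq_zero (algebraMap ℚ Qb)).mp (by
    rw [← hs, h0, zero_pow two_ne_zero])), fun σ hσ => ?_⟩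
  have hsign : σ s = s ∨ σ s = -s := by
    have h2 : σ s ^ 2 = s ^ 2 := by rw [← map_pow, hs, σ.commutes]
    exact sq_eq_sq_iff_eq_or_eq_neg.mp h2
  refine ⟨hsign, fun t ht2 htn N hN P hP => ?_⟩
  let μ : (E.toAffine⁄Qb).Point →+ (E.toAffine⁄Qb).Point := Affine.Point.map σ.toAlgHom
  let F : (E.toAffine⁄Qb).Point →+ (E.toAffine⁄Qb).Point :=
    μ.comp μ + AddMonoidHom.id _ - t • μ
  have hF : F P = 0 := hom_eq_zero_of_prime_pow F (fun p hp hpq n Q hQ => ?_) N hN P hP
  · exact sub_eq_zero.mp hF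
  have := Fact.mk hp
  obtain ⟨B⟩ := exists_tateBasis (p := p) W
  obtain ⟨x, rfl⟩ := (e.trans r).surjective Q
  have hx : p ^ n • x = 0 := (e.trans r).injective (by rw [map_nsmul, hQ, map_zero])
  have hu := (rep_sub_one_sq_iff B σ).mp
    (FA.Two.rep_inertia_mult B (A := A) ⟨hΔ, hq, hdvd, hc, hA⟩ (Ne.symm hpq) hσ hσ) n x hx
  rw [smul_sub] at hu
  have hu' : σ • σ • x + x = (2 : ℤ) • (σ • x) := by
    rw [← sub_eq_zero,
      show σ • σ • x + x - (2 : ℤ) • (σ • x) = (σ • σ • x - σ • x) - (σ • x - x) by abel, hu,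
      sub_self]
  show μ (μ (r (e x))) + r (e x) - t • μ (r (e x)) = 0
  rcases hsign with hs' | hs'
  · obtain rfl := ht2 hs'
    have hμ : ∀ y, μ (r (e y)) = r (e (σ • y)) := fun y => by
      show Affine.Point.map σ.toAlgHom (r (e y)) = _
      rw [(hr σ (e y)).1 hs', Affine.Point.algEquiv_smul_def, ← he]
    rw [hμ, hμ, ← map_add, ← map_add, ← map_zsmul, ← map_zsmul, hu', sub_self]
  · obtain rfl := htn hs'
    have hμ : ∀ y, μ (r (e y)) = -r (e (σ • y)) := fun y => by
      show Affine.Point.map σ.toAlgHom (r (e y)) = _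
      rw [(hr σ (e y)).2 hs', Affine.Point.algEquiv_smul_def, ← he]
    rw [hμ, map_neg, hμ, neg_neg, ← map_add, ← map_add, hu', map_zsmul, map_zsmul, neg_zsmul,
      zsmul_neg, neg_neg, sub_self]

/-- The integer `t` of the equation is `2` or `-2` at a pole, by the sign on the square root. -/
theorem exists_sign_equation (hj : padicValRat q E.j < 0) (hA : A.LiesOverPrime q) :
    ∃ s : Qb, ∀ σ ∈ A.inertiaSubgroupIn ℚ, ∃ t : ℤ, (t = 2 ∨ t = -2) ∧ σ (σ s) = s ∧
      (σ s = s → t = 2) ∧ ∀ N : ℕ, ¬ q ∣ N → ∀ P : (E.toAffine⁄Qb).Point, N • P = 0 →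
        Affine.Point.map σ.toAlgHom (Affine.Point.map σ.toAlgHom P) + P =
          t • Affine.Point.map σ.toAlgHom P := by
  obtain ⟨s, hs0, hs⟩ := equation_of_pole hj hA
  refine ⟨s, fun σ hσ => ?_⟩
  obtain ⟨hsign, heq⟩ := hs σ hσ
  have hne : σ s = s → σ s ≠ -s := fun h h' => hs0 (CharZero.eq_neg_self_iff.mp (h.symm.trans h'))
  by_cases h : σ s = s
  · exact ⟨2, Or.inl rfl, by rw [h, h], fun _ => rfl,
      heq 2 (fun _ => rfl) fun h' => absurd h' (hne h)⟩
  · have h' := hsign.resolve_left h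
    exact ⟨-2, Or.inr rfl, by rw [h', map_neg, h', neg_neg], fun h'' => absurd h'' h,
      heq (-2) (fun h'' => absurd h'' h) fun _ => rfl⟩

/-- Minus a unipotent element fixes no level `m ≥ 3` of torsion prime to `q`. -/
theorem false_of_level_of_neg {σ : GQ} {m : ℕ} (hm : 3 ≤ m) (hqm : ¬ q ∣ m)
    (hfix : ∀ P : (E.toAffine⁄Qb).Point, m • P = 0 → Affine.Point.map σ.toAlgHom P = P)
    (heq : ∀ N : ℕ, ¬ q ∣ N → ∀ P : (E.toAffine⁄Qb).Point, N • P = 0 →
      Affine.Point.map σ.toAlgHom (Affine.Point.map σ.toAlgHom P) + P =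
        (-2 : ℤ) • Affine.Point.map σ.toAlgHom P) : False := by
  have hq : q.Prime := Fact.out
  obtain ⟨W, hW⟩ := FA.Frob.exists_integralModel E
  haveI := FA.Frob.ratCurve_isElliptic_of_Δ (FA.Frob.Δ_ne_zero_of_model hW)
  obtain ⟨e, -⟩ := FA.Root.exists_equiv_of_model hW
  obtain ⟨p, hp, n, hn, hpm⟩ : ∃ p : ℕ, p.Prime ∧ ∃ n : ℕ, 3 ≤ p ^ n ∧ p ^ n ∣ m := by
    rcases Nat.four_dvd_or_exists_odd_prime_and_dvd_of_two_lt (show 2 < m by omega) with
      h4 | ⟨l, hl, hlm, c, hc⟩
    · exact ⟨2, Nat.prime_two, 2, by norm_num, h4⟩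
    · have := hl.two_le
      exact ⟨l, hl, 1, by rw [pow_one]; omega, by rwa [pow_one]⟩
  have := Fact.mk hp
  obtain ⟨B⟩ := exists_tateBasis (p := p) W
  set y := e (B.φ (n + n) (Pi.single 0 1)) with hy
  have hord : ∀ k : ℕ, k • y = 0 → p ^ n * p ^ n ∣ k := fun k hk => by
    rw [← pow_add]
    exact (nsmul_phi_single_eq_zero B).mp (e.injective (by rw [map_nsmul, ← hy, hk, map_zero]))
  have hyN : (p ^ n * p ^ n) • y = 0 := by
    rw [hy, ← pow_add, ← map_nsmul, B.nsmul_phi, map_zero]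
  have hfix' : ∀ P : (E.toAffine⁄Qb).Point, p ^ n • P = 0 →
      Affine.Point.map σ.toAlgHom P = P := fun P hP => by
    obtain ⟨c, rfl⟩ := hpm
    exact hfix P (by rw [mul_comm, mul_nsmul', hP, nsmul_zero])
  have hqn : ¬ q ∣ p ^ n := fun h => hqm (h.trans hpm)
  have h0 := heq _ (fun h => hqn ((hq.dvd_mul.mp h).elim id id)) y hyN
  set z := Affine.Point.map σ.toAlgHom y - y with hzdef
  have hz : p ^ n • z = 0 := by
    rw [hzdef, nsmul_sub, ← map_nsmul, hfix' _ (by rw [← mul_nsmul', hyN]), sub_self]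
  have hσy : Affine.Point.map σ.toAlgHom y = y + z := (add_sub_cancel y _).symm
  rw [hσy, map_add, hσy, hfix' z hz] at h0
  have h4 : 4 • y + 4 • z = 0 := by
    rw [← sub_eq_zero] at h0
    rw [← h0]
    abel
  have hd : p ^ n * p ^ n ∣ p ^ n * 4 := hord _ (by
    have h5 : p ^ n • (4 • y) + p ^ n • (4 • z) = 0 := by rw [← nsmul_add, h4, nsmul_zero]
    rw [mul_nsmul']
    rwa [nsmul_left_comm z, hz, nsmul_zero, add_zero] at h5)
  have h6 := Nat.dvd_of_mul_dvd_mul_left (pow_pos hp.pos n) hd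
  have hpn : p ^ n = 4 := by
    have := Nat.le_of_dvd (by norm_num) h6
    interval_cases hk : p ^ n <;> omega
  rw [hpn] at hz
  rw [hz, add_zero] at h4
  have := Nat.le_of_dvd (by norm_num) (hord 4 h4)
  rw [hpn] at this
  omega

end FA.GoodReduction

namespace FA.Summary

/-- **Independence of `p` for inertia**: at every prime `q`, also `2` and `3`, and for every
elliptic curve over `ℚ` an inertia element at `q` has on all torsion prime to `q` the equation
`σ² + 1 = t σ` for one integer `t` with `|t| ≤ 2`: its trace on the `p`-adic Tate module is the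
same integer for all `p ≠ q`. -/
theorem inertia_trace_independent (E : WeierstrassCurve ℚ) [E.IsElliptic]
    [inst : DecidableEq (AlgebraicClosure ℚ)] {q : ℕ} [Fact q.Prime]
    {A : ValuationSubring (AlgebraicClosure ℚ)} (hA : A.LiesOverPrime q)
    {σ : AlgebraicClosure ℚ ≃ₐ[ℚ] AlgebraicClosure ℚ} (hσ : σ ∈ A.inertiaSubgroupIn ℚ) :
    ∃ t : ℤ, |t| ≤ 2 ∧ ∀ N : ℕ, ¬ q ∣ N →
      ∀ P : (E.toAffine⁄(AlgebraicClosure ℚ)).Point, N • P = 0 →
        Affine.Point.map σ.toAlgHom (Affine.Point.map σ.toAlgHom P) + P =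
          t • Affine.Point.map σ.toAlgHom P := by
  classical
  obtain rfl : inst = instDecEqAlgebraicClosureRat := Subsingleton.elim _ _
  by_cases hj : 0 ≤ padicValRat q E.j
  · have hq : q.Prime := Fact.out
    obtain ⟨W, hW⟩ := FA.Frob.exists_integralModel E
    haveI := FA.Frob.ratCurve_isElliptic_of_Δ (FA.Frob.Δ_ne_zero_of_model hW)
    obtain ⟨e, he⟩ := FA.Root.exists_equiv_of_model hW
    obtain ⟨t, ht2, ht⟩ := exists_trace_of_integral (W := W) hA
      (by rwa [FA.OggShafarevich.j_ratCurve hW]) hσ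
    refine ⟨t, ht2, fun N hN P hP => ?_⟩
    obtain ⟨x, rfl⟩ := e.surjective P
    rw [← he, ← he, ← map_add, ← map_zsmul]
    congr 1
    let μ : Pts W →+ Pts W := DistribSMul.toAddMonoidHom (Pts W) σ
    have hF := hom_eq_zero_of_prime_pow (μ.comp μ + AddMonoidHom.id _ - t • μ)
      (fun p hp hpq n y hy => by
        have := Fact.mk hp
        obtain ⟨B⟩ := exists_tateBasis (p := p) W
        show σ • σ • y + y - t • (σ • y) = 0
        rw [sub_eq_zero]
        exact smul_smul_add_eq B (det_rep_inertia B hq (Ne.symm hpq) hA hσ)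
          (ht p B (Ne.symm hpq)) hy) N hN x (e.injective (by rw [map_nsmul, hP, map_zero]))
    exact sub_eq_zero.mp hF
  · obtain ⟨s, hs⟩ := exists_sign_equation (not_le.mp hj) hA
    obtain ⟨t, ht, -, -, heq⟩ := hs σ hσ
    exact ⟨t, by rcases ht with rfl | rfl <;> norm_num, heq⟩

/-- **The semistable reduction theorem**: an inertia element at `q` fixing `E[m]`, for some `m ≥ 3`
prime to `q`, is unipotent on all torsion prime to `q`, for every elliptic curve over `ℚ`. -/
theorem inertia_unipotent_of_level (E : WeierstrassCurve ℚ) [E.IsElliptic]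
    [inst : DecidableEq (AlgebraicClosure ℚ)] {q : ℕ} [Fact q.Prime]
    {A : ValuationSubring (AlgebraicClosure ℚ)} (hA : A.LiesOverPrime q)
    {σ : AlgebraicClosure ℚ ≃ₐ[ℚ] AlgebraicClosure ℚ} (hσ : σ ∈ A.inertiaSubgroupIn ℚ)
    {m : ℕ} (hm : 3 ≤ m) (hqm : ¬ q ∣ m)
    (hfix : ∀ P : (E.toAffine⁄(AlgebraicClosure ℚ)).Point, m • P = 0 →
      Affine.Point.map σ.toAlgHom P = P)
    {N : ℕ} (hN : ¬ q ∣ N) (P : (E.toAffine⁄(AlgebraicClosure ℚ)).Point) (hP : N • P = 0) :
    Affine.Point.map σ.toAlgHom (Affine.Point.map σ.toAlgHom P) + P =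
      (2 : ℤ) • Affine.Point.map σ.toAlgHom P := by
  obtain rfl : inst = instDecEqAlgebraicClosureRat := Subsingleton.elim _ _
  by_cases hj : 0 ≤ padicValRat q E.j
  · have h := (inertia_level_iff E hj hA hσ hm hqm).mp hfix N hN P hP
    rw [h, h, two_zsmul]
  · obtain ⟨s, hs⟩ := exists_sign_equation (not_le.mp hj) hA
    obtain ⟨t, ht, -, -, heq⟩ := hs σ hσ
    rcases ht with rfl | rfl
    · exact heq N hN P hP
    · exact (false_of_level_of_neg hm hqm hfix heq).elim

/-- **Twelfth powers of inertia are unipotent** on all torsion prime to `q`, at every prime `q`. -/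
theorem inertia_pow_twelve_unipotent (E : WeierstrassCurve ℚ) [E.IsElliptic]
    [inst : DecidableEq (AlgebraicClosure ℚ)] {q : ℕ} [Fact q.Prime]
    {A : ValuationSubring (AlgebraicClosure ℚ)} (hA : A.LiesOverPrime q)
    {σ : AlgebraicClosure ℚ ≃ₐ[ℚ] AlgebraicClosure ℚ} (hσ : σ ∈ A.inertiaSubgroupIn ℚ)
    {N : ℕ} (hN : ¬ q ∣ N) (P : (E.toAffine⁄(AlgebraicClosure ℚ)).Point) (hP : N • P = 0) :
    Affine.Point.map (σ ^ 12).toAlgHom (Affine.Point.map (σ ^ 12).toAlgHom P) + P =
      (2 : ℤ) • Affine.Point.map (σ ^ 12).toAlgHom P := by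
  obtain rfl : inst = instDecEqAlgebraicClosureRat := Subsingleton.elim _ _
  by_cases hj : 0 ≤ padicValRat q E.j
  · obtain ⟨W, hW⟩ := FA.Frob.exists_integralModel E
    haveI := FA.Frob.ratCurve_isElliptic_of_Δ (FA.Frob.Δ_ne_zero_of_model hW)
    obtain ⟨e, he⟩ := FA.Root.exists_equiv_of_model hW
    have hmem : σ ^ 12 ∈ torsionFixer q W := by
      rcases pow_mem_torsionFixer (W := W) hA (by rwa [FA.OggShafarevich.j_ratCurve hW]) hσ with
        h | h
      · rw [show 12 = 4 * 3 from rfl, pow_mul]; exact pow_mem h 3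
      · rw [show 12 = 6 * 2 from rfl, pow_mul]; exact pow_mem h 2
    obtain ⟨x, rfl⟩ := e.surjective P
    rw [← he, hmem N hN x (e.injective (by rw [map_nsmul, hP, map_zero])), ← he,
      hmem N hN x (e.injective (by rw [map_nsmul, hP, map_zero])), two_zsmul]
  · obtain ⟨s, hs⟩ := exists_sign_equation (not_le.mp hj) hA
    obtain ⟨-, -, h2, -, -⟩ := hs σ hσ
    obtain ⟨t, -, -, ht, heq⟩ := hs (σ ^ 12) (pow_mem hσ 12)
    obtain rfl := ht (by
      simp only [pow_succ, pow_zero, AlgEquiv.mul_apply, AlgEquiv.one_apply, h2])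
    exact heq N hN P hP

/-- **Semistable reduction is `t = 2`**: good or multiplicative reduction at `q` holds exactly when
every inertia element above `q` is unipotent on all torsion prime to `q`. -/
theorem semistableAt_iff_trace_two (E : WeierstrassCurve ℚ) [E.IsElliptic]
    [inst : DecidableEq (AlgebraicClosure ℚ)] {q : ℕ} [Fact q.Prime] :
    (∃ C : VariableChange ℚ_[q], HasGoodReduction ℤ_[q] (C • E.map (algebraMap ℚ ℚ_[q])) ∨
        HasMultiplicativeReduction ℤ_[q] (C • E.map (algebraMap ℚ ℚ_[q]))) ↔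
      ∀ A : ValuationSubring (AlgebraicClosure ℚ), A.LiesOverPrime q →
        ∀ σ ∈ A.inertiaSubgroupIn ℚ, ∀ N : ℕ, ¬ q ∣ N →
          ∀ P : (E.toAffine⁄(AlgebraicClosure ℚ)).Point, N • P = 0 →
            Affine.Point.map σ.toAlgHom (Affine.Point.map σ.toAlgHom P) + P =
              (2 : ℤ) • Affine.Point.map σ.toAlgHom P := by
  obtain rfl : inst = instDecEqAlgebraicClosureRat := Subsingleton.elim _ _
  have hq : q.Prime := Fact.out
  have key : ∀ {σ : GQ} (P : (E.toAffine⁄Qb).Point),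
      Affine.Point.map σ.toAlgHom (Affine.Point.map σ.toAlgHom P - P) =
        Affine.Point.map σ.toAlgHom P - P ↔
      Affine.Point.map σ.toAlgHom (Affine.Point.map σ.toAlgHom P) + P =
        (2 : ℤ) • Affine.Point.map σ.toAlgHom P := fun {σ} P => by
    rw [map_sub, ← sub_eq_zero,
      ← sub_eq_zero (a := Affine.Point.map σ.toAlgHom (Affine.Point.map σ.toAlgHom P) + P)]
    constructor <;> intro h <;> rw [← h] <;> abel
  constructor
  · intro h A hA σ hσ N hN P hP
    let μ : (E.toAffine⁄Qb).Point →+ (E.toAffine⁄Qb).Point := Affine.Point.map σ.toAlgHom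
    have hF := hom_eq_zero_of_prime_pow (μ.comp μ + AddMonoidHom.id _ - (2 : ℤ) • μ)
      (fun p hp hpq n Q hQ => sub_eq_zero.mpr
        ((key Q).mp ((semistableAt_iff_unipotent E hp hpq).mp h A hA σ hσ n Q hQ))) N hN P hP
    exact sub_eq_zero.mp hF
  · intro h
    obtain ⟨p, hpq, hp⟩ := Nat.exists_infinite_primes (q + 1)
    exact (semistableAt_iff_unipotent E hp (by omega : p ≠ q)).mpr fun A hA σ hσ n P hP =>
      (key P).mpr (h A hA σ hσ _ (fun hd => by
        have := (Nat.prime_dvd_prime_iff_eq hq hp).mp (hq.dvd_of_dvd_pow hd); omega) P hP)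

end FA.Summary

end
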