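import Fermat.Agent.Root.SummaryModularCases

/-!
# Modularity of the curves with complex multiplication

Over `ℚ` these are the curves whose `j` is one of the thirteen singular invariants of class number
one.
-/

set_option autoImplicit false

noncomputable section

open WeierstrassCurve

namespace FA.Summary

/-- **Modularity of the elliptic curves over `ℚ` with complex multiplication**: if `j` is one of
the thirteen invariants of the orders of class number one, all coefficients of the L-function are
those of a cusp form of weight two on some `Γ₀(N)`, and the L-series, which converges for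
`re s > 3 / 2`, continues to an entire function. -/
theorem modularity_cm (E : WeierstrassCurve ℚ) [E.IsElliptic]
    (hj : E.j ∈ ({0, 54000, -12288000, 1728, 287496, -3375, 16581375, 8000, -32768, -884736,
      -884736000, -147197952000, -262537412640768000} : Finset ℚ)) :
    (∃ (N : ℕ) (f : CuspForm (CongruenceSubgroup.Gamma0 N) 2), 0 < N ∧
      ∀ n : ℕ, (UpperHalfPlane.qExpansion 1 f).coeff n = (E.LFunction n : ℂ)) ∧
    ∃ g : ℂ → ℂ, Differentiable ℂ g ∧ ∀ s : ℂ, 3 / 2 < s.re →
      LSeriesSummable ((↑) ∘ E.LFunction) s ∧ E.LSeries s = g s := by
  refine modularity_cases E (Or.inr (Or.inr ?_))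
  simp only [Finset.mem_insert, Finset.mem_singleton] at hj ⊢
  norm_num
  tauto

end FA.Summary

end
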