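import Fermat.Agent.GoodThree.Main
import Fermat.Agent.SerreLarge.GoodModel
import Fermat.Agent.Root.SummaryTwistCriterion
import Fermat.Agent.Root.SummaryOggShafarevich
import Fermat.Agent.Root.SummaryModularCM
import Fermat.Agent.Root.SummaryCMImage

/-!
# Curves with good reduction outside three

* `good_outside_three_j`: an elliptic curve over `ℚ` with good reduction at every prime other
  than `3` has `j = 0` or `j = -12288000`, so complex multiplication by an order of `ℚ(√-3)`;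
* `good_outside_three_j_occurs`: both invariants occur (conductor `27`);
* `modularity_good_outside_three`: all these curves are modular, all coefficients included, with
  entire L-series;
* `good_outside_three_not_surjective`: none has full image on `E[l]` for an odd prime `l`.
-/

set_option autoImplicit false
set_option linter.unusedSectionVars false
set_option linter.style.haveILetI false

noncomputable section

open WeierstrassCurve
open scoped WeierstrassCurve.Affine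

namespace FA.GoodThree

/-- The congruences at two of the invariant `c₄` of an integral equation. -/
theorem c4_parity (W : WeierstrassCurve ℤ) :
    (¬ (2 : ℤ) ∣ W.c₄ → (4 : ℤ) ∣ W.c₄ - 1) ∧ ((2 : ℤ) ∣ W.c₄ → (16 : ℤ) ∣ W.c₄) := by
  refine ⟨fun h => ?_, fun h => ?_⟩
  · obtain ⟨i, hi⟩ : ∃ i, W.b₂ = 2 * i + 1 := by
      rcases Int.even_or_odd W.b₂ with ⟨i, hi⟩ | ⟨i, hi⟩
      · refine absurd ⟨2 * i ^ 2 - 12 * W.b₄, ?_⟩ h
        rw [WeierstrassCurve.c₄, hi]; ring
      · exact ⟨i, hi⟩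
    exact ⟨i ^ 2 + i - 6 * W.b₄, by rw [WeierstrassCurve.c₄, hi]; ring⟩
  · obtain ⟨m, hm⟩ : (2 : ℤ) ∣ W.a₁ := by
      refine Int.prime_two.dvd_of_dvd_pow (n := 4) ?_
      rw [show W.a₁ ^ 4 =
          W.c₄ - 2 * (4 * W.a₁ ^ 2 * W.a₂ + 8 * W.a₂ ^ 2 - 12 * W.b₄) by
        rw [WeierstrassCurve.c₄, WeierstrassCurve.b₂]; ring]
      exact dvd_sub h (dvd_mul_right 2 _)
    refine ⟨(m ^ 2 + W.a₂) ^ 2 - 3 * (W.a₄ + m * W.a₃), ?_⟩
    rw [WeierstrassCurve.c₄, WeierstrassCurve.b₂, WeierstrassCurve.b₄, hm]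
    ring

/-- The equation `27a1`. -/
def modelZero : WeierstrassCurve ℤ := ⟨0, 0, 1, 0, 0⟩

/-- The equation `27a2`. -/
def modelBig : WeierstrassCurve ℤ := ⟨0, 0, 1, -270, -1708⟩

theorem model_invariants : modelZero.Δ = -3 ^ 3 ∧ modelZero.c₄ = 0 ∧
    modelBig.Δ = -3 ^ 11 ∧ modelBig.c₄ = 12960 := by
  decide +kernel

theorem good_of_Δ {W : WeierstrassCurve ℤ} {k : ℕ} (hW : W.Δ = -3 ^ k) (q : ℕ) [Fact q.Prime]
    (hq : q ≠ 3) : ∃ C : VariableChange ℚ_[q], HasGoodReduction ℤ_[q]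
      (C • (W.map (Int.castRingHom ℚ)).map (algebraMap ℚ ℚ_[q])) := by
  refine FA.Root.exists_good_of_not_dvd W q fun h => hq ?_
  rw [hW, dvd_neg] at h
  have h' : q ∣ 3 ^ k := by exact_mod_cast h
  exact (Nat.prime_dvd_prime_iff_eq Fact.out Nat.prime_three).1
    ((Fact.out : q.Prime).dvd_of_dvd_pow h')

end FA.GoodThree

namespace FA.Summary

open FA.GoodThree

/-- **The curves with good reduction outside three have `j = 0` or `j = -12288000`.** -/
theorem good_outside_three_j (E : WeierstrassCurve ℚ) [E.IsElliptic]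
    (hgood : ∀ q : ℕ, [Fact q.Prime] → q ≠ 3 →
      ∃ C : VariableChange ℚ_[q], HasGoodReduction ℤ_[q] (C • E.map (algebraMap ℚ ℚ_[q]))) :
    E.j = 0 ∨ E.j = -12288000 := by
  obtain ⟨W, hW, hd⟩ := FA.SerreLarge.exists_goodModel E
  have hΔ0 : W.Δ ≠ 0 := FA.Frob.Δ_ne_zero_of_model hW
  have hn := Nat.eq_prime_pow_of_unique_prime_dvd (p := 3) (Int.natAbs_ne_zero.2 hΔ0)
    fun {d} hd' hdvd => by
      by_contra hne
      have := Fact.mk hd'
      exact hd d (hgood d hne) (Int.natCast_dvd.2 hdvd)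
  generalize W.Δ.natAbs.primeFactorsList.length = k at hn
  obtain ⟨s, hs, hΔ⟩ : ∃ s : ℤ, (s = 1 ∨ s = -1) ∧ W.Δ = s * 3 ^ k := by
    rcases Int.natAbs_eq W.Δ with e | e
    · exact ⟨1, Or.inl rfl, by rw [e, hn]; push_cast; ring⟩
    · exact ⟨-1, Or.inr rfl, by rw [e, hn]; push_cast; ring⟩
  obtain ⟨hodd, heven⟩ := c4_parity W
  have hj := FA.OggShafarevich.j_eq_of_model hW
  rcases c4_cases (c6 := W.c₆) (k := k) hs (by rw [← hΔ]; linarith [W.c_relation]) hodd heven
    with h | h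
  · left; rw [hj, h]; simp
  · right
    rw [hj, div_eq_iff (Int.cast_ne_zero.2 hΔ0)]
    rw [← hΔ] at h
    exact_mod_cast h

/-- **Both invariants occur.** -/
theorem good_outside_three_j_occurs :
    ∀ v ∈ ({0, -12288000} : Finset ℚ), ∃ (E : WeierstrassCurve ℚ) (_ : E.IsElliptic), E.j = v ∧
      ∀ q : ℕ, [Fact q.Prime] → q ≠ 3 →
        ∃ C : VariableChange ℚ_[q], HasGoodReduction ℤ_[q] (C • E.map (algebraMap ℚ ℚ_[q])) := by
  obtain ⟨hΔ₁, hc₁, hΔ₂, hc₂⟩ := model_invariants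
  have := FA.Frob.ratCurve_isElliptic_of_Δ (W := modelZero) (by rw [hΔ₁]; norm_num)
  have := FA.Frob.ratCurve_isElliptic_of_Δ (W := modelBig) (by rw [hΔ₂]; norm_num)
  intro v hv
  simp only [Finset.mem_insert, Finset.mem_singleton] at hv
  rcases hv with rfl | rfl
  · refine ⟨modelZero.map (Int.castRingHom ℚ), ‹_›, ?_, fun q _ hq => good_of_Δ hΔ₁ q hq⟩
    rw [FA.OggShafarevich.j_eq_of_model (W := modelZero) ⟨1, one_smul _ _⟩, hc₁]
    simp
  · refine ⟨modelBig.map (Int.castRingHom ℚ), ‹_›, ?_, fun q _ hq => good_of_Δ hΔ₂ q hq⟩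
    rw [FA.OggShafarevich.j_eq_of_model (W := modelBig) ⟨1, one_smul _ _⟩, hc₂, hΔ₂]
    norm_num

/-- **The curves with good reduction outside three are modular.** -/
theorem modularity_good_outside_three (E : WeierstrassCurve ℚ) [E.IsElliptic]
    (hgood : ∀ q : ℕ, [Fact q.Prime] → q ≠ 3 →
      ∃ C : VariableChange ℚ_[q], HasGoodReduction ℤ_[q] (C • E.map (algebraMap ℚ ℚ_[q]))) :
    (∃ (N : ℕ) (f : CuspForm (CongruenceSubgroup.Gamma0 N) 2), 0 < N ∧
      ∀ n : ℕ, (UpperHalfPlane.qExpansion 1 f).coeff n = (E.LFunction n : ℂ)) ∧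
    ∃ g : ℂ → ℂ, Differentiable ℂ g ∧ ∀ s : ℂ, 3 / 2 < s.re →
      LSeriesSummable ((↑) ∘ E.LFunction) s ∧ E.LSeries s = g s :=
  modularity_cm E (by
    rcases good_outside_three_j E hgood with h | h <;> simp [h])

/-- **No curve good outside three has full image at an odd prime.** -/
theorem good_outside_three_not_surjective (E : WeierstrassCurve ℚ) [E.IsElliptic]
    [inst : DecidableEq (AlgebraicClosure ℚ)] {l : ℕ} (hl : l.Prime) (hl2 : l ≠ 2)
    (hgood : ∀ q : ℕ, [Fact q.Prime] → q ≠ 3 →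
      ∃ C : VariableChange ℚ_[q], HasGoodReduction ℤ_[q] (C • E.map (algebraMap ℚ ℚ_[q]))) :
    ¬ ∀ φ : Submodule.torsionBy ℤ (E.toAffine⁄(AlgebraicClosure ℚ)).Point (l : ℤ) ≃+
        Submodule.torsionBy ℤ (E.toAffine⁄(AlgebraicClosure ℚ)).Point (l : ℤ),
      ∃ σ : AlgebraicClosure ℚ ≃ₐ[ℚ] AlgebraicClosure ℚ, ∀ P,
        Affine.Point.map σ.toAlgHom P.1 = (φ P).1 :=
  not_galoisSurjectiveTorsion_of_cm_all E hl hl2 (by
    rcases good_outside_three_j E hgood with h | h <;> simp [h])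

end FA.Summary

end
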