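import Fermat.Agent.Chen.AlmostPrimeTwo

/-!
# Chen's theorem

Every large even `N` is a prime plus a number with at most two prime factors, and for every even
`h > 0` infinitely many primes `p` have `p + h` with at most two prime factors (Chen Jingrun, 1966,
1973): the linear sieve with Chen's weights, the triple products bounded by the switching, whose
remainders are controlled by a bilinear form of the theorem of Bombieri and Vinogradov. The counts
are `≫ N / log ^ 2 N` and all prime factors are `≥ N ^ (1/8)`.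

The thresholds and constants are ineffective (they come from the theorem of Siegel and Walfisz).
-/

set_option autoImplicit false

noncomputable section

namespace FA.Chen.Summary

open Finset Filter
open scoped ArithmeticFunction.Omega

/-- `N = p + P₂`, with the count. -/
theorem goldbach_prime_plus_two_count : ∃ η : ℝ, 0 < η ∧ ∀ᶠ N : ℕ in atTop, Even N →
    η * N / Real.log N ^ 2 ≤ (((range N).filter fun p => p.Prime ∧ 1 < N - p ∧ Ω (N - p) ≤ 2 ∧
      ∀ q ∈ (N - p).primeFactors, N ≤ q ^ 8).card : ℝ) :=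
  exists_goldbach_two

/-- **Chen's theorem.** -/
theorem goldbach_prime_plus_two : ∃ N₀ : ℕ, ∀ N : ℕ, N₀ ≤ N → Even N →
    ∃ p m : ℕ, p.Prime ∧ 1 < m ∧ Ω m ≤ 2 ∧ p + m = N := by
  obtain ⟨η, hη, h⟩ := goldbach_prime_plus_two_count
  obtain ⟨N₀, hN₀⟩ := eventually_atTop.1 (h.and (eventually_ge_atTop 2))
  refine ⟨N₀, fun N hN he => ?_⟩
  obtain ⟨h1, h2⟩ := hN₀ N hN
  have hl : 0 < Real.log N := Real.log_pos (Nat.one_lt_cast.2 (by omega))
  have hN0 : (0 : ℝ) < N := Nat.cast_pos.2 (by omega)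
  obtain ⟨p, hp⟩ := card_pos.1 (Nat.cast_pos.1
    (lt_of_lt_of_le (show (0 : ℝ) < η * N / Real.log N ^ 2 by positivity) (h1 he)))
  simp only [mem_filter, mem_range] at hp
  exact ⟨p, N - p, hp.2.1, hp.2.2.1, hp.2.2.2.1, by omega⟩

/-- The same with the two factors written out. -/
theorem goldbach_prime_plus_semiprime : ∃ N₀ : ℕ, ∀ N : ℕ, N₀ ≤ N → Even N →
    (∃ p q : ℕ, p.Prime ∧ q.Prime ∧ p + q = N) ∨
      ∃ p q r : ℕ, p.Prime ∧ q.Prime ∧ r.Prime ∧ p + q * r = N := by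
  obtain ⟨N₀, h⟩ := goldbach_prime_plus_two
  refine ⟨N₀, fun N hN he => ?_⟩
  obtain ⟨p, m, hp, hm, hΩ, e⟩ := h N hN he
  have hm0 : m ≠ 0 := by omega
  have hprod := Nat.prod_primeFactorsList hm0
  have hprime : ∀ q ∈ m.primeFactorsList, q.Prime := fun q hq =>
    Nat.prime_of_mem_primeFactorsList hq
  rw [ArithmeticFunction.cardFactors_apply] at hΩ
  match hL : m.primeFactorsList with
  | [] =>
    rw [hL] at hprod
    simp at hprod
    omega
  | [q] =>
    rw [hL] at hprod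
    simp only [List.prod_cons, List.prod_nil, mul_one] at hprod
    exact Or.inl ⟨p, q, hp, hprime q (by simp [hL]), hprod ▸ e⟩
  | [q, r] =>
    rw [hL] at hprod
    simp only [List.prod_cons, List.prod_nil, mul_one] at hprod
    exact Or.inr ⟨p, q, r, hp, hprime q (by simp [hL]), hprime r (by simp [hL]), hprod ▸ e⟩
  | _ :: _ :: _ :: _ =>
    rw [hL] at hΩ
    simp at hΩ

/-- `p + h = P₂`, with the count. -/
theorem prime_shift_two_count {h : ℕ} (hh : Even h) (hh0 : 0 < h) : ∃ η : ℝ, 0 < η ∧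
    ∀ᶠ x : ℕ in atTop, η * x / Real.log x ^ 2 ≤
      (((Icc 1 x).filter fun p => p.Prime ∧ Ω (p + h) ≤ 2 ∧
        ∀ q ∈ (p + h).primeFactors, x ≤ q ^ 8).card : ℝ) :=
  exists_shift_two hh hh0

/-- **Infinitely many primes `p` have `p + h` a `P₂`.** -/
theorem prime_shift_two {h : ℕ} (hh : Even h) (hh0 : 0 < h) :
    {p : ℕ | p.Prime ∧ Ω (p + h) ≤ 2}.Infinite := by
  obtain ⟨η, hη, hev⟩ := prime_shift_two_count hh hh0
  refine Set.infinite_of_forall_exists_gt fun B => ?_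
  obtain ⟨x₁, hx₁⟩ := eventually_atTop.1 hev
  obtain ⟨x, hx, hxB⟩ := ((eventually_ge_atTop (max 2 x₁)).and
    (CombinatorialSieve.eventually_error_le hη (B + 1))).exists
  have hx2 : 2 ≤ x := le_of_max_le_left hx
  have hl : 0 < Real.log x := Real.log_pos (Nat.one_lt_cast.2 (by omega))
  have h1 := (le_div_iff₀ hl).2 (hxB.trans_eq rfl)
  rw [div_div, ← sq] at h1
  have h2 : B + 1 ≤ ((Icc 1 x).filter fun p => p.Prime ∧ Ω (p + h) ≤ 2 ∧
      ∀ q ∈ (p + h).primeFactors, x ≤ q ^ 8).card :=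
    Nat.cast_le.1 (h1.trans (hx₁ x (le_of_max_le_right hx)))
  by_contra hc
  push Not at hc
  have h3 := h2.trans (card_le_card (t := Icc 1 B) fun p hp => ?_)
  · simp at h3
  rw [mem_filter, mem_Icc] at hp
  exact mem_Icc.2 ⟨hp.1.1, hc p ⟨hp.2.1, hp.2.2.1⟩⟩

/-- **Chen's theorem for twins.** -/
theorem infinitely_many_chen_primes : {p : ℕ | p.Prime ∧ Ω (p + 2) ≤ 2}.Infinite :=
  prime_shift_two even_two two_pos

/-- **A bilinear theorem of Bombieri and Vinogradov**: `a m` supported in `[x ^ δ, x ^ (1 - δ)]`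
against the primes `n ≥ y ≥ x ^ δ`, in the classes of the moduli `q ≤ √x / (log x) ^ B`. -/
theorem bilinear_bombieri_vinogradov (A : ℕ) {δ : ℝ} (hδ : 0 < δ) :
    ∃ (B : ℕ) (C : ℝ), 0 < C ∧ ∀ᶠ x : ℕ in atTop,
      ∀ (Q : ℕ) (y : ℝ) (a : ℕ → ℂ) (c : ℕ → ℕ), (Q : ℝ) ≤ √(x : ℝ) / Real.log x ^ B →
        (∀ m, ‖a m‖ ≤ 1) → (∀ m, a m ≠ 0 → (x : ℝ) ^ δ ≤ m ∧ (m : ℝ) ≤ (x : ℝ) ^ (1 - δ)) →
        (x : ℝ) ^ δ ≤ y → (∀ q ∈ Icc 1 Q, (c q).Coprime q) →
          ∑ q ∈ Icc 1 Q,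
            ‖(∑ m ∈ Ioc 0 x, ∑ n ∈ Ioc 0 x,
                if m * n ≤ x ∧ m * n ≡ c q [MOD q] ∧ n.Prime ∧ y ≤ n then a m else 0) -
              (∑ m ∈ Ioc 0 x, ∑ n ∈ Ioc 0 x,
                if m * n ≤ x ∧ (m * n).Coprime q ∧ n.Prime ∧ y ≤ n then a m else 0) / q.totient‖ ≤
            C * ((x : ℝ) / Real.log x ^ A) := by
  classical
  obtain ⟨B, C, hC, h⟩ := exists_bilinear_bombieri_vinogradov A hδ
  refine ⟨B, C, hC, h.mono fun x hx Q y a c hQ ha hs hy hc => ?_⟩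
  refine le_of_eq_of_le (sum_congr rfl fun q _ => ?_) (hx Q y a c hQ ha hs hy hc)
  rw [pairDisc]
  congr 2
  · refine sum_congr rfl fun m _ => sum_congr rfl fun n _ => ?_
    by_cases hp : n.Prime <;> by_cases hy : y ≤ n <;> simp [primeCoeff, hp, hy]
  · congr 1
    refine sum_congr rfl fun m _ => sum_congr rfl fun n _ => ?_
    by_cases hp : n.Prime <;> by_cases hy : y ≤ n <;> simp [primeCoeff, hp, hy]

end FA.Chen.Summary
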