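import Fermat.Agent.LinearGrowth.Main

/-!
# Growth of linear groups in characteristic zero

For a finitely generated linear group in characteristic zero and a finite set `S` with `1`
generating it as a monoid, the ball `S ^ n` grows polynomially when the group is virtually nilpotent
and exponentially otherwise: Gromov's theorem and the absence of intermediate growth for linear
groups (Milnor, Wolf, Tits).
-/

set_option autoImplicit false

noncomputable section

open scoped Pointwise

namespace FA.Summary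

open FA.LinearGrowth

/-- **No intermediate growth.** -/
theorem linear_growth_dichotomy {K : Type*} [Field K] [CharZero K] {n : ℕ}
    {G : Subgroup (Matrix.GeneralLinearGroup (Fin n) K)} (hG : G.FG) {S : Set G} (hS : S.Finite)
    (h1 : 1 ∈ S) (hgen : Submonoid.closure S = ⊤) :
    (∃ C d : ℕ, ∀ m : ℕ, (S ^ m).ncard ≤ C * (m + 1) ^ d) ∨
      ∃ c : ℝ, 1 < c ∧ ∀ m : ℕ, c ^ m ≤ ((S ^ m).ncard : ℝ) :=
  (growth_dichotomy hG).imp (fun h => h.2 S hS) fun h => h.2 S hS h1 hgen

/-- **Gromov's theorem for linear groups.** -/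
theorem linear_gromov {K : Type*} [Field K] [CharZero K] {n : ℕ}
    {G : Subgroup (Matrix.GeneralLinearGroup (Fin n) K)} (hG : G.FG) {S : Set G} (hS : S.Finite)
    (h1 : 1 ∈ S) (hgen : Submonoid.closure S = ⊤) :
    (∃ C d : ℕ, ∀ m : ℕ, (S ^ m).ncard ≤ C * (m + 1) ^ d) ↔ Group.IsVirtuallyNilpotent G := by
  rcases growth_dichotomy hG with ⟨hv, hp⟩ | ⟨hv, he⟩
  · exact iff_of_true (hp S hS) hv
  · exact iff_of_false (fun hp => not_hasExpGrowth_of_hasPolyGrowth hp (he S hS h1 hgen)) hv

/-- **Exponential growth is the failure of virtual nilpotence.** -/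
theorem linear_exponential_growth_iff {K : Type*} [Field K] [CharZero K] {n : ℕ}
    {G : Subgroup (Matrix.GeneralLinearGroup (Fin n) K)} (hG : G.FG) {S : Set G} (hS : S.Finite)
    (h1 : 1 ∈ S) (hgen : Submonoid.closure S = ⊤) :
    (∃ c : ℝ, 1 < c ∧ ∀ m : ℕ, c ^ m ≤ ((S ^ m).ncard : ℝ)) ↔ ¬ Group.IsVirtuallyNilpotent G := by
  rcases growth_dichotomy hG with ⟨hv, hp⟩ | ⟨hv, he⟩
  · exact iff_of_false (not_hasExpGrowth_of_hasPolyGrowth (hp S hS)) (not_not.2 hv)
  · exact iff_of_true (he S hS h1 hgen) hv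

/-- Such generating sets exist. -/
theorem exists_growth_generators {G : Type*} [Group G] [Group.FG G] :
    ∃ S : Set G, S.Finite ∧ 1 ∈ S ∧ Submonoid.closure S = ⊤ := by
  obtain ⟨T, hT, hfin⟩ := Group.fg_iff.1 ‹Group.FG G›
  refine ⟨insert 1 (T ∪ T⁻¹), (hfin.union hfin.inv).insert 1, Set.mem_insert 1 _, ?_⟩
  rw [eq_top_iff]
  intro g _
  have hg : g ∈ (Subgroup.closure T).toSubmonoid := hT ▸ Submonoid.mem_top g
  rw [Subgroup.closure_toSubmonoid] at hg
  exact Submonoid.closure_mono (Set.subset_insert _ _) hg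

open FA.TitsAlternative in
/-- **Both kinds of growth occur**: a cyclic group and Sanov's group. -/
theorem linear_growth_both_occur :
    (∃ G : Subgroup (Matrix.GeneralLinearGroup (Fin 2) ℚ), G.FG ∧ Infinite G ∧
        Group.IsVirtuallyNilpotent G) ∧
      ∃ G : Subgroup (Matrix.GeneralLinearGroup (Fin 2) ℚ), G.FG ∧
        ¬ Group.IsVirtuallyNilpotent G := by
  constructor
  · refine ⟨Subgroup.zpowers (elementary 0 1), ⟨{elementary 0 1}, ?_⟩, ?_, ?_⟩
    · rw [Finset.coe_singleton, ← Subgroup.zpowers_eq_closure]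
    · refine Infinite.of_injective
        (fun k : ℕ => (⟨elementary 0 1 ^ k, Subgroup.npow_mem_zpowers _ k⟩ :
          Subgroup.zpowers (elementary 0 1))) fun a b h => ?_
      have h1 : elementary 0 1 ^ a = elementary 0 1 ^ b := congrArg Subtype.val h
      rw [elementary_pow, elementary_pow] at h1
      have h2 := congrArg (fun u : Matrix.GeneralLinearGroup (Fin 2) ℚ =>
        (u : Matrix (Fin 2) (Fin 2) ℚ) 0 1) h1
      simpa [elementary] using h2
    · let : CommGroup (Subgroup.zpowers (elementary 0 (1 : ℚ))) :=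
        { (inferInstance : Group (Subgroup.zpowers (elementary 0 (1 : ℚ)))) with
          mul_comm := fun x y => Subtype.ext (by
            obtain ⟨_, i, rfl⟩ := x
            obtain ⟨_, j, rfl⟩ := y
            exact zpow_mul_comm _ i j) }
      exact Group.IsNilpotent.isVirtuallyNilpotent CommGroup.isNilpotent
  · set φ := FreeGroup.lift fun i => elementary i (2 : ℚ)
    refine ⟨φ.range, ?_, fun ⟨N, hN, hfi⟩ => ?_⟩
    · rw [FreeGroup.range_lift_eq_closure]
      exact Subgroup.fg_iff _ |>.2 ⟨_, rfl, Set.finite_range _⟩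
    · have := hN
      exact not_free_and_virtually_solvable ⟨N, hfi, inferInstance⟩
        ⟨φ.rangeRestrict, (MonoidHom.rangeRestrict_injective_iff).2 sanov⟩

end FA.Summary

end
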