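import Fermat.Agent.MarkovMinima.Binary

/-!
# Hurwitz's approximation theorem and the first Markov minima

`FA.MarkovMinima.binMin a b c` is the greatest lower bound of `|a x² + b x y + c y²|` at nonzero
integral points.
* `hurwitz_approximation`: every irrational `ξ` has infinitely many rationals within `1 / (√5 q²)`;
* `hurwitz_approximation_sharp`: `√5` is best possible, by the golden ratio;
* `markov_minimum_first`: an indefinite form of discriminant `D` takes a value at most `√(D / 5)`
  in absolute value, which is the least for `x² + x y - y²`;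
* `markov_minimum_second` (Korkine–Zolotarev, Markov): all forms but the multiples of the forms
  equivalent to that one have `binMin ≤ √(D / 8)`, which is attained by `x² + 2 x y - y²`.
-/

set_option autoImplicit false

noncomputable section

open Real FA.MarkovMinima

namespace FA.Summary

/-- **Hurwitz's theorem.** -/
theorem hurwitz_approximation {ξ : ℝ} (hξ : Irrational ξ) :
    {r : ℚ | |ξ - r| < 1 / (√5 * (r.den : ℝ) ^ 2)}.Infinite :=
  hurwitz_infinite hξ

/-- **Hurwitz: the constant is best possible.** -/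
theorem hurwitz_approximation_sharp {c : ℝ} (hc : √5 < c) :
    ∃ ξ : ℝ, Irrational ξ ∧ {r : ℚ | |ξ - r| < 1 / (c * (r.den : ℝ) ^ 2)}.Finite :=
  ⟨goldenRatio, goldenRatio_irrational, goldenRatio_finite hc⟩

/-- **The first minimum.** -/
theorem markov_minimum_first :
    (∀ a b c : ℝ, 0 < b ^ 2 - 4 * a * c → ∃ x y : ℤ, (x, y) ≠ (0, 0) ∧
      |a * (x : ℝ) ^ 2 + b * x * y + c * (y : ℝ) ^ 2| ≤ √((b ^ 2 - 4 * a * c) / 5)) ∧
    binMin 1 1 (-1) = √((1 ^ 2 - 4 * 1 * (-1)) / 5) := by
  refine ⟨fun a b c hD => ?_, ?_⟩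
  · obtain ⟨⟨x, y⟩, hv, h⟩ := exists_le_five hD
    exact ⟨x, y, hv, h⟩
  · rw [binMin_examples.1]
    norm_num

/-- **The second minimum.** -/
theorem markov_minimum_second :
    (∀ a b c : ℝ, 0 < b ^ 2 - 4 * a * c →
      binMin a b c ≤ √((b ^ 2 - 4 * a * c) / 8) ∨
        ∃ (p q r s : ℤ) (t : ℝ), |p * s - q * r| = 1 ∧ ∀ x y : ℤ,
          binForm a b c (p * x + q * y, r * x + s * y) =
            t * ((x : ℝ) ^ 2 + 1 * x * y + (-1) * (y : ℝ) ^ 2)) ∧
    binMin 1 2 (-1) = √((2 ^ 2 - 4 * 1 * (-1)) / 8) := by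
  refine ⟨fun a b c hD => binMin_le_or_golden hD, ?_⟩
  rw [binMin_examples.2]
  norm_num

end FA.Summary

end
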