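import Fermat.Agent.Solvable.Burnside
import Mathlib.FieldTheory.AbelRuffini
import Mathlib.FieldTheory.Galois.Basic

/-!
# Burnside's `pᵃ qᵇ` theorem

* `burnside_not_simple`: a finite group with a conjugacy class of prime power size `> 1` is not
  simple;
* `burnside_solvable`: groups of order `pᵃ qᵇ` are solvable; `nonsolvable_three_primes`: the order
  of a finite non-solvable group has at least three prime factors;
* `galois_two_primes_solvable`: a Galois extension of degree `pᵃ qᵇ` has solvable group, as does the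
  minimal polynomial of each of its elements.
-/

set_option autoImplicit false
set_option linter.style.haveILetI false

noncomputable section

namespace FA.Summary

/-- **No simple group has a class of prime power size.** -/
theorem burnside_not_simple (G : Type*) [Group G] [Finite G] [IsSimpleGroup G] (g : G) {p k : ℕ}
    (hp : p.Prime) (hk : k ≠ 0) : Nat.card {x | IsConj g x} ≠ p ^ k := fun h => by
  obtain ⟨N, hN, hb, ht⟩ := FA.Solvable.exists_normal_of_class hp hk h
  exact (hN.eq_bot_or_eq_top).elim hb ht

/-- **Burnside's `pᵃ qᵇ` theorem.** -/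
theorem burnside_solvable (G : Type*) [Group G] {p q : ℕ} (hp : p.Prime) (hq : q.Prime) {a b : ℕ}
    (h : Nat.card G = p ^ a * q ^ b) : Group.IsSolvable G := by
  haveI : Finite G := Nat.finite_of_card_ne_zero (h ▸ mul_ne_zero (pow_ne_zero a hp.ne_zero)
    (pow_ne_zero b hq.ne_zero))
  exact FA.Solvable.isSolvable_of_dvd hp hq a b G h.dvd

/-- **Non-solvable orders** have at least three prime factors. -/
theorem nonsolvable_three_primes (G : Type*) [Group G] [Finite G] (h : ¬ Group.IsSolvable G) :
    3 ≤ (Nat.card G).primeFactors.card := by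
  by_contra hlt
  obtain ⟨p, q, hp, hq, hpq⟩ : ∃ p q : ℕ, p.Prime ∧ q.Prime ∧
      (Nat.card G).primeFactors ⊆ {p, q} := by
    have h2 : (Nat.card G).primeFactors.card ≤ 2 := by omega
    interval_cases hc : (Nat.card G).primeFactors.card
    · exact ⟨2, 2, Nat.prime_two, Nat.prime_two, by simp [Finset.card_eq_zero.1 hc]⟩
    · obtain ⟨x, hx⟩ := Finset.card_eq_one.1 hc
      have := Nat.prime_of_mem_primeFactors (hx ▸ Finset.mem_singleton_self x)
      exact ⟨x, x, this, this, by simp [hx]⟩
    · obtain ⟨x, y, -, hxy⟩ := Finset.card_eq_two.1 hc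
      exact ⟨x, y, Nat.prime_of_mem_primeFactors (hxy ▸ Finset.mem_insert_self x _),
        Nat.prime_of_mem_primeFactors
          (hxy ▸ Finset.mem_insert_of_mem (Finset.mem_singleton_self y)), hxy.le⟩
  refine h (FA.Solvable.isSolvable_of_dvd hp hq (Nat.card G) (Nat.card G) G
    ((Nat.dvd_iff_prime_pow_dvd_dvd _ _).2 fun r k hr hd => ?_))
  rcases Nat.eq_zero_or_pos k with rfl | hk
  · simp
  have hkn : k ≤ Nat.card G :=
    ((Nat.lt_pow_self hr.one_lt).le).trans (Nat.le_of_dvd Nat.card_pos hd)
  have hr' := hpq (Nat.mem_primeFactors.2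
    ⟨hr, (dvd_pow_self r hk.ne').trans hd, Nat.card_pos.ne'⟩)
  rcases Finset.mem_insert.1 hr' with e | e
  · exact e ▸ (pow_dvd_pow r hkn).mul_right _
  · exact (Finset.mem_singleton.1 e) ▸ (pow_dvd_pow r hkn).mul_left _

/-- **Galois extensions of degree `pᵃ qᵇ`.** -/
theorem galois_two_primes_solvable (K L : Type*) [Field K] [Field L] [Algebra K L]
    [FiniteDimensional K L] [IsGalois K L] {p q : ℕ} (hp : p.Prime) (hq : q.Prime) {a b : ℕ}
    (h : Module.finrank K L = p ^ a * q ^ b) :
    Group.IsSolvable (L ≃ₐ[K] L) ∧ ∀ x : L, Group.IsSolvable (minpoly K x).Gal := by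
  have hG := burnside_solvable (L ≃ₐ[K] L) hp hq ((IsGalois.card_aut_eq_finrank K L).trans h)
  refine ⟨hG, fun x => ?_⟩
  haveI : Fact ((minpoly K x).map (algebraMap K L)).Splits := ⟨Normal.splits inferInstance x⟩
  exact Group.isSolvable_of_surjective (Polynomial.Gal.restrict_surjective (minpoly K x) L)

end FA.Summary

end
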