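import Fermat.Agent.Capelli.Main

/-!
# The theorem of Vahlen and Capelli

When a binomial `X ^ n - a` is irreducible, over any field.
-/

set_option autoImplicit false

namespace FA.Summary

open Polynomial IntermediateField

universe u

variable {K : Type u} [Field K]

/-- **The theorem of Vahlen and Capelli**: `X ^ n - a` is irreducible exactly when `a` is a `p`th
power for no prime `p ∣ n` and, if `4 ∣ n`, is not of the form `-4 b ^ 4`. -/
theorem vahlen_capelli {n : ℕ} (hn : 0 < n) (a : K) :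
    Irreducible (X ^ n - C a) ↔
      (∀ p : ℕ, p.Prime → p ∣ n → ∀ b : K, b ^ p ≠ a) ∧ (4 ∣ n → ∀ b : K, a ≠ -(4 * b ^ 4)) :=
  ⟨Capelli.good_of_irreducible, Capelli.irreducible_of_good n hn⟩

/-- The case of a power of `2`. -/
theorem capelli_prime_power_two {k : ℕ} (hk : 2 ≤ k) (a : K) :
    Irreducible (X ^ 2 ^ k - C a) ↔ (∀ b : K, b ^ 2 ≠ a) ∧ ∀ b : K, a ≠ -(4 * b ^ 4) := by
  rw [vahlen_capelli (by positivity)]
  refine and_congr ⟨fun h => h 2 Nat.prime_two (dvd_pow_self 2 (by omega)), fun h p hp hpk b => ?_⟩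
    ⟨fun h => h (pow_dvd_pow 2 hk : 2 ^ 2 ∣ 2 ^ k), fun h _ => h⟩
  obtain rfl := (Nat.prime_dvd_prime_iff_eq hp Nat.prime_two).1 (hp.dvd_of_dvd_pow hpk)
  exact h b

/-- The degree of a radical extension. -/
theorem radical_degree {n : ℕ} (hn : 0 < n) {a : K} {E : Type u} [Field E] [Algebra K E] {x : E}
    (hx : x ^ n = algebraMap K E a) (hp : ∀ p : ℕ, p.Prime → p ∣ n → ∀ b : K, b ^ p ≠ a)
    (h4 : 4 ∣ n → ∀ b : K, a ≠ -(4 * b ^ 4)) : Module.finrank K K⟮x⟯ = n := by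
  have hm := monic_X_pow_sub_C a hn.ne'
  have h := minpoly.eq_of_irreducible_of_monic ((vahlen_capelli hn a).2 ⟨hp, h4⟩)
    (show aeval x (X ^ n - C a) = 0 by simp [hx]) hm
  rw [adjoin.finrank ⟨_, hm, by simp [hx]⟩, ← h, natDegree_X_pow_sub_C]

end FA.Summary
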