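import Fermat.Agent.ZetaDivisibility.SmallDegree

/-!
# Divisibility of Dedekind zeta functions

* `aramata_brauer`: for a finite Galois extension `L/K` of number fields `ζ_L / ζ_K` continues to
  an entire function, without zeros on `1 ≤ re s`;
* `uchida_vanDerWaall`: the same for `ζ_M / ζ_K`, `M` any field between `K` and a Galois extension
  with solvable group;
* `zetaQuotient_degree_le_four`: so for every extension `M/K` of degree at most four;
* `aramata_brauer_zeros`: every zero of `(s - 1) ζ_K` is one of `(s - 1) ζ_L`, with at least that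
  multiplicity.

In characters: `|G| (regular - 1)`, and a permutation character minus one of a solvable group, are
natural combinations of induced linear characters.
-/

set_option autoImplicit false
set_option linter.style.haveILetI false

noncomputable section

open NumberField Module
open FA.ZetaDivisibility

namespace FA.Summary

variable (K L : Type*) [Field K] [NumberField K] [Field L] [NumberField L] [Algebra K L]
  [IsGalois K L]

/-- **The theorem of Aramata and Brauer.** -/
theorem aramata_brauer :
    ∃ F : ℂ → ℂ, Differentiable ℂ F ∧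
      (∀ s : ℂ, 1 < s.re → dedekindZeta L s = F s * dedekindZeta K s) ∧
      ∀ s : ℂ, 1 ≤ s.re → F s ≠ 0 :=
  exists_zeta_quotient_galois K L

/-- **The theorem of Uchida and van der Waall.** -/
theorem uchida_vanDerWaall (M : Type*) [Field M] [NumberField M] [Algebra K M] [Algebra M L]
    [IsScalarTower K M L] [hG : Group.IsSolvable (L ≃ₐ[K] L)] :
    ∃ F : ℂ → ℂ, Differentiable ℂ F ∧
      (∀ s : ℂ, 1 < s.re → dedekindZeta M s = F s * dedekindZeta K s) ∧
      ∀ s : ℂ, 1 ≤ s.re → F s ≠ 0 :=
  exists_zeta_quotient_solvable K L M hG

omit [IsGalois K L] in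
/-- **Extensions of degree at most four.** -/
theorem zetaQuotient_degree_le_four (h4 : finrank K L ≤ 4) :
    ∃ F : ℂ → ℂ, Differentiable ℂ F ∧
      (∀ s : ℂ, 1 < s.re → dedekindZeta L s = F s * dedekindZeta K s) ∧
      ∀ s : ℂ, 1 ≤ s.re → F s ≠ 0 :=
  exists_zeta_quotient_closure K L (isSolvable_closure_of_finrank_le K L h4)

/-- **Zeros of the zeta function of the base are zeros of that of a Galois extension.** -/
theorem aramata_brauer_zeros {A B : ℂ → ℂ} (hA : Differentiable ℂ A) (hB : Differentiable ℂ B)
    (hAL : ∀ s : ℂ, 1 < s.re → A s = (s - 1) * dedekindZeta L s)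
    (hBK : ∀ s : ℂ, 1 < s.re → B s = (s - 1) * dedekindZeta K s) (z : ℂ) :
    analyticOrderAt B z ≤ analyticOrderAt A z := by
  obtain ⟨F, hF, hFL, -⟩ := exists_zeta_quotient_galois K L
  rw [eq_of_eqOn_halfPlane hA (hF.mul hB) fun s hs => by
      rw [hAL s hs, Pi.mul_apply, hBK s hs, hFL s hs]; ring,
    analyticOrderAt_mul (hF.analyticAt z) (hB.analyticAt z)]
  exact le_add_self

end FA.Summary

end
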