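import Fermat.Agent.Tau.GenusField

/-!
# The genus field of `ℤ[√-n]`

Let the genus discriminants of `n` be `(-1)^((q-1)/2) q` for the odd primes `q ∣ n`, `-1` if
`n ≡ 0, 1 (mod 4)`, `2` if `n ≡ 0, 6 (mod 8)` and `-2` if `n ≡ 2 (mod 8)`. Their square roots lie in
`ℚ(√-n, j(√-n))`, the real ones in `ℚ(j(√-n))`; they generate its largest subfield abelian over
`ℚ`, of degree `2 ^ μ`.
-/

set_option autoImplicit false
set_option linter.style.haveILetI false

noncomputable section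

open UpperHalfPlane hiding I
open ModularForm EisensteinSeries Module

namespace FA.Summary

/-- **Weber**: the square roots of the genus discriminants lie in `ℚ(√-n, j(√-n))`, the real ones
in `ℚ(j(√-n))`. -/
theorem genusField_sqrt_mem (n : ℕ) [NeZero n] {τ : ℍ} (hτ : (τ : ℂ) ^ 2 = -(n : ℂ)) {D : ℤ}
    (hD : (∃ q : ℕ, q.Prime ∧ q ≠ 2 ∧ q ∣ n ∧ D = (-1) ^ (q / 2) * q) ∨
      (D = -1 ∧ (n % 4 = 0 ∨ n % 4 = 1)) ∨ (D = 2 ∧ (n % 8 = 0 ∨ n % 8 = 6)) ∨
      (D = -2 ∧ n % 8 = 2))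
    {x : ℂ} (hx : x ^ 2 = (D : ℂ)) :
    x ∈ IntermediateField.adjoin ℚ {(τ : ℂ), E₄ τ ^ 3 / ModularForm.discriminant τ} ∧
      (0 < D → x ∈ IntermediateField.adjoin ℚ {E₄ τ ^ 3 / ModularForm.discriminant τ}) := by
  have hmem := (FA.GenusField.genus_data n hτ).1
    (IntermediateField.subset_adjoin ℚ _ ⟨D, hD, hx⟩)
  refine ⟨hmem, fun hpos => FA.GenusField.mem_adjoin_j n hτ hmem ?_⟩
  have hre := congrArg Complex.re hx
  have him := congrArg Complex.im hx
  simp [pow_two, Complex.mul_re, Complex.mul_im] at hre him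
  have hD' : (0 : ℝ) < D := Int.cast_pos.2 hpos
  by_contra h
  have h0 : x.re = 0 := by
    rcases mul_eq_zero.1 (show x.re * x.im = 0 by linarith) with h' | h'
    exacts [h', absurd h' h]
  rw [h0] at hre
  nlinarith [mul_self_nonneg x.im]

/-- **The genus field**: the square roots of the genus discriminants generate an abelian extension
of `ℚ` of degree `2 ^ μ`. -/
theorem genusField_degree (n : ℕ) [NeZero n] :
    let G := IntermediateField.adjoin ℚ {x : ℂ | ∃ D : ℤ,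
      ((∃ q : ℕ, q.Prime ∧ q ≠ 2 ∧ q ∣ n ∧ D = (-1) ^ (q / 2) * q) ∨
        (D = -1 ∧ (n % 4 = 0 ∨ n % 4 = 1)) ∨ (D = 2 ∧ (n % 8 = 0 ∨ n % 8 = 6)) ∨
        (D = -2 ∧ n % 8 = 2)) ∧ x ^ 2 = (D : ℂ)}
    IsGalois ℚ G ∧ IsMulCommutative (G ≃ₐ[ℚ] G) ∧
      finrank ℚ G = 2 ^ (if n % 4 = 3 then (n.primeFactors.erase 2).card
        else if n % 8 = 0 then (n.primeFactors.erase 2).card + 2
        else (n.primeFactors.erase 2).card + 1) := by
  classical
  intro G
  have hn := NeZero.pos n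
  let τ : ℍ := ⟨Real.sqrt n * Complex.I, by simpa using hn⟩
  have hτ : (τ : ℂ) ^ 2 = -(n : ℂ) := by
    show ((Real.sqrt n : ℂ) * Complex.I) ^ 2 = _
    rw [mul_pow, Complex.I_sq, ← Complex.ofReal_pow, Real.sq_sqrt (Nat.cast_nonneg _)]
    push_cast
    ring
  refine ⟨?_, ?_, (FA.GenusField.genus_data n hτ).2.1⟩
  · -- a splitting field
    set f : Polynomial ℚ :=
      ∏ D ∈ FA.GenusField.genusDiscs n, (Polynomial.X ^ 2 - Polynomial.C (D : ℚ)) with hf
    have hf0 : f ≠ 0 := Finset.prod_ne_zero_iff.2 fun D _ =>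
      (Polynomial.monic_X_pow_sub_C _ two_ne_zero).ne_zero
    have hG : G = IntermediateField.adjoin ℚ (f.rootSet ℂ) := by
      refine congrArg (IntermediateField.adjoin ℚ) (Set.ext fun x => ?_)
      rw [Polynomial.mem_rootSet_of_ne hf0, hf, map_prod, Finset.prod_eq_zero_iff]
      simp only [FA.GenusField.mem_genusDiscs (NeZero.ne n), map_sub, map_pow, Polynomial.aeval_X,
        map_intCast, sub_eq_zero]
      exact Iff.rfl
    haveI : f.IsSplittingField ℚ G := by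
      rw [hG]
      exact IntermediateField.adjoin_rootSet_isSplittingField (IsAlgClosed.splits _)
    haveI : Normal ℚ G := Normal.of_isSplittingField f
    exact { }
  · refine ⟨⟨fun a b => ?_⟩⟩
    have e : (a * b).toAlgHom = (b * a).toAlgHom := by
      refine IntermediateField.adjoin_algHom_ext ℚ fun x hx => ?_
      obtain ⟨D, hD, hxD⟩ := hx
      set z : G := ⟨x, IntermediateField.subset_adjoin ℚ _ ⟨D, hD, hxD⟩⟩
      have hz : z ^ 2 = (D : G) := Subtype.ext (by push_cast; exact hxD)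
      have hpm : ∀ c : G ≃ₐ[ℚ] G, c z = z ∨ c z = -z := fun c =>
        sq_eq_sq_iff_eq_or_eq_neg.1 (by rw [← map_pow, hz, map_intCast])
      show a (b z) = b (a z)
      rcases hpm a with h | h <;> rcases hpm b with h' | h' <;> simp [h, h']
    exact AlgEquiv.ext fun z => DFunLike.congr_fun e z

/-- **The genus field is the largest subfield of `ℚ(√-n, j(√-n))` abelian over `ℚ`.** -/
theorem genusField_maximal (n : ℕ) [NeZero n] {τ : ℍ} (hτ : (τ : ℂ) ^ 2 = -(n : ℂ))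
    (F : IntermediateField ℚ ℂ)
    (hF : F ≤ IntermediateField.adjoin ℚ {(τ : ℂ), E₄ τ ^ 3 / ModularForm.discriminant τ})
    [IsGalois ℚ F] [IsMulCommutative (F ≃ₐ[ℚ] F)] :
    F ≤ IntermediateField.adjoin ℚ {x : ℂ | ∃ D : ℤ,
      ((∃ q : ℕ, q.Prime ∧ q ≠ 2 ∧ q ∣ n ∧ D = (-1) ^ (q / 2) * q) ∨
        (D = -1 ∧ (n % 4 = 0 ∨ n % 4 = 1)) ∨ (D = 2 ∧ (n % 8 = 0 ∨ n % 8 = 6)) ∨
        (D = -2 ∧ n % 8 = 2)) ∧ x ^ 2 = (D : ℂ)} :=
  (FA.GenusField.genus_data n hτ).2.2.2 F hF fun a b => mul_comm' a b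

end FA.Summary

end
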