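import Fermat.Agent.Kolyvagin.RealField

/-!
# Kolyvagin's bound and the equality of Gras for `ℚ(ζ_p)⁺`

`p` is a prime, `ℓ` an odd prime (possibly `ℓ = p`), `R = (ℤ/ℓ^k)[G]`, `G` the Galois group.

* `kolyvagin_bound`: for `F` totally real with image `ℚ(ζ_p + ζ_p⁻¹)`, `p` odd, `ℓ` prime to
  `#G`, and a primitive idempotent `e`, if `e R h` has index at most `ℓ^n` in `e R`,
  `h = 2 - ζ_p - ζ_p⁻¹`, `n + k₀ ≤ k`, `n < k`, then the `e`-part of the classes modulo `ℓ^k₀` has
  at most that index many elements.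
* `gras_equality`: for `ℚ(ζ_p)⁺`, `p ≥ 5`, `ℓ ∤ (p - 1)/2`, `ℓ^v` exact in `h⁺`, `2 v < k`:
  in every component the order of the classes modulo `ℓ^v` (the `ℓ`-part of the class group) is the
  index of the cyclotomic `p`-units in the `p`-units modulo `ℓ^k`; the former are `ℓ^v` in all.
* `gras_component_trivial`: a component of the classes is trivial iff in that component every
  `p`-unit is cyclotomic modulo `ℓ^k`.
* `exists_galois_group_real`: a commutative `G` with such an isomorphism exists.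

Classical (Gras's conjecture, by Kolyvagin's Euler system and Kummer's index theorem); independent
of S01.
-/

set_option autoImplicit false
set_option linter.unusedSectionVars false

noncomputable section

open NumberField FA.Kolyvagin FA.ArtinRec
open scoped Classical

namespace FA.Summary

universe u

/-- **Kolyvagin's bound.** -/
theorem kolyvagin_bound {Ω : Type*} [Field Ω] [CharZero Ω] [IsAlgClosed Ω]
    [Algebra.IsAlgebraic ℚ Ω] {F : Type*} [Field F] [NumberField F] [IsGalois ℚ F]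
    [IsTotallyReal F] {ι : F →+* Ω} {p ℓ k k₀ n : ℕ} [Fact ℓ.Prime] (hι : IsBase p ι)
    (c : Ctx p ℓ k) (hp2 : p ≠ 2) {G : Type*} [CommGroup G] [Fintype G]
    (τ : G →* (F ≃ₐ[ℚ] F)) (hτ : Function.Bijective τ) (hG : ¬ ℓ ∣ Fintype.card G) (hk₀ : k₀ ≤ k)
    {e : MonoidAlgebra (ZMod (ℓ ^ k)) G} (he : IsPrim e) (hn : n + k₀ ≤ k) (hnk : n < k)
    {h₀ : Fˣ} (hh₀ : ι h₀ = hFun Ω p 1)
    (hidx : Nat.card (levelHom e 0).range ≤
      ℓ ^ n * Nat.card (orbHom (phiV τ) dvd_rfl e (vmk (ℓ ^ k) h₀)).range) :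
    Nat.card (act (phiA τ) (pow_dvd_pow ℓ hk₀) e :
        Aq F (ℓ ^ k₀) →+ Aq F (ℓ ^ k₀)).range *
      Nat.card (orbHom (phiV τ) dvd_rfl e (vmk (ℓ ^ k) h₀)).range ≤
      Nat.card (levelHom e 0).range :=
  card_component_mul_le τ hG c.hk hτ hι c hp2 hk₀ he hn hnk hh₀ hidx

/-- The Galois group of the real field as a commutative group. -/
theorem exists_galois_group_real (p : ℕ) [Fact p.Prime] (K : Type u) [Field K] [NumberField K]
    [IsCyclotomicExtension {p} ℚ K] [IsCMField K] :
    ∃ (G : Type u) (_ : CommGroup G) (_ : Fintype G)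
      (τ : G →* (maximalRealSubfield K ≃ₐ[ℚ] maximalRealSubfield K)), Function.Bijective τ :=
  ⟨maximalRealSubfield K ≃ₐ[ℚ] maximalRealSubfield K,
    { (inferInstance : Group (maximalRealSubfield K ≃ₐ[ℚ] maximalRealSubfield K)) with
      mul_comm := (isAbelianGalois_real p K).is_comm.comm },
    Fintype.ofFinite _, MonoidHom.id _, Function.bijective_id⟩

variable {p : ℕ} [Fact p.Prime] {K : Type*} [Field K] [NumberField K]
  [IsCyclotomicExtension {p} ℚ K] [IsCMField K] {ℓ k : ℕ} [Fact ℓ.Prime] {G : Type*} [CommGroup G]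
  [Fintype G] (τ : G →* (maximalRealSubfield K ≃ₐ[ℚ] maximalRealSubfield K))

/-- **The equality of Gras.** -/
theorem gras_equality (hp5 : 5 ≤ p) (hl2 : ℓ ≠ 2) (hlp : ¬ ℓ ∣ (p - 1) / 2)
    (hk : 2 * padicValNat ℓ (classNumber (maximalRealSubfield K)) < k) (hτ : Function.Bijective τ) :
    Nat.card (Aq (maximalRealSubfield K)
        (ℓ ^ padicValNat ℓ (classNumber (maximalRealSubfield K)))) =
      ℓ ^ padicValNat ℓ (classNumber (maximalRealSubfield K)) ∧
      Nat.card (pUnitsMod (maximalRealSubfield K) p (ℓ ^ k)) =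
        ℓ ^ padicValNat ℓ (classNumber (maximalRealSubfield K)) *
          Nat.card (galSpan (ℓ := ℓ) (k := k) τ (realCycGen p K)) ∧
      ∀ e : MonoidAlgebra (ZMod (ℓ ^ k)) G, IsPrim e →
        Nat.card (act (phiA τ)
            (pow_dvd_pow ℓ
              (show padicValNat ℓ (classNumber (maximalRealSubfield K)) ≤ k by omega)) e :
            Aq (maximalRealSubfield K)
              (ℓ ^ padicValNat ℓ (classNumber (maximalRealSubfield K))) →+ _).range *
          Nat.card ((galSpan τ (realCycGen p K)).map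
            (act (phiV τ) dvd_rfl e : Vq (maximalRealSubfield K) (ℓ ^ k) →+ _)) =
        Nat.card ((pUnitsMod (maximalRealSubfield K) p (ℓ ^ k)).map
          (act (phiV τ) dvd_rfl e : Vq (maximalRealSubfield K) (ℓ ^ k) →+ _)) :=
  ⟨card_Aq_padicValNat (maximalRealSubfield K) ℓ, gras_real p K hp5 hl2 hlp hk τ hτ⟩

/-- **A component of the classes is trivial iff its `p`-units are cyclotomic.** -/
theorem gras_component_trivial (hp5 : 5 ≤ p) (hl2 : ℓ ≠ 2) (hlp : ¬ ℓ ∣ (p - 1) / 2)
    (hk : 2 * padicValNat ℓ (classNumber (maximalRealSubfield K)) < k) (hτ : Function.Bijective τ)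
    {e : MonoidAlgebra (ZMod (ℓ ^ k)) G} (he : IsPrim e) :
    (∀ c : Aq (maximalRealSubfield K)
        (ℓ ^ padicValNat ℓ (classNumber (maximalRealSubfield K))), act (phiA τ)
        (pow_dvd_pow ℓ
          (show padicValNat ℓ (classNumber (maximalRealSubfield K)) ≤ k by omega)) e c = 0) ↔
      (galSpan τ (realCycGen p K)).map
          (act (phiV τ) dvd_rfl e : Vq (maximalRealSubfield K) (ℓ ^ k) →+ _) =
        (pUnitsMod (maximalRealSubfield K) p (ℓ ^ k)).map
          (act (phiV τ) dvd_rfl e : Vq (maximalRealSubfield K) (ℓ ^ k) →+ _) := by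
  obtain ⟨-, hE, hall⟩ := gras_equality τ hp5 hl2 hlp hk hτ
  have h := hall e he
  have hWfin : Finite (galSpan (ℓ := ℓ) (k := k) τ (realCycGen p K)) :=
    Set.finite_coe_iff.2 (Set.finite_range _)
  have hEfin : Finite (pUnitsMod (maximalRealSubfield K) p (ℓ ^ k)) :=
    Nat.finite_of_card_ne_zero
      (hE ▸ mul_ne_zero (pow_ne_zero _ (Fact.out : ℓ.Prime).ne_zero) Nat.card_pos.ne')
  have hle := galSpan_le_pUnitsMod p K hp5 (ℓ := ℓ) (k := k) τ
  set f : Vq (maximalRealSubfield K) (ℓ ^ k) →+ Vq (maximalRealSubfield K) (ℓ ^ k) :=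
    act (phiV τ) dvd_rfl e
  have hfinW : Finite ((galSpan τ (realCycGen p K)).map f) :=
    Set.finite_coe_iff.2 ((Set.finite_coe_iff.1 hWfin).image _)
  have hfinE : Finite ((pUnitsMod (maximalRealSubfield K) p (ℓ ^ k)).map f) :=
    Set.finite_coe_iff.2 ((Set.finite_coe_iff.1 hEfin).image _)
  constructor
  · intro h0
    refine AddSubgroup.eq_of_le_of_card_ge (AddSubgroup.map_mono hle) ?_
    rw [← h, (AddSubgroup.card_eq_one.2 ((AddSubgroup.eq_bot_iff_forall _).2 ?_)), one_mul]
    rintro _ ⟨c, rfl⟩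
    exact h0 c
  · intro heq c
    rw [← heq] at h
    exact (AddSubgroup.eq_bot_iff_forall _).1
      (AddSubgroup.card_eq_one.1 ((mul_eq_right₀ Nat.card_pos.ne').1 h)) _ ⟨c, rfl⟩

end FA.Summary

end
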