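import Fermat.Agent.Root.SummaryTwistCriterionAll

/-!
# The criterion at primes of potentially good reduction

At a prime `p ≥ 5` without pole of `j` at which the valuation `6 m` of `Δ` is a multiple of six, the
twist of `E` by `p ^ m` has good reduction. So some quadratic twist of `E` is semistable as soon as
at every prime `E` is semistable, `j` has a pole, or `p ≥ 5` and `6 ∣ v_p(Δ)`.
-/

set_option autoImplicit false

noncomputable section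

open WeierstrassCurve

namespace FA.Root

open FA.Twists (quadTwist)

variable {p : ℕ} [Fact p.Prime]

/-- **The square class of a twist with good reduction** at `p ≥ 5`. -/
theorem exists_class_of_six_dvd (E : WeierstrassCurve ℚ) [E.IsElliptic] (hp : 5 ≤ p)
    (hj : ¬ padicValRat p E.j < 0) (h6 : (6 : ℤ) ∣ padicValRat p E.Δ) :
    ∃ Z : ℤ, Z ≠ 0 ∧
      ∀ D : ℤ, D ≠ 0 → NearSquare p (D * Z) → IsSemistableAt (quadTwist E (D : ℚ)) p := by
  obtain ⟨m, hm⟩ := h6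
  have hpp : p.Prime := Fact.out
  have hpQ : (p : ℚ_[p]) ≠ 0 := Nat.cast_ne_zero.mpr hpp.ne_zero
  have hpR : (p : ℝ) ≠ 0 := Nat.cast_ne_zero.mpr hpp.ne_zero
  have hΔ : E.Δ ≠ 0 := E.isUnit_Δ.ne_zero
  have ej : E.j = E.c₄ ^ 3 / E.Δ := by
    rw [WeierstrassCurve.j, Units.val_inv_eq_inv_val, coe_Δ']; ring
  set l : ℚ_[p] := (p : ℚ_[p]) ^ (-m) with hl
  have hlΔ : ‖l ^ 6 * (E.Δ : ℚ_[p])‖ = 1 := by
    rw [norm_mul, norm_pow, hl, norm_zpow, Padic.norm_p, Padic.eq_padicNorm,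
      padicNorm.eq_zpow_of_nonzero hΔ, hm]
    push_cast
    rw [inv_zpow', neg_neg, ← zpow_natCast, ← zpow_mul, ← zpow_add₀ hpR,
      show m * ((6 : ℕ) : ℤ) + -(6 * m) = 0 by push_cast; ring, zpow_zero]
  have hjn : ‖(E.j : ℚ_[p])‖ ≤ 1 := by
    rcases eq_or_ne E.j 0 with h0 | h0
    · simp [h0]
    · rw [Padic.eq_padicNorm, padicNorm.eq_zpow_of_nonzero h0]
      push_cast
      exact zpow_le_one_of_nonpos₀ (by exact_mod_cast hpp.one_le) (by omega)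
  have h4n : ‖l ^ 2 * (E.c₄ : ℚ_[p])‖ ≤ 1 := by
    refine (pow_le_one_iff_of_nonneg (norm_nonneg _) three_ne_zero).mp ?_
    rw [← norm_pow, show (l ^ 2 * (E.c₄ : ℚ_[p])) ^ 3 =
        l ^ 6 * (E.Δ : ℚ_[p]) * (E.j : ℚ_[p]) by
      rw [ej]; push_cast; field_simp [Rat.cast_ne_zero.mpr hΔ], norm_mul, hlΔ, one_mul]
    exact hjn
  have hrel : (l ^ 3 * (E.c₆ : ℚ_[p])) ^ 2 =
      (l ^ 2 * (E.c₄ : ℚ_[p])) ^ 3 + ((-1728 : ℤ) : ℚ_[p]) * (l ^ 6 * (E.Δ : ℚ_[p])) := by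
    have e := congrArg (fun x : ℚ => (x : ℚ_[p])) E.c_relation
    push_cast at e ⊢
    linear_combination (l ^ 6) * e
  have h6n : ‖l ^ 3 * (E.c₆ : ℚ_[p])‖ ≤ 1 := by
    refine (pow_le_one_iff_of_nonneg (norm_nonneg _) two_ne_zero).mp ?_
    rw [← norm_pow, hrel]
    refine (Padic.nonarchimedean _ _).trans (max_le ?_ ?_)
    · rw [norm_pow]; exact pow_le_one₀ (norm_nonneg _) h4n
    · rw [norm_mul, hlΔ, mul_one]; exact Padic.norm_int_le_one _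
  -- `48` and `864` are units at `p`
  have hunit : ∀ n : ℕ, n ∣ 6 ^ 5 → IsUnit (n : ℤ_[p]) := fun n hn => by
    rw [PadicInt.isUnit_iff]
    refine le_antisymm (PadicInt.norm_le_one _) (not_lt.mp fun h => ?_)
    rw [show (n : ℤ_[p]) = ((n : ℤ) : ℤ_[p]) by norm_num, PadicInt.norm_intCast_lt_one_iff,
      Int.natCast_dvd_natCast] at h
    have hd := hpp.dvd_of_dvd_pow (h.trans hn)
    have := Nat.le_of_dvd (by norm_num) hd
    interval_cases p <;> first | omega | (revert hpp; decide)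
  obtain ⟨x, hx⟩ : ∃ x : ℤ_[p], (x : ℚ_[p]) = l ^ 2 * (E.c₄ : ℚ_[p]) := ⟨⟨_, h4n⟩, rfl⟩
  obtain ⟨y, hy⟩ : ∃ y : ℤ_[p], (y : ℚ_[p]) = l ^ 3 * (E.c₆ : ℚ_[p]) := ⟨⟨_, h6n⟩, rfl⟩
  obtain ⟨a, ha⟩ := (hunit 48 (by norm_num)).dvd (a := x)
  obtain ⟨b, hb⟩ := (hunit 864 (by norm_num)).dvd (a := y)
  set V : WeierstrassCurve ℤ_[p] := ⟨0, 0, 0, -a, -b⟩ with hV
  have e4 : V.c₄ = 48 * a := by simp only [hV, WeierstrassCurve.c₄, b₂, b₄]; ring
  have e6 : V.c₆ = 864 * b := by simp only [hV, WeierstrassCurve.c₆, b₂, b₄, b₆]; ring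
  have f4 : (V.c₄ : ℚ_[p]) = l ^ 2 * (E.c₄ : ℚ_[p]) := by
    rw [e4, ← hx, ha, Nat.cast_ofNat]
  have f6 : (V.c₆ : ℚ_[p]) = l ^ 3 * (E.c₆ : ℚ_[p]) := by
    rw [e6, ← hy, hb, Nat.cast_ofNat]
  have fΔ : ¬ (p : ℤ_[p]) ∣ V.Δ := fun hd => by
    have e := congrArg (fun x : ℤ_[p] => (x : ℚ_[p])) V.c_relation
    simp only [PadicInt.coe_mul, PadicInt.coe_sub, PadicInt.coe_pow, f4, f6, hrel] at e
    have e' : (V.Δ : ℚ_[p]) = l ^ 6 * (E.Δ : ℚ_[p]) := by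
      refine mul_left_cancel₀ (show (1728 : ℚ_[p]) ≠ 0 by norm_num) ?_
      rw [show ((1728 : ℤ_[p]) : ℚ_[p]) = 1728 from map_ofNat PadicInt.Coe.ringHom 1728] at e
      push_cast at e ⊢
      linear_combination e
    have h1 := (PadicInt.norm_lt_one_iff_dvd _).mpr hd
    rw [PadicInt.norm_def, e', hlΔ] at h1
    exact lt_irrefl _ h1
  refine ⟨(p : ℤ) ^ m.natAbs, pow_ne_zero _ (Int.natCast_ne_zero.mpr hpp.ne_zero),
    fun D _ hN => ?_⟩
  obtain ⟨t, ht, e⟩ : ∃ t : ℚ_[p], t ≠ 0 ∧ l * (p : ℚ_[p]) ^ m.natAbs * t ^ 2 = 1 := by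
    refine ⟨if 0 ≤ m then 1 else (p : ℚ_[p]) ^ m,
      by split_ifs <;> simp [zpow_ne_zero _ hpQ], ?_⟩
    rw [hl, ← zpow_natCast]
    split_ifs with h0
    · rw [one_pow, mul_one, ← zpow_add₀ hpQ, Int.natAbs_of_nonneg h0, neg_add_cancel, zpow_zero]
    · rw [← zpow_natCast ((p : ℚ_[p]) ^ m), ← zpow_mul, ← zpow_add₀ hpQ, ← zpow_add₀ hpQ]
      rw [show -m + (m.natAbs : ℤ) + m * ((2 : ℕ) : ℤ) = 0 by omega, zpow_zero]
  refine isSemistableAt_quadTwist_of_nearSquare E V f4 f6 (fun h => fΔ h.1) (D := D) ht ?_ hN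
  push_cast
  linear_combination -(D : ℚ_[p]) * e

end FA.Root

namespace FA.Summary

/-- Some quadratic twist is semistable if at every prime `E` is semistable, `j` has a pole, or
`p ≥ 5` and six divides the valuation of the discriminant. -/
theorem exists_semistable_twist_of_six_dvd (E : WeierstrassCurve ℚ) [E.IsElliptic]
    (h : ∀ p : ℕ, ∀ [Fact p.Prime], (∃ C : VariableChange ℚ_[p],
      HasGoodReduction ℤ_[p] (C • E.map (algebraMap ℚ ℚ_[p])) ∨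
        HasMultiplicativeReduction ℤ_[p] (C • E.map (algebraMap ℚ ℚ_[p]))) ∨
      padicValRat p E.j < 0 ∨ (5 ≤ p ∧ (6 : ℤ) ∣ padicValRat p E.Δ)) :
    ∃ d : ℚ, d ≠ 0 ∧ ∀ p : ℕ, ∀ [Fact p.Prime], ∃ C : VariableChange ℚ_[p],
      HasGoodReduction ℤ_[p] (C • (⟨0, 0, 0, -27 * (d ^ 2 * E.c₄), -54 * (d ^ 3 * E.c₆)⟩ :
          WeierstrassCurve ℚ).map (algebraMap ℚ ℚ_[p])) ∨
        HasMultiplicativeReduction ℤ_[p] (C • (⟨0, 0, 0, -27 * (d ^ 2 * E.c₄),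
          -54 * (d ^ 3 * E.c₆)⟩ : WeierstrassCurve ℚ).map (algebraMap ℚ ℚ_[p])) := by
  obtain ⟨d, hd, hs⟩ := FA.Root.exists_semistable_quadTwist_of_classes E fun p _ => by
    rcases h p with ⟨_, hC⟩ | hr
    · exact Or.inl (FA.Root.isSemistableAt_of_reduction E hC)
    by_cases hj : padicValRat p E.j < 0
    · exact Or.inr ⟨_, FA.Root.isSemistableAt_twist_of_pole E hj⟩
    obtain ⟨hp, h6⟩ := hr.resolve_left hj
    exact Or.inr (FA.Root.exists_class_of_six_dvd E hp hj h6)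
  have := FA.Root.quadTwist_isElliptic E hd
  exact ⟨d, hd, fun p _ =>
    FA.Root.exists_reduction_of_isSemistableAt (FA.Twists.quadTwist E d) (hs p)⟩

end FA.Summary

end
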