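import Fermat.Agent.Root.SummaryTwistLFunction
import Fermat.Agent.Root.SummaryTwistCriterionSix
import Fermat.Agent.CM.Quartic.Modular1728
import Fermat.Agent.CM.Cubic.ModularJZero
import Fermat.Agent.CM.Order
import Fermat.Agent.CM.OrderThree
import Fermat.Agent.CM.OrderTwelve
import Fermat.Agent.CM.Seven.ModularSeven
import Fermat.Agent.CM.Eight.ModularEight
import Fermat.Agent.CM.Eleven.ModularEleven
import Fermat.Agent.CM.Nineteen.ModularNineteen
import Fermat.Agent.CM.ClassOne.Main

/-!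
# The modular elliptic curves

One statement for the curves shown modular: those with a semistable quadratic twist, for instance
those which at every prime are semistable, have a pole of `j`, or have `p ≥ 5` and `6 ∣ v_p(Δ)`,
and those with `j` one of `0`, `1728`, `66³`, `54000`, `-12288000`, `-3375`, `255³`, `8000`,
`-32768`, `-884736`, `-884736000`, `-147197952000`, `-262537412640768000` (the thirteen orders of
class number one, in `ℚ(i)`, `ℚ(√-3)`, `ℚ(√-7)`, `ℚ(√-2)`, `ℚ(√-11)`, `ℚ(√-19)`, `ℚ(√-43)`,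
`ℚ(√-67)` and `ℚ(√-163)`: all curves with complex multiplication).
-/

set_option autoImplicit false

noncomputable section

open WeierstrassCurve

namespace FA.Summary

/-- **Modularity**: an elliptic curve over `ℚ` which at every prime is semistable, has
`v_p(j) < 0`, or has `p ≥ 5` and `6 ∣ v_p(Δ)`, or which has some semistable quadratic twist, or
whose `j` is one of `0`, `1728`, `66 ^ 3`, `54000`, `-12288000`, `-3375`, `16581375`, `8000`, `-32768`,
`-884736`, `-884736000`, `-147197952000`, `-262537412640768000`, has the L-function of a cusp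
form of weight two on some `Γ₀(N)`, all coefficients included, and its L-series, which converges for
`re s > 3 / 2`, continues to an entire function. -/
theorem modularity_cases (E : WeierstrassCurve ℚ) [E.IsElliptic]
    (h : (∀ p : ℕ, ∀ [Fact p.Prime], (∃ C : VariableChange ℚ_[p],
        HasGoodReduction ℤ_[p] (C • E.map (algebraMap ℚ ℚ_[p])) ∨
          HasMultiplicativeReduction ℤ_[p] (C • E.map (algebraMap ℚ ℚ_[p]))) ∨
        padicValRat p E.j < 0 ∨ (5 ≤ p ∧ (6 : ℤ) ∣ padicValRat p E.Δ)) ∨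
      (∃ d : ℚ, d ≠ 0 ∧ ∀ p : ℕ, ∀ [Fact p.Prime], ∃ C : VariableChange ℚ_[p],
        HasGoodReduction ℤ_[p] (C • (⟨0, 0, 0, -27 * (d ^ 2 * E.c₄), -54 * (d ^ 3 * E.c₆)⟩ :
            WeierstrassCurve ℚ).map (algebraMap ℚ ℚ_[p])) ∨
          HasMultiplicativeReduction ℤ_[p] (C • (⟨0, 0, 0, -27 * (d ^ 2 * E.c₄),
            -54 * (d ^ 3 * E.c₆)⟩ : WeierstrassCurve ℚ).map (algebraMap ℚ ℚ_[p]))) ∨
      E.j ∈ ({0, 1728, 66 ^ 3, 54000, -12288000, -3375, 16581375, 8000, -32768,
        -884736, -884736000, -147197952000, -262537412640768000} : Finset ℚ)) :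
    (∃ (N : ℕ) (f : CuspForm (CongruenceSubgroup.Gamma0 N) 2), 0 < N ∧
      ∀ n : ℕ, (UpperHalfPlane.qExpansion 1 f).coeff n = (E.LFunction n : ℂ)) ∧
    ∃ g : ℂ → ℂ, Differentiable ℂ g ∧ ∀ s : ℂ, 3 / 2 < s.re →
      LSeriesSummable ((↑) ∘ E.LFunction) s ∧ E.LSeries s = g s := by
  rcases h with h | ⟨d, hd, hs⟩ | hj
  · obtain ⟨d, hd, hs⟩ := exists_semistable_twist_of_six_dvd E h
    exact ⟨modularity_twist_LFunction E hd hs, entire_continuation_twist E hd hs⟩
  · exact ⟨modularity_twist_LFunction E hd hs, entire_continuation_twist E hd hs⟩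
  simp only [Finset.mem_insert, Finset.mem_singleton] at hj
  suffices H : (∃ (N : ℕ) (f : CuspForm (CongruenceSubgroup.Gamma0 N) 2), 0 < N ∧
      ∀ n : ℕ, (UpperHalfPlane.qExpansion 1 f).coeff n = (E.LFunction n : ℂ)) ∧
      ∃ g : ℂ → ℂ, Differentiable ℂ g ∧ ∀ s : ℂ, 3 / 2 < s.re → E.LSeries s = g s by
    obtain ⟨hf, g, hg, hgs⟩ := H
    exact ⟨hf, g, hg, fun s hs => ⟨lSeries_summable E hs, hgs s hs⟩⟩
  rcases hj with hj | hj | hj | hj | hj | hj | hj | hj | hj | hj | hj | hj | hj
  · exact ⟨modularity_of_j_eq_zero E hj, entire_continuation_of_j_eq_zero E hj⟩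
  · obtain ⟨N, f, hN, -, hf⟩ := modularity_of_j_eq_1728 E hj
    exact ⟨⟨N, f, hN, hf⟩, entire_continuation_of_j_eq_1728 E hj⟩
  · norm_num at hj
    exact ⟨modularity_of_j_eq_287496 E hj, entire_continuation_of_j_eq_287496 E hj⟩
  · exact ⟨modularity_of_j_eq_54000 E hj, entire_continuation_of_j_eq_54000 E hj⟩
  · exact ⟨modularity_of_j_eq_neg_12288000 E hj, entire_continuation_of_j_eq_neg_12288000 E hj⟩
  · exact ⟨modularity_of_j_sqrt_neg_seven E (Or.inl hj),
      entire_continuation_of_j_sqrt_neg_seven E (Or.inl hj)⟩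
  · exact ⟨modularity_of_j_sqrt_neg_seven E (Or.inr hj),
      entire_continuation_of_j_sqrt_neg_seven E (Or.inr hj)⟩
  · exact ⟨modularity_of_j_eq_8000 E hj, entire_continuation_of_j_eq_8000 E hj⟩
  · exact ⟨modularity_of_j_eq_neg_32768 E hj, entire_continuation_of_j_eq_neg_32768 E hj⟩
  · exact ⟨modularity_of_j_eq_neg_884736 E hj, entire_continuation_of_j_eq_neg_884736 E hj⟩
  · exact ⟨modularity_of_j_eq_neg_884736000 E hj, entire_continuation_of_j_eq_neg_884736000 E hj⟩
  · exact ⟨modularity_of_j_eq_neg_147197952000 E hj,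
      entire_continuation_of_j_eq_neg_147197952000 E hj⟩
  · exact ⟨modularity_of_j_eq_neg_262537412640768000 E hj,
      entire_continuation_of_j_eq_neg_262537412640768000 E hj⟩

end FA.Summary

end
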