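import Fermat.Agent.Root.SummaryTateHomNumberFieldAll
import Fermat.Agent.Root.SummaryModularCases
import Fermat.Agent.Root.SummarySupersingular
import Fermat.Agent.Root.SummaryOggShafarevich

/-!
# Modularity under equal squares of traces, and of exceptional curves

If `a'_q² = a_q²` at almost all primes then `E'` has the L-function of a quadratic twist of `E`,
so it is modular as soon as `E` is among the curves shown modular. Two curves exceptional for one
field `ℚ(√d)`, `d ≠ -1, -3`, have equal squares of traces, as `4 q = a² + |d| b²` has one solution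
up to sign; so for `d = -2, -7, -11, -19, -43, -67, -163` every exceptional curve is modular,
whether or not its invariant is known to be that of complex multiplication.
-/

set_option autoImplicit false
set_option linter.style.haveILetI false

noncomputable section

open WeierstrassCurve FA.EC FA.Frob FA.RT
open scoped WeierstrassCurve.Affine

namespace FA.ModularClass

open FA.Twists (quadTwist)

/-- `4 l = a² - d b²` determines `a²` if the units of `ℚ(√d)` are `± 1`. -/
theorem sq_eq_of_norm {d : ℤ} (hd : Squarefree d) (hneg : d < 0) (h1 : d ≠ -1) (h3 : d ≠ -3)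
    {l : ℕ} (hl : l.Prime) (hl2 : l ≠ 2) {a b a' b' : ℤ} (e : a ^ 2 - d * b ^ 2 = 4 * l)
    (e' : a' ^ 2 - d * b' ^ 2 = 4 * l) : a' ^ 2 = a ^ 2 := by
  have hl0 : (l : ℤ) ≠ 0 := Int.natCast_ne_zero.mpr hl.ne_zero
  have hd4 : d = -2 ∨ d ≤ -5 := by
    have h4 : d ≠ -4 := fun h4 => by
      have := Int.isUnit_iff.mp (hd 2 ⟨-1, by rw [h4]; norm_num⟩)
      omega
    omega
  have main : ∀ b : ℤ, a ^ 2 - d * b ^ 2 = 4 * l → (l : ℤ) ∣ a * b' - a' * b →
      a' ^ 2 = a ^ 2 := by
    intro b e hdvd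
    obtain ⟨k, hk⟩ := hdvd
    have hM : (a * a' - d * b * b') ^ 2 = (l : ℤ) ^ 2 * (16 + d * k ^ 2) := by
      linear_combination (4 * (l : ℤ)) * e' + (a' ^ 2 - d * b' ^ 2) * e +
        d * (a * b' - a' * b + l * k) * hk
    obtain ⟨m, hm⟩ : (l : ℤ) ∣ a * a' - d * b * b' :=
      (Int.pow_dvd_pow_iff two_ne_zero).mp ⟨_, hM⟩
    have hpar : ∀ {x y : ℤ}, x ^ 2 - d * y ^ 2 = 4 * l → ((x : ℤ) : ZMod 2) = d * y := fun h => by
      have h2 := congrArg (Int.cast : ℤ → ZMod 2) h
      push_cast at h2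
      have h4 : (4 : ZMod 2) = 0 := by decide
      rw [h4, zero_mul, sub_eq_zero, ZMod.pow_card, ZMod.pow_card] at h2
      exact h2
    obtain ⟨κ, rfl⟩ : (2 : ℤ) ∣ k := by
      have h2 : (2 : ℤ) ∣ l * k := hk ▸ (ZMod.intCast_zmod_eq_zero_iff_dvd _ 2).mp (by
        push_cast; rw [hpar e, hpar e']; ring)
      exact (Int.prime_two.dvd_or_dvd h2).resolve_left fun h => hl2
        ((Nat.prime_dvd_prime_iff_eq Nat.prime_two hl).mp (Int.natCast_dvd_natCast.mp h)).symm
    have hnorm : m ^ 2 = 16 + 4 * d * κ ^ 2 := mul_left_cancel₀ (pow_ne_zero 2 hl0)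
      (by linear_combination hM - (a * a' - d * b * b' + l * m) * hm)
    have hκ : κ = 0 := by
      by_contra hκ
      have hκ1 : 1 ≤ κ ^ 2 := by nlinarith [abs_pos.mpr hκ, sq_abs κ]
      rcases hd4 with rfl | hd5
      · have hκ2 : κ ^ 2 = 1 := by
          have : -1 ≤ κ ∧ κ ≤ 1 := ⟨by nlinarith [sq_nonneg m], by nlinarith [sq_nonneg m]⟩
          rcases this with ⟨h, h'⟩
          interval_cases κ <;> simp_all
        have : -2 ≤ m ∧ m ≤ 2 := ⟨by nlinarith, by nlinarith⟩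
        rcases this with ⟨h, h'⟩
        interval_cases m <;> omega
      · nlinarith [sq_nonneg m]
    subst hκ
    refine mul_left_cancel₀ (mul_ne_zero (by norm_num : (4 : ℤ) ≠ 0) hl0) ?_
    linear_combination -(a' ^ 2) * e + a ^ 2 * e' + d * (a * b' + a' * b) * hk
  have h : (l : ℤ) ∣ (a * b' - a' * b) * (a * b' - a' * -b) :=
    ⟨4 * (b' ^ 2 - b ^ 2), by linear_combination b' ^ 2 * e - b ^ 2 * e'⟩
  rcases (Nat.prime_iff_prime_int.mp hl).dvd_or_dvd h with h | h
  · exact main b e h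
  · exact main (-b) (by rw [neg_sq]; exact e) h

open FA.CMStructure (IsExceptional)

variable {W W' : WeierstrassCurve ℤ} [(ratCurve W).IsElliptic] [(ratCurve W').IsElliptic]

/-- Models exceptional for one such field have equal squares of traces at almost all primes. -/
theorem apOfModel_sq_eq {d : ℤ} (h1 : d ≠ -1) (h3 : d ≠ -3) (hE : IsExceptional W d)
    (hE' : IsExceptional W' d) {q : ℕ} (hq : q.Prime) (hq2 : q ≠ 2) (hqd : ¬ (q : ℤ) ∣ d)
    (hg : W.IsGoodPrimeFor q) (hg' : W'.IsGoodPrimeFor q) :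
    W'.apOfModel q ^ 2 = W.apOfModel q ^ 2 := by
  by_cases hsq : IsSquare (d : ZMod q)
  swap
  · rw [hE.vanish q hq hg hsq, hE'.vanish q hq hg' hsq]
  obtain ⟨b, hb⟩ := FA.Exceptional.exists_disc_eq hE.sqfree hE.ne_one hE.vanish hq hg
    (FA.Exceptional.apOfModel_ne_zero_of_split hE.sqfree hE.ne_one hE.vanish hq hg hq2 hqd hsq)
  obtain ⟨b', hb'⟩ := FA.Exceptional.exists_disc_eq hE'.sqfree hE'.ne_one hE'.vanish hq hg'
    (FA.Exceptional.apOfModel_ne_zero_of_split hE'.sqfree hE'.ne_one hE'.vanish hq hg' hq2 hqd hsq)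
  have hneg : d < 0 := by
    have := FA.Exceptional.disc_neg (W := W) hq hg
    rw [hb] at this
    nlinarith [sq_nonneg b]
  exact sq_eq_of_norm hE.sqfree hneg h1 h3 hq hq2 (b := b) (b' := b') (by linear_combination hb)
    (by linear_combination hb')

/-- A curve with a given invariant other than `0` and `1728`. -/
theorem exists_curve_j {j : ℚ} (h0 : j ≠ 0) (h1 : j ≠ 1728) :
    ∃ (E : WeierstrassCurve ℚ) (_ : E.IsElliptic), E.j = j := by
  haveI := Fact.mk h0.isUnit
  haveI := Fact.mk (sub_ne_zero.mpr h1).isUnit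
  exact ⟨ofJNe0Or1728 j, inferInstance, ofJNe0Or1728_j j⟩

/-- A twist of a twist is a twist. -/
theorem quadTwist_quadTwist (E : WeierstrassCurve ℚ) {e : ℚ} (he : e ≠ 0) (d : ℚ) :
    quadTwist (quadTwist E e) (d / (36 * e)) = quadTwist E d := by
  show FA.Twists.short ((d / (36 * e)) ^ 2 * (quadTwist E e).c₄)
    ((d / (36 * e)) ^ 3 * (quadTwist E e).c₆) = FA.Twists.short (d ^ 2 * E.c₄) (d ^ 3 * E.c₆)
  rw [FA.Root.quadTwist_c₄, FA.Root.quadTwist_c₆]
  congr 1 <;> field_simp <;> ring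

end FA.ModularClass

namespace FA.Summary

open FA.ModularClass
open FA.Twists (quadTwist short)

/-- **Two exceptional curves of one field**, other than `ℚ(i)` and `ℚ(√-3)`, have equal squares of
traces at almost all primes. -/
theorem exceptional_traceSquares (E E' : WeierstrassCurve ℚ) [E.IsElliptic] [E'.IsElliptic]
    {d : ℤ} (hd : Squarefree d) (hd0 : d ≠ 1) (h1 : d ≠ -1) (h3 : d ≠ -3)
    (h : ∀ l : ℕ, ∀ [Fact l.Prime], (∃ C : VariableChange ℚ_[l],
      HasGoodReduction ℤ_[l] (C • E.map (algebraMap ℚ ℚ_[l]))) →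
        ¬ IsSquare (d : ZMod l) → E.LFunction l = 0)
    (h' : ∀ l : ℕ, ∀ [Fact l.Prime], (∃ C : VariableChange ℚ_[l],
      HasGoodReduction ℤ_[l] (C • E'.map (algebraMap ℚ ℚ_[l]))) →
        ¬ IsSquare (d : ZMod l) → E'.LFunction l = 0) :
    {q : ℕ | q.Prime ∧ E'.LFunction q ^ 2 ≠ E.LFunction q ^ 2}.Finite := by
  obtain ⟨W, hW⟩ := exists_integralModel E
  obtain ⟨W', hW'⟩ := exists_integralModel E'
  haveI := ratCurve_isElliptic_of_Δ (Δ_ne_zero_of_model hW)
  haveI := ratCurve_isElliptic_of_Δ (Δ_ne_zero_of_model hW')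
  refine ({2} ∪ d.natAbs.primeFactors ∪ (W.Δ * W'.Δ).natAbs.primeFactors :
    Finset ℕ).finite_toSet.subset fun q ⟨hq, hne⟩ => ?_
  by_contra hn
  simp only [Finset.coe_union, Finset.coe_singleton, Set.mem_union, Set.mem_singleton_iff,
    Finset.mem_coe, not_or] at hn
  obtain ⟨⟨hq2, hqd⟩, hqΔ⟩ := hn
  obtain ⟨g, g'⟩ := FA.Independence.good_of_not_mem hq hqΔ
  refine hne ?_
  rw [FA.Root.LFunction_apply_prime E W hW hq g, FA.Root.LFunction_apply_prime E' W' hW' hq g']
  exact apOfModel_sq_eq h1 h3 (FA.CMStructure.isExceptional_of_curve hW hd hd0 h)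
    (FA.CMStructure.isExceptional_of_curve hW' hd hd0 h') hq hq2
    (fun e => hqd (Nat.mem_primeFactors.mpr
      ⟨hq, Int.natCast_dvd.mp e, Int.natAbs_ne_zero.mpr hd.ne_zero⟩)) g g'

/-- **Modularity depends only on the squares of the traces**: if `a'_q² = a_q²` at almost all
primes and `E` is one of the curves shown modular, then `E'` has the L-function of a cusp form of
weight two, all coefficients included, and its L-series continues to an entire function. -/
theorem modularity_of_traceSquares (E E' : WeierstrassCurve ℚ) [E.IsElliptic] [E'.IsElliptic]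
    (h : (∀ p : ℕ, ∀ [Fact p.Prime], (∃ C : VariableChange ℚ_[p],
        HasGoodReduction ℤ_[p] (C • E.map (algebraMap ℚ ℚ_[p])) ∨
          HasMultiplicativeReduction ℤ_[p] (C • E.map (algebraMap ℚ ℚ_[p]))) ∨
        padicValRat p E.j < 0 ∨ (5 ≤ p ∧ (6 : ℤ) ∣ padicValRat p E.Δ)) ∨
      (∃ d : ℚ, d ≠ 0 ∧ ∀ p : ℕ, ∀ [Fact p.Prime], ∃ C : VariableChange ℚ_[p],
        HasGoodReduction ℤ_[p] (C • (⟨0, 0, 0, -27 * (d ^ 2 * E.c₄), -54 * (d ^ 3 * E.c₆)⟩ :
            WeierstrassCurve ℚ).map (algebraMap ℚ ℚ_[p])) ∨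
          HasMultiplicativeReduction ℤ_[p] (C • (⟨0, 0, 0, -27 * (d ^ 2 * E.c₄),
            -54 * (d ^ 3 * E.c₆)⟩ : WeierstrassCurve ℚ).map (algebraMap ℚ ℚ_[p]))) ∨
      E.j ∈ ({0, 1728, 66 ^ 3, 54000, -12288000, -3375, 16581375, 8000, -32768,
        -884736, -884736000, -147197952000, -262537412640768000} : Finset ℚ))
    (hsq : {q : ℕ | q.Prime ∧ E'.LFunction q ^ 2 ≠ E.LFunction q ^ 2}.Finite) :
    (∃ (N : ℕ) (f : CuspForm (CongruenceSubgroup.Gamma0 N) 2), 0 < N ∧
      ∀ n : ℕ, (UpperHalfPlane.qExpansion 1 f).coeff n = (E'.LFunction n : ℂ)) ∧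
    ∃ g : ℂ → ℂ, Differentiable ℂ g ∧ ∀ s : ℂ, 3 / 2 < s.re →
      LSeriesSummable ((↑) ∘ E'.LFunction) s ∧ E'.LSeries s = g s := by
  obtain ⟨e, he, hfin⟩ := (traceSquares_iff_twist_all E E').mp hsq
  have he0 : (e : ℚ) ≠ 0 := Int.cast_ne_zero.mpr he.ne_zero
  haveI := FA.Root.quadTwist_isElliptic E he0
  obtain ⟨W, hW⟩ := exists_integralModel E
  have hL : E'.LFunction = (quadTwist E (e : ℚ)).LFunction := by
    refine LFunction_eq_of_traces E' _ (hfin.toFinset ∪ {2} ∪ e.natAbs.primeFactors ∪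
      W.Δ.natAbs.primeFactors) fun q hq hqS => ?_
    simp only [Finset.mem_union, Finset.mem_singleton, not_or] at hqS
    obtain ⟨⟨⟨hqf, hq2⟩, hqe⟩, hqΔ⟩ := hqS
    haveI := Fact.mk hq
    rw [(FA.TwistCurve.LFunction_quadTwist hW hq2
      (fun hd => hqe (Nat.mem_primeFactors.mpr
        ⟨hq, Int.natCast_dvd.mp hd, Int.natAbs_ne_zero.mpr he.ne_zero⟩))
      (fun hd => hqΔ (Nat.mem_primeFactors.mpr
        ⟨hq, Int.natCast_dvd.mp hd, Int.natAbs_ne_zero.mpr (Δ_ne_zero_of_model hW)⟩))).2]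
    exact by_contra fun hne => hqf (hfin.mem_toFinset.mpr ⟨hq, hne⟩)
  have hs : (∃ d : ℚ, d ≠ 0 ∧ ∀ p : ℕ, ∀ [Fact p.Prime], ∃ C : VariableChange ℚ_[p],
      HasGoodReduction ℤ_[p] (C • (quadTwist E d).map (algebraMap ℚ ℚ_[p])) ∨
        HasMultiplicativeReduction ℤ_[p] (C • (quadTwist E d).map (algebraMap ℚ ℚ_[p]))) ∨
      E.j ∈ ({0, 1728, 66 ^ 3, 54000, -12288000, -3375, 16581375, 8000, -32768,
        -884736, -884736000, -147197952000, -262537412640768000} : Finset ℚ) := by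
    rcases h with h | h | h
    · exact Or.inl (exists_semistable_twist_of_six_dvd E h)
    · exact Or.inl h
    · exact Or.inr h
  have H := modularity_cases (quadTwist E (e : ℚ)) (by
    rcases hs with ⟨d, hd, hss⟩ | hj
    · refine Or.inr (Or.inl ⟨d / (36 * e), div_ne_zero hd (mul_ne_zero (by norm_num) he0), ?_⟩)
      intro p _
      change ∃ C : VariableChange ℚ_[p], HasGoodReduction ℤ_[p] (C • (quadTwist (quadTwist E e)
          (d / (36 * e))).map (algebraMap ℚ ℚ_[p])) ∨ HasMultiplicativeReduction ℤ_[p]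
        (C • (quadTwist (quadTwist E e) (d / (36 * e))).map (algebraMap ℚ ℚ_[p]))
      rw [quadTwist_quadTwist E he0]
      exact hss p
    · exact Or.inr (Or.inr (by rwa [FA.OggShafarevich.quadTwist_j E he0])))
  unfold WeierstrassCurve.LSeries at H ⊢
  rw [hL]
  exact H

/-- **Modularity passes along homomorphisms of Tate modules over number fields**: if `E` is one of
the curves shown modular and not exceptional for `ℚ(i)` or `ℚ(√-3)`, every curve `E'` receiving a
nonzero map of points of `p`-power order from it, equivariant over some number field, is modular. -/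
theorem modularity_of_tateHom (E E' : WeierstrassCurve ℚ) [E.IsElliptic] [E'.IsElliptic]
    [inst : DecidableEq (AlgebraicClosure ℚ)]
    (h : (∀ p : ℕ, ∀ [Fact p.Prime], (∃ C : VariableChange ℚ_[p],
        HasGoodReduction ℤ_[p] (C • E.map (algebraMap ℚ ℚ_[p])) ∨
          HasMultiplicativeReduction ℤ_[p] (C • E.map (algebraMap ℚ ℚ_[p]))) ∨
        padicValRat p E.j < 0 ∨ (5 ≤ p ∧ (6 : ℤ) ∣ padicValRat p E.Δ)) ∨
      (∃ d : ℚ, d ≠ 0 ∧ ∀ p : ℕ, ∀ [Fact p.Prime], ∃ C : VariableChange ℚ_[p],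
        HasGoodReduction ℤ_[p] (C • (⟨0, 0, 0, -27 * (d ^ 2 * E.c₄), -54 * (d ^ 3 * E.c₆)⟩ :
            WeierstrassCurve ℚ).map (algebraMap ℚ ℚ_[p])) ∨
          HasMultiplicativeReduction ℤ_[p] (C • (⟨0, 0, 0, -27 * (d ^ 2 * E.c₄),
            -54 * (d ^ 3 * E.c₆)⟩ : WeierstrassCurve ℚ).map (algebraMap ℚ ℚ_[p]))) ∨
      E.j ∈ ({0, 1728, 66 ^ 3, 54000, -12288000, -3375, 16581375, 8000, -32768,
        -884736, -884736000, -147197952000, -262537412640768000} : Finset ℚ))
    (hno : ∀ d : ℤ, d = -1 ∨ d = -3 → ¬ ∀ l : ℕ, ∀ [Fact l.Prime], (∃ C : VariableChange ℚ_[l],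
      HasGoodReduction ℤ_[l] (C • E.map (algebraMap ℚ ℚ_[l]))) →
        ¬ IsSquare (d : ZMod l) → E.LFunction l = 0)
    {p : ℕ} (hp : p.Prime)
    (K : IntermediateField ℚ (AlgebraicClosure ℚ)) [hK : FiniteDimensional ℚ K]
    (f : AddCommGroup.primaryComponent (E.toAffine⁄(AlgebraicClosure ℚ)).Point p →+
      AddCommGroup.primaryComponent (E'.toAffine⁄(AlgebraicClosure ℚ)).Point p)
    (hf0 : f ≠ 0)
    (hf : ∀ σ ∈ K.fixingSubgroup, ∀ P Q, Affine.Point.map σ.toAlgHom P.1 = Q.1 →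
      Affine.Point.map σ.toAlgHom (f P).1 = (f Q).1) :
    (∃ (N : ℕ) (f : CuspForm (CongruenceSubgroup.Gamma0 N) 2), 0 < N ∧
      ∀ n : ℕ, (UpperHalfPlane.qExpansion 1 f).coeff n = (E'.LFunction n : ℂ)) ∧
    ∃ g : ℂ → ℂ, Differentiable ℂ g ∧ ∀ s : ℂ, 3 / 2 < s.re →
      LSeriesSummable ((↑) ∘ E'.LFunction) s ∧ E'.LSeries s = g s := by
  refine modularity_of_traceSquares E E' h ?_
  rcases (tateHom_numberField_iff_all E E' hp).mp ⟨K, hK, f, hf0, hf⟩ with
    hfin | ⟨d, hd, hd1, hE, hE'⟩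
  · exact hfin
  · exact exceptional_traceSquares E E' hd hd1 (fun e => hno d (Or.inl e) hE)
      (fun e => hno d (Or.inr e) hE) hE hE'

/-- **Exceptional curves are modular** for the fields `ℚ(√d)` with `d` one of `-2`, `-7`, `-11`,
`-19`, `-43`, `-67`, `-163`: nothing is assumed on the invariant. -/
theorem modularity_of_exceptional (E' : WeierstrassCurve ℚ) [E'.IsElliptic] {d : ℤ}
    (hd : d ∈ ({-2, -7, -11, -19, -43, -67, -163} : Finset ℤ))
    (h' : ∀ l : ℕ, ∀ [Fact l.Prime], (∃ C : VariableChange ℚ_[l],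
      HasGoodReduction ℤ_[l] (C • E'.map (algebraMap ℚ ℚ_[l]))) →
        ¬ IsSquare (d : ZMod l) → E'.LFunction l = 0) :
    (∃ (N : ℕ) (f : CuspForm (CongruenceSubgroup.Gamma0 N) 2), 0 < N ∧
      ∀ n : ℕ, (UpperHalfPlane.qExpansion 1 f).coeff n = (E'.LFunction n : ℂ)) ∧
    ∃ g : ℂ → ℂ, Differentiable ℂ g ∧ ∀ s : ℂ, 3 / 2 < s.re →
      LSeriesSummable ((↑) ∘ E'.LFunction) s ∧ E'.LSeries s = g s := by
  obtain ⟨j, D, hsf, hj0, hj1, hjD, hjm, hDd⟩ : ∃ (j : ℚ) (D : ℤ), Squarefree d ∧ j ≠ 0 ∧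
      j ≠ 1728 ∧ (j, D) ∈ ({(0, -3), (54000, -3), (-12288000, -3), (1728, -4), (287496, -4),
        (-3375, -7), (16581375, -7), (8000, -8), (-32768, -11), (-884736, -19), (-884736000, -43),
        (-147197952000, -67), (-262537412640768000, -163)} : Finset (ℚ × ℤ)) ∧
      j ∈ ({0, 1728, 66 ^ 3, 54000, -12288000, -3375, 16581375, 8000, -32768,
        -884736, -884736000, -147197952000, -262537412640768000} : Finset ℚ) ∧
      (D = d ∨ D = -8 ∧ d = -2) := by
    simp only [Finset.mem_insert, Finset.mem_singleton] at hd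
    rcases hd with rfl | rfl | rfl | rfl | rfl | rfl | rfl
    · refine ⟨8000, -8, ?_, by norm_num, by norm_num, by simp, by simp, Or.inr ⟨rfl, rfl⟩⟩
      rw [← Int.squarefree_natAbs]
      exact Nat.prime_two.squarefree
    · refine ⟨-3375, -7, ?_, by norm_num, by norm_num, by simp, by simp, Or.inl rfl⟩
      rw [← Int.squarefree_natAbs]
      exact (by norm_num : Nat.Prime 7).squarefree
    · refine ⟨-32768, -11, ?_, by norm_num, by norm_num, by simp, by simp, Or.inl rfl⟩
      rw [← Int.squarefree_natAbs]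
      exact (by norm_num : Nat.Prime 11).squarefree
    · refine ⟨-884736, -19, ?_, by norm_num, by norm_num, by simp, by simp, Or.inl rfl⟩
      rw [← Int.squarefree_natAbs]
      exact (by norm_num : Nat.Prime 19).squarefree
    · refine ⟨-884736000, -43, ?_, by norm_num, by norm_num, by simp, by simp, Or.inl rfl⟩
      rw [← Int.squarefree_natAbs]
      exact (by norm_num : Nat.Prime 43).squarefree
    · refine ⟨-147197952000, -67, ?_, by norm_num, by norm_num, by simp, by simp, Or.inl rfl⟩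
      rw [← Int.squarefree_natAbs]
      exact (by norm_num : Nat.Prime 67).squarefree
    · refine ⟨-262537412640768000, -163, ?_, by norm_num, by norm_num, by simp, by simp,
        Or.inl rfl⟩
      rw [← Int.squarefree_natAbs]
      exact (by norm_num : Nat.Prime 163).squarefree
  obtain ⟨E, hE, rfl⟩ := exists_curve_j hj0 hj1
  refine modularity_of_traceSquares E E' (Or.inr (Or.inr hjm))
    (exceptional_traceSquares E E' hsf ?_ ?_ ?_ (fun l hl _ hns => ?_) h')
  all_goals try (intro e; subst e; simp at hd)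
  refine lFunction_eq_zero_of_inert E hjD hl.out ?_
  rcases hDd with rfl | ⟨rfl, rfl⟩
  · exact hns
  rintro ⟨r, hr⟩
  haveI := hl
  have h2 : (2 : ZMod l) ≠ 0 := fun e => hns ⟨0, by
    push_cast
    linear_combination -e⟩
  refine hns ⟨r / 2, ?_⟩
  push_cast at hr ⊢
  field_simp
  linear_combination hr

end FA.Summary

end
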