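import Fermat.Agent.ExceptionalUnits.Twist
import Fermat.Agent.Root.SummaryModularityTwistClass

/-!
# The exceptional curves of `ℚ(i)` and `ℚ(√-3)`

An elliptic curve over `ℚ` with `a_l = 0` at the inert good primes of `ℚ(i)` has the L-function of
a curve `y² = x³ + D x`, and one exceptional for `ℚ(√-3)` that of a curve `y² = x³ + D`, with
nothing assumed on the invariant. So every exceptional curve whose field is one of the nine
imaginary quadratic fields of class number one of Heegner's list is modular.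
-/

set_option autoImplicit false
set_option linter.style.haveILetI false

noncomputable section

open Matrix WeierstrassCurve WeierstrassCurve.Affine FA.EC FA.Frob FA.RT FA.RT.Tate
open FA.AlmostAll (shortInt shortRat shortInt_isIntegralModelOf)
open scoped WeierstrassCurve.Affine

local notation "Qb" => AlgebraicClosure ℚ

namespace FA.ExceptionalUnits

open FA.CMStructure (IsExceptional)

/-- The scaling by a primitive sixth root of unity is not minus one. -/
theorem matrix_ne_neg_one [Fact (Nat.Prime 5)] [(ratCurve (shortInt (0, 1))).IsElliptic]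
    (B : TateBasis 5 (shortInt (0, 1))) {ζ : Qbˣ} (h : Scales (0, 1) (0, 1) ζ)
    {J : Matrix (Fin 2) (Fin 2) ℤ_[5]} (hζ : IsPrimitiveRoot (ζ : Qb) 6)
    (hJ : IsMat B B (scale h) J) : J ≠ -1 := by
  intro e
  let v : ℕ → Fin 2 → ℤ_[5] := fun k => k • Pi.single 0 1
  have hne : ∀ k : ℕ, ¬ 5 ∣ k → B.φ 1 (v k) ≠ 0 := fun k hk h0 => by
    have h1 := (B.ker 1 _).mp h0 0
    simp [v] at h1
    exact hk ((dvd_pow_self 5 one_ne_zero).trans ((ZMod.natCast_eq_zero_iff k (5 ^ 1)).mp h1))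
  have hx0 : ∀ w : Fin 2 → ℤ_[5], B.φ 1 w ≠ 0 →
      ∃ (y : Qb) (hxy : _), B.φ 1 w = Affine.Point.some 0 y hxy := fun w hw => by
    have hs := hJ 1 w
    rw [e, neg_mulVec, one_mulVec, map_neg] at hs
    generalize B.φ 1 w = P at hs hw ⊢
    rcases P with _ | ⟨x, y, hxy⟩
    · exact absurd rfl hw
    obtain ⟨h1, e1⟩ := scale_some h hxy
    rw [e1, Affine.Point.neg_some, Affine.Point.some.injEq] at hs
    have h2 : (ζ : Qb) ^ 2 ≠ 1 := hζ.pow_ne_one_of_pos_of_lt two_ne_zero (by norm_num)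
    obtain rfl : x = 0 := by
      have : ((ζ : Qb) ^ 2 - 1) * x = 0 := by linear_combination hs.1
      exact (mul_eq_zero.mp this).resolve_left (sub_ne_zero.mpr h2)
    exact ⟨y, hxy, rfl⟩
  obtain ⟨y₁, h₁, e₁⟩ := hx0 (v 1) (hne 1 (by norm_num))
  obtain ⟨y₂, h₂, e₂⟩ := hx0 (v 2) (hne 2 (by norm_num))
  rcases Affine.Y_eq_of_X_eq h₂.1 h₁.1 rfl with hy | hy
  · refine hne 1 (by norm_num) ?_
    subst hy
    have h12 : B.φ 1 (v 2) = B.φ 1 (v 1) + B.φ 1 (v 1) := by
      rw [← map_add]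
      simp only [v, one_nsmul, two_nsmul]
    exact add_eq_left.mp (h12.symm.trans (e₂.trans e₁.symm))
  · refine hne 3 (by norm_num) ?_
    have h3 : v 3 = v 2 + v 1 := by simp only [v, ← add_nsmul]
    rw [h3, map_add, e₁, e₂, ← neg_neg (Affine.Point.some 0 y₂ h₂), neg_add_eq_zero,
      Affine.Point.neg_some, Affine.Point.some.injEq]
    exact ⟨rfl, by rw [hy, Affine.negY_negY]⟩

/-- The base curves are exceptional. -/
theorem isExceptional_base {A : ℤ × ℤ} {d D : ℤ} [(ratCurve (shortInt A)).IsElliptic]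
    [(shortRat A).IsElliptic] (hd : Squarefree d) (hd1 : d ≠ 1)
    (hj : ((shortRat A).j, D) ∈ ({(0, -3), (54000, -3), (-12288000, -3), (1728, -4), (287496, -4),
      (-3375, -7), (16581375, -7), (8000, -8), (-32768, -11), (-884736, -19), (-884736000, -43),
      (-147197952000, -67), (-262537412640768000, -163)} : Finset (ℚ × ℤ)))
    (hDd : ∀ l : ℕ, ∀ [Fact l.Prime], ¬ IsSquare (d : ZMod l) → ¬ IsSquare (D : ZMod l)) :
    IsExceptional (shortInt A) d :=
  FA.CMStructure.isExceptional_of_curve (shortInt_isIntegralModelOf A) hd hd1 fun l hl _ hns =>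
    FA.Summary.lFunction_eq_zero_of_inert (shortRat A) hj hl.out (hDd l hns)

/-- From traces of models to L-functions. -/
theorem LFunction_eq_of_finite {E : WeierstrassCurve ℚ} [E.IsElliptic] {W : WeierstrassCurve ℤ}
    (hW : W.IsIntegralModelOf E) {A : ℤ × ℤ} (hA : (shortInt A).Δ ≠ 0)
    (h : {q : ℕ | q.Prime ∧ W.apOfModel q ≠ (shortInt A).apOfModel q}.Finite) :
    ∃ _ : (shortRat A).IsElliptic, E.LFunction = (shortRat A).LFunction := by
  have hA' := shortInt_isIntegralModelOf A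
  haveI := ratCurve_isElliptic_of_Δ (Δ_ne_zero_of_model hW)
  haveI := ratCurve_isElliptic_of_Δ hA
  haveI : (shortRat A).IsElliptic := by
    rw [isElliptic_iff, isUnit_iff_ne_zero, show shortRat A = (shortInt A).map (Int.castRingHom ℚ)
      by ext <;> simp, map_Δ, eq_intCast, Int.cast_ne_zero]
    exact hA
  refine ⟨inferInstance, FA.Summary.LFunction_eq_of_traces _ _
    (h.toFinset ∪ (W.Δ * (shortInt A).Δ).natAbs.primeFactors) fun q hq hqS => ?_⟩
  rw [Finset.mem_union, not_or] at hqS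
  obtain ⟨g, g'⟩ := FA.Independence.good_of_not_mem hq hqS.2
  rw [FA.Root.LFunction_apply_prime E W hW hq g,
    FA.Root.LFunction_apply_prime _ _ hA' hq g']
  exact by_contra fun hne => hqS.1 (h.mem_toFinset.mpr ⟨hq, hne⟩)

/-- A curve with `c₆ = 0` has invariant `1728`. -/
theorem j_eq_of_c₆ {V : WeierstrassCurve ℚ} [V.IsElliptic] (h : V.c₆ = 0) : V.j = 1728 := by
  rw [WeierstrassCurve.j, Units.inv_mul_eq_iff_eq_mul, coe_Δ']
  have := V.c_relation
  rw [h] at this
  linear_combination -this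

end FA.ExceptionalUnits

namespace FA.Summary

open FA.ExceptionalUnits

/-- **Exceptional curves of `ℚ(i)`** have the L-functions of the curves `y² = x³ + D x`. -/
theorem exceptional_gaussian (E : WeierstrassCurve ℚ) [E.IsElliptic]
    (h : ∀ l : ℕ, ∀ [Fact l.Prime], (∃ C : VariableChange ℚ_[l],
      HasGoodReduction ℤ_[l] (C • E.map (algebraMap ℚ ℚ_[l]))) →
        ¬ IsSquare (((-1 : ℤ)) : ZMod l) → E.LFunction l = 0) :
    ∃ D : ℤ, D ≠ 0 ∧
      E.LFunction = (⟨0, 0, 0, (D : ℚ), 0⟩ : WeierstrassCurve ℚ).LFunction := by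
  obtain ⟨W, hW⟩ := exists_integralModel E
  haveI := ratCurve_isElliptic_of_Δ (Δ_ne_zero_of_model hW)
  haveI : Fact (Nat.Prime 5) := ⟨by norm_num⟩
  haveI := ratCurve_isElliptic_of_Δ (W := shortInt (1, 0)) (by decide)
  haveI : (shortRat (1, 0)).IsElliptic := by
    rw [isElliptic_iff, isUnit_iff_ne_zero]
    simp [WeierstrassCurve.Δ, b₂, b₄, b₆, b₈]
  have hU := unitField_four
  obtain ⟨D, hD, hfin⟩ := exists_twist_traces hU (A₀ := (1, 0))
    (isExceptional_base (D := -4) hU.sqfree (by norm_num) (by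
      rw [j_eq_of_c₆ (by simp [WeierstrassCurve.c₆, b₂, b₄, b₆])]
      simp) fun l hl hns => fun ⟨r, hr⟩ => by
        have h2 : (2 : ZMod l) ≠ 0 := fun e => hns ⟨1, by push_cast; linear_combination -e⟩
        refine hns ⟨r / 2, ?_⟩
        push_cast at hr ⊢
        field_simp
        linear_combination hr)
    (FA.CMStructure.isExceptional_of_curve hW hU.sqfree (by norm_num) h)
    (fun z hz => ⟨by simp [hz], by simp⟩) (fun D => (D, 0))
    (fun D hD => ⟨by simp [WeierstrassCurve.Δ, b₂, b₄, b₆, b₈, hD], fun x hx =>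
      ⟨⟨by simp [hx], by simp⟩, ⟨by
        rw [← hx, Units.val_inv_eq_inv_val, inv_pow, inv_mul_cancel₀ (pow_ne_zero _ x.ne_zero)]
        simp, by simp⟩⟩⟩)
    fun B ζ h J hζ hJ hJh T hT hTJ => by
      simpa using (rel_four (two_ne_zero) hT hJh hTJ).1
  obtain ⟨_, hL⟩ := LFunction_eq_of_finite hW (A := (D, 0))
    (by simp [WeierstrassCurve.Δ, b₂, b₄, b₆, b₈, hD]) hfin
  exact ⟨D, hD, hL.trans (congrArg WeierstrassCurve.LFunction (by ext <;> simp))⟩

/-- **Exceptional curves of `ℚ(√-3)`** have the L-functions of the curves `y² = x³ + D`. -/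
theorem exceptional_eisenstein (E : WeierstrassCurve ℚ) [E.IsElliptic]
    (h : ∀ l : ℕ, ∀ [Fact l.Prime], (∃ C : VariableChange ℚ_[l],
      HasGoodReduction ℤ_[l] (C • E.map (algebraMap ℚ ℚ_[l]))) →
        ¬ IsSquare (((-3 : ℤ)) : ZMod l) → E.LFunction l = 0) :
    ∃ D : ℤ, D ≠ 0 ∧
      E.LFunction = (⟨0, 0, 0, 0, (D : ℚ)⟩ : WeierstrassCurve ℚ).LFunction := by
  obtain ⟨W, hW⟩ := exists_integralModel E
  haveI := ratCurve_isElliptic_of_Δ (Δ_ne_zero_of_model hW)
  haveI : Fact (Nat.Prime 5) := ⟨by norm_num⟩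
  haveI := ratCurve_isElliptic_of_Δ (W := shortInt (0, 1)) (by decide)
  haveI : (shortRat (0, 1)).IsElliptic := by
    rw [isElliptic_iff, isUnit_iff_ne_zero]
    simp [WeierstrassCurve.Δ, b₂, b₄, b₆, b₈]
  have hU := unitField_six
  obtain ⟨D, hD, hfin⟩ := exists_twist_traces hU (A₀ := (0, 1))
    (isExceptional_base (D := -3) hU.sqfree (by norm_num) (by
      rw [(WeierstrassCurve.j_eq_zero_iff _).mpr (by simp [WeierstrassCurve.c₄, b₂, b₄])]
      simp) fun l hl hns => hns)
    (FA.CMStructure.isExceptional_of_curve hW hU.sqfree (by norm_num) h)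
    (fun z hz => ⟨by simp, by simp [hz]⟩) (fun D => (0, D))
    (fun D hD => ⟨by simp [WeierstrassCurve.Δ, b₂, b₄, b₆, b₈, hD], fun x hx =>
      ⟨⟨by simp, by simp [hx]⟩, ⟨by simp, by
        rw [← hx, Units.val_inv_eq_inv_val, inv_pow, inv_mul_cancel₀ (pow_ne_zero _ x.ne_zero)]
        simp⟩⟩⟩)
    fun B ζ h J hζ hJ hJh T hT hTJ => by
      simpa using (rel_six hT hJh (matrix_ne_neg_one B h hζ hJ) hTJ).1
  obtain ⟨_, hL⟩ := LFunction_eq_of_finite hW (A := (0, D))
    (by simp [WeierstrassCurve.Δ, b₂, b₄, b₆, b₈, hD]) hfin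
  exact ⟨D, hD, hL.trans (congrArg WeierstrassCurve.LFunction (by ext <;> simp))⟩

/-- **Every exceptional curve of one of the nine fields is modular**: nothing is assumed on the
invariant. These are all the fields of exceptional curves: see `SummaryExceptionalNine`. -/
theorem modularity_of_exceptional_nine (E : WeierstrassCurve ℚ) [E.IsElliptic] {d : ℤ}
    (hd : d ∈ ({-1, -2, -3, -7, -11, -19, -43, -67, -163} : Finset ℤ))
    (h : ∀ l : ℕ, ∀ [Fact l.Prime], (∃ C : VariableChange ℚ_[l],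
      HasGoodReduction ℤ_[l] (C • E.map (algebraMap ℚ ℚ_[l]))) →
        ¬ IsSquare (d : ZMod l) → E.LFunction l = 0) :
    (∃ (N : ℕ) (f : CuspForm (CongruenceSubgroup.Gamma0 N) 2), 0 < N ∧
      ∀ n : ℕ, (UpperHalfPlane.qExpansion 1 f).coeff n = (E.LFunction n : ℂ)) ∧
    ∃ g : ℂ → ℂ, Differentiable ℂ g ∧ ∀ s : ℂ, 3 / 2 < s.re →
      LSeriesSummable ((↑) ∘ E.LFunction) s ∧ E.LSeries s = g s := by
  by_cases h1 : d = -1
  · subst h1
    obtain ⟨D, hD, hL⟩ := exceptional_gaussian E h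
    haveI : (⟨0, 0, 0, (D : ℚ), 0⟩ : WeierstrassCurve ℚ).IsElliptic := by
      rw [isElliptic_iff, isUnit_iff_ne_zero]
      simp [WeierstrassCurve.Δ, b₂, b₄, b₆, b₈, hD]
    have H := modularity_cases ⟨0, 0, 0, (D : ℚ), 0⟩ (Or.inr (Or.inr (by
      rw [j_eq_of_c₆ (by simp [WeierstrassCurve.c₆, b₂, b₄, b₆])]
      simp)))
    unfold WeierstrassCurve.LSeries at H ⊢
    rw [hL]
    exact H
  by_cases h3 : d = -3
  · subst h3
    obtain ⟨D, hD, hL⟩ := exceptional_eisenstein E h
    haveI : (⟨0, 0, 0, 0, (D : ℚ)⟩ : WeierstrassCurve ℚ).IsElliptic := by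
      rw [isElliptic_iff, isUnit_iff_ne_zero]
      simp [WeierstrassCurve.Δ, b₂, b₄, b₆, b₈, hD]
    have H := modularity_cases ⟨0, 0, 0, 0, (D : ℚ)⟩ (Or.inr (Or.inr (by
      rw [(WeierstrassCurve.j_eq_zero_iff _).mpr (by simp [WeierstrassCurve.c₄, b₂, b₄])]
      simp)))
    unfold WeierstrassCurve.LSeries at H ⊢
    rw [hL]
    exact H
  exact modularity_of_exceptional E (d := d)
    (by simp only [Finset.mem_insert, Finset.mem_singleton] at hd ⊢; omega) h

end FA.Summary

end
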