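import Fermat.Agent.ExceptionalIsCM.SmallClassOne
import Fermat.Agent.Root.SummaryExceptionalClassNumber
import Fermat.Agent.Root.SummaryModularityExceptionalUnits
import Fermat.Agent.Root.SummaryTateIsogenyAll

/-!
# Exceptional curves are CM curves, up to isogeny in the sense of L-functions

For the nine fields of class number one, `a_l = 0` at the inert good primes holds exactly when the
curve has the L-function of a curve with one of the thirteen CM invariants, and then the rational
Tate modules agree at every prime. So the adelic image is open exactly when there is no such CM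
curve, unless the exceptional field is `ℚ(√-p)` of class number one with a prime `p ≥ 1000`
(`SummaryExceptionalNine` shows that no curve has such an exceptional field).
-/

set_option autoImplicit false
set_option linter.style.haveILetI false

noncomputable section

open WeierstrassCurve WeierstrassCurve.Affine FA.EC FA.Frob FA.RT
open scoped WeierstrassCurve.Affine

namespace FA.ExceptionalIsCM

open FA.Twists (quadTwist)

/-- Squares modulo `l` of a discriminant and of its squarefree part. -/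
theorem not_isSquare_disc {d D : ℤ} (hD : D = d ∨ D = 4 * d) {l : ℕ} [hl : Fact l.Prime]
    (hns : ¬ IsSquare (d : ZMod l)) : ¬ IsSquare (D : ZMod l) := by
  rcases hD with rfl | rfl
  · exact hns
  rintro ⟨r, hr⟩
  by_cases h2 : (2 : ZMod l) = 0
  · obtain rfl : l = 2 :=
      (Nat.prime_dvd_prime_iff_eq hl.out Nat.prime_two).mp ((ZMod.natCast_eq_zero_iff 2 l).mp h2)
    exact hns (FA.Exceptional.isSquare_zmod_two _)
  refine hns ⟨r / 2, ?_⟩
  push_cast at hr ⊢
  field_simp
  linear_combination hr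

/-- Equal squares of traces: the L-function of a twist. -/
theorem exists_twist_LFunction (E E' : WeierstrassCurve ℚ) [E.IsElliptic] [E'.IsElliptic]
    (hsq : {q : ℕ | q.Prime ∧ E'.LFunction q ^ 2 ≠ E.LFunction q ^ 2}.Finite) :
    ∃ e : ℤ, e ≠ 0 ∧ E'.LFunction = (quadTwist E (e : ℚ)).LFunction := by
  obtain ⟨e, he, hfin⟩ := (FA.Summary.traceSquares_iff_twist_all E E').mp hsq
  haveI := FA.Root.quadTwist_isElliptic E (Int.cast_ne_zero.mpr he.ne_zero : (e : ℚ) ≠ 0)
  obtain ⟨W, hW⟩ := exists_integralModel E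
  refine ⟨e, he.ne_zero, FA.Summary.LFunction_eq_of_traces E' _ (hfin.toFinset ∪ {2} ∪
    e.natAbs.primeFactors ∪ W.Δ.natAbs.primeFactors) fun q hq hqS => ?_⟩
  simp only [Finset.mem_union, Finset.mem_singleton, not_or] at hqS
  obtain ⟨⟨⟨hqf, hq2⟩, hqe⟩, hqΔ⟩ := hqS
  haveI := Fact.mk hq
  rw [(FA.TwistCurve.LFunction_quadTwist hW hq2
    (fun hd => hqe (Nat.mem_primeFactors.mpr
      ⟨hq, Int.natCast_dvd.mp hd, Int.natAbs_ne_zero.mpr he.ne_zero⟩))
    (fun hd => hqΔ (Nat.mem_primeFactors.mpr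
      ⟨hq, Int.natCast_dvd.mp hd, Int.natAbs_ne_zero.mpr (Δ_ne_zero_of_model hW)⟩))).2]
  exact by_contra fun hne => hqf (hfin.mem_toFinset.mpr ⟨hq, hne⟩)

/-- The nine fields. -/
theorem shape_of_mem {d : ℤ} (hd : d ∈ ({-1, -2, -3, -7, -11, -19, -43, -67, -163} : Finset ℤ)) :
    d = -1 ∨ d = -2 ∨ ∃ p : ℕ, p.Prime ∧ p % 4 = 3 ∧ d = -(p : ℤ) := by
  simp only [Finset.mem_insert, Finset.mem_singleton] at hd
  rcases hd with rfl | rfl | rfl | rfl | rfl | rfl | rfl | rfl | rfl
  exacts [Or.inl rfl, Or.inr (Or.inl rfl), Or.inr (Or.inr ⟨3, by norm_num⟩),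
    Or.inr (Or.inr ⟨7, by norm_num⟩), Or.inr (Or.inr ⟨11, by norm_num⟩),
    Or.inr (Or.inr ⟨19, by norm_num⟩), Or.inr (Or.inr ⟨43, by norm_num⟩),
    Or.inr (Or.inr ⟨67, by norm_num⟩), Or.inr (Or.inr ⟨163, by norm_num⟩)]

/-- For the seven fields with units `± 1`: the CM invariant. -/
theorem exists_pair {d : ℤ} (hd : d ∈ ({-2, -7, -11, -19, -43, -67, -163} : Finset ℤ)) :
    ∃ (j : ℚ) (D : ℤ), j ≠ 0 ∧ j ≠ 1728 ∧ (D = d ∨ D = 4 * d) ∧
      (j, D) ∈ ({(0, -3), (54000, -3), (-12288000, -3), (1728, -4), (287496, -4),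
        (-3375, -7), (16581375, -7), (8000, -8), (-32768, -11), (-884736, -19), (-884736000, -43),
        (-147197952000, -67), (-262537412640768000, -163)} : Finset (ℚ × ℤ)) ∧
      j ∈ ({0, 1728, 66 ^ 3, 54000, -12288000, -3375, 16581375, 8000, -32768,
        -884736, -884736000, -147197952000, -262537412640768000} : Finset ℚ) := by
  simp only [Finset.mem_insert, Finset.mem_singleton] at hd
  rcases hd with rfl | rfl | rfl | rfl | rfl | rfl | rfl
  · exact ⟨8000, -8, by norm_num, by norm_num, by norm_num, by simp, by simp⟩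
  · exact ⟨-3375, -7, by norm_num, by norm_num, by norm_num, by simp, by simp⟩
  · exact ⟨-32768, -11, by norm_num, by norm_num, by norm_num, by simp, by simp⟩
  · exact ⟨-884736, -19, by norm_num, by norm_num, by norm_num, by simp, by simp⟩
  · exact ⟨-884736000, -43, by norm_num, by norm_num, by norm_num, by simp, by simp⟩
  · exact ⟨-147197952000, -67, by norm_num, by norm_num, by norm_num, by simp, by simp⟩
  · exact ⟨-262537412640768000, -163, by norm_num, by norm_num, by norm_num, by simp, by simp⟩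

/-- A quadratic field inside `ℚ̄`. -/
theorem exists_field {d : ℤ} (hd : d < 0) :
    ∃ (K : IntermediateField ℚ (AlgebraicClosure ℚ)) (_ : NumberField K) (s : K),
      Module.finrank ℚ K = 2 ∧ s ^ 2 = (d : K) := by
  obtain ⟨s, hs⟩ := IsAlgClosed.exists_pow_nat_eq (d : AlgebraicClosure ℚ) two_pos
  have hint : IsIntegral ℚ s := Algebra.IsIntegral.isIntegral s
  haveI := IntermediateField.adjoin.finiteDimensional hint
  refine ⟨IntermediateField.adjoin ℚ {s}, { },
    IntermediateField.AdjoinSimple.gen ℚ s, ?_, Subtype.ext (by simpa using hs)⟩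
  rw [IntermediateField.adjoin.finrank hint]
  refine le_antisymm ?_ ?_
  · refine (Polynomial.natDegree_le_of_dvd (minpoly.dvd ℚ s (p := Polynomial.X ^ 2 -
      Polynomial.C (d : ℚ)) (by simp [hs]))
      (Polynomial.X_pow_sub_C_ne_zero two_pos _)).trans_eq Polynomial.natDegree_X_pow_sub_C
  · by_contra hlt
    have h1 := minpoly.natDegree_pos hint
    obtain ⟨q, hq⟩ := minpoly.natDegree_eq_one_iff.mp (show (minpoly ℚ s).natDegree = 1 by omega)
    have hsq : q ^ 2 = (d : ℚ) := (algebraMap ℚ (AlgebraicClosure ℚ)).injective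
      (by rw [map_pow, hq, hs, map_intCast])
    have : (d : ℚ) < 0 := Int.cast_lt_zero.mpr hd
    nlinarith [sq_nonneg q]

end FA.ExceptionalIsCM

namespace FA.Summary

open FA.ExceptionalIsCM FA.ExceptionalUnits
open FA.Twists (quadTwist)

/-- **Exceptional is CM in the sense of L-functions**: for one of the nine fields `ℚ(√d)` of class
number one `a_l = 0` at the good inert primes iff the curve has the L-function of a curve with one
of the thirteen CM invariants (all coefficients equal). -/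
theorem exceptional_iff_cm_LFunction (E : WeierstrassCurve ℚ) [E.IsElliptic] :
    (∃ d ∈ ({-1, -2, -3, -7, -11, -19, -43, -67, -163} : Finset ℤ),
      ∀ l : ℕ, ∀ [Fact l.Prime], (∃ C : VariableChange ℚ_[l],
        HasGoodReduction ℤ_[l] (C • E.map (algebraMap ℚ ℚ_[l]))) →
          ¬ IsSquare (d : ZMod l) → E.LFunction l = 0) ↔
    ∃ (E₀ : WeierstrassCurve ℚ) (_ : E₀.IsElliptic),
      E₀.j ∈ ({0, 1728, 66 ^ 3, 54000, -12288000, -3375, 16581375, 8000, -32768,
        -884736, -884736000, -147197952000, -262537412640768000} : Finset ℚ) ∧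
      E.LFunction = E₀.LFunction := by
  constructor
  · rintro ⟨d, hd, h⟩
    by_cases h1 : d = -1
    · subst h1
      obtain ⟨D, hD, hL⟩ := exceptional_gaussian E h
      haveI : (⟨0, 0, 0, (D : ℚ), 0⟩ : WeierstrassCurve ℚ).IsElliptic := by
        rw [isElliptic_iff, isUnit_iff_ne_zero]
        simp [WeierstrassCurve.Δ, b₂, b₄, b₆, b₈, hD]
      refine ⟨_, inferInstance, ?_, hL⟩
      rw [j_eq_of_c₆ (by simp [WeierstrassCurve.c₆, b₂, b₄, b₆])]
      simp
    by_cases h3 : d = -3
    · subst h3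
      obtain ⟨D, hD, hL⟩ := exceptional_eisenstein E h
      haveI : (⟨0, 0, 0, 0, (D : ℚ)⟩ : WeierstrassCurve ℚ).IsElliptic := by
        rw [isElliptic_iff, isUnit_iff_ne_zero]
        simp [WeierstrassCurve.Δ, b₂, b₄, b₆, b₈, hD]
      refine ⟨_, inferInstance, ?_, hL⟩
      rw [(WeierstrassCurve.j_eq_zero_iff _).mpr (by simp [WeierstrassCurve.c₄, b₂, b₄])]
      simp
    obtain ⟨hsf, hneg⟩ := FA.Genus.squarefree_and_neg (shape_of_mem hd)
    obtain ⟨j, D, hj0, hj1, hDd, hjD, hjm⟩ := exists_pair (d := d)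
      (by simp only [Finset.mem_insert, Finset.mem_singleton] at hd ⊢; omega)
    obtain ⟨E₁, hE₁, rfl⟩ := FA.ModularClass.exists_curve_j hj0 hj1
    obtain ⟨e, he, hL⟩ := exists_twist_LFunction E₁ E (exceptional_traceSquares E₁ E hsf (by omega)
      h1 h3 (fun l hl _ hns =>
        lFunction_eq_zero_of_inert E₁ hjD hl.out (not_isSquare_disc hDd hns)) h)
    haveI := FA.Root.quadTwist_isElliptic E₁ (Int.cast_ne_zero.mpr he : (e : ℚ) ≠ 0)
    refine ⟨quadTwist E₁ (e : ℚ), inferInstance, ?_, hL⟩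
    rwa [FA.OggShafarevich.quadTwist_j E₁ (Int.cast_ne_zero.mpr he)]
  · rintro ⟨E₀, hE₀, hj, hL⟩
    suffices H : ∃ d ∈ ({-1, -2, -3, -7, -11, -19, -43, -67, -163} : Finset ℤ), ∃ D : ℤ,
        (D = d ∨ D = 4 * d) ∧ (E₀.j, D) ∈ ({(0, -3), (54000, -3), (-12288000, -3), (1728, -4),
          (287496, -4), (-3375, -7), (16581375, -7), (8000, -8), (-32768, -11), (-884736, -19),
          (-884736000, -43), (-147197952000, -67), (-262537412640768000, -163)} :
            Finset (ℚ × ℤ)) by
      obtain ⟨d, hd, D, hDd, hjD⟩ := H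
      exact ⟨d, hd, fun l hl _ hns => by
        rw [hL]; exact lFunction_eq_zero_of_inert E₀ hjD hl.out (not_isSquare_disc hDd hns)⟩
    simp only [Finset.mem_insert, Finset.mem_singleton] at hj
    rcases hj with hj | hj | hj | hj | hj | hj | hj | hj | hj | hj | hj | hj | hj <;> rw [hj]
    · exact ⟨-3, by simp, -3, by simp, by simp⟩
    · exact ⟨-1, by simp, -4, by norm_num, by simp⟩
    · exact ⟨-1, by simp, -4, by norm_num, by norm_num⟩
    · exact ⟨-3, by simp, -3, by simp, by simp⟩
    · exact ⟨-3, by simp, -3, by simp, by simp⟩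
    · exact ⟨-7, by simp, -7, by simp, by simp⟩
    · exact ⟨-7, by simp, -7, by simp, by simp⟩
    · exact ⟨-2, by simp, -8, by norm_num, by simp⟩
    · exact ⟨-11, by simp, -11, by simp, by simp⟩
    · exact ⟨-19, by simp, -19, by simp, by simp⟩
    · exact ⟨-43, by simp, -43, by simp, by simp⟩
    · exact ⟨-67, by simp, -67, by simp, by simp⟩
    · exact ⟨-163, by simp, -163, by simp, by simp⟩

/-- **An exceptional curve of one of the nine fields is isogenous to a CM curve in Galois terms**: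
some curve with one of the thirteen invariants has the same L-function and, for every prime, a
Galois equivariant surjection with finite kernel from the points of `p`-power order of `E`. -/
theorem exceptional_tateIsogeny_cm (E : WeierstrassCurve ℚ) [E.IsElliptic]
    [inst : DecidableEq (AlgebraicClosure ℚ)] {d : ℤ}
    (hd : d ∈ ({-1, -2, -3, -7, -11, -19, -43, -67, -163} : Finset ℤ))
    (h : ∀ l : ℕ, ∀ [Fact l.Prime], (∃ C : VariableChange ℚ_[l],
      HasGoodReduction ℤ_[l] (C • E.map (algebraMap ℚ ℚ_[l]))) →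
        ¬ IsSquare (d : ZMod l) → E.LFunction l = 0) :
    ∃ (E₀ : WeierstrassCurve ℚ) (_ : E₀.IsElliptic),
      E₀.j ∈ ({0, 1728, 66 ^ 3, 54000, -12288000, -3375, 16581375, 8000, -32768,
        -884736, -884736000, -147197952000, -262537412640768000} : Finset ℚ) ∧
      E.LFunction = E₀.LFunction ∧ ∀ p : ℕ, p.Prime →
        ∃ f : AddCommGroup.primaryComponent (E.toAffine⁄(AlgebraicClosure ℚ)).Point p →+
            AddCommGroup.primaryComponent (E₀.toAffine⁄(AlgebraicClosure ℚ)).Point p,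
          Function.Surjective f ∧ Finite f.ker ∧
            ∀ (σ : AlgebraicClosure ℚ ≃ₐ[ℚ] AlgebraicClosure ℚ) P Q,
              Affine.Point.map σ.toAlgHom P.1 = Q.1 →
                Affine.Point.map σ.toAlgHom (f P).1 = (f Q).1 := by
  obtain ⟨E₀, hE₀, hj, hL⟩ := (exceptional_iff_cm_LFunction E).mp ⟨d, hd, h⟩
  exact ⟨E₀, hE₀, hj, hL, fun p hp =>
    tateIsogeny_of_traces_all E E₀ ∅ (fun q _ _ => by rw [hL]) hp⟩

/-- **Serre's theorem with the CM curves named**: the adelic image is not open iff the curve has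
the L-function of a curve with one of the thirteen CM invariants, or its exceptional field is
`ℚ(√-p)` of class number one with a prime `p ≥ 1000` (none: see `SummaryExceptionalNine`). -/
theorem not_openImage_iff_cm_LFunction (E : WeierstrassCurve ℚ) [E.IsElliptic]
    [inst : DecidableEq (AlgebraicClosure ℚ)] :
    (¬ ∃ m : ℕ, 0 < m ∧ ∀ (N : ℕ), N ≠ 0 →
      ∀ φ : Submodule.torsionBy ℤ (E.toAffine⁄(AlgebraicClosure ℚ)).Point (N : ℤ) ≃+
        Submodule.torsionBy ℤ (E.toAffine⁄(AlgebraicClosure ℚ)).Point (N : ℤ),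
      (∀ P, m • P.1 = 0 → φ P = P) →
        ∃ σ : AlgebraicClosure ℚ ≃ₐ[ℚ] AlgebraicClosure ℚ, ∀ P,
          Affine.Point.map σ.toAlgHom P.1 = (φ P).1) ↔
    (∃ (E₀ : WeierstrassCurve ℚ) (_ : E₀.IsElliptic),
      E₀.j ∈ ({0, 1728, 66 ^ 3, 54000, -12288000, -3375, 16581375, 8000, -32768,
        -884736, -884736000, -147197952000, -262537412640768000} : Finset ℚ) ∧
      E.LFunction = E₀.LFunction) ∨
    ∃ p : ℕ, p.Prime ∧ p % 4 = 3 ∧ 1000 ≤ p ∧
      (∀ (K : Type) [Field K] [NumberField K], Module.finrank ℚ K = 2 →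
        (∃ s : K, s ^ 2 = ((-(p : ℤ) : ℤ) : K)) → NumberField.classNumber K = 1) ∧
      ∀ l : ℕ, ∀ [Fact l.Prime], (∃ C : VariableChange ℚ_[l],
        HasGoodReduction ℤ_[l] (C • E.map (algebraMap ℚ ℚ_[l]))) →
          ¬ IsSquare ((-(p : ℤ) : ℤ) : ZMod l) → E.LFunction l = 0 := by
  obtain rfl : inst = instDecEqAlgebraicClosureRat := Subsingleton.elim _ _
  constructor
  · intro hno
    obtain ⟨d, hshape, hcn, h, -⟩ := not_openImage_classNumber_one E hno
    by_cases hd : d ∈ ({-1, -2, -3, -7, -11, -19, -43, -67, -163} : Finset ℤ)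
    · exact Or.inl ((exceptional_iff_cm_LFunction E).mp ⟨d, hd, h⟩)
    rcases hshape with rfl | rfl | ⟨p, hp, hp4, rfl⟩
    · simp at hd
    · simp at hd
    refine Or.inr ⟨p, hp, hp4, ?_, hcn, h⟩
    by_contra hlt
    obtain ⟨K, _, s, hK, hs⟩ := exists_field (neg_lt_zero.mpr (Int.natCast_pos.mpr hp.pos))
    have := FA.ExceptionalIsCM.eq_of_classNumber_one hp hp4 (not_le.mp hlt) hK hs
      (hcn K hK ⟨s, hs⟩)
    refine hd ?_
    simp only [Finset.mem_insert, Finset.mem_singleton] at this ⊢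
    omega
  · intro hcase
    have hexc : ∃ d : ℤ, Squarefree d ∧ d < 0 ∧ ∀ l : ℕ, ∀ [Fact l.Prime],
        (∃ C : VariableChange ℚ_[l],
          HasGoodReduction ℤ_[l] (C • E.map (algebraMap ℚ ℚ_[l]))) →
        ¬ IsSquare (d : ZMod l) → E.LFunction l = 0 := by
      rcases hcase with hcm | ⟨p, hp, hp4, -, -, h⟩
      · obtain ⟨d, hd, h⟩ := (exceptional_iff_cm_LFunction E).mpr hcm
        obtain ⟨hsf, hneg⟩ := FA.Genus.squarefree_and_neg (shape_of_mem hd)
        exact ⟨d, hsf, hneg, h⟩
      · obtain ⟨hsf, hneg⟩ := FA.Genus.squarefree_and_neg (d := -(p : ℤ))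
          (Or.inr (Or.inr ⟨p, hp, hp4, rfl⟩))
        exact ⟨_, hsf, hneg, h⟩
    rw [serreOpenImage_adelic_iff_imaginary E, not_not]
    exact hexc

end FA.Summary

end
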