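import Fermat.Agent.ExceptionalIsCM.Descent
import Fermat.Agent.ExceptionalIsCM.ThreeAdic
import Fermat.Agent.Root.SummaryExceptionalIsCM
import Fermat.Agent.Twists.Main

/-!
# The exceptional field of an elliptic curve over `ℚ` is one of nine

By Heegner's argument in Galois form (`Fermat.Agent.ExceptionalIsCM.Descent`) the prime of the
exceptional field is below `1000`, so the field is one of the nine. Hence the adelic image is open
exactly when the L-function is none of a CM curve's, and every curve whose image is not open is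
modular. For class number one of a field without a curve given see
`Fermat.Agent.Root.SummaryClassNumberOne`.
-/

set_option autoImplicit false
set_option linter.style.haveILetI false

noncomputable section

open WeierstrassCurve WeierstrassCurve.Affine FA.EC FA.Frob FA.RT
open FA.AlmostAll (shortInt shortRat shortInt_isIntegralModelOf)
open scoped WeierstrassCurve.Affine

namespace FA.ExceptionalIsCM

/-- A short integral model: an isomorphic curve `y² = x³ + A x + B`. -/
theorem exists_shortInt (E : WeierstrassCurve ℚ) :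
    ∃ A : ℤ × ℤ, ∃ C : VariableChange ℚ, C • E = shortRat A := by
  set s : ℚ := E.c₄.den * E.c₆.den with hs
  have hs0 : s ≠ 0 :=
    mul_ne_zero (Nat.cast_ne_zero.mpr E.c₄.den_nz) (Nat.cast_ne_zero.mpr E.c₆.den_nz)
  obtain ⟨C, hC⟩ := FA.Twists.exists_smul_eq_short E hs0
  refine ⟨(-27 * ((E.c₄.den : ℤ) ^ 3 * (E.c₆.den : ℤ) ^ 4 * E.c₄.num),
    -54 * ((E.c₄.den : ℤ) ^ 6 * (E.c₆.den : ℤ) ^ 5 * E.c₆.num)), C, hC.trans ?_⟩
  have h4 := Rat.mul_den_eq_num E.c₄
  have h6 := Rat.mul_den_eq_num E.c₆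
  ext <;> simp only [FA.Twists.short]
  · push_cast
    rw [hs, ← h4]
    ring
  · push_cast
    rw [hs, ← h6]
    ring

variable {A : ℤ × ℤ} [(ratCurve (shortInt A)).IsElliptic] [(shortRat A).IsElliptic] {p : ℕ}

set_option linter.unusedSectionVars false in
/-- The invariant of `y² = x³ + A x + B`. -/
theorem j_shortRat :
    (shortRat A).j * (4 * (A.1 : ℚ) ^ 3 + 27 * (A.2 : ℚ) ^ 2) = 6912 * (A.1 : ℚ) ^ 3 := by
  have hΔ : (shortRat A).Δ = -16 * (4 * (A.1 : ℚ) ^ 3 + 27 * (A.2 : ℚ) ^ 2) := by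
    simp [WeierstrassCurve.Δ, b₂, b₄, b₆, b₈]; ring
  have hc : (shortRat A).c₄ = -48 * (A.1 : ℚ) := by
    simp [WeierstrassCurve.c₄, b₂, b₄]; ring
  have h0 : (shortRat A).Δ ≠ 0 := (shortRat A).isUnit_Δ.ne_zero
  rw [WeierstrassCurve.j, Units.val_inv_eq_inv_val, coe_Δ', hc]
  rw [hΔ] at h0 ⊢
  rw [inv_mul_eq_div, div_mul_eq_mul_div, div_eq_iff h0]
  ring

/-- **No exceptional field `ℚ(√-p)` with `p ≥ 1000`.** -/
theorem lt_of_exceptional (hp : p.Prime) (hp4 : p % 4 = 3)
    (h : ∀ l : ℕ, ∀ [Fact l.Prime], (∃ C : VariableChange ℚ_[l],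
      HasGoodReduction ℤ_[l] (C • (shortRat A).map (algebraMap ℚ ℚ_[l]))) →
        ¬ IsSquare ((-(p : ℤ) : ℤ) : ZMod l) → (shortRat A).LFunction l = 0) : p < 1000 := by
  by_contra hlt
  obtain ⟨hd, hneg⟩ := FA.Genus.squarefree_and_neg (d := -(p : ℤ))
    (Or.inr (Or.inr ⟨p, hp, hp4, rfl⟩))
  obtain ⟨K, _, s, hK, hs⟩ := exists_field hneg
  have h1 := FA.Summary.exceptional_classNumber_one (shortRat A) hd (by omega) h K hK ⟨s, hs⟩
  have hp8 : p % 8 = 3 := by
    by_contra h8
    have := not_dvd_norm hp Nat.prime_two (by omega) hK hs h1 (a := 1) (b := 1) one_ne_zero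
      (by omega)
    norm_num at this
  have hp3 : p % 3 = 1 := by
    by_contra h3
    have h30 : p % 3 ≠ 0 := fun h0 => by
      have := (Nat.prime_dvd_prime_iff_eq Nat.prime_three hp).mp (Nat.dvd_of_mod_eq_zero h0)
      omega
    have := not_dvd_norm hp Nat.prime_three (by omega) hK hs h1 (a := 2) (b := 2) two_ne_zero
      (by omega)
    norm_num at this
  obtain ⟨D⟩ := exists_twoData hp hp8 (by omega) h
  obtain ⟨r, hr⟩ := exists_cube hp hp4 hp3 (by omega) h
  obtain ⟨z, hz⟩ := FA.Summary.exceptional_integral_j (shortRat A) hd (by omega) h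
  obtain ⟨x, hx, hdvd⟩ := D.exists_invariant hp (by omega) hr ⟨z, by rw [← hz, j_shortRat]⟩
  -- `x³ - 1728` has no prime factor above `1000`
  suffices H : ∀ f : List ℕ, (∀ q ∈ f, q < 1000) → (x ^ 3 - 1728).natAbs = f.prod → False by
    simp only [Finset.mem_insert, Finset.mem_singleton] at hx
    rcases hx with rfl | rfl | rfl | rfl | rfl | rfl
    · exact H [64, 27] (by decide) (by norm_num)
    · exact H [64, 49, 11] (by decide) (by norm_num)
    · exact H [64, 729, 19] (by decide) (by norm_num)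
    · exact H [64, 729, 49, 9, 43] (by decide) (by norm_num)
    · exact H [64, 729, 49, 31, 31, 67] (by decide) (by norm_num)
    · exact H [64, 729, 49, 121, 361, 127, 127, 163] (by decide) (by norm_num)
  intro f hf hprod
  obtain ⟨q, hq, hpq⟩ := (Nat.prime_iff.mp hp).dvd_prod_iff.mp (hprod ▸ Int.natCast_dvd.mp hdvd)
  rcases eq_or_ne q 0 with rfl | hq0
  · exact absurd (List.prod_eq_zero hq) (by
      rw [← hprod, ← ne_eq, Int.natAbs_ne_zero]
      simp only [Finset.mem_insert, Finset.mem_singleton] at hx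
      rcases hx with rfl | rfl | rfl | rfl | rfl | rfl <;> norm_num)
  have := Nat.le_of_dvd (Nat.pos_of_ne_zero hq0) hpq
  have := hf q hq
  omega

end FA.ExceptionalIsCM

namespace FA.Summary

open FA.ExceptionalIsCM

/-- **The exceptional field is one of nine**: if `a_l = 0` at all good primes inert in `ℚ(√d)`,
then `d` is one of `-1, -2, -3, -7, -11, -19, -43, -67, -163`. -/
theorem exceptional_field_nine (E : WeierstrassCurve ℚ) [E.IsElliptic] {d : ℤ}
    (hd : Squarefree d) (hd1 : d ≠ 1)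
    (h : ∀ l : ℕ, ∀ [Fact l.Prime], (∃ C : VariableChange ℚ_[l],
      HasGoodReduction ℤ_[l] (C • E.map (algebraMap ℚ ℚ_[l]))) →
        ¬ IsSquare (d : ZMod l) → E.LFunction l = 0) :
    d ∈ ({-1, -2, -3, -7, -11, -19, -43, -67, -163} : Finset ℤ) := by
  rcases exceptional_field_shape E hd hd1 h with rfl | rfl | ⟨p, hp, hp4, rfl⟩
  · simp
  · simp
  obtain ⟨A, C, hC⟩ := exists_shortInt E
  haveI : (shortRat A).IsElliptic := hC ▸ inferInstance
  have hA := shortInt_isIntegralModelOf A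
  haveI := ratCurve_isElliptic_of_Δ (Δ_ne_zero_of_model hA)
  have hW : (shortInt A).IsIntegralModelOf E := by
    obtain ⟨C', hC'⟩ := hA
    exact ⟨C' * C, by rw [mul_smul, hC, hC']⟩
  have hL : (shortRat A).LFunction = E.LFunction :=
    LFunction_eq_of_traces _ _ (shortInt A).Δ.natAbs.primeFactors fun l hl hlS => by
      have hg : (shortInt A).IsGoodPrimeFor l := fun hd' => hlS (Nat.mem_primeFactors.mpr
        ⟨hl, Int.natCast_dvd.mp hd', Int.natAbs_ne_zero.mpr (Δ_ne_zero_of_model hA)⟩)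
      rw [FA.Root.LFunction_apply_prime _ _ hA hl hg, FA.Root.LFunction_apply_prime _ _ hW hl hg]
  have hlt := lt_of_exceptional hp hp4 (A := A) fun l _ ⟨C', hC'⟩ hns => by
    rw [hL]
    refine h l ⟨C' * C.map (algebraMap ℚ ℚ_[l]), ?_⟩ hns
    rwa [mul_smul, WeierstrassCurve.map_variableChange, hC]
  obtain ⟨K, _, s, hK, hs⟩ := exists_field (neg_lt_zero.mpr (Int.natCast_pos.mpr hp.pos))
  have := FA.ExceptionalIsCM.eq_of_classNumber_one hp hp4 hlt hK hs
    (exceptional_classNumber_one E hd hd1 h K hK ⟨s, hs⟩)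
  simp only [Finset.mem_insert, Finset.mem_singleton] at this ⊢
  omega

/-- **Serre's open image theorem with the exceptions named**: the adelic image is open iff the
L-function is not that of a curve with one of the thirteen CM invariants. -/
theorem openImage_iff_not_cm_LFunction (E : WeierstrassCurve ℚ) [E.IsElliptic]
    [inst : DecidableEq (AlgebraicClosure ℚ)] :
    (∃ m : ℕ, 0 < m ∧ ∀ (N : ℕ), N ≠ 0 →
      ∀ φ : Submodule.torsionBy ℤ (E.toAffine⁄(AlgebraicClosure ℚ)).Point (N : ℤ) ≃+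
        Submodule.torsionBy ℤ (E.toAffine⁄(AlgebraicClosure ℚ)).Point (N : ℤ),
      (∀ P, m • P.1 = 0 → φ P = P) →
        ∃ σ : AlgebraicClosure ℚ ≃ₐ[ℚ] AlgebraicClosure ℚ, ∀ P,
          Affine.Point.map σ.toAlgHom P.1 = (φ P).1) ↔
    ¬ ∃ (E₀ : WeierstrassCurve ℚ) (_ : E₀.IsElliptic),
      E₀.j ∈ ({0, 1728, 66 ^ 3, 54000, -12288000, -3375, 16581375, 8000, -32768,
        -884736, -884736000, -147197952000, -262537412640768000} : Finset ℚ) ∧
      E.LFunction = E₀.LFunction := by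
  refine (iff_not_comm.mp ⟨fun hcm hopen => ?_, fun hno => ?_⟩)
  · exact (not_openImage_iff_cm_LFunction E).mpr (Or.inl hcm) hopen
  · rcases (not_openImage_iff_cm_LFunction E).mp hno with h | ⟨p, hp, hp4, hlt, -, h⟩
    · exact h
    · exfalso
      obtain ⟨hd, hneg⟩ := FA.Genus.squarefree_and_neg (d := -(p : ℤ))
        (Or.inr (Or.inr ⟨p, hp, hp4, rfl⟩))
      have := exceptional_field_nine E hd (by omega) h
      simp only [Finset.mem_insert, Finset.mem_singleton] at this
      omega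

/-- **Every exceptional curve is modular.** -/
theorem modularity_of_exceptional_all (E : WeierstrassCurve ℚ) [E.IsElliptic] {d : ℤ}
    (hd : Squarefree d) (hd1 : d ≠ 1)
    (h : ∀ l : ℕ, ∀ [Fact l.Prime], (∃ C : VariableChange ℚ_[l],
      HasGoodReduction ℤ_[l] (C • E.map (algebraMap ℚ ℚ_[l]))) →
        ¬ IsSquare (d : ZMod l) → E.LFunction l = 0) :
    (∃ (N : ℕ) (f : CuspForm (CongruenceSubgroup.Gamma0 N) 2), 0 < N ∧
      ∀ n : ℕ, (UpperHalfPlane.qExpansion 1 f).coeff n = (E.LFunction n : ℂ)) ∧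
    ∃ g : ℂ → ℂ, Differentiable ℂ g ∧ ∀ s : ℂ, 3 / 2 < s.re →
      LSeriesSummable ((↑) ∘ E.LFunction) s ∧ E.LSeries s = g s :=
  modularity_of_exceptional_nine E (exceptional_field_nine E hd hd1 h) h

/-- **Every curve whose adelic image is not open is modular.** -/
theorem modularity_of_not_openImage (E : WeierstrassCurve ℚ) [E.IsElliptic]
    [inst : DecidableEq (AlgebraicClosure ℚ)]
    (hno : ¬ ∃ m : ℕ, 0 < m ∧ ∀ (N : ℕ), N ≠ 0 →
      ∀ φ : Submodule.torsionBy ℤ (E.toAffine⁄(AlgebraicClosure ℚ)).Point (N : ℤ) ≃+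
        Submodule.torsionBy ℤ (E.toAffine⁄(AlgebraicClosure ℚ)).Point (N : ℤ),
      (∀ P, m • P.1 = 0 → φ P = P) →
        ∃ σ : AlgebraicClosure ℚ ≃ₐ[ℚ] AlgebraicClosure ℚ, ∀ P,
          Affine.Point.map σ.toAlgHom P.1 = (φ P).1) :
    (∃ (N : ℕ) (f : CuspForm (CongruenceSubgroup.Gamma0 N) 2), 0 < N ∧
      ∀ n : ℕ, (UpperHalfPlane.qExpansion 1 f).coeff n = (E.LFunction n : ℂ)) ∧
    ∃ g : ℂ → ℂ, Differentiable ℂ g ∧ ∀ s : ℂ, 3 / 2 < s.re →
      LSeriesSummable ((↑) ∘ E.LFunction) s ∧ E.LSeries s = g s := by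
  obtain rfl : inst = instDecEqAlgebraicClosureRat := Subsingleton.elim _ _
  obtain ⟨E₀, hE₀, hj, hL⟩ := not_not.mp fun hcm =>
    hno ((openImage_iff_not_cm_LFunction E).mpr hcm)
  have H := modularity_cases E₀ (Or.inr (Or.inr hj))
  unfold WeierstrassCurve.LSeries at H ⊢
  rw [hL]
  exact H

end FA.Summary

end
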