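import Fermat.Agent.ClassNumberOne.Descent
import Fermat.Agent.ClassNumberOne.Genus
import Fermat.Agent.Root.SummaryExceptionalNine

/-!
# The class number one theorem

An imaginary quadratic field has class number one iff it is one of the nine fields
`ℚ(√d)`, `d = -1, -2, -3, -7, -11, -19, -43, -67, -163` (Heegner, Baker, Stark).

Genus theory leaves `d = -p`, `p ≡ 3 (mod 4)`; for such a field the curve with multiplication by
its integers is defined over `ℚ` (`Fermat.Agent.ClassNumberOne.Descent`), so the field is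
exceptional for a curve over `ℚ` and `exceptional_field_nine` applies.
-/

set_option autoImplicit false
set_option linter.style.haveILetI false

noncomputable section

open WeierstrassCurve FA.ExceptionalIsCM FA.ExceptionalUnits NumberField

namespace FA.ClassNumberOne

/-- Each of the nine fields is exceptional for some curve over `ℚ`. -/
theorem exists_curve_of_mem {d : ℤ}
    (hd : d ∈ ({-1, -2, -3, -7, -11, -19, -43, -67, -163} : Finset ℤ)) :
    ∃ (E : WeierstrassCurve ℚ) (_ : E.IsElliptic), ∀ l : ℕ, ∀ [Fact l.Prime],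
      ¬ IsSquare (d : ZMod l) → E.LFunction l = 0 := by
  by_cases h1 : d = -1
  · subst h1
    haveI : (⟨0, 0, 0, 1, 0⟩ : WeierstrassCurve ℚ).IsElliptic := ⟨by
      rw [isUnit_iff_ne_zero]; norm_num [WeierstrassCurve.Δ, b₂, b₄, b₆, b₈]⟩
    refine ⟨⟨0, 0, 0, 1, 0⟩, inferInstance, fun l hl hns => ?_⟩
    refine FA.Summary.lFunction_eq_zero_of_inert _ (d := -4) ?_ hl.out
      (not_isSquare_disc (Or.inr (by norm_num)) hns)
    rw [j_eq_of_c₆ (by simp [WeierstrassCurve.c₆, b₂, b₄, b₆])]
    simp
  by_cases h3 : d = -3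
  · subst h3
    haveI : (⟨0, 0, 0, 0, 1⟩ : WeierstrassCurve ℚ).IsElliptic := ⟨by
      rw [isUnit_iff_ne_zero]; norm_num [WeierstrassCurve.Δ, b₂, b₄, b₆, b₈]⟩
    refine ⟨⟨0, 0, 0, 0, 1⟩, inferInstance, fun l hl hns => ?_⟩
    refine FA.Summary.lFunction_eq_zero_of_inert _ (d := -3) ?_ hl.out
      (not_isSquare_disc (Or.inl rfl) hns)
    rw [(j_eq_zero_iff _).mpr (by simp [WeierstrassCurve.c₄, b₂, b₄])]
    simp
  obtain ⟨j, D, hj0, hj1, hDd, hjD, -⟩ := exists_pair (d := d)
    (by simp only [Finset.mem_insert, Finset.mem_singleton] at hd ⊢; omega)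
  obtain ⟨E, hE, rfl⟩ := FA.ModularClass.exists_curve_j hj0 hj1
  exact ⟨E, hE, fun l hl hns =>
    FA.Summary.lFunction_eq_zero_of_inert E hjD hl.out (not_isSquare_disc hDd hns)⟩

end FA.ClassNumberOne

namespace FA.Summary

open FA.ClassNumberOne

/-- **The class number one theorem**: for squarefree `d < 0` the field `ℚ(√d)` has class number one
iff `d` is one of `-1, -2, -3, -7, -11, -19, -43, -67, -163`. -/
theorem classNumber_one_iff_nine (K : Type*) [Field K] [NumberField K]
    (hK : Module.finrank ℚ K = 2) {d : ℤ} (hd : Squarefree d) (hd0 : d < 0)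
    (hs : ∃ s : K, s ^ 2 = (d : K)) :
    classNumber K = 1 ↔ d ∈ ({-1, -2, -3, -7, -11, -19, -43, -67, -163} : Finset ℤ) := by
  obtain ⟨s, hs⟩ := hs
  refine ⟨fun h1 => ?_, fun hmem => ?_⟩
  · rcases shape_of_classNumber_one hK hd hd0 hs h1 with rfl | rfl | ⟨p, hp, hp4, rfl⟩
    · simp
    · simp
    haveI : NeZero p := ⟨hp.ne_zero⟩
    obtain ⟨E, hE, h⟩ := exists_exceptional_curve hp hp4 hK hs h1
    exact exceptional_field_nine E hd (by omega) h
  · obtain ⟨E, hE, h⟩ := exists_curve_of_mem hmem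
    exact exceptional_classNumber_one E hd (by omega) (fun l _ _ hns => h l hns) K hK ⟨s, hs⟩

/-- **Heegner, Baker, Stark**: an imaginary quadratic field of class number one, generated by
`√d` with `d < 0` squarefree, has `d` among the nine radicands. -/
theorem classNumber_one_fields (K : Type*) [Field K] [NumberField K]
    (hK : Module.finrank ℚ K = 2) {d : ℤ} (hd : Squarefree d) (hd0 : d < 0)
    (hs : ∃ s : K, s ^ 2 = (d : K)) (h1 : classNumber K = 1) :
    d = -1 ∨ d = -2 ∨ d = -3 ∨ d = -7 ∨ d = -11 ∨ d = -19 ∨ d = -43 ∨ d = -67 ∨ d = -163 := by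
  simpa using (classNumber_one_iff_nine K hK hd hd0 hs).mp h1

end FA.Summary

end
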