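import Fermat.Agent.CycloIndex.MailletValues
import Fermat.Agent.Root.SummaryKummerIndex

/-!
# Maillet's determinant and the relative class number of `ℚ(ζ_p)`

* `maillet_determinant`: Carlitz and Olson, `|det (R(a b⁻¹))| · h⁺ = p^((p-3)/2) · h`, so the determinant is
  `p^((p-3)/2)` times the relative class number `h/h⁺`; `classNumber_real_dvd`: `h⁺ ∣ h` when `p ∤ h⁺`, so for `p < 157`.
* `classNumber_eq_real_le_nineteen`, `classNumber_twentyThree`: `h = h⁺` for `5 ≤ p ≤ 19` and `h = 3 h⁺` for `p = 23`,
  so `3 ∣ h(ℚ(ζ₂₃))` and `ℤ[ζ₂₃]` is not a principal ideal ring: unique factorisation fails.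

Classical; independent of S01.
-/

set_option autoImplicit false

noncomputable section

open NumberField

namespace FA.Summary

variable (p : ℕ) [Fact p.Prime] (K : Type*) [Field K] [NumberField K] [IsCyclotomicExtension {p} ℚ K]

/-- **Carlitz–Olson**: Maillet's determinant is `p^((p-3)/2)` times the relative class number. -/
theorem maillet_determinant (hp5 : 5 ≤ p) :
    ((FA.CycloIndex.mailletMatrix p ((p - 1) / 2)).det).natAbs * classNumber (maximalRealSubfield K) =
      p ^ ((p - 3) / 2) * classNumber K := by
  have := (Fact.out : p.Prime).eq_two_or_odd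
  rw [show (p - 3) / 2 = (p - 1) / 2 - 1 by omega]
  exact FA.CycloIndex.maillet_classNumber K (by omega) (by omega)

/-- `h⁺ ∣ h` when `p ∤ h⁺`. -/
theorem classNumber_real_dvd (hp5 : 5 ≤ p) (h : ¬ p ∣ classNumber (maximalRealSubfield K)) :
    classNumber (maximalRealSubfield K) ∣ classNumber K :=
  ((((Fact.out : p.Prime).coprime_iff_not_dvd.mpr h).symm).pow_right _).dvd_of_dvd_mul_left
    ⟨_, ((mul_comm _ _).trans (maillet_determinant p K hp5)).symm⟩

/-- `h⁺ ∣ h` below `157`. -/
theorem classNumber_real_dvd_lt_157 (hp5 : 5 ≤ p) (h157 : p < 157) :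
    classNumber (maximalRealSubfield K) ∣ classNumber K :=
  classNumber_real_dvd p K hp5 (not_dvd_classNumber_real_lt_157 p K hp5 h157)

/-- The relative class number is one up to `19`. -/
theorem classNumber_eq_real_le_nineteen (hp5 : 5 ≤ p) (h19 : p ≤ 19) :
    classNumber K = classNumber (maximalRealSubfield K) := by
  have hp : p.Prime := Fact.out
  have h := maillet_determinant p K hp5
  refine Nat.eq_of_mul_eq_mul_left (pow_pos hp.pos ((p - 3) / 2)) (h.symm.trans (congrArg (· * _) ?_))
  interval_cases p <;> first
    | (exfalso; revert hp; norm_num; done)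
    | exact (FA.CycloIndex.natAbs_det_maillet_5).trans (by norm_num)
    | exact (FA.CycloIndex.natAbs_det_maillet_7).trans (by norm_num)
    | exact (FA.CycloIndex.natAbs_det_maillet_11).trans (by norm_num)
    | exact (FA.CycloIndex.natAbs_det_maillet_13).trans (by norm_num)
    | exact (FA.CycloIndex.natAbs_det_maillet_17).trans (by norm_num)
    | exact (FA.CycloIndex.natAbs_det_maillet_19).trans (by norm_num)

/-- The relative class number of `ℚ(ζ₂₃)` is `3`. -/
theorem classNumber_twentyThree (L : Type*) [Field L] [NumberField L] [IsCyclotomicExtension {23} ℚ L] :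
    classNumber L = 3 * classNumber (maximalRealSubfield L) := by
  have : Fact (Nat.Prime 23) := ⟨by norm_num⟩
  have h := FA.CycloIndex.maillet_classNumber (p := 23) L (m := 11) (by norm_num) (by norm_num)
  rw [FA.CycloIndex.natAbs_det_maillet_23] at h
  omega

/-- **Unique factorisation fails in `ℤ[ζ₂₃]`.** -/
theorem not_isPrincipalIdealRing_twentyThree (L : Type*) [Field L] [NumberField L]
    [IsCyclotomicExtension {23} ℚ L] : ¬ IsPrincipalIdealRing (𝓞 L) := fun h => by
  have h1 := classNumber_twentyThree L
  rw [classNumber_eq_one_iff.mpr h] at h1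
  omega

end FA.Summary
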