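import Fermat.Agent.CycloIndex.RealClassValues
import Fermat.Agent.Root.SummaryMaillet
import Mathlib.NumberTheory.NumberField.Cyclotomic.PID

/-!
# The class numbers of `ℚ(ζ_p)` for `p ≤ 23`

* `classNumber_real_eq_one_le_23`: `h(ℚ(ζ_p)⁺) = 1` for `5 ≤ p ≤ 23`, by Minkowski's bound and explicit generators.
* `classNumber_cyclotomic_eq_one`, `isPrincipalIdealRing_cyclotomic_le_nineteen`: `h(ℚ(ζ_p)) = 1` for `p ≤ 19`,
  so `ℤ[ζ_p]` is a principal ideal ring: Kummer's range where Lamé's argument holds.
* `classNumber_twentyThree_eq`: `h(ℚ(ζ₂₃)) = 3` exactly.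

Classical; independent of S01.
-/

set_option autoImplicit false

noncomputable section

open NumberField

namespace FA.Summary

variable (p : ℕ) [Fact p.Prime] (K : Type*) [Field K] [NumberField K] [IsCyclotomicExtension {p} ℚ K]

/-- The real class number is one up to `23`. -/
theorem classNumber_real_eq_one_le_23 (hp5 : 5 ≤ p) (h23 : p ≤ 23) :
    classNumber (maximalRealSubfield K) = 1 := by
  have hp : p.Prime := Fact.out
  have : IsCMField K := IsCyclotomicExtension.Rat.isCMField (S := {p}) K ⟨p, rfl, by omega⟩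
  interval_cases p <;> first
    | (exfalso; revert hp; norm_num; done)
    | exact FA.CycloIndex.classNumber_real_5
    | exact FA.CycloIndex.classNumber_real_7
    | exact FA.CycloIndex.classNumber_real_11
    | exact FA.CycloIndex.classNumber_real_13
    | exact FA.CycloIndex.classNumber_real_17
    | exact FA.CycloIndex.classNumber_real_19
    | exact FA.CycloIndex.classNumber_real_23

/-- **The class number of `ℚ(ζ_p)` is one for `3 ≤ p ≤ 19`.** -/
theorem classNumber_cyclotomic_eq_one (hp3 : 3 ≤ p) (h19 : p ≤ 19) : classNumber K = 1 := by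
  rcases Nat.lt_or_ge p 5 with h5 | h5
  · have hp : p.Prime := Fact.out
    interval_cases p
    · exact classNumber_eq_one_iff.mpr (IsCyclotomicExtension.Rat.three_pid K)
    · exact absurd hp (by norm_num)
  · rw [classNumber_eq_real_le_nineteen p K h5 h19, classNumber_real_eq_one_le_23 p K h5 (by omega)]

/-- **`ℤ[ζ_p]` is a principal ideal ring for `3 ≤ p ≤ 19`.** -/
theorem isPrincipalIdealRing_cyclotomic_le_nineteen (hp3 : 3 ≤ p) (h19 : p ≤ 19) : IsPrincipalIdealRing (𝓞 K) :=
  classNumber_eq_one_iff.mp (classNumber_cyclotomic_eq_one p K hp3 h19)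

/-- **The class number of `ℚ(ζ₂₃)` is `3`.** -/
theorem classNumber_twentyThree_eq (L : Type*) [Field L] [NumberField L] [IsCyclotomicExtension {23} ℚ L] :
    classNumber L = 3 := by
  have : Fact (Nat.Prime 23) := ⟨by norm_num⟩
  rw [classNumber_twentyThree L, classNumber_real_eq_one_le_23 23 L (by norm_num) le_rfl]

end FA.Summary
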