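import Fermat.Agent.CycloGrowth.Main
import Fermat.Agent.CycloGrowth.Table
import Fermat.Agent.Root.SummaryRealClassNumber
import Fermat.Agent.Root.SummaryKummerCriterionIff

/-!
# The relative class number of `ℚ(ζ_p)` tends to infinity; unique factorisation in `ℤ[ζ_p]`

* `relative_classNumber_exponential`: for all large primes `p`, `2^((p-3)/2) h⁺ ≤ h`;
  `relative_classNumber_unbounded`, `classNumber_cyclotomic_unbounded`: so `h/h⁺` and `h` tend to infinity.
* `finite_uniqueFactorization`: `ℤ[ζ_p]` has unique factorisation for finitely many primes only (Uchida, Montgomery).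
* `uniqueFactorization_iff_lt_two_hundred`: below `200` exactly for `p ≤ 19`.

Classical (Ankeny–Chowla, Uchida 1971, Montgomery); independent of S01.
-/

set_option autoImplicit false

noncomputable section

open NumberField

namespace FA.Summary

/-- **Exponential growth**. -/
theorem relative_classNumber_exponential : ∃ P : ℕ, ∀ (p : ℕ) [Fact p.Prime] (K : Type*) [Field K] [NumberField K]
    [IsCyclotomicExtension {p} ℚ K], P ≤ p →
      2 ^ ((p - 3) / 2) * classNumber (maximalRealSubfield K) ≤ classNumber K :=
  FA.CycloGrowth.exists_classNumber_ge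

/-- **The relative class number exceeds every bound**. -/
theorem relative_classNumber_unbounded (B : ℕ) : ∃ P : ℕ, ∀ (p : ℕ) [Fact p.Prime] (K : Type*) [Field K]
    [NumberField K] [IsCyclotomicExtension {p} ℚ K], P ≤ p →
      B * classNumber (maximalRealSubfield K) < classNumber K := by
  obtain ⟨P, hP⟩ := relative_classNumber_exponential
  refine ⟨max P (2 * B + 3), fun p _ K _ _ _ hp => lt_of_lt_of_le ?_ (hP p K ((le_max_left _ _).trans hp))⟩
  have h1 : B ≤ (p - 3) / 2 := by
    have := (le_max_right P (2 * B + 3)).trans hp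
    omega
  exact Nat.mul_lt_mul_of_pos_right (h1.trans_lt Nat.lt_two_pow_self) Fintype.card_pos

/-- **The class number exceeds every bound**. -/
theorem classNumber_cyclotomic_unbounded (B : ℕ) : ∃ P : ℕ, ∀ (p : ℕ) [Fact p.Prime] (K : Type*) [Field K]
    [NumberField K] [IsCyclotomicExtension {p} ℚ K], P ≤ p → B < classNumber K := by
  obtain ⟨P, hP⟩ := relative_classNumber_unbounded B
  exact ⟨P, fun p _ K _ _ _ hp => lt_of_le_of_lt (Nat.le_mul_of_pos_right B Fintype.card_pos) (hP p K hp)⟩

/-- Unique factorisation means class number one. -/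
theorem uniqueFactorization_iff_classNumber_eq_one (K : Type*) [Field K] [NumberField K] :
    UniqueFactorizationMonoid (𝓞 K) ↔ classNumber K = 1 := by
  rw [classNumber_eq_one_iff]
  exact ⟨fun _ => IsPrincipalIdealRing.of_isDedekindDomain_of_uniqueFactorizationMonoid _,
    fun _ => inferInstance⟩

set_option backward.isDefEq.respectTransparency false in
/-- **Only finitely many `ℤ[ζ_p]` have unique factorisation**. -/
theorem finite_uniqueFactorization :
    {p : ℕ | p.Prime ∧ UniqueFactorizationMonoid (𝓞 (CyclotomicField p ℚ))}.Finite := by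
  obtain ⟨P, hP⟩ := classNumber_cyclotomic_unbounded 1
  refine (Set.finite_lt_nat P).subset fun p hp => ?_
  show p < P
  by_contra! hle
  have : Fact p.Prime := ⟨hp.1⟩
  have : NeZero p := ⟨hp.1.ne_zero⟩
  have h := hP p (CyclotomicField p ℚ) hle
  rw [(uniqueFactorization_iff_classNumber_eq_one _).mp hp.2] at h
  exact lt_irrefl 1 h

/-- The class number is not one for `23 ≤ p < 200`. -/
theorem classNumber_ne_one_lt_two_hundred (p : ℕ) [Fact p.Prime] (K : Type*) [Field K] [NumberField K]
    [IsCyclotomicExtension {p} ℚ K] (h23 : 23 ≤ p) (h200 : p < 200) : classNumber K ≠ 1 := by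
  intro h
  by_cases h37 : p = 37
  · subst h37
    exact not_isPrincipalIdealRing_thirtySeven K (classNumber_eq_one_iff.mp h)
  have hodd := (Fact.out : p.Prime).eq_two_or_odd
  obtain ⟨m, hm⟩ : ∃ m, p = 2 * m + 1 := ⟨(p - 1) / 2, by omega⟩
  have hM := FA.CycloIndex.maillet_classNumber (p := p) K hm (by omega)
  rw [h, mul_one] at hM
  exact FA.CycloGrowth.not_dvd_pow_lt_two_hundred hm h23 h200 h37 (m - 1) (Dvd.intro _ hM)

/-- **Unique factorisation in `ℤ[ζ_p]` below `200`**. -/
theorem uniqueFactorization_iff_lt_two_hundred (p : ℕ) [Fact p.Prime] (K : Type*) [Field K] [NumberField K]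
    [IsCyclotomicExtension {p} ℚ K] (hp3 : 3 ≤ p) (h200 : p < 200) : UniqueFactorizationMonoid (𝓞 K) ↔ p ≤ 19 := by
  rw [uniqueFactorization_iff_classNumber_eq_one]
  refine ⟨fun h => ?_, classNumber_cyclotomic_eq_one p K hp3⟩
  by_contra! h19
  refine classNumber_ne_one_lt_two_hundred p K ?_ h200 h
  have hp : p.Prime := Fact.out
  by_contra! h23
  interval_cases p <;> norm_num at hp

end FA.Summary
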