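import Fermat.Agent.CycloGrowth.Threshold
import Fermat.Agent.Root.SummaryRelativeClassNumber

/-!
# The theorem of Masley and Montgomery for prime conductor

* `masley_montgomery`: for every prime `p`, `ℤ[ζ_p]` has unique factorisation exactly for `p ≤ 19`;
  `masley_montgomery_isPrincipalIdealRing`, `masley_montgomery_classNumber`, `masley_montgomery_set`.
* `classNumber_real_lt_classNumber`: for `p ≥ 197`, `h⁺ < h`; `classNumber_eq_real_iff`: for `p ≥ 5`, the relative
  class number is one exactly for `p ≤ 19`.

The analytic threshold is `197`: Maillet's determinant exceeds `p^((p-3)/2)` there (Montgomery's residue argument on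
the Dedekind zeta function, Louboutin's bound for the even characters); the certificates cover `23 ≤ p < 200`.
Classical (Uchida 1971, Montgomery, Masley–Montgomery 1976); independent of S01.
-/

set_option autoImplicit false

noncomputable section

open NumberField

namespace FA.Summary

variable (p : ℕ) [Fact p.Prime] (K : Type*) [Field K] [NumberField K] [IsCyclotomicExtension {p} ℚ K]

/-- **The relative class number exceeds one from `197` on.** -/
theorem classNumber_real_lt_classNumber (h197 : 197 ≤ p) :
    classNumber (maximalRealSubfield K) < classNumber K := by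
  have hp : p.Prime := Fact.out
  have hodd := hp.eq_two_or_odd
  obtain ⟨m, hm⟩ : ∃ m, p = 2 * m + 1 := ⟨(p - 1) / 2, by omega⟩
  have h := FA.CycloIndex.maillet_classNumber (p := p) K hm (by omega)
  refine Nat.lt_of_mul_lt_mul_left (a := p ^ (m - 1)) ?_
  rw [← h]
  exact Nat.mul_lt_mul_of_pos_right (FA.CycloGrowth.mailletDet_gt hm h197) Fintype.card_pos

/-- **The class number is not one for any prime `p ≥ 23`.** -/
theorem classNumber_ne_one (h23 : 23 ≤ p) : classNumber K ≠ 1 := by
  rcases Nat.lt_or_ge p 200 with h200 | h200
  · exact classNumber_ne_one_lt_two_hundred p K h23 h200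
  · have := classNumber_real_lt_classNumber p K (by omega)
    exact (lt_of_le_of_lt Fintype.card_pos this).ne'

/-- **The relative class number is one exactly for `p ≤ 19`.** -/
theorem classNumber_eq_real_iff (hp5 : 5 ≤ p) :
    classNumber K = classNumber (maximalRealSubfield K) ↔ p ≤ 19 := by
  have hp : p.Prime := Fact.out
  refine ⟨fun h => ?_, classNumber_eq_real_le_nineteen p K hp5⟩
  by_contra! h19
  have h23 : 23 ≤ p := by
    by_contra! h23
    interval_cases p <;> norm_num at hp
  rcases Nat.lt_or_ge p 197 with h197 | h197
  · by_cases h37 : p = 37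
    · subst h37
      have h1 := (kummer_criterion_lt_hundred_iff 37 K (by norm_num) (by norm_num)).mpr (Or.inl rfl)
      rw [h] at h1
      exact not_dvd_classNumber_real_lt_157 37 K (by norm_num) (by norm_num) h1
    have hodd := hp.eq_two_or_odd
    obtain ⟨m, hm⟩ : ∃ m, p = 2 * m + 1 := ⟨(p - 1) / 2, by omega⟩
    have hM := FA.CycloIndex.maillet_classNumber (p := p) K hm (by omega)
    rw [h] at hM
    exact FA.CycloGrowth.not_dvd_pow_lt_two_hundred hm h23 (by omega) h37 (m - 1)
      (dvd_of_eq (Nat.eq_of_mul_eq_mul_right Fintype.card_pos hM))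
  · exact (classNumber_real_lt_classNumber p K h197).ne' h

/-- **Masley and Montgomery**: the class number of `ℚ(ζ_p)` is one exactly for `p ≤ 19`. -/
theorem masley_montgomery_classNumber : classNumber K = 1 ↔ p ≤ 19 := by
  have hp : p.Prime := Fact.out
  refine ⟨fun h => ?_, fun h19 => ?_⟩
  · by_contra! h19
    refine classNumber_ne_one p K ?_ h
    by_contra! h23
    interval_cases p <;> norm_num at hp
  · rcases Nat.lt_or_ge p 3 with h3 | h3
    · have : p = 2 := by have := hp.two_le; omega
      subst this
      have : IsPrincipalIdealRing (𝓞 K) := by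
        apply RingOfIntegers.isPrincipalIdealRing_of_abs_discr_lt
        have : IsCyclotomicExtension {2 ^ (0 + 1)} ℚ K := by simpa using ‹IsCyclotomicExtension {2} ℚ K›
        rw [IsCyclotomicExtension.Rat.discr_prime_pow 2 (0 + 1) K, IsCyclotomicExtension.Rat.finrank 2 K,
          IsCyclotomicExtension.Rat.nrComplexPlaces_eq_totient_div_two 2 K]
        norm_num
      exact classNumber_eq_one_iff.mpr this
    · exact classNumber_cyclotomic_eq_one p K h3 h19

/-- **Masley and Montgomery, for every prime conductor**: `ℤ[ζ_p]` has unique factorisation iff `p ≤ 19`. -/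
theorem masley_montgomery : UniqueFactorizationMonoid (𝓞 K) ↔ p ≤ 19 :=
  (uniqueFactorization_iff_classNumber_eq_one K).trans (masley_montgomery_classNumber p K)

/-- Equivalently, `ℤ[ζ_p]` is a principal ideal ring iff `p ≤ 19`. -/
theorem masley_montgomery_isPrincipalIdealRing : IsPrincipalIdealRing (𝓞 K) ↔ p ≤ 19 :=
  (classNumber_eq_one_iff (K := K)).symm.trans (masley_montgomery_classNumber p K)

set_option backward.isDefEq.respectTransparency false in
/-- **The eight primes with unique factorisation.** -/
theorem masley_montgomery_set :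
    {q : ℕ | q.Prime ∧ UniqueFactorizationMonoid (𝓞 (CyclotomicField q ℚ))} = {2, 3, 5, 7, 11, 13, 17, 19} := by
  ext q
  constructor
  · rintro ⟨hq, hufm⟩
    have : Fact q.Prime := ⟨hq⟩
    have : NeZero q := ⟨hq.ne_zero⟩
    have h := (masley_montgomery q (CyclotomicField q ℚ)).mp hufm
    interval_cases q <;> first | (exfalso; revert hq; norm_num; done) | simp
  · intro h
    have hq : q.Prime ∧ q ≤ 19 := by
      simp only [Set.mem_insert_iff, Set.mem_singleton_iff] at h
      rcases h with rfl | rfl | rfl | rfl | rfl | rfl | rfl | rfl <;> norm_num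
    have : Fact q.Prime := ⟨hq.1⟩
    have : NeZero q := ⟨hq.1.ne_zero⟩
    exact ⟨hq.1, (masley_montgomery q (CyclotomicField q ℚ)).mpr hq.2⟩

end FA.Summary
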