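import Fermat.Agent.ClassField94.Solvable
import Fermat.Agent.Root.SummaryMasleyMontgomery
import Fermat.Agent.Root.SummaryClassNumberOne
import Fermat.Agent.Root.SummaryWeber

/-!
# Hilbert's Theorem 94 and unramified extensions of cyclotomic fields

* `hilbert94`, `hilbert94_dvd`: in a Galois extension `L/K` of prime degree `l` unramified at every place an
  ideal class of `K` of order `l` becomes principal, so `l ∣ h(K)`.
* `solvable_unramified_trivial`, `pGroup_unramified_trivial`: hence with `h(K) = 1` there is no nontrivial solvable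
  Galois extension unramified everywhere, and with `l ∤ h(K)` none of `l`-power degree.
* `kummer_unramified`: at a regular prime `p` no `ℚ(ζ_(p^n))` has a nontrivial Galois extension of `p`-power
  degree unramified at the finite primes.
* `cyclotomic_unramified_le_nineteen`, `classNumberOne_unramified`: `ℚ(ζ_p)`, `p ≤ 19`, and the nine imaginary
  quadratic fields of class number one have no nontrivial solvable Galois extension unramified at the finite primes.

Classical (Hilbert 1897, Kummer); no class field theory; independent of S01.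
-/

set_option autoImplicit false

noncomputable section

open NumberField
open scoped nonZeroDivisors

namespace FA.Summary

open FA.ClassField94 (UnramifiedPrimes)

variable {K L : Type} [Field K] [NumberField K] [Field L] [NumberField L] [Algebra K L] [IsGalois K L]

/-- **Hilbert's Theorem 94**. -/
theorem hilbert94 {l : ℕ} (hl : l.Prime) [IsUnramifiedAtInfinitePlaces K L] (hdeg : Module.finrank K L = l)
    (hunr : ∀ P : Ideal (𝓞 L), P.IsPrime → P ≠ ⊥ → P.ramificationIdx (𝓞 K) = 1) :
    ∃ J : (Ideal (𝓞 K))⁰, orderOf (ClassGroup.mk0 J) = l ∧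
      ((J : Ideal (𝓞 K)).map (algebraMap (𝓞 K) (𝓞 L))).IsPrincipal :=
  have : Fact l.Prime := ⟨hl⟩
  FA.ClassField94.exists_capitulation hdeg hunr

/-- **Hilbert's Theorem 94**, the class number. -/
theorem hilbert94_dvd {l : ℕ} (hl : l.Prime) [IsUnramifiedAtInfinitePlaces K L] (hdeg : Module.finrank K L = l)
    (hunr : ∀ P : Ideal (𝓞 L), P.IsPrime → P ≠ ⊥ → P.ramificationIdx (𝓞 K) = 1) : l ∣ classNumber K :=
  have : Fact l.Prime := ⟨hl⟩
  FA.ClassField94.dvd_classNumber hdeg hunr

/-- **Class number one: no solvable unramified extension.** -/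
theorem solvable_unramified_trivial [IsUnramifiedAtInfinitePlaces K L] [Group.IsSolvable (L ≃ₐ[K] L)]
    (hh : classNumber K = 1) (hunr : UnramifiedPrimes K L) : Module.finrank K L = 1 := by
  by_contra hne
  obtain ⟨l, hl, -, hdvd⟩ := FA.ClassField94.exists_prime_dvd_classNumber hunr hne
  exact hl.not_dvd_one (hh ▸ hdvd)

/-- **`l ∤ h`: no unramified `l`-extension.** -/
theorem pGroup_unramified_trivial {l m : ℕ} (hl : l.Prime) [IsUnramifiedAtInfinitePlaces K L]
    (hh : ¬ l ∣ classNumber K) (hdeg : Module.finrank K L = l ^ m) (hunr : UnramifiedPrimes K L) : m = 0 := by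
  by_contra hm
  have : Fact l.Prime := ⟨hl⟩
  have hG : IsPGroup l (L ≃ₐ[K] L) := IsPGroup.of_card (n := m) (by rw [IsGalois.card_aut_eq_finrank, hdeg])
  have : Group.IsNilpotent (L ≃ₐ[K] L) := hG.isNilpotent
  obtain ⟨q, hq, hqd, hqh⟩ := FA.ClassField94.exists_prime_dvd_classNumber hunr
    (by rw [hdeg]; exact (Nat.one_lt_pow hm hl.one_lt).ne')
  rw [hdeg] at hqd
  exact hh ((Nat.prime_dvd_prime_iff_eq hq hl).mp (hq.dvd_of_dvd_pow hqd) ▸ hqh)

omit [NumberField K] [NumberField L] [IsGalois K L] in
/-- Nothing ramifies at infinity above a totally complex field. -/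
theorem unramifiedAtInfinitePlaces_of_isTotallyComplex [IsTotallyComplex K] : IsUnramifiedAtInfinitePlaces K L :=
  ⟨fun _ => InfinitePlace.isUnramified_iff.mpr (Or.inr (IsTotallyComplex.isComplex _))⟩

set_option backward.isDefEq.respectTransparency false in
/-- **Kummer**: a regular prime admits no unramified `p`-extension anywhere in the cyclotomic tower. -/
theorem kummer_unramified {p n m : ℕ} [Fact p.Prime] [IsCyclotomicExtension {p ^ (n + 1)} ℚ K]
    (h2 : 2 < p ^ (n + 1)) (hreg : ¬ p ∣ classNumber (CyclotomicField p ℚ))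
    (hdeg : Module.finrank K L = p ^ m) (hunr : UnramifiedPrimes K L) : m = 0 := by
  have : NeZero (p ^ (n + 1)) := ⟨pow_ne_zero _ (Fact.out : p.Prime).ne_zero⟩
  have : IsTotallyComplex K := IsCyclotomicExtension.Rat.isTotallyComplex (n := p ^ (n + 1)) K h2
  have := unramifiedAtInfinitePlaces_of_isTotallyComplex (K := K) (L := L)
  exact pGroup_unramified_trivial Fact.out (iwasawa_every_regular hreg n K) hdeg hunr

/-- **`ℚ(ζ_p)`, `p ≤ 19`, has no solvable unramified extension.** -/
theorem cyclotomic_unramified_le_nineteen {p : ℕ} [Fact p.Prime] [IsCyclotomicExtension {p} ℚ K] (h3 : 3 ≤ p)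
    (h19 : p ≤ 19) [Group.IsSolvable (L ≃ₐ[K] L)] (hunr : UnramifiedPrimes K L) : Module.finrank K L = 1 := by
  have : NeZero p := ⟨(Fact.out : p.Prime).ne_zero⟩
  have : IsTotallyComplex K := IsCyclotomicExtension.Rat.isTotallyComplex (n := p) K (by omega)
  have := unramifiedAtInfinitePlaces_of_isTotallyComplex (K := K) (L := L)
  exact solvable_unramified_trivial ((masley_montgomery_classNumber p K).mpr h19) hunr

/-- **The nine fields have no solvable unramified extension.** -/
theorem classNumberOne_unramified (hK : Module.finrank ℚ K = 2) {d : ℤ} (hd : Squarefree d)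
    (hmem : d ∈ ({-1, -2, -3, -7, -11, -19, -43, -67, -163} : Finset ℤ)) (hs : ∃ s : K, s ^ 2 = (d : K))
    [Group.IsSolvable (L ≃ₐ[K] L)] (hunr : UnramifiedPrimes K L) : Module.finrank K L = 1 := by
  have hd0 : d < 0 := by simp only [Finset.mem_insert, Finset.mem_singleton] at hmem; omega
  have : IsTotallyComplex K := ⟨fun v => by
    obtain ⟨s, hs⟩ := hs
    rw [← InfinitePlace.not_isReal_iff_isComplex]
    intro hv
    have h := congrArg (InfinitePlace.embedding_of_isReal hv) hs
    rw [map_pow, map_intCast] at h
    have h' : (d : ℝ) < 0 := by exact_mod_cast hd0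
    nlinarith [sq_nonneg (InfinitePlace.embedding_of_isReal hv s)]⟩
  have := unramifiedAtInfinitePlaces_of_isTotallyComplex (K := K) (L := L)
  exact solvable_unramified_trivial ((classNumber_one_iff_nine K hK hd hd0 hs).mpr hmem) hunr

end FA.Summary
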