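import Fermat.Agent.ClassField94.Kummer
import Fermat.Agent.ClassField94.Congruent
import Fermat.Agent.ClassField94.EvenWeight
import Fermat.Agent.Root.SummaryHilbert94
import Fermat.Agent.Root.SummaryKummerIndex

/-!
# Kummer's unramified extensions of `ℚ(ζ_p)` at irregular primes

* `congruentUnit_unramified`: a unit congruent to an integer modulo `p`, no `p`-th power, gives by its `p`-th root
  a Galois extension of degree `p` unramified everywhere.
* `exists_congruentUnit`, `exists_unramified_iff`: if `p ∤ h⁺` then such a unit exists at an irregular `p`, so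
  `ℚ(ζ_p)` has an unramified Galois extension of degree `p` exactly if `p ∣ h(ℚ(ζ_p))`.
* `exists_unramified_iff_lt_157`: for primes `5 ≤ p < 157`, exactly for `p = 37, 59, 67, 101, 103, 131, 149`.

Classical (Kummer, Hilbert); no class field theory; independent of S01.
-/

set_option autoImplicit false

noncomputable section

open NumberField

namespace FA.Summary

/-- Voronoi's sum vanishes modulo `p` at an irregular index. -/
theorem dvd_voronoi_of_dvd_bernoulli {p : ℕ} [Fact p.Prime] (hp5 : 5 ≤ p) {k : ℕ} (hk : 2 ≤ k) (hkp : k ≤ p - 3)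
    (hev : Even k) {a : ℕ} (ha : (a : ZMod p) ≠ 0) (hB : (p : ℤ) ∣ (bernoulli k).num) :
    p ∣ ∑ r ∈ Finset.range p, r ^ (k - 1) * (a * r / p) := by
  by_cases hne : (a : ZMod p) ^ k = 1
  · have hpk : ¬ p ∣ k := fun h => by
      have := Nat.le_of_dvd (by omega) h
      omega
    have hk1 : ¬ p - 1 ∣ k := fun h => by
      have := Nat.le_of_dvd (by omega) h
      omega
    have hA : FA.OrderTheta.PIntegral p ((a : ℚ) ^ k - 1) := by
      rw [show (a : ℚ) ^ k - 1 = ((a ^ k : ℕ) : ℚ) + ((-1 : ℤ) : ℚ) by push_cast; ring]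
      exact (FA.OrderTheta.PIntegral.natCast _).add (FA.OrderTheta.PIntegral.intCast _)
    have h1 : FA.OrderTheta.RatCong p (bernoulli k / k) 0 := by
      rw [div_eq_inv_mul]
      exact FA.OrderTheta.RatCong.zero_mul_left (FA.OrderTheta.PIntegral.inv_natCast hpk)
        (FA.OrderTheta.ratCong_zero_of_dvd_num (FA.OrderTheta.pIntegral_bernoulli k (by omega)) hB)
    have h2 := (FA.OrderTheta.RatCong.zero_mul_left hA h1)
    have h3 := ((FA.OrderTheta.voronoi_congruence hp5 hk hev ha).zero_of_cong h2).num_dvd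
    rw [Rat.num_natCast, Int.natCast_dvd_natCast] at h3
    exact (Nat.Coprime.pow_right _ (((Fact.out : p.Prime).coprime_iff_not_dvd).mpr
      fun h => ha ((ZMod.natCast_eq_zero_iff a p).mpr h))).dvd_of_dvd_mul_left h3
  · exact (FA.OrderTheta.dvd_num_bernoulli_iff hp5 hk hkp hev ha hne).mp hB

variable (p : ℕ) [Fact p.Prime] (K : Type) [Field K] [NumberField K] [IsCyclotomicExtension {p} ℚ K]

/-- **Kummer's construction**. -/
theorem congruentUnit_unramified (h3 : 3 ≤ p) (u : (𝓞 K)ˣ) {n : ℤ} (hn : (p : 𝓞 K) ∣ (u : 𝓞 K) - (n : 𝓞 K))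
    (hnp : ∀ v : (𝓞 K)ˣ, v ^ p ≠ u) :
    ∃ (L : Type) (_ : Field L) (_ : NumberField L) (_ : Algebra K L), IsGalois K L ∧ Module.finrank K L = p ∧
      ∀ P : Ideal (𝓞 L), P.IsPrime → P ≠ ⊥ → P.ramificationIdx (𝓞 K) = 1 :=
  FA.ClassField94.exists_unramified p K h3 u hn hnp

/-- **A congruent unit at an irregular index**, given `p ∤ h⁺`. -/
theorem exists_congruentUnit (hp5 : 5 ≤ p) (hreal : ¬ p ∣ classNumber (maximalRealSubfield K)) {k : ℕ}
    (hev : Even k) (hk : 2 ≤ k) (hkp : k ≤ p - 3) (hB : (p : ℤ) ∣ (bernoulli k).num) :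
    ∃ u : (𝓞 K)ˣ, (∃ n : ℤ, (p : 𝓞 K) ∣ (u : 𝓞 K) - (n : 𝓞 K)) ∧ ∀ v : (𝓞 K)ˣ, v ^ p ≠ u := by
  obtain ⟨a, ha, hne⟩ := FA.ClassField94.exists_cycU_good p K hp5
    (fun h => hreal ((dvd_classNumber_real_iff p K hp5 p).mpr h)) hev hk hkp
  refine ⟨FA.Regular.unitProj p K k (FA.Regular.cycU p K ha), FA.ClassField94.exists_congr_int p K (by omega) _
    fun j hj => ?_, fun v hv => hne (hv ▸ Subgroup.mem_sup_right ⟨v, rfl⟩)⟩
  rcases eq_or_ne (j + 1) k with hjk | hjk
  · obtain ⟨i, rfl⟩ : ∃ i, j = i + 1 := ⟨j - 1, by omega⟩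
    subst hjk
    rw [FA.Regular.logDer_unitProj p K hj, FA.Regular.logDer_cycU p K ha (show i + 4 ≤ p by omega), ← Nat.cast_sum,
      (ZMod.natCast_eq_zero_iff (∑ r ∈ Finset.range p, r ^ (i + 1) * (a * r / p)) p).mpr
        (dvd_voronoi_of_dvd_bernoulli hp5 hk hkp hev ha hB), mul_zero, neg_zero]
  · exact FA.Regular.logDer_eq_zero_of_eigen p K (by omega) hj hjk fun d => FA.Regular.sigmaU_unitProj p K k d _

/-- An unramified extension of degree `p` forces `p` into the class number. -/
theorem dvd_classNumber_of_unramified (h3 : 3 ≤ p) (L : Type) [Field L] [NumberField L] [Algebra K L] [IsGalois K L]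
    (hdeg : Module.finrank K L = p)
    (hunr : ∀ P : Ideal (𝓞 L), P.IsPrime → P ≠ ⊥ → P.ramificationIdx (𝓞 K) = 1) : p ∣ classNumber K :=
  have : NeZero p := ⟨(Fact.out : p.Prime).ne_zero⟩
  have : IsTotallyComplex K := IsCyclotomicExtension.Rat.isTotallyComplex (n := p) K (by omega)
  have := unramifiedAtInfinitePlaces_of_isTotallyComplex (K := K) (L := L)
  hilbert94_dvd Fact.out hdeg hunr

/-- **Unramified extensions exist exactly at the irregular primes**, given `p ∤ h⁺`. -/
theorem exists_unramified_iff (hp5 : 5 ≤ p) (hreal : ¬ p ∣ classNumber (maximalRealSubfield K)) :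
    (∃ (L : Type) (_ : Field L) (_ : NumberField L) (_ : Algebra K L), IsGalois K L ∧ Module.finrank K L = p ∧
      ∀ P : Ideal (𝓞 L), P.IsPrime → P ≠ ⊥ → P.ramificationIdx (𝓞 K) = 1) ↔ p ∣ classNumber K := by
  constructor
  · rintro ⟨L, _, _, _, hG, hdeg, hunr⟩
    exact dvd_classNumber_of_unramified p K (by omega) L hdeg hunr
  · intro h
    obtain ⟨k, hev, hk, hkp, hB⟩ := (kummer_criterion_iff p K hp5).mp h
    obtain ⟨u, ⟨n, hn⟩, hnp⟩ := exists_congruentUnit p K hp5 hreal hev hk hkp hB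
    exact congruentUnit_unramified p K (by omega) u hn hnp

/-- **Below `157`**, unconditionally. -/
theorem exists_unramified_iff_lt_157 (hp5 : 5 ≤ p) (h157 : p < 157) :
    (∃ (L : Type) (_ : Field L) (_ : NumberField L) (_ : Algebra K L), IsGalois K L ∧ Module.finrank K L = p ∧
      ∀ P : Ideal (𝓞 L), P.IsPrime → P ≠ ⊥ → P.ramificationIdx (𝓞 K) = 1) ↔
      p ∈ ({37, 59, 67, 101, 103, 131, 149} : Finset ℕ) := by
  rw [exists_unramified_iff p K hp5 (not_dvd_classNumber_real_lt_157 p K hp5 h157), kummer_criterion_iff p K hp5]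
  simp only [Finset.mem_insert, Finset.mem_singleton]
  constructor
  · rintro ⟨k, hev, hk, hkp, hB⟩
    have h := (irregular_pairs_lt_157 p k Fact.out h157 hev hk hkp).mp hB
    simp only [List.mem_cons, Prod.mk.injEq, List.not_mem_nil, or_false] at h
    omega
  · have key : ∀ q k : ℕ, p = q → Even k → 2 ≤ k → k + 3 ≤ q →
        (q, k) ∈ [(37, 32), (59, 44), (67, 58), (101, 68), (103, 24), (131, 22), (149, 130)] →
        ∃ k, Even k ∧ 2 ≤ k ∧ k ≤ p - 3 ∧ (p : ℤ) ∣ (bernoulli k).num := fun q k hq hev h2 hk hmem =>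
      ⟨k, hev, h2, by omega, (irregular_pairs_lt_157 p k Fact.out h157 hev h2 (by omega)).mpr (hq ▸ hmem)⟩
    rintro (h | h | h | h | h | h | h)
    · exact key 37 32 h (by decide) (by norm_num) (by norm_num) (by simp)
    · exact key 59 44 h (by decide) (by norm_num) (by norm_num) (by simp)
    · exact key 67 58 h (by decide) (by norm_num) (by norm_num) (by simp)
    · exact key 101 68 h (by decide) (by norm_num) (by norm_num) (by simp)
    · exact key 103 24 h (by decide) (by norm_num) (by norm_num) (by simp)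
    · exact key 131 22 h (by decide) (by norm_num) (by norm_num) (by simp)
    · exact key 149 130 h (by decide) (by norm_num) (by norm_num) (by simp)

end FA.Summary
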