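import Fermat.Agent.Forms3.Existence

/-!
# Sums of three squares

* `three_squares`: a natural number is a sum of three squares of integers iff it is not
  `4^a (8 b + 7)` (Legendre, Gauss).
* `ternaryForm_det_one`: a positive integral ternary form of determinant one takes only such values.
* `three_odd_squares`, `three_triangular_numbers`: Gauss's "Eureka": `8 n + 3` is a sum of three
  odd squares and `n` of three triangular numbers.
-/

set_option autoImplicit false

namespace FA.Summary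

open FA.Forms3

/-- A positive integral ternary form of determinant one only takes values which are sums of three
squares. -/
theorem ternaryForm_det_one (a b c f g h : ℤ) (ha : 0 < a) (hM : 0 < a * b - h ^ 2)
    (hd : a * b * c + 2 * f * g * h - a * f ^ 2 - b * g ^ 2 - c * h ^ 2 = 1) (x y z : ℤ) :
    ∃ u v w : ℤ, a * x ^ 2 + b * y ^ 2 + c * z ^ 2 + 2 * f * y * z + 2 * g * x * z + 2 * h * x * y =
      u ^ 2 + v ^ 2 + w ^ 2 :=
  isSumThreeSquares_val a b c f g h ha hM hd x y z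

/-- **The three square theorem** of Legendre and Gauss. -/
theorem three_squares (n : ℕ) :
    (∃ x y z : ℤ, (n : ℤ) = x ^ 2 + y ^ 2 + z ^ 2) ↔ ¬ ∃ a b : ℕ, n = 4 ^ a * (8 * b + 7) := by
  have hsq : ∀ x : ℤ, x ^ 2 % 8 = 0 ∨ x ^ 2 % 8 = 1 ∨ x ^ 2 % 8 = 4 := fun x => by
    have e : x ^ 2 % 8 = x % 8 * (x % 8) % 8 := by rw [pow_two, Int.mul_emod]
    rcases (show x % 8 = 0 ∨ x % 8 = 1 ∨ x % 8 = 2 ∨ x % 8 = 3 ∨ x % 8 = 4 ∨ x % 8 = 5 ∨
      x % 8 = 6 ∨ x % 8 = 7 by omega) with k | k | k | k | k | k | k | k <;> rw [k] at e <;> omega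
  constructor
  · rintro ⟨x, y, z, hxyz⟩ ⟨a, b, hab⟩
    induction a generalizing n x y z with
    | zero =>
      rw [pow_zero, one_mul] at hab
      have := hsq x; have := hsq y; have := hsq z
      omega
    | succ a ih =>
      have hx := hsq x; have hy := hsq y; have hz := hsq z
      have h4 : n = 4 * (4 ^ a * (8 * b + 7)) := by rw [hab, pow_succ]; ring
      have hev : ∀ u : ℤ, u ^ 2 % 4 = 0 → ∃ k, u = 2 * k := fun u hu => by
        rcases Int.even_or_odd' u with ⟨k, rfl | rfl⟩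
        · exact ⟨k, rfl⟩
        · rw [show (2 * k + 1) ^ 2 = 1 + 4 * (k * k + k) by ring] at hu
          omega
      obtain ⟨x', rfl⟩ := hev x (by omega)
      obtain ⟨y', rfl⟩ := hev y (by omega)
      obtain ⟨z', rfl⟩ := hev z (by omega)
      refine ih (4 ^ a * (8 * b + 7)) x' y' z' ?_ rfl
      rw [h4] at hxyz
      push_cast at hxyz ⊢
      linarith
  · intro h
    induction n using Nat.strong_induction_on with
    | _ n ih =>
      rcases Nat.eq_zero_or_pos n with rfl | hn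
      · exact ⟨0, 0, 0, by simp⟩
      by_cases h4 : 4 ∣ n
      · obtain ⟨m, rfl⟩ := h4
        obtain ⟨x, y, z, e⟩ := ih m (by omega) fun ⟨a, b, hm⟩ =>
          h ⟨a + 1, b, by rw [hm, pow_succ]; ring⟩
        exact ⟨2 * x, 2 * y, 2 * z, by push_cast; rw [e]; ring⟩
      · have h7 : n % 8 ≠ 7 := fun e => h ⟨0, n / 8, by rw [pow_zero, one_mul]; omega⟩
        rcases (show n % 4 = 2 ∨ n % 8 = 1 ∨ n % 8 = 3 ∨ n % 8 = 5 by omega) with e | e
        · exact exists_of_two_mod_four e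
        · exact exists_of_odd e

/-- Every `8 n + 3` is a sum of three odd squares. -/
theorem three_odd_squares (n : ℕ) :
    ∃ x y z : ℤ, Odd x ∧ Odd y ∧ Odd z ∧ (8 * n + 3 : ℤ) = x ^ 2 + y ^ 2 + z ^ 2 := by
  obtain ⟨x, y, z, e⟩ := exists_of_odd (n := 8 * n + 3) (by omega)
  push_cast at e
  have hodd : ∀ u : ℤ, (Odd u ∧ u ^ 2 % 8 = 1) ∨ (u ^ 2 % 4 = 0) := fun u => by
    rcases Int.even_or_odd' u with ⟨k, rfl | rfl⟩
    · exact Or.inr (by rw [mul_pow]; norm_num [Int.mul_emod_right])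
    · refine Or.inl ⟨⟨k, rfl⟩, ?_⟩
      obtain ⟨l, hl⟩ := Int.even_mul_succ_self k
      rw [show (2 * k + 1) ^ 2 = 1 + 4 * (k * (k + 1)) by ring, hl]
      omega
  refine ⟨x, y, z, ?_, ?_, ?_, e⟩ <;>
    rcases hodd x with hx | hx <;> rcases hodd y with hy | hy <;> rcases hodd z with hz | hz <;>
    first | exact hx.1 | exact hy.1 | exact hz.1 | omega

/-- **Eureka**: every natural number is a sum of three triangular numbers. -/
theorem three_triangular_numbers (n : ℕ) :
    ∃ i j k : ℕ, n = i * (i + 1) / 2 + j * (j + 1) / 2 + k * (k + 1) / 2 := by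
  obtain ⟨x, y, z, hx, hy, hz, e⟩ := three_odd_squares n
  have key : ∀ u : ℤ, Odd u → ∃ i : ℕ, u ^ 2 = 8 * ((i * (i + 1) / 2 : ℕ) : ℤ) + 1 := by
    intro u hu
    obtain ⟨i, hi⟩ : ∃ i : ℕ, |u| = 2 * (i : ℤ) + 1 := by
      have h1 : |u| % 2 = 1 := by
        rcases abs_choice u with e | e <;> rw [e] <;> obtain ⟨k, rfl⟩ := hu <;> omega
      exact ⟨(|u| / 2).toNat, by have := abs_nonneg u; omega⟩
    refine ⟨i, ?_⟩
    obtain ⟨l, hl⟩ := Nat.even_mul_succ_self i
    rw [← sq_abs, hi, hl, show (l + l) / 2 = l by omega]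
    have : ((i * (i + 1) : ℕ) : ℤ) = ((l + l : ℕ) : ℤ) := congrArg Nat.cast hl
    push_cast at this
    linear_combination 4 * this
  obtain ⟨i, hi⟩ := key x hx
  obtain ⟨j, hj⟩ := key y hy
  obtain ⟨k, hk⟩ := key z hz
  refine ⟨i, j, k, ?_⟩
  omega

end FA.Summary
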