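import Fermat.Agent.DelaValleePoussin.Error

/-!
# de la Vallée Poussin's zero-free region and error term

`ζ` has no zero with `re s ≥ 1 - c / log (|im s| + 3)`, and there `ζ'/ζ = O (log² |im s|)`; so
`ψ x` and `ϑ x` are `x + O (x exp (-c √(log x)))` and
`π x = ∫_2^x dt / log t + O (x exp (-c √(log x)))` (de la Vallée Poussin, 1899).

The proof follows Landau: the theorem of Borel and Carathéodory controls `ζ'/ζ` by the size of
`ζ` on a disc, and the `3-4-1` inequality is applied to `-ζ'/ζ`.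
-/

set_option autoImplicit false

namespace FA.DLVP.Summary

open Real MeasureTheory FA.ZeroFree
open scoped Chebyshev

private theorem ell_le_log (t : ℝ) : ell t ≤ 6 * log (|t| + 3) := by
  have h6 : (6 : ℝ) * log (|t| + 3) = log ((|t| + 3) ^ 6) := by rw [log_pow]; norm_num
  rw [h6]
  refine log_le_log (by positivity) ?_
  calc |t| + 100 ≤ 34 * (|t| + 3) := by linarith [abs_nonneg t]
    _ ≤ (|t| + 3) ^ 5 * (|t| + 3) := by
        refine mul_le_mul_of_nonneg_right
          ((show (34 : ℝ) ≤ 3 ^ 5 by norm_num).trans ?_) (by positivity)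
        exact pow_le_pow_left₀ (by norm_num) (le_add_of_nonneg_left (abs_nonneg _)) 5
    _ = _ := by ring

/-- **de la Vallée Poussin's zero-free region.** -/
theorem zero_free : ∃ c : ℝ, 0 < c ∧ ∀ s : ℂ,
    1 - c / log (|s.im| + 3) ≤ s.re → riemannZeta s ≠ 0 := by
  obtain ⟨c, hc, -, h⟩ := exists_zero_free_ell
  refine ⟨c / 6, by positivity, fun s hs => ?_⟩
  rcases le_or_gt 1 s.re with h1 | h1
  · exact riemannZeta_ne_zero_of_one_le_re h1
  have hs1 : s ≠ 1 := fun hh => by simp [hh] at h1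
  rw [riemannZeta_eq_inv_sub_mul hs1]
  refine mul_ne_zero (inv_ne_zero (sub_ne_zero.2 hs1)) (h s ?_)
  have := div_le_div_of_nonneg_left hc.le (ell_pos _) (ell_le_log s.im)
  rw [← div_div] at this
  linarith

/-- **The logarithmic derivative in the region.** -/
theorem logDeriv_bound : ∃ c C : ℝ, 0 < c ∧ ∀ s : ℂ, 2 ≤ |s.im| →
    1 - c / log (|s.im| + 3) ≤ s.re → s.re ≤ 2 →
      ‖deriv riemannZeta s / riemannZeta s‖ ≤ C * log (|s.im| + 3) ^ 2 := by
  obtain ⟨a, C, ha, ha1, hC, h⟩ := exists_classical_region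
  refine ⟨a / 6, 36 * C + 36 * upperConst, by positivity, fun s ht hs hs2 => ?_⟩
  have hL := ell_le_log s.im
  have hL4 := four_le_ell s.im
  have hr : 1 - a / ell s.im ≤ s.re := by
    have := div_le_div_of_nonneg_left ha.le (ell_pos _) hL
    rw [← div_div] at this
    linarith
  obtain ⟨hz, hb⟩ := h s hr hs2
  have hs1 : s ≠ 1 := fun hh => by rw [hh] at ht; norm_num at ht
  have hzeta : riemannZeta s ≠ 0 := by
    rw [riemannZeta_eq_inv_sub_mul hs1]
    exact mul_ne_zero (inv_ne_zero (sub_ne_zero.2 hs1)) hz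
  have hu : ‖riemannZeta s‖ ≤ upperConst * ell s.im := norm_riemannZeta_le (by linarith) (by
    have : a / ell s.im ≤ 2 / ell s.im := by gcongr; linarith
    linarith)
  have e : deriv riemannZeta s / riemannZeta s = -(errLog s + riemannZeta s) := by
    rw [errLog_eq hs1 hzeta]
    ring
  rw [e, norm_neg]
  refine (norm_add_le _ _).trans ?_
  have hU := one_le_upperConst
  calc ‖errLog s‖ + ‖riemannZeta s‖ ≤ (C + upperConst) * ell s.im ^ 2 := by
        nlinarith [mul_le_mul_of_nonneg_left (le_self_pow₀ (by linarith : 1 ≤ ell s.im)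
          two_ne_zero) (show 0 ≤ upperConst by linarith)]
    _ ≤ (C + upperConst) * (6 * log (|s.im| + 3)) ^ 2 :=
        mul_le_mul_of_nonneg_left (pow_le_pow_left₀ (ell_pos _).le hL 2) (by linarith)
    _ = _ := by ring

/-- **The prime number theorem with the classical error term.** -/
theorem psi_error : ∃ c C : ℝ, 0 < c ∧ 0 < C ∧ ∀ x : ℝ, 2 ≤ x →
    |ψ x - x| ≤ C * x * exp (-(c * √(log x))) :=
  exists_psi_error_classical

/-- The same for `ϑ`, the sum of `log p` over primes `p ≤ x`. -/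
theorem theta_error : ∃ c C : ℝ, 0 < c ∧ 0 < C ∧ ∀ x : ℝ, 2 ≤ x →
    |Chebyshev.theta x - x| ≤ C * x * exp (-(c * √(log x))) := by
  obtain ⟨c, C, hc, hC, h⟩ := exists_psi_error_classical
  refine ⟨min c (1 / 4), C + 16, lt_min hc (by norm_num), by linarith, fun x hx => ?_⟩
  have hx0 : 0 < x := by linarith
  have hl : 0 ≤ log x := log_nonneg (by linarith)
  obtain ⟨u, hu⟩ : ∃ u, u = √(log x) := ⟨_, rfl⟩
  have hu0 : 0 ≤ u := hu ▸ sqrt_nonneg _
  rw [← hu]
  have h1 : |ψ x - x| ≤ C * x * exp (-(min c (1 / 4) * u)) := by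
    refine (h x hx).trans ?_
    rw [show root x = u from hu.symm]
    gcongr
    exact min_le_left _ _
  have h2 : |ψ x - Chebyshev.theta x| ≤ 16 * x * exp (-(min c (1 / 4) * u)) := by
    refine (Chebyshev.abs_psi_sub_theta_le_sqrt_mul_log (by linarith)).trans ?_
    have hu1 : u ≤ log x + 1 := by
      rw [hu, sqrt_le_left (by linarith)]
      nlinarith
    have h3 : exp (-(1 / 4 * (log x + 1))) ≤ exp (-(min c (1 / 4) * u)) := by
      refine exp_le_exp.2 (neg_le_neg ?_)
      exact mul_le_mul (min_le_right _ _) hu1 hu0 (by norm_num)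
    refine le_trans ?_ (mul_le_mul_of_nonneg_left h3 (by positivity))
    have e1 : exp (-(1 / 4 * (log x + 1))) = x ^ (-(1 / 4) : ℝ) * exp (-(1 / 4)) := by
      rw [rpow_def_of_pos hx0, ← exp_add]
      ring_nf
    have e2 := log_le_rpow_div hx0.le (show (0 : ℝ) < 1 / 4 by norm_num)
    have e3 : 3 / 4 ≤ exp (-(1 / 4) : ℝ) := by linarith [add_one_le_exp (-(1 / 4) : ℝ)]
    have hm : x ^ (1 / 2 : ℝ) * x ^ (1 / 4 : ℝ) = x * x ^ (-(1 / 4) : ℝ) := by
      nth_rewrite 3 [← rpow_one x]
      rw [← rpow_add hx0, ← rpow_add hx0]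
      norm_num
    rw [sqrt_eq_rpow, e1]
    calc 2 * x ^ (1 / 2 : ℝ) * log x ≤ 2 * x ^ (1 / 2 : ℝ) * (x ^ (1 / 4 : ℝ) / (1 / 4)) :=
          mul_le_mul_of_nonneg_left e2 (by positivity)
      _ = 8 * (x * x ^ (-(1 / 4) : ℝ)) := by rw [← hm]; ring
      _ ≤ 16 * x * (x ^ (-(1 / 4) : ℝ) * exp (-(1 / 4))) := by
          have h0 : 0 ≤ x * x ^ (-(1 / 4) : ℝ) := by positivity
          nlinarith
  have := abs_sub_le (Chebyshev.theta x) (ψ x) x
  rw [abs_sub_comm (Chebyshev.theta x) (ψ x)] at this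
  linarith

/-- **`π x` is the logarithmic integral with the classical error term.** -/
theorem primeCounting_error : ∃ c C : ℝ, 0 < c ∧ 0 < C ∧ ∀ x : ℝ, 2 ≤ x →
    |(Nat.primeCounting ⌊x⌋₊ : ℝ) - ∫ t in (2 : ℝ)..x, 1 / log t| ≤
      C * x * exp (-(c * √(log x))) := by
  obtain ⟨c, C, hc, hC, h⟩ := theta_error
  refine ⟨min c (1 / 2), C / log 2 + 6 + 2 * C / log 2 ^ 2, lt_min hc (by norm_num),
    by positivity, fun x hx => ?_⟩
  obtain ⟨e, he⟩ : ∃ e, e = min c (1 / 2) := ⟨_, rfl⟩
  rw [← he]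
  have he2 : e ≤ 1 / 2 := he ▸ min_le_right _ _
  have hec : e ≤ c := he ▸ min_le_left _ _
  have he0 : 0 < e := he ▸ lt_min hc (by norm_num)
  have hx0 : 0 < x := by linarith
  have hl2 : 0.69 < log 2 := lt_trans (by norm_num) log_two_gt_d9
  have hlx : log 2 ≤ log x := log_le_log two_pos hx
  obtain ⟨E, hE⟩ : ∃ E, E = exp (-(e * √(log x))) := ⟨_, rfl⟩
  rw [← hE]
  have hE0 : 0 < E := hE ▸ exp_pos _
  have hθ : ∀ t : ℝ, 2 ≤ t →
      |Chebyshev.theta t - t| ≤ C * t * exp (-(e * √(log t))) := fun t ht => by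
    refine (h t ht).trans ?_
    have : 0 ≤ t := by linarith
    gcongr
  -- the logarithmic integral by parts
  have hne : ∀ t ∈ Set.uIcc 2 x, t ≠ 0 ∧ log t ≠ 0 := fun t ht => by
    rw [Set.uIcc_of_le hx] at ht
    exact ⟨by linarith [ht.1], (log_pos (by linarith [ht.1])).ne'⟩
  have i1 : IntervalIntegrable (fun t => 1 / log t) volume 2 x :=
    ContinuousOn.intervalIntegrable fun t ht => ContinuousAt.continuousWithinAt <| by
      obtain ⟨h1, h2⟩ := hne t ht
      fun_prop (disch := assumption)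
  have i2 : IntervalIntegrable (fun t => 1 / log t ^ 2) volume 2 x :=
    Chebyshev.intervalIntegrable_one_div_log_sq one_lt_two (by linarith)
  have hparts : (∫ t in (2 : ℝ)..x, 1 / log t) =
      x / log x - 2 / log 2 + ∫ t in (2 : ℝ)..x, 1 / log t ^ 2 := by
    have hd : ∀ t ∈ Set.uIcc 2 x,
        HasDerivAt (fun u => u / log u) (1 / log t - 1 / log t ^ 2) t := fun t ht => by
      obtain ⟨h1, h2⟩ := hne t ht
      refine ((hasDerivAt_id' t).div (hasDerivAt_log h1) h2).congr_deriv ?_
      field_simp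
    have := intervalIntegral.integral_eq_sub_of_hasDerivAt hd (i1.sub i2)
    rw [intervalIntegral.integral_sub i1 i2] at this
    linarith
  have i3 : IntervalIntegrable (fun t => Chebyshev.theta t / (t * log t ^ 2)) volume 2 x :=
    (intervalIntegrable_iff_integrableOn_Icc_of_le hx).2
      (Chebyshev.integrableOn_theta_div_id_mul_log_sq x)
  -- the integral of the error
  have hint : |(∫ t in (2 : ℝ)..x, Chebyshev.theta t / (t * log t ^ 2)) -
      ∫ t in (2 : ℝ)..x, 1 / log t ^ 2| ≤ 2 * C / log 2 ^ 2 * (x * E) := by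
    rw [← intervalIntegral.integral_sub i3 i2, ← norm_eq_abs]
    have hg : IntervalIntegrable (fun t : ℝ => C / log 2 ^ 2 * (√x * E * t ^ (-(1 / 2) : ℝ)))
        volume 2 x :=
      ((intervalIntegral.intervalIntegrable_rpow' (by norm_num)).const_mul _).const_mul _
    refine (intervalIntegral.norm_integral_le_of_norm_le hx
      (Filter.Eventually.of_forall fun t ht => ?_) hg).trans ?_
    · have ht0 : 0 < t := by linarith [ht.1]
      have hlt : log 2 ≤ log t := log_le_log two_pos ht.1.le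
      have hltx : log t ≤ log x := log_le_log ht0 ht.2
      have hl0 : 0 < log t := by linarith
      have e1 : Chebyshev.theta t / (t * log t ^ 2) - 1 / log t ^ 2 =
          (Chebyshev.theta t - t) / (t * log t ^ 2) := by field_simp
      rw [norm_eq_abs, e1, abs_div, abs_of_pos (by positivity : 0 < t * log t ^ 2)]
      have e2 : exp (-(e * √(log t))) ≤ √x * E * t ^ (-(1 / 2) : ℝ) := by
        rw [hE, sqrt_eq_rpow x, rpow_def_of_pos hx0, rpow_def_of_pos ht0, ← exp_add, ← exp_add]
        refine exp_le_exp.2 ?_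
        obtain ⟨u, hu⟩ : ∃ u, u = √(log t) := ⟨_, rfl⟩
        obtain ⟨v, hv⟩ : ∃ v, v = √(log x) := ⟨_, rfl⟩
        have hu2 : u ^ 2 = log t := by rw [hu, sq_sqrt hl0.le]
        have hv2 : v ^ 2 = log x := by rw [hv, sq_sqrt (by linarith)]
        have huv : u ≤ v := hu ▸ hv ▸ sqrt_le_sqrt hltx
        have hu8 : 1 / 2 ≤ u := hu ▸ le_sqrt_of_sq_le (by linarith)
        rw [← hu, ← hv]
        have := mul_le_mul_of_nonneg_left (show 2 * e ≤ u + v by linarith)
          (sub_nonneg.2 huv)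
        linarith
      calc |Chebyshev.theta t - t| / (t * log t ^ 2)
          ≤ C * t * exp (-(e * √(log t))) / (t * log t ^ 2) := by gcongr; exact hθ t ht.1.le
        _ = C / log t ^ 2 * exp (-(e * √(log t))) := by field_simp
        _ ≤ _ := mul_le_mul (by gcongr) e2 (exp_pos _).le (by positivity)
    · rw [intervalIntegral.integral_const_mul, intervalIntegral.integral_const_mul,
        integral_rpow (Or.inl (by norm_num))]
      norm_num
      rw [← sqrt_eq_rpow, ← sqrt_eq_rpow]
      have hss : √x * √x = x := mul_self_sqrt hx0.le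
      have h0 : 0 ≤ C / log 2 ^ 2 * (√x * E) * √2 := by positivity
      calc C / log 2 ^ 2 * (√x * E * ((√x - √2) / (1 / 2)))
          = 2 * C / log 2 ^ 2 * (√x * √x * E) - 2 * (C / log 2 ^ 2 * (√x * E) * √2) := by ring
        _ ≤ 2 * C / log 2 ^ 2 * (√x * √x * E) := by linarith
        _ = _ := by rw [hss]
  have hconst : 2 / log 2 ≤ 6 * (x * E) := by
    have h1 : 2 / log 2 ≤ 3 := by
      rw [div_le_iff₀ (by linarith)]
      linarith
    have h2 : 1 / 2 ≤ x * E := by
      rw [hE, show x * exp (-(e * √(log x))) = exp (log x + -(e * √(log x))) by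
        rw [exp_add, exp_log hx0]]
      refine le_trans ?_ (add_one_le_exp _)
      have h3 : √(log x) ≤ log x + 1 := by
        rw [sqrt_le_left (by linarith)]
        nlinarith
      have h4 := mul_le_mul he2 h3 (sqrt_nonneg _) (by norm_num)
      linarith
    linarith
  have hmain : |(Chebyshev.theta x - x) / log x| ≤ C / log 2 * (x * E) := by
    rw [abs_div, abs_of_pos (by linarith : 0 < log x)]
    calc |Chebyshev.theta x - x| / log x ≤ C * x * E / log 2 :=
          div_le_div₀ (by positivity) (hE ▸ hθ x hx) (by linarith) hlx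
      _ = _ := by ring
  rw [Chebyshev.primeCounting_eq_theta_div_log_add_integral hx, hparts]
  have hk : 0 ≤ 2 / log 2 := by positivity
  rw [sub_div] at hmain
  rw [abs_le] at hint hmain ⊢
  constructor <;> linarith

end FA.DLVP.Summary
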