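import Fermat.Agent.Discrepancy.Koksma
import Fermat.Agent.Discrepancy.Kronecker

/-!
# Summary: discrepancy

* `erdos_turan`: the discrepancy of a sequence modulo one is at most
  `100 / (H + 1) + 2 ∑_{h ≤ H} |∑_{n < N} e (h x n)| / (h N)`;
* `koksma`: the mean of a function of bounded variation differs from its integral by at most the
  variation times the discrepancy;
* `discrepancy_badlyApproximable`, `discrepancy_goldenRatio`: the discrepancy of `n α` is
  `O ((log N) ^ 2 / N)` for badly approximable `α`, for example the golden ratio.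
-/

set_option autoImplicit false

noncomputable section

namespace FA.Discrepancy.Summary

open Finset

/-- **The Erdős-Turán inequality.** -/
theorem erdos_turan (x : ℕ → ℝ) {N : ℕ} (hN : 0 < N) (H : ℕ) {a b : ℝ} (ha : 0 ≤ a)
    (hab : a ≤ b) (hb : b ≤ 1) :
    |(#((range N).filter fun n => Int.fract (x n) ∈ Set.Ico a b) : ℝ) / N - (b - a)| ≤
      100 / ((H : ℝ) + 1) + 2 * ∑ h ∈ Icc 1 H,
        ‖∑ n ∈ range N, Complex.exp ((2 * Real.pi * (h * x n) : ℝ) * Complex.I)‖ / N / h :=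
  FA.Discrepancy.erdos_turan hN H ha hab hb

/-- **Koksma's inequality.** -/
theorem koksma {f : ℝ → ℝ} (hf : BoundedVariationOn f (Set.Icc 0 1)) (x : ℕ → ℝ) {N : ℕ}
    (hN : 0 < N) {D : ℝ} (hD : ∀ t ∈ Set.Icc (0 : ℝ) 1,
      |(#((range N).filter fun n => Int.fract (x n) ∈ Set.Ico 0 t) : ℝ) / N - t| ≤ D) :
    |(∑ n ∈ range N, f (Int.fract (x n))) / N - ∫ t in (0 : ℝ)..1, f t| ≤
      (eVariationOn f (Set.Icc 0 1)).toReal * D :=
  FA.Discrepancy.koksma hf hN hD

/-- **The discrepancy of `n α` for badly approximable `α`.** -/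
theorem discrepancy_badlyApproximable {α c : ℝ} (hc : 0 < c)
    (hα : ∀ q : ℕ, 1 ≤ q → ∀ m : ℤ, c / q ≤ |(q : ℝ) * α - m|) :
    ∃ C : ℝ, ∀ N : ℕ, 2 ≤ N → ∀ a b : ℝ, 0 ≤ a → a ≤ b → b ≤ 1 →
      |(#((range N).filter fun n : ℕ => Int.fract ((n : ℝ) * α) ∈ Set.Ico a b) : ℝ) / N -
        (b - a)| ≤ C * Real.log N ^ 2 / N :=
  FA.Discrepancy.discrepancy_badlyApproximable hc hα

/-- **The discrepancy of the multiples of the golden ratio.** -/
theorem discrepancy_goldenRatio :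
    ∃ C : ℝ, ∀ N : ℕ, 2 ≤ N → ∀ a b : ℝ, 0 ≤ a → a ≤ b → b ≤ 1 →
      |(#((range N).filter fun n : ℕ => Int.fract ((n : ℝ) * Real.goldenRatio) ∈ Set.Ico a b) : ℝ) /
        N - (b - a)| ≤ C * Real.log N ^ 2 / N :=
  FA.Discrepancy.discrepancy_badlyApproximable (by norm_num)
    FA.Discrepancy.badlyApproximable_goldenRatio

end FA.Discrepancy.Summary
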