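import Fermat.Agent.ModularValues.AtI
import Fermat.Agent.ModularValues.AtRho

/-!
# Special values of modular forms at the two elliptic points

`E₂`, `E₄`, `E₆`, `Δ`, `η`, `θ` at `i` and at `ρ = e^(2 π i / 3)` as values of the Gamma function,
and Ramanujan's evaluations of the sums `n ^ j / (e^(2 π n) - 1)`.
-/

set_option autoImplicit false
set_option linter.style.haveILetI false

noncomputable section

open ModularForm
open scoped Real

namespace FA.Summary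

/-- **Values at `i`**: `E₂(i) = 3/π`, `E₄(i) = 3 Γ(1/4)⁸ / (64 π⁶)`, `E₆(i) = 0`,
`Δ(i) = Γ(1/4)²⁴ / (2²⁴ π¹⁸)`, `η(i) = Γ(1/4) / (2 π^(3/4))`. -/
theorem modular_values_I :
    EisensteinSeries.E2 UpperHalfPlane.I = ((3 / π : ℝ) : ℂ) ∧
      E₄ UpperHalfPlane.I = ((3 * Real.Gamma (1 / 4) ^ 8 / (64 * π ^ 6) : ℝ) : ℂ) ∧
      E₆ UpperHalfPlane.I = 0 ∧
      ModularForm.discriminant UpperHalfPlane.I =
        ((Real.Gamma (1 / 4) ^ 24 / (2 ^ 24 * π ^ 18) : ℝ) : ℂ) ∧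
      η Complex.I = ((Real.Gamma (1 / 4) / (2 * π ^ (3 / 4 : ℝ)) : ℝ) : ℂ) :=
  ⟨FA.ModularValues.E2_I, FA.ModularValues.E4_I, FA.ModField.E6_I,
    FA.ModularValues.discriminant_I, FA.ModularValues.eta_I⟩

/-- **Values at `ρ`**: `E₂(ρ) = 2√3/π`, `E₄(ρ) = 0`, `E₆(ρ) = 27 Γ(1/3)¹⁸ / (512 π¹²)`,
`Δ(ρ) = -27 Γ(1/3)³⁶ / (2²⁴ π²⁴)`, `η(ρ) = e^(-π i/24) 3^(1/8) Γ(1/3)^(3/2) / (2 π)`. -/
theorem modular_values_rho {τ : UpperHalfPlane}
    (hτ : (τ : ℂ) = (-1 + (√3 : ℝ) * Complex.I) / 2) :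
    EisensteinSeries.E2 τ = ((2 * √3 / π : ℝ) : ℂ) ∧ E₄ τ = 0 ∧
      E₆ τ = ((27 * Real.Gamma (1 / 3) ^ 18 / (512 * π ^ 12) : ℝ) : ℂ) ∧
      ModularForm.discriminant τ =
        ((-(27 * Real.Gamma (1 / 3) ^ 36 / (2 ^ 24 * π ^ 24)) : ℝ) : ℂ) ∧
      η τ = Complex.exp (-(π * Complex.I / 24)) *
        (((3 : ℝ) ^ (1 / 8 : ℝ) * Real.Gamma (1 / 3) ^ (3 / 2 : ℝ) / (2 * π) : ℝ) : ℂ) := by
  obtain rfl : τ = FA.ModField.rho := UpperHalfPlane.ext (by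
    rw [hτ, FA.ModularValues.rho_eq]; push_cast; ring)
  exact ⟨FA.ModularValues.E2_rho, FA.ModField.E4_rho, FA.ModularValues.E6_rho,
    FA.ModularValues.discriminant_rho, FA.ModularValues.eta_rho⟩

/-- **The theta constant**: the sum of `e^(-π n²)` over the integers is `π^(1/4) / Γ(3/4)`. -/
theorem theta_gaussian_sum :
    ∑' n : ℤ, Real.exp (-π * n ^ 2) = π ^ (1 / 4 : ℝ) / Real.Gamma (3 / 4) := by
  refine Complex.ofReal_injective ?_
  rw [← FA.ModularValues.jacobiTheta_I, jacobiTheta, Complex.ofReal_tsum]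
  refine tsum_congr fun n => ?_
  rw [Complex.ofReal_exp]
  congr 1
  push_cast
  linear_combination (-(π : ℂ) * (n : ℂ) ^ 2) * Complex.I_mul_I

/-- **Ramanujan**: for `k ≡ 2 (mod 4)`, `k ≥ 6`, the sum of `n^(k-1) / (e^(2 π n) - 1)` is
`B_k / (2 k)`. -/
theorem ramanujan_sum {k : ℕ} (hk : 6 ≤ k) (hk4 : k % 4 = 2) :
    ∑' n : ℕ+, (n : ℝ) ^ (k - 1) / (Real.exp (2 * π * n) - 1) =
      (bernoulli k : ℝ) / (2 * k) := by
  have h := FA.ModularValues.E_I_eq_tsum (k := k) (by omega) ⟨k / 2, by omega⟩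
  rw [FA.ModularValues.E_I_eq_zero _ hk4, eq_comm, Complex.ofReal_eq_zero] at h
  generalize ∑' n : ℕ+, (n : ℝ) ^ (k - 1) / (Real.exp (2 * π * n) - 1) = S at h ⊢
  have hk0 : (k : ℝ) ≠ 0 := Nat.cast_ne_zero.mpr (by omega)
  rcases eq_or_ne (bernoulli k : ℝ) 0 with hb | hb
  · rw [hb] at h; simp at h
  · field_simp at h ⊢
    linear_combination -h

/-- The sum of `n¹³ / (e^(2 π n) - 1)` is `1/24`. -/
theorem ramanujan_sum_thirteen :
    ∑' n : ℕ+, (n : ℝ) ^ 13 / (Real.exp (2 * π * n) - 1) = 1 / 24 := by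
  rw [ramanujan_sum (k := 14) (by norm_num) (by norm_num),
    show bernoulli 14 = 7 / 6 by decide +kernel]
  norm_num

/-- The sum of `n / (e^(2 π n) - 1)` is `1/24 - 1/(8 π)`. -/
theorem ramanujan_sum_one :
    ∑' n : ℕ+, (n : ℝ) / (Real.exp (2 * π * n) - 1) = 1 / 24 - 1 / (8 * π) := by
  have h := FA.ModularValues.E2_I_eq_tsum
  rw [FA.ModularValues.E2_I, Complex.ofReal_inj] at h
  have hπ := Real.pi_ne_zero
  generalize ∑' n : ℕ+, (n : ℝ) / (Real.exp (2 * π * n) - 1) = S at h ⊢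
  field_simp at h ⊢
  linear_combination 8 * h

/-- The sum of `n³ / (e^(2 π n) - 1)` is `Γ(1/4)⁸ / (5120 π⁶) - 1/240`. -/
theorem ramanujan_sum_three :
    ∑' n : ℕ+, (n : ℝ) ^ 3 / (Real.exp (2 * π * n) - 1) =
      Real.Gamma (1 / 4) ^ 8 / (5120 * π ^ 6) - 1 / 240 := by
  have h := FA.ModularValues.E_I_eq_tsum (k := 4) (by norm_num) ⟨2, rfl⟩
  rw [show bernoulli 4 = -1 / 30 by decide +kernel] at h
  have h' : (ModularForm.E (k := 4) (by norm_num)) UpperHalfPlane.I =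
      ((3 * Real.Gamma (1 / 4) ^ 8 / (64 * π ^ 6) : ℝ) : ℂ) := FA.ModularValues.E4_I
  rw [h', Complex.ofReal_inj] at h
  norm_num at h
  linear_combination (-1 / 240 : ℝ) * h

end FA.Summary

end
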