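import Mathlib.Algebra.Order.Ring.Abs
import Mathlib.Tactic.Ring
import Mathlib.Tactic.NormNum.Basic
import Fermat.Agent.Root.MathlibForm

/-!
# The Fermat curves

Fermat's Last Theorem read on the curves `x ^ n + y ^ n = 1` and `x ^ n + y ^ n = z ^ n`, `n ≥ 3`:
the only rational points are the obvious ones, also for negative exponents.
-/

set_option autoImplicit false

namespace FA.Summary

variable {n : ℕ}

/-- A rational point of a Fermat curve lies on a coordinate axis. -/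
theorem fermatCurve_axis (hn : 3 ≤ n) {x y : ℚ} (h : x ^ n + y ^ n = 1) : x = 0 ∨ y = 0 := by
  by_contra hc
  rw [not_or] at hc
  exact FA.Root.fermatLastTheorem_rat_closed hn x y 1 hc.1 hc.2 one_ne_zero (by rw [one_pow, h])

/-- The rational points of a Fermat curve of odd degree: `(1, 0)` and `(0, 1)`. -/
theorem fermatCurve_points_of_odd (hn : 3 ≤ n) (ho : Odd n) {x y : ℚ} :
    x ^ n + y ^ n = 1 ↔ (x = 1 ∧ y = 0) ∨ (x = 0 ∧ y = 1) := by
  have h0 : (0 : ℚ) ^ n = 0 := zero_pow (by omega)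
  have h1 : ∀ t : ℚ, t ^ n = 1 → t = 1 := fun t ht =>
    (ho.pow_inj).1 (ht.trans (one_pow n).symm)
  refine ⟨fun h => ?_, ?_⟩
  · rcases fermatCurve_axis hn h with rfl | rfl
    · rw [h0, zero_add] at h
      exact Or.inr ⟨rfl, h1 y h⟩
    · rw [h0, add_zero] at h
      exact Or.inl ⟨h1 x h, rfl⟩
  · rintro (⟨rfl, rfl⟩ | ⟨rfl, rfl⟩) <;> simp [h0]

/-- The rational points of a Fermat curve of even degree: `(±1, 0)` and `(0, ±1)`. -/
theorem fermatCurve_points_of_even (hn : 3 ≤ n) (he : Even n) {x y : ℚ} :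
    x ^ n + y ^ n = 1 ↔
      (x = 1 ∧ y = 0) ∨ (x = -1 ∧ y = 0) ∨ (x = 0 ∧ y = 1) ∨ (x = 0 ∧ y = -1) := by
  have h0 : (0 : ℚ) ^ n = 0 := zero_pow (by omega)
  have h1 : ∀ t : ℚ, t ^ n = 1 → t = 1 ∨ t = -1 := fun t ht =>
    ((pow_eq_one_iff_of_ne_zero (show n ≠ 0 by omega)).1 ht).imp_right fun h => h.1
  refine ⟨fun h => ?_, ?_⟩
  · rcases fermatCurve_axis hn h with rfl | rfl
    · rw [h0, zero_add] at h
      rcases h1 y h with hy | hy
      · exact Or.inr (Or.inr (Or.inl ⟨rfl, hy⟩))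
      · exact Or.inr (Or.inr (Or.inr ⟨rfl, hy⟩))
    · rw [h0, add_zero] at h
      rcases h1 x h with hx | hx
      · exact Or.inl ⟨hx, rfl⟩
      · exact Or.inr (Or.inl ⟨hx, rfl⟩)
  · rintro (⟨rfl, rfl⟩ | ⟨rfl, rfl⟩ | ⟨rfl, rfl⟩ | ⟨rfl, rfl⟩) <;> simp [h0, he.neg_one_pow]

/-- Integral solutions of the Fermat equation are trivial. -/
theorem fermat_int_mul_eq_zero (hn : 3 ≤ n) {x y z : ℤ} (h : x ^ n + y ^ n = z ^ n) :
    x * y * z = 0 := by
  by_contra hc
  simp only [mul_eq_zero, not_or] at hc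
  exact FA.Root.fermatLastTheorem_int_closed hn x y z hc.1.1 hc.1.2 hc.2 h

/-- Rational solutions of the Fermat equation are trivial. -/
theorem fermat_rat_mul_eq_zero (hn : 3 ≤ n) {x y z : ℚ} (h : x ^ n + y ^ n = z ^ n) :
    x * y * z = 0 := by
  by_contra hc
  simp only [mul_eq_zero, not_or] at hc
  exact FA.Root.fermatLastTheorem_rat_closed hn x y z hc.1.1 hc.1.2 hc.2 h

/-- The same with exponents in `ℤ` of absolute value at least `3`. -/
theorem fermat_zpow_mul_eq_zero {k : ℤ} (hk : 3 ≤ |k|) {x y z : ℚ}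
    (h : x ^ k + y ^ k = z ^ k) : x * y * z = 0 := by
  obtain ⟨m, rfl | rfl⟩ := Int.eq_nat_or_neg k
  · simp only [zpow_natCast] at h
    exact fermat_rat_mul_eq_zero (n := m) (by rw [Nat.abs_cast] at hk; exact_mod_cast hk) h
  · simp only [zpow_neg, zpow_natCast, ← inv_pow] at h
    have h' := fermat_rat_mul_eq_zero (n := m)
      (by rw [abs_neg, Nat.abs_cast] at hk; exact_mod_cast hk) h
    simpa [mul_eq_zero] using h'

end FA.Summary
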