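import Fermat.Agent.IdealLandauCount.Main

/-!
# Landau's count of integral ideals, uniform in the field (1918)

No hypothesis on zeros. For each degree `n` one `C` serves every number field of degree at most
`n`: for `x ≥ 1` the nonzero ideals of norm at most `x` number
`res x + O (C |d| ^ (1/(2n)) x ^ (1 - 1/(4n)))`, `res` the residue of `ζ_K` at `1`. So there are
at least `res x / 2` of them from `x = (2 C |d| ^ (1/(2n)) / res) ^ (4n)` on. Landau's exponent
`1 - 2/(n + 1)` and explicit constants are not claimed.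
-/

set_option autoImplicit false

noncomputable section

universe u

open NumberField Module
open FA.IdealLandauCount

namespace FA.IdealLandauCount.Summary

/-- The count as a sum over the norms. -/
theorem card_eq_idealSum (K : Type u) [Field K] [NumberField K] {x : ℝ} (hx : 0 ≤ x) :
    (Nat.card {I : Ideal (𝓞 K) // Ideal.absNorm I ≠ 0 ∧ (Ideal.absNorm I : ℝ) ≤ x} : ℝ) =
      idealSum K x := by
  classical
  have hfin := fun m : ℕ => Ideal.finite_setOfPred_absNorm_le (S := 𝓞 K) m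
  rw [Nat.card_congr (Equiv.subtypeEquivRight (q := fun I =>
      I ∈ (hfin ⌊x⌋₊).toFinset.filter fun I => Ideal.absNorm I ≠ 0) fun I => by
    simp [Nat.le_floor_iff hx, and_comm]), Nat.card_eq_finsetCard,
    Finset.card_eq_sum_card_fiberwise (f := fun I => Ideal.absNorm I) (t := Finset.Icc 1 ⌊x⌋₊)
      fun I hI => ?_]
  · push_cast
    refine Finset.sum_congr rfl fun m hm => ?_
    rw [idealTerm, Nat.cast_inj, ← Nat.card_eq_finsetCard]
    refine Nat.card_congr (Equiv.subtypeEquivRight fun I => ?_)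
    obtain ⟨h1, h2⟩ := Finset.mem_Icc.1 hm
    simp only [Finset.mem_filter, Set.Finite.mem_toFinset, Set.mem_ofPred_eq]
    exact ⟨fun h => h.2, fun h => ⟨⟨h ▸ h2, h ▸ (by omega)⟩, h⟩⟩
  · simp only [Finset.mem_coe, Finset.mem_filter, Set.Finite.mem_toFinset,
      Set.mem_ofPred_eq] at hI
    exact Finset.mem_coe.2 (Finset.mem_Icc.2 ⟨Nat.one_le_iff_ne_zero.2 hI.2, hI.1⟩)

/-- **Landau's count in bounded degree.** -/
theorem landau_ideal_count (n : ℕ) : ∃ C : ℝ, 0 < C ∧
    ∀ (K : Type u) [Field K] [NumberField K], finrank ℚ K ≤ n → ∀ x : ℝ, 1 ≤ x →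
      |(Nat.card {I : Ideal (𝓞 K) // Ideal.absNorm I ≠ 0 ∧ (Ideal.absNorm I : ℝ) ≤ x} : ℝ) -
          dedekindZeta_residue K * x| ≤
        C * ((discr K).natAbs : ℝ) ^ (1 / (2 * n) : ℝ) * x ^ (1 - 1 / (4 * n) : ℝ) := by
  rcases Nat.eq_zero_or_pos n with rfl | hn
  · exact ⟨1, one_pos, fun K _ _ hK => absurd hK (not_le.2 finrank_pos)⟩
  refine ⟨3 * sumConst n + 30 * stripConst n, ?_, fun K _ _ hK x hx => ?_⟩
  · linarith [sumConst_nonneg n, stripConst_pos n]
  rw [card_eq_idealSum K (zero_le_one.trans hx)]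
  exact abs_idealSum_sub_le hn hK hx

/-- **The count from below**: half the main term, past an explicit power of `|d| ^ (1/(2n)) / res`.
-/
theorem ideal_count_ge (n : ℕ) : ∃ C : ℝ, 0 < C ∧
    ∀ (K : Type u) [Field K] [NumberField K], finrank ℚ K ≤ n → ∀ x : ℝ, 1 ≤ x →
      (C * ((discr K).natAbs : ℝ) ^ (1 / (2 * n) : ℝ) / dedekindZeta_residue K) ^ (4 * n) ≤ x →
      dedekindZeta_residue K * x / 2 ≤
        Nat.card {I : Ideal (𝓞 K) // Ideal.absNorm I ≠ 0 ∧ (Ideal.absNorm I : ℝ) ≤ x} := by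
  obtain ⟨C, hC, h⟩ := landau_ideal_count.{u} n
  refine ⟨2 * C, by linarith, fun K _ _ hK x hx hxb => ?_⟩
  have hn : 1 ≤ n := le_trans finrank_pos hK
  have hn' : (1 : ℝ) ≤ n := Nat.one_le_cast.2 hn
  have hres := dedekindZeta_residue_pos K
  obtain ⟨D, hD⟩ : ∃ D, D = C * ((discr K).natAbs : ℝ) ^ (1 / (2 * n) : ℝ) := ⟨_, rfl⟩
  have hD0 : 0 ≤ D := hD ▸ by positivity
  have hb := (abs_le.1 (h K hK x hx)).1
  rw [← hD] at hb
  rw [mul_assoc, ← hD] at hxb
  have hx0 : 0 < x := by linarith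
  have h2 : 2 * D / dedekindZeta_residue K ≤ x ^ (1 / (4 * n) : ℝ) := by
    have h0 := Real.rpow_le_rpow (z := (1 / (4 * n) : ℝ)) (pow_nonneg (by positivity) _) hxb
      (by positivity)
    rw [show (1 / (4 * n) : ℝ) = ((4 * n : ℕ) : ℝ)⁻¹ by push_cast; rw [one_div]] at h0 ⊢
    rwa [Real.pow_rpow_inv_natCast (by positivity) (by omega)] at h0
  rw [div_le_iff₀ hres] at h2
  have h3 := mul_le_mul_of_nonneg_right h2 (Real.rpow_nonneg hx0.le (1 - 1 / (4 * n) : ℝ))
  rw [mul_right_comm (x ^ (1 / (4 * n) : ℝ)), ← Real.rpow_add hx0,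
    show (1 / (4 * n) : ℝ) + (1 - 1 / (4 * n)) = 1 by ring, Real.rpow_one] at h3
  linarith

end FA.IdealLandauCount.Summary

end
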