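import Fermat.Agent.EC.TorsionGalois
import Mathlib.FieldTheory.Galois.Infinite
import Mathlib.RingTheory.RootsOfUnity.AlgebraicallyClosed
import Mathlib.Data.Nat.ChineseRemainder
import Mathlib.FieldTheory.Minpoly.IsConjRoot
import Mathlib.RingTheory.Polynomial.Cyclotomic.Roots

/-!
# A finite extension meets the cyclotomic fields in a bounded level

For a finite extension `L` of `ℚ` some `M` is such that every exponent `c` prime to `N` and
congruent to one modulo `gcd N M` is the action on the `N`-th roots of unity of an automorphism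
fixing `L`.
-/

set_option autoImplicit false
set_option linter.style.haveILetI false

noncomputable section

open Polynomial IntermediateField

local notation "Qb" => AlgebraicClosure ℚ
local notation "GQ" => AlgebraicClosure ℚ ≃ₐ[ℚ] AlgebraicClosure ℚ

namespace FA.OpenImage

/-- The subfield generated by all roots of unity. -/
def rootsField : IntermediateField ℚ Qb := adjoin ℚ {μ | ∃ n : ℕ, 0 < n ∧ μ ^ n = 1}

/-- An element of `rootsField` is fixed by what fixes the roots of unity of some order. -/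
theorem exists_level_of_mem_rootsField {x : Qb} (hx : x ∈ rootsField) :
    ∃ m : ℕ, 0 < m ∧ ∀ σ : GQ, (∀ μ : Qb, μ ^ m = 1 → σ μ = μ) → σ x = x := by
  induction hx using IntermediateField.adjoin_induction with
  | mem x hx => obtain ⟨n, hn, hxn⟩ := hx; exact ⟨n, hn, fun σ hσ => hσ x hxn⟩
  | algebraMap r => exact ⟨1, one_pos, fun σ _ => σ.commutes r⟩
  | add x y _ _ hx hy =>
    obtain ⟨a, ha, hxa⟩ := hx
    obtain ⟨b, hb, hyb⟩ := hy
    exact ⟨a * b, Nat.mul_pos ha hb, fun σ hσ => by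
      rw [map_add, hxa σ fun μ hμ => hσ μ (by rw [pow_mul, hμ, one_pow]),
        hyb σ fun μ hμ => hσ μ (by rw [mul_comm, pow_mul, hμ, one_pow])]⟩
  | inv x _ hx =>
    obtain ⟨a, ha, hxa⟩ := hx
    exact ⟨a, ha, fun σ hσ => by rw [map_inv₀, hxa σ hσ]⟩
  | mul x y _ _ hx hy =>
    obtain ⟨a, ha, hxa⟩ := hx
    obtain ⟨b, hb, hyb⟩ := hy
    exact ⟨a * b, Nat.mul_pos ha hb, fun σ hσ => by
      rw [map_mul, hxa σ fun μ hμ => hσ μ (by rw [pow_mul, hμ, one_pow]),
        hyb σ fun μ hμ => hσ μ (by rw [mul_comm, pow_mul, hμ, one_pow])]⟩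

/-- The elements of a finite extension lying in `rootsField` have one common level. -/
theorem exists_level_of_finite (L : IntermediateField ℚ Qb) [FiniteDimensional ℚ L] :
    ∃ M : ℕ, 0 < M ∧ ∀ σ : GQ, (∀ μ : Qb, μ ^ M = 1 → σ μ = μ) →
      ∀ x ∈ L, x ∈ rootsField → σ x = x := by
  classical
  have : FiniteDimensional ℚ (L ⊓ rootsField : IntermediateField ℚ Qb) :=
    FiniteDimensional.of_injective
      (IntermediateField.inclusion (inf_le_left : L ⊓ rootsField ≤ L)).toLinearMap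
      (IntermediateField.inclusion (inf_le_left : L ⊓ rootsField ≤ L)).injective
  let b := Module.finBasis ℚ (L ⊓ rootsField : IntermediateField ℚ Qb)
  choose m hm hfix using fun i => exists_level_of_mem_rootsField (b i).2.2
  refine ⟨∏ i, m i, Finset.prod_pos fun i _ => hm i, fun σ hσ x hx hx' => ?_⟩
  have e : (x : Qb) = ∑ i, b.repr ⟨x, hx, hx'⟩ i • (b i : Qb) := by
    have := congrArg (IntermediateField.val (L ⊓ rootsField)) (b.sum_repr ⟨x, hx, hx'⟩)
    rw [map_sum] at this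
    simpa using this.symm
  rw [e, map_sum]
  refine Finset.sum_congr rfl fun i _ => ?_
  rw [Algebra.smul_def, map_mul, σ.commutes, hfix i σ fun μ hμ => hσ μ ?_]
  obtain ⟨c, hc⟩ := Finset.dvd_prod_of_mem m (Finset.mem_univ i)
  rw [hc, pow_mul, hμ, one_pow]

/-- **Cyclotomic level of a finite extension**: `c` prime to `N` and congruent to one modulo
`gcd N M` is realised on the `N`-th roots of unity by an automorphism fixing `L`. -/
theorem exists_fixing_apply_eq_pow (L : IntermediateField ℚ Qb) [FiniteDimensional ℚ L] :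
    ∃ M : ℕ, 0 < M ∧ ∀ N : ℕ, N ≠ 0 → ∀ c : ℕ, c.Coprime N → c ≡ 1 [MOD Nat.gcd N M] →
      ∃ σ : GQ, (∀ a ∈ L, σ a = a) ∧ ∀ μ : Qb, μ ^ N = 1 → σ μ = μ ^ c := by
  classical
  obtain ⟨M, hM, hlevel⟩ := exists_level_of_finite L
  refine ⟨M, hM, fun N hN c hc hcM => ?_⟩
  haveI : Algebra.IsAlgebraic ℚ Qb := AlgebraicClosure.isAlgebraic ℚ
  haveI : IsAlgClosure ℚ Qb := ⟨inferInstance, inferInstance⟩
  haveI : Normal ℚ Qb := IsAlgClosure.normal ℚ Qb
  haveI : IsGalois ℚ Qb := ⟨⟩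
  obtain ⟨c', hcN, hc1⟩ := Nat.chineseRemainder' hcM
  have hcop : c'.Coprime (N * M) := by
    refine Nat.Coprime.mul_right ?_ ?_
    · rw [Nat.Coprime, hcN.gcd_eq]; exact hc
    · rw [Nat.Coprime, hc1.gcd_eq]; exact Nat.gcd_one_left M
  have hn0 : N * M ≠ 0 := Nat.mul_ne_zero hN hM.ne'
  have : NeZero (N * M) := ⟨hn0⟩
  have : NeZero ((N * M : ℕ) : Qb) := ⟨Nat.cast_ne_zero.mpr hn0⟩
  obtain ⟨ζ, hζ⟩ := HasEnoughRootsOfUnity.exists_primitiveRoot Qb (N * M)
  have hconj : IsConjRoot ℚ ζ (ζ ^ c') := by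
    show minpoly ℚ ζ = minpoly ℚ (ζ ^ c')
    rw [← Polynomial.cyclotomic_eq_minpoly_rat hζ (NeZero.pos _),
      ← Polynomial.cyclotomic_eq_minpoly_rat (hζ.pow_of_coprime c' hcop) (NeZero.pos _)]
  obtain ⟨τ, hτ⟩ := (IsConjRoot.symm hconj).exists_algEquiv
  -- `τ` fixes the elements of `L` in `rootsField`
  have hτM : ∀ μ : Qb, μ ^ M = 1 → τ μ = μ := fun μ hμ => by
    obtain ⟨i, -, rfl⟩ := hζ.eq_pow_of_pow_eq_one
      (ξ := μ) (by rw [mul_comm, pow_mul, hμ, one_pow])
    rw [map_pow, hτ, ← pow_mul, mul_comm, pow_mul, pow_eq_pow_mod c' hμ, hc1,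
      ← pow_eq_pow_mod 1 hμ, pow_one]
  -- the orbit of `ζ` under the automorphisms fixing `L`
  let O : Finset Qb := ((Finset.range (N * M)).image (ζ ^ ·)).filter
    fun o => ∃ σ ∈ L.fixingSubgroup, σ ζ = o
  have hO : ∀ {o : Qb}, o ∈ O ↔ ∃ σ ∈ L.fixingSubgroup, σ ζ = o := fun {o} => by
    refine ⟨fun h => (Finset.mem_filter.mp h).2, fun h => Finset.mem_filter.mpr ⟨?_, h⟩⟩
    obtain ⟨σ, -, rfl⟩ := h
    obtain ⟨i, hi, e⟩ := hζ.eq_pow_of_pow_eq_one (ξ := σ ζ)
      (by rw [← map_pow, hζ.pow_eq_one, map_one])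
    exact Finset.mem_image.mpr ⟨i, Finset.mem_range.mpr hi, e⟩
  let P : Qb[X] := ∏ o ∈ O, (X - C o)
  have hPL : ∀ k, P.coeff k ∈ L := fun k => by
    rw [← InfiniteGalois.fixedField_fixingSubgroup L]
    rintro ⟨σ, hσ⟩
    show σ (P.coeff k) = P.coeff k
    have hperm : O.image σ = O := Finset.eq_of_subset_of_card_le (fun o ho => by
        obtain ⟨o', ho', rfl⟩ := Finset.mem_image.mp ho
        obtain ⟨s, hs, rfl⟩ := hO.mp ho'
        exact hO.mpr ⟨σ * s, mul_mem hσ hs, rfl⟩)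
      (Finset.card_image_of_injective _ σ.injective).ge
    have hmap : P.map (σ : Qb →+* Qb) = P := by
      rw [Polynomial.map_prod]
      conv_rhs => rw [show P = ∏ o ∈ O.image σ, (X - C o) by rw [hperm],
        Finset.prod_image fun a _ b _ h => σ.injective h]
      exact Finset.prod_congr rfl fun o _ => by simp
    conv_rhs => rw [← hmap, coeff_map]
    rfl
  have hPK : ∀ k, P.coeff k ∈ rootsField := fun k => by
    have hmem : P ∈ Polynomial.lifts (algebraMap rootsField Qb) := Subsemiring.prod_mem _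
      fun o ho => by
        have hor : o ∈ rootsField := IntermediateField.subset_adjoin ℚ _ (by
          obtain ⟨s, -, rfl⟩ := hO.mp ho
          exact ⟨N * M, NeZero.pos _, by rw [← map_pow, hζ.pow_eq_one, map_one]⟩)
        rw [Polynomial.mem_lifts]
        exact ⟨X - C ⟨o, hor⟩, by simp⟩
    obtain ⟨y, hy⟩ := (Polynomial.lifts_iff_coeff_lifts P).mp hmem k
    rw [← hy]
    exact y.2
  have hroot : P.eval ζ = 0 := by
    rw [Polynomial.eval_prod]
    exact Finset.prod_eq_zero (hO.mpr ⟨1, one_mem _, rfl⟩) (by simp)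
  have hfix : P.map (τ : Qb →+* Qb) = P := Polynomial.ext fun k => by
    rw [coeff_map]
    exact hlevel τ hτM _ (hPL k) (hPK k)
  have hτO : τ ζ ∈ O := by
    have h := congrArg (τ : Qb →+* Qb) hroot
    rw [map_zero, ← Polynomial.eval₂_at_apply, ← Polynomial.eval_map, hfix, Polynomial.eval_prod,
      Finset.prod_eq_zero_iff] at h
    obtain ⟨o, ho, he⟩ := h
    rw [eval_sub, eval_X, eval_C, sub_eq_zero] at he
    exact (show τ ζ = o from he) ▸ ho
  obtain ⟨σ, hσ, hσζ⟩ := hO.mp hτO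
  refine ⟨σ, (IntermediateField.mem_fixingSubgroup_iff L σ).mp hσ, fun μ hμ => ?_⟩
  obtain ⟨i, -, rfl⟩ := hζ.eq_pow_of_pow_eq_one (ξ := μ) (by rw [pow_mul, hμ, one_pow])
  rw [map_pow, hσζ, hτ, ← pow_mul, mul_comm, pow_mul, pow_eq_pow_mod c' hμ, hcN,
    ← pow_eq_pow_mod c hμ]

end FA.OpenImage

end
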