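import Fermat.Agent.Root.PadicImageOpen
import Fermat.Agent.Root.AdelicTransvection
import Fermat.Agent.Root.CyclotomicLevel

/-!
# Uniform levels at the small primes

For each of the finitely many primes `p` below a bound commutators in an open image, raised to an exponent
whose `p`-part is bounded, fix the torsion at the other small primes and still fill an open
subgroup of determinant one. With full image at the other primes, automorphisms trivial modulo
fixed levels and fixing the roots of unity glue.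
-/

set_option autoImplicit false
set_option linter.unusedSectionVars false
set_option linter.style.haveILetI false

noncomputable section

open Matrix WeierstrassCurve FA.EC FA.Frob FA.RT FA.RT.Tate FA.PadicImage
open FA.TW (rootsFix mem_rootsFix commutator_mem_rootsFix)
open scoped WeierstrassCurve.Affine

local notation "Qb" => AlgebraicClosure ℚ
local notation "GQ" => AlgebraicClosure ℚ ≃ₐ[ℚ] AlgebraicClosure ℚ

namespace FA.OpenImage

/-- The primes below a bound `L`. -/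
def lowPrimes (L : ℕ) : Finset ℕ := {l ∈ Finset.range L | l.Prime}

theorem mem_lowPrimes {L l : ℕ} : l ∈ lowPrimes L ↔ l.Prime ∧ l < L := by
  rw [lowPrimes, Finset.mem_filter, Finset.mem_range, and_comm]

variable {W : WeierstrassCurve ℤ} [(ratCurve W).IsElliptic]

variable {p : ℕ} [hp : Fact p.Prime]

local notation "Mp" => Matrix (Fin 2) (Fin 2) ℤ_[p]
local notation "π" => (p : ℤ_[p])

variable (W p) in
/-- Automorphisms fixing the roots of unity and the `p ^ c`-torsion can be moved into those fixing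
also the torsion at the other small primes. -/
def IndepLevel (L c : ℕ) : Prop :=
  ∀ (f : ℕ → ℕ) (S T : Finset ℕ), S ⊆ lowPrimes L → p ∉ S → (∀ l ∈ T, l.Prime) →
    ∀ g ∈ rootsFix p (f p), (∀ x : Pts W, p ^ c • x = 0 → p ^ f p • x = 0 → g • x = x) →
      ∃ τ ∈ fixer W f S T, ∀ x : Pts W, p ^ f p • x = 0 → τ • x = g • x

/-- What fixes the `p ^ c`-torsion is congruent to one modulo `p ^ c`. -/
theorem exists_rep_eq_one_add (B : TateBasis p W) {c : ℕ} {g : GQ}
    (h : ∀ x : Pts W, p ^ c • x = 0 → g • x = x) : ∃ Z : Mp, B.rep g = 1 + π ^ c • Z :=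
  exists_eq_one_add_of_map (B.rep_congr_one h)

/-- What fixes the `p ^ v`-torsion acts on the roots of unity of order `p ^ v` through an exponent
congruent to one. -/
theorem modEq_one_of_fix_torsion {v : ℕ} {g : GQ} (h : ∀ x : Pts W, p ^ v • x = 0 → g • x = x)
    {a : ℕ} (ha : ∀ μ : Qb, μ ^ p ^ v = 1 → g μ = μ ^ a) : a ≡ 1 [MOD p ^ v] := by
  obtain ⟨B⟩ := exists_tateBasis (p := p) W
  obtain ⟨Z, hZ⟩ := exists_rep_eq_one_add B h
  refine (ZMod.natCast_eq_natCast_iff _ _ _).mp ?_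
  rw [← cycP_eq_natCast (p := p) (σ := g) ha, ← B.det_rep, hZ, RingHom.map_det, Nat.cast_one]
  have e : (PadicInt.toZModPow v).mapMatrix
      (1 + π ^ v • Z) = (1 : Matrix (Fin 2) (Fin 2) (ZMod (p ^ v))) := by
    ext i j
    rw [RingHom.mapMatrix_apply, Matrix.map_apply, Matrix.add_apply, Matrix.smul_apply,
      smul_eq_mul, map_add, map_mul, map_pow, map_natCast, ← Nat.cast_pow, ZMod.natCast_self,
      zero_mul, add_zero, Matrix.one_apply, Matrix.one_apply,
      apply_ite (PadicInt.toZModPow v), map_one, map_zero]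
  rw [e, det_one]

/-- **Independence at a small prime**: an automorphism fixing the roots of unity and the
`p ^ c`-torsion agrees on the `p ^ f p`-torsion with one fixing also the torsion at the other
small primes. -/
theorem exists_mem_fixer_of_level (L : ℕ) (B : TateBasis p W) {k : ℕ} (hk0 : 0 < k)
    (hk : ∀ Y : Mp, IsUnit (1 + π ^ k • Y).det → ∃ σ, B.rep σ = 1 + π ^ k • Y) :
    ∃ c : ℕ, IndepLevel W p L c := by
  classical
  let cd : ℕ → ℕ := fun l => Nat.card (GL (Fin 2) (ZMod l))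
  obtain ⟨C, hC⟩ : ∃ C : ℤ_[p], ((∏ l ∈ lowPrimes L, cd l : ℕ) : ℤ_[p]) = C := ⟨_, rfl⟩
  have hC0 : C ≠ 0 := hC ▸ Nat.cast_ne_zero.mpr (Finset.prod_ne_zero_iff.mpr fun l hl => by
    have := Fact.mk (mem_lowPrimes.mp hl).1
    exact Nat.card_pos.ne')
  have hπ : π ≠ 0 := Nat.cast_ne_zero.mpr hp.out.ne_zero
  obtain ⟨b, hb⟩ : ∃ b, π ^ (k + k) * C = b := ⟨_, rfl⟩
  have hb0 : π * (b * b) ≠ 0 :=
    mul_ne_zero hπ (mul_self_ne_zero.mpr (hb ▸ mul_ne_zero (pow_ne_zero _ hπ) hC0))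
  obtain ⟨c, hcd⟩ := exists_dvd_prime_pow hb0
  obtain ⟨r, hr⟩ := hcd
  refine ⟨c, fun f S T hS hpS hT g hg hfix => ?_⟩
  rcases le_or_gt (f p) c with hfc | hcf
  · refine ⟨1, one_mem _, fun x hx => ?_⟩
    obtain ⟨d, hd⟩ := Nat.pow_dvd_pow p hfc
    rw [one_smul, hfix x (by rw [hd, mul_comm, mul_nsmul', hx, nsmul_zero]) hx]
  -- the exponent and its inverse
  obtain ⟨m, hm⟩ : ∃ m, ∏ l ∈ S, cd l * l ^ f l = m := ⟨_, rfl⟩
  have hpow : ∀ (a e : GQ) (t : ℕ), (a * e * a⁻¹ * e⁻¹) ^ (m * t) ∈ fixer W f S T :=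
    fun a e t => by
    rw [pow_mul]
    refine pow_mem (show (a * e * a⁻¹ * e⁻¹) ^ m ∈ fixer W f S T from
      ⟨fun l hl => pow_mem (commutator_mem_rootsFix (hT l hl) (f l) a e) m,
        fun l hl x hx => ?_⟩) t
    have := Fact.mk (mem_lowPrimes.mp (hS hl)).1
    obtain ⟨d, hd⟩ := hm ▸ Finset.dvd_prod_of_mem (fun l => cd l * l ^ f l) hl
    rw [hd, mul_comm, pow_mul]
    exact pow_card_smul _ hx
  obtain ⟨u, hu⟩ : ∃ u, u * ((∏ l ∈ S, l ^ f l : ℕ) : ℤ_[p]) = 1 := (isUnit_iff_toZMod.mpr (by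
    rw [map_natCast, Ne, ZMod.natCast_eq_zero_iff, Prime.dvd_finsetProd_iff hp.out.prime]
    rintro ⟨l, hl, hd⟩
    exact hpS (((Nat.prime_dvd_prime_iff_eq hp.out (mem_lowPrimes.mp (hS hl)).1).mp
      (hp.out.dvd_of_dvd_pow hd)) ▸ hl))).exists_left_inv
  have hlift : ∀ z : ℤ_[p], ∃ (t : ℕ) (y : ℤ_[p]),
      ((m * t : ℕ) : ℤ_[p]) = C * z + π ^ f p * y := fun z => by
    obtain ⟨w, hw⟩ : ∃ w, ((∏ l ∈ lowPrimes L \ S, cd l : ℕ) : ℤ_[p]) * z * u = w := ⟨_, rfl⟩
    have : NeZero (p ^ f p) := ⟨pow_ne_zero _ hp.out.ne_zero⟩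
    obtain ⟨y, hy⟩ := (toZModPow_eq_iff (n := f p)
      (x := ((PadicInt.toZModPow (f p) w).val : ℤ_[p])) (y := w)).mp
      (by rw [map_natCast, ZMod.natCast_zmod_val])
    refine ⟨(PadicInt.toZModPow (f p) w).val, (m : ℤ_[p]) * y, ?_⟩
    rw [Nat.cast_mul, hy, ← hw, ← hC, ← Finset.prod_sdiff hS, ← hm, Finset.prod_mul_distrib]
    push_cast at hu ⊢
    linear_combination (∏ l ∈ lowPrimes L \ S, (cd l : ℤ_[p])) * (∏ l ∈ S, (cd l : ℤ_[p])) * z * hu
  let A : Submonoid Mp :=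
    { carrier := {M | ∃ τ ∈ fixer W f S T, Acts B (f p) τ M}
      one_mem' := ⟨1, one_mem _, fun v => by rw [one_smul, one_mulVec]⟩
      mul_mem' := fun ⟨a, ha, ha'⟩ ⟨e, he, he'⟩ => ⟨a * e, mul_mem ha he, ha'.mul he'⟩ }
  -- powers of a commutator with unipotent image
  have hgen : ∀ D H N : Mp, IsUnit (1 + π ^ k • D).det → IsUnit (1 + π ^ k • H).det →
      (1 + π ^ (k + k) • N) * ((1 + π ^ k • H) * (1 + π ^ k • D)) =
        (1 + π ^ k • D) * (1 + π ^ k • H) → N * N = 0 →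
      ∀ z, 1 + (b * z) • N ∈ A := fun D H N hD hH hDH hN z => by
    obtain ⟨d, hd⟩ := hk D hD
    obtain ⟨e, he⟩ := hk H hH
    have hc : B.rep (d * e * d⁻¹ * e⁻¹) = 1 + π ^ (k + k) • N :=
      ((Group.isUnit (e * d)).map B.rep).mul_right_cancel (by
        rw [← map_mul, map_mul B.rep e d, hd, he, hDH, ← hd, ← he, ← map_mul]
        congr 1; group)
    have hsq : (B.rep (d * e * d⁻¹ * e⁻¹) - 1) * (B.rep (d * e * d⁻¹ * e⁻¹) - 1) = 0 := by
      rw [hc, add_sub_cancel_left, smul_mul_assoc, Algebra.mul_smul_comm, hN, smul_zero, smul_zero]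
    obtain ⟨t, y, hy⟩ := hlift z
    refine ⟨_, hpow d e t, Acts.congr (fun v => B.rep_spec _ (f p) v) ⟨(y * π ^ (k + k)) • N, ?_⟩⟩
    rw [map_pow, pow_eq_of_sq_eq_zero hsq, hc, add_sub_cancel_left, hy, ← hb, add_assoc]
    congr 1
    rw [smul_smul, smul_smul, ← add_smul]
    congr 1
    ring
  have hunit : ∀ x : ℤ_[p], IsUnit (1 + π ^ k * x) := fun x => isUnit_iff_toZMod.mpr (by
    rw [map_add, map_one, map_mul, map_pow, map_natCast, ZMod.natCast_self, zero_pow hk0.ne',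
      zero_mul, add_zero]
    exact one_ne_zero)
  have hU : ∀ z, (!![1, b * z; 0, 1] : Mp) ∈ A := fun z => by
    convert hgen !![1, 0; 0, 0] !![0, 1; 0, 0] !![0, 1; 0, 0] ?_ ?_ ?_ ?_ z using 1
    · ext i j; fin_cases i <;> fin_cases j <;> simp
    · simpa [det_fin_two] using hunit 1
    · simp [det_fin_two]
    · ext i j; fin_cases i <;> fin_cases j <;> simp [Matrix.mul_apply, Fin.sum_univ_two]
      ring
    · ext i j; fin_cases i <;> fin_cases j <;> simp [Matrix.mul_apply, Fin.sum_univ_two]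
  have hL : ∀ z, (!![1, 0; b * z, 1] : Mp) ∈ A := fun z => by
    convert hgen !![0, 0; 0, 1] !![0, 0; 1, 0] !![0, 0; 1, 0] ?_ ?_ ?_ ?_ z using 1
    · ext i j; fin_cases i <;> fin_cases j <;> simp
    · simpa [det_fin_two] using hunit 1
    · simp [det_fin_two]
    · ext i j; fin_cases i <;> fin_cases j <;> simp [Matrix.mul_apply, Fin.sum_univ_two]
      ring
    · ext i j; fin_cases i <;> fin_cases j <;> simp [Matrix.mul_apply, Fin.sum_univ_two]
  -- the matrix of `g`, made of determinant one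
  obtain ⟨Z, hZ⟩ := exists_rep_eq_one_add B (c := c) (g := g) fun x hx => by
    refine hfix x hx ?_
    obtain ⟨d, hd⟩ := Nat.pow_dvd_pow p hcf.le
    rw [hd, mul_comm, mul_nsmul', hx, nsmul_zero]
  obtain ⟨y, hy⟩ : ∃ y, (B.rep g).det = 1 + π ^ f p * y :=
    toZModPow_eq_iff.mp (by
      rw [B.det_rep, FA.RT.Tate.cycP_eq_natCast (a := 1) fun μ hμ => by
        rw [pow_one]; exact mem_rootsFix.mp hg μ hμ, Nat.cast_one, map_one])
  obtain ⟨v, hv⟩ : ∃ v, v * (B.rep g).det = 1 := (isUnit_iff_toZMod.mpr (by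
    rw [hy, map_add, map_one, map_mul, map_pow, map_natCast, ZMod.natCast_self,
      zero_pow (by omega), zero_mul, add_zero]
    exact one_ne_zero)).exists_left_inv
  obtain ⟨j, hj⟩ := Nat.le.dest hcf.le
  obtain ⟨X, hX⟩ : ∃ X, B.rep g * !![v, 0; 0, 1] = X := ⟨_, rfl⟩
  have hXg : X = B.rep g + π ^ f p • (B.rep g * !![-(v * y), 0; 0, 0]) := by
    rw [← hX, ← Algebra.mul_smul_comm]
    conv_rhs => arg 1; rw [← mul_one (B.rep g)]
    rw [← mul_add]
    congr 1
    ext i j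
    fin_cases i <;> fin_cases j <;> simp
    linear_combination hv - v * hy
  obtain ⟨τ, hτ, hact⟩ := mem_of_elementary_congr A b hU hL
    (Y := r • (Z + π ^ j • (B.rep g * !![-(v * y), 0; 0, 0]))) (by
      rw [smul_smul, ← hr, smul_add, smul_smul, ← pow_add, hj, ← add_assoc, ← hZ, ← hXg, ← hX,
        det_mul, det_fin_two_of, mul_one, mul_zero, sub_zero, mul_comm]
      exact hv)
  refine ⟨τ, hτ, fun x hx => ?_⟩
  obtain ⟨w, rfl⟩ := B.surj _ x hx
  rw [B.rep_spec g]
  refine Acts.congr hact ⟨B.rep g * !![-(v * y), 0; 0, 0], ?_⟩ w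
  rw [smul_smul, ← hr, smul_add, smul_smul, ← pow_add, hj, ← add_assoc, ← hZ]

/-- **Glueing**: automorphisms fixing the roots of unity, and the torsion of the given levels at
the small primes, come from one automorphism. -/
theorem exists_glue_of_levels {L : ℕ} (hL : 5 ≤ L) (c : ℕ → ℕ)
    (hreach : ∀ l : ℕ, L ≤ l → ∀ [Fact l.Prime], ReachAll l W)
    (hlev : ∀ l ∈ lowPrimes L, IndepLevel W l L (c l)) (f : ℕ → ℕ) {T : Finset ℕ}
    (hT : ∀ l ∈ T, l.Prime) (h : ℕ → GQ) (hh : ∀ l ∈ T, h l ∈ rootsFix l (f l))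
    (hfix : ∀ l ∈ T, l ∈ lowPrimes L → ∀ x : Pts W, l ^ c l • x = 0 → l ^ f l • x = 0 →
      h l • x = x) :
    ∃ σ : GQ, ∀ l ∈ T, ∀ x : Pts W, l ^ f l • x = 0 → σ • x = h l • x := by
  classical
  have low : ∀ S ⊆ T ∩ lowPrimes L, ∃ σ ∈ fixer W f ((T ∩ lowPrimes L) \ S) T,
      ∀ l ∈ S, ∀ x : Pts W, l ^ f l • x = 0 → σ • x = h l • x := by
    intro S hS
    induction S using Finset.induction_on with
    | empty => exact ⟨1, one_mem _, fun l hl => absurd hl (Finset.notMem_empty l)⟩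
    | insert a s has ih =>
      obtain ⟨σ, hσ, hσh⟩ := ih ((Finset.subset_insert a s).trans hS)
      obtain ⟨haT, hal⟩ := Finset.mem_inter.mp (hS (Finset.mem_insert_self a s))
      obtain ⟨τ, hτ, hτx⟩ := hlev a hal f ((T ∩ lowPrimes L).erase a) T
        ((Finset.erase_subset _ _).trans Finset.inter_subset_right) (Finset.notMem_erase a _) hT
        (σ⁻¹ * h a) (mul_mem (inv_mem (hσ.1 a haT)) (hh a haT)) fun x hc hx => by
          rw [mul_smul, hfix a haT hal x hc hx, inv_smul_eq_iff, hσ.2 a (Finset.mem_sdiff.mpr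
            ⟨Finset.mem_inter.mpr ⟨haT, hal⟩, has⟩) x hx]
      refine ⟨σ * τ, mul_mem ⟨hσ.1, fun l hl => hσ.2 l (Finset.sdiff_subset_sdiff le_rfl
          (Finset.subset_insert a s) hl)⟩ ⟨hτ.1, fun l hl => hτ.2 l (Finset.mem_erase.mpr
            ⟨fun e => (Finset.mem_sdiff.mp hl).2 (e ▸ Finset.mem_insert_self a s),
              (Finset.mem_sdiff.mp hl).1⟩)⟩, fun l hl x hx => ?_⟩
      rw [mul_smul]
      rcases Finset.mem_insert.mp hl with rfl | hl
      · rw [hτx x hx, mul_smul, smul_inv_smul]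
      · rw [hτ.2 l (Finset.mem_erase.mpr ⟨fun e => has (e ▸ hl),
          hS (Finset.mem_insert_of_mem hl)⟩) x hx, hσh l hl x hx]
  suffices high : ∀ S ⊆ T \ lowPrimes L, ∃ σ ∈ fixer W f ∅ T,
      ∀ l ∈ (T ∩ lowPrimes L) ∪ S, ∀ x : Pts W, l ^ f l • x = 0 → σ • x = h l • x by
    obtain ⟨σ, -, hσ⟩ := high _ subset_rfl
    exact ⟨σ, fun l hl => hσ l (by
      by_cases hlow : l ∈ lowPrimes L
      · exact Finset.mem_union_left _ (Finset.mem_inter.mpr ⟨hl, hlow⟩)
      · exact Finset.mem_union_right _ (Finset.mem_sdiff.mpr ⟨hl, hlow⟩))⟩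
  intro S hS
  induction S using Finset.induction_on_max with
  | empty =>
    obtain ⟨σ, hσ, hσh⟩ := low _ subset_rfl
    exact ⟨σ, ⟨hσ.1, fun l hl => absurd hl (Finset.notMem_empty l)⟩,
      fun l hl => hσh l (by rwa [Finset.union_empty] at hl)⟩
  | insert a s hlt ih =>
    obtain ⟨σ, hσ, hσh⟩ := ih ((Finset.subset_insert a s).trans hS)
    obtain ⟨haT, hal⟩ := Finset.mem_sdiff.mp (hS (Finset.mem_insert_self a s))
    have hap := hT a haT
    have := Fact.mk hap
    have haL : L ≤ a := by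
      by_contra hc
      exact hal (mem_lowPrimes.mpr ⟨hap, by omega⟩)
    have hsmall : ∀ l ∈ (T ∩ lowPrimes L) ∪ s, l.Prime ∧ l + 1 < a := fun l hl => by
      have ho' := Nat.odd_iff.mp (hap.odd_of_ne_two (by omega))
      rcases Finset.mem_union.mp hl with hl | hl
      · obtain ⟨hlp, hlL⟩ := mem_lowPrimes.mp (Finset.mem_inter.mp hl).2
        refine ⟨hlp, ?_⟩
        rcases eq_or_ne l 2 with rfl | hl2
        · omega
        · have ho := Nat.odd_iff.mp (hlp.odd_of_ne_two hl2)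
          omega
      · obtain ⟨hlT, hll⟩ := Finset.mem_sdiff.mp (hS (Finset.mem_insert_of_mem hl))
        have hl2 : l ≠ 2 := fun e => hll (e ▸ mem_lowPrimes.mpr ⟨Nat.prime_two, by omega⟩)
        have ho := Nat.odd_iff.mp ((hT l hlT).odd_of_ne_two hl2)
        have := hlt l hl
        exact ⟨hT l hlT, by omega⟩
    obtain ⟨τ, hτ, hτx⟩ := exists_mem_fixer (by omega) (hreach a haL) f hsmall hT
      (σ⁻¹ * h a) (mul_mem (inv_mem (hσ.1 a haT)) (hh a haT))
    refine ⟨σ * τ, mul_mem hσ ⟨hτ.1, fun l hl => absurd hl (Finset.notMem_empty l)⟩,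
      fun l hl x hx => ?_⟩
    rw [mul_smul]
    rw [Finset.union_insert] at hl
    rcases Finset.mem_insert.mp hl with rfl | hl
    · rw [hτx x hx, mul_smul, smul_inv_smul]
    · rw [hτ.2 l hl x hx, hσh l hl x hx]

end FA.OpenImage

end
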