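import Fermat.Agent.Root.SummarySerreOpenImage
import Fermat.Agent.Root.AdelicOpenImage

/-!
# Serre's open image theorem: one level for all `N`

For a semistable elliptic curve over `ℚ` some `m` is such that Galois induces every automorphism
of the `N`-torsion which fixes the points killed by `m`, for all `N`: the image in the product of
all the `p`-adic images is open.
-/

set_option autoImplicit false
set_option linter.unusedSectionVars false
set_option linter.style.haveILetI false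

noncomputable section

open Matrix WeierstrassCurve WeierstrassCurve.Affine FA.EC FA.Frob FA.RT FA.RT.Tate FA.PadicImage
open FA.TW (rootsFix mem_rootsFix)
open scoped WeierstrassCurve.Affine

local notation "Qb" => AlgebraicClosure ℚ
local notation "GQ" => AlgebraicClosure ℚ ≃ₐ[ℚ] AlgebraicClosure ℚ

namespace FA.OpenImage

variable {W : WeierstrassCurve ℤ} [(ratCurve W).IsElliptic]

/-- **One level for all `N`**: from a level at each prime below a bound and full image above. -/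
theorem exists_uniform_level_of {L₀ : ℕ} (hL₀ : 5 ≤ L₀)
    (hlev : ∀ (p : ℕ) [Fact p.Prime], p < L₀ → ∀ B : TateBasis p W, ∃ k : ℕ, 0 < k ∧
      ∀ Y : Matrix (Fin 2) (Fin 2) ℤ_[p],
        IsUnit (1 + (p : ℤ_[p]) ^ k • Y).det → ∃ σ, B.rep σ = 1 + (p : ℤ_[p]) ^ k • Y)
    (hreach : ∀ l : ℕ, L₀ ≤ l → ∀ [Fact l.Prime], ReachAll l W) :
    ∃ m : ℕ, 0 < m ∧ ∀ N : ℕ, N ≠ 0 →
      ∀ φ : Submodule.torsionBy ℤ (Pts W) (N : ℤ) ≃+ Submodule.torsionBy ℤ (Pts W) (N : ℤ),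
        (∀ x, m • x.1 = 0 → φ x = x) → ∃ σ : GQ, ∀ x, σ • x.1 = (φ x).1 := by
  classical
  have hlow : ∀ l ∈ lowPrimes L₀, ∃ c : ℕ, IndepLevel W l L₀ c ∧ ∀ (n : ℕ)
      (φ : Submodule.torsionBy ℤ (Pts W) ((l : ℤ) ^ n) ≃+
        Submodule.torsionBy ℤ (Pts W) ((l : ℤ) ^ n)),
      (∀ x, l ^ c • x.1 = 0 → φ x = x) → ∃ σ : GQ, ∀ x, σ • x.1 = (φ x).1 := by
    intro l hl
    have hlp := (mem_lowPrimes.mp hl).1
    have := Fact.mk hlp
    obtain ⟨B⟩ := exists_tateBasis (p := l) W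
    obtain ⟨k, hk0, hk⟩ := hlev l (mem_lowPrimes.mp hl).2 B
    obtain ⟨c, hc⟩ := exists_mem_fixer_of_level L₀ B hk0 hk
    refine ⟨c + k, fun f S T hS hlS hT g hg hfix => hc f S T hS hlS hT g hg fun x hx => hfix x ?_,
      fun n φ hφ => exists_smul_eq_of_level B hk0 hk n φ fun x hx => hφ x ?_⟩
    · rw [pow_add, mul_comm, mul_nsmul', hx, nsmul_zero]
    · rw [pow_add, mul_nsmul', hx, nsmul_zero]
  choose! c hind hloc using hlow
  obtain ⟨P, hP⟩ : ∃ P, ∏ l ∈ lowPrimes L₀, l ^ c l = P := ⟨_, rfl⟩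
  have hP0 : P ≠ 0 := hP ▸ Finset.prod_ne_zero_iff.mpr fun l hl =>
    pow_ne_zero _ (mem_lowPrimes.mp hl).1.ne_zero
  obtain ⟨L, hL, hLfix⟩ := FA.EC.galoisFactorsThroughFiniteLevel (ratCurve W) (n := P) hP0
  obtain ⟨M, hM, hcyc⟩ := exists_fixing_apply_eq_pow L
  refine ⟨M * P, Nat.mul_pos hM (Nat.pos_of_ne_zero hP0), fun N hN φ hφ => ?_⟩
  have hkill : ∀ {d : ℕ} {x : Pts W}, d ∣ M * P → d • x = 0 → (M * P) • x = 0 :=
    fun {d x} hd hx => by
      obtain ⟨e, he⟩ := hd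
      rw [he, mul_comm, mul_nsmul', hx, nsmul_zero]
  have hcP : ∀ l ∈ lowPrimes L₀, l ^ c l ∣ P := fun l hl => hP ▸ Finset.dvd_prod_of_mem _ hl
  set f := fun l : ℕ => N.factorization l with hf
  have hdvd : ∀ l, l ^ f l ∣ N := fun l => Nat.ordProj_dvd N l
  have hmem : ∀ {l : ℕ} {x : Pts W}, l ^ f l • x = 0 →
      x ∈ Submodule.torsionBy ℤ (Pts W) (N : ℤ) := fun {l x} hx => by
    obtain ⟨e, he⟩ := hdvd l
    rw [Submodule.mem_torsionBy_iff, natCast_zsmul, he, mul_comm, mul_nsmul', hx, nsmul_zero]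
  -- the action wanted at each prime
  have hlocal : ∀ l ∈ N.primeFactors, ∃ g : GQ, ∀ (x : Pts W) (hx : l ^ f l • x = 0),
      g • x = (φ ⟨x, hmem hx⟩).1 := fun l hl => by
    have hlp := Nat.prime_of_mem_primeFactors hl
    have := Fact.mk hlp
    obtain ⟨ψ, hψ⟩ := exists_restrict (d := (l : ℤ) ^ f l) (by exact_mod_cast hdvd l) φ
    obtain ⟨g, hg⟩ : ∃ g : GQ, ∀ x, g • x.1 = (ψ x).1 := by
      by_cases hlow : l ∈ lowPrimes L₀
      · refine hloc l hlow (f l) ψ fun x hx => Subtype.ext ?_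
        obtain ⟨h, e⟩ := hψ x
        exact e.trans (congrArg Subtype.val
          (hφ _ (hkill ((hcP l hlow).trans (dvd_mul_left P M)) hx)))
      · refine exists_smul_eq_pow_of_reach (hreach l ?_) (f l) ψ
        by_contra hlt
        exact hlow (mem_lowPrimes.mpr ⟨hlp, by omega⟩)
    refine ⟨g, fun x hx => ?_⟩
    obtain ⟨h, e⟩ := hψ ⟨x, by rw [Submodule.mem_torsionBy_iff, ← Nat.cast_pow, natCast_zsmul]; exact hx⟩
    exact (hg _).trans e
  choose! h hh using hlocal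
  have hhfix : ∀ l ∈ N.primeFactors, ∀ (v : ℕ), l ^ v ∣ M * P → v ≤ f l →
      ∀ x : Pts W, l ^ v • x = 0 → h l • x = x := fun l hl v hv hvf x hx => by
    have hx' : l ^ f l • x = 0 := by
      obtain ⟨e, he⟩ := Nat.pow_dvd_pow l hvf
      rw [he, mul_comm, mul_nsmul', hx, nsmul_zero]
    rw [hh l hl x hx', hφ _ (hkill hv hx)]
  -- one exponent on the roots of unity
  obtain ⟨e, ha⟩ := exists_exponent_adelic f (T := N.primeFactors)
    (fun l hl => Nat.prime_of_mem_primeFactors hl) h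
  have hcop : e.Coprime N := Nat.coprime_of_dvd fun l hlp hle hlN => hlp.not_dvd_one <|
    (ha l (Nat.mem_primeFactors.mpr ⟨hlp, hlN, hN⟩)).1 ▸
      Nat.dvd_gcd hle (dvd_pow_self l (hlp.factorization_pos_of_dvd hN hlN).ne')
  have hgcd : e ≡ 1 [MOD Nat.gcd N M] := by
    refine Nat.modEq_iff_dvd.mpr (Int.natCast_dvd.mpr
      ((Nat.dvd_iff_prime_pow_dvd_dvd _ _).mpr fun l v hlp hv => ?_))
    rcases Nat.eq_zero_or_pos v with rfl | hv0
    · rw [pow_zero]; exact one_dvd _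
    have hvN := hv.trans (Nat.gcd_dvd_left N M)
    have hl := Nat.mem_primeFactors.mpr ⟨hlp, (dvd_pow_self l hv0.ne').trans hvN, hN⟩
    have hvf : v ≤ f l := (hlp.pow_dvd_iff_le_factorization hN).mp hvN
    have := Fact.mk hlp
    refine Int.natCast_dvd.mp (Nat.modEq_iff_dvd.mp (modEq_one_of_fix_torsion (g := h l)
      (hhfix l hl v ((hv.trans (Nat.gcd_dvd_right N M)).trans (dvd_mul_right M P)) hvf)
      fun μ hμ => (ha l hl).2 μ ?_))
    obtain ⟨j, hj⟩ := Nat.pow_dvd_pow l hvf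
    rw [hj, pow_mul, hμ, one_pow]
  obtain ⟨σ₀, hσL, hσ₀⟩ := hcyc N hN e hcop hgcd
  have hσ₀P : ∀ x : Pts W, P • x = 0 → σ₀ • x = x := fun x hx =>
    congrArg Subtype.val (LinearMap.congr_fun (hLfix σ₀ hσL) ⟨x, (mem_torsion_iff W).mpr hx⟩)
  have hagree : ∀ l ∈ N.primeFactors, σ₀⁻¹ * h l ∈ rootsFix l (f l) := fun l hl =>
    mem_rootsFix.mpr fun μ hμ => by
      show σ₀⁻¹ (h l μ) = μ
      rw [AlgEquiv.aut_inv, AlgEquiv.symm_apply_eq, (ha l hl).2 μ hμ,
        hσ₀ μ (by obtain ⟨j, hj⟩ := hdvd l; rw [hj, pow_mul, hμ, one_pow])]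
  obtain ⟨τ, hτ⟩ := exists_glue_of_levels hL₀ c hreach hind f (T := N.primeFactors) (fun l hl => Nat.prime_of_mem_primeFactors hl)
    (fun l => σ₀⁻¹ * h l) hagree fun l hl hlow x hxc hx => by
      have hh1 : h l • x = x := by
        rw [hh l hl x hx, hφ _ (hkill ((hcP l hlow).trans (dvd_mul_left P M)) hxc)]
      rw [mul_smul, hh1, inv_smul_eq_iff]
      obtain ⟨j, hj⟩ := hcP l hlow
      exact (hσ₀P x (by rw [hj, mul_comm, mul_nsmul', hxc, nsmul_zero])).symm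
  refine ⟨σ₀ * τ, smul_eq_of_prime_powers hN φ _ fun l hl x hx => ?_⟩
  rw [mul_smul, hτ l hl _ hx, mul_smul, smul_inv_smul, hh l hl _ hx]

/-- One level for all `N` for a semistable equation. -/
theorem exists_uniform_level (hΔ : W.Δ ≠ 0) (hW : W.IsSemistableModel)
    (hmult : ∀ p : ℕ, p.Prime → p < 11 → ∃ q : ℕ, q.Prime ∧ q ≠ p ∧ (q : ℤ) ∣ W.Δ) :
    ∃ m : ℕ, 0 < m ∧ ∀ N : ℕ, N ≠ 0 →
      ∀ φ : Submodule.torsionBy ℤ (Pts W) (N : ℤ) ≃+ Submodule.torsionBy ℤ (Pts W) (N : ℤ),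
        (∀ x, m • x.1 = 0 → φ x = x) → ∃ σ : GQ, ∀ x, σ • x.1 = (φ x).1 :=
  exists_uniform_level_of (L₀ := 11) (by norm_num)
    (fun p _ _ B => exists_level hΔ hW (hmult p Fact.out) B)
    fun l h11 _ => FA.Root.Irred.reachAll_of_irreducible hΔ hW
      (FA.Thirteen.modRepIsIrreducible_all hΔ hW Fact.out h11) (Or.inl (by omega))

end FA.OpenImage

namespace FA.Summary

/-- **Serre's open image theorem, adelic form**: for a semistable elliptic curve over `ℚ` some `m`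
is such that for every `N ≠ 0` Galois induces every automorphism of the `N`-torsion which fixes
the points killed by `m`. -/
theorem serreOpenImage_adelic (E : WeierstrassCurve ℚ) [E.IsElliptic]
    (h : ∀ p : ℕ, ∀ [Fact p.Prime], ∃ C : VariableChange ℚ_[p],
      HasGoodReduction ℤ_[p] (C • E.map (algebraMap ℚ ℚ_[p])) ∨
        HasMultiplicativeReduction ℤ_[p] (C • E.map (algebraMap ℚ ℚ_[p])))
    [inst : DecidableEq (AlgebraicClosure ℚ)] :
    ∃ m : ℕ, 0 < m ∧ ∀ (N : ℕ), N ≠ 0 →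
      ∀ φ : Submodule.torsionBy ℤ (E.toAffine⁄(AlgebraicClosure ℚ)).Point (N : ℤ) ≃+
        Submodule.torsionBy ℤ (E.toAffine⁄(AlgebraicClosure ℚ)).Point (N : ℤ),
      (∀ P, m • P.1 = 0 → φ P = P) →
        ∃ σ : AlgebraicClosure ℚ ≃ₐ[ℚ] AlgebraicClosure ℚ, ∀ P,
          Affine.Point.map σ.toAlgHom P.1 = (φ P).1 := by
  obtain rfl : inst = instDecEqAlgebraicClosureRat := Subsingleton.elim _ _
  obtain ⟨W, hW, hs⟩ := FA.Root.exists_semistableModel E
    fun q _ => FA.Root.isSemistableAt_of_reduction E (h q).choose_spec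
  haveI := FA.Frob.ratCurve_isElliptic_of_Δ (FA.Frob.Δ_ne_zero_of_model hW)
  obtain ⟨m, hm, key⟩ := FA.OpenImage.exists_uniform_level (FA.Frob.Δ_ne_zero_of_model hW) hs
    fun p hp => FA.OpenImage.exists_bad_ne h hW hs hp
  exact ⟨m, hm, fun N hN => FA.Root.exists_map_eq_of_model_fix hW _ _ (key N hN)⟩

end FA.Summary

end
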