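import Fermat.Agent.Root.SummaryFrobenius
import Fermat.Agent.Local.Minkowski

/-!
# Bauer's theorem

A finite Galois subfield of `ℚ̄` is determined by the set of prime numbers splitting completely
in it, up to a finite set.
-/

set_option autoImplicit false

noncomputable section

open NumberField FA.Density
open scoped Pointwise symmDiff

namespace FA.FrobeniusDensity

variable {E : Type*} [Field E] [NumberField E] [IsGalois ℚ E]

/-- An unramified prime splits completely iff its Frobenius is trivial. -/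
theorem split_iff_eq_one {q : ℕ} {P : Ideal (𝓞 E)} {g : E ≃ₐ[ℚ] E} (h : IsFrobPair q P g) :
    ((Ideal.span {(q : ℤ)}).primesOver (𝓞 E)).ncard = Module.finrank ℚ E ↔ g = 1 := by
  refine ⟨fun hc => ?_, fun hg => ?_⟩
  · have := h.isMaximal
    rw [primesOver_eq_orbit h, ← MulAction.index_stabilizer, ← IsGalois.card_aut_eq_finrank] at hc
    have hbot : MulAction.stabilizer (E ≃ₐ[ℚ] E) P = ⊥ := Subgroup.card_eq_one.mp <| by
      have hmul := Subgroup.card_mul_index (MulAction.stabilizer (E ≃ₐ[ℚ] E) P)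
      rw [hc] at hmul
      exact Nat.eq_of_mul_eq_mul_right Nat.card_pos (hmul.trans (one_mul _).symm)
    exact (Subgroup.eq_bot_iff_forall _).mp hbot g
      (IsArithFrobAt.mem_stabilizer (IsFrobPair.isArithFrobAt h))
  · subst hg
    exact ncard_primesOver_of_isFrobPair_one h

variable {K : Type*} [Field K] [NumberField K] [IsGalois ℚ K] [Algebra K E] [IsScalarTower ℚ K E]

omit [IsGalois ℚ E] in
/-- Frobenius elements restrict to Frobenius elements. -/
theorem IsFrobPair.restrict {q : ℕ} {P : Ideal (𝓞 E)} {g : E ≃ₐ[ℚ] E} (h : IsFrobPair q P g)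
    (hK : ∀ P' : Ideal (𝓞 K), P'.IsMaximal → (q : 𝓞 K) ∈ P' →
      ∀ x : K ≃ₐ[ℚ] K, (∀ y : 𝓞 K, x • y - y ∈ P') → x = 1) :
    IsFrobPair q (P.under (𝓞 K)) (g.restrictNormal K) := by
  have := h.isMaximal
  have hm : (P.under (𝓞 K)).IsMaximal := Ideal.IsMaximal.under (𝓞 K) P
  have hq : (q : 𝓞 K) ∈ P.under (𝓞 K) := by
    rw [Ideal.mem_comap, map_natCast]
    exact h.mem
  refine ⟨h.prime, hm, hq, hK _ hm hq, fun y => ?_⟩
  have e : algebraMap (𝓞 K) (𝓞 E) (g.restrictNormal K • y) = g • algebraMap (𝓞 K) (𝓞 E) y :=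
    RingOfIntegers.ext (AlgEquiv.restrictNormal_commutes g K (y : K))
  rw [Ideal.mem_comap, map_sub, map_pow, e]
  exact h.frob _

variable (E K) in
/-- Almost every prime splitting completely in a field splits completely in a subfield. -/
theorem finite_split_diff :
    {q : ℕ | q.Prime ∧ ((Ideal.span {(q : ℤ)}).primesOver (𝓞 E)).ncard = Module.finrank ℚ E ∧
      ((Ideal.span {(q : ℤ)}).primesOver (𝓞 K)).ncard ≠ Module.finrank ℚ K}.Finite := by
  obtain ⟨𝔉⟩ := nonempty_frobSystem (F := E)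
  obtain ⟨m, hm0, hm⟩ := exists_unramified K
  refine (𝔉.excluded ∪ m.divisors).finite_toSet.subset fun q ⟨hq, hE, hK⟩ => ?_
  rw [Finset.mem_coe, Finset.mem_union]
  by_contra hcon
  rw [not_or] at hcon
  obtain ⟨P, hP⟩ := 𝔉.spec q hq hcon.1
  have hr := IsFrobPair.restrict (K := K) hP fun P' hP' hqP' =>
    hm q P' hq hP' hqP' fun h => hcon.2 (Nat.mem_divisors.mpr ⟨h, hm0⟩)
  refine hK ((split_iff_eq_one hr).mpr ?_)
  rw [(split_iff_eq_one hP).mp hE]
  exact map_one (AlgEquiv.restrictNormalHom K)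

end FA.FrobeniusDensity

namespace FA.Summary

open FA.FrobeniusDensity

local notation "Qb" => AlgebraicClosure ℚ

/-- **Bauer's theorem**: for finite Galois subfields of `ℚ̄`, `F₁ ≤ F₂` iff all but finitely many
primes splitting completely in `F₂` split completely in `F₁`. -/
theorem bauer (F₁ F₂ : IntermediateField ℚ Qb) [FiniteDimensional ℚ F₁] [IsGalois ℚ F₁]
    [FiniteDimensional ℚ F₂] [IsGalois ℚ F₂] :
    F₁ ≤ F₂ ↔
      ({q : ℕ | q.Prime ∧
          ((Ideal.span {(q : ℤ)}).primesOver (𝓞 F₂)).ncard = Module.finrank ℚ F₂} \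
        {q : ℕ | q.Prime ∧
          ((Ideal.span {(q : ℤ)}).primesOver (𝓞 F₁)).ncard = Module.finrank ℚ F₁}).Finite := by
  have : NumberField F₁ := { }
  have : NumberField F₂ := { }
  refine ⟨fun h => ?_, fun hfin => ?_⟩
  · let _ : Algebra F₁ F₂ := (IntermediateField.inclusion h).toRingHom.toAlgebra
    have : IsScalarTower ℚ F₁ F₂ := IsScalarTower.of_algebraMap_eq fun _ => rfl
    exact (finite_split_diff F₂ F₁).subset fun q ⟨⟨hq, h2⟩, h1⟩ =>
      ⟨hq, h2, fun e => h1 ⟨hq, e⟩⟩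
  by_contra hle
  obtain ⟨x, hx1, hx2⟩ := Set.not_subset.mp hle
  rw [← InfiniteGalois.fixedField_fixingSubgroup F₂] at hx2
  obtain ⟨s, hs2, hsx⟩ : ∃ s ∈ F₂.fixingSubgroup, s x ≠ x := by
    by_contra hcon
    push Not at hcon
    exact hx2 (IntermediateField.mem_fixedField_iff _ _ |>.mpr hcon)
  let F : IntermediateField ℚ Qb := F₁ ⊔ F₂
  have : Normal ℚ F := @IntermediateField.normal_sup ℚ Qb _ _ _ F₁ F₂
    (‹IsGalois ℚ F₁›).to_normal (‹IsGalois ℚ F₂›).to_normal
  have : IsGalois ℚ F := ⟨⟩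
  have : NumberField F := { }
  let _ : Algebra F₁ F := (IntermediateField.inclusion (le_sup_left : F₁ ≤ F)).toRingHom.toAlgebra
  let _ : Algebra F₂ F := (IntermediateField.inclusion (le_sup_right : F₂ ≤ F)).toRingHom.toAlgebra
  have : IsScalarTower ℚ F₁ F := IsScalarTower.of_algebraMap_eq fun _ => rfl
  have : IsScalarTower ℚ F₂ F := IsScalarTower.of_algebraMap_eq fun _ => rfl
  set σ := s.restrictNormal F with hσ
  have hval : ∀ y : F, ((σ y : F) : Qb) = s y := fun y => AlgEquiv.restrictNormal_commutes s F y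
  obtain ⟨m₁, hm₁0, hm₁⟩ := exists_unramified F₁
  obtain ⟨m₂, hm₂0, hm₂⟩ := exists_unramified F₂
  obtain ⟨q, hqS, P, τ, h, hτ⟩ :=
    exists_isFrobPair σ (hfin.toFinset ∪ (m₁.divisors ∪ m₂.divisors))
  simp only [Finset.mem_union, not_or] at hqS
  obtain ⟨hqS, hq1, hq2⟩ := hqS
  have h1 := IsFrobPair.restrict (K := F₁) h fun P' hP' hqP' =>
    hm₁ q P' h.prime hP' hqP' fun hd => hq1 (Nat.mem_divisors.mpr ⟨hd, hm₁0⟩)
  have h2 := IsFrobPair.restrict (K := F₂) h fun P' hP' hqP' =>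
    hm₂ q P' h.prime hP' hqP' fun hd => hq2 (Nat.mem_divisors.mpr ⟨hd, hm₂0⟩)
  refine hqS (hfin.mem_toFinset.mpr ⟨⟨h.prime, (split_iff_eq_one h2).mpr ?_⟩, fun hsp => ?_⟩)
  · have hker : τ ∈ (AlgEquiv.restrictNormalHom (K₁ := F) F₂).ker := by
      have : Subgroup.zpowers σ ≤ (AlgEquiv.restrictNormalHom (K₁ := F) F₂).ker :=
        Subgroup.zpowers_le.mpr <| AlgEquiv.ext fun z => Subtype.ext <| by
          have e := congrArg Subtype.val (AlgEquiv.restrictNormal_commutes σ F₂ z)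
          exact e.trans
            ((hval _).trans ((IntermediateField.mem_fixingSubgroup_iff _ _).mp hs2 _ z.2))
      exact this (hτ ▸ Subgroup.mem_zpowers τ)
    exact hker
  · have hker : σ ∈ (AlgEquiv.restrictNormalHom (K₁ := F) F₁).ker := by
      have : Subgroup.zpowers τ ≤ (AlgEquiv.restrictNormalHom (K₁ := F) F₁).ker :=
        Subgroup.zpowers_le.mpr ((split_iff_eq_one h1).mp hsp.2)
      exact this (hτ.symm ▸ Subgroup.mem_zpowers σ)
    have e := congrArg Subtype.val (AlgEquiv.restrictNormal_commutes σ F₁ ⟨x, hx1⟩)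
    rw [show σ.restrictNormal F₁ = 1 from hker] at e
    exact hsx ((hval _).symm.trans e.symm)

/-- **Bauer**: finite Galois subfields of `ℚ̄` with the same primes splitting completely, up to
finitely many, are equal. -/
theorem eq_iff_split_completely (F₁ F₂ : IntermediateField ℚ Qb) [FiniteDimensional ℚ F₁]
    [IsGalois ℚ F₁] [FiniteDimensional ℚ F₂] [IsGalois ℚ F₂] :
    F₁ = F₂ ↔
      ({q : ℕ | q.Prime ∧
          ((Ideal.span {(q : ℤ)}).primesOver (𝓞 F₁)).ncard = Module.finrank ℚ F₁} ∆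
        {q : ℕ | q.Prime ∧
          ((Ideal.span {(q : ℤ)}).primesOver (𝓞 F₂)).ncard = Module.finrank ℚ F₂}).Finite := by
  rw [le_antisymm_iff, bauer F₁ F₂, bauer F₂ F₁, Set.symmDiff_def, Set.finite_union]
  exact and_comm

end FA.Summary

end
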