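import Fermat.Agent.Root.SummarySerreOpenImageAdelic
import Fermat.Agent.Root.SummaryTwists
import Fermat.Agent.Root.SummaryTwistCriterionAll
import Mathlib.NumberTheory.LegendreSymbol.QuadraticChar.GaussSum
import Mathlib.Data.Nat.Factorization.LCM

/-!
# Serre's open image theorem for quadratic twists of semistable curves

A square root of a rational number lies in a cyclotomic field by Gauss sums. An automorphism of
the `N`-torsion trivial at a level extends to a larger torsion group, so it is given by an element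
of Galois fixing the square root, which acts the same way on the twist.
-/

set_option autoImplicit false
set_option linter.unusedSectionVars false
set_option linter.style.haveILetI false

noncomputable section

open Matrix WeierstrassCurve WeierstrassCurve.Affine FA.EC FA.Frob FA.RT FA.RT.Tate
open scoped WeierstrassCurve.Affine

local notation "Qb" => AlgebraicClosure ℚ
local notation "GQ" => AlgebraicClosure ℚ ≃ₐ[ℚ] AlgebraicClosure ℚ

namespace FA.OpenImage

theorem root_mem_rootsField {μ : Qb} {n : ℕ} (hn : 0 < n) (h : μ ^ n = 1) : μ ∈ rootsField :=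
  IntermediateField.subset_adjoin ℚ _ ⟨n, hn, h⟩

theorem exists_sqrt_neg_one : ∃ i ∈ rootsField, i ^ 2 = (-1 : Qb) := by
  obtain ⟨i, hi⟩ := IsAlgClosed.exists_pow_nat_eq (-1 : Qb) (n := 2) two_pos
  exact ⟨i, root_mem_rootsField (n := 4) (by norm_num)
    (by rw [show 4 = 2 * 2 from rfl, pow_mul, hi]; norm_num), hi⟩

/-- Gauss sums: natural numbers have their square roots in cyclotomic fields. -/
theorem exists_sqrt_natCast (n : ℕ) : ∃ t ∈ rootsField, t ^ 2 = (n : Qb) := by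
  induction n using Nat.recOnMul with
  | zero => exact ⟨0, zero_mem _, by simp⟩
  | one => exact ⟨1, one_mem _, by simp⟩
  | prime p hp =>
    have := Fact.mk hp
    obtain ⟨i, hi, hi2⟩ := exists_sqrt_neg_one
    rcases eq_or_ne p 2 with rfl | hp2
    · -- `(1 + i) ^ 2 = 2 i`
      obtain ⟨j, hj⟩ := IsAlgClosed.exists_pow_nat_eq i (n := 2) two_pos
      have hj8 : j ∈ rootsField := root_mem_rootsField (n := 8) (by norm_num)
        (by rw [show 8 = 2 * (2 * 2) from rfl, pow_mul, hj, pow_mul, hi2]; norm_num)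
      refine ⟨(1 + i) / j, div_mem (add_mem (one_mem _) hi) hj8, ?_⟩
      have hi0 : i ≠ 0 := fun e => by rw [e] at hi2; norm_num at hi2
      rw [div_pow, hj, div_eq_iff hi0]
      push_cast
      linear_combination hi2
    obtain ⟨ζ, hζ⟩ : ∃ ζ : Qb, IsPrimitiveRoot ζ p := by
      have : NeZero ((p : ℕ) : Qb) := ⟨Nat.cast_ne_zero.mpr hp.ne_zero⟩
      exact HasEnoughRootsOfUnity.exists_primitiveRoot Qb p
    have hne : quadraticChar (ZMod p) ≠ 1 :=
      quadraticChar_ne_one (by rwa [ZMod.ringChar_zmod_n])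
    obtain ⟨χ, hχ⟩ : ∃ χ, (quadraticChar (ZMod p)).ringHomComp (Int.castRingHom Qb) = χ :=
      ⟨_, rfl⟩
    obtain ⟨ψ, hψ⟩ : ∃ ψ, AddChar.zmodChar p ((IsPrimitiveRoot.iff_def ζ p).mp hζ).left = ψ :=
      ⟨_, rfl⟩
    have hg := gaussSum_sq (χ := χ) (ψ := ψ)
      (hχ ▸ (MulChar.ringHomComp_ne_one_iff (RingHom.injective_int _)).mpr hne)
      (hχ ▸ (quadraticChar_isQuadratic (ZMod p)).comp _)
      (hψ ▸ AddChar.zmodChar_primitive_of_primitive_root p hζ)
    rw [ZMod.card] at hg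
    have hmem : gaussSum χ ψ ∈ rootsField := sum_mem fun a _ => by
      refine mul_mem ?_ (root_mem_rootsField hp.pos ?_)
      · rw [← hχ]
        exact intCast_mem _ _
      · rw [← hψ]
        show (ζ ^ a.val) ^ p = 1
        rw [← pow_mul, mul_comm, pow_mul, hζ.pow_eq_one, one_pow]
    rcases (quadraticChar_isQuadratic (ZMod p)) (-1) with h | h | h
    · exact absurd h ((isUnit_one.neg.map (quadraticChar (ZMod p))).ne_zero)
    · exact ⟨_, hmem, by rw [hg, ← hχ, MulChar.ringHomComp_apply, h]; simp⟩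
    · exact ⟨i * gaussSum χ ψ, mul_mem hi hmem, by
        rw [mul_pow, hi2, hg, ← hχ, MulChar.ringHomComp_apply, h]; simp⟩
  | mul a b ha hb =>
    obtain ⟨s, hs, hs2⟩ := ha
    obtain ⟨t, ht, ht2⟩ := hb
    exact ⟨s * t, mul_mem hs ht, by rw [mul_pow, hs2, ht2, Nat.cast_mul]⟩

/-- A square root of a rational number lies in a cyclotomic field. -/
theorem mem_rootsField_of_sq_eq {d : ℚ} {s : Qb} (hs : s ^ 2 = algebraMap ℚ Qb d) :
    s ∈ rootsField := by
  obtain ⟨t, ht, ht2⟩ : ∃ t ∈ rootsField, t ^ 2 = ((d.num * d.den : ℤ) : Qb) := by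
    obtain ⟨n, hn | hn⟩ := Int.eq_nat_or_neg (d.num * d.den)
    · obtain ⟨t, ht, ht2⟩ := exists_sqrt_natCast n
      exact ⟨t, ht, by rw [ht2, hn, Int.cast_natCast]⟩
    · obtain ⟨t, ht, ht2⟩ := exists_sqrt_natCast n
      obtain ⟨i, hi, hi2⟩ := exists_sqrt_neg_one
      exact ⟨i * t, mul_mem hi ht, by rw [mul_pow, hi2, ht2, hn]; simp⟩
  have hden : (d.den : Qb) ≠ 0 := Nat.cast_ne_zero.mpr d.den_nz
  have h2 : (s * d.den) ^ 2 = t ^ 2 := by
    rw [ht2, mul_pow, hs, eq_ratCast, Rat.cast_def]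
    push_cast
    field_simp
  have hmem : s * d.den ∈ rootsField := by
    rcases sq_eq_sq_iff_eq_or_eq_neg.mp h2 with h | h <;> rw [h]
    exacts [ht, neg_mem ht]
  have := div_mem hmem (natCast_mem rootsField d.den)
  rwa [mul_div_cancel_right₀ _ hden] at this

/-- What fixes the `D`-torsion fixes the `D`-th roots of unity. -/
theorem smul_root_of_fix_torsion {W : WeierstrassCurve ℤ} [(ratCurve W).IsElliptic] {D : ℕ}
    (hD : D ≠ 0) {σ : GQ} (h : ∀ x : Pts W, D • x = 0 → σ • x = x) {μ : Qb} (hμ : μ ^ D = 1) :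
    σ μ = μ := by
  suffices key : ∀ d, d ∣ D → ∀ μ : Qb, μ ^ d = 1 → σ μ = μ from key D dvd_rfl μ hμ
  clear hμ μ
  intro d
  induction d using Nat.recOnPosPrimePosCoprime with
  | zero => intro hd; exact absurd (zero_dvd_iff.mp hd) hD
  | one => intro _ μ hμ; rw [pow_one] at hμ; rw [hμ, map_one]
  | prime_pow l k hl hk =>
    intro hd μ hμ
    have := Fact.mk hl
    obtain ⟨a, -, hall⟩ := FA.PadicImage.exists_exponent_roots σ hl k
    have h1 : a ≡ 1 [MOD l ^ k] := modEq_one_of_fix_torsion (W := W) (fun x hx => h x (by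
      obtain ⟨c, hc⟩ := hd
      rw [hc, mul_comm, mul_nsmul', hx, nsmul_zero])) hall
    rw [hall μ hμ, pow_eq_pow_mod a hμ, h1, ← pow_eq_pow_mod 1 hμ, pow_one]
  | coprime a b ha1 hb1 hab iha ihb =>
    intro hd μ hμ
    obtain ⟨u, v, huv⟩ := Int.isCoprime_iff_nat_coprime.mpr (by simpa using hab :
      (a : ℤ).natAbs.Coprime (b : ℤ).natAbs)
    have hμ0 : μ ≠ 0 := fun e => by
      rw [e, zero_pow (Nat.mul_ne_zero (by omega) (by omega))] at hμ; exact zero_ne_one hμ
    have e1 : σ (μ ^ a) = μ ^ a := ihb ((dvd_mul_left b a).trans hd) _ (by rw [← pow_mul, hμ])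
    have e2 : σ (μ ^ b) = μ ^ b :=
      iha ((dvd_mul_right a b).trans hd) _ (by rw [← pow_mul, mul_comm, hμ])
    have e : μ = (μ ^ a) ^ u * (μ ^ b) ^ v := by
      rw [← zpow_natCast, ← zpow_natCast, ← _root_.zpow_mul, ← _root_.zpow_mul, ← zpow_add₀ hμ0, mul_comm _ u,
        mul_comm _ v, huv, zpow_one]
    rw [e, map_mul, map_zpow₀, map_zpow₀, e1, e2]

/-- **Extension**: an automorphism of the `N`-torsion fixing what `M` kills extends to one of the
`lcm N M`-torsion with the same property. -/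
theorem exists_extend {X : Type*} [AddCommGroup X] {N M : ℕ} (hN : N ≠ 0) (hM : M ≠ 0)
    (φ : Submodule.torsionBy ℤ X (N : ℤ) ≃+ Submodule.torsionBy ℤ X (N : ℤ))
    (hφ : ∀ x, M • x.1 = 0 → φ x = x) :
    ∃ ψ : Submodule.torsionBy ℤ X (N.lcm M : ℤ) ≃+ Submodule.torsionBy ℤ X (N.lcm M : ℤ),
      (∀ x, M • x.1 = 0 → ψ x = x) ∧ ∀ x y, y.1 = x.1 → (ψ y).1 = (φ x).1 := by
  obtain ⟨a, ha⟩ : ∃ a, Nat.factorizationLCMLeft N M = a := ⟨_, rfl⟩
  obtain ⟨b, hb⟩ : ∃ b, Nat.factorizationLCMRight N M = b := ⟨_, rfl⟩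
  have haN : a ∣ N := ha ▸ Nat.factorizationLCMLeft_dvd_left N M
  have hbM : b ∣ M := hb ▸ Nat.factorizationLCMRight_dvd_right N M
  have hab : a * b = N.lcm M := ha ▸ hb ▸
    Nat.factorizationLCMLeft_mul_factorizationLCMRight hN hM
  obtain ⟨v, u, huv⟩ := Int.isCoprime_iff_nat_coprime.mpr (by
    simpa [← ha, ← hb] using Nat.coprime_factorizationLCMLeft_factorizationLCMRight N M :
    (a : ℤ).natAbs.Coprime (b : ℤ).natAbs)
  revert φ hφ
  set T := Submodule.torsionBy ℤ X (N.lcm M : ℤ) with hT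
  set T₀ := Submodule.torsionBy ℤ X (N : ℤ) with hT₀
  intro φ hφ
  have hle : T₀ ≤ T := Submodule.torsionBy_le_torsionBy_of_dvd _ _
    (Int.natCast_dvd_natCast.mpr (Nat.dvd_lcm_left N M))
  -- the projection to the part at `a`
  have hpa : ∀ x : T, (a : ℤ) • ((u * b) • x.1) = 0 := fun x => by
    rw [smul_smul, show (a : ℤ) * (u * b) = u * ((a * b : ℕ) : ℤ) by push_cast; ring, mul_smul,
      hab, (Submodule.mem_torsionBy_iff _ _).mp x.2, zsmul_zero]
  have hpN : ∀ x : T, (u * b) • x.1 ∈ T₀ := fun x =>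
    Submodule.torsionBy_le_torsionBy_of_dvd _ _ (Int.natCast_dvd_natCast.mpr haN)
      ((Submodule.mem_torsionBy_iff _ _).mpr (hpa x))
  have hfix : ∀ (y : T₀), (a : ℤ) • y.1 = 0 → (u * b) • y.1 = y.1 := fun y hy => by
    conv_rhs => rw [← one_zsmul y.1, ← huv, add_zsmul, mul_smul v, hy, zsmul_zero, zero_add]
  have hva : ∀ x : T, (u * b) • ((v * a) • x.1) = 0 := fun x => by
    rw [smul_smul, show u * b * (v * a) = u * v * ((a * b : ℕ) : ℤ) by push_cast; ring, mul_smul,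
      hab, (Submodule.mem_torsionBy_iff _ _).mp x.2, zsmul_zero]
  let F : (T₀ ≃+ T₀) → T → T := fun χ x =>
    ⟨(χ ⟨_, hpN x⟩).1 + (v * a) • x.1, add_mem (hle (χ ⟨_, hpN x⟩).2) (T.smul_mem _ x.2)⟩
  have hFa : ∀ (χ : T₀ ≃+ T₀) (x : T), (a : ℤ) • (χ ⟨_, hpN x⟩).1 = 0 := fun χ x => by
    rw [← Submodule.coe_smul_of_tower, ← map_zsmul]
    have e : (a : ℤ) • (⟨_, hpN x⟩ : T₀) = 0 := Subtype.ext (hpa x)
    rw [e, map_zero, Submodule.coe_zero]
  have hinv : ∀ χ : T₀ ≃+ T₀, ∀ x, F χ.symm (F χ x) = x := fun χ x => by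
    have e : (⟨_, hpN (F χ x)⟩ : T₀) = χ ⟨_, hpN x⟩ := Subtype.ext (by
      show (u * b) • ((χ ⟨_, hpN x⟩).1 + (v * a) • x.1) = _
      rw [zsmul_add, hfix _ (hFa χ x), hva, add_zero])
    refine Subtype.ext ?_
    show (χ.symm ⟨_, hpN (F χ x)⟩).1 + (v * a) • ((χ ⟨_, hpN x⟩).1 + (v * a) • x.1) = x.1
    rw [e, χ.symm_apply_apply, zsmul_add, mul_smul v, hFa χ x, zsmul_zero, zero_add, smul_smul,
      show v * a * (v * a) = v * a - u * b * (v * a) by linear_combination (v * a) * huv,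
      sub_zsmul, mul_smul (u * b), hva]
    simp only [neg_zero, add_zero]
    rw [← add_zsmul, add_comm, huv, one_zsmul]
  let ψ : T ≃+ T :=
    { toFun := F φ
      invFun := F φ.symm
      left_inv := hinv φ
      right_inv := fun x => by simpa using hinv φ.symm x
      map_add' := fun x y => Subtype.ext (by
        show (φ ⟨_, hpN (x + y)⟩).1 + (v * a) • (x.1 + y.1) = _ + _
        have e : (⟨_, hpN (x + y)⟩ : T₀) = ⟨_, hpN x⟩ + ⟨_, hpN y⟩ :=
          Subtype.ext (zsmul_add _ _ _)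
        rw [e, map_add, Submodule.coe_add, zsmul_add]
        exact add_add_add_comm _ _ _ _) }
  have hsum : ∀ z : X, (u * b) • z + (v * a) • z = z := fun z => by
    rw [← add_zsmul, add_comm, huv, one_zsmul]
  refine ⟨ψ, fun x hx => Subtype.ext ?_, fun x y hxy => ?_⟩
  · show (φ ⟨_, hpN x⟩).1 + (v * a) • x.1 = x.1
    rw [hφ ⟨_, hpN x⟩ (by
      show M • ((u * b) • x.1) = 0
      rw [smul_comm, hx, zsmul_zero])]
    exact hsum x.1
  · show (φ ⟨_, hpN y⟩).1 + (v * a) • y.1 = (φ x).1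
    have hz : φ ((v * a) • x) = (v * a) • x := hφ _ (by
      obtain ⟨c, hc⟩ := hbM
      rw [Submodule.coe_smul_of_tower, ← hxy, ← natCast_zsmul, smul_smul, hc,
        show ((b * c : ℕ) : ℤ) * (v * a) = c * v * ((a * b : ℕ) : ℤ) by push_cast; ring, mul_smul,
        hab, (Submodule.mem_torsionBy_iff _ _).mp y.2, zsmul_zero])
    have e : (⟨_, hpN y⟩ : T₀) = (u * b) • x := Subtype.ext (by
      show (u * b) • y.1 = (u * b) • x.1
      rw [hxy])
    rw [e, hxy, show (v * a) • x.1 = ((v * a) • x : T₀).1 from rfl, ← hz,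
      ← Submodule.coe_add, ← map_add]
    congr 2
    exact Subtype.ext (hsum x.1)

/-- **From a twist to the curve**: a level for all `N` of a twist with an integral model gives one
for the curve, as an element of Galois can be chosen to fix the square root. -/
theorem exists_level_of_twist (E : WeierstrassCurve ℚ) [E.IsElliptic] {d : ℚ} (hd : d ≠ 0)
    {W : WeierstrassCurve ℤ} [(ratCurve W).IsElliptic]
    (hW : W.IsIntegralModelOf (FA.Twists.quadTwist E d)) {m : ℕ} (hm : 0 < m)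
    (key : ∀ (N : ℕ), N ≠ 0 →
      ∀ φ : Submodule.torsionBy ℤ ((FA.Twists.quadTwist E d).toAffine⁄Qb).Point (N : ℤ) ≃+
        Submodule.torsionBy ℤ ((FA.Twists.quadTwist E d).toAffine⁄Qb).Point (N : ℤ),
      (∀ P, m • P.1 = 0 → φ P = P) →
        ∃ σ : GQ, ∀ P, Affine.Point.map σ.toAlgHom P.1 = (φ P).1) :
    ∃ m : ℕ, 0 < m ∧ ∀ (N : ℕ), N ≠ 0 →
      ∀ φ : Submodule.torsionBy ℤ (E.toAffine⁄Qb).Point (N : ℤ) ≃+
        Submodule.torsionBy ℤ (E.toAffine⁄Qb).Point (N : ℤ),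
      (∀ P, m • P.1 = 0 → φ P = P) →
        ∃ σ : GQ, ∀ P, Affine.Point.map σ.toAlgHom P.1 = (φ P).1 := by
  haveI := FA.Root.quadTwist_isElliptic E hd
  obtain ⟨eW, heW⟩ := FA.Root.exists_equiv_of_model hW
  obtain ⟨s, e, hs, he⟩ := FA.Root.exists_twist_equiv_sqrt E hd
  obtain ⟨D, hD, hDs⟩ :=
    exists_level_of_mem_rootsField (mem_rootsField_of_sq_eq hs)
  refine ⟨m * D, Nat.mul_pos hm hD, fun N hN φ hφ => ?_⟩
  let eT : Submodule.torsionBy ℤ ((FA.Twists.quadTwist E d).toAffine⁄Qb).Point (N : ℤ) ≃+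
      Submodule.torsionBy ℤ (E.toAffine⁄Qb).Point (N : ℤ) :=
    { toEquiv := e.toEquiv.subtypeEquiv fun Q => by
        simp only [Submodule.mem_torsionBy_iff]
        exact ⟨fun hQ => (map_zsmul e _ Q).symm.trans (by rw [hQ, map_zero]),
          fun hQ => e.injective (by rw [map_zsmul, map_zero]; exact hQ)⟩
      map_add' := fun a b => Subtype.ext (map_add e a.1 b.1) }
  obtain ⟨ψ, hψM, hψ⟩ := exists_extend hN (Nat.mul_pos hm hD).ne'
    ((eT.trans φ).trans eT.symm) fun x hx => by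
      rw [AddEquiv.trans_apply, AddEquiv.trans_apply, hφ (eT x) (by
        show (m * D) • e x.1 = 0
        rw [← map_nsmul, hx, map_zero]), AddEquiv.symm_apply_apply]
  obtain ⟨σ, hσ⟩ := key (N.lcm (m * D)) (Nat.lcm_ne_zero hN (Nat.mul_pos hm hD).ne') ψ
    fun x hx => hψM x (by rw [mul_nsmul, hx, nsmul_zero])
  -- `σ` fixes the square root
  have hmem : ∀ {Q : ((FA.Twists.quadTwist E d).toAffine⁄Qb).Point} {j : ℕ},
      j ∣ N.lcm (m * D) → j • Q = 0 →
        Q ∈ Submodule.torsionBy ℤ ((FA.Twists.quadTwist E d).toAffine⁄Qb).Point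
          (N.lcm (m * D) : ℤ) := fun {Q j} hj hQ => by
    obtain ⟨c, hc⟩ := hj
    rw [Submodule.mem_torsionBy_iff, natCast_zsmul, hc, mul_comm, mul_nsmul', hQ, nsmul_zero]
  have hsfix : σ s = s := hDs σ fun μ hμ =>
    smul_root_of_fix_torsion (W := W) hD.ne' (fun x hx => eW.injective (by
      have hx' : D • eW x = 0 := by rw [← map_nsmul, hx, map_zero]
      have hd' := (dvd_mul_left D m).trans (Nat.dvd_lcm_right N (m * D))
      rw [heW, hσ ⟨_, hmem hd' hx'⟩, hψM _ (by rw [mul_nsmul', hx', nsmul_zero])])) hμ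
  refine ⟨σ, fun P => ?_⟩
  obtain ⟨Q, rfl⟩ := eT.surjective P
  have hQ : N • Q.1 = 0 := by rw [← natCast_zsmul]; exact (Submodule.mem_torsionBy_iff _ _).mp Q.2
  show Affine.Point.map σ.toAlgHom (e Q.1) = _
  rw [(he σ _).1 hsfix]
  show e (Affine.Point.map (W' := (FA.Twists.quadTwist E d).toAffine) σ.toAlgHom Q.1) = _
  rw [hσ ⟨Q.1, hmem (Nat.dvd_lcm_left N (m * D)) hQ⟩, hψ Q _ rfl]
  show (eT (eT.symm (φ (eT Q)))).1 = _
  rw [AddEquiv.apply_symm_apply]

end FA.OpenImage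

namespace FA.Summary

/-- **Serre's open image theorem for twists**: for an elliptic curve over `ℚ` with a semistable
quadratic twist some `m` is such that for every `N ≠ 0` Galois induces every automorphism of the
`N`-torsion fixing the points killed by `m`. -/
theorem serreOpenImage_adelic_twist (E : WeierstrassCurve ℚ) [E.IsElliptic] {d : ℚ} (hd : d ≠ 0)
    (h : ∀ p : ℕ, ∀ [Fact p.Prime], ∃ C : VariableChange ℚ_[p],
      HasGoodReduction ℤ_[p] (C • (⟨0, 0, 0, -27 * (d ^ 2 * E.c₄), -54 * (d ^ 3 * E.c₆)⟩ :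
          WeierstrassCurve ℚ).map (algebraMap ℚ ℚ_[p])) ∨
        HasMultiplicativeReduction ℤ_[p] (C • (⟨0, 0, 0, -27 * (d ^ 2 * E.c₄),
          -54 * (d ^ 3 * E.c₆)⟩ : WeierstrassCurve ℚ).map (algebraMap ℚ ℚ_[p])))
    [inst : DecidableEq (AlgebraicClosure ℚ)] :
    ∃ m : ℕ, 0 < m ∧ ∀ (N : ℕ), N ≠ 0 →
      ∀ φ : Submodule.torsionBy ℤ (E.toAffine⁄(AlgebraicClosure ℚ)).Point (N : ℤ) ≃+
        Submodule.torsionBy ℤ (E.toAffine⁄(AlgebraicClosure ℚ)).Point (N : ℤ),
      (∀ P, m • P.1 = 0 → φ P = P) →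
        ∃ σ : AlgebraicClosure ℚ ≃ₐ[ℚ] AlgebraicClosure ℚ, ∀ P,
          Affine.Point.map σ.toAlgHom P.1 = (φ P).1 := by
  obtain rfl : inst = instDecEqAlgebraicClosureRat := Subsingleton.elim _ _
  haveI := FA.Root.quadTwist_isElliptic E hd
  obtain ⟨W, hW, -⟩ := FA.Root.exists_semistableModel (FA.Twists.quadTwist E d)
    fun q _ => FA.Root.isSemistableAt_of_reduction _ (h q).choose_spec
  haveI := FA.Frob.ratCurve_isElliptic_of_Δ (FA.Frob.Δ_ne_zero_of_model hW)
  obtain ⟨m, hm, key⟩ := serreOpenImage_adelic (FA.Twists.quadTwist E d) h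
  exact FA.OpenImage.exists_level_of_twist E hd hW hm key

/-- **Serre's open image theorem for the curves of the `j` criterion**: reduction good or
multiplicative, or a pole of `j`, at every prime. -/
theorem serreOpenImage_adelic_of_j (E : WeierstrassCurve ℚ) [E.IsElliptic]
    (h : ∀ p : ℕ, ∀ [Fact p.Prime], (∃ C : VariableChange ℚ_[p],
      HasGoodReduction ℤ_[p] (C • E.map (algebraMap ℚ ℚ_[p])) ∨
        HasMultiplicativeReduction ℤ_[p] (C • E.map (algebraMap ℚ ℚ_[p]))) ∨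
      padicValRat p E.j < 0)
    [inst : DecidableEq (AlgebraicClosure ℚ)] :
    ∃ m : ℕ, 0 < m ∧ ∀ (N : ℕ), N ≠ 0 →
      ∀ φ : Submodule.torsionBy ℤ (E.toAffine⁄(AlgebraicClosure ℚ)).Point (N : ℤ) ≃+
        Submodule.torsionBy ℤ (E.toAffine⁄(AlgebraicClosure ℚ)).Point (N : ℤ),
      (∀ P, m • P.1 = 0 → φ P = P) →
        ∃ σ : AlgebraicClosure ℚ ≃ₐ[ℚ] AlgebraicClosure ℚ, ∀ P,
          Affine.Point.map σ.toAlgHom P.1 = (φ P).1 := by
  obtain ⟨d, hd, hs⟩ := exists_semistable_twist_of_j_all E h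
  exact serreOpenImage_adelic_twist E hd hs

end FA.Summary

end
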