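import Fermat.Agent.Root.SummaryKroneckerWeber
import Fermat.Agent.Root.SummaryBauer
import Fermat.Agent.Root.SummarySerreOpenImageTwist
import Mathlib.NumberTheory.DirichletCharacter.Basic

/-!
# Reciprocity by congruences

A finite Galois extension of `ℚ` has an abelian group iff the set of primes splitting completely
in it is given, up to finitely many primes, by congruences, and the characters of finite order of
the absolute Galois group of `ℚ` are the Dirichlet characters read at Frobenius elements: by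
Kronecker and Weber, and by Bauer for the converse.
-/

set_option autoImplicit false
set_option linter.style.haveILetI false

noncomputable section

open NumberField FA.Density FA.FrobeniusDensity

local notation "Qb" => AlgebraicClosure ℚ
local notation "GQ" => AlgebraicClosure ℚ ≃ₐ[ℚ] AlgebraicClosure ℚ

namespace FA.Reciprocity

/-- A Frobenius element at `q` raises roots of unity of order prime to `q` to the power `q`. -/
theorem frobenius_apply_root {q : ℕ} (hq : q.Prime) {A : ValuationSubring Qb}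
    (hA : A.LiesOverPrime q) {σ : GQ} (hσ : A.IsFrobeniusAt σ q) {N : ℕ} (hN : ¬ q ∣ N) {μ : Qb}
    (hμ : μ ^ N = 1) : σ μ = μ ^ q := by
  suffices key : ∀ d, d ∣ N → ∀ μ : Qb, μ ^ d = 1 → σ μ = μ ^ q from key N dvd_rfl μ hμ
  clear hμ μ
  intro d
  induction d using Nat.recOnPosPrimePosCoprime with
  | zero => intro hd; exact absurd ((zero_dvd_iff.mp hd) ▸ dvd_zero q) hN
  | one => intro _ μ hμ; rw [pow_one] at hμ; rw [hμ, map_one, one_pow]
  | prime_pow l k hl hk =>
    intro hd μ hμ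
    exact FA.TW.frobenius_apply_rootOfUnity hl hq
      (fun e => hN (e ▸ (dvd_pow_self l (by omega)).trans hd)) hA hσ hμ
  | coprime a b ha1 hb1 hab iha ihb =>
    intro hd μ hμ
    obtain ⟨u, v, huv⟩ := Int.isCoprime_iff_nat_coprime.mpr (by simpa using hab :
      (a : ℤ).natAbs.Coprime (b : ℤ).natAbs)
    have hμ0 : μ ≠ 0 := fun e => by
      rw [e, zero_pow (Nat.mul_ne_zero (by omega) (by omega))] at hμ; exact zero_ne_one hμ
    have e1 : σ (μ ^ a) = (μ ^ a) ^ q := ihb ((dvd_mul_left b a).trans hd) _ (by rw [← pow_mul, hμ])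
    have e2 : σ (μ ^ b) = (μ ^ b) ^ q :=
      iha ((dvd_mul_right a b).trans hd) _ (by rw [← pow_mul, mul_comm, hμ])
    have e : μ = (μ ^ a) ^ u * (μ ^ b) ^ v := by
      rw [← zpow_natCast, ← zpow_natCast, ← _root_.zpow_mul, ← _root_.zpow_mul, ← zpow_add₀ hμ0,
        mul_comm _ u, mul_comm _ v, huv, zpow_one]
    conv_rhs => rw [e]
    conv_lhs => rw [e]
    rw [map_mul, map_zpow₀, map_zpow₀, e1, e2, mul_pow]
    simp only [← zpow_natCast, ← _root_.zpow_mul]
    congr 2 <;> ring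

/-- Outside a finite set of primes a prime splits completely iff a Frobenius element at it fixes
the field. -/
theorem exists_split_iff (K : IntermediateField ℚ Qb) [FiniteDimensional ℚ K] [IsGalois ℚ K] :
    ∃ S : Finset ℕ, ∀ q : ℕ, q.Prime → q ∉ S → ∀ A : ValuationSubring Qb, A.LiesOverPrime q →
      ∀ σ : GQ, A.IsFrobeniusAt σ q →
        (((Ideal.span {(q : ℤ)}).primesOver (𝓞 K)).ncard = Module.finrank ℚ K ↔
          ∀ x ∈ K, σ x = x) := by
  have : NumberField K := { }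
  obtain ⟨m, hm⟩ : ∃ m, (exists_unramified K).choose = m := ⟨_, rfl⟩
  refine ⟨m.divisors, fun q hq hqS A hA σ hσ => ?_⟩
  classical
  have hex : ∀ l : ℕ, ∃ B : ValuationSubring Qb, ∃ τ : GQ,
      (l.Prime → B.LiesOverPrime l ∧ B.IsFrobeniusAt τ l) ∧ (l = q → τ = σ) := fun l => by
    by_cases hlq : l = q
    · subst hlq
      exact ⟨A, σ, fun _ => ⟨hA, hσ⟩, fun _ => rfl⟩
    by_cases hl : l.Prime
    · obtain ⟨B, hB⟩ := FA.Deform.exists_liesOverPrime hl
      obtain ⟨τ, hτ⟩ := FA.Deform.exists_isFrobeniusAt hl hB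
      exact ⟨B, τ, fun _ => ⟨hB, hτ⟩, fun e => absurd e hlq⟩
    · exact ⟨⊤, 1, fun h => absurd h hl, fun e => absurd e hlq⟩
  choose B τ hBτ hτσ using hex
  obtain ⟨P, hP⟩ := (frobSystem K B τ hBτ).spec q hq (by
    show q ∉ (exists_unramified K).choose.divisors
    rw [hm]; exact hqS)
  have hP' : IsFrobPair q P (σ.restrictNormal K) := by
    rw [← hτσ q rfl]; exact hP
  rw [split_iff_eq_one hP']
  refine ⟨fun h x hx => ?_, fun h => AlgEquiv.ext fun x => Subtype.ext ?_⟩
  · have h2 := AlgEquiv.restrictNormal_commutes σ K ⟨x, hx⟩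
    rw [h] at h2
    exact h2.symm
  · exact (AlgEquiv.restrictNormal_commutes σ K x).trans (h x x.2)

/-- What fixes a primitive root fixes its field. -/
theorem apply_eq_of_fix {ζ : Qb} {σ : GQ} (h : σ ζ = ζ) {x : Qb}
    (hx : x ∈ IntermediateField.adjoin ℚ {ζ}) : σ x = x := by
  induction hx using IntermediateField.adjoin_induction with
  | mem x hx => rw [Set.mem_singleton_iff.mp hx, h]
  | algebraMap r => exact σ.commutes r
  | add x y _ _ hx hy => rw [map_add, hx, hy]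
  | inv x _ hx => rw [map_inv₀, hx]
  | mul x y _ _ hx hy => rw [map_mul, hx, hy]

variable {N : ℕ} {ζ : Qb}

/-- The Galois action on a primitive root is given by exponents prime to the order. -/
theorem exists_exponent [NeZero N] (hζ : IsPrimitiveRoot ζ N) (g : GQ) :
    ∃ a : ℕ, a.Coprime N ∧ g ζ = ζ ^ a := by
  obtain ⟨a, -, ha⟩ := hζ.eq_pow_of_pow_eq_one (ξ := g ζ)
    (by rw [← map_pow, hζ.pow_eq_one, map_one])
  exact ⟨a, (hζ.pow_iff_coprime (NeZero.pos _) a).mp (ha.symm ▸ hζ.map_of_injective g.injective),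
    ha.symm⟩

/-- Two automorphisms commute on a cyclotomic field. -/
theorem apply_comm [NeZero N] (hζ : IsPrimitiveRoot ζ N) (g h : GQ) {x : Qb}
    (hx : x ∈ IntermediateField.adjoin ℚ {ζ}) : g (h x) = h (g x) := by
  obtain ⟨a, -, ha⟩ := exists_exponent hζ g
  obtain ⟨b, -, hb⟩ := exists_exponent hζ h
  have e : g (h ζ) = h (g ζ) := by
    rw [ha, hb, map_pow, map_pow, ha, hb, ← pow_mul, ← pow_mul, mul_comm]
  have := apply_eq_of_fix (σ := (h * g)⁻¹ * (g * h)) (by
    show (h * g).symm (g (h ζ)) = ζ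
    rw [e]
    exact (h * g).symm_apply_apply ζ) hx
  calc g (h x) = (h * g) (((h * g)⁻¹ * (g * h)) x) := ((h * g).apply_symm_apply _).symm
    _ = h (g x) := by rw [this]; rfl

/-- The field of a primitive root is finite Galois over `ℚ`. -/
theorem isGalois_adjoin_root [NeZero N] (hζ : IsPrimitiveRoot ζ N) :
    FiniteDimensional ℚ (IntermediateField.adjoin ℚ {ζ}) ∧
      IsGalois ℚ (IntermediateField.adjoin ℚ {ζ}) := by
  haveI : IsGalois ℚ Qb := FA.EC.isGalois_algebraicClosure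
  refine ⟨IntermediateField.adjoin.finiteDimensional
    ((AlgebraicClosure.isAlgebraic ℚ).isAlgebraic ζ).isIntegral,
    (InfiniteGalois.normal_iff_isGalois _).mp ⟨fun σ hσ g => ?_⟩⟩
  refine (IntermediateField.mem_fixingSubgroup_iff _ _).mpr fun x hx => apply_eq_of_fix ?_ hx
  obtain ⟨a, -, ha⟩ := exists_exponent hζ g⁻¹
  show g (σ (g⁻¹ ζ)) = ζ
  rw [ha, map_pow, (IntermediateField.mem_fixingSubgroup_iff _ _).mp hσ ζ
    (IntermediateField.mem_adjoin_simple_self ℚ ζ), ← ha]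
  exact g.apply_symm_apply ζ

theorem modEq_of_pow_eq [NeZero N] (hζ : IsPrimitiveRoot ζ N) {a b : ℕ} (h : ζ ^ a = ζ ^ b) :
    a ≡ b [MOD N] :=
  hζ.pow_inj (Nat.mod_lt _ (NeZero.pos N)) (Nat.mod_lt _ (NeZero.pos N))
    (by rwa [← pow_eq_pow_mod a hζ.pow_eq_one, ← pow_eq_pow_mod b hζ.pow_eq_one])

end FA.Reciprocity

namespace FA.Summary

open FA.Reciprocity

/-- **A congruence law forces a cyclotomic field**: if, apart from finitely many primes, complete
splitting in `K` depends only on the residue modulo `N`, then `K ≤ ℚ(μ_N)`. -/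
theorem le_cyclotomic_of_split_congruence (K : IntermediateField ℚ Qb) [FiniteDimensional ℚ K]
    [IsGalois ℚ K] {N : ℕ} (hN : 0 < N) (S : Finset ℕ)
    (h : ∀ p q : ℕ, p.Prime → q.Prime → p ∉ S → q ∉ S → p ≡ q [MOD N] →
      ((Ideal.span {(p : ℤ)}).primesOver (𝓞 K)).ncard = Module.finrank ℚ K →
        ((Ideal.span {(q : ℤ)}).primesOver (𝓞 K)).ncard = Module.finrank ℚ K) :
    K ≤ IntermediateField.adjoin ℚ {μ : Qb | μ ^ N = 1} := by
  haveI : NeZero N := ⟨hN.ne'⟩
  haveI : NeZero (N : Qb) := ⟨Nat.cast_ne_zero.mpr hN.ne'⟩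
  obtain ⟨ζ, hζ⟩ := HasEnoughRootsOfUnity.exists_primitiveRoot Qb N
  obtain ⟨hCf, hCg⟩ := isGalois_adjoin_root hζ
  set C := IntermediateField.adjoin ℚ {ζ}
  suffices hle : K ≤ C from hle.trans (IntermediateField.adjoin.mono ℚ _ _
    (Set.singleton_subset_iff.mpr hζ.pow_eq_one))
  haveI : NumberField K := { }
  haveI : NumberField C := { }
  have : Normal ℚ ↥(K ⊔ C) := @IntermediateField.normal_sup ℚ Qb _ _ _ K C
    (‹IsGalois ℚ K›).to_normal hCg.to_normal
  haveI : IsGalois ℚ ↥(K ⊔ C) := ⟨⟩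
  haveI : NumberField ↥(K ⊔ C) := { }
  have hFK := (bauer K (K ⊔ C)).mp le_sup_left
  have hFC := (bauer C (K ⊔ C)).mp le_sup_right
  obtain ⟨SC, hSC⟩ := exists_split_iff C
  -- the residue of the primes splitting completely in the cyclotomic field
  have hone : ∀ q : ℕ, q.Prime → q ∉ SC → N < q →
      ((Ideal.span {(q : ℤ)}).primesOver (𝓞 C)).ncard = Module.finrank ℚ C → q ≡ 1 [MOD N] := by
    intro q hq hqS hqN hsp
    obtain ⟨A, hA⟩ := FA.Deform.exists_liesOverPrime hq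
    obtain ⟨σ, hσ⟩ := FA.Deform.exists_isFrobeniusAt hq hA
    have h1 := (hSC q hq hqS A hA σ hσ).mp hsp ζ (IntermediateField.mem_adjoin_simple_self ℚ ζ)
    rw [frobenius_apply_root hq hA hσ
      (fun hd => absurd (Nat.le_of_dvd hN hd) (not_le.mpr hqN)) hζ.pow_eq_one] at h1
    exact modEq_of_pow_eq hζ (by rw [h1, pow_one])
  obtain ⟨p, hp⟩ := ((infinitely_many_split_completely ↥(K ⊔ C)).sdiff
    ((hFK.union hFC).union (S ∪ SC ∪ Finset.range (N + 1)).finite_toSet)).nonempty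
  simp only [Set.mem_sdiff, Set.mem_union, Finset.mem_coe, Finset.mem_union, Finset.mem_range,
    not_or, Set.mem_ofPred_eq, not_and] at hp
  obtain ⟨⟨hpp, hpF⟩, ⟨hpK, hpC⟩, ⟨hpS, hpSC⟩, hpN⟩ := hp
  have hsK : ((Ideal.span {(p : ℤ)}).primesOver (𝓞 K)).ncard = Module.finrank ℚ K :=
    by_contra fun e => hpK ⟨hpp, hpF⟩ fun _ => e
  have hp1 := hone p hpp hpSC (by omega) (by_contra fun e => hpC ⟨hpp, hpF⟩ fun _ => e)
  refine (bauer K C).mpr ((S ∪ SC ∪ Finset.range (N + 1)).finite_toSet.subset fun q hq => ?_)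
  simp only [Set.mem_sdiff, Set.mem_ofPred_eq, not_and] at hq
  obtain ⟨⟨hqp, hqC⟩, hqK⟩ := hq
  by_contra hcon
  simp only [Finset.mem_coe, Finset.mem_union, Finset.mem_range, not_or] at hcon
  obtain ⟨⟨hqS, hqSC⟩, hqN⟩ := hcon
  exact hqK hqp (h p q hpp hqp hpS hqS (hp1.trans (hone q hqp hqSC (by omega) hqC).symm) hsK)

/-- **Which extensions have a reciprocity law by congruences**: a finite Galois extension of `ℚ`
has abelian group iff for some `N`, apart from finitely many primes, complete splitting depends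
only on the residue of the prime modulo `N`. -/
theorem abelian_iff_split_congruence (K : IntermediateField ℚ Qb) [FiniteDimensional ℚ K]
    [IsGalois ℚ K] :
    IsMulCommutative (K ≃ₐ[ℚ] K) ↔ ∃ (N : ℕ) (S : Finset ℕ), 0 < N ∧
      ∀ p q : ℕ, p.Prime → q.Prime → p ∉ S → q ∉ S → p ≡ q [MOD N] →
        (((Ideal.span {(p : ℤ)}).primesOver (𝓞 K)).ncard = Module.finrank ℚ K ↔
          ((Ideal.span {(q : ℤ)}).primesOver (𝓞 K)).ncard = Module.finrank ℚ K) := by
  constructor
  · intro hc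
    haveI : IsAbelianGalois ℚ K := { }
    obtain ⟨N, ζ, hN, hζ, hle⟩ := kroneckerWeber_primitiveRoot K
    haveI : NeZero N := ⟨hN.ne'⟩
    obtain ⟨S, hS⟩ := exists_split_iff K
    refine ⟨N, S ∪ Finset.range (N + 1), hN, fun p q hp hq hpS hqS hpq => ?_⟩
    simp only [Finset.mem_union, Finset.mem_range, not_or] at hpS hqS
    obtain ⟨A, hA⟩ := FA.Deform.exists_liesOverPrime hp
    obtain ⟨σ, hσ⟩ := FA.Deform.exists_isFrobeniusAt hp hA
    obtain ⟨B, hB⟩ := FA.Deform.exists_liesOverPrime hq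
    obtain ⟨τ, hτ⟩ := FA.Deform.exists_isFrobeniusAt hq hB
    rw [hS p hp hpS.1 A hA σ hσ, hS q hq hqS.1 B hB τ hτ]
    have e : σ ζ = τ ζ := by
      rw [frobenius_apply_root hp hA hσ (fun hd => hpS.2 (Nat.lt_succ_of_le (Nat.le_of_dvd hN hd)))
          hζ.pow_eq_one,
        frobenius_apply_root hq hB hτ (fun hd => hqS.2 (Nat.lt_succ_of_le (Nat.le_of_dvd hN hd)))
          hζ.pow_eq_one, pow_eq_pow_mod p hζ.pow_eq_one, pow_eq_pow_mod q hζ.pow_eq_one,
        show p % N = q % N from hpq]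
    have hK : ∀ x ∈ K, σ x = τ x := fun x hx => by
      have h1 := apply_eq_of_fix (σ := τ⁻¹ * σ) (by
        show τ.symm (σ ζ) = ζ
        rw [e]
        exact τ.symm_apply_apply ζ) (hle hx)
      calc σ x = τ ((τ⁻¹ * σ) x) := (τ.apply_symm_apply _).symm
        _ = τ x := by rw [h1]
    exact ⟨fun hs x hx => (hK x hx).symm.trans (hs x hx),
      fun ht x hx => (hK x hx).trans (ht x hx)⟩
  · rintro ⟨N, S, hN, hcong⟩
    have hle := le_cyclotomic_of_split_congruence K hN S
      fun p q hp hq hpS hqS hpq => (hcong p q hp hq hpS hqS hpq).mp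
    haveI : NeZero N := ⟨hN.ne'⟩
    haveI : NeZero (N : Qb) := ⟨Nat.cast_ne_zero.mpr hN.ne'⟩
    obtain ⟨ζ, hζ⟩ := HasEnoughRootsOfUnity.exists_primitiveRoot Qb N
    have hle' : K ≤ IntermediateField.adjoin ℚ {ζ} :=
      hle.trans (IntermediateField.adjoin_le_iff.mpr fun μ hμ => by
        obtain ⟨i, -, rfl⟩ := hζ.eq_pow_of_pow_eq_one hμ
        exact pow_mem (IntermediateField.mem_adjoin_simple_self ℚ ζ) i)
    haveI : Normal ℚ Qb := (FA.EC.isGalois_algebraicClosure).to_normal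
    haveI : Normal ℚ K := IsGalois.to_normal
    refine ⟨⟨fun a b => AlgEquiv.ext fun x => Subtype.ext ?_⟩⟩
    obtain ⟨g, rfl⟩ := AlgEquiv.restrictNormalHom_surjective (F := ℚ) (K₁ := K) Qb a
    obtain ⟨h, rfl⟩ := AlgEquiv.restrictNormalHom_surjective (F := ℚ) (K₁ := K) Qb b
    rw [← map_mul, ← map_mul]
    exact (AlgEquiv.restrictNormal_commutes (g * h) K x).trans
      ((apply_comm hζ g h (hle' x.2)).trans
        (AlgEquiv.restrictNormal_commutes (h * g) K x).symm)

/-- **Characters of finite order are Dirichlet characters**: a homomorphism of the absolute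
Galois group of `ℚ` to `ℂˣ` with open kernel is, at the Frobenius elements of the primes not
dividing some `N`, a Dirichlet character modulo `N`. -/
theorem galoisCharacter_dirichlet (χ : GQ →* ℂˣ) (hopen : IsOpen (χ.ker : Set GQ)) :
    ∃ N : ℕ, 0 < N ∧ ∃ ψ : DirichletCharacter ℂ N, ∀ q : ℕ, q.Prime → ¬ q ∣ N →
      ∀ A : ValuationSubring Qb, A.LiesOverPrime q → ∀ σ : GQ, A.IsFrobeniusAt σ q →
        ((χ σ : ℂˣ) : ℂ) = ψ q := by
  haveI : IsGalois ℚ Qb := FA.EC.isGalois_algebraicClosure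
  haveI : Finite (GQ ⧸ χ.ker) := Subgroup.quotient_finite_of_isOpen _ hopen
  haveI : Finite χ.range := Finite.of_equiv _ (QuotientGroup.quotientKerEquivRange χ).toEquiv
  obtain ⟨K, hK, -, hKf⟩ := FA.KroneckerWeber.exists_field_of_isOpen hopen
  haveI := hK
  have hroots : K ≤ FA.OpenImage.rootsField := by
    rw [← InfiniteGalois.fixedField_fixingSubgroup FA.OpenImage.rootsField]
    intro x hx ⟨σ, hσ⟩
    have h1 := FA.KroneckerWeber.eq_one_of_fix_rootsOfUnity χ.rangeRestrict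
      (by rw [MonoidHom.ker_rangeRestrict]; exact hopen) (σ := σ) fun μ n hn hμ =>
        (IntermediateField.mem_fixingSubgroup_iff _ σ).mp hσ μ
          (IntermediateField.subset_adjoin ℚ _ ⟨n, hn, hμ⟩)
    exact (IntermediateField.mem_fixingSubgroup_iff K σ).mp
      (hKf.symm ▸ MonoidHom.mem_ker.mpr (congrArg Subtype.val h1)) x hx
  obtain ⟨N, hN, hfix⟩ := FA.OpenImage.exists_level_of_finite K
  haveI : NeZero N := ⟨hN.ne'⟩
  haveI : NeZero (N : Qb) := ⟨Nat.cast_ne_zero.mpr hN.ne'⟩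
  obtain ⟨ζ, hζ⟩ := HasEnoughRootsOfUnity.exists_primitiveRoot Qb N
  have hwd : ∀ σ τ : GQ, σ ζ = τ ζ → χ σ = χ τ := fun σ τ e => by
    have hfixr : ∀ μ : Qb, μ ^ N = 1 → (τ⁻¹ * σ) μ = μ := fun μ hμ => by
      obtain ⟨i, -, rfl⟩ := hζ.eq_pow_of_pow_eq_one hμ
      show τ.symm (σ (ζ ^ i)) = ζ ^ i
      rw [map_pow, e, map_pow, τ.symm_apply_apply]
    have hm : τ⁻¹ * σ ∈ χ.ker := hKf ▸ (IntermediateField.mem_fixingSubgroup_iff K _).mpr
      fun x hx => hfix _ hfixr x hx (hroots hx)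
    rw [MonoidHom.mem_ker, map_mul, map_inv, inv_mul_eq_one] at hm
    exact hm.symm
  choose s hs using fun u : (ZMod N)ˣ =>
    FA.OpenImageJ.exists_apply_eq_pow hN hζ (ZMod.val_coe_unit_coprime u)
  let f : (ZMod N)ˣ →* ℂˣ := MonoidHom.mk' (fun u => χ (s u)) fun u v => by
    show χ (s (u * v)) = χ (s u) * χ (s v)
    rw [← map_mul]
    refine hwd _ _ ?_
    show s (u * v) ζ = s u (s v ζ)
    rw [hs, hs, map_pow, hs, ← pow_mul, Units.val_mul, ZMod.val_mul, ← pow_eq_pow_mod _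
      hζ.pow_eq_one]
  refine ⟨N, hN, MulChar.ofUnitHom f, fun q hq hqN A hA σ hσ => ?_⟩
  have hcop : q.Coprime N := hq.coprime_iff_not_dvd.mpr hqN
  rw [← ZMod.coe_unitOfCoprime q hcop, MulChar.ofUnitHom_coe]
  show _ = ((χ (s (ZMod.unitOfCoprime q hcop)) : ℂˣ) : ℂ)
  rw [hwd σ (s (ZMod.unitOfCoprime q hcop))]
  rw [hs, frobenius_apply_root hq hA hσ hqN hζ.pow_eq_one, ZMod.coe_unitOfCoprime,
    ZMod.val_natCast, ← pow_eq_pow_mod _ hζ.pow_eq_one]

end FA.Summary

end
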