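import Fermat.Agent.Iskra.Points
import Mathlib.NumberTheory.LSeries.PrimesInAP

/-!
# Iskra's theorem: non-congruent numbers with arbitrarily many prime factors

* `iskra`: a product `n` of distinct primes `≡ 3 (mod 8)`, each a square modulo the earlier ones
  (by reciprocity: each earlier one a non-square modulo the later), is not congruent;
  `point_group_iskra`, `rank_iskra`: `y² = x³ - n² x` has group exactly `ℤ/2 × ℤ/2`.
* `infinite_iskra`: for every `k ≥ 1` infinitely many squarefree non-congruent numbers have exactly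
  `k` prime factors; `rank_zero_many_bad_primes`: congruent number curves of rank zero have
  arbitrarily many bad primes, so Tate's bound is arbitrarily far from sharp.
-/

set_option autoImplicit false
set_option linter.style.haveILetI false

noncomputable section

open WeierstrassCurve
open FA.CongruentNumber (congCurve)

namespace FA.Iskra

/-- Iskra's primes of every length above every bound. -/
theorem exists_primes (k M : ℕ) : ∃ P : Fin k → ℕ, Primes P ∧ ∀ i, M < P i := by
  induction k with
  | zero => exact ⟨Fin.elim0, ⟨fun i => i.elim0, fun i => i.elim0, fun i => i.elim0,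
      fun i => i.elim0⟩, fun i => i.elim0⟩
  | succ k ih =>
    obtain ⟨P, hP, hM⟩ := ih
    set m := ∏ i, P i
    have hm : Nat.Coprime 8 m := by
      have : Nat.Coprime 2 m :=
        Nat.prime_two.coprime_iff_not_dvd.mpr fun h => (Nat.not_even_iff_odd.2 hP.odd_prod)
          (even_iff_two_dvd.2 h)
      simpa using this.pow_left 3
    obtain ⟨r, hr8, hrm⟩ := Nat.chineseRemainder hm 3 1
    have hcop : r.Coprime (8 * m) := by
      refine Nat.Coprime.mul_right ?_ ?_
      · rw [Nat.Coprime, hr8.gcd_eq]; decide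
      · rw [Nat.Coprime, hrm.gcd_eq, Nat.gcd_one_left]
    obtain ⟨p, hpgt, hp, hpr⟩ := Nat.forall_exists_prime_gt_and_modEq (M + ∑ i, P i)
      (q := 8 * m) (mul_ne_zero (by norm_num) hP.squarefree_prod.ne_zero) hcop
    have hlt : ∀ i, P i < p := fun i =>
      lt_of_le_of_lt ((Finset.single_le_sum (fun j _ => Nat.zero_le (P j))
        (Finset.mem_univ i)).trans (Nat.le_add_left _ M)) hpgt
    refine ⟨Fin.snoc P p, ⟨?_, ?_, ?_, ?_⟩, ?_⟩
    · intro i
      induction i using Fin.lastCases with
      | last => simpa using hp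
      | cast i => simpa using hP.prime i
    · intro i
      induction i using Fin.lastCases with
      | last => simpa [Nat.ModEq] using (hpr.of_mul_right m).trans hr8
      | cast i => simpa using hP.mod_eight i
    · exact Fin.snoc_injective_iff.2 ⟨hP.injective, fun ⟨i, hi⟩ => (hlt i).ne hi⟩
    · intro i j hij
      induction j using Fin.lastCases with
      | last =>
        induction i using Fin.lastCases with
        | last => exact absurd hij (lt_irrefl _)
        | cast i =>
          rw [Fin.snoc_castSucc, Fin.snoc_last]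
          have h1 : p ≡ 1 [MOD P i] :=
            ((hpr.of_mul_left 8).trans hrm).of_dvd (Finset.dvd_prod_of_mem P (Finset.mem_univ i))
          rw [(ZMod.natCast_eq_natCast_iff _ _ _).2 h1, Nat.cast_one]
          exact IsSquare.one
      | cast j =>
        induction i using Fin.lastCases with
        | last => exact absurd hij (not_lt.2 (Fin.le_last _))
        | cast i =>
          rw [Fin.snoc_castSucc, Fin.snoc_castSucc]
          exact hP.square i j (Fin.castSucc_lt_castSucc_iff.1 hij)
    · intro i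
      induction i using Fin.lastCases with
      | last => simpa using lt_of_le_of_lt (Nat.le_add_right M _) hpgt
      | cast i => simpa using hM i

theorem primeFactors_prod {k : ℕ} {P : Fin k → ℕ} (hP : Primes P) :
    (∏ i, P i).primeFactors = Finset.univ.image P := by
  rw [show ∏ i, P i = ∏ q ∈ Finset.univ.image P, q from
    (Finset.prod_image (f := fun q => q) hP.injective.injOn).symm]
  exact Nat.primeFactors_prod fun q hq => by
    obtain ⟨i, -, rfl⟩ := Finset.mem_image.1 hq
    exact hP.prime i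

end FA.Iskra

namespace FA.Summary

open FA.Iskra (Primes)

/-- **Iskra's point groups**: for distinct primes `≡ 3 (mod 8)`, each a square modulo the earlier
ones, with product `n` the rational points of `y² = x³ - n² x` are `ℤ/2 × ℤ/2`. -/
theorem point_group_iskra {k : ℕ} (P : Fin k → ℕ) (hp : ∀ i, (P i).Prime)
    (h8 : ∀ i, P i % 8 = 3) (hinj : Function.Injective P)
    (hsq : ∀ i j, i < j → IsSquare (P j : ZMod (P i))) :
    Nonempty ((⟨0, 0, 0, -((∏ i, P i : ℕ) : ℚ) ^ 2, 0⟩ : WeierstrassCurve ℚ).toAffine.Point ≃+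
      ZMod 2 × ZMod 2) :=
  FA.Iskra.point_equiv ⟨hp, h8, hinj, hsq⟩

/-- **Rank zero.** -/
theorem rank_iskra {k : ℕ} (P : Fin k → ℕ) (hp : ∀ i, (P i).Prime)
    (h8 : ∀ i, P i % 8 = 3) (hinj : Function.Injective P)
    (hsq : ∀ i j, i < j → IsSquare (P j : ZMod (P i))) :
    Module.finrank ℤ (⟨0, 0, 0, -((∏ i, P i : ℕ) : ℚ) ^ 2, 0⟩ :
      WeierstrassCurve ℚ).toAffine.Point = 0 := by
  obtain ⟨e⟩ := point_group_iskra P hp h8 hinj hsq
  haveI := Finite.of_equiv _ e.toEquiv.symm
  haveI := Module.Finite.of_finite (R := ℤ) (M := (⟨0, 0, 0, -((∏ i, P i : ℕ) : ℚ) ^ 2, 0⟩ :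
    WeierstrassCurve ℚ).toAffine.Point)
  rw [Module.finrank_eq_zero_iff]
  intro Q
  refine ⟨2, two_ne_zero, e.injective ?_⟩
  rw [map_zsmul, map_zero]
  exact (by decide : ∀ z : ZMod 2 × ZMod 2, (2 : ℤ) • z = 0) _

/-- **Iskra's theorem**: such a product is not a congruent number. -/
theorem iskra {k : ℕ} (P : Fin k → ℕ) (hp : ∀ i, (P i).Prime)
    (h8 : ∀ i, P i % 8 = 3) (hinj : Function.Injective P)
    (hsq : ∀ i j, i < j → IsSquare (P j : ZMod (P i))) :
    ¬ ∃ a b c : ℚ, 0 < a ∧ 0 < b ∧ 0 < c ∧ a ^ 2 + b ^ 2 = c ^ 2 ∧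
      a * b / 2 = ((∏ i, P i : ℕ) : ℚ) := fun h => by
  haveI := (congruentNumber_iff_infinite _
    (Primes.squarefree_prod ⟨hp, h8, hinj, hsq⟩).ne_zero).1 h
  obtain ⟨e⟩ := point_group_iskra P hp h8 hinj hsq
  exact not_finite_iff_infinite.mpr ‹_› (Finite.of_equiv _ e.toEquiv.symm)

/-- **Non-congruent numbers with `k` prime factors**, infinitely many for every `k ≥ 1`. -/
theorem infinite_iskra (k : ℕ) (hk : k ≠ 0) :
    {n : ℕ | Squarefree n ∧ n.primeFactors.card = k ∧
      ¬ ∃ a b c : ℚ, 0 < a ∧ 0 < b ∧ 0 < c ∧ a ^ 2 + b ^ 2 = c ^ 2 ∧ a * b / 2 = n}.Infinite := by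
  refine Set.infinite_of_forall_exists_gt fun M => ?_
  obtain ⟨P, hP, hM⟩ := FA.Iskra.exists_primes k M
  refine ⟨∏ i, P i, ⟨hP.squarefree_prod, ?_, iskra P hP.prime hP.mod_eight hP.injective hP.square⟩,
    ?_⟩
  · rw [FA.Iskra.primeFactors_prod hP, Finset.card_image_of_injective _ hP.injective]
    simp
  · exact lt_of_lt_of_le (hM ⟨0, Nat.pos_of_ne_zero hk⟩) (Nat.le_of_dvd
      (Nat.pos_of_ne_zero hP.squarefree_prod.ne_zero)
      (Finset.dvd_prod_of_mem P (Finset.mem_univ _)))

/-- **Rank zero with arbitrarily many bad primes.** -/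
theorem rank_zero_many_bad_primes (k : ℕ) :
    ∃ n : ℕ, Squarefree n ∧ n.primeFactors.card = k ∧
      Module.finrank ℤ (⟨0, 0, 0, -(n : ℚ) ^ 2, 0⟩ : WeierstrassCurve ℚ).toAffine.Point = 0 := by
  obtain ⟨P, hP, -⟩ := FA.Iskra.exists_primes k 0
  refine ⟨∏ i, P i, hP.squarefree_prod, ?_,
    rank_iskra P hP.prime hP.mod_eight hP.injective hP.square⟩
  rw [FA.Iskra.primeFactors_prod hP, Finset.card_image_of_injective _ hP.injective]
  simp

end FA.Summary

end
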