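import Fermat.Agent.Root.SummaryCongruence
import Fermat.Agent.Root.SummaryRaynaudCriterion

/-!
# Reduction of a curve with a rational point of prime order

Let an elliptic curve over `ℚ` have a rational point of prime order `p ≥ 5` and let `q ≠ p`. The
curve is semistable at `q`; Frobenius has the eigenvalue `1` on the `p`-torsion, so
`p ∣ q + 1 - a_q` at good reduction, and at multiplicative reduction it is split or `p ∣ q + 1`.
So if `p` exceeds `(√q + 1) ^ 2`, the Hasse bound leaves only split multiplicative reduction.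
-/

set_option autoImplicit false
set_option linter.style.haveILetI false
set_option linter.unusedSectionVars false

noncomputable section

open WeierstrassCurve WeierstrassCurve.Affine Matrix FA.Frob FA.RT.Tate FA.GoodReduction
open scoped WeierstrassCurve.Affine

local notation "Qb" => AlgebraicClosure ℚ
local notation "GQ" => AlgebraicClosure ℚ ≃ₐ[ℚ] AlgebraicClosure ℚ

namespace FA.GoodReduction

variable {p : ℕ} [Fact p.Prime] {W : WeierstrassCurve ℤ} [(ratCurve W).IsElliptic]

/-- An element fixing a point of order `p` has eigenvalue one modulo `p`. -/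
theorem toZModPow_det_sub_one (B : TateBasis p W) {σ : GQ} {x : Pts W} (hx0 : x ≠ 0)
    (hx : p • x = 0) (hfix : σ • x = x) : PadicInt.toZModPow 1 (B.rep σ - 1).det = 0 := by
  have : Fact (p ^ 1).Prime := ⟨by rw [pow_one]; exact Fact.out⟩
  obtain ⟨v, rfl⟩ := B.surj 1 x (by rw [pow_one, hx])
  rw [RingHom.map_det]
  refine exists_mulVec_eq_zero_iff.mp ⟨PadicInt.toZModPow 1 ∘ v,
    fun h => hx0 ((B.ker 1 v).mpr (congrFun h)), funext fun i => ?_⟩
  rw [RingHom.mapMatrix_apply, ← RingHom.map_mulVec]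
  refine (B.ker 1 _).mp ?_ i
  rw [sub_mulVec, one_mulVec, map_sub, ← B.rep_spec, hfix, sub_self]

end FA.GoodReduction

namespace FA.Summary

variable (E : WeierstrassCurve ℚ) [E.IsElliptic] {p : ℕ} [Fact p.Prime] (h5 : 5 ≤ p)
  {P : E.toAffine.Point} (hP : addOrderOf P = p) {q : ℕ} [Fact q.Prime] (hqp : q ≠ p)

include h5 hP hqp

/-- **Reduction of a curve with a rational point of prime order `p ≥ 5`**: at every prime `q ≠ p`
it is semistable, `p ∣ q + 1 - a_q` at good reduction, and multiplicative reduction is split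
(`a_q = 1`) or non-split with `p ∣ q + 1`. -/
theorem torsionPoint_reduction :
    (∃ C : VariableChange ℚ_[q], HasGoodReduction ℤ_[q] (C • E.map (algebraMap ℚ ℚ_[q])) ∨
        HasMultiplicativeReduction ℤ_[q] (C • E.map (algebraMap ℚ ℚ_[q]))) ∧
      ((∃ C : VariableChange ℚ_[q], HasGoodReduction ℤ_[q] (C • E.map (algebraMap ℚ ℚ_[q]))) →
        (p : ℤ) ∣ (q : ℤ) + 1 - E.LFunction q) ∧
      (¬ (∃ C : VariableChange ℚ_[q], HasGoodReduction ℤ_[q] (C • E.map (algebraMap ℚ ℚ_[q]))) →
        E.LFunction q = 1 ∨ (E.LFunction q = -1 ∧ p ∣ q + 1)) := by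
  classical
  have hp : p.Prime := Fact.out
  have hq : q.Prime := Fact.out
  let ι : E.toAffine.Point →+ (E.toAffine⁄Qb).Point :=
    Affine.Point.map (W' := E.toAffine) (Algebra.ofId ℚ Qb)
  have hord : addOrderOf (ι P) = p :=
    (addOrderOf_injective ι (Affine.Point.map_injective _) P).trans hP
  have hfix : ∀ σ : GQ, Affine.Point.map σ.toAlgHom (ι P) = ι P := fun σ => by
    show Affine.Point.map σ.toAlgHom
      (Affine.Point.map (W' := E.toAffine) (Algebra.ofId ℚ Qb) P) = _
    rw [Affine.Point.map_map]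
    congr 1
    exact congrArg _ (Subsingleton.elim _ _)
  have hP0 : ι P ≠ 0 := fun h => by rw [h, addOrderOf_zero] at hord; omega
  have hPp : p • ι P = 0 := hord ▸ addOrderOf_nsmul_eq_zero (ι P)
  have hss := semistableAt_of_torsion_point E hp h5 (Ne.symm hqp) hP0 hPp
    fun A _ σ _ => hfix σ
  obtain ⟨W, hW⟩ := FA.Frob.exists_integralModel E
  haveI := FA.Frob.ratCurve_isElliptic_of_Δ (FA.Frob.Δ_ne_zero_of_model hW)
  obtain ⟨e, he⟩ := FA.Root.exists_equiv_of_model hW
  obtain ⟨x, hx⟩ := e.surjective (ι P)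
  obtain ⟨B⟩ := exists_tateBasis (p := p) W
  obtain ⟨A, hA⟩ := FA.Deform.exists_liesOverPrime hq
  obtain ⟨F, hF⟩ := FA.Deform.exists_isFrobeniusAt hq hA
  have hdet := toZModPow_det_sub_one B (σ := F) (x := x)
    (fun h => hP0 (by rw [← hx, h, map_zero])) (e.injective (by rw [map_nsmul, hx, hPp, map_zero]))
    (e.injective (by rw [he, hx, hfix]))
  have hd := det_rep_frobenius B hq hA hqp hF
  have hexp : (B.rep F - 1).det = (q : ℤ_[p]) - (B.rep F).trace + 1 := by
    rw [← hd, det_fin_two, det_fin_two, trace_fin_two]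
    simp [Matrix.sub_apply]
    ring
  rw [hexp] at hdet
  obtain ⟨hg', hb'⟩ := trace_frobenius_semistable E hss hqp hW B hA hF
  have hdvd : ∀ z : ℤ, PadicInt.toZModPow 1 (z : ℤ_[p]) = 0 → (p : ℤ) ∣ z := fun z hz => by
    rw [map_intCast, ZMod.intCast_zmod_eq_zero_iff_dvd, pow_one] at hz
    exact hz
  refine ⟨hss, fun hg => hdvd _ ?_, fun hb => ?_⟩
  · rw [hg' hg] at hdet
    rw [← hdet]
    congr 1
    push_cast
    ring
  obtain ⟨ht, ha⟩ := hb' hb
  rcases ha with ha | ha
  · exact Or.inl ha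
  refine Or.inr ⟨ha, ?_⟩
  have h2 : (p : ℤ) ∣ ((2 * (q + 1) : ℕ) : ℤ) := hdvd _ (by
    rw [ht, ha] at hdet
    rw [← hdet]
    congr 1
    push_cast
    ring)
  rcases hp.dvd_mul.mp (Int.natCast_dvd_natCast.mp h2) with h | h
  · have := Nat.le_of_dvd two_pos h
    omega
  · exact h

/-- **A large point order forces split multiplicative reduction**: if moreover `p > (√q + 1) ^ 2`,
that is `q + 1 < p` and `4 q < (p - (q + 1)) ^ 2`, then the reduction at `q` is multiplicative and
split: `a_q = 1`. -/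
theorem splitMultiplicative_of_torsionPoint (hlt : q + 1 < p)
    (hbig : 4 * q < (p - (q + 1)) ^ 2) :
    (∃ C : VariableChange ℚ_[q],
      HasMultiplicativeReduction ℤ_[q] (C • E.map (algebraMap ℚ ℚ_[q]))) ∧
      E.LFunction q = 1 := by
  obtain ⟨hss, hg, hb⟩ := torsionPoint_reduction E h5 hP hqp
  have hng : ¬ ∃ C : VariableChange ℚ_[q],
      HasGoodReduction ℤ_[q] (C • E.map (algebraMap ℚ ℚ_[q])) := fun h => by
    obtain ⟨W, ⟨C, hC⟩, hd⟩ := FA.CM.Deuring.exists_model_not_dvd E h
    have hH := hasse_LFunction E W C hC Fact.out hd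
    obtain ⟨k, hk⟩ : ∃ k : ℕ, p = q + 1 + k := Nat.exists_eq_add_of_le hlt.le
    have hb2 : 4 * (q : ℤ) < (k : ℤ) ^ 2 := by
      have : p - (q + 1) = k := by omega
      rw [this] at hbig
      exact_mod_cast hbig
    have hp' : (p : ℤ) = (q : ℤ) + 1 + k := by exact_mod_cast hk
    have h1 : -(k : ℤ) < E.LFunction q := by nlinarith
    have hq2 : (2 : ℤ) ≤ q := by exact_mod_cast (Fact.out : q.Prime).two_le
    have h2 : E.LFunction q < (q : ℤ) + 1 := by nlinarith
    have := Int.le_of_dvd (by omega) (hg h)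
    omega
  obtain ⟨C, hC⟩ := hss
  refine ⟨⟨C, hC.resolve_left fun h => hng ⟨C, h⟩⟩, (hb hng).resolve_right fun h => ?_⟩
  have := Nat.le_of_dvd q.succ_pos h.2
  omega

end FA.Summary

namespace FA.Summary

/-- **A rational point of prime order `p ≥ 7` forces split multiplicative reduction at `2`.** -/
theorem splitMultiplicative_two_of_torsionPoint (E : WeierstrassCurve ℚ) [E.IsElliptic] {p : ℕ}
    [Fact p.Prime] (h7 : 7 ≤ p) {P : E.toAffine.Point} (hP : addOrderOf P = p) :
    (∃ C : VariableChange ℚ_[2],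
      HasMultiplicativeReduction ℤ_[2] (C • E.map (algebraMap ℚ ℚ_[2]))) ∧
      E.LFunction 2 = 1 := by
  refine splitMultiplicative_of_torsionPoint E (q := 2) (by omega) hP (by omega) (by omega) ?_
  calc 4 * 2 < 4 ^ 2 := by norm_num
    _ ≤ (p - (2 + 1)) ^ 2 := Nat.pow_le_pow_left (by omega) 2

end FA.Summary

end
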