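import Fermat.Agent.Root.SummaryAlmostAllIrreducible
import Fermat.Agent.Root.SummaryPointReduction

/-!
# Isogenies of prime degree of curves with good reduction at two or three

If an elliptic curve over `ℚ` is good at `l` and semistable at an odd prime `p ≠ l`, a stable
subgroup of order `p` makes `p` divide the number of points over the field of `l¹²` elements. At
`l = 2` these numbers are `3969 = 3⁴ 7²`, `4144 = 2⁴ 7 · 37` and `4225 = 5² 13²`, so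
`p ∈ {3, 5, 7, 13, 37}`; at `l = 3` one gets `p ∈ {5, 7, 13, 19, 37, 97}`.
-/

set_option autoImplicit false
set_option linter.style.haveILetI false
set_option linter.unusedSectionVars false

noncomputable section

open WeierstrassCurve WeierstrassCurve.Affine FA.Frob FA.HasseBound FA.IsogenyPrimes
open scoped WeierstrassCurve.Affine

namespace FA.IsogenyPrimes

variable {p : ℕ} (hp : p.Prime)

include hp

/-- A prime dividing a product of two prime powers is one of the two primes. -/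
theorem eq_or_eq_of_dvd {a b i j : ℕ} (ha : a.Prime) (hb : b.Prime) (h : p ∣ a ^ i * b ^ j) :
    p = a ∨ p = b :=
  (hp.dvd_mul.mp h).imp (fun h => (Nat.prime_dvd_prime_iff_eq hp ha).mp (hp.dvd_of_dvd_pow h))
    fun h => (Nat.prime_dvd_prime_iff_eq hp hb).mp (hp.dvd_of_dvd_pow h)

/-- An odd prime dividing `2 ^ i` times two prime powers is one of the two primes. -/
theorem eq_or_eq_of_dvd_two (hp2 : p ≠ 2) {i a b u v : ℕ} (ha : a.Prime) (hb : b.Prime)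
    (h : p ∣ 2 ^ i * (a ^ u * b ^ v)) : p = a ∨ p = b :=
  eq_or_eq_of_dvd hp ha hb ((hp.dvd_mul.mp h).resolve_left fun h =>
    hp2 ((Nat.prime_dvd_prime_iff_eq hp Nat.prime_two).mp (hp.dvd_of_dvd_pow h)))

/-- A prime other than `2` and `3` dividing `2 ^ i 3 ^ j` times two prime powers is one of them. -/
theorem eq_or_eq_of_dvd_six (hp2 : p ≠ 2) (hp3 : p ≠ 3) {i j a b u v : ℕ} (ha : a.Prime)
    (hb : b.Prime) (h : p ∣ 2 ^ i * (3 ^ j * (a ^ u * b ^ v))) : p = a ∨ p = b :=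
  eq_or_eq_of_dvd hp ha hb ((hp.dvd_mul.mp ((hp.dvd_mul.mp h).resolve_left fun h =>
    hp2 ((Nat.prime_dvd_prime_iff_eq hp Nat.prime_two).mp (hp.dvd_of_dvd_pow h)))).resolve_left
      fun h => hp3 ((Nat.prime_dvd_prime_iff_eq hp Nat.prime_three).mp (hp.dvd_of_dvd_pow h)))

end FA.IsogenyPrimes

namespace FA.Summary

variable (E : WeierstrassCurve ℚ) [E.IsElliptic] [DecidableEq (AlgebraicClosure ℚ)] {p : ℕ}
  [Fact p.Prime] (hp2 : p ≠ 2)
  (hss : ∃ C : VariableChange ℚ_[p], HasGoodReduction ℤ_[p] (C • E.map (algebraMap ℚ ℚ_[p])) ∨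
    HasMultiplicativeReduction ℤ_[p] (C • E.map (algebraMap ℚ ℚ_[p])))
  (G : AddSubgroup (E.toAffine⁄(AlgebraicClosure ℚ)).Point) (hcard : Nat.card G = p)
  (hst : ∀ σ : AlgebraicClosure ℚ ≃ₐ[ℚ] AlgebraicClosure ℚ, ∀ P ∈ G,
    Affine.Point.map σ.toAlgHom P ∈ G)

include hp2 hss hcard hst

/-- **A prime of an isogeny divides `l ^ 12 + 1 - t₁₂`**: semistable at the odd prime `p` and good
at `l ≠ p`, with a stable subgroup of order `p`; here `t₁₂` is the twelfth trace from `a_l`. -/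
theorem isogenyPrime_dvd_twelve {l : ℕ} [Fact l.Prime] (hlp : l ≠ p)
    (hl : ∃ C : VariableChange ℚ_[l], HasGoodReduction ℤ_[l] (C • E.map (algebraMap ℚ ℚ_[l]))) :
    E.LFunction l ^ 2 ≤ 4 * l ∧ (p : ℤ) ∣ (l : ℤ) ^ 12 + 1 - pointTrace (E.LFunction l) l 12 := by
  obtain rfl : (inferInstance : DecidableEq (AlgebraicClosure ℚ)) =
      instDecEqAlgebraicClosureRat := Subsingleton.elim _ _
  obtain ⟨Cp, hCp⟩ := hss
  obtain ⟨Cl, hCl⟩ := hl
  obtain ⟨W, hW, hs⟩ := FA.OggShafarevich.exists_model_semistableOn E (fun q => q = p ∨ q = l)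
    (by
      rintro q _ (rfl | rfl)
      · exact FA.Root.isSemistableAt_of_reduction E hCp
      · exact FA.Root.isSemistableAt_of_reduction E (Or.inl hCl))
  have hlgood : ¬ (l : ℤ) ∣ W.Δ := fun hd => FA.Root.not_hasGoodReduction_of_bad hW hd
    (fun hc => hs l Fact.out (Or.inr rfl) ⟨hd, hc⟩) Cl hCl
  obtain ⟨C, hC⟩ := hW
  refine ⟨hasse_LFunction E W C hC Fact.out hlgood, ?_⟩
  haveI := FA.Frob.ratCurve_isElliptic_of_Δ (FA.Frob.Δ_ne_zero_of_model ⟨C, hC⟩)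
  obtain ⟨g, hg0, hgp, hgst⟩ :=
    FA.IsogenyPrimes.exists_stable_point ⟨C, hC⟩ Fact.out G hcard hst
  rw [FA.Root.LFunction_apply_prime E W ⟨C, hC⟩ Fact.out hlgood]
  exact FA.IsogenyPrimes.dvd_of_stable_twelve hp2 (hs p Fact.out (Or.inl rfl)) hg0 hgp hgst
    Fact.out hlp hlgood

/-- **An explicit bound**: `p ≤ (l ^ 6 + 1) ^ 2`. -/
theorem isogenyPrime_le_twelve {l : ℕ} [Fact l.Prime] (hlp : l ≠ p)
    (hl : ∃ C : VariableChange ℚ_[l], HasGoodReduction ℤ_[l] (C • E.map (algebraMap ℚ ℚ_[l]))) :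
    p ≤ (l ^ 6 + 1) ^ 2 := by
  obtain ⟨ha, hd⟩ := isogenyPrime_dvd_twelve E hp2 hss G hcard hst hlp hl
  set a := E.LFunction l
  have h12 : pointTrace a l 12 = pointTrace a l 6 ^ 2 - 2 * (l : ℤ) ^ 6 := by
    simp only [pointTrace]; ring
  have h6 : pointTrace a l 6 ^ 2 - 4 * (l : ℤ) ^ 6 =
      (a ^ 2 - 4 * l) * (a ^ 5 - 4 * l * a ^ 3 + 3 * (l : ℤ) ^ 2 * a) ^ 2 := by
    simp only [pointTrace]; ring
  have hl6 : (64 : ℤ) ≤ (l : ℤ) ^ 6 := le_trans (by norm_num) (pow_le_pow_left₀ (by norm_num)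
    (show (2 : ℤ) ≤ l by exact_mod_cast (Fact.out : l.Prime).two_le) 6)
  have hle : pointTrace a l 6 ^ 2 ≤ 4 * (l : ℤ) ^ 6 := by
    nlinarith [mul_nonneg (sub_nonneg.mpr ha)
      (sq_nonneg (a ^ 5 - 4 * l * a ^ 3 + 3 * (l : ℤ) ^ 2 * a))]
  rw [h12] at hd
  have := Int.le_of_dvd (by nlinarith) hd
  zify
  nlinarith [sq_nonneg (pointTrace a l 6)]

/-- **Isogeny primes of curves with good reduction at `2`**: `p ∈ {3, 5, 7, 13, 37}`, with
`p ∈ {3, 7}`, `{7, 37}`, `{5, 13}` for `a₂ = 0, ±1, ±2`. -/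
theorem isogenyPrime_of_good_two
    (hl : ∃ C : VariableChange ℚ_[2], HasGoodReduction ℤ_[2] (C • E.map (algebraMap ℚ ℚ_[2]))) :
    (E.LFunction 2 = 0 ∧ (p = 3 ∨ p = 7)) ∨ (|E.LFunction 2| = 1 ∧ (p = 7 ∨ p = 37)) ∨
      (|E.LFunction 2| = 2 ∧ (p = 5 ∨ p = 13)) := by
  obtain ⟨ha, hd⟩ := isogenyPrime_dvd_twelve E hp2 hss G hcard hst (Ne.symm hp2) hl
  have hp : p.Prime := Fact.out
  generalize E.LFunction 2 = a at *
  norm_num at ha
  obtain ⟨h1, h2⟩ : -2 ≤ a ∧ a ≤ 2 := by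
    constructor <;> by_contra hc <;> nlinarith [not_le.mp hc]
  interval_cases a <;> norm_num [pointTrace] at hd ⊢
  · exact eq_or_eq_of_dvd hp (by norm_num) (by norm_num)
      (show p ∣ 5 ^ 2 * 13 ^ 2 by exact_mod_cast hd)
  · exact eq_or_eq_of_dvd_two hp hp2 (by norm_num) (by norm_num)
      (show p ∣ 2 ^ 4 * (7 ^ 1 * 37 ^ 1) by exact_mod_cast hd)
  · exact eq_or_eq_of_dvd hp (by norm_num) (by norm_num)
      (show p ∣ 3 ^ 4 * 7 ^ 2 by exact_mod_cast hd)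
  · exact eq_or_eq_of_dvd_two hp hp2 (by norm_num) (by norm_num)
      (show p ∣ 2 ^ 4 * (7 ^ 1 * 37 ^ 1) by exact_mod_cast hd)
  · exact eq_or_eq_of_dvd hp (by norm_num) (by norm_num)
      (show p ∣ 5 ^ 2 * 13 ^ 2 by exact_mod_cast hd)

/-- **Isogeny primes of curves with good reduction at `3`**: `p ∈ {5, 7, 13, 19, 37, 97}` besides
`3`, with `p ∈ {7, 13}`, `{5, 37}`, `{19, 97}` for `|a₃| ∈ {0, 3}`, `1`, `2`. -/
theorem isogenyPrime_of_good_three (hp3 : p ≠ 3)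
    (hl : ∃ C : VariableChange ℚ_[3], HasGoodReduction ℤ_[3] (C • E.map (algebraMap ℚ ℚ_[3]))) :
    ((E.LFunction 3 = 0 ∨ |E.LFunction 3| = 3) ∧ (p = 7 ∨ p = 13)) ∨
      (|E.LFunction 3| = 1 ∧ (p = 5 ∨ p = 37)) ∨ (|E.LFunction 3| = 2 ∧ (p = 19 ∨ p = 97)) := by
  obtain ⟨ha, hd⟩ := isogenyPrime_dvd_twelve E hp2 hss G hcard hst (Ne.symm hp3) hl
  have hp : p.Prime := Fact.out
  generalize E.LFunction 3 = a at *
  norm_num at ha
  obtain ⟨h1, h2⟩ : -3 ≤ a ∧ a ≤ 3 := by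
    constructor <;> by_contra hc <;> nlinarith [not_le.mp hc]
  interval_cases a <;> norm_num [pointTrace] at hd ⊢
  · exact eq_or_eq_of_dvd_six hp hp2 hp3 (by norm_num) (by norm_num)
      (show p ∣ 2 ^ 6 * (3 ^ 0 * (7 ^ 2 * 13 ^ 2)) by exact_mod_cast hd)
  · exact eq_or_eq_of_dvd_six hp hp2 hp3 (by norm_num) (by norm_num)
      (show p ∣ 2 ^ 5 * (3 ^ 2 * (19 ^ 1 * 97 ^ 1)) by exact_mod_cast hd)
  · exact eq_or_eq_of_dvd_six hp hp2 hp3 (by norm_num) (by norm_num)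
      (show p ∣ 2 ^ 6 * (3 ^ 2 * (5 ^ 2 * 37 ^ 1)) by exact_mod_cast hd)
  · exact eq_or_eq_of_dvd_six hp hp2 hp3 (by norm_num) (by norm_num)
      (show p ∣ 2 ^ 6 * (3 ^ 0 * (7 ^ 2 * 13 ^ 2)) by exact_mod_cast hd)
  · exact eq_or_eq_of_dvd_six hp hp2 hp3 (by norm_num) (by norm_num)
      (show p ∣ 2 ^ 6 * (3 ^ 2 * (5 ^ 2 * 37 ^ 1)) by exact_mod_cast hd)
  · exact eq_or_eq_of_dvd_six hp hp2 hp3 (by norm_num) (by norm_num)
      (show p ∣ 2 ^ 5 * (3 ^ 2 * (19 ^ 1 * 97 ^ 1)) by exact_mod_cast hd)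
  · exact eq_or_eq_of_dvd_six hp hp2 hp3 (by norm_num) (by norm_num)
      (show p ∣ 2 ^ 6 * (3 ^ 0 * (7 ^ 2 * 13 ^ 2)) by exact_mod_cast hd)

/-- **Good reduction at `2` and `3`**: an isogeny prime `p ≥ 5` is one of `5, 7, 13, 37`. -/
theorem isogenyPrime_of_good_two_three (hp3 : p ≠ 3)
    (h2 : ∃ C : VariableChange ℚ_[2], HasGoodReduction ℤ_[2] (C • E.map (algebraMap ℚ ℚ_[2])))
    (h3 : ∃ C : VariableChange ℚ_[3], HasGoodReduction ℤ_[3] (C • E.map (algebraMap ℚ ℚ_[3]))) :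
    p = 5 ∨ p = 7 ∨ p = 13 ∨ (p = 37 ∧ |E.LFunction 2| = 1 ∧ |E.LFunction 3| = 1) := by
  have ha := isogenyPrime_of_good_two E hp2 hss G hcard hst h2
  have hb := isogenyPrime_of_good_three E hp2 hss G hcard hst hp3 h3
  rcases ha with ⟨ha, h | h⟩ | ⟨ha, h | h⟩ | ⟨ha, h | h⟩ <;>
    rcases hb with ⟨hb, h' | h'⟩ | ⟨hb, h' | h'⟩ | ⟨hb, h' | h'⟩ <;> simp_all

end FA.Summary

end
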