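import Fermat.Agent.Root.SummaryAlmostAllSerreCurves
import Fermat.Agent.SerreCurve.Conductor
import Fermat.Agent.SerreCurve.Division

/-!
# The division fields of almost all elliptic curves

For almost every `y² = x³ + A x + B` the image of Galois in the automorphisms of `E[N]` is known at
every `N`: with `d` the squarefree part of `-(4 A³ + 27 B²)` and `D` the conductor of `ℚ(√d)` it
has index two if `lcm 2 D ∣ N` and is everything otherwise (Jones's `m_E`).
-/

set_option autoImplicit false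
set_option linter.style.haveILetI false

noncomputable section

open Filter Topology WeierstrassCurve WeierstrassCurve.Affine FA.EC FA.Frob FA.RT FA.SerreCurve
open FA.Two (deltaRoot)
open scoped WeierstrassCurve.Affine

local notation "Qb" => AlgebraicClosure ℚ
local notation "GQ" => AlgebraicClosure ℚ ≃ₐ[ℚ] AlgebraicClosure ℚ

namespace FA.SerreCurve

/-- Every nonzero integer is a square times a squarefree one. -/
theorem exists_sq_mul_squarefree {u : ℤ} (hu : u ≠ 0) :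
    ∃ d c : ℤ, Squarefree d ∧ c ≠ 0 ∧ u = c ^ 2 * d := by
  obtain ⟨a, b, hab, ha⟩ := Nat.sq_mul_squarefree u.natAbs
  have hb : b ≠ 0 := fun h => Int.natAbs_ne_zero.mpr hu (by rw [← hab, h]; simp)
  have hab' : ((u.natAbs : ℕ) : ℤ) = (b : ℤ) ^ 2 * a := by rw [← hab]; push_cast; ring
  rcases Int.natAbs_eq u with h | h
  · exact ⟨a, b, Int.squarefree_natCast.mpr ha, Int.natCast_ne_zero.mpr hb, h.trans hab'⟩
  · exact ⟨-a, b, Int.squarefree_natAbs.mp (by simpa using ha), Int.natCast_ne_zero.mpr hb,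
      by rw [h, hab']; ring⟩

/-- The levels of `√Δ` for `Δ = c² d`. -/
theorem isLevel_deltaRoot_iff {W : WeierstrassCurve ℤ} [(ratCurve W).IsElliptic] {c d : ℤ}
    (hc : c ≠ 0) (hd : Squarefree d) (h : W.Δ = c ^ 2 * d) {N : ℕ} (hN : N ≠ 0) :
    IsLevel (deltaRoot W) N ↔ (if d % 4 = 1 then d.natAbs else 4 * d.natAbs) ∣ N := by
  have hc' : (c : Qb) ≠ 0 := Int.cast_ne_zero.mpr hc
  rw [← isLevel_iff hd (s := deltaRoot W / c) (by
    rw [div_pow, FA.Two.deltaRoot_sq, h]; push_cast; field_simp) hN]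
  refine forall₂_congr fun σ _ => ?_
  rw [map_div₀, map_intCast, div_left_inj' hc']

end FA.SerreCurve

namespace FA.Summary

open FA.AlmostAll

/-- **The levels of a square root**: for squarefree `d` and `N ≠ 0` what fixes the `N`-th roots of
unity fixes `√d` exactly when `|d|`, or `4 |d|` if `d` is not `1 mod 4`, divides `N`. -/
theorem quadraticCyclotomicLevel {d : ℤ} (hd : Squarefree d) {s : AlgebraicClosure ℚ}
    (hs : s ^ 2 = (d : AlgebraicClosure ℚ)) {N : ℕ} (hN : N ≠ 0) :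
    (∀ σ : GQ, (∀ μ : AlgebraicClosure ℚ, μ ^ N = 1 → σ μ = μ) → σ s = s) ↔
      (if d % 4 = 1 then d.natAbs else 4 * d.natAbs) ∣ N :=
  isLevel_iff hd hs hN

/-- **The division fields of almost all elliptic curves over `ℚ`**: outside a negligible set, with
`-(4 A³ + 27 B²) = c² d`, `d` squarefree and `D` the conductor of `ℚ(√d)`, for every `N` at once the
image of Galois in the automorphisms of `E[N]` has index two if `lcm 2 D ∣ N` and one otherwise. -/
theorem almostAll_serreLevel [inst : DecidableEq (AlgebraicClosure ℚ)] :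
    Tendsto (fun XY : ℕ × ℕ => (Set.ncard {AB : ℤ × ℤ | |AB.1| ≤ XY.1 ∧ |AB.2| ≤ XY.2 ∧
        4 * AB.1 ^ 3 + 27 * AB.2 ^ 2 ≠ 0 ∧
        ¬ ∃ d c : ℤ, Squarefree d ∧ -(4 * AB.1 ^ 3 + 27 * AB.2 ^ 2) = c ^ 2 * d ∧
          ∀ N : ℕ, N ≠ 0 →
            ∀ ρ : GQ →* (Submodule.torsionBy ℤ ((⟨0, 0, 0, (AB.1 : ℚ), (AB.2 : ℚ)⟩ :
                  WeierstrassCurve ℚ).toAffine⁄(AlgebraicClosure ℚ)).Point (N : ℤ) ≃ₗ[ℤ]
                Submodule.torsionBy ℤ ((⟨0, 0, 0, (AB.1 : ℚ), (AB.2 : ℚ)⟩ :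
                  WeierstrassCurve ℚ).toAffine⁄(AlgebraicClosure ℚ)).Point (N : ℤ)),
            (∀ σ P, (ρ σ P).1 = Affine.Point.map σ.toAlgHom P.1) →
            ρ.range.index =
              if Nat.lcm 2 (if d % 4 = 1 then d.natAbs else 4 * d.natAbs) ∣ N then 2 else 1} : ℝ) /
      ((2 * XY.1 + 1) * (2 * XY.2 + 1))) atTop (𝓝 0) := by
  obtain rfl : inst = instDecEqAlgebraicClosureRat := Subsingleton.elim _ _
  refine tendsto_of_generic _ fun AB _ _ h hno => hno ?_
  have hW := shortInt_isIntegralModelOf AB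
  have hΔ0 := Δ_ne_zero_of_model hW
  have hΔ : (shortInt AB).Δ = 16 * -(4 * AB.1 ^ 3 + 27 * AB.2 ^ 2) := by
    simp only [WeierstrassCurve.Δ, WeierstrassCurve.b₂, WeierstrassCurve.b₄, WeierstrassCurve.b₆,
      WeierstrassCurve.b₈]
    ring
  obtain ⟨d, c, hd, hc, hcd⟩ := exists_sq_mul_squarefree
    (u := -(4 * AB.1 ^ 3 + 27 * AB.2 ^ 2)) fun e => hΔ0 (by rw [hΔ, e, mul_zero])
  refine ⟨d, c, hd, hcd, ?_⟩
  obtain ⟨q, hS⟩ := exists_setting h hΔ0
  set D := if d % 4 = 1 then d.natAbs else 4 * d.natAbs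
  have hD : D ≠ 0 := by
    have := Int.natAbs_ne_zero.mpr hd.ne_zero
    simp only [D]
    split_ifs <;> omega
  have hiff : ∀ N : ℕ, N ≠ 0 → (IsLevel (deltaRoot (shortInt AB)) N ↔ D ∣ N) := fun N hN =>
    isLevel_deltaRoot_iff (c := 4 * c) (mul_ne_zero (by norm_num) hc) hd
      (by rw [hΔ, hcd]; ring) hN
  rw [show (⟨0, 0, 0, (AB.1 : ℚ), (AB.2 : ℚ)⟩ : WeierstrassCurve ℚ) = ratCurve (shortInt AB) by
    ext <;> simp]
  exact fun N hN ρ hρ => index_torsion hS hD hiff hN ρ hρ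

end FA.Summary

end
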