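import Fermat.Agent.OpenImageAll.Extension
import Fermat.Agent.Root.SummaryCMImage
import Fermat.Agent.Root.SummaryOpenImageAll

/-!
# Serre's open image theorem as an equivalence, in its classical wording

For every elliptic curve over `ℚ`: the image of Galois in the automorphisms of all torsion points
has finite index iff it contains the automorphisms fixing the `m`-torsion for some `m`, iff Galois
is onto `Aut E[p]` for all large `p`, iff no quadratic field has `a_l = 0` at all its inert good
primes. In particular the index is infinite for the thirteen CM values of `j`.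
-/

set_option autoImplicit false
set_option linter.unusedSectionVars false
set_option linter.style.haveILetI false
set_option quotPrecheck false

noncomputable section

open Matrix WeierstrassCurve WeierstrassCurve.Affine FA.EC FA.Frob FA.RT
open scoped WeierstrassCurve.Affine

local notation "Qb" => AlgebraicClosure ℚ
local notation "GQ" => AlgebraicClosure ℚ ≃ₐ[ℚ] AlgebraicClosure ℚ

namespace FA.OpenImageAll

variable {E : WeierstrassCurve ℚ} [E.IsElliptic] {W : WeierstrassCurve ℤ}
  [(ratCurve W).IsElliptic] {p : ℕ} [hp : Fact p.Prime]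

local notation "TE" => (AddCommGroup.torsion (E.toAffine⁄Qb).Point)

/-- A finite index below `p` puts every matrix of order `p` in the image modulo `p`. -/
theorem exists_curveRep_eq_of_pow_eq_one (hW : W.IsIntegralModelOf E)
    [(FA.OpenImage.torsionAction E).range.FiniteIndex]
    (hlt : (FA.OpenImage.torsionAction E).range.index < p)
    {U : Matrix (Fin 2) (Fin 2) (ZMod p)} (hU : U ^ p = 1) :
    ∃ σ, curveRep p W σ = U := by
  classical
  obtain ⟨e, he⟩ := FA.Root.exists_equiv_of_model hW
  obtain ⟨B⟩ := FA.RT.Tate.exists_tateBasis (p := p) W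
  set b := torsBasis (p := p) W
  set L := Matrix.toLinAlgEquiv b U with hL
  have hmemE : ∀ Q : Submodule.torsionBy ℤ ((ratCurve W)⁄Qb).Point (p : ℤ), e Q.1 ∈ TE := fun Q =>
    e.toAddMonoidHom.isOfFinAddOrder (isOfFinAddOrder_iff_nsmul_eq_zero.mpr
      ⟨p, hp.out.pos, by rw [← natCast_zsmul]; exact (Submodule.mem_torsionBy_iff _ _).mp Q.2⟩)
  let lift : Submodule.torsionBy ℤ ((ratCurve W)⁄Qb).Point (p : ℤ) →+ TE :=
    (e.toAddMonoidHom.comp (Submodule.torsionBy ℤ _ (p : ℤ)).toAddSubgroup.subtype).codRestrict _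
      hmemE
  have hdown : ∀ x : (nsmulAddMonoidHom p : TE →+ TE).ker,
      e.symm x.1.1 ∈ Submodule.torsionBy ℤ ((ratCurve W)⁄Qb).Point (p : ℤ) := fun x => by
    rw [Submodule.mem_torsionBy_iff, natCast_zsmul, ← map_nsmul, ← AddSubgroup.coe_nsmul,
      show p • x.1 = 0 from x.2, ZeroMemClass.coe_zero, map_zero]
  let down : (nsmulAddMonoidHom p : TE →+ TE).ker →+
      Submodule.torsionBy ℤ ((ratCurve W)⁄Qb).Point (p : ℤ) :=
    { toFun := fun x => ⟨e.symm x.1.1, hdown x⟩
      map_zero' := Subtype.ext (map_zero e.symm)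
      map_add' := fun x y => Subtype.ext (map_add e.symm x.1.1 y.1.1) }
  have hlift : ∀ x, lift (down x) = x.1 := fun x => Subtype.ext (e.apply_symm_apply x.1.1)
  let f : (nsmulAddMonoidHom p : TE →+ TE).ker →+ TE :=
    lift.comp ((L.toAddMonoidHom - AddMonoidHom.id _).comp down)
  have happ : ∀ x, x.1 + f x = lift (L (down x)) := fun x => by
    show x.1 + lift (L (down x) - down x) = _
    rw [map_sub, hlift, add_sub_cancel]
  obtain ⟨ψ, hψ⟩ := exists_extension (A := TE) (p := p)
    (fun x => AddSubmonoid.isOfFinAddOrder_coe.mp x.2) (fun N hN => by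
      haveI := FA.EC.finite_torsion E hN
      refine Set.Finite.of_finite_image (f := Subtype.val) (((Submodule.torsionBy ℤ
        (E.toAffine⁄Qb).Point (N : ℤ) : Set _).toFinite).subset ?_) Subtype.val_injective.injOn
      rintro _ ⟨x, hx, rfl⟩
      rw [SetLike.mem_coe, Submodule.mem_torsionBy_iff, natCast_zsmul, ← AddSubgroup.coe_nsmul,
        show N • x = 0 from hx, ZeroMemClass.coe_zero])
    (fun x ⟨k, hk⟩ => by
      obtain ⟨v, hv⟩ := B.surj k (e.symm x.1) (by
        rw [← map_nsmul, ← AddSubgroup.coe_nsmul, hk, ZeroMemClass.coe_zero, map_zero])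
      have hy : p • e (B.φ (k + 1) v) = x.1 := by
        rw [← map_nsmul, B.compat, hv, e.apply_symm_apply]
      refine ⟨⟨e (B.φ (k + 1) v), e.toAddMonoidHom.isOfFinAddOrder
        (isOfFinAddOrder_iff_nsmul_eq_zero.mpr ⟨p ^ (k + 1), pow_pos hp.out.pos _,
          B.nsmul_phi _ _⟩)⟩, Subtype.ext ?_⟩
      rw [AddSubgroup.coe_nsmul]
      exact hy)
    f (fun x => by
      show p • lift (L (down x) - down x) = 0
      rw [← map_nsmul, show ∀ Q : Submodule.torsionBy ℤ ((ratCurve W)⁄Qb).Point (p : ℤ),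
        p • Q = 0 from fun Q => Subtype.ext (by
          show p • Q.1 = 0
          rw [← natCast_zsmul]
          exact (Submodule.mem_torsionBy_iff _ _).mp Q.2), map_zero])
    (fun x hx => by
      rw [happ] at hx
      have h0 : L (down x) = 0 := Subtype.ext
        ((e.map_eq_zero_iff).mp (congrArg Subtype.val hx :))
      have hdet : U.det ≠ 0 := fun h => by
        have h1 := congrArg Matrix.det hU
        rw [det_pow, h, zero_pow hp.out.ne_zero, det_one] at h1
        exact zero_ne_one h1
      have h1 : down x = 0 := by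
        have h2 := congrArg (Matrix.toLinAlgEquiv b U⁻¹) h0
        rwa [map_zero, hL, ← Module.End.mul_apply, ← map_mul,
          Matrix.nonsing_inv_mul _ hdet.isUnit, map_one, Module.End.one_apply] at h2
      exact Subtype.ext ((hlift x).symm.trans (by rw [h1, map_zero]; rfl)))
  -- its powers
  have hpow : ∀ (n : ℕ) (Q : Submodule.torsionBy ℤ ((ratCurve W)⁄Qb).Point (p : ℤ)),
      (ψ ^ n) (lift Q) = lift (Matrix.toLinAlgEquiv b (U ^ n) Q) := fun n => by
    induction n with
    | zero => intro Q; rw [pow_zero, pow_zero, map_one]; rfl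
    | succ n ih =>
      intro Q
      have hk : lift Q ∈ (nsmulAddMonoidHom p : TE →+ TE).ker := by
        show p • lift Q = 0
        refine Subtype.ext ?_
        show p • e Q.1 = 0
        rw [← map_nsmul, ← natCast_zsmul, (Submodule.mem_torsionBy_iff _ _).mp Q.2, map_zero]
      have h1 : ψ (lift Q) = lift (L Q) := by
        rw [hψ ⟨lift Q, hk⟩, happ]
        congr 2
        exact Subtype.ext (e.symm_apply_apply Q.1)
      rw [pow_succ, LinearEquiv.mul_apply, h1, ih, pow_succ, map_mul, Module.End.mul_apply]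
  -- a power in the image
  obtain ⟨n, hn0, hnle, σ, hσ⟩ := Subgroup.exists_pow_mem_of_index_ne_zero
    (H := (FA.OpenImage.torsionAction E).range) Subgroup.FiniteIndex.index_ne_zero ψ
  have hrep : curveRep p W σ = U ^ n := by
    rw [curveRep_apply, ← LinearMap.toMatrixAlgEquiv_toLinAlgEquiv b (U ^ n)]
    refine congrArg (LinearMap.toMatrix b b) (LinearMap.ext fun Q => Subtype.ext (e.injective ?_))
    show e (σ • Q.1) = _
    rw [he]
    exact (congrArg Subtype.val (LinearEquiv.congr_fun hσ (lift Q))).trans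
      (congrArg Subtype.val (hpow n Q))
  have hnp : (n : ZMod p) ≠ 0 := fun h => by
    have := Nat.le_of_dvd hn0 ((ZMod.natCast_eq_zero_iff n p).mp h)
    omega
  refine ⟨σ ^ (n : ZMod p)⁻¹.val, ?_⟩
  rw [map_pow, hrep, ← pow_mul, pow_eq_pow_mod _ hU,
    show n * (n : ZMod p)⁻¹.val % p = 1 from by
      rw [← ZMod.val_natCast, Nat.cast_mul, ZMod.natCast_zmod_val,
        mul_inv_cancel₀ hnp, ZMod.val_one],
    pow_one]

/-- **Finite index gives surjectivity at the primes above the index.** -/
theorem surjectiveLarge_of_finiteIndex (hW : W.IsIntegralModelOf E)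
    [(FA.OpenImage.torsionAction E).range.FiniteIndex] : SurjectiveLarge W := by
  refine ⟨(FA.OpenImage.torsionAction E).range.index + 2, fun q hq hlt X hX => ?_⟩
  have hup : ∀ m : ℕ, (!![1, 1; 0, 1] : Matrix (Fin 2) (Fin 2) (ZMod q)) ^ m =
      !![1, (m : ZMod q); 0, 1] := fun m => by
    induction m with
    | zero => simp [Matrix.one_fin_two]
    | succ m ih => rw [pow_succ, ih]; simp [add_comm]
  have hlo : ∀ m : ℕ, (!![1, 0; 1, 1] : Matrix (Fin 2) (Fin 2) (ZMod q)) ^ m =
      !![1, 0; (m : ZMod q), 1] := fun m => by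
    induction m with
    | zero => simp [Matrix.one_fin_two]
    | succ m ih => rw [pow_succ, ih]; simp
  obtain ⟨u, hu⟩ := exists_curveRep_eq_of_pow_eq_one (p := q) hW (by omega)
    (U := !![1, 1; 0, 1]) (by rw [hup, ZMod.natCast_self, Matrix.one_fin_two])
  obtain ⟨l, hl⟩ := exists_curveRep_eq_of_pow_eq_one (p := q) hW (by omega)
    (U := !![1, 0; 1, 1]) (by rw [hlo, ZMod.natCast_self, Matrix.one_fin_two])
  refine FA.Ribet.exists_eq_of_transvection _ (fun v hv => ?_) (fun a ha => ?_) (σ := u)
    (fun h1 => ?_) ?_ hX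
  · by_contra hc
    push Not at hc
    obtain ⟨a, ha⟩ := hc u
    obtain ⟨c, hc'⟩ := hc l
    rw [hu] at ha
    rw [hl] at hc'
    have a0 := congrFun ha 0
    have a1 := congrFun ha 1
    have c0 := congrFun hc' 0
    have c1 := congrFun hc' 1
    simp [mulVec, dotProduct, Fin.sum_univ_two] at a0 a1 c0 c1
    refine hv (funext fun i => ?_)
    have h1 : v 1 = 0 := by
      by_contra hne
      have ha1 : a = 1 := mul_right_cancel₀ hne (by linear_combination -a1)
      subst ha1
      exact hne (by linear_combination a0)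
    have h0 : v 0 = 0 := by linear_combination c1 + (c - 1) * h1
    fin_cases i <;> assumption
  · obtain ⟨g, hg⟩ := FA.TW.exists_cyclotomic_action hq.out (a := a.val) fun hd' => ha <| by
      rw [← ZMod.natCast_zmod_val a, (ZMod.natCast_eq_zero_iff _ _).mpr hd']
    exact ⟨g, by rw [det_curveRep W g a.val hg, ZMod.natCast_zmod_val]⟩
  · rw [hu] at h1
    simpa using congrFun (congrFun h1 0) 1
  · rw [hu]
    ext i j
    fin_cases i <;> fin_cases j <;> simp [Matrix.mul_apply, Fin.sum_univ_two]

end FA.OpenImageAll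

namespace FA.Summary

/-- **Serre's open image theorem, classical form, for every elliptic curve over `ℚ`**. The
following are equivalent: the image of Galois in the automorphisms of all torsion points has finite
index; it contains the automorphisms fixing the points killed by some `m`; Galois is onto
`Aut E[p]` for all large primes `p`; no quadratic field has `a_l = 0` at all its inert good
primes. -/
theorem serreOpenImage_tfae (E : WeierstrassCurve ℚ) [E.IsElliptic]
    [inst : DecidableEq (AlgebraicClosure ℚ)] :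
    List.TFAE [
      ∃ ρ : (AlgebraicClosure ℚ ≃ₐ[ℚ] AlgebraicClosure ℚ) →*
          (AddCommGroup.torsion (E.toAffine⁄(AlgebraicClosure ℚ)).Point ≃ₗ[ℤ]
            AddCommGroup.torsion (E.toAffine⁄(AlgebraicClosure ℚ)).Point),
        (∀ σ x, (ρ σ x).1 = Affine.Point.map σ.toAlgHom x.1) ∧ ρ.range.FiniteIndex,
      ∃ m : ℕ, 0 < m ∧ ∀ ψ : AddCommGroup.torsion (E.toAffine⁄(AlgebraicClosure ℚ)).Point ≃ₗ[ℤ]
          AddCommGroup.torsion (E.toAffine⁄(AlgebraicClosure ℚ)).Point,
        (∀ x, m • x.1 = 0 → ψ x = x) →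
          ∃ σ : AlgebraicClosure ℚ ≃ₐ[ℚ] AlgebraicClosure ℚ, ∀ x,
            Affine.Point.map σ.toAlgHom x.1 = (ψ x).1,
      ∃ M : ℕ, ∀ p : ℕ, p.Prime → M < p →
        ∀ φ : Submodule.torsionBy ℤ (E.toAffine⁄(AlgebraicClosure ℚ)).Point (p : ℤ) ≃+
          Submodule.torsionBy ℤ (E.toAffine⁄(AlgebraicClosure ℚ)).Point (p : ℤ),
          ∃ σ : AlgebraicClosure ℚ ≃ₐ[ℚ] AlgebraicClosure ℚ, ∀ P,
            Affine.Point.map σ.toAlgHom P.1 = (φ P).1,
      ¬ ∃ d : ℤ, Squarefree d ∧ d ≠ 1 ∧ ∀ l : ℕ, ∀ [Fact l.Prime],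
        (∃ C : VariableChange ℚ_[l],
          HasGoodReduction ℤ_[l] (C • E.map (algebraMap ℚ ℚ_[l]))) →
        ¬ IsSquare (d : ZMod l) → E.LFunction l = 0] := by
  obtain rfl : inst = instDecEqAlgebraicClosureRat := Subsingleton.elim _ _
  tfae_have 3 → 4 := fun h => (serreOpenImage_adelic_iff E).mp
    ((serreOpenImage_adelic_iff_surjective_large E).mpr h)
  tfae_have 4 → 2 := fun h => by
    obtain ⟨m, hm, key⟩ := (serreOpenImage_adelic_iff E).mpr h
    refine ⟨m, hm, fun ψ hψ => ?_⟩
    obtain ⟨σ, rfl⟩ := FA.OpenImage.mem_range_of_fix E key ψ hψ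
    exact ⟨σ, fun x => rfl⟩
  tfae_have 2 → 1 := fun ⟨m, hm, h⟩ => ⟨FA.OpenImage.torsionAction E, fun _ _ => rfl,
    FA.OpenImage.finiteIndex_of_fix E hm fun ψ hψ => by
      obtain ⟨σ, hσ⟩ := h ψ hψ
      exact ⟨σ, LinearEquiv.ext fun x => Subtype.ext (hσ x)⟩⟩
  tfae_have 1 → 3 := fun ⟨ρ, hρ, hfi⟩ => by
    obtain rfl : ρ = FA.OpenImage.torsionAction E :=
      MonoidHom.ext fun σ => LinearEquiv.ext fun x => Subtype.ext (hρ σ x)
    obtain ⟨W, hW⟩ := FA.Frob.exists_integralModel E
    haveI := FA.Frob.ratCurve_isElliptic_of_Δ (FA.Frob.Δ_ne_zero_of_model hW)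
    obtain ⟨M, hM⟩ := FA.OpenImageAll.surjectiveLarge_of_finiteIndex hW
    refine ⟨M + 4, fun p hp hlt φ => ?_⟩
    haveI := Fact.mk hp
    haveI : NeZero (p ^ 1) := ⟨pow_ne_zero _ hp.ne_zero⟩
    revert φ
    rw [← pow_one (p : ℤ)]
    intro φ
    exact FA.Root.exists_map_eq_of_model hW _ (FA.PadicImage.exists_smul_eq_pow_of_base (by omega)
      (fun B X hX => by
        obtain ⟨σ, hσ⟩ := hM p (by omega) X hX
        exact ⟨σ, (FA.PadicImage.rep_map_toZMod B σ).trans hσ⟩) 1) φ
  tfae_finish

/-- **Infinite index with complex multiplication**: for the thirteen CM values of `j` the image of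
Galois in the automorphisms of all torsion points has infinite index. -/
theorem not_serreFiniteIndex_of_cm_all (E : WeierstrassCurve ℚ) [E.IsElliptic]
    [inst : DecidableEq (AlgebraicClosure ℚ)]
    (hj : E.j ∈ ({0, 54000, -12288000, 1728, 287496, -3375, 16581375, 8000, -32768, -884736,
      -884736000, -147197952000, -262537412640768000} : Finset ℚ)) :
    ¬ ∃ ρ : (AlgebraicClosure ℚ ≃ₐ[ℚ] AlgebraicClosure ℚ) →*
        (AddCommGroup.torsion (E.toAffine⁄(AlgebraicClosure ℚ)).Point ≃ₗ[ℤ]
          AddCommGroup.torsion (E.toAffine⁄(AlgebraicClosure ℚ)).Point),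
      (∀ σ x, (ρ σ x).1 = Affine.Point.map σ.toAlgHom x.1) ∧ ρ.range.FiniteIndex := by
  obtain rfl : inst = instDecEqAlgebraicClosureRat := Subsingleton.elim _ _
  intro h
  obtain ⟨M, hM⟩ := ((serreOpenImage_tfae E).out 0 2).mp h
  obtain ⟨l, hl, hlp⟩ := Nat.exists_infinite_primes (M + 3)
  exact not_galoisSurjectiveTorsion_of_cm_all E hlp (by omega) hj (hM l hlp (by omega))

end FA.Summary

end
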