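import Fermat.Agent.SerreCurve.IndexTwo
import Fermat.Agent.Root.SummaryOpenImageIff
import Fermat.Agent.CM.Common
import Fermat.Agent.Root.SummarySerreCurves

/-!
# The structure of Serre curves from the index alone

An elliptic curve over `ℚ` whose image of Galois in the automorphisms of the torsion has index two,
with nothing else assumed, induces every automorphism of `E[N]` for odd `N`, has no cyclic stable
subgroup, and every curve with its invariant again has index two: being a Serre curve depends only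
on `j`.
-/

set_option autoImplicit false
set_option linter.style.haveILetI false

noncomputable section

open WeierstrassCurve WeierstrassCurve.Affine FA.EC FA.Frob FA.RT
open scoped WeierstrassCurve.Affine

local notation "Qb" => AlgebraicClosure ℚ
local notation "GQ" => AlgebraicClosure ℚ ≃ₐ[ℚ] AlgebraicClosure ℚ

namespace FA.SerreCurve

/-- A model of a curve with image of index two, with its isomorphism of points. -/
theorem exists_model_index_two (E : WeierstrassCurve ℚ) [E.IsElliptic]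
    (ρ : GQ →* (AddCommGroup.torsion (E.toAffine⁄Qb).Point ≃ₗ[ℤ]
      AddCommGroup.torsion (E.toAffine⁄Qb).Point))
    (hρ : ∀ σ x, (ρ σ x).1 = Affine.Point.map σ.toAlgHom x.1) (h : ρ.range.index = 2) :
    ∃ (W : WeierstrassCurve ℤ) (_ : (ratCurve W).IsElliptic), W.IsIntegralModelOf E ∧
      (FA.OpenImage.torsionAction (ratCurve W)).range.index = 2 := by
  obtain ⟨W, hW⟩ := FA.Frob.exists_integralModel E
  haveI := ratCurve_isElliptic_of_Δ (Δ_ne_zero_of_model hW)
  obtain ⟨e, he⟩ := FA.Root.exists_equiv_of_model hW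
  exact ⟨W, inferInstance, hW, (index_range_of_equiv e he ρ hρ).symm.trans h⟩

/-- A curve with image of index two is stable under twists. -/
theorem stableUnderTwists_of_range (E : WeierstrassCurve ℚ) [E.IsElliptic]
    (ρ : GQ →* (AddCommGroup.torsion (E.toAffine⁄Qb).Point ≃ₗ[ℤ]
      AddCommGroup.torsion (E.toAffine⁄Qb).Point))
    (hρ : ∀ σ x, (ρ σ x).1 = Affine.Point.map σ.toAlgHom x.1) (h : ρ.range.index = 2) :
    StableUnderTwists E := by
  obtain ⟨W, _, hW, hi⟩ := exists_model_index_two E ρ hρ h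
  obtain ⟨e, he⟩ := FA.Root.exists_equiv_of_model hW
  exact stableUnderTwists_of_equiv e he (stableUnderTwists_of_index_two hi)

/-- A Serre curve has invariant other than `0` and `1728`. -/
theorem j_ne_of_range (E : WeierstrassCurve ℚ) [E.IsElliptic]
    (ρ : GQ →* (AddCommGroup.torsion (E.toAffine⁄Qb).Point ≃ₗ[ℤ]
      AddCommGroup.torsion (E.toAffine⁄Qb).Point))
    (hρ : ∀ σ x, (ρ σ x).1 = Affine.Point.map σ.toAlgHom x.1) (h : ρ.range.index = 2) :
    E.j ≠ 0 ∧ E.j ≠ 1728 := by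
  refine ⟨fun hj => ?_, fun hj => ?_⟩ <;>
    exact FA.Summary.not_serreFiniteIndex_of_cm_all E (by rw [hj]; simp)
      ⟨ρ, hρ, ⟨by rw [h]; norm_num⟩⟩

end FA.SerreCurve

namespace FA.Summary

open FA.SerreCurve

/-- **A Serre curve has the largest image at every odd level**: if the image of Galois in the
automorphisms of the torsion has index two, then for every odd `N` Galois induces every
automorphism of the `N`-torsion. -/
theorem serreCurve_oddTorsion (E : WeierstrassCurve ℚ) [E.IsElliptic]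
    [inst : DecidableEq (AlgebraicClosure ℚ)]
    (ρ : GQ →* (AddCommGroup.torsion (E.toAffine⁄(AlgebraicClosure ℚ)).Point ≃ₗ[ℤ]
      AddCommGroup.torsion (E.toAffine⁄(AlgebraicClosure ℚ)).Point))
    (hρ : ∀ σ x, (ρ σ x).1 = Affine.Point.map σ.toAlgHom x.1) (h : ρ.range.index = 2)
    {N : ℕ} (hN : Odd N)
    (φ : Submodule.torsionBy ℤ (E.toAffine⁄(AlgebraicClosure ℚ)).Point (N : ℤ) ≃+
      Submodule.torsionBy ℤ (E.toAffine⁄(AlgebraicClosure ℚ)).Point (N : ℤ)) :
    ∃ σ : GQ, ∀ P, Affine.Point.map σ.toAlgHom P.1 = (φ P).1 := by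
  obtain rfl : inst = instDecEqAlgebraicClosureRat := Subsingleton.elim _ _
  obtain ⟨W, _, hW, hi⟩ := exists_model_index_two E ρ hρ h
  exact FA.Root.exists_map_eq_of_model hW N (fun ψ => exists_smul_eq_of_index_two hi hN ψ) φ

/-- **A Serre curve has no cyclic isogeny**: if the image has index two, the only finite cyclic
Galois stable subgroup is the trivial one. -/
theorem serreCurve_noStableCyclic (E : WeierstrassCurve ℚ) [E.IsElliptic]
    [inst : DecidableEq (AlgebraicClosure ℚ)]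
    (ρ : GQ →* (AddCommGroup.torsion (E.toAffine⁄(AlgebraicClosure ℚ)).Point ≃ₗ[ℤ]
      AddCommGroup.torsion (E.toAffine⁄(AlgebraicClosure ℚ)).Point))
    (hρ : ∀ σ x, (ρ σ x).1 = Affine.Point.map σ.toAlgHom x.1) (h : ρ.range.index = 2)
    (G : AddSubgroup (E.toAffine⁄(AlgebraicClosure ℚ)).Point) [Finite G] [IsAddCyclic G]
    (hst : ∀ σ : GQ, ∀ P ∈ G, Affine.Point.map σ.toAlgHom P ∈ G) : G = ⊥ := by
  obtain rfl : inst = instDecEqAlgebraicClosureRat := Subsingleton.elim _ _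
  obtain ⟨W, _, hW, hi⟩ := exists_model_index_two E ρ hρ h
  obtain ⟨e, he⟩ := FA.Root.exists_equiv_of_model hW
  obtain ⟨P, hP⟩ := IsAddCyclic.exists_generator (α := G)
  by_contra hne
  have hP1 : addOrderOf P ≠ 1 := fun h1 => hne ((AddSubgroup.eq_bot_iff_forall G).mpr fun Q hQ => by
    obtain ⟨k, hk⟩ := AddSubgroup.mem_zmultiples_iff.mp (hP ⟨Q, hQ⟩)
    rw [AddMonoid.addOrderOf_eq_one_iff.mp h1, smul_zero] at hk
    exact (congrArg Subtype.val hk).symm)
  obtain ⟨l, hl, m, hm⟩ := Nat.exists_prime_and_dvd hP1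
  have hm0 : m ≠ 0 := fun e0 => (addOrderOf_pos P).ne' (by rw [hm, e0, mul_zero])
  have hlQ : l • (m • P) = 0 := by rw [← mul_nsmul', ← hm, addOrderOf_nsmul_eq_zero]
  have hQ : m • P ≠ 0 := fun e0 => by
    have := Nat.le_of_dvd (Nat.pos_of_ne_zero hm0) (addOrderOf_dvd_of_nsmul_eq_zero e0)
    rw [hm] at this
    nlinarith [hl.two_le, Nat.pos_of_ne_zero hm0]
  obtain ⟨σ, hσ⟩ := exists_smul_ne_of_index_two hi hl (P := e.symm (m • P).1)
    (fun e0 => hQ (Subtype.ext (e.symm.injective (e0.trans (map_zero _).symm))))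
    (by rw [← map_nsmul, ← AddSubgroup.coe_nsmul, hlQ, ZeroMemClass.coe_zero, map_zero])
  obtain ⟨k, hk⟩ := AddSubgroup.mem_zmultiples_iff.mp (hP ⟨_, hst σ P.1 P.2⟩)
  refine hσ (k % (addOrderOf P : ℤ)).toNat (e.injective ?_)
  rw [he, map_nsmul, AddEquiv.apply_symm_apply, AddSubgroup.coe_nsmul, map_nsmul]
  have hk' : Affine.Point.map (W' := E.toAffine) σ.toAlgHom P.1 =
      ((k % (addOrderOf P : ℤ)).toNat : ℤ) • P.1 := by
    rw [Int.toNat_of_nonneg (Int.emod_nonneg _ (Int.natCast_ne_zero.mpr (addOrderOf_pos P).ne')),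
      ← AddSubgroup.coe_zsmul, mod_addOrderOf_zsmul, hk]
  rw [hk', natCast_zsmul, smul_comm]

/-- **Being a Serre curve depends only on the invariant**: if the image of `E` has index two, so
has that of every curve `E'` with the same `j`. -/
theorem serreCurve_of_j_eq (E E' : WeierstrassCurve ℚ) [E.IsElliptic] [E'.IsElliptic]
    (hj : E'.j = E.j) [inst : DecidableEq (AlgebraicClosure ℚ)]
    (ρ : GQ →* (AddCommGroup.torsion (E.toAffine⁄(AlgebraicClosure ℚ)).Point ≃ₗ[ℤ]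
      AddCommGroup.torsion (E.toAffine⁄(AlgebraicClosure ℚ)).Point))
    (hρ : ∀ σ x, (ρ σ x).1 = Affine.Point.map σ.toAlgHom x.1) (h : ρ.range.index = 2) :
    ∃ ρ' : GQ →* (AddCommGroup.torsion (E'.toAffine⁄(AlgebraicClosure ℚ)).Point ≃ₗ[ℤ]
        AddCommGroup.torsion (E'.toAffine⁄(AlgebraicClosure ℚ)).Point),
      (∀ σ x, (ρ' σ x).1 = Affine.Point.map σ.toAlgHom x.1) ∧ ρ'.range.index = 2 := by
  obtain rfl : inst = instDecEqAlgebraicClosureRat := Subsingleton.elim _ _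
  obtain ⟨hj0, hj1⟩ := j_ne_of_range E ρ hρ h
  have hE : StableUnderTwists E := stableUnderTwists_of_range E ρ hρ h
  obtain ⟨W, hW⟩ := FA.Frob.exists_integralModel E
  haveI := ratCurve_isElliptic_of_Δ (Δ_ne_zero_of_model hW)
  obtain ⟨C, hC⟩ := hW
  have hjW : ∀ (F : WeierstrassCurve ℚ) [F.IsElliptic], F.c₄ ^ 3 = F.j * F.Δ := fun F _ => by
    rw [WeierstrassCurve.j, Units.val_inv_eq_inv_val, coe_Δ']
    field_simp [F.isUnit_Δ.ne_zero]
  have hj6 : ∀ (F : WeierstrassCurve ℚ) [F.IsElliptic], F.c₆ ^ 2 = (F.j - 1728) * F.Δ :=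
    fun F _ => by linear_combination hjW F + F.c_relation
  have hu : ((C.u⁻¹ : ℚˣ) : ℚ) ≠ 0 := Units.ne_zero _
  have e4 : (W.c₄ : ℚ) = ((C.u⁻¹ : ℚˣ) : ℚ) ^ 4 * E.c₄ := by
    rw [← variableChange_c₄, hC, map_c₄, eq_intCast]
  have e6 : (W.c₆ : ℚ) = ((C.u⁻¹ : ℚˣ) : ℚ) ^ 6 * E.c₆ := by
    rw [← variableChange_c₆, hC, map_c₆, eq_intCast]
  have eΔ : (W.Δ : ℚ) = ((C.u⁻¹ : ℚˣ) : ℚ) ^ 12 * E.Δ := by
    rw [← variableChange_Δ, hC, map_Δ, eq_intCast]
  have hΔ := E.isUnit_Δ.ne_zero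
  obtain ⟨z, hz, hz4, hz6, -⟩ := FA.CM.exists_scaling_of_j E' W
    (fun e0 => mul_ne_zero hj0 hΔ (by
      rw [← hjW E]
      rw [e0, Int.cast_zero, eq_comm, mul_eq_zero, or_iff_right (pow_ne_zero 4 hu)] at e4
      rw [e4, zero_pow three_ne_zero]))
    (fun e0 => mul_ne_zero (sub_ne_zero.mpr hj1) hΔ (by
      rw [← hj6 E]
      rw [e0, Int.cast_zero, eq_comm, mul_eq_zero, or_iff_right (pow_ne_zero 6 hu)] at e6
      rw [e6, zero_pow two_ne_zero]))
    (by rw [e4, eΔ, hj]; linear_combination ((C.u⁻¹ : ℚˣ) : ℚ) ^ 12 * hjW E)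
  set w := z * ((C.u⁻¹ : ℚˣ) : ℚ) ^ 2 with hw
  have htw : FA.Twists.quadTwist E' 1 = FA.Twists.quadTwist E w := by
    rw [FA.Twists.quadTwist, FA.Twists.quadTwist, hz4, hz6, e4, e6, hw]
    congr 1 <;> ring
  have hE' : StableUnderTwists E' := by
    rw [← stableUnderTwists_quadTwist_iff E' one_ne_zero, htw,
      stableUnderTwists_quadTwist_iff E (mul_ne_zero hz (pow_ne_zero 2 hu))]
    exact hE
  exact ⟨FA.OpenImage.torsionAction E', fun _ _ => rfl, hE'.1⟩

/-- **Every twist of a Serre curve is a Serre curve.** -/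
theorem serreCurve_twist (E : WeierstrassCurve ℚ) [E.IsElliptic] {d : ℚ} (hd : d ≠ 0)
    [inst : DecidableEq (AlgebraicClosure ℚ)]
    (ρ : GQ →* (AddCommGroup.torsion (E.toAffine⁄(AlgebraicClosure ℚ)).Point ≃ₗ[ℤ]
      AddCommGroup.torsion (E.toAffine⁄(AlgebraicClosure ℚ)).Point))
    (hρ : ∀ σ x, (ρ σ x).1 = Affine.Point.map σ.toAlgHom x.1) (h : ρ.range.index = 2) :
    ∃ ρ' : GQ →* (AddCommGroup.torsion ((⟨0, 0, 0, -27 * (d ^ 2 * E.c₄), -54 * (d ^ 3 * E.c₆)⟩ :
          WeierstrassCurve ℚ).toAffine⁄(AlgebraicClosure ℚ)).Point ≃ₗ[ℤ]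
        AddCommGroup.torsion ((⟨0, 0, 0, -27 * (d ^ 2 * E.c₄), -54 * (d ^ 3 * E.c₆)⟩ :
          WeierstrassCurve ℚ).toAffine⁄(AlgebraicClosure ℚ)).Point),
      (∀ σ x, (ρ' σ x).1 = Affine.Point.map σ.toAlgHom x.1) ∧ ρ'.range.index = 2 := by
  obtain rfl : inst = instDecEqAlgebraicClosureRat := Subsingleton.elim _ _
  exact ⟨FA.OpenImage.torsionAction (FA.Twists.quadTwist E d), fun _ _ => rfl,
    ((stableUnderTwists_quadTwist_iff E hd).mpr (stableUnderTwists_of_range E ρ hρ h)).1⟩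

end FA.Summary

end
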