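import Fermat.Agent.SerreCurve.IndexTwoLevel
import Fermat.Agent.SerreCurve.Conductor
import Fermat.Agent.Root.SummaryAlmostAllDivisionFields
import Fermat.Agent.Root.SummarySerreCurveStructure

/-!
# Jones's description of every Serre curve

For every elliptic curve over `ℚ` with image of Galois of index two in the automorphisms of the
torsion, and `E.Δ = c² d` with `d` squarefree, the image on `E[N]` has index two if `lcm 2 D ∣ N`
and one otherwise, `D` the conductor of `ℚ(√d)`. Conversely index at most two at every level makes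
a Serre curve.
-/

set_option autoImplicit false
set_option linter.style.haveILetI false

noncomputable section

open WeierstrassCurve WeierstrassCurve.Affine FA.EC FA.Frob FA.RT
open FA.Two (deltaRoot)
open scoped WeierstrassCurve.Affine

local notation "Qb" => AlgebraicClosure ℚ
local notation "GQ" => AlgebraicClosure ℚ ≃ₐ[ℚ] AlgebraicClosure ℚ

namespace FA.SerreCurve

/-- The levels of `√Δ` of a model of a curve with discriminant a square times `d`. -/
theorem isLevel_deltaRoot_of_model {W : WeierstrassCurve ℤ} [(ratCurve W).IsElliptic]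
    {E : WeierstrassCurve ℚ} (hW : W.IsIntegralModelOf E) {c : ℚ} {d : ℤ} (hd : Squarefree d)
    (hΔ : E.Δ = c ^ 2 * (d : ℚ)) {N : ℕ} (hN : N ≠ 0) :
    IsLevel (deltaRoot W) N ↔ (if d % 4 = 1 then d.natAbs else 4 * d.natAbs) ∣ N := by
  obtain ⟨C, hC⟩ := hW
  set r : ℚ := ((C.u⁻¹ : ℚˣ) : ℚ) ^ 6 * c with hr
  have hWΔ : (W.Δ : ℚ) = r ^ 2 * d := by
    have h := congrArg WeierstrassCurve.Δ hC
    rw [variableChange_Δ, map_Δ, eq_intCast, hΔ] at h
    rw [← h, hr]
    ring
  have hr0 : (r : Qb) ≠ 0 := Rat.cast_ne_zero.mpr fun h0 => by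
    refine deltaRoot_ne_zero (W := W) (pow_eq_zero_iff two_ne_zero |>.mp ?_)
    rw [h0, zero_pow two_ne_zero, zero_mul, Int.cast_eq_zero] at hWΔ
    rw [FA.Two.deltaRoot_sq, hWΔ, Int.cast_zero]
  rw [← isLevel_iff hd (s := deltaRoot W / (r : Qb)) (by
    rw [div_pow, FA.Two.deltaRoot_sq, div_eq_iff (pow_ne_zero 2 hr0), ← Rat.cast_intCast, hWΔ]
    push_cast
    ring) hN]
  refine forall₂_congr fun σ _ => ?_
  rw [map_div₀, map_ratCast, div_left_inj' hr0]

end FA.SerreCurve

namespace FA.Summary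

open FA.SerreCurve

/-- **The division fields of every Serre curve** (Jones): if the image of Galois in the
automorphisms of the torsion has index two and `E.Δ = c² d`, `d` squarefree, then with `D` the
conductor of `ℚ(√d)` the image on `E[N]` has index two if `lcm 2 D ∣ N` and one otherwise, for
every `N`. -/
theorem serreCurve_level (E : WeierstrassCurve ℚ) [E.IsElliptic]
    [inst : DecidableEq (AlgebraicClosure ℚ)]
    (ρ : GQ →* (AddCommGroup.torsion (E.toAffine⁄(AlgebraicClosure ℚ)).Point ≃ₗ[ℤ]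
      AddCommGroup.torsion (E.toAffine⁄(AlgebraicClosure ℚ)).Point))
    (hρ : ∀ σ x, (ρ σ x).1 = Affine.Point.map σ.toAlgHom x.1) (h : ρ.range.index = 2)
    {c : ℚ} {d : ℤ} (hd : Squarefree d) (hΔ : E.Δ = c ^ 2 * (d : ℚ)) {N : ℕ} (hN : N ≠ 0)
    (r : GQ →* (Submodule.torsionBy ℤ (E.toAffine⁄(AlgebraicClosure ℚ)).Point (N : ℤ) ≃ₗ[ℤ]
      Submodule.torsionBy ℤ (E.toAffine⁄(AlgebraicClosure ℚ)).Point (N : ℤ)))
    (hr : ∀ σ P, (r σ P).1 = Affine.Point.map σ.toAlgHom P.1) :
    r.range.index =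
      if Nat.lcm 2 (if d % 4 = 1 then d.natAbs else 4 * d.natAbs) ∣ N then 2 else 1 := by
  obtain rfl : inst = instDecEqAlgebraicClosureRat := Subsingleton.elim _ _
  obtain ⟨W, _, hW, hi⟩ := exists_model_index_two E ρ hρ h
  obtain ⟨e, he⟩ := FA.Root.exists_equiv_of_model hW
  rw [index_level_of_equiv e he r hr]
  exact index_level_of_index_two hi (fun n hn => isLevel_deltaRoot_of_model hW hd hΔ hn) hN _
    fun _ _ => rfl

/-- **No curve is surjective at the multiples of Jones's level**: for every elliptic curve over `ℚ`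
with `E.Δ = c² d`, `d` squarefree of conductor `D`, and `lcm 2 D ∣ N` the image on `E[N]` is not
everything. -/
theorem not_surjective_serreLevel (E : WeierstrassCurve ℚ) [E.IsElliptic]
    [inst : DecidableEq (AlgebraicClosure ℚ)] {c : ℚ} {d : ℤ} (hd : Squarefree d)
    (hΔ : E.Δ = c ^ 2 * (d : ℚ)) {N : ℕ} (hN : N ≠ 0)
    (hdiv : Nat.lcm 2 (if d % 4 = 1 then d.natAbs else 4 * d.natAbs) ∣ N) :
    ∃ φ : Submodule.torsionBy ℤ (E.toAffine⁄(AlgebraicClosure ℚ)).Point (N : ℤ) ≃+
        Submodule.torsionBy ℤ (E.toAffine⁄(AlgebraicClosure ℚ)).Point (N : ℤ),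
      ∀ σ : GQ, ∃ P, Affine.Point.map σ.toAlgHom P.1 ≠ (φ P).1 := by
  obtain rfl : inst = instDecEqAlgebraicClosureRat := Subsingleton.elim _ _
  obtain ⟨W, hW⟩ := FA.Frob.exists_integralModel E
  haveI := ratCurve_isElliptic_of_Δ (Δ_ne_zero_of_model hW)
  obtain ⟨θ, hθ⟩ := exists_not_galois_of_level (W := W) hN ((Nat.dvd_lcm_left 2 _).trans hdiv)
    ((isLevel_deltaRoot_of_model hW hd hΔ hN).mpr ((Nat.dvd_lcm_right 2 _).trans hdiv))
  obtain ⟨e, he⟩ := FA.Root.exists_equiv_of_model hW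
  obtain ⟨eT, heT⟩ := FA.Root.exists_torsionBy_congr e (N : ℤ)
  refine ⟨(eT.symm.trans θ).trans eT, fun σ => ?_⟩
  obtain ⟨x, hx⟩ := hθ σ
  refine ⟨eT x, fun heq => hx (e.injective ?_)⟩
  rw [he, ← heT x, heq, AddEquiv.trans_apply, AddEquiv.trans_apply, AddEquiv.symm_apply_apply, heT]

/-- **Serre curves from finite levels**: the image of Galois in the automorphisms of the torsion
has index two exactly when at every `N` the image in those of `E[N]` has index at most two. -/
theorem serreCurve_iff_levels (E : WeierstrassCurve ℚ) [E.IsElliptic]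
    [inst : DecidableEq (AlgebraicClosure ℚ)]
    (ρ : GQ →* (AddCommGroup.torsion (E.toAffine⁄(AlgebraicClosure ℚ)).Point ≃ₗ[ℤ]
      AddCommGroup.torsion (E.toAffine⁄(AlgebraicClosure ℚ)).Point))
    (hρ : ∀ σ x, (ρ σ x).1 = Affine.Point.map σ.toAlgHom x.1) :
    ρ.range.index = 2 ↔ ∀ N : ℕ, N ≠ 0 →
      ∀ r : GQ →* (Submodule.torsionBy ℤ (E.toAffine⁄(AlgebraicClosure ℚ)).Point (N : ℤ) ≃ₗ[ℤ]
          Submodule.torsionBy ℤ (E.toAffine⁄(AlgebraicClosure ℚ)).Point (N : ℤ)),
        (∀ σ P, (r σ P).1 = Affine.Point.map σ.toAlgHom P.1) → r.range.index ≤ 2 := by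
  obtain rfl : inst = instDecEqAlgebraicClosureRat := Subsingleton.elim _ _
  obtain ⟨W, hW⟩ := FA.Frob.exists_integralModel E
  have hΔ := Δ_ne_zero_of_model hW
  haveI := ratCurve_isElliptic_of_Δ hΔ
  obtain ⟨e, he⟩ := FA.Root.exists_equiv_of_model hW
  rw [FA.SerreCurve.index_range_of_equiv e he ρ hρ]
  refine ⟨fun h N hN r hr => ?_, fun h => index_two_of_levels fun N hN => ?_⟩
  · obtain ⟨d, c, hd, -, hcd⟩ := exists_sq_mul_squarefree hΔ
    rw [index_level_of_equiv e he r hr, index_level_of_index_two h (fun n hn =>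
      isLevel_deltaRoot_of_model (E := ratCurve W) ⟨1, one_smul _ _⟩ (c := (c : ℚ)) hd (by
        rw [WeierstrassCurve.map_Δ, eq_intCast, hcd]; push_cast; ring) hn) hN _ fun _ _ => rfl]
    split_ifs <;> norm_num
  · rw [← index_level_of_equiv e he (levelAction E N) fun _ _ => rfl]
    exact h N hN _ fun _ _ => rfl

end FA.Summary

end
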