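import Fermat.Agent.OpenImageJ.ZpHom

/-!
# The `ℤ_p`-extensions of `ℚ` and the `p`-adic characters of its Galois group

Leopoldt's conjecture for `ℚ`: the cyclotomic `ℤ_p`-extension is the only one. Every continuous
homomorphism to `ℤ_p` is a multiple of one surjective homomorphism, which factors through the
`p`-adic cyclotomic character (`zpExtension_unique`, `exists_zpExtension`), and every continuous
`p`-adic character is trivial on the kernel of the cyclotomic one after one fixed power
(`padicCharacter_pow_eq_one`).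
-/

set_option autoImplicit false

noncomputable section

local notation "Qb" => AlgebraicClosure ℚ
local notation "GQ" => AlgebraicClosure ℚ ≃ₐ[ℚ] AlgebraicClosure ℚ

namespace FA.ZpHom

open FA.JTorsion (cycP)

variable {p : ℕ} [hp : Fact p.Prime]

theorem isOpen_setOf_pow_dvd (n : ℕ) : IsOpen {z : ℤ_[p] | (p : ℤ_[p]) ^ n ∣ z} := by
  rw [show {z : ℤ_[p] | (p : ℤ_[p]) ^ n ∣ z} = Metric.closedBall 0 ((p : ℝ) ^ (-(n : ℤ))) from
    Set.ext fun z => by
      rw [Set.mem_setOf_eq, Metric.mem_closedBall, dist_zero_right,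
        PadicInt.norm_le_pow_iff_mem_span_pow, Ideal.mem_span_singleton]]
  exact IsUltrametricDist.isOpen_closedBall _ (zpow_ne_zero _ (Nat.cast_ne_zero.2 hp.out.ne_zero))

/-- A continuous map has trivial values modulo `p ^ n` over a number field. -/
theorem lev_of_continuous {η : GQ → ℤ_[p]} (hc : Continuous η) (h1 : η 1 = 0) : Lev η := fun n => by
  have hmem : {s : GQ | (p : ℤ_[p]) ^ n ∣ η s} ∈ nhds (1 : GQ) :=
    ((isOpen_setOf_pow_dvd n).preimage hc).mem_nhds
      (show (p : ℤ_[p]) ^ n ∣ η 1 from h1 ▸ dvd_zero _)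
  obtain ⟨K, hK, hKs⟩ := (krullTopology_mem_nhds_one_iff ℚ Qb _).1 hmem
  exact ⟨K, hK, fun s hs => hKs ((IntermediateField.mem_fixingSubgroup_iff _ _).2 hs)⟩

/-- Trivial values modulo every `p ^ n` over number fields give continuity. -/
theorem continuous_of_lev {f : GQ →* Multiplicative ℤ_[p]} (hL : Lev fun s => (f s).toAdd) :
    Continuous f := by
  refine continuous_of_continuousAt_one f ?_
  rw [ContinuousAt, map_one]
  change Filter.Tendsto (fun s => (f s).toAdd) (nhds (1 : GQ)) (nhds (0 : ℤ_[p]))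
  refine Metric.nhds_basis_ball.tendsto_right_iff.2 fun ε hε => ?_
  obtain ⟨n, hn⟩ := exists_pow_lt_of_lt_one hε
    (show ((p : ℝ))⁻¹ < 1 from inv_lt_one_of_one_lt₀ (by exact_mod_cast hp.out.one_lt))
  obtain ⟨K, hK, hKn⟩ := hL n
  refine Filter.eventually_of_mem ((krullTopology_mem_nhds_one_iff ℚ Qb _).2 ⟨K, hK, subset_rfl⟩)
    fun s hs => ?_
  rw [Metric.mem_ball, dist_zero_right]
  refine lt_of_le_of_lt ?_ hn
  rw [inv_pow, ← zpow_natCast, ← zpow_neg, PadicInt.norm_le_pow_iff_mem_span_pow,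
    Ideal.mem_span_singleton]
  exact hKn s ((IntermediateField.mem_fixingSubgroup_iff _ _).1 hs)

variable (p) in
/-- The logarithm of the cyclotomic character. -/
def logCyc : GQ →* Multiplicative ℤ_[p] :=
  MonoidHom.mk' (fun s => Multiplicative.ofAdd (logU p (cycP p s))) fun a b => by
    rw [map_mul, logU_mul, ofAdd_add]

theorem lev_logU_comp {χ : GQ →* ℤ_[p]ˣ}
    (hL : ∀ n : ℕ, ∃ K : IntermediateField ℚ Qb, FiniteDimensional ℚ K ∧
      ∀ s : GQ, (∀ x ∈ K, s x = x) → (p : ℤ_[p]) ^ n ∣ (χ s : ℤ_[p]) - 1) :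
    Lev fun s => logU p (χ s) := fun n => by
  obtain ⟨K, hK, h⟩ := hL (n + 3)
  exact ⟨K, hK, fun s hs => pow_dvd_logU p (h s hs)⟩

theorem lev_logCyc : Lev fun s => logU p (cycP p s) := lev_logU_comp fun n => by
  obtain ⟨L, hL, h⟩ := FA.JTorsion.exists_field_cycP p n
  exact ⟨L, hL, fun s hs => by
    rw [dvd_iff_toZModPow, map_sub, h s hs, map_one, sub_self]⟩

/-- A Galois element with logarithm a unit; at `2` it multiplies the exponents of the eighth roots
of unity by `5`. -/
theorem exists_generator : ∃ g : GQ, ¬ (p : ℤ_[p]) ∣ logU p (cycP p g) ∧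
    (p = 2 → ∀ μ : Qb, μ ^ 8 = 1 → g μ = μ ^ 5) := by
  rcases eq_or_ne p 2 with rfl | hp2
  · obtain ⟨g, hg⟩ := FA.PadicImage.exists_cyclotomic_action_pow (p := 2) 3 (a := 5) (by norm_num)
    refine ⟨g, fun hd => ?_, fun _ μ hμ => hg μ (by norm_num [hμ])⟩
    have h5 := FA.RT.Tate.cycP_eq_natCast (p := 2) (n := 3) hg
    obtain ⟨t, ht⟩ : ((2 : ℕ) : ℤ_[2]) ^ 3 ∣ (cycP 2 g : ℤ_[2]) - 5 := by
      rw [dvd_iff_toZModPow, map_sub, h5, map_ofNat, Nat.cast_ofNat, sub_self]
    have h := dvd_logU_sub 2 (x := cycP 2 g) (a₀ := 3 + 10 * t + 8 * t ^ 2) (by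
      rw [expN, logQ, if_pos rfl, if_pos rfl, sub_eq_iff_eq_add.1 ht]
      push_cast
      ring)
    obtain ⟨e, he⟩ := dvd_sub hd h
    refine (PadicInt.prime_p (p := 2)).not_isUnit (isUnit_of_dvd_one
      ⟨e - 5 * t - 4 * t ^ 2 - 1, ?_⟩)
    push_cast at he ⊢
    linear_combination he
  · have : NeZero (p ^ 2) := ⟨pow_ne_zero _ hp.out.ne_zero⟩
    obtain ⟨g, hg⟩ := FA.OpenImageJ.cycMod_surjective p 2 (ZMod.unitOfCoprime (1 + p)
      (Nat.Coprime.pow_right 2 (Nat.coprime_add_self_left.2 (Nat.coprime_one_left p))))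
    refine ⟨g, fun hd => ?_, fun h => absurd h hp2⟩
    obtain ⟨t, ht⟩ : (p : ℤ_[p]) ^ 2 ∣ (cycP p g : ℤ_[p]) - (1 + p : ℕ) := by
      have h1 := congrArg (fun u : (ZMod (p ^ 2))ˣ => (u : ZMod (p ^ 2))) hg
      rw [dvd_iff_toZModPow, map_sub, map_natCast]
      exact sub_eq_zero.2 h1
    set x : ℤ_[p] := (cycP p g : ℤ_[p]) with hx
    have hx1 : x - 1 = (p : ℤ_[p]) * (1 + p * t) := by
      push_cast at ht; linear_combination ht
    have h := dvd_logU_sub p (x := cycP p g)
      (a₀ := (1 + p * t) * ∑ i ∈ Finset.range (p - 1), x ^ i) (by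
      rw [expN, logQ, if_neg hp2, if_neg hp2, ← hx]
      linear_combination -(geom_sum_mul x (p - 1)) + (∑ i ∈ Finset.range (p - 1), x ^ i) * hx1)
    have hs : (p : ℤ_[p]) ∣ ∑ i ∈ Finset.range (p - 1), (x ^ i - 1) :=
      Finset.dvd_sum fun i _ => (show (p : ℤ_[p]) ∣ x - 1 from ⟨_, hx1⟩).trans
        (sub_one_dvd_pow_sub_one x i)
    obtain ⟨e, he⟩ := dvd_sub hd h
    obtain ⟨d, hd'⟩ := hs
    rw [Finset.sum_sub_distrib, Finset.sum_const, Finset.card_range, nsmul_one,
      Nat.cast_sub hp.out.one_le, Nat.cast_one] at hd'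
    refine (PadicInt.prime_p (p := p)).not_isUnit (isUnit_of_dvd_one
      ⟨1 + d + t * (∑ i ∈ Finset.range (p - 1), x ^ i) - e, ?_⟩)
    linear_combination hd' - he

/-- Two maps agreeing at the generator agree. -/
theorem eq_zero_of_generator {g : GQ} (hg : ¬ (p : ℤ_[p]) ∣ logU p (cycP p g))
    (hg2 : p = 2 → ∀ μ : Qb, μ ^ 8 = 1 → g μ = μ ^ 5) {η : GQ → ℤ_[p]}
    (hη : ∀ a b, η (a * b) = η a + η b) (hL : Lev η) (hηg : η g = 0) (σ : GQ) : η σ = 0 := by
  have hun : ∀ n : ℕ, ∀ l : ℕ, l.Prime → l ≠ p → ∀ A : ValuationSubring Qb, A.LiesOverPrime l →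
      ∀ s ∈ A.inertiaSubgroupIn ℚ, modN η hη n s = 1 := fun n l hl hlp A hA s hs =>
    (modN_eq_one_iff hη).2 (apply_inertia hη hL hl hlp hA hs ▸ dvd_zero _)
  rcases eq_or_ne p 2 with rfl | hp2
  · have hc : η complexConjugation = 0 := by
      have h := hη complexConjugation complexConjugation
      rw [complexConjugation_mul_self] at h
      have h1 := hη 1 1
      rw [mul_one] at h1
      have h2 : η 1 = 0 := by linear_combination -h1
      rw [h2, ← two_mul] at h
      exact (mul_eq_zero.1 h.symm).resolve_left two_ne_zero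
    refine eq_zero_of_forall_dvd fun n => (modN_eq_one_iff hη).1 ?_
    obtain ⟨K, hK, hKn⟩ := hL n
    obtain ⟨k, j, hkj⟩ := FA.CycTwo.exists_eq_pow_mul_pow (modN η hη n)
      (Subgroup.isOpen_mono (H₁ := K.fixingSubgroup) (fun s hs => (modN_eq_one_iff hη).2
        (hKn s ((IntermediateField.mem_fixingSubgroup_iff _ _).1 hs)))
        (IntermediateField.fixingSubgroup_isOpen K))
      (fun s => ⟨n, Multiplicative.toAdd.injective (by
        rw [toAdd_pow, toAdd_one, nsmul_eq_mul, ZMod.natCast_self, zero_mul])⟩)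
      (fun l hl hl2 A hA s hs => hun n l hl hl2 A hA s hs) (hg2 rfl) σ
    rw [hkj, (modN_eq_one_iff hη).2 (hηg ▸ dvd_zero _),
      (modN_eq_one_iff hη).2 (hc ▸ dvd_zero _), one_zpow, one_zpow, one_mul]
  · -- modulo `p` such a map is proportional to the logarithm
    refine eq_zero_of_forall_dvd fun n => ?_
    induction n generalizing σ with
    | zero => simp
    | succ n ih =>
      choose q hq using ih
      have hp0 : (p : ℤ_[p]) ^ n ≠ 0 := pow_ne_zero _ (Nat.cast_ne_zero.2 hp.out.ne_zero)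
      have hqm : ∀ a b, q (a * b) = q a + q b := fun a b => mul_left_cancel₀ hp0 (by
        rw [mul_add, ← hq, ← hq, ← hq, hη])
      let f : GQ →* Multiplicative (ZMod p) :=
        MonoidHom.mk' (fun s => Multiplicative.ofAdd (PadicInt.toZMod (q s))) fun a b => by
          rw [hqm, map_add, ofAdd_add]
      let f₀ : GQ →* Multiplicative (ZMod p) :=
        MonoidHom.mk' (fun s => Multiplicative.ofAdd (PadicInt.toZMod (logU p (cycP p s))))
          fun a b => by rw [map_mul, logU_mul, map_add, ofAdd_add]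
      have hker : ∀ z : ℤ_[p],
          Multiplicative.ofAdd (PadicInt.toZMod z) = 1 ↔ (p : ℤ_[p]) ∣ z := fun z => by
        rw [← Ideal.mem_span_singleton, ← PadicInt.maximalIdeal_eq_span_p, ← PadicInt.ker_toZMod,
          RingHom.mem_ker]
        exact Multiplicative.ofAdd.injective.eq_iff' rfl
      obtain ⟨K, hK, hKn⟩ := hL (n + 1)
      obtain ⟨L, hLfd, hLn⟩ := lev_logCyc (p := p) 1
      obtain ⟨c, hc⟩ := FA.OpenImageJ.exists_eq_mul_of_unramified hp2 f f₀ (K ⊔ L)
        (fun s hs => ⟨(hker _).2 (by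
            obtain ⟨d, hd⟩ := hKn s fun x hx => hs x ((le_sup_left : K ≤ K ⊔ L) hx)
            exact ⟨d, mul_left_cancel₀ hp0 (by rw [← hq, hd, pow_succ, mul_assoc])⟩),
          (hker _).2 (by
            simpa using hLn s fun x hx => hs x ((le_sup_right : L ≤ K ⊔ L) hx))⟩)
        (fun l hl hlp A hA s hs => ⟨(hker _).2 (by
            have h := apply_inertia hη hL hl hlp hA hs
            rw [hq] at h
            rw [(mul_eq_zero.1 h).resolve_left hp0]
            exact dvd_zero _),
          (hker _).2 (by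
            rw [apply_inertia (η := fun s => logU p (cycP p s))
              (fun a b => by rw [map_mul, logU_mul]) lev_logCyc hl hlp hA hs]
            exact dvd_zero _)⟩)
        (fun h => hg ((hker _).1 (DFunLike.congr_fun h g)))
      have hc0 : c = 0 := by
        have h := hc g
        have hqg : q g = 0 := (mul_eq_zero.1 ((hq g).symm.trans hηg)).resolve_left hp0
        change PadicInt.toZMod (q g) = c * PadicInt.toZMod (logU p (cycP p g)) at h
        rw [hqg, map_zero] at h
        exact (mul_eq_zero.1 h.symm).resolve_right fun h0 =>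
          hg ((hker _).1 (by rw [h0]; rfl))
      obtain ⟨d, hd⟩ := (hker (q σ)).1 (Multiplicative.toAdd.injective (by
        rw [toAdd_one]; exact (hc σ).trans (by rw [hc0, zero_mul])))
      exact ⟨d, by rw [hq, hd, pow_succ, mul_assoc]⟩

/-- Every map is a multiple of the logarithm of the cyclotomic character. -/
theorem exists_eq_mul_logU {η : GQ → ℤ_[p]} (hη : ∀ a b, η (a * b) = η a + η b) (hL : Lev η) :
    ∃ c : ℤ_[p], ∀ σ, η σ = c * logU p (cycP p σ) := by
  obtain ⟨g, hg, hg2⟩ := exists_generator (p := p)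
  have hu : IsUnit (logU p (cycP p g)) := by
    by_contra h
    refine hg (Ideal.mem_span_singleton.1 ?_)
    rw [← PadicInt.maximalIdeal_eq_span_p]
    exact h
  obtain ⟨u, hu⟩ := hu
  refine ⟨η g * (↑u⁻¹ : ℤ_[p]), fun σ => sub_eq_zero.1 ?_⟩
  refine eq_zero_of_generator hg hg2 (η := fun s => η s - η g * ↑u⁻¹ * logU p (cycP p s))
    (fun a b => by simp only [map_mul, logU_mul, hη]; ring) (fun n => ?_) ?_ σ
  · obtain ⟨K, hK, hKn⟩ := hL n
    obtain ⟨L, hLfd, hLn⟩ := lev_logCyc (p := p) n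
    exact ⟨K ⊔ L, inferInstance, fun s hs => dvd_sub
      (hKn s fun x hx => hs x ((le_sup_left : K ≤ K ⊔ L) hx))
      ((hLn s fun x hx => hs x ((le_sup_right : L ≤ K ⊔ L) hx)).mul_left _)⟩
  · rw [← hu, mul_assoc, Units.inv_mul, mul_one, sub_self]

theorem logCyc_surjective : Function.Surjective (logCyc p) := by
  obtain ⟨g, hg, -⟩ := exists_generator (p := p)
  have : CompactSpace GQ := inferInstance
  have hc : Continuous fun s => (logCyc p s).toAdd :=
    continuous_toAdd.comp (continuous_of_lev (f := logCyc p) lev_logCyc)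
  have hu : IsUnit (logU p (cycP p g)) := by
    by_contra h
    refine hg (Ideal.mem_span_singleton.1 ?_)
    rw [← PadicInt.maximalIdeal_eq_span_p]
    exact h
  have hd : DenseRange fun k : ℤ => (k : ℤ_[p]) * logU p (cycP p g) :=
    DenseRange.comp (g := fun z : ℤ_[p] => z * logU p (cycP p g))
      (Function.Surjective.denseRange fun z => ⟨z * (↑hu.unit⁻¹ : ℤ_[p]), by
        show z * (↑hu.unit⁻¹ : ℤ_[p]) * logU p (cycP p g) = z
        rw [mul_assoc, IsUnit.val_inv_mul, mul_one]⟩)
      PadicInt.denseRange_intCast (continuous_id.mul continuous_const)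
  have hsub : Set.range (fun k : ℤ => (k : ℤ_[p]) * logU p (cycP p g)) ⊆
      Set.range fun s => (logCyc p s).toAdd := by
    rintro _ ⟨k, rfl⟩
    refine ⟨g ^ k, ?_⟩
    show (logCyc p (g ^ k)).toAdd = _
    rw [map_zpow, toAdd_zpow, zsmul_eq_mul]
    rfl
  intro z
  have h : z.toAdd ∈ Set.range fun s => (logCyc p s).toAdd :=
    (isCompact_range hc).isClosed.closure_subset_iff.2 hsub (hd z.toAdd)
  exact h.imp fun s hs => Multiplicative.toAdd.injective hs

end FA.ZpHom

namespace FA.Summary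

open FA.ZpHom

variable {p : ℕ} [Fact p.Prime]

/-- **The cyclotomic `ℤ_p`-extension of `ℚ`**: a continuous surjective homomorphism from the
Galois group to `ℤ_p`, trivial exactly where the cyclotomic character takes a torsion value, of
which every continuous homomorphism to `ℤ_p` is a multiple. -/
theorem exists_zpExtension :
    ∃ η₀ : GQ →* Multiplicative ℤ_[p], Continuous η₀ ∧ Function.Surjective η₀ ∧
      (∀ σ, η₀ σ = 1 ↔ ∃ N : ℕ, 0 < N ∧ FA.JTorsion.cycP p σ ^ N = 1) ∧
      ∀ η : GQ →* Multiplicative ℤ_[p], Continuous η →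
        ∃ c : ℤ_[p], ∀ σ, (η σ).toAdd = c * (η₀ σ).toAdd := by
  refine ⟨logCyc p, continuous_of_lev lev_logCyc, logCyc_surjective, fun σ => ⟨fun h => ?_, ?_⟩,
    fun η hη => exists_eq_mul_logU (η := fun s => (η s).toAdd)
      (fun a b => by simp only [map_mul, toAdd_mul])
      (lev_of_continuous (continuous_toAdd.comp hη) (by simp only [map_one, toAdd_one]))⟩
  · exact ⟨expN p, expN_pos p, pow_expN_eq_one_of_logU p (congrArg Multiplicative.toAdd h)⟩
  · rintro ⟨N, hN, h⟩
    have h1 : (logCyc p (σ ^ N)).toAdd = 0 :=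
      eq_zero_of_cycP (η := fun s => (logCyc p s).toAdd)
        (fun a b => by simp only [map_mul, toAdd_mul]) lev_logCyc (by rw [map_pow, h])
    rw [map_pow, toAdd_pow, smul_eq_zero] at h1
    exact Multiplicative.toAdd.injective (h1.resolve_left hN.ne')

/-- **Leopoldt's conjecture for `ℚ`**: there is only one `ℤ_p`-extension, the cyclotomic one: a
continuous surjective homomorphism to `ℤ_p` is trivial exactly where the cyclotomic character
takes a torsion value. -/
theorem zpExtension_unique {η : GQ →* Multiplicative ℤ_[p]} (hc : Continuous η)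
    (hs : Function.Surjective η) (σ : GQ) :
    η σ = 1 ↔ ∃ N : ℕ, 0 < N ∧ FA.JTorsion.cycP p σ ^ N = 1 := by
  obtain ⟨η₀, -, -, hker, hmul⟩ := exists_zpExtension (p := p)
  obtain ⟨c, hc'⟩ := hmul η hc
  have hc0 : c ≠ 0 := fun h => by
    obtain ⟨s, hs'⟩ := hs (Multiplicative.ofAdd 1)
    have h1 := hc' s
    rw [hs', h, zero_mul] at h1
    exact one_ne_zero h1
  rw [← hker, ← toAdd_eq_zero, hc', mul_eq_zero, or_iff_right hc0, toAdd_eq_zero]

/-- A continuous homomorphism from the Galois group of `ℚ` to `ℤ_p` factors through the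
cyclotomic character. -/
theorem zpHom_eq_one_of_cycP {η : GQ →* Multiplicative ℤ_[p]} (hc : Continuous η) {σ : GQ}
    (hσ : FA.JTorsion.cycP p σ = 1) : η σ = 1 :=
  toAdd_eq_zero.1 (eq_zero_of_cycP (η := fun s => (η s).toAdd)
    (fun a b => by simp only [map_mul, toAdd_mul])
    (lev_of_continuous (continuous_toAdd.comp hc) (by simp only [map_one, toAdd_one])) hσ)

/-- **The `p`-adic characters of the Galois group of `ℚ`**: up to one fixed power a continuous
character with values in `ℤ_p^×` factors through the cyclotomic character. -/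
theorem padicCharacter_pow_eq_one :
    ∃ N : ℕ, 0 < N ∧ ∀ χ : GQ →* ℤ_[p]ˣ, Continuous χ →
      ∀ σ, FA.JTorsion.cycP p σ = 1 → χ σ ^ N = 1 := by
  refine ⟨expN p, expN_pos p, fun χ hc σ hσ => pow_expN_eq_one_of_logU p ?_⟩
  refine eq_zero_of_cycP (η := fun s => logU p (χ s))
    (fun a b => by rw [map_mul, logU_mul]) (lev_logU_comp fun n => ?_) hσ
  have hcont : Continuous fun s : GQ => (χ s : ℤ_[p]) - 1 :=
    (Units.continuous_val.comp hc).sub continuous_const
  exact lev_of_continuous hcont (by rw [map_one, Units.val_one, sub_self]) n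

end FA.Summary

end
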