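import Fermat.Agent.Root.SummaryIrregularPrimes
import Mathlib.NumberTheory.Padics.RingHoms
import Mathlib.FieldTheory.Finite.Basic

/-!
# The `p`-adic zeta function of Kubota and Leopoldt

* `kummer_congruence_general`: for `p ≥ 5`, positive even `m ≡ n (mod p^(N-1) (p - 1))` with
  `p - 1 ∤ m` the numbers `(1 - p^(m-1)) B_m / m` and `(1 - p^(n-1)) B_n / n` agree modulo `p^N`.
* `padicZeta`: for even `2 ≤ k ≤ p - 3` a unique continuous function on `ℤ_p` takes the value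
  `(1 - p^(m-1)) ζ(1-m) = -(1 - p^(m-1)) B_m / m` at `t`, `m = k + (p - 1) t`.
-/

set_option autoImplicit false

noncomputable section

open Finset
open scoped Nat

namespace FA.OrderTheta

variable {p : ℕ} [hp : Fact p.Prime]

/-- Congruence of rationals modulo `p^N`. -/
def RatCongPow (p N : ℕ) (x y : ℚ) : Prop := ∃ t : ℚ, PIntegral p t ∧ x = y + ((p ^ N : ℕ) : ℚ) * t

theorem binom_remainder_pow (hp5 : 5 ≤ p) {N : ℕ} (hN : 1 ≤ N) {m : ℕ} (hm : 2 ≤ m) (x q : ℤ) :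
    ∃ t : ℚ, PIntegral p t ∧ ((x : ℚ) + ((p ^ N : ℕ) : ℚ) * q) ^ m =
      (x : ℚ) ^ m + (m : ℚ) * (x : ℚ) ^ (m - 1) * (((p ^ N : ℕ) : ℚ) * q) +
        (m : ℚ) * ((p ^ N : ℕ) : ℚ) ^ 2 * t := by
  obtain ⟨m, rfl⟩ : ∃ n, m = n + 2 := ⟨m - 2, by omega⟩
  set M : ℚ := ((p ^ N : ℕ) : ℚ) with hM
  refine ⟨∑ i ∈ range (m + 1), ((((p ^ (N * i) : ℕ) : ℚ) * ((i + 2 : ℕ) : ℚ)⁻¹) *
    (((m + 1).choose (i + 1) : ℕ) : ℚ)) * ((q ^ (i + 2) * x ^ (m - i) : ℤ) : ℚ), ?_, ?_⟩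
  · refine PIntegral.sum fun i _ => ((pIntegral_pow_mul_inv hp5 (by omega) ?_).mul
      (PIntegral.natCast _)).mul (PIntegral.intCast _)
    have : i ≤ N * i := Nat.le_mul_of_pos_left i (by omega)
    omega
  · rw [add_comm (x : ℚ), add_pow, Finset.sum_range_succ', Finset.sum_range_succ', Finset.mul_sum]
    simp only [zero_add, pow_zero, pow_one, Nat.choose_zero_right, Nat.choose_one_right, Nat.cast_one,
      Nat.sub_zero, one_mul, mul_one, show m + 2 - 1 = m + 1 from rfl]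
    have e : ∀ i ∈ range (m + 1), (M * q) ^ (i + 1 + 1) * (x : ℚ) ^ (m + 2 - (i + 1 + 1)) *
        (((m + 2).choose (i + 1 + 1) : ℕ) : ℚ) = ((m + 2 : ℕ) : ℚ) * M ^ 2 *
          ((((p ^ (N * i) : ℕ) : ℚ) * ((i + 2 : ℕ) : ℚ)⁻¹ * (((m + 1).choose (i + 1) : ℕ) : ℚ)) *
            ((q ^ (i + 2) * x ^ (m - i) : ℤ) : ℚ)) := by
      intro i _
      have h := Nat.add_one_mul_choose_eq (m + 1) (i + 1)
      have h' : ((m + 2 : ℕ) : ℚ) * (((m + 1).choose (i + 1) : ℕ) : ℚ) =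
          (((m + 2).choose (i + 2) : ℕ) : ℚ) * ((i + 2 : ℕ) : ℚ) := by exact_mod_cast h
      have h0 : ((i + 2 : ℕ) : ℚ) ≠ 0 := by exact_mod_cast (show i + 2 ≠ 0 by omega)
      rw [show i + 1 + 1 = i + 2 by omega, show m + 2 - (i + 2) = m - i by omega,
        show (((m + 2).choose (i + 2) : ℕ) : ℚ) =
          ((m + 2 : ℕ) : ℚ) * (((m + 1).choose (i + 1) : ℕ) : ℚ) * ((i + 2 : ℕ) : ℚ)⁻¹ by
            rw [h', mul_inv_cancel_right₀ h0], hM]
      push_cast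
      rw [mul_pow, ← pow_mul, mul_add N i 2, pow_add, pow_mul (p : ℚ) N 2]
      ring
    rw [Finset.sum_congr rfl e]
    ring

theorem powerSum_remainder_pow (hp5 : 5 ≤ p) {N : ℕ} (hN : 1 ≤ N) {m : ℕ} (hm : 2 ≤ m)
    (hev : Even m) :
    ∃ T : ℚ, PIntegral p T ∧ ∑ r ∈ range (p ^ N), (r : ℚ) ^ m =
      ((p ^ N : ℕ) : ℚ) * bernoulli m + (m : ℚ) * ((p ^ N : ℕ) : ℚ) ^ 2 * T := by
  have hterm : ∀ i ∈ range m, ∃ t : ℚ, PIntegral p t ∧
      bernoulli i * ((m + 1).choose i : ℚ) * ((p ^ N : ℕ) : ℚ) ^ (m + 1 - i) / (m + 1) =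
        (m : ℚ) * ((p ^ N : ℕ) : ℚ) ^ 2 * t := by
    intro i hi
    rw [mem_range] at hi
    rcases (show i + 1 = m ∨ i + 2 ≤ m by omega) with e | e
    · rcases (show i = 1 ∨ 2 ≤ i by omega) with rfl | h2
      · subst e
        refine ⟨((-1 : ℤ) : ℚ) * (((2 : ℕ) : ℚ)⁻¹ * ((2 : ℕ) : ℚ)⁻¹), (PIntegral.intCast _).mul
          ((PIntegral.inv_natCast fun h => by have := Nat.le_of_dvd two_pos h; omega).mul
            (PIntegral.inv_natCast fun h => by have := Nat.le_of_dvd two_pos h; omega)), ?_⟩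
        rw [bernoulli_one, Nat.choose_one_right]
        push_cast
        ring
      · refine ⟨0, by exact_mod_cast PIntegral.intCast 0, ?_⟩
        rw [bernoulli_eq_zero_of_odd (by rw [Nat.odd_iff]; rw [Nat.even_iff] at hev; omega) (by omega)]
        ring
    · obtain ⟨d, rfl⟩ : ∃ d, m = i + 2 + d := ⟨m - i - 2, by omega⟩
      obtain ⟨ex, hex⟩ : ∃ ex, N * (d + 1) = d + 1 + ex :=
        ⟨N * (d + 1) - (d + 1), by have := Nat.le_mul_of_pos_left (d + 1) (show 0 < N by omega); omega⟩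
      have hint : PIntegral p (((p ^ d : ℕ) : ℚ) * ((d + 2 : ℕ) : ℚ)⁻¹ * ((d + 3 : ℕ) : ℚ)⁻¹) := by
        by_cases hd : p ∣ d + 3
        · rw [mul_comm ((p ^ d : ℕ) : ℚ), mul_assoc]
          refine (PIntegral.inv_natCast fun h => ?_).mul (pIntegral_pow_mul_inv hp5 (by omega) le_rfl)
          have := Nat.le_of_dvd one_pos ((Nat.dvd_add_right h).mp (show p ∣ d + 2 + 1 from hd))
          omega
        · exact (pIntegral_pow_mul_inv hp5 (by omega) (by omega)).mul (PIntegral.inv_natCast hd)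
      refine ⟨((p : ℚ) * bernoulli i) * (((i + 2 + d - 1).choose i : ℕ) : ℚ) * ((p ^ ex : ℕ) : ℚ) *
        (((p ^ d : ℕ) : ℚ) * ((d + 2 : ℕ) : ℚ)⁻¹ * ((d + 3 : ℕ) : ℚ)⁻¹),
        (((pIntegral_mul_bernoulli i).mul (PIntegral.natCast _)).mul (PIntegral.natCast _)).mul hint, ?_⟩
      rw [show i + 2 + d - 1 = i + 1 + d by omega, show i + 2 + d + 1 - i = d + 3 by omega]
      have h1 := Nat.choose_mul_succ_eq (i + 1 + d) i
      have h2 := Nat.choose_mul_succ_eq (i + 1 + d + 1) i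
      rw [show i + 1 + d + 1 - i = d + 2 by omega] at h1
      rw [show i + 1 + d + 1 + 1 - i = d + 3 by omega] at h2
      have h1' : (((i + 1 + d).choose i : ℕ) : ℚ) * ((i + 1 + d + 1 : ℕ) : ℚ) =
          (((i + 1 + d + 1).choose i : ℕ) : ℚ) * ((d + 2 : ℕ) : ℚ) := by exact_mod_cast h1
      have h2' : (((i + 1 + d + 1).choose i : ℕ) : ℚ) * ((i + 1 + d + 1 + 1 : ℕ) : ℚ) =
          (((i + 1 + d + 1 + 1).choose i : ℕ) : ℚ) * ((d + 3 : ℕ) : ℚ) := by exact_mod_cast h2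
      rw [show i + 2 + d + 1 = i + 1 + d + 1 + 1 by omega]
      have ha : ((d + 2 : ℕ) : ℚ) ≠ 0 := by exact_mod_cast (show d + 2 ≠ 0 by omega)
      have hb : ((d + 3 : ℕ) : ℚ) ≠ 0 := by exact_mod_cast (show d + 3 ≠ 0 by omega)
      rw [show (((i + 1 + d + 1 + 1).choose i : ℕ) : ℚ) =
          (((i + 1 + d).choose i : ℕ) : ℚ) * ((i + 1 + d + 1 : ℕ) : ℚ) * ((d + 2 : ℕ) : ℚ)⁻¹ *
            ((i + 1 + d + 1 + 1 : ℕ) : ℚ) * ((d + 3 : ℕ) : ℚ)⁻¹ by
          rw [h1', mul_inv_cancel_right₀ ha, h2', mul_inv_cancel_right₀ hb]]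
      rw [show (((i + 2 + d : ℕ)) : ℚ) + 1 = ((i + 1 + d + 1 + 1 : ℕ) : ℚ) by push_cast; ring]
      have hn : ((i + 1 + d + 1 + 1 : ℕ) : ℚ) ≠ 0 := by
        exact_mod_cast (show i + 1 + d + 1 + 1 ≠ 0 by omega)
      rw [show ((p ^ N : ℕ) : ℚ) ^ (d + 3) =
          ((p ^ N : ℕ) : ℚ) ^ 2 * ((p : ℚ) ^ (d + 1) * ((p ^ ex : ℕ) : ℚ)) by
        push_cast; rw [← pow_mul, ← pow_mul, ← pow_add, ← pow_add, ← hex]; ring_nf]
      rw [pow_succ]
      field_simp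
      push_cast
      ring
  choose t ht he using hterm
  refine ⟨∑ i ∈ (range m).attach, t i.1 i.2, PIntegral.sum fun i _ => ht i.1 i.2, ?_⟩
  rw [sum_range_pow, Finset.sum_range_succ, Finset.mul_sum,
    ← Finset.sum_attach (range m) (fun i => bernoulli i * ((m + 1).choose i : ℚ) *
      ((p ^ N : ℕ) : ℚ) ^ (m + 1 - i) / ((m : ℚ) + 1)), Finset.sum_congr rfl fun i _ => he i.1 i.2,
    Nat.choose_succ_self_right, show m + 1 - m = 1 by omega, add_comm]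
  congr 1
  push_cast
  field_simp

/-- The Voronoi sum to the modulus `p^N`. -/
def voronoiSumPow (p a m N : ℕ) : ℕ :=
  a ^ (m - 1) * ∑ r ∈ range (p ^ N), r ^ (m - 1) * (a * r / p ^ N)

/-- Its part prime to `p`. -/
def unitVoronoiSum (p a m N : ℕ) : ℕ :=
  a ^ (m - 1) * ∑ r ∈ (range (p ^ N)).filter (fun r => ¬ p ∣ r), r ^ (m - 1) * (a * r / p ^ N)

theorem voronoi_congruence_pow (hp5 : 5 ≤ p) {N : ℕ} (hN : 1 ≤ N) {m : ℕ} (hm : 2 ≤ m) (hev : Even m)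
    {a : ℕ} (ha : (a : ZMod p) ≠ 0) :
    RatCongPow p N (((a : ℚ) ^ m - 1) * (bernoulli m / m)) (voronoiSumPow p a m N : ℚ) := by
  set M := p ^ N with hM
  have hM0 : 0 < M := pow_pos hp.out.pos N
  have hcop : a.Coprime M := Nat.Coprime.pow_right _ (((hp.out.coprime_iff_not_dvd).mpr
    fun h => ha ((ZMod.natCast_eq_zero_iff a p).mpr h)).symm)
  have : NeZero M := ⟨hM0.ne'⟩
  obtain ⟨T, hT, hS⟩ := powerSum_remainder_pow hp5 hN hm hev
  choose t ht he using fun r : ℕ =>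
    binom_remainder_pow (p := p) hp5 hN hm ((a * r : ℕ) : ℤ) (-((a * r / M : ℕ) : ℤ))
  have hperm : ∑ r ∈ range M, ((a * r % M : ℕ) : ℚ) ^ m = ∑ r ∈ range M, (r : ℚ) ^ m := by
    obtain ⟨u, hu⟩ := (ZMod.isUnit_iff_coprime a M).mpr hcop
    refine Finset.sum_nbij (fun r => a * r % M) (fun r _ => mem_range.mpr (Nat.mod_lt _ hM0))
      ?_ ?_ (fun r _ => rfl)
    · intro r hr r' hr' e
      rw [coe_range, Set.mem_Iio] at hr hr'
      have e' := congrArg (Nat.cast : ℕ → ZMod M) e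
      rw [ZMod.natCast_mod, ZMod.natCast_mod, Nat.cast_mul, Nat.cast_mul, ← hu] at e'
      have := (ZMod.natCast_eq_natCast_iff' r r' M).mp (u.mul_right_inj.mp e')
      rwa [Nat.mod_eq_of_lt hr, Nat.mod_eq_of_lt hr'] at this
    · intro r hr
      rw [coe_range, Set.mem_Iio] at hr
      refine ⟨((↑u⁻¹ : ZMod M) * (r : ZMod M)).val, mem_range.mpr (ZMod.val_lt _), ?_⟩
      show a * _ % M = r
      refine ((ZMod.natCast_eq_natCast_iff' _ _ M).mp ?_).trans (Nat.mod_eq_of_lt hr)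
      rw [Nat.cast_mul, ZMod.natCast_zmod_val, ← hu, Units.mul_inv_cancel_left]
  have hcast : ∀ r : ℕ, ((a * r % M : ℕ) : ℚ) =
      (((a * r : ℕ) : ℤ) : ℚ) + (M : ℚ) * ((-((a * r / M : ℕ) : ℤ)) : ℤ) := fun r => by
    have h := Nat.mod_add_div (a * r) M
    have h' : ((a * r % M : ℕ) : ℚ) + (M : ℚ) * ((a * r / M : ℕ) : ℚ) = ((a * r : ℕ) : ℚ) := by
      exact_mod_cast h
    rw [Int.cast_natCast, Int.cast_neg, Int.cast_natCast]
    linarith
  rw [Finset.sum_congr rfl fun r _ => by rw [hcast r, he r], sum_add_distrib, sum_add_distrib,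
    ← Finset.mul_sum] at hperm
  refine ⟨((-1 : ℤ) : ℚ) * ((((a ^ m : ℕ) : ℚ) + ((-1 : ℤ) : ℚ)) * T + ∑ r ∈ range M, t r),
    (PIntegral.intCast _).mul (((((PIntegral.natCast _).add (PIntegral.intCast _))).mul hT).add
      (PIntegral.sum fun r _ => ht r)), ?_⟩
  have hmQ : (m : ℚ) ≠ 0 := by exact_mod_cast (show m ≠ 0 by omega)
  have hpQ : (M : ℚ) ≠ 0 := by exact_mod_cast hM0.ne'
  have e1 : ∑ r ∈ range M, (((a * r : ℕ) : ℤ) : ℚ) ^ m = (a : ℚ) ^ m * ∑ r ∈ range M, (r : ℚ) ^ m := by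
    rw [Finset.mul_sum]
    exact Finset.sum_congr rfl fun r _ => by push_cast; rw [mul_pow]
  have e2 : ∑ r ∈ range M, (m : ℚ) * (((a * r : ℕ) : ℤ) : ℚ) ^ (m - 1) *
      ((M : ℚ) * ((-((a * r / M : ℕ) : ℤ) : ℤ) : ℚ)) =
      -((m : ℚ) * (M : ℚ) * (voronoiSumPow p a m N : ℚ)) := by
    rw [voronoiSumPow, ← hM, Nat.cast_mul, Nat.cast_sum, Finset.mul_sum, Finset.mul_sum,
      ← Finset.sum_neg_distrib]
    refine Finset.sum_congr rfl fun r _ => ?_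
    rw [Int.cast_neg, Int.cast_natCast, Int.cast_natCast]
    push_cast
    rw [mul_pow]
    ring
  rw [e1, e2, hS] at hperm
  rw [← hM]
  push_cast
  refine mul_left_cancel₀ (mul_ne_zero hpQ hmQ) ?_
  field_simp
  refine mul_left_cancel₀ hpQ ?_
  linear_combination hperm

/-- Voronoi with the Euler factor. -/
theorem unitVoronoi_congruence (hp5 : 5 ≤ p) {N : ℕ} (hN : 1 ≤ N) {m : ℕ} (hm : 2 ≤ m) (hev : Even m)
    {a : ℕ} (ha : (a : ZMod p) ≠ 0) :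
    RatCongPow p N (((a : ℚ) ^ m - 1) * ((1 - (p : ℚ) ^ (m - 1)) * (bernoulli m / m)))
      (unitVoronoiSum p a m N : ℚ) := by
  obtain ⟨L, rfl⟩ : ∃ L, N = L + 1 := ⟨N - 1, by omega⟩
  obtain ⟨t, ht, e⟩ := voronoi_congruence_pow hp5 hN hm hev ha
  have hsplit : voronoiSumPow p a m (L + 1) =
      unitVoronoiSum p a m (L + 1) + p ^ (m - 1) * voronoiSumPow p a m L := by
    rw [voronoiSumPow, unitVoronoiSum, voronoiSumPow,
      ← Finset.sum_filter_add_sum_filter_not (range (p ^ (L + 1))) (fun r => p ∣ r), mul_add,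
      add_comm]
    congr 1
    rw [mul_left_comm, Finset.mul_sum (a := p ^ (m - 1))]
    congr 1
    refine Finset.sum_nbij' (fun r => r / p) (fun s => p * s) ?_ ?_ ?_ ?_ ?_
    · intro r hr
      simp only [mem_filter, mem_range] at hr ⊢
      exact Nat.div_lt_of_lt_mul (by rw [← pow_succ']; exact hr.1)
    · intro s hs
      simp only [mem_filter, mem_range] at hs ⊢
      exact ⟨by rw [pow_succ']; exact Nat.mul_lt_mul_of_pos_left hs hp.out.pos, dvd_mul_right p s⟩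
    · intro r hr
      exact Nat.mul_div_cancel' (mem_filter.mp hr).2
    · intro s _
      exact Nat.mul_div_cancel_left s hp.out.pos
    · intro r hr
      obtain ⟨s, rfl⟩ := (mem_filter.mp hr).2
      rw [Nat.mul_div_cancel_left s hp.out.pos, mul_pow, pow_succ', mul_left_comm a p s,
        Nat.mul_div_mul_left _ _ hp.out.pos]
      ring
  have hlow : ∃ t' : ℚ, PIntegral p t' ∧
      ((a : ℚ) ^ m - 1) * (bernoulli m / m) =
        (voronoiSumPow p a m L : ℚ) + ((p ^ L : ℕ) : ℚ) * t' := by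
    rcases Nat.eq_zero_or_pos L with h0 | h0
    · subst h0
      refine ⟨((a : ℚ) ^ m - 1) * (bernoulli m / m), ?_, ?_⟩
      · rw [e]
        exact (PIntegral.natCast _).add ((PIntegral.natCast _).mul ht)
      · simp [voronoiSumPow, show m - 1 ≠ 0 by omega]
    · exact voronoi_congruence_pow hp5 h0 hm hev ha
  obtain ⟨t', ht', e'⟩ := hlow
  refine ⟨t + ((-1 : ℤ) : ℚ) * (((p ^ (m - 2) : ℕ) : ℚ) * t'),
    ht.add ((PIntegral.intCast _).mul ((PIntegral.natCast _).mul ht')), ?_⟩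
  have hs : (voronoiSumPow p a m (L + 1) : ℚ) =
      (unitVoronoiSum p a m (L + 1) : ℚ) + (p : ℚ) ^ (m - 1) * (voronoiSumPow p a m L : ℚ) := by
    rw [hsplit]; push_cast; ring
  have hpow : (p : ℚ) ^ (m - 1) = (p : ℚ) * (p : ℚ) ^ (m - 2) := by
    rw [← pow_succ']; congr 1; omega
  push_cast at e e' ⊢
  rw [hpow] at hs ⊢
  rw [pow_succ'] at e ⊢
  linear_combination e + hs - (p : ℚ) * (p : ℚ) ^ (m - 2) * e'

/-- The values `(1 - p^(m-1)) B_m / m`. -/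
def eulerBernoulli (p m : ℕ) : ℚ := (1 - (p : ℚ) ^ (m - 1)) * (bernoulli m / m)

theorem pIntegral_eulerBernoulli (hp5 : 5 ≤ p) {m : ℕ} (hm : 2 ≤ m) (hev : Even m)
    (hdvd : ¬ p - 1 ∣ m) : PIntegral p (eulerBernoulli p m) := by
  refine PIntegral.mul ?_ (pIntegral_bernoulli_div hp5 hm hev hdvd)
  rw [show (1 : ℚ) - (p : ℚ) ^ (m - 1) = ((1 : ℤ) : ℚ) + ((-(p : ℤ) ^ (m - 1) : ℤ) : ℚ) by
    push_cast; ring]
  exact (PIntegral.intCast _).add (PIntegral.intCast _)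

theorem eulerBernoulli_congr (hp5 : 5 ≤ p) {N : ℕ} (hN : 1 ≤ N) {m n : ℕ} (hm : 2 ≤ m) (hn : 2 ≤ n)
    (hev : Even m) (hev' : Even n) (hdvd : ¬ p - 1 ∣ m)
    (hmn : m ≡ n [MOD p ^ (N - 1) * (p - 1)]) :
    RatCongPow p N (eulerBernoulli p m) (eulerBernoulli p n) := by
  set M := p ^ N with hM
  have hφ : φ M = p ^ (N - 1) * (p - 1) := Nat.totient_prime_pow hp.out (by omega)
  have hdvd' : ¬ p - 1 ∣ n := fun h => hdvd
    ((Nat.ModEq.dvd_iff (hmn.of_mul_left _) dvd_rfl).mpr h)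
  obtain ⟨a, ha, hne⟩ := exists_multiplier hdvd
  have ha0 : 0 < a := Nat.pos_of_ne_zero fun e => ha (by rw [e, Nat.cast_zero])
  have hpow : ∀ r : ℕ, r.Coprime M → ∀ {i j : ℕ}, i ≡ j [MOD φ M] → r ^ i ≡ r ^ j [MOD M] := by
    intro r hr i j hij
    have h1 : ∀ k, r ^ k ≡ r ^ (k % φ M) [MOD M] := fun k => by
      conv_lhs => rw [← Nat.mod_add_div k (φ M), pow_add, pow_mul]
      simpa using ((Nat.ModEq.pow_totient hr).pow (k / φ M)).mul_left (r ^ (k % φ M))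
    exact (h1 i).trans (by rw [show i % φ M = j % φ M from hij]; exact (h1 j).symm)
  have hcop : a.Coprime M := Nat.Coprime.pow_right _ (((hp.out.coprime_iff_not_dvd).mpr
    fun h => ha ((ZMod.natCast_eq_zero_iff a p).mpr h)).symm)
  have hm1 : m - 1 ≡ n - 1 [MOD φ M] := by
    rw [hφ]
    refine Nat.ModEq.add_right_cancel' 1 ?_
    rwa [Nat.sub_add_cancel (by omega), Nat.sub_add_cancel (by omega)]
  have hU : unitVoronoiSum p a m N ≡ unitVoronoiSum p a n N [MOD M] := by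
    rw [unitVoronoiSum, unitVoronoiSum, ← hM]
    refine (hpow a hcop hm1).mul ?_
    refine Nat.ModEq.sum fun r hr => ((hpow r ?_ hm1).mul_right _)
    exact Nat.Coprime.pow_right _ ((hp.out.coprime_iff_not_dvd.mpr (mem_filter.mp hr).2).symm)
  obtain ⟨c, hc⟩ := Nat.modEq_iff_dvd.mp hU.symm
  obtain ⟨c', hc'⟩ := Nat.modEq_iff_dvd.mp (hpow a hcop (show m ≡ n [MOD φ M] by rwa [hφ]))
  have ec : (unitVoronoiSum p a m N : ℚ) - unitVoronoiSum p a n N = (M : ℚ) * (c : ℚ) := by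
    exact_mod_cast hc
  have ec' : (a : ℚ) ^ n - (a : ℚ) ^ m = (M : ℚ) * (c' : ℚ) := by exact_mod_cast hc'
  obtain ⟨t, ht, e⟩ := unitVoronoi_congruence hp5 hN hm hev ha
  obtain ⟨t', ht', e'⟩ := unitVoronoi_congruence hp5 hN hn hev' ha
  obtain ⟨hinv, h0⟩ := pIntegral_inv_pow_sub_one ha0 hne
  refine ⟨((a : ℚ) ^ m - 1)⁻¹ * (t + c + ((-1 : ℤ) : ℚ) * t' + c' * eulerBernoulli p n),
    hinv.mul ((((ht.add (PIntegral.intCast c))).add ((PIntegral.intCast _).mul ht')).add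
      ((PIntegral.intCast c').mul (pIntegral_eulerBernoulli hp5 hn hev' hdvd'))), ?_⟩
  refine mul_left_cancel₀ h0 ?_
  rw [← hM] at e e' ⊢
  rw [mul_add ((a : ℚ) ^ m - 1), mul_left_comm ((a : ℚ) ^ m - 1) ((M : ℕ) : ℚ),
    ← mul_assoc ((a : ℚ) ^ m - 1) (((a : ℚ) ^ m - 1)⁻¹), mul_inv_cancel₀ h0, one_mul]
  unfold eulerBernoulli at *
  push_cast
  linear_combination e - e' + ec + ((1 - (p : ℚ) ^ (n - 1)) * (bernoulli n / n)) * ec'

open Classical in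
variable (p) in
/-- The interpolated values, as `p`-adic integers (zero where undefined). -/
def zetaValue (k t : ℕ) : ℤ_[p] :=
  if h : PIntegral p (eulerBernoulli p (k + (p - 1) * t)) then
    ⟨((-eulerBernoulli p (k + (p - 1) * t) : ℚ) : ℚ_[p]), by
      rw [Rat.cast_neg, norm_neg]; exact Padic.norm_rat_le_one h⟩
  else 0

theorem exponent_facts (hp5 : 5 ≤ p) {k : ℕ} (hk : 2 ≤ k) (hkp : k ≤ p - 3) (hev : Even k) (t : ℕ) :
    2 ≤ k + (p - 1) * t ∧ Even (k + (p - 1) * t) ∧ ¬ p - 1 ∣ k + (p - 1) * t := by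
  refine ⟨by omega, hev.add (Even.mul_right ?_ t), fun h => ?_⟩
  · exact Nat.even_iff.mpr (by have := hp.out.eq_two_or_odd; omega)
  · have := Nat.le_of_dvd (by omega) ((Nat.dvd_add_left (dvd_mul_right _ t)).mp h)
    omega

theorem zetaValue_coe (hp5 : 5 ≤ p) {k : ℕ} (hk : 2 ≤ k) (hkp : k ≤ p - 3) (hev : Even k) (t : ℕ) :
    ((zetaValue p k t : ℤ_[p]) : ℚ_[p]) = ((-eulerBernoulli p (k + (p - 1) * t) : ℚ) : ℚ_[p]) := by
  obtain ⟨h1, h2, h3⟩ := exponent_facts hp5 hk hkp hev t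
  rw [zetaValue, dif_pos (pIntegral_eulerBernoulli hp5 h1 h2 h3)]

theorem norm_zetaValue_sub_le (hp5 : 5 ≤ p) {k : ℕ} (hk : 2 ≤ k) (hkp : k ≤ p - 3) (hev : Even k)
    (t t' : ℕ) :
    ‖zetaValue p k t - zetaValue p k t'‖ ≤ ‖((t : ℤ_[p]) - (t' : ℤ_[p]))‖ := by
  by_cases he : (t : ℤ_[p]) - (t' : ℤ_[p]) = 0
  · rw [sub_eq_zero, Nat.cast_inj] at he
    simp [he]
  set v := ((t : ℤ_[p]) - (t' : ℤ_[p])).valuation with hv
  have hnorm : ‖((t : ℤ_[p]) - (t' : ℤ_[p]))‖ = (p : ℝ) ^ (-(v : ℤ)) :=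
    PadicInt.norm_eq_zpow_neg_valuation he
  have hdiv : ((p : ℤ) ^ v) ∣ ((t : ℤ) - t') := by
    refine (PadicInt.norm_int_le_pow_iff_dvd (p := p) (k := (t : ℤ) - t') (n := v)).mp ?_
    push_cast
    exact hnorm.le
  have hmod : k + (p - 1) * t ≡ k + (p - 1) * t' [MOD p ^ (v + 1 - 1) * (p - 1)] := by
    refine Nat.ModEq.add_left k ?_
    rw [Nat.add_sub_cancel, mul_comm (p ^ v)]
    refine Nat.ModEq.mul_left' _ ?_
    rw [Nat.modEq_iff_dvd, Nat.cast_pow]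
    exact dvd_sub_comm.mp hdiv
  obtain ⟨h1, h2, h3⟩ := exponent_facts hp5 hk hkp hev t
  obtain ⟨h1', h2', -⟩ := exponent_facts hp5 hk hkp hev t'
  obtain ⟨w, hw, ew⟩ := eulerBernoulli_congr hp5 (Nat.le_add_left 1 v) h1 h1' h2 h2' h3 hmod
  rw [PadicInt.norm_def, PadicInt.coe_sub, zetaValue_coe hp5 hk hkp hev, zetaValue_coe hp5 hk hkp hev,
    hnorm]
  rw [show ((-eulerBernoulli p (k + (p - 1) * t) : ℚ) : ℚ_[p]) -
      ((-eulerBernoulli p (k + (p - 1) * t') : ℚ) : ℚ_[p]) = -((p : ℚ_[p]) ^ (v + 1) * (w : ℚ_[p])) by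
    rw [ew]; push_cast; ring, norm_neg, norm_mul, Padic.norm_p_pow]
  refine le_trans (mul_le_of_le_one_right (by positivity) (Padic.norm_rat_le_one hw)) ?_
  gcongr
  · exact_mod_cast hp.out.one_lt.le
  · omega

end FA.OrderTheta

namespace FA.Summary

open FA.OrderTheta

/-- **The generalised Kummer congruences.** -/
theorem kummer_congruence_general (p : ℕ) [Fact p.Prime] (hp5 : 5 ≤ p) (N m n : ℕ) (hN : 1 ≤ N)
    (hm : 2 ≤ m) (hn : 2 ≤ n) (hev : Even m) (hev' : Even n) (hdvd : ¬ p - 1 ∣ m)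
    (hmn : m ≡ n [MOD p ^ (N - 1) * (p - 1)]) :
    ∃ t : ℚ, ¬ p ∣ t.den ∧ (1 - (p : ℚ) ^ (m - 1)) * (bernoulli m / m) -
      (1 - (p : ℚ) ^ (n - 1)) * (bernoulli n / n) = (p : ℚ) ^ N * t := by
  obtain ⟨t, ht, e⟩ := eulerBernoulli_congr hp5 hN hm hn hev hev' hdvd hmn
  refine ⟨t, ht, ?_⟩
  unfold eulerBernoulli at e
  push_cast at e
  rw [e]
  ring

/-- **The Kubota–Leopoldt zeta function** on the branch of `k`. -/
theorem padicZeta (p : ℕ) [Fact p.Prime] (hp5 : 5 ≤ p) (k : ℕ) (hk : 2 ≤ k) (hkp : k ≤ p - 3)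
    (hev : Even k) :
    ∃! F : ℤ_[p] → ℤ_[p], Continuous F ∧ ∀ t : ℕ, ((F (t : ℤ_[p]) : ℤ_[p]) : ℚ_[p]) =
      ((-((1 - (p : ℚ) ^ (k + (p - 1) * t - 1)) *
        (bernoulli (k + (p - 1) * t) / ((k + (p - 1) * t : ℕ) : ℚ))) : ℚ) : ℚ_[p]) := by
  set S : Set ℤ_[p] := Set.range (Nat.cast : ℕ → ℤ_[p]) with hS
  let g : S → ℤ_[p] := fun x => zetaValue p k (Classical.choose x.2)
  have hg : ∀ t : ℕ, g ⟨(t : ℤ_[p]), t, rfl⟩ = zetaValue p k t := fun t => by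
    show zetaValue p k _ = _
    congr 1
    exact Nat.cast_injective (R := ℤ_[p])
      (Classical.choose_spec (⟨t, rfl⟩ : ∃ y : ℕ, (y : ℤ_[p]) = (t : ℤ_[p])))
  have hlip : LipschitzWith 1 g := LipschitzWith.of_dist_le_mul fun x y => by
    rw [NNReal.coe_one, one_mul, Subtype.dist_eq, dist_eq_norm, dist_eq_norm]
    obtain ⟨_, i, rfl⟩ := x
    obtain ⟨_, j, rfl⟩ := y
    rw [hg, hg]
    exact norm_zetaValue_sub_le hp5 hk hkp hev i j
  have hdense : DenseRange (Subtype.val : S → ℤ_[p]) := Dense.denseRange_val PadicInt.denseRange_natCast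
  have hind : IsUniformInducing (Subtype.val : S → ℤ_[p]) :=
    isUniformEmbedding_subtype_val.isUniformInducing
  set F := (hind.isDenseInducing hdense).extend g with hF
  have hcont : Continuous F := (uniformContinuous_uniformly_extend hind hdense hlip.uniformContinuous).continuous
  have hval : ∀ t : ℕ, F (t : ℤ_[p]) = zetaValue p k t := fun t => by
    rw [← hg t]
    exact uniformly_extend_of_ind hind hdense hlip.uniformContinuous (⟨(t : ℤ_[p]), t, rfl⟩ : S)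
  refine ⟨F, ⟨hcont, fun t => ?_⟩, fun G hG => ?_⟩
  · rw [hval, zetaValue_coe hp5 hk hkp hev]
    rfl
  · refine (PadicInt.denseRange_natCast.equalizer hcont hG.1 (funext fun t => ?_)).symm
    apply Subtype.ext
    show ((F (t : ℤ_[p]) : ℤ_[p]) : ℚ_[p]) = (G (t : ℤ_[p]) : ℚ_[p])
    rw [hG.2 t, hval, zetaValue_coe hp5 hk hkp hev]
    rfl

end FA.Summary
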