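import Fermat.Agent.JZeroInertia.Torsion
import Fermat.Agent.CuspClass.Eleven

/-!
# Summary: inertia at the level on `J₀(p)[l]`, `l ≠ p`

`p` and `l ≥ 5` are primes, `l ≠ p`, and `l` does not divide `n`, the numerator of `(p - 1) / 12`.

* `inertia_fixed_classes`: the classes of `J₀(p)[l]` fixed by inertia at `p` are the image of
  `s - 1` for an element `s` of inertia, they are `l ^ g` in number, `g = dim S₂(Γ₀(p))`, and a
  Frobenius element at `p` acts on them as `p U_p`;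
* `system_ramified`, `system_order_l`, `system_not_solvable`: a representation with the traces and
  determinants of a system modulo `l` of the Hecke algebra of level `p` is ramified at `p`, inertia
  there contains a transvection and the image is not solvable;
* `system_full_image`, `level_eleven_full_image`: over `𝔽_l` the image is all of `GL₂(𝔽_l)`, so at
  level `11` for all `l ≥ 7`, `l ≠ 11`;
* `torsion_coprime_derived`, `torsion_coprime_solvable_extension`, `torsion_eleven_solvable`: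
  `J₀(p)` has no torsion of order prime to `6 n` over the solvable closure of `ℚ`.

Not proved here: `l = 2, 3`, and the primes dividing `n`.
-/

set_option autoImplicit false
set_option linter.style.haveILetI false
set_option synthInstance.maxHeartbeats 400000
set_option maxHeartbeats 1000000

noncomputable section

open ModularCurve FA.Mazur FA.JTorsion FA.ModField CongruenceSubgroup
open scoped Matrix MatrixGroups

namespace FA.InertiaJZero.Summary

open FA.JZeroInertia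

local notation "Qb" => AlgebraicClosure ℚ
local notation "GQ" => AlgebraicClosure ℚ ≃ₐ[ℚ] AlgebraicClosure ℚ

variable {p : ℕ} [hp : Fact p.Prime] {l : ℕ} [hl : Fact l.Prime] {k : Type} [Field k] [CharP k l]

/-- **The classes fixed by inertia at `p`.** -/
theorem inertia_fixed_classes (h5 : 5 ≤ l) (hlp : l ≠ p) (hn : ¬ l ∣ eisensteinNumerator p)
    {A : ValuationSubring Qb} (hA : A.LiesOverPrime p) :
    (∃ s ∈ A.inertiaSubgroupIn ℚ, ∀ x : JZero p, l • x = 0 →
      ((∀ σ ∈ A.inertiaSubgroupIn ℚ, σ • x = x) ↔ ∃ y : JZero p, l • y = 0 ∧ x = s • y - y)) ∧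
    Nat.card {x : JZero p // l • x = 0 ∧ ∀ σ ∈ A.inertiaSubgroupIn ℚ, σ • x = x} =
      l ^ Module.finrank ℂ (CuspForm (Gamma0 p) 2) ∧
    ∀ x : JZero p, l • x = 0 → (∀ σ ∈ A.inertiaSubgroupIn ℚ, σ • x = x) →
      ∀ σ : GQ, A.IsFrobeniusAt σ p →
        haveI : NeZero p := ⟨hp.out.ne_zero⟩
        σ • x = p • heckeLvl p p x := by
  classical
  obtain ⟨alg⟩ := exists_algebra_qbar
  letI := alg
  haveI : NeZero l := ⟨hl.out.ne_zero⟩
  haveI : NeZero p := ⟨hp.out.ne_zero⟩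
  obtain ⟨s, hsI, hgen⟩ := FA.RT.exists_tame_gen hl.out hp.out hlp hA
  obtain ⟨hfix, -, hsq, hcard⟩ := levelShape h5 hlp hn hA (s := s) ⟨hsI, hgen⟩
  set T := toTors p (∅ : Set ℕ) l
  have hinj : Function.Injective T := toTors_injective p (∅ : Set ℕ) l
  have hiff : ∀ z : ModN p (∅ : Set ℕ) l, (∀ σ ∈ A.inertiaSubgroupIn ℚ, σ • T z = T z) ↔
      galMod p (∅ : Set ℕ) l s z = z := fun z => by
    refine ⟨fun h => hinj (by rw [toTors_galMod, h s hsI]), fun h σ hσ => ?_⟩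
    rw [← toTors_galMod, (hfix z h).1 σ hσ]
  refine ⟨⟨s, hsI, fun x hx => ?_⟩, ?_, fun x hx hfx σ hσ => ?_⟩
  · obtain ⟨z, rfl⟩ := FA.EisReducible.exists_toTors_eq_of_nsmul p l x hx
    rw [hiff]
    constructor
    · intro hz
      obtain ⟨w, hw⟩ := (hfix z hz).2.1
      exact ⟨T w, nsmul_toTors p (∅ : Set ℕ) l w, by rw [← hw, map_sub, toTors_galMod]⟩
    · rintro ⟨y, hy, hzy⟩
      obtain ⟨w, rfl⟩ := FA.EisReducible.exists_toTors_eq_of_nsmul p l y hy
      rw [← toTors_galMod, ← map_sub] at hzy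
      rw [hinj hzy]
      exact hsq w
  · rw [← hcard]
    refine (Nat.card_congr (Equiv.ofBijective (fun z => ⟨T z.1, nsmul_toTors p (∅ : Set ℕ) l z.1,
      (hiff z.1).2 z.2⟩) ⟨fun a b h => Subtype.ext (hinj (congrArg Subtype.val h)), ?_⟩)).symm
    rintro ⟨x, hx, hfx⟩
    obtain ⟨z, hz⟩ := FA.EisReducible.exists_toTors_eq_of_nsmul p l x hx
    exact ⟨⟨z, (hiff z).1 (by rw [hz]; exact hfx)⟩, Subtype.ext hz⟩
  · obtain ⟨z, rfl⟩ := FA.EisReducible.exists_toTors_eq_of_nsmul p l x hx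
    rw [← toTors_galMod, (hfix z ((hiff z).1 hfx)).2.2 σ hσ, map_nsmul,
      show tGen p ⟨p, hp.out⟩ = CuspForm.heckeAlgebra.U (k := 2) hp.out dvd_rfl
        (Set.notMem_empty _) from CuspForm.heckeEvalForms_heckeGen_of_dvd (q := ⟨p, hp.out⟩) dvd_rfl,
      toTors_U_smul]
    rfl

/-- **Ramified at `p`, with a transvection in the image of inertia.** -/
theorem system_ramified (h5 : 5 ≤ l) (hlp : l ≠ p) (hn : ¬ l ∣ eisensteinNumerator p)
    (θ : TAlg p →+* k) (r : GQ →* Matrix (Fin 2) (Fin 2) k) (hopen : IsOpen (r.ker : Set GQ))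
    (hr : ∀ q : Nat.Primes, (q : ℕ) ≠ p → (q : ℕ) ≠ l →
      ∀ A : ValuationSubring Qb, A.LiesOverPrime q → ∀ σ : GQ, A.IsFrobeniusAt σ q →
        (r σ).trace = θ (tGen p q) ∧ (r σ).det = ((q : ℕ) : k))
    {A : ValuationSubring Qb} (hA : A.LiesOverPrime p) :
    ∃ s ∈ A.inertiaSubgroupIn ℚ, r s ≠ 1 ∧ (r s - 1) * (r s - 1) = 0 := by
  obtain ⟨alg⟩ := exists_algebra_qbar
  letI := alg
  haveI : NeZero l := ⟨hl.out.ne_zero⟩
  obtain ⟨s, hsI, hgen⟩ := FA.RT.exists_tame_gen hl.out hp.out hlp hA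
  exact ⟨s, hsI, IsSystemRepAway.tame_transvection (θ := θ) ⟨hopen, hr⟩ h5 hlp hn hA ⟨hsI, hgen⟩⟩

/-- **An element of order `l`.** -/
theorem system_order_l (h5 : 5 ≤ l) (hlp : l ≠ p) (hn : ¬ l ∣ eisensteinNumerator p)
    (θ : TAlg p →+* k) (r : GQ →* Matrix (Fin 2) (Fin 2) k) (hopen : IsOpen (r.ker : Set GQ))
    (hr : ∀ q : Nat.Primes, (q : ℕ) ≠ p → (q : ℕ) ≠ l →
      ∀ A : ValuationSubring Qb, A.LiesOverPrime q → ∀ σ : GQ, A.IsFrobeniusAt σ q →
        (r σ).trace = θ (tGen p q) ∧ (r σ).det = ((q : ℕ) : k)) :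
    ∃ g, r g ≠ 1 ∧ r g ^ l = 1 := by
  obtain ⟨A, hA⟩ := FA.Deform.exists_liesOverPrime hp.out
  obtain ⟨s, -, hne, hsq⟩ := system_ramified h5 hlp hn θ r hopen hr hA
  refine ⟨s, hne, ?_⟩
  have h1 : (r s - 1) ^ l = 0 := pow_eq_zero_of_le hl.out.two_le (by rw [pow_two]; exact hsq)
  rwa [sub_pow_char_of_commute l (Commute.one_right _), one_pow, sub_eq_zero] at h1

/-- **The image is not solvable.** -/
theorem system_not_solvable (h5 : 5 ≤ l) (hlp : l ≠ p) (hn : ¬ l ∣ eisensteinNumerator p)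
    (θ : TAlg p →+* k) (ρ : GQ →* GL (Fin 2) k) (hopen : IsOpen (ρ.ker : Set GQ))
    (hr : ∀ q : Nat.Primes, (q : ℕ) ≠ p → (q : ℕ) ≠ l →
      ∀ A : ValuationSubring Qb, A.LiesOverPrime q → ∀ σ : GQ, A.IsFrobeniusAt σ q →
        (ρ σ).val.trace = θ (tGen p q) ∧ (ρ σ).val.det = ((q : ℕ) : k)) :
    ¬ Group.IsSolvable ρ.range := by
  intro hsol
  obtain ⟨alg⟩ := exists_algebra_qbar
  letI := alg
  haveI : NeZero l := ⟨hl.out.ne_zero⟩
  have h : IsSystemRepAway l θ ((Units.coeHom _).comp ρ) :=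
    ⟨Subgroup.isOpen_mono (fun σ hσ => MonoidHom.mem_ker.2 (by
      rw [MonoidHom.comp_apply, MonoidHom.mem_ker.1 hσ, map_one])) hopen, hr⟩
  obtain ⟨n, hn'⟩ := hsol.solvable
  obtain ⟨s, hs, hne⟩ := h.derived_ne_one h5 hlp hn n
  have hmem : ρ.rangeRestrict s ∈ derivedSeries ρ.range n :=
    map_derivedSeries_le_derivedSeries ρ.rangeRestrict n (Subgroup.mem_map_of_mem _ hs)
  rw [hn', Subgroup.mem_bot] at hmem
  exact hne (congrArg (fun x : ρ.range => (x : GL (Fin 2) k).val) hmem)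

/-- **Over the prime field the image is all of `GL₂(𝔽_l)`.** -/
theorem system_full_image (h5 : 5 ≤ l) (hlp : l ≠ p) (hn : ¬ l ∣ eisensteinNumerator p)
    (θ : TAlg p →+* ZMod l) (r : GQ →* Matrix (Fin 2) (Fin 2) (ZMod l))
    (hopen : IsOpen (r.ker : Set GQ))
    (hr : ∀ q : Nat.Primes, (q : ℕ) ≠ p → (q : ℕ) ≠ l →
      ∀ A : ValuationSubring Qb, A.LiesOverPrime q → ∀ σ : GQ, A.IsFrobeniusAt σ q →
        (r σ).trace = θ (tGen p q) ∧ (r σ).det = ((q : ℕ) : ZMod l))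
    {X : Matrix (Fin 2) (Fin 2) (ZMod l)} (hX : X.det ≠ 0) : ∃ g, r g = X := by
  classical
  obtain ⟨B, hB⟩ := FA.Deform.exists_liesOverPrime hp.out
  obtain ⟨s, -, hne, hsq⟩ := system_ramified h5 hlp hn θ r hopen hr hB
  have h : IsSystemRepAway l θ r := ⟨hopen, hr⟩
  refine FA.Ribet.exists_eq_of_transvection r (fun v hv => h.no_line h5 hlp hn hv) (fun a ha => ?_)
    hne hsq hX
  obtain ⟨ζ, hζ⟩ := FA.LocalDef.exists_zeta hl.out
  obtain ⟨A, hA⟩ := FA.Deform.exists_liesOverPrime hl.out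
  obtain ⟨τ, -, hτ⟩ := FA.LocalDef.exists_inertia_zeta hl.out hA hζ (m := a.val) fun hd => ha (by
    rw [← ZMod.natCast_zmod_val a, (ZMod.natCast_eq_zero_iff _ l).2 hd])
  refine ⟨τ, ?_⟩
  rw [h.det_eq τ]
  have h1 := FA.EisReducible.cycK_eq (l := l) hζ hτ
  rw [h1, ZMod.natCast_zmod_val]

/-- **Level `11`**: everything for all `l ≥ 7`, `l ≠ 11`. -/
theorem level_eleven_full_image [Fact (Nat.Prime 11)] (h7 : 7 ≤ l) (hl11 : l ≠ 11)
    (θ : TAlg 11 →+* ZMod l) (r : GQ →* Matrix (Fin 2) (Fin 2) (ZMod l))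
    (hopen : IsOpen (r.ker : Set GQ))
    (hr : ∀ q : Nat.Primes, (q : ℕ) ≠ 11 → (q : ℕ) ≠ l →
      ∀ A : ValuationSubring Qb, A.LiesOverPrime q → ∀ σ : GQ, A.IsFrobeniusAt σ q →
        (r σ).trace = θ (tGen 11 q) ∧ (r σ).det = ((q : ℕ) : ZMod l))
    {X : Matrix (Fin 2) (Fin 2) (ZMod l)} (hX : X.det ≠ 0) : ∃ g, r g = X :=
  system_full_image (by omega) hl11 (fun h => by
    have h' := Nat.le_of_dvd (by decide) (h.trans (by decide : eisensteinNumerator 11 ∣ 5))
    omega) θ r hopen hr hX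

/-- **Level `11`**: exactly `l` classes of order dividing `l` are fixed by inertia at `11`. -/
theorem level_eleven_fixed_card [Fact (Nat.Prime 11)] (h7 : 7 ≤ l) (hl11 : l ≠ 11)
    {A : ValuationSubring Qb} (hA : A.LiesOverPrime 11) :
    Nat.card {x : JZero 11 // l • x = 0 ∧ ∀ σ ∈ A.inertiaSubgroupIn ℚ, σ • x = x} = l := by
  rw [(inertia_fixed_classes (p := 11) (l := l) (by omega) hl11 (fun h => by
    have h' := Nat.le_of_dvd (by decide) (h.trans (by decide : eisensteinNumerator 11 ∣ 5))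
    omega) hA).2.1, FA.CuspClass.finrank_cuspForm_eleven, pow_one]

omit hl in
/-- **No torsion of order prime to `6 n` fixed by a term of the derived series.** -/
theorem torsion_coprime_derived (n m : ℕ) (hm : m.Coprime (6 * eisensteinNumerator p))
    (x : JZero p) (hx : m • x = 0) (hfix : ∀ σ ∈ derivedSeries GQ n, σ • x = x) : x = 0 :=
  eq_zero_of_coprime n m x hm hx hfix

omit hl in
/-- **A field inside a finite solvable Galois extension.** -/
theorem torsion_coprime_solvable_extension (K L : IntermediateField ℚ Qb) [Normal ℚ L]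
    [Group.IsSolvable (L ≃ₐ[ℚ] L)] (hKL : K ≤ L) (m : ℕ)
    (hm : m.Coprime (6 * eisensteinNumerator p)) (x : JZero p) (hx : m • x = 0)
    (hfix : ∀ σ : GQ, (∀ a ∈ K, σ a = a) → σ • x = x) : x = 0 := by
  obtain ⟨n, hn⟩ := Group.IsSolvable.solvable (G := L ≃ₐ[ℚ] L)
  refine torsion_coprime_derived n m hm x hx fun σ hσ => hfix σ fun a ha => ?_
  have hmem := map_derivedSeries_le_derivedSeries (AlgEquiv.restrictNormalHom (F := ℚ) L) n
    (Subgroup.mem_map_of_mem _ hσ)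
  rw [hn, Subgroup.mem_bot] at hmem
  have h := AlgEquiv.restrictNormal_commutes σ L ⟨a, hKL ha⟩
  rw [show σ.restrictNormal L = 1 from hmem] at h
  exact h.symm

omit hp hl in
/-- **Level `11`**: over a solvable extension only torsion at `2`, `3` and `5`. -/
theorem torsion_eleven_solvable [Fact (Nat.Prime 11)] (K L : IntermediateField ℚ Qb) [Normal ℚ L]
    [Group.IsSolvable (L ≃ₐ[ℚ] L)] (hKL : K ≤ L) (m : ℕ) (hm : m.Coprime 30) (x : JZero 11)
    (hx : m • x = 0) (hfix : ∀ σ : GQ, (∀ a ∈ K, σ a = a) → σ • x = x) : x = 0 :=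
  torsion_coprime_solvable_extension (p := 11) K L hKL m
    (hm.coprime_dvd_right (by decide : 6 * eisensteinNumerator 11 ∣ 30)) x hx hfix

end FA.InertiaJZero.Summary
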