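import Fermat.Agent.JZeroInertia.LevelCusp
import Fermat.Agent.Root.SummaryInertiaJZero

/-!
# Summary: the component group of `J₀(p)` at `p`, read on inertia

`p` and `l ≥ 5` are primes, `l ≠ p`, `n` is the numerator of `(p - 1) / 12`, `g = dim S₂(Γ₀(p))`.

* `rational_class_not_displaced`: for `l ∣ n` a rational class of order `l` of `J₀(p)` is no
  `s • y - y`;
* `fixed_card_of_dvd`, `displaced_card_of_dvd`: for `l ∣ n` exactly `l ^ (g + 1)` classes of order
  dividing `l` are fixed by inertia at `p`, and the `s • y - y` are `l ^ (g - 1)` in number;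
* `fixed_card`, `fixed_card_iff`: so for every such `l` there are `l ^ (g + 1)` fixed classes if
  `l` divides `n` and `l ^ g` if not (Mazur, Rapoport: the `l`-part of the component group is
  trivial exactly when `l` does not divide `n`);
* `level_eleven_five_unramified`, `level_eleven_ramified`: inertia at `11` fixes all of
  `J₀(11)[5]`, and not all of `J₀(11)[l]` for `l ≥ 7`, `l ≠ 11`.

Not proved here: `l = 2, 3`, prime powers, and the component group as a scheme.
-/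

set_option autoImplicit false
set_option linter.style.haveILetI false
set_option synthInstance.maxHeartbeats 400000
set_option maxHeartbeats 1000000

noncomputable section

open ModularCurve FA.Mazur FA.JTorsion FA.ModField CongruenceSubgroup
open scoped MatrixGroups

namespace FA.ComponentJZero.Summary

open FA.JZeroInertia

local notation "Qb" => AlgebraicClosure ℚ
local notation "GQ" => AlgebraicClosure ℚ ≃ₐ[ℚ] AlgebraicClosure ℚ

variable {p : ℕ} [hp : Fact p.Prime] {l : ℕ} [hl : Fact l.Prime]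

/-- **A rational class which is not displaced by inertia.** -/
theorem rational_class_not_displaced (h5 : 5 ≤ l) (hlp : l ≠ p) (hn : l ∣ eisensteinNumerator p)
    {A : ValuationSubring Qb} (hA : A.LiesOverPrime p) :
    ∃ s ∈ A.inertiaSubgroupIn ℚ, ∃ c : JZero p, addOrderOf c = l ∧ (∀ σ : GQ, σ • c = c) ∧
      ∀ y : JZero p, l • y = 0 → s • y - y ≠ c := by
  classical
  obtain ⟨alg⟩ := exists_algebra_qbar
  letI := alg
  haveI : NeZero l := ⟨hl.out.ne_zero⟩
  haveI : NeZero p := ⟨hp.out.ne_zero⟩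
  obtain ⟨s, hsI, hgen⟩ := FA.RT.exists_tame_gen hl.out hp.out hlp hA
  obtain ⟨-, ⟨c, hc0, hc, hcd⟩, -⟩ := cuspShape h5 hlp hn hA (s := s) ⟨hsI, hgen⟩
  refine ⟨s, hsI, toTors p (∅ : Set ℕ) l c, ?_, fun σ => by rw [← toTors_galMod, hc],
    fun y hy e => ?_⟩
  · exact addOrderOf_eq_prime (nsmul_toTors p (∅ : Set ℕ) l c) fun h =>
      hc0 (toTors_injective p (∅ : Set ℕ) l (h.trans (map_zero _).symm))
  · obtain ⟨w, rfl⟩ := FA.EisReducible.exists_toTors_eq_of_nsmul p l y hy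
    rw [← toTors_galMod, ← map_sub] at e
    exact hcd w (toTors_injective p (∅ : Set ℕ) l e)

/-- **`l ^ (g + 1)` fixed classes for `l ∣ n`.** -/
theorem fixed_card_of_dvd (h5 : 5 ≤ l) (hlp : l ≠ p) (hn : l ∣ eisensteinNumerator p)
    {A : ValuationSubring Qb} (hA : A.LiesOverPrime p) :
    Nat.card {x : JZero p // l • x = 0 ∧ ∀ σ ∈ A.inertiaSubgroupIn ℚ, σ • x = x} =
      l ^ (Module.finrank ℂ (CuspForm (Gamma0 p) 2) + 1) := by
  classical
  obtain ⟨alg⟩ := exists_algebra_qbar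
  letI := alg
  haveI : NeZero l := ⟨hl.out.ne_zero⟩
  haveI : NeZero p := ⟨hp.out.ne_zero⟩
  obtain ⟨s, hsI, hgen⟩ := FA.RT.exists_tame_gen hl.out hp.out hlp hA
  obtain ⟨hfix, -, hcard, -⟩ := cuspShape h5 hlp hn hA (s := s) ⟨hsI, hgen⟩
  have hinj := toTors_injective p (∅ : Set ℕ) l
  have hiff : ∀ z : ModN p (∅ : Set ℕ) l, (∀ σ ∈ A.inertiaSubgroupIn ℚ,
      σ • toTors p (∅ : Set ℕ) l z = toTors p (∅ : Set ℕ) l z) ↔
      galMod p (∅ : Set ℕ) l s z = z := fun z => by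
    refine ⟨fun h => hinj (by rw [toTors_galMod, h s hsI]), fun h σ hσ => ?_⟩
    rw [← toTors_galMod, hfix z h σ hσ]
  rw [← hcard]
  refine (Nat.card_congr (Equiv.ofBijective (fun z => ⟨toTors p (∅ : Set ℕ) l z.1,
    nsmul_toTors p (∅ : Set ℕ) l z.1, (hiff z.1).2 z.2⟩)
    ⟨fun a b h => Subtype.ext (hinj (congrArg Subtype.val h)), ?_⟩)).symm
  rintro ⟨x, hx, hfx⟩
  obtain ⟨z, hz⟩ := FA.EisReducible.exists_toTors_eq_of_nsmul p l x hx
  exact ⟨⟨z, (hiff z).1 (by rw [hz]; exact hfx)⟩, Subtype.ext hz⟩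

/-- **`l ^ (g - 1)` classes `s • y - y` for `l ∣ n`.** -/
theorem displaced_card_of_dvd (h5 : 5 ≤ l) (hlp : l ≠ p) (hn : l ∣ eisensteinNumerator p)
    {A : ValuationSubring Qb} (hA : A.LiesOverPrime p) :
    ∃ s ∈ A.inertiaSubgroupIn ℚ,
      Nat.card {x : JZero p // ∃ y : JZero p, l • y = 0 ∧ x = s • y - y} * l =
        l ^ Module.finrank ℂ (CuspForm (Gamma0 p) 2) := by
  classical
  obtain ⟨alg⟩ := exists_algebra_qbar
  letI := alg
  haveI : NeZero l := ⟨hl.out.ne_zero⟩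
  haveI : NeZero p := ⟨hp.out.ne_zero⟩
  obtain ⟨s, hsI, hgen⟩ := FA.RT.exists_tame_gen hl.out hp.out hlp hA
  obtain ⟨-, -, -, hcard⟩ := cuspShape h5 hlp hn hA (s := s) ⟨hsI, hgen⟩
  refine ⟨s, hsI, ?_⟩
  rw [← hcard]
  let f : (Set.range fun w : ModN p (∅ : Set ℕ) l => galMod p (∅ : Set ℕ) l s w - w) →
      {x : JZero p // ∃ y : JZero p, l • y = 0 ∧ x = s • y - y} := fun z =>
    ⟨toTors p (∅ : Set ℕ) l z.1, by
      obtain ⟨w, hw⟩ := z.2
      exact ⟨toTors p (∅ : Set ℕ) l w, nsmul_toTors p (∅ : Set ℕ) l w, by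
        rw [← hw, map_sub, toTors_galMod]⟩⟩
  have hf : Function.Bijective f := by
    refine ⟨fun a b h => Subtype.ext (toTors_injective p (∅ : Set ℕ) l (congrArg Subtype.val h)),
      ?_⟩
    rintro ⟨x, y, hy, rfl⟩
    obtain ⟨w, rfl⟩ := FA.EisReducible.exists_toTors_eq_of_nsmul p l y hy
    exact ⟨⟨_, w, rfl⟩, Subtype.ext (by show toTors p (∅ : Set ℕ) l _ = _; rw [map_sub, toTors_galMod])⟩
  exact congrArg (· * l) (Nat.card_congr (Equiv.ofBijective f hf)).symm

/-- **The count for every `l`.** -/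
theorem fixed_card (h5 : 5 ≤ l) (hlp : l ≠ p) {A : ValuationSubring Qb} (hA : A.LiesOverPrime p) :
    Nat.card {x : JZero p // l • x = 0 ∧ ∀ σ ∈ A.inertiaSubgroupIn ℚ, σ • x = x} =
      l ^ (Module.finrank ℂ (CuspForm (Gamma0 p) 2) +
        if l ∣ eisensteinNumerator p then 1 else 0) := by
  split_ifs with h
  · exact fixed_card_of_dvd h5 hlp h hA
  · exact (FA.InertiaJZero.Summary.inertia_fixed_classes h5 hlp h hA).2.1

/-- **More than `l ^ g` exactly at the divisors of the numerator.** -/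
theorem fixed_card_iff (h5 : 5 ≤ l) (hlp : l ≠ p) {A : ValuationSubring Qb}
    (hA : A.LiesOverPrime p) :
    l ^ Module.finrank ℂ (CuspForm (Gamma0 p) 2) <
        Nat.card {x : JZero p // l • x = 0 ∧ ∀ σ ∈ A.inertiaSubgroupIn ℚ, σ • x = x} ↔
      l ∣ eisensteinNumerator p := by
  rw [fixed_card h5 hlp hA, Nat.pow_lt_pow_iff_right hl.out.one_lt]
  split_ifs with h <;> simp [h]

omit hp in
/-- The classes of order dividing `l` of `J₀(11)` are `l²` in number. -/
theorem torsion_card_eleven [Fact (Nat.Prime 11)] :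
    Nat.card {x : JZero 11 // l • x = 0} = l ^ 2 := by
  classical
  obtain ⟨alg⟩ := exists_algebra_qbar
  letI := alg
  haveI : NeZero l := ⟨hl.out.ne_zero⟩
  obtain ⟨-, hcard⟩ := card_modN 11 l
  rw [FA.CuspClass.finrank_cuspForm_eleven, mul_one] at hcard
  rw [← hcard]
  refine (Nat.card_congr (Equiv.ofBijective (fun z => ⟨toTors 11 (∅ : Set ℕ) l z,
    nsmul_toTors 11 (∅ : Set ℕ) l z⟩) ⟨fun a b h => toTors_injective 11 (∅ : Set ℕ) l
      (congrArg Subtype.val h), ?_⟩)).symm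
  rintro ⟨x, hx⟩
  obtain ⟨z, hz⟩ := FA.EisReducible.exists_toTors_eq_of_nsmul 11 l x hx
  exact ⟨z, Subtype.ext hz⟩

omit hp hl in
/-- **Inertia at `11` fixes `J₀(11)[5]`.** -/
theorem level_eleven_five_unramified [Fact (Nat.Prime 11)] [Fact (Nat.Prime 5)]
    {A : ValuationSubring Qb} (hA : A.LiesOverPrime 11) (x : JZero 11) (hx : 5 • x = 0)
    {σ : GQ} (hσ : σ ∈ A.inertiaSubgroupIn ℚ) : σ • x = x := by
  classical
  have h1 := fixed_card_of_dvd (p := 11) (l := 5) le_rfl (by norm_num) (by decide) hA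
  rw [FA.CuspClass.finrank_cuspForm_eleven] at h1
  have h2 := torsion_card_eleven (l := 5)
  let f : {x : JZero 11 // 5 • x = 0 ∧ ∀ σ ∈ A.inertiaSubgroupIn ℚ, σ • x = x} →
      {x : JZero 11 // 5 • x = 0} := fun y => ⟨y.1, y.2.1⟩
  haveI : Finite {x : JZero 11 // 5 • x = 0} := Nat.finite_of_card_ne_zero (by rw [h2]; norm_num)
  haveI : Finite {x : JZero 11 // 5 • x = 0 ∧ ∀ σ ∈ A.inertiaSubgroupIn ℚ, σ • x = x} :=
    Nat.finite_of_card_ne_zero (by rw [h1]; norm_num)
  have hb : Function.Bijective f := (Nat.bijective_iff_injective_and_card f).2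
    ⟨fun a b h => Subtype.ext (congrArg Subtype.val h :), h1.trans h2.symm⟩
  obtain ⟨y, hy⟩ := hb.2 ⟨x, hx⟩
  rw [← show y.1 = x from congrArg Subtype.val hy]
  exact y.2.2 σ hσ

omit hp in
/-- **Inertia at `11` moves `J₀(11)[l]`** for `l ≥ 7`, `l ≠ 11`. -/
theorem level_eleven_ramified [Fact (Nat.Prime 11)] (h7 : 7 ≤ l) (hl11 : l ≠ 11)
    {A : ValuationSubring Qb} (hA : A.LiesOverPrime 11) :
    ∃ x : JZero 11, l • x = 0 ∧ ∃ σ ∈ A.inertiaSubgroupIn ℚ, σ • x ≠ x := by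
  by_contra hcon
  push Not at hcon
  have h1 := FA.InertiaJZero.Summary.level_eleven_fixed_card h7 hl11 hA
  have h3 : Nat.card {x : JZero 11 // l • x = 0 ∧ ∀ σ ∈ A.inertiaSubgroupIn ℚ, σ • x = x} =
      Nat.card {x : JZero 11 // l • x = 0} :=
    Nat.card_congr (Equiv.subtypeEquivRight fun x => and_iff_left_of_imp (hcon x))
  rw [h3, torsion_card_eleven] at h1
  nlinarith

end FA.ComponentJZero.Summary
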