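import Fermat.Agent.JZeroInertia.Toric
import Fermat.Agent.CuspClass.Eleven

/-!
# Summary: the reduction of `J₀(p)` at `p` is purely toric, read on inertia

`p` is a prime, `n` the numerator of `(p - 1) / 12`, `g = dim S₂(Γ₀(p))` and `M` is prime to `6 n p`.

* `inertia_cyclic`: on `J₀(p)[M]` inertia at `p` acts through the powers of one element `s`, is
  unipotent, and its fixed classes are the `s • y - y`;
* `fixed_card`: these are `M ^ g` in number;
* `inertia_order`: for `g > 0` the element `s` has order exactly `M` on `J₀(p)[M]`, so the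
  ramification index at `p` of the field of `J₀(p)[M]` is `M`;
* `not_potentially_unramified`: for `g > 0` and a prime `l ≥ 5` not dividing `n p` no open subgroup
  of the Galois group lets its inertia at `p` fix all `l`-power torsion (by the criterion of Néron,
  Ogg and Shafarevich, not formalised here: no potentially good reduction at `p`);
* `inertia_moves_in_open`: hence some torsion prime to `p` is moved inside every open subgroup;
* `level_eleven_fixed_card_all`, `level_eleven_inertia_order`: at level `11`, `M` prime to `330`.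

Not proved here: orders with the primes `2`, `3` or the primes dividing `n`.
-/

set_option autoImplicit false
set_option linter.style.haveILetI false
set_option linter.unusedSectionVars false
set_option synthInstance.maxHeartbeats 400000
set_option maxHeartbeats 1000000

noncomputable section

open ModularCurve FA.Mazur FA.JTorsion FA.ModField CongruenceSubgroup
open scoped MatrixGroups

namespace FA.ToricJZero.Summary

open FA.JZeroInertia

local notation "Qb" => AlgebraicClosure ℚ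
local notation "GQ" => AlgebraicClosure ℚ ≃ₐ[ℚ] AlgebraicClosure ℚ

variable {p : ℕ} [hp : Fact p.Prime]

theorem not_dvd_of_coprime {M : ℕ} (hM : M.Coprime (6 * eisensteinNumerator p * p)) : ¬ p ∣ M :=
  hp.out.coprime_iff_not_dvd.1 (Nat.Coprime.coprime_dvd_right (dvd_mul_left p _) hM).symm

/-- **Inertia at `p` on `J₀(p)[M]`**: cyclic, unipotent, and the fixed classes are the displaced. -/
theorem inertia_cyclic {M : ℕ} (hM : M.Coprime (6 * eisensteinNumerator p * p))
    {A : ValuationSubring Qb} (hA : A.LiesOverPrime p) :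
    ∃ s ∈ A.inertiaSubgroupIn ℚ,
      (∀ τ ∈ A.inertiaSubgroupIn ℚ, ∃ i : ℕ, ∀ y : JZero p, M • y = 0 → τ • y = s ^ i • y) ∧
      (∀ σ ∈ A.inertiaSubgroupIn ℚ, ∀ τ ∈ A.inertiaSubgroupIn ℚ, ∀ y : JZero p, M • y = 0 →
        σ • (τ • y - y) = τ • y - y) ∧
      ∀ x : JZero p, M • x = 0 →
        ((∀ σ ∈ A.inertiaSubgroupIn ℚ, σ • x = x) ↔ ∃ y : JZero p, M • y = 0 ∧ x = s • y - y) := by
  obtain ⟨s, h⟩ := exists_toricAt hA M hM
  have hpM := not_dvd_of_coprime hM
  refine ⟨s, h.1, h.2.2.2, fun σ hσ τ hτ y hy => ?_, fun x hx => ⟨fun hf => h.2.1 x hx (hf s h.1),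
    ?_⟩⟩
  · obtain ⟨i, hi⟩ := h.2.2.2 τ hτ
    have hB : M • (s • y - y) = 0 := by rw [nsmul_sub, nsmul_smul_eq_zero hy, hy, sub_zero]
    rw [hi y hy, inertia_pow hA hpM h.1 hy, add_sub_cancel_left, smul_nsmul_comm,
      h.fixed hB (inertia_sq hA hpM h.1 hy) hσ]
  · rintro ⟨y, hy, rfl⟩ σ hσ
    exact h.fixed (by rw [nsmul_sub, nsmul_smul_eq_zero hy, hy, sub_zero])
      (inertia_sq hA hpM h.1 hy) hσ

/-- **`M ^ g` classes fixed by inertia.** -/
theorem fixed_card {M : ℕ} (hM : M.Coprime (6 * eisensteinNumerator p * p))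
    {A : ValuationSubring Qb} (hA : A.LiesOverPrime p) :
    Nat.card {x : JZero p // M • x = 0 ∧ ∀ σ ∈ A.inertiaSubgroupIn ℚ, σ • x = x} =
      M ^ Module.finrank ℂ (CuspForm (Gamma0 p) 2) := by
  obtain ⟨s, h⟩ := exists_toricAt hA M hM
  rw [← h.2.2.1]
  exact Nat.card_congr (Equiv.subtypeEquivRight fun x =>
    ⟨fun hx => ⟨hx.1, hx.2 s h.1⟩, fun hx => ⟨hx.1, fun σ hσ => h.fixed hx.1 hx.2 hσ⟩⟩)

/-- **The image of inertia has order exactly `M`.** -/
theorem inertia_order (hg : 0 < Module.finrank ℂ (CuspForm (Gamma0 p) 2)) {M : ℕ}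
    (hM : M.Coprime (6 * eisensteinNumerator p * p)) {A : ValuationSubring Qb}
    (hA : A.LiesOverPrime p) :
    ∃ s ∈ A.inertiaSubgroupIn ℚ,
      (∀ τ ∈ A.inertiaSubgroupIn ℚ, ∃ i : ℕ, ∀ y : JZero p, M • y = 0 → τ • y = s ^ i • y) ∧
      ∀ j : ℕ, (∀ y : JZero p, M • y = 0 → s ^ j • y = y) ↔ M ∣ j := by
  classical
  obtain ⟨s, h⟩ := exists_toricAt hA M hM
  have hpM := not_dvd_of_coprime hM
  refine ⟨s, h.1, h.2.2.2, fun j => ⟨fun hj => ?_,
    fun hj y hy => inertia_pow_eq_self hA hpM h.1 hy hj⟩⟩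
  set d := Nat.gcd M j with hd
  have hdM : d ∣ M := Nat.gcd_dvd_left M j
  have hcd := Nat.Coprime.coprime_dvd_left hdM hM
  obtain ⟨t, ht⟩ := exists_toricAt hA d hcd
  have hd0 : d ≠ 0 := fun h0 => by
    rw [h0, Nat.coprime_zero_left] at hcd
    exact hp.out.one_lt.ne' (Nat.eq_one_of_mul_eq_one_left hcd)
  let f : {x : JZero p // M • x = 0 ∧ s • x = x} → {x : JZero p // d • x = 0 ∧ t • x = x} :=
    fun x => ⟨x.1, by
      obtain ⟨y, hy, hxy⟩ := h.2.1 x.1 x.2.1 x.2.2
      refine ⟨?_, h.fixed x.2.1 x.2.2 ht.1⟩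
      have hjx : j • x.1 = 0 := by
        rw [hxy, ← add_right_inj y, ← inertia_pow hA hpM h.1 hy, hj y hy, add_zero]
      exact addOrderOf_dvd_iff_nsmul_eq_zero.1 (Nat.dvd_gcd
        (addOrderOf_dvd_of_nsmul_eq_zero x.2.1) (addOrderOf_dvd_of_nsmul_eq_zero hjx))⟩
  haveI : Finite {x : JZero p // d • x = 0 ∧ t • x = x} := Nat.finite_of_card_ne_zero (by
    rw [ht.2.2.1]; exact pow_ne_zero _ hd0)
  have hle := Nat.card_le_card_of_injective f fun a b hab =>
    Subtype.ext (congrArg Subtype.val hab :)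
  rw [h.2.2.1, ht.2.2.1] at hle
  have hMd : M ≤ d := (Nat.pow_le_pow_iff_left hg.ne').1 hle
  have hM0 : M ≠ 0 := fun h0 => by
    rw [h0, Nat.coprime_zero_left] at hM
    exact hp.out.one_lt.ne' (Nat.eq_one_of_mul_eq_one_left hM)
  rw [← le_antisymm (Nat.le_of_dvd (Nat.pos_of_ne_zero hM0) hdM) hMd]
  exact Nat.gcd_dvd_right M j

/-- **No open subgroup lets inertia fix the `l`-power torsion.** -/
theorem not_potentially_unramified (hg : 0 < Module.finrank ℂ (CuspForm (Gamma0 p) 2)) {l : ℕ}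
    (hl : l.Prime) (h5 : 5 ≤ l) (hlp : l ≠ p) (hn : ¬ l ∣ eisensteinNumerator p)
    {A : ValuationSubring Qb} (hA : A.LiesOverPrime p) (U : Subgroup GQ)
    (hU : IsOpen (U : Set GQ)) :
    ∃ (k : ℕ) (x : JZero p), l ^ k • x = 0 ∧
      ∃ σ ∈ A.inertiaSubgroupIn ℚ, σ ∈ U ∧ σ • x ≠ x := by
  haveI : Finite (GQ ⧸ U) := Subgroup.quotient_finite_of_isOpen U hU
  have hidx : U.index ≠ 0 := Subgroup.index_ne_zero_of_finite
  have hc6 : l.Coprime 6 := hl.coprime_iff_not_dvd.2 fun h => by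
    have := Nat.le_of_dvd (by norm_num) h
    interval_cases l <;> simp_all (config := {decide := true})
  have hco : (l ^ U.index).Coprime (6 * eisensteinNumerator p * p) :=
    Nat.Coprime.pow_left _ (Nat.Coprime.mul_right (Nat.Coprime.mul_right hc6
      (hl.coprime_iff_not_dvd.2 hn)) ((Nat.coprime_primes hl hp.out).2 hlp))
  obtain ⟨s, hsI, -, hord⟩ := inertia_order hg hco hA
  obtain ⟨a, ha0, hai, haU⟩ := Subgroup.exists_pow_mem_of_index_ne_zero hidx s
  by_contra hall
  push Not at hall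
  have hdvd := (hord a).1 fun y hy => hall _ y hy (s ^ a) (pow_mem hsI a) haU
  have h1 := Nat.le_of_dvd ha0 hdvd
  have h2 := Nat.lt_pow_self (n := U.index) hl.one_lt
  omega

/-- **Some torsion prime to `p` is moved inside every open subgroup.** -/
theorem inertia_moves_in_open (hg : 0 < Module.finrank ℂ (CuspForm (Gamma0 p) 2))
    {A : ValuationSubring Qb} (hA : A.LiesOverPrime p) (U : Subgroup GQ)
    (hU : IsOpen (U : Set GQ)) :
    ∃ (M : ℕ) (x : JZero p), ¬ p ∣ M ∧ M • x = 0 ∧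
      ∃ σ ∈ A.inertiaSubgroupIn ℚ, σ ∈ U ∧ σ • x ≠ x := by
  obtain ⟨l, hl, hlp⟩ := Nat.exists_infinite_primes (5 + p + eisensteinNumerator p + 1)
  have hn0 : eisensteinNumerator p ≠ 0 := by
    have hp2 := hp.out.two_le
    exact (Nat.div_pos (Nat.le_of_dvd (by omega) (Nat.gcd_dvd_left _ _))
      (Nat.gcd_pos_of_pos_right _ (by norm_num))).ne'
  have hn : ¬ l ∣ eisensteinNumerator p := fun h => by
    have := Nat.le_of_dvd (Nat.pos_of_ne_zero hn0) h
    omega
  obtain ⟨k, x, hx, hσ⟩ := not_potentially_unramified hg hlp (by omega) (by omega) hn hA U hU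
  exact ⟨l ^ k, x, fun h => by
    have := (Nat.prime_dvd_prime_iff_eq hp.out hlp).1 (hp.out.dvd_of_dvd_pow h)
    omega, hx, hσ⟩

/-- **At level `11`**: `M` fixed classes in `J₀(11)[M]`. -/
theorem level_eleven_fixed_card_all [Fact (Nat.Prime 11)] {M : ℕ} (hM : M.Coprime 330)
    {A : ValuationSubring Qb} (hA : A.LiesOverPrime 11) :
    Nat.card {x : JZero 11 // M • x = 0 ∧ ∀ σ ∈ A.inertiaSubgroupIn ℚ, σ • x = x} = M := by
  rw [fixed_card (p := 11) hM hA, FA.CuspClass.finrank_cuspForm_eleven, pow_one]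

/-- At level `11` inertia acts on `J₀(11)[M]` through a cyclic group of order `M`. -/
theorem level_eleven_inertia_order [Fact (Nat.Prime 11)] {M : ℕ} (hM : M.Coprime 330)
    {A : ValuationSubring Qb} (hA : A.LiesOverPrime 11) :
    ∃ s ∈ A.inertiaSubgroupIn ℚ,
      (∀ τ ∈ A.inertiaSubgroupIn ℚ, ∃ i : ℕ, ∀ y : JZero 11, M • y = 0 → τ • y = s ^ i • y) ∧
      ∀ j : ℕ, (∀ y : JZero 11, M • y = 0 → s ^ j • y = y) ↔ M ∣ j :=
  inertia_order (p := 11) (by rw [FA.CuspClass.finrank_cuspForm_eleven]; norm_num) hM hA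

end FA.ToricJZero.Summary
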