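import Fermat.Agent.JZeroInertia.Frobenius
import Fermat.Agent.Root.SummaryToricJZero

/-!
# Summary: the decomposition group at `p` on the torsion of `J₀(p)`

`p` is a prime, `U = U_p` on `J₀(p)`, `n` the numerator of `(p - 1) / 12`, `g = dim S₂(Γ₀(p))` and
`σ` a Frobenius element at a place over `p`.

* `frobenius_mod_fixed`: on `J₀(p)[M]`, `p ∤ M`, the values of `σ - U` are fixed by inertia;
* `frobenius_on_fixed`: for `M` prime to `6 n p`, `σ = p U` on the classes fixed by inertia;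
* `eichler_shimura_at_level`: so `σ² y + p y = (p + 1) U σ y` on all of `J₀(p)[M]`;
* `killed_of_frobenius_pow`: a class fixed by inertia and by `σ ^ f` is killed by `p ^ (2 f) - 1`;
* `torsion_unramified_field`, `torsion_unramified_field_card`: for a field unramified at the place
  with `σ ^ f` trivial on it, the points of order dividing `M` are killed by `p ^ (2 f) - 1` and are
  at most `gcd (M, p ^ (2 f) - 1) ^ g` in number;
* `torsion_padic_rational`: over `ℚ_p` they are killed by `p ^ 2 - 1`.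

Not proved here: orders with the primes `2`, `3` or the primes dividing `n`.
-/

set_option autoImplicit false
set_option linter.style.haveILetI false
set_option linter.unusedSectionVars false
set_option synthInstance.maxHeartbeats 400000
set_option maxHeartbeats 1000000

noncomputable section

open ModularCurve FA.Mazur FA.JTorsion FA.ModField CongruenceSubgroup
open scoped MatrixGroups

namespace FA.FrobeniusJZero.Summary

open FA.JZeroInertia

local notation "Qb" => AlgebraicClosure ℚ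
local notation "GQ" => AlgebraicClosure ℚ ≃ₐ[ℚ] AlgebraicClosure ℚ

variable {p : ℕ} [hp : Fact p.Prime] [NeZero p]

/-- **`σ = U` modulo the classes fixed by inertia.** -/
theorem frobenius_mod_fixed {M : ℕ} (hM : ¬ p ∣ M) {A : ValuationSubring Qb}
    (hA : A.LiesOverPrime p) {σ : GQ} (hσ : A.IsFrobeniusAt σ p) (y : JZero p) (hy : M • y = 0)
    {τ : GQ} (hτ : τ ∈ A.inertiaSubgroupIn ℚ) :
    τ • (σ • y - upJ p p y) = σ • y - upJ p p y :=
  frobenius_sub_fixed hA hσ hτ hM hy

/-- **`σ = p U` on the fixed classes.** -/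
theorem frobenius_on_fixed {M : ℕ} (hM : M.Coprime (6 * eisensteinNumerator p * p))
    {A : ValuationSubring Qb} (hA : A.LiesOverPrime p) {σ : GQ} (hσ : A.IsFrobeniusAt σ p)
    (x : JZero p) (hx : M • x = 0) (hfix : ∀ τ ∈ A.inertiaSubgroupIn ℚ, τ • x = x) :
    σ • x = p • upJ p p x := by
  obtain ⟨s, hsI, -, -, hiff⟩ := FA.ToricJZero.Summary.inertia_cyclic hM hA
  obtain ⟨y, hy, rfl⟩ := (hiff x hx).1 hfix
  exact frobenius_displaced hA hσ hsI (FA.ToricJZero.Summary.not_dvd_of_coprime hM) hy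

/-- **Eichler–Shimura at the level.** -/
theorem eichler_shimura_at_level {M : ℕ} (hM : M.Coprime (6 * eisensteinNumerator p * p))
    {A : ValuationSubring Qb} (hA : A.LiesOverPrime p) {σ : GQ} (hσ : A.IsFrobeniusAt σ p)
    (y : JZero p) (hy : M • y = 0) :
    σ • (σ • y) + p • y = (p + 1) • upJ p p (σ • y) := by
  have hpM := FA.ToricJZero.Summary.not_dvd_of_coprime hM
  have hM0 : M ≠ 0 := fun h => hpM (h ▸ dvd_zero p)
  have hw : M • (σ • y - upJ p p y) = 0 := by
    rw [nsmul_sub, nsmul_smul_eq_zero hy, ← map_nsmul, hy, map_zero, sub_zero]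
  have h := frobenius_on_fixed hM hA hσ _ hw fun τ hτ => frobenius_mod_fixed hpM hA hσ y hy hτ
  rw [smul_sub, map_sub, nsmul_sub, show upJ p p (upJ p p y) = y from heckeLvl_sq hM0 hy,
    ← heckeLvl_smul σ y] at h
  rw [succ_nsmul, sub_eq_iff_eq_add.1 h]
  abel

/-- **A class fixed by inertia and by `σ ^ f` is killed by `p ^ (2 f) - 1`.** -/
theorem killed_of_frobenius_pow {M : ℕ} (hM : M.Coprime (6 * eisensteinNumerator p * p))
    {A : ValuationSubring Qb} (hA : A.LiesOverPrime p) {σ : GQ} (hσ : A.IsFrobeniusAt σ p)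
    (x : JZero p) (hx : M • x = 0) (hfix : ∀ τ ∈ A.inertiaSubgroupIn ℚ, τ • x = x) {f : ℕ}
    (hf : σ ^ f • x = x) : (p ^ (2 * f) - 1) • x = 0 := by
  have hM0 : M ≠ 0 := fun h => FA.ToricJZero.Summary.not_dvd_of_coprime hM (h ▸ dvd_zero p)
  have h1 := frobenius_on_fixed hM hA hσ x hx hfix
  have h2 : σ • (σ • x) = (p * p) • x := by
    rw [h1, smul_nsmul_comm, ← heckeLvl_smul, h1, map_nsmul,
      show upJ p p (upJ p p x) = x from heckeLvl_sq hM0 hx, ← mul_nsmul']
  have h3 : ∀ j : ℕ, σ ^ (2 * j) • x = p ^ (2 * j) • x := fun j => by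
    induction j with
    | zero => rw [mul_zero, pow_zero, one_smul, pow_zero, one_nsmul]
    | succ j ih =>
      rw [mul_add, mul_one, pow_add, pow_add, mul_smul, pow_two σ, mul_smul, h2, smul_nsmul_comm,
        ih, ← mul_nsmul', ← pow_two, mul_comm]
  have h4 := h3 f
  rw [two_mul, pow_add, mul_smul, hf, hf, ← two_mul] at h4
  calc (p ^ (2 * f) - 1) • x = (p ^ (2 * f) - 1) • x + x - x := (add_sub_cancel_right _ _).symm
    _ = p ^ (2 * f) • x - x := by
      rw [← succ_nsmul, Nat.sub_add_cancel (Nat.one_le_pow _ _ hp.out.pos)]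
    _ = 0 := by rw [← h4, sub_self]

/-- **Points over a field unramified at the place.** -/
theorem torsion_unramified_field {M : ℕ} (hM : M.Coprime (6 * eisensteinNumerator p * p))
    {A : ValuationSubring Qb} (hA : A.LiesOverPrime p) {σ : GQ} (hσ : A.IsFrobeniusAt σ p) {f : ℕ}
    (L : IntermediateField ℚ Qb) (hunr : ∀ τ ∈ A.inertiaSubgroupIn ℚ, ∀ a ∈ L, τ a = a)
    (hres : ∀ a ∈ L, (σ ^ f) a = a) (x : JZero p) (hx : M • x = 0)
    (hrat : ∀ ρ : GQ, (∀ a ∈ L, ρ a = a) → ρ • x = x) : (p ^ (2 * f) - 1) • x = 0 :=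
  killed_of_frobenius_pow hM hA hσ x hx (fun τ hτ => hrat τ (hunr τ hτ)) (hrat _ hres)

/-- **At most `gcd (M, p ^ (2 f) - 1) ^ g` of them.** -/
theorem torsion_unramified_field_card {M : ℕ} (hM : M.Coprime (6 * eisensteinNumerator p * p))
    {A : ValuationSubring Qb} (hA : A.LiesOverPrime p) {σ : GQ} (hσ : A.IsFrobeniusAt σ p) {f : ℕ}
    (L : IntermediateField ℚ Qb) (hunr : ∀ τ ∈ A.inertiaSubgroupIn ℚ, ∀ a ∈ L, τ a = a)
    (hres : ∀ a ∈ L, (σ ^ f) a = a) :
    Nat.card {x : JZero p // M • x = 0 ∧ ∀ ρ : GQ, (∀ a ∈ L, ρ a = a) → ρ • x = x} ≤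
      Nat.gcd M (p ^ (2 * f) - 1) ^ Module.finrank ℂ (CuspForm (Gamma0 p) 2) := by
  set d := Nat.gcd M (p ^ (2 * f) - 1)
  have hd : d.Coprime (6 * eisensteinNumerator p * p) :=
    Nat.Coprime.coprime_dvd_left (Nat.gcd_dvd_left _ _) hM
  have hcard := FA.ToricJZero.Summary.fixed_card hd hA
  haveI : Finite {x : JZero p // d • x = 0 ∧ ∀ τ ∈ A.inertiaSubgroupIn ℚ, τ • x = x} :=
    Nat.finite_of_card_ne_zero (by
      rw [hcard]
      refine pow_ne_zero _ fun h0 => ?_
      rw [h0] at hd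
      exact FA.ToricJZero.Summary.not_dvd_of_coprime hd (dvd_zero p))
  rw [← hcard]
  exact Nat.card_le_card_of_injective (fun x => ⟨x.1, addOrderOf_dvd_iff_nsmul_eq_zero.1
    (Nat.dvd_gcd (addOrderOf_dvd_of_nsmul_eq_zero x.2.1) (addOrderOf_dvd_of_nsmul_eq_zero
      (torsion_unramified_field hM hA hσ L hunr hres x.1 x.2.1 x.2.2))),
    fun τ hτ => x.2.2 τ (hunr τ hτ)⟩) fun a b h => Subtype.ext (congrArg Subtype.val h :)

/-- **Over `ℚ_p`.** -/
theorem torsion_padic_rational {M : ℕ} (hM : M.Coprime (6 * eisensteinNumerator p * p))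
    {A : ValuationSubring Qb} (hA : A.LiesOverPrime p) (x : JZero p) (hx : M • x = 0)
    (hrat : ∀ ρ ∈ A.decompositionSubgroup ℚ, ρ • x = x) :
    (p ^ 2 - 1) • x = 0 := by
  obtain ⟨σ, hσ⟩ := FA.Deform.exists_isFrobeniusAt hp.out hA
  exact killed_of_frobenius_pow hM hA hσ x hx (f := 1)
    (fun τ hτ => hrat τ (FA.LocalDef.inertia_le_decomposition hτ))
    (by rw [pow_one]; exact hrat σ hσ.mem_decompositionSubgroup)

end FA.FrobeniusJZero.Summary
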