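import Fermat.Agent.Root.SummaryPrimeLevelReducible
import Fermat.Agent.EisReducible.HeckeAtL
import Fermat.Agent.EisReducible.AtLevel

/-!
# Reducible `ρ_m` and the numerator of `(p - 1) / 12`

For a prime `l ≥ 5`, `l ≠ p`, the representation `ρ_m` of a maximal ideal of residue characteristic
`l` of the Hecke algebra of `S₂(Γ₀(p))` is reducible exactly when `m` contains the Eisenstein
ideal, all operators included (Mazur, *Modular curves and the Eisenstein ideal*, II 14.1-14.2).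
So there is such an ideal exactly when `l` divides `n = num ((p - 1) / 12)`, and otherwise all
`ρ_m` are irreducible.
-/

set_option autoImplicit false
set_option linter.style.haveILetI false
set_option synthInstance.maxHeartbeats 400000
set_option maxHeartbeats 1000000

noncomputable section

open ModularCurve FA.Mazur
open scoped Matrix

local notation "Qb" => AlgebraicClosure ℚ
local notation "GQ" => AlgebraicClosure ℚ ≃ₐ[ℚ] AlgebraicClosure ℚ

namespace FA.Summary

variable {p : ℕ} [Fact p.Prime] {l : ℕ} [Fact l.Prime] {k : Type} [Field k] [CharP k l]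

/-- **Eisenstein away from `p l` is Eisenstein everywhere**: `θ(T_l) = 1` and `θ(U_p) = 1`. -/
theorem prime_level_eisenstein_values (h5 : 5 ≤ l) (hlp : l ≠ p) (θ : TAlg p →+* k)
    (hθ : ∀ q : Nat.Primes, (q : ℕ) ≠ p → (q : ℕ) ≠ l → θ (tGen p q) = 1 + ((q : ℕ) : k))
    (q : Nat.Primes) : θ (tGen p q) = if (q : ℕ) = p then 1 else 1 + ((q : ℕ) : k) := by
  have hall : ∀ r : Nat.Primes, (r : ℕ) ≠ p → θ (tGen p r) = 1 + ((r : ℕ) : k) := fun r hr => by
    rcases eq_or_ne (r : ℕ) l with h | h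
    · obtain rfl : r = ⟨l, Fact.out⟩ := Subtype.ext h
      rw [FA.EisReducible.value_at_ell_eq_one (by omega) hlp θ hθ, CharP.cast_eq_zero, add_zero]
    · exact hθ r hr h
  split_ifs with h
  · obtain rfl : q = ⟨p, Fact.out⟩ := Subtype.ext h
    exact FA.EisReducible.value_at_level_eq_one h5 hlp θ hall
  · exact hall q h

/-- **Mazur**: `ρ_m` is reducible if and only if `m` contains the whole Eisenstein ideal. -/
theorem prime_level_reducible_iff_all [IsAlgClosed k] (h5 : 5 ≤ l) (hlp : l ≠ p)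
    (θ : TAlg p →+* k) (r : GQ →* Matrix (Fin 2) (Fin 2) k) (hopen : IsOpen (r.ker : Set GQ))
    (hr : ∀ q : Nat.Primes, (q : ℕ) ≠ p → (q : ℕ) ≠ l →
      ∀ A : ValuationSubring Qb, A.LiesOverPrime q → ∀ σ : GQ, A.IsFrobeniusAt σ q →
        (r σ).trace = θ (tGen p q) ∧ (r σ).det = ((q : ℕ) : k)) :
    (∃ v : Fin 2 → k, v ≠ 0 ∧ ∀ σ, ∃ c : k, r σ *ᵥ v = c • v) ↔
      ∀ q : Nat.Primes, θ (tGen p q) = if (q : ℕ) = p then 1 else 1 + ((q : ℕ) : k) := by
  rw [prime_level_reducible_iff (by omega) hlp θ r hopen hr]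
  exact ⟨prime_level_eisenstein_values h5 hlp θ,
    fun h q hqp _ => (h q).trans (if_neg hqp)⟩

/-- **A reducible `ρ_m` has residue characteristic dividing the numerator of `(p - 1) / 12`.** -/
theorem prime_level_reducible_dvd_numerator (h5 : 5 ≤ l) (hlp : l ≠ p) (θ : TAlg p →+* k)
    (r : GQ →* Matrix (Fin 2) (Fin 2) k) (hopen : IsOpen (r.ker : Set GQ))
    (hr : ∀ q : Nat.Primes, (q : ℕ) ≠ p → (q : ℕ) ≠ l →
      ∀ A : ValuationSubring Qb, A.LiesOverPrime q → ∀ σ : GQ, A.IsFrobeniusAt σ q →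
        (r σ).trace = θ (tGen p q) ∧ (r σ).det = ((q : ℕ) : k))
    (hline : ∃ v : Fin 2 → k, v ≠ 0 ∧ ∀ σ, ∃ c : k, r σ *ᵥ v = c • v) :
    l ∣ eisensteinNumerator p :=
  FA.EisReducible.dvd_of_eisenstein_system θ <| prime_level_eisenstein_values h5 hlp θ <|
    prime_level_reducible_eisenstein (by omega) hlp θ r hopen hr hline

/-- **All `ρ_m` are irreducible** when `l` does not divide the numerator. -/
theorem prime_level_irreducible_of_not_dvd (h5 : 5 ≤ l) (hlp : l ≠ p)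
    (hn : ¬ l ∣ eisensteinNumerator p) (θ : TAlg p →+* k)
    (r : GQ →* Matrix (Fin 2) (Fin 2) k) (hopen : IsOpen (r.ker : Set GQ))
    (hr : ∀ q : Nat.Primes, (q : ℕ) ≠ p → (q : ℕ) ≠ l →
      ∀ A : ValuationSubring Qb, A.LiesOverPrime q → ∀ σ : GQ, A.IsFrobeniusAt σ q →
        (r σ).trace = θ (tGen p q) ∧ (r σ).det = ((q : ℕ) : k))
    (v : Fin 2 → k) (hv : v ≠ 0) : ∃ σ, ∀ c : k, r σ *ᵥ v ≠ c • v := by
  by_contra h
  push Not at h
  exact hn (prime_level_reducible_dvd_numerator h5 hlp θ r hopen hr ⟨v, hv, h⟩)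

/-- **The reducible primes of `J₀(p)`**: some `ρ_m` of residue characteristic `l` is reducible
exactly when `l` divides the numerator. -/
theorem prime_level_exists_reducible_iff [IsAlgClosed k] (h5 : 5 ≤ l) (hlp : l ≠ p) :
    (∃ (θ : TAlg p →+* k) (r : GQ →* Matrix (Fin 2) (Fin 2) k), IsOpen (r.ker : Set GQ) ∧
      (∀ q : Nat.Primes, (q : ℕ) ≠ p → (q : ℕ) ≠ l →
        ∀ A : ValuationSubring Qb, A.LiesOverPrime q → ∀ σ : GQ, A.IsFrobeniusAt σ q →
          (r σ).trace = θ (tGen p q) ∧ (r σ).det = ((q : ℕ) : k)) ∧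
      ∃ v : Fin 2 → k, v ≠ 0 ∧ ∀ σ, ∃ c : k, r σ *ᵥ v = c • v) ↔
      l ∣ eisensteinNumerator p := by
  refine ⟨fun ⟨θ, r, hopen, hr, hline⟩ =>
    prime_level_reducible_dvd_numerator h5 hlp θ r hopen hr hline, fun hn => ?_⟩
  let θ : TAlg p →+* k := (ZMod.castHom (dvd_refl l) k).comp (psi0 p l hn)
  have hθ : ∀ q : Nat.Primes, (q : ℕ) ≠ p → (q : ℕ) ≠ l →
      θ (tGen p q) = 1 + ((q : ℕ) : k) := fun q hqp _ => by
    rw [RingHom.comp_apply, psi0_tGen, if_neg hqp, map_add, map_one, map_natCast]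
  obtain ⟨r, hopen, hr⟩ := prime_level_representation (l := l) θ
  have hr' := fun q hqp hql A hA => (hr q hqp hql A hA).2
  exact ⟨θ, r, hopen, hr', prime_level_eisenstein_reducible θ hθ r hopen hr'⟩

/-- At level `11` every `ρ_m` of residue characteristic `l ≥ 7`, `l ≠ 11`, is irreducible. -/
theorem level_eleven_irreducible [Fact (Nat.Prime 11)] (h7 : 7 ≤ l) (hl11 : l ≠ 11)
    (θ : TAlg 11 →+* k) (r : GQ →* Matrix (Fin 2) (Fin 2) k) (hopen : IsOpen (r.ker : Set GQ))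
    (hr : ∀ q : Nat.Primes, (q : ℕ) ≠ 11 → (q : ℕ) ≠ l →
      ∀ A : ValuationSubring Qb, A.LiesOverPrime q → ∀ σ : GQ, A.IsFrobeniusAt σ q →
        (r σ).trace = θ (tGen 11 q) ∧ (r σ).det = ((q : ℕ) : k))
    (v : Fin 2 → k) (hv : v ≠ 0) : ∃ σ, ∀ c : k, r σ *ᵥ v ≠ c • v :=
  prime_level_irreducible_of_not_dvd (by omega) hl11 (fun h => by
    have h' := Nat.le_of_dvd (by decide) (h.trans (by decide : eisensteinNumerator 11 ∣ 5))
    omega) θ r hopen hr v hv

end FA.Summary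

end
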