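import Fermat.Agent.OrdinaryCount.Cases

/-!
# Summary: Hida's theorem on the number of ordinary eigenforms of level one, `p ≥ 5`

`IsEigenForm F` says `a₁ = 1` and the Hecke relations at all primes; `IsUnitAt ι F` says that
`a_p` is not zero and that `a_p` and `1 / a_p` are integral over `ι(ℤ_p)`, for an embedding
`ι : ℚ_p → ℂ` (they exist, `nonempty_embedding`).

* `eigenforms_count`: in each weight `k ≥ 3` the normalised eigenforms are as many as the dimension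
  of the space of modular forms, and a basis of it;
* `ordinary_count`: those with `a_p` a unit are as many as the dimension of the space of forms
  modulo `p` of weight `k` fixed by a power of `U`, which is the rank of the ordinary part;
* `weight_independence`: that number depends only on `k` modulo `p - 1`, not on `ι`;
* `ordinary_cusp_count`: for even `k ≥ 4` one less of them are cusp forms;
* `class_two`: for `k ≡ 2` there are `g` ordinary cuspidal eigenforms, `g` the genus of `X₀(p)`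
  as the dimension of `S₂(Γ₀(p))`;
* `small_classes`, `five_seven`, `eleven_thirteen`: none in the classes of `4, 6, 8, 10, 14`, none
  for `p = 5, 7`; for `k ≡ 2` exactly one for `p = 11` and none for `p = 13`.

Not proved here: weight `2`; positive slopes; tame levels above one; `p = 2, 3`; the Galois
representations.
-/

set_option autoImplicit false

noncomputable section

open UpperHalfPlane hiding I
open PowerSeries
open scoped MatrixGroups ModularForm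

namespace FA.OrdinaryCount.Summary

open FA.PadicForms FA.OrdinaryProj FA.OrdinaryCount

variable {p : ℕ} [Fact p.Prime] {k : ℕ}

/-- The two predicates, written out. -/
theorem definitions (ι : ℚ_[p] →+* ℂ) (F : ModularForm 𝒮ℒ (k : ℤ)) :
    (IsEigenForm F ↔ (qExpansion 1 ⇑F).coeff 1 = 1 ∧ ∀ l : ℕ, l.Prime → ∀ n,
      (qExpansion 1 ⇑F).coeff (n * l) +
        (if l ∣ n then (l : ℂ) ^ (k - 1) * (qExpansion 1 ⇑F).coeff (n / l) else 0) =
      (qExpansion 1 ⇑F).coeff l * (qExpansion 1 ⇑F).coeff n) ∧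
    (IsUnitAt ι F ↔ (qExpansion 1 ⇑F).coeff p ≠ 0 ∧
      (∃ P : Polynomial ℤ_[p], P.Monic ∧
        P.eval₂ (ι.comp PadicInt.Coe.ringHom) ((qExpansion 1 ⇑F).coeff p) = 0) ∧
      ∃ P : Polynomial ℤ_[p], P.Monic ∧
        P.eval₂ (ι.comp PadicInt.Coe.ringHom) ((qExpansion 1 ⇑F).coeff p)⁻¹ = 0) :=
  ⟨Iff.rfl, Iff.rfl⟩

/-- Embeddings exist. -/
theorem nonempty_embedding (p : ℕ) [Fact p.Prime] : Nonempty (ℚ_[p] →+* ℂ) :=
  FA.OrdinaryCount.nonempty_embedding p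

/-- **The eigenforms of a weight.** -/
theorem eigenforms_count (hk : 3 ≤ k) :
    Finite {F : ModularForm 𝒮ℒ (k : ℤ) // IsEigenForm F} ∧
      Nat.card {F : ModularForm 𝒮ℒ (k : ℤ) // IsEigenForm F} =
        Module.finrank ℂ (ModularForm 𝒮ℒ (k : ℤ)) ∧
      LinearIndependent ℂ (fun F : {F : ModularForm 𝒮ℒ (k : ℤ) // IsEigenForm F} =>
        (F.1 : ModularForm 𝒮ℒ (k : ℤ))) ∧
      Submodule.span ℂ {F : ModularForm 𝒮ℒ (k : ℤ) | IsEigenForm F} = ⊤ :=
  haveI : Fact (Nat.Prime 5) := ⟨by norm_num⟩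
  eigenforms_basis 5 hk

/-- **The ordinary eigenforms of a weight.** -/
theorem ordinary_count (h5 : 5 ≤ p) (hk : 3 ≤ k) (ι : ℚ_[p] →+* ℂ) :
    Finite {F : ModularForm 𝒮ℒ (k : ℤ) // IsEigenForm F ∧ IsUnitAt ι F} ∧
      Nat.card {F : ModularForm 𝒮ℒ (k : ℤ) // IsEigenForm F ∧ IsUnitAt ι F} =
        Module.finrank (ZMod p) ↥(Submodule.span (ZMod p) {v : PowerSeries (ZMod p) |
          (∃ (G : ModularForm 𝒮ℒ (k : ℤ)) (T : PowerSeries ℤ),
            qExpansion 1 ⇑G = T.map (Int.castRingHom ℂ) ∧ T.map (Int.castRingHom (ZMod p)) = v) ∧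
          ∃ d, 0 < d ∧ (PowerSeries.mk fun n => coeff (p ^ d * n) v) = v}) ∧
      Nat.card {F : ModularForm 𝒮ℒ (k : ℤ) // IsEigenForm F ∧ IsUnitAt ι F} =
        Module.finrank ℚ_[p] ↥(ordPart (natWeight p k)) := by
  obtain ⟨hfin, hcard⟩ := ordinary_eigen_count (k := k) h5 hk ι
  exact ⟨hfin, hcard, hcard.trans (finrank_ordPart h5 hk rfl).2.symm⟩

/-- **Hida**: their number depends only on the weight modulo `p - 1`. -/
theorem weight_independence (h5 : 5 ≤ p) {k' : ℕ} (hk : 3 ≤ k) (hk' : 3 ≤ k')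
    (h : k ≡ k' [MOD p - 1]) (ι ι' : ℚ_[p] →+* ℂ) :
    Nat.card {F : ModularForm 𝒮ℒ (k : ℤ) // IsEigenForm F ∧ IsUnitAt ι F} =
      Nat.card {F : ModularForm 𝒮ℒ (k' : ℤ) // IsEigenForm F ∧ IsUnitAt ι' F} := by
  rw [(ordinary_eigen_count h5 hk ι).2, (ordinary_eigen_count h5 hk' ι').2,
    finrank_ordModP_congr h5 hk hk' ((ZMod.natCast_eq_natCast_iff _ _ _).2 h)]

/-- **One of them is Eisenstein's.** -/
theorem ordinary_cusp_count (h5 : 5 ≤ p) (hev : Even k) (hk : 4 ≤ k) (ι : ℚ_[p] →+* ℂ) :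
    Finite {F : ModularForm 𝒮ℒ (k : ℤ) //
        IsEigenForm F ∧ IsUnitAt ι F ∧ (qExpansion 1 ⇑F).coeff 0 = 0} ∧
      Nat.card {F : ModularForm 𝒮ℒ (k : ℤ) //
        IsEigenForm F ∧ IsUnitAt ι F ∧ (qExpansion 1 ⇑F).coeff 0 = 0} + 1 =
        Nat.card {F : ModularForm 𝒮ℒ (k : ℤ) // IsEigenForm F ∧ IsUnitAt ι F} := by
  rw [(ordinary_eigen_count h5 (by omega) ι).2]
  exact cusp_count h5 hev hk ι

theorem even_of_class (h5 : 5 ≤ p) {k₀ : ℕ} (hk₀ : Even k₀) (h : k ≡ k₀ [MOD p - 1]) : Even k := by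
  have h2 : (2 : ℕ) ∣ p - 1 := by
    have := (Fact.out : p.Prime).eq_two_or_odd
    omega
  have := h.of_dvd h2
  rw [Nat.even_iff] at hk₀ ⊢
  unfold Nat.ModEq at this
  omega

/-- **The class of `2`**: as many ordinary cuspidal eigenforms as the genus of `X₀(p)`. -/
theorem class_two (h5 : 5 ≤ p) (hk : 3 ≤ k) (h : k ≡ 2 [MOD p - 1]) (ι : ℚ_[p] →+* ℂ) :
    Nat.card {F : ModularForm 𝒮ℒ (k : ℤ) //
        IsEigenForm F ∧ IsUnitAt ι F ∧ (qExpansion 1 ⇑F).coeff 0 = 0} =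
      Module.finrank ℂ (CuspForm (CongruenceSubgroup.Gamma0 p) 2) ∧
    Nat.card {F : ModularForm 𝒮ℒ (k : ℤ) // IsEigenForm F ∧ IsUnitAt ι F} =
      Module.finrank ℂ (CuspForm (CongruenceSubgroup.Gamma0 p) 2) + 1 := by
  have hev := even_of_class h5 even_two h
  have h4 : 4 ≤ k := by
    rw [Nat.even_iff] at hev
    omega
  have hc : (k : ZMod (p - 1)) = 2 := by
    rw [(ZMod.natCast_eq_natCast_iff _ _ _).2 h, Nat.cast_two]
  have hr := finrank_class_two h5 hk hc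
  refine ⟨?_, by rw [(ordinary_eigen_count h5 hk ι).2, hr]⟩
  have := (cusp_count h5 hev h4 ι).2
  omega

/-- No cuspidal eigenform is ordinary when the rank is one. -/
theorem none_of_rank_one (h5 : 5 ≤ p) (hev : Even k) (hk : 4 ≤ k)
    (hr : Module.finrank (ZMod p) ↥(ordModP p k) = 1) (ι : ℚ_[p] →+* ℂ)
    {F : ModularForm 𝒮ℒ (k : ℤ)} (hF : IsEigenForm F) (h0 : (qExpansion 1 ⇑F).coeff 0 = 0) :
    ¬IsUnitAt ι F := fun hu => by
  obtain ⟨hfin, hcard⟩ := cusp_count h5 hev hk ι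
  have : Nat.card {F : ModularForm 𝒮ℒ (k : ℤ) //
      IsEigenForm F ∧ IsUnitAt ι F ∧ (qExpansion 1 ⇑F).coeff 0 = 0} = 0 := by omega
  rw [Nat.card_eq_zero] at this
  rcases this with h | h
  · exact h.false ⟨F, hF, hu, h0⟩
  · exact not_finite_iff_infinite.2 h hfin

/-- **No ordinary cuspidal eigenform in the classes of `4, 6, 8, 10, 14`.** -/
theorem small_classes (h5 : 5 ≤ p) (hk : 3 ≤ k) {k₀ : ℕ}
    (hk₀ : k₀ ∈ ({4, 6, 8, 10, 14} : Finset ℕ)) (h : k ≡ k₀ [MOD p - 1]) (ι : ℚ_[p] →+* ℂ)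
    {F : ModularForm 𝒮ℒ (k : ℤ)} (hF : IsEigenForm F) (h0 : (qExpansion 1 ⇑F).coeff 0 = 0) :
    ¬IsUnitAt ι F := by
  have hev : Even k := even_of_class h5 (by
    simp only [Finset.mem_insert, Finset.mem_singleton] at hk₀
    rw [Nat.even_iff]
    omega) h
  refine none_of_rank_one h5 hev (by rw [Nat.even_iff] at hev; omega) ?_ ι hF h0
  exact finrank_eisenstein_class h5 hk hk₀ ((ZMod.natCast_eq_natCast_iff _ _ _).2 h)

/-- **`p = 5, 7`**: no cuspidal eigenform is ordinary. -/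
theorem five_seven (hp : p = 5 ∨ p = 7) (hev : Even k) (hk : 4 ≤ k) (ι : ℚ_[p] →+* ℂ)
    {F : ModularForm 𝒮ℒ (k : ℤ)} (hF : IsEigenForm F) (h0 : (qExpansion 1 ⇑F).coeff 0 = 0) :
    ¬IsUnitAt ι F :=
  none_of_rank_one (by omega) hev hk (finrank_five_seven hp hev (by omega)) ι hF h0

/-- **`p = 11, 13`** in the class of `2`. -/
theorem eleven_thirteen :
    (∀ (_ : Fact (Nat.Prime 11)) (k : ℕ), 3 ≤ k → k ≡ 2 [MOD 10] → ∀ ι : ℚ_[11] →+* ℂ,
      ∃ F : ModularForm 𝒮ℒ (k : ℤ), ∀ G : ModularForm 𝒮ℒ (k : ℤ),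
        IsEigenForm G ∧ IsUnitAt ι G ∧ (qExpansion 1 ⇑G).coeff 0 = 0 ↔ G = F) ∧
    (∀ (_ : Fact (Nat.Prime 13)) (k : ℕ), 3 ≤ k → k ≡ 2 [MOD 12] → ∀ ι : ℚ_[13] →+* ℂ,
      ∀ F : ModularForm 𝒮ℒ (k : ℤ), IsEigenForm F → (qExpansion 1 ⇑F).coeff 0 = 0 →
        ¬IsUnitAt ι F) := by
  refine ⟨fun _ k hk h ι => ?_, fun _ k hk h ι F hF h0 => ?_⟩
  · have hcard := (class_two (p := 11) (by norm_num) hk h ι).1
    rw [FA.CuspClass.finrank_cuspForm_eleven, Nat.card_eq_one_iff_unique] at hcard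
    obtain ⟨hsub, ⟨⟨F, hF⟩⟩⟩ := hcard
    exact ⟨F, fun G => ⟨fun hG => congrArg Subtype.val (hsub.elim ⟨G, hG⟩ ⟨F, hF⟩),
      fun e => e ▸ hF⟩⟩
  · exact small_classes (p := 13) (by norm_num) hk (k₀ := 14) (by simp) (h.trans (by decide)) ι
      hF h0

end FA.OrdinaryCount.Summary

end
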