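import Fermat.Agent.Tau.EigenSystems

/-!
# Serre's finiteness theorem for systems of eigenvalues modulo `p`

The systems of eigenvalues of the `T_l`, `l ≠ p`, on level one forms modulo `p` of all weights are
finite in number: each is a twist `lⁱ b_l` of one of weight at most `max (p + 1) (2p - 10)`, which
is `p + 1` for `p ≤ 11`.
-/

set_option autoImplicit false

noncomputable section

open PowerSeries (coeff)
open UpperHalfPlane
open scoped MatrixGroups

namespace FA.Summary

variable (p : ℕ)

/-- `f` is a non-zero form of weight `k` modulo `p` with `T_l f = a l f` for the primes `l ≠ p`. -/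
def IsEigenformModP (k : ℕ) (a : ℕ → ZMod p) (f : PowerSeries (ZMod p)) : Prop :=
  f ≠ 0 ∧ (∃ (G : ModularForm 𝒮ℒ (k : ℤ)) (T : PowerSeries ℤ),
    qExpansion 1 ⇑G = T.map (Int.castRingHom ℂ) ∧ T.map (Int.castRingHom (ZMod p)) = f) ∧
  ∀ l, l.Prime → l ≠ p → ∀ m, coeff (m * l) f +
    (if l ∣ m then (l : ZMod p) ^ (k + (p - 2)) * coeff (m / l) f else 0) = a l * coeff m f

variable {p} [Fact p.Prime]

theorem isEigenformModP_iff {k : ℕ} {a : ℕ → ZMod p} {f : PowerSeries (ZMod p)} :
    IsEigenformModP p k a f ↔ FA.SwinnertonDyer.IsEigen p k a f := by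
  refine and_congr Iff.rfl (and_congr Iff.rfl (forall₃_congr fun l _ _ => ?_))
  simp [PowerSeries.ext_iff, SwinnertonDyer.coeff_tOp]

/-- **Serre, Tate**: every system of eigenvalues is a twist `lⁱ b_l` of a system of weight at most
`max (p + 1) (2p - 10)`. -/
theorem eigensystem_twist (h5 : 5 ≤ p) {k : ℕ} {a : ℕ → ZMod p} {f : PowerSeries (ZMod p)}
    (hf : IsEigenformModP p k a f) : ∃ i k' b f', k' ≤ max (p + 1) (2 * p - 10) ∧
      IsEigenformModP p k' b f' ∧ ∀ l, l.Prime → l ≠ p → a l = (l : ZMod p) ^ i * b l := by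
  simp only [isEigenformModP_iff] at hf ⊢
  exact FA.SwinnertonDyer.exists_twist h5 hf

/-- **Serre's finiteness theorem**: in all weights together there are only finitely many systems of
eigenvalues outside `p`. -/
theorem eigensystems_finite (h5 : 5 ≤ p) :
    {a : {l : ℕ // l.Prime ∧ l ≠ p} → ZMod p | ∃ k b f, IsEigenformModP p k b f ∧
      ∀ l : {l : ℕ // l.Prime ∧ l ≠ p}, a l = b l.1}.Finite := by
  refine (FA.SwinnertonDyer.finite_systems h5).subset ?_
  rintro a ⟨k, b, f, hf, ha⟩
  obtain ⟨h0, hk, he⟩ := isEigenformModP_iff.1 hf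
  exact ⟨k, f, h0, hk, fun l => by rw [ha l]; exact he l.1 l.2.1 l.2.2⟩

end FA.Summary

end
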