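import Fermat.Agent.Tau.PrimeLevelEigen
import Fermat.Agent.Root.SummaryEigenSystems

/-!
# Semistable curves of prime conductor in level one

If `E / ℚ` is semistable with bad reduction only at `p ≥ 5`, a level one cusp form of weight `p + 1`
has coefficients congruent to all those of `L(E, s)` modulo `p`, and a level one eigenform has
eigenvalues congruent to `a_l(E)` modulo a prime over `p`: Serre's weight `p + 1` for `E[p]`.
Conversely the systems of cusp forms of weight `p + 1` modulo `p` come from weight two, level `p`.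
-/

set_option autoImplicit false
set_option linter.style.haveILetI false

noncomputable section

open UpperHalfPlane hiding I
open WeierstrassCurve CongruenceSubgroup
open scoped MatrixGroups Classical

namespace FA.Summary

open FA.Root.MultOne (exists_good_iff)

variable {p : ℕ} [Fact p.Prime]

/-- The newform of such a curve has level `p` and integral coefficients. -/
theorem exists_newform_primeConductor (E : WeierstrassCurve ℚ) [E.IsElliptic]
    (h : ∀ q : ℕ, ∀ [Fact q.Prime], ∃ C : VariableChange ℚ_[q],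
      HasGoodReduction ℤ_[q] (C • E.map (algebraMap ℚ ℚ_[q])) ∨
        HasMultiplicativeReduction ℤ_[q] (C • E.map (algebraMap ℚ ℚ_[q])))
    (hbad : ∀ q : ℕ, ∀ [Fact q.Prime], (¬ ∃ C : VariableChange ℚ_[q],
      HasGoodReduction ℤ_[q] (C • E.map (algebraMap ℚ ℚ_[q]))) ↔ q = p) :
    ∃ (g : CuspForm (Gamma0 p) 2) (A : PowerSeries ℤ), g.IsNormalizedEigenform ∧
      qExpansion 1 ⇑g = A.map (Int.castRingHom ℂ) ∧
      ∀ n, PowerSeries.coeff n A = E.LFunction n := by
  obtain ⟨W, N, f, hW, hs, hsq, hN, hf, hn⟩ := FA.Root.exists_newform_LFunction E h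
  have hNp : N = p :=
    (Nat.Squarefree.ext_iff hsq (Fact.out : p.Prime).squarefree).mpr fun q hq => by
      have := Fact.mk hq
      rw [hN q hq, Nat.prime_dvd_prime_iff_eq hq (Fact.out : p.Prime), ← hbad q,
        exists_good_iff hW hs q, not_not]
  subst hNp
  refine ⟨f, PowerSeries.mk fun n => E.LFunction n, hf.1, PowerSeries.ext fun n => ?_,
    fun n => PowerSeries.coeff_mk _ _⟩
  rw [PowerSeries.coeff_map, PowerSeries.coeff_mk, eq_intCast, ← hn n]
  rfl

/-- **A semistable curve of prime conductor is congruent to a level one form of weight `p + 1`**,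
and so `p ≠ 5, 7, 13`. -/
theorem primeConductor_mod_p (h5 : 5 ≤ p) (E : WeierstrassCurve ℚ) [E.IsElliptic]
    (h : ∀ q : ℕ, ∀ [Fact q.Prime], ∃ C : VariableChange ℚ_[q],
      HasGoodReduction ℤ_[q] (C • E.map (algebraMap ℚ ℚ_[q])) ∨
        HasMultiplicativeReduction ℤ_[q] (C • E.map (algebraMap ℚ ℚ_[q])))
    (hbad : ∀ q : ℕ, ∀ [Fact q.Prime], (¬ ∃ C : VariableChange ℚ_[q],
      HasGoodReduction ℤ_[q] (C • E.map (algebraMap ℚ ℚ_[q]))) ↔ q = p) :
    (∃ (G : ModularForm 𝒮ℒ ((p + 1 : ℕ) : ℤ)) (T : PowerSeries ℤ),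
      qExpansion 1 ⇑G = T.map (Int.castRingHom ℂ) ∧ (p : ℤ) ∣ PowerSeries.coeff 0 T ∧
        ∀ n, (p : ℤ) ∣ PowerSeries.coeff n T - E.LFunction n) ∧
    p ≠ 5 ∧ p ≠ 7 ∧ p ≠ 13 := by
  obtain ⟨g, A, hg, hA, hn⟩ := exists_newform_primeConductor E h hbad
  obtain ⟨⟨-, ⟨G, T, hG, hT⟩, -⟩, h0⟩ := FA.PrimeLevel.isEigen_of_eigenform h5 hg hA
  refine ⟨⟨G, T, hG, ?_, fun n => ?_⟩, ?_⟩
  · rw [← hT, PowerSeries.coeff_map, eq_intCast, ZMod.intCast_zmod_eq_zero_iff_dvd] at h0
    exact h0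
  · have e := congrArg (PowerSeries.coeff n) hT
    rw [PowerSeries.coeff_map, PowerSeries.coeff_map, eq_intCast, eq_intCast, hn] at e
    rw [← ZMod.intCast_zmod_eq_zero_iff_dvd, Int.cast_sub, e, sub_self]
  · haveI := FA.Deform.finite_of_hasIntegralBasis (FA.LTInt.hasIntegralBasis p)
    haveI : Nontrivial (CuspForm (Gamma0 p) 2) := ⟨⟨g, 0, hg.ne_zero⟩⟩
    have hpos : 0 < Module.finrank ℂ (CuspForm (Gamma0 p) 2) := Module.finrank_pos
    have h1 := (supersingular_card_eq_one_iff (AlgebraicClosure (ZMod p)) p h5).2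
    refine ⟨fun e => ?_, fun e => ?_, fun e => ?_⟩ <;>
      exact hpos.ne' (h1.2 (by simp [e]))

/-- **Serre's weight `p + 1` for `E[p]`**: the system `a_l(E) mod p`, `l ≠ p`, is that of an
eigenform of level one and weight `p + 1` modulo `p`, and lifts to a cusp eigenform. -/
theorem primeConductor_levelOne (h5 : 5 ≤ p) (E : WeierstrassCurve ℚ) [E.IsElliptic]
    (h : ∀ q : ℕ, ∀ [Fact q.Prime], ∃ C : VariableChange ℚ_[q],
      HasGoodReduction ℤ_[q] (C • E.map (algebraMap ℚ ℚ_[q])) ∨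
        HasMultiplicativeReduction ℤ_[q] (C • E.map (algebraMap ℚ ℚ_[q])))
    (hbad : ∀ q : ℕ, ∀ [Fact q.Prime], (¬ ∃ C : VariableChange ℚ_[q],
      HasGoodReduction ℤ_[q] (C • E.map (algebraMap ℚ ℚ_[q]))) ↔ q = p) :
    (∃ f, IsEigenformModP p (p + 1) (fun l => (E.LFunction l : ZMod p)) f ∧
      PowerSeries.coeff 0 f = 0) ∧
    ∃ (F : CuspForm 𝒮ℒ ((p + 1 : ℕ) : ℤ)) (m : Ideal (integralClosure ℤ ℂ)), m.IsMaximal ∧
      (p : integralClosure ℤ ℂ) ∈ m ∧ F ≠ 0 ∧
      ∀ l : ℕ, l.Prime → ∃ c : integralClosure ℤ ℂ,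
        (l ≠ p → c - (E.LFunction l : integralClosure ℤ ℂ) ∈ m) ∧
        ∀ n, (qExpansion 1 F).coeff (n * l) +
            (if l ∣ n then (l : ℂ) ^ p * (qExpansion 1 F).coeff (n / l) else 0) =
          (c : ℂ) * (qExpansion 1 F).coeff n := by
  obtain ⟨g, A, hg, hA, hn⟩ := exists_newform_primeConductor E h hbad
  obtain ⟨hf, h0⟩ := FA.PrimeLevel.isEigen_of_eigenform h5 hg hA
  simp only [hn] at hf
  refine ⟨⟨_, isEigenformModP_iff.2 hf, h0⟩, ?_⟩
  obtain ⟨F, m, hm, hpm, hF0, hF⟩ := FA.PrimeLevel.exists_lift_one h5 hf h0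
  refine ⟨F, m, hm, hpm, hF0, fun l hl => ?_⟩
  obtain ⟨c, hc, hc'⟩ := hF l hl
  refine ⟨c, fun hlp => ?_, hc'⟩
  obtain ⟨d, hd⟩ : (p : ℤ) ∣ ((E.LFunction l : ZMod p).val : ℤ) - E.LFunction l := by
    rw [← ZMod.intCast_zmod_eq_zero_iff_dvd]
    simp
  have e : c - (E.LFunction l : integralClosure ℤ ℂ) =
      (c - ((E.LFunction l : ZMod p).val : integralClosure ℤ ℂ)) +
        (p : integralClosure ℤ ℂ) * d := by
    have h' := congrArg (fun z : ℤ => (z : integralClosure ℤ ℂ)) hd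
    push_cast at h'
    linear_combination h'
  rw [e]
  exact m.add_mem (hc hlp) (m.mul_mem_right _ hpm)

/-- **Every cuspidal system of level one and weight `p + 1` modulo `p` comes from weight two and
level `p`.** -/
theorem levelOne_succ_lift_weight_two (h5 : 5 ≤ p) {a : ℕ → ZMod p} {f : PowerSeries (ZMod p)}
    (hf : IsEigenformModP p (p + 1) a f) (h0 : PowerSeries.coeff 0 f = 0) :
    ∃ g : CuspForm (Gamma0 p) 2, g.IsNormalizedEigenform ∧
      ∃ m : Ideal (integralClosure ℤ ℂ), m.IsMaximal ∧ (p : integralClosure ℤ ℂ) ∈ m ∧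
        ∀ l : ℕ, l.Prime → l ≠ p → ∃ c : integralClosure ℤ ℂ,
          (c : ℂ) = ModularFormClass.qCoeff g l ∧ c - ((a l).val : integralClosure ℤ ℂ) ∈ m :=
  FA.PrimeLevel.exists_lift_two h5 (isEigenformModP_iff.1 hf) h0

end FA.Summary

end
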