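import Fermat.Agent.Tau.LevelPTrace
import Fermat.Agent.Root.SummaryPrimeConductor
import Fermat.Agent.Root.LFunctionFE

/-!
# The involution `U` on `S₂(Γ₀(p))`: Fricke's genus formula and Ogg's theorem

For `p ≥ 5` and `g = dim S₂(Γ₀(p))` the operator `U` is an involution of trace `H(4 p) / 2 - 1`.
So its `-1` space has dimension `(g + 1) / 2 - H(4 p) / 4`, the genus of the quotient of `X₀(p)` by
its involution, and `U = 1` exactly for Ogg's primes; at these a semistable curve of conductor `p`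
has split reduction and root number `+1`.
-/

set_option autoImplicit false
set_option linter.style.haveILetI false

noncomputable section

open UpperHalfPlane hiding I
open WeierstrassCurve CongruenceSubgroup FA.SupersingularPoints
open scoped MatrixGroups Real Classical

namespace FA.Summary

variable {p : ℕ} [Fact p.Prime]

/-- **`U` is an involution of `S₂(Γ₀(p))`.** -/
theorem levelP_heckeU_involution (F : CuspForm (Gamma0 p) 2) :
    CuspForm.heckeULin 2 (dvd_refl p) (CuspForm.heckeULin 2 (dvd_refl p) F) = F :=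
  FA.LevelPTrace.heckeULin_involutive F

/-- **Fricke's genus formula**: the eigenspaces and the trace of `U` on `S₂(Γ₀(p))`. -/
theorem fricke_genus (h5 : 5 ≤ p) :
    (2 * Module.finrank ℂ
        (LinearMap.ker (CuspForm.heckeULin (N := p) 2 (dvd_refl p) - LinearMap.id)) : ℚ) =
      Module.finrank ℂ (CuspForm (Gamma0 p) 2) - 1 +
        FA.ClassRelation.classNumberH (4 * p) / 2 ∧
    (2 * Module.finrank ℂ
        (LinearMap.ker (CuspForm.heckeULin (N := p) 2 (dvd_refl p) + LinearMap.id)) : ℚ) =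
      Module.finrank ℂ (CuspForm (Gamma0 p) 2) + 1 -
        FA.ClassRelation.classNumberH (4 * p) / 2 ∧
    LinearMap.trace ℂ (CuspForm (Gamma0 p) 2) (CuspForm.heckeULin (N := p) 2 (dvd_refl p)) =
      ((FA.ClassRelation.classNumberH (4 * p) / 2 - 1 : ℚ) : ℂ) := by
  set U := CuspForm.heckeULin (N := p) 2 (dvd_refl p)
  haveI := FA.Deform.finite_of_hasIntegralBasis (FA.LTInt.hasIntegralBasis p)
  obtain ⟨V, hV, hdim, hcusp⟩ := weight_succ_eigenspaces_classNumber p h5 1 (Or.inl rfl)
  have ha := FA.LevelPTrace.finrank_fixed h5 hV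
  rw [if_pos rfl] at hdim hcusp
  rw [← ha] at hcusp
  have h2 : ∀ F, U (U F) = F := FA.LevelPTrace.heckeULin_involutive
  have hrange : LinearMap.range (U - LinearMap.id) = LinearMap.ker (U + LinearMap.id) := by
    refine le_antisymm ?_ fun v hv => ⟨(-(2 : ℂ)⁻¹) • v, ?_⟩
    · rintro _ ⟨v, rfl⟩
      simp only [LinearMap.mem_ker, LinearMap.add_apply, LinearMap.sub_apply, LinearMap.id_apply,
        map_sub, h2]
      abel
    · rw [LinearMap.mem_ker, LinearMap.add_apply, add_eq_zero_iff_eq_neg, LinearMap.id_apply] at hv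
      rw [LinearMap.sub_apply, map_smul, hv, LinearMap.id_apply, smul_neg, ← neg_add', ← add_smul]
      rw [show (-(2 : ℂ)⁻¹ + -2⁻¹) = -1 by norm_num, neg_one_smul, neg_neg]
  have hsum := LinearMap.finrank_range_add_finrank_ker (U - LinearMap.id)
  rw [hrange] at hsum
  have hsumQ := congrArg (fun n : ℕ => (n : ℚ)) hsum
  push_cast at hsumQ
  have hcuspQ := congrArg (fun n : ℕ => (n : ℚ)) hcusp
  push_cast at hcuspQ
  refine ⟨by linarith, by linarith, ?_⟩
  have ht := FA.LevelPTrace.involution_trace (K := ℂ) two_ne_zero U h2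
  rw [eq_sub_of_add_eq ht]
  have hq : (FA.ClassRelation.classNumberH (4 * p) / 2 - 1 : ℚ) =
      2 * (Module.finrank ℂ (LinearMap.ker (U - LinearMap.id)) : ℚ) -
        Module.finrank ℂ (CuspForm (Gamma0 p) 2) := by linarith
  rw [hq]
  push_cast
  rfl

/-- **Ogg**: `U` is `1` on `S₂(Γ₀(p))` exactly for Ogg's primes. -/
theorem ogg_fricke_genus_zero (h5 : 5 ≤ p) :
    (∀ F : CuspForm (Gamma0 p) 2, CuspForm.heckeULin 2 (dvd_refl p) F = F) ↔
      p ∈ ({5, 7, 11, 13, 17, 19, 23, 29, 31, 41, 47, 59, 71} : Finset ℕ) := by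
  haveI := FA.Deform.finite_of_hasIntegralBasis (FA.LTInt.hasIntegralBasis p)
  rw [← ogg_primes_classNumber p h5]
  obtain ⟨ha, -, -⟩ := fricke_genus (p := p) h5
  constructor
  · intro h
    rw [show CuspForm.heckeULin (N := p) 2 (dvd_refl p) - LinearMap.id = 0 from
      LinearMap.ext fun F => sub_eq_zero.2 (h F), LinearMap.ker_zero, finrank_top] at ha
    linarith
  · intro h F
    have e : LinearMap.ker (CuspForm.heckeULin (N := p) 2 (dvd_refl p) - LinearMap.id) = ⊤ := by
      refine Submodule.eq_top_of_finrank_eq ?_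
      rw [h] at ha
      have : (Module.finrank ℂ
          (LinearMap.ker (CuspForm.heckeULin (N := p) 2 (dvd_refl p) - LinearMap.id)) : ℚ) =
          Module.finrank ℂ (CuspForm (Gamma0 p) 2) := by linarith
      exact_mod_cast this
    exact sub_eq_zero.1 (LinearMap.mem_ker.1 (e ▸ Submodule.mem_top :
      F ∈ LinearMap.ker (CuspForm.heckeULin (N := p) 2 (dvd_refl p) - LinearMap.id)))

/-- **Semistable curves of conductor an Ogg prime**: split reduction (`a_p = 1`) and root number
`+1`. -/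
theorem ogg_prime_conductor_sign
    (hp : p ∈ ({5, 7, 11, 13, 17, 19, 23, 29, 31, 41, 47, 59, 71} : Finset ℕ))
    (E : WeierstrassCurve ℚ) [E.IsElliptic]
    (h : ∀ q : ℕ, ∀ [Fact q.Prime], ∃ C : VariableChange ℚ_[q],
      HasGoodReduction ℤ_[q] (C • E.map (algebraMap ℚ ℚ_[q])) ∨
        HasMultiplicativeReduction ℤ_[q] (C • E.map (algebraMap ℚ ℚ_[q])))
    (hbad : ∀ q : ℕ, ∀ [Fact q.Prime], (¬ ∃ C : VariableChange ℚ_[q],
      HasGoodReduction ℤ_[q] (C • E.map (algebraMap ℚ ℚ_[q]))) ↔ q = p) :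
    E.LFunction p = 1 ∧ ∃ Λ : ℂ → ℂ, Differentiable ℂ Λ ∧
      (∀ s : ℂ, 2 < s.re →
        Λ s = (p : ℂ) ^ (s / 2) * (2 * (π : ℂ)) ^ (-s) * Complex.Gamma s * E.LSeries s) ∧
      ∀ s : ℂ, Λ (2 - s) = Λ s := by
  have h5 : 5 ≤ p := by simp only [Finset.mem_insert, Finset.mem_singleton] at hp; omega
  have hprime : p.Prime := Fact.out
  obtain ⟨g, A, hg, hA, hn⟩ := exists_newform_primeConductor E h hbad
  have hU := (ogg_fricke_genus_zero h5).2 hp g
  rw [FA.JTorsion.heckeU_eigen hg hprime (dvd_refl p)] at hU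
  have h1 : FA.Deform.qLin p g p = 1 :=
    smul_left_injective ℂ hg.ne_zero (hU.trans (one_smul ℂ g).symm)
  have hL : E.LFunction p = 1 := by
    have e : FA.Deform.qLin p g p = (E.LFunction p : ℂ) := by
      rw [FA.Deform.qLin_apply]
      show PowerSeries.coeff p (qExpansion 1 ⇑g) = _
      rw [hA, PowerSeries.coeff_map, eq_intCast, hn]
    rw [h1] at e
    exact_mod_cast e.symm
  refine ⟨hL, ?_⟩
  obtain ⟨W, N, Λ, hW, hs, hsq, hN, hd, hser, hfe⟩ :=
    FA.Root.exists_completed_LSeries_functional_equation_sign E h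
  have hNp : N = p :=
    (Nat.Squarefree.ext_iff hsq hprime.squarefree).mpr fun q hq => by
      have := Fact.mk hq
      rw [hN q hq, Nat.prime_dvd_prime_iff_eq hq hprime, ← hbad q,
        FA.Root.MultOne.exists_good_iff hW hs q, not_not]
  subst hNp
  have hdvd := (hN N hprime).1 dvd_rfl
  have e := FA.Root.LFunction_apply_prime_pow_mult E W hW hprime hdvd
    (FA.Frob.Δ_ne_zero_of_model hW) (hs N hprime hdvd) 1
  rw [pow_one, pow_one, hL] at e
  refine ⟨Λ, hd, hser, fun s => ?_⟩
  rw [hfe s, hprime.primeFactors, Finset.prod_singleton, neg_neg, ← e, Int.cast_one, one_mul]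

end FA.Summary

end
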