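import Fermat.Agent.Tau.PrimeLevelBasis
import Fermat.Agent.Root.SummaryFrickeGenus

/-!
# The eigenbasis of `S₂(Γ₀(p))`

At prime level the normalised eigenforms are a basis of the weight two cusp forms: there are
exactly `g` of them, their coefficients are totally real, and by Fricke's genus formula
`(g - 1) / 2 + H(4 p) / 4` of them have `a_p = 1`, the others `a_p = -1`.
-/

set_option autoImplicit false

noncomputable section

open UpperHalfPlane hiding I
open CongruenceSubgroup ModularFormClass
open scoped MatrixGroups Classical ComplexConjugate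

namespace FA.Summary

variable {p : ℕ} [Fact p.Prime]

/-- **Multiplicity one at prime level**: the `a_q`, `q ≠ p`, determine a normalised eigenform. -/
theorem prime_level_multiplicity_one {f g : CuspForm (Gamma0 p) 2} (hf : f.IsNormalizedEigenform)
    (hg : g.IsNormalizedEigenform) (h : ∀ q : ℕ, q.Prime → q ≠ p → qCoeff f q = qCoeff g q) :
    f = g :=
  FA.PrimeLevelBasis.eigenform_ext hf hg h

/-- **The normalised eigenforms are a basis** of `S₂(Γ₀(p))`. -/
theorem prime_level_eigenforms_basis :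
    LinearIndependent ℂ
        (fun g : {g : CuspForm (Gamma0 p) 2 // g.IsNormalizedEigenform} => g.1) ∧
      Submodule.span ℂ {g : CuspForm (Gamma0 p) 2 | g.IsNormalizedEigenform} = ⊤ ∧
      Finite {g : CuspForm (Gamma0 p) 2 // g.IsNormalizedEigenform} ∧
      Nat.card {g : CuspForm (Gamma0 p) 2 // g.IsNormalizedEigenform} =
        Module.finrank ℂ (CuspForm (Gamma0 p) 2) := by
  have hfin : Module.Finite ℂ (CuspForm (Gamma0 p) 2) := FA.Petersson.finite_cuspForm (N := p)
  refine ⟨FA.PrimeLevelBasis.linearIndependent_eigenforms, ?_, ?_, ?_⟩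
  · exact top_unique (FA.PrimeLevelBasis.span_eigenforms.trans (Submodule.span_mono (by
      rintro _ ⟨g, rfl⟩; exact g.2)))
  · exact Module.Finite.finite_basis (FA.PrimeLevelBasis.eigenBasis (p := p))
  · exact (Module.finrank_eq_nat_card_basis (FA.PrimeLevelBasis.eigenBasis (p := p))).symm

/-- **Totally real coefficients**: all `a_n` are real, and so is every conjugate of every `a_q`. -/
theorem prime_level_eigenform_totally_real {g : CuspForm (Gamma0 p) 2}
    (hg : g.IsNormalizedEigenform) :
    (∀ n, conj (qCoeff g n) = qCoeff g n) ∧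
      ∀ q : ℕ, q.Prime → ∀ z : ℂ,
        Polynomial.aeval z (minpoly ℚ (qCoeff g q)) = 0 → conj z = z := by
  refine ⟨FA.PrimeLevelBasis.conj_qLin hg, fun q hq z hz => ?_⟩
  by_cases hqp : q ∣ p
  · rw [(Nat.prime_dvd_prime_iff_eq hq (Fact.out : p.Prime)).1 hqp] at hz
    obtain h | h : qCoeff g p = 1 ∨ qCoeff g p = -1 := FA.PrimeLevelBasis.qLin_level_eq hg
    · rw [h, minpoly.one, map_sub, Polynomial.aeval_X, map_one, sub_eq_zero] at hz
      rw [hz, map_one]
    · rw [h, show (-1 : ℂ) = algebraMap ℚ ℂ (-1) by simp, minpoly.eq_X_sub_C, map_sub,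
        Polynomial.aeval_X, Polynomial.aeval_C, sub_eq_zero] at hz
      simp [hz]
  · obtain ⟨v, hv⟩ :=
      ((FA.Ribet.conjugates_eigenvalue hq hqp hg).2 z hz).1.exists_hasEigenvector
    exact FA.Petersson.IsSymm.eigenvalue_real (FA.Petersson.inner_heckeTLin hq hqp) hv.2
      (Module.End.mem_eigenspace_iff.1 hv.1)

/-- **The signs of the eigenforms**: how many have `a_p = 1` and how many `a_p = -1`. -/
theorem prime_level_eigenform_signs (h5 : 5 ≤ p) :
    (2 * Nat.card {g : CuspForm (Gamma0 p) 2 //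
        g.IsNormalizedEigenform ∧ qCoeff g p = 1} : ℚ) =
      Module.finrank ℂ (CuspForm (Gamma0 p) 2) - 1 +
        FA.ClassRelation.classNumberH (4 * p) / 2 ∧
    (2 * Nat.card {g : CuspForm (Gamma0 p) 2 //
        g.IsNormalizedEigenform ∧ qCoeff g p = -1} : ℚ) =
      Module.finrank ℂ (CuspForm (Gamma0 p) 2) + 1 -
        FA.ClassRelation.classNumberH (4 * p) / 2 ∧
    (p ∈ ({5, 7, 11, 13, 17, 19, 23, 29, 31, 41, 47, 59, 71} : Finset ℕ) →
      ∀ g : CuspForm (Gamma0 p) 2, g.IsNormalizedEigenform → qCoeff g p = 1) := by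
  have hfin : Module.Finite ℂ (CuspForm (Gamma0 p) 2) := FA.Petersson.finite_cuspForm (N := p)
  have hp : p.Prime := Fact.out
  obtain ⟨hli, -, hE, hcard⟩ := prime_level_eigenforms_basis (p := p)
  have hU : ∀ g : CuspForm (Gamma0 p) 2, g.IsNormalizedEigenform →
      CuspForm.heckeULin 2 (dvd_refl p) g = qCoeff g p • g :=
    fun g hg => FA.JTorsion.heckeU_eigen hg hp (dvd_refl p)
  set U := CuspForm.heckeULin (N := p) 2 (dvd_refl p)
  set ι := {g : CuspForm (Gamma0 p) 2 // g.IsNormalizedEigenform}
  have hle : ∀ (c : ℂ) (A : Module.End ℂ (CuspForm (Gamma0 p) 2)),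
      (∀ g : ι, qCoeff g.1 p = c → A g.1 = 0) →
      Nat.card {g : ι // qCoeff g.1 p = c} ≤ Module.finrank ℂ (LinearMap.ker A) := fun c A hA => by
    let w : {g : ι // qCoeff g.1 p = c} → LinearMap.ker A := fun g => ⟨g.1.1, hA g.1 g.2⟩
    have hw : LinearIndependent ℂ w :=
      LinearIndependent.of_comp (LinearMap.ker A).subtype
        (hli.comp (fun g : {g : ι // qCoeff g.1 p = c} => g.1) Subtype.val_injective)
    have := Fintype.ofFinite {g : ι // qCoeff g.1 p = c}
    rw [Nat.card_eq_fintype_card]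
    exact hw.fintype_card_le_finrank
  have ha := hle 1 (U - LinearMap.id) fun g h => by
    rw [LinearMap.sub_apply, hU g.1 g.2, h, one_smul, LinearMap.id_apply, sub_self]
  have hb := hle (-1) (U + LinearMap.id) fun g h => by
    rw [LinearMap.add_apply, hU g.1 g.2, h, neg_one_smul, LinearMap.id_apply, neg_add_cancel]
  have hsum : Nat.card {g : ι // qCoeff g.1 p = 1} + Nat.card {g : ι // qCoeff g.1 p = -1} =
      Nat.card ι := by
    rw [← Nat.card_sum]
    refine Nat.card_congr ((Equiv.sumCongr (Equiv.refl _)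
      (Equiv.subtypeEquivRight fun g => ?_)).trans (Equiv.sumCompl fun g : ι => qCoeff g.1 p = 1))
    rcases FA.PrimeLevelBasis.qLin_level_eq g.2 with h | h
    · exact ⟨fun e => absurd ((show qCoeff g.1 p = 1 from h).symm.trans e) (by norm_num),
        fun e => absurd h e⟩
    · exact ⟨fun e e' => absurd (e'.symm.trans e) (by norm_num), fun _ => h⟩
  obtain ⟨h1, h2, -⟩ := fricke_genus (p := p) h5
  have hker : Module.finrank ℂ (LinearMap.ker (U - LinearMap.id)) +
      Module.finrank ℂ (LinearMap.ker (U + LinearMap.id)) = Nat.card ι := by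
    rw [hcard, ← Nat.cast_inj (R := ℚ)]
    push_cast
    linarith
  have hflat : ∀ c : ℂ, Nat.card {g : CuspForm (Gamma0 p) 2 //
      g.IsNormalizedEigenform ∧ qCoeff g p = c} = Nat.card {g : ι // qCoeff g.1 p = c} :=
    fun c => (Nat.card_congr (Equiv.subtypeSubtypeEquivSubtypeInter _
      (fun g : CuspForm (Gamma0 p) 2 => qCoeff g p = c))).symm
  refine ⟨?_, ?_, fun hO g hg => ?_⟩
  · rw [hflat, show Nat.card {g : ι // qCoeff g.1 p = 1} =
      Module.finrank ℂ (LinearMap.ker (U - LinearMap.id)) by omega]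
    exact h1
  · rw [hflat, show Nat.card {g : ι // qCoeff g.1 p = -1} =
      Module.finrank ℂ (LinearMap.ker (U + LinearMap.id)) by omega]
    exact h2
  · have e := (ogg_fricke_genus_zero h5).2 hO g
    rw [FA.JTorsion.heckeU_eigen hg hp (dvd_refl p)] at e
    exact smul_left_injective ℂ hg.ne_zero (e.trans (one_smul ℂ g).symm)

end FA.Summary

end
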