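import Fermat.Agent.WeightTwoOrdinary.Bridge
import Fermat.Agent.Root.SummaryOrdinaryCount
import Fermat.Agent.Root.SummaryPrimeLevelEigenbasis
import Fermat.Agent.Root.EtaEleven

/-!
# Summary: weight two of level `p` and the class of `2`, `p ≥ 5`

`ι : ℚ_p → ℂ` is an embedding, `B = intNums ι` the ring of the complex numbers integral over
`ι(ℤ_p)`, `P` a prime ideal of it with `p ∈ P`; `k ≥ 3` is congruent to `2` modulo `p - 1`.
`IsEigenForm` and `IsUnitAt` are those of `FA.OrdinaryCount.Summary`.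

* `levelP_to_levelOne`: every normalised eigenform `g` of weight two for `Γ₀(p)` has a cuspidal
  eigenform `F` of level one and weight `k` with `a_p` a unit and `a_n(F) - a_n(g) ∈ P` for all `n`;
* `levelOne_to_levelP`: conversely every such `F` has such a `g`;
* `residual_systems_weight_two`: so the two finite sets of residual systems are equal;
* `ordinary_cusp_sign`: `a_p` of such an `F` is `±1` modulo `P`, and `1` for the thirteen Ogg primes
  below `72` listed there;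
* `eleven`: for `p = 11` the one such `F` of each weight `k ≡ 2` modulo `10` is congruent to the
  `L`-series of `y² + y = x³ - x²` at every index.

Not proved here: congruences modulo higher powers; the families; `p = 2, 3`.
-/

set_option autoImplicit false

noncomputable section

open UpperHalfPlane hiding I
open PowerSeries CongruenceSubgroup ModularFormClass
open scoped MatrixGroups ModularForm

namespace FA.WeightTwoOrdinary.Summary

open FA.OrdinaryProj FA.LambdaHecke FA.OrdinaryCount FA.OrdinaryCongruence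

variable {p : ℕ} [Fact p.Prime] {k : ℕ} (ι : ℚ_[p] →+* ℂ)

omit [Fact p.Prime] in
/-- The class of `2`. -/
theorem class_two_cast (h : k ≡ 2 [MOD p - 1]) : (k : ZMod (p - 1)) = 2 := by
  rw [← Nat.cast_two]
  exact (ZMod.natCast_eq_natCast_iff _ _ _).2 h

theorem congr_all (P : Ideal ↥(intNums ι)) {F : ModularForm 𝒮ℒ (k : ℤ)}
    (h0 : (qExpansion 1 ⇑F).coeff 0 = 0) {g : CuspForm (Gamma0 p) 2}
    (h : ∀ n, 1 ≤ n → ∃ u : ↥(intNums ι), u ∈ P ∧
      (u : ℂ) = (qExpansion 1 ⇑F).coeff n - FA.Deform.qLin p g n) (n : ℕ) :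
    ∃ u : ↥(intNums ι), u ∈ P ∧ (u : ℂ) = (qExpansion 1 ⇑F).coeff n - qCoeff g n := by
  rcases Nat.eq_zero_or_pos n with rfl | hn
  · refine ⟨0, P.zero_mem, ?_⟩
    rw [h0, ← FA.Deform.qLin_apply, FA.Deform.qLin_zero_apply, sub_zero]
    rfl
  · exact h n hn

/-- **From weight two to weight `k`.** -/
theorem levelP_to_levelOne (h5 : 5 ≤ p) (hk : 3 ≤ k) (h : k ≡ 2 [MOD p - 1])
    (P : Ideal ↥(intNums ι)) [P.IsPrime] (hp : (p : ↥(intNums ι)) ∈ P)
    {g : CuspForm (Gamma0 p) 2} (hg : g.IsNormalizedEigenform) :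
    ∃ F : ModularForm 𝒮ℒ (k : ℤ), IsEigenForm F ∧ IsUnitAt ι F ∧
      (qExpansion 1 ⇑F).coeff 0 = 0 ∧ ∀ n, ∃ u : ↥(intNums ι), u ∈ P ∧
        (u : ℂ) = (qExpansion 1 ⇑F).coeff n - qCoeff g n := by
  obtain ⟨F, hF, hu, h0, hc⟩ := exists_one_of_two h5 hk (class_two_cast h) ι P hp hg
  exact ⟨F, hF, hu, h0, congr_all ι P h0 hc⟩

/-- **From weight `k` to weight two.** -/
theorem levelOne_to_levelP (h5 : 5 ≤ p) (hk : 3 ≤ k) (h : k ≡ 2 [MOD p - 1])
    (P : Ideal ↥(intNums ι)) [P.IsPrime] (hp : (p : ↥(intNums ι)) ∈ P)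
    {F : ModularForm 𝒮ℒ (k : ℤ)} (hF : IsEigenForm F) (hu : IsUnitAt ι F)
    (h0 : (qExpansion 1 ⇑F).coeff 0 = 0) :
    ∃ g : CuspForm (Gamma0 p) 2, g.IsNormalizedEigenform ∧ ∀ n, ∃ u : ↥(intNums ι), u ∈ P ∧
      (u : ℂ) = (qExpansion 1 ⇑F).coeff n - qCoeff g n := by
  obtain ⟨g, hg, hc⟩ := exists_two_of_one h5 hk
    (FA.OrdinaryCount.Summary.even_of_class h5 even_two h) (class_two_cast h) ι P hp hF hu h0
  exact ⟨g, hg, congr_all ι P h0 hc⟩

/-- The residual systems of the weight two eigenforms of level `p`. -/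
def twoSystems (P : Ideal ↥(intNums ι)) : Set (ℕ → ↥(intNums ι) ⧸ P) :=
  {f | ∃ g : CuspForm (Gamma0 p) 2, g.IsNormalizedEigenform ∧
    ∀ n, ∃ b : ↥(intNums ι), (b : ℂ) = qCoeff g n ∧ Ideal.Quotient.mk P b = f n}

/-- The residual systems of the ordinary cuspidal eigenforms of weight `k`. -/
def cuspSystems (P : Ideal ↥(intNums ι)) (k : ℕ) : Set (ℕ → ↥(intNums ι) ⧸ P) :=
  {f | ∃ F : ModularForm 𝒮ℒ (k : ℤ), IsEigenForm F ∧ IsUnitAt ι F ∧
    (qExpansion 1 ⇑F).coeff 0 = 0 ∧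
    ∀ n, ∃ b : ↥(intNums ι), (b : ℂ) = (qExpansion 1 ⇑F).coeff n ∧ Ideal.Quotient.mk P b = f n}

/-- **The residual systems coincide.** -/
theorem residual_systems_weight_two (h5 : 5 ≤ p) (hk : 3 ≤ k) (h : k ≡ 2 [MOD p - 1])
    (P : Ideal ↥(intNums ι)) [P.IsPrime] (hp : (p : ↥(intNums ι)) ∈ P) :
    twoSystems ι P = cuspSystems ι P k := by
  refine Set.Subset.antisymm (fun f hf => ?_) fun f hf => ?_
  · obtain ⟨g, hg, hb⟩ := hf
    obtain ⟨F, hF, hu, h0, hc⟩ := levelP_to_levelOne ι h5 hk h P hp hg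
    refine ⟨F, hF, hu, h0, fun n => ?_⟩
    obtain ⟨b, hb1, hb2⟩ := hb n
    obtain ⟨u, hu', hue⟩ := hc n
    refine ⟨b + u, by rw [Subring.coe_add, hb1, hue, add_sub_cancel], ?_⟩
    rw [map_add, hb2, Ideal.Quotient.eq_zero_iff_mem.2 hu', add_zero]
  · obtain ⟨F, hF, hu, h0, hb⟩ := hf
    obtain ⟨g, hg, hc⟩ := levelOne_to_levelP ι h5 hk h P hp hF hu h0
    refine ⟨g, hg, fun n => ?_⟩
    obtain ⟨b, hb1, hb2⟩ := hb n
    obtain ⟨u, hu', hue⟩ := hc n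
    refine ⟨b - u, by rw [AddSubgroupClass.coe_sub, hb1, hue, sub_sub_cancel], ?_⟩
    rw [map_sub, hb2, Ideal.Quotient.eq_zero_iff_mem.2 hu', sub_zero]

/-- **The sign at `p`.** -/
theorem ordinary_cusp_sign (h5 : 5 ≤ p) (hk : 3 ≤ k) (h : k ≡ 2 [MOD p - 1])
    (P : Ideal ↥(intNums ι)) [P.IsPrime] (hp : (p : ↥(intNums ι)) ∈ P)
    {F : ModularForm 𝒮ℒ (k : ℤ)} (hF : IsEigenForm F) (hu : IsUnitAt ι F)
    (h0 : (qExpansion 1 ⇑F).coeff 0 = 0) :
    (∃ u : ↥(intNums ι), u ∈ P ∧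
      ((u : ℂ) = (qExpansion 1 ⇑F).coeff p - 1 ∨ (u : ℂ) = (qExpansion 1 ⇑F).coeff p + 1)) ∧
    (p ∈ ({5, 7, 11, 13, 17, 19, 23, 29, 31, 41, 47, 59, 71} : Finset ℕ) →
      ∃ u : ↥(intNums ι), u ∈ P ∧ (u : ℂ) = (qExpansion 1 ⇑F).coeff p - 1) := by
  obtain ⟨g, hg, hc⟩ := levelOne_to_levelP ι h5 hk h P hp hF hu h0
  obtain ⟨u, hu', hue⟩ := hc p
  refine ⟨⟨u, hu', ?_⟩, fun hO => ⟨u, hu', ?_⟩⟩
  · rcases FA.PrimeLevelBasis.qLin_level_eq hg with e | e <;>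
      rw [FA.Deform.qLin_apply] at e <;> rw [hue, e]
    · exact Or.inl rfl
    · exact Or.inr (sub_neg_eq_add _ _)
  · rw [hue, (FA.Summary.prime_level_eigenform_signs h5).2.2 hO g hg]

/-- The normalised eigenform of level `11`. -/
theorem eq_formEleven [Fact (Nat.Prime 11)] {g : CuspForm (Gamma0 11) 2}
    (hg : g.IsNormalizedEigenform) : g = FA.EtaEleven.formEleven := by
  obtain ⟨c, hc⟩ := (finrank_eq_one_iff_of_nonzero' g hg.ne_zero).1
    FA.CuspClass.finrank_cuspForm_eleven FA.EtaEleven.formEleven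
  have h := congrArg (fun f => FA.Deform.qLin 11 f 1) hc
  rw [map_smul, Pi.smul_apply, smul_eq_mul, show FA.Deform.qLin 11 g 1 = 1 from hg.qCoeff_one,
    mul_one, FA.Deform.qLin_apply, FA.EtaEleven.qCoeff_formEleven, FA.EtaEleven.coeff_series_one,
    Int.cast_one] at h
  rw [← hc, h, one_smul]

/-- **`p = 11`.** -/
theorem eleven (_ : Fact (Nat.Prime 11)) (hk : 3 ≤ k) (h : k ≡ 2 [MOD 10]) (ι : ℚ_[11] →+* ℂ)
    (P : Ideal ↥(intNums ι)) [P.IsPrime] (hp : (11 : ↥(intNums ι)) ∈ P) :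
    ∃ F : ModularForm 𝒮ℒ (k : ℤ),
      (∀ G : ModularForm 𝒮ℒ (k : ℤ),
        IsEigenForm G ∧ IsUnitAt ι G ∧ (qExpansion 1 ⇑G).coeff 0 = 0 ↔ G = F) ∧
      ∀ n, ∃ u : ↥(intNums ι), u ∈ P ∧ (u : ℂ) = (qExpansion 1 ⇑F).coeff n -
        ((⟨0, -1, 1, 0, 0⟩ : WeierstrassCurve ℚ).LFunction n : ℂ) := by
  obtain ⟨F, hF⟩ := FA.OrdinaryCount.Summary.eleven_thirteen.1 ‹_› k hk h ι
  obtain ⟨hFe, hFu, hF0⟩ := (hF F).2 rfl
  obtain ⟨g, hg, hc⟩ := levelOne_to_levelP (p := 11) ι (by norm_num) hk h P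
    (by rw [Nat.cast_ofNat]; exact hp) hFe hFu hF0
  refine ⟨F, hF, fun n => ?_⟩
  obtain ⟨u, hu, hue⟩ := hc n
  refine ⟨u, hu, ?_⟩
  rw [hue, eq_formEleven hg, FA.EtaEleven.qCoeff_formEleven, FA.EtaEleven.LFunction_eq_series]

end FA.WeightTwoOrdinary.Summary

end
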