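import Fermat.Agent.WeightTwoOrdinary.Galois
import Fermat.Agent.Root.SummaryWeightTwoOrdinary
import Fermat.Agent.Root.SummaryTauEleven

/-!
# Summary: Galois representations modulo `p` in the class of `2`, `p ≥ 5`

`B = intNums ι` is the ring of the complex numbers integral over `ι(ℤ_p)` and `φ : B → K` a ring
map to a field of characteristic `p`; `k ≥ 3` is congruent to `2` modulo `p - 1`; `IsEigenForm` and
`IsUnitAt` are those of `FA.OrdinaryCount.Summary`.

* `residual_representation`: every cuspidal eigenform `F` of level one and weight `k` with `a_p` a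
  unit has a representation of `Gal(ℚ̄/ℚ)` in `GL₂(K)` with open kernel, unramified outside `p`,
  with trace `φ(a_l(F))` and determinant `l ^ (k - 1)` at a Frobenius over `l ≠ p`
  (`isResidualRep_iff`);
* `finitely_many_representations`: at most `g(X₀(p))` representations serve all these forms in all
  these weights;
* `common_representation`: `F` is congruent to such a form of every other such weight, with the same
  representation;
* `eleven_representation`: for `p = 11` one surjection to `GL₂(𝔽₁₁)` serves every weight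
  `k ≡ 2` modulo `10`, and `a_l(F) ≡ l + 1 - #E(𝔽_l)` for `E : y² + y = x³ - x²`.

Not proved here: irreducibility for general `p`; the restriction to the decomposition group at `p`;
the other classes.
-/

set_option autoImplicit false

noncomputable section

open UpperHalfPlane hiding I
open PowerSeries CongruenceSubgroup IsLocalRing
open scoped MatrixGroups ModularForm

namespace FA.WeightTwoOrdinaryGalois.Summary

open FA.OrdinaryCount FA.OrdinaryCongruence FA.WeightTwoOrdinary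

local notation "Qb" => AlgebraicClosure ℚ
local notation "GQ" => AlgebraicClosure ℚ ≃ₐ[ℚ] AlgebraicClosure ℚ

variable {p : ℕ} [Fact p.Prime] {k : ℕ} {ι : ℚ_[p] →+* ℂ} {K : Type} [Field K]

omit [Fact p.Prime] in
theorem class_two_cast (h : k ≡ 2 [MOD p - 1]) : (k : ZMod (p - 1)) = 2 := by
  rw [← Nat.cast_two]
  exact (ZMod.natCast_eq_natCast_iff _ _ _).2 h

/-- The definition, written out. -/
theorem isResidualRep_iff (φ : ↥(intNums ι) →+* K) (F : ModularForm 𝒮ℒ (k : ℤ))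
    (ρ : GQ →* GL (Fin 2) K) : IsResidualRep φ F ρ ↔
      IsOpen (ρ.ker : Set GQ) ∧ ∀ l : ℕ, l.Prime → l ≠ p →
        ∀ A : ValuationSubring Qb, (l : Qb) ∈ A.nonunits →
          (∀ σ ∈ A.inertiaSubgroup ℚ, ρ σ = 1) ∧
          ∀ σ : A.decompositionSubgroup ℚ, (∀ x : ResidueField A, σ • x = x ^ l) →
            ∃ b : ↥(intNums ι), (b : ℂ) = (qExpansion 1 ⇑F).coeff l ∧
              (ρ σ).val.trace = φ b ∧ (ρ σ).val.det = (l : K) ^ (k - 1) :=
  Iff.rfl

/-- **The representation of an ordinary form.** -/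
theorem residual_representation [CharP K p] (h5 : 5 ≤ p) (hk : 3 ≤ k) (h : k ≡ 2 [MOD p - 1])
    (φ : ↥(intNums ι) →+* K) {F : ModularForm 𝒮ℒ (k : ℤ)} (hF : IsEigenForm F)
    (hu : IsUnitAt ι F) (h0 : (qExpansion 1 ⇑F).coeff 0 = 0) :
    ∃ ρ : GQ →* GL (Fin 2) K, IsResidualRep φ F ρ := by
  obtain ⟨S, -, -, hS⟩ := exists_rep h5 φ
  obtain ⟨ρ, -, hρ⟩ := hS k hk (FA.OrdinaryCount.Summary.even_of_class h5 even_two h)
    (class_two_cast h) F hF hu h0
  exact ⟨ρ, hρ⟩

/-- **At most `g(X₀(p))` representations.** -/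
theorem finitely_many_representations [CharP K p] (h5 : 5 ≤ p) (φ : ↥(intNums ι) →+* K) :
    ∃ S : Set (GQ →* GL (Fin 2) K), S.Finite ∧
      S.ncard ≤ Module.finrank ℂ (CuspForm (Gamma0 p) 2) ∧
      ∀ k : ℕ, 3 ≤ k → k ≡ 2 [MOD p - 1] → ∀ F : ModularForm 𝒮ℒ (k : ℤ), IsEigenForm F →
        IsUnitAt ι F → (qExpansion 1 ⇑F).coeff 0 = 0 → ∃ ρ ∈ S, IsResidualRep φ F ρ := by
  obtain ⟨S, hfin, hcard, hS⟩ := exists_rep h5 φ
  exact ⟨S, hfin, hcard, fun k hk h =>
    hS k hk (FA.OrdinaryCount.Summary.even_of_class h5 even_two h) (class_two_cast h)⟩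

/-- **The same representation in every weight.** -/
theorem common_representation [CharP K p] (h5 : 5 ≤ p) {m : ℕ} (hk : 3 ≤ k) (hm : 3 ≤ m)
    (h : k ≡ 2 [MOD p - 1]) (h' : m ≡ 2 [MOD p - 1]) (φ : ↥(intNums ι) →+* K)
    {F : ModularForm 𝒮ℒ (k : ℤ)} (hF : IsEigenForm F) (hu : IsUnitAt ι F)
    (h0 : (qExpansion 1 ⇑F).coeff 0 = 0) :
    ∃ (G : ModularForm 𝒮ℒ (m : ℤ)) (ρ : GQ →* GL (Fin 2) K), IsEigenForm G ∧ IsUnitAt ι G ∧
      (qExpansion 1 ⇑G).coeff 0 = 0 ∧
      (∀ n, 1 ≤ n → ∃ u : ↥(intNums ι), φ u = 0 ∧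
        (u : ℂ) = (qExpansion 1 ⇑F).coeff n - (qExpansion 1 ⇑G).coeff n) ∧
      IsResidualRep φ F ρ ∧ IsResidualRep φ G ρ :=
  exists_common_rep h5 hk hm (FA.OrdinaryCount.Summary.even_of_class h5 even_two h)
    (class_two_cast h) (class_two_cast h') φ hF hu h0

/-- **`p = 11`**: one representation, with image `GL₂(𝔽₁₁)`, for every weight of the class. -/
theorem eleven_representation (_ : Fact (Nat.Prime 11)) :
    ∃ ρ : GQ →* GL (Fin 2) (ZMod 11), IsOpen (ρ.ker : Set GQ) ∧ Function.Surjective ρ ∧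
      ∀ k : ℕ, 3 ≤ k → k ≡ 2 [MOD 10] → ∀ (ι : ℚ_[11] →+* ℂ) (P : Ideal ↥(intNums ι)), P.IsPrime →
        (11 : ↥(intNums ι)) ∈ P → ∀ F : ModularForm 𝒮ℒ (k : ℤ), IsEigenForm F → IsUnitAt ι F →
          (qExpansion 1 ⇑F).coeff 0 = 0 → ∀ l : ℕ, l.Prime → l ≠ 11 →
            ∃ t : ℤ, t = (l : ℤ) + 1 - (Nat.card ((⟨0, -1, 1, 0, 0⟩ : WeierstrassCurve ℤ).map
                (Int.castRingHom (ZMod l))).toAffine.Point : ℤ) ∧
              (∃ u : ↥(intNums ι), u ∈ P ∧ (u : ℂ) = (qExpansion 1 ⇑F).coeff l - (t : ℂ)) ∧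
              ∀ A : ValuationSubring Qb, (l : Qb) ∈ A.nonunits →
                (∀ σ ∈ A.inertiaSubgroup ℚ, ρ σ = 1) ∧
                ∀ σ : A.decompositionSubgroup ℚ, (∀ x : ResidueField A, σ • x = x ^ l) →
                  (ρ σ).val.trace = (t : ZMod 11) ∧
                    (ρ σ).val.det = (l : ZMod 11) ^ (k - 1) := by
  obtain ⟨ρ, hopen, hsurj, hρ⟩ := FA.Tau.exists_rep_eleven
    (fun n => (⟨0, -1, 1, 0, 0⟩ : WeierstrassCurve ℚ).LFunction n) fun n => by simp
  refine ⟨ρ, hopen, hsurj, fun k hk h ι P hP hp F hF hu h0 l hl h11 =>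
    ⟨_, rfl, ?_, fun A hA => ?_⟩⟩
  · obtain ⟨G, hG, hc⟩ := FA.WeightTwoOrdinary.Summary.eleven _ hk h ι P hp
    obtain ⟨u, hu', hue⟩ := hc l
    rw [(hG F).1 ⟨hF, hu, h0⟩]
    refine ⟨u, hu', ?_⟩
    rw [hue, FA.Summary.pointCount_11a3 hl h11]
    push_cast
    ring
  · obtain ⟨hI, hFr⟩ := hρ l hl h11 A hA
    refine ⟨hI, fun σ hσ => ?_⟩
    obtain ⟨ht, hd⟩ := hFr σ hσ
    refine ⟨?_, ?_⟩
    · rw [ht, FA.Summary.pointCount_11a3 hl h11, sub_sub_cancel]
    · rw [hd, ZMod.pow_card, pow_congr (p := 11) l (m := 2) (by omega) le_rfl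
        ((ZMod.natCast_eq_natCast_iff _ _ _).2 h), pow_one]

end FA.WeightTwoOrdinaryGalois.Summary

end
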