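import Fermat.Agent.WeightTwoOrdinary.Irreducible
import Fermat.Agent.Root.SummaryWeightTwoOrdinaryGalois

/-!
# Summary: irreducibility at `l = p`, `p ≥ 5`

`K` is a field of characteristic `p`; `cycM p` is the cyclotomic character modulo `p`, with value `l`
at a Frobenius over `l ≠ p`.

* `characters_unramified_outside`: a character of `Gal(ℚ̄/ℚ)` into `K^*` with open kernel, unramified
  outside `p`, is a power of `cycM p`;
* `two_not_reducible_congruence`: no normalised eigenform of weight two for `Γ₀(p)` has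
  `φ (a_l) = lᵃ + lᵇ` at every prime `l ≠ p` when `a + b ≡ 1` modulo `p - 1`;
* `level_p_irreducible`: so a representation into `GL₂(K)` attached modulo `p` to such an eigenform
  has no stable line;
* `ordinary_irreducible`: nor has one attached to an ordinary cuspidal eigenform of level one and
  weight `k ≥ 3`, `k ≡ 2` modulo `p - 1`, and one exists (`ordinary_irreducible_representation`).

`K` is any field, so this is absolute irreducibility. Not proved here: the restriction to the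
decomposition group at `p`; the other classes; Serre's conjecture.
-/

set_option autoImplicit false

noncomputable section

open UpperHalfPlane hiding I
open PowerSeries CongruenceSubgroup IsLocalRing Matrix
open scoped MatrixGroups ModularForm

namespace FA.WeightTwoIrreducible.Summary

open FA.OrdinaryCount FA.OrdinaryCongruence FA.WeightTwoOrdinary

local notation "ZB" => integralClosure ℤ ℂ
local notation "Qb" => AlgebraicClosure ℚ
local notation "GQ" => AlgebraicClosure ℚ ≃ₐ[ℚ] AlgebraicClosure ℚ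

variable {p : ℕ} [Fact p.Prime] {K : Type} [Field K] [CharP K p]

/-- **The characters unramified outside `p`.** -/
theorem characters_unramified_outside (χ : GQ →* Kˣ) (hopen : IsOpen (χ.ker : Set GQ))
    (hun : ∀ l : ℕ, l.Prime → l ≠ p → ∀ A : ValuationSubring Qb, (l : Qb) ∈ A.nonunits →
      ∀ σ ∈ A.inertiaSubgroup ℚ, χ σ = 1) :
    ∃ a : ℕ, ∀ σ, (χ σ : K) =
      ZMod.castHom (dvd_refl p) K ((FA.Weight1.cycM p σ : (ZMod p)ˣ) : ZMod p) ^ a :=
  exists_pow_cycM χ hopen fun l hl hlp A hA σ hσ => by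
    obtain ⟨τ, hτ, rfl⟩ := Subgroup.mem_map.1 hσ
    exact hun l hl hlp A hA τ hτ

/-- **No congruence of reducible type.** -/
theorem two_not_reducible_congruence (h5 : 5 ≤ p) (φ : ZB →+* K) {g : CuspForm (Gamma0 p) 2}
    (hg : g.IsNormalizedEigenform) {a b : ℕ} (hab : a + b ≡ 1 [MOD p - 1]) :
    ∃ l : ℕ, l.Prime ∧ l ≠ p ∧ ∀ c : ZB, (c : ℂ) = ModularFormClass.qCoeff g l →
      φ c ≠ (l : K) ^ a + (l : K) ^ b :=
  two_not_reducible h5 φ hg hab

/-- **Weight two of level `p`.** -/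
theorem level_p_irreducible (h5 : 5 ≤ p) (φ : ZB →+* K) {g : CuspForm (Gamma0 p) 2}
    (hg : g.IsNormalizedEigenform) (ρ : GQ →* GL (Fin 2) K) (hopen : IsOpen (ρ.ker : Set GQ))
    (hρ : ∀ l : ℕ, l.Prime → l ≠ p → ∀ A : ValuationSubring Qb, (l : Qb) ∈ A.nonunits →
      (∀ σ ∈ A.inertiaSubgroup ℚ, ρ σ = 1) ∧
      ∀ σ : A.decompositionSubgroup ℚ, (∀ x : ResidueField A, σ • x = x ^ l) →
        ∃ c : ZB, (c : ℂ) = ModularFormClass.qCoeff g l ∧
          (ρ σ).val.trace = φ c ∧ (ρ σ).val.det = (l : K))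
    (v : Fin 2 → K) (hv : v ≠ 0) : ∃ σ, ∀ c : K, (ρ σ).val *ᵥ v ≠ c • v :=
  two_no_stable_line h5 φ hg ρ hopen hρ hv

/-- **The ordinary forms of level one in the class of `2`.** -/
theorem ordinary_irreducible (h5 : 5 ≤ p) {k : ℕ} (hk : 3 ≤ k) (h : k ≡ 2 [MOD p - 1])
    {ι : ℚ_[p] →+* ℂ} (φ : ↥(intNums ι) →+* K) {F : ModularForm 𝒮ℒ (k : ℤ)} (hF : IsEigenForm F)
    (hu : IsUnitAt ι F) (h0 : (qExpansion 1 ⇑F).coeff 0 = 0) {ρ : GQ →* GL (Fin 2) K}
    (hρ : IsResidualRep φ F ρ) (v : Fin 2 → K) (hv : v ≠ 0) :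
    ∃ σ, ∀ c : K, (ρ σ).val *ᵥ v ≠ c • v :=
  one_no_stable_line h5 hk (FA.OrdinaryCount.Summary.even_of_class h5 even_two h)
    (FA.WeightTwoOrdinary.Summary.class_two_cast h) φ hF hu h0 hρ hv

/-- **An irreducible representation for each such form.** -/
theorem ordinary_irreducible_representation (h5 : 5 ≤ p) {k : ℕ} (hk : 3 ≤ k)
    (h : k ≡ 2 [MOD p - 1]) {ι : ℚ_[p] →+* ℂ} (φ : ↥(intNums ι) →+* K)
    {F : ModularForm 𝒮ℒ (k : ℤ)} (hF : IsEigenForm F) (hu : IsUnitAt ι F)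
    (h0 : (qExpansion 1 ⇑F).coeff 0 = 0) :
    ∃ ρ : GQ →* GL (Fin 2) K, IsResidualRep φ F ρ ∧
      ∀ v : Fin 2 → K, v ≠ 0 → ∃ σ, ∀ c : K, (ρ σ).val *ᵥ v ≠ c • v := by
  obtain ⟨ρ, hρ⟩ := FA.WeightTwoOrdinaryGalois.Summary.residual_representation h5 hk h φ hF hu h0
  exact ⟨ρ, hρ, ordinary_irreducible h5 hk h φ hF hu h0 hρ⟩

end FA.WeightTwoIrreducible.Summary

end
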