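import Fermat.Agent.WeightTwoOrdinary.Classes
import Fermat.Agent.Root.SummaryWeightTwoIrreducible

/-!
# Summary: multiplicity one and uniqueness at `l = p`, `p ≥ 5`

`K` is any field of characteristic `p`, `φ : B → K` a ring map, `P` its kernel; `IsConjRep ρ ρ'` is
conjugacy in `GL₂(K)` (`isConjRep_iff`); `k, m ≥ 3` are congruent to `2` modulo `p - 1`.

* `level_p_multiplicity_one`, `ordinary_multiplicity_one`: normalised eigenforms of `S₂(Γ₀(p))`, or
  ordinary cuspidal eigenforms of level one in such weights, congruent modulo `P` at almost all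
  primes are congruent at every `n`, `a_p` included;
* `level_p_conjugate`, `ordinary_conjugate_iff`: representations attached to congruent forms are
  conjugate over `K`, and only congruent forms have conjugate ones;
* `conjugacy_classes`: so these representations, in all weights, form as many classes as there are
  residual systems of weight two and level `p`: at most `g`, exactly `g` when `p` does not divide
  the discriminant of the Hecke algebra (`systems_card`), one for `p = 11` (`eleven_one_class`).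

Not proved here: the restriction to the decomposition group at `p`; the other classes.
-/

set_option autoImplicit false
set_option synthInstance.maxHeartbeats 400000

noncomputable section

open UpperHalfPlane hiding I
open PowerSeries CongruenceSubgroup IsLocalRing
open scoped MatrixGroups ModularForm

namespace FA.WeightTwoMultiplicityOne.Summary

open FA.OrdinaryCount FA.OrdinaryCongruence FA.WeightTwoOrdinary

local notation "ZB" => integralClosure ℤ ℂ
local notation "Qb" => AlgebraicClosure ℚ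
local notation "GQ" => AlgebraicClosure ℚ ≃ₐ[ℚ] AlgebraicClosure ℚ

variable {p : ℕ} [Fact p.Prime] {k m : ℕ} {ι : ℚ_[p] →+* ℂ} {K : Type} [Field K]

/-- The definition, written out. -/
theorem isConjRep_iff (ρ ρ' : GQ →* GL (Fin 2) K) :
    IsConjRep ρ ρ' ↔ ∃ Q : GL (Fin 2) K, ∀ σ, ρ' σ = Q * ρ σ * Q⁻¹ :=
  Iff.rfl

omit [Fact p.Prime] in
/-- The definition, written out. -/
theorem isTwoRep_iff (φ : ZB →+* K) (g : CuspForm (Gamma0 p) 2) (ρ : GQ →* GL (Fin 2) K) :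
    IsTwoRep φ g ρ ↔ IsOpen (ρ.ker : Set GQ) ∧ ∀ l : ℕ, l.Prime → l ≠ p →
      ∀ A : ValuationSubring Qb, (l : Qb) ∈ A.nonunits →
        (∀ σ ∈ A.inertiaSubgroup ℚ, ρ σ = 1) ∧
        ∀ σ : A.decompositionSubgroup ℚ, (∀ x : ResidueField A, σ • x = x ^ l) →
          ∃ c : ZB, (c : ℂ) = ModularFormClass.qCoeff g l ∧
            (ρ σ).val.trace = φ c ∧ (ρ σ).val.det = (l : K) :=
  Iff.rfl

variable [CharP K p]

/-- **Multiplicity one modulo `p` at level `p`.** -/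
theorem level_p_multiplicity_one (φ : ZB →+* K) {g g' : CuspForm (Gamma0 p) 2}
    (hg : g.IsNormalizedEigenform) (hg' : g'.IsNormalizedEigenform) (S : Finset ℕ)
    (h : ∀ l : ℕ, l.Prime → l ∉ S → ∀ c c' : ZB, (c : ℂ) = ModularFormClass.qCoeff g l →
      (c' : ℂ) = ModularFormClass.qCoeff g' l → φ c = φ c') (n : ℕ) (c c' : ZB)
    (hc : (c : ℂ) = ModularFormClass.qCoeff g n) (hc' : (c' : ℂ) = ModularFormClass.qCoeff g' n) :
    φ c = φ c' :=
  two_eq_of_almost_all φ hg hg' S h n c c' hc hc'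

/-- **Multiplicity one for the ordinary forms.** -/
theorem ordinary_multiplicity_one (h5 : 5 ≤ p) (hk : 3 ≤ k) (hm : 3 ≤ m) (h : k ≡ 2 [MOD p - 1])
    (h' : m ≡ 2 [MOD p - 1]) (φ : ↥(intNums ι) →+* K) {F : ModularForm 𝒮ℒ (k : ℤ)}
    {G : ModularForm 𝒮ℒ (m : ℤ)} (hF : IsEigenForm F) (hFu : IsUnitAt ι F)
    (hF0 : (qExpansion 1 ⇑F).coeff 0 = 0) (hG : IsEigenForm G) (hGu : IsUnitAt ι G)
    (hG0 : (qExpansion 1 ⇑G).coeff 0 = 0) (S : Finset ℕ)
    (hc : ∀ l : ℕ, l.Prime → l ∉ S → ∃ u : ↥(intNums ι), φ u = 0 ∧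
      (u : ℂ) = (qExpansion 1 ⇑F).coeff l - (qExpansion 1 ⇑G).coeff l) (n : ℕ) :
    ∃ u : ↥(intNums ι), φ u = 0 ∧
      (u : ℂ) = (qExpansion 1 ⇑F).coeff n - (qExpansion 1 ⇑G).coeff n :=
  one_eq_of_almost_all h5 hk hm (FA.OrdinaryCount.Summary.even_of_class h5 even_two h)
    (FA.OrdinaryCount.Summary.even_of_class h5 even_two h')
    (FA.WeightTwoOrdinary.Summary.class_two_cast h) (FA.WeightTwoOrdinary.Summary.class_two_cast h')
    φ hF hFu hF0 hG hGu hG0 S hc n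

/-- **Congruent forms of level `p`, conjugate representations.** -/
theorem level_p_conjugate (h5 : 5 ≤ p) (φ : ZB →+* K) {g g' : CuspForm (Gamma0 p) 2}
    (hg : g.IsNormalizedEigenform) {ρ ρ' : GQ →* GL (Fin 2) K} (hρ : IsTwoRep φ g ρ)
    (hρ' : IsTwoRep φ g' ρ') (S : Finset ℕ)
    (h : ∀ l : ℕ, l.Prime → l ∉ S → ∀ c c' : ZB, (c : ℂ) = ModularFormClass.qCoeff g l →
      (c' : ℂ) = ModularFormClass.qCoeff g' l → φ c = φ c') : IsConjRep ρ ρ' :=
  two_conj h5 φ hg hρ hρ' S h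

/-- **Conjugate exactly when congruent.** -/
theorem ordinary_conjugate_iff (h5 : 5 ≤ p) (hk : 3 ≤ k) (hm : 3 ≤ m) (h : k ≡ 2 [MOD p - 1])
    (h' : m ≡ 2 [MOD p - 1]) (φ : ↥(intNums ι) →+* K) {F : ModularForm 𝒮ℒ (k : ℤ)}
    {G : ModularForm 𝒮ℒ (m : ℤ)} (hF : IsEigenForm F) (hFu : IsUnitAt ι F)
    (hF0 : (qExpansion 1 ⇑F).coeff 0 = 0) (hG : IsEigenForm G) (hGu : IsUnitAt ι G)
    (hG0 : (qExpansion 1 ⇑G).coeff 0 = 0) {ρ ρ' : GQ →* GL (Fin 2) K}
    (hρ : IsResidualRep φ F ρ) (hρ' : IsResidualRep φ G ρ') :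
    IsConjRep ρ ρ' ↔ ∀ n, ∃ u : ↥(intNums ι), φ u = 0 ∧
      (u : ℂ) = (qExpansion 1 ⇑F).coeff n - (qExpansion 1 ⇑G).coeff n :=
  one_conj_iff h5 hk hm (FA.OrdinaryCount.Summary.even_of_class h5 even_two h)
    (FA.OrdinaryCount.Summary.even_of_class h5 even_two h')
    (FA.WeightTwoOrdinary.Summary.class_two_cast h) (FA.WeightTwoOrdinary.Summary.class_two_cast h')
    φ hF hFu hF0 hG hGu hG0 hρ hρ'

/-- **The number of representations up to conjugacy.** -/
theorem conjugacy_classes (h5 : 5 ≤ p) (φ : ↥(intNums ι) →+* K) :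
    ∃ S : Set (GQ →* GL (Fin 2) K), S.Finite ∧
      S.ncard = (FA.WeightTwoOrdinary.Summary.twoSystems ι (RingHom.ker φ)).ncard ∧
      S.ncard ≤ Module.finrank ℂ (CuspForm (Gamma0 p) 2) ∧
      (∀ ρ ∈ S, ∀ ρ' ∈ S, IsConjRep ρ ρ' → ρ = ρ') ∧
      (∀ k : ℕ, 3 ≤ k → k ≡ 2 [MOD p - 1] → ∀ F : ModularForm 𝒮ℒ (k : ℤ), IsEigenForm F →
        IsUnitAt ι F → (qExpansion 1 ⇑F).coeff 0 = 0 → ∀ ρ', IsResidualRep φ F ρ' →
          ∃ ρ ∈ S, IsConjRep ρ ρ') ∧
      ∀ ρ ∈ S, ∀ k : ℕ, 3 ≤ k → k ≡ 2 [MOD p - 1] →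
        ∃ F : ModularForm 𝒮ℒ (k : ℤ), IsEigenForm F ∧ IsUnitAt ι F ∧
          (qExpansion 1 ⇑F).coeff 0 = 0 ∧ IsResidualRep φ F ρ := by
  obtain ⟨S, hfin, hcard, hpair, hall, hback⟩ := exists_classes h5 φ
  exact ⟨S, hfin, hcard, hcard ▸ (twoSystems_finite _).2, hpair,
    fun k hk h => hall k hk (FA.OrdinaryCount.Summary.even_of_class h5 even_two h)
      (FA.WeightTwoOrdinary.Summary.class_two_cast h),
    fun ρ hρ k hk h => hback ρ hρ k hk (FA.WeightTwoOrdinary.Summary.class_two_cast h)⟩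

open scoped Classical in
omit [CharP K p] in
/-- **Exactly `g` systems** unless `p` divides the discriminant of the Hecke algebra. -/
theorem systems_card (P : Ideal ↥(intNums ι)) [P.IsPrime] (hp : (p : ↥(intNums ι)) ∈ P)
    {ν : Type} [Fintype ν] (b : Module.Basis ν ℤ (FA.Mazur.TAlg p))
    (hd : ¬(p : ℤ) ∣ Algebra.discr ℤ b) :
    (FA.WeightTwoOrdinary.Summary.twoSystems ι P).ncard =
      Module.finrank ℂ (CuspForm (Gamma0 p) 2) :=
  twoSystems_card P hp b hd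

/-- **`p = 11`: one representation.** -/
theorem eleven_one_class (_ : Fact (Nat.Prime 11)) (ι : ℚ_[11] →+* ℂ) {K : Type} [Field K]
    [CharP K 11] (φ : ↥(intNums ι) →+* K) (hk : 3 ≤ k) (hm : 3 ≤ m) (h : k ≡ 2 [MOD 10])
    (h' : m ≡ 2 [MOD 10]) {F : ModularForm 𝒮ℒ (k : ℤ)} {G : ModularForm 𝒮ℒ (m : ℤ)}
    (hF : IsEigenForm F) (hFu : IsUnitAt ι F) (hF0 : (qExpansion 1 ⇑F).coeff 0 = 0)
    (hG : IsEigenForm G) (hGu : IsUnitAt ι G) (hG0 : (qExpansion 1 ⇑G).coeff 0 = 0)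
    {ρ ρ' : GQ →* GL (Fin 2) K} (hρ : IsResidualRep φ F ρ) (hρ' : IsResidualRep φ G ρ') :
    IsConjRep ρ ρ' := by
  obtain ⟨S, hfin, hcard, -, hall, -⟩ := exists_classes (p := 11) (by norm_num) φ
  rw [twoSystems_eleven ‹_› ι, Set.ncard_eq_one] at hcard
  obtain ⟨r, rfl⟩ := hcard
  obtain ⟨a, rfl, ha⟩ := hall k hk (FA.OrdinaryCount.Summary.even_of_class (p := 11)
    (by norm_num) even_two h) (FA.WeightTwoOrdinary.Summary.class_two_cast h) F hF hFu hF0 ρ hρ
  obtain ⟨b, rfl, hb⟩ := hall m hm (FA.OrdinaryCount.Summary.even_of_class (p := 11)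
    (by norm_num) even_two h') (FA.WeightTwoOrdinary.Summary.class_two_cast h') G hG hGu hG0 ρ' hρ'
  obtain ⟨Q, hQ⟩ := ha.symm
  obtain ⟨Q', hQ'⟩ := hb
  exact ⟨Q' * Q, fun σ => by rw [hQ', hQ]; group⟩

end FA.WeightTwoMultiplicityOne.Summary

end
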