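import Fermat.Agent.WeightTwoOrdinary.Twist
import Fermat.Agent.Root.SummaryWeightTwoMultiplicityOne
import Mathlib.GroupTheory.SpecificGroups.Dihedral

/-!
# Summary: no self-twist at `l = p`, `p ≥ 5`

`g` is a normalised eigenform of weight two for `Γ₀(p)`, `K` a field of characteristic `p`, `φ` a
map of the algebraic integers to `K` and `ρ` a representation attached to `g` (`isTwoRep_iff`).

* `twist_congruence`: for `j` not a multiple of `p - 1` some prime `l ≠ p` has `lʲ a_l ≢ a_l`;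
* `no_self_twist`: no character `χ ≠ 1` has `χ · tr ρ = tr ρ`;
* `trace_nonzero`: for a character `χ ≠ 1` with open kernel and finitely many primes excepted, some
  prime has `a_l ≢ 0` and `χ` not one at its Frobenius elements;
* `irreducible_abelian`: on a normal subgroup with abelian quotient `ρ` has no stable line over any
  extension of `K`; so on the fixer of `μ_p` (`irreducible_cyclotomic`, the hypothesis of Taylor
  and Wiles) and on every subgroup of index two (`irreducible_index_two`);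
* `projective_not_abelian`, `projective_not_dihedral`: the projective image is neither;
* `ordinary_irreducible_abelian`, `ordinary_twist_congruence`: the same for the ordinary cuspidal
  eigenforms of level one and weight `k ≡ 2` modulo `p - 1`, `k ≥ 3`.

Not proved here: that the image is not of type `A₄`, `S₄` or `A₅`; the local shape at `p`.
-/

set_option autoImplicit false
set_option synthInstance.maxHeartbeats 400000

noncomputable section

open UpperHalfPlane hiding I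
open PowerSeries CongruenceSubgroup IsLocalRing Matrix
open scoped MatrixGroups ModularForm

namespace FA.WeightTwoSelfTwist.Summary

open FA.OrdinaryCount FA.OrdinaryCongruence FA.WeightTwoOrdinary

local notation "ZB" => integralClosure ℤ ℂ
local notation "Qb" => AlgebraicClosure ℚ
local notation "GQ" => AlgebraicClosure ℚ ≃ₐ[ℚ] AlgebraicClosure ℚ

variable {p : ℕ} [Fact p.Prime] {K : Type} [Field K] [CharP K p]

/-- **No twist of the system.** -/
theorem twist_congruence (h5 : 5 ≤ p) (φ : ZB →+* K) {g : CuspForm (Gamma0 p) 2}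
    (hg : g.IsNormalizedEigenform) {j : ℕ} (hj : ¬p - 1 ∣ j) :
    ∃ l : ℕ, l.Prime ∧ l ≠ p ∧ ∀ c : ZB, (c : ℂ) = ModularFormClass.qCoeff g l →
      (l : K) ^ j * φ c ≠ φ c :=
  two_twist_values h5 φ hg hj

/-- **No self-twist.** -/
theorem no_self_twist (h5 : 5 ≤ p) (φ : ZB →+* K) {g : CuspForm (Gamma0 p) 2}
    (hg : g.IsNormalizedEigenform) {ρ : GQ →* GL (Fin 2) K} (hρ : IsTwoRep φ g ρ)
    (χ : GQ →* Kˣ) (h : ∀ σ, (χ σ : K) * (ρ σ).val.trace = (ρ σ).val.trace) : χ = 1 :=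
  two_no_selfTwist h5 φ hg hρ χ h

/-- **Nonvanishing where a character is not trivial**: for instance at inert primes. -/
theorem trace_nonzero (h5 : 5 ≤ p) (φ : ZB →+* K) {g : CuspForm (Gamma0 p) 2}
    (hg : g.IsNormalizedEigenform) {M : Type} [CommGroup M] (χ : GQ →* M)
    (hχ : IsOpen (χ.ker : Set GQ)) (hne : χ ≠ 1) (S : Finset ℕ) :
    ∃ l : ℕ, l.Prime ∧ l ∉ S ∧ l ≠ p ∧
      (∃ c : ZB, (c : ℂ) = ModularFormClass.qCoeff g l ∧ φ c ≠ 0) ∧
      ∀ A : ValuationSubring Qb, A.LiesOverPrime l → ∀ τ : GQ, A.IsFrobeniusAt τ l → χ τ ≠ 1 :=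
  two_trace_ne_zero h5 φ hg χ hχ hne S

/-- **Absolutely irreducible on subgroups with abelian quotient.** -/
theorem irreducible_abelian (h5 : 5 ≤ p) (φ : ZB →+* K) {g : CuspForm (Gamma0 p) 2}
    (hg : g.IsNormalizedEigenform) {ρ : GQ →* GL (Fin 2) K} (hρ : IsTwoRep φ g ρ)
    (H : Subgroup GQ) [H.Normal] (hab : ∀ σ τ : GQ, σ * τ * σ⁻¹ * τ⁻¹ ∈ H) (L : Type) [Field L]
    [Algebra K L] {v : Fin 2 → L} (hv : v ≠ 0) :
    ∃ σ ∈ H, ∀ c : L, (ρ σ).val.map (algebraMap K L) *ᵥ v ≠ c • v :=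
  two_no_line_abelian h5 φ hg hρ H hab L hv

/-- **The hypothesis of Taylor and Wiles**: absolutely irreducible over `ℚ(μ_p)`. -/
theorem irreducible_cyclotomic (h5 : 5 ≤ p) (φ : ZB →+* K) {g : CuspForm (Gamma0 p) 2}
    (hg : g.IsNormalizedEigenform) {ρ : GQ →* GL (Fin 2) K} (hρ : IsTwoRep φ g ρ) (L : Type)
    [Field L] [Algebra K L] {v : Fin 2 → L} (hv : v ≠ 0) :
    ∃ σ, FA.Weight1.cycM p σ = 1 ∧ ∀ c : L, (ρ σ).val.map (algebraMap K L) *ᵥ v ≠ c • v := by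
  obtain ⟨σ, hσ, h⟩ := two_no_line_abelian h5 φ hg hρ (FA.Weight1.cycM p).ker (fun σ τ => by
    rw [MonoidHom.mem_ker, map_mul, map_mul, map_mul, map_inv, map_inv,
      mul_comm (FA.Weight1.cycM p σ), mul_inv_cancel_right, mul_inv_cancel]) L hv
  exact ⟨σ, hσ, h⟩

/-- **Absolutely irreducible on every subgroup of index two.** -/
theorem irreducible_index_two (h5 : 5 ≤ p) (φ : ZB →+* K) {g : CuspForm (Gamma0 p) 2}
    (hg : g.IsNormalizedEigenform) {ρ : GQ →* GL (Fin 2) K} (hρ : IsTwoRep φ g ρ)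
    (H : Subgroup GQ) (hH : H.index = 2) (L : Type) [Field L] [Algebra K L] {v : Fin 2 → L}
    (hv : v ≠ 0) : ∃ σ ∈ H, ∀ c : L, (ρ σ).val.map (algebraMap K L) *ᵥ v ≠ c • v := by
  have : H.Normal := Subgroup.normal_of_index_eq_two hH
  refine two_no_line_abelian h5 φ hg hρ H (fun σ τ => ?_) L hv
  rw [Subgroup.mul_mem_iff_of_index_two hH, Subgroup.mul_mem_iff_of_index_two hH,
    Subgroup.mul_mem_iff_of_index_two hH, H.inv_mem_iff, H.inv_mem_iff]
  tauto

/-- **The projective image is not abelian.** -/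
theorem projective_not_abelian (h5 : 5 ≤ p) (φ : ZB →+* K) {g : CuspForm (Gamma0 p) 2}
    (hg : g.IsNormalizedEigenform) {ρ : GQ →* GL (Fin 2) K} (hρ : IsTwoRep φ g ρ) :
    ∃ σ τ : GQ, ∀ c : K, (ρ σ).val * (ρ τ).val ≠ c • ((ρ τ).val * (ρ σ).val) :=
  two_projective_not_comm h5 φ hg hρ

/-- **The projective image is not dihedral.** -/
theorem projective_not_dihedral (h5 : 5 ≤ p) (φ : ZB →+* K) {g : CuspForm (Gamma0 p) 2}
    (hg : g.IsNormalizedEigenform) {ρ : GQ →* GL (Fin 2) K} (hρ : IsTwoRep φ g ρ) (n : ℕ) :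
    IsEmpty (((QuotientGroup.mk' (Subgroup.center (GL (Fin 2) K))).comp ρ).range ≃*
      DihedralGroup n) := by
  refine ⟨fun e => ?_⟩
  obtain ⟨f, hf⟩ : ∃ f : GQ →* DihedralGroup n, f = e.toMonoidHom.comp
      ((QuotientGroup.mk' (Subgroup.center (GL (Fin 2) K))).comp ρ).rangeRestrict := ⟨_, rfl⟩
  have hfs : Function.Surjective f := by
    rw [hf]
    exact e.surjective.comp (MonoidHom.rangeRestrict_surjective _)
  obtain ⟨R, hR⟩ : ∃ R : Subgroup (DihedralGroup n), R = Subgroup.zpowers (DihedralGroup.r 1) :=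
    ⟨_, rfl⟩
  have hr : ∀ i : ZMod n, DihedralGroup.r i ∈ R := fun i => by
    obtain ⟨z, rfl⟩ := ZMod.intCast_surjective i
    exact hR ▸ ⟨z, by simp⟩
  have hcomm : ∀ a b : DihedralGroup n, a * b * a⁻¹ * b⁻¹ ∈ R := by
    rintro (i | i) (j | j) <;> simp [hr]
  have : (R.comap f).Normal := by
    have : R.Normal := ⟨fun x hx y => by
      have := R.mul_mem (hcomm y x) hx
      rwa [inv_mul_cancel_right] at this⟩
    infer_instance
  obtain ⟨σ, hσ, τ, hτ, hne⟩ := two_not_comm h5 φ hg hρ (R.comap f) fun σ τ => by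
    rw [Subgroup.mem_comap, map_mul, map_mul, map_mul, map_inv, map_inv]
    exact hcomm _ _
  obtain ⟨σ₁, hσ₁⟩ := hfs (DihedralGroup.r 1)
  have hcen : ∀ x ∈ R.comap f, ∃ z ∈ Subgroup.center (GL (Fin 2) K), ∃ i : ℤ,
      ρ x = ρ σ₁ ^ i * z := fun x hx => by
    obtain ⟨i, hi⟩ := Subgroup.mem_zpowers_iff.1 (hR ▸ Subgroup.mem_comap.1 hx)
    refine ⟨(ρ σ₁ ^ i)⁻¹ * ρ x, ?_, i, by group⟩
    rw [← QuotientGroup.eq_one_iff, QuotientGroup.mk_mul, QuotientGroup.mk_inv, inv_mul_eq_one]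
    have h : f (σ₁ ^ i) = f x := by rw [map_zpow, hσ₁, hi]
    rw [hf] at h
    have h' := congrArg Subtype.val (e.injective h)
    simpa [map_zpow] using h'
  obtain ⟨a, ha, i, hi⟩ := hcen σ hσ
  obtain ⟨b, hb, j, hj⟩ := hcen τ hτ
  rw [Subgroup.mem_center_iff] at ha hb
  refine hne ?_
  rw [hi, hj]
  calc ρ σ₁ ^ i * a * (ρ σ₁ ^ j * b) = ρ σ₁ ^ i * (a * ρ σ₁ ^ j) * b := by group
    _ = ρ σ₁ ^ i * (ρ σ₁ ^ j * a) * b := by rw [ha]
    _ = ρ σ₁ ^ (i + j) * (a * b) := by group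
    _ = ρ σ₁ ^ (j + i) * (b * a) := by rw [add_comm i j, hb a]
    _ = ρ σ₁ ^ j * (ρ σ₁ ^ i * b) * a := by group
    _ = ρ σ₁ ^ j * (b * ρ σ₁ ^ i) * a := by rw [hb (ρ σ₁ ^ i)]
    _ = ρ σ₁ ^ j * b * (ρ σ₁ ^ i * a) := by group

variable {k : ℕ} {ι : ℚ_[p] →+* ℂ}

/-- **The ordinary forms of level one.** -/
theorem ordinary_irreducible_abelian (h5 : 5 ≤ p) (hk : 3 ≤ k) (h : k ≡ 2 [MOD p - 1])
    (φ : ↥(intNums ι) →+* K) {F : ModularForm 𝒮ℒ (k : ℤ)} (hF : IsEigenForm F)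
    (hu : IsUnitAt ι F) (h0 : (qExpansion 1 ⇑F).coeff 0 = 0) {ρ : GQ →* GL (Fin 2) K}
    (hρ : IsResidualRep φ F ρ) (H : Subgroup GQ) [H.Normal]
    (hab : ∀ σ τ : GQ, σ * τ * σ⁻¹ * τ⁻¹ ∈ H) (L : Type) [Field L] [Algebra K L] {v : Fin 2 → L}
    (hv : v ≠ 0) : ∃ σ ∈ H, ∀ c : L, (ρ σ).val.map (algebraMap K L) *ᵥ v ≠ c • v := by
  have hP := RingHom.ker_isPrime φ
  obtain ⟨g, hg, hc⟩ := exists_two_of_one h5 hk
    (FA.OrdinaryCount.Summary.even_of_class h5 even_two h)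
    (FA.WeightTwoOrdinary.Summary.class_two_cast h) ι (RingHom.ker φ) (natCast_mem_ker φ) hF hu h0
  exact two_no_line_abelian h5 (φ.comp (algEmb ι)) hg (isTwoRep_of_isResidualRep (by omega)
    (FA.WeightTwoOrdinary.Summary.class_two_cast h) φ hg (fun l hl => hc l hl.one_le) hρ) H hab L hv

/-- **No twist of an ordinary form modulo `p`.** -/
theorem ordinary_twist_congruence (h5 : 5 ≤ p) (hk : 3 ≤ k) (h : k ≡ 2 [MOD p - 1])
    (φ : ↥(intNums ι) →+* K) {F : ModularForm 𝒮ℒ (k : ℤ)} (hF : IsEigenForm F)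
    (hu : IsUnitAt ι F) (h0 : (qExpansion 1 ⇑F).coeff 0 = 0) {j : ℕ} (hj : ¬p - 1 ∣ j) :
    ∃ l : ℕ, l.Prime ∧ l ≠ p ∧ ∀ b : ↥(intNums ι), (b : ℂ) = (qExpansion 1 ⇑F).coeff l →
      (l : K) ^ j * φ b ≠ φ b := by
  have hP := RingHom.ker_isPrime φ
  obtain ⟨g, hg, hc⟩ := exists_two_of_one h5 hk
    (FA.OrdinaryCount.Summary.even_of_class h5 even_two h)
    (FA.WeightTwoOrdinary.Summary.class_two_cast h) ι (RingHom.ker φ) (natCast_mem_ker φ) hF hu h0
  obtain ⟨l, hl, hlp, hne⟩ := two_twist_values h5 (φ.comp (algEmb ι)) hg hj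
  refine ⟨l, hl, hlp, fun b hb => ?_⟩
  obtain ⟨u, hu', hue⟩ := hc l hl.one_le
  obtain ⟨c, hc'⟩ : ∃ c : ZB, (c : ℂ) = FA.Deform.qLin p g l :=
    ⟨⟨_, FA.Root.isIntegral_qCoeff_eigenform hg l⟩, rfl⟩
  have e : b = algEmb ι c + u := Subtype.ext (by
    rw [Subring.coe_add, hue, hb, show ((algEmb ι c : ↥(intNums ι)) : ℂ) = (c : ℂ) from rfl, hc',
      add_sub_cancel])
  rw [e, map_add, RingHom.mem_ker.1 hu', add_zero]
  exact hne c hc'

end FA.WeightTwoSelfTwist.Summary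

end
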