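import Fermat.Agent.WeightTwoOrdinary.LocalShapeImage
import Fermat.Agent.Root.SummaryWeightTwoSelfTwist

/-!
# Summary: the local shape of `J₀(p)[p]` at `p` and the image modulo `p`, `p ≥ 5`

`θ` is a system modulo `p` of the Hecke algebra of level `p` with values in a field `k` and `r` a
representation of `G_ℚ` with open kernel and the traces and determinants of `θ` at almost all
primes; `A` is a place over `p`.

* `displacement_cyclotomic`: for `σ`, `τ` in inertia at `p`, `σ ζ = ζ ^ m`, and `x` in `J₀(p)[p]`,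
  `σ (τ x - x) = m (τ x - x)`: the displacements by inertia carry the cyclotomic character;
* `inertia_relation`, `ordinary_at_level`, `inertia_projective_order`: `(r σ - m) (r τ - 1) = 0`,
  `r` is ordinary at `A` and some element of inertia has projective order exactly `p - 1`;
* `image_order_p`, `projective_not_exceptional`, `full_image`, `not_flat_at_level`: the image has
  an element of order `p`, the projective image is none of `A₄`, `S₄`, `A₅`; for `k = 𝔽_p` the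
  image is all of `GL₂(𝔽_p)` and `r` is not finite flat at `A`;
* `form_ordinary`, `form_order_p`, `form_not_exceptional`, `form_full_image`: the same for the
  representations attached modulo `p` to the normalised eigenforms of `S₂(Γ₀(p))`;
* `level_one_ordinary_shape`, `level_one_full_image`: and to the ordinary cuspidal eigenforms of
  level one and weight `k ≥ 3`, `k ≡ 2` modulo `p - 1`.

Not proved here: the unramified character on the quotient; finite flatness over larger fields;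
that the image contains `SL₂` of the field of the traces.
-/

set_option autoImplicit false
set_option synthInstance.maxHeartbeats 400000
set_option maxHeartbeats 1000000

noncomputable section

open UpperHalfPlane hiding I
open ModularCurve FA.Mazur FA.JTorsion FA.LocalDef CongruenceSubgroup
open scoped Matrix MatrixGroups ModularForm

namespace FA.LocalShapeJZero.Summary

open FA.OrdinaryCount FA.OrdinaryCongruence FA.WeightTwoOrdinary

local notation "ZB" => integralClosure ℤ ℂ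
local notation "Qb" => AlgebraicClosure ℚ
local notation "GQ" => AlgebraicClosure ℚ ≃ₐ[ℚ] AlgebraicClosure ℚ

variable {p : ℕ} [Fact p.Prime]

/-- **The displacements by inertia at `p` in `J₀(p)[p]`.** -/
theorem displacement_cyclotomic {A : ValuationSubring Qb} (hA : A.LiesOverPrime p) {ζ : Qb}
    (hζ : IsPrimitiveRoot ζ p) {σ τ : GQ} (hσ : σ ∈ A.inertiaSubgroupIn ℚ)
    (hτ : τ ∈ A.inertiaSubgroupIn ℚ) {m : ℕ} (hm : σ ζ = ζ ^ m) {x : JZero p} (hx : p • x = 0) :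
    σ • (τ • x - x) = m • (τ • x - x) :=
  smul_displacement hA hζ hσ hτ hm hx

variable {k : Type} [Field k] [CharP k p]

/-- **The relation on inertia.** -/
theorem inertia_relation (h5 : 5 ≤ p) (θ : TAlg p →+* k) (r : GQ →* Matrix (Fin 2) (Fin 2) k)
    (hopen : IsOpen (r.ker : Set GQ)) (S : Finset ℕ)
    (hr : ∀ q : Nat.Primes, (q : ℕ) ∉ S → (q : ℕ) ≠ p →
      ∀ A : ValuationSubring Qb, A.LiesOverPrime q → ∀ σ : GQ, A.IsFrobeniusAt σ q →
        (r σ).trace = θ (tGen p q) ∧ (r σ).det = ((q : ℕ) : k))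
    {A : ValuationSubring Qb} (hA : A.LiesOverPrime p) {ζ : Qb} (hζ : IsPrimitiveRoot ζ p)
    {σ τ : GQ} (hσ : σ ∈ A.inertiaSubgroupIn ℚ) (hτ : τ ∈ A.inertiaSubgroupIn ℚ) {m : ℕ}
    (hm : σ ζ = ζ ^ m) : (r σ - (m : k) • 1) * (r τ - 1) = 0 :=
  IsSystemRep.inertia_relation (θ := θ) (S := S) ⟨hopen, hr⟩ h5 hA hζ hσ hτ hm

/-- **Ordinary at `p`**: a stable line with unramified quotient, cyclotomic on inertia. -/
theorem ordinary_at_level (h5 : 5 ≤ p) (θ : TAlg p →+* k) (r : GQ →* Matrix (Fin 2) (Fin 2) k)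
    (hopen : IsOpen (r.ker : Set GQ)) (S : Finset ℕ)
    (hr : ∀ q : Nat.Primes, (q : ℕ) ∉ S → (q : ℕ) ≠ p →
      ∀ A : ValuationSubring Qb, A.LiesOverPrime q → ∀ σ : GQ, A.IsFrobeniusAt σ q →
        (r σ).trace = θ (tGen p q) ∧ (r σ).det = ((q : ℕ) : k))
    {A : ValuationSubring Qb} (hA : A.LiesOverPrime p) :
    IsOrdType A r ∧ ∀ ζ : Qb, IsPrimitiveRoot ζ p → ∃ v : Fin 2 → k, v ≠ 0 ∧
      (∀ δ ∈ A.decompositionSubgroup ℚ, ∃ c : k, r δ *ᵥ v = c • v) ∧
      (∀ σ ∈ A.inertiaSubgroupIn ℚ, ∀ m : ℕ, σ ζ = ζ ^ m → r σ *ᵥ v = (m : k) • v) ∧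
      ∀ σ ∈ A.inertiaSubgroupIn ℚ, ∀ w, ∃ c : k, r σ *ᵥ w - w = c • v := by
  have h : IsSystemRep θ r S := ⟨hopen, hr⟩
  obtain ⟨ζ, hζ⟩ := FA.LocalDef.exists_zeta (Fact.out : p.Prime)
  obtain ⟨v, hv, hD, -, hI⟩ := h.exists_ordinary_line h5 hA hζ
  exact ⟨⟨v, hv, hD, hI⟩, fun ζ hζ => h.exists_ordinary_line h5 hA hζ⟩

/-- **An element of inertia of projective order `p - 1`.** -/
theorem inertia_projective_order (h5 : 5 ≤ p) (θ : TAlg p →+* k)
    (r : GQ →* Matrix (Fin 2) (Fin 2) k) (hopen : IsOpen (r.ker : Set GQ)) (S : Finset ℕ)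
    (hr : ∀ q : Nat.Primes, (q : ℕ) ∉ S → (q : ℕ) ≠ p →
      ∀ A : ValuationSubring Qb, A.LiesOverPrime q → ∀ σ : GQ, A.IsFrobeniusAt σ q →
        (r σ).trace = θ (tGen p q) ∧ (r σ).det = ((q : ℕ) : k))
    {A : ValuationSubring Qb} (hA : A.LiesOverPrime p) :
    ∃ σ ∈ A.inertiaSubgroupIn ℚ, ∀ n : ℕ, (∃ c : k, r σ ^ n = c • 1) ↔ p - 1 ∣ n := by
  obtain ⟨σ, hσ, h⟩ := IsSystemRep.exists_inertia_order (θ := θ) (S := S) ⟨hopen, hr⟩ h5 hA
  exact ⟨σ, hσ, fun n => ⟨fun ⟨c, hc⟩ => (h n).2 c hc,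
    fun hn => ⟨1, by rw [(h n).1 hn, one_smul]⟩⟩⟩

/-- **An element of order `p` in the image.** -/
theorem image_order_p (h5 : 5 ≤ p) (θ : TAlg p →+* k) (r : GQ →* Matrix (Fin 2) (Fin 2) k)
    (hopen : IsOpen (r.ker : Set GQ)) (S : Finset ℕ)
    (hr : ∀ q : Nat.Primes, (q : ℕ) ∉ S → (q : ℕ) ≠ p →
      ∀ A : ValuationSubring Qb, A.LiesOverPrime q → ∀ σ : GQ, A.IsFrobeniusAt σ q →
        (r σ).trace = θ (tGen p q) ∧ (r σ).det = ((q : ℕ) : k)) :
    ∃ g, r g ≠ 1 ∧ r g ^ p = 1 ∧ (r g - 1) * (r g - 1) = 0 :=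
  IsSystemRep.exists_order_p (θ := θ) (S := S) ⟨hopen, hr⟩ h5

/-- **No exceptional projective image.** -/
theorem projective_not_exceptional (h5 : 5 ≤ p) (θ : TAlg p →+* k) (ρ : GQ →* GL (Fin 2) k)
    (hopen : IsOpen (ρ.ker : Set GQ)) (S : Finset ℕ)
    (hr : ∀ q : Nat.Primes, (q : ℕ) ∉ S → (q : ℕ) ≠ p →
      ∀ A : ValuationSubring Qb, A.LiesOverPrime q → ∀ σ : GQ, A.IsFrobeniusAt σ q →
        (ρ σ).val.trace = θ (tGen p q) ∧ (ρ σ).val.det = ((q : ℕ) : k)) :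
    IsEmpty (((QuotientGroup.mk' (Subgroup.center (GL (Fin 2) k))).comp ρ).range ≃*
      alternatingGroup (Fin 4)) ∧
    IsEmpty (((QuotientGroup.mk' (Subgroup.center (GL (Fin 2) k))).comp ρ).range ≃*
      Equiv.Perm (Fin 4)) ∧
    IsEmpty (((QuotientGroup.mk' (Subgroup.center (GL (Fin 2) k))).comp ρ).range ≃*
      alternatingGroup (Fin 5)) :=
  IsSystemRep.not_exceptional (θ := θ) (S := S)
    ⟨Subgroup.isOpen_mono (fun σ hσ => MonoidHom.mem_ker.2 (by
      rw [MonoidHom.comp_apply, MonoidHom.mem_ker.1 hσ, map_one])) hopen, hr⟩ h5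

/-- **Over `𝔽_p` the image is `GL₂(𝔽_p)`.** -/
theorem full_image (h5 : 5 ≤ p) (θ : TAlg p →+* ZMod p)
    (r : GQ →* Matrix (Fin 2) (Fin 2) (ZMod p)) (hopen : IsOpen (r.ker : Set GQ)) (S : Finset ℕ)
    (hr : ∀ q : Nat.Primes, (q : ℕ) ∉ S → (q : ℕ) ≠ p →
      ∀ A : ValuationSubring Qb, A.LiesOverPrime q → ∀ σ : GQ, A.IsFrobeniusAt σ q →
        (r σ).trace = θ (tGen p q) ∧ (r σ).det = ((q : ℕ) : ZMod p))
    (X : Matrix (Fin 2) (Fin 2) (ZMod p)) : (∃ g, r g = X) ↔ X.det ≠ 0 := by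
  refine ⟨?_, fun hX => IsSystemRep.surjective (θ := θ) (S := S) ⟨hopen, hr⟩ h5 hX⟩
  rintro ⟨g, rfl⟩ h0
  have := congrArg Matrix.det (show r g * r g⁻¹ = 1 by rw [← map_mul, mul_inv_cancel, map_one])
  rw [Matrix.det_mul, h0, zero_mul, Matrix.det_one] at this
  exact zero_ne_one this

/-- **Over `𝔽_p` not finite flat at `p`.** -/
theorem not_flat_at_level (h5 : 5 ≤ p) (θ : TAlg p →+* ZMod p)
    (r : GQ →* Matrix (Fin 2) (Fin 2) (ZMod p)) (hopen : IsOpen (r.ker : Set GQ)) (S : Finset ℕ)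
    (hr : ∀ q : Nat.Primes, (q : ℕ) ∉ S → (q : ℕ) ≠ p →
      ∀ A : ValuationSubring Qb, A.LiesOverPrime q → ∀ σ : GQ, A.IsFrobeniusAt σ q →
        (r σ).trace = θ (tGen p q) ∧ (r σ).det = ((q : ℕ) : ZMod p))
    {A : ValuationSubring Qb} (hA : A.LiesOverPrime p) : ¬ IsFlatRes A r :=
  IsSystemRep.not_flat (θ := θ) (S := S) ⟨hopen, hr⟩ h5 hA

/-- **Eigenforms: ordinary at `p`.** -/
theorem form_ordinary (h5 : 5 ≤ p) (φ : ZB →+* k) {g : CuspForm (Gamma0 p) 2}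
    (hg : g.IsNormalizedEigenform) {ρ : GQ →* GL (Fin 2) k} (hρ : IsTwoRep φ g ρ)
    {A : ValuationSubring Qb} (hA : A.LiesOverPrime p) :
    IsOrdType A ((Units.coeHom _).comp ρ) := by
  obtain ⟨θ, h⟩ := exists_system_of_isTwoRep φ hg hρ
  exact (ordinary_at_level h5 θ _ h.1 ∅ h.2 hA).1

/-- **Eigenforms: an element of order `p`.** -/
theorem form_order_p (h5 : 5 ≤ p) (φ : ZB →+* k) {g : CuspForm (Gamma0 p) 2}
    (hg : g.IsNormalizedEigenform) {ρ : GQ →* GL (Fin 2) k} (hρ : IsTwoRep φ g ρ) :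
    ∃ σ, orderOf (ρ σ) = p := by
  obtain ⟨θ, h⟩ := exists_system_of_isTwoRep φ hg hρ
  obtain ⟨σ, hne, hpow, -⟩ := h.exists_order_p h5
  refine ⟨σ, orderOf_eq_prime (Units.ext (by
    rw [Units.val_pow_eq_pow_val]
    exact hpow)) fun e => hne ?_⟩
  rw [MonoidHom.comp_apply, e, map_one]

/-- **Eigenforms: no exceptional projective image.** -/
theorem form_not_exceptional (h5 : 5 ≤ p) (φ : ZB →+* k) {g : CuspForm (Gamma0 p) 2}
    (hg : g.IsNormalizedEigenform) {ρ : GQ →* GL (Fin 2) k} (hρ : IsTwoRep φ g ρ) :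
    IsEmpty (((QuotientGroup.mk' (Subgroup.center (GL (Fin 2) k))).comp ρ).range ≃*
      alternatingGroup (Fin 4)) ∧
    IsEmpty (((QuotientGroup.mk' (Subgroup.center (GL (Fin 2) k))).comp ρ).range ≃*
      Equiv.Perm (Fin 4)) ∧
    IsEmpty (((QuotientGroup.mk' (Subgroup.center (GL (Fin 2) k))).comp ρ).range ≃*
      alternatingGroup (Fin 5)) := by
  obtain ⟨θ, h⟩ := exists_system_of_isTwoRep φ hg hρ
  exact h.not_exceptional h5

/-- **Eigenforms with residues in `𝔽_p`: the image is `GL₂(𝔽_p)`.** -/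
theorem form_full_image (h5 : 5 ≤ p) (φ : ZB →+* ZMod p) {g : CuspForm (Gamma0 p) 2}
    (hg : g.IsNormalizedEigenform) {ρ : GQ →* GL (Fin 2) (ZMod p)} (hρ : IsTwoRep φ g ρ) :
    Function.Surjective ρ := fun X => by
  obtain ⟨θ, h⟩ := exists_system_of_isTwoRep φ hg hρ
  obtain ⟨σ, hσ⟩ := h.surjective h5 (X := X.val) ((Matrix.isUnit_iff_isUnit_det _).1 X.isUnit).ne_zero
  exact ⟨σ, Units.ext hσ⟩

variable {w : ℕ} {ι : ℚ_[p] →+* ℂ}

/-- **Level one: ordinary at `p`.** -/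
theorem level_one_ordinary_shape (h5 : 5 ≤ p) (hw : 3 ≤ w) (h : w ≡ 2 [MOD p - 1])
    (φ : ↥(intNums ι) →+* k) {F : ModularForm 𝒮ℒ (w : ℤ)} (hF : IsEigenForm F)
    (hu : IsUnitAt ι F) (h0 : (qExpansion 1 ⇑F).coeff 0 = 0) {ρ : GQ →* GL (Fin 2) k}
    (hρ : IsResidualRep φ F ρ) {A : ValuationSubring Qb} (hA : A.LiesOverPrime p) :
    IsOrdType A ((Units.coeHom _).comp ρ) ∧ ∃ σ, orderOf (ρ σ) = p := by
  have hP := RingHom.ker_isPrime φ
  obtain ⟨g, hg, hc⟩ := exists_two_of_one h5 hw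
    (FA.OrdinaryCount.Summary.even_of_class h5 even_two h)
    (FA.WeightTwoOrdinary.Summary.class_two_cast h) ι (RingHom.ker φ) (natCast_mem_ker φ) hF hu h0
  have hρ' := isTwoRep_of_isResidualRep (by omega) (FA.WeightTwoOrdinary.Summary.class_two_cast h)
    φ hg (fun l hl => hc l hl.one_le) hρ
  exact ⟨form_ordinary h5 _ hg hρ' hA, form_order_p h5 _ hg hρ'⟩

/-- **Level one with residues in `𝔽_p`: the image is `GL₂(𝔽_p)`.** -/
theorem level_one_full_image (h5 : 5 ≤ p) (hw : 3 ≤ w) (h : w ≡ 2 [MOD p - 1])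
    (φ : ↥(intNums ι) →+* ZMod p) {F : ModularForm 𝒮ℒ (w : ℤ)} (hF : IsEigenForm F)
    (hu : IsUnitAt ι F) (h0 : (qExpansion 1 ⇑F).coeff 0 = 0) {ρ : GQ →* GL (Fin 2) (ZMod p)}
    (hρ : IsResidualRep φ F ρ) : Function.Surjective ρ := by
  have hP := RingHom.ker_isPrime φ
  obtain ⟨g, hg, hc⟩ := exists_two_of_one h5 hw
    (FA.OrdinaryCount.Summary.even_of_class h5 even_two h)
    (FA.WeightTwoOrdinary.Summary.class_two_cast h) ι (RingHom.ker φ) (natCast_mem_ker φ) hF hu h0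
  exact form_full_image h5 _ hg (isTwoRep_of_isResidualRep (by omega)
    (FA.WeightTwoOrdinary.Summary.class_two_cast h) φ hg (fun l hl => hc l hl.one_le) hρ)

end FA.LocalShapeJZero.Summary
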