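import Fermat.Agent.WeightTwoOrdinary.NonSolvableTorsion
import Fermat.Agent.Root.SummaryLocalShapeJZero

/-!
# Summary: no `p`-torsion of `J₀(p)` over the solvable closure of `ℚ`, `p ≥ 5`

* `system_derived`, `system_not_solvable`: a representation with open kernel and the traces and
  determinants of a system modulo `p` of the Hecke algebra of level `p` at almost all primes is
  trivial on no term of the derived series of `G_ℚ`, so its image is not solvable;
* `form_not_solvable`, `level_one_not_solvable`: so for the eigenforms of `S₂(Γ₀(p))` and the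
  ordinary cuspidal eigenforms of level one and weight `k ≥ 3`, `k ≡ 2` modulo `p - 1`;
* `torsion_derived`, `torsion_solvable_quotient`, `torsion_solvable_extension`: a class of
  `p`-power order of `J₀(p)` fixed by a term of the derived series, by a normal subgroup with
  solvable quotient, or rational over a field inside a finite solvable Galois extension of `ℚ`,
  is zero; so a nonzero class of order `p` is rational over no such field
  (`torsion_field_not_solvable`).

Not proved here: the other primes.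
-/

set_option autoImplicit false
set_option linter.style.haveILetI false
set_option synthInstance.maxHeartbeats 400000
set_option maxHeartbeats 1000000

noncomputable section

open UpperHalfPlane hiding I
open ModularCurve FA.Mazur FA.JTorsion CongruenceSubgroup
open scoped Matrix MatrixGroups ModularForm

namespace FA.SolvableTorsionJZero.Summary

open FA.OrdinaryCount FA.OrdinaryCongruence FA.WeightTwoOrdinary

local notation "ZB" => integralClosure ℤ ℂ
local notation "Qb" => AlgebraicClosure ℚ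
local notation "GQ" => AlgebraicClosure ℚ ≃ₐ[ℚ] AlgebraicClosure ℚ

variable {p : ℕ} [Fact p.Prime] {k : Type} [Field k] [CharP k p]

/-- **Nontrivial on every term of the derived series.** -/
theorem system_derived (h5 : 5 ≤ p) (θ : TAlg p →+* k) (r : GQ →* Matrix (Fin 2) (Fin 2) k)
    (hopen : IsOpen (r.ker : Set GQ)) (S : Finset ℕ)
    (hr : ∀ q : Nat.Primes, (q : ℕ) ∉ S → (q : ℕ) ≠ p →
      ∀ A : ValuationSubring Qb, A.LiesOverPrime q → ∀ σ : GQ, A.IsFrobeniusAt σ q →
        (r σ).trace = θ (tGen p q) ∧ (r σ).det = ((q : ℕ) : k)) (n : ℕ) :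
    ∃ s ∈ derivedSeries GQ n, r s ≠ 1 :=
  IsSystemRep.derived_ne_one (θ := θ) (S := S) ⟨hopen, hr⟩ h5 n

/-- **The image is not solvable.** -/
theorem system_not_solvable (h5 : 5 ≤ p) (θ : TAlg p →+* k) (ρ : GQ →* GL (Fin 2) k)
    (hopen : IsOpen (ρ.ker : Set GQ)) (S : Finset ℕ)
    (hr : ∀ q : Nat.Primes, (q : ℕ) ∉ S → (q : ℕ) ≠ p →
      ∀ A : ValuationSubring Qb, A.LiesOverPrime q → ∀ σ : GQ, A.IsFrobeniusAt σ q →
        (ρ σ).val.trace = θ (tGen p q) ∧ (ρ σ).val.det = ((q : ℕ) : k)) :
    ¬ Group.IsSolvable ρ.range :=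
  IsSystemRep.not_solvable (θ := θ) (S := S)
    ⟨Subgroup.isOpen_mono (fun σ hσ => MonoidHom.mem_ker.2 (by
      rw [MonoidHom.comp_apply, MonoidHom.mem_ker.1 hσ, map_one])) hopen, hr⟩ h5

/-- **Eigenforms of level `p`.** -/
theorem form_not_solvable (h5 : 5 ≤ p) (φ : ZB →+* k) {g : CuspForm (Gamma0 p) 2}
    (hg : g.IsNormalizedEigenform) {ρ : GQ →* GL (Fin 2) k} (hρ : IsTwoRep φ g ρ) :
    ¬ Group.IsSolvable ρ.range := by
  obtain ⟨θ, h⟩ := exists_system_of_isTwoRep φ hg hρ
  exact h.not_solvable h5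

/-- **Ordinary forms of level one.** -/
theorem level_one_not_solvable {w : ℕ} {ι : ℚ_[p] →+* ℂ} (h5 : 5 ≤ p) (hw : 3 ≤ w)
    (h : w ≡ 2 [MOD p - 1]) (φ : ↥(intNums ι) →+* k) {F : ModularForm 𝒮ℒ (w : ℤ)}
    (hF : IsEigenForm F) (hu : IsUnitAt ι F) (h0 : (qExpansion 1 ⇑F).coeff 0 = 0)
    {ρ : GQ →* GL (Fin 2) k} (hρ : IsResidualRep φ F ρ) : ¬ Group.IsSolvable ρ.range := by
  have hP := RingHom.ker_isPrime φ
  obtain ⟨g, hg, hc⟩ := exists_two_of_one h5 hw
    (FA.OrdinaryCount.Summary.even_of_class h5 even_two h)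
    (FA.WeightTwoOrdinary.Summary.class_two_cast h) ι (RingHom.ker φ) (natCast_mem_ker φ) hF hu h0
  exact form_not_solvable h5 _ hg (isTwoRep_of_isResidualRep (by omega)
    (FA.WeightTwoOrdinary.Summary.class_two_cast h) φ hg (fun l hl => hc l hl.one_le) hρ)

/-- **No `p`-power torsion fixed by a term of the derived series.** -/
theorem torsion_derived (h5 : 5 ≤ p) (n e : ℕ) (x : JZero p) (hx : p ^ e • x = 0)
    (hfix : ∀ σ ∈ derivedSeries GQ n, σ • x = x) : x = 0 :=
  eq_zero_of_derived_pow h5 n e x hx hfix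

/-- **A normal subgroup with solvable quotient.** -/
theorem torsion_solvable_quotient (h5 : 5 ≤ p) (H : Subgroup GQ) [H.Normal]
    [Group.IsSolvable (GQ ⧸ H)] (e : ℕ) (x : JZero p) (hx : p ^ e • x = 0)
    (hfix : ∀ σ ∈ H, σ • x = x) : x = 0 := by
  obtain ⟨n, hn⟩ := Group.IsSolvable.solvable (G := GQ ⧸ H)
  refine torsion_derived h5 n e x hx fun σ hσ => hfix σ ?_
  have hmem := map_derivedSeries_le_derivedSeries (QuotientGroup.mk' H) n
    (Subgroup.mem_map_of_mem _ hσ)
  rw [hn, Subgroup.mem_bot] at hmem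
  exact (QuotientGroup.eq_one_iff σ).1 hmem

/-- **A field inside a finite solvable Galois extension.** -/
theorem torsion_solvable_extension (h5 : 5 ≤ p) (K L : IntermediateField ℚ Qb)
    [Normal ℚ L] [Group.IsSolvable (L ≃ₐ[ℚ] L)] (hKL : K ≤ L) (e : ℕ) (x : JZero p)
    (hx : p ^ e • x = 0) (hfix : ∀ σ : GQ, (∀ a ∈ K, σ a = a) → σ • x = x) : x = 0 := by
  obtain ⟨n, hn⟩ := Group.IsSolvable.solvable (G := L ≃ₐ[ℚ] L)
  refine torsion_derived h5 n e x hx fun σ hσ => hfix σ fun a ha => ?_
  have hmem := map_derivedSeries_le_derivedSeries (AlgEquiv.restrictNormalHom (F := ℚ) L) n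
    (Subgroup.mem_map_of_mem _ hσ)
  rw [hn, Subgroup.mem_bot] at hmem
  have h := AlgEquiv.restrictNormal_commutes σ L ⟨a, hKL ha⟩
  rw [show σ.restrictNormal L = 1 from hmem] at h
  exact h.symm

/-- **The field of a class of order `p` is not inside a solvable extension.** -/
theorem torsion_field_not_solvable (h5 : 5 ≤ p) (x : JZero p) (hx : p • x = 0) (hx0 : x ≠ 0)
    (K L : IntermediateField ℚ Qb) [Normal ℚ L] (hKL : K ≤ L)
    (hfix : ∀ σ : GQ, (∀ a ∈ K, σ a = a) → σ • x = x) :
    ¬ Group.IsSolvable (L ≃ₐ[ℚ] L) := fun _ =>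
  hx0 (torsion_solvable_extension h5 K L hKL 1 x (by rw [pow_one]; exact hx) hfix)

end FA.SolvableTorsionJZero.Summary
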