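import Fermat.Agent.CarterKeller.Main
import Fermat.Agent.CarterKeller.TwoByTwo

/-!
# The theorem of Carter and Keller

For `n ≥ 3` the group `SL n ℤ` is boundedly generated by elementary matrices (Carter–Keller 1983),
so also by finitely many cyclic subgroups; `SL 2 ℤ` is not.
-/

set_option autoImplicit false

noncomputable section

namespace FA.Summary

open FA.CarterKeller Matrix

/-- **Carter–Keller.** -/
theorem carter_keller {n : ℕ} (hn : 3 ≤ n) :
    ∃ N : ℕ, ∀ M : Matrix (Fin n) (Fin n) ℤ, M.det = 1 →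
      ∃ L : List (Fin n × Fin n × ℤ), L.length ≤ N ∧ (∀ x ∈ L, x.1 ≠ x.2.1) ∧
        M = (L.map fun x => transvection x.1 x.2.1 x.2.2).prod := by
  refine ⟨298 + (n - 2) * (3 * n + 1), fun M hM => ?_⟩
  obtain ⟨L, hL, rfl⟩ := short_of_det hn M hM
  refine ⟨L.map fun t => (t.i, t.j, t.c), by simpa using hL, fun x hx => ?_, ?_⟩
  · obtain ⟨t, -, rfl⟩ := List.mem_map.1 hx
    exact t.hij
  · rw [List.map_map]
    rfl

/-- **Only matrices of determinant one are such products.** -/
theorem carter_keller_converse {n : ℕ} (L : List (Fin n × Fin n × ℤ))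
    (hL : ∀ x ∈ L, x.1 ≠ x.2.1) :
    (L.map fun x => transvection x.1 x.2.1 x.2.2).prod.det = 1 := by
  induction L with
  | nil => simp
  | cons x L ih =>
    rw [List.map_cons, List.prod_cons, det_mul,
      det_transvection_of_ne _ _ (hL x List.mem_cons_self),
      ih fun y hy => hL y (List.mem_cons_of_mem _ hy), one_mul]

/-- **Bounded generation by cyclic groups**: one fixed list of unipotent elements such that every
element of `SL n ℤ` is a product of their powers in this order. -/
theorem sl_boundedly_generated {n : ℕ} (hn : 3 ≤ n) :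
    ∃ g : List (SpecialLinearGroup (Fin n) ℤ), ∀ M : SpecialLinearGroup (Fin n) ℤ,
      ∃ e : List ℤ, e.length = g.length ∧ M = (List.zipWith (fun x k => x ^ k) g e).prod := by
  classical
  let el : {p : Fin n × Fin n // p.1 ≠ p.2} → Multiplicative ℤ →* SpecialLinearGroup (Fin n) ℤ :=
    fun p =>
      { toFun := fun c => ⟨transvection p.1.1 p.1.2 c.toAdd, det_transvection_of_ne _ _ p.2 _⟩
        map_one' := Subtype.ext (transvection_zero _ _)
        map_mul' := fun c d =>
          Subtype.ext (transvection_mul_transvection_same _ _ p.2 c.toAdd d.toAdd).symm }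
  let G : List (SpecialLinearGroup (Fin n) ℤ) :=
    (Finset.univ : Finset {p : Fin n × Fin n // p.1 ≠ p.2}).toList.map fun p =>
      el p (Multiplicative.ofAdd 1)
  obtain ⟨N, hN⟩ := carter_keller hn
  refine ⟨(List.replicate N G).flatten, fun M => ?_⟩
  have pad : ∀ H : List (SpecialLinearGroup (Fin n) ℤ),
      ∃ e : List ℤ, e.length = H.length ∧ (List.zipWith (fun x k => x ^ k) H e).prod = 1 := fun H =>
    ⟨List.replicate H.length 0, by simp, by
      induction H with
      | nil => simp
      | cons a H ih => simp [List.replicate_succ, ih]⟩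
  have one : ∀ p : {p : Fin n × Fin n // p.1 ≠ p.2}, ∀ c : ℤ, ∀ H : List {p : Fin n × Fin n //
      p.1 ≠ p.2}, p ∈ H → ∃ e : List ℤ, e.length = H.length ∧
        (List.zipWith (fun x k => x ^ k) (H.map fun p => el p (Multiplicative.ofAdd 1)) e).prod =
          el p (Multiplicative.ofAdd c) := by
    intro p c H hp
    obtain ⟨H₁, H₂, rfl⟩ := List.append_of_mem hp
    obtain ⟨e₁, h₁, p₁⟩ := pad (H₁.map fun p => el p (Multiplicative.ofAdd 1))
    obtain ⟨e₂, h₂, p₂⟩ := pad (H₂.map fun p => el p (Multiplicative.ofAdd 1))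
    simp only [List.length_map] at h₁ h₂
    refine ⟨e₁ ++ c :: e₂, by simp [h₁, h₂], ?_⟩
    rw [List.map_append, List.map_cons, List.zipWith_append (by simp [h₁]), List.zipWith_cons_cons,
      List.prod_append, List.prod_cons, p₁, p₂, one_mul, mul_one, ← map_zpow, ← ofAdd_zsmul]
    simp
  have main : ∀ (k : ℕ) (L : List (Fin n × Fin n × ℤ)), L.length ≤ k →
      (∀ x ∈ L, x.1 ≠ x.2.1) → ∃ e : List ℤ, e.length = (List.replicate k G).flatten.length ∧
        ((List.zipWith (fun x j => x ^ j) (List.replicate k G).flatten e).prod).1 =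
          (L.map fun x => transvection x.1 x.2.1 x.2.2).prod := by
    intro k
    induction k with
    | zero =>
      intro L hL _
      rw [List.eq_nil_of_length_eq_zero (Nat.le_zero.1 hL)]
      exact ⟨[], by simp, by simp⟩
    | succ k ih =>
      intro L hL hne
      rw [List.replicate_succ, List.flatten_cons]
      match L with
      | [] =>
        obtain ⟨e, he, hp⟩ := pad (G ++ (List.replicate k G).flatten)
        exact ⟨e, he, by rw [hp]; simp⟩
      | x :: L =>
        obtain ⟨e, he, hp⟩ := ih L (by simpa using hL) fun y hy => hne y (List.mem_cons_of_mem _ hy)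
        obtain ⟨e', he', hp'⟩ := one ⟨(x.1, x.2.1), hne x List.mem_cons_self⟩ x.2.2 _
          (Finset.mem_toList.2 (Finset.mem_univ _))
        refine ⟨e' ++ e, by simp [G, he', he], ?_⟩
        change (List.zipWith (fun x k => x ^ k) G e').prod = _ at hp'
        rw [List.zipWith_append (by simp [G, he']), List.prod_append, hp', List.map_cons,
          List.prod_cons, SpecialLinearGroup.coe_mul, hp]
        rfl
  obtain ⟨L, hL, hne, hM⟩ := hN M.1 M.2
  obtain ⟨e, he, hp⟩ := main N L hL hne
  exact ⟨e, he, Subtype.ext (hM.trans hp.symm)⟩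

/-- **`SL 2 ℤ` is not boundedly generated by elementary matrices.** -/
theorem sl_two_not_boundedly_generated (N : ℕ) :
    ∃ M : Matrix (Fin 2) (Fin 2) ℤ, M.det = 1 ∧
      ∀ L : List (Fin 2 × Fin 2 × ℤ), L.length ≤ N → (∀ x ∈ L, x.1 ≠ x.2.1) →
        M ≠ (L.map fun x => transvection x.1 x.2.1 x.2.2).prod := by
  obtain ⟨M, hM, hs⟩ := exists_not_short N
  refine ⟨M, hM, fun L hL hne hp => hs ⟨L.pmap (fun x h => ⟨x.1, x.2.1, h, x.2.2⟩) hne,
    by simpa using hL, ?_⟩⟩
  rw [hp, List.map_pmap]
  congr 1
  exact (List.pmap_eq_map (f := fun x => transvection x.1 x.2.1 x.2.2) hne).symm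

end FA.Summary

end
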