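import Fermat.Agent.Forms3.LeechTheta
import Fermat.Agent.Root.SummaryEightLattice

/-!
# The Leech lattice and Ramanujan's `τ`

* `golay_code`: the binary Golay code (`FA.Golay.code`): linear, self-dual, `4096` words, weights
  `0, 8, 12, 16, 24` taken `1, 759, 2576, 759, 1` times;
* `leech_unimodular`: Conway's lattice (`leechLattice`) in `ℤ²⁴` with the form `(x·y)/8` is
  integral, even and contains its dual;
* `leech_representations`: it has `65520/691 (σ₁₁(n) - τ(n))` vectors of norm `2 n`, so its theta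
  series is `E₁₂ - 65520/691 Δ`;
* `leech_minimal`, `leech_not_e8_cube`: no roots, `196560` vectors of norm four, no isometric copy
  of `E₈ ⊕ E₈ ⊕ E₈`;
* `leech_tau_congruence`: hence `τ(n) ≡ σ₁₁(n) (mod 691)`, read off a count of vectors.
-/

set_option autoImplicit false

noncomputable section

open UpperHalfPlane
open scoped ArithmeticFunction.sigma

namespace FA.Summary

/-- Conway's Leech lattice: one parity `m`, second binary digits in the Golay code, sum `4 m`
modulo `8`. -/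
def leechLattice : AddSubgroup (Fin 24 → ℤ) where
  carrier := {x | (∀ i, x i % 2 = x 0 % 2) ∧
    (fun i => decide (x i / 2 % 2 = 1)) ∈ FA.Golay.code ∧ (8 : ℤ) ∣ ∑ i, x i - 4 * (x 0 % 2)}
  add_mem' := fun hx hy => FA.Leech.inL_add hx hy
  zero_mem' := FA.Leech.inL_zero
  neg_mem' := fun hx => FA.Leech.inL_neg hx

theorem mem_leechLattice {x : Fin 24 → ℤ} : x ∈ leechLattice ↔ FA.Leech.InL x := Iff.rfl

/-- **The binary Golay code.** -/
theorem golay_code :
    (∀ c ∈ FA.Golay.code, ∀ d ∈ FA.Golay.code, (fun i => xor (c i) (d i)) ∈ FA.Golay.code) ∧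
    (∀ c : Fin 24 → Bool, c ∈ FA.Golay.code ↔ ∀ d ∈ FA.Golay.code,
      2 ∣ (Finset.univ.filter fun i => (c i && d i) = true).card) ∧
    FA.Golay.code.card = 4096 ∧
    (∀ c ∈ FA.Golay.code, (Finset.univ.filter fun i => c i = true).card ∈
      ({0, 8, 12, 16, 24} : Finset ℕ)) ∧
    ([0, 8, 12, 16, 24].map fun k => (FA.Golay.code.filter fun c =>
      (Finset.univ.filter fun i => c i = true).card = k).card) = [1, 759, 2576, 759, 1] := by
  obtain ⟨h1, h2, h3, h4, h5⟩ := FA.Golay.card_wt_values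
  refine ⟨fun c hc d hd => FA.Golay.bxor_mem hc hd,
    fun c => ⟨fun hc d hd => FA.Golay.two_dvd_common hc hd, FA.Golay.mem_of_two_dvd_common⟩,
    FA.Golay.card_code, fun c hc => FA.Golay.wt_mem hc, ?_⟩
  simp only [FA.Golay.wt] at h1 h2 h3 h4 h5
  simp only [List.map_cons, List.map_nil, h1, h2, h3, h4, h5]

/-- **The Leech lattice is even and unimodular.** -/
theorem leech_unimodular :
    (∀ x ∈ leechLattice, ∀ y ∈ leechLattice, (8 : ℤ) ∣ ∑ i, x i * y i) ∧
    (∀ x ∈ leechLattice, (16 : ℤ) ∣ ∑ i, x i ^ 2) ∧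
    ∀ x : Fin 24 → ℚ, (∀ y ∈ leechLattice, ∃ k : ℤ, (∑ i, x i * (y i : ℚ)) / 8 = k) →
      ∃ z ∈ leechLattice, ∀ i, x i = (z i : ℚ) :=
  ⟨fun _ hx _ hy => FA.Leech.eight_dvd_inner hx hy, fun _ hx => FA.Leech.sixteen_dvd_norm hx,
    fun x h => FA.Leech.self_dual x h⟩

theorem card_leech_eq (n : ℕ) :
    Nat.card {x : Fin 24 → ℤ // x ∈ leechLattice ∧ ∑ i, x i ^ 2 = 16 * (n : ℤ)} =
      (FA.Leech.vecs n).card := by
  rw [← Nat.card_eq_finsetCard]
  exact Nat.card_congr (Equiv.subtypeEquivRight fun x => FA.Leech.mem_vecs.symm)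

/-- **The theta series of the Leech lattice.** -/
theorem leech_representations (n : ℕ) (hn : 0 < n) :
    691 * (Nat.card {x : Fin 24 → ℤ // x ∈ leechLattice ∧ ∑ i, x i ^ 2 = 16 * (n : ℤ)} : ℂ) =
      65520 * ((σ 11 n : ℂ) - (qExpansion 1 ModularForm.discriminant).coeff n) := by
  have h := congrArg (fun x : ℤ => (x : ℂ)) (FA.Leech.card_vecs hn.ne')
  rw [card_leech_eq]
  simp only [FA.Tau.qExpansion_discriminant]
  push_cast at h
  exact h

set_option linter.constructorNameAsVariable false in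
/-- **No roots, `196560` shortest vectors.** -/
theorem leech_minimal :
    (∀ x ∈ leechLattice, x ≠ 0 → 32 ≤ ∑ i, x i ^ 2) ∧
    Nat.card {x : Fin 24 → ℤ // x ∈ leechLattice ∧ ∑ i, x i ^ 2 = 32} = 196560 := by
  have h1 := FA.Leech.card_vecs one_ne_zero
  have h2 := FA.Leech.card_vecs two_ne_zero
  rw [show PowerSeries.coeff 1 FA.Tau.deltaInt = 1 from
    FA.ManySquares.nine_deltaInt 1 (by norm_num), show σ 11 1 = 1 by decide +kernel] at h1
  rw [show PowerSeries.coeff 2 FA.Tau.deltaInt = -24 from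
    FA.ManySquares.nine_deltaInt 2 (by norm_num), show σ 11 2 = 2049 by decide +kernel] at h2
  have c1 : (FA.Leech.vecs 1).card = 0 := by
    generalize (FA.Leech.vecs 1).card = N at h1 ⊢
    omega
  have c2 : (FA.Leech.vecs 2).card = 196560 := by
    generalize (FA.Leech.vecs 2).card = N at h2 ⊢
    omega
  refine ⟨fun x hx hne => ?_, ?_⟩
  · obtain ⟨k, hk⟩ := FA.Leech.sixteen_dvd_norm hx
    obtain ⟨i, hi⟩ := Function.ne_iff.1 hne
    have h0 : 0 < x i ^ 2 := by simp only [Pi.zero_apply] at hi; positivity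
    have hsum := Finset.single_le_sum (f := fun i => x i ^ 2) (fun i _ => sq_nonneg _)
      (Finset.mem_univ i)
    by_contra hlt
    have hk1 : k = 1 := by linarith [show k ≤ 1 by omega, show 1 ≤ k by omega]
    have hmem : x ∈ FA.Leech.vecs 1 := by
      rw [FA.Leech.mem_vecs]
      exact ⟨mem_leechLattice.1 hx, by rw [hk, hk1, Nat.cast_one]⟩
    rw [Finset.card_eq_zero.1 c1] at hmem
    exact Finset.notMem_empty x hmem
  · rw [show (32 : ℤ) = 16 * ((2 : ℕ) : ℤ) by norm_num, card_leech_eq]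
    exact c2

/-- **Not `E₈ ⊕ E₈ ⊕ E₈`**: no additive map into the lattice preserves the norm. -/
theorem leech_not_e8_cube :
    ¬ ∃ φ : (Fin 3 → Fin 8 → ℤ) →+ (Fin 24 → ℤ), (∀ w, φ w ∈ leechLattice) ∧
      ∀ w, ∑ i, φ w i ^ 2 = 8 * ∑ k, ∑ i, ∑ j, w k i * e8Gram i j * w k j := by
  rintro ⟨φ, hmem, hnorm⟩
  let w : Fin 3 → Fin 8 → ℤ := Pi.single 0 (Pi.single 0 1)
  have hw : ∑ i, φ w i ^ 2 = 16 := by
    rw [hnorm]
    simp [w, Fin.sum_univ_three, Fin.sum_univ_eight, e8Gram]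
  have hne : φ w ≠ 0 := fun h => by simp [h] at hw
  have := leech_minimal.1 _ (hmem w) hne
  omega

/-- **`τ(n) ≡ σ₁₁(n) (mod 691)`**, from the number of Leech vectors. -/
theorem leech_tau_congruence (n : ℕ) (hn : 0 < n) :
    ∃ k : ℤ, (qExpansion 1 ModularForm.discriminant).coeff n =
      (σ 11 n : ℂ) + 691 * (k : ℂ) := by
  have h := FA.Leech.card_vecs hn.ne'
  obtain ⟨k, hk⟩ : (691 : ℤ) ∣ PowerSeries.coeff n FA.Tau.deltaInt - (σ 11 n : ℤ) := by
    omega
  refine ⟨k, ?_⟩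
  rw [FA.Tau.qExpansion_discriminant, eq_comm, ← sub_eq_zero]
  have hk' := congrArg (fun x : ℤ => (x : ℂ)) hk
  push_cast at hk'
  linear_combination -hk'

end FA.Summary

end
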