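import Fermat.Agent.Tau.WeightSucc

/-!
# Serre: weight `p + 1` modulo `p`, and constant terms

Modulo `p ≥ 5` the level one forms of weight `p + 1` behave as forms of weight two and level `p`:
`U²` is the identity and `E₂` is one of them. In a weight not divisible by `p - 1` the constant term
is as integral, and as divisible by `p`, as the other coefficients.
-/

set_option autoImplicit false

noncomputable section

open UpperHalfPlane
open scoped MatrixGroups ArithmeticFunction.sigma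

namespace FA.Summary

variable {p : ℕ} [Fact p.Prime]

/-- **Weight `p + 1`**: `a (p² n) ≡ a n (mod p)` for every form of weight `p + 1`. -/
theorem weight_succ_periodic (h5 : 5 ≤ p) (F : ModularForm 𝒮ℒ ((p + 1 : ℕ) : ℤ))
    {S : PowerSeries ℤ} (hS : qExpansion 1 ⇑F = S.map (Int.castRingHom ℂ)) (n : ℕ) :
    (p : ℤ) ∣ PowerSeries.coeff (p ^ 2 * n) S - PowerSeries.coeff n S := by
  have h := congrArg (PowerSeries.coeff n) (FA.SwinnertonDyer.uOp_uOp h5 ⟨F, S, hS, rfl⟩)
  simp only [FA.SwinnertonDyer.uOp, PowerSeries.coeff_mk, PowerSeries.coeff_map, eq_intCast] at h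
  rw [← ZMod.intCast_zmod_eq_zero_iff_dvd, Int.cast_sub, sub_eq_zero, ← h]
  congr 3
  ring

/-- **The eigenvalues of `U_p` in weight `p + 1`** are `± 1` modulo `p`. -/
theorem weight_succ_eigenvalue (h5 : 5 ≤ p) (F : ModularForm 𝒮ℒ ((p + 1 : ℕ) : ℤ))
    {S : PowerSeries ℤ} (hS : qExpansion 1 ⇑F = S.map (Int.castRingHom ℂ)) {c : ℤ}
    (he : ∀ n, (p : ℤ) ∣ PowerSeries.coeff (p * n) S - c * PowerSeries.coeff n S)
    (h0 : ∃ n, ¬(p : ℤ) ∣ PowerSeries.coeff n S) : (p : ℤ) ∣ c - 1 ∨ (p : ℤ) ∣ c + 1 := by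
  set f := S.map (Int.castRingHom (ZMod p))
  have hf : f ≠ 0 := fun e => by
    obtain ⟨n, hn⟩ := h0
    exact hn ((ZMod.intCast_zmod_eq_zero_iff_dvd _ p).1 (by
      simpa [f] using congrArg (PowerSeries.coeff n) e))
  have hU : FA.SwinnertonDyer.uOp p f = PowerSeries.C (c : ZMod p) * f := by
    ext n
    have := (ZMod.intCast_zmod_eq_zero_iff_dvd _ p).2 (he n)
    push_cast at this
    rw [FA.SwinnertonDyer.uOp, PowerSeries.coeff_mk, PowerSeries.coeff_C_mul, mul_comm n p]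
    simpa [f, sub_eq_zero] using this
  simp only [← ZMod.intCast_zmod_eq_zero_iff_dvd, Int.cast_sub, Int.cast_add, Int.cast_one,
    sub_eq_zero, add_eq_zero_iff_eq_neg]
  exact FA.SwinnertonDyer.eigenvalue_succ h5 ⟨F, S, hS, rfl⟩ hf hU

/-- **`E₂` modulo `p`** is a form of weight `p + 1` and of no smaller weight. -/
theorem eisenstein_two_weight (h5 : 5 ≤ p) :
    IsLeast {k : ℕ | ∃ (G : ModularForm 𝒮ℒ (k : ℤ)) (T : PowerSeries ℤ),
      qExpansion 1 ⇑G = T.map (Int.castRingHom ℂ) ∧ T.map (Int.castRingHom (ZMod p)) =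
        PowerSeries.mk fun n => if n = 0 then 1 else -24 * ((σ 1 n : ℕ) : ZMod p)} (p + 1) := by
  have he : FA.SwinnertonDyer.e2 p =
      PowerSeries.mk fun n => if n = 0 then 1 else -24 * ((σ 1 n : ℕ) : ZMod p) := by
    ext n
    rw [FA.SwinnertonDyer.e2, PowerSeries.coeff_map, FA.Tau.eTwoInt, PowerSeries.coeff_mk,
      PowerSeries.coeff_mk, eq_intCast]
    split_ifs <;> simp
  rw [← he]
  have hform : FA.SwinnertonDyer.IsFormModP p (p + 1) (FA.SwinnertonDyer.e2 p) := by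
    rw [← FA.SwinnertonDyer.phi_dOp_hassePoly h5]
    have h := FA.SwinnertonDyer.dOp_isob (FA.SwinnertonDyer.isob_hassePoly (p := p) h5)
    rw [show p - 1 + 2 = p + 1 by omega] at h
    exact FA.SwinnertonDyer.isFormModP_phi h
  refine FA.SwinnertonDyer.isLeast_succ h5 hform fun e => ?_
  simpa [he] using congrArg (PowerSeries.coeff 0) e

/-- **Serre, Siegel: constant terms.** If `p - 1 ∤ k` and the coefficients at `n ≥ 1` of a form
of weight `k` are integers divisible by `p ^ m`, so is the constant term, as a `p`-adic integer. -/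
theorem constant_term_congruence (h5 : 5 ≤ p) {k : ℕ} (hk : ¬p - 1 ∣ k)
    (F : ModularForm 𝒮ℒ (k : ℤ)) {c : ℚ} {a : ℕ → ℤ} {m : ℕ}
    (h0 : (qExpansion 1 ⇑F).coeff 0 = (c : ℂ))
    (ha : ∀ n, n ≠ 0 → (qExpansion 1 ⇑F).coeff n = (a n : ℂ) ∧ (p : ℤ) ^ m ∣ a n) :
    ¬p ∣ c.den ∧ (p : ℤ) ^ m ∣ c.num :=
  FA.SwinnertonDyer.constant_rat h5 hk F h0 ha

end FA.Summary

end
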