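import Fermat.Agent.Subspace.AlgebraicApproximation

/-!
# Schmidt's subspace theorem

For `n + 1` independent linear forms with algebraic coefficients, real or complex, and `δ > 0` the
integer points `x` with `∏ i |L i x| < ‖x‖ ^ (-δ)` lie in finitely many proper rational subspaces
(Schmidt 1972). With it the parametric form, the theorem on the next to last minimum it rests on,
and Schmidt's theorems on simultaneous approximation, on small values of a linear form and on small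
values of integer polynomials of bounded degree at an algebraic number, and his answer to Wirsing:
approximation by algebraic numbers of degree at most `d` below the degree of `α`.

Only the archimedean absolute value, no bound for the number of subspaces, ineffective; no link
with Fermat's last theorem.
-/

set_option autoImplicit false

noncomputable section

namespace FA.Subspace.Summary

open FA.Perfect

/-- **The subspace theorem.** -/
theorem subspace_theorem {n : ℕ} (hn : 1 ≤ n) (L : Matrix (Fin (n + 1)) (Fin (n + 1)) ℝ)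
    (hL : L.det ≠ 0) (halg : ∀ i j, IsAlgebraic ℚ (L i j)) {δ : ℝ} (hδ : 0 < δ) :
    ∃ V : Finset (Fin (n + 1) → ℤ), (∀ v ∈ V, v ≠ 0) ∧ ∀ x : Fin (n + 1) → ℤ, x ≠ 0 →
      ∏ i, |∑ k, L i k * (x k : ℝ)| < ‖castVec x‖ ^ (-δ) → ∃ v ∈ V, v ⬝ᵥ x = 0 :=
  finite_subspaces hn L hL halg hδ

/-- **The subspace theorem for complex forms.** -/
theorem subspace_theorem_complex {n : ℕ} (hn : 1 ≤ n)
    (L : Matrix (Fin (n + 1)) (Fin (n + 1)) ℂ) (hL : L.det ≠ 0)
    (halg : ∀ i j, IsAlgebraic ℚ (L i j)) {δ : ℝ} (hδ : 0 < δ) :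
    ∃ V : Finset (Fin (n + 1) → ℤ), (∀ v ∈ V, v ≠ 0) ∧ ∀ x : Fin (n + 1) → ℤ, x ≠ 0 →
      ∏ i, ‖∑ k, L i k * (x k : ℂ)‖ < ‖castVec x‖ ^ (-δ) → ∃ v ∈ V, v ⬝ᵥ x = 0 :=
  finite_subspaces_complex hn L hL halg hδ

/-- **The parametric subspace theorem.** -/
theorem parametric_subspace {n : ℕ} (L : Matrix (Fin (n + 1)) (Fin (n + 1)) ℝ) (hL : L.det ≠ 0)
    (halg : ∀ i j, IsAlgebraic ℚ (L i j)) (c : Fin (n + 1) → ℝ) (hc : ∑ i, c i = 0) {η : ℝ}
    (hη : 0 < η) :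
    ∃ (V : Finset (Fin (n + 1) → ℤ)) (Q₀ : ℝ), ∀ Q, Q₀ ≤ Q → ∀ x : Fin (n + 1) → ℤ, x ≠ 0 →
      (∀ i, |∑ k, L i k * (x k : ℝ)| ≤ Q ^ (c i - η)) → ∃ v ∈ V, v ≠ 0 ∧ v ⬝ᵥ x = 0 :=
  finite_parametric L hL halg c hc hη

/-- **The theorem on the next to last minimum.** -/
theorem penultimate_minimum {n : ℕ} (hn : 1 ≤ n) (L : Matrix (Fin (n + 1)) (Fin (n + 1)) ℝ)
    (hL : L.det ≠ 0) (halg : ∀ i j, IsAlgebraic ℚ (L i j)) (c : Fin (n + 1) → ℝ)
    (hc : ∑ i, c i = 0) {η : ℝ} (hη : 0 < η) :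
    ∃ (V : Finset (Fin (n + 1) → ℤ)) (Q₀ : ℝ), ∀ Q, Q₀ ≤ Q → ∀ g : Fin n → Fin (n + 1) → ℤ,
      LinearIndependent ℚ (fun j k => (g j k : ℚ)) →
      (∀ j i, |∑ k, L i k * (g j k : ℝ)| ≤ Q ^ (c i - η)) →
        ∃ v ∈ V, v ≠ 0 ∧ ∀ j, v ⬝ᵥ g j = 0 :=
  finite_penultimate hn L hL halg c hc hη

/-- **Schmidt's theorem on simultaneous approximation.** -/
theorem simultaneous_approximation {n : ℕ} (hn : 1 ≤ n) (α : Fin n → ℝ)
    (halg : ∀ i, IsAlgebraic ℚ (α i))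
    (hind : LinearIndependent ℚ (Fin.cons 1 α : Fin (n + 1) → ℝ)) {ε : ℝ} (hε : 0 < ε) :
    {q : ℕ | 0 < q ∧
      ∃ p : Fin n → ℤ, (q : ℝ) ^ (1 + ε) * ∏ i, |(q : ℝ) * α i - p i| < 1}.Finite :=
  finite_simultaneous hn α halg hind hε

/-- **Schmidt's theorem on linear forms.** -/
theorem linear_form {n : ℕ} (β : Fin (n + 1) → ℝ) (halg : ∀ k, IsAlgebraic ℚ (β k))
    (hind : LinearIndependent ℚ β) {ε : ℝ} (hε : 0 < ε) :
    {x : Fin (n + 1) → ℤ | x ≠ 0 ∧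
      |∑ k, β k * (x k : ℝ)| * ‖castVec x‖ ^ ((n : ℝ) + ε) < 1}.Finite :=
  finite_linear_form n β halg hind hε

/-- **Small values of polynomials of bounded degree at an algebraic number.** -/
theorem small_polynomial_values {α : ℝ} (hα : IsAlgebraic ℚ α) {d : ℕ}
    (hd : d < (minpoly ℚ α).natDegree) {ε : ℝ} (hε : 0 < ε) :
    {a : Fin (d + 1) → ℤ | a ≠ 0 ∧
      |∑ k, (a k : ℝ) * α ^ (k : ℕ)| * ‖castVec a‖ ^ ((d : ℝ) + ε) < 1}.Finite :=
  finite_small_poly_values hα hd hε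

/-- **Approximation by algebraic numbers of bounded degree.** -/
theorem algebraic_approximation {α : ℝ} (hα : IsAlgebraic ℚ α) {d : ℕ}
    (hd : d < (minpoly ℚ α).natDegree) {ε : ℝ} (hε : 0 < ε) :
    {β : ℂ | ∃ a : Fin (d + 1) → ℤ, a ≠ 0 ∧ ∑ k, (a k : ℂ) * β ^ (k : ℕ) = 0 ∧
      ‖(α : ℂ) - β‖ * ‖castVec a‖ ^ ((d : ℝ) + 1 + ε) < 1}.Finite :=
  finite_algebraic_approximations hα hd hε

end FA.Subspace.Summary

end
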