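import Fermat.Agent.WirsingApprox.Main

/-!
# Wirsing's theorem on approximation by algebraic numbers

If the real `ξ` is algebraic of no degree `≤ n`, infinitely many real algebraic `α` of degree `≤ n`
satisfy `|ξ - α| ≪ H(α) ^ (-(n + 3) / 2)` (Wirsing 1961), where `H` is the largest absolute
coefficient of the irreducible integer polynomial of `α`.
-/

set_option autoImplicit false

noncomputable section

open Polynomial

namespace FA.WirsingApprox.Summary

/-- **Wirsing's theorem.** -/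
theorem wirsing_approximation {ξ : ℝ} {n : ℕ} (hn : 1 ≤ n)
    (hξ : ∀ f : ℤ[X], f ≠ 0 → f.natDegree ≤ n → aeval ξ f ≠ 0) :
    ∃ C : ℝ, 0 < C ∧ {α : ℝ | ∃ f : ℤ[X], Irreducible f ∧ 1 ≤ f.natDegree ∧ f.natDegree ≤ n ∧
      aeval α f = 0 ∧ |ξ - α| ≤
        C * ((f.support.sup fun i => (f.coeff i).natAbs : ℕ) : ℝ) ^
          (-(((n : ℝ) + 3) / 2))}.Infinite := by
  obtain ⟨C, hC, h⟩ := exists_approx hn hξ
  set s := ((n : ℝ) + 3) / 2 with hs
  refine ⟨Real.sqrt C * (2 ^ n : ℝ) ^ s, by positivity, fun hfin => ?_⟩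
  obtain ⟨ε, hε, hsep⟩ : ∃ ε > 0, ∀ α ∈ hfin.toFinset.erase ξ, ε ≤ |ξ - α| := by
    rcases (hfin.toFinset.erase ξ).eq_empty_or_nonempty with h0 | h0
    · exact ⟨1, one_pos, fun α hα => by simp [h0] at hα⟩
    · obtain ⟨α, hα, hmin⟩ := (hfin.toFinset.erase ξ).exists_min_image (fun α => |ξ - α|) h0
      exact ⟨|ξ - α|, abs_pos.2 (sub_ne_zero.2 (Finset.ne_of_mem_erase hα).symm), hmin⟩
  obtain ⟨α, f, hf, hd1, hdn, hroot, hlt, hle⟩ := h ε hε
  set H : ℝ := ((f.support.sup fun i => (f.coeff i).natAbs : ℕ) : ℝ)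
  have hM0 : 0 < mahler f := zero_lt_one.trans_le (one_le_mahler hf.ne_zero)
  have hH1 : 1 ≤ H := by
    refine Nat.one_le_cast.2 (le_trans ?_ (Finset.le_sup (f := fun i => (f.coeff i).natAbs)
      (natDegree_mem_support_of_nonzero hf.ne_zero)))
    exact Int.natAbs_pos.2 (leadingCoeff_ne_zero.2 hf.ne_zero)
  have hHM : H ≤ 2 ^ n * mahler f := by
    obtain ⟨i, -, he⟩ := Finset.exists_mem_eq_sup f.support
      (support_nonempty.2 hf.ne_zero) fun i => (f.coeff i).natAbs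
    calc H = ((f.coeff i).natAbs : ℝ) := congrArg Nat.cast he
      _ = ‖(f.map (Int.castRingHom ℂ)).coeff i‖ := by
          rw [coeff_map, eq_intCast, Complex.norm_intCast, Nat.cast_natAbs, Int.cast_abs]
      _ ≤ _ := norm_coeff_le_choose_mul_mahlerMeasure i _
      _ ≤ 2 ^ n * mahler f := by
          refine mul_le_mul_of_nonneg_right ?_ hM0.le
          rw [natDegree_map_eq_of_injective (Int.castRingHom ℂ).injective_int]
          calc ((f.natDegree.choose i : ℕ) : ℝ) ≤ ((2 ^ f.natDegree : ℕ) : ℝ) :=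
                Nat.cast_le.2 (Nat.choose_le_two_pow _ _)
            _ ≤ 2 ^ n := by push_cast; exact pow_le_pow_right₀ one_le_two hdn
  have hbound : |ξ - α| ≤ Real.sqrt C * (2 ^ n : ℝ) ^ s * H ^ (-s) := by
    have hpow : mahler f ^ (n + 3) = (mahler f ^ s) ^ 2 := by
      rw [← Real.rpow_natCast (mahler f ^ s), ← Real.rpow_mul hM0.le, ← Real.rpow_natCast, hs]
      push_cast
      ring_nf
    rw [hpow, ← mul_pow] at hle
    have h1 : |ξ - α| * mahler f ^ s ≤ Real.sqrt C :=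
      (Real.le_sqrt (by positivity) hC.le).2 hle
    have h2 : H ^ s ≤ (2 ^ n : ℝ) ^ s * mahler f ^ s := by
      rw [← Real.mul_rpow (by positivity) hM0.le]
      exact Real.rpow_le_rpow (by linarith) hHM (by positivity)
    rw [Real.rpow_neg (by linarith), ← div_eq_mul_inv, le_div_iff₀ (by positivity)]
    calc |ξ - α| * H ^ s ≤ |ξ - α| * ((2 ^ n : ℝ) ^ s * mahler f ^ s) :=
          mul_le_mul_of_nonneg_left h2 (abs_nonneg _)
      _ = |ξ - α| * mahler f ^ s * (2 ^ n : ℝ) ^ s := by ring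
      _ ≤ _ := mul_le_mul_of_nonneg_right h1 (by positivity)
  have hne : α ≠ ξ := fun e => hξ f hf.ne_zero hdn (e ▸ hroot)
  linarith [hsep α (Finset.mem_erase.2 ⟨hne, hfin.mem_toFinset.2
    ⟨f, hf, hd1, hdn, hroot, hbound⟩⟩)]

/-- **For transcendental numbers.** -/
theorem wirsing_approximation_transcendental {ξ : ℝ} (hξ : Transcendental ℤ ξ) {n : ℕ}
    (hn : 1 ≤ n) :
    ∃ C : ℝ, 0 < C ∧ {α : ℝ | ∃ f : ℤ[X], Irreducible f ∧ 1 ≤ f.natDegree ∧ f.natDegree ≤ n ∧
      aeval α f = 0 ∧ |ξ - α| ≤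
        C * ((f.support.sup fun i => (f.coeff i).natAbs : ℕ) : ℝ) ^
          (-(((n : ℝ) + 3) / 2))}.Infinite :=
  wirsing_approximation hn fun f hf _ h => hξ ⟨f, hf, h⟩

end FA.WirsingApprox.Summary
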