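import Fermat.Agent.Root.SummarySquareEquation

/-!
# Squares and cubes as combinations of two high powers

For an exponent `n` with a prime factor `p ≥ 11` there is no solution of
`x² = A y ^ n + B z ^ n` with `x` odd, `64` dividing `B z ^ n` and the primes of `A B` dividing
`6` or `10`, nor of `x³ = A y ^ n + B z ^ n` with `27` dividing `B z ^ n` and the primes of `A B`
dividing `6`; here `x` is prime to `B z ^ n` and `y z ≠ 0`. Both attach a semistable curve whose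
discriminant is a `p`-th power away from the primes of `6` or of `10`.
-/

set_option autoImplicit false

noncomputable section

open WeierstrassCurve

namespace FA.PowerEquations

/-- A semistable discriminant is no `p`-th power away from the primes of `M < 11`. -/
theorem false_of_discriminant_eq {W : WeierstrassCurve ℤ} (hΔ : W.Δ ≠ 0)
    (hW : ∀ q : ℕ, q.Prime → (q : ℤ) ∣ W.Δ → ¬ (q : ℤ) ∣ W.c₄) {p : ℕ} (hp : p.Prime)
    (h11 : 11 ≤ p) {M : ℕ} (hM0 : M ≠ 0) (hM : M < 11) {a b t : ℤ} (ha : a ≠ 0)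
    (hsa : ∀ q : ℕ, q.Prime → (q : ℤ) ∣ a → q ∣ M)
    (hsb : ∀ q : ℕ, q.Prime → (q : ℤ) ∣ b → q ∣ M) (h : a * W.Δ = b * t ^ p) : False := by
  have hb : b ≠ 0 ∧ t ≠ 0 := by
    constructor <;> rintro rfl <;> simp [zero_pow hp.ne_zero, ha, hΔ] at h
  refine absurd (FA.Summary.discriminantPrimes_all W hΔ hW hp h11).1
    (not_le.2 (lt_of_le_of_lt (Nat.le_of_dvd (Nat.pos_of_ne_zero hM0) ?_) hM))
  refine Finset.prod_primes_dvd M
    (fun q hq => (Nat.prime_of_mem_primeFactors (Finset.mem_filter.1 hq).1).prime) fun q hq => ?_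
  obtain ⟨hqΔ, hqv⟩ := Finset.mem_filter.1 hq
  have hqp := Nat.prime_of_mem_primeFactors hqΔ
  have := Fact.mk hqp
  by_contra hqM
  have ea : padicValInt q a = 0 := padicValInt.eq_zero_of_not_dvd fun h => hqM (hsa q hqp h)
  have eb : padicValInt q b = 0 := padicValInt.eq_zero_of_not_dvd fun h => hqM (hsb q hqp h)
  refine hqv ⟨padicValInt q t, ?_⟩
  have e := congrArg (padicValInt q) h
  rw [padicValInt.mul ha hΔ, padicValInt.mul hb.1 (pow_ne_zero _ hb.2), ea, eb] at e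
  rw [← zero_add (padicValInt q W.Δ), e, zero_add, padicValInt, Int.natAbs_pow,
    padicValNat.pow _ _]
  rfl

/-- The primes of a power of `q` divide `M` when `q` does. -/
theorem dvd_of_dvd_pow {q M : ℕ} (hq : q ∣ M) (hqp : q.Prime) (k : ℕ) :
    ∀ l : ℕ, l.Prime → (l : ℤ) ∣ (q : ℤ) ^ k → l ∣ M := fun l hl h => by
  rw [← Nat.cast_pow, Int.natCast_dvd_natCast] at h
  rwa [(Nat.prime_dvd_prime_iff_eq hl hqp).1 (hl.dvd_of_dvd_pow h)]

/-- The curve of a solution of the cube equation, `T = B z ^ p`. -/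
def cubeCurve (x T : ℤ) : WeierstrassCurve ℤ :=
  { a₁ := x, a₂ := 0, a₃ := T / 27, a₄ := 0, a₆ := 0 }

section cube

variable {x T : ℤ}

theorem cube_Δ_eq (hT : (27 : ℤ) ∣ T) : (cubeCurve x T).Δ = (T / 27) ^ 3 * (x ^ 3 - T) := by
  have h : 27 * (T / 27) = T := Int.mul_ediv_cancel' hT
  simp only [cubeCurve, WeierstrassCurve.Δ, b₂, b₄, b₆, b₈]
  linear_combination -(T / 27) ^ 3 * h

theorem cube_c₄_eq : (cubeCurve x T).c₄ = x * (x ^ 3 - 24 * (T / 27)) := by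
  simp only [cubeCurve, WeierstrassCurve.c₄, b₂, b₄]
  ring

theorem cube_isSemistableModel (hT : (27 : ℤ) ∣ T) (hcop : IsCoprime x T) :
    ∀ q : ℕ, q.Prime → (q : ℤ) ∣ (cubeCurve x T).Δ → ¬ (q : ℤ) ∣ (cubeCurve x T).c₄ := by
  intro q hq hΔ hc
  have hq' : Prime (q : ℤ) := Nat.prime_iff_prime_int.mp hq
  have h : 27 * (T / 27) = T := Int.mul_ediv_cancel' hT
  have key : (q : ℤ) ∣ x → (q : ℤ) ∣ T → False := fun hx hT' =>
    hq'.not_isUnit (hcop.isUnit_of_dvd' hx hT')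
  rw [cube_c₄_eq] at hc
  rw [cube_Δ_eq hT] at hΔ
  rcases hq'.dvd_or_dvd hΔ with hd | hd
  · replace hd := hq'.dvd_of_dvd_pow hd
    refine key ?_ (h ▸ dvd_mul_of_dvd_right hd 27)
    rcases hq'.dvd_or_dvd hc with hx | hx
    · exact hx
    · refine hq'.dvd_of_dvd_pow (n := 3) ?_
      simpa using dvd_add hx (dvd_mul_of_dvd_right hd 24)
  · rcases hq'.dvd_or_dvd hc with hx | hx
    · exact key hx (by simpa using dvd_sub (dvd_pow hx three_ne_zero) hd)
    · have hqT : (q : ℤ) ∣ T := by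
        have e : T = 9 * (x ^ 3 - 24 * (T / 27) - (x ^ 3 - T)) := by linear_combination 8 * h
        rw [e]
        exact dvd_mul_of_dvd_right (dvd_sub hx hd) 9
      exact key (hq'.dvd_of_dvd_pow (n := 3) (by simpa using dvd_add hd hqT)) hqT

end cube

end FA.PowerEquations

namespace FA.Summary

open FA.PowerEquations

/-- **The equation `x² = A y ^ n + B z ^ n`** with the primes of `A` and `B` dividing `6` or
`10`, `x` odd and `64` dividing `B z ^ n`. -/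
theorem squareEquation_general {n p : ℕ} (hp : p.Prime) (h11 : 11 ≤ p) (hpn : p ∣ n) {M : ℕ}
    (hM : M = 6 ∨ M = 10) {A B x y z : ℤ} (hA : A ≠ 0) (hB : B ≠ 0) (hy : y ≠ 0) (hz : z ≠ 0)
    (hsA : ∀ q : ℕ, q.Prime → (q : ℤ) ∣ A → q ∣ M)
    (hsB : ∀ q : ℕ, q.Prime → (q : ℤ) ∣ B → q ∣ M)
    (hx : Odd x) (hcop : IsCoprime x (B * z ^ n)) (h64 : (64 : ℤ) ∣ B * z ^ n) :
    x ^ 2 ≠ A * y ^ n + B * z ^ n := by
  intro heq
  wlog h1 : x % 4 = 1 generalizing x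
  · refine this hx.neg hcop.neg_left (by rwa [neg_sq]) ?_
    rw [Int.odd_iff] at hx
    omega
  obtain ⟨m, rfl⟩ := hpn
  rw [mul_comm p m, pow_mul, pow_mul] at *
  have hT : B * (z ^ m) ^ p ≠ 0 := mul_ne_zero hB (pow_ne_zero _ (pow_ne_zero _ hz))
  have h4 := Int.mul_ediv_cancel' h64
  have hΔ := FA.SquareEquation.Δ_eq h1 h64
  rw [heq, add_sub_cancel_right] at hΔ
  have hΔ0 : (FA.SquareEquation.squareCurve x (B * (z ^ m) ^ p)).Δ ≠ 0 := by
    rw [hΔ]
    exact mul_ne_zero (pow_ne_zero _ fun h => hT (by rw [← h4, h, mul_zero]))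
      (mul_ne_zero hA (pow_ne_zero _ (pow_ne_zero _ hy)))
  have h2M : 2 ∣ M := by rcases hM with rfl | rfl <;> norm_num
  refine false_of_discriminant_eq hΔ0 (FA.SquareEquation.isSemistableModel h1 h64 hcop) hp h11
    (M := M) (by omega) (by omega) (a := 2 ^ 12) (b := B ^ 2 * A) (t := (z ^ m) ^ 2 * y ^ m)
    (by norm_num) (by exact_mod_cast dvd_of_dvd_pow h2M Nat.prime_two 12) ?_ ?_
  · intro q hq h
    rcases (Nat.prime_iff_prime_int.1 hq).dvd_or_dvd h with h | h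
    · exact hsB q hq ((Nat.prime_iff_prime_int.1 hq).dvd_of_dvd_pow h)
    · exact hsA q hq h
  · rw [hΔ, show ∀ t : ℤ, 2 ^ 12 * (t ^ 2 * (A * (y ^ m) ^ p)) = (64 * t) ^ 2 * (A * (y ^ m) ^ p)
      from fun t => by ring, h4]
    ring

/-- **The equation `x³ = A y ^ n + B z ^ n`** with the primes of `A` and `B` dividing `6` and
`27` dividing `B z ^ n`. -/
theorem cubeEquation {n p : ℕ} (hp : p.Prime) (h11 : 11 ≤ p) (hpn : p ∣ n) {A B x y z : ℤ}
    (hA : A ≠ 0) (hB : B ≠ 0) (hy : y ≠ 0) (hz : z ≠ 0)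
    (hsA : ∀ q : ℕ, q.Prime → (q : ℤ) ∣ A → q ∣ 6)
    (hsB : ∀ q : ℕ, q.Prime → (q : ℤ) ∣ B → q ∣ 6)
    (hcop : IsCoprime x (B * z ^ n)) (h27 : (27 : ℤ) ∣ B * z ^ n) :
    x ^ 3 ≠ A * y ^ n + B * z ^ n := by
  intro heq
  obtain ⟨m, rfl⟩ := hpn
  rw [mul_comm p m, pow_mul, pow_mul] at *
  have hT : B * (z ^ m) ^ p ≠ 0 := mul_ne_zero hB (pow_ne_zero _ (pow_ne_zero _ hz))
  have h4 := Int.mul_ediv_cancel' h27
  have hΔ := cube_Δ_eq (x := x) h27
  rw [heq, add_sub_cancel_right] at hΔ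
  have hΔ0 : (cubeCurve x (B * (z ^ m) ^ p)).Δ ≠ 0 := by
    rw [hΔ]
    exact mul_ne_zero (pow_ne_zero _ fun h => hT (by rw [← h4, h, mul_zero]))
      (mul_ne_zero hA (pow_ne_zero _ (pow_ne_zero _ hy)))
  refine false_of_discriminant_eq hΔ0 (cube_isSemistableModel h27 hcop) hp h11
    (M := 6) (by norm_num) (by norm_num) (a := 3 ^ 9) (b := B ^ 3 * A)
    (t := (z ^ m) ^ 3 * y ^ m) (by norm_num)
    (by exact_mod_cast dvd_of_dvd_pow (show 3 ∣ 6 by norm_num) Nat.prime_three 9) ?_ ?_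
  · intro q hq h
    rcases (Nat.prime_iff_prime_int.1 hq).dvd_or_dvd h with h | h
    · exact hsB q hq ((Nat.prime_iff_prime_int.1 hq).dvd_of_dvd_pow h)
    · exact hsA q hq h
  · rw [hΔ, show ∀ t : ℤ, 3 ^ 9 * (t ^ 3 * (A * (y ^ m) ^ p)) = (27 * t) ^ 3 * (A * (y ^ m) ^ p)
      from fun t => by ring, h4]
    ring

/-- **`x² + 2 ^ k ≠ y ^ n` and `x² - 2 ^ k ≠ ± y ^ n`** for odd `x`, `k ≥ 6` and an exponent with
a prime factor `p ≥ 11`. -/
theorem sq_add_two_pow_ne_pow {n p : ℕ} (hp : p.Prime) (h11 : 11 ≤ p) (hpn : p ∣ n) {k : ℕ}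
    (hk : 6 ≤ k) {x y : ℤ} (hx : Odd x) :
    x ^ 2 + 2 ^ k ≠ y ^ n ∧ x ^ 2 - 2 ^ k ≠ y ^ n ∧ x ^ 2 - 2 ^ k ≠ -(y ^ n) := by
  wlog hy : y ≠ 0 generalizing y
  · obtain rfl := not_not.1 hy
    rcases eq_or_ne n 0 with rfl | hn
    · simpa using this (y := 1) one_ne_zero
    · have h2 : Even ((2 : ℤ) ^ k) := even_two.pow_of_ne_zero (by omega)
      have hne : ∀ {a : ℤ}, Odd a → a ≠ 0 := fun ha e => by simp [e] at ha
      rw [zero_pow hn, neg_zero]
      exact ⟨hne (hx.pow.add_even h2), hne (hx.pow.sub_even h2), hne (hx.pow.sub_even h2)⟩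
  have hs : ∀ q : ℕ, q.Prime → (q : ℤ) ∣ (2 : ℤ) ^ k → q ∣ 6 := by
    exact_mod_cast dvd_of_dvd_pow (show 2 ∣ 6 by norm_num) Nat.prime_two k
  have hu : ∀ q : ℕ, q.Prime → (q : ℤ) ∣ (1 : ℤ) → q ∣ 6 := fun q hq h =>
    absurd (isUnit_of_dvd_one h) (Nat.prime_iff_prime_int.1 hq).not_isUnit
  have hd : (64 : ℤ) ∣ 2 ^ k := (show (64 : ℤ) = 2 ^ 6 by norm_num) ▸ pow_dvd_pow 2 hk
  have hcop : IsCoprime x (2 ^ k) := by
    obtain ⟨j, hj⟩ := hx
    exact (show IsCoprime x 2 from ⟨1, -j, by rw [hj]; ring⟩).pow_right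
  have h0 : (2 : ℤ) ^ k ≠ 0 := pow_ne_zero _ two_ne_zero
  refine ⟨fun h => ?_, fun h => ?_, fun h => ?_⟩
  · exact squareEquation_general hp h11 hpn (Or.inl rfl) one_ne_zero (neg_ne_zero.2 h0) hy
      one_ne_zero hu (fun q hq h => hs q hq (dvd_neg.1 h)) hx (B := -2 ^ k)
      (by simpa using hcop.neg_right) (by simpa using hd.neg_right)
      (by rw [one_pow]; linear_combination h)
  · exact squareEquation_general hp h11 hpn (Or.inl rfl) one_ne_zero h0 hy one_ne_zero hu hs hx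
      (by simpa using hcop) (by simpa using hd) (by rw [one_pow]; linear_combination h)
  · exact squareEquation_general hp h11 hpn (Or.inl rfl) (A := -1) (by norm_num) h0 hy
      one_ne_zero (fun q hq h => hu q hq (dvd_neg.1 h)) hs hx
      (by simpa using hcop) (by simpa using hd) (by rw [one_pow]; linear_combination h)

/-- **`x³ - y ^ n ≠ 3 ^ k` and `y ^ n - x³ ≠ 3 ^ k`** for `x` prime to three, `k ≥ 3` and an
exponent with a prime factor `p ≥ 11`. -/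
theorem cube_sub_pow_ne_three_pow {n p : ℕ} (hp : p.Prime) (h11 : 11 ≤ p) (hpn : p ∣ n) {k : ℕ}
    (hk : 3 ≤ k) {x y : ℤ} (hx : ¬ (3 : ℤ) ∣ x) :
    x ^ 3 - y ^ n ≠ 3 ^ k ∧ y ^ n - x ^ 3 ≠ 3 ^ k := by
  wlog hy : y ≠ 0 generalizing y
  · obtain rfl := not_not.1 hy
    rcases eq_or_ne n 0 with rfl | hn
    · simpa using this (y := 1) one_ne_zero
    · have h3 : (3 : ℤ) ∣ 3 ^ k := dvd_pow_self 3 (by omega)
      rw [zero_pow hn, sub_zero, zero_sub]
      exact ⟨fun h => hx (Int.prime_three.dvd_of_dvd_pow (h ▸ h3)),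
        fun h => hx (Int.prime_three.dvd_of_dvd_pow (dvd_neg.1 (h ▸ h3)))⟩
  have hs : ∀ q : ℕ, q.Prime → (q : ℤ) ∣ (3 : ℤ) ^ k → q ∣ 6 := by
    exact_mod_cast dvd_of_dvd_pow (show 3 ∣ 6 by norm_num) Nat.prime_three k
  have hu : ∀ q : ℕ, q.Prime → (q : ℤ) ∣ (1 : ℤ) → q ∣ 6 := fun q hq h =>
    absurd (isUnit_of_dvd_one h) (Nat.prime_iff_prime_int.1 hq).not_isUnit
  have hd : (27 : ℤ) ∣ 3 ^ k := (show (27 : ℤ) = 3 ^ 3 by norm_num) ▸ pow_dvd_pow 3 hk
  have hcop : IsCoprime x (3 ^ k) :=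
    ((Int.prime_three.coprime_iff_not_dvd.2 hx).symm).pow_right
  have h0 : (3 : ℤ) ^ k ≠ 0 := pow_ne_zero _ (by norm_num)
  refine ⟨fun h => ?_, fun h => ?_⟩
  · exact cubeEquation hp h11 hpn one_ne_zero h0 hy one_ne_zero hu hs
      (by simpa using hcop) (by simpa using hd) (by rw [one_pow]; linear_combination h)
  · exact cubeEquation hp h11 hpn one_ne_zero (B := -3 ^ k) (neg_ne_zero.2 h0) hy one_ne_zero hu
      (fun q hq h => hs q hq (dvd_neg.1 h))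
      (by simpa using hcop.neg_right) (by simpa using hd.neg_right)
      (by rw [one_pow]; linear_combination -h)

end FA.Summary

end
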