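import Fermat.Agent.Root.NotOld
import Fermat.Agent.ModField.Semistable.FrobRelation
import Fermat.Agent.ModField.Semistable.HasFibre
import Fermat.Agent.ModField.Congruence.Export

/-!
# The eigenvalue of `U_q` of an eigenform attached to a curve with multiplicative reduction at `q`

If a normalised eigenform of level `M q`, new at `q`, has the good coefficients of the curve, its
`q`-th coefficient is the sign `s` for which Frobenius at `q` has trace `s (q + 1)` on the torsion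
of the curve.
-/

set_option autoImplicit false
set_option linter.style.haveILetI false
set_option linter.unusedSectionVars false
set_option synthInstance.maxHeartbeats 200000
set_option maxHeartbeats 800000

noncomputable section

open WeierstrassCurve Matrix CongruenceSubgroup FA.Deform FA.JTorsion FA.ModField FA.EC FA.Frob FA.RT
  FA.RT.Tate

namespace FA.Root

local notation "Qb" => AlgebraicClosure ℚ
local notation "GQ" => AlgebraicClosure ℚ ≃ₐ[ℚ] AlgebraicClosure ℚ
local notation "M2" => Matrix (Fin 2) (Fin 2)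
local notation "ZB" => integralClosure ℤ ℂ

/-- The eigencharacter of a normalised eigenform on the full Hecke algebra, with its values at the
operators `U`. -/
theorem exists_eigenChar_full {N : ℕ} [NeZero N] {g : CuspForm (Gamma0 N) 2}
    (hg : g.IsNormalizedEigenform) :
    ∃ ψ : HFull N →+* ZB,
      (∀ (ℓ : ℕ) (hℓ : ℓ.Prime) (hℓN : ¬ ℓ ∣ N),
        (ψ (CuspForm.heckeAlgebra.T hℓ hℓN (Set.notMem_empty _)) : ℂ) =
          ModularFormClass.qCoeff g ℓ) ∧
      ∀ (q : ℕ) (hq : q.Prime) (hqN : q ∣ N),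
        (ψ (CuspForm.heckeAlgebra.U (k := 2) hq hqN (Set.notMem_empty _)) : ℂ) =
          ModularFormClass.qCoeff g q := by
  choose c hc using exists_eigenvalue (∅ : Set ℕ) hg
  have hne : g ≠ 0 := hg.ne_zero
  have hu : ∀ {a b : ℂ}, a • g = b • g → a = b := fun h => smul_left_injective ℂ hne h
  let χ : HFull N →+* ℂ :=
    { toFun := c
      map_one' := hu (by rw [← hc 1, one_smul]; rfl)
      map_mul' := fun s t => hu (by
        rw [← hc, MulMemClass.coe_mul, Module.End.mul_apply, hc t, map_smul, hc s, smul_smul,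
          mul_comm])
      map_zero' := hu (by rw [← hc 0, zero_smul]; rfl)
      map_add' := fun s t => hu (by
        rw [← hc, Subalgebra.coe_add, LinearMap.add_apply, hc s, hc t, add_smul]) }
  have hint : ∀ t, χ t ∈ ZB := fun t => by
    haveI : Module.Finite ℤ (HFull N) := FA.Period.moduleFinite_heckeAlgebra N 2 _
    exact (Algebra.IsIntegral.isIntegral (R := ℤ) t).map χ.toIntAlgHom
  refine ⟨χ.codRestrict ZB hint, fun ℓ hℓ hℓN => hu ?_, fun q hq hqN => hu ?_⟩
  · show c _ • g = _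
    rw [← hc]
    exact heckeT_eigen hg hℓ hℓN
  · show c _ • g = _
    rw [← hc]
    exact heckeU_eigen hg hq hqN

/-- **The coefficient at a multiplicative prime.** -/
theorem qCoeff_eq_of_trace_frobenius {W : WeierstrassCurve ℤ} [(ratCurve W).IsElliptic]
    (hΔ : W.Δ ≠ 0) {M q : ℕ} [NeZero M] [hq : Fact q.Prime] (hqM : ¬ q ∣ M)
    {g : CuspForm (Gamma0 (M * q)) 2} (hg : g.IsNormalizedEigenform)
    (hnew : ¬ CuspForm.GoodEigensystemOccursAt g M)
    (hga : ∀ ℓ : ℕ, ℓ.Prime → W.IsGoodPrimeFor ℓ → ¬ ℓ ∣ M * q →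
      ModularFormClass.qCoeff g ℓ = (W.apOfModel ℓ : ℂ))
    {p : ℕ} [hp : Fact p.Prime] (hqp : q ≠ p) (B : TateBasis p W) {A : ValuationSubring Qb}
    (hA : A.LiesOverPrime q) {σ : GQ} (hσ : A.IsFrobeniusAt σ q) {s : ℤ}
    (htr : (B.rep σ).trace = (s : ℤ_[p]) * (q + 1)) (hs : s = 1 ∨ s = -1) :
    ModularFormClass.qCoeff g q = (s : ℂ) := by
  classical
  obtain ⟨alg⟩ := exists_algebra_qbar
  letI := alg
  haveI : NeZero q := ⟨hq.out.ne_zero⟩
  haveI : NeZero p := ⟨hp.out.ne_zero⟩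
  haveI : IsAlgClosed (IsLocalRing.ResidueField A) := FA.Frob.residueField_isAlgClosed A
  haveI : CharP (IsLocalRing.ResidueField A) q := residueAt_charP hA
  haveI : Algebra.IsAlgebraic ℚ Qb := AlgebraicClosure.isAlgebraic ℚ
  have harch := fun c hc => exists_pow_lt_valuation hq.out hA c hc
  obtain ⟨D⟩ := hasFibreData M q hqM A residueAt_eq_zero harch hA
  obtain ⟨ψ, hψT, hψU⟩ := exists_eigenChar_full hg
  let bad : Finset ℕ := insert p ((M * q).primeFactors ∪ W.Δ.natAbs.primeFactors)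
  obtain ⟨t, ht, ht2, htψ⟩ := exists_pair_killer (M * q) M (dvd_mul_right M q) hg hnew
    ((algebraMap ZB ℂ).comp ψ) (fun ℓ hℓ hℓN => hψT ℓ hℓ hℓN) bad
  have htψ' : ψ t.1 ≠ 0 := fun h0 => htψ (by rw [RingHom.comp_apply, h0, map_zero])
  obtain ⟨K, c, hK, hrel⟩ := exists_frob_relation_lin M q hqM p (Finset.mem_insert_self p _) ht ht2
    D hA hqp hσ (inducesOn_frobenius hσ)
  let R : Subring (HFull (M * q) × ℤ) := Subring.closure
    {x | ∃ (ℓ : ℕ) (hℓ : ℓ.Prime) (hℓN : ¬ ℓ ∣ M * q), ℓ ∉ bad ∧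
      x = (CuspForm.heckeAlgebra.T (k := 2) hℓ hℓN (Set.notMem_empty _), W.apOfModel ℓ)}
  have hgood : ∀ ℓ : ℕ, ℓ.Prime → ℓ ∉ bad → ℓ ≠ p ∧ ¬ ℓ ∣ M * q ∧ W.IsGoodPrimeFor ℓ := by
    intro ℓ hℓ hb
    simp only [bad, Finset.mem_insert, Finset.mem_union, Nat.mem_primeFactors, not_or] at hb
    exact ⟨hb.1, fun h => hb.2.1 ⟨hℓ, h, NeZero.ne (M * q)⟩, fun h => hb.2.2 ⟨hℓ,
      Int.natCast_dvd.1 h, Int.natAbs_ne_zero.2 hΔ⟩⟩
  have hψR : ∀ x ∈ R, ψ x.1 = (x.2 : ZB) := by
    intro x hx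
    induction hx using Subring.closure_induction with
    | mem x hx =>
      obtain ⟨ℓ, hℓ, hℓN, hb, rfl⟩ := hx
      refine Subtype.ext ?_
      rw [hψT ℓ hℓ hℓN, hga ℓ hℓ (hgood ℓ hℓ hb).2.2 hℓN]
      simp
    | zero => simp
    | one => simp
    | add x y _ _ hx hy => simp [hx, hy]
    | neg x _ hx => simp [hx]
    | mul x y _ _ hx hy => simp [hx, hy]
  haveI : Module.Finite ℤ (HFull (M * q)) := FA.Period.moduleFinite_heckeAlgebra (M * q) 2 _
  set x₀ : HFull (M * q) :=
    (K : HFull (M * q)) * ((1 + (q : HFull (M * q))) * (1 - (s : HFull (M * q)) * uQ M q)) * t.1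
    with hx₀
  suffices key : ∀ j : ℕ, ∃ y, x₀ - p ^ j • y ∈ (RingHom.ker ψ).toAddSubgroup.toIntSubmodule by
    obtain ⟨m, hm0, hmem⟩ := exists_nsmul_mem_of_forall_pow _ hp.out.one_lt key
    have h0 : ψ x₀ = 0 := by
      have h : ψ (m • x₀) = 0 := hmem
      rw [map_nsmul] at h
      exact (smul_eq_zero.1 h).resolve_left hm0
    simp only [hx₀, map_mul, map_natCast, map_sub, map_add, map_one, map_intCast] at h0
    rcases mul_eq_zero.1 h0 with h | h
    · rcases mul_eq_zero.1 h with h | h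
      · exact absurd h (Nat.cast_ne_zero.2 hK)
      · rcases mul_eq_zero.1 h with h | h
        · exact absurd (by rw [add_comm]; exact h) (Nat.cast_add_one_ne_zero (R := ZB) q)
        · have hU : (ψ (uQ M q) : ℂ) = ModularFormClass.qCoeff g q :=
            hψU q hq.out (dvd_mul_left q M)
          rw [← hU]
          have e' : ((s : ℤ) : ℂ) * (ψ (uQ M q) : ℂ) = 1 := by
            simpa using congrArg (fun z : ZB => (z : ℂ)) (sub_eq_zero.1 h).symm
          rcases hs with rfl | rfl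
          · push_cast at e' ⊢; linear_combination e'
          · push_cast at e' ⊢; linear_combination -e'
    · exact absurd h htψ'
  intro j
  let n := j
  have hkill : ∀ z : ModN (M * q) (∅ : Set ℕ) (p ^ (n + c)), p ^ (n + c) • z = 0 := fun z =>
    toTors_injective (M * q) _ _ (by rw [map_nsmul, nsmul_toTors, map_zero])
  have hd : ∀ ℓ : ℕ, ℓ.Prime → ℓ ≠ p → ¬ ℓ ∣ p ^ (n + c) := fun ℓ hℓ hℓp h =>
    hℓp ((Nat.prime_dvd_prime_iff_eq hℓ hp.out).1 (hℓ.dvd_of_dvd_pow h))
  obtain ⟨h, hxM, hxW⟩ := exists_hecke_of_gal_pair p (n + c) ((RingHom.fst _ _).comp R.subtype)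
    ((Int.castRingHom (ZMod (p ^ (n + c)))).comp ((RingHom.snd _ _).comp R.subtype)) hkill
    (fun z => funext fun i => by
      rw [Pi.smul_apply, nsmul_eq_mul, ZMod.natCast_self, zero_mul, Pi.zero_apply])
    (galMod (M * q) (∅ : Set ℕ) (p ^ (n + c))) (repModEnd B (n + c))
    (exists_field_galMod (M * q) (∅ : Set ℕ) (p ^ (n + c))) (exists_field_repModEnd B (n + c))
    bad (Finset.mem_insert_self _ _)
    (fun ℓ hℓ hℓbad C hC τ hτ => by
      obtain ⟨hℓp, hℓN, hℓW⟩ := hgood ℓ hℓ hℓbad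
      refine ⟨⟨_, Subring.subset_closure ⟨ℓ, hℓ, hℓN, hℓbad, rfl⟩⟩,
        fun z => galMod_frobenius (M * q) _ _ (goodRed_all _) hℓ hℓN (hd ℓ hℓ hℓp) hC
          (Set.notMem_empty _) hτ z, fun z => ?_⟩
      have e := repModEnd_add B (n + c) τ z
      rw [cycMod_frobenius p (n + c) hℓ hℓp hC hτ, ZMod.val_natCast,
        nsmul_mod_of_kill (funext fun i => by
          rw [Pi.smul_apply, nsmul_eq_mul, ZMod.natCast_self, zero_mul, Pi.zero_apply]),
        (B.rep_frobenius hℓ hC hℓp hℓW hτ).1, map_intCast] at e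
      exact e) σ
  obtain ⟨d, hd'⟩ : (p ^ (n + c) : ℤ) ∣ s * ((q : ℤ) + 1) - h.1.2 := by
    have e1 := (hxW (Pi.single 0 1)).symm.trans (repModEnd_add B (n + c) σ (Pi.single 0 1))
    have e2 := congrFun e1 0
    rw [Pi.smul_apply, Pi.smul_apply, Pi.single_eq_same, smul_eq_mul, smul_eq_mul, mul_one,
      mul_one, htr, map_mul, map_intCast, map_add, map_natCast, map_one] at e2
    rw [← Nat.cast_pow, ← ZMod.intCast_zmod_eq_zero_iff_dvd]
    push_cast
    rw [sub_eq_zero]
    exact e2.symm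
  obtain ⟨y, hy⟩ := hrel n h.1.1 fun z => by
    have e := hxM z
    rwa [cycMod_frobenius p (n + c) hq.out hqp hA hσ, ZMod.val_natCast,
      nsmul_mod_of_kill (hkill _)] at e
  refine ⟨y - ((K * p ^ c * d : ℤ) : HFull (M * q)) * uQ M q * t.1, ?_⟩
  show ψ _ = 0
  have e2 := congrArg ψ hy
  have e3 := congrArg (Int.cast : ℤ → ZB) hd'
  simp only [hx₀, nsmul_eq_mul, map_mul, map_natCast, map_sub, map_add, map_one, map_intCast,
    Nat.cast_pow, map_pow, hψR _ h.2] at e2 ⊢
  push_cast at e2 e3 ⊢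
  linear_combination e2 - (K : ZB) * ψ (uQ M q) * ψ t.1 * e3

end FA.Root

end
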