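import Fermat.Agent.S48
import Fermat.Agent.S29
import Fermat.Agent.S30
import Fermat.Agent.Ribet.Serre
import Fermat.Agent.Root.LFunctionSign

/-!
# Modular forms and their Galois representations, in Mathlib's notions

`dim S₂(Γ₀(N))` and the levels without cusp forms, the theorem of Deligne and Serre in weight one,
and the mod `p` and `p`-adic representations of an eigenform of weight two.  A place above `l` is a
valuation subring `A` of `ℚ̄` with `l ∈ A.nonunits`; a Frobenius is an element of its decomposition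
group acting on the residue field by `x ↦ x ^ l`.
-/

set_option autoImplicit false
set_option linter.style.haveILetI false

noncomputable section

open UpperHalfPlane CongruenceSubgroup IsLocalRing Polynomial
open scoped MatrixGroups

local notation "Qb" => AlgebraicClosure ℚ
local notation "Γℚ" => AlgebraicClosure ℚ ≃ₐ[ℚ] AlgebraicClosure ℚ

namespace FA.ModularForms

theorem finiteDimensional_S2 (N : ℕ) [NeZero N] :
    FiniteDimensional ℂ (CuspForm (Gamma0 N) 2) := by
  have := FA.Dim.parabolicHoms_finite N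
  exact Module.Finite.of_injective
    (((ModularCurve.periodHomPair N).codRestrict
      (ModularCurve.Period.parabolicHoms ℂ (Gamma0 N) ℂ) fun p =>
      (Fermat.Agent.S21.result N).2 ▸ LinearMap.mem_range_self _ _).comp (LinearMap.inl ℂ _ _))
    (fun _ _ h => LinearMap.inl_injective
      ((Fermat.Agent.S21.result N).1 (congrArg Subtype.val h)))

theorem genusFormula_eq_zero_of_small {N : ℕ}
    (hN : N ∈ ({1, 2, 3, 4, 5, 6, 7, 8, 9, 10, 12, 13, 16, 18, 25} : Finset ℕ)) :
    ModularCurve.genusFormula N = 0 := by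
  suffices h : 12 + ModularCurve.dedekindPsi N =
      3 * ModularCurve.nuTwo N + 4 * ModularCurve.nuThree N + 6 * ModularCurve.cuspCount N by
    have h' : (12 : ℚ) + ModularCurve.dedekindPsi N =
        3 * ModularCurve.nuTwo N + 4 * ModularCurve.nuThree N + 6 * ModularCurve.cuspCount N := by
      exact_mod_cast h
    rw [ModularCurve.genusFormula]
    linarith
  simp only [Finset.mem_insert, Finset.mem_singleton] at hN
  rcases hN with rfl | rfl | rfl | rfl | rfl | rfl | rfl | rfl | rfl | rfl | rfl | rfl | rfl |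
    rfl | rfl <;>
    simp only [ModularCurve.nuTwo, ModularCurve.nuThree, ModularCurve.cuspCount,
      ModularCurve.dedekindPsi, Nat.card_eq_fintype_card] <;>
    decide +kernel

/-- Trace and determinant from the characteristic polynomial. -/
theorem trace_det_of_charpoly {R : Type} [CommRing R] [Nontrivial R] {V : Type} [AddCommGroup V]
    [Module R V] [Module.Free R V] [Module.Finite R V] (b : Module.Basis (Fin 2) R V)
    {f : Module.End R V} {t d : R} (h : LinearMap.charpoly f = X ^ 2 - C t * X + C d) :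
    (LinearMap.toMatrix b b f).trace = t ∧ (LinearMap.toMatrix b b f).det = d := by
  have e := (LinearMap.charpoly_toMatrix f b).trans h
  rw [Matrix.charpoly_fin_two] at e
  have e0 := congrArg (fun P : R[X] => P.coeff 0) e
  have e1 := congrArg (fun P : R[X] => P.coeff 1) e
  simp [coeff_X_pow] at e0 e1
  exact ⟨e1, by rwa [LinearMap.det_toMatrix]⟩

/-- The matrix representation in a basis. -/
def matRep {G R V : Type} [Group G] [CommRing R] [AddCommGroup V] [Module R V]
    (b : Module.Basis (Fin 2) R V) (ρ : G →* Module.End R V) : G →* GL (Fin 2) R :=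
  (Units.map (LinearMap.toMatrixAlgEquiv b).toMonoidHom).comp ρ.toHomUnits

theorem matRep_val {G R V : Type} [Group G] [CommRing R] [AddCommGroup V] [Module R V]
    (b : Module.Basis (Fin 2) R V) (ρ : G →* Module.End R V) (σ : G) :
    (matRep b ρ σ).val = LinearMap.toMatrix b b (ρ σ) := rfl

theorem matRep_eq_one {G R V : Type} [Group G] [CommRing R] [AddCommGroup V] [Module R V]
    (b : Module.Basis (Fin 2) R V) (ρ : G →* Module.End R V) {σ : G} (h : ρ σ = 1) :
    matRep b ρ σ = 1 :=
  Units.ext (by rw [matRep_val, h, Units.val_one]; exact LinearMap.toMatrix_one b)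

theorem coord_mem_of_mem_smul {R V : Type} [CommRing R] [AddCommGroup V] [Module R V]
    (b : Module.Basis (Fin 2) R V) {I : Ideal R} {v : V} (hv : v ∈ I • (⊤ : Submodule R V))
    (i : Fin 2) : b.repr v i ∈ I := by
  refine Submodule.smul_induction_on hv (fun r hr w _ => ?_) fun x y hx hy => ?_
  · rw [map_smul, Finsupp.smul_apply, smul_eq_mul]
    exact I.mul_mem_right _ hr
  · rw [map_add, Finsupp.add_apply]
    exact add_mem hx hy

/-- The ring generated by the coefficients at the primes embeds into a `p`-adic integer ring. -/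
theorem exists_padicRing_embedding (p : ℕ) [Fact p.Prime] (R : Type) [CommRing R] [IsDomain R]
    [CharZero R] [Module.Finite ℤ R] :
    ∃ (O : Type) (_ : CommRing O) (_ : IsDomain O) (_ : IsDiscreteValuationRing O)
      (_ : IsAdicComplete (maximalIdeal O) O) (_ : Finite (ResidueField O)) (_ : CharZero O),
      (p : O) ∈ maximalIdeal O ∧ ∃ ι : R →+* O, Function.Injective ι := by
  classical
  let K := FractionRing ℤ_[p]
  haveI : CharZero K := charZero_of_injective_algebraMap (IsFractionRing.injective ℤ_[p] K)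
  let Kb := AlgebraicClosure K
  haveI : CharZero Kb := charZero_of_injective_algebraMap (algebraMap K Kb).injective
  haveI : Module.IsTorsionFree ℤ R := inferInstance
  haveI : Algebra.IsAlgebraic ℤ R := Algebra.IsIntegral.isAlgebraic
  letI : Algebra ℤ Kb := Ring.toIntAlgebra Kb
  haveI : Module.IsTorsionFree ℤ Kb := .of_smul_eq_zero fun r x h => by
    rw [Algebra.smul_def, mul_eq_zero, eq_intCast] at h
    exact h.imp_left Int.cast_eq_zero.mp
  let j : R →ₐ[ℤ] Kb := IsAlgClosed.lift
  obtain ⟨G, hG⟩ := (Module.Finite.fg_top : (⊤ : Submodule ℤ R).FG)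
  let F : IntermediateField K Kb := IntermediateField.adjoin K (j '' (G : Set R))
  haveI : Finite (j '' (G : Set R)) := (G.finite_toSet.image j).to_subtype
  haveI : FiniteDimensional K F := IntermediateField.finiteDimensional_adjoin
    fun x _ => (Algebra.IsAlgebraic.isAlgebraic x).isIntegral
  haveI : Algebra.IsSeparable K F := inferInstance
  let O := integralClosure ℤ_[p] F
  haveI : IsIntegralClosure O ℤ_[p] F := inferInstance
  haveI : IsFractionRing O F := integralClosure.isFractionRing_of_finite_extension K F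
  haveI : Module.Finite ℤ_[p] O := IsIntegralClosure.finite ℤ_[p] K F O
  haveI : IsDedekindDomain O := integralClosure.isDedekindDomain ℤ_[p] K F
  have hinj : Function.Injective (algebraMap ℤ_[p] O) := by
    intro x y h
    have h' : algebraMap ℤ_[p] F x = algebraMap ℤ_[p] F y := congrArg Subtype.val h
    rw [IsScalarTower.algebraMap_apply ℤ_[p] K F, IsScalarTower.algebraMap_apply ℤ_[p] K F] at h'
    exact IsFractionRing.injective ℤ_[p] K ((algebraMap K F).injective h')
  haveI : Finite (ResidueField ℤ_[p]) := Finite.of_equiv _ PadicInt.residueField.symm.toEquiv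
  haveI : IsLocalRing O := FA.JTorsion.isLocalRing_of_finite_complete (O := ℤ_[p]) O
  haveI : IsLocalHom (algebraMap ℤ_[p] O) :=
    (algebraMap_isIntegral_iff.2 (Algebra.IsIntegral.of_finite ℤ_[p] O)).isLocalHom hinj
  haveI : IsDiscreteValuationRing O := by
    refine ((IsDiscreteValuationRing.TFAE O fun hf => IsDiscreteValuationRing.not_isField ℤ_[p]
      (isField_of_isIntegral_of_isField hinj hf)).out 0 2).2 (inferInstance : IsDedekindDomain O)
  haveI : IsAdicComplete (maximalIdeal O) O :=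
    IsLocalRing.isAdicComplete_of_module_finite (𝒪 := ℤ_[p])
  haveI : Finite (ResidueField O) := Module.finite_of_finite (ResidueField ℤ_[p])
  haveI : CharZero O := charZero_of_injective_algebraMap hinj
  refine ⟨O, inferInstance, inferInstance, inferInstance, inferInstance, inferInstance,
    inferInstance, ?_, ?_⟩
  · have hp : (p : ℤ_[p]) ∈ maximalIdeal ℤ_[p] := by
      rw [PadicInt.maximalIdeal_eq_span_p]
      exact Ideal.mem_span_singleton_self _
    rw [← map_natCast (algebraMap ℤ_[p] O) p]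
    exact map_nonunit _ _ hp
  have hF : ∀ r : R, j r ∈ F := by
    intro r
    have hr : r ∈ Submodule.span ℤ (G : Set R) := by rw [hG]; trivial
    induction hr using Submodule.span_induction with
    | mem x hx => exact IntermediateField.subset_adjoin K _ ⟨x, hx, rfl⟩
    | zero => rw [map_zero]; exact zero_mem F
    | add x y _ _ hx hy => rw [map_add]; exact add_mem hx hy
    | smul n x _ hx => rw [map_zsmul]; exact zsmul_mem hx n
  have hint : ∀ r : R, (⟨j r, hF r⟩ : F) ∈ integralClosure ℤ_[p] F := fun r => by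
    have h : IsIntegral ℤ (j r) := (Algebra.IsIntegral.isIntegral (R := ℤ) r).map j
    have h' : IsIntegral ℤ_[p] (j r) := h.tower_top
    exact (isIntegral_algHom_iff (F.val.restrictScalars ℤ_[p]) Subtype.val_injective).mp h'
  let jF : R →+* F := j.toRingHom.codRestrict F hF
  refine ⟨jF.codRestrict (integralClosure ℤ_[p] F) hint, ?_⟩
  refine (injective_iff_map_eq_zero _).mpr fun r hr => ?_
  have h0 : j r = 0 := congrArg (fun x : O => ((x : F) : Kb)) hr
  by_contra hne
  obtain ⟨q, hq, heval⟩ := (Algebra.IsIntegral.isIntegral (R := ℤ) r).isAlgebraic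
    |>.exists_nonzero_coeff_and_aeval_eq_zero (mem_nonZeroDivisors_of_ne_zero hne)
  exact hq (by
    have := congrArg j heval
    rw [map_zero, ← Polynomial.aeval_algHom_apply, h0, Polynomial.aeval_def,
      Polynomial.eval₂_at_zero] at this
    simpa using this)

end FA.ModularForms

namespace FA.Summary

/-- Every prime has a place above it in `ℚ̄`, and every place a Frobenius element. -/
theorem exists_frobenius_element {l : ℕ} (hl : l.Prime) :
    (∃ A : ValuationSubring Qb, (l : Qb) ∈ A.nonunits) ∧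
      ∀ A : ValuationSubring Qb, (l : Qb) ∈ A.nonunits →
        ∃ σ : A.decompositionSubgroup ℚ, ∀ x : ResidueField A, σ • x = x ^ l := by
  refine ⟨FA.Deform.exists_liesOverPrime hl, fun A hA => ?_⟩
  obtain ⟨σ, hσ, h⟩ := FA.Deform.exists_isFrobeniusAt hl hA
  exact ⟨⟨σ, hσ⟩, h⟩

/-- **The dimension of `S₂(Γ₀(N))`** is the genus formula of `X₀(N)`. -/
theorem dim_cuspForm_weightTwo (N : ℕ) [NeZero N] :
    FiniteDimensional ℂ (CuspForm (Gamma0 N) 2) ∧
      (Module.finrank ℂ (CuspForm (Gamma0 N) 2) : ℚ) =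
        1 + ((∑ d ∈ N.divisors with Squarefree d, N / d : ℕ) : ℚ) / 12 -
          (Nat.card {x : ZMod N // x ^ 2 + 1 = 0} : ℚ) / 4 -
          (Nat.card {x : ZMod N // x ^ 2 + x + 1 = 0} : ℚ) / 3 -
          ((∑ d ∈ N.divisors, (Nat.gcd d (N / d)).totient : ℕ) : ℚ) / 2 :=
  ⟨FA.ModularForms.finiteDimensional_S2 N, Fermat.Agent.S20.result N⟩

/-- **There is no cusp form of weight two** on `Γ₀(N)` for the fifteen levels of genus zero. -/
theorem cuspForm_weightTwo_eq_zero {N : ℕ}
    (hN : N ∈ ({1, 2, 3, 4, 5, 6, 7, 8, 9, 10, 12, 13, 16, 18, 25} : Finset ℕ))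
    (f : CuspForm (Gamma0 N) 2) : f = 0 := by
  haveI : NeZero N := ⟨by rintro rfl; simp at hN⟩
  exact FA.Ribet.cuspForm_eq_zero_of_genusFormula
    (FA.ModularForms.genusFormula_eq_zero_of_small hN) f

/-- **The theorem of Deligne and Serre**: a cusp form of weight one on `Γ₁(N)` with `a₁ = 1` and
the Hecke relations for a Dirichlet character `ε` has an irreducible representation of the
Galois group into `GL₂(ℂ)` with open kernel and finite image, unramified at the primes `p` not
dividing `N`, where a Frobenius has trace `a_p` and determinant `ε(p)`. -/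
theorem deligne_serre (N : ℕ) [NeZero N] (ε : DirichletCharacter ℂ N) (f : CuspForm (Gamma1 N) 1)
    (h1 : (qExpansion 1 f).coeff 1 = 1)
    (hT : ∀ p : ℕ, p.Prime → ¬ p ∣ N → ∀ n : ℕ, (qExpansion 1 f).coeff (p * n) +
        ε (p : ZMod N) * (if p ∣ n then (qExpansion 1 f).coeff (n / p) else 0) =
          (qExpansion 1 f).coeff p * (qExpansion 1 f).coeff n) :
    ∃ ρ : Γℚ →* GL (Fin 2) ℂ, IsOpen (ρ.ker : Set Γℚ) ∧ Finite ρ.range ∧
      (∀ W : Submodule ℂ (Fin 2 → ℂ), (∀ σ, ∀ v ∈ W, (ρ σ).val.mulVec v ∈ W) →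
        W = ⊥ ∨ W = ⊤) ∧
      ∀ p : ℕ, p.Prime → ¬ p ∣ N → ∀ A : ValuationSubring Qb, (p : Qb) ∈ A.nonunits →
        (∀ σ ∈ A.inertiaSubgroup ℚ, ρ σ = 1) ∧
        ∀ σ : A.decompositionSubgroup ℚ, (∀ x : ResidueField A, σ • x = x ^ p) →
          (ρ σ).val.trace = (qExpansion 1 f).coeff p ∧ (ρ σ).val.det = ε (p : ZMod N) := by
  obtain ⟨ρ, hρ, hirr, h⟩ := Fermat.Agent.S48.result N ε f h1 hT
  refine ⟨ρ, FA.Weight1.isOpen_ker_of_finite_level hρ, FA.Weight1.finite_range_of_finite_level hρ,
    fun W hW => ?_, fun p hp hpN A hA => ?_⟩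
  · let S : Subrepresentation (Deformation.matrixRepresentation ρ) := ⟨W, fun σ v hv => by
      rw [Deformation.matrixRepresentation_apply, Matrix.mulVecLin_apply]
      exact hW σ v hv⟩
    exact (hirr.eq_bot_or_eq_top S).imp (congrArg Subrepresentation.toSubmodule)
      (congrArg Subrepresentation.toSubmodule)
  · obtain ⟨hi, hF⟩ := h p hp hpN A hA
    exact ⟨fun σ hσ => hi _ (Subgroup.mem_map.mpr ⟨σ, hσ, rfl⟩),
      fun σ hσ => hF σ ⟨σ.2, hσ⟩⟩

/-- **The mod `p` representation of an eigenform**: a normalised Hecke eigenform of weight two on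
`Γ₀(N)`, a prime `p` and a map of the algebraic integers to a field `k` of characteristic `p` give
a representation into `GL₂(k)` with open kernel, unramified at the primes `l` not dividing `N p`,
where a Frobenius has trace the image of `a_l` and determinant `l`. -/
theorem eigenform_residual_representation {N : ℕ} (f : CuspForm (Gamma0 N) 2)
    (h1 : (qExpansion 1 f).coeff 1 = 1)
    (hmul : ∀ m n : ℕ, m.Coprime n →
      (qExpansion 1 f).coeff (m * n) = (qExpansion 1 f).coeff m * (qExpansion 1 f).coeff n)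
    (hgood : ∀ l r : ℕ, l.Prime → ¬ l ∣ N → (qExpansion 1 f).coeff (l ^ (r + 2)) =
      (qExpansion 1 f).coeff l * (qExpansion 1 f).coeff (l ^ (r + 1)) -
        l * (qExpansion 1 f).coeff (l ^ r))
    (hbad : ∀ l r : ℕ, l.Prime → l ∣ N → (qExpansion 1 f).coeff (l ^ (r + 2)) =
      (qExpansion 1 f).coeff l * (qExpansion 1 f).coeff (l ^ (r + 1)))
    {p : ℕ} (hp : p.Prime) {k : Type} [Field k] [CharP k p] (φ : integralClosure ℤ ℂ →+* k) :
    ∃ ρ : Γℚ →* GL (Fin 2) k, IsOpen (ρ.ker : Set Γℚ) ∧
      ∀ l : ℕ, l.Prime → ¬ l ∣ N * p → ∀ A : ValuationSubring Qb, (l : Qb) ∈ A.nonunits →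
        (∀ σ ∈ A.inertiaSubgroup ℚ, ρ σ = 1) ∧
        ∀ σ : A.decompositionSubgroup ℚ, (∀ x : ResidueField A, σ • x = x ^ l) →
          ∃ a : integralClosure ℤ ℂ, (a : ℂ) = (qExpansion 1 f).coeff l ∧
            (ρ σ).val.trace = φ a ∧ (ρ σ).val.det = (l : k) := by
  obtain ⟨ρ, hatt, hunr⟩ := Fermat.Agent.S29.result (g := f) ⟨h1, hmul, hgood, hbad⟩ hp φ
  let b := Module.finBasisOfFinrankEq k ρ.V ρ.finrank_eq
  refine ⟨FA.ModularForms.matRep b ρ.ρ, ?_, fun l hl hlN A hA => ⟨fun σ hσ => ?_, fun σ hσ => ?_⟩⟩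
  · refine FA.Weight1.isOpen_ker_of_finite_level ?_
    obtain ⟨L, hL, h⟩ := ρ.factorsThroughFiniteLevel
    exact ⟨L, hL, fun σ hσ => FA.ModularForms.matRep_eq_one b ρ.ρ (h σ hσ)⟩
  · exact FA.ModularForms.matRep_eq_one b ρ.ρ
      (hunr l hl hlN A hA _ (Subgroup.mem_map.mpr ⟨σ, hσ, rfl⟩))
  · have hlk : (l : k) ≠ 0 := by
      rw [Ne, CharP.cast_eq_zero_iff k p, Nat.prime_dvd_prime_iff_eq hp hl]
      rintro rfl
      exact hlN (dvd_mul_left _ _)
    obtain ⟨a, ha, hc⟩ :=
      hatt l hl (fun h => hlN (h.mul_right p)) hlk A hA σ ⟨σ.2, hσ⟩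
    exact ⟨a, ha, FA.ModularForms.trace_det_of_charpoly b hc⟩

/-- **The `p`-adic representation of an eigenform**: for a normalised Hecke eigenform of weight
two on `Γ₀(N)` and a prime `p` the ring `ℤ[a_q : q prime]` embeds into a complete discrete
valuation ring `O` of characteristic zero with finite residue field of characteristic `p`, and
over a finite extension `O'` of `O` there is a continuous representation into `GL₂(O')`, unramified
at the primes `l` not dividing `N p`, where a Frobenius has trace `a_l` and determinant `l`. -/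
theorem eigenform_padic_representation {N : ℕ} [NeZero N] (f : CuspForm (Gamma0 N) 2)
    (h1 : (qExpansion 1 f).coeff 1 = 1)
    (hmul : ∀ m n : ℕ, m.Coprime n →
      (qExpansion 1 f).coeff (m * n) = (qExpansion 1 f).coeff m * (qExpansion 1 f).coeff n)
    (hgood : ∀ l r : ℕ, l.Prime → ¬ l ∣ N → (qExpansion 1 f).coeff (l ^ (r + 2)) =
      (qExpansion 1 f).coeff l * (qExpansion 1 f).coeff (l ^ (r + 1)) -
        l * (qExpansion 1 f).coeff (l ^ r))
    (hbad : ∀ l r : ℕ, l.Prime → l ∣ N → (qExpansion 1 f).coeff (l ^ (r + 2)) =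
      (qExpansion 1 f).coeff l * (qExpansion 1 f).coeff (l ^ (r + 1)))
    (p : ℕ) [Fact p.Prime] :
    ∃ (O : Type) (_ : CommRing O) (_ : IsDomain O) (_ : IsDiscreteValuationRing O)
      (_ : IsAdicComplete (maximalIdeal O) O) (_ : Finite (ResidueField O)) (_ : CharZero O),
      (p : O) ∈ maximalIdeal O ∧
      ∃ ι : Algebra.adjoin ℤ ((fun q => (qExpansion 1 f).coeff q) '' {q : ℕ | q.Prime}) →+* O,
        Function.Injective ι ∧
      ∃ (O' : Type) (_ : CommRing O') (_ : IsDomain O') (_ : IsDiscreteValuationRing O')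
        (_ : IsAdicComplete (maximalIdeal O') O') (_ : Finite (ResidueField O'))
        (_ : CharZero O') (_ : Algebra O O') (_ : Module.Finite O O'),
        Function.Injective (algebraMap O O') ∧
        ∃ ρ : Γℚ →* GL (Fin 2) O',
          (∀ n : ℕ, IsOpen ((((Matrix.GeneralLinearGroup.map
              (Ideal.Quotient.mk (maximalIdeal O' ^ n))).comp ρ).ker : Subgroup Γℚ) : Set Γℚ)) ∧
          ∀ l : ℕ, l.Prime → ¬ l ∣ N * p → ∀ A : ValuationSubring Qb, (l : Qb) ∈ A.nonunits →
            (∀ σ ∈ A.inertiaSubgroup ℚ, ρ σ = 1) ∧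
            ∀ σ : A.decompositionSubgroup ℚ, (∀ x : ResidueField A, σ • x = x ^ l) →
              ∃ a : Algebra.adjoin ℤ
                  ((fun q => (qExpansion 1 f).coeff q) '' {q : ℕ | q.Prime}),
                (a : ℂ) = (qExpansion 1 f).coeff l ∧
                  (ρ σ).val.trace = algebraMap O O' (ι a) ∧ (ρ σ).val.det = (l : O') := by
  have hg : f.IsNormalizedEigenform := ⟨h1, hmul, hgood, hbad⟩
  set R := Algebra.adjoin ℤ ((fun q => (qExpansion 1 f).coeff q) '' {q : ℕ | q.Prime}) with hR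
  obtain ⟨ψ, hψT, hψU⟩ := FA.Root.exists_eigenChar_full hg
  let χ : CuspForm.heckeAlgebra N 2 (∅ : Set ℕ) →+* ℂ :=
    (algebraMap (integralClosure ℤ ℂ) ℂ).comp ψ
  have hmem : ∀ t, χ t ∈ R := by
    rintro ⟨t, ht⟩
    induction ht using Algebra.adjoin_induction with
    | mem x hx =>
      rcases hx with ⟨l, hl, hlN, -, rfl⟩ | ⟨q, hqN, hq, -, rfl⟩
      · exact Set.mem_of_eq_of_mem (hψT l hl hlN) (Algebra.subset_adjoin ⟨l, hl, rfl⟩)
      · exact Set.mem_of_eq_of_mem (hψU q hq hqN) (Algebra.subset_adjoin ⟨q, hq, rfl⟩)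
    | algebraMap r => exact (map_intCast χ r).symm ▸ intCast_mem R r
    | add x y hx hy ihx ihy =>
      exact (map_add χ ⟨x, hx⟩ ⟨y, hy⟩).symm ▸ add_mem ihx ihy
    | mul x y hx hy ihx ihy =>
      exact (map_mul χ ⟨x, hx⟩ ⟨y, hy⟩).symm ▸ mul_mem ihx ihy
  have hle : Subalgebra.toSubmodule R ≤ LinearMap.range χ.toIntAlgHom.toLinearMap := by
    intro x hx
    suffices R ≤ χ.toIntAlgHom.range by
      obtain ⟨t, ht⟩ := this hx
      exact ⟨t, ht⟩
    refine Algebra.adjoin_le ?_
    rintro _ ⟨q, hq, rfl⟩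
    by_cases hqN : q ∣ N
    · exact ⟨_, hψU q hq hqN⟩
    · exact ⟨_, hψT q hq hqN⟩
  haveI : Module.Finite ℤ (CuspForm.heckeAlgebra N 2 (∅ : Set ℕ)) :=
    FA.Period.moduleFinite_heckeAlgebra N 2 _
  haveI : Module.Finite ℤ R := Module.Finite.iff_fg.mpr
    ((IsNoetherian.noetherian (Submodule.comap
      (LinearMap.range χ.toIntAlgHom.toLinearMap).subtype (Subalgebra.toSubmodule R))).map
        (LinearMap.range χ.toIntAlgHom.toLinearMap).subtype |> fun h => by
      rwa [Submodule.map_comap_subtype, inf_eq_right.mpr hle] at h)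
  obtain ⟨O, iC, iD, iV, iA, iF, iZ, hpO, ι, hι⟩ :=
    FA.ModularForms.exists_padicRing_embedding p R
  refine ⟨O, iC, iD, iV, iA, iF, iZ, hpO, ι, hι, ?_⟩
  let S : Finset ℕ := (N * p).primeFactors
  have hN0 : N * p ≠ 0 := mul_ne_zero (NeZero.ne N) (Fact.out : p.Prime).ne_zero
  let inc : CuspForm.heckeAlgebra N 2 (↑S : Set ℕ) →+* CuspForm.heckeAlgebra N 2 (∅ : Set ℕ) :=
    (Subalgebra.inclusion (CuspForm.heckeAlgebra_mono (Set.empty_subset _))).toRingHom
  let χO : CuspForm.heckeAlgebra N 2 (↑S : Set ℕ) →+* O :=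
    ι.comp ((χ.codRestrict R hmem).comp inc)
  obtain ⟨O', iC', iD', iV', iA', iF', iZ', iAlg, iFin, -, hinj, ρ, hchar, hunr⟩ :=
    Fermat.Agent.S30.result p N S (Nat.mem_primeFactors.mpr ⟨Fact.out, dvd_mul_left _ _, hN0⟩)
      (fun q hq hqN => Nat.mem_primeFactors.mpr ⟨hq, hqN.mul_right p, hN0⟩) O hpO χO
  let b := Module.finBasisOfFinrankEq O' ρ.V ρ.finrank_eq
  refine ⟨O', iC', iD', iV', iA', iF', iZ', iAlg, iFin, hinj, FA.ModularForms.matRep b ρ.ρ,
    fun n => ?_, fun l hl hlN A hA => ⟨fun σ hσ => ?_, fun σ hσ => ?_⟩⟩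
  · obtain ⟨L, hL, h⟩ := ρ.isAdicContinuous n
    refine Subgroup.isOpen_mono (H₁ := L.fixingSubgroup) (fun σ hσ => ?_)
      (IntermediateField.fixingSubgroup_isOpen L)
    refine MonoidHom.mem_ker.mpr (Units.ext (Matrix.ext fun i j => ?_))
    have hd : (FA.ModularForms.matRep b ρ.ρ σ).val i j - (1 : Matrix _ _ O') i j ∈
        maximalIdeal O' ^ n := by
      have := FA.ModularForms.coord_mem_of_mem_smul b
        (h σ ((IntermediateField.mem_fixingSubgroup_iff L σ).mp hσ) (b j)) i
      rw [map_sub, Finsupp.sub_apply] at this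
      rwa [FA.ModularForms.matRep_val, LinearMap.toMatrix_apply, ← LinearMap.toMatrix_one b,
        LinearMap.toMatrix_apply, Module.End.one_apply]
    rw [← Ideal.Quotient.eq_zero_iff_mem, map_sub, sub_eq_zero] at hd
    refine hd.trans ?_
    rw [Matrix.one_apply, Units.val_one, Matrix.one_apply]
    split_ifs <;> simp
  · refine FA.ModularForms.matRep_eq_one b ρ.ρ
      (hunr l hl (fun h => hlN (h.mul_right p)) ?_ A hA _ (Subgroup.mem_map.mpr ⟨σ, hσ, rfl⟩))
    rintro rfl
    exact hlN (dvd_mul_left _ _)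
  · have hlS : l ∉ (↑S : Set ℕ) := fun h => hlN (Nat.mem_primeFactors.mp h).2.1
    have hlN' : ¬ l ∣ N := fun h => hlN (h.mul_right p)
    exact ⟨(χ.codRestrict R hmem) (inc (CuspForm.heckeAlgebra.T hl hlN' hlS)), hψT l hl hlN',
      FA.ModularForms.trace_det_of_charpoly b (hchar l hl hlN' hlS A hA σ ⟨σ.2, hσ⟩)⟩

end FA.Summary

end
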