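import Fermat.Agent.OpenImageAll.CartanImage
import Fermat.Agent.Root.SummaryExceptionalStructure
import Fermat.Agent.Root.SummarySerreDichotomy

/-!
# The image of Galois modulo every large prime, for every elliptic curve over `ℚ`

On an exceptional curve (`a_l = 0` at the inert good primes of `ℚ(√d)`) there is, for all large `p`,
an endomorphism `φ` of `E[p]` of square `d` such that the automorphisms induced by Galois of
`ℚ(√d)` are exactly those commuting with `φ`, and the others exactly those anticommuting with it: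
the whole normaliser of a Cartan subgroup. By Serre's dichotomy every curve has this image or all
of `Aut E[p]` at all large `p`; the thirteen CM invariants have the former.
-/

set_option autoImplicit false
set_option linter.unusedSectionVars false
set_option linter.style.haveILetI false

noncomputable section

open Matrix WeierstrassCurve WeierstrassCurve.Affine FA.EC FA.Frob FA.RT
open scoped WeierstrassCurve.Affine

local notation "Qb" => AlgebraicClosure ℚ
local notation "GQ" => AlgebraicClosure ℚ ≃ₐ[ℚ] AlgebraicClosure ℚ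

namespace FA.CartanImage

/-- The matrix of an automorphism in coordinates. -/
theorem exists_matrix {p : ℕ} [Fact p.Prime] {T : Type*} [AddCommGroup T]
    (e : T ≃+ (Fin 2 → ZMod p)) (ψ : T ≃+ T) :
    ∃ M : Matrix (Fin 2) (Fin 2) (ZMod p), M.det ≠ 0 ∧ ∀ P, e (ψ P) = M *ᵥ e P := by
  let f : (Fin 2 → ZMod p) ≃+ (Fin 2 → ZMod p) := (e.symm.trans ψ).trans e
  let L := (f.toAddMonoidHom).toZModLinearMap p
  have hL : ∀ v, LinearMap.toMatrix' L *ᵥ v = f v := fun v => by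
    rw [← Matrix.toLin'_apply, Matrix.toLin'_toMatrix']
    rfl
  refine ⟨LinearMap.toMatrix' L, fun h0 => ?_, fun P => ?_⟩
  · obtain ⟨v, hv, hv'⟩ := Matrix.exists_mulVec_eq_zero_iff.mpr h0
    exact hv (f.injective (by rw [← hL, hv', map_zero]))
  · rw [hL]
    simp [f]

end FA.CartanImage

namespace FA.Summary

/-- **The image of Galois modulo every large prime is the whole normaliser of a Cartan subgroup**
on an exceptional curve: an automorphism of `E[p]` comes from one fixing `√d` iff it commutes with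
`φ`, and from one moving `√d` iff it anticommutes with it. -/
theorem exceptional_cartan_image (E : WeierstrassCurve ℚ) [E.IsElliptic]
    [inst : DecidableEq (AlgebraicClosure ℚ)] {d : ℤ} (hd : Squarefree d) (hd1 : d ≠ 1)
    (h : ∀ l : ℕ, ∀ [Fact l.Prime],
      (∃ C : VariableChange ℚ_[l],
        HasGoodReduction ℤ_[l] (C • E.map (algebraMap ℚ ℚ_[l]))) →
      ¬ IsSquare (d : ZMod l) → E.LFunction l = 0)
    {s : AlgebraicClosure ℚ} (hs : s ^ 2 = (d : AlgebraicClosure ℚ)) :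
    ∃ M : ℕ, ∀ p : ℕ, p.Prime → M < p →
      ∃ φ : Submodule.torsionBy ℤ (E.toAffine⁄(AlgebraicClosure ℚ)).Point (p : ℤ) →+
          Submodule.torsionBy ℤ (E.toAffine⁄(AlgebraicClosure ℚ)).Point (p : ℤ),
        (∀ P, φ (φ P) = d • P) ∧
        ∀ ψ : Submodule.torsionBy ℤ (E.toAffine⁄(AlgebraicClosure ℚ)).Point (p : ℤ) ≃+
            Submodule.torsionBy ℤ (E.toAffine⁄(AlgebraicClosure ℚ)).Point (p : ℤ),
          ((∃ σ : AlgebraicClosure ℚ ≃ₐ[ℚ] AlgebraicClosure ℚ, σ s = s ∧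
              ∀ P, Affine.Point.map σ.toAlgHom P.1 = (ψ P).1) ↔ ∀ P, ψ (φ P) = φ (ψ P)) ∧
          ((∃ σ : AlgebraicClosure ℚ ≃ₐ[ℚ] AlgebraicClosure ℚ, σ s ≠ s ∧
              ∀ P, Affine.Point.map σ.toAlgHom P.1 = (ψ P).1) ↔ ∀ P, ψ (φ P) = -φ (ψ P)) := by
  obtain rfl : inst = instDecEqAlgebraicClosureRat := Subsingleton.elim _ _
  obtain ⟨W, hW⟩ := exists_integralModel E
  have hΔ := Δ_ne_zero_of_model hW
  haveI := ratCurve_isElliptic_of_Δ hΔ
  obtain ⟨M, hM⟩ := noStableSubgroup_large E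
  obtain ⟨t, H, ht, hH, -, hfix⟩ := FA.OpenImageAll.exists_index_two_of_sqrt hd hd1
  obtain ⟨τ, hτ⟩ := SetLike.exists_not_mem_of_ne_top H (fun h => by simp [h] at hH) rfl
  have hτs : τ s ≠ s := fun h => hτ ((hfix τ).mpr (by
    rcases sq_eq_sq_iff_eq_or_eq_neg.mp (ht.trans hs.symm) with e | e
    · rw [e, h]
    · rw [e, map_neg, h]))
  refine ⟨max M (max 2 (max W.Δ.natAbs d.natAbs)), fun p hp hlt => ?_⟩
  simp only [max_lt_iff] at hlt
  obtain ⟨hpM, hp2, hpΔ, hpd⟩ := hlt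
  haveI := Fact.mk hp
  have hgood : W.IsGoodPrimeFor p := fun hdvd => absurd
    (Nat.le_of_dvd (Int.natAbs_pos.mpr hΔ) (Int.natCast_dvd.mp hdvd)) (by omega)
  have hnd : ¬ (p : ℤ) ∣ d := fun hdvd => absurd
    (Nat.le_of_dvd (Int.natAbs_pos.mpr hd.ne_zero) (Int.natCast_dvd.mp hdvd)) (by omega)
  obtain ⟨Y, hYY, hY⟩ := FA.CMStructure.exists_cartan (p := p)
    (FA.CMStructure.isExceptional_of_curve hW hd hd1 h)
    (FA.Root.Irred.modRepIsIrreducible_of_noStableSubgroup hW (hM p hp hpM)) hs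
  obtain ⟨e, he⟩ := FA.Independence.exists_coord hW p
  let φ := (e.symm.toAddMonoidHom.comp (Matrix.mulVecLin Y).toAddMonoidHom).comp e.toAddMonoidHom
  have hφ : ∀ P, e (φ P) = Y *ᵥ e P := fun P => e.apply_symm_apply _
  refine ⟨φ, fun P => e.injective ?_, fun ψ => ?_⟩
  · rw [hφ, hφ, mulVec_mulVec, hYY, smul_mulVec, one_mulVec, map_zsmul, Int.cast_smul_eq_zsmul]
  obtain ⟨N, hN, hψ⟩ := FA.CartanImage.exists_matrix e ψ
  -- `ψ` comes from `σ` iff `N` is the matrix of `σ`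
  have hind : ∀ σ : GQ, (∀ P, Affine.Point.map σ.toAlgHom P.1 = (ψ P).1) ↔
      curveRep p W σ = N := by
    refine fun σ => ⟨fun hσ => Matrix.ext_iff_mulVec.mpr fun v => ?_,
      fun hσ P => he σ P (ψ P) (by rw [hψ, hσ])⟩
    obtain ⟨P, rfl⟩ := e.surjective v
    have h1 := he σ P (e.symm (curveRep p W σ *ᵥ e P)) (e.apply_symm_apply _)
    rw [hσ P] at h1
    rw [← hψ, Subtype.ext h1, e.apply_symm_apply]
  have hcomm : (∀ P, ψ (φ P) = φ (ψ P)) ↔ N * Y = Y * N := by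
    refine ⟨fun hc => Matrix.ext_iff_mulVec.mpr fun v => ?_, fun hc P => e.injective ?_⟩
    · obtain ⟨P, rfl⟩ := e.surjective v
      rw [← mulVec_mulVec, ← mulVec_mulVec, ← hφ, ← hψ, hc, hφ, hψ]
    · rw [hψ, hφ, hφ, hψ, mulVec_mulVec, mulVec_mulVec, hc]
  have hanti : (∀ P, ψ (φ P) = -φ (ψ P)) ↔ N * Y = -(Y * N) := by
    refine ⟨fun hc => Matrix.ext_iff_mulVec.mpr fun v => ?_, fun hc P => e.injective ?_⟩
    · obtain ⟨P, rfl⟩ := e.surjective v
      rw [neg_mulVec, ← mulVec_mulVec, ← mulVec_mulVec, ← hφ, ← hψ, hc, map_neg, hφ, hψ]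
    · rw [map_neg, hψ, hφ, hφ, hψ, mulVec_mulVec, mulVec_mulVec, hc, neg_mulVec]
  obtain ⟨hfull, hfull'⟩ := FA.CartanImage.exists_eq_of_commute_or_anticommute
    (by omega) hgood hnd hs hτs hYY hY hN
  rw [hcomm, hanti]
  simp only [hind]
  exact ⟨⟨fun ⟨σ, hσ, hσN⟩ => hσN ▸ (hY σ).1 hσ, hfull⟩,
    ⟨fun ⟨σ, hσ, hσN⟩ => hσN ▸ (hY σ).2 hσ, hfull'⟩⟩

/-- **The image of Galois modulo every large prime, for every elliptic curve over `ℚ`**: all of
`Aut E[p]`, or the whole normaliser of a Cartan subgroup attached to one imaginary quadratic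
field. -/
theorem galois_image_large (E : WeierstrassCurve ℚ) [E.IsElliptic]
    [inst : DecidableEq (AlgebraicClosure ℚ)] :
    (∃ M : ℕ, ∀ p : ℕ, p.Prime → M < p →
      ∀ ψ : Submodule.torsionBy ℤ (E.toAffine⁄(AlgebraicClosure ℚ)).Point (p : ℤ) ≃+
          Submodule.torsionBy ℤ (E.toAffine⁄(AlgebraicClosure ℚ)).Point (p : ℤ),
        ∃ σ : AlgebraicClosure ℚ ≃ₐ[ℚ] AlgebraicClosure ℚ, ∀ P,
          Affine.Point.map σ.toAlgHom P.1 = (ψ P).1) ∨
    ∃ (d : ℤ) (s : AlgebraicClosure ℚ), d < 0 ∧ Squarefree d ∧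
      s ^ 2 = (d : AlgebraicClosure ℚ) ∧ ∃ M : ℕ, ∀ p : ℕ, p.Prime → M < p →
      ∃ φ : Submodule.torsionBy ℤ (E.toAffine⁄(AlgebraicClosure ℚ)).Point (p : ℤ) →+
          Submodule.torsionBy ℤ (E.toAffine⁄(AlgebraicClosure ℚ)).Point (p : ℤ),
        (∀ P, φ (φ P) = d • P) ∧
        ∀ ψ : Submodule.torsionBy ℤ (E.toAffine⁄(AlgebraicClosure ℚ)).Point (p : ℤ) ≃+
            Submodule.torsionBy ℤ (E.toAffine⁄(AlgebraicClosure ℚ)).Point (p : ℤ),
          ((∃ σ : AlgebraicClosure ℚ ≃ₐ[ℚ] AlgebraicClosure ℚ, σ s = s ∧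
              ∀ P, Affine.Point.map σ.toAlgHom P.1 = (ψ P).1) ↔ ∀ P, ψ (φ P) = φ (ψ P)) ∧
          ((∃ σ : AlgebraicClosure ℚ ≃ₐ[ℚ] AlgebraicClosure ℚ, σ s ≠ s ∧
              ∀ P, Affine.Point.map σ.toAlgHom P.1 = (ψ P).1) ↔ ∀ P, ψ (φ P) = -φ (ψ P)) := by
  obtain rfl : inst = instDecEqAlgebraicClosureRat := Subsingleton.elim _ _
  rcases galoisSurjectiveTorsion_large_or_dihedral E with ⟨M, hM⟩ | ⟨d, hd, hd1, h⟩
  · refine Or.inl ⟨M, fun p hp hlt => ?_⟩
    have h1 := hM p hp hlt 1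
    rw [pow_one] at h1
    exact h1
  · obtain ⟨s, hs⟩ := IsAlgClosed.exists_pow_nat_eq (d : Qb) two_pos
    exact Or.inr ⟨d, s, exceptional_imaginary E hd hd1 h, hd, hs,
      exceptional_cartan_image E hd hd1 h hs⟩

/-- **The image of Galois with complex multiplication**: for the thirteen values of `j`, at all
large primes, the whole normaliser of a Cartan subgroup attached to an imaginary quadratic
field. -/
theorem galois_image_large_of_cm (E : WeierstrassCurve ℚ) [E.IsElliptic]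
    [inst : DecidableEq (AlgebraicClosure ℚ)]
    (hj : E.j ∈ ({0, 54000, -12288000, 1728, 287496, -3375, 16581375, 8000, -32768, -884736,
      -884736000, -147197952000, -262537412640768000} : Finset ℚ)) :
    ∃ (d : ℤ) (s : AlgebraicClosure ℚ), d < 0 ∧ Squarefree d ∧
      s ^ 2 = (d : AlgebraicClosure ℚ) ∧ ∃ M : ℕ, ∀ p : ℕ, p.Prime → M < p →
      ∃ φ : Submodule.torsionBy ℤ (E.toAffine⁄(AlgebraicClosure ℚ)).Point (p : ℤ) →+
          Submodule.torsionBy ℤ (E.toAffine⁄(AlgebraicClosure ℚ)).Point (p : ℤ),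
        (∀ P, φ (φ P) = d • P) ∧
        ∀ ψ : Submodule.torsionBy ℤ (E.toAffine⁄(AlgebraicClosure ℚ)).Point (p : ℤ) ≃+
            Submodule.torsionBy ℤ (E.toAffine⁄(AlgebraicClosure ℚ)).Point (p : ℤ),
          ((∃ σ : AlgebraicClosure ℚ ≃ₐ[ℚ] AlgebraicClosure ℚ, σ s = s ∧
              ∀ P, Affine.Point.map σ.toAlgHom P.1 = (ψ P).1) ↔ ∀ P, ψ (φ P) = φ (ψ P)) ∧
          ((∃ σ : AlgebraicClosure ℚ ≃ₐ[ℚ] AlgebraicClosure ℚ, σ s ≠ s ∧
              ∀ P, Affine.Point.map σ.toAlgHom P.1 = (ψ P).1) ↔ ∀ P, ψ (φ P) = -φ (ψ P)) := by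
  obtain rfl : inst = instDecEqAlgebraicClosureRat := Subsingleton.elim _ _
  refine (galois_image_large E).resolve_left ?_
  rintro ⟨M, hM⟩
  obtain ⟨p, hlt, hp⟩ := Nat.exists_infinite_primes (M + 3)
  exact not_galoisSurjectiveTorsion_of_cm_all E hp (by omega) hj (hM p hp (by omega))

end FA.Summary

end
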