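import Fermat.Agent.Bashmakov.Irreducible
import Fermat.Agent.Root.SummaryBashmakov
import Fermat.Agent.Root.SummaryCartanImage
import Fermat.Agent.NagellLutz.Main

/-!
# Bashmakov's theorem for every elliptic curve over `ℚ`

For a rational point `P` of infinite order, all large primes `p`, every `n` and `pⁿ Q = P`, Galois
over `ℚ(E[pⁿ])` translates `Q` by every element of `E[pⁿ]`, with or without complex multiplication:
at all large `p` there is no stable subgroup of order `p` and Galois induces `-1` on `E[p]`, either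
as an automorphism of `E[p]` or as one commuting with the Cartan endomorphism.
-/

set_option autoImplicit false
set_option linter.style.haveILetI false
set_option linter.unusedSectionVars false

noncomputable section

open WeierstrassCurve WeierstrassCurve.Affine FA.Frob FA.RT
open scoped WeierstrassCurve.Affine

local notation "Qb" => AlgebraicClosure ℚ
local notation "GQ" => AlgebraicClosure ℚ ≃ₐ[ℚ] AlgebraicClosure ℚ

namespace FA.Bashmakov

/-- **At all large primes** the `p`-torsion has only the trivial stable subgroups and Galois acts on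
it as `-1` somewhere. -/
theorem exists_bound_irreducible_neg (E : WeierstrassCurve ℚ) [E.IsElliptic] :
    ∃ M : ℕ, ∀ p : ℕ, p.Prime → M < p →
      (∀ S : AddSubgroup (E.toAffine⁄Qb).Point,
        (∀ y ∈ S, y ∈ pTors (E.toAffine⁄Qb).Point p 1) →
        (∀ σ, ∀ y ∈ S, pointAct E σ y ∈ S) →
        (∀ y ∈ S, y = 0) ∨ ∀ y ∈ pTors (E.toAffine⁄Qb).Point p 1, y ∈ S) ∧
      ∃ τ, ∀ y ∈ pTors (E.toAffine⁄Qb).Point p 1, pointAct E τ y = -y := by
  obtain ⟨W, hW⟩ := exists_integralModel E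
  haveI := ratCurve_isElliptic_of_Δ (Δ_ne_zero_of_model hW)
  obtain ⟨M, hM⟩ := FA.Summary.noStableSubgroup_large E
  obtain ⟨M', hM'⟩ : ∃ M : ℕ, ∀ p : ℕ, p.Prime → M < p → ∃ τ : GQ,
      ∀ P : Submodule.torsionBy ℤ (E.toAffine⁄Qb).Point (p : ℤ),
        Affine.Point.map (W' := E.toAffine) τ.toAlgHom P.1 = (-P).1 := by
    rcases FA.Summary.galois_image_large E with ⟨M, hM⟩ | ⟨d, s, -, -, -, M, hM⟩
    · exact ⟨M, fun p hp hlt => hM p hp hlt (AddEquiv.neg _)⟩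
    · refine ⟨M, fun p hp hlt => ?_⟩
      obtain ⟨φ, -, hφ⟩ := hM p hp hlt
      obtain ⟨τ, -, hτ⟩ := (hφ (AddEquiv.neg _)).1.mpr fun P => by simp
      exact ⟨τ, hτ⟩
  refine ⟨max M M', fun p hp hlt => ?_⟩
  rw [max_lt_iff] at hlt
  haveI := Fact.mk hp
  obtain ⟨e, -⟩ := FA.Independence.exists_coord hW p
  have hmem : ∀ {y : (E.toAffine⁄Qb).Point}, y ∈ pTors (E.toAffine⁄Qb).Point p 1 ↔
      y ∈ Submodule.torsionBy ℤ (E.toAffine⁄Qb).Point (p : ℤ) := fun {y} => by rw [pTors, pow_one]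
  refine ⟨fun S hS hst => ?_, ?_⟩
  · haveI : Finite (Submodule.torsionBy ℤ (E.toAffine⁄Qb).Point (p : ℤ)) :=
      Finite.of_equiv _ e.symm.toEquiv
    have hcard : Nat.card (Submodule.torsionBy ℤ (E.toAffine⁄Qb).Point (p : ℤ)).toAddSubgroup =
        p ^ 2 := by
      rw [show Nat.card (Submodule.torsionBy ℤ (E.toAffine⁄Qb).Point (p : ℤ)).toAddSubgroup =
        Nat.card (Submodule.torsionBy ℤ (E.toAffine⁄Qb).Point (p : ℤ)) from rfl,
        Nat.card_congr e.toEquiv, Nat.card_fun, Nat.card_zmod, Nat.card_fin]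
    have hle : S ≤ (Submodule.torsionBy ℤ (E.toAffine⁄Qb).Point (p : ℤ)).toAddSubgroup :=
      fun y hy => hmem.mp (hS y hy)
    obtain ⟨i, hi, hcardS⟩ := (Nat.dvd_prime_pow hp).mp (hcard ▸ AddSubgroup.card_dvd_of_le hle)
    interval_cases i
    · left
      rw [pow_zero, AddSubgroup.card_eq_one] at hcardS
      intro y hy
      rw [hcardS] at hy
      exact hy
    · exact absurd hst (hM p hp hlt.1 S (by rw [hcardS, pow_one]))
    · right
      have heq : S = (Submodule.torsionBy ℤ (E.toAffine⁄Qb).Point (p : ℤ)).toAddSubgroup :=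
        AddSubgroup.eq_of_le_of_card_ge hle (by rw [hcardS, hcard])
      exact fun y hy => heq ▸ hmem.mp hy
  · obtain ⟨τ, hτ⟩ := hM' p hp hlt.2
    exact ⟨τ, fun y hy => hτ ⟨y, hmem.mp hy⟩⟩

end FA.Bashmakov

namespace FA.Summary

open FA.Bashmakov

/-- **Bashmakov's theorem for every elliptic curve over `ℚ`**: for a rational point `P` of
infinite order, all large primes `p`, every `n` and every `Q` with `pⁿ Q = P`, every element of
Galois can be changed, without changing its action on `E[pⁿ]`, to send `Q` to `Q + t` for any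
`t ∈ E[pⁿ]`: the Galois group of `ℚ(E[pⁿ], p⁻ⁿP)` is the semidirect product of that of `ℚ(E[pⁿ])`
with `E[pⁿ]`. -/
theorem bashmakov_kummer_all (E : WeierstrassCurve ℚ) [E.IsElliptic]
    [inst : DecidableEq (AlgebraicClosure ℚ)] (P : E.toAffine.Point) (hP : ¬ IsOfFinAddOrder P) :
    ∃ M : ℕ, ∀ p : ℕ, p.Prime → M < p → ∀ (n : ℕ)
      (Q : (E.toAffine⁄(AlgebraicClosure ℚ)).Point),
      p ^ n • Q = Affine.Point.map (W' := E.toAffine) (Algebra.ofId ℚ Qb) P →
      ∀ (σ : AlgebraicClosure ℚ ≃ₐ[ℚ] AlgebraicClosure ℚ)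
        (t : Submodule.torsionBy ℤ (E.toAffine⁄(AlgebraicClosure ℚ)).Point ((p : ℤ) ^ n)),
      ∃ g : AlgebraicClosure ℚ ≃ₐ[ℚ] AlgebraicClosure ℚ,
        (∀ T : Submodule.torsionBy ℤ (E.toAffine⁄(AlgebraicClosure ℚ)).Point ((p : ℤ) ^ n),
          Affine.Point.map g.toAlgHom T.1 = Affine.Point.map σ.toAlgHom T.1) ∧
        Affine.Point.map g.toAlgHom Q = Q + t.1 := by
  obtain rfl : inst = instDecEqAlgebraicClosureRat := Subsingleton.elim _ _
  haveI := FA.MordellWeil.mordell E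
  obtain ⟨M₁, hM₁⟩ := exists_bound_not_mul hP
  obtain ⟨M₂, hM₂⟩ := exists_bound_irreducible_neg E
  refine ⟨max 2 (max M₁ M₂), fun p hp hlt n Q hQ σ t => ?_⟩
  simp only [max_lt_iff] at hlt
  obtain ⟨hp2, hlt₁, hlt₂⟩ := hlt
  obtain ⟨hirr, hneg⟩ := hM₂ p hp hlt₂
  have hfix : ∀ g : GQ, pointAct E g (p ^ n • Q) = p ^ n • Q := fun g => by
    rw [hQ]
    exact FA.Torsion.map_fixed E g P
  have hd : pointAct E σ Q - Q ∈ pTors (E.toAffine⁄Qb).Point p n := by
    rw [mem_pTors_iff, nsmul_sub, ← map_nsmul, hfix, sub_self]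
  obtain ⟨g, hg, hgQ⟩ := exists_translation (pointAct E) (hp.odd_of_ne_two (by omega)) n hirr hneg
    hfix (fun R hR he => by
      obtain ⟨R₀, hR₀⟩ := FA.Thirteen.exists_rat_point (E := E) R hR
      exact hM₁ p hlt₁ R₀ (Affine.Point.map_injective (W' := E.toAffine) (Algebra.ofId ℚ Qb)
        ((map_nsmul (Affine.Point.map (W' := E.toAffine) (Algebra.ofId ℚ Qb)) p R₀).trans
          ((congrArg (p • ·) hR₀).trans (he.trans hQ)))))
    (t := pointAct E σ⁻¹ (t.1 - (pointAct E σ Q - Q)))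
    (act_mem_pTors (pointAct E) _ (sub_mem t.2 hd))
  refine ⟨σ * g, fun T => ?_, ?_⟩
  · show pointAct E (σ * g) T.1 = pointAct E σ T.1
    rw [act_mul, hg T.1 T.2]
  · show pointAct E (σ * g) Q = Q + t.1
    rw [act_mul, hgQ, map_add, ← act_mul, mul_inv_cancel, map_one]
    show pointAct E σ Q + (t.1 - (pointAct E σ Q - Q)) = Q + t.1
    abel

/-- **The Kummer part**: every translation of `Q` by `E[pⁿ]` is given by an element fixing
`E[pⁿ]`, so `ℚ(E[pⁿ], p⁻ⁿP)` has the largest possible degree over `ℚ(E[pⁿ])`. -/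
theorem kummerTranslations_all (E : WeierstrassCurve ℚ) [E.IsElliptic]
    [inst : DecidableEq (AlgebraicClosure ℚ)] (P : E.toAffine.Point) (hP : ¬ IsOfFinAddOrder P) :
    ∃ M : ℕ, ∀ p : ℕ, p.Prime → M < p → ∀ (n : ℕ)
      (Q : (E.toAffine⁄(AlgebraicClosure ℚ)).Point),
      p ^ n • Q = Affine.Point.map (W' := E.toAffine) (Algebra.ofId ℚ Qb) P →
      ∀ t : Submodule.torsionBy ℤ (E.toAffine⁄(AlgebraicClosure ℚ)).Point ((p : ℤ) ^ n),
      ∃ g : AlgebraicClosure ℚ ≃ₐ[ℚ] AlgebraicClosure ℚ,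
        (∀ T : Submodule.torsionBy ℤ (E.toAffine⁄(AlgebraicClosure ℚ)).Point ((p : ℤ) ^ n),
          Affine.Point.map g.toAlgHom T.1 = T.1) ∧
        Affine.Point.map g.toAlgHom Q = Q + t.1 := by
  obtain rfl : inst = instDecEqAlgebraicClosureRat := Subsingleton.elim _ _
  obtain ⟨M, hM⟩ := bashmakov_kummer_all E P hP
  refine ⟨M, fun p hp hlt n Q hQ t => ?_⟩
  obtain ⟨g, hg, hgQ⟩ := hM p hp hlt n Q hQ 1 t
  exact ⟨g, fun T => (hg T).trans (FA.OpenImage.map_one_apply E T.1), hgQ⟩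

/-- **A curve with complex multiplication**: on `y² = x³ - 2` the Kummer theory of `(3, 5)` is
maximal at all large primes. -/
theorem kummerTranslations_mordell [inst : DecidableEq (AlgebraicClosure ℚ)] :
    ∃ P : (⟨0, 0, 0, ((0 : ℤ) : ℚ), ((-2 : ℤ) : ℚ)⟩ : WeierstrassCurve ℚ).toAffine.Point,
      (∃ h, P = Affine.Point.some 3 5 h) ∧ ¬ IsOfFinAddOrder P ∧
      ∃ M : ℕ, ∀ p : ℕ, p.Prime → M < p → ∀ (n : ℕ)
      (Q : ((⟨0, 0, 0, ((0 : ℤ) : ℚ), ((-2 : ℤ) : ℚ)⟩ :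
        WeierstrassCurve ℚ).toAffine⁄(AlgebraicClosure ℚ)).Point),
      p ^ n • Q = Affine.Point.map
        (W' := (⟨0, 0, 0, ((0 : ℤ) : ℚ), ((-2 : ℤ) : ℚ)⟩ : WeierstrassCurve ℚ).toAffine)
        (Algebra.ofId ℚ Qb) P →
      ∀ t : Submodule.torsionBy ℤ ((⟨0, 0, 0, ((0 : ℤ) : ℚ), ((-2 : ℤ) : ℚ)⟩ :
        WeierstrassCurve ℚ).toAffine⁄(AlgebraicClosure ℚ)).Point ((p : ℤ) ^ n),
      ∃ g : AlgebraicClosure ℚ ≃ₐ[ℚ] AlgebraicClosure ℚ,
        (∀ T : Submodule.torsionBy ℤ ((⟨0, 0, 0, ((0 : ℤ) : ℚ), ((-2 : ℤ) : ℚ)⟩ :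
            WeierstrassCurve ℚ).toAffine⁄(AlgebraicClosure ℚ)).Point ((p : ℤ) ^ n),
          Affine.Point.map g.toAlgHom T.1 = T.1) ∧
        Affine.Point.map g.toAlgHom Q = Q + t.1 := by
  haveI : (⟨0, 0, 0, ((0 : ℤ) : ℚ), ((-2 : ℤ) : ℚ)⟩ : WeierstrassCurve ℚ).IsElliptic := by
    refine ⟨isUnit_iff_ne_zero.mpr ?_⟩
    norm_num [WeierstrassCurve.Δ, WeierstrassCurve.b₂, WeierstrassCurve.b₄, WeierstrassCurve.b₆,
      WeierstrassCurve.b₈]
  have h : (⟨0, 0, 0, ((0 : ℤ) : ℚ), ((-2 : ℤ) : ℚ)⟩ :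
      WeierstrassCurve ℚ).toAffine.Nonsingular 3 5 :=
    Affine.equation_iff_nonsingular.mp ((Affine.equation_iff 3 5).mpr (by norm_num))
  have hinf : ¬ IsOfFinAddOrder (Affine.Point.some 3 5 h) := fun hfin => by
    obtain ⟨X, Y, -, hY, h5⟩ := nagell_lutz 0 (-2) (by norm_num) hfin
    obtain rfl : Y = 5 := by exact_mod_cast hY.symm
    norm_num at h5
  exact ⟨_, ⟨h, rfl⟩, hinf, kummerTranslations_all _ _ hinf⟩

end FA.Summary

end
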