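import Fermat.Agent.LinearDependence.Irreducible
import Fermat.Agent.Root.SummaryBashmakovAll
import Fermat.Agent.Root.SummaryLinearDependence

/-!
# Detecting linear dependence, for every elliptic curve over `ℚ`

At all large primes `p` only scalars commute with Galois on `E[p]`, with or without complex
multiplication: with every automorphism induced this is clear, and otherwise the Cartan endomorphism
is induced and anticommutes with some element. With irreducibility and `-1` in the image this gives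
an element of Galois fixing `E[p]` and a `p`-th part of `P` and none of `Q` for independent `P` and
`Q`, so a point which is a multiple of `P` modulo almost all primes depends linearly on it.
-/

set_option autoImplicit false
set_option linter.style.haveILetI false
set_option linter.unusedSectionVars false

noncomputable section

open Matrix WeierstrassCurve WeierstrassCurve.Affine FA.Frob FA.RT FA.PointDiv
open scoped WeierstrassCurve.Affine

local notation "Qb" => AlgebraicClosure ℚ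
local notation "GQ" => AlgebraicClosure ℚ ≃ₐ[ℚ] AlgebraicClosure ℚ

namespace FA.LinearDependence

/-- A matrix commuting with the two elementary unipotent matrices is a scalar. -/
theorem eq_smul_one_of_commute {k : Type*} [CommRing k] {N : Matrix (Fin 2) (Fin 2) k}
    (hu : N * !![1, 1; 0, 1] = !![1, 1; 0, 1] * N)
    (hl : N * !![1, 0; 1, 1] = !![1, 0; 1, 1] * N) : N = N 0 0 • 1 := by
  have u00 := congrFun (congrFun hu 0) 0
  have u01 := congrFun (congrFun hu 0) 1
  have l00 := congrFun (congrFun hl 0) 0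
  simp [Matrix.mul_apply, Fin.sum_univ_two] at u00 u01 l00
  ext i j
  fin_cases i <;> fin_cases j <;> simp
  · exact l00
  · exact u00
  · linear_combination -u01

/-- **At all large primes only scalars commute with Galois**, in coordinates. -/
theorem exists_bound_scalar_matrix (E : WeierstrassCurve ℚ) [E.IsElliptic]
    {W : WeierstrassCurve ℤ} [(ratCurve W).IsElliptic] (hW : W.IsIntegralModelOf E) :
    ∃ M : ℕ, ∀ (p : ℕ) [Fact p.Prime], M < p → ∀ N : Matrix (Fin 2) (Fin 2) (ZMod p),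
      (∀ σ : GQ, N * curveRep p W σ = curveRep p W σ * N) → ∃ c : ZMod p, N = c • 1 := by
  rcases FA.Summary.galoisSurjectiveTorsion_large_or_dihedral E with ⟨M, hM⟩ | ⟨d, hd, hd1, h⟩
  · refine ⟨M, fun p hp hlt N hN => ⟨N 0 0, ?_⟩⟩
    have h1 := hM p hp.out hlt 1
    rw [pow_one] at h1
    obtain ⟨σ, hσ⟩ := FA.Supersingular.exists_curveRep_eq_of_surjective hW h1
      (M := !![1, 1; 0, 1]) (by simp [det_fin_two_of])
    obtain ⟨τ, hτ⟩ := FA.Supersingular.exists_curveRep_eq_of_surjective hW h1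
      (M := !![1, 0; 1, 1]) (by simp [det_fin_two_of])
    exact eq_smul_one_of_commute (hσ ▸ hN σ) (hτ ▸ hN τ)
  · have hΔ := Δ_ne_zero_of_model hW
    obtain ⟨M, hM⟩ := FA.Summary.noStableSubgroup_large E
    obtain ⟨s, H, hs, hH, -, hfix⟩ := FA.OpenImageAll.exists_index_two_of_sqrt hd hd1
    obtain ⟨τ, hτ⟩ := SetLike.exists_not_mem_of_ne_top H (fun h => by simp [h] at hH) rfl
    have hτs : τ s ≠ s := fun h => hτ ((hfix τ).mpr h)
    refine ⟨max M (max 2 (max W.Δ.natAbs d.natAbs)), fun p hp hlt N hN => ?_⟩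
    simp only [max_lt_iff] at hlt
    obtain ⟨hpM, hp2, hpΔ, hpd⟩ := hlt
    have hgood : W.IsGoodPrimeFor p := fun hdvd => absurd
      (Nat.le_of_dvd (Int.natAbs_pos.mpr hΔ) (Int.natCast_dvd.mp hdvd)) (by omega)
    have hnd : ¬ (p : ℤ) ∣ d := fun hdvd => absurd
      (Nat.le_of_dvd (Int.natAbs_pos.mpr hd.ne_zero) (Int.natCast_dvd.mp hdvd)) (by omega)
    have hd0 : (d : ZMod p) ≠ 0 := fun h0 => hnd ((ZMod.intCast_zmod_eq_zero_iff_dvd d p).mp h0)
    have h2 : (2 : ZMod p) ≠ 0 := fun h0 => by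
      have := Nat.le_of_dvd two_pos ((ZMod.natCast_eq_zero_iff 2 p).mp (by exact_mod_cast h0))
      omega
    obtain ⟨Y, hYY, hY⟩ := FA.CMStructure.exists_cartan (p := p)
      (FA.CMStructure.isExceptional_of_curve hW hd hd1 h)
      (FA.Root.Irred.modRepIsIrreducible_of_noStableSubgroup hW (hM p hp.out hpM)) hs
    have hns := FA.CartanImage.ne_smul_one h2 hd0 hYY (FA.CartanImage.det_curveRep_ne_zero τ)
      ((hY τ).2 hτs)
    have hdetY : Y.det ≠ 0 := by
      rw [(FA.CartanImage.trace_det_of_sq hYY hns).2]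
      exact neg_ne_zero.mpr hd0
    obtain ⟨σ, -, hσ⟩ := (FA.CartanImage.exists_eq_of_commute_or_anticommute (by omega) hgood hnd hs
      hτs hYY hY hdetY).1 rfl
    obtain ⟨a, b, hab⟩ := FA.Exceptional.exists_eq_add_of_commute hns (M := N) (hσ ▸ hN σ)
    have e := hN τ
    rw [hab, add_mul, mul_add, smul_mul_assoc, mul_smul_comm, smul_mul_assoc, mul_smul_comm,
      one_mul, mul_one, add_left_inj, (hY τ).2 hτs, smul_neg, eq_neg_iff_add_eq_zero, ← add_smul,
      ← two_mul, smul_eq_zero] at e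
    rcases e with e | e
    · exact ⟨b, by rw [hab, (mul_eq_zero.mp e).resolve_left h2, zero_smul, zero_add]⟩
    · have h0 := congrArg Matrix.det e
      rw [det_mul, det_zero, mul_eq_zero] at h0
      exact absurd h0 (not_or.mpr ⟨hdetY, FA.CartanImage.det_curveRep_ne_zero τ⟩)

end FA.LinearDependence

namespace FA.Summary

/-- **Only scalars commute with Galois on `E[p]`**, for every elliptic curve over `ℚ` and every
large prime `p`. -/
theorem scalarEndomorphisms_all (E : WeierstrassCurve ℚ) [E.IsElliptic]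
    [inst : DecidableEq (AlgebraicClosure ℚ)] :
    ∃ M : ℕ, ∀ p : ℕ, p.Prime → M < p →
      ∀ f : Submodule.torsionBy ℤ (E.toAffine⁄(AlgebraicClosure ℚ)).Point (p : ℤ) →+
          Submodule.torsionBy ℤ (E.toAffine⁄(AlgebraicClosure ℚ)).Point (p : ℤ),
        (∀ (σ : AlgebraicClosure ℚ ≃ₐ[ℚ] AlgebraicClosure ℚ) P Q,
          Affine.Point.map σ.toAlgHom P.1 = Q.1 →
            Affine.Point.map σ.toAlgHom (f P).1 = (f Q).1) →
        ∃ a : ℤ, ∀ P, f P = a • P := by
  obtain rfl : inst = instDecEqAlgebraicClosureRat := Subsingleton.elim _ _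
  obtain ⟨W, hW⟩ := exists_integralModel E
  haveI := ratCurve_isElliptic_of_Δ (Δ_ne_zero_of_model hW)
  obtain ⟨M, hM⟩ := FA.LinearDependence.exists_bound_scalar_matrix E hW
  refine ⟨M, fun p hp hlt f hf => ?_⟩
  haveI := Fact.mk hp
  obtain ⟨e, he⟩ := FA.Independence.exists_coord hW p
  let L := ((e.toAddMonoidHom.comp f).comp e.symm.toAddMonoidHom).toZModLinearMap p
  have hN : ∀ P, e (f P) = LinearMap.toMatrix' L *ᵥ e P := fun P => by
    rw [← Matrix.toLin'_apply, Matrix.toLin'_toMatrix']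
    show e (f P) = e (f (e.symm (e P)))
    rw [e.symm_apply_apply]
  obtain ⟨c, hc⟩ := hM p hlt (LinearMap.toMatrix' L) fun σ => Matrix.ext_iff_mulVec.mpr fun v => by
    obtain ⟨P, rfl⟩ := e.surjective v
    obtain ⟨Q, hQ⟩ : ∃ Q, e Q = curveRep p W σ *ᵥ e P := e.surjective _
    have h1 := hf σ P Q (he σ P Q hQ)
    rw [he σ (f P) (e.symm (curveRep p W σ *ᵥ e (f P))) (e.apply_symm_apply _)] at h1
    rw [← mulVec_mulVec, ← mulVec_mulVec, ← hN, ← hQ, ← hN, ← Subtype.ext h1, e.apply_symm_apply]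
  refine ⟨(c.val : ℤ), fun P => e.injective ?_⟩
  rw [hN, hc, smul_mulVec, one_mulVec, map_zsmul, ← Int.cast_smul_eq_zsmul (ZMod p),
    Int.cast_natCast, ZMod.natCast_zmod_val]

end FA.Summary

namespace FA.LinearDependence

open scoped Classical

/-- **At all large primes** the hypotheses of `exists_translation_snd` on the `p`-torsion. -/
theorem exists_bound_irreducible_scalar (W : WeierstrassCurve ℤ) [(ratCurve W).IsElliptic] :
    ∃ M : ℕ, ∀ (p : ℕ) [Fact p.Prime], M < p →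
      (∀ S : AddSubgroup ((ratCurve W).toAffine⁄Qb).Point,
        (∀ y ∈ S, y ∈ FA.Bashmakov.pTors ((ratCurve W).toAffine⁄Qb).Point p 1) →
        (∀ σ, ∀ y ∈ S, FA.Bashmakov.pointAct (ratCurve W) σ y ∈ S) →
        (∀ y ∈ S, y = 0) ∨
          ∀ y ∈ FA.Bashmakov.pTors ((ratCurve W).toAffine⁄Qb).Point p 1, y ∈ S) ∧
      (∃ τ, ∀ y ∈ FA.Bashmakov.pTors ((ratCurve W).toAffine⁄Qb).Point p 1,
        FA.Bashmakov.pointAct (ratCurve W) τ y = -y) ∧
      ∀ f : FA.Bashmakov.pTors ((ratCurve W).toAffine⁄Qb).Point p 1 →+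
          FA.Bashmakov.pTors ((ratCurve W).toAffine⁄Qb).Point p 1,
        (∀ (σ : GQ) (x y : FA.Bashmakov.pTors ((ratCurve W).toAffine⁄Qb).Point p 1),
          y.1 = FA.Bashmakov.pointAct (ratCurve W) σ x.1 →
            (f y).1 = FA.Bashmakov.pointAct (ratCurve W) σ (f x).1) →
        ∃ a : ℤ, ∀ x, (f x).1 = a • x.1 := by
  obtain ⟨M₁, hM₁⟩ := FA.Bashmakov.exists_bound_irreducible_neg (ratCurve W)
  obtain ⟨M₂, hM₂⟩ := FA.Summary.scalarEndomorphisms_all (ratCurve W)
    (inst := instDecEqAlgebraicClosureRat)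
  refine ⟨max M₁ M₂, fun p hp hlt => ?_⟩
  simp only [max_lt_iff] at hlt
  obtain ⟨hlt₁, hlt₂⟩ := hlt
  obtain ⟨hirr, hneg⟩ := hM₁ p hp.out hlt₁
  set A := ((ratCurve W).toAffine⁄Qb).Point
  let T := Submodule.torsionBy ℤ A (p : ℤ)
  have hmem : ∀ {y : A}, y ∈ FA.Bashmakov.pTors A p 1 ↔ y ∈ T := fun {y} => by
    rw [FA.Bashmakov.pTors, pow_one]
  have hsc : ∀ f : FA.Bashmakov.pTors A p 1 →+ FA.Bashmakov.pTors A p 1,
      (∀ (σ : GQ) (x y : FA.Bashmakov.pTors A p 1),
        y.1 = FA.Bashmakov.pointAct (ratCurve W) σ x.1 →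
          (f y).1 = FA.Bashmakov.pointAct (ratCurve W) σ (f x).1) →
      ∃ a : ℤ, ∀ x, (f x).1 = a • x.1 := fun f hf => by
    let g : T →+ T := AddMonoidHom.mk' (fun x => ⟨(f ⟨x.1, hmem.mpr x.2⟩).1, hmem.mp (f _).2⟩)
      fun x y => Subtype.ext (by
        have e := congrArg Subtype.val (map_add f ⟨x.1, hmem.mpr x.2⟩ ⟨y.1, hmem.mpr y.2⟩)
        exact e)
    obtain ⟨a, ha⟩ := hM₂ p hp.out hlt₂ g fun σ x y hxy =>
      (hf σ ⟨x.1, hmem.mpr x.2⟩ ⟨y.1, hmem.mpr y.2⟩ hxy.symm).symm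
    exact ⟨a, fun x => congrArg Subtype.val (ha ⟨x.1, hmem.mp x.2⟩)⟩
  exact ⟨hirr, hneg, hsc⟩

/-- Points independent modulo `p` over `ℚ` have `p`-th parts as in `exists_translation_snd`. -/
theorem independent_up {W : WeierstrassCurve ℤ} [(ratCurve W).IsElliptic] {p : ℕ}
    [hp : Fact p.Prime] {P Q : (ratCurve W).toAffine.Point}
    (hind : ∀ a b : ℤ, ¬ ((p : ℤ) ∣ a ∧ (p : ℤ) ∣ b) → ∀ R, p • R ≠ a • P + b • Q)
    {Q₁ Q₂ : ((ratCurve W).toAffine⁄Qb).Point} (hQ₁ : p • Q₁ = up W P) (hQ₂ : p • Q₂ = up W Q) :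
    (∀ σ, FA.Bashmakov.pointAct (ratCurve W) σ (p • Q₁) = p • Q₁) ∧
    (∀ σ, FA.Bashmakov.pointAct (ratCurve W) σ (p • Q₂) = p • Q₂) ∧
    (∀ R, (∀ σ, FA.Bashmakov.pointAct (ratCurve W) σ R = R) → p • R ≠ p • Q₁) ∧
    ∀ (a : ℤ) R, (∀ σ, FA.Bashmakov.pointAct (ratCurve W) σ R = R) →
      p • R ≠ p • (Q₂ - a • Q₁) := by
  set A := ((ratCurve W).toAffine⁄Qb).Point
  have hfix : ∀ (R : (ratCurve W).toAffine.Point) (σ : GQ),
      FA.Bashmakov.pointAct (ratCurve W) σ (up W R) = up W R := fun R σ => by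
    rw [up_eq_map]; exact FA.Torsion.map_fixed (ratCurve W) σ R
  have hrat : ∀ (a b : ℤ), ¬ ((p : ℤ) ∣ a ∧ (p : ℤ) ∣ b) → ∀ R : A,
      (∀ σ, FA.Bashmakov.pointAct (ratCurve W) σ R = R) →
      p • R ≠ a • up W P + b • up W Q := fun a b hab R hR he => by
    obtain ⟨R₀, hR₀⟩ := FA.Thirteen.exists_rat_point (E := ratCurve W) R hR
    refine hind a b hab R₀ (mapHom_injective (algebraMap ℚ Qb) rfl ?_)
    show up W (p • R₀) = up W (a • P + b • Q)
    refine (map_nsmul (up W) p R₀).trans (Eq.trans ?_ (map_add (up W) _ _).symm)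
    have hup : up W R₀ = R := (up_eq_map R₀).trans hR₀
    refine (congrArg (p • ·) hup).trans (he.trans ?_)
    exact (congrArg₂ (· + ·) (map_zsmul (up W) a P) (map_zsmul (up W) b Q)).symm
  have hunit : ¬ (p : ℤ) ∣ 1 := fun h =>
    hp.out.one_lt.ne' (by exact_mod_cast Int.eq_one_of_dvd_one (by positivity) h)
  exact ⟨fun σ => by rw [hQ₁]; exact hfix P σ, fun σ => by rw [hQ₂]; exact hfix Q σ,
    fun R hR he => hrat 1 0 (fun h => hunit h.1) R hR
      (by rw [he, hQ₁, one_zsmul, zero_zsmul, add_zero]),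
    fun a R hR he => hrat (-a) 1 (fun h => hunit h.2) R hR
      (by rw [he, nsmul_sub, smul_comm, hQ₁, hQ₂, one_zsmul, neg_zsmul]; abel)⟩

/-- **Some element of Galois fixes a point of one fibre and none of the other**, at every large
prime modulo which the two points are independent. -/
theorem exists_bound_fixed_pair (W : WeierstrassCurve ℤ) [(ratCurve W).IsElliptic] :
    ∃ M : ℕ, ∀ (p : ℕ) [Fact p.Prime], M < p → ∀ P Q : (ratCurve W).toAffine.Point,
      (∀ a b : ℤ, ¬ ((p : ℤ) ∣ a ∧ (p : ℤ) ∣ b) → ∀ R, p • R ≠ a • P + b • Q) →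
      ∃ σ : GQ, (∃ X, fibHom W p P σ X = X) ∧ ∀ X, fibHom W p Q σ X ≠ X := by
  obtain ⟨M, hM⟩ := exists_bound_irreducible_scalar W
  refine ⟨max 2 M, fun p hp hlt P Q hind => ?_⟩
  rw [max_lt_iff] at hlt
  obtain ⟨hirr, hneg, hsc⟩ := hM p hlt.2
  set A := ((ratCurve W).toAffine⁄Qb).Point
  obtain ⟨Q₁, hQ₁⟩ := exists_div W hp.out.ne_zero (up W P)
  obtain ⟨Q₂, hQ₂⟩ := exists_div W hp.out.ne_zero (up W Q)
  obtain ⟨c⟩ := FA.Bashmakov.exists_torsion_coord (ratCurve W) p 1
  obtain ⟨t, ht⟩ : ∃ t : Submodule.torsionBy ℤ A ((p : ℤ) ^ 1),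
      t.1 ≠ 0 := ⟨c ![1, 0], fun h => by
    haveI : Fact (1 < p ^ 1) := ⟨by rw [pow_one]; exact hp.out.one_lt⟩
    exact one_ne_zero (congrFun (c.injective ((Subtype.ext h).trans (map_zero c).symm)) 0)⟩
  obtain ⟨h₁, h₂, hind₁, hind₂⟩ := independent_up hind hQ₁ hQ₂
  obtain ⟨σ, hσ, hσ₁, hσ₂⟩ := exists_translation_snd (FA.Bashmakov.pointAct (ratCurve W))
    (hp.out.odd_of_ne_two (by omega)) hirr hneg hsc h₁ h₂ hind₁ hind₂ t.2
  refine ⟨σ, ⟨⟨Q₁, hQ₁⟩, Subtype.ext hσ₁⟩, fun X hX => ht ?_⟩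
  have hX' : σ • X.1 = X.1 := congrArg Subtype.val hX
  have hd : σ • (X.1 - Q₂) = X.1 - Q₂ := hσ _ (by
    rw [FA.Bashmakov.mem_pTors_iff, pow_one, nsmul_sub, X.2, hQ₂, sub_self])
  rw [FA.Local.gal_smul_sub (ratCurve W) σ, hX',
    show σ • Q₂ = Q₂ + t.1 from hσ₂, sub_right_inj, add_eq_left] at hd
  exact hd

end FA.LinearDependence

namespace FA.Summary

/-- **Detecting linear dependence for every elliptic curve over `ℚ`**: a point which is a multiple
of a point `P` of infinite order modulo almost all primes depends linearly on `P`. -/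
theorem detectLinearDependence_all (W : WeierstrassCurve ℤ)
    [(W.map (Int.castRingHom ℚ)).IsElliptic]
    {x y x' y' : ℚ} (h : (W.map (Int.castRingHom ℚ)).toAffine.Nonsingular x y)
    (h' : (W.map (Int.castRingHom ℚ)).toAffine.Nonsingular x' y')
    (hP : ¬ IsOfFinAddOrder (Affine.Point.some x y h))
    (hmem : {q : ℕ | q.Prime ∧ ¬ ∃ _ : Fact q.Prime,
      ∃ k : (W.map (Int.castRingHom (ZMod q))).toAffine.Nonsingular (x : ZMod q) y,
      ∃ k' : (W.map (Int.castRingHom (ZMod q))).toAffine.Nonsingular (x' : ZMod q) y',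
      Affine.Point.some (x' : ZMod q) (y' : ZMod q) k' ∈
        AddSubgroup.zmultiples (Affine.Point.some (x : ZMod q) (y : ZMod q) k)}.Finite) :
    ∃ a b : ℤ, a ≠ 0 ∧ a • Affine.Point.some x' y' h' = b • Affine.Point.some x y h := by
  haveI : (ratCurve W).IsElliptic := ‹(W.map (Int.castRingHom ℚ)).IsElliptic›
  obtain ⟨M, hM⟩ := FA.LinearDependence.exists_bound_fixed_pair W
  haveI := FA.MordellWeil.mordell (W.map (Int.castRingHom ℚ))
  by_contra hne
  push Not at hne
  obtain ⟨M', hM'⟩ := FA.LinearDependence.exists_bound_independent hP hne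
  obtain ⟨p, hp₀, hp⟩ := Nat.exists_infinite_primes (M + M' + 3)
  haveI := Fact.mk hp
  exact FA.LinearDependence.infinite_not_mem_zmultiples_of_fixed_pair (W := W) (p := p) h h'
    (hM p (by omega) _ _ (hM' p hp (by omega))) hmem

/-- **Independent points modulo infinitely many primes**, for every elliptic curve over `ℚ`: if `P`
has infinite order and `Q` is not linearly dependent on it, then `Q` is not a multiple of `P`
modulo infinitely many primes. -/
theorem infinite_not_multiple_of_independent_all (W : WeierstrassCurve ℤ)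
    [(W.map (Int.castRingHom ℚ)).IsElliptic]
    {x y x' y' : ℚ} (h : (W.map (Int.castRingHom ℚ)).toAffine.Nonsingular x y)
    (h' : (W.map (Int.castRingHom ℚ)).toAffine.Nonsingular x' y')
    (hP : ¬ IsOfFinAddOrder (Affine.Point.some x y h))
    (hne : ∀ a b : ℤ, a ≠ 0 → a • Affine.Point.some x' y' h' ≠ b • Affine.Point.some x y h) :
    {q : ℕ | q.Prime ∧ ¬ ∃ _ : Fact q.Prime,
      ∃ k : (W.map (Int.castRingHom (ZMod q))).toAffine.Nonsingular (x : ZMod q) y,
      ∃ k' : (W.map (Int.castRingHom (ZMod q))).toAffine.Nonsingular (x' : ZMod q) y',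
      Affine.Point.some (x' : ZMod q) (y' : ZMod q) k' ∈
        AddSubgroup.zmultiples (Affine.Point.some (x : ZMod q) (y : ZMod q) k)}.Infinite :=
  fun hfin => by
    obtain ⟨a, b, ha, hab⟩ := detectLinearDependence_all W h h' hP hfin
    exact hne a b ha hab

end FA.Summary

end
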