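import Fermat.Agent.LinearDependence.FamilyPrimes
import Fermat.Agent.MordellWeil.Summary
import Fermat.Agent.Root.SummarySurjectiveLarge
import Fermat.Agent.Root.SummarySerreDichotomy

/-!
# Detecting membership in a subgroup by reduction modulo primes

If Galois induces every automorphism of `E[p]` for all large primes `p` and a rational point `R`
lies in the subgroup generated by `P₁, …, P_r` modulo almost all primes, then a nonzero multiple of
`R` lies in that subgroup. For independent points and large `p` infinitely many primes `q` make all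
but one given point `p` times a point modulo `q` and that one not.
-/

set_option autoImplicit false
set_option linter.style.haveILetI false

noncomputable section

open WeierstrassCurve WeierstrassCurve.Affine FA.Frob FA.PointDiv
open scoped WeierstrassCurve.Affine

local notation "GQ" => AlgebraicClosure ℚ ≃ₐ[ℚ] AlgebraicClosure ℚ

namespace FA.Summary

/-- **Detecting membership in a subgroup**: if every automorphism of `E[p]` comes from Galois for
all large primes `p` and `R` is in the subgroup generated by the points `P i` modulo almost all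
primes, then a nonzero multiple of `R` is in that subgroup. -/
theorem detectSubgroupMembership (W : WeierstrassCurve ℤ) (hΔ : W.Δ ≠ 0)
    [inst : DecidableEq (AlgebraicClosure ℚ)]
    (hfull : ∃ M : ℕ, ∀ p : ℕ, p.Prime → M < p → ∀ φ : Submodule.torsionBy ℤ
          ((W.map (Int.castRingHom ℚ)).toAffine⁄(AlgebraicClosure ℚ)).Point (p : ℤ) ≃+
        Submodule.torsionBy ℤ
          ((W.map (Int.castRingHom ℚ)).toAffine⁄(AlgebraicClosure ℚ)).Point (p : ℤ),
      ∃ σ : GQ, ∀ T, Affine.Point.map σ.toAlgHom T.1 = (φ T).1)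
    {ι : Type} [Finite ι] {x y : ι → ℚ} {x' y' : ℚ}
    (h : ∀ i, (W.map (Int.castRingHom ℚ)).toAffine.Nonsingular (x i) (y i))
    (h' : (W.map (Int.castRingHom ℚ)).toAffine.Nonsingular x' y')
    (hmem : {q : ℕ | q.Prime ∧ ¬ ∃ _ : Fact q.Prime,
      ∃ k : ∀ i, (W.map (Int.castRingHom (ZMod q))).toAffine.Nonsingular (x i : ZMod q) (y i),
      ∃ k' : (W.map (Int.castRingHom (ZMod q))).toAffine.Nonsingular (x' : ZMod q) y',
      Affine.Point.some (x' : ZMod q) (y' : ZMod q) k' ∈ AddSubgroup.closure
        (Set.range fun i => Affine.Point.some (x i : ZMod q) (y i : ZMod q) (k i))}.Finite) :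
    ∃ a : ℤ, a ≠ 0 ∧ a • Affine.Point.some x' y' h' ∈
      AddSubgroup.closure (Set.range fun i => Affine.Point.some (x i) (y i) (h i)) := by
  obtain rfl : inst = instDecEqAlgebraicClosureRat := Subsingleton.elim _ _
  haveI : (W.map (Int.castRingHom ℚ)).IsElliptic := ratCurve_isElliptic_of_Δ hΔ
  haveI : (ratCurve W).IsElliptic := ratCurve_isElliptic_of_Δ hΔ
  let _ : Fintype ι := Fintype.ofFinite ι
  haveI := FA.MordellWeil.mordell (W.map (Int.castRingHom ℚ))
  obtain ⟨M, hM⟩ := hfull
  set R := Affine.Point.some x' y' h'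
  set P := fun i => Affine.Point.some (x i) (y i) (h i)
  by_contra hne
  push Not at hne
  obtain ⟨s, hs, hrel⟩ := FA.LinearDependence.exists_indep_subfamily P
  have hF : LinearIndependent ℤ (fun i : Option s => i.elim R fun j => P j) := by
    refine Fintype.linearIndependent_iff.mpr fun c hc => ?_
    rw [Fintype.sum_option] at hc
    simp only [Option.elim_none, Option.elim_some] at hc
    have h0 : c none = 0 := by
      by_contra h0
      refine hne _ h0 (by
        rw [eq_neg_of_add_eq_zero_left hc]
        exact neg_mem (sum_mem fun j _ => zsmul_mem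
          (AddSubgroup.subset_closure (Set.mem_range_self (f := P) j.1)) _))
    rw [h0, zero_zsmul, zero_add] at hc
    exact fun i => i.rec h0 (Fintype.linearIndependent_iff.mp hs _ hc)
  obtain ⟨B, hB⟩ := FA.LinearDependence.exists_bound_independent_family hF
  choose a c ha hac using hrel
  obtain ⟨p, hp₀, hp⟩ := Nat.exists_infinite_primes (M + B + ∑ i, (a i).natAbs + 3)
  haveI := Fact.mk hp
  have hinf := FA.LinearDependence.infinite_locDiv_family (W := W) (p := p) (by omega)
    (hM p hp (by omega)) h h' (fun j : s => j.1)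
    (fun i => ⟨a i, c i, fun hd => by
      have := Nat.le_of_dvd (Int.natAbs_pos.mpr (ha i)) (Int.natCast_dvd.mp hd)
      have := Finset.single_le_sum (f := fun i => (a i).natAbs) (fun j _ => Nat.zero_le _)
        (Finset.mem_univ i)
      omega, hac i⟩)
    (fun d hd S => by simpa [Fintype.sum_option] using hB p hp (by omega) d hd S)
  refine hinf (hmem.subset fun q ⟨hq, _, hR, hP⟩ => ⟨hq, fun ⟨inst', k, k', hmem'⟩ => hR ?_⟩)
  obtain ⟨S, hS⟩ := (AddSubgroup.closure_le (K := (nsmulAddMonoidHom
      (α := (W.map (Int.castRingHom (ZMod q))).toAffine.Point) p).range)).mpr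
    (by
      rintro _ ⟨i, rfl⟩
      obtain ⟨_, _, S, hS⟩ := hP i
      exact ⟨S, hS⟩) hmem'
  exact ⟨inst', k', S, hS⟩

/-- **If `j` has a pole**: membership in a subgroup up to a multiplier is seen modulo primes. -/
theorem detectSubgroupMembership_of_pole (W : WeierstrassCurve ℤ)
    [(W.map (Int.castRingHom ℚ)).IsElliptic]
    (hj : ∃ q : ℕ, q.Prime ∧ padicValRat q (W.map (Int.castRingHom ℚ)).j < 0)
    {ι : Type} [Finite ι] {x y : ι → ℚ} {x' y' : ℚ}
    (h : ∀ i, (W.map (Int.castRingHom ℚ)).toAffine.Nonsingular (x i) (y i))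
    (h' : (W.map (Int.castRingHom ℚ)).toAffine.Nonsingular x' y')
    (hmem : {q : ℕ | q.Prime ∧ ¬ ∃ _ : Fact q.Prime,
      ∃ k : ∀ i, (W.map (Int.castRingHom (ZMod q))).toAffine.Nonsingular (x i : ZMod q) (y i),
      ∃ k' : (W.map (Int.castRingHom (ZMod q))).toAffine.Nonsingular (x' : ZMod q) y',
      Affine.Point.some (x' : ZMod q) (y' : ZMod q) k' ∈ AddSubgroup.closure
        (Set.range fun i => Affine.Point.some (x i : ZMod q) (y i : ZMod q) (k i))}.Finite) :
    ∃ a : ℤ, a ≠ 0 ∧ a • Affine.Point.some x' y' h' ∈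
      AddSubgroup.closure (Set.range fun i => Affine.Point.some (x i) (y i) (h i)) :=
  detectSubgroupMembership W
    (fun h0 => (W.map (Int.castRingHom ℚ)).isUnit_Δ.ne_zero (by simp [h0]))
    (galoisSurjectiveTorsion_large _ hj) h h' hmem

/-- **Whatever the invariant**: the same holds if every quadratic field has an inert prime of good
reduction with nonzero trace. -/
theorem detectSubgroupMembership_of_traces (W : WeierstrassCurve ℤ)
    [(W.map (Int.castRingHom ℚ)).IsElliptic]
    (htr : ∀ d : ℤ, Squarefree d → d ≠ 1 → ∃ (l : ℕ) (_ : Fact l.Prime),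
      (∃ C : VariableChange ℚ_[l], HasGoodReduction ℤ_[l]
        (C • (W.map (Int.castRingHom ℚ)).map (algebraMap ℚ ℚ_[l]))) ∧
      ¬ IsSquare (d : ZMod l) ∧ (W.map (Int.castRingHom ℚ)).LFunction l ≠ 0)
    {ι : Type} [Finite ι] {x y : ι → ℚ} {x' y' : ℚ}
    (h : ∀ i, (W.map (Int.castRingHom ℚ)).toAffine.Nonsingular (x i) (y i))
    (h' : (W.map (Int.castRingHom ℚ)).toAffine.Nonsingular x' y')
    (hmem : {q : ℕ | q.Prime ∧ ¬ ∃ _ : Fact q.Prime,
      ∃ k : ∀ i, (W.map (Int.castRingHom (ZMod q))).toAffine.Nonsingular (x i : ZMod q) (y i),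
      ∃ k' : (W.map (Int.castRingHom (ZMod q))).toAffine.Nonsingular (x' : ZMod q) y',
      Affine.Point.some (x' : ZMod q) (y' : ZMod q) k' ∈ AddSubgroup.closure
        (Set.range fun i => Affine.Point.some (x i : ZMod q) (y i : ZMod q) (k i))}.Finite) :
    ∃ a : ℤ, a ≠ 0 ∧ a • Affine.Point.some x' y' h' ∈
      AddSubgroup.closure (Set.range fun i => Affine.Point.some (x i) (y i) (h i)) := by
  obtain ⟨M, hM⟩ := galoisSurjectiveTorsion_large_of_traces _ htr
  refine detectSubgroupMembership W
    (fun h0 => (W.map (Int.castRingHom ℚ)).isUnit_Δ.ne_zero (by simp [h0]))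
    ⟨M, fun p hp hlt => ?_⟩ h h' hmem
  have h1 := hM p hp hlt 1
  rwa [pow_one] at h1

/-- **Independent points are separated modulo primes**: if `j` has a pole, then for independent
points, a large prime `p` and any one of the points infinitely many primes `q` make the others `p`
times a point modulo `q` and that one not. -/
theorem independent_separated_mod_primes (W : WeierstrassCurve ℤ)
    [(W.map (Int.castRingHom ℚ)).IsElliptic]
    (hj : ∃ q : ℕ, q.Prime ∧ padicValRat q (W.map (Int.castRingHom ℚ)).j < 0)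
    {ι : Type} [Finite ι] {x y : ι → ℚ}
    (h : ∀ i, (W.map (Int.castRingHom ℚ)).toAffine.Nonsingular (x i) (y i))
    (hind : LinearIndependent ℤ fun i => Affine.Point.some (x i) (y i) (h i)) :
    ∃ M : ℕ, ∀ p : ℕ, p.Prime → M < p → ∀ i,
      {q : ℕ | q.Prime ∧ ∃ _ : Fact q.Prime,
        (∃ k : (W.map (Int.castRingHom (ZMod q))).toAffine.Nonsingular (x i : ZMod q) (y i),
          ∀ S, p • S ≠ Affine.Point.some (x i : ZMod q) (y i : ZMod q) k) ∧
        ∀ j ≠ i, ∃ k : (W.map (Int.castRingHom (ZMod q))).toAffine.Nonsingular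
            (x j : ZMod q) (y j),
          ∃ S, p • S = Affine.Point.some (x j : ZMod q) (y j : ZMod q) k}.Infinite := by
  haveI : (ratCurve W).IsElliptic := inferInstanceAs (W.map (Int.castRingHom ℚ)).IsElliptic
  let _ : Fintype ι := Fintype.ofFinite ι
  classical
  haveI := FA.MordellWeil.mordell (W.map (Int.castRingHom ℚ))
  obtain ⟨M, hM⟩ := galoisSurjectiveTorsion_large _ hj
  obtain ⟨B, hB⟩ := FA.LinearDependence.exists_bound_independent_family hind
  refine ⟨M + B + 2, fun p hp hlt i => ?_⟩
  haveI := Fact.mk hp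
  have hinf := FA.LinearDependence.infinite_locDiv_family (W := W) (p := p) (ι := {j // j ≠ i})
    (by omega) (hM p hp (by omega)) (fun j => h j.1) (h i) id
    (fun j => ⟨1, Pi.single j 1, fun hd => hp.not_dvd_one (Int.natCast_dvd.mp hd),
      by simp [Pi.single_apply]⟩)
    (fun d hd S => by
      have e := hB p hp (by omega) (d ∘ (Equiv.optionSubtypeNe i).symm)
        (hd.imp' (Equiv.optionSubtypeNe i) fun o ho => by
          rwa [Function.comp_apply, Equiv.symm_apply_apply]) S
      rw [← (Equiv.optionSubtypeNe i).sum_comp, Fintype.sum_option] at e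
      simp only [Function.comp_apply, Equiv.symm_apply_apply] at e
      exact e)
  refine hinf.mono ?_
  rintro q ⟨hq, ⟨_, hns⟩, hR, hP⟩
  haveI := Fact.mk hq
  refine ⟨hq, inferInstance, ⟨hns, fun S hS => hR ⟨inferInstance, hns, S, hS⟩⟩, fun j hj => ?_⟩
  obtain ⟨_, k, S, hS⟩ := hP ⟨j, hj⟩
  exact ⟨k, S, hS⟩

end FA.Summary

end
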