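import Fermat.Agent.LinearDependence.IrreducibleFamily
import Fermat.Agent.Root.SummaryLinearDependenceAll
import Fermat.Agent.Root.SummarySubgroupDetection

/-!
# Kummer theory of several points and detection of subgroups, for every elliptic curve over `ℚ`

For independent rational points, all large primes `p` and every `n`, Galois over `ℚ(E[pⁿ])`
translates `pⁿ`-th parts of the points by every family in `E[pⁿ]`, with or without complex
multiplication. So a point in the subgroup of given points modulo almost all primes has a nonzero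
multiple in it, and independent points are separated by divisibility by `p` modulo primes.
-/

set_option autoImplicit false
set_option linter.style.haveILetI false

noncomputable section

open WeierstrassCurve WeierstrassCurve.Affine FA.Frob FA.PointDiv
open scoped WeierstrassCurve.Affine

local notation "Qb" => AlgebraicClosure ℚ
local notation "GQ" => AlgebraicClosure ℚ ≃ₐ[ℚ] AlgebraicClosure ℚ

namespace FA.LinearDependence

open FA.Bashmakov
open scoped Classical

/-- **At all large primes modulo which points are independent**, elements fixing `E[pⁿ]` translate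
their `pⁿ`-th parts by every family. -/
theorem exists_bound_translations_family (W : WeierstrassCurve ℤ) [(ratCurve W).IsElliptic]
    (ι : Type*) [Fintype ι] :
    ∃ M : ℕ, ∀ (p : ℕ) [Fact p.Prime], M < p → ∀ (n : ℕ) (P : ι → (ratCurve W).toAffine.Point),
      (∀ a : ι → ℤ, (∃ i, ¬ (p : ℤ) ∣ a i) → ∀ R, p • R ≠ ∑ i, a i • P i) →
      ∀ Q : ι → ((ratCurve W).toAffine⁄Qb).Point, (∀ i, p ^ n • Q i = up W (P i)) →
      ∀ t : ι → pTors ((ratCurve W).toAffine⁄Qb).Point p n,
      ∃ g : GQ, (∀ x : pTors ((ratCurve W).toAffine⁄Qb).Point p n, g • x.1 = x.1) ∧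
        ∀ i, g • Q i = Q i + (t i).1 := by
  obtain ⟨M, hM⟩ := exists_bound_irreducible_scalar W
  refine ⟨max 2 M, fun p hp hlt n P hind Q hQ t => ?_⟩
  rw [max_lt_iff] at hlt
  obtain ⟨hirr, hneg, hsc⟩ := hM p hlt.2
  obtain ⟨c⟩ := exists_torsion_coord (ratCurve W) p n
  refine exists_translation_family_pow (pointAct (ratCurve W))
    (hp.out.odd_of_ne_two (by omega)) hirr hneg hsc c (fun i σ => ?_) (fun a ha R hR he => ?_) t
  · rw [hQ i, up_eq_map]
    exact FA.Torsion.map_fixed (ratCurve W) σ (P i)
  · obtain ⟨R₀, hR₀⟩ := FA.Thirteen.exists_rat_point (E := ratCurve W) R hR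
    refine hind a ha R₀ (mapHom_injective (algebraMap ℚ Qb) rfl ?_)
    show up W (p • R₀) = up W (∑ i, a i • P i)
    have hup : up W R₀ = R := (up_eq_map R₀).trans hR₀
    refine (map_nsmul (up W) p R₀).trans ((congrArg (p • ·) hup).trans (he.trans ?_))
    refine Eq.trans ?_ (map_sum (up W) _ _).symm
    exact Finset.sum_congr rfl fun i _ => by rw [hQ i]; exact (map_zsmul (up W) _ _).symm

/-- **Some element of Galois as in `exists_fixed_family`**, at every large prime modulo which the
points are independent. -/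
theorem exists_bound_fixed_family (W : WeierstrassCurve ℤ) [(ratCurve W).IsElliptic]
    (κ : Type) [Fintype κ] :
    ∃ M : ℕ, ∀ (p : ℕ) [Fact p.Prime], M < p →
      ∀ (P : κ → (ratCurve W).toAffine.Point) (R : (ratCurve W).toAffine.Point),
      (∀ c : Option κ → ℤ, (∃ i, ¬ (p : ℤ) ∣ c i) → ∀ S,
        p • S ≠ c none • R + ∑ j, c (some j) • P j) →
      ∃ σ : GQ, (∀ X, fibHom W p R σ X ≠ X) ∧ ∀ j, ∃ X, fibHom W p (P j) σ X = X := by
  obtain ⟨M, hM⟩ := exists_bound_translations_family W (Option κ)
  refine ⟨M, fun p hp hlt P R hind => ?_⟩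
  choose Q hQ using fun i : Option κ => exists_div W hp.out.ne_zero (up W (i.elim R P))
  obtain ⟨c⟩ := exists_torsion_coord (ratCurve W) p 1
  obtain ⟨t, ht⟩ : ∃ t : Submodule.torsionBy ℤ ((ratCurve W).toAffine⁄Qb).Point ((p : ℤ) ^ 1),
      t.1 ≠ 0 := ⟨c ![1, 0], fun h => by
    haveI : Fact (1 < p ^ 1) := ⟨by rw [pow_one]; exact hp.out.one_lt⟩
    exact one_ne_zero (congrFun (c.injective ((Subtype.ext h).trans (map_zero c).symm)) 0)⟩
  obtain ⟨σ, hσ, hσQ⟩ := hM p hlt 1 (fun i => i.elim R P)
    (fun a ha S he => hind a ha S (he.trans (by rw [Fintype.sum_option]; rfl))) Q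
    (fun i => by rw [pow_one, hQ i]) (fun i => i.elim t fun _ => 0)
  exact fixed_family_of_act hQ ht hσ hσQ

end FA.LinearDependence

namespace FA.Summary

/-- **Bashmakov–Ribet for every elliptic curve over `ℚ`**: for independent rational points, all
large primes `p`, every `n` and `pⁿ Q i = P i`, every family of translations of the `Q i` by
`E[pⁿ]` is given by an element of Galois fixing `E[pⁿ]`: the Galois group of
`ℚ(E[pⁿ], p⁻ⁿ⟨P i⟩)` over `ℚ(E[pⁿ])` is `E[pⁿ]ʳ`. -/
theorem kummerTranslationsFamily_all (W : WeierstrassCurve ℤ)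
    [(W.map (Int.castRingHom ℚ)).IsElliptic] [inst : DecidableEq (AlgebraicClosure ℚ)]
    {ι : Type*} [Fintype ι] (P : ι → (W.map (Int.castRingHom ℚ)).toAffine.Point)
    (hP : LinearIndependent ℤ P) :
    ∃ M : ℕ, ∀ p : ℕ, p.Prime → M < p → ∀ (n : ℕ)
      (Q : ι → ((W.map (Int.castRingHom ℚ)).toAffine⁄(AlgebraicClosure ℚ)).Point),
      (∀ i, p ^ n • Q i =
        Affine.Point.map (W' := (W.map (Int.castRingHom ℚ)).toAffine) (Algebra.ofId ℚ Qb) (P i)) →
      ∀ t : ι → Submodule.torsionBy ℤ
          ((W.map (Int.castRingHom ℚ)).toAffine⁄(AlgebraicClosure ℚ)).Point ((p : ℤ) ^ n),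
      ∃ g : AlgebraicClosure ℚ ≃ₐ[ℚ] AlgebraicClosure ℚ,
        (∀ T : Submodule.torsionBy ℤ
            ((W.map (Int.castRingHom ℚ)).toAffine⁄(AlgebraicClosure ℚ)).Point ((p : ℤ) ^ n),
          Affine.Point.map g.toAlgHom T.1 = T.1) ∧
        ∀ i, Affine.Point.map g.toAlgHom (Q i) = Q i + (t i).1 := by
  obtain rfl : inst = instDecEqAlgebraicClosureRat := Subsingleton.elim _ _
  haveI : (ratCurve W).IsElliptic := ‹(W.map (Int.castRingHom ℚ)).IsElliptic›
  haveI := FA.MordellWeil.mordell (W.map (Int.castRingHom ℚ))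
  obtain ⟨M, hM⟩ := FA.LinearDependence.exists_bound_translations_family W ι
  obtain ⟨B, hB⟩ := FA.LinearDependence.exists_bound_independent_family hP
  refine ⟨max M B, fun p hp hlt n Q hQ t => ?_⟩
  rw [max_lt_iff] at hlt
  haveI := Fact.mk hp
  exact hM p hlt.1 n P (hB p hp hlt.2) Q
    (fun i => (hQ i).trans (FA.LinearDependence.up_eq_map (P i)).symm) t

/-- **Detecting membership in a subgroup, for every elliptic curve over `ℚ`**: if `R` is in the
subgroup generated by the points `P i` modulo almost all primes, then a nonzero multiple of `R` is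
in that subgroup. -/
theorem detectSubgroupMembership_all (W : WeierstrassCurve ℤ)
    [(W.map (Int.castRingHom ℚ)).IsElliptic]
    {ι : Type} [Finite ι] {x y : ι → ℚ} {x' y' : ℚ}
    (h : ∀ i, (W.map (Int.castRingHom ℚ)).toAffine.Nonsingular (x i) (y i))
    (h' : (W.map (Int.castRingHom ℚ)).toAffine.Nonsingular x' y')
    (hmem : {q : ℕ | q.Prime ∧ ¬ ∃ _ : Fact q.Prime,
      ∃ k : ∀ i, (W.map (Int.castRingHom (ZMod q))).toAffine.Nonsingular (x i : ZMod q) (y i),
      ∃ k' : (W.map (Int.castRingHom (ZMod q))).toAffine.Nonsingular (x' : ZMod q) y',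
      Affine.Point.some (x' : ZMod q) (y' : ZMod q) k' ∈ AddSubgroup.closure
        (Set.range fun i => Affine.Point.some (x i : ZMod q) (y i : ZMod q) (k i))}.Finite) :
    ∃ a : ℤ, a ≠ 0 ∧ a • Affine.Point.some x' y' h' ∈
      AddSubgroup.closure (Set.range fun i => Affine.Point.some (x i) (y i) (h i)) := by
  haveI : (ratCurve W).IsElliptic := ‹(W.map (Int.castRingHom ℚ)).IsElliptic›
  let _ : Fintype ι := Fintype.ofFinite ι
  haveI := FA.MordellWeil.mordell (W.map (Int.castRingHom ℚ))
  set R := Affine.Point.some x' y' h'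
  set P := fun i => Affine.Point.some (x i) (y i) (h i)
  by_contra hne
  push Not at hne
  obtain ⟨s, hs, hrel⟩ := FA.LinearDependence.exists_indep_subfamily P
  obtain ⟨M, hM⟩ := FA.LinearDependence.exists_bound_fixed_family W s
  have hF : LinearIndependent ℤ (fun i : Option s => i.elim R fun j => P j) := by
    refine Fintype.linearIndependent_iff.mpr fun c hc => ?_
    rw [Fintype.sum_option] at hc
    simp only [Option.elim_none, Option.elim_some] at hc
    have h0 : c none = 0 := by
      by_contra h0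
      refine hne _ h0 (by
        rw [eq_neg_of_add_eq_zero_left hc]
        exact neg_mem (sum_mem fun j _ => zsmul_mem
          (AddSubgroup.subset_closure (Set.mem_range_self (f := P) j.1)) _))
    rw [h0, zero_zsmul, zero_add] at hc
    exact fun i => i.rec h0 (Fintype.linearIndependent_iff.mp hs _ hc)
  obtain ⟨B, hB⟩ := FA.LinearDependence.exists_bound_independent_family hF
  choose a c ha hac using hrel
  obtain ⟨p, hp₀, hp⟩ := Nat.exists_infinite_primes (M + B + ∑ i, (a i).natAbs + 3)
  haveI := Fact.mk hp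
  have hinf := FA.LinearDependence.infinite_locDiv_family_of_fixed (W := W) (p := p) h h'
    (fun j : s => j.1)
    (fun i => ⟨a i, c i, fun hd => by
      have := Nat.le_of_dvd (Int.natAbs_pos.mpr (ha i)) (Int.natCast_dvd.mp hd)
      have := Finset.single_le_sum (f := fun i => (a i).natAbs) (fun j _ => Nat.zero_le _)
        (Finset.mem_univ i)
      omega, hac i⟩)
    (hM p (by omega) _ _ fun d hd S => by
      simpa [Fintype.sum_option] using hB p hp (by omega) d hd S)
  refine hinf (hmem.subset fun q ⟨hq, _, hR, hP⟩ => ⟨hq, fun ⟨inst', k, k', hmem'⟩ => hR ?_⟩)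
  obtain ⟨S, hS⟩ := (AddSubgroup.closure_le (K := (nsmulAddMonoidHom
      (α := (W.map (Int.castRingHom (ZMod q))).toAffine.Point) p).range)).mpr
    (by
      rintro _ ⟨i, rfl⟩
      obtain ⟨_, _, S, hS⟩ := hP i
      exact ⟨S, hS⟩) hmem'
  exact ⟨inst', k', S, hS⟩

/-- **Independent points are separated modulo primes**, for every elliptic curve over `ℚ`: for a
large prime `p` and any one of the points infinitely many primes `q` make the others `p` times a
point modulo `q` and that one not. -/
theorem independent_separated_mod_primes_all (W : WeierstrassCurve ℤ)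
    [(W.map (Int.castRingHom ℚ)).IsElliptic]
    {ι : Type} [Finite ι] {x y : ι → ℚ}
    (h : ∀ i, (W.map (Int.castRingHom ℚ)).toAffine.Nonsingular (x i) (y i))
    (hind : LinearIndependent ℤ fun i => Affine.Point.some (x i) (y i) (h i)) :
    ∃ M : ℕ, ∀ p : ℕ, p.Prime → M < p → ∀ i,
      {q : ℕ | q.Prime ∧ ∃ _ : Fact q.Prime,
        (∃ k : (W.map (Int.castRingHom (ZMod q))).toAffine.Nonsingular (x i : ZMod q) (y i),
          ∀ S, p • S ≠ Affine.Point.some (x i : ZMod q) (y i : ZMod q) k) ∧
        ∀ j ≠ i, ∃ k : (W.map (Int.castRingHom (ZMod q))).toAffine.Nonsingular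
            (x j : ZMod q) (y j),
          ∃ S, p • S = Affine.Point.some (x j : ZMod q) (y j : ZMod q) k}.Infinite := by
  haveI : (ratCurve W).IsElliptic := ‹(W.map (Int.castRingHom ℚ)).IsElliptic›
  let _ : Fintype ι := Fintype.ofFinite ι
  classical
  haveI := FA.MordellWeil.mordell (W.map (Int.castRingHom ℚ))
  choose M hM using fun i : ι =>
    FA.LinearDependence.exists_bound_fixed_family W {j : ι // j ≠ i}
  obtain ⟨B, hB⟩ := FA.LinearDependence.exists_bound_independent_family hind
  refine ⟨(∑ i, M i) + B + 2, fun p hp hlt i => ?_⟩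
  haveI := Fact.mk hp
  have hMi : M i < p := by
    have := Finset.single_le_sum (f := M) (fun j _ => Nat.zero_le _) (Finset.mem_univ i)
    omega
  have hinf := FA.LinearDependence.infinite_locDiv_family_of_fixed (W := W) (p := p)
    (ι := {j // j ≠ i}) (fun j => h j.1) (h i) id
    (fun j => ⟨1, Pi.single j 1, fun hd => hp.not_dvd_one (Int.natCast_dvd.mp hd),
      by simp [Pi.single_apply]⟩)
    (hM i p hMi _ _ fun d hd S => by
      have e := hB p hp (by omega) (d ∘ (Equiv.optionSubtypeNe i).symm)
        (hd.imp' (Equiv.optionSubtypeNe i) fun o ho => by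
          rwa [Function.comp_apply, Equiv.symm_apply_apply]) S
      rw [← (Equiv.optionSubtypeNe i).sum_comp, Fintype.sum_option] at e
      simp only [Function.comp_apply, Equiv.symm_apply_apply] at e
      exact e)
  refine hinf.mono ?_
  rintro q ⟨hq, ⟨_, hns⟩, hR, hP⟩
  haveI := Fact.mk hq
  refine ⟨hq, inferInstance, ⟨hns, fun S hS => hR ⟨inferInstance, hns, S, hS⟩⟩, fun j hj => ?_⟩
  obtain ⟨_, k, S, hS⟩ := hP ⟨j, hj⟩
  exact ⟨k, S, hS⟩

end FA.Summary

end
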