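import Fermat.Agent.LambdaForms.Free
import Fermat.Agent.Root.SummaryLevelPPadic

/-!
# Summary: Hida's ordinary `Λ`-adic forms of level one, `p ≥ 5`

Here `Λ = ℤ_p⟦T⟧`, specialised at `T = (1 + p) ^ s - 1` for `s` in `ℤ_p`, and an *ordinary `Λ`-adic
form of class `c`* (`c` modulo `p - 1`) is a series `F` in `Λ⟦q⟧` all of whose specialisations are
`p`-adic forms of level one of weight `(c, s)` in the sense of Serre (`FA.PadicForms.Summary`) fixed
by `e = lim U ^ n!` (`FA.OrdinaryProj.Summary`); `lamOrd hp2 c` is their `Λ`-module.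

* `specialisation_formula`, `lambda_adic_iff`: these definitions;
* `lambda_free`, `lambda_bases`: the module is free of finite rank, the dimension of the ordinary
  part of weight `(c, s)` for every `s`, and a basis specialises to a basis for every `s`;
* `lambda_specialisation`: specialisation is onto the ordinary integral forms of weight `(c, s)`,
  with kernel the multiples by `T - ((1 + p) ^ s - 1)`;
* `lambda_classical`: at an integer `k ≥ 2` of the class the specialisations are combinations over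
  `ℚ_p` of forms of weight `k` on `Γ₀(p)` with rational `q`-expansions;
* `lambda_rank_pos`, `lambda_eisenstein`: the rank is positive in the even classes, and in the
  class `0` the Eisenstein series form a family, congruent to `1` modulo `p` and fixed by `U`.

Not proved here: `p = 2, 3`; tame levels and characters; the Hecke algebra over `Λ`, lifts of
eigenforms, Galois representations of families.
-/

set_option autoImplicit false
set_option linter.unusedSectionVars false

noncomputable section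

open UpperHalfPlane hiding I
open PowerSeries CongruenceSubgroup
open scoped MatrixGroups ModularForm

namespace FA.LambdaForms.Summary

open FA.PadicForms FA.OrdinaryProj FA.LevelPPadic FA.PadicIwasawa

variable {p : ℕ} [Fact p.Prime] {hp2 : p ≠ 2} {c : ZMod (p - 1)}

local notation "Λ" => PowerSeries ℤ_[p]

/-- **The specialisations.** -/
theorem specialisation_formula (s : ℤ_[p]) (θ : PowerSeries ℤ_[p]) (m : ℕ) :
    evalLam hp2 s θ = ∑' j, coeff j θ * (expOne p s - 1) ^ j ∧
      expOne p (m : ℤ_[p]) = (1 + (p : ℤ_[p])) ^ m :=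
  ⟨rfl, expOne_natCast m⟩

/-- **Ordinary `Λ`-adic forms.** -/
theorem lambda_adic_iff (h5 : 5 ≤ p) {F : PowerSeries (PowerSeries ℤ_[p])} :
    F ∈ lamOrd hp2 c ↔ ∀ s : ℤ_[p],
      IsPadicForm (toQps p (F.map (evalLam hp2 s))) ((c, s) : Weights p) ∧
        ordProj p (toQps p (F.map (evalLam hp2 s))) = toQps p (F.map (evalLam hp2 s)) :=
  mem_lamOrd h5

theorem exists_weight (h5 : 5 ≤ p) (c : ZMod (p - 1)) :
    ∃ k : ℕ, 3 ≤ k ∧ (k : ZMod (p - 1)) = c := by
  have : NeZero (p - 1) := ⟨by omega⟩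
  refine ⟨c.val + (p - 1), by omega, ?_⟩
  rw [Nat.cast_add, ZMod.natCast_self, add_zero, ZMod.natCast_zmod_val]

/-- **A basis specialises to a basis in every weight.** -/
theorem lambda_bases (h5 : 5 ≤ p) :
    ∃ (r : ℕ) (G : Fin r → PowerSeries (PowerSeries ℤ_[p])), LinearIndependent Λ G ∧
      lamOrd hp2 c = Submodule.span Λ (Set.range G) ∧
      ∀ s : ℤ_[p], LinearIndependent ℚ_[p] (fun j => toQps p ((G j).map (evalLam hp2 s))) ∧
        ordPart ((c, s) : Weights p) =
          Submodule.span ℚ_[p] (Set.range fun j => toQps p ((G j).map (evalLam hp2 s))) := by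
  obtain ⟨k, hk, hc⟩ := exists_weight h5 c
  obtain ⟨G, -, hli, hsp, hb, -⟩ := exists_lambda_basis (hp2 := hp2) h5 hk hc
  exact ⟨_, G, hli, hsp, hb⟩

/-- **Hida's theorem**: freeness, with rank the dimension of every ordinary part of the class. -/
theorem lambda_free (h5 : 5 ≤ p) :
    Module.Free Λ ↥(lamOrd hp2 c) ∧ Module.Finite Λ ↥(lamOrd hp2 c) ∧
      ∀ s : ℤ_[p], Module.finrank Λ ↥(lamOrd hp2 c) =
        Module.finrank ℚ_[p] ↥(ordPart ((c, s) : Weights p)) := by
  obtain ⟨r, G, hli, hsp, hb⟩ := lambda_bases (hp2 := hp2) (c := c) h5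
  rw [hsp]
  refine ⟨.of_basis (Module.Basis.span hli), .of_basis (Module.Basis.span hli), fun s => ?_⟩
  rw [finrank_span_eq_card hli, (hb s).2, finrank_span_eq_card (hb s).1]

/-- **Specialisation**: onto, with kernel the multiples by `T - ((1 + p) ^ s - 1)`. -/
theorem lambda_specialisation (h5 : 5 ≤ p) (s : ℤ_[p]) :
    (∀ g : PowerSeries ℤ_[p], IsPadicForm (toQps p g) ((c, s) : Weights p) →
        ordProj p (toQps p g) = toQps p g → ∃ F ∈ lamOrd hp2 c, F.map (evalLam hp2 s) = g) ∧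
      ∀ F ∈ lamOrd hp2 c, F.map (evalLam hp2 s) = 0 ↔
        ∃ F' ∈ lamOrd hp2 c, F = C (X - C (expOne p s - 1) : Λ) * F' := by
  obtain ⟨k, hk, hc⟩ := exists_weight h5 c
  obtain ⟨G, hG, -, -, -, hsurj, hker⟩ := exists_lambda_basis (hp2 := hp2) h5 hk hc
  refine ⟨fun g hg hge => ?_, fun F hF => ⟨fun h0 => ?_, ?_⟩⟩
  · obtain ⟨x, hx, -⟩ := hsurj s g hg hge
    refine ⟨∑ j, C (C (x j) : Λ) * G j, Submodule.sum_mem _ fun j _ => ?_, ?_⟩
    · rw [← PowerSeries.smul_eq_C_mul]
      exact Submodule.smul_mem _ _ ((mem_lamOrd h5).2 (hG j))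
    · rw [hx, map_sum]
      exact Finset.sum_congr rfl fun j _ => by rw [map_mul, map_C, evalLam_C]; rfl
  · obtain ⟨F', hF', e⟩ := hker s F ((mem_lamOrd h5).1 hF) h0
    exact ⟨F', (mem_lamOrd h5).2 hF', e⟩
  · rintro ⟨F', -, rfl⟩
    rw [map_mul, map_C, map_sub, evalLam_X, evalLam_C, sub_self, map_zero, zero_mul]

/-- **Classicality**: at an integer `k ≥ 2` of the class the forms come from level `p`. -/
theorem lambda_classical (h5 : 5 ≤ p) {F : PowerSeries (PowerSeries ℤ_[p])}
    (hF : F ∈ lamOrd hp2 c) {k : ℕ} (hk : 2 ≤ k) (hc : (k : ZMod (p - 1)) = c) :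
    toQps p (F.map (evalLam hp2 (k : ℤ_[p]))) ∈ Submodule.span ℚ_[p]
      {s : PowerSeries ℚ_[p] | ∃ (f : ModularForm (Gamma0 p : Subgroup (GL (Fin 2) ℝ)) (k : ℤ))
        (A : PowerSeries ℚ), qExpansion 1 ⇑f = A.map (Rat.castHom ℂ) ∧ toQp p A = s} := by
  subst hc
  have h := ((mem_lamOrd h5).1 hF).mem_ordPart h5 (k : ℤ_[p])
  rw [← FA.LevelPPadic.Summary.classicalSpace_eq]
  rcases hk.eq_or_lt with rfl | hk3
  · exact ordPart_two h5 ▸ h
  · exact ordPart_le_classicalSpace h5 hk3 h

/-- **The rank is positive in the even classes.** -/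
theorem lambda_rank_pos (h5 : 5 ≤ p) {j : ℕ} (hc : c = ((2 * j : ℕ) : ZMod (p - 1))) :
    1 ≤ Module.finrank Λ ↥(lamOrd hp2 c) := by
  rw [(lambda_free (hp2 := hp2) h5).2.2 0]
  exact one_le_finrank (κ := ((c, 0) : Weights p)) h5 hc

/-- **The Eisenstein family.** -/
theorem lambda_eisenstein (h5 : 5 ≤ p) :
    ∃ E ∈ lamOrd hp2 (0 : ZMod (p - 1)), E ≠ 0 ∧
      (∀ n, coeff (p * n) E = coeff n E) ∧
      (∀ s, (E.map (evalLam hp2 s)).map PadicInt.toZMod = 1) ∧
      ∃ u : Λ, IsUnit u ∧ ∀ m : ℕ, 2 ≤ m → Even m → p - 1 ∣ m →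
        C (((evalLam hp2 (m : ℤ_[p]) u : ℤ_[p]) : ℚ_[p])) *
            toQps p (E.map (evalLam hp2 (m : ℤ_[p]))) =
          C (-2 * ((1 + (p : ℚ_[p])) ^ m - 1)) * toQp p (eisStar p m) := by
  obtain ⟨E, hE, hE1, hEU, hEm⟩ := exists_unit_family h5 hp2
  refine ⟨E, (mem_lamOrd h5).2 fun s => ⟨hE s, ((FA.OrdinaryProj.mem_ordPart h5).1
    (fixed_mem_ordPart h5 (hE s) (PowerSeries.ext fun n => ?_))).2⟩, fun h0 => ?_, hEU, hE1, hEm⟩
  · rw [coeff_uSer, coeff_toQps, coeff_toQps, coeff_map, coeff_map, hEU]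
  · have := hE1 0
    rw [h0, map_zero, map_zero] at this
    exact zero_ne_one this

end FA.LambdaForms.Summary

end
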