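import Fermat.Agent.MinkowskiHlawka.Average
import Mathlib.Analysis.Convex.Measure
import Mathlib.MeasureTheory.Group.GeometryOfNumbers
import Mathlib.MeasureTheory.Measure.Lebesgue.VolumeOfBalls
import Mathlib.Algebra.Module.ZLattice.Covolume

/-!
# The theorem of Minkowski and Hlawka

For `n ≥ 2` a lattice of determinant one is given by a matrix `B` with `|det B| = 1`.
* `minkowski_hlawka`: a bounded star body symmetric about `0`, with null frontier and volume below
  `2 ζ n`, meets some lattice of determinant one only in `0`;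
  `minkowski_hlawka_convex`: so does every such convex body;
* `minkowski_hlawka_packing`: some lattice of determinant one has all nonzero vectors of length
  `≥ r` once the ball of radius `r` has volume below `2 ζ n`, so balls of radius `r / 2` pack with
  density close to `ζ n / 2 ^ (n - 1)`;
* `minkowski_hlawka_converse`: a symmetric convex body of volume above `2 ^ n` meets every lattice
  of determinant one, so the largest admissible volume lies between `2 ζ n` and `2 ^ n`.
-/

set_option autoImplicit false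

noncomputable section

open MeasureTheory Bornology Matrix Module
open FA.MinkowskiHlawka

namespace FA.Summary

variable {n : ℕ}

/-- **The theorem of Minkowski and Hlawka.** -/
theorem minkowski_hlawka (hn : 2 ≤ n) {S : Set (Fin n → ℝ)} (hb : IsBounded S)
    (hmeas : MeasurableSet S) (hfr : volume (frontier S) = 0)
    (hstar : ∀ x ∈ S, ∀ r : ℝ, 0 < r → r ≤ 1 → r • x ∈ S) (hsymm : ∀ x ∈ S, -x ∈ S)
    (hvol : volume.real S < 2 * (riemannZeta n).re) :
    ∃ B : Matrix (Fin n) (Fin n) ℝ, |B.det| = 1 ∧
      ∀ z : Fin n → ℤ, z ≠ 0 → B *ᵥ (fun i => (z i : ℝ)) ∉ S := by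
  rw [riemannZeta_eq_zetaNat (by omega), Complex.ofReal_re] at hvol
  exact exists_admissible hn ⟨hb, hmeas, hfr, hstar⟩ hsymm hvol

/-- **For convex bodies.** -/
theorem minkowski_hlawka_convex (hn : 2 ≤ n) {S : Set (Fin n → ℝ)} (hb : IsBounded S)
    (hc : Convex ℝ S) (hsymm : ∀ x ∈ S, -x ∈ S)
    (hvol : volume.real S < 2 * (riemannZeta n).re) :
    ∃ B : Matrix (Fin n) (Fin n) ℝ, |B.det| = 1 ∧
      ∀ z : Fin n → ℤ, z ≠ 0 → B *ᵥ (fun i => (z i : ℝ)) ∉ S := by
  have hfr : volume (frontier S) = 0 := hc.addHaar_frontier volume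
  have heq : volume.real (closure S) = volume.real S := by
    refine congrArg ENNReal.toReal (le_antisymm ?_ (measure_mono subset_closure))
    rw [closure_eq_self_union_frontier]
    exact (measure_union_le _ _).trans (by rw [hfr, add_zero])
  obtain ⟨B, hB, h⟩ := minkowski_hlawka hn (S := closure S) hb.closure measurableSet_closure
    (measure_mono_null frontier_closure_subset hfr)
    (fun x hx r hr hr1 => by
      have hne : S.Nonempty := closure_nonempty_iff.1 ⟨x, hx⟩
      obtain ⟨a, ha⟩ := hne
      have h0 : (0 : Fin n → ℝ) ∈ closure S := subset_closure (by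
        have := hc ha (hsymm a ha) (by norm_num : (0 : ℝ) ≤ 1 / 2) (by norm_num : (0 : ℝ) ≤ 1 / 2)
          (by norm_num)
        simpa using this)
      exact hc.closure.smul_mem_of_zero_mem h0 hx ⟨hr.le, hr1⟩)
    (fun x hx => map_mem_closure continuous_neg hx hsymm) (heq ▸ hvol)
  exact ⟨B, hB, fun z hz hm => h z hz (subset_closure hm)⟩

/-- **Lattice packings of balls.** -/
theorem minkowski_hlawka_packing (hn : 2 ≤ n) {r : ℝ}
    (hvol : volume.real (Metric.ball (0 : EuclideanSpace ℝ (Fin n)) r) <
      2 * (riemannZeta n).re) :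
    ∃ B : Matrix (Fin n) (Fin n) ℝ, |B.det| = 1 ∧
      ∀ z : Fin n → ℤ, z ≠ 0 → r ≤ ‖WithLp.toLp 2 (B *ᵥ (fun i => (z i : ℝ)))‖ := by
  set φ : (Fin n → ℝ) ≃L[ℝ] EuclideanSpace ℝ (Fin n) :=
    (PiLp.continuousLinearEquiv 2 ℝ (fun _ : Fin n => ℝ)).symm
  have hφ : ∀ x, φ x = WithLp.toLp 2 x := fun _ => rfl
  have hvol' : volume.real (φ ⁻¹' Metric.ball 0 r) < 2 * (riemannZeta n).re := by
    refine lt_of_eq_of_lt (congrArg ENNReal.toReal ?_) hvol
    exact (PiLp.volume_preserving_toLp (Fin n)).measure_preimage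
      measurableSet_ball.nullMeasurableSet
  obtain ⟨B, hB, h⟩ := minkowski_hlawka_convex hn (S := φ ⁻¹' Metric.ball 0 r)
    (φ.antilipschitz.isBounded_preimage Metric.isBounded_ball)
    ((convex_ball (0 : EuclideanSpace ℝ (Fin n)) r).linear_preimage φ.toLinearEquiv.toLinearMap)
    (fun x hx => by simpa [hφ] using hx) hvol'
  refine ⟨B, hB, fun z hz => le_of_not_gt fun hlt => h z hz ?_⟩
  rwa [Set.mem_preimage, mem_ball_zero_iff, hφ]

/-- **Minkowski's bound from the other side.** -/
theorem minkowski_hlawka_converse {S : Set (Fin n → ℝ)} (hc : Convex ℝ S)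
    (hsymm : ∀ x ∈ S, -x ∈ S) (hvol : (2 : ENNReal) ^ n < volume S)
    (B : Matrix (Fin n) (Fin n) ℝ) (hB : |B.det| = 1) :
    ∃ z : Fin n → ℤ, z ≠ 0 ∧ B *ᵥ (fun i => (z i : ℝ)) ∈ S := by
  set f := Matrix.toLin' B
  have hdet : LinearMap.det f = B.det := LinearMap.det_toLin' B
  have hf : LinearMap.det f ≠ 0 := by
    rw [hdet]; intro h; rw [h, abs_zero] at hB; exact zero_ne_one hB
  set b := Pi.basisFun ℝ (Fin n)
  have hfund : volume (ZSpan.fundamentalDomain b) = 1 := by
    rw [ZSpan.volume_fundamentalDomain,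
      show Matrix.of (⇑b) = (1 : Matrix (Fin n) (Fin n) ℝ) from Matrix.ext fun i j => by
        simp [b, Matrix.one_apply, Pi.single_apply, eq_comm],
      Matrix.det_one, abs_one, ENNReal.ofReal_one]
  have : Countable (Submodule.span ℤ (Set.range b)).toAddSubgroup :=
    inferInstanceAs (Countable (Submodule.span ℤ (Set.range b)))
  obtain ⟨⟨x, hx⟩, hx0, hxS⟩ :=
    exists_ne_zero_mem_lattice_of_measure_mul_two_pow_lt_measure (μ := volume) (s := f ⁻¹' S)
      (ZSpan.isAddFundamentalDomain' b volume)
      (fun x hx => by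
        show f (-x) ∈ S
        rw [map_neg]
        exact hsymm _ hx)
      (hc.linear_preimage f)
      (by
        rw [hfund, one_mul, Module.finrank_fin_fun, Measure.addHaar_preimage_linearMap _ hf, hdet,
          abs_inv, hB, inv_one, ENNReal.ofReal_one, one_mul]
        exact hvol)
  rw [Submodule.mem_toAddSubgroup, Basis.mem_span_iff_repr_mem] at hx
  choose z hz using hx
  have e : (fun i => (z i : ℝ)) = x := funext fun i => by simpa [b] using hz i
  refine ⟨z, fun h0 => hx0 (Subtype.ext ?_), ?_⟩
  · show x = 0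
    rw [← e, h0]
    funext i
    simp
  · rw [e]
    simpa [f] using hxS

end FA.Summary

end
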