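import Fermat.Agent.Tau.LevelPModP

/-!
# Serre: weight two of level `p` is weight `p + 1` of level one modulo `p`

For `p ≥ 5` the forms of weight two on `Γ₀(p)` with integral expansions and the level one forms of
weight `p + 1` have the same reductions modulo `p`; so do their cusp forms, and on the integral cusp
forms of weight two the kernel of reduction is `p` times them. With `weight_succ_cusp_forms` they
are thus the functions of mass zero on the supersingular invariants modulo `p`.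
-/

set_option autoImplicit false
set_option linter.style.haveILetI false

noncomputable section

open UpperHalfPlane hiding I
open PowerSeries CongruenceSubgroup CuspForm FA.Eis FA.SwinnertonDyer FA.SupersingularPoints
open scoped MatrixGroups Classical

namespace FA.Summary

variable (p : ℕ) [Fact p.Prime]

/-- **Serre's theorem**: integral weight two forms on `Γ₀(p)` and level one forms of weight `p + 1`
have the same reductions modulo `p`. -/
theorem weight_two_levelP_eq_weight_succ (h5 : 5 ≤ p) (f : PowerSeries (ZMod p)) :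
    (∃ (F : ModularForm (Gamma0 p : Subgroup (GL (Fin 2) ℝ)) 2) (A : PowerSeries ℤ),
      qExpansion 1 ⇑F = A.map (Int.castRingHom ℂ) ∧ A.map (Int.castRingHom (ZMod p)) = f) ↔
    ∃ (G : ModularForm 𝒮ℒ ((p + 1 : ℕ) : ℤ)) (T : PowerSeries ℤ),
      qExpansion 1 ⇑G = T.map (Int.castRingHom ℂ) ∧ T.map (Int.castRingHom (ZMod p)) = f := by
  constructor
  · rintro ⟨F, A, hA, rfl⟩
    have hF : IsLv p 2 ⇑F := by
      refine ⟨fun γ hγ => F.slash_action_eq' _ ⟨γ, hγ, rfl⟩, F.holo', fun M => ?_⟩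
      have hc : IsCusp ((Matrix.SpecialLinearGroup.mapGL ℝ M) • OnePoint.infty)
          (Gamma0 p : Subgroup (GL (Fin 2) ℝ)) := by
        rw [Subgroup.IsArithmetic.isCusp_iff_isCusp_SL2Z]
        exact isCusp_SL2Z_iff'.mpr ⟨M, rfl⟩
      exact (ModularFormClass.bdd_at_cusps F hc) _ rfl
    refine FA.LevelPModP.isFormModP_of_isLv h5 hF ?_
    have := hF.hasQ
    rwa [show qe ⇑F = toC A from hA] at this
  · intro h
    have hf : IsFormModP p (p + 1) f := h
    set d : ℤ := ((coeff 0 f).val : ℤ)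
    set g := f + (d : ZMod p) • (EZ p).map (Int.castRingHom (ZMod p))
    have hd : (d : ZMod p) = coeff 0 f := by simp [d]
    have hg : IsFormModP p (p + 1) g ∧ coeff 0 g = 0 := by
      refine ⟨(mem_formSpace h5 _).1 (add_mem ((mem_formSpace h5 f).2 hf) (Submodule.smul_mem _ _
        (FA.LevelPModP.map_EZ (p := p) ▸ neg_mem (FA.SupersingularMass.eTwo_mem p h5)))), ?_⟩
      simp only [g, FA.LevelPModP.map_EZ, hd]
      rw [map_add, map_smul, map_neg, e2, coeff_map, FA.Tau.eTwoInt, coeff_mk, if_pos rfl, map_one,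
        smul_eq_mul, mul_neg, mul_one, add_neg_cancel]
    obtain ⟨F, hF⟩ := ((FA.LevelPModP.redLattice_spec h5).1 g).2 hg
    have hlv := (isLv_of_cuspForm (F : CuspForm (Gamma0 p) 2)).sub ((isLv_Efun p).smul (d : ℂ))
    have hQ := (hasQ_lattice F).sub ((hasQ_Efun p).smul (d : ℂ))
    refine ⟨{ toFun := ⇑(F : CuspForm (Gamma0 p) 2) - (d : ℂ) • Efun p
              slash_action_eq' := ?_
              holo' := hlv.hol
              bdd_at_cusps' := ?_ },
      PowerSeries.mk (fun n => zCoeff n F) - C d * EZ p, ?_, ?_⟩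
    · rintro γ ⟨M, hM, rfl⟩
      exact hlv.inv M hM
    · intro c hc
      rw [Subgroup.IsArithmetic.isCusp_iff_isCusp_SL2Z] at hc
      exact hlv.bdd.isBoundedAt hc
    · refine (hQ.qExpansion_eq one_pos).trans ?_
      rw [map_sub, map_mul, PowerSeries.map_C, PowerSeries.smul_eq_C_mul, eq_intCast]
      rfl
    · rw [map_sub, map_mul, PowerSeries.map_C, eq_intCast, ← PowerSeries.smul_eq_C_mul,
        show (PowerSeries.mk fun n => zCoeff n F).map (Int.castRingHom (ZMod p)) = g from hF]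
      simp [g]

/-- **Serre's theorem for cusp forms**: the cusp forms of weight two on `Γ₀(p)` with integral
expansions reduce onto the forms of weight `p + 1` modulo `p` without constant term, and a form
reducing to `0` is `p` times such a form. -/
theorem weight_two_levelP_cusp_forms (h5 : 5 ≤ p) :
    (∀ f : PowerSeries (ZMod p),
      (∃ (F : CuspForm (Gamma0 p) 2) (A : PowerSeries ℤ),
        qExpansion 1 ⇑F = A.map (Int.castRingHom ℂ) ∧ A.map (Int.castRingHom (ZMod p)) = f) ↔
      (∃ (G : ModularForm 𝒮ℒ ((p + 1 : ℕ) : ℤ)) (T : PowerSeries ℤ),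
        qExpansion 1 ⇑G = T.map (Int.castRingHom ℂ) ∧ T.map (Int.castRingHom (ZMod p)) = f) ∧
        coeff 0 f = 0) ∧
    ∀ (F : CuspForm (Gamma0 p) 2) (A : PowerSeries ℤ),
      qExpansion 1 ⇑F = A.map (Int.castRingHom ℂ) → A.map (Int.castRingHom (ZMod p)) = 0 →
      ∃ (F' : CuspForm (Gamma0 p) 2) (B : PowerSeries ℤ),
        qExpansion 1 ⇑F' = B.map (Int.castRingHom ℂ) ∧ F = (p : ℂ) • F' := by
  have mk : ∀ (F : CuspForm (Gamma0 p) 2) (A : PowerSeries ℤ),
      qExpansion 1 ⇑F = A.map (Int.castRingHom ℂ) → ∃ G : ↥(intLattice p 2),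
        (G : CuspForm (Gamma0 p) 2) = F ∧ PowerSeries.mk (fun n => zCoeff n G) = A :=
    fun F A hA => by
    have hq : ∀ n, FA.Deform.qLin p F n = ((coeff n A : ℤ) : ℂ) := fun n => by
      rw [FA.Deform.qLin_apply, ← coeff_toC A n]
      show coeff n (qExpansion 1 ⇑F) = _
      rw [hA]
      rfl
    refine ⟨⟨F, Submodule.subset_span fun n => ⟨coeff n A, hq n⟩⟩, rfl, PowerSeries.ext fun n => ?_⟩
    rw [coeff_mk]
    exact Int.cast_injective (α := ℂ) ((cast_zCoeff n _).trans (hq n))
  refine ⟨fun f => ⟨?_, fun hf => ?_⟩, fun F A hA h0 => ?_⟩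
  · rintro ⟨F, A, hA, rfl⟩
    obtain ⟨G, -, hG⟩ := mk F A hA
    exact ((FA.LevelPModP.redLattice_spec h5).1 _).1 ⟨G, by rw [← hG]; rfl⟩
  · obtain ⟨G, hG⟩ := ((FA.LevelPModP.redLattice_spec h5).1 f).2 hf
    exact ⟨G, _, (hasQ_lattice G).qExpansion_eq one_pos, hG⟩
  · obtain ⟨G, rfl, hG⟩ := mk F A hA
    obtain ⟨G', rfl⟩ := (FA.LevelPModP.redLattice_spec h5).2 G
      (show (PowerSeries.mk fun n => zCoeff n G).map (Int.castRingHom (ZMod p)) = 0 by rw [hG, h0])
    refine ⟨G', _, (hasQ_lattice G').qExpansion_eq one_pos, ?_⟩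
    rw [Submodule.coe_smul, ← Int.cast_smul_eq_zsmul ℂ, Int.cast_natCast]

/-- **The eigenspaces of `U` lift to weight two and level `p`**: a form of weight `p + 1` modulo `p`
without constant term with `U f = ε f` is the reduction of an integral weight two cusp form whose
coefficients satisfy `a (n p) ≡ ε a n (mod p)`. -/
theorem weight_succ_eigenspaces_lift (h5 : 5 ≤ p) (ε : ℤ) (f : PowerSeries (ZMod p))
    (hf : ∃ (G : ModularForm 𝒮ℒ ((p + 1 : ℕ) : ℤ)) (T : PowerSeries ℤ),
      qExpansion 1 ⇑G = T.map (Int.castRingHom ℂ) ∧ T.map (Int.castRingHom (ZMod p)) = f)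
    (h0 : coeff 0 f = 0) (hU : ∀ n, coeff (n * p) f = ε * coeff n f) :
    ∃ (F : CuspForm (Gamma0 p) 2) (A : PowerSeries ℤ),
      qExpansion 1 ⇑F = A.map (Int.castRingHom ℂ) ∧ A.map (Int.castRingHom (ZMod p)) = f ∧
      ∀ n, (p : ℤ) ∣ coeff (n * p) A - ε * coeff n A := by
  obtain ⟨F, A, hA, rfl⟩ := ((weight_two_levelP_cusp_forms p h5).1 f).2 ⟨hf, h0⟩
  refine ⟨F, A, hA, rfl, fun n => ?_⟩
  rw [← ZMod.intCast_zmod_eq_zero_iff_dvd, Int.cast_sub, Int.cast_mul, sub_eq_zero]
  simpa using hU n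

end FA.Summary

end
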