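import Fermat.Agent.OggTwo.Models

/-!
# Ogg's theorem: the twenty-four curves with good reduction outside two

`FA.OggTwo.models` lists twenty-four pairs `(a, b)`, standing for `y² = x³ + a x² + b x`.

* `ogg_two` (Ogg 1966): an elliptic curve over `ℚ` has good reduction at every odd prime exactly
  when it is isomorphic over `ℚ` to one of these curves;
* `ogg_two_unique`, `ogg_models_length`: that one is unique, so there are exactly twenty-four;
* `ogg_two_j`: the invariant is `128`, `1728`, `8000`, `10976` or `287496`;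
* `ogg_two_bad`: none of them has good reduction at `2`.
-/

set_option autoImplicit false
set_option linter.unusedSectionVars false
set_option linter.style.haveILetI false

noncomputable section

open WeierstrassCurve FA.OggTwo

namespace FA.OggTwo

theorem Δ_models : ∀ p ∈ models, (16 * p.2 ^ 2 * (p.1 ^ 2 - 4 * p.2)).natAbs ∣ 2 ^ 15 ∧
    64 ≤ (16 * p.2 ^ 2 * (p.1 ^ 2 - 4 * p.2)).natAbs := by
  decide

theorem Δ_models_ne_zero {p : ℤ × ℤ} (hp : p ∈ models) :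
    (twoTorsionModel p.1 p.2).Δ ≠ 0 := by
  intro h
  have h64 := (Δ_models p hp).2
  rw [← Δ_twoTorsionModel, h] at h64
  simp at h64

/-- `c₄` and `c₆` tell the models apart. -/
theorem invariants_models : ∀ p ∈ models, ∀ p' ∈ models,
    p.1 ^ 2 - 3 * p.2 = p'.1 ^ 2 - 3 * p'.2 →
      2 * p.1 ^ 3 - 9 * p.1 * p.2 = 2 * p'.1 ^ 3 - 9 * p'.1 * p'.2 → p = p' := by
  decide

/-- Clearing denominators. -/
theorem num_pow_mul {w : ℚ} {n : ℕ} {x y : ℤ} (h : w ^ n * (x : ℚ) = (y : ℚ)) :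
    w.num ^ n * x = (w.den : ℤ) ^ n * y := by
  have hw := Rat.mul_den_eq_num w
  have hi : ((w.num ^ n * x : ℤ) : ℚ) = (((w.den : ℤ) ^ n * y : ℤ) : ℚ) := by
    rw [Int.cast_mul, Int.cast_mul, ← h, Int.cast_pow, Int.cast_pow, Int.cast_natCast, ← hw,
      mul_pow]
    ring
  exact_mod_cast hi

theorem eq_of_isomorphic {p p' : ℤ × ℤ} (hp : p ∈ models) (hp' : p' ∈ models)
    {C : VariableChange ℚ}
    (h : C • (twoTorsionModel p.1 p.2).map (Int.castRingHom ℚ) =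
      (twoTorsionModel p'.1 p'.2).map (Int.castRingHom ℚ)) : p = p' := by
  have eΔ := congrArg WeierstrassCurve.Δ h
  have e4 := congrArg WeierstrassCurve.c₄ h
  have e6 := congrArg WeierstrassCurve.c₆ h
  rw [variableChange_Δ] at eΔ
  rw [variableChange_c₄] at e4
  rw [variableChange_c₆] at e6
  simp only [WeierstrassCurve.map_Δ, WeierstrassCurve.map_c₄, WeierstrassCurve.map_c₆,
    Δ_twoTorsionModel, c₄_twoTorsionModel, c₆_twoTorsionModel, eq_intCast] at eΔ e4 e6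
  set w : ℚ := ((C.u⁻¹ : ℚˣ) : ℚ)
  have h' : w.num ^ 12 * (16 * p.2 ^ 2 * (p.1 ^ 2 - 4 * p.2)) =
      (w.den : ℤ) ^ 12 * (16 * p'.2 ^ 2 * (p'.1 ^ 2 - 4 * p'.2)) := num_pow_mul eΔ
  have hn := congrArg Int.natAbs h'
  rw [Int.natAbs_mul (w.num ^ 12), Int.natAbs_mul ((w.den : ℤ) ^ 12), Int.natAbs_pow w.num,
    Int.natAbs_pow (w.den : ℤ), Int.natAbs_natCast] at hn
  obtain ⟨h1, h1'⟩ := Δ_models p hp
  obtain ⟨h2, h2'⟩ := Δ_models p' hp'
  have hcop : Nat.Coprime w.num.natAbs w.den := w.reduced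
  have hN : w.num.natAbs ≤ 2 := by
    by_contra hlt
    have hdvd : w.num.natAbs ^ 12 ∣ (16 * p'.2 ^ 2 * (p'.1 ^ 2 - 4 * p'.2)).natAbs :=
      (hcop.pow 12 12).dvd_of_dvd_mul_left ⟨_, hn.symm⟩
    have := Nat.le_of_dvd (by norm_num) (hdvd.trans h2)
    have h3 : 3 ^ 12 ≤ w.num.natAbs ^ 12 := Nat.pow_le_pow_left (by omega) 12
    omega
  have hM : w.den ≤ 2 := by
    by_contra hlt
    have hdvd : w.den ^ 12 ∣ (16 * p.2 ^ 2 * (p.1 ^ 2 - 4 * p.2)).natAbs :=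
      (hcop.symm.pow 12 12).dvd_of_dvd_mul_left ⟨_, hn⟩
    have := Nat.le_of_dvd (by norm_num) (hdvd.trans h1)
    have h3 : 3 ^ 12 ≤ w.den ^ 12 := Nat.pow_le_pow_left (by omega) 12
    omega
  have hw0 : w ≠ 0 := (C.u⁻¹).ne_zero
  have hN1 : 1 ≤ w.num.natAbs := Int.natAbs_pos.2 (Rat.num_ne_zero.2 hw0)
  have hu1 := Nat.le_of_dvd (by norm_num) h1
  have hu2 := Nat.le_of_dvd (by norm_num) h2
  have hone : w.num.natAbs = 1 ∧ w.den = 1 := by
    have hd1 := w.den_pos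
    rcases (show w.num.natAbs = 1 ∨ w.num.natAbs = 2 by omega) with hnum | hnum <;>
      rcases (show w.den = 1 ∨ w.den = 2 by omega) with hden | hden <;>
      rw [hnum, hden] at hn hcop
    · exact ⟨hnum, hden⟩
    · norm_num at hn; omega
    · norm_num at hn; omega
    · norm_num at hcop
  have hw : w * w = 1 := by
    rw [← Rat.num_div_den w, hone.2]
    rcases Int.natAbs_eq_iff.1 hone.1 with e | e <;> simp [e]
  rw [show w ^ 4 = (w * w) * (w * w) by ring, hw, mul_one, one_mul] at e4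
  rw [show w ^ 6 = (w * w) * (w * w) * (w * w) by ring, hw, mul_one, one_mul, one_mul] at e6
  refine invariants_models p hp p' hp' ?_ ?_
  · have h4 : (16 : ℤ) * (p.1 ^ 2 - 3 * p.2) = 16 * (p'.1 ^ 2 - 3 * p'.2) := by exact_mod_cast e4
    omega
  · have h6 : (-32 : ℤ) * (2 * p.1 ^ 3 - 9 * p.1 * p.2) =
        -32 * (2 * p'.1 ^ 3 - 9 * p'.1 * p'.2) := by exact_mod_cast e6
    omega

theorem translate {E : WeierstrassCurve ℚ} {a b a' b' r : ℤ}
    (h : (twoTorsionModel a b).IsIntegralModelOf E) (h1 : a' = a + 3 * r)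
    (h2 : b' = b + 2 * a * r + 3 * r ^ 2) (h3 : r * b + r ^ 2 * a + r ^ 3 = 0) :
    (twoTorsionModel a' b').IsIntegralModelOf E := by
  obtain ⟨C, hC⟩ := h
  refine ⟨⟨1, r, 0, 0⟩ * C, ?_⟩
  rw [mul_smul, hC, h1, h2]
  have h3' : ((r : ℚ) * b + (r : ℚ) ^ 2 * a + (r : ℚ) ^ 3) = 0 := by exact_mod_cast h3
  ext <;> simp [twoTorsionModel, variableChange_def]
  · ring
  · linear_combination h3'

end FA.OggTwo

namespace FA.Summary

/-- **Ogg's theorem**: an elliptic curve over `ℚ` has good reduction outside `2` if and only if it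
is isomorphic over `ℚ` to one of the twenty-four models. -/
theorem ogg_two (E : WeierstrassCurve ℚ) [E.IsElliptic] :
    (∀ q : ℕ, [Fact q.Prime] → q ≠ 2 →
      ∃ C : VariableChange ℚ_[q], HasGoodReduction ℤ_[q] (C • E.map (algebraMap ℚ ℚ_[q]))) ↔
      ∃ p ∈ models, (twoTorsionModel p.1 p.2).IsIntegralModelOf E := by
  refine ⟨fun hgood => ?_, fun ⟨p, hp, hM⟩ q _ hq => ?_⟩
  · obtain ⟨P, hP, h2⟩ := good_outside_two_point E hgood
    obtain ⟨A, B, hM⟩ := exists_twoTorsionModel hP h2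
    obtain ⟨a, b, hM', hb, hD, hred⟩ := exists_reduced hgood _ A B rfl hM
    rcases mem_of_isTwoPow hb hD hred with hmem | hmem
    · exact ⟨(a, b), hmem, hM'⟩
    simp only [List.mem_cons, List.not_mem_nil, or_false, Prod.mk.injEq] at hmem
    rcases hmem with ⟨rfl, rfl⟩ | ⟨rfl, rfl⟩ | ⟨rfl, rfl⟩ | ⟨rfl, rfl⟩
    · exact ⟨(0, -1), by decide, translate (r := -1) hM' rfl rfl rfl⟩
    · exact ⟨(0, -1), by decide, translate (r := 1) hM' rfl rfl rfl⟩
    · exact ⟨(0, -4), by decide, translate (r := -2) hM' rfl rfl rfl⟩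
    · exact ⟨(0, -4), by decide, translate (r := 2) hM' rfl rfl rfl⟩
  · refine FA.Root.exists_good_of_model hM q fun h => hq ?_
    have hd : q ∣ (16 * p.2 ^ 2 * (p.1 ^ 2 - 4 * p.2)).natAbs := by
      rw [← Int.natCast_dvd, ← Δ_twoTorsionModel]
      exact h
    exact (Nat.prime_dvd_prime_iff_eq Fact.out Nat.prime_two).1
      ((Fact.out : q.Prime).dvd_of_dvd_pow (hd.trans (Δ_models p hp).1))

/-- The list has twenty-four entries, none repeated. -/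
theorem ogg_models_length : models.length = 24 ∧ models.Nodup := by decide

/-- Every entry of the list is an elliptic curve, good outside `2`. -/
theorem ogg_models_good {p : ℤ × ℤ} (hp : p ∈ models) :
    ∃ (E : WeierstrassCurve ℚ) (_ : E.IsElliptic),
      (twoTorsionModel p.1 p.2).IsIntegralModelOf E ∧ ∀ q : ℕ, [Fact q.Prime] → q ≠ 2 →
        ∃ C : VariableChange ℚ_[q], HasGoodReduction ℤ_[q] (C • E.map (algebraMap ℚ ℚ_[q])) := by
  have := FA.Frob.ratCurve_isElliptic_of_Δ (Δ_models_ne_zero hp)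
  exact ⟨_, this, ⟨1, one_smul _ _⟩, (ogg_two _).2 ⟨p, hp, ⟨1, one_smul _ _⟩⟩⟩

/-- **Exactly twenty-four**: the models are pairwise non-isomorphic. -/
theorem ogg_two_unique (E : WeierstrassCurve ℚ) [E.IsElliptic]
    (hgood : ∀ q : ℕ, [Fact q.Prime] → q ≠ 2 →
      ∃ C : VariableChange ℚ_[q], HasGoodReduction ℤ_[q] (C • E.map (algebraMap ℚ ℚ_[q]))) :
    ∃! p, p ∈ models ∧ (twoTorsionModel p.1 p.2).IsIntegralModelOf E := by
  obtain ⟨p, hp, hM⟩ := (ogg_two E).1 hgood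
  refine ⟨p, ⟨hp, hM⟩, fun p' ⟨hp', C', hC'⟩ => ?_⟩
  obtain ⟨C, hC⟩ := hM
  exact eq_of_isomorphic hp' hp (C := C * C'⁻¹) (by rw [mul_smul, ← hC', inv_smul_smul, hC])

/-- **The five invariants.** -/
theorem ogg_two_j (E : WeierstrassCurve ℚ) [E.IsElliptic]
    (hgood : ∀ q : ℕ, [Fact q.Prime] → q ≠ 2 →
      ∃ C : VariableChange ℚ_[q], HasGoodReduction ℤ_[q] (C • E.map (algebraMap ℚ ℚ_[q]))) :
    E.j ∈ ({128, 1728, 8000, 10976, 287496} : Set ℚ) := by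
  obtain ⟨p, hp, hM⟩ := (ogg_two E).1 hgood
  have hlist : ∀ p ∈ models, ∃ j ∈ [(128 : ℤ), 1728, 8000, 10976, 287496],
      (16 * (p.1 ^ 2 - 3 * p.2)) ^ 3 = j * (16 * p.2 ^ 2 * (p.1 ^ 2 - 4 * p.2)) := by decide
  obtain ⟨j, hj, hjp⟩ := hlist p hp
  have hE : E.j = (j : ℚ) := by
    rw [FA.OggShafarevich.j_eq_of_model hM, div_eq_iff (by exact_mod_cast Δ_models_ne_zero hp),
      c₄_twoTorsionModel, Δ_twoTorsionModel]
    exact_mod_cast hjp
  rw [hE]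
  simp only [List.mem_cons, List.not_mem_nil, or_false] at hj
  rcases hj with rfl | rfl | rfl | rfl | rfl <;> simp

/-- **None is good at `2`.** -/
theorem ogg_two_bad (E : WeierstrassCurve ℚ) [E.IsElliptic]
    (hgood : ∀ q : ℕ, [Fact q.Prime] → q ≠ 2 →
      ∃ C : VariableChange ℚ_[q], HasGoodReduction ℤ_[q] (C • E.map (algebraMap ℚ ℚ_[q]))) :
    ¬ ∃ C : VariableChange ℚ_[2], HasGoodReduction ℤ_[2] (C • E.map (algebraMap ℚ ℚ_[2])) := by
  intro h2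
  obtain ⟨p, hp, C₀, hC₀⟩ := (ogg_two E).1 hgood
  obtain ⟨W, ⟨C₁, hC₁⟩, hodd⟩ := FA.CM.Deuring.exists_model_not_dvd E h2
  have hD : (C₁ * C₀⁻¹) • (twoTorsionModel p.1 p.2).map (Int.castRingHom ℚ) =
      W.map (Int.castRingHom ℚ) := by
    rw [mul_smul, ← hC₀, inv_smul_smul, hC₁]
  have eΔ := congrArg WeierstrassCurve.Δ hD
  have e4 := congrArg WeierstrassCurve.c₄ hD
  rw [variableChange_Δ] at eΔ
  rw [variableChange_c₄] at e4
  simp only [WeierstrassCurve.map_Δ, WeierstrassCurve.map_c₄, Δ_twoTorsionModel,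
    c₄_twoTorsionModel, eq_intCast] at eΔ e4
  set w : ℚ := ((C₁ * C₀⁻¹).u⁻¹ : ℚˣ).val
  have h12 : w.num ^ 12 * (16 * p.2 ^ 2 * (p.1 ^ 2 - 4 * p.2)) = (w.den : ℤ) ^ 12 * W.Δ :=
    num_pow_mul eΔ
  have h4 : w.num ^ 4 * (16 * (p.1 ^ 2 - 3 * p.2)) = (w.den : ℤ) ^ 4 * W.c₄ := num_pow_mul e4
  set X : ℤ := w.num
  have hX : ¬ (2 : ℤ) ∣ X := fun hdvd => by
    rcases Int.prime_two.dvd_or_dvd
      ((dvd_mul_of_dvd_left (dvd_pow hdvd (by norm_num)) _ :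
        (2 : ℤ) ∣ X ^ 12 * _).trans h12.dvd) with h | h
    · exact Nat.not_coprime_of_dvd_of_dvd one_lt_two (Int.natAbs_dvd_natAbs.2 hdvd)
        (Int.natCast_dvd_natCast.1 (Int.prime_two.dvd_of_dvd_pow h)) w.reduced
    · exact hodd h
  have hY : (2 : ℤ) ∣ (w.den : ℤ) := by
    rcases Int.prime_two.dvd_or_dvd ((dvd_mul_of_dvd_right (dvd_mul_of_dvd_left
      (dvd_mul_of_dvd_left (show (2 : ℤ) ∣ 16 by norm_num) _) _) (X ^ 12)).trans h12.dvd) with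
      h | h
    · exact Int.prime_two.dvd_of_dvd_pow h
    · exact absurd h hodd
  obtain ⟨e, he⟩ := hY
  rw [he] at h12 h4
  have hcop : ∀ k : ℕ, IsCoprime ((2 : ℤ) ^ k) (X ^ 12) := fun k =>
    ((Int.prime_two.coprime_iff_not_dvd).2 hX).pow
  have he2 : ¬ (2 : ℤ) ∣ e := by
    rintro ⟨f, rfl⟩
    have hdvd : (2 : ℤ) ^ 24 ∣ 16 * p.2 ^ 2 * (p.1 ^ 2 - 4 * p.2) :=
      (hcop 24).dvd_of_dvd_mul_left ⟨f ^ 12 * W.Δ, by rw [h12]; ring⟩
    have h := Int.natAbs_dvd_natAbs.2 hdvd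
    have := Nat.le_of_dvd (by norm_num) (h.trans (Δ_models p hp).1)
    norm_num at this
  obtain ⟨k, hk⟩ : (2 : ℤ) ^ 12 ∣ 16 * p.2 ^ 2 * (p.1 ^ 2 - 4 * p.2) :=
    (hcop 12).dvd_of_dvd_mul_left ⟨e ^ 12 * W.Δ, by rw [h12]; ring⟩
  have hkodd : ¬ (2 : ℤ) ∣ k := fun hdvd => by
    rw [hk] at h12
    have h' : X ^ 12 * k = e ^ 12 * W.Δ :=
      mul_left_cancel₀ (pow_ne_zero 12 (two_ne_zero' ℤ)) (by linear_combination h12)
    rcases Int.prime_two.dvd_or_dvd ((dvd_mul_of_dvd_right hdvd (X ^ 12)).trans h'.dvd) with h | h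
    · exact he2 (Int.prime_two.dvd_of_dvd_pow h)
    · exact hodd h
  have hlist : ∀ p ∈ models, (4096 : ℤ) ∣ 16 * p.2 ^ 2 * (p.1 ^ 2 - 4 * p.2) →
      ¬ (2 : ℤ) ∣ 16 * p.2 ^ 2 * (p.1 ^ 2 - 4 * p.2) / 4096 →
      p.1 ^ 2 - 3 * p.2 = 12 ∨ p.1 ^ 2 - 3 * p.2 = -12 := by decide
  have hp12 := hlist p hp ⟨k, by rw [hk]; norm_num⟩ (by rw [hk]; simpa using hkodd)
  obtain ⟨s, hs, hs4⟩ : ∃ s : ℤ, (s = 12 ∨ s = -12) ∧ X ^ 4 * s = e ^ 4 * W.c₄ :=
    ⟨_, hp12, mul_left_cancel₀ (pow_ne_zero 4 (two_ne_zero' ℤ)) (by linear_combination h4)⟩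
  -- `c₄` of an integral equation is odd or a multiple of eight
  by_cases ha : (2 : ℤ) ∣ W.a₁
  · obtain ⟨m, hm⟩ := ha
    have h8 : (8 : ℤ) ∣ X ^ 4 * s := by
      rw [hs4]
      refine dvd_mul_of_dvd_right ⟨2 * (m ^ 2 + W.a₂) ^ 2 - 3 * W.b₄, ?_⟩ _
      rw [WeierstrassCurve.c₄, WeierstrassCurve.b₂, hm]
      ring
    have h84 : (4 : ℤ) * 2 ∣ 4 * (X ^ 4 * 3) := by
      rcases hs with rfl | rfl <;> omega
    rcases Int.prime_two.dvd_or_dvd ((mul_dvd_mul_iff_left four_ne_zero).1 h84) with h | h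
    · exact hX (Int.prime_two.dvd_of_dvd_pow h)
    · omega
  · have h2s : (2 : ℤ) ∣ e ^ 4 * W.c₄ := hs4 ▸ dvd_mul_of_dvd_right (by
      rcases hs with rfl | rfl <;> norm_num) _
    rcases Int.prime_two.dvd_or_dvd h2s with h | h
    · exact he2 (Int.prime_two.dvd_of_dvd_pow h)
    · refine ha (Int.prime_two.dvd_of_dvd_pow (n := 4) ?_)
      have e : W.a₁ ^ 4 =
          W.c₄ - 2 * (4 * W.a₁ ^ 2 * W.a₂ + 8 * W.a₂ ^ 2 - 12 * W.b₄) := by
        rw [WeierstrassCurve.c₄, WeierstrassCurve.b₂]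
        ring
      rw [e]
      exact dvd_sub h (dvd_mul_right 2 _)

end FA.Summary

end
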