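import Fermat.Agent.FSTwo.Livne
import Fermat.Agent.Root.SummaryOggTwo
import Fermat.Agent.Root.SummaryLFunctionInvariance
import Fermat.Agent.RT.Tate.Good

/-!
# Faltings, Serre and Livné at two

* `faltings_serre_two`: two continuous representations of `G_ℚ` in `GL₂(R)`, unramified outside
  `2`, `R` separated for a maximal ideal containing `2`, have the same trace and determinant
  everywhere as soon as they agree in both at one Frobenius element over each of `3`, `5`, `7`;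
* `good_outside_two_LFunction_eq`: so two elliptic curves over `ℚ` with good reduction outside `2`
  and the same `a₃`, `a₅`, `a₇` have the same L-function.
-/

set_option autoImplicit false
set_option linter.unusedSectionVars false
set_option linter.style.haveILetI false

noncomputable section

open Matrix WeierstrassCurve FA.OggTwo

local notation "Qb" => AlgebraicClosure ℚ
local notation "GQ" => AlgebraicClosure ℚ ≃ₐ[ℚ] AlgebraicClosure ℚ

namespace FA.Summary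

/-- **The criterion of Faltings, Serre and Livné at two.** -/
theorem faltings_serre_two {R : Type*} [CommRing R] (𝔪 : Ideal R) [𝔪.IsMaximal]
    (h2 : (2 : R) ∈ 𝔪) (hsep : ⨅ n : ℕ, 𝔪 ^ n = ⊥) (ρ₁ ρ₂ : GQ →* GL (Fin 2) R)
    (hopen₁ : ∀ n : ℕ,
      IsOpen (((GeneralLinearGroup.map (Ideal.Quotient.mk (𝔪 ^ n))).comp ρ₁).ker : Set GQ))
    (hopen₂ : ∀ n : ℕ,
      IsOpen (((GeneralLinearGroup.map (Ideal.Quotient.mk (𝔪 ^ n))).comp ρ₂).ker : Set GQ))
    (hun₁ : ∀ q : ℕ, q.Prime → q ≠ 2 → ∀ A : ValuationSubring Qb, A.LiesOverPrime q →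
      A.inertiaSubgroupIn ℚ ≤ ρ₁.ker)
    (hun₂ : ∀ q : ℕ, q.Prime → q ≠ 2 → ∀ A : ValuationSubring Qb, A.LiesOverPrime q →
      A.inertiaSubgroupIn ℚ ≤ ρ₂.ker)
    (hF : ∀ l ∈ ({3, 5, 7} : Finset ℕ), ∃ A : ValuationSubring Qb, A.LiesOverPrime l ∧
      ∃ σ, A.IsFrobeniusAt σ l ∧
        (ρ₁ σ : Matrix (Fin 2) (Fin 2) R).trace = (ρ₂ σ : Matrix (Fin 2) (Fin 2) R).trace ∧
        (ρ₁ σ : Matrix (Fin 2) (Fin 2) R).det = (ρ₂ σ : Matrix (Fin 2) (Fin 2) R).det)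
    (σ : GQ) :
    (ρ₁ σ : Matrix (Fin 2) (Fin 2) R).trace = (ρ₂ σ : Matrix (Fin 2) (Fin 2) R).trace ∧
      (ρ₁ σ : Matrix (Fin 2) (Fin 2) R).det = (ρ₂ σ : Matrix (Fin 2) (Fin 2) R).det :=
  FA.FSTwo.trace_det_eq 𝔪 h2 hsep ρ₁ ρ₂ hopen₁ hopen₂ hun₁ hun₂ hF σ

end FA.Summary

namespace FA.FSTwo

open FA.RT.Tate FA.Frob

variable {p : ℤ × ℤ} [(ratCurve (twoTorsionModel p.1 p.2)).IsElliptic]

theorem not_dvd_Δ (hp : p ∈ models) {q : ℕ} (hq : q.Prime) (hq2 : q ≠ 2) :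
    (twoTorsionModel p.1 p.2).IsGoodPrimeFor q := fun h => hq2 <| by
  have hd : q ∣ (16 * p.2 ^ 2 * (p.1 ^ 2 - 4 * p.2)).natAbs := by
    rw [← Int.natCast_dvd, ← Δ_twoTorsionModel]
    exact h
  exact (Nat.prime_dvd_prime_iff_eq hq Nat.prime_two).1
    (hq.dvd_of_dvd_pow (hd.trans (Δ_models p hp).1))

variable (B : TateBasis 2 (twoTorsionModel p.1 p.2))

theorem iInf_pow_eq_bot :
    ⨅ n : ℕ, (IsLocalRing.maximalIdeal ℤ_[2]) ^ n = ⊥ :=
  Ideal.iInf_pow_eq_bot_of_isDomain _ (IsLocalRing.maximalIdeal.isMaximal _).ne_top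

theorem isOpen_rep_ker (n : ℕ) :
    IsOpen (((GeneralLinearGroup.map
        (Ideal.Quotient.mk ((IsLocalRing.maximalIdeal ℤ_[2]) ^ n))).comp
      B.rep.toHomUnits).ker : Set GQ) := by
  obtain ⟨L, hL, hfix⟩ := B.exists_field n
  have := hL
  refine Subgroup.isOpen_mono (H₁ := L.fixingSubgroup) (fun σ hσ => MonoidHom.mem_ker.2
    (Units.ext ?_)) (IntermediateField.fixingSubgroup_isOpen L)
  have h := hfix σ ((IntermediateField.mem_fixingSubgroup_iff L σ).1 hσ)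
  ext i j
  have hij := congrFun (congrFun h i) j
  rw [Matrix.map_apply, Matrix.one_apply] at hij
  show Ideal.Quotient.mk _ (B.rep σ i j) = (1 : Matrix (Fin 2) (Fin 2) _) i j
  rw [Matrix.one_apply, ← map_one (Ideal.Quotient.mk ((IsLocalRing.maximalIdeal ℤ_[2]) ^ n)),
    ← map_zero (Ideal.Quotient.mk ((IsLocalRing.maximalIdeal ℤ_[2]) ^ n)),
    ← apply_ite (Ideal.Quotient.mk ((IsLocalRing.maximalIdeal ℤ_[2]) ^ n)),
    Ideal.Quotient.mk_eq_mk_iff_sub_mem, PadicInt.maximalIdeal_eq_span_p, Ideal.span_singleton_pow,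
    ← PadicInt.ker_toZModPow, RingHom.mem_ker, map_sub, hij, apply_ite (PadicInt.toZModPow n),
    map_one, map_zero, sub_self]

end FA.FSTwo

namespace FA.Summary

open FA.RT.Tate FA.Frob

/-- **Two curves good outside `2` with the same `a₃`, `a₅`, `a₇` have the same L-function.** -/
theorem good_outside_two_LFunction_eq (E E' : WeierstrassCurve ℚ) [E.IsElliptic] [E'.IsElliptic]
    (hgood : ∀ q : ℕ, [Fact q.Prime] → q ≠ 2 →
      ∃ C : VariableChange ℚ_[q], HasGoodReduction ℤ_[q] (C • E.map (algebraMap ℚ ℚ_[q])))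
    (hgood' : ∀ q : ℕ, [Fact q.Prime] → q ≠ 2 →
      ∃ C : VariableChange ℚ_[q], HasGoodReduction ℤ_[q] (C • E'.map (algebraMap ℚ ℚ_[q])))
    (h3 : E.LFunction 3 = E'.LFunction 3) (h5 : E.LFunction 5 = E'.LFunction 5)
    (h7 : E.LFunction 7 = E'.LFunction 7) : E.LFunction = E'.LFunction := by
  obtain ⟨p, hp, hM⟩ := (ogg_two E).1 hgood
  obtain ⟨p', hp', hM'⟩ := (ogg_two E').1 hgood'
  haveI := ratCurve_isElliptic_of_Δ (Δ_models_ne_zero hp)
  haveI := ratCurve_isElliptic_of_Δ (Δ_models_ne_zero hp')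
  obtain ⟨B⟩ := exists_tateBasis (p := 2) (W := twoTorsionModel p.1 p.2)
  obtain ⟨B'⟩ := exists_tateBasis (p := 2) (W := twoTorsionModel p'.1 p'.2)
  refine LFunction_eq_of_traces E E' {2} fun l hl hlS => ?_
  have hl2 : l ≠ 2 := fun e => hlS (by simp [e])
  have hdvd := FA.FSTwo.not_dvd_Δ hp hl hl2
  have hdvd' := FA.FSTwo.not_dvd_Δ hp' hl hl2
  obtain ⟨A, hA⟩ := FA.Deform.exists_liesOverPrime hl
  obtain ⟨σ, hσ⟩ := FA.Deform.exists_isFrobeniusAt hl hA
  have h := (faltings_serre_two (IsLocalRing.maximalIdeal ℤ_[2])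
    (by rw [PadicInt.maximalIdeal_eq_span_p]; exact Ideal.mem_span_singleton_self _)
    FA.FSTwo.iInf_pow_eq_bot B.rep.toHomUnits B'.rep.toHomUnits
    (FA.FSTwo.isOpen_rep_ker B) (FA.FSTwo.isOpen_rep_ker B')
    (fun q hq hq2 C hC τ hτ => MonoidHom.mem_ker.2 (Units.ext
      (B.rep_inertia_good hq hC hq2 (FA.FSTwo.not_dvd_Δ hp hq hq2) hτ)))
    (fun q hq hq2 C hC τ hτ => MonoidHom.mem_ker.2 (Units.ext
      (B'.rep_inertia_good hq hC hq2 (FA.FSTwo.not_dvd_Δ hp' hq hq2) hτ)))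
    (fun m hm => by
      have hm' : m.Prime ∧ m ≠ 2 ∧ E.LFunction m = E'.LFunction m := by
        fin_cases hm
        exacts [⟨by norm_num, by norm_num, h3⟩, ⟨by norm_num, by norm_num, h5⟩,
          ⟨by norm_num, by norm_num, h7⟩]
      obtain ⟨hmp, hm2, he⟩ := hm'
      have g := FA.FSTwo.not_dvd_Δ hp hmp hm2
      have g' := FA.FSTwo.not_dvd_Δ hp' hmp hm2
      obtain ⟨C, hC⟩ := FA.Deform.exists_liesOverPrime hmp
      obtain ⟨s, hs⟩ := FA.Deform.exists_isFrobeniusAt hmp hC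
      obtain ⟨t, d⟩ := B.rep_frobenius hmp hC hm2 g hs
      obtain ⟨t', d'⟩ := B'.rep_frobenius hmp hC hm2 g' hs
      refine ⟨C, hC, s, hs, ?_, d.trans d'.symm⟩
      rw [MonoidHom.coe_toHomUnits, MonoidHom.coe_toHomUnits, t, t',
        ← FA.Root.LFunction_apply_prime E _ hM hmp g,
        ← FA.Root.LFunction_apply_prime E' _ hM' hmp g', he]) σ).1
  rw [MonoidHom.coe_toHomUnits, MonoidHom.coe_toHomUnits, (B.rep_frobenius hl hA hl2 hdvd hσ).1,
    (B'.rep_frobenius hl hA hl2 hdvd' hσ).1, Int.cast_inj] at h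
  rw [FA.Root.LFunction_apply_prime E _ hM hl hdvd, FA.Root.LFunction_apply_prime E' _ hM' hl hdvd']
  exact h

end FA.Summary

end
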