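import Fermat.Agent.SetzerNeumann.Model
import Fermat.Agent.Frob.VarChange
import Fermat.Agent.SetzerNeumann.Rat

/-!
# The theorem of Setzer and Neumann

A semistable elliptic curve over `ℚ` with bad reduction at one prime `p` only and with a rational
point of order two has `p = 17` or `p = u² + 64`, and both kinds occur. The proof needs
`u² + 64 ≠ y ^ n` from level lowering.
-/

set_option autoImplicit false

noncomputable section

open WeierstrassCurve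

namespace FA.SetzerNeumann

/-- A point of order two gives a root of the two-division cubic. -/
theorem exists_root_of_point {V : WeierstrassCurve ℚ} (P : V.toAffine.Point)
    (hP : addOrderOf P = 2) :
    ∃ x : ℚ, 4 * x ^ 3 + V.b₂ * x ^ 2 + 2 * V.b₄ * x + V.b₆ = 0 := by
  rcases P with _ | ⟨x, y, h⟩
  · rw [← Affine.Point.zero_def, addOrderOf_zero] at hP
    omega
  have h2 : 2 • Affine.Point.some x y h = 0 := hP ▸ addOrderOf_nsmul_eq_zero _
  have hy : y = V.toAffine.negY x y := by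
    by_contra hy
    rw [two_nsmul, Affine.Point.add_self_of_Y_ne hy] at h2
    exact Affine.Point.some_ne_zero _ h2
  refine ⟨x, ?_⟩
  have := (Affine.equation_iff x y).1 h.1
  simp only [Affine.negY] at hy
  simp only [b₂, b₄, b₆]
  linear_combination (-4 : ℚ) * this + (2 * y + V.a₁ * x + V.a₃) * hy

/-- The models `y² + x y = x³ + a₂ x² ± x`. -/
theorem exists_model {p : ℕ} (hp : p.Prime) {a₂ a₄ : ℤ} (h4 : a₄ = 1 ∨ a₄ = -1)
    (hΔ : (⟨1, a₂, 0, a₄, 0⟩ : WeierstrassCurve ℤ).Δ = p) :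
    (⟨1, a₂, 0, a₄, 0⟩ : WeierstrassCurve ℤ).IsSemistableModel ∧
      (⟨1, a₂, 0, a₄, 0⟩ : WeierstrassCurve ℤ).Δ ≠ 0 ∧
      (∀ q : ℕ, q.Prime → ((q : ℤ) ∣ (⟨1, a₂, 0, a₄, 0⟩ : WeierstrassCurve ℤ).Δ ↔ q = p)) ∧
      ∃ P : ((⟨1, a₂, 0, a₄, 0⟩ : WeierstrassCurve ℤ).map
        (Int.castRingHom ℚ)).toAffine.Point, addOrderOf P = 2 := by
  have hbad : ∀ q : ℕ, q.Prime →
      ((q : ℤ) ∣ (⟨1, a₂, 0, a₄, 0⟩ : WeierstrassCurve ℤ).Δ ↔ q = p) :=
    fun q hq => by rw [hΔ, Int.natCast_dvd_natCast, Nat.prime_dvd_prime_iff_eq hq hp]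
  have h0 : (⟨1, a₂, 0, a₄, 0⟩ : WeierstrassCurve ℤ).Δ ≠ 0 := by
    rw [hΔ]
    exact_mod_cast hp.ne_zero
  have hd : (⟨1, a₂, 0, a₄, 0⟩ : WeierstrassCurve ℤ).Δ =
      a₄ ^ 2 * ((4 * a₂ + 1) ^ 2 - 64 * a₄) := by
    simp only [Δ, b₂, b₄, b₆, b₈]
    ring
  refine ⟨fun q hq hqΔ hqc => ?_, h0, hbad, ?_⟩
  · obtain rfl := (hbad q hq).1 hqΔ
    have h16 : (q : ℤ) ∣ 16 * a₄ := by
      have e : (16 : ℤ) * a₄ * a₄ ^ 2 =
          a₄ ^ 2 * (⟨1, a₂, 0, a₄, 0⟩ : WeierstrassCurve ℤ).c₄ -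
            (⟨1, a₂, 0, a₄, 0⟩ : WeierstrassCurve ℤ).Δ := by
        rw [hd]
        simp only [c₄, b₂, b₄]
        ring
      have hd2 : (q : ℤ) ∣ 16 * a₄ * a₄ ^ 2 := e ▸ dvd_sub (hqc.mul_left _) hqΔ
      rcases h4 with h | h <;> subst h <;> simpa using hd2
    have hq2 : q = 2 := by
      have h' : q ∣ 2 ^ 4 := by
        refine Int.natCast_dvd_natCast.1 ?_
        rcases h4 with h | h <;> subst h <;> simpa using h16
      exact (Nat.prime_dvd_prime_iff_eq hq Nat.prime_two).1 (hq.dvd_of_dvd_pow h')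
    subst hq2
    rw [hd] at hΔ
    rcases h4 with h | h <;> subst h <;> ring_nf at hΔ <;> omega
  · have hns : ((⟨1, a₂, 0, a₄, 0⟩ : WeierstrassCurve ℤ).map
        (Int.castRingHom ℚ)).toAffine.Nonsingular 0 0 := by
      have : (a₄ : ℚ) ≠ 0 := by rcases h4 with h | h <;> simp [h]
      simp [Affine.nonsingular_iff, Affine.equation_iff, map, this.symm]
    refine ⟨Affine.Point.some 0 0 hns, addOrderOf_eq_prime ?_ (Affine.Point.some_ne_zero _)⟩
    rw [two_nsmul, Affine.Point.add_self_of_Y_eq]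
    simp [Affine.negY, map]

end FA.SetzerNeumann

namespace FA.Summary

open FA.SetzerNeumann

/-- **Setzer–Neumann**: a semistable integral equation whose only bad prime is `p`, with a rational
point of order two, has `p = 17` and `Δ ∈ {17, 17², -17⁴}`, or `p = u² + 64` and `Δ ∈ {p, -p²}`. -/
theorem setzer_neumann {p : ℕ} (hp : p.Prime) {W : WeierstrassCurve ℤ} (hW : W.IsSemistableModel)
    (hΔ : W.Δ ≠ 0) (hbad : ∀ q : ℕ, q.Prime → ((q : ℤ) ∣ W.Δ ↔ q = p))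
    (P : (W.map (Int.castRingHom ℚ)).toAffine.Point) (hP : addOrderOf P = 2) :
    p = 17 ∧ (W.Δ = 17 ∨ W.Δ = 17 ^ 2 ∨ W.Δ = -17 ^ 4) ∨
      (∃ u : ℤ, (p : ℤ) = u ^ 2 + 64) ∧ (W.Δ = p ∨ W.Δ = -(p : ℤ) ^ 2) := by
  obtain ⟨x, hx⟩ := exists_root_of_point P hP
  refine classify hp hW hΔ hbad ⟨x, ?_⟩
  simpa only [map_b₂, map_b₄, map_b₆, eq_intCast] using hx

/-- **Setzer–Neumann, both directions**: some semistable equation with the single bad prime `p`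
has a rational point of order two exactly if `p = 17` or `p - 64` is a square. -/
theorem setzer_neumann_iff {p : ℕ} (hp : p.Prime) :
    (∃ W : WeierstrassCurve ℤ, W.IsSemistableModel ∧ W.Δ ≠ 0 ∧
      (∀ q : ℕ, q.Prime → ((q : ℤ) ∣ W.Δ ↔ q = p)) ∧
      ∃ P : (W.map (Int.castRingHom ℚ)).toAffine.Point, addOrderOf P = 2) ↔
      p = 17 ∨ ∃ u : ℤ, (p : ℤ) = u ^ 2 + 64 := by
  constructor
  · rintro ⟨W, hW, hΔ, hbad, P, hP⟩
    rcases setzer_neumann hp hW hΔ hbad P hP with ⟨h, -⟩ | ⟨h, -⟩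
    · exact Or.inl h
    · exact Or.inr h
  · rintro (rfl | ⟨u, hu⟩)
    · exact ⟨⟨1, 2, 0, 1, 0⟩, exists_model hp (Or.inl rfl) (by
        simp only [Δ, b₂, b₄, b₆, b₈]; norm_num)⟩
    · obtain ⟨s, hs⟩ : ∃ s : ℤ, (4 * s + 1) ^ 2 = u ^ 2 := by
        rcases Int.even_or_odd u with ⟨t, rfl⟩ | ⟨t, rfl⟩
        · exfalso
          have h2 : 2 ∣ p := Int.natCast_dvd_natCast.1 (show ((2 : ℕ) : ℤ) ∣ (p : ℤ) from
            ⟨2 * t ^ 2 + 32, by rw [hu]; push_cast; ring⟩)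
          have := (Nat.prime_dvd_prime_iff_eq Nat.prime_two hp).1 h2
          nlinarith [sq_nonneg (t + t)]
        · rcases Int.even_or_odd t with ⟨r, rfl⟩ | ⟨r, rfl⟩
          · exact ⟨r, by ring⟩
          · exact ⟨-r - 1, by ring⟩
      refine ⟨⟨1, s, 0, -1, 0⟩, exists_model hp (Or.inr rfl) ?_⟩
      simp only [Δ, b₂, b₄, b₆, b₈]
      linear_combination hs - hu

/-- **Over `ℚ`**: a semistable elliptic curve with good reduction away from `p` and with a rational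
point of order two has `p = 17` or `p = u² + 64`; in particular `p ≡ 1 (mod 8)`. -/
theorem setzer_neumann_rat {p : ℕ} (hp : p.Prime) (E : WeierstrassCurve ℚ) [E.IsElliptic]
    (h : ∀ q : ℕ, ∀ [Fact q.Prime], ∃ C : VariableChange ℚ_[q],
      HasGoodReduction ℤ_[q] (C • E.map (algebraMap ℚ ℚ_[q])) ∨
        HasMultiplicativeReduction ℤ_[q] (C • E.map (algebraMap ℚ ℚ_[q])))
    (hgood : ∀ q : ℕ, ∀ [Fact q.Prime], q ≠ p → ∃ C : VariableChange ℚ_[q],
      HasGoodReduction ℤ_[q] (C • E.map (algebraMap ℚ ℚ_[q])))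
    (P : E.toAffine.Point) (hP : addOrderOf P = 2) :
    (p = 17 ∨ ∃ u : ℤ, (p : ℤ) = u ^ 2 + 64) ∧ p % 8 = 1 := by
  obtain ⟨W, hb, hW⟩ := exists_oneBad hp E h hgood
  obtain ⟨-, hs, hΔ, hbad⟩ := id hb
  have := FA.Frob.ratCurve_isElliptic_of_Δ hΔ
  obtain ⟨C, hC⟩ := hW
  let e : (W.map (Int.castRingHom ℚ)).toAffine.Point ≃+ E.toAffine.Point := FA.Frob.vcEquiv C hC
  rcases setzer_neumann hp hs hΔ hbad (e.symm P)
      ((addOrderOf_injective e.symm.toAddMonoidHom e.symm.injective P).trans hP) with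
    ⟨rfl, -⟩ | ⟨⟨u, hu⟩, -⟩
  · exact ⟨Or.inl rfl, by norm_num⟩
  · refine ⟨Or.inr ⟨u, hu⟩, ?_⟩
    rcases Int.even_or_odd u with ⟨t, rfl⟩ | ⟨t, rfl⟩
    · exfalso
      have h2 : 2 ∣ p := Int.natCast_dvd_natCast.1 (show ((2 : ℕ) : ℤ) ∣ (p : ℤ) from
        ⟨2 * t ^ 2 + 32, by rw [hu]; push_cast; ring⟩)
      have := (Nat.prime_dvd_prime_iff_eq Nat.prime_two hp).1 h2
      nlinarith [sq_nonneg (t + t)]
    · obtain ⟨r, hr⟩ := Int.even_mul_succ_self t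
      have : (p : ℤ) = 8 * (r + 8) + 1 := by rw [hu]; linear_combination 4 * hr
      omega

end FA.Summary

end
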