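import Fermat.Agent.SetzerNeumann.ExponentTwo
import Fermat.Agent.SetzerNeumann.ExponentThree
import Fermat.Agent.SetzerNeumann.ExponentFive
import Fermat.Agent.SetzerNeumann.ExponentSeven
import Fermat.Agent.Root.SummarySetzerNeumann
import Fermat.Agent.Root.SummaryDiscriminant
import Fermat.Agent.Thirteen.Summary
import Fermat.Agent.SetzerNeumann.Rat

/-!
# The theorem of Mestre and Oesterlé

A semistable integral equation with one prime `p` of bad reduction has discriminant `±p`, apart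
from `-11⁵`, `17²`, `-17⁴`, `-19³`, `37³` and, for `p = u² + 64`, `-p²`.
-/

set_option autoImplicit false

noncomputable section

open WeierstrassCurve

namespace FA.SetzerNeumann

/-- An odd prime dividing the exponent has a reducible torsion. -/
theorem not_irreducible {W : WeierstrassCurve ℤ} {p k l : ℕ} (h : OneBadPrime W p) [Fact l.Prime]
    (hl : l ≠ 2) (hk : W.Δ.natAbs = (p ^ k) ^ l) : ¬ W.ModRepIsIrreducible l := fun hirr =>
  FA.Root.discriminant_ne_pow_of_irreducible h.ne_zero h.semistable hl hirr ((p ^ k : ℕ) : ℤ)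
    (by rw [Int.natAbs_natCast, hk])

/-- A realisation of an exceptional discriminant. -/
theorem oneBad_pow {p n : ℕ} (hp : p.Prime) (hn : n ≠ 0) {W : WeierstrassCurve ℤ}
    (hΔ : W.Δ.natAbs = p ^ n) (hc : ¬(p : ℤ) ∣ W.c₄) : OneBadPrime W p where
  prime := hp
  bad q hq := by
    rw [Int.natCast_dvd, hΔ]
    exact ⟨fun hd => (Nat.prime_dvd_prime_iff_eq hq hp).1 (hq.dvd_of_dvd_pow hd),
      fun e => e ▸ dvd_pow_self _ hn⟩
  semistable q hq hd := by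
    rw [Int.natCast_dvd, hΔ] at hd
    rwa [(Nat.prime_dvd_prime_iff_eq hq hp).1 (hq.dvd_of_dvd_pow hd)]
  ne_zero := fun e => pow_ne_zero n hp.ne_zero (by rw [← hΔ, e, Int.natAbs_zero])

/-- The curve `y² + x y = x³ + s x² + 4 x + 4 s + 1` of discriminant `-((4 s + 1)² + 64)²`. -/
theorem neg_sq_model {p : ℕ} (hp : p.Prime) {s : ℤ} (hs : (p : ℤ) = (4 * s + 1) ^ 2 + 64) :
    OneBadPrime (⟨1, s, 0, 4, 4 * s + 1⟩ : WeierstrassCurve ℤ) p ∧
      (⟨1, s, 0, 4, 4 * s + 1⟩ : WeierstrassCurve ℤ).Δ = -(p : ℤ) ^ 2 := by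
  have hΔ : (⟨1, s, 0, 4, 4 * s + 1⟩ : WeierstrassCurve ℤ).Δ = -(p : ℤ) ^ 2 := by
    rw [hs]
    simp only [Δ, b₂, b₄, b₆, b₈]
    ring
  refine ⟨oneBad_pow hp two_ne_zero (by
    rw [hΔ, Int.natAbs_neg, Int.natAbs_pow, Int.natAbs_natCast]) fun hd => ?_, hΔ⟩
  have h256 : (p : ℤ) ∣ ((2 ^ 8 : ℕ) : ℤ) := by
    rw [show ((2 ^ 8 : ℕ) : ℤ) =
        (p : ℤ) - (⟨1, s, 0, 4, 4 * s + 1⟩ : WeierstrassCurve ℤ).c₄ by
      simp only [WeierstrassCurve.c₄, WeierstrassCurve.b₂, WeierstrassCurve.b₄]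
      push_cast
      linear_combination -hs]
    exact dvd_sub (dvd_refl _) hd
  have := Nat.le_of_dvd two_pos (hp.dvd_of_dvd_pow (Int.natCast_dvd_natCast.1 h256))
  nlinarith [sq_nonneg (4 * s + 1)]

/-- Such a curve for every prime `u² + 64`. -/
theorem exists_neg_sq_model {p : ℕ} (hp : p.Prime) {u : ℤ} (hu : (p : ℤ) = u ^ 2 + 64) :
    ∃ W : WeierstrassCurve ℤ, OneBadPrime W p ∧ W.Δ = -(p : ℤ) ^ 2 := by
  have hodd : Odd u := Int.not_even_iff_odd.1 fun ⟨t, ht⟩ => by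
    have h2 : 2 ∣ p := Int.natCast_dvd_natCast.1 (show ((2 : ℕ) : ℤ) ∣ (p : ℤ) from
      ⟨2 * t ^ 2 + 32, by rw [hu, ht]; push_cast; ring⟩)
    have := (Nat.prime_dvd_prime_iff_eq Nat.prime_two hp).1 h2
    nlinarith [sq_nonneg u]
  obtain ⟨s, hs⟩ : ∃ s : ℤ, (4 * s + 1) ^ 2 = u ^ 2 := by
    obtain ⟨t, rfl⟩ := hodd
    rcases Int.even_or_odd t with ⟨r, rfl⟩ | ⟨r, rfl⟩
    · exact ⟨r, by ring⟩
    · exact ⟨-r - 1, by ring⟩
  exact ⟨_, neg_sq_model hp (by rw [hs, hu])⟩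

end FA.SetzerNeumann

namespace FA.Summary

open FA.SetzerNeumann

/-- **Mestre–Oesterlé**: a semistable integral equation whose only bad prime is `p` has
discriminant `±p`, or is one of the six exceptions. -/
theorem mestre_oesterle {p : ℕ} (hp : p.Prime) {W : WeierstrassCurve ℤ} (hW : W.IsSemistableModel)
    (hΔ : W.Δ ≠ 0) (hbad : ∀ q : ℕ, q.Prime → ((q : ℤ) ∣ W.Δ ↔ q = p)) :
    W.Δ.natAbs = p ∨ p = 11 ∧ W.Δ = -11 ^ 5 ∨ p = 17 ∧ (W.Δ = 17 ^ 2 ∨ W.Δ = -17 ^ 4) ∨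
      p = 19 ∧ W.Δ = -19 ^ 3 ∨ p = 37 ∧ W.Δ = 37 ^ 3 ∨
      (∃ u : ℤ, (p : ℤ) = u ^ 2 + 64) ∧ W.Δ = -(p : ℤ) ^ 2 := by
  have h : OneBadPrime W p := ⟨hp, hW, hΔ, hbad⟩
  obtain ⟨n, hn⟩ := exists_natAbs_eq_pow hΔ fun q hq hd => (hbad q hq).1 hd
  by_cases hn1 : n = 1
  · exact Or.inl (by rw [hn, hn1, pow_one])
  obtain ⟨l, hl, k, rfl⟩ := Nat.exists_prime_and_dvd hn1
  rw [mul_comm, pow_mul] at hn
  have := Fact.mk hl
  rcases eq_or_ne l 2 with rfl | h2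
  · rcases exponent_two h hn with e | e
    · exact Or.inr (Or.inr (Or.inl e))
    · exact Or.inr (Or.inr (Or.inr (Or.inr (Or.inr e))))
  have hred := not_irreducible h h2 hn
  rcases lt_or_ge l 11 with h11 | h11
  · obtain rfl | rfl | rfl : l = 3 ∨ l = 5 ∨ l = 7 := by
      have := hl.two_le
      interval_cases l <;> first | omega | norm_num at hl
    · rcases reducible_three h hred with ⟨rfl, e | e⟩ | ⟨rfl, e | e⟩
      · exact Or.inl (by rw [e]; rfl)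
      · exact Or.inr (Or.inr (Or.inr (Or.inl ⟨rfl, e⟩)))
      · exact Or.inl (by rw [e]; rfl)
      · exact Or.inr (Or.inr (Or.inr (Or.inr (Or.inl ⟨rfl, e⟩))))
    · rcases reducible_five h hred with ⟨rfl, e | e⟩
      · exact Or.inl (by rw [e]; rfl)
      · exact Or.inr (Or.inl ⟨rfl, e⟩)
    · exact absurd (reducible_seven h hred) not_false
  · exact absurd (by rw [hn, Int.natAbs_natCast])
      (discriminant_ne_pow_all W hΔ hW hl h11 ((p ^ k : ℕ) : ℤ))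

/-- **Both directions**: an integer `D` other than `±p` is the discriminant of a semistable
equation with the single bad prime `p` exactly in the six exceptional cases. -/
theorem mestre_oesterle_iff {p : ℕ} (hp : p.Prime) {D : ℤ} (hD : D.natAbs ≠ p) :
    (∃ W : WeierstrassCurve ℤ, W.IsSemistableModel ∧ W.Δ = D ∧ D ≠ 0 ∧
      ∀ q : ℕ, q.Prime → ((q : ℤ) ∣ D ↔ q = p)) ↔
      p = 11 ∧ D = -11 ^ 5 ∨ p = 17 ∧ (D = 17 ^ 2 ∨ D = -17 ^ 4) ∨
        p = 19 ∧ D = -19 ^ 3 ∨ p = 37 ∧ D = 37 ^ 3 ∨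
        (∃ u : ℤ, (p : ℤ) = u ^ 2 + 64) ∧ D = -(p : ℤ) ^ 2 := by
  constructor
  · rintro ⟨W, hW, rfl, hΔ, hbad⟩
    exact (mestre_oesterle hp hW hΔ hbad).resolve_left hD
  · intro h
    obtain ⟨W, hb, rfl⟩ : ∃ W : WeierstrassCurve ℤ, OneBadPrime W p ∧ W.Δ = D := by
      rcases h with ⟨rfl, rfl⟩ | ⟨rfl, rfl | rfl⟩ | ⟨rfl, rfl⟩ | ⟨rfl, rfl⟩ | ⟨⟨u, hu⟩, rfl⟩
      · exact ⟨⟨0, -1, 1, -10, -20⟩, oneBad_pow (n := 5) hp (by norm_num) (by decide) (by decide),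
          by decide⟩
      · exact ⟨⟨1, -1, 1, -6, -4⟩, oneBad_pow (n := 2) hp (by norm_num) (by decide) (by decide),
          by decide⟩
      · exact ⟨⟨1, -1, 1, -1, -14⟩, oneBad_pow (n := 4) hp (by norm_num) (by decide) (by decide),
          by decide⟩
      · exact ⟨⟨0, 1, 1, -9, -15⟩, oneBad_pow (n := 3) hp (by norm_num) (by decide) (by decide),
          by decide⟩
      · exact ⟨⟨0, 1, 1, -23, -50⟩, oneBad_pow (n := 3) hp (by norm_num) (by decide) (by decide),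
          by decide⟩
      · exact exists_neg_sq_model hp hu
    exact ⟨W, hb.semistable, rfl, hb.ne_zero, hb.bad⟩

/-- **Over `ℚ`**: away from `11, 17, 19, 37` and `u² + 64`, a semistable elliptic curve with good
reduction outside `p` has discriminant `±p` and `v_p(j) = -1`. -/
theorem mestre_oesterle_rat {p : ℕ} (hp : p.Prime)
    (hlist : ¬((p = 11 ∨ p = 17 ∨ p = 19 ∨ p = 37) ∨ ∃ u : ℤ, (p : ℤ) = u ^ 2 + 64))
    (E : WeierstrassCurve ℚ) [E.IsElliptic]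
    (h : ∀ q : ℕ, ∀ [Fact q.Prime], ∃ C : VariableChange ℚ_[q],
      HasGoodReduction ℤ_[q] (C • E.map (algebraMap ℚ ℚ_[q])) ∨
        HasMultiplicativeReduction ℤ_[q] (C • E.map (algebraMap ℚ ℚ_[q])))
    (hgood : ∀ q : ℕ, ∀ [Fact q.Prime], q ≠ p → ∃ C : VariableChange ℚ_[q],
      HasGoodReduction ℤ_[q] (C • E.map (algebraMap ℚ ℚ_[q]))) :
    (∃ (W : WeierstrassCurve ℤ) (C : VariableChange ℚ),
        C • E = W.map (Int.castRingHom ℚ) ∧ W.IsSemistableModel ∧ W.Δ.natAbs = p) ∧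
      padicValRat p E.j = -1 := by
  obtain ⟨W, hb, hW⟩ := exists_oneBad hp E h hgood
  obtain ⟨-, hs, hΔ, hbad⟩ := id hb
  have hmain : W.Δ.natAbs = p := by
    rcases mestre_oesterle hp hs hΔ hb.bad with e | ⟨e, -⟩ | ⟨e, -⟩ | ⟨e, -⟩ | ⟨e, -⟩ | ⟨e, -⟩
    · exact e
    all_goals exact absurd (by tauto) hlist
  obtain ⟨C, hC⟩ := hW
  refine ⟨⟨W, C, hC, hs, hmain⟩, ?_⟩
  have := FA.Frob.ratCurve_isElliptic_of_Δ hΔ
  have := Fact.mk hp
  have hc4 : (E.j : ℚ) * (W.Δ : ℚ) = (W.c₄ : ℚ) ^ 3 := by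
    have hc := congrArg WeierstrassCurve.c₄ hC
    have hd := congrArg WeierstrassCurve.Δ hC
    rw [variableChange_c₄, map_c₄, eq_intCast] at hc
    rw [variableChange_Δ, map_Δ, eq_intCast] at hd
    rw [← hc, ← hd, WeierstrassCurve.j, Units.val_inv_eq_inv_val, coe_Δ']
    field_simp [E.isUnit_Δ.ne_zero]
  have hc0 : (W.c₄ : ℚ) ≠ 0 := Int.cast_ne_zero.2 hb.c₄_ne_zero
  have hΔ0 : (W.Δ : ℚ) ≠ 0 := Int.cast_ne_zero.2 hΔ
  rw [eq_div_iff hΔ0 |>.2 hc4, padicValRat.div (pow_ne_zero 3 hc0) hΔ0, padicValRat.pow,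
    padicValRat.of_int, padicValRat.of_int, padicValInt.eq_zero_of_not_dvd hb.not_dvd_c₄]
  simp [padicValInt, hmain]

end FA.Summary

end
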