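import Fermat.Agent.SetzerNeumann.Three
import Fermat.Agent.SetzerNeumann.Five
import Fermat.Agent.Root.SummarySetzerNeumann
import Fermat.Agent.Torsion.Summary
import Fermat.Agent.SetzerNeumann.Rat

/-!
# Miyawaki's theorem

A semistable elliptic curve over `ℚ` with one prime `p` of bad reduction has a nontrivial rational
torsion point only for `p = 11, 17, 19, 37` and `p = u² + 64`, and then exists. The prime orders
that occur are `2` (Setzer–Neumann), `3` at `19` and `37`, and `5` at `11`.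
-/

set_option autoImplicit false

noncomputable section

open WeierstrassCurve FA.Frob

namespace FA.SetzerNeumann

/-- Mazur: a prime order of a rational torsion point is at most `7`. -/
theorem prime_order {E : WeierstrassCurve ℚ} [E.IsElliptic] {P : E.toAffine.Point} {l : ℕ}
    (hl : l.Prime) (hP : addOrderOf P = l) : l = 2 ∨ l = 3 ∨ l = 5 ∨ l = 7 := by
  have hfin : IsOfFinAddOrder P := addOrderOf_pos_iff.1 (hP ▸ hl.pos)
  have hPT : addOrderOf (⟨P, hfin⟩ : AddCommGroup.torsion E.toAffine.Point) = l := by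
    exact (AddSubgroup.addOrderOf_coe _).symm.trans hP
  have hbound : ∀ G : Type, ∀ [AddCommGroup G] [Finite G],
      (AddCommGroup.torsion E.toAffine.Point ≃+ G) → l ∣ Nat.card G := fun G _ _ f => by
    rw [← hPT, ← AddEquiv.addOrderOf_eq f]
    exact addOrderOf_dvd_natCard _
  rcases FA.Torsion.mazur_torsion E with ⟨n, hn, ⟨f⟩⟩ | ⟨m, hm, ⟨f⟩⟩
  · have : NeZero n := ⟨by rintro rfl; simp at hn⟩
    have h := hbound _ f
    rw [Nat.card_zmod] at h
    have hle := Nat.le_of_dvd (Nat.pos_of_ne_zero (NeZero.ne n)) h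
    simp only [Finset.mem_insert, Finset.mem_singleton] at hn
    have : n ≤ 12 := by omega
    have h12 : l ≤ 12 := hle.trans this
    interval_cases l <;> first | omega | exact absurd hl (by norm_num)
  · have : NeZero (2 * m) := ⟨by simp only [Finset.mem_insert, Finset.mem_singleton] at hm; omega⟩
    have h := hbound _ f
    rw [Nat.card_prod, Nat.card_zmod, Nat.card_zmod] at h
    simp only [Finset.mem_insert, Finset.mem_singleton] at hm
    have h12 : l ≤ 16 := (Nat.le_of_dvd (by omega) h).trans (by omega)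
    interval_cases l <;> first | omega | exact absurd hl (by norm_num)

/-- The flex models. -/
theorem exists_flex_point {a₁ a₃ : ℤ} (h : (⟨a₁, 0, a₃, 0, 0⟩ : WeierstrassCurve ℤ).Δ ≠ 0)
    (ha : a₃ ≠ 0) :
    ∃ P : ((⟨a₁, 0, a₃, 0, 0⟩ : WeierstrassCurve ℤ).map (Int.castRingHom ℚ)).toAffine.Point,
      P ≠ 0 ∧ IsOfFinAddOrder P := by
  have := ratCurve_isElliptic_of_Δ h
  set E := (⟨a₁, 0, a₃, 0, 0⟩ : WeierstrassCurve ℤ).map (Int.castRingHom ℚ) with hE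
  have heq : E.toAffine.Equation 0 0 := by simp [hE, Affine.equation_iff, map]
  have hns : E.toAffine.Nonsingular 0 0 := Affine.equation_iff_nonsingular.1 heq
  refine ⟨Affine.Point.some 0 0 hns, Affine.Point.some_ne_zero _,
    isOfFinAddOrder_iff_nsmul_eq_zero.2 ⟨3, by norm_num, ?_⟩⟩
  have hy : (0 : ℚ) ≠ E.toAffine.negY 0 0 := by
    simp [hE, Affine.negY, map, ha]
  have hl : E.toAffine.slope 0 0 0 0 = 0 := by
    rw [Affine.slope_of_Y_ne rfl hy]
    simp [hE, map]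
  rw [succ_nsmul, two_nsmul, Affine.Point.add_self_of_Y_ne hy, add_eq_zero_iff_eq_neg,
    Affine.Point.neg_some, Affine.Point.some.injEq]
  simp only [hl]
  simp [hE, Affine.addX, Affine.addY, Affine.negAddY, Affine.negY, map]

/-- The model of conductor `11`. -/
theorem exists_eleven_point :
    ∃ P : ((⟨0, -1, -1, 0, 0⟩ : WeierstrassCurve ℤ).map (Int.castRingHom ℚ)).toAffine.Point,
      P ≠ 0 ∧ IsOfFinAddOrder P := by
  have hW : (⟨0, -1, -1, 0, 0⟩ : WeierstrassCurve ℤ).map (Int.castRingHom ℚ) =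
      FA.Thirteen.tateCurve (1 : ℚ) 1 := by
    ext <;> simp [FA.Thirteen.tateCurve, map]
  rw [hW]
  have : (FA.Thirteen.tateCurve (1 : ℚ) 1).IsElliptic := ⟨by
    rw [FA.Thirteen.Δ_tateCurve]; norm_num⟩
  have h0 : (FA.Thirteen.tateCurve (1 : ℚ) 1).toAffine.Nonsingular 0 0 :=
    Affine.equation_iff_nonsingular.1 (by simp [FA.Thirteen.tateCurve, Affine.equation_iff])
  refine ⟨Affine.Point.some 0 0 h0, Affine.Point.some_ne_zero _,
    isOfFinAddOrder_iff_nsmul_eq_zero.2 ⟨5, by norm_num, ?_⟩⟩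
  obtain ⟨h3, e3⟩ := FA.Torsion.tate_three (b := (1 : ℚ)) (c := 1) (h0 := h0)
  obtain ⟨h2, e2⟩ := FA.Torsion.tate_two (b := (1 : ℚ)) (c := 1) (h0 := h0)
  rw [show 5 = 3 + 2 from rfl, add_nsmul, add_eq_zero_iff_eq_neg, e3, e2,
    Affine.Point.neg_some, Affine.Point.some.injEq]
  simp [FA.Thirteen.tateCurve, Affine.negY]

/-- A model with a prime discriminant is semistable. -/
theorem oneBad_model {p : ℕ} (hp : p.Prime) {W : WeierstrassCurve ℤ} (hΔ : W.Δ.natAbs = p)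
    (hc : ¬(p : ℤ) ∣ W.c₄) :
    W.IsSemistableModel ∧ W.Δ ≠ 0 ∧ ∀ q : ℕ, q.Prime → ((q : ℤ) ∣ W.Δ ↔ q = p) := by
  have hbad : ∀ q : ℕ, q.Prime → ((q : ℤ) ∣ W.Δ ↔ q = p) := fun q hq => by
    rw [Int.natCast_dvd, hΔ, Nat.prime_dvd_prime_iff_eq hq hp]
  exact ⟨fun q hq hd => (hbad q hq).1 hd ▸ hc,
    fun e => hp.ne_zero (by rw [← hΔ, e, Int.natAbs_zero]), hbad⟩

end FA.SetzerNeumann

namespace FA.Summary

open FA.SetzerNeumann

/-- **Miyawaki, the prime orders**: `2` only for `17` and `u² + 64`, `3` only for `19` and `37`,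
`5` only for `11`, and no other. -/
theorem miyawaki {p : ℕ} (hp : p.Prime) {W : WeierstrassCurve ℤ} (hW : W.IsSemistableModel)
    (hΔ : W.Δ ≠ 0) (hbad : ∀ q : ℕ, q.Prime → ((q : ℤ) ∣ W.Δ ↔ q = p))
    (P : (W.map (Int.castRingHom ℚ)).toAffine.Point) {l : ℕ} (hl : l.Prime)
    (hP : addOrderOf P = l) :
    l = 2 ∧ (p = 17 ∨ ∃ u : ℤ, (p : ℤ) = u ^ 2 + 64) ∨ l = 3 ∧ (p = 19 ∨ p = 37) ∨
      l = 5 ∧ p = 11 := by
  have := ratCurve_isElliptic_of_Δ hΔ
  have h : OneBadPrime W p := ⟨hp, hW, hΔ, hbad⟩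
  rcases prime_order hl hP with rfl | rfl | rfl | rfl
  · refine Or.inl ⟨rfl, ?_⟩
    rcases setzer_neumann hp hW hΔ hbad P hP with ⟨e, -⟩ | ⟨e, -⟩
    · exact Or.inl e
    · exact Or.inr e
  · exact Or.inr (Or.inl ⟨rfl, prime_of_three h P
      (fun e => by rw [e, addOrderOf_zero] at hP; norm_num at hP)
      (hP ▸ addOrderOf_nsmul_eq_zero P)⟩)
  · exact Or.inr (Or.inr ⟨rfl, prime_of_five h P hP⟩)
  · exact absurd hP (no_seven h P)

/-- Its consequence for every torsion point. -/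
theorem miyawaki_prime {p : ℕ} (hp : p.Prime) {W : WeierstrassCurve ℤ} (hW : W.IsSemistableModel)
    (hΔ : W.Δ ≠ 0) (hbad : ∀ q : ℕ, q.Prime → ((q : ℤ) ∣ W.Δ ↔ q = p))
    (P : (W.map (Int.castRingHom ℚ)).toAffine.Point) (hP0 : P ≠ 0) (hP : IsOfFinAddOrder P) :
    (p = 11 ∨ p = 17 ∨ p = 19 ∨ p = 37) ∨ ∃ u : ℤ, (p : ℤ) = u ^ 2 + 64 := by
  have := ratCurve_isElliptic_of_Δ hΔ
  obtain ⟨l, hl, k, hk⟩ := Nat.exists_prime_and_dvd fun e =>
    hP0 (AddMonoid.addOrderOf_eq_one_iff.1 e)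
  have hk0 : k ≠ 0 := fun e => hP.addOrderOf_pos.ne' (by rw [hk, e, mul_zero])
  have hQ : addOrderOf (k • P) = l := by
    rw [addOrderOf_nsmul' P hk0, hk, Nat.gcd_eq_right (Dvd.intro_left l rfl),
      Nat.mul_div_cancel _ (Nat.pos_of_ne_zero hk0)]
  rcases miyawaki hp hW hΔ hbad _ hl hQ with ⟨-, h | h⟩ | ⟨-, h⟩ | ⟨-, h⟩
  · exact Or.inl (Or.inr (Or.inl h))
  · exact Or.inr h
  · exact Or.inl (by tauto)
  · exact Or.inl (Or.inl h)

/-- **Miyawaki's theorem, both directions**: some semistable equation with the single bad prime `p`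
has a nonzero rational torsion point exactly for `p = 11, 17, 19, 37` and `p = u² + 64`. -/
theorem miyawaki_iff {p : ℕ} (hp : p.Prime) :
    (∃ W : WeierstrassCurve ℤ, W.IsSemistableModel ∧ W.Δ ≠ 0 ∧
      (∀ q : ℕ, q.Prime → ((q : ℤ) ∣ W.Δ ↔ q = p)) ∧
      ∃ P : (W.map (Int.castRingHom ℚ)).toAffine.Point, P ≠ 0 ∧ IsOfFinAddOrder P) ↔
      (p = 11 ∨ p = 17 ∨ p = 19 ∨ p = 37) ∨ ∃ u : ℤ, (p : ℤ) = u ^ 2 + 64 := by
  constructor
  · rintro ⟨W, hW, hΔ, hbad, P, hP0, hP⟩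
    exact miyawaki_prime hp hW hΔ hbad P hP0 hP
  · intro h
    have hsn : (p = 17 ∨ ∃ u : ℤ, (p : ℤ) = u ^ 2 + 64) →
        ∃ W : WeierstrassCurve ℤ, W.IsSemistableModel ∧ W.Δ ≠ 0 ∧
          (∀ q : ℕ, q.Prime → ((q : ℤ) ∣ W.Δ ↔ q = p)) ∧
          ∃ P : (W.map (Int.castRingHom ℚ)).toAffine.Point, P ≠ 0 ∧ IsOfFinAddOrder P := fun h => by
      obtain ⟨W, hW, hΔ, hbad, P, hP⟩ := (setzer_neumann_iff hp).2 h
      exact ⟨W, hW, hΔ, hbad, P, fun e => by rw [e, addOrderOf_zero] at hP; omega,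
        addOrderOf_pos_iff.1 (by omega)⟩
    rcases h with (rfl | rfl | rfl | rfl) | h
    · obtain ⟨h1, h2, h3⟩ := oneBad_model hp (W := ⟨0, -1, -1, 0, 0⟩)
        (by simp [Δ, b₂, b₄, b₆, b₈]) (by simp [c₄, b₂, b₄])
      exact ⟨_, h1, h2, h3, exists_eleven_point⟩
    · exact hsn (Or.inl rfl)
    · obtain ⟨h1, h2, h3⟩ := oneBad_model hp (W := ⟨2, 0, 1, 0, 0⟩)
        (by simp [Δ, b₂, b₄, b₆, b₈]) (by simp [c₄, b₂, b₄])
      exact ⟨_, h1, h2, h3, exists_flex_point h2 one_ne_zero⟩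
    · obtain ⟨h1, h2, h3⟩ := oneBad_model hp (W := ⟨4, 0, 1, 0, 0⟩)
        (by simp [Δ, b₂, b₄, b₆, b₈]) (by simp [c₄, b₂, b₄])
      exact ⟨_, h1, h2, h3, exists_flex_point h2 one_ne_zero⟩
    · exact hsn (Or.inr h)

/-- **Over `ℚ`**: a semistable elliptic curve with good reduction away from a prime outside the
list has no nonzero rational torsion point. -/
theorem miyawaki_rat {p : ℕ} (hp : p.Prime)
    (hlist : ¬((p = 11 ∨ p = 17 ∨ p = 19 ∨ p = 37) ∨ ∃ u : ℤ, (p : ℤ) = u ^ 2 + 64))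
    (E : WeierstrassCurve ℚ) [E.IsElliptic]
    (h : ∀ q : ℕ, ∀ [Fact q.Prime], ∃ C : VariableChange ℚ_[q],
      HasGoodReduction ℤ_[q] (C • E.map (algebraMap ℚ ℚ_[q])) ∨
        HasMultiplicativeReduction ℤ_[q] (C • E.map (algebraMap ℚ ℚ_[q])))
    (hgood : ∀ q : ℕ, ∀ [Fact q.Prime], q ≠ p → ∃ C : VariableChange ℚ_[q],
      HasGoodReduction ℤ_[q] (C • E.map (algebraMap ℚ ℚ_[q])))
    (P : E.toAffine.Point) (hP : IsOfFinAddOrder P) : P = 0 := by
  obtain ⟨W, hb, hW⟩ := exists_oneBad hp E h hgood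
  obtain ⟨-, hs, hΔ, hbad⟩ := id hb
  have := FA.Frob.ratCurve_isElliptic_of_Δ hΔ
  obtain ⟨C, hC⟩ := hW
  let e : (W.map (Int.castRingHom ℚ)).toAffine.Point ≃+ E.toAffine.Point := FA.Frob.vcEquiv C hC
  by_contra hP0
  exact hlist (miyawaki_prime hp hs hΔ hbad (e.symm P)
    (fun h0 => hP0 (e.symm.injective (h0.trans (map_zero _).symm)))
    (addOrderOf_pos_iff.1 ((AddEquiv.addOrderOf_eq e.symm P).symm ▸ hP.addOrderOf_pos)))

end FA.Summary

end
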