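import Fermat.Agent.SetzerNeumann.TorsionHalving
import Fermat.Agent.Root.SummaryMiyawaki
import Fermat.Agent.Torsion.ReductionDvd
import Fermat.Agent.Torsion.Realised
import Fermat.Agent.Curve17.Main
import Fermat.Agent.SetzerNeumann.Rat

/-!
# The rational torsion groups at prime conductor

A semistable curve over `ℚ` with bad reduction at one prime `p` only has trivial torsion, or
`ℤ/5` (`p = 11`), `ℤ/3` (`p = 19, 37`), `ℤ/2` (`p = 17`, `u² + 64`), `ℤ/4` or `ℤ/2 × ℤ/2`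
(`p = 17`), and all these occur.
-/

set_option autoImplicit false

noncomputable section

open WeierstrassCurve

namespace FA.SetzerNeumann

/-- At most seven points modulo three. -/
theorem countMod_three_le (W : WeierstrassCurve ℤ) : FA.Torsion.countMod W 3 ≤ 7 := by
  unfold FA.Torsion.countMod
  generalize (W.a₁ : ZMod 3) = a
  generalize (W.a₂ : ZMod 3) = b
  generalize (W.a₃ : ZMod 3) = c
  generalize (W.a₄ : ZMod 3) = d
  generalize (W.a₆ : ZMod 3) = e
  decide +kernel +revert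

/-- The torsion has at most seven elements. -/
theorem natCard_torsion_le {W : WeierstrassCurve ℤ} {p : ℕ} (h : OneBadPrime W p) :
    Finite (AddCommGroup.torsion (W.map (Int.castRingHom ℚ)).toAffine.Point) ∧
      Nat.card (AddCommGroup.torsion (W.map (Int.castRingHom ℚ)).toAffine.Point) ≤ 7 := by
  have := FA.Frob.ratCurve_isElliptic_of_Δ h.ne_zero
  have h3 : ¬((3 : ℕ) : ℤ) ∣ W.Δ := fun hd => by
    have := (h.bad 3 Nat.prime_three).1 hd
    have := h.bound.1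
    omega
  have : Fact (Nat.Prime 3) := ⟨Nat.prime_three⟩
  obtain ⟨hfin, hd⟩ := FA.Torsion.natCard_torsion_dvd_of_three_le 3 W le_rfl h3
  rw [FA.Torsion.natCard_point_reduction 3 W h3] at hd
  exact ⟨hfin, (Nat.le_of_dvd (Nat.succ_pos _) hd).trans (countMod_three_le W)⟩

/-- Two points of order two: a square discriminant. -/
theorem isSquare_of_two_two {W : WeierstrassCurve ℤ}
    {P R : (W.map (Int.castRingHom ℚ)).toAffine.Point} (hP : addOrderOf P = 2)
    (hR : addOrderOf R = 2) (hne : P ≠ R) :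
    IsSquare W.Δ ∧ ∃ x : ℚ,
      4 * x ^ 3 + (W.b₂ : ℚ) * x ^ 2 + 2 * (W.b₄ : ℚ) * x + (W.b₆ : ℚ) = 0 := by
  rcases P with _ | ⟨x, y, hxy⟩
  · rw [← Affine.Point.zero_def, addOrderOf_zero] at hP
    omega
  rcases R with _ | ⟨x', y', hxy'⟩
  · rw [← Affine.Point.zero_def, addOrderOf_zero] at hR
    omega
  obtain ⟨hy, r⟩ := FA.Torsion.TwoTen.root_of_two_nsmul (hP ▸ addOrderOf_nsmul_eq_zero _)
  obtain ⟨hy', r'⟩ := FA.Torsion.TwoTen.root_of_two_nsmul (hR ▸ addOrderOf_nsmul_eq_zero _)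
  have hx : x ≠ x' := fun e => hne (by
    subst e
    obtain rfl : y = y' := by linarith
    rfl)
  have hsq := FA.Torsion.TwoTen.isSquare_Δ_of_two_roots hx r r'
  rw [map_Δ, eq_intCast, Rat.isSquare_intCast_iff] at hsq
  simp only [map_b₂, map_b₄, map_b₆, eq_intCast] at r
  exact ⟨hsq, x, r⟩

/-- Only at `17`. -/
theorem prime_of_two_two {W : WeierstrassCurve ℤ} {p : ℕ} (h : OneBadPrime W p)
    {P R : (W.map (Int.castRingHom ℚ)).toAffine.Point} (hP : addOrderOf P = 2)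
    (hR : addOrderOf R = 2) (hne : P ≠ R) : p = 17 := by
  obtain ⟨hsq, hx⟩ := isSquare_of_two_two hP hR hne
  have hp := h.prime
  rcases classify hp h.semistable h.ne_zero h.bad hx with ⟨e, -⟩ | ⟨-, e | e⟩
  · exact e
  · exact absurd (e ▸ hsq) (Nat.prime_iff_prime_int.1 hp).not_isSquare
  · obtain ⟨r, hr⟩ := hsq
    nlinarith [mul_self_nonneg r, sq_pos_of_ne_zero (Int.natCast_ne_zero.2 hp.ne_zero)]

/-- The order of `1` transported to the points. -/
theorem exists_order {A : Type*} [AddCommGroup A] {n : ℕ}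
    (e : AddCommGroup.torsion A ≃+ ZMod n) : ∃ P : A, addOrderOf P = n := by
  refine ⟨(e.symm 1).1, ?_⟩
  rw [AddSubgroup.addOrderOf_coe, AddEquiv.addOrderOf_eq, ZMod.addOrderOf_one]

/-- The two points of order two. -/
theorem exists_two_two {A : Type*} [AddCommGroup A]
    (e : AddCommGroup.torsion A ≃+ ZMod 2 × ZMod 2) :
    ∃ P R : A, addOrderOf P = 2 ∧ addOrderOf R = 2 ∧ P ≠ R := by
  refine ⟨(e.symm (1, 0)).1, (e.symm (0, 1)).1, ?_, ?_, fun e' =>
    absurd (e.symm.injective (Subtype.ext e')) (by decide)⟩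
  all_goals
    rw [AddSubgroup.addOrderOf_coe, AddEquiv.addOrderOf_eq]
    exact addOrderOf_eq_prime (by decide) (by decide)

/-- **The possible torsion groups.** -/
theorem torsion_cases {W : WeierstrassCurve ℤ} {p : ℕ} (h : OneBadPrime W p) :
    Nonempty (AddCommGroup.torsion (W.map (Int.castRingHom ℚ)).toAffine.Point ≃+ ZMod 1) ∨
    (∃ n : ℕ, (n = 2 ∧ (p = 17 ∨ ∃ u : ℤ, (p : ℤ) = u ^ 2 + 64) ∨ n = 3 ∧ (p = 19 ∨ p = 37) ∨
        n = 4 ∧ p = 17 ∨ n = 5 ∧ p = 11) ∧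
      Nonempty (AddCommGroup.torsion (W.map (Int.castRingHom ℚ)).toAffine.Point ≃+ ZMod n)) ∨
    p = 17 ∧ Nonempty (AddCommGroup.torsion (W.map (Int.castRingHom ℚ)).toAffine.Point ≃+
      ZMod 2 × ZMod 2) := by
  have := FA.Frob.ratCurve_isElliptic_of_Δ h.ne_zero
  have : (W.map (Int.castRingHom ℚ)).IsElliptic := this
  obtain ⟨hfin, hcard⟩ := natCard_torsion_le h
  rcases FA.Torsion.mazur_torsion (W.map (Int.castRingHom ℚ)) with ⟨n, hn, ⟨e⟩⟩ | ⟨m, hm, ⟨e⟩⟩
  · rw [Nat.card_congr e.toEquiv, Nat.card_zmod] at hcard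
    obtain ⟨P, hP⟩ := exists_order e
    have key : ∀ l k : ℕ, l.Prime → 0 < k → n = l * k →
        l = 2 ∧ (p = 17 ∨ ∃ u : ℤ, (p : ℤ) = u ^ 2 + 64) ∨ l = 3 ∧ (p = 19 ∨ p = 37) ∨
          l = 5 ∧ p = 11 := fun l k hl hk hlk =>
      FA.Summary.miyawaki h.prime h.semistable h.ne_zero h.bad (k • P) hl (by
        rw [addOrderOf_nsmul' P hk.ne', hP, hlk, Nat.gcd_eq_right (Dvd.intro_left l rfl),
          Nat.mul_div_cancel _ hk])
    simp only [Finset.mem_insert, Finset.mem_singleton] at hn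
    rcases hn with rfl | rfl | rfl | rfl | rfl | rfl | rfl | rfl | rfl | rfl | rfl
    all_goals first | omega | skip
    · exact Or.inl ⟨e⟩
    · refine Or.inr (Or.inl ⟨2, Or.inl ⟨rfl, ?_⟩, ⟨e⟩⟩)
      rcases key 2 1 Nat.prime_two one_pos rfl with h' | h' | h' <;> first | exact h'.2 | omega
    · refine Or.inr (Or.inl ⟨3, Or.inr (Or.inl ⟨rfl, ?_⟩), ⟨e⟩⟩)
      rcases key 3 1 Nat.prime_three one_pos rfl with h' | h' | h' <;> first | exact h'.2 | omega
    · exact Or.inr (Or.inl ⟨4, Or.inr (Or.inr (Or.inl ⟨rfl, prime_of_four h P hP⟩)), ⟨e⟩⟩)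
    · refine Or.inr (Or.inl ⟨5, Or.inr (Or.inr (Or.inr ⟨rfl, ?_⟩)), ⟨e⟩⟩)
      rcases key 5 1 Nat.prime_five one_pos rfl with h' | h' | h' <;> first | exact h'.2 | omega
    · rcases key 3 2 Nat.prime_three two_pos rfl with h' | ⟨-, h3⟩ | h' <;> first | omega | skip
      rcases key 2 3 Nat.prime_two (by norm_num) rfl with ⟨-, e' | ⟨u, hu⟩⟩ | h' | h'
      all_goals first | omega | skip
      have := sq_nonneg u
      omega
    · rcases key 7 1 (by norm_num) one_pos rfl with h' | h' | h' <;> omega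
  · rw [Nat.card_congr e.toEquiv, Nat.card_prod, Nat.card_zmod, Nat.card_zmod] at hcard
    obtain rfl : m = 1 := by
      simp only [Finset.mem_insert, Finset.mem_singleton] at hm
      omega
    refine Or.inr (Or.inr ⟨?_, ⟨e⟩⟩)
    obtain ⟨P, R, hP, hR, hne⟩ := exists_two_two e
    exact prime_of_two_two h hP hR hne

/-- Isomorphic groups have isomorphic torsion. -/
theorem nonempty_torsion_equiv {A B G : Type*} [AddCommGroup A] [AddCommGroup B] [AddCommGroup G]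
    (e : A ≃+ B) (f : Nonempty (AddCommGroup.torsion A ≃+ G)) :
    Nonempty (AddCommGroup.torsion B ≃+ G) := by
  obtain ⟨f⟩ := f
  have he : (AddCommGroup.torsion A).map (e : A →+ B) = AddCommGroup.torsion B := by
    ext x
    refine ⟨fun ⟨y, hy, hx⟩ => hx ▸ (AddCommGroup.mem_torsion _).2
      ((e : A →+ B).isOfFinAddOrder ((AddCommGroup.mem_torsion _).1 hy)),
      fun hx => ⟨e.symm x, (AddCommGroup.mem_torsion _).2
        ((e.symm : B →+ A).isOfFinAddOrder ((AddCommGroup.mem_torsion _).1 hx)),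
        e.apply_symm_apply x⟩⟩
  exact ⟨((e.addSubgroupMap _).trans (AddEquiv.addSubgroupCongr he)).symm.trans f⟩

/-- `17a3` has a single point of order two and no half of it. -/
theorem not_four_seventeen (P : ((⟨1, -1, 1, -91, -310⟩ : WeierstrassCurve ℤ).map
    (Int.castRingHom ℚ)).toAffine.Point) : addOrderOf P ≠ 4 := fun hP => by
  obtain ⟨x, e, hroot, hc, s, hs⟩ := quarter hP
  simp only [b₂, b₄, b₆] at hroot hc hs
  norm_num at hroot hc hs
  obtain rfl : e = -21 / 4 := by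
    rcases mul_eq_zero.1 (show (4 * e + 21) * ((e - 3) ^ 2 - 68) = 0 by linarith) with h | h
    · linarith
    · exfalso
      have hsq : IsSquare ((68 : ℕ) : ℚ) := ⟨e - 3, by push_cast; linarith⟩
      rw [Rat.isSquare_natCast_iff] at hsq
      exact absurd hsq (by
        rintro ⟨t, ht⟩
        have : t < 9 := by nlinarith
        interval_cases t <;> omega)
  norm_num at hc
  rcases hc with e' | e'
  · obtain rfl : x = -5 := by linarith
    nlinarith [mul_self_nonneg s]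
  · obtain rfl : x = -11 / 2 := by linarith
    nlinarith [mul_self_nonneg s]

end FA.SetzerNeumann

namespace FA.Summary

open FA.SetzerNeumann

/-- **The cyclic torsion groups at prime conductor**: for `n ≥ 2` some semistable equation with the
single bad prime `p` has torsion subgroup `ℤ/n` exactly for `n = 2` (`p = 17`, `u² + 64`), `n = 3`
(`19`, `37`), `n = 4` (`17`) and `n = 5` (`11`). -/
theorem torsion_primeConductor_iff {p n : ℕ} (hp : p.Prime) (hn : 2 ≤ n) :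
    (∃ W : WeierstrassCurve ℤ, W.IsSemistableModel ∧ W.Δ ≠ 0 ∧
      (∀ q : ℕ, q.Prime → ((q : ℤ) ∣ W.Δ ↔ q = p)) ∧
      Nonempty (AddCommGroup.torsion (W.map (Int.castRingHom ℚ)).toAffine.Point ≃+ ZMod n)) ↔
      n = 2 ∧ (p = 17 ∨ ∃ u : ℤ, (p : ℤ) = u ^ 2 + 64) ∨ n = 3 ∧ (p = 19 ∨ p = 37) ∨
        n = 4 ∧ p = 17 ∨ n = 5 ∧ p = 11 := by
  constructor
  · rintro ⟨W, hW, hΔ, hbad, ⟨e⟩⟩
    have h : OneBadPrime W p := ⟨hp, hW, hΔ, hbad⟩
    obtain ⟨P, hP⟩ := exists_order e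
    rcases torsion_cases h with ⟨⟨f⟩⟩ | ⟨m, hm, ⟨f⟩⟩ | ⟨-, ⟨f⟩⟩
    · have := Nat.card_congr (e.symm.trans f).toEquiv
      rw [Nat.card_zmod, Nat.card_zmod] at this
      omega
    · have := Nat.card_congr (e.symm.trans f).toEquiv
      rw [Nat.card_zmod, Nat.card_zmod] at this
      exact this ▸ hm
    · have hc := Nat.card_congr (e.symm.trans f).toEquiv
      rw [Nat.card_prod, Nat.card_zmod, Nat.card_zmod] at hc
      have : addOrderOf ((e.symm.trans f) 1) = n := by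
        rw [AddEquiv.addOrderOf_eq, ZMod.addOrderOf_one]
      have hd : addOrderOf ((e.symm.trans f) 1) ∣ 2 :=
        addOrderOf_dvd_of_nsmul_eq_zero (by generalize (e.symm.trans f) 1 = x; decide +revert)
      have := Nat.le_of_dvd two_pos (this ▸ hd)
      omega
  · have mk : ∀ {W : WeierstrassCurve ℤ}, OneBadPrime W p →
        (∃ P : (W.map (Int.castRingHom ℚ)).toAffine.Point, P ≠ 0 ∧ IsOfFinAddOrder P) →
        (∀ m : ℕ, (m = 2 ∧ (p = 17 ∨ ∃ u : ℤ, (p : ℤ) = u ^ 2 + 64) ∨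
          m = 3 ∧ (p = 19 ∨ p = 37) ∨ m = 4 ∧ p = 17 ∨ m = 5 ∧ p = 11) →
          Nonempty (AddCommGroup.torsion (W.map (Int.castRingHom ℚ)).toAffine.Point ≃+ ZMod m) →
            m = n) →
        (p = 17 → ¬Nonempty (AddCommGroup.torsion (W.map (Int.castRingHom ℚ)).toAffine.Point ≃+
          ZMod 2 × ZMod 2)) →
        ∃ W : WeierstrassCurve ℤ, W.IsSemistableModel ∧ W.Δ ≠ 0 ∧
          (∀ q : ℕ, q.Prime → ((q : ℤ) ∣ W.Δ ↔ q = p)) ∧
          Nonempty (AddCommGroup.torsion (W.map (Int.castRingHom ℚ)).toAffine.Point ≃+ ZMod n) :=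
      fun {W} h hP hm h22 => by
      refine ⟨W, h.semistable, h.ne_zero, h.bad, ?_⟩
      rcases torsion_cases h with ⟨⟨f⟩⟩ | ⟨m, hm', hf⟩ | ⟨h17, hf⟩
      · obtain ⟨P, hP0, hPf⟩ := hP
        refine absurd (congrArg Subtype.val (f.injective (Subsingleton.elim
          (f ⟨P, (AddCommGroup.mem_torsion P).2 hPf⟩) (f 0)))) hP0
      · exact hm m hm' hf ▸ hf
      · exact absurd hf (h22 h17)
    rintro (⟨rfl, h⟩ | ⟨rfl, rfl | rfl⟩ | ⟨rfl, rfl⟩ | ⟨rfl, rfl⟩)
    · rcases eq_or_ne p 17 with rfl | hne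
      · obtain ⟨h1, h2, h3⟩ := oneBad_model hp (W := ⟨1, -1, 1, -91, -310⟩) (by decide) (by decide)
        have hell := FA.Frob.ratCurve_isElliptic_of_Δ (W := ⟨1, -1, 1, -91, -310⟩) h2
        refine mk ⟨hp, h1, h2, h3⟩ ?_ (fun m hm ⟨f⟩ => ?_) fun _ => ?_
        · have hT : ((⟨1, -1, 1, -91, -310⟩ : WeierstrassCurve ℤ).map
              (Int.castRingHom ℚ)).toAffine.Nonsingular (-21 / 4) (17 / 8) :=
            Affine.equation_iff_nonsingular.1
              ((Affine.equation_iff _ _).2 (by simp [map]; norm_num))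
          refine ⟨Affine.Point.some _ _ hT, Affine.Point.some_ne_zero _,
            isOfFinAddOrder_iff_nsmul_eq_zero.2 ⟨2, two_pos, ?_⟩⟩
          rw [two_nsmul, Affine.Point.add_self_of_Y_eq]
          simp [Affine.negY, map]
          norm_num
        · obtain ⟨P, hP⟩ := exists_order f
          rcases hm with ⟨e, -⟩ | ⟨-, e⟩ | ⟨rfl, -⟩ | ⟨-, e⟩
          · exact e
          · omega
          · exact absurd hP (not_four_seventeen P)
          · omega
        · rintro ⟨f⟩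
          obtain ⟨P, R, hP, hR, hne⟩ := exists_two_two f
          obtain ⟨⟨t, ht⟩, -⟩ := isSquare_of_two_two hP hR hne
          rw [show (⟨1, -1, 1, -91, -310⟩ : WeierstrassCurve ℤ).Δ = 17 by decide] at ht
          have hm : t.natAbs * t.natAbs = 17 := by rw [← Int.natAbs_mul, ← ht]; rfl
          have h5 : t.natAbs < 5 := by nlinarith
          interval_cases t.natAbs <;> omega
      · obtain ⟨W, hW, hΔ, hbad, P, hP⟩ := (setzer_neumann_iff hp).2 h
        refine mk ⟨hp, hW, hΔ, hbad⟩ ⟨P, fun e => by rw [e, addOrderOf_zero] at hP; omega,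
          addOrderOf_pos_iff.1 (by omega)⟩ (fun m hm _ => ?_) fun e => absurd e hne
        obtain ⟨u, hu⟩ := h.resolve_left hne
        have := sq_nonneg u
        rcases hm with ⟨e, -⟩ | ⟨-, e⟩ | ⟨-, e⟩ | ⟨-, e⟩ <;> omega
    · obtain ⟨h1, h2, h3⟩ := oneBad_model hp (W := ⟨2, 0, 1, 0, 0⟩)
        (by simp [Δ, b₂, b₄, b₆, b₈]) (by simp [c₄, b₂, b₄])
      refine mk ⟨hp, h1, h2, h3⟩ (exists_flex_point h2 one_ne_zero) (fun m hm _ => ?_) (by omega)
      rcases hm with ⟨-, e | ⟨u, hu⟩⟩ | ⟨e, -⟩ | ⟨-, e⟩ | ⟨-, e⟩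
      all_goals first | omega | (push_cast at hu; nlinarith [sq_nonneg u])
    · obtain ⟨h1, h2, h3⟩ := oneBad_model hp (W := ⟨4, 0, 1, 0, 0⟩)
        (by simp [Δ, b₂, b₄, b₆, b₈]) (by simp [c₄, b₂, b₄])
      refine mk ⟨hp, h1, h2, h3⟩ (exists_flex_point h2 one_ne_zero) (fun m hm _ => ?_) (by omega)
      rcases hm with ⟨-, e | ⟨u, hu⟩⟩ | ⟨e, -⟩ | ⟨-, e⟩ | ⟨-, e⟩
      all_goals first | omega | (push_cast at hu; nlinarith [sq_nonneg u])
    · obtain ⟨h1, h2, h3⟩ := oneBad_model hp (W := ⟨1, -1, 1, -1, 0⟩) (by decide) (by decide)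
      refine ⟨_, h1, h2, h3, ?_⟩
      have hP4 : addOrderOf (FA.Torsion.intPoint ⟨1, -1, 1, -1, 0⟩ (by decide +kernel) 0 0
          (by decide +kernel)) = 2 ^ (1 + 1) :=
        addOrderOf_eq_prime_pow (p := 2) (by decide +kernel) (by decide +kernel)
      set P := FA.Torsion.intPoint ⟨1, -1, 1, -1, 0⟩ (by decide +kernel) 0 0 (by decide +kernel)
      have hmem : P ∈ AddCommGroup.torsion _ :=
        (AddCommGroup.mem_torsion P).2 (addOrderOf_pos_iff.1 (by omega))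
      have hord : ∀ {G : Type} [AddCommGroup G] (f : AddCommGroup.torsion
          ((⟨1, -1, 1, -1, 0⟩ : WeierstrassCurve ℤ).map (Int.castRingHom ℚ)).toAffine.Point ≃+ G),
          ∀ m : ℕ, (∀ x : G, m • x = 0) → 4 ∣ m := fun f m hm => by
        have := addOrderOf_dvd_of_nsmul_eq_zero (hm (f ⟨P, hmem⟩))
        rwa [AddEquiv.addOrderOf_eq, ← AddSubgroup.addOrderOf_coe, hP4] at this
      rcases torsion_cases (W := ⟨1, -1, 1, -1, 0⟩) ⟨hp, h1, h2, h3⟩ with
        ⟨⟨f⟩⟩ | ⟨m, hm, ⟨f⟩⟩ | ⟨-, ⟨f⟩⟩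
      · have := hord f 1 (by decide)
        omega
      · have h4 := hord f m fun x => by simp
        rcases hm with ⟨e, -⟩ | ⟨-, e⟩ | ⟨rfl, -⟩ | ⟨-, e⟩
        all_goals first | exact ⟨f⟩ | omega
      · have := hord f 2 (by decide)
        omega
    · obtain ⟨h1, h2, h3⟩ := oneBad_model hp (W := ⟨0, -1, -1, 0, 0⟩)
        (by simp [Δ, b₂, b₄, b₆, b₈]) (by simp [c₄, b₂, b₄])
      refine mk ⟨hp, h1, h2, h3⟩ exists_eleven_point (fun m hm _ => ?_) (by omega)
      rcases hm with ⟨-, e | ⟨u, hu⟩⟩ | ⟨-, e⟩ | ⟨-, e⟩ | ⟨e, -⟩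
      all_goals first | omega | (push_cast at hu; nlinarith [sq_nonneg u])

/-- **The group `ℤ/2 × ℤ/2`** occurs exactly for `p = 17`. -/
theorem torsion_primeConductor_two_iff {p : ℕ} (hp : p.Prime) :
    (∃ W : WeierstrassCurve ℤ, W.IsSemistableModel ∧ W.Δ ≠ 0 ∧
      (∀ q : ℕ, q.Prime → ((q : ℤ) ∣ W.Δ ↔ q = p)) ∧
      Nonempty (AddCommGroup.torsion (W.map (Int.castRingHom ℚ)).toAffine.Point ≃+
        ZMod 2 × ZMod 2)) ↔ p = 17 := by
  constructor
  · rintro ⟨W, hW, hΔ, hbad, ⟨e⟩⟩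
    obtain ⟨P, R, hP, hR, hne⟩ := exists_two_two e
    exact prime_of_two_two ⟨hp, hW, hΔ, hbad⟩ hP hR hne
  · rintro rfl
    have hb : OneBadPrime (⟨1, -1, 1, -6, -4⟩ : WeierstrassCurve ℤ) 17 :=
      ⟨hp, fun q hq hd => ?_, by decide, fun q hq => ?_⟩
    refine ⟨_, hb.semistable, hb.ne_zero, hb.bad, ?_⟩
    swap
    · rw [Int.natCast_dvd,
        show (⟨1, -1, 1, -6, -4⟩ : WeierstrassCurve ℤ).Δ.natAbs = 17 ^ 2 by decide] at hd
      obtain rfl := (Nat.prime_dvd_prime_iff_eq hq hp).1 (hq.dvd_of_dvd_pow hd)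
      decide
    swap
    · rw [Int.natCast_dvd,
        show (⟨1, -1, 1, -6, -4⟩ : WeierstrassCurve ℤ).Δ.natAbs = 17 ^ 2 by decide]
      exact ⟨fun hd => (Nat.prime_dvd_prime_iff_eq hq hp).1 (hq.dvd_of_dvd_pow hd),
        fun e => e ▸ dvd_pow_self _ two_ne_zero⟩
    obtain ⟨e⟩ := point_group_curve17
    rw [show (⟨1, -1, 1, -6, -4⟩ : WeierstrassCurve ℤ).map (Int.castRingHom ℚ) =
      ⟨1, -1, 1, -6, -4⟩ by ext <;> simp [map]]
    exact ⟨((AddEquiv.addSubgroupCongr ((AddSubgroup.eq_top_iff' _).2 fun P =>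
      (AddCommGroup.mem_torsion P).2 (by
        simpa using e.symm.toAddMonoidHom.isOfFinAddOrder
          (isOfFinAddOrder_of_finite (e P))))).trans AddSubgroup.topEquiv).trans e⟩

/-- **Over `ℚ`**: the torsion subgroup of a semistable elliptic curve with good reduction away
from the prime `p` is trivial, or `ℤ/2` (`17`, `u² + 64`), `ℤ/3` (`19`, `37`), `ℤ/4` (`17`),
`ℤ/5` (`11`) or `ℤ/2 × ℤ/2` (`17`). -/
theorem torsion_primeConductor_rat {p : ℕ} (hp : p.Prime) (E : WeierstrassCurve ℚ) [E.IsElliptic]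
    (h : ∀ q : ℕ, ∀ [Fact q.Prime], ∃ C : VariableChange ℚ_[q],
      HasGoodReduction ℤ_[q] (C • E.map (algebraMap ℚ ℚ_[q])) ∨
        HasMultiplicativeReduction ℤ_[q] (C • E.map (algebraMap ℚ ℚ_[q])))
    (hgood : ∀ q : ℕ, ∀ [Fact q.Prime], q ≠ p → ∃ C : VariableChange ℚ_[q],
      HasGoodReduction ℤ_[q] (C • E.map (algebraMap ℚ ℚ_[q]))) :
    Nonempty (AddCommGroup.torsion E.toAffine.Point ≃+ ZMod 1) ∨
    (∃ n : ℕ, (n = 2 ∧ (p = 17 ∨ ∃ u : ℤ, (p : ℤ) = u ^ 2 + 64) ∨ n = 3 ∧ (p = 19 ∨ p = 37) ∨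
        n = 4 ∧ p = 17 ∨ n = 5 ∧ p = 11) ∧
      Nonempty (AddCommGroup.torsion E.toAffine.Point ≃+ ZMod n)) ∨
    p = 17 ∧ Nonempty (AddCommGroup.torsion E.toAffine.Point ≃+ ZMod 2 × ZMod 2) := by
  obtain ⟨W, hb, C, hC⟩ := exists_oneBad hp E h hgood
  have := FA.Frob.ratCurve_isElliptic_of_Δ hb.ne_zero
  let e : (W.map (Int.castRingHom ℚ)).toAffine.Point ≃+ E.toAffine.Point := FA.Frob.vcEquiv C hC
  exact (torsion_cases hb).imp (nonempty_torsion_equiv e) (Or.imp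
    (fun ⟨n, hn, f⟩ => ⟨n, hn, nonempty_torsion_equiv e f⟩)
    fun ⟨h17, f⟩ => ⟨h17, nonempty_torsion_equiv e f⟩)

end FA.Summary

end
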