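import Fermat.Agent.SetzerNeumann.RankZero
import Fermat.Agent.Root.SummaryPrimeConductorTorsion
import Fermat.Agent.Root.SummaryMestreOesterle

/-!
# The curves of Setzer and Neumann have Mordell–Weil group `ℤ/2`

A semistable curve with the single bad prime `p ≠ 17` and a rational point of order two has exactly
two rational points; the curves are `y² = x (x² + a x - 16)` and `y² = x (x² - 2 a x + p)` with
`p = a² + 64`, `a ≡ 1 (mod 4)`.
-/

set_option autoImplicit false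

noncomputable section

open WeierstrassCurve
open FA.CM.Seven (twoCurve)

namespace FA.SetzerNeumann

/-- The change of variables putting a root of the two-division cubic at the origin. -/
def rootShift (W : WeierstrassCurve ℤ) (e : ℚ) : VariableChange ℚ :=
  ⟨Units.mk0 (1 / 2) (by norm_num), e, -(W.a₁ : ℚ) / 2, -((W.a₁ : ℚ) * e + W.a₃) / 2⟩

theorem rootShift_smul {W : WeierstrassCurve ℤ} {e : ℚ}
    (he : 4 * e ^ 3 + (W.b₂ : ℚ) * e ^ 2 + 2 * (W.b₄ : ℚ) * e + (W.b₆ : ℚ) = 0) {X A B : ℤ}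
    (hX : (X : ℚ) = 4 * e) (hA : A = 3 * X + W.b₂)
    (hB : B = 3 * X ^ 2 + 2 * W.b₂ * X + 8 * W.b₄) :
    rootShift W e • W.map (Int.castRingHom ℚ) = twoCurve (A : ℚ) (B : ℚ) := by
  subst hA hB
  simp only [b₂, b₄, b₆] at he
  push_cast at he
  ext <;>
    simp [rootShift, variableChange_a₁, variableChange_a₂, variableChange_a₃, variableChange_a₄,
      variableChange_a₆, b₂, b₄, hX]
  all_goals first | ring1 | linear_combination he / 4

/-- `a₁² + 4 a₂` modulo four. -/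
theorem b₂_emod_four (W : WeierstrassCurve ℤ) (h : W.b₂ % 2 = 1) : W.b₂ % 4 = 1 := by
  obtain ⟨i, hi⟩ | ⟨i, hi⟩ := Int.even_or_odd W.a₁ <;>
    simp only [b₂, hi] at h ⊢ <;> ring_nf at h ⊢ <;> omega

/-- **The normal form** of a semistable curve with one bad prime other than `17` and a point of
order two. -/
theorem exists_pair_model {p : ℕ} (h17 : p ≠ 17) {W : WeierstrassCurve ℤ} (h : OneBadPrime W p)
    {e : ℚ} (he : 4 * e ^ 3 + (W.b₂ : ℚ) * e ^ 2 + 2 * (W.b₄ : ℚ) * e + (W.b₆ : ℚ) = 0) :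
    ∃ m : ℤ, m % 4 = 1 ∧ (p : ℤ) = m ^ 2 + 64 ∧
      (rootShift W e • W.map (Int.castRingHom ℚ) = twoCurve (m : ℚ) (-16) ∨
        rootShift W e • W.map (Int.castRingHom ℚ) = twoCurve (-2 * (m : ℚ)) (p : ℚ)) := by
  obtain ⟨X, A, B, a, d, g, hXe, hX, hA, hB, hsh, hsol⟩ :=
    exists_shape h.prime h.semistable h.ne_zero h.bad he
  have hshift := rootShift_smul he hXe hA hB
  obtain ⟨rfl, rfl, hu⟩ := hsol.resolve_left fun hh => h17 hh.1
  have ha : Odd a := Int.not_even_iff_odd.1 fun ⟨t, ht⟩ => by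
    have h2 : 2 ∣ p := Int.natCast_dvd_natCast.1 (show ((2 : ℕ) : ℤ) ∣ (p : ℤ) from
      ⟨2 * t ^ 2 + 32, by rw [hu, ht]; push_cast; ring⟩)
    have := (Nat.prime_dvd_prime_iff_eq Nat.prime_two h.prime).1 h2
    nlinarith [sq_nonneg a]
  obtain ⟨i, hi⟩ := ha
  rcases hsh with ⟨-, -, eA, eB⟩ | ⟨-, -, eA, eB⟩
  · obtain ⟨t, rfl⟩ : (2 : ℤ) ∣ X := by
      rcases Int.even_or_odd X with ⟨t, ht⟩ | ⟨t, rfl⟩
      · exact ⟨t, by omega⟩
      · rw [eB] at hB
        ring_nf at hB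
        omega
    have hb2 : W.b₂ % 2 = 1 := by omega
    obtain ⟨r, hr⟩ : ∃ r, t ^ 2 = 2 * r := by
      rcases Int.even_or_odd t with ⟨j, rfl⟩ | ⟨j, rfl⟩
      · exact ⟨2 * j ^ 2, by ring⟩
      · exfalso
        obtain ⟨i', hi'⟩ : Odd W.b₂ := Int.odd_iff.2 hb2
        rw [hi'] at hX
        ring_nf at hX
        omega
    have ht2 : t % 2 = 0 := Int.even_iff.1 ((Int.even_pow' two_ne_zero).1 ⟨r, by omega⟩)
    refine ⟨A, ?_, by rw [hu, eA], Or.inl (hshift.trans ?_)⟩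
    · have := b₂_emod_four W hb2
      omega
    · rw [eB]
      norm_num
  · obtain ⟨j, rfl⟩ : Odd X := by
      rcases Int.even_or_odd X with ⟨t, rfl⟩ | ho
      · exfalso
        obtain ⟨k, hk⟩ : (2 : ℤ) ∣ (p : ℤ) :=
          ⟨6 * t ^ 2 + 2 * W.b₂ * t + 4 * W.b₄, by rw [← eB, hB]; ring⟩
        rw [hu, hi] at hk
        ring_nf at hk
        omega
      · exact ho
    obtain ⟨l, hl⟩ := Int.even_mul_succ_self j
    have hmod : ∃ k, 2 * j + 1 + W.b₂ = 8 * k := by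
      refine ⟨-((2 * j + 1 + W.b₂) * l + W.b₄ * (2 * j + 1) + 2 * W.b₆), ?_⟩
      linear_combination hX - (2 * j + 1 + W.b₂) * 4 * hl
    obtain ⟨k, hk⟩ := hmod
    have hb4 := b₂_emod_four W (by omega)
    refine ⟨-a, by omega, by rw [hu]; ring, Or.inr (hshift.trans ?_)⟩
    rw [eA, eB]
    push_cast
    ring_nf

/-- All rational points of such a curve have finite order. -/
theorem isOfFinAddOrder_point {p : ℕ} (h17 : p ≠ 17) {W : WeierstrassCurve ℤ}
    (h : OneBadPrime W p) (T : (W.map (Int.castRingHom ℚ)).toAffine.Point) (hT : addOrderOf T = 2)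
    (P : (W.map (Int.castRingHom ℚ)).toAffine.Point) : IsOfFinAddOrder P := by
  obtain ⟨e, he⟩ := exists_root_of_point T hT
  simp only [map_b₂, map_b₄, map_b₆, eq_intCast] at he
  have : (W.map (Int.castRingHom ℚ)).IsElliptic := FA.Frob.ratCurve_isElliptic_of_Δ h.ne_zero
  obtain ⟨m, hm, hpm, hmodel⟩ := exists_pair_model h17 h he
  obtain ⟨h1, h2⟩ := isOfFinAddOrder_pair h.prime hm hpm
  have hell : (rootShift W e • W.map (Int.castRingHom ℚ)).IsElliptic := inferInstance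
  rcases hmodel with hC | hC <;> rw [hC] at hell
  · have := ((FA.Frob.vcEquiv _ hC).toAddMonoidHom.isOfFinAddOrder
      (h1 ((FA.Frob.vcEquiv _ hC).symm P)))
    simpa using this
  · have := ((FA.Frob.vcEquiv _ hC).toAddMonoidHom.isOfFinAddOrder
      (h2 ((FA.Frob.vcEquiv _ hC).symm P)))
    simpa using this

/-- The group is the torsion, hence `ℤ/2`. -/
theorem point_group_of_two {p : ℕ} (h17 : p ≠ 17) {W : WeierstrassCurve ℤ}
    (h : OneBadPrime W p) (T : (W.map (Int.castRingHom ℚ)).toAffine.Point)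
    (hT : addOrderOf T = 2) :
    Nonempty ((W.map (Int.castRingHom ℚ)).toAffine.Point ≃+ ZMod 2) := by
  have hfin := isOfFinAddOrder_point h17 h T hT
  have htop : AddCommGroup.torsion (W.map (Int.castRingHom ℚ)).toAffine.Point = ⊤ :=
    (AddSubgroup.eq_top_iff' _).2 fun P => (AddCommGroup.mem_torsion P).2 (hfin P)
  have key : ∀ {G : Type} [AddCommGroup G], (AddCommGroup.torsion
      (W.map (Int.castRingHom ℚ)).toAffine.Point ≃+ G) → ∃ x : G, addOrderOf x = 2 := fun f =>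
    ⟨f ⟨T, htop ▸ AddSubgroup.mem_top T⟩, by
      rw [AddEquiv.addOrderOf_eq, ← AddSubgroup.addOrderOf_coe, hT]⟩
  rcases torsion_cases h with ⟨⟨f⟩⟩ | ⟨n, hn, ⟨f⟩⟩ | ⟨e, -⟩
  · obtain ⟨x, hx⟩ := key f
    rw [Subsingleton.elim x 0, addOrderOf_zero] at hx
    omega
  · obtain ⟨x, hx⟩ := key f
    have hd : 2 ∣ n := hx ▸ addOrderOf_dvd_of_nsmul_eq_zero (by simp)
    obtain rfl : n = 2 := by
      rcases hn with ⟨e, -⟩ | ⟨e, -⟩ | ⟨-, e⟩ | ⟨e, -⟩
      all_goals omega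
    exact ⟨((AddEquiv.addSubgroupCongr htop).trans AddSubgroup.topEquiv).symm.trans f⟩
  · exact absurd e h17

end FA.SetzerNeumann

namespace FA.Summary

open FA.SetzerNeumann

/-- **The curves of Setzer and Neumann have Mordell–Weil group `ℤ/2`**: a semistable integral
equation with the single bad prime `p ≠ 17` and a rational point of order two has no other
nonzero rational point. -/
theorem setzer_neumann_rank_zero {p : ℕ} (hp : p.Prime) (h17 : p ≠ 17) {W : WeierstrassCurve ℤ}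
    (hW : W.IsSemistableModel) (hΔ : W.Δ ≠ 0)
    (hbad : ∀ q : ℕ, q.Prime → ((q : ℤ) ∣ W.Δ ↔ q = p))
    (T : (W.map (Int.castRingHom ℚ)).toAffine.Point) (hT : addOrderOf T = 2) :
    Nonempty ((W.map (Int.castRingHom ℚ)).toAffine.Point ≃+ ZMod 2) :=
  point_group_of_two h17 ⟨hp, hW, hΔ, hbad⟩ T hT

/-- **Over `ℚ`**. -/
theorem setzer_neumann_rank_zero_rat {p : ℕ} (hp : p.Prime) (h17 : p ≠ 17)
    (E : WeierstrassCurve ℚ) [E.IsElliptic]
    (h : ∀ q : ℕ, ∀ [Fact q.Prime], ∃ C : VariableChange ℚ_[q],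
      HasGoodReduction ℤ_[q] (C • E.map (algebraMap ℚ ℚ_[q])) ∨
        HasMultiplicativeReduction ℤ_[q] (C • E.map (algebraMap ℚ ℚ_[q])))
    (hgood : ∀ q : ℕ, ∀ [Fact q.Prime], q ≠ p → ∃ C : VariableChange ℚ_[q],
      HasGoodReduction ℤ_[q] (C • E.map (algebraMap ℚ ℚ_[q])))
    (T : E.toAffine.Point) (hT : addOrderOf T = 2) :
    Nonempty (E.toAffine.Point ≃+ ZMod 2) := by
  obtain ⟨W, hb, C, hC⟩ := exists_oneBad hp E h hgood
  have := FA.Frob.ratCurve_isElliptic_of_Δ hb.ne_zero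
  let e : (W.map (Int.castRingHom ℚ)).toAffine.Point ≃+ E.toAffine.Point := FA.Frob.vcEquiv C hC
  obtain ⟨f⟩ := point_group_of_two h17 hb (e.symm T)
    ((AddEquiv.addOrderOf_eq e.symm T).trans hT)
  exact ⟨e.symm.trans f⟩

/-- **The family**: for every integer `s` with `(4 s + 1)² + 64` prime both curves
`y² + x y = x³ + s x² - x` and `y² + x y = x³ + s x² + 4 x + 4 s + 1` have exactly two rational
points. -/
theorem setzer_neumann_family (s : ℤ) (hp : Prime ((4 * s + 1) ^ 2 + 64)) :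
    Nonempty ((⟨1, (s : ℚ), 0, -1, 0⟩ : WeierstrassCurve ℚ).toAffine.Point ≃+ ZMod 2) ∧
      Nonempty ((⟨1, (s : ℚ), 0, 4, 4 * (s : ℚ) + 1⟩ : WeierstrassCurve ℚ).toAffine.Point ≃+
        ZMod 2) := by
  obtain ⟨p, hpe⟩ := Int.eq_ofNat_of_zero_le (show (0 : ℤ) ≤ (4 * s + 1) ^ 2 + 64 by positivity)
  rw [hpe] at hp
  have hp' : p.Prime := Nat.prime_iff_prime_int.2 hp
  have h17 : p ≠ 17 := by
    rintro rfl
    push_cast at hpe
    nlinarith [sq_nonneg (4 * s + 1)]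
  constructor
  · have hd : (⟨1, s, 0, -1, 0⟩ : WeierstrassCurve ℤ).Δ = p := by
      rw [← hpe]
      simp only [Δ, b₂, b₄, b₆, b₈]
      ring
    obtain ⟨h1, h2, h3, T, hT⟩ := exists_model hp' (Or.inr rfl) hd
    rw [show (⟨1, (s : ℚ), 0, -1, 0⟩ : WeierstrassCurve ℚ) =
      (⟨1, s, 0, -1, 0⟩ : WeierstrassCurve ℤ).map (Int.castRingHom ℚ) by
        ext <;> simp [map]]
    exact point_group_of_two h17 ⟨hp', h1, h2, h3⟩ T hT
  · obtain ⟨hb, -⟩ := neg_sq_model hp' hpe.symm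
    rw [show (⟨1, (s : ℚ), 0, 4, 4 * (s : ℚ) + 1⟩ : WeierstrassCurve ℚ) =
      (⟨1, s, 0, 4, 4 * s + 1⟩ : WeierstrassCurve ℤ).map (Int.castRingHom ℚ) by
        ext <;> simp [map]]
    have := FA.Frob.ratCurve_isElliptic_of_Δ hb.ne_zero
    have hns : ((⟨1, s, 0, 4, 4 * s + 1⟩ : WeierstrassCurve ℤ).map
        (Int.castRingHom ℚ)).toAffine.Nonsingular (-(4 * s + 1 : ℚ) / 4) ((4 * s + 1 : ℚ) / 8) :=
      Affine.equation_iff_nonsingular.1 ((Affine.equation_iff _ _).2 (by simp [map]; ring))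
    refine point_group_of_two h17 hb (Affine.Point.some _ _ hns)
      (addOrderOf_eq_prime ?_ (Affine.Point.some_ne_zero _))
    rw [two_nsmul, Affine.Point.add_self_of_Y_eq]
    simp [Affine.negY, map]
    ring

end FA.Summary

end
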