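import Fermat.Agent.TwoDescent.IsogenyBound
import Fermat.Agent.Root.SummarySetzerNeumannRank

/-!
# The rank bound from a rational point of order two

`y² = x³ + a x² + b x` has rank at most `ω(b) + ω(a² - 4 b) - 1`: the classes on the two isogenous
curves lie in groups generated by the sign and the primes of `b`, of `a² - 4 b`, and on one of the
two curves every abscissa is positive.
-/

set_option autoImplicit false

noncomputable section

open WeierstrassCurve
open FA.CM.Seven (twoCurve twoCurve_equation)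

namespace FA.TwoDescent

/-- Off the primes of `B` the exponents are even. -/
theorem supported_of_equation {A B : ℤ} (hB : B ≠ 0) {x y : ℚ} (hx : x ≠ 0)
    (e : y ^ 2 = x ^ 3 + (A : ℚ) * x ^ 2 + (B : ℚ) * x) :
    Supported B.natAbs.primeFactors x := fun q hq hqB => by
  have := Fact.mk hq
  obtain ⟨N, r, f, hco, hr, hN, hxe, hf⟩ := FA.SetzerNeumann.exists_numerator e hx
  have hqB' : ¬(q : ℤ) ∣ B := fun hd => hqB (Nat.mem_primeFactors.2
    ⟨hq, Int.natCast_dvd.1 hd, Int.natAbs_ne_zero.2 hB⟩)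
  have hrQ : (r : ℚ) ≠ 0 := Int.cast_ne_zero.2 hr
  rw [hxe, padicValRat.div (Int.cast_ne_zero.2 hN) (pow_ne_zero 2 hrQ), padicValRat.pow,
    padicValRat.of_int, padicValRat.of_int]
  refine Even.sub ?_ (even_two_mul _)
  by_cases hqN : (q : ℤ) ∣ N
  swap
  · rw [padicValInt.eq_zero_of_not_dvd hqN]
    simp
  have hqM : ¬(q : ℤ) ∣ N ^ 2 + A * N * r ^ 2 + B * r ^ 4 := fun hd =>
    hqB' (FA.SetzerNeumann.dvd_of_common (Nat.prime_iff_prime_int.1 hq) hco hqN hd)
  have hM : N ^ 2 + A * N * r ^ 2 + B * r ^ 4 ≠ 0 := fun e0 => hqM (e0 ▸ dvd_zero _)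
  have hf0 : f ≠ 0 := fun e0 => mul_ne_zero hN hM (by rw [hf, e0]; norm_num)
  have h2 := congrArg (padicValInt q) hf
  rw [padicValInt.mul hN hM, padicValInt.eq_zero_of_not_dvd hqM, add_zero, sq,
    padicValInt.mul hf0 hf0] at h2
  exact ⟨(padicValInt q f : ℤ), by rw [h2]; push_cast; rfl⟩

/-- An integer is supported on its primes. -/
theorem supported_intCast {B : ℤ} (hB : B ≠ 0) : Supported B.natAbs.primeFactors (B : ℚ) :=
  fun q hq hqB => by
    rw [padicValRat.of_int, padicValInt.eq_zero_of_not_dvd fun hd => hqB (Nat.mem_primeFactors.2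
      ⟨hq, Int.natCast_dvd.1 hd, Int.natAbs_ne_zero.2 hB⟩)]
    simp

/-- The classes of positive sign. -/
def positiveClasses (S : Finset ℕ) : AddSubgroup (Classes S) :=
  (Pi.evalAddMonoidHom (fun _ : Option S => ZMod 2) none).ker

theorem card_positiveClasses_le (S : Finset ℕ) : Nat.card (positiveClasses S) ≤ 2 ^ S.card := by
  refine (Nat.card_le_card_of_injective (fun u : positiveClasses S => fun q : S => u.1 (some q))
    fun u v h => Subtype.ext (funext fun i => ?_)).trans_eq (by simp)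
  rcases i with _ | q
  · exact u.2.trans v.2.symm
  · exact congrFun h q

theorem card_classes (S : Finset ℕ) :
    Nat.card (⊤ : AddSubgroup (Classes S)) = 2 ^ (S.card + 1) := by
  simp [Classes]

/-- Positive abscissae have positive class. -/
theorem classHom_mem_positive {S : Finset ℕ} (hS : ∀ q ∈ S, q.Prime) {a b : ℚ}
    [(twoCurve a b).IsElliptic] (hb : 0 < b)
    (hpos : ∀ x y : ℚ, x ≠ 0 → y ^ 2 = x ^ 3 + a * x ^ 2 + b * x → 0 < x)
    (P : (twoCurve a b).toAffine.Point) : classHom hS P ∈ positiveClasses S := by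
  show classFun S a b P none = 0
  rcases P with _ | ⟨x, y, h⟩
  · rfl
  by_cases z : x = 0
  · subst z
    rw [classFun_some_zero]
    simp [classOf, hb.not_gt]
  · rw [classFun_some_of_ne z]
    simp [classOf, (hpos x y z (twoCurve_equation.mp h.1)).not_gt]

/-- A positive leading pair forces positive abscissae. -/
theorem pos_of_equation {a b x y : ℚ} (hx : x ≠ 0) (hb : 0 < b) (hab : a ≤ 0 ∨ a ^ 2 < 4 * b)
    (e : y ^ 2 = x ^ 3 + a * x ^ 2 + b * x) : 0 < x := by
  rcases hx.lt_or_gt with h | h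
  · have hq : 0 < x ^ 2 + a * x + b := by
      rcases hab with ha | ha
      · nlinarith [mul_nonneg_of_nonpos_of_nonpos ha h.le]
      · nlinarith [sq_nonneg (2 * x + a)]
    nlinarith [sq_nonneg y, mul_neg_of_neg_of_pos h hq]
  · exact h

/-- **Tate's bound**, in the form used below. -/
theorem rank_add_one_le (a b : ℤ) (hb : b ≠ 0) (hd : a ^ 2 - 4 * b ≠ 0) :
    Module.finrank ℤ (twoCurve (a : ℚ) (b : ℚ)).toAffine.Point + 1 ≤
      b.natAbs.primeFactors.card + (a ^ 2 - 4 * b).natAbs.primeFactors.card := by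
  set S := b.natAbs.primeFactors
  set S' := (a ^ 2 - 4 * b).natAbs.primeFactors
  have hS : ∀ q ∈ S, q.Prime := fun q hq => Nat.prime_of_mem_primeFactors hq
  have hS' : ∀ q ∈ S', q.Prime := fun q hq => Nat.prime_of_mem_primeFactors hq
  have hbQ : (b : ℚ) ≠ 0 := Int.cast_ne_zero.2 hb
  have hdQ : (a : ℚ) ^ 2 - 4 * b ≠ 0 := by exact_mod_cast hd
  have : (twoCurve (a : ℚ) (b : ℚ)).IsElliptic := ⟨isUnit_iff_ne_zero.mpr (by
    rw [show (twoCurve (a : ℚ) (b : ℚ)).Δ = 16 * (b : ℚ) ^ 2 * ((a : ℚ) ^ 2 - 4 * b) by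
      simp [Δ, b₂, b₄, b₆, b₈]; ring]
    simp [hbQ, hdQ])⟩
  have : (twoCurve (-2 * (a : ℚ)) ((a : ℚ) ^ 2 - 4 * b)).IsElliptic :=
    ⟨isUnit_iff_ne_zero.mpr (by
      rw [show (twoCurve (-2 * (a : ℚ)) ((a : ℚ) ^ 2 - 4 * b)).Δ =
          16 * ((a : ℚ) ^ 2 - 4 * b) ^ 2 * (16 * b) by
        simp [Δ, b₂, b₄, b₆, b₈]; ring]
      simp [hbQ, hdQ])⟩
  suffices h : ∀ H : AddSubgroup (Classes S), ∀ H' : AddSubgroup (Classes S'),
      (∀ P, classHom hS (a := (a : ℚ)) (b := (b : ℚ)) P ∈ H) →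
      (∀ P, classHom hS' (a := -2 * (a : ℚ)) (b := (a : ℚ) ^ 2 - 4 * b) P ∈ H') →
      Nat.card H * Nat.card H' ≤ 2 ^ (S.card + S'.card + 1) →
      Module.finrank ℤ (twoCurve (a : ℚ) (b : ℚ)).toAffine.Point + 1 ≤ S.card + S'.card by
    by_cases hE : 0 < b ∧ (a ≤ 0 ∨ a ^ 2 < 4 * b)
    · refine h (positiveClasses S) ⊤ (classHom_mem_positive hS (Int.cast_pos.2 hE.1)
        fun x y z e => pos_of_equation z (Int.cast_pos.2 hE.1) (by exact_mod_cast hE.2) e)
        (fun _ => AddSubgroup.mem_top _) ?_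
      rw [card_classes, add_assoc]
      exact (Nat.mul_le_mul_right _ (card_positiveClasses_le S)).trans_eq (pow_add _ _ _).symm
    · have hd0 : 0 < a ^ 2 - 4 * b := by
        rcases not_and_or.1 hE with h' | h'
        · refine lt_of_le_of_ne ?_ hd.symm
          nlinarith [sq_nonneg a]
        · push Not at h'
          omega
      have hab : -2 * (a : ℚ) ≤ 0 ∨ (-2 * (a : ℚ)) ^ 2 < 4 * ((a : ℚ) ^ 2 - 4 * b) := by
        rcases not_and_or.1 hE with h' | h'
        · right
          have : (b : ℚ) < 0 := Int.cast_lt_zero.2 (lt_of_le_of_ne (not_lt.1 h') hb)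
          nlinarith
        · left
          have : (0 : ℚ) < a := Int.cast_pos.2 (not_le.1 fun h'' => h' (Or.inl h''))
          linarith
      have hdQ0 : (0 : ℚ) < (a : ℚ) ^ 2 - 4 * b := by exact_mod_cast hd0
      refine h ⊤ (positiveClasses S') (fun _ => AddSubgroup.mem_top _)
        (classHom_mem_positive hS' hdQ0 fun x y z e => pos_of_equation z hdQ0 hab e) ?_
      rw [card_classes, add_right_comm]
      exact (Nat.mul_le_mul_left _ (card_positiveClasses_le S')).trans_eq (pow_add _ _ _).symm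
  intro H H' hH hH' hcard
  have := (Nat.pow_le_pow_iff_right one_lt_two).1 ((two_pow_rank_le hS hS' (supported_intCast hb)
    (fun x y z e => supported_of_equation hb z e) (by exact_mod_cast supported_intCast hd)
    (fun x y z e => supported_of_equation (A := -2 * a) hd z (by push_cast; exact e))
    hH hH').trans hcard)
  omega

end FA.TwoDescent

namespace FA.Summary

open FA.TwoDescent

/-- **Tate's bound**: the rank of `y² = x³ + a x² + b x` is less than the number of primes of `b`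
plus the number of primes of `a² - 4 b`. -/
theorem twoIsogeny_rank_le (a b : ℤ) (hb : b ≠ 0) (hd : a ^ 2 - 4 * b ≠ 0) :
    Module.finrank ℤ (⟨0, (a : ℚ), 0, (b : ℚ), 0⟩ : WeierstrassCurve ℚ).toAffine.Point + 1 ≤
      b.natAbs.primeFactors.card + (a ^ 2 - 4 * b).natAbs.primeFactors.card :=
  rank_add_one_le a b hb hd

/-- **A point of order two bounds the rank**: an integral equation with a rational point of order
two has rank less than twice the number of primes of `2 Δ`. -/
theorem rank_le_of_two_torsion (W : WeierstrassCurve ℤ) (hΔ : W.Δ ≠ 0)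
    (T : (W.map (Int.castRingHom ℚ)).toAffine.Point) (hT : addOrderOf T = 2) :
    Module.finrank ℤ (W.map (Int.castRingHom ℚ)).toAffine.Point + 1 ≤
      2 * (2 * W.Δ).natAbs.primeFactors.card := by
  obtain ⟨e, he⟩ := FA.SetzerNeumann.exists_root_of_point T hT
  simp only [map_b₂, map_b₄, map_b₆, eq_intCast] at he
  obtain ⟨X, hXe, hX⟩ := FA.SetzerNeumann.exists_int_root he
  obtain ⟨A, B, hA, hB, -, hAB⟩ := FA.SetzerNeumann.exists_shift hX
  have hB0 : B ≠ 0 := fun e0 => hΔ (by simpa [e0] using hAB.symm)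
  have hd : A ^ 2 - 4 * B ≠ 0 := fun e0 => hΔ (by simpa [e0] using hAB.symm)
  have hC := FA.SetzerNeumann.rootShift_smul he hXe hA hB
  have : (W.map (Int.castRingHom ℚ)).IsElliptic := FA.Frob.ratCurve_isElliptic_of_Δ hΔ
  have : (twoCurve (A : ℚ) (B : ℚ)).IsElliptic := hC ▸ inferInstance
  rw [← (FA.Frob.vcEquiv _ hC).toIntLinearEquiv.finrank_eq]
  have hsub : ∀ m : ℤ, m ∣ 256 * W.Δ → m ≠ 0 →
      m.natAbs.primeFactors.card ≤ (2 * W.Δ).natAbs.primeFactors.card := fun m hm hm0 => by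
    refine Finset.card_le_card fun q hq => ?_
    obtain ⟨hqp, hqm, -⟩ := Nat.mem_primeFactors.1 hq
    refine Nat.mem_primeFactors.2 ⟨hqp, ?_, Int.natAbs_ne_zero.2 (mul_ne_zero two_ne_zero hΔ)⟩
    have hd := hqm.trans (Int.natAbs_dvd_natAbs.2 hm)
    rw [Int.natAbs_mul] at hd ⊢
    rcases hqp.dvd_mul.1 hd with h | h
    · exact (hqp.dvd_of_dvd_pow (show q ∣ 2 ^ 8 from h)).mul_right _
    · exact h.mul_left _
  refine (rank_add_one_le A B hB0 hd).trans ?_
  rw [two_mul (Finset.card _)]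
  exact Nat.add_le_add (hsub B (hAB ▸ ((dvd_pow_self B two_ne_zero).mul_right _)) hB0)
    (hsub _ (hAB ▸ dvd_mul_left _ _) hd)

/-- **Congruent numbers**: the rank of `y² = x³ - n² x` is less than `ω(n) + ω(2 n)`. -/
theorem congruentNumber_rank_le (n : ℕ) (hn : n ≠ 0) :
    Module.finrank ℤ (⟨0, 0, 0, -(n : ℚ) ^ 2, 0⟩ : WeierstrassCurve ℚ).toAffine.Point + 1 ≤
      n.primeFactors.card + (2 * n).primeFactors.card := by
  have hn' : (n : ℤ) ^ 2 ≠ 0 := pow_ne_zero 2 (Int.natCast_ne_zero.2 hn)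
  have h := twoIsogeny_rank_le 0 (-(n : ℤ) ^ 2) (neg_ne_zero.2 hn')
    (by simpa using mul_ne_zero (four_ne_zero (α := ℤ)) hn')
  rw [Int.natAbs_neg, Int.natAbs_pow, Int.natAbs_natCast, Nat.primeFactors_pow _ two_ne_zero,
    show (0 : ℤ) ^ 2 - 4 * -(n : ℤ) ^ 2 = ((2 * n : ℕ) : ℤ) ^ 2 by push_cast; ring,
    Int.natAbs_pow, Int.natAbs_natCast, Nat.primeFactors_pow _ two_ne_zero] at h
  push_cast at h
  exact h

end FA.Summary

end
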