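import Fermat.Agent.RealPoints.Structure
import Fermat.Agent.Root.SummaryRealDensity
import Mathlib.RingTheory.IntegralDomain

/-!
# The group of real points

`E(ℝ)` is a circle, or a circle times `ℤ/2`, as `4 A³ + 27 B²` is positive or negative; the
circle is the identity component.  So for odd `n` its `n`-torsion is cyclic and it is divisible by
`n`, and each of its finite subgroups is cyclic or `ℤ/2 × ℤ/2m`.
-/

set_option autoImplicit false
set_option linter.style.haveILetI false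

noncomputable section

open WeierstrassCurve

namespace FA.Summary

variable {A B : ℝ} [(⟨0, 0, 0, A, B⟩ : WeierstrassCurve ℝ).IsElliptic]

/-- **One component**: the real points form a circle. -/
theorem realPoints_circle (hd : 0 < 4 * A ^ 3 + 27 * B ^ 2) :
    Nonempty ((⟨0, 0, 0, A, B⟩ : WeierstrassCurve ℝ).toAffine.Point ≃+ AddCircle (1 : ℝ)) := by
  obtain ⟨φ, hinj, hcomp, -⟩ := FA.RealPoints.exists_circleHom A B
  refine ⟨(AddEquiv.ofBijective φ ⟨hinj, fun Q => (hcomp Q).mpr ?_⟩).symm⟩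
  intro x y h e t ht
  have he := (Affine.equation_iff x y).mp h.1
  simp only [zero_mul, add_zero] at he
  exact identityComponent_of_discriminant_neg hd (he ▸ sq_nonneg y) ht

/-- **Two components**: the real points form a circle times `ℤ/2`, the circle being the identity
component. -/
theorem realPoints_circle_two (hd : 4 * A ^ 3 + 27 * B ^ 2 < 0) :
    ∃ e : (⟨0, 0, 0, A, B⟩ : WeierstrassCurve ℝ).toAffine.Point ≃+ AddCircle (1 : ℝ) × ZMod 2,
      ∀ Q, (e Q).2 = 0 ↔
        ∀ x y h, Q = Affine.Point.some x y h → ∀ t > x, 0 < t ^ 3 + A * t + B := by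
  obtain ⟨φ, hinj, hcomp, hε⟩ := FA.RealPoints.exists_circleHom A B
  -- a point outside the identity component
  have hA : A < 0 := by nlinarith [sq_nonneg B, sq_nonneg A]
  obtain ⟨c, hc, hA'⟩ : ∃ c : ℝ, 0 < c ∧ A = -3 * c ^ 2 :=
    ⟨√(-A / 3), Real.sqrt_pos.mpr (by linarith), by rw [Real.sq_sqrt (by linarith)]; ring⟩
  have hB : B ^ 2 < (2 * c ^ 3) ^ 2 := by rw [hA'] at hd; linarith
  have hB' := abs_lt_of_sq_lt_sq hB (by positivity)
  have h1 : 0 < (-c) ^ 3 + A * (-c) + B := by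
    rw [hA']; linarith [(abs_lt.mp hB').1]
  have h2 : c ^ 3 + A * c + B < 0 := by
    rw [hA']; linarith [(abs_lt.mp hB').2]
  obtain ⟨Q₀, hQ₀⟩ : ∃ Q : (⟨0, 0, 0, A, B⟩ : WeierstrassCurve ℝ).toAffine.Point,
      Q ∉ φ.range := by
    have hns : (⟨0, 0, 0, A, B⟩ : WeierstrassCurve ℝ).toAffine.Nonsingular (-c)
        √((-c) ^ 3 + A * (-c) + B) :=
      Affine.equation_iff_nonsingular.mp ((Affine.equation_iff _ _).mpr (by
        simp only [zero_mul, add_zero]
        exact Real.sq_sqrt h1.le))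
    exact ⟨.some _ _ hns, fun h => by
      linarith [(hcomp _).mp h _ _ hns rfl c (by linarith)]⟩
  obtain ⟨ε, hεr, hε2, hdiff⟩ := hε Q₀ hQ₀
  let χ : ZMod 2 →+ (⟨0, 0, 0, A, B⟩ : WeierstrassCurve ℝ).toAffine.Point :=
    ZMod.lift 2 ⟨zmultiplesHom _ ε, by
      show ((2 : ℕ) : ℤ) • ε = 0
      rw [natCast_zsmul, hε2]⟩
  have hχ0 : χ 0 = 0 := map_zero χ
  have hχ1 : χ 1 = ε := by
    show ZMod.lift 2 _ ((1 : ℤ) : ZMod 2) = ε
    rw [ZMod.lift_coe]
    exact one_zsmul ε
  have hbij : Function.Bijective (φ.coprod χ) := by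
    refine ⟨(injective_iff_map_eq_zero _).mpr fun ⟨x, k⟩ h => ?_, fun Q => ?_⟩
    · rw [AddMonoidHom.coprod_apply] at h
      rcases (show ∀ k : ZMod 2, k = 0 ∨ k = 1 by decide) k with rfl | rfl
      · rw [hχ0, add_zero] at h
        exact Prod.ext ((map_eq_zero_iff φ hinj).mp h) rfl
      · rw [hχ1] at h
        exact absurd ⟨-x, by rw [map_neg, neg_eq_of_add_eq_zero_right h]⟩ hεr
    · by_cases hQ : Q ∈ φ.range
      · obtain ⟨x, rfl⟩ := hQ
        exact ⟨(x, 0), by simp [AddMonoidHom.coprod_apply]⟩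
      · obtain ⟨x, hx⟩ := hdiff Q hQ
        exact ⟨(x, 1), by rw [AddMonoidHom.coprod_apply, hx, hχ1, sub_add_cancel]⟩
  refine ⟨(AddEquiv.ofBijective _ hbij).symm, fun Q => Iff.trans ?_ (hcomp Q)⟩
  obtain ⟨⟨x, k⟩, rfl⟩ := hbij.2 Q
  rw [show (AddEquiv.ofBijective _ hbij).symm (φ.coprod χ (x, k)) = (x, k) from
    (AddEquiv.ofBijective _ hbij).symm_apply_apply (x, k)]
  refine ⟨fun (e : k = 0) => ⟨x, by rw [AddMonoidHom.coprod_apply, e, hχ0, add_zero]⟩,
    fun ⟨x', hx'⟩ => ?_⟩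
  have e : (x', (0 : ZMod 2)) = (x, k) := hbij.1 (by
    rw [← hx', AddMonoidHom.coprod_apply, hχ0, add_zero])
  exact (congrArg Prod.snd e).symm

/-- In both cases there is an injection into `ℝ/ℤ × ℤ/2` with image containing the circle. -/
theorem exists_realPoints_embedding :
    ∃ e : (⟨0, 0, 0, A, B⟩ : WeierstrassCurve ℝ).toAffine.Point →+ AddCircle (1 : ℝ) × ZMod 2,
      Function.Injective e ∧ ∀ x, (x, 0) ∈ Set.range e := by
  rcases lt_trichotomy (4 * A ^ 3 + 27 * B ^ 2) 0 with hd | hd | hd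
  · obtain ⟨e, -⟩ := realPoints_circle_two hd
    exact ⟨e.toAddMonoidHom, e.injective, fun x => ⟨e.symm (x, 0), e.apply_symm_apply _⟩⟩
  · exact absurd hd (FA.RealPoints.discriminant_ne_zero A B)
  · obtain ⟨e⟩ := realPoints_circle hd
    refine ⟨(AddMonoidHom.inl _ _).comp e.toAddMonoidHom,
      fun P Q h => e.injective (congrArg Prod.fst h), fun x => ⟨e.symm x, ?_⟩⟩
    simp

theorem zmod_two_eq_zero_of_odd {n : ℕ} (hn : Odd n) {k : ZMod 2} (h : n • k = 0) : k = 0 := by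
  rw [nsmul_eq_mul, ZMod.natCast_eq_one_iff_odd.mpr hn, one_mul] at h
  exact h

/-- **Odd torsion is cyclic, odd multiplication surjective.** -/
theorem realPoints_odd {n : ℕ} (hn : Odd n) :
    (∃ P : (⟨0, 0, 0, A, B⟩ : WeierstrassCurve ℝ).toAffine.Point, addOrderOf P = n ∧
        ∀ Q, n • Q = 0 → Q ∈ AddSubgroup.zmultiples P) ∧
      Function.Surjective fun P : (⟨0, 0, 0, A, B⟩ : WeierstrassCurve ℝ).toAffine.Point =>
        n • P := by
  have hn0 : 0 < n := hn.pos
  obtain ⟨e, he, hmem⟩ := exists_realPoints_embedding (A := A) (B := B)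
  obtain ⟨P, hP⟩ := hmem (((1 : ℝ) / n : ℝ) : AddCircle (1 : ℝ))
  refine ⟨⟨P, ?_, fun Q hQ => ?_⟩, fun Q => ?_⟩
  · rw [← addOrderOf_injective e he, hP, Prod.addOrderOf_mk, addOrderOf_zero, Nat.lcm_one_right]
    exact AddCircle.addOrderOf_period_div hn0
  · have h := congrArg e hQ
    rw [map_nsmul, map_zero, Prod.ext_iff] at h
    obtain ⟨m, -, hm⟩ := (AddCircle.nsmul_eq_zero_iff hn0).mp
      (show n • (e Q).1 = 0 from h.1)
    refine AddSubgroup.mem_zmultiples_iff.mpr ⟨m, he ?_⟩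
    rw [map_zsmul, hP, natCast_zsmul, Prod.smul_mk, smul_zero, ← AddCircle.coe_nsmul,
      nsmul_eq_mul]
    refine Prod.ext ?_ (zmod_two_eq_zero_of_odd hn h.2).symm
    rw [← hm]
    show ((m * (1 / n) : ℝ) : AddCircle (1 : ℝ)) = ((m / n * 1 : ℝ) : AddCircle (1 : ℝ))
    rw [mul_one_div, mul_one]
  · obtain ⟨x, hx⟩ : ∃ x : AddCircle (1 : ℝ), n • x = (e Q).1 := by
      obtain ⟨u, hu⟩ := QuotientAddGroup.mk_surjective (e Q).1
      refine ⟨((u / n : ℝ) : AddCircle (1 : ℝ)), ?_⟩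
      rw [← AddCircle.coe_nsmul, nsmul_eq_mul, mul_div_cancel₀ _ (Nat.cast_ne_zero.mpr hn0.ne')]
      exact hu
    obtain ⟨P', hP'⟩ := hmem x
    have hR : e (Q - n • P') = (0, (e Q).2) := by
      rw [map_sub, map_nsmul, hP', Prod.smul_mk, hx, smul_zero]
      exact Prod.ext (sub_self _) (sub_zero _)
    have hnR : n • (Q - n • P') = Q - n • P' := he (by
      rw [map_nsmul, hR, Prod.smul_mk, smul_zero, nsmul_eq_mul, ZMod.natCast_eq_one_iff_odd.mpr hn,
        one_mul])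
    exact ⟨P' + (Q - n • P'), by
      show n • (P' + (Q - n • P')) = Q
      rw [nsmul_add, hnR, add_sub_cancel]⟩

/-- A finite subgroup of the circle is cyclic. -/
theorem isAddCyclic_circle_subgroup (K : AddSubgroup (AddCircle (1 : ℝ))) [Finite K] :
    IsAddCyclic K := by
  let f : Multiplicative K →* ℂ :=
    { toFun := fun x => (AddCircle.toCircle (Multiplicative.toAdd x : K).1 : ℂ)
      map_one' := by simp
      map_mul' := fun x y => by
        simp [AddCircle.toCircle_add] }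
  have hf : Function.Injective f := fun x y h =>
    Subtype.ext (AddCircle.injective_toCircle one_ne_zero (Subtype.ext h))
  exact isCyclic_multiplicative_iff.mp (isCyclic_of_injective_ringHom f hf)

/-- **Finite subgroups** are cyclic or `ℤ/2 × ℤ/2m`. -/
theorem realPoints_finite_subgroup
    (H : AddSubgroup (⟨0, 0, 0, A, B⟩ : WeierstrassCurve ℝ).toAffine.Point) [Finite H] :
    IsAddCyclic H ∨ ∃ m : ℕ, Nonempty (H ≃+ ZMod 2 × ZMod (2 * m)) := by
  obtain ⟨e, he, -⟩ := exists_realPoints_embedding (A := A) (B := B)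
  set p₁ : H →+ AddCircle (1 : ℝ) := (AddMonoidHom.fst _ _).comp (e.comp H.subtype)
  set p₂ : H →+ ZMod 2 := (AddMonoidHom.snd _ _).comp (e.comp H.subtype)
  have hp : ∀ g g' : H, p₁ g = p₁ g' → p₂ g = p₂ g' → g = g' := fun g g' h1 h2 =>
    Subtype.ext (he (Prod.ext h1 h2))
  haveI : Finite p₁.range := Finite.of_surjective _ p₁.rangeRestrict_surjective
  haveI hK := isAddCyclic_circle_subgroup p₁.range
  by_cases hinj : Function.Injective p₁
  · left
    have hb : Function.Bijective p₁.rangeRestrict :=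
      ⟨fun x y h => hinj (congrArg Subtype.val h), p₁.rangeRestrict_surjective⟩
    exact isAddCyclic_of_surjective (AddEquiv.ofBijective _ hb).symm.toAddMonoidHom
      (AddEquiv.surjective _)
  obtain ⟨w, hw1, hw⟩ : ∃ w : H, p₁ w = 0 ∧ w ≠ 0 := by
    by_contra h
    push Not at h
    exact hinj ((injective_iff_map_eq_zero p₁).mpr fun g hg => h g hg)
  have hw2 : p₂ w = 1 := by
    rcases (show ∀ k : ZMod 2, k = 0 ∨ k = 1 by decide) (p₂ w) with h | h
    · exact absurd (hp w 0 (by rw [hw1, map_zero]) (by rw [h, map_zero])) hw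
    · exact h
  have hbij : Function.Bijective (p₁.rangeRestrict.prod p₂) := by
    refine ⟨fun g g' h => ?_, fun ⟨⟨u, g, hg⟩, k⟩ => ?_⟩
    · obtain ⟨h1, h2⟩ := Prod.ext_iff.mp h
      exact hp g g' (congrArg Subtype.val h1) h2
    rcases (show ∀ k : ZMod 2, k = 0 ∨ k = 1 by decide) (k - p₂ g) with h | h
    · exact ⟨g, Prod.ext (Subtype.ext hg) (by rw [sub_eq_zero] at h; exact h.symm)⟩
    · refine ⟨g + w, Prod.ext (Subtype.ext ?_) ?_⟩
      · show p₁ (g + w) = u
        rw [map_add, hw1, add_zero, hg]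
      · show p₂ (g + w) = k
        rw [map_add, hw2, ← h, add_sub_cancel]
  set n := Nat.card p₁.range
  let eK : p₁.range ≃+ ZMod n := (zmodAddCyclicAddEquiv hK).symm
  let eH : H ≃+ ZMod n × ZMod 2 :=
    (AddEquiv.ofBijective _ hbij).trans (eK.prodCongr (AddEquiv.refl _))
  rcases Nat.even_or_odd n with ⟨m, hm⟩ | hodd
  · exact Or.inr ⟨m, ⟨eH.trans (AddEquiv.prodComm.trans ((AddEquiv.refl _).prodCongr
      (ZMod.ringEquivCongr (by omega : n = 2 * m)).toAddEquiv))⟩⟩
  · left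
    haveI : IsAddCyclic (ZMod n × ZMod 2) :=
      isAddCyclic_of_surjective
        (ZMod.chineseRemainder (Nat.coprime_two_right.mpr hodd)).toAddEquiv.toAddMonoidHom
        (AddEquiv.surjective _)
    exact isAddCyclic_of_surjective eH.symm.toAddMonoidHom (AddEquiv.surjective _)

/-- **The shape of rational torsion**, without the Weil pairing: cyclic or `ℤ/2 × ℤ/2m`. -/
theorem rationalTorsion_shape {A B : ℚ} [(⟨0, 0, 0, A, B⟩ : WeierstrassCurve ℚ).IsElliptic] :
    IsAddCyclic (AddCommGroup.torsion (⟨0, 0, 0, A, B⟩ : WeierstrassCurve ℚ).toAffine.Point) ∨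
      ∃ m : ℕ, Nonempty (AddCommGroup.torsion
        (⟨0, 0, 0, A, B⟩ : WeierstrassCurve ℚ).toAffine.Point ≃+ ZMod 2 × ZMod (2 * m)) := by
  set T := AddCommGroup.torsion (⟨0, 0, 0, A, B⟩ : WeierstrassCurve ℚ).toAffine.Point
  haveI : Finite T := (finite_torsion_numberField_any _).to_subtype
  have hE : ((⟨0, 0, 0, A, B⟩ : WeierstrassCurve ℚ)⁄ℝ) = FA.RealPoints.shortCurve A B := by
    ext <;> simp
  haveI : (⟨0, 0, 0, (A : ℝ), (B : ℝ)⟩ : WeierstrassCurve ℝ).IsElliptic := by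
    show (FA.RealPoints.shortCurve A B).IsElliptic
    rw [← hE]
    show ((⟨0, 0, 0, A, B⟩ : WeierstrassCurve ℚ).map (algebraMap ℚ ℝ)).IsElliptic
    infer_instance
  let ι : (⟨0, 0, 0, A, B⟩ : WeierstrassCurve ℚ).toAffine.Point →+
      (FA.RealPoints.shortCurve A B).toAffine.Point :=
    (FA.RealPoints.castPoint hE).comp (Affine.Point.map (W' := (⟨0, 0, 0, A, B⟩ :
      WeierstrassCurve ℚ).toAffine) (S := ℚ) (F := ℚ) (K := ℝ) (Algebra.ofId ℚ ℝ))
  have hinj : Function.Injective ι := (FA.RealPoints.castPoint_injective hE).comp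
    (Affine.Point.map_injective (W' := (⟨0, 0, 0, A, B⟩ : WeierstrassCurve ℚ).toAffine) (R := ℚ)
      (S := ℚ) (F := ℚ) (K := ℝ) (Algebra.ofId ℚ ℝ))
  let eT : T ≃+ T.map ι := T.equivMapOfInjective ι hinj
  haveI : Finite (T.map ι) := Finite.of_equiv _ eT.toEquiv
  rcases realPoints_finite_subgroup (A := (A : ℝ)) (B := (B : ℝ)) (T.map ι) with h | ⟨m, ⟨f⟩⟩
  · exact Or.inl (isAddCyclic_of_surjective eT.symm.toAddMonoidHom (AddEquiv.surjective _))
  · exact Or.inr ⟨m, ⟨eT.trans f⟩⟩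

end FA.Summary

end
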