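import Fermat.Agent.LocalCFT.Existence
import Fermat.Agent.LocalCFT.NormGroup
import Fermat.Agent.LocalCFT.Abelian

/-!
# Local class field theory of the completions

For a number field `K` and a prime `v`, with the local maps of `SummaryIdelicClassField`:

* `local_power_global`: for every `n` there is an `N` such that an `N`-th power residue at almost
  every prime is an `n`-th power (no exceptional case);
* `chevalley_congruence`: in a finitely generated subgroup of the multiplicative group of `K`,
  congruences at finitely many primes outside a given finite set force an `n`-th power;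
* `local_existence`: every open subgroup of finite index of the multiplicative group of the
  completion is the closure of the norms of a finite abelian extension of `K`, with quotient the
  decomposition group;
* `local_open_iff`: these are exactly the open subgroups of finite index;
* `local_completion_galois`: for a Galois extension `L` and a prime `Q` the completion at `Q` is
  Galois over the completion below, of degree the order of the decomposition group;
* `local_norm_group`: if `L` is abelian the kernel of the local map is the norm group of the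
  completion at `Q`;
* `local_reciprocity_completion`: the multiplicative group of the completion below modulo norms is
  the Galois group of the completion at `Q`;
* `local_existence_norm`: every open subgroup of finite index of the multiplicative group of a
  completion is the norm group of the completion of a finite abelian extension of `K`, and norm
  groups are open of finite index;
* `local_abelian_completion`: every finite abelian extension of a completion is the completion of a
  finite abelian extension of `K`;
* `local_abelian_reciprocity`: for every finite abelian extension of a completion the group of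
  norms is open of finite index with quotient the Galois group;
* `local_abelian_classification`, `local_abelian_unique`: the norm groups of the finite abelian
  extensions of a completion are exactly the open subgroups of finite index, and each determines
  the extension.
-/

set_option autoImplicit false
set_option linter.unusedSectionVars false
set_option linter.style.haveILetI false

noncomputable section

open NumberField IsDedekindDomain WithZero IsMulCommutative
open FA.ArtinRec FA.NormResidue FA.Ideles FA.LocalCFT
open scoped Pointwise Classical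

namespace FA.Summary

universe u

variable {K : Type u} [Field K] [NumberField K]

/-- **Local powers almost everywhere.** -/
theorem local_power_global {n : ℕ} (hn : 0 < n) :
    ∃ N, 0 < N ∧ ∀ x : Kˣ, (∃ B : Set (HeightOneSpectrum (𝓞 K)), B.Finite ∧
      ∀ v ∉ B, ∃ c : Kˣ, v.valuation K ((x : K) / (c : K) ^ N - 1) ≤ exp (-1)) →
        ∃ w : Kˣ, w ^ n = x := by
  obtain ⟨N, hN, h⟩ := exists_exponent (K := K) hn
  refine ⟨N, hN, fun x ⟨B, hB, hx⟩ => h x ⟨B, hB, fun v hv => ?_⟩⟩
  obtain ⟨c, hc⟩ := hx v hv
  refine ⟨c, FA.HasseCyclic.mem_nearOne.2 ?_⟩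
  rw [Units.val_div_eq_div_val, Units.val_pow_eq_pow_val]
  exact hc.trans (exp_le_exp.2 (by norm_num))

/-- **Chevalley's theorem.** -/
theorem chevalley_congruence {B : Set (HeightOneSpectrum (𝓞 K))} (hB : B.Finite) {E : Subgroup Kˣ}
    (hE : E.FG) {n : ℕ} (hn : 0 < n) :
    ∃ T : Finset (HeightOneSpectrum (𝓞 K)), (∀ v ∈ T, v ∉ B) ∧
      ∀ x ∈ E, (∀ v ∈ T, v.valuation K ((x : K) - 1) ≤ exp (-1)) → ∃ w : Kˣ, w ^ n = x := by
  obtain ⟨T, hT, h⟩ := exists_congruence_pow hB hE hn
  exact ⟨T, hT, fun x hx hxT => h x hx fun v hv =>
    FA.HasseCyclic.mem_nearOne.2 ((hxT v hv).trans (exp_le_exp.2 (by norm_num)))⟩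

/-- **The local existence theorem.** -/
theorem local_existence (v : HeightOneSpectrum (𝓞 K)) {H : Subgroup (v.adicCompletion K)ˣ}
    (hH : IsOpen (H : Set (v.adicCompletion K)ˣ)) (hidx : H.index ≠ 0) :
    ∃ (L : Type u) (_ : Field L) (_ : NumberField L) (_ : Algebra K L) (_ : IsGalois K L)
      (_ : IsMulCommutative (L ≃ₐ[K] L)),
      (∀ z, z ∈ H ↔ ∀ k : ℕ, ∃ y : Lˣ, z / localEmb v (normU' y) ∈ nearLocal v k) ∧
      (localArtin L v).ker = H ∧
      ∀ Q : HeightOneSpectrum (𝓞 L), Q.asIdeal.under (𝓞 K) = v.asIdeal →
        Nonempty ((v.adicCompletion K)ˣ ⧸ H ≃* MulAction.stabilizer (L ≃ₐ[K] L) Q.asIdeal) := by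
  obtain ⟨L, i1, i2, i3, i4, i5, h⟩ := exists_ker_localArtin_eq v hH hidx
  refine ⟨L, i1, i2, i3, i4, i5, fun z => ?_, h, fun Q hQ => ⟨?_⟩⟩
  · rw [← h, MonoidHom.mem_ker, mem_ker_localArtin_iff]
  · exact ((QuotientGroup.quotientMulEquivOfEq h.symm).trans
      (QuotientGroup.quotientKerEquivRange _)).trans
      (MulEquiv.subgroupCongr (range_localArtin (HeightOneSpectrum.ext hQ)))

/-- **The norm subgroups are the open subgroups of finite index.** -/
theorem local_open_iff (v : HeightOneSpectrum (𝓞 K)) (H : Subgroup (v.adicCompletion K)ˣ) :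
    (IsOpen (H : Set (v.adicCompletion K)ˣ) ∧ H.index ≠ 0) ↔
      ∃ (L : Type u) (_ : Field L) (_ : NumberField L) (_ : Algebra K L) (_ : IsGalois K L)
        (_ : IsMulCommutative (L ≃ₐ[K] L)), (localArtin L v).ker = H := by
  constructor
  · exact fun h => exists_ker_localArtin_eq v h.1 h.2
  · rintro ⟨L, i1, i2, i3, i4, i5, rfl⟩
    refine ⟨isOpen_ker_localArtin v, ?_⟩
    rw [Subgroup.index_ker]
    exact Nat.card_pos.ne'

/-- **The completion of a Galois extension.** -/
theorem local_completion_galois {L : Type*} [Field L] [NumberField L] [Algebra K L] [IsGalois K L]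
    (Q : HeightOneSpectrum (𝓞 L)) :
    IsGalois ((belowP K Q).adicCompletion K) (Q.adicCompletion L) ∧
      Module.finrank ((belowP K Q).adicCompletion K) (Q.adicCompletion L) =
        Nat.card (MulAction.stabilizer (L ≃ₐ[K] L) Q.asIdeal) ∧
      ∀ x : K, algebraMap ((belowP K Q).adicCompletion K) (Q.adicCompletion L)
        (algebraMap K ((belowP K Q).adicCompletion K) x) =
          algebraMap L (Q.adicCompletion L) (algebraMap K L x) :=
  ⟨inferInstance, finrank_above Q, belowHom_algebraMap Q⟩

/-- **The norm group of the completion.** -/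
theorem local_norm_group {L : Type*} [Field L] [NumberField L] [Algebra K L] [IsGalois K L]
    [IsMulCommutative (L ≃ₐ[K] L)] (Q : HeightOneSpectrum (𝓞 L))
    (z : ((belowP K Q).adicCompletion K)ˣ) :
    localArtin L (belowP K Q) z = 1 ↔ ∃ y : Q.adicCompletion L,
      Algebra.norm ((belowP K Q).adicCompletion K) y = (z : (belowP K Q).adicCompletion K) := by
  rw [← MonoidHom.mem_ker, ← range_normC, MonoidHom.mem_range]
  refine ⟨fun ⟨y, hy⟩ => ⟨y, congrArg Units.val hy⟩, fun ⟨y, hy⟩ => ?_⟩
  have h : y ≠ 0 := fun h => z.ne_zero (by rw [← hy, h, Algebra.norm_zero])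
  exact ⟨Units.mk0 y h, Units.ext hy⟩

/-- **Local reciprocity.** -/
theorem local_reciprocity_completion {L : Type*} [Field L] [NumberField L] [Algebra K L]
    [IsGalois K L] [IsMulCommutative (L ≃ₐ[K] L)] (Q : HeightOneSpectrum (𝓞 L)) :
    ∃ θ : ((belowP K Q).adicCompletion K)ˣ →*
        (Q.adicCompletion L ≃ₐ[(belowP K Q).adicCompletion K] Q.adicCompletion L),
      Function.Surjective θ ∧
      θ.ker = (Units.map (Algebra.norm ((belowP K Q).adicCompletion K)
        (S := Q.adicCompletion L))).range ∧
      Nonempty (((belowP K Q).adicCompletion K)ˣ ⧸ (Units.map (Algebra.norm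
          ((belowP K Q).adicCompletion K) (S := Q.adicCompletion L))).range ≃*
        (Q.adicCompletion L ≃ₐ[(belowP K Q).adicCompletion K] Q.adicCompletion L)) ∧
      ∀ z y, θ z (algebraMap L (Q.adicCompletion L) y) =
        algebraMap L (Q.adicCompletion L) (localArtin L (belowP K Q) z y) :=
  ⟨galArtin Q, galArtin_surjective Q, ker_galArtin Q,
    ⟨(QuotientGroup.quotientMulEquivOfEq (ker_galArtin Q).symm).trans
      (QuotientGroup.quotientKerEquivOfSurjective _ (galArtin_surjective Q))⟩,
    galArtin_algebraMap Q⟩

/-- **The local existence theorem, by norms.** -/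
theorem local_existence_norm (v : HeightOneSpectrum (𝓞 K)) (H : Subgroup (v.adicCompletion K)ˣ) :
    (IsOpen (H : Set (v.adicCompletion K)ˣ) ∧ H.index ≠ 0) ↔
      ∃ (L : Type u) (_ : Field L) (_ : NumberField L) (_ : Algebra K L) (_ : IsGalois K L)
        (_ : IsMulCommutative (L ≃ₐ[K] L)) (Q : HeightOneSpectrum (𝓞 L)) (hQ : belowP K Q = v),
        hQ ▸ (Units.map (Algebra.norm ((belowP K Q).adicCompletion K)
          (S := Q.adicCompletion L))).range = H := by
  rw [local_open_iff]
  constructor
  · rintro ⟨L, i1, i2, i3, i4, i5, h⟩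
    obtain ⟨Q, hQ⟩ := exists_belowP K L v
    subst hQ
    exact ⟨L, i1, i2, i3, i4, i5, Q, rfl, (range_normC Q).trans h⟩
  · rintro ⟨L, i1, i2, i3, i4, i5, Q, rfl, rfl⟩
    exact ⟨L, i1, i2, i3, i4, i5, (range_normC Q).symm⟩

/-- **Every abelian extension of a completion comes from `K`.** -/
theorem local_abelian_completion (v : HeightOneSpectrum (𝓞 K)) (E : Type*) [Field E]
    [Algebra (v.adicCompletion K) E] [FiniteDimensional (v.adicCompletion K) E]
    [IsGalois (v.adicCompletion K) E] [IsMulCommutative (E ≃ₐ[v.adicCompletion K] E)] :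
    ∃ (L : Type u) (_ : Field L) (_ : NumberField L) (_ : Algebra K L) (_ : IsGalois K L)
      (_ : IsMulCommutative (L ≃ₐ[K] L)) (Q : HeightOneSpectrum (𝓞 L)) (hQ : belowP K Q = v)
      (e : Q.adicCompletion L ≃+* E), ∀ t : (belowP K Q).adicCompletion K,
        e (algebraMap ((belowP K Q).adicCompletion K) (Q.adicCompletion L) t) =
          algebraMap (v.adicCompletion K) E (hQ ▸ t) :=
  exists_abelian_completion v E

/-- **Reciprocity for an abelian extension of a completion.** -/
theorem local_abelian_reciprocity (v : HeightOneSpectrum (𝓞 K)) (E : Type*) [Field E]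
    [Algebra (v.adicCompletion K) E] [FiniteDimensional (v.adicCompletion K) E]
    [IsGalois (v.adicCompletion K) E] [IsMulCommutative (E ≃ₐ[v.adicCompletion K] E)] :
    IsOpen ((Units.map (Algebra.norm (v.adicCompletion K) (S := E))).range :
        Set (v.adicCompletion K)ˣ) ∧
      (Units.map (Algebra.norm (v.adicCompletion K) (S := E))).range.index ≠ 0 ∧
      Nonempty ((v.adicCompletion K)ˣ ⧸ (Units.map (Algebra.norm (v.adicCompletion K)
        (S := E))).range ≃* (E ≃ₐ[v.adicCompletion K] E)) :=
  ⟨isOpen_normGroup v E, (abelian_facts v E).1, (abelian_facts v E).2.1⟩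

/-- **The classification by norm groups.** -/
theorem local_abelian_classification (v : HeightOneSpectrum (𝓞 K))
    (H : Subgroup (v.adicCompletion K)ˣ) :
    (IsOpen (H : Set (v.adicCompletion K)ˣ) ∧ H.index ≠ 0) ↔
      ∃ (E : Type u) (_ : Field E) (_ : Algebra (v.adicCompletion K) E)
        (_ : FiniteDimensional (v.adicCompletion K) E) (_ : IsGalois (v.adicCompletion K) E)
        (_ : IsMulCommutative (E ≃ₐ[v.adicCompletion K] E)),
        (Units.map (Algebra.norm (v.adicCompletion K) (S := E))).range = H := by
  constructor
  · rintro ⟨hH, hidx⟩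
    obtain ⟨L, i1, i2, i3, i4, i5, h⟩ := exists_ker_localArtin_eq v hH hidx
    obtain ⟨Q, hQ⟩ := exists_belowP K L v
    subst hQ
    exact ⟨Q.adicCompletion L, inferInstance, inferInstance, inferInstance, inferInstance,
      isMulCommutative_completion Q, (range_normC Q).trans h⟩
  · rintro ⟨E, i1, i2, i3, i4, i5, rfl⟩
    exact ⟨isOpen_normGroup v E, (abelian_facts v E).1⟩

/-- **The norm group determines the extension.** -/
theorem local_abelian_unique (v : HeightOneSpectrum (𝓞 K)) (E E' : Type*) [Field E] [Field E']
    [Algebra (v.adicCompletion K) E] [FiniteDimensional (v.adicCompletion K) E]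
    [IsGalois (v.adicCompletion K) E] [IsMulCommutative (E ≃ₐ[v.adicCompletion K] E)]
    [Algebra (v.adicCompletion K) E'] [FiniteDimensional (v.adicCompletion K) E']
    [IsGalois (v.adicCompletion K) E'] [IsMulCommutative (E' ≃ₐ[v.adicCompletion K] E')] :
    (Units.map (Algebra.norm (v.adicCompletion K) (S := E))).range =
        (Units.map (Algebra.norm (v.adicCompletion K) (S := E'))).range ↔
      Nonempty (E ≃ₐ[v.adicCompletion K] E') :=
  ⟨algEquiv_of_normGroup_eq v, fun ⟨e⟩ => normGroup_congr e⟩

end FA.Summary

end
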