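import Fermat.Agent.NagataHigman.Finite

/-!
# Nagata–Higman and the finiteness of matrix invariants

`K` has characteristic zero. `S` is an algebra without unit inside an algebra `A`, and `J` a
subspace of `A` unchanged by multiplication by `S` on both sides.

* `nagata_higman`: if `x ^ n ∈ J` on `S`, products of `2 ^ n - 1` elements of `S` lie in `J`;
* `nil_nilpotent`: so if `x ^ n = 0` on `S`, these products vanish;
* `procesi_bound`: the traces of words in generic `n × n` matrices are polynomials in those of the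
  words of length at most `2 ^ n - 1`;
* `matrix_invariants_fg`: so the conjugation invariants of tuples of matrices are finitely
  generated;
* `trace_separation_bounded`: and these traces determine all invariants.
-/

set_option autoImplicit false

noncomputable section

open MvPolynomial

namespace FA.NagataHigman.Summary

variable {K : Type*} [Field K] [CharZero K]

/-- **The theorem of Dubnov, Ivanov, Nagata and Higman.** -/
theorem nagata_higman {A : Type*} [Ring A] [Algebra K A] (S : NonUnitalSubalgebra K A)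
    (J : Submodule K A) (hJ : ∀ s ∈ S, ∀ a ∈ J, s * a ∈ J ∧ a * s ∈ J) {n : ℕ}
    (hpow : ∀ x ∈ S, x ^ n ∈ J) (l : List A) (hlen : l.length = 2 ^ n - 1)
    (hl : ∀ a ∈ l, a ∈ S) : l.prod ∈ J :=
  prod_mem n J hJ hpow l hlen hl

/-- **Nil of bounded index is nilpotent.** -/
theorem nil_nilpotent {A : Type*} [Ring A] [Algebra K A] (S : NonUnitalSubalgebra K A) {n : ℕ}
    (hpow : ∀ x ∈ S, x ^ n = 0) (l : List A) (hlen : l.length = 2 ^ n - 1)
    (hl : ∀ a ∈ l, a ∈ S) : l.prod = 0 :=
  (Submodule.mem_bot K).1 (prod_mem n ⊥ (fun s _ a ha => by simp [(Submodule.mem_bot K).1 ha])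
    (fun x hx => (Submodule.mem_bot K).2 (hpow x hx)) l hlen hl)

variable {τ ι : Type*} [Fintype ι] [DecidableEq ι]

/-- **Procesi's bound.** -/
theorem procesi_bound :
    Algebra.adjoin K (Set.range fun w : List τ => ((w.map fun t =>
      (Matrix.of fun i j => X (t, i, j) :
        Matrix ι ι (MvPolynomial (τ × ι × ι) K))).prod).trace) =
    Algebra.adjoin K ((fun w : List τ => ((w.map fun t => (Matrix.of fun i j => X (t, i, j) :
      Matrix ι ι (MvPolynomial (τ × ι × ι) K))).prod).trace) ''
        {w | w.length ≤ 2 ^ Fintype.card ι - 1}) :=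
  traceAlg_eq_shortAlg

variable [Fintype τ]

/-- **Finite generation of matrix invariants.** -/
theorem matrix_invariants_fg :
    ∃ s : Finset (MvPolynomial (τ × ι × ι) K), ∀ P,
      (∀ (g : GL ι K) (A : τ → Matrix ι ι K),
        eval (fun v => ((g : Matrix ι ι K) * A v.1 * (↑g⁻¹ : Matrix ι ι K)) v.2.1 v.2.2) P =
          eval (fun v => A v.1 v.2.1 v.2.2) P) ↔
        P ∈ Algebra.adjoin K (↑s : Set (MvPolynomial (τ × ι × ι) K)) := by
  obtain ⟨s, hs⟩ := traceAlg_fg (K := K) (τ := τ) (ι := ι)
  exact ⟨s, fun P => (MatrixInvariants.isConjInv_iff P).trans (by rw [hs])⟩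

/-- **Bounded separation.** -/
theorem trace_separation_bounded (A B : τ → Matrix ι ι K)
    (h : ∀ w : List τ, w.length ≤ 2 ^ Fintype.card ι - 1 →
      ((w.map A).prod).trace = ((w.map B).prod).trace)
    (P : MvPolynomial (τ × ι × ι) K)
    (hP : ∀ (g : GL ι K) (A : τ → Matrix ι ι K),
      eval (fun v => ((g : Matrix ι ι K) * A v.1 * (↑g⁻¹ : Matrix ι ι K)) v.2.1 v.2.2) P =
        eval (fun v => A v.1 v.2.1 v.2.2) P) :
    eval (fun v => A v.1 v.2.1 v.2.2) P = eval (fun v => B v.1 v.2.1 v.2.2) P := by
  show MatrixInvariants.evalAt A P = MatrixInvariants.evalAt B P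
  have hP' : P ∈ shortAlg K τ ι := by
    rw [← traceAlg_eq_shortAlg]
    exact (MatrixInvariants.isConjInv_iff P).1 hP
  clear hP
  induction hP' using Algebra.adjoin_induction with
  | mem x hx =>
    obtain ⟨w, hw, rfl⟩ := hx
    show MatrixInvariants.evalAt A ((w.map (MatrixInvariants.gen K ι)).prod).trace =
      MatrixInvariants.evalAt B ((w.map (MatrixInvariants.gen K ι)).prod).trace
    rw [MatrixInvariants.evalAt_gen, MatrixInvariants.evalAt_gen, h w hw]
  | algebraMap r => simp [MatrixInvariants.evalAt]
  | add x y _ _ hx hy => rw [map_add, map_add, hx, hy]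
  | mul x y _ _ hx hy => rw [map_mul, map_mul, hx, hy]

end FA.NagataHigman.Summary
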