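import Fermat.Agent.Tau.QuasiModular

/-!
# Quasimodular forms of level one

Ramanujan's identity `D E₂ = (E₂² - E₄)/12` with `D = q d/dq`, Chazy's equation, the convolution of
`σ₁` with itself and Niebur's formula for `τ(n)` in terms of `σ₁`.
-/

set_option autoImplicit false

noncomputable section

open UpperHalfPlane hiding I
open ModularForm EisensteinSeries Derivative FA.Eis
open scoped ArithmeticFunction.sigma Manifold

namespace FA.Summary

/-- **Ramanujan**: `D E₂ = (E₂² - E₄)/12`. -/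
theorem ramanujan_derivative_eTwo (z : ℍ) :
    normalizedDerivOfComplex E2 z = (E2 z ^ 2 - E₄ z) / 12 := by
  have h1 : HasQ 1 (normalizedDerivOfComplex E2)
      ((FA.Tau.thetaInt FA.Tau.eTwoInt).map (Int.castRingHom ℂ)) :=
    FA.Tau.hasQ_deriv FA.Tau.hasQ_eTwo
  have h2 : HasQ 1 (E2 ^ 2 - ⇑E₄)
      ((FA.Tau.eTwoInt ^ 2 - FA.Tau.eFourInt).map (Int.castRingHom ℂ)) := by
    rw [map_sub, map_pow]
    exact (FA.Tau.hasQ_eTwo.pow one_pos 2).sub FA.Tau.hasQ_eFour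
  rw [← FA.Tau.theta_eTwo, map_mul, map_ofNat] at h2
  have h3 := h1.smul (12 : ℂ)
  rw [show (12 : ℂ) • (FA.Tau.thetaInt FA.Tau.eTwoInt).map (Int.castRingHom ℂ) =
      12 * (FA.Tau.thetaInt FA.Tau.eTwoInt).map (Int.castRingHom ℂ) by
    rw [PowerSeries.smul_eq_C_mul, map_ofNat]] at h3
  have e := (h3 z).unique (h2 z)
  simp only [Pi.smul_apply, Pi.sub_apply, Pi.pow_apply, smul_eq_mul] at e
  linear_combination e / 12

/-- **Chazy's equation**: `D³ E₂ = E₂ D² E₂ - (3/2) (D E₂)²`. -/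
theorem chazy_equation (z : ℍ) :
    normalizedDerivOfComplex (normalizedDerivOfComplex (normalizedDerivOfComplex E2)) z =
      E2 z * normalizedDerivOfComplex (normalizedDerivOfComplex E2) z -
        3 / 2 * normalizedDerivOfComplex E2 z ^ 2 := by
  have hE := FA.Tau.hasQ_eTwo
  have h1 := FA.Tau.hasQ_deriv hE
  have h2 := FA.Tau.hasQ_deriv h1
  have h3 := FA.Tau.hasQ_deriv h2
  have hl := h3.smul (2 : ℂ)
  have hr := ((hE.mul one_pos h2).smul (2 : ℂ)).sub ((h1.pow one_pos 2).smul (3 : ℂ))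
  simp only [← FA.Tau.thetaDer_apply] at hl hr
  have key := congrArg (PowerSeries.map (Int.castRingHom ℂ)) FA.Tau.chazy_eTwo
  simp only [map_mul, map_sub, map_pow, map_ofNat] at key
  simp only [PowerSeries.smul_eq_C_mul, map_ofNat, key] at hl hr
  have e := (hl z).unique (hr z)
  simp only [Pi.smul_apply, Pi.sub_apply, Pi.pow_apply, Pi.mul_apply, smul_eq_mul] at e
  linear_combination e / 2

/-- **The convolution of `σ₁` with itself**:
`12 ∑ σ(k) σ(n - k) = 5 σ₃(n) + (1 - 6n) σ(n)`. -/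
theorem sigma_convolution (n : ℕ) :
    12 * ∑ i ∈ Finset.range n, (σ 1 i : ℤ) * (σ 1 (n - i) : ℤ) =
      5 * (σ 3 n : ℤ) + (1 - 6 * (n : ℤ)) * (σ 1 n : ℤ) :=
  FA.Tau.sum_sigma_mul_sigma n

/-- **Niebur's formula**:
`τ(n) = n⁴ σ(n) - 24 ∑ i² (35 i² - 52 i n + 18 n²) σ(i) σ(n - i)`. -/
theorem ramanujanTau_niebur (n : ℕ) :
    (qExpansion 1 ModularForm.discriminant).coeff n =
      (((n : ℤ) ^ 4 * (σ 1 n : ℤ) - 24 * ∑ i ∈ Finset.range n,
        (i : ℤ) ^ 2 * (35 * (i : ℤ) ^ 2 - 52 * i * n + 18 * (n : ℤ) ^ 2) *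
          ((σ 1 i : ℤ) * (σ 1 (n - i) : ℤ)) : ℤ) : ℂ) := by
  rw [FA.Tau.qExpansion_discriminant, FA.Tau.coeff_deltaInt_niebur]

end FA.Summary

end
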