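import Fermat.Agent.Hypergeometric.Period
import Fermat.Agent.ThetaAGM.ModulusDeriv
import Fermat.Agent.Root.SummaryModularValues
import Fermat.Agent.GaussLegendre.Telescope

/-!
# Periods as hypergeometric series

`F(x) = ∑ (C(2n,n)/4^n)² x^n` gives the periods of the curves with three real roots and, at
`x = θ₂⁴/θ₃⁴`, is `θ₃²`.
-/

set_option autoImplicit false
set_option linter.style.haveILetI false

noncomputable section

open Set
open FA.Hypergeometric (hypF halfCoeff)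
open FA.ThetaAGM (thetaTwo thetaThree thetaFour lambdaAxis)
open scoped Real NNReal Interval

namespace FA.Summary

/-- **Gauss**: the complete integral is `π/2 F(x) = π / (2 agm(1, √(1-x)))`. -/
theorem complete_integral_hypergeometric {x : ℝ} (hx0 : 0 ≤ x) (hx1 : x < 1) :
    ∫ φ in (0 : ℝ)..π / 2, (√(1 - x * Real.sin φ ^ 2))⁻¹ =
        π / 2 * ∑' n : ℕ, ((n.centralBinom : ℝ) / 4 ^ n) ^ 2 * x ^ n ∧
      ∑' n : ℕ, ((n.centralBinom : ℝ) / 4 ^ n) ^ 2 * x ^ n =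
        1 / (NNReal.agm 1 (√(1 - x)).toNNReal : ℝ) := by
  refine ⟨?_, FA.Hypergeometric.hypF_eq_agm hx0 hx1⟩
  have h := (FA.Hypergeometric.hasSum_hypF hx0 hx1).tsum_eq
  simp only [halfCoeff] at h
  rw [h]
  field_simp

/-- **Jacobi**: `θ₃² = F(λ)` and `t = F(1-λ)/F(λ)` for `λ = θ₂⁴/θ₃⁴` at `τ = i t`. -/
theorem jacobi_hypergeometric {t : ℝ} (ht : 0 < t) :
    hypF (lambdaAxis t) = thetaThree t ^ 2 ∧
      hypF (1 - lambdaAxis t) / hypF (lambdaAxis t) = t := by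
  obtain ⟨h0, h1⟩ := FA.ThetaAGM.lambdaAxis_mem ht
  have h3 := FA.ThetaAGM.thetaThree_pos ht
  have e4 : √(1 - lambdaAxis t) = thetaFour t ^ 2 / thetaThree t ^ 2 := by
    rw [FA.ThetaAGM.one_sub_lambdaAxis ht, show thetaFour t ^ 4 / thetaThree t ^ 4 =
      (thetaFour t ^ 2 / thetaThree t ^ 2) ^ 2 by ring, Real.sqrt_sq (by positivity)]
  have e2 : √(lambdaAxis t) = thetaTwo t ^ 2 / thetaThree t ^ 2 := by
    rw [lambdaAxis, show thetaTwo t ^ 4 / thetaThree t ^ 4 =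
      (thetaTwo t ^ 2 / thetaThree t ^ 2) ^ 2 by ring, Real.sqrt_sq (by positivity)]
  obtain ⟨hM, hN⟩ := FA.ThetaAGM.param_unique (a := 1) one_pos ht
    (b := thetaFour t ^ 2 / thetaThree t ^ 2) (div_one _).symm
  rw [Real.toNNReal_one] at hM hN
  have hc : √(1 ^ 2 - (thetaFour t ^ 2 / thetaThree t ^ 2) ^ 2) =
      thetaTwo t ^ 2 / thetaThree t ^ 2 := by
    rw [← e4, Real.sq_sqrt (sub_pos.mpr h1).le, one_pow, sub_sub_cancel, e2]
  rw [hc] at hN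
  have hF : hypF (lambdaAxis t) = thetaThree t ^ 2 := by
    rw [FA.Hypergeometric.hypF_eq_agm h0.le h1, e4, hM, one_div_one_div]
  refine ⟨hF, ?_⟩
  rw [hF, FA.Hypergeometric.hypF_eq_agm (sub_pos.mpr h1).le (by linarith), sub_sub_cancel, e2]
  conv_rhs => rw [hN, hM]
  field_simp

/-- **The real period as a series**: `π F((e₂-e₁)/(e₃-e₁)) / √(e₃-e₁)`. -/
theorem realPeriod_hypergeometric (L : PeriodPair) {e₁ e₂ e₃ : ℝ} (h12 : e₁ < e₂) (h23 : e₂ < e₃)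
    (h0 : e₁ + e₂ + e₃ = 0) (h₂ : L.g₂ = ((-4 * (e₁ * e₂ + e₁ * e₃ + e₂ * e₃) : ℝ) : ℂ))
    (h₃ : L.g₃ = ((4 * (e₁ * e₂ * e₃) : ℝ) : ℂ)) :
    ∀ s : ℝ, (s : ℂ) ∈ L.lattice ↔
      ∃ m : ℤ, s = m * (π * hypF ((e₂ - e₁) / (e₃ - e₁)) / √(e₃ - e₁)) := by
  obtain ⟨ω, -, hper, hω⟩ := realPeriod_agm L h12 h23 h0 h₂ h₃
  have h31 : 0 < e₃ - e₁ := by linarith
  have hx0 : 0 ≤ (e₂ - e₁) / (e₃ - e₁) := div_nonneg (by linarith) h31.le
  have hx1 : (e₂ - e₁) / (e₃ - e₁) < 1 := (div_lt_one h31).mpr (by linarith)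
  have key : (NNReal.agm (√(e₃ - e₁)).toNNReal (√(e₃ - e₂)).toNNReal : ℝ) =
      √(e₃ - e₁) * (NNReal.agm 1 (√(1 - (e₂ - e₁) / (e₃ - e₁))).toNNReal : ℝ) := by
    rw [show e₃ - e₂ = (e₃ - e₁) * (1 - (e₂ - e₁) / (e₃ - e₁)) by field_simp; ring,
      Real.sqrt_mul h31.le, Real.toNNReal_mul (Real.sqrt_nonneg _)]
    nth_rewrite 1 [← mul_one (√(e₃ - e₁)).toNNReal]
    rw [NNReal.agm_mul_distrib, NNReal.coe_mul, Real.coe_toNNReal _ (Real.sqrt_nonneg _)]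
  intro s
  rw [hper s, hω, key, FA.Hypergeometric.hypF_eq_agm hx0 hx1, mul_one_div, div_div,
    mul_comm (√(e₃ - e₁))]

/-- `∑ (C(2n,n)/4^n)² 2^(-n) = √π / Γ(3/4)²`. -/
theorem hypergeometric_half :
    ∑' n : ℕ, ((n.centralBinom : ℝ) / 4 ^ n) ^ 2 * (1 / 2) ^ n =
      √π / Real.Gamma (3 / 4) ^ 2 := by
  have h : lambdaAxis 1 = 1 / 2 := by
    have := FA.ThetaAGM.thetaThree_pos one_pos
    rw [lambdaAxis, FA.GaussLegendre.thetaTwo_one.1]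
    field_simp
  have hF := (jacobi_hypergeometric one_pos).1
  rw [h] at hF
  have ht : thetaThree 1 = π ^ (1 / 4 : ℝ) / Real.Gamma (3 / 4) := by
    rw [thetaThree, ← theta_gaussian_sum]
    simp
  rw [ht, div_pow, ← Real.rpow_natCast (π ^ (1 / 4 : ℝ)) 2, ← Real.rpow_mul Real.pi_pos.le] at hF
  norm_num at hF
  rw [Real.sqrt_eq_rpow]
  norm_num
  exact hF

end FA.Summary

end
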