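import Fermat.Agent.OrthogonalUnits.Generators

/-!
# Mahler's compactness theorem and the units of quadratic forms

* `mahler_compactness`: the lattices of determinant one whose nonzero vectors have length bounded
  below form a compact set modulo `GL n ℤ`; `mahler_compactness_converse`: lattices from a compact
  set have such a bound;
* `orthogonalUnits_cocompact` (Siegel): for an integral form anisotropic over `ℚ` the real
  automorphs are a compact set times the integral ones;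
* `orthogonalUnits_finitelyGenerated`: so these are finitely generated;
* `orthogonalUnits_infinite_iff`: and infinitely many exactly for an indefinite form.
-/

set_option autoImplicit false

noncomputable section

open Matrix FA.OrthogonalUnits FA.UnitsOrders

namespace FA.Summary

variable {n : ℕ}

/-- **Mahler's compactness theorem.** -/
theorem mahler_compactness (n : ℕ) {ε : ℝ} (hε : 0 < ε) :
    ∃ K : Set (Matrix (Fin n) (Fin n) ℝ), IsCompact K ∧ (∀ h ∈ K, |h.det| = 1) ∧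
      ∀ g : Matrix (Fin n) (Fin n) ℝ, |g.det| = 1 →
        (∀ v : Fin n → ℤ, v ≠ 0 → ε ≤ ∑ i, (g *ᵥ fun k => (v k : ℝ)) i ^ 2) →
          ∃ U : GL (Fin n) ℤ,
            g * (U : Matrix (Fin n) (Fin n) ℤ).map (fun z : ℤ => (z : ℝ)) ∈ K := by
  obtain ⟨R, -, h⟩ := exists_small_mul n hε
  refine ⟨{h | |h.det| = 1} ∩ Set.univ.pi fun _ => Set.univ.pi fun _ => Set.Icc (-R) R,
    (isCompact_univ_pi fun _ => isCompact_univ_pi fun _ => isCompact_Icc).inter_left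
      (isClosed_eq continuous_id.matrix_det.abs continuous_const), fun h hh => hh.1,
    fun g hg hmin => ?_⟩
  obtain ⟨U, hU⟩ := h g hg hmin
  refine ⟨U, ?_, fun i _ j _ => abs_le.1 (hU i j)⟩
  show |(g * rep U).det| = 1
  rw [det_mul, abs_mul, hg, one_mul, rep, abs_det_toReal]
  exact (Matrix.isUnit_iff_isUnit_det _).1 U.isUnit

/-- **The converse.** -/
theorem mahler_compactness_converse {K : Set (Matrix (Fin n) (Fin n) ℝ)} (hK : IsCompact K)
    (hdet : ∀ h ∈ K, |h.det| = 1) :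
    ∃ ε : ℝ, 0 < ε ∧ ∀ g ∈ K, ∀ U : GL (Fin n) ℤ, ∀ v : Fin n → ℤ, v ≠ 0 →
      ε ≤ ∑ i, ((g * (U : Matrix (Fin n) (Fin n) ℤ).map (fun z : ℤ => (z : ℝ))) *ᵥ
        fun k => (v k : ℝ)) i ^ 2 := by
  obtain ⟨C, hC⟩ := (hK.image_of_continuousOn (f := fun g => ∑ i, ∑ j, g.adjugate i j ^ 2)
    (Continuous.continuousOn (by fun_prop))).bddAbove
  refine ⟨(max C 1)⁻¹, by positivity, fun g hg U v hv => ?_⟩
  set w : Fin n → ℤ := (U : Matrix (Fin n) (Fin n) ℤ) *ᵥ v with hwdef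
  have hw : w ≠ 0 := fun h => hv (by
    rw [← Matrix.one_mulVec v, ← show ((U⁻¹ : GL (Fin n) ℤ) : Matrix (Fin n) (Fin n) ℤ) *
      (U : Matrix (Fin n) (Fin n) ℤ) = 1 by simp, ← mulVec_mulVec, ← hwdef, h,
      mulVec_zero])
  show _ ≤ ∑ i, ((g * toReal (U : Matrix (Fin n) (Fin n) ℤ)) *ᵥ fun k => (v k : ℝ)) i ^ 2
  rw [← mulVec_mulVec, ← toReal_mulVec]
  set y := g *ᵥ fun k => (w k : ℝ)
  obtain ⟨i, hi⟩ := Function.ne_iff.1 hw
  have h1 : (1 : ℝ) ≤ (w i : ℝ) ^ 2 := by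
    exact_mod_cast (show (1 : ℤ) ≤ w i ^ 2 from sq_pos_of_ne_zero (by simpa using hi))
  have h2 : g.adjugate *ᵥ y = g.det • fun k => (w k : ℝ) := by
    rw [mulVec_mulVec, adjugate_mul, smul_mulVec, one_mulVec]
  have h3 : (w i : ℝ) ^ 2 ≤ (∑ j, g.adjugate i j ^ 2) * ∑ j, y j ^ 2 := by
    refine le_of_eq_of_le ?_ (Finset.sum_mul_sq_le_sq_mul_sq _ (g.adjugate i) y)
    have h4 : (∑ j, g.adjugate i j * y j) = g.det * w i := congrFun h2 i
    rw [h4, mul_pow, ← sq_abs g.det, hdet g hg, one_pow, one_mul]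
  have h5 : ∑ j, g.adjugate i j ^ 2 ≤ max C 1 :=
    ((Finset.single_le_sum (f := fun i => ∑ j, g.adjugate i j ^ 2)
      (fun _ _ => Finset.sum_nonneg fun _ _ => sq_nonneg _) (Finset.mem_univ i)).trans
        (hC ⟨g, hg, rfl⟩)).trans (le_max_left _ _)
  rw [inv_le_iff_one_le_mul₀ (by positivity), mul_comm]
  exact (h1.trans h3).trans
    (mul_le_mul_of_nonneg_right h5 (Finset.sum_nonneg fun _ _ => sq_nonneg _))

/-- **Siegel's theorem**: the automorphs of an anisotropic form are cocompact. -/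
theorem orthogonalUnits_cocompact (A : Matrix (Fin n) (Fin n) ℤ)
    (hA : ∀ v : Fin n → ℤ, v ≠ 0 → v ⬝ᵥ (A *ᵥ v) ≠ 0) :
    ∃ K : Set (Matrix (Fin n) (Fin n) ℝ), IsCompact K ∧
      (∀ h ∈ K, hᵀ * A.map (fun z : ℤ => (z : ℝ)) * h = A.map (fun z : ℤ => (z : ℝ))) ∧
      ∀ g : Matrix (Fin n) (Fin n) ℝ,
        gᵀ * A.map (fun z : ℤ => (z : ℝ)) * g = A.map (fun z : ℤ => (z : ℝ)) →
          ∃ U : GL (Fin n) ℤ, (U : Matrix (Fin n) (Fin n) ℤ)ᵀ * A * U = A ∧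
            g * (U : Matrix (Fin n) (Fin n) ℤ).map (fun z : ℤ => (z : ℝ)) ∈ K := by
  obtain ⟨R, -, h⟩ := exists_automorph_small hA
  refine ⟨orthSet (toReal A) ∩ Set.univ.pi fun _ => Set.univ.pi fun _ => Set.Icc (-R) R,
    (isCompact_univ_pi fun _ => isCompact_univ_pi fun _ => isCompact_Icc).inter_left
      (isClosed_eq (by fun_prop) continuous_const), fun h hh => hh.1, fun g hg => ?_⟩
  obtain ⟨U, hUA, hU⟩ := h g hg
  exact ⟨U, hUA, mul_mem_orthSet hg (rep_mem hUA), fun i _ j _ => abs_le.1 (hU i j)⟩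

/-- **The automorphs are finitely generated.** -/
theorem orthogonalUnits_finitelyGenerated (A : Matrix (Fin n) (Fin n) ℤ) (hAs : A.IsSymm)
    (hA : ∀ v : Fin n → ℤ, v ≠ 0 → v ⬝ᵥ (A *ᵥ v) ≠ 0) :
    ∃ S : Finset (GL (Fin n) ℤ), ∀ U : GL (Fin n) ℤ,
      (U : Matrix (Fin n) (Fin n) ℤ)ᵀ * A * U = A ↔
        U ∈ Subgroup.closure (S : Set (GL (Fin n) ℤ)) := by
  obtain ⟨S, hgen, hfin⟩ := (Subgroup.fg_iff _).1
    ((Group.fg_iff_subgroup_fg _).1 (fg_automorphs hAs hA))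
  refine ⟨hfin.toFinset, fun U => ?_⟩
  rw [Set.Finite.coe_toFinset, hgen]
  rfl

/-- **Infinitely many automorphs iff indefinite.** -/
theorem orthogonalUnits_infinite_iff (A : Matrix (Fin n) (Fin n) ℤ) (hAs : A.IsSymm)
    (hA : ∀ v : Fin n → ℤ, v ≠ 0 → v ⬝ᵥ (A *ᵥ v) ≠ 0) :
    {U : GL (Fin n) ℤ | (U : Matrix (Fin n) (Fin n) ℤ)ᵀ * A * U = A}.Infinite ↔
      (∃ v : Fin n → ℤ, 0 < v ⬝ᵥ (A *ᵥ v)) ∧ ∃ v : Fin n → ℤ, v ⬝ᵥ (A *ᵥ v) < 0 :=
  infinite_automorphs_iff hAs hA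

end FA.Summary

end
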