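import Fermat.Agent.Roth.Applications

/-!
# Ridout's theorem

Roth's theorem with finitely many primes: the parts of numerator and denominator supported on
those primes may be moved to the right hand side. Consequences are Mahler's theorem on
`(a / b) ^ n` modulo one, hence the condition of the formula for `g(k)` in Waring's problem for
large `k`, and the transcendence of lacunary series such as Kempner's number.
-/

set_option autoImplicit false

noncomputable section

namespace FA.Summary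

/-- **Ridout's theorem.** -/
theorem ridout_theorem {α : ℝ} (hα : IsAlgebraic ℚ α) (S : Finset ℕ) (hS : ∀ l ∈ S, l.Prime)
    {κ : ℝ} (hκ : 2 < κ) :
    {x : ℚ | |α - x| ≤ 1 ∧ |α - x| <
      ((∏ l ∈ S, l ^ x.num.natAbs.factorization l : ℕ) : ℝ) *
        ((∏ l ∈ S, l ^ x.den.factorization l : ℕ) : ℝ) * (x.den : ℝ) ^ (-κ)}.Finite :=
  FA.Roth.finite_sPart hα S (fun l hl => (hS l hl).pos) hκ

/-- **Mahler's theorem**: for coprime `a > b ≥ 2` the distance of `(a / b) ^ n` to the integers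
exceeds `exp (-ε n)` for all large `n`. -/
theorem mahler_near_int {a b : ℕ} (hb : 2 ≤ b) (hab : b < a) (hcop : Nat.Coprime a b) {ε : ℝ}
    (hε : 0 < ε) :
    {n : ℕ | ∃ N : ℤ, |((a : ℝ) / b) ^ n - N| < Real.exp (-(ε * n))}.Finite :=
  FA.Roth.finite_near_int hb hab hcop hε

/-- For all large `k` the condition `2 ^ k {(3 / 2) ^ k} + ⌊(3 / 2) ^ k⌋ ≤ 2 ^ k` holds, under
which `g(k) = 2 ^ k + ⌊(3 / 2) ^ k⌋ - 2` in Waring's problem. -/
theorem waring_condition :
    ∃ K : ℕ, ∀ k, K ≤ k → 3 ^ k % 2 ^ k + 3 ^ k / 2 ^ k ≤ 2 ^ k := by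
  obtain ⟨K, hK⟩ := FA.Roth.finite_waring.bddAbove
  exact ⟨K + 1, fun k hk => not_lt.1 fun h => absurd (hK h) (by omega)⟩

/-- An algebraic number is approximated by `b`-adic fractions different from it to no exponent
beyond `1`. -/
theorem adic_approximation {α : ℝ} (hα : IsAlgebraic ℚ α) {b : ℕ} (hb : 2 ≤ b) {κ : ℝ}
    (hκ : 1 < κ) :
    {n : ℕ | ∃ m : ℤ, α ≠ (m : ℝ) / (b : ℝ) ^ n ∧
      |α - (m : ℝ) / (b : ℝ) ^ n| < (b : ℝ) ^ (-(κ * n))}.Finite :=
  FA.Roth.finite_adic hα hb hκ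

/-- Lacunary series are transcendental. -/
theorem lacunary_transcendental {b : ℕ} (hb : 2 ≤ b) {c : ℝ} (hc : 1 < c) {e : ℕ → ℕ}
    (he : ∀ k, 0 < e k) (hgap : ∀ k, c * (e k : ℝ) ≤ e (k + 1)) :
    Transcendental ℚ (∑' k : ℕ, ((b : ℝ) ^ e k)⁻¹) :=
  FA.Roth.transcendental_tsum_of_gap hb hc he hgap

/-- **Kempner's number** `∑ b ^ (-2 ^ k)` is transcendental. -/
theorem kempner_transcendental {b : ℕ} (hb : 2 ≤ b) :
    Transcendental ℚ (∑' k : ℕ, ((b : ℝ) ^ (2 ^ k))⁻¹) :=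
  lacunary_transcendental hb one_lt_two (fun k => Nat.two_pow_pos k) fun k =>
    le_of_eq (by push_cast; ring)

end FA.Summary

end
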