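import Fermat.Agent.TateTwo.Main
import Fermat.Agent.RT.CurveResidual
import Fermat.Agent.Root.LFunctionForm
import Fermat.Agent.Root.SummaryOggShafarevich
import Fermat.Agent.MW.Descent

/-!
# Tate's theorem: mod two representations unramified outside two

`F` is a field of characteristic two.

* `tate_mod_two` (Tate 1973): a homomorphism `G_ℚ → GL₂(F)` with open kernel, unramified outside
  `2`, takes values in involutions and fixes a nonzero vector, so it has semisimplification `1 ⊕ 1`;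
* `tate_mod_two_charpoly`: its values have trace `0` and determinant `1`;
* `no_sl_two_unramified_outside_two`: so no such homomorphism has `SL₂(F)` in its image; for
  `F = 𝔽₂` there is no `S₃`-extension of `ℚ` unramified outside `2`;
* `no_gl_two_two_unramified_outside_two`: the case `F = 𝔽₂`;
* `good_outside_two_point`, `good_outside_two_even`: an elliptic curve over `ℚ` with good reduction
  outside `2` has a rational point of order two and `a_l` is even for every odd prime `l`.
-/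

set_option autoImplicit false
set_option linter.unusedSectionVars false
set_option linter.style.haveILetI false

noncomputable section

open Matrix WeierstrassCurve WeierstrassCurve.Affine FA.EC FA.Frob FA.RT FA.TateTwo
open scoped WeierstrassCurve.Affine

local notation "Qb" => AlgebraicClosure ℚ
local notation "GQ" => AlgebraicClosure ℚ ≃ₐ[ℚ] AlgebraicClosure ℚ

namespace FA.Summary

variable {F : Type*} [Field F] [CharP F 2]

/-- **Tate's theorem**: a continuous representation `G_ℚ → GL₂(F)` in characteristic two which is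
unramified outside `2` takes values in involutions and fixes a nonzero vector. -/
theorem tate_mod_two (ρ : GQ →* GL (Fin 2) F) (hopen : IsOpen (ρ.ker : Set GQ))
    (hun : ∀ q : ℕ, q.Prime → q ≠ 2 → ∀ A : ValuationSubring Qb, A.LiesOverPrime q →
      A.inertiaSubgroupIn ℚ ≤ ρ.ker) :
    (∀ σ, ρ σ ^ 2 = 1) ∧
      ∃ v : Fin 2 → F, v ≠ 0 ∧ ∀ σ, (ρ σ : Matrix (Fin 2) (Fin 2) F) *ᵥ v = v :=
  ⟨sq_eq_one ρ hopen hun, exists_common_fixed ρ (sq_eq_one ρ hopen hun)⟩

/-- **The semisimplification is trivial**: trace `0` and determinant `1` everywhere. -/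
theorem tate_mod_two_charpoly (ρ : GQ →* GL (Fin 2) F) (hopen : IsOpen (ρ.ker : Set GQ))
    (hun : ∀ q : ℕ, q.Prime → q ≠ 2 → ∀ A : ValuationSubring Qb, A.LiesOverPrime q →
      A.inertiaSubgroupIn ℚ ≤ ρ.ker) (σ : GQ) :
    (ρ σ : Matrix (Fin 2) (Fin 2) F).trace = 0 ∧ (ρ σ : Matrix (Fin 2) (Fin 2) F).det = 1 := by
  have h : (ρ σ : Matrix (Fin 2) (Fin 2) F) ^ 2 = 1 := by
    rw [← Units.val_pow_eq_pow_val, sq_eq_one ρ hopen hun σ, Units.val_one]
  refine ⟨?_, eq_one_of_pow_two_pow (k := 1) (by rw [pow_one, ← det_pow, h, det_one])⟩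
  have h0 : IsNilpotent ((ρ σ : Matrix (Fin 2) (Fin 2) F) - 1) :=
    ⟨2, by rw [sub_one_sq, h, sub_self]⟩
  simpa [trace_sub, CharTwo.two_eq_zero] using (isNilpotent_trace_of_isNilpotent h0).eq_zero

/-- **No `SL₂(F)` unramified outside `2`**, in particular no `S₃ = GL₂(𝔽₂)`. -/
theorem no_sl_two_unramified_outside_two (ρ : GQ →* GL (Fin 2) F)
    (hopen : IsOpen (ρ.ker : Set GQ))
    (hun : ∀ q : ℕ, q.Prime → q ≠ 2 → ∀ A : ValuationSubring Qb, A.LiesOverPrime q →
      A.inertiaSubgroupIn ℚ ≤ ρ.ker) :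
    ¬ ∀ M : GL (Fin 2) F, (M : Matrix (Fin 2) (Fin 2) F).det = 1 → M ∈ ρ.range := by
  intro hall
  set A : Matrix (Fin 2) (Fin 2) F := !![0, 1; 1, 1]
  have hA : A.det = 1 := by simp [A, det_fin_two, CharTwo.neg_eq]
  obtain ⟨σ, hσ⟩ := hall (GeneralLinearGroup.mkOfDetNeZero A (hA ▸ one_ne_zero)) hA
  have h := congrArg (fun M : GL (Fin 2) F => (M : Matrix (Fin 2) (Fin 2) F) 0 1)
    (sq_eq_one ρ hopen hun σ)
  simp [hσ, GeneralLinearGroup.mkOfDetNeZero, A, sq, mul_apply, Fin.sum_univ_two] at h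

/-- **No `GL₂(𝔽₂) = S₃` unramified outside `2`.** -/
theorem no_gl_two_two_unramified_outside_two (ρ : GQ →* GL (Fin 2) (ZMod 2))
    (hopen : IsOpen (ρ.ker : Set GQ))
    (hun : ∀ q : ℕ, q.Prime → q ≠ 2 → ∀ A : ValuationSubring Qb, A.LiesOverPrime q →
      A.inertiaSubgroupIn ℚ ≤ ρ.ker) : ¬ Function.Surjective ρ :=
  fun hs => no_sl_two_unramified_outside_two ρ hopen hun fun M _ => hs M

/-- The mod two representation of a model of a curve with good reduction outside `2`. -/
theorem curveRep_two_outside (E : WeierstrassCurve ℚ) [E.IsElliptic]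
    (hgood : ∀ q : ℕ, [Fact q.Prime] → q ≠ 2 →
      ∃ C : VariableChange ℚ_[q], HasGoodReduction ℤ_[q] (C • E.map (algebraMap ℚ ℚ_[q])))
    {W : WeierstrassCurve ℤ} (hW : W.IsIntegralModelOf E) [(ratCurve W).IsElliptic] :
    ∀ q : ℕ, q.Prime → q ≠ 2 → ∀ A : ValuationSubring Qb, A.LiesOverPrime q →
      A.inertiaSubgroupIn ℚ ≤ ((curveRep 2 W).toHomUnits).ker := by
  classical
  intro q hq hq2 A hA σ hσ
  have := Fact.mk hq
  obtain ⟨e, he⟩ := FA.Root.exists_equiv_of_model hW
  refine MonoidHom.mem_ker.mpr (Units.ext ?_)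
  rw [MonoidHom.coe_toHomUnits, Units.val_one, curveRep_eq_one_iff]
  refine fun x => Subtype.ext (e.injective ((he σ x.1).trans ?_))
  refine inertia_fixes_torsion_of_good E (hgood q hq2) Nat.prime_two hq2.symm hA hσ (n := 1) _ ?_
  rw [← map_nsmul, pow_one]
  exact (congrArg e ((natCast_zsmul x.1 2).symm.trans x.2)).trans (map_zero e)

theorem isOpen_ker_toHomUnits (W : WeierstrassCurve ℤ) [(ratCurve W).IsElliptic] :
    IsOpen ((curveRep 2 W).toHomUnits.ker : Set GQ) := by
  rw [show (curveRep 2 W).toHomUnits.ker = (curveRep 2 W).ker by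
    ext σ; simp [MonoidHom.mem_ker]]
  exact isOpen_ker_curveRep W

/-- **A rational point of order two** on every curve with good reduction outside `2`. -/
theorem good_outside_two_point (E : WeierstrassCurve ℚ) [E.IsElliptic]
    (hgood : ∀ q : ℕ, [Fact q.Prime] → q ≠ 2 →
      ∃ C : VariableChange ℚ_[q], HasGoodReduction ℤ_[q] (C • E.map (algebraMap ℚ ℚ_[q]))) :
    ∃ P : E.toAffine.Point, P ≠ 0 ∧ 2 • P = 0 := by
  classical
  obtain ⟨W, hW⟩ := FA.Frob.exists_integralModel E
  haveI := FA.Frob.ratCurve_isElliptic_of_Δ (FA.Frob.Δ_ne_zero_of_model hW)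
  obtain ⟨-, v, hv, hfix⟩ := tate_mod_two (curveRep 2 W).toHomUnits (isOpen_ker_toHomUnits W)
    (curveRep_two_outside E hgood hW)
  obtain ⟨x, rfl⟩ := (torsBasis (p := 2) W).equivFun.surjective v
  obtain ⟨e, he⟩ := FA.Root.exists_equiv_of_model hW
  have hxσ : ∀ σ : GQ, σ • x = x := fun σ => (torsBasis (p := 2) W).equivFun.injective (by
    rw [← toMatrix_mulVec]; exact hfix σ)
  have h2 : 2 • e x.1 = 0 := by
    rw [← map_nsmul]
    exact (congrArg e ((natCast_zsmul x.1 2).symm.trans x.2)).trans (map_zero e)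
  have hne : e x.1 ≠ 0 := fun h => hv (by
    rw [show x = 0 from Subtype.ext (e.injective (h.trans (map_zero e).symm)), map_zero])
  have hσ : ∀ σ : GQ, Affine.Point.map σ.toAlgHom (e x.1) = e x.1 := fun σ => by
    rw [← he]
    exact congrArg e (congrArg Subtype.val (hxσ σ))
  have hneg : e x.1 = -e x.1 := eq_neg_of_add_eq_zero_left (by rw [← two_nsmul, h2])
  rcases hX : e x.1 with _ | ⟨X, Y, hXY⟩
  · exact absurd hX hne
  rw [hX] at hσ hneg
  obtain ⟨a, ha⟩ := FA.MW.mem_range_of_fixed (a := X) fun σ =>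
    (Affine.Point.some.inj ((Affine.Point.map_some (f := σ.toAlgHom) hXY).symm.trans (hσ σ))).1
  obtain ⟨b, hb⟩ := FA.MW.mem_range_of_fixed (a := Y) fun σ =>
    (Affine.Point.some.inj ((Affine.Point.map_some (f := σ.toAlgHom) hXY).symm.trans (hσ σ))).2
  subst ha hb
  rw [← eq_ratCast (algebraMap ℚ Qb) a, ← eq_ratCast (algebraMap ℚ Qb) b] at hXY
  have hab : E.toAffine.Nonsingular a b :=
    (E.toAffine.map_nonsingular (algebraMap ℚ Qb).injective a b).mp hXY
  refine ⟨.some a b hab, Affine.Point.some_ne_zero _, ?_⟩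
  rw [two_nsmul, add_eq_zero_iff_eq_neg, Affine.Point.neg_some]
  rw [Affine.Point.neg_some] at hneg
  have h : ((b : ℚ) : Qb) = (E.toAffine⁄Qb).negY (a : Qb) (b : Qb) :=
    (Affine.Point.some.inj hneg).2
  rw [Affine.Point.some.injEq]
  refine ⟨rfl, (algebraMap ℚ Qb).injective ?_⟩
  rw [← Affine.map_negY, eq_ratCast, eq_ratCast]
  exact h

/-- **`a_l` is even** at every odd prime on a curve with good reduction outside `2`. -/
theorem good_outside_two_even (E : WeierstrassCurve ℚ) [E.IsElliptic]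
    (hgood : ∀ q : ℕ, [Fact q.Prime] → q ≠ 2 →
      ∃ C : VariableChange ℚ_[q], HasGoodReduction ℤ_[q] (C • E.map (algebraMap ℚ ℚ_[q])))
    {l : ℕ} (hl : l.Prime) (hl2 : l ≠ 2) : Even (E.LFunction l) := by
  have := Fact.mk hl
  obtain ⟨W, hW, hd⟩ := FA.CM.Deuring.exists_model_not_dvd E (hgood l hl2)
  haveI := FA.Frob.ratCurve_isElliptic_of_Δ (FA.Frob.Δ_ne_zero_of_model hW)
  obtain ⟨A, hA⟩ := FA.Deform.exists_liesOverPrime hl
  obtain ⟨φ, hφ⟩ := FA.Deform.exists_isFrobeniusAt hl hA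
  have h := (tate_mod_two_charpoly (curveRep 2 W).toHomUnits (isOpen_ker_toHomUnits W)
    (curveRep_two_outside E hgood hW) φ).1
  rw [MonoidHom.coe_toHomUnits, trace_curveRep W hl hd hl2.symm hA hφ,
    ZMod.intCast_zmod_eq_zero_iff_dvd] at h
  rw [FA.Root.LFunction_apply_prime E W hW hl hd]
  exact even_iff_two_dvd.mpr (by exact_mod_cast h)

end FA.Summary

end
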