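import Fermat.Agent.SupportProblem.Main
import Fermat.Agent.LinearDependence.Independent
import Fermat.Agent.MordellWeil.Summary
import Fermat.Agent.Root.SummarySurjectiveLarge
import Fermat.Agent.Root.SummarySerreDichotomy

/-!
# The support problem for elliptic curves (Corrales-Rodrigáñez and Schoof)

If Galois induces every automorphism of `E[pⁿ]` for all large primes `p` and the order of a
rational point `Q` modulo `q` divides that of a point `P` of infinite order for almost all primes
`q`, then `a • Q = b • P` with `a ≠ 0`. The hypothesis holds if `j` has a pole, and for every curve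
with nonvanishing traces at inert primes of every quadratic field.
-/

set_option autoImplicit false
set_option linter.style.haveILetI false

noncomputable section

open WeierstrassCurve WeierstrassCurve.Affine FA.Frob
open scoped WeierstrassCurve.Affine

local notation "GQ" => AlgebraicClosure ℚ ≃ₐ[ℚ] AlgebraicClosure ℚ

namespace FA.Summary

/-- **The support problem**: if every automorphism of `E[pⁿ]` comes from Galois for all large
primes `p` and the order of `Q` divides that of the point `P` of infinite order modulo almost all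
primes, then a nonzero multiple of `Q` is a multiple of `P`. -/
theorem supportProblem (W : WeierstrassCurve ℤ) (hΔ : W.Δ ≠ 0)
    [inst : DecidableEq (AlgebraicClosure ℚ)]
    (hfull : ∃ M : ℕ, ∀ p : ℕ, p.Prime → M < p → ∀ (n : ℕ) (φ : Submodule.torsionBy ℤ
          ((W.map (Int.castRingHom ℚ)).toAffine⁄(AlgebraicClosure ℚ)).Point ((p : ℤ) ^ n) ≃+
        Submodule.torsionBy ℤ
          ((W.map (Int.castRingHom ℚ)).toAffine⁄(AlgebraicClosure ℚ)).Point ((p : ℤ) ^ n)),
      ∃ σ : GQ, ∀ T, Affine.Point.map σ.toAlgHom T.1 = (φ T).1)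
    {x y x' y' : ℚ} (h : (W.map (Int.castRingHom ℚ)).toAffine.Nonsingular x y)
    (h' : (W.map (Int.castRingHom ℚ)).toAffine.Nonsingular x' y')
    (hP : ¬ IsOfFinAddOrder (Affine.Point.some x y h))
    (hmem : {q : ℕ | q.Prime ∧ ¬ ∃ _ : Fact q.Prime,
      ∃ k : (W.map (Int.castRingHom (ZMod q))).toAffine.Nonsingular (x : ZMod q) y,
      ∃ k' : (W.map (Int.castRingHom (ZMod q))).toAffine.Nonsingular (x' : ZMod q) y',
      addOrderOf (Affine.Point.some (x' : ZMod q) (y' : ZMod q) k') ∣
        addOrderOf (Affine.Point.some (x : ZMod q) (y : ZMod q) k)}.Finite) :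
    ∃ a b : ℤ, a ≠ 0 ∧ a • Affine.Point.some x' y' h' = b • Affine.Point.some x y h := by
  obtain rfl : inst = instDecEqAlgebraicClosureRat := Subsingleton.elim _ _
  haveI : (W.map (Int.castRingHom ℚ)).IsElliptic := ratCurve_isElliptic_of_Δ hΔ
  haveI : (ratCurve W).IsElliptic := ratCurve_isElliptic_of_Δ hΔ
  obtain ⟨M, hM⟩ := hfull
  haveI := FA.MordellWeil.mordell (W.map (Int.castRingHom ℚ))
  by_contra hne
  push Not at hne
  obtain ⟨M', hM'⟩ := FA.LinearDependence.exists_bound_independent hP hne
  obtain ⟨p, hp₀, hp⟩ := Nat.exists_infinite_primes (M + M' + 3)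
  haveI := Fact.mk hp
  exact FA.SupportProblem.infinite_not_dvd_addOrderOf (W := W) (p := p) (by omega)
    (hM p hp (by omega) 1) (hM p hp (by omega) 2) h h' (hM' p hp (by omega)) hmem

/-- **If `j` has a pole**: the order of `Q` modulo almost all primes cannot divide that of a point
`P` of infinite order unless they are linearly dependent. -/
theorem supportProblem_of_pole (W : WeierstrassCurve ℤ)
    [(W.map (Int.castRingHom ℚ)).IsElliptic]
    (hj : ∃ q : ℕ, q.Prime ∧ padicValRat q (W.map (Int.castRingHom ℚ)).j < 0)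
    {x y x' y' : ℚ} (h : (W.map (Int.castRingHom ℚ)).toAffine.Nonsingular x y)
    (h' : (W.map (Int.castRingHom ℚ)).toAffine.Nonsingular x' y')
    (hP : ¬ IsOfFinAddOrder (Affine.Point.some x y h))
    (hmem : {q : ℕ | q.Prime ∧ ¬ ∃ _ : Fact q.Prime,
      ∃ k : (W.map (Int.castRingHom (ZMod q))).toAffine.Nonsingular (x : ZMod q) y,
      ∃ k' : (W.map (Int.castRingHom (ZMod q))).toAffine.Nonsingular (x' : ZMod q) y',
      addOrderOf (Affine.Point.some (x' : ZMod q) (y' : ZMod q) k') ∣
        addOrderOf (Affine.Point.some (x : ZMod q) (y : ZMod q) k)}.Finite) :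
    ∃ a b : ℤ, a ≠ 0 ∧ a • Affine.Point.some x' y' h' = b • Affine.Point.some x y h :=
  supportProblem W
    (fun h0 => (W.map (Int.castRingHom ℚ)).isUnit_Δ.ne_zero (by simp [h0]))
    (galoisSurjectiveTorsion_pow_large _ hj) h h' hP hmem

/-- **Whatever the invariant**: the same holds if every quadratic field has an inert prime of good
reduction with nonzero trace (equivalently, the adelic image is open:
`serreOpenImage_adelic_iff`). -/
theorem supportProblem_of_traces (W : WeierstrassCurve ℤ)
    [(W.map (Int.castRingHom ℚ)).IsElliptic]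
    (htr : ∀ d : ℤ, Squarefree d → d ≠ 1 → ∃ (l : ℕ) (_ : Fact l.Prime),
      (∃ C : VariableChange ℚ_[l], HasGoodReduction ℤ_[l]
        (C • (W.map (Int.castRingHom ℚ)).map (algebraMap ℚ ℚ_[l]))) ∧
      ¬ IsSquare (d : ZMod l) ∧ (W.map (Int.castRingHom ℚ)).LFunction l ≠ 0)
    {x y x' y' : ℚ} (h : (W.map (Int.castRingHom ℚ)).toAffine.Nonsingular x y)
    (h' : (W.map (Int.castRingHom ℚ)).toAffine.Nonsingular x' y')
    (hP : ¬ IsOfFinAddOrder (Affine.Point.some x y h))
    (hmem : {q : ℕ | q.Prime ∧ ¬ ∃ _ : Fact q.Prime,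
      ∃ k : (W.map (Int.castRingHom (ZMod q))).toAffine.Nonsingular (x : ZMod q) y,
      ∃ k' : (W.map (Int.castRingHom (ZMod q))).toAffine.Nonsingular (x' : ZMod q) y',
      addOrderOf (Affine.Point.some (x' : ZMod q) (y' : ZMod q) k') ∣
        addOrderOf (Affine.Point.some (x : ZMod q) (y : ZMod q) k)}.Finite) :
    ∃ a b : ℤ, a ≠ 0 ∧ a • Affine.Point.some x' y' h' = b • Affine.Point.some x y h :=
  supportProblem W
    (fun h0 => (W.map (Int.castRingHom ℚ)).isUnit_Δ.ne_zero (by simp [h0]))
    (galoisSurjectiveTorsion_large_of_traces _ htr) h h' hP hmem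

/-- **Independent points**: if `j` has a pole and `P`, `Q` satisfy no linear relation, then the
order of `Q` does not divide that of `P` modulo infinitely many primes. -/
theorem infinite_not_order_dvd_of_independent (W : WeierstrassCurve ℤ)
    [(W.map (Int.castRingHom ℚ)).IsElliptic]
    (hj : ∃ q : ℕ, q.Prime ∧ padicValRat q (W.map (Int.castRingHom ℚ)).j < 0)
    {x y x' y' : ℚ} (h : (W.map (Int.castRingHom ℚ)).toAffine.Nonsingular x y)
    (h' : (W.map (Int.castRingHom ℚ)).toAffine.Nonsingular x' y')
    (hind : ∀ a b : ℤ,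
      a • Affine.Point.some x y h + b • Affine.Point.some x' y' h' = 0 → a = 0 ∧ b = 0) :
    {q : ℕ | q.Prime ∧ ¬ ∃ _ : Fact q.Prime,
      ∃ k : (W.map (Int.castRingHom (ZMod q))).toAffine.Nonsingular (x : ZMod q) y,
      ∃ k' : (W.map (Int.castRingHom (ZMod q))).toAffine.Nonsingular (x' : ZMod q) y',
      addOrderOf (Affine.Point.some (x' : ZMod q) (y' : ZMod q) k') ∣
        addOrderOf (Affine.Point.some (x : ZMod q) (y : ZMod q) k)}.Infinite := by
  intro hfin
  have hP : ¬ IsOfFinAddOrder (Affine.Point.some x y h) := fun hf => by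
    obtain ⟨n, hn, hn0⟩ := isOfFinAddOrder_iff_nsmul_eq_zero.mp hf
    have := (hind n 0 (by rw [natCast_zsmul, hn0, zero_zsmul, add_zero])).1
    omega
  obtain ⟨a, b, ha, e⟩ := supportProblem_of_pole W hj h h' hP hfin
  exact ha (hind (-b) a (by rw [e, neg_zsmul, neg_add_cancel])).2

end FA.Summary

end
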