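import Fermat.Agent.SupportProblem.Homothety
import Fermat.Agent.SupportProblem.Irreducible
import Fermat.Agent.Root.SummaryLinearDependenceAll
import Fermat.Agent.Root.SummarySupportProblem

/-!
# The support problem for every elliptic curve over `ℚ`

At all large primes `p` some element of Galois is multiplication by `1 + p` on `E[p²]`: with every
automorphism induced this is clear, and on an exceptional curve it comes from an element congruent
to one in the Cartan subgroup. Changed to fix a `p`-th part of `P` and none of `Q` it shows, by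
Chebotarev, that the order of `Q` does not divide that of `P` modulo infinitely many primes.
-/

set_option autoImplicit false
set_option linter.style.haveILetI false
set_option linter.unusedSectionVars false

noncomputable section

open Matrix WeierstrassCurve WeierstrassCurve.Affine FA.Frob FA.RT FA.PointDiv
open scoped WeierstrassCurve.Affine

local notation "Qb" => AlgebraicClosure ℚ
local notation "GQ" => AlgebraicClosure ℚ ≃ₐ[ℚ] AlgebraicClosure ℚ

namespace FA.Summary

/-- **Multiplication by `1 + p` on `E[p²]` comes from Galois**, for every elliptic curve over `ℚ`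
and every large prime `p`, with or without complex multiplication. -/
theorem homothety_sq_all (E : WeierstrassCurve ℚ) [E.IsElliptic]
    [inst : DecidableEq (AlgebraicClosure ℚ)] :
    ∃ M : ℕ, ∀ p : ℕ, p.Prime → M < p →
      ∃ σ : AlgebraicClosure ℚ ≃ₐ[ℚ] AlgebraicClosure ℚ,
        ∀ T : Submodule.torsionBy ℤ (E.toAffine⁄(AlgebraicClosure ℚ)).Point ((p : ℤ) ^ 2),
          Affine.Point.map σ.toAlgHom T.1 = (1 + (p : ℤ)) • T.1 := by
  obtain rfl : inst = instDecEqAlgebraicClosureRat := Subsingleton.elim _ _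
  rcases galoisSurjectiveTorsion_large_or_dihedral E with ⟨M, hM⟩ | ⟨d, hd, hd1, h⟩
  · refine ⟨M, fun p hp hlt => ?_⟩
    set T₂ := Submodule.torsionBy ℤ (E.toAffine⁄Qb).Point ((p : ℤ) ^ 2)
    have hT₂ : ∀ z : T₂, ((p : ℤ) ^ 2) • z = 0 := fun z =>
      Subtype.ext ((Submodule.mem_torsionBy_iff _ _).mp z.2)
    let φ : T₂ ≃+ T₂ :=
      { toFun := fun z => (1 + (p : ℤ)) • z
        invFun := fun z => (1 - (p : ℤ)) • z
        left_inv := fun z => by
          show (1 - (p : ℤ)) • ((1 + (p : ℤ)) • z) = z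
          rw [← mul_smul, show (1 - (p : ℤ)) * (1 + p) = 1 - (p : ℤ) ^ 2 by ring, sub_smul, hT₂,
            one_smul, sub_zero]
        right_inv := fun z => by
          show (1 + (p : ℤ)) • ((1 - (p : ℤ)) • z) = z
          rw [← mul_smul, show (1 + (p : ℤ)) * (1 - p) = 1 - (p : ℤ) ^ 2 by ring, sub_smul, hT₂,
            one_smul, sub_zero]
        map_add' := fun z w => smul_add _ z w }
    obtain ⟨σ, hσ⟩ := hM p hp hlt 2 φ
    exact ⟨σ, fun T => hσ T⟩
  · obtain ⟨W, hW⟩ := exists_integralModel E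
    have hΔ := Δ_ne_zero_of_model hW
    haveI := ratCurve_isElliptic_of_Δ hΔ
    obtain ⟨M, hM⟩ := noStableSubgroup_large E
    obtain ⟨s, H, hs, hH, hopen, hfix⟩ := FA.OpenImageAll.exists_index_two_of_sqrt hd hd1
    obtain ⟨e, he⟩ := FA.Root.exists_equiv_of_model hW
    refine ⟨max M (max 2 (max W.Δ.natAbs d.natAbs)), fun p hp hlt => ?_⟩
    simp only [max_lt_iff] at hlt
    obtain ⟨hpM, hp2, hpΔ, hpd⟩ := hlt
    haveI := Fact.mk hp
    have hgood : W.IsGoodPrimeFor p := fun hdvd => absurd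
      (Nat.le_of_dvd (Int.natAbs_pos.mpr hΔ) (Int.natCast_dvd.mp hdvd)) (by omega)
    have hnd : ¬ (p : ℤ) ∣ d := fun hdvd => absurd
      (Nat.le_of_dvd (Int.natAbs_pos.mpr hd.ne_zero) (Int.natCast_dvd.mp hdvd)) (by omega)
    have hE := FA.CMStructure.isExceptional_of_curve hW hd hd1 h
    obtain ⟨Y, hYY, hY⟩ := FA.CMStructure.exists_cartan (p := p) hE
      (FA.Root.Irred.modRepIsIrreducible_of_noStableSubgroup hW (hM p hp hpM)) hs
    obtain ⟨σ, hσ⟩ := FA.SupportProblem.exists_smul_eq_one_add_prime (by omega) hgood hE hnd hs hH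
      hopen hfix hYY hY
    refine ⟨σ, fun T => ?_⟩
    obtain ⟨Q, hQ⟩ := e.surjective T.1
    have h0 := (Submodule.mem_torsionBy_iff _ _).mp T.2
    rw [← hQ, ← map_zsmul, AddEquiv.map_eq_zero_iff, ← Nat.cast_pow, natCast_zsmul] at h0
    rw [← hQ, ← he, hσ Q h0, map_zsmul]

end FA.Summary

namespace FA.SupportProblem

open scoped Classical

/-- **Some element of Galois as in `fixed_triple_of_act`**, at every large prime modulo which the
two points are independent. -/
theorem exists_bound_fixed_triple (W : WeierstrassCurve ℤ) [(ratCurve W).IsElliptic] :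
    ∃ M : ℕ, ∀ (p : ℕ) [Fact p.Prime], M < p → ∀ P Q : (ratCurve W).toAffine.Point,
      (∀ a b : ℤ, ¬ ((p : ℤ) ∣ a ∧ (p : ℤ) ∣ b) → ∀ R, p • R ≠ a • P + b • Q) →
      ∃ σ : GQ, (∃ X, fibHom W p P σ X = X) ∧ (∀ X, fibHom W p Q σ X ≠ X) ∧
        ∀ T, fibHom W (p ^ 2) 0 σ T = T → p • T.1 = 0 := by
  obtain ⟨M₁, hM₁⟩ := FA.LinearDependence.exists_bound_irreducible_scalar W
  obtain ⟨M₂, hM₂⟩ := FA.Summary.homothety_sq_all (ratCurve W)
    (inst := instDecEqAlgebraicClosureRat)
  refine ⟨max 2 (max M₁ M₂), fun p hp hlt P Q hind => ?_⟩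
  simp only [max_lt_iff] at hlt
  obtain ⟨hp2, hlt₁, hlt₂⟩ := hlt
  obtain ⟨hirr, hneg, hsc⟩ := hM₁ p hlt₁
  obtain ⟨σ₀, hσ₀⟩ := hM₂ p hp.out hlt₂
  obtain ⟨Q₁, hQ₁⟩ := exists_div W hp.out.ne_zero (up W P)
  obtain ⟨Q₂, hQ₂⟩ := exists_div W hp.out.ne_zero (up W Q)
  obtain ⟨c⟩ := FA.Bashmakov.exists_torsion_coord (ratCurve W) p 1
  obtain ⟨t, ht⟩ : ∃ t : Submodule.torsionBy ℤ ((ratCurve W).toAffine⁄Qb).Point ((p : ℤ) ^ 1),
      t.1 ≠ 0 := ⟨c ![1, 0], fun h => by
    haveI : Fact (1 < p ^ 1) := ⟨by rw [pow_one]; exact hp.out.one_lt⟩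
    exact one_ne_zero (congrFun (c.injective ((Subtype.ext h).trans (map_zero c).symm)) 0)⟩
  obtain ⟨h₁, h₂, hind₁, hind₂⟩ := FA.LinearDependence.independent_up hind hQ₁ hQ₂
  obtain ⟨σ, hσ, hσ₁, hσ₂⟩ := exists_act_sq_pair (FA.Bashmakov.pointAct (ratCurve W))
    (hp.out.odd_of_ne_two (by omega)) hirr hneg hsc h₁ h₂ hind₁ hind₂ σ₀ (zero_mem _) t.2
  rw [add_zero] at hσ₁
  refine fixed_triple_of_act hQ₁ hQ₂ ht hσ₁ hσ₂ fun X hX => ?_
  have hX' : X ∈ FA.Bashmakov.pTors ((ratCurve W).toAffine⁄Qb).Point p 2 :=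
    FA.Bashmakov.mem_pTors_iff.mpr hX
  exact (hσ X hX').trans (hσ₀ ⟨X, hX'⟩)

end FA.SupportProblem

namespace FA.Summary

/-- **The support problem for every elliptic curve over `ℚ`** (Corrales-Rodrigáñez and Schoof): if
the order of `Q` divides that of the point `P` of infinite order modulo almost all primes, then a
nonzero multiple of `Q` is a multiple of `P`. -/
theorem supportProblem_all (W : WeierstrassCurve ℤ)
    [(W.map (Int.castRingHom ℚ)).IsElliptic]
    {x y x' y' : ℚ} (h : (W.map (Int.castRingHom ℚ)).toAffine.Nonsingular x y)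
    (h' : (W.map (Int.castRingHom ℚ)).toAffine.Nonsingular x' y')
    (hP : ¬ IsOfFinAddOrder (Affine.Point.some x y h))
    (hmem : {q : ℕ | q.Prime ∧ ¬ ∃ _ : Fact q.Prime,
      ∃ k : (W.map (Int.castRingHom (ZMod q))).toAffine.Nonsingular (x : ZMod q) y,
      ∃ k' : (W.map (Int.castRingHom (ZMod q))).toAffine.Nonsingular (x' : ZMod q) y',
      addOrderOf (Affine.Point.some (x' : ZMod q) (y' : ZMod q) k') ∣
        addOrderOf (Affine.Point.some (x : ZMod q) (y : ZMod q) k)}.Finite) :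
    ∃ a b : ℤ, a ≠ 0 ∧ a • Affine.Point.some x' y' h' = b • Affine.Point.some x y h := by
  haveI : (ratCurve W).IsElliptic := ‹(W.map (Int.castRingHom ℚ)).IsElliptic›
  obtain ⟨M, hM⟩ := FA.SupportProblem.exists_bound_fixed_triple W
  haveI := FA.MordellWeil.mordell (W.map (Int.castRingHom ℚ))
  by_contra hne
  push Not at hne
  obtain ⟨M', hM'⟩ := FA.LinearDependence.exists_bound_independent hP hne
  obtain ⟨p, hp₀, hp⟩ := Nat.exists_infinite_primes (M + M' + 3)
  haveI := Fact.mk hp
  exact FA.SupportProblem.infinite_not_dvd_addOrderOf_of_fixed_triple (W := W) (p := p) h h'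
    (hM p (by omega) _ _ (hM' p hp (by omega))) hmem

/-- **Independent points, for every elliptic curve over `ℚ`**: if `P` and `Q` satisfy no linear
relation, then the order of `Q` does not divide that of `P` modulo infinitely many primes. -/
theorem infinite_not_order_dvd_of_independent_all (W : WeierstrassCurve ℤ)
    [(W.map (Int.castRingHom ℚ)).IsElliptic]
    {x y x' y' : ℚ} (h : (W.map (Int.castRingHom ℚ)).toAffine.Nonsingular x y)
    (h' : (W.map (Int.castRingHom ℚ)).toAffine.Nonsingular x' y')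
    (hind : ∀ a b : ℤ,
      a • Affine.Point.some x y h + b • Affine.Point.some x' y' h' = 0 → a = 0 ∧ b = 0) :
    {q : ℕ | q.Prime ∧ ¬ ∃ _ : Fact q.Prime,
      ∃ k : (W.map (Int.castRingHom (ZMod q))).toAffine.Nonsingular (x : ZMod q) y,
      ∃ k' : (W.map (Int.castRingHom (ZMod q))).toAffine.Nonsingular (x' : ZMod q) y',
      addOrderOf (Affine.Point.some (x' : ZMod q) (y' : ZMod q) k') ∣
        addOrderOf (Affine.Point.some (x : ZMod q) (y : ZMod q) k)}.Infinite := by
  intro hfin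
  have hP : ¬ IsOfFinAddOrder (Affine.Point.some x y h) := fun hf => by
    obtain ⟨n, hn, hn0⟩ := isOfFinAddOrder_iff_nsmul_eq_zero.mp hf
    have := (hind n 0 (by rw [natCast_zsmul, hn0, zero_zsmul, add_zero])).1
    omega
  obtain ⟨a, b, ha, e⟩ := supportProblem_all W h h' hP hfin
  exact ha (hind (-b) a (by rw [e, neg_zsmul, neg_add_cancel])).2

end FA.Summary

end
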