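import Fermat.Agent.OrderDensity.Prescribed
import Fermat.Agent.Root.SummarySubgroupDetectionAll
import Fermat.Agent.Root.SummarySupportProblemAll

/-!
# Prescribed `p`-parts of the orders of points modulo primes, for every elliptic curve over `ℚ`

For independent rational points, every large prime `p` and every choice of exponents `k i`, the
orders of the points modulo infinitely many primes `q` are divisible by exactly `p ^ k i` (Pink,
Barańczuk): a power of the homothety `1 + p` is `1 + pⁿ` on `E[pⁿ⁺¹]`, and it can be combined with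
any translations of the `pⁿ⁺¹`-th parts of the points.
-/

set_option autoImplicit false
set_option linter.style.haveILetI false

noncomputable section

open WeierstrassCurve WeierstrassCurve.Affine FA.Frob FA.PointDiv
open scoped WeierstrassCurve.Affine

local notation "Qb" => AlgebraicClosure ℚ
local notation "GQ" => AlgebraicClosure ℚ ≃ₐ[ℚ] AlgebraicClosure ℚ

namespace FA.OrderDensity

open FA.Bashmakov
open scoped Classical

/-- An element of exact order `p ^ (k + 1)` in `E[pⁿ⁺¹]`. -/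
theorem exists_torsion_exact (E : WeierstrassCurve ℚ) [E.IsElliptic] {p : ℕ} (hp : p.Prime)
    {n k : ℕ} (hk : k ≤ n) :
    ∃ s : pTors (E.toAffine⁄Qb).Point p (n + 1),
      p ^ (k + 1) • s = 0 ∧ p ^ k • s ≠ 0 := by
  haveI := Fact.mk hp
  obtain ⟨c⟩ := FA.Bashmakov.exists_torsion_coord E p (n + 1)
  have hz : ((p : ZMod (p ^ (n + 1))) ^ (n + 1)) = 0 := by rw [← Nat.cast_pow, ZMod.natCast_self]
  refine ⟨c ![(p : ZMod (p ^ (n + 1))) ^ (n - k), 0], ?_, fun h => ?_⟩
  · rw [← map_nsmul, Matrix.smul_cons, Matrix.smul_cons, Matrix.smul_empty, nsmul_zero,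
      nsmul_eq_mul, Nat.cast_pow, ← pow_add, show k + 1 + (n - k) = n + 1 by omega, hz]
    exact (congrArg c (by ext i; fin_cases i <;> rfl)).trans (map_zero c)
  · rw [← map_nsmul, Matrix.smul_cons, Matrix.smul_cons, Matrix.smul_empty, nsmul_zero,
      nsmul_eq_mul, Nat.cast_pow, ← pow_add, show k + (n - k) = n by omega,
      map_eq_zero_iff _ c.injective] at h
    have h0 : ((p ^ n : ℕ) : ZMod (p ^ (n + 1))) = 0 := by
      rw [Nat.cast_pow]; exact congrFun h 0
    rw [ZMod.natCast_eq_zero_iff] at h0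
    exact absurd ((Nat.pow_dvd_pow_iff_le_right hp.one_lt).mp h0) (by omega)

/-- **An element of Galois as in `infinite_pow_dvd_addOrderOf`**, at every large prime modulo which
the points are independent. -/
theorem exists_bound_prescribed (W : WeierstrassCurve ℤ) [(ratCurve W).IsElliptic]
    (ι : Type) [Fintype ι] :
    ∃ M : ℕ, ∀ (p : ℕ) [Fact p.Prime], M < p → ∀ (n : ℕ), 1 ≤ n →
      ∀ P : ι → (ratCurve W).toAffine.Point,
      (∀ a : ι → ℤ, (∃ i, ¬ (p : ℤ) ∣ a i) → ∀ R, p • R ≠ ∑ i, a i • P i) →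
      ∀ k : ι → ℕ, (∀ i, k i ≤ n) →
      ∃ σ : GQ, (∀ T, fibHom W (p ^ (n + 1)) 0 σ T = T ↔ p ^ n • T.1 = 0) ∧
        ∀ i, ∃ Q : Fib W (p ^ n) (P i),
          p ^ k i • (fibHom W (p ^ n) (P i) σ Q).1 = p ^ k i • Q.1 ∧
            ∀ j < k i, p ^ j • (fibHom W (p ^ n) (P i) σ Q).1 ≠ p ^ j • Q.1 := by
  obtain ⟨M₁, hM₁⟩ := FA.LinearDependence.exists_bound_translations_family W ι
  obtain ⟨M₂, hM₂⟩ := FA.Summary.homothety_sq_all (ratCurve W)
    (inst := instDecEqAlgebraicClosureRat)
  refine ⟨max 2 (max M₁ M₂), fun p hp hlt n hn P hind k hk => ?_⟩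
  simp only [max_lt_iff] at hlt
  obtain ⟨hp2, hlt₁, hlt₂⟩ := hlt
  set A := ((ratCurve W).toAffine⁄Qb).Point
  set act := pointAct (ratCurve W)
  obtain ⟨σ₀, hσ₀⟩ := hM₂ p hp.out hlt₂
  obtain ⟨τ, hτ⟩ := exists_act_one_add act (hp.out.odd_of_ne_two (by omega)) (σ := σ₀)
    (fun y hy => by
      refine (hσ₀ ⟨y, mem_pTors_iff.mpr hy⟩).trans ?_
      rw [add_zsmul, one_zsmul, natCast_zsmul]) hn
  choose Q' hQ' using fun i => exists_div W (pow_ne_zero (n + 1) hp.out.ne_zero) (up W (P i))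
  choose s hs hs' using fun i => exists_torsion_exact (ratCurve W) hp.out (hk i)
  have hfix : ∀ i (σ : GQ), act σ (p ^ (n + 1) • Q' i) = p ^ (n + 1) • Q' i := fun i σ => by
    rw [hQ' i]; exact smul_up W σ (P i)
  have hd : ∀ i, act τ (Q' i) - Q' i ∈ pTors A p (n + 1) := fun i => by
    rw [mem_pTors_iff, nsmul_sub, ← map_nsmul, hfix, sub_self]
  obtain ⟨g, hg, hgQ⟩ := hM₁ p hlt₁ (n + 1) P hind Q' hQ'
    fun i => ⟨_, act_mem_pTors act τ⁻¹ (sub_mem (s i).2 (hd i))⟩
  have hinv : ∀ y : A, act τ (act τ⁻¹ y) = y := fun y => by simpa using act_inv_act act τ⁻¹ y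
  have hσQ : ∀ i, act (τ * g) (Q' i) = Q' i + (s i).1 := fun i => by
    rw [act_mul, show act g (Q' i) = Q' i + act τ⁻¹ ((s i).1 - (act τ (Q' i) - Q' i)) from hgQ i,
      map_add, hinv]
    abel
  refine ⟨τ * g, fun T => ?_, fun i => ⟨⟨p • Q' i, ?_⟩, ?_, fun j hj e => hs' i ?_⟩⟩
  · have h0 : p ^ (n + 1) • T.1 = 0 := T.2.trans (map_zero (up W))
    have e : act (τ * g) T.1 = T.1 + p ^ n • T.1 := by
      rw [act_mul, show act g T.1 = T.1 from hg ⟨T.1, mem_pTors_iff.mpr h0⟩]
      exact hτ T.1 h0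
    rw [Subtype.ext_iff]
    show act (τ * g) T.1 = T.1 ↔ _
    rw [e, add_eq_left]
  · rw [← mul_nsmul', ← pow_succ]; exact hQ' i
  · show p ^ k i • act (τ * g) (p • Q' i) = p ^ k i • (p • Q' i)
    rw [map_nsmul, hσQ, nsmul_add, nsmul_add, ← mul_nsmul' (s i).1, ← pow_succ,
      show p ^ (k i + 1) • (s i).1 = 0 from congrArg Subtype.val (hs i), add_zero]
  · replace e : p ^ j • act (τ * g) (p • Q' i) = p ^ j • (p • Q' i) := e
    rw [map_nsmul, hσQ, nsmul_add, nsmul_add, add_eq_left, ← mul_nsmul', ← pow_succ] at e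
    refine Subtype.ext ?_
    show p ^ k i • (s i).1 = 0
    rw [← Nat.sub_add_cancel (show j + 1 ≤ k i by omega), pow_add, mul_nsmul', e, nsmul_zero]

end FA.OrderDensity

namespace FA.Summary

/-- **Prescribed `p`-parts of orders modulo primes, for every elliptic curve over `ℚ`**: for
independent rational points, every large prime `p` and all exponents `k i`, modulo infinitely many
primes the order of each point is divisible by exactly `p ^ k i`. -/
theorem orderPrimePart_prescribed_all (W : WeierstrassCurve ℤ)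
    [(W.map (Int.castRingHom ℚ)).IsElliptic]
    {ι : Type} [Finite ι] {x y : ι → ℚ}
    (h : ∀ i, (W.map (Int.castRingHom ℚ)).toAffine.Nonsingular (x i) (y i))
    (hind : LinearIndependent ℤ fun i => Affine.Point.some (x i) (y i) (h i)) :
    ∃ M : ℕ, ∀ p : ℕ, p.Prime → M < p → ∀ k : ι → ℕ,
      {q : ℕ | q.Prime ∧ ∃ _ : Fact q.Prime, ∀ i,
        ∃ k' : (W.map (Int.castRingHom (ZMod q))).toAffine.Nonsingular (x i : ZMod q) (y i),
        p ^ k i ∣ addOrderOf (Affine.Point.some (x i : ZMod q) (y i : ZMod q) k') ∧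
          ¬ p ^ (k i + 1) ∣
            addOrderOf (Affine.Point.some (x i : ZMod q) (y i : ZMod q) k')}.Infinite := by
  haveI : (ratCurve W).IsElliptic := ‹(W.map (Int.castRingHom ℚ)).IsElliptic›
  let _ : Fintype ι := Fintype.ofFinite ι
  haveI := FA.MordellWeil.mordell (W.map (Int.castRingHom ℚ))
  obtain ⟨M, hM⟩ := FA.OrderDensity.exists_bound_prescribed W ι
  obtain ⟨B, hB⟩ := FA.LinearDependence.exists_bound_independent_family hind
  refine ⟨max M B, fun p hp hlt k => ?_⟩
  rw [max_lt_iff] at hlt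
  haveI := Fact.mk hp
  exact FA.OrderDensity.infinite_pow_dvd_addOrderOf h (n := ∑ i, k i + 1)
    (hM p hlt.1 _ (by omega) _ (hB p hp hlt.2) k fun i => (Finset.single_le_sum
      (f := k) (fun j _ => Nat.zero_le _) (Finset.mem_univ i)).trans (Nat.le_succ _))

/-- **Every power of a large prime occurs exactly in the order of a point of infinite order**
modulo infinitely many primes. -/
theorem orderPrimePart_all (W : WeierstrassCurve ℤ) [(W.map (Int.castRingHom ℚ)).IsElliptic]
    {x y : ℚ} (h : (W.map (Int.castRingHom ℚ)).toAffine.Nonsingular x y)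
    (hP : ¬ IsOfFinAddOrder (Affine.Point.some x y h)) :
    ∃ M : ℕ, ∀ p : ℕ, p.Prime → M < p → ∀ k : ℕ,
      {q : ℕ | q.Prime ∧ ∃ _ : Fact q.Prime,
        ∃ k' : (W.map (Int.castRingHom (ZMod q))).toAffine.Nonsingular (x : ZMod q) y,
        p ^ k ∣ addOrderOf (Affine.Point.some (x : ZMod q) (y : ZMod q) k') ∧
          ¬ p ^ (k + 1) ∣
            addOrderOf (Affine.Point.some (x : ZMod q) (y : ZMod q) k')}.Infinite := by
  have hind : LinearIndependent ℤ fun _ : Unit => Affine.Point.some x y h :=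
    Fintype.linearIndependent_iff.mpr fun c hc i => by
      by_contra hci
      refine hP ?_
      rw [isOfFinAddOrder_iff_zsmul_eq_zero]
      exact ⟨c i, hci, by simpa using hc⟩
  obtain ⟨M, hM⟩ := orderPrimePart_prescribed_all W (ι := Unit) (x := fun _ => x) (y := fun _ => y)
    (fun _ => h) hind
  refine ⟨M, fun p hp hlt k => (hM p hp hlt fun _ => k).mono ?_⟩
  rintro q ⟨hq, inst', hall⟩
  exact ⟨hq, inst', hall ()⟩

end FA.Summary

end
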