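import Fermat.Agent.Tau.SupersingularFunctions

/-!
# Weight `p + 1` modulo `p` and the supersingular invariants

Serre: the forms of weight `p + 1` modulo `p` are the functions `g` on the supersingular invariants
with `g (j ^ p) = g (j) ^ p`, the operator `U` is composition with `j ↦ j ^ p`, and its trace is the
number of supersingular invariants in `𝔽_p`.
-/

set_option autoImplicit false

noncomputable section

open UpperHalfPlane
open scoped MatrixGroups Classical

namespace FA.Summary

/-- **Serre: weight `p + 1` and functions on the supersingular invariants.** With `S` the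
supersingular invariants: the forms modulo `p` of weight `p + 1` make up a space `M` of dimension
`#S`, isomorphic to the functions `g` on `S` with `g (j ^ p) = g (j) ^ p`; `U` becomes composition
with `j ↦ j ^ p` and has trace `#{j ∈ S | j ^ p = j}`. -/
theorem weight_succ_supersingular (p : ℕ) [Fact p.Prime] (h5 : 5 ≤ p) :
    let S : Set (AlgebraicClosure (ZMod p)) :=
      {j | ∃ (W : WeierstrassCurve (AlgebraicClosure (ZMod p))) (_ : W.IsElliptic),
        W.j = j ∧ ∀ P : W.toAffine.Point, p • P = 0 → P = 0}
    ∃ M : Submodule (ZMod p) (PowerSeries (ZMod p)),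
      (M : Set (PowerSeries (ZMod p))) = {f | ∃ (G : ModularForm 𝒮ℒ ((p + 1 : ℕ) : ℤ))
        (T : PowerSeries ℤ), qExpansion 1 ⇑G = T.map (Int.castRingHom ℂ) ∧
          T.map (Int.castRingHom (ZMod p)) = f} ∧
      Module.finrank (ZMod p) M = S.ncard ∧
      ∃ (U : M →ₗ[ZMod p] M) (e : M →ₗ[ZMod p] (S → AlgebraicClosure (ZMod p))),
        (∀ f : M, (U f : PowerSeries (ZMod p)) =
          PowerSeries.mk fun n => PowerSeries.coeff (n * p) (f : PowerSeries (ZMod p))) ∧
        Function.Injective e ∧
        (∀ g, (∃ f, e f = g) ↔ ∀ j j' : S, j'.1 = j.1 ^ p → g j' = g j ^ p) ∧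
        (∀ (f : M) (j j' : S), j'.1 = j.1 ^ p → e (U f) j = e f j') ∧
        LinearMap.trace (ZMod p) M U = ({j | j ∈ S ∧ j ^ p = j}.ncard : ZMod p) := by
  open FA.SupersingularPoints in
  intro S
  have hS : zeroSet p = S := (zeroSet_eq h5).1
  exact ⟨formSpace p, Set.ext (mem_formSpace h5), finrank_formSpace h5, uForms h5,
    toFunctions h5 hS, fun f => rfl, (toFunctions_spec h5 hS).1, (toFunctions_spec h5 hS).2,
    toFunctions_uForms h5 hS, trace_uForms h5⟩

end FA.Summary

end
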