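import Fermat.Agent.Tau.OggPrimes
import Fermat.Agent.Root.SummarySupersingularFunctions

/-!
# Ogg's primes

All supersingular invariants in characteristic `p` lie in `𝔽_p` iff `p` is one of Ogg's primes,
those dividing the order of the Monster; for `p ≥ 5` iff `U` is the identity on forms of weight
`p + 1` modulo `p`; in general the eigenspaces of `U` have dimensions `(#S ± #S(𝔽_p)) / 2`.
-/

set_option autoImplicit false
set_option linter.style.haveILetI false

noncomputable section

open UpperHalfPlane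
open scoped MatrixGroups Classical

namespace FA.Summary

variable (p : ℕ) [Fact p.Prime]

/-- **Ogg's theorem**: every supersingular invariant is in `𝔽_p` exactly for Ogg's primes. -/
theorem ogg_supersingular_rational :
    (∀ j : AlgebraicClosure (ZMod p), (∃ (W : WeierstrassCurve (AlgebraicClosure (ZMod p)))
        (_ : W.IsElliptic), W.j = j ∧ ∀ P : W.toAffine.Point, p • P = 0 → P = 0) → j ^ p = j) ↔
      p ∈ ({2, 3, 5, 7, 11, 13, 17, 19, 23, 29, 31, 41, 47, 59, 71} : Finset ℕ) := by
  have hp : p.Prime := Fact.out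
  by_cases h5 : 5 ≤ p
  · refine Iff.trans (FA.SupersingularPoints.all_fixed_iff h5) ?_
    simp only [List.mem_cons, List.not_mem_nil, or_false, Finset.mem_insert, Finset.mem_singleton]
    omega
  · have h23 : p = 2 ∨ p = 3 := by
      have := hp.two_le
      rcases (by omega : p = 2 ∨ p = 3 ∨ p = 4) with h | h | h
      · exact Or.inl h
      · exact Or.inr h
      · subst h; norm_num at hp
    refine iff_of_true (fun j hj => ?_) (by rcases h23 with rfl | rfl <;> simp)
    obtain ⟨W, _, rfl, hss⟩ := hj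
    rw [FA.SupersingularPoints.j_eq_zero_of_small h23 W hss, zero_pow hp.ne_zero]

/-- **The eigenspaces of `U` in weight `p + 1`**: the forms fixed and negated by `U` make up spaces
of dimension half the sum and half the difference of `#S` and `#S(𝔽_p)`. -/
theorem weight_succ_eigenspaces (h5 : 5 ≤ p) :
    let S : Set (AlgebraicClosure (ZMod p)) :=
      {j | ∃ (W : WeierstrassCurve (AlgebraicClosure (ZMod p))) (_ : W.IsElliptic),
        W.j = j ∧ ∀ P : W.toAffine.Point, p • P = 0 → P = 0}
    ∀ ε : ZMod p, ε = 1 ∨ ε = -1 → ∃ V : Submodule (ZMod p) (PowerSeries (ZMod p)),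
      (V : Set (PowerSeries (ZMod p))) = {f | (∃ (G : ModularForm 𝒮ℒ ((p + 1 : ℕ) : ℤ))
        (T : PowerSeries ℤ), qExpansion 1 ⇑G = T.map (Int.castRingHom ℂ) ∧
          T.map (Int.castRingHom (ZMod p)) = f) ∧
        ∀ n, PowerSeries.coeff (n * p) f = ε * PowerSeries.coeff n f} ∧
      (2 * Module.finrank (ZMod p) V : ℤ) = (S.ncard : ℤ) +
        if ε = 1 then ({j | j ∈ S ∧ j ^ p = j}.ncard : ℤ)
          else -({j | j ∈ S ∧ j ^ p = j}.ncard : ℤ) := by
  dsimp only
  intro ε hε
  obtain ⟨M, hM, hrank, U, e, hU, -, -, -, htr⟩ := weight_succ_supersingular p h5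
  have hmem : ∀ f, f ∈ M ↔ FA.SwinnertonDyer.IsFormModP p (p + 1) f := fun f =>
    Set.ext_iff.1 hM f
  have h2 : ∀ f, U (U f) = f := fun f => Subtype.ext (by
    rw [hU, hU]
    exact FA.SwinnertonDyer.uOp_uOp h5 ((hmem _).1 f.2))
  haveI := FA.SupersingularPoints.finite_of_forms h5 fun f hf => (hmem f).1 hf
  obtain ⟨hV, hW⟩ := FA.SupersingularPoints.involution_eigenspaces U h2 htr
    (hrank ▸ FA.SupersingularPoints.ncard_fixed_le h5)
    (hrank ▸ FA.SupersingularPoints.two_mul_ncard_lt h5)
  rw [hrank] at hV hW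
  refine ⟨(LinearMap.ker (U - ε • LinearMap.id)).map M.subtype, ?_, ?_⟩
  · ext f
    simp only [SetLike.mem_coe, Submodule.mem_map, LinearMap.mem_ker, Submodule.coe_subtype,
      Set.mem_ofPred_eq, LinearMap.sub_apply, LinearMap.smul_apply, LinearMap.id_apply,
      sub_eq_zero, Subtype.ext_iff, Submodule.coe_smul, hU]
    constructor
    · rintro ⟨g, hg, rfl⟩
      exact ⟨(hmem _).1 g.2, fun n => by simpa using congrArg (PowerSeries.coeff n) hg⟩
    · rintro ⟨hf, hn⟩
      exact ⟨⟨f, (hmem _).2 hf⟩, by ext n; simpa using hn n, rfl⟩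
  · rw [Submodule.finrank_map_subtype_eq]
    rcases hε with rfl | rfl
    · rw [one_smul, if_pos rfl]
      exact_mod_cast hV
    · have hne : (-1 : ZMod p) ≠ 1 := fun h => by
        haveI : Fact (2 < p) := ⟨by omega⟩
        exact ZMod.neg_one_ne_one h
      rw [neg_one_smul, sub_neg_eq_add, if_neg hne]
      omega

/-- **Ogg's primes and `U`**: `a (p n) ≡ a n (mod p)` for all forms of weight `p + 1` exactly for
Ogg's primes. -/
theorem ogg_primes_uOperator (h5 : 5 ≤ p) :
    (∀ (F : ModularForm 𝒮ℒ ((p + 1 : ℕ) : ℤ)) (S : PowerSeries ℤ),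
      qExpansion 1 ⇑F = S.map (Int.castRingHom ℂ) →
        ∀ n, (p : ℤ) ∣ PowerSeries.coeff (p * n) S - PowerSeries.coeff n S) ↔
      p ∈ ({5, 7, 11, 13, 17, 19, 23, 29, 31, 41, 47, 59, 71} : Finset ℕ) := by
  rw [show p ∈ ({5, 7, 11, 13, 17, 19, 23, 29, 31, 41, 47, 59, 71} : Finset ℕ) ↔
      p ∈ ({2, 3, 5, 7, 11, 13, 17, 19, 23, 29, 31, 41, 47, 59, 71} : Finset ℕ) by
    simp only [Finset.mem_insert, Finset.mem_singleton]; omega, ← ogg_supersingular_rational p]
  obtain ⟨V, hV, hdim⟩ := weight_succ_eigenspaces p h5 1 (Or.inl rfl)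
  obtain ⟨M, hM, hrank, -⟩ := weight_succ_supersingular p h5
  rw [if_pos rfl] at hdim
  change (2 * Module.finrank (ZMod p) V : ℤ) =
    ((FA.SupersingularCount.ssInvariants (AlgebraicClosure (ZMod p)) p).ncard : ℤ) +
      ({j | j ∈ FA.SupersingularCount.ssInvariants (AlgebraicClosure (ZMod p)) p ∧
        j ^ p = j}.ncard : ℤ) at hdim
  change Module.finrank (ZMod p) M =
    (FA.SupersingularCount.ssInvariants (AlgebraicClosure (ZMod p)) p).ncard at hrank
  have hVM : V ≤ M := fun f hf => by
    rw [← SetLike.mem_coe, hM]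
    rw [← SetLike.mem_coe, hV] at hf
    exact hf.1
  have hcong : ∀ {S : PowerSeries ℤ} {n : ℕ},
      ((p : ℤ) ∣ PowerSeries.coeff (p * n) S - PowerSeries.coeff n S) ↔
        PowerSeries.coeff (n * p) (S.map (Int.castRingHom (ZMod p))) =
          1 * PowerSeries.coeff n (S.map (Int.castRingHom (ZMod p))) := fun {S n} => by
    rw [← ZMod.intCast_zmod_eq_zero_iff_dvd, Int.cast_sub, sub_eq_zero, one_mul, mul_comm n,
      PowerSeries.coeff_map, PowerSeries.coeff_map, eq_intCast, eq_intCast]
  refine Iff.trans ?_ (FA.SupersingularPoints.all_fixed_iff_ncard h5).symm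
  haveI := FA.SupersingularPoints.finite_of_forms h5 (M := M) fun f hf =>
    (Set.ext_iff.1 hM f).1 hf
  constructor
  · intro h
    have e : M = V := le_antisymm (fun f hf => by
      rw [← SetLike.mem_coe, hM] at hf
      obtain ⟨G, T, hG, rfl⟩ := hf
      rw [← SetLike.mem_coe, hV]
      exact ⟨⟨G, T, hG, rfl⟩, fun n => hcong.1 (h G T hG n)⟩) hVM
    rw [← e, hrank] at hdim
    change Set.ncard {j | j ∈ FA.SupersingularCount.ssInvariants (AlgebraicClosure (ZMod p)) p ∧
      j ^ p = j} = (FA.SupersingularCount.ssInvariants (AlgebraicClosure (ZMod p)) p).ncard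
    omega
  · intro h F S hS n
    have e : V = M := Submodule.eq_of_le_of_finrank_le hVM (by
      change Set.ncard {j | j ∈ FA.SupersingularCount.ssInvariants (AlgebraicClosure (ZMod p)) p ∧
        j ^ p = j} =
          (FA.SupersingularCount.ssInvariants (AlgebraicClosure (ZMod p)) p).ncard at h
      omega)
    have hmem : S.map (Int.castRingHom (ZMod p)) ∈ (V : Set (PowerSeries (ZMod p))) := by
      rw [e, hM]; exact ⟨F, S, hS, rfl⟩
    rw [hV] at hmem
    exact hcong.2 (hmem.2 n)

end FA.Summary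

end
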