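import Fermat.Agent.Supersingular.Genus
import Fermat.Agent.Supersingular.Extensions

/-!
# Deuring and Eichler: supersingular invariants and `X₀(q)`

For a prime `q ≥ 5` there are `dim S₂(Γ₀(q)) + 1` supersingular invariants over `𝔽̄_q`, a single one
exactly for `q = 5, 7, 13`. A curve over `𝔽_q` has trace zero iff over the extension of degree `n` it
has `q^n + 1` (`n` odd), resp. `((-q)^(n/2) - 1)²` (`n` even) points, for one or for every `n`.
-/

set_option autoImplicit false
set_option linter.style.haveILetI false

noncomputable section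

open WeierstrassCurve
open scoped Classical MatrixGroups

namespace FA.Summary

variable (k : Type) [Field k] (q : ℕ) [hq : Fact q.Prime] [CharP k q] [IsAlgClosed k]

/-- **Supersingular invariants and cusp forms of weight two.** -/
theorem supersingular_card_eq_genus_succ (h5 : 5 ≤ q) :
    {j : k | ∃ (W : WeierstrassCurve k) (_ : W.IsElliptic),
        W.j = j ∧ ∀ P : W.toAffine.Point, q • P = 0 → P = 0}.ncard =
      Module.finrank ℂ (CuspForm (CongruenceSubgroup.Gamma0 q) 2) + 1 :=
  FA.SupersingularGenus.ncard_eq_finrank_succ k h5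

/-- **A single supersingular invariant exactly in genus zero.** -/
theorem supersingular_card_eq_one_iff (h5 : 5 ≤ q) :
    ({j : k | ∃ (W : WeierstrassCurve k) (_ : W.IsElliptic),
        W.j = j ∧ ∀ P : W.toAffine.Point, q • P = 0 → P = 0}.ncard = 1 ↔
      q = 5 ∨ q = 7 ∨ q = 13) ∧
    (Module.finrank ℂ (CuspForm (CongruenceSubgroup.Gamma0 q) 2) = 0 ↔ q = 5 ∨ q = 7 ∨ q = 13) := by
  have h := supersingular_card_eq_genus_succ k q h5
  have h1 := FA.SupersingularGenus.ncard_eq_one_iff (q := q) k h5
  refine ⟨h1, Iff.trans ?_ h1⟩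
  rw [show (FA.SupersingularCount.ssInvariants k q).ncard = _ from h]
  omega

variable {q} in
/-- **Supersingular point counts over every extension.** -/
theorem supersingular_pointCount_extensions (h5 : 5 ≤ q) (W : WeierstrassCurve (ZMod q))
    [W.IsElliptic] (K : Type) [Field K] [Fintype K] [Algebra (ZMod q) K] :
    W.traceOfFrobenius = 0 ↔ (Nat.card (W.map (algebraMap (ZMod q) K)).toAffine.Point : ℤ) =
      if Even (Module.finrank (ZMod q) K) then
        ((-(q : ℤ)) ^ (Module.finrank (ZMod q) K / 2) - 1) ^ 2
      else (q : ℤ) ^ Module.finrank (ZMod q) K + 1 :=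
  FA.SupersingularExtensions.trace_eq_zero_iff_card W K h5

end FA.Summary

end
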