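import Fermat.Agent.Tau.SupersingularMass
import Fermat.Agent.Root.SummarySupersingularFunctions

/-!
# Cusp forms of weight `p + 1` and the supersingular mass

With the weights `1/3` at `0`, `1/2` at `1728` and `1` elsewhere, the weighted sum over the
supersingular invariants of the function of a form of weight `p + 1` modulo `p` is minus its
constant term; so cusp forms are the functions of mass zero and `E₂` is the constant `12`.
-/

set_option autoImplicit false
set_option linter.style.haveILetI false

noncomputable section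

open UpperHalfPlane
open scoped MatrixGroups Classical ArithmeticFunction.sigma

namespace FA.Summary

/-- **Serre: cusp forms of weight `p + 1` are the functions of mass zero.** -/
theorem weight_succ_cusp_forms (p : ℕ) [Fact p.Prime] (h5 : 5 ≤ p) :
    let k := AlgebraicClosure (ZMod p)
    let S : Set k :=
      {j | ∃ (W : WeierstrassCurve k) (_ : W.IsElliptic),
        W.j = j ∧ ∀ P : W.toAffine.Point, p • P = 0 → P = 0}
    let w : k → k := fun j => if j = 0 then (3 : k)⁻¹ else if j = 1728 then (2 : k)⁻¹ else 1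
    ∃ M : Submodule (ZMod p) (PowerSeries (ZMod p)),
      (M : Set (PowerSeries (ZMod p))) = {f | ∃ (G : ModularForm 𝒮ℒ ((p + 1 : ℕ) : ℤ))
        (T : PowerSeries ℤ), qExpansion 1 ⇑G = T.map (Int.castRingHom ℂ) ∧
          T.map (Int.castRingHom (ZMod p)) = f} ∧
      Module.finrank (ZMod p)
          (LinearMap.ker ((PowerSeries.coeff 0).domRestrict M)) + 1 = S.ncard ∧
      ∃ e : M →ₗ[ZMod p] (S → k), Function.Injective e ∧
        (∀ f : M, ∑ᶠ j : S, w j * e f j =
          -algebraMap (ZMod p) k (PowerSeries.coeff 0 (f : PowerSeries (ZMod p)))) ∧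
        (∀ (f : M) (j j' : S), j'.1 = j.1 ^ p →
          e f j' = e f j ^ p ∧ ∀ g : M, ((g : PowerSeries (ZMod p)) =
            PowerSeries.mk fun n => PowerSeries.coeff (n * p) (f : PowerSeries (ZMod p))) →
              e g j = e f j') ∧
        (∀ g, (∃ f : M, PowerSeries.coeff 0 (f : PowerSeries (ZMod p)) = 0 ∧ e f = g) ↔
          (∀ j j' : S, j'.1 = j.1 ^ p → g j' = g j ^ p) ∧ ∑ᶠ j : S, w j * g j = 0) ∧
        ∀ f : M, ((f : PowerSeries (ZMod p)) =
            PowerSeries.mk fun n => if n = 0 then 1 else -24 * ((σ 1 n : ℕ) : ZMod p)) →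
          ∀ j, e f j = 12 := by
  open FA.SupersingularPoints FA.SupersingularMass in
  intro k S w
  have hS : zeroSet p = S := (zeroSet_eq h5).1
  haveI := finite_of_weightSucc p h5
  haveI : Fintype (zeroSet p) := ((FA.SupersingularCount.count (k := k) h5).2.2.2.subset
    (zeroSet_subset h5)).fintype
  haveI : Fintype S := Fintype.ofEquiv _ (Equiv.setCongr hS)
  set e := toFunctions h5 hS
  have hsum : ∀ f : formSpace p, ∑ᶠ j : S, w j * e f j =
      -algebraMap (ZMod p) k (PowerSeries.coeff 0 (f : PowerSeries (ZMod p))) := fun f => by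
    rw [← phi_formEquiv h5 f, PowerSeries.coeff_zero_eq_constantCoeff_apply,
      FA.SwinnertonDyer.constantCoeff_phi, ← sum_weighted h5 (formEquiv h5 f),
      finsum_eq_sum_of_fintype]
    exact Fintype.sum_equiv (Equiv.setCongr hS).symm _ _ fun j => rfl
  refine ⟨formSpace p, Set.ext (mem_formSpace h5), ?_, e, (toFunctions_spec h5 hS).1, hsum,
    fun f j j' hj => ⟨((toFunctions_spec h5 hS).2 _).1 ⟨f, rfl⟩ j j' hj, fun g hg => ?_⟩,
    fun g => ⟨?_, fun ⟨hg, h0⟩ => ?_⟩, fun f hf j => ?_⟩
  · have h := LinearMap.finrank_range_add_finrank_ker ((PowerSeries.coeff 0).domRestrict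
      (formSpace p) : formSpace p →ₗ[ZMod p] ZMod p)
    rw [finrank_formSpace h5] at h
    have hform := eTwo_mem p h5
    rw [LinearMap.range_eq_top.2 fun c => ⟨c • ⟨_, hform⟩, by
      rw [map_smul, LinearMap.domRestrict_apply, smul_eq_mul,
        PowerSeries.coeff_zero_eq_constantCoeff_apply]
      simp [FA.SwinnertonDyer.e2, FA.Tau.eTwoInt, ← PowerSeries.coeff_zero_eq_constantCoeff_apply]⟩,
      finrank_top, Module.finrank_self] at h
    show _ = (FA.SupersingularCount.ssInvariants (Fbar p) p).ncard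
    omega
  · rw [show g = uForms h5 f from Subtype.ext hg]
    exact toFunctions_uForms h5 hS f j j' hj
  · rintro ⟨f, hf, rfl⟩
    refine ⟨((toFunctions_spec h5 hS).2 _).1 ⟨f, rfl⟩, ?_⟩
    rw [hsum, hf, map_zero, neg_zero]
  · obtain ⟨f, rfl⟩ := ((toFunctions_spec h5 hS).2 g).2 hg
    refine ⟨f, ?_, rfl⟩
    rwa [hsum, neg_eq_zero, map_eq_zero] at h0
  · refine ratioMap_eTwo h5 ?_ _
    refine (phi_formEquiv h5 f).trans ?_
    rw [hf]
    ext n
    rw [FA.SwinnertonDyer.e2, PowerSeries.coeff_map, FA.Tau.eTwoInt, PowerSeries.coeff_mk,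
      PowerSeries.coeff_mk, eq_intCast]
    split_ifs <;> simp

end FA.Summary

end
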