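import Fermat.Agent.Eisenstein.LiftLevelOne
import Fermat.Agent.Root.SummaryIrregularBelowHundred
import Mathlib.NumberTheory.ModularForms.LevelOne.DimensionFormula
import Mathlib.NumberTheory.ModularForms.LevelOne.GradedRing

/-!
# Irregular primes and Eisenstein congruences

The first step of Ribet's converse to Herbrand's theorem, generalising Ramanujan's congruence
`τ(n) ≡ σ₁₁(n) (mod 691)`.

* `eisenstein_eigenform_congruence`: if a prime `p ≥ 5` divides the numerator of `B_k / (2k)`, `k ≥ 4`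
  even, some normalised eigenform of weight `k` for `SL₂(ℤ)` has `a_n ≡ σ_{k-1}(n)` for all `n ≥ 1`
  modulo a maximal ideal of the algebraic integers over `p`.
* `weight_of_dvd_bernoulli`: so then `k = 12` or `k ≥ 16`, there being no cusp forms otherwise.
* `infinite_eisenstein_primes`: infinitely many primes have such a congruence in a weight `k ≤ p - 3`.
-/

set_option autoImplicit false

noncomputable section

open CongruenceSubgroup
open UpperHalfPlane hiding I
open EisensteinSeries ModularForm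
open scoped MatrixGroups ArithmeticFunction.sigma Real Nat

local notation "ZB" => integralClosure ℤ ℂ

namespace FA.EisCong

theorem bernoulli_even_ne_zero {k : ℕ} (hk : k ≠ 0) (hev : Even k) : bernoulli k ≠ 0 := by
  obtain ⟨j, rfl⟩ := hev
  rw [← two_mul] at hk ⊢
  intro h0
  have hs := hasSum_zeta_nat (k := j) (by omega)
  rw [h0, Rat.cast_zero, mul_zero, zero_div] at hs
  have h1 : (1 : ℝ) / ((1 : ℕ) : ℝ) ^ (2 * j) ≤ 0 := le_hasSum hs 1 fun i _ => by positivity
  norm_num at h1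

/-- A form of weight `k` with integral expansion and constant term `1`. -/
theorem exists_monomial (k : ℕ) (hev : Even k) (h4 : 4 ≤ k) :
    ∃ (P : ModularForm 𝒮ℒ (k : ℤ)) (a : ℕ → ℤ), a 0 = 1 ∧
      ∀ n, (qExpansion 1 P).coeff n = (a n : ℂ) := by
  induction k using Nat.strong_induction_on with
  | _ k ih =>
    obtain ⟨j, rfl⟩ := hev
    by_cases h2 : j = 2
    · subst h2
      refine ⟨E₄, fun n => if n = 0 then 1 else 240 * (σ 3 n : ℤ), if_pos rfl, fun n => ?_⟩
      rw [show E₄ = ModularForm.E (k := 4) (by norm_num) from rfl, E_qExpansion_coeff _ (by decide),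
        show bernoulli 4 = -1 / 30 by decide +kernel]
      dsimp only
      split_ifs <;> push_cast <;> ring
    by_cases h3 : j = 3
    · subst h3
      refine ⟨E₆, fun n => if n = 0 then 1 else -504 * (σ 5 n : ℤ), if_pos rfl, fun n => ?_⟩
      rw [show E₆ = ModularForm.E (k := 6) (by norm_num) from rfl, E_qExpansion_coeff _ (by decide),
        show bernoulli 6 = 1 / 42 by decide +kernel]
      dsimp only
      split_ifs <;> push_cast <;> ring
    obtain ⟨P, a, ha, hP⟩ := ih (j + j - 4) (by omega) ⟨j - 2, by omega⟩ (by omega)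
    let e : ℕ → ℤ := fun n => if n = 0 then 1 else 240 * (σ 3 n : ℤ)
    have he : ∀ n, (qExpansion 1 E₄).coeff n = (e n : ℂ) := fun n => by
      rw [show E₄ = ModularForm.E (k := 4) (by norm_num) from rfl, E_qExpansion_coeff _ (by decide),
        show bernoulli 4 = -1 / 30 by decide +kernel]
      simp only [e]
      split_ifs <;> push_cast <;> ring
    refine ⟨ModularForm.mcast (by omega) (P.mul E₄),
      fun n => ∑ x ∈ Finset.HasAntidiagonal.antidiagonal n, a x.1 * e x.2, by simp [e, ha], fun n => ?_⟩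
    rw [ModularForm.coe_mcast,
      ModularForm.qExpansion_mul one_pos one_mem_strictPeriods_SL, PowerSeries.coeff_mul, Int.cast_sum]
    exact Finset.sum_congr rfl fun x _ => by rw [hP, he, Int.cast_mul]

/-- The integral cusp form of weight `k` congruent to the Eisenstein series. -/
theorem exists_congruent_cuspForm (k : ℕ) (hev : Even k) (h4 : 4 ≤ k) (p : ℕ)
    (hp : (p : ℤ) ∣ (bernoulli k / (2 * k)).num) :
    ∃ f : CuspForm (Gamma0 1) (k : ℤ), f ∈ CuspForm.intLattice 1 k ∧ ∀ n, n ≠ 0 → ∃ z : ℤ,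
      qL k f n = (((bernoulli k / (2 * k)).den : ℤ) * (σ (k - 1) n : ℤ) + p * z : ℤ) := by
  obtain ⟨P, a, ha, hP⟩ := exists_monomial k hev h4
  set x := bernoulli k / (2 * k) with hx
  have hk : (2 * (k : ℚ)) ≠ 0 := mul_ne_zero two_ne_zero (Nat.cast_ne_zero.mpr (by omega))
  have hu : (x.num : ℂ) ≠ 0 :=
    Int.cast_ne_zero.mpr (Rat.num_ne_zero.mpr (div_ne_zero (bernoulli_even_ne_zero (by omega) hev) hk))
  have hv : (x.den : ℂ) ≠ 0 := Nat.cast_ne_zero.mpr x.den_ne_zero
  let g : ModularForm 𝒮ℒ (k : ℤ) := (-(x.num : ℂ)) • (ModularForm.E (k := k) (by omega) - P)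
  have hg : ∀ n, (qExpansion 1 g).coeff n =
      (((if n = 0 then 0 else (x.den : ℤ) * (σ (k - 1) n : ℤ)) +
        if n = 0 then 0 else x.num * a n : ℤ) : ℂ) := by
    intro n
    simp only [g]
    rw [FunLike.coe_smul, ModularForm.qExpansion_smul one_pos one_mem_strictPeriods_SL,
      FunLike.coe_sub, ModularForm.qExpansion_sub one_pos one_mem_strictPeriods_SL]
    rw [PowerSeries.coeff_smul, map_sub, E_qExpansion_coeff _ hev, hP, smul_eq_mul]
    by_cases hn : n = 0
    · subst hn; simp [ha]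
    · rw [if_neg hn, if_neg hn, if_neg hn]
      have hB : (bernoulli k : ℂ) = 2 * (k : ℂ) * ((x.num : ℂ) / (x.den : ℂ)) := by
        rw [← Rat.cast_def, hx]; push_cast
        have : (k : ℂ) ≠ 0 := Nat.cast_ne_zero.mpr (by omega)
        field_simp
      rw [hB]
      push_cast
      have : (k : ℂ) ≠ 0 := Nat.cast_ne_zero.mpr (by omega)
      field_simp
      ring
  have hg0 : (qExpansion 1 g).coeff 0 = 0 := by rw [hg]; simp
  let f : CuspForm (Gamma0 1) (k : ℤ) :=
    CuspForm.mcast rfl (ModularForm.toCuspForm g hg0) gamma0_one_coe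
  have hfg : ∀ n, qL k f n = (qExpansion 1 g).coeff n := fun n => rfl
  refine ⟨f, Submodule.subset_span fun n => ⟨_, (hfg n).trans (hg n)⟩, fun n hn => ?_⟩
  obtain ⟨c, hc⟩ := hp
  refine ⟨c * a n, ?_⟩
  rw [hfg, hg, if_neg hn, if_neg hn, hc, mul_assoc]

theorem sigma_prime_pow_rec {l : ℕ} (hl : l.Prime) (j r : ℕ) :
    (σ j (l ^ (r + 2)) : ℤ) = (1 + (l : ℤ) ^ j) * σ j (l ^ (r + 1)) - (l : ℤ) ^ j * σ j (l ^ r) := by
  have e : ∀ m, (σ j (l ^ m) : ℤ) = ∑ i ∈ Finset.range (m + 1), ((l : ℤ) ^ j) ^ i := fun m => by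
    rw [ArithmeticFunction.sigma_apply_prime_pow hl]
    push_cast
    exact Finset.sum_congr rfl fun i _ => by rw [← pow_mul, mul_comm]
  have h1 : (σ j (l ^ (r + 2)) : ℤ) = (l : ℤ) ^ j * σ j (l ^ (r + 1)) + 1 := by
    rw [e, e, geom_sum_succ]
  have h2 : (σ j (l ^ (r + 1)) : ℤ) = (l : ℤ) ^ j * σ j (l ^ r) + 1 := by
    rw [e, e, geom_sum_succ]
  linear_combination h1 - h2

theorem sigma_prime {l : ℕ} (hl : l.Prime) (j : ℕ) : (σ j l : ℤ) = 1 + (l : ℤ) ^ j := by
  have h := ArithmeticFunction.sigma_apply_prime_pow (k := j) (i := 1) hl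
  rw [pow_one] at h
  rw [h]
  simp [Finset.sum_range_succ]

/-- `σ_j` is an eigensystem. -/
theorem sigma_hecke {l : ℕ} (hl : l.Prime) (j : ℕ) {n : ℕ} (hn : n ≠ 0) :
    (σ j (n * l) : ℤ) + (if l ∣ n then (l : ℤ) ^ j * σ j (n / l) else 0) =
      (1 + (l : ℤ) ^ j) * σ j n := by
  obtain ⟨e, m, hm, rfl⟩ := Nat.exists_eq_pow_mul_and_not_dvd hn l hl.ne_one
  have hcop : ∀ i, (l ^ i).Coprime m := fun i =>
    Nat.Coprime.pow_left i (hl.coprime_iff_not_dvd.mpr hm)
  have hmul : ∀ i, (σ j (l ^ i * m) : ℤ) = σ j (l ^ i) * σ j m := fun i => by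
    exact_mod_cast ArithmeticFunction.isMultiplicative_sigma.map_mul_of_coprime (hcop i)
  rw [show l ^ e * m * l = l ^ (e + 1) * m by ring]
  rcases e with _ | r
  · rw [hmul, if_neg (by rwa [pow_zero, one_mul]), pow_zero, one_mul, zero_add, pow_one, sigma_prime hl,
      add_zero]
  · rw [if_pos ((dvd_pow_self l r.succ_ne_zero).mul_right m),
      show l ^ (r + 1) * m / l = l ^ r * m by
        rw [show l ^ (r + 1) * m = l ^ r * m * l by ring, Nat.mul_div_cancel _ hl.pos],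
      hmul, hmul, hmul, sigma_prime_pow_rec hl j r]
    ring

end FA.EisCong

namespace FA.Summary

open FA.EisCong

/-- **The Eisenstein congruence** at a prime dividing the numerator of `B_k / (2k)`. -/
theorem eisenstein_eigenform_congruence (p : ℕ) [hp : Fact p.Prime] (k : ℕ) (hev : Even k)
    (h4 : 4 ≤ k) (hdvd : (p : ℤ) ∣ (bernoulli k / (2 * k)).num) :
    ∃ f : CuspForm 𝒮ℒ (k : ℤ), (qExpansion 1 f).coeff 1 = 1 ∧
      (∀ m n : ℕ, m.Coprime n →
        (qExpansion 1 f).coeff (m * n) = (qExpansion 1 f).coeff m * (qExpansion 1 f).coeff n) ∧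
      (∀ l r : ℕ, l.Prime → (qExpansion 1 f).coeff (l ^ (r + 2)) =
        (qExpansion 1 f).coeff l * (qExpansion 1 f).coeff (l ^ (r + 1)) -
          (l : ℂ) ^ (k - 1) * (qExpansion 1 f).coeff (l ^ r)) ∧
      ∃ 𝔪 : Ideal (integralClosure ℤ ℂ), 𝔪.IsMaximal ∧ (p : integralClosure ℤ ℂ) ∈ 𝔪 ∧
        ∀ n : ℕ, n ≠ 0 → ∃ c : integralClosure ℤ ℂ, (c : ℂ) = (qExpansion 1 f).coeff n ∧
          c - (σ (k - 1) n : integralClosure ℤ ℂ) ∈ 𝔪 := by
  obtain ⟨f₀, hf₀, hc₀⟩ := exists_congruent_cuspForm k hev h4 p hdvd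
  set x := bernoulli k / (2 * k)
  have hk1 : (1 : ℤ) ≤ (k : ℤ) := by omega
  have hzpow : ∀ l : ℕ, (l : ℂ) ^ ((k : ℤ) - 1) = (l : ℂ) ^ (k - 1) := fun l => by
    rw [show (k : ℤ) - 1 = ((k - 1 : ℕ) : ℤ) by omega, zpow_natCast]
  obtain ⟨f, m, hm, hpm, hone, hmul, hrec, hcong⟩ := exists_eigen_congruent hk1 hp.out
    (b := fun l => 1 + (l : ℤ) ^ (k - 1)) f₀ hf₀
    (fun z hz hd => by
      obtain ⟨w, hw⟩ := hc₀ 1 one_ne_zero
      rw [hz, Int.cast_inj, ArithmeticFunction.sigma_one, Nat.cast_one, mul_one] at hw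
      have h' : p ∣ x.den :=
        Int.natCast_dvd_natCast.mp ((dvd_add_left (dvd_mul_right _ w)).mp (hw ▸ hd))
      have hcop := Nat.Coprime.coprime_dvd_right h' x.reduced
      exact hp.out.ne_one (Nat.eq_one_of_dvd_coprimes hcop (Int.natCast_dvd.mp hdvd) dvd_rfl))
    (fun l hl n => by
      rw [map_sub, map_smul, Pi.sub_apply, Pi.smul_apply, smul_eq_mul, qL_heckeT hl, hzpow]
      rcases eq_or_ne n 0 with rfl | hn
      · exact ⟨0, by simp [qL_zero]⟩
      obtain ⟨u, hu⟩ := hc₀ n hn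
      obtain ⟨w, hw⟩ := hc₀ (n * l) (mul_ne_zero hn hl.ne_zero)
      have hs := congrArg (Int.cast : ℤ → ℂ) (sigma_hecke hl (k - 1) hn)
      by_cases hd : l ∣ n
      · obtain ⟨v, hv⟩ := hc₀ (n / l)
          (Nat.div_pos (Nat.le_of_dvd (Nat.pos_of_ne_zero hn) hd) hl.pos).ne'
        refine ⟨w + (l : ℤ) ^ (k - 1) * v - (1 + (l : ℤ) ^ (k - 1)) * u, ?_⟩
        rw [if_pos hd] at hs ⊢
        rw [hw, hu, hv]
        push_cast at hs ⊢
        linear_combination (x.den : ℂ) * hs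
      · refine ⟨w - (1 + (l : ℤ) ^ (k - 1)) * u, ?_⟩
        rw [if_neg hd] at hs ⊢
        rw [hw, hu]
        push_cast at hs ⊢
        linear_combination (x.den : ℂ) * hs)
  refine ⟨CuspForm.mcast rfl f gamma0_one_coe.symm, hone, hmul,
    fun l r hl => (hrec l r hl).trans (by rw [hzpow]; rfl), m, hm, hpm, ?_⟩
  intro n
  induction n using Nat.recOnPrimeCoprime with
  | zero => exact fun h => absurd rfl h
  | prime_pow l i hl =>
    intro _
    induction i using Nat.twoStepInduction with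
    | zero => exact ⟨1, by rw [pow_zero, OneMemClass.coe_one]; exact hone.symm,
        by simp [ArithmeticFunction.sigma_one]⟩
    | one =>
      obtain ⟨c, hc, hcm⟩ := hcong l hl
      refine ⟨c, by rw [pow_one]; exact hc, ?_⟩
      rw [pow_one, show (σ (k - 1) l : ZB) = ((σ (k - 1) l : ℤ) : ZB) by rw [Int.cast_natCast],
        sigma_prime hl]
      exact hcm
    | more r ih1 ih2 =>
      obtain ⟨c₁, e₁, m₁⟩ := ih1 (pow_ne_zero r hl.ne_zero)
      obtain ⟨c₂, e₂, m₂⟩ := ih2 (pow_ne_zero _ hl.ne_zero)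
      obtain ⟨c, hc, hcm⟩ := hcong l hl
      refine ⟨c * c₂ - (l : ZB) ^ (k - 1) * c₁, ?_, ?_⟩
      · push_cast [e₁, e₂, hc]
        exact ((hrec l r hl).trans (by rw [hzpow]; rfl)).symm
      · have h := congrArg (Int.cast : ℤ → ZB) (sigma_prime_pow_rec hl (k - 1) r)
        push_cast at h hcm
        rw [h, show c * c₂ - (l : ZB) ^ (k - 1) * c₁ -
            ((1 + (l : ZB) ^ (k - 1)) * (σ (k - 1) (l ^ (r + 1)) : ZB) -
              (l : ZB) ^ (k - 1) * (σ (k - 1) (l ^ r) : ZB)) =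
          (c - (1 + (l : ZB) ^ (k - 1))) * c₂ +
            (1 + (l : ZB) ^ (k - 1)) * (c₂ - (σ (k - 1) (l ^ (r + 1)) : ZB)) -
            (l : ZB) ^ (k - 1) * (c₁ - (σ (k - 1) (l ^ r) : ZB)) by ring]
        exact sub_mem (add_mem (m.mul_mem_right _ hcm) (m.mul_mem_left _ m₂)) (m.mul_mem_left _ m₁)
  | coprime a b ha hb hab iha ihb =>
    intro _
    obtain ⟨c, hc, hcm⟩ := iha (by omega)
    obtain ⟨d, hd, hdm⟩ := ihb (by omega)
    refine ⟨c * d, ?_, ?_⟩
    · push_cast [hc, hd]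
      exact (hmul a b hab).symm
    · rw [ArithmeticFunction.isMultiplicative_sigma.map_mul_of_coprime hab, Nat.cast_mul,
        show c * d - (σ (k - 1) a : ZB) * (σ (k - 1) b : ZB) =
          (c - (σ (k - 1) a : ZB)) * d + (σ (k - 1) a : ZB) * (d - (σ (k - 1) b : ZB)) by ring]
      exact add_mem (m.mul_mem_right _ hcm) (m.mul_mem_left _ hdm)

/-- A prime dividing the numerator of `B_k / (2k)` forces a cusp form of weight `k`. -/
theorem weight_of_dvd_bernoulli (p : ℕ) [Fact p.Prime] (k : ℕ) (hev : Even k) (h4 : 4 ≤ k)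
    (hdvd : (p : ℤ) ∣ (bernoulli k / (2 * k)).num) : k = 12 ∨ 16 ≤ k := by
  obtain ⟨f, h1, -⟩ := eisenstein_eigenform_congruence p k hev h4 hdvd
  by_contra hcon
  have hk : k < 12 ∨ k = 14 := by obtain ⟨j, rfl⟩ := hev; omega
  have hz : Module.rank ℂ (ModularForm 𝒮ℒ ((k : ℤ) - 12)) = 0 := by
    rcases hk with hk | rfl
    · exact ModularForm.levelOne_neg_weight_rank_zero (by omega)
    · rw [show ((14 : ℕ) : ℤ) - 12 = 2 by norm_num]; exact levelOne_weight_two_rank_zero
  have hf : f = 0 := (CuspForm.discriminantEquiv.map_eq_zero_iff).mp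
    (rank_zero_iff_forall_zero.mp hz (CuspForm.discriminantEquiv f))
  have h0 : (qExpansion 1 f).coeff 1 = 0 := by rw [hf, FunLike.coe_zero, qExpansion_zero]; simp
  exact one_ne_zero (h1.symm.trans h0)

/-- **Infinitely many primes with an Eisenstein congruence.** -/
theorem infinite_eisenstein_primes : {p : ℕ | p.Prime ∧ ∃ k, Even k ∧ k ≤ p - 3 ∧
    ∃ f : CuspForm 𝒮ℒ (k : ℤ), (qExpansion 1 f).coeff 1 = 1 ∧
      ∃ 𝔪 : Ideal (integralClosure ℤ ℂ), 𝔪.IsMaximal ∧ (p : integralClosure ℤ ℂ) ∈ 𝔪 ∧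
        ∀ n : ℕ, n ≠ 0 → ∃ c : integralClosure ℤ ℂ, (c : ℂ) = (qExpansion 1 f).coeff n ∧
          c - (σ (k - 1) n : integralClosure ℤ ℂ) ∈ 𝔪}.Infinite := by
  refine infinite_irregular_primes.mono ?_
  rintro p ⟨hp, k, hev, hk2, hkp, hd⟩
  have := Fact.mk hp
  have hk4 : 4 ≤ k := by
    by_contra hc
    obtain ⟨j, rfl⟩ := hev
    obtain rfl : j = 1 := by omega
    rw [bernoulli_two] at hd
    norm_num at hd
    exact hp.ne_one (Nat.dvd_one.mp (by exact_mod_cast hd))
  have hB : FA.OrderTheta.PIntegral p (bernoulli k) := FA.OrderTheta.pIntegral_bernoulli k (by omega)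
  have hinv : FA.OrderTheta.PIntegral p (((2 * k : ℕ) : ℚ)⁻¹) :=
    FA.OrderTheta.PIntegral.inv_natCast fun h => by
      rcases hp.dvd_mul.mp h with h | h <;> have := Nat.le_of_dvd (by omega) h <;> omega
  have hd' : (p : ℤ) ∣ (bernoulli k / (2 * k)).num := by
    rw [div_eq_inv_mul, show (2 * (k : ℚ)) = ((2 * k : ℕ) : ℚ) by push_cast; ring]
    exact (FA.OrderTheta.RatCong.zero_mul_left hinv
      (FA.OrderTheta.ratCong_zero_of_dvd_num hB hd)).num_dvd
  obtain ⟨f, h1, -, -, m, hm, hpm, hc⟩ := eisenstein_eigenform_congruence p k hev hk4 hd'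
  exact ⟨hp, k, hev, hkp, f, h1, m, hm, hpm, hc⟩

end FA.Summary
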