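import Fermat.Agent.LambdaHecke.Eigen
import Fermat.Agent.Root.SummaryLambdaAdic

/-!
# Summary: Hida's ordinary Hecke algebra over `Λ`, level one, `p ≥ 5`, classes other than `0`

The ordinary `Λ`-adic forms are those of `FA.LambdaForms.Summary`. For a prime `l ≠ p` the operator
`T_l` of the class `c` takes `a(n)` to `a(n l) + θ a(n / l)`, where `θ` in `Λ` has the value
`l ^ (k - 1)` at every integer `k ≥ 1` of the class; `U` takes `a(n)` to `a(p n)`. The algebra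
`heckeAlg hp2 c` is generated by them over `Λ` inside the endomorphisms of the module of forms.

* `hecke_coefficient`, `hecke_operator`, `hecke_generators`: these operators, on forms and families;
* `hida_duality`: the first coefficient of `h F` is a perfect pairing, and the algebra is free of
  finite rank, the dimension of every ordinary part of the class;
* `universal_series`: the `T_n`, dual to the coefficients, and their relations;
* `hecke_control`: the kernel of the action on the weight `(c, s)` is generated by `T - x`;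
* `eigen_series`, `eigen_classical`, `eigen_weight`, `eigen_families`: systems of eigenvalues are
  the same as normalised eigenseries, classical combinations at the integers `k ≥ 2` of the class;
* `eigen_lifting`, `hecke_nontrivial`: a system modulo `p` lifts to every weight, on a family.

Not proved here: the class `0`, where the duality fails because of the constant; `p = 2, 3`; tame
levels; reducedness; eigenforms over the complex numbers; Galois representations.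
-/

set_option autoImplicit false
set_option linter.unusedSectionVars false

noncomputable section

open UpperHalfPlane hiding I
open PowerSeries CongruenceSubgroup
open scoped MatrixGroups ModularForm

namespace FA.LambdaHecke.Summary

open FA.PadicForms FA.OrdinaryProj FA.LambdaForms

variable {p : ℕ} [Fact p.Prime] {hp2 : p ≠ 2} {c : ZMod (p - 1)}

local notation "Λ" => PowerSeries ℤ_[p]

/-- **The coefficient of `T_l`.** -/
theorem hecke_coefficient (h5 : 5 ≤ p) {l : ℕ} (hl : l.Prime) (hlp : l ≠ p) {k : ℕ} (hk : 1 ≤ k)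
    (hc : (k : ZMod (p - 1)) = c) :
    evalLam hp2 (k : ℤ_[p]) (thetaLam c l) = (l : ℤ_[p]) ^ (k - 1) :=
  evalLam_thetaLam h5 (fun e => hlp ((Nat.prime_dvd_prime_iff_eq Fact.out hl).1 e).symm) hk hc

/-- **`T_l` on the forms of weight `(c, s)`**: it keeps them and commutes with `e`. -/
theorem hecke_operator (h5 : 5 ≤ p) {l : ℕ} (hl : l.Prime) (hlp : l ≠ p) {s : ℤ_[p]}
    {f : PowerSeries ℚ_[p]} (hf : IsPadicForm f ((c, s) : Weights p)) :
    (∀ n, coeff n (tSer ((evalLam hp2 s (thetaLam c l) : ℤ_[p]) : ℚ_[p]) l f) =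
        coeff (n * l) f +
          if l ∣ n then ((evalLam hp2 s (thetaLam c l) : ℤ_[p]) : ℚ_[p]) * coeff (n / l) f else 0) ∧
      IsPadicForm (tSer ((evalLam hp2 s (thetaLam c l) : ℤ_[p]) : ℚ_[p]) l f)
        ((c, s) : Weights p) ∧
      ordProj p (tSer ((evalLam hp2 s (thetaLam c l) : ℤ_[p]) : ℚ_[p]) l f) =
        tSer ((evalLam hp2 s (thetaLam c l) : ℤ_[p]) : ℚ_[p]) l (ordProj p f) :=
  ⟨fun _ => coeff_tSer _ _ _ _, isPadicForm_tSer h5 hl (fun _ hε => thetaLam_near h5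
    (fun e => hlp ((Nat.prime_dvd_prime_iff_eq Fact.out hl).1 e).symm) s hε) hf,
    ordProj_tSer h5 hl hlp hf⟩

/-- **The generators of the algebra.** -/
theorem hecke_generators (h5 : 5 ≤ p) :
    heckeAlg hp2 c = Algebra.adjoin Λ {h : Module.End Λ ↥(lamOrd hp2 c) |
        (∀ F n, coeff n (h F : PowerSeries Λ) = coeff (p * n) (F : PowerSeries Λ)) ∨
          ∃ l, l.Prime ∧ l ≠ p ∧ ∀ F n, coeff n (h F : PowerSeries Λ) =
            coeff (n * l) (F : PowerSeries Λ) +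
              if l ∣ n then thetaLam c l * coeff (n / l) (F : PowerSeries Λ) else 0} ∧
      (∃ U : ↥(heckeAlg hp2 c), ∀ F,
        ((U : Module.End Λ ↥(lamOrd hp2 c)) F : PowerSeries Λ) = uSer p (F : PowerSeries Λ)) ∧
      ∀ l, l.Prime → l ≠ p → ∃ T : ↥(heckeAlg hp2 c), ∀ F,
        ((T : Module.End Λ ↥(lamOrd hp2 c)) F : PowerSeries Λ) =
          tSer (thetaLam c l) l (F : PowerSeries Λ) := by
  refine ⟨congrArg (Algebra.adjoin Λ) (Set.ext fun h => ?_), ?_, fun l hl hlp => ?_⟩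
  · simp only [Set.mem_ofPred_eq, IsHeckeGen, PowerSeries.ext_iff, coeff_uSer, coeff_tSer]
  · obtain ⟨U, hU, hUe⟩ := exists_uGen (hp2 := hp2) (c := c) h5
    exact ⟨⟨U, hU⟩, hUe⟩
  · obtain ⟨T, hT, hTe⟩ := exists_tGen (hp2 := hp2) (c := c) h5 hl hlp
    exact ⟨⟨T, hT⟩, hTe⟩

/-- **Hida's duality.** -/
theorem hida_duality (h5 : 5 ≤ p) (hc0 : c ≠ 0) :
    Function.Bijective (pairing hp2 c) ∧
      (∀ (h : ↥(heckeAlg hp2 c)) (F : ↥(lamOrd hp2 c)), pairing hp2 c h F =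
        coeff 1 ((h : Module.End Λ ↥(lamOrd hp2 c)) F : PowerSeries Λ)) ∧
      Module.Free Λ ↥(heckeAlg hp2 c) ∧ Module.Finite Λ ↥(heckeAlg hp2 c) ∧
      ∀ s : ℤ_[p], Module.finrank Λ ↥(heckeAlg hp2 c) =
        Module.finrank ℚ_[p] ↥(ordPart ((c, s) : Weights p)) := by
  obtain ⟨h1, h2, h3⟩ := heckeAlg_free (hp2 := hp2) h5 hc0
  exact ⟨pairing_bijective h5 hc0, fun _ _ => rfl, h1, h2, fun s => by
    rw [h3, (FA.LambdaForms.Summary.lambda_free h5).2.2 s]⟩

/-- **The operators `T_n`.** -/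
theorem universal_series (h5 : 5 ≤ p) (hc0 : c ≠ 0) :
    (∀ n (F : ↥(lamOrd hp2 c)),
        coeff 1 ((tOf h5 hc0 n : Module.End Λ ↥(lamOrd hp2 c)) F : PowerSeries Λ) =
          coeff n (F : PowerSeries Λ)) ∧
      tOf (hp2 := hp2) h5 hc0 1 = 1 ∧
      (∀ U : ↥(heckeAlg hp2 c), (∀ F,
        ((U : Module.End Λ ↥(lamOrd hp2 c)) F : PowerSeries Λ) = uSer p (F : PowerSeries Λ)) →
        ∀ n, U * tOf h5 hc0 n = tOf h5 hc0 (p * n)) ∧
      ∀ (l : ℕ) (T : ↥(heckeAlg hp2 c)), (∀ F,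
        ((T : Module.End Λ ↥(lamOrd hp2 c)) F : PowerSeries Λ) =
          tSer (thetaLam c l) l (F : PowerSeries Λ)) →
        ∀ n, T * tOf h5 hc0 n = tOf h5 hc0 (n * l) +
          if l ∣ n then thetaLam c l • tOf h5 hc0 (n / l) else 0 :=
  ⟨fun n F => LinearMap.congr_fun (pairing_tOf n) F, tOf_one, fun _ hU n => tOf_uSer hU n,
    fun _ _ hT n => tOf_tSer hT n⟩

/-- **Control.** -/
theorem hecke_control (h5 : 5 ≤ p) (hc0 : c ≠ 0) (s : ℤ_[p]) (h : ↥(heckeAlg hp2 c)) :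
    (∀ F : ↥(lamOrd hp2 c),
        ((h : Module.End Λ ↥(lamOrd hp2 c)) F : PowerSeries Λ).map (evalLam hp2 s) = 0) ↔
      ∃ h', h = algebraMap Λ ↥(heckeAlg hp2 c) (X - C (FA.PadicIwasawa.expOne p s - 1)) * h' :=
  kills_iff h5 hc0 s h

variable {R : Type*} [CommRing R]

/-- **The series of a system is a normalised eigenseries.** -/
theorem eigen_series (h5 : 5 ≤ p) (hc0 : c ≠ 0) (lam : ↥(heckeAlg hp2 c) →+* R) :
    coeff 1 (eigSer h5 hc0 lam) = 1 ∧
      (∃ u, uSer p (eigSer h5 hc0 lam) = C u * eigSer h5 hc0 lam) ∧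
      (∀ l, l.Prime → l ≠ p → ∃ t,
        tSer (lam (algebraMap Λ ↥(heckeAlg hp2 c) (thetaLam c l))) l (eigSer h5 hc0 lam) =
          C t * eigSer h5 hc0 lam) ∧
      ∃ (r : ℕ) (x : Fin r → R) (G : Fin r → PowerSeries (PowerSeries ℤ_[p])),
        (∀ j, G j ∈ lamOrd hp2 c) ∧ eigSer h5 hc0 lam =
          ∑ j, C (x j) * (G j).map (lam.comp (algebraMap Λ ↥(heckeAlg hp2 c))) := by
  refine ⟨eigSer_one, ?_, fun l hl hlp => ?_, ?_⟩
  · obtain ⟨U, hU, hUe⟩ := exists_uGen (hp2 := hp2) (c := c) h5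
    exact ⟨_, eigSer_uSer (U := ⟨U, hU⟩) hUe⟩
  · obtain ⟨T, hT, hTe⟩ := exists_tGen (hp2 := hp2) (c := c) h5 hl hlp
    exact ⟨_, eigSer_tSer (T := ⟨T, hT⟩) hTe⟩
  · obtain ⟨r, x, G, hG, e⟩ := eigSer_expansion h5 hc0 lam
    exact ⟨r, x, G, fun j => (mem_lamOrd h5).2 (hG j), e⟩

/-- **A system over an integral weight `k ≥ 2` gives a combination of forms of level `p`.** -/
theorem eigen_classical (h5 : 5 ≤ p) (hc0 : c ≠ 0) {k : ℕ} (hk : 2 ≤ k)
    (hc : (k : ZMod (p - 1)) = c) (ρ : ℤ_[p] →+* R) (lam : ↥(heckeAlg hp2 c) →+* R)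
    (hlam : ∀ a, lam (algebraMap Λ ↥(heckeAlg hp2 c) a) = ρ (evalLam hp2 (k : ℤ_[p]) a)) :
    ∃ (r : ℕ) (x : Fin r → R) (g : Fin r → PowerSeries ℤ_[p]),
      eigSer h5 hc0 lam = ∑ j, C (x j) * (g j).map ρ ∧
      ∀ j, toQps p (g j) ∈ Submodule.span ℚ_[p]
        {s : PowerSeries ℚ_[p] | ∃ (f : ModularForm (Gamma0 p : Subgroup (GL (Fin 2) ℝ)) (k : ℤ))
          (A : PowerSeries ℚ), qExpansion 1 ⇑f = A.map (Rat.castHom ℂ) ∧ toQp p A = s} := by
  obtain ⟨r, x, G, hG, e⟩ := eigSer_expansion h5 hc0 lam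
  refine ⟨r, x, fun j => (G j).map (evalLam hp2 (k : ℤ_[p])), ?_,
    fun j => FA.LambdaForms.Summary.lambda_classical h5 ((mem_lamOrd h5).2 (hG j)) hk hc⟩
  rw [e]
  refine Finset.sum_congr rfl fun j _ => congrArg _ (PowerSeries.ext fun n => ?_)
  rw [coeff_map, coeff_map, coeff_map, RingHom.comp_apply, hlam]

/-- **Every normalised ordinary eigenform of weight `(c, s)` comes from exactly one system.** -/
theorem eigen_weight (h5 : 5 ≤ p) (hc0 : c ≠ 0) (s : ℤ_[p]) {g : PowerSeries ℤ_[p]}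
    (hg : IsPadicForm (toQps p g) ((c, s) : Weights p))
    (hge : ordProj p (toQps p g) = toQps p g) (h1 : coeff 1 g = 1)
    (hU : ∃ u, uSer p g = C u * g)
    (hT : ∀ l, l.Prime → l ≠ p → ∃ t, tSer (evalLam hp2 s (thetaLam c l)) l g = C t * g) :
    ∃! lam : ↥(heckeAlg hp2 c) →+* ℤ_[p],
      (∀ a, lam (algebraMap Λ ↥(heckeAlg hp2 c) a) = evalLam hp2 s a) ∧
        eigSer h5 hc0 lam = g := by
  obtain ⟨F, hF, rfl⟩ := (FA.LambdaForms.Summary.lambda_specialisation (hp2 := hp2) h5 s).1 g hg hge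
  obtain ⟨lam, ha, he⟩ := exists_hom h5 hc0 (φ := evalLam hp2 s) ((mem_lamOrd h5).1 hF) h1 hU hT
  exact ⟨lam, ⟨ha, he⟩, fun lam' h' =>
    hom_ext h5 hc0 (fun a => (h'.1 a).trans (ha a).symm) (h'.2.trans he.symm)⟩

/-- **The eigenfamilies with values in `Λ` are the sections of the algebra.** -/
theorem eigen_families (h5 : 5 ≤ p) (hc0 : c ≠ 0) (F : PowerSeries (PowerSeries ℤ_[p])) :
    (F ∈ lamOrd hp2 c ∧ coeff 1 F = 1 ∧ (∃ u, uSer p F = C u * F) ∧
      ∀ l, l.Prime → l ≠ p → ∃ t, tSer (thetaLam c l) l F = C t * F) ↔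
      ∃! lam : ↥(heckeAlg hp2 c) →+* PowerSeries ℤ_[p],
        (∀ a, lam (algebraMap Λ ↥(heckeAlg hp2 c) a) = a) ∧ eigSer h5 hc0 lam = F := by
  have hid : ∀ G : PowerSeries (PowerSeries ℤ_[p]), G.map (RingHom.id Λ) = G := fun G =>
    PowerSeries.ext fun n => by simp
  refine ⟨fun ⟨hF, h1, hU, hT⟩ => ?_, fun ⟨lam, ⟨ha, he⟩, _⟩ => ?_⟩
  · obtain ⟨lam, ha, he⟩ := exists_hom h5 hc0 (φ := RingHom.id Λ) ((mem_lamOrd h5).1 hF)
      (by rw [hid, h1]) (by rwa [hid]) (by simpa [hid] using hT)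
    rw [hid] at he
    exact ⟨lam, ⟨ha, he⟩, fun lam' h' =>
      hom_ext h5 hc0 (fun a => (h'.1 a).trans (ha a).symm) (h'.2.trans he.symm)⟩
  · subst he
    obtain ⟨h1, hU, hT, r, x, G, hG, e⟩ := eigen_series h5 hc0 lam
    refine ⟨?_, h1, hU, fun l hl hlp => by simpa [ha] using hT l hl hlp⟩
    rw [e]
    refine Submodule.sum_mem _ fun j _ => ?_
    rw [show lam.comp (algebraMap Λ ↥(heckeAlg hp2 c)) = RingHom.id Λ from RingHom.ext ha, hid,
      ← PowerSeries.smul_eq_C_mul]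
    exact Submodule.smul_mem _ _ (hG j)

/-- **Lifting**: a system modulo `p` lifts to a system of every weight, lying on a family. -/
theorem eigen_lifting (h5 : 5 ≤ p) (hc0 : c ≠ 0) (m : Ideal ↥(heckeAlg hp2 c)) [m.IsMaximal]
    (s : ℤ_[p]) : ∃ P : Ideal ↥(heckeAlg hp2 c), P.IsPrime ∧ P ≤ m ∧
      (∃ ρ : ℤ_[p] →+* ↥(heckeAlg hp2 c) ⧸ P, Function.Injective ρ ∧ ρ.Finite ∧
        ∀ a, Ideal.Quotient.mk P (algebraMap Λ ↥(heckeAlg hp2 c) a) = ρ (evalLam hp2 s a)) ∧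
      ∃ P₀ : Ideal ↥(heckeAlg hp2 c), P₀.IsPrime ∧ P₀ ≤ P ∧
        Function.Injective ((Ideal.Quotient.mk P₀).comp (algebraMap Λ ↥(heckeAlg hp2 c))) ∧
        ((Ideal.Quotient.mk P₀).comp (algebraMap Λ ↥(heckeAlg hp2 c))).Finite := by
  obtain ⟨P, hPm, hP, hPs⟩ := exists_weight_lift h5 hc0 m s
  obtain ⟨P₀, hP₀, hP₀p, hP₀s⟩ := exists_family_below h5 hc0 P
  refine ⟨P, hP, hPm, quotient_finite h5 hc0 P hPs, P₀, hP₀p, hP₀,
    (RingHom.injective_iff_ker_eq_bot _).2 ?_,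
    (RingHom.Finite.of_surjective _ Ideal.Quotient.mk_surjective).comp
      (RingHom.finite_algebraMap.2 (heckeAlg_free h5 hc0).2.1)⟩
  rw [← RingHom.comap_ker, Ideal.mk_ker, hP₀s]

/-- **The algebra is not zero in the even classes**, so systems modulo `p` exist. -/
theorem hecke_nontrivial (h5 : 5 ≤ p) (hc0 : c ≠ 0) {j : ℕ}
    (hc : c = ((2 * j : ℕ) : ZMod (p - 1))) :
    Nontrivial ↥(heckeAlg hp2 c) ∧ ∃ m : Ideal ↥(heckeAlg hp2 c), m.IsMaximal := by
  have h : 1 ≤ Module.finrank Λ ↥(heckeAlg hp2 c) := by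
    rw [(heckeAlg_free h5 hc0).2.2]
    exact FA.LambdaForms.Summary.lambda_rank_pos h5 hc
  have := Module.nontrivial_of_finrank_pos (R := Λ) (M := ↥(heckeAlg hp2 c)) h
  exact ⟨this, Ideal.exists_maximal _⟩

end FA.LambdaHecke.Summary

end
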