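import Fermat.Agent.Root.SummaryMordellWeilGeneral
import Fermat.Agent.Height.NeronTate

/-!
# The Néron–Tate height and the regulator

On every elliptic curve over every number field there is exactly one function which differs by a
bounded amount from the naive height and is multiplied by four under doubling.  It is a quadratic
form, vanishing exactly at the torsion points, whose pairing is positive definite on independent
points, so the regulator is positive.
-/

set_option autoImplicit false
set_option linter.style.haveILetI false

noncomputable section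

open WeierstrassCurve Height NumberField

namespace FA.Summary

/-- **The Néron–Tate height exists and is unique.** -/
theorem canonicalHeight {K : Type*} [Field K] [NumberField K] [DecidableEq K]
    (E : WeierstrassCurve K) [E.IsElliptic] :
    ∃! f : E.toAffine.Point → ℝ, (∃ C, ∀ P, |f P - logHeight P.xRep| ≤ C) ∧
      ∀ P, f (2 • P) = 4 * f P := by
  obtain ⟨C, hC⟩ := FA.MordellWeilNF.exists_parallelogram E
  obtain ⟨f, hD, h2, -, -⟩ :=
    FA.Height.exists_quadratic (h := fun P : E.toAffine.Point => logHeight P.xRep) hC
  exact ⟨f, ⟨hD, h2⟩, fun g hg =>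
    FA.Height.eq_of_bounded hg.1.choose_spec hD.choose_spec hg.2 h2⟩

/-- **Its properties**: the parallelogram law, `n²` under multiplication by `n`, nonnegativity,
zero exactly at the torsion points, finitely many points below each bound. -/
theorem canonicalHeight_properties {K : Type*} [Field K] [NumberField K] [DecidableEq K]
    (E : WeierstrassCurve K) [E.IsElliptic] {f : E.toAffine.Point → ℝ}
    (hf : ∃ C, ∀ P, |f P - logHeight P.xRep| ≤ C) (h2 : ∀ P, f (2 • P) = 4 * f P) :
    (∀ P Q, f (P + Q) + f (P - Q) = 2 * (f P + f Q)) ∧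
      (∀ (n : ℤ) P, f (n • P) = n ^ 2 * f P) ∧ (∀ P, 0 ≤ f P) ∧
      (∀ P, f P = 0 ↔ IsOfFinAddOrder P) ∧ ∀ b, {P | f P ≤ b}.Finite := by
  obtain ⟨C, hC⟩ := FA.MordellWeilNF.exists_parallelogram E
  obtain ⟨g, hD, hg2, hpar, hnn⟩ :=
    FA.Height.exists_quadratic (h := fun P : E.toAffine.Point => logHeight P.xRep) hC
  obtain rfl : f = g := FA.Height.eq_of_bounded hf.choose_spec hD.choose_spec h2 hg2
  obtain ⟨D, hD⟩ := hD
  have hfin : ∀ b, {P | f P ≤ b}.Finite := fun b =>
    (FA.MordellWeilNF.finite_le_height E (b + D)).subset fun P (hP : f P ≤ b) => by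
      have := (abs_le.mp (hD P)).1
      show logHeight P.xRep ≤ b + D
      linarith
  exact ⟨hpar, FA.Height.map_zsmul_of_law hpar, hnn fun P => logHeight_nonneg _,
    FA.Height.eq_zero_iff_of_finite hpar hfin, hfin⟩

/-- **The height pairing is positive definite** on independent points. -/
theorem canonicalHeight_posDef {K : Type*} [Field K] [NumberField K] [DecidableEq K]
    (E : WeierstrassCurve K) [E.IsElliptic] {f : E.toAffine.Point → ℝ}
    (hf : ∃ C, ∀ P, |f P - logHeight P.xRep| ≤ C) (h2 : ∀ P, f (2 • P) = 4 * f P)
    {ι : Type*} [Fintype ι] {P : ι → E.toAffine.Point} (hP : LinearIndependent ℤ P) :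
    (Matrix.of fun i j => (f (P i + P j) - f (P i) - f (P j)) / 2).PosDef := by
  obtain ⟨hpar, -, hnn, -, hfin⟩ := canonicalHeight_properties E hf h2
  exact FA.Height.pairing_posDef hpar hnn hfin hP

/-- **The regulator is positive**: independent points as many as the rank have a positive
determinant of height pairings. -/
theorem regulator_pos {K : Type*} [Field K] [NumberField K] [DecidableEq K]
    (E : WeierstrassCurve K) [E.IsElliptic] {f : E.toAffine.Point → ℝ}
    (hf : ∃ C, ∀ P, |f P - logHeight P.xRep| ≤ C) (h2 : ∀ P, f (2 • P) = 4 * f P) :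
    ∃ P : Fin (Module.finrank ℤ E.toAffine.Point) → E.toAffine.Point, LinearIndependent ℤ P ∧
      0 < (Matrix.of fun i j => (f (P i + P j) - f (P i) - f (P j)) / 2).det := by
  haveI := FA.Summary.mordellWeil E
  haveI : Module.Finite ℤ E.toAffine.Point := Module.Finite.iff_addGroup_fg.mpr inferInstance
  obtain ⟨P, hP⟩ := exists_linearIndependent_of_le_finrank
    (le_refl (Module.finrank ℤ E.toAffine.Point))
  exact ⟨P, hP, (canonicalHeight_posDef E hf h2 hP).det_pos⟩

end FA.Summary

end
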