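import Fermat.Agent.CubeRootBounds.Circle
import Fermat.Agent.CubeRootBounds.Divisor
import Mathlib.Analysis.SpecialFunctions.Pow.Asymptotics

/-!
# The theorems of Voronoi and Sierpiński

* `gauss_circle_sierpinski`: `#{x² + y² ≤ N} = π N + O (N^(1/3) log N)`, with `θ > 1/3` against the
  exponent `1/4` of `gauss_circle_not_isBigO`;
* `dirichlet_divisor_voronoi`: `∑_{n ≤ N} d (n) = N log N + (2 γ - 1) N + O (N^(1/3) (log N)²)`.
-/

set_option autoImplicit false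

noncomputable section

namespace FA.Summary

open Finset Filter Asymptotics
open scoped Real

/-- **Sierpiński's bound in Gauss's circle problem.** -/
theorem gauss_circle_sierpinski :
    ∃ C : ℝ, ∀ N : ℕ, 1 ≤ N →
      |({v : ℤ × ℤ | v.1 ^ 2 + v.2 ^ 2 ≤ (N : ℤ)}.ncard : ℝ) - π * N| ≤
        C * (N : ℝ) ^ ((1 : ℝ) / 3) * (1 + Real.log N) :=
  FA.CubeRootBounds.exists_circle_bound

/-- **Voronoi's bound in Dirichlet's divisor problem.** -/
theorem dirichlet_divisor_voronoi :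
    ∃ C : ℝ, ∀ N : ℕ, 1 ≤ N →
      |(∑ n ∈ Icc 1 N, (n.divisors.card : ℝ)) -
          (N * Real.log N + (2 * Real.eulerMascheroniConstant - 1) * N)| ≤
        C * (N : ℝ) ^ ((1 : ℝ) / 3) * (1 + Real.log N) ^ 2 :=
  FA.CubeRootBounds.exists_divisor_bound

theorem isBigO_rpow_of_cube_root_bound {E : ℕ → ℝ} {C : ℝ} {k : ℕ}
    (h : ∀ N : ℕ, 1 ≤ N → |E N| ≤ C * (N : ℝ) ^ ((1 : ℝ) / 3) * (1 + Real.log N) ^ k) {θ : ℝ}
    (hθ : 1 / 3 < θ) : E =O[atTop] fun N : ℕ => (N : ℝ) ^ θ := by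
  set ε := (θ - 1 / 3) / (k + 1) with hε
  have hε0 : 0 < ε := div_pos (by linarith) (by positivity)
  refine IsBigO.of_bound (|C| * (1 + 1 / ε) ^ k) (eventually_atTop.2 ⟨1, fun N hN => ?_⟩)
  have hNR : (1 : ℝ) ≤ N := Nat.one_le_cast.2 hN
  have hlog : 1 + Real.log N ≤ (1 + 1 / ε) * (N : ℝ) ^ ε := by
    have h1 := Real.log_le_rpow_div (show (0 : ℝ) ≤ N by positivity) hε0
    have h2 := Real.one_le_rpow hNR hε0.le
    rw [add_mul, one_mul, div_mul_eq_mul_div, one_mul]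
    linarith
  have hpow : (N : ℝ) ^ ((1 : ℝ) / 3) * ((N : ℝ) ^ ε) ^ k ≤ (N : ℝ) ^ θ := by
    rw [← Real.rpow_natCast (_ ^ _) k, ← Real.rpow_mul (by linarith),
      ← Real.rpow_add (by linarith)]
    refine Real.rpow_le_rpow_of_exponent_le hNR ?_
    have : ε * (k + 1) = θ - 1 / 3 := by rw [hε]; field_simp
    nlinarith
  have hl0 : 0 ≤ 1 + Real.log N := by linarith [Real.log_nonneg hNR]
  rw [Real.norm_eq_abs, Real.norm_of_nonneg (by positivity)]
  calc |E N| ≤ C * (N : ℝ) ^ ((1 : ℝ) / 3) * (1 + Real.log N) ^ k := h N hN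
    _ ≤ |C| * (N : ℝ) ^ ((1 : ℝ) / 3) * ((1 + 1 / ε) * (N : ℝ) ^ ε) ^ k := by
        gcongr
        exact le_abs_self C
    _ = |C| * (1 + 1 / ε) ^ k * ((N : ℝ) ^ ((1 : ℝ) / 3) * ((N : ℝ) ^ ε) ^ k) := by
        rw [mul_pow]; ring
    _ ≤ |C| * (1 + 1 / ε) ^ k * (N : ℝ) ^ θ :=
        mul_le_mul_of_nonneg_left hpow (by positivity)

/-- The error term in the circle problem is `O (N ^ θ)` for every `θ > 1/3`. -/
theorem gauss_circle_isBigO (θ : ℝ) (hθ : 1 / 3 < θ) :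
    (fun N : ℕ => ({v : ℤ × ℤ | v.1 ^ 2 + v.2 ^ 2 ≤ (N : ℤ)}.ncard : ℝ) - π * N) =O[atTop]
      fun N : ℕ => (N : ℝ) ^ θ := by
  obtain ⟨C, hC⟩ := gauss_circle_sierpinski
  exact isBigO_rpow_of_cube_root_bound (C := C) (k := 1) (fun N hN => by simpa using hC N hN) hθ

/-- The error term in the divisor problem is `O (N ^ θ)` for every `θ > 1/3`. -/
theorem dirichlet_divisor_isBigO (θ : ℝ) (hθ : 1 / 3 < θ) :
    (fun N : ℕ => (∑ n ∈ Icc 1 N, (n.divisors.card : ℝ)) -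
        (N * Real.log N + (2 * Real.eulerMascheroniConstant - 1) * N)) =O[atTop]
      fun N : ℕ => (N : ℝ) ^ θ := by
  obtain ⟨C, hC⟩ := dirichlet_divisor_voronoi
  exact isBigO_rpow_of_cube_root_bound (C := C) (k := 2) hC hθ

end FA.Summary

end
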