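import Fermat.Agent.EC.S51Aux
import Fermat.Agent.IsogenyDegrees.FifteenTwentyOne
import Fermat.Agent.MordellCurve.Cubic
import Fermat.Agent.Torsion.Order27Field

/-!
# Cyclic isogenies of degree `27` over `ℚ`

* `isogeny_twentySeven_j_iff`: a curve over `ℚ` has a Galois stable cyclic subgroup of order `27`
  exactly for `j = -12288000`.

A generator lives in an abelian field `F`; there the parameter `t` of the subgroup of order `9` is
rational and `t² + 9 t + 27` is a cube, so a cube in `ℚ`, and the Fermat cubic leaves `t = -9`.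
-/

set_option autoImplicit false
set_option linter.style.haveILetI false
set_option linter.unusedSectionVars false

noncomputable section

open WeierstrassCurve FA.KerPoly FA.Torsion
open scoped WeierstrassCurve.Affine IntermediateField

local notation "Qb" => AlgebraicClosure ℚ
local notation "GQ" => AlgebraicClosure ℚ ≃ₐ[ℚ] AlgebraicClosure ℚ

namespace FA.X0TwentySeven

/-- A rational number with a cube root on which Galois commutes is a cube. -/
theorem exists_cube_root {N : ℚ} {k : Qb} (hk : k ^ 3 = algebraMap ℚ Qb N)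
    (hcomm : ∀ σ τ : GQ, σ (τ k) = τ (σ k)) : ∃ q : ℚ, q ^ 3 = N := by
  rcases eq_or_ne k 0 with rfl | hk0
  · exact ⟨0, (algebraMap ℚ Qb).injective (by rw [map_pow, map_zero, hk])⟩
  obtain ⟨ω, hω3⟩ : ∃ ω : Qb, ω ^ 2 + ω + 1 = 0 := by
    obtain ⟨s, hs⟩ := IsAlgClosed.exists_pow_nat_eq (-3 : Qb) two_pos
    exact ⟨(-1 + s) / 2, by linear_combination hs / 4⟩
  have hω0 : ω ≠ 0 := fun h => by rw [h] at hω3; norm_num at hω3
  have hω1 : ω ≠ 1 := fun h => by rw [h] at hω3; norm_num at hω3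
  have h1 : ω ^ 3 = 1 := by linear_combination (ω - 1) * hω3
  have hroot : ∀ a : Qb, a ^ 3 = k ^ 3 → a = k ∨ a = ω * k ∨ a = ω ^ 2 * k := fun a ha => by
    have h : (a - k) * ((a - ω * k) * (a - ω ^ 2 * k)) = 0 := by
      linear_combination ha + (ω * k ^ 2 * a - k * a ^ 2 - k ^ 3 * (ω - 1)) * hω3
    rcases mul_eq_zero.1 h with h | h
    · exact Or.inl (sub_eq_zero.1 h)
    rcases mul_eq_zero.1 h with h | h
    · exact Or.inr (Or.inl (sub_eq_zero.1 h))
    · exact Or.inr (Or.inr (sub_eq_zero.1 h))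
  have hωσ : ∀ σ : GQ, σ ω = ω ∨ σ ω = ω ^ 2 := fun σ => by
    have h : σ ω ^ 2 + σ ω + 1 = 0 := by
      rw [← map_pow, ← map_add, ← map_one σ, ← map_add, hω3, map_zero]
    have h2 : (σ ω - ω) * (σ ω - ω ^ 2) = 0 := by
      linear_combination h + (ω - 1 - σ ω) * hω3
    exact (mul_eq_zero.1 h2).imp sub_eq_zero.1 sub_eq_zero.1
  have hcube : ∀ σ : GQ, σ k = k ∨ σ k = ω * k ∨ σ k = ω ^ 2 * k := fun σ =>
    hroot _ (by rw [← map_pow, hk, AlgEquiv.commutes])
  -- an element moving `ω`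
  obtain ⟨τ, hτ⟩ : ∃ τ : GQ, τ ω = ω ^ 2 := by
    by_contra hno
    obtain ⟨q, hq⟩ := FA.EC.mem_range_of_fixed (x := ω) fun σ =>
      (hωσ σ).resolve_right fun h => hno ⟨σ, h⟩
    have : q ^ 2 + q + 1 = (0 : ℚ) := (algebraMap ℚ Qb).injective (by
      simp only [map_add, map_pow, map_one, map_zero, hq, hω3])
    nlinarith [sq_nonneg (q + 1 / 2)]
  -- what fixes `ω` fixes `k`
  have hfix : ∀ σ : GQ, σ ω = ω → σ k = k := fun σ hσ => by
    have hab : ∀ ρ : GQ, ∃ a : Qb, a ≠ 0 ∧ σ a = a ∧ τ a = a ^ 2 ∧ ρ k = a * k := fun ρ => by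
      rcases hcube ρ with e | e | e
      · exact ⟨1, one_ne_zero, map_one σ, by rw [map_one, one_pow], by rw [e, one_mul]⟩
      · exact ⟨ω, hω0, hσ, hτ, e⟩
      · exact ⟨ω ^ 2, pow_ne_zero 2 hω0, by rw [map_pow, hσ], by rw [map_pow, hτ], e⟩
    obtain ⟨a, ha0, hσa, hτa, ea⟩ := hab σ
    obtain ⟨b, hb0, hσb, -, eb⟩ := hab τ
    have h := hcomm σ τ
    rw [ea, eb, map_mul, map_mul, hσb, hτa, ea, eb] at h
    have h' : a * (a * b * k) = 1 * (a * b * k) := by linear_combination -h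
    rw [ea, mul_right_cancel₀ (mul_ne_zero (mul_ne_zero ha0 hb0) hk0) h', one_mul]
  -- a cube root fixed by `τ`
  obtain ⟨k', hk', hτk', hfix'⟩ : ∃ k' : Qb, k' ^ 3 = k ^ 3 ∧ τ k' = k' ∧
      ∀ σ : GQ, σ ω = ω → σ k' = k' := by
    rcases hcube τ with e | e | e
    · exact ⟨k, rfl, e, hfix⟩
    · refine ⟨ω ^ 2 * k, by linear_combination k ^ 3 * (ω ^ 3 + 1) * h1, ?_, fun σ hσ =>
        by rw [map_mul, map_pow, hσ, hfix σ hσ]⟩
      rw [map_mul, map_pow, hτ, e]
      linear_combination ω ^ 2 * k * h1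
    · refine ⟨ω * k, by linear_combination k ^ 3 * h1, ?_, fun σ hσ =>
        by rw [map_mul, hσ, hfix σ hσ]⟩
      rw [map_mul, hτ, e]
      linear_combination ω * k * h1
  obtain ⟨q, hq⟩ := FA.EC.mem_range_of_fixed (x := k') fun σ => by
    rcases hωσ σ with h | h
    · exact hfix' σ h
    · have := hfix' (τ⁻¹ * σ) (by
        rw [AlgEquiv.mul_apply, h, ← hτ]
        exact τ.symm_apply_apply ω)
      rw [AlgEquiv.mul_apply] at this
      have := congrArg τ this
      rw [hτk'] at this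
      exact (τ.apply_symm_apply _).symm.trans this
  exact ⟨q, (algebraMap ℚ Qb).injective (by rw [map_pow, hq, hk', hk])⟩

/-- The invariant function of the parameter of a point of order `9`. -/
def nineX {K : Type*} [Field K] (f : K) : K := (f ^ 3 - 3 * f + 1) / (f * (f - 1))

theorem nineX_orbit {K : Type*} [Field K] {f : K} (h0 : f ≠ 0) (h1 : f - 1 ≠ 0) :
    nineX ((f - 1) / f) = nineX f ∧ nineX (1 / (1 - f)) = nineX f := by
  have h1' : 1 - f ≠ 0 := fun h => h1 (by linear_combination -h)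
  unfold nineX
  constructor
  · rw [show (f - 1) / f - 1 = -1 / f by field_simp; ring]
    field_simp
    ring
  · rw [show 1 / (1 - f) - 1 = f / (1 - f) by field_simp; ring]
    field_simp
    ring

variable {E : WeierstrassCurve ℚ} [E.IsElliptic]

/-- The abscissa of a multiple of a point of order `9` depends on `± n` modulo `9`. -/
theorem xc_zsmul_congr {R : (E.toAffine⁄Qb).Point} (h9 : 9 • R = 0) {n m : ℤ}
    (h : (9 : ℤ) ∣ n - m ∨ (9 : ℤ) ∣ n + m) :
    FA.EC.xc (W := E⁄Qb) (n • R) = FA.EC.xc (W := E⁄Qb) (m • R) := by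
  have h9' : (9 : ℤ) • R = 0 := by
    rw [show (9 : ℤ) = ((9 : ℕ) : ℤ) from rfl, natCast_zsmul]; exact h9
  rcases h with ⟨d, hd⟩ | ⟨d, hd⟩
  · rw [show n = m + d * 9 by omega, add_zsmul, mul_zsmul, h9', zsmul_zero, add_zero]
  · rw [show n = -m + d * 9 by omega, add_zsmul, mul_zsmul, h9', zsmul_zero, add_zero, neg_zsmul]
    exact FA.EC.xc_neg _

/-- **The parameter of a stable line of order `27`.** -/
theorem j_of_stable (h : HasStableOrder E 27) : E.j = -12288000 := by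
  classical
  obtain ⟨g, hg, hst⟩ := h
  obtain ⟨x, y, hns, rfl⟩ := FA.EC.exists_some_of_ne_zero (W := E⁄Qb) (P := g)
    (fun h => by rw [h, addOrderOf_zero] at hg; omega)
  set F := ℚ⟮x, y⟯
  have hxF : x ∈ F := IntermediateField.subset_adjoin ℚ _ (by simp)
  have hyF : y ∈ F := IntermediateField.subset_adjoin ℚ _ (by simp)
  have hnsF : (E⁄F).toAffine.Nonsingular (⟨x, hxF⟩ : F) (⟨y, hyF⟩ : F) :=
    (Affine.baseChange_nonsingular (W := E.toAffine) (f := F.val) F.val.injective _ _).1 hns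
  set P : (E⁄F).toAffine.Point := Affine.Point.some _ _ hnsF with hPdef
  set ι := Affine.Point.map (W' := E.toAffine) F.val
  have hι : ι P = Affine.Point.some x y hns := rfl
  have hιinj : Function.Injective ι := Affine.Point.map_injective _
  have hP : addOrderOf P = 27 := by
    rw [← addOrderOf_injective ι hιinj P, hι]; exact hg
  obtain ⟨x₁, y₁, x₂, y₂, x₄, y₄, h₁, h₂, h₄, f, z, e₁, e₂, e₄, hne, hf, hf0, hf1, hz, hj⟩ :=
    order_27_data P hP
  set g := Affine.Point.some (W' := (E⁄Qb).toAffine) x y hns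
  set R : (E.toAffine⁄Qb).Point := 3 • g with hR
  have hR9 : 9 • R = 0 := by
    rw [hR, smul_smul, show 9 * 3 = 27 from rfl, ← hg, addOrderOf_nsmul_eq_zero]
  have hxR : ∀ {k : ℕ} {a b : F} {hab : (E⁄F).toAffine.Nonsingular a b},
      k • 3 • P = Affine.Point.some a b hab → FA.EC.xc (W := E⁄Qb) ((k : ℤ) • R) = (a : Qb) := by
    intro k a b hab he
    rw [natCast_zsmul, hR, ← hι, ← map_nsmul, ← map_nsmul, he]
    rfl
  have hx1 := hxR (k := 1) (by rw [one_nsmul]; exact e₁)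
  have hx2 := hxR e₂
  have hx4 := hxR e₄
  -- commutation on `F`
  have hcomm : ∀ σ τ : GQ, ∀ a ∈ F, σ (τ a) = τ (σ a) := by
    intro σ τ
    obtain ⟨c, hc⟩ := hst σ
    obtain ⟨d, hd⟩ := hst τ
    have hmul : σ • τ • g = τ • σ • g := by
      show Affine.Point.map σ.toAlgHom (Affine.Point.map τ.toAlgHom g) =
        Affine.Point.map τ.toAlgHom (Affine.Point.map σ.toAlgHom g)
      rw [← hd, map_zsmul, ← hc, map_zsmul, ← hd, ← mul_zsmul, ← mul_zsmul, mul_comm]
    obtain ⟨hxx, hyy⟩ := Affine.Point.some.inj hmul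
    intro a ha
    induction ha using IntermediateField.adjoin_induction with
    | mem a ha =>
      rcases ha with rfl | rfl
      exacts [hxx, hyy]
    | algebraMap q => simp
    | add a b _ _ iha ihb => simp [iha, ihb]
    | inv a _ iha => simp [iha]
    | mul a b _ _ iha ihb => simp [iha, ihb]
  -- the parameter is rational
  have hfQ : (f : Qb) * ((x₄ : Qb) - x₁) = (x₂ : Qb) - x₁ := by
    exact_mod_cast congrArg (fun a : F => (a : Qb)) hf
  have hneQ : (x₄ : Qb) - x₁ ≠ 0 := by exact_mod_cast hne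
  have hf0Q : (f : Qb) ≠ 0 := by exact_mod_cast hf0
  have hf1Q : (f : Qb) - 1 ≠ 0 := by exact_mod_cast hf1
  have hXfix : ∀ σ : GQ, σ (nineX (f : Qb)) = nineX (f : Qb) := by
    intro σ
    obtain ⟨c, hc⟩ := hst σ
    have hσx : ∀ n : ℤ, σ (FA.EC.xc (W := E⁄Qb) (n • R)) = FA.EC.xc (W := E⁄Qb) ((c * n) • R) := by
      intro n
      have e : Affine.Point.map (W' := E.toAffine) σ.toAlgHom (n • R) = (c * n) • R := by
        rw [map_zsmul, hR, map_nsmul, ← hc, mul_comm c n, mul_zsmul]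
        congr 1
        exact ((zsmulAddGroupHom c : _ →+ _).map_nsmul 3 g).symm
      rw [← e]
      rcases hh : n • R with _ | ⟨a, b, hab⟩
      · exact map_zero σ
      · rfl
    have hσf : σ (nineX (f : Qb)) = nineX (σ (f : Qb)) := by
      simp [nineX, map_ofNat]
    have hf' : σ (f : Qb) * (σ (x₄ : Qb) - σ (x₁ : Qb)) = σ (x₂ : Qb) - σ (x₁ : Qb) := by
      rw [← map_sub, ← map_mul, hfQ, map_sub]
    have hne' : σ (x₄ : Qb) - σ (x₁ : Qb) ≠ 0 := by
      rw [← map_sub]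
      exact (map_ne_zero σ).2 hneQ
    have s1 : σ (x₁ : Qb) =
        FA.EC.xc (W := E⁄Qb) ((c * ((1 : ℕ) : ℤ)) • R) := by rw [← hx1, hσx]
    have s2 : σ (x₂ : Qb) =
        FA.EC.xc (W := E⁄Qb) ((c * ((2 : ℕ) : ℤ)) • R) := by rw [← hx2, hσx]
    have s4 : σ (x₄ : Qb) =
        FA.EC.xc (W := E⁄Qb) ((c * ((4 : ℕ) : ℤ)) • R) := by rw [← hx4, hσx]
    have hc3 : ¬ (3 : ℤ) ∣ c := fun ⟨d, hd⟩ => by
      have h9 : Affine.Point.map (W' := E.toAffine) σ.toAlgHom ((9 : ℤ) • g) = 0 := by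
        rw [map_zsmul, ← hc, ← mul_zsmul, hd, show (9 : ℤ) * (3 * d) = d * ((27 : ℕ) : ℤ) by
          push_cast; ring, mul_zsmul, natCast_zsmul, ← hg, addOrderOf_nsmul_eq_zero, zsmul_zero]
      have := addOrderOf_dvd_iff_zsmul_eq_zero.2
        (Affine.Point.map_injective σ.toAlgHom (h9.trans (map_zero _).symm))
      rw [hg] at this
      omega
    have key : ∀ m : ℤ, (9 : ℤ) ∣ c - m ∨ (9 : ℤ) ∣ c + m → ∀ n k : ℤ,
        (9 : ℤ) ∣ m * n - k ∨ (9 : ℤ) ∣ m * n + k →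
          FA.EC.xc (W := E⁄Qb) ((c * n) • R) = FA.EC.xc (W := E⁄Qb) (k • R) := by
      intro m hm n k hk
      refine (xc_zsmul_congr hR9 (m := m * n) ?_).trans (xc_zsmul_congr hR9 hk)
      rcases hm with ⟨a, ha⟩ | ⟨a, ha⟩
      · exact Or.inl ⟨a * n, by linear_combination n * ha⟩
      · exact Or.inr ⟨a * n, by linear_combination n * ha⟩
    rw [hσf]
    have hcases : ((9 : ℤ) ∣ c - 1 ∨ (9 : ℤ) ∣ c + 1) ∨ ((9 : ℤ) ∣ c - 2 ∨ (9 : ℤ) ∣ c + 2) ∨
        ((9 : ℤ) ∣ c - 4 ∨ (9 : ℤ) ∣ c + 4) := by omega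
    rcases hcases with hm | hm | hm
    · rw [key _ hm ((1 : ℕ) : ℤ) ((1 : ℕ) : ℤ) (by norm_num), hx1] at s1
      rw [key _ hm ((2 : ℕ) : ℤ) ((2 : ℕ) : ℤ) (by norm_num), hx2] at s2
      rw [key _ hm ((4 : ℕ) : ℤ) ((4 : ℕ) : ℤ) (by norm_num), hx4] at s4
      rw [s1, s2, s4, ← hfQ] at hf'
      rw [mul_right_cancel₀ hneQ hf']
    · rw [key _ hm ((1 : ℕ) : ℤ) ((2 : ℕ) : ℤ) (by norm_num), hx2] at s1
      rw [key _ hm ((2 : ℕ) : ℤ) ((4 : ℕ) : ℤ) (by norm_num), hx4] at s2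
      rw [key _ hm ((4 : ℕ) : ℤ) ((1 : ℕ) : ℤ) (by norm_num), hx1] at s4
      rw [s1, s4] at hne'
      rw [s1, s2, s4] at hf'
      rw [show σ (f : Qb) = ((f : Qb) - 1) / f from (eq_div_iff hf0Q).2
        (mul_right_cancel₀ hne' (by linear_combination (f : Qb) * hf' + hfQ))]
      exact (nineX_orbit hf0Q hf1Q).1
    · rw [key _ hm ((1 : ℕ) : ℤ) ((4 : ℕ) : ℤ) (by norm_num), hx4] at s1
      rw [key _ hm ((2 : ℕ) : ℤ) ((1 : ℕ) : ℤ) (by norm_num), hx1] at s2
      rw [key _ hm ((4 : ℕ) : ℤ) ((2 : ℕ) : ℤ) (by norm_num), hx2] at s4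
      rw [s1, s4] at hne'
      rw [s1, s2, s4] at hf'
      rw [show σ (f : Qb) = 1 / (1 - (f : Qb)) from (eq_div_iff
        (fun h => hf1Q (by linear_combination -h))).2
        (mul_right_cancel₀ hne' (by linear_combination (1 - (f : Qb)) * hf' + hfQ))]
      exact (nineX_orbit hf0Q hf1Q).2
  obtain ⟨X, hX⟩ := FA.EC.mem_range_of_fixed hXfix
  -- the cube
  set k : F := (f ^ 2 - f + 1) / z with hk
  have hz0 : z ≠ 0 := fun h => mul_ne_zero hf0 hf1 (pow_eq_zero_iff two_ne_zero |>.1 (by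
    rw [← hz, h, zero_pow three_ne_zero]))
  have hk3 : k ^ 3 = nineX f ^ 2 - 3 * nineX f + 9 := by
    rw [hk, div_pow, hz, nineX]
    field_simp
    ring
  have c3 : ((3 : F) : Qb) = 3 := map_ofNat F.val 3
  have c9 : ((9 : F) : Qb) = 9 := map_ofNat F.val 9
  have hXF : (nineX f : F) = algebraMap ℚ F X := Subtype.ext (by
    rw [show ((algebraMap ℚ F X : F) : Qb) = algebraMap ℚ Qb X from rfl, hX]
    simp [nineX, c3])
  obtain ⟨q, hq⟩ := exists_cube_root (N := X ^ 2 - 3 * X + 9) (k := (k : Qb)) (by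
      have := congrArg (fun a : F => (a : Qb)) hk3
      rw [hXF] at this
      simpa [c3, c9] using this) fun σ τ => hcomm σ τ _ k.2
  -- the invariant
  have hjQ : E.j * nineDen (X - 6) = nineNum (X - 6) := (algebraMap ℚ F).injective (by
    rw [show (E⁄F).j = algebraMap ℚ F E.j from E.map_j _, ← nineX, hXF] at hj
    simp only [nineDen, nineNum] at hj ⊢
    simpa [map_sub, map_mul, map_add, map_pow] using hj)
  obtain ⟨-, hy⟩ := FA.Summary.rational_points_curve27 (x := 4 * q) (y := 4 * (2 * X - 3))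
    (by linear_combination -64 * hq)
  have hX' : X = 6 ∨ X = -3 := by rcases hy with h | h <;> [left; right] <;> linarith
  rcases hX' with rfl | rfl <;> norm_num [nineDen, nineNum] at hjQ
  linarith

/-- A stable line moves to every curve with the same invariant. -/
theorem hasStableOrder_of_same_j {a b : ℤ} (ha : a ≠ 0) (hb : b ≠ 0)
    (hab : 4 * a ^ 3 + 27 * b ^ 2 ≠ 0) (E E' : WeierstrassCurve ℚ) [E.IsElliptic] [E'.IsElliptic]
    (hE : E.j = 6912 * (a : ℚ) ^ 3 / (4 * (a : ℚ) ^ 3 + 27 * (b : ℚ) ^ 2))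
    (hE' : E'.j = 6912 * (a : ℚ) ^ 3 / (4 * (a : ℚ) ^ 3 + 27 * (b : ℚ) ^ 2)) {n : ℕ}
    (h : HasStableOrder E' n) : HasStableOrder E n := by
  have hab' : 4 * (a : ℚ) ^ 3 + 27 * (b : ℚ) ^ 2 ≠ 0 := by exact_mod_cast hab
  obtain ⟨d, hd, htw⟩ := FA.CM.ClassOne.exists_quadTwist_eq_short (Int.cast_ne_zero.2 ha)
    (Int.cast_ne_zero.2 hb) hab' E hE
  obtain ⟨d', hd', htw'⟩ := FA.CM.ClassOne.exists_quadTwist_eq_short (Int.cast_ne_zero.2 ha)
    (Int.cast_ne_zero.2 hb) hab' E' hE'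
  obtain ⟨e, he⟩ := FA.Root.exists_twist_equiv E hd
  obtain ⟨e', he'⟩ : ∃ e' : ((FA.Twists.quadTwist E d).toAffine⁄Qb).Point ≃+
      (E'.toAffine⁄Qb).Point, ∀ (σ : GQ) (Q),
      Affine.Point.map (W' := E'.toAffine) σ.toAlgHom (e' Q) = e' (σ • Q) ∨
        Affine.Point.map (W' := E'.toAffine) σ.toAlgHom (e' Q) = -e' (σ • Q) := by
    rw [htw.trans htw'.symm]
    exact FA.Root.exists_twist_equiv E' hd'
  obtain ⟨g, hg, hst⟩ := h
  obtain ⟨u, rfl⟩ := e'.surjective g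
  refine ⟨e u, by rw [AddEquiv.addOrderOf_eq, ← hg, AddEquiv.addOrderOf_eq], fun σ => ?_⟩
  obtain ⟨c, hc⟩ := hst σ
  obtain ⟨c', hu⟩ : ∃ c' : ℤ, c' • u = σ • u := by
    rcases he' σ u with h | h <;> rw [h] at hc
    · exact ⟨c, e'.injective (by rw [map_zsmul, hc])⟩
    · exact ⟨-c, e'.injective (by rw [map_zsmul, neg_zsmul, hc, neg_neg])⟩
  have hev : c' • e u = e (σ • u) := (map_zsmul e c' u).symm.trans (congrArg e hu)
  rcases he σ u with h | h
  · exact ⟨c', hev.trans h.symm⟩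
  · exact ⟨-c', by rw [neg_zsmul, hev, h]⟩

/-- The invariant `-12288000` has a stable cyclic subgroup of order `27`. -/
theorem hasStableOrder (E : WeierstrassCurve ℚ) [E.IsElliptic] (hj : E.j = -12288000) :
    HasStableOrder E 27 := by
  set W : WeierstrassCurve ℤ := ⟨0, 0, 1, -30, 63⟩
  haveI hW : (W.map (Int.castRingHom ℚ)).IsElliptic :=
    ⟨Ne.isUnit (by rw [map_Δ, eq_intCast]; norm_num [W, WeierstrassCurve.Δ, WeierstrassCurve.b₂,
      WeierstrassCurve.b₄, WeierstrassCurve.b₆, WeierstrassCurve.b₈])⟩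
  obtain ⟨G, hcard, hcyc, hst⟩ := exists_cyclic_of_checks (N := 27) (g := 2) (W := W)
    (by norm_num) (by norm_num) (r := kerTwentySeven) (by decide) rfl rfl cycle_twentySeven
    (fun q hq => by
      rw [show (27 : ℕ) = 3 ^ 3 from rfl, Nat.primeFactors_prime_pow three_ne_zero
        Nat.prime_three, Finset.mem_singleton] at hq
      exact ⟨_, _, _, order_twentySeven_three, by rw [hq]; rfl⟩) (by decide +kernel)
  obtain ⟨g, hg, hgst⟩ := @hasStableOrder_of_subgroup _ _ G _ hcard hcyc hst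
  have hWj : (W.map (Int.castRingHom ℚ)).j = -12288000 := by
    rw [WeierstrassCurve.j, Units.val_inv_eq_inv_val, coe_Δ', map_Δ, map_c₄]
    norm_num [W, WeierstrassCurve.Δ, WeierstrassCurve.c₄, WeierstrassCurve.b₂, WeierstrassCurve.b₄,
      WeierstrassCurve.b₆, WeierstrassCurve.b₈]
  have hab : (4 : ℤ) * (-480) ^ 3 + 27 * 4048 ^ 2 ≠ 0 := by norm_num
  exact hasStableOrder_of_same_j (a := -480) (b := 4048) (by norm_num) (by norm_num) hab E
    (W.map (Int.castRingHom ℚ)) (hj.trans (by norm_num)) (hWj.trans (by norm_num)) ⟨g, hg, hgst⟩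

end FA.X0TwentySeven

namespace FA.Summary

variable (E : WeierstrassCurve ℚ) [E.IsElliptic] [inst : DecidableEq (AlgebraicClosure ℚ)]

/-- **The cyclic isogenies of degree `27` over `ℚ`.** -/
theorem isogeny_twentySeven_j_iff :
    (∃ G : AddSubgroup (E.toAffine⁄(AlgebraicClosure ℚ)).Point, Nat.card G = 27 ∧ IsAddCyclic G ∧
      ∀ σ : AlgebraicClosure ℚ ≃ₐ[ℚ] AlgebraicClosure ℚ, ∀ P ∈ G,
        Affine.Point.map σ.toAlgHom P ∈ G) ↔ E.j = -12288000 := by
  obtain rfl : inst = instDecEqAlgebraicClosureRat := Subsingleton.elim _ _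
  refine ⟨fun ⟨G, hcard, hcyc, hst⟩ => ?_, fun h => ?_⟩
  · exact FA.X0TwentySeven.j_of_stable (@hasStableOrder_of_subgroup _ _ G _ hcard hcyc hst)
  · exact (FA.X0TwentySeven.hasStableOrder E h).exists_subgroup

end FA.Summary

end
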