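import Fermat.Agent.CuspClass.IsogenyCount
import Fermat.Agent.CuspClass.Nineteen
import Fermat.Agent.Root.SummaryCMIsogeny

/-!
# The rational points of `J₀(19)` and `X₀(19)`, and the isogenies of degree `19`

* `jacobian_nineteen_rational_points`: the rational classes of `J₀(19)` are the multiples of the
  class of `(0) - (∞)`, of order `3`.
* `x0_nineteen_rational_places`: `X₀(19)` has exactly three rational places, one outside the cusps.
* `isogeny_nineteen_j_iff`: an elliptic curve over `ℚ` has a Galois stable subgroup of order `19`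
  exactly for `j = -96³`.
-/

set_option autoImplicit false
set_option linter.style.haveILetI false
set_option linter.unusedSectionVars false
set_option synthInstance.maxHeartbeats 400000
set_option maxHeartbeats 1600000

noncomputable section

open ModularCurve AlgebraicCurve FA.Curve FA.ModField FA.Level FA.JTorsion FA.Mazur WeierstrassCurve
open scoped WeierstrassCurve.Affine

local notation "Qb" => AlgebraicClosure ℚ
local notation "GQ" => AlgebraicClosure ℚ ≃ₐ[ℚ] AlgebraicClosure ℚ

namespace FA.CuspClass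

/-- **Every rational class of `J₀(19)` is torsion.** -/
theorem isOfFinAddOrder_nineteen {x : JZero 19} (hfix : ∀ σ : GQ, σ • x = x) :
    IsOfFinAddOrder x := by
  haveI : Fact (Nat.Prime 19) := ⟨by norm_num⟩
  haveI : Fact (Nat.Prime 3) := ⟨by norm_num⟩
  obtain ⟨alg⟩ := FA.JTorsion.exists_algebra_qbar
  letI := alg
  obtain ⟨inst⟩ := exists_algebra_local 3
  letI := inst
  exact isOfFinAddOrder_of_fixed (p := 19) (l := 3) (by norm_num)
    (by rw [curveGenus_level Qb 19, finrank_cuspForm_nineteen]) (by norm_num) (by decide) hfix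

end FA.CuspClass

namespace FA.Summary

open FA.CuspClass

/-- **`J₀(19)(ℚ) = ℤ / 3`**: the cuspidal class generates all rational classes. -/
theorem jacobian_nineteen_rational_points :
    ∃ (Pinf P0 : Place Qb (modularFunctionFieldBar 19))
      (hdeg : Finsupp.single P0 (1 : ℤ) - Finsupp.single Pinf 1 ∈
        Divisor.degZero (K := Qb) (F := modularFunctionFieldBar 19)),
      Pinf ≠ P0 ∧
      (∀ f : modularFunctionFieldBar 19, Pinf.ord f = (f : LaurentSeries Qb).order) ∧
      (∀ J : modularFunctionFieldBar 19, (J : LaurentSeries Qb) = jqModC Qb →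
        Pinf.ord J = -1 ∧ P0.ord J = -((19 : ℕ) : ℤ) ∧
          ∀ v : Place Qb (modularFunctionFieldBar 19), v.ord J < 0 → v = Pinf ∨ v = P0) ∧
      addOrderOf (Pic0.mk ⟨_, hdeg⟩ : JZero 19) = 3 ∧
      ∀ x : JZero 19, (∀ σ : GQ, σ • x = x) ↔
        x ∈ AddSubgroup.zmultiples (Pic0.mk ⟨_, hdeg⟩ : JZero 19) := by
  haveI : Fact (Nat.Prime 19) := ⟨by norm_num⟩
  obtain ⟨alg⟩ := FA.JTorsion.exists_algebra_qbar
  letI := alg
  obtain ⟨Pinf, P0, hdeg, hne, hord, hJ, hc, hiff⟩ :=
    prime_level_rational_torsion_odd (p := 19) (by norm_num)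
  have h3 : addOrderOf (Pic0.mk ⟨_, hdeg⟩ : JZero 19) = 3 := hc.trans (by decide)
  refine ⟨Pinf, P0, hdeg, hne, hord, hJ, h3, fun x => ⟨fun hx =>
    (hiff 3 (by decide) x (three_nsmul_eq_zero (isOfFinAddOrder_nineteen hx) hx)).1 hx,
    fun hx => (hiff 3 (by decide) x ?_).2 hx⟩⟩
  obtain ⟨k, rfl⟩ := AddSubgroup.mem_zmultiples_iff.1 hx
  rw [smul_comm, ← h3, addOrderOf_nsmul_eq_zero, smul_zero]

/-- **`J₀(19)(ℚ)` has three elements.** -/
theorem jacobian_nineteen_natCard :
    Nat.card {x : JZero 19 // ∀ σ : GQ, σ • x = x} = 3 := by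
  obtain ⟨Pinf, P0, hdeg, -, -, -, h3, hiff⟩ := jacobian_nineteen_rational_points
  rw [Nat.card_congr (Equiv.subtypeEquivRight hiff), Nat.card_zmultiples, h3]

/-- **`X₀(19)` has exactly three rational places**: the two cusps and one other. -/
theorem x0_nineteen_rational_places :
    Nat.card {v : Place Qb (levelField 19 Qb) // ∀ σ : GQ, galAut 19 Qb σ • v = v} = 3 ∧
    Nat.card {v : Place Qb (levelField 19 Qb) //
      (∀ σ : GQ, galAut 19 Qb σ • v = v) ∧ 0 ≤ v.ord (upJ (L := Qb) 19)} = 1 := by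
  classical
  haveI : Fact (Nat.Prime 19) := ⟨by norm_num⟩
  obtain ⟨alg⟩ := FA.JTorsion.exists_algebra_qbar
  letI := alg
  have hg : genus Qb (levelField 19 Qb) = 1 := by
    rw [curveGenus_level Qb 19, finrank_cuspForm_nineteen]
  obtain ⟨Pinf, P0, hdeg, hne, hord, hJ, -, hfix⟩ :=
    prime_level_cuspidal_class_order (p := 19) (by norm_num)
  have hinf : ∀ σ : GQ, galAut 19 Qb σ • Pinf = Pinf := gal_ord_order hord
  have h0 : ∀ σ : GQ, galAut 19 Qb σ • P0 = P0 := fun σ => placeCls_injective hg Pinf (by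
    rw [← smul_placeCls (hinf σ)]
    exact hfix σ)
  have h3 : Nat.card {v : Place Qb (levelField 19 Qb) // ∀ σ : GQ, galAut 19 Qb σ • v = v} = 3 :=
    (natCard_places hg hinf).trans jacobian_nineteen_natCard
  refine ⟨h3, ?_⟩
  obtain ⟨hJinf, hJ0, hcusp⟩ := hJ (upJ (L := Qb) 19) rfl
  set S : Set (Place Qb (levelField 19 Qb)) := {v | ∀ σ : GQ, galAut 19 Qb σ • v = v}
  set T : Set (Place Qb (levelField 19 Qb)) :=
    {v | (∀ σ : GQ, galAut 19 Qb σ • v = v) ∧ 0 ≤ v.ord (upJ (L := Qb) 19)}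
  have hST : T = S \ {Pinf, P0} := by
    ext v
    refine ⟨fun h => ⟨h.1, ?_⟩, fun h => ⟨h.1, not_lt.1 fun hlt => h.2 (hcusp v hlt)⟩⟩
    rintro (rfl | rfl) <;> have := h.2 <;> omega
  show Nat.card T = 1
  rw [Nat.card_coe_set_eq, hST, Set.ncard_sdiff
    (Set.insert_subset (show Pinf ∈ S from hinf) (Set.singleton_subset_iff.2 h0))
    (Set.toFinite _), Set.ncard_pair hne, ← Nat.card_coe_set_eq, show Nat.card S = 3 from h3]

variable (E : WeierstrassCurve ℚ) [E.IsElliptic] [inst : DecidableEq (AlgebraicClosure ℚ)]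

/-- **The isogenies of degree `19` over `ℚ`**: a Galois stable subgroup of order `19` exists
exactly for `j = -96³`. -/
theorem isogeny_nineteen_j_iff :
    (∃ G : AddSubgroup (E.toAffine⁄(AlgebraicClosure ℚ)).Point, Nat.card G = 19 ∧
      ∀ σ : AlgebraicClosure ℚ ≃ₐ[ℚ] AlgebraicClosure ℚ, ∀ P ∈ G,
        Affine.Point.map σ.toAlgHom P ∈ G) ↔ E.j = -884736 := by
  obtain rfl : inst = instDecEqAlgebraicClosureRat := Subsingleton.elim _ _
  classical
  haveI : Fact (Nat.Prime 19) := ⟨by norm_num⟩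
  constructor
  · rintro ⟨G, hcard, hst⟩
    by_contra hne
    obtain ⟨alg⟩ := FA.JTorsion.exists_algebra_qbar
    letI := alg
    have hT := x0_nineteen_rational_places.2
    have := isogeny_card_le (p := 19) (by norm_num)
      (Nat.finite_of_card_ne_zero (by rw [hT]; norm_num)) {E.j, -884736} ?_
    · rw [Finset.card_pair hne, hT] at this
      omega
    intro j hj
    simp only [Finset.mem_insert, Finset.mem_singleton] at hj
    rcases hj with rfl | rfl
    · exact ⟨E, inferInstance, G, rfl, hcard, hst⟩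
    obtain ⟨G', hG'⟩ := exists_stable_subgroup_of_cm (WeierstrassCurve.ofJ (-884736 : ℚ)) (q := 19)
      (Or.inr (Or.inl ⟨rfl, WeierstrassCurve.ofJ_j _⟩))
    exact ⟨_, inferInstance, G', WeierstrassCurve.ofJ_j _, hG'⟩
  · exact fun h => exists_stable_subgroup_of_cm E (Or.inr (Or.inl ⟨rfl, h⟩))

end FA.Summary

end
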