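import Fermat.Agent.CuspClass.IsogenyCount
import Fermat.Agent.CuspClass.GenusOneTwo
import Fermat.Agent.CuspClass.Seventeen
import Fermat.Agent.IsogenyDegrees.Seventeen

/-!
# The rational points of `J₀(17)` and `X₀(17)`, and the isogenies of degree `17`

* `jacobian_seventeen_rational_points`: the rational classes of `J₀(17)` are the multiples of the
  class of `(0) - (∞)`, of order `4`.
* `x0_seventeen_rational_places`: `X₀(17)` has exactly four rational places, two outside the cusps.
* `isogeny_seventeen_j_iff`: an elliptic curve over `ℚ` has a Galois stable subgroup of order `17`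
  exactly for `j = -17² · 101³ / 2` and `j = -17 · 373³ / 2¹⁷`.
-/

set_option autoImplicit false
set_option linter.style.haveILetI false
set_option linter.unusedSectionVars false
set_option synthInstance.maxHeartbeats 400000
set_option maxHeartbeats 1600000

noncomputable section

open ModularCurve AlgebraicCurve FA.Curve FA.ModField FA.Level FA.JTorsion FA.Mazur WeierstrassCurve
open scoped WeierstrassCurve.Affine

local notation "Qb" => AlgebraicClosure ℚ
local notation "GQ" => AlgebraicClosure ℚ ≃ₐ[ℚ] AlgebraicClosure ℚ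

namespace FA.CuspClass

/-- **Every rational class of `J₀(17)` is torsion.** -/
theorem isOfFinAddOrder_seventeen {x : JZero 17} (hfix : ∀ σ : GQ, σ • x = x) :
    IsOfFinAddOrder x := by
  haveI : Fact (Nat.Prime 17) := ⟨by norm_num⟩
  haveI : Fact (Nat.Prime 2) := ⟨by norm_num⟩
  obtain ⟨alg⟩ := FA.JTorsion.exists_algebra_qbar
  letI := alg
  obtain ⟨inst⟩ := exists_algebra_local 2
  letI := inst
  exact isOfFinAddOrder_of_fixed_two (p := 17) (by norm_num)
    (by rw [curveGenus_level Qb 17, finrank_cuspForm_seventeen]) (by decide) hfix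

end FA.CuspClass

namespace FA.Summary

open FA.CuspClass

/-- **`J₀(17)(ℚ) = ℤ / 4`**: the cuspidal class generates all rational classes. -/
theorem jacobian_seventeen_rational_points :
    ∃ (Pinf P0 : Place Qb (modularFunctionFieldBar 17))
      (hdeg : Finsupp.single P0 (1 : ℤ) - Finsupp.single Pinf 1 ∈
        Divisor.degZero (K := Qb) (F := modularFunctionFieldBar 17)),
      Pinf ≠ P0 ∧
      (∀ f : modularFunctionFieldBar 17, Pinf.ord f = (f : LaurentSeries Qb).order) ∧
      (∀ J : modularFunctionFieldBar 17, (J : LaurentSeries Qb) = jqModC Qb →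
        Pinf.ord J = -1 ∧ P0.ord J = -((17 : ℕ) : ℤ) ∧
          ∀ v : Place Qb (modularFunctionFieldBar 17), v.ord J < 0 → v = Pinf ∨ v = P0) ∧
      addOrderOf (Pic0.mk ⟨_, hdeg⟩ : JZero 17) = 4 ∧
      ∀ x : JZero 17, (∀ σ : GQ, σ • x = x) ↔
        x ∈ AddSubgroup.zmultiples (Pic0.mk ⟨_, hdeg⟩ : JZero 17) := by
  haveI : Fact (Nat.Prime 17) := ⟨by norm_num⟩
  obtain ⟨alg⟩ := FA.JTorsion.exists_algebra_qbar
  letI := alg
  obtain ⟨Pinf, P0, hdeg, hne, hord, hJ, hc, hfix⟩ :=
    prime_level_cuspidal_class_order (p := 17) (by norm_num)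
  have h4 : addOrderOf (Pic0.mk ⟨_, hdeg⟩ : JZero 17) = 4 := hc.trans (by decide)
  exact ⟨Pinf, P0, hdeg, hne, hord, hJ, h4, fun x => ⟨fun hx =>
    mem_zmultiples_seventeen h4 hfix (isOfFinAddOrder_seventeen hx) hx,
    fun hx => fixed_of_mem_zmultiples hfix hx⟩⟩

/-- **`J₀(17)(ℚ)` has four elements.** -/
theorem jacobian_seventeen_natCard :
    Nat.card {x : JZero 17 // ∀ σ : GQ, σ • x = x} = 4 := by
  obtain ⟨Pinf, P0, hdeg, -, -, -, h4, hiff⟩ := jacobian_seventeen_rational_points
  rw [Nat.card_congr (Equiv.subtypeEquivRight hiff), Nat.card_zmultiples, h4]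

/-- **`X₀(17)` has exactly four rational places**: the two cusps and two others. -/
theorem x0_seventeen_rational_places :
    Nat.card {v : Place Qb (levelField 17 Qb) // ∀ σ : GQ, galAut 17 Qb σ • v = v} = 4 ∧
    Nat.card {v : Place Qb (levelField 17 Qb) //
      (∀ σ : GQ, galAut 17 Qb σ • v = v) ∧ 0 ≤ v.ord (upJ (L := Qb) 17)} = 2 := by
  classical
  haveI : Fact (Nat.Prime 17) := ⟨by norm_num⟩
  obtain ⟨alg⟩ := FA.JTorsion.exists_algebra_qbar
  letI := alg
  have hg : genus Qb (levelField 17 Qb) = 1 := by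
    rw [curveGenus_level Qb 17, finrank_cuspForm_seventeen]
  obtain ⟨Pinf, P0, hdeg, hne, hord, hJ, -, hfix⟩ :=
    prime_level_cuspidal_class_order (p := 17) (by norm_num)
  have hinf : ∀ σ : GQ, galAut 17 Qb σ • Pinf = Pinf := gal_ord_order hord
  have h0 : ∀ σ : GQ, galAut 17 Qb σ • P0 = P0 := fun σ => placeCls_injective hg Pinf (by
    rw [← smul_placeCls (hinf σ)]
    exact hfix σ)
  have h4 : Nat.card {v : Place Qb (levelField 17 Qb) // ∀ σ : GQ, galAut 17 Qb σ • v = v} = 4 :=
    (natCard_places hg hinf).trans jacobian_seventeen_natCard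
  refine ⟨h4, ?_⟩
  obtain ⟨hJinf, hJ0, hcusp⟩ := hJ (upJ (L := Qb) 17) rfl
  set S : Set (Place Qb (levelField 17 Qb)) := {v | ∀ σ : GQ, galAut 17 Qb σ • v = v}
  set T : Set (Place Qb (levelField 17 Qb)) :=
    {v | (∀ σ : GQ, galAut 17 Qb σ • v = v) ∧ 0 ≤ v.ord (upJ (L := Qb) 17)}
  have hST : T = S \ {Pinf, P0} := by
    ext v
    refine ⟨fun h => ⟨h.1, ?_⟩, fun h => ⟨h.1, not_lt.1 fun hlt => h.2 (hcusp v hlt)⟩⟩
    rintro (rfl | rfl) <;> have := h.2 <;> omega
  show Nat.card T = 2
  rw [Nat.card_coe_set_eq, hST, Set.ncard_sdiff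
    (Set.insert_subset (show Pinf ∈ S from hinf) (Set.singleton_subset_iff.2 h0))
    (Set.toFinite _), Set.ncard_pair hne, ← Nat.card_coe_set_eq, show Nat.card S = 4 from h4]

variable (E : WeierstrassCurve ℚ) [E.IsElliptic] [inst : DecidableEq (AlgebraicClosure ℚ)]

/-- **The isogenies of degree `17` over `ℚ`**: a Galois stable subgroup of order `17` exists
exactly for two values of `j`. -/
theorem isogeny_seventeen_j_iff :
    (∃ G : AddSubgroup (E.toAffine⁄(AlgebraicClosure ℚ)).Point, Nat.card G = 17 ∧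
      ∀ σ : AlgebraicClosure ℚ ≃ₐ[ℚ] AlgebraicClosure ℚ, ∀ P ∈ G,
        Affine.Point.map σ.toAlgHom P ∈ G) ↔
      E.j = -297756989 / 2 ∨ E.j = -882216989 / 131072 := by
  obtain rfl : inst = instDecEqAlgebraicClosureRat := Subsingleton.elim _ _
  classical
  haveI : Fact (Nat.Prime 17) := ⟨by norm_num⟩
  constructor
  · rintro ⟨G, hcard, hst⟩
    by_contra hne
    obtain ⟨alg⟩ := FA.JTorsion.exists_algebra_qbar
    letI := alg
    have hT := x0_seventeen_rational_places.2
    have := isogeny_card_le (p := 17) (by norm_num)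
      (Nat.finite_of_card_ne_zero (by rw [hT]; norm_num))
      {E.j, -297756989 / 2, -882216989 / 131072} ?_
    · rw [Finset.card_insert_of_notMem (by simpa using hne), Finset.card_pair (by norm_num),
        hT] at this
      omega
    intro j hj
    simp only [Finset.mem_insert, Finset.mem_singleton] at hj
    rcases hj with rfl | hj
    · exact ⟨E, inferInstance, G, rfl, hcard, hst⟩
    have hEj := WeierstrassCurve.ofJ_j j
    obtain ⟨G', hG'⟩ := FA.KerPoly.exists_stable_seventeen _
      (hj.imp (fun h => hEj.trans h) fun h => hEj.trans h)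
    exact ⟨_, inferInstance, G', hEj, hG'⟩
  · exact FA.KerPoly.exists_stable_seventeen E

end FA.Summary

end
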