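import Fermat.Agent.Root.SummaryX0Eleven
import Fermat.Agent.Root.SummaryX0Nineteen
import Fermat.Agent.Root.SummaryX0Seventeen

/-!
# Consequences of the classification of isogenies of degree `11`, `17` and `19`

* `isogeny_nineteen_j_integral`, `isogeny_seventeen_j_pole`: with an isogeny of degree `19` the
  invariant is integral; with one of degree `17` its denominator is `2` or `2¹⁷`.
* `no_cyclic_isogeny_even_genus_one`: a cyclic isogeny of degree divisible by `11`, `17` or `19`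
  has odd degree, as none of the six curves has a rational point of order `2`.
-/

set_option autoImplicit false
set_option linter.style.haveILetI false
set_option linter.unusedSectionVars false

noncomputable section

open WeierstrassCurve
open scoped WeierstrassCurve.Affine

local notation "Qb" => AlgebraicClosure ℚ
local notation "GQ" => AlgebraicClosure ℚ ≃ₐ[ℚ] AlgebraicClosure ℚ

namespace FA.GenusOneIsogeny

open FA.CM.ClassOne

/-- A binary cubic without zeros modulo `q` has no rational zero. -/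
theorem cubic_ne_zero {a b : ℤ} {q : ℕ} (hq : q.Prime)
    (h : ∀ u v : ZMod q, u ^ 3 + a * u * v ^ 2 + b * v ^ 3 = 0 → u = 0 ∧ v = 0) (x : ℚ) :
    x ^ 3 + a * x + b ≠ 0 := by
  intro hx
  have hd : (x.den : ℚ) ≠ 0 := Nat.cast_ne_zero.2 x.den_ne_zero
  have e : x.num ^ 3 + a * x.num * (x.den : ℤ) ^ 2 + b * (x.den : ℤ) ^ 3 = 0 := by
    rw [← x.num_div_den] at hx
    field_simp at hx
    have : ((x.num ^ 3 + a * x.num * (x.den : ℤ) ^ 2 + b * (x.den : ℤ) ^ 3 : ℤ) : ℚ) = 0 := by
      push_cast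
      linear_combination hx
    exact_mod_cast this
  have e' := congrArg (Int.cast : ℤ → ZMod q) e
  push_cast at e'
  obtain ⟨hu, hv⟩ := h _ _ e'
  rw [ZMod.intCast_zmod_eq_zero_iff_dvd, Int.natCast_dvd] at hu
  rw [ZMod.natCast_eq_zero_iff] at hv
  exact hq.not_dvd_one (x.reduced ▸ Nat.dvd_gcd hu hv)

/-- A fixed point of order `2` of a short equation has a rational root as abscissa. -/
theorem root_of_fixed_short {a b : ℤ} {E' : WeierstrassCurve ℚ}
    (hE' : E' = shortCurve (a : ℚ) (b : ℚ)) (v : (E'.toAffine⁄Qb).Point)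
    (hv : ∀ σ : GQ, σ • v = v) (hv2 : 2 • v = 0) (hv0 : v ≠ 0) :
    ∃ x : ℚ, x ^ 3 + a * x + b = 0 := by
  subst hE'
  rcases v with _ | ⟨x, y, hns⟩
  · exact absurd rfl hv0
  obtain ⟨q, rfl⟩ := FA.Local.exists_ratCast_of_fixed x fun σ => (Affine.Point.some.inj (hv σ)).1
  have hy : y = 0 := by
    by_contra hy
    rw [two_nsmul, Affine.Point.add_self_of_Y_ne (by
      simp [Affine.negY]
      exact fun e => hy (by linear_combination (1 / 2 : Qb) * e))] at hv2
    exact Affine.Point.some_ne_zero _ hv2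
  subst hy
  refine ⟨q, ?_⟩
  have := (Affine.equation_iff _ _).mp hns.1
  simp at this
  have h : (((q : ℚ) ^ 3 + a * q + b : ℚ) : Qb) = ((0 : ℚ) : Qb) := by
    push_cast
    linear_combination this.symm
  exact_mod_cast h

/-- A fixed point of order `2` gives a rational root of the short equation of the invariant. -/
theorem exists_root_of_fixed {a b : ℤ} (ha : a ≠ 0) (hb : b ≠ 0)
    (hab : 4 * a ^ 3 + 27 * b ^ 2 ≠ 0) (E : WeierstrassCurve ℚ) [E.IsElliptic]
    (hj : E.j = 6912 * (a : ℚ) ^ 3 / (4 * (a : ℚ) ^ 3 + 27 * (b : ℚ) ^ 2))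
    (P : (E.toAffine⁄Qb).Point) (hP : P ≠ 0) (h2 : 2 • P = 0)
    (hfix : ∀ σ : GQ, Affine.Point.map σ.toAlgHom P = P) :
    ∃ x : ℚ, x ^ 3 + a * x + b = 0 := by
  obtain ⟨d, hd, htw⟩ := exists_quadTwist_eq_short (Int.cast_ne_zero.2 ha)
    (Int.cast_ne_zero.2 hb) (by exact_mod_cast hab) E hj
  obtain ⟨e, he⟩ := FA.Root.exists_twist_equiv E hd
  obtain ⟨v, rfl⟩ := e.surjective P
  have hneg : -e v = e v := neg_eq_of_add_eq_zero_left (by rwa [← two_nsmul])
  have hv : ∀ σ : GQ, σ • v = v := fun σ => e.injective (by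
    rcases he σ v with h | h <;> rw [hfix σ] at h
    · exact h.symm
    · rw [← hneg]
      exact neg_injective (by rw [neg_neg]; exact h.symm))
  have hv2 : 2 • v = 0 := e.injective (by rw [map_nsmul, h2, map_zero])
  have hv0 : v ≠ 0 := fun h => hP (by rw [h, map_zero])
  exact root_of_fixed_short htw v hv hv2 hv0

/-- No curve with a stable subgroup of order `11`, `17` or `19` has a point of order `2` over
`ℚ`. -/
theorem ne_fixed_of_stable (E : WeierstrassCurve ℚ) [E.IsElliptic] {p : ℕ}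
    (hp : p = 11 ∨ p = 17 ∨ p = 19) (G : AddSubgroup (E.toAffine⁄Qb).Point)
    (hcard : Nat.card G = p)
    (hst : ∀ σ : GQ, ∀ P ∈ G, Affine.Point.map σ.toAlgHom P ∈ G)
    (P : (E.toAffine⁄Qb).Point) (hP : P ≠ 0) (h2 : 2 • P = 0) :
    ∃ σ : GQ, Affine.Point.map σ.toAlgHom P ≠ P := by
  by_contra hfix
  push Not at hfix
  have key : ∀ (a b : ℤ) (q : ℕ), q.Prime → a ≠ 0 → b ≠ 0 → 4 * a ^ 3 + 27 * b ^ 2 ≠ 0 →
      (∀ u v : ZMod q, u ^ 3 + a * u * v ^ 2 + b * v ^ 3 = 0 → u = 0 ∧ v = 0) →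
      E.j ≠ 6912 * (a : ℚ) ^ 3 / (4 * (a : ℚ) ^ 3 + 27 * (b : ℚ) ^ 2) :=
    fun a b q hq ha hb hab hz hj => by
      obtain ⟨x, hx⟩ := exists_root_of_fixed ha hb hab E hj P hP h2 hfix
      exact cubic_ne_zero hq hz x hx
  rcases hp with rfl | rfl | rfl
  · rcases (FA.Summary.isogeny_eleven_j_iff E).1 ⟨G, hcard, hst⟩ with h | h | h
    · exact key (-9504) 365904 5 (by norm_num) (by norm_num) (by norm_num) (by norm_num)
        (by decide +kernel) (h.trans (by norm_num))
    · exact key (-3267) (-280962) 5 (by norm_num) (by norm_num) (by norm_num) (by norm_num)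
        (by decide +kernel) (h.trans (by norm_num))
    · exact key (-38907) (-2953962) 5 (by norm_num) (by norm_num) (by norm_num) (by norm_num)
        (by decide +kernel) (h.trans (by norm_num))
  · rcases (FA.Summary.isogeny_seventeen_j_iff E).1 ⟨G, hcard, hst⟩ with h | h
    · exact key (-3940515) 3010787550 7 (by norm_num) (by norm_num) (by norm_num) (by norm_num)
        (by decide +kernel) (h.trans (by norm_num))
    · exact key (-856035) (-341748450) 7 (by norm_num) (by norm_num) (by norm_num) (by norm_num)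
        (by decide +kernel) (h.trans (by norm_num))
  · exact key (-608) 5776 5 (by norm_num) (by norm_num) (by norm_num) (by norm_num)
      (by decide +kernel) (((FA.Summary.isogeny_nineteen_j_iff E).1 ⟨G, hcard, hst⟩).trans
        (by norm_num))

end FA.GenusOneIsogeny

namespace FA.Summary

variable (E : WeierstrassCurve ℚ) [E.IsElliptic] [inst : DecidableEq (AlgebraicClosure ℚ)]

/-- **An isogeny of degree `19` forces an integral `j`.** -/
theorem isogeny_nineteen_j_integral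
    (G : AddSubgroup (E.toAffine⁄(AlgebraicClosure ℚ)).Point) (hcard : Nat.card G = 19)
    (hst : ∀ σ : AlgebraicClosure ℚ ≃ₐ[ℚ] AlgebraicClosure ℚ, ∀ P ∈ G,
      Affine.Point.map σ.toAlgHom P ∈ G) (l : ℕ) : 0 ≤ padicValRat l E.j := by
  rw [(isogeny_nineteen_j_iff E).1 ⟨G, hcard, hst⟩,
    show (-884736 : ℚ) = ((-884736 : ℤ) : ℚ) by norm_num, padicValRat.of_int]
  exact Int.natCast_nonneg _

/-- **An isogeny of degree `17` forces a pole of `j` at `2`** of order `1` or `17`, and no other. -/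
theorem isogeny_seventeen_j_pole
    (G : AddSubgroup (E.toAffine⁄(AlgebraicClosure ℚ)).Point) (hcard : Nat.card G = 17)
    (hst : ∀ σ : AlgebraicClosure ℚ ≃ₐ[ℚ] AlgebraicClosure ℚ, ∀ P ∈ G,
      Affine.Point.map σ.toAlgHom P ∈ G) : E.j.den = 2 ∨ E.j.den = 2 ^ 17 := by
  rcases (isogeny_seventeen_j_iff E).1 ⟨G, hcard, hst⟩ with h | h <;> rw [h]
  · exact Or.inl (by norm_num)
  · exact Or.inr (by norm_num)

/-- **A cyclic isogeny of degree divisible by `11`, `17` or `19` has odd degree.** -/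
theorem no_cyclic_isogeny_even_genus_one {p : ℕ} (hp : p = 11 ∨ p = 17 ∨ p = 19)
    (G : AddSubgroup (E.toAffine⁄(AlgebraicClosure ℚ)).Point) [IsAddCyclic G]
    (hpG : p ∣ Nat.card G)
    (hst : ∀ σ : AlgebraicClosure ℚ ≃ₐ[ℚ] AlgebraicClosure ℚ, ∀ P ∈ G,
      Affine.Point.map σ.toAlgHom P ∈ G) (hG : Nat.card G ≠ 0) : Odd (Nat.card G) := by
  obtain rfl : inst = instDecEqAlgebraicClosureRat := Subsingleton.elim _ _
  classical
  rw [← Nat.not_even_iff_odd]
  intro heven
  obtain ⟨⟨g, hg⟩, hgen⟩ := IsAddCyclic.exists_generator (α := G)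
  set n := Nat.card G
  have hord : addOrderOf g = n := by
    rw [← AddSubgroup.addOrderOf_mk g hg, addOrderOf_eq_card_of_forall_mem_zmultiples hgen]
  have hzG : G = AddSubgroup.zmultiples g := le_antisymm (fun x hx => by
      obtain ⟨k, hk⟩ := AddSubgroup.mem_zmultiples_iff.1 (hgen ⟨x, hx⟩)
      exact AddSubgroup.mem_zmultiples_iff.2 ⟨k, congrArg Subtype.val hk⟩)
    (AddSubgroup.zmultiples_le.2 hg)
  have sub : ∀ m : ℕ, m ∣ n → ∀ σ : GQ, ∀ x ∈ AddSubgroup.zmultiples ((n / m) • g),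
      Affine.Point.map σ.toAlgHom x ∈ AddSubgroup.zmultiples ((n / m) • g) := by
    intro m hm σ x hx
    obtain ⟨k, rfl⟩ := AddSubgroup.mem_zmultiples_iff.1 hx
    obtain ⟨c, hc⟩ := AddSubgroup.mem_zmultiples_iff.1 (hzG ▸ hst σ g hg)
    exact AddSubgroup.mem_zmultiples_iff.2 ⟨k * c, by
      rw [map_zsmul, map_nsmul, ← hc, mul_smul, smul_comm c]⟩
  have ho : ∀ m : ℕ, m ∣ n → addOrderOf ((n / m) • g) = m := fun m hm => by
    rw [addOrderOf_nsmul' _ (Nat.div_pos (Nat.le_of_dvd (by omega) hm)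
      (Nat.pos_of_ne_zero (ne_zero_of_dvd_ne_zero hG hm))).ne', hord,
      Nat.gcd_eq_right (Nat.div_dvd_of_dvd hm), Nat.div_div_self hm hG]
  have h2 : 2 ∣ n := heven.two_dvd
  set P := (n / 2) • g
  have hP2 : addOrderOf P = 2 := ho 2 h2
  obtain ⟨σ, hσ⟩ := FA.GenusOneIsogeny.ne_fixed_of_stable E hp
    (AddSubgroup.zmultiples ((n / p) • g)) (by rw [Nat.card_zmultiples, ho p hpG]) (sub p hpG) P
    (fun h => by rw [h, addOrderOf_zero] at hP2; omega) (by rw [← hP2, addOrderOf_nsmul_eq_zero])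
  obtain ⟨k, hk⟩ := AddSubgroup.mem_zmultiples_iff.1
    (sub 2 h2 σ P (AddSubgroup.mem_zmultiples P))
  rcases Int.even_or_odd k with ⟨r, rfl⟩ | ⟨r, rfl⟩
  · have h0 : Affine.Point.map σ.toAlgHom P = 0 := by
      rw [← hk, ← two_mul, mul_comm, mul_smul, two_zsmul, ← two_nsmul,
        show 2 • P = 0 by rw [← hP2, addOrderOf_nsmul_eq_zero], smul_zero]
    rw [← map_zero (Affine.Point.map (W' := E.toAffine) σ.toAlgHom)] at h0
    exact (fun h : P ≠ 0 => h (Affine.Point.map_injective _ h0))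
      (fun h => by rw [h, addOrderOf_zero] at hP2; omega)
  · refine hσ ?_
    rw [← hk, add_smul, one_zsmul, mul_comm, mul_smul, two_zsmul, ← two_nsmul,
      show 2 • P = 0 by rw [← hP2, addOrderOf_nsmul_eq_zero], smul_zero, zero_add]

end FA.Summary

end
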