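import Fermat.Agent.IsogenyDegrees.Composite
import Fermat.Agent.Root.SummaryIsogenyGenusOne

/-!
# Kenku's theorem at `11`, `17` and `19`

`cyclic_isogeny_genus_one`: a Galois stable cyclic subgroup of order divisible by `11`, `17` or
`19` has exactly that order. The invariant is one of six; each has an equation good at `3`, so a
second odd prime of an isogeny is at most `97`, and one equation of Frobenius without root excludes
each of these and the square of the first prime.
-/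

set_option autoImplicit false
set_option linter.style.haveILetI false
set_option linter.unusedSectionVars false

noncomputable section

open WeierstrassCurve FA.RT.Tate FA.KerPoly
open FA.Frob (ratCurve)
open scoped WeierstrassCurve.Affine

local notation "Qb" => AlgebraicClosure ℚ
local notation "GQ" => AlgebraicClosure ℚ ≃ₐ[ℚ] AlgebraicClosure ℚ

namespace FA.GenusOneIsogeny

theorem zsmul_nsmul_comm {A : Type*} [AddCommGroup A] (c : ℤ) (k : ℕ) (x : A) :
    c • k • x = k • c • x :=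
  ((zsmulAddGroupHom c : A →+ A).map_nsmul k x)

/-- An equation excludes every odd second prime and the square of the first. -/
theorem false_of_equation (W : WeierstrassCurve ℤ) {a b : ℤ} {p q : ℕ} (hp : p.Prime)
    (hq : q.Prime) (hq2 : q ≠ 2) (ha : a ≠ 0) (hb : b ≠ 0) (hab : 4 * a ^ 3 + 27 * b ^ 2 ≠ 0)
    (h3 : ¬ (3 : ℤ) ∣ W.Δ) (hΔ : W.Δ.natAbs ∣ (2 * 5 * p) ^ 30)
    (hj : (W.c₄ : ℚ) ^ 3 / W.Δ = 6912 * (a : ℚ) ^ 3 / (4 * (a : ℚ) ^ 3 + 27 * (b : ℚ) ^ 2))
    (hw : ∀ n ∈ [3, 5, 7, 13, 19, 37, 97, p * p], n ≠ p →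
      ∃ (l : ℕ) (_ : Fact l.Prime), NoRootAt W n l)
    (E : WeierstrassCurve ℚ) [E.IsElliptic]
    (hE : E.j = 6912 * (a : ℚ) ^ 3 / (4 * (a : ℚ) ^ 3 + 27 * (b : ℚ) ^ 2))
    {g : (E.toAffine⁄Qb).Point} (hord : addOrderOf g = p * q)
    (hg : ∀ σ : GQ, ∃ c : ℤ, c • g = Affine.Point.map σ.toAlgHom g) : False := by
  classical
  have hW0 : W.Δ ≠ 0 := fun h => h3 (h ▸ dvd_zero 3)
  haveI := FA.Frob.ratCurve_isElliptic_of_Δ hW0
  have hWj : (ratCurve W).j = 6912 * (a : ℚ) ^ 3 / (4 * (a : ℚ) ^ 3 + 27 * (b : ℚ) ^ 2) := by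
    rw [← hj, WeierstrassCurve.j, Units.val_inv_eq_inv_val, coe_Δ', map_Δ, map_c₄, eq_intCast,
      eq_intCast, div_eq_mul_inv, mul_comm]
  obtain ⟨v, hv, hst⟩ := exists_stable_point_of_same_j ha hb hab E W hE hWj hg
  rw [hord] at hv
  rcases eq_or_ne q p with rfl | hqp
  · obtain ⟨l, _, hl⟩ := hw (q * q) (by simp) (by nlinarith [hp.two_le])
    exact false_of_noRoot hl hv hst
  have hu : addOrderOf (p • v) = q := by
    rw [addOrderOf_nsmul' _ hp.ne_zero, hv, Nat.gcd_eq_right (dvd_mul_right p q),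
      Nat.mul_div_cancel_left _ hp.pos]
  have hust : ∀ σ : GQ, ∃ c : ℤ, c • (p • v) = σ • (p • v) := fun σ => by
    obtain ⟨c, hc⟩ := hst σ
    exact ⟨c, (zsmul_nsmul_comm c p v).trans ((congrArg (p • ·) hc).trans
      ((DistribSMul.toAddMonoidHom (Pts W) σ).map_nsmul p v).symm)⟩
  by_cases hmem : q ∈ [3, 5, 7, 13, 19, 37, 97]
  · obtain ⟨l, _, hl⟩ := hw q (List.mem_append_left [p * p] hmem) hqp
    exact false_of_noRoot hl hu hust
  simp only [List.mem_cons, List.not_mem_nil, or_false, not_or] at hmem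
  haveI := Fact.mk hq
  have hqΔ : ¬ (q : ℤ) ∣ W.Δ := fun h => by
    rcases hq.dvd_mul.1 (hq.dvd_of_dvd_pow ((Int.natCast_dvd.1 h).trans hΔ)) with h | h
    · rcases hq.dvd_mul.1 h with h | h
      · exact hq2 ((Nat.prime_dvd_prime_iff_eq hq Nat.prime_two).1 h)
      · exact hmem.2.1 ((Nat.prime_dvd_prime_iff_eq hq Nat.prime_five).1 h)
    · exact hqp ((Nat.prime_dvd_prime_iff_eq hq hp).1 h)
  haveI : Fact (Nat.Prime 3) := ⟨Nat.prime_three⟩
  obtain ⟨C, hC⟩ := FA.Root.exists_good_of_not_dvd W q hqΔ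
  have := FA.Summary.isogenyPrime_of_good_three (ratCurve W) hq2 ⟨C, Or.inl hC⟩
    (AddSubgroup.zmultiples (p • v)) (by rw [Nat.card_zmultiples]; exact hu)
    (stable_zmultiples hust) hmem.1 (FA.Root.exists_good_of_not_dvd W 3 h3)
  omega

/-- A cyclic stable subgroup of order `p * q`, `p ∈ {11, 17, 19}`, `q` an odd prime, is
impossible. -/
theorem false_of_order_mul (E : WeierstrassCurve ℚ) [E.IsElliptic] {p q : ℕ}
    (hp : p = 11 ∨ p = 17 ∨ p = 19) (hq : q.Prime) (hq2 : q ≠ 2)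
    {g : (E.toAffine⁄Qb).Point} (hord : addOrderOf g = p * q)
    (hg : ∀ σ : GQ, ∃ c : ℤ, c • g = Affine.Point.map σ.toAlgHom g) : False := by
  classical
  have hG : ∃ G : AddSubgroup (E.toAffine⁄Qb).Point, Nat.card G = p ∧
      ∀ σ : GQ, ∀ P ∈ G, Affine.Point.map σ.toAlgHom P ∈ G := by
    refine ⟨AddSubgroup.zmultiples (q • g), ?_, stable_zmultiples fun σ => ?_⟩
    · rw [Nat.card_zmultiples, addOrderOf_nsmul' _ hq.ne_zero, hord,
        Nat.gcd_eq_right (dvd_mul_left q p), Nat.mul_div_cancel _ hq.pos]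
    · obtain ⟨c, hc⟩ := hg σ
      exact ⟨c, by rw [map_nsmul, ← hc, zsmul_nsmul_comm]⟩
  rcases hp with rfl | rfl | rfl
  · rcases (FA.Summary.isogeny_eleven_j_iff E).1 hG with h | h | h
    · refine false_of_equation ⟨0, -1, 1, -7, 10⟩ (a := (-9504)) (b := 365904) (by norm_num)
        hq hq2 (by norm_num) (by norm_num) (by norm_num) (by decide +kernel) (by decide +kernel)
        (by norm_num [WeierstrassCurve.Δ, WeierstrassCurve.c₄, WeierstrassCurve.b₂,
          WeierstrassCurve.b₄, WeierstrassCurve.b₆, WeierstrassCurve.b₈])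
        (fun n hn hne => ?_) E (h.trans (by norm_num)) hord hg
      fin_cases hn
      · exact ⟨7, ⟨by norm_num⟩, by decide +kernel⟩
      · exact ⟨2, ⟨by norm_num⟩, by decide +kernel⟩
      · exact ⟨2, ⟨by norm_num⟩, by decide +kernel⟩
      · exact ⟨2, ⟨by norm_num⟩, by decide +kernel⟩
      · exact ⟨3, ⟨by norm_num⟩, by decide +kernel⟩
      · exact ⟨2, ⟨by norm_num⟩, by decide +kernel⟩
      · exact ⟨7, ⟨by norm_num⟩, by decide +kernel⟩
      · exact ⟨3, ⟨by norm_num⟩, by decide +kernel⟩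
    · refine false_of_equation ⟨1, 1, 0, -2, -7⟩ (a := (-3267)) (b := (-280962)) (by norm_num)
        hq hq2 (by norm_num) (by norm_num) (by norm_num) (by decide +kernel) (by decide +kernel)
        (by norm_num [WeierstrassCurve.Δ, WeierstrassCurve.c₄, WeierstrassCurve.b₂,
          WeierstrassCurve.b₄, WeierstrassCurve.b₆, WeierstrassCurve.b₈])
        (fun n hn hne => ?_) E (h.trans (by norm_num)) hord hg
      fin_cases hn
      · exact ⟨2, ⟨by norm_num⟩, by decide +kernel⟩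
      · exact ⟨2, ⟨by norm_num⟩, by decide +kernel⟩
      · exact ⟨3, ⟨by norm_num⟩, by decide +kernel⟩
      · exact ⟨2, ⟨by norm_num⟩, by decide +kernel⟩
      · exact ⟨2, ⟨by norm_num⟩, by decide +kernel⟩
      · exact ⟨3, ⟨by norm_num⟩, by decide +kernel⟩
      · exact ⟨2, ⟨by norm_num⟩, by decide +kernel⟩
      · exact ⟨23, ⟨by norm_num⟩, by decide +kernel⟩
    · refine false_of_equation ⟨1, 1, 1, -30, -76⟩ (a := (-38907)) (b := (-2953962)) (by norm_num)
        hq hq2 (by norm_num) (by norm_num) (by norm_num) (by decide +kernel) (by decide +kernel)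
        (by norm_num [WeierstrassCurve.Δ, WeierstrassCurve.c₄, WeierstrassCurve.b₂,
          WeierstrassCurve.b₄, WeierstrassCurve.b₆, WeierstrassCurve.b₈])
        (fun n hn hne => ?_) E (h.trans (by norm_num)) hord hg
      fin_cases hn
      · exact ⟨2, ⟨by norm_num⟩, by decide +kernel⟩
      · exact ⟨2, ⟨by norm_num⟩, by decide +kernel⟩
      · exact ⟨3, ⟨by norm_num⟩, by decide +kernel⟩
      · exact ⟨2, ⟨by norm_num⟩, by decide +kernel⟩
      · exact ⟨2, ⟨by norm_num⟩, by decide +kernel⟩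
      · exact ⟨3, ⟨by norm_num⟩, by decide +kernel⟩
      · exact ⟨2, ⟨by norm_num⟩, by decide +kernel⟩
      · exact ⟨23, ⟨by norm_num⟩, by decide +kernel⟩
  · rcases (FA.Summary.isogeny_seventeen_j_iff E).1 hG with h | h
    · refine false_of_equation ⟨1, 0, 1, -3041, 64278⟩ (a := (-3940515)) (b := 3010787550)
        (by norm_num) hq hq2 (by norm_num) (by norm_num) (by norm_num) (by decide +kernel)
        (by decide +kernel)
        (by norm_num [WeierstrassCurve.Δ, WeierstrassCurve.c₄, WeierstrassCurve.b₂,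
          WeierstrassCurve.b₄, WeierstrassCurve.b₆, WeierstrassCurve.b₈])
        (fun n hn hne => ?_) E (h.trans (by norm_num)) hord hg
      fin_cases hn
      · exact ⟨7, ⟨by norm_num⟩, by decide +kernel⟩
      · exact ⟨3, ⟨by norm_num⟩, by decide +kernel⟩
      · exact ⟨3, ⟨by norm_num⟩, by decide +kernel⟩
      · exact ⟨3, ⟨by norm_num⟩, by decide +kernel⟩
      · exact ⟨11, ⟨by norm_num⟩, by decide +kernel⟩
      · exact ⟨3, ⟨by norm_num⟩, by decide +kernel⟩
      · exact ⟨7, ⟨by norm_num⟩, by decide +kernel⟩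
      · exact ⟨67, ⟨by norm_num⟩, by decide +kernel⟩
    · refine false_of_equation ⟨1, 1, 0, -660, -7600⟩ (a := (-856035)) (b := (-341748450))
        (by norm_num) hq hq2 (by norm_num) (by norm_num) (by norm_num) (by decide +kernel)
        (by decide +kernel)
        (by norm_num [WeierstrassCurve.Δ, WeierstrassCurve.c₄, WeierstrassCurve.b₂,
          WeierstrassCurve.b₄, WeierstrassCurve.b₆, WeierstrassCurve.b₈])
        (fun n hn hne => ?_) E (h.trans (by norm_num)) hord hg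
      fin_cases hn
      · exact ⟨7, ⟨by norm_num⟩, by decide +kernel⟩
      · exact ⟨3, ⟨by norm_num⟩, by decide +kernel⟩
      · exact ⟨3, ⟨by norm_num⟩, by decide +kernel⟩
      · exact ⟨3, ⟨by norm_num⟩, by decide +kernel⟩
      · exact ⟨11, ⟨by norm_num⟩, by decide +kernel⟩
      · exact ⟨3, ⟨by norm_num⟩, by decide +kernel⟩
      · exact ⟨7, ⟨by norm_num⟩, by decide +kernel⟩
      · exact ⟨67, ⟨by norm_num⟩, by decide +kernel⟩
  · have h := (FA.Summary.isogeny_nineteen_j_iff E).1 hG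
    refine false_of_equation ⟨0, 0, 1, -38, 90⟩ (a := (-608)) (b := 5776) (by norm_num)
        hq hq2 (by norm_num) (by norm_num) (by norm_num) (by decide +kernel) (by decide +kernel)
        (by norm_num [WeierstrassCurve.Δ, WeierstrassCurve.c₄, WeierstrassCurve.b₂,
          WeierstrassCurve.b₄, WeierstrassCurve.b₆, WeierstrassCurve.b₈])
        (fun n hn hne => ?_) E (h.trans (by norm_num)) hord hg
    fin_cases hn
    · exact ⟨5, ⟨by norm_num⟩, by decide +kernel⟩
    · exact ⟨2, ⟨by norm_num⟩, by decide +kernel⟩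
    · exact ⟨2, ⟨by norm_num⟩, by decide +kernel⟩
    · exact ⟨2, ⟨by norm_num⟩, by decide +kernel⟩
    · exact absurd rfl hne
    · exact ⟨2, ⟨by norm_num⟩, by decide +kernel⟩
    · exact ⟨5, ⟨by norm_num⟩, by decide +kernel⟩
    · exact ⟨5, ⟨by norm_num⟩, by decide +kernel⟩

end FA.GenusOneIsogeny

namespace FA.Summary

variable (E : WeierstrassCurve ℚ) [E.IsElliptic] [inst : DecidableEq (AlgebraicClosure ℚ)]

/-- **Kenku at `11`, `17` and `19`**: a finite cyclic Galois stable subgroup of order divisible by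
`11`, `17` or `19` has that order. -/
theorem cyclic_isogeny_genus_one {p : ℕ} (hp : p = 11 ∨ p = 17 ∨ p = 19)
    (G : AddSubgroup (E.toAffine⁄(AlgebraicClosure ℚ)).Point) [IsAddCyclic G]
    (hpG : p ∣ Nat.card G) (hG : Nat.card G ≠ 0)
    (hst : ∀ σ : AlgebraicClosure ℚ ≃ₐ[ℚ] AlgebraicClosure ℚ, ∀ P ∈ G,
      Affine.Point.map σ.toAlgHom P ∈ G) : Nat.card G = p := by
  obtain rfl : inst = instDecEqAlgebraicClosureRat := Subsingleton.elim _ _
  classical
  have hodd := no_cyclic_isogeny_even_genus_one E hp G hpG hst hG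
  obtain ⟨m, hm⟩ := hpG
  by_contra hne
  obtain ⟨q, hq, r, hr⟩ := Nat.exists_prime_and_dvd (show m ≠ 1 by rintro rfl; omega)
  have hq2 : q ≠ 2 := by
    rintro rfl
    exact (Nat.not_even_iff_odd.2 hodd) ⟨p * r, by rw [hm, hr]; ring⟩
  obtain ⟨⟨g, hg⟩, hgen⟩ := IsAddCyclic.exists_generator (α := G)
  have hord : addOrderOf g = Nat.card G := by
    rw [← AddSubgroup.addOrderOf_mk g hg, addOrderOf_eq_card_of_forall_mem_zmultiples hgen]
  have hr0 : r ≠ 0 := by rintro rfl; simp [hr] at hm; exact hG hm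
  refine FA.GenusOneIsogeny.false_of_order_mul E hp hq hq2 (g := r • g) ?_ fun σ => ?_
  · rw [addOrderOf_nsmul' _ hr0, hord, hm, hr, ← mul_assoc, Nat.gcd_eq_right (dvd_mul_left r _),
      Nat.mul_div_cancel _ (Nat.pos_of_ne_zero hr0)]
  · obtain ⟨c, hc⟩ := AddSubgroup.mem_zmultiples_iff.1 (hgen ⟨_, hst σ g hg⟩)
    refine ⟨c, ?_⟩
    rw [map_nsmul, FA.GenusOneIsogeny.zsmul_nsmul_comm]
    exact congrArg (r • ·) (congrArg Subtype.val hc)

end FA.Summary

end
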