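import Fermat.Agent.Root.SummaryKenkuComposite
import Fermat.Agent.Root.SummaryKenkuGenusOne
import Fermat.Agent.Root.SummaryX0TwentySeven

/-!
# Cyclic isogenies of degree divisible by `11, 14, 15, 17, 19, 21` or `27`

* `cyclic_isogeny_twentySeven_exact`: a degree divisible by `27` is `27`.
* `cyclic_isogeny_levels`: a degree divisible by one of the seven levels is that level, and the
  invariant is one of the listed values.
-/

set_option autoImplicit false
set_option linter.style.haveILetI false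
set_option linter.unusedSectionVars false

noncomputable section

open WeierstrassCurve FA.KerPoly
open scoped WeierstrassCurve.Affine

local notation "Qb" => AlgebraicClosure ℚ

namespace FA.X0Composite

theorem data_twentySeven [Fact (Nat.Prime 5)] [Fact (Nat.Prime 7)] :
    let W : WeierstrassCurve ℤ := ⟨0, 0, 0, -480, 4048⟩
    ¬ ((5 : ℕ) : ℤ) ∣ W.Δ ∧ ¬ ((7 : ℕ) : ℤ) ∣ W.Δ ∧
      W.Δ.natAbs ∣ (2 * (3 * (5 * (7 * 11)))) ^ 40 ∧
      Nat.gcd (countTwelve W 5) (countTwelve W 7) ∣ (2 * (3 * (5 * (7 * 11)))) ^ 40 ∧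
      5 ∈ [2, 3, 5, 7, 11] ∧ 7 ∈ [2, 3, 5, 7, 11] := by
  decide +kernel

theorem witness_twentySeven : ∀ n ∈ [2, 3, 5, 7, 11], ∃ (l : ℕ) (_ : Fact l.Prime),
    NoRootAt ⟨0, 0, 0, -480, 4048⟩ (27 * n) l := by
  intro n hn
  fin_cases hn
  · exact ⟨7, ⟨by norm_num⟩, by decide +kernel⟩
  · exact ⟨7, ⟨by norm_num⟩, by decide +kernel⟩
  · exact ⟨7, ⟨by norm_num⟩, by decide +kernel⟩
  · exact ⟨11, ⟨by norm_num⟩, by decide +kernel⟩
  · exact ⟨5, ⟨by norm_num⟩, by decide +kernel⟩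

theorem no_stable_twentySeven_mul (E : WeierstrassCurve ℚ) [E.IsElliptic] {q : ℕ}
    (hq : q.Prime) : ¬ HasStableOrder E (27 * q) := fun hS => by
  haveI : Fact (Nat.Prime 5) := ⟨by norm_num⟩
  haveI : Fact (Nat.Prime 7) := ⟨by norm_num⟩
  have h := FA.X0TwentySeven.j_of_stable (hasStableOrder_of_dvd hS
    (mul_ne_zero (by norm_num) hq.ne_zero) (dvd_mul_right 27 q))
  exact false_of_equation ⟨0, 0, 0, -480, 4048⟩ (by norm_num) (by norm_num) (by norm_num) rfl
    data_twentySeven witness_twentySeven E (h.trans (by norm_num)) hq (by norm_num) hS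

end FA.X0Composite

namespace FA.Summary

variable (E : WeierstrassCurve ℚ) [E.IsElliptic] [inst : DecidableEq (AlgebraicClosure ℚ)]

/-- **A finite cyclic stable subgroup of order divisible by `27` has order `27`.** -/
theorem cyclic_isogeny_twentySeven_exact
    (G : AddSubgroup (E.toAffine⁄(AlgebraicClosure ℚ)).Point) [hcyc : IsAddCyclic G]
    (hG27 : 27 ∣ Nat.card G) (hG : Nat.card G ≠ 0)
    (hst : ∀ σ : AlgebraicClosure ℚ ≃ₐ[ℚ] AlgebraicClosure ℚ, ∀ P ∈ G,
      Affine.Point.map σ.toAlgHom P ∈ G) : Nat.card G = 27 := by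
  obtain rfl : inst = instDecEqAlgebraicClosureRat := Subsingleton.elim _ _
  obtain ⟨m, hm⟩ := hG27
  by_contra hne
  obtain ⟨q, hq, hqm⟩ := Nat.exists_prime_and_dvd (show m ≠ 1 by rintro rfl; omega)
  exact FA.X0Composite.no_stable_twentySeven_mul E hq (FA.X0Composite.hasStableOrder_of_dvd
    (@hasStableOrder_of_subgroup _ _ G _ rfl hcyc hst) hG (hm ▸ mul_dvd_mul_left 27 hqm))

/-- **The seven levels together**: a finite cyclic stable subgroup of order divisible by one of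
`11, 14, 15, 17, 19, 21, 27` has that order, and the invariant is one of the listed values. -/
theorem cyclic_isogeny_levels {L : ℕ} (hL : L ∈ ({11, 14, 15, 17, 19, 21, 27} : Finset ℕ))
    (G : AddSubgroup (E.toAffine⁄(AlgebraicClosure ℚ)).Point) [hcyc : IsAddCyclic G]
    (hLG : L ∣ Nat.card G) (hG : Nat.card G ≠ 0)
    (hst : ∀ σ : AlgebraicClosure ℚ ≃ₐ[ℚ] AlgebraicClosure ℚ, ∀ P ∈ G,
      Affine.Point.map σ.toAlgHom P ∈ G) :
    Nat.card G = L ∧
      (L = 11 ∧ (E.j = -32768 ∨ E.j = -121 ∨ E.j = -24729001) ∨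
        L = 14 ∧ (E.j = -3375 ∨ E.j = 16581375) ∨
        L = 15 ∧ (E.j = -25 / 2 ∨ E.j = -349938025 / 8 ∨ E.j = -121945 / 32 ∨
          E.j = 46969655 / 32768) ∨
        L = 17 ∧ (E.j = -297756989 / 2 ∨ E.j = -882216989 / 131072) ∨
        L = 19 ∧ E.j = -884736 ∨
        L = 21 ∧ (E.j = 3375 / 2 ∨ E.j = -140625 / 8 ∨ E.j = -189613868625 / 128 ∨
          E.j = -1159088625 / 2097152) ∨
        L = 27 ∧ E.j = -12288000) := by
  simp only [Finset.mem_insert, Finset.mem_singleton] at hL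
  have hcard : Nat.card G = L := by
    rcases hL with rfl | rfl | rfl | rfl | rfl | rfl | rfl
    exacts [cyclic_isogeny_genus_one E (Or.inl rfl) G hLG hG hst,
      cyclic_isogeny_composite_genus_one E (Or.inl rfl) G hLG hG hst,
      cyclic_isogeny_composite_genus_one E (Or.inr (Or.inl rfl)) G hLG hG hst,
      cyclic_isogeny_genus_one E (Or.inr (Or.inl rfl)) G hLG hG hst,
      cyclic_isogeny_genus_one E (Or.inr (Or.inr rfl)) G hLG hG hst,
      cyclic_isogeny_composite_genus_one E (Or.inr (Or.inr rfl)) G hLG hG hst,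
      cyclic_isogeny_twentySeven_exact E G hLG hG hst]
  refine ⟨hcard, ?_⟩
  rcases hL with rfl | rfl | rfl | rfl | rfl | rfl | rfl
  · exact Or.inl ⟨rfl, (isogeny_eleven_j_iff E).1 ⟨G, hcard, hst⟩⟩
  · exact Or.inr (Or.inl ⟨rfl, (isogeny_fourteen_j_iff E).1 ⟨G, hcard, hcyc, hst⟩⟩)
  · exact Or.inr (Or.inr (Or.inl ⟨rfl, (isogeny_fifteen_j_iff E).1 ⟨G, hcard, hcyc, hst⟩⟩))
  · exact Or.inr (Or.inr (Or.inr (Or.inl ⟨rfl, (isogeny_seventeen_j_iff E).1 ⟨G, hcard, hst⟩⟩)))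
  · exact Or.inr (Or.inr (Or.inr (Or.inr (Or.inl
      ⟨rfl, (isogeny_nineteen_j_iff E).1 ⟨G, hcard, hst⟩⟩))))
  · exact Or.inr (Or.inr (Or.inr (Or.inr (Or.inr (Or.inl
      ⟨rfl, (isogeny_twentyOne_j_iff E).1 ⟨G, hcard, hcyc, hst⟩⟩)))))
  · exact Or.inr (Or.inr (Or.inr (Or.inr (Or.inr (Or.inr
      ⟨rfl, (isogeny_twentySeven_j_iff E).1 ⟨G, hcard, hcyc, hst⟩⟩)))))

end FA.Summary

end
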