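import Fermat.Agent.IsogenyDegrees.KleinQuotient
import Fermat.Agent.IsogenyDegrees.OrderFortyNineData
import Fermat.Agent.Root.SummaryX0FifteenTwentyOne

/-!
# No cyclic isogeny of degree `49` over `ℚ`

* `no_cyclic_isogeny_fortyNine`: `49` divides the order of no finite Galois stable cyclic subgroup.

A generator lives in an abelian field, so the seventh root `w` of `d⁴ (d - 1)` can be taken in the
cubic field of the parameter `d`; then `(-d / w : -w² / d : 1)` is a point of the Klein quartic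
which Galois permutes cyclically, and gives a rational point of `X₀(49)`: a cusp.
-/

set_option autoImplicit false
set_option linter.style.haveILetI false
set_option linter.unusedSectionVars false

noncomputable section

open WeierstrassCurve FA.KerPoly
open scoped WeierstrassCurve.Affine IntermediateField

local notation "Qb" => AlgebraicClosure ℚ
local notation "GQ" => AlgebraicClosure ℚ ≃ₐ[ℚ] AlgebraicClosure ℚ

namespace FA.X0Composite

/-- Galois inverts a seventh root of unity. -/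
theorem exists_inverting {ζ : Qb} (hζ : IsPrimitiveRoot ζ 7) : ∃ σ : GQ, σ ζ = ζ⁻¹ := by
  refine minpoly.exists_algEquiv_of_root (Algebra.IsAlgebraic.isAlgebraic _) ?_
  rw [← Polynomial.cyclotomic_eq_minpoly_rat hζ.inv (by norm_num),
    Polynomial.cyclotomic_eq_minpoly_rat hζ (by norm_num)]
  exact minpoly.aeval _ _

/-- **The seventh root in the cubic field**, with the action of Galois on it. -/
theorem exists_seventh_root {d w : Qb} (hd0 : d ≠ 0) (hd1 : d - 1 ≠ 0)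
    (hw : w ^ 7 = d ^ 4 * (d - 1))
    (horb : ∀ σ : GQ, σ d = d ∨ σ d = 1 / (1 - d) ∨ σ d = (d - 1) / d)
    (hcomm : ∀ σ τ : GQ, σ (τ w) = τ (σ w)) :
    ∃ w' : Qb, w' ^ 7 = d ^ 4 * (d - 1) ∧ ∀ σ : GQ, (σ d = d → σ w' = w') ∧
      (σ d = 1 / (1 - d) → σ w' = -w' ^ 2 / (d * (d - 1))) ∧
      (σ d = (d - 1) / d → σ w' = -w' ^ 4 / d ^ 3) := by
  obtain ⟨ζ, hζ⟩ := HasEnoughRootsOfUnity.exists_primitiveRoot Qb 7
  have h1d : 1 - d ≠ 0 := fun h => hd1 (by linear_combination -h)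
  have hw0 : w ≠ 0 := fun h => mul_ne_zero (pow_ne_zero 4 hd0) hd1 (by rw [← hw, h]; ring)
  have hroot : ∀ a : Qb, a ^ 7 = 1 → ∃ i : ℕ, a = ζ ^ i := fun a ha => by
    obtain ⟨i, -, hi⟩ := hζ.eq_pow_of_pow_eq_one ha
    exact ⟨i, hi.symm⟩
  -- a `τ` that inverts `ζ` and fixes `d`
  obtain ⟨τ, hτ, hτd⟩ : ∃ τ : GQ, τ ζ = ζ⁻¹ ∧ τ d = d := by
    obtain ⟨ρ, hρ⟩ := exists_inverting hζ
    rcases horb ρ with h | h | h
    · exact ⟨ρ, hρ, h⟩
    · have h2 : ρ (ρ d) = (d - 1) / d := by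
        rw [h, map_div₀, map_one, map_sub, map_one, h,
          show (1 : Qb) - 1 / (1 - d) = -d / (1 - d) by field_simp; ring]
        field_simp
        ring
      refine ⟨ρ * ρ * ρ, by simp [hρ], ?_⟩
      rw [AlgEquiv.mul_apply, AlgEquiv.mul_apply, h2, map_div₀, map_sub, map_one, h]
      field_simp
      ring
    · have h2 : ρ (ρ d) = 1 / (1 - d) := by
        rw [h, map_div₀, map_sub, map_one, h]
        field_simp
        ring
      refine ⟨ρ * ρ * ρ, by simp [hρ], ?_⟩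
      rw [AlgEquiv.mul_apply, AlgEquiv.mul_apply, h2, map_div₀, map_one, map_sub, map_one, h]
      field_simp
      ring
  obtain ⟨i, hi⟩ := hroot (τ w / w) (by
    rw [div_pow, ← map_pow, hw, map_mul, map_pow, map_sub, map_one, hτd,
      div_self (mul_ne_zero (pow_ne_zero 4 hd0) hd1)])
  rw [div_eq_iff hw0] at hi
  set w' := ζ ^ (4 * i) * w with hw'
  have h7 : ζ ^ 7 = 1 := hζ.pow_eq_one
  have hw7 : w' ^ 7 = d ^ 4 * (d - 1) := by
    rw [hw', mul_pow, ← pow_mul, mul_comm _ 7, pow_mul, h7, one_pow, one_mul, hw]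
  have hτw : τ w' = w' := by
    have hζ0 : ζ ≠ 0 := hζ.ne_zero (by norm_num)
    rw [hw', map_mul, map_pow, hτ, hi, inv_pow, inv_mul_eq_iff_eq_mul₀ (pow_ne_zero _ hζ0),
      ← mul_assoc, ← pow_add, show 4 * i + 4 * i = 7 * i + i by ring, pow_add, pow_mul,
      h7, one_pow, one_mul]
  have heq : ∀ (σ : GQ) (m : Qb), m ≠ 0 → τ m = m → σ w' ^ 7 = m ^ 7 → σ w' = m := by
    intro σ m hm hτm h
    obtain ⟨j, hj⟩ := hroot (σ w' / m) (by rw [div_pow, h, div_self (pow_ne_zero 7 hm)])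
    rw [div_eq_iff hm] at hj
    have hζσ : σ ζ ^ 7 = 1 := by rw [← map_pow, h7, map_one]
    obtain ⟨k, hk⟩ := hroot _ hζσ
    have hc : τ (σ w') = σ w' := by
      conv_rhs => rw [← hτw]
      rw [hw', map_mul, map_mul, map_mul, map_mul, map_pow, map_pow, map_pow, map_pow, hcomm σ τ,
        hτ, hk, map_inv₀, hk, map_pow, hτ, inv_pow]
    rw [hj, map_mul, map_pow, hτ, hτm, inv_pow] at hc
    have h2 : ζ ^ j * ζ ^ j = 1 := by
      have e := inv_mul_cancel₀ (pow_ne_zero j (hζ.ne_zero (by norm_num)))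
      rwa [mul_right_cancel₀ hm hc] at e
    have h1 : ζ ^ j = 1 := by
      have e7 : (ζ ^ j) ^ 7 = 1 := by rw [← pow_mul, mul_comm, pow_mul, h7, one_pow]
      calc ζ ^ j = (ζ ^ j) ^ 7 * ζ ^ j := by rw [e7, one_mul]
        _ = (ζ ^ j * ζ ^ j) ^ 4 := by ring
        _ = 1 := by rw [h2, one_pow]
    rw [hj, h1, one_mul]
  have hw'0 : w' ≠ 0 := fun h => mul_ne_zero (pow_ne_zero 4 hd0) hd1 (by rw [← hw7, h]; ring)
  have hpow : ∀ σ : GQ, σ w' ^ 7 = σ d ^ 4 * (σ d - 1) := fun σ => by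
    rw [← map_pow, hw7, map_mul, map_pow, map_sub, map_one]
  refine ⟨w', hw7, fun σ => ⟨fun h => ?_, fun h => ?_, fun h => ?_⟩⟩
  · exact heq σ w' hw'0 hτw (by rw [hpow, h, hw7])
  · refine heq σ _ (div_ne_zero (neg_ne_zero.2 (pow_ne_zero 2 hw'0)) (mul_ne_zero hd0 hd1))
      (by simp [hτw, hτd]) ?_
    rw [hpow, h, div_pow (-w' ^ 2), neg_pow (w' ^ 2), ← pow_mul, show 2 * 7 = 7 * 2 from rfl,
      pow_mul, hw7, show 1 / (1 - d) - 1 = d / (1 - d) by field_simp; ring,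
      show 1 - d = -(d - 1) by ring]
    field_simp
  · refine heq σ _ (div_ne_zero (neg_ne_zero.2 (pow_ne_zero 4 hw'0)) (pow_ne_zero 3 hd0))
      (by simp [hτw, hτd]) ?_
    rw [hpow, h, div_pow (-w' ^ 4), neg_pow (w' ^ 4), ← pow_mul, show 4 * 7 = 7 * 4 from rfl,
      pow_mul, hw7]
    field_simp
    ring

/-- The point of the Klein quartic is a cusp: the parameter is a root of `d³ - 8 d² + 5 d + 1`. -/
theorem cubic_eq_zero {d w : Qb} (hw : w ^ 7 = d ^ 4 * (d - 1))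
    (hq : d ^ 2 - w ^ 2 * d + w ^ 3 = 0) (hc : 7 * w = -(1 - w) ^ 3) :
    d ^ 3 - 8 * d ^ 2 + 5 * d + 1 = 0 := by
  have hC : w ^ 3 - 3 * w ^ 2 - 4 * w - 1 = 0 := by linear_combination -hc
  have h : (d - (w ^ 2 - 2 * w - 1)) * (d - (2 * w + 1)) = 0 := by
    linear_combination hq + hC
  rcases mul_eq_zero.1 h with e | e <;> rw [sub_eq_zero] at e <;> subst e
  · linear_combination (w ^ 3 - 3 * w ^ 2 - 4 * w + 13) * hC
  · exfalso
    refine one_ne_zero (α := Qb) ?_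
    linear_combination ((3417 / 7) + (4282 / 7) * w - (1266 / 7) * w ^ 2) * hw -
      (1 + (6806 / 7) * w + (35991 / 7) * w ^ 2 + (65621 / 7) * w ^ 3 + (40317 / 7) * w ^ 4 +
        (484 / 7) * w ^ 5 - (1266 / 7) * w ^ 6) * hC

/-- The symmetric functions of a point of the Klein quartic give a contradiction. -/
theorem false_of_klein {d w : Qb} (hd0 : d ≠ 0) (hd1 : d - 1 ≠ 0) (hw : w ^ 7 = d ^ 4 * (d - 1))
    (hP : d ^ 3 - 8 * d ^ 2 + 5 * d + 1 ≠ 0)
    (horb : ∀ σ : GQ, σ d = d ∨ σ d = 1 / (1 - d) ∨ σ d = (d - 1) / d)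
    (hact : ∀ σ : GQ, (σ d = d → σ w = w) ∧
      (σ d = 1 / (1 - d) → σ w = -w ^ 2 / (d * (d - 1))) ∧
      (σ d = (d - 1) / d → σ w = -w ^ 4 / d ^ 3)) : False := by
  have h1d : 1 - d ≠ 0 := fun h => hd1 (by linear_combination -h)
  have hw0 : w ≠ 0 := fun h => mul_ne_zero (pow_ne_zero 4 hd0) hd1 (by rw [← hw, h]; ring)
  set X := -d / w with hX
  set Y := -w ^ 2 / d with hY
  have hX0 : X ≠ 0 := div_ne_zero (neg_ne_zero.2 hd0) hw0
  have hY0 : Y ≠ 0 := div_ne_zero (neg_ne_zero.2 (pow_ne_zero 2 hw0)) hd0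
  have hXY : X * Y = w := by rw [hX, hY]; field_simp
  have hF : X ^ 3 * Y + Y ^ 3 + X = 0 := by
    rw [hX, hY]
    field_simp
    linear_combination -hw
  have hperm : ∀ σ : GQ, (σ X = X ∧ σ Y = Y) ∨ (σ X = 1 / Y ∧ σ Y = X / Y) ∨
      (σ X = Y / X ∧ σ Y = 1 / X) := by
    intro σ
    have e : σ X = -σ d / σ w ∧ σ Y = -σ w ^ 2 / σ d := by simp [hX, hY]
    rcases horb σ with h | h | h
    · exact Or.inl (by rw [e.1, e.2, h, (hact σ).1 h]; exact ⟨rfl, rfl⟩)
    · refine Or.inr (Or.inl ?_)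
      rw [e.1, e.2, h, (hact σ).2.1 h, hX, hY]
      constructor
      · field_simp
        ring
      · field_simp
        linear_combination (d - 1) * hw
    · refine Or.inr (Or.inr ?_)
      rw [e.1, e.2, h, (hact σ).2.2 h, hX, hY]
      constructor
      · field_simp
        linear_combination -hw
      · field_simp
        linear_combination -hw
  by_cases hS : X + Y + 1 = 0
  · have hw1 : X * Y = 1 := by
      have : 2 * (X * Y + X + Y) ^ 2 = 0 := by
        linear_combination -2 * hF + ((X - Y) * (X - 1) * (Y - 1) +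
          (X + Y + 1) * (X * Y + X + Y) - X * Y) * hS
      have := eq_zero_of_pow_eq_zero (mul_eq_zero.1 this |>.resolve_left two_ne_zero)
      linear_combination this - hS
    have hd2 : d ^ 2 - d + 1 = 0 := by
      rw [hXY] at hw1
      subst hw1
      rw [hX, hY] at hS
      field_simp at hS
      linear_combination -hS
    obtain ⟨q, hq⟩ := FA.EC.mem_range_of_fixed (x := d) fun σ => by
      rcases horb σ with h | h | h
      · exact h
      · rw [h, div_eq_iff h1d]; linear_combination hd2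
      · rw [h, div_eq_iff hd0]; linear_combination -hd2
    rw [← hq] at hd2
    have : q ^ 2 - q + 1 = 0 := (algebraMap ℚ Qb).injective (by
      simp only [map_add, map_sub, map_pow, map_one, map_zero]; exact hd2)
    nlinarith [sq_nonneg (q - 1 / 2)]
  obtain ⟨u, hu⟩ := FA.EC.mem_range_of_fixed (x := (X * Y + X + Y) / (X + Y + 1) ^ 2) fun σ => by
    simp only [map_div₀, map_pow, map_add, map_mul, map_one]
    rcases hperm σ with ⟨e1, e2⟩ | ⟨e1, e2⟩ | ⟨e1, e2⟩ <;> rw [e1, e2]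
    · rw [show 1 / Y + X / Y + 1 = (X + Y + 1) / Y by field_simp; ring]
      field_simp
      ring
    · rw [show Y / X + 1 / X + 1 = (X + Y + 1) / X by field_simp; ring]
      field_simp
      ring
  obtain ⟨v, hv⟩ := FA.EC.mem_range_of_fixed (x := X * Y / (X + Y + 1) ^ 3) fun σ => by
    simp only [map_div₀, map_pow, map_add, map_mul, map_one]
    rcases hperm σ with ⟨e1, e2⟩ | ⟨e1, e2⟩ | ⟨e1, e2⟩ <;> rw [e1, e2]
    · rw [show 1 / Y + X / Y + 1 = (X + Y + 1) / Y by field_simp; ring]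
      field_simp
    · rw [show Y / X + 1 / X + 1 = (X + Y + 1) / X by field_simp; ring]
      field_simp
  have hrel := klein_quotient hF hS
  rw [← hu, ← hv] at hrel
  have hrelQ : 7 * v ^ 2 + v * (u ^ 2 - 5 * u + 1) + u ^ 4 = 0 :=
    (algebraMap ℚ Qb).injective (by
      simpa only [map_add, map_sub, map_mul, map_pow, map_ofNat, map_one, map_zero] using hrel)
  obtain ⟨rfl, rfl⟩ := klein_quotient_points hrelQ (fun h0 => by
    rw [h0, map_zero, eq_comm, div_eq_zero_iff] at hv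
    exact hv.elim (mul_ne_zero hX0 hY0) (pow_ne_zero 3 hS))
  rw [map_zero, eq_comm, div_eq_zero_iff, or_iff_left (pow_ne_zero 2 hS)] at hu
  rw [map_div₀, map_neg, map_one, map_ofNat, eq_comm, div_eq_iff (pow_ne_zero 3 hS)] at hv
  refine hP (cubic_eq_zero hw ?_ ?_)
  · have h := hu
    rw [hXY, hX, hY] at h
    field_simp at h
    linear_combination -h
  · rw [hXY] at hv hu
    have : X + Y + 1 = 1 - w := by linear_combination hu
    rw [this] at hv
    linear_combination 7 * hv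

/-- **No stable cyclic subgroup of order `49`.** -/
theorem false_of_fortyNine {E : WeierstrassCurve ℚ} [E.IsElliptic] (h : HasStableOrder E 49) :
    False := by
  classical
  obtain ⟨g, hg, hst⟩ := h
  obtain ⟨x, y, hns, rfl⟩ := FA.EC.exists_some_of_ne_zero (W := E⁄Qb) (P := g)
    (fun h => by rw [h, addOrderOf_zero] at hg; omega)
  set F := ℚ⟮x, y⟯
  have hxF : x ∈ F := IntermediateField.subset_adjoin ℚ _ (by simp)
  have hyF : y ∈ F := IntermediateField.subset_adjoin ℚ _ (by simp)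
  have hnsF : (E⁄F).toAffine.Nonsingular (⟨x, hxF⟩ : F) (⟨y, hyF⟩ : F) :=
    (Affine.baseChange_nonsingular (W := E.toAffine) (f := F.val) F.val.injective _ _).1 hns
  set P : (E⁄F).toAffine.Point := Affine.Point.some _ _ hnsF with hPdef
  set ι := Affine.Point.map (W' := E.toAffine) F.val
  have hι : ι P = Affine.Point.some x y hns := rfl
  have hιinj : Function.Injective ι := Affine.Point.map_injective _
  have hP : addOrderOf P = 49 := by
    rw [← addOrderOf_injective ι hιinj P, hι]; exact hg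
  obtain ⟨x₁, y₁, x₂, y₂, x₃, y₃, h₁, h₂, h₃, d, z, e₁, e₂, e₃, hne, hd, hd0, hd1, hcub, hz⟩ :=
    FA.Torsion.order_49_data P hP
  set g := Affine.Point.some (W' := (E⁄Qb).toAffine) x y hns
  set R : (E.toAffine⁄Qb).Point := 7 • g with hR
  have hR7 : (7 : ℤ) • R = 0 := by
    rw [show (7 : ℤ) = ((7 : ℕ) : ℤ) from rfl, natCast_zsmul, hR, smul_smul,
      show 7 * 7 = 49 from rfl, ← hg, addOrderOf_nsmul_eq_zero]
  have hxR : ∀ {k : ℕ} {a b : F} {hab : (E⁄F).toAffine.Nonsingular a b},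
      k • 7 • P = Affine.Point.some a b hab → FA.EC.xc (W := E⁄Qb) ((k : ℤ) • R) = (a : Qb) := by
    intro k a b hab he
    rw [natCast_zsmul, hR, ← hι, ← map_nsmul, ← map_nsmul, he]
    rfl
  have hx1 := hxR (k := 1) (by rw [one_nsmul]; exact e₁)
  have hx2 := hxR e₂
  have hx3 := hxR e₃
  -- commutation on `F`
  have hcomm : ∀ σ τ : GQ, ∀ a ∈ F, σ (τ a) = τ (σ a) := by
    intro σ τ
    obtain ⟨c, hc⟩ := hst σ
    obtain ⟨c', hc'⟩ := hst τ
    have hmul : σ • τ • g = τ • σ • g := by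
      show Affine.Point.map σ.toAlgHom (Affine.Point.map τ.toAlgHom g) =
        Affine.Point.map τ.toAlgHom (Affine.Point.map σ.toAlgHom g)
      rw [← hc', map_zsmul, ← hc, map_zsmul, ← hc', ← mul_zsmul, ← mul_zsmul, mul_comm]
    obtain ⟨hxx, hyy⟩ := Affine.Point.some.inj hmul
    intro a ha
    induction ha using IntermediateField.adjoin_induction with
    | mem a ha =>
      rcases ha with rfl | rfl
      exacts [hxx, hyy]
    | algebraMap q => simp
    | add a b _ _ iha ihb => simp [iha, ihb]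
    | inv a _ iha => simp [iha]
    | mul a b _ _ iha ihb => simp [iha, ihb]
  have hdQ : (d : Qb) * ((x₃ : Qb) - x₁) = (x₂ : Qb) - x₁ := by
    exact_mod_cast congrArg (fun a : F => (a : Qb)) hd
  have hneQ : (x₃ : Qb) - x₁ ≠ 0 := by exact_mod_cast hne
  have hd0Q : (d : Qb) ≠ 0 := by exact_mod_cast hd0
  have hd1Q : (d : Qb) - 1 ≠ 0 := by exact_mod_cast hd1
  have hcubQ : (d : Qb) ^ 3 - 8 * (d : Qb) ^ 2 + 5 * (d : Qb) + 1 ≠ 0 := by
    have := (map_ne_zero F.val).2 hcub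
    simp only [map_sub, map_add, map_mul, map_pow, map_ofNat, map_one] at this
    exact this
  have hzQ : (z : Qb) ^ 7 = (d : Qb) ^ 4 * ((d : Qb) - 1) := by
    exact_mod_cast congrArg (fun a : F => (a : Qb)) hz
  have horb : ∀ σ : GQ, σ (d : Qb) = d ∨ σ (d : Qb) = 1 / (1 - (d : Qb)) ∨
      σ (d : Qb) = ((d : Qb) - 1) / d := by
    intro σ
    obtain ⟨c, hc⟩ := hst σ
    have hσx : ∀ n : ℤ, σ (FA.EC.xc (W := E⁄Qb) (n • R)) =
        FA.EC.xc (W := E⁄Qb) ((c * n) • R) := by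
      intro n
      have e : Affine.Point.map (W' := E.toAffine) σ.toAlgHom (n • R) = (c * n) • R := by
        rw [map_zsmul, hR, map_nsmul, ← hc, mul_comm c n, mul_zsmul]
        congr 1
        exact ((zsmulAddGroupHom c : _ →+ _).map_nsmul 7 g).symm
      rw [← e]
      rcases hh : n • R with _ | ⟨a, b, hab⟩
      · exact map_zero σ
      · rfl
    have hd' : σ (d : Qb) * (σ (x₃ : Qb) - σ (x₁ : Qb)) = σ (x₂ : Qb) - σ (x₁ : Qb) := by
      rw [← map_sub, ← map_mul, hdQ, map_sub]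
    have hne' : σ (x₃ : Qb) - σ (x₁ : Qb) ≠ 0 := by
      rw [← map_sub]
      exact (map_ne_zero σ).2 hneQ
    have s1 : σ (x₁ : Qb) =
        FA.EC.xc (W := E⁄Qb) ((c * ((1 : ℕ) : ℤ)) • R) := by rw [← hx1, hσx]
    have s2 : σ (x₂ : Qb) =
        FA.EC.xc (W := E⁄Qb) ((c * ((2 : ℕ) : ℤ)) • R) := by rw [← hx2, hσx]
    have s3 : σ (x₃ : Qb) =
        FA.EC.xc (W := E⁄Qb) ((c * ((3 : ℕ) : ℤ)) • R) := by rw [← hx3, hσx]
    have hc7 : ¬ (7 : ℤ) ∣ c := fun ⟨k, hk⟩ => by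
      have h7 : Affine.Point.map (W' := E.toAffine) σ.toAlgHom ((7 : ℤ) • g) = 0 := by
        rw [map_zsmul, ← hc, ← mul_zsmul, hk, show (7 : ℤ) * (7 * k) = k * ((49 : ℕ) : ℤ) by
          push_cast; ring, mul_zsmul, natCast_zsmul, ← hg, addOrderOf_nsmul_eq_zero, zsmul_zero]
      have := addOrderOf_dvd_iff_zsmul_eq_zero.2
        (Affine.Point.map_injective σ.toAlgHom (h7.trans (map_zero _).symm))
      rw [hg] at this
      omega
    have key : ∀ m : ℤ, (7 : ℤ) ∣ c - m ∨ (7 : ℤ) ∣ c + m → ∀ n k : ℤ,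
        (7 : ℤ) ∣ m * n - k ∨ (7 : ℤ) ∣ m * n + k →
          FA.EC.xc (W := E⁄Qb) ((c * n) • R) = FA.EC.xc (W := E⁄Qb) (k • R) := by
      have hcongr : ∀ {n m : ℤ}, (7 : ℤ) ∣ n - m ∨ (7 : ℤ) ∣ n + m →
          FA.EC.xc (W := E⁄Qb) (n • R) = FA.EC.xc (W := E⁄Qb) (m • R) := by
        intro n m h
        rcases h with ⟨k, hk⟩ | ⟨k, hk⟩
        · rw [show n = m + k * 7 by omega, add_zsmul, mul_zsmul, hR7, zsmul_zero, add_zero]
        · rw [show n = -m + k * 7 by omega, add_zsmul, mul_zsmul, hR7, zsmul_zero, add_zero,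
            neg_zsmul]
          exact FA.EC.xc_neg _
      intro m hm n k hk
      refine (hcongr (m := m * n) ?_).trans (hcongr hk)
      rcases hm with ⟨a, ha⟩ | ⟨a, ha⟩
      · exact Or.inl ⟨a * n, by linear_combination n * ha⟩
      · exact Or.inr ⟨a * n, by linear_combination n * ha⟩
    have hcases : ((7 : ℤ) ∣ c - 1 ∨ (7 : ℤ) ∣ c + 1) ∨ ((7 : ℤ) ∣ c - 2 ∨ (7 : ℤ) ∣ c + 2) ∨
        ((7 : ℤ) ∣ c - 3 ∨ (7 : ℤ) ∣ c + 3) := by omega
    rcases hcases with hm | hm | hm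
    · rw [key _ hm ((1 : ℕ) : ℤ) ((1 : ℕ) : ℤ) (by norm_num), hx1] at s1
      rw [key _ hm ((2 : ℕ) : ℤ) ((2 : ℕ) : ℤ) (by norm_num), hx2] at s2
      rw [key _ hm ((3 : ℕ) : ℤ) ((3 : ℕ) : ℤ) (by norm_num), hx3] at s3
      rw [s1, s2, s3, ← hdQ] at hd'
      exact Or.inl (mul_right_cancel₀ hneQ hd')
    · rw [key _ hm ((1 : ℕ) : ℤ) ((2 : ℕ) : ℤ) (by norm_num), hx2] at s1
      rw [key _ hm ((2 : ℕ) : ℤ) ((3 : ℕ) : ℤ) (by norm_num), hx3] at s2
      rw [key _ hm ((3 : ℕ) : ℤ) ((1 : ℕ) : ℤ) (by norm_num), hx1] at s3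
      rw [s1, s3] at hne'
      rw [s1, s2, s3] at hd'
      exact Or.inr (Or.inr ((eq_div_iff hd0Q).2
        (mul_right_cancel₀ hne' (by linear_combination (d : Qb) * hd' + hdQ))))
    · rw [key _ hm ((1 : ℕ) : ℤ) ((3 : ℕ) : ℤ) (by norm_num), hx3] at s1
      rw [key _ hm ((2 : ℕ) : ℤ) ((1 : ℕ) : ℤ) (by norm_num), hx1] at s2
      rw [key _ hm ((3 : ℕ) : ℤ) ((2 : ℕ) : ℤ) (by norm_num), hx2] at s3
      rw [s1, s3] at hne'
      rw [s1, s2, s3] at hd'
      exact Or.inr (Or.inl ((eq_div_iff (fun h => hd1Q (by linear_combination -h))).2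
        (mul_right_cancel₀ hne' (by linear_combination (1 - (d : Qb)) * hd' + hdQ))))
  obtain ⟨w, hw, hact⟩ := exists_seventh_root hd0Q hd1Q hzQ horb
    (fun σ τ => hcomm σ τ _ z.2)
  exact false_of_klein hd0Q hd1Q hw hcubQ horb hact

end FA.X0Composite

namespace FA.Summary

variable (E : WeierstrassCurve ℚ) [E.IsElliptic] [inst : DecidableEq (AlgebraicClosure ℚ)]

/-- **No cyclic isogeny of degree divisible by `49`.** -/
theorem no_cyclic_isogeny_fortyNine
    (G : AddSubgroup (E.toAffine⁄(AlgebraicClosure ℚ)).Point) [hcyc : IsAddCyclic G]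
    (hG : Nat.card G ≠ 0)
    (hst : ∀ σ : AlgebraicClosure ℚ ≃ₐ[ℚ] AlgebraicClosure ℚ, ∀ P ∈ G,
      Affine.Point.map σ.toAlgHom P ∈ G) : ¬ 49 ∣ Nat.card G := fun h49 => by
  obtain rfl : inst = instDecEqAlgebraicClosureRat := Subsingleton.elim _ _
  exact FA.X0Composite.false_of_fortyNine (FA.X0Composite.hasStableOrder_of_dvd
    (@hasStableOrder_of_subgroup _ _ G _ rfl hcyc hst) hG h49)

end FA.Summary

end
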