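import Fermat.Agent.Root.SummaryX0FifteenTwentyOne
import Fermat.Agent.Torsion.Order35

/-!
# No cyclic isogeny of degree `35` over `ℚ`

* `no_isogeny_five_and_seven`: no elliptic curve over `ℚ` has Galois stable subgroups of order `5`
  and of order `7`.
* `no_cyclic_isogeny_thirtyFive`: so `35` divides the order of no finite Galois stable cyclic
  subgroup.
-/

set_option autoImplicit false
set_option linter.style.haveILetI false
set_option linter.unusedSectionVars false

noncomputable section

open WeierstrassCurve FA.KerPoly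
open scoped WeierstrassCurve.Affine

local notation "Qb" => AlgebraicClosure ℚ

namespace FA.X0Composite

theorem false_of_five_and_seven {E : WeierstrassCurve ℚ} [E.IsElliptic]
    (h5 : HasStableOrder E 5) (h7 : HasStableOrder E 7) : False := by
  obtain ⟨W, _, hW, hΔ, -⟩ := exists_model E
  obtain ⟨t, ht, htj⟩ := FA.EC.exists_param_five (E := W.map (Int.castRingHom ℚ))
    (not_irreducible hW Nat.prime_five h5)
  obtain ⟨u, hu, huj⟩ := FA.EC.exists_param_seven (E := W.map (Int.castRingHom ℚ))
    (not_irreducible hW (by norm_num) h7)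
  rw [map_c₄, map_Δ, eq_intCast, eq_intCast] at htj huj
  have hF : (t ^ 2 + 10 * t + 5) ^ 3 * u =
      (u ^ 2 + 13 * u + 49) * (u ^ 2 + 5 * u + 1) ^ 3 * t :=
    mul_right_cancel₀ hΔ (by linear_combination t * huj - u * htj)
  refine FA.Torsion.X35.fibEq_ne_zero (a := 125 / t) (b := 49 / u) (div_ne_zero (by norm_num) ht)
    (div_ne_zero (by norm_num) hu) ?_
  rw [FA.Torsion.X35.fibEq]
  field_simp
  linear_combination (3125 ^ 3 * 49 ^ 7 : ℚ) * hF

end FA.X0Composite

namespace FA.Summary

variable (E : WeierstrassCurve ℚ) [E.IsElliptic] [inst : DecidableEq (AlgebraicClosure ℚ)]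

/-- **No curve over `ℚ` has isogenies of degree `5` and of degree `7`.** -/
theorem no_isogeny_five_and_seven
    (G H : AddSubgroup (E.toAffine⁄(AlgebraicClosure ℚ)).Point) (hG : Nat.card G = 5)
    (hH : Nat.card H = 7)
    (hstG : ∀ σ : AlgebraicClosure ℚ ≃ₐ[ℚ] AlgebraicClosure ℚ, ∀ P ∈ G,
      Affine.Point.map σ.toAlgHom P ∈ G)
    (hstH : ∀ σ : AlgebraicClosure ℚ ≃ₐ[ℚ] AlgebraicClosure ℚ, ∀ P ∈ H,
      Affine.Point.map σ.toAlgHom P ∈ H) : False := by
  obtain rfl : inst = instDecEqAlgebraicClosureRat := Subsingleton.elim _ _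
  haveI : Fact (Nat.Prime 5) := ⟨Nat.prime_five⟩
  haveI : Fact (Nat.Prime 7) := ⟨by norm_num⟩
  exact FA.X0Composite.false_of_five_and_seven
    (@hasStableOrder_of_subgroup _ _ G _ hG (isAddCyclic_of_prime_card hG) hstG)
    (@hasStableOrder_of_subgroup _ _ H _ hH (isAddCyclic_of_prime_card hH) hstH)

/-- **No cyclic isogeny of degree divisible by `35`.** -/
theorem no_cyclic_isogeny_thirtyFive
    (G : AddSubgroup (E.toAffine⁄(AlgebraicClosure ℚ)).Point) [hcyc : IsAddCyclic G]
    (hG : Nat.card G ≠ 0)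
    (hst : ∀ σ : AlgebraicClosure ℚ ≃ₐ[ℚ] AlgebraicClosure ℚ, ∀ P ∈ G,
      Affine.Point.map σ.toAlgHom P ∈ G) : ¬ 35 ∣ Nat.card G := fun h35 => by
  obtain rfl : inst = instDecEqAlgebraicClosureRat := Subsingleton.elim _ _
  have h := FA.X0Composite.hasStableOrder_of_dvd
    (@hasStableOrder_of_subgroup _ _ G _ rfl hcyc hst) hG h35
  exact FA.X0Composite.false_of_five_and_seven
    (FA.X0Composite.hasStableOrder_of_dvd h (by norm_num) (by norm_num))
    (FA.X0Composite.hasStableOrder_of_dvd h (by norm_num) (by norm_num))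

end FA.Summary

end
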