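import Fermat.Agent.IsogenyDegrees.DescentTwenty
import Fermat.Agent.IsogenyDegrees.TwoIsogeny

/-!
# No cyclic isogeny of degree `20` over `ℚ`

* `no_isogeny_five_of_square_discriminant`: an elliptic curve over `ℚ` with a Galois stable
  subgroup of order `5` has a discriminant that is no square.
* `no_cyclic_isogeny_twenty`: so `20` divides the order of no finite Galois stable cyclic subgroup.
-/

set_option autoImplicit false
set_option linter.style.haveILetI false
set_option linter.unusedSectionVars false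

noncomputable section

open WeierstrassCurve FA.KerPoly
open FA.CM.Seven (twoCurve)
open scoped WeierstrassCurve.Affine

local notation "Qb" => AlgebraicClosure ℚ

namespace FA.X0Composite

variable {E : WeierstrassCurve ℚ} [E.IsElliptic]

/-- A stable line moves along a change of variables. -/
theorem hasStableOrder_of_variableChange {E' : WeierstrassCurve ℚ} [E'.IsElliptic]
    {C : VariableChange ℚ} (hC : C • E = E') {n : ℕ} (h : HasStableOrder E n) :
    HasStableOrder E' n := by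
  obtain ⟨g, hg, hst⟩ := h
  obtain ⟨P, rfl⟩ := (FA.Frob.pointEquiv C hC).surjective g
  rw [AddEquiv.addOrderOf_eq] at hg
  refine ⟨P, hg, fun σ => ?_⟩
  obtain ⟨c, hc⟩ := hst σ
  refine ⟨c, (FA.Frob.pointEquiv C hC).injective ?_⟩
  rw [map_zsmul, hc]
  exact (FA.Frob.pointEquiv_smul C hC σ P).symm

/-- A stable line of order `5` and a square discriminant exclude each other. -/
theorem false_of_five_of_square (h5 : HasStableOrder E 5) (hsq : IsSquare E.Δ) : False := by
  obtain ⟨W, _, hW, hΔ, -⟩ := exists_model E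
  obtain ⟨C, hC⟩ := hW
  obtain ⟨t, ht, htj⟩ := FA.EC.exists_param_five (E := W.map (Int.castRingHom ℚ))
    (not_irreducible ⟨C, hC⟩ Nat.prime_five h5)
  obtain ⟨e, he⟩ := hsq
  have hd : ∃ d : ℚ, (W.Δ : ℚ) = d * d := by
    refine ⟨((C.u⁻¹ : ℚˣ) : ℚ) ^ 6 * e, ?_⟩
    rw [← eq_intCast (Int.castRingHom ℚ) W.Δ, ← map_Δ, ← hC, variableChange_Δ, he]
    ring
  obtain ⟨d, hd⟩ := hd
  rw [map_c₄, map_Δ, eq_intCast, eq_intCast, hd] at htj
  have hd0 : d ≠ 0 := fun h0 => hΔ (by rw [hd, h0, mul_zero])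
  have hk : t ^ 2 + 4 * t - 1 ≠ 0 := fun h0 =>
    FA.EC.X15.rat_sq_ne_five (t + 2) (by linear_combination h0)
  have hc : 1728 * (d * d) = (W.c₄ : ℚ) ^ 3 - (W.c₆ : ℚ) ^ 2 := by
    rw [← hd]; exact_mod_cast W.c_relation
  refine ht (eq_zero_of_cubic_square
    (v := t * W.c₆ / ((t ^ 2 + 4 * t - 1) * d)) ?_)
  rw [div_pow, div_eq_iff (pow_ne_zero 2 (mul_ne_zero hk hd0))]
  linear_combination t ^ 2 * hc + t * htj

/-- **No stable cyclic subgroup of order `20`.** -/
theorem false_of_twenty (h : HasStableOrder E 20) : False := by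
  obtain ⟨a, r, C, hC⟩ := exists_twoCurve_of_four
    (hasStableOrder_of_dvd h (by norm_num) (show 4 ∣ 20 by norm_num))
  haveI : (twoCurve a (r ^ 2)).IsElliptic := hC ▸ inferInstance
  have hΔ : (twoCurve a (r ^ 2)).Δ ≠ 0 := (twoCurve a (r ^ 2)).isUnit_Δ.ne_zero
  have hne : r ^ 2 ≠ 0 ∧ a ^ 2 - 4 * r ^ 2 ≠ 0 := by
    constructor <;> intro h0 <;> apply hΔ <;> simp [Δ, b₂, b₄, b₆, b₈] <;> grind
  haveI : (twoCurve (-2 * a) (a ^ 2 - 4 * r ^ 2)).IsElliptic := by
    rw [isElliptic_iff, isUnit_iff_ne_zero]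
    simp [Δ, b₂, b₄, b₆, b₈]
    grind
  refine false_of_five_of_square (hasStableOrder_isog a (r ^ 2) (by decide)
    (hasStableOrder_of_variableChange hC
      (hasStableOrder_of_dvd h (by norm_num) (show 5 ∣ 20 by norm_num)))) ?_
  refine ⟨16 * r * (a ^ 2 - 4 * r ^ 2), ?_⟩
  simp [Δ, b₂, b₄, b₆, b₈]
  ring

end FA.X0Composite

namespace FA.Summary

variable (E : WeierstrassCurve ℚ) [E.IsElliptic] [inst : DecidableEq (AlgebraicClosure ℚ)]

/-- **No five-isogeny with a square discriminant.** -/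
theorem no_isogeny_five_of_square_discriminant (hsq : IsSquare E.Δ)
    (G : AddSubgroup (E.toAffine⁄(AlgebraicClosure ℚ)).Point) (hG : Nat.card G = 5)
    (hst : ∀ σ : AlgebraicClosure ℚ ≃ₐ[ℚ] AlgebraicClosure ℚ, ∀ P ∈ G,
      Affine.Point.map σ.toAlgHom P ∈ G) : False := by
  obtain rfl : inst = instDecEqAlgebraicClosureRat := Subsingleton.elim _ _
  haveI : Fact (Nat.Prime 5) := ⟨Nat.prime_five⟩
  exact FA.X0Composite.false_of_five_of_square
    (@hasStableOrder_of_subgroup _ _ G _ hG (isAddCyclic_of_prime_card hG) hst) hsq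

/-- **No cyclic isogeny of degree divisible by `20`.** -/
theorem no_cyclic_isogeny_twenty
    (G : AddSubgroup (E.toAffine⁄(AlgebraicClosure ℚ)).Point) [hcyc : IsAddCyclic G]
    (hG : Nat.card G ≠ 0)
    (hst : ∀ σ : AlgebraicClosure ℚ ≃ₐ[ℚ] AlgebraicClosure ℚ, ∀ P ∈ G,
      Affine.Point.map σ.toAlgHom P ∈ G) : ¬ 20 ∣ Nat.card G := fun h20 => by
  obtain rfl : inst = instDecEqAlgebraicClosureRat := Subsingleton.elim _ _
  exact FA.X0Composite.false_of_twenty (FA.X0Composite.hasStableOrder_of_dvd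
    (@hasStableOrder_of_subgroup _ _ G _ rfl hcyc hst) hG h20)

end FA.Summary

end
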