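import Fermat.Agent.IsogenyDegrees.DescentThirtySix
import Fermat.Agent.IsogenyDegrees.OrderNine
import Fermat.Agent.Root.SummaryX0Twenty

/-!
# No cyclic isogeny of degree `36` over `ℚ`

* `no_isogeny_nine_of_square_discriminant`: an elliptic curve over `ℚ` with a Galois stable cyclic
  subgroup of order `9` has a discriminant that is no square.
* `no_cyclic_isogeny_thirtySix`: so `36` divides the order of no finite Galois stable cyclic
  subgroup.
-/

set_option autoImplicit false
set_option linter.style.haveILetI false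
set_option linter.unusedSectionVars false

noncomputable section

open WeierstrassCurve FA.KerPoly
open FA.CM.Seven (twoCurve)
open FA.Torsion (nineNum nineDen)
open scoped WeierstrassCurve.Affine

namespace FA.X0Composite

variable {E : WeierstrassCurve ℚ} [E.IsElliptic]

/-- A stable cyclic subgroup of order `9` and a square discriminant exclude each other. -/
theorem false_of_nine_of_square (h9 : HasStableOrder E 9) (hsq : IsSquare E.Δ) : False := by
  obtain ⟨W, _, hW, hΔ, hj⟩ := exists_model E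
  obtain ⟨C, hC⟩ := hW
  obtain ⟨t, htj⟩ := exists_param_nine h9
  obtain ⟨e, he⟩ := hsq
  have hd : ∃ d : ℚ, (W.Δ : ℚ) = d * d := by
    refine ⟨((C.u⁻¹ : ℚˣ) : ℚ) ^ 6 * e, ?_⟩
    rw [← eq_intCast (Int.castRingHom ℚ) W.Δ, ← map_Δ, ← hC, variableChange_Δ, he]
    ring
  obtain ⟨d, hd⟩ := hd
  have hd0 : d ≠ 0 := fun h0 => hΔ (by rw [hd, h0, mul_zero])
  have ht : t ≠ 0 := fun h0 => by
    rw [h0] at htj
    norm_num [nineNum, nineDen] at htj
  rw [hj, hd, div_mul_eq_mul_div, div_eq_iff (mul_ne_zero hd0 hd0)] at htj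
  have hk : nineDen t ^ 2 + 18 * nineDen t - 27 ≠ 0 := fun h0 => by
    have h3 : IsSquare ((3 : ℕ) : ℚ) := ⟨(nineDen t + 9) / 6, by
      push_cast; linear_combination -h0 / 36⟩
    rw [Rat.isSquare_natCast_iff] at h3
    exact Nat.prime_three.prime.not_isSquare h3
  have hc : 1728 * (d * d) = (W.c₄ : ℚ) ^ 3 - (W.c₆ : ℚ) ^ 2 := by
    rw [← hd]; exact_mod_cast W.c_relation
  refine ht (eq_zero_of_cubic_thirtySix
    (V := nineDen t * W.c₆ / ((nineDen t ^ 2 + 18 * nineDen t - 27) * d)) ?_)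
  rw [div_pow, div_eq_iff (pow_ne_zero 2 (mul_ne_zero hk hd0))]
  simp only [nineNum, nineDen] at htj ⊢
  linear_combination (t * (t ^ 2 + 9 * t + 27)) ^ 2 * hc + t * (t ^ 2 + 9 * t + 27) * htj

/-- **No stable cyclic subgroup of order `36`.** -/
theorem false_of_thirtySix (h : HasStableOrder E 36) : False := by
  obtain ⟨a, r, C, hC⟩ := exists_twoCurve_of_four
    (hasStableOrder_of_dvd h (by norm_num) (show 4 ∣ 36 by norm_num))
  haveI : (twoCurve a (r ^ 2)).IsElliptic := hC ▸ inferInstance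
  haveI : (twoCurve (-2 * a) (a ^ 2 - 4 * r ^ 2)).IsElliptic := by
    have hΔ : (twoCurve a (r ^ 2)).Δ ≠ 0 := (twoCurve a (r ^ 2)).isUnit_Δ.ne_zero
    rw [isElliptic_iff, isUnit_iff_ne_zero]
    simp [Δ, b₂, b₄, b₆, b₈] at hΔ ⊢
    grind
  refine false_of_nine_of_square (hasStableOrder_isog a (r ^ 2) (by decide)
    (hasStableOrder_of_variableChange hC
      (hasStableOrder_of_dvd h (by norm_num) (show 9 ∣ 36 by norm_num)))) ?_
  refine ⟨16 * r * (a ^ 2 - 4 * r ^ 2), ?_⟩
  simp [Δ, b₂, b₄, b₆, b₈]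
  ring

end FA.X0Composite

namespace FA.Summary

variable (E : WeierstrassCurve ℚ) [E.IsElliptic] [inst : DecidableEq (AlgebraicClosure ℚ)]

/-- **No cyclic nine-isogeny with a square discriminant.** -/
theorem no_isogeny_nine_of_square_discriminant (hsq : IsSquare E.Δ)
    (G : AddSubgroup (E.toAffine⁄(AlgebraicClosure ℚ)).Point) [hcyc : IsAddCyclic G]
    (hG : Nat.card G = 9)
    (hst : ∀ σ : AlgebraicClosure ℚ ≃ₐ[ℚ] AlgebraicClosure ℚ, ∀ P ∈ G,
      Affine.Point.map σ.toAlgHom P ∈ G) : False := by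
  obtain rfl : inst = instDecEqAlgebraicClosureRat := Subsingleton.elim _ _
  exact FA.X0Composite.false_of_nine_of_square
    (@hasStableOrder_of_subgroup _ _ G _ hG hcyc hst) hsq

/-- **No cyclic isogeny of degree divisible by `36`.** -/
theorem no_cyclic_isogeny_thirtySix
    (G : AddSubgroup (E.toAffine⁄(AlgebraicClosure ℚ)).Point) [hcyc : IsAddCyclic G]
    (hG : Nat.card G ≠ 0)
    (hst : ∀ σ : AlgebraicClosure ℚ ≃ₐ[ℚ] AlgebraicClosure ℚ, ∀ P ∈ G,
      Affine.Point.map σ.toAlgHom P ∈ G) : ¬ 36 ∣ Nat.card G := fun h36 => by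
  obtain rfl : inst = instDecEqAlgebraicClosureRat := Subsingleton.elim _ _
  exact FA.X0Composite.false_of_thirtySix (FA.X0Composite.hasStableOrder_of_dvd
    (@hasStableOrder_of_subgroup _ _ G _ rfl hcyc hst) hG h36)

end FA.Summary

end
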