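import Fermat.Agent.Root.SummaryX0Twenty
import Fermat.Agent.Torsion.Quartic

/-!
# No cyclic isogeny of degree `32` over `ℚ`

* `no_isogeny_sixteen_of_square_discriminant`: an elliptic curve over `ℚ` with a Galois stable
  cyclic subgroup of order `16` has a discriminant that is no square.
* `no_cyclic_isogeny_thirtyTwo`: so `32` divides the order of no finite Galois stable cyclic
  subgroup.
-/

set_option autoImplicit false
set_option linter.style.haveILetI false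
set_option linter.unusedSectionVars false

noncomputable section

open WeierstrassCurve FA.KerPoly
open FA.CM.Seven (twoCurve)
open scoped WeierstrassCurve.Affine

local notation "Qb" => AlgebraicClosure ℚ
local notation "GQ" => AlgebraicClosure ℚ ≃ₐ[ℚ] AlgebraicClosure ℚ

namespace FA.X0Composite

/-- A point moved along a change of variables that only translates the abscissae. -/
theorem exists_translate {E E' : WeierstrassCurve ℚ} [E.IsElliptic] [E'.IsElliptic]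
    {C : VariableChange ℚ} (hC : C • E = E') (hu : C.u = 1) (g : (E.toAffine⁄Qb).Point) {n : ℕ}
    (hg : addOrderOf g = n) (hst : ∀ σ : GQ, ∃ c : ℤ, c • g = Affine.Point.map σ.toAlgHom g) :
    ∃ g' : (E'.toAffine⁄Qb).Point, addOrderOf g' = n ∧
      (∀ σ : GQ, ∃ c : ℤ, c • g' = Affine.Point.map σ.toAlgHom g') ∧
      ∀ k : ℕ, ¬ n ∣ k → FA.EC.xc (W := E'⁄Qb) (k • g') =
        FA.EC.xc (W := E⁄Qb) (k • g) - algebraMap ℚ Qb C.r := by
  obtain ⟨P, rfl⟩ := (FA.Frob.pointEquiv C hC).surjective g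
  rw [AddEquiv.addOrderOf_eq] at hg
  refine ⟨P, hg, fun σ => ?_, fun k hk => ?_⟩
  · obtain ⟨c, hc⟩ := hst σ
    refine ⟨c, (FA.Frob.pointEquiv C hC).injective ?_⟩
    rw [map_zsmul, hc]
    exact (FA.Frob.pointEquiv_smul C hC σ P).symm
  · rw [← map_nsmul]
    have h0 : k • P ≠ 0 := fun h => hk (hg ▸ addOrderOf_dvd_of_nsmul_eq_zero h)
    obtain ⟨x, y, hns, e⟩ := FA.EC.exists_some_of_ne_zero (W := E'⁄Qb) h0
    rw [e, eq_sub_iff_add_eq]
    symm
    rw [show FA.Frob.pointEquiv C hC (Affine.Point.some x y hns) = _ from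
      FA.Frob.vcEquiv_some _ _ _]
    simp [FA.Frob.vcX, hu, VariableChange.map]
    rfl

/-- **Halving and the two-isogeny**: if `x (2 P) = r` then the abscissa `t` of the image of `P`
has `(t - a - 2 r)² = 4 r (a + 2 r)`. -/
theorem halving {a r : ℚ} [(twoCurve a (r ^ 2)).IsElliptic]
    [(twoCurve (-2 * a) (a ^ 2 - 4 * r ^ 2)).IsElliptic]
    {φ : ((twoCurve a (r ^ 2)).toAffine⁄Qb).Point →+
      ((twoCurve (-2 * a) (a ^ 2 - 4 * r ^ 2)).toAffine⁄Qb).Point}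
    (hφ : ∀ x y h, x ≠ 0 → ∃ h', φ (.some x y h) =
      .some ((y / x) ^ 2) (y * (x ^ 2 - algebraMap ℚ Qb (r ^ 2)) / x ^ 2) h')
    {P : ((twoCurve a (r ^ 2)).toAffine⁄Qb).Point} (hP : P + P ≠ 0)
    (hx : FA.EC.xc (W := (twoCurve a (r ^ 2))⁄Qb) (P + P) = algebraMap ℚ Qb r) :
    (FA.EC.xc (W := (twoCurve (-2 * a) (a ^ 2 - 4 * r ^ 2))⁄Qb) (φ P) - algebraMap ℚ Qb a -
      2 * algebraMap ℚ Qb r) ^ 2 = 4 * algebraMap ℚ Qb r * algebraMap ℚ Qb (a + 2 * r) := by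
  rcases P with _ | ⟨x, y, hns⟩
  · exact absurd (add_zero _) hP
  have hy : y ≠ -y := fun h => hP (Affine.Point.add_self_of_Y_eq (h₁ := hns) (by
    simpa [Affine.negY, baseChange] using h))
  have he := (Affine.equation_iff _ _).1 hns.1
  simp [baseChange] at he
  have hx0 : x ≠ 0 := fun h => hy (by
    rw [h] at he
    simp at he
    simp [he])
  obtain ⟨h', e⟩ := hφ x y hns hx0
  have hp : FA.EC.pc (W := (twoCurve a (r ^ 2))⁄Qb) (Affine.Point.some x y hns) ≠ 0 := by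
    rw [FA.EC.pc_some, sub_ne_zero]
    simpa [Affine.negY, baseChange] using hy
  have hd := (FA.EC.xc_add_self (W := (twoCurve a (r ^ 2))⁄Qb)
    (Affine.Point.some_ne_zero hns) hp).2.symm.trans hx
  rw [FA.EC.pc_some, FA.EC.xc_some] at hd
  simp [Ψ₃, Affine.negY, baseChange, b₂, b₄, b₆, b₈, map_ofNat] at hd
  have hy0 : y + y ≠ 0 := fun h => hy (eq_neg_of_add_eq_zero_left h)
  have hyne : y ≠ 0 := fun h => hy (by rw [h, neg_zero])
  rw [e, FA.EC.xc_some]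
  simp only [map_add, map_mul, map_ofNat, eq_ratCast]
  field_simp
  field_simp at hd
  linear_combination x ^ 2 * hd +
    (y ^ 2 + (r : Qb) ^ 2 * x - (a : Qb) * x ^ 2 - 3 * x ^ 3) * he

/-- A rational number is no fourth root of `16` plus a square, except `± 2`. -/
theorem fourth_sub_sixteen {w v : ℚ} (h : w ^ 4 - 16 = v ^ 2) : w ^ 4 = 16 := by
  obtain ⟨q, rfl⟩ : ∃ q, w = 2 * q := ⟨w / 2, by ring⟩
  have hd : (q.den : ℚ) ≠ 0 := Nat.cast_ne_zero.2 q.den_nz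
  have hqd : q * (q.den : ℚ) = q.num := q.mul_den_eq_num
  obtain ⟨z, hz⟩ : IsSquare (q.num ^ 4 - (q.den : ℤ) ^ 4) := by
    rw [← Rat.isSquare_intCast_iff]
    refine ⟨v / 4 * (q.den : ℚ) ^ 2, ?_⟩
    push_cast
    rw [← hqd]
    linear_combination (q.den : ℚ) ^ 4 / 16 * h
  rcases FA.Torsion.quartic_sub_eq_sq (x := q.num) (y := (q.den : ℤ)) (z := z)
    (Int.isCoprime_iff_gcd_eq_one.2 q.reduced) (by linear_combination hz) with h0 | h0
  · exact absurd h0 (by exact_mod_cast q.den_nz)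
  · rw [h0, mul_zero, sub_eq_zero] at hz
    have : (q.num : ℚ) ^ 4 = (q.den : ℚ) ^ 4 := by exact_mod_cast hz
    rw [← hqd, mul_pow] at this
    linear_combination 16 * (mul_eq_right₀ (pow_ne_zero 4 hd)).1 this

variable {E : WeierstrassCurve ℚ} [E.IsElliptic]

/-- **A stable cyclic subgroup of order `16` and a square discriminant exclude each other.** -/
theorem false_of_sixteen_of_square (h : HasStableOrder E 16) (hsq : IsSquare E.Δ) : False := by
  obtain ⟨g, hg, hst⟩ := h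
  have hord : ∀ {W : WeierstrassCurve ℚ} [W.IsElliptic] {k n : ℕ}
      (P : (W.toAffine⁄Qb).Point), addOrderOf P = k * n → k ≠ 0 → n ≠ 0 →
      addOrderOf (k • P) = n := by
    intro W _ k n P hP hk hn
    rw [addOrderOf_nsmul' _ hk, hP, Nat.gcd_mul_right_left, Nat.mul_div_cancel_left _
      (Nat.pos_of_ne_zero hk)]
  have hstab : ∀ {W : WeierstrassCurve ℚ} [W.IsElliptic] (k : ℕ) (P : (W.toAffine⁄Qb).Point),
      (∀ σ : GQ, ∃ c : ℤ, c • P = Affine.Point.map σ.toAlgHom P) →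
      ∀ σ : GQ, ∃ c : ℤ, c • (k • P) = Affine.Point.map σ.toAlgHom (k • P) := by
    intro W _ k P hP σ
    obtain ⟨c, hc⟩ := hP σ
    exact ⟨c, by rw [map_nsmul, ← hc]; exact (zsmulAddGroupHom c : _ →+ _).map_nsmul k P⟩
  obtain ⟨e, r, C, hu, hr, hxr, hxe, hC⟩ :=
    exists_twoCurve_of_point (4 • g) (hord (n := 4) g hg (by norm_num) (by norm_num))
      (hstab 4 g hst)
  obtain ⟨a, ha⟩ : ∃ a, E.b₂ / 4 + 3 * e = a := ⟨_, rfl⟩
  obtain ⟨R, hR⟩ : ∃ R, r - e = R := ⟨_, rfl⟩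
  rw [ha, hR] at hC
  haveI : (twoCurve a (R ^ 2)).IsElliptic := hC ▸ inferInstance
  have hΔ : (twoCurve a (R ^ 2)).Δ ≠ 0 := (twoCurve a (R ^ 2)).isUnit_Δ.ne_zero
  obtain ⟨v, hv⟩ := hsq
  have hf : IsSquare (twoCurve a (R ^ 2)).Δ := by
    refine ⟨((C.u⁻¹ : ℚˣ) : ℚ) ^ 6 * v, ?_⟩
    rw [← hC, variableChange_Δ, hv]
    ring
  simp [Δ, b₂, b₄, b₆, b₈] at hΔ hf
  obtain ⟨f, hf⟩ := hf
  have hR0 : R ≠ 0 := fun h0 => hΔ (by rw [h0]; ring)
  haveI : (twoCurve (-2 * a) (a ^ 2 - 4 * R ^ 2)).IsElliptic := by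
    rw [isElliptic_iff, isUnit_iff_ne_zero]
    simp [Δ, b₂, b₄, b₆, b₈]
    grind
  obtain ⟨g₁, hg₁, hst₁, hx₁⟩ := exists_translate hC hu g hg hst
  have hx4 := hx₁ 4 (by norm_num)
  have hx8 := hx₁ 8 (by norm_num)
  rw [hxr, hr, ← map_sub, hR] at hx4
  rw [show (8 : ℕ) • g = 2 • 4 • g from (mul_nsmul g 4 2).symm ▸ rfl, hxe, hr, sub_self] at hx8
  obtain ⟨φ, hker, hzero, hφ, heq⟩ := exists_isog_equivariant a (R ^ 2)
  -- the image has order `8`
  have hst₂ : ∀ σ : GQ, ∃ c : ℤ, c • φ g₁ = Affine.Point.map σ.toAlgHom (φ g₁) := fun σ => by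
    obtain ⟨c, hc⟩ := hst₁ σ
    exact ⟨c, by rw [← map_zsmul, hc, heq]⟩
  have h4 : φ (4 • g₁) ≠ 0 := fun h0 => by
    have h := hker _ h0
    rw [← two_nsmul, smul_smul] at h
    have := addOrderOf_dvd_of_nsmul_eq_zero h
    rw [hg₁] at this
    norm_num at this
  have ho₂ : addOrderOf (φ g₁) = 8 := by
    refine addOrderOf_eq_prime_pow (p := 2) (n := 2) ?_ ?_ <;> rw [← map_nsmul]
    · exact h4
    · exact hzero _ hx8
  obtain ⟨e₂, t, C₂, hu₂, hr₂, hxt, hxe₂, hC₂⟩ :=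
    exists_twoCurve_of_point (2 • φ g₁) (hord (n := 4) _ ho₂ (by norm_num) (by norm_num))
      (hstab 2 _ hst₂)
  -- `e₂ = a + 2 R`
  have he₂ : e₂ = a + 2 * R := by
    refine (algebraMap ℚ Qb).injective ?_
    rw [← hxe₂, smul_smul, ← map_nsmul]
    obtain ⟨x, y, hns, ex⟩ := FA.EC.exists_some_of_ne_zero (W := (twoCurve a (R ^ 2))⁄Qb)
      (P := 4 • g₁) (fun h0 => h4 (by rw [h0, map_zero]))
    have hx : x = algebraMap ℚ Qb R := by rw [← hx4, ex, FA.EC.xc_some]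
    have hxne : x ≠ 0 := hx ▸ (map_ne_zero _).2 hR0
    obtain ⟨h', e'⟩ := hφ x y hns hxne
    rw [show 2 * 2 = 4 from rfl, ex, e', FA.EC.xc_some]
    have hE := (Affine.equation_iff _ _).1 hns.1
    simp [baseChange] at hE
    rw [div_pow, div_eq_iff (pow_ne_zero 2 hxne), hx, map_add, map_mul, map_ofNat]
    rw [hx] at hE
    simp only [eq_ratCast] at hE ⊢
    linear_combination hE
  -- the first square
  have hd₁ : (t - a - 2 * R) ^ 2 = 4 * R * (a + 2 * R) := by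
    refine (algebraMap ℚ Qb).injective ?_
    have := halving hφ (P := 2 • g₁) (fun h0 => h4 (by
      rw [← two_nsmul, smul_smul] at h0
      rw [show (2 * 2 : ℕ) = 4 from rfl] at h0
      rw [h0, map_zero])) (by rw [← two_nsmul, smul_smul]; exact hx4)
    rw [map_nsmul, hxt] at this
    simpa [map_ofNat] using this
  -- the second curve
  obtain ⟨a', ha'⟩ : ∃ a', (twoCurve (-2 * a) (a ^ 2 - 4 * R ^ 2)).b₂ / 4 + 3 * e₂ = a' :=
    ⟨_, rfl⟩
  obtain ⟨R', hR'⟩ : ∃ R', t - e₂ = R' := ⟨_, rfl⟩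
  rw [ha', hR'] at hC₂
  haveI : (twoCurve a' (R' ^ 2)).IsElliptic := hC₂ ▸ inferInstance
  have hΔ' : (twoCurve a' (R' ^ 2)).Δ ≠ 0 := (twoCurve a' (R' ^ 2)).isUnit_Δ.ne_zero
  simp [Δ, b₂, b₄, b₆, b₈] at hΔ'
  haveI : (twoCurve (-2 * a') (a' ^ 2 - 4 * R' ^ 2)).IsElliptic := by
    rw [isElliptic_iff, isUnit_iff_ne_zero]
    simp [Δ, b₂, b₄, b₆, b₈]
    grind
  obtain ⟨g₃, hg₃, hst₃, hx₃⟩ := exists_translate hC₂ hu₂ (φ g₁) ho₂ hst₂
  have hx32 := hx₃ 2 (by norm_num)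
  have hx34 := hx₃ 4 (by norm_num)
  rw [hxt, hr₂, ← map_sub, hR'] at hx32
  rw [show (4 : ℕ) • φ g₁ = 2 • 2 • φ g₁ from (mul_nsmul (φ g₁) 2 2).symm ▸ rfl, hxe₂, hr₂,
    sub_self] at hx34
  obtain ⟨ψ, hker', hzero', hψ, heq'⟩ := exists_isog_equivariant a' (R' ^ 2)
  have h2 : ψ (2 • g₃) ≠ 0 := fun h0 => by
    have h := hker' _ h0
    rw [← two_nsmul, smul_smul] at h
    have := addOrderOf_dvd_of_nsmul_eq_zero h
    rw [hg₃] at this
    norm_num at this
  have ho₃ : addOrderOf (ψ g₃) = 4 := by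
    refine addOrderOf_eq_prime_pow (p := 2) (n := 1) ?_ ?_ <;> rw [← map_nsmul]
    · exact h2
    · exact hzero' _ hx34
  obtain ⟨e₃, t₃, C₃, -, -, hxt₃, -, -⟩ := exists_twoCurve_of_point (ψ g₃) ho₃ (fun σ => by
    obtain ⟨c, hc⟩ := hst₃ σ
    exact ⟨c, by rw [← map_zsmul, hc, heq']⟩)
  have hd₂ : (t₃ - a' - 2 * R') ^ 2 = 4 * R' * (a' + 2 * R') := by
    refine (algebraMap ℚ Qb).injective ?_
    have := halving hψ (P := g₃) (fun h0 => h2 (by
      rw [← two_nsmul] at h0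
      rw [h0, map_zero])) (by rw [← two_nsmul]; exact hx32)
    rw [hxt₃] at this
    simpa [map_ofNat] using this
  -- the quartic
  obtain ⟨p, hp⟩ : ∃ p, R' = 2 * R * p := ⟨R' / (2 * R), by field_simp⟩
  have haR : a + 2 * R = p ^ 2 * R := by
    refine mul_left_cancel₀ (mul_ne_zero four_ne_zero hR0) ?_
    rw [← hR', he₂] at hp
    linear_combination -hd₁ + (t - a - 2 * R + 2 * R * p) * hp
  have hp0 : p ≠ 0 := fun h0 => hΔ' (by rw [hp, h0]; ring)
  have ha'' : a' + 2 * R' = R * (p + 2) ^ 2 := by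
    rw [← ha', he₂, hp]
    simp [b₂]
    linear_combination haR
  have hp2 : p + 2 ≠ 0 := fun h0 => hΔ' (by
    have : a' = -2 * R' := by rw [h0] at ha''; linear_combination ha''
    rw [this]; ring)
  obtain ⟨w, hw⟩ : ∃ w, w ^ 2 = 2 * p := by
    refine ⟨(t₃ - a' - 2 * R') / (2 * R * (p + 2)), ?_⟩
    rw [div_pow, div_eq_iff (pow_ne_zero 2 (mul_ne_zero (mul_ne_zero two_ne_zero hR0) hp2)), hd₂,
      ha'', hp]
    ring
  have haR' : a = (p ^ 2 - 2) * R := by linear_combination haR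
  subst haR'
  have h16 : w ^ 4 = 16 := fourth_sub_sixteen (v := f / (2 * R ^ 3 * p)) (by
    rw [div_pow, eq_div_iff (pow_ne_zero 2 (mul_ne_zero (mul_ne_zero two_ne_zero
      (pow_ne_zero 3 hR0)) hp0)), show w ^ 4 = (2 * p) ^ 2 by rw [← hw]; ring]
    linear_combination hf)
  refine hΔ ?_
  have : p ^ 2 = 4 := by
    rw [show w ^ 4 = (w ^ 2) ^ 2 by ring, hw] at h16
    linear_combination h16 / 4
  linear_combination 16 * R ^ 6 * p ^ 2 * this

/-- **No stable cyclic subgroup of order `32`.** -/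
theorem false_of_thirtyTwo (h : HasStableOrder E 32) : False := by
  obtain ⟨a, r, C, hC⟩ := exists_twoCurve_of_four
    (hasStableOrder_of_dvd h (by norm_num) (show 4 ∣ 32 by norm_num))
  haveI : (twoCurve a (r ^ 2)).IsElliptic := hC ▸ inferInstance
  haveI : (twoCurve (-2 * a) (a ^ 2 - 4 * r ^ 2)).IsElliptic := by
    have hΔ : (twoCurve a (r ^ 2)).Δ ≠ 0 := (twoCurve a (r ^ 2)).isUnit_Δ.ne_zero
    rw [isElliptic_iff, isUnit_iff_ne_zero]
    simp [Δ, b₂, b₄, b₆, b₈] at hΔ ⊢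
    grind
  obtain ⟨m, hm, hm', h'⟩ :=
    exists_stableOrder_isog a (r ^ 2) (hasStableOrder_of_variableChange hC h)
  refine false_of_sixteen_of_square (E := twoCurve (-2 * a) (a ^ 2 - 4 * r ^ 2))
    (hasStableOrder_of_dvd h' (fun e => by rw [e] at hm; norm_num at hm) (by omega)) ?_
  refine ⟨16 * r * (a ^ 2 - 4 * r ^ 2), ?_⟩
  simp [Δ, b₂, b₄, b₆, b₈]
  ring

end FA.X0Composite

namespace FA.Summary

variable (E : WeierstrassCurve ℚ) [E.IsElliptic] [inst : DecidableEq (AlgebraicClosure ℚ)]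

/-- **No cyclic sixteen-isogeny with a square discriminant.** -/
theorem no_isogeny_sixteen_of_square_discriminant (hsq : IsSquare E.Δ)
    (G : AddSubgroup (E.toAffine⁄(AlgebraicClosure ℚ)).Point) [hcyc : IsAddCyclic G]
    (hG : Nat.card G = 16)
    (hst : ∀ σ : AlgebraicClosure ℚ ≃ₐ[ℚ] AlgebraicClosure ℚ, ∀ P ∈ G,
      Affine.Point.map σ.toAlgHom P ∈ G) : False := by
  obtain rfl : inst = instDecEqAlgebraicClosureRat := Subsingleton.elim _ _
  exact FA.X0Composite.false_of_sixteen_of_square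
    (@hasStableOrder_of_subgroup _ _ G _ hG hcyc hst) hsq

/-- **No cyclic isogeny of degree divisible by `32`.** -/
theorem no_cyclic_isogeny_thirtyTwo
    (G : AddSubgroup (E.toAffine⁄(AlgebraicClosure ℚ)).Point) [hcyc : IsAddCyclic G]
    (hG : Nat.card G ≠ 0)
    (hst : ∀ σ : AlgebraicClosure ℚ ≃ₐ[ℚ] AlgebraicClosure ℚ, ∀ P ∈ G,
      Affine.Point.map σ.toAlgHom P ∈ G) : ¬ 32 ∣ Nat.card G := fun h32 => by
  obtain rfl : inst = instDecEqAlgebraicClosureRat := Subsingleton.elim _ _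
  exact FA.X0Composite.false_of_thirtyTwo (FA.X0Composite.hasStableOrder_of_dvd
    (@hasStableOrder_of_subgroup _ _ G _ rfl hcyc hst) hG h32)

end FA.Summary

end
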