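import Fermat.Agent.IsogenyDegrees.DescentTwentyFour
import Fermat.Agent.Root.SummaryX0Twenty

/-!
# No cyclic isogeny of degree `24` over `ℚ`

* `no_isogeny_twelve_of_square_discriminant`: an elliptic curve over `ℚ` with a Galois stable cyclic
  subgroup of order `12` has a discriminant that is no square.
* `no_cyclic_isogeny_twentyFour`: so `24` divides the order of no finite Galois stable cyclic
  subgroup.
-/

set_option autoImplicit false
set_option linter.style.haveILetI false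
set_option linter.unusedSectionVars false

noncomputable section

open WeierstrassCurve FA.KerPoly
open FA.CM.Seven (twoCurve)
open scoped WeierstrassCurve.Affine

local notation "Qb" => AlgebraicClosure ℚ

namespace FA.X0Composite

variable {E : WeierstrassCurve ℚ} [E.IsElliptic]

/-- A stable line of order `3` gives a rational root of the division polynomial. -/
theorem exists_Ψ₃_root (h : HasStableOrder E 3) : ∃ x : ℚ, E.Ψ₃.eval x = 0 := by
  obtain ⟨g, hg, hst⟩ := h
  obtain ⟨x, y, hns, rfl⟩ := FA.EC.exists_some_of_ne_zero (W := E⁄Qb) (P := g)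
    (fun h => by rw [h, addOrderOf_zero] at hg; omega)
  set g := Affine.Point.some (W' := (E⁄Qb).toAffine) x y hns
  have h3 : (3 : ℤ) • (g : (E.toAffine⁄Qb).Point) = 0 := by
    rw [show (3 : ℤ) = ((3 : ℕ) : ℤ) from rfl, natCast_zsmul, ← hg, addOrderOf_nsmul_eq_zero]
  obtain ⟨r, rfl⟩ := FA.EC.mem_range_of_fixed (x := x) fun σ => by
    obtain ⟨c, hc⟩ := hst σ
    rcases (show (3 : ℤ) ∣ c ∨ (3 : ℤ) ∣ c - 1 ∨ (3 : ℤ) ∣ c + 1 by omega) with
      ⟨d, hd⟩ | ⟨d, hd⟩ | ⟨d, hd⟩
    · exfalso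
      have h0 : Affine.Point.map (W' := E.toAffine) σ.toAlgHom g = 0 := by
        rw [← hc, hd, mul_comm, mul_zsmul, h3, zsmul_zero]
      exact Affine.Point.some_ne_zero hns
        (Affine.Point.map_injective σ.toAlgHom (h0.trans (map_zero _).symm))
    · rw [show c = 1 + d * 3 by omega, add_zsmul, mul_zsmul, h3, zsmul_zero, add_zero,
        one_zsmul] at hc
      exact (Affine.Point.some.inj hc.symm).1
    · rw [show c = -1 + d * 3 by omega, add_zsmul, mul_zsmul, h3, zsmul_zero, add_zero,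
        neg_one_zsmul] at hc
      exact (Affine.Point.some.inj (hc.symm.trans (Affine.Point.neg_some hns))).1
  refine ⟨r, (algebraMap ℚ Qb).injective ?_⟩
  have hp : FA.EC.pc (W := E⁄Qb) g ≠ 0 := fun h => Affine.Point.some_ne_zero hns (by
    have h2 := FA.EC.add_self_eq_zero_of_pc_eq_zero h
    rwa [show (3 : ℤ) = 2 + 1 from rfl, add_zsmul, one_zsmul, two_zsmul, h2, zero_add] at h3)
  have e : (g + g : (E⁄Qb).toAffine.Point) = -g := eq_neg_of_add_eq_zero_left (by
    rwa [show (3 : ℤ) = 2 + 1 from rfl, add_zsmul, one_zsmul, two_zsmul] at h3)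
  have hd := (FA.EC.xc_add_self (W := E⁄Qb) (Affine.Point.some_ne_zero hns) hp).2
  have hsq := FA.EC.pc_sq (W := E⁄Qb) (Affine.Point.some_ne_zero hns)
  rw [e, FA.EC.xc_neg, hsq, FA.EC.xc_some, eq_comm, sub_eq_self, div_eq_zero_iff] at hd
  rw [FA.EC.xc_some] at hsq
  rw [map_zero]
  refine Eq.trans ?_ (hd.resolve_right fun h => hp (by
    rwa [h, sq_eq_zero_iff] at hsq))
  simp [Ψ₃, baseChange]

/-- **The fibre product**: two nonzero roots with square product and a point of order `3`. -/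
theorem false_of_roots {a b x R : ℚ} (ha : a ≠ 0) (hb : b ≠ 0) (hab : a ≠ b) (hR : a * b = R ^ 2)
    (hx : 3 * x ^ 4 + 4 * (a + b) * x ^ 3 + 6 * (a * b) * x ^ 2 - (a * b) ^ 2 = 0) : False := by
  have hx0 : x ≠ 0 := fun e => mul_ne_zero ha hb (eq_zero_of_pow_eq_zero (n := 2) (by
    rw [e] at hx; linear_combination -hx))
  have hxa : x + a ≠ 0 := fun e => by
    obtain rfl : x = -a := by linarith
    exact mul_ne_zero (pow_ne_zero 2 ha) (pow_ne_zero 2 (sub_ne_zero.2 hab))
      (by linear_combination -hx)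
  obtain ⟨k, hk⟩ : ∃ k, (a ^ 2 * b - (2 * x ^ 3 + 3 * a * x ^ 2)) / (2 * x * (x + a)) = k :=
    ⟨_, rfl⟩
  rw [div_eq_iff (mul_ne_zero (mul_ne_zero two_ne_zero hx0) hxa)] at hk
  have hk2 : k ^ 2 = x * (x + a) := by
    refine mul_left_cancel₀ (pow_ne_zero 2 (mul_ne_zero (mul_ne_zero two_ne_zero hx0) hxa)) ?_
    linear_combination -(k * (2 * x * (x + a)) + (a ^ 2 * b - (2 * x ^ 3 + 3 * a * x ^ 2))) * hk -
      a ^ 2 * hx
  obtain ⟨u, rfl⟩ : ∃ u, k = u * (x + a) := ⟨k / (x + a), (div_mul_cancel₀ k hxa).symm⟩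
  have hu : x * (1 - u ^ 2) = a * u ^ 2 := mul_right_cancel₀ hxa (by linear_combination -hk2)
  have hu0 : u ≠ 0 := fun e => hx0 (by rw [e] at hu; linear_combination hu)
  have hu1 : 1 - u ^ 2 ≠ 0 := fun e =>
    mul_ne_zero ha (pow_ne_zero 2 hu0) (by rw [← hu, e, mul_zero])
  obtain rfl : x = a * u ^ 2 / (1 - u ^ 2) := (eq_div_iff hu1).2 hu
  have hb' : b * (1 - u ^ 2) ^ 3 = a * (u ^ 3 * (1 + u) ^ 2 * (2 - u)) := by
    field_simp at hk
    linear_combination hk
  have hw : (4 * R * (1 - u) ^ 2 * (1 + u) / (a * u)) ^ 2 =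
      ((2 * u - 1) ^ 2 - 1) * ((2 * u - 1) ^ 2 - 9) := by
    rw [div_pow, div_eq_iff (pow_ne_zero 2 (mul_ne_zero ha hu0))]
    refine mul_right_cancel₀ (b := 1 + u) (fun e => hu1 (by linear_combination (1 - u) * e)) ?_
    linear_combination -16 * (1 - u) ^ 4 * (1 + u) ^ 3 * hR + 16 * a * (1 - u) * hb'
  rcases quartic_four_terms hw with h | h | h
  · obtain rfl : u = 1 / 2 := by linarith
    exact hab (by norm_num at hb' ⊢; linarith)
  · exact mul_ne_zero hu0 (fun e : u - 1 = 0 => hu1 (by linear_combination -(u + 1) * e))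
      (by linear_combination h / 4)
  · have : (u - 2) * (u + 1) = 0 := by linear_combination h / 4
    rcases mul_eq_zero.1 this with e | e
    · obtain rfl : u = 2 := by linarith
      exact hb (by norm_num at hb'; linarith)
    · exact hu1 (by linear_combination (1 - u) * e)

/-- **A stable cyclic subgroup of order `12` and a square discriminant exclude each other.** -/
theorem false_of_twelve_of_square (h : HasStableOrder E 12) (hsq : IsSquare E.Δ) : False := by
  obtain ⟨A, R, C, hC⟩ := exists_twoCurve_of_four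
    (hasStableOrder_of_dvd h (by norm_num) (show 4 ∣ 12 by norm_num))
  haveI : (twoCurve A (R ^ 2)).IsElliptic := hC ▸ inferInstance
  have hΔ : (twoCurve A (R ^ 2)).Δ ≠ 0 := (twoCurve A (R ^ 2)).isUnit_Δ.ne_zero
  obtain ⟨x, hx⟩ := exists_Ψ₃_root (hasStableOrder_of_variableChange hC
    (hasStableOrder_of_dvd h (by norm_num) (show 3 ∣ 12 by norm_num)))
  obtain ⟨e, he⟩ := hsq
  obtain ⟨f, hf⟩ : IsSquare (twoCurve A (R ^ 2)).Δ := by
    refine ⟨((C.u⁻¹ : ℚˣ) : ℚ) ^ 6 * e, ?_⟩
    rw [← hC, variableChange_Δ, he]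
    ring
  simp [Δ, b₂, b₄, b₆, b₈] at hΔ hf
  have hR : R ≠ 0 := fun h0 => hΔ (by rw [h0]; ring)
  obtain ⟨K, hK⟩ : ∃ K, K = f / (4 * R ^ 2) := ⟨_, rfl⟩
  have hK2 : A ^ 2 - 4 * R ^ 2 = K ^ 2 := by
    rw [hK, div_pow, eq_div_iff (pow_ne_zero 2 (mul_ne_zero four_ne_zero (pow_ne_zero 2 hR)))]
    linear_combination hf
  refine false_of_roots (a := (A + K) / 2) (b := (A - K) / 2) (x := x) (R := R) ?_ ?_ ?_ ?_ ?_
  · exact fun h0 => hR (eq_zero_of_pow_eq_zero (n := 2) (by
      linear_combination (A - K) / 2 * h0 - hK2 / 4))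
  · exact fun h0 => hR (eq_zero_of_pow_eq_zero (n := 2) (by
      linear_combination (A + K) / 2 * h0 - hK2 / 4))
  · intro h0
    obtain rfl : K = 0 := by linarith
    exact hΔ (by linear_combination 16 * R ^ 4 * hK2)
  · linear_combination hK2 / 4
  · rw [show (A + K) / 2 * ((A - K) / 2) = R ^ 2 by linear_combination hK2 / 4]
    simp [Ψ₃, b₂, b₄, b₆, b₈] at hx
    linear_combination hx

/-- **No stable cyclic subgroup of order `24`.** -/
theorem false_of_twentyFour (h : HasStableOrder E 24) : False := by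
  obtain ⟨a, r, C, hC⟩ := exists_twoCurve_of_four
    (hasStableOrder_of_dvd h (by norm_num) (show 4 ∣ 24 by norm_num))
  haveI : (twoCurve a (r ^ 2)).IsElliptic := hC ▸ inferInstance
  haveI : (twoCurve (-2 * a) (a ^ 2 - 4 * r ^ 2)).IsElliptic := by
    have hΔ : (twoCurve a (r ^ 2)).Δ ≠ 0 := (twoCurve a (r ^ 2)).isUnit_Δ.ne_zero
    rw [isElliptic_iff, isUnit_iff_ne_zero]
    simp [Δ, b₂, b₄, b₆, b₈] at hΔ ⊢
    grind
  have hE := hasStableOrder_of_variableChange hC h
  obtain ⟨m, hm, hm', h'⟩ := exists_stableOrder_isog a (r ^ 2) hE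
  refine false_of_twelve_of_square (E := twoCurve (-2 * a) (a ^ 2 - 4 * r ^ 2))
    (hasStableOrder_of_dvd h' (fun e => by rw [e] at hm; norm_num at hm) (by omega)) ?_
  refine ⟨16 * r * (a ^ 2 - 4 * r ^ 2), ?_⟩
  simp [Δ, b₂, b₄, b₆, b₈]
  ring

end FA.X0Composite

namespace FA.Summary

variable (E : WeierstrassCurve ℚ) [E.IsElliptic] [inst : DecidableEq (AlgebraicClosure ℚ)]

/-- **No cyclic twelve-isogeny with a square discriminant.** -/
theorem no_isogeny_twelve_of_square_discriminant (hsq : IsSquare E.Δ)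
    (G : AddSubgroup (E.toAffine⁄(AlgebraicClosure ℚ)).Point) [hcyc : IsAddCyclic G]
    (hG : Nat.card G = 12)
    (hst : ∀ σ : AlgebraicClosure ℚ ≃ₐ[ℚ] AlgebraicClosure ℚ, ∀ P ∈ G,
      Affine.Point.map σ.toAlgHom P ∈ G) : False := by
  obtain rfl : inst = instDecEqAlgebraicClosureRat := Subsingleton.elim _ _
  exact FA.X0Composite.false_of_twelve_of_square
    (@hasStableOrder_of_subgroup _ _ G _ hG hcyc hst) hsq

/-- **No cyclic isogeny of degree divisible by `24`.** -/
theorem no_cyclic_isogeny_twentyFour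
    (G : AddSubgroup (E.toAffine⁄(AlgebraicClosure ℚ)).Point) [hcyc : IsAddCyclic G]
    (hG : Nat.card G ≠ 0)
    (hst : ∀ σ : AlgebraicClosure ℚ ≃ₐ[ℚ] AlgebraicClosure ℚ, ∀ P ∈ G,
      Affine.Point.map σ.toAlgHom P ∈ G) : ¬ 24 ∣ Nat.card G := fun h24 => by
  obtain rfl : inst = instDecEqAlgebraicClosureRat := Subsingleton.elim _ _
  exact FA.X0Composite.false_of_twentyFour (FA.X0Composite.hasStableOrder_of_dvd
    (@hasStableOrder_of_subgroup _ _ G _ rfl hcyc hst) hG h24)

end FA.Summary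

end
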