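import Fermat.Agent.Root.SummaryCyclicIsogenies
import Fermat.Agent.Root.SummaryIsogenyGenusOneLevels
import Fermat.Agent.Root.SummaryX0FortyNine
import Fermat.Agent.Root.SummaryX0ThirtyFive
import Fermat.Agent.Root.SummaryX0ThirtySix
import Fermat.Agent.Root.SummaryX0ThirtyTwo
import Fermat.Agent.Root.SummaryX0TwentyFour

/-!
# Kenku's list of the degrees of cyclic isogenies, away from `13`, `50` and `125`

* `cyclic_isogeny_degree_classification`: the degree of a cyclic isogeny over `ℚ` whose primes are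
  among `2, 3, 5, 7, 11, 17, 19`, divisible by neither `50` nor `125`, is one of
  `1, …, 12, 14, …, 19, 21, 25, 27`.
* `cyclic_isogeny_degree_iff`: these are exactly the degrees of that kind which occur.
-/

set_option autoImplicit false
set_option linter.style.haveILetI false
set_option linter.unusedSectionVars false

noncomputable section

open WeierstrassCurve
open scoped WeierstrassCurve.Affine

namespace FA.X0Composite

/-- A divisor of `2 ⁴ · 3 ² · 5 ² · 7` without an excluded divisor is in the list. -/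
theorem mem_list_of_dvd : ∀ n ∈ Nat.divisors 25200,
    (∀ m ∈ [14, 15, 20, 21, 24, 35, 36, 50], ¬ m ∣ n) →
      n ∈ ({1, 2, 3, 4, 5, 6, 7, 8, 9, 10, 11, 12, 14, 15, 16, 17, 18, 19, 21, 25, 27} :
        Finset ℕ) := by
  decide +kernel

end FA.X0Composite

namespace FA.Summary

variable [inst : DecidableEq (AlgebraicClosure ℚ)]

/-- **The degrees of cyclic isogenies** with primes in `2, 3, 5, 7, 11, 17, 19`. -/
theorem cyclic_isogeny_degree_classification (E : WeierstrassCurve ℚ) [E.IsElliptic]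
    (G : AddSubgroup (E.toAffine⁄(AlgebraicClosure ℚ)).Point) [hcyc : IsAddCyclic G]
    (hG : Nat.card G ≠ 0)
    (hp : ∀ p, p.Prime → p ∣ Nat.card G → p ∈ ({2, 3, 5, 7, 11, 17, 19} : Finset ℕ))
    (h50 : ¬ 50 ∣ Nat.card G) (h125 : ¬ 125 ∣ Nat.card G)
    (hst : ∀ σ : AlgebraicClosure ℚ ≃ₐ[ℚ] AlgebraicClosure ℚ, ∀ P ∈ G,
      Affine.Point.map σ.toAlgHom P ∈ G) :
    Nat.card G ∈ ({1, 2, 3, 4, 5, 6, 7, 8, 9, 10, 11, 12, 14, 15, 16, 17, 18, 19, 21, 25, 27} :
      Finset ℕ) := by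
  by_cases hlev : ∃ L ∈ ({11, 14, 15, 17, 19, 21, 27} : Finset ℕ), L ∣ Nat.card G
  · obtain ⟨L, hL, hLG⟩ := hlev
    rw [(cyclic_isogeny_levels E hL G hLG hG hst).1]
    exact (show ({11, 14, 15, 17, 19, 21, 27} : Finset ℕ) ⊆
      {1, 2, 3, 4, 5, 6, 7, 8, 9, 10, 11, 12, 14, 15, 16, 17, 18, 19, 21, 25, 27} by decide) hL
  push Not at hlev
  refine FA.X0Composite.mem_list_of_dvd _ (Nat.mem_divisors.2 ⟨?_, by norm_num⟩) ?_
  · refine (Nat.dvd_iff_prime_pow_dvd_dvd _ _).2 fun p k hpp hk => ?_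
    rcases Nat.eq_zero_or_pos k with rfl | hk0
    · simp
    have hle : ∀ {e : ℕ}, ¬ p ^ (e + 1) ∣ Nat.card G → k ≤ e := fun {e} he => by
      by_contra hlt
      exact he ((pow_dvd_pow p (by omega)).trans hk)
    have hp' := hp p hpp ((dvd_pow_self p hk0.ne').trans hk)
    simp only [Finset.mem_insert, Finset.mem_singleton] at hp'
    rcases hp' with rfl | rfl | rfl | rfl | rfl | rfl | rfl
    · exact (pow_dvd_pow 2 (hle (e := 4) (no_cyclic_isogeny_thirtyTwo E G hG hst))).trans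
        (by norm_num)
    · exact (pow_dvd_pow 3 (hle (e := 2) (hlev 27 (by decide)))).trans (by norm_num)
    · exact (pow_dvd_pow 5 (hle (e := 2) h125)).trans (by norm_num)
    · exact (pow_dvd_pow 7 (hle (e := 1) (no_cyclic_isogeny_fortyNine E G hG hst))).trans
        (by norm_num)
    all_goals exact absurd ((dvd_pow_self _ hk0.ne').trans hk) (hlev _ (by decide))
  · intro m hm
    fin_cases hm
    exacts [hlev 14 (by decide), hlev 15 (by decide), no_cyclic_isogeny_twenty E G hG hst,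
      hlev 21 (by decide), no_cyclic_isogeny_twentyFour E G hG hst,
      no_cyclic_isogeny_thirtyFive E G hG hst, no_cyclic_isogeny_thirtySix E G hG hst, h50]

/-- **Exactly the degrees of the list occur**, away from `13`, `50` and `125`. -/
theorem cyclic_isogeny_degree_iff {N : ℕ} (hN : N ≠ 0)
    (hp : ∀ p, p.Prime → p ∣ N → p ∈ ({2, 3, 5, 7, 11, 17, 19} : Finset ℕ))
    (h50 : ¬ 50 ∣ N) (h125 : ¬ 125 ∣ N) :
    (∃ (E : WeierstrassCurve ℚ) (_ : E.IsElliptic)
      (G : AddSubgroup (E.toAffine⁄(AlgebraicClosure ℚ)).Point), Nat.card G = N ∧ IsAddCyclic G ∧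
      ∀ σ : AlgebraicClosure ℚ ≃ₐ[ℚ] AlgebraicClosure ℚ, ∀ Q ∈ G,
        Affine.Point.map σ.toAlgHom Q ∈ G) ↔
      N ∈ ({1, 2, 3, 4, 5, 6, 7, 8, 9, 10, 11, 12, 14, 15, 16, 17, 18, 19, 21, 25, 27} :
        Finset ℕ) := by
  refine ⟨fun ⟨E, _, G, hG, hcyc, hst⟩ => ?_, fun h => exists_stable_cyclic_subgroup ?_⟩
  · haveI := hcyc
    subst hG
    exact cyclic_isogeny_degree_classification E G hN hp h50 h125 hst
  · exact (show ({1, 2, 3, 4, 5, 6, 7, 8, 9, 10, 11, 12, 14, 15, 16, 17, 18, 19, 21, 25, 27} :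
        Finset ℕ) ⊆ {1, 2, 3, 4, 5, 6, 7, 8, 9, 10, 11, 12, 13, 14, 15, 16, 17, 18, 19, 21, 25, 27,
          37, 43, 67, 163} by decide) h

end FA.Summary

end
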