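import Fermat.Agent.IsogenyDegrees.OrderTwentyFiveData
import Fermat.Agent.Root.SummaryX0FifteenTwentyOne

/-!
# The parameter of `X₀(25)`

* `isogeny_twentyFive_j_param`: a Galois stable cyclic subgroup of order `25` gives a rational `s`
  with `j = (t² + 10 t + 5)³ / t` for `t = (s - 1) (s⁴ + s³ + 6 s² + 6 s + 11)`.

Kubert's parameter `b` of the point of order `5` has conjugates `b`, `-1 / b` and is a fifth power
`w⁵` in the abelian field of a generator; `w` can be taken with conjugates `w`, `-1 / w`, and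
`s = w - 1 / w`.
-/

set_option autoImplicit false
set_option linter.style.haveILetI false
set_option linter.unusedSectionVars false

noncomputable section

open WeierstrassCurve FA.KerPoly
open scoped WeierstrassCurve.Affine IntermediateField

local notation "Qb" => AlgebraicClosure ℚ
local notation "GQ" => AlgebraicClosure ℚ ≃ₐ[ℚ] AlgebraicClosure ℚ

namespace FA.X0Composite

/-- The parameter of `X₀(5)` in that of `X₀(25)`. -/
def twentyFiveParam {K : Type*} [CommRing K] (s : K) : K :=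
  (s - 1) * (s ^ 4 + s ^ 3 + 6 * s ^ 2 + 6 * s + 11)

/-- **The fifth root with the action of Galois on it.** -/
theorem exists_fifth_root {b w : Qb} (hb : b ≠ 0) (hw : w ^ 5 = b)
    (horb : ∀ σ : GQ, σ b = b ∨ σ b = -1 / b)
    (hcomm : ∀ σ τ : GQ, σ (τ w) = τ (σ w)) :
    ∃ w' : Qb, w' ^ 5 = b ∧ ∀ σ : GQ, (σ b = b → σ w' = w') ∧ (σ b = -1 / b → σ w' = -1 / w') := by
  obtain ⟨ζ, hζ⟩ := HasEnoughRootsOfUnity.exists_primitiveRoot Qb 5
  have h5 : ζ ^ 5 = 1 := hζ.pow_eq_one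
  have hζ0 : ζ ≠ 0 := hζ.ne_zero (by norm_num)
  have hw0 : w ≠ 0 := fun h => hb (by rw [← hw, h]; ring)
  have hroot : ∀ a : Qb, a ^ 5 = 1 → ∃ i : ℕ, a = ζ ^ i := fun a ha => by
    obtain ⟨i, -, hi⟩ := hζ.eq_pow_of_pow_eq_one ha
    exact ⟨i, hi.symm⟩
  -- a square inverts `ζ` and fixes `b`
  obtain ⟨τ, hτ, hτb⟩ : ∃ τ : GQ, τ ζ = ζ⁻¹ ∧ τ b = b := by
    obtain ⟨ρ, hρ⟩ : ∃ ρ : GQ, ρ ζ = ζ ^ 2 := by
      refine minpoly.exists_algEquiv_of_root (Algebra.IsAlgebraic.isAlgebraic _) ?_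
      rw [← Polynomial.cyclotomic_eq_minpoly_rat (hζ.pow_of_coprime 2 (by norm_num))
        (by norm_num), Polynomial.cyclotomic_eq_minpoly_rat hζ (by norm_num)]
      exact minpoly.aeval _ _
    refine ⟨ρ * ρ, ?_, ?_⟩
    · rw [AlgEquiv.mul_apply, hρ, map_pow, hρ, ← pow_mul]
      exact eq_inv_of_mul_eq_one_left (by rw [← pow_succ]; exact h5)
    · rw [AlgEquiv.mul_apply]
      rcases horb ρ with h | h
      · rw [h, h]
      · rw [h, map_div₀, map_neg, map_one, h]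
        field_simp
  obtain ⟨i, hi⟩ := hroot (τ w / w) (by
    rw [div_pow, ← map_pow, hw, hτb, div_self hb])
  rw [div_eq_iff hw0] at hi
  set w' := ζ ^ (3 * i) * w with hw'
  have hw5 : w' ^ 5 = b := by
    rw [hw', mul_pow, ← pow_mul, mul_comm _ 5, pow_mul, h5, one_pow, one_mul, hw]
  have hτw : τ w' = w' := by
    rw [hw', map_mul, map_pow, hτ, hi, inv_pow, inv_mul_eq_iff_eq_mul₀ (pow_ne_zero _ hζ0),
      ← mul_assoc, ← pow_add, show 3 * i + 3 * i = 5 * i + i by ring, pow_add, pow_mul,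
      h5, one_pow, one_mul]
  have heq : ∀ (σ : GQ) (m : Qb), m ≠ 0 → τ m = m → σ w' ^ 5 = m ^ 5 → σ w' = m := by
    intro σ m hm hτm h
    obtain ⟨j, hj⟩ := hroot (σ w' / m) (by rw [div_pow, h, div_self (pow_ne_zero 5 hm)])
    rw [div_eq_iff hm] at hj
    obtain ⟨k, hk⟩ := hroot (σ ζ) (by rw [← map_pow, h5, map_one])
    have hc : τ (σ w') = σ w' := by
      conv_rhs => rw [← hτw]
      rw [hw', map_mul, map_mul, map_mul, map_mul, map_pow, map_pow, map_pow, map_pow, hcomm σ τ,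
        hτ, hk, map_inv₀, hk, map_pow, hτ, inv_pow]
    rw [hj, map_mul, map_pow, hτ, hτm, inv_pow] at hc
    have h2 : ζ ^ j * ζ ^ j = 1 := by
      have e := inv_mul_cancel₀ (pow_ne_zero j hζ0)
      rwa [mul_right_cancel₀ hm hc] at e
    have h1 : ζ ^ j = 1 := by
      have e5 : (ζ ^ j) ^ 5 = 1 := by rw [← pow_mul, mul_comm, pow_mul, h5, one_pow]
      calc ζ ^ j = (ζ ^ j) ^ 5 * ζ ^ j := by rw [e5, one_mul]
        _ = (ζ ^ j * ζ ^ j) ^ 3 := by ring
        _ = 1 := by rw [h2, one_pow]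
    rw [hj, h1, one_mul]
  have hw'0 : w' ≠ 0 := fun h => hb (by rw [← hw5, h]; ring)
  refine ⟨w', hw5, fun σ => ⟨fun h => ?_, fun h => ?_⟩⟩
  · exact heq σ w' hw'0 hτw (by rw [← map_pow, hw5, h])
  · refine heq σ _ (div_ne_zero (neg_ne_zero.2 one_ne_zero) hw'0) (by simp [hτw]) ?_
    rw [← map_pow, hw5, h, div_pow, hw5]
    norm_num

/-- **A stable line of order `25` has a rational parameter.** -/
theorem exists_param_twentyFive {E : WeierstrassCurve ℚ} [E.IsElliptic] (h : HasStableOrder E 25) :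
    ∃ s : ℚ, twentyFiveParam s ≠ 0 ∧ E.j =
      (twentyFiveParam s ^ 2 + 10 * twentyFiveParam s + 5) ^ 3 / twentyFiveParam s := by
  classical
  obtain ⟨g, hg, hst⟩ := h
  obtain ⟨x, y, hns, rfl⟩ := FA.EC.exists_some_of_ne_zero (W := E⁄Qb) (P := g)
    (fun h => by rw [h, addOrderOf_zero] at hg; omega)
  set F := ℚ⟮x, y⟯
  have hxF : x ∈ F := IntermediateField.subset_adjoin ℚ _ (by simp)
  have hyF : y ∈ F := IntermediateField.subset_adjoin ℚ _ (by simp)
  have hnsF : (E⁄F).toAffine.Nonsingular (⟨x, hxF⟩ : F) (⟨y, hyF⟩ : F) :=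
    (Affine.baseChange_nonsingular (W := E.toAffine) (f := F.val) F.val.injective _ _).1 hns
  set P : (E⁄F).toAffine.Point := Affine.Point.some _ _ hnsF with hPdef
  set ι := Affine.Point.map (W' := E.toAffine) F.val
  have hι : ι P = Affine.Point.some x y hns := rfl
  have hιinj : Function.Injective ι := Affine.Point.map_injective _
  have hP : addOrderOf P = 25 := by
    rw [← addOrderOf_injective ι hιinj P, hι]; exact hg
  obtain ⟨x₁, y₁, x₂, y₂, h₁, h₂, b, z, e₁, e₂, hne, hb₁, hb₂, hb0, hΔ, hz, hj⟩ :=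
    FA.Torsion.order_25_data P hP
  set g := Affine.Point.some (W' := (E⁄Qb).toAffine) x y hns
  set R : (E.toAffine⁄Qb).Point := 5 • g with hR
  have hR5 : (5 : ℤ) • R = 0 := by
    rw [show (5 : ℤ) = ((5 : ℕ) : ℤ) from rfl, natCast_zsmul, hR, smul_smul,
      show 5 * 5 = 25 from rfl, ← hg, addOrderOf_nsmul_eq_zero]
  have hxR : ∀ {k : ℕ} {a b : F} {hab : (E⁄F).toAffine.Nonsingular a b},
      k • 5 • P = Affine.Point.some a b hab → FA.EC.xc (W := E⁄Qb) ((k : ℤ) • R) = (a : Qb) := by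
    intro k a b hab he
    rw [natCast_zsmul, hR, ← hι, ← map_nsmul, ← map_nsmul, he]
    rfl
  have hx1 := hxR (k := 1) (by rw [one_nsmul]; exact e₁)
  have hx2 := hxR e₂
  -- commutation on `F`
  have hcomm : ∀ σ τ : GQ, ∀ a ∈ F, σ (τ a) = τ (σ a) := by
    intro σ τ
    obtain ⟨c, hc⟩ := hst σ
    obtain ⟨c', hc'⟩ := hst τ
    have hmul : σ • τ • g = τ • σ • g := by
      show Affine.Point.map σ.toAlgHom (Affine.Point.map τ.toAlgHom g) =
        Affine.Point.map τ.toAlgHom (Affine.Point.map σ.toAlgHom g)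
      rw [← hc', map_zsmul, ← hc, map_zsmul, ← hc', ← mul_zsmul, ← mul_zsmul, mul_comm]
    obtain ⟨hxx, hyy⟩ := Affine.Point.some.inj hmul
    intro a ha
    induction ha using IntermediateField.adjoin_induction with
    | mem a ha =>
      rcases ha with rfl | rfl
      exacts [hxx, hyy]
    | algebraMap q => simp
    | add a b _ _ iha ihb => simp [iha, ihb]
    | inv a _ iha => simp [iha]
    | mul a b _ _ iha ihb => simp [iha, ihb]
  have hbQ0 : (b : Qb) ≠ 0 := by exact_mod_cast hb0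
  set Ψ : Qb → Qb := fun v => 4 * v ^ 3 + algebraMap ℚ Qb E.b₂ * v ^ 2 +
    2 * algebraMap ℚ Qb E.b₄ * v + algebraMap ℚ Qb E.b₆ with hΨ
  have hev : ∀ v : F, F.val ((E⁄F).Ψ₂Sq.eval v) = Ψ (v : Qb) := fun v => by
    simp only [hΨ, WeierstrassCurve.Ψ₂Sq, baseChange, map_b₂, map_b₄, map_b₆, Polynomial.eval_add,
      Polynomial.eval_mul, Polynomial.eval_C, Polynomial.eval_pow, Polynomial.eval_X,
      Polynomial.eval_ofNat, map_add, map_mul, map_pow, map_ofNat]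
    rfl
  have hne' : Ψ (x₂ : Qb) ≠ 0 := by rw [← hev]; exact (map_ne_zero F.val).2 hne
  have hb₁' : (b : Qb) * Ψ (x₁ : Qb) = ((x₂ : Qb) - x₁) ^ 3 := by
    have := congrArg F.val hb₁
    rw [map_mul, hev, map_pow, map_sub] at this
    exact this
  have hb₂' : Ψ (x₂ : Qb) = -((b : Qb) * ((x₁ : Qb) - x₂) ^ 3) := by
    have := congrArg F.val hb₂
    rw [hev, map_neg, map_mul, map_pow, map_sub] at this
    exact this
  have horb : ∀ σ : GQ, σ (b : Qb) = b ∨ σ (b : Qb) = -1 / (b : Qb) := by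
    intro σ
    obtain ⟨c, hc⟩ := hst σ
    have hσx : ∀ n : ℤ, σ (FA.EC.xc (W := E⁄Qb) (n • R)) =
        FA.EC.xc (W := E⁄Qb) ((c * n) • R) := by
      intro n
      have e : Affine.Point.map (W' := E.toAffine) σ.toAlgHom (n • R) = (c * n) • R := by
        rw [map_zsmul, hR, map_nsmul, ← hc, mul_comm c n, mul_zsmul]
        congr 1
        exact ((zsmulAddGroupHom c : _ →+ _).map_nsmul 5 g).symm
      rw [← e]
      rcases hh : n • R with _ | ⟨u, v, huv⟩
      · exact map_zero σ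
      · rfl
    have hc5 : ¬ (5 : ℤ) ∣ c := fun ⟨k, hk⟩ => by
      have h5 : Affine.Point.map (W' := E.toAffine) σ.toAlgHom ((5 : ℤ) • g) = 0 := by
        rw [map_zsmul, ← hc, ← mul_zsmul, hk, show (5 : ℤ) * (5 * k) = k * ((25 : ℕ) : ℤ) by
          push_cast; ring, mul_zsmul, natCast_zsmul, ← hg, addOrderOf_nsmul_eq_zero, zsmul_zero]
      have := addOrderOf_dvd_iff_zsmul_eq_zero.2
        (Affine.Point.map_injective σ.toAlgHom (h5.trans (map_zero _).symm))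
      rw [hg] at this
      omega
    have s1 : σ (x₁ : Qb) =
        FA.EC.xc (W := E⁄Qb) ((c * ((1 : ℕ) : ℤ)) • R) := by rw [← hx1, hσx]
    have s2 : σ (x₂ : Qb) =
        FA.EC.xc (W := E⁄Qb) ((c * ((2 : ℕ) : ℤ)) • R) := by rw [← hx2, hσx]
    have hcongr : ∀ {n m : ℤ}, (5 : ℤ) ∣ n - m ∨ (5 : ℤ) ∣ n + m →
        FA.EC.xc (W := E⁄Qb) (n • R) = FA.EC.xc (W := E⁄Qb) (m • R) := by
      intro n m h
      rcases h with ⟨k, hk⟩ | ⟨k, hk⟩
      · rw [show n = m + k * 5 by omega, add_zsmul, mul_zsmul, hR5, zsmul_zero, add_zero]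
      · rw [show n = -m + k * 5 by omega, add_zsmul, mul_zsmul, hR5, zsmul_zero, add_zero,
          neg_zsmul]
        exact FA.EC.xc_neg _
    have hσΨ : ∀ v : Qb, σ (Ψ v) = Ψ (σ v) := fun v => by simp [hΨ, map_ofNat]
    have hb₁σ := congrArg σ hb₁'
    rw [map_mul, hσΨ, map_pow, map_sub] at hb₁σ
    rcases (show ((5 : ℤ) ∣ c - 1 ∨ (5 : ℤ) ∣ c + 1) ∨ ((5 : ℤ) ∣ c - 2 ∨ (5 : ℤ) ∣ c + 2) by
      omega) with hm | hm
    · rw [hcongr (n := c * ((1 : ℕ) : ℤ)) (m := ((1 : ℕ) : ℤ)) (by push_cast; omega), hx1] at s1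
      rw [hcongr (n := c * ((2 : ℕ) : ℤ)) (m := ((2 : ℕ) : ℤ)) (by push_cast; omega), hx2] at s2
      rw [s1, s2, ← hb₁'] at hb₁σ
      have h0 : Ψ (x₁ : Qb) ≠ 0 := fun h0 => by
        rw [h0, mul_zero, eq_comm, pow_eq_zero_iff (by norm_num), sub_eq_zero] at hb₁'
        exact hne' (by rw [hb₂', hb₁', sub_self]; ring)
      exact Or.inl (mul_right_cancel₀ h0 hb₁σ)
    · rw [hcongr (n := c * ((1 : ℕ) : ℤ)) (m := ((2 : ℕ) : ℤ)) (by push_cast; omega), hx2] at s1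
      rw [hcongr (n := c * ((2 : ℕ) : ℤ)) (m := ((1 : ℕ) : ℤ)) (by push_cast; omega), hx1] at s2
      rw [s1, s2] at hb₁σ
      refine Or.inr (mul_right_cancel₀ hne' ?_)
      rw [hb₁σ, hb₂']
      field_simp
  obtain ⟨w, hw, hact⟩ := exists_fifth_root hbQ0 (w := (z : Qb))
    (by exact_mod_cast congrArg (fun a : F => (a : Qb)) hz) horb (fun σ τ => hcomm σ τ _ z.2)
  have hw0 : w ≠ 0 := fun h => hbQ0 (by rw [← hw, h]; ring)
  obtain ⟨s, hs⟩ := FA.EC.mem_range_of_fixed (x := w - 1 / w) fun σ => by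
    rcases horb σ with h | h
    · simp [(hact σ).1 h]
    · rw [map_sub, map_div₀, map_one, (hact σ).2 h]
      field_simp
      ring
  have hb' : twentyFiveParam (algebraMap ℚ Qb s) * (b : Qb) =
      (b : Qb) ^ 2 - 11 * (b : Qb) - 1 := by
    rw [hs, ← hw, twentyFiveParam]
    field_simp
    ring
  have hcast : algebraMap ℚ Qb (twentyFiveParam s) = twentyFiveParam (algebraMap ℚ Qb s) := by
    simp [twentyFiveParam]
  have hΔQ : (b : Qb) ^ 2 - 11 * (b : Qb) - 1 ≠ 0 := by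
    have := (map_ne_zero F.val).2 hΔ
    simp only [map_sub, map_mul, map_pow, map_ofNat, map_one] at this
    exact this
  have ht : twentyFiveParam s ≠ 0 := fun h => hΔQ (by rw [← hb', ← hcast, h, map_zero, zero_mul])
  refine ⟨s, ht, (eq_div_iff ht).2 ((algebraMap ℚ Qb).injective ?_)⟩
  have hjQ := congrArg F.val hj
  simp only [baseChange, map_j] at hjQ
  simp only [map_sub, map_add, map_mul, map_pow, map_ofNat, map_one] at hjQ ⊢
  rw [hcast]
  refine mul_right_cancel₀ (pow_ne_zero 6 hbQ0) ?_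
  change algebraMap ℚ Qb E.j * ((b : Qb) ^ 5 * ((b : Qb) ^ 2 - 11 * (b : Qb) - 1)) =
    ((b : Qb) ^ 4 - 12 * (b : Qb) ^ 3 + 14 * (b : Qb) ^ 2 + 12 * (b : Qb) + 1) ^ 3 at hjQ
  rw [show (b : Qb) ^ 4 - 12 * (b : Qb) ^ 3 + 14 * (b : Qb) ^ 2 + 12 * (b : Qb) + 1 =
      ((b : Qb) ^ 2 - 11 * (b : Qb) - 1) ^ 2 + 10 * ((b : Qb) ^ 2 - 11 * (b : Qb) - 1) * (b : Qb) +
        5 * (b : Qb) ^ 2 by ring, ← hb'] at hjQ
  linear_combination hjQ

end FA.X0Composite

namespace FA.Summary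

variable (E : WeierstrassCurve ℚ) [E.IsElliptic] [inst : DecidableEq (AlgebraicClosure ℚ)]

/-- **The parameter of a cyclic isogeny of degree `25`.** -/
theorem isogeny_twentyFive_j_param
    (G : AddSubgroup (E.toAffine⁄(AlgebraicClosure ℚ)).Point) [hcyc : IsAddCyclic G]
    (hG : Nat.card G = 25)
    (hst : ∀ σ : AlgebraicClosure ℚ ≃ₐ[ℚ] AlgebraicClosure ℚ, ∀ P ∈ G,
      Affine.Point.map σ.toAlgHom P ∈ G) :
    ∃ s t : ℚ, t = (s - 1) * (s ^ 4 + s ^ 3 + 6 * s ^ 2 + 6 * s + 11) ∧ t ≠ 0 ∧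
      E.j = (t ^ 2 + 10 * t + 5) ^ 3 / t := by
  obtain rfl : inst = instDecEqAlgebraicClosureRat := Subsingleton.elim _ _
  obtain ⟨s, h0, hj⟩ := FA.X0Composite.exists_param_twentyFive
    (@hasStableOrder_of_subgroup _ _ G _ hG hcyc hst)
  exact ⟨s, _, rfl, h0, hj⟩

end FA.Summary

end
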