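import Fermat.Agent.Curve50.Main
import Fermat.Agent.Root.SummaryKenkuClassification
import Fermat.Agent.Root.SummaryX0TwentyFive

/-!
# No cyclic isogeny of degree `50` over `ℚ`

* `no_cyclic_isogeny_fifty`: `50` divides the order of no finite Galois stable cyclic subgroup.
* `cyclic_isogeny_degree_mem_list`: so Kenku's list holds without the assumption on `50`.
* `sextic_fifty_points`: `y² = x⁶ - 4 x⁵ - 10 x³ - 4 x + 1`, a model of `X₀(50)`, has no rational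
  point with `x ≠ 0`.

A stable line of order `50` gives the parameter `S` of `X₀(25)` and a rational root of the cubic of
`2`-torsion, hence the parameter `h` of `X₀(10)` with `(h - 4)² (h + 1) = t h²`, hence a rational
`x ≠ 0` with `S² x - (x³ - 2x² - 2x + 1) S + 5x² = 0`. The point
`(-20 x / (x + 1)², 20 y / (x + 1)³)` then lies on `50a1`, whose only abscissa is `0`.
-/

set_option autoImplicit false
set_option linter.style.haveILetI false
set_option linter.unusedSectionVars false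

noncomputable section

open WeierstrassCurve FA.KerPoly
open scoped WeierstrassCurve.Affine

namespace FA.X0Composite

/-- **The rational points of the sextic**: only those over `x = 0`. -/
theorem sextic_fifty_eq_zero {x y : ℚ}
    (h : y ^ 2 = x ^ 6 - 4 * x ^ 5 - 10 * x ^ 3 - 4 * x + 1) : x = 0 := by
  have h1 : x + 1 ≠ 0 := fun h0 => by
    rw [show x = -1 by linarith] at h
    norm_num at h
    have h20 : IsSquare ((20 : ℕ) : ℚ) := ⟨y, by push_cast; linear_combination -h⟩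
    rw [Rat.isSquare_natCast_iff] at h20
    revert h20
    decide +kernel
  have hc : (20 * y / (x + 1) ^ 3) ^ 2 = (-20 * x / (x + 1) ^ 2) ^ 3 +
      25 * (-20 * x / (x + 1) ^ 2) ^ 2 + 200 * (-20 * x / (x + 1) ^ 2) + 400 := by
    field_simp
    linear_combination 400 * h
  have := FA.Curve50.abscissa_eq_zero hc
  simpa [h1] using this

/-- A point of `X₀(10)` over one of `X₀(25)` gives a point of the sextic off `x = 0`. -/
theorem false_of_fifty_params {S h : ℚ} (hS : S ≠ 0)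
    (hh : (h - 4) ^ 2 * (h + 1) = S * (S ^ 4 + 5 * S ^ 3 + 15 * S ^ 2 + 25 * S + 25) * h ^ 2) :
    False := by
  set B := -20 * S - 40 * S ^ 2 - 36 * S ^ 3 - 16 * S ^ 4 - 4 * S ^ 5 with hB
  have hB0 : B ≠ 0 := by
    have h5 : (0 : ℚ) < (S ^ 2 + 2 * S) ^ 2 + 5 * (S + 1) ^ 2 := by
      rcases eq_or_ne (S + 1) 0 with h1 | h1
      · rw [show S = -1 by linarith]; norm_num
      · positivity
    rw [show B = -4 * S * ((S ^ 2 + 2 * S) ^ 2 + 5 * (S + 1) ^ 2) by rw [hB]; ring]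
    exact mul_ne_zero (mul_ne_zero (by norm_num) hS) h5.ne'
  set N := -(64 + 140 * S + 136 * S ^ 2 + 76 * S ^ 3 + 24 * S ^ 4 + 4 * S ^ 5 +
    (-32 - 135 * S - 246 * S ^ 2 - 267 * S ^ 3 - 195 * S ^ 4 - 99 * S ^ 5 - 35 * S ^ 6 -
      8 * S ^ 7 - S ^ 8) * h + (4 + 5 * S + 3 * S ^ 2 + S ^ 3) * h ^ 2) with hN
  obtain ⟨x, hx⟩ : ∃ x, N = B * x := ⟨N / B, (mul_div_cancel₀ N hB0).symm⟩
  have key : B ^ 3 * (S ^ 2 * x - (x ^ 3 - 2 * x ^ 2 - 2 * x + 1) * S + 5 * x ^ 2) = 0 := by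
    have e : B ^ 3 * (S ^ 2 * x - (x ^ 3 - 2 * x ^ 2 - 2 * x + 1) * S + 5 * x ^ 2) =
        S ^ 2 * (B * x) * B ^ 2 - S * ((B * x) ^ 3 - 2 * (B * x) ^ 2 * B - 2 * (B * x) * B ^ 2 +
          B ^ 3) + 5 * (B * x) ^ 2 * B := by ring
    rw [e, ← hx, hN, hB]
    linear_combination ((S ^ 10 + 9 * S ^ 9 + 42 * S ^ 8 + 129 * S ^ 7 + 282 * S ^ 6 +
        453 * S ^ 5 + 533 * S ^ 4 + 444 * S ^ 3 + 240 * S ^ 2 + 64 * S) * h ^ 3 +
      (-2 * S ^ 15 - 28 * S ^ 14 - 204 * S ^ 13 - 998 * S ^ 12 - 3614 * S ^ 11 - 10160 * S ^ 10 -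
        22732 * S ^ 9 - 40946 * S ^ 8 - 59478 * S ^ 7 - 69168 * S ^ 6 - 63260 * S ^ 5 -
        44038 * S ^ 4 - 22004 * S ^ 3 - 7040 * S ^ 2 - 1088 * S) * h ^ 2 +
      (S ^ 20 + 19 * S ^ 19 + 187 * S ^ 18 + 1244 * S ^ 17 + 6207 * S ^ 16 + 24507 * S ^ 15 +
        78994 * S ^ 14 + 211867 * S ^ 13 + 478272 * S ^ 12 + 914283 * S ^ 11 + 1482818 * S ^ 10 +
        2036343 * S ^ 9 + 2354259 * S ^ 8 + 2268240 * S ^ 7 + 1792923 * S ^ 6 + 1135959 * S ^ 5 +
        556965 * S ^ 4 + 199740 * S ^ 3 + 47200 * S ^ 2 + 5632 * S) * h +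
      (-4 * S ^ 17 - 64 * S ^ 16 - 544 * S ^ 15 - 3144 * S ^ 14 - 13612 * S ^ 13 -
        46328 * S ^ 12 - 127316 * S ^ 11 - 286680 * S ^ 10 - 532412 * S ^ 9 - 815656 * S ^ 8 -
        1024756 * S ^ 7 - 1042488 * S ^ 6 - 840328 * S ^ 5 - 518104 * S ^ 4 - 230212 * S ^ 3 -
        65920 * S ^ 2 - 9216 * S)) * hh
  have hrel := (mul_eq_zero.mp key).resolve_left (pow_ne_zero 3 hB0)
  have hx0 := sextic_fifty_eq_zero (x := x)
    (y := 2 * x * S - (x ^ 3 - 2 * x ^ 2 - 2 * x + 1)) (by linear_combination 4 * x * hrel)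
  rw [hx0] at hrel
  exact hS (by linear_combination -hrel)

variable {E : WeierstrassCurve ℚ} [E.IsElliptic]

/-- The parameter of `X₀(10)`. -/
theorem exists_param_ten (h2 : HasStableOrder E 2) {t : ℚ} (ht : t ≠ 0)
    (hj : E.j = (t ^ 2 + 10 * t + 5) ^ 3 / t) :
    ∃ h : ℚ, (h - 4) ^ 2 * (h + 1) = t * h ^ 2 := by
  obtain ⟨W, _, hW, hΔ, hjW⟩ := exists_model E
  obtain ⟨e₀, he₀⟩ := exists_root_two hW h2
  set c4 := (W.c₄ : ℚ) with hc4
  set c6 := (W.c₆ : ℚ) with hc6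
  have hrel : c4 ^ 3 - c6 ^ 2 = 1728 * (W.Δ : ℚ) := by
    rw [hc4, hc6]; exact_mod_cast W.c_relation.symm
  set e := 12 * e₀ + (W.b₂ : ℚ) with hedef
  have hroot : e ^ 3 - 3 * c4 * e - 2 * c6 = 0 := by
    rw [hedef, hc4, hc6]; simp only [c₄, c₆]; push_cast; linear_combination 432 * he₀
  set g := t ^ 2 + 22 * t + 125 with hg
  have hg0 : g ≠ 0 := fun h0 => by nlinarith [sq_nonneg (t + 11)]
  have ha0 : t ^ 2 + 10 * t + 5 ≠ 0 := fun h0 => by
    have h20 : IsSquare ((20 : ℕ) : ℚ) := ⟨t + 5, by push_cast; linear_combination -h0⟩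
    rw [Rat.isSquare_natCast_iff] at h20
    revert h20
    decide +kernel
  have hb0 : t ^ 2 + 4 * t - 1 ≠ 0 := fun h0 => by
    have h5 : IsSquare ((5 : ℕ) : ℚ) := ⟨t + 2, by push_cast; linear_combination -h0⟩
    rw [Rat.isSquare_natCast_iff] at h5
    exact Nat.prime_five.prime.not_isSquare h5
  have heq : (t ^ 2 + 10 * t + 5) ^ 3 * (W.Δ : ℚ) = c4 ^ 3 * t := by
    rw [hjW, div_eq_div_iff hΔ ht] at hj
    linear_combination -hj
  have h6 : (t ^ 2 + 10 * t + 5) ^ 3 * c6 ^ 2 = g * (t ^ 2 + 4 * t - 1) ^ 2 * c4 ^ 3 := by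
    rw [hg]; linear_combination -(t ^ 2 + 10 * t + 5) ^ 3 * hrel - 1728 * heq
  have hc40 : c4 ≠ 0 := fun h0 => by
    rw [h0] at heq
    simp [ha0, hΔ] at heq
  have hc60 : c6 ≠ 0 := fun h0 => by
    rw [h0] at h6
    simp [hg0, hb0, hc40] at h6
  -- the root on the model with the invariants of the parameter
  set r := g * (t ^ 2 + 4 * t - 1) * c4 / ((t ^ 2 + 10 * t + 5) * c6) with hr
  have hrA : r * ((t ^ 2 + 10 * t + 5) * c6) = g * (t ^ 2 + 4 * t - 1) * c4 := by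
    rw [hr, div_mul_cancel₀ _ (mul_ne_zero ha0 hc60)]
  have hr2 : r ^ 2 * c4 = (t ^ 2 + 10 * t + 5) * g := by
    refine mul_right_cancel₀ (pow_ne_zero 2 (mul_ne_zero ha0 hc60)) ?_
    linear_combination
      c4 * (r * ((t ^ 2 + 10 * t + 5) * c6) + g * (t ^ 2 + 4 * t - 1) * c4) * hrA - g * h6
  have hr3 : r ^ 3 * c6 = g ^ 2 * (t ^ 2 + 4 * t - 1) := by
    refine mul_right_cancel₀ (mul_ne_zero ha0 hc40) ?_
    linear_combination r * ((t ^ 2 + 10 * t + 5) * c6) * hr2 +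
      (t ^ 2 + 10 * t + 5) * g * hrA
  have hroot' : (r * e) ^ 3 - 3 * ((t ^ 2 + 10 * t + 5) * g) * (r * e) -
      2 * (g ^ 2 * (t ^ 2 + 4 * t - 1)) = 0 := by
    linear_combination r ^ 3 * hroot + 3 * r * e * hr2 + 2 * hr3
  refine ⟨(2 * t ^ 4 + 70 * t ^ 3 + 874 * t ^ 2 + 4394 * t + 6500 + g * (r * e) - (r * e) ^ 2) /
    (18 * g), ?_⟩
  generalize r * e = v at hroot'
  field_simp
  simp only [hg] at hroot' ⊢
  linear_combination (-v ^ 3 + (3 * t ^ 2 + 66 * t + 375) * v ^ 2 +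
    (-36 * t ^ 3 - 1152 * t ^ 2 - 12420 * t - 45000) * v +
    (-4 * t ^ 6 - 192 * t ^ 5 - 3528 * t ^ 4 - 28816 * t ^ 3 - 68292 * t ^ 2 + 366000 * t +
      1750000)) * hroot'

/-- **No stable cyclic subgroup of order `50`.** -/
theorem false_of_fifty (h : HasStableOrder E 50) : False := by
  obtain ⟨s, ht, hj⟩ := exists_param_twentyFive
    (hasStableOrder_of_dvd h (by norm_num) (show 25 ∣ 50 by norm_num))
  obtain ⟨p, hp⟩ := exists_param_ten
    (hasStableOrder_of_dvd h (by norm_num) (show 2 ∣ 50 by norm_num)) ht hj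
  simp only [twentyFiveParam] at ht hp
  refine false_of_fifty_params (S := s - 1) (h := p) (left_ne_zero_of_mul ht) ?_
  linear_combination hp

end FA.X0Composite

namespace FA.Summary

/-- **The rational points of the sextic model of `X₀(50)`**: none has `x ≠ 0`. -/
theorem sextic_fifty_points (x y : ℚ)
    (h : y ^ 2 = x ^ 6 - 4 * x ^ 5 - 10 * x ^ 3 - 4 * x + 1) : x = 0 :=
  FA.X0Composite.sextic_fifty_eq_zero h

variable (E : WeierstrassCurve ℚ) [E.IsElliptic] [inst : DecidableEq (AlgebraicClosure ℚ)]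

/-- **No cyclic isogeny of degree divisible by `50`.** -/
theorem no_cyclic_isogeny_fifty
    (G : AddSubgroup (E.toAffine⁄(AlgebraicClosure ℚ)).Point) [hcyc : IsAddCyclic G]
    (hG : Nat.card G ≠ 0)
    (hst : ∀ σ : AlgebraicClosure ℚ ≃ₐ[ℚ] AlgebraicClosure ℚ, ∀ P ∈ G,
      Affine.Point.map σ.toAlgHom P ∈ G) : ¬ 50 ∣ Nat.card G := fun h50 => by
  obtain rfl : inst = instDecEqAlgebraicClosureRat := Subsingleton.elim _ _
  exact FA.X0Composite.false_of_fifty (FA.X0Composite.hasStableOrder_of_dvd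
    (@hasStableOrder_of_subgroup _ _ G _ rfl hcyc hst) hG h50)

/-- **Kenku's list**, away from the primes above `19`, from `13` and from `125`. -/
theorem cyclic_isogeny_degree_mem_list
    (G : AddSubgroup (E.toAffine⁄(AlgebraicClosure ℚ)).Point) [hcyc : IsAddCyclic G]
    (hG : Nat.card G ≠ 0)
    (hp : ∀ p, p.Prime → p ∣ Nat.card G → p ∈ ({2, 3, 5, 7, 11, 17, 19} : Finset ℕ))
    (h125 : ¬ 125 ∣ Nat.card G)
    (hst : ∀ σ : AlgebraicClosure ℚ ≃ₐ[ℚ] AlgebraicClosure ℚ, ∀ P ∈ G,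
      Affine.Point.map σ.toAlgHom P ∈ G) :
    Nat.card G ∈ ({1, 2, 3, 4, 5, 6, 7, 8, 9, 10, 11, 12, 14, 15, 16, 17, 18, 19, 21, 25, 27} :
      Finset ℕ) :=
  cyclic_isogeny_degree_classification E G hG hp (no_cyclic_isogeny_fifty E G hG hst) h125 hst

end FA.Summary

end
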