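import Fermat.Agent.EC.TorsionCard
import Fermat.Agent.Root.SummaryQuotientCurve
import Fermat.Agent.Root.SummaryX0Fifty
import Fermat.Agent.X0OneTwentyFive.Equation
import Fermat.Agent.X0OneTwentyFive.Fibre
import Fermat.Agent.X0OneTwentyFive.Lines

/-!
# No cyclic isogeny of degree `125` over `ℚ`

* `no_cyclic_isogeny_oneHundredTwentyFive`: `125` divides the order of no finite Galois stable
  cyclic subgroup.
* `no_two_isogeny_lines_five_twentyFive`: no curve has a stable cyclic subgroup of order `25` and a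
  stable subgroup of order `5` outside it.
* `cyclic_isogeny_degree_list`, `cyclic_isogeny_degree_list_iff`: Kenku's list, for degrees with
  primes among `2, 3, 5, 7, 11, 17, 19`, without further assumption.

The quotient by the subgroup of order `5` has two lines, of orders `25` and `5`. Their parameters
`T`, `x` give `S` with `T (T⁴ + …) (S⁴ + 5S³ + 15S² + 25S + 25) = S⁵`, and Kummer's descent in
`ℤ[ζ₅]` excludes this.
-/

set_option autoImplicit false
set_option linter.style.haveILetI false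
set_option linter.unusedSectionVars false

noncomputable section

open WeierstrassCurve FA.KerPoly
open scoped WeierstrassCurve.Affine

local notation "Qb" => AlgebraicClosure ℚ
local notation "GQ" => AlgebraicClosure ℚ ≃ₐ[ℚ] AlgebraicClosure ℚ

namespace FA.X0OneTwentyFive

/-- No stable line of order `25` beside another stable line of order `5`. -/
theorem false_of_two_lines {E : WeierstrassCurve ℚ} [E.IsElliptic]
    {P Q : (E.toAffine⁄Qb).Point} (hP : addOrderOf P = 25)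
    (hPst : ∀ σ : GQ, ∃ c : ℤ, c • P = Affine.Point.map σ.toAlgHom P) (hQ : addOrderOf Q = 5)
    (hQst : ∀ σ : GQ, ∃ c : ℤ, c • Q = Affine.Point.map σ.toAlgHom Q)
    (hne : Q ∉ AddSubgroup.zmultiples (5 • P)) : False := by
  obtain ⟨s, hs0, hj⟩ := FA.X0Composite.exists_param_twentyFive ⟨P, hP, hPst⟩
  have hR : addOrderOf (5 • P) = 5 := by rw [addOrderOf_nsmul' _ (by norm_num), hP]; norm_num
  have hRst : ∀ σ : GQ, ∃ c : ℤ, c • (5 • P) = Affine.Point.map σ.toAlgHom (5 • P) := fun σ => by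
    obtain ⟨c, hc⟩ := hPst σ
    exact ⟨c, by rw [map_nsmul, ← hc]; exact (zsmulAddGroupHom c : _ →+ _).map_nsmul 5 P⟩
  obtain ⟨a, ha, ha0, hja⟩ := lineParam_rat hR hRst
  obtain ⟨b, hb, hb0, hjb⟩ := lineParam_rat hQ hQst
  set t := FA.X0Composite.twentyFiveParam s with ht
  obtain ⟨x, hx0, hxt, hjx⟩ : ∃ x : ℚ, x ≠ 0 ∧ t ≠ x ∧ E.j * x = (x ^ 2 + 10 * x + 5) ^ 3 := by
    by_cases h : t = a
    · refine ⟨b, hb0, fun h' => hne (lineParam_injective hR hQ ha ?_), hjb⟩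
      rw [← hb, ← ha, ← h, h']
    · exact ⟨a, ha0, h, hja⟩
  have hjt : E.j * t = (t ^ 2 + 10 * t + 5) ^ 3 := (eq_div_iff hs0).1 hj
  obtain ⟨S, hS, h⟩ := exists_fibre_param hx0 hxt
    (by linear_combination x * (-hjt) + t * hjx)
  refine model_no_point (T := s - 1) hS ?_
  rw [← h, ht, FA.X0Composite.twentyFiveParam]
  ring

/-- **No stable cyclic subgroup of order `125`.** -/
theorem false_of_oneTwentyFive {E : WeierstrassCurve ℚ} [E.IsElliptic]
    (h : HasStableOrder E 125) : False := by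
  obtain ⟨g, hg, hst⟩ := h
  set R := 25 • g with hRdef
  set G := AddSubgroup.zmultiples R with hG
  have hR : addOrderOf R = 5 := by rw [hRdef, addOrderOf_nsmul' _ (by norm_num), hg]; norm_num
  haveI : Finite G := Nat.finite_of_card_ne_zero (by rw [hG, Nat.card_zmultiples, hR]; norm_num)
  have hGst : ∀ σ : GQ, ∀ X ∈ G, σ • X ∈ G := fun σ X hX => by
    obtain ⟨k, rfl⟩ := AddSubgroup.mem_zmultiples_iff.1 hX
    obtain ⟨c, hc⟩ := hst σ
    refine AddSubgroup.mem_zmultiples_iff.2 ⟨k * c, ?_⟩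
    show _ = Affine.Point.map σ.toAlgHom _
    rw [map_zsmul, hRdef, map_nsmul, ← hc, mul_zsmul]
    congr 1
    exact (zsmulAddGroupHom c : _ →+ _).map_nsmul 25 g
  obtain ⟨E', hE', θ, hθ', hk⟩ : ∃ (E' : WeierstrassCurve ℚ) (_ : E'.IsElliptic)
      (θ : (E.toAffine⁄Qb).Point →+ (E'.toAffine⁄Qb).Point),
      (∀ (σ : GQ) (X : (E.toAffine⁄Qb).Point), θ (Affine.Point.map σ.toAlgHom X) =
        Affine.Point.map σ.toAlgHom (θ X)) ∧ ∀ X, θ X = 0 ↔ X ∈ G := by
    obtain ⟨E', hE', -, -, θ, -, hθ, hker⟩ :=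
      @FA.Summary.exists_quotient_curve ℚ _ _ _ E _ G ‹Finite G› hGst
    exact ⟨E', hE', θ, hθ, fun X => ⟨fun h => hker.le h, fun h => hker.ge h⟩⟩
  have hmem : ∀ n : ℕ, n • g ∈ G → 25 ∣ n := fun n hn => by
    obtain ⟨k, hk'⟩ := AddSubgroup.mem_zmultiples_iff.1 hn
    have : ((n : ℤ) - k * 25) • g = 0 := by
      rw [sub_zsmul, mul_zsmul, natCast_zsmul, ← hk', hRdef,
        show (25 : ℤ) = ((25 : ℕ) : ℤ) from rfl, natCast_zsmul, add_neg_cancel]
    have := addOrderOf_dvd_iff_zsmul_eq_zero.2 this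
    rw [hg] at this
    omega
  have hP : addOrderOf (θ g) = 25 := by
    rw [show 25 = 5 ^ (1 + 1) by norm_num]
    haveI : Fact (Nat.Prime 5) := ⟨Nat.prime_five⟩
    refine addOrderOf_eq_prime_pow (fun h => ?_) ?_
    · rw [← map_nsmul, hk] at h
      have := hmem _ h
      norm_num at this
    · rw [← map_nsmul, hk]
      exact AddSubgroup.mem_zmultiples_iff.2 ⟨1, by rw [one_zsmul]; norm_num [hRdef]⟩
  have hPst : ∀ σ : GQ, ∃ c : ℤ, c • θ g = Affine.Point.map σ.toAlgHom (θ g) := fun σ => by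
    obtain ⟨c, hc⟩ := hst σ
    exact ⟨c, by rw [← hθ', ← hc, map_zsmul]⟩
  -- the image of the points of order `5`
  set A := (Submodule.torsionBy ℤ (E.toAffine⁄Qb).Point ((5 : ℕ) : ℤ)).toAddSubgroup with hA
  have hAmem : ∀ X, X ∈ A ↔ (5 : ℕ) • X = 0 := fun X => by
    rw [hA, Submodule.mem_toAddSubgroup, Submodule.mem_torsionBy_iff, natCast_zsmul]
  have hA25 : Nat.card A = 25 :=
    (FA.EC.natCard_torsionBy (E.map (algebraMap ℚ Qb)) (n := 5) (by norm_num)).trans (by norm_num)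
  set ψ := θ.comp A.subtype with hψ
  have hGA : G ≤ A := AddSubgroup.zmultiples_le_of_mem ((hAmem R).2 (by
    rw [← hR]; exact addOrderOf_nsmul_eq_zero R))
  have hkψ : Nat.card ψ.ker = 5 := by
    rw [← hR, ← Nat.card_zmultiples]
    refine Nat.card_congr ⟨fun X => ⟨(X : A), (hk _).1 X.2⟩, fun X => ⟨⟨X, hGA X.2⟩, (hk _).2 X.2⟩,
      fun X => rfl, fun X => rfl⟩
  have hrψ : Nat.card ψ.range = 5 := by
    have h := ψ.ker.card_eq_card_quotient_mul_card_addSubgroup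
    rw [hA25, hkψ, Nat.card_congr (QuotientAddGroup.quotientKerEquivRange ψ).toEquiv] at h
    omega
  have hrst : ∀ σ : GQ, ∀ X ∈ ψ.range, Affine.Point.map σ.toAlgHom X ∈ ψ.range := by
    rintro σ _ ⟨⟨X, hX⟩, rfl⟩
    refine ⟨⟨Affine.Point.map σ.toAlgHom X, (hAmem _).2 ?_⟩, hθ' σ X⟩
    rw [← map_nsmul, (hAmem X).1 hX, map_zero]
  haveI : Fact (Nat.Prime 5) := ⟨Nat.prime_five⟩
  haveI : IsAddCyclic ψ.range := isAddCyclic_of_prime_card hrψ
  obtain ⟨⟨Q, hQm⟩, hgen⟩ := IsAddCyclic.exists_generator (α := ψ.range)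
  have hQ : addOrderOf Q = 5 := by
    rw [← AddSubgroup.addOrderOf_mk Q hQm, addOrderOf_eq_card_of_forall_mem_zmultiples hgen, hrψ]
  have hQst : ∀ σ : GQ, ∃ c : ℤ, c • Q = Affine.Point.map σ.toAlgHom Q := fun σ => by
    obtain ⟨c, hc⟩ := AddSubgroup.mem_zmultiples_iff.1 (hgen ⟨_, hrst σ Q hQm⟩)
    exact ⟨c, congrArg Subtype.val hc⟩
  refine false_of_two_lines hP hPst hQ hQst fun hmemQ => ?_
  obtain ⟨k, hk'⟩ := AddSubgroup.mem_zmultiples_iff.1 hmemQ
  obtain ⟨⟨X, hX⟩, hXQ⟩ := hQm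
  have h5 : (5 : ℤ) ∣ k := by
    have hd : θ (X - (k * 5) • g) = 0 := by
      rw [map_sub, map_zsmul, mul_zsmul, show (5 : ℤ) = ((5 : ℕ) : ℤ) from rfl, natCast_zsmul,
        hk', sub_eq_zero]
      exact hXQ
    have h0 : (5 : ℕ) • ((k * 5) • g) = 0 := by
      have h1 := (hAmem _).1 (hGA ((hk _).1 hd))
      rw [nsmul_sub, (hAmem X).1 hX, zero_sub, neg_eq_zero] at h1
      exact h1
    rw [← natCast_zsmul, ← mul_zsmul] at h0
    have := addOrderOf_dvd_iff_zsmul_eq_zero.2 h0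
    rw [hg] at this
    omega
  obtain ⟨l, rfl⟩ := h5
  have hQ0 : Q = 0 := by
    rw [← hk', mul_comm, mul_zsmul, show (5 : ℤ) = ((5 : ℕ) : ℤ) from rfl, natCast_zsmul,
      smul_smul, show 5 * 5 = 25 from rfl, ← hP, addOrderOf_nsmul_eq_zero, zsmul_zero]
  rw [hQ0, addOrderOf_zero] at hQ
  norm_num at hQ

end FA.X0OneTwentyFive

namespace FA.Summary

variable (E : WeierstrassCurve ℚ) [E.IsElliptic] [inst : DecidableEq (AlgebraicClosure ℚ)]

/-- **No cyclic isogeny of degree divisible by `125`.** -/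
theorem no_cyclic_isogeny_oneHundredTwentyFive
    (G : AddSubgroup (E.toAffine⁄(AlgebraicClosure ℚ)).Point) [hcyc : IsAddCyclic G]
    (hG : Nat.card G ≠ 0)
    (hst : ∀ σ : AlgebraicClosure ℚ ≃ₐ[ℚ] AlgebraicClosure ℚ, ∀ P ∈ G,
      Affine.Point.map σ.toAlgHom P ∈ G) : ¬ 125 ∣ Nat.card G := fun h125 => by
  obtain rfl : inst = instDecEqAlgebraicClosureRat := Subsingleton.elim _ _
  exact FA.X0OneTwentyFive.false_of_oneTwentyFive (FA.X0Composite.hasStableOrder_of_dvd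
    (@hasStableOrder_of_subgroup _ _ G _ rfl hcyc hst) hG h125)

/-- **No stable subgroup of order `5` outside a stable cyclic subgroup of order `25`.** -/
theorem no_two_isogeny_lines_five_twentyFive
    (G H : AddSubgroup (E.toAffine⁄(AlgebraicClosure ℚ)).Point) [hG : IsAddCyclic G]
    (hGcard : Nat.card G = 25) (hHcard : Nat.card H = 5)
    (hGst : ∀ σ : AlgebraicClosure ℚ ≃ₐ[ℚ] AlgebraicClosure ℚ, ∀ P ∈ G,
      Affine.Point.map σ.toAlgHom P ∈ G)
    (hHst : ∀ σ : AlgebraicClosure ℚ ≃ₐ[ℚ] AlgebraicClosure ℚ, ∀ P ∈ H,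
      Affine.Point.map σ.toAlgHom P ∈ H) : H ≤ G := by
  obtain rfl : inst = instDecEqAlgebraicClosureRat := Subsingleton.elim _ _
  haveI : Fact (Nat.Prime 5) := ⟨Nat.prime_five⟩
  obtain ⟨⟨P, hPm⟩, hPgen⟩ := IsAddCyclic.exists_generator (α := G)
  have hP : addOrderOf P = 25 := by
    rw [← AddSubgroup.addOrderOf_mk P hPm, addOrderOf_eq_card_of_forall_mem_zmultiples hPgen,
      hGcard]
  intro Q hQm
  by_contra hQG
  have hQ0 : Q ≠ 0 := fun h => hQG (h ▸ G.zero_mem)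
  have hQ : addOrderOf Q = 5 := addOrderOf_eq_prime
    (by rw [← hHcard]; exact congrArg Subtype.val (card_nsmul_eq_zero' (x := (⟨Q, hQm⟩ : H)))) hQ0
  haveI : IsAddCyclic H := isAddCyclic_of_prime_card hHcard
  refine FA.X0OneTwentyFive.false_of_two_lines hP (fun σ => ?_) hQ (fun σ => ?_) fun hm => ?_
  · obtain ⟨c, hc⟩ := AddSubgroup.mem_zmultiples_iff.1 (hPgen ⟨_, hGst σ P hPm⟩)
    exact ⟨c, congrArg Subtype.val hc⟩
  · have hgen : AddSubgroup.zmultiples (⟨Q, hQm⟩ : H) = ⊤ :=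
      zmultiples_eq_top_of_prime_card hHcard (fun h => hQ0 (congrArg Subtype.val h))
    obtain ⟨c, hc⟩ := AddSubgroup.mem_zmultiples_iff.1
      (show (⟨_, hHst σ Q hQm⟩ : H) ∈ AddSubgroup.zmultiples (⟨Q, hQm⟩ : H) by
        rw [hgen]; exact AddSubgroup.mem_top _)
    exact ⟨c, congrArg Subtype.val hc⟩
  · exact hQG (AddSubgroup.zmultiples_le_of_mem (G.nsmul_mem hPm 5) hm)

/-- **Kenku's list**, for degrees with primes among `2, 3, 5, 7, 11, 17, 19`. -/
theorem cyclic_isogeny_degree_list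
    (G : AddSubgroup (E.toAffine⁄(AlgebraicClosure ℚ)).Point) [hcyc : IsAddCyclic G]
    (hG : Nat.card G ≠ 0)
    (hp : ∀ p, p.Prime → p ∣ Nat.card G → p ∈ ({2, 3, 5, 7, 11, 17, 19} : Finset ℕ))
    (hst : ∀ σ : AlgebraicClosure ℚ ≃ₐ[ℚ] AlgebraicClosure ℚ, ∀ P ∈ G,
      Affine.Point.map σ.toAlgHom P ∈ G) :
    Nat.card G ∈ ({1, 2, 3, 4, 5, 6, 7, 8, 9, 10, 11, 12, 14, 15, 16, 17, 18, 19, 21, 25, 27} :
      Finset ℕ) :=
  cyclic_isogeny_degree_mem_list E G hG hp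
    (no_cyclic_isogeny_oneHundredTwentyFive E G hG hst) hst

omit E in
/-- **The degrees of cyclic isogenies with primes among `2, 3, 5, 7, 11, 17, 19`.** -/
theorem cyclic_isogeny_degree_list_iff {N : ℕ} (hN : N ≠ 0)
    (hp : ∀ p, p.Prime → p ∣ N → p ∈ ({2, 3, 5, 7, 11, 17, 19} : Finset ℕ)) :
    (∃ (E : WeierstrassCurve ℚ) (_ : E.IsElliptic)
      (G : AddSubgroup (E.toAffine⁄(AlgebraicClosure ℚ)).Point), Nat.card G = N ∧ IsAddCyclic G ∧
      ∀ σ : AlgebraicClosure ℚ ≃ₐ[ℚ] AlgebraicClosure ℚ, ∀ Q ∈ G,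
        Affine.Point.map σ.toAlgHom Q ∈ G) ↔
      N ∈ ({1, 2, 3, 4, 5, 6, 7, 8, 9, 10, 11, 12, 14, 15, 16, 17, 18, 19, 21, 25, 27} :
        Finset ℕ) := by
  refine ⟨fun ⟨E, _, G, hG, hcyc, hst⟩ => ?_, fun h => exists_stable_cyclic_subgroup ?_⟩
  · haveI := hcyc
    subst hG
    exact cyclic_isogeny_degree_list E G hN hp hst
  · exact (show ({1, 2, 3, 4, 5, 6, 7, 8, 9, 10, 11, 12, 14, 15, 16, 17, 18, 19, 21, 25, 27} :
        Finset ℕ) ⊆ {1, 2, 3, 4, 5, 6, 7, 8, 9, 10, 11, 12, 13, 14, 15, 16, 17, 18, 19, 21, 25, 27,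
          37, 43, 67, 163} by decide) h

end FA.Summary

end
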