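import Fermat.Agent.ClassBound.Bounds
import Fermat.Agent.Root.SummaryX0OneTwentyFive
import Fermat.Agent.Torsion.Realised

/-!
# At most eight cyclic isogenies with primes among `2, 3, 5, 7, 11, 17, 19`

* `cyclic_stable_subgroups_ncard_le_eight`: an elliptic curve over `ℚ` has at most eight finite
  Galois stable cyclic subgroups whose orders have primes among `2, 3, 5, 7, 11, 17, 19` only
  (classically: at most eight curves are reached from it by cyclic isogenies of such degrees).
* `exists_eight_cyclic_stable_subgroups`: eight occur, with torsion `ℤ/2 × ℤ/6`.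

Kenku's list bounds the chains at each prime beside the other primes; the counts then multiply to
at most eight.
-/

set_option autoImplicit false
set_option linter.style.haveILetI false
set_option linter.unusedSectionVars false

noncomputable section

open WeierstrassCurve FA.KerPoly
open FA.X0Composite (hasStableOrder_of_dvd)
open scoped WeierstrassCurve.Affine

local notation "Qb" => AlgebraicClosure ℚ
local notation "GQ" => AlgebraicClosure ℚ ≃ₐ[ℚ] AlgebraicClosure ℚ

namespace FA.ClassBound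

/-- The primes considered. -/
abbrev primeList : Finset ℕ := {2, 3, 5, 7, 11, 17, 19}

/-- Kenku's degrees. -/
abbrev degreeList : Finset ℕ :=
  {1, 2, 3, 4, 5, 6, 7, 8, 9, 10, 11, 12, 14, 15, 16, 17, 18, 19, 21, 25, 27}

theorem prime_of_mem {p : ℕ} (hp : p ∈ primeList) : p.Prime := by
  simp only [primeList, Finset.mem_insert, Finset.mem_singleton] at hp
  rcases hp with rfl | rfl | rfl | rfl | rfl | rfl | rfl <;> norm_num

variable {E : WeierstrassCurve ℚ} [E.IsElliptic]

theorem mem_degreeList {n : ℕ} (h : HasStableOrder E n) (hn : n ≠ 0)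
    (hp : ∀ q, q.Prime → q ∣ n → q ∈ primeList) : n ∈ degreeList := by
  obtain ⟨G, hcard, hcyc, hst⟩ := h.exists_subgroup
  haveI := hcyc
  subst hcard
  exact FA.Summary.cyclic_isogeny_degree_list E G hn hp hst

theorem hasStableOrder_one : HasStableOrder E 1 := ⟨0, addOrderOf_zero, fun σ => ⟨0, by simp⟩⟩

/-- The excluded degrees. -/
theorem bad_of {p d m : ℕ} (hp : p ∈ primeList) (hm : m ∈ insert 1 (insert 9 primeList))
    (hn : p ^ (d + 1) * m ∉ degreeList) : Bad p d m := by
  intro E _ h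
  have hm0 : m ≠ 0 := by rintro rfl; revert hm; decide
  refine hn (mem_degreeList h (mul_ne_zero (pow_ne_zero _ (prime_of_mem hp).ne_zero) hm0)
    fun q hq hd => ?_)
  rcases hq.dvd_mul.1 hd with h1 | h1
  · exact (Nat.prime_dvd_prime_iff_eq hq (prime_of_mem hp)).1 (hq.dvd_of_dvd_pow h1) ▸ hp
  · simp only [Finset.mem_insert] at hm
    rcases hm with rfl | rfl | hm
    · exact absurd h1 hq.not_dvd_one
    · rw [show (9 : ℕ) = 3 ^ 2 by norm_num] at h1
      rw [(Nat.prime_dvd_prime_iff_eq hq Nat.prime_three).1 (hq.dvd_of_dvd_pow h1)]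
      decide
    · have hm' : m ∈ primeList := by simpa [primeList] using hm
      exact (Nat.prime_dvd_prime_iff_eq hq (prime_of_mem hm')).1 h1 ▸ hm'

theorem not_pair {p q : ℕ} (hp : p ∈ primeList) (hq : q ∈ primeList) (hne : p ≠ q)
    (hn : p * q ∉ degreeList) (h : HasStableOrder E p) (h' : HasStableOrder E q) : False := by
  have hpq := HasStableOrder.mul
    ((Nat.coprime_primes (prime_of_mem hp) (prime_of_mem hq)).2 hne) h h'
  exact bad_of (d := 0) hp (Finset.mem_insert_of_mem (Finset.mem_insert_of_mem hq))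
    (by simpa using hn) E (by simpa using hpq)

theorem not_triple {m : ℕ} (h2 : HasStableOrder E 2) (h3 : HasStableOrder E 3)
    (h : HasStableOrder E m) (hm : m = 5 ∨ m = 7) : False := by
  have hmem := mem_degreeList (HasStableOrder.mul (m := 2 * 3) (n := m) (by
    rcases hm with rfl | rfl <;> norm_num) (HasStableOrder.mul (by norm_num) h2 h3) h)
    (by rcases hm with rfl | rfl <;> norm_num) fun q hq hd => by
      rcases hm with rfl | rfl <;>
      · rcases hq.dvd_mul.1 hd with h1 | h1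
        · rcases hq.dvd_mul.1 h1 with h1 | h1 <;>
            rw [(Nat.prime_dvd_prime_iff_eq hq (by norm_num)).1 h1] <;> decide
        · rw [(Nat.prime_dvd_prime_iff_eq hq (by norm_num)).1 h1]; decide
  rcases hm with rfl | rfl <;> revert hmem <;> decide

theorem lineSet_subset_bot {p : ℕ} (hp : p.Prime) (h : ¬ HasStableOrder E p) :
    lineSet E p ⊆ {⊥} := by
  rintro H ⟨a, hH⟩
  rcases a with _ | a
  · exact level_zero hH
  · obtain ⟨g, hg, hst, -⟩ := hH
    exact absurd ⟨p ^ a • g, by simpa using order_top hp hg (by omega), hst.nsmul _⟩ h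

theorem ncard_le_one_of_not {p : ℕ} (hp : p.Prime) (h : ¬ HasStableOrder E p) :
    (lineSet E p).ncard ≤ 1 :=
  (Set.ncard_le_ncard (lineSet_subset_bot hp h) (Set.finite_singleton _)).trans_eq
    (Set.ncard_singleton _)

/-- At most two `p`-subgroups when a quotient of degree prime to `p` has the bound `d = 1`. -/
theorem ncard_le_two_of_transfer {E' : WeierstrassCurve ℚ} [E'.IsElliptic]
    {θ : (E.toAffine⁄Qb).Point →+ (E'.toAffine⁄Qb).Point} {l : (E.toAffine⁄Qb).Point} {p m : ℕ}
    (hθ : IsQuot θ l) (hp : p.Prime) (hl : (addOrderOf l).Coprime p) (hco : p.Coprime m)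
    (hbad : Bad p 1 m) (hm : HasStableOrder E' m) : (lineSet E p).ncard ≤ 2 := by
  have hinj : ∀ X : (E.toAffine⁄Qb).Point, ∀ k, p ^ k • X = 0 → θ X = 0 → X = 0 := 
      fun X k h h0 => by
    obtain ⟨j, rfl⟩ := AddSubgroup.mem_zmultiples_iff.1 ((hθ.ker X).1 h0)
    rw [← AddMonoid.addOrderOf_eq_one_iff]
    exact Nat.eq_one_of_dvd_coprimes (hl.pow_right k)
      (addOrderOf_dvd_of_nsmul_eq_zero (by rw [smul_comm, addOrderOf_nsmul_eq_zero, zsmul_zero]))
      (addOrderOf_dvd_of_nsmul_eq_zero h)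
  have hord : ∀ (g : (E.toAffine⁄Qb).Point) a, addOrderOf g = p ^ a → addOrderOf (θ g) = p ^ a := by
    intro g a hg
    refine Nat.dvd_antisymm (addOrderOf_dvd_of_nsmul_eq_zero
      (by rw [← map_nsmul, ← hg, addOrderOf_nsmul_eq_zero, map_zero])) ?_
    rw [← hg]
    refine addOrderOf_dvd_of_nsmul_eq_zero (hinj _ a ?_ ?_)
    · rw [smul_comm, ← hg, addOrderOf_nsmul_eq_zero, nsmul_zero]
    · rw [map_nsmul, addOrderOf_nsmul_eq_zero]
  refine ncard_le_radius_one hp (k := 1) (within_of fun g a hg hst =>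
    le_of_bad hp hco hbad hm (hord g a hg) (hθ.stab hst)) ?_
  refine (Set.ncard_le_one (level_finite hp E 1)).2 ?_
  rintro _ ⟨g, hg, hgst, rfl⟩ _ ⟨h, hh, hhst, rfl⟩
  by_contra hne
  refine false_of_independent hp hco hbad hm le_rfl (hord g 1 hg) (hθ.stab hgst) (hord h 1 hh)
    (hθ.stab hhst) (fun hmem => hne ?_) (le_refl 2)
  rw [Nat.sub_self, pow_zero, one_nsmul] at hmem
  obtain ⟨j, hj⟩ := AddSubgroup.mem_zmultiples_iff.1 hmem
  have h0 := hinj (h - j • g) 1 (by
    rw [nsmul_sub, smul_comm _ j, ← hh, addOrderOf_nsmul_eq_zero, hh, ← hg,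
      addOrderOf_nsmul_eq_zero, zsmul_zero, sub_zero]) (by rw [map_sub, map_zsmul, hj, sub_self])
  rw [sub_eq_zero] at h0
  rw [pow_one] at hg hh
  have hmem' : h ∈ AddSubgroup.zmultiples g := AddSubgroup.mem_zmultiples_iff.2 ⟨j, h0.symm⟩
  exact le_antisymm (AddSubgroup.zmultiples_le_of_mem (mem_of_mem_prime hp hg hmem'
    (ne_zero_of_order hp hh))) (AddSubgroup.zmultiples_le_of_mem hmem')

/-- The bound at `2` and `3` together. -/
theorem two_three_le : (lineSet E 2).ncard * (lineSet E 3).ncard ≤ 8 := by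
  by_cases h3 : HasStableOrder E 3
  swap
  · exact Nat.mul_le_mul (ncard_le_eight (m := 1) (by norm_num)
      (bad_of (by decide) (by decide) (by decide)) hasStableOrder_one)
      (ncard_le_one_of_not Nat.prime_three h3)
  by_cases hC : (lineSet E 3).ncard ≤ 2
  · exact Nat.mul_le_mul (ncard_le_four_two (m := 3) (by norm_num)
      (bad_of (by decide) (by decide) (by decide)) h3) hC
  suffices (lineSet E 2).ncard ≤ 2 ∧ (lineSet E 3).ncard ≤ 4 from
    (Nat.mul_le_mul this.1 this.2).trans (by norm_num)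
  refine ⟨?_, ?_⟩
  swap
  · exact ncard_le_four_three (m := 1) (by norm_num)
      (bad_of (by decide) (by decide) (by decide)) hasStableOrder_one
  have hb : Bad 2 1 9 := bad_of (by decide) (by decide) (by decide)
  by_cases h9 : HasStableOrder E 9
  · exact ncard_le_two Nat.prime_two (by norm_num) hb h9
  -- two lines of order `3`
  have hw : Within E 3 1 := within_of fun g a hg hst => by
    by_contra ha
    refine h9 (hasStableOrder_of_dvd ⟨g, hg, hst⟩ (by positivity) ?_)
    rw [show (9 : ℕ) = 3 ^ 2 by norm_num]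
    exact Nat.pow_dvd_pow 3 (by omega)
  have h2 : 1 < (level E 3 1).ncard := by
    have := ncard_le_radius_one Nat.prime_three hw (le_refl (level E 3 1).ncard)
    omega
  obtain ⟨_, _, ⟨g, hg, hgst, rfl⟩, ⟨h, hh, hhst, rfl⟩, hne⟩ :=
    (Set.one_lt_ncard_iff (level_finite Nat.prime_three E 1)).1 h2
  obtain ⟨E', hE', θ, hθ⟩ := exists_quot hgst (by rw [hg]; norm_num)
  obtain ⟨P, hP, htop⟩ := exists_lift Nat.prime_three le_rfl hg hh fun _ hmem => hne (by
    rw [Nat.sub_self, pow_zero, one_nsmul] at hmem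
    rw [pow_one] at hg hh
    exact le_antisymm (AddSubgroup.zmultiples_le_of_mem (mem_of_mem_prime Nat.prime_three hg hmem
      (ne_zero_of_order Nat.prime_three hh))) (AddSubgroup.zmultiples_le_of_mem hmem))
  obtain ⟨ho, hs, -⟩ := hθ.lift Nat.prime_three le_rfl hg hh hhst hP htop
  exact ncard_le_two_of_transfer (m := 9) hθ Nat.prime_two (by rw [hg]; norm_num) (by norm_num)
    hb ⟨θ P, ho, hs⟩

/-- Two primes carry everything, with product of counts at most eight. -/
theorem exists_pair : ∃ p q : ℕ, p.Prime ∧ q.Prime ∧ p ≠ q ∧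
    (∀ r ∈ primeList, HasStableOrder E r → r = p ∨ r = q) ∧
    (lineSet E p).Finite ∧ (lineSet E q).Finite ∧
    (lineSet E p).ncard * (lineSet E q).ncard ≤ 8 := by
  have hfin : ∀ p ∈ primeList, (lineSet E p).Finite := fun p hp =>
    lineSet_finite (prime_of_mem hp) (Nat.coprime_one_right p) (d := 5)
      (bad_of hp (by decide) (by revert p; decide)) hasStableOrder_one
  have hm : ∀ r ∈ primeList, r ∈ insert 1 (insert 9 primeList) := fun r hr =>
    Finset.mem_insert_of_mem (Finset.mem_insert_of_mem hr)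
  by_cases hbig : HasStableOrder E 11 ∨ HasStableOrder E 17 ∨ HasStableOrder E 19
  · obtain ⟨p, hp', hp⟩ : ∃ p ∈ ({11, 17, 19} : Finset ℕ), HasStableOrder E p := by
      rcases hbig with h | h | h
      exacts [⟨11, by decide, h⟩, ⟨17, by decide, h⟩, ⟨19, by decide, h⟩]
    have hpS : p ∈ primeList :=
      (show ({11, 17, 19} : Finset ℕ) ⊆ primeList by decide) hp'
    have hpq : ∀ r ∈ primeList, r ≠ p → ¬ HasStableOrder E r := fun r hr hne h =>
      not_pair hr hpS hne (by
        clear hpS hp h hfin hm hbig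
        revert r p
        decide) h hp
    have h2 : ¬ HasStableOrder E 2 := hpq 2 (by decide) (by rintro rfl; revert hp'; decide)
    refine ⟨p, 2, prime_of_mem hpS, Nat.prime_two, by rintro rfl; revert hp'; decide,
      fun r hr h => Or.inl (by_contra fun hne => hpq r hr hne h), hfin p hpS, hfin 2 (by decide),
      ?_⟩
    have hC := ncard_le_two (E := E) (prime_of_mem hpS) (Nat.coprime_one_right p)
      (bad_of (d := 1) hpS (by decide) ?_) hasStableOrder_one
    · exact (Nat.mul_le_mul hC (ncard_le_one_of_not Nat.prime_two h2)).trans (by norm_num)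
    clear hpS hp hpq hfin hm hbig
    revert p
    decide
  push Not at hbig
  obtain ⟨n11, n17, n19⟩ := hbig
  have hsmall : ∀ r ∈ primeList, HasStableOrder E r → r = 2 ∨ r = 3 ∨ r = 5 ∨ r = 7 := by
    intro r hr h
    simp only [primeList, Finset.mem_insert, Finset.mem_singleton] at hr
    rcases hr with rfl | rfl | rfl | rfl | rfl | rfl | rfl <;> tauto
  by_cases h7 : HasStableOrder E 7
  · have n5 : ¬ HasStableOrder E 5 := fun h =>
      not_pair (by decide) (by decide) (by norm_num) (by decide) h h7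
    have hC := ncard_le_two (by norm_num) (Nat.coprime_one_right 7)
      (bad_of (p := 7) (by decide) (by decide) (by decide)) (hasStableOrder_one (E := E))
    by_cases h2 : HasStableOrder E 2
    · exact ⟨7, 2, by norm_num, Nat.prime_two, by norm_num, fun r hr h => by
        rcases hsmall r hr h with rfl | rfl | rfl | rfl <;> try tauto
        exact (not_triple h2 h h7 (Or.inr rfl)).elim, hfin 7 (by decide),
        hfin 2 (by decide), (Nat.mul_le_mul hC (ncard_le_two Nat.prime_two (by norm_num)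
          (bad_of (by decide) (hm 7 (by decide)) (by decide)) h7)).trans (by norm_num)⟩
    · exact ⟨7, 3, by norm_num, Nat.prime_three, by norm_num, fun r hr h => by
        rcases hsmall r hr h with rfl | rfl | rfl | rfl <;> tauto, hfin 7 (by decide),
        hfin 3 (by decide), (Nat.mul_le_mul hC (ncard_le_two Nat.prime_three (by norm_num)
          (bad_of (by decide) (hm 7 (by decide)) (by decide)) h7)).trans (by norm_num)⟩
  by_cases h5 : HasStableOrder E 5
  · have hC := ncard_le_three Nat.prime_five (Nat.coprime_one_right 5) (u := 2) (by norm_num)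
      (by decide) (bad_of (by decide) (by decide) (by decide)) (hasStableOrder_one (E := E))
    by_cases h2 : HasStableOrder E 2
    · exact ⟨5, 2, Nat.prime_five, Nat.prime_two, by norm_num, fun r hr h => by
        rcases hsmall r hr h with rfl | rfl | rfl | rfl <;> try tauto
        exact (not_triple h2 h h5 (Or.inl rfl)).elim, hfin 5 (by decide),
        hfin 2 (by decide), (Nat.mul_le_mul hC (ncard_le_two Nat.prime_two (by norm_num)
          (bad_of (by decide) (hm 5 (by decide)) (by decide)) h5)).trans (by norm_num)⟩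
    · exact ⟨5, 3, Nat.prime_five, Nat.prime_three, by norm_num, fun r hr h => by
        rcases hsmall r hr h with rfl | rfl | rfl | rfl <;> tauto, hfin 5 (by decide),
        hfin 3 (by decide), (Nat.mul_le_mul hC (ncard_le_two Nat.prime_three (by norm_num)
          (bad_of (by decide) (hm 5 (by decide)) (by decide)) h5)).trans (by norm_num)⟩
  exact ⟨2, 3, Nat.prime_two, Nat.prime_three, by norm_num, fun r hr h => by
    rcases hsmall r hr h with rfl | rfl | rfl | rfl <;> tauto, hfin 2 (by decide),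
    hfin 3 (by decide), two_three_le⟩

end FA.ClassBound

namespace FA.Summary

open FA.ClassBound

variable (E : WeierstrassCurve ℚ) [E.IsElliptic] [inst : DecidableEq (AlgebraicClosure ℚ)]

/-- **Kenku's bound, on seven primes**: at most eight finite stable cyclic subgroups have orders
with primes among `2, 3, 5, 7, 11, 17, 19` only. -/
theorem cyclic_stable_subgroups_ncard_le_eight :
    {G : AddSubgroup (E.toAffine⁄(AlgebraicClosure ℚ)).Point | Nat.card G ≠ 0 ∧ IsAddCyclic G ∧
      (∀ p, p.Prime → p ∣ Nat.card G → p ∈ ({2, 3, 5, 7, 11, 17, 19} : Finset ℕ)) ∧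
      ∀ σ : AlgebraicClosure ℚ ≃ₐ[ℚ] AlgebraicClosure ℚ, ∀ P ∈ G,
        Affine.Point.map σ.toAlgHom P ∈ G}.Finite ∧
    {G : AddSubgroup (E.toAffine⁄(AlgebraicClosure ℚ)).Point | Nat.card G ≠ 0 ∧ IsAddCyclic G ∧
      (∀ p, p.Prime → p ∣ Nat.card G → p ∈ ({2, 3, 5, 7, 11, 17, 19} : Finset ℕ)) ∧
      ∀ σ : AlgebraicClosure ℚ ≃ₐ[ℚ] AlgebraicClosure ℚ, ∀ P ∈ G,
        Affine.Point.map σ.toAlgHom P ∈ G}.ncard ≤ 8 := by
  obtain rfl : inst = instDecEqAlgebraicClosureRat := Subsingleton.elim _ _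
  obtain ⟨p, q, hp, hq, hne, honly, hfp, hfq, hle⟩ := exists_pair (E := E)
  set T : Set (AddSubgroup (E.toAffine⁄(AlgebraicClosure ℚ)).Point) :=
    (fun w => w.1 ⊔ w.2) '' (lineSet E p ×ˢ lineSet E q)
  have hT : T.Finite := (hfp.prod hfq).image _
  have hT8 : T.ncard ≤ 8 := (Set.ncard_image_le (hfp.prod hfq)).trans (by
    rw [Set.ncard_prod]; exact hle)
  refine (fun hsub => ⟨hT.subset hsub, (Set.ncard_le_ncard hsub hT).trans hT8⟩) ?_
  rintro G ⟨hG0, hcyc, hprimes, hst⟩
  haveI := hcyc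
  obtain ⟨⟨g, hgG⟩, hgen⟩ := IsAddCyclic.exists_generator (α := G)
  have hg : addOrderOf g = Nat.card G := by
    rw [← AddSubgroup.addOrderOf_mk g hgG, addOrderOf_eq_card_of_forall_mem_zmultiples hgen]
  have hgst : Stab g := fun σ => by
    obtain ⟨c, hc⟩ := AddSubgroup.mem_zmultiples_iff.1 (hgen ⟨_, hst σ g hgG⟩)
    exact ⟨c, congrArg Subtype.val hc⟩
  have hGg : AddSubgroup.zmultiples g = G := le_antisymm (AddSubgroup.zmultiples_le_of_mem hgG)
    fun X hX => by
      obtain ⟨c, hc⟩ := AddSubgroup.mem_zmultiples_iff.1 (hgen ⟨X, hX⟩)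
      exact AddSubgroup.mem_zmultiples_iff.2 ⟨c, congrArg Subtype.val hc⟩
  set n := Nat.card G
  have hr : ∀ r, r.Prime → r ∣ n → r = p ∨ r = q := fun r hr hd => honly r (hprimes r hr hd)
    (FA.X0Composite.hasStableOrder_of_dvd ⟨g, hg, hgst⟩ hG0 hd)
  obtain ⟨a, n', hpn', hn⟩ := Nat.exists_eq_pow_mul_and_not_dvd hG0 p hp.ne_one
  have hn'0 : n' ≠ 0 := right_ne_zero_of_mul (hn ▸ hG0)
  obtain hn' := Nat.eq_prime_pow_of_unique_prime_dvd hn'0 (p := q) fun {r} hr' hd =>
    (hr r hr' (hn ▸ hd.mul_left _)).resolve_left fun e => hpn' (e ▸ hd)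
  set b := n'.primeFactorsList.length
  refine ⟨(AddSubgroup.zmultiples (q ^ b • g), AddSubgroup.zmultiples (p ^ a • g)),
    ⟨⟨a, _, ?_, hgst.nsmul _, rfl⟩, ⟨b, _, ?_, hgst.nsmul _, rfl⟩⟩, ?_⟩
  · rw [addOrderOf_nsmul' _ (pow_ne_zero b hq.ne_zero), hg, hn, hn',
      Nat.gcd_eq_right (dvd_mul_left _ _), Nat.mul_div_cancel _ (pow_pos hq.pos b)]
  · rw [addOrderOf_nsmul' _ (pow_ne_zero a hp.ne_zero), hg, hn, hn',
      Nat.gcd_eq_right (dvd_mul_right _ _), Nat.mul_div_cancel_left _ (pow_pos hp.pos a)]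
  refine le_antisymm (sup_le (AddSubgroup.zmultiples_le_of_mem (nsmul_mem hgG _))
    (AddSubgroup.zmultiples_le_of_mem (nsmul_mem hgG _))) ?_
  rw [← hGg]
  refine AddSubgroup.zmultiples_le_of_mem ?_
  obtain ⟨u, v, huv⟩ := Nat.isCoprime_iff_coprime.2
    (((Nat.coprime_primes hq hp).2 hne.symm).pow b a)
  have key : u • (q ^ b • g) + v • (p ^ a • g) = g := by
    rw [← natCast_zsmul, ← natCast_zsmul, ← mul_zsmul, ← mul_zsmul, ← add_zsmul, huv, one_zsmul]
  show g ∈ AddSubgroup.zmultiples (q ^ b • g) ⊔ AddSubgroup.zmultiples (p ^ a • g)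
  refine Eq.mp (congrArg (· ∈ _) key) ?_
  exact add_mem (AddSubgroup.mem_sup_left (zsmul_mem (AddSubgroup.mem_zmultiples _) _))
    (AddSubgroup.mem_sup_right (zsmul_mem (AddSubgroup.mem_zmultiples _) _))

omit E in
/-- **The bound is attained**: by a curve with rational torsion `ℤ/2 × ℤ/6`. -/
theorem exists_eight_cyclic_stable_subgroups :
    ∃ (E : WeierstrassCurve ℚ) (_ : E.IsElliptic),
    {G : AddSubgroup (E.toAffine⁄(AlgebraicClosure ℚ)).Point | Nat.card G ≠ 0 ∧ IsAddCyclic G ∧
      (∀ p, p.Prime → p ∣ Nat.card G → p ∈ ({2, 3, 5, 7, 11, 17, 19} : Finset ℕ)) ∧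
      ∀ σ : AlgebraicClosure ℚ ≃ₐ[ℚ] AlgebraicClosure ℚ, ∀ P ∈ G,
        Affine.Point.map σ.toAlgHom P ∈ G}.ncard = 8 := by
  obtain rfl : inst = instDecEqAlgebraicClosureRat := Subsingleton.elim _ _
  obtain ⟨E, hE, ⟨φ⟩⟩ := FA.Torsion.isTorsionGroup_2x6
  refine ⟨E, hE, le_antisymm (cyclic_stable_subgroups_ncard_le_eight E).2 ?_⟩
  let ι : ZMod 2 × ZMod 6 →+ (E.toAffine⁄Qb).Point :=
    ((Affine.Point.map (W' := E.toAffine) (Algebra.ofId ℚ Qb)).comp
      (AddCommGroup.torsion E.toAffine.Point).subtype).comp φ.symm.toAddMonoidHom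
  have hι : Function.Injective ι :=
    ((Affine.Point.map_injective (f := Algebra.ofId ℚ Qb)).comp Subtype.val_injective).comp
      φ.symm.injective
  set S : Finset (ZMod 2 × ZMod 6) :=
    {(0, 0), (1, 0), (0, 3), (1, 3), (0, 2), (1, 2), (0, 1), (1, 1)} with hS
  have hinj : Set.InjOn (fun v => AddSubgroup.zmultiples (ι v)) (S : Set (ZMod 2 × ZMod 6)) := by
    intro v hv w hw he
    have hmem : ∀ {a b : ZMod 2 × ZMod 6}, ι a ∈ AddSubgroup.zmultiples (ι b) →
        ∃ i : Fin 6, (i : ℕ) • b = a := fun {a b} h => by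
      obtain ⟨k, hk⟩ := AddSubgroup.mem_zmultiples_iff.1 h
      rw [← map_zsmul] at hk
      have h6 : (6 : ℤ) • b = 0 := (by decide : ∀ b : ZMod 2 × ZMod 6, (6 : ℤ) • b = 0) b
      refine ⟨⟨(k % 6).toNat, by omega⟩, ?_⟩
      rw [← hι hk]
      show (k % 6).toNat • b = k • b
      rw [← natCast_zsmul, Int.toNat_of_nonneg (Int.emod_nonneg _ (by norm_num))]
      conv_rhs => rw [← Int.emod_add_mul_ediv k 6, add_zsmul, mul_comm, mul_zsmul, h6, zsmul_zero,
        add_zero]
    obtain ⟨i, hi⟩ := hmem (a := v) (b := w) (by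
      simp only at he
      rw [← he]; exact AddSubgroup.mem_zmultiples _)
    obtain ⟨j, hj⟩ := hmem (a := w) (b := v) (by
      simp only at he
      rw [he]; exact AddSubgroup.mem_zmultiples _)
    exact (show ∀ v ∈ S, ∀ w ∈ S, ∀ i j : Fin 6, (i : ℕ) • w = v → (j : ℕ) • v = w → v = w by
      decide +kernel) v hv w hw i j hi hj
  calc 8 = (S : Set (ZMod 2 × ZMod 6)).ncard := by rw [Set.ncard_coe_finset]; rfl
    _ ≤ _ := Set.ncard_le_ncard_of_injOn _ (fun v _ => ?_) hinj
        (cyclic_stable_subgroups_ncard_le_eight E).1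
  have hd : addOrderOf v ∣ 6 := addOrderOf_dvd_of_nsmul_eq_zero
    ((by decide : ∀ v : ZMod 2 × ZMod 6, (6 : ℕ) • v = 0) v)
  refine ⟨?_, inferInstance, fun p hp hd' => ?_, fun σ P hP => ?_⟩
  · rw [Nat.card_zmultiples, addOrderOf_injective ι hι]
    intro h0
    rw [h0] at hd
    norm_num at hd
  · rw [Nat.card_zmultiples, addOrderOf_injective ι hι] at hd'
    rcases (Nat.Prime.dvd_mul hp).1 (show p ∣ 2 * 3 from hd'.trans hd) with h | h <;>
      rw [(Nat.prime_dvd_prime_iff_eq hp (by norm_num)).1 h] <;> decide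
  · obtain ⟨k, rfl⟩ := AddSubgroup.mem_zmultiples_iff.1 hP
    refine AddSubgroup.mem_zmultiples_iff.2 ⟨k, ?_⟩
    rw [map_zsmul]
    congr 1
    change Affine.Point.map (W' := E.toAffine) (Algebra.ofId ℚ Qb) _ = Affine.Point.map σ.toAlgHom
      (Affine.Point.map (W' := E.toAffine) (Algebra.ofId ℚ Qb) _)
    rw [Affine.Point.map_map]
    congr 2
    exact Subsingleton.elim _ _

end FA.Summary

end
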