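import Fermat.Agent.CubicFieldsBound.Count

/-!
# Cubic fields of given discriminant

* `descent_element_iso`: a cubic field has a generator with `τ³ - 3 h τ + T = 0` and
  `T² - 9 (g a)² m = 4 h³`, `-3 d = g² m`; if the elements `4 T + 12 g a √m` of two such fields
  agree up to a cube of `ℚ[√m]`, the fields are isomorphic;
* `cubic_fields_by_resolvent`: the pairwise non-isomorphic cubic fields ramified only in `S` with
  `-3 d` in the class of a non-square `m` number at most `9 · 81 ^ (#S + 2) #Cl(ℚ(√m))[3]`;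
* `cubic_fields_ramified_in`: there are `O_ε ((∏ S) ^ (1/3 + ε))` cubic fields ramified only in
  `S`, uniformly in `S`;
* `cubic_fields_of_discriminant`: there are `O_ε (|d| ^ (1/3 + ε))` cubic fields of discriminant
  `d`, which is the result of Ellenberg and Venkatesh;
* `cubic_field_example`: there is a cubic field, so the bounds are not about an empty family.

The exponent of Helfgott and Venkatesh below `1/3` and explicit constants are not claimed; the
constants are ineffective (Siegel–Walfisz). Independent of S01.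
-/

set_option autoImplicit false
set_option linter.style.haveILetI false

noncomputable section

open NumberField Module
open FA.MordellAverage (SqAlg)
open scoped IntermediateField

namespace FA.CubicFieldsBound.Summary

/-- **The descent element determines the field.** -/
theorem descent_element_iso (L L' : Type) [Field L] [NumberField L] [Field L'] [NumberField L']
    (hL : finrank ℚ L = 3) (hL' : finrank ℚ L' = 3) {P : Finset ℕ} {g g' m : ℤ} (h3 : 3 ∈ P)
    (hP : ∀ p : ℕ, p.Prime → (p : ℤ) ∣ discr L → p ∈ P)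
    (hP' : ∀ p : ℕ, p.Prime → (p : ℤ) ∣ discr L' → p ∈ P)
    (hgm : -3 * discr L = g ^ 2 * m) (hgm' : -3 * discr L' = g' ^ 2 * m) :
    ∃ (R : Resolvent L P m) (R' : Resolvent L' P m), R.g = g ∧ R'.g = g' ∧
      ∀ w : SqAlg (m : ℚ), R'.val = R.val * w ^ 3 → Nonempty (L' ≃+* L) := by
  obtain ⟨R, hR⟩ := exists_resolvent L hL h3 hP hgm
  obtain ⟨R', hR'⟩ := exists_resolvent L' hL' h3 hP' hgm'
  exact ⟨R, R', hR, hR', fun w e => nonempty_ringEquiv R R' hL hL' w e⟩

/-- **The fields of one resolvent against its three-torsion.** -/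
theorem cubic_fields_by_resolvent (S : Finset ℕ) (hS : ∀ p ∈ S, p.Prime) (m : ℤ) (K : Type)
    [Field K] [NumberField K] (hK : finrank ℚ K = 2) (hm : ¬ IsSquare m) (s : K)
    (hs : s ^ 2 = (m : K)) (ι : Type) (L : ι → Type) [∀ i, Field (L i)] [∀ i, NumberField (L i)]
    (h3 : ∀ i, finrank ℚ (L i) = 3)
    (hd : ∀ i, ∀ p : ℕ, p.Prime → (p : ℤ) ∣ discr (L i) → p ∈ S)
    (hclass : ∀ i, ∃ g : ℤ, -3 * discr (L i) = g ^ 2 * m)
    (hne : ∀ i j, Nonempty (L i ≃+* L j) → i = j) :
    Finite ι ∧ Nat.card ι ≤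
      9 * 81 ^ (S.card + 2) * Nat.card {c : ClassGroup (𝓞 K) // c ^ 3 = 1} := by
  choose g hg using hclass
  choose R _ using fun i => exists_resolvent (L i) (h3 i)
    (P := FA.BrumerSilverman.withSix S) (by simp)
    (fun p hp h => Finset.mem_union_left _ (hd i p hp h)) (hg i)
  have hm' : ¬ IsSquare (m : ℚ) := fun h => hm (Rat.isSquare_intCast_iff.mp h)
  exact fields_le_of_lift hS hK.le s (by simpa using hs)
    (FA.BrumerSilverman.cubeLift_quadratic hK hm' s (by simpa using hs)) R h3 hne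

/-- **Cubic fields ramified in a finite set of primes.** -/
theorem cubic_fields_ramified_in {ε : ℝ} (hε : 0 < ε) :
    ∃ C : ℝ, 0 ≤ C ∧ ∀ S : Finset ℕ, (∀ p ∈ S, p.Prime) →
    ∀ (ι : Type) (L : ι → Type) [∀ i, Field (L i)] [∀ i, NumberField (L i)],
      (∀ i, finrank ℚ (L i) = 3) →
      (∀ i, ∀ p : ℕ, p.Prime → (p : ℤ) ∣ discr (L i) → p ∈ S) →
      (∀ i j, Nonempty (L i ≃+* L j) → i = j) →
      Finite ι ∧ (Nat.card ι : ℝ) ≤ C * ((∏ p ∈ S, p : ℕ) : ℝ) ^ (1 / 3 + ε) :=
  exists_fields_bound_of (by norm_num) FA.ThreeTorsionBound.torsionExponent_third hε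

/-- **Cubic fields of given discriminant.** -/
theorem cubic_fields_of_discriminant {ε : ℝ} (hε : 0 < ε) :
    ∃ C : ℝ, 0 ≤ C ∧ ∀ d : ℤ, d ≠ 0 →
    ∀ (ι : Type) (L : ι → Type) [∀ i, Field (L i)] [∀ i, NumberField (L i)],
      (∀ i, finrank ℚ (L i) = 3) → (∀ i, discr (L i) = d) →
      (∀ i j, Nonempty (L i ≃+* L j) → i = j) →
      Finite ι ∧ (Nat.card ι : ℝ) ≤ C * |(d : ℝ)| ^ (1 / 3 + ε) := by
  obtain ⟨C, hC, h⟩ := cubic_fields_ramified_in hε
  refine ⟨C, hC, fun d hd ι L _ _ h3 hdisc hne => ?_⟩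
  obtain ⟨hfin, hle⟩ := h d.natAbs.primeFactors (fun p hp => Nat.prime_of_mem_primeFactors hp)
    ι L h3 (fun i p hp hpd => Nat.mem_primeFactors.mpr
      ⟨hp, Int.natCast_dvd.mp (hdisc i ▸ hpd), Int.natAbs_ne_zero.mpr hd⟩) hne
  refine ⟨hfin, hle.trans (mul_le_mul_of_nonneg_left
    (Real.rpow_le_rpow (Nat.cast_nonneg _) ?_ (by positivity)) hC)⟩
  rw [show |(d : ℝ)| = ((d.natAbs : ℕ) : ℝ) by rw [Nat.cast_natAbs, Int.cast_abs]]
  exact Nat.cast_le.mpr (Nat.le_of_dvd (Int.natAbs_pos.mpr hd) (Nat.prod_primeFactors_dvd _))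

/-- **There is a cubic field.** -/
theorem cubic_field_example :
    ∃ (L : Type) (_ : Field L) (_ : NumberField L), finrank ℚ L = 3 := by
  obtain ⟨s, hs⟩ := IsAlgClosed.exists_pow_nat_eq ((2 : ℂ)) (show 0 < 3 by norm_num)
  have hirr : Irreducible (Polynomial.X ^ 3 - Polynomial.C (2 : ℚ)) :=
    X_pow_sub_C_irreducible_of_prime Nat.prime_three fun b hb => by
      have h := congrArg (padicValRat 2) hb
      rw [padicValRat.pow, show padicValRat 2 (2 : ℚ) = 1 by
        exact_mod_cast padicValRat.self (p := 2) one_lt_two] at h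
      omega
  have hint : IsIntegral ℚ s := IsIntegral.of_pow (n := 3) (by norm_num) (hs ▸ by
    simpa using (isIntegral_algebraMap (R := ℚ) (x := (2 : ℚ)) (A := ℂ)))
  have hmin : minpoly ℚ s = Polynomial.X ^ 3 - Polynomial.C (2 : ℚ) :=
    (minpoly.eq_of_irreducible_of_monic hirr (by simp [hs])
      (Polynomial.monic_X_pow_sub_C _ (by norm_num))).symm
  haveI hfd : FiniteDimensional ℚ ℚ⟮s⟯ := IntermediateField.adjoin.finiteDimensional hint
  exact ⟨ℚ⟮s⟯, inferInstance, @NumberField.mk _ _ inferInstance hfd, by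
    rw [IntermediateField.adjoin.finrank hint, hmin, Polynomial.natDegree_X_pow_sub_C]⟩

end FA.CubicFieldsBound.Summary
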