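import Fermat.Agent.QuadFormsNF.Main

/-!
# The theorem of Hasse and Minkowski over number fields

For a number field `K`, with its completions at the primes and its real embeddings:

* `hasse_minkowski_numberField`: a quadratic form, in any number of variables and given by any
  matrix, has a non-trivial zero in `K` iff it has one in every completion and in `ℝ` under every
  real embedding (at the complex places there is no condition from two variables on);
* `hasse_minkowski_numberField_diagonal`: the same for diagonal forms;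
* `representation_numberField`: a number is represented by a non-degenerate diagonal form iff it is
  so in all completions.

No classification of forms over the completions is claimed.
-/

set_option autoImplicit false
set_option linter.style.haveILetI false

noncomputable section

universe u

open NumberField IsDedekindDomain Matrix Finset
open scoped Classical

namespace FA.QuadFormsNF

open FA.QuadForms (Isotropic isotropic_option_iff)

theorem isotropic_option_map_iff {K F : Type*} [Field K] [Field F] [CharZero F] {ι : Type*}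
    [Fintype ι] {a : ι → K} (ha : ∀ i, a i ≠ 0) {q : K} (f : K →+* F) :
    Isotropic (fun o : Option ι => f (o.elim (-q) a)) ↔
      ∃ x : ι → F, ∑ i, f (a i) * x i ^ 2 = f q := by
  rw [show (fun o : Option ι => f (o.elim (-q) a)) =
    fun o : Option ι => o.elim (-(f q)) (fun i => f (a i)) by funext o; cases o <;> simp]
  exact isotropic_option_iff fun i => (map_ne_zero f).2 (ha i)

end FA.QuadFormsNF

namespace FA.Summary

open FA.QuadForms (Isotropic isotropic_option_iff)
open FA.QuadFormsNF

variable {K : Type u} [Field K] [NumberField K]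

/-- **The theorem of Hasse and Minkowski over a number field**, for diagonal forms. -/
theorem hasse_minkowski_numberField_diagonal {ι : Type*} [Fintype ι] (a : ι → K) :
    (∃ x : ι → K, x ≠ 0 ∧ ∑ i, a i * x i ^ 2 = 0) ↔
      (∀ v : HeightOneSpectrum (𝓞 K), ∃ x : ι → v.adicCompletion K,
        x ≠ 0 ∧ ∑ i, algebraMap K (v.adicCompletion K) (a i) * x i ^ 2 = 0) ∧
      ∀ φ : K →+* ℝ, ∃ x : ι → ℝ, x ≠ 0 ∧ ∑ i, φ (a i) * x i ^ 2 = 0 :=
  isotropic_iff_local a

/-- **The theorem of Hasse and Minkowski over a number field.** -/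
theorem hasse_minkowski_numberField {n : Type*} [Fintype n] [DecidableEq n] (M : Matrix n n K) :
    (∃ x : n → K, x ≠ 0 ∧ x ⬝ᵥ M *ᵥ x = 0) ↔
      (∀ v : HeightOneSpectrum (𝓞 K), ∃ x : n → v.adicCompletion K,
        x ≠ 0 ∧ x ⬝ᵥ (M.map (algebraMap K (v.adicCompletion K))) *ᵥ x = 0) ∧
      ∀ φ : K →+* ℝ, ∃ x : n → ℝ, x ≠ 0 ∧ x ⬝ᵥ (M.map φ) *ᵥ x = 0 := by
  obtain ⟨d, w, P, R, hRP, hPR, hM⟩ := exists_diagonalisation_NF M
  have h0 : (∃ x : n → K, x ≠ 0 ∧ x ⬝ᵥ M *ᵥ x = 0) ↔ Isotropic w := by
    have h := matrixIsotropicAt_iff hRP hPR hM (RingHom.id K) two_ne_zero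
    unfold MatrixIsotropicAt at h
    simpa using h
  rw [h0, isotropic_iff_local]
  exact ⟨fun h => ⟨fun v => (matrixIsotropicAt_iff hRP hPR hM _ (two_ne_zero_completion v)).2 (h.1 v),
      fun φ => (matrixIsotropicAt_iff hRP hPR hM φ two_ne_zero).2 (h.2 φ)⟩,
    fun h => ⟨fun v => (matrixIsotropicAt_iff hRP hPR hM _ (two_ne_zero_completion v)).1 (h.1 v),
      fun φ => (matrixIsotropicAt_iff hRP hPR hM φ two_ne_zero).1 (h.2 φ)⟩⟩

/-- **Representation** is decided in the completions. -/
theorem representation_numberField {ι : Type*} [Fintype ι] {a : ι → K} (ha : ∀ i, a i ≠ 0) (q : K) :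
    (∃ x : ι → K, ∑ i, a i * x i ^ 2 = q) ↔
      (∀ v : HeightOneSpectrum (𝓞 K), ∃ x : ι → v.adicCompletion K,
        ∑ i, algebraMap K (v.adicCompletion K) (a i) * x i ^ 2 =
          algebraMap K (v.adicCompletion K) q) ∧
      ∀ φ : K →+* ℝ, ∃ x : ι → ℝ, ∑ i, φ (a i) * x i ^ 2 = φ q := by
  rw [← isotropic_option_iff ha, isotropic_iff_local]
  refine ⟨fun h => ⟨fun v => ?_, fun φ => (isotropic_option_map_iff ha φ).1 (h.2 φ)⟩,
    fun h => ⟨fun v => ?_, fun φ => (isotropic_option_map_iff ha φ).2 (h.2 φ)⟩⟩
  · haveI := charZero_completion v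
    exact (isotropic_option_map_iff ha _).1 (h.1 v)
  · haveI := charZero_completion v
    exact (isotropic_option_map_iff ha _).2 (h.1 v)

end FA.Summary

end
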