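import Fermat.Agent.FreeGenerators.Disjoint
import Fermat.Agent.FreeGenerators.Measure
import Fermat.Agent.Local.Minkowski

/-!
# Jarden's free generators theorem

* `symmetricPower_galois_numberField`: for `n ≥ 5` every power of `Sₙ` is a Galois group over every
  number field;
* `freeGenerators`: for almost all `e`-tuples in the absolute Galois group of a number field, for
  any invariant probability, the closed subgroup generated is free profinite of rank `e`: every
  tuple in a finite group is the image of this one under a continuous homomorphism;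
* `freeGenerators_quotients`, `freeGenerators_orderOf`: so every finite group with `e` generators is
  a Galois group over the fixed field of almost every tuple, and the members have infinite order;
* `freeGenerators_exists`: such tuples exist.

Classical (Jarden 1974, after Ax).
-/

set_option autoImplicit false

noncomputable section

local notation "Qb" => AlgebraicClosure ℚ
local notation "GQ" => AlgebraicClosure ℚ ≃ₐ[ℚ] AlgebraicClosure ℚ

namespace FA.Summary

open Fermat.Agent MeasureTheory

variable (F : IntermediateField ℚ Qb) [FiniteDimensional ℚ F]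

/-- **Powers of symmetric groups are Galois groups over every number field.** -/
theorem symmetricPower_galois_numberField {n : ℕ} (hn : 5 ≤ n) (m : ℕ) :
    ∃ Ψ : F.fixingSubgroup →* (Fin m → Equiv.Perm (Fin n)),
      Function.Surjective Ψ ∧ IsOpen (Ψ.ker : Set F.fixingSubgroup) := by
  obtain ⟨Ψ, hΨo, hΨ⟩ := FreeGenerators.exists_perm_pow_numberField hn m F
  refine ⟨Ψ.comp F.fixingSubgroup.subtype, fun x => ?_, ?_⟩
  · obtain ⟨σ, hσ, hσx⟩ := hΨ x
    exact ⟨⟨σ, hσ⟩, hσx⟩
  · rw [← MonoidHom.comap_ker, Subgroup.coe_comap]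
    exact hΨo.preimage continuous_subtype_val

/-- The closed subgroup generated by a tuple in the absolute Galois group of a number field. -/
abbrev generatedSubgroup {e : ℕ} (σ : Fin e → F.fixingSubgroup) : Subgroup F.fixingSubgroup :=
  (Subgroup.closure (Set.range σ)).topologicalClosure

omit [FiniteDimensional ℚ F] in
theorem mem_generatedSubgroup {e : ℕ} (σ : Fin e → F.fixingSubgroup) (i : Fin e) :
    σ i ∈ generatedSubgroup F σ :=
  Subgroup.le_topologicalClosure _ (Subgroup.subset_closure ⟨i, rfl⟩)

variable {e : ℕ} [MeasurableSpace (Fin e → F.fixingSubgroup)]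
  [BorelSpace (Fin e → F.fixingSubgroup)] (μ : Measure (Fin e → F.fixingSubgroup))
  [IsProbabilityMeasure μ] [μ.IsMulLeftInvariant]

/-- **Jarden's free generators theorem.** -/
theorem freeGenerators :
    ∀ᵐ σ ∂μ, ∀ (G : Type) [Group G] [Finite G] (g : Fin e → G),
      ∃ φ : generatedSubgroup F σ →* G, IsOpen (φ.ker : Set (generatedSubgroup F σ)) ∧
        ∀ i, φ ⟨σ i, mem_generatedSubgroup F σ i⟩ = g i := by
  classical
  have key : ∀ (n : ℕ) (g : Fin e → Equiv.Perm (Fin (n + 5))), ∀ᵐ σ ∂μ,
      ∃ ψ : F.fixingSubgroup →* Equiv.Perm (Fin (n + 5)),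
        IsOpen (ψ.ker : Set F.fixingSubgroup) ∧ ∀ i, ψ (σ i) = g i := fun n g => by
    refine FreeGenerators.ae_exists_value μ g _ fun m => ?_
    obtain ⟨Ψ, hΨ, hΨo⟩ := symmetricPower_galois_numberField F (n := n + 5) (by omega) m
    let Φ : (Fin e → F.fixingSubgroup) →* (Fin m → Fin e → Equiv.Perm (Fin (n + 5))) :=
      MonoidHom.mk' (fun σ i j => Ψ (σ j) i) fun σ τ => by
        funext i j
        simp
    refine ⟨Φ, fun x => ?_, ?_, fun σ i h => ⟨(Pi.evalMonoidHom _ i).comp Ψ,
      Subgroup.isOpen_mono (fun s hs => ?_) hΨo, fun j => congrFun h j⟩⟩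
    · choose σ hσ using fun j => hΨ fun i => x i j
      exact ⟨σ, funext fun i => funext fun j => congrFun (hσ j) i⟩
    · have hker : (Φ.ker : Set (Fin e → F.fixingSubgroup)) =
          Set.pi Set.univ fun _ => (Ψ.ker : Set F.fixingSubgroup) := by
        ext σ
        simp only [SetLike.mem_coe, MonoidHom.mem_ker, Set.mem_univ_pi]
        exact ⟨fun h j => funext fun i => congrFun (congrFun h i) j,
          fun h => funext fun i => funext fun j => congrFun (h j) i⟩
      rw [hker]
      exact isOpen_set_pi Set.finite_univ fun _ _ => hΨo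
    · rw [MonoidHom.mem_ker] at hs ⊢
      rw [MonoidHom.comp_apply, hs, map_one]
  filter_upwards [ae_all_iff.2 fun n => ae_all_iff.2 (key n)] with σ hσ
  intro G _ _ g
  obtain ⟨emb⟩ : Nonempty (G ↪ Fin (Nat.card G + 5)) :=
    ⟨(Finite.equivFin G).toEmbedding.trans (Fin.castLEEmb (by omega))⟩
  let ι : G →* Equiv.Perm (Fin (Nat.card G + 5)) :=
    (Equiv.Perm.viaEmbeddingHom emb).comp (MulAction.toPermHom G G)
  have hι : Function.Injective ι :=
    (Equiv.Perm.viaEmbeddingHom_injective emb).comp MulAction.toPerm_injective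
  obtain ⟨ψ, hψo, hψ⟩ := hσ _ (ι ∘ g)
  have hle : generatedSubgroup F σ ≤ ι.range.comap ψ := by
    have hopen : IsOpen ((ι.range.comap ψ : Subgroup F.fixingSubgroup) : Set F.fixingSubgroup) :=
      Subgroup.isOpen_mono (fun s hs => by
        rw [Subgroup.mem_comap, MonoidHom.mem_ker.1 hs]
        exact one_mem _) hψo
    refine Subgroup.topologicalClosure_minimal _ ((Subgroup.closure_le _).2 ?_)
      (Subgroup.isClosed_of_isOpen _ hopen)
    rintro _ ⟨i, rfl⟩
    exact ⟨g i, (hψ i).symm⟩
  let ψ' : generatedSubgroup F σ →* ι.range :=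
    (ψ.comp (Subgroup.subtype _)).codRestrict ι.range fun x => hle x.2
  refine ⟨(MonoidHom.ofInjective hι).symm.toMonoidHom.comp ψ', ?_, fun i => ?_⟩
  · refine Subgroup.isOpen_mono (H₁ := ψ.ker.comap (Subgroup.subtype _)) (fun x hx => ?_)
      (hψo.preimage continuous_subtype_val)
    rw [MonoidHom.mem_ker, MonoidHom.comp_apply, MulEquiv.coe_toMonoidHom,
      map_eq_one_iff _ (MulEquiv.injective _)]
    exact Subtype.ext hx
  · exact (MonoidHom.ofInjective hι).symm_apply_eq.2 (Subtype.ext (hψ i))

/-- **Every finite group with `e` generators** is a quotient of almost every such subgroup. -/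
theorem freeGenerators_quotients :
    ∀ᵐ σ ∂μ, ∀ (G : Type) [Group G] [Finite G] (g : Fin e → G),
      Subgroup.closure (Set.range g) = ⊤ →
      ∃ φ : generatedSubgroup F σ →* G, Function.Surjective φ ∧
        IsOpen (φ.ker : Set (generatedSubgroup F σ)) := by
  filter_upwards [freeGenerators F μ] with σ hσ
  intro G _ _ g hg
  obtain ⟨φ, hφ, hval⟩ := hσ G g
  refine ⟨φ, MonoidHom.range_eq_top.1 (eq_top_iff.2 (hg ▸ (Subgroup.closure_le _).2 ?_)), hφ⟩
  rintro _ ⟨i, rfl⟩
  exact ⟨_, hval i⟩

/-- The members of almost every tuple have infinite order. -/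
theorem freeGenerators_orderOf : ∀ᵐ σ ∂μ, ∀ i, orderOf (σ i) = 0 := by
  filter_upwards [freeGenerators F μ] with σ hσ i
  by_contra h
  obtain ⟨φ, -, hφ⟩ := hσ (Multiplicative (ZMod (orderOf (σ i) + 1)))
    fun _ => Multiplicative.ofAdd 1
  have hx : (⟨σ i, mem_generatedSubgroup F σ i⟩ : generatedSubgroup F σ) ^ orderOf (σ i) = 1 :=
    Subtype.ext (pow_orderOf_eq_one (σ i))
  have h1 := congrArg φ hx
  rw [map_one φ, map_pow, hφ, ← ofAdd_nsmul, nsmul_one, ofAdd_eq_one,
    ZMod.natCast_eq_zero_iff] at h1
  exact absurd (Nat.le_of_dvd (Nat.pos_of_ne_zero h) h1) (by omega)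

omit μ in
/-- **Such tuples exist** in the absolute Galois group of every number field. -/
theorem freeGenerators_exists (e : ℕ) :
    ∃ σ : Fin e → F.fixingSubgroup, (∀ i, orderOf (σ i) = 0) ∧
      ∀ (G : Type) [Group G] [Finite G] (g : Fin e → G),
        ∃ φ : generatedSubgroup F σ →* G, IsOpen (φ.ker : Set (generatedSubgroup F σ)) ∧
          ∀ i, φ ⟨σ i, mem_generatedSubgroup F σ i⟩ = g i := by
  have : IsGalois ℚ Qb := FA.Local.isGalois_qbar
  have : CompactSpace F.fixingSubgroup := isCompact_iff_compactSpace.1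
    (F.fixingSubgroup.isClosed_of_isOpen (IntermediateField.fixingSubgroup_isOpen F)).isCompact
  let _ : MeasurableSpace (Fin e → F.fixingSubgroup) := borel _
  have : BorelSpace (Fin e → F.fixingSubgroup) := ⟨rfl⟩
  let K : TopologicalSpace.PositiveCompacts (Fin e → F.fixingSubgroup) := ⊤
  let ν := Measure.haarMeasure K
  have : IsProbabilityMeasure ν := ⟨by
    have h := Measure.haarMeasure_self (K₀ := K)
    exact h⟩
  obtain ⟨σ, h1, h2⟩ := ((freeGenerators_orderOf F ν).and (freeGenerators F ν)).exists
  exact ⟨σ, h1, h2⟩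

end FA.Summary
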