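import Fermat.Agent.PseudoAlgClosed.Specialise
import Fermat.Agent.PseudoAlgClosed.Measure
import Fermat.Agent.Root.SummaryFreeGenerators

/-!
# The theorem of Ax and Jarden

* `hilbertIrreducibility_numberField`: Hilbert irreducibility over every number field for absolutely
  irreducible monic polynomials, with rational integral parameters;
* `pseudoAlgClosed_ae`: for almost all `e`-tuples in the absolute Galois group of a number field the
  fixed field is pseudo algebraically closed: absolutely irreducible curves over it have points in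
  it with first coordinate outside any finite set;
* `pseudoAlgClosed_free`: and its absolute Galois group, generated as a topological group by the
  tuple, is free profinite on it;
* `pseudoFinite_ae`, `pseudoFinite_exists`: so for almost all single elements the fixed field is
  pseudo algebraically closed with exactly one extension of each degree, and such fields exist.

Classical (Ax 1968, Jarden 1972).
-/

set_option autoImplicit false

noncomputable section

local notation "Qb" => AlgebraicClosure ℚ
local notation "GQ" => AlgebraicClosure ℚ ≃ₐ[ℚ] AlgebraicClosure ℚ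

namespace Fermat.Agent.PseudoAlgClosed

open Polynomial
open scoped Polynomial

/-- A subfield of `ℚ̄` is pseudo algebraically closed if every absolutely irreducible plane curve
over it has a point rational over it with abscissa outside any given finite set. -/
def IsPseudoAlgClosed (F : IntermediateField ℚ Qb) : Prop :=
  ∀ f : (↥F)[X][X], Irreducible (f.map (mapRingHom (algebraMap F Qb))) → f.natDegree ≠ 0 →
    ∀ S : Finset F, ∃ x, x ∉ S ∧ ∃ y, (f.map (evalRingHom x)).IsRoot y

variable {K : IntermediateField ℚ Qb} {e : ℕ}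

/-- The common fixed field of a tuple. -/
def tupleFixedField (σ : Fin e → K.fixingSubgroup) : IntermediateField ℚ Qb :=
  IntermediateField.fixedField (Subgroup.closure (Set.range fun i => (σ i : GQ)))

theorem mem_tupleFixedField (σ : Fin e → K.fixingSubgroup) (x : Qb) :
    x ∈ tupleFixedField σ ↔ ∀ i, (σ i : GQ) x = x := by
  rw [tupleFixedField, IntermediateField.mem_fixedField_iff]
  refine ⟨fun h i => h _ (Subgroup.subset_closure ⟨i, rfl⟩), fun h g hg => ?_⟩
  exact (Subgroup.closure_le (MulAction.stabilizer GQ x)).2 (by rintro _ ⟨i, rfl⟩; exact h i) hg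

theorem fixingSubgroup_tupleFixedField (σ : Fin e → K.fixingSubgroup) :
    (tupleFixedField σ).fixingSubgroup =
      (Subgroup.closure (Set.range fun i => (σ i : GQ))).topologicalClosure := by
  have : IsGalois ℚ Qb := FA.Local.isGalois_qbar
  set H := Subgroup.closure (Set.range fun i => (σ i : GQ))
  have h : IntermediateField.fixedField H.topologicalClosure = tupleFixedField σ := by
    refine le_antisymm ?_ fun x hx => ?_
    · exact fun x hx => (IntermediateField.mem_fixedField_iff _ x).2 fun g hg =>
        (IntermediateField.mem_fixedField_iff _ x).1 hx g (Subgroup.le_topologicalClosure _ hg)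
    · refine (IntermediateField.mem_fixedField_iff _ x).2 fun g hg => ?_
      have : FiniteDimensional ℚ (IntermediateField.adjoin ℚ {x}) :=
        IntermediateField.adjoin.finiteDimensional (Algebra.IsIntegral.isIntegral x)
      refine (IntermediateField.mem_fixingSubgroup_iff _ g).1 (Subgroup.topologicalClosure_minimal
        H (fun g hg => ?_) ((IntermediateField.adjoin ℚ {x}).fixingSubgroup.isClosed_of_isOpen
          (IntermediateField.fixingSubgroup_isOpen _)) hg) x
        (IntermediateField.mem_adjoin_simple_self ℚ x)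
      rw [IntermediateField.mem_fixingSubgroup_iff]
      have hle : IntermediateField.adjoin ℚ {x} ≤ tupleFixedField σ :=
        IntermediateField.adjoin_le_iff.2 (Set.singleton_subset_iff.2 hx)
      exact fun z hz => (IntermediateField.mem_fixedField_iff _ z).1 (hle hz) g hg
  rw [← h]
  exact InfiniteGalois.fixingSubgroup_fixedField
    ⟨H.topologicalClosure, Subgroup.isClosed_topologicalClosure H⟩

end Fermat.Agent.PseudoAlgClosed

namespace FA.Summary

open Fermat.Agent Fermat.Agent.PseudoAlgClosed MeasureTheory Polynomial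
open scoped Polynomial

/-- **Hilbert irreducibility over number fields** for absolutely irreducible monic polynomials. -/
theorem hilbertIrreducibility_numberField {K : IntermediateField ℚ Qb} [FiniteDimensional ℚ K]
    {f : (↥K)[X][X]} (hf : f.Monic) (hd : f.natDegree ≠ 0)
    (hirr : Irreducible (f.map (mapRingHom (algebraMap K Qb)))) :
    Hilbertian.DensityZero {t : ℤ | ¬ Irreducible (f.map (evalRingHom (t : K)))} :=
  densityZero_not_irreducible hf hd hirr

variable (K : IntermediateField ℚ Qb) [FiniteDimensional ℚ K] {e : ℕ}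
  [MeasurableSpace (Fin e → K.fixingSubgroup)] [BorelSpace (Fin e → K.fixingSubgroup)]
  (μ : Measure (Fin e → K.fixingSubgroup)) [IsProbabilityMeasure μ] [μ.IsMulLeftInvariant]

/-- **Jarden's theorem**: almost every fixed field is pseudo algebraically closed. -/
theorem pseudoAlgClosed_ae : ∀ᵐ σ ∂μ, IsPseudoAlgClosed (tupleFixedField σ) := by
  classical
  have : IsGalois ℚ Qb := FA.Local.isGalois_qbar
  have : Countable Qb := by
    rw [← Cardinal.mk_le_aleph0_iff]
    exact (Algebra.IsAlgebraic.cardinalMk_le_max ℚ Qb).trans (by simp)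
  have : Countable Qb[X] := by
    rw [← Cardinal.mk_le_aleph0_iff]
    exact Polynomial.cardinalMk_le_max.trans (by simp)
  have : Countable Qb[X][X] := by
    rw [← Cardinal.mk_le_aleph0_iff]
    exact Polynomial.cardinalMk_le_max.trans (by simp)
  have hae : ∀ᵐ σ ∂μ, ∀ i : {p : Qb[X][X] × Finset ℤ //
      p.1.Monic ∧ p.1.natDegree ≠ 0 ∧ Irreducible p.1},
      σ ∉ pointlessTuples (K := K) (e := e) i.1.1 i.1.2 :=
    ae_all_iff.2 fun i => measure_eq_zero_iff_ae_notMem.1
      (measure_pointlessTuples μ i.2.1 i.2.2.1 i.2.2.2 i.1.2)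
  filter_upwards [hae] with σ hσ
  set F := tupleFixedField σ
  intro f hirr hd S
  set a := f.leadingCoeff with ha
  have hf0 : f ≠ 0 := fun h => hd (by rw [h, natDegree_zero])
  have ha0 : a ≠ 0 := leadingCoeff_ne_zero.2 hf0
  set g := f.integralNormalization
  have hg : g.Monic := monic_integralNormalization hf0
  set gQ := g.map (mapRingHom (algebraMap F Qb))
  have hgQm : gQ.Monic := hg.map _
  have hgd : gQ.natDegree = f.natDegree := by
    rw [hg.natDegree_map, natDegree_integralNormalization]
  have hinj : Function.Injective (mapRingHom (algebraMap F Qb)) := by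
    rw [coe_mapRingHom]
    exact map_injective _ (algebraMap F Qb).injective
  have hgirr : Irreducible gQ := by
    rw [hgQm.irreducible_iff_irreducible_map_fraction_map (K := RatFunc Qb), Polynomial.map_map,
      Hilbertian.irreducible_map_integralNormalization_iff _ f
        (fun h => ha0 (hinj ((IsFractionRing.injective Qb[X] (RatFunc Qb))
          (h.trans (map_zero _).symm) |>.trans (map_zero _).symm))), ← Polynomial.map_map]
    exact (hirr.isPrimitive (by
      rw [natDegree_map_eq_of_injective hinj]
      exact hd)).irreducible_iff_irreducible_map_fraction_map.1 hirr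
  -- the integers to avoid
  have hfin : {n : ℤ | (n : F) ∈ S ∨ a.eval (n : F) = 0}.Finite :=
    ((S.finite_toSet.union (finite_setOfPred_isRoot ha0)).preimage
      (Int.cast_injective (α := F)).injOn).subset fun n hn => hn
  have hcoef : ∀ i j k, (σ i : GQ) ((gQ.coeff j).coeff k) = (gQ.coeff j).coeff k := fun i j k => by
    rw [coeff_map, coe_mapRingHom, coeff_map]
    exact (mem_tupleFixedField σ _).1 ((g.coeff j).coeff k).2 i
  have h := hσ ⟨(gQ, hfin.toFinset), hgQm, hgd ▸ hd, hgirr⟩
  simp only [pointlessTuples, Set.mem_ofPred_eq, not_and, not_not] at h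
  obtain ⟨t, ht, y, hy, hyfix⟩ := h hcoef
  have hyF : y ∈ F := (mem_tupleFixedField σ y).2 hyfix
  rw [Set.Finite.mem_toFinset, Set.mem_ofPred_eq, not_or] at ht
  refine ⟨(t : F), ht.1, ⟨y, hyF⟩ / a.eval (t : F), ?_⟩
  have h1 := integralNormalization_eval₂_leadingCoeff_mul (p := f) (Nat.pos_of_ne_zero hd)
    (evalRingHom (t : F)) (⟨y, hyF⟩ / a.eval (t : F))
  have ht0 : (evalRingHom (t : F)) f.leadingCoeff ≠ 0 := ht.2
  rw [← ha, show (evalRingHom (t : F)) a = a.eval (t : F) from rfl, mul_div_cancel₀ _ ht.2] at h1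
  have h2 : g.eval₂ (evalRingHom (t : F)) ⟨y, hyF⟩ = 0 := by
    refine (algebraMap F Qb).injective ?_
    rw [hom_eval₂, map_zero, eval₂_eq_eval_map, ← hy, Polynomial.map_map]
    congr 2
    refine RingHom.ext fun u => ?_
    exact (eval_intCast_map (algebraMap F Qb) u t).symm
  rw [h2, eq_comm, mul_eq_zero, or_iff_right (pow_ne_zero _ ht.2), eval₂_eq_eval_map] at h1
  exact h1

/-- **The absolute Galois group of the fixed field is free profinite on the tuple.** -/
theorem pseudoAlgClosed_free :
    ∀ᵐ σ ∂μ, IsPseudoAlgClosed (tupleFixedField σ) ∧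
      (tupleFixedField σ).fixingSubgroup =
        (Subgroup.closure (Set.range fun i => (σ i : GQ))).topologicalClosure ∧
      ∀ (G : Type) [Group G] [Finite G] (g : Fin e → G),
        ∃ φ : (tupleFixedField σ).fixingSubgroup →* G,
          IsOpen (φ.ker : Set (tupleFixedField σ).fixingSubgroup) ∧
          ∀ i (h : (σ i : GQ) ∈ (tupleFixedField σ).fixingSubgroup), φ ⟨σ i, h⟩ = g i := by
  filter_upwards [pseudoAlgClosed_ae K μ, freeGenerators K μ] with σ hpac hfree
  have hfix := fixingSubgroup_tupleFixedField σ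
  refine ⟨hpac, hfix, fun G _ _ g => ?_⟩
  set H := (tupleFixedField σ).fixingSubgroup
  have hK : ∀ x ∈ H, x ∈ K.fixingSubgroup := fun x hx =>
    IntermediateField.fixingSubgroup_le (show K ≤ tupleFixedField σ from fun z hz =>
      (mem_tupleFixedField σ z).2 fun i =>
        (IntermediateField.mem_fixingSubgroup_iff _ _).1 (σ i).2 z hz) hx
  have hgen : ∀ x (hx : x ∈ H), (⟨x, hK x hx⟩ : K.fixingSubgroup) ∈ generatedSubgroup K σ := by
    intro x hx
    have hx' : x ∈ (H : Set GQ) := hx
    rw [hfix, Subgroup.topologicalClosure_coe] at hx'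
    show (⟨x, hK x hx⟩ : K.fixingSubgroup) ∈
      (generatedSubgroup K σ : Set K.fixingSubgroup)
    rw [Subgroup.topologicalClosure_coe, closure_subtype]
    refine closure_mono (fun z hz => ?_) hx'
    have hz' : z ∈ (Subgroup.closure (Set.range σ)).map K.fixingSubgroup.subtype := by
      rw [MonoidHom.map_closure, ← Set.range_comp]
      exact hz
    exact hz'
  let ι : H →* generatedSubgroup K σ :=
    MonoidHom.mk' (fun x => ⟨⟨x, hK x x.2⟩, hgen x x.2⟩) fun _ _ => rfl
  obtain ⟨φ, hφ, hval⟩ := hfree G g
  refine ⟨φ.comp ι, ?_, fun i h => hval i⟩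
  rw [← MonoidHom.comap_ker, Subgroup.coe_comap]
  exact hφ.preimage (Continuous.subtype_mk (continuous_subtype_val.subtype_mk _) _)

/-- **Pseudo-finite fields** (Ax): for almost every element the fixed field is pseudo algebraically
closed with exactly one extension of each degree. -/
theorem pseudoFinite_ae [MeasurableSpace (Fin 1 → K.fixingSubgroup)]
    [BorelSpace (Fin 1 → K.fixingSubgroup)]
    (ν : Measure (Fin 1 → K.fixingSubgroup)) [IsProbabilityMeasure ν]
    [ν.IsMulLeftInvariant] :
    ∀ᵐ σ ∂ν, IsPseudoAlgClosed (tupleFixedField σ) ∧ ∀ n : ℕ, 0 < n →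
      ∃! L : IntermediateField (tupleFixedField σ) Qb,
        Module.finrank (tupleFixedField σ) L = n := by
  classical
  filter_upwards [pseudoAlgClosed_free K ν] with σ hσ
  obtain ⟨hpac, hfix, hfree⟩ := hσ
  refine ⟨hpac, fun n hn => ?_⟩
  set F := tupleFixedField σ
  have : IsGalois ℚ Qb := FA.Local.isGalois_qbar
  have : IsGalois F Qb := IsGalois.tower_top_intermediateField F
  have hσ0 : (σ 0 : GQ) ∈ F.fixingSubgroup := by
    rw [hfix]
    exact Subgroup.le_topologicalClosure _ (Subgroup.subset_closure ⟨0, rfl⟩)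
  let E : F.fixingSubgroup ≃* (Qb ≃ₐ[F] Qb) := F.fixingSubgroupEquiv
  set s : Qb ≃ₐ[F] Qb := E ⟨σ 0, hσ0⟩
  have hdense : (Subgroup.zpowers s).topologicalClosure = ⊤ := by
    have h1 : IntermediateField.fixedField (Subgroup.zpowers s).topologicalClosure = ⊥ := by
      refine eq_bot_iff.2 fun x hx => IntermediateField.mem_bot.2 ⟨⟨x, ?_⟩, rfl⟩
      refine (mem_tupleFixedField σ x).2 fun i => ?_
      rw [Subsingleton.elim i 0]
      exact (IntermediateField.mem_fixedField_iff _ x).1 hx s
        (Subgroup.le_topologicalClosure _ (Subgroup.mem_zpowers s))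
    refine Eq.trans (InfiniteGalois.fixingSubgroup_fixedField (k := F) (K := Qb)
      ⟨_, Subgroup.isClosed_topologicalClosure (Subgroup.zpowers s)⟩).symm ?_
    show (IntermediateField.fixedField (Subgroup.zpowers s).topologicalClosure).fixingSubgroup = ⊤
    rw [h1, IntermediateField.fixingSubgroup_bot]
  -- open subgroups meet every coset in a power of `s`
  have hpow : ∀ U : Subgroup (Qb ≃ₐ[F] Qb), IsOpen (U : Set (Qb ≃ₐ[F] Qb)) → ∀ x,
      ∃ k : ℤ, x⁻¹ * s ^ k ∈ U := fun U hU x => by
    have hx : x ∈ closure (Subgroup.zpowers s : Set (Qb ≃ₐ[F] Qb)) := by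
      rw [← Subgroup.topologicalClosure_coe, hdense]
      trivial
    obtain ⟨z, hz, k, rfl⟩ := mem_closure_iff.1 hx ((fun z => x⁻¹ * z) ⁻¹' U)
      (hU.preimage (continuous_const_mul _)) (by
        show x⁻¹ * x ∈ U
        rw [inv_mul_cancel]
        exact one_mem U)
    exact ⟨k, hz⟩
  -- their powers of `s` are given by the index
  have hidx : ∀ U : Subgroup (Qb ≃ₐ[F] Qb), IsOpen (U : Set (Qb ≃ₐ[F] Qb)) → U.index = n →
      ∀ k : ℤ, s ^ k ∈ U ↔ (n : ℤ) ∣ k := fun U hU hn' k => by
    have : U.FiniteIndex := ⟨by omega⟩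
    have horb : MulAction.orbit (Subgroup.zpowers s) ((1 : Qb ≃ₐ[F] Qb) : (Qb ≃ₐ[F] Qb) ⧸ U)
        = Set.univ := by
      refine Set.eq_univ_of_forall fun c => ?_
      obtain ⟨x, rfl⟩ := QuotientGroup.mk_surjective c
      obtain ⟨j, hj⟩ := hpow U hU x
      refine ⟨⟨s ^ j, j, rfl⟩, ?_⟩
      show ((s ^ j * 1 : Qb ≃ₐ[F] Qb) : (Qb ≃ₐ[F] Qb) ⧸ U) = _
      rw [mul_one, eq_comm, QuotientGroup.eq]
      exact hj
    have : Fintype ((Qb ≃ₐ[F] Qb) ⧸ U) := Fintype.ofFinite _
    have hper := MulAction.minimalPeriod_eq_card (a := s)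
      (b := ((1 : Qb ≃ₐ[F] Qb) : (Qb ≃ₐ[F] Qb) ⧸ U))
    have hc : Nat.card (MulAction.orbit (Subgroup.zpowers s)
        ((1 : Qb ≃ₐ[F] Qb) : (Qb ≃ₐ[F] Qb) ⧸ U)) = n := by
      rw [Nat.card_congr ((Equiv.setCongr horb).trans (Equiv.Set.univ _)), ← Subgroup.index, hn']
    rw [← Nat.card_eq_fintype_card] at hper
    replace hper := hper.trans hc
    rw [← hper, ← MulAction.zpow_smul_eq_iff_minimalPeriod_dvd, MulAction.Quotient.smul_mk,
      smul_eq_mul, mul_one, eq_comm, QuotientGroup.eq, inv_one, one_mul]
  refine existsUnique_of_exists_of_unique ?_ fun L L' hL hL' => ?_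
  · -- existence, by freeness
    have : NeZero n := ⟨hn.ne'⟩
    obtain ⟨φ, hφ, hval⟩ := hfree (Multiplicative (ZMod n)) fun _ => Multiplicative.ofAdd 1
    let ψ := φ.comp E.symm.toMonoidHom
    have hψ : IsOpen (ψ.ker : Set (Qb ≃ₐ[F] Qb)) := by
      refine hφ.preimage ?_
      refine Continuous.subtype_mk ?_ _
      refine continuous_of_continuousAt_one
        (F.fixingSubgroup.subtype.comp E.symm.toMonoidHom) ?_
      rw [ContinuousAt, map_one]
      intro W hW
      obtain ⟨L, hL, hLW⟩ := (krullTopology_mem_nhds_one_iff ℚ Qb W).1 hW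
      have : FiniteDimensional ℚ L := hL
      let b := Module.finBasis ℚ L
      set L' := IntermediateField.adjoin F (Set.range fun i => (b i : Qb))
      refine Filter.mem_map.2 ((krullTopology_mem_nhds_one_iff F Qb _).2
        ⟨L', ?_, fun g hg => hLW ?_⟩)
      · have := (Set.finite_range fun i => (b i : Qb)).to_subtype
        exact IntermediateField.finiteDimensional_adjoin fun x _ =>
          (Algebra.IsIntegral.isIntegral (R := ℚ) x).tower_top
      · have hmem : ∀ z : L, (z : Qb) ∈ L' := fun z => by
          rw [← b.sum_repr z, AddSubmonoidClass.coe_finsetSum]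
          refine sum_mem fun i _ => ?_
          rw [IntermediateField.coe_smul, Rat.smul_def]
          refine mul_mem (SubfieldClass.ratCast_mem L' _) ?_
          exact IntermediateField.subset_adjoin F _ ⟨i, rfl⟩
        exact (IntermediateField.mem_fixingSubgroup_iff _ _).2 fun z hz =>
          (IntermediateField.mem_fixingSubgroup_iff _ g).1 hg z (hmem ⟨z, hz⟩)
    have hidxψ : ψ.ker.index = n := by
      rw [Subgroup.index_ker, MonoidHom.range_eq_top.2 ?_, Subgroup.card_top,
        Nat.card_eq_fintype_card, Fintype.card_multiplicative, ZMod.card]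
      intro c
      refine ⟨s ^ (Multiplicative.toAdd c).val, ?_⟩
      show φ (E.symm (s ^ _)) = c
      rw [map_pow, map_pow, E.symm_apply_apply, hval 0 hσ0, ← ofAdd_nsmul, nsmul_one,
        ZMod.natCast_zmod_val, ofAdd_toAdd]
    refine ⟨IntermediateField.fixedField ψ.ker, ?_⟩
    rw [IntermediateField.finrank_eq_fixingSubgroup_index,
      InfiniteGalois.fixingSubgroup_fixedField ⟨ψ.ker, ψ.ker.isClosed_of_isOpen hψ⟩]
    exact hidxψ
  · -- uniqueness
    have hfd : ∀ L : IntermediateField F Qb, Module.finrank F L = n →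
        IsOpen (L.fixingSubgroup : Set (Qb ≃ₐ[F] Qb)) ∧ L.fixingSubgroup.index = n := fun L h => by
      have : FiniteDimensional F L := Module.finite_of_finrank_pos (h ▸ hn)
      exact ⟨L.fixingSubgroup_isOpen,
        by rw [← IntermediateField.finrank_eq_fixingSubgroup_index, h]⟩
    obtain ⟨ho, hi⟩ := hfd L hL
    obtain ⟨ho', hi'⟩ := hfd L' hL'
    rw [← InfiniteGalois.fixedField_fixingSubgroup L, ← InfiniteGalois.fixedField_fixingSubgroup L']
    congr 1
    ext x
    obtain ⟨k, hk⟩ := hpow (L.fixingSubgroup ⊓ L'.fixingSubgroup) (ho.inter ho') x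
    have hiff : ∀ U : Subgroup (Qb ≃ₐ[F] Qb), x⁻¹ * s ^ k ∈ U → (x ∈ U ↔ s ^ k ∈ U) :=
      fun U hU => ⟨fun h => by simpa using mul_mem h hU,
        fun h => by simpa using mul_mem h (inv_mem hU)⟩
    rw [hiff _ hk.1, hiff _ hk.2, hidx _ ho hi, hidx _ ho' hi']

omit μ in
/-- **Pseudo-finite fields exist over every number field**. -/
theorem pseudoFinite_exists :
    ∃ F : IntermediateField ℚ Qb, K ≤ F ∧ IsPseudoAlgClosed F ∧
      ∀ n : ℕ, 0 < n → ∃! L : IntermediateField F Qb, Module.finrank F L = n := by
  have : IsGalois ℚ Qb := FA.Local.isGalois_qbar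
  have : CompactSpace K.fixingSubgroup := isCompact_iff_compactSpace.1
    (K.fixingSubgroup.isClosed_of_isOpen (IntermediateField.fixingSubgroup_isOpen K)).isCompact
  let _ : MeasurableSpace (Fin 1 → K.fixingSubgroup) := borel _
  have : BorelSpace (Fin 1 → K.fixingSubgroup) := ⟨rfl⟩
  let P : TopologicalSpace.PositiveCompacts (Fin 1 → K.fixingSubgroup) := ⊤
  let ν := Measure.haarMeasure P
  have : IsProbabilityMeasure ν := ⟨Measure.haarMeasure_self (K₀ := P)⟩
  obtain ⟨σ, h1, h2⟩ := (pseudoFinite_ae K ν).exists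
  exact ⟨_, fun z hz => (mem_tupleFixedField σ z).2 fun i =>
    (IntermediateField.mem_fixingSubgroup_iff _ _).1 (σ i).2 z hz, h1, h2⟩

end FA.Summary
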