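import Fermat.Agent.Hilbert10.Recursive
import Mathlib.Algebra.MvPolynomial.Monad
import Mathlib.Computability.Halting
import Mathlib.Logic.Equiv.Fin.Basic
import Mathlib.NumberTheory.SumFourSquares
import Mathlib.NumberTheory.Wilson

/-!
# Hilbert's tenth problem

Matiyasevič's theorem in the form `r.e. = Diophantine`, the unsolvability of Hilbert's tenth problem
over `ℤ`, and Putnam's form: every r.e. set of positive integers, in particular the set of primes,
is the set of positive values of a polynomial at natural arguments.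
-/

set_option autoImplicit false

noncomputable section

open Function MvPolynomial

namespace FA.Hilbert10

variable {γ : Type}

/-- A polynomial function is given by a polynomial. -/
theorem exists_mvPolynomial (q : Poly γ) :
    ∃ P : MvPolynomial γ ℤ, ∀ x : γ → ℕ, q x = eval (fun i => (x i : ℤ)) P := by
  induction q using Poly.induction with
  | H1 i => exact ⟨X i, fun x => by simp⟩
  | H2 z => exact ⟨C z, fun x => by simp⟩
  | H3 f g hf hg =>
    obtain ⟨F, hF⟩ := hf
    obtain ⟨G, hG⟩ := hg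
    exact ⟨F - G, fun x => by simp [hF, hG]⟩
  | H4 f g hf hg =>
    obtain ⟨F, hF⟩ := hf
    obtain ⟨G, hG⟩ := hg
    exact ⟨F * G, fun x => by simp [hF, hG]⟩

/-- A Diophantine set as the solvability in `ℕ` of one equation in finitely many unknowns. -/
theorem exists_equation_nat {p : ℕ → Prop} (d : Dioph {v : Unit → ℕ | p (v ())}) :
    ∃ (m : ℕ) (P : MvPolynomial (Fin (m + 1)) ℤ),
      ∀ a : ℕ, p a ↔ ∃ x : Fin m → ℕ,
        eval (fun i => ((Fin.cons a x : Fin (m + 1) → ℕ) i : ℤ)) P = 0 := by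
  obtain ⟨β, _, q, hq⟩ := exists_fintype_rep d
  let e := Fintype.equivFin β
  obtain ⟨P, hP⟩ := exists_mvPolynomial (q.map (Sum.elim (fun _ => 0) fun b => (e b).succ))
  refine ⟨_, P, fun a => (hq fun _ => a).trans ⟨fun ⟨t, ht⟩ => ⟨t ∘ e.symm, ?_⟩,
    fun ⟨x, hx⟩ => ⟨x ∘ e, ?_⟩⟩⟩ <;> rw [← hP, Poly.map_apply] at *
  · rw [← ht]
    congr 1
    funext i
    rcases i with u | b <;> simp
  · rw [← hx]
    congr 1
    funext i
    rcases i with u | b <;> simp

/-- A Diophantine set as the solvability in `ℤ` of one equation (Lagrange's four squares). -/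
theorem exists_equation_int {p : ℕ → Prop} (d : Dioph {v : Unit → ℕ | p (v ())}) :
    ∃ (m : ℕ) (P : MvPolynomial (Fin (m + 1)) ℤ),
      ∀ a : ℕ, p a ↔ ∃ x : Fin m → ℤ, eval (Fin.cons (a : ℤ) x) P = 0 := by
  obtain ⟨m, P, hP⟩ := exists_equation_nat d
  let s : Fin (m + 1) → MvPolynomial (Fin (m * 4 + 1)) ℤ :=
    Fin.cons (X 0) fun i => ∑ j : Fin 4, X (finProdFinEquiv (i, j)).succ ^ 2
  have he : ∀ (a : ℕ) (x : Fin (m * 4) → ℤ) (t : Fin m → ℕ),
      (∀ i, (t i : ℤ) = ∑ j : Fin 4, x (finProdFinEquiv (i, j)) ^ 2) →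
        eval (Fin.cons (a : ℤ) x) (bind₁ s P) =
          eval (fun i => ((Fin.cons a t : Fin (m + 1) → ℕ) i : ℤ)) P := fun a x t h => by
    refine (eval₂Hom_bind₁ (RingHom.id ℤ) _ s P).trans (congrArg (fun g => eval g P) ?_)
    funext i
    cases i using Fin.cases <;> simp [s, h]
  refine ⟨m * 4, bind₁ s P, fun a => (hP a).trans ⟨fun ⟨t, ht⟩ => ?_, fun ⟨x, hx⟩ => ?_⟩⟩
  · choose w x y z h using fun i => Nat.sum_four_squares (t i)
    refine ⟨fun k => (![w (finProdFinEquiv.symm k).1, x (finProdFinEquiv.symm k).1,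
      y (finProdFinEquiv.symm k).1, z (finProdFinEquiv.symm k).1] (finProdFinEquiv.symm k).2 : ℕ),
      (he a _ t fun i => ?_).trans ht⟩
    simp [Fin.sum_univ_four, ← h i]
  · refine ⟨fun i => (∑ j : Fin 4, x (finProdFinEquiv (i, j)) ^ 2).toNat,
      (he a x _ fun i => ?_).symm.trans hx⟩
    exact Int.toNat_of_nonneg (Finset.sum_nonneg fun j _ => sq_nonneg _)

/-- **The DPRM theorem**: a set of natural numbers is recursively enumerable iff it is the set of
parameters of a solvable Diophantine equation. -/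
theorem rePred_iff_exists_equation {p : ℕ → Prop} :
    REPred p ↔ ∃ (m : ℕ) (P : MvPolynomial (Fin (m + 1)) ℤ),
      ∀ a : ℕ, p a ↔ ∃ x : Fin m → ℕ,
        eval (fun i => ((Fin.cons a x : Fin (m + 1) → ℕ) i : ℤ)) P = 0 := by
  refine ⟨fun h => exists_equation_nat (dioph_of_rePred h), fun ⟨m, P, hP⟩ => rePred_of_dioph ?_⟩
  obtain ⟨q, hq⟩ : ∃ q : Poly (Unit ⊕ Fin m),
      ∀ x, q x =
        eval (fun i => (x ((Fin.cons (Sum.inl ()) Sum.inr : _ → Unit ⊕ Fin m) i) : ℤ)) P := by
    clear hP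
    induction P using MvPolynomial.induction_on with
    | C z => exact ⟨Poly.const z, fun x => by simp⟩
    | add f g hf hg =>
      obtain ⟨F, hF⟩ := hf
      obtain ⟨G, hG⟩ := hg
      exact ⟨F + G, fun x => by simp [hF, hG]⟩
    | mul_X f i hf =>
      obtain ⟨F, hF⟩ := hf
      exact ⟨F * Poly.proj ((Fin.cons (Sum.inl ()) Sum.inr : _ → Unit ⊕ Fin m) i),
        fun x => by simp [hF]⟩
  refine ⟨Fin m, q, fun v => (hP (v ())).trans (exists_congr fun x => ?_)⟩
  rw [hq]
  refine Eq.congr_left (congrArg (fun g => eval g P) (funext fun i => ?_))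
  cases i using Fin.cases <;> simp

open Nat.Partrec (Code) in
/-- **Hilbert's tenth problem is unsolvable**: for some polynomial with integer coefficients no
algorithm decides, from the value of the parameter, whether there is an integral zero. -/
theorem hilbert_tenth_unsolvable : ∃ (m : ℕ) (P : MvPolynomial (Fin (m + 1)) ℤ),
    ¬ ComputablePred fun a : ℕ => ∃ x : Fin m → ℤ, eval (Fin.cons (a : ℤ) x) P = 0 := by
  let K : ℕ → Prop := fun n => (Code.eval (Denumerable.ofNat Code n) 0).Dom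
  have hK : REPred K :=
    (Code.eval_part.comp (Computable.ofNat Code) (Computable.const 0)).dom_re
  obtain ⟨m, P, hP⟩ := exists_equation_int (dioph_of_rePred hK)
  refine ⟨m, P, fun h => ComputablePred.halting_problem 0 ?_⟩
  obtain ⟨f, hf, he⟩ := ComputablePred.computable_iff.1 (h.of_eq fun a => (hP a).symm)
  refine ComputablePred.computable_iff.2
    ⟨fun c => f (Encodable.encode c), hf.comp Computable.encode, funext fun c => ?_⟩
  rw [← congrFun he (Encodable.encode c)]
  simp [K]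

/-- **Putnam's form**: a Diophantine set of positive integers is the set of positive values of a
polynomial at natural arguments. -/
theorem exists_positive_values {p : ℕ → Prop} (d : Dioph {v : Unit → ℕ | p (v ())}) :
    ∃ (m : ℕ) (Q : MvPolynomial (Fin m) ℤ), ∀ z : ℤ,
      (0 < z ∧ ∃ x : Fin m → ℕ, eval (fun i => (x i : ℤ)) Q = z) ↔
        ∃ n : ℕ, 0 < n ∧ p n ∧ z = n := by
  obtain ⟨m, P, hP⟩ := exists_equation_nat d
  refine ⟨m + 1, X 0 * (1 - P ^ 2), fun z => ⟨fun ⟨hz, x, hx⟩ => ?_, ?_⟩⟩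
  · simp only [map_mul, map_sub, map_one, map_pow, eval_X] at hx
    have h0 : eval (fun i => (x i : ℤ)) P = 0 := by
      by_contra h
      have h1 : 0 < eval (fun i => (x i : ℤ)) P ^ 2 := by positivity
      nlinarith [Int.natCast_nonneg (x 0)]
    rw [h0] at hx
    refine ⟨x 0, by omega, (hP _).2 ⟨Fin.tail x, ?_⟩, by linarith⟩
    rwa [Fin.cons_self_tail]
  · rintro ⟨n, hn, hp, rfl⟩
    obtain ⟨x, hx⟩ := (hP n).1 hp
    exact ⟨by omega, Fin.cons n x, by simp [hx]⟩

/-- **A polynomial whose positive values at natural arguments are exactly the primes**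
(Matiyasevič; Jones, Sato, Wada, Wiens). -/
theorem exists_prime_polynomial : ∃ (m : ℕ) (Q : MvPolynomial (Fin m) ℤ), ∀ z : ℤ,
    (0 < z ∧ ∃ x : Fin m → ℕ, eval (fun i => (x i : ℤ)) Q = z) ↔
      ∃ p : ℕ, p.Prime ∧ z = p := by
  have dv : Dioph.DiophFn fun v : Unit → ℕ => v () := Dioph.proj_dioph ()
  have d : Dioph {v : Unit → ℕ | 1 < v () ∧ v () ∣ (v () - 1).factorial + 1} :=
    (Dioph.lt_dioph (number_dioph 1) dv).inter
      (Dioph.dvd_dioph dv (Dioph.add_dioph (factorial_dioph (Dioph.sub_dioph dv (number_dioph 1)))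
        (number_dioph 1)))
  have hiff : ∀ n : ℕ, 1 < n → (n ∣ (n - 1).factorial + 1 ↔ n.Prime) := fun n hn => by
    rw [Nat.prime_iff_fac_equiv_neg_one hn.ne', ← ZMod.natCast_eq_zero_iff, Nat.cast_add,
      Nat.cast_one, add_eq_zero_iff_eq_neg]
  obtain ⟨m, Q, hQ⟩ := exists_positive_values (p := fun n => 1 < n ∧ n ∣ (n - 1).factorial + 1) d
  refine ⟨m, Q, fun z => (hQ z).trans ⟨?_, ?_⟩⟩
  · rintro ⟨n, -, ⟨h1, h2⟩, rfl⟩
    exact ⟨n, (hiff n h1).1 h2, rfl⟩
  · rintro ⟨n, hn, rfl⟩
    exact ⟨n, hn.pos, ⟨hn.one_lt, (hiff n hn.one_lt).2 hn⟩, rfl⟩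

end FA.Hilbert10

end
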