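import Fermat.Agent.KlingenIntegral.Values
import Mathlib.RingTheory.Valuation.LocalSubring

/-!
# Denominators of the L-values of totally real fields

A form of weight `w` on a group of finite index whose expansions in `q ^ (1 / h)` at all cusps have
coefficients of positive index integral at a prime `ℓ` above `w + 1` and prime to `h` has integral
constants. So, for a totally real field of degree `n`, the value at `1 - k` of a ray class character
modulo `𝔪` becomes an algebraic integer after multiplying by a number composed of primes that are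
at most `max 3 (k n + 1)` or divide the norm of `𝔪`: the discriminant does not enter (Siegel).
-/

set_option autoImplicit false
set_option linter.unusedSectionVars false
set_option linter.style.haveILetI false

noncomputable section

open NumberField InfinitePlace Module Filter Complex
open UpperHalfPlane hiding I
open scoped Real nonZeroDivisors Classical MatrixGroups Manifold ModularForm

namespace FA.KlingenIntegral.Summary

open FA.KlingenIntegral FA.KlingenRay
open FA.Hecke (IsRayChar heckeL)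
open FA.Eis (HasQ BddAllCusps)
open FA.HeckeFE (extension)

/-- **The integral constant term principle**: at a prime `ℓ ≥ 5` with `w + 2 ≤ ℓ` and prime to the
period, the coefficients of positive index at all cusps bound the constants. -/
theorem constant_bounded {Γ : Subgroup SL(2, ℤ)} [Γ.FiniteIndex] {w : ℕ} {f : ℍ → ℂ}
    (hinv : ∀ γ ∈ Γ, f ∣[(w : ℤ)] γ = f) {O : ValuationSubring ℂ} {ℓ : ℕ} (hp : ℓ.Prime)
    (hℓ : O.valuation (ℓ : ℂ) < 1) (h5 : 5 ≤ ℓ) (hw : w ≠ 0) (hwl : w + 2 ≤ ℓ) {h : ℕ}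
    (hh : ¬ℓ ∣ h) (S : SL(2, ℤ) → PowerSeries ℂ)
    (hS : ∀ A, HasQ (h : ℝ) (f ∣[(w : ℤ)] A) (S A)) {γ : O.ValueGroup}
    (hγ : ∀ B n, n ≠ 0 → O.valuation (PowerSeries.coeff n (S B)) ≤ γ) (A : SL(2, ℤ)) :
    O.valuation (PowerSeries.coeff 0 (S A)) ≤ γ := by
  have hpos : (0 : ℝ) < (h : ℝ) :=
    Nat.cast_pos.2 (Nat.pos_of_ne_zero fun e => hh (e ▸ dvd_zero ℓ))
  have h1 := hS 1
  rw [SlashAction.slash_one] at h1
  exact constant_le hp hℓ h5 hw hwl ⟨hinv, h1.mdiff hpos, fun B => (hS B).bdd hpos⟩ hh S hS hγ A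

/-- **An algebraic integer is what lies in every valuation ring.** -/
theorem isIntegral_of_val {z : ℂ} (h : ∀ O : ValuationSubring ℂ, O.valuation z ≤ 1) :
    IsIntegral ℤ z := by
  have hz : z ∈ (⨅ V : {V : ValuationSubring ℂ // (∅ : Set ℂ) ⊆ V.toSubring}, V.1.toSubring) := by
    rw [Subring.mem_iInf]
    exact fun V => (V.1.valuation_le_one_iff z).1 (h V.1)
  rw [iInf_valuationSubring_superset] at hz
  have hint : Algebra.IsIntegral ℤ (Subring.closure (∅ : Set ℂ)) := ⟨fun x => by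
    obtain ⟨m, hm⟩ : ∃ m : ℤ, (m : ℂ) = (x : ℂ) := by
      have hx := x.2
      simp only [Subring.closure_empty] at hx
      exact Subring.mem_bot.1 hx
    rw [show x = algebraMap ℤ (Subring.closure (∅ : Set ℂ)) m from Subtype.ext (by simpa using hm.symm)]
    exact isIntegral_algebraMap⟩
  exact isIntegral_trans (A := Subring.closure (∅ : Set ℂ)) z hz

/-- A number is a product of one composed of given primes and one prime to them. -/
theorem exists_split_primes (bad : ℕ → Prop) : ∀ D : ℕ, D ≠ 0 → ∃ M D' : ℕ, D = M * D' ∧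
    M ≠ 0 ∧ (∀ p : ℕ, p.Prime → p ∣ M → bad p) ∧ ∀ p : ℕ, p.Prime → p ∣ D' → ¬bad p := by
  intro D
  induction D using Nat.recOnMul with
  | zero => exact fun h => absurd rfl h
  | one => exact fun _ => ⟨1, 1, rfl, one_ne_zero, fun p hp h => absurd h hp.not_dvd_one,
      fun p hp h => absurd h hp.not_dvd_one⟩
  | prime q hq =>
    intro _
    by_cases hb : bad q
    · exact ⟨q, 1, (mul_one q).symm, hq.ne_zero,
        fun p hp h => (Nat.prime_dvd_prime_iff_eq hp hq).1 h ▸ hb,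
        fun p hp h => absurd h hp.not_dvd_one⟩
    · exact ⟨1, q, (one_mul q).symm, one_ne_zero, fun p hp h => absurd h hp.not_dvd_one,
        fun p hp h => (Nat.prime_dvd_prime_iff_eq hp hq).1 h ▸ hb⟩
  | mul a b ha hb =>
    intro hab
    obtain ⟨M, D, e, hM, h1, h2⟩ := ha (left_ne_zero_of_mul hab)
    obtain ⟨M', D', e', hM', h1', h2'⟩ := hb (right_ne_zero_of_mul hab)
    exact ⟨M * M', D * D', by rw [e, e']; ring, mul_ne_zero hM hM',
      fun p hp h => (hp.dvd_mul.1 h).elim (h1 p hp) (h1' p hp),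
      fun p hp h => (hp.dvd_mul.1 h).elim (h2 p hp) (h2' p hp)⟩

variable {K : Type*} [Field K] [NumberField K] [IsTotallyReal K]
variable {𝔪 : Ideal (𝓞 K)} {f : Ideal (𝓞 K) →* ℂ} {k : ℕ} {Z : ℂ → ℂ}

/-- The value is integral above every large prime not dividing the norm of the modulus. -/
theorem char_value_integral_at (h : IsRayChar 𝔪 f) (hk : 1 ≤ k) (hk2 : k = 2 → 2 ≤ finrank ℚ K)
    (hZ : DifferentiableOn ℂ Z {1}ᶜ) (hL : ∀ s : ℂ, 1 < s.re → Z s = heckeL f s)
    {O : ValuationSubring ℂ} {ℓ : ℕ} (hp : ℓ.Prime) (hℓ : O.valuation (ℓ : ℂ) < 1)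
    (hbig : max 3 (k * finrank ℚ K + 1) < ℓ) (hN : ¬ℓ ∣ Ideal.absNorm 𝔪) :
    O.valuation (Z (1 - (k : ℂ))) ≤ 1 := by
  have h4 : ℓ ≠ 4 := fun e => by rw [e] at hp; norm_num at hp
  rw [max_lt_iff] at hbig
  exact val_value hp hℓ (by omega) h hk hk2 (Or.inl (by omega)) hN ⟨hZ, hL⟩

/-- **Denominators of the values of ray class characters**: at every `1 - k`, `k ≥ 1` (degree at
least two if `k = 2`), only primes `≤ max 3 (k n + 1)` and divisors of the norm of the modulus. -/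
theorem char_value_denominators (h : IsRayChar 𝔪 f) (hk : 1 ≤ k)
    (hk2 : k = 2 → 2 ≤ finrank ℚ K)
    (hZ : DifferentiableOn ℂ Z {1}ᶜ) (hL : ∀ s : ℂ, 1 < s.re → Z s = heckeL f s) :
    ∃ M : ℕ, M ≠ 0 ∧
      (∀ p : ℕ, p.Prime → p ∣ M → p ≤ max 3 (k * finrank ℚ K + 1) ∨ p ∣ Ideal.absNorm 𝔪) ∧
      IsIntegral ℤ ((M : ℂ) * Z (1 - (k : ℂ))) := by
  have hf : ∀ x ∈ Set.range f, IsIntegral ℚ x := by
    rintro _ ⟨I, rfl⟩
    rcases zero_or_root h I with h0 | ⟨M, hM, hM'⟩
    · rw [h0]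
      exact isIntegral_zero
    · exact IsIntegral.of_pow hM (hM' ▸ isIntegral_one)
  have halgQ : IsAlgebraic ℚ (Z (1 - (k : ℂ))) := by
    have := IntermediateField.isAlgebraic_adjoin hf
    exact IntermediateField.isAlgebraic_iff.1 (Algebra.IsAlgebraic.isAlgebraic
      (⟨_, FA.KlingenTwo.value_mem h hk ⟨hZ, hL⟩⟩ : IntermediateField.adjoin ℚ (Set.range f)))
  obtain ⟨D, hD, hDz⟩ := ((IsFractionRing.isAlgebraic_iff ℤ ℚ ℂ).2 halgQ).exists_integral_multiple
  obtain ⟨M, D', hMD, hM, hbad, hgood⟩ := exists_split_primes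
    (fun p => p ≤ max 3 (k * finrank ℚ K + 1) ∨ p ∣ Ideal.absNorm 𝔪) D.natAbs
    (Int.natAbs_ne_zero.2 hD)
  refine ⟨M, hM, hbad, isIntegral_of_val fun O => ?_⟩
  by_cases hgoodprime : ∃ ℓ : ℕ, ℓ.Prime ∧ O.valuation (ℓ : ℂ) < 1 ∧
      ¬(ℓ ≤ max 3 (k * finrank ℚ K + 1) ∨ ℓ ∣ Ideal.absNorm 𝔪)
  · obtain ⟨ℓ, hp, hℓ, hne⟩ := hgoodprime
    push Not at hne
    rw [map_mul]
    exact mul_le_one' (val_natCast_le M)
      (char_value_integral_at h hk hk2 hZ hL hp hℓ hne.1 hne.2)
  · push Not at hgoodprime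
    have hunit : ∀ m : ℕ, m ≠ 0 → (∀ p : ℕ, p.Prime → p ∣ m →
        ¬(p ≤ max 3 (k * finrank ℚ K + 1) ∨ p ∣ Ideal.absNorm 𝔪)) →
        O.valuation (m : ℂ) = 1 := by
      intro m
      induction m using Nat.recOnMul with
      | zero => exact fun h => absurd rfl h
      | one => exact fun _ _ => by rw [Nat.cast_one, map_one]
      | prime q hq =>
        intro _ hg
        refine le_antisymm (val_natCast_le q) (not_lt.1 fun hlt => hg q hq dvd_rfl ?_)
        exact hgoodprime q hq hlt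
      | mul a b ha hb =>
        intro hab hg
        rw [Nat.cast_mul, map_mul, ha (left_ne_zero_of_mul hab) (fun p hp hd => hg p hp
          (dvd_mul_of_dvd_left hd b)), hb (right_ne_zero_of_mul hab) (fun p hp hd => hg p hp
          (dvd_mul_of_dvd_right hd a)), one_mul]
    have hD0 : D.natAbs ≠ 0 := Int.natAbs_ne_zero.2 hD
    rw [hMD] at hD0
    have hint : O.valuation ((D.natAbs : ℂ) * Z (1 - (k : ℂ))) ≤ 1 := by
      obtain ⟨s, hs⟩ : ∃ s : ℤ, (D.natAbs : ℤ) = s * D := by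
        rcases Int.natAbs_eq D with e | e
        · exact ⟨1, by rw [one_mul, ← e]⟩
        · exact ⟨-1, by linear_combination e⟩
      have hint' : IsIntegral ℤ ((D : ℂ) * Z (1 - (k : ℂ))) := by simpa [zsmul_eq_mul] using hDz
      rw [show (D.natAbs : ℂ) = (s : ℂ) * (D : ℂ) by rw [← Int.cast_natCast, hs, Int.cast_mul],
        mul_assoc, map_mul]
      refine mul_le_one' (val_intCast_le _) ((O.valuation_le_one_iff _).2 ?_)
      obtain ⟨y, hy⟩ := (IsIntegrallyClosedIn.algebraMap_eq_of_integral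
        (R := O) (A := ℂ) hint'.tower_top)
      exact hy ▸ y.2
    rw [hMD, Nat.cast_mul, mul_assoc, mul_left_comm, map_mul,
      hunit D' (right_ne_zero_of_mul hD0) hgood, one_mul] at hint
    exact hint

/-- **A rational value**: the primes of the denominator. -/
theorem char_value_rat_den (h : IsRayChar 𝔪 f) (hk : 1 ≤ k) (hk2 : k = 2 → 2 ≤ finrank ℚ K)
    (hZ : DifferentiableOn ℂ Z {1}ᶜ) (hL : ∀ s : ℂ, 1 < s.re → Z s = heckeL f s) {r : ℚ}
    (hr : Z (1 - (k : ℂ)) = (r : ℂ)) {p : ℕ} (hp : p.Prime) (hd : p ∣ r.den) :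
    p ≤ max 3 (k * finrank ℚ K + 1) ∨ p ∣ Ideal.absNorm 𝔪 := by
  obtain ⟨M, -, hbad, hint⟩ := char_value_denominators h hk hk2 hZ hL
  refine hbad p hp (hd.trans ?_)
  rw [hr, ← Rat.cast_natCast, ← Rat.cast_mul, ← eq_ratCast (algebraMap ℚ ℂ),
    isIntegral_algebraMap_iff (algebraMap ℚ ℂ).injective] at hint
  obtain ⟨m, hm⟩ := IsIntegrallyClosed.isIntegral_iff.1 hint
  rw [eq_intCast] at hm
  have e : ((r.den : ℤ)) ∣ (M : ℤ) * r.num := by
    refine ⟨m, ?_⟩
    have hnum := Rat.mul_den_eq_num r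
    have : ((M : ℤ) * r.num : ℚ) = ((r.den : ℤ) * m : ℤ) := by
      push_cast
      rw [← hnum, hm]
      ring
    exact_mod_cast this
  exact Int.natCast_dvd_natCast.1 ((Int.isCoprime_iff_nat_coprime.2 (by
    simpa using r.reduced.symm)).dvd_of_dvd_mul_right e)

/-- **Siegel: the denominators of the zeta values of a totally real field**: for even `k ≥ 2`
(degree at least two if `k = 2`) only primes `≤ max 3 (k n + 1)`, whatever the discriminant. -/
theorem zeta_denominators (hk : 2 ≤ k) (hk2 : k = 2 → 2 ≤ finrank ℚ K)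
    (hZ : DifferentiableOn ℂ Z {1}ᶜ) (hζ : ∀ s : ℂ, 1 < s.re → Z s = dedekindZeta K s) :
    ∃ r : ℚ, Z (1 - (k : ℂ)) = (r : ℂ) ∧
      ∀ p : ℕ, p.Prime → p ∣ r.den → p ≤ max 3 (k * finrank ℚ K + 1) := by
  have hL : ∀ s : ℂ, 1 < s.re → Z s = heckeL (1 : Ideal (𝓞 K) →* ℂ) s := fun s hs => by
    rw [hζ s hs, FA.Hecke.heckeL_one hs]
  have hE : IsLExt (1 : Ideal (𝓞 K) →* ℂ) (extension K) :=
    ⟨FA.HeckeFE.differentiableOn_extension K, fun s hs => by
      rw [FA.HeckeFE.extension_eq_dedekindZeta K hs, FA.Hecke.heckeL_one hs]⟩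
  obtain ⟨r, hr, -⟩ := FA.KlingenTwo.exists_extension_eq (K := K) hk
  have hrZ : Z (1 - (k : ℂ)) = (r : ℂ) := by
    rw [IsLExt.unique ⟨hZ, hL⟩ hE (one_sub_ne_one (by omega)), hr]
  refine ⟨r, hrZ, fun p hp hd => ?_⟩
  refine (char_value_rat_den FA.Hecke.IsRayChar.one (by omega) hk2 hZ hL hrZ hp hd).resolve_right ?_
  rw [Ideal.absNorm_top]
  exact hp.not_dvd_one

end FA.KlingenIntegral.Summary

end
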