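import Fermat.Agent.ClassIntegral.Combination
import Fermat.Agent.Root.SummaryKlingenIntegral
import Fermat.Agent.CMValue.Abelian
import Fermat.Agent.CMValue.Brumer

/-!
# Summary: integrality of partial zeta values, and congruences of L-values

For a totally real field of degree `n`, every `k ≥ 1` (`n ≥ 2` if `k ≤ 2`) and every prime
`ℓ > max 3 (k n + 1)` not dividing `N 𝔪`: a combination of ray class characters modulo `𝔪` with
integral values at all ideals has an integral combination of values at `1 - k`. So the zeta values of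
the narrow ray classes are `ℓ`-integral, even if `ℓ` divides their number (Deligne and Ribet's
integrality, away from small primes and the modulus), congruent characters have congruent values,
and a twist by a character of `ℓ`-power order does not change the value modulo `ℓ`; for a CM field
with class number prime to `ℓ` this makes the twisted values at `0` units, so not zero.
Not claimed here: `ℓ ≤ k n + 1` (see `SummaryWeightLevel`), `ℓ ∣ N 𝔪`, congruences between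
different `k`, the annihilation.
-/

set_option autoImplicit false
set_option linter.unusedSectionVars false
set_option linter.style.haveILetI false

noncomputable section

open NumberField InfinitePlace IsDedekindDomain Module Filter Complex
open scoped Real nonZeroDivisors Classical Topology

namespace FA.ClassIntegral.Summary

open FA.ClassIntegral FA.KlingenRay FA.KlingenIntegral FA.HeckeCharFE
open FA.Hecke (IsRayChar IsNontrivial heckeL fPow RayClassGroup rayClass rayClass_surjective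
  coprimeIdeals rayCharFn rayCharFn_apply isRayChar_rayCharFn finite_rayClassGroup)

variable {K : Type*} [Field K] [NumberField K] [IsTotallyReal K]
variable {𝔪 : Ideal (𝓞 K)} {k : ℕ} {O : ValuationSubring ℂ} {ℓ : ℕ}

theorem large_prime {n : ℕ} (hp : ℓ.Prime) (hbig : max 3 (k * n + 1) < ℓ) :
    5 ≤ ℓ ∧ k * n + 2 ≤ ℓ := by
  have h4 : ℓ ≠ 4 := fun e => by rw [e] at hp; norm_num at hp
  rw [max_lt_iff] at hbig
  omega

/-- Integral combinations of characters have integral combinations of values, in any admissible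
weight. -/
theorem combination_integral_adm {ι : Type*} [Fintype ι] {F : ι → Ideal (𝓞 K) →* ℂ}
    (hF : ∀ i, IsRayChar 𝔪 (F i)) (h𝔪 : 𝔪 ≠ ⊥) {c : ι → ℂ} (hk : 1 ≤ k)
    (hk2 : k ≤ 2 → 2 ≤ finrank ℚ K) (hp : ℓ.Prime) (hℓ : O.valuation (ℓ : ℂ) < 1) (h5 : 5 ≤ ℓ)
    (hadm : FA.WeightLevel.Admissible ℓ (k * finrank ℚ K)) (hN : ¬ℓ ∣ Ideal.absNorm 𝔪)
    (hval : ∀ A : Ideal (𝓞 K), A ≠ ⊥ → O.valuation (∑ i, c i * F i A) ≤ 1)
    {Z : ι → ℂ → ℂ} (hd : ∀ i, DifferentiableOn ℂ (Z i) {1}ᶜ)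
    (hL : ∀ i, ∀ s : ℂ, 1 < s.re → Z i s = heckeL (F i) s) :
    O.valuation (∑ i, c i * Z i (1 - (k : ℂ))) ≤ 1 :=
  val_combination hp hℓ h5 hF h𝔪 hk hk2 hadm hN hval fun i => ⟨hd i, hL i⟩

/-- **Integral combinations of characters have integral combinations of values.** -/
theorem combination_integral {ι : Type*} [Fintype ι] {F : ι → Ideal (𝓞 K) →* ℂ}
    (hF : ∀ i, IsRayChar 𝔪 (F i)) (h𝔪 : 𝔪 ≠ ⊥) {c : ι → ℂ} (hk : 1 ≤ k)
    (hk2 : k ≤ 2 → 2 ≤ finrank ℚ K) (hp : ℓ.Prime) (hℓ : O.valuation (ℓ : ℂ) < 1)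
    (hbig : max 3 (k * finrank ℚ K + 1) < ℓ) (hN : ¬ℓ ∣ Ideal.absNorm 𝔪)
    (hval : ∀ A : Ideal (𝓞 K), A ≠ ⊥ → O.valuation (∑ i, c i * F i A) ≤ 1)
    {Z : ι → ℂ → ℂ} (hd : ∀ i, DifferentiableOn ℂ (Z i) {1}ᶜ)
    (hL : ∀ i, ∀ s : ℂ, 1 < s.re → Z i s = heckeL (F i) s) :
    O.valuation (∑ i, c i * Z i (1 - (k : ℂ))) ≤ 1 :=
  combination_integral_adm hF h𝔪 hk hk2 hp hℓ (large_prime hp hbig).1
    (Or.inl (large_prime hp hbig).2) hN hval hd hL

section classes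

variable {Z : ℂ → ℂ}

/-- The value of a class as an integral combination of the values of the characters. -/
theorem exists_class_combination (h𝔪 : 𝔪 ≠ ⊥) (γ : RayClassGroup 𝔪) (O : ValuationSubring ℂ) :
    ∃ (r : ℕ) (F : Fin r → Ideal (𝓞 K) →* ℂ) (c : Fin r → ℂ) (L : Fin r → ℂ → ℂ),
      (∀ i, IsRayChar 𝔪 (F i)) ∧ (∀ i, IsLExt (F i) (L i)) ∧
      (∀ A : Ideal (𝓞 K), A ≠ ⊥ → O.valuation (∑ i, c i * F i A) ≤ 1) ∧
      ∀ (Z : ℂ → ℂ), DifferentiableOn ℂ Z {1}ᶜ →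
        (∀ s : ℂ, 1 < s.re → Z s = rayClassZeta h𝔪 γ s) →
        ∀ k : ℕ, 1 ≤ k → Z (1 - (k : ℂ)) = ∑ i, c i * L i (1 - (k : ℂ)) := by
  have := finite_rayClassGroup h𝔪
  have : Fintype (RayClassGroup 𝔪) := Fintype.ofFinite _
  have := FA.Weight1.fintypeDual (U := RayClassGroup 𝔪)
  choose L hL using fun χ : RayClassGroup 𝔪 →* ℂˣ =>
    exists_isLExt (isRayChar_rayCharFn h𝔪 χ)
  obtain ⟨H, hH⟩ : ∃ H : ℂ, H = (Fintype.card (RayClassGroup 𝔪) : ℂ)⁻¹ := ⟨_, rfl⟩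
  have hval : ∀ A : Ideal (𝓞 K), A ≠ ⊥ →
      O.valuation (∑ χ : RayClassGroup 𝔪 →* ℂˣ, H * (χ γ⁻¹ : ℂ) * rayCharFn h𝔪 χ A) ≤ 1 := by
    intro A hA
    by_cases hc : A ⊔ 𝔪 = ⊤
    · obtain ⟨I, hI⟩ : ∃ I : coprimeIdeals 𝔪, I = ⟨⟨A, mem_nonZeroDivisors_iff_ne_zero.2 hA⟩, hc⟩ :=
        ⟨_, rfl⟩
      have e : ∀ χ : RayClassGroup 𝔪 →* ℂˣ, H * (χ γ⁻¹ : ℂ) * rayCharFn h𝔪 χ A =
          H * (χ (γ⁻¹ * rayClass h𝔪 I) : ℂ) := fun χ => by
        rw [map_mul, Units.val_mul, ← rayCharFn_apply h𝔪 χ I, hI, mul_assoc]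
      rw [Finset.sum_congr rfl fun χ _ => e χ, ← Finset.mul_sum]
      have hsum : ∑ χ : RayClassGroup 𝔪 →* ℂˣ, (χ (γ⁻¹ * rayClass h𝔪 I) : ℂ) =
          if γ⁻¹ * rayClass h𝔪 I = 1 then (Fintype.card (RayClassGroup 𝔪) : ℂ) else 0 := by
        convert FA.Weight1.sum_char_apply (U := RayClassGroup 𝔪) _ using 2
        ext; simp
      rw [hsum, hH]
      split_ifs
      · rw [inv_mul_cancel₀ (Nat.cast_ne_zero.2 Fintype.card_ne_zero), map_one]
      · rw [mul_zero, map_zero]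
        exact zero_le
    · rw [Finset.sum_eq_zero fun χ _ => by
        rw [(isRayChar_rayCharFn h𝔪 χ).eq_zero_of_not hA hc, mul_zero], map_zero]
      exact zero_le
  obtain ⟨e⟩ := Fintype.truncEquivFin (RayClassGroup 𝔪 →* ℂˣ)
  refine ⟨_, fun i => rayCharFn h𝔪 (e.symm i), fun i => H * (e.symm i γ⁻¹ : ℂ),
    fun i => L (e.symm i), fun i => isRayChar_rayCharFn h𝔪 _, fun i => hL _, fun A hA => ?_,
    fun Z hd hζ k hk => ?_⟩
  · rw [e.symm.sum_comp fun χ => H * (χ γ⁻¹ : ℂ) * rayCharFn h𝔪 χ A]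
    exact hval A hA
  rw [e.symm.sum_comp fun χ => H * (χ γ⁻¹ : ℂ) * L χ (1 - (k : ℂ))]
  obtain ⟨W, hW⟩ : ∃ W : ℂ → ℂ, W = fun s => ∑ χ, H * (χ γ⁻¹ : ℂ) * L χ s := ⟨_, rfl⟩
  have hW' : DifferentiableOn ℂ W {1}ᶜ :=
    hW ▸ DifferentiableOn.fun_sum fun χ _ => (hL χ).1.const_mul _
  rw [show ∑ χ, H * (χ γ⁻¹ : ℂ) * L χ (1 - (k : ℂ)) = W (1 - (k : ℂ)) by rw [hW]]
  refine (hd.analyticOnNhd isOpen_compl_singleton).eqOn_of_preconnected_of_eventuallyEq
    (hW'.analyticOnNhd isOpen_compl_singleton)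
    (isConnected_compl_singleton_of_one_lt_rank (by simp) 1).isPreconnected
    (z₀ := 2) (by simp) ?_ (one_sub_ne_one hk)
  filter_upwards [(isOpen_lt continuous_const Complex.continuous_re).mem_nhds
    (show (1 : ℝ) < (2 : ℂ).re by norm_num)] with s hs
  rw [hζ s hs, hW]
  simp only [(hL _).2 s hs, mul_assoc]
  rw [← Finset.mul_sum, ← card_mul_rayClassZeta h𝔪 γ hs, hH,
    inv_mul_cancel_left₀ (Nat.cast_ne_zero.2 Fintype.card_ne_zero)]

/-- The value of every narrow ray class is integral at a prime off the modulus, in an admissible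
weight. -/
theorem class_value_integral_adm (h𝔪 : 𝔪 ≠ ⊥) (γ : RayClassGroup 𝔪) (hk : 1 ≤ k)
    (hk2 : k ≤ 2 → 2 ≤ finrank ℚ K) (hp : ℓ.Prime) (hℓ : O.valuation (ℓ : ℂ) < 1)
    (h5 : 5 ≤ ℓ) (hadm : FA.WeightLevel.Admissible ℓ (k * finrank ℚ K)) (hN : ¬ℓ ∣ Ideal.absNorm 𝔪)
    (hd : DifferentiableOn ℂ Z {1}ᶜ) (hζ : ∀ s : ℂ, 1 < s.re → Z s = rayClassZeta h𝔪 γ s) :
    O.valuation (Z (1 - (k : ℂ))) ≤ 1 := by
  obtain ⟨r, F, c, L, hF, hL, hval, hZ⟩ := exists_class_combination h𝔪 γ O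
  rw [hZ Z hd hζ k hk]
  exact combination_integral_adm hF h𝔪 hk hk2 hp hℓ h5 hadm hN hval (fun i => (hL i).1)
    fun i => (hL i).2

/-- **The value of every narrow ray class is integral at every large prime off the modulus.** -/
theorem class_value_integral (h𝔪 : 𝔪 ≠ ⊥) (γ : RayClassGroup 𝔪) (hk : 1 ≤ k)
    (hk2 : k ≤ 2 → 2 ≤ finrank ℚ K) (hp : ℓ.Prime) (hℓ : O.valuation (ℓ : ℂ) < 1)
    (hbig : max 3 (k * finrank ℚ K + 1) < ℓ) (hN : ¬ℓ ∣ Ideal.absNorm 𝔪)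
    (hd : DifferentiableOn ℂ Z {1}ᶜ) (hζ : ∀ s : ℂ, 1 < s.re → Z s = rayClassZeta h𝔪 γ s) :
    O.valuation (Z (1 - (k : ℂ))) ≤ 1 :=
  class_value_integral_adm h𝔪 γ hk hk2 hp hℓ (large_prime hp hbig).1
    (Or.inl (large_prime hp hbig).2) hN hd hζ

/-- A rational that is integral at the good primes has a denominator of bad primes. -/
theorem den_of_integral (bad : ℕ → Prop) {r : ℚ}
    (h : ∀ (O : ValuationSubring ℂ) (ℓ : ℕ), ℓ.Prime → O.valuation (ℓ : ℂ) < 1 → ¬bad ℓ →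
      O.valuation (r : ℂ) ≤ 1) {p : ℕ} (hp : p.Prime) (hd : p ∣ r.den) : bad p := by
  obtain ⟨M, D', hMD, -, hbad, hgood⟩ :=
    FA.KlingenIntegral.Summary.exists_split_primes bad r.den r.den_ne_zero
  have hint : IsIntegral ℤ ((M : ℂ) * (r : ℂ)) := by
    refine FA.KlingenIntegral.Summary.isIntegral_of_val fun O => ?_
    by_cases hg : ∃ ℓ : ℕ, ℓ.Prime ∧ O.valuation (ℓ : ℂ) < 1 ∧ ¬bad ℓ
    · obtain ⟨ℓ, hℓp, hℓv, hℓb⟩ := hg
      rw [map_mul]
      exact mul_le_one' (val_natCast_le M) (h O ℓ hℓp hℓv hℓb)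
    · push Not at hg
      have hunit : ∀ m : ℕ, m ≠ 0 → (∀ q : ℕ, q.Prime → q ∣ m → ¬bad q) →
          O.valuation (m : ℂ) = 1 := by
        intro m
        induction m using Nat.recOnMul with
        | zero => exact fun h => absurd rfl h
        | one => exact fun _ _ => by rw [Nat.cast_one, map_one]
        | prime q hq =>
          intro _ hgq
          exact le_antisymm (val_natCast_le q) (not_lt.1 fun hlt => hgq q hq dvd_rfl (hg q hq hlt))
        | mul a b ha hb =>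
          intro hab hgq
          rw [Nat.cast_mul, map_mul, ha (left_ne_zero_of_mul hab) (fun q hq hd => hgq q hq
            (dvd_mul_of_dvd_left hd b)), hb (right_ne_zero_of_mul hab) (fun q hq hd => hgq q hq
            (dvd_mul_of_dvd_right hd a)), one_mul]
      have e : ((D' : ℂ)) * ((M : ℂ) * (r : ℂ)) = (r.num : ℂ) := by
        rw [← Rat.cast_natCast D', ← Rat.cast_natCast M, ← Rat.cast_mul, ← Rat.cast_mul,
          ← Rat.cast_intCast, ← Rat.mul_den_eq_num r, hMD, Nat.cast_mul]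
        push_cast
        ring
      have hv := val_intCast_le (O := O) r.num
      rwa [← e, map_mul, hunit D' (fun e0 => r.den_ne_zero (by rw [hMD, e0, mul_zero])) hgood,
        one_mul] at hv
  refine hbad p hp (hd.trans ?_)
  rw [← Rat.cast_natCast, ← Rat.cast_mul, ← eq_ratCast (algebraMap ℚ ℂ),
    isIntegral_algebraMap_iff (algebraMap ℚ ℂ).injective] at hint
  obtain ⟨m, hm⟩ := IsIntegrallyClosed.isIntegral_iff.1 hint
  rw [eq_intCast] at hm
  have e : ((r.den : ℤ)) ∣ (M : ℤ) * r.num := by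
    refine ⟨m, ?_⟩
    have hnum := Rat.mul_den_eq_num r
    have : ((M : ℤ) * r.num : ℚ) = ((r.den : ℤ) * m : ℤ) := by
      push_cast
      rw [← hnum, hm]
      ring
    exact_mod_cast this
  exact Int.natCast_dvd_natCast.1 ((Int.isCoprime_iff_nat_coprime.2 (by
    simpa using r.reduced.symm)).dvd_of_dvd_mul_right e)

/-- **One multiplier for all narrow ray classes**, composed of small primes and primes of the
modulus. -/
theorem class_value_denominators (h𝔪 : 𝔪 ≠ ⊥) (hk : 1 ≤ k) (hk2 : k ≤ 2 → 2 ≤ finrank ℚ K) :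
    ∃ M : ℕ, M ≠ 0 ∧
      (∀ p : ℕ, p.Prime → p ∣ M → p ≤ max 3 (k * finrank ℚ K + 1) ∨ p ∣ Ideal.absNorm 𝔪) ∧
      ∀ (γ : RayClassGroup 𝔪) (Z : ℂ → ℂ), DifferentiableOn ℂ Z {1}ᶜ →
        (∀ s : ℂ, 1 < s.re → Z s = rayClassZeta h𝔪 γ s) →
          ∃ m : ℤ, (M : ℂ) * Z (1 - (k : ℂ)) = (m : ℂ) := by
  have := finite_rayClassGroup h𝔪
  have : Fintype (RayClassGroup 𝔪) := Fintype.ofFinite _
  choose Z0 hZ0 using fun γ : RayClassGroup 𝔪 => exists_isClassExt h𝔪 γ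
  choose r hr using fun γ : RayClassGroup 𝔪 =>
    FA.KlingenTwo.classValue_rational h𝔪 γ hk (hZ0 γ)
  refine ⟨∏ γ, (r γ).den, Finset.prod_ne_zero_iff.2 fun γ _ => (r γ).den_ne_zero, fun p hp hd => ?_,
    fun γ Z hd hζ => ?_⟩
  · obtain ⟨γ, -, hγ⟩ := (Prime.dvd_finsetProd_iff (Nat.prime_iff.1 hp) _).1 hd
    refine den_of_integral (fun q => q ≤ max 3 (k * finrank ℚ K + 1) ∨ q ∣ Ideal.absNorm 𝔪)
      (fun O ℓ hℓp hℓv hgood => ?_) hp hγ
    push Not at hgood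
    rw [← hr γ]
    exact class_value_integral h𝔪 γ hk hk2 hℓp hℓv hgood.1 hgood.2 (hZ0 γ).1 (hZ0 γ).2
  · have e : Z (1 - (k : ℂ)) = Z0 γ (1 - (k : ℂ)) :=
      (hd.analyticOnNhd isOpen_compl_singleton).eqOn_of_preconnected_of_eventuallyEq
        ((hZ0 γ).1.analyticOnNhd isOpen_compl_singleton)
        (isConnected_compl_singleton_of_one_lt_rank (by simp) 1).isPreconnected
        (z₀ := 2) (by simp) (by
          filter_upwards [(isOpen_lt continuous_const Complex.continuous_re).mem_nhds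
            (show (1 : ℝ) < (2 : ℂ).re by norm_num)] with s hs
          rw [hζ s hs, (hZ0 γ).2 s hs]) (one_sub_ne_one hk)
    obtain ⟨q, hq⟩ := Finset.dvd_prod_of_mem (fun γ => (r γ).den) (Finset.mem_univ γ)
    refine ⟨(q : ℤ) * (r γ).num, ?_⟩
    rw [e, hr γ, hq, Nat.cast_mul, ← Rat.cast_natCast, ← Rat.cast_natCast q, ← Rat.cast_mul,
      ← Rat.cast_mul, ← Rat.cast_intCast, Int.cast_mul, ← Rat.mul_den_eq_num (r γ)]
    push_cast
    ring

/-- **Brumer's element has no large prime outside the modulus in its denominator.** -/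
theorem brumer_element_integral (h𝔪 : 𝔪 ≠ ⊥) (hn : 2 ≤ finrank ℚ K) {p : ℕ} (hp : p.Prime)
    (γ : RayClassGroup 𝔪) (hd : p ∣ (FA.CMValue.rayClassValue h𝔪 γ).den) :
    p ≤ max 3 (finrank ℚ K + 1) ∨ p ∣ Ideal.absNorm 𝔪 := by
  obtain ⟨Z0, hZ0⟩ := exists_isClassExt h𝔪 γ
  refine den_of_integral (fun q => q ≤ max 3 (finrank ℚ K + 1) ∨ q ∣ Ideal.absNorm 𝔪)
    (fun O ℓ hℓp hℓv hgood => ?_) hp hd
  push Not at hgood
  have h := class_value_integral h𝔪 γ le_rfl (fun _ => hn) hℓp hℓv (by rw [one_mul]; exact hgood.1)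
    hgood.2 hZ0.1 hZ0.2
  rwa [FA.KlingenZero.one_sub_one, FA.CMValue.rayClassValue_spec h𝔪 γ hZ0] at h

end classes

section congruences

variable {f g : Ideal (𝓞 K) →* ℂ} {Zf Zg : ℂ → ℂ}

/-- **The values differ no more than the characters.** -/
theorem char_congruence (hf : IsRayChar 𝔪 f) (hg : IsRayChar 𝔪 g) (hk : 1 ≤ k)
    (hk2 : k ≤ 2 → 2 ≤ finrank ℚ K) (hp : ℓ.Prime) (hℓ : O.valuation (ℓ : ℂ) < 1)
    (hbig : max 3 (k * finrank ℚ K + 1) < ℓ) (hN : ¬ℓ ∣ Ideal.absNorm 𝔪) {x : ℂ}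
    (hx : ∀ I : Ideal (𝓞 K), I ≠ ⊥ → O.valuation (f I - g I) ≤ O.valuation x)
    (hdf : DifferentiableOn ℂ Zf {1}ᶜ) (hLf : ∀ s : ℂ, 1 < s.re → Zf s = heckeL f s)
    (hdg : DifferentiableOn ℂ Zg {1}ᶜ) (hLg : ∀ s : ℂ, 1 < s.re → Zg s = heckeL g s) :
    O.valuation (Zf (1 - (k : ℂ)) - Zg (1 - (k : ℂ))) ≤ O.valuation x := by
  by_cases hx0 : x = 0
  · have e : ∀ I : Ideal (𝓞 K), I ≠ ⊥ → f I = g I := fun I hI => by
      have h := hx I hI
      rw [hx0, map_zero, le_zero_iff, map_eq_zero, sub_eq_zero] at h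
      exact h
    have hfg : IsLExt f Zg := ⟨hdg, fun s hs => (hLg s hs).trans (tsum_congr fun I => by
      rw [FA.Hecke.lHom_apply, FA.Hecke.lHom_apply, e _ (nonZeroDivisors.coe_ne_zero I)])⟩
    rw [IsLExt.unique ⟨hdf, hLf⟩ hfg (one_sub_ne_one hk), sub_self, map_zero]
    exact zero_le
  have key := combination_integral (ι := Fin 2) (F := ![f, g]) (c := ![x⁻¹, -x⁻¹]) (O := O)
    (fun i => by fin_cases i <;> assumption) hf.ne_bot hk hk2 hp hℓ hbig hN (fun A hA => ?_)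
    (Z := ![Zf, Zg]) (fun i => by fin_cases i <;> assumption)
    (fun i => by fin_cases i <;> assumption)
  · simp only [Fin.sum_univ_two, Matrix.cons_val_zero, Matrix.cons_val_one] at key
    rw [show x⁻¹ * Zf (1 - (k : ℂ)) + -x⁻¹ * Zg (1 - (k : ℂ)) =
      (Zf (1 - (k : ℂ)) - Zg (1 - (k : ℂ))) / x by ring, map_div₀,
      div_le_one₀ (zero_lt_iff.2 ((Valuation.ne_zero_iff _).2 hx0))] at key
    exact key
  · simp only [Fin.sum_univ_two, Matrix.cons_val_zero, Matrix.cons_val_one]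
    rw [show x⁻¹ * f A + -x⁻¹ * g A = (f A - g A) / x by ring, map_div₀,
      div_le_one₀ (zero_lt_iff.2 ((Valuation.ne_zero_iff _).2 hx0))]
    exact hx A hA

/-- **Congruent characters have congruent values.** -/
theorem char_congruent (hf : IsRayChar 𝔪 f) (hg : IsRayChar 𝔪 g) (hk : 1 ≤ k)
    (hk2 : k ≤ 2 → 2 ≤ finrank ℚ K) (hp : ℓ.Prime) (hℓ : O.valuation (ℓ : ℂ) < 1)
    (hbig : max 3 (k * finrank ℚ K + 1) < ℓ) (hN : ¬ℓ ∣ Ideal.absNorm 𝔪)
    (hx : ∀ I : Ideal (𝓞 K), I ≠ ⊥ → O.valuation (f I - g I) < 1)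
    (hdf : DifferentiableOn ℂ Zf {1}ᶜ) (hLf : ∀ s : ℂ, 1 < s.re → Zf s = heckeL f s)
    (hdg : DifferentiableOn ℂ Zg {1}ᶜ) (hLg : ∀ s : ℂ, 1 < s.re → Zg s = heckeL g s) :
    O.valuation (Zf (1 - (k : ℂ)) - Zg (1 - (k : ℂ))) < 1 := by
  have := finite_rayClassGroup hf.ne_bot
  have : Fintype (RayClassGroup 𝔪) := Fintype.ofFinite _
  obtain ⟨a, ha⟩ := exists_rayClassHom hf
  obtain ⟨b, hb⟩ := exists_rayClassHom hg
  choose I hI using rayClass_surjective hf.ne_bot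
  obtain ⟨T, hT⟩ : ∃ T : Finset ℂ,
      T = insert (ℓ : ℂ) (Finset.univ.image fun γ => (a γ : ℂ) - (b γ : ℂ)) := ⟨_, rfl⟩
  obtain ⟨x, hxT, hmax⟩ := T.exists_max_image O.valuation (hT ▸ Finset.insert_nonempty _ _)
  have hxlt : O.valuation x < 1 := by
    rw [hT, Finset.mem_insert, Finset.mem_image] at hxT
    rcases hxT with rfl | ⟨γ, -, rfl⟩
    · exact hℓ
    · rw [← hI γ, ha, show (b (rayClass hf.ne_bot (I γ)) : ℂ) = g (I γ).1.1 from hb (I γ)]
      exact hx _ (nonZeroDivisors.coe_ne_zero _)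
  refine (char_congruence hf hg hk hk2 hp hℓ hbig hN (fun J hJ => ?_) hdf hLf hdg hLg).trans_lt hxlt
  by_cases hc : J ⊔ 𝔪 = ⊤
  · obtain ⟨J', rfl⟩ : ∃ J' : coprimeIdeals 𝔪, J'.1.1 = J :=
      ⟨⟨⟨J, mem_nonZeroDivisors_iff_ne_zero.2 hJ⟩, hc⟩, rfl⟩
    refine hmax _ (hT ▸ Finset.mem_insert_of_mem (Finset.mem_image.2
      ⟨rayClass hf.ne_bot J', Finset.mem_univ _, ?_⟩))
    rw [ha, show (b (rayClass hf.ne_bot J') : ℂ) = g J'.1.1 from hb J']
  · rw [hf.eq_zero_of_not hJ hc, hg.eq_zero_of_not hJ hc, sub_self, map_zero]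
    exact zero_le

/-- A root of unity of `ℓ`-power order is congruent to `1`. -/
theorem val_sub_one (hp : ℓ.Prime) (hℓ : O.valuation (ℓ : ℂ) < 1) (a : ℕ) :
    ∀ {z : ℂ}, z ^ ℓ ^ a = 1 → O.valuation (z - 1) < 1 := by
  induction a with
  | zero =>
    intro z hz
    rw [pow_zero, pow_one] at hz
    rw [hz, sub_self, map_zero]
    exact zero_lt_one
  | succ a ih =>
    intro z hz
    have hzv : O.valuation z = 1 := val_root (pow_ne_zero _ hp.ne_zero) hz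
    have h1 : O.valuation (z ^ ℓ - 1) < 1 := ih (by rwa [← pow_mul, ← pow_succ'])
    have hu : O.valuation (z - 1) ≤ 1 :=
      (Valuation.map_sub _ _ _).trans (max_le hzv.le (map_one _).le)
    have e := (Commute.all (z - 1) (1 : ℂ)).add_pow_prime_eq hp
    rw [sub_add_cancel, one_pow] at e
    have h2 : O.valuation ((z - 1) ^ ℓ) < 1 := by
      rw [eq_sub_of_add_eq (eq_sub_of_add_eq e.symm), sub_sub, add_comm, ← sub_sub]
      refine (Valuation.map_sub _ _ _).trans_lt (max_lt h1 ?_)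
      rw [mul_assoc, mul_assoc, map_mul]
      refine mul_lt_one_of_lt_of_le hℓ ?_
      rw [one_mul, map_mul]
      refine mul_le_one' hu ?_
      refine Valuation.map_sum_le _ fun j _ => ?_
      rw [map_mul, map_mul, map_pow, map_pow, map_one, one_pow, mul_one]
      exact mul_le_one' (pow_le_one₀ zero_le hu) (val_natCast_le _)
    rw [map_pow] at h2
    exact (pow_lt_one_iff hp.ne_zero).1 h2

/-- **Twisting by a character of `ℓ`-power order** keeps the value modulo `ℓ`. -/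
theorem twist_congruence {ψ : Ideal (𝓞 K) →* ℂ} (hf : IsRayChar 𝔪 f) (hψ : IsRayChar 𝔪 ψ) {a : ℕ}
    (ha : ∀ I, I ≠ ⊥ → ψ I ≠ 0 → ψ I ^ ℓ ^ a = 1) (hk : 1 ≤ k)
    (hk2 : k ≤ 2 → 2 ≤ finrank ℚ K) (hp : ℓ.Prime) (hℓ : O.valuation (ℓ : ℂ) < 1)
    (hbig : max 3 (k * finrank ℚ K + 1) < ℓ) (hN : ¬ℓ ∣ Ideal.absNorm 𝔪)
    (hdf : DifferentiableOn ℂ Zf {1}ᶜ) (hLf : ∀ s : ℂ, 1 < s.re → Zf s = heckeL f s)
    (hdg : DifferentiableOn ℂ Zg {1}ᶜ) (hLg : ∀ s : ℂ, 1 < s.re → Zg s = heckeL (f * ψ) s) :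
    O.valuation (Zg (1 - (k : ℂ)) - Zf (1 - (k : ℂ))) < 1 ∧
      (O.valuation (Zf (1 - (k : ℂ))) = 1 →
        O.valuation (Zg (1 - (k : ℂ))) = 1 ∧ Zg (1 - (k : ℂ)) ≠ 0) := by
  have hd : O.valuation (Zg (1 - (k : ℂ)) - Zf (1 - (k : ℂ))) < 1 := by
    refine char_congruent (hf.mul hψ) hf hk hk2 hp hℓ hbig hN (fun I hI => ?_) hdg hLg hdf hLf
    rw [MonoidHom.mul_apply]
    by_cases h0 : f I = 0
    · rw [h0, zero_mul, sub_zero, map_zero]
      exact zero_lt_one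
    · have hψ0 : ψ I ≠ 0 := (hψ.ne_zero_iff I hI).2 ((hf.ne_zero_iff I hI).1 h0)
      rw [show f I * ψ I - f I = f I * (ψ I - 1) by ring, map_mul]
      exact (mul_le_of_le_one_left' (val_char hf I)).trans_lt (val_sub_one hp hℓ a (ha I hI hψ0))
  refine ⟨hd, fun h1 => ?_⟩
  have e : O.valuation (Zg (1 - (k : ℂ))) = 1 := by
    rw [← sub_add_cancel (Zg (1 - (k : ℂ))) (Zf (1 - (k : ℂ))),
      Valuation.map_add_eq_of_lt_right _ (h1.symm ▸ hd), h1]
  exact ⟨e, fun h0 => by rw [h0, map_zero] at e; exact zero_ne_one e⟩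

end congruences

section cm

variable {L : Type*} [Field L] [NumberField L] [IsCMField L]

local notation "L⁺" => maximalRealSubfield L

/-- A character times one of a multiple of its modulus. -/
theorem isRayChar_mul_of_le {𝔣 𝔫 : Ideal (𝓞 K)} {g ψ : Ideal (𝓞 K) →* ℂ} (hg : IsRayChar 𝔣 g)
    (hψ : IsRayChar 𝔫 ψ) (hle : 𝔫 ≤ 𝔣) : IsRayChar 𝔫 (g * ψ) where
  ne_bot := hψ.ne_bot
  ne_zero_iff I hI := by
    rw [MonoidHom.mul_apply, mul_ne_zero_iff, hψ.ne_zero_iff I hI, hg.ne_zero_iff I hI]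
    exact ⟨fun h => h.2, fun h => ⟨top_le_iff.1 (h.ge.trans (sup_le_sup_left hle _)), h⟩⟩
  ray x hx hx1 hp := by
    rw [MonoidHom.mul_apply, hψ.ray x hx hx1 hp, hg.ray x hx (hle hx1) hp, one_mul]

/-- The trivial character of the modulus. -/
theorem isRayChar_pow {𝔫 : Ideal (𝓞 K)} {ψ : Ideal (𝓞 K) →* ℂ} (hψ : IsRayChar 𝔫 ψ) {m : ℕ}
    (hm : m ≠ 0) : IsRayChar 𝔫 (ψ ^ m) where
  ne_bot := hψ.ne_bot
  ne_zero_iff I hI := by
    rw [MonoidHom.pow_apply, pow_ne_zero_iff hm, hψ.ne_zero_iff I hI]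
  ray x hx hx1 hp := by
    rw [MonoidHom.pow_apply, hψ.ray x hx hx1 hp, one_pow]

/-- **CM fields**: for a prime `ℓ` above `n + 1` prime to the class number and the conductor of the
quadratic character, its value at `0` and those of its twists of `ℓ`-power order are units. -/
theorem cm_twist_units (hn : 2 ≤ finrank ℚ L⁺) :
    ∃ (𝔣 : Ideal (𝓞 L⁺)) (g : Ideal (𝓞 L⁺) →* ℂ),
      HasSigns 𝔣 g Finset.univ ∧ IsPrimitiveChar 𝔣 g ∧
      (∀ s : ℂ, 1 < s.re → dedekindZeta L s = dedekindZeta L⁺ s * heckeL g s) ∧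
      ∀ (O : ValuationSubring ℂ) (ℓ : ℕ), ℓ.Prime → O.valuation (ℓ : ℂ) < 1 →
        max 3 (finrank ℚ L⁺ + 1) < ℓ → ¬ℓ ∣ Ideal.absNorm 𝔣 → ¬ℓ ∣ classNumber L →
        (∀ Z : ℂ → ℂ, DifferentiableOn ℂ Z {1}ᶜ → (∀ s : ℂ, 1 < s.re → Z s = heckeL g s) →
          O.valuation (Z 0) = 1) ∧
        ∀ (𝔫 : Ideal (𝓞 L⁺)) (ψ : Ideal (𝓞 L⁺) →* ℂ) (a : ℕ), IsRayChar 𝔫 ψ → 𝔫 ≤ 𝔣 →
          ¬ℓ ∣ Ideal.absNorm 𝔫 → (∀ I, I ≠ ⊥ → ψ I ≠ 0 → ψ I ^ ℓ ^ a = 1) →
          (∀ P : Ideal (𝓞 L⁺), P.IsMaximal → 𝔫 ≤ P → g P ≠ 1) →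
          ∀ Z : ℂ → ℂ, DifferentiableOn ℂ Z {1}ᶜ → (∀ s : ℂ, 1 < s.re → Z s = heckeL (g * ψ) s) →
            O.valuation (Z 0) = 1 ∧ Z 0 ≠ 0 := by
  obtain ⟨𝔣, g, hS, hprim, hnt, hv, hz⟩ := FA.CMValue.exists_cm_char (K := L)
  refine ⟨𝔣, g, hS, hprim, hz, fun O ℓ hp hℓ hbig hN hh => ?_⟩
  obtain ⟨h5, hkn⟩ := large_prime (k := 1) (n := finrank ℚ L⁺) hp (by rw [one_mul]; exact hbig)
  rw [one_mul] at hkn
  have hunit : ∀ Z : ℂ → ℂ, DifferentiableOn ℂ Z {1}ᶜ →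
      (∀ s : ℂ, 1 < s.re → Z s = heckeL g s) → O.valuation (Z 0) = 1 := fun Z hd hL => by
    have hle : O.valuation (Z 0) ≤ 1 := by
      have h := val_value hp hℓ h5 hS.ray le_rfl (fun e => absurd e (by norm_num))
        (Or.inl (by rwa [one_mul])) hN (Z := Z) ⟨hd, hL⟩
      rwa [FA.KlingenZero.one_sub_one] at h
    have e := congrArg O.valuation
      (FA.CMValue.classNumber_formula (K := L) hd fun s hs => by rw [hz s hs, hL s hs])
    have h2 : O.valuation (2 : ℂ) = 1 := by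
      rw [show (2 : ℂ) = ((2 : ℕ) : ℂ) by norm_num]
      exact val_natCast_eq_one hp hℓ fun hd => by
        have := Nat.le_of_dvd two_pos hd
        omega
    rw [map_mul, map_pow, h2, one_pow, mul_one, val_natCast_eq_one hp hℓ hh, map_mul, map_mul,
      map_mul] at e
    refine le_antisymm hle ?_
    rw [e]
    exact mul_le_of_le_one_left' (mul_le_one' (mul_le_one' (val_natCast_le _) (val_natCast_le _))
      (val_natCast_le _))
  refine ⟨hunit, fun 𝔫 ψ a hψ hle hN' ha hP Z hd hL => ?_⟩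
  have hm : ℓ ^ a ≠ 0 := pow_ne_zero _ hp.ne_zero
  have hf := isRayChar_mul_of_le hS.ray (isRayChar_pow hψ hm) hle
  have hgf : ∀ I : Ideal (𝓞 L⁺), I ≠ ⊥ → I ⊔ 𝔫 = ⊤ → g I = (g * ψ ^ ℓ ^ a) I := fun I hI hc => by
    rw [MonoidHom.mul_apply, MonoidHom.pow_apply, ha I hI ((hψ.ne_zero_iff I hI).2 hc), mul_one]
  have hE := isLExt_induced hf hS hprim hnt hgf
  have h0 : O.valuation (primExt hS hprim 0 *
      ∏ v ∈ hf.finite_zero.toFinset, (1 - fPow g 0 v)) = 1 := by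
    rw [map_mul, hunit _ (differentiable_primExt hS hprim).differentiableOn
      (fun s hs => primExt_eq hS hprim hnt hs), one_mul, map_prod]
    refine Finset.prod_eq_one fun v hv' => ?_
    rw [Set.Finite.mem_toFinset] at hv'
    have hle' : 𝔫 ≤ v.asIdeal := by
      by_contra hcon
      exact (hf.ne_zero_iff _ v.ne_bot).2
        ((v.isPrime.isMaximal v.ne_bot).out.2 _ (left_lt_sup.2 hcon)) hv'
    have h1 := hP v.asIdeal (v.isPrime.isMaximal v.ne_bot) hle'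
    rw [← FA.KlingenZero.one_sub_one, fPow, primePow_one_sub v le_rfl, Nat.sub_self, pow_zero,
      mul_one]
    rcases hv v.asIdeal v.ne_bot with e | e | e
    · rw [e, sub_zero, map_one]
    · exact absurd e h1
    · rw [e, sub_neg_eq_add, one_add_one_eq_two, show (2 : ℂ) = ((2 : ℕ) : ℂ) by norm_num]
      exact val_natCast_eq_one hp hℓ fun hd => by
        have := Nat.le_of_dvd two_pos hd
        omega
  have hmain := twist_congruence (k := 1) (a := a) hf hψ ha le_rfl (fun _ => hn) hp hℓ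
    (by rw [one_mul]; exact hbig) hN' hE.1 hE.2 (Zg := Z) hd (fun s hs => (hL s hs).trans
      (tsum_congr fun I => by
        rw [FA.Hecke.lHom_apply, FA.Hecke.lHom_apply]
        congr 1
        simp only [MonoidHom.mul_apply, MonoidHom.pow_apply]
        by_cases hI : ψ I.1 = 0
        · rw [hI, mul_zero, mul_zero]
        · rw [ha _ (nonZeroDivisors.coe_ne_zero I) hI, mul_one]))
  simp only [FA.KlingenZero.one_sub_one] at hmain
  exact hmain.2 h0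

end cm

end FA.ClassIntegral.Summary

end
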