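import Fermat.Agent.Root.SummaryClassIntegral

/-!
# Summary: constant terms at level `N`, and integrality at every prime

Serre's constant term theorem at level `N` for primes `ℓ ≥ 5` not dividing `N`: in every weight `w`
with `ℓ - 1 ∤ 2 w` (or `w` even and `ℓ - 1 ∤ w`) the coefficients of positive index at all cusps
bound the constants. Hence the zeta values at `1 - k` of a totally real field of degree `n`, of its
narrow ray classes, and the integral combinations of L-values, are integral at every `ℓ ≥ 5` prime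
to the modulus with `ℓ - 1 ∤ 2 k n` (or `k n` even and `ℓ - 1 ∤ k n`), however small: the primes of
a denominator divide `6 N 𝔪` or satisfy `(p - 1) ∣ k n` (`∣ 2 k n` for `k n` odd).
-/

set_option autoImplicit false
set_option linter.unusedSectionVars false
set_option linter.style.haveILetI false

noncomputable section

open NumberField InfinitePlace IsDedekindDomain Module Filter Complex
open UpperHalfPlane hiding I
open scoped Real nonZeroDivisors Classical Topology MatrixGroups Manifold ModularForm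

namespace FA.WeightLevel.Summary

open FA.KlingenRay (IsMF rayClassZeta)
open FA.HeckeFE (extension)
open FA.Hecke (IsRayChar heckeL RayClassGroup)
open FA.Eis (HasQ)
open CongruenceSubgroup (Gamma)

/-- **Serre's constant term theorem at level `N`.** -/
theorem constant_le_level {N : ℕ} [NeZero N] {w : ℕ} {f : ℍ → ℂ}
    (hinv : ∀ γ ∈ CongruenceSubgroup.Gamma N, f ∣[(w : ℤ)] γ = f) {O : ValuationSubring ℂ} {ℓ : ℕ} (hp : ℓ.Prime)
    (hℓ : O.valuation (ℓ : ℂ) < 1) (h5 : 5 ≤ ℓ) (hN : ¬ℓ ∣ N)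
    (hw : ¬(ℓ - 1) ∣ 2 * w ∨ (Even w ∧ ¬(ℓ - 1) ∣ w)) (S : SL(2, ℤ) → PowerSeries ℂ)
    (hS : ∀ A, HasQ (N : ℝ) (f ∣[(w : ℤ)] A) (S A)) {γ : O.ValueGroup}
    (hγ : ∀ B n, n ≠ 0 → O.valuation (PowerSeries.coeff n (S B)) ≤ γ) (A : SL(2, ℤ)) :
    O.valuation (PowerSeries.coeff 0 (S A)) ≤ γ := by
  have hpos : (0 : ℝ) < (N : ℝ) := Nat.cast_pos.2 (NeZero.pos N)
  have h1 := hS 1
  rw [SlashAction.slash_one] at h1
  exact FA.WeightLevel.constant_le_level hp hℓ h5 hN hw le_rfl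
    ⟨hinv, h1.mdiff hpos, fun B => (hS B).bdd hpos⟩ S hS hγ A

variable {K : Type*} [Field K] [NumberField K] [IsTotallyReal K]
variable {𝔪 : Ideal (𝓞 K)} {k : ℕ}

/-- **Integral combinations of characters have integral combinations of values** at every prime
`ℓ ≥ 5` off the modulus with `ℓ - 1 ∤ 2 k n`. -/
theorem combination_integral_all {ι : Type*} [Fintype ι] {F : ι → Ideal (𝓞 K) →* ℂ}
    (hF : ∀ i, IsRayChar 𝔪 (F i)) (h𝔪 : 𝔪 ≠ ⊥) {c : ι → ℂ} (hk : 1 ≤ k)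
    (hk2 : k ≤ 2 → 2 ≤ finrank ℚ K) {O : ValuationSubring ℂ} {ℓ : ℕ} (hp : ℓ.Prime)
    (hℓ : O.valuation (ℓ : ℂ) < 1) (h5 : 5 ≤ ℓ) (hw : ¬(ℓ - 1) ∣ 2 * (k * finrank ℚ K))
    (hN : ¬ℓ ∣ Ideal.absNorm 𝔪)
    (hval : ∀ A : Ideal (𝓞 K), A ≠ ⊥ → O.valuation (∑ i, c i * F i A) ≤ 1)
    {Z : ι → ℂ → ℂ} (hd : ∀ i, DifferentiableOn ℂ (Z i) {1}ᶜ)
    (hL : ∀ i, ∀ s : ℂ, 1 < s.re → Z i s = heckeL (F i) s) :
    O.valuation (∑ i, c i * Z i (1 - (k : ℂ))) ≤ 1 :=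
  FA.ClassIntegral.Summary.combination_integral_adm hF h𝔪 hk hk2 hp hℓ h5 (Or.inr (Or.inl hw)) hN
    hval hd hL

/-- A prime at which the weight is not admissible. -/
theorem dvd_of_not_admissible {p w : ℕ} (h : ¬Admissible p w) :
    (p - 1) ∣ 2 * w ∧ (Even w → (p - 1) ∣ w) := by
  simp only [Admissible, not_or, not_and_or, not_not] at h
  exact ⟨h.2.1, fun he => h.2.2.resolve_left (fun h' => h' he)⟩

/-- **The primes of the denominator of the zeta value of a narrow ray class.** -/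
theorem class_value_den (h𝔪 : 𝔪 ≠ ⊥) (γ : RayClassGroup 𝔪) (hk : 1 ≤ k)
    (hk2 : k ≤ 2 → 2 ≤ finrank ℚ K) {Z : ℂ → ℂ} (hd : DifferentiableOn ℂ Z {1}ᶜ)
    (hζ : ∀ s : ℂ, 1 < s.re → Z s = rayClassZeta h𝔪 γ s) :
    ∃ r : ℚ, Z (1 - (k : ℂ)) = (r : ℂ) ∧ ∀ p : ℕ, p.Prime → p ∣ r.den → p ≤ 3 ∨
      p ∣ Ideal.absNorm 𝔪 ∨ ((p - 1) ∣ 2 * (k * finrank ℚ K) ∧
        (Even (k * finrank ℚ K) → (p - 1) ∣ k * finrank ℚ K)) := by
  obtain ⟨r, hr⟩ := FA.KlingenTwo.classValue_rational h𝔪 γ hk (Z := Z) ⟨hd, hζ⟩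
  refine ⟨r, hr, fun p hp hdvd => ?_⟩
  refine FA.ClassIntegral.Summary.den_of_integral (fun q => q ≤ 3 ∨ q ∣ Ideal.absNorm 𝔪 ∨
    ((q - 1) ∣ 2 * (k * finrank ℚ K) ∧ (Even (k * finrank ℚ K) → (q - 1) ∣ k * finrank ℚ K)))
    (fun O ℓ hℓp hℓv hgood => ?_) hp hdvd
  simp only [not_or] at hgood
  obtain ⟨h3, hm, hw⟩ := hgood
  have h4 : ℓ ≠ 4 := fun e => by rw [e] at hℓp; norm_num at hℓp
  rw [← hr]
  exact FA.ClassIntegral.Summary.class_value_integral_adm h𝔪 γ hk hk2 hℓp hℓv (by omega)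
    (by_contra fun h => hw (dvd_of_not_admissible h)) hm hd hζ

/-- **The denominator of `ζ_K (1 - k)`**: only `2`, `3` and the primes `p` with `(p - 1) ∣ k n`. -/
theorem zeta_value_den (hk : 2 ≤ k) (hev : Even k) (hk2 : k = 2 → 2 ≤ finrank ℚ K) :
    ∃ r : ℚ, extension K (1 - (k : ℂ)) = (r : ℂ) ∧
      ∀ p : ℕ, p.Prime → p ∣ r.den → p ≤ 3 ∨ (p - 1) ∣ k * finrank ℚ K := by
  obtain ⟨r, hr, -⟩ := FA.KlingenTwo.exists_extension_eq (K := K) hk
  refine ⟨r, hr, fun p hp hdvd => ?_⟩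
  refine FA.ClassIntegral.Summary.den_of_integral
    (fun q => q ≤ 3 ∨ (q - 1) ∣ k * finrank ℚ K) (fun O ℓ hℓp hℓv hgood => ?_) hp hdvd
  simp only [not_or] at hgood
  obtain ⟨h3, hw⟩ := hgood
  have h4 : ℓ ≠ 4 := fun e => by rw [e] at hℓp; norm_num at hℓp
  rw [← hr]
  exact FA.KlingenIntegral.val_extension hℓp hℓv (by omega) hk hk2
    (Or.inr (Or.inr ⟨hev.mul_right _, hw⟩))

end FA.WeightLevel.Summary

end
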