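import Fermat.Agent.WeightLevel.KummerValues
import Fermat.Agent.Root.SummaryWeightLevel

/-!
# Summary: Kummer's congruences for L-values and partial zeta values of totally real fields

Let `ℓ ≥ 5` be prime to `N 𝔪`, let `a + 2 ≤ k ≤ k'` (`n ≥ 2` if `k = 2`) with
`k ≡ k' (mod (ℓ - 1) ℓ ^ a)` and `ℓ - 1 ∤ 2 k n` (or `k n` even and `ℓ - 1 ∤ k n`). A combination of
ray class characters modulo `𝔪` with integral values at all ideals has combinations of values at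
`1 - k` and `1 - k'` congruent modulo `ℓ ^ (a + 1)`. In particular so are the values of each
character and the zeta values of each narrow ray class: the congruences of Coates and Sinnott,
Deligne and Ribet, where the Euler factors over `ℓ` are invisible.
-/

set_option autoImplicit false
set_option linter.unusedSectionVars false
set_option linter.style.haveILetI false

noncomputable section

open NumberField InfinitePlace IsDedekindDomain Module Filter Complex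
open scoped Real nonZeroDivisors Classical Topology

namespace FA.WeightLevel.Summary

open FA.KlingenRay (rayClassZeta)
open FA.Hecke (IsRayChar heckeL RayClassGroup)

variable {K : Type*} [Field K] [NumberField K] [IsTotallyReal K]
variable {𝔪 : Ideal (𝓞 K)} {a k k' ℓ : ℕ}

/-- **Kummer's congruence for combinations of ray class characters.** -/
theorem combination_congruence {ι : Type*} [Fintype ι] {F : ι → Ideal (𝓞 K) →* ℂ}
    (hF : ∀ i, IsRayChar 𝔪 (F i)) (h𝔪 : 𝔪 ≠ ⊥) {c : ι → ℂ} (hp : ℓ.Prime)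
    {O : ValuationSubring ℂ} (hℓ : O.valuation (ℓ : ℂ) < 1) (h5 : 5 ≤ ℓ)
    (hak : a + 2 ≤ k) (hkk : k ≤ k') (hmod : k ≡ k' [MOD (ℓ - 1) * ℓ ^ a])
    (hk2 : k = 2 → 2 ≤ finrank ℚ K)
    (hw : ¬(ℓ - 1) ∣ 2 * (k * finrank ℚ K) ∨
      (Even (k * finrank ℚ K) ∧ ¬(ℓ - 1) ∣ k * finrank ℚ K))
    (hN : ¬ℓ ∣ Ideal.absNorm 𝔪)
    (hval : ∀ A : Ideal (𝓞 K), A ≠ ⊥ → O.valuation (∑ i, c i * F i A) ≤ 1)
    {Z : ι → ℂ → ℂ} (hd : ∀ i, DifferentiableOn ℂ (Z i) {1}ᶜ)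
    (hL : ∀ i, ∀ s : ℂ, 1 < s.re → Z i s = heckeL (F i) s) :
    O.valuation (∑ i, c i * Z i (1 - (k' : ℂ)) - ∑ i, c i * Z i (1 - (k : ℂ))) ≤
      O.valuation (ℓ : ℂ) ^ (a + 1) :=
  val_combination_sub hp hℓ h5 hF h𝔪 hak hkk ((Nat.modEq_iff_dvd' hkk).1 hmod) hk2 hw hN hval
    fun i => ⟨hd i, hL i⟩

/-- **Kummer's congruence for a ray class character.** -/
theorem char_kummer {f : Ideal (𝓞 K) →* ℂ} (hf : IsRayChar 𝔪 f) (hp : ℓ.Prime)
    {O : ValuationSubring ℂ} (hℓ : O.valuation (ℓ : ℂ) < 1) (h5 : 5 ≤ ℓ)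
    (hak : a + 2 ≤ k) (hkk : k ≤ k') (hmod : k ≡ k' [MOD (ℓ - 1) * ℓ ^ a])
    (hk2 : k = 2 → 2 ≤ finrank ℚ K)
    (hw : ¬(ℓ - 1) ∣ 2 * (k * finrank ℚ K) ∨
      (Even (k * finrank ℚ K) ∧ ¬(ℓ - 1) ∣ k * finrank ℚ K))
    (hN : ¬ℓ ∣ Ideal.absNorm 𝔪) {Z : ℂ → ℂ} (hd : DifferentiableOn ℂ Z {1}ᶜ)
    (hL : ∀ s : ℂ, 1 < s.re → Z s = heckeL f s) :
    O.valuation (Z (1 - (k' : ℂ)) - Z (1 - (k : ℂ))) ≤ O.valuation (ℓ : ℂ) ^ (a + 1) := by
  have h := combination_congruence (ι := Unit) (fun _ => hf) hf.ne_bot (c := fun _ => 1) hp hℓ h5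
    hak hkk hmod hk2 hw hN
    (fun A _ => by simpa using FA.KlingenIntegral.val_char hf A) (Z := fun _ => Z) (fun _ => hd)
    fun _ => hL
  simpa using h

/-- **Kummer's congruence for the zeta values of a narrow ray class.** -/
theorem class_kummer (h𝔪 : 𝔪 ≠ ⊥) (γ : RayClassGroup 𝔪) (hp : ℓ.Prime) (h5 : 5 ≤ ℓ)
    (hak : a + 2 ≤ k) (hkk : k ≤ k') (hmod : k ≡ k' [MOD (ℓ - 1) * ℓ ^ a])
    (hk2 : k = 2 → 2 ≤ finrank ℚ K)
    (hw : ¬(ℓ - 1) ∣ 2 * (k * finrank ℚ K) ∨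
      (Even (k * finrank ℚ K) ∧ ¬(ℓ - 1) ∣ k * finrank ℚ K))
    (hN : ¬ℓ ∣ Ideal.absNorm 𝔪) {Z : ℂ → ℂ} (hd : DifferentiableOn ℂ Z {1}ᶜ)
    (hζ : ∀ s : ℂ, 1 < s.re → Z s = rayClassZeta h𝔪 γ s) :
    ∃ r r' s : ℚ, Z (1 - (k : ℂ)) = (r : ℂ) ∧ Z (1 - (k' : ℂ)) = (r' : ℂ) ∧
      ¬ℓ ∣ r.den ∧ ¬ℓ ∣ s.den ∧ r' - r = (ℓ : ℚ) ^ (a + 1) * s := by
  obtain ⟨r, hr⟩ := FA.KlingenTwo.classValue_rational h𝔪 γ (by omega : 1 ≤ k) (Z := Z) ⟨hd, hζ⟩
  obtain ⟨r', hr'⟩ := FA.KlingenTwo.classValue_rational h𝔪 γ (by omega : 1 ≤ k') (Z := Z) ⟨hd, hζ⟩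
  have hℓ0 : (ℓ : ℚ) ^ (a + 1) ≠ 0 := pow_ne_zero _ (Nat.cast_ne_zero.2 hp.ne_zero)
  obtain ⟨s, hs⟩ : ∃ s, s = (r' - r) / (ℓ : ℚ) ^ (a + 1) := ⟨_, rfl⟩
  refine ⟨r, r', s, hr, hr', fun h => ?_, fun h => ?_, by rw [hs, mul_div_cancel₀ _ hℓ0]⟩
  · refine FA.ClassIntegral.Summary.den_of_integral (fun q => q ≠ ℓ)
      (fun O q hqp hqv hgood => ?_) hp h rfl
    obtain rfl : q = ℓ := not_not.1 hgood
    rw [← hr]
    exact FA.ClassIntegral.Summary.class_value_integral_adm h𝔪 γ (by omega)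
      (fun e => hk2 (by omega)) hp hqv h5 (Or.inr hw) hN hd hζ
  · refine FA.ClassIntegral.Summary.den_of_integral (fun q => q ≠ ℓ)
      (fun O q hqp hqv hgood => ?_) hp h rfl
    obtain rfl : q = ℓ := not_not.1 hgood
    obtain ⟨m, F, c, L, hF, hL, hval, hZ⟩ :=
      FA.ClassIntegral.Summary.exists_class_combination h𝔪 γ O
    have key := combination_congruence hF h𝔪 hp hqv h5 hak hkk hmod hk2 hw hN hval
      (fun i => (hL i).1) fun i => (hL i).2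
    rw [← hZ Z hd hζ k' (by omega), ← hZ Z hd hζ k (by omega), hr, hr', ← Rat.cast_sub] at key
    rw [hs, Rat.cast_div, map_div₀, Rat.cast_pow, Rat.cast_natCast, map_pow]
    exact div_le_one_of_le₀ key zero_le

end FA.WeightLevel.Summary

end
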