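import Fermat.Agent.EC.SevenSemistable
import Fermat.Agent.Root.SummaryCubeEquation

/-!
# Squares and cubes as combinations of two high powers, from the exponent `7` on

The curve of `x² = A y ^ n + B z ^ n` has a rational point of order `2` and that of
`x³ = A y ^ n + B z ^ n` one of order `3`, so their mod `7` representations are irreducible and
the equations have no solution when `n` has a prime factor `p ≥ 7`.
-/

set_option autoImplicit false

noncomputable section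

open WeierstrassCurve

namespace FA.PowerEquations

/-- The lowered level divides `M` when the discriminant is a `p`-th power away from `M`. -/
theorem exists_level_of_discriminant {W : WeierstrassCurve ℤ} (hΔ : W.Δ ≠ 0)
    (hW : W.IsSemistableModel) {p : ℕ} [Fact p.Prime] (hp2 : p ≠ 2)
    (hirr : W.ModRepIsIrreducible p) {M : ℕ} {a b t : ℤ} (ha : a ≠ 0)
    (hsa : ∀ q : ℕ, q.Prime → (q : ℤ) ∣ a → q ∣ M)
    (hsb : ∀ q : ℕ, q.Prime → (q : ℤ) ∣ b → q ∣ M) (h : a * W.Δ = b * t ^ p) :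
    ∃ N : ℕ, N ∣ M ∧ Squarefree N ∧ W.IsResiduallyModularOfLevel p N := by
  have hp : p.Prime := Fact.out
  have hb : b ≠ 0 ∧ t ≠ 0 := by
    constructor <;> rintro rfl <;> simp [zero_pow hp.ne_zero, ha, hΔ] at h
  set S := W.Δ.natAbs.primeFactors.filter (fun q => ¬ p ∣ padicValInt q W.Δ) with hS
  have hprime : ∀ q ∈ S, q.Prime := fun q hq =>
    Nat.prime_of_mem_primeFactors (Finset.mem_filter.mp hq).1
  have hsq : Squarefree (∏ q ∈ S, q) := FA.Theta.squarefree_prod_primes S hprime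
  obtain ⟨N, hN, hres⟩ := FA.Root.exists_level_recipe hp2 hΔ hW hirr
    (FA.Root.squarefree_badProd W)
    (FA.Root.isResiduallyModularOfLevel_of_modular hp (FA.SS.semistableModular W hΔ hW))
  rw [← hS] at hN
  have hdvd : (∏ q ∈ S, q) ∣ M := by
    refine Finset.prod_primes_dvd M (fun q hq => (hprime q hq).prime) fun q hq => ?_
    have hqv := (Finset.mem_filter.1 hq).2
    have hqp := hprime q hq
    have := Fact.mk hqp
    by_contra hqM
    have ea : padicValInt q a = 0 := padicValInt.eq_zero_of_not_dvd fun h => hqM (hsa q hqp h)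
    have eb : padicValInt q b = 0 := padicValInt.eq_zero_of_not_dvd fun h => hqM (hsb q hqp h)
    refine hqv ⟨padicValInt q t, ?_⟩
    have e := congrArg (padicValInt q) h
    rw [padicValInt.mul ha hΔ, padicValInt.mul hb.1 (pow_ne_zero _ hb.2), ea, eb] at e
    rw [← zero_add (padicValInt q W.Δ), e, zero_add, padicValInt, Int.natAbs_pow,
      padicValNat.pow _ _]
    rfl
  exact ⟨N, hN.trans hdvd, hsq.squarefree_of_dvd hN, hres⟩

/-- A semistable discriminant with irreducible mod `p` representation is no `p`-th power away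
from the primes of `M < 11`. -/
theorem false_of_discriminant_eq_of_irreducible {W : WeierstrassCurve ℤ} (hΔ : W.Δ ≠ 0)
    (hW : W.IsSemistableModel) {p : ℕ} [Fact p.Prime] (hp2 : p ≠ 2)
    (hirr : W.ModRepIsIrreducible p) {M : ℕ} (hM0 : M ≠ 0) (hM : M < 11) {a b t : ℤ} (ha : a ≠ 0)
    (hsa : ∀ q : ℕ, q.Prime → (q : ℤ) ∣ a → q ∣ M)
    (hsb : ∀ q : ℕ, q.Prime → (q : ℤ) ∣ b → q ∣ M) (h : a * W.Δ = b * t ^ p) : False := by
  obtain ⟨N, hNM, hsqN, f, -, hf, -⟩ :=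
    exists_level_of_discriminant hΔ hW hp2 hirr ha hsa hsb h
  have : NeZero N := ⟨hsqN.ne_zero⟩
  refine hf.ne_zero (FA.Ribet.cuspForm_eq_zero_of_genusFormula ?_ f)
  have hle : N < 11 := (Nat.le_of_dvd (Nat.pos_of_ne_zero hM0) hNM).trans_lt hM
  have hN0 : N ≠ 0 := hsqN.ne_zero
  have h4 : ¬ 2 * 2 ∣ N := fun hd => Nat.prime_two.not_isUnit (hsqN 2 hd)
  have h9 : ¬ 3 * 3 ∣ N := fun hd => Nat.prime_three.not_isUnit (hsqN 3 hd)
  interval_cases N
  all_goals first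
    | omega
    | exact FA.Ribet.genusFormula_7
    | exact FA.Ribet.genusFormula_eq_zero (Or.inl rfl) (Nat.dvd_of_mod_eq_zero rfl)
    | exact FA.Ribet.genusFormula_eq_zero (Or.inr rfl) (Nat.dvd_of_mod_eq_zero rfl)

theorem eq_seven_or_eleven_le {p : ℕ} (hp : p.Prime) (h7 : 7 ≤ p) : p = 7 ∨ 11 ≤ p := by
  by_contra h
  push Not at h
  obtain ⟨h1, h2⟩ := h
  interval_cases p <;> first | omega | exact absurd hp (by norm_num)

end FA.PowerEquations

namespace FA.Summary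

open FA.PowerEquations

/-- **The equation `x² = A y ^ n + B z ^ n`** with the primes of `A` and `B` dividing `6` or
`10`, `x` odd and `64` dividing `B z ^ n`, for `n` with a prime factor `p ≥ 7`. -/
theorem squareEquation_seven {n p : ℕ} (hp : p.Prime) (h7 : 7 ≤ p) (hpn : p ∣ n) {M : ℕ}
    (hM : M = 6 ∨ M = 10) {A B x y z : ℤ} (hA : A ≠ 0) (hB : B ≠ 0) (hy : y ≠ 0) (hz : z ≠ 0)
    (hsA : ∀ q : ℕ, q.Prime → (q : ℤ) ∣ A → q ∣ M)
    (hsB : ∀ q : ℕ, q.Prime → (q : ℤ) ∣ B → q ∣ M)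
    (hx : Odd x) (hcop : IsCoprime x (B * z ^ n)) (h64 : (64 : ℤ) ∣ B * z ^ n) :
    x ^ 2 ≠ A * y ^ n + B * z ^ n := by
  rcases eq_seven_or_eleven_le hp h7 with rfl | h11
  swap
  · exact squareEquation_general hp h11 hpn hM hA hB hy hz hsA hsB hx hcop h64
  intro heq
  wlog h1 : x % 4 = 1 generalizing x
  · refine this hx.neg hcop.neg_left (by rwa [neg_sq]) ?_
    rw [Int.odd_iff] at hx
    omega
  obtain ⟨m, rfl⟩ := hpn
  rw [mul_comm 7 m, pow_mul, pow_mul] at *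
  have hT : B * (z ^ m) ^ 7 ≠ 0 := mul_ne_zero hB (pow_ne_zero _ (pow_ne_zero _ hz))
  have h4 := Int.mul_ediv_cancel' h64
  have hΔ := FA.SquareEquation.Δ_eq h1 h64
  rw [heq, add_sub_cancel_right] at hΔ
  have hΔ0 : (FA.SquareEquation.squareCurve x (B * (z ^ m) ^ 7)).Δ ≠ 0 := by
    rw [hΔ]
    exact mul_ne_zero (pow_ne_zero _ fun h => hT (by rw [← h4, h, mul_zero]))
      (mul_ne_zero hA (pow_ne_zero _ (pow_ne_zero _ hy)))
  have h2M : 2 ∣ M := by rcases hM with rfl | rfl <;> norm_num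
  have := Fact.mk hp
  have hW := FA.SquareEquation.isSemistableModel h1 h64 hcop
  refine false_of_discriminant_eq_of_irreducible hΔ0 hW (p := 7) (by norm_num)
    (FA.EC.modRepIsIrreducible_seven_of_root hΔ0 hW (e := 0)
      (by simp [FA.SquareEquation.squareCurve, b₆]))
    (M := M) (by omega) (by omega) (a := 2 ^ 12) (b := B ^ 2 * A) (t := (z ^ m) ^ 2 * y ^ m)
    (by norm_num) (by exact_mod_cast dvd_of_dvd_pow h2M Nat.prime_two 12) ?_ ?_
  · intro q hq h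
    rcases (Nat.prime_iff_prime_int.1 hq).dvd_or_dvd h with h | h
    · exact hsB q hq ((Nat.prime_iff_prime_int.1 hq).dvd_of_dvd_pow h)
    · exact hsA q hq h
  · rw [hΔ, show ∀ t : ℤ, 2 ^ 12 * (t ^ 2 * (A * (y ^ m) ^ 7)) = (64 * t) ^ 2 * (A * (y ^ m) ^ 7)
      from fun t => by ring, h4]
    ring

/-- **The equation `x³ = A y ^ n + B z ^ n`** with the primes of `A` and `B` dividing `6` and
`27` dividing `B z ^ n`, for `n` with a prime factor `p ≥ 7`. -/
theorem cubeEquation_seven {n p : ℕ} (hp : p.Prime) (h7 : 7 ≤ p) (hpn : p ∣ n) {A B x y z : ℤ}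
    (hA : A ≠ 0) (hB : B ≠ 0) (hy : y ≠ 0) (hz : z ≠ 0)
    (hsA : ∀ q : ℕ, q.Prime → (q : ℤ) ∣ A → q ∣ 6)
    (hsB : ∀ q : ℕ, q.Prime → (q : ℤ) ∣ B → q ∣ 6)
    (hcop : IsCoprime x (B * z ^ n)) (h27 : (27 : ℤ) ∣ B * z ^ n) :
    x ^ 3 ≠ A * y ^ n + B * z ^ n := by
  rcases eq_seven_or_eleven_le hp h7 with rfl | h11
  swap
  · exact cubeEquation hp h11 hpn hA hB hy hz hsA hsB hcop h27
  intro heq
  obtain ⟨m, rfl⟩ := hpn
  rw [mul_comm 7 m, pow_mul, pow_mul] at *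
  have hT : B * (z ^ m) ^ 7 ≠ 0 := mul_ne_zero hB (pow_ne_zero _ (pow_ne_zero _ hz))
  have h4 := Int.mul_ediv_cancel' h27
  have hΔ := cube_Δ_eq (x := x) h27
  rw [heq, add_sub_cancel_right] at hΔ
  have hΔ0 : (cubeCurve x (B * (z ^ m) ^ 7)).Δ ≠ 0 := by
    rw [hΔ]
    exact mul_ne_zero (pow_ne_zero _ fun h => hT (by rw [← h4, h, mul_zero]))
      (mul_ne_zero hA (pow_ne_zero _ (pow_ne_zero _ hy)))
  have := Fact.mk hp
  have hW := cube_isSemistableModel h27 hcop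
  refine false_of_discriminant_eq_of_irreducible hΔ0 hW (p := 7) (by norm_num)
    (FA.EC.modRepIsIrreducible_seven_of_root_three hΔ0 hW (e := 0)
      (by simp [cubeCurve, Ψ₃, b₈]))
    (M := 6) (by norm_num) (by norm_num) (a := 3 ^ 9) (b := B ^ 3 * A)
    (t := (z ^ m) ^ 3 * y ^ m) (by norm_num)
    (by exact_mod_cast dvd_of_dvd_pow (show 3 ∣ 6 by norm_num) Nat.prime_three 9) ?_ ?_
  · intro q hq h
    rcases (Nat.prime_iff_prime_int.1 hq).dvd_or_dvd h with h | h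
    · exact hsB q hq ((Nat.prime_iff_prime_int.1 hq).dvd_of_dvd_pow h)
    · exact hsA q hq h
  · rw [hΔ, show ∀ t : ℤ, 3 ^ 9 * (t ^ 3 * (A * (y ^ m) ^ 7)) = (27 * t) ^ 3 * (A * (y ^ m) ^ 7)
      from fun t => by ring, h4]
    ring

/-- **`x² + 2 ^ k ≠ y ^ n` and `x² - 2 ^ k ≠ ± y ^ n`** for odd `x`, `k ≥ 6`, nonzero `y` and an
exponent with a prime factor `p ≥ 7`. -/
theorem sq_add_two_pow_ne_pow_seven {n p : ℕ} (hp : p.Prime) (h7 : 7 ≤ p) (hpn : p ∣ n) {k : ℕ}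
    (hk : 6 ≤ k) {x y : ℤ} (hx : Odd x) (hy : y ≠ 0) :
    x ^ 2 + 2 ^ k ≠ y ^ n ∧ x ^ 2 - 2 ^ k ≠ y ^ n ∧ x ^ 2 - 2 ^ k ≠ -(y ^ n) := by
  have hs : ∀ q : ℕ, q.Prime → (q : ℤ) ∣ (2 : ℤ) ^ k → q ∣ 6 := by
    exact_mod_cast dvd_of_dvd_pow (show 2 ∣ 6 by norm_num) Nat.prime_two k
  have hu : ∀ q : ℕ, q.Prime → (q : ℤ) ∣ (1 : ℤ) → q ∣ 6 := fun q hq h =>
    absurd (isUnit_of_dvd_one h) (Nat.prime_iff_prime_int.1 hq).not_isUnit
  have hd : (64 : ℤ) ∣ 2 ^ k := (show (64 : ℤ) = 2 ^ 6 by norm_num) ▸ pow_dvd_pow 2 hk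
  have hcop : IsCoprime x (2 ^ k) := by
    obtain ⟨j, hj⟩ := hx
    exact (show IsCoprime x 2 from ⟨1, -j, by rw [hj]; ring⟩).pow_right
  have h0 : (2 : ℤ) ^ k ≠ 0 := pow_ne_zero _ two_ne_zero
  refine ⟨fun h => ?_, fun h => ?_, fun h => ?_⟩
  · exact squareEquation_seven hp h7 hpn (Or.inl rfl) one_ne_zero (neg_ne_zero.2 h0) hy
      one_ne_zero hu (fun q hq h => hs q hq (dvd_neg.1 h)) hx (B := -2 ^ k)
      (by simpa using hcop.neg_right) (by simpa using hd.neg_right)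
      (by rw [one_pow]; linear_combination h)
  · exact squareEquation_seven hp h7 hpn (Or.inl rfl) one_ne_zero h0 hy one_ne_zero hu hs hx
      (by simpa using hcop) (by simpa using hd) (by rw [one_pow]; linear_combination h)
  · exact squareEquation_seven hp h7 hpn (Or.inl rfl) (A := -1) (by norm_num) h0 hy
      one_ne_zero (fun q hq h => hu q hq (dvd_neg.1 h)) hs hx
      (by simpa using hcop) (by simpa using hd) (by rw [one_pow]; linear_combination h)

/-- **`x³ - y ^ n ≠ 3 ^ k` and `y ^ n - x³ ≠ 3 ^ k`** for `x` prime to three, `k ≥ 3`, nonzero `y`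
and an exponent with a prime factor `p ≥ 7`. -/
theorem cube_sub_pow_ne_three_pow_seven {n p : ℕ} (hp : p.Prime) (h7 : 7 ≤ p) (hpn : p ∣ n)
    {k : ℕ} (hk : 3 ≤ k) {x y : ℤ} (hx : ¬ (3 : ℤ) ∣ x) (hy : y ≠ 0) :
    x ^ 3 - y ^ n ≠ 3 ^ k ∧ y ^ n - x ^ 3 ≠ 3 ^ k := by
  have hs : ∀ q : ℕ, q.Prime → (q : ℤ) ∣ (3 : ℤ) ^ k → q ∣ 6 := by
    exact_mod_cast dvd_of_dvd_pow (show 3 ∣ 6 by norm_num) Nat.prime_three k
  have hu : ∀ q : ℕ, q.Prime → (q : ℤ) ∣ (1 : ℤ) → q ∣ 6 := fun q hq h =>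
    absurd (isUnit_of_dvd_one h) (Nat.prime_iff_prime_int.1 hq).not_isUnit
  have hd : (27 : ℤ) ∣ 3 ^ k := (show (27 : ℤ) = 3 ^ 3 by norm_num) ▸ pow_dvd_pow 3 hk
  have hcop : IsCoprime x (3 ^ k) :=
    ((Int.prime_three.coprime_iff_not_dvd.2 hx).symm).pow_right
  have h0 : (3 : ℤ) ^ k ≠ 0 := pow_ne_zero _ (by norm_num)
  refine ⟨fun h => ?_, fun h => ?_⟩
  · exact cubeEquation_seven hp h7 hpn one_ne_zero h0 hy one_ne_zero hu hs
      (by simpa using hcop) (by simpa using hd) (by rw [one_pow]; linear_combination h)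
  · exact cubeEquation_seven hp h7 hpn one_ne_zero (B := -3 ^ k) (neg_ne_zero.2 h0) hy one_ne_zero
      hu (fun q hq h => hs q hq (dvd_neg.1 h))
      (by simpa using hcop.neg_right) (by simpa using hd.neg_right)
      (by rw [one_pow]; linear_combination -h)

end FA.Summary

end
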