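import Fermat.Agent.ModularParametrization.Rational
import Fermat.Agent.Root.LFunctionAll

/-!
# Summary: the Weil curve is defined over `ℚ`

* `weilCurve_defined_over_rat`: for a normalised eigenform on `Γ₀(N)` with integral coefficients the
  curve of `2 π i` times the periods is `y² = x³ + A x + B` with rational `A`, `B`.
* `weilCurve_semistable_defined_over_rat`: in particular for the newform of a semistable `E / ℚ`.
-/

set_option autoImplicit false

noncomputable section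

namespace FA.Summary

open Complex CongruenceSubgroup WeierstrassCurve FA.Mazur.Wp
open scoped Real

/-- **The Weil curve is defined over `ℚ`.** -/
theorem weilCurve_defined_over_rat {N : ℕ} [NeZero N] {f : CuspForm (Gamma0 N) 2}
    (hf : f.IsNormalizedEigenform) {a : ℕ → ℤ}
    (ha : ∀ n, ModularFormClass.qCoeff f n = (a n : ℂ)) :
    ∃ (L : PeriodPair) (A B : ℚ),
      (∀ z : ℂ, z ∈ L.lattice ↔ ∃ γ, 2 * (π : ℂ) * I * ModularCurve.periodMap N f γ = z) ∧
      4 * A ^ 3 + 27 * B ^ 2 ≠ 0 ∧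
      latCurve L = (⟨0, 0, 0, A, B⟩ : WeierstrassCurve ℚ).map (algebraMap ℚ ℂ) := by
  obtain ⟨L, hL⟩ := FA.ModularParametrization.exists_scaledPeriods hf ha
  obtain ⟨g₂, g₃, h2, h3⟩ := FA.ModularParametrization.exists_rat_invariants hf ha hL
  refine ⟨L, -g₂ / 4, -g₃ / 4, fun z => ?_, fun h => ?_, ?_⟩
  · rw [hL z]
    constructor
    · rintro ⟨_, ⟨γ, rfl⟩, rfl⟩
      exact ⟨γ, rfl⟩
    · rintro ⟨γ, rfl⟩
      exact ⟨_, ⟨γ, rfl⟩, rfl⟩
  · refine (latCurve L).isUnit_Δ.ne_zero ?_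
    have h' := congrArg (fun x : ℚ => (x : ℂ)) h
    push_cast at h'
    rw [latCurve_Δ, h2, h3]
    linear_combination -16 * h'
  · ext <;> simp [latCurve, h2, h3]

/-- **The Weil curve of a semistable elliptic curve is defined over `ℚ`.** -/
theorem weilCurve_semistable_defined_over_rat (E : WeierstrassCurve ℚ) [E.IsElliptic]
    (h : ∀ p : ℕ, ∀ [Fact p.Prime], ∃ C : VariableChange ℚ_[p],
      HasGoodReduction ℤ_[p] (C • E.map (algebraMap ℚ ℚ_[p])) ∨
        HasMultiplicativeReduction ℤ_[p] (C • E.map (algebraMap ℚ ℚ_[p]))) :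
    ∃ (N : ℕ) (f : CuspForm (Gamma0 N) 2) (L : PeriodPair) (A B : ℚ),
      f.IsNewform ∧ (∀ n : ℕ, ModularFormClass.qCoeff f n = (E.LFunction n : ℂ)) ∧
      (∀ z : ℂ, z ∈ L.lattice ↔ ∃ γ, 2 * (π : ℂ) * I * ModularCurve.periodMap N f γ = z) ∧
      4 * A ^ 3 + 27 * B ^ 2 ≠ 0 ∧
      latCurve L = (⟨0, 0, 0, A, B⟩ : WeierstrassCurve ℚ).map (algebraMap ℚ ℂ) := by
  obtain ⟨-, N, f, -, -, hsq, -, hf, hn⟩ := FA.Root.exists_newform_LFunction E h
  have : NeZero N := ⟨hsq.ne_zero⟩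
  obtain ⟨L, A, B, h1, h2, h3⟩ :=
    weilCurve_defined_over_rat hf.isNormalizedEigenform (a := fun n => E.LFunction n) hn
  exact ⟨N, f, L, A, B, hf, hn, h1, h2, h3⟩

end FA.Summary

end
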