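import Fermat.Agent.ModularParametrization.Traces
import Fermat.Agent.Root.SummaryWeilCurveRational
import Fermat.Agent.Root.SummaryTateIsogenyAll

/-!
# Summary: Eichler and Shimura for the Weil curve

* `weilCurve_eichlerShimura`: for a normalised eigenform `f` on `Γ₀(N)` with integral coefficients
  the curve of `2 π i` times the periods is an elliptic curve over `ℚ` with trace congruent to `a_p`
  modulo `p` at almost all primes, and equal to it where `a_p² ≤ 4 p`.
* `weilCurve_semistable`: for the newform of a semistable `E / ℚ` it has the coefficients of the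
  L-function of `E` at almost all primes and for every prime `p` a Galois equivariant surjection
  with finite kernel of its points of `p`-power order onto those of `E`.
-/

set_option autoImplicit false

noncomputable section

namespace FA.Summary

open Complex CongruenceSubgroup WeierstrassCurve FA.Mazur.Wp
open scoped Real WeierstrassCurve.Affine

/-- **Eichler and Shimura for the Weil curve.** -/
theorem weilCurve_eichlerShimura {N : ℕ} [NeZero N] {f : CuspForm (Gamma0 N) 2}
    (hf : f.IsNormalizedEigenform) {a : ℕ → ℤ}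
    (ha : ∀ n, ModularFormClass.qCoeff f n = (a n : ℂ)) :
    ∃ (L : PeriodPair) (E : WeierstrassCurve ℚ) (S : Finset ℕ), E.IsElliptic ∧
      (∀ z : ℂ, z ∈ L.lattice ↔ ∃ γ, 2 * (π : ℂ) * I * ModularCurve.periodMap N f γ = z) ∧
      latCurve L = E.map (algebraMap ℚ ℂ) ∧
      ∀ p : ℕ, p.Prime → p ∉ S → (E.LFunction p : ZMod p) = (a p : ZMod p) ∧
        (a p ^ 2 ≤ 4 * (p : ℤ) → E.LFunction p = a p) := by
  obtain ⟨L, hL⟩ := FA.ModularParametrization.exists_scaledPeriods hf ha
  obtain ⟨E, D, hE, hD, hmap, h⟩ := FA.ModularParametrization.exists_curve_traces hf ha hL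
  refine ⟨L, E, D.primeFactors, hE, fun z => ?_, hmap, fun p hp hpS =>
    h p hp fun hd => hpS (Nat.mem_primeFactors.mpr ⟨hp, hd, hD⟩)⟩
  rw [hL z]
  constructor
  · rintro ⟨_, ⟨γ, rfl⟩, rfl⟩
    exact ⟨γ, rfl⟩
  · rintro ⟨γ, rfl⟩
    exact ⟨_, ⟨γ, rfl⟩, rfl⟩

/-- **The Weil curve of a semistable elliptic curve.** -/
theorem weilCurve_semistable (E : WeierstrassCurve ℚ) [E.IsElliptic]
    (h : ∀ p : ℕ, ∀ [Fact p.Prime], ∃ C : VariableChange ℚ_[p],
      HasGoodReduction ℤ_[p] (C • E.map (algebraMap ℚ ℚ_[p])) ∨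
        HasMultiplicativeReduction ℤ_[p] (C • E.map (algebraMap ℚ ℚ_[p])))
    [DecidableEq (AlgebraicClosure ℚ)] :
    ∃ (N : ℕ) (f : CuspForm (Gamma0 N) 2) (L : PeriodPair) (E₀ : WeierstrassCurve ℚ)
      (_ : E₀.IsElliptic) (S : Finset ℕ),
      f.IsNewform ∧ (∀ n : ℕ, ModularFormClass.qCoeff f n = (E.LFunction n : ℂ)) ∧
      (∀ z : ℂ, z ∈ L.lattice ↔ ∃ γ, 2 * (π : ℂ) * I * ModularCurve.periodMap N f γ = z) ∧
      latCurve L = E₀.map (algebraMap ℚ ℂ) ∧
      (∀ q : ℕ, q.Prime → q ∉ S → E₀.LFunction q = E.LFunction q) ∧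
      ∀ p : ℕ, p.Prime →
        ∃ φ : AddCommGroup.primaryComponent (E₀.toAffine⁄(AlgebraicClosure ℚ)).Point p →+
            AddCommGroup.primaryComponent (E.toAffine⁄(AlgebraicClosure ℚ)).Point p,
          Function.Surjective φ ∧ Finite φ.ker ∧
            ∀ (σ : AlgebraicClosure ℚ ≃ₐ[ℚ] AlgebraicClosure ℚ) P Q,
              Affine.Point.map σ.toAlgHom P.1 = Q.1 →
                Affine.Point.map σ.toAlgHom (φ P).1 = (φ Q).1 := by
  obtain ⟨-, N, f, -, -, hsq, -, hf, hn⟩ := FA.Root.exists_newform_LFunction E h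
  have : NeZero N := ⟨hsq.ne_zero⟩
  obtain ⟨L, E₀, S₀, hE₀, hlat, hmap, htr⟩ :=
    weilCurve_eichlerShimura hf.isNormalizedEigenform (a := fun n => E.LFunction n) hn
  obtain ⟨W, C, hW⟩ := FA.Frob.exists_integralModel E
  set S := S₀ ∪ W.Δ.natAbs.primeFactors
  have heq : ∀ q : ℕ, q.Prime → q ∉ S → E₀.LFunction q = E.LFunction q := fun q hq hqS => by
    simp only [S, Finset.mem_union, not_or] at hqS
    refine (htr q hq hqS.1).2 (hasse_LFunction E W C hW hq fun hd => hqS.2 ?_)
    exact Nat.mem_primeFactors.mpr ⟨hq, Int.natCast_dvd.mp hd,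
      Int.natAbs_ne_zero.mpr (FA.Frob.Δ_ne_zero_of_model ⟨C, hW⟩)⟩
  exact ⟨N, f, L, E₀, hE₀, S, hf, hn, hlat, hmap, heq, fun p hp =>
    tateIsogeny_of_traces_all E₀ E S heq hp⟩

end FA.Summary

end
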