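import Fermat.Agent.ReducedGroups.KatzTorsion
import Fermat.Agent.Root.SummarySurjectivePow

/-!
# Katz's theorem on the torsion seen modulo almost all primes

For an integral Weierstrass equation with nonzero discriminant and `m ≥ 1`, `m` divides `#E(𝔽_q)`
for all but finitely many primes `q`, equally for a set of density one, exactly when there are
finite Galois stable groups of geometric points `C ≤ D` of index `m` with Galois moving `D` only
inside `C`: the quotient by `C` then has `m` rational points. For a prime `l` this says that a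
point of order `l` is fixed or a stable line has trivial quotient.
-/

set_option autoImplicit false
set_option linter.style.haveILetI false
set_option linter.unusedSectionVars false

noncomputable section

open Matrix NumberField IsDedekindDomain WeierstrassCurve WeierstrassCurve.Affine FA.EC FA.Frob
open scoped WeierstrassCurve.Affine

local notation "Qb" => AlgebraicClosure ℚ
local notation "GQ" => AlgebraicClosure ℚ ≃ₐ[ℚ] AlgebraicClosure ℚ

namespace FA.Katz

variable (W : WeierstrassCurve ℤ)

/-- Divisibility outside a finite set of primes holds on a set of density one. -/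
theorem density_one_of_finite (hΔ : W.Δ ≠ 0) {m : ℕ}
    (h : {q : ℕ | q.Prime ∧
      ¬ m ∣ Nat.card (W.map (Int.castRingHom (ZMod q))).toAffine.Point}.Finite) :
    {v : HeightOneSpectrum (𝓞 ℚ) | m ∣ Nat.card (W.map (Int.castRingHom
      (ZMod (Ideal.absNorm v.asIdeal)))).toAffine.Point}.HasDirichletDensity 1 := by
  have := ratCurve_isElliptic_of_Δ hΔ
  have hu := FA.Supersingular.hasDirichletDensity_compl
    (NumberField.Set.hasDirichletDensity_empty (K := ℚ))
  rw [sub_zero, Set.compl_empty] at hu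
  refine FA.TraceDist.hasDirichletDensity_congr hu
    (FA.Supersingular.finite_absNorm_mem h.toFinset) fun v hv => iff_of_true trivial ?_
  by_contra hd
  exact hv (h.mem_toFinset.mpr ⟨FA.Chebotarev.absNorm_prime v, hd⟩)

/-- A displaced pair gives divisibility outside a finite set of primes. -/
theorem finite_of_displaced [(ratCurve W).IsElliptic] (hΔ : W.Δ ≠ 0) {m : ℕ}
    {C D : AddSubgroup (FA.RT.Tate.Pts W)} (h : Displaced C D m) :
    {q : ℕ | q.Prime ∧
      ¬ m ∣ Nat.card (W.map (Int.castRingHom (ZMod q))).toAffine.Point}.Finite := by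
  haveI : Finite D := h.1
  refine ((W.Δ.natAbs * Nat.card D).primeFactors.finite_toSet).subset fun q ⟨hq, hnd⟩ => ?_
  by_contra hn
  haveI := Fact.mk hq
  have hne : W.Δ.natAbs * Nat.card D ≠ 0 :=
    mul_ne_zero (Int.natAbs_ne_zero.mpr hΔ) Nat.card_pos.ne'
  refine hnd (dvd_pointCount_of_displaced h (fun hd => hn ?_) fun hd => hn ?_)
  · exact Nat.mem_primeFactors.mpr ⟨hq, (Int.natCast_dvd.mp hd).mul_right _, hne⟩
  · exact Nat.mem_primeFactors.mpr ⟨hq, hd.mul_left _, hne⟩

end FA.Katz

namespace FA.Summary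

open FA.Katz

/-- **Katz's theorem**: `m` divides `#E(𝔽_q)` for almost all `q` iff some finite stable group of
points is moved by Galois only inside a stable subgroup of index `m`. -/
theorem katz_iff (W : WeierstrassCurve ℤ) (hΔ : W.Δ ≠ 0) {m : ℕ} (hm : m ≠ 0) :
    {q : ℕ | q.Prime ∧
      ¬ m ∣ Nat.card (W.map (Int.castRingHom (ZMod q))).toAffine.Point}.Finite ↔
    ∃ C D : AddSubgroup ((W.map (Int.castRingHom ℚ)).toAffine⁄Qb).Point,
      Finite D ∧ C ≤ D ∧ C.relIndex D = m ∧
      (∀ σ : GQ, ∀ P ∈ C, Affine.Point.map σ.toAlgHom P ∈ C) ∧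
      ∀ σ : GQ, ∀ P ∈ D, Affine.Point.map σ.toAlgHom P - P ∈ C := by
  haveI := ratCurve_isElliptic_of_Δ hΔ
  exact ⟨fun h => exists_displaced (W := W) hm (density_one_of_finite W hΔ h),
    fun ⟨C, D, h⟩ => finite_of_displaced W hΔ (C := C) (D := D) h⟩

/-- **Katz's theorem with density one** in place of all but finitely many primes. -/
theorem katz_density_iff (W : WeierstrassCurve ℤ) (hΔ : W.Δ ≠ 0) {m : ℕ} (hm : m ≠ 0) :
    Set.HasDirichletDensity {v : HeightOneSpectrum (𝓞 ℚ) | m ∣ Nat.card (W.map (Int.castRingHom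
      (ZMod (Ideal.absNorm v.asIdeal)))).toAffine.Point} 1 ↔
    ∃ C D : AddSubgroup ((W.map (Int.castRingHom ℚ)).toAffine⁄Qb).Point,
      Finite D ∧ C ≤ D ∧ C.relIndex D = m ∧
      (∀ σ : GQ, ∀ P ∈ C, Affine.Point.map σ.toAlgHom P ∈ C) ∧
      ∀ σ : GQ, ∀ P ∈ D, Affine.Point.map σ.toAlgHom P - P ∈ C := by
  haveI := ratCurve_isElliptic_of_Δ hΔ
  exact ⟨fun h => exists_displaced (W := W) hm h,
    fun ⟨C, D, h⟩ => density_one_of_finite W hΔ (finite_of_displaced W hΔ (C := C) (D := D) h)⟩

/-- **Katz's theorem for a prime**: `l` divides `#E(𝔽_q)` for almost all `q` iff a point of order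
`l` is fixed or a stable subgroup of order `l` has trivial action on the quotient. -/
theorem katz_prime_iff (W : WeierstrassCurve ℤ) (hΔ : W.Δ ≠ 0) {l : ℕ} (hl : l.Prime) :
    {q : ℕ | q.Prime ∧
      ¬ l ∣ Nat.card (W.map (Int.castRingHom (ZMod q))).toAffine.Point}.Finite ↔
    (∃ P : ((W.map (Int.castRingHom ℚ)).toAffine⁄Qb).Point, P ≠ 0 ∧ l • P = 0 ∧
      ∀ σ : GQ, Affine.Point.map σ.toAlgHom P = P) ∨
    ∃ G : AddSubgroup ((W.map (Int.castRingHom ℚ)).toAffine⁄Qb).Point, Nat.card G = l ∧
      (∀ P ∈ G, l • P = 0) ∧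
      ∀ σ : GQ, ∀ P, l • P = 0 → Affine.Point.map σ.toAlgHom P - P ∈ G := by
  classical
  haveI := ratCurve_isElliptic_of_Δ hΔ
  haveI := Fact.mk hl
  let T := Submodule.torsionBy ℤ ((ratCurve W)⁄Qb).Point (l : ℤ)
  let e := (FA.RT.torsBasis (p := l) W).equivFun
  have hmemT : ∀ P : FA.RT.Tate.Pts W, P ∈ T.toAddSubgroup ↔ l • P = 0 := fun P =>
    FA.RT.Tate.mem_torsion_iff W
  haveI hfT : Finite T := finite_torsion (ratCurve W) hl.ne_zero
  have hcT : Nat.card T.toAddSubgroup = l ^ 2 := natCard_torsion (ratCurve W) hl.ne_zero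
  haveI : Finite T.toAddSubgroup := hfT
  constructor
  · intro h
    obtain ⟨B⟩ := FA.RT.Tate.exists_tateBasis (p := l) W
    have hdet : ∀ σ : GQ, (FA.RT.curveRep l W σ - 1).det = 0 := fun σ => by
      obtain ⟨c, hc⟩ := dvd_det_sub_one B (n := 1) (m := l) (by rw [pow_one])
        (density_one_of_finite W hΔ h) σ
      rw [← FA.PadicImage.rep_map_toZMod B σ, ← RingHom.mapMatrix_apply,
        ← map_one (PadicInt.toZMod (p := l)).mapMatrix, ← map_sub, ← RingHom.map_det, hc, map_mul,
        map_pow, map_natCast, ZMod.natCast_self, pow_one, zero_mul]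
    rcases singular_dichotomy (Set.range fun σ : GQ => FA.RT.curveRep l W σ - 1)
      (by rintro _ ⟨σ, rfl⟩; exact hdet σ)
      (by
        rintro _ ⟨σ, rfl⟩ _ ⟨τ, rfl⟩
        have e : FA.RT.curveRep l W σ - 1 - (FA.RT.curveRep l W τ - 1) =
            (FA.RT.curveRep l W (σ * τ⁻¹) - 1) * FA.RT.curveRep l W τ := by
          rw [sub_mul, ← map_mul, inv_mul_cancel_right, one_mul]
          abel
        rw [e, det_mul, hdet, zero_mul]) with ⟨w, hw, hwY⟩ | ⟨v, hv, hvY⟩
    · refine Or.inr ?_
      let φ : T →+ ZMod l := AddMonoidHom.mk' (fun y => w ⬝ᵥ e y)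
        fun y z => by rw [map_add, dotProduct_add]
      have hφ : Function.Surjective φ := fun c => by
        obtain ⟨i, hi⟩ := Function.ne_iff.mp hw
        refine ⟨e.symm (Pi.single i (c / w i)), ?_⟩
        show w ⬝ᵥ e (e.symm _) = c
        rw [LinearEquiv.apply_symm_apply, dotProduct_single, mul_div_cancel₀ _ hi]
      refine ⟨φ.ker.map T.toAddSubgroup.subtype, ?_, ?_, fun σ P hP => ?_⟩
      · refine (AddSubgroup.card_map_of_injective T.toAddSubgroup.subtype_injective).trans ?_
        refine Nat.eq_of_mul_eq_mul_right hl.pos ?_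
        calc Nat.card φ.ker * l = Nat.card φ.ker * Nat.card φ.range := by
              rw [AddMonoidHom.range_eq_top.mpr hφ, AddSubgroup.card_top, Nat.card_zmod]
          _ = Nat.card T := by rw [← AddSubgroup.index_ker, AddSubgroup.card_mul_index]
          _ = l * l := by rw [← sq]; exact hcT
      · rintro _ ⟨y, -, rfl⟩
        exact (hmemT y.1).mp y.2
      · set y : T := ⟨P, (hmemT P).mpr hP⟩
        refine AddSubgroup.mem_map.mpr ⟨σ • y - y, AddMonoidHom.mem_ker.mpr ?_, rfl⟩
        show w ⬝ᵥ e (σ • y - y) = 0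
        rw [map_sub, ← FA.RT.toMatrix_mulVec, ← one_mulVec (e y), mulVec_mulVec, Matrix.mul_one,
          ← sub_mulVec, dotProduct_mulVec, hwY _ ⟨σ, rfl⟩, zero_dotProduct]
    · refine Or.inl ⟨(e.symm v : T).1, fun h0 => hv ?_, (hmemT _).mp (e.symm v).2, fun σ => ?_⟩
      · rw [← e.apply_symm_apply v, show e.symm v = 0 from Subtype.ext h0, map_zero]
      · have hfix : σ • e.symm v = e.symm v := e.injective (by
          rw [← FA.RT.toMatrix_mulVec, e.apply_symm_apply]
          have := hvY _ ⟨σ, rfl⟩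
          rw [sub_mulVec, one_mulVec, sub_eq_zero] at this
          exact this)
        exact congrArg Subtype.val hfix
  · rintro (⟨P, hP0, hPl, hfix⟩ | ⟨G, hG, hGl, hq⟩)
    · haveI : Finite (AddSubgroup.zmultiples P) := by
        refine Nat.finite_of_card_ne_zero ?_
        rw [Nat.card_zmultiples, addOrderOf_eq_prime hPl hP0]
        exact hl.ne_zero
      refine finite_of_displaced W hΔ (C := ⊥) (D := AddSubgroup.zmultiples P)
        ⟨inferInstance, bot_le, ?_, fun σ x hx => ?_, fun σ x hx => ?_⟩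
      · rw [AddSubgroup.relIndex_bot_left, Nat.card_zmultiples, addOrderOf_eq_prime hPl hP0]
      · rw [AddSubgroup.mem_bot] at hx ⊢
        rw [hx]
        exact FA.Local.gal_smul_zero _ σ
      · obtain ⟨k, rfl⟩ := AddSubgroup.mem_zmultiples_iff.mp hx
        rw [AddSubgroup.mem_bot, FA.RT.Tate.gal_smul_zsmul (W := W), show σ • P = P from hfix σ,
          sub_self]
    · have hle : G ≤ T.toAddSubgroup := fun P hP => (hmemT P).mpr (hGl P hP)
      refine finite_of_displaced W hΔ (C := G) (D := T.toAddSubgroup)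
        ⟨inferInstance, hle, ?_, fun σ x hx => ?_, fun σ x hx => hq σ x ((hmemT x).mp hx)⟩
      · refine Nat.eq_of_mul_eq_mul_left hl.pos ?_
        calc l * G.relIndex T.toAddSubgroup = Nat.card G * G.relIndex T.toAddSubgroup := by rw [hG]
          _ = l * l := by rw [card_mul_relIndex hle, hcT, sq]
      · have := add_mem (hq σ x (hGl x hx)) hx
        rwa [sub_add_cancel] at this

end FA.Summary

end
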