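import Fermat.Agent.Ribet.SignatureTwoPrimes

/-!
# Squares and cubes as combinations of two powers, coefficients supported on two primes

`x² = A y ^ n + B z ^ n` has no solution with `x` odd, the primes of `A B` among `2` and
`q = 11, 13, 19` and `64` dividing `B z ^ n`, when `n` has a prime factor `p ≥ 11`; nor has
`x³ = A y ^ n + B z ^ n` with the primes of `A B` among `3` and `q = 5, 7` and `27` dividing
`B z ^ n`, when `p ≥ 5`. Here `x` is prime to `B z ^ n` and `y z ≠ 0`; `p = q` is allowed. At the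
exponent `0` this solves equations of Ramanujan and Nagell.
-/

set_option autoImplicit false

noncomputable section

open WeierstrassCurve

namespace FA.Summary

open FA.PowerEquations

/-- **The equation `x² = A y ^ n + B z ^ n`** with the primes of `A` and `B` among `2` and
`q = 11, 13, 19`, `x` odd and `64` dividing `B z ^ n`. -/
theorem squareEquation_twoPrimes {n p : ℕ} (hp : p.Prime) (h11 : 11 ≤ p) (hpn : p ∣ n) {q : ℕ}
    (hq : q = 11 ∨ q = 13 ∨ q = 19) {A B x y z : ℤ} (hA : A ≠ 0) (hB : B ≠ 0) (hy : y ≠ 0)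
    (hz : z ≠ 0) (hsA : ∀ r : ℕ, r.Prime → (r : ℤ) ∣ A → r ∣ 2 * q)
    (hsB : ∀ r : ℕ, r.Prime → (r : ℤ) ∣ B → r ∣ 2 * q)
    (hx : Odd x) (hcop : IsCoprime x (B * z ^ n)) (h64 : (64 : ℤ) ∣ B * z ^ n) :
    x ^ 2 ≠ A * y ^ n + B * z ^ n := by
  intro heq
  wlog h1 : x % 4 = 1 generalizing x
  · refine this hx.neg hcop.neg_left (by rwa [neg_sq]) ?_
    rw [Int.odd_iff] at hx
    omega
  obtain ⟨m, rfl⟩ := hpn
  rw [mul_comm p m, pow_mul, pow_mul] at *
  have hT : B * (z ^ m) ^ p ≠ 0 := mul_ne_zero hB (pow_ne_zero _ (pow_ne_zero _ hz))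
  have h4 := Int.mul_ediv_cancel' h64
  have hΔ := FA.SquareEquation.Δ_eq h1 h64
  rw [heq, add_sub_cancel_right] at hΔ
  have hΔ0 : (FA.SquareEquation.squareCurve x (B * (z ^ m) ^ p)).Δ ≠ 0 := by
    rw [hΔ]
    exact mul_ne_zero (pow_ne_zero _ fun h => hT (by rw [← h4, h, mul_zero]))
      (mul_ne_zero hA (pow_ne_zero _ (pow_ne_zero _ hy)))
  refine FA.Ribet.false_of_square_twoPrimes hp h11 hq h1 h64 hcop hΔ0 (b := B ^ 2 * A)
    (t := (z ^ m) ^ 2 * y ^ m) ?_ ?_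
  · intro r hr h
    rcases (Nat.prime_iff_prime_int.1 hr).dvd_or_dvd h with h | h
    · exact hsB r hr ((Nat.prime_iff_prime_int.1 hr).dvd_of_dvd_pow h)
    · exact hsA r hr h
  · rw [hΔ, show ∀ t : ℤ, 2 ^ 12 * (t ^ 2 * (A * (y ^ m) ^ p)) = (64 * t) ^ 2 * (A * (y ^ m) ^ p)
      from fun t => by ring, h4]
    ring

/-- **The equation `x³ = A y ^ n + B z ^ n`** with the primes of `A` and `B` among `3` and
`q = 5, 7` and `27` dividing `B z ^ n`, for `n` with a prime factor `p ≥ 5`. -/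
theorem cubeEquation_fifteen_twentyone {n p : ℕ} (hp : p.Prime) (h5 : 5 ≤ p) (hpn : p ∣ n)
    {q : ℕ} (hq : q = 5 ∨ q = 7) {A B x y z : ℤ} (hA : A ≠ 0) (hB : B ≠ 0) (hy : y ≠ 0)
    (hz : z ≠ 0) (hsA : ∀ r : ℕ, r.Prime → (r : ℤ) ∣ A → r ∣ 3 * q)
    (hsB : ∀ r : ℕ, r.Prime → (r : ℤ) ∣ B → r ∣ 3 * q)
    (hcop : IsCoprime x (B * z ^ n)) (h27 : (27 : ℤ) ∣ B * z ^ n) :
    x ^ 3 ≠ A * y ^ n + B * z ^ n := by
  intro heq
  obtain ⟨m, rfl⟩ := hpn
  rw [mul_comm p m, pow_mul, pow_mul] at *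
  have hT : B * (z ^ m) ^ p ≠ 0 := mul_ne_zero hB (pow_ne_zero _ (pow_ne_zero _ hz))
  have h4 := Int.mul_ediv_cancel' h27
  have hΔ := cube_Δ_eq (x := x) h27
  rw [heq, add_sub_cancel_right] at hΔ
  have hΔ0 : (cubeCurve x (B * (z ^ m) ^ p)).Δ ≠ 0 := by
    rw [hΔ]
    exact mul_ne_zero (pow_ne_zero _ fun h => hT (by rw [← h4, h, mul_zero]))
      (mul_ne_zero hA (pow_ne_zero _ (pow_ne_zero _ hy)))
  refine FA.Ribet.false_of_cube_twoPrimes hp h5 hq h27 hcop hΔ0 (b := B ^ 3 * A)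
    (t := (z ^ m) ^ 3 * y ^ m) ?_ ?_
  · intro r hr h
    rcases (Nat.prime_iff_prime_int.1 hr).dvd_or_dvd h with h | h
    · exact hsB r hr ((Nat.prime_iff_prime_int.1 hr).dvd_of_dvd_pow h)
    · exact hsA r hr h
  · rw [hΔ, show ∀ t : ℤ, 3 ^ 9 * (t ^ 3 * (A * (y ^ m) ^ p)) = (27 * t) ^ 3 * (A * (y ^ m) ^ p)
      from fun t => by ring, h4]
    ring

/-- The primes of a signed product of powers of `l` and `q` divide `l * q`. -/
private theorem prime_dvd_of_dvd_unit_mul {l q : ℕ} (hl : l.Prime) (hq : q.Prime) {e : ℤ}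
    (he : IsUnit e) {a b : ℕ} :
    ∀ r : ℕ, r.Prime → (r : ℤ) ∣ e * ((l : ℤ) ^ a * (q : ℤ) ^ b) → r ∣ l * q := fun r hr h => by
  rcases (Nat.prime_iff_prime_int.1 hr).dvd_or_dvd (he.dvd_mul_left.mp h) with h | h
  · exact dvd_of_dvd_pow (dvd_mul_right l q) hl a r hr h
  · exact dvd_of_dvd_pow (dvd_mul_left q l) hq b r hr h

/-- **An equation of Ramanujan and Nagell**: for `q = 11, 13, 19` and `a ≥ 6` no square is
`± q ^ b ± 2 ^ a`. -/
theorem ramanujanNagell_twoPrimes {q : ℕ} (hq : q = 11 ∨ q = 13 ∨ q = 19) {a b : ℕ} (ha : 6 ≤ a)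
    {e f : ℤ} (he : IsUnit e) (hf : IsUnit f) (x : ℤ) :
    x ^ 2 ≠ e * (q : ℤ) ^ b + f * 2 ^ a := fun h => by
  have hqp : q.Prime := by rcases hq with rfl | rfl | rfl <;> norm_num
  have hx : Odd x := by
    have h2 : Even (f * 2 ^ a) := (even_two.pow_of_ne_zero (by omega)).mul_left f
    have hqo : Odd (e * (q : ℤ) ^ b) := by
      rcases Int.isUnit_iff.mp he with rfl | rfl <;>
        simp [parity_simps, Odd.pow, show Odd (q : ℤ) by
          rcases hq with rfl | rfl | rfl <;> decide]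
    exact (Int.odd_pow.mp (h ▸ hqo.add_even h2)).resolve_right two_ne_zero
  obtain ⟨j, hj⟩ := hx
  refine squareEquation_twoPrimes (n := 0) (p := 23) (by norm_num) (by norm_num) (dvd_zero _) hq
    (A := e * (q : ℤ) ^ b) (B := f * 2 ^ a) (y := 1) (z := 1) ?_ ?_ one_ne_zero one_ne_zero
    ?_ ?_ ⟨j, hj⟩ ?_ ?_ (by simpa using h)
  · exact mul_ne_zero he.ne_zero (pow_ne_zero _ (mod_cast hqp.ne_zero))
  · exact mul_ne_zero hf.ne_zero (pow_ne_zero _ two_ne_zero)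
  · simpa using prime_dvd_of_dvd_unit_mul Nat.prime_two hqp he (a := 0) (b := b)
  · simpa using prime_dvd_of_dvd_unit_mul Nat.prime_two hqp hf (a := a) (b := 0)
  · simpa [isCoprime_mul_unit_left_right hf] using
      (show IsCoprime x 2 from ⟨1, -j, by rw [hj]; ring⟩).pow_right (n := a)
  · rw [pow_zero, mul_one]
    exact ((show (64 : ℤ) = 2 ^ 6 by norm_num) ▸ pow_dvd_pow 2 ha).mul_left f

/-- For `q = 5, 7` and `a ≥ 3` no cube is `± q ^ b ± 3 ^ a`. -/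
theorem cube_ne_pow_add_three_pow {q : ℕ} (hq : q = 5 ∨ q = 7) {a b : ℕ} (ha : 3 ≤ a)
    {e f : ℤ} (he : IsUnit e) (hf : IsUnit f) (x : ℤ) :
    x ^ 3 ≠ e * (q : ℤ) ^ b + f * 3 ^ a := fun h => by
  have hqp : q.Prime := by rcases hq with rfl | rfl <;> norm_num
  have h3 : (3 : ℤ) ∣ f * 3 ^ a := (dvd_pow_self 3 (by omega)).mul_left f
  have hx : ¬ (3 : ℤ) ∣ x := fun hd => by
    have := (dvd_add_left h3).mp (h ▸ dvd_pow hd three_ne_zero)
    have h' := Int.prime_three.dvd_of_dvd_pow (he.dvd_mul_left.mp this)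
    rcases hq with rfl | rfl <;> norm_num at h'
  refine cubeEquation_fifteen_twentyone (n := 0) (p := 23) (by norm_num) (by norm_num)
    (dvd_zero _) hq (A := e * (q : ℤ) ^ b) (B := f * 3 ^ a) (y := 1) (z := 1) ?_ ?_
    one_ne_zero one_ne_zero ?_ ?_ ?_ ?_ (by simpa using h)
  · exact mul_ne_zero he.ne_zero (pow_ne_zero _ (mod_cast hqp.ne_zero))
  · exact mul_ne_zero hf.ne_zero (pow_ne_zero _ three_ne_zero)
  · simpa using prime_dvd_of_dvd_unit_mul Nat.prime_three hqp he (a := 0) (b := b)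
  · simpa using prime_dvd_of_dvd_unit_mul Nat.prime_three hqp hf (a := a) (b := 0)
  · simpa [isCoprime_mul_unit_left_right hf] using
      ((Int.prime_three.coprime_iff_not_dvd.2 hx).symm).pow_right (n := a)
  · rw [pow_zero, mul_one]
    exact ((show (27 : ℤ) = 3 ^ 3 by norm_num) ▸ pow_dvd_pow 3 ha).mul_left f

/-- **`x² ± 2 ^ a q ^ b ≠ ± y ^ n`** for `q = 11, 13, 19`, `a ≥ 6`, `x` prime to `2 q` and an
exponent with a prime factor `p ≥ 11`. -/
theorem sq_add_two_pow_mul_pow_ne_pow {n p : ℕ} (hp : p.Prime) (h11 : 11 ≤ p) (hpn : p ∣ n)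
    {q : ℕ} (hq : q = 11 ∨ q = 13 ∨ q = 19) {a b : ℕ} (ha : 6 ≤ a) {e f : ℤ} (he : IsUnit e)
    (hf : IsUnit f) {x y : ℤ} (hx : Odd x) (hxq : ¬ (q : ℤ) ∣ x) :
    x ^ 2 + e * (2 ^ a * (q : ℤ) ^ b) ≠ f * y ^ n := fun h => by
  have hqp : q.Prime := by rcases hq with rfl | rfl | rfl <;> norm_num
  wlog hy0 : y ≠ 0 generalizing y
  · obtain rfl := not_not.1 hy0
    rcases eq_or_ne n 0 with rfl | hn
    · exact this (y := 1) (by simpa using h) one_ne_zero
    · have h2 : Even (e * (2 ^ a * (q : ℤ) ^ b)) :=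
        ((even_two.pow_of_ne_zero (by omega)).mul_right _).mul_left e
      have hodd := (hx.pow (n := 2)).add_even h2
      rw [h, zero_pow hn, mul_zero] at hodd
      simp at hodd
  obtain ⟨j, hj⟩ := hx
  have hcop : IsCoprime x (2 ^ a * (q : ℤ) ^ b) :=
    ((show IsCoprime x 2 from ⟨1, -j, by rw [hj]; ring⟩).pow_right).mul_right
      (((Nat.prime_iff_prime_int.1 hqp).coprime_iff_not_dvd.2 hxq).symm).pow_right
  refine squareEquation_twoPrimes hp h11 hpn hq (A := f)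
    (B := -e * (2 ^ a * (q : ℤ) ^ b)) (z := 1) hf.ne_zero ?_ hy0 one_ne_zero ?_ ?_ ⟨j, hj⟩ ?_ ?_
    (by rw [one_pow]; linear_combination h)
  · exact mul_ne_zero (neg_ne_zero.mpr he.ne_zero)
      (mul_ne_zero (pow_ne_zero _ two_ne_zero) (pow_ne_zero _ (mod_cast hqp.ne_zero)))
  · simpa using prime_dvd_of_dvd_unit_mul Nat.prime_two hqp hf (a := 0) (b := 0)
  · simpa using prime_dvd_of_dvd_unit_mul Nat.prime_two hqp he.neg (a := a) (b := b)
  · rw [one_pow, mul_one]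
    exact (isCoprime_mul_unit_left_right he.neg _ _).mpr hcop
  · rw [one_pow, mul_one]
    exact (((show (64 : ℤ) = 2 ^ 6 by norm_num) ▸ pow_dvd_pow 2 ha).mul_right _).mul_left (-e)

/-- **`x³ ± 3 ^ a q ^ b ≠ y ^ n`** for `q = 5, 7`, `a ≥ 3`, `x` prime to `3 q` and an exponent
with a prime factor `p ≥ 5`. -/
theorem cube_add_three_pow_mul_pow_ne_pow {n p : ℕ} (hp : p.Prime) (h5 : 5 ≤ p) (hpn : p ∣ n)
    {q : ℕ} (hq : q = 5 ∨ q = 7) {a b : ℕ} (ha : 3 ≤ a) {e : ℤ} (he : IsUnit e) {x y : ℤ}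
    (hx : ¬ (3 : ℤ) ∣ x) (hxq : ¬ (q : ℤ) ∣ x) :
    x ^ 3 + e * (3 ^ a * (q : ℤ) ^ b) ≠ y ^ n := fun h => by
  have hqp : q.Prime := by rcases hq with rfl | rfl <;> norm_num
  wlog hy0 : y ≠ 0 generalizing y
  · obtain rfl := not_not.1 hy0
    rcases eq_or_ne n 0 with rfl | hn
    · exact this (y := 1) (by simpa using h) one_ne_zero
    · have h3 : (3 : ℤ) ∣ e * (3 ^ a * (q : ℤ) ^ b) :=
        ((dvd_pow_self (3 : ℤ) (show a ≠ 0 by omega)).mul_right _).mul_left e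
      exact hx (Int.prime_three.dvd_of_dvd_pow (n := 3)
        ((dvd_add_left h3).mp (by rw [h, zero_pow hn]; exact dvd_zero _)))
  have hcop : IsCoprime x (3 ^ a * (q : ℤ) ^ b) :=
    (((Int.prime_three.coprime_iff_not_dvd.2 hx).symm).pow_right).mul_right
      (((Nat.prime_iff_prime_int.1 hqp).coprime_iff_not_dvd.2 hxq).symm).pow_right
  refine cubeEquation_fifteen_twentyone hp h5 hpn hq (x := x) (A := 1)
    (B := -e * (3 ^ a * (q : ℤ) ^ b)) (z := 1) one_ne_zero ?_ hy0 one_ne_zero ?_ ?_ ?_ ?_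
    (by rw [one_pow]; linear_combination h)
  · exact mul_ne_zero (neg_ne_zero.mpr he.ne_zero)
      (mul_ne_zero (pow_ne_zero _ three_ne_zero) (pow_ne_zero _ (mod_cast hqp.ne_zero)))
  · simpa using prime_dvd_of_dvd_unit_mul Nat.prime_three hqp isUnit_one (a := 0) (b := 0)
  · simpa using prime_dvd_of_dvd_unit_mul Nat.prime_three hqp he.neg (a := a) (b := b)
  · rw [one_pow, mul_one]
    exact (isCoprime_mul_unit_left_right he.neg _ _).mpr hcop
  · rw [one_pow, mul_one]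
    exact (((show (27 : ℤ) = 3 ^ 3 by norm_num) ▸ pow_dvd_pow 3 ha).mul_right _).mul_left (-e)

end FA.Summary

end
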