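import Fermat.Agent.EC.S51Aux
import Fermat.Agent.Root.SummaryEquationsSeven

/-!
# The cube equation from the exponent `5` on

The curve of `x³ = A y ^ n + B z ^ n` has a rational point of order `3`, and the points of `X₀(15)`
away from the cusps have additive reduction at `5`: so its mod `5` representation is irreducible.
The square equation does not extend, as `695 ^ 2 = 3 * 11 ^ 5 + 4 * (-2) ^ 5`.
-/

set_option autoImplicit false

noncomputable section

open WeierstrassCurve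

namespace FA.EC

/-- **Irreducibility mod `5` with a rational kernel of a `3`-isogeny.** -/
theorem modRepIsIrreducible_five_of_root_three {W : WeierstrassCurve ℤ} (hΔ : W.Δ ≠ 0)
    (hW : W.IsSemistableModel) {e : ℚ} (he : (W.map (Int.castRingHom ℚ)).Ψ₃.eval e = 0) :
    W.ModRepIsIrreducible 5 := by
  by_contra hcon
  have := FA.Frob.ratCurve_isElliptic_of_Δ hΔ
  obtain ⟨t, ht0, ht⟩ := exists_param_five (E := W.map (Int.castRingHom ℚ)) hcon
  obtain ⟨s, hs, hsj⟩ := exists_param_three _ _ he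
  rw [map_c₄, map_Δ, eq_intCast, eq_intCast] at ht hsj
  have hF : (s + 27) * (s + 3) ^ 3 * t = (t ^ 2 + 10 * t + 5) ^ 3 * s :=
    mul_right_cancel₀ (Int.cast_ne_zero.mpr hΔ : (W.Δ : ℚ) ≠ 0)
      (by linear_combination s * ht - t * hsj)
  rcases X15.fibre_points hs ht0 hF with rfl | rfl | rfl | rfl
  · refine not_semistable_of_five hW (num := -(25 * 241 ^ 3)) (den := 8) ?_
      (by norm_num) (by norm_num) (by norm_num)
    refine Int.cast_injective (α := ℚ) ?_
    push_cast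
    linear_combination (-1 / 5 : ℚ) * ht
  · refine not_semistable_of_five hW (num := -(5 * 29 ^ 3)) (den := 32) ?_
      (by norm_num) (by norm_num) (by norm_num)
    refine Int.cast_injective (α := ℚ) ?_
    push_cast
    linear_combination (-64 / 25 : ℚ) * ht
  · refine not_semistable_of_five hW (num := 5 * 211 ^ 3) (den := 32768) ?_
      (by norm_num) (by norm_num) (by norm_num)
    refine Int.cast_injective (α := ℚ) ?_
    push_cast
    linear_combination (-262144 / 25 : ℚ) * ht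
  · refine not_semistable_of_five hW (num := -25) (den := 2) ?_
      (by norm_num) (by norm_num) (by norm_num)
    refine Int.cast_injective (α := ℚ) ?_
    push_cast
    linear_combination (-1 / 5 : ℚ) * ht

end FA.EC

namespace FA.Summary

open FA.PowerEquations

/-- **The equation `x³ = A y ^ n + B z ^ n`** with the primes of `A` and `B` dividing `6` and
`27` dividing `B z ^ n`, for `n` with a prime factor `p ≥ 5`. -/
theorem cubeEquation_five {n p : ℕ} (hp : p.Prime) (h5 : 5 ≤ p) (hpn : p ∣ n) {A B x y z : ℤ}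
    (hA : A ≠ 0) (hB : B ≠ 0) (hy : y ≠ 0) (hz : z ≠ 0)
    (hsA : ∀ q : ℕ, q.Prime → (q : ℤ) ∣ A → q ∣ 6)
    (hsB : ∀ q : ℕ, q.Prime → (q : ℤ) ∣ B → q ∣ 6)
    (hcop : IsCoprime x (B * z ^ n)) (h27 : (27 : ℤ) ∣ B * z ^ n) :
    x ^ 3 ≠ A * y ^ n + B * z ^ n := by
  obtain rfl | h7 : p = 5 ∨ 7 ≤ p := by
    by_contra h
    obtain rfl : p = 6 := by omega
    norm_num at hp
  swap
  · exact cubeEquation_seven hp h7 hpn hA hB hy hz hsA hsB hcop h27
  intro heq
  obtain ⟨m, rfl⟩ := hpn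
  rw [mul_comm 5 m, pow_mul, pow_mul] at *
  have hT : B * (z ^ m) ^ 5 ≠ 0 := mul_ne_zero hB (pow_ne_zero _ (pow_ne_zero _ hz))
  have h4 := Int.mul_ediv_cancel' h27
  have hΔ := cube_Δ_eq (x := x) h27
  rw [heq, add_sub_cancel_right] at hΔ
  have hΔ0 : (cubeCurve x (B * (z ^ m) ^ 5)).Δ ≠ 0 := by
    rw [hΔ]
    exact mul_ne_zero (pow_ne_zero _ fun h => hT (by rw [← h4, h, mul_zero]))
      (mul_ne_zero hA (pow_ne_zero _ (pow_ne_zero _ hy)))
  have := Fact.mk hp
  have hW := cube_isSemistableModel h27 hcop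
  refine false_of_discriminant_eq_of_irreducible hΔ0 hW (p := 5) (by norm_num)
    (FA.EC.modRepIsIrreducible_five_of_root_three hΔ0 hW (e := 0)
      (by simp [cubeCurve, Ψ₃, b₈]))
    (M := 6) (by norm_num) (by norm_num) (a := 3 ^ 9) (b := B ^ 3 * A)
    (t := (z ^ m) ^ 3 * y ^ m) (by norm_num)
    (by exact_mod_cast dvd_of_dvd_pow (show 3 ∣ 6 by norm_num) Nat.prime_three 9) ?_ ?_
  · intro q hq h
    rcases (Nat.prime_iff_prime_int.1 hq).dvd_or_dvd h with h | h
    · exact hsB q hq ((Nat.prime_iff_prime_int.1 hq).dvd_of_dvd_pow h)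
    · exact hsA q hq h
  · rw [hΔ, show ∀ t : ℤ, 3 ^ 9 * (t ^ 3 * (A * (y ^ m) ^ 5)) = (27 * t) ^ 3 * (A * (y ^ m) ^ 5)
      from fun t => by ring, h4]
    ring

/-- **`x³ - y ^ n ≠ 3 ^ k` and `y ^ n - x³ ≠ 3 ^ k`** for `x` prime to three, `k ≥ 3`, nonzero `y`
and an exponent with a prime factor `p ≥ 5`. -/
theorem cube_sub_pow_ne_three_pow_five {n p : ℕ} (hp : p.Prime) (h5 : 5 ≤ p) (hpn : p ∣ n)
    {k : ℕ} (hk : 3 ≤ k) {x y : ℤ} (hx : ¬ (3 : ℤ) ∣ x) (hy : y ≠ 0) :
    x ^ 3 - y ^ n ≠ 3 ^ k ∧ y ^ n - x ^ 3 ≠ 3 ^ k := by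
  have hs : ∀ q : ℕ, q.Prime → (q : ℤ) ∣ (3 : ℤ) ^ k → q ∣ 6 := by
    exact_mod_cast dvd_of_dvd_pow (show 3 ∣ 6 by norm_num) Nat.prime_three k
  have hu : ∀ q : ℕ, q.Prime → (q : ℤ) ∣ (1 : ℤ) → q ∣ 6 := fun q hq h =>
    absurd (isUnit_of_dvd_one h) (Nat.prime_iff_prime_int.1 hq).not_isUnit
  have hd : (27 : ℤ) ∣ 3 ^ k := (show (27 : ℤ) = 3 ^ 3 by norm_num) ▸ pow_dvd_pow 3 hk
  have hcop : IsCoprime x (3 ^ k) :=
    ((Int.prime_three.coprime_iff_not_dvd.2 hx).symm).pow_right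
  have h0 : (3 : ℤ) ^ k ≠ 0 := pow_ne_zero _ (by norm_num)
  refine ⟨fun h => ?_, fun h => ?_⟩
  · exact cubeEquation_five hp h5 hpn one_ne_zero h0 hy one_ne_zero hu hs
      (by simpa using hcop) (by simpa using hd) (by rw [one_pow]; linear_combination h)
  · exact cubeEquation_five hp h5 hpn one_ne_zero (B := -3 ^ k) (neg_ne_zero.2 h0) hy one_ne_zero
      hu (fun q hq h => hs q hq (dvd_neg.1 h))
      (by simpa using hcop.neg_right) (by simpa using hd.neg_right)
      (by rw [one_pow]; linear_combination -h)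

end FA.Summary

end
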