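import Fermat.Agent.RT.CurveResidual
import Fermat.Agent.Density.Places
import Fermat.Agent.Theta.Galois
import Mathlib.GroupTheory.SpecificGroups.Cyclic
import Mathlib.RingTheory.IntegralDomain

/-!
# An auxiliary prime

An element of determinant `-1` and nonzero trace, hence a prime `r ≡ -1 (mod p)` at which the trace
of Frobenius is not zero modulo `p`.
-/

set_option autoImplicit false
set_option linter.style.haveILetI false

noncomputable section

open Matrix WeierstrassCurve FA.TW FA.Deform FA.Local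

namespace FA.Root

local notation "M2" => Matrix (Fin 2) (Fin 2)
local notation "Qb" => AlgebraicClosure ℚ
local notation "GQ" => AlgebraicClosure ℚ ≃ₐ[ℚ] AlgebraicClosure ℚ

/-- Determinant `-1` and trace `0` square to one. -/
theorem sq_eq_one_of_trace_zero {R : Type} [CommRing R] {A : M2 R} (ht : A.trace = 0)
    (hd : A.det = -1) : A * A = 1 := by
  rw [Matrix.det_fin_two] at hd
  rw [Matrix.trace_fin_two] at ht
  ext i j
  fin_cases i <;> fin_cases j <;> simp [Matrix.mul_apply, Fin.sum_univ_two]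
  · linear_combination A 0 0 * ht - hd
  · linear_combination A 0 1 * ht
  · linear_combination A 1 0 * ht
  · linear_combination A 1 1 * ht - hd

variable {G : Type} [Group G] {L : Type} [Field L] [IsAlgClosed L]

/-- A normal subgroup with commuting image and cyclic quotient stabilises a line on a subgroup of
index at most two. -/
theorem false_of_commute_of_isBig (ρ : G →* M2 L) (hbig : IsBig ρ) {C : Type} [Group C]
    [Finite C] [IsCyclic C] (χ : G →* C) (hcomm : ∀ a ∈ χ.ker, ∀ b ∈ χ.ker, ρ a * ρ b = ρ b * ρ a) :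
    False := by
  classical
  by_cases hscal : ∀ h ∈ χ.ker, ∃ a : L, ρ h = a • 1
  · obtain ⟨⟨_, g, rfl⟩, hgen⟩ := IsCyclic.exists_generator (α := χ.range)
    obtain ⟨c, v, hv, hgv⟩ := exists_eigenvector (ρ g)
    obtain ⟨x, -, hx⟩ := hbig.top v hv
    obtain ⟨n, hn⟩ : ∃ n : ℕ, χ g ^ n = χ x := by
      obtain ⟨n, hn⟩ := ((isOfFinOrder_of_finite _).mem_powers_iff_mem_zpowers.mpr
        (hgen ⟨χ x, x, rfl⟩))
      exact ⟨n, congrArg Subtype.val hn⟩
    obtain ⟨a, ha⟩ := hscal ((g ^ n)⁻¹ * x) (by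
      rw [MonoidHom.mem_ker, map_mul, map_inv, map_pow, hn, inv_mul_cancel])
    refine hx (a * c ^ n) ?_
    have hx' : x = g ^ n * ((g ^ n)⁻¹ * x) := by group
    rw [hx', map_mul, ha, Algebra.mul_smul_comm, mul_one, smul_mulVec, map_pow]
    have hpow : ∀ m : ℕ, ρ g ^ m *ᵥ v = c ^ m • v := fun m => by
      induction m with
      | zero => simp
      | succ m ih => rw [pow_succ', ← mulVec_mulVec, ih, mulVec_smul, hgv, smul_smul, pow_succ]
    rw [hpow, smul_smul]
  push Not at hscal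
  obtain ⟨h₀, hh₀, hns⟩ := hscal
  obtain ⟨c, v, hv, hcv⟩ := exists_eigenvector (ρ h₀)
  -- `v` spans a line stable under the kernel
  have heig : ∀ h ∈ χ.ker, ∃ a : L, ρ h *ᵥ v = a • v := fun h hh =>
    eigen_line hns hv hcv (by rw [mulVec_mulVec, hcomm h₀ hh₀ h hh, ← mulVec_mulVec, hcv,
      mulVec_smul])
  let St : Subgroup G :=
    { carrier := {g | ∃ a : L, ρ g *ᵥ v = a • v}
      mul_mem' := fun {a b} ⟨x, hx⟩ ⟨y, hy⟩ => ⟨y * x, by
        rw [map_mul, ← mulVec_mulVec, hy, mulVec_smul, hx, smul_smul]⟩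
      one_mem' := ⟨1, by rw [map_one, one_mulVec, one_smul]⟩
      inv_mem' := fun {a} ⟨x, hx⟩ => ⟨x⁻¹, by
        have hx0 : x ≠ 0 := fun h0 => mulVec_ne_zero a hv (by rw [hx, h0, zero_smul])
        rw [eq_inv_smul_iff₀ hx0, ← mulVec_smul, ← hx, inv_mulVec_mulVec]⟩ }
  have hmem : ∀ g, g ∈ St ↔ ∃ a : L, ρ g *ᵥ v = a • v := fun _ => Iff.rfl
  obtain ⟨g₁, hg₁⟩ : ∃ g₁, g₁ ∉ St := by
    obtain ⟨g, -, hg⟩ := hbig.top v hv
    exact ⟨g, fun ⟨a, ha⟩ => hg a ha⟩
  -- the images of `v` are common eigenvectors, of which there are two lines at most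
  set w := ρ g₁ *ᵥ v with hw
  have himg : ∀ g : G, ∀ h ∈ χ.ker, ∃ a : L, ρ h *ᵥ (ρ g *ᵥ v) = a • ρ g *ᵥ v := by
    intro g h hh
    obtain ⟨a, ha⟩ := heig (g⁻¹ * h * g) (by simpa using χ.normal_ker.conj_mem h hh g⁻¹)
    refine ⟨a, ?_⟩
    rw [← mulVec_smul, ← ha, mulVec_mulVec, mulVec_mulVec, ← map_mul, ← map_mul]
    congr 2
    group
  obtain ⟨d, hd⟩ := himg g₁ h₀ hh₀
  have hw0 : w ≠ 0 := mulVec_ne_zero g₁ hv
  have hcd : c ≠ d := fun hcd => hg₁ <| by
    obtain ⟨a, ha⟩ := eigen_line hns hv hcv (hcd ▸ hd)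
    exact ⟨a, ha⟩
  -- coordinates in the basis `v, w`
  have hspan : ∀ u : Fin 2 → L, ∃ a b : L, u = a • v + b • w := by
    intro u
    have hli : LinearIndependent L ![v, w] := by
      rw [LinearIndependent.pair_iff' hv]
      intro a ha
      exact hg₁ ⟨a, ha.symm⟩
    have htop := hli.span_eq_top_of_card_eq_finrank (by simp)
    have hu : u ∈ Submodule.span L (Set.range ![v, w]) := by rw [htop]; trivial
    rw [Matrix.range_cons, Matrix.range_cons, Matrix.range_empty, Set.union_empty,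
      ← Set.insert_eq, Submodule.mem_span_pair] at hu
    obtain ⟨a, b, hab⟩ := hu
    exact ⟨a, b, hab.symm⟩
  have htwo : ∀ (u : Fin 2 → L) (e : L), ρ h₀ *ᵥ u = e • u →
      (∃ a : L, u = a • v) ∨ (∃ a : L, u = a • w) := by
    intro u e he
    obtain ⟨a, b, rfl⟩ := hspan u
    rw [mulVec_add, mulVec_smul, mulVec_smul, hcv, hd] at he
    have h' : (a * (c - e)) • v + (b * (d - e)) • w = 0 := by
      rw [mul_sub, mul_sub, sub_smul, sub_smul, mul_comm a e, mul_comm b e, ← smul_smul,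
        ← smul_smul, ← smul_smul, ← smul_smul]
      rw [smul_add] at he
      rw [sub_add_sub_comm, he, sub_self]
    have hli : LinearIndependent L ![v, w] := by
      rw [LinearIndependent.pair_iff' hv]
      intro a ha
      exact hg₁ ⟨a, ha.symm⟩
    obtain ⟨h1, h2⟩ := LinearIndependent.pair_iff.mp hli _ _ h'
    rcases mul_eq_zero.mp h1 with ha | hce
    · exact Or.inr ⟨b, by rw [ha, zero_smul, zero_add]⟩
    rcases mul_eq_zero.mp h2 with hb | hde
    · exact Or.inl ⟨a, by rw [hb, zero_smul, add_zero]⟩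
    exact absurd ((sub_eq_zero.mp hce).trans (sub_eq_zero.mp hde).symm) hcd
  have hidx : St.index = 2 := by
    rw [Subgroup.index_eq_two_iff]
    refine ⟨g₁, fun b => ?_⟩
    by_cases hb : b ∈ St
    · refine Or.inr ⟨hb, fun hbg => hg₁ ?_⟩
      simpa using St.mul_mem (St.inv_mem hb) hbg
    refine Or.inl ⟨?_, hb⟩
    obtain ⟨e, he⟩ := himg b h₀ hh₀
    obtain ⟨a, ha⟩ := (htwo _ e he).resolve_left fun ⟨a, ha⟩ => hb ⟨a, ha⟩
    obtain ⟨e', he'⟩ := himg (b * g₁) h₀ hh₀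
    rcases htwo _ e' he' with ⟨x, hx⟩ | ⟨x, hx⟩
    · exact ⟨x, hx⟩
    exfalso
    rw [map_mul, ← mulVec_mulVec, ← hw] at hx
    have ha0 : a ≠ 0 := fun h0 => mulVec_ne_zero b hv (by rw [ha, h0, zero_smul])
    have h1 : ρ b *ᵥ (w - (x / a) • v) = 0 := by
      rw [mulVec_sub, mulVec_smul, hx, ha, smul_smul, div_mul_cancel₀ x ha0, sub_self]
    have h2 := sub_eq_zero.mp ((inv_mulVec_mulVec (ρ := ρ) b _).symm.trans
      (by rw [h1, mulVec_zero]))
    exact hg₁ ⟨_, h2⟩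
  obtain ⟨h, hh, hne⟩ := hbig.index_two St hidx v hv
  obtain ⟨a, ha⟩ := hh
  exact hne a ha

variable {p : ℕ} [Fact p.Prime] {W : WeierstrassCurve ℤ} [(FA.Frob.ratCurve W).IsElliptic]

/-- An element of determinant `-1` with nonzero trace. -/
theorem exists_det_neg_one_trace_ne (hΔ : W.Δ ≠ 0) (hW : W.IsSemistableModel) (hp2 : p ≠ 2)
    (hirr : W.ModRepIsIrreducible p) :
    ∃ σ : GQ, (FA.RT.curveRep p W σ).det = -1 ∧ (FA.RT.curveRep p W σ).trace ≠ 0 := by
  by_contra hcon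
  push Not at hcon
  let r := FA.RT.curveRep p W
  let dv : GQ →* (ZMod p)ˣ :=
    ((Matrix.detMonoidHom (n := Fin 2) (R := ZMod p)).comp r).toHomUnits
  have hker : ∀ a, a ∈ dv.ker ↔ (r a).det = 1 := fun a => by
    rw [MonoidHom.mem_ker, Units.ext_iff, Units.val_one]
    rfl
  let K := AlgebraicClosure (ZMod p)
  let j : ZMod p →+* K := algebraMap (ZMod p) K
  refine false_of_commute_of_isBig _ (FA.RT.isBig_curveRep W hΔ hW hp2 hirr j) dv fun a ha b hb => ?_
  rw [hker] at ha hb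
  let c : GQ := complexConjugation
  have hc : (r c).det = -1 := FA.RT.det_complexConjugation W hp2
  have hinv : ∀ x : GQ, (r x).det = 1 → r c * r x * r c * r x = 1 := fun x hx => by
    have h1 : (r (c * x)).det = -1 := by rw [map_mul, det_mul, hc, hx, mul_one]
    have h2 := sq_eq_one_of_trace_zero (hcon _ h1) h1
    simpa only [map_mul, mul_assoc] using h2
  have hcc : r c * r c = 1 := sq_eq_one_of_trace_zero (hcon _ hc) hc
  have hconj : ∀ x : GQ, (r x).det = 1 → r c * r x * r c = r x⁻¹ := fun x hx => by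
    calc r c * r x * r c = r c * r x * r c * (r x * r x⁻¹) := by
          rw [← map_mul r x x⁻¹, mul_inv_cancel, map_one, mul_one]
      _ = r x⁻¹ := by rw [← mul_assoc, hinv x hx, one_mul]
  have hab : r a⁻¹ * r b⁻¹ = r b⁻¹ * r a⁻¹ := by
    rw [← map_mul r b⁻¹, ← _root_.mul_inv_rev, ← hconj (a * b) (by rw [map_mul, det_mul, ha, hb, one_mul]),
      ← hconj a ha, ← hconj b hb, map_mul]
    simp only [mul_assoc]
    rw [← mul_assoc (r c) (r c), hcc, one_mul]
  have h' : r (b * a) = r (a * b) := by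
    have e : r ((b * a)⁻¹) = r ((a * b)⁻¹) := by
      rw [_root_.mul_inv_rev, _root_.mul_inv_rev, map_mul, map_mul, hab]
    calc r (b * a) = r (b * a) * (r ((a * b)⁻¹) * r (a * b)) := by
          rw [← map_mul r (a * b)⁻¹, inv_mul_cancel, map_one, mul_one]
      _ = r (a * b) := by rw [← e, ← mul_assoc, ← map_mul r _ (b * a)⁻¹, mul_inv_cancel, map_one,
          one_mul]
  rw [map_mul, map_mul] at h'
  show (FA.Deform.mapRep j r) a * (FA.Deform.mapRep j r) b = _
  rw [mapRep_eq, mapRep_eq, ← map_mul, ← h', map_mul]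

/-- **An auxiliary prime.** -/
theorem exists_aux_prime (hΔ : W.Δ ≠ 0) (hW : W.IsSemistableModel) (hp2 : p ≠ 2)
    (hirr : W.ModRepIsIrreducible p) (S : Finset ℕ) :
    ∃ r : ℕ, r.Prime ∧ r ∉ S ∧ r ≠ p ∧ W.IsGoodPrimeFor r ∧ (r : ZMod p) = -1 ∧
      (W.apOfModel r : ZMod p) ≠ 0 := by
  obtain ⟨s, hs, hst⟩ := exists_det_neg_one_trace_ne hΔ hW hp2 hirr
  let ρ := FA.RT.curveRep p W
  obtain ⟨q, A, σ, k, hq, hqS, hA, hσ, hk, j, hj⟩ :=
    FA.Density.exists_frobenius_generating ρ.ker (FA.RT.isOpen_ker_curveRep W) s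
      (S ∪ {p} ∪ W.Δ.natAbs.primeFactors)
  simp only [Finset.mem_union, Finset.mem_singleton, not_or, Nat.mem_primeFactors] at hqS
  obtain ⟨⟨hqS, hqp⟩, hqΔ⟩ := hqS
  have hgood : W.IsGoodPrimeFor q := fun h =>
    hqΔ ⟨hq, Int.natCast_dvd.mp h, Int.natAbs_ne_zero.mpr hΔ⟩
  obtain ⟨htr, hdet⟩ := FA.Theta.trace_det_of_charpoly (M := ρ σ)
    ((LinearMap.charpoly_toMatrix _ _).trans
      (FA.Frob.charpoly_galoisRep W hq hgood (p := p) (Ne.symm hqp) hA hσ))
  have hk' : ρ σ ^ k = ρ s := by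
    rw [← map_pow]
    calc ρ (σ ^ k) = ρ (σ ^ k * ((σ ^ k)⁻¹ * s)) := by
          rw [map_mul, MonoidHom.mem_ker.mp hk, mul_one]
      _ = ρ s := by rw [mul_inv_cancel_left]
  have hj' : ρ σ = ρ s ^ j := by
    rw [← map_pow]
    calc ρ σ = ρ (s ^ j * ((s ^ j)⁻¹ * σ)) := by rw [mul_inv_cancel_left]
      _ = ρ (s ^ j) := by rw [map_mul, MonoidHom.mem_ker.mp hj, mul_one]
  have hne : (1 : ZMod p) ≠ -1 := fun h => hp2 <| by
    have h2 : ((2 : ℕ) : ZMod p) = 0 := by push_cast; linear_combination h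
    exact (Nat.prime_dvd_prime_iff_eq (Fact.out : p.Prime) Nat.prime_two).1
      ((ZMod.natCast_eq_zero_iff 2 p).1 h2)
  have hd : (ρ σ).det = -1 := by
    rcases Nat.even_or_odd j with hj2 | hj2
    · exfalso
      refine hne ?_
      rw [← hs, ← hk', det_pow, hj', det_pow, hs, hj2.neg_one_pow, one_pow]
    · rw [hj', det_pow, hs, hj2.neg_one_pow]
  refine ⟨q, hq, hqS, hqp, hgood, hdet.symm.trans hd, fun h0 => hst ?_⟩
  have h1 := sq_eq_one_of_trace_zero (A := ρ σ) (htr.trans h0) hd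
  have h2 : ρ s = ρ σ := by
    rcases Nat.even_or_odd k with ⟨i, hi⟩ | ⟨i, hi⟩
    · exfalso
      refine hne ?_
      rw [← hs, ← hk', det_pow, hd, Even.neg_one_pow ⟨i, hi⟩]
    · rw [← hk', hi, pow_succ, pow_mul, pow_two, h1, one_pow, one_mul]
  rw [h2, htr, h0]

end FA.Root

end
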