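import Fermat.Agent.Root.CentralValueFormula

/-!
# The derivative at the centre

For a weight two cusp form with `g (-1 / (M τ)) = M τ² g τ` and the coefficients of an elliptic
L-function the entire continuation `G` vanishes at `1` and
`G' (1) = 4 π / √M ∫_1^∞ g (i t / √M) log t dt`. As `log t ≥ 1 - e^(1 - t)`, `log t ≤ t - 1`,
`|a_2| ≤ 3` and `|a_n| ≤ 2 n` the first term dominates for `M ≤ 43`, so the zero is simple.
-/

set_option autoImplicit false

noncomputable section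

open UpperHalfPlane hiding I
open ModularForm CongruenceSubgroup Complex MeasureTheory Set Filter Asymptotics
open FA.Period
open scoped Real MatrixGroups Topology

namespace FA.Central

/-- `1 - e^(1 - t) ≤ log t` for `t ≥ 1`. -/
theorem one_sub_exp_le_log {t : ℝ} (ht : 1 ≤ t) : 1 - Real.exp (1 - t) ≤ Real.log t := by
  have hd : ∀ x ∈ interior (Ici (1 : ℝ)),
      HasDerivAt (fun x => Real.log x + Real.exp (1 - x)) (x⁻¹ - Real.exp (1 - x)) x := fun x hx => by
    rw [interior_Ici, mem_Ioi] at hx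
    exact ((Real.hasDerivAt_log (by linarith)).add
      (((hasDerivAt_id x).const_sub 1).exp)).congr_deriv (by simp only [id]; ring)
  have hmono : MonotoneOn (fun x => Real.log x + Real.exp (1 - x)) (Ici (1 : ℝ)) := by
    refine monotoneOn_of_deriv_nonneg (convex_Ici 1) ?_
      (fun x hx => (hd x hx).differentiableAt.differentiableWithinAt) fun x hx => ?_
    · exact (Real.continuousOn_log.mono fun x (hx : 1 ≤ x) => by
        simp only [mem_compl_iff, mem_singleton_iff]; linarith).add (by fun_prop)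
    · rw [(hd x hx).deriv, sub_nonneg, show 1 - x = -(x - 1) by ring, Real.exp_neg]
      rw [interior_Ici, mem_Ioi] at hx
      exact inv_anti₀ (by linarith) (by linarith [Real.add_one_le_exp (x - 1)])
  have h := hmono self_mem_Ici (mem_Ici.mpr ht) ht
  simp only [Real.log_one, sub_self, Real.exp_zero, zero_add] at h
  linarith

/-- `(t - 1) e^(-k t)` beyond `1`. -/
theorem integral_sub_one_mul_exp {k : ℝ} (hk : 0 < k) :
    IntegrableOn (fun t => (t - 1) * Real.exp (-k * t)) (Ioi 1) ∧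
      ∫ t in Ioi (1 : ℝ), (t - 1) * Real.exp (-k * t) = Real.exp (-k) / k ^ 2 := by
  set F : ℝ → ℝ := fun t => -((t - 1) / k + 1 / k ^ 2) * Real.exp (-k * t) with hF
  have hd : ∀ x ∈ Ici (1 : ℝ), HasDerivAt F ((x - 1) * Real.exp (-k * x)) x := fun x _ => by
    refine ((((hasDerivAt_id x).sub_const 1).div_const k).add_const (1 / k ^ 2)).neg.mul
      (((hasDerivAt_id x).const_mul (-k)).exp) |>.congr_deriv ?_
    simp only [id, mul_one, Pi.neg_apply]
    field_simp
    ring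
  have hpos : ∀ x ∈ Ioi (1 : ℝ), 0 ≤ (x - 1) * Real.exp (-k * x) := fun x hx =>
    mul_nonneg (by linarith [mem_Ioi.mp hx]) (Real.exp_pos _).le
  have hlim : Tendsto F atTop (𝓝 0) := by
    have h := ((tendsto_rpow_mul_exp_neg_mul_atTop_nhds_zero 1 k hk).const_mul (-(1 / k))).add
      ((tendsto_rpow_mul_exp_neg_mul_atTop_nhds_zero 0 k hk).const_mul (1 / k - 1 / k ^ 2))
    rw [mul_zero, mul_zero, add_zero] at h
    refine h.congr fun t => ?_
    simp only [hF, Real.rpow_one, Real.rpow_zero]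
    ring
  refine ⟨integrableOn_Ioi_deriv_of_nonneg' hd hpos hlim, ?_⟩
  rw [integral_Ioi_of_hasDerivAt_of_nonneg' hd hpos hlim, hF]
  simp only [mul_one]
  ring

/-- The bounding function has a positive integral for `2 π / √43 ≤ r`. -/
theorem integral_bound_pos {r x : ℝ} (hr : 0.958 ≤ r) (hx : Real.exp (-r) = x) :
    IntegrableOn (fun t => Real.exp (-r * t) - Real.exp 1 * Real.exp (-(r + 1) * t) -
        3 * ((t - 1) * Real.exp (-(2 * r) * t)) - 12 * ((t - 1) * Real.exp (-(3 * r) * t)))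
      (Ioi 1) ∧
    0 < ∫ t in Ioi (1 : ℝ), (Real.exp (-r * t) - Real.exp 1 * Real.exp (-(r + 1) * t) -
        3 * ((t - 1) * Real.exp (-(2 * r) * t)) - 12 * ((t - 1) * Real.exp (-(3 * r) * t))) := by
  have hr0 : 0 < r := lt_of_lt_of_le (by norm_num) hr
  have i1 : IntegrableOn (fun t => Real.exp (-r * t)) (Ioi 1) :=
    integrableOn_exp_mul_Ioi (by linarith) 1
  have i2 : IntegrableOn (fun t => Real.exp 1 * Real.exp (-(r + 1) * t)) (Ioi 1) :=
    (integrableOn_exp_mul_Ioi (by linarith) 1).const_mul _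
  obtain ⟨i3, e3⟩ := integral_sub_one_mul_exp (k := 2 * r) (by linarith)
  obtain ⟨i4, e4⟩ := integral_sub_one_mul_exp (k := 3 * r) (by linarith)
  have j12 : IntegrableOn (fun t => Real.exp (-r * t) - Real.exp 1 * Real.exp (-(r + 1) * t))
      (Ioi 1) := i1.sub i2
  have j123 : IntegrableOn (fun t => Real.exp (-r * t) - Real.exp 1 * Real.exp (-(r + 1) * t) -
      3 * ((t - 1) * Real.exp (-(2 * r) * t))) (Ioi 1) := j12.sub (i3.const_mul 3)
  refine ⟨j123.sub (i4.const_mul 12), ?_⟩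
  rw [integral_sub j123 (i4.const_mul 12), integral_sub j12 (i3.const_mul 3), integral_sub i1 i2,
    integral_const_mul,
    integral_const_mul, integral_const_mul, e3, e4, integral_exp_mul_Ioi (by linarith),
    integral_exp_mul_Ioi (by linarith), mul_one, mul_one]
  have ex2 : Real.exp (-(2 * r)) = x ^ 2 := by rw [← hx, ← Real.exp_nat_mul]; ring_nf
  have ex3 : Real.exp (-(3 * r)) = x ^ 3 := by rw [← hx, ← Real.exp_nat_mul]; ring_nf
  have ee : Real.exp 1 * Real.exp (-(r + 1)) = x := by rw [← hx, ← Real.exp_add]; ring_nf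
  rw [ex2, ex3, ← mul_div_assoc (Real.exp 1), mul_neg, ee, neg_div_neg_eq, hx, neg_div_neg_eq]
  have hx0 : 0 < x := hx ▸ Real.exp_pos _
  have hx1 : x ≤ 0.385 := by
    rw [← hx]
    refine (Real.exp_le_exp.mpr (neg_le_neg hr)).trans ?_
    rw [Real.exp_neg, inv_le_comm₀ (Real.exp_pos _) (by norm_num),
      show (0.958 : ℝ) = 1 + -0.042 by norm_num, Real.exp_add]
    nlinarith [Real.exp_one_gt_d9, Real.add_one_le_exp (-0.042 : ℝ)]
  rw [show x / r - x / (r + 1) - 3 * (x ^ 2 / (2 * r) ^ 2) - 12 * (x ^ 3 / (3 * r) ^ 2) =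
    x * ((r / (r + 1)) - 3 * x / 4 - 4 * x ^ 2 / 3) / r ^ 2 by field_simp; ring]
  refine div_pos (mul_pos hx0 ?_) (by positivity)
  have h2 : (0.489 : ℝ) ≤ r / (r + 1) := by rw [le_div_iff₀ (by linarith)]; nlinarith
  nlinarith

/-- A series `q + a₂ q² + ⋯` with `|a₂| ≤ 3`, `|a_n| ≤ 2 n` for `q ≤ 0.385`. -/
theorem norm_sub_first_le {b : ℕ → ℂ} {y : ℝ} (hy0 : 0 ≤ y) (hy : y ≤ 0.385) {s : ℂ}
    (hs : HasSum (fun n : ℕ => b n * (y : ℂ) ^ n) s) (h0 : b 0 = 0) (h1 : b 1 = 1)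
    (h2 : ‖b 2‖ ≤ 3) (hb : ∀ n : ℕ, ‖b n‖ ≤ 2 * (n : ℝ)) :
    ‖s - y‖ ≤ 3 * y ^ 2 + 12 * y ^ 3 := by
  have ht := (hasSum_nat_add_iff' 3).mpr hs
  rw [Finset.sum_range_succ, Finset.sum_range_succ, Finset.sum_range_one, h0, h1] at ht
  have hy1 : ‖y‖ < 1 := by rw [Real.norm_eq_abs, abs_of_nonneg hy0]; linarith
  have hgeo : HasSum (fun n : ℕ => 2 * ((n : ℝ) + 3) * y ^ (n + 3))
      (2 * y ^ 3 * (y / (1 - y) ^ 2 + 3 * (1 - y)⁻¹)) := by
    refine (((hasSum_coe_mul_geometric_of_norm_lt_one hy1).add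
      ((hasSum_geometric_of_norm_lt_one hy1).mul_left 3)).mul_left (2 * y ^ 3)).congr_fun
      fun n => ?_
    ring
  have hle := tsum_of_norm_bounded hgeo (f := fun n : ℕ => b (n + 3) * (y : ℂ) ^ (n + 3))
    fun n => by
      rw [norm_mul, norm_pow, Complex.norm_real, Real.norm_eq_abs, abs_of_nonneg hy0]
      exact mul_le_mul_of_nonneg_right ((hb _).trans (by push_cast; rfl)) (pow_nonneg hy0 _)
  rw [ht.tsum_eq] at hle
  calc ‖s - (y : ℂ)‖
      = ‖b 2 * (y : ℂ) ^ 2 + (s - (0 * (y : ℂ) ^ 0 + 1 * (y : ℂ) ^ 1 + b 2 * (y : ℂ) ^ 2))‖ := by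
        congr 1; ring
    _ ≤ ‖b 2 * (y : ℂ) ^ 2‖ + 2 * y ^ 3 * (y / (1 - y) ^ 2 + 3 * (1 - y)⁻¹) :=
        (norm_add_le _ _).trans (add_le_add le_rfl hle)
    _ ≤ 3 * y ^ 2 + 12 * y ^ 3 := by
        refine add_le_add ?_ ?_
        · rw [norm_mul, norm_pow, Complex.norm_real, Real.norm_eq_abs, abs_of_nonneg hy0]
          exact mul_le_mul_of_nonneg_right h2 (pow_nonneg hy0 _)
        · have hne : 0 < 1 - y := by linarith
          have hC : y / (1 - y) ^ 2 + 3 * (1 - y)⁻¹ ≤ 6 := by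
            rw [show y / (1 - y) ^ 2 + 3 * (1 - y)⁻¹ = (3 - 2 * y) / (1 - y) ^ 2 by
              field_simp; ring, div_le_iff₀ (pow_pos hne 2)]
            nlinarith
          nlinarith [pow_nonneg hy0 3]

/-- `|a₂| ≤ 3`. -/
theorem norm_LFunction_two (E : WeierstrassCurve ℚ) : ‖(E.LFunction 2 : ℂ)‖ ≤ 3 := by
  rw [Complex.norm_intCast]
  refine (FA.Summary.lFunction_abs_le E 2).trans ?_
  rw [show (Nat.divisors 2).card = 2 by decide]
  have : Real.sqrt ((2 : ℕ) : ℝ) ≤ 1.5 := by rw [Real.sqrt_le_left] <;> norm_num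
  push_cast at this ⊢
  linarith

/-- A function with `ψ (1 / t) = t² ψ (t)`. -/
theorem integral_Ioi_zero_of_inv {ψ : ℝ → ℂ} (hint : IntegrableOn ψ (Ioi 0))
    (hinv : ∀ t : ℝ, 1 < t → ψ t⁻¹ = (t : ℂ) ^ 2 * ψ t) :
    ∫ t in Ioi (0 : ℝ), ψ t = 2 * ∫ t in Ioi (1 : ℝ), ψ t := by
  have hset : Ioi (0 : ℝ) = Ioo 0 1 ∪ Ici 1 := (Ioo_union_Ici_eq_Ioi zero_lt_one).symm
  have hdisj : Disjoint (Ioo (0 : ℝ) 1) (Ici 1) :=
    Set.disjoint_left.mpr fun x hx hx' => not_le.mpr hx.2 hx'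
  rw [hset, setIntegral_union hdisj
    measurableSet_Ici (hint.mono_set (hset ▸ subset_union_left))
    (hint.mono_set (hset ▸ subset_union_right)), integral_Ici_eq_integral_Ioi, two_mul]
  congr 1
  have h := integral_comp_rpow_Ioi ((Ioo (0 : ℝ) 1).indicator ψ) (p := -1) (by norm_num)
  have e1 : ∀ {A : Set ℝ}, MeasurableSet A → A ⊆ Ioi 0 →
      ∫ t in Ioi (0 : ℝ), A.indicator ψ t = ∫ t in A, ψ t := fun hA hsub => by
    rw [setIntegral_indicator hA, inter_eq_right.mpr hsub]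
  rw [e1 measurableSet_Ioo Ioo_subset_Ioi_self] at h
  rw [← h, ← e1 measurableSet_Ioi (Ioi_subset_Ioi zero_le_one)]
  refine setIntegral_congr_fun measurableSet_Ioi fun t ht => ?_
  have ht : 0 < t := ht
  rw [Real.rpow_neg_one]
  by_cases h1 : 1 < t
  · rw [indicator_of_mem (mem_Ioi.mpr h1),
      indicator_of_mem (mem_Ioo.mpr ⟨inv_pos.mpr ht, inv_lt_one_of_one_lt₀ h1⟩), hinv t h1,
      show ((-1 : ℝ) - 1) = ((-2 : ℤ) : ℝ) by norm_num, Real.rpow_intCast, abs_neg, abs_one,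
      one_mul, Complex.real_smul, Complex.ofReal_zpow]
    have ht0 : (t : ℂ) ≠ 0 := Complex.ofReal_ne_zero.mpr ht.ne'
    field_simp
  · rw [indicator_of_notMem (fun h' : t ∈ Ioi (1 : ℝ) => h1 h'), indicator_of_notMem, smul_zero]
    exact fun h' => absurd h'.2 (not_lt.mpr (one_le_inv₀ ht |>.mpr (not_lt.mp h1)))

variable {L : ℕ} [NeZero L] {M : ℕ} [NeZero M]

/-- The derivative of the completed L-function at the centre. -/
theorem hasDerivAt_completedAt_one (g : CuspForm (Gamma0 L) 2)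
    (hg : ∀ τ w : ℍ, (w : ℂ) = -1 / ((M : ℂ) * (τ : ℂ)) →
      g w = 1 * ((M : ℂ) * (τ : ℂ) ^ 2) * g τ) :
    IntegrableOn (fun t : ℝ => (Real.log t : ℂ) * g (ofComplex (I * ((Real.sqrt M)⁻¹ * t : ℝ))))
      (Ioi 1) ∧
    HasDerivAt (FA.Twists.completedAt M g)
      (2 * ∫ t in Ioi (1 : ℝ),
        (Real.log t : ℂ) * g (ofComplex (I * ((Real.sqrt M)⁻¹ * t : ℝ)))) 1 := by
  have hM : 0 < Real.sqrt M := Real.sqrt_pos.mpr (Nat.cast_pos.mpr (NeZero.pos M))
  set c := (Real.sqrt M)⁻¹ with hcdef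
  have hc : 0 < c := inv_pos.mpr hM
  set φ : ℝ → ℂ := fun t => g (ofComplex (I * ((c * t : ℝ) : ℂ))) with hφ
  have hP := CuspForm.isStrongFEPair (Γ := (Gamma0 L : Subgroup (GL (Fin 2) ℝ))) (k := 2) two_pos g
  have hloc : LocallyIntegrableOn φ (Ioi 0) := by
    refine ContinuousOn.locallyIntegrableOn (fun t ht => ContinuousAt.continuousWithinAt ?_)
      measurableSet_Ioi
    have him : 0 < (I * ((c * t : ℝ) : ℂ)).im := by simpa using mul_pos hc (mem_Ioi.mp ht)
    refine ContinuousAt.comp (g := (g : ℍ → ℂ))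
      (ModularFormClass.holo g).continuous.continuousAt ?_
    exact (UpperHalfPlane.contMDiffAt_ofComplex (n := 1) him).continuousAt.comp
      (f := fun t : ℝ => I * ((c * t : ℝ) : ℂ)) (by fun_prop)
  have htop : φ =O[atTop] (· ^ (-(2 : ℝ))) := by
    refine ((hP.hf_top (-2)).comp_tendsto (tendsto_id.const_mul_atTop hc)).trans ?_
    refine IsBigO.of_bound (c ^ (-2 : ℝ)) ((eventually_gt_atTop 0).mono fun t ht => ?_)
    simp only [Function.comp_apply, id, Real.mul_rpow hc.le ht.le, norm_mul,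
      Real.norm_eq_abs, Real.abs_rpow_of_nonneg hc.le, abs_of_pos hc]
    exact le_rfl
  have hbot : φ =O[𝓝[>] 0] (· ^ (-(0 : ℝ))) := by
    have hmap : Tendsto (fun t => c * t) (𝓝[>] (0 : ℝ)) (𝓝[>] 0) := by
      refine tendsto_nhdsWithin_iff.mpr ⟨?_, eventually_nhdsWithin_of_forall fun t ht =>
        mul_pos hc ht⟩
      simpa using ((continuous_const_mul c).tendsto 0).mono_left nhdsWithin_le_nhds
    refine ((hP.hf_zero 0).comp_tendsto hmap).trans ?_
    exact IsBigO.of_bound 1 (Eventually.of_forall fun t => by simp)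
  obtain ⟨hconv, hder⟩ := mellin_hasDerivAt_of_isBigO_rpow (s := (1 : ℂ)) hloc htop
    (by norm_num) hbot (by norm_num)
  have hint : IntegrableOn (fun t => (Real.log t : ℂ) * φ t) (Ioi 0) := by
    simpa [MellinConvergent, Complex.real_smul] using hconv
  refine ⟨hint.mono_set (Ioi_subset_Ioi zero_le_one), ?_⟩
  have e : mellin (fun t => Real.log t • φ t) 1 = ∫ t in Ioi (0 : ℝ), (Real.log t : ℂ) * φ t := by
    simp [mellin, Complex.real_smul]
  rw [e, integral_Ioi_zero_of_inv hint fun t ht => by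
    simp only [hφ, hcdef]
    rw [FA.Twists.imAxis_inversion g hg (zero_lt_one.trans ht), Real.log_inv, cpow_ofNat,
      smul_eq_mul, smul_eq_mul]
    push_cast
    ring] at hder
  rw [show FA.Twists.completedAt M g = mellin φ from funext (FA.Twists.completedAt_eq_mellin g)]
  exact hder

/-- The completion near the centre. -/
theorem completedAt_eq_mul (g : CuspForm (Gamma0 L) 2) (E : WeierstrassCurve ℚ)
    (ha : ∀ n, ModularFormClass.qCoeff g n = (E.LFunction n : ℂ)) {G : ℂ → ℂ}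
    (hG : Differentiable ℂ G) (hGs : ∀ s : ℂ, 2 < s.re → G s = E.LSeries s) :
    EqOn (FA.Twists.completedAt M g)
      (fun s => (M : ℂ) ^ (s / 2) * (2 * (π : ℂ)) ^ (-s) * Complex.Gamma s * G s)
      {s : ℂ | 0 < s.re} := by
  refine AnalyticOnNhd.eqOn_of_preconnected_of_eventuallyEq
    (fun z _ => (FA.Twists.differentiable_completedAt M g).analyticAt z)
    ?_ (convex_halfSpace_re_gt 0).isPreconnected (z₀ := 3) (by norm_num) ?_
  · refine DifferentiableOn.analyticOnNhd (fun z hz => DifferentiableAt.differentiableWithinAt ?_)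
      (isOpen_lt continuous_const Complex.continuous_re)
    refine (((differentiableAt_id.div_const 2).const_cpow
      (Or.inl (Nat.cast_ne_zero.mpr (NeZero.ne M)))).mul (differentiableAt_id.neg.const_cpow
        (Or.inl (mul_ne_zero two_ne_zero (Complex.ofReal_ne_zero.mpr Real.pi_ne_zero))))).mul
      (Complex.differentiableAt_Gamma z fun m e => ?_) |>.mul (hG z)
    have : (0 : ℝ) < z.re := hz
    rw [e, Complex.neg_re, Complex.natCast_re] at this
    linarith [(Nat.cast_nonneg m : (0 : ℝ) ≤ m)]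
  · filter_upwards [(isOpen_lt continuous_const Complex.continuous_re).mem_nhds
      (show (2 : ℝ) < (3 : ℂ).re by norm_num)] with s hs
    rw [FA.Twists.completedAt_eq_LSeries g hs, hGs s hs, WeierstrassCurve.LSeries]
    congr 1
    exact congrArg (LSeries · s) (funext ha)

/-- **A simple zero at the centre** for `M ≤ 43`, with the derivative as an integral. -/
theorem centralDerivative (g : CuspForm (Gamma0 L) 2) (hM43 : M ≤ 43)
    (hg : ∀ τ w : ℍ, (w : ℂ) = -1 / ((M : ℂ) * (τ : ℂ)) →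
      g w = 1 * ((M : ℂ) * (τ : ℂ) ^ 2) * g τ) (E : WeierstrassCurve ℚ)
    (ha : ∀ n, ModularFormClass.qCoeff g n = (E.LFunction n : ℂ)) {G : ℂ → ℂ}
    (hG : Differentiable ℂ G) (hGs : ∀ s : ℂ, 2 < s.re → G s = E.LSeries s) :
    G 1 = 0 ∧ deriv G 1 = 4 * (π : ℂ) / (Real.sqrt M : ℝ) *
      (∫ t in Ioi (1 : ℝ), (Real.log t : ℂ) * g (ofComplex (I * ((Real.sqrt M)⁻¹ * t : ℝ)))) ∧
      deriv G 1 ≠ 0 ∧ analyticOrderAt G 1 = 1 := by
  have hM : 0 < Real.sqrt M := Real.sqrt_pos.mpr (Nat.cast_pos.mpr (NeZero.pos M))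
  obtain ⟨hint, hder⟩ := hasDerivAt_completedAt_one g hg
  set J := ∫ t in Ioi (1 : ℝ), (Real.log t : ℂ) * g (ofComplex (I * ((Real.sqrt M)⁻¹ * t : ℝ)))
    with hJ
  have heq := completedAt_eq_mul (M := M) g E ha hG hGs
  have h1 : (1 : ℂ) ∈ {s : ℂ | 0 < s.re} := by simp
  set A : ℂ → ℂ := fun s => (M : ℂ) ^ (s / 2) * (2 * (π : ℂ)) ^ (-s) * Complex.Gamma s with hA
  have hA1 : A 1 = ((Real.sqrt M : ℝ) : ℂ) / (2 * π) := by
    simp only [hA]
    rw [Complex.Gamma_one, mul_one, cpow_neg_one, ← div_eq_mul_inv, Real.sqrt_eq_rpow,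
      Complex.ofReal_cpow (Nat.cast_nonneg M)]
    norm_num
  have hπ : (π : ℂ) ≠ 0 := Complex.ofReal_ne_zero.mpr Real.pi_ne_zero
  have hM' : ((Real.sqrt M : ℝ) : ℂ) ≠ 0 := Complex.ofReal_ne_zero.mpr hM.ne'
  have hA0 : A 1 ≠ 0 := by rw [hA1]; exact div_ne_zero hM' (mul_ne_zero two_ne_zero hπ)
  have hΛ : FA.Twists.completedAt M g 1 = 0 := by
    have h := FA.Twists.completedAt_two_sub g hg 1
    rw [show (2 : ℂ) - 1 = 1 by norm_num] at h
    linear_combination h / 2
  have hG1 : G 1 = 0 := (mul_eq_zero.mp ((heq h1).symm.trans hΛ)).resolve_left hA0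
  have hdA : DifferentiableAt ℂ A 1 := by
    refine (((differentiableAt_id.div_const 2).const_cpow
      (Or.inl (Nat.cast_ne_zero.mpr (NeZero.ne M)))).mul (differentiableAt_id.neg.const_cpow
        (Or.inl (mul_ne_zero two_ne_zero hπ)))).mul
      (Complex.differentiableAt_Gamma 1 fun m e => ?_)
    have := congrArg Complex.re e
    simp at this
    linarith [(Nat.cast_nonneg m : (0 : ℝ) ≤ m)]
  have hder' : HasDerivAt (fun s => A s * G s) (deriv A 1 * G 1 + A 1 * deriv G 1) 1 :=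
    hdA.hasDerivAt.mul (hG 1).hasDerivAt
  have hdG : A 1 * deriv G 1 = 2 * J := by
    rw [← hder.deriv, (heq.eventuallyEq_of_mem
      ((isOpen_lt continuous_const Complex.continuous_re).mem_nhds h1)).deriv_eq]
    rw [show (fun s => (M : ℂ) ^ (s / 2) * (2 * (π : ℂ)) ^ (-s) * Complex.Gamma s * G s) =
      fun s => A s * G s from rfl, hder'.deriv, hG1, mul_zero, zero_add]
  have hval : deriv G 1 = 4 * (π : ℂ) / (Real.sqrt M : ℝ) * J := by
    rw [← mul_right_inj' hA0, hdG, hA1]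
    field_simp
    ring
  -- the integral has a positive real part
  set r := 2 * π / Real.sqrt M with hrdef
  have hr : 0.958 ≤ r := by
    have h43 : Real.sqrt M ≤ 6.558 := by
      rw [Real.sqrt_le_left (by norm_num)]
      exact le_trans (Nat.cast_le.mpr hM43) (by norm_num)
    rw [hrdef, le_div_iff₀ hM]; nlinarith [Real.pi_gt_d4]
  obtain ⟨hbi, hbpos⟩ := integral_bound_pos hr rfl
  have hJ0 : 0 < J.re := by
    refine hbpos.trans_le ?_
    rw [hJ, ← Complex.reCLM_apply, ← Complex.reCLM.integral_comp_comm hint]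
    refine setIntegral_mono_on hbi (hint.re) measurableSet_Ioi fun t ht => ?_
    have ht1 : 1 < t := ht
    have ht0 : 0 < t := zero_lt_one.trans ht1
    have hy : Real.exp (-r * t) ≤ 0.385 := by
      refine (Real.exp_le_exp.mpr (show -r * t ≤ -0.958 by nlinarith)).trans ?_
      rw [Real.exp_neg, inv_le_comm₀ (Real.exp_pos _) (by norm_num),
        show (0.958 : ℝ) = 1 + -0.042 by norm_num, Real.exp_add]
      nlinarith [Real.exp_one_gt_d9, Real.add_one_le_exp (-0.042 : ℝ)]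
    have hs := hasSum_imAxis g (mul_pos (inv_pos.mpr hM) ht0)
    have hs' : HasSum (fun n : ℕ => (E.LFunction n : ℂ) * (Real.exp (-r * t) : ℂ) ^ n)
        (g (ofComplex (I * ((Real.sqrt M)⁻¹ * t : ℝ)))) := by
      refine hs.congr_fun fun n => ?_
      rw [ha n, ← Complex.ofReal_pow, ← Real.exp_nat_mul]
      congr 3
      rw [hrdef]; ring
    have hb := norm_sub_first_le (Real.exp_pos _).le hy hs'
      (by simp)
      (by rw [(FA.Root.isMultiplicative_LFunction E).map_one, Int.cast_one])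
      (norm_LFunction_two E) (norm_LFunction_le E)
    have hre := (Complex.abs_re_le_norm _).trans hb
    rw [Complex.sub_re, Complex.ofReal_re, abs_le] at hre
    simp only [Complex.reCLM_apply, Complex.re_ofReal_mul]
    generalize (g (ofComplex (I * ((Real.sqrt M)⁻¹ * t : ℝ)))).re = R at hre
    set y := Real.exp (-r * t) with hydef
    have hy0 : 0 < y := Real.exp_pos _
    have e2 : Real.exp (-(2 * r) * t) = y ^ 2 := by rw [hydef, ← Real.exp_nat_mul]; ring_nf
    have e3 : Real.exp (-(3 * r) * t) = y ^ 3 := by rw [hydef, ← Real.exp_nat_mul]; ring_nf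
    have e1 : Real.exp 1 * Real.exp (-(r + 1) * t) = Real.exp (1 - t) * y := by
      rw [hydef, ← Real.exp_add, ← Real.exp_add]; ring_nf
    rw [e1, e2, e3]
    have hl0 := Real.log_nonneg ht1.le
    have hl1 := Real.log_le_sub_one_of_pos ht0
    have hl2 := one_sub_exp_le_log ht1.le
    have hB : 0 ≤ 3 * y ^ 2 + 12 * y ^ 3 := by positivity
    calc y - Real.exp (1 - t) * y - 3 * ((t - 1) * y ^ 2) - 12 * ((t - 1) * y ^ 3)
        = (1 - Real.exp (1 - t)) * y - (t - 1) * (3 * y ^ 2 + 12 * y ^ 3) := by ring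
      _ ≤ Real.log t * y - Real.log t * (3 * y ^ 2 + 12 * y ^ 3) := by
          nlinarith [mul_le_mul_of_nonneg_right hl2 hy0.le, mul_le_mul_of_nonneg_right hl1 hB]
      _ ≤ Real.log t * R := by nlinarith [hre.1]
  have hne : deriv G 1 ≠ 0 := by
    rw [hval]
    exact mul_ne_zero (div_ne_zero (mul_ne_zero (by norm_num) hπ) hM') fun e => by
      rw [e] at hJ0; simp at hJ0
  exact ⟨hG1, hval, hne, (hG.analyticAt 1).analyticOrderAt_eq_one_of_zero_deriv_ne_zero hG1 hne⟩

end FA.Central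

end
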