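import Fermat.Agent.Root.Closing
import Fermat.Agent.Two.DepthAlg

/-!
# The depth algebras of a curve at `p = 2`

The algebra of the pieces with the twists over the base of a curve.
-/

set_option autoImplicit false
set_option linter.style.haveILetI false
set_option maxHeartbeats 800000
set_option synthInstance.maxHeartbeats 200000

noncomputable section

open IsLocalRing WeierstrassCurve

namespace FA.Root

/-- **The depth algebras exist.** -/
theorem depthAlgs : DepthAlgs := by
  intro W _ hW O _ _ _ _ _ _ _ _ _ h2 N B avoid C ιp P S₀ hloc hdet hT0 n T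
  have hB : (C.Bd hW).BaseOK C.rb := ⟨h2, C.two_mem hW, C.span_rb⟩
  exact T.exists_depthAlg P hB S₀ hloc hT0 hdet C.isOpen_ker_rb (C.residualFrob hW)
    (fun l hl A hA σ hσ => C.rb_unr hW hl A hA σ hσ) (C.two_not_dvd_D hW)
    fun l hl _ h => hl.not_isUnit (squarefree_badProd W l h)

end FA.Root

end
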