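import Fermat.Agent.Root.Closing
import Fermat.Agent.Root.DepthPieces
import Fermat.Agent.Root.DepthSeps
import Fermat.Agent.Root.DepthAlgebras

/-!
# Fermat's Last Theorem

All inputs of `Root/Closing` are supplied.
-/

set_option autoImplicit false

noncomputable section

open WeierstrassCurve

namespace FA.Root

/-- The Frey curve is modular. -/
theorem frey_isModular_closed (P : FreyPackage) : P.freyCurve.IsModular :=
  frey_isModular_last depthPieces depthSeparations depthAlgs P

/-- The Frey representation is modular of a conductor level. -/
theorem modularRepOfConductorLevel_closed (P : FreyPackage) :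
    ∃ N : ℕ, P.IsConductorLevel N ∧ P.ModularRepOfLevel N :=
  modularRepOfConductorLevel_last depthPieces depthSeparations depthAlgs P

/-- There is no Frey package. -/
theorem false_of_freyPackage_closed (P : FreyPackage) : False :=
  false_of_freyPackage_last depthPieces depthSeparations depthAlgs P

/-- **Fermat's Last Theorem.** -/
theorem flt_closed (n : ℕ) (hn : 3 ≤ n) (a b c : ℕ) (ha : 0 < a) (hb : 0 < b) (hc : 0 < c) :
    a ^ n + b ^ n ≠ c ^ n :=
  flt_last depthPieces depthSeparations depthAlgs n hn a b c ha hb hc

end FA.Root

end
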