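import Fermat.Agent.Root.Closing
import Fermat.Agent.Root.DepthPieces
import Fermat.Agent.Root.DepthSeps

/-!
# Removal of a prime from the level

The removal step at `q ≠ p` with all inputs supplied.
-/

set_option autoImplicit false

noncomputable section

open WeierstrassCurve

namespace FA.Root

/-- **Removal of a prime `q ≠ p`.** -/
theorem removal_ne_closed (P : FreyPackage) {N q : ℕ} (hcond : P.IsConductorLevel N) (hq : q.Prime)
    (hqp : q ≠ P.p) (hqN : q ∣ N)
    (hirr : Affine.Point.GaloisRepIsIrreducible (K := AlgebraicClosure ℚ) ℚ P.freyCurve P.p)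
    (hmod : P.ModularRepOfLevel N) (hunr : P.GaloisRepUnramifiedAt q) :
    ∃ M : ℕ, M ∣ N ∧ ¬ q ∣ M ∧ P.ModularRepOfLevel M :=
  removal_ne_last depthPieces depthSeparations P hcond hq hqp hqN hirr hmod hunr

end FA.Root

end
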