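import Fermat.Agent.Root.EtaEleven
import Fermat.Prelude.Thm_ModularForm_sturm_bound_Gamma0

/-!
# Products `η(z) η(az) η(bz) η(Nz)` with `N = ab` and `1 + a + b + N = 24`

The cube and the fourth power of the square of such a product are exactly invariant under `Γ₀(N)`,
so the square is a modular form of weight four. Sturm's bound applied to the difference of squares
identifies the product with any cusp form of weight two having the same first coefficients.
-/

set_option autoImplicit false
set_option linter.style.haveILetI false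

noncomputable section

namespace FA.EtaFour

open UpperHalfPlane hiding I
open Complex Filter Topology CongruenceSubgroup ModularForm FA.ModField FA.ModField.EtaQ
open FA.EtaEleven (prodFun hasQ_prodFun formula3 exists_scaled etaPow_three_smul etaPow_four_smul
  coeff_mul_congr)
open scoped Real MatrixGroups Manifold

local notation "𝕢" => Function.Periodic.qParam

/-- The conditions on the levels. -/
structure Adm (N a b : ℕ) : Prop where
  hN : a * b = N
  hsum : 1 + a + b + N = 24
  hfour : ∀ x y z w : ZMod 4, x * w - y * (N * z) = 1 →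
    formula4 x y (N * z) w + formula4 x (a * y) (b * z) w + formula4 x (b * y) (a * z) w +
      formula4 x (N * y) z w = 0
  hthree : ∀ x y z w : ZMod 3, x * w - y * (N * z) = 1 →
    formula3 x y (N * z) w + formula3 x (a * y) (b * z) w + formula3 x (b * y) (a * z) w +
      formula3 x (N * y) z w = 0

variable {N a b : ℕ} [NeZero N] [NeZero a] [NeZero b]

variable (N a b) in
/-- `η(z) η(az) η(bz) η(Nz)`. -/
def etaFour (z : ℍ) : ℂ :=
  η (z : ℂ) * η (scaleH a z : ℂ) * η (scaleH b z : ℂ) * η (scaleH N z : ℂ)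

variable (N a b) in
/-- Its square. -/
def sqFun (z : ℍ) : ℂ := etaFour N a b z ^ 2

theorem sqFun_pow (w : ℕ) (z : ℍ) : sqFun N a b z ^ w =
    etaPow w z * etaPow w (scaleH a z) * etaPow w (scaleH b z) * etaPow w (scaleH N z) := by
  simp only [sqFun, etaFour, etaPow, mul_pow, ← pow_mul]

theorem sqFun_ne_zero (z : ℍ) : sqFun N a b z ≠ 0 :=
  pow_ne_zero 2 (mul_ne_zero (mul_ne_zero (mul_ne_zero (eta_ne_zero z.im_pos)
    (eta_ne_zero (scaleH a z).im_pos)) (eta_ne_zero (scaleH b z).im_pos))
    (eta_ne_zero (scaleH N z).im_pos))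

theorem sqFun_smul (h : Adm N a b) {g : SL(2, ℤ)} (hg : g ∈ Gamma0 N) (z : ℍ) :
    sqFun N a b (g • z) = denom g z ^ 4 * sqFun N a b z := by
  rw [Gamma0_mem, ZMod.intCast_zmod_eq_zero_iff_dvd] at hg
  obtain ⟨k, hk⟩ := hg
  have hNab : (N : ℤ) = a * b := by exact_mod_cast h.hN.symm
  obtain ⟨ga, hga, ha⟩ := exists_scaled (d := a) (g := g) (c := b * k)
    (by rw [hk, hNab, mul_assoc])
  obtain ⟨gb, hgb, hb⟩ := exists_scaled (d := b) (g := g) (c := a * k)
    (by rw [hk, hNab]; ring)
  obtain ⟨gn, hgn, hn⟩ := exists_scaled (d := N) (g := g) (c := k) hk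
  have hdet : g 0 0 * g 1 1 - g 0 1 * g 1 0 = 1 := by
    have := g.det_coe; rwa [Matrix.det_fin_two] at this
  rw [hk] at hdet
  have h3 : sqFun N a b (g • z) ^ 3 = (denom g z ^ 4 * sqFun N a b z) ^ 3 := by
    rw [sqFun_pow, mul_pow, sqFun_pow, (ha z).1, (hb z).1, (hn z).1, etaPow_three_smul,
      etaPow_three_smul ga, etaPow_three_smul gb, etaPow_three_smul gn, (ha z).2, (hb z).2,
      (hn z).2]
    have hd' := congrArg (Int.cast : ℤ → ZMod 4) hdet
    push_cast at hd'
    have e := h.hfour _ _ _ _ hd'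
    simp only [hga, hgb, hgn, hk, Matrix.of_apply, Matrix.cons_val', Matrix.cons_val_zero,
      Matrix.cons_val_one, Matrix.empty_val', Matrix.cons_val_fin_one, Int.cast_mul,
      Int.cast_natCast]
    have hr : rootC 4 ^ _ = (1 : ℂ) := (congrArg (fun x : ZMod 4 => rootC 4 ^ x.val) e).trans
      (by rw [ZMod.val_zero, pow_zero])
    rw [rootC_pow_add, rootC_pow_add, rootC_pow_add] at hr
    linear_combination (denom g z ^ 12 * etaPow 3 z * etaPow 3 (scaleH a z) *
      etaPow 3 (scaleH b z) * etaPow 3 (scaleH N z)) * hr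
  have h4 : sqFun N a b (g • z) ^ 4 = (denom g z ^ 4 * sqFun N a b z) ^ 4 := by
    rw [sqFun_pow, mul_pow, sqFun_pow, (ha z).1, (hb z).1, (hn z).1, etaPow_four_smul,
      etaPow_four_smul ga, etaPow_four_smul gb, etaPow_four_smul gn, (ha z).2, (hb z).2,
      (hn z).2]
    have hd' := congrArg (Int.cast : ℤ → ZMod 3) hdet
    push_cast at hd'
    have e := h.hthree _ _ _ _ hd'
    simp only [hga, hgb, hgn, hk, Matrix.of_apply, Matrix.cons_val', Matrix.cons_val_zero,
      Matrix.cons_val_one, Matrix.empty_val', Matrix.cons_val_fin_one, Int.cast_mul,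
      Int.cast_natCast]
    have hr : rootC 3 ^ _ = (1 : ℂ) := (congrArg (fun x : ZMod 3 => rootC 3 ^ x.val) e).trans
      (by rw [ZMod.val_zero, pow_zero])
    rw [rootC_pow_add, rootC_pow_add, rootC_pow_add] at hr
    linear_combination (denom g z ^ 16 * etaPow 4 z * etaPow 4 (scaleH a z) *
      etaPow 4 (scaleH b z) * etaPow 4 (scaleH N z)) * hr
  have h0 : (denom g z ^ 4 * sqFun N a b z) ^ 3 ≠ 0 :=
    pow_ne_zero 3 (mul_ne_zero (pow_ne_zero 4 (denom_ne_zero _ _)) (sqFun_ne_zero z))
  exact mul_left_cancel₀ h0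
    (by rw [← pow_succ]; exact (h3 ▸ pow_succ (sqFun N a b (g • z)) 3).symm.trans h4)

/-! ### The `q`-series -/

variable (N a b) in
/-- `q ∏ (1 - qⁿ) (1 - q^(an)) (1 - q^(bn)) (1 - q^(Nn))`. -/
def series : PowerSeries ℤ :=
  PowerSeries.X * (ModularCurve.etaProd * PowerSeries.expand a (NeZero.ne a) ModularCurve.etaProd *
    PowerSeries.expand b (NeZero.ne b) ModularCurve.etaProd *
    PowerSeries.expand N (NeZero.ne N) ModularCurve.etaProd)

theorem eta_eq (z : ℍ) : η (z : ℂ) = cexp (2 * π * I * z / 24) * prodFun z := by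
  have hq : qp 1 z = 𝕢 (1 : ℝ) (z : ℂ) := by simp [qp]
  rw [ModularForm.eta, prodFun]
  congr 1
  simp only [ModularForm.eta_q, ← hq]

theorem hasQ_etaFour (h : Adm N a b) :
    FA.Eis.HasQ 1 (etaFour N a b) ((series N a b).map (Int.castRingHom ℂ)) := by
  have hX : FA.Eis.HasQ 1 (fun z : ℍ => 𝕢 1 (z : ℂ)) PowerSeries.X := fun z => by
    convert hasSum_single (f := fun n => PowerSeries.coeff n (PowerSeries.X : PowerSeries ℂ) *
      𝕢 (1 : ℝ) (z : ℂ) ^ n) 1 (fun n hn => by simp [PowerSeries.coeff_X, hn]) using 1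
    simp
  have hP := hasQ_prodFun
  have hs : ∀ (d : ℕ) [NeZero d] (z : ℍ), FA.Eis.scalePt d z = scaleH d z := fun d _ z => by
    ext; rw [FA.Eis.coe_scalePt, coe_scaleH]
  have hfun : etaFour N a b = (fun z : ℍ => 𝕢 1 (z : ℂ)) *
      (prodFun * FA.Eis.dil a prodFun * FA.Eis.dil b prodFun * FA.Eis.dil N prodFun) := by
    funext z
    simp only [Pi.mul_apply, FA.Eis.dil, hs]
    rw [etaFour, eta_eq, eta_eq, eta_eq, eta_eq,
      show 𝕢 1 (z : ℂ) = cexp (2 * π * I * z / 24) * cexp (2 * π * I * (scaleH a z : ℍ) / 24) *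
        cexp (2 * π * I * (scaleH b z : ℍ) / 24) * cexp (2 * π * I * (scaleH N z : ℍ) / 24) by
      rw [Function.Periodic.qParam, ← Complex.exp_add, ← Complex.exp_add, ← Complex.exp_add,
        coe_scaleH, coe_scaleH, coe_scaleH]
      congr 1
      have h24 : (1 : ℂ) + a + b + N = 24 := by exact_mod_cast h.hsum
      push_cast
      linear_combination -(π * I * (z : ℂ) / 12) * h24]
    ring
  rw [hfun, series, map_mul, map_mul, map_mul, map_mul, PowerSeries.map_X, PowerSeries.map_expand,
    PowerSeries.map_expand, PowerSeries.map_expand]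
  exact hX.mul one_pos (((hP.mul one_pos (hP.dil a)).mul one_pos (hP.dil b)).mul one_pos
    (hP.dil N))

/-- The square vanishes at every cusp. -/
theorem sqFun_isZero (γ : SL(2, ℤ)) : IsZeroAtImInfty (sqFun N a b ∣[(4 : ℤ)] γ) := by
  obtain ⟨F₁, hF₁, h₁⟩ := FA.CM.exists_tendsto_scaled 1 γ
  obtain ⟨Fa, hFa, hA⟩ := FA.CM.exists_tendsto_scaled a γ
  obtain ⟨Fb, hFb, hB⟩ := FA.CM.exists_tendsto_scaled b γ
  obtain ⟨Fn, hFn, hn⟩ := FA.CM.exists_tendsto_scaled N γ
  have h1 : ∀ z : ℍ, scaleH 1 z = z := fun z => by ext; rw [coe_scaleH, Nat.cast_one, one_mul]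
  have hpow : ∀ z, (sqFun N a b ∣[(4 : ℤ)] γ) z ^ 12 = F₁ z * Fa z * Fb z * Fn z := fun z => by
    have hd : denom γ z ≠ 0 := denom_ne_zero _ _
    have h₁' := h₁ z
    rw [h1] at h₁'
    rw [ModularForm.SL_slash_apply, mul_pow, sqFun_pow, h₁', hA, hB, hn, zpow_neg,
      show (4 : ℤ) = ((4 : ℕ) : ℤ) from rfl, zpow_natCast, inv_pow]
    field_simp
  have h : Tendsto (fun z => ‖(sqFun N a b ∣[(4 : ℤ)] γ) z‖ ^ 12) atImInfty (𝓝 0) := by
    simp only [← norm_pow, hpow]
    simpa using (((hF₁.mul hFa).mul hFb).mul hFn).norm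
  show Tendsto _ _ _
  rw [tendsto_zero_iff_norm_tendsto_zero]
  have := h.rpow_const (p := ((12 : ℕ) : ℝ)⁻¹) (Or.inr (by positivity))
  rw [Real.zero_rpow (by norm_num)] at this
  exact this.congr fun z => Real.pow_rpow_inv_natCast (norm_nonneg _) (by norm_num)

/-- The square as a modular form of weight four. -/
def sqForm (h : Adm N a b) : ModularForm (Gamma0 N) (2 + 2) where
  toFun := sqFun N a b
  slash_action_eq' := by
    rintro _ ⟨M, hM, rfl⟩
    show sqFun N a b ∣[(4 : ℤ)] M = _
    funext z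
    have hd : denom M z ≠ 0 := denom_ne_zero _ _
    rw [ModularForm.SL_slash_apply, sqFun_smul h hM, zpow_neg,
      show (4 : ℤ) = ((4 : ℕ) : ℤ) from rfl, zpow_natCast]
    field_simp
  holo' := ((hasQ_etaFour h).pow one_pos 2).mdiff one_pos
  bdd_at_cusps' := fun hc => by
    rw [Subgroup.IsArithmetic.isCusp_iff_isCusp_SL2Z] at hc
    exact (OnePoint.isBoundedAt_iff_forall_SL2Z hc).mpr fun M _ =>
      (sqFun_isZero M).isBoundedAtImInfty

theorem coeff_series_one : PowerSeries.coeff 1 (series N a b) = 1 := by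
  rw [series, PowerSeries.coeff_succ_X_mul, PowerSeries.coeff_zero_eq_constantCoeff, map_mul,
    map_mul, map_mul, PowerSeries.constantCoeff_expand, PowerSeries.constantCoeff_expand,
    PowerSeries.constantCoeff_expand, ModularCurve.constantCoeff_etaProd]
  norm_num

/-- **A cusp form of weight two with the same first nine coefficients is the product.** -/
theorem coe_eq_etaFour (h : Adm N a b) (hidx : (Gamma0 N).index = 24)
    (f : CuspForm (Gamma0 N) 2)
    (hc : ∀ n ≤ 8, ModularFormClass.qCoeff f n =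
      ((PowerSeries.coeff n (series N a b) : ℤ) : ℂ)) :
    (∀ z : ℍ, f z = etaFour N a b z) ∧
      ∀ n, ModularFormClass.qCoeff f n = ((PowerSeries.coeff n (series N a b) : ℤ) : ℂ) := by
  have h1 : (1 : ℝ) ∈ (Gamma0 N : Subgroup (GL (Fin 2) ℝ)).strictPeriods := by
    simp [CongruenceSubgroup.strictPeriods_Gamma0]
  let G : ModularForm (Gamma0 N) 2 :=
    { toFun := ⇑f
      slash_action_eq' := f.slash_action_eq'
      holo' := f.holo'
      bdd_at_cusps' := fun hc γ hγ => (f.zero_at_cusps' hc γ hγ).isBoundedAtImInfty }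
  have hf : FA.Eis.HasQ 1 ⇑f (qExpansion 1 ⇑f) :=
    FA.Eis.HasQ.of_periodic one_pos (SlashInvariantFormClass.periodic_comp_ofComplex f h1)
      f.holo' (by
        have : Fact (IsCusp OnePoint.infty (Gamma0 N : Subgroup (GL (Fin 2) ℝ))) :=
          ⟨Subgroup.isCusp_of_mem_strictPeriods one_pos h1⟩
        exact ModularFormClass.bdd_at_infty G)
  set A := (series N a b).map (Int.castRingHom ℂ)
  set B := qExpansion 1 ⇑f
  have hA : FA.Eis.HasQ 1 (etaFour N a b) A := hasQ_etaFour h
  let F : ModularForm (Gamma0 N) (2 + 2) := sqForm h - G.mul G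
  have hF : F = 0 := ModularForm.sturm_bound_Gamma0 N F fun n hn => by
    have hn8 : n ≤ 8 := by rw [hidx] at hn; exact hn
    have hQ : FA.Eis.HasQ 1 ⇑F (A * A - B * B) := by
      have e : ⇑F = etaFour N a b * etaFour N a b - ⇑f * ⇑f := funext fun z =>
        congrArg (· - f z * f z) (sq (etaFour N a b z))
      rw [e]
      exact (hA.mul one_pos hA).sub (hf.mul one_pos hf)
    have e : ∀ i ≤ n, PowerSeries.coeff i A = PowerSeries.coeff i B := fun i hi => by
      rw [PowerSeries.coeff_map]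
      exact (hc i (hi.trans hn8)).symm
    rw [hQ.qExpansion_eq one_pos, map_sub, sub_eq_zero]
    exact coeff_mul_congr e e
  have hfun : ∀ z, etaFour N a b z * etaFour N a b z = f z * f z := fun z => by
    have hz := DFunLike.congr_fun hF z
    change sqFun N a b z - f z * f z = 0 at hz
    rwa [sqFun, sq, sub_eq_zero] at hz
  have hAB : A ^ 2 = B ^ 2 := by
    rw [sq, sq]
    refine (hA.mul one_pos hA).unique one_pos ?_
    rw [show etaFour N a b * etaFour N a b = ⇑f * ⇑f from funext hfun]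
    exact hf.mul one_pos hf
  rcases sq_eq_sq_iff_eq_or_eq_neg.mp hAB with e | e
  · refine ⟨fun z => congrFun (hf.ext_fun (e ▸ hA)) z, fun n => ?_⟩
    show PowerSeries.coeff n B = _
    rw [← e, PowerSeries.coeff_map]
    rfl
  · exfalso
    have hb : PowerSeries.coeff 1 B = 1 := by
      have := hc 1 (by norm_num)
      rwa [coeff_series_one, Int.cast_one] at this
    have ha : PowerSeries.coeff 1 A = 1 := by
      rw [PowerSeries.coeff_map, coeff_series_one, map_one]
    rw [e, map_neg, hb] at ha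
    norm_num at ha

end FA.EtaFour

end
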