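import Fermat.Agent.Root.SummaryCentralValue
import Fermat.Agent.CM.Curve27

/-!
# Analytic rank zero at the small levels

`L (E, 1) ≠ 0` for the semistable curves of the levels `14`, `15`, `17`, `19`, `21` and for
`y² + y = x³`.
-/

set_option autoImplicit false

noncomputable section

open WeierstrassCurve
open FA.Theta (badProd)
open UpperHalfPlane (ofComplex)
open ModularForm (eta)
open scoped Real

namespace FA.Central

/-- The central value of a curve with the L-function of a semistable equation of level `N ≤ 32`. -/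
theorem exists_centralValue_of_LFunction_eq {N : ℕ} (hsqN : Squarefree N) (hle : N ≤ 32)
    (W : WeierstrassCurve ℤ) (hΔ : W.Δ ≠ 0) (hs : W.IsSemistableModel)
    (hN : W.Δ.natAbs.primeFactors = N.primeFactors)
    (hsign : ∏ q ∈ N.primeFactors, -FA.Root.splitSign W q = -1) (E : WeierstrassCurve ℚ)
    (hL : E.LFunction = (W.map (Int.castRingHom ℚ)).LFunction) :
    ∃ g : ℂ → ℂ, Differentiable ℂ g ∧ (∀ s : ℂ, 3 / 2 < s.re → g s = E.LSeries s) ∧
      g 1 = 2 * ∑' n : ℕ, (E.LFunction n : ℂ) / n *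
        (Real.exp (-(2 * π * n / Real.sqrt N)) : ℂ) ∧ g 1 ≠ 0 := by
  have hbad : badProd W = N := by
    rw [← Nat.prod_primeFactors_of_squarefree (FA.Root.squarefree_badProd W),
      ← Nat.prod_primeFactors_of_squarefree hsqN, ← hN]
    congr 1
    ext q
    simp only [Nat.mem_primeFactors, ne_eq, (FA.Root.squarefree_badProd W).ne_zero,
      not_false_eq_true, and_true, Int.natAbs_eq_zero, hΔ, ← Int.natCast_dvd]
    exact and_congr_right fun hq => FA.Root.prime_dvd_badProd_iff hΔ hq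
  have : (W.map (Int.castRingHom ℚ)).IsElliptic := FA.Frob.ratCurve_isElliptic_of_Δ hΔ
  have h := exists_centralValue_of_model (W.map (Int.castRingHom ℚ)) (W := W) ⟨1, one_smul _ _⟩ hs
    (hbad ▸ hle) (by rw [hbad]; exact hsign)
  simp only [WeierstrassCurve.LSeries, ← hL, hbad] at h ⊢
  exact h

theorem primeFactors_of_two_primes {p q : ℕ} (hp : p.Prime) (hq : q.Prime) :
    (p * q).primeFactors = {p, q} := by
  rw [Nat.primeFactors_mul hp.ne_zero hq.ne_zero, hp.primeFactors, hq.primeFactors]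
  rfl

theorem splitSign_eq_one {W : WeierstrassCurve ℤ} {q : ℕ} (h : FA.Root.SplitModel W q) :
    FA.Root.splitSign W q = 1 := if_pos h

theorem splitSign_eq_neg_one {W : WeierstrassCurve ℤ} {q : ℕ} (h : ¬ FA.Root.SplitModel W q) :
    FA.Root.splitSign W q = -1 := if_neg h

/-- **The Fricke involution of level 27.** -/
theorem cm27_fricke (τ w : UpperHalfPlane) (hw : (w : ℂ) = -1 / ((27 : ℕ) * (τ : ℂ))) :
    FA.CM.cm27 w = -1 * ((27 : ℕ) * (τ : ℂ) ^ 2) * FA.CM.cm27 τ := by
  have hτ := τ.ne_zero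
  simp only [FA.CM.cm27, FA.ModField.coe_scaleH, hw]
  push_cast
  rw [show (3 : ℂ) * (-1 / (27 * τ)) = -1 / (9 * τ) by field_simp; ring,
    show (9 : ℂ) * (-1 / (27 * τ)) = -1 / (3 * τ) by field_simp; ring,
    FA.CM.eta_S_sq (τ := 9 * τ) (by simpa using τ.im_pos),
    FA.CM.eta_S_sq (τ := 3 * τ) (by simpa using τ.im_pos)]
  linear_combination
    (27 * (τ : ℂ) ^ 2 * eta (3 * τ) ^ 2 * eta (9 * τ) ^ 2) * Complex.I_sq

end FA.Central

namespace FA.Summary

open FA.Central

variable (E : WeierstrassCurve ℚ) [E.IsElliptic]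

/-- Analytic rank zero for the semistable curves with good reduction outside `2` and `7`. -/
theorem centralValue_levelFourteen
    (h : ∀ p : ℕ, ∀ [Fact p.Prime], ∃ C : VariableChange ℚ_[p],
      HasGoodReduction ℤ_[p] (C • E.map (algebraMap ℚ ℚ_[p])) ∨
        HasMultiplicativeReduction ℤ_[p] (C • E.map (algebraMap ℚ ℚ_[p])))
    (hgood : ∀ p : ℕ, ∀ [Fact p.Prime], p ≠ 2 → p ≠ 7 → ∃ C : VariableChange ℚ_[p],
      HasGoodReduction ℤ_[p] (C • E.map (algebraMap ℚ ℚ_[p]))) :
    ∃ g : ℂ → ℂ, Differentiable ℂ g ∧ (∀ s : ℂ, 3 / 2 < s.re → g s = E.LSeries s) ∧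
      g 1 = 2 * ∑' n : ℕ, (E.LFunction n : ℂ) / n *
        (Real.exp (-(2 * π * n / Real.sqrt 14)) : ℂ) ∧ g 1 ≠ 0 := by
  have h' := exists_centralValue_of_LFunction_eq (N := 14) FA.Ribet.squarefree_fourteen
    (by norm_num) FA.Ribet.curve14 (by decide) (FA.Ribet.semistable_of_Δ (q := 7) (i := 6) (j := 3)
      (by norm_num) (by decide) (Or.inr (by decide)) (by decide))
    (FA.Ribet.natAbs_primeFactors (E := FA.Ribet.curve14) (q := 7) (i := 6) (j := 3)
      (by norm_num) FA.Ribet.curve14_Δ (by norm_num) (by norm_num)) (by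
      rw [show (14 : ℕ) = 2 * 7 from rfl, primeFactors_of_two_primes (by norm_num) (by norm_num),
        Finset.prod_pair (by norm_num),
        splitSign_eq_neg_one (q := 2) (by unfold FA.Root.SplitModel; decide),
        splitSign_eq_one (q := 7) (by unfold FA.Root.SplitModel; decide)]; norm_num) E (by
      rw [uniqueLevelFourteen (E := E) h hgood]
      congr 1)
  rw [Nat.cast_ofNat] at h'
  exact h'

/-- Analytic rank zero for the semistable curves with good reduction outside `3` and `5`. -/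
theorem centralValue_levelFifteen
    (h : ∀ p : ℕ, ∀ [Fact p.Prime], ∃ C : VariableChange ℚ_[p],
      HasGoodReduction ℤ_[p] (C • E.map (algebraMap ℚ ℚ_[p])) ∨
        HasMultiplicativeReduction ℤ_[p] (C • E.map (algebraMap ℚ ℚ_[p])))
    (hgood : ∀ p : ℕ, ∀ [Fact p.Prime], p ≠ 3 → p ≠ 5 → ∃ C : VariableChange ℚ_[p],
      HasGoodReduction ℤ_[p] (C • E.map (algebraMap ℚ ℚ_[p]))) :
    ∃ g : ℂ → ℂ, Differentiable ℂ g ∧ (∀ s : ℂ, 3 / 2 < s.re → g s = E.LSeries s) ∧
      g 1 = 2 * ∑' n : ℕ, (E.LFunction n : ℂ) / n *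
        (Real.exp (-(2 * π * n / Real.sqrt 15)) : ℂ) ∧ g 1 ≠ 0 := by
  have h' := exists_centralValue_of_LFunction_eq (N := 15)
    ((Nat.squarefree_mul (show Nat.Coprime 3 5 by norm_num)).mpr
      ⟨Nat.prime_three.prime.squarefree, Nat.prime_five.prime.squarefree⟩)
    (by norm_num) FA.Root.curve15 (by decide) (fun r hr _ hc => hr.ne_one (Nat.dvd_one.mp (by
      rw [show FA.Root.curve15.c₄ = 1 from by decide] at hc; exact_mod_cast hc)))
    (by rw [show FA.Root.curve15.Δ = -15 from by decide]; rfl) (by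
      rw [show (15 : ℕ) = 3 * 5 from rfl, primeFactors_of_two_primes (by norm_num) (by norm_num),
        Finset.prod_pair (by norm_num),
        splitSign_eq_neg_one (q := 3) (by unfold FA.Root.SplitModel; decide),
        splitSign_eq_one (q := 5) (by unfold FA.Root.SplitModel; decide)]; norm_num) E (by
      rw [uniqueLevelFifteen (E := E) h hgood]
      congr 1)
  rw [Nat.cast_ofNat] at h'
  exact h'

/-- Analytic rank zero for the semistable curves with good reduction outside `17`. -/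
theorem centralValue_levelSeventeen
    (h : ∀ p : ℕ, ∀ [Fact p.Prime], ∃ C : VariableChange ℚ_[p],
      HasGoodReduction ℤ_[p] (C • E.map (algebraMap ℚ ℚ_[p])) ∨
        HasMultiplicativeReduction ℤ_[p] (C • E.map (algebraMap ℚ ℚ_[p])))
    (hgood : ∀ p : ℕ, ∀ [Fact p.Prime], p ≠ 17 → ∃ C : VariableChange ℚ_[p],
      HasGoodReduction ℤ_[p] (C • E.map (algebraMap ℚ ℚ_[p]))) :
    ∃ g : ℂ → ℂ, Differentiable ℂ g ∧ (∀ s : ℂ, 3 / 2 < s.re → g s = E.LSeries s) ∧
      g 1 = 2 * ∑' n : ℕ, (E.LFunction n : ℂ) / n *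
        (Real.exp (-(2 * π * n / Real.sqrt 17)) : ℂ) ∧ g 1 ≠ 0 := by
  have h' := exists_centralValue_of_LFunction_eq (N := 17)
    (show Nat.Prime 17 by norm_num).prime.squarefree (by norm_num) FA.Ribet.curve17 (by decide)
    (fun r hr hd hc => by
      rw [show FA.Ribet.curve17.c₄ = 33 from by decide] at hc
      rw [show FA.Ribet.curve17.Δ = 17 from by decide] at hd
      exact hr.ne_one (Nat.dvd_one.mp ((Nat.dvd_gcd (Int.natCast_dvd_natCast.mp hd)
        (Int.natCast_dvd_natCast.mp hc) :))))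
    (by rw [show FA.Ribet.curve17.Δ = 17 from by decide]; rfl) (by
      rw [(by norm_num : Nat.Prime 17).primeFactors, Finset.prod_singleton,
        splitSign_eq_one (q := 17) (by unfold FA.Root.SplitModel; decide)]) E (by
      rw [uniqueLevelSeventeen (E := E) h hgood]
      congr 1)
  rw [Nat.cast_ofNat] at h'
  exact h'

/-- Analytic rank zero for the semistable curves with good reduction outside `19`. -/
theorem centralValue_levelNineteen
    (h : ∀ p : ℕ, ∀ [Fact p.Prime], ∃ C : VariableChange ℚ_[p],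
      HasGoodReduction ℤ_[p] (C • E.map (algebraMap ℚ ℚ_[p])) ∨
        HasMultiplicativeReduction ℤ_[p] (C • E.map (algebraMap ℚ ℚ_[p])))
    (hgood : ∀ p : ℕ, ∀ [Fact p.Prime], p ≠ 19 → ∃ C : VariableChange ℚ_[p],
      HasGoodReduction ℤ_[p] (C • E.map (algebraMap ℚ ℚ_[p]))) :
    ∃ g : ℂ → ℂ, Differentiable ℂ g ∧ (∀ s : ℂ, 3 / 2 < s.re → g s = E.LSeries s) ∧
      g 1 = 2 * ∑' n : ℕ, (E.LFunction n : ℂ) / n *
        (Real.exp (-(2 * π * n / Real.sqrt 19)) : ℂ) ∧ g 1 ≠ 0 := by
  have h' := exists_centralValue_of_LFunction_eq (N := 19)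
    (show Nat.Prime 19 by norm_num).prime.squarefree (by norm_num) FA.Ribet.curve19 (by decide)
    (FA.Ribet.semistable_of_Δ (q := 19) (i := 0) (j := 1) (by norm_num)
      (by decide) (Or.inl rfl) (by decide))
    (by rw [show FA.Ribet.curve19.Δ = -19 from by decide]; rfl) (by
      rw [(by norm_num : Nat.Prime 19).primeFactors, Finset.prod_singleton,
        splitSign_eq_one (q := 19) (by unfold FA.Root.SplitModel; decide)]) E (by
      rw [uniqueLevelNineteen (E := E) h hgood]
      congr 1)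
  rw [Nat.cast_ofNat] at h'
  exact h'

/-- Analytic rank zero for the semistable curves with good reduction outside `3` and `7`. -/
theorem centralValue_levelTwentyOne
    (h : ∀ p : ℕ, ∀ [Fact p.Prime], ∃ C : VariableChange ℚ_[p],
      HasGoodReduction ℤ_[p] (C • E.map (algebraMap ℚ ℚ_[p])) ∨
        HasMultiplicativeReduction ℤ_[p] (C • E.map (algebraMap ℚ ℚ_[p])))
    (hgood : ∀ p : ℕ, ∀ [Fact p.Prime], p ≠ 3 → p ≠ 7 → ∃ C : VariableChange ℚ_[p],
      HasGoodReduction ℤ_[p] (C • E.map (algebraMap ℚ ℚ_[p]))) :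
    ∃ g : ℂ → ℂ, Differentiable ℂ g ∧ (∀ s : ℂ, 3 / 2 < s.re → g s = E.LSeries s) ∧
      g 1 = 2 * ∑' n : ℕ, (E.LFunction n : ℂ) / n *
        (Real.exp (-(2 * π * n / Real.sqrt 21)) : ℂ) ∧ g 1 ≠ 0 := by
  have h' := exists_centralValue_of_LFunction_eq (N := 21)
    ((Nat.squarefree_mul (show Nat.Coprime 3 7 by norm_num)).mpr
      ⟨Nat.prime_three.prime.squarefree, FA.Ribet.squarefree_seven⟩)
    (by norm_num) FA.Root.curve21 (by decide) (fun r hr hd hc => by
      rw [show FA.Root.curve21.c₄ = -47 from by decide, dvd_neg] at hc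
      rw [show FA.Root.curve21.Δ = -63 from by decide, dvd_neg] at hd
      exact hr.ne_one (Nat.dvd_one.mp ((Nat.dvd_gcd (Int.natCast_dvd_natCast.mp hd)
        (Int.natCast_dvd_natCast.mp hc) :))))
    (by
      rw [show FA.Root.curve21.Δ.natAbs = 3 ^ 2 * 7 from by decide,
        Nat.primeFactors_mul (by norm_num) (by norm_num), Nat.primeFactors_pow _ two_ne_zero,
        show (21 : ℕ) = 3 * 7 from rfl, Nat.primeFactors_mul (by norm_num) (by norm_num)]) (by
      rw [show (21 : ℕ) = 3 * 7 from rfl, primeFactors_of_two_primes (by norm_num) (by norm_num),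
        Finset.prod_pair (by norm_num),
        splitSign_eq_one (q := 3) (by unfold FA.Root.SplitModel; decide),
        splitSign_eq_neg_one (q := 7) (by unfold FA.Root.SplitModel; decide)]; norm_num) E (by
      rw [uniqueLevelTwentyOne (E := E) h hgood]
      congr 1)
  rw [Nat.cast_ofNat] at h'
  exact h'

omit E in
/-- **Analytic rank zero of `y² + y = x³`.** -/
theorem centralValue_27a :
    ∃ g : ℂ → ℂ, Differentiable ℂ g ∧
      (∀ s : ℂ, 3 / 2 < s.re → g s = (⟨0, 0, 1, 0, 0⟩ : WeierstrassCurve ℚ).LSeries s) ∧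
      g 1 = 2 * ∑' n : ℕ, ((⟨0, 0, 1, 0, 0⟩ : WeierstrassCurve ℚ).LFunction n : ℂ) / n *
        (Real.exp (-(2 * π * n / Real.sqrt 27)) : ℂ) ∧ g 1 ≠ 0 := by
  have h := exists_centralValue (M := 27) (by norm_num) FA.CM.form27 cm27_fricke
    (⟨0, 0, 1, 0, 0⟩ : WeierstrassCurve ℚ) FA.CM.qCoeff_form27_eq_LFunction
  rw [Nat.cast_ofNat] at h
  exact h

end FA.Summary

end
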