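import Fermat.Agent.Root.EtaFour
import Fermat.Agent.Dim.Cosets
import Fermat.Agent.Root.SummaryCentralValueLevels

/-!
# The products of levels `14` and `15`

`η(z) η(2z) η(7z) η(14z)` and `η(z) η(3z) η(5z) η(15z)` are the newforms of
`y² + xy + y = x³ + 4x - 6` and `y² + xy + y = x³ + x²`.
-/

set_option autoImplicit false
set_option linter.style.haveILetI false

noncomputable section

namespace FA.EtaFour

open PowerSeries (coeff expand)
open ModularCurve (etaProd)
open CongruenceSubgroup FA.Ribet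

/-! ### Nine coefficients -/

/-- `f` has the first nine coefficients `l`. -/
def Nine (f : PowerSeries ℤ) (l : List ℤ) : Prop := ∀ i < 9, coeff i f = l.getD i 0

/-- Truncated product. -/
def conv (a b : List ℤ) : List ℤ :=
  (List.range 9).map fun i => ((List.range (i + 1)).map fun j => a.getD j 0 * b.getD (i - j) 0).sum

theorem getD_nine (g : ℕ → ℤ) {i : ℕ} (hi : i < 9) : ((List.range 9).map g).getD i 0 = g i := by
  rw [List.getD_eq_getElem _ _ (by simpa using hi), List.getElem_map, List.getElem_range]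

theorem Nine.mul {f g : PowerSeries ℤ} {a b c : List ℤ} (hf : Nine f a) (hg : Nine g b)
    (hc : conv a b = c) : Nine (f * g) c := by
  intro i hi
  subst hc
  rw [PowerSeries.coeff_mul, Finset.Nat.sum_antidiagonal_eq_sum_range_succ_mk]
  rw [conv, getD_nine _ hi,
    Finset.sum_congr rfl fun j hj => by
      rw [hf j (by have := Finset.mem_range.1 hj; omega), hg (i - j) (by omega)]]
  rfl

theorem nine_expand {f : PowerSeries ℤ} {a c : List ℤ} (p : ℕ) (hp : p ≠ 0) (hf : Nine f a)
    (hc : ((List.range 9).map fun i => if p ∣ i then a.getD (i / p) 0 else 0) = c) :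
    Nine (expand p hp f) c := by
  intro i hi
  subst hc
  rw [PowerSeries.coeff_expand, getD_nine _ hi]
  split_ifs
  · rw [hf _ (lt_of_le_of_lt (Nat.div_le_self i p) hi)]
  · rfl

theorem nine_factor (k : ℕ) {c : List ℤ}
    (hc : ((List.range 9).map fun i => (if i = 0 then (1 : ℤ) else 0) - if i = k + 1 then 1 else 0)
      = c) : Nine ((1 : PowerSeries ℤ) - PowerSeries.X ^ (k + 1)) c := by
  intro i hi
  subst hc
  rw [map_sub, PowerSeries.coeff_X_pow, PowerSeries.coeff_one, getD_nine _ hi]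

theorem nine_etaProd : Nine etaProd [1, -1, -1, 0, 0, 1, 0, 1, 0] := by
  have h1 := (nine_factor 0 rfl).mul (nine_factor 1 rfl) (c := [1, -1, -1, 1, 0, 0, 0, 0, 0]) rfl
  have h2 := h1.mul (nine_factor 2 rfl) (c := [1, -1, -1, 0, 1, 1, -1, 0, 0]) rfl
  have h3 := h2.mul (nine_factor 3 rfl) (c := [1, -1, -1, 0, 0, 2, 0, 0, -1]) rfl
  have h4 := h3.mul (nine_factor 4 rfl) (c := [1, -1, -1, 0, 0, 1, 1, 1, -1]) rfl
  have h5 := h4.mul (nine_factor 5 rfl) (c := [1, -1, -1, 0, 0, 1, 0, 2, 0]) rfl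
  have h6 := h5.mul (nine_factor 6 rfl) (c := [1, -1, -1, 0, 0, 1, 0, 1, 1]) rfl
  have h7 := h6.mul (nine_factor 7 rfl) (c := [1, -1, -1, 0, 0, 1, 0, 1, 0]) rfl
  intro i hi
  rw [FA.EtaEleven.coeff_etaProd (m := 8) (by omega), ← h7 i hi]
  simp only [Finset.prod_range_succ, Finset.prod_range_zero, one_mul]

theorem nine_fourteen : Nine
    (etaProd * expand 2 (NeZero.ne 2) etaProd * expand 7 (NeZero.ne 7) etaProd *
      expand 14 (NeZero.ne 14) etaProd) [1, -1, -2, 1, 0, 2, 1, -1, 1] :=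
  ((nine_etaProd.mul (nine_expand 2 _ nine_etaProd rfl) (c := [1, -1, -2, 1, 0, 2, 1, 0, 0]) rfl).mul
    (nine_expand 7 _ nine_etaProd rfl) (c := [1, -1, -2, 1, 0, 2, 1, -1, 1]) rfl).mul
    (nine_expand 14 _ nine_etaProd rfl) rfl

theorem nine_fifteen : Nine
    (etaProd * expand 3 (NeZero.ne 3) etaProd * expand 5 (NeZero.ne 5) etaProd *
      expand 15 (NeZero.ne 15) etaProd) [1, -1, -1, -1, 1, 1, 0, 3, 1] :=
  ((nine_etaProd.mul (nine_expand 3 _ nine_etaProd rfl) (c := [1, -1, -1, -1, 1, 2, -1, 2, 0]) rfl).mul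
    (nine_expand 5 _ nine_etaProd rfl) (c := [1, -1, -1, -1, 1, 1, 0, 3, 1]) rfl).mul
    (nine_expand 15 _ nine_etaProd rfl) rfl

/-! ### The index and the conditions -/

theorem adm_fourteen : Adm 14 2 7 := by
  refine ⟨rfl, rfl, ?_, ?_⟩ <;> decide +kernel

theorem adm_fifteen : Adm 15 3 5 := by
  refine ⟨rfl, rfl, ?_, ?_⟩ <;> decide +kernel

theorem index_fourteen : (Gamma0 14).index = 24 := by
  show Nat.card (FA.Dim.Cos 14) = 24
  rw [FA.Dim.card_cos, show (14 : ℕ) = 2 * 7 from rfl, FA.Dim.dedekindPsi_mul (by norm_num)]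
  have h2 := FA.Dim.dedekindPsi_prime_pow Nat.prime_two 0
  have h7 := FA.Dim.dedekindPsi_prime_pow (show Nat.Prime 7 by norm_num) 0
  norm_num at h2 h7
  rw [h2, h7]

theorem index_fifteen : (Gamma0 15).index = 24 := by
  show Nat.card (FA.Dim.Cos 15) = 24
  rw [FA.Dim.card_cos, show (15 : ℕ) = 3 * 5 from rfl, FA.Dim.dedekindPsi_mul (by norm_num)]
  have h3 := FA.Dim.dedekindPsi_prime_pow Nat.prime_three 0
  have h5 := FA.Dim.dedekindPsi_prime_pow Nat.prime_five 0
  norm_num at h3 h5
  rw [h3, h5]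

/-! ### The coefficients of the L-functions -/

theorem LFunction_curve14_eq {n : ℕ} (hn : n ≤ 8) :
    (curve14.map (Int.castRingHom ℚ)).LFunction n =
      coeff n (series 14 2 7) := by
  haveI : (curve14.map (Int.castRingHom ℚ)).IsElliptic :=
    FA.Frob.ratCurve_isElliptic_of_Δ (by decide)
  have hW : curve14.IsIntegralModelOf (curve14.map (Int.castRingHom ℚ)) := ⟨1, one_smul _ _⟩
  have hmul := FA.Root.isMultiplicative_LFunction (curve14.map (Int.castRingHom ℚ))
  set L := (curve14.map (Int.castRingHom ℚ)).LFunction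
  have h2 : ∀ k : ℕ, L (2 ^ k) = (-1) ^ k := fun k => by
    rw [FA.Root.LFunction_apply_prime_pow_mult _ curve14 hW Nat.prime_two (by decide) (by decide)
        (by decide),
      FA.Central.splitSign_eq_neg_one (q := 2) (by unfold FA.Root.SplitModel; decide)]
  have h7 : L 7 = 1 := by
    rw [← pow_one 7, FA.Root.LFunction_apply_prime_pow_mult _ curve14 hW (by norm_num)
        (by decide) (by decide) (by decide),
      FA.Central.splitSign_eq_one (q := 7) (by unfold FA.Root.SplitModel; decide), one_pow]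
  have h3 : L 3 = -2 := by
    rw [FA.Root.LFunction_apply_prime _ curve14 hW Nat.prime_three (by decide), curve14_three]
  have h5 : L 5 = 0 := by
    haveI : Fact (Nat.Prime 5) := ⟨Nat.prime_five⟩
    rw [FA.Root.LFunction_apply_prime _ curve14 hW Nat.prime_five (by decide),
      apOfModel_eq_nsPts (l := 5) (a₁ := 1) (a₂ := 0) (a₃ := 1) (a₄ := 4) (a₆ := 4)
        (by ext <;> rfl)]
    rfl
  have h6 : L 6 = 2 := by
    rw [show (6 : ℕ) = 2 * 3 from rfl, hmul.map_mul_of_coprime (by norm_num), h3,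
      show L 2 = L (2 ^ 1) from rfl, h2]
    norm_num
  rw [series]
  rcases n with _ | i
  · simp
  rw [PowerSeries.coeff_succ_X_mul, nine_fourteen i (by omega)]
  have : i < 8 := by omega
  interval_cases i
  · exact hmul.map_one
  · exact (h2 1).trans (pow_one _)
  · exact h3
  · exact (h2 2).trans rfl
  · exact h5
  · exact h6
  · exact h7
  · exact (h2 3).trans rfl

theorem LFunction_curve15_eq {n : ℕ} (hn : n ≤ 8) :
    (FA.Root.curve15.map (Int.castRingHom ℚ)).LFunction n = coeff n (series 15 3 5) := by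
  haveI : (FA.Root.curve15.map (Int.castRingHom ℚ)).IsElliptic :=
    FA.Frob.ratCurve_isElliptic_of_Δ (by decide)
  have hW : FA.Root.curve15.IsIntegralModelOf (FA.Root.curve15.map (Int.castRingHom ℚ)) :=
    ⟨1, one_smul _ _⟩
  have hmul := FA.Root.isMultiplicative_LFunction (FA.Root.curve15.map (Int.castRingHom ℚ))
  set L := (FA.Root.curve15.map (Int.castRingHom ℚ)).LFunction
  haveI : Fact (Nat.Prime 2) := ⟨Nat.prime_two⟩
  haveI : Fact (Nat.Prime 7) := ⟨by norm_num⟩
  have ha2 : FA.Root.curve15.apOfModel 2 = -1 := by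
    rw [apOfModel_eq_nsPts (l := 2) (a₁ := 1) (a₂ := 1) (a₃ := 1) (a₄ := 0) (a₆ := 0)
        (by ext <;> rfl)]
    rfl
  have h2 : L 2 = -1 := by
    rw [FA.Root.LFunction_apply_prime _ FA.Root.curve15 hW Nat.prime_two (by decide), ha2]
  have h4 : L 4 = -1 := by
    rw [show (4 : ℕ) = 2 ^ (0 + 2) from rfl,
      FA.Root.LFunction_apply_prime_pow_good _ FA.Root.curve15 hW Nat.prime_two (by decide), ha2]
    rw [show L (2 ^ (0 + 1)) = -1 from h2, show L (2 ^ 0) = 1 from hmul.map_one]
    norm_num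
  have h8 : L 8 = 3 := by
    rw [show (8 : ℕ) = 2 ^ (1 + 2) from rfl,
      FA.Root.LFunction_apply_prime_pow_good _ FA.Root.curve15 hW Nat.prime_two (by decide), ha2]
    rw [show L (2 ^ (1 + 1)) = -1 from h4, show L (2 ^ 1) = -1 from h2]
    norm_num
  have h3 : L 3 = -1 := by
    rw [← pow_one 3, FA.Root.LFunction_apply_prime_pow_mult _ FA.Root.curve15 hW Nat.prime_three
        (by decide) (by decide) (by decide),
      FA.Central.splitSign_eq_neg_one (q := 3) (by unfold FA.Root.SplitModel; decide), pow_one]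
  have h5 : L 5 = 1 := by
    rw [← pow_one 5, FA.Root.LFunction_apply_prime_pow_mult _ FA.Root.curve15 hW Nat.prime_five
        (by decide) (by decide) (by decide),
      FA.Central.splitSign_eq_one (q := 5) (by unfold FA.Root.SplitModel; decide), pow_one]
  have h7 : L 7 = 0 := by
    rw [FA.Root.LFunction_apply_prime _ FA.Root.curve15 hW (by norm_num) (by decide),
      apOfModel_eq_nsPts (l := 7) (a₁ := 1) (a₂ := 1) (a₃ := 1) (a₄ := 0) (a₆ := 0)
        (by ext <;> rfl)]
    rfl
  have h6 : L 6 = 1 := by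
    rw [show (6 : ℕ) = 2 * 3 from rfl, hmul.map_mul_of_coprime (by norm_num), h2, h3]
    norm_num
  rw [series]
  rcases n with _ | i
  · simp
  rw [PowerSeries.coeff_succ_X_mul, nine_fifteen i (by omega)]
  have : i < 8 := by omega
  interval_cases i
  · exact hmul.map_one
  · exact h2
  · exact h3
  · exact h4
  · exact h5
  · exact h6
  · exact h7
  · exact h8

/-- The newform of a semistable model of level `N` is the product. -/
theorem exists_form {N a b : ℕ} [NeZero N] [NeZero a] [NeZero b] (h : Adm N a b)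
    (hidx : (Gamma0 N).index = 24) (W : WeierstrassCurve ℤ) (hΔ : W.Δ ≠ 0)
    (hs : W.IsSemistableModel) (hN : FA.Theta.badProd W = N)
    (hc : ∀ n ≤ 8, (W.map (Int.castRingHom ℚ)).LFunction n = coeff n (series N a b)) :
    ∃ f : CuspForm (Gamma0 N) 2, f.IsNormalizedEigenform ∧
      (∀ z : UpperHalfPlane, f z = etaFour N a b z) ∧
      (∀ n, ModularFormClass.qCoeff f n = ((W.map (Int.castRingHom ℚ)).LFunction n : ℂ)) ∧
      ∀ n, (W.map (Int.castRingHom ℚ)).LFunction n = coeff n (series N a b) := by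
  haveI : (W.map (Int.castRingHom ℚ)).IsElliptic := FA.Frob.ratCurve_isElliptic_of_Δ hΔ
  obtain ⟨f, hf, hn⟩ : ∃ f : CuspForm (Gamma0 N) 2, f.IsNormalizedEigenform ∧
      ∀ n : ℕ, ModularFormClass.qCoeff f n = ((W.map (Int.castRingHom ℚ)).LFunction n : ℂ) := by
    subst hN
    exact FA.Root.exists_newform_LFunction_of_model _ ⟨1, one_smul _ _⟩ hs
  obtain ⟨hfun, hq⟩ := coe_eq_etaFour h hidx f fun n hn8 => by rw [hn, hc n hn8]
  exact ⟨f, hf, hfun, hn, fun n => by exact_mod_cast (hn n).symm.trans (hq n)⟩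

theorem semistable_curve14 : curve14.IsSemistableModel :=
  semistable_of_Δ (q := 7) (i := 6) (j := 3) (by norm_num) (by decide) (Or.inr (by decide))
    (by decide)

theorem semistable_curve15 : FA.Root.curve15.IsSemistableModel := fun r hr _ hc =>
  hr.ne_one (Nat.dvd_one.mp (by
    rw [show FA.Root.curve15.c₄ = 1 from by decide] at hc; exact_mod_cast hc))

theorem curve14_good {p : ℕ} (hp : p.Prime) (h2 : p ≠ 2) (h7 : p ≠ 7) :
    ¬ (p : ℤ) ∣ curve14.Δ := fun hd => by
  rw [curve14_Δ, Int.dvd_neg] at hd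
  have hd' : p ∣ 2 ^ 6 * 7 ^ 3 := by exact_mod_cast hd
  rcases hp.dvd_mul.mp hd' with hq | hq
  · exact h2 ((Nat.prime_dvd_prime_iff_eq hp Nat.prime_two).mp (hp.dvd_of_dvd_pow hq))
  · exact h7 ((Nat.prime_dvd_prime_iff_eq hp (by norm_num)).mp (hp.dvd_of_dvd_pow hq))

theorem curve15_good {p : ℕ} (hp : p.Prime) (h3 : p ≠ 3) (h5 : p ≠ 5) :
    ¬ (p : ℤ) ∣ FA.Root.curve15.Δ := fun hd => by
  rw [show FA.Root.curve15.Δ = -15 from by decide, Int.dvd_neg] at hd
  have hd' : p ∣ 3 * 5 := by exact_mod_cast hd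
  rcases hp.dvd_mul.mp hd' with hq | hq
  · exact h3 ((Nat.prime_dvd_prime_iff_eq hp Nat.prime_three).mp hq)
  · exact h5 ((Nat.prime_dvd_prime_iff_eq hp Nat.prime_five).mp hq)

theorem badProd_of_primeFactors {W : WeierstrassCurve ℤ} {N : ℕ} (hN : Squarefree N)
    (h : W.Δ.natAbs.primeFactors = N.primeFactors) : FA.Theta.badProd W = N := by
  rw [FA.Theta.badProd, h, Nat.prod_primeFactors_of_squarefree hN]

theorem exists_form_fourteen : ∃ f : CuspForm (Gamma0 14) 2, f.IsNormalizedEigenform ∧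
    (∀ z : UpperHalfPlane, f z = etaFour 14 2 7 z) ∧
    (∀ n, ModularFormClass.qCoeff f n = ((curve14.map (Int.castRingHom ℚ)).LFunction n : ℂ)) ∧
    ∀ n, (curve14.map (Int.castRingHom ℚ)).LFunction n = coeff n (series 14 2 7) :=
  exists_form adm_fourteen index_fourteen curve14 (by decide) semistable_curve14
    (badProd_of_primeFactors squarefree_fourteen
      (natAbs_primeFactors (E := curve14) (q := 7) (i := 6) (j := 3) (by norm_num) curve14_Δ
        (by norm_num) (by norm_num)))
    fun _ hn => LFunction_curve14_eq hn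

theorem exists_form_fifteen : ∃ f : CuspForm (Gamma0 15) 2, f.IsNormalizedEigenform ∧
    (∀ z : UpperHalfPlane, f z = etaFour 15 3 5 z) ∧
    (∀ n, ModularFormClass.qCoeff f n =
      ((FA.Root.curve15.map (Int.castRingHom ℚ)).LFunction n : ℂ)) ∧
    ∀ n, (FA.Root.curve15.map (Int.castRingHom ℚ)).LFunction n = coeff n (series 15 3 5) :=
  exists_form adm_fifteen index_fifteen FA.Root.curve15 (by decide) semistable_curve15
    (badProd_of_primeFactors
      ((Nat.squarefree_mul (show Nat.Coprime 3 5 by norm_num)).mpr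
        ⟨Nat.prime_three.prime.squarefree, Nat.prime_five.prime.squarefree⟩)
      (by rw [show FA.Root.curve15.Δ = -15 from by decide]; rfl))
    fun _ hn => LFunction_curve15_eq hn

end FA.EtaFour

end
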