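import Fermat.Agent.Root.PadicLieClassification

/-!
# Open subgroups of a torus of `GL₂(ℤ_p)`

Let the elements of a closed subgroup congruent to one modulo `p²` commute with a nonzero traceless
matrix `Y`. If one of them of determinant one is not scalar and every determinant occurs, the
subgroup contains every invertible matrix congruent to one modulo a power of `p` commuting with `Y`.
-/

set_option autoImplicit false
set_option linter.unusedSectionVars false
set_option linter.style.haveILetI false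

noncomputable section

open Filter Matrix
open FA.PadicImage (exists_dvd_prime_pow isUnit_iff_toZMod exists_one_add_pow_two)
open FA.OpenImageAll (tl trace_tl tl_add tl_sub tl_smul tl_one minors_eq rep_inv_mul rep_mul_inv
  exists_pow_prime_pow det_one_add_smul exists_pow_one_add)
open scoped Topology

namespace FA.PadicLie

variable {p : ℕ} [hp : Fact p.Prime]

local notation "Mp" => Matrix (Fin 2) (Fin 2) ℤ_[p]
local notation "π" => (p : ℤ_[p])

/-- The square of `p` is twice a `p`-adic integer. -/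
theorem exists_two_mul_eq : ∃ w : ℤ_[p], 2 * w = π ^ 2 := by
  rcases hp.out.eq_two_or_odd' with h | h
  · have h' : π = 2 := by exact_mod_cast h
    exact ⟨2, by rw [h']; norm_num⟩
  · obtain ⟨v, hv⟩ := (isUnit_iff_toZMod.mpr (show PadicInt.toZMod (2 : ℤ_[p]) ≠ 0 by
      rw [map_ofNat, show (2 : ZMod p) = ((2 : ℕ) : ZMod p) by norm_num, ne_eq,
        ZMod.natCast_eq_zero_iff]
      intro hd
      have h2 := (Nat.prime_dvd_prime_iff_eq hp.out Nat.prime_two).1 hd
      rw [h2] at h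
      exact absurd h (by decide))).exists_right_inv
    exact ⟨v * π ^ 2, by rw [← mul_assoc, hv, one_mul]⟩

/-- The traceless part of a matrix commutes with what the matrix commutes with. -/
theorem tl_commute {X Y : Mp} (h : X * Y = Y * X) : tl X * Y = Y * tl X := by
  simp only [tl, mul_sub, sub_mul, Algebra.mul_smul_comm, smul_mul_assoc, mul_one, one_mul, h]

theorem commute_of_smul {c : ℤ_[p]} (hc : c ≠ 0) {W Y : Mp}
    (h : (1 + c • W) * Y = Y * (1 + c • W)) : W * Y = Y * W := by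
  refine smul_right_injective Mp hc ?_
  simp only [add_mul, mul_add, one_mul, mul_one, smul_mul_assoc, Algebra.mul_smul_comm] at h
  exact add_left_cancel h

section Group

variable {G : Type*} [Group G] (r : G →* Matrix (Fin 2) (Fin 2) ℤ_[p])

theorem levelGroup_mono {m n : ℕ} (h : m ≤ n) : levelGroup r n ≤ levelGroup r m := fun g hg => by
  obtain ⟨Z, hZ⟩ := (mem_levelGroup r).1 hg
  obtain ⟨d, rfl⟩ := Nat.exists_eq_add_of_le h
  exact (mem_levelGroup r).2 ⟨π ^ d • Z, by rw [hZ, smul_smul, ← pow_add]⟩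

/-- **The norm one torus**: a non-scalar element of determinant one near one gives every element
of determinant one near one of its commutant. -/
theorem exists_level_torus_det_one (hcl : IsClosed (Set.range r)) {Y : Mp} (hY : Y.trace = 0)
    (hY0 : Y ≠ 0) (hc : ∀ g ∈ levelGroup r 2, r g * Y = Y * r g) {g₀ : G}
    (hg₀ : g₀ ∈ specialTwo r) (hne : tl (r g₀) ≠ 0) :
    ∃ k : ℕ, ∀ Z : Mp, Z * Y = Y * Z → (1 + π ^ k • Z).det = 1 →
      ∃ h, r h = 1 + π ^ k • Z := by
  obtain ⟨hg₀2, hd₀⟩ := (mem_specialTwo r).1 hg₀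
  obtain ⟨Z₀, e₀⟩ := (mem_levelGroup r).1 hg₀2
  have hπ : ∀ n : ℕ, π ^ n ≠ 0 := fun n => pow_ne_zero _ (NeZero.ne π)
  obtain ⟨T, hT⟩ : ∃ T, tl Z₀ = T := ⟨_, rfl⟩
  have hT' : tl (r g₀) = π ^ 2 • T := by rw [e₀, tl_add, tl_one, zero_add, tl_smul, hT]
  have hT0 : T ≠ 0 := fun h0 => hne (by rw [hT', h0, smul_zero])
  have hTY : T * Y = Y * T := by
    rw [← hT]
    exact tl_commute (commute_of_smul (hπ 2) (e₀ ▸ hc g₀ hg₀2))
  obtain ⟨a, b, hab⟩ : ∃ a b, T a b ≠ 0 := by
    by_contra hall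
    push Not at hall
    exact hT0 (Matrix.ext hall)
  have hprop : ∀ W : Mp, W * Y = Y * W → T a b • tl W = tl W a b • T := fun W hW =>
    Matrix.ext fun k l => minors_eq (hT ▸ trace_tl _) (trace_tl W)
      (commute_of_commute hY hY0 hTY (tl_commute hW)) a b k l
  obtain ⟨e, w, hw⟩ := exists_dvd_prime_pow hab
  obtain ⟨w₂, hw₂⟩ := exists_two_mul_eq (p := p)
  have hpows := exists_pow_prime_pow (Y := Z₀) (e₀ ▸ hd₀)
  have step : ∀ (i : ℕ) (W : Mp), W * Y = Y * W →
      (1 + π ^ (2 * e + 3 + i) • W).det = 1 → ∃ (h : G) (W' : Mp), (r h).det = 1 ∧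
        W' * Y = Y * W' ∧
        r h * (1 + π ^ (2 * e + 3 + i + 1) • W') = 1 + π ^ (2 * e + 3 + i) • W := by
    intro i W hWY hW
    obtain ⟨B, u, hu, hB, hTB⟩ := hpows (e + 1 + i)
    rw [← e₀, hT', smul_comm u] at hTB
    have hTB' : tl B = u • T := smul_right_injective Mp (hπ 2) hTB
    rw [← e₀, ← map_pow] at hB
    obtain ⟨v, hv⟩ := hu.exists_left_inv
    obtain ⟨n, q, hn⟩ : ∃ (n : ℕ) (q : ℤ_[p]), tl W a b * w * v = n + π ^ (e + 3) * q := by
      obtain ⟨q, hq⟩ := Ideal.mem_span_singleton.1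
        (PadicInt.appr_spec (e + 3) (tl W a b * w * v))
      exact ⟨_, q, by rw [← hq, add_sub_cancel]⟩
    obtain ⟨m, hm⟩ : ∃ m, e + 1 + i + 2 = m := ⟨_, rfl⟩
    obtain ⟨h, hh⟩ : ∃ h, (g₀ ^ p ^ (e + 1 + i)) ^ n = h := ⟨_, rfl⟩
    have hdet : (r h).det = 1 := by
      rw [← hh, map_pow, map_pow, det_pow, det_pow, hd₀, one_pow, one_pow]
    have hhY : r h * Y = Y * r h := hc h (hh ▸ pow_mem (pow_mem hg₀2 _) _)
    rw [hm] at hB
    obtain ⟨V, hV⟩ := exists_pow_one_add (π ^ m) B n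
    have hrh : r h = 1 + π ^ m • ((n : ℤ_[p]) • B) + (π ^ m * π ^ m) • V := by
      rw [← hh, map_pow, hB, hV]
    obtain ⟨H, hH⟩ : ∃ H, r h - (1 + π ^ (2 * e + 3 + i) • W) = H := ⟨_, rfl⟩
    have hHY : H * Y = Y * H := by
      simp only [← hH, sub_mul, mul_sub, add_mul, mul_add, one_mul, mul_one, smul_mul_assoc,
        Algebra.mul_smul_comm, hhY, hWY]
    have hW' : π ^ e • tl W = (n + π ^ (e + 3) * q) • tl B := by
      rw [← hn, hTB', hw, mul_comm (T a b) w, ← smul_smul, hprop W hWY, smul_smul, smul_smul]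
      congr 1
      linear_combination -(w * tl W a b) * hv
    obtain ⟨Q, hQ⟩ : ∃ Q, tl H = π ^ (2 * e + 3 + i + 3) • Q := by
      refine ⟨π ^ i • tl V - q • tl B, ?_⟩
      rw [← hH, hrh, tl_sub, tl_add, tl_add, tl_add, tl_one, tl_smul, tl_smul, tl_smul, tl_smul,
        show π ^ (2 * e + 3 + i) = π ^ m * π ^ e by rw [← pow_add, ← hm]; ring_nf,
        mul_smul (π ^ m) (π ^ e) (tl W), hW', show π ^ m * π ^ m = π ^ m * π ^ (e + 3) * π ^ i by
          rw [← pow_add, ← pow_add, ← pow_add, ← hm]; ring_nf,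
        show π ^ (2 * e + 3 + i + 3) = π ^ m * π ^ (e + 3) by rw [← pow_add, ← hm]; ring_nf]
      module
    obtain ⟨t, ht⟩ : ∃ t, H.trace = π ^ (2 * e + 3 + i + 3) * t := by
      refine ⟨-(π ^ i * ((n : ℤ_[p]) • B + π ^ m • V).det) + π ^ (2 * e + i) * W.det, ?_⟩
      have key : ∀ (l : ℕ) (R : Mp), (1 + π ^ l • R).det = 1 →
          (π ^ l • R).trace = -(π ^ l * π ^ l * R.det) := fun l R hR => by
        rw [FA.OpenImageAll.det_one_add_smul] at hR
        rw [trace_smul, smul_eq_mul]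
        linear_combination hR
      have e' : r h = 1 + π ^ m • ((n : ℤ_[p]) • B + π ^ m • V) := by
        rw [hrh, smul_add, add_assoc, smul_smul (π ^ m) (π ^ m)]
      rw [← hH, e', add_sub_add_left_eq_sub, trace_sub, key m _ (e' ▸ hdet), key _ W hW,
        show π ^ (2 * e + 3 + i + 3) = π ^ m * π ^ (e + 3) by rw [← pow_add, ← hm]; ring_nf,
        show π ^ m * π ^ m = π ^ m * π ^ (e + 3) * π ^ i by
          rw [← pow_add, ← pow_add, ← pow_add, ← hm]; ring_nf,
        show π ^ (2 * e + 3 + i) * π ^ (2 * e + 3 + i) =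
            π ^ m * π ^ (e + 3) * π ^ (2 * e + i) by
          rw [← pow_add, ← pow_add, ← pow_add, ← hm]; ring_nf]
      ring
    have hHW : H = π ^ (2 * e + 3 + i + 1) • (w₂ • (Q + t • 1)) := by
      refine smul_right_injective Mp (two_ne_zero (α := ℤ_[p])) ?_
      show (2 : ℤ_[p]) • H = (2 : ℤ_[p]) • (π ^ (2 * e + 3 + i + 1) • (w₂ • (Q + t • 1)))
      rw [two_smul_eq, hQ, ht, ← smul_smul, ← smul_add, smul_smul, smul_smul,
        show 2 * π ^ (2 * e + 3 + i + 1) * w₂ = π ^ (2 * e + 3 + i + 3) by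
          linear_combination π ^ (2 * e + 3 + i + 1) * hw₂]
    refine ⟨h, -(r h⁻¹ * (w₂ • (Q + t • 1))), hdet, ?_, ?_⟩
    · have hi : r h⁻¹ * Y = Y * r h⁻¹ := by
        calc r h⁻¹ * Y = r h⁻¹ * (Y * r h) * r h⁻¹ := by
              rw [mul_assoc, mul_assoc, rep_mul_inv, mul_one]
          _ = Y * r h⁻¹ := by rw [← hhY, ← mul_assoc, rep_inv_mul, one_mul]
      have h3 : (w₂ • (Q + t • 1)) * Y = Y * (w₂ • (Q + t • 1)) := by
        refine smul_right_injective Mp (hπ (2 * e + 3 + i + 1)) ?_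
        show π ^ (2 * e + 3 + i + 1) • ((w₂ • (Q + t • 1)) * Y) =
          π ^ (2 * e + 3 + i + 1) • (Y * (w₂ • (Q + t • 1)))
        rw [← smul_mul_assoc, ← hHW, hHY, hHW, Algebra.mul_smul_comm]
      rw [neg_mul, mul_neg, mul_assoc, h3, ← mul_assoc, hi, mul_assoc]
    · rw [mul_add, mul_one, Algebra.mul_smul_comm, mul_neg, ← mul_assoc, rep_mul_inv, one_mul,
        smul_neg, ← hHW, ← hH]
      abel
  refine ⟨2 * e + 3, fun Z hZY hZ => ?_⟩
  have all : ∀ i : ℕ, ∃ (g : G) (W : Mp), (r g).det = 1 ∧ W * Y = Y * W ∧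
      r g * (1 + π ^ (2 * e + 3 + i) • W) = 1 + π ^ (2 * e + 3) • Z := fun i => by
    induction i with
    | zero => exact ⟨1, Z, by rw [map_one, det_one], hZY, by rw [map_one, one_mul, add_zero]⟩
    | succ i ih =>
      obtain ⟨g, W, hg, hWY, hgW⟩ := ih
      have hW : (1 + π ^ (2 * e + 3 + i) • W).det = 1 := by
        have := congrArg Matrix.det hgW
        rwa [det_mul, hg, one_mul, hZ] at this
      obtain ⟨h, W', hh, hW'Y, hhW⟩ := step i W hWY hW
      refine ⟨g * h, W', ?_, hW'Y, ?_⟩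
      · rw [map_mul, det_mul, hg, hh, one_mul]
      · rw [map_mul, mul_assoc, ← add_assoc (2 * e + 3) i 1, hhW, hgW]
  choose g W hg hWY hgW using all
  suffices ht : Tendsto (fun i => r (g i)) atTop (𝓝 (1 + π ^ (2 * e + 3) • Z)) from
    hcl.mem_of_tendsto ht (Eventually.of_forall fun n => Set.mem_range_self _)
  refine tendsto_pi_nhds.2 fun c => tendsto_pi_nhds.2 fun d =>
    Metric.tendsto_atTop.2 fun ε hε => ?_
  obtain ⟨m, hm⟩ := PadicInt.exists_pow_neg_lt p hε
  refine ⟨m, fun n hn => lt_of_le_of_lt ?_ hm⟩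
  rw [dist_eq_norm, PadicInt.norm_le_pow_iff_mem_span_pow, Ideal.mem_span_singleton, ← hgW n,
    mul_add, mul_one, Algebra.mul_smul_comm, Matrix.add_apply, Matrix.smul_apply, smul_eq_mul,
    sub_add_cancel_left, dvd_neg]
  exact (pow_dvd_pow _ (by omega)).mul_right _

/-- **The torus**: with every determinant, all invertible matrices congruent to one modulo a power
of `p` commuting with `Y`. -/
theorem exists_level_torus (hcl : IsClosed (Set.range r))
    (hdet : ∀ u : ℤ_[p]ˣ, ∃ g, (r g).det = u) {Y : Mp} (hY : Y.trace = 0) (hY0 : Y ≠ 0)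
    (hc : ∀ g ∈ levelGroup r 2, r g * Y = Y * r g) {g₀ : G} (hg₀ : g₀ ∈ specialTwo r)
    (hne : tl (r g₀) ≠ 0) :
    ∃ k : ℕ, ∀ Z : Mp, Z * Y = Y * Z → IsUnit (1 + π ^ k • Z).det →
      ∃ h, r h = 1 + π ^ k • Z := by
  obtain ⟨j, hj⟩ := exists_level_torus_det_one r hcl hY hY0 hc hg₀ hne
  obtain ⟨k, hk⟩ := exists_level_det r hcl hdet (j + 2)
  refine ⟨j + 2 + k, fun Z hZY hZ => ?_⟩
  obtain ⟨g, hg, hu⟩ := hk (1 + π ^ (j + 2 + k) • Z).det
    ⟨π ^ (j + 2) * Z.trace + π ^ (j + 2) * π ^ (j + 2 + k) * Z.det, by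
      rw [FA.OpenImageAll.det_one_add_smul]; ring⟩
  obtain ⟨V, hV⟩ := (mem_levelGroup r).1 hg
  have hgY : r g * Y = Y * r g := hc g (levelGroup_mono r (by omega) hg)
  have hi : r g⁻¹ * Y = Y * r g⁻¹ := hc _ (levelGroup_mono r (by omega) (inv_mem hg))
  have hrew : r g⁻¹ * (1 + π ^ (j + 2 + k) • Z) =
      1 + π ^ j • (π ^ 2 • (r g⁻¹ * (π ^ k • Z - V))) := by
    have e : 1 + π ^ (j + 2 + k) • Z = r g + π ^ (j + 2) • (π ^ k • Z - V) := by
      rw [hV, smul_sub, smul_smul, ← pow_add]; abel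
    rw [e, mul_add, rep_inv_mul, Algebra.mul_smul_comm, smul_smul, ← pow_add]
  have hVY : V * Y = Y * V :=
    commute_of_smul (pow_ne_zero _ (NeZero.ne π)) (hV ▸ hgY)
  have hQ : (π ^ 2 • (r g⁻¹ * (π ^ k • Z - V))) * Y =
      Y * (π ^ 2 • (r g⁻¹ * (π ^ k • Z - V))) := by
    rw [smul_mul_assoc, mul_assoc, Algebra.mul_smul_comm, ← mul_assoc Y, ← hi, mul_assoc]
    simp only [sub_mul, mul_sub, smul_mul_assoc, Algebra.mul_smul_comm, hZY, hVY]
  obtain ⟨h, hh⟩ := hj _ hQ (by rw [← hrew, det_mul, ← hu, ← det_mul, rep_inv_mul, det_one])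
  exact ⟨g * h, by rw [map_mul, hh, ← hrew, ← mul_assoc, rep_mul_inv, one_mul]⟩

end Group

end FA.PadicLie

end
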