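import Fermat.Agent.Root.PadicImageDichotomy
import Fermat.Agent.Root.PadicCartanOpen
import Fermat.Agent.LocalIrreducible.Cyclotomic
import Fermat.Agent.OpenImageAll.CMStructure
import Fermat.Agent.OpenImageAll.Traces

/-!
# Formal complex multiplication: open Cartan images and Deuring's criterion at every prime

At potentially supersingular reduction the image of the decomposition group is open in `GL₂(ℤ_p)`
or in the normaliser of a nonsplit Cartan subgroup. For a curve with `a_l = 0` at the good primes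
`l` inert in `ℚ(√d)` the reduction at any prime `p` is potentially supersingular exactly when `d`
is no square in `ℚ_p`, and then the second case holds, globally too.
-/

set_option autoImplicit false
set_option linter.unusedSectionVars false
set_option linter.style.haveILetI false

noncomputable section

open Matrix WeierstrassCurve FA.TateSen FA.CurveDR FA.RT.Tate FA.Frob FA.PotDR FA.LocIrr FA.EC
open FA.PadicImageDich FA.PadicLie FA.PadicChar
open FA.CMStructure (IsExceptional exists_sqrt_matrix)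
open scoped WeierstrassCurve.Affine Classical

namespace FA.FormalCM

variable {p : ℕ} [hp : Fact p.Prime] {W : WeierstrassCurve ℤ} [(ratCurve W).IsElliptic]

local notation "G" => PadicAlgCl p ≃ₐ[ℚ_[p]] PadicAlgCl p
local notation "GQ" => AlgebraicClosure ℚ ≃ₐ[ℚ] AlgebraicClosure ℚ
local notation "Mp" => Matrix (Fin 2) (Fin 2) ℤ_[p]
local notation "Mq" => Matrix (Fin 2) (Fin 2) ℚ_[p]
local notation "π" => (p : ℤ_[p])

/-- There are infinitely many points of `p`-power order. -/
theorem infinite_primePow_torsion (B : TateBasis p W) :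
    {P : Pts W | ∃ n, p ^ n • P = 0}.Infinite := by
  have key : ∀ n, B.φ (n + 1) ![1, 0] ≠ 0 ∧ p ^ n • B.φ (n + 1) ![1, 0] ≠ 0 := fun n => by
    have h1 : p ^ n • B.φ (n + 1) ![1, 0] = B.φ 1 ![1, 0] := by
      rw [add_comm n 1, B.pow_compat]
    have h2 : B.φ 1 ![1, 0] ≠ 0 := fun h0 => by
      have h3 := (B.ker 1 _).1 h0 0
      have : Fact (1 < p ^ 1) := ⟨by rw [pow_one]; exact hp.out.one_lt⟩
      simp at h3
    exact ⟨fun h0 => h2 (by rw [← h1, h0, nsmul_zero]), h1 ▸ h2⟩
  have hinj : Function.Injective fun n => B.φ (n + 1) ![1, 0] := by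
    intro a b hab
    by_contra hne
    wlog hlt : a < b generalizing a b
    · exact this hab.symm (Ne.symm hne) (by omega)
    refine (key b).2 ?_
    obtain ⟨c, rfl⟩ := Nat.exists_eq_add_of_le (show a + 1 ≤ b by omega)
    rw [← show B.φ (a + 1) ![1, 0] = B.φ (a + 1 + c + 1) ![1, 0] from hab, pow_add,
      mul_comm, mul_smul, B.nsmul_phi, nsmul_zero]
  exact (Set.infinite_range_of_injective hinj).mono (by
    rintro _ ⟨n, rfl⟩
    exact ⟨n + 1, B.nsmul_phi _ _⟩)

/-- At potentially supersingular reduction some element of determinant one congruent to one modulo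
`p²` does not act as a scalar. -/
theorem exists_special_not_scalar (h : PotSupersingular p W) (B : TateBasis p W) :
    ∃ τ ∈ specialTwo (localRep B), FA.OpenImageAll.tl (localRep B τ) ≠ 0 := by
  by_contra hall
  push Not at hall
  refine infinite_primePow_torsion B
    ((finite_fixed_by_ker_chi h (isOpen_levelGroup B 2)).subset ?_)
  rintro P ⟨n, hn⟩
  refine ⟨⟨n, hn⟩, fun τ hτ hχ => ?_⟩
  obtain ⟨v, rfl⟩ := B.surj n P hn
  have hdet : (localRep B τ).det = 1 := Subtype.coe_injective (by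
    show PadicInt.Coe.ringHom (localRep B τ).det = _
    rw [RingHom.map_det, RingHom.mapMatrix_apply, ← curveAtP_eq, det_curveAtP, hχ]
    rfl)
  have hmem : τ ∈ specialTwo (localRep B) := (mem_specialTwo _).2 ⟨hτ, hdet⟩
  rw [B.rep_spec, show B.rep (localGaloisToGlobal p τ) = localRep B τ from rfl,
    eq_one_of_tl_eq_zero _ hmem (hall τ hmem), one_mulVec]

/-- A torus centralised by the elements of the decomposition group congruent to one modulo `p²`
meets the image in an open subgroup. -/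
theorem exists_level_local_torus (h : PotSupersingular p W) (B : TateBasis p W) {Y : Mp}
    (hY : Y.trace = 0) (hY0 : Y ≠ 0)
    (hc : ∀ τ ∈ levelGroup (localRep B) 2, localRep B τ * Y = Y * localRep B τ) :
    ∃ k : ℕ, ∀ Z : Mp, Z * Y = Y * Z → IsUnit (1 + π ^ k • Z).det →
      ∃ τ : G, localRep B τ = 1 + π ^ k • Z := by
  obtain ⟨τ, hτ, hne⟩ := exists_special_not_scalar h B
  exact exists_level_torus (localRep B) (isClosed_range_localRep B) (exists_det_localRep B) hY hY0
    hc hτ hne

/-- **Open in `GL₂(ℤ_p)` or in the normaliser of a nonsplit Cartan subgroup**: the image of the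
decomposition group at potentially supersingular reduction. -/
theorem local_image_open_or_cartan (h : PotSupersingular p W) (B : TateBasis p W) :
    (∃ k : ℕ, ∀ Y : Mp, IsUnit (1 + π ^ k • Y).det →
      ∃ τ : G, localRep B τ = 1 + π ^ k • Y) ∨
    ∃ Y : Mp, Y.trace = 0 ∧ ¬ IsSquare (((-Y.det : ℤ_[p])) : ℚ_[p]) ∧
      (∀ τ, localRep B τ * Y = Y * localRep B τ ∨ localRep B τ * Y = -(Y * localRep B τ)) ∧
      ∃ k : ℕ, ∀ Z : Mp, Z * Y = Y * Z → IsUnit (1 + π ^ k • Z).det →
        ∃ τ : G, localRep B τ = 1 + π ^ k • Z := by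
  refine (local_image_open_or_formalCM h B).imp_right ?_
  rintro ⟨-, Y, hY, hd, hsq, hs, hc⟩
  exact ⟨Y, hY, hsq, hs,
    exists_level_local_torus h B hY (fun h0 => hd (by rw [h0, det_zero])) hc⟩

/-- Every open subgroup meets inertia in an element with non-trivial cyclotomic character. -/
theorem exists_inertia_chi_ne_one {U : Subgroup (PadicAlgCl p ≃ₐ[ℚ_[p]] PadicAlgCl p)}
    (hU : IsOpen (U : Set G)) : ∃ τ ∈ U, τ ∈ inertiaGal p ∧ chi p τ ≠ 1 := by
  haveI : Finite (G ⧸ U) := U.quotient_finite_of_isOpen hU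
  haveI : U.FiniteIndex := Subgroup.finiteIndex_of_finite_quotient
  obtain ⟨u, hu⟩ := FA.OpenImageAll.isUnit_one_add π
  obtain ⟨σ, hσ⟩ := FA.AbelianGeometric.chi_surjective (p := p) u
  obtain ⟨τ, hτ, hχ⟩ := exists_mem_inertia_chi (p := p) σ
  obtain ⟨n, hn, -, hmem⟩ :=
    Subgroup.exists_pow_mem_of_index_ne_zero (Subgroup.FiniteIndex.index_ne_zero (H := U)) τ
  refine ⟨τ ^ n, hmem, pow_mem hτ n, fun h1 => ?_⟩
  rw [map_pow, hχ, hσ, Units.ext_iff, Units.val_pow_eq_pow_val, hu, Units.val_one] at h1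
  have h2 : (1 + p * p) ^ n = 1 := by exact_mod_cast h1
  have h3 : 1 < 1 + p * p := by nlinarith [hp.out.two_le]
  exact absurd h2 (Nat.one_lt_pow hn.ne' h3).ne'

variable {d : ℤ}

/-- Multiplication by `√d` and the open subgroup of the decomposition group fixing `√d`. -/
theorem exists_local_sqrt (hE : IsExceptional W d) (B : TateBasis p W) :
    ∃ (X : Mq) (H : Subgroup GQ), H.index = 2 ∧ IsOpen (H : Set GQ) ∧
      X * X = (d : ℚ_[p]) • 1 ∧ X.trace = 0 ∧
      (∀ g ∈ H, (B.rep g).map PadicInt.Coe.ringHom * X = X * (B.rep g).map PadicInt.Coe.ringHom) ∧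
      (∀ g, (B.rep g).map PadicInt.Coe.ringHom * X = X * (B.rep g).map PadicInt.Coe.ringHom ∨
        (B.rep g).map PadicInt.Coe.ringHom * X = -(X * (B.rep g).map PadicInt.Coe.ringHom)) ∧
      IsOpen ((H.comap (localGaloisToGlobal p) : Subgroup G) : Set G) := by
  obtain ⟨s, H, hs, hH, hopen, hfix⟩ :=
    FA.OpenImageAll.exists_index_two_of_sqrt hE.sqfree hE.ne_one
  obtain ⟨X, hX, htr, hin, hout⟩ := exists_sqrt_matrix hE hs hH hopen hfix B
  exact ⟨X, H, hH, hopen, hX, htr, hin,
    fun g => if hg : g ∈ H then .inl (hin g hg) else .inr (hout g hg),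
    hopen.preimage FA.GalCoh.continuous_loc⟩

/-- **Deuring's criterion at every prime**: if `a_l = 0` at the good primes inert in `ℚ(√d)`, the
reduction at `p`, good or bad, is potentially supersingular exactly when `d` is no square in
`ℚ_p`. -/
theorem potSupersingular_iff (hE : IsExceptional W d) :
    PotSupersingular p W ↔ ¬ IsSquare (d : ℚ_[p]) := by
  obtain ⟨B⟩ := exists_tateBasis (p := p) W
  obtain ⟨X, H, -, -, hX, htr, hin, -, hopen⟩ := exists_local_sqrt hE B
  have hd0 : (d : ℚ_[p]) ≠ 0 := Int.cast_ne_zero.2 hE.sqfree.ne_zero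
  have hc : ∀ τ ∈ H.comap (localGaloisToGlobal p),
      curveAtP B τ * X = X * curveAtP B τ := fun τ hτ => hin _ hτ
  refine ⟨fun h => not_isSquare_of_commute_rat h B hopen htr hd0 hX hc, fun hsq => ?_⟩
  by_contra hn
  obtain ⟨C, T, hT, h10, U, hU, h11⟩ := exists_triangular_of_not hn B
  obtain ⟨τ, ⟨hτH, hτU⟩, hτI, hne⟩ :=
    exists_inertia_chi_ne_one (U := H.comap (localGaloisToGlobal p) ⊓ U) (hopen.inter hU)
  obtain ⟨A, hA⟩ : ∃ A, curveAtP B τ = A := ⟨_, rfl⟩
  obtain ⟨v, hv⟩ : ∃ v, (C : Mq) *ᵥ ![1, 0] = v := ⟨_, rfl⟩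
  have hv0 : v ≠ 0 := fun h0 => by
    have h1 := congrArg ((↑C⁻¹ : Mq) *ᵥ ·) (hv.trans h0)
    simp only [mulVec_mulVec, Units.inv_mul, one_mulVec, mulVec_zero] at h1
    simpa using congrFun h1 0
  have hT0 : T τ *ᵥ ![1, 0] = T τ 0 0 • (![1, 0] : Fin 2 → ℚ_[p]) := by
    ext i
    fin_cases i <;> simp [mulVec, dotProduct, Fin.sum_univ_two, h10]
  have hAv : A *ᵥ v = T τ 0 0 • v := by
    rw [← hv, mulVec_mulVec, ← hA, hT, ← mulVec_mulVec, hT0, mulVec_smul]
  have hAw : A *ᵥ (X *ᵥ v) = T τ 0 0 • (X *ᵥ v) := by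
    rw [mulVec_mulVec, ← hA, hc τ hτH, hA, ← mulVec_mulVec, hAv, mulVec_smul]
  by_cases hx : v 0 * (X *ᵥ v) 1 - v 1 * (X *ᵥ v) 0 = 0
  · obtain ⟨c, hcv⟩ := exists_smul_eq hv0 hx
    have h2 : (d : ℚ_[p]) • v = (c * c) • v := by
      rw [← one_mulVec v, ← smul_mulVec, ← hX, ← mulVec_mulVec, one_mulVec, hcv, mulVec_smul, hcv,
        smul_smul]
    exact hsq ⟨c, smul_left_injective ℚ_[p] hv0 h2⟩
  · -- two independent eigenvectors for one value: a scalar
    have hscal : A = T τ 0 0 • 1 := by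
      generalize X *ᵥ v = w at hAw hx
      have h0 : (A - T τ 0 0 • 1) * !![v 0, w 0; v 1, w 1] = 0 := by
        ext k l
        have a := congrFun hAv k
        have b := congrFun hAw k
        simp only [mulVec, dotProduct, Fin.sum_univ_two, Pi.smul_apply, smul_eq_mul] at a b
        fin_cases k <;> fin_cases l <;>
          simp [Matrix.mul_apply, Fin.sum_univ_two] <;> simp at a b <;>
          first | linear_combination a | linear_combination b
      have hP : IsUnit (!![v 0, w 0; v 1, w 1] : Mq).det := isUnit_iff_ne_zero.2 (by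
        rw [det_fin_two_of]; intro h2; exact hx (by linear_combination h2))
      exact sub_eq_zero.1 (((Matrix.isUnit_iff_isUnit_det _).2 hP).mul_left_eq_zero.1 h0)
    have hTs : T τ = T τ 0 0 • 1 := by
      have h1 := hT τ
      rw [hA, hscal, smul_mul_assoc, one_mul, ← mul_one (C : Mq), ← Algebra.mul_smul_comm] at h1
      simp only [mul_one] at h1
      exact C.isUnit.mul_right_injective h1.symm
    have h00 : T τ 0 0 = 1 := by
      have h1 := h11 τ hτU hτI
      rw [hTs] at h1
      simpa using h1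
    have h1 := det_curveAtP B τ
    rw [hA, hscal, h00, one_smul, det_one] at h1
    exact hne (Units.ext (Subtype.coe_injective h1.symm))

/-- An integral traceless matrix with square a multiple of `d`, normalised up to sign by Galois. -/
theorem exists_integral_sqrt (hE : IsExceptional W d) (B : TateBasis p W) :
    ∃ (Y : Mp) (c : ℤ_[p]), Y.trace = 0 ∧ c ≠ 0 ∧ Y * Y = (c * c * d) • 1 ∧
      (∀ g, B.rep g * Y = Y * B.rep g ∨ B.rep g * Y = -(Y * B.rep g)) ∧
      ∃ H : Subgroup GQ, H.index = 2 ∧ IsOpen (H : Set GQ) ∧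
        ∀ g ∈ H, B.rep g * Y = Y * B.rep g := by
  obtain ⟨X, H, hH, hopen, hX, htr, hin, hsign, -⟩ := exists_local_sqrt hE B
  obtain ⟨⟨c, hc⟩, hint⟩ := IsLocalization.exist_integer_multiples_of_finite
    (nonZeroDivisors ℤ_[p]) (fun q : Fin 2 × Fin 2 => X q.1 q.2)
  choose y hy using hint
  obtain ⟨Y, hY⟩ : ∃ Y : Mp, Matrix.of (fun i j => y (i, j)) = Y := ⟨_, rfl⟩
  obtain ⟨ι, hι⟩ : ∃ ι : Mp →+* Mq, PadicInt.Coe.ringHom.mapMatrix = ι := ⟨_, rfl⟩
  have hinj : Function.Injective ι := hι ▸ Matrix.map_injective Subtype.coe_injective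
  have hYX : ι Y = (c : ℚ_[p]) • X := by
    rw [← hι, ← hY]
    ext i j
    show ((y (i, j) : ℤ_[p]) : ℚ_[p]) = (c : ℚ_[p]) * X i j
    exact (hy (i, j)).trans (Algebra.smul_def c (X i j))
  have hmove : ∀ g, (B.rep g).map PadicInt.Coe.ringHom = ι (B.rep g) := fun g => by
    rw [← hι]; rfl
  refine ⟨Y, c, ?_, nonZeroDivisors.ne_zero hc, ?_, fun g => ?_, H, hH, hopen, fun g hg => ?_⟩
  · refine Subtype.coe_injective (show PadicInt.Coe.ringHom Y.trace = _ from ?_)
    rw [trace_fin_two, map_add]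
    have h1 := congrArg Matrix.trace hYX
    rw [← hι, trace_fin_two, RingHom.mapMatrix_apply, Matrix.map_apply, Matrix.map_apply,
      trace_smul, htr, smul_zero] at h1
    exact h1
  · refine hinj ?_
    rw [map_mul, hYX, smul_mul_smul_comm, hX, smul_smul]
    ext i j
    rw [← hι]
    fin_cases i <;> fin_cases j <;> simp
  · refine (hsign g).imp (fun h => hinj ?_) fun h => hinj ?_
    · rw [map_mul, map_mul, hYX, Algebra.mul_smul_comm, smul_mul_assoc, ← hmove, h]
    · rw [map_mul, map_neg, map_mul, hYX, Algebra.mul_smul_comm, smul_mul_assoc, ← hmove, h,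
        smul_neg]
  · refine hinj ?_
    rw [map_mul, map_mul, hYX, Algebra.mul_smul_comm, smul_mul_assoc, ← hmove, hin g hg]

/-- **Exceptional curves have formal complex multiplication at the nonsplit primes**: the images
of Galois and of the decomposition group lie in the normaliser of the nonsplit Cartan subgroup of
`Y`, contain all its invertible elements congruent to one modulo a power of `p`, and are not
open in `GL₂(ℤ_p)`. -/
theorem exceptional_image (hE : IsExceptional W d) (hd : ¬ IsSquare (d : ℚ_[p]))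
    (B : TateBasis p W) :
    ∃ Y : Mp, Y.trace = 0 ∧ ¬ IsSquare (((-Y.det : ℤ_[p])) : ℚ_[p]) ∧
      (∀ g, B.rep g * Y = Y * B.rep g ∨ B.rep g * Y = -(Y * B.rep g)) ∧
      (∃ k : ℕ, ∀ Z : Mp, Z * Y = Y * Z → IsUnit (1 + π ^ k • Z).det →
        ∃ τ : G, localRep B τ = 1 + π ^ k • Z) ∧
      ¬ ∃ k : ℕ, ∀ Z : Mp, IsUnit (1 + π ^ k • Z).det → ∃ g, B.rep g = 1 + π ^ k • Z := by
  have hss := (potSupersingular_iff hE).2 hd
  obtain ⟨Y, c, hY, hc, hYY, hsign, H, hH, -, hin⟩ := exists_integral_sqrt hE B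
  have hdet : -Y.det = c * c * d := by
    have h1 := congrFun (congrFun ((FA.OpenImageAll.sq_eq_of_trace_eq_zero hY).symm.trans hYY) 0) 0
    simpa using h1
  have hdet0 : Y.det ≠ 0 := fun h0 => by
    rw [h0, neg_zero, eq_comm, mul_eq_zero, mul_self_eq_zero, Int.cast_eq_zero] at hdet
    exact hdet.elim hc hE.sqfree.ne_zero
  have hY0 : Y ≠ 0 := fun h0 => hdet0 (by rw [h0, det_zero])
  refine ⟨Y, hY, ?_, hsign, exists_level_local_torus hss B hY hY0
    (centralizes_of_normalizes (localRep B) hdet0 hY fun τ => hsign _).1, fun ⟨k, hk⟩ => ?_⟩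
  · rintro ⟨a, ha⟩
    rw [hdet, PadicInt.coe_mul, PadicInt.coe_mul, PadicInt.coe_intCast] at ha
    have hc' : (c : ℚ_[p]) ≠ 0 := fun h0 => hc (Subtype.coe_injective h0)
    exact hd ⟨a / c, by field_simp; linear_combination ha⟩
  · haveI : H.FiniteIndex := ⟨by omega⟩
    obtain ⟨g, hg, g', hg', hne⟩ := exists_not_commute B.rep hk H
    exact hne (commute_of_commute hY hY0 (hin g hg) (hin g' hg'))

end FA.FormalCM

end
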