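import Fermat.Agent.Root.LiftOddBad

/-!
# Modularity lifting at `3` and `5`: reduction to the towers of a pair

The coefficients, places, auxiliary prime and conjugation are supplied here; what remains for a
pair is the existence of its towers: `PairTowers` when the world at `p` is one of the two,
`UnionTowers` at a bad `p` dividing the valuation of the discriminant.
-/

set_option autoImplicit false
set_option linter.style.haveILetI false
set_option linter.unusedSectionVars false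
set_option maxHeartbeats 800000

noncomputable section

open IsLocalRing Matrix WeierstrassCurve FA.RT FA.Deform FA.TW FA.Frob FA.HeckeH1
open FA.Theta (badProd)

namespace FA.Root

local notation "M2" => Matrix (Fin 2) (Fin 2)

/-- The towers of every pair of congruent curves exist, for one world at `p`: good reduction, or bad
reduction with `p ∤ v_p(Δ)`. -/
def PairTowers : Prop :=
  ∀ (p : ℕ) [Fact p.Prime] (W W' : WeierstrassCurve ℤ)
    [(FA.Frob.ratCurve W).IsElliptic] [(FA.Frob.ratCurve W').IsElliptic]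
    (O : Type) [CommRing O] [IsDomain O] [IsDiscreteValuationRing O]
    [IsAdicComplete (maximalIdeal O) O] [Finite (ResidueField O)] [CharZero O]
    (hp2 : p ≠ 2) (hpO : (p : O) ∈ maximalIdeal O) (_ : maximalIdeal O = Ideal.span {(p : O)})
    (ι : ℤ_[p] →+* O) (j : ZMod p →+* ResidueField O) (P : Places)
    (hΔ : W.Δ ≠ 0) (_ : W'.Δ ≠ 0) (hW : W.IsSemistableModel) (_ : W'.IsSemistableModel)
    (r : ℕ) (haux : LiftAux p W W' r) (hirr : W.ModRepIsIrreducible p)
    (_ : ∃ U : M2 (ZMod p), IsUnit U ∧ ∀ σ, U * curveRep p W σ = curveRep p W' σ * U)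
    (_ : (p : ℤ) ∣ W.Δ ↔ (p : ℤ) ∣ W'.Δ) (_ : (p : ℤ) ∣ W.Δ → ¬ p ∣ padicValInt p W.Δ)
    (_ : ∀ t d : ZMod p, ∃ a, a * a - j t * a + j d = 0),
    ∃ sep : ∀ U, (pairSetup W W' hp2 hpO ι j P hΔ hW haux).Separation
        (Subtype.val : Rem (pairSetup W W' hp2 hpO ι j P hΔ hW haux) r →
          ↥(pairSetup W W' hp2 hpO ι j P hΔ hW haux).Sig)
        ((pairLevels W W' hp2 hpO ι j P hΔ hW haux).baseLevels (sysVal W j)) U
        ((pairSetup W W' hp2 hpO ι j P hΔ hW haux).BaseAllowed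
          (fun B _ _ _ m => AtWorld p W B m)),
      Setup.MonoTower ((pairLevels W W' hp2 hpO ι j P hΔ hW haux).baseTower
        (pairSetup W W' hp2 hpO ι j P hΔ hW haux) (sysVal W j)
        (pair_nonEisenstein W hp2 hpO j hΔ hirr) sep) ∧
      ∀ (rr n : ℕ) (D : (pairSetup W W' hp2 hpO ι j P hΔ hW haux).TWSet rr n)
        (ab : Fin rr → ResidueField O),
        Function.Injective D.qv → IsTameGenSet D →
        (∀ i, D.qv i ∉ (pairSetup W W' hp2 hpO ι j P hΔ hW haux).T) →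
        (∀ i, ab i * ab i - ((pairSetup W W' hp2 hpO ι j P hΔ hW haux).rb (D.φ i)).trace * ab i +
          ((pairSetup W W' hp2 hpO ι j P hΔ hW haux).rb (D.φ i)).det = 0) →
        Nonempty (Setup.DepthTower ((pairLevels W W' hp2 hpO ι j P hΔ hW haux).baseTower
          (pairSetup W W' hp2 hpO ι j P hΔ hW haux) (sysVal W j)
          (pair_nonEisenstein W hp2 hpO j hΔ hirr) sep) D ab)

section TWPart

variable {p : ℕ} [Fact p.Prime] (W W' : WeierstrassCurve ℤ)
  [(FA.Frob.ratCurve W).IsElliptic] [(FA.Frob.ratCurve W').IsElliptic]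
  {O : Type} [CommRing O] [IsDomain O] [IsDiscreteValuationRing O]
  [IsAdicComplete (maximalIdeal O) O] [Finite (ResidueField O)] [CharZero O]
  (hp2 : p ≠ 2) (hpO : (p : O) ∈ maximalIdeal O) (ι : ℤ_[p] →+* O)
  (j : ZMod p →+* ResidueField O) (P : Places) (hΔ : W.Δ ≠ 0) (hΔ' : W'.Δ ≠ 0)
  (hW : W.IsSemistableModel) {r : ℕ} (haux : LiftAux p W W' r)

local notation "SS" => pairSetup W W' hp2 hpO ι j P hΔ hW haux
local notation "LL" => pairLevels W W' hp2 hpO ι j P hΔ hW haux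

theorem dvd_pairLevels_L0 : r ∣ (LL).L0 :=
  (Finset.dvd_prod_of_mem _ ((mem_fixSet SS r).mpr
    ⟨mem_pairSetup_Sig W W' hp2 hpO ι j P hΔ hW haux, Or.inl rfl⟩)).mul_right _

include hΔ' in
/-- **The Hecke data of a Taylor–Wiles set of the pair.** -/
theorem exists_pairTWPart (hirr : W.ModRepIsIrreducible p) {rr n : ℕ} (D : (SS).TWSet rr n)
    (ab : Fin rr → ResidueField O) (hinj : Function.Injective D.qv) (hgen : IsTameGenSet D)
    (hT : ∀ i, D.qv i ∉ (SS).T)
    (hab : ∀ i, ab i * ab i - ((SS).rb (D.φ i)).trace * ab i + ((SS).rb (D.φ i)).det = 0) :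
    haveI : NeZero (SS).p := ⟨(SS).hp.ne_zero⟩
    ∃ T : TWPart LL (sysVal W j) (DGroup (SS).p D.expo)
        (insert p (sigSet p W W' r) ∪ Finset.univ.image D.qv),
      T.p = (SS).p ∧ T.Q = twQ D ∧
      (∀ (i : Fin rr) (q : Nat.Primes), (q : ℕ) = D.qv i → residue O (T.α q) = ab i) ∧
      ∀ (i : Fin rr) (u : (ZMod (∏ q ∈ T.Q, (q : ℕ)))ˣ),
        haveI : Fact (D.qv i).Prime := ⟨(D.prime i).1⟩
        (ZMod.cast (u : ZMod (∏ q ∈ T.Q, (q : ℕ))) : ZMod (D.qv i)) =
          (FA.JTorsion.cycK (D.qv i) (ZMod (D.qv i)) (D.s i) : ZMod (D.qv i)) →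
        (∀ j, j ≠ i →
          (ZMod.cast (u : ZMod (∏ q ∈ T.Q, (q : ℕ))) : ZMod (D.qv j)) = 1) →
        T.κ u * dGen (SS).p D.expo i ^ 2 = 1 := by
  haveI : Fact r.Prime := ⟨haux.prime⟩
  haveI : NeZero (LL).L0 := ⟨(LL).pos⟩
  haveI : Fact (SS).p.Prime := ⟨(SS).hp⟩
  refine exists_twPart D hinj hgen LL (sysVal W j) (pair_nonEisenstein W hp2 hpO j hΔ hirr)
    (isNeatOn_of_prime hp2 hpO (dvd_pairLevels_L0 W W' hp2 hpO ι j P hΔ hW haux) haux.cast_eq)
    hT (fun i ℓ hℓ h => hT i (hℓ ▸ (mem_sysSet W W' ℓ).1 h)) ab hab fun i ℓ hℓ => ?_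
  obtain ⟨hℓp, hg, -⟩ := good_of_notMem W W' hΔ hΔ' ℓ.2 (hℓ ▸ hT i :
    (ℓ : ℕ) ∉ insert p (sigSet p W W' r))
  have hσ : (P.place (ℓ : ℕ)).IsFrobeniusAt (D.φ i) ℓ := hℓ ▸ D.φ_spec i
  refine ⟨?_, det_mapRep_curveRep W j _ _ fun μ hμ =>
    FA.TW.frobenius_apply_rootOfUnity (m := 1) Fact.out ℓ.2 hℓp (P.liesOver _ ℓ.2) hσ
      (by rw [pow_one]; exact hμ)⟩
  show ((j.mapMatrix (curveRep p W (D.φ i)))).trace = _
  rw [RingHom.mapMatrix_apply, ← AddMonoidHom.map_trace j, trace_curveRep W ℓ.2 hg (Ne.symm hℓp) (P.liesOver _ ℓ.2) hσ]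
  rfl

end TWPart

theorem isElliptic_ratCurve_of_Δ {W : WeierstrassCurve ℤ} (hΔ : W.Δ ≠ 0) :
    (FA.Frob.ratCurve W).IsElliptic :=
  ⟨by
    rw [isUnit_iff_ne_zero, FA.Frob.ratCurve, WeierstrassCurve.map_Δ]
    exact fun h => hΔ (by simpa using h)⟩

/-- The towers of every pair of congruent curves with bad reduction at `p` and `p ∣ v_p(Δ)` exist. -/
def UnionTowers : Prop :=
  ∀ (p : ℕ) [Fact p.Prime] (W W' : WeierstrassCurve ℤ)
    [(FA.Frob.ratCurve W).IsElliptic] [(FA.Frob.ratCurve W').IsElliptic]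
    (O : Type) [CommRing O] [IsDomain O] [IsDiscreteValuationRing O]
    [IsAdicComplete (maximalIdeal O) O] [Finite (ResidueField O)] [CharZero O]
    (hp2 : p ≠ 2) (hpO : (p : O) ∈ maximalIdeal O) (_ : maximalIdeal O = Ideal.span {(p : O)})
    (ι : ℤ_[p] →+* O) (j : ZMod p →+* ResidueField O) (P : Places)
    (hΔ : W.Δ ≠ 0) (_ : W'.Δ ≠ 0) (hW : W.IsSemistableModel) (_ : W'.IsSemistableModel)
    (hbad : (p : ℤ) ∣ W.Δ) (hval : p ∣ padicValInt p W.Δ) (_ : (p : ℤ) ∣ W'.Δ)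
    (r : ℕ) (haux : LiftAux p W W' r) (hirr : W.ModRepIsIrreducible p)
    (_ : ∃ U : M2 (ZMod p), IsUnit U ∧ ∀ σ, U * curveRep p W σ = curveRep p W' σ * U)
    (_ : ∀ t d : ZMod p, ∃ a, a * a - j t * a + j d = 0),
    ∃ sep : ∀ U, (unionPairSetup W W' hp2 hpO ι j P hΔ hW hbad hval haux).Separation
        (Subtype.val : Rem (unionPairSetup W W' hp2 hpO ι j P hΔ hW hbad hval haux) r →
          ↥(unionPairSetup W W' hp2 hpO ι j P hΔ hW hbad hval haux).Sig)
        ((unionPairLevels W W' hp2 hpO ι j P hΔ hW hbad hval haux).baseLevels (sysVal W j)) U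
        ((unionPairSetup W W' hp2 hpO ι j P hΔ hW hbad hval haux).BaseAllowed
          (fun _ _ _ _ _ => True)),
      Setup.MonoTower ((unionPairLevels W W' hp2 hpO ι j P hΔ hW hbad hval haux).baseTower
        (unionPairSetup W W' hp2 hpO ι j P hΔ hW hbad hval haux) (sysVal W j)
        (pair_nonEisenstein W hp2 hpO j hΔ hirr) sep) ∧
      ∃ pb : Setup.PBase ((unionPairLevels W W' hp2 hpO ι j P hΔ hW hbad hval haux).baseTower
          (unionPairSetup W W' hp2 hpO ι j P hΔ hW hbad hval haux) (sysVal W j)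
          (pair_nonEisenstein W hp2 hpO j hΔ hirr) sep)
          (fun B _ _ _ m => AtFlat p B m) (fun B _ _ _ m => AtStrict p B m),
        (¬ ∃ χF : Algebra.adjoin O {a : pb.AF (topSet
              (unionPairSetup W W' hp2 hpO ι j P hΔ hW hbad hval haux) r W') |
            ∃ ℓ : ℕ, ℓ.Prime ∧ ℓ ∉ insert p (sigSet p W W' r) ∧ a = pb.TF (topSet
              (unionPairSetup W W' hp2 hpO ι j P hΔ hW hbad hval haux) r W') ℓ} →ₐ[O] O,
          ∀ (ℓ : ℕ) (hℓ : ℓ.Prime) (hb : ℓ ∉ insert p (sigSet p W W' r)),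
            χF ⟨pb.TF (topSet (unionPairSetup W W' hp2 hpO ι j P hΔ hW hbad hval haux) r W') ℓ,
              Algebra.subset_adjoin ⟨ℓ, hℓ, hb, rfl⟩⟩ = (W'.apOfModel ℓ : O)) ∧
        ∀ (rr n : ℕ) (D : (unionPairSetup W W' hp2 hpO ι j P hΔ hW hbad hval haux).TWSet rr n)
          (ab : Fin rr → ResidueField O),
          Function.Injective D.qv → IsTameGenSet D →
          (∀ i, D.qv i ∉ (unionPairSetup W W' hp2 hpO ι j P hΔ hW hbad hval haux).T) →
          (∀ i, ab i * ab i -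
              ((unionPairSetup W W' hp2 hpO ι j P hΔ hW hbad hval haux).rb (D.φ i)).trace * ab i +
            ((unionPairSetup W W' hp2 hpO ι j P hΔ hW hbad hval haux).rb (D.φ i)).det = 0) →
          ∃ dep : Setup.DepthTower ((unionPairLevels W W' hp2 hpO ι j P hΔ hW hbad hval
              haux).baseTower (unionPairSetup W W' hp2 hpO ι j P hΔ hW hbad hval haux) (sysVal W j)
              (pair_nonEisenstein W hp2 hpO j hΔ hirr) sep) D ab,
            Nonempty (Setup.PDepth pb dep)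

/-- **Modularity lifting at `3` and `5`, from the towers.** -/
theorem liftOdd_of (hP : PairTowers) (hU : UnionTowers) : LiftOdd := by
  intro p W W' hp hΔ hΔ' hW hW' hirr hiso hpp hmod
  classical
  haveI : Fact p.Prime := ⟨by rcases hp with rfl | rfl <;> norm_num⟩
  have hp2 : p ≠ 2 := by rcases hp with rfl | rfl <;> norm_num
  haveI := isElliptic_ratCurve_of_Δ hΔ
  haveI := isElliptic_ratCurve_of_Δ hΔ'
  obtain ⟨O, iC, iD, iV, iA, iZ, iF, hpO, hspan, ⟨ι⟩, j, hsplit⟩ := exists_coefficients p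
  obtain ⟨P⟩ := exists_places
  obtain ⟨r, haux⟩ := exists_liftAux (W' := W') hΔ hΔ' hW hp2 hirr
  have hcong := exists_conj_of_torsIso hiso
  by_cases hu : (p : ℤ) ∣ W.Δ ∧ p ∣ padicValInt p W.Δ
  · obtain ⟨hbad, hval⟩ := hu
    obtain ⟨sep, hmono, pb, hnew, hdep⟩ := hU p W W' O hp2 hpO hspan ι j P hΔ hΔ' hW hW' hbad hval
      (hpp.1 hbad) r haux hirr hcong hsplit
    exact modular_of_towers_union W W' hp2 hpO ι j P hΔ hΔ' hW hbad hval haux hW' hirr hcong
      (hpp.1 hbad) hsplit hmod sep hmono pb hnew hdep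
  · obtain ⟨sep, hmono, hdep⟩ := hP p W W' O hp2 hpO hspan ι j P hΔ hΔ' hW hW' r haux hirr hcong
      hpp (fun h hv => hu ⟨h, hv⟩) hsplit
    exact modular_of_towers W W' hp2 hpO ι j P hΔ hΔ' hW haux hW' hirr hcong hpp hsplit hmod sep
      hmono hdep

end FA.Root

end
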