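import Fermat.Agent.Root.Chain
import Fermat.Agent.Root.LiftOdd
import Fermat.Agent.Root.RemovalEnd
import Fermat.Agent.S09

/-!
# Fermat's Last Theorem from the remaining inputs

The open inputs are modularity lifting at `2`, the towers of a pair of congruent curves, the towers
of a removal and the removal of `p` from the level.
-/

set_option autoImplicit false

noncomputable section

open WeierstrassCurve

namespace FA.Root

variable (h2 : LiftTwo) (hP : PairTowers) (hU : UnionTowers) (hR : RemTowers) (hA : RemovalAtP)

include h2 hP hU in
/-- The Frey curve is modular. -/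
theorem frey_isModular_final (P : FreyPackage) : P.freyCurve.IsModular :=
  frey_isModular_of h2 (liftOdd_of hP hU) P

include h2 hP hU in
/-- The Frey representation is modular of a conductor level. -/
theorem modularRepOfConductorLevel_final (P : FreyPackage) :
    ∃ N : ℕ, P.IsConductorLevel N ∧ P.ModularRepOfLevel N :=
  modularRepOfConductorLevel_of h2 (liftOdd_of hP hU) P

/-- The Frey representation is irreducible. -/
theorem mazurFrey : MazurFrey := fun P => Fermat.Agent.S09.result P

include h2 hP hU hR hA in
/-- There is no Frey package. -/
theorem false_of_freyPackage_final (P : FreyPackage) : False :=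
  false_of_freyPackage h2 (liftOdd_of hP hU) (removal_of hR hA) P (mazurFrey P)

include h2 hP hU hR hA in
/-- **Fermat's Last Theorem.** -/
theorem flt_final (n : ℕ) (hn : 3 ≤ n) (a b c : ℕ) (ha : 0 < a) (hb : 0 < b) (hc : 0 < c) :
    a ^ n + b ^ n ≠ c ^ n :=
  flt_of h2 (liftOdd_of hP hU) (removal_of hR hA) mazurFrey n hn a b c ha hb hc

end FA.Root

end
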