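import Mathlib
import Fermat.Prelude.Def_FLTPrelim_FreyPackage

/-!
# A counterexample to Fermat's Last Theorem gives a Frey package

Normalise a solution of `a ^ p + b ^ p = c ^ p`: divide by the gcd, permute so that `b` is
even, then negate so that `a ≡ 3 [mod 4]`.
-/

set_option autoImplicit false

namespace FA.Root

/-- A coprime solution with `b` even gives a Frey package. -/
lemma freyPackage_of_even {a b c : ℤ} (ha : a ≠ 0) (hb : b ≠ 0) (hc : c ≠ 0) {p : ℕ}
    (pp : p.Prime) (hp5 : 5 ≤ p) (H : a ^ p + b ^ p = c ^ p) (hg : Int.gcd a b = 1)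
    (hev : Even b) : Nonempty FreyPackage := by
  have hodd : Odd p := pp.odd_of_ne_two (by omega)
  have hg' : gcd a b = 1 := by
    rw [← Int.coe_gcd, hg]; rfl
  have haodd : Odd a := by
    rcases Int.even_or_odd a with hae | hao
    · exfalso
      have h2 : (2 : ℕ) ∣ Int.gcd a b :=
        Int.natCast_dvd_natCast.mp (Int.dvd_coe_gcd hae.two_dvd hev.two_dvd)
      rw [hg] at h2
      omega
    · exact hao
  have hb2 : (b : ZMod 2) = 0 :=
    (ZMod.intCast_zmod_eq_zero_iff_dvd b 2).2 (by exact_mod_cast hev.two_dvd)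
  obtain ⟨k, hk⟩ := haodd
  rcases Int.even_or_odd k with ⟨m, hm⟩ | ⟨m, hm⟩
  · -- `a ≡ 1 [mod 4]`: negate
    refine ⟨⟨-a, -b, -c, neg_ne_zero.2 ha, neg_ne_zero.2 hb, neg_ne_zero.2 hc, p, pp, hp5,
      ?_, ?_, ?_, ?_⟩⟩
    · rw [hodd.neg_pow, hodd.neg_pow, hodd.neg_pow, ← H]; ring
    · rw [← Int.coe_gcd, Int.neg_gcd, Int.gcd_neg, hg]; rfl
    · have h3 : (3 : ZMod 4) = ((3 : ℤ) : ZMod 4) := by norm_num
      rw [h3, ZMod.intCast_eq_intCast_iff_dvd_sub]
      exact ⟨m + 1, by push_cast; omega⟩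
    · push_cast; rw [hb2]; simp
  · -- `a ≡ 3 [mod 4]`
    refine ⟨⟨a, b, c, ha, hb, hc, p, pp, hp5, H, hg', ?_, hb2⟩⟩
    have h3 : (3 : ZMod 4) = ((3 : ℤ) : ZMod 4) := by norm_num
    rw [h3, ZMod.intCast_eq_intCast_iff_dvd_sub]
    exact ⟨-m, by push_cast; omega⟩

theorem freyPackage_of_counterexample (a b c : ℤ) (ha : a ≠ 0) (hb : b ≠ 0) (hc : c ≠ 0) (p : ℕ)
    (pp : p.Prime) (hp5 : 5 ≤ p) (H : a ^ p + b ^ p = c ^ p) : Nonempty FreyPackage := by
  have hp0 : 0 < p := pp.pos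
  have hodd : Odd p := pp.odd_of_ne_two (by omega)
  -- divide by the gcd
  obtain ⟨g, a', b', hgpos, hcop, rfl, rfl⟩ : ∃ (g : ℕ) (a' b' : ℤ),
      0 < g ∧ Int.gcd a' b' = 1 ∧ a = a' * g ∧ b = b' * g := by
    obtain ⟨a', b', h1, h2, h3⟩ := Int.exists_gcd_one (Int.gcd_pos_of_ne_zero_left b ha)
    exact ⟨_, a', b', Int.gcd_pos_of_ne_zero_left b ha, h1, h2, h3⟩
  have hgdvd : (g : ℤ) ∣ c := by
    rw [← Int.pow_dvd_pow_iff pp.ne_zero, ← H, mul_pow, mul_pow]
    exact dvd_add (Dvd.intro_left _ rfl) (Dvd.intro_left _ rfl)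
  obtain ⟨c', rfl⟩ := hgdvd
  have hg0 : (g : ℤ) ≠ 0 := by exact_mod_cast hgpos.ne'
  have H' : a' ^ p + b' ^ p = c' ^ p := by
    have := H
    rw [mul_pow, mul_pow, mul_pow] at this
    apply mul_right_cancel₀ (pow_ne_zero p hg0)
    linear_combination this
  have ha' : a' ≠ 0 := left_ne_zero_of_mul ha
  have hb' : b' ≠ 0 := left_ne_zero_of_mul hb
  have hc' : c' ≠ 0 := right_ne_zero_of_mul hc
  -- permute so that the middle entry is even
  rcases Int.even_or_odd b' with hbe | hbo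
  · exact freyPackage_of_even ha' hb' hc' pp hp5 H' hcop hbe
  rcases Int.even_or_odd a' with hae | hao
  · exact freyPackage_of_even hb' ha' hc' pp hp5 (by rw [← H']; ring)
      (by rw [Int.gcd_comm]; exact hcop) hae
  · have hce : Even c' := by
      have h : Even (a' ^ p + b' ^ p) := (hao.pow).add_odd hbo.pow
      rw [H'] at h
      exact (Int.even_pow.1 h).1
    -- `a' ^ p + (-c') ^ p = (-b') ^ p`
    refine freyPackage_of_even (a := a') (b := -c') (c := -b') ha' (neg_ne_zero.2 hc')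
      (neg_ne_zero.2 hb') pp hp5 ?_ ?_ hce.neg
    · rw [hodd.neg_pow, hodd.neg_pow]; linear_combination H'
    · rw [Int.gcd_neg]
      have h1 : gcd a' b' = gcd a' c' := FreyPackage.gcdab_eq_gcdac hp0 H'
      rw [← Int.coe_gcd, ← Int.coe_gcd, hcop] at h1
      exact_mod_cast h1.symm

end FA.Root
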