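import Mathlib

/-!
# Improving an integral model at a prime

If an integral Weierstrass equation has `p ∣ Δ` and `p ∣ c₄` while some equation over `ℤ_p` of the
same curve has not, then some integral equation of the same curve has discriminant `Δ / p ^ 12`.
-/

set_option autoImplicit false

noncomputable section

namespace FA.Root

open WeierstrassCurve

variable {p : ℕ} [Fact p.Prime]

/-- A `p`-adic number is integral or the inverse of a multiple of `p`. -/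
theorem padic_int_or_inv (x : ℚ_[p]) :
    (∃ a : ℤ_[p], (a : ℚ_[p]) = x) ∨ ∃ y : ℤ_[p], (p : ℤ_[p]) ∣ y ∧ (y : ℚ_[p]) * x = 1 := by
  by_cases h : ‖x‖ ≤ 1
  · exact Or.inl ⟨⟨x, h⟩, rfl⟩
  · rw [not_le] at h
    have hx : x ≠ 0 := fun e => by norm_num [e] at h
    have hy : ‖x⁻¹‖ < 1 := by rw [norm_inv]; exact inv_lt_one_of_one_lt₀ h
    exact Or.inr ⟨⟨x⁻¹, hy.le⟩, (PadicInt.norm_lt_one_iff_dvd _).mp hy, inv_mul_cancel₀ hx⟩

/-- **The step.** -/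
theorem exists_smaller_model (W : WeierstrassCurve ℤ) (D : VariableChange ℚ_[p])
    (V : WeierstrassCurve ℤ_[p])
    (hD : D • W.map (Int.castRingHom ℚ_[p]) = V.map PadicInt.Coe.ringHom)
    (hV : ¬ ((p : ℤ_[p]) ∣ V.Δ ∧ (p : ℤ_[p]) ∣ V.c₄))
    (hΔ : (p : ℤ) ∣ W.Δ) (hc : (p : ℤ) ∣ W.c₄) :
    ∃ (C : VariableChange ℚ) (W' : WeierstrassCurve ℤ),
      C • W.map (Int.castRingHom ℚ) = W'.map (Int.castRingHom ℚ) ∧
        W'.Δ * (p : ℤ) ^ 12 = W.Δ := by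
  have hp : Prime (p : ℤ_[p]) := PadicInt.prime_p
  have hpd : ∀ {n : ℤ}, (p : ℤ) ∣ n → (p : ℤ_[p]) ∣ (n : ℤ_[p]) := fun {n} h => by
    simpa using map_dvd (Int.castRingHom ℤ_[p]) h
  have n2 : ((2 : ℤ_[p]) : ℚ_[p]) = 2 := map_ofNat (PadicInt.Coe.ringHom (p := p)) 2
  have n3 : ((3 : ℤ_[p]) : ℚ_[p]) = 3 := map_ofNat (PadicInt.Coe.ringHom (p := p)) 3
  have n4 : ((4 : ℤ_[p]) : ℚ_[p]) = 4 := map_ofNat (PadicInt.Coe.ringHom (p := p)) 4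
  have inj : ∀ {a b : ℤ_[p]}, (a : ℚ_[p]) = b → a = b := fun {a b} h => PadicInt.ext h
  have hu1 : (D.u : ℚ_[p]) * ((D.u⁻¹ : ℚ_[p]ˣ) : ℚ_[p]) = 1 := D.u.mul_inv
  set u := (D.u : ℚ_[p]) with hu
  set y := ((D.u⁻¹ : ℚ_[p]ˣ) : ℚ_[p]) with hy
  -- the scale is divisible by `p`
  have eΔ : y ^ 12 * (W.Δ : ℚ_[p]) = (V.Δ : ℚ_[p]) := by
    have := congrArg WeierstrassCurve.Δ hD
    rwa [variableChange_Δ, map_Δ, map_Δ, eq_intCast] at this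
  have ec : y ^ 4 * (W.c₄ : ℚ_[p]) = (V.c₄ : ℚ_[p]) := by
    have := congrArg WeierstrassCurve.c₄ hD
    rwa [variableChange_c₄, map_c₄, map_c₄, eq_intCast] at this
  obtain ⟨u', hu'p, hu'⟩ : ∃ u' : ℤ_[p], (p : ℤ_[p]) ∣ u' ∧ (u' : ℚ_[p]) = u := by
    rcases padic_int_or_inv y with ⟨a, ha⟩ | ⟨z, hz, e⟩
    · refine absurd ⟨?_, ?_⟩ hV
      · rw [show V.Δ = a ^ 12 * (W.Δ : ℤ_[p]) from inj (by push_cast; rw [ha, eΔ])]
        exact (hpd hΔ).mul_left _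
      · rw [show V.c₄ = a ^ 4 * (W.c₄ : ℤ_[p]) from inj (by push_cast; rw [ha, ec])]
        exact (hpd hc).mul_left _
    · exact ⟨z, hz, left_inv_eq_right_inv e ((mul_comm y u).trans hu1)⟩
  -- the coefficient equations, denominators cleared
  have hyu : ∀ n : ℕ, u ^ n * y ^ n = 1 := fun n => by rw [← mul_pow, hu1, one_pow]
  have E1 : u * (V.a₁ : ℚ_[p]) = W.a₁ + 2 * D.s := by
    have := congrArg WeierstrassCurve.a₁ hD
    simp only [variableChange_a₁, map_a₁, eq_intCast, ← hy] at this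
    change _ = (V.a₁ : ℚ_[p]) at this
    linear_combination (-u) * this + ((W.a₁ : ℚ_[p]) + 2 * D.s) * hu1
  have E2 : u ^ 2 * (V.a₂ : ℚ_[p]) = W.a₂ - D.s * W.a₁ + 3 * D.r - D.s ^ 2 := by
    have := congrArg WeierstrassCurve.a₂ hD
    simp only [variableChange_a₂, map_a₁, map_a₂, eq_intCast, ← hy] at this
    change _ = (V.a₂ : ℚ_[p]) at this
    linear_combination (-u ^ 2) * this +
      ((W.a₂ : ℚ_[p]) - D.s * W.a₁ + 3 * D.r - D.s ^ 2) * hyu 2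
  have E3 : u ^ 3 * (V.a₃ : ℚ_[p]) = W.a₃ + D.r * W.a₁ + 2 * D.t := by
    have := congrArg WeierstrassCurve.a₃ hD
    simp only [variableChange_a₃, map_a₁, map_a₃, eq_intCast, ← hy] at this
    change _ = (V.a₃ : ℚ_[p]) at this
    linear_combination (-u ^ 3) * this + ((W.a₃ : ℚ_[p]) + D.r * W.a₁ + 2 * D.t) * hyu 3
  have E4 : u ^ 4 * (V.a₄ : ℚ_[p]) = W.a₄ - D.s * W.a₃ + 2 * D.r * W.a₂
      - (D.t + D.r * D.s) * W.a₁ + 3 * D.r ^ 2 - 2 * D.s * D.t := by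
    have := congrArg WeierstrassCurve.a₄ hD
    simp only [variableChange_a₄, map_a₁, map_a₂, map_a₃, map_a₄, eq_intCast, ← hy] at this
    change _ = (V.a₄ : ℚ_[p]) at this
    linear_combination (-u ^ 4) * this + ((W.a₄ : ℚ_[p]) - D.s * W.a₃ + 2 * D.r * W.a₂
      - (D.t + D.r * D.s) * W.a₁ + 3 * D.r ^ 2 - 2 * D.s * D.t) * hyu 4
  have E6 : u ^ 6 * (V.a₆ : ℚ_[p]) = W.a₆ + D.r * W.a₄ + D.r ^ 2 * W.a₂ + D.r ^ 3 - D.t * W.a₃
      - D.t ^ 2 - D.r * D.t * W.a₁ := by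
    have := congrArg WeierstrassCurve.a₆ hD
    simp only [variableChange_a₆, map_a₁, map_a₂, map_a₃, map_a₄, map_a₆, eq_intCast, ← hy] at this
    change _ = (V.a₆ : ℚ_[p]) at this
    linear_combination (-u ^ 6) * this + ((W.a₆ : ℚ_[p]) + D.r * W.a₄ + D.r ^ 2 * W.a₂ + D.r ^ 3
      - D.t * W.a₃ - D.t ^ 2 - D.r * D.t * W.a₁) * hyu 6
  -- the translations are integral
  obtain ⟨r, hr⟩ : ∃ r : ℤ_[p], (r : ℚ_[p]) = D.r := by
    refine (padic_int_or_inv D.r).resolve_right fun ⟨z, hz, e⟩ => hp.not_isUnit ?_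
    have e8 : u ^ 8 * (V.b₈ : ℚ_[p]) = W.b₈ + 3 * D.r * W.b₆ + 3 * D.r ^ 2 * W.b₄
        + D.r ^ 3 * W.b₂ + 3 * D.r ^ 4 := by
      have := congrArg WeierstrassCurve.b₈ hD
      simp only [variableChange_b₈, map_b₂, map_b₄, map_b₆, map_b₈, eq_intCast, ← hy] at this
      change _ = (V.b₈ : ℚ_[p]) at this
      linear_combination (-u ^ 8) * this + ((W.b₈ : ℚ_[p]) + 3 * D.r * W.b₆ + 3 * D.r ^ 2 * W.b₄
        + D.r ^ 3 * W.b₂ + 3 * D.r ^ 4) * hyu 8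
    have e6 : u ^ 6 * (V.b₆ : ℚ_[p]) = W.b₆ + 2 * D.r * W.b₄ + D.r ^ 2 * W.b₂ + 4 * D.r ^ 3 := by
      have := congrArg WeierstrassCurve.b₆ hD
      simp only [variableChange_b₆, map_b₂, map_b₄, map_b₆, eq_intCast, ← hy] at this
      change _ = (V.b₆ : ℚ_[p]) at this
      linear_combination (-u ^ 6) * this +
        ((W.b₆ : ℚ_[p]) + 2 * D.r * W.b₄ + D.r ^ 2 * W.b₂ + 4 * D.r ^ 3) * hyu 6
    have h3 : (3 : ℤ_[p]) = z * (u' ^ 8 * z ^ 3 * V.b₈ - (W.b₂ + 3 * z * W.b₄ + 3 * z ^ 2 * W.b₆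
        + z ^ 3 * W.b₈)) := inj (by
      push_cast [n2, n3, n4]
      rw [hu']
      set R := (D.r : ℚ_[p])
      set Z := (z : ℚ_[p])
      linear_combination (-(Z ^ 4)) * e8 -
        (3 * ((Z * R) ^ 3 + (Z * R) ^ 2 + Z * R + 1) +
          W.b₂ * Z * ((Z * R) ^ 2 + Z * R + 1) + 3 * W.b₄ * Z ^ 2 * (Z * R + 1) +
          3 * W.b₆ * Z ^ 3) * e)
    have h4 : (4 : ℤ_[p]) = z * (u' ^ 6 * z ^ 2 * V.b₆ - (W.b₂ + 2 * z * W.b₄
        + z ^ 2 * W.b₆)) := inj (by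
      push_cast [n2, n3, n4]
      rw [hu']
      set R := (D.r : ℚ_[p])
      set Z := (z : ℚ_[p])
      linear_combination (-(Z ^ 3)) * e6 -
        (4 * ((Z * R) ^ 2 + Z * R + 1) + W.b₂ * Z * (Z * R + 1) + 2 * W.b₄ * Z ^ 2) * e)
    have := dvd_sub (h4 ▸ hz.mul_right _ : (p : ℤ_[p]) ∣ 4) (h3 ▸ hz.mul_right _ : (p : ℤ_[p]) ∣ 3)
    norm_num at this
    exact isUnit_of_dvd_one this
  obtain ⟨s, hs⟩ : ∃ s : ℤ_[p], (s : ℚ_[p]) = D.s := by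
    refine (padic_int_or_inv D.s).resolve_right fun ⟨z, hz, e⟩ => hp.not_isUnit ?_
    refine isUnit_of_dvd_one ((?_ : (1 : ℤ_[p]) = z * (z * (W.a₂ + 3 * r - u' ^ 2 * V.a₂)
      - W.a₁)) ▸ hz.mul_right _)
    refine inj ?_
    push_cast [n3]
    rw [hu', hr]
    linear_combination ((z : ℚ_[p]) ^ 2) * E2 -
      ((z : ℚ_[p]) * D.s + 1 + W.a₁ * (z : ℚ_[p])) * e
  obtain ⟨t, ht⟩ : ∃ t : ℤ_[p], (t : ℚ_[p]) = D.t := by
    refine (padic_int_or_inv D.t).resolve_right fun ⟨z, hz, e⟩ => hp.not_isUnit ?_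
    refine isUnit_of_dvd_one ((?_ : (1 : ℤ_[p]) = z * (z * (W.a₆ + r * W.a₄ + r ^ 2 * W.a₂ + r ^ 3
      - u' ^ 6 * V.a₆) - (W.a₃ + r * W.a₁))) ▸ hz.mul_right _)
    refine inj ?_
    push_cast
    rw [hu', hr]
    linear_combination ((z : ℚ_[p]) ^ 2) * E6 -
      ((z : ℚ_[p]) * D.t + 1 + ((W.a₃ : ℚ_[p]) + D.r * W.a₁) * (z : ℚ_[p])) * e
  -- congruent integers
  have happ : ∀ x : ℤ_[p], ∃ n : ℤ, (p : ℤ_[p]) ^ 6 ∣ x - n := fun x =>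
    ⟨(x.appr 6 : ℕ), by simpa [Ideal.mem_span_singleton] using PadicInt.appr_spec 6 x⟩
  obtain ⟨r', hr'⟩ := happ r
  obtain ⟨s', hs'⟩ := happ s
  obtain ⟨t', ht'⟩ := happ t
  let q : ∀ i : ℕ, ℤ_[p] →+* ℤ_[p] ⧸ Ideal.span {(p : ℤ_[p]) ^ i} := fun i => Ideal.Quotient.mk _
  have hq : ∀ i ≤ 6, ∀ (x : ℤ_[p]) (n : ℤ), (p : ℤ_[p]) ^ 6 ∣ x - n → q i x = n := fun i hi x n h => by
    rw [← map_intCast (q i) n]
    exact Ideal.Quotient.eq.mpr (Ideal.mem_span_singleton.mpr ((pow_dvd_pow _ hi).trans h))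
  have hdvd : ∀ (i : ℕ) (n : ℤ) (N v : ℤ_[p]), q i N = n → u' ^ i * v = N → (p : ℤ) ^ i ∣ n :=
    fun i n N v hn hN => by
      have h0 : q i N = 0 := Ideal.Quotient.eq_zero_iff_mem.mpr (Ideal.mem_span_singleton.mpr
        (hN ▸ (pow_dvd_pow_of_dvd hu'p i).mul_right v))
      rw [h0, ← map_intCast (q i) n, eq_comm, Ideal.Quotient.eq_zero_iff_mem,
        Ideal.mem_span_singleton] at hn
      exact_mod_cast (PadicInt.pow_p_dvd_int_iff i n).mp hn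
  obtain ⟨w₁, h₁⟩ := hdvd 1 (W.a₁ + 2 * s') (W.a₁ + 2 * s) V.a₁
    (by simp [hq 1 (by norm_num) s s' hs', map_ofNat])
    (inj (by push_cast [n2, n3]; rw [hu', hs, pow_one]; exact E1))
  obtain ⟨w₂, h₂⟩ := hdvd 2 (W.a₂ - s' * W.a₁ + 3 * r' - s' ^ 2)
    (W.a₂ - s * W.a₁ + 3 * r - s ^ 2) V.a₂
    (by simp [hq 2 (by norm_num) s s' hs', hq 2 (by norm_num) r r' hr', map_ofNat])
    (inj (by push_cast [n2, n3]; rw [hu', hs, hr]; exact E2))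
  obtain ⟨w₃, h₃⟩ := hdvd 3 (W.a₃ + r' * W.a₁ + 2 * t') (W.a₃ + r * W.a₁ + 2 * t) V.a₃
    (by simp [hq 3 (by norm_num) r r' hr', hq 3 (by norm_num) t t' ht', map_ofNat])
    (inj (by push_cast [n2, n3]; rw [hu', hr, ht]; exact E3))
  obtain ⟨w₄, h₄⟩ := hdvd 4
    (W.a₄ - s' * W.a₃ + 2 * r' * W.a₂ - (t' + r' * s') * W.a₁ + 3 * r' ^ 2 - 2 * s' * t')
    (W.a₄ - s * W.a₃ + 2 * r * W.a₂ - (t + r * s) * W.a₁ + 3 * r ^ 2 - 2 * s * t) V.a₄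
    (by simp [hq 4 (by norm_num) r r' hr', hq 4 (by norm_num) s s' hs',
      hq 4 (by norm_num) t t' ht', map_ofNat])
    (inj (by push_cast [n2, n3]; rw [hu', hr, hs, ht]; exact E4))
  obtain ⟨w₆, h₆⟩ := hdvd 6
    (W.a₆ + r' * W.a₄ + r' ^ 2 * W.a₂ + r' ^ 3 - t' * W.a₃ - t' ^ 2 - r' * t' * W.a₁)
    (W.a₆ + r * W.a₄ + r ^ 2 * W.a₂ + r ^ 3 - t * W.a₃ - t ^ 2 - r * t * W.a₁) V.a₆
    (by simp [hq 6 le_rfl r r' hr', hq 6 le_rfl t t' ht'])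
    (inj (by push_cast [n2, n3]; rw [hu', hr, ht]; exact E6))
  have hp0 : (p : ℚ) ≠ 0 := Nat.cast_ne_zero.mpr (Fact.out : p.Prime).ne_zero
  let C : VariableChange ℚ := ⟨Units.mk0 (p : ℚ) hp0, r', s', t'⟩
  have hCW : C • W.map (Int.castRingHom ℚ) =
      (⟨w₁, w₂, w₃, w₄, w₆⟩ : WeierstrassCurve ℤ).map (Int.castRingHom ℚ) := by
    have g₁ := congrArg (Int.cast : ℤ → ℚ) h₁
    have g₂ := congrArg (Int.cast : ℤ → ℚ) h₂
    have g₃ := congrArg (Int.cast : ℤ → ℚ) h₃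
    have g₄ := congrArg (Int.cast : ℤ → ℚ) h₄
    have g₆ := congrArg (Int.cast : ℤ → ℚ) h₆
    push_cast at g₁ g₂ g₃ g₄ g₆
    ext <;>
      simp only [C, variableChange_a₁, variableChange_a₂, variableChange_a₃, variableChange_a₄,
        variableChange_a₆, map_a₁, map_a₂, map_a₃, map_a₄, map_a₆, eq_intCast,
        Units.val_inv_eq_inv_val, Units.val_mk0] <;>
      field_simp
    · linear_combination g₁
    · linear_combination g₂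
    · linear_combination g₃
    · linear_combination g₄
    · linear_combination g₆
  refine ⟨C, _, hCW, ?_⟩
  have h := congrArg WeierstrassCurve.Δ hCW
  rw [variableChange_Δ, map_Δ, map_Δ, eq_intCast, eq_intCast] at h
  simp only [C, Units.val_inv_eq_inv_val, Units.val_mk0] at h
  field_simp at h
  rw [mul_comm]
  exact_mod_cast h.symm

end FA.Root

end
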