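import Fermat.Agent.Ribet.SerreImage
import Fermat.Agent.RT.Tate.Limit
import Fermat.Agent.LocalDef.Unr

/-!
# Inertia at a multiplicative prime is nontrivial on every Tate module

If inertia at `q` fixed all the `p`-power torsion, the valuation of the abscissa of each of these
points would be an integral power of that of `q`, leaving finitely many classes modulo nonsingular
reduction, while a point of order `p` outside nonsingular reduction gives points with arbitrarily
many classes. This covers exponents divisible by `p` and `p = 2`.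
-/

set_option autoImplicit false
set_option linter.unusedSectionVars false
set_option linter.style.haveILetI false

noncomputable section

open Matrix WeierstrassCurve FA.EC FA.Frob FA.RT FA.RT.Tate
open FA.Local
open scoped WeierstrassCurve.Affine

local notation "Qb" => AlgebraicClosure ℚ
local notation "GQ" => AlgebraicClosure ℚ ≃ₐ[ℚ] AlgebraicClosure ℚ

namespace FA.OpenImage

variable {W : WeierstrassCurve ℤ} [(ratCurve W).IsElliptic] {q : ℕ} {A : ValuationSubring Qb}

local notation "EQ" => ((ratCurve W)⁄Qb)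

/-- The points fixed by inertia have finitely many classes modulo nonsingular reduction. -/
theorem exists_fixed_class {r : Qb} (N : NodeData W q A r) :
    ∃ f : Pts W → Option (Option (Fin (padicValInt q W.Δ + 1) × Bool)),
      ∀ P Q : Pts W, (∀ σ ∈ A.inertiaSubgroupIn ℚ, σ • P = P) →
        (∀ σ ∈ A.inertiaSubgroupIn ℚ, σ • Q = Q) → f P = f Q → P - Q ∈ N.e0Sub := by
  classical
  have hm := N.mult
  have hN := N.node
  set V := (toOrigin EQ r).toAffine with hV
  obtain ⟨s₀, hs₀⟩ := N.exists_branch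
  have hv0 : 0 < A.valuation (q : Qb) :=
    A.valuation.pos_iff.mpr (Nat.cast_ne_zero.mpr hm.prime.ne_zero)
  have ha : A.valuation V.a₄ ^ 2 = A.valuation (q : Qb) ^ padicValInt q W.Δ := by
    have hu : A.valuation (discB EQ r ^ 2 - 64 * V.a₄) = 1 := by
      have hB : A.valuation (discB EQ r ^ 2) = 1 := by
        rw [map_pow, ← toOrigin_disc,
          show A.valuation (V.a₁ ^ 2 + 4 * V.a₂) = 1 from hN.hdisc, one_pow]
      refine eq_one_of_sub_lt hB ?_
      rw [sub_sub_cancel_left, A.valuation.map_neg]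
      exact map_mul_lt_one (natCast_le_one 64) hN.hb
    have hΔ := congrArg A.valuation (toOrigin_Δ_eq (V := EQ) two_ne_zero N.root)
    rw [map_Δ_ratCurve, map_mul, map_pow, hu, mul_one,
      exists_valuation_eq_pow hm.prime hm.lies hm.ne_zero] at hΔ
    exact hΔ.symm
  have key : ∀ R : V.Point, ∃ c : Option (Option (Fin (padicValInt q W.Δ + 1) × Bool)),
      (∀ σ ∈ A.inertiaSubgroupIn ℚ, σ • originEquiv EQ r R = originEquiv EQ r R) →
      (c = none ∧ E0 A.valuation V R) ∨ (c = some none ∧ E0 A.valuation V (R + hN.T)) ∨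
        ∃ (k : Fin (padicValInt q W.Δ + 1)) (b : Bool) (g : _) (s : Qb),
          c = some (some (k, b)) ∧ Br A.valuation V R g s ∧ g = A.valuation (q : Qb) ^ k.1 ∧
            (b = true ↔ A.valuation (s - s₀) < 1) := by
    intro R
    by_cases hfix : ∀ σ ∈ A.inertiaSubgroupIn ℚ, σ • originEquiv EQ r R = originEquiv EQ r R
    swap
    · exact ⟨none, fun h => absurd h hfix⟩
    rcases R with _ | ⟨x, y, h⟩
    · exact ⟨none, fun _ => Or.inl ⟨rfl, trivial⟩⟩
    by_cases h1 : 1 ≤ A.valuation x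
    · exact ⟨none, fun _ => Or.inl ⟨rfl, h1⟩⟩
    by_cases h2 : A.valuation x ≤ A.valuation V.a₄
    · exact ⟨some none, fun _ => Or.inr (Or.inl ⟨rfl, hN.e0_add_T_of_le h h2⟩)⟩
    rw [not_le] at h1 h2
    have hbr := hN.br_self h h2 h1
    have hx : x ≠ 0 := A.valuation.pos_iff.mp (lt_of_le_of_lt zero_le h2)
    obtain ⟨hXY, hPe⟩ := originEquiv_some h
    obtain ⟨z, hz⟩ : ∃ z, fy (EQ).toAffine (x + r) (y + halfY EQ r) = z := ⟨_, rfl⟩
    have hb := hbr
    rw [br_some] at hb
    have hvz : A.valuation z = A.valuation x := by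
      rw [← hz, fy_origin two_ne_zero, fy, hN.h₃, add_zero,
        show 2 * y + V.a₁ * x = (2 * (y / x) + V.a₁) * x by field_simp, map_mul,
        hN.unit_root hb.2.2.2.2, one_mul]
    have hz0 : z ≠ 0 := A.valuation.pos_iff.mp (hvz ▸ A.valuation.pos_iff.mpr hx)
    obtain ⟨k, hk⟩ := FA.LocalDef.exists_zpow_of_mem_kur hm.prime hm.lies
      (FA.LocalDef.mem_kur.mpr fun σ hσ => by
        rw [← hz]
        exact FA.Ribet.smul_fy_of_smul_eq (hXY := hXY) (hPe ▸ hfix σ hσ)) hz0
    rw [hvz] at hk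
    obtain ⟨n, hn⟩ : ∃ n : ℕ, k = n := Int.eq_ofNat_of_zero_le (by
      by_contra hneg
      rw [hk] at h1
      exact absurd h1 (not_lt.mpr (one_le_zpow_of_nonpos₀ hv0 hm.map_lt_one.le (by omega))))
    rw [hn, zpow_natCast] at hk
    have hlt : n < padicValInt q W.Δ + 1 := by
      by_contra hge
      have h3 := pow_lt_pow_left₀ h2 zero_le two_ne_zero
      rw [ha, hk, ← pow_mul] at h3
      exact absurd h3 (not_lt.mpr (pow_le_pow_right_of_le_one' hm.map_lt_one.le (by omega)))
    exact ⟨some (some (⟨n, hlt⟩, decide (A.valuation (y / x - s₀) < 1))), fun _ => Or.inr (Or.inr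
      ⟨_, _, _, _, rfl, hbr, hk, decide_eq_true_iff⟩)⟩
  choose f hf using key
  refine ⟨fun P => f ((originEquiv EQ r).symm P), fun P Q hP hQ h => ?_⟩
  obtain ⟨P, rfl⟩ := (originEquiv EQ r).surjective P
  obtain ⟨Q, rfl⟩ := (originEquiv EQ r).surjective Q
  rw [← map_sub, N.mem_e0Sub]
  simp only [AddEquiv.symm_apply_apply] at h
  rcases hf P hP with ⟨hc, hP0⟩ | ⟨hc, hP0⟩ | ⟨i, b, g, s, hc, hbP, hg, hb⟩ <;>
    rcases hf Q hQ with ⟨hc', hQ0⟩ | ⟨hc', hQ0⟩ | ⟨i', b', g', s', hc', hbQ, hg', hb'⟩ <;>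
    rw [hc, hc'] at h <;> simp only [Option.some.injEq, reduceCtorEq] at h
  · exact hN.e0_sub hP0 hQ0
  · have := hN.e0_sub hP0 hQ0
    rwa [add_sub_add_right_eq_sub] at this
  simp only [Prod.mk.injEq] at h
  obtain ⟨rfl, rfl⟩ := h
  obtain rfl : g' = g := hg'.trans hg.symm
  have hs : A.valuation (qb V s) < 1 := by
    obtain ⟨a, c, hac, e⟩ := hbP.exists_eq
    have := hbP; rw [e, br_some] at this; exact this.2.2.2.2
  have hs' : A.valuation (qb V s') < 1 := by
    obtain ⟨a, c, hac, e⟩ := hbQ.exists_eq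
    have := hbQ; rw [e, br_some] at this; exact this.2.2.2.2
  have hss : A.valuation (s - s') < 1 := by
    by_cases hv : A.valuation (s - s₀) < 1
    · have := hb'.mp (hb.mpr hv)
      rw [show s - s' = (s - s₀) - (s' - s₀) by ring]; exact A.valuation.map_sub_lt hv this
    · have hv' : ¬ A.valuation (s' - s₀) < 1 := fun h' => hv (hb.mp (hb'.mpr h'))
      have a := (Node.root_cases hs₀ hs).resolve_left hv
      have c := (Node.root_cases hs₀ hs').resolve_left hv'
      rw [show s - s' = (s - (-V.a₁ - s₀)) - (s' - (-V.a₁ - s₀)) by ring]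
      exact A.valuation.map_sub_lt a c
  exact hN.sub_e0_of_br hbP (Node.br_congr hbQ hs (by rwa [A.valuation.map_sub_swap]))

variable {p : ℕ} [hp : Fact p.Prime]

/-- Some point killed by `p` lies outside nonsingular reduction, also for `p = 2`. -/
theorem exists_torsion_not_mem_e0_all {r : Qb} (N : NodeData W q A r) :
    ∃ P : Pts W, p • P = 0 ∧ P ∉ N.e0Sub := by
  rcases eq_or_ne p 2 with rfl | hp2
  · refine ⟨originEquiv EQ r N.node.T, ?_, ?_⟩
    · rw [← map_nsmul, N.node.two_nsmul_T, map_zero]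
    · rw [N.mem_e0Sub]; exact N.node.T_not_e0
  · exact FA.Ribet.exists_torsion_not_mem_e0 N hp2

/-- **Inertia at a multiplicative prime moves some `p`-power torsion.** -/
theorem exists_inertia_rep_ne_one (B : TateBasis p W) (hm : MultAt W q A) :
    ∃ σ ∈ A.inertiaSubgroupIn ℚ, B.rep σ ≠ 1 := by
  classical
  by_contra hall
  push Not at hall
  have hfix : ∀ (n : ℕ) (x : Pts W), p ^ n • x = 0 → ∀ σ ∈ A.inertiaSubgroupIn ℚ, σ • x = x :=
    fun n x hx σ hσ => by
      obtain ⟨v, rfl⟩ := B.surj n x hx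
      rw [B.rep_spec, hall σ hσ, one_mulVec]
  obtain ⟨r, N⟩ := exists_nodeData hm
  obtain ⟨P, hP, hP0⟩ := exists_torsion_not_mem_e0_all (p := p) N
  obtain ⟨f, hf⟩ := exists_fixed_class N
  obtain ⟨n, hn⟩ : ∃ n,
      Fintype.card (Option (Option (Fin (padicValInt q W.Δ + 1) × Bool))) = n := ⟨_, rfl⟩
  obtain ⟨v, rfl⟩ := B.surj 1 P (by rwa [pow_one])
  set Q := B.φ (1 + n) v
  have hQ : p ^ (1 + n) • Q = 0 := B.nsmul_phi _ _
  have hQP : p ^ n • Q = B.φ 1 v := B.pow_compat 1 n v
  obtain ⟨i, j, hij, he⟩ := Fintype.exists_ne_map_eq_of_card_lt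
    (fun k : Fin (p ^ (1 + n)) => f (k.1 • Q)) (by
      rw [Fintype.card_fin, hn]
      exact lt_of_lt_of_le (Nat.lt_pow_self hp.out.one_lt)
        (Nat.pow_le_pow_right hp.out.pos (by omega)))
  wlog hlt : i < j generalizing i j
  · exact this j i hij.symm he.symm (lt_of_le_of_ne (not_lt.mp hlt) hij.symm)
  have hd := hf (j.1 • Q) (i.1 • Q)
    (hfix (1 + n) _ (by rw [← mul_nsmul, mul_nsmul', hQ, nsmul_zero]))
    (hfix (1 + n) _ (by rw [← mul_nsmul, mul_nsmul', hQ, nsmul_zero])) he.symm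
  rw [sub_eq_add_neg, ← sub_nsmul Q hlt.le] at hd
  obtain ⟨t, u, hu, hd'⟩ := Nat.exists_eq_pow_mul_and_not_dvd
    (show j.1 - i.1 ≠ 0 by omega) p hp.out.ne_one
  have ht : t ≤ n := by
    by_contra hlt'
    have h1 : p ^ (1 + n) ∣ j.1 - i.1 :=
      hd' ▸ (pow_dvd_pow p (by omega : 1 + n ≤ t)).trans (dvd_mul_right _ _)
    have := Nat.le_of_dvd (by omega) h1
    have := j.2
    omega
  have huP : u • B.φ 1 v ∈ N.e0Sub := by
    have := N.e0Sub.nsmul_mem hd (p ^ (n - t))
    rw [hd', ← mul_nsmul', ← mul_assoc, ← pow_add, Nat.sub_add_cancel ht, mul_comm, mul_nsmul',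
      hQP] at this
    exact this
  obtain ⟨m, -, hm1⟩ := Nat.exists_mul_mod_eq_one_of_coprime
    ((hp.out.coprime_iff_not_dvd.mpr hu).symm) hp.out.one_lt
  refine hP0 ?_
  have := N.e0Sub.nsmul_mem huP m
  rwa [← mul_nsmul', mul_comm, ← Nat.mod_add_div (u * m) p, hm1, add_nsmul, one_nsmul, mul_nsmul,
    hP, nsmul_zero, add_zero] at this

end FA.OpenImage

end
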