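import Fermat.Agent.Root.Integral.Raise
import Fermat.Prelude.Thm_ModularForm_sturm_bound_Gamma0
import Fermat.Prelude.Thm_ModularForm_heckeT_slash_eq_self_of_mem_Gamma0
import Fermat.Agent.JTorsion.Eigen

/-!
# Atkin–Lehner operators on an eigenform of `U_q` with eigenvalue of square one

If `q ∤ M` and `U_q f = a f` with `a² = 1` for a cusp form `f` of weight two on `Γ₀(M q)`, then
`f ∣ W_q = -a f`. Indeed `G = f ∣ W_q + a f` is the trace of `f ∣ W_q` to level `M` and `U_q G` is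
the trace of `f`; hence all dilations `G (q^k τ)` have level `M`, so `G = 0` by the Sturm bound.
-/

set_option autoImplicit false

noncomputable section

open UpperHalfPlane ModularForm CongruenceSubgroup Filter Matrix
open scoped MatrixGroups Manifold Topology

namespace FA.Root.FuncEq

open FA.Period FA.LTInt

/-- An integral matrix with nonzero determinant as an element of `GL₂(ℝ)`. -/
def matR (X : Matrix (Fin 2) (Fin 2) ℤ) (h : X.det ≠ 0) : GL (Fin 2) ℝ :=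
  Matrix.GeneralLinearGroup.mkOfDetNeZero (X.map (Int.castRingHom ℝ)) (by
    rw [← RingHom.mapMatrix_apply, ← RingHom.map_det]
    simpa using h)

@[simp] theorem val_matR (X : Matrix (Fin 2) (Fin 2) ℤ) (h : X.det ≠ 0) :
    (matR X h : Matrix (Fin 2) (Fin 2) ℝ) = X.map (Int.castRingHom ℝ) := rfl

theorem matR_mul {X Y : Matrix (Fin 2) (Fin 2) ℤ} (hX : X.det ≠ 0) (hY : Y.det ≠ 0) :
    matR (X * Y) (by rw [det_mul]; exact mul_ne_zero hX hY) = matR X hX * matR Y hY := by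
  apply Units.ext
  rw [Units.val_mul, val_matR, val_matR, val_matR, Matrix.map_mul]

theorem matR_sl (γ : SL(2, ℤ)) (h : (γ : Matrix (Fin 2) (Fin 2) ℤ).det ≠ 0) :
    matR γ h = (γ : GL (Fin 2) ℝ) := by
  apply Units.ext
  rfl

/-- In weight two an integral scalar acts trivially. -/
theorem slash_matR_smul (f : ℍ → ℂ) {X : Matrix (Fin 2) (Fin 2) ℤ} (h : 0 < X.det) {n : ℤ}
    (hn : n ≠ 0) :
    f ∣[(2 : ℤ)] matR (n • X) (by rw [det_smul]; exact mul_ne_zero (pow_ne_zero _ hn) h.ne') =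
      f ∣[(2 : ℤ)] matR X h.ne' := by
  set g := matR X h.ne'
  set g' := matR (n • X) (by rw [det_smul]; exact mul_ne_zero (pow_ne_zero _ hn) h.ne')
  have hn' : (n : ℝ) ≠ 0 := Int.cast_ne_zero.mpr hn
  have hval : ∀ i j, g' i j = (n : ℝ) * g i j := fun i j => by
    show (((n • X) i j : ℤ) : ℝ) = (n : ℝ) * ((X i j : ℤ) : ℝ)
    rw [Matrix.smul_apply, smul_eq_mul, Int.cast_mul]
  have hd : (g.det : ℝ) = (X.det : ℝ) := by
    rw [Matrix.GeneralLinearGroup.val_det_apply, det_fin_two, det_fin_two]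
    simp [g]
  have hd' : (g'.det : ℝ) = (n : ℝ) ^ 2 * (g.det : ℝ) := by
    rw [Matrix.GeneralLinearGroup.val_det_apply, Matrix.GeneralLinearGroup.val_det_apply,
      det_fin_two, det_fin_two, hval, hval, hval, hval]
    ring
  have hpos : 0 < (g.det : ℝ) := by rw [hd]; exact_mod_cast h
  have hpos' : 0 < (g'.det : ℝ) := by rw [hd']; positivity
  funext τ
  have hnum : num g' τ = (n : ℂ) * num g τ := by simp only [num, hval]; push_cast; ring
  have hden : denom g' τ = (n : ℂ) * denom g τ := by simp only [denom, hval]; push_cast; ring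
  have hnC : (n : ℂ) ≠ 0 := Int.cast_ne_zero.mpr hn
  have hsmul : g' • τ = g • τ := by
    ext
    rw [coe_smul_of_det_pos hpos', coe_smul_of_det_pos hpos, hnum, hden,
      mul_div_mul_left _ _ hnC]
  simp only [slash_def, σ, if_pos hpos, hsmul, hden, hd', abs_mul,
    abs_of_nonneg (sq_nonneg (n : ℝ))]
  have hden0 : denom g τ ≠ 0 := denom_ne_zero g τ
  push_cast
  field_simp
  rw [if_pos (mul_pos (sq_pos_of_ne_zero hn') hpos)]
  ring

variable {M q : ℕ} {f : ℍ → ℂ}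

theorem slash_T_pow (f : ℍ → ℂ) (j : ℕ) (τ : ℍ) :
    (f ∣[(2 : ℤ)] (ModularGroup.T ^ j)) τ = f ((j : ℝ) +ᵥ τ) := by
  rw [SL_slash_apply, ← zpow_natCast, modular_T_zpow_smul]
  have hd : denom ((ModularGroup.T ^ (j : ℤ) : SL(2, ℤ)) : GL (Fin 2) ℝ) τ = 1 := by
    have h0 := ModularGroup.coe_T_zpow (j : ℤ)
    have e : ∀ i k, ((ModularGroup.T ^ (j : ℤ) : SL(2, ℤ)) : GL (Fin 2) ℝ) i k =
        (((ModularGroup.T ^ (j : ℤ) : SL(2, ℤ)).1 i k : ℤ) : ℝ) := fun _ _ => rfl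
    simp only [denom, e, h0]
    simp
  rw [hd, _root_.one_zpow, mul_one, Int.cast_natCast]

/-- `diag(q, 1)` followed by `τ ↦ (τ + j)/q` is `τ ↦ τ + j`. -/
theorem dilate_slash_heckeMatrix (hq : q ≠ 0) (f : ℍ → ℂ) (j : ℕ) :
    (f ∣[(2 : ℤ)] heckeDiagMatrix q) ∣[(2 : ℤ)] heckeMatrix q j =
      f ∣[(2 : ℤ)] (ModularGroup.T ^ j) := by
  funext τ
  rw [slash_T_pow, slash_heckeMatrix_apply 2 hq, slash_heckeDiagMatrix_apply 2 hq]
  have hq' : (q : ℂ) ≠ 0 := Nat.cast_ne_zero.mpr hq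
  have hz : heckeDiagMatrix q • heckeMatrix q j • τ = (j : ℝ) +ᵥ τ := by
    ext
    rw [coe_heckeDiagMatrix_smul hq, coe_heckeMatrix_smul hq, coe_vadd]
    field_simp
    push_cast
    ring
  rw [hz]
  field_simp
  norm_num

/-- `U_q` of a dilation. -/
theorem heckeU_dilate (hq : q ≠ 0) (hf : f ∈ cuspForms M 2) :
    heckeU 2 q (dilate q 2 f) = (q : ℂ) • f := by
  rw [heckeU_def, dilate]
  simp only [dilate_slash_heckeMatrix hq]
  rw [Finset.sum_congr rfl fun j _ =>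
    hf.1.1 (ModularGroup.T ^ j) (Subgroup.pow_mem _ (T_mem_Gamma0 M) j)]
  simp [Finset.sum_const, Nat.cast_smul_eq_nsmul]

theorem heckeT_mem_cuspForms [NeZero M] (hq : q.Prime) (hqM : ¬ q ∣ M)
    (hf : f ∈ cuspForms M 2) : heckeT 2 q f ∈ cuspForms M 2 := by
  have h := coe_mem_cuspForms (CuspForm.heckeTLin 2 hq hqM (toCuspForm' f hf))
  rwa [CuspForm.coe_heckeTLin_apply] at h

theorem qExp_iterate_dilate (hq : q ≠ 0) {G : ℍ → ℂ}
    (h : ∀ k, (dilate q 2)^[k] G ∈ cuspForms M 2) {k n : ℕ} (hn : ¬ q ^ k ∣ n) :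
    (qExp ((dilate q 2)^[k] G)).coeff n = 0 := by
  induction k generalizing n with
  | zero => exact absurd (one_dvd n) (by simp at hn)
  | succ k ih =>
    rw [Function.iterate_succ_apply', qExp_dilate hq (h k)]
    split_ifs with hd
    · rw [ih fun hd' => hn (by
        rw [pow_succ]; exact (Nat.dvd_div_iff_mul_dvd hd).mp hd' |> fun e => by rwa [mul_comm] at e),
        mul_zero]
    · rw [mul_zero]

/-- A form of level prime to `q` all of whose `q`-power dilations have that level is zero. -/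
theorem eq_zero_of_iterate_dilate [NeZero M] (hq : q.Prime) {G : ℍ → ℂ}
    (h : ∀ k, (dilate q 2)^[k] G ∈ cuspForms M 2) : G = 0 := by
  set b := ((2 : ℤ) * (Gamma0 M).index).toNat / 12
  set k := b + 1
  have hcast : (dilate q 2)^[k] G = 0 := by
    let F : CuspForm (Gamma0 M) 2 := toCuspForm' _ (h k)
    let F' : ModularForm (Gamma0 M) 2 :=
      { toSlashInvariantForm := F.toSlashInvariantForm
        holo' := F.holo'
        bdd_at_cusps' := fun hc γ hγ => (F.zero_at_cusps' hc γ hγ).isBoundedAtImInfty }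
    have hF : F' = 0 := ModularForm.sturm_bound_Gamma0 M F' fun n hn => by
      show (qExp ((dilate q 2)^[k] G)).coeff n = 0
      rcases Nat.eq_zero_or_pos n with rfl | hn0
      · exact ((isQFun_of_mem (h k).1).isZeroAtImInfty_iff).mp (by simpa using (h k).2 1)
      · refine qExp_iterate_dilate hq.ne_zero h fun hd => ?_
        have h1 := Nat.le_of_dvd hn0 hd
        have h2 : k < q ^ k := Nat.lt_pow_self hq.one_lt
        omega
    exact congrArg (fun e : ModularForm (Gamma0 M) 2 => (e : ℍ → ℂ)) hF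
  have hinj : Function.Injective (dilate q 2) := fun a b e => by
    have h1 := congrArg (fun u : ℍ → ℂ => u ∣[(2 : ℤ)] (heckeDiagMatrix q)⁻¹) e
    simpa [dilate, ← SlashAction.slash_mul] using h1
  have h0 : (dilate q 2)^[k] (0 : ℍ → ℂ) = 0 := by
    induction k with
    | zero => rfl
    | succ k ih => rw [Function.iterate_succ_apply', ih, dilate, SlashAction.zero_slash]
  exact hinj.iterate k (hcast.trans h0.symm)

/-- If `G` and `U_q G` both have level `M` prime to `q`, then `G = 0`. -/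
theorem eq_zero_of_heckeU_mem [NeZero M] (hq : q.Prime) (hqM : ¬ q ∣ M) {G : ℍ → ℂ}
    (hG : G ∈ cuspForms M 2) (hU : heckeU 2 q G ∈ cuspForms M 2) : G = 0 := by
  refine eq_zero_of_iterate_dilate (M := M) hq fun k => ?_
  have h1 : dilate q 2 G ∈ cuspForms M 2 := by
    have := sub_mem (heckeT_mem_cuspForms hq hqM hG) hU
    rwa [heckeT_eq_heckeU_add, add_sub_cancel_left] at this
  induction k using Nat.twoStepInduction with
  | zero => exact hG
  | one => exact h1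
  | more k ih0 ih1 =>
    rw [Function.iterate_succ_apply'] at ih1
    have h := sub_mem (heckeT_mem_cuspForms hq hqM ih1)
      (Submodule.smul_mem _ (q : ℂ) ih0)
    rw [heckeT_eq_heckeU_add, heckeU_dilate hq.ne_zero ih0, add_sub_cancel_left] at h
    rw [Function.iterate_succ_apply', Function.iterate_succ_apply']
    exact h

section AtkinLehner

variable (M q)

/-- The data of an Atkin–Lehner matrix at `q`: `γ₀ = [x y; M z, q w]` of determinant one. -/
structure ALData where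
  x : ℤ
  y : ℤ
  z : ℤ
  w : ℤ
  det_eq : x * (q * w) - y * (M * z) = 1

theorem exists_alData (hq : q.Prime) (hqM : ¬ q ∣ M) : Nonempty (ALData M q) := by
  obtain ⟨u, v, h⟩ : IsCoprime (q : ℤ) (M : ℤ) := by
    rw [Int.isCoprime_iff_gcd_eq_one, Int.gcd_natCast_natCast]
    exact hq.coprime_iff_not_dvd.2 hqM
  exact ⟨⟨u, -v, 1, 1, by linear_combination h⟩⟩

variable {M q} (d : ALData M q)

/-- `γ₀`. -/
def ALData.gam : SL(2, ℤ) := ⟨!![d.x, d.y; M * d.z, q * d.w], by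
  rw [det_fin_two_of]; exact d.det_eq⟩

theorem ALData.gam_mem : d.gam ∈ Gamma0 M := by
  rw [Gamma0_mem]; simp [ALData.gam]

/-- The matrix `γ₀ diag(q, 1)` of `W_q`. -/
def ALData.mat : Matrix (Fin 2) (Fin 2) ℤ := !![q * d.x, d.y; q * (M * d.z), q * d.w]

theorem ALData.det_mat : d.mat.det = q := by
  rw [ALData.mat, det_fin_two_of]; linear_combination (q : ℤ) * d.det_eq

/-- The Atkin–Lehner operator `f ↦ f ∣ W_q`. -/
def ALData.op (f : ℍ → ℂ) : ℍ → ℂ := dilate q 2 (f ∣[(2 : ℤ)] d.gam)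

theorem ALData.op_eq (hq : q ≠ 0) (f : ℍ → ℂ) : d.op f =
    f ∣[(2 : ℤ)] matR d.mat (by rw [d.det_mat]; exact_mod_cast hq) := by
  rw [ALData.op, dilate, SL_slash, ← SlashAction.slash_mul]
  congr 1
  apply Units.ext
  rw [Units.val_mul, val_heckeDiagMatrix hq, val_matR]
  have e : ((d.gam : GL (Fin 2) ℝ) : Matrix (Fin 2) (Fin 2) ℝ) =
      d.gam.1.map (Int.castRingHom ℝ) := rfl
  rw [e]
  ext i j
  fin_cases i <;> fin_cases j <;> simp [ALData.gam, ALData.mat, Matrix.mul_apply] <;> ring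

theorem ALData.op_mem (hq : q ≠ 0) (hf : f ∈ cuspForms (M * q) 2) :
    d.op f ∈ cuspForms (M * q) 2 := by
  have hz : ∀ δ : SL(2, ℤ), IsZeroAtImInfty (d.op f ∣[(2 : ℤ)] δ) := fun δ => by
    obtain ⟨γ, a, b, e, had, -, -, hfac, -⟩ := exists_factor hq δ
    rw [SL_slash, ALData.op, dilate, ← SlashAction.slash_mul, hfac, SlashAction.slash_mul,
      ← SL_slash, ← SlashAction.slash_mul]
    exact IsZeroAtImInfty.slash 2 (upperTriangularGL_apply_one_zero _ _ _ had)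
      (hf.2 (d.gam * γ))
  refine ⟨⟨fun γ hγ => ?_, (hf.1.2.1.slash 2 _).slash 2 _, fun δ => (hz δ).isBoundedAtImInfty⟩,
    hz⟩
  obtain ⟨c, hc⟩ : ((M * q : ℕ) : ℤ) ∣ γ.1 1 0 := by
    rw [← ZMod.intCast_zmod_eq_zero_iff_dvd]; exact Gamma0_mem.mp hγ
  push_cast at hc
  have hdet : γ.1 0 0 * γ.1 1 1 - γ.1 0 1 * γ.1 1 0 = 1 := by
    rw [← det_fin_two]; exact γ.2
  have hd := d.det_eq
  let γ' : SL(2, ℤ) := ⟨!![(q * d.x * γ.1 0 0 + d.y * γ.1 1 0) * d.w -
      (q * d.x * γ.1 0 1 + d.y * γ.1 1 1) * (M * d.z),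
    -d.y * d.x * γ.1 0 0 - d.y ^ 2 * M * c + d.x * (q * d.x * γ.1 0 1 + d.y * γ.1 1 1);
    q * (M * (d.w * d.z * γ.1 0 0 + d.w ^ 2 * q * c - d.z * (M * d.z * γ.1 0 1 + d.w * γ.1 1 1))),
    -d.y * (M * d.z * γ.1 0 0 + d.w * γ.1 1 0) +
      q * d.x * (M * d.z * γ.1 0 1 + d.w * γ.1 1 1)], by
    rw [det_fin_two_of]
    rw [hc] at hdet ⊢
    linear_combination ((γ.1 0 0 * γ.1 1 1 - γ.1 0 1 * (M * q * c)) *
      ((d.x * (q * d.w) - d.y * (M * d.z)) + 1)) * hd + hdet⟩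
  have hγ' : γ' ∈ Gamma0 (M * q) := by
    rw [Gamma0_mem, ZMod.intCast_zmod_eq_zero_iff_dvd]
    exact ⟨d.w * d.z * γ.1 0 0 + d.w ^ 2 * q * c - d.z * (M * d.z * γ.1 0 1 + d.w * γ.1 1 1), by
      simp [γ']; ring⟩
  have hW : d.mat.det ≠ 0 := by rw [d.det_mat]; exact_mod_cast hq
  have hγ1 : (γ : Matrix (Fin 2) (Fin 2) ℤ).det ≠ 0 := by rw [γ.det_coe]; norm_num
  have hγ2 : (γ' : Matrix (Fin 2) (Fin 2) ℤ).det ≠ 0 := by rw [γ'.det_coe]; norm_num
  have e : matR d.mat hW * matR (γ : Matrix (Fin 2) (Fin 2) ℤ) hγ1 =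
      matR (γ' : Matrix (Fin 2) (Fin 2) ℤ) hγ2 * matR d.mat hW := by
    apply Units.ext
    rw [Units.val_mul, Units.val_mul, val_matR, val_matR, val_matR, ← Matrix.map_mul,
      ← Matrix.map_mul]
    congr 1
    ext i j
    fin_cases i <;> fin_cases j <;> simp [γ', ALData.mat, Matrix.mul_apply, hc]
    · linear_combination (-(q * d.x * γ.1 0 0 + d.y * (M * q * c))) * hd
    · linear_combination (-(q * d.x * γ.1 0 1 + d.y * γ.1 1 1)) * hd
    · linear_combination (-(q * (M * d.z * γ.1 0 0 + d.w * (M * q * c)))) * hd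
    · linear_combination (-(q * (M * d.z * γ.1 0 1 + d.w * γ.1 1 1))) * hd
  rw [d.op_eq hq, SL_slash, ← SlashAction.slash_mul, ← matR_sl γ hγ1, e, SlashAction.slash_mul,
    matR_sl γ' hγ2, ← SL_slash, hf.1.1 γ' hγ']

theorem ALData.op_op (hq : q ≠ 0) (hf : f ∈ cuspForms (M * q) 2) : d.op (d.op f) = f := by
  have hd := d.det_eq
  have hW : d.mat.det ≠ 0 := by rw [d.det_mat]; exact_mod_cast hq
  let δ : SL(2, ℤ) := ⟨!![q * d.x ^ 2 + M * d.y * d.z, d.y * (d.x + d.w);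
    q * (M * d.z) * (d.x + d.w), M * d.y * d.z + q * d.w ^ 2], by
    rw [det_fin_two_of]
    linear_combination ((d.x * (q * d.w) - d.y * (M * d.z)) + 1) * hd⟩
  have hδ : δ ∈ Gamma0 (M * q) := by
    rw [Gamma0_mem, ZMod.intCast_zmod_eq_zero_iff_dvd]
    exact ⟨d.z * (d.x + d.w), by simp [δ]; ring⟩
  have hδ1 : (δ : Matrix (Fin 2) (Fin 2) ℤ).det ≠ 0 := by rw [δ.det_coe]; norm_num
  have e : d.mat * d.mat = (q : ℤ) • (δ : Matrix (Fin 2) (Fin 2) ℤ) := by
    ext i j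
    fin_cases i <;> fin_cases j <;> simp [δ, ALData.mat, Matrix.mul_apply] <;> ring
  rw [d.op_eq hq, d.op_eq hq, ← SlashAction.slash_mul, ← matR_mul hW hW]
  simp only [e]
  rw [slash_matR_smul f (by rw [δ.det_coe]; norm_num) (Int.natCast_ne_zero.mpr hq), matR_sl δ hδ1, ← SL_slash, hf.1.1 δ hδ]

theorem ALData.heckeU_op (hq : q ≠ 0) (h : ℍ → ℂ) :
    heckeU 2 q (d.op h) = ∑ j ∈ Finset.range q, h ∣[(2 : ℤ)] (d.gam * ModularGroup.T ^ j) := by
  rw [heckeU_def, ALData.op, dilate]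
  exact Finset.sum_congr rfl fun j _ => by
    rw [dilate_slash_heckeMatrix hq, SlashAction.slash_mul]

/-- The representatives of `Γ₀(M q) \ Γ₀(M)`. -/
def ALData.cosetRep : Option (Fin q) → SL(2, ℤ)
  | none => 1
  | some j => d.gam * ModularGroup.T ^ (j : ℕ)

theorem ALData.cosetRep_mem : ∀ i, d.cosetRep i ∈ Gamma0 M
  | none => one_mem _
  | some _ => mul_mem d.gam_mem (Subgroup.pow_mem _ (T_mem_Gamma0 M) _)

theorem mul_inv_mem_iff {α β : SL(2, ℤ)} (hqM : Nat.Coprime M q) (hα : α ∈ Gamma0 M)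
    (hβ : β ∈ Gamma0 M) :
    α * β⁻¹ ∈ Gamma0 (M * q) ↔ (q : ℤ) ∣ α.1 1 0 * β.1 1 1 - α.1 1 1 * β.1 1 0 := by
  have he : (α * β⁻¹).1 1 0 = α.1 1 0 * β.1 1 1 - α.1 1 1 * β.1 1 0 := by
    rw [Matrix.SpecialLinearGroup.coe_mul, Matrix.SpecialLinearGroup.coe_inv, adjugate_fin_two]
    simp [Matrix.mul_apply]
    ring
  have hM : (M : ℤ) ∣ (α * β⁻¹).1 1 0 := by
    rw [← ZMod.intCast_zmod_eq_zero_iff_dvd]
    exact Gamma0_mem.mp (mul_mem hα (inv_mem hβ))
  rw [Gamma0_mem, ZMod.intCast_zmod_eq_zero_iff_dvd, ← he, Nat.cast_mul]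
  exact ⟨fun h => dvd_trans (dvd_mul_left _ _) h,
    fun h => (Nat.isCoprime_iff_coprime.mpr hqM).mul_dvd hM h⟩

theorem ALData.rep_some (j : Fin q) :
    (d.cosetRep (some j)).1 1 0 = M * d.z ∧
      (d.cosetRep (some j)).1 1 1 = M * d.z * (j : ℕ) + q * d.w := by
  show (d.gam * ModularGroup.T ^ (j : ℕ)).1 1 0 = _ ∧ (d.gam * ModularGroup.T ^ (j : ℕ)).1 1 1 = _
  rw [← zpow_natCast, Matrix.SpecialLinearGroup.coe_mul, ModularGroup.coe_T_zpow]
  constructor <;> simp [ALData.gam, Matrix.mul_apply]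

theorem ALData.not_dvd_Mz (hq : q.Prime) : ¬ (q : ℤ) ∣ M * d.z := fun h => by
  have h1 : (q : ℤ) ∣ d.x * (q * d.w) - d.y * (M * d.z) :=
    dvd_sub ((dvd_mul_right _ _).mul_left _) (h.mul_left _)
  rw [d.det_eq] at h1
  exact (Nat.prime_iff_prime_int.mp hq).not_dvd_one h1

theorem ALData.exists_rep (hq : q.Prime) (hqM : ¬ q ∣ M) {g : SL(2, ℤ)} (hg : g ∈ Gamma0 M) :
    ∃ i, g * (d.cosetRep i)⁻¹ ∈ Gamma0 (M * q) := by
  have hc := (hq.coprime_iff_not_dvd.2 hqM).symm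
  have := Fact.mk hq
  by_cases h0 : (q : ℤ) ∣ g.1 1 0
  · refine ⟨none, (mul_inv_mem_iff hc hg (d.cosetRep_mem none)).mpr ?_⟩
    simpa [ALData.cosetRep] using h0
  · rw [← ZMod.intCast_zmod_eq_zero_iff_dvd] at h0
    refine ⟨some ⟨((g.1 1 1 : ZMod q) * (g.1 1 0 : ZMod q)⁻¹).val, ZMod.val_lt _⟩,
      (mul_inv_mem_iff hc hg (d.cosetRep_mem _)).mpr ?_⟩
    obtain ⟨e1, e2⟩ := d.rep_some ⟨((g.1 1 1 : ZMod q) * (g.1 1 0 : ZMod q)⁻¹).val, ZMod.val_lt _⟩
    rw [e1, e2, ← ZMod.intCast_zmod_eq_zero_iff_dvd]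
    push_cast
    rw [ZMod.natCast_zmod_val, ZMod.natCast_self]
    linear_combination ((M : ZMod q) * (d.z : ZMod q) * (g.1 1 1 : ZMod q)) *
      mul_inv_cancel₀ h0

theorem ALData.rep_inj (hq : q.Prime) (hqM : ¬ q ∣ M) {i i' : Option (Fin q)}
    (h : d.cosetRep i * (d.cosetRep i')⁻¹ ∈ Gamma0 (M * q)) : i = i' := by
  have hc := (hq.coprime_iff_not_dvd.2 hqM).symm
  rw [mul_inv_mem_iff hc (d.cosetRep_mem i) (d.cosetRep_mem i')] at h
  have hp := Nat.prime_iff_prime_int.mp hq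
  have hnz := d.not_dvd_Mz hq
  rcases i with _ | j <;> rcases i' with _ | j'
  · rfl
  · obtain ⟨e1, -⟩ := d.rep_some j'
    rw [e1] at h
    exact absurd (by simpa [ALData.cosetRep] using h) hnz
  · obtain ⟨e1, -⟩ := d.rep_some j
    rw [e1] at h
    exact absurd (by simpa [ALData.cosetRep] using h) hnz
  · rw [(d.rep_some j).1, (d.rep_some j).2, (d.rep_some j').1, (d.rep_some j').2,
      show (M : ℤ) * d.z * (M * d.z * (j' : ℕ) + q * d.w) -
        (M * d.z * (j : ℕ) + q * d.w) * (M * d.z) =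
          M * d.z * (M * d.z * (((j' : ℕ) : ℤ) - (j : ℕ))) by ring] at h
    have h2 := ((hp.dvd_mul.mp ((hp.dvd_mul.mp h).resolve_left hnz)).resolve_left hnz)
    rw [← ZMod.intCast_zmod_eq_zero_iff_dvd, Int.cast_sub, sub_eq_zero, Int.cast_natCast,
      Int.cast_natCast, ZMod.natCast_eq_natCast_iff', Nat.mod_eq_of_lt j'.2,
      Nat.mod_eq_of_lt j.2] at h2
    exact congrArg some (Fin.ext h2.symm)

/-- The trace to level `M`. -/
def ALData.trace (h : ℍ → ℂ) : ℍ → ℂ := ∑ i, h ∣[(2 : ℤ)] d.cosetRep i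

theorem ALData.trace_mem (hq : q.Prime) (hqM : ¬ q ∣ M) {h : ℍ → ℂ}
    (hh : h ∈ cuspForms (M * q) 2) : d.trace h ∈ cuspForms M 2 := by
  classical
  have hsum : ∀ δ : SL(2, ℤ), d.trace h ∣[(2 : ℤ)] δ =
      ∑ i, h ∣[(2 : ℤ)] (d.cosetRep i * δ) := fun δ => by
    simp [ALData.trace, SlashAction.sum_slash, SlashAction.slash_mul]
  have hz : ∀ δ : SL(2, ℤ), IsZeroAtImInfty (d.trace h ∣[(2 : ℤ)] δ) := fun δ => by
    rw [hsum]
    exact Finset.sum_induction _ IsZeroAtImInfty (fun a b ha hb => by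
      simpa [IsZeroAtImInfty, ZeroAtFilter] using ha.add hb) tendsto_const_nhds
      fun i _ => hh.2 _
  refine ⟨⟨fun γ hγ => ?_, ?_, fun δ => (hz δ).isBoundedAtImInfty⟩, hz⟩
  · choose π hπ using fun i => d.exists_rep hq hqM (mul_mem (d.cosetRep_mem i) hγ)
    have hinj : Function.Injective π := fun i i' e => d.rep_inj hq hqM (by
      have := mul_mem (hπ i) (inv_mem (hπ i'))
      rwa [e, show d.cosetRep i * γ * (d.cosetRep (π i'))⁻¹ *
        (d.cosetRep i' * γ * (d.cosetRep (π i'))⁻¹)⁻¹ = d.cosetRep i * (d.cosetRep i')⁻¹ by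
          group] at this)
    rw [hsum]
    refine (Finset.sum_congr rfl fun i _ => ?_).trans
      ((Finite.injective_iff_bijective.mp hinj).sum_comp fun i => h ∣[(2 : ℤ)] d.cosetRep i)
    rw [show d.cosetRep i * γ = d.cosetRep i * γ * (d.cosetRep (π i))⁻¹ * d.cosetRep (π i) by group,
      SlashAction.slash_mul, hh.1.1 _ (hπ i)]
  · rw [ALData.trace]
    exact Finset.sum_induction _ (fun F : ℍ → ℂ => MDiff F) (fun a b ha hb => MDifferentiable.add ha hb) mdifferentiable_const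
      fun i _ => hh.1.2.1.slash 2 _

theorem ALData.trace_eq (hq : q ≠ 0) (h : ℍ → ℂ) :
    d.trace h = h + heckeU 2 q (d.op h) := by
  rw [ALData.trace, Fintype.sum_option, d.heckeU_op hq,
    Finset.sum_range (fun j => h ∣[(2 : ℤ)] (d.gam * ModularGroup.T ^ j))]
  congr 1
  exact SlashAction.slash_one 2 h

/-- **The Atkin–Lehner eigenvalue is `-a_q`.** -/
theorem ALData.op_eq_of_heckeU [NeZero M] (hq : q.Prime) (hqM : ¬ q ∣ M)
    (hf : f ∈ cuspForms (M * q) 2) {a : ℂ} (ha : a ^ 2 = 1) (hU : heckeU 2 q f = a • f) :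
    d.op f = (-a) • f := by
  have hG : d.trace (d.op f) = d.op f + a • f := by
    rw [d.trace_eq hq.ne_zero, d.op_op hq.ne_zero hf, hU]
  have hG1 : d.op f + a • f ∈ cuspForms M 2 := hG ▸ d.trace_mem hq hqM (d.op_mem hq.ne_zero hf)
  have hG2 : heckeU 2 q (d.op f + a • f) ∈ cuspForms M 2 := by
    have e : heckeU 2 q (d.op f + a • f) = d.trace f := by
      rw [d.trace_eq hq.ne_zero, heckeU_add, heckeU_smul, hU, smul_smul, ← sq, ha, one_smul,
        add_comm]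
    exact e ▸ d.trace_mem hq hqM hf
  funext τ
  rw [Pi.smul_apply, smul_eq_mul, neg_mul, eq_neg_iff_add_eq_zero]
  refine congrFun (?_ : d.op f + a • f = 0) τ
  exact eq_zero_of_heckeU_mem hq hqM hG1 hG2

end AtkinLehner

end FA.Root.FuncEq

end
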