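import Fermat.Agent.Root.Chain
import Fermat.Agent.Root.AuxPrime
import Fermat.Agent.RT.LiftSetting
import Fermat.Agent.RT.Tower.Lift

/-!
# The data of modularity lifting at `3` and `5` from a congruent curve

The primes with a condition, the removable primes among them, the levels of the two curves and
their points.
-/

set_option autoImplicit false
set_option linter.style.haveILetI false
set_option linter.unusedSectionVars false

noncomputable section

open IsLocalRing Matrix WeierstrassCurve FA.RT FA.Deform FA.TW FA.Frob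
open FA.Theta (badProd)

namespace FA.Root

local notation "M2" => Matrix (Fin 2) (Fin 2)
local notation "Qb" => AlgebraicClosure ℚ
local notation "GQ" => AlgebraicClosure ℚ ≃ₐ[ℚ] AlgebraicClosure ℚ

/-- Curves with the same torsion have conjugate representations. -/
theorem exists_conj_of_torsIso {p : ℕ} [Fact p.Prime] {W W' : WeierstrassCurve ℤ}
    [(FA.Frob.ratCurve W).IsElliptic] [(FA.Frob.ratCurve W').IsElliptic]
    (h : FA.Switch.TorsIso p (FA.Frob.ratCurve W) (FA.Frob.ratCurve W')) :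
    ∃ U : M2 (ZMod p), IsUnit U ∧ ∀ σ, U * curveRep p W σ = curveRep p W' σ * U := by
  obtain ⟨e₀, he₀⟩ := h.exists_linearEquiv
  let R := residualRep p (FA.Frob.ratCurve W)
  let R' := residualRep p (FA.Frob.ratCurve W')
  let e : R.V ≃ₗ[ZMod p] R'.V := e₀
  have he : ∀ σ, e.toLinearMap ∘ₗ R.ρ σ = R'.ρ σ ∘ₗ e.toLinearMap := fun σ =>
    LinearMap.ext fun x =>
      ((congrArg (fun y => e₀ (Affine.Point.galoisRepModuleEnd (K := Qb) ℚ
        (FA.Frob.ratCurve W).toAffine p σ y)) (e₀.symm_apply_apply x)).symm.trans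
        ((LinearEquiv.conj_apply_apply e₀ _ (e₀ x)).symm.trans
          (LinearMap.congr_fun (he₀ σ) (e₀ x))))
  let b := resBasis R
  let b' := resBasis R'
  refine ⟨LinearMap.toMatrix b b' e.toLinearMap, ?_, fun σ => ?_⟩
  · refine ⟨⟨LinearMap.toMatrix b b' e.toLinearMap, LinearMap.toMatrix b' b e.symm.toLinearMap,
      ?_, ?_⟩, rfl⟩
    · rw [← LinearMap.toMatrix_comp b' b b']; simp
    · rw [← LinearMap.toMatrix_comp b b' b]; simp
  · show LinearMap.toMatrix b b' e.toLinearMap * LinearMap.toMatrix b b (R.ρ σ) =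
      LinearMap.toMatrix b' b' (R'.ρ σ) * LinearMap.toMatrix b b' e.toLinearMap
    rw [← LinearMap.toMatrix_comp b b b', ← LinearMap.toMatrix_comp b b' b', he σ]

/-- The auxiliary prime of a pair of curves. -/
structure LiftAux (p : ℕ) (W W' : WeierstrassCurve ℤ) (r : ℕ) : Prop where
  prime : r.Prime
  ne : r ≠ p
  good : W.IsGoodPrimeFor r
  good' : W'.IsGoodPrimeFor r
  cast_eq : (r : ZMod p) = -1
  trace_ne : (W.apOfModel r : ZMod p) ≠ 0

/-- Auxiliary primes exist. -/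
theorem exists_liftAux {p : ℕ} [Fact p.Prime] {W W' : WeierstrassCurve ℤ}
    [(FA.Frob.ratCurve W).IsElliptic] (hΔ : W.Δ ≠ 0) (hΔ' : W'.Δ ≠ 0) (hW : W.IsSemistableModel)
    (hp2 : p ≠ 2) (hirr : W.ModRepIsIrreducible p) : ∃ r, LiftAux p W W' r := by
  obtain ⟨r, hr, hrS, hrp, hg, hc, ht⟩ :=
    exists_aux_prime hΔ hW hp2 hirr W'.Δ.natAbs.primeFactors
  exact ⟨r, hr, hrp, hg, fun h => hrS (Nat.mem_primeFactors.mpr
    ⟨hr, Int.natCast_dvd.mp h, Int.natAbs_ne_zero.mpr hΔ'⟩), hc, ht⟩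

/-- The primes with a condition. -/
def sigSet (p : ℕ) (W W' : WeierstrassCurve ℤ) (r : ℕ) : Finset ℕ :=
  insert r ((W.Δ.natAbs.primeFactors ∪ W'.Δ.natAbs.primeFactors).erase p)

theorem sigSet_spec {p : ℕ} {W W' : WeierstrassCurve ℤ} {r : ℕ} (h : LiftAux p W W' r) :
    ∀ q ∈ sigSet p W W' r, q.Prime ∧ q ≠ p := by
  intro q hq
  rcases Finset.mem_insert.mp hq with rfl | hq
  · exact ⟨h.prime, h.ne⟩
  obtain ⟨hqp, hq⟩ := Finset.mem_erase.mp hq
  rcases Finset.mem_union.mp hq with hq | hq <;>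
    exact ⟨Nat.prime_of_mem_primeFactors hq, hqp⟩

theorem mem_sigSet_of_dvd {p : ℕ} {W W' : WeierstrassCurve ℤ} {r q : ℕ} (hΔ : W.Δ ≠ 0)
    (hΔ' : W'.Δ ≠ 0) (hq : q.Prime) (hqp : q ≠ p)
    (h : (q : ℤ) ∣ W.Δ ∨ (q : ℤ) ∣ W'.Δ) : q ∈ sigSet p W W' r := by
  refine Finset.mem_insert_of_mem (Finset.mem_erase.mpr ⟨hqp, Finset.mem_union.mpr ?_⟩)
  exact h.imp
    (fun h => Nat.mem_primeFactors.mpr ⟨hq, Int.natCast_dvd.mp h, Int.natAbs_ne_zero.mpr hΔ⟩)
    (fun h => Nat.mem_primeFactors.mpr ⟨hq, Int.natCast_dvd.mp h, Int.natAbs_ne_zero.mpr hΔ'⟩)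

section setup

variable {O : Type} [CommRing O] [IsDomain O] [IsDiscreteValuationRing O]
  [IsAdicComplete (maximalIdeal O) O] (S : Setup O) (r : ℕ)

/-- The removable primes. -/
abbrev Rem : Type := {q : ↥S.Sig // q.1 ≠ r ∧ S.rb (S.tame q) = 1}

instance : DecidableEq (Rem S r) := Classical.decEq _

/-- The primes in every level, other than `p`. -/
def fixSet : Finset ℕ := by
  classical
  exact (Finset.univ.filter fun q : ↥S.Sig => q.1 = r ∨ S.rb (S.tame q) ≠ 1).image Subtype.val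

instance : Fintype (Rem S r) := Fintype.ofFinite _

/-- The removable primes of a curve. -/
def topSet (W : WeierstrassCurve ℤ) : Finset (Rem S r) := by
  classical
  exact Finset.univ.filter fun x => (x.1.1 : ℤ) ∣ W.Δ

theorem mem_topSet {W : WeierstrassCurve ℤ} {x : Rem S r} :
    x ∈ topSet S r W ↔ (x.1.1 : ℤ) ∣ W.Δ := by
  simp [topSet]

theorem mem_fixSet {q : ℕ} :
    q ∈ fixSet S r ↔ ∃ h : q ∈ S.Sig, q = r ∨ S.rb (S.tame ⟨q, h⟩) ≠ 1 := by
  classical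
  simp only [fixSet, Finset.mem_image, Finset.mem_filter, Finset.mem_univ, true_and]
  constructor
  · rintro ⟨⟨q, h⟩, hq, rfl⟩
    exact ⟨h, hq⟩
  · rintro ⟨h, hq⟩
    exact ⟨⟨q, h⟩, hq, rfl⟩

/-- The level of a set of removable primes, without the factor at `p`. -/
def lvl (U : Finset (Rem S r)) : ℕ := (∏ q ∈ fixSet S r, q) * ∏ x ∈ U, x.1.1

theorem rem_not_dvd_fix (x : Rem S r) : ¬ x.1.1 ∣ ∏ q ∈ fixSet S r, q := fun h => by
  have hx := (S.prime_Sig _ x.1.2).1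
  obtain ⟨q, hq, hdvd⟩ := (Nat.Prime.prime hx).exists_mem_finset_dvd h
  obtain ⟨hqS, hq'⟩ := (mem_fixSet S r).mp hq
  obtain rfl : x.1.1 = q := (Nat.prime_dvd_prime_iff_eq hx (S.prime_Sig q hqS).1).mp hdvd
  exact hq'.elim x.2.1 fun h => h x.2.2

theorem lvl_pos (U : Finset (Rem S r)) : 0 < lvl S r U := by
  refine Nat.mul_pos (Finset.prod_pos fun q hq => ?_)
    (Finset.prod_pos fun x _ => (S.prime_Sig _ x.1.2).1.pos)
  obtain ⟨hqS, -⟩ := (mem_fixSet S r).mp hq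
  exact (S.prime_Sig q hqS).1.pos

instance (U : Finset (Rem S r)) : NeZero (lvl S r U) := ⟨(lvl_pos S r U).ne'⟩

/-- The level of a curve whose bad primes away from `p` are fixed or removable. -/
theorem lvl_topSet {W : WeierstrassCurve ℤ} (hΔ : W.Δ ≠ 0) (hr : r ∈ S.Sig) (hrW : W.IsGoodPrimeFor r)
    (hram : ∀ q : ↥S.Sig, S.rb (S.tame q) ≠ 1 → (q.1 : ℤ) ∣ W.Δ)
    (hbad : ∀ q : ℕ, q.Prime → q ≠ S.p → (q : ℤ) ∣ W.Δ → q ∈ S.Sig) :
    lvl S r (topSet S r W) * (if (S.p : ℤ) ∣ W.Δ then S.p else 1) = badProd W * r := by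
  classical
  have e1 : (∏ x ∈ topSet S r W, x.1.1) = ∏ q ∈ (topSet S r W).image (fun x => x.1.1), q :=
    (Finset.prod_image (f := fun q => q) fun a _ b _ h => Subtype.ext (Subtype.ext h)).symm
  have hdis : Disjoint (fixSet S r) ((topSet S r W).image fun x => x.1.1) := by
    refine Finset.disjoint_left.mpr fun q hq hq' => ?_
    obtain ⟨x, -, rfl⟩ := Finset.mem_image.mp hq'
    exact rem_not_dvd_fix S r x (Finset.dvd_prod_of_mem _ hq)
  have hset : fixSet S r ∪ (topSet S r W).image (fun x => x.1.1) =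
      insert r (W.Δ.natAbs.primeFactors.erase S.p) := by
    ext q
    simp only [Finset.mem_union, Finset.mem_image, mem_topSet, Finset.mem_insert, Finset.mem_erase,
      mem_fixSet, Nat.mem_primeFactors]
    constructor
    · rintro (⟨h, rfl | hne⟩ | ⟨x, hx, rfl⟩)
      · exact Or.inl rfl
      · exact Or.inr ⟨(S.prime_Sig q h).2, (S.prime_Sig q h).1, Int.natCast_dvd.mp (hram ⟨q, h⟩ hne),
          Int.natAbs_ne_zero.mpr hΔ⟩
      · exact Or.inr ⟨(S.prime_Sig _ x.1.2).2, (S.prime_Sig _ x.1.2).1, Int.natCast_dvd.mp hx,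
          Int.natAbs_ne_zero.mpr hΔ⟩
    · rintro (rfl | ⟨hqp, hq, hqd, -⟩)
      · exact Or.inl ⟨hr, Or.inl rfl⟩
      have hqΔ : (q : ℤ) ∣ W.Δ := Int.natCast_dvd.mpr hqd
      have hqS := hbad q hq hqp hqΔ
      by_cases h : S.rb (S.tame ⟨q, hqS⟩) = 1
      · exact Or.inr ⟨⟨⟨q, hqS⟩, fun (e : q = r) => hrW (e ▸ hqΔ), h⟩, hqΔ, rfl⟩
      · exact Or.inl ⟨hqS, Or.inr h⟩
  have hrmem : r ∉ W.Δ.natAbs.primeFactors.erase S.p := fun h =>
    hrW (Int.natCast_dvd.mpr (Nat.dvd_of_mem_primeFactors (Finset.mem_erase.mp h).2))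
  rw [lvl, e1, ← Finset.prod_union hdis, hset, Finset.prod_insert hrmem, badProd]
  by_cases hp : (S.p : ℤ) ∣ W.Δ
  · rw [if_pos hp, ← Finset.prod_erase_mul _ _ (Nat.mem_primeFactors.mpr
      ⟨S.hp, Int.natCast_dvd.mp hp, Int.natAbs_ne_zero.mpr hΔ⟩)]
    ring
  · rw [if_neg hp, Finset.erase_eq_of_notMem fun h =>
      hp (Int.natCast_dvd.mpr (Nat.dvd_of_mem_primeFactors h))]
    ring

end setup

variable {p : ℕ} [Fact p.Prime] (W W' : WeierstrassCurve ℤ)
  [(FA.Frob.ratCurve W).IsElliptic] [(FA.Frob.ratCurve W').IsElliptic]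
  {O : Type} [CommRing O] [IsDomain O] [IsDiscreteValuationRing O]
  [IsAdicComplete (maximalIdeal O) O] [Finite (ResidueField O)]
  (hp2 : p ≠ 2) (hpO : (p : O) ∈ maximalIdeal O) (ι : ℤ_[p] →+* O)
  (j : ZMod p →+* ResidueField O) (P : Places) (hΔ : W.Δ ≠ 0) (hΔ' : W'.Δ ≠ 0)
  (hW : W.IsSemistableModel) {r : ℕ} (haux : LiftAux p W W' r)

/-- The lifting problem of the pair. -/
abbrev pairSetup : Setup O :=
  curveSetup W hp2 hpO ι j P hΔ hW (sigSet p W W' r) (sigSet_spec haux)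

local notation "SS" => pairSetup W W' hp2 hpO ι j P hΔ hW haux

include hΔ' in
/-- A residually ramified prime of the problem is bad for both curves. -/
theorem dvd_of_ramified
    (hcong : ∃ U : M2 (ZMod p), IsUnit U ∧ ∀ σ, U * curveRep p W σ = curveRep p W' σ * U)
    (q : ↥(SS).Sig) (h : (SS).rb ((SS).tame q) ≠ 1) :
    (q.1 : ℤ) ∣ W.Δ ∧ (q.1 : ℤ) ∣ W'.Δ := by
  obtain ⟨hq, hqp⟩ := sigSet_spec haux q.1 q.2
  have hA : (P.place q.1).LiesOverPrime q.1 := P.liesOver q.1 hq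
  have hne : curveRep p W ((SS).tame q) ≠ 1 := fun h1 => h (by
    show mapRep j (curveRep p W) _ = 1
    rw [mapRep_eq, h1, map_one])
  refine ⟨by_contra fun hg => hne (curveRep_unramified W hq hqp hg hA ((SS).tame_mem q)),
    by_contra fun hg => hne ?_⟩
  obtain ⟨U, hU, hUσ⟩ := hcong
  have h1 := hUσ ((SS).tame q)
  rw [curveRep_unramified W' hq hqp hg hA ((SS).tame_mem q), one_mul] at h1
  exact hU.mul_left_cancel (h1.trans (mul_one U).symm)

/-- The auxiliary prime is a prime of the problem. -/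
theorem mem_pairSetup_Sig : r ∈ (SS).Sig := Finset.mem_insert_self _ _

include hΔ' in
/-- The levels of the two curves. -/
theorem lvl_pair
    (hcong : ∃ U : M2 (ZMod p), IsUnit U ∧ ∀ σ, U * curveRep p W σ = curveRep p W' σ * U) :
    lvl SS r (topSet SS r W) * (if (p : ℤ) ∣ W.Δ then p else 1) = badProd W * r ∧
      lvl SS r (topSet SS r W') * (if (p : ℤ) ∣ W'.Δ then p else 1) = badProd W' * r :=
  ⟨lvl_topSet SS r hΔ (mem_pairSetup_Sig W W' hp2 hpO ι j P hΔ hW haux) haux.good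
    (fun q h => (dvd_of_ramified W W' hp2 hpO ι j P hΔ hΔ' hW haux hcong q h).1)
    (fun _ hq hqp h => mem_sigSet_of_dvd hΔ hΔ' hq hqp (Or.inl h)),
   lvl_topSet SS r hΔ' (mem_pairSetup_Sig W W' hp2 hpO ι j P hΔ hW haux) haux.good'
    (fun q h => (dvd_of_ramified W W' hp2 hpO ι j P hΔ hΔ' hW haux hcong q h).2)
    (fun _ hq hqp h => mem_sigSet_of_dvd hΔ hΔ' hq hqp (Or.inr h))⟩

omit [(FA.Frob.ratCurve W').IsElliptic] in
/-- Away from the removable primes only the auxiliary prime can be residually unramified. -/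
theorem trace_sq_ne_of_fixed (q : ↥(SS).Sig)
    (hq : q ∉ Set.range (Subtype.val : Rem SS r → ↥(SS).Sig))
    (hres : (SS).rb ((SS).tame q) = 1) :
    ((SS).rb ((SS).Φ q)).trace * ((SS).rb ((SS).Φ q)).trace ≠
      ((q.1 : ResidueField O) + 1) * ((q.1 : ResidueField O) + 1) := by
  have hqr : q.1 = r := by_contra fun hne => hq ⟨⟨q, hne, hres⟩, rfl⟩
  have hg : W.IsGoodPrimeFor q.1 := by rw [hqr]; exact haux.good
  obtain ⟨hqP, hqp⟩ := sigSet_spec haux q.1 q.2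
  have htr : ((SS).rb ((SS).Φ q)).trace = j (W.apOfModel q.1 : ZMod p) := by
    rw [← trace_curveRep W hqP hg (Ne.symm hqp) (P.liesOver q.1 hqP) ((SS).Φ_spec q)]
    show ((curveRep p W ((SS).Φ q)).map j).trace = _
    rw [← AddMonoidHom.map_trace]
  have h0 : (q.1 : ResidueField O) + 1 = 0 := by
    have := congrArg j (show (q.1 : ZMod p) + 1 = 0 by rw [hqr, haux.cast_eq, neg_add_cancel])
    simpa using this
  rw [htr, h0, zero_mul, ← map_mul, map_ne_zero, hqr]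
  exact mul_self_ne_zero.mpr haux.trace_ne

include hΔ' in
/-- The points of the two curves. -/
theorem exists_points (hW' : W'.IsSemistableModel)
    (hcong : ∃ U : M2 (ZMod p), IsUnit U ∧ ∀ σ, U * curveRep p W σ = curveRep p W' σ * U)
    (hpp : (p : ℤ) ∣ W.Δ ↔ (p : ℤ) ∣ W'.Δ) :
    ∃ w' w : Setup.ZeroPoint SS,
      (SS).BaseAllowed (fun B _ _ _ m => AtWorld p W B m) O w'.r ∧
      (SS).BaseAllowed (fun B _ _ _ m => AtWorld p W B m) O w.r ∧
      (∀ x : Rem SS r, x ∉ topSet SS r W → w.r ((SS).tame x.1) = 1) ∧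
      (∀ ℓ : ℕ, ℓ.Prime → ℓ ∉ (SS).T → ∀ A : ValuationSubring Qb, A.LiesOverPrime ℓ →
        ∀ σ : GQ, A.IsFrobeniusAt σ ℓ →
          (w'.r σ).trace = (W'.apOfModel ℓ : O) ∧ (w.r σ).trace = (W.apOfModel ℓ : O)) := by
  obtain ⟨r', hl', hc', hd', hat', hu', ht2', htr'⟩ :=
    exists_curvePoint W hp2 hpO ι j P hΔ hW (sigSet p W W' r) (sigSet_spec haux) W' hΔ' hW' hcong hpp
  obtain ⟨r₀, hl, hc, hd, hat, hu, ht2, htr⟩ :=
    exists_curvePoint W hp2 hpO ι j P hΔ hW (sigSet p W W' r) (sigSet_spec haux) W hΔ hW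
      ⟨1, isUnit_one, fun σ => by rw [one_mul, mul_one]⟩ Iff.rfl
  have hgood : ∀ q : ℕ, q.Prime → q ∉ (SS).T →
      q ≠ p ∧ W.IsGoodPrimeFor q ∧ W'.IsGoodPrimeFor q := fun q hq hqT => by
    have hqp : q ≠ p := fun h => hqT (Finset.mem_insert.mpr (Or.inl h))
    exact ⟨hqp, fun h => hqT (Finset.mem_insert_of_mem (mem_sigSet_of_dvd hΔ hΔ' hq hqp (Or.inl h))),
      fun h => hqT (Finset.mem_insert_of_mem (mem_sigSet_of_dvd hΔ hΔ' hq hqp (Or.inr h)))⟩
  refine ⟨⟨r', hl', hc', hd'⟩, ⟨r₀, hl, hc, hd⟩, ⟨fun q hq hqT A hA σ hσ => ?_, fun q => ?_, hat'⟩,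
    ⟨fun q hq hqT A hA σ hσ => ?_, fun q => ?_, hat⟩, fun x hx => ?_, fun ℓ hℓ hℓT A hA σ hσ => ?_⟩
  · exact hu' q hq (hgood q hq hqT).1 (hgood q hq hqT).2.2 A hA σ hσ
  · exact ht2' q.1 (sigSet_spec haux q.1 q.2).1 (sigSet_spec haux q.1 q.2).2 _
      (P.liesOver _ (sigSet_spec haux q.1 q.2).1) _ ((SS).tame_mem q)
  · exact hu q hq (hgood q hq hqT).1 (hgood q hq hqT).2.1 A hA σ hσ
  · exact ht2 q.1 (sigSet_spec haux q.1 q.2).1 (sigSet_spec haux q.1 q.2).2 _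
      (P.liesOver _ (sigSet_spec haux q.1 q.2).1) _ ((SS).tame_mem q)
  · exact hu x.1.1 (sigSet_spec haux _ x.1.2).1 (sigSet_spec haux _ x.1.2).2
      (fun h => hx ((mem_topSet SS r).mpr h)) _ (P.liesOver _ (sigSet_spec haux _ x.1.2).1) _
      ((SS).tame_mem x.1)
  · exact ⟨htr' ℓ hℓ (hgood ℓ hℓ hℓT).1 (hgood ℓ hℓ hℓT).2.2 A hA σ hσ,
      htr ℓ hℓ (hgood ℓ hℓ hℓT).1 (hgood ℓ hℓ hℓT).2.1 A hA σ hσ⟩

end FA.Root

end
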