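import Fermat.Agent.Root.LiftData
import Fermat.Agent.RT.UnionCurveLocal

/-!
# The data of modularity lifting from a congruent curve in the union of two worlds at `p`

For a curve with multiplicative reduction at `p`, `p` dividing the valuation of its discriminant.
-/

set_option autoImplicit false
set_option linter.unusedSectionVars false

noncomputable section

open IsLocalRing Matrix WeierstrassCurve FA.RT FA.Deform FA.TW FA.Frob
open FA.Theta (badProd)

namespace FA.Root

local notation "M2" => Matrix (Fin 2) (Fin 2)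
local notation "Qb" => AlgebraicClosure ℚ
local notation "GQ" => AlgebraicClosure ℚ ≃ₐ[ℚ] AlgebraicClosure ℚ

variable {p : ℕ} [Fact p.Prime] (W W' : WeierstrassCurve ℤ)
  [(FA.Frob.ratCurve W).IsElliptic] [(FA.Frob.ratCurve W').IsElliptic]
  {O : Type} [CommRing O] [IsDomain O] [IsDiscreteValuationRing O]
  [IsAdicComplete (maximalIdeal O) O] [Finite (ResidueField O)]
  (hp2 : p ≠ 2) (hpO : (p : O) ∈ maximalIdeal O) (ι : ℤ_[p] →+* O)
  (j : ZMod p →+* ResidueField O) (P : Places) (hΔ : W.Δ ≠ 0) (hΔ' : W'.Δ ≠ 0)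
  (hW : W.IsSemistableModel) (hbad : (p : ℤ) ∣ W.Δ) (hval : p ∣ padicValInt p W.Δ)
  {r : ℕ} (haux : LiftAux p W W' r)

/-- The lifting problem of the pair in the union of the two worlds. -/
abbrev unionPairSetup : Setup O :=
  unionCurveSetup W hp2 hpO ι j P hΔ hW hbad hval (sigSet p W W' r) (sigSet_spec haux)

local notation "SU" => unionPairSetup W W' hp2 hpO ι j P hΔ hW hbad hval haux

include hΔ' in
/-- A residually ramified prime of the problem is bad for both curves. -/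
theorem dvd_of_ramified_union
    (hcong : ∃ U : M2 (ZMod p), IsUnit U ∧ ∀ σ, U * curveRep p W σ = curveRep p W' σ * U)
    (q : ↥(SU).Sig) (h : (SU).rb ((SU).tame q) ≠ 1) :
    (q.1 : ℤ) ∣ W.Δ ∧ (q.1 : ℤ) ∣ W'.Δ :=
  dvd_of_ramified W W' hp2 hpO ι j P hΔ hΔ' hW haux hcong q h

/-- The auxiliary prime is a prime of the problem. -/
theorem mem_unionPairSetup_Sig : r ∈ (SU).Sig := Finset.mem_insert_self _ _

include hΔ' in
/-- The levels of the two curves, without `p`. -/
theorem lvl_unionPair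
    (hcong : ∃ U : M2 (ZMod p), IsUnit U ∧ ∀ σ, U * curveRep p W σ = curveRep p W' σ * U) :
    lvl SU r (topSet SU r W) * p = badProd W * r ∧
      lvl SU r (topSet SU r W') * (if (p : ℤ) ∣ W'.Δ then p else 1) = badProd W' * r := by
  refine ⟨?_, lvl_topSet SU r hΔ' (mem_unionPairSetup_Sig W W' hp2 hpO ι j P hΔ hW hbad hval haux)
    haux.good' (fun q h => (dvd_of_ramified_union W W' hp2 hpO ι j P hΔ hΔ' hW hbad hval haux hcong q h).2)
    (fun _ hq hqp h => mem_sigSet_of_dvd hΔ hΔ' hq hqp (Or.inr h))⟩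
  have h := lvl_topSet SU r hΔ (mem_unionPairSetup_Sig W W' hp2 hpO ι j P hΔ hW hbad hval haux)
    haux.good (fun q h => (dvd_of_ramified_union W W' hp2 hpO ι j P hΔ hΔ' hW hbad hval haux hcong q h).1)
    (fun _ hq hqp h => mem_sigSet_of_dvd hΔ hΔ' hq hqp (Or.inl h))
  change lvl SU r (topSet SU r W) * (if (p : ℤ) ∣ W.Δ then p else 1) = _ at h
  rwa [if_pos hbad] at h

omit [(FA.Frob.ratCurve W').IsElliptic] in
/-- Away from the removable primes only the auxiliary prime can be residually unramified. -/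
theorem trace_sq_ne_of_fixed_union (q : ↥(SU).Sig)
    (hq : q ∉ Set.range (Subtype.val : Rem SU r → ↥(SU).Sig))
    (hres : (SU).rb ((SU).tame q) = 1) :
    ((SU).rb ((SU).Φ q)).trace * ((SU).rb ((SU).Φ q)).trace ≠
      ((q.1 : ResidueField O) + 1) * ((q.1 : ResidueField O) + 1) :=
  trace_sq_ne_of_fixed W W' hp2 hpO ι j P hΔ hW haux q hq hres

include hΔ' hbad in
/-- The strictly ordinary points of the two curves. -/
theorem exists_points_union (hW' : W'.IsSemistableModel)
    (hcong : ∃ U : M2 (ZMod p), IsUnit U ∧ ∀ σ, U * curveRep p W σ = curveRep p W' σ * U)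
    (hbad' : (p : ℤ) ∣ W'.Δ) :
    ∃ w' w : Setup.ZeroPoint SU,
      (SU).BaseAllowed (fun _ _ _ _ _ => True) O w'.r ∧
      (SU).BaseAllowed (fun _ _ _ _ _ => True) O w.r ∧
      AtStrict p O w'.r ∧ AtStrict p O w.r ∧
      (∀ x : Rem SU r, x ∉ topSet SU r W → w.r ((SU).tame x.1) = 1) ∧
      (∀ ℓ : ℕ, ℓ.Prime → ℓ ∉ (SU).T → ∀ A : ValuationSubring Qb, A.LiesOverPrime ℓ →
        ∀ σ : GQ, A.IsFrobeniusAt σ ℓ →
          (w'.r σ).trace = (W'.apOfModel ℓ : O) ∧ (w.r σ).trace = (W.apOfModel ℓ : O)) := by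
  obtain ⟨w', w, h', h, hu, htr⟩ :=
    exists_points W W' hp2 hpO ι j P hΔ hΔ' hW haux hW' hcong (iff_of_true hbad hbad')
  exact ⟨⟨w'.r, w'.lift, w'.cont, w'.det⟩, ⟨w.r, w.lift, w.cont, w.det⟩,
    ⟨h'.1, h'.2.1, trivial⟩, ⟨h.1, h.2.1, trivial⟩, h'.2.2.1 hbad, h.2.2.1 hbad, hu, htr⟩

end FA.Root

end
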