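import Fermat.Agent.Root.LiftOddGlue
import Fermat.Agent.Root.LiftDataUnion
import Fermat.Agent.RT.Tower.LiftUnion
import Fermat.Agent.RT.Tower.PNew
import Fermat.Agent.Root.NotOld

/-!
# Modularity lifting at `3` and `5`: bad `p` with `p ∣ v_p(Δ)`

The lifting theorem from the towers of a pair in the union of the flat and the strictly ordinary
world. The case `p ∤ v_p(Δ)` is covered by `modular_of_towers`.
-/

set_option autoImplicit false
set_option linter.style.haveILetI false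
set_option linter.unusedSectionVars false
set_option maxHeartbeats 800000

noncomputable section

open IsLocalRing Matrix WeierstrassCurve FA.RT FA.Deform FA.TW FA.Frob FA.HeckeH1
open FA.Theta (badProd)

namespace FA.Root

local notation "M2" => Matrix (Fin 2) (Fin 2)
local notation "Qb" => AlgebraicClosure ℚ
local notation "GQ" => AlgebraicClosure ℚ ≃ₐ[ℚ] AlgebraicClosure ℚ

variable {p : ℕ} [Fact p.Prime] (W W' : WeierstrassCurve ℤ)
  [(FA.Frob.ratCurve W).IsElliptic] [(FA.Frob.ratCurve W').IsElliptic]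
  {O : Type} [CommRing O] [IsDomain O] [IsDiscreteValuationRing O]
  [IsAdicComplete (maximalIdeal O) O] [Finite (ResidueField O)] [CharZero O]
  (hp2 : p ≠ 2) (hpO : (p : O) ∈ maximalIdeal O) (ι : ℤ_[p] →+* O)
  (j : ZMod p →+* ResidueField O) (P : Places) (hΔ : W.Δ ≠ 0) (hΔ' : W'.Δ ≠ 0)
  (hW : W.IsSemistableModel) (hbad : (p : ℤ) ∣ W.Δ) (hval : p ∣ padicValInt p W.Δ)
  {r : ℕ} (haux : LiftAux p W W' r)

local notation "SS" => pairSetup W W' hp2 hpO ι j P hΔ hW haux
local notation "SU" => unionPairSetup W W' hp2 hpO ι j P hΔ hW hbad hval haux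

/-- The levels of the pair in the union: those of the pair. -/
def unionPairLevels :
    LevelSet (fun x : Rem SU r => x.1.1) (insert p (sigSet p W W' r)) :=
  pairLevels W W' hp2 hpO ι j P hΔ hW haux

local notation "UL" => unionPairLevels W W' hp2 hpO ι j P hΔ hW hbad hval haux

/-- The levels contain `p`. -/
theorem unionPairLevels_lvl (U : Finset (Rem SU r)) : (UL).lvl U = lvl SU r U * p := by
  refine (pairLevels_lvl W W' hp2 hpO ι j P hΔ hW haux U).trans ?_
  rw [if_pos hbad]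
  rfl

/-- The levels of the pair contain `p` exactly once. -/
def unionPPart : PPart UL where
  p := p
  hp := Fact.out
  L0 := ∏ q ∈ fixSet SU r, q
  eq := by
    show (∏ q ∈ fixSet SS r, q) * (if (p : ℤ) ∣ W.Δ then p else 1) = _
    rw [if_pos hbad]
    rfl
  not_dvd h := by
    obtain ⟨q, hq, hdvd⟩ := (Nat.Prime.prime (Fact.out : p.Prime)).exists_mem_finset_dvd h
    obtain ⟨hqS, -⟩ := (mem_fixSet SU r).mp hq
    exact ((SU).prime_Sig q hqS).2
      ((Nat.prime_dvd_prime_iff_eq Fact.out ((SU).prime_Sig q hqS).1).1 hdvd).symm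
  mem_S := (mem_sysSet W W' _).2 (Finset.mem_insert_self _ _)

local notation "UP" => unionPPart W W' hp2 hpO ι j P hΔ hW hbad hval haux

include hΔ' in
/-- **The system of `W'` is not old at `p`**: the hypothesis `hnew` when the old part consists of the
levels without `p`. -/
theorem not_oldPoint (hW' : W'.IsSemistableModel) (hirr : W.ModRepIsIrreducible p)
    (hbad' : (p : ℤ) ∣ W'.Δ) (U : Finset (Rem SU r)) :
    ¬ ∃ χ : Algebra.adjoin O {a : ((UP).old.baseLevels (sysVal W j)).A U |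
          ∃ ℓ : ℕ, ℓ.Prime ∧ ℓ ∉ insert p (sigSet p W W' r) ∧
            a = ((UP).old.baseLevels (sysVal W j)).T U ℓ} →ₐ[O] O,
        ∀ (ℓ : ℕ) (hℓ : ℓ.Prime) (hb : ℓ ∉ insert p (sigSet p W W' r)),
          χ ⟨((UP).old.baseLevels (sysVal W j)).T U ℓ, Algebra.subset_adjoin ⟨ℓ, hℓ, hb, rfl⟩⟩ =
            (W'.apOfModel ℓ : O) :=
  not_levelPoint_of_bad hΔ' hW' Fact.out hbad' (UP).old (sysVal W j)
    (pair_nonEisenstein W hp2 hpO j hΔ hirr) U ((UP).not_dvd_lvl U)

include hΔ' in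
/-- **Modularity lifting at a bad `p` with `p ∣ v_p(Δ)` from the towers of the pair.** The data of the
old and the new part at `p` are given; `hnew` says that the system of `W'` is not old at `p`. -/
theorem modular_of_towers_union (hW' : W'.IsSemistableModel) (hirr : W.ModRepIsIrreducible p)
    (hcong : ∃ U : M2 (ZMod p), IsUnit U ∧ ∀ σ, U * curveRep p W σ = curveRep p W' σ * U)
    (hbad' : (p : ℤ) ∣ W'.Δ)
    (hsplit : ∀ t d : ZMod p, ∃ a, a * a - j t * a + j d = 0)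
    (hW'mod : W'.IsModularModelOfLevel (badProd W'))
    (sep : ∀ U, (SU).Separation (Subtype.val : Rem SU r → ↥(SU).Sig)
      ((UL).baseLevels (sysVal W j)) U
      ((SU).BaseAllowed (fun _ _ _ _ _ => True)))
    (hmono : Setup.MonoTower ((UL).baseTower SU (sysVal W j)
      (pair_nonEisenstein W hp2 hpO j hΔ hirr) sep))
    (pb : Setup.PBase ((UL).baseTower SU (sysVal W j) (pair_nonEisenstein W hp2 hpO j hΔ hirr) sep)
      (fun B _ _ _ m => AtFlat p B m) (fun B _ _ _ m => AtStrict p B m))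
    (hnew : ¬ ∃ χF : Algebra.adjoin O {a : pb.AF (topSet SU r W') |
          ∃ ℓ : ℕ, ℓ.Prime ∧ ℓ ∉ insert p (sigSet p W W' r) ∧ a = pb.TF (topSet SU r W') ℓ}
        →ₐ[O] O, ∀ (ℓ : ℕ) (hℓ : ℓ.Prime) (hb : ℓ ∉ insert p (sigSet p W W' r)),
          χF ⟨pb.TF (topSet SU r W') ℓ, Algebra.subset_adjoin ⟨ℓ, hℓ, hb, rfl⟩⟩ =
            (W'.apOfModel ℓ : O))
    (hdep : ∀ (rr n : ℕ) (D : (SU).TWSet rr n) (ab : Fin rr → ResidueField O),
      Function.Injective D.qv → IsTameGenSet D → (∀ i, D.qv i ∉ (SU).T) →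
      (∀ i, ab i * ab i - ((SU).rb (D.φ i)).trace * ab i + ((SU).rb (D.φ i)).det = 0) →
      ∃ dep : Setup.DepthTower ((UL).baseTower SU (sysVal W j)
        (pair_nonEisenstein W hp2 hpO j hΔ hirr) sep) D ab, Nonempty (Setup.PDepth pb dep)) :
    W.IsModularModelOfLevel (badProd W) := by
  classical
  have hpp : (p : ℤ) ∣ W.Δ ↔ (p : ℤ) ∣ W'.Δ := iff_of_true hbad hbad'
  obtain ⟨w', w, hw', hw, -, hwS, hwunr, htr⟩ :=
    exists_points_union W W' hp2 hpO ι j P hΔ hΔ' hW hbad hval haux hW' hcong hbad'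
  obtain ⟨χ₀, hχ₀⟩ := exists_pairPoint W W' hp2 hpO ι j P hΔ hΔ' hW haux hW'mod hcong hpp
  obtain ⟨χ', hχ'⟩ := pb.exists_new_point (topSet SU r W') χ₀ (fun ⟨χF, hF⟩ => hnew
    ⟨χF, fun ℓ hℓ hb => (hF ℓ hℓ hb).trans (hχ₀ ℓ hℓ hb)⟩)
  obtain ⟨GW⟩ := pair_greenbergWiles W W' hp2 hpO ι j P hΔ hΔ' hW haux
  have hall : ∀ q : ℕ, q.Prime → (q : ℤ) ∣ W.Δ → q = p ∨ q ∈ sigSet p W W' r := fun q hq hd => by
    by_cases h : q = p
    · exact Or.inl h
    · exact Or.inr (mem_sigSet_of_dvd hΔ hΔ' hq h (Or.inl hd))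
  obtain ⟨⟨F, hF⟩, hup⟩ :=
    unionCurveSetup_frame W hp2 hpO ι j P hΔ hW hbad hval (sigSet p W W' r) (sigSet_spec haux) hirr
  obtain ⟨rr, hrr⟩ := unionCurveSetup_twSets W hp2 hpO ι j P hΔ hW hbad hval (sigSet p W W' r)
    (sigSet_spec haux) hirr hall GW ∅
  have htw : ∃ rr : ℕ, ∀ n : ℕ, ∃ (D : (SU).TWSet rr n) (ab : Fin rr → ResidueField O),
      (∀ i, ab i * ab i - ((SU).rb (D.φ i)).trace * ab i + ((SU).rb (D.φ i)).det = 0) ∧
      (∀ i, D.qv i ∉ (SU).T) ∧ ∃ dep : Setup.DepthTower ((UL).baseTower SU (sysVal W j)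
        (pair_nonEisenstein W hp2 hpO j hΔ hirr) sep) D ab, Nonempty (Setup.PDepth pb dep) := by
    refine ⟨rr, fun n => ?_⟩
    obtain ⟨D₀, hinj₀, hD₀⟩ := hrr n
    obtain ⟨D, hDq, hgen⟩ := exists_retame D₀
    have hinj : Function.Injective D.qv := hDq ▸ hinj₀
    have hD : ∀ i, D.qv i ∉ (SU).T := fun i => hDq ▸ (hD₀ i).1
    choose ab hab using fun i => exists_root_curveRep W j hsplit (D.φ i)
    exact ⟨D, ab, hab, hD, hdep rr n D ab hinj hgen hD hab⟩
  have hspan := unionCurveSetup_span W hp2 hpO ι j P hΔ hW hbad hval (sigSet p W W' r)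
    (sigSet_spec haux) hirr
  obtain ⟨χ, hχ⟩ := Setup.eigenStrict_of_tower
    ((UL).baseTower SU (sysVal W j) (pair_nonEisenstein W hp2 hpO j hΔ hirr) sep) hmono pb
    (unionCurveLocal W hp2 hpO ι j P hΔ hW hbad hval _ (sigSet_spec haux) hspan)
    Subtype.val_injective (fun x => x.2.2)
    (trace_sq_ne_of_fixed_union W W' hp2 hpO ι j P hΔ hW hbad hval haux)
    ⟨r, mem_unionPairSetup_Sig W W' hp2 hpO ι j P hΔ hW hbad hval haux⟩
    (unionCurveSetup_cyc_frob W hp2 hpO ι j P hΔ hW hbad hval _ (sigSet_spec haux))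
    (unionCurveSetup_cyc_tame W hp2 hpO ι j P hΔ hW hbad hval _ (sigSet_spec haux))
    hspan F hF hup
    (fun S' M _ t => unionCurveSetup_atP W hp2 hpO ι j P hΔ hW hbad hval _ (sigSet_spec haux) S' M t)
    htw (Utop := topSet SU r W') (Utar := topSet SU r W) w' w hw' hw hwS hwunr χ'
    (fun ℓ hℓ hb A hA σ hσ => (hχ' ℓ hℓ hb).trans
      ((hχ₀ ℓ hℓ hb).trans (htr ℓ hℓ hb A hA σ hσ).1.symm))
  exact isModular_of_pairPoint W W' hp2 hpO ι j P hΔ hΔ' hW haux hirr hcong
    (⟨w.r, w.lift, w.cont, w.det⟩ : Setup.ZeroPoint SS)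
    (fun ℓ hℓ hb A hA σ hσ => (htr ℓ hℓ hb A hA σ hσ).2) χ hχ

include hΔ' in
/-- **Modularity lifting at a bad `p` with `p ∣ v_p(Δ)`** from the lifts and the towers of the levels
of the pair, the old part being that of the levels without `p`. -/
theorem modular_of_towers_union' (hW' : W'.IsSemistableModel) (hirr : W.ModRepIsIrreducible p)
    (hcong : ∃ U : M2 (ZMod p), IsUnit U ∧ ∀ σ, U * curveRep p W σ = curveRep p W' σ * U)
    (hbad' : (p : ℤ) ∣ W'.Δ)
    (hsplit : ∀ t d : ZMod p, ∃ a, a * a - j t * a + j d = 0)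
    (hW'mod : W'.IsModularModelOfLevel (badProd W'))
    (sep : ∀ U, (SU).Separation (Subtype.val : Rem SU r → ↥(SU).Sig)
      ((UL).baseLevels (sysVal W j)) U
      ((SU).BaseAllowed (fun _ _ _ _ _ => True)))
    (sepF : ∀ U, (SU).PartSep (((UP).pLevels (sysVal W j)).TF U) (insert p (sigSet p W W' r))
      fun B _ _ _ m => (SU).BaseAllowed (fun _ _ _ _ _ => True) B m ∧ AtFlat p B m)
    (sepS : ∀ U, (SU).PartSep (((UP).pLevels (sysVal W j)).TS U) (insert p (sigSet p W W' r))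
      fun B _ _ _ m => (SU).BaseAllowed (fun _ _ _ _ _ => True) B m ∧ AtStrict p B m)
    (hmono : Setup.MonoTower ((UL).baseTower SU (sysVal W j)
      (pair_nonEisenstein W hp2 hpO j hΔ hirr) sep))
    (hdep : ∀ (rr n : ℕ) (D : (SU).TWSet rr n) (ab : Fin rr → ResidueField O),
      Function.Injective D.qv → IsTameGenSet D → (∀ i, D.qv i ∉ (SU).T) →
      (∀ i, ab i * ab i - ((SU).rb (D.φ i)).trace * ab i + ((SU).rb (D.φ i)).det = 0) →
      ∃ dep : Setup.DepthTower ((UL).baseTower SU (sysVal W j)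
        (pair_nonEisenstein W hp2 hpO j hΔ hirr) sep) D ab,
        Nonempty (Setup.PDepth ((UP).pBase SU (sysVal W j)
          (pair_nonEisenstein W hp2 hpO j hΔ hirr) sep sepF sepS) dep)) :
    W.IsModularModelOfLevel (badProd W) :=
  modular_of_towers_union W W' hp2 hpO ι j P hΔ hΔ' hW hbad hval haux hW' hirr hcong hbad' hsplit
    hW'mod sep hmono _
    (not_oldPoint W W' hp2 hpO ι j P hΔ hΔ' hW hbad hval haux hW' hirr hbad' (topSet SU r W'))
    hdep

end FA.Root

end
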