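import Fermat.Agent.Root.LiftOdd
import Fermat.Agent.RT.Tower.MonoGlue
import Fermat.Agent.ModField.Semistable.Mono.Eta.Datum

/-!
# The rank of inertia on the towers of a pair of curves
-/

set_option autoImplicit false
set_option linter.style.haveILetI false
set_option linter.unusedSectionVars false
set_option maxHeartbeats 800000

noncomputable section

open IsLocalRing Matrix WeierstrassCurve FA.RT FA.Deform FA.TW FA.Frob FA.HeckeH1 FA.JTorsion
open FA.Theta (badProd)

namespace FA.Root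

local notation "M2" => Matrix (Fin 2) (Fin 2)
local notation "Qb" => AlgebraicClosure ℚ
local notation "GQ" => AlgebraicClosure ℚ ≃ₐ[ℚ] AlgebraicClosure ℚ

/-- A level with a prime `≡ 2` modulo `3` has good widths at every prime. -/
theorem goodWidths_of_dvd {p r M q : ℕ} (hp : p.Prime) (hq : q.Prime) (hp2 : p ≠ 2) (hqp : q ≠ p)
    (hrM : r ∣ M) (hr : (r : ZMod p) = -1) : FA.ModField.GoodWidths M q p := by
  by_cases hp3 : p = 3
  · subst hp3
    have h1 : r % 3 = 2 := by
      have h2 : ((r : ℕ) : ZMod 3) = ((2 : ℕ) : ZMod 3) := by rw [hr]; rfl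
      exact (ZMod.natCast_eq_natCast_iff' _ _ _).1 h2
    have hq3 : q % 3 ≠ 0 := fun h => hqp
      ((Nat.prime_dvd_prime_iff_eq hp hq).1 (Nat.dvd_of_mod_eq_zero h)).symm
    refine Or.inr (Or.inl ⟨rfl, ?_⟩)
    rcases (by omega : q % 3 = 1 ∨ q % 3 = 2) with h | h
    exacts [⟨1, one_dvd _, by omega⟩, ⟨r, hrM, by omega⟩]
  · refine Or.inl ?_
    have := hp.two_le
    by_contra h
    have h4 : p = 4 := by omega
    exact absurd (h4 ▸ hp) (by norm_num)

variable {p : ℕ} [Fact p.Prime] (W W' : WeierstrassCurve ℤ)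
  [(FA.Frob.ratCurve W).IsElliptic] [(FA.Frob.ratCurve W').IsElliptic]
  {O : Type} [CommRing O] [IsDomain O] [IsDiscreteValuationRing O]
  [IsAdicComplete (maximalIdeal O) O] [Finite (ResidueField O)] [CharZero O]
  (hp2 : p ≠ 2) (hpO : (p : O) ∈ maximalIdeal O) (ι : ℤ_[p] →+* O)
  (j : ZMod p →+* ResidueField O) (P : Places) (hΔ : W.Δ ≠ 0) (hΔ' : W'.Δ ≠ 0)
  (hW : W.IsSemistableModel) {r : ℕ} (haux : LiftAux p W W' r)

local notation "SS" => pairSetup W W' hp2 hpO ι j P hΔ hW haux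
local notation "LL" => pairLevels W W' hp2 hpO ι j P hΔ hW haux

/-- **The rank of inertia on the towers of the pair.** -/
theorem pair_monoTower [Algebra Qb ℂ] (hirr : W.ModRepIsIrreducible p)
    {AtP : ∀ (B : Type) [CommRing B] [IsLocalRing B] [Algebra O B], (GQ →* M2 B) → Prop}
    (sep : ∀ U, (SS).Separation (Subtype.val : Rem SS r → ↥(SS).Sig)
      ((LL).baseLevels (sysVal W j)) U ((SS).BaseAllowed AtP))
    :
    Setup.MonoTower ((LL).baseTower SS (sysVal W j)
      (pair_nonEisenstein W hp2 hpO j hΔ hirr) sep) := by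
  haveI : Fact (SS).p.Prime := ⟨(SS).hp⟩
  refine Setup.monoTower_of_monoAt (S := SS) LL (sysVal W j)
    (pair_nonEisenstein W hp2 hpO j hΔ hirr) ?_ (Finset.mem_insert_self _ _) ?_ sep
    (curveSetup_span W hp2 hpO ι j P hΔ hW _ (sigSet_spec haux) hirr) ?_
    fun M q _ _ _ A s => FA.ModField.monoAt M q (SS).p (ResidueField O) A s _ _
  · intro ℓ hℓ h
    exact hℓ ((mem_sysSet W W' ℓ).2 ((LL).mem_bad _ ℓ.2 h))
  · intro ℓ hℓ hb Pl hPl σ hσ
    have hℓp : ℓ ≠ p := fun h => hb (Finset.mem_insert.2 (Or.inl h))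
    show residue O (ι (cycP p σ : ℤ_[p])) = _
    rw [cycP_frobenius p hℓ hℓp hPl hσ, map_natCast, map_natCast]
  · intro U x _
    obtain ⟨hq, hqp⟩ := (SS).prime_Sig _ x.1.2
    exact goodWidths_of_dvd Fact.out hq hp2 hqp
      ((dvd_pairLevels_L0 W W' hp2 hpO ι j P hΔ hW haux).mul_right _) haux.cast_eq

end FA.Root

end
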