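import Fermat.Agent.Root.LiftOddBad
import Fermat.Agent.Root.LiftOddMono
import Fermat.Agent.ModField.Semistable.Mono.Eta.Datum

/-!
# The data of the towers of a pair in the union of two worlds at `p`

The Hecke data of a Taylor–Wiles set and the rank of inertia, at the levels of the pair containing
`p`.
-/

set_option autoImplicit false
set_option linter.style.haveILetI false
set_option linter.unusedSectionVars false
set_option maxHeartbeats 800000

noncomputable section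

open IsLocalRing Matrix WeierstrassCurve FA.RT FA.Deform FA.TW FA.Frob FA.HeckeH1 FA.JTorsion
open FA.Theta (badProd)

namespace FA.Root

local notation "M2" => Matrix (Fin 2) (Fin 2)
local notation "Qb" => AlgebraicClosure ℚ
local notation "GQ" => AlgebraicClosure ℚ ≃ₐ[ℚ] AlgebraicClosure ℚ

variable {p : ℕ} [Fact p.Prime] (W W' : WeierstrassCurve ℤ)
  [(FA.Frob.ratCurve W).IsElliptic] [(FA.Frob.ratCurve W').IsElliptic]
  {O : Type} [CommRing O] [IsDomain O] [IsDiscreteValuationRing O]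
  [IsAdicComplete (maximalIdeal O) O] [Finite (ResidueField O)] [CharZero O]
  (hp2 : p ≠ 2) (hpO : (p : O) ∈ maximalIdeal O) (ι : ℤ_[p] →+* O)
  (j : ZMod p →+* ResidueField O) (P : Places) (hΔ : W.Δ ≠ 0) (hΔ' : W'.Δ ≠ 0)
  (hW : W.IsSemistableModel) (hbad : (p : ℤ) ∣ W.Δ) (hval : p ∣ padicValInt p W.Δ)
  {r : ℕ} (haux : LiftAux p W W' r)

local notation "SU" => unionPairSetup W W' hp2 hpO ι j P hΔ hW hbad hval haux

local notation "UL" => unionPairLevels W W' hp2 hpO ι j P hΔ hW hbad hval haux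

theorem dvd_unionPairLevels_L0 : r ∣ (UL).L0 :=
  (Finset.dvd_prod_of_mem _ ((mem_fixSet SU r).mpr
    ⟨mem_unionPairSetup_Sig W W' hp2 hpO ι j P hΔ hW hbad hval haux, Or.inl rfl⟩)).mul_right _

include hΔ' in
/-- **The Hecke data of a Taylor–Wiles set of the pair.** -/
theorem exists_unionTWPart (hirr : W.ModRepIsIrreducible p) {rr n : ℕ} (D : (SU).TWSet rr n)
    (ab : Fin rr → ResidueField O) (hinj : Function.Injective D.qv) (hgen : IsTameGenSet D)
    (hT : ∀ i, D.qv i ∉ (SU).T)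
    (hab : ∀ i, ab i * ab i - ((SU).rb (D.φ i)).trace * ab i + ((SU).rb (D.φ i)).det = 0) :
    haveI : NeZero (SU).p := ⟨(SU).hp.ne_zero⟩
    ∃ T : TWPart UL (sysVal W j) (DGroup (SU).p D.expo)
        (insert p (sigSet p W W' r) ∪ Finset.univ.image D.qv),
      T.p = (SU).p ∧ T.Q = twQ D ∧
      (∀ (i : Fin rr) (q : Nat.Primes), (q : ℕ) = D.qv i → residue O (T.α q) = ab i) ∧
      ∀ (i : Fin rr) (u : (ZMod (∏ q ∈ T.Q, (q : ℕ)))ˣ),
        haveI : Fact (D.qv i).Prime := ⟨(D.prime i).1⟩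
        (ZMod.cast (u : ZMod (∏ q ∈ T.Q, (q : ℕ))) : ZMod (D.qv i)) =
          (FA.JTorsion.cycK (D.qv i) (ZMod (D.qv i)) (D.s i) : ZMod (D.qv i)) →
        (∀ j, j ≠ i →
          (ZMod.cast (u : ZMod (∏ q ∈ T.Q, (q : ℕ))) : ZMod (D.qv j)) = 1) →
        T.κ u * dGen (SU).p D.expo i ^ 2 = 1 := by
  haveI : Fact r.Prime := ⟨haux.prime⟩
  haveI : NeZero (UL).L0 := ⟨(UL).pos⟩
  haveI : Fact (SU).p.Prime := ⟨(SU).hp⟩
  refine exists_twPart D hinj hgen UL (sysVal W j) (pair_nonEisenstein W hp2 hpO j hΔ hirr)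
    (isNeatOn_of_prime hp2 hpO (dvd_unionPairLevels_L0 W W' hp2 hpO ι j P hΔ hW hbad hval haux) haux.cast_eq)
    hT (fun i ℓ hℓ h => hT i (hℓ ▸ (mem_sysSet W W' ℓ).1 h)) ab hab fun i ℓ hℓ => ?_
  obtain ⟨hℓp, hg, -⟩ := good_of_notMem W W' hΔ hΔ' ℓ.2 (hℓ ▸ hT i :
    (ℓ : ℕ) ∉ insert p (sigSet p W W' r))
  have hσ : (P.place (ℓ : ℕ)).IsFrobeniusAt (D.φ i) ℓ := hℓ ▸ D.φ_spec i
  refine ⟨?_, det_mapRep_curveRep W j _ _ fun μ hμ =>
    FA.TW.frobenius_apply_rootOfUnity (m := 1) Fact.out ℓ.2 hℓp (P.liesOver _ ℓ.2) hσ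
      (by rw [pow_one]; exact hμ)⟩
  show ((j.mapMatrix (curveRep p W (D.φ i)))).trace = _
  rw [RingHom.mapMatrix_apply, ← AddMonoidHom.map_trace j, trace_curveRep W ℓ.2 hg (Ne.symm hℓp) (P.liesOver _ ℓ.2) hσ]
  rfl

/-- **The rank of inertia on the towers of the pair.** -/
theorem union_monoTower (hirr : W.ModRepIsIrreducible p)
    {AtP : ∀ (B : Type) [CommRing B] [IsLocalRing B] [Algebra O B], (GQ →* M2 B) → Prop}
    (sep : ∀ U, (SU).Separation (Subtype.val : Rem SU r → ↥(SU).Sig)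
      ((UL).baseLevels (sysVal W j)) U ((SU).BaseAllowed AtP)) :
    Setup.MonoTower ((UL).baseTower SU (sysVal W j)
      (pair_nonEisenstein W hp2 hpO j hΔ hirr) sep) := by
  letI : Algebra Qb ℂ := (IsAlgClosed.lift (R := ℚ) (S := Qb) (M := ℂ)).toRingHom.toAlgebra
  haveI : Fact (SU).p.Prime := ⟨(SU).hp⟩
  refine Setup.monoTower_of_monoAt (S := SU) UL (sysVal W j)
    (pair_nonEisenstein W hp2 hpO j hΔ hirr) ?_ (Finset.mem_insert_self _ _) ?_ sep
    (unionCurveSetup_span W hp2 hpO ι j P hΔ hW hbad hval _ (sigSet_spec haux) hirr) ?_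
    fun M q _ _ _ A s => FA.ModField.monoAt M q (SU).p (ResidueField O) A s _ _
  · intro ℓ hℓ h
    exact hℓ ((mem_sysSet W W' ℓ).2 ((UL).mem_bad _ ℓ.2 h))
  · intro ℓ hℓ hb Pl hPl σ hσ
    have hℓp : ℓ ≠ p := fun h => hb (Finset.mem_insert.2 (Or.inl h))
    show residue O (ι (cycP p σ : ℤ_[p])) = _
    rw [cycP_frobenius p hℓ hℓp hPl hσ, map_natCast, map_natCast]
  · intro U x _
    obtain ⟨hq, hqp⟩ := (SU).prime_Sig _ x.1.2
    exact goodWidths_of_dvd Fact.out hq hp2 hqp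
      ((dvd_unionPairLevels_L0 W W' hp2 hpO ι j P hΔ hW hbad hval haux).mul_right _) haux.cast_eq

end FA.Root

end
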