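import Fermat.Agent.Root.ModularEnd
import Fermat.Agent.RT.CurveResidual
import Fermat.Agent.RT.Coeff
import Fermat.Agent.ModField.Semistable.X0.FibreData
import Fermat.Agent.ModField.Semistable.NewformFrobenius

/-!
# Removing an auxiliary prime from the level

An eigenform of level `N r` with the eigenvalues of a curve is old at `r` if the residual trace of
Frobenius at `r` is not `± (r + 1)`.
-/

set_option autoImplicit false
set_option linter.style.haveILetI false
set_option synthInstance.maxHeartbeats 200000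
set_option maxHeartbeats 800000

noncomputable section

open CongruenceSubgroup WeierstrassCurve IsLocalRing Polynomial

namespace FA.Root

open FA.HeckeH1

local notation "Qb" => AlgebraicClosure ℚ

theorem hasFibreData_all : FA.ModField.HasFibreData := fun M q => by
  intros
  exact FA.ModField.nonempty_fibreData M q _ _ _ _ _ _

variable {N r p : ℕ} [NeZero N] [Fact r.Prime] [Fact p.Prime]

/-- **Removal of an auxiliary prime.** -/
theorem isModularModelOfLevel_of_aux {W : WeierstrassCurve ℤ} (hΔ : W.Δ ≠ 0) (hrN : ¬ r ∣ N)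
    (hrp : r ≠ p) (hgood : W.IsGoodPrimeFor r)
    (haux : ((W.apOfModel r : ZMod p)) * (W.apOfModel r : ZMod p) ≠
      ((r : ZMod p) + 1) * ((r : ZMod p) + 1))
    (h : W.IsModularModelOfLevel (N * r)) : W.IsModularModelOfLevel N := by
  classical
  obtain ⟨g, hg, hcoef⟩ := h
  have hr : r.Prime := Fact.out
  have hp : p.Prime := Fact.out
  haveI : NeZero r := ⟨hr.ne_zero⟩
  haveI : NeZero (N * r) := ⟨mul_ne_zero (NeZero.ne N) hr.ne_zero⟩
  have hN0 : N * r ≠ 0 := NeZero.ne _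
  by_cases hold : CuspForm.GoodEigensystemOccursAt g N
  · obtain ⟨h, hh, hhg⟩ := hold
    refine ⟨h, hh, fun q hq hq' hqN => qCoeff_eq_apOfModel hΔ (NeZero.ne N) hh
      ((N * r).primeFactors ∪ W.Δ.natAbs.primeFactors) (fun ℓ hℓ hℓb _ => ?_) hq hq' hqN⟩
    simp only [Finset.mem_union, Nat.mem_primeFactors, not_or] at hℓb
    have hℓN : ¬ ℓ ∣ N * r := fun hd => hℓb.1 ⟨hℓ, hd, hN0⟩
    rw [hhg ℓ hℓ hℓN]
    exact hcoef ℓ hℓ (fun hd => hℓb.2 ⟨hℓ, Int.natCast_dvd.1 hd, Int.natAbs_ne_zero.2 hΔ⟩) hℓN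
  exfalso
  haveI : (FA.Frob.ratCurve W).IsElliptic := FA.Frob.ratCurve_isElliptic_of_Δ hΔ
  let S : Finset ℕ := (N * r).primeFactors ∪ W.Δ.natAbs.primeFactors ∪ {p}
  have hpS : p ∈ S := by simp [S]
  have hNS : ∀ q : ℕ, q.Prime → q ∣ N * r → q ∈ S := fun q hq hd => by
    simp [S, Nat.mem_primeFactors, hq, hd, hN0]
  have hgoodS : ∀ ℓ : ℕ, ℓ.Prime → ℓ ∉ S → W.IsGoodPrimeFor ℓ := fun ℓ hℓ hS hd => hS (by
    simp [S, Nat.mem_primeFactors, hℓ, hΔ, Int.natCast_dvd.1 hd])
  -- the character, with integral values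
  obtain ⟨ψ, hψ⟩ := FA.JTorsion.exists_eigenChar (S := (↑S : Set ℕ)) hg
  let H := CuspForm.heckeAlgebra (N * r) 2 (↑S : Set ℕ)
  have hint : ∀ t : H, ∃ n : ℤ, ψ t = (n : integralClosure ℤ ℂ) := by
    rintro ⟨t, ht⟩
    induction ht using Algebra.adjoin_induction with
    | mem x hx =>
      rcases hx with ⟨ℓ, hℓ, hℓN, hℓS, rfl⟩ | ⟨q, hqN, hq, hqS, rfl⟩
      · refine ⟨W.apOfModel ℓ, Subtype.ext ((hψ ℓ hℓ hℓN hℓS).trans ?_)⟩
        rw [hcoef ℓ hℓ (hgoodS ℓ hℓ (by simpa using hℓS)) hℓN]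
        push_cast
        rfl
      · exact absurd (Finset.mem_coe.2 (hNS q hq hqN)) hqS
    | algebraMap n => exact ⟨n, map_intCast ψ n⟩
    | add x y hx' hy' hx hy =>
      obtain ⟨a, ha⟩ := hx
      obtain ⟨b, hb⟩ := hy
      exact ⟨a + b, (map_add ψ (⟨x, hx'⟩ : H) ⟨y, hy'⟩).trans (by rw [ha, hb, Int.cast_add])⟩
    | mul x y hx' hy' hx hy =>
      obtain ⟨a, ha⟩ := hx
      obtain ⟨b, hb⟩ := hy
      exact ⟨a * b, (map_mul ψ (⟨x, hx'⟩ : H) ⟨y, hy'⟩).trans (by rw [ha, hb, Int.cast_mul])⟩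
  choose nv hnv using hint
  have hinj : Function.Injective (Int.cast : ℤ → integralClosure ℤ ℂ) := fun a b hab =>
    Int.cast_injective (α := ℂ) (by
      simpa using congrArg (fun x : integralClosure ℤ ℂ => (x : ℂ)) hab)
  let χZ : H →+* ℤ :=
    { toFun := nv
      map_one' := hinj (by rw [← hnv, map_one, Int.cast_one])
      map_mul' := fun a b => hinj (by rw [← hnv, map_mul, hnv a, hnv b, Int.cast_mul])
      map_zero' := hinj (by rw [← hnv, map_zero, Int.cast_zero])
      map_add' := fun a b => hinj (by rw [← hnv, map_add, hnv a, hnv b, Int.cast_add]) }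
  let chig : H →+* ℂ := (algebraMap (integralClosure ℤ ℂ) ℂ).comp ψ
  -- the representation
  obtain ⟨O, iC, iD, iV, iA, iZ, iF, hpO, -, -⟩ :=
    FA.RT.exists_coeffRing p (ZMod p)
  obtain ⟨O', i₁, i₂, i₃, i₄, i₅, i₆, i₇, i₈, i₉, -, ρ, hρ, hunr⟩ :=
    FA.JTorsion.exists_galoisRep_of_point p (N * r) (FA.JTorsion.goodRed_all _) S hpS O hpO
      ((Int.castRingHom O).comp χZ)
  have hpO' : (p : O') ∈ maximalIdeal O' := by
    rw [← map_natCast (algebraMap O O')]
    exact map_nonunit (algebraMap O O') _ hpO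
  obtain ⟨A, hA⟩ := FA.Deform.exists_liesOverPrime hr
  obtain ⟨σ, hσ⟩ := FA.Deform.exists_isFrobeniusAt hr hA
  have hchar := FA.ModField.trace_sq_of_new N r hasFibreData_all hrN hg hold p hrp S hpS hNS chig
    (fun ℓ hℓ hℓN hℓS => hψ ℓ hℓ hℓN hℓS)
    ((algebraMap O O').comp ((Int.castRingHom O).comp χZ)) (fun t ht => by
      have h0 : nv t = 0 := by
        have : ((nv t : ℤ) : O') = 0 := by
          rw [← map_intCast (algebraMap O O')]; exact ht
        exact_mod_cast this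
      show algebraMap (integralClosure ℤ ℂ) ℂ (ψ t) = 0
      rw [hnv t, h0, Int.cast_zero, map_zero]) hpO' ρ hρ hA hσ
  -- residual comparison
  let k := ResidueField O'
  haveI : CharP k p := (CharP.charP_iff_prime_eq_zero hp).2 (by
    rw [← map_natCast (residue O'), residue_eq_zero_iff]; exact hpO')
  let b := FA.Deform.repBasis ρ
  let r₀ : FA.Deform.GQ →* Matrix (Fin 2) (Fin 2) k :=
    FA.Deform.mapRep (residue O') (FA.Deform.matrixOf ρ b)
  let e : FA.Deform.GQ →* Matrix (Fin 2) (Fin 2) k :=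
    FA.Deform.mapRep (ZMod.castHom (dvd_refl p) k) (FA.RT.curveRep p W)
  have hr₀ : IsOpen (r₀.ker : Set FA.Deform.GQ) := by
    obtain ⟨L, hL, h⟩ := FA.Deform.isContRep_matrixOf ρ b 1
    refine Subgroup.isOpen_mono (H₁ := L.fixingSubgroup) (fun τ hτ => ?_)
      (IntermediateField.fixingSubgroup_isOpen L)
    rw [MonoidHom.mem_ker]
    show (residue O').mapMatrix (FA.Deform.matrixOf ρ b τ) = 1
    rw [← map_one (residue O').mapMatrix]
    ext i l
    have := h τ ((IntermediateField.mem_fixingSubgroup_iff L τ).mp hτ) i l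
    rw [pow_one] at this
    exact Ideal.Quotient.eq.2 this
  have he : IsOpen (e.ker : Set FA.Deform.GQ) :=
    Subgroup.isOpen_mono (fun τ hτ => by
      show (ZMod.castHom (dvd_refl p) k).mapMatrix (FA.RT.curveRep p W τ) = 1
      rw [MonoidHom.mem_ker.1 hτ, map_one]) (FA.RT.isOpen_ker_curveRep W)
  have htrP : ∀ (t : O') (d : O') (τ : FA.Deform.GQ),
      LinearMap.charpoly (ρ.ρ τ) = X ^ 2 - C t * X + C d →
      (r₀ τ).trace = residue O' t ∧ (r₀ τ).det = residue O' d := by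
    intro t d τ h
    obtain ⟨ht, hd⟩ := FA.Theta.trace_det_of_charpoly
      ((LinearMap.charpoly_toMatrix (ρ.ρ τ) b).trans h)
    constructor
    · show ((FA.Deform.matrixOf ρ b τ).map (residue O')).trace = _
      rw [← AddMonoidHom.map_trace, FA.Deform.matrixOf_apply, ht]
    · show ((residue O').mapMatrix (FA.Deform.matrixOf ρ b τ)).det = _
      rw [← RingHom.map_det, FA.Deform.matrixOf_apply, hd]
  have htrE : ∀ q : ℕ, q.Prime → W.IsGoodPrimeFor q → q ≠ p → ∀ B : ValuationSubring Qb,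
      B.LiesOverPrime q → ∀ τ : FA.Deform.GQ, B.IsFrobeniusAt τ q →
        (e τ).trace = (W.apOfModel q : k) ∧ (e τ).det = (q : k) := by
    intro q hq hg' hqp B hB τ hτ
    obtain ⟨ht, hd⟩ := FA.Theta.trace_det_of_charpoly (M := FA.RT.curveRep p W τ)
      ((LinearMap.charpoly_toMatrix _ _).trans
        (FA.Frob.charpoly_galoisRep W hq hg' (p := p) hqp.symm hB hτ))
    constructor
    · show ((FA.RT.curveRep p W τ).map (ZMod.castHom (dvd_refl p) k)).trace = _
      rw [← AddMonoidHom.map_trace, ht, map_intCast]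
    · show ((ZMod.castHom (dvd_refl p) k).mapMatrix (FA.RT.curveRep p W τ)).det = _
      rw [← RingHom.map_det, hd, map_natCast]
  obtain ⟨hT, -⟩ := FA.Density.trace_det_eq_of_frobenius r₀ e hr₀ he S (fun q hq hqS B hB τ hτ => by
    have hqN : ¬ q ∣ N * r := fun hd => hqS (hNS q hq hd)
    have hqS' : q ∉ (↑S : Set ℕ) := by simpa using hqS
    have hqp : q ≠ p := fun h => hqS (h ▸ hpS)
    obtain ⟨h1, h2⟩ := htrP _ _ τ (hρ q hq hqN hqS' B hB τ hτ)
    obtain ⟨h3, h4⟩ := htrE q hq (hgoodS q hq hqS) hqp B hB τ hτ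
    refine ⟨?_, by rw [h2, h4, map_natCast]⟩
    rw [h1, h3]
    have hT : χZ (CuspForm.heckeAlgebra.T hq hqN hqS') = W.apOfModel q := hinj (by
      show ((nv _ : ℤ) : integralClosure ℤ ℂ) = _
      rw [← hnv]
      refine Subtype.ext ((hψ q hq hqN hqS').trans ?_)
      rw [hcoef q hq (hgoodS q hq hqS) hqN]
      push_cast
      rfl)
    simp only [RingHom.comp_apply, hT, eq_intCast, map_intCast]) σ
  obtain ⟨h3, -⟩ := htrE r hr hgood hrp A hA σ hσ
  apply haux
  apply (ZMod.castHom (dvd_refl p) k).injective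
  simp only [map_mul, map_add, map_one, map_intCast, map_natCast]
  rw [← h3, ← hT]
  rcases hchar with hc | hc
  · rw [(htrP _ _ σ hc).1, map_add, map_natCast, map_one]
  · have hc' : LinearMap.charpoly (ρ.ρ σ) =
        X ^ 2 - C (-((r : O') + 1)) * X + C ((r : O')) := by rw [hc, map_neg]; ring
    rw [(htrP _ _ σ hc').1, map_neg, map_add, map_natCast, map_one, neg_mul_neg]

end FA.Root

end
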