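import Fermat.Agent.HeckeH1.BaseTower
import Fermat.Agent.HeckeH1.NonEisenstein
import Fermat.Agent.Root.LiftData
import Fermat.Agent.Root.LiftEnds
import Fermat.Agent.Root.LiftTW
import Fermat.Agent.Root.RemoveAux
import Fermat.Agent.GalCoh.GWBridge

/-!
# Modularity lifting at `3` and `5`: the levels of a pair of curves

The levels and residual system of a pair of congruent curves, and the lifting theorem at a good
prime from the towers of the pair.
-/

set_option autoImplicit false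
set_option linter.style.haveILetI false
set_option linter.unusedSectionVars false
set_option maxHeartbeats 800000

noncomputable section

open IsLocalRing Matrix WeierstrassCurve FA.RT FA.Deform FA.TW FA.Frob FA.HeckeH1
open FA.Theta (badProd)

namespace FA.Root

local notation "M2" => Matrix (Fin 2) (Fin 2)
local notation "Qb" => AlgebraicClosure ℚ
local notation "GQ" => AlgebraicClosure ℚ ≃ₐ[ℚ] AlgebraicClosure ℚ

variable {p : ℕ} [Fact p.Prime] (W W' : WeierstrassCurve ℤ)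
  [(FA.Frob.ratCurve W).IsElliptic] [(FA.Frob.ratCurve W').IsElliptic]
  {O : Type} [CommRing O] [IsDomain O] [IsDiscreteValuationRing O]
  [IsAdicComplete (maximalIdeal O) O] [Finite (ResidueField O)] [CharZero O]
  (hp2 : p ≠ 2) (hpO : (p : O) ∈ maximalIdeal O) (ι : ℤ_[p] →+* O)
  (j : ZMod p →+* ResidueField O) (P : Places) (hΔ : W.Δ ≠ 0) (hΔ' : W'.Δ ≠ 0)
  (hW : W.IsSemistableModel) {r : ℕ} (haux : LiftAux p W W' r)

local notation "SS" => pairSetup W W' hp2 hpO ι j P hΔ hW haux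

/-- The residual values. -/
def sysVal (ℓ : Nat.Primes) : ResidueField O := j (W.apOfModel ℓ : ZMod p)

/-- The omitted primes. -/
def sysSet : Finset Nat.Primes :=
  (insert p (sigSet p W W' r)).subtype Nat.Prime

theorem mem_sysSet (ℓ : Nat.Primes) :
    ℓ ∈ sysSet (p := p) W W' (r := r) ↔ (ℓ : ℕ) ∈ insert p (sigSet p W W' r) :=
  Finset.mem_subtype

omit [(FA.Frob.ratCurve W).IsElliptic] [(FA.Frob.ratCurve W').IsElliptic] in
theorem good_of_notMem (hΔ : W.Δ ≠ 0) (hΔ' : W'.Δ ≠ 0) {ℓ : ℕ} (hℓ : ℓ.Prime)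
    (h : ℓ ∉ insert p (sigSet p W W' r)) :
    ℓ ≠ p ∧ W.IsGoodPrimeFor ℓ ∧ W'.IsGoodPrimeFor ℓ := by
  simp only [Finset.mem_insert, not_or] at h
  exact ⟨h.1, fun hd => h.2 (mem_sigSet_of_dvd hΔ hΔ' hℓ h.1 (Or.inl hd)),
    fun hd => h.2 (mem_sigSet_of_dvd hΔ hΔ' hℓ h.1 (Or.inr hd))⟩

/-- The levels of the pair: the fixed primes and, at a bad `p`, the prime `p`. -/
def pairLevels : LevelSet (fun x : Rem SS r => x.1.1) (insert p (sigSet p W W' r)) where
  L0 := (∏ q ∈ fixSet SS r, q) * (if (p : ℤ) ∣ W.Δ then p else 1)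
  S := sysSet (p := p) W W' (r := r)
  pos := mul_ne_zero (Finset.prod_ne_zero_iff.2 fun q hq => by
      obtain ⟨hqS, -⟩ := (mem_fixSet SS r).mp hq
      exact ((SS).prime_Sig q hqS).1.ne_zero) (by
    split
    exacts [(Fact.out : p.Prime).ne_zero, one_ne_zero])
  prime x := ((SS).prime_Sig _ x.1.2).1
  inj _ _ h := Subtype.ext (Subtype.ext h)
  not_dvd x h := by
    obtain ⟨hx, hxp⟩ := (SS).prime_Sig _ x.1.2
    rcases hx.dvd_mul.1 h with h | h
    · exact rem_not_dvd_fix SS r x h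
    · split at h
      · exact hxp ((Nat.prime_dvd_prime_iff_eq hx (Fact.out : p.Prime)).1 h)
      · exact hx.not_dvd_one h
  mem_S x := (mem_sysSet W W' _).2 (Finset.mem_insert_of_mem x.1.2)
  mem_bad ℓ hℓ h := by
    rcases hℓ.dvd_mul.1 h with h | h
    · obtain ⟨q, hq, hdvd⟩ := (Nat.Prime.prime hℓ).exists_mem_finset_dvd h
      obtain ⟨hqS, -⟩ := (mem_fixSet SS r).mp hq
      rw [(Nat.prime_dvd_prime_iff_eq hℓ ((SS).prime_Sig q hqS).1).1 hdvd]
      exact Finset.mem_insert_of_mem hqS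
    · split at h
      · exact Finset.mem_insert.2 (Or.inl ((Nat.prime_dvd_prime_iff_eq hℓ Fact.out).1 h))
      · exact absurd h hℓ.not_dvd_one
  qn_bad x := Finset.mem_insert_of_mem x.1.2

local notation "LL" => pairLevels W W' hp2 hpO ι j P hΔ hW haux

theorem pairLevels_lvl (U : Finset (Rem SS r)) :
    (LL).lvl U = lvl SS r U * (if (p : ℤ) ∣ W.Δ then p else 1) := by
  show ((∏ q ∈ fixSet SS r, q) * _) * _ = ((∏ q ∈ fixSet SS r, q) * _) * _
  ring

include hpO hp2 hΔ in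
omit [IsAdicComplete (maximalIdeal O) O] [Finite (ResidueField O)] [CharZero O]
  [(FA.Frob.ratCurve W').IsElliptic] in
/-- The residual system is not Eisenstein. -/
theorem pair_nonEisenstein (hirr : W.ModRepIsIrreducible p) :
    ∀ N : ℕ, N ≠ 0 → ∃ ℓ : Nat.Primes, ¬ (ℓ : ℕ) ∣ N ∧
      ((ℓ : ℕ) : ZMod N) = 1 ∧ sysVal W j ℓ ≠ ((ℓ : ℕ) : ResidueField O) + 1 := by
  intro N hN
  obtain ⟨l, hl, hlS, -, -, hmod, ht⟩ := exists_prime_trace_ne_two (FA.Frob.ratCurve W)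
    (W := W) ⟨1, one_smul _ _⟩ Fact.out hp2 hirr (Nat.pos_of_ne_zero hN) N.primeFactors
  have hlN : ¬ l ∣ N := fun h => hlS (Nat.mem_primeFactors.2 ⟨hl, h, hN⟩)
  refine ⟨⟨l, hl⟩, hlN, ?_, ?_⟩
  · rw [← Nat.cast_one]
    exact (ZMod.natCast_eq_natCast_iff _ _ _).2 (hmod.of_mul_right p)
  · have hp1 : (l : ZMod p) = 1 := by
      rw [← Nat.cast_one]
      exact (ZMod.natCast_eq_natCast_iff _ _ _).2 (hmod.of_mul_left N)
    show j _ ≠ _
    rw [← map_natCast j, hp1, ← map_one j, ← map_add]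
    exact fun h => ht (RingHom.injective j h |>.trans one_add_one_eq_two)

omit [IsAdicComplete (maximalIdeal O) O] [Finite (ResidueField O)] [CharZero O] in
/-- Congruent curves have the same residual values. -/
theorem apOfModel_congr (hΔ : W.Δ ≠ 0) (hΔ' : W'.Δ ≠ 0)
    (hcong : ∃ U : M2 (ZMod p), IsUnit U ∧ ∀ σ, U * curveRep p W σ = curveRep p W' σ * U)
    (ℓ : Nat.Primes) (h : ℓ ∉ sysSet (p := p) W W' (r := r)) :
    ((W'.apOfModel ℓ : ℤ) : ResidueField O) = sysVal W j ℓ := by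
  rw [mem_sysSet] at h
  obtain ⟨hℓp, hg, hg'⟩ := good_of_notMem W W' hΔ hΔ' ℓ.2 h
  obtain ⟨A, hA⟩ := FA.Deform.exists_liesOverPrime ℓ.2
  obtain ⟨σ, hσ⟩ := FA.Deform.exists_isFrobeniusAt ℓ.2 hA
  obtain ⟨U, hU, hUσ⟩ := hcong
  obtain ⟨u, rfl⟩ := hU
  have h1 : (curveRep p W' σ).trace = (curveRep p W σ).trace := by
    rw [show curveRep p W' σ = u.1 * curveRep p W σ * u⁻¹.1 by
      rw [hUσ σ, mul_assoc, Units.mul_inv, mul_one], Matrix.trace_units_conj]
  rw [trace_curveRep W' ℓ.2 hg' (Ne.symm hℓp) hA hσ, trace_curveRep W ℓ.2 hg (Ne.symm hℓp) hA hσ]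
    at h1
  rw [sysVal, ← h1, map_intCast]

include hpO ι P hΔ hΔ' hW haux hp2 in
omit [IsAdicComplete (maximalIdeal O) O] in
/-- The determinant of the residual representation is cyclotomic and it is unramified outside the
primes of the problem. -/
theorem pair_greenbergWiles [IsAdicComplete (maximalIdeal O) O] :
    Nonempty (GreenbergWiles P (SS).T (adRep (SS).rb) (twRep (SS).rb) complexConjugation) := by
  have : CharP (ResidueField O) p := (CharP.charP_iff_prime_eq_zero Fact.out).mpr (by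
    rw [← map_natCast (residue O), residue_eq_zero_iff]; exact hpO)
  refine FA.GalCoh.nonempty_greenbergWiles hp2 _ (isOpen_ker_mapRep_curveRep W j)
    (fun σ a ha => det_mapRep_curveRep W j σ a ha) P _ (Finset.mem_insert_self _ _) ?_
  exact curveSetup_unr W hp2 hpO ι j P hΔ hW (sigSet p W W' r) (sigSet_spec haux) fun q hq hd => by
    by_cases h : q = p
    · exact Or.inl h
    · exact Or.inr (mem_sigSet_of_dvd hΔ hΔ' hq h (Or.inl hd))

include hΔ' in
/-- **The point of the congruent modular curve.** -/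
theorem exists_pairPoint (hW'mod : W'.IsModularModelOfLevel (badProd W'))
    (hcong : ∃ U : M2 (ZMod p), IsUnit U ∧ ∀ σ, U * curveRep p W σ = curveRep p W' σ * U)
    (hpp : (p : ℤ) ∣ W.Δ ↔ (p : ℤ) ∣ W'.Δ) :
    ∃ χ : ((LL).baseLevels (sysVal W j)).A (topSet SS r W') →ₐ[O] O,
      ∀ ℓ : ℕ, ℓ.Prime → ℓ ∉ insert p (sigSet p W W' r) →
        χ (((LL).baseLevels (sysVal W j)).T (topSet SS r W') ℓ) = (W'.apOfModel ℓ : O) := by
  classical
  have hlvl : (LL).lvl (topSet SS r W') = badProd W' * r := by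
    rw [pairLevels_lvl, show (if (p : ℤ) ∣ W.Δ then p else 1) =
      (if (p : ℤ) ∣ W'.Δ then p else 1) by simp only [hpp]]
    exact (lvl_pair W W' hp2 hpO ι j P hΔ hΔ' hW haux hcong).2
  haveI : NeZero (badProd W') := ⟨(badProd_pos W').ne'⟩
  haveI : Fact r.Prime := ⟨haux.prime⟩
  obtain ⟨z, hz, hz0, heig⟩ := exists_eigenclass_of_modular hW'mod
  obtain ⟨y, hy, hy0, hyeig⟩ := exists_eigenclass_raised (N := badProd W') (r := r)
    (fun h => haux.good' ((prime_dvd_badProd_iff hΔ' haux.prime).1 h))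
    (fun ℓ => W'.apOfModel ℓ) (fun ℓ => W'.IsGoodPrimeFor ℓ) z hz hz0 heig
  haveI : NeZero (badProd W' * r) := ⟨mul_ne_zero (NeZero.ne _) haux.prime.ne_zero⟩
  exact exists_levelPoint LL (sysVal W j) _ hlvl (fun ℓ => W'.apOfModel ℓ) y hy0
    (fun ℓ _ hℓ => hyeig ℓ hℓ fun h => hℓ (((prime_dvd_badProd_iff hΔ' Fact.out).2 h).mul_right r))
    (fun ℓ hℓ => (mem_sysSet W W' ℓ).2 hℓ)
    (fun ℓ hℓ => apOfModel_congr W W' j hΔ hΔ' hcong ℓ hℓ)

include hΔ' in
/-- **A point at the level of the curve makes it modular.** -/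
theorem isModular_of_pairPoint
    (hirr : W.ModRepIsIrreducible p)
    (hcong : ∃ U : M2 (ZMod p), IsUnit U ∧ ∀ σ, U * curveRep p W σ = curveRep p W' σ * U)
    (w : Setup.ZeroPoint SS)
    (hw : ∀ ℓ : ℕ, ℓ.Prime → ℓ ∉ (SS).T → ∀ A : ValuationSubring Qb, A.LiesOverPrime ℓ →
      ∀ σ : GQ, A.IsFrobeniusAt σ ℓ → (w.r σ).trace = (W.apOfModel ℓ : O))
    (χ : Algebra.adjoin O {a : ((LL).baseLevels (sysVal W j)).A (topSet SS r W) |
        ∃ ℓ : ℕ, ℓ.Prime ∧ ℓ ∉ insert p (sigSet p W W' r) ∧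
          a = ((LL).baseLevels (sysVal W j)).T (topSet SS r W) ℓ} →ₐ[O] O)
    (hχ : ∀ (ℓ : ℕ) (hℓ : ℓ.Prime) (hℓb : ℓ ∉ insert p (sigSet p W W' r)),
      ∀ A : ValuationSubring Qb, A.LiesOverPrime ℓ → ∀ σ : GQ, A.IsFrobeniusAt σ ℓ →
        χ ⟨((LL).baseLevels (sysVal W j)).T (topSet SS r W) ℓ,
          Algebra.subset_adjoin ⟨ℓ, hℓ, hℓb, rfl⟩⟩ = (w.r σ).trace) :
    W.IsModularModelOfLevel (badProd W) := by
  classical
  haveI : NeZero (badProd W) := ⟨(badProd_pos W).ne'⟩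
  haveI : Fact r.Prime := ⟨haux.prime⟩
  have hlvl : (LL).lvl (topSet SS r W) = badProd W * r := by
    rw [pairLevels_lvl]
    exact (lvl_pair W W' hp2 hpO ι j P hΔ hΔ' hW haux hcong).1
  refine isModularModelOfLevel_of_aux (r := r) (p := p) hΔ
    (fun h => haux.good ((prime_dvd_badProd_iff hΔ haux.prime).1 h)) haux.ne haux.good ?_ ?_
  · rw [haux.cast_eq, neg_add_cancel, zero_mul]
    exact mul_self_ne_zero.mpr haux.trace_ne
  haveI : NeZero (badProd W * r) := ⟨mul_ne_zero (NeZero.ne _) haux.prime.ne_zero⟩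
  refine isModular_of_levelPoint LL (sysVal W j) (pair_nonEisenstein W hp2 hpO j hΔ hirr) _ hlvl hΔ
    χ fun ℓ hℓ hb => ?_
  obtain ⟨A, hA⟩ := FA.Deform.exists_liesOverPrime hℓ
  obtain ⟨σ, hσ⟩ := FA.Deform.exists_isFrobeniusAt hℓ hA
  rw [← hw ℓ hℓ hb A hA σ hσ]
  exact hχ ℓ hℓ hb A hA σ hσ

include hΔ' in
/-- **Modularity lifting from the towers of the pair**, for curves of the same reduction at `p`. -/
theorem modular_of_towers (hW' : W'.IsSemistableModel) (hirr : W.ModRepIsIrreducible p)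
    (hcong : ∃ U : M2 (ZMod p), IsUnit U ∧ ∀ σ, U * curveRep p W σ = curveRep p W' σ * U)
    (hpp : (p : ℤ) ∣ W.Δ ↔ (p : ℤ) ∣ W'.Δ)
    (hsplit : ∀ t d : ZMod p, ∃ a, a * a - j t * a + j d = 0)
    (hW'mod : W'.IsModularModelOfLevel (badProd W'))
    (sep : ∀ U, (SS).Separation (Subtype.val : Rem SS r → ↥(SS).Sig)
      ((LL).baseLevels (sysVal W j)) U
      ((SS).BaseAllowed (fun B _ _ _ m => AtWorld p W B m)))
    (hmono : Setup.MonoTower ((LL).baseTower SS (sysVal W j)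
      (pair_nonEisenstein W hp2 hpO j hΔ hirr) sep))
    (hdep : ∀ (rr n : ℕ) (D : (SS).TWSet rr n) (ab : Fin rr → ResidueField O),
      Function.Injective D.qv → IsTameGenSet D → (∀ i, D.qv i ∉ (SS).T) →
      (∀ i, ab i * ab i - ((SS).rb (D.φ i)).trace * ab i + ((SS).rb (D.φ i)).det = 0) →
      Nonempty (Setup.DepthTower ((LL).baseTower SS (sysVal W j)
        (pair_nonEisenstein W hp2 hpO j hΔ hirr) sep) D ab)) :
    W.IsModularModelOfLevel (badProd W) := by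
  classical
  obtain ⟨w', w, hw', hw, hwunr, htr⟩ :=
    exists_points W W' hp2 hpO ι j P hΔ hΔ' hW haux hW' hcong hpp
  obtain ⟨χ', hχ'⟩ := exists_pairPoint W W' hp2 hpO ι j P hΔ hΔ' hW haux hW'mod hcong hpp
  obtain ⟨GW⟩ := pair_greenbergWiles W W' hp2 hpO ι j P hΔ hΔ' hW haux
  have hbad : ∀ q : ℕ, q.Prime → (q : ℤ) ∣ W.Δ → q = p ∨ q ∈ sigSet p W W' r := fun q hq hd => by
    by_cases h : q = p
    · exact Or.inl h
    · exact Or.inr (mem_sigSet_of_dvd hΔ hΔ' hq h (Or.inl hd))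
  obtain ⟨⟨F, hF⟩, hup⟩ :=
    curveSetup_frame W hp2 hpO ι j P hΔ hW (sigSet p W W' r) (sigSet_spec haux) hirr
  obtain ⟨rr, hrr⟩ := curveSetup_twSets W hp2 hpO ι j P hΔ hW (sigSet p W W' r) (sigSet_spec haux)
    hirr hbad GW ∅
  have htw : ∃ rr : ℕ, ∀ n : ℕ, ∃ (D : (SS).TWSet rr n) (ab : Fin rr → ResidueField O),
      (∀ i, ab i * ab i - ((SS).rb (D.φ i)).trace * ab i + ((SS).rb (D.φ i)).det = 0) ∧
      (∀ i, D.qv i ∉ (SS).T) ∧ Nonempty (Setup.DepthTower ((LL).baseTower SS (sysVal W j)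
        (pair_nonEisenstein W hp2 hpO j hΔ hirr) sep) D ab) := by
    refine ⟨rr, fun n => ?_⟩
    obtain ⟨D₀, hinj₀, hD₀⟩ := hrr n
    obtain ⟨D, hDq, hgen⟩ := exists_retame D₀
    have hinj : Function.Injective D.qv := hDq ▸ hinj₀
    have hD : ∀ i, D.qv i ∉ (SS).T := fun i => hDq ▸ (hD₀ i).1
    choose ab hab using fun i => exists_root_curveRep W j hsplit (D.φ i)
    exact ⟨D, ab, hab, hD, hdep rr n D ab hinj hgen hD hab⟩
  obtain ⟨χ, hχ⟩ := Setup.eigen_of_tower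
    ((LL).baseTower SS (sysVal W j) (pair_nonEisenstein W hp2 hpO j hΔ hirr) sep) hmono
    Subtype.val_injective (fun x => x.2.2)
    (trace_sq_ne_of_fixed W W' hp2 hpO ι j P hΔ hW haux)
    ⟨r, mem_pairSetup_Sig W W' hp2 hpO ι j P hΔ hW haux⟩
    (curveSetup_cyc_frob W hp2 hpO ι j P hΔ hW _ (sigSet_spec haux))
    (curveSetup_cyc_tame W hp2 hpO ι j P hΔ hW _ (sigSet_spec haux))
    (curveSetup_span W hp2 hpO ι j P hΔ hW _ (sigSet_spec haux) hirr) F hF hup
    (fun S' M h => curveSetup_atP W hp2 hpO ι j P hΔ hW _ (sigSet_spec haux) S' M h)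
    htw (Utop := topSet SS r W') (Utar := topSet SS r W) w' w hw' hw hwunr χ'
    (fun ℓ hℓ hb A hA σ hσ => (hχ' ℓ hℓ hb).trans (htr ℓ hℓ hb A hA σ hσ).1.symm)
  exact isModular_of_pairPoint W W' hp2 hpO ι j P hΔ hΔ' hW haux hirr hcong w
    (fun ℓ hℓ hb A hA σ hσ => (htr ℓ hℓ hb A hA σ hσ).2) χ hχ

include hΔ' in
/-- **Modularity lifting from the towers of the pair**, at a good `p`. -/
theorem modular_of_towers_good (hW' : W'.IsSemistableModel) (hirr : W.ModRepIsIrreducible p)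
    (hcong : ∃ U : M2 (ZMod p), IsUnit U ∧ ∀ σ, U * curveRep p W σ = curveRep p W' σ * U)
    (hgood : W.IsGoodPrimeFor p) (hgood' : W'.IsGoodPrimeFor p)
    (hsplit : ∀ t d : ZMod p, ∃ a, a * a - j t * a + j d = 0)
    (hW'mod : W'.IsModularModelOfLevel (badProd W'))
    (sep : ∀ U, (SS).Separation (Subtype.val : Rem SS r → ↥(SS).Sig)
      ((LL).baseLevels (sysVal W j)) U
      ((SS).BaseAllowed (fun B _ _ _ m => AtWorld p W B m)))
    (hmono : Setup.MonoTower ((LL).baseTower SS (sysVal W j)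
      (pair_nonEisenstein W hp2 hpO j hΔ hirr) sep))
    (hdep : ∀ (rr n : ℕ) (D : (SS).TWSet rr n) (ab : Fin rr → ResidueField O),
      Function.Injective D.qv → IsTameGenSet D → (∀ i, D.qv i ∉ (SS).T) →
      (∀ i, ab i * ab i - ((SS).rb (D.φ i)).trace * ab i + ((SS).rb (D.φ i)).det = 0) →
      Nonempty (Setup.DepthTower ((LL).baseTower SS (sysVal W j)
        (pair_nonEisenstein W hp2 hpO j hΔ hirr) sep) D ab)) :
    W.IsModularModelOfLevel (badProd W) :=
  modular_of_towers W W' hp2 hpO ι j P hΔ hΔ' hW haux hW' hirr hcong (iff_of_false hgood hgood')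
    hsplit hW'mod sep hmono hdep

end FA.Root

end
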