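import Fermat.Agent.Root.Removal

/-!
# The removal step for Frey packages

The integral Frey model is finite flat at `p` residually, and residual modularity passes to the
Frey package.
-/

set_option autoImplicit false
set_option linter.style.haveILetI false
set_option linter.unusedSectionVars false

noncomputable section

open scoped WeierstrassCurve.Affine
open IsLocalRing Matrix WeierstrassCurve FA.RT FA.Deform FA.TW FA.Frob FA.HeckeH1

namespace FA.Root

local notation "Qb" => AlgebraicClosure ℚ

variable (P : FreyPackage)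

/-- The integral Frey model gives the Frey curve. -/
theorem ratCurve_freyInt : FA.Frob.ratCurve P.freyCurveInt = P.freyCurve :=
  FA.Switch.freyInt_map P

instance isElliptic_ratCurve_freyInt : (FA.Frob.ratCurve P.freyCurveInt).IsElliptic :=
  FA.Frob.ratCurve_isElliptic_of_Δ (FA.Switch.freyInt_Δ_ne_zero P)

/-- At `p` the valuation of the discriminant is divisible by `p`. -/
theorem freyInt_padicVal (h : (P.p : ℤ) ∣ P.freyCurveInt.Δ) :
    P.p ∣ padicValInt P.p P.freyCurveInt.Δ := by
  haveI : Fact P.p.Prime := ⟨P.pp⟩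
  have h1 := congrArg (padicValInt P.p) (FA.Switch.freyInt_Δ P)
  have h256 : padicValInt P.p 256 = 0 := padicValInt.eq_zero_of_not_dvd fun hd => by
    have h2 : P.p ∣ 2 ^ 8 := by exact_mod_cast hd
    have h3 := (Nat.prime_dvd_prime_iff_eq P.pp Nat.prime_two).1 (P.pp.dvd_of_dvd_pow h2)
    have := P.hp5
    omega
  rw [padicValInt.mul (by norm_num) (FA.Switch.freyInt_Δ_ne_zero P), h256, zero_add,
    show (P.a ^ P.p * P.b ^ P.p * P.c ^ P.p) ^ 2 = (P.a * P.b * P.c) ^ (P.p * 2) by ring,
    padicValInt, padicValInt, Int.natAbs_pow, padicValNat.pow] at h1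
  exact ⟨2 * padicValInt P.p (P.a * P.b * P.c), by rw [padicValInt, h1, padicValInt]; ring⟩

/-- The residual representation of an irreducible Frey package. -/
theorem freyInt_irreducible
    (hirr : Affine.Point.GaloisRepIsIrreducible (K := Qb) ℚ P.freyCurve P.p) :
    P.freyCurveInt.ModRepIsIrreducible P.p := by
  unfold WeierstrassCurve.ModRepIsIrreducible
  rw [show P.freyCurveInt.map (Int.castRingHom ℚ) = P.freyCurve from FA.Switch.freyInt_map P]
  exact hirr

/-- Unramified torsion gives the trivial matrix on inertia. -/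
theorem curveRep_freyInt_eq_one [Fact P.p.Prime] {q : ℕ} (h : P.GaloisRepUnramifiedAt q)
    {A : ValuationSubring Qb} (hA : A.LiesOverPrime q) {σ : Qb ≃ₐ[ℚ] Qb}
    (hσ : σ ∈ A.inertiaSubgroupIn ℚ) : curveRep P.p P.freyCurveInt σ = 1 := by
  refine (curveRep_eq_one_iff _ σ).2 ?_
  have key : ∀ (E : WeierstrassCurve ℚ), E = P.freyCurve →
      ∀ x : Submodule.torsionBy ℤ ((E⁄Qb).toAffine).Point P.p, σ • x = x := by
    rintro E rfl
    exact h A hA σ hσ
  exact key _ (ratCurve_freyInt P)

section step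

variable {O : Type} [CommRing O] [IsDomain O] [IsDiscreteValuationRing O]
  [IsAdicComplete (maximalIdeal O) O] [CharZero O] [Finite (ResidueField O)]
  [Fact P.p.Prime] (hp2 : P.p ≠ 2) (hpO : (P.p : O) ∈ maximalIdeal O) (ι : ℤ_[P.p] →+* O)
  (j : ZMod P.p →+* ResidueField O) (Pl : Places) (N : ℕ)
  {q : ℕ} (hq : q.Prime) (hqp : q ≠ P.p) (hqN : q ∣ N) (hN : Squarefree N) (hpN : ¬ P.p ∣ N)

local notation "SF" => remSetup P.freyCurveInt hp2 hpO ι j Pl (FA.Switch.freyInt_Δ_ne_zero P)
  (FA.Switch.freyInt_semistable P) (freyInt_padicVal P) N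
local notation "LF" => remLevels P.freyCurveInt hp2 hpO ι j Pl (FA.Switch.freyInt_Δ_ne_zero P)
  (FA.Switch.freyInt_semistable P) (freyInt_padicVal P) N hq hqp hqN hN hpN

/-- **The removal step for a Frey package**, given the towers. -/
theorem modularRepOfLevel_div
    (hirr : Affine.Point.GaloisRepIsIrreducible (K := Qb) ℚ P.freyCurve P.p)
    (hsplit : ∀ t d : ZMod P.p, ∃ a, a * a - j t * a + j d = 0)
    (hunr : P.GaloisRepUnramifiedAt q)
    (sep : ∀ U, Setup.Separation SF (remEmb P.freyCurveInt hp2 hpO ι j Pl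
      (FA.Switch.freyInt_Δ_ne_zero P) (FA.Switch.freyInt_semistable P) (freyInt_padicVal P) N hq hqp
      hqN hN) ((LF).baseLevels (remSys P.freyCurveInt)) U
      ((SF).BaseAllowed fun B _ _ _ m => AtFlat P.p B m))
    (S₀ : Finset ℕ)
    (hdepth : ∀ (r n : ℕ) (D : (SF).TWSet r n), Function.Injective D.qv → IsTameGenSet D →
      (∀ i, D.qv i ∉ (SF).T ∧ D.qv i ∉ S₀) → ∀ ab : Fin r → ResidueField O,
        (∀ i, ab i * ab i - ((SF).rb (D.φ i)).trace * ab i + ((SF).rb (D.φ i)).det = 0) →
          Nonempty (Setup.DepthTower ((LF).baseTower SF (remSys P.freyCurveInt)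
            (remSys_ne P.freyCurveInt hp2 hpO (FA.Switch.freyInt_Δ_ne_zero P)
              (freyInt_irreducible P hirr)) sep) D ab))
    (hmono : Setup.MonoTower ((LF).baseTower SF (remSys P.freyCurveInt)
      (remSys_ne P.freyCurveInt hp2 hpO (FA.Switch.freyInt_Δ_ne_zero P)
        (freyInt_irreducible P hirr)) sep))
    (h : P.ModularRepOfLevel N) : P.ModularRepOfLevel (N / q) := by
  haveI : NeZero N := ⟨hN.ne_zero⟩
  exact modularRep_of_isResiduallyModularOfLevel
    (isResiduallyModularOfLevel_div P.freyCurveInt hp2 hpO ι j Pl (FA.Switch.freyInt_Δ_ne_zero P)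
      (FA.Switch.freyInt_semistable P) (freyInt_padicVal P) N hq hqp hqN hN hpN
      (freyInt_irreducible P hirr) hsplit
      (curveRep_freyInt_eq_one P (A := (SF).P.place q) hunr (Pl.liesOver q hq)
        ((SF).tame_mem (remEmb P.freyCurveInt hp2 hpO ι j Pl (FA.Switch.freyInt_Δ_ne_zero P)
          (FA.Switch.freyInt_semistable P) (freyInt_padicVal P) N hq hqp hqN hN ())))
      sep S₀ hdepth hmono
      (isResiduallyModularOfLevel_of_modularRep hN.ne_zero h))

end step

end FA.Root

end
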