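import Fermat.Agent.Root.LoweringSemistable
import Fermat.Agent.Root.RemovalFrey
import Fermat.Agent.S09

/-!
# Frey packages from semistable level lowering

The discriminant of the Frey curve is `(a b c) ^ (2 p) / 256`, so the criterion for semistable
curves contradicts the irreducibility of its `p`-torsion.
-/

set_option autoImplicit false

noncomputable section

namespace FA.Root

open WeierstrassCurve

/-- The `p`-torsion of a Frey curve is reducible, by semistable level lowering. -/
theorem not_freyInt_modRepIsIrreducible (P : FreyPackage) :
    ¬ P.freyCurveInt.ModRepIsIrreducible P.p := by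
  have : Fact P.p.Prime := ⟨P.pp⟩
  refine not_modRepIsIrreducible_of_eq_pow (by have := P.hp5; omega)
    (FA.Switch.freyInt_Δ_ne_zero P) (FA.Switch.freyInt_semistable P) (a := 8) (b := 0)
    (t := (P.a * P.b * P.c) ^ 2) ?_
  rw [pow_zero, one_mul, show (2 : ℤ) ^ 8 = 256 by norm_num, FA.Switch.freyInt_Δ, ← mul_pow,
    ← mul_pow, pow_right_comm]

/-- **There is no Frey package**: a second derivation, from modularity of semistable curves. -/
theorem false_of_freyPackage_of_semistable (P : FreyPackage) : False :=
  not_freyInt_modRepIsIrreducible P (freyInt_irreducible P (Fermat.Agent.S09.result P))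

end FA.Root

end
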