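import Fermat.Agent.Root.Summary
import Fermat.Agent.Torsion.Summary
import Fermat.Agent.MordellWeil.Summary
import Fermat.Agent.HasseBound.FiniteField

/-!
# Overview

Index of the results proved here; none of this is used by the graded statements.  This file does not
import the summaries it indexes (one process cannot hold all of them): build and import those directly.  The names below
are in `FA.Summary` unless another namespace is given.

## Fermat
* `Fermat.Agent.S01.result`, `fermat`: Fermat's Last Theorem.
* `fermatCurve_points_of_odd`, `fermatCurve_points_of_even`, `fermat_int_mul_eq_zero`,
  `fermat_zpow_mul_eq_zero`: rational points of the Fermat curves, negative exponents.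
* `fermat_rationalExponent`, `rationalExponent_soluble_iff`, `rationalExponent_solutions_iff`:
  `a ^ r + b ^ r = c ^ r` with rational `r` is soluble in positive integers exactly when the
  numerator of `r` is `±1` or `±2`, and then the solutions are multiples of `r.den`th powers.
* `besicovitch`, `rpow_rational_of_sum`, `manyTerm_solutions_iff`, `manyTerm_soluble_iff`,
  `euler_fails_five_div`: radicals with pairwise irrational ratios are linearly independent over
  `ℚ`; so `a₁ ^ r + ... + aₖ ^ r = c ^ r` reduces to the exponent `r.num`.
* `fermat_complexRoots_iff` (Bennett, Glass, Székely): for `n ≥ 3` prime to `m`, `m`th roots in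
  `ℂ` of positive integers `a`, `b`, `c` satisfy Fermat's equation only for `a = b = c`, `6 ∣ m`.
* `fermat_ratRootsOfUnity`, `fermatCurve_ratRootsOfUnity_ncard`: Fermat on rational multiples of
  roots of unity; the curve `x ^ n + y ^ n = 1` has exactly `2 n² + 2 n` such points.
* `fermat_fractionRing`, `fermat_ratFunc`, `fermat_mvRatFunc`, `fermat_laurentSeries_fails`: FLT
  holds over `ℚ(X)` and `ℚ(Xᵢ)` in any number of variables, and fails in `ℚ⟦X⟧` and `ℚ((X))` for
  every exponent (`1 + X ^ n` is an `n`th power).
* `fermat_mod_prime`, `fermat_padic_units`, `fermat_padic`, `fermat_local_not_global`: Schur's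
  theorem, nonzero solutions modulo every `p > 3 n!`, in every `ℤ_p` and in `ℝ`, none in `ℚ`.
* `fermatCurve_pointCount`, `fermat_finiteField`, `fermat_mod_prime_fourth_power`: Weil's bound
  for the Fermat curves over finite fields; so nonzero solutions modulo every odd `p > n ^ 4`.
* `firstCase_local_tfae`, `firstCase_soluble_of_one_mod_three`, `firstCase_below_hundred`: the first
  case is soluble modulo every power of `p` iff modulo `p²`, so always for `p ≡ 1 (mod 3)`.

## Modularity and L-functions
* `modularity_cases`: all the curves shown modular in one statement (at every prime semistable,
  `v_p(j) < 0`, or `p ≥ 5` and `6 ∣ v_p(Δ)`; or some quadratic twist semistable; or `j ∈ {0, 1728,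
  66³, 54000, -12288000, -3375, 16581375, 8000, -32768, -884736, -884736000, -147197952000,
  -262537412640768000}`, all thirteen CM values): all coefficients, entire continuation.
  `exists_semistable_twist_of_six_dvd`: the local conditions give such a twist.
* `modularity`, `functionalEquation`, `centralValue`, `noGoodReductionEverywhere`, `badPrimes`:
  semistable curves.
* `setzer_neumann`, `setzer_neumann_iff`, `setzer_neumann_rat`: Setzer–Neumann, semistable curves
  with one bad prime `p` and a rational point of order two exist exactly for `p = 17` and
  `p = u² + 64`; their discriminants (via `u² + 64 ≠ y ^ n` from level lowering).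
* `miyawaki`, `miyawaki_iff`, `miyawaki_rat`: Miyawaki, with one bad prime `p` a semistable curve
  has nontrivial rational torsion exactly for `p = 11, 17, 19, 37, u² + 64` (torsion `5; 2; 3; 3;
  2`), by Mazur's theorem and modularity.
* `mestre_oesterle`, `mestre_oesterle_iff`, `mestre_oesterle_rat`: Mestre–Oesterlé, with one bad
  prime `p` the discriminant of a semistable curve is `±p`, apart from exactly `-11⁵`, `17²`,
  `-17⁴`, `-19³`, `37³` and `-p²` for `p = u² + 64`.
* `stableSubgroup_primeConductor_iff`, `noStableSubgroup_primeConductor`,
  `galoisImage_primeConductor`, `serreCurve_primeConductor`, `serreCurve43`: with one bad prime `p`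
  a semistable curve has an isogeny of prime degree only `2` (`17`, `u² + 64`), `3` (`19`, `37`) or
  `5` (`11`); for every other `p` all `l`-adic images are everything and it is a Serre curve.
* `torsion_primeConductor_iff`, `torsion_primeConductor_two_iff`, `torsion_primeConductor_rat`:
  with one bad prime `p` the nontrivial rational torsion groups are exactly `ℤ/5` (`11`), `ℤ/4`,
  `ℤ/2 × ℤ/2` (`17`), `ℤ/3` (`19`, `37`) and `ℤ/2` (`17`, `u² + 64`).
* `setzer_neumann_rank_zero`, `setzer_neumann_rank_zero_rat`, `setzer_neumann_family`: with one
  bad prime `p ≠ 17` and a rational point of order two the Mordell–Weil group is exactly `ℤ/2`: the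
  curves of Setzer and Neumann have rank zero.
* `twoIsogeny_rank_le`, `rank_le_of_two_torsion`, `congruentNumber_rank_le`: Tate's bound, the
  rank of `y² = x³ + a x² + b x` is less than `ω(b) + ω(a² - 4 b)`; a rational point of order two
  gives rank below `2 ω(2 Δ)`; `y² = x³ - n² x` has rank below `ω(n) + ω(2 n)`.
* `lind_reichardt`, `lind_reichardt_family`, `point_group_quartic_prime_biquadratic`: the Hasse
  principle fails for `2 w² = z⁴ - p`, `p ≡ 1 (mod 8)` with `2` no fourth power modulo `p`
  (infinitely many primes, `17` the first), and `y² = x³ + p x` then has group exactly `ℤ/2`.
* `modularity_level`: semistable curves are modular of level the product of the bad primes, the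
  conductor in the functional equation.
* `modularity_twist`, `exists_semistable_twist_of_j_all`, `modularity_of_j_all`: curves with a
  semistable quadratic twist.
* `modularity_twist_LFunction`, `entire_continuation_twist`, `functionalEquation_twist`,
  `modularity_of_j_LFunction`, `entire_continuation_of_j`, `functionalEquation_of_j`: all
  coefficients, continuation and functional equation for these curves.
* `strongMultiplicityOne`, `strongMultiplicityOne_rootNumber`, `strongMultiplicityOne_twist`,
  `sign_eq_of_LFunction_eq`: coefficients at almost all primes determine the L-function.
* `coefficients_dvd_almostAll` (Serre): for every curve and every `m ≥ 1`, `m ∣ a_n` outside a set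
  of natural density zero.
* `cm_coefficients_zero_almostAll`, `sumTwoSquares_density_zero`: for the thirteen CM invariants
  `a_n = 0` outside density zero; sums of two squares have natural density zero.
* `totient_dvd_almostAll`, `sigma_dvd_almostAll`, `primitiveRoot_moduli_density_zero`: `m ∣ φ(n)` and
  `m ∣ σ_k(n)` (`k` odd) outside density zero; few moduli have a primitive root.
* `centralValue_twist`, `centralValue_of_j`: parity of the order at the centre for twists.
* `functionalEquation_cm`, `centralValue_cm_eq_zero`: for q = 11, 19, 43, 67, 163 the models of
  discriminant -q³ with CM by the integers of ℚ(√-q) have root number -1 at level q² and a zero of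
  odd order at 1; `rankPositive_cm`: they also have a point of infinite order.
* `quadraticGaussSum_sign`, `legendreGaussSum_sign` (Gauss): the quadratic Gauss sum of an odd prime
  p is √p or i√p as p is 1 or 3 mod 4 (used for that functional equation).
* `modularity_32a`, `isModular_32a`, `entire_continuation_32a`: the CM curve `y² = x³ - x`.
* `congruentCurve_modular`, `entire_continuation_congruentCurve`,
  `functionalEquation_congruentCurve`, `congruentCurve_central_zero`: all congruent number curves.
* `modularity_of_j_eq_287496`, `entire_continuation_of_j_eq_287496`, `modularity_four_sq`,
  `entire_continuation_four_sq`: curves with `j = 66³`, the curves `y² = x³ + 4 n² x`.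
* `modularity_27a`, `isModular_27a`, `entire_continuation_27a`: the CM curve `y² + y = x³`.
* `modularity_twist_27a`, `entire_continuation_twist_27a`, `modularity_sixteen_cube`,
  `entire_continuation_sixteen_cube`, `modularity_neg_432_cube`,
  `entire_continuation_neg_432_cube`: its quadratic twists.
* `modularity_of_j_eq_1728`, `isModular_of_j_eq_1728`, `isModular_quartic_twist`,
  `entire_continuation_of_j_eq_1728`: every curve with `j = 1728`, all `y² = x³ + D x`.
* `modularity_of_j_eq_zero`, `isModular_of_j_eq_zero`, `isModular_mordell`,
  `entire_continuation_of_j_eq_zero`: every curve with `j = 0`, all `y² = x³ + k`.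
* `modularity_of_j_eq_54000`, `modularity_of_j_eq_neg_12288000`,
  `entire_continuation_of_j_eq_54000`, `entire_continuation_of_j_eq_neg_12288000`: multiplication
  by the orders of conductor `2` and `3` in `ℚ(√-3)`.
* `modularity_of_j_sqrt_neg_seven`, `entire_continuation_of_j_sqrt_neg_seven`: `j = -3375` or
  `16581375`, multiplication by the two orders of class number one in `ℚ(√-7)`.
* `modularity_of_j_eq_8000`, `entire_continuation_of_j_eq_8000`: multiplication by `ℤ[√-2]`.
* `modularity_of_j_eq_neg_32768`, `entire_continuation_of_j_eq_neg_32768`: multiplication by
  the ring of integers of `ℚ(√-11)`.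
* `modularity_of_j_eq_neg_884736`, `entire_continuation_of_j_eq_neg_884736`: multiplication by
  the ring of integers of `ℚ(√-19)`.
* `modularity_of_j_eq_neg_884736000`, `modularity_of_j_eq_neg_147197952000`,
  `modularity_of_j_eq_neg_262537412640768000` and their `entire_continuation_of_j_*`:
  multiplication by the rings of integers of `ℚ(√-43)`, `ℚ(√-67)`, `ℚ(√-163)`.
* `modularity_cm`: every curve over `ℚ` whose `j` is one of the thirteen CM invariants of class
  number one: all coefficients, entire continuation.
* `modularity_of_traceSquares`, `modularity_of_tateHom`: a curve with `a'_q² = a_q²` at almost all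
  primes for one of the curves shown modular is modular, so also one receiving a nonzero map of
  Tate modules over a number field from it (unless that one is exceptional for `ℚ(i)` or
  `ℚ(√-3)`); `exceptional_traceSquares`, `modularity_of_exceptional`: two curves exceptional for
  one other field have equal squares of traces, so for `d = -2, -7, -11, -19, -43, -67, -163` every
  exceptional curve is modular, with nothing assumed on its invariant.
* `exceptional_gaussian`, `exceptional_eisenstein`, `modularity_of_exceptional_nine`: a curve
  exceptional for `ℚ(i)` has the L-function of some `y² = x³ + D x`, one for `ℚ(√-3)` that of some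
  `y² = x³ + D`, so every exceptional curve of any of the nine fields is modular (there are no
  others: `exceptional_field_nine`).
* `lFunction_eq_zero_of_inert`, `infinite_supersingular_primes`: for the thirteen CM
  values of `j`, `a_p = 0` at the primes inert in the CM field, hence infinitely many supersingular
  primes of good reduction.
* `four_mul_eq_sq_add_of_split`, `dvd_lFunction_iff_inert`, `lFunction_eq_zero_iff_inert`: Deuring's
  criterion for the thirteen values of `j`: at an odd good prime `p` prime to `d`, `p ∣ a_p` iff
  `a_p = 0` iff `p` is inert, and otherwise `4 p = a_p² - d b²`; `pointCount_classNumberOne`: the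
  points modulo `p` of the models for `ℚ(√-43)`, `ℚ(√-67)`, `ℚ(√-163)`.
* `uniqueLevelEleven`, ..., `uniqueLevelTwentyOne`: one L-function at the levels of genus one.
* `eta_product_levelEleven`, `lFunction_11a3_eq_coeff`, `lFunction_levelEleven_eq_coeff`,
  `pointCount_11a3`: `η(z)² η(11z)²` is the newform of `y² + y = x³ - x²`, so the L-function at
  level `11` is `q ∏ (1 - qⁿ)² (1 - q¹¹ⁿ)²` and this product counts the points modulo `p ≠ 11`.
* `eta_product_levelFourteen`, `eta_product_levelFifteen`, `lFunction_14a1_eq_coeff`,
  `lFunction_15a8_eq_coeff`, `lFunction_levelFourteen_eq_coeff`,
  `lFunction_levelFifteen_eq_coeff`, `pointCount_14a1`, `pointCount_15a8`: the newforms of levels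
  `14` and `15` are `η(z) η(2z) η(7z) η(14z)` and `η(z) η(3z) η(5z) η(15z)`, so these products
  give the L-function of every semistable curve of those levels and count its points.
* `shimuraReciprocity`, `shimuraReciprocity_split`, `shimuraReciprocity_levelFourteen`,
  `shimuraReciprocity_levelFifteen`: Shimura's reciprocity law, the coefficients at `p` of these
  products are the traces of Frobenius in extensions with group `GL₂(𝔽_l)` (every `l ≠ 5`, resp.
  `l ≠ 2, 3` and `l ≠ 2`), and at level `11` give a necessary condition for complete splitting;
  `etaProduct_mod_five`, `etaProduct_mod_six`, `etaProduct_mod_eight`: modulo `5`, `6`, `8` the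
  coefficient at `n` prime to `11`, `14`, `30` is the sum of the divisors of `n`.
* `etaProduct_residues`, `etaProduct_residues_one`, `etaProduct_parity`: for a prime `l ≠ 5` the
  pairs `(c_p, p)` of the level `11` product take every value `(t, d)`, `d ≠ 0`, modulo `l` at
  infinitely many `p`, so every `t` at `p ≡ 1`; `c_p` is even iff `4 x³ - 4 x² + 1` has a root.
* `ramanujanTau_mod_eleven`, `ramanujanTau_pointCount`, `ramanujanTau_galois_eleven`: `τ(n)` is
  congruent to `a_n` of that curve modulo `11`, so `τ(p)` gives `#E(𝔽_p)` modulo `11`, and the
  representation modulo `11` attached to `Δ` has image `GL₂(𝔽₁₁)`.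
* `ramanujanTau_mod_five`, `ramanujanTau_mod_seven`, `ramanujanTau_mod_twentyFour`,
  `five_dvd_ramanujanTau`, `seven_dvd_ramanujanTau`, `five_dvd_ramanujanTau_prime_iff`,
  `seven_dvd_ramanujanTau_prime_iff`, `ramanujanTau_density_five`, `ramanujanTau_density_seven`,
  `ramanujanTau_galois_five`, `ramanujanTau_galois_seven`: `τ(n) ≡ n σ₁(n) (mod 5)`,
  `≡ n σ₃(n) (mod 7)`, `24 ∣ (n - 1) τ(n)`; `5`, `7` divide `τ(p)` for `1/4`, `1/2` of the primes
  and the representations modulo `5` and `7` are reducible.
* `partition_generatingSeries`, `five_dvd_partition`, `seven_dvd_partition`,
  `eleven_dvd_partition`: Euler's product for the numbers of partitions and Ramanujan's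
  congruences `p(5n + 4) ≡ 0 (mod 5)`, `p(7n + 5) ≡ 0 (mod 7)`, `p(11n + 6) ≡ 0 (mod 11)`.
* `partition_congruence_class`, `partition_congruences_only` (Kiming–Olsson, Ahlgren–Boylan): for a
  prime `l`, `p(l n + b) ≡ 0 (mod l)` for all `n` requires `24 b ≡ 1 (mod l)`, indeed `(l, b)` is
  one of `(5, 4)`, `(7, 5)`, `(11, 6)`: Ramanujan's congruences are the only ones.
* `partition_pentagonal_recurrence`, `partition_sigma_recurrence`, `infinite_even_partition`,
  `infinite_odd_partition` (Euler, Kolberg): the recurrences for `p(n)`, and both parities occur
  infinitely often.
* `twentyFive_dvd_partition`, `fortyNine_dvd_partition`, `oneTwentyOne_dvd_partition` (Ramanujan,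
  Watson, Atkin): `p(25n + 24) ≡ 0 (mod 25)`, `p(49n + 47) ≡ 0 (mod 49)`,
  `p(121n + 116) ≡ 0 (mod 121)`.
* `jInvariant_congruences` (Lehner): the coefficients `c(n)` of `j = E₄³/Δ` are integers and, for
  `n ≥ 1`, `5 ∣ c(5n)`, `7 ∣ c(7n)`, `11 ∣ c(11n)`.
* `jInvariant_congruences_only`: a prime `p` divides every `c(pn)`, `n ≥ 1`, if and only if
  `p ≤ 11`: besides `2` and `3`, Lehner's congruences are the only ones.
* `ramanujan_derivative_eTwo`, `chazy_equation`, `sigma_convolution`, `ramanujanTau_niebur`:
  `D E₂ = (E₂² - E₄)/12`, Chazy's equation, the convolution of `σ₁` with itself and Niebur's
  formula for `τ(n)` in terms of `σ₁`.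
* `quasiModular_algebraicIndependent`, `levelOne_monomials_linearIndependent`,
  `levelOne_mem_span_monomials`: `E₂`, `E₄`, `E₆` are algebraically independent and the monomials
  `E₄ᵃ E₆ᵇ` of weight `k` form a basis of the modular forms of weight `k` and level one.
* `jInvariant_eq_iff`, `jInvariant_bijective`, `eisensteinFour_eq_zero_iff`,
  `eisensteinSix_eq_zero_iff`: `j` is a bijection of the orbits of `SL(2, ℤ)` on the upper half
  plane with `ℂ`, and `E₄`, `E₆` vanish exactly on the orbits of `ρ` and `i`.
* `lattice_eq_iff_g₂_g₃`, `exists_lattice_g₂_g₃`, `lattice_discriminant_ne_zero`: the
  uniformisation theorem, lattices in `ℂ` correspond to the pairs with `g₂³ ≠ 27 g₃²`.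
* `modularFunction_iff_polynomial_jInvariant`, `modularFunction_bounded_const`: the functions
  holomorphic on the upper half plane, invariant under `SL(2, ℤ)` and `O(|q|^(-N))` at infinity are
  exactly the polynomials in `j`, each in one way; the bounded ones are constant.
* `weierstrass_parametrisation`, `complexEllipticCurve_isTorus`: `(℘, ℘')` takes every point of
  `y² = 4x³ - g₂ x - g₃` once modulo the lattice, and every elliptic curve over `ℂ` is a torus.
* `lattice_homothetic_iff_j`, `lattice_homothetic_iff_iso`, `complexEllipticCurve_points`: lattices
  are homothetic exactly when `j` agrees, exactly when their curves are isomorphic, and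
  `E(ℂ) ≅ (ℝ/ℤ)²`.
* `singularModulus_conjugate`, `singularModulus_isAlgebraic`, `reducedPrimitiveForms_finite`: at a
  root of a primitive form of discriminant `D < 0` the value of `j` is algebraic of degree at most
  `h(D)`, its conjugates being values at the roots of the reduced forms of discriminant `D`.
* `singularModulus_isIntegral`, `singularModulus_monic_equation`: at every imaginary quadratic
  point `j` is an algebraic integer, a root of a monic integral polynomial of degree at most
  `h(D)`.
* `reducedForm_unique`, `singularModuli_conjugate`, `singularModulus_degree`,
  `singularModulus_rational_iff`, `classPolynomial`: reduced primitive forms are inequivalent,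
  the singular moduli of one discriminant are all Galois conjugate, of degree exactly `h(D)`,
  and are the roots of one irreducible monic integral polynomial, the class polynomial.
* `primes_principalForm_classPolynomial`, `primes_sq_add_mul_sq_classPolynomial`: for an odd
  prime `p` prime to `D` modulo which the class polynomial `H` is separable, `p` is represented by
  the principal form iff `D` is a square and `H` has a root modulo `p`; so for `p = x² + n y²`.
* `primes_principalForm_split`, `primes_sq_add_mul_sq_iff`, `trace_invariant_classPolynomial`
  (Deuring): the same with no separability hypothesis for `p ≥ 5`: `H` is a product of `h(D)`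
  distinct linear factors mod `p` whenever `4 p = t² - k² D`; their roots are the `j` of trace `t`.
* `ringClassField_eq_adjoin_j`, `jInvariant_sqrt_neg_degree`: the ring class field of `ℤ[√-n]`
  is `ℚ(√-n, j(√-n))`, of degree `2 h(n)`, containing all singular moduli of discriminant `-4n`;
  `p ∤ 6n` splits completely in it iff `p = x² + n y²`; `j(√-n)` is real of degree `h(n)`.
* `singularModulus_real_iff`, `realSingularModuli_count`, `idoneal_tfae_jInvariant`: `j` at a
  reduced form is real iff the form is ambiguous; `2 ^ (μ - 1)` real singular moduli of
  discriminant `-4n`; `n` is idoneal iff all are real iff `ℚ(j(√-n))` is normal over `ℚ`.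
* `galois_singularModuli`, `classPolynomial_factor_degree`: the automorphisms fixing `√-n` are
  isomorphic to `Cl(ℤ[√-n])` and simply transitive on the singular moduli of discriminant `-4n`;
  for `p = N(P)` prime to `6n` the class polynomial, if separable modulo `p`, has all its
  factors there of degree the order of the class of `P`.
* `cmCurve_degree`, `cmCurve_exists`, `cmCurve_oddDegree_iff`: a curve over a number field `K`
  with CM by the order of discriminant `D` has `h(D) ∣ [K : ℚ]`, with equality for some curve;
  CM by `ℤ[√-n]` occurs in odd degree iff `n = 1, 2, 4` or `n = p^(odd)`, `p ≡ 3 (mod 4)`.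
* `classPolynomial_inert`, `classPolynomial_root_density`: modulo a prime `p ∤ 6n` inert in
  `ℚ(√-n)` the class polynomial, if separable there, has factors of degree `≤ 2` and `0` or
  `2^(μ-1)` roots; it has a root modulo primes of density `1/(2h) + 1/2^μ`.
* `genusField_sqrt_mem`, `genusField_degree`, `genusField_maximal`: the square roots of the genus
  discriminants of `n` lie in `ℚ(√-n, j(√-n))`, the real ones in `ℚ(j(√-n))`; they generate its
  largest subfield abelian over `ℚ`, of degree `2^μ` (`SummaryGenusField`);
* `ringClassField_le`, `ringClassTower_abelian`, `ringClassTower_sqrt`,
  `ringClassTower_rootsOfUnity`: with `τ² = -n` the fields `ℚ(f τ, j(f τ))` grow with `f`; in their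
  union the finite abelian subfields have exponent two, all square roots of rationals occur, and
  exactly the roots of unity of order dividing `24` (`SummaryRingClassTower`);
* `singularModuli_values`, `singularModuli_integer`, `hermite_exp_pi_sqrt_163`,
  `hermite_almost_integer`: the thirteen rational singular moduli are `0, 1728, -3375, …,
  -640320³`, and `e^(π√163)` is within `10⁻¹²` of an integer without being one.
* `cmLattice_iff_thirteen`, `openImage_iff_no_cmLattice_LFunction`, `not_openImage_of_cmLattice`:
  a curve over `ℚ` has a lattice with a multiplier outside `ℤ` iff its `j` is one of the thirteen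
  integers; its adelic image is open iff no such curve has the same L-function.
* `modularPolynomialData_exists`, `modularPolynomial_equation`, `jInvariant_isogenous_integral`,
  `jInvariant_integral_of_isogenous`: for every `N` an irreducible monic `Φ_N ∈ ℤ[X][Y]` of degree
  `ψ(N)` with `Φ_N(j(τ), j(N γ τ)) = 0`, so `j(N γ τ)` is integral over `ℤ[j(τ)]`.
* `modularPolynomial_symmetric`, `modularPolynomial_unique`,
  `kronecker_congruence_modularPolynomial`: `Φ_N` is the only monic polynomial of its degree with
  these zeros, is symmetric for `N > 1`, and `Φ_p ≡ (Y - X^p) (Y^p - X) (mod p)` for a prime `p`.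
* `imaginaryQuadratic_iff_jInvariant_fixed`, `modularDiagonal_roots`,
  `singularModulus_iff_diagonal_root`: `τ` is imaginary quadratic iff `j(N γ τ) = j(τ)` for some
  `N > 1`; the singular moduli are the roots of the non-zero polynomials `Φ_p(X, X)`.
* `modularFunction_levelN_rational`, `modularFunction_levelN_algebraic`: holomorphic functions on
  `Γ₀(N) \ ℍ` of exponential growth at the cusps are rational in `j(z)` and `j(N z)` and algebraic
  of degree `ψ(N)` over `ℂ[j]`.
* `modularEquation_iff_cyclicSublattice`, `cyclicSublattice_symm`: `Φ_N(j(M), j(L)) = 0` iff a
  multiple of `L` lies in `M` with cyclic quotient of order `N`; symmetric for `N > 1`.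
* `modularPolynomial_absolutely_irreducible`, `modularFunctionField_degree`: `X₀(N)` is
  geometrically irreducible, `Φ_N` stays irreducible over `k(X)` for every field `k` mapping to `ℂ`.
* `hurwitz_class_number_relation`, `modularDiagonal_natDegree`, `modularDiagonal_rootMultiplicity`
  (Kronecker, Hurwitz): for a prime `p`, `Σ H(4p - t²) = 2p` over the integers `t` with `t² < 4p`,
  as `Φ_p(X, X)` has degree `2p` and its roots are the invariants of those forms.
* `hurwitz_class_number_relation_nonsquare`, `modularDiagonal_natDegree_squarefree` (Kronecker,
  Hurwitz): `Σ_{t² < 4n} H(4n - t²) = 2σ(n) - Σ_{a ∣ n} min (a, n/a)` for every `n` that is no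
  square; for a squarefree `n > 1` this number is the degree of `Φ_n(X, X)`.
* `hurwitz_class_number_relation_all` (Kronecker, Hurwitz; Eichler, Selberg in weight two): with
  `H(0) = -1/12`, `Σ_{t² ≤ 4n} H(4n - t²) + Σ_{a ∣ n} min (a, n/a) = 2σ(n)` for every `n ≥ 1`,
  squares included.
* `quaternion_trace_formula`, `hurwitz_relation_odd_traces`, `oddOrder_mass`,
  `oddOrder_second_moment`, `supersingular_threeSquares`: `Σ t^k r₃(4n - t²)`, `k = 0, 2, 4`, by
  quaternions; over `𝔽_p` curves of odd order have mass `(p + 1)/3` and mean `a²` exactly `p`;
  `r₃(p)` is `24`, resp. `12`, times the supersingular invariants for `p ≡ 1 (4)`, resp. `3 (8)`.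
* `fourSquares_quartic_moment`, `hurwitz_relation_fourth_moment`, `oddOrder_fourth_moment`: the
  coefficient `b(n)` of `η(2z)¹²` by four squares and by Hurwitz class numbers; the curves of odd
  order over `𝔽_p` have mean `a⁴` exactly `2 p² - b(p)/(p + 1)` (Eichler–Selberg, weight six).
* `latimer_macduffee_count`, `ellipticClasses_mass`, `finiteOrder_conjugate_eight` (Latimer,
  MacDuffee): for `t² < 4n` twice as many `SL₂(ℤ)`-classes of matrices of trace `t`, determinant `n`
  as reduced forms of `t² - 4n`; their mass over `t` is `2(2σ(n) - Σ min (a, n/a))`; eight for `n = 1`.
* `modularDiagonal_factorization`, `classPolynomial_residue` (Kronecker): for every prime `p`,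
  `Φ_p(X, X) = -∏ H_D ^ r(D)` in `ℤ[X]`, `r(D)` counting the `(t, k)`, `k > 0`, `t² - k² D = 4p`
  (halved for `-4`, by three for `-3`), so modulo `p` each residue is a root of such an `H_D`.
* `picard_little`, `picard_little_range`, `fermat_entire`: by the covering `j` of `ℂ ∖ {0, 1728}`, a
  non-constant entire function misses at most one value, and `fⁿ + gⁿ = 1`, `n ≥ 3`, has only
  constant solutions in entire functions.
* `landau_theorem`, `schottky_theorem`: bounds, depending only on the value at the centre, for
  functions holomorphic on a disc that omit two values, by the same covering and Schwarz's lemma.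
* `great_picard`, `great_picard_essential`, `picard_entire_infinitely_often`, `fermat_puncture`:
  near an essential singularity, and for a transcendental entire function, every value but at
  most one is taken infinitely often; on `fⁿ + gⁿ = 1`, `n ≥ 3`, there is no such singularity.
* `FA.Nevanlinna.Summary.log_derivative_lemma`, `FA.Nevanlinna.Summary.second_main_theorem`,
  `FA.Nevanlinna.Summary.second_main_theorem_sphere`, `FA.Nevanlinna.Summary.five_value`,
  `FA.Nevanlinna.Summary.picard_three_values`, `FA.Nevanlinna.Summary.picard_multiplicities`,
  `FA.Nevanlinna.Summary.fermat_meromorphic`, `FA.Nevanlinna.Summary.fermat_meromorphic_mixed`,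
  `FA.Nevanlinna.Summary.fermat_entire`, `FA.Nevanlinna.Summary.fermat_entire_mixed`
  (`SummaryNevanlinna`): the second main theorem of Nevanlinna theory, the five value theorem,
  and `fⁿ + gⁿ = 1` only trivially in meromorphic (`n ≥ 4`) and entire (`n ≥ 3`) functions.
* `eisenstein_zero_on_arc`, `eisenstein_zero_norm`, `eisenstein_zero_jInvariant_real`,
  `eisenstein_arc_zeros` (Rankin, Swinnerton-Dyer): for even `k ≥ 4` the zeros of `E_k` in the
  fundamental domain lie on `|τ| = 1`, with real invariants in `[0, 1728]`.
* `hasse_eisenstein`, `hasse_eisenstein_trace` (Deligne): for `p ≥ 5`, written in `E₄, E₆`,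
  `E_(p-1)` is modulo `p` the Hasse invariant: at `(-48 A, 864 B)` the trace of Frobenius.
* `hasse_eisenstein_qExpansion`, `swinnerton_dyer`, `congruent_weights`: for `p ≥ 5` the relations
  between `E₄` and `E₆` modulo `p` are the multiples of `A - 1`, an irreducible polynomial; forms
  of level one that are congruent and non-zero modulo `p` have congruent weights modulo `p - 1`.
* `hasse_curve_isDedekindDomain`, `modP_forms_isDedekindDomain`: for `p ≥ 5` the algebra generated
  by `E₄` and `E₆` in `𝔽_p[[q]]`, which is `𝔽_p[X, Y]/(A - 1)`, is a Dedekind domain.
* `theta_modular_mod_p`, `filtration_theta`, `filtration_pow` (Serre): modulo `p ≥ 5`, `q d/dq`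
  raises the weight by `p + 1`, the least weight by exactly that much if and only if `p` does not
  divide it; the least weight of a power `fⁱ` is `i` times that of `f`.
* `uOperator_contraction`, `uOperator_iterate_bound`, `ordinary_weight_bound` (Serre): modulo
  `p ≥ 5`, `U` maps weight `k` to weight at most `p + (k - 1)/p`; iterates of `U` and the forms
  with `U f = c f`, `c ≠ 0`, have a weight at most `p + 1`.
* `ordinary_forms_finite`, `ordinary_cusp_forms_small` (Serre, Hida): for `p ≥ 5` there are only
  finitely many ordinary eigenforms of `U` modulo `p` in all weights together; the cusp forms among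
  them are `0` modulo `5` and `7`, multiples of `Δ` modulo `11`.
* `theta_cycle` (Tate, Jochnowitz): modulo `p ≥ 5` the least weights along `g, θ g, θ² g, …`, `g`
  without coefficients at the multiples of `p`, rise by `p + 1` except for one or two falls in each
  period of `p - 1` steps, and are never `1` modulo `p`.
* `eigensystem_twist`, `eigensystems_finite` (Serre, Tate): modulo `p ≥ 5` there are only finitely
  many systems of eigenvalues of the `T_l`, `l ≠ p`, in all weights together; each is a twist of one
  of weight at most `max (p + 1) (2p - 10)`.
* `eigensystem_lift` (Deligne–Serre): each such system of weight `k ≥ 1` is the reduction, modulo a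
  maximal ideal over `p`, of the eigenvalues of an eigenform of weight `k` in characteristic zero.
* `eigensystems_five_seven`, `eigenform_five_seven`, `eigensystems_eleven`, `eigensystems_thirteen`
  (Serre, Tate): modulo `5` and `7` every level one system, in any field, is Eisenstein `l^i + l^j`,
  modulo `11` also the twists of `11a3`, modulo `13` also those of `Δ` and `E₄ Δ` (both in `𝔽_p`).
* `eigensystems_two_three`, `eigenform_two_three`, `eigenform_le_seven`, `hecke_delta_degree_lt`,
  `hecke_nilpotent_two_three`, `levelOne_mod_two_three` (Hatada; Nicolas–Serre): modulo `2` and `3`
  the forms are polynomials in `Δ`, `T_l - (1 + l)` lowers the degree, so `a_l ≡ 1 + l` for every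
  level one eigenform; at the places over every `p ≤ 7` each of them is Eisenstein.
* `tate_mod_two`, `tate_mod_two_charpoly`, `no_sl_two_unramified_outside_two`,
  `good_outside_two_point`, `good_outside_two_even` (Tate): a representation of `G_ℚ` in `GL₂` of a
  field of characteristic two unramified outside `2` is by involutions with a common fixed vector,
  so there is no `SL₂` or `S₃` extension unramified outside `2`, and an elliptic curve good outside
  `2` has a rational point of order two and even `a_l`.
* `ogg_two`, `ogg_two_unique`, `ogg_models_length`, `ogg_two_j`, `ogg_two_bad` (Ogg): exactly
  twenty-four elliptic curves over `ℚ` have good reduction outside `2`, each `y² = x³ + a x² + b x`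
  from an explicit list, with `j` among `128, 1728, 8000, 10976, 287496`; all are bad at `2`.
* `faltings_serre_two`, `good_outside_two_LFunction_eq` (Faltings, Serre, Livné): representations in
  `GL₂(R)`, `R` `2`-adic, unramified outside `2` have traces and determinants determined by those
  at `3`, `5`, `7`; curves good outside `2` with the same `a₃`, `a₅`, `a₇` have equal L-functions.
* `modularity_good_outside_two`, `modularity_j_eight`: every elliptic curve over `ℚ` with good
  reduction outside `2` has the L-function of a cusp form of weight two, hence entire; for the
  eight without complex multiplication the form is a twisted theta eigenform of level `2 ^ 13`.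
* `eigenform_two_power_mod_two`, `good_outside_two_ten`: weight two eigenforms of two-power level
  have `a_l` in every prime above `2` for odd `l`; the curves good outside `2` have exactly ten
  L-functions, told apart by `(a₃, a₅, a₇)`.
* `modularity_of_j_128_10976`, `modularity_of_j_good_outside_two`,
  `modularity_of_twist_good_outside_two`: every curve with `j` one of `128`, `1728`, `8000`,
  `10976`, `287496`, in particular every quadratic twist of a curve good outside `2`, is modular, all
  coefficients included, with entire L-series.
* `heavenly_two`, `heavenly_two_pro_two` (Rasmussen–Tamagawa at `2`): good outside `2`, all points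
  of `2`-power order unramified outside `2`, and Ogg's twenty-four models are equivalent; then
  `σ ^ (2 ^ n)` fixes `E[2 ^ n]`, so the tower of those division fields is pro-`2`.
* `galoisSurjectiveTorsion_good_outside_two`, `good_outside_two_image_dichotomy`: a curve good
  outside `2` has `j = 128` or `10976` and full image on every `E[p ^ n]`, `p ≥ 11`, or has complex
  multiplication and full image on `E[l]` for no odd prime `l`.
* `good_outside_three_j`, `good_outside_three_j_occurs`, `modularity_good_outside_three`,
  `good_outside_three_not_surjective`: a curve with good reduction at every prime other than `3`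
  has `j = 0` or `j = -12288000` (both occur), so it is modular with entire L-series and has full
  image on `E[l]` for no odd prime `l`.
* `good_outside_three_iff`, `good_outside_three_unique`, `heavenly_three`: good outside `3`, all
  points of `3`-power order unramified outside `3`, and membership of an explicit list of eight
  pairwise non-isomorphic models are equivalent.
* `serre_mod_three`, `serre_mod_three_odd`, `serre_mod_three_trace`,
  `no_gl_two_three_unramified_outside_three`, `good_outside_three_trace` (Serre): a representation
  of `G_ℚ` in `GL₂(𝔽₃)` unramified outside `3` with nontrivial determinant, in particular an odd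
  one, fixes a line and has trace `1 + det`; so no `GL₂(𝔽₃)`-extension is unramified outside `3`,
  and a curve good outside `3` has `a_l ≡ 1 + l (mod 3)`.
* `serre_mod_three_all`, `no_sl_two_three_unramified_outside_three`, `serre_mod_three_char`,
  `serre_mod_three_semisimple`, `serre_mod_three_over_sqrt_neg_three`: with no hypothesis on the
  determinant, a representation of `G_ℚ` in `GL₂(𝔽₃)` unramified outside `3` fixes a line, so no
  image contains `SL₂(𝔽₃)`; its semisimplification is a sum of two characters among `1`, `χ₋₃`.
* `ramanujanTau_mod_sixNinetyOne`, `ramanujanTau_galois_sixNinetyOne`: `τ(n) ≡ σ₁₁(n) (mod 691)`,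
  Ramanujan's congruence, so modulo `691` the representation with traces `τ(l)` is the reducible
  `1 ⊕ χ¹¹`.
* `ramanujanTau_eisenstein_primes` (Serre, Swinnerton-Dyer): `τ(n) ≡ nᵃ σ_c(n) (mod p)` for all
  `n` prime to `p` and some `a`, `c` if and only if `p` is `2`, `3`, `5`, `7` or `691`.
* `ramanujanTau_dihedral_primes` (Swinnerton-Dyer): `p` divides `τ(n)` at every non-square `n`
  modulo `p` if and only if `p` is `2`, `3`, `7` or `23`.
* `weight_succ_periodic`, `weight_succ_eigenvalue`, `eisenstein_two_weight` (Serre): in weight
  `p + 1` modulo `p ≥ 5` every form has `a (p² n) ≡ a n`, eigenvalues of `U_p` are `± 1`, and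
  `E₂` has least weight `p + 1`.
* `weight_succ_supersingular` (Serre): forms of weight `p + 1` modulo `p` are the functions `g` on
  the supersingular invariants with `g (jᵖ) = g (j)ᵖ`; `U` is composition with `j ↦ jᵖ` and its
  trace is the number of supersingular invariants in `𝔽_p`.
* `weight_succ_cusp_forms` (Serre): with weights `1/3` at `0`, `1/2` at `1728` and `1` elsewhere the
  weighted sum of the function of a form of weight `p + 1` is minus its constant term; cusp forms
  are the functions of mass zero, of dimension `#S - 1`, and `E₂` is the constant `12`.
* `supersingular_polynomial` (Deuring, Deligne, Kaneko–Zagier): the polynomial in `j` of `E_(p-1)`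
  reduces modulo `p ≥ 5` to the product of `X - j` over the supersingular invariants other than `0`
  and `1728`.
* `ogg_supersingular_rational`, `ogg_primes_uOperator`, `weight_succ_eigenspaces` (Ogg): all
  supersingular invariants are in `𝔽_p` iff `p` is one of the fifteen primes dividing the order of
  the Monster, iff (`p ≥ 5`) `U` is `1` in weight `p + 1`; the eigenspaces of `U` have dimensions
  `(#S ± #S(𝔽_p)) / 2`.
* `weight_succ_eigenspaces_classNumber`, `classNumberH_parity`, `ogg_primes_classNumber`,
  `weight_succ_eigenspaces_asymptotic`, `supersingular_primeField_lower_bound`: these dimensions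
  are `(g + 1 ± H(4 p) / 2) / 2`, `g = dim S₂(Γ₀(p))`, both `p / 24 + O(√p log p)`; Ogg's primes are
  those with `H(4 p) = 2 (g + 1)`; at least `C(ε) p ^ (1/2 - ε)` supersingular invariants are in
  `𝔽_p` (Siegel, ineffective).
* `weight_two_levelP_eq_weight_succ`, `weight_two_levelP_cusp_forms`,
  `weight_succ_eigenspaces_lift` (Serre): modulo `p ≥ 5` the integral forms of weight two on `Γ₀(p)`
  and the level one forms of weight `p + 1` have the same reductions, and likewise their cusp forms;
  so the classes with `U = ± 1` lift to weight two.
* `primeConductor_mod_p`, `primeConductor_levelOne`, `levelOne_succ_lift_weight_two`: a semistable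
  curve with bad reduction only at `p ≥ 5` is congruent modulo `p` to a level one cusp form, and
  cusp eigenform, of weight `p + 1`; conversely such systems come from weight two and level `p`.
* `fricke_genus`, `ogg_fricke_genus_zero`, `ogg_prime_conductor_sign`: `U` on `S₂(Γ₀(p))` has trace
  `H(4 p) / 2 - 1`, its `-1` space the dimension `(g + 1) / 2 - H(4 p) / 4` (genus of `X₀(p)⁺`); it
  is `1` iff `p` is an Ogg prime, where curves of conductor `p` are split with root number `+1`.
* `prime_level_multiplicity_one`, `prime_level_eigenforms_basis`,
  `prime_level_eigenform_totally_real`, `prime_level_eigenform_signs`: the normalised eigenforms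
  are a basis of `S₂(Γ₀(p))` with totally real coefficients; `(g - 1) / 2 + H(4 p) / 4` of them
  have `a_p = 1`, the others `a_p = -1`, and all have `a_p = 1` for Ogg's primes.
* `primeConductor_LFunction_count`, `primeConductor_LFunction_ext`: semistable curves of prime
  conductor `p` have at most `g` `L`-functions, at most `(g - 1) / 2 + H(4 p) / 4` of them split and
  at most `(g + 1) / 2 - H(4 p) / 4` non-split (none for Ogg's primes).
* `prime_level_heckeAlgebra`, `prime_level_conjugate_eigenform`: the Hecke algebra of `S₂(Γ₀(p))`
  is reduced, free of rank `g`, with `g` characters, all real, the systems of the eigenforms; the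
  conjugates of a normalised eigenform are normalised eigenforms.
* `prime_level_coefficientField`, `prime_level_coefficientField_degree`,
  `prime_level_integer_coefficients`: coefficient fields at prime level are totally real, of degree
  at most the number of eigenforms with the same `a_p`; if alone, the coefficients are integers.
* `prime_level_multiplicity_one_effective`, `prime_level_coefficientField_generated`,
  `primeConductor_LFunction_ext_effective` (Sturm): the `a_q` with `q ≤ (p + 1) / 6` determine an
  eigenform of prime level and its field, and in conductor `p` the `L`-function of a curve.
* `prime_level_duality`, `prime_level_cuspReductions`, `prime_level_eigen_reductions`: the integral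
  cusp forms of prime level and the Hecke algebra are dual by `a₁(t f)`; the forms modulo `M` are
  its functionals to `ℤ / M`, `M ^ g` in number, the normalised eigen series its characters.
* `prime_level_sturm_mod`, `prime_level_heckeAlgebra_generators`, `prime_level_character_ext`
  (Sturm, Agashe–Stein): modulo any prime the `aₙ`, `n ≤ (p + 1) / 6`, decide vanishing, those `tₙ`
  span the Hecke algebra over `ℤ` and the primes up to that bound determine its characters.
* `primeConductor_LFunction_congr`, `primeConductor_torsionIso`: for semistable curves of conductor
  `p`, congruences modulo a prime `l` of the `a_q`, `q ≤ (p + 1) / 6`, hold for all coefficients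
  and give `E[l] ≅ E'[l]` when `E[l]` has no stable line.
* `prime_level_functional_equation`, `prime_level_central_zeros`: `Λ_f (2 - s) = a_p Λ_f (s)` at
  prime level, so at least `(g + 1) / 2 - H(4 p) / 4` eigenforms vanish at the centre, and some one
  does unless `p` is an Ogg prime.
* `prime_level_conjugates_card`, `prime_level_rational_iff`, `prime_level_orbits`: an eigenform of
  prime level has exactly `[K_f : ℚ]` conjugates; the orbits are the minimal primes `P` of the Hecke
  algebra, `T / P` of rank `[K_f : ℚ]`, and these ranks add up to `g`.
* `prime_level_trace`, `prime_level_discr`, `prime_level_congruence_primes`: the trace on the Hecke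
  algebra of prime level is the sum of the eigen characters, the discriminant is not zero, and its
  prime divisors are exactly the primes of congruences between two eigenforms.
* `prime_level_reduction`, `prime_level_representation`, `prime_level_systems_mod_card`,
  `prime_level_eisenstein_reducible` (Mazur): every system modulo `l` of the Hecke algebra of prime
  level lifts and has its representation `ρ_m`, reducible at an Eisenstein ideal; there are at most
  `g` systems, exactly `g` when `l` does not divide the discriminant.
* `prime_level_reducible_iff`, `prime_level_representation_irreducible` (Mazur): for an odd prime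
  `l ≠ p`, `ρ_m` has a stable line exactly when `θ(T_q) = 1 + q` for all `q ∤ p l`; so a system
  which is not Eisenstein has an irreducible representation.
* `prime_level_eisenstein_values`, `prime_level_reducible_iff_all`,
  `prime_level_exists_reducible_iff` (Mazur): for a prime `l ≥ 5`, `l ≠ p`, such a system also has
  `θ(T_l) = θ(U_p) = 1`; some `ρ_m` at `l` is reducible exactly when `l` divides the numerator of
  `(p - 1) / 12` (`prime_level_irreducible_of_not_dvd`, `level_eleven_irreducible`).
* `prime_level_stable_cyclic_dvd_numerator`, `prime_level_torsion_dvd_numerator` (Mazur): a
  Galois-stable cyclic subgroup of prime order `l ≥ 5`, `l ≠ p`, of `J₀(p)`, in particular one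
  of rational points, needs `l ∣ n`; so `l = 5` on `J₀(11)` (`prime_level_torsion_eleven`).
* `prime_level_cuspidal_class_order` (Ogg): the class of `(0) - (∞)` in `J₀(p)(ℚ)`, `p ≥ 5`, has
  order exactly the numerator `n` of `(p - 1) / 12`; so a rational point of prime order `l ≥ 5`,
  `l ≠ p`, exists iff `l ∣ n` (`prime_level_rational_torsion_iff`,
  `prime_level_torsion_five_eleven`).
* `jacobian_eleven_rational_torsion`: all of the rational torsion of `J₀(11)` is the group of
  order `5` generated by the cuspidal class, the orders `2`, `3` and `11` included.
* `jacobian_eleven_rational_points`, `x0_eleven_rational_places`: `J₀(11)(ℚ)` is that group of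
  order `5`, rank zero included, and `X₀(11)` has five rational places, two of them cusps; so
  `isogeny_eleven_j_iff`: `E` has a stable subgroup of order `11` exactly for `j = -2¹⁵, -11²,
  -11 · 131³`, integral values (`isogeny_eleven_j_integral`, `no_isogeny_eleven_of_pole`).
* `jacobian_nineteen_rational_points`, `x0_nineteen_rational_places`, `isogeny_nineteen_j_iff`:
  `J₀(19)(ℚ)` is the cuspidal group of order `3`, `X₀(19)` has one rational place off the cusps,
  and `E` has a stable subgroup of order `19` exactly for `j = -96³`.
* `jacobian_seventeen_rational_points`, `x0_seventeen_rational_places`, `isogeny_seventeen_j_iff`: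
  `J₀(17)(ℚ) = ℤ / 4` (Eisenstein descent at `2`), `X₀(17)` has four rational places, and a curve
  over `ℚ` has an isogeny of degree `17` exactly for `j = -17² · 101³ / 2` and `-17 · 373³ / 2¹⁷`.
* `isogeny_seventeen_j_pole`, `isogeny_nineteen_j_integral`, `no_cyclic_isogeny_even_genus_one`:
  with an isogeny of degree `17` the denominator of `j` is `2` or `2¹⁷`, with one of degree `19`
  `j` is integral; a cyclic isogeny of degree divisible by `11`, `17` or `19` has odd degree.
* `cyclic_isogeny_genus_one`: Kenku at `11`, `17`, `19`, a finite cyclic Galois stable subgroup of
  order divisible by one of them has exactly that order.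
* `isogeny_fourteen_j_iff`, `isogeny_fifteen_j_iff`, `isogeny_twentyOne_j_iff`: a curve over `ℚ`
  has a cyclic isogeny of degree `14` exactly for `j = -15³, 255³`, of degree `15` exactly for
  four values of `j` and of degree `21` exactly for four.
* `cyclic_isogeny_composite_genus_one`: a finite cyclic Galois stable subgroup of order divisible
  by `14`, `15` or `21` has exactly that order.
* `isogeny_twentySeven_j_iff`: a cyclic isogeny of degree `27` exists exactly for `j = -12288000`
  (the parameter of the subgroup of order `9` and Fermat's cubic).
* `cyclic_isogeny_twentySeven_exact`, `cyclic_isogeny_levels`: a cyclic isogeny of degree divisible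
  by `11, 14, 15, 17, 19, 21` or `27` has exactly that degree, and `j` is in the list of that level.
* `no_isogeny_five_and_seven`, `no_cyclic_isogeny_thirtyFive`: no curve over `ℚ` has stable
  subgroups of order `5` and `7`, so no cyclic isogeny has degree divisible by `35`.
* `no_isogeny_five_of_square_discriminant`, `no_cyclic_isogeny_twenty`: a stable subgroup of
  order `5` excludes a square discriminant, so no cyclic isogeny has degree divisible by `20`.
* `no_isogeny_nine_of_square_discriminant`, `no_cyclic_isogeny_thirtySix`: likewise a stable
  cyclic subgroup of order `9`, so no cyclic isogeny has degree divisible by `36`.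
* `no_isogeny_twelve_of_square_discriminant`, `no_cyclic_isogeny_twentyFour`: likewise one of
  order `12`, so no cyclic isogeny has degree divisible by `24`.
* `no_isogeny_sixteen_of_square_discriminant`, `no_cyclic_isogeny_thirtyTwo`: likewise one of
  order `16`, so no cyclic isogeny has degree divisible by `32`.
* `no_cyclic_isogeny_fortyNine`: no cyclic isogeny has degree divisible by `49`, by the quotient of
  the Klein quartic and a descent on `x (x² + 21 x + 112)`.
* `cyclic_isogeny_degree_classification`, `cyclic_isogeny_degree_iff`: with primes in
  `2, 3, 5, 7, 11, 17, 19` and without the factors `50`, `125`, the degrees of cyclic isogenies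
  are exactly `1, …, 12, 14, …, 19, 21, 25, 27`.
* `isogeny_twentyFive_j_param`: a cyclic isogeny of degree `25` puts `j` in the rational family
  `(t² + 10 t + 5)³ / t`, `t = (s - 1) (s⁴ + s³ + 6 s² + 6 s + 11)` of `X₀(25)`.
* `no_cyclic_isogeny_fifty`: no cyclic isogeny of degree divisible by `50`
  (`point_group_curve50`: `50a1` is `ℤ/3`; `sextic_fifty_points`: the model of `X₀(50)` has only
  its trivial points; `cyclic_isogeny_degree_mem_list`: Kenku's list, away from `13` and `125`).
* `no_cyclic_isogeny_oneHundredTwentyFive`: no cyclic isogeny of degree divisible by `125`, by
  Kummer's descent in `ℤ[ζ₅]` (`no_two_isogeny_lines_five_twentyFive`;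
  `cyclic_isogeny_degree_list_iff`: Kenku's list is complete for degrees with primes among
  `2, 3, 5, 7, 11, 17, 19`).
* `no_cyclic_isogeny_twentySix`: no cyclic isogeny of degree divisible by `26`
  (`isogeny_thirteen_j_param`: the parameter of `X₀(13)`; `sextic_twentySix_points`: the rational
  points of the sextic model of `X₀(26)`).
* `no_cyclic_isogeny_thirtyNine`: no cyclic isogeny of degree divisible by `39`
  (`octic_thirtyNine_points`: the rational points of the octic model of `X₀(39)`;
  `cyclic_isogeny_degree_list_thirteen_iff`: Kenku's list is complete for primes up to `19`,
  given only that `65`, `91` and `169` do not occur).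
* `cyclic_stable_subgroups_ncard_le_eight` (Kenku's bound on seven primes): a curve has at most
  eight finite stable cyclic subgroups of orders with primes among `2, 3, 5, 7, 11, 17, 19` only,
  classically: at most eight curves are reached from it by cyclic isogenies of such degrees.
  `exists_eight_cyclic_stable_subgroups`: eight occur, with torsion `ℤ/2 × ℤ/6`.
* `semistable_cyclic_isogeny_degree_iff` (Kenku for semistable curves, complete): the degrees of
  cyclic isogenies of semistable curves are exactly `1, …, 10, 12, 16, 18, 25`;
  `semistable_cyclic_subgroups_ncard_le_eight`: at most eight per curve, and `_twist` forms.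
* `full_two_torsion_cyclic_isogeny_degree`, `frey_shape_cyclic_isogeny_degree_iff`: with full
  rational `2`-torsion the degrees with primes up to `19` lie in `1, 2, 3, 4, 6, 8`, and for
  semistable curves these are exactly all; `frey_shape_no_stable_subgroup`: so none at `p ≥ 5`.
* `quadratic_odd_torsion`, `quadratic_prime_order_le_seven`: over a quadratic field the points of
  odd order of a curve over `ℚ` form `ℤ/n`, `n = 1, 3, 5, 7, 9, 15`, or `(ℤ/3)²` (Najman), with
  no prime order above `7`; `exists_quadratic_fifteen`, `exists_quadratic_three_three`: sharp.
* `multiquadratic_odd_torsion`, `multiquadratic_prime_order_le_seven`: the same seven groups over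
  every field generated by square roots of rationals (Laska–Lorenz, Fujita);
  `twists_odd_torsion_ncard_le_two`, `twists_odd_torsion_orders`: at most two quadratic twists
  have a rational point of odd order, two only with orders `(3, 3)`, `(3, 5)` or `(5, 3)`.
* `quadratic_point_fifteen`, `exists_point_fifteen_iff`, `exists_three_three_iff`,
  `quadratic_odd_torsion_cyclic`: order `15` only for `j = -121945/32` over `ℚ(√5)` and
  `j = 46969655/32768` over `ℚ(√-15)`, `(ℤ/3)²` exactly over `ℚ(√-3)`; over other quadratic fields
  (`multiquadratic_odd_torsion_cyclic`: and multiquadratic ones) the odd torsion is cyclic.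
* `prime_level_rational_torsion_orders`: the orders prime to `6 p` of rational points of
  `J₀(p)` are exactly the divisors of the numerator of `(p - 1) / 12`, prime powers included
  (`prime_level_rational_torsion_hecke`: `T_q = 1 + q` on rational torsion, odd `q ≠ p`).
* `prime_level_rational_torsion_generated`, `prime_level_rational_torsion_card` (Mazur): away
  from `6 p` the rational torsion of `J₀(p)` is cyclic, generated by the cuspidal class; there
  are `gcd (M, n)` rational classes killed by an `M` prime to `6 p` (multiplicity one).
* `prime_level_no_level_torsion`, `prime_level_rational_torsion_prime_to_six` (Mazur): `J₀(p)`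
  has no rational point of order `p`, so away from `6` its rational torsion is generated by
  the cuspidal class (`prime_level_rational_torsion_card_prime_to_six`).
* `prime_level_rational_torsion_odd`, `prime_level_rational_torsion_card_odd` (Mazur): the odd
  part of the rational torsion of `J₀(p)` is the cuspidal group, `3` included; there is a rational
  point of order `3` iff `9 ∣ p - 1` (`prime_level_three_torsion_iff`).
* `eisensteinIdeal_quotient`, `eisenstein_congruence_form`, `eisenstein_congruence_eigenform`
  (Mazur): at prime level the Hecke algebra modulo the Eisenstein ideal is `ℤ / n`, `n` the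
  numerator of `(p - 1) / 12`; congruent forms, and eigenforms mod primes, exist exactly for
  divisors of `n`.
* `exists_eigenform_large_degree`, `eisenstein_congruence_rational`: eigenforms of prime level have
  coefficient fields of unbounded degree; integer ones are Eisenstein at `l ≤ 5` only.
* `constant_term_congruence` (Serre, Siegel): if `p - 1 ∤ k`, the constant term of a form of weight
  `k` is as integral and as divisible by `p` as the other coefficients.
* `ramanujanTau_octahedral_primes` (Swinnerton-Dyer, type iii): `τ(l)²` is `0`, `1`, `2` or `4`
  times `l¹¹` modulo `p` at every prime `l ≠ p` if and only if `p` is `2`, `3`, `5`, `7` or `23`.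
* `ramanujanTau_mod_twentyThree`, `ramanujanTau_twentyThree_infinite`: Wilton's congruence, for a
  prime `p ≠ 23`: `τ(p) ≡ 0, 2, -1 (mod 23)` as `p` is a non-residue, `u² + 23 v²` or
  `2 s² + s t + 3 t²`, and each case occurs infinitely often.
* `ramanujanTau_galois_twentyThree`: the representation modulo `23` attached to `Δ` has image the
  dihedral group of order six; unramified outside `2, 3, 23`, traces `τ(p)`, determinant `p¹¹`.
* `ramanujanTau_mul`, `ramanujanTau_prime_pow`, `ramanujanTau_dvd_twentyThree`: Mordell's relations
  for `τ`; so `23 ∣ τ(n)` when a non-residue modulo `23` divides `n` exactly once.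
* `ramanujanTau_prime_pow_ne_zero`, `ramanujanTau_eq_zero_iff`, `ramanujanTau_least_zero_prime`,
  `of_ramanujanTau_prime_eq_zero`, `ramanujanTau_ne_zero` (Lehmer): the zeros of `τ` come from the
  primes with `τ(p) = 0`, which satisfy congruences modulo `691`, `5`, `7`, `23`; so `τ(n) ≠ 0` for
  `0 < n < 290219`.
* `ramanujanTau_mod_twentyFour_sigma`, `ramanujanTau_odd_iff`, `ramanujanTau_mod_three`,
  `three_dvd_ramanujanTau_prime_iff`, `ramanujanTau_density_three`, `ramanujanTau_galois_three`,
  `ramanujanTau_prime_eq_zero_mod_twentyFour`, `ramanujanTau_ne_zero_lehmer`:
  `τ(n) ≡ n⁴ σ(n) (mod 24)`; `τ(n)` is odd exactly at the odd squares; the representation modulo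
  `3` is reducible; `τ(n) ≠ 0` for `0 < n < 3316799`.
* `FA.TauValues.Summary.murty_murty_shorey`, `tau_powerful_value`, `tau_prime_power_value`
  (`SummaryTauValues`): Murty–Murty–Shorey, effectively: every odd value of `τ`, and every non-zero
  value at a powerful `n`, bounds `n` by a closed expression; `|τ((2 k + 1)²)| → ∞`.
* `ramanujanTau_dvd_almostAll`: `691 · 23 ∣ τ(n)` outside a set of natural density zero.
* `ramanujanTau_pow_dvd_almostAll`: for every `k`, `(2² · 3 · 5 · 7 · 23 · 691) ^ k ∣ τ(n)` outside a
  set of natural density zero.
* `centralValue_11a3`, `centralValue_levelEleven`, ..., `centralValue_levelTwentyOne`,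
  `centralValue_27a`, `centralValue_32a`: `L(E, 1) ≠ 0` in small levels.
* `analyticRankOne_37a1`, `analyticRankOne_43a1`: a simple zero at `1`; `rankOne_37a1`,
  `rankOne_43a1`: a point of infinite order on the same curves.
* `rankEquality_examples`: the order of vanishing at `1` is the rank of the group of rational
  points for ten curves.
* `finite_LFunctions_semistable`, `finite_LFunctions_of_j`: finitely many L-functions with good
  reduction outside a finite set of primes, for semistable curves and those under the `j` criterion.
* `exists_primes_determine_LFunction`: for semistable curves with good reduction outside a finite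
  set a finite set of primes determines the L-function.
* `lFunction_abs_le`, `lSeries_summable`, `entire_continuation_threeHalves`,
  `functionalEquation_threeHalves`, `lSeries_eulerProduct`, `lSeries_ne_zero`,
  `completed_zeros_in_strip`: bounds, half-plane of convergence, Euler product, zeros.
* `lFunction_sign_changes`: for the curves of `modularity_cases` the coefficients take both signs
  infinitely often; `infinitely_many_negative_traces`, `infinitely_many_negative_traces_semistable`,
  `infinitely_many_large_pointCount`: with the `j` criterion `a_p < 0` for infinitely many primes.

## Galois representations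
* `noStableSubgroup_all`, `noStableSubgroup_twist_all`, `noStableSubgroup_of_j_all`,
  `galoisSurjectiveTorsion_all`, `levelLowering_all`, `discriminantPrimes_all`,
  `discriminant_ne_pow_all`: semistable curves at every prime `p ≥ 11`.
* `exists_stable_subgroup_of_cm`, `not_galoisSurjectiveTorsion_of_cm`, `not_semistable_of_cm`: the
  CM values of `j` for `q = 11, 19, 43, 67, 163` have rational isogenies of degree `q`.
* `torsion_fixed_of_cm`, `infinite_torsion_abelian_of_cm`, `not_serreOpenImage_of_cm`: for these
  five values of `j` all torsion is rational over the maximal abelian extension of `ℚ(√-q)`, and the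
  image of Galois on the `p`-power torsion is open for no prime `p`.
* `not_galoisSurjectiveTorsion_of_cm_all`: for the thirteen CM values of `j` and every prime
  `l ≠ 2`, Galois does not induce every automorphism of `E[l]`.
* `not_serreOpenImage_adelic_of_cm_all`: the adelic open image theorem fails for all thirteen.
* `stableSubgroup_semistable_iff`: the prime orders of stable subgroups of semistable curves are
  exactly 2, 3, 5, 7. `exists_pole_j_of_semistable`, `not_semistable_of_integral_j`,
  `not_semistable_of_cm_all`: the invariant of a semistable curve is not an integer.
* `exists_stable_subgroup_mazur_list`: each of 2, 3, 5, 7, 11, 13, 17, 19, 37, 43, 67, 163 is the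
  order of a stable subgroup of some curve over ℚ (13, 17, 37 by kernel-checked kernel polynomials).
* `exists_stable_cyclic_subgroup`: each of 1, …, 19, 21, 25, 27, 37, 43, 67, 163 is the order of a
  stable cyclic subgroup of some curve over ℚ, the degree of a cyclic isogeny.
* `stableSubgroup_iff_local`: local-global principle for isogenies of prime degree, semistable
  curves: a stable subgroup of order `l` iff almost every `X² - a_q X + q` has a root modulo `l`;
  `infinite_irreducible_frobenius`, `infinite_irreducible_frobenius_large`: semistable and `l ≥ 11`,
  or non-integral `j` and large `l`: infinitely many have none.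
* `levelLowering_irreducible`, `discriminantPrimes_irreducible`, `discriminant_ne_pow_irreducible`:
  the same for every odd prime, `3`, `5` and `7` included, without stable subgroup of order `p`.
* `galoisSurjectiveTorsion_irreducible`, `galoisSurjectiveTorsion_pow_irreducible`,
  `galoisSurjectiveTorsion_adelic_irreducible`: for semistable curves irreducible `p`-torsion has
  full image at every prime `p`, so does `p ^ n`-torsion for `p ≥ 5` and `N`-torsion for `N` prime
  to `6`.
* `galoisSurjectiveTorsion_pow`, `galoisSurjectiveTorsion_adelic`: hence full image at every level
  prime to `210`.
* `galoisSurjectiveTorsion_twist_all`, `galoisSurjectiveTorsion_pow_twist`,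
  `galoisSurjectiveTorsion_adelic_twist` and `galoisSurjectiveTorsion_of_j_all`,
  `galoisSurjectiveTorsion_pow_of_j`, `galoisSurjectiveTorsion_adelic_of_j`: the same for curves
  with a semistable quadratic twist, and under the criterion by the `j`-invariant.
* `galoisSurjectiveTorsion_pow_pole`: the same for `p ^ n` at every prime `p`, given a pole of `j`
  at a prime `q ≠ p` of order prime to `p`; `galoisSurjectiveTorsion_adelic_odd`: for odd `N`, given
  such a pole for `p = 3` if `3 ∣ N`.
* `galoisSurjectiveTorsion_adelic_sharp`: full image on the `N`-torsion for every `N`, given
  irreducibility at each prime `p ∣ N` and, for `p = 2, 3` dividing `N`, a pole of `j` of order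
  prime to `p` at a prime `q ∤ N`; `galoisSurjectiveTorsion_adelic_pole`: such poles for all `p`.
* `exists_galois_gl2_zmod_all`: `GL₂(ℤ/N)` is a Galois group over `ℚ` for every `N ≠ 0`; earlier
  cases `exists_galois_gl2_prime_pow`, `exists_galois_gl2_zmod_odd`, `exists_galois_gl2_prime_all`,
  `exists_galois_gl2_zmod_six`, `exists_galois_gl2_prime`, `exists_galois_gl2_zmod`.
* `exists_galois_gl2_prime_unramified`, `exists_galois_gl2_prime_pow_unramified`,
  `exists_galois_gl2_zmod_odd_unramified`: such extensions unramified outside `37` and the level
  (`N` odd); `exists_galois_gl2_zmod_unramified_at`: any `N`, unramified at finitely many prescribed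
  primes not dividing `N`.
* `exists_galois_gl2_onePrime`, `exists_nonsolvable_onePrime`: a semistable discriminant `± qᵏ`,
  `q ≥ 11`, gives non-solvable extensions with group `GL₂(ℤ/qⁿ)` ramified at `q` only; so for
  thirty-one primes `q = 11, 17, 19, …, 389` (Gross's question for these).
* `infinite_galois_gl2_zmod`: for every `N ≥ 2` infinitely many Galois extensions of `ℚ` have group
  `GL₂(ℤ/N)`.
* `exists_continuous_surjective_gl2_padic`, `exists_galois_gl2_padic`: `GL₂(ℤ_p)` is the image of
  a Galois representation and a Galois group over `ℚ` for every prime `p`.
* `exists_continuous_surjective_gl2_odd_adic`, `exists_galois_gl2_odd_adic_pi`,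
  `exists_galois_gl2_odd_adic`: all odd primes at once, `GL₂` of `∏ ℤ_l` over the odd primes `l` is
  the image of a Galois representation and a Galois group over `ℚ`.
* `serreOpenImage`, `serreOpenImage_tate`: Serre's open image theorem for semistable curves at
  every prime `p`: some `k` is such that Galois induces every automorphism of the `p ^ n`-torsion
  fixing the `p ^ k`-torsion, and every matrix congruent to one modulo `p ^ k` on the Tate module.
* `serreOpenImage_adelic`: the open image for all primes at once: some `m` is such that for every
  `N ≠ 0` Galois induces every automorphism of the `N`-torsion fixing the `m`-torsion.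
* `serreOpenImage_adelic_twist`, `serreOpenImage_adelic_of_j`: the same for curves with a semistable
  quadratic twist, in particular under the `j` criterion.
* `serreFiniteIndex`, `serreFiniteIndex_twist`, `serreFiniteIndex_of_j`: the classical wording, the
  image of Galois in the automorphisms of all torsion points of `E(ℚ̄)` has finite index;
  `serreOpenImage_isOpen`: open in `GL₂(ℤ_p)` on the Tate module.
* `serreOpenImage_adelic_of_pole`, `serreOpenImage_of_pole`, `serreFiniteIndex_of_pole`,
  `serreFiniteIndex_of_nonintegral`: Serre's open image theorem for every elliptic curve over `ℚ`
  with non-integral invariant, with no condition on the reduction.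
* `finite_cyclicStableSubgroups_of_pole`, `finite_torsion_abelian_of_pole`,
  `torsionEnd_scalar_of_pole`, `no_complexMultiplication_of_pole`: for every such curve finitely
  many cyclic stable subgroups, finitely many torsion points over the maximal abelian extension of
  a number field, scalar endomorphisms of the torsion and no complex multiplication.
* `finite_torsion_degree_all`, `boundedTorsion_of_degree_all`, `finite_torsion_conjugates_all`:
  every elliptic curve over `ℚ`, complex multiplication included, has finitely many torsion points
  of bounded degree; effectively, their orders divide a number computed from two good primes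
  (`FA.TorsionDegree.addOrderOf_dvd_pointCounts`).
* `torsion_card_le_of_integral_two_three`, `torsion_primeTo_card_le`,
  `prime_order_le_of_integral_j`: uniform in the curve and in the number field of degree `≤ d`:
  `j` integral at `2` and `3` gives at most `((√2ᵈ + 1) (√3ᵈ + 1))²` torsion points, at one `q` at
  most `(√qᵈ + 1)²` of order prime to `q` (Merel's theorem on this family).
* `torsion_compositum_finite`, `torsion_compositum_card_le`,
  `torsion_compositum_card_le_of_not_openImage`: every elliptic curve over `ℚ` has finite torsion
  over the compositum of all number fields of degree `≤ d` (Gal, Grizzard), bounded by `d` alone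
  for `j` integral at `2` and `3`, so for every curve without open image.
* `torsion_exponentField_finite`, `divisionField_exponent_lower`,
  `divisionField_exponent_tendsto`: finite torsion also in the extensions of exponent `e`, and the
  exponent of the group of the `N`th division field tends to infinity with `N`, at least like
  `log N` uniformly in the curves with `j` integral at `2` and `3`.
* `point_orbit_of_not_exceptional`, `exceptional_point_orbit`, `point_orbit_large`,
  `point_degree_large`, `point_orbit_sharp`: for every curve and all large primes `p` a point of
  order `p` has `p² - 1` conjugates, or, on an exceptional curve with `d` a square modulo `p`,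
  `2 (p - 1)` or `(p - 1)²`; so its degree is at least `2 (p - 1)`, with equality for infinitely
  many `p` on an exceptional curve.
* `finite_torsion_maxAbelian_all`, `boundedTorsion_abelianField`: every elliptic curve over `ℚ`,
  complex multiplication included, has only finitely many torsion points over the maximal abelian
  extension of `ℚ`, and one bound serves all abelian number fields.
* `serreOpenImage_adelic_iff`, `serreOpenImage_adelic_iff_surjective_large`,
  `serreOpenImage_of_traces`, `serreFiniteIndex_of_traces`: Serre's open image theorem for every
  elliptic curve over `ℚ`: the adelic image is open iff no quadratic field has `a_l = 0` at all its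
  inert good primes iff Galois is onto `Aut E[p]` for all large `p`; complex multiplication over a
  number field forces such a field (`exists_trace_zero_of_complexMultiplication`).
* `finite_torsion_abelian_of_traces`, `bashmakov_large_of_traces`, `galois_independence_of_traces`,
  `frobeniusTrace_pairs_of_traces`, `traceSquares_finite_or_density_zero_of_traces`,
  `traceSquares_iff_quadraticTwist_of_traces`, `coefficients_eq_of_density_gt_half_of_traces`: what
  is proved below for curves with a pole of `j` holds for all curves without such a field.
* `serreOpenImage_adelic_128a`, `serreFiniteIndex_128a`, `finite_torsion_abelian_128a`: so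
  `y² = x³ + x² + x + 1`, with `j = 128`, has open image of finite index.
* `serreOpenImage_tfae`: for every elliptic curve over `ℚ` finite index in the automorphisms of all
  torsion, openness, surjectivity at all large `p` and the absence of an exceptional quadratic field
  are equivalent; `not_serreFiniteIndex_of_cm_all`: infinite index for the thirteen CM values.
* `exceptional_imaginary`, `exceptional_torsion_commute`, `not_openImage_iff_abelianTorsion`,
  `not_openImage_iff_abelianTorsion_imaginaryQuadratic`, `serreOpenImage_adelic_iff_imaginary`,
  `abelianTorsion_of_cm_all`: the adelic image is open or all torsion is abelian over an imaginary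
  quadratic field (that there is then an endomorphism other than the integers is not formalised).
* `exceptional_normEquation`, `exceptional_iff_frobeniusField`,
  `not_openImage_iff_frobeniusField_constant`, `serreOpenImage_adelic_iff_two_frobeniusFields`: the
  exceptional curves are exactly those with one Frobenius field, `4 l = a_l² + |d| b²`, so the
  adelic image is open iff two good primes have differing Frobenius fields.
* `openImage_iff_infinitely_many_frobeniusFields`,
  `not_openImage_iff_finitely_many_frobeniusFields`, `infinite_LFunction_ne_exceptional`: every
  curve with open image has infinitely many Frobenius fields, so exceptional is having finitely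
  many, and no curve with open image shares its L-function with an exceptional one.
* `exceptional_integral_j`, `exceptional_good_of_semistable`, `exceptional_not_semistable`,
  `exceptional_sqrt_tateModule`, `exceptional_not_surjective`, `exceptional_stableSubgroup`,
  `exceptional_cartan`: a curve with `a_l = 0` at the inert good primes of `ℚ(√d)` has integral
  `j`, no multiplicative reduction, `√d` on every rational Tate module, is never onto `Aut E[p]`
  (`p` odd), has a stable subgroup of order `p ∣ d` and Cartan normalisers at all large `p`.
* `exceptional_unramified`, `exceptional_deuring`, `exceptional_split_prime_gt`,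
  `not_openImage_iff_deuring`: for such a curve no good prime divides `d`, the odd good primes with
  supersingular reduction are those inert in `ℚ(√d)` and at the split ones `4 l = a_l² + |d| b²`,
  so these exceed `|d| / 4`; this criterion for some `d < 0` characterises the image not open.
* `exceptional_field_shape`, `exceptional_ramified_prime`, `serreOpenImage_adelic_iff_genus`: by
  genus theory `d` is `-1`, `-2` or `-p`, `p ≡ 3 mod 4` a prime of bad reduction with a stable
  subgroup of order `p`; only these finitely many fields need testing for the open image.
* `exceptional_classNumber_one`, `not_openImage_classNumber_one`: that field has class number one,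
  by counting ideals in classes.
* `exceptional_iff_cm_LFunction`, `exceptional_tateIsogeny_cm`, `not_openImage_iff_cm_LFunction`:
  exceptional for one of the nine fields means the L-function of a curve with one of the thirteen CM
  invariants, then with matching rational Tate modules; the image is not open iff that holds or the
  field is `ℚ(√-p)` of class number one with a prime `p ≥ 1000` (`p < 1000` gives only the list).
* `exceptional_field_nine`, `openImage_iff_not_cm_LFunction`, `modularity_of_exceptional_all`,
  `modularity_of_not_openImage`: Heegner's theorem for exceptional curves, in Galois form: the field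
  is one of the nine, so the image is open iff the L-function is no CM curve's, and a curve without
  open image is modular.
* `classNumber_one_iff_nine`, `classNumber_one_fields`: the class number one theorem of Heegner,
  Baker and Stark: `ℚ(√d)`, `d < 0` squarefree, has class number one iff `d` is one of
  `-1, -2, -3, -7, -11, -19, -43, -67, -163`; the CM curve is shown to be defined over `ℚ` by
  letting automorphisms of `ℂ` act on multiplication by `√d` (`ClassNumberOne/*`).
* `rational_singularModulus_iff`, `oneClass_iff_thirteen`, `forms_repOne_iff_thirteen`,
  `ncard_rational_singularModuli`: `j` of a quadratic point is rational iff its discriminant is one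
  of the thirteen of class number one, `-3, -4, -7, -8, -11, -12, -16, -19, -27, -28, -43, -67,
  -163`, the only ones with all forms equivalent, so there are exactly thirteen rational singular
  moduli (`ThirteenOrders/*`; their values: `singularModuli_values`).
* `exceptional_twist`, `exceptional_twist_of_cm`: for a prime `p > 3` two curves exceptional for
  `ℚ(√-p)` differ by a quadratic twist in Galois form, so with `p = 7, 11, 19, 43, 67, 163` each is
  a twist, up to such maps of finite kernel, of a curve with complex multiplication by that field.
* `exceptional_traceFormula`, `not_openImage_of_traceFormula`: Deuring's formula for every curve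
  exceptional for `ℚ(√-p)`, `p > 3`: `a_q = 0` or `(e / q) a`, where `4 q = a² + p b²` and
  `(2 a / p) = 1`, for one squarefree `e`.
* `exceptional_torsion`, `torsion_of_not_openImage`, `openImage_of_torsionPoint`: Olson's theorem
  for every exceptional curve: the rational torsion has order dividing `4` (`d = -1`), `6`
  (`d = -3`) or `2`; so a rational point of other finite order forces an open image.
* `exceptional_isogenyPrime_iff`, `isogenyPrime_of_not_openImage`,
  `openImage_of_isogeny_one_mod_four`, `openImage_of_two_isogenyPrimes`: the odd isogeny primes of
  an exceptional curve are the primes dividing `d`, so an isogeny of prime degree `1 mod 4`, or of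
  two odd prime degrees, forces an open image; other odd degrees `l` need `h(-l) = 1`.
* `openImage_of_onePrime`, `openImage_of_onePrime_model`, `openImage_of_class_mod_two`,
  `openImage_of_class_mod_three`: one good prime `l` with `a_l ≠ 0` and semistable reduction at the
  primes dividing `4 l - a_l²` gives an open image; so does `a₁` even with `a₃`, `a₂ + a₄` odd.
* `almostAll_openImage`, `almostAll_openImage_height`, `almostAll_nonintegral_j`: almost all
  `y² = x³ + A x + B`, ordered by box or height, have an open adelic image and non-integral `j`.
* `almostAll_surjective`, `almostAll_surjective_range`, `almostAll_noIsogeny`: for a prime `p ≥ 5`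
  almost all of them have all of `Aut E[p]` as image (Duke), for odd `p` no isogeny of degree `p`.
* `almostAll_torsionFree`, `almostAll_torsionFree_height`, `almostAll_noPointOfOrder`: almost all
  of them have no rational torsion at all, without Mazur's theorem.
* `almostAll_level`, `almostAll_levels`: almost all of them have all of `Aut E[N]` as image for
  `N` prime to `6`, simultaneously for all `N` with prime factors in a given finite set.
* `almostAll_everyLevel`, `almostAll_everyLevels`: the same for every `N ≥ 1`, even `N` and
  multiples of `3` included (Duke's theorem at every fixed level).
* `positiveProportion_serreCurves`, `almostAll_semistable_serreCurve`: a positive proportion of all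
  of them, and almost all semistable ones, are Serre curves (adelic image of index exactly two).
* `almostAll_torsionFree_numberField`, `almostAll_torsion_degree`,
  `almostAll_torsionFree_quadratic`: for every number field `K` almost all of them have no torsion
  over `K`; almost all have every torsion point of degree `≤ d` conjugate to all points of its
  order, so none over any field of degree at most two.
* `almostAll_pairs_independent`, `almostAll_pairs_noHom`: almost all pairs of them have joint
  adelic image open among equal determinants and no nonzero map of points of `p`-power order
  equivariant over some number field, for any `p`.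
* `almostAll_noIsogeny_allPrimes`, `almostAll_noCyclicSubgroup`, `almostAll_torsionFree_abelian`:
  almost all of them are irreducible modulo all primes at once, have no cyclic isogeny of any degree
  and no torsion over `ℚ^ab`, without Mazur's theorem; `dvd_pointCount_twelve_of_stableSubgroup`:
  an odd isogeny prime of good or multiplicative reduction divides `#E(𝔽_(l^12))` at good `l`.
* `almostAll_serreCurve`, `almostAll_surjective_allPrimes`, `almostAll_everyOddLevel`: almost all
  of them are Serre curves (Jones): adelic image of index exactly two, so no exceptional prime
  (Duke) and the whole of `Aut E[N]` as image for every odd `N` at once.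
* `almostAll_exactLevel`: for almost all of them one even `m`, a multiple of the primes of odd
  exponent in the discriminant, describes every level: full image on `E[N]` iff `m ∤ N`.
* `almostAll_serreLevel`, `quadraticCyclotomicLevel`: for almost all of them, with `D` the
  conductor of `ℚ(√Δ)`, the image on `E[N]` has index two if `lcm 2 D ∣ N` and one otherwise
  (Jones's `m_E`); `√d` lies in the `N`-th cyclotomic field iff that conductor divides `N`.
* `serreCurves_fixedA`, `surjective_allPrimes_fixedA`, `infinite_serreCurves_fixedA`: for every
  `A ≠ 0` almost all `B` make `y² = x³ + A x + B` a Serre curve, so without exceptional prime, and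
  infinitely many `B` do.
* `almostAll_disjointField`, `almostAll_surjective_overField`, `almostAll_noIsogeny_overField`: for
  every number field `K` almost all of them have, at every odd `N`, the torsion disjoint from `K`
  beyond the roots of unity, all of `Aut E[N]` over `K` if `K ∩ ℚ(ζ_N) = ℚ`, and no isogeny of odd
  prime degree over `K`.
* `almostAll_torsionFree_abelianOverField`, `almostAll_noCyclicSubgroup_overField`: for every number
  field `K` almost all of them have no torsion over the maximal abelian extension of `K` and no
  cyclic isogeny over `K`, of even or odd degree.
* `serreCurves_congruenceClass`, `surjective_allPrimes_congruenceClass`,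
  `infinite_serreCurves_prescribed`: in every congruence class of `(A, B)` almost all are Serre
  curves; infinitely many `j` are those of Serre curves with prescribed reductions at given primes.
* `birch_second_moment`, `exists_trace_sq_gt`, `almostAll_large_traces`: for a prime `q ≥ 5` the
  traces over the nonsingular short equations over `𝔽_q` have sum `0` and squares `(q-1)(q²-1)`, so
  some `a_q² > q`; for every `m` almost all curves have `m` primes with `a_q² > q/2`.
* `serreCurves_fixedB`, `surjective_allPrimes_fixedB`, `serreCurves_positiveRank`,
  `infinite_serreCurves_positiveRank`: for every `B ≠ 0` almost all `A` give a Serre curve; for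
  every `c ≠ 0` almost all `y² = x³ + A x + c²`, so infinitely many, are Serre curves on which
  `(0, c)` has infinite order.
* `serreCurves_rankTwo`, `infinite_serreCurves_rankTwo`: for almost all `d` the curve
  `y² = x³ + (d² - 17) x + 16` is a Serre curve on which `(0, 4)` and `(1, d)` are independent, so
  infinitely many `j`-invariants are those of Serre curves of rank at least two.
* `modularity_rankTwoFamily`, `infinite_modular_rankTwo`: for `d ≡ ±1 (mod 8)` these curves are
  semistable, so modular of level the product of the bad primes with a functional equation;
  infinitely many `j`-invariants are those of semistable modular Serre curves of rank at least two.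
* `positiveProportion_modular_serreCurves`, `positiveProportion_modular_positiveRank`: a positive
  proportion of all of them are semistable modular Serre curves with trivial rational torsion and
  no exceptional prime; a positive proportion of the `A` make `y² = x³ + A x + 16` one of positive
  rank.
* `almostAll_torsion_orbit`, `torsion_orbit_fixedA`, `torsion_orbit_fixedB`,
  `almostAll_torsion_fieldDegree`: for almost all of them, also with fixed `A ≠ 0` or fixed
  `B ≠ 0`, every torsion point is conjugate to all points of its order, at every order at once; so
  a field of degree `D` containing one has `p² - 1 ≤ D` for the primes `p` dividing the order.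
* `exists_newform_fullImage`, `infinite_newformLevels_fullImage`: infinitely many squarefree levels,
  with prime factors beyond any bound, carry a newform of weight two with coefficients in `ℤ` whose
  `(a_q, q)` modulo every odd or prime `m` are distributed as trace and determinant in `GL₂(ℤ/m)`.
* `almostAll_serreCurve_twists`, `infinite_jInvariant_serreCurve_allTwists`: almost all curves stay
  Serre curves under every quadratic twist at once, and for infinitely many `j` every curve over
  `ℚ` with that invariant is a Serre curve.
* `serreCurve_oddTorsion`, `serreCurve_noStableCyclic`, `serreCurve_of_j_eq`, `serreCurve_twist`: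
  index two alone forces every automorphism of `E[N]` for odd `N` and no cyclic isogeny, and passes
  to every curve with the same `j`: being a Serre curve depends only on the invariant.
* `serreCurve_level`, `not_surjective_serreLevel`, `serreCurve_iff_levels` (Jones): for every Serre
  curve with `Δ = c² d` the image on `E[N]` has index two if `lcm 2 D ∣ N`, one otherwise; no curve
  at all is surjective at such `N`; index at most two at every level makes a Serre curve.
* `torsionIso_of_noStableSubgroup`, `LFunction_eq_of_torsionIso`, `serreCurve_of_traces`,
  `serreCurve_of_traceSquares`: a curve without stable subgroups of prime order is determined up to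
  Galois isomorphism of all torsion by its L-function; so being a Serre curve is an invariant of
  the L-function, even of the squares of its coefficients.
* `exists_serreSubgroup`, `two_dvd_index`, `two_dvd_index_level`, `fullTorsion_density_serreCurve`:
  for EVERY curve the image lies in a subgroup of index two, so the adelic index is even or
  infinite, and even at the multiples of `lcm 2 D`; on a Serre curve the primes with all of `E[N]`
  rational modulo them have density `1/#GL₂(ℤ/N)`, doubled exactly at those multiples.
* `serreCurve_torsion_orbit`, `serreCurve_not_isSquare`, `serreCurve_torsion_maxAbelian`: on EVERY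
  Serre curve each torsion point is conjugate to all points of its order, the discriminant is not a
  square, and no nonzero torsion point is rational over the maximal abelian extension of `ℚ`.
* `serreCurve_stableSubgroups`, `serreCurve_scalarEndomorphisms`: on every Serre curve the finite
  stable subgroups are the `E[n]`, and at every level only scalars commute with Galois.
* `serreCurve_torsion_divisionField`, `serreCurve_divisionField_le_iff`,
  `serreCurve_divisionField_injective`: on every Serre curve the torsion over `ℚ(E[m])` is `E[m]`
  and `ℚ(E[n]) ⊆ ℚ(E[m])` iff `n ∣ m`, so no two division fields coincide.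
* `serreCurve_pointField_degree`, `serreCurve_torsion_trivial`: on every Serre curve a point of
  order `n` over a number field makes `p² - 1` divide its degree for `p ∣ n`, so there is no torsion
  over fields of degree prime to `3` and not a multiple of `8`.
* `not_surjective_three_of_cube`, `serreCurve_j_not_cube`, `serreCurve_j_sub_1728_not_square`: with
  a cubic discriminant the image on `E[3]` is not everything; on a Serre curve neither `Δ` nor `j`
  is a cube and `j - 1728` is not a square.
* `surjective_two_iff`, `surjective_three_iff`: on every curve the image on `E[2]` is everything iff
  `Δ` is no square and no point of order two is fixed, on `E[3]` iff `Δ` is no cube and no subgroup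
  of order three is stable.
* `serreCurve_of_padicImages`, `serreCurve_iff_padicImages`: Jones's criterion, whatever the
  reduction: full images on every `E[l ^ n]` make a Serre curve unless `-3 Δ` is a square, and if
  none of `-Δ, 2 Δ, -2 Δ, -3 Δ` is one, exactly then.
* `FA.Summary.padicImage_full_of_small_level`, `FA.Summary.serreCurve_iff_smallLevels`: Serre's
  lifting lemma at every prime (surjective on `E[8]`, `E[9]`, `E[p]` for `p = 2, 3, ≥ 5` gives all
  `E[p ^ n]`); so, if none of `-Δ, 2 Δ, -2 Δ, -3 Δ` is a square, a curve is a Serre curve iff it
  is surjective at `8`, `9` and every prime `≥ 5`.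
* `FA.Summary.surjective_eight_iff`, `FA.Summary.twoAdicImage_full_iff`,
  `FA.Summary.serreCurve_iff_fourNine`: on every curve the `2`-adic image is everything iff it is on
  `E[4]` and neither `2 Δ` nor `-2 Δ` is a square, so `4` replaces `8` in that criterion.
* `FA.Summary.surjective_four_iff`, `FA.Summary.twoAdicImage_full_iff_explicit`,
  `FA.Summary.serreCurve_iff_twoNine`: Dokchitser's theorem: `E[4]` is full iff `E[2]` is, `-Δ` is
  no square and `j ≠ -4 t³ (t + 8)`; the `2`-adic image is everything iff also no `±2 Δ` is a square.
* `FA.Summary.surjective_four_of_pos`, `FA.Summary.twoAdicImage_full_of_pos`,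
  `FA.Summary.surjective_four_of_unit_j`, `FA.Summary.infinite_surjective_two_not_four`: for `Δ > 0`
  `E[4]` is full iff `E[2]` is and the `j` condition is void where `j` is a unit at `2`; infinitely
  many `j` are full on `E[2]` with all four `±Δ, ±2 Δ` non-squares and not full on `E[4]`.
* `FA.Summary.twoAdicImage_semistable_iff`, `FA.Summary.threeAdicImage_semistable_iff`: on a
  semistable curve the `2`-adic image is everything iff no point of order two is fixed and none of
  `±Δ, ±2 Δ` is a square, the `3`-adic one iff no subgroup of order `3` is stable.
* `FA.Summary.padicImages_semistable`, `FA.Summary.serreCurve_semistable_iff`: hypothesis: `E` is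
  semistable and none of `-Δ, 2 Δ, -2 Δ, -3 Δ` is a square; conclusion: it is a Serre curve iff `Δ`
  is no square and no subgroup of order `2, 3, 5, 7` is stable (`serreCurve_semistable_pos_iff`:
  the hypothesis is only `2 Δ` no square when `Δ > 0`).
* `FA.Summary.twoField_le_threeField_iff`: with all of `Aut E[2]` and `Aut E[3]` induced, `ℚ(E[2])`
  lies in `ℚ(E[3])` iff `j = 27648 t³ (1 - 4 t³)` (Brau–Jones);
  `FA.Summary.serreCurve_iff_not_entangled`: full `l`-adic images give a Serre curve exactly outside
  that family; `FA.Summary.serreCurve_iff_jones`, `FA.Summary.serreCurve_iff_families`,
  `FA.Summary.serreCurve_semistable_criterion`: the criteria with no condition at `-3 Δ`.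
* `FA.Summary.threeAdicImage_of_trace`: full image on `E[3]` and one good `q ≡ 1 mod 3` with
  `a_q ≡ 3, 6 mod 9` give all `Aut E[3ⁿ]`; `FA.Summary.padicImages_5184`,
  `FA.Summary.serreCurve5184_index`, `FA.Summary.exists_padicImages_full_not_serreCurve`:
  `y² = x³ - 9 x + 12` has every image at a prime power full and is no Serre curve (Brau–Jones).
* `FA.Summary.traceDistribution_serreCurve`: exact joint law of `(a_q, q)` modulo finitely many
  primes on every Serre curve; `FA.Summary.pointCountCoprimeDensity_serreCurve`,
  `FA.Summary.pointCountCoprime_serreCurve_pos`, `FA.Summary.fullTorsion_avoid_serreCurve`: the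
  factors of Koblitz and of cyclicity corrected by `1 + ∏_{p ∣ d} 1 / (p³ - 2p² - p + 3)` and
  `1 + ∏_{l ∣ 2d} (-1) / (#GL₂(𝔽_l) - 1)` (Zywina, Jones);
  `FA.Summary.pointCountCoprime74_density37`: `23941 / 73872` for `y² + y = x³ - x` at `74`.
* `FA.Summary.langTrotter_serreCurve`: the corrected constant of Lang and Trotter of a Serre curve
  (Jones): `a_q ≡ t` modulo all of `L` has the generic density times
  `1 + ε sgn(d) ∏_{p ∣ d} w_p` at the levels of the entanglement;
  `FA.Summary.langTrotter_serreCurve_pos`: positive, and corrected for every `t`;
  `FA.Summary.langTrotter74_density37`: `73 / 4104` for `y² + y = x³ - x`, `t = 0`, at `74`.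
* `FA.Summary.serreCurves_prescribed_traces`: Serre curves with given traces at finitely many
  primes have exact density `∏ (p - 1) H(4 p - t²) / (2 p²)` (Deuring);
  `FA.Summary.average_langTrotter`: the mean number of `p ≤ x` with `a_p = t` over them tends to
  the sum of these class number shares (the main term of Fouvry and Murty);
  `FA.Summary.positiveProportion_trace_at_many_primes`: every trace at `k` primes, for every `k`.
* `FA.Summary.almostAll_serreCurves_traces`: for a finite set of `t`, every `k` and every invertible
  class, almost all curves are Serre curves with `k` primes in the class at each `a_p = t` (Deuring,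
  Siegel, Dirichlet); `FA.Summary.almostAll_supersingular_anomalous`: any number of supersingular
  and anomalous primes `≡ 1 (mod 4)`; `FA.Summary.exists_bound_trace_at_many_primes`: below a bound
  for all but a proportion `ε`.
* `FA.Summary.koblitz_obstruction_six`: a point of order three moved through the character of
  `√e`, with `Δ` equal to `e` or `-3 e` up to squares, makes `#E(𝔽_q)` composite at every good
  `q ≥ 11`; `FA.Summary.koblitz_counterexample`, `FA.Summary.infinite_koblitz_counterexamples`:
  `y² = x³ + 9 x + 18`, and infinitely many invariants, for which still no `m ≥ 2` divides almost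
  all point counts (Zywina's counterexample to Koblitz's conjecture in its first form).
* `FA.Summary.six_dvd_trace_of_entangled`, `FA.Summary.six_dvd_trace_of_param`: if `ℚ(E[2])` lies
  in `ℚ(E[3])`, as on the family of Brau and Jones, no good `q ≥ 5` has `a_q ≡ 3` mod `6`;
  `FA.Summary.missing_traces_5184`: so each such trace occurs finitely often on
  `y² = x³ - 9 x + 12`, though every residue modulo every prime power occurs infinitely often;
  `FA.Summary.serreCurve_trace_residues`: on a Serre curve every residue modulo every `N` does.
* `FA.Summary.trace_parity`: an odd `a_q` makes `Δ` a square mod `q`, an even one with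
  `4 ∤ q + 1 - a_q` a non-square; `FA.Summary.serreCurve_trace_pairs`: on a Serre curve this is the
  only obstruction to `(a_q, q)` modulo any `N`; `FA.Summary.serreCurve_pointCount_residues`: so
  every residue of `#E(𝔽_q)` modulo every `N` occurs infinitely often.
* `FA.Summary.obstruction_level`: with open image some `M` is such that `N ∣ a_q - t`, or
  `N ∣ #E(𝔽_q) - t`, for infinitely many `q` exactly when `gcd (N, M)` does;
  `FA.Summary.obstruction_dichotomy`: so either the residue mod `M` alone makes `a_q = t` finite,
  or no congruence at all stops it (the finite level behind Lang–Trotter's and Koblitz's constants).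
* `divisionField_abelianPart`, `serreCurve_abelianPart`, `serreCurve_sqrt_mem_divisionField`: with
  full image at an odd `N`, so at every odd `N` on a Serre curve, the abelian extensions inside the
  field of `E[N]` are those inside `ℚ(ζ_N)`: `√d` lies there iff the conductor of `ℚ(√d)` divides `N`.
* `almostAll_pairs_oddLevels`: almost all pairs of them have, at every odd `N` at once, every pair
  of matrices of equal determinant as the action of one element of Galois on `E[N] × E'[N]`.
* `isogenyPrime_of_good_two`, `isogenyPrime_of_good_three`, `isogenyPrime_of_good_two_three`: so
  for a curve good at `2` an odd isogeny prime of semistable reduction is `3, 5, 7, 13` or `37`,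
  fixed further by `a₂`; good at `3`: `5, 7, 13, 19, 37` or `97`; both: `p ≥ 5` is `5, 7, 13, 37`.
* `galoisSurjective_of_good_two`, `galoisSurjective_of_good`, `galoisSurjective_of_pole_noStable`:
  Serre's surjectivity with an explicit bound and no semistability: `j` with a pole at `q` and `E`
  good at `2` give all of `Aut E[pⁿ]` at every prime `p ∉ {2, 3, 5, 7, 13, 37}` of good or
  multiplicative reduction not dividing `v_q(j)`; good at `l`: at those `p > (l⁶ + 1)²`.
* `potentiallyGood_frobenius`: where `j` is integral at `q`, bad or not, a Frobenius element has
  `σ² - a σ + q = 0` on all torsion prime to `q` for one integer `|a| ≤ 2√q`: the traces on the Tate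
  modules are independent of the prime; `isogenyPrime_of_integral_two`,
  `galoisSurjective_of_integral_two`: so the two previous results need only `j` integral at `2`.
* `frobenius_trace_independent`, `frobenius_congruence_of_torsion`: at every prime `q`, every kind
  of reduction, every Frobenius element has one integer trace `|a| ≤ q + 1` on all Tate modules
  away from `q` (`± (q + 1)` at a pole of `j`), so with the inertia traces they are compatible at
  all places; curves with the same `E[m]` have `a ≡ a' (mod m)` at every `q ∤ m`, additive too.
* `frobenius_fixedTorsion`, `torsion_card_le_of_frobenius_fixed`: at every prime `q` the torsion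
  prime to `q` fixed by a Frobenius element numbers the prime-to-`q` part of `|q + 1 - a|`,
  infinite for `a = q + 1`; so at most `(√q + 1)²` over a field it fixes, `j` integral at `q`.
* `frobenius_semisimple`, `frobenius_weights`, `frobenius_pow_fixedTorsion`,
  `finite_torsion_of_frobenius_pow_fixed`: Frobenius is semisimple at every place, its weights
  are pure exactly for `j` integral, and then fields fixed by a power of it have finite torsion
  prime to `q`, with the exact count.
* `weilGroup_trace_independent`, `weilGroup_fixed_torsion`, `torsion_card_le_of_weilGroup_fixed`:
  every element of degree `n` of the decomposition group at any place over any `q` has one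
  integer trace `a` on all Tate modules away from `q`, `a² ≤ 4 qⁿ` or `a = ± (qⁿ + 1)` by `j`:
  the compatible system on the whole Weil group; for `n ≥ 1` its fixed torsion is counted.
* `exceptional_cartan_image`, `galois_image_large`, `galois_image_large_of_cm`: at all large `p`
  the image on `E[p]` is all of `Aut E[p]` or, on an exceptional curve (so for the thirteen CM
  `j`), exactly the normaliser of a Cartan subgroup, the automorphisms fixing `√d` giving the
  Cartan subgroup itself.
* `finite_cyclicStableSubgroups_all`, `cyclicStableSubgroup_card_dvd_all`,
  `exists_bound_stable_primePow`: every elliptic curve over `ℚ`, with no condition, has only finitely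
  many cyclic stable subgroups; no Tate module has a stable line.
* `weilPairing_exists`: for every elliptic curve over `ℚ` and every `N ≠ 0` a pairing on `E[N]`
  into the `N`-th roots of unity, bimultiplicative, `1` on the diagonal, non-degenerate, Galois
  equivariant (existence only); `rootsOfUnity_of_full_torsion`, `exists_torsion_not_rational`: a
  field with all of `E[N]` rational contains `μ_N`, so over `ℚ` never for `N ≥ 3`.
* `FA.Summary.det_cyclotomic_level_numberField`, `weilPairing_exists_numberField`,
  `rootsOfUnity_fixed_numberField`, `rootsOfUnity_of_full_torsion_numberField`,
  `full_level_le_two_of_real`, `full_level_le_two_of_odd`, `torsion_structure_numberField`,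
  `torsion_structure_small_numberField` (`SummaryWeilNumberField`): for every elliptic curve over
  every number field `K` and every level `N`, with no condition on the curve, the determinant on
  `E[N]` is the cyclotomic character and a Weil pairing exists; so `(ℤ/N)² ⊆ E(K)` gives `μ_N ⊆ K`
  and `φ(N) ∣ [K : ℚ]`, the torsion is `ℤ/m × ℤ/e` with `m ∣ e`, `φ(m) ∣ [K : ℚ]`, and `m ≤ 2`
  with a real place or in odd degree.
* `abelian_le_torsionField`, `sqrt_mem_torsionField`: the torsion fields of every elliptic curve
  over `ℚ` contain every finite abelian extension of `ℚ`, every square root of an integer;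
  `infinitely_many_conj_traces`: infinitely many `q ≡ -1 (mod N)` with `a_q ≡ 0 (mod N)`, any `N`.
* `serreAdelicNotSurjective`, `serreAdelicNotSurjective_range`, `serreAdelicNotSurjective_level`:
  for every elliptic curve over `ℚ` the image in the automorphisms of the torsion is not everything:
  some automorphism of the torsion, and of some `E[N]`, is induced by no element of Galois.
* `serreCurve37_index`, `exists_serreCurve37`, `serreCurve37_torsion`: a Serre curve: for
  `y² + y = x³ - x` the index of that image is exactly two, and Galois induces every automorphism
  of `E[N]` exactly when `74 ∤ N`.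
* `serreCurve_criterion`, `infinite_serreCurves`: semistable, no stable subgroup of prime order, a
  pole of `j` of odd order at some `q ≥ 5` and one of order prime to `3` at some `r ≠ 3` force
  index two; infinitely many `j` are those of Serre curves (`y² + y = x³ - x + k`, `6 ∣ k`);
  `serreCurves_odd_torsion`: these are surjective on `E[N]` for every odd `N`.
* `noStableSubgroup_large`, `finite_isogenyPrimes`: Serre's theorem for every elliptic curve over
  `ℚ`, semistable or not: no stable subgroup of order `p` for all sufficiently large primes `p`.
* `isogeny_eisenstein_prime_integral` (Mazur), every elliptic curve over `ℚ`: with a stable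
  subgroup of prime order `p`, `j` is integral at the odd primes dividing the numerator of
  `(p - 1) / 12`; so a pole of `j` at `l ≥ 5` excludes `p ≡ 1 mod l` and one at `3` excludes
  `p ≡ 1 mod 9` (`isogeny_prime_ne_one_mod_of_pole`, `isogeny_prime_ne_one_mod_nine_of_pole`,
  `isogeny_pole_two`, `isogeny_prime_of_poles_three_five_seven`).
* `galoisSurjectiveTorsion_pow_large`, `galoisSurjectiveTorsion_large`: if moreover the invariant
  has a pole, all large primes `p` are surjective on every `E[p^n]`, semistable or not.
* `galoisSurjectiveTorsion_large_or_dihedral`, `galoisSurjectiveTorsion_large_of_traces`: for every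
  elliptic curve over `ℚ` either all large primes are surjective on every `E[p^n]`, or `a_l = 0` at
  all odd good primes inert in one quadratic field; `galoisSurjectiveTorsion_large_or_dihedral_bad`,
  `galoisSurjectiveTorsion_large_of_traces_bad`: that field is unramified outside the bad primes, so
  finitely many checks suffice; `exists_integral_j_galoisSurjectiveTorsion_large`: `128a` (`j = 128`)
  is surjective at all large primes.
* `dvd_pointCount_of_stableSubgroup`, `galoisSurjectiveTorsion_of_traces_effective`: Serre's theorem
  effectively (for `j ≠ 0, 1728` an odd isogeny prime of good reduction divides the point count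
  over the field of `l^720` elements; surjectivity at a good `p ≥ 11` from finitely many traces);
  `galoisSurjectiveTorsion_128a`: `128a` is surjective on every `E[p^n]` for every `p ≥ 11`.
* `cyclicStableSubgroup_card_dvd`, `finite_cyclicStableSubgroups`, and their `_twist` forms: only
  finitely many finite cyclic Galois stable subgroups (the subgroup form of Shafarevich's finiteness
  of isogeny classes).
* `exists_galois_gl2_quotient`, `exists_galois_of_gl2_surjective`: every quotient of `GL₂(ℤ/N)` is a
  Galois group over `ℚ`; `exists_galois_pgl2_prime`, `exists_galois_generalLinearGroup`: so are
  `PGL₂(𝔽_p)` and `GL(V)` for a plane `V` over `𝔽_p`.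
* `kroneckerWeber`, `kroneckerWeber_primitiveRoot`, `kroneckerWeber_cyclotomicField`: the theorem of
  Kronecker and Weber, every finite abelian extension of `ℚ` lies in a cyclotomic field.
* `galoisAbelianisation`, `absoluteGaloisGroupAbelianisation_rat`: the cyclotomic characters make
  the abelianised absolute Galois group of `ℚ` isomorphic to `∏ ℤ_p^×` as a topological group;
  `padicCharacter_weight`: the logarithm of a continuous `p`-adic character is a unique multiple
  of that of the cyclotomic character.
* `dedekindZeta_abelian`, `dedekindZeta_cyclotomic`, `dedekindZeta_abelian_continuation`,
  `classNumberFormula_abelian`, `classNumberFormula_cyclotomic`: the zeta function of an abelian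
  number field is the product of `[F : ℚ]` Dirichlet `L`-functions of primitive characters, so it
  continues without zeros on `re s ≥ 1` and `∏_{χ ≠ 1} L(1, χ)` is `2^r₁ (2π)^r₂ h R / (w √|d|)`.
* `classFieldTheory_rat`, `classFieldExistence_rat`: class field theory over `ℚ`: every abelian
  number field has a conductor `n` (its primes are those dividing the discriminant, `n ∣ N` iff the
  field is in `ℚ(ζ_N)`) and an Artin map of `(ℤ/n)ˣ` onto the Galois group with Frobenius at the
  primes and kernel the norms of ideals; every subgroup of `(ℤ/n)ˣ` occurs.
* `theta_weightOne`, `ringClassField`, `primes_sq_add_mul_sq`, `dirichlet_forms`,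
  `infinite_primes_form`: for squarefree `D ≡ 3 (mod 8)`, `D > 3`, weight one theta series on
  `Γ₁(4D)` realise irreducible dihedral Galois representations; the field of `ℤ[√-D]`, of degree
  `6 h`, abelian over `ℚ(√-D)`, has `p ∤ 4D` split completely iff `p = x² + D y²` and all its
  irreducible two dimensional representations modular (the dihedral case of Langlands-Tunnell for
  these images); `p = x² + D y²` iff a polynomial has a root mod `p` (almost all `p`); every
  positive form of determinant `D` with an odd outer coefficient has infinitely many primes, with
  density.
* `ringClassField_order`, `primes_sq_add_mul_sq_all`, `dirichlet_forms_all`,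
  `infinite_primes_primitive_form`: for every `n ≥ 1` the primes `x² + n y²` (`p ∤ 6n`) are those
  splitting completely in a dihedral field of degree `2 h(n)` with modular representations; a
  primitive positive definite form represents infinitely many primes, with density for even middle
  coefficient.
* `meyer_form_progression`, `infinite_primes_sq_add_mul_sq_modEq`, `meyer_density`: a primitive
  positive definite form represents infinitely many primes of a residue class prime to `M` iff it
  takes a value in it modulo `M` (Meyer), for even middle coefficient with positive density
  (`SummaryMeyer`);
* `classNumber_reduced_forms`, `two_cubic_residue`: `h(n)` counts the reduced forms; `2` is a cube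
  modulo `p ≡ 1 (mod 3)` iff `p = x² + 27 y²` (Gauss).
* `dirichlet_massFormula`, `dirichlet_classNumberFormula_forms`: the reduced forms of determinant
  `n > 1` represent an `m` prime to `4n` in all `2 ∑_{d ∣ m} (-n/d)` times; `L(1, χ) = π h(n)/(2√n)`.
* `FA.GaussComposition.Summary.gauss_composition`, `…composition_unique`, `…finite_classes`,
  `…united_representatives` (`SummaryGaussComposition`): Gauss's composition: for a nonsquare
  `D ≡ 0, 1 mod 4` of either sign the proper classes of primitive forms are a finite abelian group,
  fixed by the rule for united forms; the composite represents products of represented numbers.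
* `FA.GaussDuplication.Summary.duplication`, `…duplication_principal`, `…duplication_square_value`,
  `…sameGenus_iff_square`, `…card_genera` (`SummaryGaussDuplication`): Gauss's duplication theorem:
  a class of forms is a square iff it has a value `≡ 1 mod D`, iff it represents a square prime to
  `D`; genera are the cosets of the squares, as many as classes of order at most two.
* `FA.BhargavaCubes.Summary.cube_law`, `…exists_cube`, `…cube_classes_iff`, `…bhargava_bijection`,
  `…slices_iff`, `…two_classes_suffice`, `…two_forms_suffice` (`SummaryBhargavaCubes`): Bhargava:
  projective cubes of discriminant `D` mod `SL₂(ℤ)³` are the triples of classes of product one.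
* `FA.GaussCycles.Summary.gauss_cycles`, `…exists_reduced_form`, `…neighbour_exists_unique`,
  `…reduced_iff`, `…reduced_finite`, `…automorphs`, `…class_number_five`, `…class_number_twelve`
  (`SummaryGaussCycles`): Gauss's reduction theory for nonsquare `D > 0`: two reduced forms are
  properly equivalent iff they lie in one cycle; automorphs are the solutions of `t² - D u² = 4`.
* `FA.GenusCount.Summary.ambiguous_classes_count`, `…ambiguous_reduced_count`, `…number_of_genera`,
  `…class_number_odd_iff` (`SummaryGenusCount`): for every discriminant `D < 0` there are `2^(μ-1)`
  ambiguous classes of forms and as many genera; the class number is odd exactly when `μ = 1`.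
* `FA.GenusPrimes.Summary.genus_criterion`, `…congruences_decide_iff`, `…one_class_iff_card`,
  `…minus_eighty_four` (`SummaryGenusPrimes`): for `D < 0` a prime not dividing `D` is a value in a
  genus iff its residue `mod D` is; congruences decide for every form iff one class per genus.
* `FA.GenusTheory.Summary.number_of_genera`, `…sameGenus_iff_characters`, `…exists_form_iff_jacobi`,
  `…ambiguous_classes_count`, `…class_number_odd_iff`, `…card_genera_twelve` (`SummaryGenusTheory`):
  genus theory for every nonsquare `D ≡ 0, 1 (mod 4)` of either sign: half of the combinations of
  the assigned characters are those of a genus, and they tell the genera apart.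
* `FA.FormCount.Summary.dirichlet_representations`, `…genus_representations`, `…one_class_count`,
  `…prime_representations`, `…sum_two_squares_count`, `…hexagonal_count`, `…minus_seven_count`
  (`SummaryFormCount`): for every `D < 0` the classes represent `n` prime to `D` in all
  `w ∑_{d ∣ n} (D / d)` times (Dirichlet), all of them inside one genus (Siegel for binary forms).
* `FA.FormClassFormula.Summary.class_number_formula`, `…conductor_formula`, `…class_number_dvd`,
  `…card_formClass_minus_twelve`, `…_twenty_seven`, `…_twenty_eight` (`SummaryFormClassNumber`):
  `L(1, χ_D) = 2 π h(D) / (w √|D|)` for every `D < 0`, the relation of `h(D f²)` with `h(D)` by the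
  primes of `f`, and `h(D) ∣ h(D f²)`.
* `FA.Gotzky.Summary.four_squares`, `…four_squares_sqrt_five`, `…four_squares_iff`,
  `…four_squares_ring` (`SummaryGotzky`): Götzky's theorem: every totally positive integer of
  `ℚ(√5)` is a sum of four squares of integers of `ℚ(√5)` (Minkowski in `ℝ⁸`, Euler's identity).
* `FA.MaassThree.Summary.three_squares`, `…three_squares_sqrt_five`, `…three_squares_iff`,
  `…square_cancels`, `…not_two_squares` (`SummaryMaassThree`): Maass's theorem: every totally
  positive integer of `ℚ(√5)` is a sum of three squares of integers of `ℚ(√5)`; not always of two.
* `cubeRootTwo_field`, `weightOne_cube_root_two`: `ℚ(∛2, ω)` is the ring class field of `ℤ[√-27]`,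
  with modular representations: a weight one cusp form has `a_p + 1 = #{z mod p | z³ = 2}`.
* `idoneal_tfae`, `idoneal_euler`, `not_congruence_two_cube`: `p = x² + n y²` is decided by
  congruences iff every reduced form of determinant `n` is ambiguous, as for Euler's sixty-five
  numbers up to `1848`; not so for `n = 14, 27`, so neither is whether `2` is a cube modulo `p`.
* `two_biquadratic_residue`, `classNumber_one_tfae`: for `p ≡ 1 (mod 4)` two is a fourth power
  modulo `p` iff `p = x² + 64 y²` (Gauss), not decided by congruences; `h(n) = 1` iff
  `n ∈ {1, 2, 3, 4, 7}` (Landau), iff for almost all `p` having `-n` a square modulo `p` suffices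
  for `p = x² + n y²`.
* `artin_dihedral`, `artin_cube_root_two`, `weightOne_partial_LFunction_entire`: Artin's conjecture
  for the irreducible two dimensional representations of these fields: their L-functions, without
  the factors at `p ∣ 6 n`, are entire.
* `weightOne_dihedral`, `artin_dihedral_every_order`: for every `m ≥ 3` the dihedral group of order
  `2 m` is the image of an irreducible representation of `G_ℚ` attached to a weight one form, with
  entire partial L-function (`SummaryDihedralModular`).
* `classGroup_cyclic_quotient`, `weightOne_dihedral_every_field`,
  `dihedral_field_every_imaginary_quadratic`: for every `n` the class groups of the orders `ℤ[f√-n]`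
  have every cyclic quotient, so for `m ≥ 3` a weight one form has dihedral image of order `2 m` and
  determinant cutting out `ℚ(√-n)`, which lies in a dihedral extension of degree `2 m`
  (`SummaryDihedralEveryField`).
* `classGroup_abelian_quotient`, `generalisedDihedral_every_imaginary_quadratic`,
  `weightOne_dihedral_infinitely_many`, `dihedral_fields_infinitely_many`: for every `n` every
  finite abelian group is a quotient of some `Cl(n f²)` and the group over `ℚ(√-n)` of a Galois
  extension of `ℚ` whose other automorphisms are involutions; for `m ≥ 3` infinitely many kernels of
  modular representations with image of order `2 m` and character `(-n/p)` (`SummaryDihedralFamily`).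
* `weightOne_dihedral_independent`, `rank_weightOne_unbounded`: for every `n`, `m ≥ 3` and `B` one
  level carries `B` linearly independent such forms, so `dim S₁(Γ₁(N))` is unbounded
  (`SummaryWeightOneUnbounded`).
* `gauss_mertens`, `reducedTriples_asymptotic`, `classNumber_gt_sqrt_infinitely_often`: Gauss's
  mean class number, `∑_{n ≤ X} h(n) ~ 4π/(21 ζ(3)) X^(3/2)`; the reduced integer triples number
  `~ 2π/9 X^(3/2)`; `h(n) > c √n` infinitely often for `c < 2π/(7 ζ(3))` (`SummaryGaussMertens`).
* `siegel_theorem`, `classNumber_lower_bound`, `classNumber_tendsto_atTop`, `classNumber_finite`,
  `log_classNumber_equivalent` (all in `FA.Siegel`): Siegel's theorem and Gauss's conjecture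
  `h(n) → ∞` (ineffective).
* `discriminant_classNumber_finite`, `singularModuli_finite_of_degree`,
  `cmInvariants_finite_of_degree`: `h(D) → ∞` over all negative discriminants, so singular moduli
  and CM invariants of bounded degree are finitely many (ineffective).
* `idoneal_finite`, `exponentTwo_finite`, `classesPerGenus_tendsto_atTop` (Chowla): the idoneal
  numbers are finitely many, the classes in a genus tend to infinity (ineffective).
* `fieldClassNumber_finite`, `fieldClassNumber_lower_bound`, `fieldClassGroup_exponentTwo_finite`
  (Heilbronn): finitely many imaginary quadratic fields of given class number (ineffective).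
* `specialPoints_line_finite`, `singularModuli_sum_finite` (André): finitely many pairs of singular
  moduli on a line `z + ζ w = A`, `ζ` a root of unity, other than the diagonal.
* `siegel_zero_free`, `lFunction_bound_near_one`: no real zero of a real L-function in
  `(1 - c q^(-ε), 1]` (Siegel, ineffective); `|L(s, χ)| ≪ q^ε` near `re s = 1`.
* `singularModulus_dominant`, `singularModulus_pow_field` (Riffaut): one conjugate of a singular
  modulus exceeds the rest in absolute value, so `ℚ(z ^ n) = ℚ(z)`, a power is rational only at the
  thirteen discriminants, none is a root of unity (`SummarySingularPowers`).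
* `specialPoints_fibre_finite`, `singularModulus_polynomial_generator`: for `f ∈ ℚ[X]` non-constant
  finitely many pairs of distinct singular moduli have `f(z) - f(w) = A`, and `ℚ(f(z)) = ℚ(z)` for
  all but finitely many (`SummaryPolynomialModuli`).
* `hermite_lindemann`, `transcendental_e`, `transcendental_pi`, `squaring_the_circle`: `exp α` is
  transcendental for algebraic `α ≠ 0`; so are `e`, `π`, logarithms of algebraic numbers other
  than `1` and sines of algebraic numbers other than `0` (`SummaryTranscendence`).
* `lindemann_weierstrass`, `lindemann_weierstrass_algebraicIndependent`: exponentials of distinct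
  algebraic numbers are linearly independent over the algebraic numbers; of numbers independent
  over `ℚ`, algebraically independent (`SummaryLindemannWeierstrass`).
* `gelfond_schneider` (Hilbert's seventh problem): `a ^ β` is transcendental; so are `2 ^ √2`,
  `e ^ π`, `e ^ (π √163)`, `exp (2 π i τ)` at imaginary quadratic `τ`, and any irrational ratio of
  logarithms of algebraic numbers (`SummaryGelfondSchneider`).
* `schneider_lang` (at most `4 ρ [K : ℚ]` points with all values in `K`), `schneider_period`
  (periods of `℘` with algebraic invariants are transcendental), `schneider_j`, `isAlgebraic_j_iff`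
  (`τ`, `j τ` both algebraic exactly at CM points), `transcendental_j_cbrtTwoI`
  (`SummarySchneider`).
* `schneider_pi_div_period`, `schneider_weierstrassP`, `schneider_period_ratio`,
  `isAlgebraic_agm_iff` (the arithmetic-geometric mean of two positive algebraic numbers is
  algebraic only if they are equal), `transcendental_gauss_constant`, `transcendental_Gamma_quarter`,
  `transcendental_Gamma_third` (`SummaryPeriodTranscendence`).
* `six_exponentials` (Lang, Ramachandra), `isAlgebraic_three_prime_powers_iff` (`p ^ t`, `q ^ t`,
  `r ^ t` algebraic only for rational `t`), `exists_nat_eq_of_rpow_int`,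
  `exists_transcendental_two_rpow_pi_pow` (`SummarySixExponentials`).
* `FA.SixExponentialsPadic.Summary.six_exponentials` (`SummarySixExponentialsPadic`): Serre's
  six exponentials theorem in `ℂ_p`; `FA.SixExponentialsPadic.Summary.three_powers`: three
  independent algebraic numbers near `1` have no common irrational exponent in the unit disc with
  all three powers algebraic.
* `FA.Mahler.Summary.mahler` (`SummaryMahlerMethod`, whose names are in `FA.Mahler.Summary`):
  Mahler's method; `∏ (1 - α ^ (2 ^ k))` (`FA.Mahler.Summary.transcendental_prod`) and the
  Thue–Morse constant in every base (`FA.Mahler.Summary.transcendental_thueMorseConstant`) are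
  transcendental; `FA.Mahler.Summary.gelfond_schneider_padic`: Gelfond–Schneider in `ℂ_p`.
* `FA.Anchors.pexp_eq_exp`, `FA.Anchors.thueMorseConstant_mem` (`SummaryDefinitionAnchors`): the
  exponential of those `p`-adic statements is Mathlib's, the Thue–Morse series converges in `(0, 1)`.
* `FA.Apery.Summary.apery`, `FA.Apery.Summary.apery_riemannZeta` (`SummaryApery`): Apéry's
  theorem, `ζ(3)` is irrational; `FA.Apery.Summary.lcmUpto_le`: `lcm (1, …, n) = O (3.1 ^ n)`
  (Chebyshev).
* `FA.Apery.Summary.pi_irrationality_measure`, `FA.Apery.Summary.not_liouville_pi`,
  `FA.Apery.Summary.zetaTwo_irrationality_measure`, `FA.Apery.Summary.irrational_pi_sq`,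
  `FA.Apery.Summary.zetaThree_irrationality_measure`, `FA.Apery.Summary.not_liouville_zetaThree`,
  `FA.Apery.Summary.apery_numbers_zetaTwo` (`SummaryIrrationalityMeasure`): Apéry's method for
  `ζ(2)`; `|π - p / q| ≥ c / q ^ 114` (Mahler: `π` is not a Liouville number), exponents `57`
  for `π ² / 6` and `104` for `ζ(3)`, not the best known ones
* `FA.AperyExponents.Summary.zeta_two_exponent`, `pi_exponent`, `zeta_three_exponent`,
  `log_two_exponent`, `apery_growth` (`SummaryAperyExponents`): Apéry's exponents with the prime
  number theorem: every one above `11.85…` for `ζ(2)`, twice that for `π`, `13.41…` for `ζ(3)`,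
  and Alladi–Robinson's `4.62…` for `log 2`;
* `FA.DysonConstantTerm.Summary.dyson_constant_term`, `dyson_equal_exponents`, `dixon_identity`,
  `dyson_circle_integral` (`SummaryDysonConstantTerm`): Dyson's constant term theorem, Dixon's
  identity, and the circular ensembles at even `β`;
* `FA.QDyson.Summary.grid_coefficient_formula`, `q_dyson`, `macdonald_type_A`, `q_dyson_at_one`
  (`SummaryQDyson`): the q-Dyson theorem of Zeilberger and Bressoud in every commutative ring,
  Macdonald's constant term identity for `A_{n-1}`, and the coefficient formula on a grid;
* `FA.SelbergIntegral.Summary.selberg_integral`, `selberg_moments`, `aomoto_integral`,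
  `uniform_vandermonde_moment` (`SummarySelbergIntegral`): Selberg's integral with exponents
  `α, β > 0` real and `γ` a natural number, its moment form, Aomoto's extension and the moments
  of the Vandermonde product of uniform points;
* `FA.MehtaIntegral.Summary.mehta_integral`, `gaussian_vandermonde_moment`,
  `laguerre_selberg_integral`, `gue_normalisation` (`SummaryMehtaIntegral`): Mehta's integral
  with `γ` a natural number, the Laguerre form of Selberg's integral and the normalising constant
  of the Gaussian unitary ensemble;
* `FA.MorrisIdentity.Summary.morris_constant_term`, `morris_integral`, `keating_snaith_moment`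
  (`SummaryMorrisIdentity`): Morris's constant term identity, its form as an average over the
  torus and the moments of Keating and Snaith at natural exponents, in eigenvalue form;
* `FA.SchurDiscriminant.Summary.schur_discriminant_max`, `schur_discriminant_interval`,
  `transfinite_diameter_interval`, `discriminant_real_roots` (`SummarySchurDiscriminant`): the
  greatest discriminant of `n` points of an interval (Stieltjes, Schur) and its transfinite
  diameter, a quarter of the length;
* `FA.MacMahonBox.Summary.macmahon_box`, `macmahon_two_rows`, `gelfand_tsetlin_count`
  (`SummaryMacMahonBox`): MacMahon's count of plane partitions in a box and the number of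
  Gelfand–Tsetlin patterns with given top row;
* `FA.WignerSemicircle.Summary.wigner_moments`, `semicircle_moments`, `wigner_semicircle`,
  `wigner_sign_matrices` (`SummaryWignerSemicircle`): Wigner's semicircle law in moment form for
  symmetric random matrices with independent entries;
* `FA.WignerWeakLaw.Summary.wigner_weak_law`, `wigner_mean_weak`, `wigner_variance`,
  `wigner_interval` (`SummaryWignerWeakLaw`): Wigner's semicircle law, the spectral measures
  converge weakly in probability and the proportion of eigenvalues in an interval to its mass;
* `FA.WignerAlmostSure.Summary.wigner_almost_sure`, `wigner_moments_ae`, `wigner_interval_ae`,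
  `wigner_variance_sharp`, `wigner_sign_ae` (`SummaryWignerAlmostSure`): the semicircle law
  almost surely, for all bounded continuous functions and all intervals at once;
* `FA.WignerFiniteVariance.Summary.wigner_finite_variance`, `wigner_interval_finite_variance`,
  `wigner_iid`, `spectral_lipschitz` (`SummaryWignerFiniteVariance`): the semicircle law almost
  surely for entries with a finite variance only, and its Hoffman-Wielandt inequality;
* `FA.RandomGraphSpectrum.Summary.random_graph_semicircle`, `wigner_any_mean`,
  `eigenvalue_count_le_rank` (`SummaryRandomGraphSpectrum`): the semicircle law for the adjacency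
  matrices of `G(ℕ, p)` and for entries of any mean, by the rank inequality;
* `FA.Lindeberg.Summary.lindeberg`, `lyapunov`, `bounded_clt`, `bernoulli_clt`, `harmonic_clt`
  (`SummaryLindeberg`): the central limit theorems of Lindeberg and of Lyapunov;
* `FA.BerryEsseen.Summary.berry_esseen`, `iterated_logarithm`, `iterated_logarithm_bounded`,
  `random_walk` (`SummaryBerryEsseen`): the theorem of Berry and Esseen with constant 8000 and
  the law of the iterated logarithm for third moments;
* `FA.CramerChungFuchs.Summary.cramer`, `cramer_lower`, `chung_fuchs`, `integer_walk`,
  `recurrent_iff` (`SummaryCramerChungFuchs`): Cramér's large deviation theorem and the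
  recurrence theorem of Chung and Fuchs for random walks on the line;
* `FA.HartmanGrobman.Summary.hartman_grobman`, `hartman_grobman_local`, `hyperbolic_iff_roots`,
  `toral_stability`, `cat_map_stable` (`SummaryHartmanGrobman`): the linearisation theorem of
  Hartman and Grobman in Banach spaces and Anosov's stability of hyperbolic toral automorphisms;
* `FA.StableManifold.Summary.stable_manifold`, `splitting_projection`, `toral_shadowing`
  (`SummaryStableManifold`): the stable manifold theorem of Hadamard and Perron in Banach spaces
  and Anosov's shadowing and closing lemma for hyperbolic toral automorphisms;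
* `FA.Kakutani.Summary.kakutani_fixed_point`, `concave_game_equilibrium`, `peano_existence`,
  `peano_nonunique` (`SummaryKakutani`): Kakutani's fixed point theorem in normed spaces with the
  equilibria of concave games, and Peano's existence theorem for ordinary differential equations;
* `FA.PoincareBendixson.Summary.poincare_bendixson`, `trapping_region`, `transversal_monotone`,
  `poincare_bendixson_nonvacuous` (`SummaryPoincareBendixson`): the limit set of a bounded planar
  trajectory is a periodic orbit when it holds no equilibrium;
* `FA.DeFinetti.Summary.de_finetti`, `de_finetti_tail`, `de_finetti_binary`,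
  `exchangeable_covariance_nonneg` (`SummaryDeFinetti`): exchangeable sequences in standard Borel
  spaces are the mixtures of independent identically distributed ones;
* `FA.Brownian.Summary.brownian_motion_exists`, `wiener_law`, `brownian_not_lipschitz`,
  `brownian_nowhere_differentiable` (`SummaryBrownian`): Brownian motion by the series of Lévy and
  Ciesielski, and the theorem of Paley, Wiener and Zygmund;
* `FA.Donsker.Summary.donsker`, `walk_path_vertex`, `reflection_principle`, `walk_max_limit`,
  `quadratic_variation` (`SummaryDonsker`): Donsker's invariance principle in `C([0, 1], ℝ)`, the
  reflection principle and the limit law of the maximum of partial sums;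
* `FA.ItoCalculus.Summary.ito_integral`, `ito_isometry`, `ito_martingale`, `ito_formula`,
  `ito_formula_integral`, `lipschitz_integrand`, `ito_example` (`SummaryItoCalculus`): the integral
  of Itô for Brownian motion and integrands continuous in square mean, and his formula;
* `FA.LogSobolev.Summary.cube_log_sobolev`, `cube_poincare`, `gaussian_log_sobolev`,
  `gaussian_poincare`, `gaussian_concentration`, `gaussian_concentration_tail`, `norm_concentration`
  (`SummaryLogSobolev`): Gross's inequality and Herbst's argument for Gaussian concentration;
* `FA.AdditiveErdosKac.Summary.erdos_kac_additive`, `erdos_kac_bigOmega`,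
  `erdos_kac_progression` (`SummaryAdditiveErdosKac`): the theorem of Erdős and Kac for additive
  functions in general, for `Ω`, and for the prime factors in a residue class;
* `FA.Kingman.Summary.kingman`, `kingman_ergodic`, `furstenberg_kesten` (`SummaryKingman`):
  Kingman's subadditive ergodic theorem, and the theorem of Furstenberg and Kesten on the top
  Lyapunov exponent of a product of random invertible elements;
* `FA.FurstenbergLyapunov.Summary.furstenberg_growth`, `furstenberg_positive`, `furstenberg_lemma`,
  `group_unbounded`, `shear_example` (`SummaryFurstenbergLyapunov`): Furstenberg's theorem that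
  the top Lyapunov exponent of independent random matrices of determinant `±1` is positive when
  their law is strongly irreducible and generates an unbounded group;
* `FA.FurstenbergKifer.Summary.vector_growth`, `vector_growth_uniform`, `furstenberg_formula`,
  `stationary_exists`, `stationary_nonatomic` (`SummaryFurstenbergKifer`): every vector grows at
  that exponent, uniformly in the mean, and Furstenberg's formula for stationary measures;
* `FA.Oseledets.Summary.oseledets`, `oseledets_singular`, `oseledets_ergodic`, `ruelle`
  (`SummaryOseledets`): the multiplicative ergodic theorem of Oseledets for an invertible cocycle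
  over a measure preserving map: the exponents and the filtration by growth rates;
* `FA.GuivarchRaugi.Summary.guivarch_raugi`, `rank_one_limit`, `vector_comparable`, `plane_simple`,
  `atkinson` (`SummaryGuivarchRaugi`): the theorem of Guivarc'h and Raugi that the top exponent of
  a strongly irreducible proximal random product is simple;
* `FA.ProjectiveStationary.Summary.stationary_unique`, `boundary_map`, `equidistribution`,
  `boundary_formula` (`SummaryProjectiveStationary`): the stationary measure on projective space of
  a strongly irreducible proximal random product is unique, with Furstenberg's boundary map;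
* `FA.LePage.Summary.le_page`, `projective_contraction`, `geometric_ergodicity`,
  `shear_example_clt` (`SummaryLePage`): Le Page's central limit theorem for `log ‖Q n v‖` and
  `log ‖Q n‖` of such a product with an exponential moment, by contraction on projective space;
* `FA.ProjectiveRegularity.Summary.large_deviation`, `hyperplane_deviation`,
  `stationary_regularity` (`SummaryProjectiveRegularity`): Le Page's large deviation bounds for
  such products and Guivarc'h's Hölder regularity of the stationary measure on projective space;
* `FA.AndersonModel.Summary.anderson_exponent`, `anderson_irreducible`, `anderson_deviation`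
  (`SummaryAndersonModel`): the Lyapunov exponent of the one-dimensional Anderson model is positive
  and continuous in the energy, with the central limit theorem and large deviations;
* `FA.AndersonHolder.Summary.exponent_holder`, `uniform_contraction`, `stationary_holder`
  (`SummaryAndersonHolder`): Le Page's theorem that this exponent is Hölder continuous in the
  energy on bounded intervals;
* `FA.MatrixCoefficient.Summary.coefficient_clt`, `coefficient_growth`, `coefficient_deviation`,
  `anderson_solution` (`SummaryMatrixCoefficient`): the growth, deviation bounds and central limit
  theorem for the matrix coefficients of random products, hence for solutions in the Anderson model;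
* `FA.TopEigenvalue.Summary.top_eigenvalue`, `trace_growth`, `radius_clt`
  (`SummaryTopEigenvalue`): random products have a real eigenvalue at the top exponent and are
  proximal; growth, deviation bounds and central limit theorem for the trace and spectral radius;
* `FA.PNT.Summary.prime_number_theorem` (`SummaryPrimeNumberTheorem`): the prime number theorem,
  `π x ∼ x / log x`, `θ x ∼ x`, `ψ x ∼ x`, in arithmetic progressions too
  (`FA.PNT.Summary.prime_number_theorem_progression`), and primes of a class in `(x, (1 + ε) x]`; by Newman.
* `FA.HardyZeros.Summary.hardy` (`SummaryHardy`): Hardy's theorem that `ζ` has infinitely many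
  zeros on the critical line, indeed of arbitrarily large height
  (`FA.HardyZeros.Summary.hardy_arbitrarily_high`).
* `FA.Summary.zero_density`, `FA.Summary.zero_density_finite_count` (`SummaryZeroDensity`): a
  zero-density theorem for `ζ`: at most `C T^(6 (1-σ)) log^11 T` zeros with `re ρ ≥ σ`,
  `|im ρ| ≤ T`, uniformly in `σ` (cruder than the exponents of Carlson and of Ingham).
* `FA.Summary.ingham_zero_density` (`SummaryInghamDensity`): Ingham's zero-density theorem, at
  most `C T^(8 (1-σ)/3) log^13 T` zeros of `ζ` with `re ρ ≥ σ`, `|im ρ| ≤ T`, uniformly in `σ`.
* `FA.Summary.littlewood_zero_free_region`, `FA.Summary.zeta_growth_near_one`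
  (`SummaryLittlewoodRegion`): Littlewood's zero-free region `re s ≥ 1 - c log log t / log t`,
  by exponential-sum derivative tests of every order (`FA.Hoheisel.norm_vdc_iter_le`) and
  Landau's lemma.
* `FA.Summary.hoheisel`, `FA.Summary.prime_gap_hoheisel`, `FA.Summary.prime_between_powers`,
  `FA.Summary.mills` (`SummaryHoheisel`): Hoheisel's theorem `π (x + h) - π x ∼ h / log x` for
  `x ^ θ ≤ h ≤ x` with some `θ < 1`; hence `p_{n+1} - p_n ≤ p_n ^ θ`, primes between consecutive
  `k`-th powers for large `k`, and Mills' prime-representing `⌊A ^ (k ^ m)⌋`.
* `FA.Summary.ingham_short_intervals`, `FA.Summary.ingham_prime_gap`,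
  `FA.Summary.prime_between_cubes`, `FA.Summary.mills_cubes` (`SummaryIngham`): Ingham's theorem
  `π (x + h) - π x ∼ h / log x` for `x ^ θ ≤ h ≤ x`, every `θ > 5/8`; hence
  `p_{n+1} - p_n ≤ p_n ^ θ`, primes between large consecutive cubes, and Mills' theorem that
  `⌊A ^ (3 ^ m)⌋` is prime for every `m` and some `A`.
* `FA.Summary.psi_almost_all_intervals` (`SummaryPsiAlmostAllIntervals`): for every `θ > 1/4`,
  `ψ (x + h) - ψ x ∼ h` (`h ≥ X ^ θ`) for all `x ∈ [X, 2X]` outside a set of measure `o(X)`.
* `FA.Summary.primes_almost_all_intervals`, `FA.Summary.prime_in_almost_every_interval`,
  `FA.Summary.long_prime_gaps_total` (`SummaryPrimesAlmostAllIntervals`): for `θ > 1/4`,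
  `π (x + h) - π x ∼ h / log x` for almost all `x`, almost every `(x, x + x ^ θ]` contains a
  prime, and prime gaps longer than `p ^ θ` have total length `o(X)`.
* `FA.Summary.selberg_psi_variance_of_RH`, `FA.Summary.theta_almost_all_intervals_of_RH`,
  `FA.Summary.prime_short_interval_of_RH`, `FA.Summary.prime_gaps_sq_sum_of_RH`
  (`SummarySelbergShort`), RH as a hypothesis: Selberg's `∫_X^{2X} (ψ (x + h) - ψ x - h)² ≪
  h X log² X`, primes in almost every `(x, x + f x log² x]` for `f → ∞`, and
  `∑_{p_n ≤ x} (p_{n+1} - p_n)² ≪ x log³ x`.
* `FA.Summary.zeta_half_weyl_bound` (`SummarySubconvexity`): the theorem of Weyl, Hardy and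
  Littlewood, `ζ(1/2 + it) = O(|t|^(1/6) log |t|)`, by van der Corput's second and third derivative
  tests (`FA.Summary.exponential_sum_second_derivative`,
  `FA.Summary.exponential_sum_third_derivative`) and the Kuzmin-Landau lemma.
* `FA.GoldbachSchnirelmann.Summary.schnirelmann`, `FA.GoldbachSchnirelmann.Summary.brun`
  (`SummaryGoldbach`): every `n ≥ 2` is a sum of boundedly many primes (Schnirelmann), and the
  reciprocals of the twin primes have a convergent sum (Brun); by Selberg's sieve.
* `FA.WaringHilbert.Summary.waring` (`SummaryWaring`): Waring's problem (Hilbert), for every
  `k ≥ 1` every `n` is a sum of boundedly many `k`-th powers; by Linnik's lemma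
  (`FA.WaringHilbert.Summary.linnik_powers`).
* `FA.ZeroFree.Summary.zero_free`, `FA.ZeroFree.Summary.psi_error` (`SummaryZeroFree`): `ζ` has
  no zero with `re s ≥ 1 - c / log (|im s| + 3) ^ 9`, and the prime number theorem with the
  error term `x exp (-c (log x) ^ (1/10))` (`FA.ZeroFree.Summary.theta_error` for `ϑ`).
* `FA.DLVP.Summary.zero_free`, `FA.DLVP.Summary.psi_error` (`SummaryDelaValleePoussin`): de la
  Vallée Poussin's theorem in the classical strength: `ζ` has no zero with
  `re s ≥ 1 - c / log (|im s| + 3)` and `ψ x = x + O (x exp (-c √(log x)))`, by Landau's lemma
  from Borel–Carathéodory (also `FA.DLVP.Summary.logDeriv_bound`: `ζ'/ζ = O (log² |t|)` there,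
  `FA.DLVP.Summary.theta_error`, `FA.DLVP.Summary.primeCounting_error`: `π x = li x + error`).
* `FA.ExplicitFormula.Summary.explicit_formula` (`SummaryExplicitFormula`): the explicit formula
  `∑_{n ≤ x} Λ n (x - n) = x² / 2 - ∑_ρ x ^ (ρ + 1) / (ρ (ρ + 1)) - x log 2π + O (√x)`,
  absolutely convergent over the nontrivial zeros; hence von Koch's sharp forms
  `FA.ExplicitFormula.Summary.riemannHypothesis_iff_psi_sharp` (`ψ x - x = O (√x log² x)`),
  `…riemannHypothesis_iff_primeCounting_sharp` (`π x - li x = O (√x log x)`), the same for
  every zero-free half-plane, and under the hypothesis a prime in `(x, x + C √x log² x]`.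
* `FA.LiCriterion.Summary.partial_fractions` (`SummaryLiCriterion`): Hadamard's expansion
  `ξ'/ξ s - ξ'/ξ 0 = ∑_ρ (1 / (s - ρ) + 1 / ρ)`, with `…sum_re_inv`:
  `∑_ρ re (1 / ρ) = 1 + γ / 2 - log (4 π) / 2`; `…li_criterion`: the Riemann hypothesis holds iff
  all of Li's coefficients `∑_ρ re (2 - a ^ n - a ^ (-n)) / 2`, `a = ρ / (ρ - 1)`, are nonnegative
  (also `…li_criterion_deriv`, on the Taylor coefficients of `d/dz log ξ (1 / (1 - z))`).
* `FA.Korobov.Summary.vinogradov_mean_value` (`SummaryVinogradovMeanValue`): Vinogradov's mean
  value theorem: for `s = k r`, at most `(64 k) ^ (32 k r (k² + r)) P ^ (2 s - k (k + 1) / 2 + η)`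
  solutions of `∑ x i ^ j = ∑ y i ^ j` (`j ≤ k`) in `[1, P]`, `η = k² (1 - 1/k) ^ r / 2`; also
  `…vinogradov_mean_value_eps` and Linnik's lemma `…linnik_congruences`.
* `FA.VMC.Summary.vinogradov_main_conjecture` (`SummaryVinogradovMainConjecture`): the main
  conjecture in Vinogradov's mean value theorem (Bourgain-Demeter-Guth, Wooley), for all `k` and
  `s`: `≪ X ^ ε (X ^ s + X ^ (2 s - k (k + 1) / 2))` solutions, sharp (`…_sharp`); also the
  discrete restriction estimate `…discrete_restriction` at the exponent `k (k + 1)`.
* `FA.Korobov.Summary.zeta_sum_bound` (`SummaryVinogradovKorobov`): Vinogradov's bound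
  `∑_{N ≤ n < K} n ^ (-it) ≪_L N ^ (1 - c / L²)` for `N ^ L ≤ t ≤ N ^ (L + 1)`, `K ≤ 2 N`, and
  `…zeta_bound`: `ζ (σ + it) = O ((log |t|) ^ 41 |t| ^ (A (1 - σ) ^ (3/2)))` for `σ ≥ 1/2`;
  `…zero_free`: no zero with `σ ≥ 1 - c / ((log |t|) ^ (2/3) (log log |t|) ^ (1/3))`; hence
  `…psi_error`, `…theta_error`, `…primeCounting_error`: the prime number theorem with error
  `O (x exp (-c (log x) ^ (3/5) / (log log x) ^ (1/5)))` (Vinogradov, Korobov 1958).
* `FA.WaringAsymptotic.Summary.weyl_inequality`, `…complete_sum_bound`, `…power_moment_bound`,
  `…minor_arcs_sup` (`SummaryWaringAsymptotic`): tools for Waring's problem by the circle method: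
  Weyl's inequality, `|∑_{x mod q} e (a x ^ k / q)| ≪ q ^ (1 - 1/(2k))`, the moment bound from
  Vinogradov's mean value theorem, and Weyl's bound on the minor arcs;
  `…weyl_inequality_vinogradov`: Weyl's inequality with the exponent `1 / (k (k - 1))`, from the
  main conjecture in the mean value theorem; `…complete_sum_bound_hua`: `q ^ (1 - 1/k)` for
  `k ≥ 3`; `…power_moment_critical`: the moment `P ^ (2 t - k + ε)` at `2 t = k (k + 1)`; hence
  `…waring_asymptotic`: the formula of Hardy and Littlewood for the representations by
  `s > k (k + 1)` positive `k`-th powers, with a power saving; `…singularSeries_pos` and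
  `…waring_lower_bound`: the singular series is bounded below, so there are `≫ N ^ (s/k - 1)`
  representations; `…waring_large`: `G (k) ≤ k² + k + 1`.
* `FA.WaringVinogradov.Summary.waring_vinogradov`, `…waring_G_isBigO` (`SummaryWaringVinogradov`):
  Vinogradov's bound `G (k) = O (k log k)`: every large number is a sum of `s` `k`-th powers for
  `s ≥ k (6 log k + 19)` (e.g. `…waring_vinogradov_hundred`: `4820` hundredth powers), by
  `…diminishing_ranges`; `…waring_singular_series_four`: the singular series is bounded below from
  `4 k` variables on.
* `FA.DiophantineInequality.Summary.davenport_heilbronn`, `…davenport_heilbronn_dense`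
  (`SummaryDiophantineInequalities`): the theorem of Davenport and Heilbronn: for `k ≥ 2`,
  `s ≥ k (k + 1) + 3` and real `lᵢ ≠ 0` not in rational ratio and not of one sign, `≫ P ^ (s - k)`
  tuples in `[1, P] ^ s` have `|∑ lᵢ xᵢ ^ k - μ| < η`, so the values are dense in `ℝ`;
  `…davenport_heilbronn_odd`: no sign condition for odd `k` with nonzero integers;
  `…indefinite_quadratic_small`: nine variables for diagonal quadratic forms.
* `FA.BiquadratesSixteen.Summary.waring_G_four`, `…sixteen_biquadrates`, `…fourteen_biquadrates`
  (`SummarySixteenBiquadrates`): Davenport's theorem `G (4) = 16` exactly, with fourteen fourth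
  powers for large `n ≢ 0, 15` modulo `16` (no explicit threshold);
  `…nested_fourth_powers`: his mean value for five fourth powers in diminishing ranges, `T ^ 1276`
  tuples with `O (T ^ (1276 + ε))` coincidences.
* `FA.SevenCubes.Summary.seven_cubes` (`SummarySevenCubes`): the theorem of Linnik that every
  sufficiently large number is a sum of seven positive cubes, `G (3) ≤ 7`, by Watson's proof from
  the three square theorem and Siegel-Walfisz (ineffective threshold).
* `FA.CombinatorialSieve.Summary.fundamental_lemma`, `…beta_upperMoebius`, `…beta_lowerMoebius`
  (`SummaryCombinatorialSieve`): the fundamental lemma of the combinatorial sieve in every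
  dimension, upper and lower bound, from the beta sieve: `S = X V (1 + O (exp (-s))) + O (∑ |r d|)`
  with explicit constants; `…dimension_criterion`, `…sum_prime_inv_between`: dimensions from
  Mertens' theorem; `…sifted_integers`: integers without small prime factors;
  `…mertens_product_order`: `∏ (1 - 1/p)` is of the order `1 / log Z`.
* `FA.CombinatorialSieve.Summary.renyi_goldbach`, `…renyi_shift`, `…brun_goldbach` (`SummaryRenyi`):
  almost primes: every large even `N` is a prime plus a number with at most 551 prime factors and
  infinitely many primes `p` have `Ω (p + h) ≤ 552`, `h` even (Rényi), every large even `N` is a sum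
  of two numbers with at most 1088 prime factors (Brun); counts `≫ N / log ² N` (`…_count`).
* `FA.LinearSieve.Summary.jurkat_richert`, `…sieve_functions_closed_form` (`SummaryLinearSieve`):
  the linear sieve of Jurkat and Richert, `X V (f (s) - δ) - R ≤ S ≤ X V (F (s) + δ) + R`, with
  `F = A / s` on `[1, 3]`, `f = A log (s - 1) / s` on `[2, 4]`, `A ≥ 3` (its value is
  found below); `…sieve_functions_delay`, `…sieve_functions_tendsto`: the delay equations, limit `1`.
* `FA.SieveConstant.Summary.linear_sieve_constant`, `…sieve_functions_classical`,
  `…buchstab_function`, `…buchstab_limit`, `…sieve_functions_buchstab` (`SummarySieveConstant`):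
  the constant of the linear sieve is `2 e ^ γ`, `F + f = 2 e ^ γ ω` with Buchstab's function `ω`,
  which tends to `e ^ (-γ)`.
* `FA.SieveConstant.Summary.sieve_upper_sharp`, `…sieve_lower_sharp` (`SummarySelbergExamples`):
  Selberg's examples `1 ∓ λ n`: `F` is the best possible on `[1, 3]` and no lower bound is positive
  below `s = 2` (the parity problem); `…moebius_sum_le`, `…liouville_sum_le`: the sums of `μ` and
  `λ` up to `x` are `O (x / (log x) ^ A)`.
* `FA.LinearSieve.Summary.goldbach_prime_plus_three`, `…prime_shift_three`
  (`SummaryPrimePlusThree`): every large even number is a prime plus a number with at most three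
  prime factors, and infinitely many primes `p` have `Ω (p + h) ≤ 3` for each even `h`, with counts
  `≫ N / log ² N` (`…_count`): the linear sieve, Kuhn's weights, Bombieri and Vinogradov.
* `FA.Chen.Summary.goldbach_prime_plus_two`, `…prime_shift_two`, `…infinitely_many_chen_primes`
  (`SummaryChen`): Chen's theorem: every large even number is a prime plus a number with at most
  two prime factors, and infinitely many primes `p` have `Ω (p + h) ≤ 2` for each even `h`, with
  counts `≫ N / log ² N` (`…_count`); `…bilinear_bombieri_vinogradov`: products `m p` in the
  classes of the moduli up to `√x / (log x) ^ B`.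
* `FA.SieveConstant.Summary.prime_pairs_le`, `…goldbach_representations_le`,
  `…chen_goldbach_count`, `…chen_shift_count` (`SummaryBombieriDavenport`): at most
  `(4 + ε) 𝔖 h x / log² x` prime pairs and `(4 + ε) 𝔖 N N / log² N` Goldbach representations
  (Bombieri and Davenport), at least `𝔖 N N / (50 log² N)` representations `N = p + P₂`;
  `…singular_series_formula`, `…twin_prime_constant`: `𝔖` is the classical singular series.
* `FA.Littlewood.Summary.littlewood_psi`, `…littlewood_primeCounting` (`SummaryLittlewood`):
  Littlewood's oscillation theorem: `ψ x - x = Ω± (√x log log log x)` and
  `π x - li x = Ω± (√x log log log x / log x)`, so `…primeCounting_sub_li_sign_changes`: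
  `π x > li x + K` and `π x < li x + K` at arbitrarily large `x`; also
  `…primeCounting_oscillation_of_zero`: a zero with `re ρ > α` gives `π n - li n = Ω± (n ^ α)`.
* `FA.RiemannMangoldt.Summary.riemann_von_mangoldt` (`SummaryRiemannMangoldt`): the number of
  zeros of `ζ` with `0 < im ρ ≤ T` is `(T / 2π) log (T / (2π e)) + O (log T)` (with multiplicity),
  by the argument principle for `ξ` (also `…zeroCount_short_interval`: `O (log T)` zeros in
  `(T, T + 1]`; `…zeroCount_asymptotic`; `…arg_gamma`: Stirling's formula for `arg Γ`).
* `FA.SiegelWalfisz.Summary.siegel_walfisz`, `FA.SiegelWalfisz.Summary.exists_prime_modEq_le`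
  (`SummarySiegelWalfisz`): `ψ (x; q, a) = x / φ q + O (x exp (-c (log x) ^ (1/15)))` for
  `q ≤ (log x) ^ A` (Siegel–Walfisz, ineffective; also
  `FA.SiegelWalfisz.Summary.siegel_walfisz_theta`,
  `FA.SiegelWalfisz.Summary.siegel_walfisz_log`), and a prime `≤ C exp (q ^ ε)` in every class;
  `FA.SiegelWalfisz.Summary.lFunction_zero_free`: the zero-free region of `L (s, χ)`.
* `FA.ThreePrimes.Summary.three_primes`, `FA.ThreePrimes.Summary.vinogradov_asymptotic`
  (`SummaryThreePrimes`): Vinogradov: every sufficiently large odd number is a sum of three
  primes (ineffective), and `∑_{i+j+k=N} Λ i Λ j Λ k = 𝔖 N N² / 2 + O (N² / (log N) ^ e)`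
  (`FA.ThreePrimes.Summary.singularSeries_bounds`, `FA.ThreePrimes.Summary.singularSeries_eq`);
  `FA.ThreePrimes.Summary.four_primes`; `FA.ThreePrimes.Summary.minor_arc_bound`: Vaughan.
* `FA.Summary.weyl_criterion`, `FA.Summary.equidistribution_continuous`,
  `FA.Summary.weyl_polynomial`, `FA.Summary.vinogradov_primes_mod_one`,
  `FA.Summary.beatty_primes` (`SummaryEquidistribution`): Weyl's criterion, equidistribution of
  polynomials with an irrational coefficient and of `α p` over the primes for irrational `α`; a
  proportion `1 / α` of the primes lies in each Beatty sequence `⌊α n + β⌋`, irrational `α > 1`.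
* `FA.Summary.gaussian_hecke_LSeries`, `FA.Summary.gaussian_hecke_prime_mean`,
  `FA.Summary.gaussian_prime_angles`, `FA.Summary.sum_two_squares_sectors`,
  `FA.Summary.exists_prime_near_axis`, `FA.Summary.satoTate_split_of_j_eq_1728`,
  `FA.Summary.satoTate_of_j_eq_1728`, `FA.Summary.satoTate_quartic_twist`
  (`SummaryGaussianAngles`): Hecke's theorem on the arguments of Gaussian primes and the primes
  `a² + b²` in sectors; the Sato–Tate law of every elliptic curve over `ℚ` with `j = 1728`.
* `FA.Summary.exists_hecke_character_of_infinity_type`, `FA.Summary.imagQuad_hecke_LSeries`,
  `FA.Summary.imagQuad_hecke_prime_mean`, `FA.Summary.imagQuad_prime_angles`,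
  `FA.Summary.primes_sq_add_mul_sq_near_axis` (`SummaryImaginaryQuadraticAngles`): Hecke's theorem
  for every imaginary quadratic field and modulus: characters of infinite order, their L-series to
  `1 / 2 < re s`, no zeros on `1 ≤ re s`, joint equidistribution of the primes in ray classes and
  angles; primes `x² + n y²` with `|y| < ε √p` have positive density for every `n ≥ 1`.
* `FA.Summary.exists_grossencharacter_iff`, `FA.Summary.exists_grossencharacter_infinite_order`,
  `FA.Summary.grossencharacter_LSeries`, `FA.Summary.grossencharacter_prime_mean`
  (`SummaryHeckeTorus`): Hecke's Grössencharacters of every number field: the infinity types that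
  occur, nonzero ones for every field but `ℚ`, their L-series entire without zeros on `1 ≤ re s`,
  mean `0` over the primes (no functional equation).
* `FA.Summary.hecke_prime_equidistribution` (`SummaryHeckeSectors`): Hecke's theorem on prime ideals
  in every number field: their generators `≡ 1` are equidistributed in the torus of dimension
  `r₁ + 2 r₂ - 1`, independently of the narrow ray class.
* `FA.Summary.prime_elements_in_cone`, `FA.Summary.norm_form_primes_in_cone`
  (`SummaryPrimesInCones`): in every number field each open cone holds prime elements of every
  admissible residue class, of positive density; every norm form of an integral basis takes prime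
  values with positive density in each cone where it is positive, in each admissible class mod `m`.
* `FA.Summary.schanuel`, `FA.Summary.schanuel_finite`, `FA.Summary.schanuel_rat`
  (`SummarySchanuel`): Schanuel's theorem: the points of `ℙ^n(K)` of height `≤ X` are finite in
  number, asymptotically `h R / (w ζ_K(n+1)) (2^r₁ (2π)^r₂ / √|d|)^(n+1) (n+1)^(r₁+r₂-1) X^(n+1)`;
  over `ℚ` this is `2^n / ζ(n+1) X^(n+1)`.
* `FA.ArtinWhaples.Summary.artin_whaples`, `…numberField_hypothesis` (`SummaryArtinWhaples`):
  the theorem of Artin and Whaples (1945): a field with a product formula having a member with
  `1 < w 2`, or a discrete one with finite residue field, is a number field or a finite extension of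
  `F_p(π)`; number fields satisfy the first hypothesis.
* `FA.Summary.schanuel_region_volume`, `FA.Summary.schanuel_tuples` (`SummarySchanuelTuples`):
  in every number field the `N`-tuples of integers generating a given ideal `J`, counted modulo
  units up to torsion by the product of their largest absolute values, number `c T^N`
  asymptotically, with the
  exact constant `(2^r₁ (2π)^r₂ / √|d|)^N N^r R / (ζ_K(N) N(J)^N)`.
* `FA.Summary.realQuad_prime_ratios`, `FA.Summary.primes_sq_sub_mul_sq_in_cone`
  (`SummaryRealQuadraticCones`): in every real quadratic field the primes are equidistributed
  jointly in narrow ray classes and `log (x / x')` modulo the regulator of the ray units; primes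
  `x² - n y²` with `a < x / (y √n) < b` have positive density for every non-square `n`, `1 < a < b`.
* `FA.Summary.satoTate_cm`, `FA.Summary.satoTate_cm_split`, `FA.Summary.satoTate_cm_inert`,
  `FA.Summary.satoTate_cm_density_split` (`SummarySatoTateCM`): the Sato–Tate law of every
  elliptic curve over `ℚ` with one of the thirteen CM invariants: half a point mass at `0` (inert
  primes), half the arcsine law (split primes).
* `FA.AlmostGoldbach.Summary.almost_all_goldbach`,
  `FA.AlmostGoldbach.Summary.almost_all_goldbach_density` (`SummaryAlmostGoldbach`): all but
  `O (X / (log X) ^ A)` even numbers up to `X` are sums of two distinct primes, so the exceptions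
  have density zero (ineffective; not Goldbach's conjecture);
  `FA.AlmostGoldbach.Summary.goldbach_mean_square`,
  `FA.AlmostGoldbach.Summary.hardy_littlewood_almost_all`,
  `FA.AlmostGoldbach.Summary.almost_all_goldbach_count`: the Hardy-Littlewood formula in mean
  square; `FA.AlmostGoldbach.Summary.infinitely_many_prime_progressions`: van der Corput,
  infinitely many three-term progressions of primes;
  `FA.AlmostGoldbach.Summary.odd_sums_three_primes_many`.
* `FA.BombieriVinogradov.Summary.bombieri_vinogradov`,
  `FA.BombieriVinogradov.Summary.bombieri_vinogradov_theta` (`SummaryBombieriVinogradov`):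
  Bombieri-Vinogradov: `∑_{q ≤ Q} max_{y ≤ x} max_a |ψ (y; q, a) - y / φ q|` is
  `O (x / (log x) ^ A)` for `Q ≤ √x / (log x) ^ B` (natural `y`; ineffective, `B` not the best);
  `FA.BombieriVinogradov.Summary.large_sieve`,
  `FA.BombieriVinogradov.Summary.large_sieve_characters`: the large sieve, with a log on `Q²`;
  `FA.BombieriVinogradov.Summary.psi_character_mean_value`: the mean value of `ψ (x, χ)`.
* `FA.BoundedGaps.Summary.maynard_tao`, `FA.BoundedGaps.Summary.maynard_tao_nth`
  (`SummaryBoundedGaps`): the theorem of Maynard and Tao: for every `m` some length `H` occurs
  infinitely often with more than `m` primes in an interval (`H` not explicit, no rate in `m`);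
  `FA.BoundedGaps.Summary.bounded_prime_gaps`: infinitely many gaps between consecutive primes
  are bounded by one constant; `FA.BoundedGaps.Summary.exists_prime_difference`: some `h > 0` is
  infinitely often a difference of two primes (no bound on `h`, not the twin prime conjecture).
* `FA.PrimesMinusOne.Summary.brun_titchmarsh`, `FA.PrimesMinusOne.Summary.mertens_first`
  (`SummaryPrimesMinusOne`): `π (x; q, a) ≤ 24 x / (φ q log (x / q))` and Mertens' first theorem;
  `FA.PrimesMinusOne.Summary.titchmarsh_divisor_problem`: Titchmarsh's divisor problem (Linnik),
  `∑_{p ≤ x} τ (p - 1) ∼ c x`, with `c = ζ 2 ζ 3 / ζ 6`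
  (`FA.PrimesMinusOne.Summary.titchmarshConst_spec`; `FA.PrimesMinusOne.Summary.sum_inv_totient`);
  `FA.PrimesMinusOne.Summary.goldfeld`, `FA.PrimesMinusOne.Summary.goldfeld_infinite`: at least an
  eighth of the primes have a prime factor of `p - 1` above `x ^ (1/2 + 1/400)` (Goldfeld; not
  the exponent `2/3` needed for the first case of Fermat's last theorem; ineffective).
* `FA.SquarefreeShift.Summary.mirsky`, `FA.SquarefreeShift.Summary.density_product`
  (`SummarySquarefreeShiftedPrimes`): Mirsky's theorem: the primes `p ≤ x` with `p + a` free of
  `r`-th powers (`r ≥ 2`, `a ≠ 0`) are `∼ c x / log x`, `c = ∏_{p ∤ a} (1 - 1/(p^(r-1) (p - 1)))`,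
  `c ≥ 1/4`; `FA.SquarefreeShift.Summary.squarefree_pred_count`,
  `FA.SquarefreeShift.Summary.density_artin`: `p - 1` is squarefree with Artin's constant as
  density; `FA.SquarefreeShift.Summary.prime_add_powFree_count`,
  `FA.SquarefreeShift.Summary.prime_add_squarefree`: `N = p + m`, `m` free of `r`-th powers, with
  the asymptotic count, so every large number is a prime plus a squarefree number;
  `FA.SquarefreeShift.Summary.infinite_squarefree_shift` (ineffective thresholds).
* `FA.PrimeTwoSquares.Summary.prime_two_squares_count`,
  `FA.PrimeTwoSquares.Summary.prime_add_two_squares` (`SummaryPrimeTwoSquares`): Linnik's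
  theorem: every large number is a prime plus two squares, with the asymptotic formula of Hardy
  and Littlewood, `∑_{p < N} r(N - p) = (S N + O ((log N) ^ (-1/2500))) N / log N`, where
  `S N = π ∏_{p ∣ N} (1 - χ₄ p / p) ∏_{p ∤ N} (1 + χ₄ p / (p (p - 1)))` (proof of Hooley with
  Bombieri-Vinogradov); `FA.PrimeTwoSquares.Summary.shifted_prime_two_squares`,
  `FA.PrimeTwoSquares.Summary.infinite_primes_two_squares_add`: `∑_{p ≤ x} r(p - a) ∼ S a x /
  log x` and infinitely many primes are `x² + y² + a`, for every `a ≠ 0` (ineffective).
* `FA.Oppenheim.Summary.oppenheim`, `FA.Oppenheim.Summary.margulis_orbit`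
  (`SummaryOppenheim`): the Oppenheim conjecture (Margulis's theorem): a nondegenerate indefinite
  real form in `n ≥ 3` variables, not a multiple of an integral one, takes values of absolute
  value `< ε` at nonzero integer vectors, by minimal sets of unipotent flows and Margulis's
  orbit theorem for `SO (2, 1)`; `FA.Oppenheim.Summary.oppenheim_sqrt_two`: the case of
  `x² + y² - √2 z²` (the value zero is allowed); `FA.Oppenheim.Summary.oppenheim_dense`,
  `FA.Oppenheim.Summary.oppenheim_sqrt_two_dense`: the values are dense in `ℝ` when the form
  has no nontrivial integral zero.
* `FA.DuffinSchaeffer.Summary.duffin_schaeffer_conjecture`,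
  `FA.DuffinSchaeffer.Summary.duffin_schaeffer_converse`,
  `FA.DuffinSchaeffer.Summary.duffin_schaeffer_iff` (`SummaryDuffinSchaeffer`): the
  Duffin-Schaeffer conjecture, the theorem of Koukoulopoulos and Maynard: for every `ψ ≥ 0`
  almost every real has infinitely many reduced approximations `|x - p / q| < ψ q / q` iff
  `∑ φ q ψ q / q` diverges; `FA.DuffinSchaeffer.Summary.weighted_gcd_pairs`,
  `FA.DuffinSchaeffer.Summary.mean_totient_ratio_coprime`: the bound on weighted pairs with large
  gcd (bilinear exponent `3/4`, after Hauke, Vazquez and Walker) and the mean of `n / φ n` over
  the numbers coprime to `N`.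
* `FA.KadisonSinger.Summary.kadison_singer` (`SummaryKadisonSinger`): the Kadison-Singer theorem:
  a pure state of the diagonal algebra `ℓ^∞ (ℕ)` has exactly one extension to a state of the
  bounded operators of `ℓ² (ℕ)`; `FA.KadisonSinger.Summary.marcus_spielman_srivastava`: random
  vectors with `∑ E v v* = 1` and `E |v| ^ 2 ≤ ε` have an outcome with `∑ v v* ≤ (1 + √ε) ^ 2`
  (interlacing families, barrier argument); `FA.KadisonSinger.Summary.weaver_partition`: Weaver's
  `KS_r` with bound `(1 / √r + √δ) ^ 2`; `FA.KadisonSinger.Summary.anderson_paving`: operators of
  `ℓ² (ℕ)` with zero diagonal are paved by a number of coordinate sets depending only on `ε`.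
* `FA.RamanujanGraphs.Summary.ramanujan_graphs` (`SummaryRamanujanGraphs`): Marcus, Spielman and
  Srivastava, connected bipartite Ramanujan graphs of every degree `d ≥ 3` and arbitrarily large;
  `FA.RamanujanGraphs.Summary.ramanujan_biregular`: the same with two degrees `c`, `e`, bound
  `√(c - 1) + √(e - 1)`; `FA.RamanujanGraphs.Summary.ramanujan_optimal`: with Alon–Boppana,
  `2 √(d - 1)` is the least such bound; `FA.RamanujanGraphs.Summary.good_signing`,
  `FA.RamanujanGraphs.Summary.good_signing_bipartite`: signings with small eigenvalues (Bilu and
  Linial's conjecture, one-sided, two-sided if bipartite);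
  `FA.RamanujanGraphs.Summary.godsil_gutman`, `FA.RamanujanGraphs.Summary.heilmann_lieb`: the
  matching polynomial is the mean characteristic polynomial of the signings, its zeros are real and
  within `2 √(D - 1)`.
* `FA.BirchForms.Summary.birch`, `FA.BirchForms.Summary.birch_integer_zero` (`SummaryBirchForms`):
  Birch's theorem: rational forms of given odd degrees in enough variables vanish on a common
  linear space of any given dimension; `FA.BirchForms.Summary.odd_diagonal_equation`:
  `∑ c i x i ^ k = 0` with odd `k` has a nontrivial solution in more than `k (k + 1)` variables;
  `FA.BirchForms.Summary.diagonalisation`: the diagonalisation on a subspace;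
* `FA.BirchForms.Summary.hasse_principle`, `FA.BirchForms.Summary.hasse_principle_congruences`
  (`SummaryDiagonalHasse`): for nonzero coefficients and more than `k (k + 1)` variables
  `∑ c i x i ^ k = 0` has a nontrivial integer solution iff it has one over `ℝ` and every `ℚ_p`;
  `FA.BirchForms.Summary.indefinite_diagonal_equation`: with `k max (k ^ 2, 4 k)` variables iff the
  form is indefinite or `k` is odd;
* `FA.DavenportLewis.Summary.davenport_lewis`, `…davenport_lewis_congruences`,
  `…davenport_lewis_sharp` (`SummaryDavenportLewis`): the theorem of Davenport and Lewis, more than
  `k ^ 2` variables give `∑ c i x i ^ k = 0` a nontrivial zero in every `ℚ_p`, sharp for prime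
  `k + 1`; `…diagonal_equation`: so in more than `k (k + 1)` variables it has a nontrivial integer
  zero iff it is indefinite or `k` is odd; `…twentyOne_biquadrates`;
* `FA.CubicForms.Summary.davenport` (`SummaryCubicForms`): Davenport's theorem, every cubic form
  over `ℚ` in at least sixteen variables has a nonzero integer zero;
  `FA.CubicForms.Summary.demyanov_lewis`: a cubic form in at least ten variables over `ℚ_[p]` has
  a nontrivial zero;
  `FA.CubicForms.Summary.cubic_primitive_zero_mod`: so integral ones have primitive zeros modulo
  every prime power; `FA.CubicForms.Summary.annihilated_pairs`: Davenport's `O (R ^ n)` bound on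
  the pairs annihilated by the trilinear form of a form without nonzero integer zero;
* `FA.FormsManyVariables.Summary.weyl_dichotomy` (`SummaryFormsManyVariables`): Birch's Weyl
  inequality for a form of degree `d` in `n` variables with singular locus of dimension at most
  `s`: the exponential sum is small or the frequency has a good rational approximation;
  `FA.FormsManyVariables.Summary.weyl_at_fraction`: the bound at one fraction when
  `n - s > (d - 1) 2 ^ d`; `FA.FormsManyVariables.Summary.diagonal_singularDim`: diagonal forms
  have `s = 0`;
  `FA.FormsManyVariables.Summary.birch_asymptotic`: Birch's theorem for one form, the zeros in the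
  box of size `P` number `𝔖 J P ^ (n - d) + O (P ^ (n - d - δ))` when `n - s > (d - 1) 2 ^ d`;
  `FA.FormsManyVariables.Summary.birch_hasse_principle`: the Hasse principle for nonsingular forms
  in more than `(d - 1) 2 ^ d` variables; `FA.FormsManyVariables.Summary.cubic_asymptotic`:
  nonsingular cubic forms in at least seventeen variables have `c P ^ (n - 3)` zeros, `c > 0`;
* `FA.Representations.Summary.birch_representations`, `…representation_series_bound`,
  `…no_representation_outside` (`SummaryRepresentations`): Birch's theorem for `F x = N`: for
  `|N| ≤ B P ^ d` the solutions of size `P` number `𝔖 (N) J (N / P ^ d) P ^ (n - d)` up to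
  `O (P ^ (n - d - δ))`, uniformly in `N`, when `n - s > (d - 1) 2 ^ d`;
  `…birch_positive_forms`: for positive forms all the representations number
  `𝔖 (N) (n / d) V N ^ (n / d - 1)`, with a power saving; `…singular_series_pos`;
  `…tartakovskii`, `…tartakovskii_asymptotic`, `…tartakovskii_universal`, `…tartakovskii_example`:
  Tartakovskii's theorem, a positive quadratic form in at least five variables represents every
  large number it represents modulo every `m`, with `𝔖 (N) ≥ c > 0` (threshold not explicit);
* `FA.FormSystems.Summary.birch_systems_asymptotic` (`SummaryFormSystems`): Birch's theorem on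
  systems (1962): `r` forms of degree `d`, the Jacobian locus of dimension at most `s`,
  `n - s > r (r + 1) (d - 1) 2 ^ (d - 1)`: the solutions of `F i x = ν i` of size `P` number
  `𝔖 (ν) J (ν / P ^ d) P ^ (n - r d) + O (P ^ (n - r d - δ))`; `…weyl_dichotomy_system`,
  `…system_series_bound`, `…system_integral_bound`, `…systems_single_form_consistency` (`r = 1`);
  `…birch_systems_positive`, `…birch_systems_hasse`, `…birch_quadrics_hasse`: for `ν = 0` the main
  term is positive given nonsingular local zeros, hence the Hasse principle for systems;
  `…diagonal_systems_hasse`, `…two_quadrics_fourteen`: instances, the last with no hypothesis;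
* `FA.SmoothIntersections.Summary.smooth_intersection_hasse` (`SummarySmoothIntersections`):
  Birch's theorem for smooth complete intersections of `r` forms of degree `d`: the Hasse principle
  in more than `r + r (r + 1) (d - 1) 2 ^ (d - 1)` variables; `…smooth_intersection_count`: with
  local zeros the primitive zeros of size `P` are `c P ^ (n - r d) + O (P ^ (n - r d - δ))`,
  `c > 0`; `…smooth_jacobian_locus`: the locus of lower Jacobian rank has dimension at most `r`;
  `…brauer_uniform`: Brauer's bound for forms over `ℚ_p` is independent of `p`;
  `…birch_real_points`: in enough variables rational points exist iff real ones do;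
  `…birch_odd_degree`, `…nonsingular_odd_form`: for odd degree always, `≫ P ^ (n - r d)` of them;
* `FA.WeakApproximation.Summary.birch_box_class` (`SummaryWeakApproximation`): Birch's theorem in
  boxes and congruence classes: `r` forms of degree `d` as in Birch's theorem on systems have
  `𝔖 (a, M) J (u, v) P ^ (n - r d) + O (P ^ (n - r d - δ))` common integer zeros in `P [u, v]`
  congruent to `a` modulo `M`; `…class_series`, `…box_integral`, `…box_integral_integrable`: the
  constants; `…box_class_constant_pos`, `…equidistribution_classes`: they are positive at
  nonsingular local zeros, and the zeros are equidistributed in the classes; `…weak_approximation`,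
  `…weak_approximation_nonsingular_points`, `…weak_approximation_many_variables`: smooth complete
  intersections in more than `r + r (r + 1) (d - 1) 2 ^ (d - 1)` variables have weak approximation
  (nonsingular points for singular ones; no local hypothesis in enough variables);
  `…rational_points_dense_odd_degree`, `…two_quadrics_fifteen_weak_approximation`: instances;
* `FA.Dynkin.Summary.cartanMatrix_classification`, `.finiteType_classification`,
  `.rootSystem_classification`, `.exists_rootSystem`, `.simple_lie_algebras_classification`,
  `.exceptional_isSimple`, `.types_def` (`SummaryDynkinClassification`): the A–G classification of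
  connected Cartan matrices of finite type and of irreducible root systems, each type realised, and
  of simple Lie algebras over an algebraically closed field of characteristic zero
* `FA.CartanClassification.Summary.semisimple_iso_iff_cartanMatrix`, `.semisimple_iso_iff_rootSystem`,
  `.simple_classification`, `.simple_exists`, `.bases_conjugate`, `.cartanMatrix_unique`,
  `.classification_nonvacuous` (`SummaryCartanClassification`): the bases of a root system are
  conjugate; semisimple Lie algebras are classified by Cartan matrices, the simple ones by
  irreducible root systems (the A–G list is in `SummaryDynkinClassification`)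
* `FA.CartanClassification.Summary.cartan_subalgebras_conjugate`, `.finrank_cartan_eq_rank`,
  `.elementary_step_apply` (`SummaryCartanConjugacy`): Chevalley's conjugacy theorem for the Cartan
  subalgebras of any finite-dimensional Lie algebra (algebraically closed, characteristic zero)
* `FA.SerreTheorem.Summary.serre_theorem`, `.isomorphism_theorem`, `.isomorphism_theorem_triples`,
  `.exists_chevalley_generators`, `.serre_theorem_of_rootSystem`, `.serre_theorem_of_basis`,
  `.geck_presentation`, `.transpose_convention`, `.symmetric_of_untransposed`
  (`SummarySerreTheorem`): Serre's presentation of semisimple Lie algebras by generators and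
  relations, and the isomorphism theorem
* `FA.WeylChar.Summary.weyl_character_formula`, `.weyl_denominator`, `.weyl_dimension_formula`,
  `.multiplicity_weylGroup_invariant`, `.weylGroup_finite`, `.weylGroup_free`, `.sl_two_dimensions`
  (`SummaryWeylCharacter`): Weyl's character, denominator and dimension formulas
* `FA.HighestWeight.Summary.exists_unique_highest_weight`, `.exists_irreducible_of_dominant`,
  `.irreducible_equiv_iff`, `.exists_nontrivial_irreducible`, `.sl_two_example`
  (`SummaryHighestWeight`): the theorem of the highest weight for split semisimple Lie algebras
* `FA.BCH.Summary.baker_campbell_hausdorff`, `.friedrichs_criterion`, `.primitive_iff_mem_lie`,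
  `.bch_exp_log`, `.bch_low_terms` (`SummaryBCH`): the Baker–Campbell–Hausdorff theorem and
  Friedrichs' criterion for Lie polynomials in characteristic zero
* `FA.BrauerModular.Summary.brauer_modular_count`, `.brauer_count_le_classes`, `.p_group_trivial`,
  `.brauer_trace_subspace` (`SummaryBrauerModular`): Brauer's theorem that the irreducible modular
  representations are as many as the `p`-regular classes
* `FA.Golod.Summary.golod_shafarevich_graded`, `.kurosh_counterexample`, `.burnside_general`
  (`SummaryGolod`): Golod's infinite dimensional nil algebra and infinite two generated torsion
  group, by the graded inequality of Golod and Shafarevich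
* `FA.Ado.Summary.ado`, `.ado_nilpotent`, `.bracket_radical_nilpotent`,
  `.bracket_radical_isNilpotent` (`SummaryAdo`): Ado's theorem in characteristic zero, with
  nilpotent action of `⁅L, radical L⁆ + center L`
* `FA.PBW.Summary.pbw_basis`, `.pbw_injective`, `.lie_embeds_associative`,
  `.freeLieAlgebra_embeds` (`SummaryPBW`): the Poincaré–Birkhoff–Witt basis of ordered monomials,
  injectivity into the enveloping algebra and the free Lie algebra inside the free algebra
* `FA.WeylReducibility.Summary.weyl_complete_reducibility`, `.whitehead_first`, `.whitehead_second`,
  `.levi_decomposition` (`SummaryWeylReducibility`): Weyl's complete reducibility for semisimple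
  Lie algebras, both Whitehead lemmas and the Levi decomposition
* `FA.Grothendieck.Summary.grothendieck_krivine` (`SummaryGrothendieck`): Grothendieck's inequality
  with the constant `π / (2 log (1 + √2))` of Krivine; `…krivine_constant_lt`: it is below `9 / 5`;
  `…gaussian_sign_identity`: `E sgn ⟪g, U⟫ sgn ⟪g, V⟫ = (2 / π) arcsin ⟪U, V⟫`;
* `FA.Specht.Summary.specht_complete` (`SummarySpecht`): every irreducible complex representation of
  `S_n` is exactly one Specht module; `…specht_irreducible`, `…specht_injective`,
  `…specht_finrank_hook`: its dimension by the hook length formula; `…specht_count`: as many as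
  partitions of `n`; `…specht_one_row`, `…specht_one_column`: trivial and sign;
* `FA.SpernerLemma.Summary.sperner_kuhn` (`SummarySpernerLemma`): Sperner's lemma with parity on the
  triangulation of Kuhn; `…sperner_simplex`: on the lattice points of a simplex; `…kuhn_lemma`: the
  cubical lemma;
* `FA.DegreeSequence.Summary.erdos_gallai` (`SummaryDegreeSequence`): which sequences are the degree
  sequences of simple graphs;
* `FA.JohnsonLindenstrauss.Summary.johnson_lindenstrauss` (`SummaryJohnsonLindenstrauss`): `n` points
  embed linearly into `64 log n / ε ^ 2` dimensions with distortion `1 ± ε` (random signs);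
* `FA.KruskalTree.Summary.kruskal_tree` (`SummaryKruskalTree`): finite trees labelled in a
  well-quasi-order are well-quasi-ordered by infimum-preserving embeddings (Kruskal);
  `…kruskal_tree_unlabelled`; `…kruskal_finite_form`: Friedman's bound on bad sequences;
* `FA.Pfaff.Summary.det_eq_pfaffian_sq` (`SummaryPfaffian`): `det A = Pf(A) ^ 2` for alternating
  matrices over any commutative ring; `…pfaffian_congr`, `…pfaffian_four`, `…det_alternating_odd`;
  `…tutte_matrix_criterion`: perfect matchings and the matrix of Tutte; `…petersen`,
  `…petersen_matching_plus_two_factor`: cubic graphs without bridges have perfect matchings;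
* `FA.Schensted.Summary.robinson_schensted` (`SummarySchensted`): permutations correspond to pairs of
  standard tableaux of one shape (Fomin's growth diagrams), the first row being a longest increasing
  subsequence (Schensted), inverses swapping the pair; `…erdos_szekeres`: monotone subsequences;
* `FA.NetworkFlow.Summary.menger_vertex`, `FA.NetworkFlow.Summary.menger_edge` (`SummaryMenger`):
  disjoint paths and cuts; `…max_flow_min_cut`, `…max_flow_min_cut_integral`: Ford and Fulkerson;
  `…euler_circuit`: a connected graph has an Euler circuit exactly when all degrees are
  even (Hierholzer);
  `…gale_shapley`: stable matchings exist;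
* `FA.GraphClassics.Summary.vizing`, `FA.GraphClassics.Summary.brooks` (`SummaryGraphClassics`):
  edges take `Δ` or `Δ + 1` colours (Vizing), points take `Δ` unless the connected graph is complete
  or an odd cycle (Brooks, Zając's proof); `…ore`, `…dirac`: Hamilton cycles by degree conditions;
* `FA.IncidenceCor.Summary.elekes_sum_product`, `FA.IncidenceCor.Summary.distinct_distances`
  (`SummaryIncidenceCorollaries`): from Szemerédi-Trotter, `max (|A + A|, |A A|) ≫ |A| ^ (5/4)` and
  `≫ n ^ (2/3)` distances; `…sylvester_gallai`: an ordinary line; `…weak_dirac`: a point on `≫ n` lines;
* `FA.GraphCheeger.Summary.cheeger_lower`, `FA.GraphCheeger.Summary.cheeger_upper`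
  (`SummaryGraphCheeger`): Cheeger's inequality for regular graphs, both halves;
  `…expander_mixing`: the expander mixing lemma;
* `FA.YoungHook.Summary.hook_length_formula`, `FA.YoungHook.Summary.sum_sq_tableaux`
  (`SummaryHookLength`): standard Young tableaux by hook lengths (Frame-Robinson-Thrall, the walk of
  Greene-Nijenhuis-Wilf), their squares adding up to `n!`; `…matrix_tree`: Kirchhoff's theorem;
  `…cayley`: `n ^ (n - 2)` labelled trees;
* `FA.PerfectGraph.Summary.weak_perfect_graph`, `FA.PerfectGraph.Summary.lovasz_criterion`
  (`SummaryPerfectGraph`): the complement of a perfect graph is perfect (Lovász, Gasparian);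
  `…dilworth`, `…bipartite_compl_perfect`: Dilworth and König-Gallai; `…graham_pollak`: the complete
  graph takes `n - 1` bicliques; `…huang_cube`, `…sensitivity`: Huang's theorem, degree at most
  sensitivity squared; `…alon_boppana`: an eigenvalue at least `2 √(d - 1) - ε`;
* `FA.TopologicalComb.Summary.kneser_conjecture`, `FA.TopologicalComb.Summary.schrijver`
  (`SummaryKneserLovasz`): by Borsuk-Ulam, the Kneser graph of the `k`-subsets of `n` points and its
  subgraph of stable sets have chromatic number `n - 2 k + 2` (Lovász, Greene; Schrijver, Gale);
  `…necklace_theorem`: two thieves share `t` kinds of beads fairly with `t` cuts (Goldberg and West);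
* `FA.PolyPartition.Summary.szemeredi_trotter` (`SummarySzemerediTrotter`): the theorem of Szemerédi
  and Trotter, `m` points and `n` lines of the plane have `O ((m n) ^ (2/3) + m + n)` incidences, by
  `…polynomial_partitioning` (Guth and Katz); `…rich_lines`, `…beck`: rich lines and Beck's theorem;
  `…unit_distance_bound`: `O (n ^ (4/3))` unit distances (Spencer, Szemerédi and Trotter);
* `FA.RamseyThree.Summary.ramsey_three_bounds` (`SummaryRamseyThree`):
  `t ^ 2 / (72 log t) ^ 2 < R (3, t) ≤ 8 t ^ 2 / log t + 1`; `…triangle_free_independence`: the theorem
  of Ajtai, Komlós and Szemerédi (Shearer); `…lovasz_local_lemma`: the local lemma, with it Spencer's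
  proof of the lower bound;
* `FA.ErdosTetali.Summary.erdos_tetali` (`SummaryErdosTetali`): the Erdős-Tetali theorem: for every
  `h ≥ 2` a set `A` of natural numbers in which every large `n` has between `c₁ log n` and `c₂ log n`
  representations as a sum of `h` elements, with `A (N) ≍ (N log N) ^ (1 / h)`;
  `…erdos_sidon`: `h = 2`, Erdős's theorem; `…thin_basis`: the asymptotic basis, distinct summands;
* `FA.BGK.Summary.bourgain_glibichuk_konyagin` (`SummaryBGK`): exponential sums over a subgroup
  `H` of `(ZMod p)ˣ` with at least `p ^ δ` elements are `O (#H p ^ (-ε))`;
  `FA.BGK.Summary.sum_product`: the sum-product theorem of Bourgain, Katz and Tao;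
  `FA.BGK.Summary.large_exponent_sum`, `FA.BGK.Summary.waring_mod_prime`: the sums of
  `e (a x ^ k / p)` and Waring's problem mod `p` for `k ≤ p ^ (1 - δ)`;
* `FA.KahnKalai.Summary.kahn_kalai` (`SummaryKahnKalai`): the Kahn-Kalai conjecture (the theorem of
  Park and Pham): the threshold of a nontrivial increasing family is at most `47 q log ℓ`, with `q`
  the expectation threshold and `ℓ ≥ 2` a bound on its minimal elements;
  `FA.KahnKalai.Summary.park_pham`: the hypergraph form by minimum fragments, with failure
  probability `≤ 1 / (s c)`; `FA.KahnKalai.Summary.threshold_existsUnique`: the threshold exists;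
  `FA.KahnKalai.Summary.sunflower`: more than `(32 r (log₂ k + 1)) ^ k` sets of size `k` contain a
  sunflower with `r` petals (Alweiss-Lovett-Wu-Zhang; Rao; Bell-Chueluecha-Warnke).
* `FA.StanleyWilf.Summary.stanley_wilf`, `FA.StanleyWilf.Summary.stanley_wilf_limit`
  (`SummaryStanleyWilf`): the Stanley-Wilf conjecture: at most `C ^ n` permutations of `n` letters
  avoid a given pattern and the `n`-th root of their number converges;
  `FA.StanleyWilf.Summary.marcus_tardos`: at most `2 k ^ 4 C(k ^ 2, k) n` cells of the `n × n` grid
  avoid a `k × k` permutation matrix (Füredi-Hajnal conjecture).
* `FA.ShannonPentagon.Summary.shannon_capacity_pentagon` (`SummaryShannonPentagon`): the Shannon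
  capacity of the five-cycle is `√5`: the `n`-th root of the independence number of its `n`-th
  strong power tends to `√5`; `FA.ShannonPentagon.Summary.lovasz_theta_bound`: orthonormal
  representations bound independent sets of all strong powers (Lovász).
* `FA.MartonPFR.Summary.polynomial_freiman_ruzsa`, `FA.MartonPFR.Summary.marton_conjecture`
  (`SummaryMartonPFR`): Marton's conjecture, the polynomial Freiman-Ruzsa theorem over `𝔽₂` (Gowers,
  Green, Manners and Tao): a set with `|A + A| ≤ K |A|` is covered by `2 K ^ 12` cosets of a
  subgroup of at most `|A|` elements; `FA.MartonPFR.Summary.entropic_pfr`: two laws are within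
  total Ruzsa distance `11 d[X;Y]` of uniform laws on cosets of one subgroup.
* `FA.MatroidLogConcave.Summary.mason_conjecture`, `FA.MatroidLogConcave.Summary.welsh_mason`
  (`SummaryMatroidLogConcave`): Mason's conjecture (Anari-Liu-Oveis Gharan-Vinzant, Brändén-Huh):
  the numbers of independent sets of a matroid by size are ultra-log-concave, so log-concave;
  `FA.MatroidLogConcave.Summary.heron_rota_welsh`: the Heron-Rota-Welsh conjecture
  (Adiprasito-Huh-Katz): the coefficients of the characteristic polynomial of a matroid are
  log-concave in absolute value (`reduced_logConcave`: those of the reduced one as well).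
* `FA.Burgess.Summary.weil_hyperelliptic`, `FA.Burgess.Summary.weil_hyperelliptic_points`
  (`SummaryBurgess`): `|∑_x (f x / p)| ≤ 25 (deg f + 1) √p` for `f` not a constant times a square
  and `#{y ^ 2 = f x} = p + O (√p)`, by Stepanov's method;
  `FA.Burgess.Summary.burgess`, `FA.Burgess.Summary.residue_nonresidue_in_intervals`: the Legendre
  symbol cancels on intervals of length `p ^ (1/4 + δ)`, which hold residues and non-residues;
  `FA.Burgess.Summary.least_quadratic_nonresidue`: the least quadratic non-residue is a prime
  `≤ p ^ (1/(4√e) + η)` for all large `p` (Burgess; no quantitative inequality, quadratic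
  characters only).
* `FA.HyperellipticWeil.Summary.riemann_hypothesis`, `FA.HyperellipticWeil.Summary.weil_bound`
  (`SummaryHyperellipticWeil`): Weil's Riemann hypothesis for `y ^ 2 = f x`, `f` monic squarefree of
  degree `m ≥ 1` over any finite field of odd characteristic: the sums over the extensions are
  `-∑ α ^ n` for at most `m - 1` numbers with `|α| ≤ √q`, so `|∑_x χ (f x)| ≤ (m - 1) √q`;
  `FA.HyperellipticWeil.Summary.weil_points`: `#{y ^ 2 = f x} = q + O ((m - 1) √q)`;
  `FA.HyperellipticWeil.Summary.quadraticChar_patterns`: every pattern of squares and non-squares
  of length `k` occurs once `q > (k 2 ^ (k + 1)) ^ 2` (no functional equation, no other curves).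
* `FA.Kloosterman.Summary.weil_kloosterman`, `FA.Kloosterman.Summary.kloosterman_roots`
  (`SummaryKloosterman`): Weil's bound `|∑_(x ≠ 0) e ((a x + b / x) / p)| ≤ 2 √p` for odd primes,
  from `-(α ^ n + β ^ n)`, `α β = p`, `|α| = |β| = √p`, over every extension;
  `FA.Kloosterman.Summary.modular_inverses_in_boxes`,
  `FA.Kloosterman.Summary.exists_modular_inverse_in_box`: the solutions of `x y = c` in boxes
  (prime moduli only).
* `FA.ErdosKac.Summary.erdos_kac`, `FA.ErdosKac.Summary.mertens_second` (`SummaryErdosKac`):
  the number of prime divisors is normally distributed (Erdős and Kac), the proportion of `n ≤ N`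
  with `ω n - log log N ≤ x √(log log N)` tends to the normal distribution function, and Mertens'
  second theorem; `FA.ErdosKac.Summary.turan`, `FA.ErdosKac.Summary.hardy_ramanujan`: Turán's
  inequality and the normal order `log log N` (no rate of convergence).
* `FA.AKS.Summary.aks_criterion`, `FA.AKS.Summary.aks_modulus`, `FA.AKS.Summary.aks_test`
  (`SummaryAKS`): the primality criterion of Agrawal, Kayal and Saxena, with a modulus at most
  `⌈log₂ n⌉ ^ 5 + 6` (no machine model and no running time).
* `FA.CharacterSums.Summary.weil_character_sum`, `FA.CharacterSums.Summary.riemann_hypothesis`
  (`SummaryWeilCharacterSums`): Weil's bound `|∑_x χ (f x)| ≤ (m - 1) √q` for a character of any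
  order and `m` distinct roots, with its L-polynomial over every extension;
  `FA.CharacterSums.Summary.superelliptic_points`, `FA.CharacterSums.Summary.mulChar_patterns`:
  the points of `y ^ d = f x` and the patterns of character values (no additive characters).
* `FA.BurgessGeneral.Summary.burgess_inequality`, `FA.BurgessGeneral.Summary.least_primitiveRoot`
  (`SummaryBurgessPrimitiveRoot`): Burgess's inequality
  `|∑ χ n| ≤ C_r N ^ (1 - 1/r) p ^ ((r + 1) / (4 r ^ 2)) (1 + log p)` for every nonprincipal
  character modulo a prime, primitive roots in every interval of length `p ^ (1/4 + ε)`, hence the least primitive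
  root and the least non-`d`-th-power are `≤ p ^ (1/4 + ε)` (prime moduli only).
* `FA.BurgessApplications.Summary.burgess_subconvexity`,
  `FA.BurgessApplications.Summary.burgess_LOne`,
  `FA.BurgessApplications.Summary.least_character_nonresidue`,
  `FA.BurgessApplications.Summary.least_nonPower` (`SummaryBurgessApplications`):
  `|L(1/2 + i t, χ)| ≪ (1 + |t|) p ^ (3/16) (log p) ^ 2`, `|L(1, χ)| ≤ (1/4 + ε) log p` and
  some prime `q ≤ p ^ (1/(4√e) + η)` with `χ q ≠ 1`, for every nonprincipal character modulo a
  prime `p` (large, for the last two), hence as small a `d`-th power non-residue.
* `FA.BurgessComposite.Summary.burgess_composite`,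
  `FA.BurgessComposite.Summary.subconvexity_composite`,
  `FA.BurgessComposite.Summary.LOne_composite`, `FA.BurgessComposite.Summary.classNumber_le`
  (`SummaryBurgessComposite`): Burgess's inequality for primitive characters of conductor squarefree
  up to a bounded factor, `|L(1/2 + i t, χ)| ≪ (1 + |t|) q ^ (3/16 + ε)`,
  `|L(1, χ)| ≤ (1/4 + ε) log q`, `h(-4 n) ≤ (1/(4 π) + ε) √(4 n) log (4 n)` for large squarefree
  `n ≡ 1 (mod 4)` (general cube-free moduli not claimed).
* `FA.PrimeResidues.Summary.linnik_vinogradov`, `FA.PrimeResidues.Summary.pollack`,
  `FA.PrimeResidues.Summary.divisor_sum_asymptotic` (`SummaryPrimeResidues`): Linnik and Vinogradov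
  1966, Pollack 2017: for large primes `p` at least `(log p) ^ A` primes `ℓ ≤ p ^ (1/4 + ε)` are
  quadratic residues modulo `p` (ineffective), by
  `∑_{n ≤ x} ∑_{d ∣ n} χ d = x L(1, χ) + O (x p^-δ)` for `x ≥ p ^ (1/4 + ε)`.
* `FA.PrimitiveRootSquare.Summary.cohen_odoni_stothers`, `card_primitiveRoot_ge`,
  `few_fermat_quotient_zero`, `lenstra_nonWieferich_base` (`SummaryPrimitiveRootSquare`): for large
  primes `p` some `g ≤ p ^ (1/4 + ε)` is a primitive root modulo every power of `p`, as a window of
  length `N ≥ p ^ (1/4 + ε)` has `≥ N p ^ (-ε)` primitive roots and, for `N ^ k < p ^ 2`, at most
  `C p ^ (1/k + δ)` numbers `n ≤ N` with `n ^ (p - 1) ≡ 1` modulo `p ^ 2`; some prime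
  `q ≤ 4 log² p` has `q ^ (p - 1) ≢ 1` modulo `p ^ 2` (thresholds in `p` not explicit).
* `FA.AdditiveSums.Summary.weil_additive_sum`, `FA.AdditiveSums.Summary.riemann_hypothesis`
  (`SummaryWeilAdditiveSums`): Weil's bound `|∑_x ψ (f x)| ≤ (m - 1) √q` for additive characters
  and `deg f = m` prime to the characteristic, with its L-polynomial over every extension;
  `FA.AdditiveSums.Summary.artinSchreier_points`, `FA.AdditiveSums.Summary.weil_exponential_sum`:
  the points of `y ^ p - y = f x` and the exponential sums of an integer polynomial (one variable).
* `FA.CurveRH.Summary.curve_riemann_hypothesis`, `FA.CurveRH.Summary.curve_weil_numbers`,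
  `FA.CurveRH.Summary.curve_points_eventually`, `FA.CurveRH.Summary.bombieri_fixed_places`
  (`SummaryCurveRiemannHypothesis`): the Riemann hypothesis for absolutely irreducible plane
  curves over finite fields by Bombieri's proof: `q ^ n + O (q ^ (n / 2))` points in the extension
  of degree `n`, Weil numbers of absolute value at most `√q`. The constant depends on the curve and
  the field: `2 g √q`, Lang–Weil and the functional equation are not claimed.
* `FA.CurveRH.Summary.riemann_roch`, `FA.CurveRH.Summary.weil_numbers`,
  `FA.CurveRH.Summary.hasse_weil`, `FA.CurveRH.Summary.class_number_finite` (`SummaryWeilCurves`):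
  Riemann–Roch for function fields over algebraically closed constants, and the zeta function of
  one with a Frobenius: `2 g` reciprocal roots of absolute value `√q` stable under `α ↦ q / α`,
  `|N m - q ^ m - 1| ≤ 2 g √(q ^ m)`, given that the `N m` fixed places are `q ^ m + O (q ^ (m / 2))`.
* `FA.CurveRH.Summary.plane_weil_numbers`, `FA.CurveRH.Summary.lang_weil_curve`,
  `FA.CurveRH.Summary.lang_weil_curve_extension`, `FA.CurveRH.Summary.plane_genus_le`,
  `FA.CurveRH.Summary.points_large_field` (`SummaryPlaneCurves`): Weil's theorem for absolutely
  irreducible plane curves of degree `d`, unconditionally: genus at most `(d - 1) (d - 2) / 2`,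
  Weil numbers of absolute value `√q`, `|N - q| ≤ (d - 1) (d - 2) √q + d (d (2 d + 1) + 1) + 1`
  in the field and all its extensions, so points once `q` is large against `d` (curves only).
* `FA.AxFiniteFields.Summary.ostrowski_noether`,
  `FA.AxFiniteFields.Summary.points_mod_large_primes`,
  `FA.AxFiniteFields.Summary.padic_points_large_primes`, `FA.AxFiniteFields.Summary.ax_perfect`,
  `FA.AxFiniteFields.Summary.ax_pseudoAlgClosed`, `FA.AxFiniteFields.Summary.ax_extensions`
  (`SummaryAxFiniteFields`): absolutely irreducible plane curves over `ℚ` stay so modulo large
  primes and have points there and in `ℤ_p`; Ax: ultraproducts of growing finite fields are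
  pseudo-finite (pseudo algebraic closedness for plane curves, one extension of each degree).
* `FA.ExceptionalPoly.Summary.davenport_lewis`, `FA.ExceptionalPoly.Summary.lenstra_gcd`,
  `FA.ExceptionalPoly.Summary.carlitz_conjecture_tame`,
  `FA.ExceptionalPoly.Summary.value_set_bound`,
  `FA.ExceptionalPoly.Summary.integer_polynomial_even` (`SummaryCarlitzConjecture`): for `q` large
  against the degree `n` permutation polynomials are exceptional; when the characteristic does not
  divide `n` they have `gcd (n, q - 1) = 1`, so none has even degree (Carlitz's conjecture, tame
  case), and otherwise about `q / n` values are missed (the wild case is not claimed).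
* `FA.LangWeilAll.Summary.lang_weil`, `lang_weil_extensions`, `effective_bertini`,
  `common_zeros`, `nonsingular_zero`, `ostrowski_noether_all`, `points_mod_large_primes_all`,
  `padic_zero_large_primes` (`SummaryLangWeil`): Lang–Weil for hypersurfaces in every dimension,
  `q ^ (n - 1) + O_d (q ^ (n - 3/2))` with an explicit constant depending on the degree alone, by
  an effective theorem of Bertini; Ostrowski–Noether in `n` variables, so nonsingular zeros and
  zeros over `ℤ_p` for all large `p` (only hypersurfaces; the constant is not sharp).
* `FA.ThinSets.Summary.box_large_sieve`, `sieve_missing_classes`, `few_fibres_with_root`,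
  `cohen_thin_set`, `thin_set_bound`, `hilbert_irreducibility_quantitative`,
  `gallagher_polynomials` (`SummaryThinSets`): the large sieve in boxes, the theorem of
  S. D. Cohen that a thin set has `O(N^(n - 1/2) log N)` integral points in `[-N, N]^n`, Hilbert
  irreducibility over `ℚ` with that error term, and Gallagher's theorem that all but so many monic
  integer polynomials of degree `n` and height at most `N` have group `S_n`; constants
  ineffective, no other number fields.
* `FA.SchmidtFieldCount.Summary.relative_trace_zero_element`, `small_generator`,
  `small_generator_prime`, `schmidt_count`, `quadratic_count`, `cubic_count`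
  (`SummarySchmidtFieldCount`): Schmidt's theorem that at most `C_n X^((n + 2) / 4)` number fields
  of degree `n` in `ℚ̄` have `|D| ≤ X`, imprimitive fields included, by small integers of relative
  trace zero; upper bounds only, over `ℚ` only.
* `FA.TwoTorsionBound.Summary.ring_of_integers_shape`, `box_count`, `two_torsion_representative`,
  `squares_in_norm_form`, `two_torsion_bound` (`SummaryTwoTorsionBound`): the theorem of Bhargava,
  Shankar, Taniguchi, Thorne, Tsimerman and Zhao that the class group of a number field of degree
  `n ≥ 2` has at most `C |D|^(1/2 - 1/(2n) + ε)` elements killed by `2`, imprimitive fields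
  included; no sharper cubic or quartic exponents, no `ℓ > 2`, no narrow class group.
* `FA.EllenbergVenkatesh.Summary.generator_discriminant_bound`, `small_split_primes`,
  `torsion_bound_of_RH`, `quadratic_three_torsion_of_RH` (`SummaryEllenbergVenkatesh`): the theorem of
  Ellenberg and Venkatesh: many small split primes force few classes killed by `l`, so on the
  Riemann hypothesis for `ζ_K` at most `C |D|^(1/2 - 1/(2l(n-1)) + ε)` of them, every degree
  `n ≥ 2`; the unconditional bounds for `l = 3` and averages over families are not included.
* `FA.RegulatorBound.Summary.regulator_uniform_lower`, `unit_discriminant_bound`, `silverman`,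
  `silverman_primitive`, `totally_real_regulator`, `totally_real_finiteness` (`SummaryRegulatorBound`):
  Silverman's inequality `R ≥ c (log |D|)^(r - ρ)` with `ρ` the largest unit rank of a proper
  subfield, so for each `n ≥ 2` finitely many totally real fields of degree `n` have `R ≤ B`;
  constants in terms of the degree only, none explicit.
* `FA.CMExponent.Summary.split_prime_power_principal`, `exponent_bound_of_split_prime`,
  `exponent_bound_of_RH`, `cm_exponent_finiteness` (`SummaryCMExponent`): the theorem of Louboutin,
  Okazaki, Amoroso and Dvornicich that on the Riemann hypothesis for `ζ_K` the exponent of the class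
  group of a CM field is `≫_n log |D| / log log |D|`, so finitely many such fields of each degree
  have a given exponent; not uniform in the degree.
* `FA.QuadraticNorthcott.Summary.sqrt_prime_height_bound`, `northcott_quadratic_compositum`,
  `height_support`, `finitely_many_bounded_integers` (`SummaryQuadraticNorthcott`): the theorem of
  Bombieri and Zannier: the compositum of all quadratic fields has the Northcott property, as an
  element needing the root of an odd prime `p` has height at least `log p / 4 - log 2 / 2`
  (exponent two over `ℚ` only);
* `FA.LocalDegrees.Summary.height_bound_local_degrees`, `height_bound_local_degrees_pos`,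
  `totally_padic_height_bound`, `bogomolov_finite_exponent`, `bogomolov_bounded_degree_compositum`
  (`SummaryLocalDegrees`): Bombieri and Zannier: bounded local degrees at one prime bound the height
  from below, so Galois fields of bounded exponent and the compositum of all fields of degree at
  most `d` have the Bogomolov property (the limit inferior for totally `p`-adic numbers not claimed);
* `FA.AbelianHeight.Summary.bogomolov_abelian_all`, `bogomolov_maximal_abelian`,
  `free_modulo_torsion`, `free_modulo_torsion_maximal_abelian`, `free_modulo_torsion_bounded_degree`
  (`SummaryAbelianHeight`): the theorem of Amoroso and Dvornicich for every number of an abelian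
  field, integral or not (bound `log (5/2) / 10`), and: a field with the Bogomolov property has a
  free multiplicative group modulo roots of unity;
* `FA.TotallyRealHeight.Summary.schinzel_height_totally_real`, `schinzel_height_cm`,
  `bogomolov_totally_real`, `bogomolov_totally_real_sharp`, `free_units_totally_real`
  (`SummaryTotallyRealHeight`): Schinzel's theorem for totally real and CM numbers, integral or not
  (height at least `log φ / 2`, sharp), and a field of totally real numbers has a free multiplicative
  group modulo `±1`;
* `FA.AbelianNorthcott.Summary.ramified_height_bound`, `bounded_conductor`,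
  `northcott_abelian_exponent`, `northcott_abelian_degree_compositum`, `exponent_two_unbounded_degree`
  (`SummaryAbelianNorthcott`): the theorem of Bombieri and Zannier over `ℚ`: abelian extensions of
  bounded exponent, and the compositum of all abelian fields of degree at most `d`, have the
  Northcott property;
* `FA.PropertyP.Summary.polynomial_height_lower_bound`, `northcott_implies_property_P`,
  `finite_preperiodic`, `property_P_abelian_bounded_degree` (`SummaryPropertyP`): Narkiewicz's
  property (P) from the Northcott property: no infinite set is mapped onto a superset of itself by a
  polynomial of degree at least two, and only finitely many points are preperiodic, for example in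
  the compositum of all abelian fields of degree at most `d`;
* `FA.RealConjugates.Summary.garza_height`, `garza_mahler`, `garza_constant_totally_real`,
  `lehmer_real_proportion`, `bogomolov_real_proportion` (`SummaryRealConjugates`): Garza's lower
  bound for the height and Mahler measure of an algebraic number with `r` real conjugates out of `d`,
  Lehmer's problem for a positive proportion of real roots, and the Bogomolov property with free
  multiplicative group modulo `±1` for fields with such a proportion;
* `FA.ZagierLine.Summary.zagier_inequality`, `zagier_height_number_field`, `zagier_height`,
  `zagier_height_eq_zero`, `zagier_mahler`, `zagier_sharp` (`SummaryZagierLine`): Zagier's sharp form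
  of Zhang's theorem, `h x + h (1 - x) ≥ log φ / 2` apart from four exceptions, with equality at the
  primitive tenth roots of unity;
* `FA.SmythFormula.Summary.smyth_integrable`, `jensen_reduction`, `smyth_reduction_three`,
  `smyth_two_variable`, `smyth_two_variable_LFunction`, `smyth_three_variable`,
  `smyth_three_variable_zeta` (`SummarySmythFormula`): Smyth's formulas for Mahler measures in
  several variables, `m(1 + x + y) = 3√3/(4π) L(χ₋₃, 2)` and `m(1 + x + y + z) = 7 ζ(3)/(2π²)`;
* `FA.BoydLawton.Summary.lawton_sublevel`, `boyd_lawton_integrable`, `boyd_lawton`, `smyth_limit`
  (`SummaryBoydLawton`): the theorem of Boyd and Lawton, the measure of `f (x, x ^ n)` tends to that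
  of `f (x, y)`, with Lawton's sublevel bound; so `M (X ^ n + X + 1)` tends to Smyth's constant;
* `FA.ToralEntropy.Summary.toral_entropy`, `every_measure_is_an_entropy`, `lehmer_iff_entropy_gap`,
  `entropy_zero_iff`, `doubling_entropy` (`SummaryToralEntropy`): the topological entropy of a
  toral endomorphism is the logarithmic Mahler measure of its characteristic polynomial; Lehmer's
  conjecture is equivalent to a gap in these entropies (the conjecture is not claimed);
* `FA.ToralPeriodic.Summary.toral_fixed_points_card`, `periodic_points_finite_iff`,
  `periodic_growth`, `lehmer_pierce_growth` (`SummaryToralPeriodic`): the fixed points of the iterates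
  of a toral endomorphism number `|det (A ^ n - 1)|`, and their exponential growth is the entropy
  (Lind), by the growth of exponential polynomials (ineffective);
* `FA.ToralEquidistribution.Summary.periodic_characters_vanish`, `periodic_equidistribution`,
  `periodic_equidistribution_iff`, `toral_ergodic_iff` (`SummaryToralEquidistribution`): Halmos's
  criterion for the ergodicity of toral endomorphisms and the equidistribution of their periodic
  points, also for eigenvalues on the unit circle;
* `FA.ToralZeta.Summary.toral_zeta_rational`, `toral_count_sign`, `toral_count_linearRecurrence`,
  `toral_gauss_congruences`, `toral_mixing_iff` (`SummaryToralZeta`): the Artin–Mazur zeta function of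
  a toral endomorphism is rational, and it is strongly mixing exactly when it is ergodic;
* `FA.SiegelTrace.Summary.siegel_trace`, `siegel_trace_eq_iff`, `siegel_trace_gap`,
  `siegel_trace_algebraic`, `siegel_sum_squares` (`SummarySiegelTrace`): Siegel's trace theorem: a
  totally positive algebraic integer other than `1` has trace at least `3 / 2` times its degree,
  with the case of equality, a gap to `31 / 20`, and the same for squares of totally real integers;
* `FA.CyclotomicSquares.Summary.cassels_mean_square`, `cassels_mean_square_abelian`, `cassels_house`,
  `kronecker_two_cos`, `burnside_zero`, `thompson_zero_or_root` (`SummaryCyclotomicSquares`):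
  Cassels's bound `3 / 2` for the mean square of a cyclotomic integer, Kronecker's theorem on
  `[-2, 2]`, Burnside's zeros of characters and Thompson's theorem;
* `FA.HilbertThird.Summary.hilbert_third`, `hilbert_equal_base_height`, `scissors_invariants`,
  `tetrahedron_dehn_invariant` (`SummaryHilbertThird`): Hilbert's third problem: the Dehn invariant
  is additive under arbitrary dissections into tetrahedra, so a regular tetrahedron is scissors
  congruent to no cube, and two tetrahedra with equal base and height need not be scissors congruent;
* `FA.SiegelSquares.Summary.siegel_sums_of_squares`, `exists_not_sum_squares`,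
  `siegel_squares_examples` (`SummarySiegelSquares`): Siegel's theorem of 1945: the totally real
  fields in which every totally positive integer is a sum of squares are `ℚ` and `ℚ(√5)`;
* `FA.ThreeSquaresField.Summary.three_squares_sqrt_five`, `sum_squares_iff_four`
  (`SummaryThreeSquaresField`): with `siegel_four_squares`, sums of squares in a number field are
  sums of four; where `5` is a square the elements nowhere negative are sums of three squares;
* `FA.MeyerNumberField.Summary.meyer_numberField`, `meyer_numberField_diagonal`, `meyer_local`,
  `representation_four_numberField`, `universal_four_totally_imaginary`,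
  `anisotropic_four_numberField` (`SummaryMeyerNumberField`): Meyer's theorem over number fields: a
  quadratic form in five or more variables has a zero iff it has one under every real embedding;
* `FA.WeakHasseMinkowski.Summary.witt_group_local_injective`, `…equivalent_iff_local`,
  `…equivalent_real_iff`, `…congruent_iff_local`, `…congruent_iff_local_totally_imaginary`
  (`SummaryWeakHasseMinkowski`): the weak theorem of Hasse and Minkowski: the Witt group of a
  number field embeds in those of its completions, and quadratic forms, also nonsingular symmetric
  matrices up to congruence, are classified by their completions (by the number of positive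
  coefficients at the real embeddings); local invariants classifying them are not claimed.
* `FA.HasseInvariant.Summary.equivalent_completion_iff`, `…equivalent_iff_invariants`,
  `…equivalent_iff_invariants_totally_imaginary` (`SummaryHasseInvariant`): over every completion of
  a number field quadratic forms are classified by rank, discriminant and Hasse invariant, and so
  over the number field by these invariants and the numbers of positive coefficients at the real
  embeddings; which invariants occur is not claimed.
* `FA.HasseInvariant.Summary.invariants_iff`, `…exists_form_prescribed`
  (`SummaryFormsPrescribedInvariants`): in rank at least three exactly those discriminants, Hasse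
  invariants and real signs occur over a number field that satisfy the sign rule and the product
  formula; the extra condition in rank two is not claimed.
* `FA.WittNumberField.Summary.witt_signature_spec`, `…witt_torsion_numberField`,
  `…witt_totally_imaginary`, `…witt_signature_range`, `…fundamentalPower_numberField`,
  `…fundamentalPower_totally_imaginary` (`SummaryWittGroupNumberField`): the Witt group of a number
  field: torsion is killed by `8` and is the vanishing of the signatures at the real embeddings;
  these take exactly the values congruent modulo `2`, and for `n ≥ 3` map `I ^ n` bijectively onto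
  the multiples of `2 ^ n`.
* `FA.WittNumberField.Summary.pfisterTwo_congr`, `…exists_pfisterTwo`, `…e_two_numberField`
  (`SummaryWittSquareNumberField`): over a number field every element of `I²` is one two-fold
  Pfister form modulo `I³`, these are congruent exactly when equal and when their quaternion
  algebras are isomorphic, and `I² / I³` is the group of even finite sets of places (`Br(K)[2]` by
  its local invariants).
* `FA.RootAngles.Summary.angular_power_sums`, `…erdos_turan_roots`, `…real_roots_bound`,
  `…real_roots_bound_int` (`SummaryRootAngles`): Erdős and Turán on the arguments of the roots of a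
  polynomial: with `M = log (∑ |aᵢ| / √(|a₀| |aₙ|))` every sector holds its share up to
  `104 √(n M)`, so at most `208 √(n M)` roots are real.
* `FA.GaussProduct.Summary.gauss_product_relation`, `…gauss_product_relation_two`,
  `…padicGamma_multiplication` (`SummaryGaussProductRelation`): the Davenport–Hasse product relation
  for Gauss sums of a finite field, and Gauss's multiplication formula for Morita's `Γ_p`, from
  which it follows by Gross–Koblitz.
* `FA.ChowlaDworkEvans.Summary.chowla_dwork_evans`, `…padicGamma_two_squares`,
  `…padicGamma_mod_sq` (`SummaryChowlaDworkEvans`): for `p = a² + b² ≡ 1 (mod 4)` the congruence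
  modulo `p²` of Chowla, Dwork and Evans for `((p-1)/2 choose (p-1)/4)`, and the unit root of
  `u² - 2 a u + p` by values of `Γ_p`.
* `FA.Supercongruence.Summary.sun_supercongruence`, `…mortenson_supercongruences`,
  `…jacobi_cubic_congruence` (`SummarySupercongruences`): Sun's supercongruence for every `p`-adic
  `a`, the four of Rodriguez-Villegas and Mortenson, and Jacobi's cubic binomial congruence modulo
  `p²` with the unit root `-Γ_p(1/3)³` of `u² + r u + p`.
* `FA.AperyCongruence.Summary.apery_lucas`, `…apery_digits`, `…gessel_cube`, `…apery_pred_prime`
  (`SummaryAperyCongruences`): both sequences of Apéry numbers have Lucas's property modulo every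
  prime, and for `p ≥ 5` modulo `p³` the values at `p n` and `n` agree and that at `p - 1` is `1`.
* `FA.CauchyJacobi.Summary.cauchy_jacobi`, `…cauchy_jacobi_unique`, `…classNumber_excess`,
  `…padic_chowla_selberg` (`SummaryCauchyJacobi`): for a prime `l ≡ 3 (mod 4)`, `l > 3`, and
  `p ≡ 1 (mod l)` the representation `4 p^h = a² + l b²`, `h` the class number of `ℚ(√-l)`, with
  `a` modulo `p` by factorials and `p`-adically by Gross and Koblitz's formula in `Γ_p (r / l)`.
* `FA.FunctionFieldRank.Summary.rank_unbounded_prime_field`, `…legendre_rank`,
  `…legendre_rank_finite_field` (`SummaryFunctionFieldRank`): the rank of elliptic curves with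
  non-constant `j` over `F_p(u)` is unbounded for every odd prime `p` (Shafarevich and Tate);
  Ulmer's `d - 2` independent points on `y² = x (x + 1) (x + u^d)`, `d = p^f + 1` (lower bound).
* `FA.FunctionFieldRank.Summary.legendre_exact_rank`, `…exact_rank_unbounded`,
  `…mordellWeil_of_finite_quotient` (`SummaryFunctionFieldRankExact`): over a finite field with
  the `d`-th roots of unity, `d = p^f + 1`, the points of `y² = x (x + 1) (x + u^d)` over `F(u)`
  are finitely generated of rank exactly `d - 2` and `E / 2 E` has order `2^d`; heights on `F(u)`
  and the descent for every elliptic curve over `F(u)` with finite `E / 2 E`.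
* `FA.FunctionFieldMW.Summary.mordellWeil_function_field`, `…function_field_group_structure`,
  `…sUnits_fg`, `…even_classes_finite` (`SummaryFunctionFieldMordellWeil`): the theorem of Mordell
  and Weil over `F(u)` for a finite field `F` of odd characteristic and every elliptic curve;
  `S`-units and `S`-classes modulo squares of function fields over finite fields.
* `FA.FunctionFieldBSD.Summary.bsd_rank`, `…lFunction_eq`, `…total_trace`, `…fibre_inv`,
  `…card_fibre` (`SummaryFunctionFieldBSD`): Ulmer's theorem by Jacobi sums, the rank part of Birch
  and Swinnerton-Dyer for `y² = x (x + 1) (x + u^(p^f+1))` over `F_q(u)`, `q = p^(2f)`: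
  `exp (∑ Aₙ T^n / n) = (1 - q T)^(p^f - 1)`, `Aₙ` the trace sums over `P¹` (not the Euler product).
* `FA.MestreRank.Summary.infinite_j_rank_ge_eleven` (`SummaryMestreRank`): Mestre's theorem,
  infinitely many `j`-invariants over `ℚ` are those of elliptic curves with eleven independent
  rational points; the quartic method, with quadratic characters at the primes up to `59` for
  the members of the family congruent to `T = 303` modulo their product.
* `FA.NeronSpecialisation.Summary.mordellWeil_ratFunc_rat`, `…neron_specialisation`,
  `…independent_specialisations` (`SummaryNeronSpecialisation`): for curves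
  `y² = (x - e₀) (x - e₁) (x - e₂)` over `ℚ(T)`, constant ones included, the points form a finitely
  generated group, and Néron's specialisation theorem: specialisation is injective at all integers
  outside a set of density zero, so infinitely many fibres have rank at least the generic one (full
  rational two-torsion only).
* `FA.NeronSpecialisation.Summary.mordellWeil_ratFunc_rat_all`, `…neron_specialisation_all`,
  `…rank_specialisations`, `…weak_mordellWeil_algClosed` (`SummaryNeronGeneral`): every elliptic
  curve over `ℚ(T)` has finitely generated points (Lang–Néron), and for every equation over `ℚ[T]`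
  with `Δ ≠ 0` specialisation is injective at all integers outside a set of density zero (Néron), so
  infinitely many fibres have rank at least the generic one; `E(K(T))/2` is finite for `K`
  algebraically closed of characteristic zero. Other bases and constant fields are not treated.
* `FA.TwistRankTwo.Summary.twists_rank_two`, `…two_points_over_ratFunc`
  (`SummaryTwistRankTwo`): every elliptic curve over `ℚ` with `j ≠ 0, 1728` has infinitely many
  quadratic twists by squarefree integers with two independent rational points (Mestre; Stewart–Top),
  from an explicit family over `ℚ(w)` and Néron's specialisation theorem.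
* `FA.TwistCount.Summary.twists_rank_two_count`, `…independent_almost_everywhere`
  (`SummaryTwistCount`): for every elliptic curve over `ℚ` with `j ≠ 0, 1728` at least
  `c X ^ (1/7) / log X` squarefree `|d| ≤ X` give twists with two independent rational points
  (Stewart–Top's exponent with one logarithm less), as the explicit family has independent points at
  all but finitely many rational parameters and primes `u² + v²` mark the square classes.
* `FA.TwistHalf.Summary.twists_positive_rank_sqrt`, `…squarefree_form_values`
  (`SummaryTwistHalf`): every elliptic curve over `ℚ` has at least `c √X` squarefree `|d| ≤ X` with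
  a point of infinite order on the twist by `d` (after Gouvêa–Mazur and Stewart–Top); the `d` are
  values `y F (x, y)` of the cubic.
* `FA.GreavesForms.Summary.greaves_small_degree`, `…squarefree_forms_degree_le_four`,
  `…sum_two_fourth_powers_squarefree` (`SummaryGreavesForms`): Greaves: a binary form without
  repeated factor, all factors of degree at most four, takes squarefree values with the density
  `∏ (1 - N_{p²} / p⁴)`; at least `c √N` squarefree `m ≤ N` are sums of two fourth powers.
* `FA.GreavesSix.Summary.greaves`, `…squarefree_forms_degree_le_six`, `…fifth_powers_example`,
  `…root_mean_linear`, `…square_values_on_lines` (`SummaryGreavesSix`): Greaves's theorem, factors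
  up to degree six, the huge primes by a square sieve (Weil, large sieve) on segments of lattices.
* `FA.CallSilverman.Summary.call_silverman`, `…preperiodic_finite`, `…silverman_specialisation`,
  `…silverman_independence`, `…nondegenerate_example` (`SummaryCallSilverman`): the specialisation
  theorems of Call–Silverman and Silverman over `K(T)`, `K` a number field: the canonical height of a
  specialised point over `h (t)` tends to the height of the generic point, so points with nonsingular
  height matrix stay independent at all but finitely many `t` (positivity of the pairing for
  non-constant `j` is in `SummaryLangNeron`).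
* `FA.LangNeron.Summary.lang_neron`, `…silverman_injective`, `…pairing_posDef`,
  `…height_eq_zero_iff`, `…height_gap`, `…bounded_multiples_torsion` (`SummaryLangNeron`): for
  non-constant invariant over `k(T)`, `k` of characteristic zero, the height is positive definite
  (zero exactly on torsion, with a gap), the points are finitely generated (Lang–Néron), and over a
  number field specialisation is injective at all but finitely many parameters (Silverman); bases
  of higher genus are not treated.
* `FA.LangNeron.Summary.lang_neron_all`, `…lang_neron_iff`, `…constant_points`, `…height_all`,
  `…silverman_all`, `…twist_rank` (`SummaryLangNeronConstant`): the theorems of Lang–Néron and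
  Silverman over `ℙ¹` for every curve, isotrivial ones included: a curve over `k(T)` is constant,
  with only constant points, or has finitely generated points and a positive definite height;
  specialisation is injective at all but finitely many parameters for every equation; twists by
  the values of a squarefree polynomial keep the rank at all but finitely many parameters.
* `FA.SiegelFunctionField.Summary.siegel`, `…polynomial_solutions`, `…mordell_equation`,
  `…northcott`, `…torsion_finite` (`SummarySiegelFunctionField`): Siegel's theorem over `k(T)`
  (Lang): on a curve that is not constant, isotrivial or not, finitely many points with poles of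
  the abscissa in a finite set, so finitely many polynomial solutions, for `y² = x³ + D` unless `D`
  is a constant times a sixth power; finitely many points of bounded height. Not effective.
* `FA.SzpiroLine.Summary.szpiro_line`, `…szpiro_minimal`, `…three_fibres`,
  `…beauville_four_fibres`, `…hesse_sharp` (`SummarySzpiroLine`): elliptic surfaces over the line
  with non-constant invariant, over an algebraically closed field of characteristic zero: the degree
  of the minimal discriminant is at most `6 (N - 2)` for the degree `N` of the conductor (Szpiro),
  there are at least three singular fibres, at least four if all are semistable (Beauville); both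
  sharp.
* `FA.LevinTorsion.Summary.levin_prime_torsion`, `…nonconstant_invariant`, `…semistable_fibres`,
  `…seven_occurs` (`SummaryLevinTorsion`): on an elliptic curve over `k(T)`, `k` of characteristic
  zero, not isomorphic to a curve over `k`, a point of prime order has order `2`, `3`, `5` or `7`
  (Levin, prime orders only); order `5` or `7` forces a non-constant invariant and, over
  algebraically closed `k`, semistable fibres at all places; order `7` occurs.
* `FA.CoxParry.Summary.cox_parry_levin`, `…torsion_order`, `…semistable_of_point`
  (`SummaryCoxParry`): the torsion subgroup of an elliptic curve over `k(T)`, `k` of characteristic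
  zero, not isomorphic to a curve over `k` is one of the nineteen groups of Levin, Cox and Parry
  (`ℤ/n`, `n ≤ 10` or `12`; `ℤ/2 × ℤ/2n`, `n ≤ 4`; `(3,3)`, `(3,6)`, `(4,4)`, `(5,5)`); over
  algebraically closed `k` order at least five forces semistable fibres. All nineteen occur for
  algebraically closed `k` (`SummaryTorsionRealisedLine`).
* `FA.CoxParry.LevelSummary.level_bound`, `…rational_surface_torsion`, `…k3_torsion`,
  `…seven_sharp` (`SummaryTorsionLevel`): for an elliptic curve over `k(T)`, `k` algebraically
  closed of characteristic zero, not isomorphic to a curve over `k`, with minimal model of level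
  `m`, the larger torsion groups need `m ≥ 2, 3, 4, 5` (Miranda and Persson): nine possible groups
  at level one (rational elliptic surfaces), thirteen at level two (K3). Order seven occurs at
  level two; for the other groups see `SummaryTorsionRealisedLine`.
* `FA.CoxParry.RealisedSummary.cox_parry_iff`, `…rational_surface_iff`, `…k3_iff`, `…level_sharp`,
  `…small_every_level` (`SummaryTorsionRealisedLine`): for algebraically closed `k` of characteristic
  zero explicit curves realise exactly the nineteen torsion groups over `k(T)`, exactly nine at
  level one and thirteen at level two, and each larger group at its least level; the trivial group,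
  `ℤ/2`, `ℤ/3`, `ℤ/4`, `(2,2)` at every positive level. Which higher levels the others occur at is
  not claimed.
* `FA.HindrySilverman.Summary.height_formula`, `…component_multiples`, `…height_lower_bound`,
  `…integral_multiple_bound`, `…height_two_example` (`SummaryHindrySilverman`): for a semistable
  `y² = x³ - 27 A x - 54 B` over `k(T)`, minimal of level `m`, `k` algebraically closed of
  characteristic zero, invariant not constant: Shioda's formula for the height of a point of
  infinite order, the bound `(m + 6) / 26235` of Hindry and Silverman, and `r ≤ 229` for an integral
  multiple `r P`.
* `FA.HindrySilverman.CountSummary.integral_points_bound`, `…height_count_bound`,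
  `…height_of_pole_degree`, `…finitely_generated` (`SummaryHindrySilvermanCount`): in the same
  situation at most `25 · 459 ^ rank` integral sections (abscissa a polynomial of degree at most
  `2 m`) and at most `25 · (459 c) ^ rank` points of height at most `2 c m`, uniformly in the curve.
* `FA.HindrySilverman.NarrowSummary.narrow_iff`, `…torsion_free`, `…finite_index`,
  `…even_lattice`, `…minimum_iff`, `…narrow_example` (`SummaryNarrowLattice`): in the same situation
  the points with nonsingular reduction at every fibre form a torsion-free subgroup containing a
  multiple of every point, an even positive definite lattice of minimum at least `2 m` for the height.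
* `FA.HindrySilverman.IrreducibleSummary.torsion_free`, `…height_even`, `…integral_points`,
  `…minimal_vectors`, `…example_squarefree` (`SummaryIrreducibleFibres`): elliptic surfaces over the
  line without reducible fibres have no torsion, even height, and at most `2 (2 ^ rank - 1)` integral
  sections; so for the minimal narrow vectors of every semistable one.
* `FA.HindrySilverman.FamilySummary.height_lower_bound`, `…lang_conjecture`, `…family_example`
  (`SummaryLangFamilies`): in a family `y² = x³ - 27 A x - 54 B` over a number field with coprime
  `A`, `B` of full degree a section of infinite order has `ĥ (P_t) ≥ h (D (t)) / 314820` for all but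
  finitely many parameters (Lang's conjecture with an absolute constant).
* `FA.FullTwoTorsionRank.Summary.index_doubles_le`, `…rank_le_conductor`, `…rank_le_level`,
  `…ulmer_sharp`, `…legendre_char_zero` (`SummaryFullTwoTorsionRank`): over `k(T)`, `k` algebraically
  closed, `2 ≠ 0`, with full two-torsion and conductor of degree `N` the doubles have index at most
  `2 ^ (N - 2)`, so in characteristic zero a curve that is not constant has rank at most
  `N - 4 ≤ 6 m - 4`; attained in characteristic `p` for unbounded `N` by Ulmer's curves.
* `FA.CubicDescentRank.Summary.genus_bound`, `…two_descent`, `…rank_bound`,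
  `…rational_surface_rank_le_eight`, `…integral_sections_uniform`, `…rational_surface_sections`
  (`SummaryCubicDescentRank`): elliptic surfaces over the line without reducible fibres, of level
  `m`, in characteristic zero: the trigonal curve of two-division points has genus at most `6 m - 2`
  and the rank is at most `12 m - 4` (eight for rational surfaces), so at most
  `2 (2 ^ (12 m - 4) - 1)` integral sections (`510` at level one), with no hypothesis on the rank.
* `FA.MordellSurface.Summary.torsion_free`, `…finitely_generated`, `…rank_bound`,
  `…shioda_rank_eight`, `…rank_bound_attained` (`SummaryMordellSurface`): `y² = x³ + f` over `k(T)`,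
  `k = k̄` of characteristic zero, `f` squarefree, not constant: no torsion; rank `≤ 12 m - 4`
  if `deg f` is `6 m - 1` or `6 m`; Shioda's `y² = x³ + T⁶ + 1`: rank exactly eight, by sections and
  the action of `ℤ[ω]` and of `T ↦ ζ₆ T`.
* `FA.MordellCubes.Summary.four_points_of_cubes`, `…four_independent_generic`,
  `…four_independent_almost_all`, `…rotation_doubles`, `…mordell_rank_four`, `…mordell_rank_eight`,
  `…mordell_rank_eight_eisenstein` (`SummaryMordellCubes`): `X³ + Y³ + Z³ = W³` gives four points on
  `y² = x³ + k`; by Ramanujan's solution and Silverman's specialisation infinitely many pairwise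
  non-isomorphic `y² = x³ + k` have rank at least four over `ℚ`, and at least eight over each number
  field containing a primitive cube root of unity, such as `ℚ(√-3)`.
* `FA.QuarticTwins.Summary.four_points_of_twins`, `…euler_identities`, `…four_independent_generic`,
  `…four_independent_almost_all`, `…rotation_doubles`, `…quartic_rank_four`, `…quartic_rank_eight`,
  `…quartic_rank_eight_gaussian` (`SummaryQuarticTwins`): from Euler's `a⁴ + b⁴ = c⁴ + d⁴` infinitely
  many pairwise non-isomorphic `y² = x³ - N x` have rank at least four over `ℚ`, and at least eight
  over each number field containing a square root of `-1`, such as `ℚ(i)`.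
* `FA.SurfaceObstructions.Summary.chatelet_hasse_fails`, `…chatelet_no_point_homogeneous`,
  `…chatelet_three`, `…delPezzo_hasse_fails`, `…delPezzo_smooth` (`SummarySurfaceObstructions`): the
  local-global principle fails for rational surfaces: Iskovskikh's Châtelet surfaces
  `y² + z² = (c - x²) (x² - c + 1)`, `c ≡ 3 (mod 4)` positive, and the smooth quartic del Pezzo surface
  `u v = x² - 5 y²`, `(u + v) (u + 2 v) = x² - 5 z²` of Birch and Swinnerton-Dyer.
* `FA.SurfaceObstructions.Summary.normForm_split`, `…cubicSurface_smooth`, `…cubicSurface_no_point`,
  `…cubicSurface_hasse_fails` (`SummaryCubicSurfaceObstruction`): Swinnerton-Dyer's smooth cubic surface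
  `t (t + x) (t + 2 x) = N (x + y θ + z θ²)`, `θ` in the cubic subfield of `ℚ(ζ₇)`, has points over `ℝ`
  and every `ℚ_p` and none over `ℚ`.
* `FA.ApproximationFailures.Summary.weak_approximation_fails`, `…integral_hasse_fails`,
  `…ternary_form_det` (`SummaryApproximationFailures`): Swinnerton-Dyer's `y² + z² = (4 x - 7) (x² - 2)`
  has infinitely many rational points, not dense among the real ones; Borovoi and Rudnick's
  `-9 x² + 2 x y + 7 y² + 2 z² = 1` is soluble in `ℚ`, `ℝ` and every `ℤ_p` but not in `ℤ`.
* `FA.FermatQuartic.Summary.quartic_dense`, `…affine_dense`, `…chart_dense`,
  `…infinite_points_almost_all`, `…section_infinite_order_generic`,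
  `…section_infinite_order_almost_all`, `…section_on_curve`, `…pencil_identity`
  (`SummaryFermatQuartic`): rational points are Zariski dense on `x⁴ + y⁴ = z⁴ + w⁴`; all but
  finitely many members of the pencil `x - z = L (w - y)` have infinitely many rational points.
* `FA.ThreeRationalCubes.Summary.cubes_dense`, `…infinitely_many_fibres`, `…three_positive_cubes`,
  `…three_rational_cubes`, `…ryley_identity` (`SummaryThreeRationalCubes`): every rational is a sum
  of three rational cubes, every positive one in infinitely many ways with positive cubes; for
  `r ≠ 0` the rational points are Zariski dense on `x³ + y³ + z³ = r`.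
* `FA.SegreCubic.Summary.segre_dense`, `…diagonal_dense`, `…diagonal_infinite`, `…example_dense`,
  `…jacobian_independent` (`SummarySegreCubic`): Segre's theorem: on a cubic surface with a rational
  point whose tangent section has a node and contains no line through it the rational points are
  Zariski dense; for `a x³ + b y³ + c z³ + d w³` one point with no vanishing coordinate or pair sum.
* `FA.AmerBrumer.Summary.amer_brumer`, `…brumer_odd_degree`, `…cubic_quadratic_point`,
  `…delPezzo_no_odd_degree`, `…cubicSurface_no_quadratic` (`SummaryAmerBrumer`): two quadrics have a
  common point over `k` iff the pencil `f + T g` is isotropic over `k(T)`; none appear in extensions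
  of odd degree; a cubic form with a point in a quadratic extension has one over `k`.
* `FA.ThreeCubesReal.Summary.cubes_real_dense`, `…fibres_everywhere`, `…three_cubes_box`,
  `…three_cubes_balanced` (`SummaryThreeCubesReal`): for rational `r ≠ 0` the rational points are
  dense in the real surface `x³ + y³ + z³ = r`; positive `r` are sums of three positive rational cubes
  as nearly equal as desired.
* `FA.FermatQuarticReal.Summary.quartic_real_dense`, `…chart_real_dense`, `…positive_dense`,
  `…fibre_discriminant_pos` (`SummaryFermatQuarticReal`): rational points are dense in the real surface
  `x⁴ + y⁴ = z⁴ + w⁴`, positive ones among the positive real ones.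
* `FA.MordellSurfaceDensity.Summary.surface_real_dense`, `almost_all_fibres`, `surface_dense`,
  `delPezzo_one_dense`, `sixth_power_dense`: on `y² = x³ + g(t)³ + h(t)²`, with `g ≠ 0` and `h²`
  no constant multiple of `g³`, almost all fibres have infinitely many rational points, dense among
  the real ones and for Zariski; so on `y² = x³ + d³ t⁶ + c²` (`c d ≠ 0`).
* `FA.RationalTriangles.Summary.triangles_dense`, `heron_surface_dense`, `shapes_dense`, `fine`:
  for every rational `n > 0` the triangles with rational sides and area `n` are dense among the
  real triangles of area `n`, hence in all shapes, and infinite in number (Fine).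
* `FA.FermatLines.Summary.twenty_seven_lines`, `lines_classification`, `lines_card`,
  `lines_card_closed`, `lines_meet`, `real_lines`: for `d ≥ 3` the Fermat surface of degree `d`
  has exactly `3 d²` lines, each meeting `4 d - 2` others (`27` and `10` for the cubic); three
  real or rational ones for odd `d`, none for even `d`.
* `FA.ErdosStraus.Summary.erdos_straus_almost_all`, `almost_all_two_terms`, `two_terms_iff`,
  `two_terms_iff_coprime`, `mordell_classes`, `erdos_straus_below`: `4 / n = 1/x + 1/y + 1/z` for
  almost all `n` and for `2 ≤ n ≤ 2000`, and Mordell's six classes modulo `840` (not the
  conjecture of Erdős and Straus itself).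
* `FA.Frieze.Summary.conway_coxeter_count`, `diagonal_count`, `diagonal_trees`,
  `frieze_of_diagonal`, `frieze_glide`, `frieze_periodic`, `frieze_has_one`: the theorem of Conway
  and Coxeter that there are `catalan (n + 1)` integral friezes of width `n`, with their glide
  symmetry.
* `FA.CommutingPolynomials.Summary.commutant_quadratic`, `commutant_unique`,
  `quadratic_iterates_only`, `block_thielman`: only iterates commute with `X² + c` unless `c` is
  `0` or `-2`, and commuting polynomials of all degrees are powers or Chebyshev polynomials up to
  an affine change.
* `FA.EulerCubes.Summary.euler_complete`, `euler_birational`, `euler_inverse`, `euler_integers`,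
  `taxicab_infinite`: Euler's complete solution of `x³ + y³ = u³ + v³`, so the rationality of the
  Fermat cubic surface, and infinitely many primitive positive solutions.
* `FA.BinaryWaring.Summary.waring_closed`, `waring_weighted`, `waring_real`, `monomial_rank`,
  `max_rank`: Waring's problem for binary forms in characteristic `0`: every form of degree `d`
  is a sum of at most `d` powers of linear forms (signed over `ℝ`), and `x^(d-1) y` needs `d`.
* `FA.BremnerMacleod.Summary.no_solution_odd`, `egg_empty`, `curve_map`, `solution_four`:
  Bremner and Macleod: `a/(b+c) + b/(c+a) + c/(a+b) = N` has no positive solution for odd `N`,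
  and has one (81 digits) for `N = 4`.
* `FA.FourTermProgression.Summary.product_square_iff`, `euler_product`, `no_four_squares`,
  `three_squares`: Fermat and Euler on progressions: four distinct positive terms have no square
  product, four squares in progression are equal, three distinct ones occur infinitely often.
* `FA.NoetherBound.Summary.noether_bound`, `noether_polynomial`, `powers_span`, `bound_sharp`:
  Noether's bound: in characteristic `0` the invariants of a finite group `G` are generated in
  degree at most `|G|`, attained by cyclic groups.
* `FA.SchurCommuting.Summary.schur_bound`, `schur_subalgebra`, `schur_endomorphisms`,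
  `schur_attained`, `schur_max`: Schur's theorem that commuting `n × n` matrices span at most
  `n ^ 2 / 4 + 1` dimensions, and that this is attained.
* `FA.SumsPrimeFactors.Summary.erdos_turan`, `smooth_sums_card`, `smooth_sums_infinite`,
  `three_numbers`: Erdős and Turán: the pairwise sums of `2 ^ k + 1` positive integers have at
  least `k + 1` prime factors.
* `FA.StewartTijdeman.Summary.unit_equation_count`, `gyory_stewart_tijdeman`, `sums_prime_factors`,
  `gyory_sarkozy_stewart_count`, `many_solutions`, `sums_sharp`: `a u + b v = 1` has `exp (O (s))`
  solutions in rationals composed of `s` primes (so Győry–Stewart–Tijdeman on prime factors of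
  sums) and, for some primes, `exp (c √(s / log s))` of them (Erdős–Stewart–Tijdeman).
* `FA.SilvermanCubes.Summary.silverman_rank`, `mahler`, `cubic_thue_unbounded`,
  `solutions_finite`: Mahler and Silverman: `r` independent points on `u³ + v³ = M` give infinitely
  many `m` for which `x³ + y³ = m` has `≥ c (log m) ^ (r / (r + 2))` integer solutions, so
  `≥ c (log m) ^ (1/3)` unconditionally (not primitive ones).
* `FA.PositiveCubes.Summary.positive_cubes_family`, `positive_cubes_many`, `hardy_wright_412`:
  Fermat's theorem (Hardy and Wright 412) with the count of Mahler and Silverman: infinitely many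
  `N` are sums of two positive cubes in `≥ c (log N) ^ (1/3)` ways (here also in every family
  `(a³ + b³) D³`, `a ≠ b`; the representations are not primitive).
* `FA.SumsTwoCubesCount.Summary.equal_cubes_bound`, `two_cubes_count`, `two_cubes_mostly_unique`,
  `two_cubes_almost_all_unique`: Hooley's theorem, elementary: `x³ + y³ = u³ + v³` has
  `O (P ^ (7/4 + ε))` non-diagonal solutions in `[1, P]⁴`, the sums of two positive cubes up to `N`
  number `∼ Γ(4/3)² / (2 Γ(5/3)) N ^ (2/3)` and all but `O (N ^ (7/12 + ε))` are so in one way
  (not Hooley's `5/3` or Heath-Brown's `4/3`).
* `FA.CubicTwistCount.Summary.squarefree_two_cubes`, `twists_positive_rank`,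
  `twists_pairwise_nonisomorphic`: at least `c N ^ (2/3)` squarefree `m ≤ N` are sums of two
  positive cubes, so as many pairwise non-isomorphic twists `u³ + v³ = m` of the Fermat cubic,
  `y² = x³ - 432 m²`, have positive rank (Mai, Stewart–Top; rank two not claimed).
* `FA.ErdosMahler.Summary.represented_lower`, `represented_order`, `few_representations`: the
  theorem of Erdős and Mahler of 1938: an irreducible binary form of degree `k ≥ 3` represents
  `≍ N ^ (2 / k)` integers up to `N` (no asymptotic constant, no reducible forms).
* `FA.MahlerArea.Summary.mahler_area`, `mahler_order`, `mahler_irreducible`,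
  `mahler_cube_sub_two_cube`: Mahler's theorem of 1933: for a binary form `F` of degree `k ≥ 3`
  without repeated factor and rational zero the area of `|F| ≤ 1` is finite, positive, and the
  number of integer points with `|F| ≤ N` is asymptotic to it times `N ^ (2 / k)` (no error term).
* `FA.Bilharz.Summary.bilharz`, `FA.Bilharz.Summary.bilharz_degree` (`SummaryBilharz`):
  Bilharz's theorem (Artin's primitive root conjecture for `F[T]`): a nonconstant `a` is a
  primitive root modulo infinitely many monic irreducibles iff it is no `ℓ`-th power for a prime
  `ℓ ∣ q - 1`, and then in every large degree `n ≡ 1` modulo `(deg a)!` (polynomials only).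
* `FA.GuptaMurty.Summary.gupta_murty`, `gupta_murty_count`, `exists_primitive_root_infinite`
  (`SummaryGuptaMurty`): the theorem of Gupta and Murty on Artin's conjecture: one of thirteen
  explicit numbers built from four primes is a primitive root modulo infinitely many primes, so
  some integer is one, unconditionally (Artin's conjecture for a given integer is not proved).
* `FA.LinnikNonresidue.Summary.linnik`, `FA.LinnikNonresidue.Summary.linnik_loglog`
  (`SummaryLinnikNonresidue`): Linnik's theorem by the large sieve: boundedly many primes `p ≤ N`
  have all `m ≤ N ^ ε` as squares, and `O (log log N)` have least non-residue `> p ^ ε`;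
  `FA.LinnikNonresidue.Summary.least_nonresidue_almost_all`: relative density zero;
  `FA.LinnikNonresidue.Summary.smooth_positive_proportion`: smooth numbers (ineffective constants).
* `FA.Dickman.Summary.dickman`, `FA.Dickman.Summary.dickman_uniform`,
  `FA.Dickman.Summary.dickman_function` (`SummaryDickman`): Dickman's theorem: the `n ≤ x` with no
  prime factor above `x ^ (1/u)` number `∼ ρ(u) x`, uniformly for bounded `u`, with the properties
  of Dickman's `ρ` (`FA.Dickman.Summary.smooth_half`: density `1 - log 2` for `u = 2`);
* `FA.FurstenbergSarkozy.Summary.furstenberg_sarkozy` (`SummaryFurstenbergSarkozy`): the theorem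
  of Furstenberg and Sárközy: a subset of `[1, N]` of positive proportion has a difference
  `P m ≠ 0`, for an integer polynomial with `P 0 = 0` and `N` large;
  `FA.FurstenbergSarkozy.Summary.sarkozy_square`, `FA.FurstenbergSarkozy.Summary.sarkozy_power`:
  squares and `k`-th powers (no rate, no intersective polynomials).
* `FA.LargeGaps.Summary.westzynthius`, `FA.LargeGaps.Summary.westzynthius_maximal`
  (`SummaryLargeGaps`): Westzynthius's theorem: gaps between primes exceed every multiple of
  `log p`; `FA.LargeGaps.Summary.residue_covering`, `FA.LargeGaps.Summary.jacobsthal_primorial`:
  one class for each prime `p ≤ x` covers `1, …, h x` (no Erdős–Rankin rate).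
* `FA.PartitionGrowth.Summary.hardy_ramanujan_log`, `FA.PartitionGrowth.Summary.partition_le`
  (`SummaryPartitionGrowth`): Hardy and Ramanujan by Erdős's induction: `log p(n) ~ π √(2n/3)`
  and `p(n) ≤ exp (π √(2n/3))` for every `n` (no full asymptotic formula).
* `FA.LandauSquares.Summary.landau`, `FA.LandauSquares.Summary.landau_logarithmic`
  (`SummaryLandauSquares`): Landau's theorem: the sums of two squares up to `N` number
  `C N / √(log N)` asymptotically, with Ramanujan's product for `C`;
  `FA.LandauSquares.Summary.mertens_mod_four`: Mertens in the classes modulo 4 (no error term).
* `FA.Romanoff.Summary.romanoff`, `FA.Romanoff.Summary.romanoff_series` (`SummaryRomanoff`):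
  the integers `p + g ^ k` have positive lower density, for `∑ 1 / (d ord_d g)` over all `d` prime
  to `g` converges; `FA.Romanoff.Summary.erdos_covering_density`,
  `FA.Romanoff.Summary.romanoff_odd`: for `g = 2` so
  do the odd numbers of either kind (`127` is the least exception to de Polignac's conjecture);
  `FA.Romanoff.Summary.sierpinski`, `FA.Romanoff.Summary.riesel`: infinitely many odd `k` with
  all `k 2 ^ n + 1`, respectively all `k 2 ^ n - 1`, composite.
* `FA.Khintchine.Summary.khintchine_divergence`, `FA.Khintchine.Summary.khintchine_convergence`,
  `FA.Khintchine.Summary.duffin_schaeffer` (`SummaryKhintchine`): almost every real has infinitely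
  many reduced `p / q` with `|x - p / q| < ψ q / q` if `∑ ψ q` diverges (antitone `ψ`, or the
  hypothesis of Duffin and Schaeffer), finitely many if it converges; badly approximable and
  very well approximable numbers are null.
* `FA.SumProduct.Summary.solymosi`, `FA.SumProduct.Summary.erdos_szemeredi`,
  `FA.SumProduct.Summary.garaev` (`SummarySumProduct`): `#A⁴ ≤ 4 (log₂ #A + 1) #(A+A)² #(AA)` for
  positive reals, so exponent `4/3 - ε` in the sum-product theorem over `ℤ`; over a field with `q`
  elements `#(A+A) #(AA) ≥ min (q #A) (#A⁴/q) / 8`; `FA.SumProduct.Summary.multiplication_table`:
  the table of size `n` has `o (n²)` distinct entries (Erdős).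
* `FA.AdditiveDistribution.Summary.davenport`, `FA.AdditiveDistribution.Summary.schoenberg`,
  `FA.AdditiveDistribution.Summary.erdos_distribution` (`SummaryAbundant`): `σ n / n`, `n / φ n`
  and the additive `f ≥ 0` of Erdős's theorem have continuous distribution functions; so
  `FA.AdditiveDistribution.Summary.abundant_density`: the abundant numbers have a density in
  `(0, 1)` and the perfect numbers density zero.
* `FA.Reduction.Summary.hermite_inequality`, `FA.Reduction.Summary.finite_classes`,
  `FA.Reduction.Summary.unimodular_sum_of_squares` (`SummaryHermiteReduction`): Hermite's bound
  `(4/3)^((n-1)/2) det^(1/n)`, finitely many classes of integral forms of each nonzero determinant,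
  definite or not, and positive unimodular forms in at most five variables are sums of squares.
* `FA.SquareIdentities.Summary.hurwitz_squares`, `FA.SquareIdentities.Summary.radon`
  (`SummaryHurwitzSquares`): over a field of characteristic not two a bilinear identity of `n`
  squares exists exactly for `n = 1, 2, 4, 8` (Hurwitz); `[r, n, n]` needs `2 ^ (r - 2) ≤ n²`.
* `FA.DavenportMoebius.Summary.davenport`, `…davenport_liouville`
  (`SummaryDavenportMoebius`): Davenport: `∑_{n ≤ N} μ n e (n α) = O (N / (log N) ^ A)` uniformly
  in `α`, the same for `λ`; `…siegel_walfisz_moebius`: Siegel–Walfisz for `μ` in all classes;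
  `…moebius_periodic_sum_le`, `…moebius_series_converges`: `∑ μ n e (n α) / n` converges.
* `FA.Halasz.Summary.halasz`, `FA.Halasz.Summary.wirsing` (`SummaryHalasz`): Halász's mean
  value theorem for multiplicative functions bounded by 1 with infinite distance from every
  `n ^ (i t)`, and Wirsing's theorem for real ones; the Liouville and Möbius functions have mean
  value zero.
* `FA.Kneser.Summary.kneser`, `FA.Kneser.Summary.mann` (`SummaryKneser`): Kneser's addition
  theorem `|A + B| ≥ |A + H| + |B + H| - |H|` in abelian groups, with Chowla's theorem
  (`FA.Kneser.Summary.chowla`), and Mann's theorem on Schnirelmann density.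
* `FA.Kneser.FreimanSummary.freiman`, `FA.Kneser.FreimanSummary.vosper` (`SummaryFreiman`):
  Freiman's `3k - 4` theorem on sets of integers with small doubling, and Vosper's theorem on the
  critical pairs of the Cauchy-Davenport inequality modulo a prime.
* `FA.Sidon.Summary.sidon_asymptotic` (`SummarySidon`): the largest Sidon subset of `[1, N]`
  has `∼ √N` elements, by the Erdős-Turán bound (`FA.Sidon.Summary.erdos_turan`) and the
  construction of Bose and Chowla (`FA.Sidon.Summary.bose_chowla`).
* `FA.InfiniteSidon.Summary.ruzsa`, `…ruzsa_exponent` (`SummaryInfiniteSidon`): Ruzsa's theorem: an
  infinite Sidon set with `A (N) ≥ N ^ (√2 - 1) exp (-6 √(log N))`; `…erdos`, `…erdos_not_sqrt`: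
  Erdős's bound `A (n) ≤ 16 √(n / log n)` for arbitrarily large `n` in every Sidon set, so that none
  has `A (n) ≫ √n`.
* `FA.Delange.Summary.delange`, `FA.Delange.Summary.exists_mean_value` (`SummaryDelange`):
  Delange's mean value theorem, and Wirsing's theorem that every real multiplicative function
  with values in `[-1, 1]` has a mean value (Erdős's conjecture).
* `FA.ErdosWintner.Summary.erdos_wintner` (`SummaryErdosWintner`): the Erdős-Wintner theorem,
  an additive function has a limiting distribution iff its three series over primes converge.
* `FA.Katai.Summary.katai`, `FA.Katai.Summary.daboussi`, `FA.Katai.Summary.daboussi_linear`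
  (`SummaryKatai`): Kátai's orthogonality criterion and Daboussi's theorem: multiplicative
  functions bounded by 1 are orthogonal to polynomial phases with an irrational coefficient,
  uniformly in the function (`FA.Katai.Summary.moebius_orthogonal`,
  `FA.Katai.Summary.liouville_orthogonal`); `FA.Katai.Summary.erdos_monotone`: Erdős's theorem
  that a monotone additive function is a multiple of the logarithm.
* `FA.FreimanTheorem.Summary.freiman`, `FA.FreimanTheorem.Summary.bogolyubov`
  (`SummaryFreimanTheorem`): Freiman's theorem (Ruzsa's proof): a set of integers with
  `|A + A| ≤ K |A|` lies in a progression of dimension `≤ d(K)` and size `≤ C(K) |A|`;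
  Bogolyubov's lemma on Bohr sets in `2 B - 2 B`.
* `FA.Karamata.Summary.hardy_littlewood_karamata`, `FA.Karamata.Summary.littlewood`,
  `FA.Karamata.Summary.cesaro_of_abel` (`SummaryKaramata`): the Tauberian theorems of Hardy and
  Littlewood by Karamata's method: `∑ a n x ^ n ∼ C / (1 - x) ^ ρ`, `a n ≥ 0`, determines the
  partial sums, and Littlewood's one-sided converse of Abel's theorem.
* `FA.Discrepancy.Summary.erdos_turan`, `FA.Discrepancy.Summary.koksma`,
  `FA.Discrepancy.Summary.discrepancy_badlyApproximable`,
  `FA.Discrepancy.Summary.discrepancy_goldenRatio` (`SummaryDiscrepancy`): the Erdős-Turán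
  inequality (constant `100`), Koksma's inequality, and discrepancy `O ((log N)² / N)` of `n α`
  for badly approximable `α` (not the optimal `log N / N`).
* `FA.BalogSzemerediGowers.Summary.balog_szemeredi_gowers`,
  `FA.BalogSzemerediGowers.Summary.freiman_energy` (`SummaryBalogSzemerediGowers`): additive
  energy `≥ |A|³ / K` gives a subset of size `≥ |A| / (8 K)` with small difference set and
  sumset, hence in `ℤ` inside a progression of bounded dimension and size `O (|A|)`.
* `FA.RothProgressions.Summary.roth_loglog`, `FA.RothProgressions.Summary.rothNumberNat_isBigO`
  (`SummaryRothProgressions`): Roth's theorem with his bound: a set in `[0, N)` without a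
  three-term progression has at most `194 N / log log N` elements.
* `FA.Summary.density_hales_jewett`, `FA.Summary.density_hales_jewett_subspace`,
  `FA.Summary.graham_rothschild_lines` (`SummaryDensityHalesJewett`): the density Hales–Jewett
  theorem of Furstenberg and Katznelson (proof of Dodos, Kanellopoulos and Tyros): dense subsets
  of high-dimensional cubes over any finite alphabet contain lines and subspaces of any dimension;
  the Graham–Rothschild theorem for lines.
* `FA.Summary.szemeredi`, `FA.Summary.szemeredi_upperDensity`,
  `FA.Summary.multidimensional_szemeredi`, `FA.Summary.szemeredi_corners`,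
  `FA.Summary.affine_line_of_dense` (`SummarySzemeredi`): Szemerédi's theorem on arithmetic
  progressions of every length, the multidimensional theorem of Furstenberg and Katznelson,
  corners in every dimension, affine lines in dense subsets of `R ^ n`.
* `FA.Summary.furstenberg_multiple_recurrence`, `..._exists`,
  `FA.Summary.furstenberg_katznelson_recurrence`, `..._exists`, `FA.Summary.varnavides`,
  `FA.Summary.furstenberg_katznelson_uniform`, `FA.Summary.szemeredi_banachDensity`,
  `FA.Summary.gallai_witt_density` (`SummaryMultipleRecurrence`): multiple recurrence for
  commuting measure-preserving maps in averaged and uniform form, supersaturation of progressions,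
  upper Banach density, one colour with copies of every finite subset of `ℤ ^ r`.
* `FA.Summary.green_tao`, `FA.Summary.green_tao_infinite`, `FA.Summary.green_tao_relative`,
  `FA.Summary.relative_szemeredi`, `FA.Summary.dense_model_theorem`,
  `FA.Summary.relative_counting_lemma` (`SummaryGreenTao`): the Green–Tao theorem that the primes,
  and every set of primes of positive relative upper density, contain arithmetic progressions of
  every length; the relative Szemerédi theorem of Green–Tao and Conlon–Fox–Zhao under the linear
  forms condition, the dense model theorem and the relative counting lemma.
* `FA.Summary.green_tao_count`, `FA.Summary.green_tao_almost_twin`,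
  `FA.Summary.green_tao_almost_twin_count`, `FA.Summary.green_tao_rough_tuples`
  (`SummaryGreenTaoAlmostTwin`): `≫ x ^ 2 / (log x) ^ k` progressions of `k` primes up to `x`;
  for even `h > 0`, progressions of any length of primes `p` with `p + h` a product of at most
  two primes (Zhou: the Chen primes); the general theorem for shifts without small prime factors.
* `FA.Summary.pintz_prime_tuple_progressions`, `FA.Summary.pintz_polignac_progressions`,
  `FA.Summary.pintz_small_gap_progressions`, `FA.Summary.pintz_progressions_count`,
  `FA.Summary.maynard_tao_count` (`SummaryPintz`): Pintz's theorem: for every `m` a fixed pattern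
  of `m + 1` primes occurs along progressions of every length, so some `h > 0` has progressions
  of every length of primes `p` with `p + h` prime; Maynard's sieve with a count
  `≫ x / (log x) ^ K` of almost prime tuples with more than `m` primes.
* `FA.Summary.maynard_admissible`, `FA.Summary.maynard_admissible_count`,
  `FA.Summary.maynard_admissible_progressions`, `FA.Summary.pintz_consecutive_progressions`,
  `FA.Summary.polignac_numbers_syndetic`, `FA.Summary.shiu_consecutive`,
  `FA.Summary.prime_gaps_increasing`, `FA.Summary.prime_gaps_decreasing`
  (`SummaryMaynardAdmissible`): Maynard's theorem for every admissible `k`-tuple, with no other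
  primes in between; progressions of every length of primes whose next prime is `h` away; bounded
  gaps between the numbers that are infinitely often prime gaps (Pintz); Shiu's strings of
  consecutive primes in one class; monotone runs of prime gaps (Erdős and Turán's question).
* `FA.MeanValue.Summary.hilbert_inequality`,
  `FA.MeanValue.Summary.hilbert_inequality_weighted`,
  `FA.MeanValue.Summary.hilbert_inequality_periodic`,
  `FA.MeanValue.Summary.mean_value_exponential`, `FA.MeanValue.Summary.mean_value_theorem`,
  `FA.MeanValue.Summary.mean_value_zeta_partial_sum`, `FA.MeanValue.Summary.large_sieve`,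
  `FA.MeanValue.Summary.large_sieve_farey` (`SummaryMeanValue`): Hilbert's inequality after
  Montgomery and Vaughan (constant `π / δ`; `2 π` with individual gaps; periodic kernel), their
  mean value theorem `∫ |∑ a n n^(-it)|² = T ∑ |a n|² + O (∑ n |a n|²)`, and the large sieve
  with constants `N + 1 / δ` and `N + Q²`;
* `FA.SecondMoment.Summary.zeta_second_moment`,
  `FA.SecondMoment.Summary.zeta_second_moment_isEquivalent`,
  `FA.SecondMoment.Summary.zeta_half_unbounded`,
  `FA.SecondMoment.Summary.zeta_half_approximation` (`SummarySecondMoment`): the second moment
  `∫_0^T |ζ(1/2 + it)|² dt = T log T + O (T √(log T))` of Hardy and Littlewood, unboundedness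
  of `ζ` on the critical line, and its approximation by partial sums;
* `FA.BohrLandau.Summary.zeta_meanSquare`, `FA.BohrLandau.Summary.zeta_meanSquare_uniform`,
  `FA.BohrLandau.Summary.bohr_landau`, `FA.BohrLandau.Summary.almost_all_zeros_near_line`
  (`SummaryBohrLandau`): `∫ |ζ(σ + it)|² ∼ ζ(2σ) T` for `σ > 1/2`, the Bohr–Landau bound
  `N(σ, T) = O (T)`, hence almost all zeros of `ζ` lie within `ε` of the critical line;
* `FA.BarbanDavenportHalberstam.Summary.barban_davenport_halberstam`,
  `FA.BarbanDavenportHalberstam.Summary.large_sieve_characters_sharp`
  (`SummaryBarbanDavenportHalberstam`): the Barban–Davenport–Halberstam theorem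
  `∑_{q ≤ Q} ∑_a (ψ(x; q, a) - x/φ q)² = O (x Q log x)` for `x/(log x)^A ≤ Q ≤ x` (ineffective
  constant), and the large sieve for characters with constant `N + Q²`;
* `FA.HardyLittlewoodZeros.Summary.hardy_littlewood_zeros` (`SummaryHardyLittlewoodZeros`):
  the theorem of Hardy and Littlewood, at least `c T` zeros of `ζ (1/2 + it)` with `0 < t ≤ T`;
* `FA.PartitionAsymptotic.Summary.hardy_ramanujan_asymptotic`,
  `FA.PartitionAsymptotic.Summary.partition_ratio` (`SummaryPartitionAsymptotic`): the asymptotic
  `p(n) ∼ exp (π √(2n/3)) / (4 √3 n)` of Hardy and Ramanujan, and `p(n + 1) ∼ p(n)`;
* `FA.RademacherPartition.Summary.rademacher_formula`,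
  `FA.RademacherPartition.Summary.rademacher_remainder`,
  `FA.RademacherPartition.Summary.eta_transformation` (`SummaryRademacherPartition`): Rademacher's
  exact series for `p(n)`, the error `2 exp (π √(2n/3) / N) / √N` after `N` terms, and the
  transformation of `η` at every cusp with Dedekind sums;
* `FA.LandauAlmostPrimes.Summary.landau_almost_primes`,
  `FA.LandauAlmostPrimes.Summary.landau_squarefree`, `FA.LandauAlmostPrimes.Summary.semiprimes`
  (`SummaryLandauAlmostPrimes`): Landau: the `n ≤ N` with `Ω n = k + 1` (also the squarefree ones)
  number `∼ N (log log N)^k / (k! log N)`;
* `FA.BohrCourant.Summary.bohr_courant`, `FA.BohrCourant.Summary.zeta_unbounded`,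
  `FA.BohrCourant.Summary.zeta_near_zero` (`SummaryBohrCourant`): Bohr and Courant: the values
  `ζ (σ + it)`, `t ≥ T₀`, are dense in `ℂ` for `1/2 < σ ≤ 1`;
* `FA.BohrStripSummary.bohr_uniform_convergence`, `FA.BohrStripSummary.bohnenblust_hille_sharp`
  (`SummaryBohrStrip`): Bohr: a Dirichlet series bounded on a half plane converges uniformly inside
  and absolutely `1/2` further right; Bohnenblust and Hille: the width `1/2` is attained;
* `FA.Voronin.Summary.voronin_universality`, `FA.Voronin.Summary.zeta_jets_dense`
  (`SummaryVoronin`): Voronin's universality of `ζ` on discs about `3/4`, dense jets;
* `FA.Voronin.Summary.euler_phases_dense`, `FA.Voronin.Summary.prime_log_uniqueness`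
  (`SummaryVoronin`): Voronin's rearrangement theorem for Euler products with free phases;
* `FA.Voronin.Summary.zeta_functional_independence`, `FA.Voronin.Summary.zeta_no_algebraic_ode`
  (`SummaryVoroninIndependence`): `ζ` satisfies no algebraic differential equation;
* `FA.Voronin.Summary.bagchi`, `FA.Voronin.Summary.voronin_universality_density`,
  `FA.Voronin.Summary.zero_shifts_density_zero` (`SummaryBagchi`): universal shifts have positive
  lower density; RH iff `ζ` recurs to itself with positive density on discs in the strip;
* `FA.Voronin.Summary.zeta_values_count`, `FA.Voronin.Summary.zetaDeriv_values_count`,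
  `FA.Voronin.Summary.zetaDeriv_zeros_count` (`SummaryVoroninValues`): `≫ T` distinct solutions
  of `ζ = w ≠ 0` and of `ζ^(k) = w` in every strip in `1/2 < re s < 1`;
* `FA.Joint.Summary.L_universal_density`, `FA.Joint.Summary.L_universal`,
  `FA.Joint.Summary.L_values_dense` (`SummaryJointUniversality`): all Dirichlet `L`-functions
  mod `q` are jointly universal in `1/2 < re s < 1`, with positive lower density;
* `FA.Joint.Summary.L_jets_dense`, `FA.Joint.Summary.L_functional_independence`,
  `FA.Joint.Summary.L_no_algebraic_ode` (`SummaryJointIndependence`): `s` and the derivatives of
  all `L`-functions mod `q` are algebraically, and without `s` functionally, independent;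
* `FA.Joint.Summary.combination_zeros_count`, `FA.Joint.Summary.hurwitzZeta_zeros_count`
  (`SummaryHurwitzZeros`): `≫ T` zeros in every strip in `1/2 < re s < 1` of combinations of
  `L`-functions mod `q` and of the Hurwitz zeta function at rationals other than `1/2`;
* `FA.CasselsHurwitz.Summary.hurwitzZeta_zeros_right`,
  `FA.CasselsHurwitz.Summary.hurwitzZeta_zeros_right_iff`,
  `FA.CasselsHurwitz.Summary.combination_zeros_right`,
  `FA.CasselsHurwitz.Summary.cassels_large_prime`,
  `FA.CasselsHurwitz.Summary.log_shift_free`, `FA.CasselsHurwitz.Summary.log_shift_free_dense`
  (`SummaryCasselsHurwitz`): Davenport-Heilbronn and Cassels: `≫ T` zeros in `1 < re s < 1 + δ`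
  of `ζ (s, a)` for every real `a` in `(0, 1)` other than `1/2` and of combinations of
  `L`-functions mod `q`, none for `a` = `1/2`, `1`; the lemma of Cassels on large prime factors;
* `FA.Joint.Summary.combination_universal_density`,
  `FA.Joint.Summary.hurwitzZeta_universal_density` (`SummaryHurwitzUniversality`): strong
  universality, targets with zeros allowed;
* `FA.Joint.Summary.davenport_heilbronn`, `FA.Joint.Summary.davenport_heilbronn_five`
  (`SummaryDavenportHeilbronn`): a Dirichlet series with a functional equation of Riemann's type
  and `≫ T` zeros off the line;
* `FA.BohrJessen.Summary.bohr_jessen`, `FA.BohrJessen.Summary.bohr_jessen_support`,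
  `FA.BohrJessen.Summary.bohr_jessen_unique` (`SummaryBohrJessen`): the limit law of
  `ζ (σ + it)` for `σ > 1/2`, of full support for `1/2 < σ < 1`;
* `FA.Resonance.Summary.resonance_inequality` (`SummaryResonance`): the resonance method for
  large values of `|ζ (1/2 + it)|`;
* `FA.Resonance.Summary.soundararajan_large_values` (`SummaryResonance`): some `T ≤ t ≤ 2T` has
  `|ζ (1/2 + it)| ≥ exp (c √(log T / log log T))`, every `c < 1`, `T` large (Soundararajan);
* `FA.Resonance.CharSummary.resonance_inequality_mod`,
  `FA.Resonance.CharSummary.large_central_values` (`SummaryCharResonance`): for every
  `c < 1/√2` and every large `q` some `χ ≠ 1` mod `q` has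
  `|L (1/2, χ)| ≥ exp (c √(log q / log log q))`;
* `FA.MertensThird.Summary.mertens_third`, `FA.MertensThird.Summary.landau_totient`,
  `FA.MertensThird.Summary.gronwall` (`SummaryMertensThird`): `∏_{p ≤ x} (1 - 1/p) ∼ e^(-γ) / log x`
  (Mertens), `liminf φ n log log n / n = e^(-γ)` (Landau) and
  `limsup σ n / (n log log n) = e^γ` (Gronwall);
* `FA.Resonance.OneLineSummary.littlewood_one_line_local`,
  `FA.Resonance.OneLineSummary.littlewood_one_line` (`SummaryOneLine`): for every `c < e^γ` and
  large `T` some `T ≤ t ≤ 2T` has `|ζ (1 + it)| ≥ c log log T` (Littlewood's Omega theorem);
* `FA.MaximalOrder.Summary.wigert`, `FA.MaximalOrder.Summary.omega_maximal_order`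
  (`SummaryMaximalOrder`): `limsup log (d n) log log n / log n = log 2` (Wigert) and the same with
  `ω n` in place of `log (d n)` is `1`;
* `FA.SelbergCLT.Summary.prime_sum_central_limit` (`SummarySelbergCLTPrimes`): if `B → ∞` with
  `log B = o (log T)`, `∑_{p ≤ B} cos (t log p) / √p` is Gaussian over `[T, 2T]` with variance
  `(log log B) / 2`;
* `FA.SelbergCLT.Summary.log_zeta_shift_mean` (`SummarySelbergCLTShift`):
  `∫_T^2T |log |ζ (1/2 + δ + it)| - log |ζ (1/2 + it)|| ≤ C δ T log T`;
* `FA.SelbergCLT.Summary.mollified_mean_square` (`SummarySelbergCLTMollifier`): with
  `σ = 1/2 + (log log log T)³ / log T` and the mollifier of Radziwiłł and Soundararajan,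
  `∫_T^2T |1 - ζ M|² = o (T)`;
* `FA.SelbergCLT.Summary.selberg_central_limit` (`SummarySelbergCLT`): Selberg's theorem that
  `log |ζ (1/2 + it)| / √(log log T / 2)`, `t ∈ [T, 2T]`, tends in distribution to the standard
  Gaussian;
* `FA.ShortLiouville.Summary.short_sums_plancherel`, `FA.ShortLiouville.Summary.prime_moment`,
  `FA.ShortLiouville.Summary.halasz_montgomery` (`SummaryShortLiouvilleTools`): sums of `λ` over
  short intervals through the Dirichlet polynomial, moments of polynomials over primes, and the
  large values inequality of Halász and Montgomery;
* `FA.ShortLiouville.Summary.twisted_prime_sum` (`SummaryShortLiouvillePrimeSums`): tent sums of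
  `log p p ^ (-it)` are `≤ x / (log X) ^ 20` for `exp ((log X) ^ (3/4)) ≤ x ≤ X`,
  `(log X) ^ 40 ≤ |t| ≤ X` (Vinogradov and Korobov);
* `FA.ShortLiouville.Summary.matomaki_radziwill`, `...liouville_almost_all_short_intervals`,
  `...liouville_sign_changes`, `...liouville_chowla_two_point` (`SummaryMatomakiRadziwill`):
  the theorem of Matomäki and Radziwiłł for `λ` in short intervals; `λ n ≠ λ (n + 1)` for a
  positive proportion of `n`; `|∑_{n ≤ N} λ n λ (n + 1)| ≤ (1 - δ) N`;
* `FA.ShortMoebius.Summary.moebius_short_intervals`, `...squarefree_short_intervals`,
  `...moebius_sign_short_intervals`, `...moebius_both_signs`, `...liouville_averaged_chowla`,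
  `...moebius_averaged_chowla` (`SummaryMoebiusShortIntervals`): `μ`, the squarefree numbers and
  each sign of `μ` in almost all short intervals; Chowla's conjecture averaged over the shifts;
* `FA.CoveringSystems.Summary.hough_minimum_modulus`, `...hough_multiplicity`,
  `...hough_uncovered_progression` (`SummaryHoughTheorem`): Hough's theorem that the least modulus
  of a covering system with distinct (or boundedly repeated) moduli is bounded (distortion method);
* `FA.SetsOfMultiples.Summary.davenport_erdos`, `...davenport_erdos_chain`,
  `...erdos_interval_multiples`, `...besicovitch`, `...erdos_primitive`, `...behrend_primitive`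
  (`SummarySetsOfMultiples`): logarithmic density of sets of multiples, divisibility chains,
  divisors in `(T, 2 T]`, a set of multiples without density, primitive sets;
* `FA.RankinGaps.Summary.rankin`, `...rankin_frequently`, `...erdos`, `...rankin_jacobsthal`
  (`SummaryRankinGaps`): prime gaps `≫ log p log₂ p log₄ p / (log₃ p)²` (Erdős, Rankin) and the
  bound for Jacobsthal's function of primorials;
* `FA.LittlewoodNorm.Summary.mcgehee_pigno_smith`, `...littlewood_conjecture`,
  `...hardy_inequality` (`SummaryLittlewoodNorm`): `‖∑ a k e (n k t)‖₁ ≫ ∑ |a k| / (k + 1)` for
  increasing integers
  `n k` (McGehee, Pigno, Smith), hence Littlewood's `≫ log N` for exponential sums;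
* `FA.Korobov.CharacterSummary.lfunction_bound`, `...lfunction_zero_free`
  (`SummaryVinogradovKorobovCharacters`): the bound and the zero-free region of Vinogradov and
  Korobov for the Dirichlet L-functions of a fixed modulus;
* `FA.ShortLiouville.ProgressionSummary.liouville_progressions_short_intervals`,
  `...liouville_char_short_intervals` (`SummaryLiouvilleProgressions`): the theorem of Matomäki
  and Radziwiłł for the Liouville function in progressions and twisted by characters;
* `FA.ShortExpSums.Summary.liouville_short_exp_sums`, `...liouville_short_exp_sums_abs`
  (`SummaryShortExpSums`): the theorem of Matomäki, Radziwiłł and Tao on short exponential sums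
  of the Liouville function, uniformly in the frequency;
* `FA.LogChowla.Summary.tao_log_chowla`, `...sign_pattern_log_density`
  (`SummaryLogChowla`): Tao's theorem on the logarithmically averaged two point Chowla
  conjecture, by the entropy decrement, and the four sign patterns of logarithmic density 1/4;
* `FA.ErdosDisc.Summary.pretentious_partialSums_unbounded` (`SummaryErdosDiscrepancy`): a
  completely multiplicative function of modulus one that pretends to be `χ n n ^ (it)` has
  unbounded partial sums (the endgame of Tao's solution of the discrepancy problem);
* `FA.ErdosDisc.Summary.halasz_uniform`, `short_intervals_uniform`,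
  `short_exp_sums_nonpretentious` (`SummaryNonPretentiousShortSums`): the theorems of Halász, of
  Matomäki and Radziwiłł and of Matomäki, Radziwiłł and Tao uniformly in the completely
  multiplicative function: non-pretentious functions cancel in almost all short intervals;
* `FA.ErdosDisc.Summary.tao_log_elliott` (`SummaryLogElliott`): Tao's theorem on the
  logarithmically averaged two point Elliott conjecture, uniformly in the completely
  multiplicative function of modulus one;
* `FA.ErdosDisc.Summary.erdos_discrepancy`, `erdos_discrepancy_sphere`,
  `unimodular_partialSums_unbounded` (`SummaryErdosTheorem`): Tao's solution of the discrepancy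
  problem of Erdős: every sequence of signs, or of unit vectors of a complex inner product
  space, has unbounded sums `f d + f (2 d) + ⋯ + f (n d)`; a completely multiplicative function
  of modulus one has unbounded partial sums;
* `FA.Klurman.Summary.klurman`, `klurman_two_pow`, `completely_multiplicative_unbounded`
  (`SummaryKlurman`): Klurman's theorem (the conjecture of Erdős, Coons and Tao): a multiplicative
  sequence of signs has bounded partial sums if and only if it is periodic with sum zero over a
  period, equivalently periodic and `-1` at every power of `2`;
* `FA.Klurman.Summary.katai_conjecture`, `katai_conjecture_log` (`SummaryKataiConjecture`):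
  Klurman's proof of Kátai's conjecture: a completely multiplicative `f` of modulus one with
  `∑_{n ≤ N} ‖f (n + 1) - f n‖ = o (N)`, or only `o (log N)` with the weights `1 / n`, is
  `n ^ (it)`;
* `FA.LogChowla.Summary.sign_pattern_three_lower_density`, `sign_pattern_three_log_density`,
  `sign_pattern_three_infinite` (`SummarySignPatternsThree`): all eight sign patterns of
  `(λ n, λ (n + 1), λ (n + 2))` occur with positive lower density (Matomäki, Radziwiłł and Tao),
  with logarithmic lower density at least `1 / 16`;
* `FA.LogChowla.Summary.tao_log_chowla_forms`, `tao_log_chowla_forms_log_mean`,
  `tao_log_chowla_progression`, `tao_log_chowla_span` (`SummaryLogChowlaForms`): Tao's two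
  point theorem in full: `∑_{x / ω < n ≤ x} λ (a n + b) λ (c n + d) / n = o (log ω)` for
  `a d ≠ b c`;
* `FA.LogChowla.Summary.tao_moebius_forms`, `tao_moebius_forms_log_mean`,
  `moebius_pattern_log_density`, `moebius_pattern_values`, `squarefree_pair_product`,
  `moebius_pattern_lower_density`, `moebius_pattern_infinite` (`SummaryMoebiusTwoPoint`):
  `∑_{x / ω < n ≤ x} μ (a n + b) μ (c n + d) / n = o (log ω)` for `a d ≠ b c`; each of the nine
  patterns of `(μ n, μ (n + h))` has an explicit positive logarithmic density and occurs with
  positive lower density;
* `thue_approximation`, `thue_lower_bound`, `thue_equation`, `thue_binomial`,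
  `cube_sub_two_cube_finite` (`SummaryThue`): Thue's theorem that rationals approximate a real
  algebraic number of degree `n` to no exponent beyond `n / 2 + 1`, and the finiteness of the
  solutions of Thue equations, such as `x³ - 2 y³ = k`.
* `mordell_equation_finite`, `cube_square_gap_finite`, `short_discriminant_finite`,
  `reduced_discriminant_finite`, `discriminant_finite` (`SummaryMordellEquation`): Mordell's
  theorem that `y² = x³ + k` has finitely many integer solutions for every `k ≠ 0`; finitely many
  integral Weierstrass equations, up to a change of variables, have a given discriminant.
* `thue_mahler`, `thue_mahler_irreducible`, `unit_equation_finite`, `sUnit_equation_finite`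
  (`SummaryThueMahler`): Mahler's theorem that a binary form of degree at least three without
  repeated factors has finitely many coprime values with all prime factors in a given finite set;
  the `S`-unit equation over `ℚ` has finitely many solutions.
* `shafarevich`, `shafarevich_j_finite`, `sIntegral_mordell_finite` (`SummaryShafarevich`):
  Shafarevich's theorem that up to isomorphism there are finitely many elliptic curves over `ℚ`
  with good reduction outside a finite set of primes; the `S`-integral points of `y² = x³ + k`,
  `k ≠ 0`, are finite in number.
* `siegel_integral_points`, `siegel_sIntegral_points`, `siegel_points` (`SummarySiegelPoints`):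
  Siegel's theorem that every Weierstrass equation over `ℤ` with `Δ ≠ 0` has finitely many integer
  points, and finitely many rational points with `x` integral outside a finite set of primes.
* `isogenyClass_finite`, `tateIsogenyClass_finite`, `isogenyClass_j_finite`,
  `multiples_large_prime`, `sq_add_large_prime` (`SummaryIsogenyClass`): beyond Faltings'
  finiteness of L-functions, every isogeny class over `ℚ` has finitely many curves up to
  isomorphism; the greatest prime factors of the denominators of `x (n P)` (Mahler) and of
  `n² + D` (Pólya) tend to infinity.
* `siegel_denominator_growth`, `primitiveDivisors`, `exists_rankOfApparition`,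
  `primeFactors_denominators` (`SummaryPrimitiveDivisors`): for a point `P` of infinite order
  `log den x (n P)` is `n²` times the canonical height up to `o (n²)` (Siegel, by Roth); all but
  finitely many terms of an elliptic divisibility sequence have a primitive prime divisor, so every
  large number is a rank of apparition (Silverman), and the `n`th has at least `τ (n) - C` primes.
* `siegel_strong`, `siegel_num_den`, `siegel_log_ratio`, `magnified_primePower_finite`
  (`SummarySiegelStrong`): Siegel's theorem in full strength for every curve over `ℚ`: with
  `H = max |num x| (den x)` all but finitely many points have `|x| ≤ H ^ ε`, `|x - α| ≥ H ^ (-ε)`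
  for real algebraic `α`, and so both parts above `H ^ (1 - ε)`, `log |num x| / log den x → 1`;
  the divisibility sequence of a multiple `k Q`, `k ≥ 2`, has finitely many prime power terms
  (Everest, Miller, Stephens).
* `ridout_theorem`, `mahler_near_int`, `waring_condition`, `adic_approximation`,
  `lacunary_transcendental`, `kempner_transcendental` (`SummaryRidout`): Ridout's extension of
  Roth's theorem to finitely many primes, Mahler's theorem on the distance of `(a / b) ^ n` to
  the integers, hence the condition of Waring's `g(k)` formula for large `k`, approximation by
  `b`-adic fractions, and the transcendence of Kempner's `∑ b ^ (-2 ^ k)`.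
* `sUnit_gaps`, `smooth_gaps`, `shifted_smooth_finite`, `pillai_gap`, `pillai_equation`,
  `pillai_polynomial`, `approximation_large_prime` (`SummaryUnitGaps`): numbers composed of given
  primes lie `n ^ (1 - ε)` apart, finitely many solutions of `a ^ x - b ^ y = P x`, and Mahler's
  theorem on the greatest prime factors of good approximations of algebraic numbers.
* `abc_equivalences`, `abc_hypothesis_sharp`, `abc_finite_support`, `szpiro_semistable_of_abc`,
  `fermatCatalan_of_abc`, `generalized_fermat_of_abc`, `nonWieferich_infinite_of_abc`
  (`SummaryAbc`): the abc, Hall and generalised Szpiro conjectures (the last with `rad Δ`, for models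
  with `c₄`, `c₆` coprime up to powers of `6`), stated as definitions and nowhere assumed, are
  equivalent (Frey, Oesterlé); their hypotheses are sharp. CONDITIONAL on
  abc, as an explicit hypothesis: Szpiro's inequality for semistable models, Fermat–Catalan,
  `A x ^ n + B y ^ n = C z ^ n` for large `n`, and Silverman's non-Wieferich primes.
* `belyi_theorem`, `abc_iff_langevin_bound`, `rad_form_lower_of_abc`, `rad_value_lower_of_abc`,
  `squarefull_values_finite_of_abc` (`SummaryBelyi`): Belyi's theorem on the projective line
  (unconditional); abc is equivalent to the Elkies–Langevin radical bound for separable binary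
  forms. CONDITIONAL on abc: `rad F (m, n) ≫ max |m| |n| ^ (d - 2 - ε)`, finitely many squarefull
  values of a separable polynomial of degree at least three.
* `squarefree_density_product`, `squarefree_values_upper`, `squarefree_values_quadratic`,
  `squarefree_sq_add_one_infinite`, `squarefree_values_density_of_abc`,
  `squarefree_values_infinite_of_abc` (`SummarySquarefreeValues`): squarefree values of a separable
  polynomial: the upper density `∏ (1 - ρ (p ^ 2) / p ^ 2)`, equality for degree at most two,
  infinitely many squarefree `n ^ 2 + 1`. CONDITIONAL on abc: equality in every degree (Granville).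
* `FA.HooleyCubic.Summary.hooley`, `…squarefree_values_cubic`, `…cube_add_two_squarefree`
  (`SummaryHooleyCubic`): Hooley's theorem of 1967, unconditional: squarefree values of a separable
  polynomial with every factor of degree at most three have the density `∏ (1 - ρ (p ^ 2) / p ^ 2)`;
  infinitely many squarefree `n ^ 3 + 2`.
* `abc_polylog_false`, `hall_szpiro_exponent_sharp`, `danilov_theorem`,
  `hall_original_exponent_optimal` (`SummaryAbcSharpness`): unconditional sharpness: infinitely many
  abc triples with `c > rad (a b c) (log c) ^ A` for each `A`, no exponent `≤ 6` in the Hall and
  Szpiro bounds, and Danilov's `0 < |x ^ 3 - y ^ 2| < 0.97 √x` infinitely often.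
* `FA.AbcStewartTijdeman.Summary.stewart_tijdeman`, `stewart_tijdeman_radical`,
  `no_subexponential_abc`, `szpiro_sharp`, `hall_sharp`: Stewart and Tijdeman: unconditionally
  infinitely many coprime `a + b = c` have `c > N exp (κ √(log N) / log log N)`, `N` the radical
  of `a b c`, and the Szpiro and Hall bounds fail by this factor at the exponent `6`.
* `FA.NConjecture.Summary.browkin_brzezinski`, `exponent_sharp`, `bounded_radical_finite`: the
  conjecture of Browkin and Brzeziński (abc for `n` terms): its exponent `2 n - 5` cannot be
  lowered, and the radical tends to infinity with the tuple (by the subspace theorem, ineffective).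
* `orbit_primitive_divisor`, `orbit_infinitely_many_primes`, `stoll_iterates`,
  `sylow_two_inverse_galois` (`SummaryArboreal`): arboreal Galois representations: primitive
  divisors in the critical orbit of `x ^ 2 + a` (Rice), Stoll's theorem that the iterates of
  `X ^ 2 + a` have the full iterated wreath product of `C₂` as Galois group, and so every Sylow
  `2`-subgroup of a symmetric group of degree `2 ^ m` is a Galois group over `ℚ`.
* `fekete`, `fekete_interval`, `fekete_disc`, `infinite_interval_four`: Fekete's theorem that a set
  of transfinite diameter below one holds only finitely many full sets of conjugate algebraic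
  integers: intervals shorter than `4` finitely many, `[m, m + 4]` infinitely many.
* `FA.FeketeSzego.Summary.fekete_szego`, `fekete_szego_converse`, `fekete_szego_iff`,
  `robinson`, `fekete_szego_circle` (`SummaryFeketeSzego`): Fekete–Szegő: every neighbourhood of a
  conjugation-stable compact set holds infinitely many conjugate sets of algebraic integers iff no
  monic polynomial is below one on it; Robinson: so does every interval longer than `4`.
* `dobrowolski_mahlerMeasure`, `dobrowolski_numberField`, `schinzel_totallyReal`,
  `schinzel_totallyReal_sharp`, `bogomolov_abelian` (`SummaryLehmer`): Lehmer's problem: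
  Dobrowolski's `log M ≥ c (log log d / log d) ^ 3`, Schinzel's `M ^ 2 ≥ φ ^ d` for totally real
  algebraic integers, and the height bound `log (5 / 2) / 10` of Amoroso and Dvornicich for the
  algebraic integers of abelian number fields.
* `FA.SchinzelZassenhaus.Summary.schinzel_zassenhaus`, `schinzel_zassenhaus_explicit`,
  `schinzel_zassenhaus_house`, `sector_vandermonde`, `sqrt_series_rational`
  (`SummarySchinzelZassenhaus`): the conjecture of Schinzel and Zassenhaus, after Dimitrov: some
  conjugate of an algebraic integer of degree `n`, neither zero nor a root of unity, has modulus
  at least `exp (1 / (524288 n))`. Dimitrov's constant `log 2 / 4` is not claimed.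
* `bilu_equidistribution`, `bilu_quantitative`, `bilu_real_conjugates`,
  `primitive_roots_equidistribute`, `zhang_bogomolov_line` (`SummaryBiluEquidistribution`): Bilu's
  theorem that algebraic numbers of small height have conjugates equidistributed on the unit
  circle, with an explicit bound, and Zhang's theorem on the points of small height of `x + y = 1`.
* `bilu_torus`, `zhang_toric_bogomolov`, `manin_mumford_torus`, `manin_mumford_curve`,
  `algebraic_height_mul_le` (`SummaryBiluTorus`): Bilu's theorem on tori, Zhang's theorem that the
  small points of a hypersurface in a torus satisfy finitely many monomial relations, and so the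
  theorem of Ihara, Serre and Tate on roots of unity on curves.
* `zhang_bogomolov_cosets`, `laurent_torsion_points`, `ihara_serre_tate`, `mann_roots_of_unity`
  (`SummaryLaurent`): Zhang's theorem and Laurent's in full: the small points and the torsion
  points of a subvariety of a torus over `ℚ̄` lie in finitely many torsion cosets inside it; hence
  `∑ aᵢ zᵢ = 1` has finitely many nondegenerate solutions in roots of unity.
* `FA.BMZ.Summary.bmz_bounded_height`, `bmz_finitely_many_degree`, `dependent_one_sub`
  (`SummaryBMZBoundedHeight`): Bombieri, Masser and Zannier 1999 for rational curves in `G_m ^ n`: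
  the points with multiplicatively dependent coordinates of a curve in no translate of a proper
  subtorus have bounded height, so finitely many of each degree; `α, 1 - α` gives infinitely many.
* `hasse_minkowski`, `hasse_minkowski_diagonal`, `meyer_indefinite`, `padic_five_variables`,
  `hasse_minkowski_represents`, `sum_three_rational_squares` (`SummaryHasseMinkowski`): the
  theorem of Hasse and Minkowski for every rational quadratic form, Meyer's theorem in five or
  more variables, local criteria for representations and for sums of three rational squares.
* `hilbert_irreducibility`, `hilbert_irreducibility_infinite`, `hilbert_galois_specialisation`,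
  `galois_group_ratFunc_realised_over_rat`, `rational_roots_of_specialisations`,
  `square_of_square_values` (`SummaryHilbertIrreducibility`): Hilbert's irreducibility theorem
  over `ℚ` with exceptional integers of density zero, specialisation of Galois groups and
  realisation over `ℚ` of the Galois groups over `ℚ(T)`.
* `symmetric_group_isGalois_all`, `alternating_group_isGalois_all`, `trinomial_galois_symmetric`,
  `finite_group_galois_over_numberField` (`SummarySymmetricGalois`): Hilbert's realisation of
  every symmetric and alternating group over `ℚ`, and of every finite group over some number
  field.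
* `vanDerWaerden_symmetric_galois`, `vanDerWaerden_almost_all_irreducible`
  (`SummaryVanDerWaerden`): van der Waerden's theorem that almost all monic integral
  polynomials of degree `n` are irreducible with Galois group `Sₙ`.
* `exists_reducible_mod_every_prime_iff`, `irreducible_mod_one_iff_infinitely_many`,
  `irreducible_mod_infinitely_many_iff_cycle`, `irreducible_mod_density`,
  `almost_all_irreducible_mod_density` (`SummaryReducibleModP`): irreducible polynomials that
  are reducible modulo every prime exist exactly in composite degrees; the primes of irreducible
  reduction have the density of the `n`-cycles, `1/n` for almost all polynomials.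
* `root_count_density`, `kronecker_mean_root_count`, `no_root_density_ge`,
  `almost_all_no_root_density`, `roots_mod_almost_all_iff`, `intersective_polynomial_example`
  (`SummaryRootsModP`): Frobenius' density of the primes with `k` roots, Kronecker's mean number
  of roots, no root modulo a density at least `1/n` of primes (`Dₙ/n!` for almost all
  polynomials), roots modulo every integer without a rational root.
* `selmer_polynomial_galois_symmetric`, `selmer_polynomial_irreducible_mod_density`,
  `selmer_polynomial_no_root_density`, `selmer_polynomial_not_solvable`,
  `finite_group_galois_selmer_polynomial` (`SummarySelmerPolynomial`): Osada's theorem that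
  `X ^ n - X - 1` has Galois group `Sₙ` for every `n ≥ 2`, with the two densities `1/n` and
  `Dₙ/n!`.
* `split_embedding_problem`, `semidirect_inverse_galois`, `abelian_by_cyclic_inverse_galois`,
  `squarefree_order_inverse_galois`, `prime_cube_order_inverse_galois`,
  `wreath_symmetric_inverse_galois` (`SummarySemidirectGalois`): Scholz's theorem that split
  embedding problems with abelian kernel are properly soluble over `ℚ`, and the inverse Galois
  problem for these groups.
* `semiabelian_inverse_galois`, `prime_fourth_order_inverse_galois`,
  `prime_sq_mul_order_inverse_galois`, `inverse_galois_order_lt_thirtyTwo`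
  (`SummarySmallGroupsGalois`): semiabelian groups, groups of order `p ^ 4` and `p ^ 2 q`, and all
  groups of order less than `32` other than `24` are Galois groups over `ℚ`.
* `scholz_reichardt`, `nilpotent_odd_inverse_galois`,
  `abelian_semidirect_nilpotent_inverse_galois`, `abelian_nilpotent_supplement_inverse_galois`
  (`SummaryScholzReichardt`): the theorem of Scholz and Reichardt, every finite `p`-group with
  `p` odd is a Galois group over `ℚ` (all ramified primes `≡ 1` modulo any given power of `p`),
  hence every nilpotent group of odd order.
* `nilpotent_odd_galois_over_numberField`, `nilpotent_odd_disjoint_realisations`,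
  `central_embedding_problem_hasse`, `central_embedding_problem_infinite_solutions`
  (`SummaryScholzReichardtNumberFields`): nilpotent groups of odd order are Galois groups over
  every number field, with infinitely many disjoint realisations over `ℚ`; the Hasse principle
  for central embedding problems with kernel of odd prime order.
* `tate_H2_vanishes`, `tate_lifting`, `central_extension_soluble_in_roots_of_unity`
  (`SummaryTateLifting`): Tate's theorem that `H²(G_ℚ, ℚ/ℤ) = 0`, so every projective
  representation `G_ℚ → PGL_N(ℂ)` with open kernel lifts to a linear one with finite image, and
  central embedding problems become soluble after pushing the kernel into the roots of unity.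
* `iwasawa_solvable_over_maximal_abelian`, `central_embedding_soluble_over_cyclotomic`
  (`SummaryIwasawaSolvable`): Iwasawa's theorem, every finite solvable group is the Galois
  group of an extension of `ℚ^ab`; central embedding problems with kernel of order `p` become
  soluble over cyclotomic extensions.
* `maximal_abelian_projective`, `maximal_abelian_proper_solution` (`SummaryProsolvableFree`): the
  absolute Galois group of `ℚ^ab` is projective and its embedding problems with solvable kernel are
  properly soluble: Iwasawa's criterion for the freeness of its prosolvable quotient (that free
  prosolvable groups are characterised so is not formalised).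
* `cyclotomicClosure_proper_solution`, `rootsOfUnity_field_projective`,
  `rootsOfUnity_field_torsionFree`, `rootsOfUnity_field_lifting`
  (`SummaryRootsOfUnityFields`): the same over `K(μ_∞)` for every number field `K`; every
  algebraic extension of `ℚ` containing all roots of unity has a projective, torsion-free absolute
  Galois group, and its projective representations lift to linear ones.
* `decompositionGroup_inf_eq_bot`, `decompositionGroup_normalizer`,
  `absoluteGalois_rat_finite_normal` (`SummaryDecompositionGroups`): F. K. Schmidt, the
  decomposition groups of distinct places
  of `ℚ̄` meet trivially, so they are their own normalisers and contain the centralisers of their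
  non-trivial elements; no non-trivial finite normal subgroup in the Galois group of `ℚ`.
* `existsUnique_decompositionGroup_of_injective` (`SummaryLocalCorrespondence`): Neukirch's
  local correspondence, an injective continuous
  homomorphism of an open subgroup of the Galois group of `ℚ_l` into that of `ℚ` takes its values
  in the decomposition group of exactly one place of `ℚ̄`.
* `neukirch`, `neukirch_normalClosure`, `neukirch_numberField` (`SummaryNeukirch`): Neukirch's
  theorem, number fields with isomorphic absolute Galois groups have the same degree and normal
  closure, so one which is Galois over `ℚ` is determined by its absolute Galois group.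
* `neukirchUchida`, `neukirchUchida_iff`, `neukirchUchida_numberField_iff`, `neukirchUchida_out`,
  `absoluteGalois_rat_aut_inner` (`SummaryNeukirchUchida`): the theorem
  of Neukirch and Uchida, isomorphisms of absolute Galois groups of number fields are conjugations
  by unique elements, so number fields are isomorphic as fields iff these groups are; every
  continuous automorphism of the Galois group of `ℚ` is inner.
* `friedKollar`, `friedKollar_degree`, `friedKollar_outer` (`SummaryFriedKollar`): the theorem of
  Fried and Kollár, every finite group is the automorphism group of number fields of arbitrarily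
  large degree, hence the group of outer automorphisms of the absolute Galois group of one.
* `symmetricPower_galois_numberField`, `freeGenerators`, `freeGenerators_quotients`,
  `freeGenerators_orderOf`, `freeGenerators_exists` (`SummaryFreeGenerators`): Jarden's theorem,
  for almost all `e`-tuples in the absolute Galois group of a number field the closed subgroup
  generated is free profinite of rank `e`; by way of `Sₙ ^ m` over every number field, `n ≥ 5`.
* `hilbertIrreducibility_numberField`, `pseudoAlgClosed_ae`, `pseudoAlgClosed_free`,
  `pseudoFinite_ae`, `pseudoFinite_exists` (`SummaryPseudoAlgClosed`): the theorem of Ax and Jarden,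
  for almost all `e`-tuples the fixed field is pseudo algebraically closed with free absolute Galois
  group, for `e = 1` with one extension of each degree; Hilbert irreducibility over number fields
  for absolutely irreducible polynomials.
* `freyJarden_rank_infinite`, `fermat_fails_random_field`, `fermat_fails_pseudoFinite`
  (`SummaryRandomFieldRank`): Frey–Jarden, every elliptic curve over `ℚ` has infinite rank over
  almost all these fixed fields; in almost all of them Fermat's equation is soluble with nonzero
  terms at every exponent, so in some algebraic pseudo-finite field.
* `geyerJarden_torsion_infinite`, `geyerJarden_torsion_finite`, `geyerJarden_primary_finite`,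
  `randomField_infinite_rank_finite_torsion`, `randomField_rank_torsion_of_pole`
  (`SummaryRandomTorsion`): Geyer–Jarden for curves with open adelic image, over almost all these
  fixed fields the torsion has points of infinitely many prime orders for `e = 1` and is finite for
  `e ≥ 2`, every primary part being finite; so with non-integral `j` infinite rank, finite torsion.
* `geyer_abelian_procyclic`, `geyer_abelian_procyclic_local`, `geyer_abelian_cyclic_extensions`,
  `geyer_no_padicInt_square` (`SummaryGeyerAbelian`): Geyer's theorem, every closed abelian subgroup
  of the absolute Galois group of `ℚ` or of `ℚ_q` is procyclic, so an algebraic field with abelian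
  absolute Galois group has only cyclic finite extensions and no `ℤ_p × ℤ_p` embeds there.
* `local_maximal_pro_p_free`, `pGroup_galois_over_padic_iff`,
  `pGroup_unramified_outside_iff_cyclic`, `pGroup_rank_le_ramified`,
  `pGroup_realisation_ramified_card_le`, `elementary_abelian_ramified_card_ge`
  (`SummaryPGroupRamification`): for odd `p` the maximal pro-`p` quotient of the Galois group of
  `ℚ_p` is free of rank two; over `ℚ` only the cyclic `p`-groups are unramified outside `p`, and
  the least number of ramified primes for order `p ^ n` lies between the rank and `n`.
* `shafarevich_local_free_pro_p`, `shafarevich_natCard_homs`,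
  `pGroup_galois_over_padicField_iff` (`SummaryLocalShafarevich`): Shafarevich's theorem, for a
  finite extension `E` of `ℚ_p` of degree `n` without nontrivial `p`-th roots of unity the maximal
  pro-`p` quotient of the Galois group is free of rank `n + 1`, so a `p`-group is a Galois group
  over `E` exactly when `n + 1` elements generate it; with such roots of unity nothing is claimed.
* `tate_no_invariants`, `tate_h1_twisted`, `tate_h1_untwisted`, `tate_log_chi`,
  `almost_purity_frobenius`, `almost_purity_trace` (`SummaryTateSen`): Tate's theorems on the
  continuous Galois cohomology of `ℂ_p`: `H⁰` of `ℂ_p(j)` vanishes on open subgroups and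
  `H¹(G_ℚp, ℂ_p(j))` vanishes for `j ≠ 0`, `H¹(G_ℚp, ℂ_p)` is the line of `log χ`; almost purity
  in rank one above `ℚ_p(μ_{p^∞})`. `H¹` of proper open subgroups and Sen theory are not treated.
* `fontaine_wintenberger_field_of_norms`, `tilt_def`, `tilt_facts`, `tilt_laurent`
  (`SummaryFontaineWintenberger`): the Fontaine–Wintenberger theorem, the absolute Galois groups
  of `ℚ_p(μ_{p^∞})` and `𝔽_p((t))` are isomorphic as topological groups; the tilt of `ℂ_p` is a
  complete algebraically closed field of characteristic `p` in which the algebraic closure of
  `𝔽_p((t))` is dense. General perfectoid fields and norm fields of other extensions are not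
  treated.
* `katz_phi_modules`, `fontaine_phi_gamma_modules`, `fontaine_gamma_action` (`SummaryPhiGamma`):
  Galois representations over `ZMod p` are anti-equivalent, preserving dimensions, to étale
  `φ`-modules for every field of characteristic `p` (Katz) and to étale `(φ, Γ)`-modules over
  `𝔽_p((t))` for `ℚ_p` (Fontaine). Coefficients in `ℤ_p` and overconvergence are not treated.
* `fontaine_theta_kernel`, `bdr_defs`, `bdr_plus_dvr`, `bdr_fraction_field`, `bdr_graded`,
  `bdr_invariants`, `bdr_invariants_open` (`SummaryBDR`): Fontaine's `B_dR` for `ℂ_p` (Mathlib's
  `BDeRham`): `B_dR⁺` is a complete discrete valuation ring with residue field `ℂ_p`, the graded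
  pieces are `ℂ_p(i)` and `(B_dR)^G = ℚ_p`; an element fixed by an open subgroup lies in `B_dR⁺`
  and is determined by `θ`. `B_cris` and finite extensions of `ℚ_p` are not treated.
* `sen_defs`, `sen_descent`, `sen_decompletion`, `sen_uniqueness`, `sen_operator`,
  `sen_operator_invariant`, `sen_operator_zero_iff`, `sen_weights_twists` (`SummarySen`): Sen's
  theory over `ℚ_p`: `H¹ (H, GL_d (ℂ_p))` is trivial, every semilinear representation has a basis
  over some `ℚ_p (μ_(p^m))`, its operator `Θ` is unique up to conjugation, vanishes exactly for
  potentially trivial ones and has the weights `j` for `⊕ ℂ_p (j)`. The Lie algebra of the image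
  of inertia is not treated.
* `padic_hodge_defs`, `dR_dim_le`, `hodge_tate_dim`, `de_rham_implies_hodge_tate`,
  `sen_criterion`, `fontaine_period`, `tate_twists_de_rham`, `not_hodge_tate_example`
  (`SummaryPadicHodge`): Hodge–Tate and de Rham representations of the Galois group of `ℚ_p`:
  both invariants have dimension at most `d`, de Rham implies Hodge–Tate, Hodge–Tate means a
  semisimple Sen operator with eigenvalues in `ℤ`, `t = log [ε]` makes each `ℚ_p (j)` de Rham,
  and the extension by `log χ` is neither. Crystalline and semistable ones are not treated.
* `padic_characters_defs`, `unramified_period`, `character_structure`, `cp_admissible_iff`,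
  `hodge_tate_character_iff` (`SummaryPadicCharacters`): for characters of the Galois group of
  `ℚ_p`: Hodge–Tate, de Rham and locally algebraic agree (Tate, Serre), and `ℂ_p`-admissible
  means finite image of inertia; unramified characters have periods in Witt vectors of `k̄`, and
  every character is one of these times one of `χ`. Higher dimension is not treated.
* `extension_hodge_tate`, `kummer_period`, `kummer_extension_de_rham`,
  `trivial_extension_classification` (`SummaryPadicExtensions`): over `ℚ_p` an extension of
  Hodge–Tate representations without common weight is Hodge–Tate; a Kummer cocycle has the period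
  `log ([q̃]/q)`, so its extension of `ℚ_p` by `ℚ_p (1)` is de Rham, and does not split for
  `|q| ≠ 1`; extensions of `ℚ_p` by itself are de Rham exactly when unramified.
* `padic_descent_defs`, `qpbar_in_bdr`, `potentially_de_rham`, `potentially_hodge_tate`,
  `artin_representations`, `stable_quotient`, `stable_sub`, `stable_operations`,
  `hodge_tate_weights`, `det_locally_algebraic`, `twist_preserves_de_rham`,
  `not_potentially_de_rham_example` (`SummaryPadicDescent`): `Q̄_p` embeds equivariantly in
  `B_dR⁺` and gives the invariants of open subgroups in `B_dR`; potentially de Rham is de Rham,
  likewise Hodge–Tate; both classes are stable under subobjects, quotients, sums, tensor products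
  and duals, with well defined weights; the determinant is locally algebraic of exponent the sum
  of the weights. Crystalline representations and other bases are not treated.
* `abelian_geometric_defs`, `abelian_geometric`, `abelian_geometric_weights`,
  `geometric_character`, `geometric_character_dirichlet`, `weight_zero_finite_image`,
  `not_geometric_example` (`SummaryAbelianGeometric`): Fontaine–Mazur for abelian `p`-adic
  representations of the Galois group of `ℚ` in any dimension: Hodge–Tate at `p`, de Rham at `p`
  and potentially a sum of powers of `χ` agree; geometric characters are Dirichlet characters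
  times powers of `χ`; weights zero means finite image. Other number fields are not treated.
* `bdr_topology`, `bdr_plus_h1`, `bdr_plus_h1_twisted`, `de_rham_filtration`, `de_rham_extension`,
  `tate_twist_extension_de_rham` (`SummaryBDRCohomology`): `H¹` of `B_dR⁺` is the line of `log χ`
  and that of `t ^ k B_dR⁺` vanishes for `1 ≤ k`; the periods of a de Rham representation are
  bounded by the extreme weights; an extension of de Rham representations with every weight of the
  subobject above every weight of the quotient is de Rham. `H¹_g` in general is not treated.
* `de_rham_lattice`, `bdr_twist_h1`, `de_rham_h1`, `de_rham_plus_h1`, `hodge_tate_h1`,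
  `bloch_kato_criterion` (`SummaryDeRhamCohomology`): `ρ` is de Rham iff `B_dR⁺ ⊗ V` is a sum of
  twists; `H¹ (B_dR ⊗ V)` is the space of periods by the cup product with `log χ`; an extension of
  `ℚ_p` by `V` is de Rham iff a linear map to the zeroth step of the periods vanishes on it.
  Euler characteristics, `H¹_f` and `B_cris` are not treated.
* `multiplicative_shape`, `multiplicative_de_rham`, `semistable_de_rham_at_bad_prime`,
  `curve_eleven_de_rham` (`SummaryCurveDeRham`): an elliptic curve over `ℚ` with multiplicative
  reduction at an odd `p` has a de Rham `p`-adic representation at `p` with Hodge–Tate weights `1`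
  and `0`. Good reduction at `p` and `B_st` are not treated.
* `ordinary_shape`, `ordinary_unit_root`, `ordinary_de_rham`,
  `semistable_not_supersingular_de_rham`, `curve_seventeen_ordinary_de_rham`
  (`SummaryOrdinaryDeRham`): at a prime `p` of good ordinary reduction the `p`-adic representation
  is an extension of an unramified character `η` by `χ η⁻¹`, `η` of Frobenius is the unit root of
  `X ^ 2 - a_p X + p`, and the representation is de Rham with Hodge–Tate weights `1` and `0`.
  Supersingular reduction is not treated.
* `potential_reduction_defs`, `potential_reduction_cases`, `potentially_multiplicative_shape`,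
  `potentially_ordinary_shape`, `potentially_ordinary_de_rham`,
  `de_rham_unless_potentially_supersingular`, `potential_de_rham_examples`
  (`SummaryPotentialDeRham`): for any equation over `ℤ` exactly one holds at `p`: a pole of `j`,
  potentially ordinary, potentially supersingular; at an odd `p` outside the third case the
  `p`-adic representation is de Rham with Hodge–Tate weights `1` and `0`. Potentially ordinary
  `p = 2` is included, poles of `j` at `2` and the supersingular case are not treated.
* `supersingular_de_rham`, `good_reduction_de_rham`, `semistable_de_rham`, `frey_de_rham`,
  `supersingular_de_rham_examples` (`SummaryGoodDeRham`): good reduction at any prime `p`,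
  supersingular and `p = 2` included, gives a de Rham representation with Hodge–Tate weights `1`
  and `0`, by the periods of the formal group in `B_dR⁺`; so does semistable reduction at an odd
  `p`. Supersingular reduction only after an extension, multiplicative reduction at `2` and
  crystalline representations are not treated.
* `every_curve_de_rham`, `every_rational_curve_de_rham`, `de_rham_at_two_examples`
  (`SummaryEveryDeRham`): every elliptic curve over `ℚ` is de Rham at every prime, `p = 2` included,
  with Hodge–Tate weights `1` and `0`; poles of `j` by a twist and the component of the identity,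
  potentially supersingular reduction by lifts to `A_inf` for a congruent equation over `ℤ`.
  Crystalline and semistable periods, and other number fields, are not treated.
* `kummer_classes_de_rham`, `point_gives_de_rham_extension`, `de_rham_extension_example37`
  (`SummaryKummerDeRham`): the Kummer class of an algebraic point of `E (ℚ_p)` gives a de Rham
  extension of `V_p E`, at every prime and for every reduction; for a rational point of infinite
  order it is unramified at good primes other than `p` and not split over `ℚ`, as for `37a1`. That
  the classes fill the kernel of the period map is not claimed.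
* `local_point_group`, `lutz_local_points`, `kummer_local_split_iff`, `kummer_local_line`,
  `rational_point_nonsplit_local` (`SummaryKummerLocal`): over a finite extension of `ℚ_p` the
  kernel of reduction of an integral equation has finite index, the torsion is finite and infinitely
  `p`-divisible points are torsion; Lutz's theorem, that the points over `ℚ_p` have a subgroup of
  finite index isomorphic to `ℤ_p`; the Kummer class of an algebraic point of `E (ℚ_p)` splits over
  a finite extension only for torsion, and up to coboundaries these classes span exactly one line,
  so every curve has a de Rham extension non-split over every finite extension. The dimension of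
  `H¹` and points with transcendental coordinates are not treated.
* `local_descent_index`, `real_descent_index`, `descent_index_product`, `local_kummer_image`
  (`SummaryLocalDescentIndex`): `[E (K) : m E (K)] = #E (K) [m] p ^ (d v_p(m))` for every elliptic
  curve over an extension `K` of degree `d` of `ℚ_p` and `#E (ℝ) [m] / m` over `ℝ`, so over `ℚ` the
  product over infinity and a finite set containing the primes of `m` is that of the `m`-torsion;
  the Kummer map modulo `p ^ n` over `ℚ_p` has `#E (ℚ_p) [p ^ n] p ^ n` classes. That they are half
  of the first cohomology group is not claimed.
* `torsion_parameter_bound`, `torsion_parameter_bound_attained`, `formal_group_torsion_free`,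
  `lutz_mattuck` (`SummaryLutzMattuck`): on an integral equation over any nonarchimedean field a
  point of exact order `p ^ (k + 1)` in the kernel of reduction has
  `‖p‖ ≤ ‖x / y‖ ^ (p ^ k (p - 1))`, with equality for a point over `ℚ₂`; so below degree `p - 1`
  over `ℚ_p` that kernel has no torsion and the order of the torsion divides its index; for every
  elliptic curve over an extension of degree `d` of `ℚ_p` the points are `ℤ_p ^ d` times a finite
  torsion group.
* `cassels_integral_of_not_primePow`, `cassels_denominators`, `cassels_order_bound`,
  `nagell_lutz_numberField`, `cassels_sharp` (`SummaryCasselsNumberField`): over a number field of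
  degree `d` a torsion point on an equation with integral coefficients is integral unless its order
  is `p ^ (k + 1)` with `p ^ k (p - 1) ≤ d`, and then `p ^ 2 x ^ n`, `p ^ 3 y ^ n` are integral for
  `n = p ^ k (p - 1)`, sharp over `ℚ`; on `y² = x³ + a x + b` the square of the ordinate divides
  `4 a³ + 27 b²` when neither the point nor its double has one of these orders.
* `torsion_dvd_reduction_numberField`, `torsion_bound_of_good_place`,
  `mordell_torsion_odd_degree`, `quartic_torsion_odd_degree`, `quartic_torsion_four_attained`
  (`SummaryOddDegreeTorsion`): over a number field of degree `d` good reduction at one place above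
  `p > d + 1` embeds all torsion in the points over the residue field, so there are at most
  `(√(p ^ d) + 1)²` torsion points; over every field of odd degree `d` the torsion of `y² = x³ + k`
  has order dividing `2 * 3 ^ (1 + log₃ d)` and that of `y² = x³ + D x` order dividing `4`, which
  is attained.
* `uniform_torsion_integral_j`, `torsion_order_le_integral_j`, `uniform_torsion_cm`
  (`SummaryIntegralJTorsion`): the classical integral case of the boundedness of torsion: over every
  number field of degree at most `d` every elliptic curve with integral invariant, in particular
  every curve with complex multiplication, has at most `(√(B ^ (35⁴ d)) + 1)²` torsion points,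
  `B = 2 (35⁴ d + 2)`, so only finitely many orders occur in each degree. No good bound is claimed.
* `local_irreducible_iff`, `local_irreducible_consequences`, `local_irreducible_examples`
  (`SummaryLocalIrreducible`): the representation at `p` has no line stable under any open subgroup
  exactly at potentially supersingular reduction, and then stays irreducible over every number
  field; otherwise a line is stable under the whole decomposition group. Absolute irreducibility
  is not treated.
* `padic_closed_subgroup_trichotomy`, `local_image_dichotomy` (`SummaryPadicImageDichotomy`): for
  every `p`, a closed subgroup of `GL₂(ℤ_p)` with every determinant has a stable line, or commuting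
  elements congruent to one modulo `p²`, or is open; at potentially supersingular reduction the
  image of the decomposition group is open, so the global image too, or it normalises a nonsplit
  Cartan line and has a commutative open subgroup (formal CM). Which case occurs is decided only
  for CM curves.
* `deuring_every_prime`, `cm_nonsplit_cartan_image`, `local_image_open_cartan`,
  `deuring_every_prime_example` (`SummaryDeuringEveryPrime`): the image of the decomposition group
  at potentially supersingular reduction is open in `GL₂(ℤ_p)` or in the normaliser of a nonsplit
  Cartan subgroup; a curve with `a_l = 0` at the primes inert in `ℚ(√d)` is potentially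
  supersingular at a prime `p`, bad primes and `2` included, exactly when `d` is no square in
  `ℚ_p`, and then the second case holds, as for `32a` at `2`.
* `pole_image_borel`, `pole_not_split`, `integral_of_semisimple` (`SummaryPolePadicImage`): at a
  pole of `j` at `p`, any prime, the image of the decomposition group is open in the triangular
  group with lower entry `± 1`; its line is the only one stable under an open subgroup and only
  scalars commute with one, so semisimplicity on an open subgroup forces `j` integral at `p`.
* `supersingular_orbit_growth`, `supersingular_zp_extension_torsion`,
  `supersingular_cyclotomic_torsion`, `supersingular_torsion_example`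
  (`SummaryTorsionZpExtension`): at potentially supersingular reduction the orbits on every line
  outgrow `p ^ n`, only finitely many `p`-power torsion points are rational over a `ℤ_p`-extension
  of a finite extension of `ℚ_p`, in particular over `K (μ_{p^∞})` (Imai).
* `imai`, `imai_iff`, `imai_global`, `imai_example` (`SummaryImai`): Imai's theorem for every prime
  `p`, `2` included, and torsion of every order: only finitely many torsion points are rational over
  `K (μ_{p^∞})` for every finite extension `K` of `ℚ_p` exactly when `j` is integral at `p`; at a
  pole some `K` has infinitely many of `p`-power order; over `F (μ_{p^∞})`, `F` a number field,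
  there are finitely many for every curve over `ℚ`. Curves over other local fields and higher
  dimensional abelian varieties are not treated.
* `ribet_cyclotomic_torsion`, `ribet_cyclotomic_bound`, `ribet_cyclotomic_mordellWeil`,
  `ribet_cyclotomic_cm` (`SummaryRibetCyclotomicTorsion`): Ribet's theorem for every elliptic
  curve over `ℚ`, complex multiplication included: over `F (μ_∞)`, `F` any number field, there
  are only finitely many torsion points, so for Galois `F` the points there are a finite group
  times a free one; five CM values of `j` have infinitely many over some `K^ab`.
* `shafarevich_regular_free`, `shafarevich_regular_natCard`, `shafarevich_regular_galois_iff`,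
  `shafarevich_regular_lt_hundred` (`SummaryShafarevichRegular`): Shafarevich's theorem, at an odd
  regular prime the maximal pro-`p` quotient of the Galois group over `ℚ(ζ_p)` unramified outside
  `p` is free of rank `(p + 1) / 2`, unconditionally below one hundred but for `37, 59, 67`;
  irregular primes are not treated.
* `golod_shafarevich`, `exists_infinite_unramified_extension`,
  `exists_totallyReal_infinite_classFieldTower`, `exists_field_without_classNumberOne_extension`
  (`SummaryGolodShafarevich`): the theorem of Golod and Shafarevich, and for every odd prime `p` a
  totally real field of degree `p ^ 8` with an infinite unramified `p`-extension, so every number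
  field containing it has class number divisible by `p` and it lies in none of class number one.
  So do cyclic fields of degree `p` with eight such primes ramified; the `p`-extensions unramified
  outside four such primes are infinite, and root discriminants of totally real fields are bounded.
* `cyclotomic_infinite_classFieldTower`, `dvd_classNumber_of_cyclotomic`,
  `three_dvd_classNumber_cyclotomicField`, `ihara_split_tower` (`SummaryClassFieldTowers`): if
  eight primes `≡ 1` modulo an odd prime `p` divide `n`, then the `n`-th cyclotomic field and its
  real subfield have infinite unramified extensions and `p` divides the class number of every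
  number field containing either; for example `3` for multiples of `7·13·19·31·37·43·61·67`.
  Ihara: further primes, few against the square of the ramified ones, split completely in a tower.
* `froehlich_unramified`, `uchida_yamamura`, `unramified_nonsolvable`,
  `classGroup_every_abelian_quotient`, `exists_totallyComplex_dvd_classNumber`
  (`SummaryUnramifiedGalois`): every finite group is the Galois group of an extension of number
  fields unramified at every place (Fröhlich); for `n ≡ 3 (mod 4)` over an imaginary quadratic
  field `Aₙ` is one; every finite abelian group is a quotient of a class group.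
* `FA.UchidaYamamura.Summary.exists_field_coprime`, `…infinitely_many`,
  `…infinitely_many_nonsolvable`, `…three_dvd_classNumber_coprime`, `…trinomial_galois`
  (`SummaryUchidaYamamura`): Uchida and Yamamura: for every `n ≥ 3` infinitely many imaginary
  quadratic fields (discriminant prime to any `N`) have an `Aₙ`-extension unramified at every place.
* `FA.KedlayaDisc.Summary.totally_real_squarefree_discriminant`,
  `…totally_real_coprime_discriminant`, `…real_quadratic_unramified_alternating`,
  `…real_quadratic_unramified_nonsolvable`, `…real_quadratic_three_dvd_classNumber`
  (`SummaryKedlayaDiscriminants`): Kedlaya: totally real fields of every degree with group `Sₙ`,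
  monogenic, of arbitrarily large squarefree discriminant; so infinitely many real quadratic
  fields have an `Aₙ`-extension unramified at every place (Yamamura).
* `FA.KedlayaDisc.Signatures.monogenic_squarefree_coprime`,
  `…monogenic_squarefree_every_signature`, `…every_group_unramified_totally_real`,
  `…classGroup_quotient_totally_real`, `…totally_real_dvd_classNumber`
  (`SummaryKedlayaSignatures`): Kedlaya's theorem in every signature; every finite group is the
  group of an extension of totally real fields unramified at every place, every finite abelian
  group a quotient of class groups of totally real fields of arbitrarily large discriminant.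
* `quadratic_twoClassFieldTower_infinite`, `quadratic_infinite_unramified_extension`,
  `even_classNumber_of_sqrt`, `infinite_unramified_extension_example` (`SummaryQuadraticTowers`):
  a quadratic field, real or imaginary, with nine ramified primes `≡ 1 (mod 4)` has an infinite
  `2`-class field tower, and every number field containing it even class number; for example
  `ℚ(√(±5·13·17·29·37·41·53·61·73))` (Golod–Shafarevich).
* `abelian_classFieldTower`, `cyclic_classFieldTower`, `extension_classFieldTower`
  (`SummaryTowersEveryDegree`): infinite class field towers over totally real fields with any
  nontrivial abelian group, so in every degree `n ≥ 2`; every number field has for every prime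
  `p` an extension of degree `p` all of whose overfields have class number divisible by `p`.
* `classNumberOne_embedding_iff_bounded`, `classNumberOne_embedding_iff_stationary`,
  `hilbertTower_infinite_example`, `hilbertTower_infinite_cyclic`,
  `cyclic_pClassGroup_pClassField` (`SummaryHilbertTower`): a number field lies in one of class
  number one iff its Hilbert class field tower becomes stationary; strictly increasing towers for
  `ℚ(√(±5·13·17·29·37·41·53·61·73))` and cyclic fields of every degree `n ≥ 2`; with cyclic
  `p`-class group the `p`-tower stops at the first step.
* `shafarevich_relation_bound`, `golod_shafarevich_criterion`, `golod_shafarevich_degree`,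
  `imaginaryQuadratic_classFieldTower_infinite`, `realQuadratic_classFieldTower_infinite`,
  `exists_cyclic_criterion_applies` (`SummaryGolodCriterion`): for an odd prime `p` and every
  number field a finite maximal unramified `p`-extension has at most `d + r + δ` relations (`r`
  the unit rank), so `p`-rank `d ≥ 3` of the class group with `d² ≥ 4(d + r + δ)` gives an
  infinite class field tower, in particular `p`-rank 4 for imaginary and 5 for real quadratic
  fields.
* `scholz_reflection`, `three_dvd_classNumber_iff`, `scholz_three_dvd_classNumber`,
  `scholz_classFieldTower_infinite`, `exists_scholz_pair` (`SummaryReflection`): Scholz's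
  reflection theorem `r₃(ℚ(√D)) ≤ r₃(ℚ(√-3D)) ≤ r₃(ℚ(√D)) + 1` for every positive non-square `D`;
  so `3 ∣ h(ℚ(√D))` gives `3 ∣ h(ℚ(√-3D))`, and `3`-rank 4 in the real field makes the class
  field tower of the imaginary one infinite.
* `finite_galoisStable_cyclic`, `exists_bound_galoisStable_cyclic`,
  `finite_reducible_primes_numberField`, `no_galoisStable_tate_line`,
  `finite_j_of_cyclic_quotients` (`SummaryIsogenyNumberField`): over every number field a curve
  without complex multiplication, in particular one with `j` not integral, has finitely many
  cyclic groups of points stable under Galois, so irreducible representations modulo almost all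
  primes and irreducible `ℓ`-adic ones; for every curve `y² = x³ + a x + b` the quotients have
  finitely many `j`.
* `exists_quotient_curve`, `exists_quotient_curve_velu`, `finite_quotient_curves`,
  `finite_quotient_j` (`SummaryQuotientCurve`): over every number field each finite group of
  points stable under Galois is the kernel of an equivariant surjection onto the points of a
  curve over the same field (Vélu), linked by a modular equation; without complex multiplication
  finitely many curves occur, and for every curve finitely many `j`.
* `hasCM_iff_infinite_stable`, `hasCM_iff_infinite_reducible`, `hasCM_embedding_iff`,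
  `not_hasCM_iff_finite_reducible` (`SummaryCMStableSubgroups`): a curve over a number field has
  complex multiplication exactly when over some finite extension infinitely many cyclic subgroups
  are stable, equivalently infinitely many primes are reducible; independent of the embedding.
* `finite_modular_levels`, `finite_modular_roots`, `isSingularModulus_iff_infinite_levels`
  (`SummaryModularRoots`): for `j` in a number field not a singular modulus only finitely many
  `Φ_N(j, X)` have a root in the field, finitely many roots for all `N` together; singular moduli
  are exactly the `j` with infinitely many such `N` over some finite extension.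
* `exists_cm_endomorphism`, `cm_torsion_fixed_by_commutator`, `hasCM_iff_quadratic_reducible`
  (`SummaryCMTorsionAbelian`): a curve with complex multiplication over a number field `K` has an
  endomorphism of its algebraic points over `K(ω)`, `[K(ω) : K] ≤ 2`, all its torsion is rational
  over the maximal abelian extension of `K(ω)`, where infinitely many primes are reducible.
* `finite_torsion_maxAbelian_realPlace`, `finite_torsion_maxAbelian_totallyReal`,
  `exists_finite_torsion_abelianExtensions`, `finite_abelian_torsion_primes`: Ribet's theorem on
  torsion over number fields `K` with a real embedding: without complex multiplication finitely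
  many torsion points are rational over the maximal abelian extension of `K`, cyclotomic ones
  included (`SummaryTorsionMaxAbelianNumberField`);
* `serre_image_numberField`, `serre_matrix_numberField`, `torsion_points_conjugate_numberField`,
  `torsion_point_degree_numberField`: Serre's theorem modulo `p` over every number field `K`, for
  `j` not an algebraic integer: for all large primes `p` the image on `E[p]` contains
  `SL₂(𝔽_p)` and a point of order `p` has degree `p² - 1` over `K` (`SummarySerreNumberField`);
* `det_eq_cyclotomic_numberField`, `cyclotomic_irreducible_numberField`, `serre_gl2_numberField`,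
  `serre_gl2_matrix_numberField`: over every number field the determinant on `E[p]` is the mod `p`
  cyclotomic character, which is onto for `p` prime to the discriminant, so for `j` not an
  algebraic integer the image is `GL₂(𝔽_p)` for all large `p` (`SummaryGLTwoNumberField`);
* `serre_sl2_adelic_numberField`, `torsion_orders_conjugate_numberField`,
  `torsion_order_degree_numberField`, `torsion_generators_numberField`: for `j` not an algebraic
  integer in a number field `K` there is `B` with, for every `N` free of primes up to `B`,
  `SL₂(ℤ / N)` in the image on `E[N]` (so `∏ SL₂(ℤ_p)`, `p > B`, in the adelic image), all points of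
  exact order `N` conjugate, of degree `N² ∏ (1 - p⁻²)` over `K` (`SummarySerreAdelicNumberField`);
* `serre_gl2_adelic_numberField`, `torsion_field_degree_numberField`,
  `cyclotomic_irreducible_level_numberField`: for `j` not an algebraic integer in a number field
  `K` there is `B` with, for every `N` free of primes up to `B`, every automorphism of `E[N]` given
  by Galois (so `∏ GL₂(ℤ_p)`, `p > B`, is the adelic image there) and `[K(E[N]) : K] = #GL₂(ℤ / N)`;
  `Φ_N` is irreducible over `K` for `N` prime to the discriminant
  (`SummarySerreGLAdelicNumberField`);
* `serre_openImage_numberField`, `serre_openImage_padic_numberField`,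
  `serre_openImage_degree_numberField`: Serre's open image theorem over every number field `K`
  for non-integral `j`: some `m` is such that for every `N` all automorphisms of `E[N]` trivial on
  `E[gcd(N, m)]` come from Galois, so the image is open in `GL₂(Ẑ)` and in every `GL₂(ℤ_ℓ)`, and
  `[K(E[N]) : K]` is `# GL₂(ℤ / N)` up to a bounded factor (`SummarySerreOpenImageNumberField`);
* `finite_torsion_derived_numberField`, `finite_torsion_maxAbelian_numberField`,
  `torsion_abelian_bound_numberField`, `torsion_solvable_numberField`,
  `not_solvable_torsion_numberField`: for `j` not an algebraic integer in any number field `K`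
  each derived subgroup of Galois fixes finitely many torsion points (finite torsion over `K^ab`,
  totally imaginary `K` included), one bound holds the primes of the torsion over all solvable
  extensions, and `K(E[p])` is not solvable for large `p` (`SummaryTorsionSolvableNumberField`);
* `FA.ZetaOdd.Summary.infinite_irrational_oddZeta`,
  `FA.ZetaOdd.Summary.infinite_irrational_riemannZeta_odd`,
  `FA.ZetaOdd.Summary.many_irrational_oddZeta` (`SummaryOddZetaValues`): infinitely many of
  `ζ(3), ζ(5), ζ(7), …` are irrational (Rivoal; elementary proof of Sprang and
  Fischler–Sprang–Zudilin)
* `FA.ZetaOdd.Summary.rivoal`, `FA.ZetaOdd.Summary.rivoal_riemannZeta`,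
  `FA.ZetaOdd.Summary.rivoal_dimension_unbounded` (`SummaryRivoal`): Rivoal's theorem,
  `ζ(3), ζ(5), ζ(7), …` span an infinite-dimensional `ℚ`-space
* `FA.ZetaOdd.Summary.ball_rivoal`, `FA.ZetaOdd.Summary.ball_rivoal_riemannZeta`,
  `FA.ZetaOdd.Summary.ball_rivoal_irrational` (`SummaryBallRivoal`): the theorem of Ball and
  Rivoal, `dim_ℚ` of the span of `1, ζ(3), …, ζ(s)` (odd arguments) is at least `log s / 30`,
  and at least `log s / 30 - 1` of these values are irrational; `1 / (1 + log 2)` is not claimed
* `siegel_superelliptic`, `siegel_superelliptic_sInteger`, `siegel_mahler_numberField`,
  `siegel_integral_points_numberField`, `siegel_points_numberField`, `mordell_equation_numberField`,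
  `shafarevich_numberField` (`SummarySiegelNumberField`): Siegel's theorem over every number field
  for `y ^ m = f x` and every elliptic curve with `S`-integral `x`, and Shafarevich's theorem that
  finitely many elliptic curves over it have good reduction outside `S` up to isomorphism.
* `leveque_theorem`, `roth_finitePlace`, `sUnit_equation_numberField`, `siegel_unit_equation`,
  `exceptional_units_finite`, `thue_mahler_numberField`, `thue_number_field`,
  `thue_number_field_irreducible` (`SummaryUnitEquation`): Roth's theorem at every place of every
  number field, the `S`-unit equation `a u + b v = c` and the Thue–Mahler equation over it.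
* `roth_approximation`, `roth_lower_bound`, `roth_small_values`, `roth_tsum_transcendental`
  (`SummaryRoth`): Roth's theorem that rationals approximate an algebraic number to no exponent
  beyond `2`, an irreducible form of degree `n ≥ 3` is `≤ C max |x| |y| ^ e`, `e < n - 2`, only
  finitely often, and the transcendence of `∑ b ^ (-3 ^ k)`.
* `specialPoints_product_finite`, `singularModuli_product_finite` (André): finitely many pairs of
  singular moduli with `z ^ m w ^ n = A ≠ 0`.
* `fieldClassNumber_eq_forms`, `singularModulus_degree_eq_classNumber`,
  `brauerSiegel_imaginary_quadratic`: `h_K` counts reduced forms of discriminant `d_K`;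
  `log h_K / log √|d| → 1` for imaginary quadratic fields (ineffective).
* `fieldClassGroup_two_torsion`, `fieldClassNumber_odd_iff` (Gauss): genus theory of imaginary
  quadratic fields, `2 ^ (t - 1)` ambiguous classes; `h_K` odd iff `d = -1, -2, -p`, `p ≡ 3 mod 4`.
* `rabinowitsch`, `euler_lucky_numbers`: `n² + n + q` is prime for `n ≤ q - 2` iff `ℚ(√(1 - 4q))`
  has class number one, iff `q` is one of `2, 3, 5, 11, 17, 41`.
* `imaginaryQuadratic_classGroup_orderOf`, `imaginaryQuadratic_classNumber_dvd` (Nagell): every
  `g ≥ 1` is the order of an ideal class, and divides the class number, of infinitely many `ℚ(√d)`,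
  `d < 0`.
* `lebesgueNagell_param`, `lebesgueNagell_finite`, `mordell_cubic_classNumber`: the solutions of
  `x² + d = y ^ n`, `n` odd prime to `h(ℚ(√-d))`, `d ≡ 1, 2 (mod 4)` squarefree; for `n = 3` only
  `d = 3 a² ± 1` has any (Fermat's `5² + 2 = 3³`; none for `x² + 5 = y³`, `x² + 2 = y⁵`).
* `euclidean_imaginary_iff`, `pid_not_euclidean_iff` (Motzkin): the integers of `ℚ(√d)`, `d < 0`,
  have a division algorithm of any kind iff `d = -1, -2, -3, -7, -11`; principal ideal domains
  without one are exactly `d = -19, -43, -67, -163`.
* `classNumber_relation`, `classNumber_arbitrary_divisor`: Gauss's formula for `h(n f²)`, `n > 1`,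
  so `h(n) ∣ h(n f²)`, `h(4 n) = 2 h(n)` and any `m` divides some `h(n f²)`, `f` large.
* `genus_theorem`, `idoneal_iff_classNumber`: Gauss, `2 ^ (μ - 1)` classes of `ℤ[√-n]` are their
  own inverses, so `h(n)` is odd iff `μ = 1` and `n` is idoneal iff `h(n) = 2 ^ (μ - 1)`.
* `principalGenus`, `genus_surjective`, `euler_sixty_five`: squares of classes are the principal
  genus; Euler's congruence criterion modulo `4n` for `p = x² + n y²`, `n` one of the sixty-five
  idoneal numbers.
* `classNumber_prime_mod_four`, `classNumber_two_prime_mod_four`: the class numbers of `ℤ[√-p]`
  and `ℤ[√-2p]` modulo 4 (`SummaryClassNumberModFour`).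
* `representations_idoneal`, `euler_primality_sixty_five`: the number of representations by
  `x² + n y²` for idoneal `n > 1`; Euler's primality test (`SummaryIdonealPrimality`).
* `classNumber_residue_excess`, `residues_majority`: Dirichlet's formula `h(p) = R - N` for residues
  below `p / 2`, `p ≡ 3 (mod 4)`, and more residues than non-residues there (`SummaryResidueExcess`).
* `mordell_factorial`, `three_dvd_classNumber`: Mordell's sign of `((p-1)/2)!` mod `p` by `h(p)`;
  `3 ∣ h(p)` for `p ≡ 3 (mod 8)`, `p > 3` (`SummaryMordellFactorial`).
* `classNumber_quarter_excess`, `quarter_excess_parity`: for `p ≡ 1 (mod 4)`, `h(p) = 2 (R - N)` for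
  residues below `p / 4`, an excess odd iff `p ≡ 5 (mod 8)` (`SummaryQuarterExcess`).
* `lFunction_one_closedForm`, `bernoulli_sum_ne_zero`, `cyclotomicUnits_independent`: closed forms of
  `L(1, χ)`; Kummer's independence of the cyclotomic units (`SummaryCyclotomicUnits`).
* `polyaVinogradov`, `classNumber_upper_bound`: character sums over intervals are at most
  `√N (1 + log N)`; so `h(p) ≤ 2 √p (1 + log p)` (`SummaryPolyaVinogradov`).
* `negativePell_iff`, `cyclotomic_product_halves`: `x² - p y² = -1` is solvable iff `p ≡ 1 (mod 4)`,
  with Dirichlet's solution from cyclotomy (`SummaryNegativePell`).
* `gauss_binomial`: `(2m choose m) ≡ 2a (mod p)` for `p = 4m + 1 = a² + b²`, `a ≡ 1 (mod 4)`, `2|a| < p/2`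
  (`SummaryGaussBinomial`).
* `cauchy_classNumber_bernoulli`, `not_dvd_bernoulli_half`: `h(p) ≡ -2 (2 - (2/p)) B_((p+1)/2) (mod p)`
  for `p ≡ 3 (mod 4)`, `p > 3`, so `(p+1)/2` is never an irregular index (`SummaryCauchyBernoulli`).
* `kummer_congruence`, `infinite_irregular_primes`: Kummer's congruence `B_m/m ≡ B_n/n (mod p)` for
  `m ≡ n (mod p - 1)`; infinitely many irregular primes (`SummaryIrregularPrimes`).
* `irregular_primes_lt_hundred`: the irregular primes below 100 are `37, 59, 67`
  (`SummaryIrregularBelowHundred`).
* `padicZeta`, `kummer_congruence_general`: the Kubota–Leopoldt zeta function (`SummaryPadicZeta`).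
* `wolstenholme`, `glaisher_choose`, `wolstenholme_prime_iff`: Wolstenholme primes and `B_(p-3)` (`SummaryWolstenholme`).
* `lerch_congruence`, `wilson_prime_iff`, `wieferich_iff`: Fermat and Wilson quotients (`SummaryFermatQuotient`).
* `ljunggren`, `jacobsthal`, `morley`: binomial coefficients modulo `p^3` and `p^4` (`SummaryJacobsthal`).
* `herbrand`, `stickelberger_degreeOne`, `kummer_minus_part`: Herbrand's theorem for `ℚ(ζ_p)`, by
  Jacobi sums: an odd eigenclass of order `p` forces `p ∣ B_(p-i)` (`SummaryHerbrand`).
* `kummer_first_case`, `kummer_cofactor_not_pow`: Kummer's first case at Bernoulli regular primes, so for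
  all `5 ≤ p < 100` but `37, 59, 67`; classical, no use of S01 or modularity (`SummaryKummerFirstCase`).
* `kummer_criterion`, `kummer_lemma`: a Bernoulli regular `p` does not divide `h(ℚ(ζ_p))`, and units
  congruent to integers mod `p` are `p`-th powers, by Thaine's relation and Kummer's logarithmic
  derivatives (`SummaryKummerCriterion`).
* `kummer_criterion_iff`, `kummer_fermat_regular`, `infinite_dvd_classNumber`: Kummer's criterion
  `p ∣ h(ℚ(ζ_p))` iff `p` divides a numerator of some `B_k`, by the relative class number formula;
  his theorem for `p ∤ h`; infinitely many `p ∣ h` (`SummaryKummerCriterionIff`).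
* `vandiver_lt_hundred`, `herbrand_ribet_lt_hundred`, `fermat_first_case_lt_hundred`: for `p < 100` no plus
  part, the theorem of Herbrand and Ribet, and the first case classically (`SummaryHerbrandRibetBelowHundred`).
* `kummer_fermat`, `kummer_fermat_lt_hundred`: Kummer's theorem, both cases of Fermat's equation at
  Bernoulli regular primes, by the classical proof, no use of S01 or modularity (`SummaryKummerFermat`).
* `fermat_classical_lt_hundred`: so every exponent `3 ≤ n < 100` but `37, 59, 67, 74` classically
  (`SummaryClassicalExponents`).
* `vandiver_second_case`, `fermat_prime_lt_hundred`, `fermat_classical_all_lt_hundred`: Vandiver's descent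
  at `37, 59, 67`, so Fermat's Last Theorem for every exponent `3 ≤ n < 100` by classical means, no
  modularity and no S01 (`SummaryVandiverSecondCase`).
* `irregular_pairs_lt_157`, `vandiver_lt_157`, `fermat_classical_lt_157`: the same below `157`, the first
  prime with two irregular indices: seven irregular primes by certificates (`SummaryFermatBelow157`).
* `fermat_first_case_lt_10000`, `herbrand_ribet_lt_157`, `eigen_lt_157`: Sophie Germain and Legendre's
  first case for every prime exponent below ten thousand; Herbrand–Ribet below `157` (`SummaryFirstCaseBelowTenThousand`).
* `kummer_vandiver_real_lt_157`, `padicValNat_classNumber_lt_157`, `pClassGroup_lt_157`: for `p < 157`,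
  `p ∤ h⁺` and the `p`-class group of `ℚ(ζ_p)` is trivial or of order `p` (`SummaryClassGroupBelow157`).
* `cyclotomicUnits_index_of_regular`, `cyclotomicUnits_index_lt_157`, `kummer_lemma_residue`: the index of
  the cyclotomic units is finite and prime to `p`; Kummer's lemma at irregular primes (`SummaryCyclotomicUnitIndex`).
* `fermat_classical_lt_233`, `vandiver_lt_233`, `irregular_pairs_lt_233`: Vandiver's descent with two
  irregular indices at `157` gives Fermat's theorem classically for all `3 ≤ n < 233` (`SummaryFermatBelow233`).
* `eichler_first_case`, `eichler_first_case_sqrt`, `first_case_failure_many_irregular`: Eichler's theorem: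
  the first case holds for irregularity index `≤ √p - 2`; a failure needs `≥ 99` irregular indices
  (`SummaryEichlerFirstCase`).
* `wieferich_criterion`, `mirimanoff_criterion`, `furtwaengler_criterion`, `fermat_first_case_lt_100000`: a
  failure of the first case needs `2^(p-1) ≡ 3^(p-1) ≡ 1 (mod p²)`, so `p > 10^5` and `≥ 315` irregular
  indices (`SummaryWieferichMirimanoff`).
* `terjanian_even_exponent`, `first_case_terms_large`: `x^(2p) + y^(2p) = z^(2p)` forces `2p ∣ x` or `2p ∣ y`; a
  first case solution has `a + b ≡ c (mod p²)` and terms above `10^10` (`SummaryTerjanian`).
* `kummer_criteria`, `first_case_failure_bernoulli`, `first_case_failure_wolstenholme`: Kummer's criteria; a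
  failure of the first case forces `p ∣ B_(p-3), B_(p-5)`, so a Wolstenholme prime (`SummaryKummerCriteria`).
* `second_case_divisor_congr`, `second_case_six_dvd_lt_100000`, `fermat_counterexample_large`: the second case
  for any prime; a counterexample has largest term above `10^10`, classically (`SummarySecondCaseCriteria`).
* `germain_numbers_sum_ne`, `inkeri_first_case`, `fermat_counterexample_huge`: Inkeri's bounds; classically a first
  case solution exceeds `10^800000`, a prime exponent counterexample `10^500` (`SummaryInkeriBound`).
* `abel_not_isPrimePow`, `abel_isPrimePow_min`: Abel's theorem on prime powers in Fermat's equation, classically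
  (`SummaryAbelPrimePower`).
* `catalan_even`, `sq_eq_pow_add_one_iff`, `fermatNumber_not_perfect_power`: Catalan's equation with an even
  exponent, by the theorems of Lebesgue, Euler and Ko Chao (`SummaryCatalanEven`, `Catalan/`).
* `cassels`, `cassels_bound`, `no_three_consecutive_perfect_powers`, `catalan_primePower`: Cassels' theorem on
  Catalan's equation, Mąkowski's theorem, prime power bases (`SummaryCassels`, `Catalan/`).
* `mihailescu_double_wieferich`, `catalan_lt_500`: Mihăilescu's double Wieferich theorem by Stickelberger's
  relation; Catalan's conjecture for exponents below `500` (`SummaryMihailescu`, `Catalan/`).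
* `stickelberger_theorem`, `classGroup_generated_degreeOne`: Stickelberger's theorem for every ideal class;
  degree one primes generate every class group (`SummaryStickelberger`).
* `nagell_equation`, `catalan_three`, `catalan_reduction`: Nagell's equation; Catalan's conjecture for exponents
  divisible by three, leaving prime exponents from five on (`SummaryCatalanThree`).
* `catalan_exponent_bound`, `catalan_not_dvd_sub_one`: Mihailescu's bound q <= 4 p^2 and p, q not congruent to 1
  modulo each other in Catalan's equation (`SummaryCatalanBound`).
* `catalan_mihailescu`, `catalan_prime_exponents`: Mihailescu's theorem, Catalan's conjecture in full: `3² = 2³ + 1`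
  is the only solution of `x^m = y^n + 1` with `m, n ≥ 2`, `x, y > 0` (`SummaryCatalanMihailescu`).
* `thaine_component`, `thaine_index`, `thaine_classNumber_real`, `catalan_int`: Thaine's theorem for odd primes `q`
  with `q ∤ p (p - 1)`: `q ∤ h(ℚ(ζ_p)⁺)` if `q ∤ [E : C]`; all integer solutions of Catalan's equation (`SummaryThaine`).
* `kummer_index`, `discr_realSubfield`, `indexRealUnits_cyclotomic`: Kummer's index theorem `[E : C] = h(ℚ(ζ_p)⁺)`
  exactly, by the group determinant and the class number formula; `|d⁺| = p^((p-3)/2)` (`SummaryKummerIndex`).
* `maillet_determinant`, `classNumber_eq_real_le_nineteen`, `classNumber_twentyThree`: Carlitz–Olson, Maillet's determinant is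
  `p^((p-3)/2) h/h⁺`; so `h = h⁺` for `5 ≤ p ≤ 19`, `h = 3 h⁺` for `p = 23`: `ℤ[ζ₂₃]` is not principal (`SummaryMaillet`).
* `classNumber_real_eq_one_le_23`, `classNumber_cyclotomic_eq_one`, `classNumber_twentyThree_eq`:
  `h(ℚ(ζ_p)⁺) = 1` for `5 ≤ p ≤ 23`, so `h(ℚ(ζ_p)) = 1` for `3 ≤ p ≤ 19` and `h(ℚ(ζ₂₃)) = 3` exactly
  (`SummaryRealClassNumber`).
* `kummer_fermat_cyclotomicField`: Kummer's theorem of 1850 in full, for a regular prime `p ≥ 5` FLT holds in the field
  `ℚ(ζ_p)` and its subfields, for every exponent divisible by `p` (`SummaryKummerCyclotomicField`).
* `legendre_maillet_regular`, `fermatLastTheoremWith_quadratic_regular`: at a regular prime `p ≥ 5` no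
  `x^p + y^p = p^m z^p`, and FLT over `ℚ(√((-1)^((p-1)/2) p))` for `p ∣ n` (`SummaryKummerDescent`).
* `iwasawa_regular`, `iwasawa_regular_units`: Iwasawa's theorem, at a regular prime `p ≥ 5` no `h(ℚ(ζ_(p^n)))` is
  divisible by `p` and the units are cyclotomic units times `p`-th powers (`SummaryIwasawaRegular`).
* `weber_classNumber_odd`, `weber_classNumber_real_odd`, `weber_units`, `iwasawa_every_regular`: Weber's theorem,
  for `m ≥ 2` the class numbers of `ℚ(ζ_(2^m))` and of its real subfield are odd and the units are cyclotomic
  units times squares; with `p = 3` too, Iwasawa's theorem holds for every regular prime (`SummaryWeber`).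
* `kummer_parity`, `kummer_parity_relative`: Kummer's parity theorem, for `p ≥ 5` the class number of `ℚ(ζ_p)`
  is even iff the relative class number, given by Maillet's determinant, is; both are odd for `p ≤ 23`
  (`SummaryKummerParity`).
* `classNumber_even_iff_lt_two_hundred`, `classNumber_real_odd_lt_two_hundred`: for a prime `p < 200` the class
  number of `ℚ(ζ_p)` is even exactly for `p = 29, 113, 163, 197` (`SummaryKummerParityTable`).
* `relative_classNumber_exponential`, `finite_uniqueFactorization`, `uniqueFactorization_iff_lt_two_hundred`: for
  large primes `2^((p-3)/2) h⁺ ≤ h`, so `ℤ[ζ_p]` has unique factorisation for finitely many `p` only (Uchida,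
  Montgomery), and for `3 ≤ p < 200` exactly for `p ≤ 19` (`SummaryRelativeClassNumber`).
* `masley_montgomery`, `masley_montgomery_set`, `classNumber_eq_real_iff`: Masley and Montgomery for prime
  conductor, for every prime `p` the ring `ℤ[ζ_p]` has unique factorisation iff `p ≤ 19`; the relative class
  number exceeds one from `197` on by an explicit residue bound (`SummaryMasleyMontgomery`).
* `hilbert94`, `kummer_unramified`, `cyclotomic_unramified_le_nineteen`: Hilbert's Theorem 94, a prime degree
  unramified Galois extension makes an ideal class of that order principal, so at a regular `p` no `ℚ(ζ_(p^n))` has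
  an unramified `p`-extension and `ℚ(ζ_p)`, `p ≤ 19`, none that is solvable (`SummaryHilbert94`).
* `congruentUnit_unramified`, `exists_unramified_iff`, `exists_unramified_iff_lt_157`: Kummer's unramified extensions
  by `p`-th roots of units, so if `p ∤ h⁺` then `ℚ(ζ_p)` has an unramified extension of degree `p` iff `p` is irregular,
  below `157` exactly for `37, 59, 67, 101, 103, 131, 149` (`SummaryKummerUnramified`).
* `classNumber_primePower_ne_one`, `not_uniqueFactorization_primePower`: for every prime `p ≥ 23` and
  every `n` the ring `ℤ[ζ_(p^(n+1))]` has class number above one; minus classes never capitulate in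
  the tower (`minus_class_not_capitulated`) and, given `p ∤ h⁺`, `p` divides the class number at every
  level iff it does at the first (`dvd_classNumber_primePower_iff`), below `157` exactly for the
  seven irregular primes (`SummaryMasleyPrimePower`).
* `classNumber_dvd_real_mul`, `classNumber_multiple_ne_one`, `irregular_dvd_classNumber_multiple`: only
  classes from `ℚ(ζ_p)⁺` capitulate in `ℚ(ζ_m)`, `p ∣ m`, so `h(ℚ(ζ_p)) ∣ h⁺ h(ℚ(ζ_m))`: `ℤ[ζ_m]` has no
  unique factorisation if a prime `p ≥ 23` divides `m`, an irregular prime divides the class number at
  all its multiples, and `p ∣ h(ℚ(ζ_(p^(n+1))))` iff `p` is irregular (`SummaryCyclotomicMultiples`).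
* `relative_classNumber_superexponential`, `finite_uniqueFactorization_all` (Masley, ineffective): for
  every `B` and all large `m`, `B^(φ(m)/2) h⁺ ≤ h(ℚ(ζ_m))`, so only finitely many cyclotomic rings
  `ℤ[ζ_m]` have unique factorisation or any bounded class number (`SummaryMasleyFiniteness`).
* `relative_classNumber_asymptotic`, `brauerSiegel_cyclotomic`, `brauerSiegel_cyclotomic_real`: for every
  conductor `m`, `log (h/h⁺) ~ φ(m)/4 · log m` (Ankeny–Chowla) and Brauer–Siegel `log (h R) ~ log √|d|` for
  `ℚ(ζ_m)` and for its real subfield; ineffective (`SummaryAnkenyChowla`).
* `conductor_discriminant`, `conductor_discriminant_abelian`: the conductor–discriminant formula, `|d_F|` is the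
  product of the conductors of the characters of an abelian number field `F` (`SummaryConductorDiscriminant`).
* `brauerSiegel_abelian`, `uchida_discr_bounded`, `uchida_finite`: Brauer–Siegel for abelian fields, and Uchida's
  theorem: finitely many imaginary abelian fields of bounded (relative) class number; ineffective (`SummaryUchida`).
* `rootNumber_real`, `dedekindZeta_abelian_functionalEquation`: real primitive characters have root number `1`;
  `ξ_F(1 - s) = ξ_F(s)` and the class number formula at `0` for abelian `F` (`SummaryAbelianFunctionalEquation`).
* `relativeClassNumber_formula`, `siegel_klingen_abelian`: `h = h⁺ Q w ∏ (-B_{1,χ}/2)` for abelian CM fields and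
  nonzero rational `ζ_F(1 - 2k)` for totally real abelian `F` (`SummaryAbelianSpecialValues`).
* `cyclicCubic_discr`, `two_mul_card_cyclicCubic_conductor`, `cohn_cyclicCubic` (Cohn's theorem): cyclic cubic
  fields have square discriminant `f²`, half as many of conductor `f` as primitive cubic characters, and
  `~ 11√3/(36π) ∏ (1 - 2/(p(p+1))) √X` of discriminant `≤ X` (`SummaryCyclicCubicCount`).
* `hilbertSpeiser`, `normalIntegralBasis_primeDegree`, `normalIntegralBasis_cyclotomic` (Hilbert–Speiser): an
  abelian field has a normal integral basis iff some integer has trace `1` iff it lies in a cyclotomic field of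
  squarefree level; prime degree `ℓ`: iff `ℓ ∤ d` (`SummaryHilbertSpeiser`).
* `iwasawaMinus_classNumber`, `iwasawaMinus_classNumber_of_regular` (Iwasawa's class number formula, minus part):
  for odd `p`, `v_p h = v_p h⁺ + μ p^n + λ n + ν` for `ℚ(ζ_{p^(n+1)})`, `n` large; `v_p h = v_p h⁺` at every level
  for regular `p` (`SummaryIwasawaMinus`).
* `ferreroWashington_minus` (Ferrero–Washington, minus part): `μ = 0`, so `v_p h = v_p h⁺ + λ n + ν` for large `n`
  in the cyclotomic tower of every odd prime (`SummaryFerreroWashington`).
* `padicValNat_classNumber_tower_lt_157`, `iwasawa_real_classNumber` (Iwasawa): for `5 ≤ p < 157` and every `n` the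
  exact power of `p` in `h(ℚ(ζ_{p^(n+1)}))` is `p^(n+1)` for the seven irregular primes and `1` otherwise;
  `p ∤ h⁺` climbs the tower from `ℚ(ζ_p)` (`SummaryIwasawaExact`).
* `washington_ellPart`, `infinite_primes_dvd_classNumber_tower` (Washington, minus part): for primes `ℓ ≠ p` the
  difference `v_ℓ h - v_ℓ h⁺` is eventually constant in the cyclotomic tower of an odd prime `p`, so infinitely
  many primes divide its class numbers (`SummaryWashingtonEll`).
* `stickelberger_general`, `tower_pClassGroup_lt_157`: Stickelberger's theorem at every conductor, and for
  `5 ≤ p < 157` the `p`-class group of `ℚ(ζ_{p^(n+1)})`: cyclic of order `p^(n+1)` at the seven irregular primes,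
  trivial at the others (`SummaryStickelbergerGeneral`, `SummaryTowerStructure`).
* `padicZeta_unique_zero_lt_157`, `tower_galois_character_lt_157`: for an irregular pair below `157` the `p`-adic zeta
  function has exactly one zero, a simple one, and Galois acts on the `p`-class group at every level of the tower
  through the character at that zero, Iwasawa's main conjecture for these branches (`SummaryTowerMainConjecture`).
* `gaussSum_valuation`: the order of a Gauss sum at a prime above the characteristic is the digit sum of its
  exponent times that of `ζ_q - 1`; `conjugate_product_principal`: the Stickelberger ideals at primes of every degree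
  are principal; `stickelberger_subfield`, `stickelberger_abelian`, `stickelberger_quadratic`: Stickelberger for
  every abelian field, and `∑ χ(a) a` kills the class group of every quadratic field, at every modulus `m` with the
  field in `ℚ(ζ_m)` (`stickelberger_abelian_modulus`, `stickelberger_quadratic_modulus`; `SummaryStickelbergerAbelian`).
* `powerResidueSymbol_spec`, `powerResidueSymbol_mul`, `powerResidueSymbol_equivariant`,
  `gaussSum_pow_factorisation`, `eisenstein_reciprocity`, `eisenstein_reciprocity_general`,
  `cubic_reciprocity_law`, `cubic_reciprocity_primes`: the power residue symbol of `ℤ[ζ_l]`, Eisenstein's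
  reciprocity law for odd `l` and the law of cubic reciprocity (`SummaryEisensteinReciprocity`).
* `jacobiSum_isMultiplicative`, `jacobiSum_factorisation`, `jacobiSum_grossencharacter`,
  `jacobiSum_grossencharacter_one`, `fermatCurve_points`, `jacobiSum_cubic_primary`: Weil's theorem that
  the Jacobi sums of `ℚ(ζ_l)` are Größencharaktere of conductor dividing `(ζ - 1) ^ 2` with CM infinity
  type, the points of `x ^ l + y ^ l = z ^ l` at every prime `P ∤ l`, and Gauss's theorem on the cubic
  Jacobi sum (`SummaryJacobiSumHecke`).
* `davenportHasse_gaussSum`, `davenportHasse_jacobiSum`, `fermatCurve_extension_count`, `fermatZeta_rational`,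
  `fermatZeta_functionalEquation`, `fermatZeta_riemannHypothesis`, `fermatCurve_residue_extensions`: the lifting
  theorem of Davenport and Hasse, the Weil conjectures for the Fermat curves of degree dividing `q - 1`, and their
  Euler factors at the primes of `ℚ(ζ_l)` as products of those of Größencharaktere (`SummaryDavenportHasse`).
* `diagonalHypersurface_pointCount`, `diagonalHypersurface_omega`, `diagonalHypersurface_zeta`,
  `diagonalHypersurface_functionalEquation`, `diagonalHypersurface_riemannHypothesis`,
  `diagonalHypersurface_bound`: the Weil conjectures for the hypersurfaces `∑ a i x i ^ n = 0`, `n ∣ q - 1`, of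
  every dimension, with the middle Betti number (`SummaryDiagonalHypersurface`).
* `stickelberger_pureGaussSum`, `stickelberger_pureJacobiSum`, `fermatCurve_maximal`, `hermitianCurve_points`,
  `fermatCurve_maximal_extensions`, `fermatHypersurface_supersingular`, `fermatCurve_supersingular_criterion`:
  Stickelberger's pure Gauss sums, maximal Fermat curves, supersingular Fermat hypersurfaces and the criterion
  of Shafarevich and Tate (`SummarySupersingularFermat`).
* `biquadraticReciprocity`, `biquadraticReciprocity_supplements`, `two_isFourthPower_iff`: the law of
  biquadratic reciprocity of Gauss and Eisenstein for all primary Gaussian integers, its supplements at `-1`, `i`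
  and `2`, and Gauss's criterion `p = x² + 64 y²` (`SummaryBiquadraticReciprocity`).
* `burdeReciprocity`, `scholzReciprocity`, `negativePell_dirichlet`, `negativePell_scholz`: the rational quartic
  reciprocity laws of Burde and Scholz; for `(p / q) = 1` `x² - p q y² = -1` is soluble if both quartic symbols are
  `-1` and insoluble if they differ (`SummaryRationalReciprocity`).
* `smyth_mahlerMeasure`, `smyth_isLeast`, `lehmer_reduction`, `smallest_pisot`: Smyth's theorem that
  non-reciprocal integer polynomials have Mahler measure at least the plastic number, which is attained and is
  the smallest Pisot number (`SummarySmyth`).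
* `carlitz_halfFactorial`, `valenza_elasticity`, `lengths_unbounded`: the theorems of Carlitz and Valenza: all
  factorisations of each integer of a number field have equal length iff `h ≤ 2`, and otherwise the largest ratio
  of two lengths is half the Davenport constant of the class group (`SummaryFactorisationLengths`).
* `hajos_factorisation`, `szele_lemma`, `minkowski_tiling`, `minkowski_tiling_integral`: Hajós's theorem on
  factorisations of finite abelian groups by cyclic segments and Minkowski's conjecture on cube tilings by rational
  lattices (`SummaryHajos`).
* `chevalley_ambiguous`, `iwasawa_not_dvd_classNumber`, `ambiguous_classes_prime_degree`,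
  `pow_dvd_classNumber_mul`, `dvd_classNumber_iff_two_le`, `exists_cyclic_pow_dvd_classNumber`
  (`SummaryAmbiguousClasses`): for every cyclic extension of number fields Chevalley's count of the
  classes fixed by Galois; Iwasawa's criterion for one ramified place; a cyclic field of odd prime
  degree `p` with `t` ramified primes has `p ^ (t - 1)` fixed classes, so its class number is
  divisible by `p` iff `t ≥ 2`, and arbitrarily high powers of `p` occur.
* `commonIndexDivisor_iff`, `commonIndexDivisor_lt_degree`, `not_monogenic_of_many_primes`,
  `exists_cyclic_not_monogenic`, `dedekind_cubic_not_monogenic` (`SummaryMonogenic`): the theorem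
  of Dedekind and Hensel on common index divisors, Żyliński's bound `p < n`, and in every degree
  `n ≥ 3` infinitely many cyclic fields with no power integral basis, Dedekind's cubic among them.
* `intValued_leadingCoeff`, `polya_ostrowski`, `regularBasis_of_classNumber_one`,
  `regularBasis_cyclic_iff`, `exists_no_regularBasis` (`SummaryIntegerValued`): the leading coefficients
  of the polynomials carrying a ring of integers into itself, the theorem of Pólya and Ostrowski on
  regular bases, and for cyclic fields of odd prime degree: a regular basis iff one prime ramifies.
* `simplest_cubic_units`, `simplest_cubic_squarefree`, `exists_monogenic_cyclic_cubic`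
  (`SummarySimplestCubic`): the cubic fields of Shanks, their units, integers, discriminants, fixed
  classes and regular bases; monogenic cyclic cubic fields with class number divisible by any power of 3.
* `artin_schreier_theorem`, `absoluteGalois_torsion`, `absoluteGalois_rat_torsion`,
  `absoluteGalois_rat_center` (`SummaryArtinSchreier`): the theorem of Artin and Schreier, torsion in
  absolute Galois groups, over `ℚ` only conjugates of complex conjugation, and the trivial centre.
* `ellenberg_gijswijt`, `capSet_zmod_three`, `progressionFree_littleO`, `naslund_sawin`: the cap
  set theorem (Croot–Lev–Pach, Ellenberg–Gijswijt) with `3 · 2.7552 ^ n` over `𝔽₃`, progression-free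
  sets in `𝔽_q^n` are `o (q ^ n)`, and the bound of Naslund and Sawin on sunflower-free families.
* `christol_automatic`, `furstenberg_hadamard` (`SummaryChristol`): a power series over a finite field
  is algebraic iff its coefficients are automatic; termwise products of algebraic series are algebraic.
* `poisson_gaussian_lattice`, `hecke_theta_transformation` (`SummaryHeckeTheta`): Poisson summation in
  several variables and the theta transformation of every fractional ideal, with all positive weights.
* `classZeta_hecke_functionalEquation`, `dedekindZeta_hecke_functionalEquation`
  (`SummaryHeckeFunctionalEquation`): Hecke's theorem for every number field: continuation of the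
  Dedekind zeta function and of every partial zeta function, residue at 1, functional equation,
  order `r₁ + r₂ - 1` and leading coefficient `-h R / w` at 0, trivial zeros, uniqueness.
* `classNumber_mul_regulator_le`, `classNumber_mul_regulator_ge_of_no_zero`
  (`SummaryBrauerSiegelFields`): Landau's bound `h R ≤ C |d|^(1/2 + ε)` in every degree, and Hecke's
  bound `h R ≥ c |d|^(x/2)` for a field whose zeta function has no zero in `[x, 1)`.
* `classNumber_mul_regulator_ge`, `brauer_siegel_galois` (`SummaryBrauerSiegelGalois`): Brauer's
  bound `h R ≥ c |d|^(1/2 - ε)` and the Brauer–Siegel
  theorem `log (h R) / log √|d| → 1` for the Galois fields of a fixed degree.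
* `different_class_isSquare`, `relative_different_class_isSquare`,
  `relative_discriminant_class_isSquare` (`SummaryHeckeDifferent`): Hecke's theorem that the class
  of the different is a square, also
  for the different and the discriminant of an extension of number fields.
* `stark_inequality`, `odlyzko_rootDiscriminant_bound`, `unramified_extensions_bounded`
  (`SummaryStarkOdlyzko`): Stark's inequality and Odlyzko's asymptotic bound
  `(4 π e^γ)^(r₁/n) (2 π e^γ)^(2 r₂/n)` for root discriminants; no infinite unramified tower below it.
* `galois_cm_relativeClassNumber_finite`, `galois_cm_classNumber_finite`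
  (`SummaryGaloisCMFiniteness`): finitely many Galois CM fields of bounded degree and bounded
  relative class number (Brauer–Siegel; ineffective).
* `brauer_siegel_degree`, `classNumber_mul_regulator_finite`, `cm_relativeClassNumber_finite`
  (`SummaryBrauerSiegelDegree`): the Brauer–Siegel theorem for all fields of a fixed degree, normal
  or not, and finiteness of all CM fields of bounded degree and relative class number.
* `stark_at_most_one_zero`, `heilbronn_simple_zero`, `stark_exceptional_zero_quadratic`,
  `stark_no_exceptional_zero`, `classNumber_mul_regulator_ge_stark`,
  `classNumber_mul_regulator_ge_odd_galois` (`SummaryStarkLowerBound`): at most one zero in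
  `[1 - c(n)/(1 + log |d|), 1]`, a simple one coming from a quadratic subfield of the Galois closure,
  and explicit `h R ≥ c(n) √|d| / (1 + log |d|)` without such a subfield, e.g. Galois of odd degree.
* `stark_exceptional_zero_subfield`, `classNumber_mul_regulator_ge_no_quadratic`,
  `classNumber_mul_regulator_ge_odd`, `classNumber_mul_regulator_ge_effective`,
  `classNumber_mul_regulator_le_effective`, `cm_relativeClassNumber_discr_effective`,
  `cm_classNumber_discr_effective` (`SummaryEffectiveBrauerSiegel`): Stark's effective
  `h R ≥ c(n) |d|^(1/2 - 1/n) / log² |d|` for every field, `√|d| / log |d|` in odd degree, and an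
  explicit bound `|d| ≤ D(n, B)` for CM fields of degree `n ≥ 6` with (relative) class number `≤ B`.
* `brauer_siegel_uniform`, `brauer_siegel_sequence`, `log_classNumber_mul_regulator_le`,
  `cm_relativeClassNumber_finite_uniform` (`SummaryBrauerSiegelUniform`): the theorem of Brauer and
  Siegel with the degree free (Galois fields with `n / log |d| → 0`), and finiteness of Galois CM
  fields with `n ≤ δ log |d|` and bounded relative class number, with no bound on the degree.
* `landau_page_quadratic`, `tatuzawa`, `imaginary_quadratic_class_number_one_exception`
  (`SummaryTatuzawa`): the Landau–Page repulsion, Tatuzawa's effective `h R ≥ c(ε) |d|^(1/2 - ε)` for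
  all quadratic fields but one, and an explicit `D(B)` bounding all imaginary quadratic fields with
  `h ≤ B` but one.
* `dedekindZeta_zero_free_region`, `dedekindZeta_at_most_one_real_zero`
  (`SummaryDedekindZeroFree`): one absolute `c > 0` with at most one zero of `(s - 1) ζ_K`, real and
  simple, in `re s ≥ 1 - c / (1 + log |d| + n log (|im s| + 3))`, for every number field.
* `prime_ideal_psi_uniform`, `prime_ideal_count_uniform`, `prime_ideal_theorem_classical`
  (`SummaryPrimeIdealErrorTerm`): the prime ideal theorem with the classical error term
  `x exp (- c log x / (L + √(n log x)))`, `L = 1 + log |d| + 2 n`, times `L³`, the exceptional zero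
  split off and all constants absolute; `π_K x = li x + O (x exp (- c √(log x)))` for each field.
* `exceptional_zero_distance_galois`, `least_prime_splitting_completely`
  (`SummaryLeastSplitPrime`): in a Galois field `1 - β ≥ exp (- 9 L)` effectively, and some unramified
  prime `p ≤ exp (A n L²)` splits completely, `L = 1 + log |d| + 2 n` and `A` absolute.
* `chebotarev_error_term`, `chebotarev_theta_error_term` (`SummaryChebotarevErrorTerm`):
  Chebotarev's theorem with the classical error term `O (x exp (- c √(log x)))` for every Galois
  extension of number fields, constants depending on it; no functional equation is used.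
* `hecke_character_conductor`, `hecke_character_signs`, `hecke_functionalEquation`,
  `hecke_gaussSum_exists`, `hecke_gaussSum_norm` (`SummaryHeckeCharFunctionalEquation`): every
  finite-order character of every number field is induced by a primitive one, whose completed
  L-series (if nontrivial) is entire with `Λ(1 - s, χ) = W Λ(s, χ̄)`, `|W| = 1`, `W` a normalised
  Gauss sum, these sums having absolute value `√N𝔣`.
* `artinL_linear_functionalEquation`, `artinL_functionalEquation`, `artinL_conjugation_exists`,
  `artinL_completion_unique`, `conductor_discriminant_relative`
  (`SummaryArtinFunctionalEquation`): Artin L-series of all Galois extensions continue with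
  `Λ(1 - s, ρ) = W Λ(s, ρ^∨)`, `|W| = 1`, and the gamma exponents read from complex conjugations
  (holomorphy is not proved); `|d_L| = |d_K|^[L : K] ∏ N 𝔣(χ)` for every abelian `L/K`.
* `abelian_LSeries_growth`, `abelian_LSeries_zero_free` (`SummaryAbelianZeroFree`): the L-series
  of every abelian extension `L/M` grow and stay zero-free (but for one real simple zero of one
  character) with constants depending on `log |d_L|` and `n_L` only.
* `effective_chebotarev`, `effective_chebotarev_psi`, `effective_chebotarev_range`
  (`SummaryEffectiveChebotarev`): Chebotarev for every Galois `L/K` with absolute constants, error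
  `σ H ^ 4 x exp (- c log x / (H + √(n_L log x)))` and the exceptional-zero term (Lagarias-Odlyzko).
* `effective_chebotarev_lower_bound`, `least_prime_frobenius_class` (`SummaryEffectiveLeastPrime`):
  for `L` Galois over `ℚ`, every Frobenius class has an unramified prime `p ≤ exp (A n_L S ^ 2)`,
  `S = 1 + log |d_L| + 2 n_L`, with `A` absolute.
* `deuring_heilbronn`, `real_zero_le_one_sub_discr_rpow`, `effective_chebotarev_lower_bound_any`
  (`SummaryDeuringHeilbronn`): a real zero of `ζ_K` near `1` repels all others, uniformly in the field;
  none exceeds `1 - |d| ^ (- A)`; so the effective lower bound holds for every Galois `L/K`.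
* `least_prime_ideal_chebotarev`, `least_prime_frobenius_discr` (`SummaryLeastPrimeIdeal`): the theorem
  of Lagarias, Montgomery and Odlyzko: every Frobenius class of a Galois `L/K` has an unramified prime
  of norm at most `|d_L| ^ A`, with `A` absolute.
* `linnik_least_prime`, `linnikPrime_zero_unique`, `linnikPrime_repulsion`, `linnikPrime_one_sub_zero_ge`
  (`SummaryLinnikPrime`): Linnik's theorem, every class prime to `q` contains a prime `≤ C q ^ L`, with
  `C`, `L` absolute, from one exceptional zero at most, Deuring-Heilbronn and a log-free density theorem.
* `Gallagher.Summary.exists_log_free_density`, `Gallagher.Summary.exists_page`,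
  `Gallagher.Summary.exists_deuring_heilbronn` (`SummaryGallagher`): Gallagher's density theorem,
  `≤ C (Q (T + 2)) ^ (C (1 - σ))` zeros with `re ≥ σ`, `|im| ≤ T` over all primitive characters of modulus
  `≤ Q` and `ζ`, with absolute `C`; Page's theorem and Deuring-Heilbronn across moduli at every height.
* `Gallagher.SummaryPNT.exists_gallagher_pnt`, `Gallagher.SummaryPNT.exists_psi_progression_ge`,
  `Gallagher.SummaryPNT.exists_pi_progression_ge` (`SummaryGallagherPNT`): Gallagher's prime number
  theorem, effective, over all primitive characters of modulus `≤ Q` with the exceptional term; every class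
  prime to `q` has `≥ c x / (q ^ A φ(q) log x)` primes up to any `x ≥ C q ^ L`: Linnik with a count.
* `MontgomeryVaughan.Summary.goldbach_power_saving`, `goldbach_power_saving_distinct`,
  `goldbach_power_saving_count` (`SummaryMontgomeryVaughan`): the theorem of Montgomery and Vaughan, all
  but `C X ^ (1 - δ)` even `n ≤ X` are sums of two primes, in at least `n ^ (1 - η)` ways.
* `LinnikPowersTwo.Summary.linnik_powers_of_two`, `linnik_powers_of_two_list`,
  `linnik_powers_of_two_count` (`SummaryLinnikPowersTwo`): Linnik's theorem, every large even number is the
  sum of two primes and exactly `k` powers of two, for each large `k`.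
* `exists_classGroup_surjection`, `exists_galois_generalisedDihedral`,
  `exists_galois_dihedralGroup`: every finite abelian group `A` is a quotient of the class group of
  some `ℤ[f i]`, and some Galois field of degree `2|A|` over `ℚ` containing `i` has group `A` over
  `ℚ(i)`, all other automorphisms involutions; every dihedral group occurs over `ℚ`
  (`SummaryDihedralInverseGalois`);
* `exists_galois_abelian`, `infinite_galois_abelian`: every finite abelian group is a Galois group
  over `ℚ`, unramified at any finitely many prescribed primes, infinitely often if nontrivial.
* `abelian_iff_split_congruence`, `le_cyclotomic_of_split_congruence`, `galoisCharacter_dirichlet`: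
  a Galois extension of `ℚ` is abelian iff splitting is decided by congruences; characters of finite
  order of the Galois group of `ℚ` are Dirichlet characters at Frobenius elements.
* `frobenius_density`, `infinitely_many_split_completely`, `infinitely_many_primes_without_root`:
  Frobenius' density theorem (existence form), primes split completely, Jordan's theorem on
  roots modulo primes.
* `chebotarev_density`, `chebotarev_infinite`, `chebotarev_galois`: Chebotarev's density theorem
  over `ℚ`, a conjugation stable set of automorphisms is that of the Frobenius elements of a set
  of primes of Dirichlet density its proportion; every element is one infinitely often.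
* `nthPower_of_density`, `nthPower_iff`, `sixteen_eighthPower`: for `8 ∤ n` an integer is an `n`th
  power iff it is one modulo almost every prime (or a set of primes of density one), and Wang's
  counterexample, `16` is an eighth power modulo every prime but not in `ℚ`.
* `chebotarev_density_numberField`, `chebotarev_infinite_numberField`: Chebotarev's density theorem
  for every finite Galois extension of number fields `L/K`;
  `infinitely_many_split_completely_numberField`, `bauer_numberField`: hence infinitely many primes
  of `K` split completely and these determine Galois subextensions up to inclusion.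
* `frobeniusTrace_residues`, `ramanujanTau_residues_eleven`: hence for a semistable curve and a
  prime `l ≥ 11` every `(t, d)`, `d ≠ 0`, is `(a_q, q)` modulo `l` infinitely often, and every
  such pair is `(τ(p), p)` modulo `11` infinitely often.
* `hermite_minkowski_galois`, `faltings_trace_lemma`, `faltings_trace_lemma_padic`: finitely many
  Galois extensions of bounded degree unramified outside a finite set; finitely many primes
  determine the traces of `l`-adic representations unramified outside it. Hence
  `exists_primes_determine_traces`, `finite_LFunctions`: for every finite `S` finitely many primes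
  determine the `a_q` of all elliptic curves over `ℚ` with good reduction outside `S`, whose
  L-functions form a finite set (Shafarevich's finiteness for L-functions, no condition at `S`).
* `hermite_minkowski`, `finite_openSubgroups_unramified`, `finite_galoisHoms`, `mazur_finiteness`,
  `finite_cocycles`, `finite_torsionModules`: the Galois group unramified outside a finite set is
  small: finitely many fields of bounded degree, Galois or not, homomorphisms to a finite group,
  cocycles in a finite module, and Galois modules `E[N]` of curves with good reduction outside it.
* `bauer`, `eq_iff_split_completely`: Bauer's theorem, Galois subfields of `ℚ̄` are determined by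
  their completely split primes.
* `exists_zpExtension`, `zpExtension_unique`, `zpHom_eq_one_of_cycP`, `padicCharacter_pow_eq_one`:
  Leopoldt's conjecture for `ℚ` (the cyclotomic `ℤ_p`-extension is the only one) and the continuous
  `p`-adic characters of the Galois group: a fixed power of each factors through the cyclotomic one.
* `infinitely_many_frobeniusFields`, `infinitely_many_frobeniusFields_twist`: for semistable
  curves and twists the fields `ℚ(√(a_q² - 4 q))` at ordinary primes are infinitely many;
  `infinite_LFunction_ne_cm`: a semistable curve and a curve with one of the thirteen CM values of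
  `j` have different `a_q` at infinitely many primes.
* `neronOggShafarevich`, `inertia_fixes_torsion_of_good`, `exists_inertia_moves_torsion_of_pole`:
  for `p ≠ q` good reduction at `q` makes the `p`-power torsion unramified, a pole of `j` ramified,
  so at good or multiplicative `q` it decides the reduction; `good_iff_of_same_torsion_field`.
* `potentiallyGood_iff`, `exists_field_inertia_fixes_torsion`: `j` is integral at `q` iff inertia at
  `q` acts on the `p`-power torsion through a finite quotient (`p ≠ q`, any curve).
* `neronOggShafarevich_all`, `good_iff_of_traces`, `traces_eq_of_good`,
  `finite_LFunctions_of_unramified`: at every prime good reduction is trivial inertia on the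
  `p`-power torsion, with no hypothesis; so curves with equal `a_l` at almost all `l` have the same
  bad primes, equal `a_q` at the good ones (Galois form of: isogenous curves have the same bad
  primes), and Tate modules unramified outside a finite set give finitely many L-functions.
* `semistableAt_iff_unipotent`, `semistable_iff_of_traces`, `LFunction_eq_zero_of_additive`,
  `LFunction_eq_of_traces`: strong multiplicity one for all elliptic curves over `ℚ`: semistable
  reduction is unipotent inertia, and curves with equal `a_l` at almost all `l` have the same
  reduction types at every prime and equal L-functions, bad primes included.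
* `inertia_fixes_torsion_iff`, `inertiaImage_cyclic`, `defect_mem`, `good_iff_defect_eq_one`,
  `exists_twist_good_iff`, `defect_dvd_ramificationIndex`, `defect_eq_of_traces`: at `q ≥ 5` with
  `j` integral inertia acts on the torsion prime to `q` through a cyclic group of order
  `12 / gcd(v(Δ), 12)`, one of `1, 2, 3, 4, 6`, which depends only on the traces (Serre, 5.6).
* `inertia_fixes_torsion_of_point`, `inertia_torsion_independent`, `inertia_level_iff`,
  `inertiaImage_card_dvd`, `good_iff_level`, `raynaud_semistable`, `semistableAt_of_torsion_point`:
  at every prime, also `2` and `3`, with `j` integral the inertia image has order dividing `24` and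
  one level `m ≥ 3` decides it, independently of `p`; so `E[m]` or a point of prime order `≥ 5`
  unramified at `q` forces semistable reduction at `q` (Raynaud).
* `inertia_trace_independent`, `inertia_unipotent_of_level`, `inertia_pow_twelve_unipotent`,
  `semistableAt_iff_trace_two`: at every prime `q` inertia satisfies `σ² + 1 = t σ` on all torsion
  prime to `q` with one integer `|t| ≤ 2`, so its traces do not depend on `p`; `σ ^ 12` and the
  elements fixing a level `m ≥ 3` are unipotent, and semistable reduction is `t = 2`.
* `inertia_pow_fixes_torsion`, `inertia_index_primeFactors`, `torsion_tame`: at every prime `q`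
  inertia has exponent dividing `12 N` on `E[N]`, `q ∤ N`, so the ramification index of `q` in
  `ℚ(E[N])` has its primes among those of `6 N`: at `q ≥ 5` the torsion fields are tamely ramified.
* `torsion_unramified_iff`, `torsion_ramified_of_additive`, `badPrimes_of_torsion`,
  `exists_bound_torsion_ramification`: for odd `p ≠ q` inertia at `q` fixes `E[p]` iff the reduction
  is good, or multiplicative with `p ∣ v_q(j)`; so additive primes always ramify in `ℚ(E[p])`, and
  for large `p` the ramified primes besides `p` are the bad primes.
* `LFunction_eq_artinFactor`, `coinvariants_rank`: at every prime `q`, bad ones included, and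
  every `p ≠ q` the Euler factor of the L-function is `det (1 - X F | V_I)` on the coinvariants of
  inertia in the rational Tate module, whose dimension is the reduction type: `L(E, s)` is the
  L-function of the Galois representation.
* `compatibleSystem`: the rational Tate modules of every elliptic curve over `ℚ` are a strictly
  compatible system: one integral polynomial at each prime is `det (1 - X Frob | V_I)` for every
  `p ≠ q`, pure at good primes, and their Euler product is `L(E, s)`.
* `semistable_iff_of_congruence`, `congruence_at_good`, `congruence_at_multiplicative`,
  `levelRaising_condition`, `good_iff_of_congruence`: `a_l ≡ a'_l (mod p ^ n)` at almost all `l`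
  propagates to every semistable `q ≠ p` (Kraus–Oesterlé): for `p ^ n ≥ 5` semistable together,
  good against multiplicative needs `p ^ n ∣ (q + 1)² - a_q²`, none if `p ^ n > (q + 1)²`.
* `torsionPoint_reduction`, `splitMultiplicative_of_torsionPoint`: with a rational point of prime
  order `p ≥ 5` every `q ≠ p` is semistable, `p ∣ q + 1 - a_q` if good, and split or `p ∣ q + 1` if
  multiplicative; `p > (√q + 1)²` forces split multiplicative, so always at `2` for `p ≥ 7`.
* `traceDistribution`, `traceDistribution_semistable`, `infinite_traces_semistable`: with full
  image on `E[N]` the pairs `(a_q, q) mod N` have the densities of trace and determinant in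
  `GL₂(ℤ/N)`, all admissible pairs occur (semistable: `N` prime to `210`); `density_dvd_pointCount`,
  `density_dvd_trace`: so `l ∣ #E(𝔽_q)` has density `(l² - 2) / ((l - 1)(l² - 1))`, `l ∣ a_q`
  `l / (l² - 1)`; `ramanujanTau_density_eleven`: `11 ∣ τ(p)` has density `11 / 120`.
* `galois_independence`, `frobeniusTrace_pairs`: two curves with non-integral `j` differing in
  `a_q²` at one good prime are independent modulo every large `l`: Galois gives every pair of
  matrices of equal determinant, and every `(a_q, a'_q, q)` occurs infinitely often modulo `l`.
* `galois_independence_padic`, `galois_independence_padic_of_traces`: for every prime `p` such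
  curves are independent on the torsion of `p`-power order: some `k` is such that on every pair
  `E[p ^ n]`, `E'[p ^ n]` Galois gives all pairs of matrices congruent to one modulo `p ^ k` with
  equal determinants; `primaryHom_eq_zero`, `primaryHom_eq_zero_of_traces`: so over no number
  field is there a nonzero equivariant homomorphism between their points of `p`-power order.
* `galois_independence_adelic`, `galois_independence_adelic_of_traces`: Serre's theorem for two
  curves in full: one `m` is such that for every `N` and all bases of `E[N]`, `E'[N]` Galois gives
  every pair of invertible matrices congruent to one modulo `m` with equal determinants.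
* `frobeniusTrace_pairs_adelic`, `frobeniusTrace_pairs_coprime`, `pointCount_separated` (each also
  `_of_traces`): so one `m` is such that for every `N` those classes are Frobenius classes of
  infinitely many primes `r`; for `N` prime to `m` every `(t, t', d)`, `d` a unit, is `(a_r, a'_r, r)`
  modulo `N` infinitely often, in particular `N ∣ r + 1 - a_r` with `r + 1 - a'_r` prime to `N`.
* `traceSquares_finite_or_density_zero`, `traceSquares_iff_quadraticTwist`,
  `coefficients_eq_of_density_gt_half`: for two curves with non-integral `j` either `a_q² = a'_q²`
  at almost all primes, which is the same as `a'_q = χ(q) a_q` for a quadratic Dirichlet character,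
  or `a_q = ± a'_q` has density zero; agreement of `a_q` on more than half the primes is agreement
  at almost all.
* `traceSquares_finite_or_frobeniusFields_density_zero`, `quadraticTwist_of_frobeniusFields`: two
  such curves with one Frobenius field `ℚ(√(a_q² - 4q))` on a set of primes of positive density
  differ by a quadratic character at almost all primes (Kulkarni, Patankar and Rajan).
* `selfTwist_iff`, `exceptional_iff_selfTwist`, `selfTwist_of_cm_all`: the adelic image is not open
  iff for a squarefree `d ≠ 1` Galois maps every `E[p^∞]` onto `E^(d)[p^∞]` with finite kernel, as
  for the thirteen CM invariants; `traceSquares_iff_twistIsogeny` (`_of_traces`),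
  `twistIsogeny_of_frobeniusFields`: the two previous conclusions with an actual twist, `E'[p^∞]`
  maps onto `E^(d)[p^∞]` for every `p`.
* `tateHom_numberField_iff_traceSquares` (`_of_pole`), `tateIsogeny_quadratic_iff_traceSquares`:
  two curves with open image have a nonzero homomorphism of points of `p`-power order equivariant
  over some number field iff `a_q² = a'_q²` for almost all `q`, and then one onto with finite
  kernel over a field `ℚ(√d)`; `openImage_iff_of_tateHom`: such a homomorphism between any two
  curves forces both or neither to have open image.
* `tateHom_numberField_iff_all`, `tateIsogeny_numberField_iff_all`: for any two curves a nonzero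
  homomorphism of points of `p`-power order over some number field exists, and then one onto with
  finite kernel, iff `a'_q² = a_q²` at almost all primes or both curves are exceptional for one
  field `ℚ(√d)`; `pointTrace_twelve_eq_of_exceptional`: two curves exceptional for one field have
  the same trace of the twelfth power of Frobenius at almost all primes.
* `finite_torsion_over_divisionField_iff` (`_of_pole`), `finite_torsion_abelian_over_divisionField`:
  for two curves with open image, over every number field only finitely many torsion points of the
  first are fixed by the automorphisms fixing all torsion of the second iff `a_q² ≠ a'_q²` for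
  infinitely many `q`; then also over abelian extensions of that field.
* `galois_independence_family` (`_of_traces`), `galois_independence_family_iff`: Serre's theorem
  for any finite family of curves with open image: the joint image on all torsion is open among the
  tuples of one determinant iff the `a_q²` of every two differ at infinitely many `q`;
  `finite_torsion_abelian_over_divisionFields`: then each has finitely many torsion points over
  abelian extensions of the field of all torsion of the others.
* `frobeniusTrace_tuples_family`, `traces_algebraicIndependent`, `traces_algebraicIndependent_iff`: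
  for such families every tuple `((t_i), d)`, `d` a unit, is `((a_r), r)` modulo every `N` prime to
  some `m` at infinitely many primes `r`; so the traces and `r` satisfy no polynomial relation at
  almost all primes iff the squares of every two traces differ infinitely often.
* `traces_relation_density_zero` (`_of_pole`): for such families every nonzero polynomial relation
  between the traces `a_r` and `r` holds only on a set of primes `r` of Dirichlet density zero.
* `coefficients_eq_of_density_gt_three_quarters`, `LFunction_eq_of_density_gt_three_quarters`: any
  two curves, with complex multiplication or without, whose traces agree on a set of primes of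
  density above `3/4` agree at almost all primes and have one L-function; above `1/2` suffices
  unless both are exceptional for one field (`coefficients_eq_of_density_gt_half_all`);
  `twist_agreement_density_three_quarters`: `3/4` is sharp, attained by twists of exceptional ones.
* `traces_linearIndependent_iff`, `LFunction_linearIndependent_iff`: for any finitely many curves,
  with complex multiplication or without, the traces `a_q` satisfy no nontrivial linear relation
  over `ℂ` at almost all primes iff every two differ at infinitely many, and the L-functions are
  linearly independent over `ℂ` iff they are distinct.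
* `traceSquares_iff_twist_all`, `traceSquares_iff_twistIsogeny_all`: rigidity of quadratic twists
  for any two curves, exceptional or not: `a'_q² = a_q²` at almost all primes iff one squarefree
  `e` has `a'_q = (e / q) a_q` there, iff every `p`-divisible group of the second maps onto that of
  the twist by `e` with finite kernel; `traceSums_iff_LFunctions`: two finite families have equal
  sums of traces at almost all primes iff they have the same L-functions with multiplicity.
* `LSeries_prod_eq_iff` (`_tateIsogeny`), `LSeries_multiplicativelyIndependent`: unique
  factorisation: two products of L-series agree on a half-plane iff the factors match with equal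
  L-functions, that is with isogenous Tate modules, so pairwise distinct L-series satisfy no
  multiplicative relation.
* `infinitely_many_ordinary`, `infinitely_many_dvd_pointCount`: infinitely many primes with
  `q ∤ a_q`, and with `l ∣ #E(𝔽_q)` for each prime `l`; `infinitely_many_not_dvd_pointCount`,
  `infinitely_many_not_dvd_pointCount_all`: Katz's theorem in the prime case, infinitely many with
  `l ∤ #E(𝔽_q)` when `E[l]` has no stable subgroup of order `l` (semistable: every `l ≥ 11`).
* `katz_iff`, `katz_density_iff`, `katz_prime_iff`: Katz's theorem in full, every curve and every
  `m`: `m ∣ #E(𝔽_q)` for almost all `q` (or on density one) iff some finite stable groups of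
  points `C ≤ D` of index `m` have `σ P - P ∈ C` on `D`, that is `E/C` has `m` rational torsion
  points (in group form: isogenies of curves are not used).
* `FA.Summary.frobenius_matrix_numberField`, `trace_det_density_numberField`,
  `infinite_dvd_pointCount_numberField`, `katz_prime_numberField`,
  `katz_prime_density_numberField` (`SummaryKatzNumberField`): for every curve over every number
  field (CM included) Frobenius at a good `v` acts on `E[N]` with trace `a_v` and determinant `N v`
  modulo `N`, so `(a_v, N v)` is distributed as in the image; every `m` divides infinitely many
  `#E(k_v)`; Katz at a prime: `p` divides almost all (or density one of) `#E(k_v)` iff there is a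
  point of order `p` over `K` or a stable line with trivial action on the quotient.
* `FA.Summary.joint_trace_density_numberField`, `trace_congruence_iff_numberField`,
  `traces_eq_of_density_one_numberField`, `traces_eq_of_hom_numberField`,
  `katz_of_hom_numberField` (`SummaryTracePairsNumberField`): any two curves over any number field:
  `a_v ≡ a'_v` modulo `N` on density one iff all traces on `E[N]`, `E'[N]` agree; strong
  multiplicity one (equal `a_v` on density one gives equal `a_v` at every common good place); so
  does an equivariant homomorphism of geometric points with finite kernel.
* `congruence_of_torsionIso_numberField`, `torsionIso_iff_congruence_numberField`,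
  `torsionIso_of_equal_traces_real_numberField`, `torsionIso_of_hom_numberField`
  (`SummaryTorsionIsoNumberField`): Brauer–Nesbitt over number fields: if `E[p]` is absolutely
  irreducible, `E[p^n]` and `E'[p^n]` are isomorphic Galois modules iff `a_v ≡ a'_v` modulo `p^n`
  on density one; with a real place and `p` odd irreducibility suffices.
* `sl_image_of_three_traces_numberField`, `gl_image_iff_three_traces_numberField`,
  `absIrreducible_of_three_traces_numberField`,
  `torsionIso_iff_congruence_of_three_traces_numberField`
  (`SummaryFrobeniusCriterionNumberField`): Serre's criterion over number fields: for `p ≥ 5` three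
  traces of Frobenius modulo `p` give `SL₂(𝔽_p)` in the image, and for `p ∤ disc K` the image is
  `GL₂(𝔽_p)` iff such places exist.
* `sl_level_of_three_traces_numberField`, `gl_level_of_three_traces_numberField`,
  `torsion_field_degree_of_three_traces_numberField`,
  `trace_det_density_of_three_traces_numberField`,
  `dvd_pointCount_density_of_three_traces_numberField` (`SummaryFrobeniusCriterionLevel`): three
  traces at each prime `p ≥ 5` of `N` give `SL₂(ℤ / N)`, and for `N` prime to `disc K` the group
  `GL₂(ℤ / N)`, the degree of the field of `E[N]` and the density of `(a_v, N v)` modulo `N`.
* `pair_image_iff_trace_numberField`, `joint_traces_infinite_numberField`,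
  `twist_of_traces_numberField`, `not_isogenous_of_trace_numberField`
  (`SummaryIndependenceNumberField`): for two curves over a number field meeting the criterion at
  `l ≥ 7`, `l ∤ disc K`: every pair of equal determinant iff some `a_v² ≢ a'_v²` modulo `l`, and
  otherwise a twist by a sign character modulo `l`.
* `trace_value_density_zero_of_three_traces_numberField`,
  `supersingular_density_zero_of_three_traces_numberField`,
  `ordinary_density_one_of_three_traces_numberField`
  (`SummarySupersingularCriterionNumberField`): three traces at one prime `l ≥ 5`, `l ∤ disc K`,
  give density zero for each value of `a_v` and for the supersingular places, also for integral `j`.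
* `torsion_conjugate_of_three_traces_numberField`,
  `torsion_order_degree_of_three_traces_numberField`,
  `torsion_degree_le_of_three_traces_numberField`, `no_torsion_of_three_traces_numberField`,
  `isogeny_degree_of_three_traces_numberField` (`SummaryFrobeniusCriterionDegree`): three traces at
  the primes of `N` make the points of exact order `N` conjugate of degree `N² ∏ (1 - 1/p²)`, so
  none is rational, and an `l`-isogeny needs an extension of degree above `l`.
* `siegel_linearisation`, `siegel_stability`, `siegel_linearisation_ae`
  (`SummarySiegelLinearisation`): Siegel's theorem: a fixed point of an analytic map with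
  Diophantine multiplier of modulus one is linearisable and stable; almost every rotation number
  qualifies.
* `shannon_mcmillan_breiman`, `shannon_mcmillan_breiman_invariant`
  (`SummaryShannonMcMillanBreiman`): the information of the `n`-cylinder of a point divided by `n`
  tends almost everywhere and in mean to the entropy of the partition.
* `lomonosov`, `lomonosov_invariant`, `aronszajn_smith` (`SummaryLomonosov`): a nonscalar operator
  commuting with a nonzero compact operator has a hyperinvariant subspace.
* `malgrange_ehrenpreis`, `malgrange_ehrenpreis_finite_order`, `malgrange_ehrenpreis_solvable`,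
  `malgrange_diffOp_eq`, `malgrange_diffOp_X` (`SummaryMalgrangeEhrenpreis`): every nonzero
  operator with constant coefficients has a fundamental solution of finite order, so the equation
  with smooth compactly supported right side has smooth solutions.
* `morse_sard`, `morse_sard_ae`, `morse_sard_dense`, `morse_sard_image_null` (`SummaryMorseSard`):
  the critical values of a smooth map between spaces of any finite dimensions are null, so the
  regular values are dense in the target.
* `kolmogorov_sinai`, `kolmogorov_sinai_invertible`, `kolmogorov_sinai_invariant`,
  `kolmogorov_sinai_rate`, `kolmogorov_sinai_def`, `kolmogorov_shift_apply`,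
  `kolmogorov_bernoulli`, `kolmogorov_shifts_not_isomorphic` (`SummaryKolmogorovSinai`): the entropy
  is the rate of a generator and an invariant of isomorphism; the Bernoulli shifts of two and of
  three equally likely symbols are not isomorphic.
* `variational_principle`, `variational_goodwyn`, `variational_invariant_measure`,
  `variational_entropy_zero_iff` (`SummaryVariationalPrinciple`): for a continuous map of a
  nonempty compact metric space the topological entropy is the supremum of the entropies of the
  invariant probability measures, and one such measure exists (Krylov and Bogolyubov).
* `rudolph`, `rudolph_two_three`, `rudolph_iff`, `host_equidistribution`, `host_normal`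
  (`SummaryRudolph`): for coprime `p, q ≥ 2` a jointly ergodic measure on the circle invariant
  under times `p` and times `q`, of positive entropy, is Haar measure (Rudolph); almost every
  point of an ergodic times `p` measure of positive entropy is normal in base `q` (Host).
* `honeycomb_connective_constant`, `honeycomb_lower`, `honeycomb_critical_divergence`,
  `honeycomb_summable_below` (`SummaryHoneycomb`): the connective constant of self-avoiding
  walks on the honeycomb lattice is `√(2 + √2)` (Duminil-Copin and Smirnov).
* `percolation_critical`, `percolation_linear_lower`, `percolation_exponential_decay`,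
  `percolation_unique`, `percolation_exists_cluster`, `percolation_crossing_half`
  (`SummaryHarrisKesten`): the critical probability of bond percolation on the square lattice is
  one half, with none at one half (Harris, Kesten), and the infinite cluster is unique
  (Burton and Keane).
* `bernoulli_shift_ergodic`, `bernoulli_finitely_determined`, `sinai_factor`, `ornstein`,
  `ornstein_iff`: Bernoulli shifts are ergodic and finitely determined, an ergodic finite-state
  process has every Bernoulli shift of no larger entropy as a factor (Sinai), and Bernoulli shifts
  are isomorphic if and only if their entropies are equal (Ornstein);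
* `ornstein_finitely_determined`, `markov_finitely_determined`, `friedman_ornstein`,
  `markov_iso_iff`: finitely determined processes of equal positive entropy are isomorphic, mixing
  Markov shifts are finitely determined, hence isomorphic to Bernoulli shifts, and are isomorphic
  to each other if and only if their entropies are equal (Ornstein, Friedman–Ornstein);
* `factor_finitely_determined`, `bernoulli_factor_trivial`, `bernoulli_factor_isomorphic`,
  `bernoulli_factor_bernoulli`, `markov_factor_bernoulli`: factors of finitely determined processes
  are finitely determined, and finite-state factors of Bernoulli shifts and of mixing Markov shifts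
  are Bernoulli (Ornstein);
* `channel_capacity`, `channel_capacity_minimax`, `channel_coding_achievable`,
  `channel_coding_strong_converse`, `channel_coding_iff`, `binary_symmetric_capacity`: Shannon's
  coding theorem for memoryless channels with Wolfowitz's strong converse, and the capacity of
  the binary symmetric channel;
* `krieger_generator`, `krieger_partition`, `krieger_generator_pos`, `krieger_binary`,
  `krieger_converse`: Krieger's finite generator theorem: an ergodic finite-state process
  without atoms of entropy rate below `log k` is isomorphic to a process on `k` symbols, and
  entropy at most `log k` is necessary;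
* `dye_theorem`, `dye_eventual_agreement`, `hopf_equivalence`, `dye_bernoulli`,
  `bernoulli_measure_singleton`: Dye's theorem: ergodic automorphisms of standard probability
  spaces without atoms are orbit equivalent to eventual agreement of fair coins and so to
  each other, with Hopf's equivalence lemma; all nondegenerate Bernoulli shifts are orbit
  equivalent;
* `gaboriau_cost`, `gaboriau_cost_attained`, `gaboriau_orbit_equivalence`,
  `free_bernoulli_action`, `gaboriau_bernoulli`: Gaboriau's theorem: a free measure-preserving
  action of a free group has cost the number of generators, so orbit equivalent free actions of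
  free groups have equally many generators, for example their shifts on fair coins;
* `bowen_splitting`, `bowen_generator_independent`, `bowen_conjugacy`, `bowen_f_bernoulli`,
  `bowen_bernoulli`: Bowen's f-invariant of actions of free groups does not depend on the
  generating observable, so isomorphic Bernoulli shifts of a free group have equal entropy;
* `triangular_model`, `triangular_hex`, `triangular_rhombus_half`, `triangular_rsw`,
  `triangular_one_arm`, `triangular_cardy` (`SummaryCardy`): critical site percolation on the
  triangular lattice: the lemma of Hex, the crossing bounds of Russo, Seymour and Welsh, power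
  decay of one arm, and the formula of Cardy proved by Smirnov, on the equilateral triangle only.
* `onsager_free_energy`, `onsager_anisotropic`, `onsager_single_integral`,
  `onsager_critical_singularity` (`SummaryOnsager`): Onsager's exact free energy of the
  two-dimensional Ising model at every coupling, and the failure of twice differentiability at
  `log (1 + √2) / 2`; the spontaneous magnetisation is not treated.
* `gromov_polynomial_growth`, `gromov_word_ball` (`SummaryGromov`): a finitely generated group has
  polynomial growth iff it is virtually nilpotent (Gromov's theorem by Kleiner's proof, with Wolf's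
  converse).
* `FA.Varopoulos.Summary.varopoulos`, `gromov_weak_growth`, `gromov_gap`, `growth_trichotomy`,
  `isoperimetric` (`SummaryVaropoulos`): weak polynomial growth forces virtual nilpotence; simple
  random walk on a finitely generated group is recurrent iff it is finite, virtually `ℤ` or
  virtually `ℤ²`; otherwise cubic growth and three-dimensional isoperimetry (Varopoulos).
* `supersingular_density_zero`, `ordinary_density_one`, `traceFrobenius_density_zero`: for a
  non-integral `j` the primes with `p ∣ a_p`, or with `a_p = t` for a fixed `t`, have density zero.
* `supersingular_density_dichotomy`, `traceFrobenius_density_dichotomy`,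
  `supersingular_density_half_iff`, `supersingular_density_zero_iff`,
  `supersingular_density_half_of_cm`: for EVERY curve the supersingular primes have density `0` or
  `1 / 2`, the latter exactly when one (then unique) quadratic field has `a_p = 0` at its inert
  good primes, as for the thirteen CM invariants.
* `traceValue_density_zero`, `traceValue_density`, `traceBounded_density_zero`,
  `anomalous_density_zero`: for EVERY curve the primes with `a_p = t ≠ 0`, those with `a_p ≠ 0`
  bounded, and the anomalous ones (`a_p ≡ 1 mod p`) have density zero.
* `pointCount_prime_density_zero` (`_of_pole`, `_37a1`), `trace_prime_density_zero`,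
  `pointCount_primeFactors_density_one`, `pointCount_divisible_density_one`,
  `trace_divisible_density_one`: for a curve with open image almost every `#E(𝔽_q)` and `a_q` has
  at least `k` prime divisors in any set of primes with divergent sum of reciprocals, so the
  primes `q` with `#E(𝔽_q)` prime have density zero (upper half of Koblitz's question).
* `pointCount_prime_density_zero_all` (`_32a`: with CM), `pointCount_primeFactors_density_one_all`,
  `trace_prime_density_zero_all`, `trace_primeDivisors_density_one_all`: the same for every elliptic
  curve over `ℚ`, the primes dividing being any.
* `pointCountCoprimeDensity`, `pointCountCoprimeDensity_large`, `primePointCount_subset`,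
  `pointCountCoprimeDensity_large_of_traces`, `pointCountCoprimeDensity_37a1`: for finitely many
  primes with joint full image the exact density of the `q` with `#E(𝔽_q)` prime to all of them,
  the product of the local factors of Koblitz's constant; prime point counts are among them.
* `frobeniusField_density_zero` (`_of_pole`), `trace_square_density_zero`,
  `pointCount_square_density_zero`: with open image `ℚ(√(a_q² - 4q))` is a given field, or `a_q`, or
  `#E(𝔽_q)`, a given multiple of a square, only on a set of primes of density zero (no rate);
  `frobeniusField_density_dichotomy`: on an exceptional curve its field has density `1/2` and every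
  other one finitely many primes.
* `fullTorsion_density` (`_of_surjective`), `fullTorsion_avoid_density` (`_of_surjective`): for every
  curve and `N` the `q` at which `E(𝔽_q)` has `N²` points killed by `N` have density one over the
  image of Galois on `E[N]`, and those avoiding this at finitely many levels the matching proportion
  (`∏ (1 - 1/#GL₂(𝔽_l))` for surjective image); `cyclicReduction_subset`,
  `cyclicReduction_le_serreConstant`: this bounds the cyclic reductions from above (no asymptotic
  and no infinitude of cyclic ones); `noncyclicReduction_density_pos`,
  `infinitely_many_noncyclic_reductions`, `noncyclicReduction_of_rational_torsion`: non-cyclic ones.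
* `exponent_duke_summable`, `exponent_duke_density`, `exponent_le_sqrt_density_zero`,
  `sqrt_sub_one_le_exponent`, `reduced_group_structure` (Duke): for EVERY curve the good `q` at
  which `E(𝔽_q)` has exponent below `q^(3/4) / log q` have convergent `∑ 1/q`, so density zero;
  the exponent is always at least `√q - 1`.
* `mass_formula` (Deuring): over `𝔽_q`, `q ≥ 5`, the isomorphism classes of elliptic curves have
  `∑ 1 / #Aut = q`.
* `classes_trace_sum`, `classes_trace_sq_sum`, `two_mul_le_card_classes`: those classes have
  `∑ a / #Aut = 0`, `∑ a² / #Aut = q² - 1`, and number at least `2 q`.
* `card_classes`, `card_classes_mod_twelve`: there are exactly `2 q + 6`, `2 q + 2`, `2 q + 4`, `2 q`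
  classes as `q ≡ 1, 5, 7, 11 (mod 12)`.
* `classes_two_torsion` (Lenstra): the classes with `1`, `2`, `4` rational points killed by two have
  masses `(q + 1)/3`, `q/2`, `(q - 2)/6`, the proportions of Chebotarev for `S₃`.
* `classes_three_torsion_one`, `classes_three_torsion_two`, `classes_three_dvd` (Lenstra): those
  with `1`, `3`, `9` points killed by three have masses `(5 q + 1)/8`, `q/3`, `(q - 3)/24` at
  `q ≡ 1 (mod 3)` and `(q + 1)/2`, `(q - 1)/2`, `0` else: `3 ∣ #E(𝔽_q)` on `≈ 3/8`, resp. `1/2`.
* `classes_j_mass`, `classes_j_trace`: for each `j` in `𝔽_q`, `q ≥ 5`, the classes with that
  invariant (the twists) have `∑ 1 / #Aut = 1` and `∑ a / #Aut = 0`.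
* `trace_mod_hasse_invariant`, `supersingular_invariants_le`, `supersingular_mass_le`,
  `trace_invariants_le` (Deuring): `a ≡` the coefficient of `x^(q-1)` in `(x³ + A x + B)^((q-1)/2)`
  modulo `q`; so at most `q/12 + 2` values of `j` in `𝔽_q` are supersingular, those classes have mass
  at most `q/12 + 2`, and any other trace modulo `q` occurs on at most `(q + 3)/2` values of `j`.
* `supersingular_invariants_card`, `supersingular_special_invariants`, `supersingular_mass_formula`
  (Deuring, Igusa, Eichler): over `𝔽̄_q`, `q ≥ 5`, exactly `⌊q/12⌋ + [q ≡ 2 (3)] + [q ≡ 3 (4)]` values
  of `j` belong to curves without a point of order `q`; `0` is one iff `q ≡ 2 (mod 3)`, `1728` iff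
  `q ≡ 3 (mod 4)`; weighting these two by `1/3`, `1/2` the total is `(q - 1)/12`.
* `supersingular_j_pow_sq`, `supersingular_model`, `supersingular_nsmul_xc` (Deuring): such curves
  (`q ≥ 5`) have `j` in `𝔽_(q²)` and a model over it; on them `x(q P) = (x(P)^(q²) - s)/C`.
* `deuring_roots_pow_sq`, `supersingular_legendre_group`, `exists_maximal_minimal_curves`: the roots
  of Deuring's polynomial lie in `𝔽_(q²)`, their curves have groups `(ℤ/(q ± 1))²` over it, and every
  field with `q²` elements has curves with `(q + 1)²` and `(q - 1)²` points (Hasse's bound is sharp).
* `deuring_criterion`, `ordinary_qPower_torsion`: over `𝔽_q`, `q ≥ 5`, no point of order `q` over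
  `𝔽̄_q` iff `q ∣ a` iff `a = 0` iff `#E(𝔽_q) = q + 1` iff `π² = -q`; otherwise `E[qⁿ] ≅ ℤ/qⁿ`.
* `trace_eq_zero_iff_supersingular_j`, `trace_zero_mass`, `exists_card_eq_succ`: over `𝔽_q` trace zero
  depends only on `j`, those classes have mass the number of supersingular `j` in `𝔽_q`, and a curve
  with `q + 1` points exists for every `q ≥ 5` not `1 (mod 24)` (Waterhouse's case `a = 0`).
* `supersingular_card_eq_genus_succ`, `supersingular_card_eq_one_iff`,
  `supersingular_pointCount_extensions` (Deuring, Eichler): there are `dim S₂(Γ₀(q)) + 1` supersingular
  `j`, a single one exactly for `q = 5, 7, 13`; trace zero iff `qⁿ + 1` points over `𝔽_(qⁿ)` (`n` odd)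
  or `((-q)^(n/2) - 1)²` (`n` even), for one or for every `n`.
* `hasse_invariant_qExpansion`, `hasse_polynomial_landen` (Gauss, Deligne): in `θ₃⁴`, `θ₄⁴` the
  Hasse invariant `θ₃^(4 m) H (λ)` has `q`-expansion `1` modulo `p = 2 m + 1`, by Landen's
  transformation of Deuring's polynomial.
* `singularModulus_supersingular`, `classPolynomial_roots_card_le`, `exists_classPolynomial_supersingular`,
  `supersingular_of_dvd_classPolynomial` (Deuring): if `D` is no square in `ℚ_p`, `p ≥ 5`, the roots
  mod `p` of the class polynomial are supersingular; so `a_p = 0` for a good `p` dividing `H_D (j)`
  (Elkies' key lemma).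
* `elkies_supersingular_model`, `elkies_supersingular_infinite`, `elkies_supersingular_model_infinite`
  (Elkies): every elliptic curve over `ℚ` has infinitely many supersingular primes of good
  reduction, `a_p = 0`.
* `elkies_odd_degree`, `elkies_odd_degree_curve` (Elkies): an algebraic number of odd degree reduces
  to a supersingular invariant over primes beyond any bound; a curve over a number field of odd
  degree has supersingular reduction over infinitely many primes.
* `elkies_classPolynomial_square` (Elkies): for every prime `p ≥ 5`, `H_{-4p}` for `p ≡ 1 (mod 4)`,
  `H_{-p} H_{-4p}` for `p ≡ 3 (mod 4)` is modulo `p` the square of the supersingular polynomial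
  of `𝔽_p`; both split completely there and the values are squares.
* `singularModulus_ordinary`, `singularModulus_supersingular_iff`, `exists_classPolynomial_dichotomy`,
  `trace_eq_zero_iff_of_dvd_classPolynomial` (Deuring): for `p ≥ 5` the roots mod `p` of the class
  polynomial are supersingular iff `D` is no square in `ℚ_p`, else ordinary; so at a good `p`
  dividing the numerator of `H_D (j)`, `a_p = 0` iff `D` is no square in `ℚ_p`.
* `deuring_reduction_field`, `frobenius_field_of_dvd_classPolynomial` (Deuring): an ordinary reduction
  of a singular modulus of discriminant `D` has `D (a² - 4 q)` a nonzero square.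
* `classPolynomial_commonRoot_nonsplit`, `prime_dvd_classPolynomial_zero`,
  `prime_dvd_classPolynomial_1728` (Gross, Zagier, the support): for `D₁ D₂` no square a common root
  mod `p ≥ 5` of the class polynomials needs `p` non-split in both fields; `p ∣ H_D (0)` forces
  `p ≡ 2 (mod 3)`, `p ∣ H_D (1728)` forces `p ≡ 3 (mod 4)`, outside `ℚ(√-3)` and `ℚ(i)`.
* `deuring_existence`, `traceOfFrobenius_range`, `pointCount_range` (Deuring, Waterhouse): for every
  prime `p ≥ 5` the traces of the curves over `𝔽_p` are exactly the `a` with `a² ≤ 4 p`, so every
  order within `2 √p` of `p + 1` occurs.
* `rueck`, `rueck_weierstrass` (Rück): for `p ≥ 5` and `d ∣ e` some curve over `𝔽_p` has the group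
  `ℤ/d × ℤ/e` exactly when `d ∣ p - 1` and `d e` is within `2 √p` of `p + 1`;
  `singular_disc_dvd_frobenius_disc`: at an ordinary reduction of a singular modulus of discriminant
  `D` prime to `p`, `D ∣ a² - 4 p`.
* `deuring_count_trace`, `deuring_class_mass`, `supersingular_primeField_card`,
  `hurwitz_relation_second_moment` (Deuring): for `p ≥ 5` and `t² < 4 p` the curves of trace `t`
  over `𝔽_p` have mass `H(4 p - t²) / 2`; so `H(4 p) / 2` invariants in `𝔽_p` are supersingular
  and `∑ t² H(4 p - t²) = 2 p² - 2`.
* `schoof_count`, `schoof_conditions`, `schoof_class_mass`, `ordinary_invariant_form` (Schoof): those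
  with all `n²` points killed by `n` rational have mass `H((4 p - t²) / n²) / 2` if `n ∣ p - 1` and
  `n² ∣ p + 1 - t`, and occur for no other `n`; an ordinary invariant has one form for its trace.
* `group_census`, `group_census_mass`, `supersingular_primeField_classNumber`: the curves with group
  `ℤ/d × ℤ/e` have mass `½ ∑ μ(m) H((4 p - t²) / (d m)²)`; the supersingular invariants in `𝔽_p`
  number `h(-4 p) / 2`, `2 h(-p)`, `h(-p)` for `p ≡ 1 (mod 4)`, `3 (mod 8)`, `7 (mod 8)`.
* `exponent_max_ge`, `mestre`, `mestre_twist`, `card_eq_of_order_gt` (Mestre): at every prime `q ≥ 3`
  a curve over `𝔽_q` or one with the opposite trace (its non-square twist) has exponent at least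
  `q^(3/4) / 5`, and for `q > 82944` a point of order above `4 √q`, which determines the point count.
* `supersingular_frobenius_ne_one`, `supersingular_frobenius_sq_iff`, `supersingular_torsion_dvd`,
  `supersingular_three_mod_four`: at a supersingular good `q ≥ 5` Frobenius is trivial on no `E[n]`,
  `n ≥ 3`, its square exactly for `n ∣ q + 1`; the rational torsion divides `q + 1`.
* `supersingular_mordell_cyclic`, `supersingular_quartic_structure`: over `𝔽_q`, `q ≥ 5`, the groups
  of `y² = x³ + b` at `q ≡ 2 (mod 3)` are cyclic of order `q + 1`; those of `y² = x³ + k x` at
  `q ≡ 3 (mod 4)` are cyclic iff `-k` is a non-square, else `ℤ/2 × ℤ/((q + 1)/2)`.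
* `exceptional_aliquot_step`, `exceptional_no_long_aliquot_cycle`, `cm_no_long_aliquot_cycle`
  (Silverman–Stange): on an exceptional curve at a field other than `ℚ(√-3)`, if `#E(𝔽_p) = q` for
  odd good primes then `#E(𝔽_q)` is `p` or `2 q + 2 - p`, so no aliquot cycle has length three or more.
* `group_structure`, `group_structure_trace_zero`, `largeOrder_point_almostAll`,
  `equiv_of_exponent_eq`, `group_determined_by_exponent`: `E(𝔽_q) ≅ ℤ/d × ℤ/e` with `d ∣ e`,
  `d ∣ q - 1`, `d ∣ a_q - 2`; for every equation almost all reductions have a point of order above
  `4 √q`, and there the exponent determines the group.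
* `FA.Summary.deuring_dichotomy_finite`, `group_structure_finite`, `full_torsion_finite`,
  `frobenius_scalar_finite`, `group_cyclic_finite`, `exponent_sq_ge_finite`,
  `supersingular_no_point_finite` (`SummaryFiniteFieldGroups`): over EVERY finite field with
  `q = l^n` elements, `l = 2, 3` included, `E(F) ≅ ℤ/d × ℤ/e` with `d ∣ e`, `l ∤ d`, `d ∣ q - 1`,
  `d ∣ a - 2`; `E[l^j]` over the closure is trivial if `l ∣ a`, else cyclic of order `l^j`; full
  level `N` gives `μ_N ⊆ F`; the group is cyclic if `q - 1`, `a - 2` are coprime; exponent `≥ √q - 1`.
* `ecpp_prime`, `ecpp_certificate_exists` (Goldwasser and Kilian, Atkin and Morain): an `x` on an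
  equation modulo `n` with `n ∣ ΨSq_m`, `ΨSq_(m/s)` prime to `n`, for a prime `s ∣ m` above
  `(n^(1/4) + 1)²`, proves `n` prime; a prime has such a certificate if some `#E(𝔽_n)` has such an `s`.
* `mersenne_prime_iff_gross`, `gross_test_examples` (Gross): for odd `k ≥ 3`, `2^k - 1` is prime iff
  doubling `x = -2` on `y² = x³ - 12 x` modulo it has a zero denominator at step `k` and a unit one
  at step `k - 1`.
* `ecm_factor`, `ecm_card_dvd_of_smooth`, `ecm_card_dvd_factorial` (Lenstra): on an equation modulo
  `n`, a multiplier divisible by `#E(𝔽_p)` (smooth orders suffice) that does not kill the point
  modulo another prime gives a proper divisor `gcd(ΨSq_M(x), n)`.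
* `exponent_cm_summable`, `exponent_cm_density`, `exponent_cm_le_rpow_density_zero` (Duke): on an
  exceptional curve, so for the thirteen CM invariants, the good `q` at which `E(𝔽_q)` has exponent
  below `q / (log q)²` have convergent `∑ 1/q`: almost all reductions are almost cyclic;
  `card_le_two_mul_exponent_of_trace_zero`: at `a_q = 0` the order is at most twice the exponent.
* `LFunction_eq_of_proportional_exponents`, `LFunction_eq_of_proportional_exponents_gt_half`,
  `quadraticTwist_of_proportional_exponents`: exponents of `E(𝔽_q)`, `E'(𝔽_q)` proportional by a
  fixed factor at a density-one set of primes give equal L-functions; for two curves with open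
  image more than half suffices, positive density gives quadratic twists; for any two curves more
  than three quarters suffice (`LFunction_eq_of_proportional_exponents_gt_three_quarters`).
* `pointOrder_small_summable`, `pointOrder_density_one`, `pointOrder_gt_log_pow`: for a point of
  infinite order on any curve the good `q` at which its reduction has order below `q^(1/3) / log q`
  have convergent `∑ 1/q`, so on density one the order outgrows every power of `log q`.
* `subgroupOrder_small_summable`, `subgroupOrder_density_one`, `subgroupIndex_density_one`
  (Gupta–Murty, Matthews): `r` independent points generate modulo `q` at least `q^(r/(r+2)) / log q`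
  points, so a subgroup of index at most `4 q^(2/(r+2)) log q`, on a set of density one.
* `zsigmondy`, `exists_prime_orderOf_div_eq`, `exists_prime_orderOf_div_two_iff` (Zsigmondy): for
  coprime `a > b ≥ 1`, `n ≥ 3` but `(2, 1, 6)`, `a^n - b^n` has a primitive prime divisor; for
  `n = 2` iff `a + b` is no power of two.
* `zsigmondy_add`, `prime_of_isPrimePow_repunit`: `a^n + b^n` has a primitive prime, above `2 n`,
  but for `(2, 1, 3)`; a repunit `1 + a + ⋯ + a^(n-1)` that is a prime power has prime length.
* `stewart_greatest_prime`, `stewart_greatest_prime_sum`, `mersenne_greatest_prime` (Stewart):
  over the `n` with boundedly many prime factors the greatest prime factor of `a^n ± b^n`, divided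
  by `n`, tends to infinity, with an explicit index from Baker's theorem; so `P(2^q - 1) / q` over
  the primes and `P(2^(2^k) + 1) / 2^k` do (`FA.StewartPrimes.fermat_number_greatest_prime`).
* `exists_prime_orderOf_eq`, `exists_primitive_prime_divisor`, `exists_prime_orderOf_two_iff` (Bang):
  for `a ≥ 2`, `n ≥ 3` but `(2, 6)`, `a^n - 1` has a primitive prime divisor; for `n = 2` iff `a + 1`
  is no power of two.
* `card_primeFactors_pow_sub_one`, `primeFactors_pow_sub_one_eq_iff`: `a^n - 1` has at least
  `τ(n) - 2` prime factors, and they determine `n` but for `{1, 2}` at `a + 1` a power of two.
* `orderOf_mod_prime_small`, `index_mod_prime_large`, `orderOf_mod_prime_romanov` (Erdős–Murty,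
  Romanov): an integer `|a| ≥ 2` has order at least `√p / log p` modulo almost all primes, and
  `∑ 1 / (p ord_p(a)^s)` converges for `s > 0`.
* `splitCompletely_divisionField_iff`, `splitCompletely_level_small`: Frobenius at a good `q` is
  trivial on `E[n]`, `q ∤ n`, exactly for the divisors of one `d` dividing `q - 1` and `a_q - 2`,
  namely `#E(𝔽_q) / exponent` (`FA.ReducedGroups.frobenius_trivial_iff`); for every curve almost
  no `q` splits completely in a division field of level above `4 q^(1/4) log q`.
* `rankOfApparition_le`, `rankOfApparition_small_summable`, `rankOfApparition_small_natural`,
  `rankOfApparition_romanov`: in every elliptic divisibility sequence a large prime `q` first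
  divides by index `q + 1 + 2 √q`, almost never before `q^(1/3) / log q`, and `∑ 1 / (q r(q)^s)`
  converges for `s > 0` (Romanov's theorem).
* `exponent_duke_natural`, `exponent_cm_natural`, `pointOrder_natural`, `subgroupOrder_natural`: the
  exceptional primes of these four theorems number `≤ C n / (log n)²` up to `n`, so `o(π(n))`.
* `torsionEnd_scalar`, `no_complexMultiplication` and their `_twist`, `_of_j` forms: over any
  number field the endomorphisms of the Galois module of all torsion are scalars (Tate's conjecture
  for endomorphisms), so no endomorphism of `E(ℚ̄)` over a number field is imaginary quadratic;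
  `exists_complexMultiplication_of_cm`: unlike the five CM values of `j`, with one squaring to `-q`.
* `finite_torsion_abelian`, `finite_torsion_maxAbelian`, `finite_torsion_numberField`: a semistable
  curve has finitely many torsion points fixed by all commutators of the Galois group of a number
  field, so over its maximal abelian extension, and over the number field itself.
* `finite_torsion_numberField_all`, `finite_torsion_point_numberField`: every curve over `ℚ` has
  finitely many torsion points over every number field.
* `addOrderOf_le_conjugates_of_pole`, `finite_torsion_degree_of_pole`,
  `boundedTorsion_of_degree_of_pole`: for non-integral `j` the degree of a torsion point grows at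
  least linearly with its order, so the torsion over all number fields of bounded degree is bounded.
* `torsionIso_of_traces`, `torsionIso_pow_of_traces`, `torsionIso_pow_all`: curves with the same
  `a_q` at almost all primes, one semistable, have isomorphic Galois modules `E[l]` if that one has
  no stable subgroup of order `l`, and `E[l ^ n]` if also `l ≥ 5` (in particular every `l ≥ 11`).
* `torsionIso_pow_of_traces_all`, `torsionIso_of_traces_all`: for any two curves and every odd `l`
  without stable subgroup, equal `a_q` at almost all primes give `E[l ^ n] ≅ E'[l ^ n]` for all `n`;
  `tateIsogeny_iff_torsionIso`, `dvd_sub_of_torsionIso`, `finite_torsionIso_of_ne`: equal `a_q`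
  almost everywhere iff isomorphic `E[l]` for infinitely many `l` iff for all large `l`; otherwise
  each such `l` is `q` or divides `a_q - a'_q`.
* `tateIsogeny_of_traces`: for every prime `p`, also `p ≤ 7`, such curves have Galois isomorphic
  rational Tate modules (a surjection `E[p^∞] → E'[p^∞]` with finite kernel).
* `tateIsogeny_of_traces_all`, `traces_eq_of_almost_all`, `finite_tateModules`: with no condition
  on the curves (complex multiplication included) equal `a_q` at almost all primes give Galois
  isomorphic rational Tate modules at every `p` and equal `a_q` at all common good primes; for a
  finite `S` finitely many rational Tate modules occur among curves good outside `S` (Faltings).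
* `tateIsogeny_iff_traces`, `tateIsogeny_independent`, `poles_eq_of_traces`: such a map exists
  exactly when `a_q` agrees at all common good primes, for one `p` iff for all, and the invariants
  then have poles at the same primes; `tateEnd_scalar_rat`, `tateModule_semisimple`: on every curve
  Galois equivariant endomorphisms of the `p`-power torsion are scalars over `ℚ`, and the rational
  Tate module is semisimple over every number field (Faltings' theorems for curves over `ℚ`).
* `finite_torsion_abelian_twist`, `infinitely_many_not_dvd_pointCount_twist_all`,
  `tateIsogeny_of_traces_twist`, `torsionIso_of_traces_twist`, `torsionIso_pow_twist_all` and their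
  `_of_j` forms: the previous theorems for curves with a semistable quadratic twist and under the
  `j` criterion.
* `FA.LTReduce.exists_weightOne_lift_of_congruence`: Langlands-Tunnell from one congruence.

## Modular forms
* `dim_cuspForm_weightTwo`, `cuspForm_weightTwo_eq_zero`: `dim S₂(Γ₀(N))` is the genus formula; the
  fifteen levels without cusp forms.
* `deligne_serre`, `ramanujan_petersson_weight_one`, `ramanujan_petersson_weight_one_divisors`:
  the complex Galois representation of an eigenform of weight one, `‖a_n‖ ≤ d(n)`.
* `eigenform_residual_representation`, `eigenform_padic_representation`, `exists_frobenius_element`: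
  the mod `p` and `p`-adic representations of an eigenform of weight two.
* `eisenstein_eigenform_congruence`, `infinite_eisenstein_primes`, `weight_of_dvd_bernoulli`: for
  `p ∣ B_k / (2k)` a level one eigenform is congruent to the Eisenstein series (Ribet's first step).

## Sums of squares
* `three_squares`, `three_triangular_numbers`, `ternaryForm_det_one`: Legendre and Gauss, `n` is a
  sum of three squares iff it is not `4^a (8 b + 7)`, and always a sum of three triangular numbers.
* `FA.UniversalForms.Summary.ternary_not_universal`, `…davenport_cassels`,
  `…three_squares_rational`, `…ramanujan_family`, `…fifteen_escalator` (`SummaryUniversalForms`):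
  every positive ternary form with even cross coefficients misses one of `1, 2, 3, 5, 6, 7, 10, 14`
  (first half of the fifteen theorem; the quaternary half is not claimed); the lemma of Aubry,
  Davenport and Cassels; `x² + y² + z² + d w²` is universal exactly for `1 ≤ d ≤ 7`.
* `gauss_threeSquares_count`, `gauss_threeSquares_count_three`, `gauss_threeSquares_count_rest`:
  Gauss, `r₃(m) = 12 H(4m)` for `m ≡ 1, 2 (mod 4)`, `24 H(m)` for `m ≡ 3 (mod 8)`, `0` for
  `m ≡ 7 (mod 8)` and `r₃(4m) = r₃(m)`, with Hurwitz class numbers; by Venkov's quaternions.
* `threeSquares_prime_quarter`, `threeSquares_prime_half`, `threeSquares_bounds`,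
  `log_threeSquares_equivalent`, `threeSquares_unique_finite`, `triangular_count`: `r₃(p)` by
  sums of Legendre symbols; `c(ε) m^(1/2-ε) ≤ r₃(m) ≤ C(ε) m^(1/2+ε)` for `m ≢ 0, 4, 7 (mod 8)`
  (Siegel, ineffective); finitely many `m`, `4 ∤ m`, have one representation; triangular count.
* `four_positive_squares_iff`, `five_positive_squares_iff`, `many_positive_squares_iff`,
  `threeSquares_positive_iff`, `threeSquares_distinct_finite` (Dubouis, Pall, Halter-Koch): the
  sums of `k ≥ 4` positive squares exactly; three positive or distinct ones up to a finite set.
* `jacobi_four_squares`, `jacobi_four_squares_odd`: Jacobi's theorem, a positive `n` is a sum of four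
  squares of integers in `8 ∑ d` ways (`d ∣ n`, `4 ∤ d`), so in `8 σ(n)` for odd `n`.
* `jacobi_eight_squares`, `jacobi_eight_squares_odd`: a positive `n` is a sum of eight squares of
  integers in `16 ∑ (-1)^(n + d) d³` ways (`d ∣ n`), so in `16 σ₃(n)` for odd `n`.
* `glaisher_twelve_squares`, `twelve_squares_prime_pointCount`, `ramanujan_twentyfour_squares`:
  Glaisher's twelve squares with `η(2z)¹²`, at primes by counting points on curves of odd order;
  Ramanujan's twenty-four squares with `σ₁₁` and `τ`.
* `e8_unimodular`, `e8_representations`, `e8e8_representations`, `sigma_seven_convolution`: the
  even unimodular lattice `E₈` represents `2 n` in `240 σ₃(n)` ways, two copies in `480 σ₇(n)`.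
* `d16_unimodular`, `d16_representations`, `witt_milnor` (Witt, Milnor): `D₁₆⁺` and `E₈ ⊕ E₈`
  represent every number equally often and are not isometric (isospectral tori).
* `four_triangular_count`, `eight_triangular_count`, `twelve_triangular_count`,
  `etaTwelve_congruence`, `oddOrder_fourth_moment_congruence`: sums of four, eight, twelve
  triangular numbers counted; `η(2z)¹²` and the moment it computes modulo `256`.
* `gegenbauer_posDef`, `kissing_eight`, `kissing_eight_tight` (Schoenberg; Levenshtein, Odlyzko,
  Sloane): at most `240` balls touch an equal one in dimension eight, as many as the roots of `E₈`.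
* `golay_code`, `leech_unimodular`, `leech_representations`, `leech_minimal`, `leech_not_e8_cube`,
  `leech_tau_congruence` (Leech, Conway): the Golay code and the even unimodular lattice without
  roots in dimension 24, with `65520/691 (σ₁₁(n) - τ(n))` vectors of norm `2 n`.
* `gegenbauer_posDef_all`, `kissing_twentyFour`, `kissing_twentyFour_tight` (Schoenberg;
  Levenshtein, Odlyzko, Sloane): `196560` balls touch an equal one in dimension 24, and no more;
  Gegenbauer polynomials are positive definite on every sphere, in every degree.
* `minkowski_hlawka`, `minkowski_hlawka_convex`, `minkowski_hlawka_packing`: for `n ≥ 2` a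
  symmetric star body of volume below `2 ζ n` meets some lattice of determinant one only in `0`,
  so balls pack with density close to `ζ n / 2 ^ (n - 1)`; `minkowski_hlawka_converse`.

## Rational points
* `mazur_all`, `mazur_prime_dvd_all`, `FA.Torsion.mazur_torsion`, `FA.Torsion.mazur_torsion_iff`:
  Mazur's torsion theorem and its converse.
* `FA.MordellWeil.mordell`, `FA.MordellWeil.point_group_structure`: Mordell's theorem.
* `hasse_bound`, `hasse_bound_finite`, `hasse_LFunction`, `pointCount_extensions`: Hasse's theorem,
  point counts over extensions.
* `weilZeta_rational`, `weilZeta_functionalEquation`, `weilZeta_riemannHypothesis`: the Weil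
  conjectures for elliptic curves over finite fields in terms of the zeta function.
* `dwork_rationality`, `dwork_pointCount`, `dwork_linearRecurrence`,
  `dwork_eventually_periodic_empty` (Dwork 1960): the zeta function of EVERY system of polynomial
  equations over a finite field is a quotient of integral polynomials with constant term one, so
  the numbers of points are differences of power sums of algebraic integers and linear recurrent.
* `ax_katz`, `ax_katz_ceil`, `ax_single`, `ax_katz_many_zeros`, `ax_katz_projective`,
  `ax_katz_projective_modEq` (Ax 1964, Katz 1971): `q ^ b` divides the number of common zeros over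
  a field with `q` elements as soon as `D b + ∑ deg < n + D`, and the projective forms of this;
  `dwork_rationality_projective`: rationality of the zeta series of every projective variety.
* `FA.WarningSecond.Summary.warning_congruence`, `…warning_second` (`SummaryWarningSecond`):
  Warning (1936): parallel flats of dimension at least the degree `d` of a system meet its zeros
  in numbers congruent modulo `p`; a soluble system in `n` variables has `≥ q ^ (n - d)` zeros.
* `FA.SegreOval.Summary.segre`, `…bose_bound`, `…qvist`, `…parabola_oval` (`SummarySegreOval`):
  Segre's theorem: over a finite field of odd order `q` every oval of the projective plane is a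
  nondegenerate conic; no `q + 2` points without three on a line; tangents are never concurrent.
* `padicGamma_morita`, `gross_koblitz`, `gross_koblitz_prime`, `gaussSum_norm_stickelberger`,
  `gaussSum_congruence_stickelberger` (Gross and Koblitz 1979): Morita's `p`-adic Gamma function
  and Gauss sums of every finite field as its values times powers of `π`, `π ^ (p - 1) = -p`.
* `nagell_lutz`: torsion points are integral.
* `torsion_card_dvd_pointCount`, `torsion_card_odd_dvd_pointCount`: the order of the torsion
  subgroup divides `#E(𝔽_q)` at a good prime `q ≥ 3`, its odd part also at `q = 2`.
* `pointDivisibility_of_density`, `pointDivisibility_iff`, `infinitely_many_not_divisible`: the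
  local-global principle for `l P' = P` on an integral model, `l` any prime: `P` is `l` times a
  rational point iff it is so modulo almost all primes, or modulo a set of density one.
* `pointDivisibility_padic`, `pointDivisibility_padic_iff`, `infinitely_many_not_divisible_padic`:
  the same for any curve over `ℚ` with points over `ℚ_q` in place of reduction modulo `q`.
* `bashmakov`, `bashmakov_large`, `bashmakov_37a1`: Bashmakov's theorem: for odd `p` with full
  image on `E[pⁿ]` and `P ∉ p E(ℚ)` the Galois group of `ℚ(E[pⁿ], p⁻ⁿP)` is all of
  `E[pⁿ] ⋊ GL₂(ℤ/pⁿ)`; all large `p` if `j` has a pole and `P` has infinite order; every odd `p`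
  for a generator of `37a1`.
* `bashmakov_kummer_all`, `kummerTranslations_all`, `kummerTranslations_mordell`: for EVERY curve,
  complex multiplication included, and a point `P` of infinite order, at all large `p` and all `n`
  the group of `ℚ(E[pⁿ], p⁻ⁿP)` is that of `ℚ(E[pⁿ])` extended by all of `E[pⁿ]`; example
  `(3, 5)` on `y² = x³ - 2`.
* `detectLinearDependence_all`, `infinite_not_multiple_of_independent_all`: for EVERY curve a
  rational point which is a multiple of a point `P` of infinite order modulo almost all primes
  depends linearly on `P`; `scalarEndomorphisms_all`: at all large `p` only scalars commute with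
  Galois on `E[p]`.
* `bashmakovFamily`, `bashmakovFamily_large`, `bashmakovFamily_large_of_traces` (Bashmakov–Ribet):
  the same for points independent modulo `p`: the group is `E[pⁿ]ʳ ⋊ GL₂(ℤ/pⁿ)`; all large `p`
  and all `n` for independent points if `j` has a pole or the trace condition holds.
* `kummerTranslations_adelic_all` (Bashmakov–Ribet): for EVERY curve over `ℚ` and independent
  points one `M` is such that at every level `N` with prime factors above `M`, composite ones
  included, Galois over `ℚ(E[N])` translates `N`-th parts by all of `E[N]ʳ`.
* `divisibleDensity`, `infinitely_many_divisible`, `divisibleDensity_large`,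
  `divisibleDensity_37a1` (Lang–Trotter): in Bashmakov's situation the exact density of the
  primes `q` at which the point modulo `q` is `p` times a point, strictly between `0` and `1`.
* `divisibleDensityFamily`, `divisibleDensityFamily_large`, `divisibleDensityFamily_large_of_traces`,
  `divisibleDensityFamily_tendsto`: the exact density of the primes at which `r` independent points
  are all divisible by `p`, and its limit in `r`; all large `p` if `j` has a pole or under traces.
* `orderPrimeToDensity`, `orderPrimeToDensity_large`, `orderPrimeToDensity_large_of_traces`,
  `orderPrimeToDensity_37a1` (Jones–Rouse): for odd `p`, full image on every `E[pⁿ]` and `P` not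
  `p` times a rational point, the exact density of the primes `q` at which the order of `P` modulo
  `q` is prime to `p`.
* `lPartDensity`, `lPartDensity_large`, `lPartDensity_large_of_traces`, `lPartDensity_37a1`: for
  full image on `E[p^(b+1)]` and `a ≤ b`, the exact density of the primes `q` at which the `p`-part
  of `E(𝔽_q)` is `ℤ/pᵃ × ℤ/pᵇ` (four closed forms; `p = 2` included; every `p` for `37a1`).
* `lPartsDensity`, `lPartsDensity_large`, `lPartsDensity_large_of_traces`, `lPartsDensity_37a1`:
  at finitely many primes at once those local densities multiply; `reducedGroup_prescribed`,
  `reducedGroup_prescribed_of_traces`, `reducedGroup_prescribed_37a1`: for `n₁ ∣ n₂` with large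
  prime factors (`74 ∤ n₂` for `37a1`) `E(𝔽_q)[n₂²]` is `ℤ/n₁ × ℤ/n₂` with positive density.
* `meanTorsion`, `meanTorsion_large`, `meanTorsion_large_of_traces`, `meanTorsion_37a1`: full image
  on `E[n]` gives each value `k` of `#E(𝔽_q)[n]` a density `d_k`, with `∑ k d_k` the number of
  divisors of `n` and, for prime `n`, `∑ k² d_k = n + 3`.
* `squarefreeOrderDensity`, `squarefreeOrderDensity_large`, `squarefreeOrderDensity_large_of_traces`,
  `squarefreeOrderDensity_37a1`, `squarefreeOrder_subset`, `squarefreeOrder_density_le` (Cojocaru):
  under full image on `E[∏ l²]` the exact density of the `q` with `#E(𝔽_q)` divisible by no `l²`;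
  those with squarefree count are among them and have cyclic groups.
* `langTrotterFactors`, `langTrotterFactors_large`, `langTrotterFactors_large_of_traces`,
  `langTrotterFactors_37a1`, `langTrotterJointLaw`: under full image on `E[∏ l]` the exact density
  of `a_q ≡ t` at all `l` at once (the Lang–Trotter local factors), and the law of `(a_q, q) mod l`
  through the Legendre symbol of `t² - 4d`.
* `pointCountPowDvdDensity`, `pointCountPowExactDensity`, `pointCountValuationMean`,
  `pointCountPowDvdDensity_large`, `pointCountPowDvdDensity_large_of_traces`,
  `pointCountPowDvdDensity_37a1`: under full image the exact density of `lᵏ ∣ #E(𝔽_q)` and of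
  `lᵏ` dividing it exactly for every `k`, and the mean `l`-adic valuation (`l = 2` allowed).
* `orderPrimePart_prescribed_all`, `orderPrimePart_all` (Pink, Barańczuk): for EVERY curve over `ℚ`,
  independent points and large `p`, all prescribed exponents occur as the exact powers of `p` in
  the orders of the points modulo infinitely many primes at once.
* `primitivePointDensity`, `primitivePointDensity_large`, `primitivePointDensity_large_of_traces`,
  `primitivePointDensity_37a1`, `primitivePoint_subset` (Lang–Trotter): for finitely many odd
  primes with joint full image, the exact density of the primes `q` at which the index of `⟨P⟩`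
  in `E(𝔽_q)` is prime to all of them, the product of the local factors of the constant; the
  primes at which `P` is primitive are among them.
* `generatorsDensity`, `generatorsDensity_large`, `generatorsDensity_large_of_traces`,
  `generators_subset` (Gupta–Murty): the same for `r` independent points: the exact density of the
  primes `q` at which the index of the subgroup they generate is prime to given odd primes; the
  primes at which they generate `E(𝔽_q)` are among them.
* `detectLinearDependence`, `detectLinearDependence_of_pole`, `detectLinearDependence_of_traces`,
  `infinite_not_multiple_of_independent`: a point which is a multiple of a point `P` of infinite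
  order modulo almost all primes depends linearly on `P`, for `j` with a pole or nonvanishing
  traces at inert primes of every quadratic field.
* `FA.MultSupport.Summary.support_problem`, `schinzel_local_global`, `equal_supports`,
  `support_problem_rat` (`SummaryMultiplicativeSupport`): the multiplicative support problem in
  every number field (Erdős; Corrales-Rodrigáñez–Schoof): `x ^ n ≡ 1` implying `y ^ n ≡ 1` at
  almost all primes makes `y` a power of `x`; Schinzel's local-global principle for powers.
* `FA.MultDetect.Summary.detect_mem`, `exponential_congruence`, `exponential_congruence_rat`,
  `kummer_radical`, `kummer_bounded_failure`, `exists_prime_orders_coprime_infinite`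
  (`SummaryMultiplicativeDependence`): Schinzel 1975: an element lying in a finitely generated
  subgroup of `Kˣ` (any rank, torsion allowed) modulo almost every prime lies in it; an exponential
  congruence soluble modulo almost every prime is soluble in integers.
* `FA.MultKummer.Summary.kummer_failure_uniform`, `kummer_degree`, `order_parts_prescribed`,
  `two_odd_three_even` (`SummaryMultiplicativeKummer`): Kummer theory of a number field for finitely
  generated groups: `K (ζ_N, a₁^(1/N), ..., aᵣ^(1/N))` has degree `N ^ r` over `K (ζ_N)` up to a
  bounded factor for all `N`; the `ℓ`-parts of the orders of independent elements modulo primes take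
  all values simultaneously infinitely often (`2` of odd and `3` of even order, for instance).
* `FA.MultRelations.Summary.loxton_vanDerPoorten`, `masser_relation_basis`,
  `independence_effective`, `exponential_equation_effective`, `subgroup_membership_effective`,
  `height_gap`,
  `pairLogSize_height` (`SummaryMultiplicativeRelations`): Loxton–van der Poorten and Masser: the
  multiplicative relations of algebraic numbers are generated in an explicit box in the degree
  and the heights, so independence and membership in finitely generated groups are finite checks.
* `supportProblem`, `supportProblem_of_pole`, `supportProblem_of_traces`,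
  `infinite_not_order_dvd_of_independent` (Corrales-Rodrigáñez–Schoof): if `P` has infinite order,
  Galois is full on `E[pⁿ]` at all large `p` (say `j` has a pole) and the order of `Q` divides that
  of `P` modulo almost all primes then a nonzero multiple of `Q` is a multiple of `P`.
* `homothety_sq_all`, `supportProblem_all`, `infinite_not_order_dvd_of_independent_all`: the
  support problem for every elliptic curve over `ℚ`, with or without complex multiplication; at all
  large `p` multiplication by `1 + p` on `E[p²]` comes from Galois.
* `pointOrder_separated`, `supportProblem_twoCurves`, `supportProblem_twoCurves_points`,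
  `supportProblem_twoCurves_of_traces`: for two curves with poles of `j` (or open image) differing
  in `a_l²`, a point of the second whose order divides the number of points (or the order of a
  point) of the first modulo almost all primes is torsion.
* `pow_dvd_order_all`, `supportProblem_sharp_all`, `supportProblem_equal_orders_all`: for EVERY
  curve over `ℚ` and every prime power some prime `q` has it dividing the order of a given point of
  infinite order modulo `q`; so order divisibility a.e. gives `Q = c P` up to torsion with `c ∈ ℤ`,
  and equal orders a.e. give `Q = ± P` up to torsion.
* `orderPrimePart_exact_all` (Pink), `kummerTranslations_primePow_all`,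
  `detectLinearDependence_exact`, `detectLinearDependence_iff`: for EVERY curve over `ℚ`, EVERY
  prime `p` and every `k` the order of a point of infinite order is divisible by exactly `p ^ k`
  modulo infinitely many primes, the Kummer images are bounded below at every prime, and `Q` is a
  multiple of `P` iff it is one modulo almost all primes, with no hypothesis on the two points.
* `detectSubgroupMembership_exact`, `detectSubgroupMembership_iff` (Jossen),
  `kummerTranslationsFamily_primePow_all`: for EVERY curve over `ℚ` a point is in the subgroup
  generated by finitely many points iff it is so modulo almost all primes, exactly; independent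
  points have Kummer images of bounded index at every prime.
* `orderPrimeParts_prescribed_finset`, `exactDivisor_order_all` (Pink, Barańczuk): for EVERY curve
  over `ℚ`, independent points, any finite set of primes and any exponents, all these prime powers
  divide the orders exactly modulo infinitely many primes at once; every `n` is an exact divisor.
* `supportProblem_exact`, `supportProblem_iff`, `equalOrders_iff`: for EVERY curve over `ℚ` and `P`
  of infinite order, the order of `Q` divides that of `P` modulo almost all primes iff `Q ∈ ⟨P⟩`,
  and equals it iff `Q = ± P`: the support problem and Erdős' question with no torsion ambiguity.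
* `kummerTranslations_uniform` (Ribet–Bertrand): for EVERY curve over `ℚ` and independent points
  one `C > 0` is such that at EVERY level `N` the Kummer translations fixing `E[N]` contain
  `C · E[N]ʳ`: the degree of `ℚ(E[N], N⁻¹⟨P i⟩)` over `ℚ(E[N])` is `N^(2r)` up to a bounded factor.
* `supportProblem_denominators`, `sameDenominatorPrimes_iff`, `rankOfApparition_exactDivisor`: for
  elliptic divisibility sequences the primes of the denominators of `x(n P)` are among those of
  `x(n Q)` iff `Q ∈ ⟨P⟩`, the same iff `Q = ± P` (finitely many primes aside), and every `m` is an
  exact divisor of infinitely many ranks of apparition.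
* `supportProblem_density_iff`, `detectLinearDependence_density_iff`, `equalOrders_density_iff`,
  `orderPrimeParts_prescribed_density`: for EVERY curve over `ℚ` the support problem, the detection
  of linear dependence and Erdős' question need only a set of primes of Dirichlet density one, and
  prescribed exact parts of the orders of independent points occur beyond density zero.
* `detectSubgroupMembership_density_iff`: for EVERY curve over `ℚ` a point is in the subgroup of
  given points iff it is so modulo a set of primes of Dirichlet density one.
* `kummerDegree_bounded`: for EVERY curve over `ℚ` and `r` independent points one `C > 0` is such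
  that at EVERY level `N` the `N`-th parts have between `(N / gcd(N, C))^(2r)` and `N^(2r)`
  conjugates over `ℚ(E[N])` (Ribet–Bertrand, as a degree).
* `kummerTower_open`: for EVERY curve over `ℚ` and `r` independent points the Galois group of all
  their parts over the field of all torsion points contains `C T(E)ʳ` for one `C > 0`: one element
  fixes all torsion and translates every compatible system of parts by a compatible `C t`.
* `divisionPoints_boundedDegree`, `divisionPoints_conjugates_lower`: for EVERY curve over `ℚ` and
  every `d` one `D > 0` sends every division point of `E(ℚ)` with at most `d` conjugates into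
  `E(ℚ)`; the `N`-th parts of a point of infinite order have at least `(N / gcd(N, C))²` conjugates.
* `divisionPoints_torsionField`: for EVERY curve over `ℚ` and every `d` one `D > 0` sends every
  division point of `E(ℚ)` with at most `d` conjugates over `ℚ(E_tors)` into `E(ℚ) + E_tors`.
* `divisionPoints_maxAbelian`: for EVERY curve over `ℚ` one `D > 0` sends every division point of
  `E(ℚ)` rational over the maximal abelian extension of `ℚ` into `E(ℚ)`: that hull is finitely
  generated.
* `divisionParts_transitive`, `divisionPolynomial_irreducible`: for EVERY curve over `ℚ` and `P` of
  infinite order one `C > 0` makes, for `N` prime to `C`, the `N²` parts of `P` one Galois orbit and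
  `Φ_N(X) - x(P) Ψ_N(X)²` irreducible over `ℚ` of degree `N²`.
* `divisionParts_transitive_torsionField`, `divisionField_inter_torsionField`: for EVERY curve over
  `ℚ`, `P` of infinite order and `N` prime to `C` the parts stay one orbit over `ℚ(E_tors)`, and
  `ℚ(Q) ∩ ℚ(E_tors) = ℚ` for each part `Q`.
* `splittingDensity_point`: for EVERY curve over `ℚ`, `P` of infinite order and `N` prime to `C` the
  primes `q` with `(ℤ/N)² ⊆ E(𝔽_q)` and `P ∈ N E(𝔽_q)` (complete splitting in `ℚ(E[N], N⁻¹P)`)
  have density exactly `1 / (N² · #Gal(ℚ(E[N])/ℚ))`.
* `rankDensity`, `splittingDensity_family`: for EVERY curve over `ℚ` of rank `r` and large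
  primes `p` the primes `q` with full `p`-torsion on `E(𝔽_q)` at which EVERY rational point is
  `p` times a point have density `1 / (p ^ (2 r) · #Gal(ℚ(E[p])/ℚ))`: reductions see the rank;
  more generally `r` independent points and `N` prime to one `C` give `1 / (N ^ (2 r) · #Gal)`.
* `maxAbelian_rank_infinite`, `infinite_twists_positiveRank` (Frey–Jarden): EVERY curve over `ℚ`
  has infinitely many independent points over the maximal abelian extension of `ℚ`, each sent to
  itself or its negative by every automorphism, so infinitely many quadratic twists of positive rank.
* `mordellWeil_numberField`: the theorem of Mordell and Weil, for EVERY curve over `ℚ` and every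
  number field `K` the group `E(K)` is finitely generated.
* `mordellWeil`, `finite_torsion_numberField_any`: the theorem of Mordell and Weil in full: for EVERY
  number field `K` and every elliptic curve with coefficients in `K`, `E(K)` is finitely generated
  and its torsion finite.
* `canonicalHeight`, `canonicalHeight_properties`, `canonicalHeight_posDef`, `regulator_pos`: the
  Néron–Tate height of every elliptic curve over every number field: one quadratic function within a
  bounded distance of the naive height, zero exactly on torsion, with positive definite pairing, so
  the regulator is positive.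
* `pointCounting`: Néron's counting theorem: over every number field the points of height at most
  `B` number asymptotically torsion times the unit ball over the root of the regulator, `B ^ (r/2)`.
* `multiples_dense_identityComponent`, `multiples_x_unbounded`, `rationalPoints_dense`,
  `rationalPoints_dense_all`: Poincaré–Hurwitz: infinitely many rational points are dense in the
  identity component of the real points, in all of them for negative discriminant.
* `rationalPoints_closure_finite_index`, `rationalPoints_dense_padic`,
  `rationalPoints_dense_adelic`, `rationalPoints_congruent_dense`, `congruent_five_dense`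
  (`SummaryRationalClosure`): the same at finitely many primes and the real place at once: if
  `E (ℚ)` is infinite its closure in the product of the `E (ℚ_p)` contains the rational cosets
  of suitable open subgroups of finite index, so all `p`-adic points close to a rational point
  are limits of rational points; the rational points congruent to a given one of the identity
  component to any modulus are dense in that component. Number fields are not treated.
* `sumTwoCubes_dense`, `sumTwoCubes_positive`, `differenceTwoCubes`, `six_sumTwoCubes`,
  `congruentTriangles_dense`: Viète, Bachet and Fermat: a proper sum of two cubes is one densely on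
  the real cubic, so a difference of two cubes is a sum of two positive ones in infinitely many
  ways; rational right triangles of a congruent area are dense among the real ones.
* `weylEquidistribution`, `weylEquidistribution_arc`, `multiples_y_pos_density`,
  `multiples_x_gt_density`, `rationalMultiples_density`: Weyl's theorem; the multiples of a point of
  infinite order have `y > 0` with density exactly one half and `x > M` with positive density.
* `realPoints_circle`, `realPoints_circle_two`, `realPoints_odd`, `realPoints_finite_subgroup`,
  `rationalTorsion_shape`: `E(ℝ)` is a circle, or a circle times `ℤ/2`, by the sign of the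
  discriminant; so its odd torsion is cyclic and its finite subgroups cyclic or `ℤ/2 × ℤ/2m`.
* `gauss_agm`, `realPeriod_integral`, `realPeriod_agm`, `lemniscatic_agm`, `multiples_distribution`:
  Gauss's theorem on the arithmetic-geometric mean; the real period is `π / agm`; the multiples of a
  point of infinite order on the identity component are distributed by `dx / y`.
* `lemniscatic_gamma`, `equianharmonic_gamma`, `agm_sqrt_two`, `congruentCurve_realPeriod`,
  `mordellCurve_realPeriod`, `hurwitz_gaussian_G4`: the periods of `y² = x³ - n² x` and of
  `y² = x³ - 1` as Gamma values, Gauss's constant, Hurwitz's sum of `(m + n i) ^ -4`.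
* `modular_values_I`, `modular_values_rho`, `theta_gaussian_sum`, `ramanujan_sum`,
  `ramanujan_sum_thirteen`, `ramanujan_sum_one`, `ramanujan_sum_three`: `E₂`, `E₄`, `E₆`, `Δ`, `η`
  at `i` and at `ρ` as Gamma values, `θ(i)`, Ramanujan's sums of `n ^ j / (e ^ (2 π n) - 1)`.
* `theta_constants_identities`, `theta_agm`, `theta_completeIntegral`, `theta_inversion`,
  `realPeriod_theta`: Gauss: `agm(θ₃², θ₄²) = 1`, Jacobi's `θ₃⁴ = θ₂⁴ + θ₄⁴`, the inversion of the
  modulus, real periods as theta values.
* `gauss_legendre_pi`, `gauss_legendre_algorithm`: the formula of Gauss, Salamin and Brent,
  `π = 4 agm(1, 1/√2)² / (1 - ∑ 2^(j+1) (a_j² - b_j²))`, and the convergence of their algorithm.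
* `rectangular_lattice_agm`, `jacobi_theta_invariants`, `singular_modulus_k_isAlgebraic`,
  `landen_modulus`, `modulus_sqrt_two_and_two`: both periods by the agm, Jacobi's theta expressions
  of `E₄`, `E₆`, `Δ`, `j`, algebraic singular values of the modulus.
* `centralValue_32a_exact`, `centralValue_32a_series`, `bsd_ratio_32a`: for `y² = x³ - x`,
  `L(E, 1) = Γ(1/4)² / (8 √(2 π))`, an eighth of the period `Ω`, as Birch and Swinnerton-Dyer predict.
* `hurwitz_numbers_gaussian`, `hurwitz_numbers_eisenstein`, `eisenstein_value_I_rational`,
  `eisenstein_value_rho_rational`, `ramanujan_sum_rational`: the lattice sums of `ℤ[i]`, `ℤ[ρ]` are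
  rational multiples of powers of the periods (Hurwitz, Damerell).
* `macWilliams_identity`, `typeII_length`, `gleason_theorem`, `mallows_sloane`,
  `typeII_length24_enumerator`, `typeII_hamming`, `typeII_golay` (`SummaryGleason`): weight
  enumerators of binary codes, Gleason's theorem and the Mallows–Sloane bound.
* `etaQuotient_slash`, `etaQuotient_order`, `etaQuotient_modularForm`, `etaQuotient_cuspForm`,
  `etaQuotient_odd_exponents`, `etaQuotient_levelFour` (`SummaryEtaQuotient`): Newman–Ligozat eta
  quotients: character on `Γ₀(N)`, orders at all cusps, criterion for modular and cusp forms of
  even weight.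
* `valence_formula_levelOne`, `valence_bound`, `sturm_bound`, `modularForm_finiteDimensional`,
  `modularForm_finiteDimensional_real`, `modularForm_finrank_le`, `finrank_modularForm_gamma0_four`
  (`SummaryValence`): the valence formula; at every arithmetic level a bound for inequivalent zeros,
  Sturm's bound with any period and the index of `Γ {±1}`, finite dimensionality in every weight.
* `poincareSeries_hasSum`, `petersson_poincare`, `poincare_span`, `poincare_eq_zero_iff_tau`,
  `poincare_twelve_ne_zero` (`SummaryPoincare`): Poincaré series of weight at least three on
  `Γ₀(N)`, Petersson's coefficient formula, spanning; `P_m = 0 ↔ τ(m) = 0` in weight twelve and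
  level one.
* `poincare_coefficient`, `cuspForm_coeff_bound`, `ramanujanTau_bound` (`SummaryPoincare`):
  coefficients of Poincaré series as Kloosterman sums times integrals, and from Weil's bound
  `a_n ≪ n ^ (k/2 - 1/4) (1 + log n) ^ 6` for cusp forms of weight `k ≥ 3` on `Γ₀(N)`,
  `|τ(n)| ≪ n ^ (23/4) (1 + log n) ^ 6`.
* `poincare_coeff_tendsto`, `poincare_eventually_independent`, `hecke_symmetric`,
  `hecke_eigenbasis_exists`, `vertical_satoTate_weights_pos`, `vertical_satoTate`,
  `vertical_satoTate_moments`, `vertical_satoTate_dense`, `hecke_distinct_eigenvalues`,
  `hecke_two_distinct_eigenvalues` (`SummaryVerticalSatoTate`): the vertical Sato–Tate law with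
  Petersson weights for `p ∤ N` as the even weight grows; `T_p` has arbitrarily many distinct
  eigenvalues.
* `besselJ_hasSum`, `poincare_integral_eq_besselJ`, `petersson_orthonormal_basis_exists`,
  `petersson_trace_formula`, `tau_kloosterman_bessel`, `discriminant_petersson_pos`,
  `poincare_coeff_tendsto_level`, `vertical_satoTate_level_weights_pos`,
  `vertical_satoTate_level`, `vertical_satoTate_level_moments`, `vertical_satoTate_level_dense`,
  `hecke_distinct_eigenvalues_level`, `hecke_two_distinct_eigenvalues_level`
  (`SummaryPetersson`): Petersson's trace formula with Kloosterman sums and Bessel functions for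
  even weight at least four, the series for `τ(n)`, and the vertical Sato–Tate law as the level
  tends to infinity.
* `levelOne_lambda_entire`, `levelOne_lambda_functional_equation`, `levelOne_central_zero`,
  `lFunction_first_moment`, `lFunction_first_moment_central`, `kohnen_nonvanishing`,
  `central_values_nonvanishing`, `real_values_nonvanishing` (`SummaryKohnen`): the first moment
  of L-functions of level one in the weight aspect; Kohnen's non-vanishing, and arbitrarily many
  eigenforms with non-zero central value as `k → ∞` with `4 ∣ k`.
* `hecke_mean_square`, `hecke_mean_abs`, `cuspForm_lSeriesSummable`, `wilton_estimate`,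
  `hecke_partial_sums`, `voronoi_summation`, `voronoi_test_function_exists`,
  `tau_voronoi_summation` (`SummaryVoronoiSummation`): Hecke's mean bounds and Wilton's estimate for
  the coefficients of cusp forms; Voronoi's summation formula with Bessel transforms for even
  weight at least four and moduli divisible by the level.
* `rankin_order`, `rankinSelberg_diverges`, `coeff_omega`, `coeff_abs_sum_lower`,
  `coeff_sign_count`, `coeff_both_signs`, `ramanujanTau_omega_signs` (`SummaryCoefficientSize`):
  the mean square of the coefficients of a nonzero cusp form has order `M^k`; omega results; for
  weight at least three and real coefficients infinitely many of each sign.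
* `unimodularLattice_def`, `unimodularLattice_eight_dvd`, `unimodularLattice_theta`,
  `unimodularLattice_eight`, `unimodularLattice_sixteen`, `unimodularLattice_twentyFour`,
  `unimodularLattice_asymptotic`, `unimodularLattice_represents`, `unimodularLattice_minimum_le`,
  `unimodularLattice_example` (`SummaryUnimodularLattices`): every even unimodular positive lattice
  has rank divisible by eight and a theta series of level one; representation numbers and minimum.
* `indefiniteUnimodular_def`, `isotropic_of_indefinite`, `odd_classification`, `van_der_blij`,
  `even_classification`, `even_exists`, `classification`, `stably_congruent`, `sixteen_stably`,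
  `represented_numbers` (`SummaryIndefiniteUnimodular`, namespace
  `FA.IndefiniteUnimodular.Summary`; Milnor, Serre's Course, chapter V): indefinite unimodular
  lattices by rank, signature and parity; the signature modulo eight; definite ones become
  congruent on adding a plane. Other determinants and definite classes are not treated.
* `characteristicVectors_def`, `shadow_transformation`, `jacobi_theta_ne_zero`, `elkies`,
  `short_characteristic`, `negative_definite_diagonal`, `unimodular_rank_le_seven`,
  `unimodular_rank_eight`, `unimodular_rank_nine` (`SummaryCharacteristicVectors`, namespace
  `FA.CharacteristicVectors.Summary`; Elkies 1995): the shadow of a positive unimodular lattice;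
  only `ℤⁿ` has all characteristic norms at least `n`; the lattices of rank at most nine. The
  list of norm `n - 8`, ranks from ten on and topology are not treated.
* `longShadows_def`, `long_shadow_theta`, `long_shadow_structure`, `rank_le_fifteen`,
  `no_reduced_rank_nine_ten_eleven`, `unimodular_rank_le_eleven`, `unimodular_rank_twelve`,
  `d12_plus` (`SummaryLongShadows`, namespace `FA.LongShadows.Summary`; Elkies 1995): positive
  unimodular lattices with all characteristic norms at least `n - 8`, their theta series and
  shape `ℤᵏ ⊕ L₀` with `L₀` of rank at most 23; the lattices of rank at most twelve. The list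
  in ranks thirteen to twenty-three is not treated.
* `formSquares_def`, `mordell_rational`, `exists_unimodular_overlattice`, `mordell_ko`,
  `mordell_ko_sharp`, `squares_needed`, `e6_not_sum_of_squares` (`SummaryFormSquares`, namespace
  `FA.FormSquares.Summary`; Mordell 1930, 1937, Ko 1937): a positive classical form in `n ≤ 5`
  variables is a sum of `n + 3` squares of integral linear forms and no fewer suffice; over `ℚ`
  this holds for every `n`; from six variables on some forms (`E₆`) are no sums of squares. The
  numbers for representable forms in six or more variables are not treated.
* `milgram_def`, `gauss_rank_one`, `gauss_isogeny`, `milgram_formula`,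
  `discriminant_form_signature`, `signature_small_det` (`SummaryMilgram`, namespace
  `FA.Milgram.Summary`; Milgram): the Gauss sum of the discriminant form of an even lattice of any
  signature `(r, s)` is `√|det| exp (π i (r - s) / 4)`; Gauss's sums of even modulus; signatures
  modulo eight for determinant one, two and three. Odd lattices are not treated.
* `thetaLevel_def`, `theta_inversion_coset`, `theta_rational_translate`, `gauss_sum_character`,
  `level_exists`, `theta_gamma0`, `theta_modularForm`, `theta_hexagonal` (`SummaryThetaLevel`,
  namespace `FA.ThetaLevel.Summary`; Hecke, Schoeneberg 1939): the theta series of an even positive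
  lattice of rank `2k` and level `N` is a form of weight `k` on `Γ₁(N)`, with a character on
  `Γ₀(N)` that is `((-1)^k det / p)` at the primes not dividing `2N`; its coefficients count the
  vectors of each norm. Odd rank, harmonic weights and the Eisenstein part are not treated.
* `siegelKlingen_def`, `levelOne_rational_constant`, `eisenstein_diagonal`, `klingen_class`,
  `klingen_zeta`, `siegel_klingen`, `siegel_klingen_exists`, `klingen_rat` (`SummarySiegelKlingen`,
  namespace `FA.SiegelKlingen.Summary`; Klingen 1962, Siegel 1969): for every totally real field
  and even `k ≥ 4` the partial zeta values at `k` are rational multiples of `π^(k n) √|d|` and the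
  zeta function is rational and non-zero at `-3, -5, …`, by the diagonal restriction of Hecke's
  Eisenstein series. Ray classes are not treated.
* `eisenstein_diagonal_two`, `klingen_class_even`, `klingen_zeta_even`, `siegel_klingen_odd`,
  `zeta_neg_one` (`SummarySiegelKlingenTwo`, namespace `FA.SiegelKlingenTwo.Summary`): Hecke's
  convergence factor gives weight `2 n`, so Siegel–Klingen holds for every positive even `k`: the
  zeta function of a totally real field is rational and non-zero at every negative odd integer,
  `-1` included.
* `siegelSum_def`, `zeta_two`, `zeta_four`, `siegel_formula_one`, `siegel_formula_three`,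
  `zeta_neg_one_examples`, `zeta_five_exists` (`SummarySiegelFormulas`, namespace
  `FA.SiegelFormulas.Summary`; Siegel 1969): for a quadratic field of discriminant `d > 0`,
  `ζ (-1) = (1/60) ∑ σ₁ ((d - b²)/4)` and `ζ (-3) = (1/120) ∑ σ₃ ((d - b²)/4)` over `b² < d`,
  `b ≡ d (mod 2)`, with the values at `2` and `4`; e.g. `1/30` for `d = 5`.
* `zeta_odd_formula`, `zeta_neg_one_formula`, `zeta_sign`, `zeta_lower_bound`,
  `zeta_neg_one_exponential`, `finitely_many_bounded`, `finitely_many_pairs`, `siegelSum_finite`
  (`SummaryZetaVolume`, namespace `FA.ZetaVolume.Summary`): `ζ (-1) = (-1)^n |d|^(3/2) ζ (2) /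
  (2π²)^n` for totally real fields; as `e³ > 2π²`, only finitely many of all degrees have a
  bounded value at a negative odd integer (Borel's and Takeuchi's finiteness input).
* `siegel_constant_term`, `determined_by_coefficients`, `siegel_formula`, `denominator_bound`,
  `exists_small_trace`, `exists_trace_one`, `zeta_neg_one_small_degree`, `zeta_neg_one_cubic`,
  `pointSum_quadratic` (`SummarySiegelConstant`, namespace `FA.SiegelConstant.Summary`; Siegel
  1969): a fixed rational combination of `a_1, …, a_r`, `r = dim M_w`, is the constant term in
  every level one weight; so `ζ_K (1 - k) = 2^n ∑ b_l S_l` for every totally real field,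
  `S_l` a sum of divisor sums over the inverse different, with a denominator depending on `k n`
  alone; e.g. `ζ (-1) = -S_1/63` for cubic fields, and trace one occurs in degrees 2 to 5 and 7.
* `congruent_constant_weight`, `constant_term_denominator`, `siegel_form`, `zeta_denominator`,
  `zeta_integral_at`, `zeta_neg_one_denominators` (`SummarySerreDenominators`, namespace
  `FA.SerreDenominators.Summary`; Serre 1973): a level one form congruent to a unit constant
  modulo `p ^ m` has `(p - 1) p ^ (m - 1) ∣ w`, so integral higher coefficients give a constant
  term of denominator dividing that of `B_w / (2 w)`; hence `ζ_K (1 - k)` is `p`-integral unless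
  `p - 1 ∣ k n`, and `den (B_{kn} / (2 k n)) ζ_K (1 - k) / 2^n` is an integer.
* `constant_term_congruence`, `zeta_kummer`, `zeta_congruence_general`, `padic_zeta_totallyReal`
  (`SummaryTotallyRealKummer`, namespace `FA.TotallyRealKummer.Summary`; Serre 1973): for `p ≥ 5`,
  even `k, k' ≥ a + 2` congruent modulo `(p - 1) p ^ a`, `p - 1 ∤ k n`, the values
  `2^(-n) ζ_K (1 - k)` are congruent modulo `p ^ (a + 1)`; so each class carries a `p`-adic zeta
  function, a contraction of `ℤ_p` defined as a limit (Euler factors in the next entry).
* `eisenstein_two_lattices`, `euler_form`, `value_formula`, `kummer_euler_factors`,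
  `padic_zeta_interpolation`, `large_weight_congruence` (`SummaryPadicEulerFactor`, namespace
  `FA.PadicEulerFactor.Summary`): for `p ≥ 5` that function takes at every even `k ≥ 4` of its
  class the value `∏_{P ∣ p} (1 - N P ^ (k-1)) 2^(-n) ζ_K (1 - k)`; these are congruent modulo
  `p ^ (a + 1)` for `k ≡ k'` modulo `(p - 1) p ^ a` (forms of level `p`, trace to level one).
* `congruence_every_prime`, `numerator_power_bounded`, `values_tendsto_infinity`,
  `infinitely_many_irregular_primes` (`SummaryIrregularTotallyReal`, namespace
  `FA.IrregularTotallyReal.Summary`; Jensen, Carlitz for `ℚ`): every totally real field has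
  infinitely many irregular primes, in the sense of zeta values: `p` divides the numerator of some
  `2^(-n) ζ_K (1 - k)`, `k ≤ p + 1` even, `p - 1 ∤ k n`.
* `eisenstein_two_lattices_all`, `kummer_weight_two`, `kummer_every_prime`,
  `padic_zeta_every_prime`, `no_pole_two`, `agrees_good_class`, `interpolation_all`
  (`SummaryPadicZetaFull`, namespace `FA.PadicZetaFull.Summary`; Serre 1973): the same for every
  prime, `2` and `3` included, every class and `k = 2` (`ζ_K (-1)`, Hecke's trick): continuous off
  the only possible pole `k = 0`, so everywhere in a class without pole, and bounded times `k n`.
* `constant_term_principle`, `reciprocity`, `char_value_galois`, `char_value_mem`,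
  `char_value_eq_zero_iff`, `odd_character_nonzero`, `ray_class_continuation`, `ray_class_value`
  (`SummaryKlingenRay`, namespace `FA.KlingenRay.Summary`; Siegel, Klingen): over a totally real
  field the values at `1 - k`, `k ≥ 3` of either parity, of ray class L-series lie in the field of
  the character, conjugate with it, vanish exactly off the parity; ray class zeta values rational.
* `hecke_limit_form`, `reciprocity`, `char_value_galois`, `char_value_mem`,
  `char_value_eq_zero_iff`, `odd_character_nonzero`, `ray_class_value`, `zeta_value_zero`
  (`SummaryKlingenZero`, namespace `FA.KlingenZero.Summary`; Hecke, Siegel): over a totally real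
  field the values at `0` of ray class L-series lie in the field of the character and conjugate
  with it; primitive nontrivial ones vanish exactly when not totally odd; ray class zeta values
  rational.
* `cm_class_number_formula`, `imaginary_quadratic`, `eisenstein_check`, `odd_char_value`,
  `cm_class_number_abelian`, `brumer_element_char`, `brumer_element_compat` (`SummaryCMValue`,
  namespace `FA.CMValue.Summary`): `h 2 ^ n = h⁺ Q w L (g, 0)` for every CM field, a product over
  odd characters when abelian over a totally real field; Brumer's element (no annihilation).
* `hecke_two_form`, `reciprocity_two`, `char_value_galois`, `char_value_eq_zero_iff`,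
  `ray_class_value`, `zeta_neg_one`, `rat_check` (`SummaryKlingenTwo`, namespace
  `FA.KlingenTwo.Summary`): Klingen and Siegel at every `1 - k`, `k ≥ 1`, over a totally real
  field: values follow the character, vanish off the parity, ray class zeta values are rational.
* `constant_bounded`, `isIntegral_of_val`, `char_value_denominators`, `char_value_rat_den`,
  `zeta_denominators` (`SummaryKlingenIntegral`, namespace `FA.KlingenIntegral.Summary`):
  constants of forms of any finite-index group are bounded at `ℓ ≥ w + 2` by the other
  coefficients at all cusps; over a totally real field `L(f, 1 - k)` has only primes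
  `≤ max 3 (k n + 1)` or dividing the norm of the modulus in its denominator (no discriminant;
  `n ≥ 2` if `k = 2`).
* `combination_integral`, `class_value_integral`, `class_value_denominators`,
  `brumer_element_integral`, `char_congruence`, `char_congruent`, `twist_congruence`,
  `cm_twist_units` (`SummaryClassIntegral`, namespace `FA.ClassIntegral.Summary`): integrality of
  narrow ray class zeta values at primes `ℓ > max 3 (k n + 1)` off the modulus (`n ≥ 2` if
  `k ≤ 2`), also when `ℓ` divides their number; congruent characters have congruent values; twists
  of `ℓ`-power order.
* `WeightLevel.Summary.constant_le_level`, `WeightLevel.Summary.combination_integral_all`,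
  `WeightLevel.Summary.class_value_den`, `WeightLevel.Summary.zeta_value_den`
  (`SummaryWeightLevel`, namespace `FA.WeightLevel.Summary`): Serre's constant term theorem at
  level `N` for every prime `ℓ ≥ 5` off `N` with `ℓ - 1 ∤ 2 w`; zeta values at `1 - k` of totally
  real fields and their narrow ray classes (`n ≥ 2` if `k ≤ 2`) have denominators from `6 N 𝔪`
  and primes `p` with `(p - 1) ∣ k n` (`∣ 2 k n` for `k n` odd) only.
* `WeightLevel.Summary.combination_congruence`, `WeightLevel.Summary.char_kummer`,
  `WeightLevel.Summary.class_kummer` (`SummaryRayKummer`): Kummer's congruences modulo
  `ℓ ^ (a + 1)` between the values at `1 - k`, `1 - k'`, `k ≡ k'` mod `(ℓ - 1) ℓ ^ a`, of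
  L-functions of ray class characters and of partial zeta functions of totally real fields,
  `ℓ ≥ 5` off the modulus, `k, k' ≥ a + 2`, `ℓ - 1 ∤ 2 k n`, `n ≥ 2` if `k = 2`.
* `RayPadicL.Summary.combination_stripped_congruence`,
  `RayPadicL.Summary.char_stripped_congruence`, `RayPadicL.Summary.stripped_continuation`,
  `RayPadicL.Summary.stripped_class_continuation`, `RayPadicL.Summary.class_padic_zeta`,
  `RayPadicL.Summary.char_padic_L`, `RayPadicL.Summary.char_padic_L_complex`
  (`SummaryRayPadicL`, namespace `FA.RayPadicL.Summary`): `p`-adic zeta functions of narrow ray
  classes and `p`-adic L-functions of ray class characters of totally real fields on `k ≡ k₀` mod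
  `p - 1`: continuous on `ℤ_p`, at integers `k ≥ 2` equal to the value at `1 - k` without the
  primes over `p` (Euler factors proved). `p ≥ 5` off the modulus, `n ≥ 2` if `k₀ = 2`,
  `p - 1 ∤ 2 k₀ n` or `k₀ n` even and `p - 1 ∤ k₀ n`; not proved: weight `1`, `p = 2, 3`,
  `p ∣ N 𝔪`, exceptional weights, measures.
* `PadicForms.Summary.serre_weight_congruence`, `PadicForms.Summary.weights_converge`,
  `PadicForms.Summary.weight_well_defined`, `PadicForms.Summary.constant_term_limit`,
  `PadicForms.Summary.eisenstein_family`, `PadicForms.Summary.eisenstein_values`,
  `PadicForms.Summary.eisenstein_constant_zeta`, `PadicForms.Summary.e2_weight_two`,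
  `PadicForms.Summary.operator_U`, `PadicForms.Summary.operator_V`,
  `PadicForms.Summary.operator_theta` (`SummaryPadicModularForms`): Serre's `p`-adic modular forms
  of level one, `p ≥ 5`: weights in `ℤ/(p-1) × ℤ_p`, the constant off weight `0`, the forms `G*`
  with half the Kubota–Leopoldt zeta value as constant, `E₂` of weight `2`, `U`, `V`, `θ`; not
  proved: `p = 2, 3`, higher levels, Katz's definition, spectral theory of `U`.
* `OrdinaryProj.Summary.ordinary_projector`, `OrdinaryProj.Summary.ordinary_part`,
  `OrdinaryProj.Summary.ordinary_rank`, `OrdinaryProj.Summary.ordinary_rank_independent`,
  `OrdinaryProj.Summary.ordinary_control`, `OrdinaryProj.Summary.eisenstein_line`,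
  `OrdinaryProj.Summary.ordinary_five_seven` (`SummaryOrdinaryProjector`): Hida's projector
  `lim U ^ n!` on Serre's `p`-adic forms of level one, `p ≥ 5`: finite rank depending on the weight
  modulo `p - 1` only, control by classical forms in weights `k ≥ 3`, the Eisenstein line for
  `p = 5, 7`; not proved: `p = 2, 3`, tame levels, families over the Iwasawa algebra, slopes.
* `LevelPPadic.Summary.level_p_padic`, `LevelPPadic.Summary.level_p_operator_U`,
  `LevelPPadic.Summary.weight_two_U_sq`, `LevelPPadic.Summary.ordinary_classical`,
  `LevelPPadic.Summary.ordinary_weight_two` (`SummaryLevelPPadic`): Serre's theorem that forms on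
  `Γ₀(p)` with rational expansion are `p`-adic forms of level one, `p ≥ 5`; Hida's classicality:
  ordinary `p`-adic forms (fixed by `lim U ^ n!`) of weight `k ≥ 3` come from level `p`, and in
  weight two they are exactly the span of those forms; not proved: `p = 2, 3`, levels `p ^ r`.
* `LambdaForms.Summary.lambda_adic_iff`, `LambdaForms.Summary.specialisation_formula`,
  `LambdaForms.Summary.lambda_free`, `LambdaForms.Summary.lambda_bases`,
  `LambdaForms.Summary.lambda_specialisation`, `LambdaForms.Summary.lambda_classical`,
  `LambdaForms.Summary.lambda_rank_pos`, `LambdaForms.Summary.lambda_eisenstein`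
  (`SummaryLambdaAdic`): Hida's theorem in level one, `p ≥ 5`: ordinary `Λ`-adic forms (series over
  `ℤ_p⟦T⟧` whose value at every `T = (1 + p) ^ s - 1` is an ordinary `p`-adic form) form a free
  module of finite rank, specialisation is onto with kernel `(T - x)`, values at integers `k ≥ 2`
  come from level `p`, the Eisenstein family; not proved: `p = 2, 3`, tame levels, Hecke algebras.
* `LambdaHecke.Summary.hecke_coefficient`, `LambdaHecke.Summary.hecke_operator`,
  `LambdaHecke.Summary.hecke_generators`, `LambdaHecke.Summary.hida_duality`,
  `LambdaHecke.Summary.universal_series`, `LambdaHecke.Summary.hecke_control`,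
  `LambdaHecke.Summary.eigen_series`, `LambdaHecke.Summary.eigen_classical`,
  `LambdaHecke.Summary.eigen_weight`, `LambdaHecke.Summary.eigen_families`,
  `LambdaHecke.Summary.eigen_lifting`, `LambdaHecke.Summary.hecke_nontrivial`
  (`SummaryLambdaHecke`): Hida's ordinary Hecke algebra over `ℤ_p⟦T⟧` in level one, `p ≥ 5`, classes
  other than `0`: perfect duality and freeness, control, eigenseries, lifting of systems of
  eigenvalues modulo `p` to every weight and to families; not proved: the class `0`, `p = 2, 3`,
  tame levels, Galois representations (reducedness and complex eigenforms: `SummaryOrdinaryReduced`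
  and `SummaryLevelOneControl`).
* `LambdaEisenstein.Summary.eisenstein_family`, `LambdaEisenstein.Summary.zeta_element`,
  `LambdaEisenstein.Summary.cusp_families`, `LambdaEisenstein.Summary.cusp_duality`,
  `LambdaEisenstein.Summary.congruence_module`, `LambdaEisenstein.Summary.irregular_congruence`,
  `LambdaEisenstein.Summary.eisenstein_lifting`, `LambdaEisenstein.Summary.eisenstein_classical`,
  `LambdaEisenstein.Summary.example_691` (`SummaryLambdaEisenstein`): Ribet's congruences in Hida
  theory, level one, `p ≥ 5`, even classes other than `0`: the cuspidal Hecke algebra (constant `0`
  at infinity) modulo the Eisenstein ideal is `ℤ_p⟦T⟧ / (ζ)`, `ζ` with the values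
  `(1 - p ^ (k - 1)) (-B_k / 2k)`; irregular primes give congruent systems in every weight, on
  families; not proved: class groups, Galois representations, the main conjecture, the class `0`.
* `DeltaFamily.Summary.cusp_form_eigen`, `DeltaFamily.Summary.rank_one`,
  `DeltaFamily.Summary.delta_family`, `DeltaFamily.Summary.delta_weight_unique`,
  `DeltaFamily.Summary.passes_through`, `DeltaFamily.Summary.delta_classical`,
  `DeltaFamily.Summary.deep_congruence`, `DeltaFamily.Summary.delta_eleven`,
  `DeltaFamily.Summary.delta_691` (`SummaryDeltaFamily`): the Hida family through the cusp forms of
  weight `12, 16, 18, 20, 22, 26` at a good ordinary prime `p ≥ 5` (class other than `0`): rank one,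
  unique in every weight, Eisenstein modulo the zeta element; at `11` it joins `Δ` to the elliptic
  curve of conductor `11`, at `691` it carries Ramanujan's congruence to every weight of the class;
  not proved: Galois representations, newness, the other weights and primes.
* `LevelOneControl.Summary.stabilisation_bijective`, `LevelOneControl.Summary.stabilisation_hecke`,
  `LevelOneControl.Summary.ordinary_levelOne`, `LevelOneControl.Summary.complex_eigenform`,
  `LevelOneControl.Summary.family_classical_levelOne`,
  `LevelOneControl.Summary.weight_congruence`,
  `LevelOneControl.Summary.delta_congruent_eigenforms`,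
  `LevelOneControl.Summary.eleven_congruent_eigenforms` (`SummaryLevelOneControl`): Hida's control
  theorem down to level one in weights `≥ 3`: the classical points of eigenfamilies are complex
  level one eigenforms; in every weight `k ≡ 2 (mod 10 · 11^n)`, `k ≥ 3`, a cusp eigenform congruent
  modulo `11^(n+1)` to the elliptic curve of conductor `11`, and the like for `Δ` at every good
  ordinary `p ≥ 5`; not proved: Galois representations, positive slope, tame levels, weight `2`.
* `OrdinaryReduced.Summary.levelOne_semisimple`, `OrdinaryReduced.Summary.ordinary_semisimple`,
  `OrdinaryReduced.Summary.hecke_reduced`, `OrdinaryReduced.Summary.fibre_count`,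
  `OrdinaryReduced.Summary.weight_independence` (`SummaryOrdinaryReduced`): Hida's ordinary Hecke
  algebra of level one is reduced, `p ≥ 5`: the operators are semisimple on the forms and on the
  ordinary part of every weight `≥ 3`, and outside the class `0` the systems of eigenvalues of a
  weight are as many as the rank, their series a basis, whatever the weight; not proved: other
  weights, tame levels, Galois representations.
* `OrdinaryCount.Summary.eigenforms_count`, `OrdinaryCount.Summary.ordinary_count`,
  `OrdinaryCount.Summary.ordinary_cusp_count`, `OrdinaryCount.Summary.weight_independence`,
  `OrdinaryCount.Summary.class_two`, `OrdinaryCount.Summary.small_classes`,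
  `OrdinaryCount.Summary.five_seven`, `OrdinaryCount.Summary.eleven_thirteen`
  (`SummaryOrdinaryCount`): for `p ≥ 5`, `k ≥ 3` and an embedding of `ℚ_p` in `ℂ`, the complex
  eigenforms with `a_p` a unit are as many as the rank of Hida's ordinary part, a number of the
  class of `k` modulo `p - 1`: `g(X₀(p)) + 1` for the class of `2`, one for `4, 6, 8, 10, 14`
* `OrdinaryCongruence.Summary.coefficients_integral`,
  `OrdinaryCongruence.Summary.ordinary_congruence`,
  `OrdinaryCongruence.Summary.cuspidal_congruence`,
  `OrdinaryCongruence.Summary.residual_systems`, `OrdinaryCongruence.Summary.modp_systems_lift`,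
  `OrdinaryCongruence.Summary.delta_congruence` (`SummaryOrdinaryCongruence`): for `p ≥ 5` and
  weights `k ≡ m (mod p - 1)`, at least `3`, every ordinary eigenform of weight `k` is congruent
  at all `n ≥ 1` modulo a prime over `p` to one of weight `m`; so for `Δ` if `p ∤ τ(p)`
* `WeightTwoOrdinary.Summary.levelP_to_levelOne`, `WeightTwoOrdinary.Summary.levelOne_to_levelP`,
  `WeightTwoOrdinary.Summary.residual_systems_weight_two`,
  `WeightTwoOrdinary.Summary.ordinary_cusp_sign`, `WeightTwoOrdinary.Summary.eleven`
  (`SummaryWeightTwoOrdinary`): for `p ≥ 5` and `k ≡ 2 (mod p - 1)`, modulo a prime over `p`, the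
  newforms of `S₂(Γ₀(p))` and the ordinary cusp eigenforms of level one and weight `k ≥ 3` have the
  same systems, with `a_p ≡ ±1`; for `p = 11` that of the curve of conductor `11`
* `WeightTwoOrdinaryGalois.Summary.residual_representation`,
  `WeightTwoOrdinaryGalois.Summary.finitely_many_representations`,
  `WeightTwoOrdinaryGalois.Summary.common_representation`,
  `WeightTwoOrdinaryGalois.Summary.eleven_representation` (`SummaryWeightTwoOrdinaryGalois`): for
  `p ≥ 5` the ordinary cusp eigenforms of level one and weights `k ≡ 2 (mod p - 1)`, `k ≥ 3`, have
  Galois representations modulo `p` with trace `a_l` and determinant `l ^ (k - 1)`, at most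
  `g(X₀(p))` in all; for `p = 11` one of image `GL₂(𝔽₁₁)`, that of the curve of conductor `11`
* `WeightTwoIrreducible.Summary.characters_unramified_outside`,
  `WeightTwoIrreducible.Summary.two_not_reducible_congruence`,
  `WeightTwoIrreducible.Summary.level_p_irreducible`,
  `WeightTwoIrreducible.Summary.ordinary_irreducible`,
  `WeightTwoIrreducible.Summary.ordinary_irreducible_representation`
  (`SummaryWeightTwoIrreducible`): for `p ≥ 5` the representations modulo `p` of the weight two
  eigenforms of level `p`, and of the ordinary cusp eigenforms of level one in the class of `2`,
  have no stable line over any field; characters unramified outside `p` are cyclotomic powers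
* `WeightTwoMultiplicityOne.Summary.level_p_multiplicity_one`,
  `WeightTwoMultiplicityOne.Summary.ordinary_multiplicity_one`,
  `WeightTwoMultiplicityOne.Summary.level_p_conjugate`,
  `WeightTwoMultiplicityOne.Summary.ordinary_conjugate_iff`,
  `WeightTwoMultiplicityOne.Summary.conjugacy_classes`,
  `WeightTwoMultiplicityOne.Summary.systems_card`,
  `WeightTwoMultiplicityOne.Summary.eleven_one_class` (`SummaryWeightTwoMultiplicityOne`): for
  `p ≥ 5` almost all primes determine the systems modulo `p` of weight two and level `p` and of the
  class of `2` at every index; their representations are unique up to conjugacy, as many classes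
  as systems, at most `g(X₀(p))`
* `WeightTwoSelfTwist.Summary.twist_congruence`, `WeightTwoSelfTwist.Summary.no_self_twist`,
  `WeightTwoSelfTwist.Summary.trace_nonzero`, `WeightTwoSelfTwist.Summary.irreducible_abelian`,
  `WeightTwoSelfTwist.Summary.irreducible_cyclotomic`,
  `WeightTwoSelfTwist.Summary.irreducible_index_two`,
  `WeightTwoSelfTwist.Summary.projective_not_abelian`,
  `WeightTwoSelfTwist.Summary.projective_not_dihedral`,
  `WeightTwoSelfTwist.Summary.ordinary_irreducible_abelian`,
  `WeightTwoSelfTwist.Summary.ordinary_twist_congruence` (`SummaryWeightTwoSelfTwist`): for `p ≥ 5`
  the representations modulo `p` of weight two and level `p`, and of the class of `2`, have no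
  self-twist, stay absolutely irreducible over abelian fields (`ℚ(μ_p)`: the Taylor–Wiles
  hypothesis) and have projective image neither abelian nor dihedral
* `MazurAtLevel.Summary.system_irreducible_at_level`, `MazurAtLevel.Summary.exists_reducible_iff`,
  `MazurAtLevel.Summary.no_stable_cyclic_at_level`,
  `MazurAtLevel.Summary.no_rational_torsion_at_level`,
  `MazurAtLevel.Summary.stable_cyclic_dvd_numerator`, `MazurAtLevel.Summary.rational_point_iff`,
  `MazurAtLevel.Summary.rational_torsion_generated`, `MazurAtLevel.Summary.rational_torsion_card`,
  `MazurAtLevel.Summary.rational_torsion_orders` (`SummaryMazurAtLevel`): the case `l = p` of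
  Mazur's results: `ρ_m` at `p` is irreducible, `J₀(p)` has no stable cyclic subgroup of order `p`,
  and the cuspidal class generates the rational torsion of order prime to `6`
* `AbelianTorsionJZero.Summary.torsion_fixed_by_commutators`,
  `AbelianTorsionJZero.Summary.primary_torsion_abelian`,
  `AbelianTorsionJZero.Summary.torsion_abelian_subgroup`,
  `AbelianTorsionJZero.Summary.torsion_cyclotomic`,
  `AbelianTorsionJZero.Summary.torsion_index_two` (`SummaryAbelianTorsionJZero`): for `p ≥ 5` and
  `M` prime to `6 n`, `n` the numerator of `(p - 1) / 12`, `J₀(p)` has no `M`-torsion over any
  abelian extension of `ℚ`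
* `LocalShapeJZero.Summary.displacement_cyclotomic`, `LocalShapeJZero.Summary.inertia_relation`,
  `LocalShapeJZero.Summary.ordinary_at_level`, `LocalShapeJZero.Summary.inertia_projective_order`,
  `LocalShapeJZero.Summary.image_order_p`, `LocalShapeJZero.Summary.projective_not_exceptional`,
  `LocalShapeJZero.Summary.full_image`, `LocalShapeJZero.Summary.not_flat_at_level`,
  `LocalShapeJZero.Summary.form_ordinary`, `LocalShapeJZero.Summary.form_order_p`,
  `LocalShapeJZero.Summary.form_not_exceptional`, `LocalShapeJZero.Summary.form_full_image`,
  `LocalShapeJZero.Summary.level_one_ordinary_shape`, `LocalShapeJZero.Summary.level_one_full_image`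
  (`SummaryLocalShapeJZero`): for `p ≥ 5` inertia at `p` moves `J₀(p)[p]` by classes on which it
  acts through the cyclotomic character, so a representation attached mod `p` to level `p` is
  ordinary at `p`, has an element of order `p` and projective image none of `A₄`, `S₄`, `A₅`;
  with values in `𝔽_p` its image is `GL₂(𝔽_p)` and it is not finite flat at `p`; the same for
  ordinary cusp forms of level one and weight `2` modulo `p - 1`
* `SolvableTorsionJZero.Summary.system_derived`, `SolvableTorsionJZero.Summary.system_not_solvable`,
  `SolvableTorsionJZero.Summary.form_not_solvable`,
  `SolvableTorsionJZero.Summary.level_one_not_solvable`,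
  `SolvableTorsionJZero.Summary.torsion_derived`,
  `SolvableTorsionJZero.Summary.torsion_solvable_quotient`,
  `SolvableTorsionJZero.Summary.torsion_solvable_extension`,
  `SolvableTorsionJZero.Summary.torsion_field_not_solvable` (`SummarySolvableTorsionJZero`): for
  `p ≥ 5` a representation attached mod `p` to level `p` or to an ordinary cusp form of level one
  and weight `2` modulo `p - 1` has non-solvable image, and `J₀(p)` has no point of `p`-power
  order over any solvable extension of `ℚ`
* `InertiaJZero.Summary.inertia_fixed_classes`, `InertiaJZero.Summary.system_ramified`,
  `InertiaJZero.Summary.system_order_l`, `InertiaJZero.Summary.system_not_solvable`,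
  `InertiaJZero.Summary.system_full_image`, `InertiaJZero.Summary.level_eleven_full_image`,
  `InertiaJZero.Summary.level_eleven_fixed_card`, `InertiaJZero.Summary.torsion_coprime_derived`,
  `InertiaJZero.Summary.torsion_coprime_solvable_extension`,
  `InertiaJZero.Summary.torsion_eleven_solvable` (`SummaryInertiaJZero`): for primes `l ≥ 5`,
  `l ≠ p`, not dividing `n = num ((p - 1) / 12)` the classes of `J₀(p)[l]` fixed by inertia at `p`
  are the `l ^ g` classes `s y - y`, on which Frobenius is `p U_p`; the representations of systems
  modulo `l` are ramified at `p` with a transvection, are not solvable and over `𝔽_l` are onto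
  `GL₂`; `J₀(p)` has no torsion of order prime to `6 n` over the solvable closure of `ℚ`.
* `ComponentJZero.Summary.rational_class_not_displaced`, `ComponentJZero.Summary.fixed_card_of_dvd`,
  `ComponentJZero.Summary.displaced_card_of_dvd`, `ComponentJZero.Summary.fixed_card`,
  `ComponentJZero.Summary.fixed_card_iff`, `ComponentJZero.Summary.level_eleven_five_unramified`,
  `ComponentJZero.Summary.level_eleven_ramified` (`SummaryComponentJZero`): the component group of
  `J₀(p)` at `p` read on inertia: for primes `l ≥ 5`, `l ≠ p`, exactly `l ^ (g + 1)` classes killed
  by `l` are fixed by inertia at `p` if `l` divides the numerator of `(p - 1) / 12` (the cuspidal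
  one is not displaced) and `l ^ g` if not; inertia at `11` fixes `J₀(11)[5]` and moves
  `J₀(11)[l]`, `l ≥ 7`;
* `ToricJZero.Summary.inertia_cyclic`, `ToricJZero.Summary.fixed_card`,
  `ToricJZero.Summary.inertia_order`, `ToricJZero.Summary.not_potentially_unramified`,
  `ToricJZero.Summary.inertia_moves_in_open`, `ToricJZero.Summary.level_eleven_fixed_card_all`,
  `ToricJZero.Summary.level_eleven_inertia_order` (`SummaryToricJZero`): purely toric reduction of
  `J₀(p)` at `p` read on inertia: for `M` prime to `6 n p` inertia acts on `J₀(p)[M]` unipotently
  through a cyclic group of order exactly `M` (`g > 0`), fixes exactly the `M ^ g` classes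
  `s y - y`, and fixes the torsion prime to `p` inside no open subgroup;
* `FrobeniusJZero.Summary.frobenius_mod_fixed`, `FrobeniusJZero.Summary.frobenius_on_fixed`,
  `FrobeniusJZero.Summary.eichler_shimura_at_level`, `FrobeniusJZero.Summary.killed_of_frobenius_pow`,
  `FrobeniusJZero.Summary.torsion_unramified_field`,
  `FrobeniusJZero.Summary.torsion_unramified_field_card`,
  `FrobeniusJZero.Summary.torsion_padic_rational` (`SummaryFrobeniusJZero`): for `M` prime to `6 n p`
  Frobenius at `p` is `p U_p` on the classes of `J₀(p)[M]` fixed by inertia and `U_p` modulo them
  (Eichler–Shimura at the level); over a field unramified at a place over `p` of residue degree `f`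
  that torsion is killed by `p ^ (2 f) - 1`;
* `CuspComponentJZero.Summary.fixed_card_lower`,
  `CuspComponentJZero.Summary.fixed_card_of_dvd_numerator`,
  `CuspComponentJZero.Summary.fixed_card_split`, `CuspComponentJZero.Summary.cuspidal_not_displaced`,
  `CuspComponentJZero.Summary.level_eleven_fixed_card_five` (`SummaryCuspComponentJZero`): for `M`
  prime to `6 p` inertia at `p` fixes at least `M ^ g gcd (M, n)` classes of `J₀(p)[M]`, exactly
  `M ^ (g + 1)` for `M ∣ n`; no class of order prime to `6` in a rational cyclic subgroup of order
  `n` is displaced by inertia (in Grothendieck's description it then injects into the component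
  group, which is not defined here);
* `fixed_card_exact`, `displaced_card_exact`, `toric_cusp_decomposition` (SummaryExactComponentJZero):
  the classes of `J₀(p)[M]` fixed by inertia at `p`, `M` prime to `6 p`: toric plus cuspidal,
  `M ^ g · gcd (M, n)` in number, Eisenstein modulo the toric ones;
* `toric_free`, `inertia_trivial_iff`, `inertia_order_exact`, `inertia_order_genus_one`,
  `not_potentially_unramified_all`, `fixed_mod_displaced_eisenstein`,
  `invariant_functional_vanishes`, `level_eleven_inertia_order_exact` (SummaryExactOrderJZero):
  inertia at `p` on `J₀(p)[M]`, `M` prime to `6 p`, primes dividing `n` allowed: free toric part,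
  image of order `M` (`g ≥ 2`) or `M / gcd (M, n)` (`g = 1`), no open subgroup fixing all the
  `l`-power torsion for every `l ≥ 5`, `l ≠ p`; fixed modulo displaced classes are Eisenstein;
* `level_cuspidal`, `frobenius_on_all_fixed`, `frobenius_trivial_mod_toric`, `eichler_shimura_all`,
  `killed_of_frobenius_pow_all`, `torsion_unramified_field_all`,
  `torsion_unramified_field_card_all`, `torsion_padic_rational_all`, `level_eleven_padic_torsion`
  (SummaryDecompositionJZero): the decomposition group at `p` on `J₀(p)[M]`, `M` prime to `6 p`,
  primes dividing `n` allowed: Frobenius is `p U_p` on all fixed classes, trivial modulo the toric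
  ones, and the torsion over fields unramified at a place over `p` is bounded;
* `toric_eigenclass`, `toric_eigenclass_hecke`, `eisenstein_two_lines`, `eisenstein_fixed_card`,
  `level_eleven_five_eisenstein` (SummaryToricEigenJZero): for `l ≥ 5`, `l ≠ p`, every maximal ideal
  over `l` of the Hecke algebra of level `p` kills a nonzero class displaced by inertia at `p`, on
  which Frobenius is `p U_p`; for `l ∣ n` at least `l ^ 2` Eisenstein classes of `J₀(p)[l]` are
  fixed by the decomposition group (towards Mazur's `dim J[m] = 2`; equality not proved);
* `frobenius_normal_pComplement`, `thompson_normal_pComplement`,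
  `thompson_fixedPointFree_nilpotent`, `frobenius_kernel_nilpotent`, `frobenius_galois_nilpotent`
  (`Root/SummaryThompson`): the normal `p`-complement theorems of Frobenius and of Thompson (`p`
  odd, `J P` and `Z P`), the nilpotency of a finite group with a fixed-point-free automorphism of
  prime order and of Frobenius kernels, also in Galois form;
* `glauberman_replacement`, `glauberman_thompson`, `frobenius_criterion_iff`,
  `glauberman_thompson_galois` (`Root/SummaryGlaubermanThompson`): Glauberman's replacement theorem
  and, for odd `p`, the Glauberman–Thompson theorem (a normal `p`-complement exactly when the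
  normaliser of `Z (J P)` has one), Frobenius' criterion as equivalences, and a Galois form;
* `unique_subgroup_order_p`, `complement_pq_cyclic`, `complement_abelian_cyclic`, `complement_sylow`,
  `complement_involution`, `complement_odd_metacyclic`, `frobenius_group_odd_solvable`,
  `frobenius_galois_odd_solvable` (`Root/SummaryFrobeniusComplements`): Burnside's theorems on
  fixed-point-free groups: `p`-groups with one subgroup of order `p`, cyclic or quaternion Sylow
  subgroups, the central involution, and solvability of Frobenius groups of odd order;
* `brauer_suzuki`, `brauer_suzuki_centralizer`, `brauer_suzuki_center`, `brauer_suzuki_normal`,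
  `brauer_suzuki_not_simple`, `brauer_suzuki_galois` (`Root/SummaryBrauerSuzuki`): the
  Brauer–Suzuki theorem for generalised quaternion Sylow `2`-subgroups of order at least `16`:
  the involution is central modulo a normal subgroup of odd order, so the group is not simple
  (the quaternion group of order `8` is in `Root/SummaryZStar`), with a Galois form;
* `suzuki_CA_solvable`, `suzuki_CA_commTransitive`, `suzuki_CA_not_simple`, `suzuki_CA_structure`,
  `suzuki_CA_galois` (`Root/SummarySuzukiCA`): Suzuki's theorem that a group of odd order in
  which centralisers of nontrivial elements are abelian is solvable, indeed abelian or a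
  Frobenius group with abelian kernel, by exceptional characters;
* `schur_cyclic_bGroup`, `fried_irreducible`, `fried_iff`, `indecomposable_baseChange`
  (`Root/SummaryFriedIrreducibility`): Schur's theorem that a primitive group of composite degree
  containing a full cycle is doubly transitive, and Fried's theorem: an indecomposable polynomial
  `f` of composite degree in characteristic `0` has `(f(X) - f(Y)) / (X - Y)` absolutely
  irreducible, and conversely (the prime degree classification is not claimed).
* `bender`, `components_commute`, `schenkman`, `wielandt_subnormal_bound`,
  `wielandt_automorphism_tower` (`Root/SummaryAutomorphismTower`): the generalised Fitting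
  subgroup contains its centraliser, components commute, Schenkman's theorem on the nilpotent
  residual of a subnormal subgroup, and Wielandt's theorem that the automorphism tower of a
  finite group with trivial centre is eventually constant (transfinite towers are not claimed).
* `marshall_hall_separable`, `free_residuallyFinite`, `malcev_hopfian`, `free_hopfian`, `howson`,
  `magnus`, `free_residually_pGroup` (`Root/SummaryFreeGroupTheorems`): finitely generated
  subgroups of free groups are separable (M. Hall) and meet in finitely generated subgroups
  (Howson), free groups of finite rank are Hopfian (Malcev), and every free group is residually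
  nilpotent, indeed residually a finite `p`-group (Magnus).
* `wielandt_join`, `wielandt_zipper`, `baer_suzuki`, `baer_suzuki_pGroup`, `involution_inverts`,
  `baer_engel`, `zorn_engel` (`Root/SummaryBaerSuzuki`): in finite groups joins of subnormal
  subgroups are subnormal, the zipper lemma, the Baer–Suzuki theorem with its corollary that an
  involution outside every normal `2`-subgroup inverts an element of odd prime order, and the
  theorems of Baer and Zorn that left Engel elements lie in nilpotent normal subgroups and Engel
  groups are nilpotent (infinite groups are not claimed).
* `clifford`, `clifford_constituents`, `schur_degree_dvd_index`, `schur_degree_dvd_center_index`,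
  `ito_degree_dvd_index`, `ito_galois`, `taketa` (`Root/SummaryCliffordTheory`): restricted to a
  normal subgroup an irreducible representation is a sum of conjugates of one constituent
  (Clifford); complex degrees divide the index of the centre (Schur) and of every abelian normal
  subgroup (Itô), also for Galois representations; groups with only monomial irreducible complex
  representations are solvable (Taketa). The Itô–Michler theorem is not claimed.
* `krull_remak_schmidt`, `remak_exists`, `indecomposable_iff`, `fitting_normal_endomorphism`,
  `product_cancellation`, `square_root_unique` (`Root/SummaryKrullRemakSchmidt`): finite groups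
  are products of directly indecomposable groups, uniquely up to order and isomorphism, by
  Fitting's lemma for normal endomorphisms; so `A × C ≅ B × C` gives `A ≅ B`, as does
  `A × A ≅ B × B` (infinite groups with chain conditions are not claimed).
* `FA.Summary.klein_invertible_order`, `FA.Summary.dickson_gl2`, `FA.Summary.galois_index`,
  `FA.Summary.dickson_galois` (`SummaryDicksonSubgroups`): Klein's five projective images for a
  finite subgroup of `GL₂` of invertible order over any field; Dickson's classification of the
  subgroups of `GL₂(𝔽_p)` (contains `SL₂`, fixes a line, or order prime to `p` with one of these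
  images, `A₅` only for `p ≡ ±1 (mod 5)`); Galois: for `p > 11` proper subgroups of `SL₂(𝔽_p)` and
  `PSL₂(𝔽_p)` have index at least `p + 1`, attained; solvable image unless `SL₂` or icosahedral.
* `FA.Summary.schur_multiplier_finite`, `FA.Summary.schur_lift_iff`, `FA.Summary.schur_cover`,
  `FA.Summary.schur_stem_bound`, `FA.Summary.schur_perfect_universal`,
  `FA.Summary.schur_elementary` (`SummarySchurCover`): the Schur multiplier of a finite group is
  finite, killed by the order and trivial for cyclic Sylow subgroups; covering groups exist, lift
  every projective representation, bound every stem extension and are universal for perfect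
  groups; the multiplier of `C_p × C_p` has order `p`.
* `FA.Summary.supersolvable_closure`, `FA.Summary.supersolvable_structure`,
  `FA.Summary.huppert`, `FA.Summary.huppert_frattini`, `FA.Summary.supersolvable_galois`
  (`SummarySupersolvable`): supersolvable groups, their closure and structure (nilpotent
  commutator subgroup, prime chief factors, Sylow tower); Huppert's theorem that a finite group
  is supersolvable iff all maximal subgroups have prime index, hence iff `G ⧸ Φ(G)` is; the
  corresponding towers of cyclic extensions Galois over the base field.
* `FA.Summary.sublattice_gaussian`, `FA.Summary.cohen_lenstra_classes`,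
  `FA.Summary.hall_mass_formula`, `FA.Summary.cokernel_limit`,
  `FA.Summary.cohen_lenstra_moments`, `FA.Summary.cohen_lenstra_examples`
  (`SummaryCohenLenstra`): the Cohen–Lenstra measure on finite abelian `p`-groups: Gaussian
  count of subgroups of `ℤ ^ n` of index `p ^ k`, Hall's mass formula, subgroups of `ℤ ^ n` with
  quotient `G` over `|G| ^ n` tend to `1 / |Aut G|`, total mass one, every surjection moment is one, the average `p`-torsion is
  two, the probability of a cyclic group; the class group heuristic is not claimed.
* `FA.Summary.MomentProblem.moebius_sum`, `FA.Summary.MomentProblem.moment_inversion`,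
  `FA.Summary.MomentProblem.moments_determine`, `FA.Summary.MomentProblem.moments_convergence`,
  `FA.Summary.MomentProblem.euler_identity` (`SummaryMomentProblem`): the moment problem for
  finite abelian `p`-groups, all `p`: Möbius sum over subgroups with elementary quotient,
  inversion of surjection moments of polynomial growth, all moments one forces Cohen–Lenstra,
  method of moments, Euler's identity for `∏ (1 - p ^ (-i))`; class group statements and
  exterior square growth not claimed.
* `FA.Summary.RandomCokernel.shifted_measure`, `random_matrix_moments`, `friedman_washington`,
  `square_invertible`, `fixed_size_limit` (`SummaryRandomCokernel`): Friedman–Washington: the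
  cokernel of a uniform `n × (n + u)` matrix over `ℤ / p ^ N` tends in law to the shifted
  Cohen–Lenstra measure as `n, N → ∞`; a square one is invertible with probability tending to
  `∏ (1 - p ^ (-i))`; universality and the closed form at fixed size are not claimed.
* `FA.Summary.Gaschuetz.gaschuetz_complement`, `gaschuetz_sylow`, `gaschuetz_lifting`,
  `eulerian_function`, `frattini_complement` (`SummaryGaschuetz`): Gaschütz's theorems on finite
  groups: an abelian normal subgroup is complemented iff so in each Sylow subgroup, generators of
  a quotient lift to generators, the Eulerian function of a quotient divides that of the group,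
  abelian normal subgroups meeting the Frattini subgroup trivially are complemented.
* `FA.Summary.SchurWeyl.schur_weyl_span`, `double_commutant`, `schur_weyl_duality`,
  `schur_weyl_faithful` (`SummarySchurWeyl`): Schur–Weyl duality: over an infinite field the
  `g ^ ⊗ n` span the commutant of `S_n` (dimension `multichoose (d ^ 2) n`), with `n!` invertible
  their commutant is the span of `S_n`, of dimension `n!` for `n ≤ d`; the decomposition into
  Schur modules is not claimed.
* `FA.MatrixInvariants.Summary.procesi_fft`, `…trace_permutation`, `…one_matrix`,
  `…trace_separation` (`SummaryMatrixInvariants`): Procesi's first fundamental theorem: in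
  characteristic zero the polynomials in tuples of matrices unchanged by simultaneous conjugation
  are those in traces of words; no bound on the length of the words is claimed.
* `FA.NagataHigman.Summary.nagata_higman`, `…nil_nilpotent`, `…procesi_bound`,
  `…matrix_invariants_fg`, `…trace_separation_bounded` (`SummaryNagataHigman`): Nagata and Higman:
  in characteristic zero nil of index `n` is nilpotent of index at most `2 ^ n - 1`; so words of
  length at most `2 ^ n - 1` give generators of the invariants of tuples of matrices (Procesi).
* `FA.MatrixInvariants.SemisimpleSummary.character_determines_semisimple`,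
  `…semisimple_tuples_conjugate`, `…invariants_separate_semisimple`, `…nilpotent_example`
  (`SummarySemisimpleTuples`): in characteristic zero finite dimensional semisimple modules are
  determined by their traces, so semisimple tuples of matrices up to simultaneous conjugation by
  the traces of short words, that is by the invariants (Artin, Procesi).
* `FA.WeylFFT.Summary.weyl_fft_gl`, `…weyl_fft_fg`, `…vectors_only`, `…one_vector_one_covector`,
  `…pairings_separate` (`SummaryWeylFFT`): Weyl's first fundamental theorem for the general linear
  group in characteristic zero: the invariants of vectors and covectors are the polynomials in the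
  pairings, deduced from Procesi's theorem on invariants of matrices.
* `FA.Summary.BurnsideBrauer.character_kernel`, `burnside_brauer`, `burnside_converse`,
  `faithful_irreducible_centre` (`SummaryBurnsideBrauer`): Burnside–Brauer: every irreducible
  character of a finite group occurs in a power `χ ^ j`, `j < #` values, of a faithful one, and
  only then is it faithful; a faithful irreducible representation makes the centre cyclic.
* `FA.Summary.CN.cn_hall`, `cn_dichotomy`, `cn_quotient`, `cn_minimal_simple`, `cn_reduction`
  (`SummaryCNGroups`): CN-groups (nilpotent centralisers): maximal nilpotent subgroups with two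
  primes are TI Hall subgroups, the dichotomy at each prime, and the reduction of the theorem of
  Feit, Hall and Thompson to simple groups; that theorem itself is not claimed.
* `cn_simple_sylow_TI`, `cn_simple_partition`, `cn_simple_hall`,
  `cn_simple_frobenius_normalisers`: local structure of a simple CN-group of odd order with
  solvable proper subgroups (TI Sylow subgroups, partition by Hall nilpotent subgroups;
  `Root/SummaryCNStructure`, R1702);
* `feit_hall_thompson`, `feit_hall_thompson_not_simple`, `feit_hall_thompson_galois`: the
  Feit–Hall–Thompson theorem that a finite CN-group of odd order is solvable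
  (`Root/SummaryFeitHallThompson`, R1709; the Feit–Thompson theorem is not claimed);
* `glauberman_correspondence`, `glauberman_degree`, `glauberman_count`,
  `glauberman_fixedPointFree`: the Glauberman correspondence for a `p`-group acting on a group
  of order prime to `p`: invariant irreducible characters match those of the fixed points
  (`Root/SummaryGlaubermanCorrespondence`, R1721; solvable acting groups not claimed);
* `alperin_fusion`, `alperin_focal`, `alperin_control`, `burnside_fusion`: Alperin's fusion
  theorem by tame intersections of Sylow subgroups, with the focal subgroup, control of fusion and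
  Burnside's lemma on normal subsets (`Root/SummaryAlperinFusion`, R1731; the refinement to
  essential subgroups not claimed);
* `block_orthogonality`, `block_idempotent_integral`, `principal_block_kernel`,
  `principal_block_idempotent_pairs`, `principal_block_third_main`,
  `principal_block_second_main`: the principal `p`-block of a finite group: integrality of block
  idempotents, block orthogonality, the kernel, Külshammer's congruence and Brauer's second and
  third main theorems for the principal block (`Root/SummaryPrincipalBlock`, R1734 part I; general
  defect groups not claimed);
* `glauberman_zStar`, `glauberman_zStar_sylow`, `glauberman_zStar_centralizer`,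
  `zStar_isolated_iff`, `brauer_suzuki_all`, `brauer_suzuki_eight`,
  `brauer_suzuki_eight_not_simple`: Glauberman's `Z*` theorem (an isolated involution is central
  modulo `O(G)`) and the Brauer–Suzuki theorem for every Sylow `2`-subgroup with a unique
  involution, the quaternion group of order `8` included (`Root/SummaryZStar`, R1734 part II; odd
  primes not claimed);
* `brauer_hom`, `defect_group_exists`, `defect_group_unique`, `defect_group_iff_minimal`,
  `defect_contains_pCore`, `defect_sylow_iff`, `principal_block_defect`, `first_main_theorem`,
  `first_main_sylow`, `blocks_of_normal_selfcentralizing`: defect groups of `p`-blocks and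
  Brauer's first main theorem, blocks of `G` with defect group `D` corresponding to those of
  `N(D)` (`Root/SummaryDefectGroups`, R1768; Brauer pairs and heights not claimed);
* `block_reduction`, `defect_group_order`, `regular_contributions`, `brauer_feit`,
  `brauer_nesbitt_defect_zero`: ordinary characters in `p`-blocks: reduction of the block
  idempotents onto the blocks over the residue field, `|D| = pᵈ` for a defect group with `d` read
  off the degrees, the projection matrix of the regular elements, at most `p^(2d)/4 + 1` characters
  in a block and the blocks of defect zero (`FA.BrauerFeit.Summary`, import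
  `Fermat.Agent.Root.SummaryBrauerFeit`; decomposition matrix and Cartan invariants not claimed);
* `brauer_correspondence`, `second_main_theorem`, `section_orthogonality`,
  `vanishing_outside_defect`, `one_block_of_selfcentralizing`: Brauer's second main theorem for
  every block, with the correspondence of blocks for the centraliser of a `p`-element, orthogonality
  of `p`-sections and vanishing outside the defect group (`Root/SummarySecondMain`, R1787;
  decomposition numbers and the general third main theorem not claimed);
* `regular_lattice`, `cartan_matrix`, `l_lt_k`, `block_sections`, `one_modular`: Cartan invariants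
  of blocks from the lattice of characters on the `p`-regular elements: `pᵈ C⁻¹` is integral and
  `det C` a power of `p`, `l(B) < k(B)` in positive defect, Brauer's formula for `k(B)` over the
  `p`-sections (`Root/SummaryBlockCartan`, R1792; irreducible Brauer characters and elementary
  divisors not claimed);
* `venkov_def`, `venkov_design`, `venkov_shell_span`, `venkov_roots_span`, `venkov_coxeter`,
  `eightLattice_unique` (`SummaryVenkov`): shells of even unimodular lattices of rank at most `24`
  are spherical 2-designs; Coxeter numbers; `E₈` is the only one of rank eight.
* `cohn_elkies`, `cohn_elkies_cube`, `spherePacking_density_le`, `periodicPacking_density_le`,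
  `latticePacking_density_le` (`SummarySpherePacking`): the linear programming bound for packings;
  disjoint equal balls have density at most `3 (n + 1) (e / 4) ^ (n / 2)`.
* `viazovska_F_lt_G`, `viazovska_A_neg`, `viazovska_B_pos` (`SummaryViazovskaInequalities`): the
  two inequalities between modular forms behind the sphere packing bound in dimension eight,
  proved by Lee's differential equations.
* `viazovska_magic_function`, `viazovska_eight_periodic`, `viazovska_eight_cube`,
  `viazovska_eight` (`SummaryViazovska`): Viazovska's theorem: no packing of equal balls in `ℝ⁸`
  is denser than that of `E₈`, of density `π⁴ / 384`.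
* `ckmrv_F_pos`, `ckmrv_F_lt_G`, `ckmrv_A_neg`, `ckmrv_B_pos` (`SummaryCkmrvInequalities`):
  the modular inequalities of Cohn, Kumar, Miller, Radchenko and Viazovska for dimension 24.
* `ckmrv_magic_function`, `ckmrv_twentyfour_periodic`, `ckmrv_twentyfour_cube`,
  `ckmrv_leech_unit`, `ckmrv_twentyfour` (`SummaryCkmrv`): the theorem of Cohn, Kumar, Miller,
  Radchenko and Viazovska: no packing of equal balls in `ℝ²⁴` is denser than that of the Leech
  lattice, of density `π¹² / 12!`.
* `sphere_upper_density_eight`, `sphere_upper_density_twentyfour`,
  `sphere_packing_constant_eight`, `sphere_packing_constant_twentyfour` (`SummaryUpperDensity`):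
  the sphere packing constants of dimensions 8 and 24 are `π⁴ / 384` and `π¹² / 12!`, as upper
  densities of arbitrary packings.
* `viazovska_eight_unique`, `viazovska_eight_isometric`, `viazovska_eight_unique_lattice`,
  `ckmrv_twentyfour_unique`, `ckmrv_twentyfour_unique_lattice` (`SummaryPackingUniqueness`):
  the densest periodic packing of `ℝ⁸` is that of `E₈` up to isometry; those of `ℝ²⁴` are translates
  of scaled even unimodular lattices without roots.
* `golay_code_unique`, `leech_lattice_unique`, `ckmrv_twentyfour_unique_leech`,
  `ckmrv_twentyfour_isometric` (`SummaryLeechUniqueness`): uniqueness of the Golay code, Conway's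
  uniqueness of the Leech lattice, and the densest periodic packing of `ℝ²⁴` is that of Leech up to
  isometry.
* `golay_steiner_system`, `mathieu_order`, `mathieu_five_transitive`, `leech_frames`,
  `conway_order` (`SummaryMathieuConway`): the Steiner system of the octads, the order and the five
  fold transitivity of `M₂₄`, the frames of the Leech lattice and the order of `Co₀`.
* `mathieu_twentyThree_simple`, `mathieu_twentyFour_simple`, `conway_center`,
  `conway_normal_subgroups`, `conway_simple` (`SummarySporadicSimple`): `M₂₃`, `M₂₄` and `Co₁` are
  simple, and `Co₀` is perfect with centre `{1, -1}`.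
* `kissing_design_eight`, `kissing_design_twentyFour`, `kissing_twentyFour_lattice`,
  `kissing_eight_unique`, `kissing_twentyFour_unique`, `kissing_eight_isometric`,
  `kissing_twentyFour_isometric` (`SummaryKissingUnique`): configurations of `240` and `196560`
  kissing vectors are spherical designs and are unique up to isometry (Bannai–Sloane).
* `universal_optimal_eight`, `universal_optimal_twentyFour`, `minimizer_unique_eight`,
  `minimizer_unique_twentyFour`, `riesz_optimal_eight`, `riesz_optimal_twentyFour`,
  `distance_product_eight`, `distance_product_twentyFour` (`SummaryUniversalOptimal`): the `E₈` and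
  Leech configurations are universally optimal on their spheres, uniquely so (Cohn–Kumar).
* `rankinSelberg_continuation`, `rankin_asymptotic`, `rankin_asymptotic_pairing`,
  `rankin_orthogonal`, `ramanujanTau_mean_square` (`SummaryRankinSelberg`): level one: the
  convolution continues with its functional equation, and the mean square of the coefficients is
  asymptotic to a multiple of Petersson's norm.
* `eigenform_multiplicative`, `eigenform_LFunction_ne_zero`, `eigenform_LSeries_continuation`,
  `eigenform_rankinSelberg_ne_zero`, `eigenform_prime_number_theorem`,
  `eigenform_prime_mean_square`, `ramanujanTau_primes` (`SummaryEigenPrimes`): level one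
  eigenforms: no zeros on the edges of the strip, `∑_{p ≤ x} λ p log p = o(x)` and
  `∑_{p ≤ x} λ p² log p ~ x`.
* `eigenform_pair_ne_zero`, `eigenform_orthogonality_primes`, `cuspForm_prime_mean_square`,
  `cuspForm_prime_nonvanishing`, `cuspForm_multiplicity_one`, `cuspForm_multiplicity_one_finite`,
  `eigenform_prime_negative`, `eigenform_prime_positive`, `ramanujanTau_prime_signs`
  (`SummaryEigenOrthogonality`): level one: eigenforms are orthonormal at the primes, a cusp form
  is determined by its prime coefficients off a thin set, and the signs of `a_p`.
* `rankinCohen_def`, `rankinCohen_slash`, `rankinCohen_cuspForm`, `rankinCohen_eisenstein`,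
  `tau_van_der_pol` (`SummaryRankinCohen`): Rankin–Cohen brackets `[f,g]ₙ`,
  `n ≥ 1`, of modular forms are cusp forms; `[E₄,E₆]₁ = -3456 Δ`,
  `[E₄,E₄]₂ = 4800 Δ` and van der Pol's formula for `τ`.
* `carlitz_module`, `carlitz_torsion`, `carlitz_galois`, `carlitz_frobenius`
  (`SummaryCarlitz`): the Carlitz module; the `M`-torsion generates a Galois extension of `F(T)`
  with group `(F[T]/M)ˣ`; for a prime `P ∤ M` a unique automorphism acts on the torsion by `C_P`
  (the Frobenius at `P`, as `C_P ≡ x ^ (q ^ deg P)` mod `P`).
* `mzv_series`, `mzv_duality`, `mzv_index_word`, `mzv_finite`, `euler_sum_formula`,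
  `euler_zeta_two_one`, `mzv_all_twos` (`SummaryMultipleZeta`): multiple zeta values: the duality
  theorem, finiteness, Euler's sum formula with `ζ(2,1) = ζ(3)`, and
  `ζ(2,…,2) = π^(2n)/(2n+1)!`.
* `bieberbach_second_coefficient`, `koebe_one_quarter`, `koebe_distortion_growth`,
  `koebe_bounds_sharp` (`SummaryKoebe`): univalent functions on a disc: Bieberbach's bound for
  the second coefficient, the quarter theorem, the distortion and growth theorems, and their
  sharpness.
* `period_relations`, `manin_delta_periods`, `delta_Lvalue_pos` (`SummaryDeltaPeriods`): the
  Eichler–Shimura relations on the critical values of level one cusp forms; for `Δ` these values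
  are positive with Manin's ratios `691 Λ(1) = 1620 Λ(3)`, `9 Λ(3) = 14 Λ(5)`, `5 Λ(2) = 12 Λ(6)`,
  `4 Λ(4) = 5 Λ(6)`.
* `hecke_correspondence`, `hecke_converse_levelOne`, `ramanujan_L_characterised`,
  `hecke_converse_delta` (`SummaryHeckeConverse`): Hecke's converse theorem: `F(-1/z) = C (z/i)^k G`
  iff the completed Dirichlet series continue, bounded in strips up to their poles, with
  `s ↦ k - s`; in level one this characterises modular forms, and `τ` in weight `12`.
* `j_denominator_formula`, `hecke_jInvariant`, `faber_generating`, `jInvariant_coefficient_four`
  (`SummaryJDenominator`): the denominator formula `p (J(p) - J(q)) = (1 - p/q) ∏ (1 - pᵐqʳ)^c(mr)`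
  for `J = j - 744`, the Hecke images of `j` as monic polynomials in `j` with their coefficients,
  and `c(4) = c(3) + c(1) (c(1) - 1) / 2`.
* `denjoy`, `denjoy_lipschitz`, `denjoy_dense_orbits`, `denjoy_dichotomy`, `denjoy_family`
  (`SummaryDenjoy`): Denjoy's theorem: a `C²` circle diffeomorphism with irrational rotation number
  is conjugate to a rotation, so every orbit is dense; `x + t + sin (2 π x) / (4 π)` takes every
  rotation number.
* `abel_pell_iff`, `abel_pell_quartic`, `abel_pell_example`, `abel_pell_counterexample`
  (`SummaryPolynomialPell`): Abel's theorem: `P² - D Q² = 1` has a polynomial solution with `Q ≠ 0`,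
  `D` a squarefree monic quartic (characteristic not 2 or 3), iff an explicit point of an elliptic
  curve has finite order; solvable for `u⁴ - 8 u`, unsolvable for `u⁴ - 18 u² - 40 u - 27` in characteristic zero.
* `sharkovskii_forcing`, `sharkovskii_forcing_Icc`, `period_three_all`, `sharkovskii_realisation`,
  `sharkovskii_classification` (`SummarySharkovskii`): Sharkovskii's theorem, both halves: the
  periods of a continuous map of the line or an interval are closed under the order
  `3 ▷ 5 ▷ ⋯ ▷ 2·3 ▷ ⋯ ▷ 4 ▷ 2 ▷ 1`, and truncated tent maps realise every tail.
* `poncelet_porism`, `poncelet_closed_polygon`, `poncelet_rotation`, `chapple_euler`,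
  `poncelet_concentric` (`SummaryPoncelet`): Poncelet's porism for nested ellipses: if one polygon
  inscribed in the outer and circumscribed about the inner ellipse closes after `n` steps, all do;
  the tangent map is a rotation; Chapple–Euler: `d² = R² - 2 R r` gives triangles from every point.
* `hurwitz_staudt_clausen`, `exists_gaussian_primary` (`SummaryHurwitzStaudt`): Hurwitz's theorem
  of von Staudt–Clausen type: the lattice sums `∑ (a + b i) ^ (-4n) = (2 ω) ^ (4n) / (4n)! · H_n`
  have `H_n - 1/2 - ∑ (2 a_p) ^ (4n/(p-1)) / p` integral, over the primes `p ≡ 1 (mod 4)` with
  `p - 1 ∣ 4n`, `a_p + b_p i` primary; the denominator of `H_n` is twice their product.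
* `complete_integral_hypergeometric`, `jacobi_hypergeometric`, `realPeriod_hypergeometric`,
  `hypergeometric_half`: periods as `∑ (C(2n,n)/4^n)² x^n`, Jacobi's `θ₃² = F(λ)`,
  `F(1/2) = √π / Γ(3/4)²`.
* `FA.Root.RamanujanPiSummary.ramanujan_sixteen_div_pi`, `ramanujan_four_div_pi`,
  `clausen_identity`, `singular_lambda_three_seven`, `eisensteinTwo_sqrt_seven`
  (`SummaryRamanujanPi`): Ramanujan's series `∑ c_n (42 n + 5) / 64^n = 16/π` and
  `∑ c_n (6 n + 1) / 4^n = 4/π`, `c_n = (C(2n,n)/4^n)³`, with Clausen's identity for `F(x)²`.
* `abel_lemniscate`, `gauss_wantzel` (`SummaryLemniscateDivision`): the points dividing the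
  lemniscate `(x² + y²)² = x² - y²` into `n` equal arcs (unit-speed parametrisation from the node,
  period `Γ(1/4)² / √(2π)`) are constructible by ruler and compass exactly if `n` is a power of two
  times distinct Fermat primes, as is the regular `n`-gon.
* `constructible_iff_galois_two_group`, `hoelder_real_radicals`, `casus_irreducibilis`,
  `cos_isRealRadical_iff`, `cos_nine_seven_not_isRealRadical`, `wantzel_impossibilities`
  (`SummaryCasusIrreducibilis`): a number is constructible exactly if the Galois group of its
  minimal polynomial is a `2`-group; Hölder's theorem that a totally real number expressible by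
  real radicals is constructible, so the casus irreducibilis; the cube root of two, the trisection
  of `π/3` and the roots of `X⁴ - X - 1` are not constructible.
* `period_series_pointCount`, `period_series_trace`, `period_series_supersingular`,
  `period_series_realPeriod`: Igusa: the period series of `y² = x (x-1) (x-λ)`, cut off at `(p-1)/2`,
  is modulo `p` the trace of Frobenius up to sign.
* `manin_drinfeld`, `manin_identity`, `manin_eigenform`: Manin and Drinfeld: the divisor `(0) - (∞)`
  of `X₀(N)` is torsion; `(1 + p - a_p) ∫₀^∞ f(it) dt` is `i` times a period for every good `p`.
* `period_lattice`, `eigenform_rationality`, `centralValue_rationality`: the periods of a rational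
  eigenform form a lattice; for semistable `E / ℚ`, `#Ẽ(𝔽_p) L(E, 1)` is an integer multiple of the
  least positive real period `Ω` of the newform, so `L(E, 1) / Ω` is rational.
* `manin_drinfeld_cusps`, `twisted_centralValue_rationality`, `centralValue_rationality_twist`: every
  cuspidal divisor of degree zero of `X₀(N)` is torsion; `√q L(f ⊗ ψ, 1)` is a rational multiple of
  the least real (`ψ` even) or imaginary (`ψ` odd) period, so for every curve with a semistable twist.
* `pAdicLFunction`, `pAdicLFunction_semistable`: the measure of Mazur and Swinnerton-Dyer at good
  ordinary primes: bounded modular symbols, mass `(1 - 1/α)² L(f, 1) / Ω` on `ℤ_pˣ` and the values at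
  even quadratic characters modulo `p`.
* `pAdicLFunction_multiplicative`, `exceptional_zero`, `pAdicLFunction_unique`: the same at primes of
  the level, with the exceptional zero of Mazur, Tate and Teitelbaum at split multiplicative primes;
  the values on the classes modulo `pᵐ` determine the functional.
* `modularParametrization`, `modularParametrization_semistable`: a rational eigenform has an elliptic
  curve with real invariants and the lattice of its periods, parametrised by `ℍ` modulo `Γ₀(N)` with
  `dx/y` pulled back to `f(τ) dτ`; the cusps go to torsion points.
* `modularParametrization_surjective`, `cuspidalPoint_semistable`: the parametrisation with its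
  cusps is onto; the order of the image of the cusp `0` divides `#Ẽ(𝔽_p)` at every good prime.
* `cuspidalPoint_bound`: primes of that order are `2, 3, 5, 7` and degrees of isogenies of `E`;
  with none of these `L(E, 1)` is an integer multiple of the least real period.
* `modularParametrization_finite`: every point has finitely many orbits of preimages; all but
  finitely many points, all those of infinite order among them, come from the upper half plane.
* `parametrization_fricke_semistable`: the parametrisation intertwines the Fricke involution with
  `P ↦ e P + P₀`; for `e = -1` the point `i / √N` goes to a torsion point giving `L(E, 1)`.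
* `weilCurve_defined_over_rat`: the curve of `2 π i` times the periods of a rational eigenform
  has rational coefficients (the Weil curve is defined over `ℚ`).
* `weilCurve_eichlerShimura`, `weilCurve_semistable`: Eichler and Shimura for the Weil curve: at
  almost all primes its trace is `a_p` modulo `p`, and equal where `a_p² ≤ 4 p`; so for semistable
  `E` equal at almost all primes, with Tate modules isogenous to those of `E`.
* `parametrization_algebraic`, `weilCurve_LFunction`: Heegner points (all `τ` with algebraic `j`)
  map to algebraic points; the Weil curve of semistable `E` has the whole L-function of `E`.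
* `parametrization_algebraic_iff`, `parametrization_schneider`: `τ` maps to an algebraic point
  iff `j τ` is algebraic; algebraic non-CM `τ` map to transcendental points of infinite order.
* `eigenformPeriods_transcendental`, `centralValue_transcendental`: periods of rational eigenforms
  are transcendental; `L(f, 1)`, its quadratic twists and `L(E, 1)` (semistable twist) zero or so.
* `semistable_periods_noCM`, `centralValue_ratio_transcendental`: semistable newforms have no CM;
  quotients of twisted central values of opposite parity are transcendental.
* `parametrization_hecke`, `heegnerPoints_normRelation`: the parametrisation commutes with the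
  Hecke operators: neighbours of `τ` sum to `a_p` times it (the analytic half of the Euler system
  norm relation; the Galois action on CM points is not formalised).
* `modularValues_transcendental`, `semistable_cm_values_transcendental`: at algebraic `j` rational
  forms of weight `k > 0` are zero or transcendental; so are logarithms of Heegner points.
* `stephanois`, `stephanois_exp`, `nome_transcendental`, `eigenform_nome_transcendental`: the
  theorem of Stéphanois (Mahler–Manin): `q` and `J q` are not both algebraic, `0 < |q| < 1`.
* `saint_etienne`, `tateParameter_transcendental`, `lInvariant_ne_zero`: the same over `ℚ_p`; Tate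
  parameters are transcendental, so `L`-invariants of exceptional zeros do not vanish.
* `FA.BakerTheorem.Summary.baker`, `FA.BakerTheorem.Summary.transcendental_prod_cpow` (`SummaryBaker`):
  Baker's theorem on linear forms in logarithms of algebraic numbers, with the transcendence of
  `e ^ β₀ α₁ ^ β₁ ⋯ αₙ ^ βₙ` and of `∫₀¹ dx / (1 + x³)`.
* `FA.PeriodicValue.Summary.lFunction_one_transcendental`,
  `FA.PeriodicValue.Summary.baker_birch_wirsing` (`SummaryLValueTranscendental`): `L(1, χ)` is
  transcendental for every non-trivial character, and the theorem of Baker, Birch and Wirsing on
  Chowla's problem.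
* `FA.Brumer.Summary.brumer` (`SummaryBrumer`): Brumer's theorem, the `p`-adic analogue of
  Baker's, in `ℂ_p`.
* `FA.Leopoldt.Summary.leopoldt_cyclotomic` (`SummaryLeopoldt`): Leopoldt's conjecture for
  `ℚ (ζ_q)⁺`, `q` prime, in regulator form: every `p`-adic regulator of its cyclotomic units
  is non-zero.
* `FA.LeopoldtAbelian.Summary.leopoldt_abelian` (`SummaryLeopoldtAbelian`): Leopoldt's
  conjecture for every abelian number field (and abelian over an imaginary quadratic field) and
  every prime `p`: the `p`-adic regulator matrix has rank `Units.rank K` (Ax, Brumer).
* `euler_counterexample_frye`, `elkies_rational`, `elkies_infinite`, `euler_conjecture_false`: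
  Elkies: infinitely many primitive `a⁴ + b⁴ + c⁴ = d⁴` in positive integers, so Euler's
  generalisation of Fermat's Last Theorem fails for fourth powers.
* `maxAbelian_structure`: for EVERY curve over `ℚ` the points over the maximal abelian extension
  are a finite group times a free abelian group of countably infinite rank.
* `mordellWeil_free_of_finite_torsion`, `exponentField_structure`: wherever a Galois extension of
  `ℚ`, infinite or not, has finite torsion on a curve over `ℚ` its points are finite times free; so
  over all fields of exponent `e`, of countably infinite rank for even `e`.
* `rank_unbounded_numberField`, `rank_growth_quadratic`: for EVERY curve over `ℚ` the rank is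
  unbounded over multiquadratic fields and grows in infinitely many quadratic fields.
* `rank_quadratic`, `infinite_twists_rank_pos`, `finite_twists_torsion`: for EVERY curve over `ℚ` the
  rank over `ℚ(√d)` is that over `ℚ` plus that of the twist by `d`, infinitely many twists have
  positive rank and all but finitely many have no rational torsion beyond order two.
* `pointDivisibility_bounded`, `pointDivisibility_primePow_large`: for EVERY curve over `ℚ` one
  `C > 0` is such that `N`-divisibility of a point at a density-one set of primes makes `C P`
  divisible by `N`, for every `N`; exact for all powers of every large prime (Dvornicich–Zannier).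
* `pointDivisibility_of_homothety`, `pointDivisibility_serreCurve`: where an element of Galois acts
  on `E[N]` as `m` with `m - 1` prime to `N`, divisibility by `N` at a density-one set of primes is
  divisibility by `N`; on a Serre curve it is decided modulo almost all primes for every odd `N`.
* `reductions_prescribed_split`, `subgroup_contains_square` (Pink): for EVERY curve over `ℚ`,
  independent points and `U i` in `E[n]`, beyond density zero some `q ≡ 1 (mod n)` splitting
  `ℚ(E[n])` has all `P i - U i` of order prime to `n`; so modulo such `q` two points generate a
  subgroup containing `(ℤ/n)²`.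
* `detectSubgroupMembership`, `detectSubgroupMembership_of_pole`,
  `detectSubgroupMembership_of_traces`, `independent_separated_mod_primes`: if Galois is full on
  `E[p]` at all large `p`, a point in the subgroup of given points modulo almost all primes has a
  nonzero multiple in that subgroup; if `j` has a pole, independent points are separated by
  divisibility by `p` modulo infinitely many primes, for all large `p`.
* `kummerTranslationsFamily_all`, `detectSubgroupMembership_all`,
  `independent_separated_mod_primes_all`: for EVERY curve over `ℚ` Galois over `ℚ(E[pⁿ])` gives all
  translations of `pⁿ`-th parts of independent points at large `p`, so membership in a subgroup of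
  any rank is detected up to a multiplier and independent points are separated modulo primes.
* `congruentNumberCurve_torsion`, `congruentNumber_iff_infinite`, `congruent_five_six_seven`,
  `infinite_congruent_five_six_seven`: congruent numbers.
* `one_not_congruent`, `two_not_congruent`, `prime_three_mod_eight_not_congruent`,
  `double_prime_five_mod_eight_not_congruent`: non-congruent numbers; `point_group_curve32`,
  `point_group_curve64`, `rational_points_curve32`, `point_group_prime_three_mod_eight`,
  `point_group_double_prime_five_mod_eight`: their point groups.
* `iskra`, `point_group_iskra`, `infinite_iskra`, `rank_zero_many_bad_primes`: a product of primes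
  `≡ 3 (mod 8)`, each a square modulo the earlier ones, is not congruent and its curve has group
  `ℤ/2 × ℤ/2`; so for every `k` infinitely many non-congruent numbers have `k` prime factors.
* `locallySoluble_mod_global_unbounded`, `tateShafarevich_phi_unbounded`,
  `hassePrinciple_fails_unbounded`: Bölling and Lemmermeyer: in the descent by two-isogeny on
  `y² = x³ - n² x` the locally soluble classes modulo those of rational points (the quotient that is
  `Ш[φ]`; `Ш` itself is not defined) are unbounded; arbitrarily many torsors of one curve fail the
  Hasse principle.
* `monsky_rank_bound`, `bastien_prime_one_mod_eight`, `congruent_odd_below_hundred`: Monsky's matrix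
  bounds the rank of `y² = x³ - n² x` for odd squarefree `n`, which is not congruent when it is
  nonsingular; Bastien's criterion for primes `p ≡ 1 (mod 8)`; every odd squarefree `n < 100`
  decided congruent or not.
* `monsky_rank_bound_even`, `double_prime_nine_mod_sixteen`, `congruent_squarefree_below_hundred`,
  `congruent_below_hundred`: Monsky's matrix for `n = 2 p₁ ⋯ pₜ`; Bastien's `2 p`,
  `p ≡ 9 (mod 16)`; the complete list of congruent numbers below 100.
* `congruent_rank_table`: the point group of `y² = x³ - n² x` for every squarefree `n < 100`,
  `(ℤ/2)² × ℤ^r` with `r = 2` for `34, 41, 65`, `1` for the other congruent numbers, `0` otherwise.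
* `monsky_parity`, `monsky_parity_even`: the kernel of Monsky's matrix is odd dimensional exactly for
  `n ≡ 5, 6, 7 (mod 8)`; `not_congruent_two_primes`, `not_congruent_unbounded_classes`: two-prime
  non-congruent numbers, unboundedly many in each of the classes `1, 2, 3 (mod 8)`.
* `monsky_locally_soluble_iff`, `monsky_natCard_locally_soluble`: for odd `n` a two-descent torsor
  is soluble over `ℝ` and every `ℚ_q` iff Monsky's matrix kills its vector;
  `hassePrinciple_fails_bastien`: three torsors soluble everywhere locally without rational points.
* `monsky_locally_soluble_iff_even`, `monsky_natCard_locally_soluble_even`: the same for even `n`;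
  `hassePrinciple_fails_double_prime`: failures at `n = 2 p`, `p ≡ 9 (mod 16)`;
  `locally_soluble_classes_unbounded`: `4 ^ k` pairs of classes soluble everywhere locally.
* `congruent_every_residue_class`, `congruent_squarefree_classes_infinite`,
  `congruent_and_not_congruent_infinite`: congruent numbers in every residue class (Bennett),
  squarefree ones in each class `1, 2, 3, 5, 6, 7 (mod 8)` (Chahal).
* `congruent_rank_two_infinite`, `three_triangles_equal_area`: infinitely many squarefree `n` with
  `y² = x³ - n² x` of rank at least two, from three right triangles of equal area.
* `twoDescent_congruent_quotient_unbounded`: arbitrarily many two-descent torsors of one congruent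
  number curve, soluble everywhere locally, none over `ℚ`, distinct modulo the classes of points
  (`Ш[2]` unbounded; `Ш` itself is not defined).
* `selmer_rank_gap_unbounded`, `monsky_bound_gap_unbounded`: the pairs of classes soluble everywhere
  locally number `2 ^ d` with `rank + k ≤ d`, any `k`.
* `not_congruent_families`, `not_congruent_families_infinite`: non-congruent numbers with any number
  of prime factors in each class `1, 2, 3 (mod 8)`, with group `ℤ/2 × ℤ/2`.
* `selmer_rank_every_odd`, `selmer_rank_every_even`: every dimension of the parity of the class
  occurs infinitely often as the number of soluble classes of congruent number curves.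
* `negativePell_redei`, `negativePell_two_primes`, `negativePell_factors_infinite`: Rédei's criterion
  for `x² - d y² = -1`, odd composite `d`; any number of prime factors occurs.
* `descent_quotient_exact_infinite`, `no_squares_in_progression_infinite`: infinitely many `2 p` with
  rank zero and descent quotient of order exactly four; squares in progression with difference `n`.
* `selmer_parity_every`: Monsky's parity theorem, every squarefree `n`: the number `2 ^ d` of soluble
  classes has `d ≡ ord_{s=1} L(E_n, s)` modulo `2`.
* `descent_sequence`, `shaTwo_unbounded`, `shaTwo_bastien`, `shaTwo_parity`: the exact descent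
  sequence; `ShaTwo`, by definition Selmer modulo global, is unbounded (classically `Ш[2]`).
* `descent_sequence_even`, `shaTwo_double_prime`, `rank_parity_iff_every`: the same sequence for
  `n = 2 N`, `(ℤ/2)²` for twice a prime `9 (mod 16)`, and for every squarefree `n` the rank has
  the parity of the analytic order iff that quotient has even dimension.
* `rank_le_one_prime_five_seven_mod_eight`, `point_group_prime_five_seven_mod_eight`,
  `rankOne_congruent_prime`, `point_group_congruent_five`, `point_group_congruent_seven`:
  two-descent on `y² = x³ - p² x`, primes `p ≡ 5, 7 (mod 8)`; `ℤ × ℤ/2 × ℤ/2` for congruent ones.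
* `mordellCurve_torsion`, `quarticTwist_torsion`: the torsion of `y² = x³ + k`, `y² = x³ + D x`.
* `point_group_quartic_prime`, `point_group_quartic_prime_le_one`: descent by two-isogeny on
  `y² = x³ + p x`: the group is `ℤ/2` for primes `p ≡ 7, 11 (mod 16)`, rank at most one for
  `p ≢ 1, 9 (mod 16)`.
* `rank_congruent_prime`, `quartic_prime_eq_sq`, `quartic_four_prime_eq_sq`: the rank of
  `y² = x³ - p² x` for `p ≡ 3, 5, 7 (mod 8)`; `A⁴ + p B⁴ = W²`, `X⁴ - 4 p Y⁴ = Z²` have only
  trivial solutions for `p ≡ 7, 11 (mod 16)`.
* `fermat_cubic_points`, `rational_points_curve27`, `rational_points_curve27_dual`,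
  `point_group_curve27`, `point_group_curve27_dual`: `u³ + v³ = 1`, `y² = x³ - 432`, `y² = x³ + 16`.
* `prime_two_five_mod_nine_not_sum_two_cubes`, `sq_prime_two_five_mod_nine_not_sum_two_cubes`,
  `no_rational_solution_sylvester`, `point_group_sylvester`: Sylvester on sums of two cubes.
* `point_group_curve11`, `rational_points_curve11`: `11a3` has exactly five rational points.
* `point_group_curve14`, `point_group_curve15`: the point groups of `14a4` and `15a1`.
* `point_group_curve17`, `point_group_curve21`, `rankZero_17a2`, `rankZero_21a1`: the same for
  `17a2` and `21a1`, with `L(E, 1) ≠ 0`.
* `point_group_curve19`, `rankZero_19a3`: the same for `19a3`; `point_group_curve37`,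
  `point_group_curve43`: `37a1` and `43a1` have point group `ℤ`.
* `rankZero_11a3`, `rankZero_14a4`, `rankZero_15a1`, `rankZero_27a`, `rankZero_32a`: finitely many
  rational points and `L(E, 1) ≠ 0`.
* `pointCount_two_isogeny`, `pointCount_three_isogeny`: two- and three-isogenous curves over a
  finite field have equally many points.

## Diophantine equations
* `ramanujan_nagell`, `ramanujan_nagell_int`: `x² + 7 = 2 ^ n` exactly for `n = 3, 4, 5, 7, 15`;
  `sq_add_ne_odd_pow`, `sq_add_seven_odd_pow`, `sq_add_twentyThree_odd_pow`: for squarefree
  `d ≡ 7 (mod 8)` with `2` to an odd power in `d + 1`, `x² + d = y ^ n` has no odd `y`, `n ≥ 2` even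
  or prime to the class number; so none for `d = 7`, and none for `d = 23` with `n` even or `3 ∤ n`.
* `selmer_rational`, `selmer_real`, `selmer_padic`, `selmer_mod`: Selmer's cubic
  `3 x³ + 4 y³ + 5 z³ = 0` fails the Hasse principle.
* `binomial_ne_pow`, `binomial_fifty_three`, `consecutive_ne_factorial_mul_pow`: Erdős's theorem
  that `n.choose k` is no perfect power for `4 ≤ k ≤ n - 4`, every exponent; sharp at `(50, 3)`.
* `fermatCover_points`, `fermatCover_prime`, `rat_mul_succ_ne_pow`,
  `hyperelliptic_four_pow_add_one`: the rational points of the cyclic quotients
  `y ^ n = x ^ a (1 - x) ^ b` of the Fermat curves (`x ∈ {0, 1}`), so `x (x + 1)` is no nonzero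
  `n`-th power in `ℚ` and `Y² = 4 X ^ n + 1` has only `X = 0`, every `n ≥ 3`.
* `skolem_mahler_lech`, `skolem_mahler_lech_progressions`, `recurrence_finite_zeros`,
  `recurrence_value_finite`, `cassels_embedding`: the theorem of Skolem, Mahler and Lech over every
  field of characteristic zero, by Cassels' embedding into `ℚ_p`;
* `selberg_lemma`, `malcev_residuallyFinite`, `schur_periodic_finite`, `finite_subgroups_bounded`:
  finitely generated linear groups in characteristic zero are virtually torsion-free and residually
  finite, finite when periodic, with finite subgroups of bounded order;
* `burnside_exponent`, `periodic_subgroup_finite`, `finite_subgroups_GL_rat`: in characteristic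
  zero linear groups of exponent `e` have at most `e ^ n³` elements, periodic ones over number
  fields are finite of bounded order (Burnside; Minkowski, Schur);
* `jordan_linear_groups`, `jordan_finite_image`: Jordan's theorem: finite subgroups of `GL n K`,
  `K` of characteristic zero, have abelian normal subgroups of index bounded in terms of `n`;
* `burnside_solvable`, `burnside_not_simple`, `nonsolvable_three_primes`,
  `galois_two_primes_solvable`: Burnside's theorem that groups of order `pᵃ qᵇ` are solvable, so
  Galois extensions of such degree have solvable group;
* `complexGalois_finite_image`, `complexGalois_abelian_index`, `complexGalois_solvable_image`,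
  `complexGalois_trace`: continuous `Gal(K̄/K) → GL n ℂ` has finite image, is abelian (perfect `K`) over a Galois
  extension of degree bounded in terms of `n`, has traces sums of `n` roots of unity;
* `klein_projective_image`, `klein_solvable_iff`, `klein_galois`: finite subgroups of `GL₂` in
  characteristic `0` have cyclic, dihedral, `A₄`, `S₄` or `A₅` image in `PGL₂` (Klein), and are
  solvable exactly outside the `A₅` case; the same for continuous `Gal(K̄/K) → GL₂(ℂ)`;
* `minkowski_bound`, `minkowski_sharp`, `minkowski_lcm`, `minkowski_periodic`, `minkowski_small`:
  Minkowski's theorem: the lcm of the orders of finite subgroups of `GL n ℚ` is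
  `∏ p ^ ∑ᵢ ⌊n / (pⁱ (p - 1))⌋`, and every periodic subgroup has order dividing it;
* `frobenius_kernel`, `frobenius_transitive`, `frobenius_galois`: Frobenius' theorem on Frobenius
  groups (the elements outside the conjugates of `H`, with `1`, are a normal subgroup), its
  permutation form (a regular normal subgroup) and its Galois form;
* `characters_card_eq_classes`, `characters_orthogonality`, `characters_degree_dvd`,
  `characters_burnside_mod_sixteen`, `artin_induction`, `complexGalois_degree`: classical character
  theory (classes, both orthogonalities, degrees divide `|G|`), Artin's induction theorem, degrees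
  of irreducible complex Galois representations;
* `solomon_induction`, `brauer_induction`, `brauer_characterisation`, `complexGalois_brauer`:
  Brauer's induction theorem (characters are integral combinations of functions induced from linear
  characters of elementary subgroups), his characterisation of characters, and the form for
  continuous complex Galois representations;
* `frobenius_pow_eq_one`, `frobenius_schur`, `frobenius_schur_count`, `card_real_irreducible`,
  `involutions_sq_le`: Frobenius' theorem that `n ∣ |G|` divides the number of solutions of
  `xⁿ = 1`; the indicator of an irreducible character is `0` or a sign; real classes and real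
  characters are equally many.
* `brauer_splitting`, `brauer_splitting_matrix`, `complexGalois_cyclotomic`: Brauer's splitting
  field theorem: representations of a finite group of exponent `e` are defined over the field of
  the `e`-th roots of unity; continuous complex Galois representations over cyclotomic fields.
* `brauer_fowler_index`, `brauer_fowler`, `brauer_fowler_finiteness`: the Brauer–Fowler theorem: a
  non-abelian simple group embeds in the permutations of `2c²` letters, `c` the order of the
  centraliser of an involution.
* `artinL_euler_product`, `artinL_formalism`, `artinL_induction`, `dedekindZeta_factorisation`,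
  `gassmann_zeta`: Artin L-series of a Galois extension of number fields on `1 < re s`, ramified
  primes included: the formalism, invariance under induction, `ζ_L = ∏ L(s, χ) ^ χ(1)` and
  Gassmann's theorem.  No continuation is claimed.
* `artinL_brauer`, `artinL_rational`, `artinL_rational_at_one`: an Artin L-series is a product of
  powers of L-series of linear characters of intermediate fields; for a rational-valued character a
  power is a product of zeta functions, whence the order, with nonzero leading coefficient, as
  `s ↓ 1`.
* `artinL_determines`, `perlis_theorem`, `zeta_determines_degree`, `zeta_determines_galois`,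
  `artinL_at_one`: over `ℚ` the Artin L-series determines the class function, subfields of a Galois
  field have equal zeta functions exactly when their groups are Gassmann equivalent, the zeta
  function determines the degree and a Galois number field, and `log L(s, χ)` is asymptotic to
  `⟨χ, 1⟩ log (1 / (s - 1))` as `s` decreases to `1` over every number field;
* `perlis_invariants`, `zeta_determines_normalClosure`, `zeta_determines_classNumber_regulator`,
  `perlis_example`, `zeta_not_determines_field`: equal zeta functions give the same signature,
  roots of unity, normal closure and `h R / √|d|`, and the fields of degree `8` of the eighth roots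
  of `3` and of `48` have equal zeta functions without being isomorphic;
* `brauer_relation`, `brauer_relation_iff`, `kuroda_zeta`, `kuroda_rat`: relations between
  permutation characters give the same relations between zeta functions, places and
  `h R / (w √|d|)`, over `ℚ` there are no others, and a biquadratic field has
  `h R / (4 w) = ∏ hᵢ Rᵢ / wᵢ` over its quadratic subfields (unit index not computed);
* `kuroda_totallyReal`, `dirichlet_totallyComplex`: class numbers of biquadratic fields with the
  unit index, `4 h = Q h₁ h₂ h₃` in the totally real and `w₁ w₂ h = w q h⁺ h₁ h₂` in the totally
  complex case (indices not evaluated);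
* `artinL_inflation_invariance`, `artinL_one_rat`, `artinL_degree_one`,
  `artin_conjecture_degree_one`: Artin L-series are invariant under inflation at all primes, and
  over `ℚ` those of degree one are the L-series of unique primitive Dirichlet characters, entire
  with functional equation and nonvanishing on `1 ≤ re s` if nontrivial (other base fields and
  higher degree not continued);
* `dedekindZeta_continuation`, `classZeta_continuation`, `classCharacter_LSeries_entire`: for
  every number field the zeta function and that of every ideal class continue to the plane with
  only a simple pole at `1` (residue `κ`, `κ / h`), the L-series of nontrivial class group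
  characters are entire, with no zero on `1 ≤ re s` (no functional equation);
* `prime_ideal_theorem`, `prime_ideal_theorem_class`, `infinite_primes_in_class`: Landau's prime
  ideal theorem, the primes equidistributed in the ideal classes for natural density;
  `artinL_rational_meromorphic`: a power of the Artin L-series of a rational-valued character is
  meromorphic on the plane, analytic and nonzero on `1 ≤ re s` off `1`;
* `hecke_LSeries_continuation`, `hecke_LSeries_entire`, `hecke_prime_sum`,
  `prime_ideal_theorem_rayClass`, `infinite_primes_in_rayClass`: for every number field the
  L-series of a character modulo a nonzero ideal and the real places continues to the plane with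
  at most a simple pole at `1`, is entire and without zeros on `1 ≤ re s` if nontrivial, and the
  primes are equidistributed in the narrow ray classes for natural density.
* `chebotarev_natural_density`, `chebotarev_natural_density_ratio`: Chebotarev's theorem for
  natural density in every finite Galois extension of number fields (no error term).
* `FA.Summary.traceDistribution_numberField`,
  `FA.Summary.trace_value_density_zero_numberField`,
  `FA.Summary.supersingular_density_zero_numberField`,
  `FA.Summary.ordinary_density_one_numberField`,
  `FA.Summary.dvd_pointCount_density_numberField`,
  `FA.Summary.torsion_point_degree_sq_numberField` (`SummaryTraceNumberField`): over every number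
  field, for a non-integral `j`, `(a_v, N v)` modulo `N` with large prime factors is distributed as
  trace and determinant in `GL₂(ℤ / N)` for natural density; supersingular places and those with a
  given `a_v` have density zero; a point of exact order `N` has degree at least `N² / C`.
* `norm_index_cyclic`, `norm_index_le`: the norm index theorem of class field theory for cyclic
  extensions of number fields, with modulus at the ramified primes, and the second inequality for
  every Galois extension.
* `artin_reciprocity`, `frobenius_eq_of_rayClass_eq`: Artin's reciprocity law for every finite abelian
  extension of number fields, modulus at the ramified primes, kernel the classes of the norms.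
* `artinL_linear_hecke`, `artinL_linear_entire`, `artinL_meromorphic`: linear Artin L-series are
  Hecke L-series of finite order, and every Artin L-series continues meromorphically to the plane
  (this goes beyond the half plane of the bullets on `SummaryArtinL`), with no zero or pole on
  `1 ≤ re s`, `s ≠ 1`, and order minus the dimension of the fixed vectors at `1`.
* `artin_conjecture_monomial`, `artin_conjecture_abelianByNilpotent`, `artinL_clear_monomial`,
  `irreducible_eq_induced`: Artin's conjecture (entire L-series without zeros on `1 ≤ re s`) for
  monomial representations without fixed vectors, so for all such representations of Galois groups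
  with an abelian normal subgroup with nilpotent quotient, these groups being monomial.
* `aramata_brauer`, `uchida_vanDerWaall`, `zetaQuotient_degree_le_four`, `aramata_brauer_zeros`:
  `ζ_M / ζ_K` is entire for `M/K` Galois, inside a solvable Galois extension or of degree at most
  four, so the zeros of `ζ_K` are zeros of `ζ_M`.
* `existence_theorem`, `existence_theorem_narrow`, `hilbert_class_field`,
  `abelian_extension_eq_of_split`: the existence theorem of class field theory (every subgroup of a
  ray class group is the kernel of an Artin map; this completes the bullets on
  `SummaryArtinReciprocity`), uniqueness, and the Hilbert class field with group the class group,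
  degree the class number, containing every abelian extension unramified everywhere.
* `ray_class_field`, `abelian_conductor`, `abelian_extension_in_ray_class_field`, `norm_limitation`,
  `norm_classes_maximal_abelian`: the ray class field of every modulus with its subfields, the
  conductor of an abelian extension (its prime divisors are the ramified primes; it divides exactly
  the moduli whose ray class field contains the extension), and the norm limitation theorem for an
  arbitrary finite extension.
* `hasse_norm_theorem`, `hasse_norm_finite_check`, `local_norm_index`, `hasse_principle_conic`: in a
  cyclic extension of number fields an element is a norm iff it is one locally everywhere (local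
  norms by approximation in `K`), the local norms have index `e f`, and conics over every number
  field satisfy the principle of Hasse.
* `hasse_minkowski_numberField`, `representation_numberField`: the theorem of Hasse and Minkowski
  for quadratic forms in every number of variables over every number field, and the criterion for
  representing a number.
* `hilbert_reciprocity`: over every number field the places where `a x² + b y² = 1` has no point
  are finitely many and even in number (the product formula for the Hilbert symbol).
* `quaternion_iso_iff`, `quaternion_exists_prescribed`, `quaternion_split_iff`,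
  `quaternion_division_iff`, `siegel_four_squares`, `neg_one_sum_two_squares_iff`: quaternion
  algebras over number fields are classified by their ramified places, every finite even set
  occurs; in every number field exactly the nowhere negative elements are sums of four squares.
* `normResidue_exists`, `normResidue_unique`, `normResidue_local_reciprocity`, `normResidue_restrict`:
  the norm residue symbol of an abelian extension of number fields at every place, onto the
  decomposition group with the local norms as kernel, units onto inertia, with the product formula
  and unique with it.
* `hilbertN_bilinear`, `hilbertN_symm`, `hilbertN_steinberg`, `hilbertN_nondegenerate`, `hilbertN_tame`,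
  `hilbertN_product`, `power_reciprocity_law`, `power_reciprocity_supplement`,
  `power_reciprocity_primary`: the `n`-th Hilbert symbol over a number field with the `n`-th roots of
  unity, for every `n`, and the general reciprocity law of `n`-th power residues with its
  supplements (`SummaryPowerReciprocity`).
* `idele_artin_map`, `idele_artin_unique`, `idele_reciprocity`, `idele_local_reciprocity`,
  `idele_existence`, `idele_kernel_antitone`, `idele_kernel_determines`: class field theory on the
  ideles, the open subgroups containing the principal ideles are the kernels of the Artin maps of
  the finite abelian extensions, one to one and reversing inclusions (`SummaryIdelicClassField`).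
* `idele_abelian_map`, `idele_maximal_abelian`: the Artin map to the Galois group of the maximal
  abelian extension, continuous with dense image, kernel the intersection of those subgroups.
* `local_existence`, `local_open_iff`, `local_power_global`, `chevalley_congruence`: the local
  existence theorem, the open subgroups of finite index of the multiplicative group of a completion
  are the closures of the norms from finite abelian extensions of the field, and Chevalley's theorem
  on congruence subgroups (`SummaryLocalClassField`).
* `local_completion_galois`, `local_norm_group`, `local_reciprocity_completion`,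
  `local_existence_norm`: the completion of a Galois extension is Galois with the decomposition
  group, for abelian extensions the kernel of the local map is the norm group of the completion and
  the quotient its Galois group, every open subgroup of finite index is such a norm group
  (`SummaryLocalClassField`).
* `local_abelian_completion`, `local_abelian_reciprocity`, `local_abelian_classification`,
  `local_abelian_unique`: every finite abelian extension of a completion is the completion of an
  abelian extension of the field, the norm groups correspond one to one with the open subgroups of
  finite index, with quotient the Galois group (`SummaryLocalClassField`).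
* `grunwald_wang_powers`, `grunwald_wang_iff`, `grunwald_wang_element`, `grunwald_wang_rat`: the
  theorem of Grunwald and Wang on powers over number fields, being an `n`-th power in almost all
  completions is being one in the field except in the special case, described exactly
  (`SummaryGrunwaldWang`).
* `grunwald_wang_characters`, `grunwald_theorem`, `wang_counterexample`: characters with prescribed
  local components exist outside the special case and exactly under the product condition in it,
  cyclic extensions with prescribed completions exist, and the unramified extension of degree `8` at
  `2` is no completion of an abelian extension of exponent `8` of `ℚ` (`SummaryGrunwaldWang`).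
* `noether_problem_cyclic`, `noether_problem_cyclic_eight`, `exists_cyclic_inert_of_rational`,
  `no_cyclic_inert_two` (`SummaryNoetherProblem`): Noether's problem fails for the cyclic groups of
  order `n` divisible by `8` (Lenstra; proof of Saltman): the functions fixed by the cyclic shift of
  `n` variables form no rational function field over `ℚ`; other orders are not treated.
* `local_kronecker_weber`, `local_kronecker_weber_padic`: every finite abelian extension of `ℚ_p`
  lies in a cyclotomic extension of `ℚ_p`, from local class field theory and the theorem of Kronecker
  and Weber over `ℚ` (`SummaryLocalKroneckerWeber`).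
* `local_norm_limitation`, `local_norm_group_index`, `local_norm_antitone`, `normResidue_functorial`,
  `local_artin_functorial`: the norms from any finite extension of a completion are those of its
  largest abelian subextension, the index is its degree, and local reciprocity commutes with
  restriction and the norm (`SummaryLocalNormLimitation`).
* `local_maximal_abelian`, `local_maximal_abelian_layers`, `local_maximal_abelian_rat`: the maximal
  abelian extension of a completion comes from that of the field, local reciprocity maps into its
  Galois group injectively with dense image and the norm groups as kernels of the finite layers;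
  for `ℚ` it is generated by roots of unity (`SummaryLocalMaximalAbelian`).
* `idele_class_reciprocity`, `idele_class_open_subgroups`, `idele_class_component`,
  `idele_class_kernel_rank_zero`, `idele_class_kernel_rat`: the ideles map onto the Galois group of
  the maximal abelian extension by an open quotient map; its kernel on the idele classes is the
  connected component, equal to the infinitely divisible classes, and is the image of the positive
  infinite ideles when there are no fundamental units (`SummaryIdeleClass`).
* `idele_norm`, `idele_norm_reciprocity`, `idele_norm_index`, `idele_norm_index_abelian`: the norm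
  of the ideles of a Galois extension, turned into restriction by the Artin maps; the principal
  ideles times the norms are open, of index the degree of the largest abelian subextension, whose
  Artin map has them as kernel (`SummaryIdeleNorm`).
* `idele_absolute_value`, `idele_class_compact`, `idele_class_galois`: the idelic absolute value,
  the compactness of the classes of absolute value one, the idele class group as that group times
  the line, and the Galois group of the maximal abelian extension as the compact group modulo its
  connected component (`SummaryIdeleClassCompact`).
* `abelianGalois_localUnits`, `absoluteGaloisAbelianisation_maxAbelian`, `abelianGalois_quadratic`,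
  `abelianGalois_not_determining`, `exists_seven_fields_same_abelianisation`: for class number one
  the abelianised Galois group of an imaginary quadratic field is the local units modulo the units;
  for `√-3, √-7, √-11, √-19, √-43, √-67, √-163` it is one and the same group
  `∏ (ℤ_p × ℤ_p) × ∏ ℤ / n`, though the absolute groups differ (Onabe, Angelakis, Stevenhagen;
  `SummaryAbelianGaloisQuadratic`).
* `idele_character_level`, `idele_character_exponent`, `idele_character_finite_order`,
  `idele_character_galois`: continuous characters of the ideles have levels, those of the idele
  classes are unitary up to a unique power of the absolute value, and those of finite order are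
  exactly the characters of the Galois group of the maximal abelian extension
  (`SummaryIdeleClassCharacters`).
* `artin_functoriality`, `idele_inclusion`, `artin_transfer`: restriction between maximal abelian
  extensions turns the Artin map of a Galois extension field into the Artin map composed with the
  norm, and the Artin map of any extension field on the ideles below is the transfer
  (`SummaryArtinTransfer`).
* `idele_character_type`, `idele_character_grossencharacter`, `grossencharacter_idele_character`,
  `idele_character_determined`: the unitary idele class characters are exactly Hecke's
  Grössencharaktere, with their infinity types and a modulus at exactly the ramified primes, and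
  are determined by their values at almost all primes (`SummaryIdeleGroessen`).
* `idele_hecke_LSeries`, `idele_hecke_pole`, `idele_hecke_prime_mean`, `idele_one_classes_mean`,
  `idele_artin_LSeries`, `idele_finite_order_artin`: the L-series of a unitary idele class character
  is entire and nonzero on `1 ≤ re s` unless the character is an imaginary power of the absolute
  value, so its values at the primes then have mean `0`; those of finite order have the Artin
  L-series of abelian extensions (`SummaryIdeleHeckeL`; no functional equation).
* `algebraic_hecke_type_iff`, `algebraic_hecke_modulus`, `algebraic_hecke_real_place`,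
  `algebraic_hecke_no_cm`, `algebraic_hecke_cm`: Weil's theorem on algebraic Hecke characters: the
  type `n` occurs iff it is pure and comes from a totally real or CM subfield; so with a real place
  or without CM subfield only powers of the norm times ray class characters occur
  (`SummaryAlgebraicHecke`).
* `algebraic_hecke_values`, `algebraic_hecke_LSeries`, `algebraic_hecke_prime_mean`,
  `algebraic_hecke_idele`: algebraic Hecke characters take their values in a number field with
  absolute values `N ^ (w / 2)`, their L-series are entire and nonzero on `1 + w / 2 ≤ re s` unless
  they are powers of the norm, and each comes from exactly one idele class character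
  (`SummaryAlgebraicHeckeValues`; no functional equation).
* `compact_abelian_separation`, `compact_abelian_dense`, `compact_abelian_fourier_unique`,
  `compact_abelian_weyl`: the Peter-Weyl theorem for compact abelian groups: the continuous
  characters separate points and span a dense subspace, Fourier uniqueness and Weyl's criterion for
  the Haar measure (`SummaryCompactAbelian`; no Pontryagin duality).
* `peter_weyl`, `coefficient_uniqueness`, `separation`, `faithful_of_no_small_subgroups`,
  `schur_orthogonality`, `schur_orthogonality_inequivalent`, `hilbert_reps`,
  `irreducible_finite_dimensional`: the Peter-Weyl theorem for arbitrary compact groups: coefficients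
  of irreducible unitary representations are dense and separate points, Schur orthogonality, compact
  groups without small subgroups are linear, and unitary representations on Hilbert spaces are
  densely spanned by finite-dimensional irreducible ones (`SummaryPeterWeyl`, namespace
  `FA.PeterWeyl.Summary`).
* `unitarisable`, `compact_linear_algebraic`, `tannaka`, `character_norm`, `character_orthogonality`,
  `characters_determine`, `characters_dense`, `class_function_uniqueness`: unitarian trick, compact
  linear groups are real algebraic, Tannaka duality (compatible families of unitary matrices are
  evaluations) and character theory for compact groups (`SummaryTannaka`, namespace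
  `FA.PeterWeyl.Tannaka`; no Krein reconstruction).
* `closed_subgroup_lie_algebra`, `closed_subgroup_chart`, `compact_group_no_small_subgroups_iff`,
  `hilbert_fifth_compact`, `compact_group_approximation`, `totally_disconnected_finite_image`: von
  Neumann's closed subgroup theorem, and compact groups without small subgroups are linear and
  locally Euclidean (`SummaryHilbertFifth`, namespace `FA.HilbertFifth.Summary`; the converse from
  locally Euclidean is not claimed).
* `prekopa_leindler`, `marginal_log_concave`, `brunn_minkowski`, `brunn_minkowski_weighted`,
  `brunn_minkowski_euclidean`, `isoperimetric`, `isoperimetric_content`, `isoperimetric_ball`: the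
  Prékopa-Leindler and Brunn-Minkowski inequalities and the sharp isoperimetric inequality for the
  outer Minkowski content in `ℝⁿ` (`SummaryBrunnMinkowski`, namespace
  `FA.BrunnMinkowski.Summary`; uniqueness of balls not claimed).
* `regular_representation`, `gelfand_raikov`, `gelfand_raikov_compact`, `abelian_one_dimensional`,
  `characters_separate`, `exists_pure_state_norming`, `irreducible_of_pure_state`,
  `gelfand_raikov_GL2`, `gelfand_raikov_discrete`: irreducible strongly continuous unitary
  representations separate the points of every locally compact Hausdorff group, through the regular
  representation and the GNS representations of pure states (`SummaryGelfandRaikov`, namespace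
  `FA.GelfandRaikov.Summary`; no Plancherel decomposition claimed).
* `unimodular`, `exists_invariant_measure`, `quasi_regular`, `averages_compact`,
  `discrete_decomposition`, `finite_multiplicity`, `finite_multiplicity_summands`,
  `heisenberg_decomposition`: the Gelfand, Graev and Piatetski-Shapiro theorem, `L²(G ⧸ Γ)` of a
  cocompact discrete subgroup is a discrete sum of irreducible representations with finite
  multiplicities (`SummaryCompactQuotient`, namespace `FA.CompactQuotient.Summary`).
* `gelfand_trick`, `spherical_multiplicity_one`, `spherical_functional_equation`, `cartan_padic`,
  `cartan_real`, `gelfand_pair_padic`, `gelfand_pair_real`, `unramified_line_exists`,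
  `compact_quotient_spherical`: Gelfand pairs, the Cartan decompositions of `GL_n (ℚ_p)` and
  `GL_n (ℝ)`, and multiplicity one for unramified and spherical vectors (`SummaryGelfandPairs`,
  namespace `FA.GelfandPairs.Summary`; Satake isomorphism not claimed).
* `hecke_commutative_of_involution`, `cartan_unique`, `double_coset_finite`, `hecke_basis`,
  `satake_structure`, `hecke_characters`, `gl2_algebraicIndependent`: the spherical Hecke algebra of
  `GL_n (ℚ_p)` is a polynomial algebra with the last variable inverted (`SummarySatake`, namespace
  `FA.Satake.Summary`; Satake transform and integral coefficients not claimed).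
* `test_function`, `hilbert_schmidt`, `geometric_side`, `identity_term`, `trace_formula`,
  `trace_summand_basis`, `trace_nonvanishing`, `heisenberg_trace_formula`: Selberg's trace formula
  for a discrete cocompact subgroup `Γ` of a locally compact group and test functions `f* ⋆ f`: the
  traces on the summands of any orthogonal decomposition add up to the sum over the classes of `Γ`
  of the integrals over fundamental domains of the centralisers (`SummaryTraceFormula`, namespace
  `FA.TraceFormula.Summary`; orbital integral factorisation and other test functions not claimed).
* `coefficients_memLp`, `orthogonality_relations`, `formal_degree_unique`,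
  `orthogonality_inequivalent`, `regular_embedding`, `reproducing_formula`,
  `compact_of_finite_dimensional`, `weyl_group_example`: Godement's theory of square-integrable
  irreducible representations of unimodular groups with the formal degree, and the example of the
  Weyl group of the integers (`SummarySquareIntegrable`, namespace `FA.SquareIntegrable.Summary`;
  non-unimodular groups and discrete series of semisimple groups not claimed).
* `borel_invariant_subspace`, `borel_fixed_vector`, `borel_span`, `borel_density_sln`,
  `lattice_irreducible`, `lattice_commutant`, `lattice_not_triangular`, `integral_points_dense`,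
  `integral_unipotents_not_lattice`: Borel's density theorem for groups generated by polynomial
  one-parameter subgroups, Zariski density of subgroups of finite covolume in `SL n ℝ` and of
  `SL n ℤ` (`SummaryBorelDensity`, namespace `FA.BorelDensity.Summary`; other semisimple groups
  not claimed).
* `compact_quotient_ergodic`, `compact_quotient_mixing`, `pieces_equidistribute`,
  `horocycle_averages`, `horocycle_unique_ergodicity`, `horocycle_dense`,
  `quaternion_horocycles`: equidistribution and unique ergodicity of horocycles on compact
  quotients of `SL(2, ℝ)`, with the norm-one units of a quaternion order as an example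
  (`SummaryHorocycle`, namespace `FA.Horocycle.Summary`; noncompact quotients not claimed).
* `gaussian_projection`, `stone_von_neumann`, `weyl_schur`, `weyl_decomposition`,
  `schroedinger_irreducible`, `schroedinger_unique`, `weil_representation`,
  `weil_representation_sl2`, `no_finite_dimensional`: the theorem of Stone and von Neumann and
  the faithful projective Weil representation of the real symplectic group on `L² (ℝ ^ n)`
  (`SummaryStoneVonNeumann`, namespace `FA.StoneVonNeumann.Summary`; no double cover, no
  continuity of the representation, no local or adelic versions).
* `cocompact_no_parabolic`, `forms_norm_bounded`, `negative_weight`, `weight_zero_constant`,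
  `forms_finite_dimensional`, `discrete_sum_norm`, `poincare_series`, `forms_exist`,
  `quaternion_forms`: holomorphic automorphic forms for cocompact Fuchsian groups, finite
  dimensional with a bound linear in the weight and existing in arbitrarily large weights, in
  particular for the norm-one units of a quaternion order (`SummaryCocompactForms`, namespace
  `FA.CocompactForms.Summary`; no dimension formula, no Hecke operators).
* `forms_separate`, `functions_separate`, `functions_nonconstant`, `function_field_finite`,
  `function_field_trdeg`, `functions_algebraically_dependent`, `forms_algebraically_dependent`,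
  `quaternion_functions`: the automorphic functions of a cocompact Fuchsian group separate its
  orbits and form a field of transcendence degree one, finite over `ℂ(j)`
  (`SummaryCocompactFunctions`, namespace `FA.CocompactFunctions.Summary`; no genus, no embedding,
  no algebraic model).
* `log_derivative_distribution`, `stabiliser_orders`, `transversal_exists`, `transversal_area`,
  `degree_formula`, `area_rational`, `dimension_bound`, `functions_equidegree`, `quaternion_area`:
  for cocompact Fuchsian groups, measurable transversals of one area `A`, the count
  `∑ ord / e = k A / (4 π)` of the zeros of a form of weight `k`, so `A` is in `ℚ π`, and the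
  resulting dimension bound (`SummaryCocompactDegree`, namespace `FA.CocompactDegree.Summary`; no
  genus, no exact dimensions, no algebraic model).
* `bergman_reproducing`, `petersson_kernel`, `dimension_integral`, `elliptic_orbits_finite`,
  `elliptic_vanishing`, `gauss_bonnet`, `dimension_formula`, `area_lower_bound`,
  `quaternion_gauss_bonnet`: for cocompact Fuchsian groups, the reproducing kernel of the forms, so
  `A = 2 π (2 g - 2 + ∑ (1 - 1/e))` with `g` natural, the dimension
  `(2 m - 1) (g - 1) + ∑ ⌊m (1 - 1/e)⌋` of weight `2 m` for large `m`, and Siegel's bound
  `A ≥ π / 21` (`SummaryCocompactGaussBonnet`, namespace `FA.CocompactGaussBonnet.Summary`; `g` is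
  not identified with the topological genus).
* `overgroup_finite_index`, `maximal_overgroup`, `centralizer_trivial`, `normalizer_discrete`,
  `elliptic_free_genus`, `hurwitz_theorem`, `quaternion_congruence`: a cocompact Fuchsian group has
  finite index in every discrete overgroup and lies in a maximal one, its centraliser is `±1`, its
  normaliser is discrete, without elliptic points `A = 4 π (g - 1)` and the normaliser obeys the
  bound `84 (g - 1)`, and quaternion congruence subgroups give unbounded genera
  (`SummaryCocompactHurwitz`, namespace `FA.CocompactHurwitz.Summary`; no Riemann surfaces).
* `quaternion_euclidean`, `quaternion_norms`, `unit_group_cocompact`, `hecke_operators`,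
  `hecke_self_adjoint`, `hecke_eigenbasis`, `hecke_eigenforms_exist`: the order of discriminant `6`
  in `(-1, 3)` over `ℚ` is norm-Euclidean, every positive integer is a norm with `p + 1` classes
  for `p ≥ 5` prime, and the Hecke operators on the forms of its norm-one units are multiplicative,
  commute and are self-adjoint, so there is a basis of eigenforms with real eigenvalues
  (`SummaryQuaternionHecke`, namespace `FA.QuaternionHecke.Summary`; no Jacquet–Langlands).
* `order_mod_prime`, `congruence_surjective`, `strong_approximation`, `congruence_index`,
  `congruence_curves`: strong approximation modulo every `n` prime to `6` for the norm-one units of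
  that order, with prescribed congruence to `1` modulo `M` prime to `n`; level `p` has index
  `p (p ^ 2 - 1)` and no elliptic elements, and `PSL₂ (ℤ / p)` is a quotient of the units
  (`SummaryQuaternionApprox`, namespace `FA.QuaternionApprox.Summary`; `p = 2, 3` not claimed).
* `reduction_domain`, `elliptic_points`, `area_and_genus`, `dimension_formula`,
  `congruence_genus`, `no_real_points`: the curve of discriminant `6` explicitly: an octagon
  meeting every orbit, four elliptic orbits of indices `2, 2, 3, 3`, genus `0`, area `2 π / 3`,
  the dimension of the forms of large weight, the exact genus of prime level, no real points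
  (`SummaryQuaternionCurve`, namespace `FA.QuaternionCurve.Summary`; no equations are claimed).
* `qm_lattice`, `qm_polarisation`, `qm_classification`, `qm_endomorphisms`, `qm_isogenies`:
  complex tori of dimension `2` with multiplication by the order of discriminant `6`: the principal
  Riemann form, stable lattices up to homothety as orbits of the units, endomorphisms and complex
  multiplication, the `p + 1` isogenies of degree `p ^ 2` (`SummaryQuaternionTori`, namespace
  `FA.QuaternionTori.Summary`; no algebraicity, moduli scheme or model over `ℚ` is claimed).
* `embedding_rational`, `embedding_criterion`, `embedding_saturation`, `embedding_congruences`,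
  `cm_points`: quadratic orders in the order of discriminant `6`: an element of given trace and
  norm exists exactly when the discriminant is a square in neither `ℚ₂` nor `ℚ₃`; points with
  complex multiplication, finitely many orbits for each discriminant and infinitely many in all
  (`SummaryQuaternionEmbedding`, namespace `FA.QuaternionEmbedding.Summary`; Eichler's class
  number formula for optimal embeddings is not claimed).
* `norm_classes`, `normalizer_eq`, `normalizer_quotient`, `triangle_signature`,
  `normalizer_dimension`, `atkin_lehner_operators`: the normaliser of the units of discriminant `6`: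
  four classes, index `4`, area `π / 6`, signature `(0; 2, 4, 6)`, the dimension of its forms of
  large weight, and the Atkin–Lehner involutions commuting with the Hecke operators
  (`SummaryQuaternionNormalizer`, namespace `FA.QuaternionNormalizer.Summary`; no presentation by
  generators and relations and no signs on eigenforms are claimed).
* `eichler_group`, `elliptic_count`, `eichler_genus`, `eichler_dimension`, `eichler_cusp_forms`:
  the curves of Eichler level `p` on the algebra of discriminant `6`: index `p + 1`, elliptic
  orbits counted by Legendre symbols, the genus, and its equality with the number of cusp forms of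
  level `6 p` new at `2` and `3` (`SummaryQuaternionLevel`, namespace
  `FA.QuaternionLevel.Summary`; an equality of numbers, no map between the forms is claimed).
* `elliptic_or_hyperbolic`, `hyperbolic_centralizer`, `elliptic_integral`, `hyperbolic_integral`,
  `dimension_exact`, `quaternion_dimensions`, `eichler_dimensions`: the trace formula for the
  dimension on a cocompact Fuchsian group: no parabolic elements, cyclic centralisers, vanishing
  hyperbolic orbital integrals, so the dimension `(2 m - 1) (g - 1) + ∑ ⌊m (1 - 1/e)⌋` for every
  `m ≥ 2`, in particular for the units of discriminant `6`, their normaliser and the levels `p`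
  (`SummaryCocompactTrace`, namespace `FA.CocompactTrace.Summary`; weight two and traces of Hecke
  operators are not claimed).
* `hecke_trace_formula`, `hecke_trace_bound`, `eigenbasis_exists`, `serre_moments`,
  `serre_equidistribution`, `eigenvalues_dense`, `eigenvalues_distinct`: the trace formula for the
  Hecke operators on the units of discriminant `6` in every weight `2 m ≥ 4` as a sum over finitely
  many elliptic classes, and Serre's theorem that for a prime `p ≥ 5` the eigenvalues over `√p`
  are equidistributed for the Plancherel measure of the `(p + 1)`-regular tree as the weight
  grows (`SummaryQuaternionTrace`, namespace `FA.QuaternionTrace.Summary`; the evaluation of the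
  elliptic sum by class numbers and the bound `|λ| ≤ 2 √p` are not claimed).
* `hecke_ring_closed`, `hecke_trace_integer`, `hecke_charpoly_integral`, `hecke_eigen_integral`,
  `hecke_field_totally_real`, `hecke_systems_conjugate`: from that trace formula, the operators
  `n ^ (m - 1) T n` of weight `2 m ≥ 4` on the units of discriminant `6` span a ring over `ℤ`,
  have integral traces and integral characteristic polynomials with only real roots, and their
  eigenvalue systems lie in one totally real number field and are permuted by its embeddings and
  by the automorphisms of `ℂ` (`SummaryQuaternionArith`, namespace `FA.QuaternionArith.Summary`;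
  weight two, multiplicity one and the bound on `|λ|` are not claimed).
* `local_factors`, `optimal_embeddings`, `elliptic_mass`, `trace_formula_explicit`,
  `weight_four_example`: Eichler's count of the optimal embeddings into the order of discriminant
  `6` and the trace of `T n` in every weight `≥ 4` as a closed sum of Lucas numbers times modified
  Hurwitz class numbers; the weight four form has eigenvalue `6` at `5`
  (`SummaryQuaternionClasses`, namespace `FA.QuaternionClasses.Summary`; weight two, other levels
  and the comparison with newforms are not claimed).
* `threeSquares_factor`, `eichler_count`, `definite_trace`, `jacquet_langlands_trace`,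
  `trace_by_counting`, `dimension_transfer`: the transfer of Jacquet and Langlands on traces: in
  every weight `2 m ≥ 4` and for every `n` the trace of `T n` on the curve of discriminant `6` is
  that on the algebraic modular forms of the Eichler order of level `3` in Hurwitz's order less
  twice that of Hurwitz's order, so a finite sum over integer quaternions (`SummaryQuaternionJL`,
  namespace `FA.QuaternionJL.Summary`; no correspondence of operators or of eigenvalue systems and
  no comparison with newforms of level `6` is claimed).
* `definite_hecke_ring`, `jacquet_langlands_powers`, `jacquet_langlands_charpoly`,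
  `eigenvalue_transfer`, `weight_four_line`: the same transfer on systems of eigenvalues: for every
  combination of the operators prime to `6` the characteristic polynomial on the Eichler order of
  level `3` is that on the curve of discriminant `6` times the square of that on Hurwitz's order
  (`SummaryQuaternionJLSystems`, namespace `FA.QuaternionJLSystems.Summary`; indices divisible by
  `2` or `3`, weight two and newforms of level `6` are not claimed).
* `definite_self_adjoint`, `spectral_gap`, `trace_decay`, `semicircle_marginal`,
  `sphere_equidistribution`, `four_squares_equidistribution`: Hecke operators and points on the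
  sphere: the Hecke operators of Hurwitz's order are self-adjoint for the binomial weights and at
  a prime `p ≥ 5`, in positive degree, smaller than the trivial eigenvalue; the Hurwitz quaternions
  of norm `p ^ r` and the representations of `4 p ^ r` by four squares become equidistributed on
  the sphere, every coordinate semicircle distributed (`SummarySphereHecke`, namespace
  `FA.SphereHecke.Summary`; the Ramanujan bound, rates, other norms and the two dimensional
  sphere are not claimed).
* `harmonic_theta_cuspForm`, `harmonic_sum_bound`, `eigenvalue_bound`, `coordinate_rate`,
  `odd_norm_equidistribution`, `four_squares_equidistribution` (Malyshev, Pommerenke): the theta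
  series of Hurwitz's order with powers of isotropic forms are cusp forms on `Γ₀(2)`, so the bound
  of Kloosterman and Weil gives `|λ| ≤ 2 p ^ (j / 2 + 3 / 4)` for the definite eigenvalues and the
  rate `n ^ (-1 / 4)`: along every sequence of odd `n → ∞` the Hurwitz quaternions of norm `n` and
  the representations of `2 n` and of `4 n` by four squares are equidistributed on the sphere
  (`SummaryHarmonicTheta`, namespace `FA.HarmonicTheta.Summary`; Deligne's bound, odd `n` as a sum
  of four squares and dimension three are not claimed).
* `rotation_average_gap`, `iterates_converge`, `almost_invariant_trivial`,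
  `banach_ruziewicz_finite`, `banach_ruziewicz` (Banach, Ruziewicz, Drinfeld): for a prime `p ≥ 17`
  the average over the rotations of the three-sphere by the Hurwitz quaternions of norm `p` shrinks
  the square integrable functions of mean zero by `2 p ^ (3 / 4) / (p + 1) < 1`; so the only
  finitely additive probability on the measurable sets of the sphere vanishing on null sets and
  invariant under these rotations for `p = 17`, a fortiori under all isometries, is the invariant
  measure (`SummaryBanachRuziewicz`, namespace `FA.BanachRuziewicz.Summary`; the circle and
  optimal gaps are not claimed).
* `area_law_hopf`, `area_law_unique`, `twosphere_gap`, `twosphere_iterates`, `twosphere_seventeen`,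
  `invariant_mean_null`, `banach_ruziewicz_twosphere`, `banach_ruziewicz_threesphere` (Banach,
  Ruziewicz, Drinfeld; Lubotzky, Phillips, Sarnak): the same gap on the two-sphere, whose area law
  is its only rotation invariant Borel probability; with the paradox of Banach and Tarski: the only
  finitely additive probability on the Lebesgue measurable subsets of the sphere of dimension two
  or three invariant under rotations is the invariant measure, null sets needing no hypothesis
  (`SummaryRuziewiczProblem`, namespace `FA.RuziewiczProblem.Summary`; higher dimensions and the
  non-measurable sets are not claimed).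
* `operator_bound`, `cap_measure`, `cap_discrepancy`, `points_near_every_direction`,
  `four_squares_near`, `shrinking_caps`, `logarithmic_words_prime`, `logarithmic_words` (Malyshev;
  Lubotzky, Phillips, Sarnak; Harrow, Recht, Chuang): for `n` prime to six the Hurwitz quaternions of
  norm `n` meet every cap of the three-sphere in proportion to its area up to
  `6 (d (n) n ^ (-1/4)) ^ (2/5)` and come within `6 d (n) ^ (1/3) n ^ (-1/12)` of every direction,
  so do the representations of `4 n` by four squares, and the generators of norm `17` approximate
  every unit quaternion within `ε` by words of length `O (log (2/ε))` (`SummaryIntegerPointsCaps`,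
  namespace `FA.IntegerPointsCaps.Summary`; even `n`, multiples of `3`, optimal exponents and
  efficient navigation are not claimed).
* `pontryagin_compact`, `pontryagin_discrete`, `pontryagin_extend_compact`,
  `pontryagin_extend_discrete`, `pontryagin_annihilator`, `pontryagin_connected_iff`,
  `pontryagin_totally_disconnected_iff`: Pontryagin duality between compact and discrete abelian
  groups, extension of characters, annihilators, connectedness and torsion in the dual
  (`SummaryPontryagin`; no general locally compact groups).
* `adele_classes_compact`, `adele_strong_approximation`, `adele_standard_character`,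
  `adele_quotient_dual`, `adele_field_dual`: for every number field `K` the adeles modulo `K` are a
  compact connected group, whose characters are the `x ↦ ψ (a x)` with `a` in `K` and `ψ` the
  standard character, and conversely the characters of `K` are the adele classes
  (`SummaryAdeleDuality`; no self-duality of the adeles).
* `adele_self_dual`, `local_self_dual_finite`, `local_self_dual_infinite`,
  `adele_strong_dense_finite`, `adele_strong_dense_infinite`, `strong_approximation_finite`,
  `strong_approximation_infinite`: the adeles and all completions are their own duals, `K` being its
  own annihilator, and the strong approximation theorem omitting any one place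
  (`SummaryAdeleSelfDual`).
* `adele_haar_covolume`, `adele_poisson`, `adele_poisson_schwartz_bruhat`: Poisson summation on the
  adeles for the Haar measure of covolume one, and for every Schwartz-Bruhat function
  (`SummaryAdelicPoisson`; no Fourier inversion, no local factorisation of the measure).
* `tate_modulus`, `tate_fourier_schwartz_bruhat`, `tate_riemann_roch`: an idele scales the adelic
  Haar measure by its absolute value, the Fourier transform preserves the Schwartz-Bruhat space, and
  Tate's Riemann-Roch theorem (`SummaryTateRiemannRoch`).
* `tate_fourier_inversion`, `tate_idele_domain`, `tate_zeta_convergent`, `tate_zeta_entire`,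
  `tate_zeta_poles`: Fourier inversion on the adeles and Tate's global theorem: the zeta integrals of
  all unitary idele class characters continue, with the functional equation
  `Z (f, χ, s) = Z (f̂, χ⁻¹, 1 - s)` and the two poles for the powers of the absolute value
  (`SummaryTateZeta`; no local zeta factors).
* `tate_local_real`, `tate_local_complex`, `grossencharacter_localType`, `grossencharacter_conductor`,
  `hecke_functionalEquation_groessen`, `hecke_functionalEquation_absValue`: Tate's local computations
  and Hecke's functional equation for every Grössencharakter, as a unitary idele class character: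
  `Λ (s, χ) = (|d| N 𝔣) ^ (s / 2) Γ_∞ (s) L (s, χ)` is entire (two poles for the powers of the
  absolute value) and `Λ (s, χ) = W Λ (1 - s, χ⁻¹)`, `|W| = 1`
  (`SummaryGroessenFunctionalEquation`).
* `hecke_functionalEquation_finiteOrder`: for a nontrivial Grössencharakter of finite order the
  constant `W` is `(-i) ^ |S|` times the Gauss sum of its ideal character, primitive modulo the
  conductor and odd exactly at the real places `S` with `m ≠ 0`, over `√N 𝔣`
  (`SummaryGroessenFiniteOrder`).
* `hecke_quadratic_rootNumber`, `hecke_quadratic_gaussSum`, `hecke_quadraticCharacter_groessen`:
  Hecke: over every number field a real character of finite order has root number `1`, and so its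
  Gauss sum is `i ^ |S| √N 𝔣` times `g (A) sgn (w)` (`SummaryQuadraticRootNumber`).
* `FA.Root.TateLocalSummary.exists_root_number_fin`, `exists_root_number_real`,
  `exists_root_number_cplx`: Tate's local theorem on every completion, for all Schwartz-Bruhat
  functions: the factor at a prime is `W (N 𝔇_v N 𝔣_v) ^ (1/2 - s)` with `|W| = 1`, and `W = 1`
  where nothing ramifies; at an infinite place it is a power of `I` (`SummaryTateLocal`).
* `FA.Root.TateRootNumberSummary.exists_functional_equation_local`: the constant of Hecke's
  functional equation is the product over all places of the constants of Tate's local equations,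
  which are unique (`SummaryTateRootNumber`).
* `FA.Root.AlgebraicHeckeFESummary.algebraic_hecke_functional_equation`: every algebraic Hecke
  character not a norm power has a primitive character modulo a conductor `𝔣 ∣ 𝔪`, and Hecke's
  completed L-series is entire with `Λ s = W conj (Λ (1 + w - conj s))` (`SummaryAlgebraicHeckeFE`).
* `FA.Root.FermatHasseWeilSummary.fermatCurve_hasseWeil_functional_equation`,
  `fermatCurve_hasseWeil_entire`: Hasse's conjecture for `x ^ l + y ^ l = z ^ l` over `ℚ(ζ_l)` (Weil):
  the Euler product of the point counts is entire and `Λ s = ± Λ (2 - s)` (`SummaryFermatHasseWeil`).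
* `FA.Root.FermatHasseWeilRatSummary.fermatCurve_rat_hasseWeil_functional_equation`,
  `fermatCurve_rat_hasseWeil_entire`: the same over `ℚ`: the Euler product over the primes `p ≠ l` is
  entire without zeros on `3 / 2 ≤ re s` and `Λ s = ± Λ (2 - s)` (`SummaryFermatHasseWeilRat`).
* `FA.Root.FermatTwistSummary.fermatTwist_hasseWeil_functional_equation`,
  `fermatTwist_hasseWeil_entire`, `selmerCurve_hasseWeil_entire`: Hasse's conjecture for every twist
  `a x ^ l + b y ^ l = c z ^ l` over `ℚ`, with Selmer's cubic as the example: entire L-function, bad
  factors and `A` supported on `l a b c`, `Λ s = ± Λ (2 - s)` (`SummaryFermatTwist`).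
* `FA.Summary.satoTate_hyperelliptic`, `FA.Summary.satoTate_hyperelliptic_split`,
  `FA.Summary.hyperelliptic_points`, `FA.Summary.hyperelliptic_weil_bound`,
  `FA.Summary.hyperelliptic_weil_bound_sharp`, `FA.Summary.jacobiSum_angles_equidistributed`,
  `FA.Summary.jacobiSum_independent`, `FA.Summary.jacobi_cm_type_nondegenerate`,
  `FA.Summary.halfInterval_charSum_ne_zero` (`SummaryJacobiSatoTate`): the Sato–Tate law of
  `y² = x ^ l + c` in every genus `(l - 1) / 2`, `l` an odd prime: the conjugate Jacobi sums have
  angles equidistributed in the whole torus, and Weil's bound is asymptotically attained.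
* `FA.Summary.fermatVariety_tate`, `FA.Summary.fermatVariety_points`,
  `FA.Summary.fermatVariety_character`, `FA.Summary.fermatVariety_paired`,
  `FA.Summary.fermatVariety_mean`, `FA.Summary.hodge_tuple_iff`, `FA.Summary.fermatSurface_rho`
  (`SummaryFermatTate`): Tate's conjecture in analytic form for `∑ x i ^ l = 0` of dimension `2 d`
  over `ℚ(ζ_l)`, `l` an odd prime: the L-function of the primitive middle part has at `d + 1` a pole
  of order exactly the number of paired tuples, `3 (l - 1) (l - 2)` for surfaces; cycles are absent.
* `FA.Summary.kronecker_jugendtraum`, `FA.Summary.kronecker_jugendtraum_nine`,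
  `FA.Summary.jugendtraum_torsion`, `FA.Summary.jugendtraum_gaussian`,
  `FA.Summary.jugendtraum_eisenstein` (`SummaryJugendtraum`): Kronecker's Jugendtraum: for each of
  the nine imaginary quadratic fields `K` of class number one the maximal abelian extension is
  `K (E_tors)` for a curve over `ℚ` with complex multiplication, `y² = x³ - x` for `ℚ(i)`.
* `FA.Summary.kronecker_jugendtraum_all`, `FA.Summary.jugendtraum_numberField`,
  `FA.Summary.cm_frobenius_normEquation` (`SummaryJugendtraumField`): for every imaginary quadratic
  `K = ℚ(√d)` a CM curve over a number field `F` of degree `h(K)` has the maximal abelian extension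
  of `K` inside `F K (E_tors)`; if `√d ∈ F` the traces satisfy `a_v² - 4 N v = d b²`.
* `FA.Summary.hilbertClassField_eq_adjoin_j` (`SummaryCMHilbertClassField`): for every imaginary
  quadratic `K` and every CM curve for its maximal order `K (j)` is the Hilbert class field.
* `FA.Summary.rayClassField_eq_adjoin_torsion`, `kronecker_jugendtraum_exact`, `cmCurve_over_adjoin_j`
  (`SummaryCMRayClassFields`): for `d ≠ -1, -3` the field `K (j, x(E[n]))` is the ray class field
  modulo `n` (degree, Artin map, maximality) and the union of these is the maximal abelian
  extension of `K`; every imaginary quadratic field has such a curve over `ℚ(j)`.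
* `FA.Summary.rayClassField_eq_adjoin_weber`, `kronecker_jugendtraum_weber`
  (`SummaryCMWeberFunctions`): for `d = -1, -3` the values of Weber's function `(x + b₂/12) ^ k`,
  `k = 2, 3`, at the points killed by `n` generate the ray class field modulo `n` over `K (j)`, and
  their union is the maximal abelian extension of `K`.
* `FA.Summary.silverberg_totient`, `silverberg_totient_of_sqrt_mem`,
  `silverberg_totient_special`, `cm_torsion_order_le`, `cm_full_level_bound`
  (`SummaryCMTorsionBound`): Silverberg's bound: a point of exact order `n` over a number field `F`
  on a curve with multiplication by the maximal order of `K = ℚ(√d)` gives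
  `h φ(n) ≤ 2 [F : ℚ]` for `d ≠ -1, -3` (`[F : ℚ]` when `√d ∈ F`, `w [F : ℚ]` for `w = 4, 6`
  units), so the order is at most `72 [F : ℚ] ²`, and all of `E[n]` over `F` gives
  `h #(𝓞/n)ˣ ≤ 2 [F : ℚ]`.
* `FA.Summary.cm_multiplierRing_exists`, `cm_order_totient_le`, `cm_order_totient_le_of_sqrt_mem`,
  `cm_torsion_totient_le_all`, `cm_torsion_order_le_all`, `cm_torsion_orders_finite`,
  `cm_torsion_order_rational` (`SummaryCMTorsionAllOrders`): torsion with multiplication by any
  order: the multipliers of a lattice with multiplication are the order of a discriminant `D < 0`;
  a point of exact order `n` over `F` gives `φ(n) ≤ 2 [F : ℚ]` for `D < -4` (`[F : ℚ]` when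
  `√D ∈ F`) and `φ(n) ≤ 6 [F : ℚ]`, `n ≤ 72 [F : ℚ] ²` for every such curve, so finitely many
  orders of points in each degree; over `ℚ` with `D < -4` only `1, 2, 3, 4, 6`.
* `FA.Summary.cm_homothety_index_le`, `cm_homothety_uniform`, `cm_conjugates_ge`,
  `cm_conjugates_ge_all`, `cm_torsion_few_conjugates_finite` (`SummaryCMHomothety`): for
  multiplication by any order of discriminant `D < -4` the scalars in the image of Galois over
  `F(√D)` on `E[n]` have index at most `2 [F : ℚ]` for every `n`, so `c ^ (2 δ)!` is one whenever
  `[F : ℚ] ≤ δ` and `(c, n) = 1`; a point of exact order `n` has at least `φ(n) / (2 [F : ℚ])`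
  conjugates (`φ(n) / (6 [F : ℚ])` for every CM curve), so only finitely many torsion points have
  at most `δ` conjugates.
* `FA.Summary.cm_order_classNumber_totient_le`, `cm_order_classNumber_totient_le_of_sqrt_mem`,
  `cm_homothety_classNumber_index_le`, `cm_order_classNumber_prime_le`, `parish_torsion`,
  `parish_homothety` (`SummaryCMClassFactor`): the same for every order of discriminant `D < -4`
  with the class number `h = h(D)`: `h φ(n) ≤ 2 [F : ℚ]` (`[F : ℚ]` when `√D ∈ F`),
  `h (p - 1) ≤ 2 [F : ℚ]` for a point of prime order and `h` times the index of the scalars in the
  image at most `2 [F : ℚ]`; so over `F = ℚ(j)` torsion points have order `1, 2, 3, 4, 6` (Parish)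
  and every square prime to `n` is a homothety from Galois on `E[n]`.
* `FA.Summary.cm_order_totient_dvd`, `cm_order_totient_dvd_of_sqrt_mem`,
  `cm_homothety_sign_index_dvd`, `aoki_odd_degree`, `parish_prime_degree`
  (`SummaryCMDivisibility`): for `D < -4` the bounds are divisibilities: `h φ(n) ∣ 2 [F : ℚ]` for
  `n ≥ 3` (`∣ [F : ℚ]` when `√D ∈ F`) and `h` times the index of the scalars up to sign divides
  `[F : ℚ]`; so in odd degree `h` is odd and orders are `1, 2, 4, p^k, 2 p^k` with `p ≡ 3 (mod 4)`
  (Aoki), and in prime degree `l ≥ 5` they are `1, 2, 3, 4, 6`, or `p, 2 p` with `p = 2 l + 1`.
* `FA.Summary.cm_galois_twist`, `cm_full_level_sqrt_mem`, `cm_torsion_structure`,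
  `cm_torsion_card_le`, `cm_roots_of_unity_mem`, `aoki_odd_degree_full`, `aoki_odd_prime_unique`,
  `aoki_two_group` (`SummaryCMTwist`): automorphisms moving `√D` carry `θ` to `t - θ`; so all of
  `E[n]`, `n ≥ 3`, over `F` needs `√D ∈ F` (Bourdon, Clark), else the torsion is cyclic or
  `ℤ/2 × ℤ/2k` of order `≤ 144 [F : ℚ]²` and a point of prime order `p` gives `μ_p ⊆ F (√D)`; in
  odd degree an odd prime dividing the torsion is `p ≡ 3 (mod 4)` with `D = - p u²` (Aoki).
* `FA.Summary.cm_stable_line_exists`, `cm_stable_line_dichotomy`, `aoki_isogeny_iff`,
  `aoki_cyclic_isogeny_primes`, `aoki_stable_line_unique` (`SummaryCMStableLine`): with CM by the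
  order of discriminant `D` a Galois stable line in `E[p]`, `p` odd, exists over every field when
  `p ∣ D`; over a field of odd degree only then (Aoki; Kwon over `ℚ`), so the odd primes of cyclic
  isogenies divide `D`, and the line is unique unless `D = - p u²`.
* `FA.Summary.cm_classNumber_odd_iff`, `cm_oddDegree_iff`, `aoki_odd_degree_orders`,
  `aoki_one_prime`, `aoki_one_prime_torsion` (`SummaryCMOddOrders`): for every discriminant `D < 0`
  `h(D)` is odd iff `D` is `-4, -8, -16, -p^k` or `-4 p^k` (`p ≡ 3 (mod 4)`, `k` odd), exactly the
  orders of CM in odd degree; there all cyclic isogenies and torsion points have order `2^a p^b`.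
* `FA.Summary.bcs_prime_degree`, `bcs_prime_degree_group`, `cm_torsion_degree_five`,
  `cm_torsion_degree_three` (`SummaryCMPrimeDegree`): Bourdon, Clark and Stankewicz for `D < -4`:
  in prime degree `≥ 7` CM torsion orders are `1, 2, 3, 4, 6`; degree `5` adds at most `11, 22`
  (`D = -11`), degree `3` at most `7, 14` (`D = -7, -28`) and `9, 18` (`D = -12, -27`); these are
  upper lists, no realisation is shown.
* `FA.Summary.aoki_odd_degree_all`, `aoki_odd_degree_group`, `cm_disc_neg_four_torsion`,
  `cm_disc_neg_three_torsion`, `bcs_prime_degree_all`, `cm_torsion_degree_five_all`,
  `cm_torsion_degree_three_all` (`SummaryCMOddAll`): Aoki for every CM order: in odd degree torsion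
  orders are `1, 2, 4, p^k, 2 p^k` (`p ≡ 3 (mod 4)`, `D = - p u²`) and the group is cyclic or
  `ℤ/2 × ℤ/k`; `D = -4` gives divisors of `4`; the prime degree lists hold for every `D ≠ -3`.
* `FA.Root.DeuringHeckeSummary.deuring_hecke_character`, `deuring_euler_factor`,
  `hasse_conjecture_cm` (`SummaryDeuringHecke`): Deuring's theorem.  A curve over a number field
  containing its field of multiplication `ℚ(√d)` has a Hecke character `f` with
  `a_v = f v + conj (f v)` and `N v = f v · conj (f v)` at every place of good reduction, and its
  completed L-series is entire with `Λ (2 - z) = Λ z`.
* `FA.Root.DeuringHeckeSummary.deuring_descended_character`, `hasse_conjecture_cm_all`,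
  `hasse_conjecture_gaussian` (`SummaryDeuringHecke`): for a curve with complex multiplication
  over any number field, with or without `√d`, the completed L-series is entire and
  `Λ (2 - z) = ± Λ z`; in particular for `y² = x³ + a x` (the bad factors and the constant `M` are
  not identified with the geometric ones).
* `FA.Root.SatoTateCMFieldsSummary.satoTate_cmField`, `satoTate_cmField_descended`,
  `hasse_bound_attained`, `satoTate_gaussian` (`SummarySatoTateCMFields`): the Sato–Tate law of
  every curve with complex multiplication over every number field (the arcsine law with `√d`, else
  half of it and a point mass `1 / 2` at `0`), Hasse's bound is attained up to any `ε`; the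
  completed L-series of `hasse_conjecture_cm_all` has no zero with `3 / 2 ≤ re z`.
* `FA.Root.CMMultiplicitySummary.deuring_reduction`, `supersingular_density`,
  `cm_field_of_common_traces`, `cm_strong_multiplicity_one`, `cm_strong_multiplicity_one_sqrt`,
  `cm_traces_determined` (`SummaryCMMultiplicity`): Deuring's reduction theorem for every curve with
  complex multiplication over a number field (ordinary exactly at the places over split primes), and
  two such curves with equal traces on a set of upper density above `3 / 4` (`1 / 2` with `√d`) have
  the same field and equal traces at all common good places.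
* `FA.Root.CMSymmetricPowersSummary.symmetric_power_lSeries`, `satoTate_joint`
  (`SummaryCMSymmetricPowers`): for a curve with complex multiplication by `ℚ(√d)` over a field
  containing `√d` the completed L-series of every symmetric power is entire (for even powers after
  removing the poles), has a functional equation with sign `1` and no zero on the boundary line, with
  constant supported at the discriminant and the bad places; two such curves with different fields
  of multiplication have independent arcsine laws.
  `symmetric_power_lSeries_descended`: the same over fields without `√d`, with a sign `±1`.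
* `FA.Root.NeronOggShafarevichNF.neron_ogg_shafarevich`, `good_of_fixed_point`,
  `potentially_good_iff`, `everywhere_good_extension` (`SummaryNeronOggShafarevichNF`): over every
  number field and at every place good reduction is trivial inertia on the torsion prime to the
  place, one fixed point of prime power order at least `4` suffices where `j` is integral, `j` is
  integral exactly when the image of inertia is finite, and a curve with integral `j` has good
  reduction everywhere over the field of its points of order `5` and `7`.
* `FA.Root.SerreTateCMSummary.good_iff_prime_to_conductor`,
  `good_iff_prime_to_conductor_descended`, `potentially_good_everywhere` (`SummarySerreTateCM`): the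
  theorem of Serre and Tate: a curve with complex multiplication has potentially good reduction
  everywhere, and its bad places are those dividing the conductor of Deuring's character (taken over
  `F (√d)` when `√d` is not in the field), the trace of any good model giving the value there.
* `FA.Root.CMHasseWeilSummary.hasse_weil_cm`, `hasse_weil_cm_of_sqrt`, `hasse_weil_cm_descended`,
  `hasse_weil_gaussian` (`SummaryCMHasseWeil`): the L-function of Hasse and Weil of a curve with
  complex multiplication over any number field, exactly: the factor of a good equation at each good
  place and `1` at the bad ones, completed to an entire function with `Λ (2 - z) = ± Λ z`, with the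
  constant `(|d_F| N 𝔣) ^ 2`, or `|d_E| N 𝔣` for `E = F (√d)`, `𝔣` the conductor of the character.
* `FA.Root.DamerellSummary.lattice_sums_torsion_algebraic` (`SummaryDamerell`): for a lattice
  with algebraic invariants the sums `∑ (l - x) ^ (-r)`, `r ≥ 3`, at torsion points are algebraic.
* `FA.Root.DamerellSummary.damerell` (`SummaryDamerell`): Damerell's theorem: for an imaginary
  quadratic field and every character of infinity type `k ≥ 3` at one embedding `L (f, k)` is an
  algebraic number that is not `0` times the `k`-th power of `π Ω`, `Ω` the period of Chowla and
  Selberg, so it is transcendental.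
* `FA.Root.DamerellSummary.damerell_cm_curve`, `damerell_gaussian` (`SummaryDamerell`): for a curve
  with multiplication by the imaginary quadratic field it is defined over `L (f ^ k, k)` is an
  algebraic number that is not `0` times the `k`-th power of every nonzero period.
* `FA.Root.CoatesWilesSummary.frobenius_is_multiplication` (`SummaryCoatesWiles`): for a curve with
  multiplication by all of `𝓞 K` the Frobenius elements at a split place of degree one prime to
  `6 Δ` act as the element `π` of the place on the torsion prime to it; the `π`-power torsion lies
  in the kernel of reduction and the `π̄`-power torsion meets it only in zero.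
* `FA.Root.CoatesWilesSummary.l_value_one` (`SummaryCoatesWiles`): the L-series of the conjugate of
  Deuring's character, over the ideals prime to a suitable `M`, continues to an entire function
  whose value at `1` is the period `Ω` times an element of `K`.
* `FA.Root.CoatesWilesSummary.division_tower` (`SummaryCoatesWiles`): the `π ^ n`-torsion of such a
  curve gives a totally ramified Galois extension of degree `p ^ (n - 1) (p - 1)` at `v`, and an
  equivariant continuous homomorphism killed by `p` on its multiplicative group vanishes once it
  kills a unit congruent to `1` exactly to the first order.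
* `FA.Root.CoatesWilesSummary.coates_wiles` (`SummaryCoatesWiles`): the theorem of Coates and
  Wiles over the field of multiplication: for a curve with multiplication by the maximal order and
  period lattice `Ω 𝓞 K`, a `K`-rational point of infinite order forces the L-series of the
  conjugate of Deuring's character to vanish at `1`.
* `FA.Root.CoatesWilesSummary.coates_wiles_rational` (`SummaryCoatesWilesRational`): the theorem
  of Coates and Wiles over `ℚ`: with one of the nine invariants of the maximal orders of class
  number one and a value other than `0` of the continued L-series at `1`, the group of rational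
  points is finite; applied to `y² = x³ - x` in `coates_wiles_gaussian`.
* `FA.Root.BirchTwistsSummary.birch_swinnertonDyer_nonvanishing` (`SummaryBirchTwists`): the
  theorem of Birch and Swinnerton-Dyer (1965): for a prime `p ≡ 3 (mod 8)` the continued L-series
  of `y² = x³ - p² x` is not `0` at `1`; with Coates and Wiles the points are finite, so order of
  vanishing and rank are both `0` (`rankEquality`), for infinitely many curves (`infinitely_many`).
* `FA.Root.BirchTwistsSummary.two_part`, `centralValue_rational`, `congruent_centralValue_eq_zero`
  (`SummaryBirchTwoPart`): `L (E_n, 1)` is a rational multiple of the real period for every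
  `n ≠ 0`, so `0` or transcendental, and `0` for congruent `n`; for a prime `p ≡ 3 (mod 8)` the
  rational has odd numerator and denominator and `ShaTwo` is zero: the two-part of Birch and
  Swinnerton-Dyer's formula (`Ш` and Tamagawa numbers are not defined here).
* `FA.Root.HeegnerCongruentSummary.two_mul_prime_congruent`, `infinite_congruent_two_mul_prime`,
  `point_group_two_mul_prime`, `rank_two_mul_prime`, `parity_two_mul_prime`
  (`SummaryHeegnerCongruent`): Heegner's theorem, `2 p` is congruent for every prime
  `p ≡ 3 (mod 4)`; so `y² = x³ - 4 p² x` has rank exactly one and an L-series vanishing at `1`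
  to odd order.
* `FA.Root.CongruentFiveSummary.prime_five_mod_eight_congruent`, `infinite_congruent_primes`,
  `point_group_prime_five`, `rank_prime_five`, `parity_prime_five` (`SummaryCongruentFive`):
  every prime `p ≡ 5 (mod 8)` is congruent (Heegner, Birch, Stephens, Monsky); so `y² = x³ - p² x`
  has rank exactly one and an L-series vanishing at `1` to odd order.
* `FA.Root.CongruentSevenSummary.prime_seven_mod_eight_congruent`, `congruent_prime_iff`,
  `prime_congruent_of_five_or_seven`, `infinite_congruent_primes_seven`, `point_group_prime_seven`,
  `rank_prime_seven`, `parity_prime_seven` (`SummaryCongruentSeven`): every prime `p ≡ 7 (mod 8)`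
  is congruent, so for `p ≡ 3, 5, 7 (mod 8)` the prime is congruent iff `p ≢ 3 (mod 8)`.
* `idele_primes_equidistributed`, `idele_primes_in_set`, `idele_open_set_primes`,
  `idele_character_angles`, `idele_character_roots`, `algebraic_hecke_angles`: the primes are
  equidistributed in the compact group of idele classes of absolute value one, so every nonempty
  open set contains primes of degree one, and the values of Hecke characters at the primes on the
  circle, unless a power is a power of the norm (`SummaryIdeleEquidistribution`, with
  `idele_classes_hausdorff`, `idele_haar_exists`; no error term).
* `principal_ideal_theorem`, `transfer_commutator_eq_one`: every ideal becomes principal in the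
  Hilbert class field (the principal ideal theorem, through the triviality of the transfer to the
  commutator subgroup of a finite group).
* `pell_ne_pow`, `pellNumber_ne_pow`, `even_fib_ne_pow`, `fib_six_eq_cube`: no even nonzero Pell or
  Fibonacci number is an `n`-th power for `n` with a prime factor `p ≥ 7`.
* `pow_two_mul_add_ne_sq`, `pow_two_mul_add_ne_sq_rat`, `pow_two_mul_sub_ne_sq`,
  `mul_sq_sub_sq_ne_pow`, `triangle_area_ne_pow`, `triangle_area_ne_sq`,
  `triangle_product_ne_pow`: `x ^ (2 n) + y ^ (2 n)` is no square, and neither area nor product of
  the sides of a primitive right triangle is an `n`-th power, every `n ≥ 2`.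
* `fermatFour_quadratic_iff`, `fermat_quadratic_four_dvd`: Aigner's theorem, Fermat's Last Theorem
  for exponents divisible by `4` over every quadratic field other than `ℚ(√-7)`.
* `fermatFour_infinite_field`, `fermatFour_multiquadratic`, `fermatFour_of_not_congruent`: Fermat's
  Last Theorem for exponents divisible by `4` over real fields of infinite degree and of every
  degree `2 ^ k`, generated by square roots of primes `3 (mod 8)` with no congruent product;
* `fermatThree_quadratic_iff`, `fermat_quadratic_three_dvd`, `not_fermatThree_sqrt_two`,
  `fermat_sqrt_neg_three`, `pow_three_AP`: the exponent `3` over `ℚ(√d)` is decided by the rational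
  points of `Y² = X³ - 432 d³`; no three `n`-th powers in progression for `3 ∣ n` or `4 ∣ n`.
* `fermat_quadratic_six_dvd`, `fermat_quadratic_four_dvd_ne_four`, `rational_points_curve144`:
  Fermat's Last Theorem over every quadratic field for `6 ∣ n` and for `4 ∣ n`, `n ≠ 4`.
* `three_not_sum_two_cubes`, `no_rational_solution_curve243`, `fermat_quadratic_nine_dvd`,
  `fermat_quadratic_smooth`: exponent `9`; so FLT over every quadratic field for `n = 2^a 3^b ≥ 5`.
* `fermat_irreducible`, `fermat_two_rational`, `fermat_sqrt_neg_three_iff`: `X ^ n - (x ^ n + y ^ n)`
  is irreducible over `ℚ`, so no number field of degree not divisible by `n` solves FLT with two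
  rational unknowns; over `ℚ(√-3)` FLT for odd `n` holds exactly when `3 ∣ n`.
* `fermat_SL_two_int_iff`, `fermat_GL_two_int_iff`: Khazanov's theorem, `X ^ n + Y ^ n = Z ^ n` is
  soluble in `SL(2, ℤ)` iff `3 ∤ n` and `4 ∤ n`, in `GL(2, ℤ)` iff `4 ∤ n` and `6 ∤ n`.
* `fermat_quadraticAlgebra`, `fermat_quadraticAlgebra_smooth`, `fermat_GL_two_rat_commuting_iff`,
  `fermat_GL_two_rat_commuting`, `fermat_GL_two_rat_commuting_exists`: for `n` divisible by `4` or
  `6`, commuting invertible rational `2 × 2` matrices (or units of a quadratic `ℚ`-algebra) solve
  FLT only for `n = 4`; none for `n = 2^a 3^b ≥ 5`, some for `n` prime to `6`.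
* `hurwitzEquation`, `hurwitzEquation_iff`, `hurwitzEquation_int_iff`,
  `kleinQuartic_rational_points`, `ratio_sum_ne_zero`: Hurwitz's equation
  `x ^ m y ^ n + y ^ m z ^ n + z ^ m x ^ n = 0` is soluble in nonzero rationals exactly for
  `(m, n) = (1, 0), (0, 1), (1, 1)`; the rational points of the Klein quartic.
* `pow_two_mul_add_ne_cube`, `pow_two_mul_add_ne_fifth`: `x ^ (2 n) + y ^ (2 n) ≠ z ^ 3` for every
  `n ≥ 2` and coprime nonzero `x`, `y` (Frey curves, and a descent on `W⁴ - 27 U⁴ = t²` for even
  `n`); `≠ z ^ 5` for `n` with a prime factor `p ≥ 7` when `5` does not divide the odd variable.
* `cube_add_cube_ne_pow`, `sixth_sub_sq_ne_pow`, `pow_add_pow_two_mul_ne_sq`: coprime nonzero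
  solutions of `x³ + y³ = z ^ n` and `x⁶ - y² = ± z ^ n` never have `6 ∣ z` (exponents with a
  prime factor `≥ 7`, `≥ 5`); `x ^ n + y ^ (2 n) ≠ z²`, `n ≥ 3`, if `n` or `y` is even, or `x` is
  even and `n ≥ 6` (`2³ + 1⁶ = 3²`), or `3 ∣ n`, `x` is odd and `z ≠ 0`.
* `ribetEquation_three_le`: Ribet's equation for every exponent `n ≥ 3`.
* `ribetEquation_five`, `quarticDifference_five`: exponents with a prime factor at least `5`.
* `twoPrimeFermat_three_five`, `twoPrimeFermat_seven_thirteen`,
  `twoPrimeFermat_seventeen_nineteen`, `serreEquation_five`, `two_pow_add_one_ne`:
  `A x ^ n + B y ^ n + C z ^ n = 0` with the primes of `A B C` among `2, q`, coprime terms and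
  `16 ∣ C z ^ n` (`32` for `q = 17, 19`, sharp at `17`) has no solution, from the exponent `5` on
  for `q = 3, 5` and `11` for `q ≤ 19`; so Serre's equation for `q = 3, 5` from `5` on, and
  `2 ^ a ± 1` is no power of `q`.
* `squareEquation_twoPrimes`, `cubeEquation_fifteen_twentyone`, `ramanujanNagell_twoPrimes`,
  `cube_ne_pow_add_three_pow`, `sq_add_two_pow_mul_pow_ne_pow`,
  `cube_add_three_pow_mul_pow_ne_pow`: `x² = A y ^ n + B z ^ n` with the primes of `A B` among
  `2, q` for `q = 11, 13, 19` (`x` odd, `64 ∣ B z ^ n`, exponent from `11`) and
  `x³ = A y ^ n + B z ^ n` with them among `3, q` for `q = 5, 7` (`27 ∣ B z ^ n`, from `5`),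
  `x` prime to `B z ^ n`: no solution; so no square is `± q ^ b ± 2 ^ a`, `a ≥ 6`, and no cube
  `± q ^ b ± 3 ^ a`, `a ≥ 3`.
* `progression_two_ne_pow`, `progression_three_ne_pow_five`, `progression_three_ne_pow`,
  `progression_four_ne_pow`, `progression_five_ne_pow`: for `gcd (x, d) = 1` and `d ≠ 0` with
  primes among `2, q` the product of two, three or four terms of the progression from `x` with
  difference `d` is no nonzero `n`-th power for `n` with a prime factor `p ≥ 11`: two terms for
  `q = 3, 5, 11, 13, 19` and `d` odd or `16 ∣ d`, three for `q ≤ 19`, `q ≠ p` and `d` odd or
  `4 ∣ d` (`8` for `q = 17, 19`; from `p ≥ 5` for `q = 3, 5`), four for `q = 3, 5, 11, 13, 19`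
  and `d` odd or `4 ∣ d`; five terms for `q = 3` from `p ≥ 5`.
* `asymptotic_lowering`, `fermatEquation_asymptotic`, `squareEquation_asymptotic`,
  `cubeEquation_asymptotic`, `cubeEquation_thirtyThree`, `cube_ne_eleven_pow_add_three_pow`:
  Mazur's asymptotic criterion for every modulus `M`: the three equations with the primes of the
  coefficients dividing `M` have no solution for `n` with a large prime factor, IF no eigenform of
  level dividing `M` has all eigenvalues `a_l`, `l` prime to `M`, integers within Hasse's bound
  with `l + 1 - a_l` divisible by `4`, `2`, `3` (a hypothesis; true at `M = 22, 26` by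
  `asymptotic_criterion_twentyTwo`, and at `M = 33` for cubes, hence a theorem there).
* `hecke_eigenvalue_conjugates`, `krausBound`, `fermatEquation_kraus`, `squareEquation_kraus`,
  `cubeEquation_kraus`: conjugates of Hecke eigenvalues are eigenvalues below `l + 1`, so the
  criterion is explicit: separation at primes `≤ L` gives every `p ≥ 11` above `(2 L + 2) ^ d`.
* `cubeEquation_thirtyThree_seven`: `x³ = A y ^ n + B z ^ n`, primes `3, 11`, from exponent `7` on.
* `qCoeff_two_level_twentyThree`, `discriminant_twentyThree`,
  `no_semistable_conductor_twentyThree`: level `23` eigenforms have `a₂² + a₂ - 1 = 0`; no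
  semistable discriminant is `± 23 ^ k t ^ p`, `p ≥ 13`, and no semistable conductor is `23`.
* `cubeEquation_five`, `cube_sub_pow_ne_three_pow_five`: exponents with a prime factor at least
  `5`; false for the square equation.
* `squareEquation_seven`, `cubeEquation_seven`, `sq_add_two_pow_ne_pow_seven`,
  `cube_sub_pow_ne_three_pow_seven`: exponents with a prime factor at least `7`.
* `ribetEquation_all`, `serreEquation_all`, `squareEquation`, `squareEquation_general`,
  `quarticDifference`, `cubeEquation`, `sq_add_two_pow_ne_pow`, `cube_sub_pow_ne_three_pow`,
  `sq_add_sUnit_ne_pow`, `cube_add_sUnit_ne_pow`,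
  `sq_sub_one_ne_two_pow_mul_pow`, `mul_succ_ne_two_pow_mul_pow`,
  `sq_sub_quartic_ne_two_pow_mul_pow`.
* `sq_sub_one_ne_sUnit_mul_pow`, `mul_succ_ne_sUnit_mul_pow`, `four_consecutive_ne_sUnit_mul_pow`,
  `three_consecutive_ne_two_pow_mul_pow`: the same with S-unit or `2`-power coefficients.
* `erdos_rigge`, `erdos_rigge_prod`, `factorial_div_not_square`,
  `four_consecutive_not_perfect_power`: the theorem of Erdős and Rigge, no product of `k ≥ 2`
  consecutive positive integers is a square; four never multiply to any perfect power.
* `five_consecutive_not_perfect_power`, `erdos_selfridge_le_five`, `three_cubes_sum_ne_pow`,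
  `pyramidal_ne_even_pow`, `two_pow_mul_pow_add_unit_ne_pow`: Erdős–Selfridge for at most five
  terms, every exponent; by Frey curves no sum of three consecutive cubes with even middle, no
  square pyramidal number and no `2^a q^b ± 1` (`q = 3, 5`, `a ≥ 4`) is such a power (of an even
  number for pyramidal ones) for exponents with a prime factor at least `5`.
* `erdos_selfridge`, `erdos_selfridge_int`, `factorial_div_not_perfect_power`: the theorem of
  Erdős and Selfridge in full: no product of two or more consecutive positive integers is a
  perfect power, so no `n! / m!` with `m + 2 ≤ n` is one.
* `sylvester_schur`, `sylvester_schur_consecutive`, `choose_not_isPrimePow`,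
  `schur_exp_irreducible`: `n.choose k` has a prime factor above `k` for `1 ≤ k`, `2 k ≤ n` and is
  no prime power for `2 ≤ k ≤ n - 2`; the truncated exponentials are irreducible over `ℚ`.
* `schur_exp_galois`, `schur_exp_galois_card`, `symmetric_group_isGalois`,
  `alternating_group_isGalois`, `jordan_prime_cycle`: Schur's theorem that the Galois group of the
  truncated exponential of degree `n` is `Aₙ` for `4 ∣ n` and `Sₙ` otherwise, so these are Galois
  groups over `ℚ`; Jordan's theorem on primitive groups with a cycle of prime length `≤ n - 3`.
* `two_pow_mul_three_pow_add_one_eq_pow_iff`, `two_pow_mul_three_pow_eq_pow_add_one_iff`,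
  `two_pow_add_three_pow_ne_pow`: the perfect powers above `1` next to `3`-smooth numbers are
  `4, 8, 9, 25, 49, 289`; `2^a ± 3^b` is no `n`th power for `n` with a prime factor `≥ 5` when
  `a ≥ 4` or (`b ≥ 3`, `3 ∣ a`), which leaves out the units `3 - 2`, `4 - 3`, `9 - 8`.
* `choose_two_ne_sUnit_mul_pow`, `choose_four_ne_sUnit_mul_pow`, `four_consecutive_ne_pow`,
  `three_consecutive_ne_pow`: consecutive products and binomial coefficients.
* `FA.Hilbert10.rePred_iff_dioph`, `FA.Hilbert10.rePred_iff_exists_equation`,
  `FA.Hilbert10.hilbert_tenth_unsolvable`, `FA.Hilbert10.exists_prime_polynomial`
  (`SummaryHilbertTenth`): the recursively enumerable sets are the Diophantine ones (MRDP), so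
  Hilbert's tenth problem is unsolvable over `ℤ`; a polynomial whose positive values at natural
  arguments are exactly the primes.
* `FA.Hilbert10.universal_diophantine_equation`, `FA.Hilbert10.diophantine_incompleteness`,
  `FA.Hilbert10.hilbert_tenth_quartic`, `FA.Hilbert10.no_computable_solution_bound`
  (`SummaryUniversalEquation`): one quartic equation enumerates every recursively enumerable set;
  its diagonal has unsolvable parameters missed by every sound enumeration, an undecidable
  solvability problem, and solutions with no computable bound.
* `FA.Hilbert10.int_diophantine_quadratic`, `FA.Hilbert10.hilbert_tenth_quadratic`,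
  `FA.Hilbert10.hilbert_tenth_imaginary_quadratic`, `FA.Hilbert10.hilbert_tenth_gaussianInt`
  (`SummaryHilbertTenthQuadratic`): Denef's theorem, `ℤ` is Diophantine in the Gaussian integers and in
  the integers of every imaginary quadratic field, by the Pell conic `x² - 3 y² = 1`, so Hilbert's
  tenth problem is unsolvable there.
* `poonen_integers_forall_exists`, `poonen_integers_traces`, `robinson_int_definable`,
  `robinson_nat_definable`, `robinson_rePred_definable`, `robinson_rat_theory_undecidable`
  (`SummaryRobinson`): Julia Robinson's theorem by Poonen's formula, one equation with two
  universal parameters cuts `ℤ` out of `ℚ`, so every recursively enumerable set of natural numbers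
  is definable in the field `ℚ` and its first-order theory is undecidable.
* `koenigsmann_nonintegers_diophantine`, `koenigsmann_integers_universal`,
  `koenigsmann_universal_formula`, `koenigsmann_two_integral`, `koenigsmann_trace_sums`
  (`SummaryKoenigsmann`): Koenigsmann's theorem, `ℚ \ ℤ` is Diophantine over `ℚ`, so `ℤ` is defined
  there by a purely universal formula; trace sums of norm one cut out the semilocal rings of the
  ramified primes and `2 + 7 x²` being a sum of three squares the localisation at `2`.
* `tate_k2_rat`, `tate_k2_rat_universal`, `tate_dyadic_product_formula`,
  `tate_quadratic_reciprocity`, `steinberg_finiteField_trivial` (`SummaryTateK2`): Tate's theorem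
  `K₂ ℚ ≅ {±1} ⊕ ⨁_q 𝔽_qˣ` by the real and tame symbols, in Matsumoto's presentation, with the
  factorisation of every Steinberg symbol on `ℚ`; from it the product formula for the Hilbert symbol
  at `2` and quadratic reciprocity by Tate's method; `K₂` of a finite field is trivial.
* `witt_presentation`, `witt_group_rat`, `witt_group_prime`, `witt_rational_classification`
  (`SummaryWittRat`): the Witt group by generators and relations classifies forms of a given rank;
  Milnor's theorem `W(ℚ) ≅ ℤ ⊕ ⨁_p W(𝔽_p)` by the signature and the second residues, with
  `W(𝔽_p)` being `ℤ/2`, `(ℤ/2)²`, `ℤ/4`; rational forms are classified by these invariants.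
* `quaternion_steinberg`, `merkurjev_rat`, `merkurjev_rat_single`, `k2_rat_single_symbol`,
  `quaternion_rat_iso_iff` (`SummaryMerkurjevRat`): quaternion algebras give a Steinberg symbol
  into the Brauer group of every field of characteristic zero; Merkurjev's theorem over `ℚ`, the
  isomorphism `K₂ ℚ / 2 ≅ Br(ℚ)[2]`, with every element one symbol; rational quaternion algebras
  are classified by the real symbol and the Legendre symbols of the tame symbols.
* `milnorK_finiteField`, `bass_tate_milnorK_rat`, `fundamental_ideal_rat`,
  `milnor_conjecture_rat_high` (`SummaryMilnorKRat`): Milnor K-groups by generators and relations;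
  `K_n` of finite fields vanishes for `n ≥ 2`; the theorem of Bass and Tate `K_n ℚ ≅ ℤ/2` for
  `n ≥ 3`; `I ^ n (ℚ)` is `2 ^ n ℤ` and `K_n ℚ ≅ I ^ n / I ^ (n + 1)` in these degrees (Milnor).
* `milnor_conjecture_zero`, `milnor_conjecture_rat`, `e_two_rat`,
  `rational_forms_hasse_classification` (`SummaryMilnorConjectureRat`): Milnor's conjecture
  `K_n ℚ / 2 ≅ I ^ n / I ^ (n + 1)` by the Pfister forms, in every degree; the invariant `e₂`
  identifies `I² / I³` with `Br(ℚ)[2]`; rational forms are classified by rank, signature,
  discriminant and Hasse invariant.
* `subform_theorem`, `hyperbolic_function_field_subform`, `arason_pfister_hauptsatz`,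
  `witt_krull_intersection`, `isometric_of_congruent`, `witt_pfister_local_global`,
  `witt_torsion_two_primary`, `artin_schreier_ordering` (`SummaryQuadraticHauptsatz`): over every
  field of characteristic not two, the subform theorem of Cassels and Pfister; forms hyperbolic
  over the function field of a form contain a multiple of it; the Hauptsatz of Arason and Pfister,
  an anisotropic form in `I ^ n` has at least `2 ^ n` variables; so `⋂ I ^ n = 0`; Pfister's
  local-global principle: torsion in the Witt group is `2`-primary and is the vanishing of all
  signatures; a field has an ordering unless `-1` is a sum of squares.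
* `milnor_k2_ratFunc`, `milnor_k2_ratFunc_finite`, `tame_symbol_canonical`,
  `weil_reciprocity_ratFunc`, `polynomial_norm_reciprocity`, `polynomial_quadratic_reciprocity`
  (`SummaryFunctionFieldMilnor`): for every field `k` Milnor's split exact sequence
  `K₂ k → K₂ k(t) → ⨁_P (k[t]/P)ˣ` by the canonical tame symbols, so `K₂` of `𝔽_q(t)`; Weil
  reciprocity with the place at infinity; reciprocity for polynomials over finite fields.
* `milnor_witt_ratFunc`, `witt_second_residue`, `ratFunc_forms_classification`
  (`SummaryFunctionFieldMilnor`): Milnor's split exact sequence of Witt groups
  `W k → W k(t) → ⨁_P W (k[t]/P)`; forms over `k(t)` are classified by their residues.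
* `hilbert_seventeenth`, `hilbert_seventeenth_rational`, `hilbert_seventeenth_rat`,
  `motzkin_not_sum_sq`, `artin_lang` (`SummaryHilbertSeventeen`): Artin's answer to Hilbert's
  seventeenth question, a polynomial or rational function over `ℝ` or `ℚ` is nowhere negative
  exactly when it is a sum of squares of rational functions; Motzkin's polynomial is nowhere
  negative and no sum of squares of polynomials; the homomorphism theorem of Artin and Lang.
* `hilbert_seventeenth_pfister`, `pythagoras_number_rational_functions`,
  `hilbert_seventeenth_real_closed`, `real_closed_intermediate_value`
  (`SummaryHilbertSeventeen`): Pfister's bound of `2 ^ n` squares in `ℝ(X₁, …, Xₙ)`; Artin's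
  theorem with this bound over every real closed field, whose extension by `√-1` is algebraically
  closed and which are the ordered fields with intermediate values of polynomials.
* `tarski_seidenberg`, `semialgebraic_image`, `semialgebraic_ominimal`,
  `tarski_quantifier_elimination`, `tarski_principle`, `real_closed_theory_complete`,
  `real_closed_theory_models`, `definable_semialgebraic`, `nat_not_definable_real`
  (`SummaryTarskiSeidenberg`): projections and polynomial images of semialgebraic sets are
  semialgebraic; formulas reduce to sign conditions, uniformly in all real closed fields, whose
  theory is complete; `ℕ` is not definable in the real field.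
* `krivine_stengle_positivstellensatz`, `stengle_nichtnegativstellensatz`, `real_nullstellensatz`
  (`SummaryTarskiSeidenberg`): over a real closed field the Positivstellensatz, its nonnegative
  form and the real Nullstellensatz.
* `putinar_positivstellensatz`, `schmudgen_positivstellensatz`,
  `basicSet_compact_iff_archimedean`, `schmudgen_needs_positivity`, `polya_positive_forms`
  (`SummaryPutinarPositivity`): positivity certificates without denominators after Putinar,
  Schmüdgen and Pólya; nonnegativity does not suffice.
* `FA.RealClosure.Summary.realClosure_exists`, `FA.RealClosure.Summary.realClosure_universal`,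
  `FA.RealClosure.Summary.realClosure_unique`, `FA.RealClosure.Summary.ordering_embedding`,
  `FA.RealClosure.Summary.orderings_card`, `FA.RealClosure.Summary.numberField_orderings`,
  `FA.RealClosure.Summary.realAlgebraic_realClosure`
  (`SummaryRealClosure`): every ordered field has a real closure, unique up to a unique
  isomorphism; orderings of a finite extension are counted by roots, those of a number field are
  its real places.
* `FA.RealClosure.Summary.sturm_theorem`, `FA.RealClosure.Summary.sturm_root_count`,
  `FA.RealClosure.Summary.orderings_card_sturm`
  (`SummaryRealClosure`): Sturm's theorem over every real closed field; the number of roots, and of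
  orderings of a finite extension, from sign variations computed in the ordered ground field.
* `semialgebraic_growth`, `lojasiewicz_inequality`, `lojasiewicz_distance`,
  `semialgebraic_holder`, `semialgebraic_at_infinity`, `exp_log_sin_not_semialgebraic`
  (`SummaryLojasiewicz`, names in `FA.Lojasiewicz.Summary`): the inequality of Łojasiewicz and
  its distance and Hölder forms; semialgebraic functions grow at most like a power, so `exp`,
  `log`, `sin` are none.
* `semialgebraic_monotonicity`, `semialgebraic_eventually_monotone` (`SummaryLojasiewicz`, names in
  `FA.Lojasiewicz.Summary`): between finitely many points a semialgebraic function is continuous,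
  and strictly monotone or constant.
* `hermite_sylvester`, `sylvester_scharlau`, `trace_form_counts_orderings`,
  `number_field_trace_form` (`SummaryTraceSignature`, names in `FA.TraceSignature.Summary`):
  signatures of trace forms count roots in a real closed field and orderings of finite extensions;
  over `ℚ` they are `(r₁ + r₂, r₂)`.
* `hilbert_1888`, `hilbert_1888_polynomial`, `ternary_quartic_sum_of_squares`,
  `psd_quadratic_form_sum_of_squares`, `psd_binary_form_two_squares`,
  `nonneg_polynomial_two_squares`, `motzkin_sextic`, `choi_lam_quartic` (`SummaryHilbertPsdSos`,
  names in `FA.HilbertPsdSos.Summary`): psd forms are all sums of squares just for binary forms,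
  quadratic forms and ternary quartics.
* `quillen_suslin`, `unimodular_row_completion`, `horrocks_rows`, `patching_rows`,
  `finite_free_resolution`, `finite_free_resolution_polynomial` (`SummaryQuillenSuslin`, names in
  `FA.QuillenSuslin.Summary`): finitely generated projective modules over polynomial rings over a
  field are free.
* `newton_puiseux`, `newton_puiseux_root`, `hensel_factorisation`, `puiseux_algebraically_closed`,
  `puiseux_algebraic_closure`, `laurent_extensions_cyclic`, `laurent_extensions_unique`,
  `laurent_extension_exists` (`SummaryNewtonPuiseux`, names in `FA.NewtonPuiseux.Summary`): Puiseux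
  series close `K((t))` algebraically; one cyclic extension of each degree.
* `brauer_forms`, `brauer_padic_subspace`, `brauer_padic_zero`, `padic_diagonal_zero`,
  `diagonal_criterion` (`SummaryBrauerForms`, names in `FA.BrauerForms.Summary`): systems of
  `p`-adic forms in many variables vanish on subspaces of any dimension.
* `lang_laurent_forms`, `lang_laurent_finite_extension`, `laurent_quadratic_isotropic`,
  `terjanian_quartic`, `padic_not_C2` (`SummaryLocalForms`, names in `FA.LocalForms.Summary`):
  Artin's conjecture holds for forms over `k((t))`, `k` finite (Lang), and fails over `ℚ_[2]`
  (Terjanian's quartic form in eighteen variables).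
* `ax_kochen`, `ax_kochen_form`, `ax_kochen_transfer`, `ake_embedding`,
  `ake_elementary_equivalence` (`SummaryAxKochen`, names in `FA.AxKochen.Summary`): for given
  degrees and all large `p`, forms in more than `∑ dᵢ²` variables have zeros over `ℚ_[p]`; the
  transfer principle between `ℚ_[p]` and `𝔽_p((t))`, by the Ax–Kochen–Ershov embedding lemma.
* `ax_differential`, `ax_power_series`, `functional_lindemann_weierstrass`,
  `log_derivatives_not_exact` (`SummaryAxSchanuel`, names in `FA.AxSchanuel.Summary`): Ax's theorem,
  Schanuel's conjecture for differential fields and power series.
* `liouville_theorem`, `exp_square_not_elementary`, `exp_square_witness`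
  (`SummaryElementaryIntegration`, names in `FA.ElementaryIntegration.Summary`): Liouville's
  theorem on integration in finite terms; `e^(x²)` has no elementary antiderivative.
* `riccati_of_liouvillian`, `no_liouvillian_solution`, `airy_not_liouvillian`, `airy_series`
  (`SummaryLiouvillian`, names in `FA.Liouvillian.Summary`): Liouville's Riccati criterion; Airy's
  equation and `y'' = p(x) y`, `p` of odd degree, have no Liouvillian solution.
* `polya_carlson`, `szego_finitely_many_values`, `natural_boundary_primes`
  (`SummaryPolyaCarlson`, names in `FA.PolyaCarlson.Summary`): integral power series are rational or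
  have the unit circle as natural boundary; Szegő's theorem; the series of the primes.
* `FA.PolyaRationality.Summary.polya_rationality`, `polya_segment`, `polya_disc`,
  `polya_sharp_segment`, `polya_sharp_disc`, `polya_rationality_of_finite_conjugates`
  (`SummaryPolyaRationality`): Pólya's capacity criterion: an integral series at infinity of a
  function holomorphic off a compact set of Chebyshev constant below one is rational; exact for
  segments of length four and discs of radius one.
* `FA.Bertrandias.Summary.bertrandias_rationality`, `borel_dwork`, `borel_1894`,
  `bertrandias_sharp`, `polya_converse`, `polya_iff` (`SummaryBertrandias`): rationality from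
  local radii of meromorphy with product of capacities below one, Borel's theorem of 1894, and
  the converse of Pólya's criterion for symmetric compact sets.
* `FA.AndreAlgebraicity.Summary.andre_algebraicity`, `andre_algebraicity_integral`,
  `continuation_through_disc`, `algebraicity_sharp`, `algebraicity_centralBinom`
  (`SummaryAlgebraicityCriterion`): the criterion of D. and G. Chudnovsky and of André: a series
  uniformised with product of radii above one is algebraic; exact for `∑ x ^ (2 ^ j)`.
* `FA.KroneckerHonda.Summary.kronecker_honda`, `pcurvature_zero_iff_solution_mod`,
  `honda_algebraic_solution`, `formal_solution_exists`, `pcurvature_exp`, `pcurvature_invSqrt`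
  (`SummaryKroneckerHonda`): the conjecture of Grothendieck and Katz in rank one over `ℚ(x)`:
  `y' = (P / Q) y` has algebraic solutions iff almost all its `p`-curvatures vanish.
* `katz_regular_singular`, `katz_rational_exponents`, `nilpotent_pcurvature_mod`,
  `not_globally_nilpotent_airy` (`SummaryGlobalNilpotence`, names in
  `FA.GlobalNilpotence.Summary`): the theorem of Katz for scalar equations over `ℚ(x)`: nilpotent
  `p`-curvature for almost all `p` gives regular singularities with rational exponents.
* `chudnovsky_galochkin`, `galochkin_global_nilpotence`, `katz_density`,
  `gfunction_minimal_operator`, `exp_not_gfunction`, `airy_not_gfunction` (`SummaryGFunctions`,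
  names in `FA.GFunctions.Summary`): Chudnovsky's theorem on G-functions; the minimal equation of
  a G-function has only regular singularities and rational exponents (André, Chudnovsky, Katz).
* `gfunction_values_independent`, `gfunction_linear_form_measure`, `log_irrational`,
  `log_irrationality_measure` (`SummaryGFunctionValues`, names in `FA.GFunctionValues.Summary`):
  values of G-functions at rationals near `0` are linearly independent, with measure `m - 1 + ε`
  at `1 / q` (Siegel, Bombieri, Chudnovsky); `log (1 + 1 / q)` has exponent at most `2 + ε`.
* `andre_operator`, `efunction_zero_singular`, `beukers_linear_lifting`,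
  `beukers_polynomial_lifting`, `exp_rational_irrational` (`SummaryAndreEFunctions`, names in
  `FA.AndreEFunctions.Summary`): André's theorem that E-functions (strict sense, rational
  coefficients) have equations singular only at `0` and `∞`; Beukers' lifting of relations
  between their values at regular rational points.
* `beukers_polynomial_lifting_algebraic`, `beukers_linear_lifting_algebraic`,
  `siegel_shidlovskii_linear_algebraic`, `efunction_values_transcendental`,
  `efunctions_no_algebraic_relation_field`, `exp_algebraic_transcendental`
  (`SummaryBeukersTheorem`, names in `FA.BeukersTheorem.Summary`): Beukers' theorem that at a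
  nonzero regular algebraic point the relations over `ℚ̄` between values of E-functions (strict
  sense, rational coefficients) come from relations between the functions; linear independence
  and transcendence of the values; the field of the functions is regular over `ℚ̄(z)`.
* `efunction_exceptional_set_finite`, `efunction_derivatives_independent`,
  `efunction_integer_values_transcendental`, `efunction_algebraic_zeros_finite`,
  `efunction_polynomial_iff`, `efunction_exceptional_example` (`SummaryExceptionalValues`, names
  in `FA.ExceptionalValues.Summary`): an E-function with a linear differential equation which is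
  no polynomial has algebraic values at finitely many algebraic points only, so transcendental
  values at almost all integers and finitely many algebraic zeros; `(z - 1) exp z` has two.
* `van_der_waerden_permanent`, `permanent_uniform`, `regular_bipartite_matchings`,
  `latin_squares_lower_bound` (`SummaryPermanent`, names in `FA.Permanent.Summary`): van der
  Waerden's permanent conjecture by Gurvits' capacity proof, matchings and Latin squares.
* `chevalley_shephard_todd`, `invariants_polynomial_algEquiv`, `reflection_group_example`,
  `negation_invariants_not_polynomial` (`SummaryReflectionGroups`, names in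
  `FA.ReflectionGroups.Summary`): in characteristic zero the invariants of a finite group
  generated by pseudo-reflections form a polynomial algebra; those of `±1` on a plane do not.
* `FA.Molien.Summary.molien`, `…degrees_of_basic_invariants`, `…reflection_series`,
  `…negation_example` (`SummaryMolien`): Molien's theorem, and for a group generated by
  pseudo-reflections the product of the degrees is the order, the sum of `d - 1` the number of
  reflections (Shephard and Todd).
* `FA.SteinbergFixed.Summary.shephard_todd_iff`, `…independence_automatic`,
  `…steinberg_fixed_point`, `…free_off_mirrors` (`SummarySteinbergFixed`): `n` homogeneous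
  invariants generate all invariants iff the group is generated by pseudo-reflections, and then
  the stabiliser of any set of vectors is generated by its pseudo-reflections (Steinberg).
* `FA.Solomon.Summary.jacobian_product`, `…anti_invariants`, `…differentials_invariant`,
  `…invariant_forms` (`SummarySolomonForms`): for a reflection group the Jacobian of basic
  invariants is the product of the mirror forms, the anti-invariants are its invariant multiples,
  and the invariant differential forms have the free base `df_{S 1} ∧ … ∧ df_{S p}` (Solomon).
* `FA.Coinvariant.Summary.free_over_invariants`, `…coinvariant_dimension`,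
  `…coinvariant_regular` (`SummaryCoinvariant`): over the invariants of a reflection group the
  polynomials are free on `|G|` homogeneous elements, and the coinvariant algebra is the regular
  representation (Chevalley).
* `FA.CayleySylvester.Summary.gaussian_unimodal`, `…gaussian_symmetric`, `…hermite_reciprocity`,
  `…semi_invariant_dimension`, `…mem_invariants_iff`, `…cayley_sylvester`, `…cayley_sylvester_odd`,
  `…invariant_reciprocity`, `…discriminants_example` (`SummaryCayleySylvester`): the dimension of
  the `SL₂` invariants of binary forms, and the unimodality of Gaussian binomial coefficients.
* `FA.Gordan.Summary.gordan_finiteness`, `…semi_invariant_finiteness`, `…roberts`,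
  `…quadratic_invariants`, `…substSys_spec` (`SummaryGordan`): Gordan's theorem, the invariants and
  semi-invariants of a system of binary forms form finitely generated algebras; Roberts's theorem;
  the invariants of a quadratic form are the polynomials in its discriminant.
* `FA.Nullcone.Summary.hilbert_nullcone`, `…semistable_exists_invariant`, `…bracket_invariants`,
  `…quartic_example`, `…subst_spec` (`SummaryNullcone`): Hilbert's theorem on the nullcone of
  binary forms, all invariants without constant term vanish exactly at the forms with a linear
  factor of multiplicity above half the degree; symmetrised regular bracket products are invariants.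
* `FA.QuarticInvariants.Summary.quartic_invariants`, `…quartic_invariants_independent`,
  `…quartic_discriminant`, `…quartic_nullcone`, `…subst_spec` (`SummaryQuarticInvariants`): the
  `SL₂` invariants of a binary quartic are the polynomials in the independent `I`, `J`; `4 I³ = J²`
  at the quartics with a repeated root, `I = J = 0` at those with a triple root.
* `FA.Weitzenboeck.Summary.weitzenboeck`, `…additive_group_invariants`, `…unipotent_invariants`,
  `…jordan_chains`, `…two_by_two` (`SummaryWeitzenboeck`): Weitzenböck's theorem, the constants of a
  nilpotent linear derivation form a finitely generated algebra; so do the invariants of a linear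
  action of the additive group and those of one unipotent matrix.
* `chebotarev_minor_ne_zero`, `sparse_polynomial_unity_roots_lt`, `tao_uncertainty`,
  `tao_uncertainty_converse`, `tao_uncertainty_fails_four` (`SummaryChebotarevMinors`, names in
  `FA.ChebotarevMinors.Summary`): every minor of the matrix of `p`th roots of unity is nonzero;
  supports of a function on `ℤ/p` and of its Fourier transform total at least `p + 1`, sharply.
* `jung_van_der_kulk`, `jacobian_of_automorphism`, `coordinate_axis_degrees`
  (`SummaryJungVanDerKulk`, names in `FA.JungVanDerKulk.Summary`): in characteristic zero every
  automorphism of `k[X, Y]` is a composite of affine and elementary ones.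
* `jacobson_commutativity`, `amitsur_levitzki`, `amitsur_levitzki_sharp`
  (`SummaryRingIdentities`, names in `FA.RingIdentities.Summary`): rings with `xⁿ = x` are
  commutative; `n × n` matrices satisfy the standard identity of degree `2n` but not that of
  degree `2n - 1`.
* `polynomial_identity_multilinear`, `kaplansky`, `kaplansky_divisionRing` (`SummaryKaplanskyPI`,
  names in `FA.KaplanskyPI.Summary`): a primitive algebra with a polynomial identity of degree `d`
  is simple, of dimension at most `(d / 2)²` over its centre.
* `FA.Regev.Summary.latyshev_count`, `…codimension_bound`, `…regev`, `…regev_pi`, `…matrices_pi`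
  (`SummaryRegev`): Regev's theorem: tensor products of algebras over a field with polynomial
  identities have polynomial identities, as the codimensions are at most `(d - 1) ^ (2 n)` by
  Latyshev's count of permutations without decreasing subsequences of length `d`.
* `FA.Shirshov.Summary.shirshov_height`, `…pi_height`, `…berele`, `…short_integral_finite`,
  `…kurosh_pi`, `…nil_pi_nilpotent` (`SummaryShirshov`): Shirshov's height theorem; algebras with
  a polynomial identity have polynomial growth (Berele), and if finitely generated and algebraic
  they are finite dimensional (the Kurosh problem; false without an identity by Golod).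
* `FA.Posner.Summary.razmyslov_central`, `…nil_ideal_bot`, `…amitsur_semiprimitive`, `…rowen`,
  `…posner_center_domain`, `…posner` (`SummaryPosner`): Razmyslov's multilinear central polynomial
  of matrices; semiprime algebras with a polynomial identity have no nil one-sided ideals (so `R[X]`
  is semiprimitive, by Amitsur) and their ideals meet the centre (Rowen); Posner's theorem: prime
  ones become central simple of dimension at most `(d / 2) ^ 2` on inverting the centre.
* `FA.ArtinProcesi.Summary.capelli_cayley`, `…artin_procesi`, `…simple_quotient`,
  `…no_smaller_quotient_iff`, `…prime_generic_azumaya` (`SummaryArtinProcesi`): the Artin–Procesi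
  theorem over any field: an algebra with the multilinear identities of `n × n` matrices and no
  quotient with those of smaller ones is Azumaya over its centre, with simple quotients of dimension
  `n ^ 2`; prime algebras with an identity become Azumaya on inverting one central element.
* `ritt_exists_decomposition`, `ritt_first_theorem`, `engstrom`, `ritt_order_not_invariant`
  (`SummaryRittDecomposition`, names in `FA.RittDecomposition.Summary`): in characteristic zero
  complete decompositions of a polynomial have equal length and the same multiset of degrees;
  right components have greatest common and least common multiple components.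
* `birkhoff_grothendieck_exists`, `birkhoff_grothendieck_unique`, `splitting_type_existsUnique`
  (`SummaryBirkhoffFactorisation`, names in `FA.BirkhoffFactorisation.Summary`): an invertible
  matrix over `k[t, t⁻¹]` is `P(t) · diag(t ^ dᵢ) · Q(t⁻¹)` with unique exponents.
* `abhyankar_moh`, `embedded_line_rectifiable` (`SummaryAbhyankarMoh`, names in
  `FA.AbhyankarMoh.Summary`): the Abhyankar–Moh epimorphism theorem in
  characteristic zero. Of two generators of `K[t]` one degree divides the other, and an embedded
  line in the plane is carried to an axis by an automorphism of the plane.
* `hasse_arf`, `hasse_arf_lower`, `sen_congruence`, `upper_numbering_eq_lower`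
  (`SummaryHasseArf`, names in `FA.HasseArf.Summary`): the jumps of the upper ramification
  numbering of a finite abelian group of automorphisms of a discretely valued field with perfect
  residue field are integers, by Sen's congruence and Herbrand's lemma.
* `artin_conductor_integer`, `herbrand_lemma` (`SummaryArtinConductor`, names in
  `FA.ArtinConductor.Summary`): Artin's theorem that the conductor of every complex representation
  of a finite group of automorphisms of a discretely valued field with perfect residue field is a
  nonnegative integer, from the theorem of Hasse and Arf and Brauer induction.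
* `serre_mass_formula`, `serre_mass_formula_padic`, `discriminant_exponent`, `krasner_lemma`
  (`SummarySerreMassFormula`, names in `FA.SerreMassFormula.Summary`): the separable totally
  ramified extensions of degree `n` of a local field, weighted by `q ^ -(d - (n - 1))`, have
  total mass `n` (Serre's mass formula), in any characteristic and without completeness.
* `upper_numbering_quotient`, `lower_numbering_quotient`, `herbrand_phi_transitive`
  (`SummaryHerbrandQuotient`, names in `FA.HerbrandQuotient.Summary`): Herbrand's theorem,
  the upper numbering of ramification groups passes to quotients, for any finite group.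
* `ax_sen_tate`, `ax_sen_tate_complete`, `ax_sen_tate_padic`, `ax_approximation`
  (`SummaryAxSenTate`, names in `FA.AxSenTate.Summary`): the elements of the completed algebraic
  closure fixed by a Galois group form the completion of its fixed field; `ℂ_p ^ G = ℚ_p`.
* `auslander_buchsbaum`, `serre_regularity`, `regular_localization`,
  `regular_ring_of_regular_local` (`SummaryRegularLocalUFD`, names in
  `FA.RegularLocalUFD.Summary`): regular local rings are factorial, are characterised by finite
  projective dimension, and localise to regular local rings.
* `formally_smooth_over_perfect_field`, `coefficient_field`, `cohen_structure`,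
  `cohen_regular_power_series`, `cohen_structure_mixed`, `cohen_regular_unramified`
  (`SummaryCohenStructure`, names in `FA.CohenStructure.Summary`): Cohen's structure theorem for
  complete local rings, in equal characteristic and for perfect residue fields.
* `akizuki_lemma`, `krull_akizuki`, `integralClosure_isDedekindDomain` (`SummaryKrullAkizuki`,
  names in `FA.KrullAkizuki.Summary`): rings between a one-dimensional noetherian domain and a
  finite extension of its fraction field are noetherian; integral closures are Dedekind.
* `bernstein_functional_equation`, `gelfand_integral_analytic`, `gelfand_meromorphic_continuation`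
  (`SummaryBernstein`, names in `FA.Bernstein.Summary`): Bernstein's `b`-functions in
  characteristic zero; `∫ f ^ s φ` is meromorphic on `ℂ` for a polynomial `f ≥ 0`.
* `monomial_theorem`, `direct_summand`, `contracted_ideal`, `kunz_frobenius_flat`
  (`SummaryHochster`, names in `FA.Hochster.Summary`): Hochster's monomial and direct summand
  theorems in prime characteristic; Frobenius of a regular local ring is flat (Kunz).
* `lazard_cocycle_lemma`, `lazard_universal`, `lazard_ring_polynomial`,
  `lazard_universal_polynomial`, `formalGroup_of_logarithm` (`SummaryLazard`, names in
  `FA.Lazard.Summary`): the universal commutative formal group law of dimension one lives over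
  `ℤ[t₀, t₁, …]` (Lazard).
* `monsky_equidissection`, `equidissection_two` (`SummaryEquidissection`, names in
  `FA.Equidissection.Summary`): the square is not dissected into an odd number of triangles of
  equal area (Monsky), for arbitrary dissections.
* `lubin_tate_lemma`, `lubin_tate_law`, `lubin_tate_scalars`, `lubin_tate_independent`,
  `lubin_tate_multiplicative`, `hazewinkel_functional_equation`, `hazewinkel_integral_law`,
  `hazewinkel_padic` (`SummaryLubinTate`, names in `FA.LubinTate.Summary`): Lubin–Tate formal
  groups with their action of `O`; Hazewinkel's functional equation lemma.
* `lubin_tate_torsion_points`, `lubin_tate_galois_group`, `lubin_tate_totally_ramified`,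
  `lubin_tate_local_field`, `lubin_tate_padic` (`SummaryLubinTateTorsion`, names in
  `FA.LubinTate.Summary`): the torsion extensions of Lubin and Tate, totally ramified with group
  `(O / π ^ n)ˣ`.
* `coleman_norm_operator`, `lubin_tate_norm_units` (`SummaryLubinTateNorms`, names in
  `FA.LubinTate.Summary`): Coleman's norm operator; norms from the torsion fields lie in
  `⟨π⟩ × U ^ (n)`.
* `lubin_tate_norm_group`, `unramified_norm_group`, `lubin_tate_local_kronecker_weber`,
  `lubin_tate_maximal_abelian` (`SummaryLubinTateLocal`, names in `FA.LubinTate.Summary`): explicit
  local class field theory at the completions of number fields.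
* `lubin_tate_reciprocity_torsion`, `lubin_tate_reciprocity_roots`,
  `lubin_tate_reciprocity_unique`, `lubin_tate_field_independent`
  (`SummaryLubinTateReciprocity`, names in `FA.LubinTate.Summary`): the explicit reciprocity law,
  `π ^ j u` acts as `[u⁻¹]` on the torsion and as the `j`th power of Frobenius on roots of unity.
* `coleman_theorem`, `coleman_isomorphism`, `coleman_norm_values`, `coleman_tower_exists`
  (`SummaryColemanSeries`, names in `FA.Coleman.Summary`): Coleman's power series, norm compatible
  units in a Lubin–Tate tower are the values of exactly one series fixed by the norm operator.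
* `coleman_cyclotomic_units`, `coleman_zeta_moments`, `coleman_zeta_congruences`,
  `coleman_zeta_branches`, `coleman_zeta_kubota_leopoldt` (`SummaryColemanZeta`, names in
  `FA.Coleman.Summary`): the series of the cyclotomic units gives a measure on `ℤ_pˣ` with moments
  `(1 - a ^ (k + 1)) (1 - p ^ k) ζ (-k)`, at every prime, hence the `p`-adic zeta function.
* `coleman_norm_and_psi`, `coleman_series_of_units`, `coleman_map_characterisation`,
  `coleman_exact_sequence`, `coleman_map_cyclotomic`
  (`SummaryColemanSequence`, names in `FA.ColemanMap.Summary`): the map of Coleman from the norm
  compatible units of `ℚ_p (μ_(p^∞))` to the measures on `ℤ_pˣ`, with kernel `μ_(p-1) × ℤ_p`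
  and image the measures of total mass zero; the cyclotomic units go to the measures of zeta.
* `coleman_twist_sequence`, `coleman_twist_equivariant`, `coleman_cyclotomic_closure`,
  `coleman_quotient_iwasawa`, `coleman_generators`, `coleman_twist_zeta`
  (`SummaryColemanCyclotomicQuotient`, names in `FA.ColemanMap.Summary`): Iwasawa's theorem, the
  norm compatible local units modulo the closure of the cyclotomic units are the measures on
  `ℤ_pˣ` killing `x` modulo the ideal generated by the measures of zeta, equivariantly.
* `explicit_symbol_zeta`, `explicit_symbol_deep`, `explicit_symbol_exponent`,
  `explicit_symbol_check_three`, `explicit_symbol_check_two`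
  (`SummaryExplicitReciprocityDeep`, names in `FA.ExplicitLaw.Summary`): explicit `p ^ m`-th Hilbert
  symbols of `ℚ (μ_(p^m))` above `p`: the symbol with `ζ` from the norm, and the logarithmic
  derivative form deep above `p`, the signs checked at `p = 3` and `p = 2`.
* `explicit_reciprocity_law`, `explicit_reciprocity_class`, `explicit_law_artin_hasse`,
  `explicit_law_cyclotomic_units`, `explicit_law_norm_units`, `explicit_law_logarithm`,
  `explicit_reciprocity_law_padic_complex`
  (`SummaryExplicitReciprocityLaw`, names in `FA.ExplicitLaw.Summary`): the explicit reciprocity law
  of Artin, Hasse, Iwasawa and Wiles over `ℚ (μ_(p^n))` at `p`: for `g` fixed by the norm operator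
  `(x, g (ζ - 1)) = ζ ^ (- (1 / p ^ n) Tr (log x · (D log g) (ζ - 1)))`, with the two laws of Artin
  and Hasse, cyclotomic units and norm compatible units.
* `power_supplement_zeta`, `power_supplement_uniformizer`, `power_supplement_cyclotomic_units`,
  `power_supplement_prime`, `power_supplement_class`, `power_supplement_check`
  (`SummaryPowerSupplements`, names in `FA.ExplicitLaw.Summary`): the supplementary laws of Artin
  and Hasse for `q`-th power residue symbols in `ℚ (μ_q)`, `q = p ^ n > 2`:
  `(ζ / α) = ζ ^ ((N α - 1) / q)`, and the symbols of `1 - ζ ^ a`, of the cyclotomic units and of
  `p` as traces of `log α` to `ℚ_p`, the signs checked on `(ω / -2)` and `((ω - 1) / -2)`.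
* `primary_symbol_trivial`, `primary_reciprocity`, `primary_border_exponents`,
  `primary_reciprocity_border`, `primary_reciprocity_kummer`, `primary_reciprocity_cubic`,
  `primary_reciprocity_check`
  (`SummaryPrimaryReciprocity`, names in `FA.ExplicitLaw.Summary`): effective reciprocity in
  `ℚ (μ_q)`, `q = p ^ n`: the symbol above `p` is trivial on `U_i × U_j` for
  `i + j > n p ^ (n - 1) (p - 1) + p ^ (n - 1)`, so then `(α / β) = (β / α)`; for `q = p` odd the
  ratio on the border `i + j = p` is `ζ ^ (i a b)`; Kummer's law for primary numbers, and cubic
  reciprocity from it.
* `FA.Summary.kolyvagin_derivative_class`, `FA.Summary.kolyvagin_ord_away`,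
  `FA.Summary.kolyvagin_ord_at` (`SummaryKolyvaginEulerSystem`): Kolyvagin's Euler system of
  cyclotomic units over `ℚ(ζ_p)⁺` for an odd prime `ℓ` (`ℓ = p` allowed): the derivative classes
  `κ_T`, their uniqueness modulo `ℓ^k`-th powers, their divisors away from `T`, and the relation
  `ord_v κ_T = - log_v κ_(T minus r)` at the primes of `T`.
* `FA.Summary.kolyvagin_chebotarev` (`SummaryKolyvaginChebotarev`): over a totally real field in
  which some prime over the odd prime `ℓ` has ramification index prime to `ℓ`: a prime of degree
  one, `≡ 1 (mod ℓ^k)`, in a given class modulo `ℓ^k`-th powers, with prescribed discrete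
  logarithms up to a common unit (Kummer theory and Chebotarev).
* `FA.Summary.kolyvagin_bound`, `FA.Summary.gras_equality`, `FA.Summary.gras_component_trivial`
  (`SummaryKolyvaginGras`): Gras's conjecture for `ℚ(ζ_p)⁺`, `ℓ` odd prime to `(p - 1)/2` (`ℓ = p`
  allowed): in each component of `(ℤ/ℓ^k)[G]` the order of the `ℓ`-part of the class group is the
  index of the cyclotomic `p`-units in the `p`-units, by Kolyvagin's bound and Kummer's index
  theorem; a component of the classes is trivial iff its `p`-units are cyclotomic.
* `local_normalized_valuation`, `local_reciprocity_upper_numbering`, `local_reciprocity_inertia`,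
  `local_conductor_ramification`, `local_conductor_artin`, `lubin_tate_herbrand`
  (`SummaryLocalRamification`, names in `FA.LocalRamification.Summary`): over completions of number
  fields the reciprocity map carries `U ^ (⌈t⌉)` onto the upper ramification group `G ^ t`; the
  Artin conductor of a linear character is its local conductor.
* `kubertEquation_five`, `kubertEquation_seven`, `kubertEquation_nine`, `fib_five_mul_ne_pow`,
  `kubertEquation_examples`: Kubert's families as Frey curves. `u v (u² - 11 u v - v²)` and the
  forms of the points of order `7`, `9` are no `A w ^ n`, `n` with a prime factor `p ≥ 11`, the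
  primes of `A` dividing `M < 11` or `M = 13` (`11`, `26` occur; at `5`, `7`, `3` dividing `M` that
  prime must not divide the form); nor is the product of two neighbours of `F (5 k) / 5`.
* `exists_semistable_of_c₄_c₆`, `cube_sub_sq_ne`, `cube_sub_sq_ne_two_three`,
  `cube_sub_sq_ne_smooth`, `cube_sub_sq_ne_seven_thirteen`, `cube_sub_sq_example`: coprime `x`, `y`
  with `1728 ∣ x³ - y²` are `c₄`, `± c₆` of a semistable curve, so `x³ - y² ≠ 1728 A w ^ n` (`n`
  with a prime factor `p ≥ 11`, primes of `A` dividing `M < 11` or `M = 13`; level `14` occurs), and
  no coprime `x³ - y² = ± 2^a 3^b` (`a ≥ 6`, `b ≥ 3`) or `± 1728 ℓ^c` (`ℓ = 7, 13`).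
* `kubertEquation_five_levels`, `kubertEquation_seven_levels`, `kubertEquation_nine_levels`,
  `kubertEquation_levels_gaps`: these equations also at levels with cusp forms, by the traces at `2`
  or `3` against the eigenforms: `M = 14, 15, 17, 19, 21, 26` for order five, `11, 14, 15, 17, 19,
  21, 22, 33, 38` for seven, these and `26` for nine (for five `11` and `38` occur, for seven
  `26`).
* `asymptotic_lowering_curve`, `fermatEquation_asymptotic_curve`, `squareEquation_asymptotic_curve`,
  `cubeEquation_asymptotic_curve`: Mazur's criterion with curves: no solution for `n` with a large
  prime factor if no semistable curve good outside `M` has `l + 1 - a_l` always divisible by `4`,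
  `2`, `3`; `serre_mazur`, `serre_mazur_pure`, `serre_mazur_eleven_thirteen`,
  `exists_not_four_dvd_trace`, `serre_mazur_primes_infinite`: the theorem of Serre and Mazur: for
  an odd prime `q ≠ 2 ^ k ± 1` (infinitely many, `11` and `13` among them)
  `A x ^ n + B y ^ n + C z ^ n ≠ 0` with the primes of `A B C` among `2, q`, coprime terms and
  `16 ∣ C z ^ n`, and `x ^ n + y ^ n + q ^ α z ^ n ≠ 0` for every `α` and nonzero `x, y, z`, once
  `n` has a prime factor beyond a bound depending on `q`.
* `no_twoTorsion_of_twoPrimes`, `exists_odd_trace`, `ivorra_asymptotic`,
  `sq_pm_two_pow_mul_pow_ne_pow`, `ivorra_primes_infinite`: for a prime `q ≡ 3, 5 (mod 8)` no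
  semistable curve with bad primes among `2, q` has a rational point of order two, so (Ivorra,
  asymptotically) `x² = A y ^ n + B z ^ n` with the primes of `A B` among `2, q`, `x` odd and prime
  to `B z ^ n`, `64 ∣ B z ^ n` and `y z ≠ 0` has no solution, and `x² ± 2 ^ a q ^ b ≠ y ^ n`
  (`a ≥ 6`, `x` odd, `q ∤ x`), once `n` has a prime factor beyond a bound depending on `q`.
* `irreducible_three_of_twoPrimes`, `exists_not_three_dvd_trace`,
  `bennett_vatsal_yazdani_asymptotic`, `cube_pm_three_pow_mul_pow_ne_pow`,
  `bennett_vatsal_yazdani_primes_infinite`: for a prime `q ≡ 2, 4, 5, 7 (mod 9)` no semistable curve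
  with bad primes among `3, q` has reducible `3`-torsion, so (Bennett–Vatsal–Yazdani,
  asymptotically) `x³ = A y ^ n + B z ^ n` with the primes of `A B` among `3, q`, `x` prime to
  `B z ^ n`, `27 ∣ B z ^ n` and `y z ≠ 0` has no solution, and `x³ ± 3 ^ a q ^ b ≠ y ^ n`
  (`a ≥ 3`, `x` prime to `3 q`), once `n` has a prime factor beyond a bound depending on `q`.
* `fermat_sUnit_criterion`, `fermat_manyPrimes`, `fermat_manyPrimes_sets`, `fermat_fivePrimes`: the
  `S`-unit criterion of Kraus and Freitas–Siksek over `ℚ`: if no coprime `x + y + z = 0` with
  `16 ∣ z` is supported on `S ∪ {2}`, then `A x ^ n + B y ^ n + C z ^ n ≠ 0` (coefficients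
  supported there, coprime terms, `16 ∣ C z ^ n`) for `n` with a large prime factor. So for every
  finite set `S` of primes `≡ 1, 19 (mod 24)`, of any size: `x ^ n + y ^ n + L z ^ n ≠ 0` for
  nonzero `x, y, z` and every `L` with prime divisors in `S` (`19, 43, 67, 73, 97` for instance).
* `exists_four_dvd_curve_iff`, `exists_four_dvd_curve_prime_iff`, `serre_mazur_range`,
  `serre_mazur_range_examples`, `fermat_sUnit_pure`, `fermat_sUnit_even`, `fermat_even_cases`,
  `fermat_even_coprime_needed`: the `S`-unit hypothesis is exact: a semistable curve good outside
  `S ∪ {2}` with `4 ∣ l + 1 - a_l` exists iff a triple does, for `S = {q}` iff `q = 2 ^ k ± 1`,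
  `k ≥ 4`; so the theorem of Serre and Mazur holds for every other odd prime (`3, 5, 7` too), and
  with `16 ∣ L` for coprime `x, y`.
* `fermat_congruence_primes`, `fermat_one_mod_twelve`, `torsion_one_mod_twelve`,
  `torsion_congruence_primes`, `fermat_one_mod_twelve_sets`, `congruence_family_needed`: the same
  for every finite set of primes `≡ 1 (mod 12)` (or all `1` modulo one odd prime with classes
  modulo `16` in a group without `-1`): `x ^ n + y ^ n + L z ^ n ≠ 0`, and a semistable curve with
  bad primes among these and `2` has torsion of order not divisible by four (`65 - 1 = 64` shows
  that some restriction is needed).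
* `asymptotic_lowering_curve_exact`, `fermat_sUnit_criterion_two`, `serre_mazur_range_five`,
  `serre_mazur_seventeen`, `fermat_no_small_factor`: beyond a bound the congruent curve has the same
  bad primes up to any `B`; so `x ^ n + y ^ n + q ^ α z ^ n ≠ 0` for every odd prime not `2 ^ k ± 1`
  with `k ≥ 5` (`17` included), and for every finite `S` a solution of
  `A x ^ n + B y ^ n + C z ^ n = 0` has no prime factor `≤ B` of `x y z` outside `S ∪ {2}` once `n`
  has a prime factor beyond a bound depending on `S` and `B`.
* `fermat_odd_coefficients`, `fermat_sUnit_rational`, `fermat_odd_coefficients_congruences`,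
  `fermat_odd_coefficients_twentyFour`, `fermat_odd_coefficients_single`, `fermat_seventeen_powers`,
  `fermat_odd_coefficients_needed`: for a finite set `S` of odd primes with no coprime triple
  `x + y + z = 0` on `S ∪ {2}` with `32 ∣ z`, no `A x ^ n + B y ^ n + C z ^ n = 0` with odd
  coefficients on `S` has a solution in nonzero integers, common factors allowed, and no
  `a X ^ n + b Y ^ n = 1` with odd `S`-units has a rational point with `X Y ≠ 0`, once `n` has a
  large prime factor; so for primes `≡ 1 (mod 12)`, `≡ 1, 19 (mod 24)`, and one prime not
  `2 ^ k ± 1`, `k ≥ 5`.
* `fermat_twoPow_coefficient`, `sUnit_sum_ne_pow`, `pow_add_pow_ne_pow_one_mod_twelve`,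
  `thirteen_thirtySeven_sixtyOne_ne_pow`, `fermat_almost_all_primes`: under the same hypothesis on
  `S`, `A x ^ n + B y ^ n + 2 ^ a C z ^ n ≠ 0` for `a = 0` or `5 ≤ a < n`, common factors allowed,
  and no sum or difference of two odd `S`-units is `2 ^ a w z ^ n`, `z ≠ 0`, once `n` has a large
  prime factor: so `b ^ i ± c ^ j` is no nonzero `n`-th power for bases with primes `≡ 1 (mod 12)`
  from a given finite set (`13 ^ i 37 ^ j ± 61 ^ k`); the single primes excluded have density zero
  among the primes.
* `kronecker_limit_formula`, `eta_height_invariant`, `jacobi_two_squares`, `epstein_gaussian`,
  `lemniscatic_lFunction_deriv`: the Epstein zeta function of `τ` minus `π / (s - 1)` tends to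
  `2 π (γ - log 2 - log (√y |η τ|²))`, so `√y |η τ|²` is modular invariant; with
  `r₂(n) = 4 ∑_{d ∣ n} χ₄ d` and `η(i)` this gives `L' (1, χ₄)` through `Γ (1/4)`.
* `schmidt_oscillation`, `psi_sign_changes`, `psi_oscillation_of_zero`,
  `zeta_zero_free_of_psi_bound`, `riemannHypothesis_of_psi_bound`: Schmidt's theorem that
  `ψ n - n` exceeds `c √n` and falls below `-c √n` infinitely often, so `ψ x - x` keeps changing
  sign; a zero of real part above `α` gives every `C n ^ α`, and so one-sided bounds
  `O (n ^ (1/2 + ε))` imply the Riemann hypothesis.
* `FA.VonKoch.Summary.riemannHypothesis_iff_psi`, `…riemannHypothesis_iff_primeCounting`,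
  `…riemannHypothesis_iff_mertens` (`SummaryVonKoch`): von Koch and Littlewood: the Riemann
  hypothesis is equivalent to each of `ψ x - x`, `π x - li x`, `∑_{n ≤ x} μ n` being
  `O (x ^ (1/2 + ε))`; likewise `FA.VonKoch.Summary.zeroFree_iff_psi`,
  `…zeroFree_iff_primeCounting`, `…zeroFree_iff_mertens` for every half-plane `re s > β`, and
  `…zeta_bounds_of_riemannHypothesis`: under it `ζ, 1/ζ = O (|t| ^ η)` right of the line.
* `gauss_circle_sierpinski`, `dirichlet_divisor_voronoi`: the theorems of Sierpiński and Voronoi,
  `π N + O (N^(1/3) log N)` lattice points with `x² + y² ≤ N` and
  `∑_{n ≤ N} d (n) = N log N + (2 γ - 1) N + O (N^(1/3) (log N)²)`, by Vinogradov's lemma.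
* `erdos_fuchs`, `erdos_fuchs_set`, `gauss_circle_lower_bound`, `gauss_circle_not_isBigO`: the
  theorem of Erdős and Fuchs, the representations `a + b` up to `N` differ from `c N` by more than
  `δ N ^ (1/4) / √(log N)` infinitely often; so do the lattice points with `x² + y² ≤ N` from
  `π N` (Hardy, Landau), and the error is no `O (N ^ θ)` with `θ < 1/4`.
* `lerch_formula`, `deriv_LFunction_zero_lerch`, `deriv_LFunction_one_odd`: Lerch's formula
  `ζ' (0, x) = log Γ x - log (2 π) / 2`, and with it `L' (0, χ)` and, for odd real primitive `χ`,
  `L' (1, χ)` through `log Γ (a / N)`.
* `chowla_selberg`: the formula of Chowla and Selberg; for an imaginary quadratic field of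
  discriminant `D` the product of `√y |η τ|²` over the reduced forms is
  `(4 π √|D|) ^ (-h/2) ∏ Γ (a / |D|) ^ (w χ a / 4)`, and `L (1, χ) = 2 π h / (w √|D|)`.
* `chowla_selberg_periods`: CM periods are Gamma products; with
  `Ω = π ^ (-1/2) ∏ Γ (a / |D|) ^ (w χ a / (4 h))` the values `Δ / Ω ^ 12`, `E₄ / Ω ^ 4`,
  `E₆ / Ω ^ 6`, `F / Ω ^ k` are algebraic on `K`, periods are algebraic multiples of `π Ω`, and
  `∏ Γ (a / |D|) ^ (w χ a) / π ^ (2 h)` is transcendental for every imaginary quadratic field.
* `kronecker_class_limit`: Kronecker's limit formula for the ideal classes of an imaginary
  quadratic field: the constant term of `ζ (s, C)`, `L (1, χ)` for class group characters through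
  `log (√y |η τ|²)`, and the nonsingular matrix of these logarithms on the nontrivial classes.
* `elliptic_units`, `stark_units` (Siegel, Novikov, Deuring): the numbers `(H C / H C')²⁴` for
  `H C = √y |η τ|²` on the classes of an imaginary quadratic field are units of rank `h - 1`;
  their logarithms are differences of partial zeta functions at `s = 1` (Stark's conjecture).
* `classL_transcendental`, `eulerKronecker_transcendental` (Murty–Murty): `√|D| L (1, χ) / π` is
  transcendental for every nontrivial class group character, and so are `exp (L'/L (1, χ_D) - γ)`
  and `exp (γ_K - 2 γ)`, both `2 / Ω²`, for the Euler–Kronecker constant `γ_K`.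
* `fermat_odd_no_small_factor`, `fermat_odd_auxiliary`, `fermat_odd_two_mul_prime`,
  `fermat_odd_exists_multiplier`, `fermat_odd_exists_exponent`, `fermat_odd_germain`: auxiliary
  primes on the congruent curve, for ALL odd `A, B, C`: no small prime outside `A B C` divides
  `x y z` in a primitive solution of `A x ^ n + B y ^ n + C z ^ n = 0` once `n` has a large prime
  factor `p`, so there is none in nonzero integers when `l - 1 ∣ n` for an odd prime
  `l ∤ A B C (A + B + C)` (`n = 2 p` if `3 ∤ A B C (A + B + C)`; some exponent `d` with all its
  multiples for every triple), nor when `2 p + 1` is prime (infinitude of such `p` not claimed).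
* `fermat_even_variable_no_small_factor`, `fermat_all_coefficients`, `fermat_all_exists_exponent`,
  `fermat_exists_exponent_iff`, `fermat_rational_exponent_iff`, `fermat_three_four_five`: for ALL
  nonzero integers `A, B, C` some exponent `n ≥ 1` makes `A x ^ n + B y ^ n + C z ^ n = 0` insoluble
  in nonzero integers exactly when `A + B + C ≠ 0`, and then every `n` divisible by `m p`, `p` any
  large prime; over `ℚ` some `a X ^ n + b Y ^ n = 1` has no point with `X Y ≠ 0` iff `a + b ≠ 1`
  (modularity and auxiliary primes, no Faltings).
* `fermat_uniform_exponent`, `fermat_uniform_points`, `fermat_noPoints_iff`, `sum_two_powers_small`: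
  for every `H` one exponent and its multiples serve all `A x ^ n + B y ^ n + C z ^ n = 0` with
  coefficients up to `H`, `A + B + C ≠ 0`: only the visible points with a zero coordinate. So some
  exponent leaves a diagonal curve no rational point iff none of `A + B + C`, `A + B`, `B + C`,
  `C + A` is zero, and the integers up to `H` that are sums of two rational `n`-th powers are then
  exactly `0, 1, 2` (differences: `0, ±1`).
* `split_polynomial_ne_pow`, `split_polynomial_ne_pow_iff`, `consecutive_ne_const_mul_pow_iff`,
  `sq_ne_sq_add_pow_iff`: for a finite set `R` of integers and `c ≠ 0` some exponent `n ≥ 1` (and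
  then all multiples of one) leaves `∏ (x - r) = c z ^ n` without solution `z ≠ 0` iff `c` is no
  value of the polynomial: so `x (x + 1) ⋯ (x + k - 1) = c z ^ n` iff `c` is no product of `k`
  consecutive integers, and `x ² = k ² + c z ^ n` iff `k ² + c` is no square (`k ≠ 0`).
* `superelliptic_prod_noPoints`, `superelliptic_split_noPoints`, `superelliptic_split_iff`,
  `fermatQuotient_coefficient_iff`, `sq_eq_sq_add_pow_rat_iff`, `progression_product_pow_rat_iff`:
  for every `f ∈ ℚ[X]` split over `ℚ` and `c ≠ 0` some exponent `n ≥ 1` (and then all multiples of
  one) leaves the curve `c y ^ n = f(x)` without rational point with `y ≠ 0` iff `c ∉ f(ℚ)`: so for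
  `x ^ i (x - 1) ^ j`, for `x ² - k ²` and for products of terms of progressions (no Faltings).
* `fermat_odd_exponent`, `fermat_odd_exponent_uniform`, `fermat_odd_exponent_noPoints_iff`,
  `sum_two_odd_powers_small`: odd exponents: for `A + B + C` odd and every `M` some odd `d` prime to
  `M` and all its multiples leave `A x ^ n + B y ^ n + C z ^ n = 0` without solution in nonzero
  integers, for all coefficients up to `H` at once; some odd exponent leaves the curve no rational
  point iff none of `A ± B`, `B ± C`, `C ± A` is zero; at such exponents the odd integers up to `H`
  that are sums of two rational `n`-th powers, signs allowed, are exactly `±1`.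
* `squareEquation_exponents`, `hyperelliptic_exponents`, `hyperelliptic_two_one`,
  `pell_two_ne_pow_exponents`, `not_two_adic_square`: signature `(n, n, 2)`: for coprime nonzero
  `A, B` with `A + B` no square in `ℚ₂` one exponent and all its multiples leave
  `x ² = A y ^ n + B z ^ n` without solution with `y z ≠ 0`, so the hyperelliptic curve
  `Y ² = A X ^ n + B` without rational point with `X ≠ 0` (`Y ² = 2 X ^ n + 1`: only `(0, ± 1)`).
* `cubeEquation_exponents`, `trigonal_exponents`, `binomialCurve_exponents`, `trigonal_one_two`,
  `not_three_adic_cube`: signature `(n, n, 3)`: for coprime nonzero `A, B` with `A + B` no cube in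
  `ℚ₃` one exponent and all its multiples leave `x ³ = A y ^ n + B z ^ n` without solution with
  `y z ≠ 0`; so `Y ^ k = A X ^ n + B` has no rational point with `X ≠ 0` when `3 ∣ k`, or when
  `2 ∣ k` and `A + B` is no square in `ℚ₂` (`Y ³ = X ^ n + 2`: none at all).
* `superelliptic_two_roots_noPoints`, `superelliptic_two_roots_iff`,
  `superelliptic_sq_sub_sq_mul_iff`, `superelliptic_quartic_three`: for every `f ∈ ℚ[X]` with two
  distinct rational roots, the cofactor arbitrary, and `c ≠ 0` some exponent `n ≥ 1` (and then all
  multiples of one) leaves the curve `c y ^ n = f(x)` without rational point with `y ≠ 0` iff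
  `c ∉ f(ℚ)`, so for `(x ² - k ²) h(x)`, every `h` (`x (x - 1) (x ² + 1) = 3 y ^ n`: none).
* `schaeffer_iff`, `schaeffer_ne_pow`, `sum_squares_ne_two_mul_pow`, `even_pow_eq_add_pow_iff`,
  `pow_sub_pow_iff`, `superelliptic_two_roots_uniform`, `ellipticCurve_yCoordinate_pow_iff`,
  `congruentCurve_yCoordinate`: with exact criteria along exponents: Schäffer's
  `1 ^ k + ⋯ + x ^ k = c y ^ n` for every `k ≥ 1`, `x ^ (2 m) = a ^ (2 m) + c y ^ n`,
  `x ^ i - x ^ j = c y ^ n`, one exponent for all `c` of bounded height, and `y`-coordinates
  `c w ^ n`, `w ≠ 0`, on elliptic curves with full rational two-torsion (none iff no point has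
  `y = c`).
* `fermatQuintic_hasse_failure`, `fermatSeptic_hasse_failure`, `twoPrime_diagonal_no_point`,
  `hasPoint_everywhere`: failures of the Hasse principle proved by modularity:
  `x⁵ + 27 y⁵ + 16 z⁵ = 0` (genus `6`) and `x⁷ + 81 y⁷ + 32 z⁷ = 0` (genus `15`) have points over
  `ℝ` and every `ℤ_q` (Weil's bound and witnesses) and none over `ℚ`; the rational part holds for
  every `x ^ p + 3 ^ i y ^ p + 2 ^ j z ^ p = 0` with `0 < i < p`, `4 ≤ j < p`, `p` prime.
* `superelliptic_two_roots_approx`, `superelliptic_sq_noPoints`, `superelliptic_hasse_failure`:
  along exponents a point of `c y ^ n = f(x)` (two rational roots) has `x` near some `t` with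
  `f(t) = c` at `2` or at a large prime; so the curves `234 y ^ n = (x² - 17) (x² - 34)`, `n` any
  multiple of one `d`, of unbounded genus, fail the Hasse principle: points over `ℝ` and every
  `ℤ_q`, none over `ℚ`, finite or at infinity.
* `pell_yCoordinate_noPoints`, `pell_yCoordinate_pow_iff`, `lucas_ne_pow`,
  `fib_even_ne_const_mul_pow_iff`, `polygonal_ne_const_mul_pow_iff`: along exponents no solution
  of `x² - D y² = k²` has `y = c w ^ n`, `w ≠ 0`, iff `D c² + k²` is no square; so no term of a
  Lucas sequence with `Q = 1` is `c w ^ n`, `w ≠ 0`, unless `(P² - 4) c² + 4` is a square; some
  exponent leaves `F (2 k) ≠ c w ^ n` for all `w ≠ 0` iff `c` is no such term; and for `s`-gonal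
  numbers, every `s ≥ 3`, also at rational arguments, iff `c` is no value of the `s`-gonal
  polynomial at a rational number.
* `rationalFunction_pow_iff`, `rationalFunction_pow_iff_equalDegree`,
  `sub_inv_ne_const_mul_pow_iff`, `consecutive_ratio_pow_iff`: for `φ = P / Q` with three rational
  points of `ℙ¹` among zeros and poles and `c ≠ 0` (no value `c` at infinity) some exponent leaves
  `c y ^ n = φ(x)` without rational solution, `y ≠ 0`, iff `c ∉ φ(ℚ)`: `x - 1 / x = c y ^ n` iff
  `c ² + 4` is no square, and ratios of blocks of consecutive terms.
* `j_twoTorsion_pow_iff`, `j_sub_1728_twoTorsion_pow_iff`, `j_threeIsogeny_pow_iff`,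
  `j_fullTwoTorsion_pow_iff`: powers among `j`-invariants: for elliptic curves over `ℚ` with a
  rational root of `Ψ₂Sq`, of `Ψ₃`, or with two of `Ψ₂Sq` some exponent leaves no `j = c w ^ n`
  iff no such curve has `j = c`; likewise for `j - 1728` with a rational root of `Ψ₂Sq`.
* `geomSum_sq_iff`, `repunit_isSquare_iff`, `fib_isSquare_iff`, `fib_two_mul_sq_iff`,
  `lucas_isSquare_iff`, `lucas_two_mul_sq_iff`, `fib_even_exponent_iff`, `five_quartic_add_four`,
  `five_quartic_sub_four`: the theorem of Ljunggren that `1 + x + ⋯ + x ^ (n - 1)`, `x ≥ 2`,
  `n ≥ 3`, is a square only for `(x, n) = (3, 5), (7, 4)`, so no decimal repunit above `1` is one;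
  Cohn's squares and twice squares among Fibonacci and Lucas numbers, hence the Fibonacci powers
  with even exponent and the solutions of `y² = 5 x⁴ ± 4`.
* `markov_iff_reach`, `markov_infinite`, `markov_one_iff`, `hurwitz_markov_iff`,
  `markov_one_coefficient_iff`, `markov_coprime`, `markov_number_divisors`,
  `markov_number_sum_two_squares`,
  `markov_unique_primePow`, `markov_169`, `markov_fibonacci_square`: Markov's tree of the solutions
  of `a² + b² + c² = 3 a b c` with its Fibonacci branch, Hurwitz's `k = 1, 3`, the primes of Markov
  numbers, and uniqueness of the triple below a largest entry `p ^ k` or `2 p ^ k` (Frobenius's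
  conjecture in that case only).
* `exists_common_zero_ne_zero`, `tsen_lang`, `tsen_form`, `tsen_diagonal`, `tsen_quadraticForm`,
  `tsen_binary_universal`, `tsen_sharp`: the theorem of Tsen and Lang: over a finite extension of
  `K(t)`, `K` algebraically closed, every system without constant terms of degree sum less than the
  number of variables has a nontrivial zero; so quadratic forms in three variables are isotropic,
  and `∑ t ^ i x_i ^ d`, `i < d`, shows that the bound is sharp.
* `lang_step`, `lang_ci_algClosed`, `lang_form_algClosed`, `lang_ci_finiteField`,
  `functionField_form`, `functionField_quadraticForm`, `functionField_quaternary_universal`: Lang's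
  theorem on `C_i` fields (for systems): finite extensions of rational function fields in `r`
  variables are `C_r` over algebraically closed and `C_(r+1)` over finite fields; so over function
  fields of curves over finite fields quadratic forms in five variables are isotropic.
* `pfister_values_mul`, `sumSquares_two_pow_mul`, `pfister_level`, `level_zmod`, `sumSquares_ci`,
  `functionField_four_squares`, `surface_four_squares`, `realCurve_two_squares`,
  `realRatFunc_two_squares`: Pfister's theorems: Pfister forms are multiplicative, the level of a
  field is a power of two, in a `C_i` field `2 ^ i` squares suffice, and in a finite extension of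
  `ℝ(t)` every sum of squares is a sum of two squares.
* `cassels_pfister_representation`, `cassels_sq_add`, `pythagoras_unbounded`, `level_values_iff`,
  `springer_anisotropic`, `springer_level`: the theorem of Cassels and Pfister on polynomials
  represented over `K(t)`; formally real fields with unbounded Pythagoras numbers; Pfister's theorem
  that the levels of fields are exactly the powers of two; Springer's theorem on anisotropic forms
  in extensions of odd degree.
* `witt_cancellation`, `pfister_isotropic_hyperbolic`, `uInvariant_ci`, `ci_one_classification`:
  Witt cancellation; isotropic Pfister forms are hyperbolic; `u ≤ 2 ^ i` over `C_i` fields; forms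
  over `C_1` fields are classified by discriminant (`SummaryWittCancellation`, `Pfister/`).
* `FA.Arf.Summary.gauss_sum_arf`, `…arf_classification`, `…arf_normal_form`, `…arf_additive`,
  `…two_planes`, `…zeros_example` (`SummaryArfInvariant`): the theorem of Arf for nondegenerate
  quadratic forms over `𝔽₂`: dimension `2 m`, `2 ^ (2 m - 1) ± 2 ^ (m - 1)` zeros, and the dimension
  and this sign classify the forms.
* `tsen_divisionAlgebra`, `tsen_centralSimple`, `brauerGroup_trivial`,
  `brauerGroup_functionField`, `norm_surjective_ci_one`: Tsen's theorem that central simple
  algebras over `C_1` fields split and their Brauer group is trivial (`SummaryTsenBrauer`, `Tsen/`).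
* `skolem_noether`, `centralizer_theorem`, `double_centralizer`, `separable_splitting_field`,
  `frobenius_division_algebras`, `brauerGroup_real`: central simple algebras: Skolem–Noether,
  centralisers, separable maximal subfields; Frobenius' theorem and the Brauer group of `ℝ`
  (`SummarySkolemNoether`, `CSA/`).
* `cyclicAlgebra_exists`, `cyclicAlgebra_of_embedding`, `cyclicAlgebra_iso_iff`,
  `cyclicAlgebra_split_iff`, `albert_brauer_hasse_noether_cyclic`: cyclic algebras, classified by
  norms; over number fields they split iff they split at every completion
  (`SummaryCyclicAlgebras`, `CyclicAlgebra/`).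
* `brauerGroup_mul`, `brauerGroup_relative_cyclic`, `brauerGroup_separable_splitting`,
  `brauerGroup_local_global`, `brauerGroup_real_equiv`: the Brauer group as an abelian group,
  restriction, `Br(L/K) ≅ Kˣ / N(Lˣ)` for cyclic `L/K`, the local-global principle for such classes
  (`SummaryBrauerGroup`, `BrauerTheory/`).
* `albert_brauer_hasse_noether`, `albert_brauer_hasse_noether_algebra`,
  `albert_brauer_hasse_noether_iso`, `albert_brauer_hasse_noether_injective`,
  `brauerGroup_index_dvd`, `brauerGroup_relative_local`: the theorem of Albert, Brauer, Hasse and
  Noether for all central simple algebras over a number field, isomorphism as a local question, the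
  index divides splitting degrees, `Br(E/K_v) ≅ ℤ/n` for cyclic `E/K_v` (`SummaryABHN`).
* `brauerGroup_period_dvd_index`, `brauerGroup_prime_dvd_period`, `brauerGroup_local`,
  `brauerGroup_local_torsion`, `brauerGroup_local_period_index`, `brauerGroup_local_cyclic`: the
  period divides the index and has the same primes over any field; `Br(K_v) ≅ ℚ / ℤ`, the
  `n`-torsion split by every cyclic extension of degree `n`, period equals index and every algebra
  is cyclic over `K_v` (`SummaryLocalBrauer`, `BrauerLocal/`).
* `brauerGroup_global_finite`, `cyclicExtension_full_local_degree`,
  `brauerGroup_global_cyclic_splitting`, `brauerGroup_global_period_index`,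
  `brauerGroup_global_cyclic`: over a number field a Brauer class is trivial at almost every prime,
  cyclic extensions of full local degree at finitely many primes (no special case), the period
  equals the index and every central simple algebra is cyclic (`SummaryGlobalBrauer`,
  `BrauerGlobal/`).
* `brauerGroup_invariant_sum`, `brauerGroup_invariant_local`, `brauerGroup_invariant_injective`:
  **the invariants of a global Brauer class sum to zero**, the invariant at a prime being the
  isomorphism onto `ℚ / ℤ` sending `(E, Frob, a)`, `E` unramified of degree `n`, to `ord a / n`;
  the family of invariants is injective (`SummaryBrauerInvariants`, `BrauerInvariant/`).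
* `brauerGroup_exact_sequence`, `brauerGroup_exact_sequence_exists`,
  `brauerGroup_exact_sequence_onto`: the exact sequence `0 → Br K → ⊕ Br K_v → ℚ / ℤ → 0`: a
  family of local invariants is that of exactly one global class if and only if almost all vanish
  and their sum is zero (`SummaryBrauerSequence`, `BrauerInvariant/`).
* `divisionAlgebra_iso_iff`, `divisionAlgebra_exists`, `divisionAlgebra_degree`,
  `divisionAlgebra_local_index`, `quaternionAlgebra_iff`: central division algebras over a number
  field are classified by their invariants, the degree is the least common multiple of the local
  indices, and quaternion division algebras correspond to the nonempty even sets of finite and real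
  places (`SummaryBrauerClassification`, `BrauerInvariant/`).
* `brauerGroup_invariant_restriction`, `brauerGroup_invariant_restriction_infinite`,
  `brauerGroup_splitting_iff`, `divisionAlgebra_subfield_iff`: the invariant of a restriction at
  `w` over `v` is `e f` times that at `v`; so a number field splits a class, and one of the degree
  of a division algebra embeds into it, exactly when its local degrees are multiples of the local
  indices and no real place lies over a real place with invariant `1 / 2`
  (`SummaryBrauerRestriction`, `BrauerInvariant/`).
* `schacher_criterion`, `schacher_criterion_galois`, `schacher_cyclic`,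
  `schacher_sylow_metacyclic`: Schacher's theorems: an extension of number fields is a maximal
  subfield of a division algebra iff for every prime power exactly dividing the degree two places
  have all local degrees divisible by it; cyclic extensions always are; the Sylow subgroups of a
  `ℚ`-admissible group are metacyclic (`SummarySchacher`, `BrauerInvariant/`).
* `full_local_degree_norm`, `hasse_schilling_maass`, `hasse_schilling_maass_odd`,
  `hasse_schilling_maass_totallyComplex`: the norm theorem of Hasse, Schilling and Maass: an
  element is a norm from a maximal subfield of a central division algebra over a number field iff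
  it is positive at the real places where the algebra is not split; extensions of given degree,
  full local degree at given primes and prescribed norm (`SummaryNormTheorem`, `BrauerInvariant/`).
* `albert_positive_involution`, `albert_quaternion_places`, `brauer_speiser`: Albert's theorem: a
  division algebra with positive involution has totally real or CM centre, in the first case it is
  the centre or a quaternion algebra split at all or at no real places; so the Schur index of an
  irreducible rational representation with totally real centre is at most `2`
  (`SummaryBrauerSpeiser`, `PositiveInvolution/`).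
* `classSet_finite`, `jordan_zassenhaus`, `jordan_zassenhaus_rank`,
  `integralRepresentations_finite`, `jordan_finite_subgroups`: the theorem of Jordan and Zassenhaus:
  lattices stable under an order in a module over a semisimple algebra fall into finitely many
  classes; so class sets of orders are finite, and `GL n ℤ` has finitely many conjugacy classes of
  finite subgroups (`SummaryJordanZassenhaus`, `JordanZassenhaus/`).
* `hey_compact`, `orderUnits_finitelyGenerated`: in a division algebra over `ℚ` the norm `±1`
  elements of the real algebra are a compact set times the units of any order, so these are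
  finitely generated; `latimer_macduffee_finite`: finitely many `GL n ℤ` classes of integral
  matrices with given squarefree characteristic polynomial (`SummaryHey`, `UnitsOrders/`).
* `mahler_compactness`, `orthogonalUnits_cocompact`, `orthogonalUnits_finitelyGenerated`,
  `orthogonalUnits_infinite_iff`: Mahler's compactness theorem; the integral automorphs of an
  anisotropic form are cocompact in the real ones (Siegel), finitely generated, and infinitely many
  exactly for an indefinite form (`SummaryOrthogonalUnits`, `OrthogonalUnits/`).
* `voronoi_extreme`, `perfect_form_rational`, `perfect_forms_finite`, `hermiteConstant_attained`: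
  Voronoi's theory of perfect forms: extreme means perfect and eutactic, there are finitely many
  classes of perfect forms, and the constant of Hermite is attained, with rational power
  (`SummaryVoronoi`, `Perfect/`).
* `maximalOrders_exist`, `typeNumber_finite`, `orderUnits_finiteSubgroups`,
  `orthogonalUnits_finiteSubgroups`: in a division algebra over `ℚ` every order lies in a maximal
  one and the type number is finite; units of orders and of anisotropic forms have finitely many
  classes of finite subgroups (`SummaryMaximalOrders`, `Orders/`).
* `hermiteConstant_two`, `hermiteConstant_three`, `hermiteConstant_four`,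
  `hermiteConstant_mordell`: the constant of Hermite satisfies Mordell's inequality, and its powers
  `γ ^ n` are `4 / 3`, `2` and `4` for `n = 2, 3, 4`, attained at `A₂`, `A₃` and `D₄`
  (`SummaryHermiteConstants`, `Perfect/`).
* `successiveMinima_attained`, `successiveMinima_product`, `successiveMinima_transference`: the
  successive minima of a positive form; their product lies between `det P` and `γ ^ n det P`
  (Minkowski), and paired with those of the inverse form they multiply to a bounded number `≥ 1`
  (Mahler) (`SummarySuccessiveMinima`, `Perfect/`).
* `FA.SiegelLemma.Summary.kernel_lattice_height`, `…siegel_lemma`, `…siegel_lemma_single`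
  (`SummarySiegelLemma`): Bombieri and Vaaler's Siegel lemma in Euclidean norms: the solutions of
  `A x = 0` form a lattice of determinant `det (A Aᵀ) / g²` and contain `k = n - m` independent
  vectors with `∏ |x i|² ≤ γ det (A Aᵀ)`, `γ` Hermite's bound (no cube slicing).
* `FA.Summary.banaszczyk_tail`, `FA.Summary.banaszczyk_transference`,
  `FA.Summary.banaszczyk_covering`, `FA.Summary.ellipsoid_flatness` (`SummaryBanaszczyk`):
  Banaszczyk's tail bound for discrete Gaussians, his transference theorems `λ λ* ≤ n` and
  `μ λ₁* ≤ n / 2` with the converse bounds, and Khinchine's flatness theorem for ellipsoids.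
* `FA.Summary.john_exists`, `FA.Summary.john_theorem`, `FA.Summary.john_symmetric`,
  `FA.Summary.khinchine_flatness` (`SummaryJohn`): John's ellipsoid: a convex body lies between
  its largest ellipsoid and `n` times it, `√n` times for a symmetric body; Khinchine's flatness
  theorem: a body free of interior integral points has width `≤ n ^ 2` in an integral direction.
* `FA.Kirszbraun.Summary.balls_intersect`, `…kirszbraun`, `…kirszbraun_hull`,
  `…kirszbraun_fails_sup_norm` (`SummaryKirszbraun`): Kirszbraun's theorem: Lipschitz maps from
  subsets of a real inner product space to a Hilbert space extend with the same constant, into the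
  closed convex hull of the image; balls about contracted centres still meet; false from `ℓ^∞`.
* `FA.Dvoretzky.Summary.dvoretzky`, `…dvoretzky_explicit`, `…dvoretzky_large_dimension`,
  `…dvoretzky_infinite_dimension`, `…dvoretzky_rogers_lemma`, `…dvoretzky_rogers`,
  `…gaussian_concentration` (`SummaryDvoretzky`): Dvoretzky's theorem: every real normed space of
  dimension `n` has subspaces of dimension `c(ε) log n` within `1 + ε` of Euclidean space, so every
  infinite-dimensional space has them of every dimension; the lemma and the theorem of Dvoretzky and
  Rogers (unconditional but not absolute convergence); Gaussian concentration after Maurey.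
* `FA.GaussianCorrelation.Summary.gaussian_correlation`, `…gaussian_correlation_standard`,
  `…gaussian_correlation_multivariate`, `…gaussian_correlation_strips`, `…khatri_sidak`,
  `…laplace_squares` (`SummaryGaussianCorrelation`): the Gaussian correlation inequality of Royen:
  symmetric convex sets are positively correlated for every centred Gaussian measure on a
  finite-dimensional space; the inequality of Khatri and Šidák.
* `FA.Superposition.Summary.kolmogorov_superposition`, `…hilbert_thirteen`, `…basic_embedding`,
  `…kolmogorov_residual` (`SummarySuperposition`): the theorem of Kolmogorov and Arnold: there are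
  `2 n + 1` inner functions through which every continuous function on the `n`-cube is a
  superposition `∑ q, g (∑ p, λ p φ q (x p))`; so continuous functions of three variables are
  superpositions of functions of two (Hilbert's thirteenth problem); Kahane: generic tuples work.
* `FA.Summary.doignon`, `FA.Summary.doignon_compact`, `FA.Summary.doignon_sharp`,
  `FA.Summary.bell_scarf`, `FA.Summary.lovasz_lattice_free`,
  `FA.Summary.lovasz_maximal_lattice_free` (`SummaryDoignon`): the Helly number of `ℤ ^ n` is
  `2 ^ n` (Doignon, Bell, Scarf); maximal lattice-free bodies have at most `2 ^ n` facets (Lovász).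
* `FA.Summary.hensley_coordinates`, `FA.Summary.hensley_volume`,
  `FA.Summary.lagarias_ziegler_finite`, `FA.Summary.lattice_polytopes_interior_finite`
  (`SummaryLatticePolytopes`): lattice polytopes with `1` to `k` interior integral points have
  bounded volume (Hensley) and are finitely many up to unimodular equivalence (Lagarias–Ziegler).
* `FA.Summary.ehrhart_polynomial`, `FA.Summary.ehrhart_leading`,
  `FA.Summary.ehrhart_reciprocity`, `FA.Summary.stanley_nonnegativity` (`SummaryEhrhart`): the
  Ehrhart polynomial of every full lattice polytope: degree `n`, leading coefficient the volume,
  reciprocity (Macdonald), nonnegative numerator of the generating series (Stanley).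
* `FA.Summary.mordell_tetrahedron`, `FA.Summary.mordell_tetrahedron_interior`,
  `FA.Summary.pommersheim_tetrahedron`, `FA.Summary.pommersheim_tetrahedron_interior`
  (`SummaryMordellTetrahedron`): lattice points of the tetrahedron with pairwise coprime axis
  lengths by Dedekind sums (Mordell), and the polynomials of all dilations (Pommersheim).
* `FA.Summary.kannan_covering_radius`, `FA.Summary.frobenius_lower_bound`,
  `FA.Summary.davison_frobenius`, `FA.Summary.erdos_graham_frobenius`,
  `FA.Summary.roberts_frobenius`, `FA.Summary.johnson_reduction`, `FA.Summary.selmer_gaps`,
  `FA.Summary.frobeniusNumber_exists_of_gcd` (`SummaryFrobeniusProblem`): the Frobenius problem: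
  the covering radius (Kannan), Davison's sharp `√(3abc)`, the Erdős–Graham bound, the formula
  for arithmetic progressions (Roberts), Johnson's reduction and Selmer's count of the gaps.
* `FA.Summary.cassels_small_zero`, `FA.Summary.cassels_isotropic_iff`,
  `FA.Summary.kneser_large_zero`, `FA.Summary.hasse_minkowski_small_zero`,
  `FA.Summary.meyer_small_zero`, `FA.Summary.legendre_ternary`, `FA.Summary.holzer_bound`
  (`SummarySmallZeros`): Cassels's bound `x ^ 2 ≤ (3 F) ^ (n - 1)` for a least isotropic vector,
  its sharp exponent (Kneser), effective Meyer; Legendre's theorem and Holzer's bound.
* `FA.Summary.redei_directions`, `FA.Summary.redei_difference_quotients`, `FA.Summary.redei_sharp`,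
  `FA.Summary.niederreiter_robinson`, `FA.Summary.burnside_transitive_prime_degree`,
  `FA.Summary.galois_solvable_prime_degree`, `FA.Summary.galois_two_fixed_points`
  (`SummaryRedeiDirections`): `p` points of the plane over `ZMod p` not on a line determine at
  least `(p + 3) / 2` directions; Burnside's and Galois's theorems on groups of prime degree.
* `FA.Summary.delone_nagell_unique`, `FA.Summary.delone_cubic`, `FA.Summary.nagell_cubic`,
  `FA.Summary.cubic_equation_two`, `FA.Summary.cubic_equation_nine`,
  `FA.Summary.cubic_equation_nineteen`, `FA.Summary.cubic_equation_twenty`
  (`SummaryDeloneNagell`): `A x ³ + B y ³ = 1` has at most one solution with `x y ≠ 0` (Delone,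
  Nagell), by a three-adic Skolem argument on units; the solutions for `d = 2, 9, 19, 20`.
* `FA.Summary.baker_cubeRootTwo_measure`, `FA.Summary.baker_thue_cubic_bound`,
  `FA.Summary.baker_thue_cubic_box`, `FA.Summary.thue_siegel_pade_binomial`
  (`SummaryBakerCubeRoot`): Baker's effective `|∛2 - p/q| > 10⁻⁶ / |q| ^ 2.955` by the
  approximations of Thue and Siegel, and explicit bounds for the solutions of `x³ - 2 y³ = m`.
* `FA.Summary.runge_theorem`, `FA.Summary.runge_theorem_weighted`,
  `FA.Summary.runge_power_values`, `FA.Summary.runge_square_values`,
  `FA.Summary.runge_quartic_example` (`SummaryRunge`): Runge's theorem: an irreducible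
  `F (x, y)` whose top form is not a constant times a power of an irreducible has finitely many
  integral zeros; monic `f` with `p ∣ deg f`, not a `p`th power, is one at finitely many `x`.
* `FA.Summary.hasse_even_order_two`, `FA.Summary.hasse_dvd_two_pow_add_one`,
  `FA.Summary.hasse_prime_dvd_order` (`SummaryHasseOrderDensity`): Hasse's densities: `2` has
  even order modulo `17 / 24` of the primes; an odd prime `q` divides the order of a non-`q`th
  power `a` modulo `q / (q ^ 2 - 1)` of them (natural density, unconditional).
* `FA.Summary.erdos_least_nonresidue_mean`, `FA.Summary.erdos_least_nonresidue_density`,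
  `FA.Summary.erdos_least_nonresidue_values` (`SummaryErdosNonresidueMean`): Erdős's theorem that
  the least quadratic non-residue averages `∑ q_k / 2 ^ (k + 1) > 3` over the primes, and is the
  `k`th prime for `2 ^ (-(k + 1))` of them (Brun–Titchmarsh and the large sieve; unconditional).
* `FA.Summary.lagarias_lucas_density`, `FA.Summary.lagarias_lucas_density_not`,
  `FA.Summary.lagarias_rank_even_density`, `FA.Summary.lagarias_lucas_congruences`,
  `FA.Summary.lagarias_lucas_infinite` (`SummaryLagariasLucas`): Lagarias: two thirds of the
  primes divide a Lucas number, equivalently have even rank of apparition in the Fibonacci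
  sequence; those `≡ 3 (mod 4)` always do, those `≡ 13, 17 (mod 20)` never (natural density).
* `FA.ExtremalFF.Summary.extremal_lfunction`, `bounds_attained`, `central_vanishing`
  (`SummaryExtremalFF`): for square `q` both class number bounds over `F_q[t]` are attained and
  central values vanish, in genus `(√q - 1) / 2` (Chowla fails there).
* `FA.LindelofFF.Summary.lindelof`, `square_root_cancellation` (`SummaryLindelofFF`): the
  Lindelöf hypothesis for quadratic L-functions over `F_q[t]` in odd degree, and square-root
  cancellation in their character sums, uniformly in the degree.
* `FA.LittlewoodFF.Summary.littlewood`, `brauer_siegel`, `gauss_problem`,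
  `finite_bounded_class_number` (`SummaryLittlewoodFF`): over `F_q[t]` in odd degree the class
  number is `q ^ g` up to `O(log g)`, and `h(D) ≤ H` forces `q ≤ 15 H` and `g ≤ 15 H`.
* `FA.ClassNumberOneFF.Summary.classNumber_eq_one_iff`, `cubic_example`, `small_primes_inert`,
  `central_value`, `class_number_one` (`SummaryClassNumberOneFF`): the class number one problem
  for imaginary quadratic function fields of odd degree, solved: the only example in positive
  genus is `q = 3`, `D = X ^ 3 - X - 1`.
* `FA.ArtinClassNumber.Summary.sqrt_count`, `class_number_formula`, `gauss_class_number_problem`
  (`SummaryArtinClassNumber`): Artin's formula `h(D) = L(1, D)` for the reduced pairs of odd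
  degree over `F_q[t]`, so class number one in positive genus only for `q = 3`.
* `FA.QuadraticRH.Summary.functional_equation`, `riemann_hypothesis`, `split_inert_primes`,
  `coefficient_and_value_bounds`, `exists_split_inert` (`SummaryQuadraticRH`): quadratic
  L-functions over `F_q[t]` in odd degree `2 g + 1` have root number `1` and `2 g` reciprocal
  roots of absolute value exactly `√q`; primes split or stay inert equally often.
* `FA.QuadraticLFF.Summary.symbol_irreducible`, `symbol_laws`, `lfunction_polynomial`,
  `mean_coefficient`, `lfunction_average`, `hoffstein_rosen` (`SummaryQuadraticLFF`): quadratic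
  L-functions over `F_q[t]` are polynomials, and Hoffstein and Rosen's exact averages at `s = 1`
  and `s = 1/2` over monic discriminants of odd degree.
* `FA.KurlbergRudnick.Summary.squarefree_prescribed_values`, `squarefree_count`,
  `point_count_limit_law`, `point_count_moments`, `extremal_curves` (`SummaryKurlbergRudnick`):
  squarefree polynomials over `F_q` with prescribed values, and the Kurlberg–Rudnick law of the
  number of points on `y² = D(x)` as `deg D → ∞` at fixed odd `q`, with mean and variance.
* `FA.ChowlaLargeField.Summary.chowla_large_field`, `moebius_sign_patterns`, `exists_sign_pattern`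
  (`SummaryChowlaLargeField`): Chowla's conjecture over `F_q[t]` as `q` grows (Carmon, Rudnick):
  Moebius correlations are `O(q ^ (n - 1/2))` and all sign patterns are equidistributed.
* `FA.TwinIrreducibles.Summary.twin_irreducibles`, `twin_irreducibles_two`, `prime_tuples`
  (`SummaryTwinIrreducibles`): the twin prime theorem over `F_q[t]` for every `q ≥ 3` and every
  constant difference (Hall, Effinger), and prime tuples with constant shifts for large `q`.
* `FA.BunyakovskyFails.Summary.pellet_parity_finite_field`, `moebius_values_periodic`,
  `moebius_values_sum`, `bunyakovsky_fails`, `exists_irreducible_finitely_many_prime_values`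
  (`SummaryBunyakovskyFails`): Pellet's parity over every finite field, periodic Moebius values
  (Conrad, Conrad, Gross): the conjectures of Bunyakovsky and Chowla fail over `F_q[t]`, `q` odd.
* `FA.SquarefreeFFMulti.Summary.squarefree_values_density_multi`, `exists_squarefree_value`,
  `coprime_values_large_primes`, `squarefree_discriminant_density` (`SummarySquarefreeFFMulti`):
  Poonen's squarefree values theorem over `F_q[t]` in several variables, with the exact density,
  and a positive proportion of elliptic curves over `F_q[t]` with squarefree discriminant.
* `FA.SquarefreeFF.Summary.squarefree_values_density`, `squarefree_density_pos_iff`,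
  `infinite_squarefree_values`, `high_degree_square_divisors_rare`
  (`SummarySquarefreeFunctionField`): Poonen's theorem on squarefree values over `F_q[t]`: the
  exact density for a squarefree polynomial of every degree, unconditionally.
* `FA.CurvePointStatistics.Summary.smooth_curves_prescribed_points`, `point_count_binomial`,
  `point_count_mean`, `exists_smooth_space_filling_curve` (`SummaryCurvePointStatistics`): the
  theorem of Bucur, David, Feigon and Lalín on the rational points of random smooth plane curves
  over a finite field: independent trials of chance `(q + 1)/(q^2 + q + 1)`.
* `FA.ProjBertini.Summary.smooth_projective_plane_curves_density`,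
  `exists_smooth_projective_plane_curve`, `smooth_form_irreducible`,
  `geometrically_irreducible_lower_density` (`SummaryProjBertini`): Poonen's Bertini theorem for
  projective plane curves over a finite field: the proportion of smooth forms of degree `d` tends
  to `(1 - 1/q) (1 - 1/q^2) (1 - 1/q^3)`.
* `FA.PlaneBertini.Summary.smooth_plane_curves_density`, `exists_smooth_plane_curve`,
  `jets_at_a_point`, `high_degree_singular_points`, `eliminant` (`SummaryPlaneBertini`): Poonen's
  Bertini theorem for the affine plane over a finite field: the proportion of smooth curves of
  degree at most `d` tends to `1 - 1/q`.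
* `FA.SquarefreeMulti.Summary.squarefree_values_density`, `squarefree_values_upper`,
  `squarefree_product_pos_iff`, `square_divisor_bound`, `squarefree_derivative_coprime`,
  `sum_three_squares_squarefree` (`SummarySquarefreeMulti`): squarefree values of polynomials
  in `n` variables: `∏ (1 - N_{p²} / p ^ (2 n))` bounds their upper density in every degree and
  is their density in degree at most two (no degree three).
* `FA.Ekedahl.Summary.ekedahl_bound`, `coprime_values_density`,
  `coprime_values_density_pos_iff`, `coprime_pairs_density` (`SummaryEkedahl`): Ekedahl's sieve:
  two integral polynomials without common factor over `ℚ` take coprime values with density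
  `∏ (1 - N_p / p ^ n)`, positive iff no prime divides both everywhere; no squarefree values.
* `FA.DiagonalDensity.Summary.locallySoluble_density`, `localDensity_limit`,
  `padic_soluble_density`, `localDensity_positive`, `diagonal_cubicSurfaces_density`,
  `diagonal_quadrics_rational_density`, `many_variables_density`, `meyer_density`: the proportion
  of the diagonal forms of degree `d` in `m ≥ 4` variables soluble everywhere locally tends to
  `σ_∞ ∏ σ_p > 0`, all `σ_p = 1` for `m > d ^ 2`, so `1 - 2 / 2 ^ m` of the diagonal quadrics in
  `m ≥ 5` variables have rational zeros (`SummaryDiagonalDensity`; no closed form of `σ_p`).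
* `FA.DiagonalLocal.Summary.locallySoluble_positive_proportion`,
  `diagonal_cubicSurfaces_positive_proportion`, `diagonal_quadrics_rational_zero`: for every `d`
  and `m ≥ 4` a positive proportion of the diagonal forms of degree `d` in `m` variables has
  nontrivial zeros in `ℝ` and every `ℚ_p`, hence of the diagonal quadrics a rational zero
  (`SummaryDiagonalLocal`; a lower bound, no value of the density).
* `FA.ConicCount.Summary.serre_conic_bound`, `serre_conic_local_bound`: Serre's theorem: the
  triples of nonzero integers up to `B` for which `v₀ x² + v₁ y² + v₂ z² = 0` is soluble in `ℚ`,
  or only in every `ℚ_p`, number `≪ B³ / (log B)^(3/2)`; `serre_conic_density_zero`: almost no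
  such conic has a rational point; `conic_bad_classes`, `conic_bad_insoluble`: the classes
  modulo `p²` sieved out (`SummaryConicCount`; no lower bound, only diagonal conics).
* `FA.ToricCubic.Summary.toric_cubic_order`, `toric_cubic_vectors`: Manin's conjecture up to the
  constant for the toric cubic surface `x₀³ = x₁ x₂ x₃`: the rational points of height `≤ B` off
  its lines number `≍ B (log B)^6`; `toric_cubic_lines`, `toric_cubic_lines_dominate`: the lines
  carry `≫ B²`; `torsor_surjective`, `torsor_injective`, `toric_cubic_finite`
  (`SummaryToricCubic`; no asymptotic, no constant of Peyre, the Picard rank only in the docs).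
* `FA.KlunersMalle.Summary.kluners_lower_bound`, `malle_prediction_fails`: Klüners' counterexample
  to Malle's conjecture: sextic fields with group `C₃ ≀ C₂` on six points and `|d| ≤ X` are
  `≫ X^(1/2) log X`, though `malle_exponent_a`, `malle_exponent_b_one` give `a = 2`, `b = 1`;
  `kluners_ratio_tendsto`, `kluners_lower_bound_abstract`, `kluners_finite`,
  `kluners_iso_class_bound` (`SummaryKlunersMalle`; no upper bound, no asymptotic).
* `FA.WrightAbelian.Summary.wright_abelian_asymptotic`, `malle_exponent_b`: Wright's theorem
  over `ℚ`: for every nontrivial finite abelian group `G` the fields with group `G` and `|d| ≤ X`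
  number `~ c X^(1/a) (log X)^(b-1)`, `c > 0`, with Malle's `a = |G|(1 - 1/ℓ)` and `b`;
  `wright_abelian_finite`, `wright_eq_of_iso`, `wright_inverse_galois`
  (`SummaryWrightAbelian`; no closed formula for `c`, no error term, only over `ℚ`).
* `FA.ElementaryAbelianCount.Summary.cyclic_prime_degree_asymptotic`,
  `multiquadratic_asymptotic`, `quadratic_asymptotic`, `biquadratic_constant`: Malle's exponents
  and explicit constants over `ℚ` for cyclic fields of odd prime degree `ℓ` (`X^(1/(ℓ-1))`) and
  fields with group `(ℤ/2)^r`, every `r` (`X^(1/2^(r-1)) (log X)^(2^r-2)`);
  `elementary_abelian_finite`, `cyclic_prime_degree_finite`, `galois_eq_of_iso`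
  (`SummaryElementaryAbelianCount`; not general abelian groups, no error term).
* `FA.AbelianQuartic.Summary.cyclic_quartic_asymptotic`, `biquadratic_asymptotic`,
  `galois_quartic_asymptotic`: Baily: cyclic quartic fields with `|d| ≤ X` number `~ c √X`,
  `c = 3/π² ((1 + √2/24) ∏_{p ≡ 1 (4)} (1 + 2/((p + 1) √p)) - 1)`; biquadratic ones, hence all
  Galois quartic fields, `~ 23/960 ∏_p (1 - 1/p)³ (1 + 3/p) √X (log X)²`
  (`SummaryAbelianQuartic`; no error term).
* `FA.DihedralQuartic.Summary.quartic_dihedral_asymptotic`, `quartic_galois_negligible`,
  `quartic_with_quadratic_subfield_asymptotic`, `quadratic_extensions_asymptotic`: Cohen, Diaz y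
  Diaz and Olivier: non-Galois quartic fields with a quadratic subfield and `|d| ≤ X` number
  `~ C X`, `C = ∑ res ζ_k / (2 · 2 ^ r₂ · d_k² · ζ_k(2))` over the quadratic fields, the Galois
  ones `o(X)`; over every number field `K` the quadratic extensions by norm of the relative
  discriminant number `~ res ζ_K / (2 ^ r₂ ζ_K(2)) Y` (`SummaryDihedralQuartic`; no error term).
* `FA.SexticCount.Summary.sextic_fields_asymptotic`, `sextic_discriminant`,
  `cubic_fields_by_conductor`, `brauer_relation_discriminant`: Belabas–Fouvry and Bhargava–Wood:
  Galois sextic fields with group `S₃` and `|d| ≤ X` number `~ (P / 12) X ^ (1/3)` for `d > 0`,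
  `~ (P / 4) X ^ (1/3)` for `d < 0`, `P` the Euler product; `d_L = d_K² d_k`; cubic fields by
  conductor against twin three-torsion; Brauer relations hold between discriminants
  (`SummarySexticFields`; no error term).
* `FA.SymmetricFieldsLower.Summary.sn_fields_lower`, `symmetric_box`, `field_of_polynomial`,
  `small_integers_count`: for every `n ≥ 2` at least `c √X` fields of degree `n` with `|d| ≤ X`
  are generated by roots of polynomials with group `Sₙ` (`SummarySymmetricFieldsLower`).
* `FA.QuarticLower.Summary.quartic_fields_theta`, `quartic_primitive_lower`,
  `quartic_quadratic_lower`, `quadratic_extensions_lower`, `cubic_gives_s4_quartic`: quartic fields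
  have exact order X, both shapes; every number field has ≫ X quadratic extensions
  (`SummaryQuarticLower`).
* `FA.CubicTwoTorsion.Summary.cubic_two_torsion_mean`, `cubic_two_torsion_sum`,
  `class_gives_quartic`, `quartic_determines_class`: cubic fields of either signature have bounded
  mean `#Cl[2]` (upper half of Bhargava's theorem, no constants), with no class field theory
  (`SummaryCubicTwoTorsion`).
* `FA.QuarticCount.Summary.quartic_fields_count`, `quartic_primitive_count`,
  `pair_determines_field`, `forms_covolume`: O(X) quartic fields with |d| ≤ X (the order of
  magnitude in Bhargava's theorem), by counting reduced pairs of ternary forms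
  (`SummaryQuarticCount`).
* `FA.QuarticResolvent.Summary.quartic_square_count`, `quartic_ramified_in`,
  `quartic_of_discriminant`, `quartic_of_square_discriminant`, `descent_class_iso`: Wong:
  quartic fields with square discriminant O(X^(5/6+ε)); ramified in S O((∏S)^(1+ε)); of
  discriminant d O(|d|^(2/3+ε)), O(|d|^(1/3+ε)) for square d (`SummaryQuarticResolvent`).
* `FA.TwistRankBound.Summary.twist_rank_le_omega`, `twist_modTwo_le`, `twist_rank_mean`,
  `twist_integral_points`, `curves_of_discriminant` (`SummaryTwistRankBound`): for the twists
  `E_d` of a fixed curve `rank ≤ 8 ω (d) + M`, the ranks over `|d| ≤ X` sum to `O (X log log X)`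
  and there are `O_ε (|d| ^ ε)` integral points; up to isomorphism `O_ε (|D| ^ (1/3 + ε))` integral
  equations have discriminant `D`.
* `FA.TwoSelmerBound.Summary.rank_le_log_discriminant`, `modTwo_le_discriminant`,
  `integral_points_le_discriminant`, `descent_le_two_torsion` : the consequences for elliptic
  curves of the two-torsion bound: every integral equation has
  `rank · log 2 ≤ (1/3 + ε) log |Δ| + C_ε` and `O_ε ((∏ S) ^ ε |Δ| ^ (1/3 + ε))` points with
  `S`-integral abscissa (`SummaryTwoSelmerBound`; the sharper exponents are not claimed).
* `FA.QuarticFieldsCount.Summary.quartic_with_quadratic_subfield_count`,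
  `quadratic_extensions_count`, `quadratic_ideal_count` : at most `C X` pairwise non-isomorphic
  quartic fields with a quadratic subfield (groups `D₄`, `C₄`, `V₄`) have `|discr| ≤ X`; over the
  quadratic field of discriminant `d` they number `O (X |d| ^ (-9/8))`
  (`SummaryQuarticFieldsCount`; upper bound only, absolute constant).
* `FA.CubicFieldsBound.Summary.cubic_fields_of_discriminant`, `cubic_fields_ramified_in`,
  `cubic_fields_by_resolvent` : there are `O_ε (|d| ^ (1/3 + ε))` cubic fields of discriminant
  `d`, and `O_ε ((∏ S) ^ (1/3 + ε))` ramified only in `S`; those with quadratic resolvent
  `K ≠ ℚ(√-3)` number at most `9 · 81 ^ (#S + 2)` times the three-torsion of the twin of `K`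
  (`SummaryCubicFieldsBound`; ineffective).
* `FA.ThreeTorsionBound.Summary.three_torsion_le`, `rank_le_log_third`, `integral_points_third`,
  `curves_good_reduction_third` : Ellenberg–Venkatesh without hypothesis:
  `#Cl(K)[3] = O_ε (|d| ^ (1/3 + ε))` for quadratic `K`; so on `y² = x³ + k` the rank is at most
  `(2/3 + ε) log₃ |k| + C_ε` and there are `O_ε (|k| ^ (1/3 + ε))` integral points, and
  `O_ε ((∏ S) ^ (1/3 + ε))` elliptic curves over `ℚ` have good reduction outside `S`
  (`SummaryThreeTorsionBound`; ineffective).
* `FA.BrumerSilverman.Summary.brumer_silverman`, `index_le`, `rank_le_log`,
  `mordell_integral_points_le` : Brumer–Silverman: there are `O_ε ((∏ S) ^ (1/2 + ε))` elliptic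
  curves over `ℚ` with good reduction outside `S`; on `y² = x³ + k` the isogeny index is at most
  `c ^ ω (6 k)` times the class number of `ℚ(√k)`, the rank is `≤ (1 + ε) log₃ |k| + C_ε` and
  there are `O_ε (|k| ^ (1/2 + ε))` integral points (`SummaryBrumerSilverman`).
* `FA.IntegralUniform.Summary.sIntegral_points_weierstrass`, `elliptic_curves_by_discriminant` :
  an elliptic curve over `ℚ` has at most `c ^ (#S + ω (Δ) + 1) · 2 ^ rank` points with `S`-integral
  abscissa (shape of Evertse–Silverman 1986 and Gross–Silverman 1995; Lang: no `ω (Δ)`), and there
  are `O(X)` curves with `|Δ| ≤ X` (`SummaryIntegralUniform`).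
* `FA.IntegralAverage.Summary.average_integral_points_bounded`,
  `average_mordell_integral_points_bounded`, `average_sIntegral_points_bounded` : the mean number
  of integral points on `y² = x³ + A x + B` ordered by height and on `y² = x³ + k` is bounded
  (Alpöge 2014; forms and Evertse, no explicit constant), and that of `S`-integral points outside
  `2 E(ℚ)` by `#S` alone (`SummaryIntegralAverage`).
* `FA.MordellAverage.Summary.average_sqrt_three_pow_rank_bounded`, `average_rank_pow_bounded` :
  over the curves `y² = x³ + k` with `0 < |k| ≤ K` (all, or the sixth-power-free `k`) the mean of
  `√3 ^ rank` and every moment of the rank are bounded, and the rank is bounded outside a small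
  proportion (Fouvry 1993, no explicit constant); proved by the isogenies of degree three and
  cubic forms of discriminant `-108 k`, no Selmer group (`SummaryMordellAverage`).
* `FA.SelmerAverage.Summary.average_two_selmer_bounded`, `average_two_sha_bounded` : the mean
  number of everywhere soluble quartic classes of `y² = x³ + A x + B` is bounded (Bhargava–Shankar,
  not the constant `3`); `integral_representative`, `two_selmer_split` : every class has an
  integral form, and as many have rational points as `E(ℚ)/2E(ℚ)` has elements
  (`SummarySelmerAverage`).
* `FA.AverageRank.Summary.average_two_pow_rank_bounded`, `average_points_mod_two_bounded`,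
  `average_rank_pow_bounded`, `rank_tail`, `rank_bounded_almost_all` : elliptic curves by height,
  all or minimal: mean of `2 ^ rank` and of `#E/2E` bounded, so the average rank and every moment
  of it (Bhargava–Shankar, not their constants); `quartic_class_count` : `O(Y⁵)` classes of
  binary quartic forms; `two_pow_rank_le_points_mod_two` (`SummaryAverageRank`).
* `FA.ThreeTorsionLocal.Summary.nakagawa_horie_real`, `nakagawa_horie_imaginary` : quadratic
  fields split, inert or ramified as prescribed at finitely many primes: density, mean `#Cl[3]`
  still `4 / 3`, resp. `2`. `quadratic_zpExtension_not_dvd` : `3 ∤ h` and `3` not split gives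
  `3 ∤ h` along all `ℤ₃`-extensions; `imaginary_zpExtension_prime_to_three`,
  `real_zpExtension_prime_to_three` : so for at least `5 / 16`, resp. `25 / 48` of the fields
  (`SummaryNakagawaHorie`).
* `FA.ThreeTorsion.Summary.davenport_heilbronn_three_torsion_real`,
  `davenport_heilbronn_three_torsion_imaginary` : mean `#Cl[3]` of quadratic fields is `4 / 3`,
  resp. `2`; class number prime to `3` for at least `5 / 6`, resp. `1 / 2` of them.
* `FA.ThreeTorsion.Summary.three_torsion_classes` : classes of irreducible forms `(a, 3b, 3c, e)`
  of disc `-27 d`, `d ≠ -3`, are `(#Cl[3] - 1) / 2` for `d < 0`, resp. `(3 #Cl[3] - 1) / 2`;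
  `disc_sq_local_count`, `disc_two_local_count` : residues of forms with discriminant not
  fundamental at `p` (`SummaryThreeTorsion`).
* `FA.CubicFields.Summary.davenport_heilbronn_real`, `davenport_heilbronn_complex`,
  `nonmaximal_uniformity`, `nonmaximal_local_count`, `maximal_density`: Davenport–Heilbronn 1971,
  cubic fields with `0 < d ≤ X`, resp. `-X ≤ d < 0`, number `~ X/(12 ζ(3))`, resp. `X/(4 ζ(3))`;
  the uniformity estimate `O(X/p²)` and the local densities (no secondary term, no 3-torsion)
  (`SummaryDavenportHeilbronnFields`);
* `FA.CubicFormCount.Summary.davenport_class_number`, `cubic_orders_asymptotic`,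
  `davenport_congruence`: Davenport 1951, classes of irreducible binary cubic forms (equally,
  cubic orders up to isomorphism) with `0 < disc ≤ X`, resp. `0 < -disc ≤ X`, are `~ π²/72 X`,
  resp. `π²/24 X`, also with congruence conditions (no error term, no field count)
  (`SummaryDavenportCubic`);
* `FA.DeloneFaddeev.Summary.delone_faddeev_parametrisation`, `delone_faddeev_discriminant`,
  `delone_faddeev_monogenic_domain`, `delone_faddeev_finiteness`,
  `davenport_heilbronn_maximality`: cubic rings, degenerate included, correspond to binary cubic
  forms up to twisted `GL₂(ℤ)`, with discriminant, index form, monogenicity, domains, finitely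
  many per discriminant, and the Davenport–Heilbronn test for non-maximality at `p`
  (`SummaryDeloneFaddeev`);
* `FA.LValueDistribution.Summary.chowla_erdos`, `chowla_erdos_interval`, `elliott_law`,
  `classNumber_distribution`: Chowla-Erdős, `L(1, χ)` and `h(-4n)/√n` have continuous strictly
  increasing limiting distributions over squarefree `n ≡ 1 (mod 4)`, with Elliott's Euler product
  (`SummaryLValueDistribution`);
* `FA.ClassNumberExtremes.Summary.large_LValues`, `small_LValues`, `large_classNumbers`,
  `small_classNumbers`: Walfisz-Chowla, unconditionally, `L(1, χ)` is `≫ log log n` and
  `≪ 1 / log log n` infinitely often, `χ` imaginary quadratic mod `4n`; same for `h(-4n) / √n`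
  (`SummaryClassNumberExtremes`);
* `FA.Summary.wirsing_classes_asymptotic`, `FA.Summary.landau_prime_factors_in_classes`,
  `FA.Summary.rankin_sigma_not_dvd`, `FA.Summary.ramanujanTau_not_dvd_asymptotic`
  (`SummaryLandauWirsing`): Landau-Wirsing-Serre asymptotics `C N / (log N) ^ (1 - τ)` for
  multiplicative functions given by classes of primes; Rankin's count of `l ∤ σ_k n` (`l` odd);
  Ramanujan's claim: `691 ∤ τ n` for `∼ C N / (log N) ^ (1/690)` of the `n ≤ N` (`C` not found).
* `FA.Summary.heath_brown_heilbronn_sum`, `FA.Summary.mitkin_truncated_log_values`,
  `FA.Summary.heath_brown_pth_powers_equidistributed`, `FA.Summary.fermat_congruence_sq_classes`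
  (`SummaryHeilbronnSum`): Heath-Brown: Heilbronn's sum is at most `3 p ^ (11 / 12)`, so `p`th
  powers are equidistributed modulo `p ^ 2`; Mit'kin's lemma on the truncated logarithm, so
  `x ^ p + y ^ p ≡ 1 (mod p ^ 2)` has at most `38 p ^ (2 / 3)` classes of `x` modulo `p`;
  `FA.Summary.heath_brown_konyagin_value_sets`, `FA.Summary.heath_brown_konyagin_energy`,
  `FA.Summary.heath_brown_konyagin_heilbronn_sum`: Heath-Brown and Konyagin: the energy of the
  `p`th powers modulo `p ^ 2` is at most `2919 p ^ (5 / 2)`, the sum at most `8 p ^ (7 / 8)`.
* `FA.Summary.davenport_erdos_normal_law`, `FA.Summary.davenport_erdos_moment`,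
  `FA.Summary.davenport_erdos_variance`, `FA.Summary.davenport_erdos_residue_majority`
  (`SummaryShortCharSums`): Davenport and Erdős: sums of `h` consecutive Legendre symbols mod `p`
  are Gaussian of variance `h` when `h → ∞`, `log h = o(log p)`; moments from Weil's bound; half
  of the intervals have at least as many residues as non-residues.
* `FA.Summary.odoni_sylvester_galois`, `FA.Summary.odoni_sylvester_root_density`,
  `FA.Summary.odoni_sylvester_density_zero`, `FA.Summary.odoni_sylvester_infinite`
  (`SummaryOdoniSylvester`): Odoni: the iterates of `X² - X + 1` are irreducible with the full
  iterated wreath products as Galois groups; almost no prime divides a term of Sylvester's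
  sequence `2, 3, 7, 43, …` (natural density zero), infinitely many divide none.
* `FA.Summary.odoni_iterate_root_density`, `FA.Summary.odoni_proportion_le`,
  `FA.Summary.odoni_jones_orbit_density_zero`,
  `FA.Summary.odoni_sq_add_one_orbit_density_zero` (`SummaryOdoniJones`): the theorem of Odoni
  and Jones: for Stoll parameters `a` the `m`-th iterate of `x² + a` has a root modulo a
  proportion of the primes that is at most `2 / (m + 2)`, so the primes dividing a term of the
  critical orbit (such as `1, 2, 5, 26, 677, …`) have density zero.
* `latticePacking_two`, `latticePacking_three`, `latticePacking_four`,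
  `latticePacking_exists_densest`: the densest lattice packings of balls have densities `π / √12`,
  `π / √18` and `π ² / 16` in dimensions 2, 3, 4 (Lagrange, Gauss, Korkine–Zolotarev), and one
  exists in every dimension (`SummaryLatticePackings`, `Perfect/`).
* `steinitz_prod`, `steinitz_structure`, `steinitz_classification`, `steinitz_stably_free`,
  `steinitz_numberField`: Steinitz's theorem: a finite torsion-free module of rank `n + 1` over a
  Dedekind domain is `R ^ n × I` for exactly one ideal class, which is trivial iff it is free
  (`SummarySteinitz`, `Steinitz/`).
* `hurwitz_approximation`, `hurwitz_approximation_sharp`, `markov_minimum_first`,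
  `markov_minimum_second`: Hurwitz's theorem with the best constant `√5`, and the first two Markov
  minima `√(D / 5)`, `√(D / 8)` of indefinite binary forms (Korkine–Zolotarev)
  (`SummaryMarkovMinima`, `MarkovMinima/`).
* `minkowski_product`, `minkowski_inhomogeneous_approximation`, `euclidean_real_four`: Minkowski's
  bound `|Δ| / 4` for a product of two inhomogeneous linear forms, `|q| |q ξ - p - α| ≤ 1 / 4`
  infinitely often, and `ℚ(√d)` is norm-Euclidean for `d = 2, 3, 5, 13`
  (`SummaryMinkowskiProduct`, `MarkovMinima/`).
* `torus_equidistribution`, `kronecker_approximation`, `kronecker_flow`: Weyl's equidistribution on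
  the torus and Kronecker's approximation theorem, `q θ` comes near every point modulo one iff
  `1, θ i` are independent (`SummaryKronecker`, `KroneckerApprox/`).
* `log_primes_linearIndependent`, `bohr_zeta_bounds`, `bohr_zeta_unbounded`: Bohr: for `σ > 1` the
  bounds `ζ (2 σ) / ζ σ` and `ζ σ` for `|ζ (σ + i t)|` are approached at great height, so `ζ` and
  `1 / ζ` are unbounded in `re s > 1`, `im s ≥ T` (`SummaryBohrZeta`, `KroneckerApprox/`).
* `lagrange_periodic_fraction`, `galois_purely_periodic`, `quadratic_badly_approximable`: Lagrange
  and Galois: the continued fraction is eventually periodic exactly for quadratic irrationals, from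
  the start exactly for reduced ones; these are badly approximable
  (`SummaryPeriodicFractions`, `PeriodicFractions/`).
* `serret_equivalence`, `sqrt_period`, `sqrt_pell`, `sqrt_negative_pell`,
  `sqrt_fundamental_solution`: the symmetric period of the continued fraction of `√d`; the solutions
  of `x² - d y² = ± 1` are its convergents, `-1` occurs iff the period is odd; Serret's equivalence
  (`SummaryContinuedPell`, `PeriodicFractions/`).
* `crystallographic_restriction`, `crystallographic_restriction_rat`, `crystallographic_two`,
  `crystallographic_three`, `crystallographic_four`: `GL_n(ℤ)` and `GL_n(ℚ)` have an element of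
  order `m` iff `∑ φ(p ^ k) ≤ n` over the prime powers of `m` other than a lone `2`; the orders for
  `n = 2, 3` are `1, 2, 3, 4, 6`, for `n = 4` also `5, 8, 10, 12` (`SummaryCrystallographic`).
* `three_gap`, `three_gap_card`, `three_gap_sum`, `three_gap_exists`: the points `fract (k α)`,
  `k < N`, cut the circle into gaps of at most three lengths `a`, `b`, `a + b` (Steinhaus, Sós,
  Świerczkowski), coincident points counted once (`SummaryThreeGaps`, `ThreeGaps/`).
* `dedekind_sum_basic`, `dedekind_sum_integral`, `dedekind_sum_one`, `dedekind_reciprocity`,
  `dedekind_sum_jacobi`, `dedekind_sum_eq_sDed`: Dedekind sums, their reciprocity law, their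
  congruence with the Jacobi symbol, and the agreement with the constants of the Eisenstein series
  of prime level (`SummaryDedekindSums`, `DedekindSums/`).
* `questionMark_bijective`, `questionMark_equations`, `questionMark_rational`,
  `questionMark_quadratic`: Minkowski's question-mark function, an increasing homeomorphism of
  `[0, 1]` carrying rationals onto dyadic numbers and quadratic irrationals onto the other rationals
  (`SummaryQuestionMark`, `QuestionMark/`).
* `champernowne_digits`, `champernowne_normal`, `champernowne_equidistributed`,
  `champernowne_irrational`: Champernowne's theorem: in every base `b ≥ 2` the number with digits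
  `1, 2, 3, …` is normal, `b ^ i x` is equidistributed modulo one, so `x` is irrational
  (`SummaryChampernowne`, `NormalNumbers/`).
* `birkhoff_ergodic_theorem`, `birkhoff_ergodic`, `borel_normal_numbers`: Birkhoff's pointwise
  ergodic theorem, and Borel's theorem that almost every real number is normal in every base
  (`SummaryBirkhoff`, `PointwiseErgodic/`, `NormalNumbers/`).
* `gauss_map_ergodic`, `partial_quotient_frequency`, `khinchin_constant`: the Gauss map is ergodic
  for `dx / (log 2 (1 + x))`, so almost everywhere the partial quotient `k` has the frequency of
  Gauss and Kuzmin and the geometric means tend to Khinchin's constant (`SummaryKhinchinConstant`,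
  `PointwiseErgodic/`).
* `levy_constant`, `levy_approximation`: for almost every real number
  `log q_n / n → π² / (12 log 2)` and `log |x - p_n / q_n| / n → - π² / (6 log 2)` along the
  convergents (`SummaryLevyConstant`, `PointwiseErgodic/Levy`).
* `suzuki_cyclotomic`, `migotti_cyclotomic`: every integer is a coefficient of a cyclotomic
  polynomial (Suzuki), while the coefficients of `Φ_{pq}` lie in `{-1, 0, 1}` (Migotti)
  (`SummaryCyclotomicCoefficients`, `CyclotomicCoeff/`).
* `FA.Summary.euler_e_fraction`, `FA.Summary.euler_e_not_quadratic`,
  `FA.Summary.euler_e_effective_bound`, `FA.Summary.euler_e_irrationality_exponent`,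
  `FA.Summary.badly_approximable_iff_bounded_digits`,
  `FA.Summary.euler_e_not_badly_approximable` (`SummaryEulerFraction`): Euler's
  `e = [2; 1, 2, 1, 1, 4, 1, …]`, the bound `|e - p / q| ≥ 1 / (4 q² (2 log₂ q + 5))`, and bounded
  digits as the criterion for badly approximable numbers.
* `FA.Summary.finite_field_kakeya`, `FA.Summary.finite_field_kakeya_pow`,
  `FA.Summary.finite_field_nikodym` (`SummaryFiniteKakeya`): Dvir's theorem: a set with a line in
  every direction of `F ^ n` has at least `C(q + n - 1, n) ≥ q ^ n / n!` points, and Nikodym sets
  have at least `C(q + n - 2, n)`.
* `FA.Summary.korselt_criterion`, `FA.Summary.korselt_pseudoprimes`,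
  `FA.Summary.carmichael_three_factors`, `FA.Summary.chernick_carmichael`,
  `FA.Summary.pocklington_criterion`, `FA.Summary.proth_criterion`
  (`SummaryPrimalityCriteria`): Korselt's criterion for Carmichael numbers, which are odd with at
  least three prime factors, Chernick's family, and the theorems of Pocklington and Proth.
* `FA.CarmichaelNumbers.Summary.infinitely_many_carmichael`, `carmichael_count`,
  `infinitely_many_pseudoprimes_every_base` (`SummaryCarmichaelNumbers`): the theorem of Alford,
  Granville and Pomerance: there are infinitely many Carmichael numbers, at least `x ^ δ` up to
  every large `x` for some unspecified `δ > 0`.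
* `FA.PiatetskiShapiro.Summary.prime_number_theorem_floor_rpow`,
  `FA.PiatetskiShapiro.Summary.infinite_prime_floor_rpow` (`SummaryPiatetskiShapiro`): the theorem
  of Piatetski-Shapiro: `⌊n ^ c⌋` is prime for `∼ x / (c log x)` numbers `n ≤ x` if `1 < c < 12 / 11`;
  `FA.PiatetskiShapiro.Summary.exponential_sum_primes` is the bound for `∑ e (t p ^ γ)` behind it.
* `FA.Summary.erdos_heilbronn_conjecture`, `FA.Summary.alon_nathanson_ruzsa_sums`,
  `FA.Summary.all_residues_distinct_sums` (`SummaryRestrictedSums`): sums of two distinct elements
  of `A` modulo `p` number at least `min p (2 |A| - 3)` (Dias da Silva–Hamidoune), and the theorem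
  of Alon, Nathanson and Ruzsa for two sets of different sizes.
* `FA.Summary.guth_katz_joints`, `FA.Summary.guth_katz_joints_space` (`SummaryJoints`): the joints
  theorem of Guth and Katz over any field, in any dimension `n ≥ 2` (Quilodrán; Kaplan, Sharir and
  Shustin): `L` lines have `J` joints with `J ^ (n - 1) ≤ n! L ^ n`.
* `FA.Summary.kemnitz_conjecture`, `FA.Summary.kemnitz_sharp` (`SummaryKemnitz`): Reiher's
  theorem: among `4 n - 3` elements of `(ZMod n) ^ 2` there are `n` with sum zero, and `4 n - 4`
  do not suffice.
* `FA.Summary.olson_zero_sum`, `FA.Summary.olson_davenport`, `FA.Summary.olson_elasticity`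
  (`SummaryOlson`): Olson's theorem: the Davenport constant of a finite abelian `p`-group
  `∏ ZMod (p ^ e i)` is `1 + ∑ (p ^ e i - 1)`; hence the elasticity of a number field with such a
  class group.
* `FA.Summary.frankl_wilson_intersection`, `FA.Summary.ray_chaudhuri_wilson_intersection`,
  `FA.Summary.oddtown_theorem`, `FA.Summary.frankl_wilson_ramsey` (`SummaryFranklWilson`): the
  intersection theorems of Frankl and Wilson, oddtown, and explicit Ramsey graphs on more than
  `m ^ k` vertices without cliques or independent sets of size `m`.
* `FA.Summary.cohn_irreducibility`, `FA.Summary.cohn_irreducibility_digits`,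
  `FA.Summary.murty_irreducibility` (`SummaryCohnCriterion`): Cohn's criterion in every base (a
  prime's digits give an irreducible polynomial) and Murty's criterion.
* `FA.Summary.mann_roots_of_unity_order`, `FA.Summary.mann_prime_divisor`
  (`SummaryRootRelations`): Mann's theorem with its bound: a minimal rational relation between `k`
  roots of unity has all ratios of order dividing the primorial of `k`; few terms need small
  primes.
* `FA.Summary.borsuk_conjecture_false`, `FA.Summary.kahn_kalai_borsuk`,
  `FA.Summary.kahn_kalai_bound` (`SummaryBorsuk`): the counterexample of Kahn and Kalai to
  Borsuk's conjecture: the parts of smaller diameter needed outgrow every power of the dimension.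
* `FA.Summary.gerzon_equiangular`, `FA.Summary.neumann_equiangular`,
  `FA.Summary.blokhuis_two_distance`, `FA.Summary.two_distance_example` (`SummaryEquiangular`):
  at most `d (d + 1) / 2` equiangular lines in `ℝ ^ d`, Neumann's odd integer theorem, and at most
  `C(d + 2, 2)` points with two distances (Blokhuis), `C(d + 1, 2)` being possible.
* `FA.Summary.sylvester_gallai`, `FA.Summary.erdos_lines_determined`,
  `FA.Summary.sylvester_gallai_plane` (`SummarySylvesterGallai`): finitely many points not all on
  one line have a line through exactly two of them and determine at least as many lines as points.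
* `FA.Summary.alon_friedland_kalai`, `FA.Summary.alon_friedland_kalai_multigraph`,
  `FA.Summary.four_regular_plus_edge` (`SummaryRegularSubgraphs`): for a prime `p`, degrees at most
  `2 p - 1` and more than `(p - 1)` times as many edges as vertices give a `p`-regular subgraph;
  so does a four-regular multigraph plus one edge for `p = 3`.
* `FA.Summary.colorful_caratheodory`, `FA.Summary.tverberg`, `FA.Summary.centerpoint_theorem`
  (`SummaryTverberg`): the colourful Carathéodory theorem of Bárány, the theorem of Tverberg on
  partitions of points with meeting convex hulls, and the centrepoint theorem.
* `FA.Summary.cups_and_caps`, `FA.Summary.happy_ending_theorem` (`SummaryHappyEnding`): more than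
  `choose (a + b) a` points with distinct abscissae, no three on a line, contain a cup of `a + 2`
  or a cap of `b + 2`; more than `choose (2 n - 4) (n - 2)` contain `n` in convex position.
* `FA.Summary.no_retraction_ball`, `FA.Summary.brouwer_fixed_point`,
  `FA.Summary.nash_equilibrium_exists` (`SummaryBrouwer`): no smooth retraction of a ball onto its
  sphere; the fixed point theorem of Brouwer for compact convex sets; Nash equilibria exist.
* `FA.Summary.borsuk_ulam`, `FA.Summary.no_odd_map_of_spheres`,
  `FA.Summary.no_continuous_retraction`, `FA.Summary.lusternik_schnirelmann`,
  `FA.Summary.tucker_lemma`, `FA.Summary.ham_sandwich_theorem` (`SummaryBorsukUlam`): the theorem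
  of Borsuk and Ulam in all dimensions, with its covering and bisection consequences.
* `FA.Summary.invariance_of_domain`, `FA.Summary.invariance_of_dimension`,
  `FA.Summary.poincare_miranda_theorem`, `FA.Summary.perron_frobenius_exists`
  (`SummaryInvarianceOfDomain`): invariance of domain and of dimension, zeros of maps of a cube,
  nonnegative eigenvectors of nonnegative matrices.
* `FA.Jordan.Summary.jordan_curve`, `.winding_number`, `.arc_no_separation`,
  `.eilenberg_criterion`, `.jordan_nonvacuous` (`SummaryJordanCurve`): the Jordan curve theorem
  with boundary and winding number `±1`, arcs do not separate the plane, Eilenberg's criterion by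
  continuous logarithms.
* `FA.Jordan.Summary.not_planar_K5`, `.not_planar_K33`, `.planar_K4`, `.interleaved_chords`
  (`SummaryPlanarGraphs`): `K₅` and `K₃,₃` have no plane drawing without crossings, `K₄` has one.
* `FA.Summary.hairy_ball_theorem`, `FA.Summary.sphere_fixed_or_antipodal`,
  `FA.Summary.schauder_fixed_point` (`SummaryHairyBall`): tangent fields on even-dimensional
  spheres vanish somewhere, so their self maps have fixed or antipodal points; the fixed point
  theorem of Schauder.
* `FA.Summary.bezout_inequality`, `FA.Summary.bezout_inequality_projective`,
  `FA.Summary.bezout_common_factor`, `FA.Summary.infinite_intersection_common_factor`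
  (`SummaryBezoutCurves`): two coprime plane curves of degrees `m` and `n` over any field meet in at
  most `m n` points, affinely and projectively; more common points force a common component.
* `FA.Summary.eisenstein_algebraic_series`, `FA.Summary.algebraic_series_finite_primes`,
  `FA.Summary.exp_series_transcendental`, `FA.Summary.log_series_transcendental`
  (`SummaryEisensteinTheorem`): the denominators of an algebraic power series over the rationals
  divide the powers of one integer, so the exponential and logarithmic series are transcendental.
* `FA.Summary.cayley_bacharach`, `FA.Summary.pascal_hexagon`, `FA.Summary.pappus_hexagon`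
  (`SummaryCayleyBacharach`): over any field, a cubic through eight of the nine common points of
  two coprime cubics passes through the ninth; the hexagon theorems of Pascal and of Pappus.
* `FA.Summary.brauer_theorem`, `FA.Summary.rado_single_equation`,
  `FA.Summary.not_regular_add_eq_three_mul` (`SummaryRadoEquation`): monochromatic progressions
  with a multiple of their difference; a linear equation is partition regular if and only if some
  nonempty set of its coefficients sums to zero.
* `FA.Summary.polya_integer_valued`, `FA.Summary.exponential_type_uniqueness`,
  `FA.Summary.two_cpow_extremal` (`SummaryPolyaIntegerValued`): entire functions of exponential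
  type below `log 2` with integer values at the naturals are polynomials, and the bound is sharp.
* `FA.Summary.jarnik_convex_position`, `FA.Summary.jarnik_convex_graph`,
  `FA.Summary.jarnik_circle`, `FA.Summary.jarnik_sharp` (`SummaryJarnikLattice`): Jarník's bound
  of order `N ^ (2 / 3)` for lattice points in convex position, on strictly convex graphs and on
  circles, and its sharpness.
* `FA.Summary.bombieri_pila`, `FA.Summary.bombieri_pila_dilates`,
  `FA.Summary.exp_rational_points` (`SummaryBombieriPila`): the graph of a real-analytic
  transcendental function on a segment holds at most `C H ^ ε` rational points of height at most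
  `H`, and its dilates by `t` at most `C t ^ ε` lattice points; the exponential is an example.
* `FA.Summary.furstenberg_times_two_times_three`, `FA.Summary.furstenberg_semigroup`,
  `FA.Summary.furstenberg_dense_orbit`, `FA.Summary.multiplicative_independent_dense`
  (`SummaryTimesTwoTimesThree`): Furstenberg's theorem: a closed subset of the circle mapped to
  itself by `x ↦ p x` and `x ↦ q x`, for integers `p, q > 1` with no common power, is finite or the
  whole circle; so `2 ^ m * 3 ^ n * α` is dense modulo one for irrational `α`, and the quotients
  `p ^ m / q ^ n` are dense among the positive reals.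
* `FA.Summary.khovanskii_sumset`, `FA.Summary.khovanskii_shifted`,
  `FA.Summary.khovanskii_integers` (`SummaryKhovanskii`): Khovanskii's theorem: for a finite set
  `A` in a commutative monoid the size of `h • A`, and of `B + h • A`, agrees for all large `h`
  with a polynomial of degree less than the size of `A`; for sets of integers it is linear in `h`.
* `FA.Summary.banach_tarski`, `FA.Summary.free_rotations` (`SummaryBanachTarski`): the
  Banach–Tarski paradox: the closed unit ball of three-space is the union of finitely many disjoint
  pieces which isometries carry onto a partition of two disjoint closed unit balls; the free group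
  on two letters embeds in the isometries fixing the origin.
* `FA.Summary.cauchy_polygonal`, `FA.Summary.cauchy_polygonal_four`,
  `FA.Summary.legendre_polygonal`, `FA.Summary.cauchy_four_squares_lemma`
  (`SummaryPolygonalNumbers`): Cauchy's polygonal number theorem, claimed by Fermat: every natural
  number is a sum of `m + 2` polygonal numbers `m k (k - 1) / 2 + k` of order `m + 2`, all but four
  of them `0` or `1` for `m ≥ 3`; Legendre: from `m (7 m + 13) ^ 2` on four suffice for odd `m`, and
  four with a `0` or `1` for every `m ≥ 3`.
* `FA.Summary.bruck_ryser_chowla`, `FA.Summary.schutzenberger_design`, `FA.Summary.bruck_ryser`,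
  `FA.Summary.no_projective_plane_order_six` (`SummaryBruckRyser`): the theorem of Bruck, Ryser and
  Chowla on symmetric `(v, k, l)` designs (`k - l` a square for even `v`, for odd `v` a ternary
  equation is soluble); a projective plane of order `1` or `2` modulo `4` has as order a sum of two
  squares, so none has order six.
* `FA.Summary.stormer_lemma`, `FA.Summary.stormer_consecutive_smooth`,
  `FA.Summary.largest_prime_factor_consecutive` (`SummaryStormer`): Størmer's theorem: at most
  `3 ^ k - 2 ^ k` pairs of consecutive numbers are built from `k` given primes, as a Pell solution
  whose `y` has only prime factors of `d` is fundamental; the largest prime factor of `x (x + 1)`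
  tends to infinity.
* `FA.Summary.gelfond_digit_sums`, `FA.Summary.gelfond_digit_density`,
  `FA.Summary.thue_morse_balanced` (`SummaryGelfondDigits`): Gelfond's theorem: for `m` prime to
  `q - 1` the sums of digits in base `q` are equally distributed modulo `m` on every arithmetic
  progression, up to `O(N ^ δ)` with `δ < 1` depending only on `q` and `m`; so the Thue–Morse
  sequence is balanced on every progression.
* `FA.DigitPrimes.Summary.mauduit_rivat_base`, `moebius_digit_sum`, `prime_digit_sums_base`,
  `prime_digit_sums_count_base`, `prime_digit_sums_infinite_base`, `mauduit_rivat`,
  `prime_digit_sums`, `thue_morse_primes`, `moebius_thue_morse` (`SummaryMauduitRivat`): the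
  theorem of Mauduit and Rivat in every base `q ≥ 2`: `∑_{n ≤ x} Λ n e (α s n)` and
  `∑_{n ≤ x} μ n e (α s n)` are `O (x ^ (1 - δ))` for `(q - 1) α` not an integer, so the digit
  sums of the primes are equidistributed modulo every `m` prime to `q - 1`, as Gelfond asked; in
  base two half of the primes have an even number of ones and Thue–Morse is orthogonal to `μ`;
* `FA.Summary.euler_odd_perfect`, `FA.Summary.dickson_odd_primitive`,
  `FA.Summary.dickson_odd_perfect`, `FA.Summary.odd_perfect_three_primes` (`SummaryOddPerfect`):
  an odd perfect number is `p ^ a m ^ 2` with `p ≡ a ≡ 1 (mod 4)` (Euler) and has at least three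
  prime factors; Dickson: only finitely many odd perfect numbers, indeed only finitely many odd
  primitive non-deficient numbers, have at most `k` distinct prime factors.
* `FA.Summary.lam_leung`, `FA.Summary.vanishing_sum_two_primes` (`SummaryLamLeung`): the theorem of
  Lam and Leung: a vanishing sum of `w` complex `n`-th roots of unity exists iff `w` is a natural
  combination of the prime divisors of `n`; for at most two primes such sums consist of translates
  of full sets of `p`-th roots of unity (Rédei, de Bruijn, Schoenberg).
* `FA.Summary.pisot_theorem`, `FA.Summary.pisot_characterisation`,
  `FA.Summary.pisot_pow_near_integer`, `FA.Summary.hardy_pisot`,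
  `FA.Summary.pow_rat_not_tendsto_int` (`SummaryPisot`): Pisot's theorem: if `θ > 1`, `λ ≠ 0` and
  `∑ ‖λ θ ^ n‖ ^ 2 < ∞` (distances to integers) then `θ` is a Pisot number and `λ ∈ ℚ(θ)`, and
  conversely for `λ = 1`; Hardy's version for algebraic `θ` with `‖λ θ ^ n‖ → 0`.
* `FA.Summary.salem_pisot_isClosed`, `FA.Summary.salem_pisot_isNowhereDense` (`SummarySalem`):
  Salem's theorem: the set of Pisot numbers is closed in `ℝ`, hence, being countable, nowhere dense.
* `FA.Summary.cobham_theorem`, `FA.Summary.powersOfTwo_not_automatic` (`SummaryCobham`): Cobham's
  theorem: for multiplicatively independent `k, l` a sequence has finite `k`- and `l`-kernels iff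
  it is eventually periodic; so the indicator of the powers of two is not `3`-automatic.
* `FA.Summary.weyl_metric`, `FA.Summary.koksma_metric` (`SummaryMetricEquidistribution`): for
  distinct integers `a n` the multiples `a n x` are equidistributed mod one for almost every `x`
  (Weyl), and `λ θ ^ n` for almost every `θ > 1` when `λ ≠ 0` (Koksma).
* `FA.Summary.terras_parity_vector`, `FA.Summary.terras_stopping_time` (`SummaryTerras`): Terras's
  theorem on the Collatz map: the parities of the first `k` iterates correspond to the classes
  modulo `2 ^ k`, and almost every `n` has an iterate below `n` (natural density one).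
* `FA.HuaSquares.Summary.five_prime_squares` (`SummaryHuaSquares`): Hua's theorem that every
  large `N ≡ 5 (mod 24)` is a sum of five squares of primes, with
  `…five_prime_squares_asymptotic` and `…five_prime_squares_singular_pos` (the weighted count is
  `𝔖 (N) Γ (3/2)⁵ / Γ (5/2) N ^ (3/2)` to first order, `𝔖 (N) ≥ c > 0`);
  `…exists_prime_square_exp_sum_bound`: Vinogradov's bound for `∑ Λ n e (α n²)`;
  `…prime_squares_fourth_moment`; `…prime_squares_of_modEq`, `…prime_squares_basis`: `s ≥ 5`
  squares of primes, and every large number is a sum of at most `28`.
* `FA.HallRay.Summary.hall_ray` (`SummaryHallRay`): Hall's ray: every `x ≥ 6` is in the Lagrange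
  spectrum, with `…lagrange_spectrum_min` (its least element is `√5`), `…hall_sum` and
  `…hall_decomposition` (two continued fractions with partial quotients `≤ 4` fill an interval of
  length more than `1`), `…cantor_sum_interval` (Hall's lemma), `…cf_step`, `…cf_unique`.
* `FA.Summary.erdos_lambert_irrational`, `FA.Summary.erdos_borwein_irrational`
  (`SummaryErdosBorwein`): Erdős's theorem that `∑ 1 / (t ^ n - 1) = ∑ d (n) t ^ (-n)` is
  irrational for every integer `t ≥ 2`, in particular the Erdős–Borwein constant.
* `FA.Summary.vijayaraghavan`, `FA.Summary.mahler_znumber_unique`,
  `FA.Summary.mahler_znumber_count` (`SummaryRationalPowers`): `λ q ^ n` has infinitely many limit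
  points mod one for rational non-integral `q > 1` (Vijayaraghavan); Mahler's Z-numbers are unique
  in each unit interval and number `O (x ^ 0.7)` up to `x`.
* `FA.Summary.hadamard_gap`, `FA.Summary.lacunary_two_natural_boundary` (`SummaryHadamardGap`):
  Hadamard's gap theorem: a series of radius `1` with exponents `n (k + 1) ≥ (1 + δ) n k` continues
  across no point of the unit circle, for example `∑ z ^ (2 ^ k)`.
* `FA.Summary.flatto_lagarias_pollington`, `FA.Summary.morse_hedlund` (`SummaryFLP`): the fractional
  parts of `ξ (a / b) ^ n` oscillate by at least `1 / a` (Flatto–Lagarias–Pollington); a sequence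
  with at most `m` different blocks of length `m` is eventually periodic (Morse–Hedlund).
* `FA.Summary.salem_powers_dense`, `FA.Summary.salem_powers_not_equidistributed`,
  `FA.Summary.salem_example` (`SummarySalemPowers`): the powers of a Salem number are dense but not
  equidistributed modulo one; the root `> 1` of `X⁴ - X³ - X² - X + 1` is a Salem number.
* `FA.Summary.ferenczi_mauduit`, `FA.Summary.fibonacci_word_transcendental`
  (`SummaryFerencziMauduit`): an irrational number whose digits begin, up to a bounded shift in
  proportion, with repetitions of exponent above two is transcendental (Ferenczi–Mauduit); so the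
  number with digits the Fibonacci word is transcendental in every base.
* `FA.WaringGoldbach.Summary.waring_goldbach` (`SummaryWaringGoldbach`): the Waring–Goldbach
  problem for every `k ≥ 2`: for `s ≥ k² + k + 3` every large `N ≡ s` modulo `K (k)` is a sum of
  `s` `k`-th powers of primes, with `…waring_goldbach_asymptotic` (thresholds ineffective, as
  Siegel's theorem), `…waring_goldbach_count` and `…waring_goldbach_basis`;
  `…moment_bound`: `∑ x i ^ k = ∑ y i ^ k` has
  `O (P ^ (2 t - k))` solutions up to `P` for `2 t > k (k + 1)`, with no loss of `P ^ ε`;
  `…prime_power_exp_sum_bound`: Vinogradov's bound for `∑ Λ n e (α n ^ k)`, every `k ≥ 2`;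
  `…singular_series_pos`: the singular series of the Waring–Goldbach problem is `≥ c > 0` for
  `N ≡ s` modulo `K (k)`; `…sum_prime_powers_modEq`: that congruence is necessary.
* `FA.HuaCubes.Summary.nine_prime_cubes` (`SummaryHuaCubes`): Hua's theorem that every large odd
  `N` is a sum of nine cubes of primes, with `…nine_prime_cubes_asymptotic`,
  `…nine_prime_cubes_singular_pos`, `…singular_series_eq`; `…cubes_eighth_moment`: Hua's lemma
  `O (P⁵ (log P) ^ C)`; `…exists_prime_cube_exp_sum_bound`: Vinogradov's bound for `∑ Λ n e (α n³)`;
  `…prime_cubes_of_parity`, `…prime_cubes_basis`: `s ≥ 9` cubes, and at most ten for every large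
  number.
* `FA.Summary.thue_overlap_free`, `FA.Summary.thue_square_free`, `FA.Summary.prouhet`,
  `FA.Summary.prouhet_polynomial` (`SummaryThueWords`): the Thue–Morse word has no overlaps, an
  infinite word in three letters has no squares (Thue); the two classes of `n < 2 ^ (k + 1)` by
  parity of the binary digit sum have equal power sums up to `k` (Prouhet).
* `FA.Summary.fueter_polya` (`SummaryFueterPolya`): the theorem of Fueter and Pólya: the two
  pairing polynomials of Cantor are the only polynomials of degree at most two that map `ℕ × ℕ`
  bijectively to `ℕ` (by Lindemann's theorem).
* `FA.FourCubes.Summary.davenport_four_cubes`, `exceptional_density_zero`,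
  `almost_all_sum_four_cubes`, `three_cubes_insufficient`, `davenport_sixth_moment`,
  `complete_cubic_sum_le`, `deviation_mean_square` (`SummaryFourCubes`): Davenport's theorem
  `G₁ (3) = 4`: the numbers up to `N` that are no sums of four positive cubes are `o (N)`, while
  at least `N / 9` are no sums of three cubes; the mixed sixth moment `O (P ^ (13/5 + ε))`.
* `FA.Summary.sturmian_transcendental`, `FA.Summary.hecke_mahler_transcendental`,
  `FA.Summary.danilov_transcendental` (`SummarySturmianNumbers`): numbers with Sturmian digits,
  the values `∑ ⌊n g⌋ b ^ (-n)` of the series of Hecke and Mahler and Danilov's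
  `∑ b ^ (-⌊n θ⌋)` are transcendental for every irrational slope and every base.
* `FA.Summary.copeland_erdos`, `FA.Summary.copeland_erdos_primes`,
  `FA.Summary.copeland_erdos_irrational`, `FA.Summary.copeland_erdos_stream`
  (`SummaryCopelandErdos`): the theorem of Copeland and Erdős: the digits of an increasing sequence
  with `a n ≤ n ^ (1 + ε)` written one after another form a normal, irrational number; so does
  `0.235711131719…`, the primes.
* `FA.NormalBases.Summary.cantor_measure`, `cassels_schmidt`, `cantorSet_not_normal`,
  `cassels_uncountable`, `cantor_measure_prime`, `cassels_schmidt_prime`,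
  `cassels_uncountable_prime` (`SummaryCasselsSchmidt`): the theorem of Cassels and Schmidt: for
  the Cantor measure almost every point is normal in every base that is not a power of `3`, no
  point of the Cantor set is normal in base `3`, so uncountably many reals separate these bases
  (and the same with an odd prime in place of `3`);
* `FA.NormalBases.Summary.schmidt_normality`, `schmidt_separating`, `schmidt_ae`,
  `normal_pow_iff`, `borel_isNormalIn`, `isNormalIn_iff` (`SummarySchmidtNormality`): the theorem
  of Schmidt (1960): normality in base `r` is equivalent to normality in base `s` for all reals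
  iff `r ^ a = s ^ b` for some `a, b ≥ 1`; for every `s` uncountably many reals are normal in
  every base independent of `s` and not normal in base `s`;
* `FA.JarnikBesicovitch.Summary.jarnik_besicovitch`, `jarnik_besicovitch_liouvilleWith`,
  `dimH_liouvilleWith_two`, `dimH_liouville_eq_zero`, `exists_exponent_of_dimension`
  (`SummaryJarnikBesicovitch`): for `τ ≥ 2` the reals with infinitely many rationals within
  `1 / q ^ τ`, and those Liouville with exponent `τ`, have Hausdorff dimension `2 / τ`; the
  Liouville numbers have dimension zero;
* `FA.DigitFrequency.Summary.besicovitch_eggleston`, `dimH_cantorSet`,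
  `hausdorffMeasure_cantorSet`, `dimH_not_simply_normal` (`SummaryBesicovitchEggleston`): reals
  with base-`b` digit frequencies `p` have Hausdorff dimension `(-∑ p j log p j) / log b`; the
  Cantor set has dimension `log 2 / log 3` with positive finite measure; the reals not simply
  normal in base `b` have dimension one;
* `FA.JarnikBad.Summary.jarnik_badly_approximable`, `jarnik_bounded_digits`,
  `volume_badly_approximable` (`SummaryJarnikBad`): the theorem of Jarník (1928): the badly
  approximable reals (the irrationals with bounded continued fraction digits) form a null set
  of Hausdorff dimension one;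
* `FA.GoodTheorem.Summary.good_dimension`, `exists_real_with_digits` (`SummaryGoodTheorem`):
  the theorem of Good (1941): the irrationals whose continued fraction digits tend to infinity
  form a set of Hausdorff dimension one half;
* `FA.SchmidtGames.Summary.winning_iInter`, `dimH_winning`, `schmidt_bad_winning`,
  `dimH_iInter_translates_bad` (`SummarySchmidtGames`): Schmidt (1966): winning sets are stable
  under countable intersection and have Hausdorff dimension one; the badly approximable reals
  are `α`-winning for `α ≤ 1 / 2`, so countably many translates meet in dimension one;
* `FA.SchmidtGames.Summary.dimH_absolutely_nonnormal`, `dimH_bad_absolutely_nonnormal`,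
  `winning_orbit_avoids`, `dimH_all_orbits_avoid` (`SummaryAbsolutelyNonNormal`): orbits `b ^ k x`
  avoiding a point modulo one give winning sets; the reals normal in no base (even the badly
  approximable ones) form a set of Hausdorff dimension one;
* `FA.SelfSimilar.Summary.hutchinson`, `similarity_dimension`, `moran_hutchinson`,
  `sierpinski_triangle` (`SummaryMoranHutchinson`): contractions have a unique attractor; with
  the open set condition similarities give dimension `s`, `∑ r i ^ s = 1`, and positive finite
  measure in that dimension; the Sierpiński triangle has dimension `log 3 / log 2`;
* `FA.SimultaneousJarnik.Summary.simultaneous_jarnik_besicovitch`,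
  `simultaneous_dirichlet_exponent`, `simultaneous_liouville` (`SummarySimultaneousJarnik`): the
  simultaneous theorem of Jarník and Besicovitch: for `τ ≥ 1 + 1 / d` the vectors of `ℝ ^ d` with
  infinitely many approximations within `1 / q ^ τ` in every coordinate have dimension
  `(d + 1) / τ`;
* `FA.SchmidtGames.Summary.schmidt_badVectors_winning`, `dimH_winning_pi`, `dimH_badVectors`,
  `dimH_iInter_translates_badVectors` (`SummarySchmidtVectors`): Schmidt: the badly
  approximable vectors of `ℝ ^ d` are `α`-winning for `α ≤ 1 / 2`; winning sets have dimension
  `d`, so countably many translates of the badly approximable vectors meet in dimension `d`;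
* `FA.Transference.Summary.khintchine_transference_forms`, `very_well_approximable_iff`,
  `khintchine_transference_simultaneous`, `badly_approximable_forms_iff`, `schmidt_badForms`
  (`SummaryTransference`): Khintchine transference between simultaneous approximation and linear
  forms; very well and badly approximable vectors are the same for both, so the badly
  approximable linear forms are winning, of dimension `d`;
* `FA.InhomogeneousBad.Summary.inhomogeneous_bad_winning`, `dimH_inhomogeneous_bad`,
  `dimH_bad_and_targets`, `dimH_inhomogeneous_bad_real` (`SummaryInhomogeneousBad`): for every
  `x` in `ℝ ^ d` the targets badly approximable by `q x` modulo one are winning, of dimension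
  `d`, even together with the badly approximable vectors;
* `FA.Lacunary.Summary.lacunary_winning`, `dimH_lacunary`, `lacunary_forms`, `dimH_bad_geometric`,
  `katznelson_colorable`, `katznelson_colorable_int` (`SummaryLacunary`): the question of Erdős
  on lacunary `t n`: the `θ` keeping `t n θ` away from targets modulo one are winning, and the
  graph with edges at the distances `t n` has finite chromatic number (Katznelson);
* `FA.Dani.Summary.dani_bounded_iff_badly_approximable`, `dani_divergent_iff_singular`,
  `dimH_bounded_orbits` (`SummaryDani`): the Dani correspondence: the diagonal trajectory of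
  the lattice of `x` in `ℝ ^ d` is bounded iff `x` is badly approximable and divergent iff `x`
  is singular; bounded trajectories are winning, of dimension `d`;
* `FA.HoweMoore.Summary.mautner_phenomenon`, `howe_moore`, `howe_moore_orthogonal`,
  `ergodic_mixing`, `diagonal_flow_mixing` (`SummaryHoweMoore`): matrix coefficients of unitary
  representations of `SL(2, ℝ)` vanish at infinity away from fixed vectors (Howe, Moore), so its
  ergodic actions preserving a probability measure are mixing;
* `FA.SingularVectors.Summary.khintchine_singular_vectors`, `khintchine_uniform_rate`,
  `singular_iff_rational`, `divergent_trajectories_uncountable` (`SummarySingularVectors`):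
  Khintchine (1926): for `d ≥ 2` uncountably many singular vectors lie off all rational
  hyperplanes, while on the line only the rationals are singular;
* `FA.Nondivergence.Summary.sprindzuk_mahler`, `sprindzuk_small_values`,
  `sprindzuk_simultaneous`, `polynomial_curves_extremal`, `quantitative_nondivergence`
  (`SummarySprindzuk`): the Kleinbock–Margulis quantitative nondivergence theorem along
  polynomial curves, whence Mahler's conjecture (Sprindžuk): almost every point
  `(x, x ^ 2, …, x ^ d)` is not very well approximable;
* `FA.Nondivergence.Summary.nondegenerate_curves_extremal`, `analytic_curves_extremal`,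
  `circle_extremal` (`SummaryExtremalCurves`): the Kleinbock–Margulis theorem for curves:
  almost every nondegenerate point of a `C ^ N` curve is not very well approximable, so
  every analytic curve in no affine hyperplane is extremal;
* `FA.Nondivergence.Summary.margulis_nondivergence`, `unipotent_quantitative_nondivergence`,
  `dani_margulis_nondivergence`, `polynomial_orbit_not_divergent` (`SummaryUnipotentFlows`):
  the theorem of Margulis (1971) that unipotent flows on the unimodular lattices in `ℝ ^ n`
  do not diverge, in the quantitative form of Dani and Margulis for polynomial orbits;
* `FA.Nondivergence.Summary.baker_conjecture`, `baker_sprindzuk`, `baker_sprindzuk_analytic`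
  (`SummaryStrongExtremality`): the conjectures of Baker and Sprindžuk proved by Kleinbock and
  Margulis: nondegenerate curves, in particular `(x, x ^ 2, …, x ^ d)`, are strongly extremal,
  so for almost every parameter multiplicative approximation has exponent one;
* `FA.MahlerClass.Summary.mahler_classes`, `a_numbers_algebraic`, `transcendental_exponent`,
  `liouville_u_numbers`, `almost_every_exponent`, `almost_every_s_number`, `classes_invariant`
  (`SummaryMahlerClassification`): the classification of the real numbers by Mahler: the
  `A`-numbers are the algebraic ones, Liouville numbers are `U`-numbers, almost every real is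
  an `S`-number with `w n = n` for every `n`, and algebraically dependent transcendental
  numbers share their class;
* `FA.Nondivergence.Summary.sprindzuk_conjecture`, `analytic_manifolds_extremal`
  (`SummarySprindzukConjecture`): the conjecture of Sprindžuk (1980) proved by Kleinbock and
  Margulis: analytic submanifolds of any dimension in no affine hyperplane are strongly
  extremal;
* `FA.KhintchineGroshev.Summary.khintchine_groshev_divergence`,
  `khintchine_groshev_convergence`, `nonparallel_forms_borel_cantelli`
  (`SummaryKhintchineGroshev`): the theorem of Khintchine and Groshev for linear forms in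
  `d ≥ 2` variables: `|m · x + n| < ψ |m|` has infinitely many solutions for almost all or
  almost no `x` as `∑ q ^ (d - 1) ψ q` diverges or converges, for antitone `ψ`;
* `FA.SimultaneousKhintchine.Summary.khintchine_simultaneous_divergence`,
  `khintchine_simultaneous_convergence`, `badly_approximable_vectors_null`,
  `simultaneous_approximation_log` (`SummarySimultaneousKhintchine`): Khintchine (1926) on
  simultaneous approximation: `max |q x i - p i| < ψ q` infinitely often for almost all or
  almost no `x` in `ℝ ^ d` as `∑ ψ q ^ d` diverges or converges, for antitone `ψ`;
* `FA.MultiplicativeKhintchine.Summary.gallagher_multiplicative_divergence`,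
  `gallagher_multiplicative_convergence`, `littlewood_almost_every`,
  `multiplicative_exponent_two_sharp` (`SummaryMultiplicativeKhintchine`): Gallagher (1962) on
  multiplicative approximation in the plane: `‖q x‖ ‖q y‖ < ψ q` infinitely often for almost
  all or almost no pairs as `∑ ψ q log q` diverges or converges, for antitone `ψ`;
  Littlewood almost everywhere;
* `FA.Kurzweil.Summary.kurzweil_theorem`, `kurzweil_goldenRatio` (`SummaryKurzweil`): Kurzweil
  (1955): `α` is badly approximable iff for every antitone `ψ` with divergent sum almost
  every `γ` has infinitely many `q` with `‖q α - γ‖ < ψ q` (shrinking targets of rotations);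
* `FA.DirichletImprovable.Summary.davenport_schmidt_improvable`, `improvable_almost_never`,
  `improvable_iff_bounded_digits`, `exp_one_not_improvable`, `quadratic_improvable`
  (`SummaryDirichletImprovable`): Davenport–Schmidt: Dirichlet's theorem is improvable at an
  irrational iff it is badly approximable; hence almost nowhere and not at `e`;
* `FA.DoublyMetric.Summary.doubly_metric_strong_law`, `doubly_metric_divergence`,
  `doubly_metric_convergence` (`SummaryDoublyMetric`): Cassels: for any `ψ ≥ 0` almost every
  `(x, γ)` has infinitely or finitely many `q` with `‖q x i - γ i‖ < ψ q` for all `i` as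
  `∑ ψ q ^ d` diverges or converges, and asymptotically `∑ (2 ψ q) ^ d` of them up to `N`;
* `FA.LeVeque.Summary.leveque_u_numbers`, `leveque_number_degree` (`SummaryLeVeque`): LeVeque
  (1953): for every `m` there are `U`-numbers with `w n` finite for `n < m` and `w m` infinite,
  such as the `m`-th root of `2 + 4 ∑ 3 ^ (-(k + 1)!)`;
* `FA.WeissCantor.Summary.weiss_cantor`, `cantor_liouville_null`, `weiss_bernoulli`,
  `weiss_restricted_digits` (`SummaryWeiss`): Weiss (2001): almost every point of the Cantor
  set, of any restricted-digit set and of any Bernoulli digit measure has irrationality
  exponent exactly two;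
* `FA.BorelBernstein.Summary.borel_bernstein`, `borel_bernstein_divergence`,
  `borel_bernstein_convergence`, `partial_quotients_unbounded`, `digit_growth`
  (`SummaryBorelBernstein`): Borel–Bernstein: almost every number has infinitely many partial
  quotients `a_n ≥ φ n` exactly when `∑ 1 / φ n` diverges, for any `φ > 0`;
* `FA.DoeblinLenstra.Summary.doeblin_lenstra`, `doeblin_lenstra_mean`,
  `natural_extension_invariant`, `natural_extension_equidistribution` (`SummaryDoeblinLenstra`):
  Bosma–Jager–Wiedijk: for almost every `x` the law of `θ_n = q_n |q_n x - p_n|` and its mean
  `1 / (4 log 2)`; `(T ^ n x, q_(n-1) / q_n)` equidistributed for the natural extension;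
* `FA.GaussKuzmin.Summary.gauss_kuzmin_levy`, `gauss_problem`, `gauss_problem_limit`,
  `partial_quotient_law`, `cylinder_mixing`, `gauss_map_mixing` (`SummaryGaussKuzmin`): Gauss,
  Kuzmin, Lévy: `vol {x | T ^ n x ∈ A}` tends to the Gauss measure at the rate `(11 / 12) ^ n`,
  uniformly in `A` and in any cylinder; the Gauss map is strongly mixing;
* `FA.DigitProducts.Summary.digit_products_zero_one`, `digit_products_divergence`,
  `digit_products_convergence`, `digit_products_growth` (`SummaryDigitProducts`): Kleinbock and
  Wadleigh: for `φ ≥ 2`, almost surely `a_n a_(n+1) ≥ φ n` infinitely often exactly when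
  `∑ log (φ n) / φ n` diverges;
* `FA.QuotientSums.Summary.khinchin_weak_law`, `philipp_divergence`, `philipp_convergence`,
  `philipp_no_strong_law` (`SummaryQuotientSums`): Khinchin: `(a_1 + ⋯ + a_n) / (n log n)`
  tends to `1 / log 2` in measure; Philipp: for positive `b n` with `b n / n` nondecreasing the
  sums over `b n` have upper limit infinity or limit zero, as `∑ 1 / b n` diverges or converges;
* `FA.UniformSquare.Summary.davenport_schmidt_uniform`, `uniform_exponent_le`,
  `davenport_schmidt_cubic_integers`, `davenport_schmidt_transcendental`
  (`SummaryUniformSquare`): Davenport–Schmidt: for `ξ` neither rational nor quadratic the uniform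
  exponent of `(ξ, ξ ^ 2)` is at most `(√5 - 1) / 2`, and infinitely many algebraic integers `α`
  of degree at most three satisfy `|ξ - α| ≪ H ^ (-(3 + √5) / 2)`, `H` the height of a monic cubic;
* `FA.JarnikIdentity.Summary.jarnik_identity`, `jarnik_identity_iSup`,
  `jarnik_linear_to_simultaneous`, `jarnik_simultaneous_to_linear`, `linear_exponent_square_le`
  (`SummaryJarnikIdentity`): Jarník: for `1, θ1, θ2` independent over `ℚ` the uniform exponents
  satisfy `λ = 1 - 1 / ω`, and for `(ξ, ξ ^ 2)` one has `ω ≤ (3 + √5) / 2`;
* `FA.ExtremalReals.Summary.roy_extremal_number`, `davenport_schmidt_sharp`
  (`SummaryExtremalReals`): Roy: an explicit transcendental `ξ` attains the exponents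
  `(√5 - 1) / 2` and `(3 + √5) / 2` of Davenport and Schmidt and of Jarník;
* `FA.LittlewoodCubic.Summary.cassels_swinnerton_dyer`, `littlewood_liminf_eq_zero`,
  `littlewood_cubic_irrational`, `de_mathan_teulie_quadratic`
  (`SummaryLittlewoodCubic`): Cassels–Swinnerton-Dyer: `liminf n ‖n α‖ ‖n β‖ = 0` for `α, β` in
  one real cubic field; the mixed Littlewood conjecture for quadratic irrationals;
* `FA.WirsingApprox.Summary.wirsing_approximation`, `wirsing_approximation_transcendental`
  (`SummaryWirsingApprox`): Wirsing: a real `ξ` algebraic of no degree `≤ n` has infinitely many
  real algebraic approximations `α` of degree `≤ n` with `|ξ - α| ≪ H(α) ^ (-(n + 3) / 2)`;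
* `FA.KoksmaClass.Summary.koksma_exponent_bounds`, `wirsing_exponent`, `koksma_mahler_classes`
  (`SummaryKoksmaClass`): `w n - n + 1 ≤ w* n ≤ w n`, `(n + 1) / 2 ≤ w* n` for transcendental
  `x`, so Koksma's classes `A*`, `S*`, `T*`, `U*` are Mahler's `A`, `S`, `T`, `U`;
* `FA.KoksmaClass.Summary.wirsing_second_inequality`, `koksma_exponent_minimal`,
  `almost_every_koksma_exponent`, `almost_every_s_star_number` (`SummaryKoksmaSecond`): Wirsing's
  `w n / (w n - n + 1) ≤ w* n`, so almost every real number has `w* n = n` for all `n ≥ 1`;
* `FA.KoksmaClass.Summary.algebraic_mahler_exponent`, `algebraic_koksma_exponent`, `roth_exponents`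
  (`SummaryAlgebraicExponents`): Schmidt: a real algebraic number of degree `d` has
  `w n = w* n = min n (d - 1)` for every `n ≥ 1`; Roth's exponent is the case `n = 1`;
* `FA.ExpMeasure.Summary.popken_measure`, `exp_one_exponents`, `exp_one_s_number`
  (`SummaryExpMeasure`): Popken's transcendence measure `|P(e)| ≫ H(P) ^ (-n - ε)`, hence
  `w n (e) = w* n (e) = n` for every `n ≥ 1`, and Mahler's theorem that `e` is an `S`-number;
* `FA.UniformExp.Summary.uniform_exponent_bounds`, `uniform_exponent_algebraic`,
  `almost_every_uniform_exponent`, `exp_one_uniform_exponent` (`SummaryUniformExponent`):
  Davenport–Schmidt: `n ≤ ŵ n ≤ min (w n) (2 n - 1)` for transcendental numbers; `ŵ n = n`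
  almost everywhere and at `e`;
* `FA.ExpMeasure.Summary.exp_rat_s_number`, `exp_rat_not_liouville`,
  `exp_rat_independent_u_number`, `exp_one_independent_liouville`,
  `exp_one_independent_liouvilleNumber` (`SummaryExpLiouville`): Mahler: `e ^ r` is an `S`-number
  for rational `r ≠ 0`, algebraically independent of every Liouville and every `U`-number;
* `FA.LiouvilleNumbers.Summary.erdos_sum_liouville`, `erdos_product_liouville`,
  `sum_two_u_numbers`, `maillet_rational_function` (`SummaryLiouvilleNumbers`): Erdős: every real
  is a sum, every nonzero real a product, of two Liouville numbers; Maillet: nonconstant rational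
  functions over `ℚ` preserve Liouville numbers;
* `FA.ExpMeasure.Summary.exp_rat_linear_forms`, `exp_rat_simultaneous` (`SummaryExpForms`):
  for distinct rationals `|∑ a j e ^ (r j)| ≫ ‖a‖ ^ (-n - ε)`; so distinct nonzero rational powers
  of `e` are simultaneously approximable only to the exponent `1 / n` (Mahler, Baker);
* `FA.Summary.champernowne_transcendental`, `champernowne_transcendental_int`
  (`SummaryChampernowneTranscendence`): Mahler (1937): Champernowne's number is transcendental in
  every base, by approximations with denominators `b ^ L (b ^ k - 1) ^ 2` and Ridout's theorem;
* `FA.UnitSeries.Summary.unit_series_transcendental`, `liouvilleWith_transcendental`,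
  `cahen_series`, `cahen_transcendental`, `cahen_exponent` (`SummaryUnitSeries`): by Roth, fast
  growing series of unit fractions are transcendental; so is Cahen's constant, of irrationality
  exponent at least `3` (Davison–Shallit);
* `FA.Mahler.Summary.transcendental_fredholm_series`, `transcendental_golomb_series`,
  `transcendental_fermat_reciprocals` (`SummaryMahlerFermat`): Mahler's method: `∑ α ^ 2 ^ k` and
  `∑ α ^ 2 ^ k / (1 + α ^ 2 ^ k)` are transcendental at algebraic `0 < |α| < 1`, so the sum of
  the reciprocals of the Fermat numbers is transcendental;
* `FA.KempnerFraction.Summary.kempner_badly_approximable`, `kempner_bounded_digits`,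
  `kempner_exponent`, `exists_transcendental_badly_approximable` (`SummaryKempnerFraction`):
  Shallit: the transcendental `∑ b ^ (-2 ^ k)` have bounded partial quotients, exponent `2`;
* `FA.Mahler.Summary.transcendental_paperfolding_series`, `transcendental_paperfolding_number`,
  `transcendental_lucas_reciprocals`, `millin_series` (`SummaryMahlerPaperfolding`): Mahler: the
  paperfolding numbers and `∑ 1 / L (2 ^ k)` are transcendental; `∑ 1 / F (2 ^ k) = (7 - √5) / 2`;
* `FA.Tschakaloff.Summary.tschakaloff_irrational`, `partial_theta_irrational`,
  `inverse_square_powers_irrational` (`SummaryTschakaloff`): Tschakaloff (1921): for integral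
  `|q| ≥ 2`, rational `r ≠ 0`: `∑ r ^ n / q ^ C(n, 2)`, `∑ r ^ n / q ^ (n ^ 2)` are irrational;
* `FA.EngelSeries.Summary.engel_expansion`, `engel_rational_iff`, `engel_exp_one`,
  `luroth_expansion`, `luroth_rational_iff` (`SummaryEngelSeries`): Engel and Lüroth series are
  unique, rational exactly when eventually constant, resp. periodic; `e - 2` is irrational;
* `FA.Lochs.Summary.lochs_theorem`, `lochs_decimal` (`SummaryLochs`): Lochs (1964): for almost
  every real, `n` digits in base `b` determine `(6 log 2 log b / π ^ 2 + o (1)) n` partial
  quotients, uniformly over the whole interval of reals with those digits;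
* `FA.EuclideanSteps.Summary.lame_fibonacci`, `lame_five_digits`, `heilbronn_quadruples`,
  `euclid_average_steps` (`SummaryEuclideanSteps`): Lamé on the Euclidean algorithm, and Heilbronn
  and Dixon: over `a < b ≤ N` it takes `(12 log 2 / π ^ 2) log N + O (1)` divisions on average;
* `questionMark_singular`, `questionMark_not_absolutelyContinuous` (`SummaryQuestionMarkSingular`):
  Denjoy and Salem: Minkowski's question-mark function has derivative zero almost everywhere and
  is not absolutely continuous;
* `FA.BernoulliConvolution.Summary.erdos_charFun_no_decay`, `erdos_bernoulli_convolution`,
  `bernoulli_convolution_goldenRatio` (`SummaryBernoulliConvolution`): Erdős (1939): at a Pisot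
  number `θ ≠ 2` the Bernoulli convolution is not absolutely continuous;
* `FA.BernoulliConvolution.Summary.erdos_salem_decay`, `salem_no_decay_pisot`,
  `bernoulli_convolution_two_decay` (`SummarySalemDecay`): Salem (1943): the transform of the
  Bernoulli convolution tends to zero exactly for `θ = 2` and the `θ > 1` that are not Pisot;
* `FA.BernoulliConvolution.Summary.jessen_wintner_pure_type`, `bernoulli_convolution_unique`,
  `erdos_singular`, `bernoulli_convolution_goldenRatio_singular`, `bernoulli_convolution_two`
  (`SummaryPureType`): Jessen–Wintner: a Bernoulli convolution is absolutely continuous or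
  singular; so singular at a Pisot `θ ≠ 2`, and uniform on `[-2, 2]` at `θ = 2`;
* `FA.BernoulliConvolution.Summary.garsia_bounded_density`, `garsia_absolutely_continuous`,
  `garsia_separation`, `garsia_root_two` (`SummaryGarsia`): Garsia: at an algebraic integer
  `θ > 1` of norm `± 2` with all conjugates outside the unit circle, as `2 ^ (1 / m)`, the
  Bernoulli convolution is absolutely continuous with bounded density;
* `FA.BernoulliConvolution.Summary.solomyak_absolutely_continuous`, `solomyak_singular_null`,
  `solomyak_absolutely_continuous_base`, `solomyak_transversality` (`SummarySolomyak`):
  Solomyak, after Peres–Solomyak: for almost every `θ` in `[25/16, 2)` the Bernoulli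
  convolution is absolutely continuous;
* `FA.BernoulliConvolution.Summary.solomyak_theorem`, `solomyak_theorem_ratio`,
  `solomyak_theorem_singular_null`, `absolutely_continuous_of_sq` (`SummarySolomyakFull`):
  Solomyak: for almost every `θ` in `(1, 2)` the Bernoulli convolution is absolutely
  continuous;
* `FA.Frostman.Summary.frostman_lemma`, `marstrand_projection` (`SummaryMarstrand`):
  Frostman: a compact set of positive `s`-dimensional Hausdorff measure carries a measure with
  `μ (closedBall x r) ≤ C r ^ s`; Marstrand: a compact plane set of dimension above `1` projects
  to positive length in almost every direction;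
* `FA.Frostman.Summary.marstrand_dimension`, `marstrand_dimension_of_le_one`
  (`SummaryMarstrandDimension`): Marstrand: a compact plane set projects to a set of dimension
  `min (dimH K) 1` in almost every direction;
* `FA.Frostman.Summary.davies_kakeya`, `davies_kakeya_hausdorff`, `ae_slice_null`
  (`SummaryKakeyaPlane`): Davies: a compact plane set with a unit segment in every direction
  has Hausdorff dimension `2`;
* `FA.Frostman.Summary.besicovitch_kakeya`, `besicovitch_kakeya_dimension`,
  `null_sections_all_slopes` (`SummaryBesicovitchKakeya`): Besicovitch, by Körner: some compact
  plane set of measure zero (necessarily of dimension `2`) has a unit segment in every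
  direction;
* `FA.Frostman.Summary.kaufman_exceptional_directions`, `kaufman_direction_exists`,
  `dimension_product_inequality` (`SummaryKaufman`): Kaufman: for `t` below the dimension of a
  compact plane set, compact sets of angles with projections of dimension below `t` have
  dimension at most `t`; the product inequality `dimH A + dimH B ≤ dimH (A ×ˢ B)`
  for nonempty compact sets;
* `FA.Frostman.Summary.edgar_miller`, `edgar_miller_dimension`, `edgar_miller_subfield`
  (`SummaryEdgarMiller`): Edgar–Miller: a subring of `ℝ` containing a compact set of positive
  Hausdorff dimension is `ℝ`, and a proper `σ`-compact subring has dimension `0`;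
* `FA.BernoulliConvolution.Summary.erdos_kahane`, `erdos_kahane_uniform`,
  `erdos_decay_near_one`, `erdos_smooth_near_one` (`SummaryErdosKahane`): Erdős–Kahane: for
  almost every `θ > 1` the transform of the Bernoulli convolution has power decay; Erdős 1940:
  for almost every `θ` close to `1` its density is of class `C^k`;
* `FA.Frostman.Summary.falconer_distance_set`, `falconer_bounded_density`,
  `circle_fourier_decay` (`SummaryFalconer`): Falconer: a compact plane set of dimension above
  `3/2` has a distance set of positive length, with a bounded density of the distance away
  from `0`;
* `FA.Frostman.Summary.fourier_dimension_le`, `fourier_dimension_segment`,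
  `fourier_dimension_circle` (`SummaryFourierDimension`): the Fourier dimension of a set in a
  Euclidean space is at most its Hausdorff dimension; it is `0` for a segment in dimension at
  least `2` and `1` for the circle;
* `FA.Frostman.Summary.cantor_no_rajchman_measure`, `cantor_fourier_dimension`
  (`SummaryCantorFourier`): no probability measure on the Cantor set has transform tending to
  `0`, so its Fourier dimension is `0`, below its Hausdorff dimension `log 2 / log 3`;
* `FA.TrigUniqueness.Summary.cantor_uniqueness`, `cantor_uniqueness_sum`, `cantor_lebesgue`
  (`SummaryCantorUniqueness`): Cantor: a trigonometric series whose symmetric partial sums tend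
  to `0` outside a closed countable set has all coefficients `0`;
* `FA.TrigUniqueness.Summary.rajchman_hset_uniqueness`, `cantorSet_uniqueness`
  (`SummaryRajchmanUniqueness`): Rajchman: H-sets, in particular the middle-third Cantor set,
  are sets of uniqueness for trigonometric series;
* `FA.TrigUniqueness.Summary.rajchman_measure_multiplicity`, `positive_measure_multiplicity`,
  `salem_cantor_multiplicity`, `cantorSet_isUniquenessSet` (`SummarySetsOfMultiplicity`): closed
  periodic sets of uniqueness are null and carry no Rajchman measure; Salem: for `θ > 2` that is
  no Pisot number the symmetric Cantor set of ratio `1 / θ` is a null set of multiplicity;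
* `FA.TrigUniqueness.Summary.salem_zygmund`, `bary_rational` (`SummarySalemZygmund`): Salem and
  Zygmund: for `θ > 2` the symmetric Cantor set of ratio `1 / θ` is a set of uniqueness exactly
  when `θ` is a Pisot number; for rational `θ` exactly when it is an integer (Bary);
* `FA.BetaExpansion.Summary.bertrand_schmidt`, `bertrand_schmidt_rational`, `schmidt_converse`,
  `beta_expansion_hasSum` (`SummaryBetaExpansion`): Bertrand and Schmidt: at a Pisot `β` every
  point of `ℚ(β) ∩ [0, 1)` has an eventually periodic greedy expansion; if all rationals there
  have one, `β` is an algebraic integer with the other conjugates in the closed unit disc;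
* `FA.SalemLimits.Summary.salem_limit`, `pisot_subset_closure_salem`, `exists_salem_gt`
  (`SummarySalemLimits`): Salem: every Pisot number is a limit of Salem numbers;
* `FA.RieszProducts.Summary.sidon_lacunary_sum`, `sidon_bounded_function`,
  `riesz_product_exists_unique`, `zygmund_riesz_product`, `riesz_singular_example`
  (`SummaryRieszProducts`): Sidon on lacunary series; a Riesz product is singular iff
  `∑ ‖c k‖²` diverges (Zygmund), absolutely continuous otherwise;
* `FA.LacunaryCLT.Summary.salem_zygmund_clt`, `salem_zygmund_clt_subset`, `lacunary_clt_example`
  (`SummaryLacunaryCLT`): Salem and Zygmund: lacunary trigonometric sums with gap ratio at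
  least 3 are asymptotically Gaussian on every set of positive measure, provided the square mean
  `A_K` tends to infinity and no amplitude exceeds `o (A_K)`;
* `FA.WienerTheorems.Summary.wiener_inverse`, `wiener_atoms`, `wiener_continuous_iff`,
  `rajchman_noAtoms` (`SummaryWienerTheorems`): Wiener: reciprocals of absolutely convergent
  Fourier series; the atoms of a measure from the mean squares of its transform;
* `FA.DuBoisReymond.Summary.du_bois_reymond`, `du_bois_reymond_residual`
  (`SummaryDuBoisReymond`): continuous functions with unbounded Fourier partial sums;
* `FA.RothDiscrepancy.Summary.roth_discrepancy`, `roth_discrepancy_sup`, `van_aardenne_ehrenfest`,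
  `van_der_corput_discrepancy` (`SummaryRothDiscrepancy`): irregularities of distribution: Roth's
  lower bound `√(log N)`, no just-distributed sequence, the van der Corput sequence;
* `FA.RothDiscrepancy.Summary.schmidt_discrepancy`, `schmidt_discrepancy_sequence`
  (`SummaryRothDiscrepancy`): W. M. Schmidt: the discrepancy reaches multiples of `log N`, sharp;
* `FA.RothDiscrepancy.Summary.hammersley_discrepancy`, `badly_approximable_discrepancy`,
  `golden_ratio_discrepancy` (`SummaryRothDiscrepancy`): the matching bounds `O (log N)`;
* `FA.BoundedRemainder.Summary.hecke_kesten`, `half_interval_not_bounded`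
  (`SummaryBoundedRemainder`): the bounded remainder intervals of `n α`, `α` irrational, are those
  with length in `αℤ + ℤ`;
* `FA.PisotLimitPoints.Summary.pisot_finite_limit_points`, `infinite_limit_points_of_not_isPisot`
  (`SummaryPisotLimitPoints`): Pisot (1938): for algebraic `θ > 1` and `λ ≠ 0` the fractional
  parts of `λ θ ^ n` have finitely many limit points exactly for Pisot `θ` and `λ ∈ ℚ(θ)`;
* `FA.DubickasGap.Summary.dubickas_gap`, `bounded_pisot_criterion` (`SummaryDubickasGap`):
  Dubickas (2006): for algebraic `θ > 1` and `λ ≠ 0` the fractional parts of `λ θ ^ n` oscillate by
  at least `1 / L`, `L` the length of an integral polynomial with root `θ`, unless `θ` is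
  Pisot or Salem and `λ ∈ ℚ(θ)`;
* `FA.DubickasGap.Summary.pisot_small_distance`, `pisot_small_distance_exists`
  (`SummaryPisotSmallDistance`): Pisot (1938): for any real `θ > 1` and `λ ≥ 1`, all `λ θ ^ n`
  within `1 / (2 e θ (θ + 1) (3 + log λ))` of integers force `θ` Pisot or Salem and `λ ∈ ℚ(θ)`;
* `FA.GlasnerDilates.Summary.glasner`, `glasner_uniform` (`SummaryGlasner`): Glasner (1979): an
  infinite set modulo one has `ε`-dense integer dilates; Alon–Peres: so has any large finite one;
* `FA.DubickasGap.Summary.salem_characterisation` (`SummarySalemCharacterisation`): Salem: an
  algebraic `θ > 1` is Pisot or Salem iff for every `ε > 0` some `λ ≠ 0` has all `λ θ ^ n` within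
  `ε` of the integers;
* `FA.SiegelShidlovskii.Summary.siegel_shidlovskii`, `bessel_linearIndependent`, `bessel_irrational`
  (`SummarySiegelShidlovskii`): Siegel and Shidlovskii over `ℚ`: for independent E-functions
  solving a linear differential system the values at rational nonsingular `α ≠ 0` are linearly
  independent; Siegel: `1`, `J₀ α`, `J₀′ α` are so;
* `FA.SiegelShidlovskii.Summary.bessel_algebraicIndependent`, `bessel_transcendental`,
  `bessel_functions_algebraicIndependent` (`SummaryBesselTranscendence`): Siegel 1929: `J₀ α`
  and `J₀′ α` are algebraically independent for rational `α ≠ 0`, as are the functions;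
* `FA.SiegelShidlovskii.Summary.siegel_shidlovskii_algebraic`, `siegel_shidlovskii_rank`,
  `bessel_algebraicIndependent_algebraic` (`SummarySiegelShidlovskiiAlgebraic`): Siegel and
  Shidlovskii at nonsingular algebraic points: algebraic independence of the values of
  algebraically independent E-functions with rational coefficients solving such a system;
  `J₀ α`, `J₀′ α` are algebraically independent for algebraic `α ≠ 0`;
* `FA.SiegelShidlovskii.Summary.bourget_hypothesis`, `bessel_order_transcendental`,
  `arithmetic_fraction_transcendental` (`SummaryBourgetHypothesis`): Siegel: no common zero
  of `J_n`, `J_(n+m)` but `0`; the continued fraction `[0; 1, 2, 3, …]` is transcendental;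
* `FA.SiegelShidlovskii.Summary.siegel_values_independent`, `siegel_functions_independent`,
  `progression_fraction_transcendental` (`SummarySiegelBesselTheorem`): Siegel 1929 in full for
  `K_λ`, `λ` rational; continued fractions in arithmetic progression are transcendental;
* `FA.SiegelShidlovskii.Summary.incomplete_gamma_independent`, `phi_values_independent`,
  `gaussian_integral_independent` (`SummaryIncompleteGamma`): Shidlovskii: the incomplete gamma
  integral and `∫₀ᵅ exp (-t²) dt` are transcendental at algebraic points, jointly with `exp`;
* `expIntegral_efunctions`, `expIntegral_functions_independent`,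
  `expIntegral_values_independent`, `exponential_integral_transcendental`
  (`SummaryExponentialIntegral`, names in `FA.ExponentialIntegral.Summary`): Shidlovskii: `exp`
  and the iterates `∑ z ^ n / (n! n ^ k)` of the exponential integral are algebraically
  independent, as are their values at algebraic `α ≠ 0`; so `Ein α` is transcendental;
* `expIntegral_multiples_independent`, `expIntegral_values_several_points`,
  `sine_cosine_integral_independent`, `hyperbolic_sine_integral_independent`,
  `ein_one_two_independent` (`SummarySineIntegral`, names in `FA.SineIntegral.Summary`): `exp α`
  and the iterated exponential integrals at several rational multiples of an algebraic `α ≠ 0`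
  are algebraically independent; so are `sin x`, `Si x`, `Cin x`, and `e`, `Ein 1`, `Ein 2`;
* `FA.Gompertz.Summary.euler_or_gompertz_transcendental`, `gompertz_integral_identity`,
  `euler_log_or_gompertz_transcendental`, `gompertz_multiplicative_relation`,
  `gompertz_geometric_progression` (`SummaryGompertz`): `γ` or `δ = G 1` is transcendental
  (`G x = ∫₀^∞ exp (-t) / (x + t)`); at most two of the `G (q ^ k)` are algebraic;
* `FA.EulerDivergent.Summary.euler_series_pade`, `euler_series_padic_criterion`,
  `euler_series_infinitely_many`, `euler_series_thin_sets`, `factorial_series_contrast`
  (`SummaryEulerDivergent`): for an integer `z ≠ 0` no rational number equals `∑ k! z ^ k` in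
  `ℚ_[p]` for almost all `p` (Matala-aho, Zudilin), by Euler's Padé approximants;
* `FA.SiegelShidlovskii.Summary.lommel_zeros_real`, `hurwitz_zeros`, `bessel_zeros_simple`,
  `siegel_zeros_transcendental` (`SummaryBesselZeros`): for `λ > -1` the zeros of `J_λ` are real
  and simple, infinitely many positive, transcendental unless `λ` is half an odd integer;
* `FA.SiegelShidlovskii.Summary.shidlovskii_second`, `shidlovskii_second_exp`
  (`SummaryShidlovskiiSecond`): Shidlovskii: the transcendence degree of the values of E-functions
  at a nonsingular algebraic point equals that of the functions, dependent or not;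
* `FA.Wade.Summary.wade_product_transcendental`, `wade_period_transcendental` (`SummaryWade`):
  Wade 1941 by automata (Allouche): the product and the period of Carlitz are transcendental
  over `𝔽_q(T)`;
* `FA.SchurIrreducible.Summary.schur_irreducible`, `laguerre_irreducible`
  (`SummarySchurIrreducible`): Schur 1929: `∑ a_j X ^ j / j!` with integers `a_j`,
  `|a₀| = |a_n| = 1`, and every Laguerre polynomial are irreducible over `ℚ`;
* `FA.LaguerreGalois.Summary.laguerre_galois`, `laguerre_galois_card`,
  `laguerre_galois_symmetric` (`SummaryLaguerreGalois`): Schur: the Galois group of every
  Laguerre polynomial `L_n` over `ℚ` is `Sₙ`;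
* `FA.GleasonKahaneZelazko.Summary.gleason_kahane_zelazko`, `gleason_kahane_zelazko_iff`,
  `gleason_kahane_zelazko_spectrum` (`SummaryGleasonKahaneZelazko`): a functional on a complex
  Banach algebra with `φ 1 = 1` and no unit in its kernel is multiplicative;
* `FA.TitchmarshConvolution.Summary.titchmarsh_no_zero_divisors`, `titchmarsh_square`,
  `titchmarsh_cancel` (`SummaryTitchmarshConvolution`): Titchmarsh: convolution on the half-line
  has no zero divisors;
* `FA.MurtySaradha.Summary.digamma_add_gamma_transcendental`, `digamma_sub_transcendental`,
  `digamma_at_most_one_algebraic`, `eulerLehmer_limit_exists`,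
  `eulerLehmer_at_most_one_algebraic` (`SummaryMurtySaradha`): Murty–Saradha: at most one value
  `ψ r`, `r` rational in `(0, 1]`, is algebraic; at most one `γ (a, q)` for each `q`;
* `FA.Okada.Summary.okada`, `okada_digamma` (`SummaryOkada`): Okada: the numbers `cot (π a / q)`,
  `1 ≤ a < q / 2`, `gcd (a, q) = 1`, are linearly independent over `ℚ`;
* `FA.RationalSeries.Summary.asst_unit_interval`, `asst`, `asst_example`
  (`SummaryRationalSeries`): Adhikari–Saradha–Shorey–Tijdeman: `∑ P n / Q n` with simple rational
  poles is an explicit algebraic finite sum or transcendental;
* `FA.GelfondGauss.Summary.gelfond_gaussian`, `gelfond_gaussian_exponential`,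
  `gelfond_gaussian_uniqueness` (`SummaryGelfondGauss`): Gelfond: an entire function of small
  quadratic type mapping `ℤ[i]` into itself is a polynomial;
* `FA.DavenportPolynomial.Summary.davenport_cube_square`, `davenport_sharp`
  (`SummaryDavenportPolynomial`): Davenport: `deg (f³ - g²) ≥ deg f / 2 + 1`, sharp;
* `FA.Nikishin.Summary.nikishin_polylog_independent`, `polylog_inv_irrational`
  (`SummaryNikishin`): Nikishin: `1, Li₁ (1/q), …, Li_s (1/q)` independent for large `q`;
* `FA.ZetaOddMany.Summary.fischler_sprang_zudilin`, `irrational_oddZeta_ge_divisors`
  (`SummaryZetaOddMany`): Fischler–Sprang–Zudilin: `2 ^ ((1 - ε) log s / log log s)` irrational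
  odd zeta values up to `ζ(s)`;
* `FA.GelfondCubic.Summary.gelfond_cubic`, `gelfond_cubic_exp`, `gelfond_two_cbrt_two`,
  `gelfond_criterion`, `exponential_polynomial_zero_estimate` (`SummaryGelfondCubic`): Gelfond:
  `α ^ β`, `α ^ (β ^ 2)` algebraically independent for cubic `β`, with his criterion and a zero
  estimate for exponential polynomials;
* `FA.BrownawellWaldschmidt.Summary.brownawell_waldschmidt`, `schneider_eighth_problem`,
  `exp_pi_sq_or_algebraicIndependent`, `exp_polynomial_zero_estimate_poly`
  (`SummaryBrownawellWaldschmidt`): two of six numbers are algebraically independent, so
  `e ^ e` or `e ^ (e ^ 2)` is transcendental (Brownawell, Waldschmidt);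
* `FA.Chudnovsky.Summary.chudnovsky`, `exists_periodic_primitive`,
  `chudnovsky_pi_gamma_quarter`, `transcendental_gamma_quarter` (`SummaryChudnovsky`): two of
  `g₂, g₃, η / ω, π / ω` are algebraically independent (Chudnovsky), so are `π`, `Γ(1/4)`;
* `FA.Chudnovsky.Summary.chudnovsky_pi_gamma_third`, `transcendental_gamma_third`
  (`SummaryChudnovsky`): `π` and `Γ(1/3)` are algebraically independent;
* `FA.SmallTrdeg.Summary.small_trdeg_exp`, `small_trdeg_exp_left`, `small_trdeg_exp_both`,
  `power_algebraicIndependent`, `exp_powers_algebraicIndependent` (`SummarySmallTrdeg`): two of
  the `exp (x_i y_j)` are algebraically independent if `l m ≥ 2 (l + m)` (Waldschmidt, Tijdeman),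
  and so are `α ^ β` and some `α ^ (β ^ j)`, `2 ≤ j < d`, for `β` of degree `d ≥ 3`;
* `FA.EllipticSecondKind.Summary.legendre_relation`, `schneider_second_kind`,
  `transcendental_quasiPeriod`, `transcendental_quasiPeriod_div` (`SummaryEllipticSecondKind`):
  Legendre relation for the quasi-periods of `℘`; for algebraic invariants `a ω + b η` is
  transcendental for algebraic `a, b` not both zero, and so are `η` and `η / ω` (Schneider);
* `FA.EllipseArc.Summary.transcendental_ellipse_perimeter`,
  `transcendental_elliptic_combination`, `transcendental_elliptic_E` (`SummaryEllipseArc`):
  `a K + b E` is transcendental for the complete elliptic integrals of an algebraic modulus, so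
  the perimeter of an ellipse with algebraic semiaxes is transcendental (Schneider);
* `FA.EllipseArc.Summary.chudnovsky_elliptic_integrals`, `chudnovsky_agm`,
  `transcendental_perimeter_div_pi`, `transcendental_quasiPeriod_div_pi`
  (`SummaryEllipticChudnovsky`): `K / π` and `E / π` are algebraically independent for an
  algebraic modulus (Chudnovsky), so the perimeter over `π` and `η / π` are transcendental;
* `FA.CMQuasiPeriods.Summary.chudnovsky_chowla_selberg`, `chudnovsky_cm_period`,
  `masser_relation`, `cm_distribution` (`SummaryCMPeriodIndependence`): with complex
  multiplication `η = A ω + B π / ω` with algebraic `A, B` (Masser), so `π` and `ω`, and for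
  every imaginary quadratic field `π` and `∏ Γ (a / |D|) ^ (w χ a)`, are independent (Chudnovsky);
* `FA.Summary.nesterenko_multiplicity_estimate`, `nesterenko_small_values`
  (`SummaryNesterenkoEstimates`): non-zero integer polynomials in `q, E₂, E₄, E₆` of degree at
  most `4 N` and length at most `exp (N ^ (1 + ε))` vanish at `q = 0` to order at most
  `N ^ (4 + δ)` (weaker than `c N ^ 4` for all polynomials), and some of degree `≤ N ^ (1 + ε)`
  take values between `exp (-N ^ (4 + ε))` and `exp (-N ^ (4 - ε))` at `(q, E₂, E₄, E₆) (τ)`
  (Nesterenko);
* `FA.Summary.nesterenko`, `nesterenko_q`, `nesterenko_pi_exp_pi_gamma`,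
  `nesterenko_pi_exp_pi_sqrt_three_gamma` (`SummaryNesterenko`): three of `q, P (q), Q (q), R (q)`
  are algebraically independent; so are `π, e ^ π, Γ (1/4)` and `π, e ^ (π √3), Γ (1/3)`;
* `FA.Summary.nesterenko_cm_period`, `nesterenko_chowla_selberg`, `nesterenko_pi_exp_pi_sqrt`,
  `nesterenko_algebraic_q`, `nesterenko_theta_constants`, `bertrand_theta_transcendental`,
  `fibonacci_odd_reciprocals_transcendental` (`SummaryNesterenkoConsequences`): independent are
  `π, e ^ (π √|D|), ∏ Γ (a / |D|) ^ (w χ a)`, `π, e ^ (π √d)`, at algebraic `q` the values of
  `P, Q, R`, at real algebraic nomes any two theta constants; `∑ q ^ (n ²)` (real algebraic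
  `q`) and `∑ 1 / F (2 n + 1)` are transcendental;
* `FA.Summary.mahler_conjecture`, `mahler_three_of_four`, `complex_theta_series`,
  `euler_product_transcendental`, `fibonacci_lucas_squares` (`SummaryMahlerConjecture`): at
  algebraic `q` the values `j, D j, D² j` (`D = q d/dq`) are algebraically independent, and so
  are two of `∑ q ^ (n ²)`, `∑ (-q) ^ (n ²)`, `∑ q ^ (n (n + 1))` (`n ≥ 0`, complex `q`);
  `∏ (1 - q ^ n)` (`n ≥ 1`) is transcendental; two of `∑ 1 / F n ²`, `∑ 1 / L n ²` (`n ≥ 1`)
  and `∑ 1 / F (2 m + 1)` (`m ≥ 0`) are independent, `3 ΣF⁻² + 5 ΣL⁻² = 4 (ΣF_odd⁻¹)²`;
* `FA.Summary.nesterenko_periods`, `bertrand_theta_derivatives`, `elsner_shimomura_shiokawa`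
  (`SummaryIndependentTriples`): algebraically independent are `e ^ (2 π i ω₁ / ω₂), ω₂ / π,
  η₂ / π` for every elliptic curve over the algebraic numbers (with or without CM), the values
  `∑ n ^ k q ^ (n ²)`, `k = 0, 2, 4`, at complex algebraic `q`, and `∑ 1 / F n ^ s`,
  `s = 2, 4, 6` (`n ≥ 1`);
* `FA.Mahler.Summary.kubota_independence`, `lacunary_independence`, `lacunary_decimals`
  (`SummaryMahlerIndependence`): the theorem of Kubota and of Loxton and van der Poorten:
  values at algebraic points of series with `f_i (z ^ d) = f_i (z) + b_i (z)`, `b_i` polynomials
  with no combination a difference, are algebraically independent; so are the `∑ α ^ (j d ^ k)`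
  over all `j` not divisible by `d`;
* `FA.MahlerTwist.Summary.twisted_independence`, `geometric_lacunary_independence`,
  `fibonacci_geometric_independence`, `summable_fibonacci_geometric`, `millin`,
  `fibonacci_three_pow` (`SummaryMahlerTwist`): the same with multipliers and rational right
  sides, `f_i (z ^ d) = a_i f_i (z) + b_i (z)`; the `∑ a ^ k α ^ (j d ^ k)` are independent over
  all pairs `(a, j)`, and the `∑ a ^ k / F (d ^ k)` over all algebraic `a ≠ 0` (`a ≠ 1` if
  `d = 2`, where the sum is `(7 - √5) / 2`);
* `FA.MahlerPoints.Summary.several_points_independence`, `lacunary_points_independence`,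
  `lacunary_primes_independence`, `three_primes` (`SummaryMahlerPoints`): the untwisted theorem at
  several points with `log |α_l|` independent over `ℚ`: the numbers `∑_k p ^ (-j d ^ k)` over all
  primes `p` and all `j` not divisible by `d` are algebraically independent;
* `FA.MahlerPoints.SummaryIndependent.vanishing_theorem`, `multiplicatively_independent_points`,
  `lacunary_mul_independence`, `gauss_re_im` (`SummaryMahlerPointsIndependent`): Masser's
  vanishing theorem, diagonal case, via the subspace theorem, and the theorem of Loxton and van
  der Poorten: the same at multiplicatively independent points, e.g. the real and imaginary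
  part of `∑_k ((1 + 2 i) / 5) ^ (2 ^ k)` are algebraically independent;
* `FA.MahlerProducts.Summary.multiplicative_independence`, `lacunary_products_independence`,
  `three_products`, `thue_morse_independence`, `binary_product` (`SummaryMahlerProducts`):
  Kubota's theorem for infinite products: the numbers `∏_k (1 - α ^ (j d ^ k))` over all `j`
  not divisible by `d` are algebraically independent, so are the values at the `α ^ j`, `j` odd,
  of the series of Thue and Morse;
* `FA.TwoLogarithms.Summary.two_logarithms`, `power_gap`, `two_three_gap`, `pillai_effective`,
  `smooth_gap` (`SummaryTwoLogarithms`): Gelfond's explicit lower bound `exp (-C (log B) ^ 2)`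
  for linear forms in two logarithms of rationals; hence an explicit bound for the solutions of
  `a ^ x - b ^ y = c` and effective gaps between the numbers `2 ^ i 3 ^ j`;
* `FA.TwoLogarithms.Binomial.two_logarithms_sharp`, `tijdeman_exponent_bound`,
  `binomial_thue_finite`, `two_power_bound` (`SummaryTijdemanBinomial`): the bound linear in each
  height; hence Tijdeman's explicit bound for `n` in `a x ^ n - b y ^ n = c ≠ 0`, whatever `x, y`
  with `max (x, y) ≥ 2`, and, with Thue's theorem, finitely many such `(x, y, n)`, `n ≥ 3`;
* `FA.RootApproximation.Summary.root_irrationality_measure`, `liouville_beaten`, `two_root`,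
  `binomial_form_lower`, `binomial_thue_effective` (`SummaryRootApproximation`): an explicit
  irrationality measure `O ((log n) ^ 2)` for `n`-th roots of positive rationals, so below
  Liouville's `n` for all large `n`; closed bounds for all solutions of `a x ^ n - b y ^ n = c`;
* `FA.TwoLogarithms.Padic.padic_two_logarithms`, `padic_two_logarithms_sharp`,
  `three_power_equation`, `three_power_finite` (`SummaryPadicTwoLogarithms`): the power of a
  prime `p ∤ a b` dividing `a ^ x - b ^ y` is `≤ C p ^ 4 log a log b (log (x + y) + 1) ^ 2` for
  independent `a`, `b`, elementary;
  hence an explicit bound for the exponents in `a ^ x + b ^ y = c ^ z`, pairwise coprime bases;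
* `FA.BakerExplicit.Summary.baker_explicit`, `primes_explicit`, `smooth_gap_effective`,
  `smooth_difference_effective` (`SummaryBakerExplicit`): an explicit theorem of Baker for
  `n` logarithms of rationals, `|Λ| ≥ 2 ^ -((C (log A + log B)) ^ κ)`; hence effective gaps
  between numbers composed of given primes and a bound for the solutions of `x - y = c`;
* `FA.BakerExplicit.Padic.padic_baker_explicit`, `padic_primes_explicit`,
  `sUnit_equation_effective`, `abc_weak_effective` (`SummaryPadicBaker`): an explicit `p`-adic
  theorem of Baker for rationals; hence an explicit bound for the solutions of the `S`-unit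
  equation over `ℚ` and `c < 2 ^ F (rad (a b c))` for coprime `a + b = c`, unconditionally;
* `FA.BakerExplicit.Algebraic.baker_algebraic_explicit`, `simultaneous_pell_effective`
  (`SummaryBakerAlgebraic`): an explicit theorem of Baker for any number of logarithms of
  algebraic numbers, through the degree of the field alone; hence an explicit bound for the
  solutions of `x ^ 2 = a z ^ 2 + 1`, `y ^ 2 = b z ^ 2 + 1` when `a b` is not a square;
* `FA.BakerExplicit.EffectiveThue.baker_algebraic_general`, `unit_exponents_bound`,
  `thue_effective`, `thue_equation_effective`, `thue_equation_finite_baker`
  (`SummaryThueEffective`): the explicit theorem of Baker with no independence hypothesis, and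
  an explicit bound for the integer solutions of the Thue equation `F (x, y) = m` of degree at
  least three, from any system of units of maximal rank;
* `FA.BakerLastHeight.baker_last_height` (`SummaryBakerLastHeight`): Baker's sharpened theorem,
  explicit and with no independence hypothesis: a nonzero form in the logarithms of algebraic
  numbers is at least `1 / 2 ^ (R (C (h + m + 1)) ^ κ)`, so linear in the height `h R` of one of
  the numbers;
* `FA.BakerLastHeight.baker_last_height_ratio` (`SummaryBakerLastHeight`): Baker's sharpening of
  it: the coefficients may be `2 ^ m R` when that of the number of height `h R` is at most `2 ^ m`;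
* `FA.Feldman.Summary.thue_polynomial_bound`, `feldman` (`SummaryFeldman`): Feldman 1971: the
  solutions of `F (x, y) = m` are polynomial in `|m|`, and `|α - p / q| ≥ c / q ^ (d - η)`, `η > 0`,
  for real algebraic `α` of degree `d ≥ 3`, by Baker's method (effective in the proof only);
* `FA.BakerExplicit.Coefficients.effective_unit_system`, `thue_bound_coefficients`,
  `mordell_effective`, `mordell_effective_box` (`SummaryThueCoefficients`): the theorems of
  Baker of 1968: the solutions of every irreducible Thue equation of degree at least three and
  of `y ^ 2 = x ^ 3 + k` are bounded by closed expressions in the coefficients alone;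
* `FA.BakerExplicit.Elliptic.integral_points_effective`, `cubic_square_effective`,
  `integral_points_box`, `discriminant_effective` (`SummaryEllipticEffective`): Baker 1968 on
  elliptic equations: closed bounds, in the coefficients alone, for the integer points of every
  Weierstrass equation over `ℤ` with `Δ ≠ 0` and of `y ^ 2 = a x ^ 3 + b x ^ 2 + c x + d`, and
  for the coefficients of a reduced equation of given discriminant;
* `FA.BakerExplicit.Gyory1973.unit_equation_effective`, `unit_solutions_effective`,
  `gyory_effective`, `gyory_effective_box`, `elements_effective`, `monogenic_effective`
  (`SummaryGyoryEffective`): the unit equation in number fields with closed bounds in degree,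
  discriminant and norms; Győry 1973: the degree and, up to translation, the coefficients of a
  monic polynomial are bounded by its discriminant alone; so are power integral bases;
* `FA.UnitEquationLinear.Summary.norm_triple_bound`, `unit_equation_linear`,
  `discriminant_equation_polynomial`, `index_form_polynomial` (`SummaryUnitEquationLinear`): in
  a fixed number field, by Baker's sharpened theorem: the unit equation has solutions of height
  linear in that of the coefficients, and integers of given discriminant have, up to translation,
  conjugates bounded by a power of it (bounds asserted to exist, not written in closed form);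
* `FA.BakerExplicit.Baker1969.hyperelliptic_effective`, `superelliptic_effective`,
  `separable_effective`, `superelliptic_box` (`SummarySuperellipticEffective`): Baker 1969:
  the integer solutions of `b y ^ m = f (x)` have closed bounds in the degree, the coefficients
  and `m`, for `f` with three simple roots if `m = 2` and two if `m ≥ 3`;
* `FA.SchinzelTijdeman.Summary.schinzel_tijdeman`, `schinzel_tijdeman_finite`,
  `schinzel_tijdeman_separable` (`SummarySchinzelTijdeman`): the theorem of Schinzel and Tijdeman:
  `f ∈ ℤ[X]` with two different roots bounds the exponent `m` in `b y ^ m = f (x)`, `|y| ≥ 2`;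
  with three simple roots there are finitely many `(x, y, m)`, `m ≥ 2` (no explicit bound for `m`);
* `FA.RecurrencePowerBound.Summary.shorey_stewart`, `binary_recurrence_power_exponent`,
  `binary_recurrence_powers_finite`, `fibonacci_powers_finite` (`SummaryRecurrencePowerBound`):
  Shorey–Stewart: with a dominant root the exponent in `b y ^ q = u n` is bounded; Pethő: only
  finitely many Fibonacci numbers, or terms of a binary recurrence with `Q = ± 1`, are powers;
* `FA.RecurrencePowers.Summary.binary_recurrence_powers_finite`, `exponential_sum_powers_finite`,
  `repdigit_powers_finite` (`SummaryBinaryRecurrencePowers`): Pethő, Shorey–Stewart: binary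
  recurrences with real roots and any non-zero `Q`, and `a A ^ n + c B ^ n`, take values
  `b y ^ q`, `q ≥ 2`, for finitely many `n` only; so finitely many repdigits of a base are powers;
* `FA.ShoreyTijdeman.Summary.shorey_tijdeman_length`, `shorey_tijdeman_base`,
  `nagell_ljunggren_finite` (`SummaryShoreyTijdeman`): Shorey–Tijdeman 1976: finitely many
  `1 + x + ⋯ + x ^ (n - 1) = y ^ q`, `q ≥ 2`, over all bases and exponents, if a divisor `≥ 3`
  of `n` or the base is given;
* `FA.SchaefferEquation.Summary.schaeffer_even`, `schaeffer_odd`, `schaeffer_exponent_bounded`,
  `cannonball_powers`, `triangular_powers` (`SummarySchaefferEquation`): Schäffer's equation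
  `1 ^ k + ⋯ + m ^ k = b y ^ q` (Győry–Tijdeman–Voorhoeve): finitely many solutions over all
  exponents for even `k`, and for odd `k` with `q ≥ 3`, `q ≠ 4`;
* `FA.SchaefferRoots.Summary.gyory_tijdeman_voorhoeve`, `schaeffer_iff_finite`,
  `schaeffer_odd_part`, `bernoulli_not_mul_square` (`SummarySchaefferRoots`): the same with every
  `q ≥ 2` for all `k ∉ {1, 3, 5}`, and these three are true exceptions; `B_{2m}(X) - B_{2m}`,
  `m ≥ 4`, is not `A R ^ 2` with `deg A ≤ 2`;
* `FA.BakerExplicit.Gyory1979.padic_baker`, `sUnit_equation_effective`, `sUnit_equation_affine`,
  `thueMahler_effective`, `greatest_prime_factor` (`SummarySUnitEffective`): explicit `p`-adic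
  Baker for algebraic numbers without independence, Győry: `a + b + c = 0` with smooth norms
  has closed bounds up to proportion in any number field, effective Thue–Mahler;
* `FA.BakerExplicit.Coates1970.sIntegral_points_effective`, `sIntegral_mordell_effective`,
  `shafarevich_effective`, `shafarevich_j_effective`, `shafarevich_count_effective`,
  `shafarevich_finset_effective` (`SummaryShafarevichEffective`): explicit bounds for `S`-integral
  points of every elliptic equation over `ℤ`; good reduction above `2 ^ g` gives a model
  `y² = x³ + A x + B` with `A, B` bounded in `g` alone, a bound for `j`, a count;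
* `FA.BakerExplicit.Trelina1978.hyperelliptic_sIntegral`, `superelliptic_sIntegral`,
  `separable_sIntegral`, `sIntegral_points`, `power_free_part_large_prime`, `cube_plus_constant`
  (`SummarySuperellipticSIntegral`): explicit bounds for `S`-integral `x` with `b y ^ m = f (x)`,
  uniform in `S`-smooth `b` of any size; so the power-free part of `f (x)` has a large prime;
* `FA.SuperellipticMultiple.Summary.leveque_sIntegral_finite`, `leveque_integer_finite`,
  `leveque_iff`, `leveque_all_exponents` (`SummarySuperellipticMultiple`): LeVeque, Brindza:
  `b y ^ m = f (x)` with roots of any multiplicities has finitely many `S`-integral solutions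
  under LeVeque's condition on the numbers `m / gcd (m, e)`, which is necessary for prescribed
  multiplicities; all such `m` at once;
* `FA.EffectiveTorusCurves.Summary.curve_points_effective`, `curve_points_finite`,
  `curve_points_infinite_iff`, `coordinates_large_prime` (`SummaryEffectiveTorusCurves`): Lang's
  theorem for curves in the plane torus, effectively (Bombieri–Gubler; Bérczes, Evertse, Győry):
  rational points of `f = 0` with coordinates composed of primes up to `2 ^ g` have closed bounds
  unless a translate of a subtorus lies on the curve;
* `FA.BakerExplicit.Schinzel1967.binary_recurrence_field`, `binary_recurrence_large_prime`,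
  `real_roots_nondegenerate`, `fibonacci_large_prime`, `exponential_sum_large_prime`,
  `power_difference_large_prime`, `smooth_sum_effective` (`SummaryRecurrenceEffective`): explicit
  index beyond which a nondegenerate binary recurrence has a prime above `2 ^ g`; `a + b = c`;
* `FA.BakerExplicit.Decidability.bounds_primrec`, `integral_points_algorithm`,
  `integral_point_decidable`, `sIntegral_points_algorithm`, `shafarevich_algorithm`
  (`SummaryEffectiveAlgorithms`): the bounds are primitive recursive, so computable functions
  list the integral and `S`-integral points of elliptic equations and the models of Shafarevich;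
* `FA.BakerExplicit.Decidability.good_reduction_decidable`, `isomorphism_decidable`,
  `shafarevich_classification`, `shafarevich_count`, `thue_mahler_algorithm`, `thue_algorithm`,
  `superelliptic_algorithm`, `thue_example` (`SummaryEffectiveClassification`): for `g ≥ 2` a
  computable list has exactly one model of each elliptic curve over `ℚ` with good reduction
  above `2 ^ g`, so their number is computable; Thue–Mahler and superelliptic solution lists;
* `FA.BakerExplicit.Decidability.zeros_eventually_periodic`, `skolem_problem_decidable`,
  `infinitely_many_zeros_decidable`, `zero_set_computable` (`SummarySkolemDecidable`): for integer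
  recurrences of order at most three the zeros are periodic from an explicit index, so the problem
  of Skolem is decidable;
* `FA.BakerExplicit.Decidability.orbit_bound`, `orbit_problem_decidable`, `rational_orbit_iff`,
  `rational_data` (`SummaryOrbitProblem`): the orbit problem of Kannan and Lipton, whether
  `A ^ n x = y` for some `n`, is decidable for rational matrices of every dimension, with an
  explicit bound for the least exponent;
* `FA.BakerExplicit.Decidability.quaternary_zeros_eventually_periodic`, `skolem_four_decidable`,
  `infinitely_many_zeros_four_decidable`, `zero_set_four_computable` (`SummarySkolemFour`): the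
  theorem of Mignotte, Shorey, Tijdeman and Vereshchagin over the integers: the problem of Skolem
  is decidable for recurrences of order four, with an explicit index from which the zeros are
  periodic;
* `FA.BakerExplicit.Decidability.positivity_dichotomy`, `positivity_decidable`,
  `strict_positivity_decidable`, `ultimate_positivity_decidable` (`SummaryPositivityProblem`): the
  positivity and ultimate positivity problems (Ouaknine and Worrell; Laohakosol and
  Tangsupphathawat in order three) are decidable for integer recurrences of order at most four;
* `FA.Undecidability.finitelyPresentedMonoid_wordProblem_undecidable`,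
  `semiThue_reachability_undecidable`, `postCorrespondence_undecidable`,
  `matrixMortality_undecidable` (`SummaryUndecidableWords`): Markov and Post (a finitely presented
  monoid with undecidable word problem), Post (the correspondence problem over two letters) and
  Paterson (mortality of integer matrices of order three);
* `FA.Undecidability.church_entscheidungsproblem`, `finite_theory_undecidable`
  (`SummaryEntscheidungsproblem`): Church: validity of sentences in a finite first-order language
  of unary functions is undecidable, as are the consequences of some finitely axiomatised theory;
* `FA.Undecidability.novikov_boone`, `affine_plane_system_undecidable` (`SummaryNovikovBoone`):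
  Novikov and Boone: some finitely presented group has an undecidable word problem, by modular
  machines (an undecidable system of affine maps of the plane) and a tower of HNN extensions;
* `FA.Undecidability.adian_rabin`, `triviality_undecidable`, `finiteness_undecidable`,
  `commutativity_undecidable`, `isomorphism_problem_undecidable` (`SummaryAdianRabin`): Adian and
  Rabin: no Markov property of finitely presented groups is decidable, so triviality, finiteness,
  commutativity and the isomorphism problem are undecidable;
* `FA.Undecidability.mihailova`, `matrix_membership_undecidable` (`SummaryMihailova`): Mihailova: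
  membership in some finitely generated subgroup of a product of two free groups of rank two, and
  so of the integer matrices of order four and determinant one, is undecidable;
* `FA.Undecidability.higman`, `rope_trick` (`SummaryHigman`): Higman: a finitely generated group
  embeds into a finitely presented group if and only if its set of relations is recursively
  enumerable;
* `FA.Undecidability.hnn_two_generators`, `higman_countable`, `universal_fp_group`
  (`SummaryUniversalGroup`): Higman, Neumann, Neumann: countable groups embed in two generated
  groups; Higman: one finitely presented group contains all finitely presented groups;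
* `FA.BooneHigman.boone_higman` (`SummaryBooneHigman`): Boone and Higman: a finitely generated
  group has solvable word problem if and only if it embeds in a simple subgroup of a finitely
  presented group; `elementary_group_simple`;
* `FA.Trakhtenbrot.trakhtenbrot` (`SummaryTrakhtenbrot`): Trakhtenbrot: for some finite language
  the sentences true in all finite structures are not recursively enumerable;
  `finite_satisfiability_undecidable`;
* `FA.FriedbergMuchnik.friedberg_muchnik`, `post_problem` (`SummaryFriedbergMuchnik`): Friedberg
  and Muchnik: Turing incomparable r.e. sets, so an r.e. degree strictly between the computable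
  one and that of the halting set;
* `FA.ArithmeticTruth.tarski_undefinability`, `godel_incompleteness`, `rePred_definable`
  (`SummaryArithmeticTruth`): truth in `ℕ` is not definable in arithmetic (Tarski) and not
  recursively enumerable (Gödel, semantic form), while every r.e. set is definable;
* `FA.EffectiveCompleteness.consequences_rePred`, `validity_rePred`, `complete_theory_decidable`,
  `godel_first_incompleteness` (`SummaryEffectiveCompleteness`): Gödel: in a finite language the
  consequences of r.e. axioms are r.e., a complete such theory is decidable and no r.e. theory
  true in `ℕ` is complete;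
* `FA.TarskiDecidability.acf_decidable`, `complex_field_decidable`, `rcf_decidable`,
  `real_field_decidable` (`SummaryTarskiDecidability`): Tarski: the theories of algebraically
  closed fields of each characteristic and of real closed fields are decidable, so are the
  first-order truths of the complex and of the real field;
* `FA.Presburger.presburger_decidable`, `presburger_complete`, `quantifier_elimination`,
  `quantifier_elimination_nat` (`SummaryPresburger`): Presburger: every formula of `(ℕ, +, 0, 1)`
  is a boolean combination of linear inequalities and congruences, uniformly in the models, the
  axioms are complete and the first-order theory is decidable;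
* `FA.RobinsonArithmetic.essentially_undecidable`, `godel_rosser`, `robinsonQ_undecidable`,
  `nat_models_robinsonQ` (`SummaryRobinsonArithmetic`): Tarski, Mostowski, Robinson and Rosser:
  no satisfiable theory containing the finite theory `Q` is decidable, and with enumerable axioms
  none is complete;
* `FA.UndecidableTheories.undecidable_of_definable_nat`, `int_undecidable`, `rat_undecidable`,
  `field_theory_undecidable`, `charZero_field_theory_undecidable`, `ring_validity_undecidable`
  (`SummaryUndecidableTheories`): Tarski and Julia Robinson: no theory true in `ℤ` or in `ℚ` is
  decidable, so neither is the theory of fields;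
* `FA.Tennenbaum.tennenbaum`, `nonstandard_not_computable`, `exists_nonstandard_model`
  (`SummaryTennenbaum`): Tennenbaum: a numbered model of Peano arithmetic with computable addition
  and multiplication is the standard one, though countable nonstandard models exist;
* `FA.KolmogorovComplexity.chaitin`, `invariance`, `upper_bound`, `incompressible`,
  `complexity_not_computable`, `no_computable_lower_bound` (`SummaryKolmogorovComplexity`):
  Kolmogorov complexity, and Chaitin: a consistent enumerable theory containing `Q` proves no
  complexity bound above a fixed one, though almost all of them are true;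
* `FA.Goodstein.goodstein_terminates`, `generalSeq_terminates`, `rebase_lt_rebase`,
  `goodstein_three`, `goodstein_four` (`SummaryGoodstein`): Goodstein (1944): hereditary notation
  read in the next base and lowered by one reaches zero from every start;
* `FA.ArithmeticalHierarchy.sigma_one_eq_rePred`, `levels_monotone`, `sigma_ne_pi`,
  `sigma_ssubset_succ`, `arithmetical_iff_definable`, `truth_not_arithmetical`
  (`SummaryArithmeticalHierarchy`): Kleene and Mostowski: the arithmetical hierarchy is strict, its
  sets are those definable in arithmetic, and truth is in no level;
* `FA.OmittingTypes.omitting_types`, `isolated_iff_never_omitted`, `countable_atomic_iso`,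
  `ryll_nardzewski`, `finite_types_dlo` (`SummaryOmittingTypes`): the omitting types theorem and
  the theorem of Engeler, Ryll-Nardzewski and Svenonius on countably categorical theories;
* `FA.Interpolation.tarski_elementary_chain`, `robinson_joint_consistency`, `craig_interpolation`,
  `beth_definability`, `beth_definability_formula` (`SummaryInterpolation`): elementary chains,
  joint consistency, interpolation and implicit against explicit definability;
* `FA.FirstOrderZeroOne.labelled_structures`, `almost_all_hasExtension`, `zero_one_law`,
  `zero_one_law_exponential`, `nullary_half` (`SummaryFirstOrderZeroOne`): the zero-one law of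
  Glebskii and others and of Fagin for finite relational languages;
* `FA.Preservation.los_tarski`, `los_tarski_existential`, `los_tarski_theory`, `chang_los_suszko`,
  `chang_los_suszko_theory`, `models_universalPart_iff` (`SummaryPreservation`): what passes to
  substructures, extensions or unions of chains is universal, existential or universal-existential;
* `FA.NeverTwo.never_two`, `three_countable_models`, `exists_model_not_listed`,
  `small_atomic_model` (`SummaryNeverTwo`): Vaught: a complete theory in a countable language
  with an infinite model never has exactly two countable models;
* `FA.Morley.morley`, `isOmegaStable_of_categorical`, `card_types_le`, `exists_atomic_over`,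
  `exists_indiscernible_over`, `isSaturated_of_categorical`, `saturated_unique`
  (`SummaryMorley`): Morley's categoricity theorem: in a countable language, categorical in
  one uncountable cardinal implies categorical in all; all uncountable models saturated;
* `FA.SingularCardinals.silver`, `silver_stationary`, `silver_aleph_omega1`, `galvin_hajnal`,
  `galvin_hajnal_aleph_omega1`, `fodor`, `card_almostDisjoint_le`
  (`SummarySingularCardinals`): Silver's theorem on GCH at singular cardinals of uncountable
  cofinality and the Galvin-Hajnal bound on their power sets;
* `FA.Determinacy.borel_determinacy`, `borel_determinacy_tree`, `borel_determinacy_baire`,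
  `exists_covering_unravels`, `gale_stewart` (`SummaryBorelDeterminacy`): Martin's theorem:
  every Borel game of length omega, with any set of moves, is determined;
* `FA.SilverDichotomy.silver_dichotomy`, `silver_cardinal`, `gZero_dichotomy`,
  `kuratowski_ulam`, `mycielski`, `analyticSet_baireMeasurable` (`SummarySilverDichotomy`):
  Silver's dichotomy for coanalytic equivalence relations and the dichotomy of Kechris,
  Solecki and Todorcevic for analytic graphs;
* `FA.Ellentuck.ellentuck`, `ellentuck_null`, `analytic_completely_ramsey`, `galvin_prikry`,
  `galvin_prikry_colours`, `nash_williams`, `ramsey_infinite`, `ramsey_needs_definability`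
  (`SummaryEllentuck`): completely Ramsey = property of Baire in the Ellentuck topology,
  Borel and analytic sets of infinite sets of naturals are Ramsey;
* `FA.Wadge.wadge_lemma`, `lipschitz_lemma`, `martin_monk`, `martin_monk_lipschitz`,
  `wadge_wellFounded`, `wadge_antichain`, `wadge_wqo` (`SummaryWadge`): Wadge's lemma and the
  theorem of Martin and Monk: Borel sets are well-quasi-ordered by continuous reducibility;
* `FA.Buchi.buchi_complement`, `omegaRegular_closure`, `buchi_definable_iff`, `order_definable`,
  `exists_ultimately_periodic`, `s1s_decidable`, `s1s_primrec_decision` (`SummaryBuchi`):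
  complementation of Büchi automata, omega-regular = definable in S1S, S1S is decidable;
* `FA.StronglyMinimal.pregeometry`, `dimension_welldefined`, `equiv_iff_dimension_eq`,
  `models_chain`, `exists_model_of_dimension`, `categorical`, `isOmegaStable`,
  `countable_models`, `acf_stronglyMinimal` (`SummaryStronglyMinimal`): the structure theory
  of Baldwin and Lachlan for strongly minimal theories, with ACF as the example;
* `FA.TwoCardinal.vaught_two_cardinal`, `vaughtianPair_iff`, `uniform_finiteness`,
  `baldwin_lachlan` (`SummaryTwoCardinal`): two-cardinal models; uncountably categorical
  exactly when omega-stable without Vaughtian pairs;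
* `FA.CountableModels.one_or_infinitely_many`, `exists_new_countable_model`
  (`SummaryCountableModels`): an uncountably categorical theory has one countable model or
  countably infinitely many;
* `FA.GlimmEffros.glimm_effros`, `embedding_of_reduction` (`SummaryGlimmEffros`): a countable
  Borel equivalence relation is not smooth exactly when `E_0` embeds continuously;
* `FA.GenericHyperfinite.generic_hyperfinite` (`SummaryGenericHyperfinite`): countable Borel
  equivalence relations are hyperfinite on a comeagre invariant Borel set;
* `FA.KunenMartin.kunen_martin`, `sigma_one_one_bounded`, `wellOrders_not_borel`,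
  `wellFounded_not_analytic` (`SummaryKunenMartin`): analytic well-founded relations have
  countable rank; the well-orders of the natural numbers are not analytic;
* `FA.Lindstrom.lindstrom_theorem` (`SummaryLindstrom`): Lindström's theorem, that a
  countably compact logic with the downward Löwenheim–Skolem property is no stronger than
  first-order logic (abstract logics; first-order logic is an instance);
* `FA.Coanalytic.wellFounded_pi11_complete`, `lusin_sierpinski`, `coanalytic_reduction`,
  `wellFounded_coanalytic_norm` (`SummaryCoanalytic`): well-founded relations are complete
  coanalytic and ranked; analytic and coanalytic sets are unions of `ℵ₁` Borel sets;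
* `FA.Coanalytic.novikov_kondo`, `novikov_kondo_selector` (`SummaryNovikovKondo`): coanalytic
  sets in products of Polish spaces have coanalytic uniformisations;
* `FA.HarringtonKechrisLouveau.harrington_kechris_louveau`, `eZero_least`
  (`SummaryHarringtonKechrisLouveau`): every Borel equivalence relation is smooth or embeds
  `E_0` continuously (Miller's classical proof);
* `FA.Laver.laver`, `fraisse_conjecture`, `no_descending` (`SummaryLaver`): Laver's theorem
  that countable linear orders are better-quasi-ordered by embeddability;
* `FA.KeislerShelah.keisler_shelah` (`SummaryKeislerShelah`): the Keisler–Shelah theorem that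
  elementarily equivalent structures are exactly those with isomorphic ultrapowers;
* `FA.ArseninKunugui.arsenin_kunugui`, `saint_raymond`, `kunugui_novikov`
  (`SummaryArseninKunugui`): Borel sets with sigma-compact sections have Borel projections and
  Borel uniformisations, and are countable unions of Borel sets with compact sections;
* `FA.AnalyticDeterminacy.analytic_determinacy`, `coanalytic_determinacy`,
  `determined_of_ultrafilter` (`SummaryAnalyticDeterminacy`): Martin's theorem that, ASSUMING a
  measurable cardinal (a hypothesis of every statement), analytic games are determined;
* `FA.RosenthalEllOne.rosenthal_ellOne`, `ellOne_embeds_iff`, `rosenthal_functions`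
  (`SummaryRosenthalEllOne`): Rosenthal's theorem, a bounded sequence has a weakly Cauchy
  subsequence or one equivalent to the unit basis of `ℓ¹`;
* `FA.HalpernLauchli.halpern_lauchli`, `halpern_lauchli_dense`, `halpern_lauchli_binary`
  (`SummaryHalpernLauchli`): the partition theorem of Halpern and Läuchli for level products
  of finitely branching trees and strong subtrees;
* `FA.Milliken.milliken`, `milliken_tree`, `rationals_finite_big_ramsey_degree`
  (`SummaryMilliken`): Milliken's Ramsey theorem for strong subtrees of regular trees, and
  finite big Ramsey degrees of the rationals;
* `FA.Gowers.gowers_fin`, `cZero_oscillation_stable` (`SummaryGowersFin`): Gowers' theorem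
  on combinatorial subspaces of FIN_k, and oscillation stability of the positive sphere of c₀;
* `FA.Summary.tsirelson_no_lp`, `tsirelson_no_c0` (`SummaryTsirelson`): Tsirelson's space, a
  Banach space with an unconditional basis containing no copy of ℓᵖ (1 ≤ p ≤ ∞) or c₀;
* `FA.Hurewicz.kechris_saint_raymond`, `hurewicz`, `hurewicz_closed`, `baire_not_sigmaCompact`
  (`SummaryHurewicz`): an analytic set is inside a sigma-compact set or contains a closed copy
  of Baire space;
* `FA.Selection.kuratowski_ryll_nardzewski`, `measurable_maximum`, `jankov_von_neumann`,
  `lusin_universally_measurable`, `lusin_novikov`, `borel_uniformization`, `feldman_moore`,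
  `measurableSet_image_countable_to_one` (`SummarySelection`): measurable selectors, analytic
  sets are universally measurable, countable Borel equivalence relations as orbit relations;
* `FA.BorelCombinatorics.kst_locally_finite`, `kst_bounded_degree`, `marker_lemma`,
  `smooth_iff_transversal`, `eZero_hyperfinite_not_smooth`, `slaman_steel`
  (`SummaryBorelCombinatorics`): Borel colourings with degree + 1 colours, markers, the orbit
  relation of a Borel automorphism is hyperfinite;
* `FA.BorelCombinatorics.hyperfinite_iff_automorphism`, `eZero_generated` (`SummaryHyperfinite`),
  `FA.Capacity.choquet_capacitability`, `measure_analytic_eq_iSup`, `exists_compact_projection`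
  (`SummaryCapacity`): hyperfinite = generated by a Borel automorphism; analytic sets are
  capacitable;
* `FA.Summary.landau_function_asymptotic`, `FA.Summary.sum_primes_asymptotic`
  (`SummaryLandauFunction`): Landau's theorem: the largest order of a permutation of `n` letters
  is `exp ((1 + o(1)) √(n log n))`; `∑_{p ≤ x} p ∼ x ^ 2 / (2 log x)`.
* `FA.HuaThreeSquares.Summary.hua_three_prime_squares`, `congruences_necessary`,
  `three_prime_squares_density`, `deviation_mean_square` (`SummaryHuaThreeSquares`): Hua's theorem
  that almost all `n ≡ 3 (mod 24)` prime to `5` are sums of three squares of primes, and the density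
  `1 / 30` of the sums of three squares of primes; no bound for the exceptional set beyond `o (N)`.
* `FA.Maier.Summary.buchstab_theorem` (`SummaryMaier`): Buchstab's theorem: for `u > 1` the
  numbers up to `x` free of prime factors up to `x ^ (1/u)` are asymptotically `u ω(u) x / log x`.
* `FA.Summary.rogers_ramanujan_first`, `FA.Summary.rogers_ramanujan_second`,
  `FA.Summary.q_binomial_theorem`, `FA.Summary.jacobi_triple_product_finite`
  (`SummaryRogersRamanujan`): the identities of Rogers and Ramanujan: the partitions of `n` with
  parts differing by at least `2` (and all parts `≥ 2`) are as many as those with parts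
  `≡ ± 1` (resp. `± 2`) mod `5`; the `q`-binomial theorem; Jacobi's finite triple product.
* `FA.PrimePlusSquare.Summary.davenport_heilbronn_prime_square`, `exceptional_density_zero`,
  `infinite_exceptional`, `deviation_mean_square`, `singular_product_lower`
  (`SummaryPrimePlusSquare`): the theorem of Davenport and Heilbronn that almost all numbers are
  a prime plus a positive square; infinitely many are not, and the exceptions are only `o (N)`.
* `FA.Maier.Summary.buchstab_oscillation` (`SummaryMaier`): `ω(u) - exp (-γ)` takes both signs in
  every interval of unit length to the right of `1`.
* `FA.Summary.polya_return_sum`, `FA.Summary.polya_recurrence`, `FA.Summary.polya_transience`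
  (`SummaryPolyaWalk`): Pólya's theorem: the simple random walk on `ℤ ^ d` returns to the origin
  with probability `1` for `d = 1, 2` and with probability `< 1` for `d ≥ 3`; the probability of
  standing at the origin after `n` steps is `O(n ^ (-d / 2))`.
* `FA.Maier.Summary.primes_mod_primorial` (`SummaryMaier`): primes are equidistributed among the
  classes of a primorial modulus `z#` (one large prime left out if exceptional) in `(x, 2 x]`,
  `x = z# ^ D`, up to `ε` for `D` large (Gallagher's theorem).
* `FA.Maier.Summary.maier_theorem`, `FA.Maier.Summary.maier_density`,
  `FA.Maier.Summary.maier_not_asymptotic` (`SummaryMaier`): Maier's theorem: for every `A > 1`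
  some `δ > 0` has `π (x + (log x) ^ A) - π x` above `(1 + δ) (log x) ^ (A - 1)` and below
  `(1 - δ) (log x) ^ (A - 1)` for arbitrarily large `x`.
* `FA.Summary.cayley_formula`, `FA.Summary.cayley_rooted_trees`,
  `FA.Summary.cayley_forest_formula` (`SummaryCayleyFormula`): Cayley's formula: there are
  `n ^ (n - 2)` trees on `n` labelled vertices, `n ^ (n - 1)` rooted trees and `k n ^ (n - k - 1)`
  rooted forests with `k < n` given roots.
* `FA.Summary.kleitman_littlewood_offord`, `FA.Summary.erdos_littlewood_offord`,
  `FA.Summary.littlewood_offord_anticoncentration` (`SummaryLittlewoodOfford`): the
  Littlewood–Offord problem: at most `C(n, n/2)` subset sums of vectors of norm `≥ 1` in any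
  normed space lie in a set of diameter `< 1` (Kleitman; Erdős on the line, where it is sharp);
  anti-concentration `≤ 1/√(n + 1)`.
* `FA.Subspace.Summary.subspace_theorem`, `subspace_theorem_complex`, `parametric_subspace`,
  `penultimate_minimum`, `simultaneous_approximation`, `linear_form`, `small_polynomial_values`
  (`SummarySubspace`): Schmidt's subspace theorem for forms with algebraic coefficients at the
  archimedean place, with its parametric form and the theorem on the next to last minimum, and
  Schmidt's theorems on simultaneous approximation, linear forms and small polynomial values.
  `algebraic_approximation`: approximation of `α` by algebraic numbers of degree `≤ d < deg α`.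
* `FA.Subspace.Summary.subspace_theorem_padic`, `subspace_theorem_places`,
  `parametric_subspace_places`, `penultimate_minimum_places` (`SummarySubspacePlaces`):
  Schlickewei's subspace theorem over the rationals: algebraic forms at infinity, integer forms of
  unit determinant at finitely many primes or coprime bases.
* `FA.Subspace.Summary.subspace_theorem_schlickewei` (`SummarySubspacePadic`): Schlickewei's
  subspace theorem over the rationals in full: any independent forms with algebraic coefficients
  at infinity and at finitely many primes.
* `FA.Summary.subspace_theorem_numberField_places`, `FA.Summary.sUnit_equation_several`,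
  `FA.Summary.group_equation_several` (`SummarySubspaceNumberFieldPlaces`): the subspace theorem
  over a number field with finitely many finite places; finitely many nondegenerate solutions of
  `∑ a i * u i = 1` in `S`-units or in a finitely generated group; ineffective;
* `FA.Summary.recurrence_growth`, `recurrence_growth_rpow`, `recurrence_zeros_finite`,
  `recurrence_repetitions_finite`, `recurrence_injective_eventually`,
  `gaussian_recurrence_growth` (`SummaryRecurrenceGrowth`): a nondegenerate exponential polynomial
  with algebraic data has `|u n| ≥ |α i| ^ n e ^ (-ε n)` for large `n`, and if some `|α i| > 1`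
  finitely many pairs `m < n` with `u m = u n` (Evertse; van der Poorten and Schlickewei);
* `FA.Summary.linearRecurrence_closed_form`, `linearRecurrence_progressions`,
  `linearRecurrence_dominant_root`, `linearRecurrence_zeros_finite`,
  `linearRecurrence_repetitions_finite` (`SummaryLinearRecurrence`): the closed form of a linear
  recurrence sequence of algebraic numbers, nondegenerate along progressions, and for nondegenerate
  recurrences growth like one of the roots, finitely many zeros and repetitions;
* `FA.Summary.recurrence_height_bound`, `recurrence_free_part_grows`,
  `recurrence_greatest_prime_factor`, `linearRecurrence_greatest_prime_factor`,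
  `linearRecurrence_free_part_grows`, `gaussian_recurrence_prime_factor`
  (`SummaryRecurrencePrimes`): the greatest prime factor of a nondegenerate integer recurrence
  sequence with at least two terms tends to infinity, its part prime to given primes grows
  exponentially (Evertse; van der Poorten and Schlickewei);
* `FA.Summary.gyory_discriminant_finite`, `gyory_degree_bound`, `gyory_elements_bounded_discr`,
  `gyory_elements_bounded_index`, `gyory_power_bases_finite`, `infinite_quadratics_discr_five`,
  `infinite_cyclotomic_power_bases` (`SummaryGyory`): Győry's theorem: monic integer polynomials of
  given discriminant, of whatever degree, integers of a number field of bounded discriminant or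
  index, and generators of power integral bases are finitely many up to translation; ineffective;
* `FA.Summary.gyory_sIntegral_finite`, `gyory_sIntegral_finite_degree_le`,
  `discr_sUnit_quadratic`, `exists_large_degree_discr_two_power` (`SummaryGyorySIntegral`): over the
  `S`-integers of a number field, finitely many classes `f(x) ↦ ε ^ n f((x - a) / ε)` of monic
  polynomials of given degree and given discriminant up to an `S`-unit; ineffective;
* `FA.Summary.evertse_gyory_criterion`, `evertse_gyory_infinite`, `decomposable_form_equation`,
  `decomposable_form_equation_int` (`SummaryDecomposableForms`): the criterion of Evertse and Győry: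
  the points where linear forms over a number field take `S`-unit values are finitely many up to
  scaling for every `S` iff the forms have full rank and every partition has a form in both spans,
  the converse with infinitely many points for one `S`; so decomposable form equations have finitely
  many `S`-integral solutions; ineffective;
* `FA.Summary.hyperplanes_general_position_finite`, `hyperplanes_general_position_sharp`,
  `hyperplanes_degenerate`, `resultant_equation`, `resultant_equation_sharp`
  (`SummaryDecomposableForms`): off `2 n + 1` hyperplanes in general position in `ℙⁿ` there are
  finitely many `S`-integral points, off at most `2 n` infinitely many for some `S`, off `n + 2`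
  they lie in finitely many hyperplanes; `Res(f, g) = r ≠ 0` has finitely many integral solutions
  `g` of degree `≤ m` for separable `f` of degree `> 2 m`, sharp for `m = 1`;
* `FA.Summary.dynamical_canonical_height`, `northcott_preperiodic`, `rational_map_apply`
  (`SummaryArithmeticDynamics`): a rational function of degree `d ≥ 2` over a number field has a
  canonical height on the projective line, the height up to a bounded error, multiplied by `d` under
  the map and zero exactly at the preperiodic points, which are finitely many (Northcott);
* `FA.Summary.silverman_fourth_iterate`, `silverman_orbit`, `silverman_orbit_times`,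
  `silverman_sharp` (`SummaryArithmeticDynamics`): Silverman's theorem: if `φ ∘ φ` is no polynomial,
  `φ^[4] z` is an `S`-integer for finitely many `z` only, so every orbit holds finitely many
  `S`-integers and a wandering point meets them finitely often; sharp, by `z ↦ z⁻²`;
* `FA.Summary.dynamical_mordell_lang`, `dynamical_mordell_lang_finite`,
  `dynamical_mordell_lang_sharp` (`SummaryDynamicalMordellLang`): the theorem of Bell, Ghioca and
  Tucker: in characteristic zero the times at which an orbit of a polynomial map with constant
  nonzero Jacobian determinant lies in an algebraic set are a finite set and finitely many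
  progressions; false in characteristic `p`;
* `FA.Summary.narkiewicz_cycles`, `good_reduction_cycles`, `integer_polynomial_cycles`,
  `rational_polynomial_cycles` (`SummaryCycles`): for a number field and a finite `S` the cycles of
  polynomials in the `S`-integers, and of rational functions of good reduction outside `S` on the
  projective line, have bounded length in any degree (Narkiewicz; Morton and Silverman, Canci);
  over `ℤ` at most two; without integrality every length occurs;
* `FA.Summary.bass_lubotzky_residuallyFinite`, `bass_lubotzky_selberg`, `bass_lubotzky_periodic`,
  `bass_lubotzky_bounded` (`SummaryBassLubotzky`): the theorems of Bass and Lubotzky: in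
  characteristic zero a finitely generated group of automorphisms of affine space is residually
  finite, virtually torsion free, finite if periodic, and has bounded finite subgroups and torsion;
* `FA.Summary.adamczewski_bell`, `derksen_automatic`, `lech_example` (`SummaryAutomaticZeros`):
  zero sets in characteristic `p`: the zeros of a linear recurrence, and the exponents at which a
  finitely generated monoid of torus points lies in an algebraic set, form `p`-automatic sets
  (Derksen; Adamczewski and Bell), though not always eventually periodic ones (Lech);
* `FA.Summary.beukers_schlickewei`, `lang_unit_equation`, `lang_unit_equation_fg`,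
  `binary_recurrence_multiplicity` (`SummaryBeukersSchlickewei`): in a group of rank `r`, over any
  field of characteristic zero, `x + y = 1` has at most `555 * 5 ^ (19 r)` solutions (Beukers and
  Schlickewei; Lang); binary exponential equations have an absolutely bounded number of solutions;
* `FA.Summary.evertse_sunit_equation`, `evertse_thue_mahler`, `evertse_thue_equation`
  (`SummaryEvertseThueMahler`): the number of solutions of the `S`-unit equation is bounded by the
  number of places, that of coprime solutions of the Thue–Mahler and Thue equations by the degree
  and the number of primes, independently of the coefficients (Evertse);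
* `FA.Summary.birch_merriman`, `birch_merriman_factors`, `birch_merriman_discr`
  (`SummaryBirchMerriman`): the theorem of Birch and Merriman: for every `n ≥ 2` the integral binary
  forms of degree `n` of bounded nonzero discriminant, roots at infinity included, fall into
  finitely many classes under `SL₂(ℤ)`; `binary_forms_bounded_cross_ratios`,
  `binary_cubic_forms_finite`: the reduction step; `birch_merriman_zero_discr`,
  `infinite_forms_same_discr`: discriminant zero and the classes cannot be dropped; ineffective;
* `FA.EffectiveBinaryForms.Summary.birch_merriman_effective`, `birch_merriman_class_count`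
  (`SummaryEffectiveBinaryForms`): the effective theorem of Birch and Merriman (Evertse–Győry): a
  form of degree `n` with `0 < |D| ≤ 2 ^ e` is equivalent to one with coefficients at most
  `2 ^ formBound n e`, a closed expression; `form_discriminant_invariant`,
  `form_discriminant_iff_bounded`: which `D` are discriminants is decided by a finite search;
  `form_splitting_field_discr`, `form_cross_ratio_le`: the root field and the cross ratios;
* `FA.Summary.siegel_three_directions`, `siegel_real_directions`, `siegel_points_on_conics`,
  `thue_lower_degree`, `cube_sub_two_cube_eq_conic` (`SummarySiegelCurves`): Siegel's theorem for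
  plane curves of degree `≥ 3` with distinct asymptotic directions, by Corvaja and Zannier's
  subspace proof: finitely many `S`-integral points on an irreducible curve, finitely many conics in
  general; `F = G` for an irreducible form `F` of degree `≥ 3` and `G` of lower degree;
  `siegel_degree_sharp`, `siegel_directions_sharp`, `siegel_irreducible_sharp`: each hypothesis is
  needed; ineffective;
* `FA.Summary.mahler_problem_iff`, `corvaja_zannier_pisot`, `powers_near_integers_finite`,
  `rational_powers_near_integers_finite`, `one_add_sqrt_five_near_integers_finite`
  (`SummaryCorvajaZannier`): Mahler's problem solved by Corvaja and Zannier: for algebraic `α > 1`,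
  `‖α ^ n‖ < l ^ n` infinitely often iff a power of `α` is Pisot, otherwise `λ α ^ n` stays
  `e ^ (-ε n)` away from the integers; `corvaja_zannier_multiples`, `corvaja_zannier_rational`:
  their main theorem for multiples `q λ α ^ n`, the exceptions pseudo-Pisot;
  `corvaja_zannier_period`, `corvaja_zannier_period_one_add_sqrt_three`: Mendès France's problem:
  for a quadratic irrational `α > 0` the continued fraction periods of `α ^ n` tend to infinity iff
  `α ^ 2` is irrational and `α` is no unit of the algebraic integers; ineffective;
* `FA.Summary.subspace_theorem_numberField`, `FA.Summary.subspace_theorem_embeddings`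
  (`SummarySubspaceNumberField`): Schmidt's subspace theorem over an arbitrary number field at the
  archimedean places: integral solutions lie in finitely many proper subspaces over the field.
* `FA.Summary.unit_equation_numberField_several`, `FA.Summary.vanishing_unit_sums_finite`
  (`SummaryUnitEquationNumberField`): the unit equation `∑ a i * u i = 1` in any number of
  variables over a number field has finitely many solutions in units without vanishing subsums
  (Evertse; van der Poorten and Schlickewei).
* `FA.Summary.schmidt_norm_form`, `FA.Summary.norm_form_prime_degree`,
  `FA.Summary.norm_form_fifth_root` (`SummaryNormForms`): Schmidt's theorem on norm form equations: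
  `N (∑ x i * α i) = m` always has finitely many solutions iff the module is nondegenerate.
* `FA.Subspace.Summary.unit_equation_several`, `vanishing_sums_finite`
  (`SummaryUnitEquationSeveral`): the `S`-unit equation `∑ a i * u i = 1` in any number of
  variables over `ℚ` has finitely many solutions without vanishing subsums (Evertse; van der
  Poorten and Schlickewei).
* `FA.Subspace.Summary.bugeaud_corvaja_zannier`, `corvaja_zannier_gcd`, `gyory_sarkozy_stewart`
  (`SummaryCommonDivisors`): `gcd (a ^ n - 1, b ^ n - 1) < exp (ε n)` for independent `a, b` and
  large `n`, its form for `S`-units, and: the largest prime factor of `(a b + 1) (a c + 1)`,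
  `a > b > c`, tends to infinity with `a`.
* `FA.AilonRudnick.Summary.torsion_specialisations_finite`, `ailon_rudnick`,
  `ailon_rudnick_degree`, `ailon_rudnick_coprime`, `ailon_rudnick_converse` (`SummaryAilonRudnick`):
  Ailon and Rudnick 2004: for `f, g` independent modulo constants all `gcd (f ^ m - 1, g ^ n - 1)`
  divide one polynomial, and they are `1` on a residue class of `n` when `f - 1, g - 1` are coprime.
* `FA.Summary.palindromic_continued_fraction` (`SummaryPalindromicFractions`): an irrational number
  whose partial quotients begin with arbitrarily long palindromes is quadratic or transcendental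
  (Adamczewski and Bugeaud).
* `FA.Summary.bugeaud_complexity`, `FA.Summary.bugeaud_automatic` (`SummaryAutomaticFractions`):
  the partial quotients of an algebraic number of degree at least three have more than linearly
  many factors; so automatic continued fractions are quadratic or transcendental (Bugeaud).
* `FA.Summary.powerSum_quotient`, `FA.Summary.powerSum_root` (`SummaryPowerSums`): an integral
  quotient, or an integral root, for infinitely many exponents, of power sums with positive
  rational roots is a power sum (Corvaja and Zannier).
* `FA.Summary.pourchet` (`SummaryPourchet`): for a positive rational `r`, neither an integer nor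
  the inverse of one, the length of the continued fraction of `r ^ n` tends to infinity (Pourchet).
* `FA.Summary.mordell_lang_torus`, `sUnit_points_cosets`, `sUnit_points_subtorus`
  (`SummaryMordellLangTorus`): a finitely generated subgroup of `(ℚˣ)ⁿ` meets a subvariety of the
  torus over `ℚ` in finitely many cosets of subgroups (Lang's conjecture; Laurent).
* `FA.Summary.unit_equation_several_field`, `FA.Summary.unit_equation_finite_rank`,
  `FA.Summary.laurent_torus_cosets_finite_rank`, `FA.Summary.laurent_mordell_lang_finite_rank`,
  `FA.Summary.manin_mumford_torus_field`, with the finitely generated cases `laurent_torus_cosets`,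
  `laurent_mordell_lang` (`SummaryLaurentTori`): over every field of characteristic zero the unit
  equation in several variables has finitely many nondegenerate solutions in a group of finite
  rank; such a subgroup of a torus, e.g. the torsion points, meets a subvariety in finitely many
  cosets of algebraic subgroups inside it (Laurent). Qualitative.
* `FA.Summary.bounded_generation_semisimple`, `FA.Summary.bounded_generation_unipotent`,
  `FA.Summary.bounded_generation_GL_two_int`, `FA.Summary.jarden_narkiewicz`
  (`SummaryBoundedGeneration`): the theorem of Corvaja, Rapinchuk, Ren and Zannier: a linear group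
  in characteristic zero boundedly generated by semisimple elements consists of semisimple elements
  and is virtually abelian, so `GL₂(ℤ)` is not; no finitely generated group gives every natural
  number as a sum of boundedly many of its elements (Jarden and Narkiewicz). Converse not proved.
* `FA.Summary.tits_alternative`, `FA.Summary.tits_alternative_iff`,
  `FA.Summary.tits_alternative_of_faithful`, `FA.Summary.tits_alternative_free_occurs`
  (`SummaryTitsAlternative`): the Tits alternative in characteristic zero: a finitely generated
  linear group has a solvable subgroup of finite index or contains a free group of rank two, never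
  both; Sanov's matrices give the second case.
* `FA.Summary.linear_growth_dichotomy`, `FA.Summary.linear_gromov`,
  `FA.Summary.linear_exponential_growth_iff`, `FA.Summary.linear_growth_both_occur`
  (`SummaryLinearGrowth`): growth of finitely generated linear groups in characteristic zero
  (Milnor, Wolf, Tits): polynomial exactly when virtually nilpotent (Gromov's theorem for linear
  groups), exponential otherwise.
* `FA.Summary.linear_amenable_iff_no_free`, `FA.Summary.linear_amenable_iff_virtually_solvable`,
  `FA.Summary.amenable_of_isSolvable`, `FA.Summary.amenable_and_not_amenable_linear_occur`
  (`SummaryAmenableLinear`): von Neumann's question for linear groups in characteristic zero: such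
  a group has an invariant mean exactly when it has no free subgroup of rank two; when finitely
  generated, exactly when it is virtually solvable.
* `FA.Summary.amenable_iff_folner`, `FA.Summary.not_amenable_iff_paradoxical`,
  `FA.Summary.amenable_of_subexponential_growth`, `FA.Summary.amenable_extension`,
  `FA.Summary.amenable_iff_fg_subgroups`, `FA.Summary.linear_folner_iff_no_free`
  (`SummaryFolnerTarski`): Følner's criterion and Tarski's alternative: a group has an invariant
  mean iff it has Følner sets iff it has no paradoxical decomposition; groups of subexponential
  growth are amenable; extensions and directed unions preserve amenability.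
* `FA.Summary.senge_straus`, `FA.Summary.senge_straus_iff`, `FA.Summary.digit_sum_tendsto`,
  `FA.Summary.power_digits_tendsto`, `FA.Summary.power_two_digits_tendsto`,
  `FA.Summary.sparse_power_sums` (`SummarySengeStraus`): Senge and Straus: only finitely many
  integers have few nonzero digits in two multiplicatively independent bases; the digit sum of
  `2 ^ n` in base ten tends to infinity.
* `FA.StewartDigits.Summary.stewart_two_bases`, `stewart_two_bases_rate`, `stewart_few_digits`,
  `stewart_power_digits`, `stewart_power_rate`, `two_power_digits` (`SummaryStewartDigits`):
  Stewart 1980: the same effectively: `log log n / (log log log n + C)` bounds the digits in two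
  bases from below up to a constant, and `log e / (log log e + C)` those of `a ^ e` in base `b`;
* `FA.Summary.carter_keller`, `FA.Summary.carter_keller_converse`,
  `FA.Summary.sl_boundedly_generated`, `FA.Summary.sl_two_not_boundedly_generated`
  (`SummaryCarterKeller`): Carter and Keller: for `n ≥ 3` a bounded number of elementary matrices
  gives every element of `SL n ℤ`; no bound works for `n = 2`.
* `FA.Summary.sl_kazhdan`, `FA.Summary.sl_relative_kazhdan`, `FA.Summary.margulis_expanders`,
  `FA.Summary.sl_large_finite_quotients`, `FA.Summary.sl_not_amenable`,
  `FA.Summary.amenable_kazhdan_finite`, `FA.Summary.integers_not_kazhdan`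
  (`SummaryKazhdanSLn`): Kazhdan's property (T) of `SL n ℤ`, `n ≥ 3`, and Margulis expanders: one
  spectral gap for all its finite transitive sets; it fails for the integers.
* `FA.Summary.congruence_subgroup_property`, `FA.Summary.mennicke`,
  `FA.Summary.sl_normal_subgroups`, `FA.Summary.center_sl`, `FA.Summary.congruence_kernel_proper`
  (`SummaryCongruenceSubgroup`): the congruence subgroup property of `SL n ℤ`, `n ≥ 3` (Bass,
  Lazard, Serre; Mennicke): finite index subgroups contain congruence kernels, normal subgroups are
  central or of finite index.
* `FA.Summary.witte_not_leftOrderable`, `FA.Summary.witte_order_action_trivial`,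
  `FA.Summary.witte_line`, `FA.Summary.witte_circle`
  (`SummaryWitteMorris`): Witte Morris's theorem — a subgroup of finite index of `SL n ℤ`, `n ≥ 3`,
  is not left-orderable, acts trivially on linear orders and through a finite group on the line
  and on the circle.
* `FA.Summary.sl_superrigidity`, `FA.Summary.sl_completely_reducible`,
  `FA.Summary.sl_small_rep_finite` (`SummarySLRepresentations`): superrigidity of `SL n ℤ`,
  `n ≥ 3` (Bass–Milnor–Serre): finite dimensional representations over algebraically closed
  fields of characteristic zero are given on the elementary matrices of some level by a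
  representation of `sl n`, are completely reducible, and have finite image in dimension less
  than `n`.
* `FA.Summary.grigorchuk_infinite_two_group`, `FA.Summary.grigorchuk_subexponential`,
  `FA.Summary.grigorchuk_superpolynomial`, `FA.Summary.grigorchuk_not_linear`
  (`SummaryGrigorchuk`): the Grigorchuk group — an infinite finitely generated 2-group of
  intermediate growth, so not linear in characteristic zero.
* `FA.Summary.sl2_strong_approximation`, `FA.Summary.sl2_strong_approximation_iff`,
  `FA.Summary.sl2_strong_approximation_exception` (`SummaryStrongApproximation`): a finitely
  generated subgroup of `SL₂ ℤ` is onto modulo all `m` without small prime factors exactly when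
  it is not virtually solvable (strong approximation: Matthews, Vaserstein, Weisfeiler).
* `FA.Summary.sl2_growth`, `FA.Summary.sl2_diameter`, `FA.Summary.gowers_quasirandom`,
  `FA.Summary.sl2_reduction_diameter` (`SummaryHelfgott`): Helfgott’s product theorem in
  `SL₂ (𝔽_p)`, polylogarithmic diameters (Babai’s conjecture for these groups) and Gowers’s
  theorem on quasirandom groups.
* `FA.Summary.sl2_spectral_gap`, `FA.Summary.sl2_expander`, `FA.Summary.sl2_expander_iff`
  (`SummaryBourgainGamburd`): the Cayley graphs of `SL₂ (𝔽_p)` for a finite subset of `SL₂ ℤ`
  are expanders exactly when it generates a group which is not virtually solvable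
  (Bourgain–Gamburd).
* `FA.Summary.sl2_walk_equidistributed`, `FA.Summary.sl2_trace_rare`,
  `FA.Summary.sl2_charpoly_irreducible_generic`, `FA.Summary.sl2_proper_squares_rare`
  (`SummaryGroupSieve`): the large sieve in thin groups (Rivin, Kowalski, Lubotzky–Meiri): among
  the words in a finite subset of `SL₂ ℤ` containing `1` and generating a group which is not
  virtually solvable, reducible characteristic polynomials, squares and each trace are
  exponentially rare.
* `FA.Summary.kesten_amenable_iff`, `FA.Summary.walk_decay_of_not_amenable`,
  `FA.Summary.random_product_growth`, `FA.Summary.lyapunov_exponent_pos` (`SummaryKesten`):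
  Kesten's amenability criterion, and the entries of random products in a subgroup of `SL_d ℤ`
  which is not virtually solvable grow exponentially, almost surely (Furstenberg); the sets of
  steps contain `1`.
* `FA.Summary.specialLinearGroup_int_lattice`, `FA.Summary.specialLinearGroup_haar_cone`,
  `FA.Summary.specialLinearGroup_unimodular`, `FA.Summary.specialLinearGroup_int_not_cocompact`,
  `FA.Summary.specialLinearGroup_haar_univ` (`SummarySLnLattice`): `SL_n ℤ` is a lattice in
  `SL_n ℝ` (Minkowski, Siegel): finite covolume, not cocompact for `n ≥ 2`.
* `FA.Summary.subgroupCount_asymptotic`, `FA.Summary.siegel_volume_formula`,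
  `FA.Summary.siegel_covolume`, `FA.Summary.siegel_volume_two` (`SummarySLnVolume`):
  Siegel's volume formula: the cone over a fundamental domain of `SL_n ℤ` in `SL_n ℝ` has volume
  `ζ(2) ⋯ ζ(n) / n`, and the subgroups of `ℤ ^ n` of index at most `D` number that times `D ^ n`
  asymptotically.
* `FA.Summary.siegel_mean_value`, `FA.Summary.siegel_mean_value_primitive`,
  `FA.Summary.sl_invariant_measure_unique`, `FA.Summary.minkowski_hlawka_measurable`,
  `FA.Summary.minkowski_hlawka_star` (`SummarySiegelMean`): Siegel's mean value theorem on the
  space of lattices, and Minkowski–Hlawka for arbitrary sets.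
* `FA.Summary.rogers_second_moment`, `FA.Summary.primitive_count_variance`,
  `FA.Summary.schmidt_random_lattice`, `FA.Summary.infinite_volume_primitive_points`
  (`SummaryRandomLattices`): Rogers' second moment formula, `n ≥ 3`; Schmidt's theorem: a random
  lattice has `~ vol / ζ(n)` primitive points in growing sets, `∞` many in sets of infinite
  volume.
* `FA.Summary.davenport_rogers_packing`, `FA.Summary.venkatesh_cyclotomic`,
  `FA.Summary.venkatesh_loglog`, `FA.Summary.random_minkowski` (`SummaryPackingBounds`): lattice
  packings beyond Minkowski–Hlawka: density of order `n / 2 ^ n` (Davenport–Rogers) in every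
  dimension and `n log log n / 2 ^ n` in infinitely many (Venkatesh).
* `FA.Summary.bieberbach_first`, `FA.Summary.bieberbach_second`, `FA.Summary.bieberbach_third`,
  `FA.Summary.translations_maximal_abelian` (`SummaryBieberbach`): Bieberbach's theorems on
  crystallographic groups: a translation lattice of finite index, isomorphisms are affine
  conjugations, finitely many in each dimension (Hilbert's eighteenth problem, first part).
* `FA.Summary.auslander_kuranishi`, `FA.Summary.no_fivefold_symmetry`,
  `FA.Summary.torsionFree_iff_free`, `FA.Summary.flat_classes_finite` (`SummaryFlatHolonomy`):
  every finite group is the holonomy group of a compact flat manifold; the crystallographic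
  restriction for point groups; finitely many torsion-free classes in each dimension.
* `FA.Summary.voronoi_cell_tiles`, `FA.Summary.voronoi_relevant_iff`,
  `FA.Summary.voronoi_cell_facets`, `FA.Summary.voronoi_facets_sharp` (`SummaryVoronoiCell`): the
  Dirichlet–Voronoi cell of a lattice tiles, with volume the covolume; Voronoi's criterion for its
  facet vectors; they generate and number at most `2 (2 ^ n - 1)` (Minkowski), sharp for every `n`.
* `FA.Summary.howe_moore_sln`, `FA.Summary.sln_ergodic_mixing`, `FA.Summary.moore_ergodicity`,
  `FA.Summary.lattices_mixing` (`SummarySLnMixing`): Howe–Moore for `SL_n ℝ`; the space of lattices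
  has a mixing invariant probability measure; transvections act ergodically (Moore).
* `FA.Summary.duke_rudnick_sarnak`, `FA.Summary.unimodular_quadruples` (`SummarySLnCount`):
  Duke–Rudnick–Sarnak: for `n ≥ 2`, `SL_n ℤ` has `~ c_n T ^ (n ^ 2 - n)` elements of norm `≤ T`,
  explicit `c_n` (Eskin–McMullen: by mixing); `~ 6 x` quadruples with `a d - b c = 1` and square
  sum `≤ x`.
* `FA.Summary.integer_matrices_det`, `FA.Summary.translate_count`, `FA.Summary.quadruples_det`
  (`SummaryDeterminantCount`): integral matrices of any determinant `k ≠ 0` in balls:
  `~ c_n a_n(|k|) / |k| ^ (n - 1) * T ^ (n ^ 2 - n)`; `~ 6 σ(|k|) / |k| * x` quadruples with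
  `a d - b c = k`.
* `FA.Summary.sln_charpoly_galois_generic`, `FA.Summary.sln_charpoly_irreducible_generic`,
  `FA.Summary.sln_walk_equidistributed` (`SummaryGroupGalois`): the theorem of Rivin and Kowalski:
  for `n ≥ 3` all but exponentially few words in generators (`1` among them) of `SL_n ℤ`
  have irreducible characteristic polynomial with Galois group `S_n` (large sieve by property (T)).
* `FA.Summary.evertse_sum_bound`, `FA.Summary.evertse_sum_finite` (`SummaryUnitSumBound`): a
  nondegenerate sum of integral `S`-units is at least `C * X ^ (1 - ε)` for its largest term `X`
  (Evertse).
* `FA.Summary.adamczewski_bugeaud`, `FA.Summary.automatic_series_transcendental`,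
  `FA.Summary.automatic_digits_transcendental` (`SummaryAdamczewskiBugeaud`): the digits of an
  irrational algebraic number have more than linearly many factors of length `m`; so irrational
  automatic numbers are transcendental (the conjecture of Cobham).
* `FA.Summary.polya_largest_prime_factor`, `FA.Summary.largest_prime_factor_quadratic`,
  `FA.Summary.kobayashi` (`SummaryPolynomialPrimeFactors`): the largest prime factor of `f(n)`
  tends to infinity for `f ∈ ℤ[X]` with two distinct roots (Pólya, Siegel, Mahler), e.g. of
  `n² + 1`; Kobayashi: a translate of an infinite set of integers with finitely many prime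
  divisors has infinitely many.
* `FA.Summary.vahlen_capelli`, `FA.Summary.capelli_prime_power_two`, `FA.Summary.radical_degree`
  (`SummaryCapelli`): the Vahlen–Capelli theorem over any field: `X ^ n - a` is irreducible iff
  `a` is no `p`th power for `p ∣ n` and, for `4 ∣ n`, not `-4 b ^ 4`; then `[K(a^(1/n)) : K] = n`.
* `FA.Summary.lindstrom_gessel_viennot`, `FA.Summary.lgv_nonpermutable`,
  `FA.Summary.binomial_determinant`, `FA.Summary.binomial_determinant_nonneg`
  (`SummaryLindstromGesselViennot`): the Lindström–Gessel–Viennot lemma for finite acyclic
  weighted graphs over any commutative ring; binomial determinants count disjoint path systems.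
* `FA.Summary.covering_sum_reciprocals`, `FA.Summary.newman_multiplicity`,
  `FA.Summary.mirsky_newman` (`SummaryDisjointCovering`): disjoint covering systems: the
  reciprocals of the moduli sum to `1`, a maximal modulus occurs as often as a combination of its
  prime divisors (Newman), and the moduli are never distinct (Mirsky–Newman, Davenport–Rado).
* `FA.Summary.cannonball`, `FA.Summary.square_pyramidal_integer`,
  `FA.Summary.pell_three_four_sq_add_three` (`SummaryCannonball`): Lucas's cannonball problem:
  `1² + ⋯ + n²` is a square only for `n = 0, 1, 24` (Watson; elementary proof of Ma and Anglin),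
  all integral solutions, and the lemma on the Pell equation `v² - 3u² = 1`.
* `FA.MaynardGaps.Summary.random_covering` (`SummaryMaynardLargeGaps`): the covering step of
  Maynard and Ford–Green–Konyagin–Tao: random classes for the small primes and weighted classes
  for the large ones leave few of the targets uncovered; `maynard_weights`: Maynard's sieve
  weights with any prescribed gain `B`, by Bombieri–Vinogradov; `covering`, `jacobsthal`,
  `large_gaps`, `large_gaps_below`: gaps between consecutive primes exceed every multiple of
  Rankin's bound (Maynard; Ford–Green–Konyagin–Tao).
* `FA.Summary.chebyshev_sq_add_one`, `FA.Summary.chebyshev_sq_add_one_infinite`,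
  `FA.Summary.chebyshev_small_primes` (`SummaryChebyshevSquares`): Chebyshev's theorem: the
  largest prime factor of `∏_{n ≤ x} (n² + 1)` exceeds `A x` for every `A` and all large `x`, so
  infinitely many `n² + 1` have a prime factor above `A n`.
* `FA.Summary.newman_binary_digits`, `FA.Summary.newman_exponent`, `FA.Summary.newman_four_pow`
  (`SummaryNewmanDigits`): Newman's theorem: among the multiples of 3 below `N` those with an
  even binary digit sum prevail, by between `N^a / 27` and `4 N^a` with `a = log 3 / log 4`
  and by exactly `2 · 3^k` below `4^(k+1)`.
* `FA.Summary.andre_jeannin`, `FA.Summary.inverse_fibonacci_irrational`,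
  `FA.Summary.inverse_fibonacci_summable` (`SummaryAndreJeannin`): André-Jeannin's theorem: the
  sum of the inverses of the Fibonacci numbers is irrational, indeed outside `ℚ(√5)`.
* `FA.Summary.borwein_series_irrational`, `FA.Summary.borwein_series_summable`,
  `FA.Summary.two_pow_add_one_irrational` (`SummaryBorweinSeries`): Borwein's theorem: for an
  integer `q` with `|q| ≥ 2` and a rational `r ≠ 0`, `r ≠ -q^n`, the sum
  `∑ 1 / (q^n + r)` is irrational; in particular `∑ 1 / (2^n + 1)` is.
* `FA.Summary.pisano_period`, `FA.Summary.pisano_period_wall`, `FA.Summary.pisano_period_le`
  (`SummaryPisanoPeriod`): the periods of the Fibonacci numbers modulo `m`: Wall's theorems at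
  primes, prime powers and least common multiples, and `π(m) ≤ 6 m` with equality exactly at
  `m = 2 · 5^k`.
* `FA.SelbergZeros.Summary.selberg_critical_line_zeros`, `selberg_positive_proportion`
  (`SummarySelbergZeros`): Selberg's theorem (1942): `ζ (1/2 + it)` has at least `c T log T` zeros
  with `0 < t ≤ T`, so a positive proportion of the zeros of the critical strip is on the line; with
  the steps `selberg_mollifier_sum`, `selberg_mollifier_short`, `selberg_mollifier_card`,
  `selberg_theta_mean_square` and `selberg_first_moment`.
* `FA.PairCorrelation.Summary.montgomery_explicit_formula` (`SummaryPairCorrelation`): Montgomery's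
  explicit formula (1973), unconditional, and its critical-line form
  `montgomery_explicit_formula_of_RH`, conditional on RH (a hypothesis, never assumed).
* `FA.PairCorrelation.Summary.montgomery_theorem_of_RH`, `montgomery_pair_correlation_of_RH`
  (`SummaryMontgomeryPairCorrelation`): Montgomery's theorem `F(α) = |α| + (1 + o(1)) T^(-2|α|)
  log T + o(1)` for `|α| ≤ 1 - ε`, conditional on RH (a hypothesis, never assumed); `F ≥ 0` and
  `F(-α) = F(α)` (`montgomeryF_nonneg`, `montgomeryF_inv`) are unconditional.
* `FA.PairCorrelation.Summary.two_thirds_simple_zeros_of_RH`, `sum_sq_multiplicity_of_RH`,
  `small_gaps_of_RH` (`SummaryPairCorrelationGaps`): at least `2/3 - ε` of the zeros are simple,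
  and arbitrarily high two zeros lie within `0.68 · 2π / log γ` or one is multiple; conditional
  on RH (a hypothesis, never assumed).
* `FA.FourthMoment.Summary.zeta_fourth_moment`, `zeta_fourth_moment_isEquivalent`,
  `zeta_fourth_moment_le`, `sum_divisor_sq_div`, `zeta_sq_mean_approximation`
  (`SummaryFourthMoment`): Ingham's fourth moment of `ζ` on the critical line,
  `∫_0^T |ζ|⁴ = T (log T)⁴ / (2π²) + O (T (log T)^(7/2))`; Ramanujan's `∑ d (n)² / n`.
* `FA.Huxley.Summary.huxley_zero_density`, `huxley_large_values` (`SummaryHuxley`): Huxley's
  zero-density theorem, at most `C T^(12 (1-σ)/5) log^A T` zeros of `ζ` with `re ρ ≥ σ`,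
  `|im ρ| ≤ T`, uniformly in `σ`, from the fourth moment and Huxley's large values theorem.
* `FA.Huxley.Summary.huxley_short_intervals`, `huxley_short_intervals_theta`,
  `huxley_prime_gap`, `huxley_prime_gap_isBigO` (`SummaryHuxleyIntervals`): Huxley's theorem:
  `π (x + h) - π x ∼ h / log x` for `h ≥ x^θ`, every `θ > 7/12`, so `p_{n+1} - p_n ≤ p_n^θ`;
  `short_intervals_of_density`: a density exponent `c ≥ 2` (a hypothesis) gives `θ > 1 - 1/c`.
* `FA.GuthMaynard.Summary.heath_brown_double_sum` (`SummaryHeathBrown`): Heath-Brown's double sum:
  a polynomial of length `N` with bounded coefficients, squared and summed at the differences of a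
  separated set `W` up to `T`, is `O (T^ε (N² |W| + N |W|² + N |W|^(5/4) √T))`.
* `FA.GuthMaynard.Summary.large_value_energy` (`SummaryLargeValueEnergy`): Guth–Maynard's bound for
  the additive energy of the heights at which such a polynomial is at least `V`, for all `T`, `N`,
  with two terms more than theirs for `T ≤ N^(6/5)`.
* `FA.GuthMaynard.Summary.guth_maynard_large_values` (`SummaryGuthMaynardLargeValues`):
  Guth–Maynard's large values theorem for `7/10 ≤ σ ≤ 4/5`: at most
  `N^ε (N^(18/5-4σ) + T N^(12/5-4σ))` heights one apart at which a polynomial of length `N` with
  bounded coefficients is at least `N^σ`.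
* `FA.GuthMaynard.Summary.guth_maynard_zero_density`, `guth_maynard_short_intervals`,
  `guth_maynard_short_intervals_theta`, `guth_maynard_prime_gap`,
  `guth_maynard_prime_gap_isBigO` (`SummaryGuthMaynardDensity`): Guth–Maynard's zero-density
  theorem `N (σ, T) = O (T^(30 (1 - σ) / 13 + ε))` and `π (x + h) - π x ∼ h / log x` for
  `h ≥ x^θ`, every `θ > 17/30`, so `p_{n+1} - p_n ≤ p_n^θ`.
* `FA.GuthMaynard.Summary.guth_maynard_almost_all_intervals`, `guth_maynard_almost_all_psi`,
  `guth_maynard_prime_in_almost_every_interval`, `guth_maynard_long_gaps_total`
  (`SummaryGuthMaynardAlmostAll`): for every `θ > 2/15` almost all intervals `(x, x + h]`,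
  `h ≥ X^θ`, have `h / log x` primes asymptotically, and gaps above `p^θ` have total length `o(X)`.
* `FA.TwelfthMoment.Summary.zeta_twelfth_moment_le`, `zeta_twelfth_moment_isBigO`,
  `zeta_large_values_count` (`SummaryTwelfthMoment`): Heath-Brown's twelfth moment
  `∫_0^T |ζ(1/2 + it)|^12 = O(T^(2+ε))`, with `O(T^(2+ε)/V^12)` spaced points of `[T, 2T]`
  where `|ζ| ≥ V ≥ T^(1/8)`.
* `FA.Summary.carmichael_fibonacci`, `FA.Summary.carmichael_fibonacci_iff`,
  `FA.Summary.prime_dvd_fibonacci` (`SummaryFibonacciPrimitive`): Carmichael's theorem: exactly for
  `n ∉ {1, 2, 6, 12}` some prime divides `F n` and no earlier Fibonacci number; it is `±1` mod `n`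
  unless `n = 5`.
* `FA.RealLucasPrimitive.Summary.carmichael_real_lucas`, `…carmichael_real_lucas_iff`
  (`SummaryRealLucasPrimitive`): Carmichael's theorem for every Lucas sequence with coprime nonzero
  `P, Q` and `P² - 4Q > 0`: a primitive prime exists except for `n = 1`, `n = 2` with `P² = 1`,
  `n = 6` with `P² - 3Q` without a prime `≥ 5`, and `n = 12` with `(P, Q) = (±1, -1)`.
* `FA.Postnikova.Summary.schinzel_primitive_divisor`, `multiplicative_orders_cofinite`,
  `primitive_prime_ideal`, `cyclotomic_norm_asymptotic`, `lehmer_primitive_divisor`,
  `lucas_primitive_divisor`, `lucas_one_two` (`SummaryPrimitiveDivisorsNumberFields`): Postnikova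
  and Schinzel, effectively: `a / b` in a number field, no root of unity, has order exactly `n`
  modulo some prime for all `n` beyond an explicit index in the degree and the house; so Lucas
  and Lehmer sequences with complex roots, too, have primitive primes for all large `n`.
* `FA.SchinzelPrimitive.Summary.schinzel_1974`, `coprime_primitive_ideal`, `lehmer_absolute`,
  `lucas_absolute` (`SummarySchinzelPrimitive`): Schinzel 1974: the index from which primitive
  divisors exist depends on the degree alone, by a closed bound; hence one explicit index for all
  nondegenerate Lucas and Lehmer sequences (the exceptions are not listed).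
* `FA.SkolemLocalGlobal.Summary.skolem_rank_one`, `prescribed_characters`, `skolem_unit_binary`,
  `lucas_numbers_modulus` (`SummarySkolemLocalGlobal`): Skolem's exponential local-global
  principle in rank one (Bartolome, Bilu and Luca): squarefree moduli prime to a given one decide
  whether an exponential sum, so an integer recurrence `u (n+2) = P u (n+1) ± u n` with distinct
  roots, has an integer zero; characters of prescribed values modulo primes on free groups.
* `FA.Summary.perron_irreducible`, `FA.Summary.osada_irreducible`, `FA.Summary.brauer_irreducible`
  (`SummaryPerronCriterion`): the irreducibility criteria of Perron (dominant second coefficient,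
  one root outside the unit disc), Osada (dominant prime constant term) and Brauer
  (`xⁿ - a₁xⁿ⁻¹ - … - aₙ` with decreasing `aᵢ ≥ 1`, a Pisot root).
* `FA.AbelianBinomial.Summary.schinzel_abelian_binomial`, `…schinzel_abelian_binomial_rat`
  (`SummaryAbelianBinomial`): Schinzel's theorem (1977): for `n` prime to the characteristic
  `X ^ n - a` has an abelian Galois group exactly when `a ^ w` is an `n`-th power, `w` counting
  the `n`-th roots of unity of the field; over `ℚ`, `n` odd, exactly when `a` is one.
* `FA.Summary.fibonacci_sylvester_expansion`, `FA.Summary.curtiss_theorem`,
  `FA.Summary.kellogg_bound` (`SummaryEgyptianFractions`): Egyptian fractions: the greedy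
  expansion, and Curtiss's proof of Kellogg's conjecture that Sylvester's sequence is extremal,
  so `∑ 1 / x_i = 1` has finitely many solutions of each length.
* `FA.Summary.waring_euler_bound`, `FA.Summary.waring_maillet`, `FA.Summary.waring_kempner`,
  `FA.Summary.waring_liouville` (`SummaryWaringBounds`): elementary bounds in Waring's problem:
  `g(k) ≥ 2^k + ⌊(3/2)^k⌋ - 2`, `G(k) ≥ k + 1`, `G(2^θ) ≥ 2^(θ+2)` for `θ ≥ 2`, and Liouville's
  `g(4) ≤ 53`.
* `FA.Summary.steinhaus_circle`, `FA.Summary.schinzel_circle`, `FA.Summary.bambah_chowla_gap`
  (`SummaryLatticeCircles`): circles with exactly `n` lattice points inside (Steinhaus) and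
  circles through exactly `n` lattice points (Schinzel); sums of two squares have gaps at most
  `2 √2 N ^ (1/4) + 1` (Bambah and Chowla).
* `FA.Summary.calkin_wilf`, `FA.Summary.stern_hyperbinary`, `FA.Summary.stern_block_max`,
  `FA.Summary.stern_sequence`, `FA.Summary.smith_determinant`,
  `FA.Summary.smith_determinant_totient` (`SummarySternSequence`): Stern's diatomic sequence
  lists every positive rational once and counts hyperbinary representations, with Fibonacci
  maxima on dyadic blocks (Lehmer); Smith's determinant of the matrix of `gcd (i, j)`.
* `FA.Summary.zolotarev_lemma`, `FA.Summary.frobenius_zolotarev`, `FA.Summary.gauss_wilson`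
  (`SummaryZolotarev`): the Legendre and Jacobi symbols are the signs of `x ↦ a x` on `ZMod n`
  (Zolotarev, Frobenius); the product of the units modulo `n` is `-1` for `1, 2, 4, p ^ m, 2 p ^ m`
  and `1` otherwise (Gauss).
* `FA.Summary.szele_cyclic_number`, `FA.Summary.dickson_abelian_number`,
  `FA.Summary.isCyclic_of_coprime_totient` (`SummaryCyclicNumbers`): every group of order `n` is
  cyclic iff `gcd (n, φ n) = 1` (Szele), abelian iff `n` is cube-free and prime to `p ^ k - 1` for
  each prime power `p ^ k ∣ n` (Dickson).
* `FA.Summary.euler_harmonic_sum`, `FA.Summary.euler_harmonic_zeta`,
  `FA.Summary.goldbach_euler_perfect_powers` (`SummaryEulerSeries`): Euler's sum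
  `∑ H n / n ^ 2 = 2 ζ 3` and the theorem of Goldbach and Euler that `∑ 1 / (x - 1) = 1` over
  the perfect powers.
* `FA.Summary.erdos_anning` (`SummaryErdosAnning`): the theorem of Erdős and Anning that an
  infinite plane set with all mutual distances integers lies on one line.
* `FA.Summary.lagrange_inversion`, `FA.Summary.lagrange_inversion_exists`,
  `FA.Summary.lagrange_burmann`, `FA.Summary.fuss_catalan_coeff`,
  `FA.Summary.tree_function_coeff`, `FA.Summary.abel_binomial_theorem`
  (`SummaryLagrangeInversion`): Lagrange–Bürmann inversion over any commutative ring, with the
  Fuss–Catalan numbers, the tree function and Abel's binomial theorem.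
* `FA.Summary.descartes_circle_theorem`, `FA.Summary.descartes_circle_external`,
  `FA.Summary.tangent_circles_inter`, `FA.Summary.apollonian_reflection`,
  `FA.Summary.apollonian_integrality`, `FA.Summary.apollonian_root_quadruple`,
  `FA.Summary.apollonian_packing_example` (`SummaryApollonian`): Descartes's circle theorem and
  integral Apollonian packings, with the descent to root quadruples.
* `FA.Summary.pillai_consecutive`, `FA.Summary.pillai_consecutive_sharp`,
  `FA.Summary.kurschak_reciprocals` (`SummaryConsecutiveIntegers`): of at most `16` consecutive
  integers one is coprime to all the others, which fails for `17` (Pillai); `1 / m + ⋯ + 1 / n`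
  is never an integer (Kürschák).
* `FA.Summary.wythoff_game` (`SummaryWythoff`): the cold positions of Wythoff's game are exactly
  the Beatty pairs `⌊k φ⌋, ⌊k φ ^ 2⌋` of the golden ratio.
* `FA.Summary.schur_denumerant`, `FA.Summary.kempner_series` (`SummaryDenumerant`): the number of
  representations of `n` by coprime parts `a 0, …, a m` is asymptotic to `n ^ m / (m! ∏ a i)`
  (Schur); the harmonic series without one digit converges (Kempner).
* `FA.Summary.cyclotomic_resultant_prime_power`, `FA.Summary.cyclotomic_resultant_one`,
  `FA.Summary.touchard_congruence` (`SummaryCyclotomicResultant`): the resultants of cyclotomic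
  polynomials (E. Lehmer, Apostol) and Touchard's congruence for the Bell numbers.
* `FA.Summary.erdos_sum_free` (`SummarySumFree`): every finite nonempty set of nonzero integers
  has a sum-free subset with more than a third of its elements (Erdős).
* `FA.Summary.lehmer_pythagorean_count` (`SummaryPythagoreanCount`): the primitive Pythagorean
  triples with hypotenuse at most `N` number asymptotically `N / (2π)` (Lehmer, 1900).
* `FA.Summary.franel`, `FA.Summary.landau_farey`, `FA.Summary.franel_identity`,
  `FA.Summary.farey_exp_sum`, `FA.Summary.farey_mem` (`SummaryFranelLandau`): the theorem of Franel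
  and Landau: with `δ` the distances of the Farey fractions of order `N` from the equally spaced
  ones, the Riemann hypothesis is equivalent to `∑ δ² = O (N^(-1+ε))` and to
  `∑ |δ| = O (N^(1/2+ε))`; Franel's identity and Landau's exponential sum.
* `FA.Summary.selberg_symmetry`, `FA.Summary.selberg_symmetry_convolution`,
  `FA.Summary.tatuzawa_iseki` (`SummarySelbergSymmetry`): Selberg's symmetry formula
  `ψ x log x + ∑_{n ≤ x} Λ n ψ (x / n) = 2 x log x + O (x)`, elementary, by the identity of
  Tatuzawa and Iseki.
* `FA.Summary.paley_hadamard_first`, `FA.Summary.paley_hadamard_second`,
  `FA.Summary.paley_hadamard_doubled`, `FA.Summary.paley_hadamard_second_doubled`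
  (`SummaryPaleyHadamard`): Paley's Hadamard matrices of order `2^k (q + 1)` for prime powers
  `q ≡ 3 (mod 4)` and `2^(k+1) (q + 1)` for `q ≡ 1 (mod 4)`.
* `FA.Summary.riesz_series`, `FA.Summary.riesz_criterion` (`SummaryRieszCriterion`): Riesz's
  criterion: the Riemann hypothesis holds iff `∑_{k ≥ 0} (-x)^k x / (k! ζ(2k+2))` is
  `O (x^(1/4+ε))`; the series equals `x ∑ μ n exp (-x / n²) / n²`.
* `FA.Summary.mertens_one_sided`, `FA.Summary.liouville_one_sided`, `FA.Summary.turan_one_sided`,
  `FA.Summary.mertens_one_sided_iff`, `FA.Summary.liouville_one_sided_iff`,
  `FA.Summary.turan_one_sided_iff`, `FA.Summary.liouville_lseries`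
  (`SummaryOneSidedCriteria`): one-sided bounds `C n^α` for `∑ μ`, `∑ λ` or `∑ λ k / k` keep the
  zeros of `ζ` out of `α < re s` (Landau, Pólya, Turán); each side alone is equivalent to the
  Riemann hypothesis at exponents just above those of square root cancellation.
* `FA.Summary.redheffer_det`, `FA.Summary.redheffer_criterion`,
  `FA.Summary.redheffer_criterion_one_sided` (`SummaryRedheffer`): Redheffer's matrix has
  determinant `∑_{k ≤ n} μ k`, and the Riemann hypothesis says it is `O (n^(1/2+ε))` (one side
  suffices).
* `FA.Summary.gauss_digamma`, `FA.Summary.digamma_one_quarter`, `FA.Summary.digamma_one_third`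
  (`SummaryGaussDigamma`): Gauss's digamma theorem at `p / q`, `0 < p < q`, with `ψ (1/4)` and
  `ψ (1/3)` in closed form.
* `FA.Summary.ramanujan_zeta_odd`, `FA.Summary.zeta_four_mul_add_three`,
  `FA.Summary.lerch_zeta_three`, `FA.Summary.zeta_seven`, `FA.Summary.coth_sum_rational`
  (`SummaryRamanujanZeta`): Ramanujan's formula for `ζ (2 N + 1)` with `α β = π²`, Lerch's series
  for `ζ (3)`, and `∑ coth (π n) / n ^ (4 M + 3)` as a rational multiple of `π ^ (4 M + 3)`.
* `FA.Summary.baez_duarte_criterion`, `FA.Summary.nyman_beurling_criterion`,
  `FA.Summary.nyman_beurling_integrable` (`SummaryNymanBeurling`): the Riemann hypothesis holds iff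
  the indicator of `(0, 1]` is a limit in `L² (0, ∞)` of combinations of `x ↦ {1 / (n x)}`, iff `1`
  is one in `L² (0, 1)` of combinations of `x ↦ {θ / x}`, `0 < θ ≤ 1`.
* `FA.Summary.balazard_saias_yor`, `FA.Summary.balazard_saias_yor_nonneg`,
  `FA.Summary.balazard_saias_yor_integrable` (`SummaryBalazardSaiasYor`): the function
  `log |ζ (1/2 + it)| / (1/4 + t²)` is integrable with nonnegative integral, which is `0` iff the
  Riemann hypothesis holds (Balazard, Saias and Yor 1999).
* `FA.Summary.salie_sum_eval`, `FA.Summary.salie_sum_zmod`, `FA.Summary.salie_sum_eq_zero`,
  `FA.Summary.salie_sum_bound` (`SummarySalie`): Salié's evaluation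
  `∑ χ x ψ (a x + b / x) = χ b g ∑_{y² = 4 a b} ψ y` over every finite field of odd
  characteristic, so `0` for non-square `a b` and at most `2 √p` modulo `p`.
* `FA.Summary.vasyunin_formula`, `FA.Summary.vasyunin_formula_common_factor`,
  `FA.Summary.vasyunin_norm_sq` (`SummaryVasyunin`): Vasyunin's cotangent sum formula for
  `∫ {1 / (a x)} {1 / (b x)} dx` over `x > 0`, the Gram matrix of the criterion of Nyman, Beurling
  and Báez-Duarte; in particular `∫ {1 / (n x)}² = (log (2 π) - γ) / n`.
* `FA.Summary.muntz_szasz`, `FA.Summary.muntz_szasz_L2` (`SummaryMuntzSzasz`): the theorem of
  Müntz and Szász, both directions: for `0 < λ₀ < λ₁ < ⋯` the powers `x ^ λₖ` (with constants)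
  are dense in `C [0, 1]`, resp. in `L² (0, 1)`, if and only if `∑ 1 / λₖ = ∞`.
* `FA.Summary.nicolas_criterion`, `FA.Summary.nicolas_primorial`, `FA.Summary.nicolas_totient`,
  `FA.Summary.nicolas_oscillation` (`SummaryNicolas`): Nicolas's theorems: with `N k` the product
  of the first `k` primes the Riemann hypothesis holds iff `e^γ log log N k < N k / φ (N k)` for
  all large `k` (the form for every `k ≥ 1` is not claimed); unconditionally this holds infinitely
  often, so `e^γ log log n < n / φ n` for infinitely many `n`; both signs if the hypothesis fails.
* `FA.Summary.robin_criterion`, `FA.Summary.robin_criterion_sigma`, `FA.Summary.robin_failure`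
  (`SummaryRobin`): Robin's theorem: the Riemann hypothesis holds iff `σ n < e^γ n log log n` for
  all sufficiently large `n` (the form for every `n > 5040` is not claimed); if it fails,
  `e^γ n log log n < σ n` infinitely often.
* `FA.Summary.hensley_richards`, `FA.Summary.hensley_richards_incompatibility`,
  `FA.Summary.hensley_richards_excess`, `FA.Summary.ramanujan_inequality`,
  `FA.Summary.primeCounting_expansion` (`SummaryHensleyRichards`): Hensley–Richards 1974: an
  interval of length `x` holds admissible sets with `π x + (log 2 - ε) x / (log x)^2` elements, so
  the prime tuples conjecture (an explicit, open hypothesis) contradicts `π (x+y) ≤ π x + π y`;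
  Ramanujan's inequality `(π x)^2 < (e x / log x) π (x/e)` for large `x`; the expansion of `π x`.
* `FA.Summary.superabundant_infinite`, `FA.Summary.superabundant_exponents`,
  `FA.Summary.superabundant_gronwall`, `FA.Summary.robin_criterion_superabundant`,
  `FA.Summary.lagarias_criterion` (`SummarySuperabundant`): superabundant numbers (infinitely many,
  decreasing exponents, Gronwall's extreme order along them); RH iff Robin's inequality holds at
  all large superabundant numbers (Akbary–Friggstad), and iff `σ n ≤ H_n + exp H_n log H_n` for all
  large `n` (Lagarias); both in eventual form only.
* `FA.Summary.amicable_density_zero`, `FA.Summary.aliquot_step`,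
  `FA.Summary.abundant_aliquot_abundant` (`SummaryAmicable`): Erdős 1955: the amicable numbers have
  density zero; Erdős 1976: `σ (s n) / s n ≥ σ n / n - ε` for almost all `n`, `s` the sum of proper
  divisors, so almost all abundant `n` have `s n` abundant.
* `FA.Summary.wiener_ikehara`, `FA.Summary.wiener_ikehara_dirichlet`,
  `FA.Summary.wiener_ikehara_general_dirichlet` (`SummaryWienerIkehara`): the Wiener–Ikehara theorem
  for monotone functions and for (general) Dirichlet series with nonnegative coefficients, assuming
  only a continuous extension to the closed half-plane and no a priori bound.
* `FA.Summary.beurling_prime_number_theorem`, `FA.Summary.beurling_natural_primes`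
  (`SummaryBeurlingPrimes`): Beurling's prime number theorem for generalized primes, assuming that
  the generalized integers number `A x + O (x ^ θ)` with `θ < 1` (not his weaker logarithmic
  hypothesis), from Wiener–Ikehara; the ordinary primes as an instance.
* `FA.Summary.erdos_bateman`, `FA.Summary.erdos_bateman_pi` (`SummaryTotientCount`): the theorem
  of Erdős and Bateman that `#{n : φ n ≤ x} ∼ ζ 2 ζ 3 / ζ 6 · x = 315 ζ 3 / (2 π^4) · x`.
* `FA.Summary.kalmar_ordered_factorisations` (`SummaryKalmar`): Kalmár's theorem that the lists of
  integers `≥ 2` with product `≤ x` number `∼ x ^ ρ / (-ρ ζ' ρ)`, `ρ` the real root of `ζ = 2`.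
* `FA.Summary.fabry_gap`, `FA.Summary.fabry_gap_exponents`, `FA.Summary.squares_natural_boundary`,
  `FA.Summary.turan_lemma` (`SummaryFabryGap`): Fabry's gap theorem (coefficients of density zero
  and radius `1`: the circle is the natural boundary), via Turán's lemma on exponential sums.
* `FA.Summary.primeZeta_deriv_continuation`, `FA.Summary.primeZeta_natural_boundary`,
  `FA.Summary.primeZeta_deriv_domain`, `FA.Summary.primeZeta_domain` (`SummaryPrimeZeta`): the
  theorem of Landau and Walfisz: for `P s = ∑ p^(-s)` the derivative extends meromorphically to
  `0 < re s` and through no point of the imaginary axis, so a connected domain of meromorphy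
  of `P` or `P'` meeting `1 < re s` lies in `0 < re s`.
* `FA.EstermannSummary.estermann_iff`, `FA.EstermannSummary.estermann_natural_boundary`,
  `FA.EstermannSummary.dThree_sq_boundary` (`SummaryEstermannBoundary`): Estermann's theorem: for
  `W ∈ ℤ[X]` with `W 0 = 1` the product `∏ W (p^(-s))` extends meromorphically to `0 < re s`, and
  beyond iff all roots of `W` are roots of unity, else the axis is a natural boundary; so it is
  for `∑ d₃ n ^ 2 n^(-s)`, not for `∑ d n ^ 2 n^(-s)`.
* `FA.Summary.dirichlet_divisor_omega`, `FA.Summary.dirichlet_divisor_mean_square_omega`,
  `FA.Summary.dirichlet_divisor_not_isLittleO`, `FA.Summary.dirichlet_divisor_exponent`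
  (`SummaryHardyOmega`): Hardy's theorem that `Δ N = ∑_{n ≤ N} d n - N log N - (2 γ - 1) N` is
  at least `c N^(1/4)` infinitely often, and `∫_1^X Δ²` at least `c X^(3/2)` for arbitrarily
  large `X`; so the exponent in Dirichlet's divisor problem is at least `1/4`.
* `FA.Summary.additive_divisor_problem`, `FA.Summary.additive_divisor_asymptotic`,
  `FA.Summary.additive_divisor_consecutive` (`SummaryAdditiveDivisor`): Ingham's theorem that
  `∑_{n ≤ N} d n d (n + h) = (6 / π²) σ₋₁ h N log² N + O (N log N)` for each fixed `h ≥ 1`,
  with implied constant depending on `h`.
* `FA.Summary.hamburger`, `FA.Summary.hamburger_hypotheses_zeta` (`SummaryHamburger`):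
  Hamburger's theorem that `ζ` is determined by its functional equation: if `Γℝ s ∑ a n n^(-s)`
  is `G s / (s (s - 1))` with `G` entire of finite order and equals
  `Γℝ (1 - s) ∑ b n n^(s - 1)` for `re s < 0`, then `a n = b n = a 1` for all `n ≥ 1`.
* `FA.DegreeGapSummary.degree_gap`, `FA.DegreeGapSummary.degree_zero`,
  `FA.DegreeGapSummary.degree_zero_finite`, `FA.DegreeGapSummary.exp_series_entire`
  (`SummaryDegreeGap`): Richert's and Conrey–Ghosh's theorem that a Dirichlet series with a
  Gamma-factor functional equation has no degree `d` with `0 < d < 1`, and that for `d = 0` it
  is a finite sum over divisors of `Q ^ 2`; for `d < 1` the series `∑ a n n^m exp (-n z)` is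
  entire and periodic.
* `FA.DegreeOneSummary.degree_one_periodic`, `FA.DegreeOneSummary.degree_one_LFunction`,
  `FA.DegreeOneSummary.degree_one_bounded`, `FA.DegreeOneSummary.degree_one_conductor_one`
  (`SummaryDegreeOne`): the theorem of Kaczorowski and Perelli that a Dirichlet series of degree
  `1` with a Gamma-factor functional equation has integral conductor `q` and is the shifted
  `L`-function of a function on `ℤ / q`; so it is `a 1 ζ (s + iθ)` when `q = 1`.
* `FA.SelbergClassSummary.selberg_degree_zero`, `FA.SelbergClassSummary.selberg_degree_one`,
  `FA.SelbergClassSummary.selberg_degree_le_one` (`SummarySelbergClass`): the classification of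
  Selberg's class in degree at most `1`: with an Euler product, degree `0` gives `1` and degree
  `1` the shifted `L`-function of a primitive Dirichlet character of modulus the conductor; no
  Ramanujan bound is used.
* `FA.SelbergStructureSummary.selberg_invariants`, `FA.SelbergStructureSummary.selberg_mul`,
  `FA.SelbergStructureSummary.selberg_degree_range`,
  `FA.SelbergStructureSummary.selberg_factorization`,
  `FA.SelbergStructureSummary.selberg_degree_one_iff`,
  `FA.SelbergStructureSummary.selberg_primitive` (`SummarySelbergStructure`): degree, conductor
  and shift are invariants of the function, the class is closed under products, each element is a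
  product of at most `d` primitive ones, and degree `1` is exactly `ζ` and the shifted primitive
  Dirichlet `L`-functions, which are primitive (Euler product as in R1170, no Ramanujan bound).
* `FA.SelbergMultiplicitySummary.selberg_multiplicity_one`,
  `FA.SelbergMultiplicitySummary.selberg_multiplicity_one_coprime`,
  `FA.SelbergMultiplicitySummary.selberg_linear_independent` (`SummarySelbergMultiplicity`): strong
  multiplicity one in the Selberg class (agreement outside finitely many primes forces equality)
  and the Kaczorowski–Molteni–Perelli theorem that distinct elements are linearly independent over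
  `ℂ` (Euler product as in R1170; not the Murty–Murty form with `a p`, `a (p^2)` only).
* `FA.SelbergZeroCountSummary.selberg_zero_count`,
  `FA.SelbergZeroCountSummary.selberg_zero_count_asymptotic`,
  `FA.SelbergZeroCountSummary.selberg_zeros_determine` (`SummarySelbergZeroCount`): Riemann and
  von Mangoldt in the Selberg class, `N T = (d T / π) log (T / e) + (T / π) log (q / (2π)^d) +
  O (log T)` with multiplicity (constant depending on the function); the zeros determine degree
  and conductor; checked at `riemannZeta` and at the `L`-functions of primitive characters.
* `FA.SelbergLandauSummary.selberg_landau_formula`,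
  `FA.SelbergLandauSummary.selberg_zeros_differ`,
  `FA.SelbergLandauSummary.selberg_zeros_determine_function` (`SummarySelbergLandau`): Landau's
  formula `∑_{|im ρ| ≤ T} x ^ ρ = -(T / π) Λ_F x + O (log² T)` in the Selberg class; two different
  elements have zero multisets differing by `≥ c T`, in `≥ c T / log T` points, so the zeros
  (outside a finite set, or up to `o (T)`) determine the function.
* `FA.SelbergHadamardSummary.selberg_hadamard_product`,
  `FA.SelbergHadamardSummary.selberg_grh_criteria`,
  `FA.SelbergHadamardSummary.selberg_li_criterion`,
  `FA.SelbergHadamardSummary.bombieri_lagarias` (`SummarySelbergHadamard`): the completed function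
  `ξ` of an element of the Selberg class has Hadamard's product and
  `re (ξ'/ξ) = ∑ re (1 / (s - ρ))`; in positive degree all its zeros are on `re s = 1/2` iff this
  is positive to the right of the line iff `|ξ|` increases there; if `ξ 0 ≠ 0`, iff Li's sums are
  nonnegative (Bombieri and Lagarias).
* `FA.SelbergLindelofSummary.selberg_convexity`,
  `FA.SelbergLindelofSummary.selberg_backlund`,
  `FA.SelbergLindelofSummary.selberg_lindelof_of_grh` (`SummarySelbergLindelof`): in the Selberg
  class `L (σ + it) = O (|t| ^ (d (1 - σ) / 2 + ε))` on the critical strip; Backlund's theorem
  that Lindelöf's bound holds iff there are `o (log T)` zeros with `re ρ ≥ σ`, `|im ρ - T| ≤ 1`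
  for each `σ > 1/2`; so Lindelöf's bound follows from the Riemann hypothesis.
* `FA.SelbergValuesSummary.selberg_characteristic`,
  `FA.SelbergValuesSummary.selberg_share_one`,
  `FA.SelbergValuesSummary.selberg_share_three` (`SummarySelbergValues`): Steuding's Nevanlinna
  theory of the Selberg class: `T (r, L) = (d / π) r log r + O r`; for `d > 0` every value is taken
  infinitely often; two elements with the same points of one value with multiplicity, or of three
  values without, are equal.
* `FA.SelbergWeilSummary.selberg_explicit_formula`,
  `FA.SelbergWeilSummary.selberg_weil_criterion` (`SummarySelbergWeil`): Weil's explicit formula in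
  the Selberg class for test functions of class `C²` with compact support, and his criterion: all
  zeros are on the line iff the functional is nonnegative at the autocorrelations of complex ones.
* `FA.SelbergPNTSummary.selberg_pnt`, `FA.SelbergPNTSummary.selberg_pnt_error`,
  `FA.SelbergPNTSummary.selberg_weil_short_positive` (`SummarySelbergPNT`): in the Selberg class
  the smoothed sum of `Λ_F` is asymptotic to its main term iff there is no zero on `re s = 1`, has
  error `O (x ^ θ)` iff there is none to the right of `θ ≥ 1/2`; Weil's functional is positive on
  short windows in positive degree. The sharp cut-off assumes `|Λ_F n| ≤ C Λ n`.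
* `FA.SelbergOmegaSummary.selberg_omega`, `FA.SelbergOmegaSummary.selberg_omega_sqrt`,
  `FA.SelbergOmegaSummary.selberg_oscillation` (`SummarySelbergOmega`): Landau's Omega theorems in
  the Selberg class: a zero `ρ` gives `|ψ_F x - m x| > c x ^ (re ρ)` for `c < k / |ρ|` and large
  `x` arbitrarily far, so the error is never `o (√x)` in positive degree; with real coefficients
  both signs occur, assuming no real zero to the right.
* `FA.SelbergDLVPSummary.selberg_dlvp_zero_free`, `FA.SelbergDLVPSummary.selberg_dlvp_pnt`
  (`SummarySelbergDLVP`): for `Λ_F ≥ 0` the series of `-L'/L` converges for `re s > 1`; with a pole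
  of order `m ≤ 1` and `E 1 ≠ 0` every zero has `re ρ ≤ 1 - c / log (|im ρ| + 3)` and
  `ψ_F x = m x + O (x exp (-c √(log x)))`; `ζ L (χ)` for quadratic `χ`, `c` not effective.
* `FA.Summary.landau_formula_nat`, `FA.Summary.landau_formula_not_nat`,
  `FA.Summary.ordinateSum_isLittleO`, `FA.Summary.ordinates_equidistributed`
  (`SummaryZeroOrdinates`): Landau's formula
  `∑_{0 < im ρ ≤ T} x ^ ρ = -(T / 2π) Λ x + O (log² T)` for each `x > 1` and the theorem of
  Rademacher and Hlawka that, for every `α ≠ 0`, the numbers `α im ρ` over the zeros `ρ` of `ζ`
  are equidistributed mod 1, both unconditional.
* `FA.Summary.zeta_zero_in_short_interval`, `FA.Summary.zeroCount_lt_add`,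
  `FA.Summary.nextOrdinate_sub_tendsto` (`SummaryOrdinateGaps`): Littlewood's theorem that the
  gaps between consecutive ordinates of the zeros of `ζ` tend to `0`: for each `h > 0` every
  interval `(T, T + h]` with `T` large holds the ordinate of a zero, unconditionally.
* `FA.Summary.weil_explicit_formula`, `FA.Summary.weil_criterion` (`SummaryWeilExplicit`): the
  explicit formula of Riemann and Weil for `C²` test functions of compact support, relating the
  sum over all nontrivial zeros to the primes and to `Re ψ (1/4 + it/2) - log π`, and Weil's
  criterion: RH holds iff this functional is nonnegative at every real autocorrelation.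
* `FA.Summary.lindelof_iff_zeros_sparse`, `FA.Summary.lindelof_of_riemannHypothesis`,
  `FA.Summary.lindelof_strip` (`SummaryLindelofBacklund`): Backlund's theorem — the hypothesis of
  Lindelöf `ζ (1/2 + it) ≪ |t| ^ ε` holds iff every `σ > 1/2` has `o (log T)` zeros `re ρ ≥ σ`
  with `T < im ρ ≤ T + 1`; it follows from the Riemann hypothesis and holds then in `re s ≥ 1/2`.
* `FA.Summary.lindelof_iff_moments`, `FA.Summary.zeroCount_short_interval_of_lindelof`,
  `FA.Summary.zeroCount_short_interval_of_riemannHypothesis` (`SummaryLindelofZeros`): Lindelöf's
  hypothesis (never assumed silently) holds iff all moments of `ζ` on `re s = 1/2` are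
  `O (T ^ (1 + ε))` (Hardy–Littlewood); it, or RH, gives `N (T + h) - N T ∼ (h / 2π) log T`.
* `FA.Summary.herbrand_ribet`, `FA.Summary.leopoldt_reflection` (`SummaryHerbrandRibet`): at every
  prime `p ≥ 5` the `p`-classes of `ℚ(ζ_p)` of odd weight `i` are nontrivial iff `3 ≤ i` and
  `p ∣ B_{p-i}`, classically, by Gras and Kummer theory; even weight `k` forces weight `p - k`;
  `pow_irregularIndexCount_dvd_classNumber`: `p ^ i(p) ∣ h(ℚ(ζ_p))`, `i(p)` the irregular indices.
* `FA.Summary.mazur_wiles_eigen_orders`, `FA.Summary.weight_one_eigen_trivial`,
  `FA.Summary.gauss_sum_component_bound`, `FA.Summary.relative_class_number_exponent`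
  (`SummaryExactEigenOrders`): Mazur–Wiles for `ℚ(ζ_p)`: for odd `3 ≤ i ≤ p - 2` the classes of
  weight `ω ^ i` number exactly `p ^ v`, `v` the valuation of `B_{1,ω^-i}`, by Kolyvagin's Euler
  system of Gauss sums and the relative class number formula; weight `ω` occurs trivially.
* `FA.Summary.iwasawa_control_fixed`, `FA.Summary.iwasawa_control_norm`,
  `FA.Summary.iwasawa_main_conjecture_cyclic_branch`,
  `FA.Summary.iwasawa_main_conjecture_branch_of_small` (`SummaryIwasawaControl`): control of the odd
  branches from `ℚ(ζ_p)` to `ℚ(ζ_(p^(n+1)))`; a branch cyclic at the bottom (as when
  `p ^ 2 ∤ B_{1,ω^-i}`) is `ℤ_p[X] / (θ, ω_n)` at every level, `θ` Stickelberger's branch.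
* `FA.Summary.iwasawa_main_conjecture_minus` (`SummaryMainConjecture`): Iwasawa's main conjecture
  for every odd branch `3 ≤ i ≤ p - 2`, any structure: at every level `ℚ(ζ_(p^(n+1)))` the Fitting
  ideal of the weight `ω ^ i` part is `(θ, ω_n)`, the determinant of a square relation matrix being
  Stickelberger's branch; by the Euler system of Gauss sums in the tower.
* `FA.Summary.iwasawa_branch_order`, `FA.Summary.iwasawa_branch_trivial_iff`,
  `FA.Summary.iwasawa_branch_irregular`, `FA.Summary.iwasawa_branch_invariants`
  (`SummaryBranchInvariants`): the exact order of every odd eigen-part at every level is the product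
  of the `|B_{1,χ}|_p`; `|A_n| = p^(λ(n-λ)+e)` for `n ≥ λ` (so `μ = 0`), the `p`-rank is `λ` once
  `λ < p^n`, and `A_n` is trivial iff `B_{1,ω^-i}` is a unit (else `|A_n| ≥ p^(v+n)`).
* `FA.Summary.iwasawa_module_structure`, `FA.Summary.iwasawa_branch_no_capitulation`,
  `FA.Summary.iwasawa_branch_norm_surjective`, `FA.Summary.iwasawa_branch_norm_kernel`
  (`SummaryIwasawaModule`): the theorem of Mazur and Wiles in classical form: one matrix `N` presents
  every level of an odd branch, `A_n = ℤ_p^λ / ω_n(N)`, and its characteristic polynomial is the
  distinguished polynomial of the `p`-adic `L`-function; the norms are surjective with kernel the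
  image of `ω_n` and no class becomes principal.
* `FA.Summary.vandiver_odd_parts_cyclic`, `FA.Summary.vandiver_decomposition`,
  `FA.Summary.vandiver_classGroup_structure`, `FA.Summary.vandiver_invariants`
  (`SummaryVandiverStructure`): if `p ∤ h(ℚ(ζ_p)⁺)` the `p`-classes of every `ℚ(ζ_(p^(n+1)))` are
  `⊕_i ℤ_p[X] / (θ_(i,n), ω_n)` over the odd `3 ≤ i ≤ p - 2`; so `v_p(h_n) = Σ (λ_i(n-λ_i)+e_i)`
  once every `λ_i ≤ n`, the `p`-rank is `Σ λ_i` once every `λ_i < p^n`; they are all cyclic iff
  `Σ λ_i ≤ 1`.
* `FA.Summary.iwasawa_growth`, `FA.Summary.zpExtension_ramification`,
  `FA.Summary.exists_zpExtension_tower` (`SummaryIwasawaGrowth`): Iwasawa's growth theorem: in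
  every `ℤ_p`-extension of every number field (one always exists; ramified only over `p`) one has
  `v_p(h(F_n)) = μ p^n + λ n + ν` for all large `n`, with `μ, λ ≥ 0`.
* `FA.Summary.ferreroWashington`, `FA.Summary.ferreroWashington_rank`,
  `FA.Summary.iwasawa_muCriterion`, `FA.Summary.reflection_rank` (`SummaryMuZero`): the theorem of
  Ferrero and Washington for `p` odd: `μ = 0` for `ℚ(ζ_(p^∞))` and its real subfield, the `p`-ranks
  are bounded; Iwasawa's criterion (`μ = 0` iff bounded ranks) in every `ℤ_p`-extension; the
  reflection inequality `rk Cl(K) ≤ 2 rk⁻ + 1` in CM fields Galois over `ℚ` with a `p`-th root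
  of unity.
* `FA.Summary.muZero_pExtension`, `FA.Summary.muZero_pExtension_below`,
  `FA.Summary.rank_ascends`, `FA.Summary.rank_cyclic_extension`, `FA.Summary.muZero_kummer`
  (`SummaryMuExtensions`): Iwasawa's theorem that `μ = 0` is inherited by `p`-extensions: every
  Galois `p`-extension `L` of `ℚ(ζ_p)`, `p` odd, has `μ = 0` (`ℚ(ζ_p, 2^(1/p))` for example);
  in a cyclic step of degree `p` with `t` ramified primes `rk Cl(L) ≤ p (rk Cl(K) + t + 1)`.
* `FA.Summary.iwasawa_mu_unbounded`, `FA.Summary.anticyclotomic_split` (`SummaryMuLarge`):
  Iwasawa's fields with arbitrarily large `μ`: `ℚ(ζ₃, ∛d)` times the anticyclotomic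
  `ℤ₃`-extension of `ℚ(ζ₃)`, in which every prime `≡ 2 (mod 3)` splits completely.
* `FA.Summary.fukuda_stabilisation`, `FA.Summary.fukuda_invariants`, `FA.Summary.fukuda_rank`,
  `FA.Summary.genus_growth`, `FA.Summary.genus_no_stabilisation`,
  `FA.Summary.split_imaginary_growth` (`SummaryStabilisation`): Fukuda's theorem that equal
  `p`-class numbers (or ranks) at two consecutive levels above total ramification stay equal;
  Chevalley's bound `v_p h(F_n) ≥ (t - 1 - r) n - O(1)`, so eventually strictly increasing
  `p`-class numbers in a `ℤ_p`-extension of `ℚ(√(1 - p))`, `p` odd, where `p` splits.
* `FA.Summary.ferreroWashington_abelian`, `FA.Summary.ferreroWashington_quadratic`,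
  `FA.Summary.ferreroWashington_relative`, `FA.Summary.ferreroWashington_twisted`,
  `FA.Summary.cyclotomic_zpExtension_exists` (`SummaryFerreroAbelian`): the theorem of Ferrero
  and Washington for every abelian field, `p` odd: along the cyclotomic `ℤ_p`-extension the
  `p`-ranks are bounded and `μ = 0`; `v_p h ≤ v_p h⁺ + a n + b` in `ℚ(ζ_(f p^(n+1)))`. The
  prime `2` is not treated.
* `FA.Summary.washington_abelian`, `FA.Summary.washington_quadratic`,
  `FA.Summary.washington_relative`, `FA.Summary.washington_stable_of_bounded_rank`
  (`SummaryWashingtonAbelian`): Washington's theorem on the `ℓ`-part for every abelian field,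
  `ℓ ≠ p` odd: along the cyclotomic `ℤ_p`-extension the `ℓ`-ranks are bounded and the exponent
  of `ℓ` in the class numbers is eventually constant. The cases `p = 2`, `ℓ = 2` are not treated.
* `FA.Summary.kida_minus_formula`, `FA.Summary.kida_field_exists`, `FA.Summary.kida_formula`,
  `FA.Summary.kida_lambda_unbounded` (`SummaryKidaFormula`): Iwasawa's formula
  `v_p h = v_p h⁺ + λ n + ν` (an equality) at the levels `ℚ(ζ_(f p^(n+1)))` and Kida's formula
  `λ_L - 1 = p^a (λ_K - 1) + (p^a - 1) s` for their extensions of degree `p^a` ramified at one
  prime `ℓ ≠ p`, with `λ` unbounded in degree `p (p - 1)`; `p` odd, `p ∤ f φ(f)`.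
* `FA.Summary.ferrero_greenberg`, `FA.Summary.ferrero_greenberg_quarter`,
  `FA.Summary.iwasawaLog_spec`, `FA.Summary.gross_regulator`, `FA.Summary.gross_regulator_rank`,
  `FA.Summary.gross_regulator_none`, `FA.Summary.gross_regulator_cyclotomic`
  (`SummaryGrossRegulator`): Ferrero and Greenberg: `∑ χ(a) log_p Γ_p(a / f) ≠ 0` for primitive
  odd `χ` modulo `f`, `p ∤ f`, `χ(p) = 1`; Gross's regulator conjecture for abelian CM fields
  (Greenberg): the logarithms of the local norms of independent minus `p`-units are independent
  over `ℂ_p`, with the exact number of such units (links of the regulator with `p`-adic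
  `L`-functions and the identification of the absolute-value stabiliser with the decomposition
  group not claimed).
* `FA.Summary.kummer_congruence_char`, `FA.Summary.kubota_leopoldt` (`SummaryPadicDirichletL`):
  Kubota and Leopoldt: for primitive `χ` modulo `f > 1`, `p ∤ f`, the congruences for
  `(1 - χ(p) p^(m-1)) B_{m,χ} / m` and the unique continuous branches `L_p(1 - m, χ ω^k)`.
* `FA.Summary.leopoldt_formula`, `FA.Summary.padicL_one_ne_zero` (`SummaryPadicDirichletL`):
  Leopoldt's formula `L_p(1, χ) = -(1 - χ(p)/p) τ(χ)/f ∑ χ⁻¹(a) log_p (1 - ψ(-a))` and, by Brumer,
  `L_p(1, χ) ≠ 0` for even `χ`.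
* `FA.Summary.padicL_derivative_zero`, `FA.Summary.padicL_zero_simple` (`SummaryPadicDirichletL`):
  Ferrero and Greenberg: the derivative at `0` of the branch `L_p(s, χ ω)` through `log Γ_p(a/f)`
  and the simplicity of its trivial zero for odd `χ` with `χ(p) = 1`.
* `FA.Summary.padic_class_number_formula`, `FA.Summary.padic_regulator_ne_zero`
  (`SummaryPadicClassNumber`): Leopoldt: for a totally real subfield of `ℚ(ζ_N)`, `p ∤ N`,
  `∏ L_p(1, χ) = ∏ (1 - χ(p)/p) · 2^r h R_p / √d` (sign not determined), and `R_p ≠ 0`.
* `FA.Summary.padic_class_number_congruence`, `FA.Summary.not_dvd_classNumber_of_bernoulli`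
  (`SummaryPadicClassNumber`): the same right side is congruent mod `p` to the product of the
  Bernoulli values at `p - 1` (Ankeny, Artin and Chowla in this generality), so `p ∤ h` for odd
  `p` if all those `B_{p-1,χ}` are `p`-adic units.
* `FA.AnkenyArtinChowla.Summary.ankeny_artin_chowla`, `…ankeny_artin_chowla_iff`,
  `…exists_fundamental_unit` (`SummaryAnkenyArtinChowla`): the congruence of Ankeny, Artin and
  Chowla (1952) at the ramified prime: for `p ≡ 1 (mod 4)` and the fundamental unit `(t + b √p)/2`
  of `ℚ (√p)`, `h b ≡ t B_((p-1)/2) (mod p)`; their conjecture `p ∤ b` is not claimed.
* `FA.Summary.padicL_measure`, `FA.Summary.padicL_measure_spec`, `FA.Summary.padicL_power_series`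
  (`SummaryPadicIwasawa`): Iwasawa: the measure on `ℤ_pˣ` with moments
  `l_m = -(1 - χ(p) p^(m-1)) B_{m,χ} / m`, of norm `≤ 1`, and, for odd `p`, the unique power series with integral coefficients giving each branch at
  `(1 + p)^t - 1`.
* `FA.Summary.strassmann_padicComplex`, `FA.Summary.padicL_branch_eq_zero_iff`,
  `FA.Summary.padicL_zeros_finite`, `FA.Summary.padicL_zeros_le` (`SummaryPadicIwasawa`):
  Strassmann's theorem; for odd `p` a branch vanishes identically iff `χ(-1) ≠ (-1)^k`, otherwise
  it has finitely many zeros, at most `λ`.
* `FA.Summary.cyclotomic_units_index_square`, `FA.Summary.cyclotomic_units_finiteIndex_iff`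
  (`SummaryCycloUnitIndex`): Kummer and Hasse at every conductor: in a totally real subfield of
  `ℚ(ζ_N)` the norms of cyclotomic units have index `2^r h ∏_χ ∏_{q ∣ N} |1 - χ₀(q)|`.
* `FA.Summary.cyclotomic_units_index`, `FA.Summary.cyclotomic_units_index_primePow`
  (`SummaryCycloUnitIndex`): their square roots have index `h ∏_χ ∏_{q ∣ N} |1 - χ₀(q)|`, exactly
  `h` for every real subfield of `ℚ(ζ_{q^n})`, `q` any prime.
* `FA.Summary.padic_dedekind_zeta`, `FA.Summary.padic_dedekind_zeta_unique`,
  `FA.Summary.padic_zeta_residue` (`SummaryPadicZetaResidue`): the `p`-adic zeta function of a
  totally real subfield of `ℚ(ζ_N)`, `p ∤ N`, and Colmez's formula for its residue,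
  `-∏_{P ∣ p} (1 - 1/N(P)) 2^r h R_p / (√d (p - 1))`, the sign of `√d` open: a simple pole.
* `FA.Summary.irregular_primes_outside_subgroup`, `FA.Summary.irregular_primes_not_one_mod`,
  `FA.Summary.irregular_primes_three_mod_four`, `FA.Summary.classNumber_primes_outside_subgroup`
  (`SummaryIrregularResidues`): Metsänkylä: infinitely many irregular primes lie outside any proper
  subgroup of `(ℤ/m)ˣ` (Montgomery: `≢ 1 (mod m)`, `m > 2`; Jensen: `≡ 3 (mod 4)`), so infinitely
  many such `p` divide `h(ℚ(ζ_p))`.
* `FA.Summary.gross_stark_abelian`, `FA.Summary.gross_stark_unit`,
  `FA.Summary.gross_stark_hypotheses` (`SummaryGrossStark`): Gross's `p`-adic Stark conjecture at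
  `s = 0` over `ℚ`: for primitive odd `χ` modulo `f`, `p ∤ f`, `χ(p) = 1`, and a minus `p`-unit
  of `ℚ(ζ_f)` the derivative of `L_p(s, χ ω)` at `0` times the `χ`-sum of orders is `B_{1,χ}` times
  the `χ`-sum of logarithms, up to `-(p - 1)`; some unit has both sums non-zero.
* `FA.Summary.iwasawa_stickelberger_index`, `FA.Summary.stickelberger_index_ne_zero`,
  `FA.Summary.stickelberger_mul_integral`, `FA.Summary.stickelberger_mul_minus`: Iwasawa's index
  theorem: for `p` odd the Stickelberger ideal of `ℚ(ζ_(p^k))` has index `h/h⁺` in the minus part
  of the group ring; `p = 2`, composite conductors and the class group's module structure are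
  not claimed.
* `FA.Summary.redei_reichardt`, `FA.Summary.redei_reichardt_four`,
  `FA.Summary.four_dvd_classNumber_two_primes`, `FA.Summary.four_rank_unbounded`: Rédei and
  Reichardt: the `4`-rank of an imaginary quadratic field of odd discriminant is `t - 1` less the
  rank of its Rédei matrix, so it is unbounded; even and positive discriminants are not claimed.
* `FA.Summary.four_dvd_classNumber_neg_prime`, `FA.Summary.eight_dvd_classNumber_iff_pell`,
  `FA.Summary.eight_dvd_classNumber_iff_representation`: for a prime `p ≡ 1 (mod 4)` and `ℚ(√-p)`,
  `4 ∣ h` iff `p ≡ 1 (mod 8)` and `8 ∣ h` iff `p = x² + 32 y²` (Reichardt; Barrucand and Cohn);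
  other radicands and divisibility by `16` are not claimed.
* `FA.Summary.realFieldClassGroup_orderOf_exists`, `FA.Summary.realQuadratic_classNumber_dvd`:
  for every `n ≥ 1` infinitely many real quadratic fields have an ideal class of order exactly `n`
  (Yamamoto; Weinberger); counts of the fields and ranks above one are not claimed.
* `FA.Summary.lenstra_euclidean_criterion`, `FA.Summary.cyclotomic_norm_euclidean_le_seven`:
  Lenstra's criterion: more than `(4/π) ^ r₂ n! / n ^ n √|d|` integers with all differences units
  make a number field norm-Euclidean, so `ℚ(ζ₅)` and `ℚ(ζ₇)`; better packing constants and `p ≥ 11`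
  are not claimed.
* `FA.NormEuclideanCyclic.Summary.heilbronn_norm_euclidean`, `heilbronn_infinite`,
  `real_quadratic_prime`, `two_small_nonresidues` (`SummaryNormEuclideanCyclic`): Heilbronn's
  theorem for prime conductor: for each prime `ℓ` and all large primes `p` no subfield of degree `ℓ`
  of `ℚ(ζ_p)` is norm-Euclidean, nor is `ℚ(√p)`, `p ≡ 1 (mod 4)` (thresholds not explicit, other
  conductors not treated); by two primes `≤ p ^ (1/(4√e) + η)` at which a character is not `1`.
* `FA.DavenportEuclidean.Summary.davenport_inhomogeneous`, `davenport_inhomogeneous_form`,
  `norm_euclidean_discr_bound`, `norm_euclidean_squarefree_bound`, `norm_euclidean_finite`,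
  `lacunary_avoid` (`SummaryDavenportEuclidean`): Davenport (1951): in every real quadratic field,
  composite discriminants included, some element is at norm distance `≥ √Δ / 2 ^ 29` from all
  integers (likewise for forms), so only finitely many are norm-Euclidean, all with `Δ < 2 ^ 58`
  (his constant `1/128` and the list of these fields are not claimed).
* `FA.UnitRankOneEuclidean.Summary.unit_rank_one_inhomogeneous`, `norm_euclidean_discr_bound`,
  `complex_cubic_bound`, `totally_complex_quartic_bound`, `norm_euclidean_finite`
  (`SummaryUnitRankOneEuclidean`): Davenport and Cassels for unit rank one: a number field with two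
  infinite places has an element at norm distance `≥ √|Δ| / 2 ^ 153` from all integers, so the
  norm-Euclidean complex cubic and totally complex quartic fields have `|Δ| ≤ 2 ^ 306` and are
  finite in number (no sharp constants, no lists of these fields).
* `FA.EuclideanMinimum.Summary.min_attained`, `norm_euclidean_iff`, `minimum_bounded`,
  `barnes_swinnerton_dyer`, `inhomogeneous_eq_euclidean`, `euclidean_minimum_bounds`
  (`SummaryEuclideanMinimum`): the minimum of `|N(z - g)|` is attained and rational; with two
  infinite places the supremum over real points equals that over the field (Barnes and
  Swinnerton-Dyer), is `≥ √|Δ| / 2 ^ 153`, and below one gives norm-Euclidean (attainment of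
  the supremum at an element of the field and higher unit rank are not claimed).
* `FA.ChebotarevProduct.Summary.chebotarev_product`, `totally_real_minimum`,
  `totally_real_euclideanMinimum_le`, `real_quadratic_minimum` (`SummaryChebotarevProduct`):
  Chebotarev (1934): a product of `n` inhomogeneous linear forms is made `≤ |det| / 2 ^ (n/2) + ε`
  by integers, so `M ≤ √Δ / 2 ^ (n/2)` for totally real fields and `√Δ / 2 ^ 153 ≤ M ≤ √Δ / 2`
  for real quadratic ones (Minkowski's conjectured `2 ^ n` is not claimed for `n ≥ 3`).
* `FA.BirchComplete.Summary.birch_complete`, `birch_davenport`, `birch_necessary`,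
  `erdos_two_three` (`SummaryBirchComplete`): Birch (1959): for coprime `p, q ≥ 2` every large `n`
  is a sum of distinct `p ^ a * q ^ b`, even with `b` bounded (Davenport); false when the gcd is
  `≥ 3`; every `n` is a sum of `2 ^ a * 3 ^ b`, none dividing another.
* `FA.DistinctSummands.Summary.graham_polynomial`, `graham_constant`, `sprague_powers`,
  `sprague_squares`, `richert_primes` (`SummaryDistinctSummands`): Graham (1964): for `f : ℤ[X]` of
  positive leading coefficient every large `n` is a sum of `f x` over distinct `x ≥ M` iff no prime
  divides all values; so of distinct `k`-th powers (Sprague); every `n > 128` is a sum of distinct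
  squares, every `n > 6` of distinct primes (Richert), both bounds sharp.
* `FA.GrahamPartition.Summary.graham_partition`, `graham_partition_sharp`
  (`SummaryGrahamPartition`): Graham (1963): every `n > 77` is a sum of distinct positive integers
  whose reciprocals sum to exactly `1`, and `77` is no such sum.
* `FA.ErdosMoser.Summary.moser_lower_bound`, `moser_congruences` (`SummaryErdosMoser`): Moser
  (1953): a solution of `1 ^ k + ⋯ + (m - 1) ^ k = m ^ k` with `k ≥ 2` has `k` even and
  `m > 10 ^ 6000`, by his four squarefree conditions (his `10 ^ 10 ^ 6` is not claimed).
* `FA.PerronFrobenius.Summary.perron_frobenius`, `perron_primitive`, `perron_limit`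
  (`SummaryPerronFrobenius`): the theorem of Perron and Frobenius: an irreducible nonnegative matrix
  has a simple eigenvalue `μ > 0` with positive eigenvector, of largest norm, the only one with a
  nonnegative eigenvector; for primitive matrices strictly largest, with
  `(A ^ m) i j / μ ^ m → v i * u j / (u · v)`.
* `FA.LLL.Summary.lll_exists`, `lll_steps`, `lll_progress`, `lll_first_vector`, `lll_successive`,
  `lll_product` (`SummaryLLL`): Lenstra, Lenstra and Lovász (1982): every lattice basis has a
  reduced one with the same span, reached from an integral basis in polynomially many steps; a
  reduced basis is within `2 ^ ((n-1)/2)` of the successive minima and `2 ^ (n(n-1)/4)` of the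
  determinant (the cost of arithmetic is not claimed).
* `FA.Coppersmith.Summary.coppersmith`, `small_roots_count`, `small_roots_sharp`
  (`SummaryCoppersmith`): Coppersmith (1996): by lattice reduction the roots `|x| ≤ X` of a monic
  polynomial modulo `N` are roots of one small integral polynomial, so at most `C (d, ε)` lie within
  `N ^ (1/d - ε)`; the exponent `1/d` is sharp.
* `FA.LLLFactor.Summary.lll_factor`, `lll_factor_exact`, `lll_factor_moduli`, `resultant_small`
  (`SummaryLLLFactor`): the core of factorisation by lattice reduction (LLL; Kannan–Lenstra–Lovász):
  a root modulo a large `M` returns the irreducible polynomial as the first reduced vector, and such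
  prime moduli exist; Hensel lifting and running times are not claimed.
* `FA.SubsetSum.Summary.lagarias_odlyzko`, `lattice_recovers` (`SummarySubsetSum`): Lagarias and
  Odlyzko (1985): for weights in `[1, A] ^ n`, `A ≥ 2 ^ (5 (n + 1) ^ 2)`, lattice reduction solves
  the subset sum for a given subset for all but a proportion `2 ^ (1 - n)` of the weights.
* `FA.LeeYang.Summary.lee_yang_multivariate`, `lee_yang_circle`, `lee_yang_matrix`,
  `lee_yang_ising` (`SummaryLeeYang`): the circle theorem of Lee and Yang (1952) by Asano
  contraction: cut polynomials with couplings in `[-1, 1]` have all zeros on the unit circle, so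
  ferromagnetic Ising partition functions vanish only in imaginary fields.
* `FA.Jentzsch.Summary.jentzsch`, `jentzsch_radius`, `circle_subset_closure_zeros`,
  `jentzsch_geometric` (`SummaryJentzsch`): Jentzsch's theorem (1918): for a power series of
  finite positive radius of convergence, every point of the circle of convergence is a limit of
  zeros of infinitely many partial sums.
* `FA.BEST.Summary.best_theorem`, `best_theorem_det`, `best_theorem_tours`,
  `directed_matrix_tree`, `arborescences_root_independent`, `exists_eulerian_circuit_iff`
  (`SummaryBEST`): the BEST theorem (de Bruijn, van Aardenne-Ehrenfest, Smith, Tutte): the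
  Eulerian circuits of a balanced multigraph number the arborescences times `∏ (d v - 1)!`.
* `FA.Frucht.Summary.frucht`, `frucht_fintype` (`SummaryFrucht`): Frucht's theorem (1938): every
  finite group is isomorphic to the group of automorphisms of a finite simple graph.
* `FA.CodeExtension.Summary.macwilliams_extension`, `equivalent_codes_iff`, `monomial_weight`,
  `functionals_extension` (`SummaryCodeExtension`): MacWilliams's extension theorem (1962): linear
  weight-preserving maps of codes over finite fields extend to monomial maps.
* `FA.AcyclicOrientations.Summary.stanley_acyclic`, `stanley_reciprocity`,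
  `chromatic_polynomial_exists`, `complete_graph_orientations` (`SummaryAcyclicOrientations`):
  Stanley's theorem (1973): the chromatic polynomial at `-1` counts the acyclic orientations, and at
  `-k` their pairs with compatible colourings, up to the sign `(-1) ^ n`.
* `FA.MatroidIntersection.Summary.matroid_intersection`, `matroid_intersection_ground`,
  `rado_transversal` (`SummaryMatroidIntersection`): Edmonds' matroid intersection theorem (1970)
  and Rado's theorem (1942) on independent transversals.
* `FA.SchurHorn.Summary.schur`, `schur_horn`, `schur_horn_real`, `majorised_iff_partial_sums`
  (`SummarySchurHorn`): the theorem of Schur and Horn: the diagonals of Hermitian, or real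
  symmetric, matrices with given eigenvalues are exactly the vectors majorised by them.
* `FA.HoffmanSingleton.Summary.hoffman_singleton`, `hoffman_singleton_two_le`,
  `hoffman_singleton_srg`, `moore_bound`, `moore_graphs_two_three` (`SummaryHoffmanSingleton`):
  Hoffman and Singleton (1960): a Moore graph of diameter two has degree `2`, `3`, `7` or `57`.
* `FA.Berlekamp.Summary.berlekamp_finrank`, `berlekamp_irreducible_iff`,
  `berlekamp_gcd_factorisation`, `berlekamp_nontrivial_factor`, `berlekamp_separates`
  (`SummaryBerlekamp`): Berlekamp's factorisation of squarefree polynomials over finite fields: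
  the fixed subalgebra has one dimension per irreducible factor and splits `f` by gcds.
* `FA.HiltonMilner.Summary.hilton_milner`, `hilton_milner_sharp`, `hilton_milner_star`,
  `hilton_milner_cross` (`SummaryHiltonMilner`): Hilton and Milner (1967): intersecting families of
  `k`-sets without a common point, the sharp bound, by shifting.
* `FA.MatroidUnion.Summary.matroid_union`, `edmonds_covering`, `edmonds_packing`
  (`SummaryMatroidUnion`): the matroid union theorem of Nash-Williams and Edmonds, with Edmonds'
  covering by independent sets and packing of bases.
* `FA.HermiteBiehler.Summary.hermite_biehler`, `hermite_biehler_lower`, `hermite_biehler_upper`,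
  `stable_polynomial_iff` (`SummaryHermiteBiehler`): Hermite and Biehler: the zeros of `P + i Q`
  lie on one side of the real line iff the zeros of `P` and `Q` are real, simple and interlace;
  stable real polynomials.
* `FA.Baranyai.Summary.baranyai` (`SummaryBaranyai`): Baranyai's theorem (1975): for `k` dividing
  `n` the `k`-subsets of an `n`-set split into `C(n-1, k-1)` partitions of the set.
* `FA.HighGirth.Summary.erdos_girth_chromatic` (`SummaryHighGirth`): Erdős's theorem (1959): for
  all `g` and `k` a finite graph has girth above `g` and chromatic number above `k`.
* `FA.FlowPolynomial.Summary.flow_polynomial`, `…flow_count_order`, `…tutte_flow`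
  (`SummaryFlowPolynomial`): Tutte's flow theorems: the nowhere-zero flows of a finite multigraph
  in an abelian group of order `k` are counted by one polynomial in `k`, and one exists exactly
  when an integer flow has `0 < |f e| < k` on every edge.
* `FA.Summary.stickelberger_parity`, `FA.Summary.stickelberger_parity_cubic`: Stickelberger's
  parity theorem: an odd prime not dividing the discriminant `d` of a field of degree `n` has `g`
  prime factors with `(d/p) = (-1) ^ (n + g)`; `p = 2` and ramified primes are not claimed.
* `FA.Summary.minkowski_unit`, `FA.Summary.minkowski_unit_totallyReal`: Minkowski's unit theorem: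
  a field Galois over `ℚ` has a unit whose conjugates generate a subgroup of finite index, with
  only the norm as relation for totally real fields; no bound on the index is claimed.
* `FA.Summary.stickelberger_discr_mod_four`, `FA.Summary.stickelberger_parity_two`: Stickelberger's
  congruence `d ≡ 0, 1 (mod 4)`, and for odd `d` the parity at `2`: `d ≡ 1 (mod 8)` exactly when
  `n + g` is even, `g` the number of primes above `2`; Swan's trinomials are not claimed.
* `FA.Summary.pellet_legendreSym_discr`, `FA.Summary.swan_parity_two`,
  `FA.Summary.swan_parity_two_five`, `FA.Summary.swan_trinomial_not_irreducible`,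
  `FA.Summary.separable_mod_prime_iff`, `FA.Summary.discr_polynomial_mod_four`,
  `FA.Summary.square_discr_not_irreducible`, `FA.Summary.swan_trinomial_eight`,
  `FA.Summary.X_pow_four_add_one_not_irreducible` (`SummarySwan`): the parity of the
  number of factors of a monic integer polynomial modulo a prime not dividing its discriminant
  (Pellet; Stickelberger and Swan at `2`); `X ^ n + X ^ k + 1` is reducible over `ℤ/2` for `8 ∣ n`.
  Swan's table for the other degrees is not claimed.
* `FA.Summary.hermite_criterion`, `FA.Summary.hermite_no_degree_dvd`,
  `FA.Summary.dickson_permutation_iff`, `FA.Summary.dickson_monomial_iff`,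
  `FA.Summary.dickson_infinitely_many_primes`, `FA.Summary.dickson_never_permutes`
  (`SummaryPermutationPolynomial`): permutation polynomials of finite fields: Hermite's criterion,
  the permutation criterion for Dickson polynomials, and the primes modulo which they permute.
  Fried's theorem is not claimed.
* `FA.Summary.noether_tame`, `FA.Summary.noether_projective_of_coprime`,
  `FA.Summary.noether_projective_of_unramified`, `FA.Summary.noether_abelian_rat`,
  `FA.Summary.noether_quadratic` (`SummaryNoetherTame`): Noether's theorem: for a Galois extension
  of number fields the integers are projective over the group ring iff the trace is onto iff the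
  extension is tame; for abelian fields over `ℚ` iff they are free. Swan's local freeness is not
  claimed.
* `FA.Summary.local_generator_conductor`, `FA.Summary.hilbert_different_formula`,
  `FA.Summary.ramification_groups_eventually_trivial`,
  `FA.Summary.first_ramification_group_trivial_iff`, `FA.Summary.dedekind_different_exponent`,
  `FA.Summary.dedekind_different_wild`, `FA.Summary.projective_iff_different`
  (`SummaryHilbertDifferent`): Hilbert's formula `∑ (|G n| - 1)` for the exponent of a prime in the
  different of a Galois extension of number fields and Dedekind's tame and wild exponents. The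
  upper numbering and extensions that are not Galois are not claimed.
* `FA.Summary.ramification_group_one_structure`, `FA.Summary.ramification_groups_normal`,
  `FA.Summary.decomposition_group_solvable`, `FA.Summary.not_solvable_no_inert_prime`,
  `FA.Summary.selmer_polynomial_no_inert_prime`, `FA.Summary.dedekind_hensel_different_bound`
  (`SummaryRamificationFiltration`): the first ramification group is a normal `p`-group with cyclic
  quotient of order dividing `N P - 1`, decomposition groups are solvable, so an extension whose
  group is not solvable has neither inert nor totally ramified primes; the different exponent is at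
  most `e - 1 + v (e)`. Upper numbering, extensions that are not Galois and local fields are not
  claimed.
* `FA.Summary.tame_compositum_ramification`, `FA.Summary.abhyankar_lemma`,
  `FA.Summary.serre_different_exponent`, `FA.Summary.serre_discriminant_bound`,
  `FA.Summary.serre_discriminant_exponent`, `FA.Summary.serre_log_discriminant`,
  `FA.Summary.least_prime_frobenius_ramified_of_RH` (`SummaryTameCompositum`): ramification in a
  compositum with a tame factor and Abhyankar's lemma; Serre's bound `|d| ∣ n ^ n (∏ p) ^ (n - 1)`
  for Galois number fields; on the Riemann hypothesis a least Frobenius prime bounded by the degree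
  and the ramified primes. Extensions that are not Galois and Artin conductors are not claimed.
* `FA.Summary.erez_different_square`, `FA.Summary.different_exponent_even_iff`,
  `FA.Summary.erez_discriminant_square`, `FA.Summary.erez_unimodular_lattice`,
  `FA.Summary.erez_self_dual_normal_basis`, `FA.Summary.erez_trace_values`,
  `FA.Summary.erez_trace_values_quintic`, `FA.Summary.erez_trace_values_cubic`
  (`SummaryErezLattice`): in odd degree the different is a square `A ^ 2` and `A⁻¹` is a unimodular
  lattice for the trace form; in degrees `3` and `5` it has a self-dual normal basis. Higher degrees
  and Ullom's criterion are not claimed.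
* `FA.Summary.hall_exists`, `FA.Summary.hall_conjugate`, `FA.Summary.hall_dominates`,
  `FA.Summary.complements_conjugate_abelian`, `FA.Summary.wielandt_three_subgroups`,
  `FA.Summary.hall_criterion`, `FA.Summary.galois_solvable_iff_prime_part_fields`,
  `FA.Summary.galois_solvable_coprime_fields`, `FA.Summary.radical_root_prime_part_fields`
  (`SummaryHallSubgroups`): P. Hall's subgroups of solvable groups, his criterion for solvability
  through Wielandt's theorem, and the same for degrees of subfields of Galois extensions. Carter
  subgroups and `π`-separable groups are not claimed.
* `FA.Summary.unitH1_fixed_principal`, `FA.Summary.unitH1_finite`,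
  `FA.Summary.strongly_ambiguous_mul`, `FA.Summary.capitulation_embeds`,
  `FA.Summary.capitulation_bound`, `FA.Summary.zantema_polya_group`,
  `FA.Summary.zantema_regularBasis_iff`, `FA.Summary.unitH1_of_classNumber_one`
  (`SummaryUnitCohomology`): `H¹ (G, (𝓞 L)ˣ)` as fixed principal ideals, the formula
  `h_K ∏ e_v` for strongly ambiguous classes, Iwasawa's embedding of the capitulation kernel, and
  Zantema's formula and criterion for Pólya fields. `p`-rank bounds are not claimed.
* `FA.Summary.armitage_froehlich_duality`, `FA.Summary.armitage_froehlich_signs`,
  `FA.Summary.armitage_froehlich_two_rank`, `FA.Summary.unit_signs_of_odd_classNumber`,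
  `FA.Summary.narrow_classNumber_dvd`, `FA.Summary.exists_unit_mixed_signs`,
  `FA.Summary.cubic_unit_signs` (`SummaryArmitageFroehlich`): the theorem of Armitage and Fröhlich
  on the signs of elements generating squares of ideals, the two-rank of the narrow class group
  and, for odd class number, the sign patterns of units. Nothing `2`-adic is claimed.
* `FA.Summary.biquadratic_norm_principle`, `FA.Summary.biquadratic_norm_obstruction`,
  `FA.Summary.sqrt_norm_principle_fails`, `FA.Summary.thirteen_seventeen_norm_principle_fails`
  (`SummaryBiquadraticNormPrinciple`): in a biquadratic extension the local norms are norms iff some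
  decomposition group is the whole group; otherwise they are so up to one square, which is no norm,
  as in `ℚ(√13, √17)`. Only groups of order four and exponent two are treated.
* `FA.Summary.bartels_norm_theorem`, `FA.Summary.norm_principle_sylow`,
  `FA.Summary.norm_principle_zgroup`, `FA.Summary.norm_principle_squarefree`,
  `FA.Summary.norm_principle_klein`, `FA.Summary.norm_principle_klein_normal`
  (`SummaryNormPrincipleSylow`): Bartels' norm theorem in prime degree; the Sylow reduction of the
  norm principle; it holds for cyclic Sylow subgroups and, with a four-group at `2`, if a
  decomposition group has order divisible by `4` (exactly then, if the four-group is normal).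
* `FA.Summary.xi_hadamard_product`, `FA.Summary.xi_hadamard_norm`,
  `FA.Summary.riemannHypothesis_iff_re_xiLogDeriv_pos`,
  `FA.Summary.riemannHypothesis_iff_norm_xi_strictMono`, `FA.Summary.zeroCount_error_of_lindelof`,
  `FA.Summary.zeroCount_error_of_riemannHypothesis` (`SummaryXiProduct`): Hadamard's product for
  `ξ`; RH iff `re (ξ'/ξ) > 0` right of `1/2` iff `|ξ|` increases there horizontally; Lindelöf's
  hypothesis, or RH, gives `S (T) = o (log T)`.
* `FA.Summary.ingham_density_of_lindelof`, `FA.Summary.ingham_density_of_lindelof_eps`,
  `FA.Summary.halasz_turan_of_lindelof`, `FA.Summary.short_intervals_of_lindelof`,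
  `FA.Summary.short_intervals_theta_of_lindelof`, `FA.Summary.prime_gap_of_lindelof`,
  `FA.Summary.prime_gap_isBigO_of_lindelof` (`SummaryLindelofDensity`): Lindelöf's hypothesis
  (an argument, never assumed) implies the density hypothesis `N (σ, T) ≪ T ^ ((2 + ε) (1 - σ))`
  up to logarithms (Ingham), `N (σ, T) ≪ T ^ ε` for `σ > 3/4` (Halász and Turán), and primes in
  short intervals and prime gaps for every exponent above `1/2`.
* `FA.Summary.piltz_divisor_problem`, `FA.Summary.zeta_sq_apply_eq_card_divisors`,
  `FA.Summary.lindelof_iff_piltz_divisor`, `FA.Summary.piltz_of_riemannHypothesis`
  (`SummaryPiltzDivisor`): the divisor problem of Piltz,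
  `∑_{n ≤ x} d_k n = x P (log x) + O (x ^ (1 - 1/(32 k)))` with `deg P = k - 1` and leading
  coefficient `1 / (k - 1)!`, and the theorem of Hardy and Littlewood that the error is
  `O (x ^ (1/2 + ε))` for every `k` iff Lindelöf's hypothesis holds.
* `FA.Summary.piltz_divisor_of_moment`, `FA.Summary.piltz_divisor_four`,
  `FA.Summary.piltz_divisor_le_twelve`, `FA.Summary.piltz_divisor_twelve_le`
  (`SummaryPiltzMoment`): a `k`th moment exponent `M` gives the exponent `1 - 1/(2 M)` in Piltz's
  problem, so `1/2` for `d_4` (Hardy–Littlewood), `k/(k + 4)` for `4 ≤ k ≤ 12` (weaker than
  Heath-Brown's) and Heath-Brown's `(k - 3)/k` for `k ≥ 12`, with the same main term.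
* `FA.Summary.zeta_moment_lower`, `FA.Summary.zeta_moment_lower_nat`,
  `FA.Summary.zeta_moment_lower_real`, `FA.Summary.zeta_moment_not_isBigO`,
  `FA.Summary.zeta_moment_two_order` (`SummaryMomentLower`): the unconditional lower bound
  `∫_T^{2T} |ζ(1/2 + it)|^{2k} ≫ T (log T)^{k²}` for rational `k ≥ 1` (Ramachandra, Heath-Brown,
  Rudnick–Soundararajan), with `k² - ε` for real `k ≥ 1`; exact order at `k = 2`.
* `FA.Summary.lfunction_moment_lower`, `FA.Summary.lfunction_moment_lower_nat`,
  `FA.Summary.lfunction_moment_lower_real` (`SummaryCharMomentLower`): the theorem of Rudnick and
  Soundararajan: over `χ ≠ 1` to a large prime modulus `q`,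
  `∑ |L(1/2, χ)|^{2k} ≫ q (log q)^{k²}` for rational `k ≥ 1` (`k² - ε` for real `k`).
* `FA.Summary.zeta_le_prime_sum_of_RH`, `FA.Summary.zeta_half_bound_of_RH` (`SummaryZetaUpper`):
  Soundararajan's inequality for `|ζ(1/2 + it)|` by the prime powers up to any `x ≤ t⁴`, and
  Littlewood's `|ζ(1/2 + it)| ≤ exp (C log t / log log t)`, both on the Riemann hypothesis
  (an argument, never assumed).
* `FA.Summary.zeta_moment_upper_of_RH`, `FA.Summary.zeta_moment_exponent_of_RH`,
  `FA.Summary.zeta_large_values_of_RH` (`SummaryMomentUpper`): Soundararajan's theorem on the
  Riemann hypothesis: `∫_T^{2T} |ζ(1/2 + it)|^{2k} ≪ T (log T)^{k² + ε}` for real `k ≥ 0`, so the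
  exponent of `log T` is exactly `k²` for `k ≥ 1`, and `log |ζ(1/2 + it)| > v log log T` on a set
  of measure `≪ T (log T)^{-v² + ε}`.
* `FA.Summary.prime_blocks_mean_value`, `FA.Summary.prime_blocks_exp_moment` (`SummaryPrimeBlocks`):
  sums over disjoint blocks of primes are independent in mean over `[T, 2T]` (unique factorisation)
  and the squared truncated exponential of their real parts has mean `≤ exp (k² ∑ r²)`, each up to
  the length of the product.
* `FA.Summary.zeta_moment_sharp_upper_of_RH`, `FA.Summary.zeta_moment_order_of_RH`,
  `FA.Summary.zeta_moment_nat_order_of_RH` (`SummarySharpMoments`): Harper's theorem on the Riemann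
  hypothesis (an argument): `∫_T^{2T} |ζ(1/2 + it)|^{2k} ≪ T (log T)^{k²}` for real `k ≥ 0`, so
  this is the exact order of magnitude for rational `k ≥ 1`.
* `FA.Summary.zeroCount_littlewood_of_RH`, `FA.Summary.zeta_zero_gaps_of_RH`,
  `FA.Summary.zero_multiplicity_of_RH` (`SummaryLittlewoodArgument`): on the Riemann hypothesis
  (an argument) `N T - mainTerm T ≪ log T / log log T`, so gaps `≪ 1 / log log T` between the
  ordinates and multiplicities `≪ log γ / log log γ` (Littlewood 1924);
* `FA.Summary.inv_zeta_bound_of_RH`, `FA.Summary.mertens_of_RH` (`SummaryMertensRH`): on the
  Riemann hypothesis (an argument) `|1/ζ(σ + it)| ≤ exp (C log t / log log t)` for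
  `σ ≥ 1/2 + 1/log log t` and `|∑_{n ≤ x} μ n| ≤ √x exp (C log x / log log x)` (Littlewood);
* `FA.Summary.psi_error_almost_periodic_of_RH`, `FA.Summary.cramer_mean_square_of_RH`
  (`SummaryPsiDistribution`): on the Riemann hypothesis (an argument) `(ψ(e^y) - e^y)/e^(y/2)` is
  a limit in mean square of its finite sums over the zeros, and Cramér's
  `(1/log X) ∫_2^X ((ψ x - x)/√x)² dx/x → ∑ m²/|ρ|² > 0` over the distinct zeros;
* `FA.Summary.psi_error_distribution_of_RH`, `FA.Summary.psi_error_distribution_not_dirac_of_RH`
  (`SummaryPsiDistribution`): hence, on the same hypothesis, that error has a limiting distribution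
  on the logarithmic scale (Wintner), which is no point mass;
* `FA.Summary.mertens_omega`, `FA.Summary.simple_zeros_of_mertens_one_sided`
  (`SummaryInghamMertens`): `M n = ∑_{k ≤ n} μ k` is `Ω± (√n)`; a one-sided bound `C √n` gives the
  Riemann hypothesis, simple zeros and `1/|ρ ζ' ρ| ≤ C` at each of them;
* `FA.Summary.not_summable_inv_zeta_deriv`, `FA.Summary.mertens_residue_sum_le`,
  `FA.Summary.ingham_mertens`, `FA.Summary.mertens_conjecture_fails_of_independent`
  (`SummaryInghamMertens`): if all zeros are simple, `∑ 1/|ρ ζ' ρ|` diverges; so (Ingham 1942) if
  the positive ordinates on the line are linearly independent over `ℚ` (an argument, never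
  assumed), `M n / √n` is unbounded above and below and the Mertens conjecture fails;
* `FA.Summary.liouville_omega_minus`, `FA.Summary.riemannZeta_half_negative`,
  `FA.Summary.simple_zeros_of_liouville_one_sided` (`SummaryInghamLiouville`): `ζ (1/2) < 0`,
  `L n = ∑_{k ≤ n} λ k` is below `-c √n` infinitely often for a `c > 1/|ζ (1/2)|`, and a one-sided
  bound `C √n` for it gives the Riemann hypothesis and simple zeros;
* `FA.Summary.not_summable_liouville_residues`, `FA.Summary.ingham_liouville`,
  `FA.Summary.polya_conjecture_fails_of_independent` (`SummaryInghamLiouville`): on RH with simple
  zeros `∑ |ζ (2 ρ) / (ρ ζ' ρ)|` diverges; so (Ingham) with linearly independent ordinates (an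
  argument, never assumed) `L n / √n` is unbounded both ways and Pólya's conjecture fails;
* `FA.Summary.ramanujan_hardy_littlewood`, `FA.Summary.zero_sum_self_dual`,
  `FA.Summary.moebius_theta_eq`, `FA.Summary.moebius_theta_of_summable`,
  `FA.Summary.sum_moebius_div_eq_zero` (`SummaryMoebiusTheta`): `∑ μ n / n = 0`, and the formula of
  Ramanujan, Hardy and Littlewood: for `α β = π`, with simple zeros (an argument, never assumed),
  `√α S α - √β S β = -1/(2 √β) ∑ Γ ((1 - ρ)/2) β^ρ / ζ' ρ` summed between suitable heights, where
  `S a = ∑ μ n / n exp (-(a/n)²)`;
* `FA.Summary.phragmen_prime_race`, `FA.Summary.theta_race`,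
  `FA.Summary.prime_race_lead_unbounded`, `FA.Summary.LFunction_chi4_ne_zero_of_real`,
  `FA.Summary.chi4_zero_free_of_one_sided`, `FA.Summary.grh_chi4_of_one_sided`
  (`SummaryPrimeRace`): Phragmén's theorem on the race mod `4`, with no hypothesis: for every
  `c < 1` infinitely often `π (n; 4, 3) - π (n; 4, 1) > c √n / log n`, the same for `θ` with
  `c √n`, and one-sided bounds `C n^α` for the race of `θ` keep zeros of `L (s, χ₄)` out of
  `re s > α`; the opposite direction of the race (Littlewood) is in the next item;
* `FA.Summary.littlewood_prime_race_one`, `FA.Summary.littlewood_prime_race_three`,
  `FA.Summary.littlewood_theta_race_one`, `FA.Summary.littlewood_theta_race_three`,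
  `FA.Summary.prime_race_one_leads`, `FA.Summary.prime_race_ties`,
  `FA.Summary.LFunction_chi4_zeros_unbounded_density` (`SummaryPrimeRaceLittlewood`): both sides
  of the race mod `4` (Hardy–Littlewood, Littlewood), with no hypothesis: for every `C` infinitely
  often `π (n; 4, 1) - π (n; 4, 3) > C √n / log n`, infinitely often the reverse, the same for `θ`
  with `C √n`, and infinitely many ties; `L (s, χ₄)` has more than `K T` zeros up to some height
  `T ≥ 1`, for every `K`; Littlewood's factor `log log log n` is not proved;
* `FA.Summary.de_bruijn_theorem`, `FA.Summary.de_bruijn_real_zeros`,
  `FA.Summary.de_bruijn_cosine_transform`, `FA.Summary.de_bruijn_xi`,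
  `FA.Summary.de_bruijn_xi_zero_time` (`SummaryDeBruijn`): de Bruijn's theorem on the heat flow:
  for an even real entire `f` of growth `exp (o |z|²)` with zeros in `|im z| ≤ D` the series
  `∑ (-t)^k / k! f^(2k)` has its zeros in `(im z)² ≤ max (D² - 2 t) 0`; for cosine transforms this
  is the factor `exp (t u²)`; with no hypothesis the flow of `ξ (1/2 + i z/2) / 8` has only real
  zeros for `t ≥ 1/2` (`Λ ≤ 1/2`), and at `t = 0` this is equivalent to RH;
* `FA.Summary.newman_conjecture`, `FA.Summary.newman_infinitely_many_nonreal`,
  `FA.Summary.de_bruijn_newman_constant` (`SummaryDeBruijnNewman`): Newman's conjecture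
  (Rodgers–Tao, by Dobner's method), with no hypothesis: for every `t < 0` the same series at
  `ξ (1/2 + i z/2) / 8` has zeros with arbitrarily large imaginary part, so the infimum `Λ` of the
  times at which all its zeros are real (in the sense of the series) has `0 ≤ Λ ≤ 1/2`;
* `FA.Summary.polya_xi_representation`, `FA.Summary.polya_flow_eq_series`,
  `FA.Summary.polya_kernel_even_pos`, `FA.Summary.de_bruijn_newman_exists`
  (`SummaryNewmanConstant`): Pólya's `∫_0^∞ Φ u cos (z u) du = ξ (1/2 + i z/2) / 8`, the classical
  `H_t` as the same series at every real `t`, and the de Bruijn–Newman constant: a `Λ` in `[0, 1/2]`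
  with `H_t` having only real zeros iff `t ≥ Λ`, RH iff `Λ = 0`; no sharper numerical bound;
* `FA.Summary.hermite_poulain`, `FA.Summary.jensen_criterion_flow`,
  `FA.Summary.polya_jensen_criterion`, `FA.Summary.turan_inequalities_xi`
  (`SummaryJensenPolynomials`): the criterion of Jensen and Pólya: all zeros of `H_t` are real iff
  all Jensen polynomials of the normalised moments of `exp (t u²) Φ u` have only real zeros (shift
  `0` suffices), so RH iff this holds at `t = 0`; it holds for `t ≥ 1/2` and fails for `t < 0` with
  no hypothesis; Turán inequalities under RH and for `t ≥ 1/2`;
* `FA.Summary.griffin_ono_rolen_zagier`, `FA.Summary.jensen_hermite_limit`,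
  `FA.Summary.turan_inequalities_eventually` (`SummaryGORZ`): Griffin–Ono–Rolen–Zagier for `ξ`: for
  every real `t` and every degree `d` the Jensen polynomial of shift `n` of those moments has `d`
  distinct real zeros for all large `n`, being asymptotic to the Hermite polynomial `He_d`; strict
  Turán inequalities for all large `n` with no hypothesis; thresholds in `n` are not effective;
* `FA.Summary.polya_kernel_log_concave`, `FA.Summary.turan_inequalities_all` (`SummaryXiTuran`):
  Csordas–Norfolk–Varga, with no hypothesis: `log Φ (√x)` is strictly concave on `x > 0`, so the
  Turán inequalities of `ξ` are strict for every `n` and every real `t`, and all Jensen polynomials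
  of degree `2` have two distinct real zeros; nothing is claimed for degree `≥ 3`;
* `FA.Summary.griffin_ono_rolen_zagier_sequence`, `FA.Summary.chen_jia_wang_partition`,
  `FA.Summary.partition_log_concave_eventually`, `FA.Summary.partition_cubic_turan_eventually`
  (`SummaryPartitionJensen`): the theorem of Griffin, Ono, Rolen and Zagier for a sequence with
  their asymptotic hypothesis (Hermite limit, hence `d` distinct real zeros); the conjecture of
  Chen, Jia and Wang: in every degree the Jensen polynomials of the partition numbers are
  hyperbolic for all large shifts; so `p (n)` is eventually strictly log-concave and satisfies the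
  cubic Turán inequality; no explicit thresholds;
* `FA.Summary.polya_schur_degree`, `FA.Summary.polya_schur_algebraic`,
  `FA.Summary.polya_schur_transcendental`, `FA.Summary.schur_szego_composition`,
  `FA.Summary.laguerre_multiplier`, `FA.Summary.riemann_iff_multiplier_sequence`
  (`SummaryMultiplierSequences`): the theorem of Pólya and Schur on multiplier sequences (both
  criteria, any real sequence, also degree by degree), the composition theorem of Schur and Szegő,
  Laguerre's theorem; RH iff the normalised moments of `Φ` form a multiplier sequence (an
  equivalence; neither side is proved), the same for every `H_t`;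
* `FA.Summary.prime_ideal_psi_of_RH`, `FA.Summary.prime_ideal_count_of_RH`
  (`SummaryPrimeIdealGRH`): if the nontrivial zeros of `ζ_K` have `re s = 1/2` (an argument, never
  assumed), then `ψ_K x = x + O (√x log⁴ x (1 + log |d| + n))` and the same against the logarithmic
  integral for the prime ideals of norm `≤ x`, with constants independent of the field `K`.
* `FA.Summary.artin_primitive_root_of_RH`, `FA.Summary.artin_primitive_root_infinite_of_RH`,
  `FA.Summary.two_primitive_root_of_GRH`, `FA.Summary.artin_constant_pos` (`SummaryArtinHooley`):
  Hooley's theorem, Artin's conjecture on the Riemann hypothesis for the fields `ℚ(ζ_k, a^(1/k))`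
  (an argument, never assumed): for squarefree `a ≠ -1`, `a ≢ 1 (mod 4)`, the primes `p ≤ x` with
  the primitive root `a` are `∼ ∏_q (1 - 1/(q (q - 1))) x / log x`, so infinitely many.
* `FA.Summary.primes_almost_all_intervals_of_lindelof`,
  `FA.Summary.psi_almost_all_intervals_of_lindelof`,
  `FA.Summary.prime_in_almost_every_interval_of_lindelof`,
  `FA.Summary.long_gaps_total_of_lindelof` (`SummaryLindelofAlmostAll`): Lindelöf's hypothesis
  (an argument) gives primes in almost all intervals `(x, x + x ^ θ]` and rare gaps beyond
  `p ^ θ`, for every `θ > 0`.
* `FA.Summary.chebotarev_psi_of_RH`, `FA.Summary.chebotarev_of_RH`,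
  `FA.Summary.least_prime_frobenius_class_of_RH`, `FA.Summary.least_prime_progression_of_RH`,
  `FA.Summary.least_nonresidue_of_RH` (`SummaryChebotarevGRH`): Chebotarev on the Riemann
  hypothesis for `ζ_L` (an argument, never assumed) with error `σ S √x log ^ 4 x`,
  `S = 1 + log |d_L| + n_L` (Lagarias-Odlyzko), hence a Frobenius prime `p ≤ B S² log^8 S` in
  every class, a prime `≤ B q² log^10 q` in every class prime to `q` and a quadratic nonresidue
  `≤ B log² p (log log p)^8`.
* `FA.Summary.artin_all_infinite_of_RH`, `FA.Summary.artin_all_count_of_RH`,
  `FA.Summary.artin_class_of_RH`, `FA.Summary.artin_all_class_of_RH`,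
  `FA.Summary.artin_conjecture_iff_of_GRH` (`SummaryArtinAllBases`): Artin's conjecture on GRH (an
  argument, never assumed) for every base: `a ≠ -1`, no square, is a primitive root modulo a
  positive proportion of the primes, with the asymptotic in a class modulo `4 |a|!` (Hooley).
* `FA.Summary.weinberger_euclidean_iff_of_GRH`, `FA.Summary.weinberger_prime_units_of_GRH`,
  `FA.Summary.weinberger_real_quadratic_of_GRH` (`SummaryWeinberger`): Weinberger's theorem on GRH
  (an argument, never assumed): the ring of integers of a number field other than `ℚ` with a real
  place is Euclidean for some function to `ℕ` exactly when its class number is one.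
* `FA.Summary.miller_test_of_GRH`, `FA.Summary.least_prime_outside_subgroup_of_GRH`,
  `FA.Summary.bach_class_group_generated_of_GRH`, `FA.Summary.class_exponent_of_GRH`,
  `FA.Summary.class_exponent_discriminant_finite_of_GRH` (`SummaryMillerBach`): on GRH (an
  argument, never assumed) Miller's primality test with bases up to `B log² n (log log n)^8`, the
  class group of a number field is generated by primes of norm `≤ B S² log^8 S` (Bach), and that
  of an imaginary quadratic field has exponent `≫ log |d| / log log |d|` (Boyd-Kisilevsky,
  Weinberger), so finitely many discriminants for each exponent.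
* `FA.Summary.residue_bounds_of_RH`, `FA.Summary.brauer_siegel_effective_of_RH`,
  `FA.Summary.quadratic_residue_bounds_of_RH`, `FA.Summary.littlewood_class_number_of_RH`,
  `FA.Summary.class_number_discriminant_finite_of_RH` (`SummaryLittlewoodGRH`): on the Riemann
  hypothesis for `K` and `ℚ` (an argument, never assumed) `c / log S ≤ res ζ_K ≤ (C log S)^(n-1)`,
  so the Brauer-Siegel theorem with absolute constants, and Littlewood's bounds
  `c √|d| / log log |d| ≤ h ≤ C √|d| log log |d|` for imaginary quadratic fields.
* `FA.Summary.weinberger_full_euclidean_iff_of_GRH`,
  `FA.Summary.weinberger_full_prime_units_of_GRH` (`SummaryWeinbergerFull`): Weinberger's theorem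
  on GRH (an argument, never assumed) for every number field with infinitely many units, totally
  complex ones included: Euclidean for some function to `ℕ` exactly when the class number is one.
* `FA.Summary.cyclicity_serre_of_GRH`, `FA.Summary.cyclicity_density_pos_of_GRH`,
  `FA.Summary.cyclicity_infinite_iff_of_GRH` (`SummaryCyclicityGRH`): Serre's theorem on GRH (an
  argument, never assumed): the good `p ≤ x` with `E(𝔽_p)` cyclic number `δ x / log x`, `δ` the
  infimum over `z` of the share of Galois trivial on no `E[q]`, `q ≤ z`; `δ > 0`, and there are
  infinitely many, exactly when the `2`-torsion is not all rational. CM curves included.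
* `FA.Summary.langTrotter_bound_of_GRH`, `FA.Summary.supersingular_bound_of_GRH`
  (`SummaryLangTrotterGRH`): Serre's bounds on GRH (an argument, never assumed) for an elliptic
  curve over `ℚ` with open adelic image: for every `t` the good `p ≤ x` with `a_p = t` are
  `O (x ^ (7/8) log ^ 5 x)`, and the supersingular ones `O (x ^ (5/6) log ^ 5 x)` (the class of
  trace zero is taken in `PGL₂(𝔽_l)`).
* `FA.Summary.pointCount_omega_turan_of_GRH`, `FA.Summary.pointCount_omega_normal_order_of_GRH`
  (`SummaryPointCountOmega`): the theorem of Miri, Murty and Liu on GRH (an argument, never
  assumed): for an elliptic curve over `ℚ` with open adelic image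
  `∑ (ω (#E(𝔽_p)) - log log x) ^ 2 = O (π x log log x)` over the good `p ≤ x`, so `ω (#E(𝔽_p))`
  has normal order `log log p`.
* `FA.Summary.pointCount_prime_upper_bound_of_GRH`, `FA.Summary.pointCount_almost_prime_of_GRH`
  (`SummaryPointCountSieve`): on GRH (an argument, never assumed), for an elliptic curve over `ℚ`
  with open adelic image: `#E(𝔽_p)` is prime for `O (x / log ^ 2 x)` good `p ≤ x` (Cojocaru, the
  order in Koblitz's conjecture), and for some `k`, `c > 0` at least `η x / log ^ 2 x` of them have
  `ω (#E(𝔽_p)) ≤ k` with every prime factor above `k` at least `x ^ c`.
* `FA.Summary.effective_isogeny_of_GRH`, `FA.Summary.effective_isogeny_criterion_of_GRH`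
  (`SummaryEffectiveIsogeny`): Serre's effective isogeny theorem on GRH (an argument, never
  assumed), with an absolute constant and no hypothesis on the images: two integral equations whose
  traces differ at some common good prime differ at one `p ≤ B L ^ 2 (1 + log L) ^ 28`,
  `L = 1 + log |Δ Δ'|`.
* `FA.Summary.pointCount_erdos_kac_of_GRH` (`SummaryPointCountErdosKac`): Liu's Erdős–Kac theorem
  on GRH (an argument, never assumed): for an elliptic curve over `ℚ` with open adelic image
  `(ω (#E(𝔽_p)) - log log x) / √(log log x)` over the good `p ≤ x` tends in distribution to the
  standard Gaussian.
* `FA.Summary.nearly_cyclic_of_GRH`, `FA.Summary.first_invariant_bounded_density_of_GRH`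
  (`SummaryNearlyCyclic`): on the Riemann hypothesis (an argument), for every curve over `ℚ`, CM
  or not, and every `f → ∞` almost all primes have exponent `≥ p / f(p)` (Duke); the index of a
  largest cyclic subgroup of `E(𝔽_p)` is bounded off arbitrarily small proportions of the primes.
* `FA.Summary.first_invariant_distribution_of_GRH`, `FA.Summary.exponent_average_of_GRH`
  (`SummaryFirstInvariant`): on the Riemann hypothesis (an argument), for every curve over `ℚ`, CM
  or not, the primes with `#E(𝔽_p) = d · exponent` have density `δ_d = ∑_k μ k / n_{d k}` (`n` the
  division field degrees), `∑_d δ_d = 1`, and `exponent / p` has mean `∑_d δ_d / d > 0`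
  (Freiberg–Kurlberg).
* `FA.Summary.sum_divisors_sq_add_one`, `FA.Summary.sum_divisors_sq_add_one_asymptotic`
  (`SummaryQuadraticDivisor`): `∑_{n ≤ x} d (n² + 1) = (3/π) x log x + O (x)`, the divisor
  problem for a quadratic polynomial (Scourfield; main term of Hooley).
* `FA.Summary.elliptic_titchmarsh_divisor_of_GRH` (`SummarySplitCompleteSum`): on the Riemann
  hypothesis (an argument), for every curve over `ℚ` the number of divisors of
  `#E(𝔽_p) / exponent` has mean `∑_m 1 / n_m` over the primes (Akbary–Ghioca).
* `FA.Summary.divisor_progression`, `FA.Summary.divisor_progression_level`
  (`SummaryDivisorLevel`): the divisor function in progressions to prime moduli has level of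
  distribution `2/3`: for odd `p ≤ x ^ (2/3 - δ)`, `p ∤ a`, the sum over `n ≡ a (p)` is
  `(1 - 1/p + o (1)) x log x / p` uniformly (Selberg, Hooley; by Weil's Kloosterman bound).
* `FA.Summary.montgomery_hooley`, `FA.Summary.montgomery_hooley_full`
  (`SummaryMontgomeryHooley`): for `x/(log x)^A ≤ Q ≤ x` the mean square of
  `ψ(x;q,a) − x/φ(q)` over `q ≤ Q` and reduced `a` is `Q x log Q + O(Q x)` (Montgomery, Hooley).
* `FA.Summary.prime_pairs_mean_square`, `FA.Summary.prime_pairs_almost_all_shifts`,
  `FA.Summary.prime_pairs_almost_all_count`, `FA.Summary.almost_all_prime_differences`,
  `FA.Summary.almost_all_prime_differences_density`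
  (`SummaryPrimePairShifts`): Hardy–Littlewood's asymptotic for prime pairs `p, p + h` holds for
  almost all `h` (van der Corput, Lavrik), so almost every even number is a difference of primes.
* `FA.Summary.selberg_omega_mean_value`, `FA.Summary.sathe_selberg`,
  `FA.Summary.sathe_selberg_limit`, `FA.Summary.sathe_selberg_normal_order`,
  `FA.Summary.sathe_selberg_constant_pos` (`SummarySatheSelberg`): the formula of Sathe and Selberg:
  `∑_{n ≤ N} z ^ ω n = z φ z N (log N) ^ (z - 1) + O (N (log N) ^ (|z| - 5/4))` for bounded `z`, and
  so, uniformly for `k ≤ R Λ` with `Λ = log log N` and `r = (k - 1) / Λ`, the `n ≤ N` with `ω n = k`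
  number `N / log N · Λ ^ (k - 1) / (k - 1)! · (φ r + O (k / Λ ^ 2))`, where
  `φ r = ∏ₚ (1 + r / (p - 1)) (1 - 1/p) ^ r / Γ (r + 1)`, which is positive for `r ≥ 0`.
* `FA.Summary.esseen_smoothing`, `FA.Summary.renyi_turan`, `FA.Summary.renyi_turan_sharp`,
  `FA.Summary.renyi_turan_uniform` (`SummaryRenyiTuran`): the theorem of Rényi and Turán: with
  `l = log log N` the proportion of the `n ≤ N` with `ω n ≤ l + x √l` is the normal distribution
  function at `x` up to `O (1 / √l)` uniformly in `x`, and this order is attained; by the smoothing
  inequality of Esseen (with explicit constants) and Selberg's mean value of `z ^ ω n`.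
* `FA.Summary.mertens_polynomial_roots`, `FA.Summary.richert_almost_prime_values`,
  `FA.Summary.richert_almost_prime_values_infinite`, `FA.Summary.sq_add_one_three_factors`
  (`SummaryRichertValues`): Richert's theorem: an irreducible `f ∈ ℤ[X]` of degree `g ≥ 1` with
  positive leading coefficient and no fixed prime divisor takes for `≫ x / log x` of the `n < x` a
  value with at most `g + 1` prime factors, all `≥ x ^ (1/5)`; so `n ^ 2 + 1` has at most three
  prime factors infinitely often. With Mertens' theorem `∑_{p ≤ n} ρ p / p = log log n + C + o (1)`
  for the roots of `f` modulo `p`, from the prime ideal theorem.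
* `FA.Summary.hooley_equidistribution`, `FA.Summary.hooley_exponential_sum`,
  `FA.Summary.root_count_sq_add_one`, `FA.Summary.kloosterman_composite_bound`,
  `FA.Summary.kloosterman_weight_average` (`SummaryHooleyRoots`): Hooley's theorem: the fractions
  `ν / n` with `ν ^ 2 + 1 ≡ 0 (mod n)` are equidistributed modulo one, their exponential sums being
  `≪ |h| x ^ (3/4) (1 + log x) ^ 7`, and `∑_{n ≤ x} ρ n ∼ 3 / (2 π) x`. With Weil's bound for
  Kloosterman sums to every modulus, trivial at the higher prime powers, and its average over them.
* `FA.Summary.hooley_greatest_prime_factor`, `FA.Summary.hooley_prime_factor_infinite`,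
  `FA.Summary.hooley_uniform_exponential_sum` (`SummaryHooleyPrimeFactor`): Hooley's theorem: for
  some small `δ > 0` the greatest prime factor of `∏_{n ≤ x} (n ^ 2 + 1)` exceeds `x ^ (1 + δ)` for
  large `x`, and that of `n ^ 2 + 1` exceeds `n ^ (1 + δ)` infinitely often. With the exponential
  sums over the roots of `ν ^ 2 + 1` uniformly in a divisor of the moduli.
* `FA.Summary.erdos_divisor_sum_polynomial` (`SummaryErdosDivisorSum`): Erdős's theorem: for `f`
  irreducible of positive degree the sum of the numbers of divisors of `|f n|` over `n ≤ x` has
  the order `x log x`.
* `FA.Summary.shiu_multiplicative`, `FA.Summary.divisor_moment_short_interval`,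
  `FA.Summary.divisor_sum_progression` (`SummaryShiuBrunTitchmarsh`): Shiu's Brun–Titchmarsh
  theorem for nonnegative multiplicative functions with `f (p ^ l) ≤ A ^ l`, `f n ≪ n ^ ε` in short
  intervals and progressions, so that
  `∑ τ n ^ r ≪ y (log x) ^ (2 ^ r - 1)` over `(x - y, x]` for `y ≥ x ^ β`, and
  `∑ τ n ≪ φ k / k ^ 2 · y log x` over the same interval within a reduced class modulo
  `k ≤ y ^ (1 - α)`.
* `FA.Summary.hooley_divisor_sum_sq_add_one`, `FA.Summary.root_count_reciprocal_sum`
  (`SummaryHooleyDivisor`): Hooley's asymptotic
  `∑_{n ≤ x} d (n ^ 2 + 1) = 3 / π x log x + B x + O (x ^ (19/20))`, and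
  `∑_{d ≤ x} ρ d / d = 3 / (2 π) log x + b + O (x ^ (-1/8))` for the roots of `ν ^ 2 + 1`.
* `FA.Summary.hooley_delta_mean`, `FA.Summary.prime_cos_abs_sum` (`SummaryHooleyDelta`): Hooley's
  theorem that the mean of `Δ n = max_u #{d ∣ n : u < log d ≤ u + 1}` over `n ≤ N` is
  `≪ (log N) ^ (4/π - 1)`, and `∑_{p ≤ N} |cos (θ log p / 2)| / p` bounded above up to `O (1)`,
  uniformly for `0 < θ ≤ 1`.
* `FA.Summary.shifted_prime_erdos_kac`, `FA.Summary.shifted_prime_normal_order`,
  `FA.Summary.omega_prime_sub_one_normal_order` (`SummaryShiftedPrimeErdosKac`): Halberstam's
  theorem that for fixed `a ≠ 0` the `(ω |p + a| - log log N) / √(log log N)` over the primes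
  `p ≤ N` tend in distribution to the standard Gaussian, and the normal order `log log p` of
  `ω |p + a|`, in particular of `ω (p - 1)` (from Bombieri–Vinogradov; no rate).
* `FA.Summary.totient_omega_gaussian`, `FA.Summary.totient_cardFactors_gaussian`,
  `FA.Summary.totient_omega_normal_order` (`SummaryErdosPomerance`): the theorem of Erdős and
  Pomerance that `ω (φ n)` and `Ω (φ n)` over `n ≤ N` are Gaussian with the mean
  `(log log N) ^ 2 / 2` and the variance `(log log N) ^ 3 / 3`, and the normal order
  `(log log n) ^ 2 / 2` of `ω (φ n)` (from Bombieri–Vinogradov; no rate).
* `FA.Summary.carmichael_normal_order`, `FA.Summary.max_order_almost_all`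
  (`SummaryCarmichaelFunction`): the theorem of Erdős, Pomerance and Schmutz that `log (n / λ n)`
  has the normal order `log log n · log log log n` for Carmichael's `λ`, so that for almost all `n`
  the largest order modulo `n` is above `n ^ (1 - ε)` and below `n / (log n) ^ A` (from
  Bombieri–Vinogradov and Brun–Titchmarsh; no rate).
* `FA.Summary.totient_value_count`, `FA.Summary.sigma_value_count`,
  `FA.Summary.totient_value_exponent`, `FA.Summary.sigma_value_exponent`
  (`SummaryTotientValues`): Erdős's theorem of 1935 that the totients, and likewise the sums of
  divisors, up to `x` number `x / (log x) ^ (1 + o (1))` (the finer results of Maier and Pomerance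
  and of Ford are not claimed).
* `FA.Summary.coprime_totient_count`, `FA.Summary.cyclic_number_count` (`SummaryCyclicCount`):
  Erdős's theorem of 1948 that the `n ≤ N` prime to `φ n`, equivalently the orders at which every
  group is cyclic, number `~ exp (-γ) N / log log log N` (from Bombieri–Vinogradov; no rate).
* `FA.Summary.totient_totient_normal_order`, `FA.Summary.sigma_totient_normal_order`
  (`SummaryTotientIterates`): for almost all `n`, `φ (φ n) / φ n ~ exp (-γ) / log log log n`
  (Erdős, Granville, Pomerance, Spiro) and `σ (φ n) / φ n ~ exp γ log log log n` (Alaoglu, Erdős).
* `FA.Summary.multiplication_table_exponent`, `FA.Summary.multiplication_table_upper`,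
  `FA.Summary.multiplication_table_lower`, `FA.Summary.multiplication_table_exponent_bounds`
  (`SummaryMultTableExponent`): Erdős's theorem of 1960 that the `N × N` multiplication table has
  `N² / (log N) ^ (δ + o (1))` distinct entries, `δ = 1 - (1 + log log 2) / log 2`, with
  `≪ N² / (log N) ^ δ` above (Ford's exact order is not claimed).
* `FA.Summary.carmichael_count_upper`, `FA.Summary.carmichael_summable`
  (`SummaryCarmichaelUpper`): the upper bound of Erdős and Pomerance that at most
  `x exp (-(1 - ε) log x log log log x / log log x)` Carmichael numbers lie up to a large `x`, so
  that their reciprocals have a finite sum (that this is their true number is not claimed).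
* `FA.Summary.popular_totient_values`, `FA.Summary.popular_totient_value_below`
  (`SummaryPopularTotients`): Erdős's theorem of 1935 that for some `γ > 0` infinitely many `m` are
  the totient of at least `m ^ γ` numbers, some `m ≤ X` of at least `X ^ γ` for every large `X`
  (from the smooth shifted primes of Alford, Granville and Pomerance; no value of `γ`).
* `FA.Summary.divisor_interval_exponent`, `FA.Summary.divisor_interval_upper`,
  `FA.Summary.divisor_interval_lower` (`SummaryDivisorInterval`): the theorem of Erdős (1960) and
  Tenenbaum (1975) that the integers with a divisor in `(T, 2 T]` have a density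
  `1 / (log T) ^ (δ + o (1))`, `δ = 1 - (1 + log log 2) / log 2`, with `≪ 1 / (log T) ^ δ` above
  (Ford's order of magnitude is not claimed).
* `FA.Summary.divisor_arcsine_law`, `FA.Summary.divisor_arcsine_moments`
  (`SummaryDivisorArcsine`): the arcsine law of Deshouillers, Dress and Tenenbaum (1979), that for
  `0 ≤ u ≤ 1` the mean over `n ≤ N` of the share of the divisors `d ≤ n ^ u` of `n` tends to
  `(2 / π) arcsin √u` (without their rate), by the moments of `log d / log N`.
* `FA.Summary.erdos_close_divisors`, `FA.Summary.erdos_close_divisors_density_one`
  (`SummaryCloseDivisors`): the theorem of Maier and Tenenbaum (1984), conjectured by Erdős in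
  1948, that almost all integers have two divisors `d < d' < 2 d` (not their finer result with
  `1 + (log n) ^ (-β)` in place of `2`).
* `FA.Summary.donnelly_grimmett`, `FA.Summary.size_biased_prime_factor_uniform`,
  `FA.Summary.billingsley_large_prime_factors` (`SummaryPoissonDirichlet`): for a random `n ≤ N`
  the ratios `log p / log m` of the size-biased draws of prime factors become independent uniform
  (Donnelly and Grimmett, 1993), so the `K` largest `log p / log n` have in the limit the
  Poisson–Dirichlet law of the largest pieces of a broken stick (Billingsley, 1972).
* `FA.Summary.heath_brown_divisor_count`, `FA.Summary.heath_brown_divisor_infinite`,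
  `FA.Summary.cardFactors_consecutive_count`, `FA.Summary.cardFactors_consecutive_infinite`
  (`SummaryConsecutiveDivisors`): the theorem of Heath-Brown (1984) that `d (n) = d (n + 1)` for
  infinitely many `n`, here `≫ x / (log x) ^ 500` up to `x` (he had the exponent `7`), and the same
  for `Ω`; `FA.Summary.heath_brown_difference_gcd`: his sets of numbers with gcds their differences.
* `FA.Summary.divisor_shift_count`, `FA.Summary.divisor_shift_infinite`,
  `FA.Summary.cardFactors_shift_count`, `FA.Summary.schlage_puchta_omega_count`,
  `FA.Summary.schlage_puchta_omega_infinite` (`SummaryConsecutiveDivisors`): for every `s ≥ 1` at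
  least `c x / (log x) ^ 500` numbers `n ≤ x` have `d (n) = d (n + s)` (Pinner), as many have
  `Ω (n) = Ω (n + s)`, and as many `ω (n) = ω (n + s)` (Schlage-Puchta: `s = 1`, infinitely often).
* `FA.Summary.stewart_sierpinski`, `FA.Summary.practical_two_pow_mul`,
  `FA.Summary.practical_density_zero`, `FA.Summary.melfi_goldbach_practical`,
  `FA.Summary.melfi_practical_triples` (`SummaryPractical`): practical numbers: the criterion of
  Stewart and Sierpiński, density zero (Erdős), every even number a sum of two practical numbers
  and infinitely many practical triples `n - 2`, `n`, `n + 2` (Melfi).
* `FA.Summary.additive_difference_rare`, `FA.Summary.erdos_pomerance_sarkozy_divisors`,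
  `FA.Summary.erdos_pomerance_sarkozy_omega`, `FA.Summary.erdos_pomerance_sarkozy_bigOmega`,
  `FA.Summary.equal_divisors_density_zero`, `FA.Summary.equal_omega_density_zero`,
  `FA.Summary.equal_bigOmega_density_zero` (`SummaryEqualDivisorsUpper`): the upper bound of
  Erdős, Pomerance and Sárközy: at most `C x / √(log log x)` numbers `n ≤ x` have
  `d (n) = d (n + 1)`, and the same for `ω` and `Ω`, so these `n` have density zero; more
  generally no value of `f n - f (n + 1)` is taken more often, for additive `f` with `f p = 1`
  and `|f (p ^ e)| ≤ e`.
* `FA.Summary.nair_correlation`, `FA.Summary.divisor_power_correlation`,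
  `FA.Summary.two_squares_consecutive_upper` (`SummaryMultiplicativeCorrelations`): a bound of
  Nair's type for multiplicative `f, g ≥ 0` of moderate growth:
  `∑_{n ≤ x} f n g (n + 1) ≪ x / (log x) ^ 2 exp (∑_{p ≤ x} (f p + g p) / p)`; so
  `∑ d (n) ^ k d (n + 1) ^ l ≪ x (log x) ^ (2 ^ k + 2 ^ l - 2)`, and at most `C x / log x`
  numbers `n ≤ x` have `n` and `n + 1` sums of two squares.
* `FA.Levinson.Summary.levinson_count`, `FA.Levinson.Summary.levinson_montgomery_count`,
  `FA.Levinson.Summary.mirror_zeros`, `FA.Levinson.Summary.count_of_deriv_ne_zero`
  (`SummaryLevinsonCount`): Levinson's counting inequality `N(T) ≤ N₀(T) + 2 N_G(T) + O(log T)`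
  for `G = ζ + ζ'/D`, the zeros of `G` being mirror images of those of `ζ'` left of the line.
* `FA.TwistedMoment.Summary.zeta_twisted_second_moment` (`SummaryTwistedMoment`): the twisted
  second moment `∫_T^2T ζ(1/2+it+α) ζ(1/2-it+β) |∑ b h h^(-1/2-it)|²` with its two main terms,
  up to `O (B² (N √T + √N T^(3/4)) (log T)^4)`, for shifts `O (1 / log T)` and length `N ≤ T`.
* `FA.LevinsonThird.Summary.more_than_one_third`, `levinson_proportion`, `mollified_mean_square`,
  `companion_zeros_bound`, `littlewood_lemma` (`SummaryLevinsonThird`): Levinson's theorem, more
  than one third of the zeros of `ζ` with `0 < im ρ ≤ T` lie on the critical line for large `T`,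
  by the mollifier of length `T^(49/100)` on `re s = 1/2 - 13/(10 log T)` and Littlewood's lemma.
* `FA.SimpleZeros.Summary.simple_zeros_on_line`, `simple_zero_count`, `simple_zeros`,
  `infinitely_many_simple_zeros`, `derivZeta_zeros_left` (`SummarySimpleZeros`): unconditionally,
  more than one third of the zeros of `ζ` are simple and on the critical line (Heath-Brown,
  Selberg 1979); the zeros of `ζ'` with `-1 ≤ re ≤ 1/2` are fewer than one third of those of `ζ`.
* `FA.APoints.Summary.aPoints_count`, `aPoints_off_line`, `almost_all_near_line`, `clustering`,
  `infinitely_often_near_line` (`SummaryAPoints`): Levinson 1975, for every complex `a` the roots of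
  `ζ s = a` with `T < im ≤ 2T` number `T log T / (2π) + O (T)` and all but a proportion `ε` lie
  within `K log log T / log T` of the critical line.
* `FA.SelbergDensity.Summary.total_distance`, `density_near_line`, `off_line_bound`,
  `almost_all_within`, `clustering` (`SummarySelbergDensity`): Selberg, `∑ |β - 1/2| = O (T)` over
  the zeros up to `T`, so `N (σ, T) = O (T / (σ - 1/2))` and almost all zeros lie within
  `Φ (T) / log T` of the critical line for every `Φ → ∞`.
* `FA.DerivZetaZeros.Summary.levinson_montgomery`, `berndt`, `deriv_zeros_strip`, `line_zero`,
  `speiser`, `speiser_converse`, `left_lt_third` (`SummaryDerivZetaZeros`): the zeros of `ζ'`: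
  `N₁⁻ T = N⁻ T + O (log T)` for the zeros left of the critical line (Levinson–Montgomery),
  `N₁ T = T/2π log (T/4π) - T/2π + O (log T)` (Berndt), RH excludes zeros of `ζ'` left of the line
  at great height (Speiser; the converse up to `O (log T)`), and fewer than a third lie there.
* `FA.ArgumentMean.Summary.littlewood_mean`, `sum_height_differences`, `theta_stirling`,
  `argTerm_eq_classical`, `mean_abs_lower`, `sign_changes` (`SummaryArgumentMean`): Littlewood's
  `∫_0^T S = O (log T)` for `S t = N t - t/2π log (t/2π) + t/2π - 7/8`, unconditionally, with
  Stirling's `-π/8` in `θ t`; `∫_T^{2T} |S| ≥ T/16`, so `S` changes sign in every `[T, 2T]`.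
* `FA.DirichletZeroCount.Summary.riemann_von_mangoldt`, `unit_window`, `absolute_zero`,
  `infinitely_many_zeros`, `zeros_completed` (`SummaryDirichletZeroCount`): for primitive `χ ≠ 1`
  mod `q`, `N (T, χ) = T/π log (q T / (2 π e)) + O (log (q (T + 3)))` for `T ≥ 2` with an absolute
  constant; hence one height contains a zero of every such L-function, and there are infinitely
  many. Imprimitive characters and explicit constants are not claimed.
* `FA.DirichletLineZeros.Summary.line_zero_gaps`, `line_zero_arbitrarily_high`,
  `infinite_line_zeros`, `line_zero_count`, `truncated_series`, `rotation`
  (`SummaryDirichletLineZeros`): for primitive `χ ≠ 1` every interval `[T, T + C T^(3/4)]` has a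
  zero `1/2 + it` of `L (s, χ)` (Hardy, Landau), so at least `c T^(1/4)` of them up to `T`. The
  constants depend on `χ`; a positive proportion is not claimed.
* `FA.DirichletLandau.Summary.landau_formula_nat`, `landau_formula_not_nat`, `zeros_recover`,
  `zeros_differ`, `zeros_differ_points`, `zeros_determine_character` (`SummaryDirichletLandau`):
  `∑_{|im ρ| ≤ T} x ^ ρ = -(T/π) χ(x) Λ(x) + O (log² T)` over the zeros of primitive `L (s, χ)`;
  two characters' zero multisets differ by `≥ c T`, in `≥ c T / log T` points; equal zeros outside
  a finite set force equal moduli and characters. Uniformity in `x` and `q` is not claimed.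
* `FA.DirichletOrdinates.Summary.truncation`, `second_moment`, `meanSquare_limit`,
  `meanSquare_uniform`, `bohr_landau`, `almost_all_zeros_near_line`, `ordinateSum_isLittleO`,
  `ordinates_equidistributed` (`SummaryDirichletOrdinates`): for a character `χ ≠ 1` modulo `q`,
  `∫_0^T |L (1/2 + it, χ)|² = (φ q / q) T log T + O (T √(log T))`, the mean square `∼ c T` on
  `re s = σ > 1/2` and `N (σ, T, χ) = O (T)` (Bohr–Landau); for primitive `χ` almost all zeros
  are within `ε` of the critical line and their dilated ordinates `α γ` are equidistributed mod 1
  (Rademacher, Elliott, Hlawka).
* `FA.DirichletHadamard.Summary.partial_fractions`, `hadamard_product`, `re_B`, `sum_re_inv_zeros`,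
  `re_xi_logDeriv`, `norm_xi_strictMono`, `grh_iff_re_pos`, `grh_iff_norm_strictMono`,
  `deriv_xi_zeros` (`SummaryDirichletHadamard`): Hadamard's product for the completed L-function of
  a primitive character, `re B (χ) = -∑ re (1/ρ)` in closed form, and the Riemann hypothesis for
  `L (s, χ)` as the positivity of `re (ξ'/ξ)`, or the growth of `|ξ|`, to the right of the line;
  the zeros of `ξ'` lie in the strip, and on the line under that hypothesis.
* `FA.GRHProgressions.Summary.psi_char_bound`, `grh_iff_psi_log_sq`, `grh_iff_psi_rpow`,
  `psi_progression`, `theta_progression`, `least_prime_progression` (`SummaryGRHProgressions`):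
  on the Riemann hypothesis for `L (s, χ)`, `|ψ (x, χ)| ≤ C √x log² (q x)` with an absolute `C`,
  and `ψ (x, χ) = O_ε (x ^ (1/2 + ε))` is equivalent to it for primitive `χ ≠ 1`; on it for all
  characters mod `q`, `ψ (x; q, a)` and `θ (x; q, a)` are `x / φ q + O (√x log² (q x))` uniformly
  in `q` and `a`, and the least prime `≡ a` is `O (φ q ² log⁴ (2 q))`.
* `FA.GRHClasses.Summary.grh_iff_psi_progression`, `grh_iff_psi_progression_sharp`,
  `prime_count_progression`, `prime_count_progression_uniform`, `psi_variance`, `theta_variance`,
  `turan_empty_classes`, `turan_almost_all_classes`, `exponential_sum_rational`,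
  `exponential_sum_near_rational` (`SummaryGRHClasses`): GRH for all characters mod `q` is
  equivalent to `ψ (x; q, a) = x / φ q + O_ε (x ^ (1/2 + ε))` for every class; on it, with absolute
  constants, `π (x; q, a) = li x / φ q + O (√x log² (q x) / log x)`, the variance over the classes
  is `O (x log⁴ (q x))`, all but `O (φ q / K)` classes have a prime up to `K φ q log⁴ (2 q K)`
  (Turán), and `∑_{n ≤ N} Λ n e (α n)` near `α = a / q` has the error `O (√(q N) log² (q N))`
  times `1 + |α - a / q| N` (Hardy and Littlewood).
* `FA.AnkenyBound.Summary.least_prime_char_ne_one`, `least_prime_outside_subgroup`,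
  `small_primes_generate`, `least_quadratic_nonresidue`, `least_power_nonresidue`, `miller_test`
  (`SummaryAnkenyBound`): on the Riemann hypothesis for Dirichlet `L`-functions only, with exactly
  the square of the logarithm (Ankeny, Montgomery, Bach): `χ ≠ 1` mod `q` has a prime `p ∤ q` with
  `χ p ≠ 1` and `p ≤ C log² (2 q)`, so do proper subgroups of `(ℤ / n) ˣ`, the least quadratic and
  `k`-th power nonresidues mod `p` are `O (log² p)`, and an odd `n > 1` is prime iff it passes
  Miller's test for the bases up to `C log² (2 n)`.
* `FA.LOneGRH.Summary.lfunction_one_euler_product`, `littlewood_upper`, `littlewood_lower`,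
  `class_number_bounds` (`SummaryLOneGRH`): Littlewood's theorem with his constants, for every
  `χ ≠ 1` mod `q` on GRH for `L (s, χ)` alone: `L (1, χ)` is the Euler product over `p ≤ N` up to
  `exp O ((1 + log (2 q) / √N) / log N)`, `|L (1, χ)| ≤ (2 + ε) e^γ log log q`,
  `1 / |L (1, χ)| ≤ (2 + ε) (6 e^γ / π²) log log q`, and so
  `h (-4 n) ≤ (2 + ε) (2 e^γ / π) √n log log n` with the corresponding lower bound.
* `FA.MVCharSum.Summary.montgomery_vaughan`, `twisted_harmonic`, `twisted_vonMangoldt`
  (`SummaryMVCharSum`): the theorem of Montgomery and Vaughan (1977): on the Riemann hypothesis for
  the Dirichlet `L`-functions `∑_{M < n ≤ N} χ n = O (√q log log q)` for every `χ ≠ 1` mod `q`;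
  for primitive `χ`, every real `α` and `t ≤ q`, `∑_{n ≤ t} χ n e (α n) / n = O (log log q)` and
  `∑_{n ≤ t} Λ n χ n e (α n) = O (t ^ (5/6) log² q)`.
* `FA.PaleyCharSum.Summary.large_partial_sum`, `class_number_le_partial_sum`, `paley`,
  `log_deriv_short_sum`, `log_deriv_bound` (`SummaryPaleyCharSum`): a partial sum of an odd
  primitive character is `≥ √q |L (1, χ)| / π`, `h (-4 n)` is at most the greatest partial sum of
  its character, and infinitely many real primitive characters have partial sums
  `≥ c √q log log q` (Paley 1932), so Montgomery-Vaughan is best possible; on GRH for `L (s, χ)`
  `|L'/L (1, χ)| ≤ 2 log log (2 q) + O (1)` (Ihara, Murty, Shimura),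
  by the short sum of `Λ χ n / n`.
* `FA.CramerGaps.Summary.prime_interval_progression`, `least_prime_progression_sharp`,
  `cramer_gaps` (`SummaryCramerGaps`): Cramér's theorem, with absolute constants: on GRH mod `q`
  every interval `(x, x + C φ q √x log (q x)]` with `C φ q log (q x) ≤ √x` contains a prime `≡ a`,
  so the least one is `O (φ q ² log² (2 q))`; on the Riemann hypothesis
  `p (n + 1) - p n = O (√(p n) log (p n))` for every `n`.
* `FA.GammaHolder.Summary.gamma_no_algebraic_ode`, `gamma_no_algebraic_ode_accumulation`,
  `gamma_no_algebraic_ode_real`, `digamma_no_algebraic_ode` (`SummaryGammaHolder`): Hölder's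
  theorem: no non-zero polynomial vanishes at `(z, Γ z, Γ' z, …, Γ⁽ⁿ⁾ z)` on a non-empty open set,
  on a set accumulating at a point which is not a pole, or on a real interval, so the Gamma
  function satisfies no algebraic differential equation; likewise for the digamma function.
* `FA.ChebyshevBias.Summary.bias_of_grh`, `grh_iff_bias`, `three_beats_one`,
  `zero_free_of_one_sided` (`SummaryChebyshevBias`): Chebyshev's bias mod `4` in Landau's averaged
  form: with `D x = ∑_{p ≤ x} χ₄ p log p (x - p)`, the Riemann hypothesis for `L (s, χ₄)` holds iff
  `D x < 0` for all large `x`, and then `D x ≤ -x √x / 6`; a one-sided bound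
  `e D n ≤ C n ^ (α + 1)`, `α ≥ 1/2`, leaves no zero in `re s > α`.
* `FA.DedekindZeroCount.Summary.riemann_von_mangoldt`, `unit_window`, `absolute_zero`,
  `infinitely_many_zeros`, `closed_strip`, `zero_symmetric` (`SummaryDedekindZeroCount`): the
  continuation of `(s - 1) ζ_K` has `T/π log (|d| (T / (2 π e)) ^ n) + O (1 + log |d| +
  n log (T + 3))` zeros with `0 < re < 1`, `|im| ≤ T`, with multiplicity, with one constant for all
  number fields; so an absolute height catches a zero of every `ζ_K`, and each has infinitely many.
* `FA.DedekindHadamard.Summary.hadamard_product`, `partial_fractions`, `re_xi_logDeriv`,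
  `stark_sum`, `euler_kronecker`, `rh_iff_re_pos`, `rh_iff_norm_strictMono`,
  `norm_xi_strictMono` (`SummaryDedekindHadamard`): Hadamard's product for the completed zeta
  function `ξ_K` of a number field, Stark's exact sum of `re 1/(s - ρ)` over the zeros, `∑ re 1/ρ`
  through the constant of Euler and Kronecker with Ihara's lower bound for it, and the Riemann
  hypothesis for `ζ_K` as positivity of `re ξ'/ξ` or growth of `|ξ_K|` on `re s > 1/2`.
* `FA.TsfasmanVladut.Summary.finite_inequality`, `basic_inequality`, `exists_subsequence`,
  `exists_asymptotically_good`, `rootDiscriminant_split`, `split_primes_bound`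
  (`SummaryTsfasmanVladut`): the unconditional basic inequality of Tsfasman and Vlăduţ,
  `∑ φ q log q / (q - 1) + φR (log 2√π + γ/2) + φC (log 2π + γ) ≤ 1`, for every sequence of number
  fields with converging ratios (an asymptotically good one exists); so primes that split
  completely raise Odlyzko's bound and are few when root discriminants are bounded.
* `FA.GeneralBrauerSiegel.Summary.residue_uniform`, `residue_asymptotic`,
  `class_number_asymptotic`, `class_number_small_degree`, `class_number_uniform`
  (`SummaryGeneralBrauerSiegel`): the unconditional half of the generalised Brauer–Siegel theorem,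
  `log (h R) ≤ (1 + ∑ φ q log (q/(q-1)) - φR log 2 - φC log 2π + ε) g` eventually along sequences
  with converging ratios, `≤ (1 + ε) g` if `n/g → 0`, and `≤ (2 + ε) g + C` for all number fields.
* `FA.GeneralBrauerSiegelGRH.Summary.residue_lower`, `residue_limit`, `class_number_limit`,
  `class_number_limit_one` (`SummaryGeneralBrauerSiegelGRH`): the generalised Brauer–Siegel theorem
  of Tsfasman and Vlăduţ on the Riemann hypothesis for each `ζ_K` (an argument): `log (h R) / g`
  tends to `1 + ∑ φ q log (q/(q-1)) - φR log 2 - φC log 2π`, to `1` if `n/g → 0`.
* `FA.EulerKroneckerFamilies.Summary.ihara_upper_bound`, `uniform_upper`, `uniform_lower`,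
  `family_limit`, `zero_sum_limit`, `family_lower`, `family_limit_zero`
  (`SummaryEulerKroneckerFamilies`): on the Riemann hypothesis for each `ζ_K` (an argument) Ihara's
  bound `γ_K ≤ 2 log (log √|d| + 1) + C`, uniformly in `K`, and along families
  `γ_K / g → -∑ φ q log q / (q - 1)`; with no hypothesis the lower bound along families.
* `FA.DedekindZeroDistribution.Summary.zeros_in_interval`, `eventually_ordinate`, `order_on_line`
  (`SummaryDedekindZeroDistribution`): on the Riemann hypothesis for each `ζ_K` (an argument), in
  families with `g = log √|d| → ∞` and `n/g → 0` every interval `[a, b]` holds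
  `((b - a)/π + o(1)) g` ordinates of zeros, so one eventually, and each order of vanishing is
  `o (log |d|)`.
* `FA.GRHBasicInequality.Summary.uniform_inequality`, `basic_inequality`, `rootDiscriminant_bound`,
  `totally_real`, `totally_complex`, `rootDiscriminant_split`, `unramified_extensions_bounded`
  (`SummaryGRHBasicInequality`): on the Riemann hypothesis for each `ζ_K` (an argument) the basic
  inequality of Tsfasman and Vlăduţ, `∑ φ q log q / (√q - 1) + φR (log √(8π) + π/4 + γ/2) +
  φC (log 8π + γ) ≤ 1`, and the bounds of Odlyzko and Serre for root discriminants,
  `8π e^(γ+π/2) > 215` and `8π e^γ > 44.7`, by finite differences of `re ξ'/ξ`.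
* `FA.FamilyZeroDensity.Summary.zeros_distribution`, `eventually_ordinate`, `order_on_line`
  (`SummaryFamilyZeroDensity`): the theorem of Tsfasman and Vlăduţ on the zeros of `ζ_K` in every
  family with converging ratios, on the Riemann hypothesis for each field (an argument): `[a, b]`
  holds `(π⁻¹ ∫_a^b M + o(1)) g` ordinates, `M` continuous in closed form and positive off `0`;
  so with `|d| → ∞` alone every interval holds one eventually, and orders of vanishing are
  `o (log |d|)`.
* `FA.DedekindMultiplicity.Summary.zeros_short_window`, `order_on_line_le`, `order_le_log_discr`
  (`SummaryDedekindMultiplicity`): on the Riemann hypothesis for `ζ_K` (an argument) the ordinates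
  in `[t - 1/log G, t + 1/log G]`, `G = log √|d| + n log (|t| + 3) + 3`, number `O (G / log G)`
  uniformly in the field, its degree and `t`; hence the order of vanishing at `1/2 + t i` is
  `O (log |d| / log log |d|)` for bounded `t`.
* `FA.DedekindOrdinateGaps.Summary.zeros_two_sided`, `ordinate_near`, `least_ordinate`,
  `ordinate_gaps` (`SummaryDedekindOrdinateGaps`): on the Riemann hypothesis for `ζ_K` (an
  argument), with `G = log √|d| + n log (|t| + 3) + 3`, an interval `[t - w, t + w]`,
  `10^7 / log (G/n) ≤ w ≤ 1`, holds between `w G / 24` and `4 w G` ordinates, uniformly in the
  field; so in bounded degree the least ordinate is `O (1 / log log |d|)` (Omar), and the gaps at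
  height `T` are `O (1 / log log T)` (Littlewood).
* `FA.DedekindLittlewoodBound.Summary.half_line_bound`, `two_sided_bound`, `lindelof_discriminant`
  (`SummaryDedekindLittlewoodBound`): Littlewood's bound on the Riemann hypothesis for `ζ_K` (an
  argument), `|E s| ≤ |s - 1| exp (C G / log (G/n + 3))` at `s = 1/2 + i t` uniformly in the field,
  from both sides at distance `32 / log (G/n + 3)` right of the line; so in bounded degree
  `ζ_K (1/2 + i t) = O_ε ((|d| (|t| + 3) ^ n) ^ ε)` (Lindelöf, in both aspects).
* `FA.DedekindConvexity.Summary.rademacher_bound`, `half_line_convexity`, `residue_le`
  (`SummaryDedekindConvexity`): Rademacher's convexity bound with no hypothesis on zeros,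
  `|E (σ + i t)| ≤ Y ^ n (|t| + 3) (|d| (|t| + 3) ^ n) ^ ((1 + ε - σ)/2)` uniformly in the field;
  so in bounded degree the exponent `1/4 + ε` on the line and residue `O_ε (|d| ^ ε)`.
* `FA.IdealLandauCount.Summary.landau_ideal_count`, `ideal_count_ge`
  (`SummaryIdealLandauCount`): Landau's count of integral ideals, uniform in the field: in degree
  at most `n` there are `res x + O_n (|d| ^ (1/(2n)) x ^ (1 - 1/(4n)))` nonzero ideals of norm at
  most `x`, so at least `res x / 2` from `x = (C |d| ^ (1/(2n)) / res) ^ (4n)` on.
* `FA.IdealMertens.Summary.mertens_first`, `rosen_second`, `rosen_third` (`SummaryIdealMertens`):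
  Rosen's theorems of Mertens for number fields, `res` the residue of `ζ_K`: over the primes with
  `N p ≤ x`, `∑ log N p / N p = log x + L + o (1)`, `∑ 1/N p = log log x + γ + log res - G + o (1)`
  with `G = ∑ (-log (1 - 1/N p) - 1/N p)`, and `∏ (1 - 1/N p) ~ e ^ (-γ) / (res log x)`.
* `FA.IdealKFree.Summary.kfree_ideals`, `squarefree_ideals`, `coprime_ideals`, `coprime_probability`
  (`SummaryIdealKFree`): uniform in the field, in degree at most `n`: the ideals of norm at most `x`
  free of `k`-th powers (`k ≥ 2`; also squarefree) number `res / ζ_K k x` up to
  `O_n (|d| ^ (1/(2n)) x ^ (1 - 1/(4n)))`, coprime pairs `res² / ζ_K 2 x²` with a power saving; so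
  two ideals are coprime with probability `1 / ζ_K 2`.
* `FA.DedekindExplicit.Summary.explicit_formula`, `psi_sharp_of_RH`, `theta_sharp_of_RH`,
  `count_sharp_of_RH`, `least_degree_one_prime_of_RH`, `least_split_prime_of_RH`
  (`SummaryDedekindExplicit`): the explicit formula for `∑_{n ≤ y} Λ_K n (y - n)` with an absolutely
  convergent sum over the zeros and error `O (√y (1 + log |d| + n))`, no hypothesis; on the Riemann
  hypothesis for `ζ_K` (an argument, never assumed) the bounds of Lagarias and Odlyzko,
  `ψ_K x = x + O (√x log x (log |d| + n log x))`, the same for `θ_K`,
  `π_K x = li x + O (√x (log |d| + n log x))`, and an unramified prime of degree one (split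
  completely for Galois `K`) up to `A log² (2 |d|)`, with absolute constants.
* `FA.IdealShortIntervals.Summary.psi_interval_of_RH`, `count_interval_of_RH`,
  `prime_ideal_gap_of_RH`, `count_interval_tendsto_of_RH`, `psi_mean_square_of_RH`
  (`SummaryIdealShortIntervals`): Cramér's theorems for number fields, uniformly in the field, the
  Riemann hypothesis for `ζ_K` an argument: with `R = √x (log |d| + n log x)`, `ψ_K` grows over
  `(x, x + h]` by `h + O (R (1 + log (1 + h / R)))`, some prime ideal has norm in `(x, x + M R]`,
  there are `∼ h / log x` of them in a fixed field when `h / (√x log x) → ∞`, and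
  `∫_X^(2X) (ψ_K t - t)² = O (X² (1 + log |d| + n)²)`.
* `FA.BachLogSquare.Summary.least_nonsplit_prime_of_RH`, `classGroup_generated_of_RH`,
  `classNumber_one_iff_of_RH` (`SummaryBachLogSquare`): Bach's theorem with exactly `log²`, the
  Riemann hypothesis an argument throughout: for a Galois `E/K` of degree `m ≥ 2` (hypothesis for
  `ζ_K` and `ζ_E`) an unramified prime of degree one that does not split completely has norm
  `≤ A (log (2 |d_K|) + log |d_E| / m) ²`; on it for `ζ_K` and its everywhere unramified abelian
  extensions the primes of degree one of norm `≤ A log² (2 |d_K|)` generate the class group, and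
  the class number is one iff they are principal.
* `FA.DivisionLogSquare.Summary.least_division_prime_of_RH`, `least_inert_prime_of_RH`,
  `least_rational_class_prime_of_RH` (`SummaryDivisionLogSquare`): the conditional theorem of
  Lagarias, Montgomery and Odlyzko for divisions with exactly `log²`: for a Galois `L/K`, `σ` in its
  group and the Riemann hypothesis for `ζ` of the fields between `L^σ` and `L` (an argument), some
  prime of `K` of prime norm `p ∤ d_L`, `p ≤ A log² (2 |d_L|)`, has Frobenius a power of `σ` prime
  to its order; so a cyclic extension has such an inert prime, and `σ` itself is the Frobenius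
  where it is conjugate to those powers.
* `FA.SharpChebotarev.Summary.chebotarev_sharp_of_RH`, `chebotarev_psi_sharp_of_RH`,
  `chebotarev_moment_of_RH`, `least_prime_of_class_of_RH`, `least_prime_progression_sharp_of_RH`
  (`SummarySharpChebotarev`): on the Riemann hypothesis for `ζ_L` (an argument),
  with `σ = |C| / [L : K]`,
  the sharp theorem of Lagarias and Odlyzko `π_C x = σ li x + O (σ √x (log |d_L| + n_L log x))`,
  `ψ_C x = σ x + O (σ √x log x (log |d_L| + n_L log x))`, the theorem of Lagarias, Montgomery and
  Odlyzko for every class (a degree-one prime `p ∤ d_L`, `p ≤ A log² (2 |d_L|)`), and on it for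
  `ℚ(ζ_q)` a prime `≤ A (φ q log (2 q))²` in every class prime to `q`.
* `FA.SharpIsogeny.Summary.effective_isogeny_sharp_of_GRH`, `least_prime_representation_of_GRH`,
  `effective_isogeny_criterion_sharp_of_GRH`, `least_prime_trace_residue_of_GRH`,
  `least_odd_trace_of_GRH` (`SummarySharpIsogeny`): on GRH (an argument) Serre's effective isogeny
  theorem with his exponents, differing traces differ at a `p ≤ B L ^ 2 (1 + log L) ^ 12`,
  `L = 1 + log rad (Δ Δ')`; a class of a representation with image of order `n` at a prime
  `p ∉ S`, `p ≤ B (n (1 + log n + ∑_S log p)) ^ 2`; with full image every `(a_p, p) mod l` at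
  `p ≤ B (l ^ 4 (1 + 5 log l + L)) ^ 2`; with irreducible `E[2]` an odd `a_p` at `p ≤ B L ^ 2`.
* `FA.DedekindOscillation.Summary.zero_free_iff_psi`, `rh_iff_psi_log_sq`, `rh_iff_psi_rpow`,
  `zero_free_of_one_sided`, `psi_oscillation_of_zero`, `schmidt_below`, `schmidt_oscillation`,
  `schmidt_oscillation_plain` (`SummaryDedekindOscillation`): for every number field, no zero of
  `ζ_K` in `θ < re s` iff `ψ_K x - x = O_ε (x ^ (θ + ε))` (`1/2 ≤ θ < 1`), so its Riemann
  hypothesis iff `O (√x log² x)`; Landau's one-sided criterion; `ψ_K n < n - c √n` infinitely
  often with no hypothesis; without a real zero in `(1/2, 1)` both signs about `-2 m √n`, `m` the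
  order at `1/2`, so `ψ_K n - n = Ω± (√n)` if also `ζ_K (1/2) ≠ 0`.
* `FA.SharpLangTrotter.Summary.langTrotter_sharp_of_GRH`, `supersingular_sharp_of_GRH`
  (`SummarySharpLangTrotter`): on GRH for all number fields (an argument), for an elliptic curve
  over `ℚ` with open adelic image the good `p ≤ x` with `a_p = t` are
  `O (x ^ (5/6) (log x) ^ (-1/3))` and those with `a_p = 0` are `O (x ^ (3/4))`, by counting
  through the abelian quotients of the Borel subgroup (Murty, Murty and Saradha's `3/4`; their and
  Zywina's `4/5` for general `t` is not reached).
* `FA.LTFifths.Summary.langTrotter_fifths_of_GRH`, `supersingular_half_log_of_GRH`,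
  `chebotarev_moment_dual_of_RH` (`SummaryLangTrotterFifths`): on GRH for all number fields (an
  argument), for an elliptic curve over `ℚ` with open adelic image the good `p ≤ x` with
  `a_p = t ≠ 0` are `O (x ^ (4/5) (log x) ^ (-3/5))` and those with `a_p = 0` are
  `O (x ^ (3/4) (log x) ^ (-1/2))` (Murty, Murty and Saradha's exponents, Zywina's logarithms):
  Chebotarev's smoothed sum for an abelian extension with the error set by the largest nontrivial
  character sum of the class, which is `√l` by Jacobi sums.
* `FA.ErdosMurty.Summary.index_bounded_almost_all_of_RH`, `order_almost_all_of_RH`
  (`SummaryErdosMurtyGRH`): the theorem of Erdős and Murty on the Riemann hypothesis for the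
  fields `ℚ(ζ_q, a ^ (1/q))`, `q` prime (an argument), for every `|a| ≥ 2`: for each `ε > 0` some
  `f` bounds `(p - 1) / ord_p a` at all but `ε π N` primes `p ≤ N`, so `ord_p a ≥ p / ψ p` at
  almost all primes for every `ψ → ∞`.
* `FA.Shoup.Summary.shoup_prime_primitive_root`, `prime_primitive_root_polylog`
  (`SummaryShoupPrimitiveRoot`): Shoup's theorem with a weaker, explicit exponent: on RH for the
  characters mod p (argument), a prime primitive root ≪ (ω (p - 1) + 1) ^ 578 log² p exists, so
  the least primitive root is bounded by a fixed power of log p.
* `FA.NonresidueOmega.Summary.montgomery_nonresidue_omega`, `small_prime_all_squares`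
  (`SummaryNonresidueOmega`): Montgomery 1971: on RH for the real Dirichlet characters (argument)
  the least quadratic nonresidue exceeds c log p log log p for infinitely many primes p; for
  every N some prime p ≤ exp (C N / log N) has all n ≤ N as squares.
* `FA.AlmostAllRoot.Summary.almost_all_prime_primitive_root`, `almost_all_primitive_root`
  (`SummaryAlmostAllPrimitiveRoot`): unconditionally, for every ε > 0 all but X ^ ε of the primes
  p ≤ X have a prime primitive root ≤ (log p) ^ B, B depending on ε only and not explicit
  (large sieve moments and the beta sieve over the primes dividing p - 1).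
* `FA.ArtinAverage.Summary.artin_average`, `totient_pred_mean`, `artin_small_base`
  (`SummaryArtinAverage`): Stephens 1969, unconditional: the mean of φ (p - 1) / (p - 1) is
  Artin's constant A, and for every N ≥ x ^ ε the bases a ≤ N are primitive roots modulo
  A π x primes p ≤ x on average; his range exp (4 √(log x log log x)) is not claimed.
* `FA.ArtinAlmostAll.Summary.artin_almost_all`, `artin_almost_all_lower`
  (`SummaryArtinAlmostAll`): Stephens 1969, unconditional: for all ε, η > 0, large x and every
  N ≥ x ^ ε all but η N of the bases a ≤ N are primitive roots modulo (A ± η) π x of the primes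
  p ≤ x, A Artin's constant; his rate and shorter range are not claimed.
* `FA.LeastPrimeClasses.Summary.least_prime_almost_all_classes` (`SummaryLeastPrimeClasses`):
  unconditional (ineffective): for f → ∞ all but η ∑ φ q of the classes prime to q, q ≤ Q, contain
  a prime ≤ f Q · Q log Q, by the variance of Barban, Davenport and Halberstam.
* `FA.GRHThreePrimes.Summary.hardy_littlewood_three_primes`, `hardy_littlewood_three_primes_log`,
  `exponential_sum_circle` (`SummaryGRHThreePrimes`): Hardy and Littlewood's theorem on three
  primes: on GRH for the moduli `≤ N` the weighted count is `𝔖 N N² / 2 + O (N^(11/6) log³ N)`,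
  and the sum over primes is known on the whole circle up to `O (N^(5/6) log² N)`;
* `FA.GRHGoldbach.Summary.goldbach_exceptional_grh`, `goldbach_exceptional_count_grh`,
  `goldbach_mean_square_grh` (`SummaryGRHGoldbach`): Hardy and Littlewood on GRH for the moduli
  `≤ X`: all but `O (X^(2/3) log⁷ X)` even numbers up to `X` are sums of two distinct primes, and
  the formula for two primes holds in mean square up to `O (X^(8/3) log⁷ X)`;
* `FA.MultiplicativeExpSum.Summary.montgomery_vaughan_weak`, `daboussi_quantitative`
  (`SummaryMultiplicativeExpSum`): a quantitative theorem of Daboussi after Montgomery and Vaughan,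
  uniform in multiplicative `|f| ≤ 1`: `∑_{n ≤ N} f n e (n α)` is
  `O (N (1 + log R) / log N + N log N / √R)` for `R ≤ q ≤ N / R`, hence `O (N log log N / log N)`
  on the minor arcs (weaker than their sharp bound);
* `FA.PrimeFractionalParts.Summary.vinogradov_alpha_p`, `alpha_p_discrepancy`
  (`SummaryPrimeFractionalParts`): Vinogradov: for irrational `α` and real `β` infinitely many
  primes have `‖α p - β‖ = O (p^(-1/5) log⁶ p)`, and the discrepancy of `α p` is
  `O (N^(4/5) log⁵ N)` for arbitrarily large `N`;
* `FA.LinearFormsPrimes.Summary.linear_form_three_primes_count`,
  `linear_form_three_primes_infinite`, `linear_form_three_primes_dense`,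
  `two_primes_near_sqrt_two_mul` (`SummaryLinearFormsPrimes`): Baker and Vaughan, for `a, b, c`
  not all of one sign with an irrational ratio `|a p₁ + b p₂ + c p₃ - μ| < η` has `≫ P²/(log P)³`
  prime solutions up to arbitrarily large `P`;
* `FA.PrimePowerEquidist.Summary.vinogradov_prime_powers_mod_one`, `vinogradov_prime_power_weyl`,
  `vinogradov_prime_powers_near` (`SummaryPrimePowerEquidistribution`): Vinogradov, for irrational
  `α` and every `k ≥ 1` the `α p ^ k` are equidistributed modulo one over the primes;
* `FA.PrimePowerInequality.Summary.prime_powers_inequality`, `five_prime_squares_inequality`,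
  `nine_prime_cubes_inequality`, `prime_powers_dense`, `five_prime_squares_dense`,
  `nine_prime_cubes_dense` (`SummaryPrimePowerInequality`): Baker and Vaughan, an indefinite
  `∑ lᵢ pᵢ ^ k` with an irrational ratio is within `η` of any `μ` at `≫ P ^ (s-k) / (log P) ^ s`
  prime tuples, for five squares, nine cubes and `s ≥ k (k + 1) + 3` powers;
* `FA.HuaInequality.Summary.hua_inequality`, `hua_count`, `davenport_heilbronn_pow`,
  `davenport_heilbronn_pow_dense`, `five_squares_dense`, `nine_cubes_dense`
  (`SummaryHuaInequality`): Hua's inequality `∫ |∑_{n ≤ P} e (α n^k)|^(2^i) ≪ P^(2^i - i + ε)`
  for `i ≤ k`, and Davenport–Heilbronn for indefinite `∑ lᵢ xᵢ^k` in `s ≥ 2^k + 1` variables;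
* `FA.WaringHua.Summary.waring_asymptotic_hua`, `waring_singular_series_hua`, `waring_hua_count`,
  `waring_hua`, `nine_cubes_count`, `seventeen_biquadrates_count` (`SummaryWaringHua`): Hua's
  asymptotic formula in Waring's problem for `k ≥ 3`, `s ≥ 2^k + 1`, with `𝔖 (N) ≥ c > 0`;
* `FA.DiagonalHua.Summary.hasse_principle_two_pow`, `hasse_principle_two_pow_congruences`,
  `odd_degree_zero_two_pow`, `diagonal_cubic_ten`, `diagonal_cubic_ten_rat` (`SummaryDiagonalHua`):
  the Hasse principle for diagonal forms in more than `2^k` variables (`k ≥ 3`), and every diagonal
  cubic form in ten variables has a nontrivial rational zero;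
* `FA.SmallPowerParts.Summary.heilbronn_danicic`, `heilbronn_squares`, `avoiding_interval_sum`
  (`SummarySmallPowerParts`): Heilbronn and Danicic, for every real `α` and `N` some `n ≤ N` has
  `‖α n^k‖ ≤ C N^(-1/2^(k-1) + ε)`, by Montgomery's lemma on points avoiding an interval;
* `FA.SmallFormValues.Summary.small_values_iff_not_definite`, `indefinite_quadratic_small_values`,
  `odd_power_small_values`, `real_cubic_ten` (`SummarySmallFormValues`): a real quadratic form in
  five or more variables has values `< ε` in absolute value at nonzero integer vectors iff it is
  not definite (Oppenheim's conjecture in its first form), and for odd `k`, `s > max (2^k) (k^2)`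
  every real form `∑ lᵢ xᵢ^k` does, e.g. every real diagonal cubic form in ten variables;
* `FA.DiagonalRep.Summary.diagonal_asymptotic`, `diagonal_representation_count`,
  `diagonal_representation`, `six_squares_representation`, `eight_cubes_twice_cube`
  (`SummaryDiagonalRepresentation`): positive diagonal forms `∑ aᵢ xᵢ^k`, `k ≥ 3`, `s > 2^k` (six
  squares for `k = 2`): the asymptotic formula, so every large `N` without a local obstruction at
  the primes of `k ∏ aᵢ` is represented, e.g. every large `N` is `x₁³ + ⋯ + x₈³ + 2 x₉³`;
* `FA.WaringKamke.Summary.kamke`, `kamke_exact`, `binomial_waring`, `tetrahedral_waring`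
  (`SummaryWaringKamke`): Kamke's theorem: for an integer-valued polynomial `f` every number is a
  sum of boundedly many values and ones, and every large one of exactly `g` values for some `g`
  iff the differences have gcd 1; e.g. boundedly many binomial coefficients `C (x, k)`;
* `FA.WaringAlmostAll.Summary.waring_mean_square`, `waring_almost_all_formula`, `waring_almost_all`,
  `twelve_biquadrates_classes`, `fifteen_biquadrates`, `fifteen_biquadrates_sharp`
  (`SummaryWaringAlmostAll`): Hardy–Littlewood: Waring's formula for almost all `N` when
  `s ≥ 2^(k-1) + 1`, `s ≥ 3 k`; for `k ≥ 5`, `s ≥ max (2^(k-1) + 1) (4 k)` almost every `N` is a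
  sum of `s` powers (`20` fifth, `33` sixth powers); `G₁ (4) = 15`;
* `FA.PrimeLinearEquation.Summary.linear_equation_mean_square`, `linear_equation_count`,
  `linear_equation_almost_all`, `lemoine_levy_almost_all`, `linear_equation_three_primes`,
  `two_primes_twice_prime`, `two_three_five` (`SummaryPrimeLinearEquation`): linear equations in
  primes: almost every admissible `n` is `a p + b q`, so almost every odd one `p + 2 q` (Lemoine,
  Levy), and every large one is `a p + b q + c r` for pairwise coprime `a, b, c`;
* `FA.PrimePlusPower.Summary.davenport_heilbronn_prime_power`, `exceptions_density_zero`,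
  `prime_plus_cube`, `pow_not_prime_plus_power`, `infinitely_many_exceptions`,
  `prime_power_mean_square`, `truncated_series_lower_bound` (`SummaryPrimePlusPower`): Davenport
  and Heilbronn: for every `k ≥ 2` almost every `n` is `p + x^k`, with infinitely many exceptions;
* `FA.PowerFreeSums.Summary.powFree_density_pos`, `powFree_add_count`, `powFree_shift_count`,
  `powFree_add_count_tendsto`, `powFree_add_count_ge`, `powFree_shift_density`,
  `powFree_shift_infinite`, `squarefree_consecutive_density`, `exists_squarefree_add`
  (`SummaryPowerFreeSums`): Evelyn–Linfoot and Mirsky: `N` is a sum of two numbers free of `k`-th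
  powers in `N ∏ p, cₚ(N) + O(N ^ (2 / (k + 1) + ε))` ways, the same for the pairs `n, n + h`;
  every `N ≥ 2` is a sum of two squarefree numbers;
* `FA.WaringGoldbachAlmostAll.Summary.waring_goldbach_almost_all`,
  `waring_goldbach_almost_all_asymptotic`, `waring_goldbach_almost_all_count`,
  `waring_goldbach_exceptions_density`, `singular_series_pos_half`, `eight_prime_cubes_almost_all`,
  `twelve_prime_fourth_powers_almost_all`, `seventeen_prime_fifth_powers_almost_all`
  (`SummaryWaringGoldbachAlmostAll`): for `2 s ≥ k² + k + 4`, `s ≥ 6` all but `O (X / (log X) ^ A)`
  of the `N ≡ s (mod K (k))` are sums of `s` `k`-th powers of primes, with the asymptotic formula;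
* `FA.ThreePrimesClasses.Summary.three_primes_classes`, `three_primes_classes_even`,
  `three_primes_one_mod_four`, `three_primes_three_mod_four`, `three_primes_one_mod_three`,
  `asymptotic_classes`, `count_asymptotic`, `count_lower`, `singular_product`, `singular_bounds`
  (`SummaryThreePrimesClasses`): for `a_i` prime to `m` every large odd `N ≡ a₁ + a₂ + a₃ (mod m)`
  is a sum of three primes `p_i ≡ a_i (mod m)`, with the asymptotic number of representations;
* `FA.BinaryClasses.Summary.almost_all_two_primes_classes`, `almost_all_two_primes_classes_even`,
  `two_primes_classes_density`, `two_primes_one_mod_four`, `two_primes_three_mod_four`,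
  `two_primes_one_three_mod_four`, `mean_square_classes`, `almost_all_count_classes`,
  `series_product`, `series_bounds`, `infinitely_many_progressions_class` (`SummaryBinaryClasses`):
  binary Goldbach in residue classes for almost all numbers, with the formula in mean square, and
  infinitely many three-term progressions of primes inside every class prime to the modulus;
* `FA.PrimeProgressionCount.Summary.progression_asymptotic`, `progression_count_tendsto`,
  `progression_count_ge`, `twin_constant_product` (`SummaryPrimeProgressionCount`): van der
  Corput's formula: with the twin prime constant `C₂` there are `(C₂ / 2 + o (1)) N² / (log N) ^ 3`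
  three-term progressions `p < q < r ≤ N` of primes, with the weighted formula up to any power of
  the logarithm;
* `FA.PrimePlusPrimePower.Summary.hua_prime_plus_prime_power`, `prime_plus_prime_square`,
  `congruence_necessary`, `sums_density`, `prime_plus_prime_square_density`,
  `prime_pair_mean_square`, `truncated_series_lower_bound` (`SummaryPrimePlusPrimePower`): Hua: for
  every `k ≥ 2` almost every `n` with `n ≢ 1` modulo each prime `p`, `(p - 1) ∣ k`, is `p + q^k`
  with `p`, `q` prime; these sums have density `φ D / D`, `D` the product of those primes, thus
  `1/3` for `k = 2`;
* `FA.FivePrimeCubes.Summary.five_prime_cubes_almost_all`, `five_prime_cubes_count`,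
  `five_prime_cubes_asymptotic`, `five_cubes_singular_series_pos`, `congruences_necessary`,
  `five_prime_cubes_density` (`SummaryFivePrimeCubes`): Hua: all but `O (X / (log X) ^ A)` of the
  odd `N ≤ X` with `N ≢ 0, ±2` mod `9` and `7 ∤ N` are sums of five cubes of primes, with the
  asymptotic formula; the sums of five cubes of primes above `7` have density `2/7`;
* `FA.TwoPrimesPrimePower.Summary.hua_two_primes_and_prime_power`,
  `two_primes_and_prime_square`, `representations_lower_bound`, `representations_asymptotic`,
  `singular_series_bounds` (`SummaryTwoPrimesPrimePower`): Hua: for every `k ≥ 1` every large odd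
  `N` is `p₁ + p₂ + q ^ k` with primes, for `k ≥ 2` in at least `N ^ (1 + 1/k) / (8 (log N) ^ 3)`
  ways, with the asymptotic formula and `1/2 ≤ 𝔖` for odd `N`;
* `FA.FourPrimeSquares.Summary.four_prime_squares_almost_all`, `four_prime_squares_count`,
  `four_prime_squares_mean_asymptotic`, `four_squares_singular_series_pos`,
  `congruence_necessary`, `four_big_prime_squares_density`, `four_prime_squares_density`
  (`SummaryFourPrimeSquares`): Hua: all but `O (X / (log X) ^ A)` of the `N ≤ X`,
  `N ≡ 4 (mod 24)`, are four squares of primes, with the count and the asymptotic
  formula on average; density `1/24` for primes above `3` and `13/120` for all primes;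
* `FA.PrimeRestriction.Summary.bourgain_prime_restriction`,
  `bourgain_prime_restriction_discrete`, `von_mangoldt_restriction`, `prime_exp_sum_moment`,
  `prime_sumset_lower_bound`, `prime_sumset_positive_density` (`SummaryPrimeRestriction`):
  Bourgain's restriction theorem for the primes: for every `q > 2` the `q`-th moment of
  `∑_{p ≤ N} a p e (p t)` is `O (((N / log N) ∑ |a p| ^ 2) ^ (q / 2) / N)`; so a set of
  `η N / log N` primes up to `N` has at least `c η ^ (1 + ε) N` sums of two elements;
* `FA.SquareRestriction.Summary.bourgain_square_restriction`,
  `bourgain_square_restriction_discrete`, `square_exp_sum_moment`, `square_triples_lower_bound`,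
  `square_triples_positive_density` (`SummarySquareRestriction`): Bourgain's restriction theorem
  for the squares: for every `q > 4` the `q`-th moment of `∑_{n ≤ N} a n e (n ^ 2 t)` is
  `O (N ^ (q / 2 - 2) ‖a‖ ^ q)`, with no `N ^ ε`; so `η N` integers up to `N` have at least
  `c η ^ (2 + ε) N ^ 2` sums of three of their squares;
* `FA.ShiftedPrimeDifferences.Summary.sarkozy_prime_minus_one`, `sarkozy_prime_plus_one`,
  `shifted_prime_cosine_polynomial`, `upper_density_prime_shift_difference`,
  `colouring_prime_shift_difference`, `shifted_prime_recurrence`, `other_shift_fails`
  (`SummaryShiftedPrimeDifferences`): the theorem of Sárközy and of Kamae and Mendès France: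
  for large `N` a positive proportion of `[1, N]` contains two numbers differing by `p - 1`,
  and two differing by `p + 1`, with `p` a large prime; no other shift has this property (no rate);
* `FA.ShiftedPrimeRecurrence.Summary.khintchine_prime_minus_one`, `khintchine_prime_plus_one`,
  `infinitely_many_prime_returns`, `equidistributed_prime_minus_one`,
  `equidistributed_prime_plus_one` (`SummaryShiftedPrimeRecurrence`): Kamae and Mendès France:
  some time `p - 1` (or `p + 1`) returns `μ (A) ^ 2 - ε` of a set `A` under a measure preserving
  map, and a sequence whose differences at all distances `p - 1` are equidistributed is itself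
  equidistributed;
* `FA.DenseThreePrimes.Summary.li_pan_dense_three_primes`, `dense_three_primes`,
  `dense_three_primes_liminf`, `dense_set_three_primes`, `pollard_theorem`,
  `class_prime_restriction` (`SummaryDenseThreePrimes`): the theorem of Li and Pan: three sets of
  primes with relative densities of sum above `2` give `≫ N ^ 2 / (log N) ^ 3` representations
  `p₀ + p₁ + p₂` of every large odd `N`, so one set of density above `2 / 3` suffices; by Green's
  transference, with Pollard's theorem and a restriction bound uniform in the `W`-trick;
* `FA.SchurPrimes.Summary.schur_primes_count`, `schur_primes_count_minus`, `schur_primes`,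
  `schur_primes_minus`, `schur_predecessors_of_primes`, `schur_successors_of_primes`,
  `schur_primes_shift_iff` (`SummarySchurPrimes`): the theorem of Li and Pan: every colouring of the
  primes with `r` colours has `≫ N ^ 2 / (log N) ^ 3` monochromatic `p + q = t ± 1` up to `N`, and
  no other shift has arbitrarily large ones in every colouring; by transference with one Bohr set
  and a supersaturated Schur theorem;
* `FA.PrimeMeanErgodic.Summary.isometry_prime_mean`, `isometry_pred_prime_mean`,
  `isometry_succ_prime_mean`, `isometry_prime_log_mean`, `prime_ergodic_mean`,
  `pred_prime_ergodic_mean`, `totally_ergodic_prime_mean`, `totally_ergodic_prime_returns`,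
  `exists_prime_time`, `norm_sum_orbit` (`SummaryPrimeMeanErgodic`): the mean ergodic theorem along
  the primes: for an isometry of a Hilbert space the averages of `U ^ p x` over `p ≤ N`, also of
  `U ^ (p ± 1) x`, converge in norm; so those of `g ∘ T ^ p` converge in `L²`, to `∫ g` for totally
  ergodic `T`, and the returns average to `μ A μ B` (no pointwise theorem, no rate);
* `FA.SpectralErgodic.Summary.herglotz`, `spectral_measure`, `mean_convergence_criterion`,
  `polynomial_mean_ergodic`, `prime_power_mean_ergodic`, `polynomial_ergodic_mean`,
  `prime_power_ergodic_mean`, `totally_ergodic_polynomial_mean`,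
  `totally_ergodic_prime_power_mean`, `polynomial_recurrence`, `power_recurrence`
  (`SummarySpectralErgodic`): Herglotz's theorem, Furstenberg's mean ergodic theorem along
  polynomial values and that along `p ^ k` (limit `∫ g` for totally ergodic maps), and recurrence
  `μ (A ∩ T ^ -(P n) A) ≥ μ A ^ 2 - ε` for `P 0 = 0` (no pointwise theorem, no rate);

The examples in `FA.Examples` show that the hypotheses are met by the curve `11a3`.
-/

set_option autoImplicit false

noncomputable section

open WeierstrassCurve

namespace FA.Overview

/-- **Fermat's Last Theorem.** -/
theorem fermatLastTheorem : FermatLastTheorem :=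
  FA.Summary.fermat

/-- **Modularity** of semistable elliptic curves over `ℚ`. -/
theorem semistable_modularity (E : WeierstrassCurve ℚ) [E.IsElliptic]
    (h : ∀ p : ℕ, ∀ [Fact p.Prime], ∃ C : VariableChange ℚ_[p],
      HasGoodReduction ℤ_[p] (C • E.map (algebraMap ℚ ℚ_[p])) ∨
        HasMultiplicativeReduction ℤ_[p] (C • E.map (algebraMap ℚ ℚ_[p]))) :
    ∃ (N : ℕ) (f : CuspForm (CongruenceSubgroup.Gamma0 N) 2), Squarefree N ∧
      ∀ n : ℕ, (UpperHalfPlane.qExpansion 1 f).coeff n = (E.LFunction n : ℂ) :=
  FA.Summary.modularity E h

/-- **Mazur's torsion theorem.** -/
theorem torsion_classification (E : WeierstrassCurve ℚ) [E.IsElliptic] :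
    (∃ n ∈ ({1, 2, 3, 4, 5, 6, 7, 8, 9, 10, 12} : Finset ℕ),
        Nonempty (AddCommGroup.torsion E.toAffine.Point ≃+ ZMod n)) ∨
      ∃ m ∈ ({1, 2, 3, 4} : Finset ℕ),
        Nonempty (AddCommGroup.torsion E.toAffine.Point ≃+ ZMod 2 × ZMod (2 * m)) :=
  FA.Torsion.mazur_torsion E

/-- **Mordell's theorem.** -/
theorem finitely_generated (E : WeierstrassCurve ℚ) [E.IsElliptic] :
    AddGroup.FG E.toAffine.Point :=
  FA.MordellWeil.mordell E

/-- **Hasse's theorem** over any finite field. -/
theorem hasse {F : Type*} [Field F] [Fintype F] (W : WeierstrassCurve F)
    [W.IsElliptic] :
    |(Fintype.card F : ℝ) + 1 - Nat.card W.toAffine.Point| ≤ 2 * Real.sqrt (Fintype.card F) :=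
  FA.Summary.hasse_bound_finite W

end FA.Overview

end
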