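import Fermat.Agent.Root.PadicLieClassification

/-!
# Open subgroups of the semi-Borel subgroup of `GL₂(ℤ_p)`

A closed group of triangular matrices with square one in the lower entry and every determinant,
whose elements congruent to one modulo `p³` do not all commute, contains every matrix
`(1 + p ^ k x, p ^ k y; 0, 1)` for some `k`.
-/

set_option autoImplicit false
set_option linter.unusedSectionVars false
set_option linter.style.haveILetI false

noncomputable section

open Matrix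
open FA.PadicImage (exists_dvd_prime_pow exists_apply_eq_one_add)
open FA.PadicLie (levelGroup mem_levelGroup exists_level_det two_add_ne_zero)

namespace FA.PadicBorel

variable {p : ℕ} [hp : Fact p.Prime]

local notation "Mp" => Matrix (Fin 2) (Fin 2) ℤ_[p]
local notation "π" => (p : ℤ_[p])

section Group

variable {G : Type*} [Group G] (r : G →* Matrix (Fin 2) (Fin 2) ℤ_[p])

/-- Near one the lower entry is one. -/
theorem apply_eq_of_level (h10 : ∀ g, r g 1 0 = 0) (h11 : ∀ g, r g 1 1 ^ 2 = 1) {g : G}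
    (hg : g ∈ levelGroup r 3) : r g = !![r g 0 0, r g 0 1; 0, 1] := by
  obtain ⟨Z, hZ⟩ := (mem_levelGroup r).1 hg
  have h1 : r g 1 1 = 1 := (sq_eq_one_iff.1 (h11 g)).resolve_right fun h => by
    rw [hZ, Matrix.add_apply, Matrix.smul_apply, Matrix.one_apply_eq, smul_eq_mul] at h
    exact two_add_ne_zero (π * Z 1 1) (by linear_combination h)
  ext i j
  fin_cases i <;> fin_cases j <;> simp [h10, h1]

/-- **An open subgroup of the semi-Borel subgroup.** -/
theorem exists_level_borel (hcl : IsClosed (Set.range r))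
    (hdet : ∀ u : ℤ_[p]ˣ, ∃ g, (r g).det = u) (h10 : ∀ g, r g 1 0 = 0)
    (h11 : ∀ g, r g 1 1 ^ 2 = 1)
    (hne : ∃ g ∈ levelGroup r 3, ∃ h ∈ levelGroup r 3, r g * r h ≠ r h * r g) :
    ∃ k : ℕ, ∀ x y : ℤ_[p], ∃ g, r g = !![1 + π ^ k * x, π ^ k * y; 0, 1] := by
  obtain ⟨g, hg, h, hh, hgh⟩ := hne
  obtain ⟨c, hc⟩ : ∃ c, g * h * g⁻¹ * h⁻¹ = c := ⟨_, rfl⟩
  have hcm : c ∈ levelGroup r 3 :=
    hc ▸ mul_mem (mul_mem (mul_mem hg hh) (inv_mem hg)) (inv_mem hh)
  have hshape := fun a (ha : a ∈ levelGroup r 3) => apply_eq_of_level r h10 h11 ha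
  have hdetc : (r c).det = 1 := by
    rw [← hc, map_mul, map_mul, map_mul, det_mul, det_mul, det_mul,
      show (r g).det * (r h).det * (r g⁻¹).det * (r h⁻¹).det =
        (r g).det * (r g⁻¹).det * ((r h).det * (r h⁻¹).det) by ring,
      ← det_mul, ← det_mul, ← map_mul, ← map_mul, mul_inv_cancel, mul_inv_cancel, map_one,
      det_one, one_mul]
  have hc00 : r c 0 0 = 1 := by
    rw [hshape c hcm, det_fin_two_of] at hdetc
    linear_combination hdetc
  obtain ⟨b, hb⟩ : ∃ b, r c 0 1 = b := ⟨_, rfl⟩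
  have hcmat : r c = !![1, b; 0, 1] := by rw [hshape c hcm, hc00, hb]
  have hb0 : b ≠ 0 := fun h0 => hgh (by
    have h1 : r c = 1 := by rw [hcmat, h0, Matrix.one_fin_two]
    calc r g * r h = r c * (r h * r g) := by
          rw [← hc, ← map_mul, ← map_mul, ← map_mul]; congr 1; group
      _ = r h * r g := by rw [h1, one_mul])
  obtain ⟨j, w, hw⟩ := exists_dvd_prime_pow hb0
  have hupper : ∀ y : ℤ_[p], ∃ u, r u = !![1, π ^ j * y; 0, 1] := fun y => by
    have hN : r c - 1 = !![0, b; 0, 0] := by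
      rw [hcmat, Matrix.one_fin_two]
      ext i k; fin_cases i <;> fin_cases k <;> simp
    obtain ⟨u, hu⟩ := exists_apply_eq_one_add r hcl (σ := c)
      (by rw [hN]; ext i k; fin_cases i <;> fin_cases k <;> simp) (w * y)
    refine ⟨u, ?_⟩
    rw [hu, hN, hw, Matrix.one_fin_two]
    ext i k; fin_cases i <;> fin_cases k <;> simp
    ring
  obtain ⟨k₀, hk₀⟩ := exists_level_det r hcl hdet (j + 3)
  refine ⟨j + 3 + k₀, fun x y => ?_⟩
  obtain ⟨a, ha, hax⟩ := hk₀ (1 + π ^ (j + 3 + k₀) * x)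
    ⟨π ^ (j + 3) * x, by ring⟩
  obtain ⟨Z, hZ⟩ := (mem_levelGroup r).1 ha
  have ha3 : a ∈ levelGroup r 3 :=
    (mem_levelGroup r).2 ⟨π ^ j • Z, by rw [hZ, smul_smul, ← pow_add, add_comm 3 j]⟩
  rw [hshape a ha3, det_fin_two_of, mul_one, mul_zero, sub_zero] at hax
  have h01 : r a 0 1 = π ^ (j + 3) * Z 0 1 := by
    rw [hZ]; simp
  obtain ⟨u, hu⟩ := hupper (π ^ (3 + k₀) * y - π ^ 3 * Z 0 1)
  refine ⟨u * a, ?_⟩
  rw [map_mul, hu, hshape a ha3, hax, h01]
  ext i l
  fin_cases i <;> fin_cases l <;> simp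
  ring

end Group

end FA.PadicBorel

end
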