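import Fermat.Agent.Ribet.SerreSurjective
import Mathlib.NumberTheory.Padics.RingHoms

/-!
# Serre's lifting lemma for `GL₂(ℤ_p)`

For `p ≥ 5`, a group of matrices over `ℤ_p` which reaches every invertible matrix modulo `p` and
every determinant modulo every power of `p` reaches every invertible matrix modulo every power
of `p`.
-/

set_option autoImplicit false
set_option linter.unusedSectionVars false

noncomputable section

open Matrix

namespace FA.PadicImage

variable {p : ℕ} [hp : Fact p.Prime]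

local notation "M2" => Matrix (Fin 2) (Fin 2) ℤ_[p]
local notation "π" => (p : ℤ_[p])

/-- Multiples of `p` are the elements vanishing modulo `p`. -/
theorem toZMod_eq_zero_iff {x : ℤ_[p]} : PadicInt.toZMod x = 0 ↔ ∃ y, x = π * y := by
  rw [← RingHom.mem_ker, PadicInt.ker_toZMod, PadicInt.maximalIdeal_eq_span_p,
    Ideal.mem_span_singleton]
  rfl

/-- Matrices congruent modulo `p` differ by a multiple of `p`. -/
theorem exists_eq_add {A B : M2} (h : A.map PadicInt.toZMod = B.map PadicInt.toZMod) :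
    ∃ Y : M2, A = B + π • Y := by
  choose Y hY using fun i j => toZMod_eq_zero_iff.mp (show PadicInt.toZMod (A i j - B i j) = 0 by
    rw [map_sub, sub_eq_zero]; exact congrFun (congrFun h i) j)
  refine ⟨Matrix.of Y, ?_⟩
  ext i j
  show A i j = B i j + π * Y i j
  rw [← hY]; ring

/-- A unit is nonzero modulo `p`, and conversely. -/
theorem isUnit_iff_toZMod {x : ℤ_[p]} : IsUnit x ↔ PadicInt.toZMod x ≠ 0 := by
  rw [ne_eq, ← RingHom.mem_ker, PadicInt.ker_toZMod, IsLocalRing.mem_maximalIdeal, mem_nonunits_iff,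
    not_not]

/-- The expansion of `(1 + a) ^ m` to the fourth order. -/
theorem exists_one_add_pow (a : M2) (m : ℕ) : ∃ V : M2, (1 + a) ^ m =
    1 + (m : ℤ_[p]) • a + (m.choose 2 : ℤ_[p]) • (a * a) +
      (m.choose 3 : ℤ_[p]) • (a * a * a) + a * a * (a * a) * V := by
  induction m with
  | zero => exact ⟨0, by simp⟩
  | succ m ih =>
    obtain ⟨V, hV⟩ := ih
    refine ⟨V * (1 + a) + (m.choose 3 : ℤ_[p]) • 1, ?_⟩
    rw [pow_succ, hV, Nat.choose_succ_succ' m 1, Nat.choose_succ_succ' m 2, Nat.choose_one_right]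
    push_cast
    simp only [mul_add, add_mul, mul_one, one_mul, smul_mul_assoc, add_smul, one_smul,
      Algebra.mul_smul_comm, mul_assoc]
    abel

/-- `p`-th powers raise the level of a congruence to one. -/
theorem exists_pow_eq (h5 : 5 ≤ p) {n : ℕ} {X : M2} (hn : 1 ≤ n ∨ X * X = 0) (Y : M2) :
    ∃ Z : M2, (1 + π ^ n • X + π ^ (n + 1) • Y) ^ p = 1 + π ^ (n + 1) • X + π ^ (n + 2) • Z := by
  obtain ⟨k2, hk2⟩ := hp.out.dvd_choose_self (k := 2) two_ne_zero (by omega)
  obtain ⟨k3, hk3⟩ := hp.out.dvd_choose_self (k := 3) three_ne_zero (by omega)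
  set a := π ^ n • X + π ^ (n + 1) • Y with ha
  obtain ⟨V, hV⟩ := exists_one_add_pow a p
  -- the square is divisible by one more power
  obtain ⟨S, hS⟩ : ∃ S : M2, a * a = π ^ (n + 1) • S := by
    rcases hn with h | h
    · obtain ⟨j, rfl⟩ := Nat.exists_eq_add_of_le h
      refine ⟨π ^ j • ((X + π • Y) * (X + π • Y)), ?_⟩
      rw [ha]
      simp only [mul_add, add_mul, smul_mul_assoc, Algebra.mul_smul_comm, smul_smul, smul_add,
        ← pow_add, ← pow_succ]
      ring_nf
    · refine ⟨π ^ n • (X * Y + Y * X + π • (Y * Y)), ?_⟩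
      rw [ha]
      simp only [mul_add, add_mul, smul_mul_assoc, Algebra.mul_smul_comm, smul_smul, smul_add,
        h, smul_zero, zero_add, ← pow_add, ← pow_succ]
      ring_nf
      abel
  refine ⟨Y + (k2 : ℤ_[p]) • S + (k3 : ℤ_[p]) • (S * a) + π ^ n • (S * S * V), ?_⟩
  rw [add_assoc 1 (π ^ n • X), ← ha, hV, hk2, hk3, hS]
  push_cast
  rw [ha]
  simp only [mul_add, smul_mul_assoc, Algebra.mul_smul_comm, smul_smul, smul_add]
  ring_nf
  abel

variable {G : Type*} [Group G] {r : G →* Matrix (Fin 2) (Fin 2) ℤ_[p]}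

/-- The image meets the class of `M` modulo `p ^ n`. -/
def Reach (r : G →* M2) (n : ℕ) (M : M2) : Prop :=
  ∃ g Y, r g = M + π ^ n • Y

/-- The image contains an element `1 + p ^ n X` modulo `p ^ (n + 1)`. -/
abbrev Tangent (r : G →* M2) (n : ℕ) (X : M2) : Prop :=
  Reach r (n + 1) (1 + π ^ n • X)

theorem Tangent.add {n : ℕ} (hn : 1 ≤ n) {X₁ X₂ : M2} (h₁ : Tangent r n X₁)
    (h₂ : Tangent r n X₂) : Tangent r n (X₁ + X₂) := by
  obtain ⟨g₁, Y₁, e₁⟩ := h₁
  obtain ⟨g₂, Y₂, e₂⟩ := h₂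
  obtain ⟨j, rfl⟩ := Nat.exists_eq_add_of_le hn
  refine ⟨g₁ * g₂, Y₁ + Y₂ + π ^ j • ((X₁ + π • Y₁) * (X₂ + π • Y₂)), ?_⟩
  rw [map_mul, e₁, e₂]
  simp only [mul_add, add_mul, mul_one, one_mul, smul_mul_assoc, Algebra.mul_smul_comm, smul_smul,
    smul_add]
  ring_nf
  abel

theorem Tangent.congr {n : ℕ} {X : M2} (h : Tangent r n X) (Y : M2) :
    Tangent r n (X + π • Y) := by
  obtain ⟨g, Z, e⟩ := h
  refine ⟨g, Z - Y, ?_⟩
  rw [e, smul_sub, smul_add, smul_smul, ← pow_succ]
  abel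

/-- Every determinant-one class modulo `p` is reached with determinant one. -/
theorem exists_det_one (h5 : 5 ≤ p)
    (hbase : ∀ M : Matrix (Fin 2) (Fin 2) (ZMod p), M.det ≠ 0 →
      ∃ g, (r g).map PadicInt.toZMod = M)
    {M : Matrix (Fin 2) (Fin 2) (ZMod p)} (hM : M.det = 1) :
    ∃ g, (r g).det = 1 ∧ (r g).map PadicInt.toZMod = M := by
  let ρ : G →* Matrix (Fin 2) (Fin 2) (ZMod p) :=
    (PadicInt.toZMod (p := p)).mapMatrix.toMonoidHom.comp r
  let S : Submonoid (Matrix (Fin 2) (Fin 2) (ZMod p)) :=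
    (MonoidHom.ker ((Matrix.detMonoidHom.comp r).toHomUnits)).toSubmonoid.map ρ
  suffices h : M ∈ S by
    obtain ⟨g, hg, rfl⟩ := Submonoid.mem_map.mp h
    exact ⟨g, by simpa using congrArg Units.val (MonoidHom.mem_ker.mp hg), rfl⟩
  have h2 : (2 : ZMod p) ≠ 0 := fun e => by
    have : p ∣ 2 := (ZMod.natCast_eq_zero_iff 2 p).mp (by exact_mod_cast e)
    exact absurd (Nat.le_of_dvd two_pos this) (by omega)
  -- commutators with `diag(2, 1)`
  obtain ⟨d, hd⟩ := hbase !![2, 0; 0, 1] (by simpa [det_fin_two] using h2)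
  have hcomm : ∀ g : G, ρ (d * g * d⁻¹ * g⁻¹) ∈ S := fun g =>
    Submonoid.mem_map.mpr ⟨_, MonoidHom.mem_ker.mpr (by
      simp only [map_mul, map_inv, mul_inv_cancel_comm, mul_inv_cancel]), rfl⟩
  have hinv : ∀ (g : G) (A : Matrix (Fin 2) (Fin 2) (ZMod p)), ρ g * A = 1 → ρ g⁻¹ = A :=
    fun g A h => by
      calc ρ g⁻¹ = ρ g⁻¹ * (ρ g * A) := by rw [h, mul_one]
        _ = A := by rw [← mul_assoc, ← map_mul, inv_mul_cancel, map_one, one_mul]
  have hd' : ρ d = !![2, 0; 0, 1] := hd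
  have hdi : ρ d⁻¹ = !![2⁻¹, 0; 0, 1] := hinv _ _ (by
    rw [hd']; simp [h2, one_fin_two])
  refine FA.Ribet.mem_of_elementary_field S (fun z => ?_) (fun z => ?_) hM
  · obtain ⟨g, hg⟩ := hbase !![1, z; 0, 1] (by simp [det_fin_two])
    have hg' : ρ g = !![1, z; 0, 1] := hg
    have hgi : ρ g⁻¹ = !![1, -z; 0, 1] := hinv _ _ (by rw [hg']; simp [one_fin_two])
    have h := hcomm g
    rw [map_mul, map_mul, map_mul, hd', hdi, hg', hgi] at h
    convert h using 1
    ext i j; fin_cases i <;> fin_cases j <;> simp [Matrix.mul_apply, Fin.sum_univ_two, h2]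
    ring
  · obtain ⟨g, hg⟩ := hbase !![1, 0; -2 * z, 1] (by simp [det_fin_two])
    have hg' : ρ g = !![1, 0; -2 * z, 1] := hg
    have hgi : ρ g⁻¹ = !![1, 0; 2 * z, 1] := hinv _ _ (by rw [hg']; simp [one_fin_two])
    have h := hcomm g
    rw [map_mul, map_mul, map_mul, hd', hdi, hg', hgi] at h
    convert h using 1
    ext i j; fin_cases i <;> fin_cases j <;> simp [Matrix.mul_apply, Fin.sum_univ_two, h2]
    field_simp
    ring

variable (h5 : 5 ≤ p)
  (hbase : ∀ M : Matrix (Fin 2) (Fin 2) (ZMod p), M.det ≠ 0 → ∃ g, (r g).map PadicInt.toZMod = M)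
  (hdet : ∀ (n : ℕ) (u : ℤ_[p]), IsUnit u → ∃ (g : G) (y : ℤ_[p]),
    (r g).det = u + (p : ℤ_[p]) ^ n * y)

include h5 hbase

/-- Square-zero matrices are tangent vectors. -/
theorem tangent_of_sq_eq_zero {X : M2} (hX : X * X = 0) : Tangent r 1 X := by
  obtain ⟨g, hg⟩ := hbase ((1 + X).map PadicInt.toZMod) (by
    have hu : IsUnit (1 + X) :=
      ⟨⟨1 + X, 1 - X, by simp [mul_sub, add_mul, hX], by simp [sub_mul, mul_add, hX]⟩, rfl⟩
    have h := (isUnit_iff_toZMod.mp ((Matrix.isUnit_iff_isUnit_det _).mp hu))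
    rwa [RingHom.map_det, RingHom.mapMatrix_apply] at h)
  obtain ⟨Y, hY⟩ := exists_eq_add hg
  obtain ⟨Z, hZ⟩ := exists_pow_eq h5 (n := 0) (Or.inr hX) Y
  refine ⟨g ^ p, Z, ?_⟩
  rw [map_pow, hY]
  simpa using hZ

include hdet

/-- Every matrix is a tangent vector at level one. -/
theorem tangent_one (X : M2) : Tangent r 1 X := by
  -- an element congruent to one with a prescribed trace
  obtain ⟨Y, hY, htr⟩ : ∃ Y, Tangent r 1 Y ∧ ∃ y, X.trace = Y.trace + π * y := by
    obtain ⟨g, y, hg⟩ := hdet 2 (1 + π * X.trace) (isUnit_iff_toZMod.mpr (by simp))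
    obtain ⟨h, hh, hhg⟩ := exists_det_one h5 hbase (M := (r g).map PadicInt.toZMod) (by
      rw [← RingHom.mapMatrix_apply, ← RingHom.map_det, hg]
      simp)
    have hdh : (r h⁻¹).det = 1 := by
      have e : (r h⁻¹).det * (r h).det = 1 := by
        rw [← det_mul, ← map_mul, inv_mul_cancel, map_one, det_one]
      rwa [hh, mul_one] at e
    have hmap : (r (g * h⁻¹)).map PadicInt.toZMod = (1 : M2).map PadicInt.toZMod := by
      have e : (PadicInt.toZMod (p := p)).mapMatrix (r (g * h⁻¹)) = 1 := by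
        rw [map_mul r, map_mul, RingHom.mapMatrix_apply, RingHom.mapMatrix_apply, ← hhg,
          ← RingHom.mapMatrix_apply, ← RingHom.mapMatrix_apply, ← map_mul, ← map_mul,
          mul_inv_cancel, map_one, map_one]
      rw [← RingHom.mapMatrix_apply, ← RingHom.mapMatrix_apply, e, map_one]
    obtain ⟨Z, hZ⟩ := exists_eq_add hmap
    refine ⟨Z, ⟨g * h⁻¹, 0, by rw [hZ, smul_zero, add_zero, pow_one]⟩, Z.det - y, ?_⟩
    have e := congrArg Matrix.det hZ
    rw [map_mul, det_mul, hg, hdh, mul_one, det_fin_two] at e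
    simp at e
    refine mul_left_cancel₀ (NeZero.ne (π)) ?_
    rw [trace_fin_two Z, trace_fin_two X, det_fin_two]
    rw [trace_fin_two X] at e
    linear_combination e
  obtain ⟨y, hy⟩ := htr
  -- the trace zero part
  have hN := tangent_of_sq_eq_zero h5 hbase (X := !![0, (X - Y) 0 1 - (X - Y) 0 0 + π * y; 0, 0])
    (by ext i j; fin_cases i <;> fin_cases j <;> simp [Matrix.mul_apply, Fin.sum_univ_two])
  have hM := tangent_of_sq_eq_zero h5 hbase (X := !![0, 0; (X - Y) 1 0 + (X - Y) 0 0 - π * y, 0])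
    (by ext i j; fin_cases i <;> fin_cases j <;> simp [Matrix.mul_apply, Fin.sum_univ_two])
  have hT := tangent_of_sq_eq_zero h5 hbase
    (X := ((X - Y) 0 0 - π * y) • !![1, 1; -1, -1])
    (by ext i j; fin_cases i <;> fin_cases j <;> simp [Matrix.mul_apply, Fin.sum_univ_two] <;> ring)
  convert (((hY.add le_rfl hN).add le_rfl hM).add le_rfl hT).congr !![y, 0; 0, 0] using 1
  rw [trace_fin_two, trace_fin_two] at hy
  ext i j; fin_cases i <;> fin_cases j <;> simp
  all_goals first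
    | ring1
    | linear_combination hy

/-- Every matrix is a tangent vector at every positive level. -/
theorem tangent {n : ℕ} (hn : 1 ≤ n) (X : M2) : Tangent r n X := by
  induction n, hn using Nat.le_induction with
  | base => exact tangent_one h5 hbase hdet X
  | succ n hn ih =>
    obtain ⟨g, Y, hg⟩ := ih
    obtain ⟨Z, hZ⟩ := exists_pow_eq h5 (Or.inl hn) (n := n) (X := X) Y
    exact ⟨g ^ p, Z, by rw [map_pow, hg, hZ]⟩

/-- **Serre's lifting lemma.** -/
theorem reach_all (n : ℕ) {M : M2} (hM : IsUnit M.det) : Reach r n M := by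
  induction n with
  | zero => exact ⟨1, 1 - M, by rw [map_one, pow_zero, one_smul, add_sub_cancel]⟩
  | succ n ih =>
    obtain ⟨g, Y, hg⟩ := ih
    rcases Nat.eq_zero_or_pos n with rfl | hn
    · obtain ⟨g', hg'⟩ := hbase (M.map PadicInt.toZMod) (by
        have h := isUnit_iff_toZMod.mp hM
        rwa [RingHom.map_det, RingHom.mapMatrix_apply] at h)
      obtain ⟨Y', hY'⟩ := exists_eq_add hg'
      exact ⟨g', Y', by rw [hY', pow_one]⟩
    · obtain ⟨h, Z, hh⟩ := tangent h5 hbase hdet hn (-(M⁻¹ * Y))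
      obtain ⟨j, rfl⟩ := Nat.exists_eq_add_of_le hn
      refine ⟨g * h, M * Z + π ^ j • (Y * (-(M⁻¹ * Y) + π • Z)), ?_⟩
      rw [map_mul, hg, hh]
      simp only [mul_add, add_mul, mul_one, smul_mul_assoc, Algebra.mul_smul_comm, smul_smul,
        smul_add, mul_neg, smul_neg, mul_nonsing_inv_cancel_left M Y hM]
      ring_nf
      abel

end FA.PadicImage

end
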