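import Fermat.Agent.Root.PadicLieClassification
import Fermat.Agent.LocalIrreducible.Classification
import Fermat.Agent.AbelianGeometric.CyclotomicLocal

/-!
# The image of the decomposition group at potentially supersingular reduction

It is open in `GL₂(ℤ_p)`, or normalises a traceless matrix whose square is a nonsquare scalar and
has a commutative open subgroup: the formal group then has formal complex multiplication.
-/

set_option autoImplicit false
set_option linter.unusedSectionVars false
set_option linter.style.haveILetI false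

noncomputable section

open Matrix WeierstrassCurve FA.TateSen FA.CurveDR FA.RT.Tate FA.Frob FA.PotDR FA.LocIrr
open scoped WeierstrassCurve.Affine Classical

namespace FA.PadicImageDich

variable {p : ℕ} [hp : Fact p.Prime] {W : WeierstrassCurve ℤ} [(ratCurve W).IsElliptic]

local notation "G" => PadicAlgCl p ≃ₐ[ℚ_[p]] PadicAlgCl p
local notation "Mp" => Matrix (Fin 2) (Fin 2) ℤ_[p]
local notation "Mq" => Matrix (Fin 2) (Fin 2) ℚ_[p]
local notation "π" => (p : ℤ_[p])

/-- The representation of the decomposition group on the Tate module. -/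
def localRep (B : TateBasis p W) : (PadicAlgCl p ≃ₐ[ℚ_[p]] PadicAlgCl p) →*
    Matrix (Fin 2) (Fin 2) ℤ_[p] :=
  B.rep.comp (localGaloisToGlobal p)

theorem curveAtP_eq (B : TateBasis p W) (τ : G) :
    curveAtP B τ = (localRep B τ).map PadicInt.Coe.ringHom := rfl

theorem continuous_localRep (B : TateBasis p W) : Continuous (localRep B) :=
  (FA.PadicImage.continuous_rep B).comp FA.GalCoh.continuous_loc

theorem isClosed_range_localRep (B : TateBasis p W) : IsClosed (Set.range (localRep B)) :=
  (isCompact_range (continuous_localRep B)).isClosed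

/-- The decomposition group reaches every determinant. -/
theorem exists_det_localRep (B : TateBasis p W) (u : ℤ_[p]ˣ) :
    ∃ τ : G, (localRep B τ).det = u := by
  obtain ⟨τ, hτ⟩ := FA.AbelianGeometric.chi_surjective (p := p) u
  refine ⟨τ, Subtype.coe_injective ?_⟩
  show PadicInt.Coe.ringHom (localRep B τ).det = _
  rw [RingHom.map_det, RingHom.mapMatrix_apply, ← curveAtP_eq, det_curveAtP, hτ]

theorem isOpen_levelGroup (B : TateBasis p W) (n : ℕ) :
    IsOpen (FA.PadicLie.levelGroup (localRep B) n : Set G) := by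
  haveI : CompactSpace Mp := inferInstanceAs (CompactSpace (Fin 2 → Fin 2 → ℤ_[p]))
  refine Subgroup.isOpen_of_isClosed_of_finiteIndex _ ?_
  have e : (FA.PadicLie.levelGroup (localRep B) n : Set G) =
      localRep B ⁻¹' Set.range fun Z : Mp => 1 + π ^ n • Z := by
    ext g
    rw [SetLike.mem_coe, FA.PadicLie.mem_levelGroup, Set.mem_preimage, Set.mem_range]
    exact exists_congr fun Z => eq_comm
  rw [e]
  have hc : Continuous fun Z : Mp => 1 + π ^ n • Z := by fun_prop
  exact (isCompact_range hc).isClosed.preimage (continuous_localRep B)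

/-- Two vectors of `K²` with vanishing cross product: the second is a multiple of the first. -/
theorem exists_smul_eq {K : Type*} [Field K] {v w : Fin 2 → K} (hv : v ≠ 0)
    (h : v 0 * w 1 - v 1 * w 0 = 0) : ∃ a : K, w = a • v := by
  by_cases h0 : v 0 = 0
  · have h1 : v 1 ≠ 0 := fun h1 => hv (funext fun i => by fin_cases i <;> simp [h0, h1])
    rw [h0, zero_mul, zero_sub, neg_eq_zero, mul_eq_zero, or_iff_right h1] at h
    exact ⟨w 1 / v 1, funext fun i => by
      fin_cases i <;> simp [h, h0, div_mul_cancel₀ _ h1]⟩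
  · refine ⟨w 0 / v 0, funext fun i => ?_⟩
    fin_cases i
    · simp [div_mul_cancel₀ _ h0]
    · simp only [Fin.mk_one, Pi.smul_apply, smul_eq_mul]
      rw [eq_comm, div_mul_eq_mul_div, div_eq_iff h0]
      linear_combination -h

/-- No integral vector spans a line stable under the decomposition group. -/
theorem localRep_no_line (h : PotSupersingular p W) (B : TateBasis p W) (e : Fin 2 → ℤ_[p])
    (he : e ≠ 0) : ∃ τ : G, e 0 * (localRep B τ *ᵥ e) 1 - e 1 * (localRep B τ *ᵥ e) 0 ≠ 0 := by
  have hv : (fun i => (e i : ℚ_[p])) ≠ 0 := fun h0 =>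
    he (funext fun i => Subtype.coe_injective (congrFun h0 i))
  obtain ⟨τ, -, hτ⟩ := no_stable_line h B (U := ⊤) (by simp) hv
  refine ⟨τ, fun h0 => ?_⟩
  have hi : ∀ i, (curveAtP B τ *ᵥ fun k => (e k : ℚ_[p])) i =
      (((localRep B τ *ᵥ e) i : ℤ_[p]) : ℚ_[p]) := fun i =>
    (RingHom.map_mulVec PadicInt.Coe.ringHom (localRep B τ) e i).symm
  obtain ⟨a, ha⟩ := exists_smul_eq hv (w := curveAtP B τ *ᵥ fun k => (e k : ℚ_[p])) (by
    rw [hi, hi]
    simpa using congrArg (fun x : ℤ_[p] => (x : ℚ_[p])) h0)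
  exact hτ a ha

/-- Some element congruent to one modulo `p²` does not act as a scalar. -/
theorem exists_not_scalar (h : PotSupersingular p W) (B : TateBasis p W) :
    ∃ τ ∈ FA.PadicLie.levelGroup (localRep B) 2, FA.OpenImageAll.tl (localRep B τ) ≠ 0 := by
  have hv : (![1, 0] : Fin 2 → ℚ_[p]) ≠ 0 := fun h0 => by simpa using congrFun h0 0
  obtain ⟨τ, hτ, hne⟩ := no_stable_line h B (isOpen_levelGroup B 2) hv
  refine ⟨τ, hτ, fun h0 => hne ((localRep B τ 0 0 : ℤ_[p]) : ℚ_[p]) ?_⟩
  rw [curveAtP_eq, FA.OpenImageAll.eq_smul_one_of_tl_eq_zero h0]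
  ext i
  fin_cases i <;> simp [mulVec, dotProduct, Fin.sum_univ_two]

/-- A traceless matrix over `ℚ_p` with square a nonzero scalar which centralises an open subgroup
has no eigenvalue in `ℚ_p`. -/
theorem not_isSquare_of_commute_rat (h : PotSupersingular p W) (B : TateBasis p W)
    {U : Subgroup (PadicAlgCl p ≃ₐ[ℚ_[p]] PadicAlgCl p)} (hU : IsOpen (U : Set G)) {Z : Mq}
    (htr : Z.trace = 0) {δ : ℚ_[p]} (hδ : δ ≠ 0) (hZδ : Z * Z = δ • 1)
    (hc : ∀ τ ∈ U, curveAtP B τ * Z = Z * curveAtP B τ) : ¬ IsSquare δ := by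
  rintro ⟨d, rfl⟩
  have hd0 : d ≠ 0 := left_ne_zero_of_mul hδ
  have hZZ := hZδ
  obtain ⟨j, hj⟩ : ∃ j, (Z + d • 1) *ᵥ Pi.single j 1 ≠ 0 := by
    by_contra hall
    push Not at hall
    have h0 : Z + d • 1 = 0 :=
      Matrix.ext_of_mulVec_single fun i => by rw [hall i, zero_mulVec]
    have := congrArg Matrix.trace h0
    rw [trace_add, htr, trace_smul, trace_one, Fintype.card_fin, trace_zero, zero_add,
      smul_eq_mul] at this
    exact hd0 ((mul_eq_zero.1 this).resolve_right (by simp))
  obtain ⟨v, hv⟩ : ∃ v, (Z + d • 1) *ᵥ Pi.single j 1 = v := ⟨_, rfl⟩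
  rw [hv] at hj
  have hev : Z *ᵥ v = d • v := by
    rw [← hv, mulVec_mulVec, mul_add, hZZ, Algebra.mul_smul_comm, mul_one, ← smul_mulVec,
      smul_add, smul_smul, add_comm]
  obtain ⟨τ, hτ, hne⟩ := no_stable_line h B hU hj
  have hcq := hc τ hτ
  have hw : Z *ᵥ (curveAtP B τ *ᵥ v) = d • (curveAtP B τ *ᵥ v) := by
    rw [mulVec_mulVec, ← hcq, ← mulVec_mulVec, hev, mulVec_smul]
  generalize curveAtP B τ *ᵥ v = w at hne hw
  suffices hx : v 0 * w 1 - v 1 * w 0 = 0 by
    obtain ⟨a, ha⟩ := exists_smul_eq hj hx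
    exact hne a ha
  by_contra hx
  have hZd : Z = d • 1 := by
    have h0 : (Z - d • 1) * !![v 0, w 0; v 1, w 1] = 0 := by
      ext k l
      have a := congrFun hev k
      have b := congrFun hw k
      simp only [mulVec, dotProduct, Fin.sum_univ_two, Pi.smul_apply, smul_eq_mul] at a b
      fin_cases k <;> fin_cases l <;>
        simp [Matrix.mul_apply, Fin.sum_univ_two] <;> simp at a b <;>
        first | linear_combination a | linear_combination b
    have hP : IsUnit (!![v 0, w 0; v 1, w 1] : Mq).det := isUnit_iff_ne_zero.2 (by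
      rw [det_fin_two_of]; intro h2; exact hx (by linear_combination h2))
    exact sub_eq_zero.1 (((Matrix.isUnit_iff_isUnit_det _).2 hP).mul_left_eq_zero.1 h0)
  rw [hZd, trace_smul, trace_one, Fintype.card_fin, smul_eq_mul] at htr
  exact hd0 ((mul_eq_zero.1 htr).resolve_right (by simp))

/-- A traceless matrix centralising an open subgroup has no eigenvalue in `ℚ_p`. -/
theorem not_isSquare_of_commute (h : PotSupersingular p W) (B : TateBasis p W)
    {U : Subgroup (PadicAlgCl p ≃ₐ[ℚ_[p]] PadicAlgCl p)} (hU : IsOpen (U : Set G)) {Y : Mp}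
    (hY : Y.trace = 0) (hd : Y.det ≠ 0)
    (hc : ∀ τ ∈ U, localRep B τ * Y = Y * localRep B τ) :
    ¬ IsSquare (((-Y.det : ℤ_[p])) : ℚ_[p]) := by
  refine not_isSquare_of_commute_rat h B hU (Z := PadicInt.Coe.ringHom.mapMatrix Y) ?_
    (fun h0 => hd (neg_eq_zero.1 (Subtype.coe_injective h0))) ?_ fun τ hτ => ?_
  · rw [trace_fin_two, RingHom.mapMatrix_apply, Matrix.map_apply, Matrix.map_apply, ← map_add,
      ← trace_fin_two, hY, map_zero]
  · rw [← map_mul, FA.OpenImageAll.sq_eq_of_trace_eq_zero hY]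
    ext i j
    fin_cases i <;> fin_cases j <;> simp
  · rw [curveAtP_eq, ← RingHom.mapMatrix_apply, ← map_mul, hc τ hτ, map_mul]

/-- **Open image or formal complex multiplication**: at potentially supersingular reduction the
image of the decomposition group is open in `GL₂(ℤ_p)`, or the elements congruent to one modulo
`p²` commute and the whole of it normalises a traceless `Y` whose square is a nonsquare scalar. -/
theorem local_image_open_or_formalCM (h : PotSupersingular p W) (B : TateBasis p W) :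
    (∃ k : ℕ, ∀ Y : Mp, IsUnit (1 + π ^ k • Y).det →
      ∃ τ : G, localRep B τ = 1 + π ^ k • Y) ∨
    ((∀ σ ∈ FA.PadicLie.levelGroup (localRep B) 2, ∀ τ ∈ FA.PadicLie.levelGroup (localRep B) 2,
        localRep B σ * localRep B τ = localRep B τ * localRep B σ) ∧
      ∃ Y : Mp, Y.trace = 0 ∧ Y.det ≠ 0 ∧ ¬ IsSquare (((-Y.det : ℤ_[p])) : ℚ_[p]) ∧
        (∀ τ, localRep B τ * Y = Y * localRep B τ ∨
          localRep B τ * Y = -(Y * localRep B τ)) ∧
        ∀ τ ∈ FA.PadicLie.levelGroup (localRep B) 2, localRep B τ * Y = Y * localRep B τ) := by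
  rcases FA.PadicLie.commute_or_level (localRep B) (isClosed_range_localRep B)
    (localRep_no_line h B) with hab | ⟨j, hj⟩
  · obtain ⟨τ, hτ, hns⟩ := exists_not_scalar h B
    obtain ⟨Y, hY, hd, hsign, hc⟩ :=
      FA.PadicLie.exists_normalized_of_commute (localRep B) hab hτ hns (localRep_no_line h B)
    exact .inr ⟨hab, Y, hY, hd,
      not_isSquare_of_commute h B (isOpen_levelGroup B 2) hY hd hc, hsign, hc⟩
  · exact .inl (FA.PadicLie.exists_level_of_special (localRep B) (isClosed_range_localRep B)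
      (exists_det_localRep B) hj)

/-- **The image is open exactly when no open subgroup has commutative image.** -/
theorem local_image_open_iff (h : PotSupersingular p W) (B : TateBasis p W) :
    (∃ k : ℕ, ∀ Y : Mp, IsUnit (1 + π ^ k • Y).det → ∃ τ : G, localRep B τ = 1 + π ^ k • Y) ↔
      ∀ U : Subgroup (PadicAlgCl p ≃ₐ[ℚ_[p]] PadicAlgCl p), IsOpen (U : Set G) →
        ∃ σ ∈ U, ∃ τ ∈ U, localRep B σ * localRep B τ ≠ localRep B τ * localRep B σ := by
  constructor
  · rintro ⟨k, hk⟩ U hU
    haveI : Finite (G ⧸ U) := U.quotient_finite_of_isOpen hU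
    haveI : U.FiniteIndex := Subgroup.finiteIndex_of_finite_quotient
    exact FA.PadicLie.exists_not_commute (localRep B) hk U
  · intro hne
    refine (local_image_open_or_formalCM h B).resolve_right fun hcm => ?_
    obtain ⟨σ, hσ, τ, hτ, hστ⟩ := hne _ (isOpen_levelGroup B 2)
    exact hστ (hcm.1 σ hσ τ hτ)

/-- An open image of the decomposition group makes the image of Galois over `ℚ` open. -/
theorem global_of_local (B : TateBasis p W)
    (h : ∃ k : ℕ, ∀ Y : Mp, IsUnit (1 + π ^ k • Y).det → ∃ τ : G, localRep B τ = 1 + π ^ k • Y) :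
    ∃ k : ℕ, ∀ Y : Mp, IsUnit (1 + π ^ k • Y).det → ∃ σ, B.rep σ = 1 + π ^ k • Y :=
  h.imp fun _ hk Y hY => (hk Y hY).elim fun τ hτ => ⟨localGaloisToGlobal p τ, hτ⟩

end FA.PadicImageDich

end
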