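import Fermat.Agent.OpenImageAll.Criterion
import Fermat.Agent.Root.PadicImageOpen

/-!
# Closed subgroups of `GL₂(ℤ_p)`, complements to the criterion for an open image

A closed subgroup of `GL₂(ℤ_p)` has a stable line, or its elements congruent to one modulo `p²`
commute, or it contains the matrices congruent to one modulo a power of `p` with determinant one,
all of them if every determinant occurs. The approximation is
`FA.OpenImageAll.exists_level_of_triple` and the lines of traceless matrices are handled by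
`FA.OpenImageAll.dihedral_or_triple`; what is added is that the small cases have commuting elements
near one, for every prime including two.
-/

set_option autoImplicit false
set_option linter.unusedSectionVars false
set_option linter.style.haveILetI false

noncomputable section

open Filter Matrix FA.PadicImage
open FA.OpenImageAll (tl trace_tl tl_conj minors_eq eq_smul_one_of_tl_eq_zero Dihedral
  sq_eq_of_trace_eq_zero rep_inv_mul rep_mul_inv dihedral_of_commute dihedral_or_triple
  exists_level_of_triple)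
open scoped Topology

namespace FA.PadicLie

variable {p : ℕ} [hp : Fact p.Prime]

local notation "Mp" => Matrix (Fin 2) (Fin 2) ℤ_[p]
local notation "π" => (p : ℤ_[p])

theorem two_smul_eq (M : Mp) : (2 : ℤ_[p]) • M = tl M + M.trace • 1 :=
  (sub_add_cancel _ _).symm

/-- `p²` does not divide two. -/
theorem two_add_ne_zero (z : ℤ_[p]) : (2 : ℤ_[p]) + π ^ 2 * z ≠ 0 := fun h => by
  have h' := congrArg (PadicInt.toZModPow 2) h
  rw [map_add, map_mul, map_pow, map_natCast, map_zero, map_ofNat,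
    show ((p : ZMod (p ^ 2)) ^ 2 : ZMod (p ^ 2)) = 0 by rw [← Nat.cast_pow, ZMod.natCast_self],
    zero_mul, add_zero, show (2 : ZMod (p ^ 2)) = ((2 : ℕ) : ZMod (p ^ 2)) by norm_num,
    ZMod.natCast_eq_zero_iff] at h'
  have := Nat.le_of_dvd two_pos h'
  nlinarith [hp.out.two_le]

/-- The commutant of a nonzero traceless matrix is commutative. -/
theorem commute_of_commute {Y X X' : Mp} (hY : Y.trace = 0) (hY0 : Y ≠ 0)
    (h : X * Y = Y * X) (h' : X' * Y = Y * X') : X * X' = X' * X := by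
  obtain ⟨i, j, hij⟩ : ∃ i j, Y i j ≠ 0 := by
    by_contra hall
    push Not at hall
    exact hY0 (Matrix.ext hall)
  have key : ∀ V : Mp, V * Y = Y * V → Y i j • tl V = tl V i j • Y := fun V hV =>
    Matrix.ext fun k l => minors_eq hY (trace_tl V) (by
      simp only [tl, mul_sub, sub_mul, Algebra.mul_smul_comm, smul_mul_assoc, mul_one, one_mul,
        hV]) i j k l
  have hT : tl X * tl X' = tl X' * tl X :=
    smul_right_injective Mp (mul_ne_zero hij hij) (by
      show (Y i j * Y i j) • (tl X * tl X') = (Y i j * Y i j) • (tl X' * tl X)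
      rw [← smul_mul_smul_comm, ← smul_mul_smul_comm, key X h, key X' h', smul_mul_smul_comm,
        smul_mul_smul_comm, mul_comm (tl X i j)])
  refine smul_right_injective Mp (mul_ne_zero (two_ne_zero (α := ℤ_[p]))
    (two_ne_zero (α := ℤ_[p]))) ?_
  show (2 * 2 : ℤ_[p]) • (X * X') = (2 * 2 : ℤ_[p]) • (X' * X)
  rw [← smul_mul_smul_comm, ← smul_mul_smul_comm, two_smul_eq, two_smul_eq, add_mul, mul_add,
    mul_add, add_mul, mul_add, mul_add, hT]
  simp only [smul_mul_assoc, Algebra.mul_smul_comm, mul_one, one_mul, smul_smul]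
  rw [mul_comm X'.trace X.trace]
  abel

section Group

variable {G : Type*} [Group G] (r : G →* Matrix (Fin 2) (Fin 2) ℤ_[p])

/-- The image modulo `p ^ n`. -/
def redLevel (n : ℕ) : G →* Matrix (Fin 2) (Fin 2) (ZMod (p ^ n)) where
  toFun g := (r g).map (PadicInt.toZModPow n)
  map_one' := by rw [map_one, Matrix.map_one _ (map_zero _) (map_one _)]
  map_mul' g h := by rw [map_mul, Matrix.map_mul]

/-- The elements congruent to one modulo `p ^ n`. -/
def levelGroup (n : ℕ) : Subgroup G :=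
  (redLevel r n).toHomUnits.ker

instance levelGroup_normal (n : ℕ) : (levelGroup r n).Normal :=
  MonoidHom.normal_ker _

instance levelGroup_finiteIndex (n : ℕ) : (levelGroup r n).FiniteIndex := by
  haveI : NeZero (p ^ n) := ⟨pow_ne_zero _ hp.out.ne_zero⟩
  exact Subgroup.finiteIndex_ker _

theorem mem_levelGroup {n : ℕ} {g : G} : g ∈ levelGroup r n ↔ ∃ Z, r g = 1 + π ^ n • Z := by
  rw [levelGroup, MonoidHom.mem_ker, Units.ext_iff, MonoidHom.coe_toHomUnits, Units.val_one]
  constructor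
  · exact exists_eq_one_add_of_map
  · rintro ⟨Z, hZ⟩
    show (r g).map (PadicInt.toZModPow n) = 1
    have h0 : PadicInt.toZModPow n (π ^ n) = 0 := by
      rw [map_pow, map_natCast, ← Nat.cast_pow, ZMod.natCast_self]
    ext i j
    rw [hZ, Matrix.map_apply, Matrix.add_apply, Matrix.smul_apply,
      smul_eq_mul, map_add, map_mul, h0, zero_mul, add_zero, Matrix.one_apply, Matrix.one_apply,
      apply_ite (PadicInt.toZModPow n), map_one, map_zero]

/-- The elements of determinant one congruent to one modulo `p²`. -/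
def specialTwo : Subgroup G :=
  levelGroup r 2 ⊓ (Matrix.detMonoidHom.comp r).toHomUnits.ker

instance specialTwo_normal : (specialTwo r).Normal := by
  unfold specialTwo; infer_instance

theorem mem_specialTwo {g : G} : g ∈ specialTwo r ↔ g ∈ levelGroup r 2 ∧ (r g).det = 1 := by
  rw [specialTwo, Subgroup.mem_inf, MonoidHom.mem_ker, Units.ext_iff, MonoidHom.coe_toHomUnits,
    Units.val_one]
  rfl

theorem tl_conj_rep (g h : G) : tl (r (h * g * h⁻¹)) = r h * tl (r g) * r h⁻¹ := by
  rw [map_mul, map_mul, tl_conj (rep_inv_mul h) (rep_mul_inv h)]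

/-- The normaliser of a traceless line of nonzero determinant: the elements congruent to one modulo
`p²` centralise it, so they commute with each other. -/
theorem centralizes_of_normalizes {Y : Mp} (hd : Y.det ≠ 0) (hY : Y.trace = 0)
    (h : ∀ g, r g * Y = Y * r g ∨ r g * Y = -(Y * r g)) :
    (∀ g ∈ levelGroup r 2, r g * Y = Y * r g) ∧
      ∀ g ∈ levelGroup r 2, ∀ g' ∈ levelGroup r 2, r g * r g' = r g' * r g := by
  have hc : ∀ g ∈ levelGroup r 2, r g * Y = Y * r g := fun g hg =>
    (h g).resolve_right fun hneg => by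
      obtain ⟨Z, hZ⟩ := (mem_levelGroup r).1 hg
      have h1 := congrArg (fun M : Mp => (M * Y).trace) hneg
      simp only [neg_mul, trace_neg] at h1
      rw [mul_assoc, sq_eq_of_trace_eq_zero hY, trace_mul_cycle, sq_eq_of_trace_eq_zero hY,
        Algebra.mul_smul_comm, mul_one, smul_mul_assoc, one_mul, trace_smul, smul_eq_mul] at h1
      have h2 : (r g).trace = 0 :=
        (mul_eq_zero.1 (show (-Y.det * 2) * (r g).trace = 0 by
          linear_combination h1)).resolve_left (mul_ne_zero (neg_ne_zero.2 hd) two_ne_zero)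
      rw [hZ, trace_add, trace_smul, trace_one, Fintype.card_fin, smul_eq_mul] at h2
      exact two_add_ne_zero Z.trace (by exact_mod_cast h2)
  exact ⟨hc, fun g hg g' hg' => commute_of_commute hY (fun h0 => hd (by rw [h0, det_zero]))
    (hc g hg) (hc g' hg')⟩

/-- A scalar of determinant one congruent to one modulo `p²` is one. -/
theorem eq_one_of_tl_eq_zero {x : G} (hx : x ∈ specialTwo r) (h0 : tl (r x) = 0) : r x = 1 := by
  obtain ⟨hx2, hdet⟩ := (mem_specialTwo r).1 hx
  obtain ⟨Z, hZ⟩ := (mem_levelGroup r).1 hx2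
  have hs := eq_smul_one_of_tl_eq_zero h0
  rw [hs, det_smul, det_one, mul_one, Fintype.card_fin] at hdet
  rcases sq_eq_one_iff.1 hdet with h1 | h1
  · rw [hs, h1, one_smul]
  · rw [hZ, Matrix.add_apply, Matrix.smul_apply, Matrix.one_apply_eq, smul_eq_mul] at h1
    exact absurd (show (2 : ℤ_[p]) + π ^ 2 * Z 0 0 = 0 by linear_combination h1)
      (two_add_ne_zero _)

/-- **Without a stable line**: commuting elements congruent to one modulo `p²`, or all matrices of
determinant one congruent to one modulo a power of `p`. -/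
theorem commute_or_level (hcl : IsClosed (Set.range r))
    (hline : ∀ e : Fin 2 → ℤ_[p], e ≠ 0 →
      ∃ g, e 0 * (r g *ᵥ e) 1 - e 1 * (r g *ᵥ e) 0 ≠ 0) :
    (∀ g ∈ levelGroup r 2, ∀ h ∈ levelGroup r 2, r g * r h = r h * r g) ∨
      ∃ k : ℕ, ∀ Y : Mp, (1 + π ^ k • Y).det = 1 → ∃ h, r h = 1 + π ^ k • Y := by
  by_cases h0 : ∀ g ∈ specialTwo r, tl (r g) = 0
  · refine .inl fun g hg h hh => ?_
    have hone : ∀ x ∈ specialTwo r, r x = 1 := fun x hx =>
      eq_one_of_tl_eq_zero r hx (h0 x hx)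
    have hx : g * h * g⁻¹ * h⁻¹ ∈ specialTwo r := by
      refine (mem_specialTwo r).2
        ⟨mul_mem (mul_mem (mul_mem hg hh) (inv_mem hg)) (inv_mem hh), ?_⟩
      rw [map_mul, map_mul, map_mul, det_mul, det_mul, det_mul,
        show (r g).det * (r h).det * (r g⁻¹).det * (r h⁻¹).det =
          (r g).det * (r g⁻¹).det * ((r h).det * (r h⁻¹).det) by ring,
        ← det_mul, ← det_mul, rep_mul_inv, rep_mul_inv, det_one, one_mul]
    calc r g * r h = r (g * h * g⁻¹ * h⁻¹) * (r h * r g) := by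
          rw [← map_mul, ← map_mul, ← map_mul]; congr 1; group
      _ = r h * r g := by rw [hone _ hx, one_mul]
  push Not at h0
  obtain ⟨g₀, hg₀, hne₀⟩ := h0
  have hN : (specialTwo r).Normal := inferInstance
  rcases dihedral_or_triple hline (T := (fun g => tl (r g)) '' specialTwo r)
    (by rintro t ⟨g, -, rfl⟩; exact trace_tl _)
    (by rintro g t ⟨a, ha, rfl⟩; exact ⟨_, hN.conj_mem a ha g, tl_conj_rep r a g⟩)
    ⟨_, ⟨g₀, hg₀, rfl⟩, hne₀⟩ with ⟨X, hX, htr, hnorm⟩ |
      ⟨_, ⟨a, ha, rfl⟩, _, ⟨b, hb, rfl⟩, _, ⟨c, hc, rfl⟩, hne⟩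
  · exact .inl (centralizes_of_normalizes r hX htr hnorm).2
  · obtain ⟨ha, hda⟩ := (mem_specialTwo r).1 ha
    obtain ⟨hb, hdb⟩ := (mem_specialTwo r).1 hb
    obtain ⟨hc, hdc⟩ := (mem_specialTwo r).1 hc
    obtain ⟨_, ea⟩ := (mem_levelGroup r).1 ha
    obtain ⟨_, eb⟩ := (mem_levelGroup r).1 hb
    obtain ⟨_, ec⟩ := (mem_levelGroup r).1 hc
    exact .inr (exists_level_of_triple r hcl ea eb ec hda hdb hdc hne)

/-- **Commuting elements near one, one of them not scalar, and no stable line** put the group in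
the normaliser of a traceless matrix of nonzero determinant, those elements in its centraliser. -/
theorem exists_normalized_of_commute
    (hab : ∀ g ∈ levelGroup r 2, ∀ h ∈ levelGroup r 2, r g * r h = r h * r g) {g : G}
    (hg : g ∈ levelGroup r 2) (hns : tl (r g) ≠ 0)
    (hline : ∀ e : Fin 2 → ℤ_[p], e ≠ 0 →
      ∃ g, e 0 * (r g *ᵥ e) 1 - e 1 * (r g *ᵥ e) 0 ≠ 0) :
    ∃ Y : Mp, Y.trace = 0 ∧ Y.det ≠ 0 ∧
      (∀ g, r g * Y = Y * r g ∨ r g * Y = -(Y * r g)) ∧
        ∀ g ∈ levelGroup r 2, r g * Y = Y * r g := by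
  obtain ⟨X, hX, htr, h⟩ : Dihedral r :=
    dihedral_of_commute hline hns (trace_tl _) fun h => by
      rw [← tl_conj_rep]
      have hc := hab g hg _ ((levelGroup_normal r 2).conj_mem g hg h)
      simp only [tl, mul_sub, sub_mul, Algebra.mul_smul_comm, smul_mul_assoc, mul_one, one_mul,
        smul_sub, smul_smul, hc, mul_comm]
      abel
  exact ⟨X, htr, hX, h, (centralizes_of_normalizes r hX htr h).1⟩

/-- The matrices congruent to one modulo `p ^ n` in a closed image form a compact set. -/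
theorem isCompact_image_levelGroup (hcl : IsClosed (Set.range r)) (n : ℕ) :
    IsCompact (r '' levelGroup r n) := by
  haveI : CompactSpace Mp := inferInstanceAs (CompactSpace (Fin 2 → Fin 2 → ℤ_[p]))
  have e : r '' levelGroup r n = Set.range r ∩ Set.range fun Z : Mp => 1 + π ^ n • Z := by
    ext M
    constructor
    · rintro ⟨g, hg, rfl⟩
      obtain ⟨Z, hZ⟩ := (mem_levelGroup r).1 hg
      exact ⟨⟨g, rfl⟩, Z, hZ.symm⟩
    · rintro ⟨⟨g, rfl⟩, Z, hZ⟩
      exact ⟨g, (mem_levelGroup r).2 ⟨Z, hZ.symm⟩, rfl⟩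
  rw [e]
  have hc : Continuous fun Z : Mp => 1 + π ^ n • Z := by fun_prop
  exact (isCompact_range hc).inter_left hcl

/-- With every determinant, the elements of each level have an open set of determinants. -/
theorem exists_level_det (hcl : IsClosed (Set.range r))
    (hdet : ∀ u : ℤ_[p]ˣ, ∃ g, (r g).det = u) (j : ℕ) :
    ∃ k : ℕ, ∀ x : ℤ_[p], π ^ k ∣ x - 1 → ∃ g ∈ levelGroup r j, (r g).det = x := by
  obtain ⟨χ, hχ⟩ : ∃ χ : G →* ℤ_[p]ˣ, ∀ g, (χ g : ℤ_[p]) = (r g).det :=
    ⟨(Matrix.detMonoidHom.comp r).toHomUnits, fun g => rfl⟩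
  have hsurj : Function.Surjective χ := fun u => by
    obtain ⟨g, hg⟩ := hdet u
    exact ⟨g, Units.ext ((hχ g).trans hg)⟩
  haveI : ((levelGroup r j).map χ).FiniteIndex := ⟨ne_zero_of_dvd_ne_zero
    (Subgroup.FiniteIndex.index_ne_zero (H := levelGroup r j)) (Subgroup.index_map_dvd _ hsurj)⟩
  have hclosed : IsClosed ((levelGroup r j).map χ : Set ℤ_[p]ˣ) := by
    have e : ((levelGroup r j).map χ : Set ℤ_[p]ˣ) =
        Units.val ⁻¹' (Matrix.det '' (r '' levelGroup r j)) := by
      ext u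
      simp only [Subgroup.coe_map, Set.mem_image, SetLike.mem_coe, Set.mem_preimage,
        exists_exists_and_eq_and, ← hχ, Units.val_inj]
    rw [e]
    exact ((isCompact_image_levelGroup r hcl j).image
      continuous_id.matrix_det).isClosed.preimage Units.continuous_val
  obtain ⟨ε, hε, hball⟩ := Metric.isOpen_iff.mp (Units.isOpenEmbedding_val.isOpenMap _
    (Subgroup.isOpen_of_isClosed_of_finiteIndex _ hclosed)) 1 ⟨1, one_mem _, rfl⟩
  obtain ⟨k, hk⟩ := PadicInt.exists_pow_neg_lt p hε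
  refine ⟨k, fun x hx => ?_⟩
  obtain ⟨u, ⟨g, hg, rfl⟩, hu⟩ := hball (show x ∈ Metric.ball 1 ε by
    rw [Metric.mem_ball]
    refine lt_of_le_of_lt ?_ hk
    rwa [dist_eq_norm, PadicInt.norm_le_pow_iff_mem_span_pow, Ideal.mem_span_singleton])
  exact ⟨g, hg, (hχ g).symm.trans hu⟩

/-- **Every determinant and `SL₂` near one give everything near one.** -/
theorem exists_level_of_special (hcl : IsClosed (Set.range r))
    (hdet : ∀ u : ℤ_[p]ˣ, ∃ g, (r g).det = u) {j : ℕ}
    (hj : ∀ Y : Mp, (1 + π ^ j • Y).det = 1 → ∃ h, r h = 1 + π ^ j • Y) :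
    ∃ k : ℕ, ∀ Y : Mp, IsUnit (1 + π ^ k • Y).det → ∃ h, r h = 1 + π ^ k • Y := by
  obtain ⟨k, hk⟩ := exists_level_det r hcl hdet j
  refine ⟨j + k, fun Y hY => ?_⟩
  obtain ⟨g, hg, hu⟩ := hk (1 + π ^ (j + k) • Y).det
    ⟨π ^ j * (Y 0 0 + Y 1 1) + π ^ (2 * j + k) * (Y 0 0 * Y 1 1 - Y 0 1 * Y 1 0), by
      simp [det_fin_two]; ring⟩
  obtain ⟨Z, hZ⟩ := (mem_levelGroup r).1 hg
  have hrew : r g⁻¹ * (1 + π ^ (j + k) • Y) = 1 + π ^ j • (r g⁻¹ * (π ^ k • Y - Z)) := by
    have e : 1 + π ^ (j + k) • Y = r g + π ^ j • (π ^ k • Y - Z) := by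
      rw [hZ, smul_sub, smul_smul, ← pow_add]; abel
    rw [e, mul_add, rep_inv_mul (r := r), Algebra.mul_smul_comm]
  obtain ⟨h, hh⟩ := hj (r g⁻¹ * (π ^ k • Y - Z)) (by
    rw [← hrew, det_mul, ← hu, ← det_mul, rep_inv_mul, det_one])
  exact ⟨g * h, by rw [map_mul, hh, ← hrew, ← mul_assoc, rep_mul_inv, one_mul]⟩

/-- **Closed subgroups of `GL₂(ℤ_p)` with every determinant**: a stable line, or commuting elements
congruent to one modulo `p²`, or an open subgroup. -/
theorem classification_of_det (hcl : IsClosed (Set.range r))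
    (hdet : ∀ u : ℤ_[p]ˣ, ∃ g, (r g).det = u) :
    (∃ e : Fin 2 → ℤ_[p], e ≠ 0 ∧ ∀ g, e 0 * (r g *ᵥ e) 1 - e 1 * (r g *ᵥ e) 0 = 0) ∨
      (∀ g ∈ levelGroup r 2, ∀ h ∈ levelGroup r 2, r g * r h = r h * r g) ∨
        ∃ k : ℕ, ∀ Y : Mp, IsUnit (1 + π ^ k • Y).det → ∃ h, r h = 1 + π ^ k • Y :=
  or_iff_not_imp_left.2 fun hline => by
    push Not at hline
    exact (commute_or_level r hcl hline).imp_right fun ⟨_, hj⟩ =>
      exists_level_of_special r hcl hdet hj

/-- An open image has no commutative subgroup of finite index. -/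
theorem exists_not_commute {k : ℕ}
    (hk : ∀ Y : Mp, IsUnit (1 + π ^ k • Y).det → ∃ h, r h = 1 + π ^ k • Y)
    (U : Subgroup G) [U.FiniteIndex] : ∃ g ∈ U, ∃ h ∈ U, r g * r h ≠ r h * r g := by
  have hel : ∀ N : Mp, N * N = 0 → IsUnit (1 + π ^ k • N).det →
      ∃ (n : ℕ) (g : G), 0 < n ∧ g ∈ U ∧ r g = 1 + ((n : ℤ_[p]) * π ^ k) • N := fun N hN hu => by
    obtain ⟨g, hg⟩ := hk N hu
    obtain ⟨n, hn, -, hmem⟩ :=
      Subgroup.exists_pow_mem_of_index_ne_zero (Subgroup.FiniteIndex.index_ne_zero (H := U)) g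
    obtain ⟨V, hV⟩ := exists_one_add_pow_two (π ^ k • N) n
    refine ⟨n, g ^ n, hn, hmem, ?_⟩
    rw [map_pow, hg, hV, smul_mul_smul_comm, hN, smul_zero, zero_mul, add_zero, smul_smul]
  obtain ⟨n, g, hn, hg, hrg⟩ := hel !![0, 1; 0, 0]
    (by ext i j; fin_cases i <;> fin_cases j <;> simp) (by simp [det_fin_two])
  obtain ⟨m, h, hm, hh, hrh⟩ := hel !![0, 0; 1, 0]
    (by ext i j; fin_cases i <;> fin_cases j <;> simp) (by simp [det_fin_two])
  refine ⟨g, hg, h, hh, fun hc => ?_⟩
  rw [hrg, hrh] at hc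
  have h00 := congrFun (congrFun hc 0) 0
  simp [Matrix.mul_apply, Fin.sum_univ_two, hn.ne', hm.ne', hp.out.ne_zero] at h00

end Group

end FA.PadicLie

end
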