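import Fermat.Agent.Root.Removal

/-!
# The residual system of a removal

At the primes outside a removal the residual representation is unramified, with the traces of the
residual system and the determinant of the cyclotomic character; the primes of every level are
among those of the removal.
-/

set_option autoImplicit false
set_option linter.style.haveILetI false
set_option linter.unusedSectionVars false

noncomputable section

open IsLocalRing Matrix WeierstrassCurve FA.RT FA.Deform FA.TW FA.Frob FA.HeckeH1 FA.JTorsion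

namespace FA.Root

local notation "M2" => Matrix (Fin 2) (Fin 2)
local notation "Qb" => AlgebraicClosure ℚ
local notation "GQ" => AlgebraicClosure ℚ ≃ₐ[ℚ] AlgebraicClosure ℚ

variable {p : ℕ} [Fact p.Prime] (W : WeierstrassCurve ℤ) [(FA.Frob.ratCurve W).IsElliptic]
  {O : Type} [CommRing O] [IsDomain O] [IsDiscreteValuationRing O]
  [IsAdicComplete (maximalIdeal O) O] [CharZero O] [Finite (ResidueField O)]
  (hp2 : p ≠ 2) (hpO : (p : O) ∈ maximalIdeal O) (ι : ℤ_[p] →+* O)
  (j : ZMod p →+* ResidueField O) (P : Places) (hΔ : W.Δ ≠ 0) (hW : W.IsSemistableModel)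
  (hfl : (p : ℤ) ∣ W.Δ → p ∣ padicValInt p W.Δ) (N : ℕ)
  {q : ℕ} (hq : q.Prime) (hqp : q ≠ p) (hqN : q ∣ N) (hN : Squarefree N) (hpN : ¬ p ∣ N)

local notation "SS" => remSetup W hp2 hpO ι j P hΔ hW hfl N
local notation "LL" => remLevels W hp2 hpO ι j P hΔ hW hfl N hq hqp hqN hN hpN

theorem remSetup_p : (SS).p = p := rfl

theorem remSetup_T : (SS).T = insert p (remSig W N p) := rfl

/-- The traces at Frobenius outside the removal are those of the residual system. -/
theorem trace_remRb (ℓ : Nat.Primes) (hℓ : (ℓ : ℕ) ∉ (SS).T) {A : ValuationSubring Qb}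
    (hA : A.LiesOverPrime ℓ) {σ : GQ} (hσ : A.IsFrobeniusAt σ ℓ) :
    ((SS).rb σ).trace = remSys W ℓ := by
  have hlp : (ℓ : ℕ) ≠ p := fun e => hℓ (Finset.mem_insert.2 (Or.inl e))
  have hg : W.IsGoodPrimeFor ℓ := fun hd =>
    hℓ (Finset.mem_insert_of_mem (mem_remSig_of_bad hΔ ℓ.2 hlp hd))
  show ((j.mapMatrix (curveRep p W σ))).trace = _
  rw [RingHom.mapMatrix_apply, ← AddMonoidHom.map_trace j,
    trace_curveRep W ℓ.2 hg (Ne.symm hlp) hA hσ, map_intCast]
  rfl

/-- The primes of the levels are those of the removal. -/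
theorem mem_T_of_dvd_remLevels {U : Finset Unit} {r : ℕ} (hr : r.Prime) (h : r ∣ (LL).lvl U) :
    r ∈ (SS).T := by
  rcases (LL).prime_dvd_lvl hr h with h | ⟨x, -, e⟩
  · exact (LL).mem_bad r hr h
  · exact e ▸ (LL).qn_bad x

include hpN in
/-- The levels are prime to `p`. -/
theorem p_not_dvd_remLevels (U : Finset Unit) : ¬ p ∣ (LL).lvl U := fun h => by
  rcases (LL).prime_dvd_lvl Fact.out h with h | ⟨x, -, e⟩
  · exact hpN (h.trans (Nat.div_dvd_of_dvd hqN))
  · exact hqp e.symm

end FA.Root

end
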