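import Fermat.Agent.Root.LiftOddBad
import Fermat.Agent.Root.RemovalResidual
import Fermat.Agent.JTorsion.Cyclo

/-!
# The residual system of a pair

The determinant of the residual representation of a curve is the cyclotomic character. At the primes
outside a pair its traces are those of the residual system; the levels of the pair are squarefree,
their primes are among those of the pair, and `p` divides them exactly in the case of bad reduction.
The determinant and squarefreeness are also recorded for a removal.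
-/

set_option autoImplicit false
set_option linter.style.haveILetI false
set_option linter.unusedSectionVars false

noncomputable section

open IsLocalRing Matrix WeierstrassCurve FA.RT FA.Deform FA.TW FA.Frob FA.HeckeH1
open FA.JTorsion (cycP cycP_frobenius cycP_toZModPow)

namespace FA.Root

local notation "M2" => Matrix (Fin 2) (Fin 2)
local notation "Qb" => AlgebraicClosure ℚ
local notation "GQ" => AlgebraicClosure ℚ ≃ₐ[ℚ] AlgebraicClosure ℚ

/-- A product of distinct primes is squarefree. -/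
theorem squarefree_prod_primes {α : Type} (s : Finset α) (f : α → ℕ) (hf : ∀ a ∈ s, (f a).Prime)
    (hinj : ∀ a ∈ s, ∀ b ∈ s, f a = f b → a = b) : Squarefree (∏ a ∈ s, f a) := by
  classical
  induction s using Finset.induction with
  | empty => simp
  | insert a t ha ih =>
    have hpa := hf a (Finset.mem_insert_self _ _)
    rw [Finset.prod_insert ha]
    have hc : (f a).Coprime (∏ b ∈ t, f b) := by
      refine Nat.Coprime.prod_right fun b hb => ?_
      refine (Nat.coprime_primes hpa (hf b (Finset.mem_insert_of_mem hb))).2 fun e => ?_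
      exact ha (hinj a (Finset.mem_insert_self _ _) b (Finset.mem_insert_of_mem hb) e ▸ hb)
    refine (Nat.squarefree_mul hc).2 ⟨hpa.squarefree, ih ?_ ?_⟩
    · exact fun b hb => hf b (Finset.mem_insert_of_mem hb)
    · exact fun b hb c hc => hinj b (Finset.mem_insert_of_mem hb) c (Finset.mem_insert_of_mem hc)

/-- The levels over a squarefree level are squarefree. -/
theorem squarefree_levelSet {X : Type} [DecidableEq X] {qn : X → ℕ} {bad : Finset ℕ}
    (L : LevelSet qn bad) (h : Squarefree L.L0) (U : Finset X) : Squarefree (L.lvl U) := by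
  refine (Nat.squarefree_mul ?_).2
    ⟨h, squarefree_prod_primes U qn (fun x _ => L.prime x) fun _ _ _ _ e => L.inj e⟩
  exact Nat.Coprime.prod_right fun x _ =>
    ((L.prime x).coprime_iff_not_dvd.2 (L.not_dvd x)).symm

variable {p : ℕ} [Fact p.Prime] (W W' : WeierstrassCurve ℤ)
  [(FA.Frob.ratCurve W).IsElliptic] [(FA.Frob.ratCurve W').IsElliptic]
  {O : Type} [CommRing O] [IsDomain O] [IsDiscreteValuationRing O]
  [IsAdicComplete (maximalIdeal O) O] [Finite (ResidueField O)] [CharZero O]
  (hp2 : p ≠ 2) (hpO : (p : O) ∈ maximalIdeal O) (ι : ℤ_[p] →+* O)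
  (j : ZMod p →+* ResidueField O) (P : Places) (hΔ : W.Δ ≠ 0) (hΔ' : W'.Δ ≠ 0)
  (hW : W.IsSemistableModel) {r : ℕ} (haux : LiftAux p W W' r)

omit [IsAdicComplete (maximalIdeal O) O] [Finite (ResidueField O)] [CharZero O]
  [(FA.Frob.ratCurve W').IsElliptic] in
include hpO in
/-- The determinant of the residual representation is the cyclotomic character. -/
theorem det_curveRep_cycP (σ : GQ) :
    (mapRep j (curveRep p W) σ).det = residue O (ι ((cycP p σ : ℤ_[p]ˣ) : ℤ_[p])) := by
  set u : ℤ_[p] := ((cycP p σ : ℤ_[p]ˣ) : ℤ_[p])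
  have h : u - ((PadicInt.toZModPow 1 u).val : ℤ_[p]) ∈ Ideal.span {(p : ℤ_[p]) ^ 1} := by
    haveI : NeZero (p ^ 1) := ⟨pow_ne_zero _ (Fact.out : p.Prime).ne_zero⟩
    rw [← PadicInt.ker_toZModPow, RingHom.mem_ker, map_sub, map_natCast, ZMod.natCast_zmod_val,
      sub_self]
  obtain ⟨c, hc⟩ := Ideal.mem_span_singleton'.1 h
  rw [eq_sub_iff_add_eq, pow_one (p : ℤ_[p])] at hc
  rw [det_mapRep_curveRep W j σ (PadicInt.toZModPow 1 u).val fun μ hμ => ?_]
  · conv_rhs => rw [← hc]
    rw [map_add, map_add, map_mul, map_mul, map_natCast ι p,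
      (residue_eq_zero_iff _).2 hpO, mul_zero, zero_add, map_natCast, map_natCast]
  · exact cyclotomicCharacter.spec p (n := 1) (σ : Qb ≃+* Qb) μ (by rwa [pow_one])

section removal

variable (hfl : (p : ℤ) ∣ W.Δ → p ∣ padicValInt p W.Δ) (N : ℕ) {q : ℕ} (hq : q.Prime) (hqp : q ≠ p)
  (hqN : q ∣ N) (hN : Squarefree N) (hpN : ¬ p ∣ N)

/-- The determinant of the residual representation of a removal. -/
theorem det_remRb (σ : GQ) :
    ((remSetup W hp2 hpO ι j P hΔ hW hfl N).rb σ).det =
      residue O (ι ((cycP p σ : ℤ_[p]ˣ) : ℤ_[p])) :=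
  det_curveRep_cycP W hpO ι j σ

/-- The levels of a removal are squarefree. -/
theorem squarefree_remLevels (U : Finset Unit) :
    Squarefree ((remLevels W hp2 hpO ι j P hΔ hW hfl N hq hqp hqN hN hpN).lvl U) :=
  squarefree_levelSet _ (hN.squarefree_of_dvd (Nat.div_dvd_of_dvd hqN)) U

end removal

local notation "SS" => pairSetup W W' hp2 hpO ι j P hΔ hW haux
local notation "LL" => pairLevels W W' hp2 hpO ι j P hΔ hW haux

theorem pairSetup_p : (SS).p = p := rfl

theorem pairSetup_T : (SS).T = insert p (sigSet p W W' r) := rfl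

/-- The determinant of the residual representation of the pair. -/
theorem det_pairRb (σ : GQ) :
    ((SS).rb σ).det = residue O (ι ((cycP p σ : ℤ_[p]ˣ) : ℤ_[p])) :=
  det_curveRep_cycP W hpO ι j σ

include hΔ' in
/-- The traces at Frobenius outside the pair are those of the residual system. -/
theorem trace_pairRb (ℓ : Nat.Primes) (hℓ : (ℓ : ℕ) ∉ (SS).T) {A : ValuationSubring Qb}
    (hA : A.LiesOverPrime ℓ) {σ : GQ} (hσ : A.IsFrobeniusAt σ ℓ) :
    ((SS).rb σ).trace = sysVal W j ℓ := by
  obtain ⟨hlp, hg, -⟩ := good_of_notMem (p := p) W W' hΔ hΔ' ℓ.2 hℓ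
  show ((j.mapMatrix (curveRep p W σ))).trace = _
  rw [RingHom.mapMatrix_apply, ← AddMonoidHom.map_trace j,
    trace_curveRep W ℓ.2 hg (Ne.symm hlp) hA hσ]
  rfl

include hΔ' in
/-- The determinant at Frobenius outside the pair. -/
theorem det_pairRb_frob (ℓ : Nat.Primes) (hℓ : (ℓ : ℕ) ∉ (SS).T) {A : ValuationSubring Qb}
    (hA : A.LiesOverPrime ℓ) {σ : GQ} (hσ : A.IsFrobeniusAt σ ℓ) :
    ((SS).rb σ).det = ((ℓ : ℕ) : ResidueField O) := by
  obtain ⟨hlp, -, -⟩ := good_of_notMem (p := p) W W' hΔ hΔ' ℓ.2 hℓ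
  rw [det_pairRb W W' hp2 hpO ι j P hΔ hW haux σ, cycP_frobenius p ℓ.2 hlp hA hσ, map_natCast,
    map_natCast]

/-- The primes of the levels are those of the pair. -/
theorem mem_T_of_dvd_pairLevels {U : Finset (Rem SS r)} {q : ℕ} (hq : q.Prime)
    (h : q ∣ (LL).lvl U) : q ∈ (SS).T := by
  rcases (LL).prime_dvd_lvl hq h with h | ⟨x, -, e⟩
  · exact (LL).mem_bad q hq h
  · exact e ▸ (LL).qn_bad x

theorem p_not_dvd_fix : ¬ p ∣ ∏ q ∈ fixSet SS r, q := fun h => by
  obtain ⟨q, hq, hdvd⟩ := (Nat.Prime.prime (Fact.out : p.Prime)).exists_mem_finset_dvd h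
  obtain ⟨hqS, -⟩ := (mem_fixSet SS r).mp hq
  exact ((SS).prime_Sig q hqS).2
    ((Nat.prime_dvd_prime_iff_eq Fact.out ((SS).prime_Sig q hqS).1).1 hdvd).symm

theorem squarefree_fix : Squarefree (∏ q ∈ fixSet SS r, q) :=
  squarefree_prod_primes _ (fun q => q) (fun q hq => by
    obtain ⟨hqS, -⟩ := (mem_fixSet SS r).mp hq
    exact ((SS).prime_Sig q hqS).1) fun _ _ _ _ e => e

/-- The levels of the pair are squarefree. -/
theorem squarefree_pairLevels (U : Finset (Rem SS r)) : Squarefree ((LL).lvl U) := by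
  refine squarefree_levelSet LL ?_ U
  show Squarefree ((∏ q ∈ fixSet SS r, q) * (if (p : ℤ) ∣ W.Δ then p else 1))
  refine (Nat.squarefree_mul ?_).2 ⟨squarefree_fix W W' hp2 hpO ι j P hΔ hW haux, ?_⟩
  · split
    · exact ((Fact.out : p.Prime).coprime_iff_not_dvd.2
        (p_not_dvd_fix W W' hp2 hpO ι j P hΔ hW haux)).symm
    · exact Nat.coprime_one_right _
  · split
    · exact (Fact.out : p.Prime).squarefree
    · exact squarefree_one

/-- `p` divides the levels of the pair exactly in the case of bad reduction at `p`. -/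
theorem p_dvd_pairLevels_iff (U : Finset (Rem SS r)) : p ∣ (LL).lvl U ↔ (p : ℤ) ∣ W.Δ := by
  have hp : p.Prime := Fact.out
  constructor
  · intro h
    by_contra hb
    rcases (LL).prime_dvd_lvl hp h with h | ⟨x, -, e⟩
    · change p ∣ (∏ q ∈ fixSet SS r, q) * (if (p : ℤ) ∣ W.Δ then p else 1) at h
      rw [if_neg hb, mul_one] at h
      exact p_not_dvd_fix W W' hp2 hpO ι j P hΔ hW haux h
    · exact ((SS).prime_Sig _ x.1.2).2 e.symm
  · intro hb
    rw [pairLevels_lvl W W' hp2 hpO ι j P hΔ hW haux U, if_pos hb]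
    exact dvd_mul_left _ _

/-- At good reduction the levels are prime to `p`. -/
theorem p_not_dvd_pairLevels (hgood : ¬ (p : ℤ) ∣ W.Δ) (U : Finset (Rem SS r)) :
    ¬ p ∣ (LL).lvl U :=
  fun h => hgood ((p_dvd_pairLevels_iff W W' hp2 hpO ι j P hΔ hW haux U).1 h)

/-- `p` divides the levels of the pair at most once. -/
theorem p_sq_not_dvd_pairLevels (U : Finset (Rem SS r)) : ¬ p * p ∣ (LL).lvl U := fun h =>
  (Fact.out : p.Prime).ne_one
    (Nat.isUnit_iff.1 (squarefree_pairLevels W W' hp2 hpO ι j P hΔ hW haux U p h))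

section union

variable (hbad : (p : ℤ) ∣ W.Δ) (hval : p ∣ padicValInt p W.Δ)

local notation "SU" => unionPairSetup W W' hp2 hpO ι j P hΔ hW hbad hval haux
local notation "UL" => unionPairLevels W W' hp2 hpO ι j P hΔ hW hbad hval haux
local notation "UP" => unionPPart W W' hp2 hpO ι j P hΔ hW hbad hval haux

theorem unionPairSetup_p : (SU).p = p := rfl

theorem unionPairSetup_T : (SU).T = insert p (sigSet p W W' r) := rfl

/-- The determinant of the residual representation of the pair, union case. -/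
theorem det_unionPairRb (σ : GQ) :
    ((SU).rb σ).det = residue O (ι ((cycP p σ : ℤ_[p]ˣ) : ℤ_[p])) :=
  det_curveRep_cycP W hpO ι j σ

include hΔ' in
/-- The traces at Frobenius outside the pair, union case. -/
theorem trace_unionPairRb (ℓ : Nat.Primes) (hℓ : (ℓ : ℕ) ∉ (SU).T) {A : ValuationSubring Qb}
    (hA : A.LiesOverPrime ℓ) {σ : GQ} (hσ : A.IsFrobeniusAt σ ℓ) :
    ((SU).rb σ).trace = sysVal W j ℓ :=
  trace_pairRb W W' hp2 hpO ι j P hΔ hΔ' hW haux ℓ hℓ hA hσ

include hΔ' in
/-- The determinant at Frobenius outside the pair, union case. -/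
theorem det_unionPairRb_frob (ℓ : Nat.Primes) (hℓ : (ℓ : ℕ) ∉ (SU).T) {A : ValuationSubring Qb}
    (hA : A.LiesOverPrime ℓ) {σ : GQ} (hσ : A.IsFrobeniusAt σ ℓ) :
    ((SU).rb σ).det = ((ℓ : ℕ) : ResidueField O) :=
  det_pairRb_frob W W' hp2 hpO ι j P hΔ hΔ' hW haux ℓ hℓ hA hσ

/-- The primes of the levels are those of the pair, union case. -/
theorem mem_T_of_dvd_unionPairLevels {U : Finset (Rem SU r)} {q : ℕ} (hq : q.Prime)
    (h : q ∣ (UL).lvl U) : q ∈ (SU).T :=
  mem_T_of_dvd_pairLevels W W' hp2 hpO ι j P hΔ hW haux hq h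

/-- The levels of the pair are squarefree, union case. -/
theorem squarefree_unionPairLevels (U : Finset (Rem SU r)) : Squarefree ((UL).lvl U) :=
  squarefree_pairLevels W W' hp2 hpO ι j P hΔ hW haux U

/-- The levels of the pair contain `p`, union case. -/
theorem p_dvd_unionPairLevels (U : Finset (Rem SU r)) : p ∣ (UL).lvl U :=
  (p_dvd_pairLevels_iff W W' hp2 hpO ι j P hΔ hW haux U).2 hbad

/-- The levels of the old part are prime to `p`. -/
theorem p_not_dvd_unionOld (U : Finset (Rem SU r)) : ¬ p ∣ (UP).old.lvl U := (UP).not_dvd_lvl U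

/-- The primes of the levels of the old part are those of the pair. -/
theorem mem_T_of_dvd_unionOld {U : Finset (Rem SU r)} {q : ℕ} (hq : q.Prime)
    (h : q ∣ (UP).old.lvl U) : q ∈ (SU).T :=
  mem_T_of_dvd_unionPairLevels W W' hp2 hpO ι j P hΔ hW haux hbad hval hq
    (by rw [(UP).lvl_eq U]; exact h.mul_right _)

/-- The levels of the old part are squarefree. -/
theorem squarefree_unionOld (U : Finset (Rem SU r)) : Squarefree ((UP).old.lvl U) :=
  (squarefree_unionPairLevels W W' hp2 hpO ι j P hΔ hW haux hbad hval U).squarefree_of_dvd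
    (by rw [(UP).lvl_eq U]; exact dvd_mul_right _ _)

end union

end FA.Root

end
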