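import Fermat.Agent.Root.PadicBorelOpen
import Fermat.Agent.Root.ExceptionalPotSupersingular
import Fermat.Agent.Root.InertiaNontrivial
import Fermat.Agent.KummerDeRham.LineCases
import Fermat.Agent.GalCoh.UnrLocal

/-!
# The image of the decomposition group at a pole of `j`

A second line stable under an open subgroup would descend to the whole decomposition group; after a
twist its torsion would have finitely many classes modulo the component of the identity, so lie
there, and then the cyclotomic character would be trivial on inertia. So the image is open in the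
semi-Borel subgroup of the stable line.
-/

set_option autoImplicit false
set_option linter.unusedSectionVars false
set_option linter.style.haveILetI false

noncomputable section

open Matrix WeierstrassCurve FA.TateSen FA.Frob FA.EC FA.Local FA.RT FA.RT.Tate FA.CurveDR FA.PotDR
  FA.PadicChar FA.PadicImageDich FA.LocIrr
open FA.PadicLie (levelGroup mem_levelGroup two_add_ne_zero)
open scoped WeierstrassCurve.Affine Classical Topology

namespace FA.PoleImage

variable {p : ℕ} [hp : Fact p.Prime] {W : WeierstrassCurve ℤ} [(ratCurve W).IsElliptic]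

local notation "G" => PadicAlgCl p ≃ₐ[ℚ_[p]] PadicAlgCl p
local notation "GQ" => AlgebraicClosure ℚ ≃ₐ[ℚ] AlgebraicClosure ℚ
local notation "Mp" => Matrix (Fin 2) (Fin 2) ℤ_[p]
local notation "Mq" => Matrix (Fin 2) (Fin 2) ℚ_[p]
local notation "π" => (p : ℤ_[p])

/-- A nonzero vector over `ℚ_p` spans the line of an integral vector with a coordinate one. -/
theorem exists_primitive {v : Fin 2 → ℚ_[p]} (hv : v ≠ 0) :
    ∃ (e : Fin 2 → ℤ_[p]) (i : Fin 2) (c : ℚ_[p]), e i = 1 ∧ c ≠ 0 ∧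
      (fun k => (e k : ℚ_[p])) = c • v := by
  obtain ⟨i, -, hi⟩ := Finset.exists_max_image Finset.univ (fun k => ‖v k‖) Finset.univ_nonempty
  have hi0 : v i ≠ 0 := fun h0 => hv (funext fun k => norm_le_zero_iff.1
    ((hi k (Finset.mem_univ k)).trans_eq (by rw [h0, norm_zero])))
  refine ⟨fun k => ⟨v k / v i, by
    rw [norm_div, div_le_one (norm_pos_iff.2 hi0)]
    exact hi k (Finset.mem_univ k)⟩, i, (v i)⁻¹, Subtype.ext (div_self hi0), inv_ne_zero hi0,
    funext fun k => ?_⟩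
  show v k / v i = _
  rw [Pi.smul_apply, smul_eq_mul, div_eq_inv_mul]

/-- An equation between the representation and a scalar descends to the integral vector. -/
theorem rep_mulVec_of_smul (B : TateBasis p W) {τ : G} {v : Fin 2 → ℚ_[p]} {c : ℚ_[p]}
    {a : ℤ_[p]} {e : Fin 2 → ℤ_[p]} (he : (fun k => (e k : ℚ_[p])) = c • v)
    (h : curveAtP B τ *ᵥ v = (a : ℚ_[p]) • v) : localRep B τ *ᵥ e = a • e := by
  funext k
  apply Subtype.coe_injective
  show (((localRep B τ *ᵥ e) k : ℤ_[p]) : ℚ_[p]) = _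
  rw [show (((localRep B τ *ᵥ e) k : ℤ_[p]) : ℚ_[p]) =
      (curveAtP B τ *ᵥ fun j => (e j : ℚ_[p])) k from
      RingHom.map_mulVec (PadicInt.Coe.ringHom (p := p)) (localRep B τ) e k, he, mulVec_smul, h]
  simp only [Pi.smul_apply, smul_eq_mul, PadicInt.coe_mul,
    show ((e k : ℤ_[p]) : ℚ_[p]) = c * v k from congrFun he k]
  ring

/-- **At multiplicative reduction no line is acted on by signs**: its torsion would lie in the
component of the identity and inertia would have determinant one. -/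
theorem false_of_sign_line (B : TateBasis p W) (hm : MultAt W p (padicPlace p))
    {w : Fin 2 → ℤ_[p]} {i : Fin 2} (hi : w i = 1)
    (h : ∀ τ : G, localRep B τ *ᵥ w = w ∨ localRep B τ *ᵥ w = -w) : False := by
  obtain ⟨r, N⟩ := exists_nodeData hm
  obtain ⟨c, hc, hmem⟩ : ∃ c : ℤ_[p], c ≠ 0 ∧ ∀ n, B.φ n (c • w) ∈ N.e0Sub := by
    by_cases hs : ∃ σ ∈ (padicPlace p).inertiaSubgroupIn ℚ, B.rep σ *ᵥ w = -w
    · obtain ⟨σ, hσ, hneg⟩ := hs
      refine ⟨2, two_ne_zero, fun n => ?_⟩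
      have h1 := N.smul_sub_mem_e0Sub hσ (B.φ n w)
      rw [B.rep_spec, hneg, map_neg] at h1
      rw [two_smul, map_add]
      convert N.e0Sub.neg_mem h1 using 1
      abel
    · push Not at hs
      have hfix : ∀ σ ∈ (padicPlace p).inertiaSubgroupIn ℚ, B.rep σ *ᵥ w = w := fun σ hσ => by
        obtain ⟨τ, rfl⟩ : σ ∈ (localGaloisToGlobal p).range := by
          rw [show (localGaloisToGlobal p).range = _ from FA.GalCoh.range_loc]
          exact FA.GalCoh.inertiaSubgroupIn_le_decomposition _ hσ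
        exact (h τ).resolve_right (hs _ hσ)
      obtain ⟨f, hf⟩ := FA.OpenImage.exists_fixed_class N
      obtain ⟨m, hm'⟩ : ∃ m, Fintype.card
          (Option (Option (Fin (padicValInt p W.Δ + 1) × Bool))) = m := ⟨_, rfl⟩
      refine ⟨(m.factorial : ℤ_[p]), Nat.cast_ne_zero.2 m.factorial_ne_zero, fun n => ?_⟩
      obtain ⟨a, b, hab, he⟩ := Fintype.exists_ne_map_eq_of_card_lt
        (fun k : Fin (m + 1) => f (k.1 • B.φ n w)) (by rw [Fintype.card_fin, hm']; omega)
      wlog hlt : a < b generalizing a b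
      · exact this b a hab.symm he.symm (lt_of_le_of_ne (not_lt.mp hlt) hab.symm)
      have hd := hf (b.1 • B.φ n w) (a.1 • B.φ n w)
        (fun σ hσ => by rw [← map_nsmul, B.rep_spec, mulVec_smul, hfix σ hσ])
        (fun σ hσ => by rw [← map_nsmul, B.rep_spec, mulVec_smul, hfix σ hσ]) he.symm
      rw [sub_eq_add_neg, ← sub_nsmul (B.φ n w) hlt.le] at hd
      obtain ⟨q, hq⟩ := Nat.dvd_factorial (show 0 < b.1 - a.1 by omega)
        (show b.1 - a.1 ≤ m by have := b.2; omega)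
      rw [Nat.cast_smul_eq_nsmul, map_nsmul, hq, mul_comm, mul_nsmul']
      exact N.e0Sub.nsmul_mem hd q
  obtain ⟨τ, hτ, hτI, hχ⟩ : ∃ τ ∈ levelGroup (localRep B) 2, τ ∈ inertiaGal p ∧ chi p τ ≠ 1 :=
    FA.FormalCM.exists_inertia_chi_ne_one (isOpen_levelGroup B 2)
  have hw : localRep B τ *ᵥ w = w := (h τ).resolve_right fun hn => by
    obtain ⟨Z, hZ⟩ := (mem_levelGroup _).1 hτ
    have h1 := congrFun hn i
    rw [hZ, add_mulVec, one_mulVec, smul_mulVec, Pi.add_apply, Pi.smul_apply, Pi.neg_apply, hi,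
      smul_eq_mul] at h1
    exact two_add_ne_zero _ (show (2 : ℤ_[p]) + π ^ 2 * (Z *ᵥ w) i = 0 by linear_combination h1)
  have hsub : ∀ x n, B.φ n (localRep B τ *ᵥ x - x) ∈ N.e0Sub := fun x n => by
    rw [map_sub, show localRep B τ = B.rep (localGaloisToGlobal p τ) from rfl, ← B.rep_spec]
    exact N.smul_sub_mem_e0Sub (loc_mem_inertia hτI) _
  have hdet0 : ∀ x, w 0 * (localRep B τ *ᵥ x - x) 1 - w 1 * (localRep B τ *ᵥ x - x) 0 = 0 :=
    fun x => by
      have h1 := FA.KDR.det2_eq_zero_of_mem (FA.KDR.exists_not_mem_e0Sub N) hmem (hsub x)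
      simp only [FA.EDR.det2, Pi.smul_apply, smul_eq_mul] at h1
      exact (mul_eq_zero.1 (show c * (w 0 * (localRep B τ *ᵥ x - x) 1 -
        w 1 * (localRep B τ *ᵥ x - x) 0) = 0 by linear_combination h1)).resolve_left hc
  have h0 := hdet0 ![1, 0]
  have h1 := hdet0 ![0, 1]
  have w0 := congrFun hw 0
  have w1 := congrFun hw 1
  refine hχ (Units.ext (Subtype.coe_injective ?_))
  have hd : (localRep B τ).det = 1 := by
    simp [mulVec, dotProduct, Fin.sum_univ_two] at h0 h1 w0 w1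
    rw [det_fin_two]
    generalize localRep B τ = M at h0 h1 w0 w1 ⊢
    fin_cases i
    · have e1 : w 0 = 1 := hi
      rw [e1] at h0 h1 w0 w1
      linear_combination w0 + (M 0 0) * h1 - (M 0 1) * h0
    · have e1 : w 1 = 1 := hi
      rw [e1] at h0 h1 w0 w1
      linear_combination w1 - (M 1 1) * h0 + (M 1 0) * h1
  have h2 := det_curveAtP B τ
  rw [curveAtP_eq, ← RingHom.mapMatrix_apply, ← RingHom.map_det, hd, map_one] at h2
  exact h2.symm

/-- **At a pole of `j` no line is acted on by signs.** -/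
theorem false_of_sign_vector (hj : padicValRat p (ratCurve W).j < 0) (B : TateBasis p W)
    {v : Fin 2 → ℚ_[p]} (hv : v ≠ 0)
    (h : ∀ τ, curveAtP B τ *ᵥ v = v ∨ curveAtP B τ *ᵥ v = -v) : False := by
  obtain ⟨d, hd, W', hW', hdvd, hc⟩ :=
    FA.OggShafarevich.exists_multiplicative_twist (ratCurve W) hj
  haveI := FA.Root.quadTwist_isElliptic (ratCurve W) hd
  have hΔ := FA.Frob.Δ_ne_zero_of_model hW'
  haveI := FA.Frob.ratCurve_isElliptic_of_Δ hΔ
  obtain ⟨e₁, he₁⟩ := FA.Root.exists_equiv_of_model hW'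
  obtain ⟨s, t, hs, ht⟩ := FA.Root.exists_twist_equiv_sqrt (ratCurve W) hd
  have hsign : ∀ σ : GQ, σ s = s ∨ σ s = -s := fun σ =>
    sq_eq_sq_iff_eq_or_eq_neg.1 (by rw [← map_pow, hs, AlgEquiv.commutes])
  obtain ⟨B'⟩ := exists_tateBasis (p := p) W'
  obtain ⟨M, hM⟩ := exists_twist_matrix B B' (e₁.trans t) hsign fun σ Q =>
    ⟨fun h => ((ht σ (e₁ Q)).1 h).trans (congrArg t (he₁ σ Q).symm),
      fun h => ((ht σ (e₁ Q)).2 h).trans (congrArg (fun R => -t R) (he₁ σ Q).symm)⟩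
  obtain ⟨v', hv'⟩ : ∃ v', (↑M⁻¹ : Mq) *ᵥ v = v' := ⟨_, rfl⟩
  have hMv : (M : Mq) *ᵥ v' = v := by rw [← hv', mulVec_mulVec, Units.mul_inv, one_mulVec]
  have hv0 : v' ≠ 0 := fun h0 => hv (by rw [← hMv, h0, mulVec_zero])
  obtain ⟨e, i, c, hei, -, he⟩ := exists_primitive hv0
  refine false_of_sign_line B' (multAt_padicPlace hΔ hdvd hc) hei fun τ => ?_
  obtain ⟨ε, hε, heq⟩ := hM τ
  have key : ∀ a : ℚ_[p], curveAtP B τ *ᵥ v = a • v → curveAtP B' τ *ᵥ v' = (ε * a) • v' :=
    fun a ha => by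
      have h3 : curveAtP B τ *ᵥ v = ε • ((M : Mq) *ᵥ (curveAtP B' τ *ᵥ v')) := by
        conv_lhs => rw [← hMv]
        rw [mulVec_mulVec, heq, ← mulVec_mulVec, smul_mulVec, mulVec_smul]
      have h1 : (M : Mq) *ᵥ (curveAtP B' τ *ᵥ v') = (M : Mq) *ᵥ ((ε * a) • v') := by
        rw [mulVec_smul, hMv, ← smul_smul, ← ha, h3, smul_smul, ← sq, hε, one_smul]
      have h2 := congrArg ((↑M⁻¹ : Mq) *ᵥ ·) h1
      rwa [mulVec_mulVec _ (↑M⁻¹ : Mq), mulVec_mulVec _ (↑M⁻¹ : Mq), Units.inv_mul, one_mulVec,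
        one_mulVec] at h2
  have hcases : curveAtP B' τ *ᵥ v' = v' ∨ curveAtP B' τ *ᵥ v' = -v' := by
    rcases h τ with h1 | h1 <;> rcases sq_eq_one_iff.1 hε with rfl | rfl
    · exact .inl (by simpa using key 1 (by simpa using h1))
    · exact .inr (by simpa using key 1 (by simpa using h1))
    · exact .inr (by simpa using key (-1) (by simpa using h1))
    · exact .inl (by simpa using key (-1) (by simpa using h1))
  refine hcases.imp (fun h1 => ?_) fun h1 => ?_
  · simpa using rep_mulVec_of_smul B' (a := 1) he (by simpa using h1)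
  · simpa using rep_mulVec_of_smul B' (a := -1) he (by simpa using h1)

/-- **An integral triangular shape at a pole of `j`.** -/
theorem exists_borel (hj : padicValRat p (ratCurve W).j < 0) (B : TateBasis p W) :
    ∃ C : (Matrix (Fin 2) (Fin 2) ℤ_[p])ˣ,
      ∀ τ : G, ((↑C⁻¹ : Mp) * localRep B τ * C) 1 0 = 0 ∧
        ((↑C⁻¹ : Mp) * localRep B τ * C) 1 1 ^ 2 = 1 := by
  obtain ⟨C₀, T, hT, h10, h11⟩ := exists_triangular_pole hj B
  obtain ⟨v, hv⟩ : ∃ v, (C₀ : Mq) *ᵥ ![1, 0] = v := ⟨_, rfl⟩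
  have hv0 : v ≠ 0 := fun h0 => by
    have h1 := congrArg ((↑C₀⁻¹ : Mq) *ᵥ ·) (hv.trans h0)
    simp only [mulVec_mulVec, Units.inv_mul, one_mulVec, mulVec_zero] at h1
    simpa using congrFun h1 0
  have hTv : ∀ τ, curveAtP B τ *ᵥ v = T τ 0 0 • v := fun τ => by
    rw [← hv, mulVec_mulVec, hT, ← mulVec_mulVec, ← mulVec_smul]
    congr 1
    ext i
    fin_cases i <;> simp [mulVec, dotProduct, Fin.sum_univ_two, h10]
  obtain ⟨e, i, c, hei, hc, he⟩ := exists_primitive hv0
  obtain ⟨C', hC', hC0⟩ :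
      ∃ C : Mp, IsUnit C.det ∧ C *ᵥ ![1, 0] = e := by
    fin_cases i
    · exact ⟨!![e 0, 0; e 1, 1], by simp [det_fin_two_of, show e 0 = 1 from hei],
        funext fun j => by fin_cases j <;> simp⟩
    · exact ⟨!![e 0, 1; e 1, 0], by simp [det_fin_two_of, show e 1 = 1 from hei],
        funext fun j => by fin_cases j <;> simp⟩
  obtain ⟨C, rfl⟩ := (Matrix.isUnit_iff_isUnit_det _).2 hC'
  refine ⟨C, fun τ => ?_⟩
  obtain ⟨S, hS⟩ : ∃ S, (↑C⁻¹ : Mp) * localRep B τ * C = S := ⟨_, rfl⟩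
  obtain ⟨ι, hι⟩ : ∃ ι : Mp →+* Mq, PadicInt.Coe.ringHom.mapMatrix = ι := ⟨_, rfl⟩
  have hA : ι (C : Mp) *ᵥ ![1, 0] = c • v := by
    rw [← he, ← hC0, ← hι]
    funext k
    fin_cases k <;> simp [mulVec, dotProduct, Fin.sum_univ_two]
  have hR : ι (localRep B τ) = curveAtP B τ := by rw [← hι]; rfl
  have hconj : ι (C : Mp) * ι S = curveAtP B τ * ι (C : Mp) := by
    rw [← hS, ← hR, ← map_mul, ← map_mul]
    congr 1
    rw [← mul_assoc, ← mul_assoc, Units.mul_inv, one_mul]
  have hcol : ι S *ᵥ ![1, 0] = T τ 0 0 • ![1, 0] := by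
    have hu : IsUnit (ι (C : Mp)) := C.isUnit.map ι
    refine (Matrix.mulVec_injective_iff_isUnit.2 hu) ?_
    rw [mulVec_mulVec, hconj, ← mulVec_mulVec, mulVec_smul, hA, mulVec_smul, hTv, smul_smul,
      smul_smul, mul_comm]
  have h00 : (ι S) 0 0 = T τ 0 0 := by
    simpa [mulVec, dotProduct, Fin.sum_univ_two] using congrFun hcol 0
  have h10' : (ι S) 1 0 = 0 := by
    simpa [mulVec, dotProduct, Fin.sum_univ_two] using congrFun hcol 1
  rw [hS]
  refine ⟨Subtype.coe_injective (by rw [← hι] at h10'; exact h10'), ?_⟩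
  have hd : (ι S).det = (T τ).det := by
    rw [← hS, map_mul, map_mul, det_mul, det_mul, mul_comm _ (ι (localRep B τ)).det, mul_assoc,
      ← det_mul, ← map_mul, Units.inv_mul, map_one, det_one, mul_one, hR]
    have h1 := congrArg Matrix.det (hT τ)
    rw [det_mul, det_mul, mul_comm] at h1
    exact mul_left_cancel₀ ((Matrix.isUnit_iff_isUnit_det _).1 C₀.isUnit).ne_zero h1
  rw [det_fin_two, det_fin_two, h00, h10', h10, mul_zero, mul_zero, sub_zero, sub_zero] at hd
  have h000 : T τ 0 0 ≠ 0 := fun h0 => by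
    have h1 := det_curveAtP B τ
    have h2 := congrArg Matrix.det (hT τ)
    rw [det_mul, det_mul, det_fin_two (T τ), h0, h10, zero_mul, mul_zero, sub_zero, mul_zero,
      mul_eq_zero, h1] at h2
    rcases h2 with h2 | h2
    · exact (chi p τ).ne_zero (Subtype.coe_injective h2)
    · exact ((Matrix.isUnit_iff_isUnit_det _).1 C₀.isUnit).ne_zero h2
  have h11' := congrArg (· ^ 2) (mul_left_cancel₀ h000 hd)
  simp only [h11 τ] at h11'
  refine Subtype.coe_injective (Eq.trans ?_ h11')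
  rw [← hι]
  simp

/-- The representation in the basis of a triangular shape. -/
def borelRep (B : TateBasis p W) (C : (Matrix (Fin 2) (Fin 2) ℤ_[p])ˣ) :
    (PadicAlgCl p ≃ₐ[ℚ_[p]] PadicAlgCl p) →* Matrix (Fin 2) (Fin 2) ℤ_[p] where
  toFun τ := (↑C⁻¹ : Matrix (Fin 2) (Fin 2) ℤ_[p]) * localRep B τ * C
  map_one' := by rw [map_one, mul_one, Units.inv_mul]
  map_mul' σ τ := by simp only [map_mul, mul_assoc, Units.mul_inv_cancel_left]

theorem borelRep_apply (B : TateBasis p W) (C : (Matrix (Fin 2) (Fin 2) ℤ_[p])ˣ) (τ : G) :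
    borelRep B C τ = (↑C⁻¹ : Mp) * localRep B τ * C := rfl

theorem isClosed_range_borelRep (B : TateBasis p W) (C : (Matrix (Fin 2) (Fin 2) ℤ_[p])ˣ) :
    IsClosed (Set.range (borelRep B C)) :=
  (isCompact_range (f := borelRep B C)
    ((continuous_const.mul (continuous_localRep B)).mul continuous_const)).isClosed

theorem det_borelRep (B : TateBasis p W) (C : (Matrix (Fin 2) (Fin 2) ℤ_[p])ˣ) (τ : G) :
    (borelRep B C τ).det = (localRep B τ).det := by
  rw [borelRep_apply, Matrix.det_units_conj']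

theorem isOpen_levelGroup_borelRep (B : TateBasis p W) (C : (Matrix (Fin 2) (Fin 2) ℤ_[p])ˣ)
    (n : ℕ) : IsOpen (levelGroup (borelRep B C) n : Set G) := by
  haveI : CompactSpace Mp := inferInstanceAs (CompactSpace (Fin 2 → Fin 2 → ℤ_[p]))
  refine Subgroup.isOpen_of_isClosed_of_finiteIndex _ ?_
  have e : (levelGroup (borelRep B C) n : Set G) =
      borelRep B C ⁻¹' Set.range fun Z : Mp => 1 + π ^ n • Z := by
    ext g
    rw [SetLike.mem_coe, mem_levelGroup, Set.mem_preimage, Set.mem_range]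
    exact exists_congr fun Z => eq_comm
  rw [e]
  have hc : Continuous fun Z : Mp => 1 + π ^ n • Z := by fun_prop
  exact (isCompact_range hc).isClosed.preimage
    ((continuous_const.mul (continuous_localRep B)).mul continuous_const)

/-- No vector off the stable line is fixed by an open subgroup. -/
theorem false_of_fixed_off_line (hj : padicValRat p (ratCurve W).j < 0) (B : TateBasis p W)
    {C : (Matrix (Fin 2) (Fin 2) ℤ_[p])ˣ} (h10 : ∀ τ, borelRep B C τ 1 0 = 0)
    (h11 : ∀ τ, borelRep B C τ 1 1 ^ 2 = 1) {w : Fin 2 → ℤ_[p]} (hw : w 1 ≠ 0)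
    {U : Subgroup (PadicAlgCl p ≃ₐ[ℚ_[p]] PadicAlgCl p)} (hU : IsOpen (U : Set G))
    (h : ∀ τ ∈ U, borelRep B C τ *ᵥ w = w) : False := by
  obtain ⟨N, hN, hNo, hNsub⟩ := FA.Sen.exists_open_normal_subset
    (W := ((U ⊓ levelGroup (borelRep B C) 3 : Subgroup G) : Set G))
    ((hU.inter (isOpen_levelGroup_borelRep B C 3)).mem_nhds
      (one_mem (U ⊓ levelGroup (borelRep B C) 3)))
  haveI : Finite (G ⧸ N) := N.quotient_finite_of_isOpen hNo
  haveI : Fintype (G ⧸ N) := Fintype.ofFinite _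
  have hη : ∀ σ τ, borelRep B C (σ * τ) 1 1 = borelRep B C σ 1 1 * borelRep B C τ 1 1 :=
    fun σ τ => by rw [map_mul, Matrix.mul_apply, Fin.sum_univ_two, h10, zero_mul, zero_add]
  let F : G → Fin 2 → ℤ_[p] := fun g => borelRep B C g 1 1 • (borelRep B C g *ᵥ w)
  have hF : ∀ g, ∀ n ∈ N, F (g * n) = F g := fun g n hn => by
    obtain ⟨hnU, hn3⟩ := hNsub n hn
    show borelRep B C (g * n) 1 1 • _ = borelRep B C g 1 1 • _
    rw [hη, map_mul, ← mulVec_mulVec, h n hnU,
      FA.PadicBorel.apply_eq_of_level (borelRep B C) h10 h11 hn3]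
    simp
  obtain ⟨w₀, hw₀⟩ : ∃ w₀, ∑ q : G ⧸ N, F q.out = w₀ := ⟨_, rfl⟩
  have hact : ∀ σ, borelRep B C σ *ᵥ w₀ = borelRep B C σ 1 1 • w₀ := fun σ => by
    rw [← hw₀, mulVec_sum, Finset.smul_sum]
    refine Fintype.sum_equiv (MulAction.toPerm σ : Equiv.Perm (G ⧸ N)) _ _ fun q => ?_
    have hn : (σ * q.out)⁻¹ * (MulAction.toPerm σ q : G ⧸ N).out ∈ N := by
      rw [← QuotientGroup.eq, QuotientGroup.out_eq', MulAction.toPerm_apply]
      show ((σ * q.out : G) : G ⧸ N) = σ • q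
      conv_rhs => rw [← QuotientGroup.out_eq' q]
      rfl
    rw [show (MulAction.toPerm σ q : G ⧸ N).out =
        σ * q.out * ((σ * q.out)⁻¹ * (MulAction.toPerm σ q : G ⧸ N).out) by group, hF _ _ hn]
    show borelRep B C σ *ᵥ (borelRep B C q.out 1 1 • (borelRep B C q.out *ᵥ w)) =
      borelRep B C σ 1 1 • (borelRep B C (σ * q.out) 1 1 • (borelRep B C (σ * q.out) *ᵥ w))
    rw [mulVec_smul, mulVec_mulVec, ← map_mul, hη, smul_smul, ← mul_assoc, ← sq, h11, one_mul]
  have hne : w₀ 1 ≠ 0 := by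
    have h1 : ∀ g, F g 1 = w 1 := fun g => by
      show (borelRep B C g 1 1 • (borelRep B C g *ᵥ w)) 1 = w 1
      simp [h10]
      linear_combination w 1 * h11 g
    rw [← hw₀, Finset.sum_apply, Finset.sum_congr rfl fun q _ => h1 q.out, Finset.sum_const,
      Finset.card_univ, nsmul_eq_mul]
    exact mul_ne_zero (Nat.cast_ne_zero.2 Fintype.card_ne_zero) hw
  obtain ⟨v, hv⟩ : ∃ v : Fin 2 → ℤ_[p], (C : Mp) *ᵥ w₀ = v := ⟨_, rfl⟩
  have hv0 : (fun k => (v k : ℚ_[p])) ≠ 0 := fun h0 => hne (by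
    have h1 : v = 0 := funext fun k => Subtype.coe_injective (congrFun h0 k)
    have h2 := congrArg ((↑C⁻¹ : Mp) *ᵥ ·) (hv.trans h1)
    simp only [mulVec_mulVec, Units.inv_mul, one_mulVec, mulVec_zero] at h2
    rw [h2, Pi.zero_apply])
  refine false_of_sign_vector hj B hv0 fun τ => ?_
  have hv1 : localRep B τ *ᵥ v = borelRep B C τ 1 1 • v := by
    have h1 := congrArg ((C : Mp) *ᵥ ·) (hact τ)
    simp only [mulVec_mulVec, borelRep_apply, mulVec_smul, hv, ← mul_assoc, Units.mul_inv,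
      one_mul] at h1
    rw [← mulVec_mulVec, hv] at h1
    exact h1
  have hcoe : (curveAtP B τ *ᵥ fun k => (v k : ℚ_[p])) =
      ((borelRep B C τ 1 1 : ℤ_[p]) : ℚ_[p]) • fun k => (v k : ℚ_[p]) := funext fun k => by
    rw [show (curveAtP B τ *ᵥ fun j => (v j : ℚ_[p])) k =
      (((localRep B τ *ᵥ v) k : ℤ_[p]) : ℚ_[p]) from
      (RingHom.map_mulVec (PadicInt.Coe.ringHom (p := p)) (localRep B τ) v k).symm, hv1]
    simp
  rw [hcoe]
  rcases sq_eq_one_iff.1 (h11 τ) with h1 | h1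
  · exact .inl (by rw [h1, PadicInt.coe_one, one_smul])
  · exact .inr (by rw [h1, PadicInt.coe_neg, PadicInt.coe_one, neg_one_smul])

/-- The elements congruent to one modulo `p³` do not all commute. -/
theorem exists_not_commute_pole (hj : padicValRat p (ratCurve W).j < 0) (B : TateBasis p W)
    {C : (Matrix (Fin 2) (Fin 2) ℤ_[p])ˣ} (h10 : ∀ τ, borelRep B C τ 1 0 = 0)
    (h11 : ∀ τ, borelRep B C τ 1 1 ^ 2 = 1) :
    ∃ g ∈ levelGroup (borelRep B C) 3, ∃ h ∈ levelGroup (borelRep B C) 3,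
      borelRep B C g * borelRep B C h ≠ borelRep B C h * borelRep B C g := by
  by_contra hall
  push Not at hall
  obtain ⟨σ, hσ, -, hχ⟩ := FA.FormalCM.exists_inertia_chi_ne_one
    (isOpen_levelGroup_borelRep B C 3)
  obtain ⟨a, b, hab⟩ : ∃ a b, borelRep B C σ = !![a, b; 0, 1] :=
    ⟨_, _, FA.PadicBorel.apply_eq_of_level (borelRep B C) h10 h11 hσ⟩
  have ha : a ≠ 1 := fun h1 => hχ (Units.ext (Subtype.coe_injective (by
    have h2 := det_curveAtP B σ
    rw [curveAtP_eq, ← RingHom.mapMatrix_apply, ← RingHom.map_det, ← det_borelRep B C, hab,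
      det_fin_two_of, h1] at h2
    simpa using h2.symm)))
  refine false_of_fixed_off_line hj B h10 h11 (w := ![b, 1 - a])
    (by simpa [sub_eq_zero] using ha.symm) (isOpen_levelGroup_borelRep B C 3) fun τ hτ => ?_
  have hc := hall σ hσ τ hτ
  rw [hab, FA.PadicBorel.apply_eq_of_level (borelRep B C) h10 h11 hτ] at hc
  rw [FA.PadicBorel.apply_eq_of_level (borelRep B C) h10 h11 hτ]
  have h01 := congrFun (congrFun hc 0) 1
  simp [Matrix.mul_apply, Fin.sum_univ_two] at h01
  ext k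
  fin_cases k <;> simp [mulVec, dotProduct, Fin.sum_univ_two]
  linear_combination -h01

/-- **Open in the semi-Borel subgroup.** -/
theorem exists_level_pole (hj : padicValRat p (ratCurve W).j < 0) (B : TateBasis p W) :
    ∃ C : (Matrix (Fin 2) (Fin 2) ℤ_[p])ˣ,
      (∀ τ : G, borelRep B C τ 1 0 = 0 ∧ borelRep B C τ 1 1 ^ 2 = 1) ∧
      ∃ k : ℕ, ∀ x y : ℤ_[p], ∃ τ : G,
        borelRep B C τ = !![1 + π ^ k * x, π ^ k * y; 0, 1] := by
  obtain ⟨C, hC⟩ := exists_borel hj B
  refine ⟨C, hC, FA.PadicBorel.exists_level_borel (borelRep B C) (isClosed_range_borelRep B C)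
    (fun u => (exists_det_localRep B u).imp fun τ hτ => by rw [det_borelRep, hτ])
    (fun τ => (hC τ).1) (fun τ => (hC τ).2)
    (exists_not_commute_pole hj B (fun τ => (hC τ).1) fun τ => (hC τ).2)⟩

/-- An open subgroup contains elements with the two elementary images. -/
theorem exists_mem_elementary (B : TateBasis p W) {C : (Matrix (Fin 2) (Fin 2) ℤ_[p])ˣ} {k : ℕ}
    (hk : ∀ x y : ℤ_[p], ∃ τ : G, borelRep B C τ = !![1 + π ^ k * x, π ^ k * y; 0, 1])
    {U : Subgroup (PadicAlgCl p ≃ₐ[ℚ_[p]] PadicAlgCl p)} (hU : IsOpen (U : Set G)) :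
    (∃ b : ℤ_[p], b ≠ 0 ∧ ∃ τ ∈ U, borelRep B C τ = !![1, b; 0, 1]) ∧
      ∃ a : ℤ_[p], a ≠ 1 ∧ ∃ τ ∈ U, borelRep B C τ = !![a, 0; 0, 1] := by
  haveI : Finite (G ⧸ U) := U.quotient_finite_of_isOpen hU
  haveI : U.FiniteIndex := Subgroup.finiteIndex_of_finite_quotient
  constructor
  · obtain ⟨τ, hτ⟩ := hk 0 1
    obtain ⟨n, hn, -, hmem⟩ :=
      Subgroup.exists_pow_mem_of_index_ne_zero (Subgroup.FiniteIndex.index_ne_zero (H := U)) τ
    refine ⟨n * π ^ k, mul_ne_zero (Nat.cast_ne_zero.2 hn.ne') (pow_ne_zero _ (NeZero.ne π)),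
      τ ^ n, hmem, ?_⟩
    rw [map_pow, hτ, mul_zero, add_zero, mul_one]
    clear hn hmem
    induction n with
    | zero => simp [Matrix.one_fin_two]
    | succ n ih =>
      rw [pow_succ, ih]
      ext i j; fin_cases i <;> fin_cases j <;> simp
      ring
  · obtain ⟨τ, hτ⟩ := hk (π * π) 0
    obtain ⟨n, hn, -, hmem⟩ :=
      Subgroup.exists_pow_mem_of_index_ne_zero (Subgroup.FiniteIndex.index_ne_zero (H := U)) τ
    refine ⟨(1 + π ^ k * (π * π)) ^ n, fun h1 => ?_, τ ^ n, hmem, ?_⟩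
    · have h2 : (1 + p ^ k * (p * p)) ^ n = 1 := by exact_mod_cast h1
      have h3 : 1 < 1 + p ^ k * (p * p) := by
        have := Nat.pow_pos (n := k) hp.out.pos
        have := hp.out.pos
        nlinarith [Nat.mul_pos this this]
      exact absurd h2 (Nat.one_lt_pow hn.ne' h3).ne'
    · rw [map_pow, hτ, mul_zero]
      clear hn hmem
      induction n with
      | zero => simp [Matrix.one_fin_two]
      | succ n ih =>
        rw [pow_succ, ih]
        ext i j; fin_cases i <;> fin_cases j <;> simp [pow_succ]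

end FA.PoleImage

end
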