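import Fermat.Agent.Root.RemovalForms
import Fermat.Agent.Root.LiftTW
import Fermat.Agent.RT.FlatSetting
import Fermat.Agent.RT.Tower.NewLevel
import Fermat.Agent.HeckeH1.BaseTower
import Fermat.Agent.HeckeH1.DepthLevel
import Fermat.Agent.HeckeH1.NonEisenstein
import Fermat.Agent.GalCoh.GWBridge

/-!
# A residually unramified prime is removed from the level

For a curve whose residual representation is finite flat at `p`, a residual system at a level `N`
prime to `p` also occurs at level `N / q` for a prime `q` of `N` where the representation is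
unramified, given the tower of Hecke modules at the two levels and the rank of inertia at `q`.
-/

set_option autoImplicit false
set_option linter.style.haveILetI false
set_option linter.unusedSectionVars false

noncomputable section

open IsLocalRing Matrix WeierstrassCurve FA.RT FA.Deform FA.TW FA.Frob FA.HeckeH1

namespace FA.Root

local notation "M2" => Matrix (Fin 2) (Fin 2)
local notation "Qb" => AlgebraicClosure ℚ
local notation "GQ" => AlgebraicClosure ℚ ≃ₐ[ℚ] AlgebraicClosure ℚ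

/-- The primes other than `p` with a condition in the removal. -/
def remSig (W : WeierstrassCurve ℤ) (N p : ℕ) : Finset ℕ :=
  (W.Δ.natAbs.primeFactors ∪ N.primeFactors).erase p

theorem remSig_spec (W : WeierstrassCurve ℤ) (N p : ℕ) : ∀ r ∈ remSig W N p, r.Prime ∧ r ≠ p := by
  intro r hr
  obtain ⟨hrp, hr⟩ := Finset.mem_erase.1 hr
  rcases Finset.mem_union.1 hr with hr | hr <;>
    exact ⟨Nat.prime_of_mem_primeFactors hr, hrp⟩

theorem mem_remSig {W : WeierstrassCurve ℤ} {N p r : ℕ} (hr : r.Prime) (hrp : r ≠ p) (hN : N ≠ 0)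
    (h : r ∣ N) : r ∈ remSig W N p :=
  Finset.mem_erase.2 ⟨hrp, Finset.mem_union_right _ (Nat.mem_primeFactors.2 ⟨hr, h, hN⟩)⟩

theorem mem_remSig_of_bad {W : WeierstrassCurve ℤ} {N p r : ℕ} (hΔ : W.Δ ≠ 0) (hr : r.Prime)
    (hrp : r ≠ p) (h : (r : ℤ) ∣ W.Δ) : r ∈ remSig W N p :=
  Finset.mem_erase.2 ⟨hrp, Finset.mem_union_left _
    (Nat.mem_primeFactors.2 ⟨hr, Int.natCast_dvd.1 h, Int.natAbs_ne_zero.2 hΔ⟩)⟩

variable {p : ℕ} [Fact p.Prime] (W : WeierstrassCurve ℤ) [(FA.Frob.ratCurve W).IsElliptic]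
  {O : Type} [CommRing O] [IsDomain O] [IsDiscreteValuationRing O]
  [IsAdicComplete (maximalIdeal O) O] [CharZero O] [Finite (ResidueField O)]
  (hp2 : p ≠ 2) (hpO : (p : O) ∈ maximalIdeal O) (ι : ℤ_[p] →+* O)
  (j : ZMod p →+* ResidueField O) (P : Places) (hΔ : W.Δ ≠ 0) (hW : W.IsSemistableModel)
  (hfl : (p : ℤ) ∣ W.Δ → p ∣ padicValInt p W.Δ) (N : ℕ)

/-- The lifting problem of a removal. -/
abbrev remSetup : Setup O :=
  flatCurveSetup W hp2 hpO ι j P hΔ hW hfl (remSig W N p) (remSig_spec W N p)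

local notation "SS" => remSetup W hp2 hpO ι j P hΔ hW hfl N

variable {q : ℕ} (hq : q.Prime) (hqp : q ≠ p) (hqN : q ∣ N) (hN : Squarefree N) (hpN : ¬ p ∣ N)

/-- The prime which is removed. -/
def remEmb (_ : Unit) : ↥(SS).Sig := ⟨q, mem_remSig hq hqp hN.ne_zero hqN⟩

local notation "EE" => remEmb W hp2 hpO ι j P hΔ hW hfl N hq hqp hqN hN

/-- The levels `N` and `N / q`. -/
def remLevels : LevelSet (fun x => (EE x).1) (SS).T where
  L0 := N / q
  S := (SS).T.subtype Nat.Prime
  pos := (Nat.div_pos (Nat.le_of_dvd (Nat.pos_of_ne_zero hN.ne_zero) hqN) hq.pos).ne'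
  prime _ := hq
  inj _ _ _ := rfl
  not_dvd _ h := by
    have h1 := Nat.mul_dvd_mul_left q h
    rw [Nat.mul_div_cancel' hqN] at h1
    exact hq.ne_one (Nat.isUnit_iff.1 (hN q h1))
  mem_S _ := Finset.mem_subtype.2 (Finset.mem_insert_of_mem (mem_remSig hq hqp hN.ne_zero hqN))
  mem_bad ℓ hℓ h := by
    have hℓN : ℓ ∣ N := h.trans (Nat.div_dvd_of_dvd hqN)
    exact Finset.mem_insert_of_mem
      (mem_remSig hℓ (fun e => hpN (e ▸ hℓN)) hN.ne_zero hℓN)
  qn_bad _ := Finset.mem_insert_of_mem (mem_remSig hq hqp hN.ne_zero hqN)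

local notation "LL" => remLevels W hp2 hpO ι j P hΔ hW hfl N hq hqp hqN hN hpN

theorem lvl_univ : (LL).lvl Finset.univ = N := by
  show N / q * ∏ _x ∈ (Finset.univ : Finset Unit), q = N
  rw [Fintype.prod_unique, Nat.div_mul_cancel hqN]

theorem lvl_empty : (LL).lvl ∅ = N / q := by
  show N / q * ∏ _x ∈ (∅ : Finset Unit), q = N / q
  rw [Finset.prod_empty, mul_one]

/-- The residual system of the curve. -/
def remSys (ℓ : Nat.Primes) : ResidueField O := (W.apOfModel (ℓ : ℕ) : ResidueField O)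

include hp2 hpO hΔ in
/-- The system of an irreducible curve is not Eisenstein. -/
theorem remSys_ne (hirr : W.ModRepIsIrreducible p) (L : ℕ) (hL : L ≠ 0) :
    ∃ ℓ : Nat.Primes, ¬ (ℓ : ℕ) ∣ L ∧ ((ℓ : ℕ) : ZMod L) = 1 ∧
      remSys W ℓ ≠ ((ℓ : ℕ) : ResidueField O) + 1 := by
  have hp : p.Prime := Fact.out
  haveI : CharP (ResidueField O) p := (CharP.charP_iff_prime_eq_zero hp).mpr (by
    rw [← map_natCast (residue O), residue_eq_zero_iff]; exact hpO)
  obtain ⟨l, hl, -, -, -, hl1, ha⟩ := exists_prime_trace_ne_two (FA.Frob.ratCurve W)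
    (W := W) ⟨1, by rw [one_smul]⟩ hp hp2 hirr (Nat.pos_of_ne_zero hL) ∅
  have h1 : ((l : ℕ) : ZMod L) = 1 := by
    rw [← Nat.cast_one, ZMod.natCast_eq_natCast_iff]
    exact hl1.of_mul_right p
  refine ⟨⟨l, hl⟩, fun hd => ?_, h1, fun h => ha ?_⟩
  · have h2 : l ≡ 1 [MOD l] := (hl1.of_mul_right p).of_dvd hd
    exact hl.ne_one (Nat.dvd_one.1 ((h2.dvd_iff dvd_rfl).1 dvd_rfl))
  · have hl2 : ((l : ℕ) : ZMod p) = 1 := by
      rw [← Nat.cast_one, ZMod.natCast_eq_natCast_iff]
      exact hl1.of_mul_left L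
    apply (ZMod.castHom (dvd_refl p) (ResidueField O)).injective
    have h3 := congrArg (ZMod.castHom (dvd_refl p) (ResidueField O)) hl2
    rw [map_natCast, map_one] at h3
    change (W.apOfModel l : ResidueField O) = ((l : ℕ) : ResidueField O) + 1 at h
    rw [map_intCast, map_ofNat, h, h3]
    norm_num

include hpN in
/-- **Removal of a residually unramified prime.** -/
theorem isResiduallyModularOfLevel_div (hirr : W.ModRepIsIrreducible p)
    (hsplit : ∀ t d : ZMod p, ∃ a, a * a - j t * a + j d = 0)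
    (hunr : curveRep p W ((SS).tame (EE ())) = 1)
    (sep : ∀ U, (SS).Separation (remEmb W hp2 hpO ι j P hΔ hW hfl N hq hqp hqN hN)
      ((LL).baseLevels (remSys W)) U ((SS).BaseAllowed fun B _ _ _ m => AtFlat p B m))
    (S₀ : Finset ℕ)
    (hdepth : ∀ (r n : ℕ) (D : (SS).TWSet r n), Function.Injective D.qv → IsTameGenSet D →
      (∀ i, D.qv i ∉ (SS).T ∧ D.qv i ∉ S₀) → ∀ ab : Fin r → ResidueField O,
        (∀ i, ab i * ab i - ((SS).rb (D.φ i)).trace * ab i + ((SS).rb (D.φ i)).det = 0) →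
          Nonempty (Setup.DepthTower
            ((LL).baseTower SS (remSys W) (remSys_ne W hp2 hpO hΔ hirr) sep) D ab))
    (hmono : Setup.MonoTower ((LL).baseTower SS (remSys W) (remSys_ne W hp2 hpO hΔ hirr) sep))
    (h : W.IsResiduallyModularOfLevel p N) : W.IsResiduallyModularOfLevel p (N / q) := by
  classical
  have hp : p.Prime := Fact.out
  haveI : CharP (ResidueField O) p := (CharP.charP_iff_prime_eq_zero hp).mpr (by
    rw [← map_natCast (residue O), residue_eq_zero_iff]; exact hpO)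
  have hNE := remSys_ne W hp2 hpO hΔ (O := O) hirr
  have hS : ∀ ℓ : Nat.Primes, ℓ ∉ (LL).S →
      W.IsGoodPrimeFor ℓ ∧ ¬ (ℓ : ℕ) ∣ N ∧ (ℓ : ℕ) ≠ p := fun ℓ hℓ => by
    have hT : (ℓ : ℕ) ∉ (SS).T := fun hT => hℓ (Finset.mem_subtype.2 hT)
    have hlp : (ℓ : ℕ) ≠ p := fun e => hT (Finset.mem_insert.2 (Or.inl e))
    exact ⟨fun hd => hT (Finset.mem_insert_of_mem (mem_remSig_of_bad hΔ ℓ.2 hlp hd)),
      fun hd => hT (Finset.mem_insert_of_mem (mem_remSig ℓ.2 hlp hN.ne_zero hd)), hlp⟩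
  have hsys : HasSys (LL).S (remSys W (O := O)) ((LL).lvl Finset.univ) :=
    hasSys_of_isResiduallyModularOfLevel (p := p) (W := W) (fun _ _ => rfl)
      (fun ℓ hℓ => by rw [lvl_univ]; exact hS ℓ hℓ) (by rw [lvl_univ]; exact h)
  by_cases hlow : HasSys (LL).S (remSys W (O := O)) ((LL).lvl ∅)
  · have h1 := isResiduallyModularOfLevel_of_hasSys (p := p) (W := W) hΔ (fun _ _ => rfl) hNE hlow
    rwa [lvl_empty] at h1
  exfalso
  let base := (LL).baseTower SS (remSys W) hNE sep
  have hd0 : Module.finrank O (base.M ∅) = 0 := by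
    show Module.finrank O (Fin ((LL).frame (remSys W) ∅).d → O) = 0
    rw [Module.finrank_fin_fun, TWPart.base_d_eq_zero _ hlow]
  have hd : base.rk Finset.univ ≠ 0 := fun h0 => by
    have h1 : ((LL).frame (remSys W (O := O)) Finset.univ).d = 0 :=
      (Module.finrank_fin_fun (R := O)).symm.trans h0
    obtain ⟨χ, e, -, he, hee⟩ := exists_sysPiece hsys
    have he0 : e = 0 := Subtype.ext (LinearMap.ext fun z => by
      rw [hee, ← LevelSet.frame_e, ← Frame.emb_coord]
      have : Subsingleton (Fin ((LL).frame (remSys W (O := O)) Finset.univ).d → O) := by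
        rw [h1]; infer_instance
      rw [Subsingleton.elim (Frame.coord _ z) 0, map_zero]
      rfl)
    exact one_ne_zero (he.char.symm.trans (by rw [he0, map_zero]))
  have hhalf : Setup.HalfRankAt base Finset.univ (EE ()) := fun C₀ f hf m b => by
    have h1 := hmono C₀ Finset.univ () (Finset.mem_univ _) f hf m b
    have he : (Finset.univ : Finset Unit).erase () = ∅ := by decide
    rw [he] at h1
    change _ + 2 * Module.finrank O (base.M ∅) = m at h1
    rw [hd0, mul_zero, add_zero] at h1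
    exact h1
  have hres : (SS).rb ((SS).tame (EE ())) = 1 := by
    show mapRep j (curveRep p W) _ = 1
    rw [mapRep_eq, hunr]
    exact Matrix.map_one j (map_zero j) (map_one j)
  have hall : ∀ r : ℕ, r.Prime → (r : ℤ) ∣ W.Δ → r = p ∨ r ∈ remSig W N p := fun r hr hd =>
    (em (r = p)).imp id fun hne => mem_remSig_of_bad hΔ hr hne hd
  obtain ⟨GW⟩ := FA.GalCoh.nonempty_greenbergWiles hp2 (SS).rb
    (isOpen_ker_mapRep_curveRep W j) (fun σ a ha => det_mapRep_curveRep W j σ a ha) P (SS).T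
    (Finset.mem_insert_self _ _)
    (flatCurveSetup_unr W hp2 hpO ι j P hΔ hW hfl _ (remSig_spec W N p) hall)
  obtain ⟨r, hr⟩ := flatCurveSetup_twSets W hp2 hpO ι j P hΔ hW hfl _ (remSig_spec W N p) hirr hall
    GW S₀
  obtain ⟨⟨F, hF⟩, hup⟩ :=
    flatCurveSetup_frame W hp2 hpO ι j P hΔ hW hfl _ (remSig_spec W N p) hirr
  refine Setup.false_of_tower_mono base Finset.univ hd (EE ()) hres hhalf
    (flatCurveSetup_cyc_frob W hp2 hpO ι j P hΔ hW hfl _ (remSig_spec W N p))
    (flatCurveSetup_cyc_tame W hp2 hpO ι j P hΔ hW hfl _ (remSig_spec W N p))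
    (flatCurveSetup_span W hp2 hpO ι j P hΔ hW hfl _ (remSig_spec W N p) hirr) F hF hup
    (flatCurveSetup_atP W hp2 hpO ι j P hΔ hW hfl _ (remSig_spec W N p)) ⟨r, fun n => ?_⟩
  obtain ⟨D₀, hinj₀, hD₀⟩ := hr n
  obtain ⟨D, hDq, hgen⟩ := exists_retame D₀
  have hinj : Function.Injective D.qv := hDq ▸ hinj₀
  have hD : ∀ i, D.qv i ∉ (SS).T ∧ D.qv i ∉ S₀ := fun i => hDq ▸ hD₀ i
  choose ab hab using fun i => exists_root_curveRep W j hsplit (D.φ i)
  exact ⟨D, ab, hab, fun i => (hD i).1, hdepth r n D hinj hgen hD ab hab⟩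

end FA.Root

end
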