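import Fermat.Agent.HeckeH1.EigenSystem
import Fermat.Agent.HeckeH1.PieceMaps
import Fermat.Agent.Root.ModularEnd
import Fermat.Agent.Frob.Models
import Fermat.Agent.Switch.Frey

/-!
# Residual systems and eigenforms congruent to a curve

An eigenform congruent to a curve modulo `p` gives the residual system of the curve on the group
cohomology of its level, and the system at a level gives back such an eigenform.
-/

set_option autoImplicit false
set_option linter.style.haveILetI false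
set_option linter.unusedSectionVars false

noncomputable section

open CongruenceSubgroup IsLocalRing WeierstrassCurve
open scoped WeierstrassCurve.Affine

namespace FA.Root

open FA.HeckeH1

local notation "OC" => integralClosure ℤ ℂ
local notation "Qb" => AlgebraicClosure ℚ

variable {N p : ℕ} [NeZero N] [Fact p.Prime]

/-! ### From a form to the system -/

/-- An integral class which is an eigenclass modulo `p` and is not divisible by `p`. -/
theorem exists_residual_class {f : CuspForm (Gamma0 N) 2} (hf : f.IsNormalizedEigenform)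
    (𝔪 : Ideal OC) [𝔪.IsMaximal] (hpm : (p : OC) ∈ 𝔪) (a : ℕ → ℤ) (P : ℕ → Prop)
    (h : ∀ ℓ : ℕ, ℓ.Prime → ¬ ℓ ∣ N → P ℓ →
      ∃ x : OC, (x : ℂ) = ModularFormClass.qCoeff f ℓ ∧ x - (a ℓ : OC) ∈ 𝔪) :
    ∃ w : Hom1 (GamH N ⊤) ℤ, (∃ γ, ¬ (p : ℤ) ∣ w γ) ∧
      ∀ (ℓ : ℕ) [Fact ℓ.Prime], ¬ ℓ ∣ N → P ℓ → ∀ γ,
        (p : ℤ) ∣ (Tc N ⊤ ℓ).act w γ - a ℓ * w γ := by
  classical
  have hp : p.Prime := Fact.out
  obtain ⟨ψ, hψ⟩ := FA.JTorsion.exists_eigenChar (S := (∅ : Set ℕ)) hf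
  let b : GP N → OC := fun ℓ =>
    ψ (CuspForm.heckeAlgebra.T ℓ.2.1 ℓ.2.2 (Set.notMem_empty _))
  have hb : ∀ ℓ : GP N, (b ℓ : ℂ) = ModularFormClass.qCoeff f ℓ.1 := fun ℓ =>
    hψ ℓ.1 ℓ.2.1 ℓ.2.2 _
  let R := MvPolynomial (GP N) ℤ
  let χ : R →+* OC := MvPolynomial.eval₂Hom (Int.castRingHom OC) b
  let z₀ : Par (GamH N ⊤) ℂ := ⟨perP N ⊤ (f, 0), perP_mem_Par _⟩
  have hz0 : z₀ ≠ 0 := fun h0 => hf.ne_zero (by
    have h1 := perP_injective (M := N) rfl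
      ((congrArg Subtype.val h0).trans (map_zero (perP N ⊤)).symm)
    exact congrArg Prod.fst h1)
  have heig : ∀ r : R, hact ℂ N ⊤ N r z₀ = (χ r : ℂ) • z₀ := fun r => by
    induction r using MvPolynomial.induction_on with
    | C n =>
      rw [hact, evalComm_C, Module.End.intCast_apply]
      rw [show χ (MvPolynomial.C n) = (n : OC) from MvPolynomial.eval₂Hom_C _ _ n]
      push_cast
      exact (Int.cast_smul_eq_zsmul ℂ n z₀).symm
    | add r s hr hs => simp [hr, hs, add_smul]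
    | mul_X r ℓ hr =>
      haveI : NeZero ℓ.1 := ⟨ℓ.2.1.ne_zero⟩
      have hX : TPar ℂ N ⊤ ℓ.1 z₀ = (b ℓ : ℂ) • z₀ := by
        refine Subtype.ext ?_
        show (Tc N ⊤ ℓ.1).act (perP N ⊤ (f, 0)) = (b ℓ : ℂ) • perP N ⊤ (f, 0)
        rw [perP_Tc (fun _ => coprime_mem_top ℓ.2.1 ℓ.2.2), FA.JTorsion.heckeForm, dif_neg ℓ.2.2,
          FA.JTorsion.heckeT_eigen hf ℓ.2.1 ℓ.2.2, map_zero, hb, FA.Deform.qLin_apply,
          ← map_smul, Prod.smul_mk, smul_zero]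
      rw [map_mul, hact_X, Module.End.mul_apply, hX, map_smul, hr, smul_smul, map_mul,
        show χ (MvPolynomial.X ℓ) = b ℓ from MvPolynomial.eval₂Hom_X' _ _ ℓ, MulMemClass.coe_mul,
        mul_comm]
  let m₀ : Ideal R := 𝔪.comap χ
  have hm₀ : m₀.IsMaximal := isMaximal_comap_algInt χ 𝔪
  have hpm₀ : (p : R) ∈ m₀ := by simpa [m₀] using hpm
  letI : Module R (Par (GamH N ⊤) ℤ) := Module.compHom _ (hact ℤ N ⊤ N)
  let pP : Submodule R (Par (GamH N ⊤) ℤ) := LinearMap.range ((p : R) • LinearMap.id)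
  have hmemp : ∀ v, v ∈ pP ↔ ∃ y, v = p • y := fun v => by
    constructor
    · rintro ⟨y, rfl⟩
      exact ⟨y, Nat.cast_smul_eq_nsmul R p y⟩
    · rintro ⟨y, rfl⟩
      exact ⟨y, Nat.cast_smul_eq_nsmul R p y⟩
  have : Finite (Par (GamH N ⊤) ℤ ⧸ pP) := by
    haveI : Module.Finite ℤ (Par (GamH N ⊤) ℤ ⧸ pP) := Module.Finite.of_surjective
      pP.mkQ.toAddMonoidHom.toIntLinearMap pP.mkQ_surjective
    refine Module.finite_of_fg_torsion (M := Par (GamH N ⊤) ℤ ⧸ pP) fun u => ?_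
    refine ⟨⟨(p : ℤ), mem_nonZeroDivisors_of_ne_zero (Int.natCast_ne_zero.2 hp.ne_zero)⟩, ?_⟩
    obtain ⟨v, rfl⟩ := pP.mkQ_surjective u
    show (p : ℤ) • pP.mkQ v = 0
    rw [natCast_zsmul, ← map_nsmul, Submodule.mkQ_apply, Submodule.Quotient.mk_eq_zero, hmemp]
    exact ⟨v, rfl⟩
  obtain ⟨w', hw0, hwk⟩ := exists_killed (Q := Par (GamH N ⊤) ℤ ⧸ pP) m₀ fun r hr => by
    obtain ⟨t₀, ht₀, hback⟩ := exists_zero_of_range (p := p) (hact ℤ N ⊤ N) r fun v =>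
      (hmemp _).1 ((Submodule.Quotient.mk_eq_zero pP).1 (hr (pP.mkQ v)))
    refine hback m₀ hm₀.isPrime hpm₀ ?_
    have h1 := hact_complex_eq_zero t₀ [] (fun x _ => by rw [ht₀]; rfl) z₀ (by simp)
    rw [heig, smul_eq_zero, or_iff_left hz0] at h1
    show χ t₀ ∈ 𝔪
    rw [show χ t₀ = 0 from Subtype.ext h1]
    exact 𝔪.zero_mem
  obtain ⟨w, rfl⟩ := pP.mkQ_surjective w'
  have hw : ¬ ∃ y, w = p • y := fun h0 =>
    hw0 ((Submodule.Quotient.mk_eq_zero _).2 ((hmemp w).2 h0))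
  refine ⟨w.1, ?_, fun ℓ _ hℓN hP γ => ?_⟩
  · by_contra hall
    push Not at hall
    let y : Hom1 (GamH N ⊤) ℤ := AddMonoidHom.mk' (fun γ => w.1 γ / (p : ℤ)) fun γ δ => by
      rw [map_add, Int.add_ediv_of_dvd_left (hall γ)]
    have hy : ∀ γ, w.1 γ = (p : ℤ) * y γ := fun γ => (Int.mul_ediv_cancel' (hall γ)).symm
    refine hw ⟨⟨y, fun γ s hs => ?_⟩, Subtype.ext (AddMonoidHom.ext fun γ => ?_)⟩
    · exact (mul_eq_zero.1 ((hy _).symm.trans (w.2 γ s hs))).resolve_left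
        (Int.natCast_ne_zero.2 hp.ne_zero)
    · show w.1 γ = p • y γ
      rw [hy γ, nsmul_eq_mul]
  obtain ⟨x, hx, hxm⟩ := h ℓ Fact.out hℓN hP
  let L : GP N := ⟨ℓ, Fact.out, hℓN⟩
  have hmem : MvPolynomial.X L - MvPolynomial.C (a ℓ) ∈ m₀ := by
    show χ _ ∈ 𝔪
    rw [map_sub, show χ (MvPolynomial.X L) = b L from MvPolynomial.eval₂Hom_X' _ _ L,
      show χ (MvPolynomial.C (a ℓ)) = (a ℓ : OC) from MvPolynomial.eval₂Hom_C _ _ _,
      show b L = x from Subtype.ext ((hb L).trans hx.symm)]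
    exact hxm
  obtain ⟨y, hy⟩ := (hmemp _).1 ((Submodule.Quotient.mk_eq_zero _).1 (hwk _ hmem))
  change hact ℤ N ⊤ N (MvPolynomial.X L - MvPolynomial.C (a ℓ)) w = p • y at hy
  rw [map_sub, hact_X, LinearMap.sub_apply, hact, evalComm_C, Module.End.intCast_apply] at hy
  refine ⟨y.1 γ, ?_⟩
  have h2 := DFunLike.congr_fun (congrArg Subtype.val hy) γ
  show (Tc N ⊤ ℓ).act w.1 γ - a ℓ * w.1 γ = (p : ℤ) * y.1 γ
  simp only [Submodule.coe_sub, SetLike.val_smul, AddMonoidHom.sub_apply] at h2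
  simp only [zsmul_eq_mul, nsmul_eq_mul, AddMonoidHom.smul_apply, smul_eq_mul, Int.cast_id] at h2
  exact h2

variable {O : Type} [CommRing O] [IsDomain O] [IsDiscreteValuationRing O]
  [IsAdicComplete (maximalIdeal O) O] [CharZero O] [CharP (ResidueField O) p]
  {S : Finset Nat.Primes} {c : Nat.Primes → ResidueField O} {a : ℕ → ℤ}

/-- **The system of an integral class which is an eigenclass modulo `p`.** -/
theorem hasSys_of_residual_class (hc : ∀ ℓ, ℓ ∉ S → c ℓ = (a ℓ : ResidueField O))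
    (w : Hom1 (GamH N ⊤) ℤ) (hw : ∃ γ, ¬ (p : ℤ) ∣ w γ)
    (heig : ∀ ℓ : Nat.Primes, ℓ ∉ S → ∀ γ,
      (p : ℤ) ∣ (Tc N ⊤ (ℓ : ℕ)).act w γ - a ℓ * w γ) :
    HasSys S c N := by
  classical
  let red : O →+ ResidueField O := (residue O).toAddMonoidHom
  let ω : Hom1 (GamH N ⊤) (ResidueField O) := (Int.castAddHom _).comp w
  have hω : ∀ ℓ : Nat.Primes, ℓ ∉ S → (Tc N ⊤ (ℓ : ℕ)).act ω = c ℓ • ω := fun ℓ hℓ => by
    rw [Corr.act_comp_hom]
    refine AddMonoidHom.ext fun γ => ?_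
    have h0 : ((((Tc N ⊤ (ℓ : ℕ)).act w γ - a ℓ * w γ : ℤ)) : ResidueField O) = 0 :=
      (CharP.intCast_eq_zero_iff _ p _).2 (heig ℓ hℓ γ)
    rw [Int.cast_sub, sub_eq_zero, Int.cast_mul, ← hc ℓ hℓ] at h0
    exact h0
  have hω0 : ω ≠ 0 := fun h0 => by
    obtain ⟨γ, hγ⟩ := hw
    exact hγ ((CharP.intCast_eq_zero_iff (ResidueField O) p _).1 (DFunLike.congr_fun h0 γ))
  let π := heckePoly N ⊤ O S
  let ε : MvPolynomial Nat.Primes O →ₐ[O] ResidueField O :=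
    MvPolynomial.aeval fun ℓ => if ℓ ∈ S then 0 else c ℓ
  have key : ∀ (P : MvPolynomial Nat.Primes O) (z : Hom1 (GamH N ⊤) O) (μ : ResidueField O),
      red.comp z = μ • ω → red.comp ((π P).1 z) = (ε P * μ) • ω := by
    intro P
    induction P using MvPolynomial.induction_on with
    | C r =>
      intro z μ hz
      simp only [π, ε, heckePoly, MvPolynomial.aeval_C]
      refine AddMonoidHom.ext fun γ => ?_
      show residue O (r * z γ) = (algebraMap O (ResidueField O) r * μ) * ω γ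
      rw [map_mul, show residue O (z γ) = μ * ω γ from DFunLike.congr_fun hz γ, mul_assoc]
      rfl
    | add P Q hP hQ =>
      intro z μ hz
      rw [map_add, map_add, add_mul, add_smul, ← hP z μ hz, ← hQ z μ hz]
      exact AddMonoidHom.comp_add _ _ _
    | mul_X P ℓ hP =>
      intro z μ hz
      rw [map_mul, map_mul, show π (.X ℓ) = Tgen N ⊤ O S ℓ from MvPolynomial.aeval_X _ ℓ,
        show ε (.X ℓ) = (if ℓ ∈ S then 0 else c ℓ) from MvPolynomial.aeval_X _ ℓ, mul_assoc]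
      refine hP ((Tgen N ⊤ O S ℓ).1 z) _ ?_
      split_ifs with hℓ
      · rw [Tgen_apply_mem N ⊤ O S hℓ, zero_mul, zero_smul, AddMonoidHom.comp_zero]
      · rw [Tgen_apply N ⊤ O S hℓ, ← Corr.act_comp_hom, hz, Corr.act_smul, hω ℓ hℓ, smul_smul,
          mul_comm]
  have hπ : Function.Surjective π := heckePoly_surjective N ⊤ O S
  have hker : RingHom.ker π ≤ RingHom.ker ε := fun P hP => by
    have hz : red.comp ((Int.castAddHom O).comp w) = (1 : ResidueField O) • ω := by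
      rw [one_smul]
      exact AddMonoidHom.ext fun γ => map_intCast (residue O) (w γ)
    have h1 := key P _ 1 hz
    rw [show π P = 0 from hP] at h1
    refine RingHom.mem_ker.2 ?_
    have h2 : (ε P * 1) • ω = 0 := h1.symm.trans (AddMonoidHom.comp_zero _)
    rwa [mul_one, smul_eq_zero, or_iff_left hω0] at h2
  let e := Ideal.quotientKerAlgEquivOfSurjective hπ
  refine ⟨(Ideal.Quotient.liftₐ (RingHom.ker π) ε fun P hP => hker hP).comp e.symm.toAlgHom,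
    fun ℓ hℓ => ?_⟩
  rw [← show π (.X ℓ) = Tgen N ⊤ O S ℓ from MvPolynomial.aeval_X _ ℓ, AlgHom.comp_apply,
    show e.symm.toAlgHom (π (.X ℓ)) = Ideal.Quotient.mk _ (.X ℓ) from
      e.injective ((e.apply_symm_apply _).trans (by simp [e]))]
  show ε (.X ℓ) = c ℓ
  rw [MvPolynomial.aeval_X, if_neg hℓ]

/-! ### From the system to a form -/

/-- **An eigenform with the residual system of its level.** -/
theorem exists_eigenform_of_hasSys (hc : ∀ ℓ, ℓ ∉ S → c ℓ = (a ℓ : ResidueField O))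
    (hNE : ∀ L : ℕ, L ≠ 0 → ∃ ℓ : Nat.Primes, ¬ (ℓ : ℕ) ∣ L ∧
      ((ℓ : ℕ) : ZMod L) = 1 ∧ c ℓ ≠ ((ℓ : ℕ) : ResidueField O) + 1)
    (h : HasSys S c N) :
    ∃ (g : CuspForm (Gamma0 N) 2) (𝔪 : Ideal OC), g.IsNormalizedEigenform ∧ 𝔪.IsMaximal ∧
      (p : OC) ∈ 𝔪 ∧ ∀ ℓ : Nat.Primes, ℓ ∉ S → ¬ (ℓ : ℕ) ∣ N →
        ∃ x : OC, (x : ℂ) = ModularFormClass.qCoeff g ℓ ∧ x - (a ℓ : OC) ∈ 𝔪 := by
  classical
  have hp : p.Prime := Fact.out
  obtain ⟨χH, e, hχH, he, hee⟩ := exists_sysPiece h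
  let D : ℕ := N * ∏ r ∈ S, (r : ℕ)
  have hD : ∀ ℓ : GP D, ¬ ℓ.1 ∣ N ∧ (⟨ℓ.1, ℓ.2.1⟩ : Nat.Primes) ∉ S := fun ℓ =>
    ⟨fun hd => ℓ.2.2 (hd.mul_right _),
      fun hm => ℓ.2.2 ((Finset.dvd_prod_of_mem _ hm).mul_left N)⟩
  let R := MvPolynomial (GP D) ℤ
  let χk : R →+* ZMod p :=
    MvPolynomial.eval₂Hom (Int.castRingHom (ZMod p)) fun ℓ => (a ℓ.1 : ZMod p)
  let m : Ideal R := RingHom.ker χk
  have hm : m.IsMaximal :=
    RingHom.ker_isMaximal_of_surjective χk fun x => ⟨MvPolynomial.C (x.val : ℤ), by simp [χk]⟩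
  let act : R →+* Module.End ℂ (Par (GamH N ⊤) ℂ) := hact ℂ N ⊤ D
  let θ : R →+* heckeAlg N ⊤ O S :=
    MvPolynomial.eval₂Hom (Int.castRingHom _) fun ℓ => Tgen N ⊤ O S ⟨ℓ.1, ℓ.2.1⟩
  have hθ : ∀ (r : R) (u : Par (GamH N ⊤) O), (θ r).1 u.1 = (hact O N ⊤ D r u).1 := by
    intro r
    induction r using MvPolynomial.induction_on with
    | C n =>
      intro u
      rw [show θ (MvPolynomial.C n) = (n : heckeAlg N ⊤ O S) from
        MvPolynomial.eval₂Hom_C _ _ n, hact, evalComm_C, Module.End.intCast_apply]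
      simp [Module.End.intCast_apply]
    | add r s hr hs =>
      intro u
      rw [map_add, map_add]
      show (θ r).1 u.1 + (θ s).1 u.1 = _
      rw [hr, hs]
      rfl
    | mul_X r ℓ hr =>
      intro u
      rw [map_mul, map_mul, hact_X, Module.End.mul_apply,
        show θ (MvPolynomial.X ℓ) = Tgen N ⊤ O S ⟨ℓ.1, ℓ.2.1⟩ from
          MvPolynomial.eval₂Hom_X' _ _ ℓ]
      show (θ r).1 ((Tgen N ⊤ O S ⟨ℓ.1, ℓ.2.1⟩).1 u.1) = _
      rw [Tgen_apply N ⊤ O S (hD ℓ).2, ← hr]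
      rfl
  have hkey : ∀ r, act r = 0 → r ∈ m := fun r hr => by
    have h0 : ∀ u : Par (GamH N ⊤) O, hact O N ⊤ D r u = 0 := fun u => by
      refine Subtype.ext (AddMonoidHom.ext fun γ => ?_)
      by_contra hne
      let K := FractionRing O
      haveI : CharZero K := charZero_of_injective_algebraMap (IsFractionRing.injective O K)
      obtain ⟨φ, hφ⟩ : ∃ φ : K →ₗ[ℚ] ℚ, φ (algebraMap O K ((hact O N ⊤ D r u).1 γ)) ≠ 0 := by
        by_contra hall
        push Not at hall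
        exact hne (IsFractionRing.injective O K
          (((Module.forall_dual_apply_eq_zero_iff ℚ _).1 hall).trans (map_zero _).symm))
      let g : O →+ ℂ := (Rat.castHom ℂ).toAddMonoidHom.comp
        (φ.toAddMonoidHom.comp (algebraMap O K).toAddMonoidHom)
      have h2 := DFunLike.congr_fun (hact_comp g N ⊤ D r u) γ
      change g ((hact O N ⊤ D r u).1 γ) = (act r _).1 γ at h2
      rw [hr] at h2
      exact hφ (Rat.cast_injective (α := ℂ) (h2.trans Rat.cast_zero.symm))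
    have h1 : θ r * e = 0 := Subtype.ext (LinearMap.ext fun z => by
      show (θ r).1 (e.1 z) = 0
      rw [hee]
      exact (hθ r ⟨_, sysIdem_mem_Par hNE N z⟩).trans (congrArg Subtype.val (h0 _)))
    have h2 : χH (θ r) = ((ZMod.castHom (dvd_refl p) (ResidueField O)).comp χk) r := by
      refine RingHom.congr_fun (f := χH.toRingHom.comp θ) (MvPolynomial.ringHom_ext
        (fun n => by simp [θ, χk]) fun ℓ => ?_) r
      simp only [RingHom.comp_apply, θ, χk, MvPolynomial.eval₂Hom_X']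
      rw [map_intCast]
      exact (hχH _ (hD ℓ).2).trans (hc _ (hD ℓ).2)
    have h3 := congrArg χH h1
    rw [map_mul, he.char, mul_one, map_zero, h2, RingHom.comp_apply] at h3
    exact (ZMod.castHom (dvd_refl p) (ResidueField O)).injective (h3.trans (map_zero _).symm)
  obtain ⟨v, χv, hv0, hev, hkerv⟩ := FA.Deform.exists_eigenvector_of_prime act m hkey
  obtain ⟨⟨f₁, g₁⟩, hfg⟩ := exists_perP_eq (M := N) rfl v.2
  let T : Submodule ℂ (CuspForm (Gamma0 N) 2) :=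
    ⨅ ℓ : GP D, LinearMap.ker (CuspForm.heckeTLin 2 ℓ.2.1 (hD ℓ).1 -
      χv (MvPolynomial.X ℓ) • 1)
  have hT : ∀ x, x ∈ T ↔ ∀ ℓ : GP D,
      CuspForm.heckeTLin 2 ℓ.2.1 (hD ℓ).1 x = χv (MvPolynomial.X ℓ) • x := fun x => by
    simp [T, Submodule.mem_iInf, sub_eq_zero]
  have hpair : ∀ ℓ : GP D, (CuspForm.heckeTLin 2 ℓ.2.1 (hD ℓ).1 f₁,
      CuspForm.heckeTLin 2 ℓ.2.1 (hD ℓ).1 g₁) = χv (MvPolynomial.X ℓ) • (f₁, g₁) := fun ℓ => by
    haveI : NeZero ℓ.1 := ⟨ℓ.2.1.ne_zero⟩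
    apply perP_injective (M := N) (H := ⊤) rfl
    have h2 := congrArg (fun z : Par (GamH N ⊤) ℂ => z.1) (hev (MvPolynomial.X ℓ))
    simp only [act] at h2
    have h3 := perP_Tc (M := N) (H := ⊤) (ℓ := ℓ.1)
      (fun hd => coprime_mem_top ℓ.2.1 hd) (f₁, g₁)
    rw [FA.JTorsion.heckeForm, dif_neg (hD ℓ).1] at h3
    rw [← h3, map_smul, hfg]
    rw [hact_X] at h2
    exact h2
  have hTne : T ≠ ⊥ := by
    intro hbot
    have h1 : f₁ ∈ T := (hT f₁).2 fun ℓ => congrArg Prod.fst (hpair ℓ)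
    have h2 : g₁ ∈ T := (hT g₁).2 fun ℓ => congrArg Prod.snd (hpair ℓ)
    rw [hbot, Submodule.mem_bot] at h1 h2
    rw [h1, h2, show ((0, 0) : FA.JTorsion.FormPair N) = 0 from rfl, map_zero] at hfg
    exact hv0 (Subtype.ext hfg.symm)
  obtain ⟨g, hgT, hg⟩ := exists_normalized_mem T hTne fun t x hx => by
    rw [hT] at hx ⊢
    intro ℓ
    have hcom := congrArg (fun y : CuspForm.heckeAlgebra N 2 ∅ =>
        (y : Module.End ℂ (CuspForm (Gamma0 N) 2)) x)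
      (mul_comm (CuspForm.heckeAlgebra.T (k := 2) ℓ.2.1 (hD ℓ).1 (Set.notMem_empty _)) t)
    simp only [MulMemClass.coe_mul, Module.End.mul_apply, CuspForm.heckeAlgebra.coe_T] at hcom
    rw [hcom, hx ℓ, map_smul]
  obtain ⟨ψ, hψ⟩ := FA.JTorsion.exists_eigenChar (S := (∅ : Set ℕ)) hg
  let b : GP D → OC := fun ℓ =>
    ψ (CuspForm.heckeAlgebra.T ℓ.2.1 (hD ℓ).1 (Set.notMem_empty _))
  let χg : R →+* OC := MvPolynomial.eval₂Hom (Int.castRingHom OC) b
  have hχg : ∀ r, (χg r : ℂ) = χv r := by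
    have : ((integralClosure ℤ ℂ).val.toRingHom).comp χg = χv := by
      refine MvPolynomial.ringHom_ext (fun n => by simp [χg]) fun ℓ => ?_
      have h1 := (hT g).1 hgT ℓ
      rw [FA.JTorsion.heckeT_eigen hg ℓ.2.1 (hD ℓ).1] at h1
      have h2 : FA.Deform.qLin N g ℓ.1 = χv (MvPolynomial.X ℓ) :=
        smul_left_injective ℂ hg.ne_zero h1
      simp [χg, b, hψ, ← h2, FA.Deform.qLin_apply]
    exact fun r => RingHom.congr_fun this r
  letI : Algebra R OC := χg.toAlgebra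
  have : IsScalarTower ℤ R OC := IsScalarTower.of_algebraMap_eq' (RingHom.ext_int _ _)
  have : Algebra.IsIntegral R OC :=
    ⟨fun x => (Algebra.IsIntegral.isIntegral (R := ℤ) x).tower_top⟩
  obtain ⟨𝔪, hm𝔪, hover⟩ :=
    Ideal.exists_ideal_over_maximal_of_isIntegral (S := OC) m (fun r hr => hkerv (by
      rw [RingHom.mem_ker, ← hχg, show χg r = 0 from hr, ZeroMemClass.coe_zero]))
  have hmem : ∀ r : R, χg r ∈ 𝔪 ↔ r ∈ m := fun r => by rw [← hover]; rfl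
  refine ⟨g, 𝔪, hg, hm𝔪, ?_, fun ℓ hℓS hℓN => ?_⟩
  · have := (hmem (p : R)).2 (show χk (p : R) = 0 by rw [map_natCast, ZMod.natCast_self])
    simpa using this
  let L : GP D := ⟨ℓ, ℓ.2, fun hd => by
    rcases ℓ.2.dvd_mul.1 hd with hd | hd
    · exact hℓN hd
    · obtain ⟨r, hr, hd⟩ := (Prime.dvd_finsetProd_iff ℓ.2.prime _).1 hd
      exact hℓS ((Subtype.ext ((Nat.prime_dvd_prime_iff_eq ℓ.2 r.2).1 hd) : ℓ = r) ▸ hr)⟩
  refine ⟨b L, hψ L.1 L.2.1 (hD L).1 _, ?_⟩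
  have := (hmem (MvPolynomial.X L - MvPolynomial.C (a ℓ))).2
    (show χk _ = 0 by
      rw [map_sub, show χk (MvPolynomial.X L) = (a ℓ : ZMod p) from MvPolynomial.eval₂Hom_X' _ _ L,
        show χk (MvPolynomial.C (a ℓ)) = (a ℓ : ZMod p) from MvPolynomial.eval₂Hom_C _ _ _,
        sub_self])
  rwa [map_sub, show χg (MvPolynomial.X L) = b L from MvPolynomial.eval₂Hom_X' _ _ L,
    show χg (MvPolynomial.C (a ℓ)) = (a ℓ : OC) from MvPolynomial.eval₂Hom_C _ _ _] at this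

/-! ### The congruence at every good prime -/

omit [NeZero N] in
/-- An eigenform congruent to a curve at almost all primes is so at all good ones. -/
theorem isResiduallyModularOfLevel_of_almost_all {W : WeierstrassCurve ℤ} (hΔ : W.Δ ≠ 0)
    (hN : N ≠ 0) {f : CuspForm (Gamma0 N) 2} (hf : f.IsNormalizedEigenform)
    (𝔪 : Ideal OC) [𝔪.IsMaximal] (hpm : (p : OC) ∈ 𝔪) (bad : Finset ℕ)
    (h : ∀ ℓ : ℕ, ℓ.Prime → ℓ ∉ bad → ¬ ℓ ∣ N →
      ∃ x : OC, (x : ℂ) = ModularFormClass.qCoeff f ℓ ∧ x - (W.apOfModel ℓ : OC) ∈ 𝔪) :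
    W.IsResiduallyModularOfLevel p N := by
  classical
  have hp : p.Prime := Fact.out
  haveI : NeZero N := ⟨hN⟩
  refine ⟨f, 𝔪, hf, inferInstance, hpm, fun ℓ hℓ hgood hℓN hℓp => ?_⟩
  haveI : (FA.Frob.ratCurve W).IsElliptic := FA.Frob.ratCurve_isElliptic_of_Δ hΔ
  obtain ⟨ψ, hψ⟩ := FA.JTorsion.exists_eigenChar (S := (∅ : Set ℕ)) hf
  set a₀ := ψ (CuspForm.heckeAlgebra.T hℓ hℓN (Set.notMem_empty _)) with hadef
  have ha : (a₀ : ℂ) = ModularFormClass.qCoeff f ℓ := hψ ℓ hℓ hℓN _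
  refine ⟨a₀, ha, ?_⟩
  let k := OC ⧸ 𝔪
  letI : Field k := Ideal.Quotient.field 𝔪
  haveI : CharP k p := by
    refine (CharP.charP_iff_prime_eq_zero hp).2 ?_
    rw [← map_natCast (Ideal.Quotient.mk 𝔪)]
    exact Ideal.Quotient.eq_zero_iff_mem.2 hpm
  let φ : OC →+* k := Ideal.Quotient.mk 𝔪
  obtain ⟨ρ, hρ, -⟩ := Fermat.Agent.S29.result hf hp φ
  let ρE : ResidualGaloisRep (ZMod p) := (FA.Frob.ratCurve W).residualGaloisRepOf p
    (FA.EC.natCard_torsion _ hp.ne_zero) (FA.EC.galoisFactorsThroughFiniteLevel _ hp.ne_zero)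
  let r := FA.Deform.resMatrix ρ
  let e : FA.Deform.GQ →* Matrix (Fin 2) (Fin 2) k :=
    ((ZMod.castHom (dvd_refl p) k).mapMatrix.toMonoidHom).comp (FA.Deform.resMatrix ρE)
  have hopen : ∀ {k' : Type} [Field k'] (σ : ResidualGaloisRep k'),
      IsOpen ((FA.Deform.resMatrix σ).ker : Set FA.Deform.GQ) := fun {k'} _ σ => by
    obtain ⟨L, hL, h⟩ := FA.Deform.resMatrix_eq_one σ
    exact Subgroup.isOpen_mono (H₁ := L.fixingSubgroup)
      (fun τ hτ => h τ ((IntermediateField.mem_fixingSubgroup_iff L τ).mp hτ))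
      (IntermediateField.fixingSubgroup_isOpen L)
  have he : IsOpen (e.ker : Set FA.Deform.GQ) :=
    Subgroup.isOpen_mono (fun σ hσ => by
      show (ZMod.castHom (dvd_refl p) k).mapMatrix (FA.Deform.resMatrix ρE σ) = 1
      rw [MonoidHom.mem_ker.1 hσ, map_one]) (hopen ρE)
  have hne : ∀ q : ℕ, q.Prime → q ≠ p → (q : k) ≠ 0 := fun q hq hqp h0 =>
    hqp ((Nat.prime_dvd_prime_iff_eq hp hq).1 ((CharP.cast_eq_zero_iff k p q).1 h0)).symm
  have hr : ∀ q : ℕ, q.Prime → ¬ q ∣ N → q ≠ p → ∀ A : ValuationSubring Qb,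
      A.LiesOverPrime q → ∀ σ : FA.Deform.GQ, A.IsFrobeniusAt σ q →
      ∃ b : OC, (b : ℂ) = ModularFormClass.qCoeff f q ∧
        (r σ).trace = φ b ∧ (r σ).det = q := by
    intro q hq hqN hqp A hA σ hσ
    obtain ⟨b, hb, hchar⟩ := hρ q hq hqN (hne q hq hqp) A hA σ hσ
    exact ⟨b, hb, FA.Theta.trace_det_of_charpoly
      ((LinearMap.charpoly_toMatrix (ρ.ρ σ) (FA.Deform.resBasis ρ)).trans hchar)⟩
  have hE : ∀ q : ℕ, q.Prime → W.IsGoodPrimeFor q → q ≠ p → ∀ A : ValuationSubring Qb,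
      A.LiesOverPrime q → ∀ σ : FA.Deform.GQ, A.IsFrobeniusAt σ q →
      (e σ).trace = φ (W.apOfModel q : OC) ∧ (e σ).det = q := by
    intro q hq hg hqp A hA σ hσ
    obtain ⟨ht, hd⟩ := FA.Theta.trace_det_of_charpoly
      ((LinearMap.charpoly_toMatrix (ρE.ρ σ) (FA.Deform.resBasis ρE)).trans
        (FA.Frob.charpoly_galoisRep W hq hg (p := p) hqp.symm hA hσ))
    constructor
    · show ((FA.Deform.resMatrix ρE σ).map (ZMod.castHom (dvd_refl p) k)).trace = _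
      rw [← AddMonoidHom.map_trace, map_intCast]
      exact (congrArg (ZMod.castHom (dvd_refl p) k) ht).trans (map_intCast _ _)
    · show ((ZMod.castHom (dvd_refl p) k).mapMatrix (FA.Deform.resMatrix ρE σ)).det = _
      rw [← RingHom.map_det]
      exact (congrArg (ZMod.castHom (dvd_refl p) k) hd).trans (map_natCast _ _)
  obtain ⟨A, hA⟩ := FA.Deform.exists_liesOverPrime hℓ
  obtain ⟨σ, hσ⟩ := FA.Deform.exists_isFrobeniusAt hℓ hA
  obtain ⟨hT, -⟩ := FA.Density.trace_det_eq_of_frobenius r e (hopen ρ) he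
    (bad ∪ N.primeFactors ∪ W.Δ.natAbs.primeFactors ∪ {p}) (fun q hq hqS A hA σ hσ => by
      simp only [Finset.mem_union, Finset.mem_singleton, not_or, Nat.mem_primeFactors] at hqS
      obtain ⟨⟨⟨hqb, hqN⟩, hqW⟩, hqp⟩ := hqS
      have hqN' : ¬ q ∣ N := fun hd => hqN ⟨hq, hd, hN⟩
      have hg : W.IsGoodPrimeFor q := fun hd =>
        hqW ⟨hq, Int.natCast_dvd.1 hd, Int.natAbs_ne_zero.2 hΔ⟩
      obtain ⟨b, hb, htr, hdr⟩ := hr q hq hqN' hqp A hA σ hσ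
      obtain ⟨hte, hde⟩ := hE q hq hg hqp A hA σ hσ
      obtain ⟨x, hx, hxm⟩ := h q hq hqb hqN'
      refine ⟨htr.trans (Eq.trans ?_ hte.symm), hdr.trans hde.symm⟩
      rw [show b = x from Subtype.ext (hb.trans hx.symm)]
      exact Ideal.Quotient.eq.2 hxm) σ
  obtain ⟨b, hb, htr, -⟩ := hr ℓ hℓ hℓN hℓp A hA σ hσ
  rw [show b = a₀ from Subtype.ext (hb.trans ha.symm), hT,
    (hE ℓ hℓ hgood hℓp A hA σ hσ).1] at htr
  exact Ideal.Quotient.eq.1 htr.symm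

/-! ### Frey packages -/

/-- The integral Frey model is a model of the Frey curve. -/
theorem freyCurveInt_isModel (P : FreyPackage) :
    P.freyCurveInt.IsIntegralModelOf P.freyCurve :=
  ⟨1, by rw [one_smul, FA.Switch.freyInt_map]⟩

omit [Fact p.Prime] in
/-- Residual modularity of a Frey package is that of its integral model. -/
theorem isResiduallyModularOfLevel_of_modularRep {P : FreyPackage} (hN : N ≠ 0)
    (h : P.ModularRepOfLevel N) : P.freyCurveInt.IsResiduallyModularOfLevel P.p N := by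
  classical
  obtain ⟨f, W, 𝔪, hf, hW, hm, hpm, hcong⟩ := h
  haveI := hm
  haveI : Fact P.p.Prime := ⟨P.pp⟩
  refine isResiduallyModularOfLevel_of_almost_all (FA.Switch.freyInt_Δ_ne_zero P) hN hf 𝔪 hpm
    (W.Δ.natAbs.primeFactors ∪ P.freyCurveInt.Δ.natAbs.primeFactors ∪ {P.p})
    fun ℓ hℓ hb hℓN => ?_
  simp only [Finset.mem_union, Finset.mem_singleton, not_or, Nat.mem_primeFactors] at hb
  obtain ⟨⟨hb1, hb2⟩, hℓp⟩ := hb
  have hWΔ : W.Δ ≠ 0 := by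
    obtain ⟨C, hC⟩ := hW
    intro h0
    have h1 := congrArg WeierstrassCurve.Δ hC
    rw [WeierstrassCurve.variableChange_Δ, WeierstrassCurve.map_Δ, h0, map_zero] at h1
    have h2 : P.freyCurve.Δ ≠ 0 := by
      rw [← FA.Switch.freyInt_map, WeierstrassCurve.map_Δ]
      exact Int.cast_ne_zero.2 (FA.Switch.freyInt_Δ_ne_zero P)
    exact h2 (by simpa using h1.symm)
  have hgW : W.IsGoodPrimeFor ℓ := fun hd =>
    hb1 ⟨hℓ, Int.natCast_dvd.1 hd, Int.natAbs_ne_zero.2 hWΔ⟩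
  have hgF : P.freyCurveInt.IsGoodPrimeFor ℓ := fun hd =>
    hb2 ⟨hℓ, Int.natCast_dvd.1 hd, Int.natAbs_ne_zero.2 (FA.Switch.freyInt_Δ_ne_zero P)⟩
  obtain ⟨x, hx, hxm⟩ := hcong ℓ hℓ hgW hℓN hℓp
  refine ⟨x, hx, ?_⟩
  have hd := (ZMod.intCast_eq_intCast_iff_dvd_sub _ _ P.p).mp
    (FA.Frob.apOfModel_congr (freyCurveInt_isModel P) hW hℓ hgF hgW (p := P.p) (Ne.symm hℓp))
  obtain ⟨z, hz⟩ := hd
  have e : x - (P.freyCurveInt.apOfModel ℓ : OC) =
      (x - (W.apOfModel ℓ : OC)) + (P.p : OC) * (z : OC) := by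
    have h' := congrArg (Int.cast : ℤ → OC) hz
    push_cast at h'
    linear_combination h'
  rw [e]
  exact add_mem hxm (Ideal.mul_mem_right _ _ hpm)

omit [NeZero N] [Fact p.Prime] in
/-- Residual modularity of the integral model gives that of the Frey package. -/
theorem modularRep_of_isResiduallyModularOfLevel {P : FreyPackage}
    (h : P.freyCurveInt.IsResiduallyModularOfLevel P.p N) : P.ModularRepOfLevel N := by
  obtain ⟨f, 𝔪, hf, hm, hpm, hcong⟩ := h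
  exact ⟨f, P.freyCurveInt, 𝔪, hf, freyCurveInt_isModel P, hm, hpm, hcong⟩

/-! ### Residual systems and residual modularity -/

/-- The residual system of a residually modular curve. -/
theorem hasSys_of_isResiduallyModularOfLevel {W : WeierstrassCurve ℤ}
    (hc : ∀ ℓ, ℓ ∉ S → c ℓ = (W.apOfModel (ℓ : ℕ) : ResidueField O))
    (hS : ∀ ℓ : Nat.Primes, ℓ ∉ S → W.IsGoodPrimeFor ℓ ∧ ¬ (ℓ : ℕ) ∣ N ∧ (ℓ : ℕ) ≠ p)
    (h : W.IsResiduallyModularOfLevel p N) : HasSys S c N := by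
  obtain ⟨f, 𝔪, hf, hm, hpm, hcong⟩ := h
  haveI := hm
  obtain ⟨w, hw, heig⟩ := exists_residual_class (p := p) hf 𝔪 hpm (fun ℓ => W.apOfModel ℓ)
    (fun ℓ => W.IsGoodPrimeFor ℓ ∧ ℓ ≠ p) fun ℓ hℓ hℓN hP => hcong ℓ hℓ hP.1 hℓN hP.2
  exact hasSys_of_residual_class (a := fun ℓ => W.apOfModel ℓ) hc w hw fun ℓ hℓ γ =>
    heig ℓ (hS ℓ hℓ).2.1 ⟨(hS ℓ hℓ).1, (hS ℓ hℓ).2.2⟩ γ

/-- A curve whose residual system occurs at a level is residually modular of that level. -/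
theorem isResiduallyModularOfLevel_of_hasSys {W : WeierstrassCurve ℤ} (hΔ : W.Δ ≠ 0)
    (hc : ∀ ℓ, ℓ ∉ S → c ℓ = (W.apOfModel (ℓ : ℕ) : ResidueField O))
    (hNE : ∀ L : ℕ, L ≠ 0 → ∃ ℓ : Nat.Primes, ¬ (ℓ : ℕ) ∣ L ∧
      ((ℓ : ℕ) : ZMod L) = 1 ∧ c ℓ ≠ ((ℓ : ℕ) : ResidueField O) + 1)
    (h : HasSys S c N) : W.IsResiduallyModularOfLevel p N := by
  classical
  obtain ⟨g, 𝔪, hg, hm, hpm, hcong⟩ :=
    exists_eigenform_of_hasSys (p := p) (a := fun ℓ => W.apOfModel ℓ) hc hNE h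
  haveI := hm
  refine isResiduallyModularOfLevel_of_almost_all hΔ (NeZero.ne N) hg 𝔪 hpm
    (Finset.image (fun ℓ : Nat.Primes => (ℓ : ℕ)) S) fun ℓ hℓ hb hℓN => hcong ⟨ℓ, hℓ⟩ (fun hmem => hb ?_) hℓN
  exact Finset.mem_image.2 ⟨_, hmem, rfl⟩

end FA.Root

end
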