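import Fermat.Agent.Root.RemovalEnd
import Fermat.Agent.RT.Tower.MonoGlue
import Fermat.Agent.ModField.Semistable.Mono.Eta.Datum

/-!
# The data of the towers of a removal

The Hecke data of a Taylor–Wiles set at the levels of a removal, and the rank of inertia on their
modules.
-/

set_option autoImplicit false
set_option linter.style.haveILetI false
set_option linter.unusedSectionVars false
set_option maxHeartbeats 800000

noncomputable section

open IsLocalRing Matrix WeierstrassCurve FA.RT FA.Deform FA.TW FA.Frob FA.HeckeH1 FA.JTorsion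
open scoped MatrixGroups

namespace FA.Root

local notation "M2" => Matrix (Fin 2) (Fin 2)
local notation "Qb" => AlgebraicClosure ℚ
local notation "GQ" => AlgebraicClosure ℚ ≃ₐ[ℚ] AlgebraicClosure ℚ

variable {p : ℕ} [Fact p.Prime] (W : WeierstrassCurve ℤ) [(FA.Frob.ratCurve W).IsElliptic]
  {O : Type} [CommRing O] [IsDomain O] [IsDiscreteValuationRing O]
  [IsAdicComplete (maximalIdeal O) O] [CharZero O] [Finite (ResidueField O)]
  (hp2 : p ≠ 2) (hpO : (p : O) ∈ maximalIdeal O) (ι : ℤ_[p] →+* O)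
  (j : ZMod p →+* ResidueField O) (P : Places) (hΔ : W.Δ ≠ 0) (hW : W.IsSemistableModel)
  (hfl : (p : ℤ) ∣ W.Δ → p ∣ padicValInt p W.Δ) (N : ℕ)
  {q : ℕ} (hq : q.Prime) (hqp : q ≠ p) (hqN : q ∣ N) (hN : Squarefree N) (hpN : ¬ p ∣ N)

local notation "SS" => remSetup W hp2 hpO ι j P hΔ hW hfl N
local notation "EE" => remEmb W hp2 hpO ι j P hΔ hW hfl N hq hqp hqN hN
local notation "LL" => remLevels W hp2 hpO ι j P hΔ hW hfl N hq hqp hqN hN hpN

include hpO in
/-- At `p ≥ 5` every level is neat. -/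
theorem isNeatOn_of_five (hp5 : 5 ≤ p) {Γ : Subgroup SL(2, ℤ)} :
    IsNeatOn O Γ := by
  have hunit : ∀ m : ℕ, ¬ p ∣ m → IsUnit (m : O) := fun m hm => by
    refine IsLocalRing.notMem_maximalIdeal.1 fun h => (maximalIdeal.isMaximal O).ne_top ?_
    obtain ⟨x, y, hxy⟩ := (Nat.isCoprime_iff_coprime.mpr
      ((Fact.out : p.Prime).coprime_iff_not_dvd.mpr hm) : IsCoprime (p : ℤ) (m : ℤ))
    refine (Ideal.eq_top_iff_one _).mpr ?_
    have h1 := congrArg (fun z : ℤ => (z : O)) hxy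
    push_cast at h1
    rw [← h1]
    exact add_mem (Ideal.mul_mem_left _ _ hpO) (Ideal.mul_mem_left _ _ h)
  refine isNeatOn_of_trace (Or.inl ?_) (Or.inl ?_)
  · exact_mod_cast hunit 2 fun h => by
      have := Nat.le_of_dvd two_pos h; omega
  · exact_mod_cast hunit 3 fun h => by
      have := Nat.le_of_dvd three_pos h; omega

omit [(FA.Frob.ratCurve W).IsElliptic] [Fact p.Prime] in
/-- Primes outside the removal are good. -/
theorem good_of_notMem_remSig (hΔ : W.Δ ≠ 0) {N ℓ : ℕ} (hℓ : ℓ.Prime)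
    (h : ℓ ∉ insert p (remSig W N p)) : ℓ ≠ p ∧ W.IsGoodPrimeFor ℓ :=
  have hlp : ℓ ≠ p := fun e => h (e ▸ Finset.mem_insert_self _ _)
  ⟨hlp, fun hd => h (Finset.mem_insert_of_mem (mem_remSig_of_bad hΔ hℓ hlp hd))⟩

include hqp in
/-- **The Hecke data of a Taylor–Wiles set of the removal.** -/
theorem exists_remTWPart (hp5 : 5 ≤ p) (hirr : W.ModRepIsIrreducible p) {rr n : ℕ}
    (D : (SS).TWSet rr n) (ab : Fin rr → ResidueField O) (hinj : Function.Injective D.qv)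
    (hgen : IsTameGenSet D) (hT : ∀ i, D.qv i ∉ (SS).T)
    (hab : ∀ i, ab i * ab i - ((SS).rb (D.φ i)).trace * ab i + ((SS).rb (D.φ i)).det = 0) :
    haveI : NeZero (SS).p := ⟨(SS).hp.ne_zero⟩
    ∃ T : TWPart LL (remSys W) (DGroup (SS).p D.expo) ((SS).T ∪ Finset.univ.image D.qv),
      T.p = (SS).p ∧ T.Q = twQ D ∧
      (∀ (i : Fin rr) (q : Nat.Primes), (q : ℕ) = D.qv i → residue O (T.α q) = ab i) ∧
      ∀ (i : Fin rr) (u : (ZMod (∏ q ∈ T.Q, (q : ℕ)))ˣ),
        haveI : Fact (D.qv i).Prime := ⟨(D.prime i).1⟩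
        (ZMod.cast (u : ZMod (∏ q ∈ T.Q, (q : ℕ))) : ZMod (D.qv i)) =
          (cycK (D.qv i) (ZMod (D.qv i)) (D.s i) : ZMod (D.qv i)) →
        (∀ j, j ≠ i →
          (ZMod.cast (u : ZMod (∏ q ∈ T.Q, (q : ℕ))) : ZMod (D.qv j)) = 1) →
        T.κ u * dGen (SS).p D.expo i ^ 2 = 1 := by
  refine exists_twPart D hinj hgen LL (remSys W) (remSys_ne W hp2 hpO hΔ hirr)
    (isNeatOn_of_five hpO hp5) hT (fun i ℓ hℓ h => hT i (hℓ ▸ Finset.mem_subtype.1 h)) ab hab
    fun i ℓ hℓ => ?_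
  obtain ⟨hℓp, hg⟩ := good_of_notMem_remSig W hΔ ℓ.2
    (hℓ ▸ hT i : (ℓ : ℕ) ∉ insert p (remSig W N p))
  have hσ : (P.place (ℓ : ℕ)).IsFrobeniusAt (D.φ i) ℓ := hℓ ▸ D.φ_spec i
  refine ⟨?_, det_mapRep_curveRep W j _ _ fun μ hμ =>
    FA.TW.frobenius_apply_rootOfUnity (m := 1) Fact.out ℓ.2 hℓp (P.liesOver _ ℓ.2) hσ
      (by rw [pow_one]; exact hμ)⟩
  show ((j.mapMatrix (curveRep p W (D.φ i)))).trace = _
  rw [RingHom.mapMatrix_apply, ← AddMonoidHom.map_trace j,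
    trace_curveRep W ℓ.2 hg (Ne.symm hℓp) (P.liesOver _ ℓ.2) hσ, map_intCast]
  rfl

include hqp in
/-- **The rank of inertia on the modules of the removal.** -/
theorem remMonoTower (hp5 : 5 ≤ p) (hirr : W.ModRepIsIrreducible p)
    (sep : ∀ U, (SS).Separation EE ((LL).baseLevels (remSys W)) U
      ((SS).BaseAllowed fun B _ _ _ m => AtFlat p B m)) :
    Setup.MonoTower ((LL).baseTower SS (remSys W) (remSys_ne W hp2 hpO hΔ hirr) sep) :=
  letI : Algebra Qb ℂ := (IsAlgClosed.lift (R := ℚ) (S := Qb) (M := ℂ)).toRingHom.toAlgebra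
  Setup.monoTower_of_monoAt LL (remSys W) (remSys_ne W hp2 hpO hΔ hirr)
    (fun ℓ hℓ hd => hℓ (Finset.mem_subtype.2 ((LL).mem_bad _ ℓ.2 hd)))
    (Finset.mem_insert_self _ _)
    (fun ℓ hℓ hb A hA σ hσ => by
      show residue O (ι (cycP p σ : ℤ_[p])) = _
      rw [cycP_frobenius p hℓ (fun e => hb (Finset.mem_insert.2 (Or.inl e))) hA hσ, map_natCast,
        map_natCast])
    sep (flatCurveSetup_span W hp2 hpO ι j P hΔ hW hfl _ (remSig_spec W N p) hirr)
    (fun _ _ _ => Or.inl hp5)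
    fun M r _ _ _ A s => FA.ModField.monoAt M r (SS).p (ResidueField O) A s _ _

end FA.Root

end
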