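import Fermat.Agent.Root.LiftOddSeps
import Fermat.Agent.Root.RemovalGlue
import Fermat.Agent.Root.PairResidual
import Fermat.Agent.RT.TWPoint.BaseSep
import Fermat.Agent.RT.TWPoint.StrictCurve

/-!
# Separating lifts at the base levels of a removal and of a pair

The lifts of the points of the pieces at the base levels: flat at a good `p`, strictly ordinary
where the residual representation is très ramifiée; in the union of the two worlds, those of the
levels without `p` are flat.
-/

set_option autoImplicit false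
set_option linter.style.haveILetI false
set_option linter.unusedSectionVars false
set_option maxHeartbeats 800000

noncomputable section

open IsLocalRing Matrix WeierstrassCurve FA.RT FA.Deform FA.TW FA.Frob FA.HeckeH1
open FA.JTorsion (cycP)

namespace FA.Root

local notation "M2" => Matrix (Fin 2) (Fin 2)
local notation "Qb" => AlgebraicClosure ℚ
local notation "GQ" => AlgebraicClosure ℚ ≃ₐ[ℚ] AlgebraicClosure ℚ

variable {p : ℕ} [Fact p.Prime] (W W' : WeierstrassCurve ℤ)
  [(FA.Frob.ratCurve W).IsElliptic] [(FA.Frob.ratCurve W').IsElliptic]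
  {O : Type} [CommRing O] [IsDomain O] [IsDiscreteValuationRing O]
  [IsAdicComplete (maximalIdeal O) O] [Finite (ResidueField O)] [CharZero O]
  (hp2 : p ≠ 2) (hpO : (p : O) ∈ maximalIdeal O) (ι : ℤ_[p] →+* O)
  (j : ZMod p →+* ResidueField O) (P : Places) (hΔ : W.Δ ≠ 0) (hΔ' : W'.Δ ≠ 0)
  (hW : W.IsSemistableModel)

section removal

variable (hfl : (p : ℤ) ∣ W.Δ → p ∣ padicValInt p W.Δ) (N : ℕ)
  {q : ℕ} (hq : q.Prime) (hqp : q ≠ p) (hqN : q ∣ N) (hN : Squarefree N) (hpN : ¬ p ∣ N)

local notation "SS" => remSetup W hp2 hpO ι j P hΔ hW hfl N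
local notation "EE" => remEmb W hp2 hpO ι j P hΔ hW hfl N hq hqp hqN hN
local notation "LL" => remLevels W hp2 hpO ι j P hΔ hW hfl N hq hqp hqN hN hpN

theorem frobTrace_rem : FrobTrace SS (LL).L0 (LL).S (remSys W) := fun ℓ hℓ _ _ _ hA _ hσ =>
  (trace_remRb W hp2 hpO ι j P hΔ hW hfl N ℓ (fun h => hℓ (Finset.mem_subtype.2 h)) hA hσ).symm

/-- **Separating lifts at the base of a removal.** -/
theorem remBaseSep (hirr : W.ModRepIsIrreducible p) :
    Nonempty (∀ U, (SS).Separation EE ((LL).baseLevels (remSys W)) U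
      ((SS).BaseAllowed fun B _ _ _ m => AtFlat p B m)) := by
  haveI : Fact (SS).p.Prime := ⟨(SS).hp⟩
  have hNE := remSys_ne W hp2 hpO hΔ (O := O) hirr
  have hspan := flatCurveSetup_span W hp2 hpO ι j P hΔ hW hfl _ (remSig_spec W N p) hirr
  have hc := frobTrace_rem W hp2 hpO ι j P hΔ hW hfl N hq hqp hqN hN hpN
  have h0 : ¬ p ∣ (LL).L0 := fun h => hpN (h.trans (Nat.div_dvd_of_dvd hqN))
  refine ⟨fun U => Classical.choice (exists_baseSeparation (S := SS) (emb := EE) LL (remSys W) hNE ι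
    (fun _ => rfl) hspan (det_remRb W hp2 hpO ι j P hΔ hW hfl N) hc (fun r hr h => (LL).mem_bad r hr h)
    (fun r hr h => ((SS).prime_Sig r hr).1.ne_one (Nat.isUnit_iff.1
      (hN r (h.trans (Nat.div_dvd_of_dvd hqN)))))
    (Finset.mem_insert_self _ _) U fun D => ?_)⟩
  exact flat_basePoint (S := SS) (emb := EE) LL (remSys W) hNE hspan hc h0 U D

end removal

variable {r : ℕ} (haux : LiftAux p W W' r)

local notation "SS" => pairSetup W W' hp2 hpO ι j P hΔ hW haux
local notation "LL" => pairLevels W W' hp2 hpO ι j P hΔ hW haux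

include hΔ' in
theorem frobTrace_pair : FrobTrace SS (LL).L0 (LL).S (sysVal W j) := fun ℓ hℓ _ _ _ hA _ hσ =>
  (trace_pairRb W W' hp2 hpO ι j P hΔ hΔ' hW haux ℓ (fun h => hℓ ((mem_sysSet W W' ℓ).2 h))
    hA hσ).symm

theorem sq_not_dvd_pairL0 (q : ℕ) (hq : q ∈ (SS).Sig) : ¬ q * q ∣ (LL).L0 := fun h =>
  ((SS).prime_Sig q hq).1.ne_one (Nat.isUnit_iff.1
    (squarefree_pairLevels W W' hp2 hpO ι j P hΔ hW haux ∅ q (h.trans ((LL).dvd_lvl ∅))))

include hΔ' in
/-- The piece of a level of the pair. -/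
theorem twPiece_pair (hirr : W.ModRepIsIrreducible p) (U : Finset (Rem SS r)) :
    haveI : Fact (SS).p.Prime := ⟨(SS).hp⟩
    TWPiece (SS).p (SS).rb ∅
      (insert (SS).p (((LL).lvl U).primeFactors ∪ (LL).S.image Subtype.val))
      (liftVal (sysVal W j)) (fun _ => 0) ((LL).frame (sysVal W j) U).e :=
  twPiece_base (S := SS) (emb := (Subtype.val : Rem SS r → ↥(SS).Sig)) LL (sysVal W j)
    (pair_nonEisenstein W hp2 hpO j hΔ hirr)
    (frobTrace_pair W W' hp2 hpO ι j P hΔ hΔ' hW haux) U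

include hΔ' in
/-- **Separating lifts at the base of a pair with one world at `p`.** -/
theorem pairBaseSep (hirr : W.ModRepIsIrreducible p)
    (htres : (p : ℤ) ∣ W.Δ → ¬ p ∣ padicValInt p W.Δ) :
    Nonempty (∀ U, (SS).Separation (Subtype.val : Rem SS r → ↥(SS).Sig)
      ((LL).baseLevels (sysVal W j)) U ((SS).BaseAllowed fun B _ _ _ m => AtWorld p W B m)) := by
  haveI : Fact (SS).p.Prime := ⟨(SS).hp⟩
  have hNE := pair_nonEisenstein W hp2 hpO j hΔ (O := O) hirr
  have hspan := curveSetup_span W hp2 hpO ι j P hΔ hW _ (sigSet_spec haux) hirr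
  have hc := frobTrace_pair W W' hp2 hpO ι j P hΔ hΔ' hW haux
  refine ⟨fun U => Classical.choice (exists_baseSeparation (S := SS)
    (emb := (Subtype.val : Rem SS r → ↥(SS).Sig)) LL (sysVal W j) hNE ι (fun _ => rfl) hspan
    (det_pairRb W W' hp2 hpO ι j P hΔ hW haux) hc (fun q hq h => (LL).mem_bad q hq h)
    (sq_not_dvd_pairL0 W W' hp2 hpO ι j P hΔ hW haux) (Finset.mem_insert_self _ _) U
    fun D => ⟨fun hbad => ?_, fun hgood => ?_⟩)⟩
  · exact (twPiece_pair W W' hp2 hpO ι j P hΔ hΔ' hW haux hirr U).atStrict_of_not_flat hp2 hpO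
      ((p_dvd_pairLevels_iff W W' hp2 hpO ι j P hΔ hW haux U).2 hbad)
      (p_sq_not_dvd_pairLevels W W' hp2 hpO ι j P hΔ hW haux U) hspan
      (fun A hA => isOrdType_mapRep_curveRep W hΔ hW hp2 hbad j A hA)
      D.hz D.hη D.hm D.lift D.cont D.det D.trace
      (not_atFlat_pointRing_of_tres W hΔ hW hp2 hbad (htres hbad) j D.lift)
  · exact flat_basePoint (S := SS) (emb := (Subtype.val : Rem SS r → ↥(SS).Sig)) LL (sysVal W j)
      hNE hspan hc (fun h => p_not_dvd_pairLevels W W' hp2 hpO ι j P hΔ hW haux hgood ∅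
        (h.trans ((LL).dvd_lvl ∅))) U D

section union

variable (hbad : (p : ℤ) ∣ W.Δ) (hval : p ∣ padicValInt p W.Δ)

local notation "SU" => unionPairSetup W W' hp2 hpO ι j P hΔ hW hbad hval haux
local notation "UL" => unionPairLevels W W' hp2 hpO ι j P hΔ hW hbad hval haux
local notation "UP" => unionPPart W W' hp2 hpO ι j P hΔ hW hbad hval haux

include hΔ' in
theorem frobTrace_union {L0 : ℕ} : FrobTrace SU L0 (UL).S (sysVal W j) := fun ℓ hℓ _ _ _ hA _ hσ =>
  (trace_unionPairRb W W' hp2 hpO ι j P hΔ hΔ' hW haux hbad hval ℓ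
    (fun h => hℓ ((mem_sysSet W W' ℓ).2 h)) hA hσ).symm

include hΔ' in
/-- **Separating lifts at the base of a pair in the union.** -/
theorem unionBaseSep (hirr : W.ModRepIsIrreducible p) :
    Nonempty (∀ U, (SU).Separation (Subtype.val : Rem SU r → ↥(SU).Sig)
      ((UL).baseLevels (sysVal W j)) U ((SU).BaseAllowed (fun _ _ _ _ _ => True))) := by
  haveI : Fact (SU).p.Prime := ⟨(SU).hp⟩
  exact ⟨fun U => Classical.choice (exists_baseSeparation (S := SU)
    (emb := (Subtype.val : Rem SU r → ↥(SU).Sig)) UL (sysVal W j)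
    (pair_nonEisenstein W hp2 hpO j hΔ hirr) ι (fun _ => rfl)
    (unionCurveSetup_span W hp2 hpO ι j P hΔ hW hbad hval _ (sigSet_spec haux) hirr)
    (det_unionPairRb W W' hp2 hpO ι j P hΔ hW haux hbad hval)
    (frobTrace_union W W' hp2 hpO ι j P hΔ hΔ' hW haux hbad hval)
    (fun q hq h => (UL).mem_bad q hq h)
    (fun q hq => sq_not_dvd_pairL0 W W' hp2 hpO ι j P hΔ hW haux q hq)
    (Finset.mem_insert_self _ _) U fun _ => trivial)⟩

include hΔ' in
/-- **Separating lifts of the old part at the base of a pair in the union.** -/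
theorem unionBaseSepF (hirr : W.ModRepIsIrreducible p) :
    Nonempty (∀ U, (SU).PartSep (((UP).pLevels (sysVal W j)).TF U) (insert p (sigSet p W W' r))
      fun B _ _ _ m => (SU).BaseAllowed (fun _ _ _ _ _ => True) B m ∧ AtFlat p B m) := by
  haveI : Fact (SU).p.Prime := ⟨(SU).hp⟩
  have hNE := pair_nonEisenstein W hp2 hpO j hΔ (O := O) hirr
  have hspan := unionCurveSetup_span W hp2 hpO ι j P hΔ hW hbad hval _ (sigSet_spec haux) hirr
  have hc := frobTrace_union W W' hp2 hpO ι j P hΔ hΔ' hW haux hbad hval (L0 := (UP).old.L0)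
  refine ⟨fun U => ?_⟩
  let s := Classical.choice (exists_baseSeparation (S := SU)
    (emb := (Subtype.val : Rem SU r → ↥(SU).Sig))
    (AtP := fun B _ _ _ m => AtFlat p B m) (UP).old (sysVal W j) hNE ι (fun _ => rfl) hspan
    (det_unionPairRb W W' hp2 hpO ι j P hΔ hW haux hbad hval) hc
    (fun q hq h => (UP).old.mem_bad q hq h)
    (fun q hq h => sq_not_dvd_pairL0 W W' hp2 hpO ι j P hΔ hW haux q hq
      (h.trans (by show _ ∣ (UL).L0; rw [(UP).eq]; exact dvd_mul_right _ _)))
    (Finset.mem_insert_self _ _) U fun D =>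
      flat_basePoint (S := SU) (emb := (Subtype.val : Rem SU r → ↥(SU).Sig)) (UP).old (sysVal W j)
        hNE hspan hc (UP).not_dvd U D)
  exact
    { pts := s.pts
      ev := s.ev
      ev_injective := s.ev_injective
      good := fun i => ⟨⟨(s.good i).1, (s.good i).2.1, trivial⟩, (s.good i).2.2⟩
      ev_T := fun ℓ hℓ hb => s.ev_T ℓ hℓ (Or.inl hb) }

end union

end FA.Root

end
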