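import Fermat.Agent.Root.SepsBase

/-!
# The levels of a Taylor–Wiles set

The levels above a squarefree level are squarefree, and `p` divides them as it divides the level
below.
-/

set_option autoImplicit false
set_option linter.style.haveILetI false
set_option linter.unusedSectionVars false

noncomputable section

open IsLocalRing Matrix FA.RT FA.TW FA.HeckeH1

namespace FA.Root

variable {O : Type} [CommRing O] [IsDomain O] [IsDiscreteValuationRing O]
  [IsAdicComplete (maximalIdeal O) O] [CharZero O] {X : Type} [DecidableEq X] {qn : X → ℕ}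
  {bad : Finset ℕ} {L : LevelSet qn bad} {c : Nat.Primes → ResidueField O} {G : Type}
  [CommGroup G] {bad' : Finset ℕ} (T : TWPart L c G bad') (U : Finset X)

/-- The level of a Taylor–Wiles set over a squarefree level is squarefree. -/
theorem squarefree_twLvl (h : Squarefree L.L0) : Squarefree (T.lvl U) := by
  refine (Nat.squarefree_mul ?_).2 ⟨squarefree_levelSet L h U,
    squarefree_prod_primes T.Q (fun q => (q : ℕ)) (fun q _ => q.2) fun _ _ _ _ e => Subtype.ext e⟩
  exact Nat.Coprime.prod_right fun q hq =>
    (q.2.coprime_iff_not_dvd.2 (T.Q_not_dvd U hq)).symm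

/-- No square of a prime divides the level of a Taylor–Wiles set over a squarefree level. -/
theorem sq_not_dvd_twLvl (h : Squarefree L.L0) {q : ℕ} (hq : q.Prime) : ¬ q * q ∣ T.lvl U :=
  fun hd => hq.ne_one (Nat.isUnit_iff.1 (squarefree_twLvl T U h q hd))

/-- The Taylor–Wiles primes differ from the residue characteristic. -/
theorem twQ_ne_char {q : Nat.Primes} (hq : q ∈ T.Q) : (q : ℕ) ≠ T.p := fun e => by
  haveI := T.charP
  exact zero_ne_one (((CharP.cast_eq_zero (ResidueField O) T.p).symm.trans (by rw [e])).trans
    (T.q_one q hq))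

/-- The residue characteristic divides the level of a Taylor–Wiles set only through that below. -/
theorem dvd_lvl_of_dvd_twLvl (h : T.p ∣ T.lvl U) : T.p ∣ L.lvl U := by
  rcases T.hp.dvd_mul.1 h with h | h
  · exact h
  · obtain ⟨q, hq, hd⟩ := (Prime.dvd_finsetProd_iff T.hp.prime _).1 h
    exact absurd ((Nat.prime_dvd_prime_iff_eq T.hp q.2).1 hd).symm (twQ_ne_char T hq)

end FA.Root

end
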