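import Fermat.Agent.Root.SummaryEtaFourteenFifteen
import Fermat.Agent.Root.SummaryAbelianInverseGalois
import Fermat.Agent.Root.SummaryBauer
import Fermat.Agent.Root.SummaryGaloisGL2All
import Fermat.Agent.Root.SummaryRankZero
import Fermat.Agent.Density.Places
import Fermat.Agent.Tau.GaloisEleven
import Fermat.Agent.Thirteen.Summary
import Fermat.Agent.Torsion.ReductionDvd

/-!
# Torsion fields of the curves with eta products

The field cut out by irreducible `p`-torsion of a semistable equation, the trivial action of the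
decomposition groups at completely split primes, and the congruences of the coefficients with the
sums of divisors coming from rational torsion.
-/

set_option autoImplicit false
set_option linter.style.haveILetI false

noncomputable section

open WeierstrassCurve Matrix NumberField FA.Frob FA.RT
open IsLocalRing (ResidueField)
open scoped WeierstrassCurve.Affine Pointwise

local notation "Qb" => AlgebraicClosure ℚ
local notation "GQ" => AlgebraicClosure ℚ ≃ₐ[ℚ] AlgebraicClosure ℚ

namespace FA.Shimura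

/-! ### The field cut out by the torsion -/

/-- A decomposition group above a completely split prime acts trivially. -/
theorem apply_eq_self_of_split (K : IntermediateField ℚ Qb) [FiniteDimensional ℚ K] [IsGalois ℚ K]
    {q : ℕ} (hq : q.Prime)
    (hsplit : ((Ideal.span {(q : ℤ)}).primesOver (𝓞 K)).ncard = Module.finrank ℚ K)
    {A : ValuationSubring Qb} (hA : (q : Qb) ∈ A.nonunits) {σ : GQ}
    (hσ : σ ∈ A.decompositionSubgroup ℚ) {x : Qb} (hx : x ∈ K) : σ x = x := by
  haveI : NumberField K := { }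
  set P : Ideal (𝓞 K) := (FA.Deform.primeAt A).comap (FA.Local.intIncl K) with hP
  have hmem : ∀ y : 𝓞 K, y ∈ P ↔ ((y : K) : Qb) ∈ A.nonunits := fun y => by
    rw [hP, Ideal.mem_comap, FA.Deform.mem_primeAt]
    rfl
  have hqP : (q : 𝓞 K) ∈ P := by
    rw [hP, Ideal.mem_comap, map_natCast, FA.Deform.mem_primeAt]
    exact hA
  have hPp : P.IsPrime := Ideal.comap_isPrime _ _
  have hP0 : P ≠ ⊥ := fun h => by
    rw [h, Ideal.mem_bot] at hqP
    exact hq.ne_zero (by exact_mod_cast hqP)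
  have hPmax : P.IsMaximal := hPp.isMaximal hP0
  have hu := FA.FrobeniusDensity.under_eq hq hPmax.ne_top hqP
  have horb : (Ideal.span {(q : ℤ)}).primesOver (𝓞 K) ⊆ MulAction.orbit (K ≃ₐ[ℚ] K) P := by
    rintro Q ⟨hQ, hQo⟩
    obtain ⟨y, hy⟩ := Algebra.IsInvariant.exists_smul_of_under_eq ℤ (𝓞 K) (K ≃ₐ[ℚ] K) P Q
      (hu.trans hQo.over)
    exact ⟨y, hy.symm⟩
  have hbot : MulAction.stabilizer (K ≃ₐ[ℚ] K) P = ⊥ := by
    refine Subgroup.card_eq_one.mp ?_
    have hfin : (MulAction.orbit (K ≃ₐ[ℚ] K) P).Finite := Set.finite_range _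
    have h1 := Set.ncard_le_ncard horb hfin
    rw [hsplit, ← IsGalois.card_aut_eq_finrank, ← MulAction.index_stabilizer] at h1
    have hmul := Subgroup.card_mul_index (MulAction.stabilizer (K ≃ₐ[ℚ] K) P)
    have hpos : 0 < (MulAction.stabilizer (K ≃ₐ[ℚ] K) P).index :=
      Nat.pos_of_ne_zero Subgroup.index_ne_zero_of_finite
    have hpos' : 0 < Nat.card (MulAction.stabilizer (K ≃ₐ[ℚ] K) P) := Nat.card_pos
    nlinarith
  set g := σ.restrictNormal K with hg
  have hgy : ∀ y : 𝓞 K, (((g • y : 𝓞 K) : K) : Qb) = σ ((y : K) : Qb) := fun y =>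
    AlgEquiv.restrictNormal_commutes σ K (y : K)
  have hfix : g • P = P := by
    ext y
    rw [Ideal.mem_pointwise_smul_iff_inv_smul_mem, hmem, hmem]
    have h1 : σ (((g⁻¹ • y : 𝓞 K) : K) : Qb) = ((y : K) : Qb) := by
      rw [← hgy, smul_inv_smul]
    rw [← h1]
    conv_rhs => rw [← MulAction.mem_stabilizer_iff.mp hσ, FA.Density.mem_nonunits_smul_iff]
    rw [← AlgEquiv.mul_apply σ⁻¹ σ, inv_mul_cancel, AlgEquiv.one_apply]
  have hg1 : g = 1 := (Subgroup.eq_bot_iff_forall _).mp hbot g hfix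
  have e := AlgEquiv.restrictNormal_commutes σ K ⟨x, hx⟩
  rw [← hg, hg1] at e
  exact e.symm

/-- The field cut out by irreducible torsion: its completely split primes. -/
theorem exists_field {W : WeierstrassCurve ℤ} (hΔ : W.Δ ≠ 0) (hs : W.IsSemistableModel) (p : ℕ)
    [Fact p.Prime] (hirr : W.ModRepIsIrreducible p) :
    ∃ K : IntermediateField ℚ Qb, FiniteDimensional ℚ K ∧ IsGalois ℚ K ∧
      Nonempty ((K ≃ₐ[ℚ] K) ≃* GL (Fin 2) (ZMod p)) ∧
      ∀ l : ℕ, l.Prime → l ≠ p → ¬ (l : ℤ) ∣ W.Δ →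
        ((Ideal.span {(l : ℤ)}).primesOver (𝓞 K)).ncard = Module.finrank ℚ K →
          (l : ZMod p) = 1 ∧ (W.apOfModel l : ZMod p) = 2 := by
  obtain ⟨ρ, hopen, hsurj, h⟩ := FA.Tau.exists_rep hΔ hs p hirr
  obtain ⟨K, hfin, hgal, he, hiff⟩ :=
    FA.AbelianInverseGalois.exists_field_of_surjective ρ hsurj hopen
  refine ⟨K, hfin, hgal, he, fun l hl hlp hgood hsplit => ?_⟩
  obtain ⟨A, hA⟩ := FA.Deform.exists_liesOverPrime hl
  obtain ⟨σ, hσd, hσ⟩ := FA.Deform.exists_isFrobeniusAt hl hA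
  have hker : ρ σ = 1 := (hiff σ).1 fun x hx =>
    @apply_eq_self_of_split _ hfin hgal l hl hsplit A hA σ hσd x hx
  obtain ⟨ht, hd⟩ := (h l hl hlp hgood A hA).2 ⟨σ, hσd⟩ hσ
  rw [hker, Units.val_one] at ht hd
  rw [Matrix.det_one] at hd
  rw [Matrix.trace_one, Fintype.card_fin] at ht
  exact ⟨hd.symm, ht.symm.trans (by norm_num)⟩

/-! ### Congruences with the sums of divisors -/

/-- Coefficients congruent to `p + 1` at the primes not dividing `M` are congruent to the sums of
divisors at the `n` prime to `M`. -/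
theorem dvd_LFunction_sub_sigma (E : WeierstrassCurve ℚ) (W : WeierstrassCurve ℤ)
    (hW : W.IsIntegralModelOf E) {M : ℕ} (hM : ∀ p : ℕ, p.Prime → (p : ℤ) ∣ W.Δ → p ∣ M) {m : ℤ}
    (h : ∀ p : ℕ, p.Prime → ¬ p ∣ M → m ∣ W.apOfModel p - (p + 1)) {n : ℕ} (hn : n.Coprime M) :
    m ∣ E.LFunction n - (ArithmeticFunction.sigma 1 n : ℤ) := by
  induction n using Nat.recOnPosPrimePosCoprime with
  | prime_pow p k hp hk =>
    have hpM : ¬ p ∣ M := fun hd => Nat.not_coprime_of_dvd_of_dvd hp.one_lt (dvd_pow_self p hk.ne') hd hn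
    have hgood : ¬ (p : ℤ) ∣ W.Δ := fun hd => hpM (hM p hp hd)
    obtain ⟨c, hc⟩ := h p hp hpM
    have hσ : ∀ r : ℕ, ((ArithmeticFunction.sigma 1 (p ^ r) : ℕ) : ℤ) = ∑ i ∈ Finset.range (r + 1), (p : ℤ) ^ i :=
      fun r => by rw [ArithmeticFunction.sigma_one_apply_prime_pow hp]; push_cast; rfl
    have key : ∀ r : ℕ, m ∣ E.LFunction (p ^ r) - (ArithmeticFunction.sigma 1 (p ^ r) : ℤ) := by
      intro r
      induction r using Nat.twoStepInduction with
      | zero => simp [(FA.Root.isMultiplicative_LFunction E).map_one]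
      | one =>
        rw [pow_one, FA.Root.LFunction_apply_prime E W hW hp hgood, ← pow_one p, hσ]
        exact ⟨c, by simp [Finset.sum_range_succ]; linarith⟩
      | more r ih₀ ih₁ =>
        obtain ⟨d₀, hd₀⟩ := ih₀
        obtain ⟨d₁, hd₁⟩ := ih₁
        rw [hσ] at hd₀ hd₁ ⊢
        rw [FA.Root.LFunction_apply_prime_pow_good E W hW hp hgood r]
        refine ⟨c * E.LFunction (p ^ (r + 1)) + (p + 1) * d₁ - p * d₀, ?_⟩
        rw [Finset.sum_range_succ _ (r + 2), Finset.sum_range_succ _ (r + 1)]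
        rw [Finset.sum_range_succ _ (r + 1)] at hd₁
        linear_combination E.LFunction (p ^ (r + 1)) * hc + ((p : ℤ) + 1) * hd₁ - (p : ℤ) * hd₀
    exact key k
  | zero => simp
  | one => simp [(FA.Root.isMultiplicative_LFunction E).map_one]
  | coprime a b _ _ hab iha ihb =>
    obtain ⟨x, hx⟩ := iha (hn.coprime_mul_right)
    obtain ⟨y, hy⟩ := ihb (hn.coprime_mul_left)
    rw [(FA.Root.isMultiplicative_LFunction E).map_mul_of_coprime hab,
      ArithmeticFunction.isMultiplicative_sigma.map_mul_of_coprime hab]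
    refine ⟨x * E.LFunction b + (ArithmeticFunction.sigma 1 a : ℤ) * y, ?_⟩
    push_cast
    linear_combination E.LFunction b * hx + (ArithmeticFunction.sigma 1 a : ℤ) * hy

/-- A divisor of the number of points. -/
theorem dvd_apOfModel_sub {W : WeierstrassCurve ℤ} {p m : ℕ}
    (h : m ∣ Nat.card (W.map (Int.castRingHom (ZMod p))).toAffine.Point) :
    (m : ℤ) ∣ W.apOfModel p - (p + 1) := by
  have e : W.apOfModel p - (p + 1) =
      -((Nat.card (W.map (Int.castRingHom (ZMod p))).toAffine.Point : ℕ) : ℤ) := by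
    rw [apOfModel, traceOfFrobenius, Nat.card_zmod, WeierstrassCurve.card, reductionMod]
    ring
  rw [e, dvd_neg]
  exact_mod_cast h

/-- All points of a finite group are torsion. -/
theorem natCard_torsion_of_equiv {G H : Type*} [AddCommGroup G] [AddCommGroup H] [Finite H]
    (e : G ≃+ H) : Nat.card (AddCommGroup.torsion G) = Nat.card H := by
  rw [FA.Torsion.natCard_torsion_congr e]
  exact Nat.card_congr (Equiv.subtypeUnivEquiv fun x => by
    rw [AddCommGroup.mem_torsion]
    exact isOfFinAddOrder_of_finite x)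

/-! ### Irreducibility -/

theorem curve11_irreducible {p : ℕ} (hp : p.Prime) (h5 : p ≠ 5) :
    FA.Ribet.curve11.ModRepIsIrreducible p := by
  haveI := Fact.mk hp
  haveI := FA.Frob.ratCurve_isElliptic_of_Δ (W := FA.Ribet.curve11) (by decide)
  rcases le_or_gt 11 p with h11 | h11
  · exact FA.Thirteen.modRepIsIrreducible_all (by decide) FA.Tau.semistable_curve11 hp h11
  obtain rfl | rfl | rfl : p = 2 ∨ p = 3 ∨ p = 7 := by
    interval_cases p <;> revert hp h5 <;> decide
  · exact FA.Root.Irred.modRepIsIrreducible_of_noRoot Nat.prime_three (by norm_num)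
      (show ¬ (3 : ℤ) ∣ _ by decide) FA.Ribet.curve11_three (by decide +revert)
  · refine FA.Root.Irred.modRepIsIrreducible_of_noRoot Nat.prime_five (by norm_num)
      (show ¬ (5 : ℤ) ∣ _ by decide) (a := 1) ?_ (by decide +revert)
    haveI : Fact (Nat.Prime 5) := ⟨Nat.prime_five⟩
    rw [FA.Ribet.apOfModel_eq_nsPts (l := 5) (a₁ := 0) (a₂ := -1) (a₃ := 1) (a₄ := 0) (a₆ := 0)
      (by ext <;> rfl)]
    decide +kernel +revert
  · refine FA.Root.Irred.modRepIsIrreducible_of_noRoot Nat.prime_two (by norm_num)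
      (show ¬ (2 : ℤ) ∣ _ by decide) (a := -2) ?_ (by decide +revert)
    haveI : Fact (Nat.Prime 2) := ⟨Nat.prime_two⟩
    rw [FA.Ribet.apOfModel_eq_nsPts (l := 2) (a₁ := 0) (a₂ := 1) (a₃ := 1) (a₄ := 0) (a₆ := 0)
      (by ext <;> rfl)]
    rfl

theorem curve14_irreducible {p : ℕ} (hp : p.Prime) (h2 : p ≠ 2) (h3 : p ≠ 3) :
    FA.Ribet.curve14.ModRepIsIrreducible p := by
  haveI := Fact.mk hp
  haveI := FA.Frob.ratCurve_isElliptic_of_Δ (W := FA.Ribet.curve14) (by decide)
  rcases le_or_gt 11 p with h11 | h11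
  · exact FA.Thirteen.modRepIsIrreducible_all (by decide) FA.EtaFour.semistable_curve14 hp h11
  obtain rfl | rfl : p = 5 ∨ p = 7 := by
    interval_cases p <;> revert hp h2 h3 <;> decide
  · exact FA.Root.Irred.modRepIsIrreducible_of_noRoot Nat.prime_three (by norm_num)
      (show ¬ (3 : ℤ) ∣ _ by decide) FA.Ribet.curve14_three (by decide +revert)
  · exact FA.Root.Irred.modRepIsIrreducible_of_noRoot Nat.prime_three (by norm_num)
      (show ¬ (3 : ℤ) ∣ _ by decide) FA.Ribet.curve14_three (by decide +revert)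

theorem curve15_irreducible {p : ℕ} (hp : p.Prime) (h2 : p ≠ 2) :
    FA.Root.curve15.ModRepIsIrreducible p := by
  haveI := Fact.mk hp
  haveI := FA.Frob.ratCurve_isElliptic_of_Δ (W := FA.Root.curve15) (by decide)
  rcases le_or_gt 11 p with h11 | h11
  · exact FA.Thirteen.modRepIsIrreducible_all (by decide) FA.EtaFour.semistable_curve15 hp h11
  have ha2 : FA.Root.curve15.apOfModel 2 = -1 := by
    haveI : Fact (Nat.Prime 2) := ⟨Nat.prime_two⟩
    rw [FA.Ribet.apOfModel_eq_nsPts (l := 2) (a₁ := 1) (a₂ := 1) (a₃ := 1) (a₄ := 0) (a₆ := 0)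
      (by ext <;> rfl)]
    rfl
  obtain rfl | rfl | rfl : p = 3 ∨ p = 5 ∨ p = 7 := by
    interval_cases p <;> revert hp h2 <;> decide
  · exact FA.Root.Irred.modRepIsIrreducible_of_noRoot Nat.prime_two (by norm_num)
      (show ¬ (2 : ℤ) ∣ _ by decide) ha2 (by decide +revert)
  · exact FA.Root.Irred.modRepIsIrreducible_of_noRoot Nat.prime_two (by norm_num)
      (show ¬ (2 : ℤ) ∣ _ by decide) ha2 (by decide +revert)
  · refine FA.Root.Irred.modRepIsIrreducible_of_noRoot (l := 17) (by norm_num) (by norm_num)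
      (show ¬ (17 : ℤ) ∣ _ by decide) (a := 2) ?_ (by decide +revert)
    haveI : Fact (Nat.Prime 17) := ⟨by norm_num⟩
    rw [FA.Ribet.apOfModel_eq_nsPts (l := 17) (a₁ := 1) (a₂ := 1) (a₃ := 1) (a₄ := 0) (a₆ := 0)
      (by ext <;> rfl)]
    rfl

end FA.Shimura

end
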