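import Fermat.Agent.Root.MathlibForm
import Fermat.Agent.Root.LFunctionFE
import Fermat.Agent.Root.NoGoodReduction

/-!
# The main theorems in Mathlib's language

The statements below mention no definition of this development or of the prelude: Fermat's Last
Theorem, the modularity of semistable elliptic curves over `ℚ`, and the analytic continuation and
functional equation of their L-series.
-/

set_option autoImplicit false

noncomputable section

open WeierstrassCurve
open scoped Real

namespace FA.Summary

/-- Fermat's Last Theorem. -/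
theorem fermat : FermatLastTheorem :=
  FA.Root.fermatLastTheorem_closed

/-- **Modularity**: every coefficient of the L-function of a semistable elliptic curve over `ℚ`
is that of a cusp form of weight two on some `Γ₀(N)`. -/
theorem modularity (E : WeierstrassCurve ℚ) [E.IsElliptic]
    (h : ∀ p : ℕ, ∀ [Fact p.Prime], ∃ C : VariableChange ℚ_[p],
      HasGoodReduction ℤ_[p] (C • E.map (algebraMap ℚ ℚ_[p])) ∨
        HasMultiplicativeReduction ℤ_[p] (C • E.map (algebraMap ℚ ℚ_[p]))) :
    ∃ (N : ℕ) (f : CuspForm (CongruenceSubgroup.Gamma0 N) 2), Squarefree N ∧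
      ∀ n : ℕ, (UpperHalfPlane.qExpansion 1 f).coeff n = (E.LFunction n : ℂ) := by
  obtain ⟨W, N, f, -, -, hsq, -, -, hn⟩ := FA.Root.exists_newform_LFunction E h
  exact ⟨N, f, hsq, hn⟩

/-- **Continuation and functional equation** of the L-series of such a curve, stated on `2 < re s`;
`functionalEquation_threeHalves` extends the formula to `3/2 < re s`. -/
theorem functionalEquation (E : WeierstrassCurve ℚ) [E.IsElliptic]
    (h : ∀ p : ℕ, ∀ [Fact p.Prime], ∃ C : VariableChange ℚ_[p],
      HasGoodReduction ℤ_[p] (C • E.map (algebraMap ℚ ℚ_[p])) ∨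
        HasMultiplicativeReduction ℤ_[p] (C • E.map (algebraMap ℚ ℚ_[p]))) :
    ∃ (N : ℕ) (ε : ℂ) (Λ : ℂ → ℂ), Squarefree N ∧ (ε = 1 ∨ ε = -1) ∧ Differentiable ℂ Λ ∧
      (∀ s : ℂ, 2 < s.re →
        Λ s = (N : ℂ) ^ (s / 2) * (2 * (π : ℂ)) ^ (-s) * Complex.Gamma s * E.LSeries s) ∧
      ∀ s : ℂ, Λ (2 - s) = ε * Λ s :=
  FA.Root.exists_completed_LSeries_functional_equation E h

/-- No elliptic curve over `ℚ` has good reduction everywhere. -/
theorem noGoodReductionEverywhere (E : WeierstrassCurve ℚ) [E.IsElliptic] :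
    ¬ ∀ p : ℕ, ∀ [Fact p.Prime], ∃ C : VariableChange ℚ_[p],
      HasGoodReduction ℤ_[p] (C • E.map (algebraMap ℚ ℚ_[p])) :=
  FA.Root.not_forall_hasGoodReduction E

end FA.Summary

end
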