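import Fermat.Agent.BrauerTheory.Cancel
import Fermat.Agent.BrauerTheory.LocalGlobal
import Fermat.Agent.Root.SummaryLocalClassField

/-!
# The theorem of Albert, Brauer, Hasse and Noether

* `albert_brauer_hasse_noether`: over a number field a Brauer class is trivial iff it is trivial at
  every prime and every real embedding.
* `albert_brauer_hasse_noether_algebra`: a central simple algebra over a number field is a matrix
  algebra iff it becomes one at every prime and every real embedding.
* `albert_brauer_hasse_noether_iso`: central simple algebras of one dimension are isomorphic iff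
  they have the same class at every prime and every real embedding.
* `albert_brauer_hasse_noether_injective`: `Br(K) → ∏ Br(K_v) × ∏ Br(ℝ)` is injective.
* `brauerGroup_index_dvd`: the index divides the degree of every splitting field.
* `brauerGroup_relative_local`: `Br(E/K_v) ≅ ℤ/n` for a cyclic extension `E/K_v` of degree `n`.
-/

set_option autoImplicit false

noncomputable section

open scoped TensorProduct
open Module NumberField IsDedekindDomain
open FA.BrauerTheory (restriction)

namespace FA.Summary

variable {K : Type} [Field K] [NumberField K]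

/-- **The theorem of Albert, Brauer, Hasse and Noether.** -/
theorem albert_brauer_hasse_noether (x : BrauerGroup.{0, 0} K) :
    x = 1 ↔ (∀ v : HeightOneSpectrum (𝓞 K), restriction (v.adicCompletion K) x = 1) ∧
      ∀ φ : K →+* ℝ, letI := φ.toAlgebra; restriction ℝ x = 1 :=
  ⟨fun h => ⟨fun v => by rw [h, map_one], fun φ => by rw [h, map_one]⟩,
    fun h => FA.BrauerTheory.eq_one_of_locallyTrivial h⟩

/-- **A central simple algebra split at every place is split.** -/
theorem albert_brauer_hasse_noether_algebra (A : CSA.{0, 0} K) :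
    (∃ n, n ≠ 0 ∧ Nonempty (A ≃ₐ[K] Matrix (Fin n) (Fin n) K)) ↔
      (∀ v : HeightOneSpectrum (𝓞 K), ∃ n, n ≠ 0 ∧ Nonempty
        (v.adicCompletion K ⊗[K] A ≃ₐ[v.adicCompletion K]
          Matrix (Fin n) (Fin n) (v.adicCompletion K))) ∧
      ∀ φ : K →+* ℝ, letI := φ.toAlgebra; ∃ n, n ≠ 0 ∧ Nonempty
        (ℝ ⊗[K] A ≃ₐ[ℝ] Matrix (Fin n) (Fin n) ℝ) := by
  rw [← FA.BrauerTheory.mk_eq_one_iff, albert_brauer_hasse_noether]
  exact and_congr (forall_congr' fun v => FA.BrauerTheory.restriction_eq_one_iff _ A)
    (forall_congr' fun φ => letI := φ.toAlgebra; FA.BrauerTheory.restriction_eq_one_iff ℝ A)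

/-- **The map to the local Brauer groups is injective.** -/
theorem albert_brauer_hasse_noether_injective :
    Function.Injective fun x : BrauerGroup.{0, 0} K =>
      ((fun v : HeightOneSpectrum (𝓞 K) => restriction (v.adicCompletion K) x),
        fun φ : K →+* ℝ => letI := φ.toAlgebra; restriction ℝ x) := by
  intro x y h
  rw [← div_eq_one, albert_brauer_hasse_noether]
  refine ⟨fun v => ?_, fun φ => ?_⟩
  · rw [map_div, div_eq_one]
    exact congrFun (congrArg Prod.fst h) v
  · let _ : Algebra K ℝ := φ.toAlgebra
    rw [map_div, div_eq_one]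
    exact congrFun (congrArg Prod.snd h) φ

/-- **Isomorphism is a local question**: algebras of one dimension are isomorphic iff their
classes agree at every place. -/
theorem albert_brauer_hasse_noether_iso (A B : CSA.{0, 0} K) :
    Nonempty (A ≃ₐ[K] B) ↔ finrank K A = finrank K B ∧
      (∀ v : HeightOneSpectrum (𝓞 K), restriction (v.adicCompletion K) (FA.BrauerTheory.mk A) =
        restriction (v.adicCompletion K) (FA.BrauerTheory.mk B)) ∧
      ∀ φ : K →+* ℝ, letI := φ.toAlgebra
        restriction ℝ (FA.BrauerTheory.mk A) = restriction ℝ (FA.BrauerTheory.mk B) := by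
  refine ⟨fun ⟨e⟩ => ?_, fun ⟨hd, h1, h2⟩ => FA.BrauerTheory.nonempty_algEquiv_of_mk_eq
    (albert_brauer_hasse_noether_injective (Prod.ext (funext h1) (funext h2))) hd⟩
  have h : FA.BrauerTheory.mk A = FA.BrauerTheory.mk B :=
    FA.BrauerTheory.mk_eq_iff.2 (FA.BrauerTheory.equivalent_of_algEquiv e)
  exact ⟨e.toLinearEquiv.finrank_eq, fun v => by rw [h], fun φ => by rw [h]⟩

/-- **The index divides the degree of every splitting field.** -/
theorem brauerGroup_index_dvd {F : Type} [Field F] {D : Type} [DivisionRing D] [Algebra F D]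
    [FiniteDimensional F D] {L : Type} [Field L] [Algebra F L] [FiniteDimensional F L] {d : ℕ}
    (e : L ⊗[F] D ≃ₐ[L] Matrix (Fin d) (Fin d) L) : finrank F D = d ^ 2 ∧ d ∣ finrank F L :=
  FA.BrauerTheory.dvd_finrank_of_split e

/-- **The relative Brauer group of a cyclic extension of a completion.** -/
theorem brauerGroup_relative_local (v : HeightOneSpectrum (𝓞 K)) (E : Type) [Field E]
    [Algebra (v.adicCompletion K) E] [FiniteDimensional (v.adicCompletion K) E]
    [IsGalois (v.adicCompletion K) E] [IsCyclic (E ≃ₐ[v.adicCompletion K] E)] :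
    Nonempty ((restriction (K := v.adicCompletion K) E).ker ≃*
      Multiplicative (ZMod (finrank (v.adicCompletion K) E))) := by
  have : IsMulCommutative (E ≃ₐ[v.adicCompletion K] E) := IsCyclic.isMulCommutative
  obtain ⟨σ, hσ⟩ := IsCyclic.exists_generator (α := E ≃ₐ[v.adicCompletion K] E)
  obtain ⟨-, -, ⟨e⟩⟩ := local_abelian_reciprocity v E
  exact ⟨(FA.BrauerTheory.relativeEquiv hσ).symm.trans <| e.trans <|
    mulEquivOfCyclicCardEq (by rw [IsGalois.card_aut_eq_finrank, Nat.card_congr
      Multiplicative.toAdd, Nat.card_zmod])⟩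

end FA.Summary

end
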