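import Fermat.Agent.AKS.Modulus

/-!
# The primality criterion of Agrawal, Kayal and Saxena

With `k = ⌈log₂ n⌉` and `ord_r n > k ^ 2`: `n` is prime iff it is no perfect power, has no proper
divisor `≤ r` except `1` and `(X + a) ^ n ≡ X ^ n + a` modulo `(n, X ^ r - 1)` for
`a ≤ √(φ r) k`. Some such `r` is at most `k ^ 5 + 6`, so the test asks for polynomially many
congruences in the number of digits (AKS, 2004).

No machine model and no running time are stated; no link with Fermat's last theorem.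
-/

set_option autoImplicit false

noncomputable section

namespace FA.AKS.Summary

open Polynomial

/-- **The theorem of Agrawal, Kayal and Saxena.** -/
theorem aks_criterion {n r : ℕ} (hn : 2 ≤ n)
    (hord : Nat.clog 2 n ^ 2 < orderOf ((n : ℕ) : ZMod r)) :
    n.Prime ↔ (¬ ∃ m j, 2 ≤ j ∧ m ^ j = n) ∧ (∀ d ≤ r, d ∣ n → d = 1 ∨ d = n) ∧
      ∀ a ≤ Nat.sqrt (r.totient * Nat.clog 2 n ^ 2),
        (X ^ r - 1 : (ZMod n)[X]) ∣ (X + C (a : ZMod n)) ^ n - (X ^ n + C (a : ZMod n)) :=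
  prime_iff hn hord

/-- **The polynomial bound on the modulus.** -/
theorem aks_modulus {n : ℕ} (hn : 2 ≤ n) :
    ∃ r, r ≤ Nat.clog 2 n ^ 5 + 6 ∧ Nat.clog 2 n ^ 2 < orderOf ((n : ℕ) : ZMod r) :=
  exists_modulus hn

/-- The test in full: some `r ≤ k ^ 5 + 6` decides whether `n` is prime. -/
theorem aks_test {n : ℕ} (hn : 2 ≤ n) :
    ∃ r, r ≤ Nat.clog 2 n ^ 5 + 6 ∧
      (n.Prime ↔ (¬ ∃ m j, 2 ≤ j ∧ m ^ j = n) ∧ (∀ d ≤ r, d ∣ n → d = 1 ∨ d = n) ∧
        ∀ a ≤ Nat.sqrt (r.totient * Nat.clog 2 n ^ 2),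
          (X ^ r - 1 : (ZMod n)[X]) ∣ (X + C (a : ZMod n)) ^ n - (X ^ n + C (a : ZMod n))) := by
  obtain ⟨r, hr, hord⟩ := aks_modulus hn
  exact ⟨r, hr, aks_criterion hn hord⟩

end FA.AKS.Summary
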