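import Fermat.Agent.APoints.Main

/-!
# The `a`-points of `ζ` cluster at the critical line (Levinson 1975)

For every complex `a` the roots of `ζ s = a` with `-2 ≤ re s` and `T < im s ≤ 2T`, counted with
multiplicity, number `T log T / (2π) + O (T)`; those with `|re s - 1/2| ≥ δ` are
`O (T log log T / δ)`, uniformly in `δ`. So all but a proportion `ε` lie within
`K log log T / log T` of the line, and every value is taken infinitely often in every strip about
it. The roots left of `re s = -2` are not counted.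
-/

set_option autoImplicit false

noncomputable section

namespace FA.APoints.Summary

open Complex Filter Set
open scoped Real Topology

/-- The set counted. -/
theorem aPoints_spec (a : ℂ) (T : ℝ) :
    aPoints a T = {s : ℂ | riemannZeta s = a ∧ -2 ≤ s.re ∧ T < s.im ∧ s.im ≤ 2 * T} :=
  rfl

/-- Both counts are with multiplicity. -/
theorem counts_spec (a : ℂ) (δ T : ℝ) :
    aCount a T = ∑ ρ ∈ (finite_aPoints a T).toFinset,
        analyticOrderNatAt (fun s => riemannZeta s - a) ρ ∧
      aOffCount a δ T = ∑ ρ ∈ (finite_aPoints a T).toFinset.filter (fun ρ => δ ≤ |ρ.re - 1 / 2|),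
        analyticOrderNatAt (fun s => riemannZeta s - a) ρ :=
  ⟨rfl, rfl⟩

/-- **The number of `a`-points.** -/
theorem aPoints_count (a : ℂ) : ∃ C T₀ : ℝ, ∀ T : ℝ, T₀ ≤ T →
    |(aCount a T : ℝ) - T / (2 * π) * Real.log T| ≤ C * T := by
  obtain ⟨C, -, h⟩ := exists_aPoints_main a
  obtain ⟨T₀, h0⟩ := eventually_atTop.1 h
  exact ⟨C, T₀, fun T hT => (h0 T hT).1⟩

/-- **Few are away from the line**, uniformly in the distance. -/
theorem aPoints_off_line (a : ℂ) : ∃ C T₀ : ℝ, ∀ T : ℝ, T₀ ≤ T → ∀ δ : ℝ, 0 < δ →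
    (aOffCount a δ T : ℝ) ≤ C * T * Real.log (Real.log T) / δ := by
  obtain ⟨C, -, h⟩ := exists_aPoints_main a
  obtain ⟨T₀, h0⟩ := eventually_atTop.1 h
  exact ⟨C, T₀, fun T hT δ hδ => (le_div_iff₀' hδ).2 ((h0 T hT).2 δ)⟩

/-- **Almost all `a`-points are near the line.** -/
theorem almost_all_near_line (a : ℂ) {δ : ℝ} (hδ : 0 < δ) :
    Tendsto (fun T : ℝ => (aOffCount a δ T : ℝ) / aCount a T) atTop (𝓝 0) :=
  tendsto_aOff a hδ

/-- **They lie within `O (log log T / log T)` of the line**, up to a proportion `ε`. -/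
theorem clustering (a : ℂ) {ε : ℝ} (hε : 0 < ε) : ∃ K T₀ : ℝ, ∀ T : ℝ, T₀ ≤ T →
    (aOffCount a (K * Real.log (Real.log T) / Real.log T) T : ℝ) ≤ ε * aCount a T := by
  obtain ⟨C, hC, h⟩ := exists_aPoints_main a
  obtain ⟨T₀, h0⟩ := eventually_atTop.1 (h.and ((eventually_gt_atTop (0 : ℝ)).and
    (Real.tendsto_log_atTop.eventually_ge_atTop (max (Real.exp 1) (4 * π * C + 1)))))
  refine ⟨4 * π * (C + 1) / ε, T₀, fun T hT => ?_⟩
  obtain ⟨⟨h1, h2⟩, hT0, hL⟩ := h0 T hT
  rw [max_le_iff] at hL
  have hL0 : 0 < Real.log T := lt_of_lt_of_le (Real.exp_pos 1) hL.1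
  have hl : 0 < Real.log (Real.log T) :=
    lt_of_lt_of_le one_pos ((Real.le_log_iff_exp_le hL0).2 hL.1)
  have hK : 0 < 4 * π * (C + 1) / ε * Real.log (Real.log T) / Real.log T := by positivity
  have hN : T * Real.log T / (4 * π) ≤ aCount a T := by
    have h3 : C * T ≤ T * Real.log T / (4 * π) := by
      rw [le_div_iff₀ (by positivity)]
      nlinarith
    have e : T / (2 * π) * Real.log T = 2 * (T * Real.log T / (4 * π)) := by field_simp; ring
    linarith [(abs_le.1 h1).1]
  refine ((le_div_iff₀' hK).2 (h2 _)).trans (le_trans ?_ (mul_le_mul_of_nonneg_left hN hε.le))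
  rw [div_le_iff₀ hK, show ε * (T * Real.log T / (4 * π)) *
      (4 * π * (C + 1) / ε * Real.log (Real.log T) / Real.log T) =
      (C + 1) * T * Real.log (Real.log T) by field_simp]
  nlinarith [mul_pos hT0 hl]

/-- **Every value is taken infinitely often in every strip about the line.** -/
theorem infinitely_often_near_line (a : ℂ) {δ : ℝ} (hδ : 0 < δ) :
    {s : ℂ | riemannZeta s = a ∧ |s.re - 1 / 2| < δ}.Infinite :=
  infinite_aPoints_strip a hδ

end FA.APoints.Summary

end
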