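import Fermat.Agent.Abc.Frey
import Fermat.Agent.Abc.Wieferich
import Fermat.Agent.Abc.Consequences

/-!
# The abc conjecture: equivalent forms and consequences

`ABCBound`, `HallBound` and `SzpiroBound` are statements, neither proved nor assumed. Proved here:
their equivalence (Frey, Oesterlé) and sanity checks; `SzpiroBound` is the radical form for models
with `c₄`, `c₆` coprime up to powers of `6`. CONDITIONAL on `ABCBound`, and so stated
with it as an explicit hypothesis: Szpiro's inequality for semistable models, the Fermat–Catalan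
conjecture, the generalised asymptotic Fermat theorem, Silverman's theorem on Wieferich primes.
-/

set_option autoImplicit false

noncomputable section

open UniqueFactorizationMonoid (radical)

namespace FA.Summary

/-- **Frey, Oesterlé.** The abc, Hall and Szpiro conjectures are equivalent. -/
theorem abc_equivalences :
    (FA.Abc.ABCBound ↔ FA.Abc.HallBound) ∧ (FA.Abc.ABCBound ↔ FA.Abc.SzpiroBound) :=
  ⟨FA.Abc.abc_iff_hall, FA.Abc.abc_iff_szpiro⟩

/-- The exponent of the abc bound cannot be `1`, and the bound fails without coprimality. -/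
theorem abc_hypothesis_sharp :
    (¬∃ C : ℝ, ∀ a b c : ℕ, 0 < a → 0 < b → a.Coprime b → a + b = c →
      (c : ℝ) ≤ C * ((radical (a * b * c) : ℕ) : ℝ)) ∧
    ∀ e : ℝ, ¬∃ C : ℝ, ∀ a b c : ℕ, 0 < a → 0 < b → a + b = c →
      (c : ℝ) ≤ C * ((radical (a * b * c) : ℕ) : ℝ) ^ e :=
  ⟨FA.Abc.not_abc_exponent_one, FA.Abc.not_abc_without_coprime⟩

/-- The abc bound holds unconditionally on every finite set of primes. -/
theorem abc_finite_support (S : Finset ℕ) :
    ∃ C : ℝ, ∀ a b c : ℕ, 0 < a → 0 < b → a.Coprime b → a + b = c →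
      (∀ q : ℕ, q.Prime → q ∣ a * b * c → q ∈ S) → ∀ e : ℝ, 0 ≤ e →
      (c : ℝ) ≤ C * ((radical (a * b * c) : ℕ) : ℝ) ^ e :=
  FA.Abc.abc_on_finite_support S

/-- **Conditional on abc**: Szpiro's inequality for semistable models. -/
theorem szpiro_semistable_of_abc (h : FA.Abc.ABCBound) {ε : ℝ} (hε : 0 < ε) :
    ∃ C : ℝ, ∀ W : WeierstrassCurve ℤ, W.Δ ≠ 0 → FA.Abc.IsSemistableModel W →
      ((max (|W.c₄| ^ 3) (W.c₆ ^ 2) : ℤ) : ℝ) ≤
          C * ((radical W.Δ.natAbs : ℕ) : ℝ) ^ (6 + ε) ∧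
        ((|W.Δ| : ℤ) : ℝ) ≤ C * ((radical W.Δ.natAbs : ℕ) : ℝ) ^ (6 + ε) :=
  FA.Abc.szpiro_semistable h hε

/-- **Conditional on abc**: the Fermat–Catalan conjecture. -/
theorem fermatCatalan_of_abc (h : FA.Abc.ABCBound) :
    {v : ℕ × ℕ × ℕ | 0 < v.1 ∧ 0 < v.2.1 ∧ v.1.Coprime v.2.1 ∧ v.1 + v.2.1 = v.2.2 ∧
      ∃ x y z p q r : ℕ, 0 < p ∧ 0 < q ∧ 0 < r ∧ (1 : ℝ) / p + 1 / q + 1 / r < 1 ∧
        v.1 = x ^ p ∧ v.2.1 = y ^ q ∧ v.2.2 = z ^ r}.Finite :=
  FA.Abc.fermatCatalan h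

/-- **Conditional on abc**: the generalised Fermat equation for large exponents. -/
theorem generalized_fermat_of_abc (h : FA.Abc.ABCBound) {A B C : ℤ} (hA : A ≠ 0) (hB : B ≠ 0)
    (hC : C ≠ 0) :
    ∃ N : ℕ, ∀ n : ℕ, N ≤ n → ∀ x y z : ℤ, IsCoprime x y → A * x ^ n + B * y ^ n = C * z ^ n →
      |x| ≤ 1 ∧ |y| ≤ 1 ∧ |z| ≤ 1 :=
  FA.Abc.generalized_fermat_asymptotic h hA hB hC

/-- **Conditional on abc, Silverman**: infinitely many non-Wieferich primes for every base. -/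
theorem nonWieferich_infinite_of_abc (h : FA.Abc.ABCBound) {a : ℕ} (ha : 2 ≤ a) :
    {p : ℕ | p.Prime ∧ ¬p ∣ a ∧ a ^ (p - 1) % p ^ 2 ≠ 1}.Infinite :=
  FA.Abc.infinite_nonWieferich h ha

end FA.Summary

end
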