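import Fermat.Agent.Sharpness.SmoothTriples
import Fermat.Agent.Sharpness.Danilov

/-!
# The abc, Hall and Szpiro conjectures are sharp

All statements here are unconditional.
-/

set_option autoImplicit false

noncomputable section

open UniqueFactorizationMonoid (radical)

namespace FA.Summary

/-- **No polylogarithmic form of abc holds**: for every `A` infinitely many coprime triples
satisfy `c > rad (a b c) (log c) ^ A`. -/
theorem abc_polylog_false (A : ℕ) :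
    {v : ℕ × ℕ × ℕ | 0 < v.1 ∧ 0 < v.2.1 ∧ v.1.Coprime v.2.1 ∧ v.1 + v.2.1 = v.2.2 ∧
      ((radical (v.1 * v.2.1 * v.2.2) : ℕ) : ℝ) * Real.log v.2.2 ^ A < v.2.2}.Infinite :=
  FA.Sharpness.infinite_triples A

/-- The exponent `6 + ε` of the Hall and Szpiro bounds cannot be lowered to `6` or less. -/
theorem hall_szpiro_exponent_sharp {e : ℝ} (he : e ≤ 6) :
    (¬∃ C : ℝ, ∀ x y : ℤ, x ^ 3 ≠ y ^ 2 → Int.gcd x y ∣ 6 ^ 2 →
      ((max (|x| ^ 3) (y ^ 2) : ℤ) : ℝ) ≤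
        C * ((radical (x ^ 3 - y ^ 2).natAbs : ℕ) : ℝ) ^ e) ∧
    ¬∃ C : ℝ, ∀ W : WeierstrassCurve ℤ, W.Δ ≠ 0 → Int.gcd W.c₄ W.c₆ ∣ 6 ^ 5 →
      ((max (|W.c₄| ^ 3) (W.c₆ ^ 2) : ℤ) : ℝ) ≤
        C * ((radical W.Δ.natAbs : ℕ) : ℝ) ^ e :=
  ⟨FA.Sharpness.not_hall_exponent_six he, FA.Sharpness.not_szpiro_exponent_six he⟩

/-- **Danilov's theorem.** Infinitely many integers `x, y` have `0 < |x³ - y²| < 0.97 √x`. -/
theorem danilov_theorem :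
    {v : ℤ × ℤ | v.1 ^ 3 - v.2 ^ 2 ≠ 0 ∧
      ((|v.1 ^ 3 - v.2 ^ 2| : ℤ) : ℝ) < 0.97 * Real.sqrt v.1}.Infinite :=
  FA.Sharpness.infinite_danilov

/-- The exponent `1/2` of Hall's original conjecture is optimal. -/
theorem hall_original_exponent_optimal {θ c : ℝ} (hθ : 1 / 2 < θ) (hc : 0 < c) :
    ∃ x y : ℤ, 0 < x ∧ x ^ 3 - y ^ 2 ≠ 0 ∧
      ((|x ^ 3 - y ^ 2| : ℤ) : ℝ) < c * (x : ℝ) ^ θ :=
  FA.Sharpness.hall_exponent_half_optimal hθ hc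

end FA.Summary

end
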