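import Fermat.Agent.AbcStewartTijdeman.Main

/-!
# The theorem of Stewart and Tijdeman on the abc conjecture

Infinitely many coprime `a + b = c` have `c > N exp (κ √(log N) / log log N)`, `N` the radical of
`a b c` (Stewart and Tijdeman 1986, `κ = 1/20` here); through Frey's curve the Szpiro and Hall
bounds fail by the same factor at the exponent `6`. All statements are unconditional.
-/

set_option autoImplicit false

noncomputable section

open Filter Real Asymptotics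
open UniqueFactorizationMonoid (radical radical_pow)

namespace FA.AbcStewartTijdeman.Summary

/-- **Stewart–Tijdeman**, in terms of `c`. -/
theorem stewart_tijdeman : ∃ κ : ℝ, 0 < κ ∧
    {v : ℕ × ℕ × ℕ | 0 < v.1 ∧ 0 < v.2.1 ∧ v.1.Coprime v.2.1 ∧ v.1 + v.2.1 = v.2.2 ∧
      ((radical (v.1 * v.2.1 * v.2.2) : ℕ) : ℝ) *
        exp (κ * (√(log v.2.2) / log (log v.2.2))) < v.2.2}.Infinite := by
  refine ⟨1 / 20, by norm_num, fun hfin => ?_⟩
  obtain ⟨B, hB⟩ := (hfin.image fun v => v.2.2).bddAbove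
  obtain ⟨a, b, c, ha, hb, hab, habc, hBc, h, -⟩ :=
    exists_gt_mul 1 B (κ := 1 / 20) (by norm_num) le_rfl
  rw [one_mul] at h
  exact absurd (hB ⟨(a, b, c), ⟨ha, hb, hab, habc, h⟩, rfl⟩) (not_le.2 hBc)

/-- **Stewart–Tijdeman**, in terms of the radical. -/
theorem stewart_tijdeman_radical : ∃ κ : ℝ, 0 < κ ∧
    {v : ℕ × ℕ × ℕ | 0 < v.1 ∧ 0 < v.2.1 ∧ v.1.Coprime v.2.1 ∧ v.1 + v.2.1 = v.2.2 ∧
      ((radical (v.1 * v.2.1 * v.2.2) : ℕ) : ℝ) *
        exp (κ * (√(log (radical (v.1 * v.2.1 * v.2.2) : ℕ)) /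
          log (log (radical (v.1 * v.2.1 * v.2.2) : ℕ)))) < v.2.2}.Infinite := by
  refine ⟨1 / 20, by norm_num, fun hfin => ?_⟩
  obtain ⟨B, hB⟩ := (hfin.image fun v => v.2.2).bddAbove
  obtain ⟨a, b, c, ha, hb, hab, habc, hBc, -, h⟩ :=
    exists_gt_mul 1 B (κ := 1 / 20) (by norm_num) le_rfl
  exact absurd (hB ⟨(a, b, c), ⟨ha, hb, hab, habc, h⟩, rfl⟩) (not_le.2 hBc)

/-- So no form `c ≤ C N exp (g (log c))` of abc with `g = o (√x / log x)` holds. -/
theorem no_subexponential_abc {g : ℝ → ℝ} (hg : g =o[atTop] fun x => √x / log x) :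
    ¬∃ C : ℝ, ∀ a b c : ℕ, 0 < a → 0 < b → a.Coprime b → a + b = c →
      (c : ℝ) ≤ C * ((radical (a * b * c) : ℕ) : ℝ) * exp (g (log c)) := by
  rintro ⟨C, hC⟩
  obtain ⟨X, hX⟩ := eventually_atTop.1 (hg.bound (show (0 : ℝ) < 1 / 20 by norm_num))
  obtain ⟨B, hB⟩ := exists_nat_gt (exp (max X 1))
  obtain ⟨a, b, c, ha, hb, hab, habc, hBc, h, -⟩ :=
    exists_gt_mul |C| B (κ := 1 / 20) (by norm_num) le_rfl
  have hx : max X 1 < log (c : ℝ) := (lt_log_iff_exp_lt (by exact_mod_cast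
    (show 0 < c by omega))).2 (hB.trans (by exact_mod_cast hBc))
  have hle : g (log (c : ℝ)) ≤ 1 / 20 * gain (log (c : ℝ)) := by
    have h' := hX _ ((le_max_left X 1).trans hx.le)
    rw [norm_eq_abs, norm_eq_abs, abs_of_nonneg (div_nonneg (sqrt_nonneg _)
      (log_nonneg ((le_max_right X 1).trans hx.le)))] at h'
    exact (le_abs_self _).trans h'
  exact absurd ((hC a b c ha hb hab habc).trans (mul_le_mul (mul_le_mul_of_nonneg_right
    (le_abs_self C) (Nat.cast_nonneg _)) (exp_le_exp.2 hle) (exp_pos _).le (by positivity)))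
    (not_le.2 h)

/-- The exponent `6` in Szpiro's bound fails by the same factor. -/
theorem szpiro_sharp : ∃ κ : ℝ, 0 < κ ∧
    {W : WeierstrassCurve ℤ | W.Δ ≠ 0 ∧ Int.gcd W.c₄ W.c₆ ∣ 6 ^ 5 ∧
      ((radical W.Δ.natAbs : ℕ) : ℝ) ^ 6 *
        exp (κ * (√(log (radical W.Δ.natAbs : ℕ)) / log (log (radical W.Δ.natAbs : ℕ)))) <
        ((max (|W.c₄| ^ 3) (W.c₆ ^ 2) : ℤ) : ℝ)}.Infinite := by
  refine ⟨1 / 20, by norm_num, fun hfin => ?_⟩
  obtain ⟨B, hB⟩ := (hfin.image fun W => |W.c₄|.natAbs).bddAbove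
  obtain ⟨a, b, ha, hb, hab, hBab, h⟩ := exists_gt_pow B 2
    (fun a b => radical (16 * (a * b * (a + b)) ^ 2)) fun a b _ _ _ => by
      have : radical (16 * (a * b * (a + b)) ^ 2) ≤ 2 * radical (a * b * (a + b)) := by
        refine (FA.Abc.rad_mul_le _ _).trans (Nat.mul_le_mul ?_ (radical_pow _ two_ne_zero).le)
        rw [show (16 : ℕ) = 2 ^ 4 by norm_num]
        exact FA.Abc.rad_pow_le two_ne_zero 4
      exact_mod_cast this
  have hab' : IsCoprime (a : ℤ) b := Nat.isCoprime_iff_coprime.2 hab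
  have hD : (FA.Abc.freyCurve a b).Δ = ((16 * (a * b * (a + b)) ^ 2 : ℕ) : ℤ) := by
    rw [FA.Abc.freyCurve_Δ]; push_cast; rfl
  have hsq : ((a : ℤ) + b) ^ 2 ≤ |(FA.Abc.freyCurve a b).c₄| := by
    refine le_trans ?_ (le_abs_self _)
    rw [FA.Abc.freyCurve_c₄]
    nlinarith [sq_nonneg ((a : ℤ) - b), sq_nonneg ((a : ℤ) + b)]
  have hmem : |(FA.Abc.freyCurve a b).c₄|.natAbs ≤ B := by
    refine hB ⟨FA.Abc.freyCurve a b, ⟨by rw [hD]; positivity, ?_, ?_⟩, rfl⟩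
    · rw [FA.Abc.freyCurve_c₄, FA.Abc.freyCurve_c₆, show (-32 : ℤ) = 16 * -2 by norm_num,
        mul_assoc (16 : ℤ), Int.gcd_mul_left]
      refine (mul_dvd_mul_left _ (dvd_trans ?_ (mul_dvd_mul_left 2
        (FA.Abc.gcd_invariants_dvd_three hab')))).trans
        (by norm_num : (16 : ℤ).natAbs * (2 * 3) ∣ 6 ^ 5)
      simp only [Int.gcd_def, Int.natAbs_mul]
      rw [← Nat.gcd_mul_left]
      exact Nat.gcd_dvd_gcd_mul_left_left _ _ 2
    · rw [hD, Int.natAbs_natCast]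
      refine h.trans_le ?_
      have h6 : ((a : ℤ) + b) ^ 6 ≤
          max (|(FA.Abc.freyCurve a b).c₄| ^ 3) ((FA.Abc.freyCurve a b).c₆ ^ 2) :=
        le_max_of_le_left (by
          rw [show 6 = 2 * 3 by norm_num, pow_mul]
          exact pow_le_pow_left₀ (by positivity) hsq 3)
      have h5 := (Int.cast_le (R := ℝ)).2 h6
      simp only [Int.cast_pow, Int.cast_add, Int.cast_natCast] at h5
      exact h5
  have h' : ((a : ℤ) + b) ≤ ((a : ℤ) + b) ^ 2 := Int.le_self_sq _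
  omega

/-- The exponent `6` in Hall's bound fails by the same factor. -/
theorem hall_sharp : ∃ κ : ℝ, 0 < κ ∧
    {v : ℤ × ℤ | v.1 ^ 3 ≠ v.2 ^ 2 ∧ Int.gcd v.1 v.2 ∣ 6 ^ 2 ∧
      ((radical (v.1 ^ 3 - v.2 ^ 2).natAbs : ℕ) : ℝ) ^ 6 *
        exp (κ * (√(log (radical (v.1 ^ 3 - v.2 ^ 2).natAbs : ℕ)) /
          log (log (radical (v.1 ^ 3 - v.2 ^ 2).natAbs : ℕ)))) <
        ((max (|v.1| ^ 3) (v.2 ^ 2) : ℤ) : ℝ)}.Infinite := by
  refine ⟨1 / 20, by norm_num, fun hfin => ?_⟩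
  obtain ⟨B, hB⟩ := (hfin.image fun v => v.1.natAbs).bddAbove
  obtain ⟨a, b, ha, hb, hab, hBab, h⟩ := exists_gt_pow B 6
    (fun a b => radical (432 * (a * b * (a + b)) ^ 2)) fun a b _ _ _ => by
      have : radical (432 * (a * b * (a + b)) ^ 2) ≤ 6 * radical (a * b * (a + b)) :=
        (FA.Abc.rad_mul_le _ _).trans (Nat.mul_le_mul FA.Abc.radical_fourhundredthirtytwo_le
          (radical_pow _ two_ne_zero).le)
      exact_mod_cast this
  have hab' : IsCoprime (a : ℤ) b := Nat.isCoprime_iff_coprime.2 hab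
  set s : ℤ := (a : ℤ) ^ 2 + a * b + (b : ℤ) ^ 2 with hs
  set t : ℤ := ((b : ℤ) - a) * (2 * a + b) * (a + 2 * b) with ht
  have hD : (4 * s) ^ 3 - (4 * t) ^ 2 = ((432 * (a * b * (a + b)) ^ 2 : ℕ) : ℤ) := by
    rw [hs, ht]; push_cast; ring
  have hsq : ((a : ℤ) + b) ^ 2 ≤ |4 * s| := by
    refine le_trans ?_ (le_abs_self _)
    rw [hs]; nlinarith [sq_nonneg ((a : ℤ) - b), sq_nonneg ((a : ℤ) + b)]
  have hmem : (4 * s).natAbs ≤ B := by
    refine hB ⟨(4 * s, 4 * t), ⟨by rw [← sub_ne_zero, hD]; positivity, ?_, ?_⟩, rfl⟩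
    · rw [Int.gcd_mul_left]
      exact (mul_dvd_mul_left _ (FA.Abc.gcd_invariants_dvd_three hab')).trans (by norm_num)
    · dsimp only
      rw [hD, Int.natAbs_natCast]
      refine h.trans_le ?_
      have h6 : ((a : ℤ) + b) ^ 6 ≤ max (|4 * s| ^ 3) ((4 * t) ^ 2) :=
        le_max_of_le_left (by
          rw [show 6 = 2 * 3 by norm_num, pow_mul]
          exact pow_le_pow_left₀ (by positivity) hsq 3)
      have h5 := (Int.cast_le (R := ℝ)).2 h6
      simp only [Int.cast_pow, Int.cast_add, Int.cast_natCast] at h5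
      exact h5
  have h' : ((a : ℤ) + b) ≤ ((a : ℤ) + b) ^ 2 := Int.le_self_sq _
  rw [Int.abs_eq_natAbs] at hsq
  omega

end FA.AbcStewartTijdeman.Summary

end
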