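import Fermat.Agent.Root.SummaryInkeriBound
import Fermat.Agent.Root.SummaryZsigmondyPlus

/-!
# Abel's theorem on prime powers in Fermat's equation

For `n ≥ 3` and `0 < a < b < c` with `a^n + b^n = c^n`:

* `abel_not_isPrimePow`: neither `b` nor `c` is a prime power;
* `abel_isPrimePow_min`: if `a`, `b` are coprime and `a` is a power of a prime `q`, then `n` is a prime
  `≥ 233`, `c = b + 1`, `n ∤ a`, `q ≡ 1 (mod 2n)` and `c > 10^500`;
* `fermat_of_not_prime_of_isPrimePow`: Fermat's last theorem for composite exponents, one of `a`, `b`, `c`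
  a prime power.

Classical (Abel); independent of S01.
-/

set_option autoImplicit false

namespace FA.Summary

/-- Two positive powers with exponent `m ≥ 2` differ by more than one. -/
theorem pow_add_one_lt_pow {m u v : ℕ} (hm : 2 ≤ m) (hu : 0 < u) (huv : u < v) : u ^ m + 1 < v ^ m := by
  obtain ⟨k, rfl⟩ : ∃ k, m = k + 1 := ⟨m - 1, by omega⟩
  have h1 : u ^ (k + 1) + u ^ k ≤ (u + 1) ^ k * (u + 1) - 1 := by
    have h2 : u ^ k < (u + 1) ^ k := Nat.pow_lt_pow_left (Nat.lt_succ_self u) (by omega)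
    have h3 : u ^ (k + 1) + u ^ k = u ^ k * (u + 1) := by ring
    have h4 : u ^ k * (u + 1) < (u + 1) ^ k * (u + 1) := Nat.mul_lt_mul_of_pos_right h2 (by omega)
    omega
  have h5 : (u + 1) ^ k * (u + 1) ≤ v ^ (k + 1) := by
    rw [← pow_succ]; exact Nat.pow_le_pow_left huv _
  have h6 : 0 < u ^ k := pow_pos hu k
  omega

/-- A sum of two distinct coprime positive `p`-th powers, `p ≥ 5` prime, is no prime power. -/
theorem not_isPrimePow_add_pow {p u v : ℕ} (hp : p.Prime) (hp5 : 5 ≤ p) (huv : u.Coprime v) (hv : 0 < v)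
    (hvu : v < u) : ¬ IsPrimePow (u ^ p + v ^ p) := by
  intro h
  obtain ⟨q, k, hq, -, hqk⟩ := (isPrimePow_nat_iff _).mp h
  obtain ⟨r, hr, hrd, hmin, -⟩ := zsigmondy_add huv hv hvu hp.two_le (fun e => by omega)
  obtain ⟨s, hs, hsd⟩ := Nat.exists_prime_and_dvd (show u + v ≠ 1 by omega)
  have hr' : r = q := (Nat.prime_dvd_prime_iff_eq hr hq).mp (hr.dvd_of_dvd_pow (hqk ▸ hrd))
  have hsum : s ∣ u ^ p + v ^ p :=
    hsd.trans ((hp.odd_of_ne_two (by omega)).nat_add_dvd_pow_add_pow u v)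
  have hs' : s = q := (Nat.prime_dvd_prime_iff_eq hs hq).mp (hs.dvd_of_dvd_pow (hqk ▸ hsum))
  exact hmin 1 one_pos (by omega) (by simpa [hr', ← hs'] using hsd)

/-- A difference of coprime `p`-th powers is a prime power only for consecutive bases, and then of a
prime `≡ 1 (mod 2p)`. -/
theorem isPrimePow_pow_sub_pow {p u v : ℕ} (hp : p.Prime) (hp5 : 5 ≤ p) (huv : u.Coprime v) (hv : 0 < v)
    (hvu : v < u) {q k : ℕ} (hq : q.Prime) (hqk : q ^ k = u ^ p - v ^ p) : u = v + 1 ∧ 2 * p ∣ q - 1 := by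
  obtain ⟨r, hr, hrd, hmin, hmod⟩ := zsigmondy huv hv hvu (show 3 ≤ p by omega)
    (fun e => absurd hp (by rw [e.2.2]; norm_num))
  have hr' : r = q := (Nat.prime_dvd_prime_iff_eq hr hq).mp (hr.dvd_of_dvd_pow (hqk ▸ hrd))
  subst hr'
  refine ⟨?_, ?_⟩
  · by_contra hne
    obtain ⟨s, hs, hsd⟩ := Nat.exists_prime_and_dvd (show u - v ≠ 1 by omega)
    have hsub : s ∣ u ^ p - v ^ p := hsd.trans (Nat.sub_dvd_pow_sub_pow u v p)
    have hs' : s = r := (Nat.prime_dvd_prime_iff_eq hs hr).mp (hs.dvd_of_dvd_pow (hqk ▸ hsub))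
    exact hmin 1 one_pos (by omega) (by simpa [← hs'] using hsd)
  · have hr2 : r ≠ 2 := by
      rintro rfl
      have := Nat.le_of_dvd (by norm_num) hmod
      omega
    refine (Nat.coprime_two_left.mpr (hp.odd_of_ne_two (by omega))).mul_dvd_of_dvd_of_dvd ?_ hmod
    exact (Nat.Odd.sub_odd (hr.odd_of_ne_two hr2) odd_one).two_dvd

/-- The coprime form of Abel's theorem: a prime power among `a < b < c` is `a`, and forces `n` prime. -/
theorem abel_core {n a b c : ℕ} (hn : 3 ≤ n) (hcop : a.Coprime b) (ha : 0 < a) (hab : a < b)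
    (heq : a ^ n + b ^ n = c ^ n) :
    ¬ IsPrimePow b ∧ ¬ IsPrimePow c ∧ ∀ q k : ℕ, q.Prime → q ^ k = a →
      n.Prime ∧ 233 ≤ n ∧ c = b + 1 ∧ ¬ n ∣ a ∧ 2 * n ∣ q - 1 := by
  have hc : 0 < c := by
    by_contra h
    have : c = 0 := by omega
    subst this
    rw [zero_pow (by omega)] at heq
    have := pow_pos ha n
    omega
  have h233 : 233 ≤ n := by
    by_contra h
    exact fermat_classical_lt_233 n hn (by omega) a b c ha.ne' (by omega) hc.ne' heq
  rcases Nat.four_dvd_or_exists_odd_prime_and_dvd_of_two_lt (show 2 < n by omega) with h4 | ⟨p, hp, hpn, hpodd⟩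
  · exact absurd heq ((fermatLastTheoremFour.mono h4) a b c ha.ne' (by omega) hc.ne')
  obtain ⟨m, rfl⟩ := hpn
  have hp5 : 5 ≤ p := by
    by_contra h
    exact (fermat_prime_lt_233 p hp (by
      have := hp.two_le
      rw [Nat.odd_iff] at hpodd
      omega) (by omega)).mono (dvd_mul_right p m) a b c ha.ne' (by omega) hc.ne' heq
  have hm : m ≠ 0 := fun e => by simp [e] at hn
  have hA : 0 < a ^ m := pow_pos ha m
  have hAB : a ^ m < b ^ m := Nat.pow_lt_pow_left hab hm
  have hac : a < c := lt_of_pow_lt_pow_left₀ (p * m) (Nat.zero_le _) (by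
    rw [← heq]; exact Nat.lt_add_of_pos_right (pow_pos (by omega) _))
  have hbc : b < c := lt_of_pow_lt_pow_left₀ (p * m) (Nat.zero_le _) (by
    rw [← heq]; exact Nat.lt_add_of_pos_left (pow_pos ha _))
  have hBC : b ^ m < c ^ m := Nat.pow_lt_pow_left hbc hm
  have hAC : a ^ m < c ^ m := Nat.pow_lt_pow_left hac hm
  have heq' : (a ^ m) ^ p + (b ^ m) ^ p = (c ^ m) ^ p := by
    rwa [← pow_mul, ← pow_mul, ← pow_mul, mul_comm m p]
  have hAB' : (a ^ m).Coprime (b ^ m) := (hcop.pow_left m).pow_right m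
  have hcopc : ∀ {u v : ℕ}, u ^ p + v ^ p = (c ^ m) ^ p → u.Coprime v → u.Coprime (c ^ m) := by
    intro u v huv h
    refine (Nat.coprime_pow_left_iff hp.pos _ _).mp ((Nat.coprime_pow_right_iff hp.pos _ _).mp ?_)
    rw [← huv, Nat.coprime_self_add_right]
    exact (h.pow_left p).pow_right p
  refine ⟨fun hb => ?_, fun hc' => ?_, fun q k hq hqk => ?_⟩
  · obtain ⟨q, k, hq, -, hqk⟩ := (isPrimePow_nat_iff _).mp hb
    have h := (isPrimePow_pow_sub_pow hp hp5 (hcopc heq' hAB').symm hA hAC hq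
      (k := k * (m * p)) (by rw [pow_mul, hqk, pow_mul]; omega)).1
    omega
  · refine not_isPrimePow_add_pow hp hp5 hAB'.symm hA hAB ?_
    rw [add_comm, heq']
    exact (hc'.pow hm).pow hp.ne_zero
  · obtain ⟨h1, h2⟩ := isPrimePow_pow_sub_pow hp hp5
      (hcopc (by rw [add_comm]; exact heq') hAB'.symm).symm (pow_pos (by omega) m) hBC hq
      (k := k * (m * p)) (by rw [pow_mul, hqk, pow_mul]; omega)
    obtain rfl : m = 1 := by
      by_contra hm1
      have := pow_add_one_lt_pow (show 2 ≤ m by omega) (show 0 < b by omega) hbc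
      omega
    simp only [mul_one, pow_one] at *
    refine ⟨hp, h233, h1, fun hd => ?_, h2⟩
    have hpq : p = q := (Nat.prime_dvd_prime_iff_eq hp hq).mp (hp.dvd_of_dvd_pow (hqk ▸ hd))
    have := Nat.le_of_dvd (by have := hq.two_le; omega) h2
    omega

/-- A solution reduces to a coprime one. -/
theorem exists_coprime_solution {n a b c : ℕ} (hn : n ≠ 0) (ha : 0 < a) (heq : a ^ n + b ^ n = c ^ n) :
    ∃ g a' b' c' : ℕ, 0 < g ∧ a'.Coprime b' ∧ a = g * a' ∧ b = g * b' ∧ c = g * c' ∧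
      a' ^ n + b' ^ n = c' ^ n := by
  obtain ⟨g, a', b', hg, hcop, rfl, rfl⟩ := Nat.exists_coprime' (Nat.gcd_pos_of_pos_left b ha)
  obtain ⟨c', rfl⟩ : g ∣ c := (Nat.pow_dvd_pow_iff hn).mp
    (heq ▸ dvd_add (pow_dvd_pow_of_dvd (dvd_mul_left _ _) n) (pow_dvd_pow_of_dvd (dvd_mul_left _ _) n))
  refine ⟨g, a', b', c', hg, hcop, mul_comm _ _, mul_comm _ _, rfl, ?_⟩
  refine Nat.eq_of_mul_eq_mul_left (pow_pos hg n) ?_
  rw [mul_add, ← mul_pow, ← mul_pow, ← mul_pow, mul_comm g a', mul_comm g b', heq]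

/-- **Abel's theorem**: neither `b` nor `c` is a prime power. -/
theorem abel_not_isPrimePow {n a b c : ℕ} (hn : 3 ≤ n) (ha : 0 < a) (hab : a < b)
    (heq : a ^ n + b ^ n = c ^ n) : ¬ IsPrimePow b ∧ ¬ IsPrimePow c := by
  obtain ⟨g, a', b', c', hg, hcop, rfl, rfl, rfl, heq'⟩ := exists_coprime_solution (by omega) ha heq
  have ha' : 0 < a' := Nat.pos_of_mul_pos_left ha
  have hab' : a' < b' := Nat.lt_of_mul_lt_mul_left hab
  have hbc' : b' < c' := lt_of_pow_lt_pow_left₀ n (Nat.zero_le _) (by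
    rw [← heq']; exact Nat.lt_add_of_pos_left (pow_pos ha' _))
  obtain ⟨hb, hc, -⟩ := abel_core hn hcop ha' hab' heq'
  exact ⟨fun h => hb (h.dvd (dvd_mul_left _ _) (by omega)), fun h => hc (h.dvd (dvd_mul_left _ _) (by omega))⟩

/-- **Abel's theorem on the least term**: if it is a power of `q` then `n` is prime, `c = b + 1`, `n ∤ a`,
`q ≡ 1 (mod 2n)`, and `c` has more than `500` digits. -/
theorem abel_isPrimePow_min {n a b c q k : ℕ} (hn : 3 ≤ n) (hcop : a.Coprime b) (ha : 0 < a) (hab : a < b)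
    (heq : a ^ n + b ^ n = c ^ n) (hq : q.Prime) (hqk : q ^ k = a) :
    n.Prime ∧ 233 ≤ n ∧ c = b + 1 ∧ ¬ n ∣ a ∧ 2 * n ∣ q - 1 ∧ 10 ^ 500 < c := by
  obtain ⟨h1, h2, h3, h4, h5⟩ := (abel_core hn hcop ha hab heq).2.2 q k hq hqk
  have : Fact n.Prime := ⟨h1⟩
  exact ⟨h1, h2, h3, h4, h5, (fermat_counterexample_huge n a b c hn ha (by omega) (by omega) heq).2⟩

/-- **Fermat's last theorem for a composite exponent when a term is a prime power**, classically. -/
theorem fermat_of_not_prime_of_isPrimePow {n : ℕ} (hn : 3 ≤ n) (hnp : ¬ n.Prime) {a b c : ℕ} (ha : 0 < a)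
    (hb : 0 < b) (h : IsPrimePow a ∨ IsPrimePow b ∨ IsPrimePow c) : a ^ n + b ^ n ≠ c ^ n := by
  intro heq
  wlog hab : a ≤ b generalizing a b
  · exact this hb ha (by tauto) (by rwa [add_comm]) (le_of_not_ge hab)
  obtain ⟨g, a', b', c', hg, hcop, rfl, rfl, rfl, heq'⟩ := exists_coprime_solution (by omega) ha heq
  have ha' : 0 < a' := Nat.pos_of_mul_pos_left ha
  have hab' : a' < b' := by
    refine lt_of_le_of_ne (Nat.le_of_mul_le_mul_left hab hg) ?_
    rintro rfl
    obtain rfl : a' = 1 := (Nat.coprime_self a').mp hcop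
    rw [one_pow] at heq'
    rcases Nat.lt_or_ge c' 2 with h2 | h2
    · interval_cases c'
      · rw [zero_pow (by omega)] at heq'; omega
      · rw [one_pow] at heq'; omega
    · have := lt_of_lt_of_le (show 2 < 2 ^ n from lt_of_lt_of_le (by norm_num)
        (Nat.pow_le_pow_right two_pos hn)) (Nat.pow_le_pow_left h2 n)
      omega
  have hbc' : b' < c' := lt_of_pow_lt_pow_left₀ n (Nat.zero_le _) (by
    rw [← heq']; exact Nat.lt_add_of_pos_left (pow_pos ha' _))
  obtain ⟨hb', hc', ha''⟩ := abel_core hn hcop ha' hab' heq'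
  rcases h with h | h | h
  · rcases eq_or_ne a' 1 with rfl | h1
    · have := pow_add_one_lt_pow (show 2 ≤ n by omega) (show 0 < b' by omega) hbc'
      rw [one_pow] at heq'
      omega
    · obtain ⟨q, k, hq, -, hqk⟩ := (isPrimePow_nat_iff _).mp (h.dvd (dvd_mul_left _ _) h1)
      exact hnp (ha'' q k hq hqk).1
  · exact hb' (h.dvd (dvd_mul_left _ _) (by omega))
  · exact hc' (h.dvd (dvd_mul_left _ _) (by omega))

end FA.Summary
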