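import Fermat.Agent.AbelianBinomial.Main

/-!
# Schinzel's theorem on abelian binomials (1977)

* `schinzel_abelian_binomial`: for `n` prime to the characteristic of `K`, with `w` the number of
  the `n`-th roots of unity of `K`, the Galois group of `X ^ n - a` is abelian exactly when `a ^ w`
  is an `n`-th power in `K`;
* `schinzel_abelian_binomial_rat`: over `ℚ`, for odd `n`, exactly when `a` is an `n`-th power.
-/

set_option autoImplicit false

noncomputable section

open Polynomial

namespace FA.AbelianBinomial.Summary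

theorem schinzel_abelian_binomial {K : Type*} [Field K] {n : ℕ} (hn : (n : K) ≠ 0) (a : K) :
    (∀ σ τ : (X ^ n - C a).Gal, σ * τ = τ * σ) ↔
      ∃ c : K, a ^ Nat.card (rootsOfUnity n K) = c ^ n := by
  rcases eq_or_ne a 0 with rfl | ha
  · have hn0 : n ≠ 0 := by rintro rfl; simp at hn
    have : NeZero n := ⟨hn0⟩
    have h1 : Subsingleton (X ^ n - C (0 : K)).Gal := by
      rw [map_zero, sub_zero]
      infer_instance
    exact iff_of_true (fun σ τ => Subsingleton.elim _ _) ⟨0, by
      rw [zero_pow hn0, zero_pow (Nat.card_pos.ne' : Nat.card (rootsOfUnity n K) ≠ 0)]⟩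
  · set P := X ^ n - C a with hP
    constructor
    · intro h
      have h' : ∀ σ τ : P.SplittingField ≃ₐ[K] P.SplittingField, σ * τ = τ * σ := h
      exact pow_of_commute hn ha h'
    · rintro ⟨c, hc⟩
      have h' : ∀ σ τ : P.SplittingField ≃ₐ[K] P.SplittingField, σ * τ = τ * σ :=
        commute_of_pow hn ha hc
      exact h'

theorem schinzel_abelian_binomial_rat {n : ℕ} (hn : Odd n) (a : ℚ) :
    (∀ σ τ : (X ^ n - C a).Gal, σ * τ = τ * σ) ↔ ∃ c : ℚ, a = c ^ n := by
  have hw : Nat.card (rootsOfUnity n ℚ) = 1 := by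
    rw [Nat.card_eq_one_iff_exists]
    refine ⟨1, fun u => Subtype.ext (Units.ext ?_)⟩
    have h : ((u : ℚˣ) : ℚ) ^ n = 1 := by
      rw [← Units.val_pow_eq_pow_val, (mem_rootsOfUnity n _).1 u.2, Units.val_one]
    exact hn.pow_injective (by simpa using h)
  rw [schinzel_abelian_binomial (by exact_mod_cast hn.pos.ne') a, hw]
  simp

end FA.AbelianBinomial.Summary
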