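import Fermat.Agent.AbelianGaloisQuad.Main
import Fermat.Agent.AbelianGaloisQuad.Abelianisation
import Fermat.Agent.Root.SummaryClassNumberOne
import Fermat.Agent.Root.SummaryNeukirch

/-!
# Abelianised Galois groups of imaginary quadratic fields

For class number one the Artin map gives the abelianised absolute Galois group as the local units
modulo the units of the field. For `ℚ(√d)`, `d = -3, -7, -11, -19, -43, -67, -163`, this group is
`∏_p (ℤ_p × ℤ_p) × ∏_n ℤ / n`: seven fields with isomorphic abelianised and pairwise nonisomorphic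
absolute Galois groups (Onabe; Angelakis and Stevenhagen).
-/

set_option autoImplicit false
set_option linter.style.haveILetI false

noncomputable section

open NumberField IsDedekindDomain Module
open FA.Ideles FA.IdeleClass FA.AbelianQuad

namespace FA.Summary

/-- The radicands. -/
def onabeRadicands : Finset ℤ := {-3, -7, -11, -19, -43, -67, -163}

theorem exists_prime_of_mem_onabe {d : ℤ} (hd : d ∈ onabeRadicands) :
    ∃ D : ℕ, D.Prime ∧ D % 4 = 3 ∧ d = -(D : ℤ) := by
  simp only [onabeRadicands, Finset.mem_insert, Finset.mem_singleton] at hd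
  rcases hd with rfl | rfl | rfl | rfl | rfl | rfl | rfl
  · exact ⟨3, by norm_num⟩
  · exact ⟨7, by norm_num⟩
  · exact ⟨11, by norm_num⟩
  · exact ⟨19, by norm_num⟩
  · exact ⟨43, by norm_num⟩
  · exact ⟨67, by norm_num⟩
  · exact ⟨163, by norm_num⟩

/-- The maximal abelian extension gives the abelianised absolute Galois group. -/
theorem absoluteGaloisAbelianisation_maxAbelian (K : Type) [Field K] [NumberField K] :
    Nonempty (Field.absoluteGaloisGroupAbelianization K ≃ₜ*
      (maxAbelian K ≃ₐ[K] maxAbelian K)) :=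
  exists_abelianisation_equiv K

open IsMulCommutative in
/-- **Class number one**: for an imaginary quadratic field of class number one the Artin map on the
unit ideles identifies the Galois group of the maximal abelian extension with the product of all
local unit groups modulo the units of the field. -/
theorem abelianGalois_localUnits (K : Type) [Field K] [NumberField K] (hK : finrank ℚ K = 2)
    {d : ℤ} (hd : d < 0) (hs : ∃ s : K, s ^ 2 = (d : K)) (h1 : classNumber K = 1) :
    ∃ e : (UnitPi K ⧸ (diagUnits K).range) ≃ₜ* (maxAbelian K ≃ₐ[K] maxAbelian K),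
      ∀ u : UnitPi K, e (QuotientGroup.mk u) = artinAbel (maxAbelian K) (unitFamily u) := by
  obtain ⟨s, hs⟩ := hs
  haveI := FA.ChowlaSelberg.isTotallyComplex_of_sq hd hs
  haveI : Finite (𝓞 K)ˣ := finite_units_of_rank_eq_zero (by
    rw [Units.rank, (FA.ChowlaSelberg.card_infinitePlace hK hd hs).2.2])
  exact exists_artin_equiv h1

/-- **Onabe, Angelakis and Stevenhagen**: the abelianised absolute Galois group of `ℚ(√d)`,
`d = -3, -7, -11, -19, -43, -67, -163`. -/
theorem abelianGalois_quadratic (K : Type) [Field K] [NumberField K] (hK : finrank ℚ K = 2)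
    {d : ℤ} (hd : d ∈ onabeRadicands) (hs : ∃ s : K, s ^ 2 = (d : K)) :
    Nonempty (Field.absoluteGaloisGroupAbelianization K ≃ₜ*
      (∀ p : Nat.Primes, Multiplicative (ℤ_[(p : ℕ)] × ℤ_[(p : ℕ)])) ×
        ∀ n : ℕ+, Multiplicative (ZMod n)) := by
  obtain ⟨D, hD, hD4, rfl⟩ := exists_prime_of_mem_onabe hd
  have h1 : classNumber K = 1 := (classNumber_one_iff_nine K hK
    ((Nat.prime_iff_prime_int.1 hD).neg.squarefree) (neg_lt_zero.2 (Int.natCast_pos.2 hD.pos))
    hs).2 (by
      simp only [onabeRadicands, Finset.mem_insert, Finset.mem_singleton] at hd ⊢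
      omega)
  obtain ⟨s, hs⟩ := hs
  have hint : IsIntegral ℤ s := IsIntegral.of_pow two_pos (by
    rw [hs, ← eq_intCast (algebraMap ℤ K)]
    exact isIntegral_algebraMap)
  have hs' : (⟨s, hint⟩ : 𝓞 K) ^ 2 = -(D : 𝓞 K) := RingOfIntegers.ext (by
    simp only [map_pow, map_neg, map_natCast]
    show s ^ 2 = _
    rw [hs]
    push_cast
    rfl)
  obtain ⟨e₁⟩ := exists_abelianisation_equiv K
  obtain ⟨e₂⟩ := exists_galAbel_equiv hK hD hD4 hs' h1
  exact ⟨e₁.trans e₂⟩

/-- Different radicands give different fields. -/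
theorem eq_of_ringEquiv_onabe {K L : Type} [Field K] [NumberField K] [Field L] [NumberField L]
    (hL : finrank ℚ L = 2) {d d' : ℤ} (hd : d ∈ onabeRadicands) (hd' : d' ∈ onabeRadicands)
    {s : K} (hs : s ^ 2 = (d : K)) {t : L} (ht : t ^ 2 = (d' : L)) (φ : K ≃+* L) : d = d' := by
  obtain ⟨P, hP, -, rfl⟩ := exists_prime_of_mem_onabe hd
  obtain ⟨Q, hQ, -, rfl⟩ := exists_prime_of_mem_onabe hd'
  have hQ0 : (-(Q : ℤ)) < 0 := neg_lt_zero.2 (Int.natCast_pos.2 hQ.pos)
  obtain ⟨a, b, hab⟩ := FA.ExceptionalIsCM.exists_coords hL hQ0 ht (φ s)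
  have h1 : (φ s) ^ 2 = ((-(P : ℤ) : ℤ) : L) := by rw [← map_pow, hs, map_intCast]
  rw [hab] at h1
  have h2 : ((2 * a * b : ℚ) : L) * t = (((-(P : ℚ)) - a ^ 2 + b ^ 2 * Q : ℚ) : L) := by
    push_cast at h1 ht ⊢
    linear_combination h1 - (b : L) ^ 2 * ht
  have hab0 : 2 * a * b = 0 := by
    by_contra hne
    set q : ℚ := ((-(P : ℚ)) - a ^ 2 + b ^ 2 * Q) / (2 * a * b) with hq
    have h3 : t = (q : L) := by
      rw [hq, Rat.cast_div, eq_div_iff (Rat.cast_ne_zero.2 hne), mul_comm]
      exact h2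
    rw [h3, ← Rat.cast_pow, ← Rat.cast_intCast, Rat.cast_inj] at ht
    push_cast at ht
    nlinarith [sq_nonneg q, (Nat.cast_pos (α := ℚ)).2 hQ.pos]
  have h4 : (-(P : ℚ)) - a ^ 2 + b ^ 2 * Q = 0 := by
    rw [hab0, Rat.cast_zero, zero_mul] at h2
    exact (Rat.cast_eq_zero (α := L)).1 h2.symm
  rcases mul_eq_zero.1 hab0 with h5 | h5
  · obtain rfl : a = 0 := by linarith
    have h6 : b ^ 2 * (Q : ℚ) = P := by linarith
    have hb : b ≠ 0 := fun h => by
      rw [h] at h6
      have : (0 : ℚ) < P := Nat.cast_pos.2 hP.pos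
      linarith
    by_contra hne
    haveI : Fact Q.Prime := ⟨hQ⟩
    have h7 := congrArg (padicValRat Q) h6
    rw [padicValRat.mul (pow_ne_zero 2 hb) (Nat.cast_ne_zero.2 hQ.ne_zero), padicValRat.pow,
      padicValRat.self hQ.one_lt, padicValRat.of_nat,
      padicValNat.eq_zero_of_not_dvd (fun h => hne (by
        rw [(Nat.prime_dvd_prime_iff_eq hQ hP).1 h])), Nat.cast_zero] at h7
    omega
  · obtain rfl : b = 0 := h5
    nlinarith [sq_nonneg a, (Nat.cast_pos (α := ℚ)).2 hP.pos]

/-- **Equal abelianisations, different absolute Galois groups.** -/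
theorem abelianGalois_not_determining (K L : Type) [Field K] [NumberField K] [Field L]
    [NumberField L] (hK : finrank ℚ K = 2) (hL : finrank ℚ L = 2) {d d' : ℤ}
    (hd : d ∈ onabeRadicands) (hd' : d' ∈ onabeRadicands) (hs : ∃ s : K, s ^ 2 = (d : K))
    (ht : ∃ t : L, t ^ 2 = (d' : L)) :
    Nonempty (Field.absoluteGaloisGroupAbelianization K ≃ₜ*
        Field.absoluteGaloisGroupAbelianization L) ∧
      (d ≠ d' → IsEmpty (Field.absoluteGaloisGroup K ≃ₜ* Field.absoluteGaloisGroup L)) := by
  obtain ⟨a⟩ := abelianGalois_quadratic K hK hd hs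
  obtain ⟨b⟩ := abelianGalois_quadratic L hL hd' ht
  refine ⟨⟨a.trans b.symm⟩, fun hne => ⟨fun f => hne ?_⟩⟩
  haveI : Algebra.IsQuadraticExtension ℚ K := ⟨hK⟩
  haveI : IsGalois ℚ K := ⟨⟩
  obtain ⟨φ⟩ := neukirch_numberField ⟨f⟩
  obtain ⟨s, hs⟩ := hs
  obtain ⟨t, ht⟩ := ht
  exact eq_of_ringEquiv_onabe hL hd hd' hs ht φ

/-- **Seven fields with the same abelianised and different absolute Galois groups.** -/
theorem exists_seven_fields_same_abelianisation :
    ∃ F : onabeRadicands → IntermediateField ℚ (AlgebraicClosure ℚ), ∀ i j,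
      finrank ℚ (F i) = 2 ∧
      Nonempty (Field.absoluteGaloisGroupAbelianization (F i) ≃ₜ*
        Field.absoluteGaloisGroupAbelianization (F j)) ∧
      (i ≠ j → IsEmpty (Field.absoluteGaloisGroup (F i) ≃ₜ* Field.absoluteGaloisGroup (F j))) := by
  choose s hs using fun i : onabeRadicands =>
    IsAlgClosed.exists_pow_nat_eq ((i : ℤ) : AlgebraicClosure ℚ) two_pos
  have hfr : ∀ i, finrank ℚ (IntermediateField.adjoin ℚ {s i}) = 2 := fun i => by
    obtain ⟨D, hD, -, hi⟩ := exists_prime_of_mem_onabe i.2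
    have hint : IsIntegral ℚ (s i) := Algebra.IsIntegral.isIntegral _
    rw [IntermediateField.adjoin.finrank hint]
    refine le_antisymm ?_ ((minpoly.two_le_natDegree_iff hint).2 ?_)
    · exact (Polynomial.natDegree_le_of_dvd (minpoly.dvd ℚ (s i) (p := Polynomial.X ^ 2 -
        Polynomial.C ((i : ℤ) : ℚ)) (by simp [hs i]))
        (Polynomial.X_pow_sub_C_ne_zero two_pos _)).trans_eq Polynomial.natDegree_X_pow_sub_C
    · rintro ⟨q, hq⟩
      have hsq : q ^ 2 = ((i : ℤ) : ℚ) := (algebraMap ℚ (AlgebraicClosure ℚ)).injective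
        (by rw [map_pow, hq, hs i, map_intCast])
      rw [hi] at hsq
      push_cast at hsq
      nlinarith [sq_nonneg q, (Nat.cast_pos (α := ℚ)).2 hD.pos]
  refine ⟨fun i => IntermediateField.adjoin ℚ {s i}, fun i j => ⟨hfr i, ?_⟩⟩
  haveI : FiniteDimensional ℚ (IntermediateField.adjoin ℚ {s i}) :=
    IntermediateField.adjoin.finiteDimensional (Algebra.IsIntegral.isIntegral _)
  haveI : FiniteDimensional ℚ (IntermediateField.adjoin ℚ {s j}) :=
    IntermediateField.adjoin.finiteDimensional (Algebra.IsIntegral.isIntegral _)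
  haveI : NumberField (IntermediateField.adjoin ℚ {s i}) := { }
  haveI : NumberField (IntermediateField.adjoin ℚ {s j}) := { }
  obtain ⟨h, h'⟩ := abelianGalois_not_determining (IntermediateField.adjoin ℚ {s i})
    (IntermediateField.adjoin ℚ {s j}) (hfr i) (hfr j) i.2 j.2
    ⟨⟨s i, IntermediateField.mem_adjoin_simple_self ℚ _⟩, Subtype.ext (by push_cast; exact hs i)⟩
    ⟨⟨s j, IntermediateField.mem_adjoin_simple_self ℚ _⟩, Subtype.ext (by push_cast; exact hs j)⟩
  exact ⟨h, fun hij => h' fun e => hij (Subtype.ext e)⟩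

end FA.Summary

end
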