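import Fermat.Agent.AbelianGeometric.Character

/-!
# Abelian representations of the Galois group of `ℚ` that are Hodge–Tate at `p`

`atP ρ` is the restriction of `ρ` along `localGaloisToGlobal p`, and `cycQ p` is the `p`-adic
cyclotomic character of `ℚ` with values in `ℚ_p`. An open subgroup is open in the Krull topology,
so has finite index. The weights are signed as in `SummaryPadicHodge`: `χ ^ j` has weight `j`.
-/

set_option autoImplicit false
set_option linter.unusedSectionVars false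

noncomputable section

open Finset FA.TateSen FA.Sen FA.PadicHodge FA.PadicChar FA.AbelianGeometric
open scoped Matrix

namespace FA.Summary

variable (p : ℕ) [hp : Fact p.Prime] (d : Type) [Fintype d] [DecidableEq d]

local notation "Qb" => AlgebraicClosure ℚ
local notation "GQ" => AlgebraicClosure ℚ ≃ₐ[ℚ] AlgebraicClosure ℚ
local notation "G" => PadicAlgCl p ≃ₐ[ℚ_[p]] PadicAlgCl p
local notation "Cp" => ℂ_[p]

/-- The definitions used below. -/
theorem abelian_geometric_defs (ρ : GQ →* Matrix d d ℚ_[p]) :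
    (∀ τ : G, atP ρ τ = ρ (localGaloisToGlobal p τ)) ∧
    (∀ σ : GQ, cycQ p σ = ((FA.JTorsion.cycP p σ : ℤ_[p]) : ℚ_[p])) ∧
    ∀ τ : G, FA.JTorsion.cycP p (localGaloisToGlobal p τ) = chi p τ :=
  ⟨fun _ => rfl, fun _ => rfl, cycP_loc⟩

/-- **Fontaine–Mazur for abelian representations of the Galois group of `ℚ`, any dimension**
(Serre): with commuting image, Hodge–Tate at `p`, de Rham at `p`, and being
`diag (χ ^ j i)` in a basis over `ℚ_p` on an open subgroup are the same. -/
theorem abelian_geometric (ρ : GQ →* Matrix d d ℚ_[p]) (hc : Continuous ρ)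
    (hcomm : ∀ σ τ : GQ, Commute (ρ σ) (ρ τ)) :
    (IsHodgeTate (cpRep (atP ρ)) ↔ IsDeRham (atP ρ)) ∧
    (IsHodgeTate (cpRep (atP ρ)) ↔
      ∃ H : Subgroup GQ, IsOpen (H : Set GQ) ∧ ∃ (C : (Matrix d d ℚ_[p])ˣ) (j : d → ℤ),
        ∀ σ ∈ H, ρ σ * (C : Matrix d d ℚ_[p]) =
          (C : Matrix d d ℚ_[p]) * Matrix.diagonal fun i => cycQ p σ ^ j i) :=
  ⟨(abelian_geometric_iff hc hcomm).2.symm, (abelian_geometric_iff hc hcomm).1⟩

/-- The exponents are the Hodge–Tate weights at `p`, with multiplicities. -/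
theorem abelian_geometric_weights (ρ : GQ →* Matrix d d ℚ_[p]) (H : Subgroup GQ)
    (hH : IsOpen (H : Set GQ)) (C : (Matrix d d ℚ_[p])ˣ) (j : d → ℤ)
    (h : ∀ σ ∈ H, ρ σ * (C : Matrix d d ℚ_[p]) =
      (C : Matrix d d ℚ_[p]) * Matrix.diagonal fun i => cycQ p σ ^ j i)
    (P : (Matrix d d Cp)ˣ) (w : d → ℤ)
    (hP : ∀ τ, FA.Sen.conj (cpRep (atP ρ)) P τ = Matrix.diagonal fun i => twist p (w i) τ)
    (v : ℤ) : (univ.filter fun i => w i = v).card = (univ.filter fun i => j i = v).card :=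
  card_weight_eq_of_isCycSum hH h hP v

/-- **Geometric characters of the Galois group of `ℚ`**: Hodge–Tate at `p` means de Rham at `p`,
and means a character of finite order times an integral power of the cyclotomic one; no
condition on ramification is needed. -/
theorem geometric_character (η : GQ →* ℚ_[p]) (hη : Continuous η) :
    (IsHodgeTate (cpRep (charRep (η.comp (localGaloisToGlobal p)))) ↔
      ∃ (ε : GQ →* ℚ_[p]) (n : ℤ), Continuous ε ∧ (∃ m, 0 < m ∧ ∀ σ, ε σ ^ m = 1) ∧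
        ∀ σ, η σ = ε σ * cycQ p σ ^ n) ∧
    (IsDeRham (charRep (η.comp (localGaloisToGlobal p))) ↔
      IsHodgeTate (cpRep (charRep (η.comp (localGaloisToGlobal p))))) :=
  geometric_character_iff hη

/-- **The finite order part is a Dirichlet character and the exponent is unique.** -/
theorem geometric_character_dirichlet (η ε : GQ →* ℚ_[p]) (n : ℤ) (hε : Continuous ε)
    (hfin : ∃ m, 0 < m ∧ ∀ σ, ε σ ^ m = 1) (h : ∀ σ, η σ = ε σ * cycQ p σ ^ n) :
    (∃ N : ℕ, 0 < N ∧ ∀ σ : GQ, (∀ μ : Qb, μ ^ N = 1 → σ μ = μ) → ε σ = 1) ∧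
    ∀ (ε' : GQ →* ℚ_[p]) (n' : ℤ), Continuous ε' → (∃ m, 0 < m ∧ ∀ σ, ε' σ ^ m = 1) →
      (∀ σ, η σ = ε' σ * cycQ p σ ^ n') → n' = n := by
  obtain ⟨m, hm, hεm⟩ := hfin
  exact ⟨exists_conductor hε hm hεm, fun ε' n' hε' ⟨m', hm', hεm'⟩ h' =>
    exponent_unique hε' hε hm' hm hεm' hεm h' h⟩

/-- **All weights zero means finite image**, for abelian representations of the Galois group of
`ℚ`. -/
theorem weight_zero_finite_image (ρ : GQ →* Matrix d d ℚ_[p]) (hc : Continuous ρ)
    (hcomm : ∀ σ τ : GQ, Commute (ρ σ) (ρ τ)) :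
    (∃ P : (Matrix d d Cp)ˣ, ∀ τ, FA.Sen.conj (cpRep (atP ρ)) P τ =
      Matrix.diagonal fun _ => twist p 0 τ) ↔ (Set.range ρ).Finite :=
  weights_zero_iff hc hcomm

/-- **An abelian representation of the Galois group of `ℚ` that is not geometric**: the extension
of `ℚ_p` by itself given by the logarithm of the cyclotomic character. -/
theorem not_geometric_example :
    ∃ ρ : GQ →* Matrix (Fin 2) (Fin 2) ℚ_[p],
      (∀ σ, ρ σ = !![1, ((FA.ZpHom.logU p (FA.JTorsion.cycP p σ) : ℤ_[p]) : ℚ_[p]); 0, 1]) ∧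
      Continuous ρ ∧ (∀ σ τ : GQ, Commute (ρ σ) (ρ τ)) ∧ ¬ IsHodgeTate (cpRep (atP ρ)) :=
  ⟨logRep p, fun _ => rfl, continuous_logRep, commute_logRep, not_isHodgeTate_logRep⟩

end FA.Summary
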