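import Fermat.Agent.AbelianHeight.Free
import Mathlib.FieldTheory.AlgebraicClosure

/-!
# Amoroso and Dvornicich, and the structure of multiplicative groups

`Height.logHeight₁` is Mathlib's height of a number field `K`, the sum over all places with local
degrees, so `[K : ℚ]` times the absolute logarithmic height; the absolute height of `x : ℂ` is
written `log M(f) / deg f` for its irreducible integer polynomial `f`.

* `bogomolov_abelian_all`: in an abelian number field every `x`, integral or not, not zero and not a
  root of unity, has `logHeight₁ x ≥ [K : ℚ] log (5 / 2) / 10`;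
* `bogomolov_maximal_abelian`: so has every such `x` in the compositum of all cyclotomic fields the
  absolute height at least `log (5 / 2) / 10`;
* `free_modulo_torsion`: if a field of algebraic numbers has the Bogomolov property then its
  multiplicative group modulo roots of unity is a free abelian group;
* `free_modulo_torsion_maximal_abelian`, `free_modulo_torsion_bounded_degree`: so it is for every
  subfield of the compositum of all cyclotomic fields and for the compositum of all number fields of
  degree at most `d`.

The constant `log 5 / 12` and relative abelian extensions are not claimed. Independent of S01.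
-/

set_option autoImplicit false

noncomputable section

namespace FA.AbelianHeight.Summary

open NumberField Polynomial

/-- **The theorem of Amoroso and Dvornicich.** -/
theorem bogomolov_abelian_all {K : Type*} [Field K] [NumberField K] [IsAbelianGalois ℚ K] (x : K)
    (h0 : x ≠ 0) (hroot : ∀ n : ℕ, 0 < n → x ^ n ≠ 1) :
    (Module.finrank ℚ K : ℝ) * (Real.log (5 / 2) / 10) ≤ Height.logHeight₁ x :=
  height_abelian h0 hroot

/-- **The maximal abelian extension has the Bogomolov property.** -/
theorem bogomolov_maximal_abelian (x : ℂ) (f : ℤ[X]) (hf : Irreducible f) (hfx : aeval x f = 0)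
    (hx : x ∈ IntermediateField.adjoin ℚ {z : ℂ | ∃ n : ℕ, 0 < n ∧ z ^ n = 1}) (h0 : x ≠ 0)
    (hroot : ∀ n : ℕ, 0 < n → x ^ n ≠ 1) :
    Real.log (5 / 2) / 10 ≤ Real.log (f.map (Int.castRingHom ℂ)).mahlerMeasure / f.natDegree :=
  (algHeight_cyclotomicCompositum hx h0 hroot).trans (BiluTorus.algHeight_eq hf hfx).le

/-- **The Bogomolov property makes the multiplicative group free modulo torsion.** -/
theorem free_modulo_torsion (K : IntermediateField ℚ ℂ) (halg : ∀ x ∈ K, IsAlgebraic ℚ x) {c : ℝ}
    (hc : 0 < c) (hK : ∀ x ∈ K, x ≠ 0 → (∀ n : ℕ, 0 < n → x ^ n ≠ 1) →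
      ∀ f : ℤ[X], Irreducible f → aeval x f = 0 →
        c ≤ Real.log (f.map (Int.castRingHom ℂ)).mahlerMeasure / f.natDegree) :
    Module.Free ℤ (Additive (Kˣ ⧸ CommGroup.torsion Kˣ)) :=
  free_units_mod_torsion K halg hc fun x hx h0 hroot => by
    obtain ⟨f, hf, hfx⟩ := BiluTorus.exists_irreducible (halg x hx)
    exact (hK x hx h0 hroot f hf hfx).trans (BiluTorus.algHeight_eq hf hfx).ge

theorem isAlgebraic_of_mem_adjoin {S : Set ℂ} (hS : ∀ z ∈ S, IsAlgebraic ℚ z) {x : ℂ}
    (hx : x ∈ IntermediateField.adjoin ℚ S) : IsAlgebraic ℚ x :=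
  mem_algebraicClosure_iff.1 (IntermediateField.adjoin_le_iff.2
    (fun z hz => mem_algebraicClosure_iff.2 (hS z hz)) hx)

/-- **Subfields of the maximal abelian extension.** -/
theorem free_modulo_torsion_maximal_abelian (K : IntermediateField ℚ ℂ)
    (hK : K ≤ IntermediateField.adjoin ℚ {z : ℂ | ∃ n : ℕ, 0 < n ∧ z ^ n = 1}) :
    Module.Free ℤ (Additive (Kˣ ⧸ CommGroup.torsion Kˣ)) :=
  free_units_mod_torsion K
    (fun x hx => isAlgebraic_of_mem_adjoin
      (S := {z : ℂ | ∃ n : ℕ, 0 < n ∧ z ^ n = 1}) (fun z hz => by
        obtain ⟨n, hn, hz⟩ := hz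
        exact (IsIntegral.of_pow hn (hz ▸ isIntegral_one)).isAlgebraic) (hK hx))
    (div_pos (Real.log_pos (by norm_num)) (by norm_num))
    fun x hx h0 hroot => algHeight_cyclotomicCompositum (hK hx) h0 hroot

/-- **The compositum of all number fields of bounded degree.** -/
theorem free_modulo_torsion_bounded_degree (d : ℕ) :
    Module.Free ℤ (Additive
      ((IntermediateField.adjoin ℚ {z : ℂ | IsIntegral ℚ z ∧ (minpoly ℚ z).natDegree ≤ d})ˣ ⧸
        CommGroup.torsion
          (IntermediateField.adjoin ℚ
            {z : ℂ | IsIntegral ℚ z ∧ (minpoly ℚ z).natDegree ≤ d})ˣ)) := by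
  obtain ⟨c, hc, h⟩ := LocalDegrees.compositum_bound d
  exact free_units_mod_torsion _
    (fun x hx => isAlgebraic_of_mem_adjoin (fun z hz => hz.1.isAlgebraic) hx) hc h

end FA.AbelianHeight.Summary

end
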