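import Fermat.Agent.AbelianNorthcott.Main

/-!
# Bombieri and Zannier: abelian extensions of bounded exponent

`h x = log M(f) / deg f` for the irreducible integer polynomial `f` of `x`, the absolute logarithmic
height, with `M` the Mahler measure.

* `ramified_height_bound`: in `ℚ(ζ)`, `ζ` of order `p ^ v m` with a prime `p > N`, an element fixed by
  all `N`-th powers of automorphisms but outside `ℚ(ζ ^ (p ^ v))` has
  `logHeight₁ ≥ [ℚ(ζ) : ℚ] (log p / N - log 2) / 2`;
* `bounded_conductor`: an element of height at most `T` of an abelian number field whose group has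
  exponent dividing `N` lies in `ℚ(ζ_M)` for one `M = M (N, T)`;
* `northcott_abelian_exponent`: so there are only finitely many;
* `northcott_abelian_degree_compositum`: the compositum of all abelian number fields of degree at
  most `d` has the Northcott property;
* `exponent_two_unbounded_degree`: such fields have unbounded degree already for `N = 2`.

Other base fields, composita that are not abelian and Widmer's criterion are not claimed.
Independent of S01.
-/

set_option autoImplicit false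

noncomputable section

namespace FA.AbelianNorthcott.Summary

open NumberField Polynomial Module IntermediateField

/-- **The bound at a ramified prime.** -/
theorem ramified_height_bound {L : Type} [Field L] [NumberField L] {p v m N : ℕ} (hp : p.Prime)
    (hN : 0 < N) (hpN : N < p) [NeZero (p ^ v * m)] [IsCyclotomicExtension {p ^ v * m} ℚ L] {ζ : L}
    (hζ : IsPrimitiveRoot ζ (p ^ v * m)) (a : L) (hfix : ∀ τ : L ≃ₐ[ℚ] L, (τ ^ N) a = a)
    (ha : a ∉ ℚ⟮ζ ^ p ^ v⟯) :
    (finrank ℚ L : ℝ) * ((Real.log p / N - Real.log 2) / 2) ≤ Height.logHeight₁ a := by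
  haveI : IsGalois ℚ L := IsCyclotomicExtension.isGalois {p ^ v * m} ℚ L
  obtain ⟨σ, hσ, hne⟩ : ∃ σ : L ≃ₐ[ℚ] L, σ (ζ ^ p ^ v) = ζ ^ p ^ v ∧ σ a ≠ a := by
    by_contra! h
    exact ha (mem_adjoin_of_fixed h)
  have h := ramified_bound hp hN hpN hζ hfix hσ hne
  have hN' : (0 : ℝ) < N := Nat.cast_pos.2 hN
  refine le_of_mul_le_mul_left (le_of_eq_of_le ?_ h) (by positivity : (0 : ℝ) < 2 * N)
  field_simp

/-- **The conductor of the small points.** -/
theorem bounded_conductor (N : ℕ) (hN : 0 < N) (T : ℝ) :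
    ∃ M : ℕ, 0 < M ∧ ∀ (K : IntermediateField ℚ ℂ) [FiniteDimensional ℚ K] [IsAbelianGalois ℚ K],
      (∀ σ : K ≃ₐ[ℚ] K, σ ^ N = 1) → ∀ x ∈ K, ∀ f : ℤ[X], Irreducible f → aeval x f = 0 →
        Real.log (f.map (Int.castRingHom ℂ)).mahlerMeasure / f.natDegree ≤ T →
        x ∈ adjoin ℚ {z : ℂ | z ^ M = 1} :=
  ⟨conductor N T, conductor_pos N T, fun K _ _ hexp x hx f hf hfx hT =>
    mem_carrier hN K hexp hx ((BiluTorus.algHeight_eq hf hfx).le.trans hT)⟩

/-- **The theorem of Bombieri and Zannier.** -/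
theorem northcott_abelian_exponent (N : ℕ) (hN : 0 < N) (T : ℝ) :
    {x : ℂ | (∃ (K : IntermediateField ℚ ℂ) (_ : FiniteDimensional ℚ K),
        IsAbelianGalois ℚ K ∧ (∀ σ : K ≃ₐ[ℚ] K, σ ^ N = 1) ∧ x ∈ K) ∧
      ∃ f : ℤ[X], Irreducible f ∧ aeval x f = 0 ∧
        Real.log (f.map (Int.castRingHom ℂ)).mahlerMeasure / f.natDegree ≤ T}.Finite := by
  refine (finite_carrier N T).subset ?_
  rintro x ⟨⟨K, hfd, hab, hexp, hx⟩, f, hf, hfx, hT⟩
  haveI := hfd
  haveI := hab
  have h := (BiluTorus.algHeight_eq hf hfx).le.trans hT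
  exact ⟨mem_carrier hN K hexp hx h, h⟩

/-- **The compositum of the abelian fields of degree at most `d`.** -/
theorem northcott_abelian_degree_compositum (d : ℕ) (T : ℝ) :
    {x : ℂ | x ∈ adjoin ℚ {z : ℂ | ∃ (K : IntermediateField ℚ ℂ) (_ : FiniteDimensional ℚ K),
        IsAbelianGalois ℚ K ∧ finrank ℚ K ≤ d ∧ z ∈ K} ∧
      ∃ f : ℤ[X], Irreducible f ∧ aeval x f = 0 ∧
        Real.log (f.map (Int.castRingHom ℂ)).mahlerMeasure / f.natDegree ≤ T}.Finite := by
  refine (finite_carrier d.factorial T).subset ?_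
  rintro x ⟨hx, f, hf, hfx, hT⟩
  have h := (BiluTorus.algHeight_eq hf hfx).le.trans hT
  exact ⟨mem_carrier_of_compositum hx h, h⟩

/-- The fields in question have unbounded degree. -/
theorem exponent_two_unbounded_degree (n : ℕ) :
    ∃ (K : IntermediateField ℚ ℂ) (_ : FiniteDimensional ℚ K),
      IsAbelianGalois ℚ K ∧ (∀ σ : K ≃ₐ[ℚ] K, σ ^ 2 = 1) ∧ n ≤ finrank ℚ K :=
  exists_large_exponent_two n

end FA.AbelianNorthcott.Summary

end
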