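import Fermat.Agent.AbelianQuartic.Main

/-!
# Galois quartic fields by discriminant (Baily)

* `cyclic_quartic_asymptotic`: the cyclic quartic fields with `|d| ≤ X` number `~ c √X` with
  `c = 3/π² ((1 + √2/24) ∏_{p ≡ 1 (4)} (1 + 2/((p + 1) √p)) - 1) > 0`;
* `biquadratic_asymptotic`: the Galois quartic fields that are not cyclic (the biquadratic ones)
  number `~ c √X (log X)²` with `c = 23/960 ∏_p (1 - 1/p)³ (1 + 3/p) > 0`;
* `galois_quartic_asymptotic`: so all Galois quartic fields number `~ c √X (log X)²` with the same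
  `c`;
* `galois_quartic_finite`, `galois_quartic_eq_of_iso`: fields are counted as subfields of `ℂ`;
  there are finitely many below each bound and isomorphic ones are equal, so the counts are up to
  isomorphism.

Error terms and signatures are not claimed. Independent of S01.
-/

set_option autoImplicit false
set_option linter.style.haveILetI false

noncomputable section

open NumberField Module Filter Topology IntermediateField
open scoped Real

namespace FA.AbelianQuartic.Summary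

theorem discr_le_iff {F : IntermediateField ℚ ℂ} [NumberField F] {X : ℝ} (hX : 0 ≤ X) :
    |(discr F : ℝ)| ≤ X ↔ (discr F).natAbs ≤ ⌊X⌋₊ := by
  rw [Nat.le_floor_iff hX, Nat.cast_natAbs, Int.cast_abs]

theorem mem_quartics_iff {F : IntermediateField ℚ ℂ} {X : ℝ} (hX : 0 ≤ X) :
    F ∈ quartics ⌊X⌋₊ ↔
      finrank ℚ F = 4 ∧ IsGalois ℚ F ∧ ∃ _ : NumberField F, |(discr F : ℝ)| ≤ X :=
  ⟨fun ⟨h4, hg, hn, hd⟩ => ⟨h4, hg, hn, (discr_le_iff hX).mpr hd⟩,
    fun ⟨h4, hg, hn, hd⟩ => ⟨h4, hg, hn, (discr_le_iff hX).mp hd⟩⟩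

/-- **Cyclic quartic fields.** -/
theorem cyclic_quartic_asymptotic :
    Tendsto (fun X : ℝ => ({F : IntermediateField ℚ ℂ | finrank ℚ F = 4 ∧ IsGalois ℚ F ∧
        IsCyclic Gal(F/ℚ) ∧ ∃ _ : NumberField F, |(discr F : ℝ)| ≤ X}.ncard : ℝ) / √X) atTop
      (𝓝 (3 / π ^ 2 * ((1 + √2 / 24) * (∏' p : Nat.Primes,
        if (p : ℕ) % 4 = 1 then 1 + 2 / (((p : ℝ) + 1) * √p) else 1) - 1))) ∧
    (0 : ℝ) < 3 / π ^ 2 * ((1 + √2 / 24) * (∏' p : Nat.Primes,
        if (p : ℕ) % 4 = 1 then 1 + 2 / (((p : ℝ) + 1) * √p) else 1) - 1) := by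
  refine ⟨tendsto_cyclic.congr' ?_, cyclicConst_pos⟩
  filter_upwards [eventually_ge_atTop (0 : ℝ)] with X hX
  congr 3
  ext F
  simp only [Set.mem_ofPred_eq, mem_quartics_iff hX]
  tauto

/-- **Biquadratic fields.** -/
theorem biquadratic_asymptotic :
    Tendsto (fun X : ℝ => ({F : IntermediateField ℚ ℂ | finrank ℚ F = 4 ∧ IsGalois ℚ F ∧
        ¬IsCyclic Gal(F/ℚ) ∧ ∃ _ : NumberField F, |(discr F : ℝ)| ≤ X}.ncard : ℝ) /
          (√X * Real.log X ^ 2)) atTop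
      (𝓝 (23 / 960 * ∏' p : Nat.Primes, (1 - (p : ℝ)⁻¹) ^ 3 * (1 + 3 * (p : ℝ)⁻¹))) ∧
    (0 : ℝ) < 23 / 960 * ∏' p : Nat.Primes, (1 - (p : ℝ)⁻¹) ^ 3 * (1 + 3 * (p : ℝ)⁻¹) := by
  refine ⟨tendsto_noncyclic.congr' ?_, noncyclicConst_pos⟩
  filter_upwards [eventually_ge_atTop (0 : ℝ)] with X hX
  congr 3
  ext F
  simp only [Set.mem_ofPred_eq, mem_quartics_iff hX]
  tauto

/-- **Galois quartic fields.** -/
theorem galois_quartic_asymptotic :
    Tendsto (fun X : ℝ => ({F : IntermediateField ℚ ℂ | finrank ℚ F = 4 ∧ IsGalois ℚ F ∧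
        ∃ _ : NumberField F, |(discr F : ℝ)| ≤ X}.ncard : ℝ) / (√X * Real.log X ^ 2)) atTop
      (𝓝 (23 / 960 * ∏' p : Nat.Primes, (1 - (p : ℝ)⁻¹) ^ 3 * (1 + 3 * (p : ℝ)⁻¹))) := by
  refine tendsto_galois.congr' ?_
  filter_upwards [eventually_ge_atTop (0 : ℝ)] with X hX
  congr 3
  ext F
  simp only [Set.mem_ofPred_eq, mem_quartics_iff hX]

/-- Finitely many below each bound. -/
theorem galois_quartic_finite (X : ℝ) :
    {F : IntermediateField ℚ ℂ | finrank ℚ F = 4 ∧ IsGalois ℚ F ∧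
      ∃ _ : NumberField F, |(discr F : ℝ)| ≤ X}.Finite :=
  (finite_quartics ⌊max X 0⌋₊).subset fun _ ⟨h4, hg, hn, hd⟩ =>
    (mem_quartics_iff (le_max_right X 0)).mpr ⟨h4, hg, hn, hd.trans (le_max_left X 0)⟩

theorem eq_of_algEquiv {k L : Type*} [Field k] [Field L] [Algebra k L]
    (F G : IntermediateField k L) (hF : IsGalois k F) (e : F ≃ₐ[k] G) : F = G := by
  haveI := hF
  rw [← AlgHom.fieldRange_of_normal (G.val.comp e.toAlgHom)]
  ext x
  constructor
  · rintro ⟨y, rfl⟩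
    exact (e y).2
  · intro hx
    exact ⟨e.symm ⟨x, hx⟩, by simp⟩

/-- Isomorphic Galois subfields of `ℂ` are equal. -/
theorem galois_quartic_eq_of_iso (F G : IntermediateField ℚ ℂ) [IsGalois ℚ F]
    (e : F ≃ₐ[ℚ] G) : F = G :=
  eq_of_algEquiv F G ‹_› e

end FA.AbelianQuartic.Summary
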