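import Fermat.Agent.AbelianFE.RelativeClassNumber
import Fermat.Agent.AbelianFE.KlingenSiegel
import Fermat.Agent.Root.SummaryAbelianFunctionalEquation

/-!
# Special values of the zeta functions of abelian number fields

* `lFunction_zero_odd`: `L(0, χ) = -B_{1,χ}` for an odd primitive character.
* `lFunction_neg_nat`: `L(-m, χ) = -(N^m/(m+1)) ∑ χ(j) B_(m+1)(j/N)`, i.e. `-B_(m+1,χ)/(m+1)`.
* `relativeClassNumber_formula`: for every abelian CM field `F` one group of characters gives `ζ_F` and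
  `h = h⁺ Q w ∏ (-B_{1,χ}/2)`, the product over the odd ones.
* `siegel_klingen_abelian`: for a totally real abelian `F` every continuation of `ζ_F` takes nonzero rational
  values at the negative odd integers.

Classical (Kummer, Hasse; Siegel, Klingen, Leopoldt); independent of S01.
-/

set_option autoImplicit false
set_option linter.style.haveILetI false

noncomputable section

open NumberField DirichletCharacter Complex
open scoped Classical

namespace FA.Summary

/-- **`L(0, χ) = -B_{1,χ}`.** -/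
theorem lFunction_zero_odd {N : ℕ} [NeZero N] {χ : DirichletCharacter ℂ N} (hprim : χ.IsPrimitive) (hχ : χ.Odd) :
    LFunction χ 0 = -((∑ a : ZMod N, χ a * (a.val : ℂ)) / N) :=
  FA.AbelianFE.LFunction_zero_of_odd hprim hχ

/-- **`L(-m, χ) = -B_(m+1,χ)/(m+1)`.** -/
theorem lFunction_neg_nat {N : ℕ} [NeZero N] (χ : DirichletCharacter ℂ N) {m : ℕ} (hm : m ≠ 0) :
    LFunction χ (-(m : ℂ)) = ∑ j : ZMod N,
      χ j * ((-((N : ℚ) ^ m / (m + 1)) * (Polynomial.bernoulli (m + 1)).eval ((j.val : ℚ) / N) : ℚ) : ℂ) :=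
  FA.AbelianFE.LFunction_neg_nat_eq χ hm

/-- **The relative class number formula of an abelian CM field.** -/
theorem relativeClassNumber_formula (F : Type*) [Field F] [NumberField F] [IsAbelianGalois ℚ F] [IsCMField F] :
    ∃ (n : ℕ) (_ : NeZero n) (X : Finset (DirichletCharacter ℂ n)),
      X.card = Module.finrank ℚ F ∧
      (∀ s : ℂ, 1 < s.re → dedekindZeta F s = ∏ χ ∈ X, LFunction χ.primitiveCharacter s) ∧
      (classNumber F : ℂ) = classNumber (maximalRealSubfield F) *
        (IsCMField.indexRealUnits F : ℂ) * Units.torsionOrder F *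
        ∏ χ ∈ X.filter (fun χ => χ.Odd), (-(FA.AbelianFE.bernoulliOne' χ.conductor χ.primitiveCharacter) / 2) := by
  obtain ⟨n, hn, ⟨f⟩⟩ := kroneckerWeber_cyclotomicField F
  haveI : NeZero n := ⟨hn.ne'⟩
  haveI : NeZero (n : ℚ) := ⟨Nat.cast_ne_zero.mpr hn.ne'⟩
  haveI : IsCyclotomicExtension {n} ℚ (CyclotomicField n ℚ) := CyclotomicField.isCyclotomicExtension n ℚ
  haveI : IsAbelianGalois ℚ (CyclotomicField n ℚ) :=
    IsCyclotomicExtension.isAbelianGalois {n} ℚ (CyclotomicField n ℚ)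
  let e : F ≃+* f.fieldRange := (AlgEquiv.ofInjectiveField f).toRingEquiv
  refine ⟨n, inferInstance,
    Finset.univ.filter fun χ => χ ∈ FA.AbelianZeta.fieldChars n (CyclotomicField n ℚ) f.fieldRange,
    FA.ConductorDiscr.card_chars_eq _ _ e,
    fun s hs => FA.ConductorDiscr.dedekindZeta_eq_prodL _ _ e hs, ?_⟩
  rw [Finset.filter_filter]
  exact FA.AbelianFE.relativeClassNumber_eq n (CyclotomicField n ℚ) F f

/-- **Siegel–Klingen for abelian fields.** -/
theorem siegel_klingen_abelian (F : Type*) [Field F] [NumberField F] [IsAbelianGalois ℚ F] [IsTotallyReal F]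
    {Z : ℂ → ℂ} (hZ : DifferentiableOn ℂ Z {1}ᶜ) (hζ : ∀ s : ℂ, 1 < s.re → Z s = dedekindZeta F s) (k : ℕ) :
    ∃ r : ℚ, r ≠ 0 ∧ Z (-((2 * k + 1 : ℕ) : ℂ)) = (r : ℂ) := by
  obtain ⟨n, hn, ⟨f⟩⟩ := kroneckerWeber_cyclotomicField F
  haveI : NeZero n := ⟨hn.ne'⟩
  haveI : NeZero (n : ℚ) := ⟨Nat.cast_ne_zero.mpr hn.ne'⟩
  haveI : IsCyclotomicExtension {n} ℚ (CyclotomicField n ℚ) := CyclotomicField.isCyclotomicExtension n ℚ
  haveI : IsAbelianGalois ℚ (CyclotomicField n ℚ) :=
    IsCyclotomicExtension.isAbelianGalois {n} ℚ (CyclotomicField n ℚ)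
  let E : IntermediateField ℚ (CyclotomicField n ℚ) := f.fieldRange
  let e : F ≃+* E := (AlgEquiv.ofInjectiveField f).toRingEquiv
  set X := Finset.univ.filter fun χ => χ ∈ FA.AbelianZeta.fieldChars n (CyclotomicField n ℚ) E with hX
  have heven : ∀ χ ∈ X, χ.Even := by
    have h1 := FA.AbelianFE.card_even_eq n (CyclotomicField n ℚ) E
    rw [← FA.AbelianFE.nrRealPlaces_congr e, ← FA.AbelianFE.nrComplexPlaces_congr e,
      IsTotallyReal.nrComplexPlaces_eq_zero F, add_zero, ← IsTotallyReal.finrank F,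
      ← FA.ConductorDiscr.card_chars_eq (n := n) (CyclotomicField n ℚ) E e] at h1
    intro χ hχ
    rw [← Finset.eq_of_subset_of_card_le (show Finset.univ.filter (fun χ =>
      χ ∈ FA.AbelianZeta.fieldChars n (CyclotomicField n ℚ) E ∧ χ.Even) ⊆ X from fun ψ hψ =>
        Finset.mem_filter.mpr ⟨Finset.mem_univ _, (Finset.mem_filter.mp hψ).2.1⟩) h1.ge] at hχ
    exact (Finset.mem_filter.mp hχ).2.2
  have hclosed : ∀ χ ∈ X, ∀ a : ℕ, χ ^ a ∈ X := fun χ hχ a =>
    Finset.mem_filter.mpr ⟨Finset.mem_univ _, Subgroup.pow_mem _ (Finset.mem_filter.mp hχ).2 a⟩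
  obtain ⟨r, hr⟩ := FA.AbelianFE.exists_rat_prod_LFunction hclosed (m := 2 * k + 1) (by omega)
  have hEq : ∀ s : ℂ, s ≠ 1 → Z s = FA.AbelianZeta.prodL X s := by
    have hpc : IsPreconnected ({1}ᶜ : Set ℂ) :=
      (isConnected_compl_singleton_of_one_lt_rank (rank_real_complex ▸ Nat.one_lt_ofNat) _).isPreconnected
    refine fun s hs => AnalyticOnNhd.eqOn_of_preconnected_of_eventuallyEq (hZ.analyticOnNhd isOpen_compl_singleton)
      (DifferentiableOn.analyticOnNhd (fun t ht => DifferentiableAt.differentiableWithinAt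
        (DifferentiableAt.fun_finsetProd fun χ _ => differentiableAt_LFunction _ _ (.inl ht))) isOpen_compl_singleton)
      hpc (show (2 : ℂ) ∈ ({1}ᶜ : Set ℂ) by simp) ?_ hs
    filter_upwards [(isOpen_lt continuous_const continuous_re).mem_nhds
      (show (1 : ℝ) < (2 : ℂ).re by norm_num)] with t (ht : 1 < t.re)
    rw [hζ t ht, FA.ConductorDiscr.dedekindZeta_eq_prodL (n := n) (CyclotomicField n ℚ) E e ht]
    rfl
  have hne1 : (-((2 * k + 1 : ℕ) : ℂ)) ≠ 1 := fun h => by
    have := congrArg Complex.re h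
    rw [neg_re, natCast_re, one_re] at this
    linarith [(Nat.cast_nonneg (2 * k + 1) : (0 : ℝ) ≤ _)]
  refine ⟨r, fun h0 => ?_, (hEq _ hne1).trans hr⟩
  rw [h0, Rat.cast_zero, Finset.prod_eq_zero_iff] at hr
  obtain ⟨χ, hχ, hzero⟩ := hr
  haveI : NeZero χ.conductor := ⟨χ.conductor_ne_zero⟩
  refine FA.AbelianFE.LFunction_ne_zero_of_even χ.primitiveCharacter_isPrimitive ?_ k hzero
  show χ.primitiveCharacter (-1) = 1
  rw [FA.AbelianFE.primitiveCharacter_neg_one]
  exact heven χ hχ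

end FA.Summary
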