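import Fermat.Agent.WeightTwoOrdinary.AbelianTorsion
import Fermat.Agent.Weight1.CycLevel

/-!
# Summary: torsion of `J₀(p)` over abelian extensions, `p ≥ 5`

`n` is the numerator of `(p - 1) / 12`; a class of `J₀(p)` over `ℚ̄` is rational over the maximal
abelian extension when it is fixed by all the commutators of the absolute Galois group.

* `torsion_fixed_by_commutators`: such a class killed by `M` prime to `6 n` is zero;
* `primary_torsion_abelian`: so there is no `l`-power torsion over an abelian extension for a prime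
  `l ≥ 5` not dividing `n`, `l = p` included;
* `torsion_abelian_subgroup`: the same for the fixed classes of a normal subgroup with abelian
  quotient; so over `ℚ(μ_N)` (`torsion_cyclotomic`) and the quadratic fields (`torsion_index_two`).

Not proved here: `l = 2`, `3` and the primes dividing `n`.
-/

set_option autoImplicit false
set_option linter.style.haveILetI false
set_option synthInstance.maxHeartbeats 400000

noncomputable section

open ModularCurve

local notation "Qb" => AlgebraicClosure ℚ
local notation "GQ" => AlgebraicClosure ℚ ≃ₐ[ℚ] AlgebraicClosure ℚ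

namespace FA.AbelianTorsionJZero.Summary

open FA.WeightTwoOrdinary

variable {p : ℕ} [Fact p.Prime]

/-- **Classes rational over the maximal abelian extension.** -/
theorem torsion_fixed_by_commutators (hp5 : 5 ≤ p) {M : ℕ}
    (hM : M.Coprime (6 * eisensteinNumerator p)) (x : JZero p) (hx : M • x = 0)
    (hfix : ∀ σ τ : GQ, (σ * τ * σ⁻¹ * τ⁻¹) • x = x) : x = 0 :=
  eq_zero_of_commutators_coprime hp5 M hM x hx hfix

/-- **The `l`-primary torsion**, `l = p` included. -/
theorem primary_torsion_abelian (hp5 : 5 ≤ p) {l : ℕ} [Fact l.Prime] (h5 : 5 ≤ l)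
    (hn : ¬l ∣ eisensteinNumerator p) (e : ℕ) (x : JZero p) (hx : l ^ e • x = 0)
    (hfix : ∀ σ τ : GQ, (σ * τ * σ⁻¹ * τ⁻¹) • x = x) : x = 0 := by
  refine eq_zero_of_commutators_coprime hp5 (l ^ e) (Nat.Coprime.pow_left e ?_) x hx hfix
  have hl : l.Prime := Fact.out
  refine hl.coprime_iff_not_dvd.2 fun h => ?_
  rcases hl.dvd_mul.1 h with h | h
  · have := Nat.le_of_dvd (by norm_num) h
    interval_cases l
    · norm_num at h
    · norm_num at hl
  · exact hn h

/-- **A subgroup with abelian quotient.** -/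
theorem torsion_abelian_subgroup (hp5 : 5 ≤ p) {M : ℕ}
    (hM : M.Coprime (6 * eisensteinNumerator p)) (H : Subgroup GQ)
    (hab : ∀ σ τ : GQ, σ * τ * σ⁻¹ * τ⁻¹ ∈ H) (x : JZero p) (hx : M • x = 0)
    (hfix : ∀ σ ∈ H, σ • x = x) : x = 0 :=
  torsion_fixed_by_commutators hp5 hM x hx fun σ τ => hfix _ (hab σ τ)

/-- **No such torsion over `ℚ(μ_N)`.** -/
theorem torsion_cyclotomic (hp5 : 5 ≤ p) {M : ℕ} (hM : M.Coprime (6 * eisensteinNumerator p))
    (N : ℕ) [NeZero N] (x : JZero p) (hx : M • x = 0)
    (hfix : ∀ σ : GQ, FA.Weight1.cycM N σ = 1 → σ • x = x) : x = 0 :=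
  torsion_abelian_subgroup hp5 hM (FA.Weight1.cycM N).ker (fun σ τ => by
    rw [MonoidHom.mem_ker, map_mul, map_mul, map_mul, map_inv, map_inv,
      mul_comm (FA.Weight1.cycM N σ), mul_inv_cancel_right, mul_inv_cancel]) x hx hfix

/-- **No such torsion over a quadratic field.** -/
theorem torsion_index_two (hp5 : 5 ≤ p) {M : ℕ} (hM : M.Coprime (6 * eisensteinNumerator p))
    (H : Subgroup GQ) (hH : H.index = 2) (x : JZero p) (hx : M • x = 0)
    (hfix : ∀ σ ∈ H, σ • x = x) : x = 0 :=
  torsion_abelian_subgroup hp5 hM H (fun σ τ => by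
    rw [Subgroup.mul_mem_iff_of_index_two hH, Subgroup.mul_mem_iff_of_index_two hH,
      Subgroup.mul_mem_iff_of_index_two hH, H.inv_mem_iff, H.inv_mem_iff]
    tauto) x hx hfix

end FA.AbelianTorsionJZero.Summary

end
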