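import Fermat.Agent.EffectiveChebotarev.Zeros

/-!
# Growth and zero-free regions of the L-series of abelian extensions, uniformly

With absolute constants `c`, `A` and `H(t) = 1 + log |d_L| + n_L log (|t| + 3)`, for every abelian
extension `L/M` of number fields the L-series of the linear characters `ψ`, without the pole of the
trivial one, continue to entire functions `Λ ψ` such that:

* `abelian_LSeries_growth`: `|Λ ψ s| ≤ exp (A H(im s))` for `-4 ≤ re s ≤ 5`;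
* `abelian_LSeries_zero_free`: at most one `ψ` has a zero with `re s ≥ 1 - c / H(im s)`, and that
  zero is unique, real and simple.

By Hecke's functional equation and the conductor-discriminant formula.
-/

set_option autoImplicit false
set_option linter.style.haveILetI false

noncomputable section

open NumberField Module Complex
open FA.ArtinL (artinL)
open scoped Real Classical

namespace FA.Summary

open FA.EffCheb

variable {M L : Type*} [Field M] [NumberField M] [Field L] [NumberField L] [Algebra M L]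
  [IsGalois M L] (hcomm : ∀ g h : L ≃ₐ[M] L, g * h = h * g)

include hcomm

/-- **Growth, uniformly in the extension.** -/
theorem abelian_LSeries_growth :
    ∃ Λ : ((L ≃ₐ[M] L) →* ℂˣ) → ℂ → ℂ, ∀ ψ, Differentiable ℂ (Λ ψ) ∧
      (∀ s : ℂ, 1 < s.re →
        Λ ψ s = (s - 1) ^ (if ψ = 1 then 1 else 0 : ℕ) * artinL (fun σ => (ψ σ : ℂ)) s) ∧
      ∀ s : ℂ, -4 ≤ s.re → s.re ≤ 5 → ‖Λ ψ s‖ ≤ Real.exp (FA.DedekindZF.growA *
        (1 + Real.log ((discr L).natAbs : ℝ) + finrank ℚ L * Real.log (|s.im| + 3))) :=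
  ⟨clearedL hcomm, fun ψ => ⟨(isCleared_clearedL hcomm ψ).diff,
    (isCleared_clearedL hcomm ψ).series, fun s h1 h2 =>
      (isCleared_clearedL hcomm ψ).upper s ⟨h1, h2⟩⟩⟩

/-- **The zero-free region, uniformly in the extension.** -/
theorem abelian_LSeries_zero_free {Λ : ((L ≃ₐ[M] L) →* ℂˣ) → ℂ → ℂ}
    (hd : ∀ ψ, Differentiable ℂ (Λ ψ))
    (hΛ : ∀ ψ, ∀ s : ℂ, 1 < s.re →
      Λ ψ s = (s - 1) ^ (if ψ = 1 then 1 else 0 : ℕ) * artinL (fun σ => (ψ σ : ℂ)) s)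
    {ψ : (L ≃ₐ[M] L) →* ℂˣ} {ρ : ℂ} (h0 : Λ ψ ρ = 0)
    (hρ : 1 - FA.DedekindZF.zfrC /
      (1 + Real.log ((discr L).natAbs : ℝ) + finrank ℚ L * Real.log (|ρ.im| + 3)) ≤ ρ.re) :
    ρ.im = 0 ∧ deriv (Λ ψ) ρ ≠ 0 ∧ ∀ (ψ' : (L ≃ₐ[M] L) →* ℂˣ) (ρ' : ℂ), Λ ψ' ρ' = 0 →
      1 - FA.DedekindZF.zfrC /
        (1 + Real.log ((discr L).natAbs : ℝ) + finrank ℚ L * Real.log (|ρ'.im| + 3)) ≤ ρ'.re →
      ρ' = ρ ∧ ψ' = ψ := by
  haveI := FA.ArtinFE.finite_linear hcomm
  letI := Fintype.ofFinite ((L ≃ₐ[M] L) →* ℂˣ)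
  have heq : ∀ χ, Λ χ = clearedL hcomm χ := fun χ =>
    FA.ZetaDivisibility.eq_of_eqOn_halfPlane (hd χ) (isCleared_clearedL hcomm χ).diff fun s hs =>
      (hΛ χ s hs).trans ((isCleared_clearedL hcomm χ).series s hs).symm
  simp only [heq] at h0 ⊢
  obtain ⟨E, hE, hEL⟩ := exists_cleared_zeta hcomm
  have hzero : ∀ χ z, clearedL hcomm χ z = 0 → E z = 0 := fun χ z h => by
    by_contra hne
    exact clearedL_ne_zero hcomm hE hEL χ hne h
  obtain ⟨him, -, huniq⟩ := FA.DedekindZF.zero_free hE hEL (hzero ψ ρ h0) hρ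
  have hρ' : ((ρ.re : ℝ) : ℂ) = ρ := Complex.ext rfl (by simpa using him.symm)
  have hβ : 1 - FA.DedekindZF.zfrC / FA.DedekindZF.height L 0 ≤ ρ.re := by rwa [him] at hρ
  obtain ⟨hsum, hder⟩ := sum_excInd hcomm hE hEL hβ (by rw [hρ']; exact hzero ψ ρ h0)
  rw [hρ'] at hder
  refine ⟨him, hder ψ h0, fun ψ' ρ₁ h1 h2 => ?_⟩
  have e := huniq ρ₁ (hzero ψ' ρ₁ h1) h2
  subst e
  refine ⟨rfl, by_contra fun hne => ?_⟩
  have h3 := Finset.sum_le_sum_of_subset (f := excInd hcomm ρ₁.re)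
    (Finset.subset_univ ({ψ', ψ} : Finset _))
  rw [hsum, Finset.sum_pair hne, excInd, excInd, hρ', if_pos h1, if_pos h0] at h3
  omega

end FA.Summary

end
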