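import Fermat.Agent.AbhyankarMoh.Rectify

/-!
# The theorem of Abhyankar and Moh
-/

set_option autoImplicit false

open MvPolynomial

namespace FA.AbhyankarMoh.Summary

variable {K : Type*} [Field K] [CharZero K]

/-- **Abhyankar–Moh**: if two polynomials in one variable generate the polynomial ring in
characteristic zero and the first is not constant, one degree divides the other. -/
theorem abhyankar_moh {f g : Polynomial K} (hf : 0 < f.natDegree)
    (h : Algebra.adjoin K {f, g} = ⊤) :
    f.natDegree ∣ g.natDegree ∨ g.natDegree ∣ f.natDegree := by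
  refine Fermat.Agent.AbhyankarMoh.natDegree_dvd_or_dvd hf ?_
  have hX : (Polynomial.X : Polynomial K) ∈ Algebra.adjoin K (Set.range ![f, g]) := by
    rw [Matrix.range_cons, Matrix.range_cons, Matrix.range_empty, Set.union_empty,
      ← Set.insert_eq, h]
    trivial
  rw [Algebra.adjoin_range_eq_range_aeval] at hX
  exact hX

/-- **The epimorphism theorem**: an embedding of the line in the plane is carried to a coordinate
axis by an automorphism of the plane. -/
theorem embedded_line_rectifiable
    (π : MvPolynomial (Fin 2) K →ₐ[K] Polynomial K) (hπ : Function.Surjective π) :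
    ∃ φ : MvPolynomial (Fin 2) K ≃ₐ[K] MvPolynomial (Fin 2) K,
      π (φ (X 0)) = Polynomial.X ∧ π (φ (X 1)) = 0 := by
  have hπ' : π = aeval ![π (X 0), π (X 1)] := algHom_ext fun i => by fin_cases i <;> simp
  obtain ⟨Q, hQ⟩ := hπ Polynomial.X
  rw [hπ'] at hQ ⊢
  exact Fermat.Agent.AbhyankarMoh.rectifiable ⟨Q, hQ⟩

end FA.AbhyankarMoh.Summary
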