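import Fermat.Agent.SchmidtGames.BadlyApproximable
import Fermat.Agent.SchmidtGames.Dimension

/-!
# Schmidt's games

Schmidt's theorems (1966): countable intersections of winning sets are winning, winning sets
have Hausdorff dimension one, and the badly approximable reals are `α`-winning for `α ≤ 1 / 2`.
-/

set_option autoImplicit false

noncomputable section

namespace FA.SchmidtGames.Summary

/-- **Countable intersections of `α`-winning sets are `α`-winning.** -/
theorem winning_iInter {α : ℝ} (hα : 0 < α) (hα1 : α < 1) {ι : Type*} [Countable ι]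
    {S : ι → Set ℝ} (h : ∀ i, IsWinning α (S i)) : IsWinning α (⋂ i, S i) :=
  IsWinning.iInter hα hα1 h

/-- **Winning sets have Hausdorff dimension one.** -/
theorem dimH_winning {α : ℝ} (hα : 0 < α) (hα1 : α < 1) {S : Set ℝ} (h : IsWinning α S) :
    dimH S = 1 :=
  dimH_of_isWinning hα hα1 h

/-- **The badly approximable reals are `α`-winning for `0 < α ≤ 1 / 2`.** -/
theorem schmidt_bad_winning {α : ℝ} (hα : 0 < α) (hα2 : α ≤ 1 / 2) :
    IsWinning α {x : ℝ | ∃ c : ℝ, 0 < c ∧
      ∀ (p : ℤ) (q : ℕ), 0 < q → c / (q : ℝ) ^ 2 ≤ |x - p / q|} :=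
  isWinning_badSet hα hα2

/-- For countably many shifts `v i` the reals `x` with every `x + v i` badly approximable
form a set of Hausdorff dimension one. -/
theorem dimH_iInter_translates_bad {ι : Type*} [Countable ι] (v : ι → ℝ) :
    dimH {x : ℝ | ∀ i, ∃ c : ℝ, 0 < c ∧
      ∀ (p : ℤ) (q : ℕ), 0 < q → c / (q : ℝ) ^ 2 ≤ |x + v i - p / q|} = 1 := by
  have hα : (0 : ℝ) < 1 / 2 := by norm_num
  have h : IsWinning (1 / 2) (⋂ i, {x : ℝ | x + v i ∈ badSet}) :=
    IsWinning.iInter hα (by norm_num) fun i => (isWinning_badSet hα le_rfl).translate (v i)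
  rw [← dimH_of_isWinning hα (by norm_num) h]
  congr 1
  ext x
  simp [badSet]

end FA.SchmidtGames.Summary
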