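import Fermat.Agent.NormalNumbers.Borel

/-!
# The pointwise ergodic theorem and normal numbers

* `birkhoff_ergodic_theorem`: for a measure preserving map of a finite measure space and integrable
  `f` the averages converge almost everywhere to the conditional expectation on the invariant sets;
* `birkhoff_ergodic`: for an ergodic map of a probability space the limit is the integral;
* `borel_normal_numbers` (Borel): almost every real number is normal in every base.
-/

set_option autoImplicit false

noncomputable section

open MeasureTheory Filter Topology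

namespace FA.Summary

/-- **Birkhoff's ergodic theorem.** -/
theorem birkhoff_ergodic_theorem {α : Type*} [MeasurableSpace α] {μ : Measure α}
    [IsFiniteMeasure μ] {T : α → α} (hT : MeasurePreserving T μ μ) {f : α → ℝ}
    (hf : Integrable f μ) :
    ∀ᵐ x ∂μ, Tendsto (fun n => birkhoffAverage ℝ T f n x) atTop
      (𝓝 (μ[f | MeasurableSpace.invariants T] x)) :=
  FA.PointwiseErgodic.tendsto_average hT hf

/-- **Birkhoff's theorem for ergodic maps.** -/
theorem birkhoff_ergodic {α : Type*} [MeasurableSpace α] {μ : Measure α} [IsProbabilityMeasure μ]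
    {T : α → α} (hT : Ergodic T μ) {f : α → ℝ} (hf : Integrable f μ) :
    ∀ᵐ x ∂μ, Tendsto (fun n => birkhoffAverage ℝ T f n x) atTop (𝓝 (∫ y, f y ∂μ)) :=
  FA.PointwiseErgodic.tendsto_average_ergodic hT hf

/-- **Borel's normal number theorem.** -/
theorem borel_normal_numbers : ∀ᵐ x : ℝ, ∀ b : ℕ, 1 < b → ∀ k W : ℕ, W < b ^ k →
    Tendsto (fun N : ℕ => (((Finset.range N).filter fun i =>
      ⌊(b : ℝ) ^ (i + k) * x⌋ % ((b : ℤ) ^ k) = (W : ℤ)).card : ℝ) / N) atTop
        (𝓝 (1 / (b : ℝ) ^ k)) := by
  refine ae_all_iff.2 fun b => ?_
  by_cases hb : 1 < b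
  · simp only [hb, true_implies]
    refine ae_all_iff.2 fun k => ae_all_iff.2 fun W => ?_
    by_cases hW : W < b ^ k
    · filter_upwards [FA.NormalNumbers.ae_frequency hb hW] with x hx _
      exact hx
    · exact Eventually.of_forall fun x h => absurd h hW
  · exact Eventually.of_forall fun x h => absurd h hb

end FA.Summary

end
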