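import Fermat.Agent.NormalBases.Dependent
import Fermat.Agent.Root.SummaryBirkhoff

/-!
# Schmidt's theorem on normal numbers

`IsNormalIn r y`: every block of `k` digits of `y` in base `r` occurs with frequency `r ^ (-k)`, as
in `FA.Summary.borel_normal_numbers`; `r` and `s` are dependent if `r ^ a = s ^ b` with `a, b ≥ 1`.

* `schmidt_normality`: normality in base `r` is equivalent to normality in base `s` for all reals
  iff `r` and `s` are dependent;
* `schmidt_separating`: for every `s` uncountably many reals are normal in all the bases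
  independent of `s` and not normal in base `s`;
* `schmidt_ae`: for `s ≥ 3` almost every point of the Cantor measure in base `s` is such a real;
* `normal_pow_iff`: normality in base `r ^ k` is normality in base `r`;
* `borel_isNormalIn`: almost every real is normal in every base, so `IsNormalIn` is satisfiable.
-/

set_option autoImplicit false

noncomputable section

open Filter Finset MeasureTheory

namespace FA.NormalBases.Summary

/-- The definition of normality. -/
theorem isNormalIn_iff (r : ℕ) (y : ℝ) :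
    IsNormalIn r y ↔ ∀ k W : ℕ, W < r ^ k →
      Tendsto (fun N : ℕ => (((range N).filter fun i =>
        ⌊(r : ℝ) ^ (i + k) * y⌋ % ((r : ℤ) ^ k) = (W : ℤ)).card : ℝ) / N) atTop
          (nhds (1 / (r : ℝ) ^ k)) := Iff.rfl

/-- **Normality in a power of the base.** -/
theorem normal_pow_iff {r k : ℕ} (hr : 2 ≤ r) (hk : 0 < k) (y : ℝ) :
    IsNormalIn (r ^ k) y ↔ IsNormalIn r y :=
  isNormalIn_pow_iff hr hk y

/-- **Schmidt's theorem**, the separating points. -/
theorem schmidt_separating {s : ℕ} (hs : 2 ≤ s) :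
    ¬{y : ℝ | (∀ r : ℕ, 2 ≤ r → (∀ a b : ℕ, 0 < a → 0 < b → r ^ a ≠ s ^ b) → IsNormalIn r y) ∧
      ¬IsNormalIn s y}.Countable :=
  schmidt_separation hs

/-- **Schmidt's theorem.** -/
theorem schmidt_normality {r s : ℕ} (hr : 2 ≤ r) (hs : 2 ≤ s) :
    (∀ y : ℝ, IsNormalIn r y ↔ IsNormalIn s y) ↔
      ∃ a b : ℕ, 0 < a ∧ 0 < b ∧ r ^ a = s ^ b := by
  refine ⟨fun h => ?_, fun ⟨a, b, ha, hb, e⟩ y => isNormalIn_iff_of_dependent hr hs ha hb e y⟩
  by_contra hne
  refine schmidt_separating hs (Set.Countable.mono (fun y hy => absurd ?_ hy.2) Set.countable_empty)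
  exact (h y).1 (hy.1 r hr fun a b ha hb e => hne ⟨a, b, ha, hb, e⟩)

/-- **Almost every point of the Cantor measure** in base `s`. -/
theorem schmidt_ae {s : ℕ} (hs : 3 ≤ s) :
    ∀ᵐ y ∂cantorMeasure s,
      (∀ r : ℕ, 2 ≤ r → (∀ a b : ℕ, 0 < a → 0 < b → r ^ a ≠ s ^ b) → IsNormalIn r y) ∧
        ¬IsNormalIn s y := by
  refine Filter.Eventually.and (ae_all_iff.2 fun r => ?_) (ae_not_normal_self hs)
  by_cases h : 2 ≤ r ∧ IndepBases r s
  · filter_upwards [ae_normal hs h.1 h.2] with y hy _ _
    exact hy
  · exact Eventually.of_forall fun y h1 h2 => absurd ⟨h1, h2⟩ h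

/-- Almost every real is normal in every base. -/
theorem borel_isNormalIn : ∀ᵐ y : ℝ, ∀ r : ℕ, 1 < r → IsNormalIn r y := by
  filter_upwards [FA.Summary.borel_normal_numbers] with y hy r hr
  exact hy r hr

end FA.NormalBases.Summary

end
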