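import Fermat.Agent.SchmidtGames.Avoidance
import Fermat.Agent.Root.SummarySchmidtGames
import Fermat.Agent.Root.SummarySchmidtNormality

/-!
# Absolutely non-normal numbers

After Schmidt (1966): for each base the reals whose orbit keeps away from a given point
modulo one form a winning set.  So the reals that are normal in no base, even those among
them that are badly approximable, form a set of Hausdorff dimension one.
-/

set_option autoImplicit false

noncomputable section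

open Filter Finset
open FA.NormalBases

namespace FA.SchmidtGames.Summary

/-- An orbit that keeps away from the integers misses a block of zeros. -/
theorem not_isNormalIn_of_avoid {r : ℕ} (hr : 2 ≤ r) {x c : ℝ} (hc : 0 < c)
    (h : ∀ (k : ℕ) (m : ℤ), c ≤ |(r : ℝ) ^ k * x - m|) : ¬IsNormalIn r x := by
  intro hn
  have hr1 : (1 : ℝ) < r := by exact_mod_cast (by omega : 1 < r)
  obtain ⟨L, hL⟩ := pow_unbounded_of_one_lt (1 / c) hr1
  rw [div_lt_iff₀ hc] at hL
  have hP : (0 : ℝ) < (r : ℝ) ^ L := pow_pos (by linarith) L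
  have hno : ∀ i, ⌊(r : ℝ) ^ (i + L) * x⌋ % ((r : ℤ) ^ L) ≠ ((0 : ℕ) : ℤ) := by
    intro i h0
    rw [Nat.cast_zero] at h0
    obtain ⟨m, hm⟩ := Int.dvd_of_emod_eq_zero h0
    have h1 := Int.floor_le ((r : ℝ) ^ (i + L) * x)
    have h2 := Int.lt_floor_add_one ((r : ℝ) ^ (i + L) * x)
    rw [hm] at h1 h2
    push_cast at h1 h2
    have e : (r : ℝ) ^ (i + L) * x = (r : ℝ) ^ i * x * (r : ℝ) ^ L := by rw [pow_add]; ring
    rw [e] at h1 h2
    have h3 : |(r : ℝ) ^ i * x - m| * (r : ℝ) ^ L < 1 := by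
      rw [← abs_of_pos hP, ← abs_mul, abs_lt, sub_mul]
      constructor <;> linarith
    have := mul_le_mul_of_nonneg_right (h i m) hP.le
    linarith
  have hlim := hn L 0 (pow_pos (by omega) L)
  refine (one_div_pos.2 hP).ne (tendsto_nhds_unique ?_ hlim)
  refine tendsto_const_nhds.congr fun N => ?_
  rw [filter_false_of_mem fun i _ => hno i, card_empty, Nat.cast_zero, zero_div]

/-- **Orbit avoidance**: for `b ≥ 2` and any `y` the reals `x` whose orbit `b ^ k x` keeps away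
from `y` modulo one are `α`-winning for `α ≤ 1 / 2`. -/
theorem winning_orbit_avoids {b : ℕ} (hb : 2 ≤ b) (y : ℝ) {α : ℝ} (hα : 0 < α)
    (hα2 : α ≤ 1 / 2) :
    IsWinning α {x : ℝ | ∃ c : ℝ, 0 < c ∧ ∀ (k : ℕ) (m : ℤ), c ≤ |(b : ℝ) ^ k * x - y - m|} :=
  isWinning_orbit hb y hα hα2

/-- The reals that avoid, in every base, countably many targets have dimension one. -/
theorem dimH_all_orbits_avoid {ι : Type*} [Countable ι] (y : ι → ℝ) :
    dimH {x : ℝ | ∀ i, ∀ b : ℕ, 2 ≤ b →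
      ∃ c : ℝ, 0 < c ∧ ∀ (k : ℕ) (m : ℤ), c ≤ |(b : ℝ) ^ k * x - y i - m|} = 1 := by
  have hα : (0 : ℝ) < 1 / 2 := by norm_num
  refine dimH_winning hα (by norm_num) ((winning_iInter hα (by norm_num)
    (S := fun p : ι × {b : ℕ // 2 ≤ b} => {x : ℝ | ∃ c : ℝ, 0 < c ∧
      ∀ (k : ℕ) (m : ℤ), c ≤ |((p.2 : ℕ) : ℝ) ^ k * x - y p.1 - m|})
    fun p => winning_orbit_avoids p.2.2 _ hα le_rfl).mono fun x hx i b hb => ?_)
  exact Set.mem_iInter.1 hx (i, ⟨b, hb⟩)

/-- **The badly approximable reals normal in no base have Hausdorff dimension one.** -/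
theorem dimH_bad_absolutely_nonnormal :
    dimH {x : ℝ | (∃ c : ℝ, 0 < c ∧ ∀ (p : ℤ) (q : ℕ), 0 < q → c / (q : ℝ) ^ 2 ≤ |x - p / q|) ∧
      ∀ r : ℕ, 2 ≤ r → ¬IsNormalIn r x} = 1 := by
  have hα : (0 : ℝ) < 1 / 2 := by norm_num
  set S : Option {b : ℕ // 2 ≤ b} → Set ℝ := fun o =>
    o.elim badSet fun b => {x : ℝ | ∃ c : ℝ, 0 < c ∧
      ∀ (k : ℕ) (m : ℤ), c ≤ |((b : ℕ) : ℝ) ^ k * x - 0 - m|} with hS
  have hw : ∀ o, IsWinning (1 / 2) (S o) := by
    rintro (_ | b)
    · exact isWinning_badSet hα le_rfl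
    · exact winning_orbit_avoids b.2 0 hα le_rfl
  refine dimH_winning hα (by norm_num)
    ((winning_iInter hα (by norm_num) hw).mono fun x hx => ?_)
  refine ⟨Set.mem_iInter.1 hx none, fun r hr => ?_⟩
  obtain ⟨c, hc, h⟩ := Set.mem_iInter.1 hx (some ⟨r, hr⟩)
  exact not_isNormalIn_of_avoid hr hc fun k m => by simpa using h k m

/-- **The reals normal in no base have Hausdorff dimension one.** -/
theorem dimH_absolutely_nonnormal :
    dimH {x : ℝ | ∀ r : ℕ, 2 ≤ r → ¬IsNormalIn r x} = 1 :=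
  le_antisymm ((dimH_mono (Set.subset_univ _)).trans_eq Real.dimH_univ)
    (dimH_bad_absolutely_nonnormal.symm.trans_le (dimH_mono fun _ hx => hx.2))

end FA.SchmidtGames.Summary
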