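import Fermat.Agent.AcyclicOrientations.Bridge

/-!
# Stanley's theorem on acyclic orientations (1973)

* `chromatic_polynomial_exists`: the proper colourings with `k` colours number `P k` for a unique
  polynomial `P`.
* `stanley_acyclic`: `P (-1)` is the number of acyclic orientations up to the sign `(-1) ^ n`.
* `stanley_reciprocity`: `P (-k)` counts, up to that sign, the pairs of an acyclic orientation and
  a colouring by `Fin k` which does not increase along the arrows.
* `complete_graph_orientations`: the complete graph on `n` vertices has `n!` acyclic orientations.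
-/

set_option autoImplicit false

noncomputable section

namespace FA.AcyclicOrientations.Summary

open Polynomial

variable {V : Type*} [Fintype V] (G : SimpleGraph V)

theorem chromatic_polynomial_exists :
    ∃! P : ℚ[X], ∀ k : ℕ, P.eval (k : ℚ) = Nat.card (G.Coloring (Fin k)) :=
  ⟨chromatic G Finset.univ, fun k => by rw [chromatic_eval_nat, card_coloring_eq],
    fun _ hP => eq_chromatic G hP⟩

theorem stanley_acyclic {P : ℚ[X]}
    (hP : ∀ k : ℕ, P.eval (k : ℚ) = Nat.card (G.Coloring (Fin k))) :
    P.eval (-1) = (-1) ^ Fintype.card V *
      Nat.card {O : Finset (V × V) // IsAcyclicOrientation G O} :=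
  eval_neg_one G hP

theorem stanley_reciprocity {P : ℚ[X]}
    (hP : ∀ k : ℕ, P.eval (k : ℚ) = Nat.card (G.Coloring (Fin k))) (k : ℕ) :
    P.eval (-(k : ℚ)) = (-1) ^ Fintype.card V *
      Nat.card {p : Finset (V × V) × (V → Fin k) //
        IsAcyclicOrientation G p.1 ∧ ∀ u v, (u, v) ∈ p.1 → p.2 v ≤ p.2 u} := by
  rw [eq_chromatic G hP, chromatic_eval_neg, card_compatible_eq, Finset.card_univ]

theorem complete_graph_orientations :
    Nat.card {O : Finset (V × V) // IsAcyclicOrientation (⊤ : SimpleGraph V) O} =
      (Fintype.card V).factorial :=
  card_orientation_top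

end FA.AcyclicOrientations.Summary
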