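import Fermat.Agent.DigitComplexity.Complexity

/-!
# The complexity of algebraic numbers

The theorem of Adamczewski and Bugeaud: the factors of length `m` of the digits of an irrational
algebraic number in a base `b ≥ 2` number more than `C m` for every `C` and large `m`. So a number
whose digits are automatic (have a finite `k`-kernel, as in `SummaryCobham`) is rational or
transcendental (the conjecture of Cobham). The proof uses the subspace theorem with places
(`SummarySubspacePlaces`).
-/

set_option autoImplicit false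

noncomputable section

namespace FA.Summary

/-- **The theorem of Adamczewski and Bugeaud.** -/
theorem adamczewski_bugeaud {b : ℕ} (hb : 2 ≤ b) {α : ℝ} (hirr : Irrational α)
    (halg : IsAlgebraic ℚ α) (C : ℕ) :
    ∃ M : ℕ, ∀ m, M ≤ m → C * m < {w : Fin m → ℤ |
      ∃ i, w = fun (t : Fin m) => ⌊α * (b : ℝ) ^ (i + (t : ℕ) + 1)⌋ % (b : ℤ)}.ncard :=
  FA.DigitComplexity.complexity_of_algebraic hb hirr halg C

/-- **Automatic numbers are rational or transcendental**, for bounded integer coefficients. -/
theorem automatic_series_transcendental {b k : ℕ} (hb : 2 ≤ b) (hk : 2 ≤ k) {a : ℕ → ℤ}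
    (ha : {s : ℕ → ℤ | ∃ e r : ℕ, r < k ^ e ∧ s = fun n => a (k ^ e * n + r)}.Finite)
    (hirr : Irrational (∑' n, (a n : ℝ) / (b : ℝ) ^ (n + 1))) :
    Transcendental ℚ (∑' n, (a n : ℝ) / (b : ℝ) ^ (n + 1)) :=
  FA.DigitComplexity.transcendental_of_kern hb hk ha hirr

/-- **The conjecture of Cobham**: irrational numbers with automatic digits are transcendental. -/
theorem automatic_digits_transcendental {b k : ℕ} (hb : 2 ≤ b) (hk : 2 ≤ k) {α : ℝ}
    (hirr : Irrational α) (ha : {s : ℕ → ℤ | ∃ e r : ℕ, r < k ^ e ∧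
      s = fun n => ⌊α * (b : ℝ) ^ (k ^ e * n + r + 1)⌋ % (b : ℤ)}.Finite) :
    Transcendental ℚ α := by
  intro halg
  obtain ⟨C, hC⟩ := FA.DigitComplexity.complexity_le_of_kern hk
    (a := fun n => ⌊α * (b : ℝ) ^ (n + 1)⌋ % (b : ℤ)) ha
  obtain ⟨M, hM⟩ := FA.DigitComplexity.complexity_of_algebraic hb hirr halg C
  exact absurd (hC (M + 1) (Nat.le_add_left 1 M)) (not_le.2 (hM (M + 1) (Nat.le_succ M)))

end FA.Summary

end
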