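import Fermat.Agent.AdditiveDivisor.Main

/-!
# Ingham's additive divisor problem (1927)

`∑_{n ≤ N} d n d (n + h) = (6 / π²) σ₋₁ h N log² N + O (N log N)` for every fixed `h ≥ 1`. The
lower order terms and uniformity in `h` are not claimed.
-/

set_option autoImplicit false

noncomputable section

namespace FA.Summary

open Finset Filter Asymptotics
open scoped Topology

/-- **Ingham's theorem on the additive divisor problem.** -/
theorem additive_divisor_problem {h : ℕ} (hh : 0 < h) : ∃ C : ℝ, ∀ N : ℕ, 1 ≤ N →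
    |(∑ n ∈ Icc 1 N, (n.divisors.card : ℝ) * (n + h).divisors.card) -
      6 / Real.pi ^ 2 * (∑ d ∈ h.divisors, (d : ℝ)⁻¹) * N * Real.log N ^ 2| ≤
      C * N * (1 + Real.log N) :=
  FA.AdditiveDivisor.exists_additive_divisor hh

/-- `∑_{n ≤ N} d n d (n + h) ∼ (6 / π²) σ₋₁ h N log² N`. -/
theorem additive_divisor_asymptotic {h : ℕ} (hh : 0 < h) :
    Tendsto (fun N : ℕ => (∑ n ∈ Icc 1 N, (n.divisors.card : ℝ) * (n + h).divisors.card) /
      (N * Real.log N ^ 2)) atTop (𝓝 (6 / Real.pi ^ 2 * ∑ d ∈ h.divisors, (d : ℝ)⁻¹)) := by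
  obtain ⟨C, hC⟩ := additive_divisor_problem hh
  have hlog : Tendsto (fun N : ℕ => Real.log N) atTop atTop :=
    Real.tendsto_log_atTop.comp tendsto_natCast_atTop_atTop
  have h0 : Tendsto (fun N : ℕ => 2 * |C| / Real.log N) atTop (𝓝 0) :=
    tendsto_const_nhds.div_atTop hlog
  refine tendsto_sub_nhds_zero_iff.1 (squeeze_zero_norm' ?_ h0)
  filter_upwards [eventually_gt_atTop 1, hlog.eventually_ge_atTop 1] with N hN hl
  have hN0 : (0 : ℝ) < N := Nat.cast_pos.2 (by omega)
  have hb := hC N hN.le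
  obtain ⟨S, hS⟩ : ∃ S, S = ∑ n ∈ Icc 1 N, (n.divisors.card : ℝ) * (n + h).divisors.card :=
    ⟨_, rfl⟩
  obtain ⟨c, hc⟩ : ∃ c, c = 6 / Real.pi ^ 2 * ∑ d ∈ h.divisors, (d : ℝ)⁻¹ := ⟨_, rfl⟩
  rw [← hS, ← hc] at hb ⊢
  have e : S / (N * Real.log N ^ 2) - c = (S - c * N * Real.log N ^ 2) / (N * Real.log N ^ 2) := by
    field_simp
  rw [e, Real.norm_eq_abs, abs_div, abs_of_pos (show (0 : ℝ) < N * Real.log N ^ 2 by positivity),
    div_le_div_iff₀ (by positivity) (by positivity)]
  calc |S - c * N * Real.log N ^ 2| * Real.log N ≤ |C| * N * (1 + Real.log N) * Real.log N := by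
        refine mul_le_mul_of_nonneg_right (hb.trans ?_) (by linarith)
        gcongr
        exact le_abs_self C
    _ ≤ |C| * N * (2 * Real.log N) * Real.log N := by gcongr; linarith
    _ = _ := by ring

/-- The case `h = 1`. -/
theorem additive_divisor_consecutive :
    Tendsto (fun N : ℕ => (∑ n ∈ Icc 1 N, (n.divisors.card : ℝ) * (n + 1).divisors.card) /
      (N * Real.log N ^ 2)) atTop (𝓝 (6 / Real.pi ^ 2)) := by
  simpa using additive_divisor_asymptotic Nat.one_pos

end FA.Summary
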