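import Fermat.Agent.AdditiveErdosKac.Main

/-!
# The theorem of Erdős and Kac for additive functions

`Φ` is the distribution function of the standard Gaussian.

* `erdos_kac_additive`: let `f` be additive with `|f (p ^ k)| ≤ k` and `B_N ^ 2 = ∑ f(p) ^ 2 / p`,
  `p ≤ N`, tend to infinity, and `A_N = ∑ f(p) / p`. The proportion of `n ≤ N` with
  `(f n - A_N) / B_N ≤ x` tends to `Φ x`;
* `erdos_kac_bigOmega`: the prime factors counted with multiplicity, centre and variance
  `log log N`;
* `erdos_kac_progression`: the prime factors in a class `a` prime to `q`, centre and variance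
  `∑ 1 / p` over that class.

No rate of convergence; functions with unbounded `f p` are not treated.
-/

set_option autoImplicit false

noncomputable section

namespace FA.AdditiveErdosKac.Summary

open Finset Filter ProbabilityTheory
open scoped Topology ArithmeticFunction.Omega

/-- **Erdős and Kac.** -/
theorem erdos_kac_additive (f : ℕ → ℝ)
    (hadd : ∀ m n : ℕ, m.Coprime n → f (m * n) = f m + f n)
    (hf : ∀ p k : ℕ, p.Prime → 1 ≤ k → |f (p ^ k)| ≤ k)
    (hdiv : Tendsto (fun N => ∑ p ∈ (Icc 1 N).filter Nat.Prime, f p ^ 2 / (p : ℝ)) atTop atTop)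
    (x : ℝ) :
    Tendsto (fun N : ℕ => (((Icc 1 N).filter fun n : ℕ =>
        (f n - ∑ p ∈ (Icc 1 N).filter Nat.Prime, f p / (p : ℝ)) /
          √(∑ p ∈ (Icc 1 N).filter Nat.Prime, f p ^ 2 / (p : ℝ)) ≤ x).card : ℝ) / N) atTop
      (𝓝 ((gaussianReal 0 1).real (Set.Iic x))) :=
  tendsto_share_additive hadd hf hdiv x

/-- **Prime factors with multiplicity.** -/
theorem erdos_kac_bigOmega (x : ℝ) :
    Tendsto (fun N : ℕ => (((Icc 1 N).filter fun n : ℕ =>
        ((Ω n : ℝ) - Real.log (Real.log N)) / √(Real.log (Real.log N)) ≤ x).card : ℝ) / N) atTop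
      (𝓝 ((gaussianReal 0 1).real (Set.Iic x))) :=
  tendsto_share_bigOmega x

/-- **Prime factors in a residue class.** -/
theorem erdos_kac_progression {q : ℕ} [NeZero q] {a : ZMod q} (ha : IsUnit a) (x : ℝ) :
    Tendsto (fun N : ℕ => (((Icc 1 N).filter fun n : ℕ =>
        (((n.primeFactors.filter fun p : ℕ => (p : ZMod q) = a).card : ℝ) -
            ∑ p ∈ (Icc 1 N).filter (fun p : ℕ => p.Prime ∧ (p : ZMod q) = a), (p : ℝ)⁻¹) /
          √(∑ p ∈ (Icc 1 N).filter (fun p : ℕ => p.Prime ∧ (p : ZMod q) = a), (p : ℝ)⁻¹)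
            ≤ x).card : ℝ) / N) atTop
      (𝓝 ((gaussianReal 0 1).real (Set.Iic x))) :=
  tendsto_share_class ha x

end FA.AdditiveErdosKac.Summary
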