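import Fermat.Agent.AdeleDuality.Duality

/-!
# The dual of the adeles modulo the field

For a number field `K` with adele ring `A` and a character being a continuous homomorphism to the
circle:

* `adele_classes_compact`: `K` is discrete and closed in `A`, and `A ⧸ K` is a compact connected
  Hausdorff group;
* `adele_strong_approximation`: every finite adele is an element of `K` plus an integral one;
* `adele_standard_character`: exactly one character trivial on `K` is `exp (- 2 π i t)`, with `t`
  the trace of the infinite part, at the adeles with integral finite part;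
* `adele_quotient_dual`: with `ψ` that character, every character of `A` trivial on `K` is
  `x ↦ ψ (a x)` for exactly one `a` in `K`;
* `adele_field_dual`: every homomorphism from `K` to the circle is `c ↦ ψ (c x)` for exactly one
  class `x` in `A ⧸ K`.

The self-duality of `A` and of the local fields is not claimed.
-/

set_option autoImplicit false
set_option linter.unusedSectionVars false
set_option linter.style.haveILetI false

noncomputable section

open NumberField NumberField.InfinitePlace NumberField.InfinitePlace.Completion IsDedekindDomain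
open Topology
open FA.AdeleDual FA.CompactAbelian
open scoped Classical Real

namespace FA.Summary

universe u

variable {K : Type u} [Field K] [NumberField K]

/-- **Discrete, cocompact, connected quotient.** -/
theorem adele_classes_compact :
    DiscreteTopology (AdeleRing.principalSubgroup (𝓞 K) K) ∧
      IsClosed (AdeleRing.principalSubgroup (𝓞 K) K : Set (AdeleRing (𝓞 K) K)) ∧
      CompactSpace (AdeleRing (𝓞 K) K ⧸ AdeleRing.principalSubgroup (𝓞 K) K) ∧
      T2Space (AdeleRing (𝓞 K) K ⧸ AdeleRing.principalSubgroup (𝓞 K) K) ∧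
      ConnectedSpace (AdeleRing (𝓞 K) K ⧸ AdeleRing.principalSubgroup (𝓞 K) K) :=
  ⟨discreteTopology_principalAdeles K, isClosed_principalAdeles K, inferInstance, inferInstance,
    connectedSpace_adeleClasses (K := K)⟩

/-- **The finite adeles modulo the integral ones are the field.** -/
theorem adele_strong_approximation (a : FiniteAdeleRing (𝓞 K) K) :
    ∃ k : K, ∀ v : HeightOneSpectrum (𝓞 K),
      a v - algebraMap K (v.adicCompletion K) k ∈ v.adicCompletionIntegers K := by
  obtain ⟨k, hk⟩ := exists_sub_mem a
  exact ⟨k, hk⟩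

theorem stdChar_formula {x : AdeleRing (𝓞 K) K}
    (hx : ∀ v, x.2 v ∈ v.adicCompletionIntegers K) :
    stdChar K x = Circle.exp (-(2 * π * ∑ w : InfinitePlace K,
      (w.mult : ℝ) * (extensionEmbedding w (x.1 w)).re)) := by
  rw [stdChar_of_mem hx, expNeg_apply, AddCircle.toCircle_apply_mk, traceInf_apply]
  congr 1
  ring

/-- **The standard character.** -/
theorem adele_standard_character :
    ∃! ψ : AddChar (AdeleRing (𝓞 K) K) Circle, Continuous ψ ∧
      (∀ k : K, ψ (algebraMap K (AdeleRing (𝓞 K) K) k) = 1) ∧
      ∀ x : AdeleRing (𝓞 K) K, (∀ v, x.2 v ∈ v.adicCompletionIntegers K) →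
        ψ x = Circle.exp (-(2 * π * ∑ w : InfinitePlace K,
          (w.mult : ℝ) * (extensionEmbedding w (x.1 w)).re)) := by
  refine ⟨stdChar K, ⟨continuous_stdChar K, stdChar_algebraMap, fun x hx => stdChar_formula hx⟩,
    fun ψ hψ => DFunLike.ext _ _ fun x => ?_⟩
  obtain ⟨k, hk⟩ := exists_sub_mem x.2
  have hy : ∀ v, (x - algebraMap K (AdeleRing (𝓞 K) K) k).2 v ∈ v.adicCompletionIntegers K := hk
  rw [← sub_add_cancel x (algebraMap K (AdeleRing (𝓞 K) K) k), AddChar.map_add_eq_mul,
    AddChar.map_add_eq_mul, hψ.2.1, stdChar_algebraMap,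
    hψ.2.2 (x - algebraMap K (AdeleRing (𝓞 K) K) k) hy,
    stdChar_formula (x := x - algebraMap K (AdeleRing (𝓞 K) K) k) hy]

/-- **The dual of the adeles modulo the field is the field.** -/
theorem adele_quotient_dual {ψ : AddChar (AdeleRing (𝓞 K) K) Circle} (hψc : Continuous ψ)
    (hψK : ∀ k : K, ψ (algebraMap K (AdeleRing (𝓞 K) K) k) = 1)
    (hψ : ∀ x : AdeleRing (𝓞 K) K, (∀ v, x.2 v ∈ v.adicCompletionIntegers K) →
      ψ x = Circle.exp (-(2 * π * ∑ w : InfinitePlace K,
        (w.mult : ℝ) * (extensionEmbedding w (x.1 w)).re)))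
    {χ : AddChar (AdeleRing (𝓞 K) K) Circle} (hc : Continuous χ)
    (hK : ∀ k : K, χ (algebraMap K (AdeleRing (𝓞 K) K) k) = 1) :
    ∃! a : K, ∀ x, χ x = ψ (algebraMap K (AdeleRing (𝓞 K) K) a * x) := by
  rw [adele_standard_character.unique ⟨hψc, hψK, hψ⟩
    ⟨continuous_stdChar K, stdChar_algebraMap, fun x hx => stdChar_formula hx⟩]
  exact exists_unique_eq_stdChar hc hK

/-- **The dual of the field is the compact group of adele classes.** -/
theorem adele_field_dual {ψ : AddChar (AdeleRing (𝓞 K) K) Circle} (hψc : Continuous ψ)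
    (hψK : ∀ k : K, ψ (algebraMap K (AdeleRing (𝓞 K) K) k) = 1)
    (hψ : ∀ x : AdeleRing (𝓞 K) K, (∀ v, x.2 v ∈ v.adicCompletionIntegers K) →
      ψ x = Circle.exp (-(2 * π * ∑ w : InfinitePlace K,
        (w.mult : ℝ) * (extensionEmbedding w (x.1 w)).re)))
    (φ : AddChar K Circle) :
    ∃! q : AdeleRing (𝓞 K) K ⧸ AdeleRing.principalSubgroup (𝓞 K) K, ∀ x, QuotientAddGroup.mk x = q →
      ∀ c : K, φ c = ψ (algebraMap K (AdeleRing (𝓞 K) K) c * x) := by
  rw [adele_standard_character.unique ⟨hψc, hψK, hψ⟩
    ⟨continuous_stdChar K, stdChar_algebraMap, fun x hx => stdChar_formula hx⟩]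
  set e := MulEquiv.ofBijective (classCharHom (K := K)) classCharHom_bijective
  let d : PontryaginDual (PontryaginDual
      (Multiplicative (AdeleRing (𝓞 K) K ⧸ principalAdeles K))) :=
    (⟨φ.toMonoidHom.comp e.symm.toMonoidHom, continuous_of_discreteTopology⟩ :
      PontryaginDual (Multiplicative (AdeleRing (𝓞 K) K ⧸ principalAdeles K)) →ₜ* Circle)
  have hd : ∀ c : K, d (classChar c) = φ c := fun c => by
    show φ (Multiplicative.toAdd (e.symm (classChar c))) = φ c
    rw [show classChar c = e (Multiplicative.ofAdd c) from rfl, MulEquiv.symm_apply_apply,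
      toAdd_ofAdd]
  obtain ⟨q, hq⟩ := evalHom_bijective.2 d
  refine ⟨q.toAdd, fun x hx c => ?_, fun q' hq' => ?_⟩
  · rw [← hd c, ← hq, evalHom_apply, ← classChar_apply, hx, ofAdd_toAdd]
  · refine congrArg Multiplicative.toAdd (evalHom_bijective.1 (a₁ := Multiplicative.ofAdd q') (a₂ := q)
      (PontryaginDual.ext fun χ => ?_))
    obtain ⟨c, rfl⟩ := classCharHom_bijective.2 χ
    obtain ⟨x, hx⟩ := QuotientAddGroup.mk_surjective q'
    rw [hq, evalHom_apply, show classCharHom c = classChar c.toAdd from rfl, hd, ← hx,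
      classChar_apply]
    exact (hq' x hx _).symm

end FA.Summary

end
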