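import Fermat.Agent.AdeleDuality.StrongApprox

/-!
# The self-duality of the adeles and strong approximation

For a number field `K` with adele ring `A`, a character being a continuous homomorphism to the
circle:

* `adele_self_dual`: with the standard character `ψ`, the pairing `ψ (a x)` is an isomorphism of
  topological groups of `A` with its dual in which `K` is its own annihilator;
* `local_self_dual_finite`, `local_self_dual_infinite`: so is each completion its own dual, through
  a character trivial on the integers at the primes and `exp (- 2 π i Tr (a x))` at infinity;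
* `adele_strong_dense_finite`, `adele_strong_dense_infinite`: `K` plus any one completion is dense
  in `A`;
* `strong_approximation_finite`, `strong_approximation_infinite`: omitting any one place, finitely
  many local targets and all the infinite ones are approximated by an element of `K` integral at
  all other primes.

Strong approximation for algebraic groups is not claimed.
-/

set_option autoImplicit false
set_option linter.unusedSectionVars false
set_option linter.style.haveILetI false

noncomputable section

open NumberField NumberField.InfinitePlace NumberField.InfinitePlace.Completion IsDedekindDomain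
open Topology
open WithZero
open FA.AdeleDual
open scoped Classical Real

namespace FA.Summary

universe u

variable {K : Type u} [Field K] [NumberField K]

/-- **The adeles are their own dual.** -/
theorem adele_self_dual :
    ∃ ψ : AddChar (AdeleRing (𝓞 K) K) Circle, Continuous ψ ∧
      (∃ e : Multiplicative (AdeleRing (𝓞 K) K) ≃ₜ*
          PontryaginDual (Multiplicative (AdeleRing (𝓞 K) K)),
        ∀ a x, e (Multiplicative.ofAdd a) (Multiplicative.ofAdd x) = ψ (a * x)) ∧
      (∀ a, (∀ k : K, ψ (a * algebraMap K (AdeleRing (𝓞 K) K) k) = 1) ↔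
        a ∈ AdeleRing.principalSubgroup (𝓞 K) K) ∧
      ∀ x : AdeleRing (𝓞 K) K, (∀ v, x.2 v ∈ v.adicCompletionIntegers K) →
        ψ x = Circle.exp (-(2 * π * ∑ w : InfinitePlace K,
          (w.mult : ℝ) * (extensionEmbedding w (x.1 w)).re)) :=
  ⟨stdChar K, continuous_stdChar K, ⟨adeleSelfDual K, fun _ _ => rfl⟩,
    fun _ => forall_stdChar_eq_one_iff.trans mem_principalAdeles.symm, fun x hx => by
      rw [stdChar_of_mem hx, expNeg_apply, AddCircle.toCircle_apply_mk, traceInf_apply]
      congr 1
      ring⟩

/-- **A completion at a prime is its own dual.** -/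
theorem local_self_dual_finite (v : HeightOneSpectrum (𝓞 K)) :
    ∃ ψ : AddChar (v.adicCompletion K) Circle, Continuous ψ ∧
      (∀ z, Valued.v z ≤ 1 → ψ z = 1) ∧
      ∃ e : Multiplicative (v.adicCompletion K) ≃ₜ*
          PontryaginDual (Multiplicative (v.adicCompletion K)),
        ∀ a x, e (Multiplicative.ofAdd a) (Multiplicative.ofAdd x) = ψ (a * x) :=
  ⟨finChar v, continuous_finChar v, fun _ hz => finChar_of_le hz, finSelfDual v, fun _ _ => rfl⟩

/-- **An infinite completion is its own dual.** -/
theorem local_self_dual_infinite (w : InfinitePlace K) :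
    ∃ e : Multiplicative w.Completion ≃ₜ* PontryaginDual (Multiplicative w.Completion),
      ∀ a x, e (Multiplicative.ofAdd a) (Multiplicative.ofAdd x) =
        Circle.exp (-(2 * π * (w.mult * (extensionEmbedding w (a * x)).re))) :=
  ⟨infSelfDual w, fun a x => by
    rw [show infSelfDual w (Multiplicative.ofAdd a) (Multiplicative.ofAdd x) = infChar w (a * x)
      from rfl, infChar_apply, expNeg_apply, AddCircle.toCircle_apply_mk]
    congr 1
    ring⟩

/-- **The field and the completion at a prime are dense together.** -/
theorem adele_strong_dense_finite (v : HeightOneSpectrum (𝓞 K)) :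
    Dense {x : AdeleRing (𝓞 K) K | ∃ k : K, (∀ w, x.1 w = algebraMap K w.Completion k) ∧
      ∀ u, u ≠ v → x.2 u = algebraMap K (u.adicCompletion K) k} := by
  refine (dense_add_finite v).mono ?_
  rintro _ ⟨⟨k, z⟩, rfl⟩
  refine ⟨k, fun w => ?_, fun u hu => ?_⟩
  · show algebraMap K w.Completion k + (0 : w.Completion) = _
    rw [add_zero]
  · show algebraMap K (u.adicCompletion K) k + singleFin v z u = _
    rw [singleFin_of_ne hu, add_zero]

/-- **The field and an infinite completion are dense together.** -/
theorem adele_strong_dense_infinite (w : InfinitePlace K) :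
    Dense {x : AdeleRing (𝓞 K) K | ∃ k : K, (∀ u, u ≠ w → x.1 u = algebraMap K u.Completion k) ∧
      ∀ v, x.2 v = algebraMap K (v.adicCompletion K) k} := by
  refine (dense_add_infinite w).mono ?_
  rintro _ ⟨⟨k, z⟩, rfl⟩
  refine ⟨k, fun u hu => ?_, fun v => ?_⟩
  · show algebraMap K u.Completion k + singleInf w z u = _
    rw [singleInf_of_ne hu, add_zero]
  · show algebraMap K (v.adicCompletion K) k + (0 : v.adicCompletion K) = _
    rw [add_zero]

/-- **Strong approximation without a prime.** -/
theorem strong_approximation_finite (v₀ : HeightOneSpectrum (𝓞 K))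
    {S : Finset (HeightOneSpectrum (𝓞 K))} (hS : v₀ ∉ S)
    (z : ∀ v : HeightOneSpectrum (𝓞 K), v.adicCompletion K) (n : ℕ)
    (y : ∀ w : InfinitePlace K, w.Completion) {ε : ℝ} (hε : 0 < ε) :
    ∃ x : K, (∀ v ∈ S, Valued.v (algebraMap K (v.adicCompletion K) x - z v) ≤ exp (-(n : ℤ))) ∧
      (∀ v, v ∉ S → v ≠ v₀ → v.valuation K x ≤ 1) ∧
      ∀ w : InfinitePlace K, ‖algebraMap K w.Completion x - y w‖ < ε := by
  obtain ⟨x, h1, h2, h3⟩ := exists_approx (fun r => inFin K (singleFin v₀ r)) {v₀} ∅
    (fun r v hv => singleFin_of_ne (v := v₀) hv r) (fun r w _ => rfl) (dense_add_finite v₀)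
    (S := S) (fun v hv e => hS (Set.mem_singleton_iff.1 e ▸ hv)) z n y hε
  exact ⟨x, h1, h2, fun w => h3 w (Set.notMem_empty w)⟩

/-- **Strong approximation without an infinite place.** -/
theorem strong_approximation_infinite (w₀ : InfinitePlace K)
    (S : Finset (HeightOneSpectrum (𝓞 K)))
    (z : ∀ v : HeightOneSpectrum (𝓞 K), v.adicCompletion K) (n : ℕ)
    (y : ∀ w : InfinitePlace K, w.Completion) {ε : ℝ} (hε : 0 < ε) :
    ∃ x : K, (∀ v ∈ S, Valued.v (algebraMap K (v.adicCompletion K) x - z v) ≤ exp (-(n : ℤ))) ∧
      (∀ v, v ∉ S → v.valuation K x ≤ 1) ∧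
      ∀ w ≠ w₀, ‖algebraMap K w.Completion x - y w‖ < ε := by
  obtain ⟨x, h1, h2, h3⟩ := exists_approx (fun r => inInf K (singleInf w₀ r)) ∅ {w₀}
    (fun r v _ => rfl) (fun r w hw => singleInf_of_ne (w := w₀) hw r) (dense_add_infinite w₀)
    (S := S) (fun v _ => Set.notMem_empty v) z n y hε
  exact ⟨x, h1, fun v hv => h2 v hv (Set.notMem_empty v), h3⟩

end FA.Summary

end
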