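import Fermat.Agent.Root.SummarySerreFiniteIndex
import Fermat.Agent.Two.CurveResidual

/-!
# The adelic image of Galois is never everything

For every elliptic curve over `ℚ` some automorphism of the torsion subgroup of `E(ℚ̄)` is induced
by no element of the absolute Galois group, so some automorphism of some `E[N]` is not either:
Serre's observation that the index of the image in `GL₂(Ẑ)` is at least two. The automorphism is
of determinant one on the `2`-power torsion, a transposition on `E[2]`, and the identity on the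
torsion of odd order. An element of Galois inducing it would fix all roots of unity, hence `√Δ`,
and would also change the sign of `√Δ`.
-/

set_option autoImplicit false
set_option linter.unusedSectionVars false
set_option linter.style.haveILetI false

noncomputable section

open Matrix WeierstrassCurve WeierstrassCurve.Affine FA.EC FA.Frob FA.RT FA.RT.Tate FA.JTorsion
open scoped WeierstrassCurve.Affine

local notation "Qb" => AlgebraicClosure ℚ
local notation "GQ" => AlgebraicClosure ℚ ≃ₐ[ℚ] AlgebraicClosure ℚ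
local notation "M2" => Matrix (Fin 2) (Fin 2)

namespace FA.AdelicImage

variable {W : WeierstrassCurve ℤ} [(ratCurve W).IsElliptic]

/-- What is killed by a power of two and by an odd number is zero. -/
theorem eq_zero_of_two_pow_of_odd {n b : ℕ} (hb : Odd b) {y : Pts W} (h2 : 2 ^ n • y = 0)
    (h : b • y = 0) : y = 0 :=
  AddMonoid.addOrderOf_eq_one_iff.mp (Nat.eq_one_of_dvd_coprimes
    ((Nat.coprime_two_left.mpr hb).pow_left n) (addOrderOf_dvd_of_nsmul_eq_zero h2)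
    (addOrderOf_dvd_of_nsmul_eq_zero h))

/-- A torsion point is the sum of a `2`-power torsion point and a point of odd order. -/
theorem exists_split {x : Pts W} (hx : IsOfFinAddOrder x) :
    ∃ (n b : ℕ) (y z : Pts W), Odd b ∧ 2 ^ n • y = 0 ∧ b • z = 0 ∧ x = y + z := by
  obtain ⟨N, hN, hNx⟩ := isOfFinAddOrder_iff_nsmul_eq_zero.mp hx
  obtain ⟨n, b, hb, hNb⟩ := Nat.exists_eq_two_pow_mul_odd hN.ne'
  obtain ⟨u, v, huv⟩ := Int.isCoprime_iff_nat_coprime.mpr (by
    simpa using (Nat.coprime_two_left.mpr hb).pow_left n :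
    ((2 ^ n : ℕ) : ℤ).natAbs.Coprime (b : ℤ).natAbs)
  have h0 : ((2 ^ n * b : ℕ) : ℤ) • x = 0 := by rw [natCast_zsmul, ← hNb, hNx]
  refine ⟨n, b, (v * b) • x, (u * (2 ^ n : ℕ)) • x, hb, ?_, ?_, ?_⟩
  · rw [← natCast_zsmul, smul_smul,
      show ((2 ^ n : ℕ) : ℤ) * (v * b) = v * ((2 ^ n * b : ℕ) : ℤ) by push_cast; ring, mul_smul,
      h0, zsmul_zero]
  · rw [← natCast_zsmul, smul_smul,
      show (b : ℤ) * (u * (2 ^ n : ℕ)) = u * ((2 ^ n * b : ℕ) : ℤ) by push_cast; ring, mul_smul,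
      h0, zsmul_zero]
  · rw [← add_zsmul, add_comm, huv, one_zsmul]

theorem nsmul_neg_eq_zero {b : ℕ} {z : Pts W} (hz : b • z = 0) : b • (-z) = 0 := by
  have h : b • (-z) + b • z = 0 := by rw [← nsmul_add, neg_add_cancel, nsmul_zero]
  rwa [hz, add_zero] at h

variable (B : TateBasis 2 W) (M : M2 ℤ_[2])

/-- `y` is the image of `x` under `M` on the `2`-power torsion and the identity on odd torsion. -/
def Rel (x y : Pts W) : Prop :=
  ∃ (n b : ℕ) (v : Fin 2 → ℤ_[2]) (z : Pts W),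
    Odd b ∧ b • z = 0 ∧ x = B.φ n v + z ∧ y = B.φ n (M *ᵥ v) + z

theorem rel_add {x y x' y' : Pts W} (h : Rel B M x y) (h' : Rel B M x' y') :
    Rel B M (x + x') (y + y') := by
  obtain ⟨n, b, v, z, hb, hz, rfl, rfl⟩ := h
  obtain ⟨m, c, w, t, hc, ht, rfl, rfl⟩ := h'
  have e1 : ∀ u, B.φ n u = B.φ (n + m) (2 ^ m • u) := fun u => by
    rw [map_nsmul, B.pow_compat]
  have e2 : ∀ u, B.φ m u = B.φ (n + m) (2 ^ n • u) := fun u => by
    rw [map_nsmul, add_comm n m, B.pow_compat]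
  refine ⟨n + m, b * c, 2 ^ m • v + 2 ^ n • w, z + t, hb.mul hc, ?_, ?_, ?_⟩
  · rw [nsmul_add, mul_comm b c, mul_nsmul', hz, nsmul_zero, zero_add, mul_comm c b, mul_nsmul',
      ht, nsmul_zero]
  · rw [map_add, ← e1, ← e2]; abel
  · rw [mulVec_add, mulVec_smul, mulVec_smul, map_add, ← e1, ← e2]; abel

theorem rel_zero {y : Pts W} (h : Rel B M 0 y) : y = 0 := by
  obtain ⟨n, b, v, z, hb, hz, h0, rfl⟩ := h
  have hv : B.φ n v = -z := eq_neg_of_add_eq_zero_left h0.symm
  have hv0 : B.φ n v = 0 := eq_zero_of_two_pow_of_odd hb (B.nsmul_phi n v)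
    (by rw [hv]; exact nsmul_neg_eq_zero hz)
  have hz0 : z = 0 := by rwa [hv0, eq_comm, neg_eq_zero] at hv
  rw [hz0, add_zero, B.phi_mulVec_congr (w := 0) M (by rw [hv0, map_zero]), mulVec_zero, map_zero]

theorem rel_neg {x y : Pts W} (h : Rel B M x y) : Rel B M (-x) (-y) := by
  obtain ⟨n, b, v, z, hb, hz, rfl, rfl⟩ := h
  exact ⟨n, b, -v, -z, hb, nsmul_neg_eq_zero hz, by rw [map_neg]; abel,
    by rw [mulVec_neg, map_neg]; abel⟩

theorem rel_unique {x y y' : Pts W} (h : Rel B M x y) (h' : Rel B M x y') : y = y' := by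
  have h0 := rel_add B M h (rel_neg B M h')
  rw [add_neg_cancel] at h0
  exact eq_of_sub_eq_zero (by rw [sub_eq_add_neg]; exact rel_zero B M h0)

theorem exists_rel {x : Pts W} (hx : IsOfFinAddOrder x) :
    ∃ y, IsOfFinAddOrder y ∧ Rel B M x y := by
  obtain ⟨n, b, y, z, hb, hy, hz, rfl⟩ := exists_split hx
  obtain ⟨v, rfl⟩ := B.surj n y hy
  refine ⟨_, isOfFinAddOrder_iff_nsmul_eq_zero.mpr
    ⟨2 ^ n * b, Nat.mul_pos (pow_pos two_pos n) hb.pos, ?_⟩, n, b, v, z, hb, hz, rfl, rfl⟩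
  rw [nsmul_add, mul_nsmul' z, hz, nsmul_zero, add_zero, mul_nsmul, B.nsmul_phi, nsmul_zero]

theorem rel_symm {M' : M2 ℤ_[2]} (hM : M' * M = 1) {x y : Pts W} (h : Rel B M x y) :
    Rel B M' y x := by
  obtain ⟨n, b, v, z, hb, hz, rfl, rfl⟩ := h
  exact ⟨n, b, M *ᵥ v, z, hb, hz, rfl, by rw [mulVec_mulVec, hM, one_mulVec]⟩

/-- An invertible matrix on the `2`-power torsion and the identity on the odd torsion give an
automorphism of all torsion. -/
theorem exists_auto {M' : M2 ℤ_[2]} (hM : M' * M = 1) (hM' : M * M' = 1) :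
    ∃ ψ : AddCommGroup.torsion (Pts W) ≃+ AddCommGroup.torsion (Pts W),
      ∀ x, Rel B M x.1 (ψ x).1 := by
  choose f hfT hf using fun x : AddCommGroup.torsion (Pts W) => exists_rel B M x.2
  choose g hgT hg using fun x : AddCommGroup.torsion (Pts W) => exists_rel B M' x.2
  refine ⟨{ toFun := fun x => ⟨f x, hfT x⟩, invFun := fun x => ⟨g x, hgT x⟩,
            left_inv := fun x => Subtype.ext (rel_unique B M' (hg _) (rel_symm B M hM (hf x))),
            right_inv := fun x => Subtype.ext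
              (rel_unique B M (hf _) (rel_symm B M' hM' (hg x))),
            map_add' := fun x y => Subtype.ext
              (rel_unique B M (hf (x + y)) (rel_add B M (hf x) (hf y))) }, hf⟩

variable {M}

/-- A unit exponent on roots of unity of `2`-power order. -/
theorem fix_two_pow_root {σ : GQ} (hσ : B.rep σ = M) (hdet : M.det = 1) {n : ℕ} {μ : Qb}
    (hμ : μ ^ 2 ^ n = 1) : σ μ = μ := by
  obtain ⟨a, -, ha⟩ := FA.PadicImage.exists_exponent_roots σ Nat.prime_two n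
  have h1 : (a : ZMod (2 ^ n)) = ((1 : ℕ) : ZMod (2 ^ n)) := by
    rw [← cycP_eq_natCast ha, ← B.det_rep, hσ, hdet, map_one, Nat.cast_one]
  rw [ha μ hμ, pow_eq_pow_mod a hμ, (ZMod.natCast_eq_natCast_iff _ _ _).mp h1,
    ← pow_eq_pow_mod 1 hμ, pow_one]

/-- An element acting as `M` at two and trivially on odd torsion fixes all roots of unity. -/
theorem fix_roots {σ : GQ} (hσ : B.rep σ = M) (hdet : M.det = 1)
    (hodd : ∀ (b : ℕ) (x : Pts W), Odd b → b • x = 0 → σ • x = x) {N : ℕ} (hN : N ≠ 0) {μ : Qb}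
    (hμ : μ ^ N = 1) : σ μ = μ := by
  obtain ⟨n, b, hb, rfl⟩ := Nat.exists_eq_two_pow_mul_odd hN
  obtain ⟨u, v, huv⟩ := Int.isCoprime_iff_nat_coprime.mpr (by
    simpa using (Nat.coprime_two_left.mpr hb).pow_left n :
    ((2 ^ n : ℕ) : ℤ).natAbs.Coprime (b : ℤ).natAbs)
  have hμ0 : μ ≠ 0 := fun e => by rw [e, zero_pow hN] at hμ; exact zero_ne_one hμ
  have e1 : σ (μ ^ b) = μ ^ b :=
    fix_two_pow_root B hσ hdet (n := n) (by rw [← pow_mul, mul_comm, hμ])
  have e2 : σ (μ ^ 2 ^ n) = μ ^ 2 ^ n :=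
    FA.OpenImage.smul_root_of_fix_torsion (W := W) hb.pos.ne' (fun x hx => hodd b x hb hx)
      (by rw [← pow_mul, hμ])
  have e : μ = (μ ^ 2 ^ n) ^ u * (μ ^ b) ^ v := by
    rw [← zpow_natCast, ← zpow_natCast, ← _root_.zpow_mul, ← _root_.zpow_mul, ← zpow_add₀ hμ0,
      mul_comm _ u, mul_comm _ v, huv, zpow_one]
  rw [e, map_mul, map_zpow₀, map_zpow₀, e1, e2]

/-- **Some automorphism of the torsion is induced by no element of Galois.** -/
theorem exists_auto_not_galois :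
    ∃ ψ : AddCommGroup.torsion (Pts W) ≃+ AddCommGroup.torsion (Pts W),
      ∀ σ : GQ, ∃ x, σ • x.1 ≠ (ψ x).1 := by
  obtain ⟨B⟩ := exists_tateBasis (p := 2) W
  obtain ⟨ψ, hψ⟩ := exists_auto B !![(0 : ℤ_[2]), -1; 1, 0] (M' := !![0, 1; -1, 0])
    (by simp [Matrix.one_fin_two]) (by simp [Matrix.one_fin_two])
  refine ⟨ψ, fun σ => ?_⟩
  by_contra h
  push Not at h
  have hΔ : W.Δ ≠ 0 := fun h0 => by
    have := (ratCurve W).isUnit_Δ
    rw [WeierstrassCurve.map_Δ, h0, map_zero] at this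
    exact not_isUnit_zero this
  have hrel : ∀ x : Pts W, IsOfFinAddOrder x →
      Rel B !![(0 : ℤ_[2]), -1; 1, 0] x (σ • x) := fun x hx => by
    rw [h ⟨x, hx⟩]
    exact hψ ⟨x, hx⟩
  have hrep : B.rep σ = !![(0 : ℤ_[2]), -1; 1, 0] := B.ext_phi fun n v => by
    rw [← B.rep_spec]
    exact rel_unique B _ (hrel _ (isOfFinAddOrder_iff_nsmul_eq_zero.mpr
      ⟨2 ^ n, pow_pos two_pos n, B.nsmul_phi n v⟩))
      ⟨n, 1, v, 0, odd_one, nsmul_zero 1, (add_zero _).symm, (add_zero _).symm⟩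
  have hodd : ∀ (b : ℕ) (x : Pts W), Odd b → b • x = 0 → σ • x = x := fun b x hb hx =>
    rel_unique B _ (hrel x (isOfFinAddOrder_iff_nsmul_eq_zero.mpr ⟨b, hb.pos, hx⟩))
      ⟨0, b, 0, x, hb, hx, by rw [map_zero, zero_add], by rw [mulVec_zero, map_zero, zero_add]⟩
  obtain ⟨D, hD, hDs⟩ := FA.OpenImage.exists_level_of_mem_rootsField
    (FA.OpenImage.mem_rootsField_of_sq_eq (d := (W.Δ : ℚ)) (s := FA.Two.deltaRoot W)
      (by rw [FA.Two.deltaRoot_sq, map_intCast]))
  have hfix : σ (FA.Two.deltaRoot W) = FA.Two.deltaRoot W :=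
    hDs σ fun μ hμ => fix_roots B hrep (by simp [Matrix.det_fin_two]) hodd hD.ne' hμ
  have hne : FA.Two.deltaRoot W ≠ 0 := fun h0 => hΔ (by
    have := FA.Two.deltaRoot_sq W
    rw [h0, zero_pow two_ne_zero] at this
    exact_mod_cast this.symm)
  have hmap : curveRep 2 W σ = !![0, 1; 1, 0] := by
    rw [← FA.PadicImage.rep_map_toZMod B σ, hrep]
    ext i j
    fin_cases i <;> fin_cases j <;> simp [CharTwo.neg_eq]
  have hflip := (FA.Two.apply_deltaRoot W σ).2 (by rw [hmap]; decide)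
  exact neg_ne_self.mpr hne (hflip.symm.trans hfix)

end FA.AdelicImage

namespace FA.Summary

/-- **The adelic image is never everything** (Serre): for every elliptic curve over `ℚ` some
automorphism of the torsion subgroup of `E(ℚ̄)` is induced by no element of Galois. -/
theorem serreAdelicNotSurjective (E : WeierstrassCurve ℚ) [E.IsElliptic]
    [inst : DecidableEq (AlgebraicClosure ℚ)] :
    ∃ ψ : AddCommGroup.torsion (E.toAffine⁄(AlgebraicClosure ℚ)).Point ≃ₗ[ℤ]
        AddCommGroup.torsion (E.toAffine⁄(AlgebraicClosure ℚ)).Point,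
      ∀ σ : GQ, ∃ x, Affine.Point.map σ.toAlgHom x.1 ≠ (ψ x).1 := by
  obtain rfl : inst = instDecEqAlgebraicClosureRat := Subsingleton.elim _ _
  obtain ⟨W, hW⟩ := FA.Frob.exists_integralModel E
  haveI := FA.Frob.ratCurve_isElliptic_of_Δ (FA.Frob.Δ_ne_zero_of_model hW)
  obtain ⟨ψ, hψ⟩ := FA.AdelicImage.exists_auto_not_galois (W := W)
  obtain ⟨e, he⟩ := FA.Root.exists_equiv_of_model hW
  let eT : AddCommGroup.torsion (Pts W) ≃+ AddCommGroup.torsion (E.toAffine⁄Qb).Point :=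
    { toEquiv := e.toEquiv.subtypeEquiv fun Q =>
        ⟨fun hQ => e.toAddMonoidHom.isOfFinAddOrder hQ, fun hQ => by
          have := e.symm.toAddMonoidHom.isOfFinAddOrder hQ
          simp only [AddEquiv.toAddMonoidHom_eq_coe, AddMonoidHom.coe_coe] at this
          rwa [show e.symm (e.toEquiv Q) = Q from e.symm_apply_apply Q] at this⟩
      map_add' := fun a b => Subtype.ext (map_add e a.1 b.1) }
  refine ⟨((eT.symm.trans ψ).trans eT).toIntLinearEquiv, fun σ => ?_⟩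
  obtain ⟨x, hx⟩ := hψ σ
  refine ⟨eT x, fun h => hx (e.injective ?_)⟩
  rw [he]
  exact h.trans (by show e (ψ (eT.symm (eT x))).1 = _; rw [AddEquiv.symm_apply_apply])

/-- In the wording of `serreFiniteIndex`: the index of the image is never one. -/
theorem serreAdelicNotSurjective_range (E : WeierstrassCurve ℚ) [E.IsElliptic]
    [inst : DecidableEq (AlgebraicClosure ℚ)]
    (ρ : GQ →* (AddCommGroup.torsion (E.toAffine⁄(AlgebraicClosure ℚ)).Point ≃ₗ[ℤ]
      AddCommGroup.torsion (E.toAffine⁄(AlgebraicClosure ℚ)).Point))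
    (hρ : ∀ σ x, (ρ σ x).1 = Affine.Point.map σ.toAlgHom x.1) : ρ.range.index ≠ 1 := by
  intro h
  obtain ⟨ψ, hψ⟩ := serreAdelicNotSurjective E
  obtain ⟨σ, hσ⟩ := (Subgroup.eq_top_iff' _).mp (Subgroup.index_eq_one.mp h) ψ
  obtain ⟨x, hx⟩ := hψ σ
  exact hx (by rw [← hρ, hσ])

/-- **At a finite level**: some automorphism of some `E[N]` is induced by no element of Galois. -/
theorem serreAdelicNotSurjective_level (E : WeierstrassCurve ℚ) [E.IsElliptic]
    [inst : DecidableEq (AlgebraicClosure ℚ)] :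
    ∃ N : ℕ, 0 < N ∧ ∃ φ : Submodule.torsionBy ℤ (E.toAffine⁄(AlgebraicClosure ℚ)).Point (N : ℤ) ≃+
        Submodule.torsionBy ℤ (E.toAffine⁄(AlgebraicClosure ℚ)).Point (N : ℤ),
      ∀ σ : GQ, ∃ P, Affine.Point.map σ.toAlgHom P.1 ≠ (φ P).1 := by
  obtain rfl : inst = instDecEqAlgebraicClosureRat := Subsingleton.elim _ _
  obtain ⟨ψ, hψ⟩ := serreAdelicNotSurjective E
  obtain ⟨N, hN, hlev⟩ : ∃ N : ℕ, N ≠ 0 ∧ ∀ σ : GQ,
      ∃ x : AddCommGroup.torsion (E.toAffine⁄Qb).Point,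
        N • x.1 = 0 ∧ Affine.Point.map σ.toAlgHom x.1 ≠ (ψ x).1 := by
    by_contra h
    push Not at h
    obtain ⟨σ, hσ⟩ := FA.OpenImage.mem_range_of_levels E ψ h
    obtain ⟨x, hx⟩ := hψ σ
    exact hx (by rw [← FA.OpenImage.torsionAction_apply, hσ])
  have hmem : ∀ x : Submodule.torsionBy ℤ (E.toAffine⁄Qb).Point (N : ℤ),
      x.1 ∈ AddCommGroup.torsion (E.toAffine⁄Qb).Point := fun x =>
    isOfFinAddOrder_iff_nsmul_eq_zero.mpr ⟨N, Nat.pos_of_ne_zero hN, by
      rw [← natCast_zsmul]; exact (Submodule.mem_torsionBy_iff _ _).mp x.2⟩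
  have hpres : ∀ χ : AddCommGroup.torsion (E.toAffine⁄Qb).Point ≃ₗ[ℤ]
      AddCommGroup.torsion (E.toAffine⁄Qb).Point,
      ∀ x : Submodule.torsionBy ℤ (E.toAffine⁄Qb).Point (N : ℤ),
        (χ ⟨x.1, hmem x⟩).1 ∈ Submodule.torsionBy ℤ (E.toAffine⁄Qb).Point (N : ℤ) := fun χ x => by
    rw [Submodule.mem_torsionBy_iff, ← AddSubgroup.coe_zsmul, ← map_zsmul,
      show (N : ℤ) • (⟨x.1, hmem x⟩ : AddCommGroup.torsion (E.toAffine⁄Qb).Point) = 0 from
        Subtype.ext ((Submodule.mem_torsionBy_iff _ _).mp x.2), map_zero, ZeroMemClass.coe_zero]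
  let φ : Submodule.torsionBy ℤ (E.toAffine⁄Qb).Point (N : ℤ) ≃+
      Submodule.torsionBy ℤ (E.toAffine⁄Qb).Point (N : ℤ) :=
    { toFun := fun x => ⟨(ψ ⟨x.1, hmem x⟩).1, hpres ψ x⟩
      invFun := fun x => ⟨(ψ.symm ⟨x.1, hmem x⟩).1, hpres ψ.symm x⟩
      left_inv := fun x => Subtype.ext
        ((congrArg Subtype.val (ψ.symm_apply_apply ⟨x.1, hmem x⟩) :))
      right_inv := fun x => Subtype.ext
        ((congrArg Subtype.val (ψ.apply_symm_apply ⟨x.1, hmem x⟩) :))
      map_add' := fun x y => Subtype.ext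
        ((congrArg Subtype.val (map_add ψ ⟨x.1, hmem x⟩ ⟨y.1, hmem y⟩) :)) }
  refine ⟨N, Nat.pos_of_ne_zero hN, φ, fun σ => ?_⟩
  obtain ⟨x, hx, hne⟩ := hlev σ
  exact ⟨⟨x.1, by rw [Submodule.mem_torsionBy_iff, natCast_zsmul, hx]⟩, hne⟩

end FA.Summary

end
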