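import Fermat.Agent.AdeleDuality.LocConst
import Fermat.Agent.Root.SummaryAdeleDuality

/-!
# The adelic Poisson summation formula

For a number field `K` with adele ring `A`, with `ψ` the standard character and `μ` the Haar measure
giving the fundamental domains of `K` volume one:

* `adele_haar_covolume`: such a measure exists;
* `adele_poisson`: if `f` is continuous, the sums of `f (x + k)` over `k` in `K` converge absolutely
  and uniformly on compact sets, and the transforms `f̂ a = ∫ f y conj (ψ (a y)) dμ` are absolutely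
  summable over `a` in `K`, then `∑ f (x + k) = ∑ f̂ a ψ (a x)`;
* `adele_poisson_schwartz_bruhat`: this applies when `f` is a Schwartz function at infinity times a
  locally constant function of compact support on the finite adeles, so for instance
  `∑ f k = ∑ f̂ a`.

The measure being normalised by the covolume, no discriminant factor appears; that it equals the
product of the local self-dual measures, and Fourier inversion, are not claimed.
-/

set_option autoImplicit false
set_option linter.unusedSectionVars false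
set_option linter.style.haveILetI false

noncomputable section

open NumberField NumberField.InfinitePlace NumberField.InfinitePlace.Completion IsDedekindDomain
open MeasureTheory MeasureTheory.Measure
open FA.AdeleDual
open scoped Classical Real SchwartzMap

namespace FA.Summary

universe u

variable {K : Type u} [Field K] [NumberField K]
variable [MeasurableSpace (AdeleRing (𝓞 K) K)] [BorelSpace (AdeleRing (𝓞 K) K)]

/-- **The Haar measure of covolume one.** -/
theorem adele_haar_covolume :
    ∃ μ : Measure (AdeleRing (𝓞 K) K), IsAddHaarMeasure μ ∧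
      (∃ D, MeasurableSet D ∧ IsAddFundamentalDomain (AdeleRing.principalSubgroup (𝓞 K) K) D μ) ∧
      ∀ D, IsAddFundamentalDomain (AdeleRing.principalSubgroup (𝓞 K) K) D μ → μ D = 1 := by
  obtain ⟨μ, hμ, hμ1⟩ := exists_haar_funDom K
  haveI := hμ
  exact ⟨μ, hμ, ⟨funDom K, measurableSet_funDom K, isAddFundamentalDomain_funDom μ⟩,
    fun D hD => (hD.measure_eq (isAddFundamentalDomain_funDom μ)).trans hμ1⟩

/-- **Poisson summation on the adeles.** -/
theorem adele_poisson {ψ : AddChar (AdeleRing (𝓞 K) K) Circle} (hψc : Continuous ψ)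
    (hψK : ∀ k : K, ψ (algebraMap K (AdeleRing (𝓞 K) K) k) = 1)
    (hψ : ∀ x : AdeleRing (𝓞 K) K, (∀ v, x.2 v ∈ v.adicCompletionIntegers K) →
      ψ x = Circle.exp (-(2 * π * ∑ w : InfinitePlace K,
        (w.mult : ℝ) * (extensionEmbedding w (x.1 w)).re)))
    {μ : Measure (AdeleRing (𝓞 K) K)} [IsAddHaarMeasure μ] {D : Set (AdeleRing (𝓞 K) K)}
    (hD : IsAddFundamentalDomain (AdeleRing.principalSubgroup (𝓞 K) K) D μ) (hμ : μ D = 1)
    {f : AdeleRing (𝓞 K) K → ℂ} (hf : Continuous f)
    (hn : ∀ C : Set (AdeleRing (𝓞 K) K), IsCompact C → ∃ u : K → ℝ, Summable u ∧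
      ∀ x ∈ C, ∀ k : K, ‖f (x + algebraMap K (AdeleRing (𝓞 K) K) k)‖ ≤ u k)
    (hs : Summable fun a : K => ‖∫ y, f y *
      starRingEnd ℂ ((ψ (algebraMap K (AdeleRing (𝓞 K) K) a * y) : Circle) : ℂ) ∂μ‖)
    (x : AdeleRing (𝓞 K) K) :
    ∑' k : K, f (x + algebraMap K (AdeleRing (𝓞 K) K) k) =
      ∑' a : K, (∫ y, f y *
        starRingEnd ℂ ((ψ (algebraMap K (AdeleRing (𝓞 K) K) a * y) : Circle) : ℂ) ∂μ) *
          ((ψ (algebraMap K (AdeleRing (𝓞 K) K) a * x) : Circle) : ℂ) := by
  obtain rfl := adele_standard_character.unique ⟨hψc, hψK, hψ⟩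
    ⟨continuous_stdChar K, stdChar_algebraMap, fun x hx => stdChar_formula hx⟩
  exact poisson ((hD.measure_eq (isAddFundamentalDomain_funDom μ)).symm.trans hμ) hf hn hs x

/-- **Poisson summation for Schwartz-Bruhat functions.** -/
theorem adele_poisson_schwartz_bruhat {ψ : AddChar (AdeleRing (𝓞 K) K) Circle} (hψc : Continuous ψ)
    (hψK : ∀ k : K, ψ (algebraMap K (AdeleRing (𝓞 K) K) k) = 1)
    (hψ : ∀ x : AdeleRing (𝓞 K) K, (∀ v, x.2 v ∈ v.adicCompletionIntegers K) →
      ψ x = Circle.exp (-(2 * π * ∑ w : InfinitePlace K,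
        (w.mult : ℝ) * (extensionEmbedding w (x.1 w)).re)))
    {μ : Measure (AdeleRing (𝓞 K) K)} [IsAddHaarMeasure μ] {D : Set (AdeleRing (𝓞 K) K)}
    (hD : IsAddFundamentalDomain (AdeleRing.principalSubgroup (𝓞 K) K) D μ) (hμ : μ D = 1)
    (h : 𝓢(mixedEmbedding.mixedSpace K, ℂ))
    {φ : FiniteAdeleRing (𝓞 K) K → ℂ} (hlc : IsLocallyConstant φ) (hcs : HasCompactSupport φ) :
    let f : AdeleRing (𝓞 K) K → ℂ :=
      fun y => h (InfiniteAdeleRing.ringEquiv_mixedSpace K y.1) * φ y.2
    let fhat : K → ℂ := fun a => ∫ y, f y *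
      starRingEnd ℂ ((ψ (algebraMap K (AdeleRing (𝓞 K) K) a * y) : Circle) : ℂ) ∂μ
    Summable (fun k : K => ‖f (algebraMap K (AdeleRing (𝓞 K) K) k)‖) ∧
      Summable (fun a => ‖fhat a‖) ∧
      ∑' k : K, f (algebraMap K (AdeleRing (𝓞 K) K) k) = ∑' a : K, fhat a ∧
      ∀ x, ∑' k : K, f (x + algebraMap K (AdeleRing (𝓞 K) K) k) =
        ∑' a : K, fhat a * ((ψ (algebraMap K (AdeleRing (𝓞 K) K) a * x) : Circle) : ℂ) := by
  obtain rfl := adele_standard_character.unique ⟨hψc, hψK, hψ⟩
    ⟨continuous_stdChar K, stdChar_algebraMap, fun x hx => stdChar_formula hx⟩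
  intro f fhat
  have hμ1 := (hD.measure_eq (isAddFundamentalDomain_funDom μ)).symm.trans hμ
  obtain ⟨hf, hn, hs⟩ := schwartzBruhat_props (μ := μ) hμ1 (mem_schwartzBruhat h hlc hcs)
  refine ⟨?_, hs, ?_, fun x => poisson hμ1 hf hn hs x⟩
  · obtain ⟨u, hu, hub⟩ := hn {0} isCompact_singleton
    refine hu.of_nonneg_of_le (fun k => norm_nonneg _) fun k => ?_
    have h1 := hub 0 (Set.mem_singleton 0) k
    rw [zero_add] at h1
    exact h1
  · have h0 := poisson hμ1 hf hn hs 0
    simp only [zero_add, mul_zero, AddChar.map_zero_eq_one, Circle.coe_one, mul_one] at h0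
    exact h0

end FA.Summary

end
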