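import Fermat.Agent.Undecidability.AdianRabin
import Mathlib.GroupTheory.Abelianization.Defs
import Mathlib.Algebra.Group.Equiv.TypeTags
import Mathlib.Data.Int.Basic
import Mathlib.Data.Fintype.EquivFin
import Mathlib.Algebra.Group.TypeTags.Finite

/-!
# The theorem of Adian and Rabin

`wordRels W` is the set of relators given by a list of words `W`.

* `adian_rabin` (Adian, 1955; Rabin, 1958): no Markov property is decidable: if `P` is invariant
  under isomorphisms, holds for some finitely presented group and fails for every finitely presented
  group containing a certain finitely presented group, then `P` is undecidable on presentations.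
* `triviality_undecidable`, `finiteness_undecidable`, `commutativity_undecidable`,
  `isomorphism_problem_undecidable`: the classical consequences.

No hypothesis is assumed beyond those of the statement. Not claimed: bounds on the numbers of
generators and relators.
-/

set_option autoImplicit false

namespace FA.Undecidability

/-- **Adian and Rabin.** No Markov property is decidable. -/
theorem adian_rabin {P : ∀ (G : Type) [Group G], Prop}
    (hiso : ∀ (G G' : Type) [Group G] [Group G'], (G ≃* G') → P G → P G')
    {c : ℕ} (Rc : List (FreeGroup (Fin c))) (hplus : P (PresentedGroup {r | r ∈ Rc}))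
    {b : ℕ} (Rb : List (FreeGroup (Fin b)))
    (hminus : ∀ (n : ℕ) (S : Set (FreeGroup (Fin n))), S.Finite →
      ∀ f : PresentedGroup {r | r ∈ Rb} →* PresentedGroup S,
        Function.Injective f → ¬P (PresentedGroup S)) :
    ∃ m : ℕ, ¬ComputablePred fun W : List (List (Fin m × Bool)) =>
      P (PresentedGroup (wordRels W)) := by
  obtain ⟨m, h⟩ := exists_hard_presentations Rb Rc
  exact ⟨m, h P hiso hplus hminus⟩

theorem subsingleton_noGenerators :
    Subsingleton (PresentedGroup {r : FreeGroup (Fin 0) | r ∈ ([] : List _)}) :=
  (PresentedGroup.mk_surjective _).subsingleton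

/-- A free group with relators none. -/
theorem exists_hom_ofFree (k : ℕ) :
    ∃ f : FreeGroup (Fin k) →* PresentedGroup {r : FreeGroup (Fin k) | r ∈ ([] : List _)},
      Function.Injective f := by
  refine ⟨PresentedGroup.mk _, (injective_iff_map_eq_one _).2 fun x hx => ?_⟩
  simpa using PresentedGroup.mk_eq_one_iff.1 hx

theorem not_commutative_free :
    ¬∀ x y : FreeGroup (Fin 2), x * y = y * x := by
  intro h
  have := congrArg FreeGroup.toWord (h (FreeGroup.of 0) (FreeGroup.of 1))
  simp [FreeGroup.toWord_mul, FreeGroup.toWord_of] at this

/-- **It is undecidable whether a presented group is trivial.** -/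
theorem triviality_undecidable :
    ∃ m : ℕ, ¬ComputablePred fun W : List (List (Fin m × Bool)) =>
      Subsingleton (PresentedGroup (wordRels W)) := by
  refine adian_rabin (P := fun G _ => Subsingleton G)
    (fun G G' _ _ e h => e.symm.injective.subsingleton) [] subsingleton_noGenerators
    (b := 1) [] fun n S _ f hf hS => ?_
  obtain ⟨g, hg⟩ := exists_hom_ofFree 1
  have := (hf.comp hg).subsingleton
  exact FreeGroup.of_ne_one (0 : Fin 1) (Subsingleton.elim _ _)

/-- **It is undecidable whether a presented group is finite.** -/
theorem finiteness_undecidable :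
    ∃ m : ℕ, ¬ComputablePred fun W : List (List (Fin m × Bool)) =>
      Finite (PresentedGroup (wordRels W)) := by
  refine adian_rabin (P := fun G _ => Finite G) (fun G G' _ _ e _ => Finite.of_equiv G e.toEquiv)
    (c := 0) []
    (by have := subsingleton_noGenerators; infer_instance) (b := 1) [] fun n S _ f hf hS => ?_
  obtain ⟨g, hg⟩ := exists_hom_ofFree 1
  have : Finite (FreeGroup (Fin 1)) := Finite.of_injective _ (hf.comp hg)
  have : Infinite (FreeGroup (Fin 1)) :=
    Infinite.of_injective (zpowersHom (FreeGroup (Fin 1)) (FreeGroup.of 0))
      (zpowersHom_injective_of_map (FreeGroup.lift fun _ => Multiplicative.ofAdd 1) (by simp))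
  exact not_finite (FreeGroup (Fin 1))

/-- **It is undecidable whether a presented group is commutative.** -/
theorem commutativity_undecidable :
    ∃ m : ℕ, ¬ComputablePred fun W : List (List (Fin m × Bool)) =>
      ∀ x y : PresentedGroup (wordRels W), x * y = y * x := by
  refine adian_rabin (P := fun G _ => ∀ x y : G, x * y = y * x)
    (fun G G' _ _ e h x y => e.symm.injective (by simp [h]))
    (c := 0) [] (fun x y => by have := subsingleton_noGenerators; exact Subsingleton.elim _ _)
    (b := 2) [] fun n S _ f hf hS => ?_
  obtain ⟨g, hg⟩ := exists_hom_ofFree 2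
  exact not_commutative_free fun x y => (hf.comp hg) (by simp [hS])

/-- **The isomorphism problem is undecidable.** -/
theorem isomorphism_problem_undecidable :
    ∃ m : ℕ, ¬ComputablePred fun p : List (List (Fin m × Bool)) × List (List (Fin m × Bool)) =>
      Nonempty (PresentedGroup (wordRels p.1) ≃* PresentedGroup (wordRels p.2)) := by
  obtain ⟨m, h⟩ := triviality_undecidable
  refine ⟨m, fun hC => h (ComputablePred.computable_of_manyOneReducible
    ⟨fun W => (W, (List.finRange m).map fun i => [(i, true)]),
      Computable.id.pair (Computable.const _), fun W => ?_⟩ hC)⟩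
  have ht : Subsingleton
      (PresentedGroup (wordRels ((List.finRange m).map fun i => [(i, true)]))) := by
    refine ⟨fun x y => ?_⟩
    suffices h1 : ∀ z, z = (1 : PresentedGroup
        (wordRels ((List.finRange m).map fun i : Fin m => [(i, true)]))) by rw [h1 x, h1 y]
    intro z
    have hz := PresentedGroup.generated_by _ (⊥ : Subgroup (PresentedGroup
        (wordRels ((List.finRange m).map fun i : Fin m => [(i, true)])))) (fun i =>
      PresentedGroup.one_of_mem
        ⟨[(i, true)], List.mem_map.2 ⟨i, List.mem_finRange i, rfl⟩, rfl⟩) z
    simpa using hz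
  constructor
  · intro hW
    exact ⟨⟨equivOfSubsingletonOfSubsingleton (fun _ => 1) fun _ => 1,
      fun _ _ => Subsingleton.elim _ _⟩⟩
  · rintro ⟨e⟩
    exact e.injective.subsingleton

end FA.Undecidability
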