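import Fermat.Agent.Ado.Main

/-!
# Ado's theorem

Over a field of characteristic zero:

* `ado`: every finite dimensional Lie algebra has a faithful finite dimensional representation;
* `ado_nilpotent`: it may be chosen nilpotent on `⁅L, radical L⁆ + center L`;
* `bracket_radical_nilpotent`: `⁅L, radical L⁆` acts nilpotently on every finite dimensional module;
* `bracket_radical_isNilpotent`: in particular it is a nilpotent Lie algebra.
-/

set_option autoImplicit false

noncomputable section

namespace FA.Ado.Summary

open LieAlgebra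

attribute [local instance 100] LieRing.ofAssociativeRing

variable {K L : Type*} [Field K] [CharZero K] [LieRing L] [LieAlgebra K L] [FiniteDimensional K L]

/-- Ado's theorem. -/
theorem ado : ∃ (n : ℕ) (f : L →ₗ⁅K⁆ Matrix (Fin n) (Fin n) K), Function.Injective f :=
  let ⟨n, f, h, _⟩ := exists_faithful_nilpotent (K := K) (g := L)
  ⟨n, f, h⟩

/-- The faithful representation may be nilpotent on `⁅L, radical L⁆ + center L`. -/
theorem ado_nilpotent :
    ∃ (n : ℕ) (f : L →ₗ⁅K⁆ Matrix (Fin n) (Fin n) K), Function.Injective f ∧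
      ∀ y ∈ ⁅(⊤ : LieIdeal K L), radical K L⁆ ⊔ center K L, IsNilpotent (f y) :=
  exists_faithful_nilpotent

/-- The elements of `⁅L, radical L⁆` act nilpotently on every finite dimensional module. -/
theorem bracket_radical_nilpotent (M : Type*) [AddCommGroup M] [Module K M] [LieRingModule L M]
    [LieModule K L M] [FiniteDimensional K M] {a : L}
    (ha : a ∈ ⁅(⊤ : LieIdeal K L), radical K L⁆) : IsNilpotent (LieModule.toEnd K L M a) :=
  isNilpotent_toEnd_bracket_radical M ha

/-- The ideal `⁅L, radical L⁆` is a nilpotent Lie algebra. -/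
theorem bracket_radical_isNilpotent :
    LieRing.IsNilpotent (⁅(⊤ : LieIdeal K L), radical K L⁆ : LieIdeal K L) := by
  refine (LieAlgebra.isNilpotent_iff_forall (R := K)).2 fun a => ?_
  obtain ⟨n, hn⟩ := isNilpotent_toEnd_bracket_radical L a.2
  refine ⟨n, LinearMap.ext fun b => Subtype.ext ?_⟩
  have h : ∀ j, (((LieAlgebra.ad K (⁅(⊤ : LieIdeal K L), radical K L⁆ : LieIdeal K L) a ^ j) b :
      (⁅(⊤ : LieIdeal K L), radical K L⁆ : LieIdeal K L)) : L) =
      (LieModule.toEnd K L L (a : L) ^ j) (b : L) := fun j => by
    induction j with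
    | zero => rfl
    | succ j ih => rw [pow_succ', Module.End.mul_apply, pow_succ', Module.End.mul_apply, ← ih]; rfl
  rw [h, hn]
  rfl

end FA.Ado.Summary
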