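import Fermat.Agent.AilonRudnick.Gcd

/-!
# Summary: the theorem of Ailon and Rudnick

Two rational functions independent modulo the constants are simultaneously roots of unity at
finitely many points only; for polynomials the greatest common divisors of `f ^ m - 1` and
`g ^ n - 1` therefore divide one polynomial, in contrast with the integers.
-/

set_option autoImplicit false

noncomputable section

open Polynomial

namespace FA.AilonRudnick.Summary

/-- **Torsion specialisations are finite**: in any extension of characteristic zero. -/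
theorem torsion_specialisations_finite {K : Type*} [Field K] {L : Type*} [Field L] [Algebra K L]
    [CharZero L] {f g : RatFunc K}
    (hfg : ∀ a b : ℤ, (∃ c : K, f ^ a * g ^ b = RatFunc.C c) → a = 0 ∧ b = 0) :
    {α : L | (∃ m : ℕ, 0 < m ∧ (aeval α f.num / aeval α f.denom) ^ m = 1) ∧
      ∃ n : ℕ, 0 < n ∧ (aeval α g.num / aeval α g.denom) ^ n = 1}.Finite :=
  (finite_torsion_values (L := L) hfg).subset fun _ ⟨h1, h2⟩ =>
    ⟨isOfFinOrder_iff_pow_eq_one.2 h1, isOfFinOrder_iff_pow_eq_one.2 h2⟩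

variable {K : Type*} [Field K] [CharZero K] {f g : K[X]}

open scoped Classical in
/-- **Ailon–Rudnick**: one polynomial is divisible by all the greatest common divisors. -/
theorem ailon_rudnick
    (h : ∀ a b : ℤ, (∃ c : K, algebraMap K[X] (RatFunc K) f ^ a *
      algebraMap K[X] (RatFunc K) g ^ b = RatFunc.C c) → a = 0 ∧ b = 0) :
    ∃ H : K[X], H ≠ 0 ∧ ∀ m n : ℕ, 0 < m → 0 < n → gcd (f ^ m - 1) (g ^ n - 1) ∣ H :=
  exists_common_bound h

/-- **The degree of a common divisor is bounded.** -/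
theorem ailon_rudnick_degree
    (h : ∀ a b : ℤ, (∃ c : K, algebraMap K[X] (RatFunc K) f ^ a *
      algebraMap K[X] (RatFunc K) g ^ b = RatFunc.C c) → a = 0 ∧ b = 0) :
    ∃ B : ℕ, ∀ m n : ℕ, 0 < m → 0 < n → ∀ d : K[X],
      d ∣ f ^ m - 1 → d ∣ g ^ n - 1 → d.natDegree ≤ B :=
  exists_degree_bound h

/-- **Coprime on a residue class.** -/
theorem ailon_rudnick_coprime
    (h : ∀ a b : ℤ, (∃ c : K, algebraMap K[X] (RatFunc K) f ^ a *
      algebraMap K[X] (RatFunc K) g ^ b = RatFunc.C c) → a = 0 ∧ b = 0)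
    (h1 : IsCoprime (f - 1) (g - 1)) :
    ∃ M : ℕ, 0 < M ∧ ∀ n : ℕ, 0 < n → n.Coprime M → IsCoprime (f ^ n - 1) (g ^ n - 1) :=
  exists_coprime_class h h1

/-- **The converse**: a relation `f ^ a = c g ^ b`, `c` a root of unity, makes it unbounded. -/
theorem ailon_rudnick_converse {K : Type*} [Field K] {f g : K[X]} {a b k : ℕ} {c : K}
    (hf : 0 < f.natDegree) (ha : 0 < a) (hk : 0 < k) (hc : c ^ k = 1)
    (hrel : f ^ a = C c * g ^ b) (B : ℕ) :
    ∃ m n : ℕ, 0 < m ∧ 0 < n ∧ ∃ d : K[X],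
      d ∣ f ^ m - 1 ∧ d ∣ g ^ n - 1 ∧ B < d.natDegree := by
  have hb : 0 < b := Nat.pos_of_ne_zero fun hb => by
    have h1 := congrArg natDegree hrel
    rw [hb, pow_zero, mul_one, natDegree_pow, natDegree_C] at h1
    exact (Nat.mul_pos ha hf).ne' h1
  refine ⟨a * (k * (B + 1)), b * (k * (B + 1)), by positivity, by positivity,
    f ^ (a * (k * (B + 1))) - 1, dvd_rfl, dvd_of_eq ?_, ?_⟩
  · rw [pow_mul, hrel, mul_pow, ← C_pow, pow_mul c, hc, one_pow, C_1, one_mul, ← pow_mul]
  · rw [← C_1, natDegree_sub_C, natDegree_pow]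
    calc B < 1 * (1 * (B + 1)) * 1 := by omega
      _ ≤ a * (k * (B + 1)) * f.natDegree := by gcongr <;> omega

end FA.AilonRudnick.Summary

end
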