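import Fermat.Agent.KoksmaClass.Algebraic

/-!
# Mahler's and Koksma's exponents of algebraic numbers

At a real algebraic number of degree `d` (over `ℚ`) both `w n` and `w* n` equal `min n (d - 1)`
for every `n ≥ 1` (Schmidt 1970). The case `n = 1` is Roth's theorem.
-/

set_option autoImplicit false

noncomputable section

open Polynomial FA.MahlerClass

namespace FA.KoksmaClass.Summary

/-- **Schmidt: `w n = min n (d - 1)` at an algebraic number of degree `d`.** -/
theorem algebraic_mahler_exponent {x : ℝ} (hx : IsAlgebraic ℤ x) {n : ℕ} (hn : 1 ≤ n) :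
    mahlerExp n x = ((min n ((minpoly ℚ x).natDegree - 1) : ℕ) : ℝ) :=
  (exponents_algebraic hx hn).1

/-- **Schmidt: `w* n = min n (d - 1)` at an algebraic number of degree `d`.** -/
theorem algebraic_koksma_exponent {x : ℝ} (hx : IsAlgebraic ℤ x) {n : ℕ} (hn : 1 ≤ n) :
    koksmaExp n x = ((min n ((minpoly ℚ x).natDegree - 1) : ℕ) : ℝ) :=
  (exponents_algebraic hx hn).2

/-- **Roth's theorem as exponents**: both `w 1` and `w* 1` are one at an algebraic irrational. -/
theorem roth_exponents {x : ℝ} (hx : IsAlgebraic ℤ x) (hirr : Irrational x) :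
    mahlerExp 1 x = ((1 : ℝ) : EReal) ∧ koksmaExp 1 x = ((1 : ℝ) : EReal) := by
  have hxQ : IsIntegral ℚ x := ((IsFractionRing.isAlgebraic_iff ℤ ℚ ℝ).1 hx).isIntegral
  have hpos := minpoly.natDegree_pos hxQ
  have hne : (minpoly ℚ x).natDegree ≠ 1 := fun h => by
    obtain ⟨q, hq⟩ := minpoly.natDegree_eq_one_iff.1 h
    exact hirr ⟨q, by rwa [eq_ratCast] at hq⟩
  have h := exponents_algebraic hx le_rfl
  rwa [min_eq_left (by omega), Nat.cast_one] at h

end FA.KoksmaClass.Summary
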