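import Fermat.Agent.AlgebraicHecke.CMSub

/-!
# Weil's theorem on algebraic Hecke characters

For integers `n_σ` at the complex embeddings of a number field a multiplicative `f` on the ideals,
nonzero exactly at those prime to `𝔪`, is algebraic of type `n` if `f ((x)) = ∏ σ(x) ^ n_σ` for
totally positive `x ≡ 1` modulo `𝔪` (Weil's type `A₀`).

* `algebraic_hecke_type_iff`: type `n` occurs iff `n_σ + n_σ̄` is constant and `n` only depends on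
  the restrictions to a subfield on which one endomorphism induces complex conjugation in every
  embedding, that is a totally real or CM subfield (Artin, Weil);
* `algebraic_hecke_modulus`: it then occurs modulo every multiple of `3`;
* `algebraic_hecke_real_place`, `algebraic_hecke_no_cm`: with a real place, or without CM subfield,
  an algebraic character is an integral power of the norm times a ray class character;
* `algebraic_hecke_cm`: on a CM field every `n` with constant `n_σ + n_σ̄` occurs.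
-/

set_option autoImplicit false
set_option linter.unusedSectionVars false

noncomputable section

open NumberField NumberField.InfinitePlace Module Ideal
open FA.AlgHecke
open scoped Classical

namespace FA.Summary

variable {K : Type*} [Field K] [NumberField K]

/-- **Which types occur.** -/
theorem algebraic_hecke_type_iff (n : (K →+* ℂ) → ℤ) :
    (∃ (𝔪 : Ideal (𝓞 K)) (f : Ideal (𝓞 K) →* ℂ), 𝔪 ≠ ⊥ ∧
        (∀ I : Ideal (𝓞 K), I ≠ ⊥ → (f I ≠ 0 ↔ I ⊔ 𝔪 = ⊤)) ∧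
        ∀ x : 𝓞 K, x ≠ 0 → x - 1 ∈ 𝔪 → (∀ φ : K →+* ℝ, 0 < φ x) →
          f (Ideal.span {x}) = ∏ σ : K →+* ℂ, σ (x : K) ^ n σ) ↔
      ∃ w : ℤ, (∀ σ, n σ + n (ComplexEmbedding.conjugate σ) = w) ∧
        ∃ (K₀ : IntermediateField ℚ K) (c₀ : K₀ →+* K₀),
          (∀ (σ : K →+* ℂ) (x : K₀), starRingEnd ℂ (σ (x : K)) = σ (c₀ x : K)) ∧
          ∀ σ σ' : K →+* ℂ, (∀ x ∈ K₀, σ x = σ' x) → n σ = n σ' := by
  refine Iff.trans ?_ (exists_isAlgChar_iff n)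
  exact exists_congr fun 𝔪 => exists_congr fun f =>
    ⟨fun ⟨h1, h2, h3⟩ => ⟨h1, h2, fun x hx => h3 x hx.1 hx.2.1 hx.2.2⟩,
      fun h => ⟨h.ne_bot, h.ne_zero_iff, fun x hx hx1 hx2 => h.ray x ⟨hx, hx1, hx2⟩⟩⟩

/-- **The modulus.** -/
theorem algebraic_hecke_modulus {n : (K →+* ℂ) → ℤ}
    (h : ∃ (𝔪 : Ideal (𝓞 K)) (f : Ideal (𝓞 K) →* ℂ), IsAlgChar 𝔪 n f)
    {𝔪 : Ideal (𝓞 K)} (h𝔪 : 𝔪 ≠ ⊥) (h3 : 𝔪 ≤ Ideal.span {3}) :
    ∃ f : Ideal (𝓞 K) →* ℂ, IsAlgChar 𝔪 n f := by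
  obtain ⟨w, hw⟩ := (exists_isAlgChar_iff n).1 h
  exact exists_isAlgChar h𝔪 (hw.isStrongPure.unitTrivial h3)

/-- A constant type. -/
theorem algebraic_hecke_const {n : (K →+* ℂ) → ℤ} {𝔪 : Ideal (𝓞 K)} {f : Ideal (𝓞 K) →* ℂ}
    (h : IsAlgChar 𝔪 n f) {w : ℤ} (hw : ∀ σ, 2 * n σ = w) :
    ∃ (a : ℤ) (g : Ideal (𝓞 K) →* ℂ), (∀ σ, n σ = a) ∧ FA.Hecke.IsRayChar 𝔪 g ∧
      ∀ I : Ideal (𝓞 K), I ≠ ⊥ → f I = g I * ((absNorm I : ℕ) : ℂ) ^ a := by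
  obtain ⟨σ₀⟩ : Nonempty (K →+* ℂ) := inferInstance
  refine ⟨n σ₀, _, fun σ => ?_, h.isRayChar_of_const (a := n σ₀) fun σ => ?_, fun I hI => ?_⟩
  · have := hw σ; have := hw σ₀; omega
  · have := hw σ; have := hw σ₀; omega
  · rw [FA.IdeleClass.normTwist_apply, Complex.cpow_neg, Complex.cpow_intCast,
      inv_mul_cancel_right₀ (zpow_ne_zero _ (Nat.cast_ne_zero.2 (absNorm_eq_zero_iff.not.2 hI)))]

/-- **With a real place only powers of the norm.** -/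
theorem algebraic_hecke_real_place {σ₀ : K →+* ℂ} (hσ : ComplexEmbedding.IsReal σ₀)
    {n : (K →+* ℂ) → ℤ} {𝔪 : Ideal (𝓞 K)} {f : Ideal (𝓞 K) →* ℂ} (h : IsAlgChar 𝔪 n f) :
    ∃ (a : ℤ) (g : Ideal (𝓞 K) →* ℂ), (∀ σ, n σ = a) ∧ FA.Hecke.IsRayChar 𝔪 g ∧
      ∀ I : Ideal (𝓞 K), I ≠ ⊥ → f I = g I * ((absNorm I : ℕ) : ℂ) ^ a := by
  obtain ⟨w, hw⟩ := (exists_isAlgChar_iff n).1 ⟨𝔪, f, h⟩
  exact algebraic_hecke_const h (hw.two_mul_eq_of_isReal hσ)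

/-- **Without CM subfield only powers of the norm.** -/
theorem algebraic_hecke_no_cm (hK : ∀ E : IntermediateField ℚ K, ¬IsCMField E)
    {n : (K →+* ℂ) → ℤ} {𝔪 : Ideal (𝓞 K)} {f : Ideal (𝓞 K) →* ℂ} (h : IsAlgChar 𝔪 n f) :
    ∃ (a : ℤ) (g : Ideal (𝓞 K) →* ℂ), (∀ σ, n σ = a) ∧ FA.Hecke.IsRayChar 𝔪 g ∧
      ∀ I : Ideal (𝓞 K), I ≠ ⊥ → f I = g I * ((absNorm I : ℕ) : ℂ) ^ a := by
  obtain ⟨w, hw⟩ := (exists_isAlgChar_iff n).1 ⟨𝔪, f, h⟩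
  exact algebraic_hecke_const h (hw.two_mul_eq_of_no_cm hK)

/-- **CM fields.** -/
theorem algebraic_hecke_cm [IsCMField K] {n : (K →+* ℂ) → ℤ} {w : ℤ}
    (hw : ∀ σ, n σ + n (ComplexEmbedding.conjugate σ) = w) :
    ∃ (𝔪 : Ideal (𝓞 K)) (f : Ideal (𝓞 K) →* ℂ), IsAlgChar 𝔪 n f :=
  (exists_isAlgChar_iff n).2 ⟨w, isWeilType_of_isCMField hw⟩

end FA.Summary

end
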