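import Fermat.Agent.AlgebraicHeckeFE.Main
import Fermat.Agent.AlgebraicHeckeFE.Euler

/-!
# Hecke's functional equation for algebraic Hecke characters

Let `f` be an algebraic character of type `n` modulo `𝔪` and the real places (Weil's type `A₀`), not
a power of the norm.  Then `n σ + n σ̄` is a constant `w` and there is a character `f₀` of the same
type modulo an ideal `𝔣 ∣ 𝔪` that agrees with `f` at the ideals prime to `𝔪`, `𝔣` dividing every
modulus of a character of this type agreeing with it at almost all primes.  With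
`A = |d_K| N 𝔣` the function `A ^ (s / 2) ∏ Γℝ (s - w / 2 + e_v) ∏ Γℂ (s - min (n σ) (n σ̄)) L (f₀, s)`
extends to an entire `Λ` with `Λ s = W conj (Λ (1 + w - conj s))`, `|W| = 1`, and the L-series of
`f` differs from that of `f₀` by the Euler factors at the primes of `𝔪`.
-/

set_option autoImplicit false
set_option linter.unusedSectionVars false

noncomputable section

open NumberField NumberField.InfinitePlace IsDedekindDomain Ideal
open FA.AlgHecke (IsAlgChar IsNormPower)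
open scoped nonZeroDivisors Classical ComplexConjugate

namespace FA.Root.AlgebraicHeckeFESummary

universe u

variable {K : Type u} [Field K] [NumberField K]

/-- **Hecke's functional equation for algebraic Hecke characters.** -/
theorem algebraic_hecke_functional_equation {𝔪 : Ideal (𝓞 K)} {n : (K →+* ℂ) → ℤ}
    {f : Ideal (𝓞 K) →* ℂ} (h : IsAlgChar 𝔪 n f) (hne : ¬IsNormPower f) :
    ∃ (w : ℤ) (𝔣 : Ideal (𝓞 K)) (f₀ : Ideal (𝓞 K) →* ℂ)
      (e : {v : InfinitePlace K // IsReal v} → ℕ) (W : ℂ) (Λ : ℂ → ℂ),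
      (∀ σ : K →+* ℂ, n σ + n (ComplexEmbedding.conjugate σ) = w) ∧
      𝔣 ∣ 𝔪 ∧ IsAlgChar 𝔣 n f₀ ∧ (∀ I : Ideal (𝓞 K), I ≠ ⊥ → f I ≠ 0 → f₀ I = f I) ∧
      (∀ (𝔪' : Ideal (𝓞 K)) (f' : Ideal (𝓞 K) →* ℂ), IsAlgChar 𝔪' n f' →
        {v : HeightOneSpectrum (𝓞 K) | f' v.asIdeal ≠ f₀ v.asIdeal}.Finite → 𝔣 ∣ 𝔪') ∧
      (∀ v, e v ≤ 1) ∧ ‖W‖ = 1 ∧ Differentiable ℂ Λ ∧
      (∀ s : ℂ, 1 + (w : ℝ) / 2 < s.re → ∃ L : ℂ,
        HasSum (fun I : (Ideal (𝓞 K))⁰ => f₀ I.1 * ((absNorm I.1 : ℕ) : ℂ) ^ (-s)) L ∧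
        HasSum (fun I : (Ideal (𝓞 K))⁰ => f I.1 * ((absNorm I.1 : ℕ) : ℂ) ^ (-s))
          ((∏ v ∈ (Ideal.finite_factors h.ne_bot).toFinset,
            (1 - f₀ v.asIdeal * ((absNorm v.asIdeal : ℕ) : ℂ) ^ (-s))) * L) ∧
        Λ s = ((|((discr K : ℤ) : ℝ)| * ((absNorm 𝔣 : ℕ) : ℝ) : ℝ) : ℂ) ^ (s / 2) *
          ((∏ v : {v : InfinitePlace K // IsReal v}, Complex.Gammaℝ (s - (w : ℂ) / 2 + e v)) *
            ∏ v : {v : InfinitePlace K // IsComplex v}, Complex.Gammaℂ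
              (s - (min (n v.1.embedding) (n (ComplexEmbedding.conjugate v.1.embedding)) : ℤ))) * L) ∧
      ∀ s : ℂ, Λ s = W * conj (Λ (1 + (w : ℂ) - conj s)) := by
  obtain ⟨w, 𝔣, f₀, e, W, Λ, hw, hdvd, h₀, hag, hmin, he, hW, hΛ, hL, hfe⟩ :=
    FA.AlgHeckeFE.exists_functional_equation h hne
  refine ⟨w, 𝔣, f₀, e, W, Λ, hw, hdvd, h₀, hag, hmin, he, hW, hΛ, fun s hs => ?_, hfe⟩
  obtain ⟨L, hL1, hL2⟩ := hL s hs
  refine ⟨L, hL1, FA.AlgHeckeFE.hasSum_depleted h hw h₀ hw _ (fun v hv => ?_) (fun v hv => ?_)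
    hs hs hL1, hL2⟩
  · have hv' : v.asIdeal ∣ 𝔪 := (Ideal.finite_factors h.ne_bot).mem_toFinset.1 hv
    by_contra h0
    exact v.isPrime.ne_top (top_le_iff.1
      (((h.ne_zero_iff _ v.ne_bot).1 h0) ▸ sup_le le_rfl (Ideal.le_of_dvd hv')))
  · have hv' : ¬ v.asIdeal ∣ 𝔪 := fun hd => hv ((Ideal.finite_factors h.ne_bot).mem_toFinset.2 hd)
    refine (hag _ v.ne_bot ((h.ne_zero_iff _ v.ne_bot).2 ?_)).symm
    by_contra hne'
    exact hv' (Ideal.dvd_iff_le.2 (le_sup_right.trans (v.isMaximal.eq_of_le hne' le_sup_left).ge))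

end FA.Root.AlgebraicHeckeFESummary

end
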