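import Fermat.Agent.AlgebraicHecke.Values
import Fermat.Agent.AlgebraicHecke.LSeries
import Fermat.Agent.AlgebraicHecke.Idele

/-!
# The values and L-series of algebraic Hecke characters

For an algebraic character `f` of type `n` modulo `𝔪`, `w = n_σ + n_σ̄` (`IsAlgChar`, `IsPure`):

* `algebraic_hecke_values`: `|f (I)| = N I ^ (w / 2)` and all values lie in one number field, whose
  embeddings carry `f` to algebraic characters of the permuted types;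
* `algebraic_hecke_LSeries`: `∑ f (I) N I ^ (-s)` extends from `1 + w / 2 < re s` to an entire
  function exactly if `f` is no power of the norm off `𝔪`, and then it has no zero on
  `1 + w / 2 ≤ re s`;
* `algebraic_hecke_prime_mean`: then the `f (v) N v ^ (-w / 2)` have mean `0`;
* `algebraic_hecke_idele`: `f` comes from exactly one idele class character which is
  `∏ σ (y) ^ (-n_σ)` on the positive infinite ideles.

No functional equation is proved.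
-/

set_option autoImplicit false
set_option linter.unusedSectionVars false

noncomputable section

open NumberField IsDedekindDomain Ideal Filter Topology
open FA.AlgHecke FA.Ideles FA.IdeleClass
open scoped nonZeroDivisors Classical

namespace FA.Summary

universe u

variable {K : Type u} [Field K] [NumberField K] {𝔪 : Ideal (𝓞 K)} {n : (K →+* ℂ) → ℤ}
  {f : Ideal (𝓞 K) →* ℂ}

/-- **The values.** -/
theorem algebraic_hecke_values (h : IsAlgChar 𝔪 n f) :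
    (∃ w : ℤ, IsPure n w ∧ ∀ I : Ideal (𝓞 K), I ≠ ⊥ → f I ≠ 0 →
      ‖f I‖ = ((absNorm I : ℕ) : ℝ) ^ ((w : ℝ) / 2)) ∧
    ∃ (E : IntermediateField ℚ ℂ) (_ : FiniteDimensional ℚ E) (hE : galClosure K ≤ E)
      (hf : ∀ I, f I ∈ E), ∀ φ : E →+* ℂ, ∃ (n' : (K →+* ℂ) → ℤ) (f' : Ideal (𝓞 K) →* ℂ),
        IsAlgChar 𝔪 n' f' ∧ (∀ I, f' I = φ ⟨f I, hf I⟩) ∧
          ∀ σ, n' (φ.comp (embInto hE σ)) = n σ := by
  obtain ⟨w, hw⟩ := exists_isPure h.ne_bot h.unitTrivial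
  obtain ⟨E, hfin, hE, hf⟩ := h.exists_valueField
  exact ⟨⟨w, hw, fun I hI h0 => h.norm_eq hw hI h0⟩, E, hfin, hE, hf,
    h.exists_conjugate hE hf⟩

/-- **The L-series.** -/
theorem algebraic_hecke_LSeries (h : IsAlgChar 𝔪 n f) {w : ℤ} (hw : IsPure n w) :
    ((¬∃ a : ℤ, ∀ I : Ideal (𝓞 K), I ≠ ⊥ → f I ≠ 0 → f I = ((absNorm I : ℕ) : ℂ) ^ a) ↔
      ∃ E : ℂ → ℂ, Differentiable ℂ E ∧ ∀ s : ℂ, 1 + (w : ℝ) / 2 < s.re →
        HasSum (fun I : (Ideal (𝓞 K))⁰ => f I.1 * ((absNorm I.1 : ℕ) : ℂ) ^ (-s)) (E s)) ∧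
    ((¬∃ a : ℤ, ∀ I : Ideal (𝓞 K), I ≠ ⊥ → f I ≠ 0 → f I = ((absNorm I : ℕ) : ℂ) ^ a) →
      ∃ E : ℂ → ℂ, Differentiable ℂ E ∧ (∀ s : ℂ, 1 + (w : ℝ) / 2 < s.re →
        HasSum (fun I : (Ideal (𝓞 K))⁰ => f I.1 * ((absNorm I.1 : ℕ) : ℂ) ^ (-s)) (E s)) ∧
        ∀ s : ℂ, 1 + (w : ℝ) / 2 ≤ s.re → E s ≠ 0) := by
  refine ⟨⟨fun hne => ?_, fun hE hp => h.not_entire_of_normPower hw hp hE⟩, h.exists_entire hw⟩
  obtain ⟨E, hE, hE', -⟩ := h.exists_entire hw hne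
  exact ⟨E, hE, hE'⟩

/-- **Mean `0` over the primes.** -/
theorem algebraic_hecke_prime_mean (h : IsAlgChar 𝔪 n f) {w : ℤ} (hw : IsPure n w)
    (hne : ¬∃ a : ℤ, ∀ I : Ideal (𝓞 K), I ≠ ⊥ → f I ≠ 0 → f I = ((absNorm I : ℕ) : ℂ) ^ a) :
    Tendsto (fun j : ℕ => ((Real.log j / j : ℝ) : ℂ) *
      ∑' v : {v : HeightOneSpectrum (𝓞 K) // absNorm v.asIdeal ≤ j},
        f v.1.asIdeal * ((absNorm v.1.asIdeal : ℕ) : ℂ) ^ (-((w : ℂ) / 2))) atTop (𝓝 0) := by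
  refine ((h.hasMean_zero hw hne).comp tendsto_natCast_atTop_atTop).congr fun j => ?_
  rw [Function.comp_apply, FA.Hecke.wSum, Nat.floor_natCast, Complex.real_smul]
  congr 1
  rw [← Finset.tsum_subtype]
  exact (Equiv.subtypeEquivRight fun v => FA.Hecke.mem_primesLE).tsum_eq
    (fun v : {v : HeightOneSpectrum (𝓞 K) // absNorm v.asIdeal ≤ j} =>
      f v.1.asIdeal * ((absNorm v.1.asIdeal : ℕ) : ℂ) ^ (-((w : ℂ) / 2)))

/-- **The idele class character.** -/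
theorem algebraic_hecke_idele (h : IsAlgChar 𝔪 n f) :
    ∃! χ : Idele K →* ℂˣ, Continuous χ ∧ (∀ a : Kˣ, χ (principal a) = 1) ∧
      (∀ y ∈ posInf K, ((χ y : ℂˣ) : ℂ) * infType n y = 1) ∧
      ∀ v : HeightOneSpectrum (𝓞 K), ¬v.asIdeal ∣ 𝔪 →
        (∀ z : (v.adicCompletion K)ˣ, Valued.v (z : v.adicCompletion K) = 1 →
          χ (single v z) = 1) ∧
        ((χ (single v (localEmb v (FA.ArtinRec.unif v))) : ℂˣ) : ℂ) = f v.asIdeal :=
  h.existsUnique_ideleChar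

end FA.Summary

end
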