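import Fermat.Agent.AndreAlgebraicity.Witness

/-!
# The algebraicity criterion of D. and G. Chudnovsky and of André

A power series `f` with rational coefficients is algebraic over `ℚ(x)` if `x` and `f` can be
uniformised simultaneously, by quotients of functions holomorphic in `|w| < R` at infinity and by
quotients of series bounded on discs `|t| < 1 / R l` at the primes outside which it is integral,
with `∏ R l / |u l'(0)| < R |u'(0)|`. Several series, number fields and the applications to the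
conjecture of Grothendieck and Katz are not treated.
-/

set_option autoImplicit false

noncomputable section

namespace FA.AndreAlgebraicity.Summary

open Filter
open scoped Topology

/-- **The criterion of André.** -/
theorem andre_algebraicity {a : ℕ → ℚ} {S : Finset Nat.Primes} {Rinf : ℝ} {g₁ h₁ g₂ h₂ : ℂ → ℂ}
    (hg₁ : DifferentiableOn ℂ g₁ (Metric.ball 0 Rinf))
    (hh₁ : DifferentiableOn ℂ h₁ (Metric.ball 0 Rinf))
    (hg₂ : DifferentiableOn ℂ g₂ (Metric.ball 0 Rinf))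
    (hh₂ : DifferentiableOn ℂ h₂ (Metric.ball 0 Rinf))
    (hg₁0 : g₁ 0 ≠ 0) (hg₂0 : g₂ 0 ≠ 0) (hh₁0 : h₁ 0 = 0)
    (hser : ∀ᶠ w in 𝓝 (0 : ℂ), HasSum (fun n => (a n : ℂ) * (h₁ w / g₁ w) ^ n) (h₂ w / g₂ w))
    (hint : ∀ l : Nat.Primes, l ∉ S → ∀ n, padicNorm l (a n) ≤ 1)
    (hbd : ∃ C : ℚ, ∀ l ∈ S, ∀ n, padicNorm l (a n) ≤ C ^ (n + 1))
    {R : Nat.Primes → ℝ} {u : ∀ l : Nat.Primes, PowerSeries ℚ_[(l : ℕ)]}
    (hR : ∀ l ∈ S, 0 < R l) (hu1 : ∀ l ∈ S, PowerSeries.coeff 1 (u l) ≠ 0)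
    (hloc : ∀ l ∈ S, ∃ (C : ℝ) (g₁ h₁ g₂ h₂ : PowerSeries ℚ_[(l : ℕ)]),
      (∀ n, ‖PowerSeries.coeff n g₁‖ ≤ C * R l ^ n ∧ ‖PowerSeries.coeff n h₁‖ ≤ C * R l ^ n ∧
        ‖PowerSeries.coeff n g₂‖ ≤ C * R l ^ n ∧ ‖PowerSeries.coeff n h₂‖ ≤ C * R l ^ n) ∧
      PowerSeries.constantCoeff g₁ = 1 ∧ PowerSeries.constantCoeff g₂ = 1 ∧
      PowerSeries.constantCoeff (u l) = 0 ∧ u l * g₁ = h₁ ∧
      PowerSeries.subst (u l)
        (PowerSeries.map (algebraMap ℚ ℚ_[(l : ℕ)]) (PowerSeries.mk a)) * g₂ = h₂)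
    (hprod : ∏ l ∈ S, R l / ‖PowerSeries.coeff 1 (u l)‖ <
      Rinf * ‖deriv (fun w => h₁ w / g₁ w) 0‖) :
    IsAlgebraic (Polynomial ℚ) (PowerSeries.mk a) :=
  isAlgebraic_of_uniformisation hg₁ hh₁ hg₂ hh₂ hg₁0 hg₂0 hh₁0 hser hint hbd hR hu1
    (fun l hl => by
      obtain ⟨C, q₁, k₁, q₂, k₂, h, h'⟩ := hloc l hl
      exact ⟨C, q₁, k₁, q₂, k₂, fun n => (h n).1, fun n => (h n).2.1, fun n => (h n).2.2.1,
        fun n => (h n).2.2.2, h'⟩) hprod

/-- **Integral coefficients**: a single uniformisation of radius above one suffices. -/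
theorem andre_algebraicity_integral {a : ℕ → ℤ} {R : ℝ} {g₁ h₁ g₂ h₂ : ℂ → ℂ}
    (hg₁ : DifferentiableOn ℂ g₁ (Metric.ball 0 R)) (hh₁ : DifferentiableOn ℂ h₁ (Metric.ball 0 R))
    (hg₂ : DifferentiableOn ℂ g₂ (Metric.ball 0 R)) (hh₂ : DifferentiableOn ℂ h₂ (Metric.ball 0 R))
    (hg₁0 : g₁ 0 ≠ 0) (hg₂0 : g₂ 0 ≠ 0) (hh₁0 : h₁ 0 = 0)
    (hser : ∀ᶠ w in 𝓝 (0 : ℂ), HasSum (fun n => (a n : ℂ) * (h₁ w / g₁ w) ^ n) (h₂ w / g₂ w))
    (hbig : 1 < R * ‖deriv (fun w => h₁ w / g₁ w) 0‖) :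
    IsAlgebraic (Polynomial ℚ) (PowerSeries.mk fun n => (a n : ℚ)) :=
  isAlgebraic_of_uniformisation (S := ∅) (R := fun _ => 1) (u := fun _ => PowerSeries.X)
    hg₁ hh₁ hg₂ hh₂ hg₁0 hg₂0 hh₁0
    (hser.mono fun w hw => hw.congr_fun fun n => by rw [Rat.cast_intCast])
    (fun l _ n => padicNorm.of_int _) ⟨1, by simp⟩ (by simp) (by simp) (by simp)
    (by simpa using hbig)

/-- **Continuation to the image of a disc**: if an integral series continues to the image of the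
unit disc under a holomorphic `u` with `u 0 = 0` and `|u'(0)| > 1`, it is algebraic. -/
theorem continuation_through_disc {a : ℕ → ℤ} {u g : ℂ → ℂ}
    (hu : DifferentiableOn ℂ u (Metric.ball 0 1)) (hu0 : u 0 = 0) (hu1 : 1 < ‖deriv u 0‖)
    (hg : DifferentiableOn ℂ g (u '' Metric.ball 0 1))
    (hser : ∀ᶠ x in 𝓝 (0 : ℂ), HasSum (fun n => (a n : ℂ) * x ^ n) (g x)) :
    IsAlgebraic (Polynomial ℚ) (PowerSeries.mk fun n => (a n : ℚ)) := by
  have hcont : ContinuousAt u 0 :=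
    (hu.differentiableAt (Metric.ball_mem_nhds _ one_pos)).continuousAt
  refine andre_algebraicity_integral (R := 1) (g₁ := fun _ => 1) (h₁ := u) (g₂ := fun _ => 1)
    (h₂ := fun w => g (u w)) (differentiableOn_const _) hu (differentiableOn_const _)
    (hg.comp hu fun w hw => Set.mem_image_of_mem u hw) one_ne_zero one_ne_zero hu0 ?_ ?_
  · have h := hcont.tendsto.eventually (by rw [hu0]; exact hser)
    simpa using h
  · simpa using hu1

/-- **Radius one is not enough**: `∑ x ^ (2 ^ j)`. -/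
theorem algebraicity_sharp :
    ∃ (a : ℕ → ℤ) (f : ℂ → ℂ), DifferentiableOn ℂ f (Metric.ball 0 1) ∧
      (∀ x ∈ Metric.ball (0 : ℂ) 1, HasSum (fun n => (a n : ℂ) * x ^ n) (f x)) ∧
      Transcendental (Polynomial ℚ) (PowerSeries.mk fun n => (a n : ℚ)) :=
  ⟨gapCoeff, Bertrandias.tailFun 0, Bertrandias.differentiableOn_tailFun 0,
    fun _ hx => hasSum_gap hx, transcendental_gap⟩

/-- **An example**: `∑ binom (2 n, n) x ^ n` becomes `1 / (1 - 2 w)` under `x = w - w ^ 2`. -/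
theorem algebraicity_centralBinom :
    IsAlgebraic (Polynomial ℚ) (PowerSeries.mk fun n => (n.centralBinom : ℚ)) :=
  isAlgebraic_centralBinom

end FA.AndreAlgebraicity.Summary
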