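import Fermat.Agent.ReducedGroups.Aliquot
import Fermat.Agent.Root.SummaryDeuringExceptional
import Fermat.Agent.Root.SummarySupersingular

/-!
# Aliquot cycles of exceptional curves (Silverman–Stange)

On a curve exceptional at an imaginary field other than `ℚ(√-3)`, so on the CM curves with `j ≠ 0`,
odd good primes `p, q` with `#E(𝔽_p) = q` have `#E(𝔽_q) = p` or `2 q + 2 - p`; hence there is no
aliquot cycle of length three or more. Point counts are `p + 1 - a_p`.
-/

set_option autoImplicit false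
set_option linter.style.haveILetI false

noncomputable section

open WeierstrassCurve WeierstrassCurve.Affine FA.EC FA.Frob FA.RT
open scoped WeierstrassCurve.Affine

namespace FA.Summary

/-- **The successor of a step.** -/
theorem exceptional_aliquot_step (E : WeierstrassCurve ℚ) [E.IsElliptic] {d : ℤ}
    (hd : Squarefree d) (hd1 : d ≠ 1) (hd3 : d ≠ -3)
    (h : ∀ l : ℕ, ∀ [Fact l.Prime],
      (∃ C : VariableChange ℚ_[l],
        HasGoodReduction ℤ_[l] (C • E.map (algebraMap ℚ ℚ_[l]))) →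
      ¬ IsSquare (d : ZMod l) → E.LFunction l = 0)
    (p q : ℕ) [Fact p.Prime] [Fact q.Prime] (hp2 : p ≠ 2) (hq2 : q ≠ 2)
    (hp : ∃ C : VariableChange ℚ_[p],
      HasGoodReduction ℤ_[p] (C • E.map (algebraMap ℚ ℚ_[p])))
    (hq : ∃ C : VariableChange ℚ_[q],
      HasGoodReduction ℤ_[q] (C • E.map (algebraMap ℚ ℚ_[q])))
    (hpq : (q : ℤ) = p + 1 - E.LFunction p) :
    (q : ℤ) + 1 - E.LFunction q = p ∨ (q : ℤ) + 1 - E.LFunction q = 2 * q + 2 - p := by
  have hpp : p.Prime := Fact.out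
  have hqq : q.Prime := Fact.out
  have hpo : Odd (p : ℤ) := (Int.odd_coe_nat p).mpr (hpp.odd_of_ne_two hp2)
  have hqo : Odd (q : ℤ) := (Int.odd_coe_nat q).mpr (hqq.odd_of_ne_two hq2)
  have ha : Odd (E.LFunction p) := by
    rw [show E.LFunction p = p + 1 - q by linarith]
    exact (hpo.add_odd odd_one).sub_odd hqo
  have ha0 : E.LFunction p ≠ 0 := fun e => by rw [e] at ha; exact absurd ha (by decide)
  obtain ⟨hneg, b, hb, hnorm⟩ := exceptional_normEquation E hd hd1 h p hp ha0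
  rw [abs_of_neg hneg] at hnorm
  have h8 := FA.ReducedGroups.emod_eight_of_norm ha hpo hnorm
  have hD : 3 < -d := by omega
  have hq' : 4 * (q : ℤ) = (E.LFunction p - 2) ^ 2 + -d * b ^ 2 := by
    linear_combination 4 * hpq + hnorm
  have hbq : ((b : ℤ) : ZMod q) ≠ 0 := fun e => by
    rw [ZMod.intCast_zmod_eq_zero_iff_dvd] at e
    obtain ⟨c, rfl⟩ := e
    have hc : 1 ≤ c ^ 2 := by
      have : 0 < c ^ 2 := by
        have : c ≠ 0 := fun e => hb (by rw [e, mul_zero])
        positivity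
      omega
    have h2 : (2 : ℤ) ≤ q := by exact_mod_cast hqq.two_le
    have h11 : 11 * (q : ℤ) ^ 2 ≤ -d * ((q : ℤ) * c) ^ 2 := by
      rw [mul_pow]
      exact mul_le_mul (by omega) (le_mul_of_one_le_right (sq_nonneg _) hc) (sq_nonneg _) (by omega)
    nlinarith [sq_nonneg (E.LFunction p - 2)]
  have hsq : IsSquare (d : ZMod q) := by
    refine ⟨((E.LFunction p - 2 : ℤ) : ZMod q) / (b : ZMod q), ?_⟩
    have e := congrArg (Int.cast : ℤ → ZMod q) hq'
    push_cast at e ⊢
    rw [ZMod.natCast_self, mul_zero] at e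
    field_simp
    linear_combination e
  obtain ⟨b', -, hnorm'⟩ := (exceptional_deuring E hd hd1 h q hq2 hq).2.2 hsq
  rw [abs_of_neg hneg] at hnorm'
  have hsquares := FA.ReducedGroups.sq_eq_of_norm (Nat.prime_iff_prime_int.mp hqq)
    (by exact_mod_cast hqq.pos) h8 hD hnorm' hq'
  rcases sq_eq_sq_iff_eq_or_eq_neg.mp hsquares with e | e
  · exact Or.inr (by rw [e]; linarith)
  · exact Or.inl (by rw [e]; linarith)

/-- **No aliquot cycle of length three or more**: a periodic sequence of odd good primes, each the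
number of points modulo its predecessor, has period dividing two. -/
theorem exceptional_no_long_aliquot_cycle (E : WeierstrassCurve ℚ) [E.IsElliptic] {d : ℤ}
    (hd : Squarefree d) (hd1 : d ≠ 1) (hd3 : d ≠ -3)
    (h : ∀ l : ℕ, ∀ [Fact l.Prime],
      (∃ C : VariableChange ℚ_[l],
        HasGoodReduction ℤ_[l] (C • E.map (algebraMap ℚ ℚ_[l]))) →
      ¬ IsSquare (d : ZMod l) → E.LFunction l = 0)
    (f : ℕ → ℕ) [hf : ∀ i, Fact (f i).Prime] {n : ℕ} (hn : 0 < n) (hper : ∀ i, f (i + n) = f i)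
    (h2 : ∀ i, f i ≠ 2)
    (hgood : ∀ i, ∃ C : VariableChange ℚ_[f i],
      HasGoodReduction ℤ_[f i] (C • E.map (algebraMap ℚ ℚ_[f i])))
    (hnext : ∀ i, (f (i + 1) : ℤ) = f i + 1 - E.LFunction (f i)) :
    ∀ i, f (i + 2) = f i := by
  refine fun i => Int.natCast_inj.mp (FA.ReducedGroups.period_two (f := fun i => (f i : ℤ)) hn
    (fun i => by rw [hper i]) (fun i j e => ?_) (fun i => ?_) i)
  · rw [hnext, hnext, Int.natCast_inj.mp e]
  · rw [hnext (i + 1)]
    exact exceptional_aliquot_step E hd hd1 hd3 h (f i) (f (i + 1)) (h2 i) (h2 _) (hgood i)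
      (hgood _) (hnext i)

/-- The curves with `j = -15³, 255³, -32³, -96³, -960³, -5280³, -640320³`: complex multiplication
by `ℚ(√d)`, `d = -7, -11, -19, -43, -67, -163`. -/
theorem cm_no_long_aliquot_cycle (E : WeierstrassCurve ℚ) [E.IsElliptic] {d : ℤ}
    (hd : (E.j, d) ∈ ({(-3375, -7), (16581375, -7), (-32768, -11), (-884736, -19),
      (-884736000, -43), (-147197952000, -67), (-262537412640768000, -163)} : Finset (ℚ × ℤ)))
    (f : ℕ → ℕ) [hf : ∀ i, Fact (f i).Prime] {n : ℕ} (hn : 0 < n) (hper : ∀ i, f (i + n) = f i)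
    (h2 : ∀ i, f i ≠ 2)
    (hgood : ∀ i, ∃ C : VariableChange ℚ_[f i],
      HasGoodReduction ℤ_[f i] (C • E.map (algebraMap ℚ ℚ_[f i])))
    (hnext : ∀ i, (f (i + 1) : ℤ) = f i + 1 - E.LFunction (f i)) :
    ∀ i, f (i + 2) = f i := by
  simp only [Finset.mem_insert, Finset.mem_singleton, Prod.mk.injEq] at hd
  suffices hall : Squarefree d.natAbs ∧ d ≠ 1 ∧ d ≠ -3 ∧
      ∀ l : ℕ, l.Prime → ¬ IsSquare (d : ZMod l) → E.LFunction l = 0 from
    exceptional_no_long_aliquot_cycle E (Int.squarefree_natAbs.mp hall.1) hall.2.1 hall.2.2.1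
      (fun l hl _ hns => hall.2.2.2 l hl.out hns) f hn hper h2 hgood hnext
  rcases hd with ⟨hj, rfl⟩ | ⟨hj, rfl⟩ | ⟨hj, rfl⟩ | ⟨hj, rfl⟩ | ⟨hj, rfl⟩ | ⟨hj, rfl⟩ | ⟨hj, rfl⟩ <;>
    exact ⟨(Nat.prime_iff.mp (by norm_num)).squarefree, by decide, by decide,
      fun l hl hns => lFunction_eq_zero_of_inert E (by simp [hj]) hl hns⟩

end FA.Summary

end
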