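import Fermat.Agent.Root.SummaryAlmostAllDisjointField

/-!
# Almost no curve has torsion over the maximal abelian extension of a given number field

For a finite extension `K` of `ℚ` inside the algebraic closure, almost every `y² = x³ + A x + B` has
no torsion point other than zero fixed by the commutators of the automorphisms fixing `K`, so none
over `K^ab`, and no finite cyclic subgroup other than zero stable under them. At odd primes the
automorphisms fixing `K` give both elementary matrices; at two a transvection in inertia fixing the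
normal closure of `K` and one of its conjugates do.
-/

set_option autoImplicit false
set_option linter.style.haveILetI false

noncomputable section

open Filter Topology WeierstrassCurve WeierstrassCurve.Affine FA.EC FA.Frob FA.RT FA.RT.Tate
  FA.AlmostAll
open FA.TW (rootsFix mem_rootsFix)
open scoped WeierstrassCurve.Affine

local notation "Qb" => AlgebraicClosure ℚ
local notation "GQ" => AlgebraicClosure ℚ ≃ₐ[ℚ] AlgebraicClosure ℚ

namespace FA.AlmostAll

/-- A generic pair has no nonzero point of prime order which a normal subgroup with transvections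
commutes on, or fixes up to multiples. -/
theorem eq_zero_of_generic {H : Subgroup GQ} [H.Normal] {F : Finset ℕ}
    (hH : ∀ q : ℕ, q.Prime → q ∉ F → ∀ A : ValuationSubring Qb, A.LiesOverPrime q →
      A.inertiaSubgroupIn ℚ ≤ H)
    {AB : ℤ × ℤ} [(ratCurve (shortInt AB)).IsElliptic] (hΔ : (shortInt AB).Δ ≠ 0)
    (h : Generic AB)
    (hF : ∀ l : ℕ, ∃ q : ℕ, q.Prime ∧ q ≠ l ∧ q ∉ F ∧ (q : ℤ) ∣ (shortInt AB).Δ ∧
      ¬ (q : ℤ) ∣ (shortInt AB).c₄ ∧ padicValInt q (shortInt AB).Δ = 1)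
    {p : ℕ} [hp : Fact p.Prime] {x : Pts (shortInt AB)} (hx : p • x = 0)
    (hst : (∀ a ∈ H, ∀ b ∈ H, a • b • x = b • a • x) ∨ ∀ a ∈ H, ∃ k : ℕ, a • x = k • x) :
    x = 0 := by
  obtain ⟨r, hS⟩ := exists_setting h hΔ
  rcases eq_or_ne p 2 with rfl | hp2
  · obtain ⟨B, σ, hσH, hsq, hne⟩ := exists_transvection_mem hH hΔ hF 2
    refine FA.Disjoint.eq_zero_of_two (h.1 2) hσH hsq hne hx (hst.imp_right fun hk a ha => ?_)
    obtain ⟨k, hk⟩ := hk a ha
    rcases Nat.even_or_odd k with ⟨j, rfl⟩ | ⟨j, rfl⟩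
    · rw [← two_mul, mul_comm, mul_nsmul', hx, nsmul_zero] at hk
      have hx0 : x = 0 := MulAction.injective a (hk.trans (FA.Local.gal_smul_zero _ a).symm)
      rw [hx0, FA.Local.gal_smul_zero]
    · rw [hk, add_nsmul, mul_comm, mul_nsmul', hx, nsmul_zero, zero_add, one_nsmul]
  · have hroots : ∀ g ∈ rootsFix p 1, ∃ k ∈ H, ∀ y : Pts (shortInt AB), p • y = 0 →
        k • y = g • y := fun g hg =>
      exists_mem_of_generic hH hΔ h hF (hp.out.odd_of_ne_two hp2) g fun μ hμ =>
        mem_rootsFix.mp hg μ (by rw [pow_one]; exact hμ)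
    rcases hst with hc | hk
    · exact FA.Disjoint.eq_zero_of_commute_roots hp2 (hS.reachAll p) hroots hx hc
    · refine FA.Disjoint.eq_zero_of_stable_roots hp2 (hS.reachAll p) hx fun g hg => ?_
      obtain ⟨a, ha, ha'⟩ := hroots g hg
      obtain ⟨k, hk⟩ := hk a ha
      exact ⟨k, by rw [← ha' x hx, hk]⟩

end FA.AlmostAll

namespace FA.Summary

open FA.AlmostAll

/-- **Almost no elliptic curve has torsion over the maximal abelian extension of a given number
field**: no nonzero torsion point is fixed by all commutators of the automorphisms fixing `K`. -/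
theorem almostAll_torsionFree_abelianOverField [inst : DecidableEq (AlgebraicClosure ℚ)]
    (K : IntermediateField ℚ (AlgebraicClosure ℚ)) [FiniteDimensional ℚ K] :
    Tendsto (fun XY : ℕ × ℕ => (Set.ncard {AB : ℤ × ℤ | |AB.1| ≤ XY.1 ∧ |AB.2| ≤ XY.2 ∧
        4 * AB.1 ^ 3 + 27 * AB.2 ^ 2 ≠ 0 ∧
        ∃ P : ((⟨0, 0, 0, (AB.1 : ℚ), (AB.2 : ℚ)⟩ :
            WeierstrassCurve ℚ).toAffine⁄(AlgebraicClosure ℚ)).Point,
          P ≠ 0 ∧ IsOfFinAddOrder P ∧ ∀ σ ∈ K.fixingSubgroup, ∀ τ ∈ K.fixingSubgroup,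
            Affine.Point.map (σ * τ * σ⁻¹ * τ⁻¹).toAlgHom P = P} : ℝ) /
      ((2 * XY.1 + 1) * (2 * XY.2 + 1))) atTop (𝓝 0) := by
  obtain rfl : inst = instDecEqAlgebraicClosureRat := Subsingleton.elim _ _
  obtain ⟨H, F, hn, hHK, hH⟩ := exists_normal_inertia K
  refine tendsto_of_generic_avoid F _ fun AB _ _ h hF ⟨P, hP0, hP, hcomm⟩ => ?_
  have hW := shortInt_isIntegralModelOf AB
  obtain ⟨e, he⟩ := FA.Root.exists_equiv_of_model hW
  have hx : IsOfFinAddOrder (e.symm P) := e.symm.toAddMonoidHom.isOfFinAddOrder hP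
  have hcx : ∀ σ ∈ H, ∀ τ ∈ H, σ • τ • e.symm P = τ • σ • e.symm P := fun σ hσ τ hτ => by
    have h2 : (σ⁻¹ * τ⁻¹ * σ * τ) • e.symm P = e.symm P := e.injective (by
      rw [he, e.apply_symm_apply]
      simpa using hcomm σ⁻¹ (inv_mem (hHK hσ)) τ⁻¹ (inv_mem (hHK hτ)))
    calc σ • τ • e.symm P = (τ * σ * (σ⁻¹ * τ⁻¹ * σ * τ)) • e.symm P := by
          rw [← mul_smul]; congr 1; group
      _ = τ • σ • e.symm P := by rw [mul_smul, h2, mul_smul]
  have hx1 : addOrderOf (e.symm P) ≠ 1 := fun h => hP0 (e.symm.injective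
    ((AddMonoid.addOrderOf_eq_one_iff.mp h).trans (map_zero e.symm).symm))
  obtain ⟨p, hp, hpd⟩ := Nat.exists_prime_and_dvd hx1
  obtain ⟨k, hk⟩ := exists_multiple_prime hx hpd
  haveI := Fact.mk hp
  have h0 := eq_zero_of_generic hH (Δ_ne_zero_of_model hW) h hF
    (show p • (k • e.symm P) = 0 from hk ▸ addOrderOf_nsmul_eq_zero _) (Or.inl fun σ hσ τ hτ => by
      simp only [FA.RT.Tate.gal_smul_nsmul, hcx σ hσ τ hτ])
  exact hp.one_lt.ne' (by rw [← hk, h0, addOrderOf_zero])

/-- **Almost no elliptic curve has a cyclic isogeny over a given number field**: no nonzero finite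
cyclic subgroup is stable under the automorphisms fixing `K`. -/
theorem almostAll_noCyclicSubgroup_overField [inst : DecidableEq (AlgebraicClosure ℚ)]
    (K : IntermediateField ℚ (AlgebraicClosure ℚ)) [FiniteDimensional ℚ K] :
    Tendsto (fun XY : ℕ × ℕ => (Set.ncard {AB : ℤ × ℤ | |AB.1| ≤ XY.1 ∧ |AB.2| ≤ XY.2 ∧
        4 * AB.1 ^ 3 + 27 * AB.2 ^ 2 ≠ 0 ∧
        ∃ G : AddSubgroup ((⟨0, 0, 0, (AB.1 : ℚ), (AB.2 : ℚ)⟩ :
            WeierstrassCurve ℚ).toAffine⁄(AlgebraicClosure ℚ)).Point,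
          Finite G ∧ IsAddCyclic G ∧ G ≠ ⊥ ∧
          ∀ σ ∈ K.fixingSubgroup, ∀ P ∈ G, Affine.Point.map σ.toAlgHom P ∈ G} : ℝ) /
      ((2 * XY.1 + 1) * (2 * XY.2 + 1))) atTop (𝓝 0) := by
  classical
  obtain rfl : inst = instDecEqAlgebraicClosureRat := Subsingleton.elim _ _
  obtain ⟨H, F, hn, hHK, hH⟩ := exists_normal_inertia K
  refine tendsto_of_generic_avoid F _ fun AB _ _ h hF ⟨G, hG, hcyc, hbot, hst⟩ => ?_
  have hW := shortInt_isIntegralModelOf AB
  obtain ⟨e, he⟩ := FA.Root.exists_equiv_of_model hW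
  obtain ⟨p, hp, J, hJ, hJst⟩ := exists_prime_stable (fun σ : GQ =>
      if σ ∈ K.fixingSubgroup then Affine.Point.map (W' := (shortRat AB).toAffine) σ.toAlgHom
      else AddMonoidHom.id _) G hcyc hbot fun σ P hP => by
    split_ifs with hσ
    exacts [hst σ hσ P hP, hP]
  haveI := Fact.mk hp
  haveI : Finite J := Nat.finite_of_card_ne_zero (by rw [hJ]; exact hp.ne_zero)
  obtain ⟨⟨P, hP⟩, hP0⟩ : ∃ P : J, P ≠ 0 := by
    haveI : Nontrivial J := Finite.one_lt_card_iff_nontrivial.mp (by rw [hJ]; exact hp.one_lt)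
    exact exists_ne 0
  have hpP : p • (⟨P, hP⟩ : J) = 0 := hJ ▸ card_nsmul_eq_zero'
  refine hP0 (Subtype.ext ?_)
  suffices e.symm P = 0 from e.symm.injective (this.trans (map_zero e.symm).symm)
  refine eq_zero_of_generic hH (Δ_ne_zero_of_model hW) h hF
    (by rw [← map_nsmul, show p • P = 0 from congrArg Subtype.val hpP, map_zero])
    (Or.inr fun a ha => ?_)
  have hmem := hJst a P hP
  rw [if_pos (hHK ha)] at hmem
  obtain ⟨j, hj⟩ := (mem_multiples_iff_mem_zmultiples (x := (⟨P, hP⟩ : J))).mpr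
    (mem_zmultiples_of_prime_card (g' := ⟨_, hmem⟩) hJ hP0)
  refine ⟨j, e.injective ?_⟩
  rw [he, e.apply_symm_apply, map_nsmul, e.apply_symm_apply]
  exact (congrArg Subtype.val hj).symm

end FA.Summary

end
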