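import Fermat.Agent.Root.SummaryAlmostAllSerreCurves
import Fermat.Agent.SerreCurve.Disjoint

/-!
# The torsion of almost every curve is disjoint from a given number field

For a finite extension `K` of `ℚ` inside the algebraic closure and almost every
`y² = x³ + A x + B`, at every odd `N` at once: an element of Galois which agrees on the `N`-th roots
of unity with one fixing `K` acts on `E[N]` as one fixing `K`. So `K(E[N]) / K` has the whole of
`Aut E[N]` as Galois group whenever `K` meets `ℚ(ζ_N)` only in `ℚ`, and almost no curve acquires an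
isogeny of odd prime degree over `K`. The transvection primes are taken unramified in the normal
closure of `K`, so that their inertia fixes it.
-/

set_option autoImplicit false
set_option linter.style.haveILetI false

noncomputable section

open Filter Topology WeierstrassCurve WeierstrassCurve.Affine FA.EC FA.Frob FA.RT FA.RT.Tate
  FA.AlmostAll
open FA.TW (rootsFix mem_rootsFix)
open scoped WeierstrassCurve.Affine

local notation "Qb" => AlgebraicClosure ℚ
local notation "GQ" => AlgebraicClosure ℚ ≃ₐ[ℚ] AlgebraicClosure ℚ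

namespace FA.AlmostAll

/-- A normal subgroup fixing `K` containing inertia outside a finite set of primes. -/
theorem exists_normal_inertia (K : IntermediateField ℚ Qb) [FiniteDimensional ℚ K] :
    ∃ (H : Subgroup GQ) (F : Finset ℕ), H.Normal ∧ H ≤ K.fixingSubgroup ∧
      ∀ q : ℕ, q.Prime → q ∉ F → ∀ A : ValuationSubring Qb, A.LiesOverPrime q →
        A.inertiaSubgroupIn ℚ ≤ H := by
  set L := IntermediateField.normalClosure ℚ K Qb
  haveI : IsGalois ℚ Qb := FA.EC.isGalois_algebraicClosure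
  haveI : Normal ℚ L := normalClosure.normal ℚ K Qb
  haveI : IsGalois ℚ L := IsGalois.mk
  obtain ⟨F, hF⟩ := FA.KroneckerWeber.exists_unramified_set L
  refine ⟨L.fixingSubgroup, F, ?_,
    IntermediateField.fixingSubgroup_le (IntermediateField.le_normalClosure K), hF⟩
  rw [← IntermediateField.restrictNormalHom_ker L]
  infer_instance

/-- Transvection primes at which `H` contains inertia give transvections in `H`. -/
theorem exists_transvection_mem {H : Subgroup GQ} {F : Finset ℕ}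
    (hH : ∀ q : ℕ, q.Prime → q ∉ F → ∀ A : ValuationSubring Qb, A.LiesOverPrime q →
      A.inertiaSubgroupIn ℚ ≤ H)
    {AB : ℤ × ℤ} [(ratCurve (shortInt AB)).IsElliptic] (hΔ : (shortInt AB).Δ ≠ 0)
    (hF : ∀ l : ℕ, ∃ q : ℕ, q.Prime ∧ q ≠ l ∧ q ∉ F ∧ (q : ℤ) ∣ (shortInt AB).Δ ∧
      ¬ (q : ℤ) ∣ (shortInt AB).c₄ ∧ padicValInt q (shortInt AB).Δ = 1)
    (l : ℕ) [hl : Fact l.Prime] :
    ∃ (B : FA.RT.Tate.TateBasis l (shortInt AB)) (σ : GQ), σ ∈ H ∧
      (B.rep σ - 1) * (B.rep σ - 1) = 0 ∧ (B.rep σ).map PadicInt.toZMod ≠ 1 := by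
  obtain ⟨q, hq, hql, hqF, hd, hc, hv⟩ := hF l
  obtain ⟨A, hA⟩ := FA.Deform.exists_liesOverPrime hq
  have hm : MultAt (shortInt AB) q A := ⟨hΔ, hq, hd, hc, hA⟩
  obtain ⟨σ, hσ, hne⟩ := FA.PadicImage.exists_inertia_curveRep_ne_one (p := l) hm
    (by rw [hv]; exact hl.out.not_dvd_one)
  obtain ⟨B⟩ := FA.RT.Tate.exists_tateBasis (p := l) (shortInt AB)
  exact ⟨B, σ, hH q hq hqF A hA hσ, FA.Two.rep_inertia_mult B hm hql hσ hσ,
    by rw [FA.PadicImage.rep_map_toZMod]; exact hne⟩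

/-- A generic pair with transvection primes at which `H` contains inertia realises in `H` what
fixes the roots of unity of odd order. -/
theorem exists_mem_of_generic {H : Subgroup GQ} [H.Normal] {F : Finset ℕ}
    (hH : ∀ q : ℕ, q.Prime → q ∉ F → ∀ A : ValuationSubring Qb, A.LiesOverPrime q →
      A.inertiaSubgroupIn ℚ ≤ H)
    {AB : ℤ × ℤ} [(ratCurve (shortInt AB)).IsElliptic] (hΔ : (shortInt AB).Δ ≠ 0)
    (h : Generic AB)
    (hF : ∀ l : ℕ, ∃ q : ℕ, q.Prime ∧ q ≠ l ∧ q ∉ F ∧ (q : ℤ) ∣ (shortInt AB).Δ ∧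
      ¬ (q : ℤ) ∣ (shortInt AB).c₄ ∧ padicValInt q (shortInt AB).Δ = 1)
    {N : ℕ} (hN : Odd N) (g : GQ) (hg : ∀ μ : Qb, μ ^ N = 1 → g μ = μ) :
    ∃ k ∈ H, ∀ x : Pts (shortInt AB), N • x = 0 → k • x = g • x := by
  obtain ⟨r, hS⟩ := exists_setting h hΔ
  refine FA.Disjoint.exists_mem_of_roots (fun l _ => hS.reachAll l) (fun l _ => h.1 l)
    (fun l _ => exists_transvection_mem hH hΔ hF l) hN g hg

/-- The same for the points of the rational equation. -/
theorem exists_map_eq_of_generic {K : IntermediateField ℚ Qb} {H : Subgroup GQ} [H.Normal]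
    (hHK : H ≤ K.fixingSubgroup) {F : Finset ℕ}
    (hH : ∀ q : ℕ, q.Prime → q ∉ F → ∀ A : ValuationSubring Qb, A.LiesOverPrime q →
      A.inertiaSubgroupIn ℚ ≤ H)
    {AB : ℤ × ℤ} [(shortRat AB).IsElliptic] [(ratCurve (shortInt AB)).IsElliptic]
    (h : Generic AB)
    (hF : ∀ l : ℕ, ∃ q : ℕ, q.Prime ∧ q ≠ l ∧ q ∉ F ∧ (q : ℤ) ∣ (shortInt AB).Δ ∧
      ¬ (q : ℤ) ∣ (shortInt AB).c₄ ∧ padicValInt q (shortInt AB).Δ = 1)
    {N : ℕ} (hN : Odd N) {σ : GQ} (hσ : σ ∈ K.fixingSubgroup) {τ : GQ}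
    (hτ : ∀ μ : Qb, μ ^ N = 1 → τ μ = σ μ) :
    ∃ k ∈ K.fixingSubgroup, ∀ P : ((shortRat AB).toAffine⁄Qb).Point, N • P = 0 →
      Affine.Point.map k.toAlgHom P = Affine.Point.map τ.toAlgHom P := by
  have hW := shortInt_isIntegralModelOf AB
  obtain ⟨e, he⟩ := FA.Root.exists_equiv_of_model hW
  obtain ⟨k, hk, hkx⟩ := exists_mem_of_generic hH (Δ_ne_zero_of_model hW) h hF hN (σ⁻¹ * τ)
    fun μ hμ => by rw [AlgEquiv.mul_apply, hτ μ hμ, AlgEquiv.aut_inv, AlgEquiv.symm_apply_apply]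
  refine ⟨σ * k, mul_mem hσ (hHK hk), fun P hP => ?_⟩
  have hx : N • e.symm P = 0 := by rw [← map_nsmul, hP, map_zero]
  conv_lhs => rw [← e.apply_symm_apply P, ← he, mul_smul, hkx _ hx, mul_smul, smul_inv_smul]
  rw [he, e.apply_symm_apply]

end FA.AlmostAll

namespace FA.Summary

open FA.AlmostAll

/-- **The torsion of almost every elliptic curve is disjoint from a given number field**: at every
odd `N` at once, whatever agrees on the `N`-th roots of unity with an element fixing `K` acts on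
`E[N]` as an element fixing `K`. -/
theorem almostAll_disjointField [inst : DecidableEq (AlgebraicClosure ℚ)]
    (K : IntermediateField ℚ (AlgebraicClosure ℚ)) [FiniteDimensional ℚ K] :
    Tendsto (fun XY : ℕ × ℕ => (Set.ncard {AB : ℤ × ℤ | |AB.1| ≤ XY.1 ∧ |AB.2| ≤ XY.2 ∧
        4 * AB.1 ^ 3 + 27 * AB.2 ^ 2 ≠ 0 ∧
        ∃ N : ℕ, Odd N ∧ ∃ σ ∈ K.fixingSubgroup, ∃ τ : GQ,
          (∀ μ : AlgebraicClosure ℚ, μ ^ N = 1 → τ μ = σ μ) ∧
          ¬ ∃ k ∈ K.fixingSubgroup, ∀ P : ((⟨0, 0, 0, (AB.1 : ℚ), (AB.2 : ℚ)⟩ :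
              WeierstrassCurve ℚ).toAffine⁄(AlgebraicClosure ℚ)).Point, N • P = 0 →
            Affine.Point.map k.toAlgHom P = Affine.Point.map τ.toAlgHom P} : ℝ) /
      ((2 * XY.1 + 1) * (2 * XY.2 + 1))) atTop (𝓝 0) := by
  obtain rfl : inst = instDecEqAlgebraicClosureRat := Subsingleton.elim _ _
  obtain ⟨H, F, hN, hHK, hH⟩ := exists_normal_inertia K
  refine tendsto_of_generic_avoid F _ fun AB _ _ h hF ⟨N, hodd, σ, hσ, τ, hτ, hno⟩ => hno ?_
  exact exists_map_eq_of_generic hHK hH h hF hodd hσ hτ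

/-- **Almost every elliptic curve keeps the whole image over `K`**: for every odd `N` whose
cyclotomic field meets `K` only in `ℚ`, the elements fixing `K` induce every automorphism of
`E[N]`. -/
theorem almostAll_surjective_overField [inst : DecidableEq (AlgebraicClosure ℚ)]
    (K : IntermediateField ℚ (AlgebraicClosure ℚ)) [FiniteDimensional ℚ K] :
    Tendsto (fun XY : ℕ × ℕ => (Set.ncard {AB : ℤ × ℤ | |AB.1| ≤ XY.1 ∧ |AB.2| ≤ XY.2 ∧
        4 * AB.1 ^ 3 + 27 * AB.2 ^ 2 ≠ 0 ∧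
        ∃ N : ℕ, Odd N ∧
          (∀ τ : GQ, ∃ σ ∈ K.fixingSubgroup, ∀ μ : AlgebraicClosure ℚ, μ ^ N = 1 → τ μ = σ μ) ∧
          ¬ ∀ φ : Submodule.torsionBy ℤ ((⟨0, 0, 0, (AB.1 : ℚ), (AB.2 : ℚ)⟩ :
                WeierstrassCurve ℚ).toAffine⁄(AlgebraicClosure ℚ)).Point (N : ℤ) ≃+
              Submodule.torsionBy ℤ ((⟨0, 0, 0, (AB.1 : ℚ), (AB.2 : ℚ)⟩ :
                WeierstrassCurve ℚ).toAffine⁄(AlgebraicClosure ℚ)).Point (N : ℤ),
            ∃ k ∈ K.fixingSubgroup, ∀ P, Affine.Point.map k.toAlgHom P.1 = (φ P).1} : ℝ) /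
      ((2 * XY.1 + 1) * (2 * XY.2 + 1))) atTop (𝓝 0) := by
  obtain rfl : inst = instDecEqAlgebraicClosureRat := Subsingleton.elim _ _
  obtain ⟨H, F, hn, hHK, hH⟩ := exists_normal_inertia K
  refine tendsto_of_generic_avoid F _ fun AB _ _ h hF ⟨N, hodd, hcyc, hno⟩ => hno fun φ => ?_
  have hW := shortInt_isIntegralModelOf AB
  obtain ⟨r, hS⟩ := exists_setting h (Δ_ne_zero_of_model hW)
  obtain ⟨τ, hτ⟩ := FA.Root.exists_map_eq_of_model hW N (fun ψ =>
    FA.SerreCurve.exists_smul_eq_of_odd hS hodd.pos.ne' (fun h2 =>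
      Nat.not_even_iff_odd.mpr hodd (even_iff_two_dvd.mpr h2)) ψ) φ
  obtain ⟨σ, hσ, hστ⟩ := hcyc τ
  obtain ⟨k, hk, hkP⟩ := exists_map_eq_of_generic hHK hH h hF hodd hσ hστ
  exact ⟨k, hk, fun P => (hkP P.1 (by
    rw [← natCast_zsmul]; exact (Submodule.mem_torsionBy_iff _ _).mp P.2)).trans (hτ P)⟩

/-- **Almost no elliptic curve acquires an isogeny of odd prime degree over a given number
field.** -/
theorem almostAll_noIsogeny_overField [inst : DecidableEq (AlgebraicClosure ℚ)]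
    (K : IntermediateField ℚ (AlgebraicClosure ℚ)) [FiniteDimensional ℚ K] :
    Tendsto (fun XY : ℕ × ℕ => (Set.ncard {AB : ℤ × ℤ | |AB.1| ≤ XY.1 ∧ |AB.2| ≤ XY.2 ∧
        4 * AB.1 ^ 3 + 27 * AB.2 ^ 2 ≠ 0 ∧
        ∃ p : ℕ, p.Prime ∧ p ≠ 2 ∧ ∃ G : AddSubgroup ((⟨0, 0, 0, (AB.1 : ℚ), (AB.2 : ℚ)⟩ :
            WeierstrassCurve ℚ).toAffine⁄(AlgebraicClosure ℚ)).Point, Nat.card G = p ∧
          ∀ σ ∈ K.fixingSubgroup, ∀ P ∈ G, Affine.Point.map σ.toAlgHom P ∈ G} : ℝ) /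
      ((2 * XY.1 + 1) * (2 * XY.2 + 1))) atTop (𝓝 0) := by
  obtain rfl : inst = instDecEqAlgebraicClosureRat := Subsingleton.elim _ _
  obtain ⟨H, F, hn, hHK, hH⟩ := exists_normal_inertia K
  refine tendsto_of_generic_avoid F _ fun AB _ _ h hF ⟨p, hp, hp2, G, hcard, hst⟩ => ?_
  haveI := Fact.mk hp
  have hW := shortInt_isIntegralModelOf AB
  obtain ⟨r, hS⟩ := exists_setting h (Δ_ne_zero_of_model hW)
  obtain ⟨e, he⟩ := FA.Root.exists_equiv_of_model hW
  haveI : Finite G := Nat.finite_of_card_ne_zero (by rw [hcard]; exact hp.ne_zero)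
  obtain ⟨⟨P, hP⟩, hP0⟩ : ∃ P : G, P ≠ 0 := by
    haveI : Nontrivial G := Finite.one_lt_card_iff_nontrivial.mp (by rw [hcard]; exact hp.one_lt)
    exact exists_ne 0
  have hpP : p • (⟨P, hP⟩ : G) = 0 := hcard ▸ card_nsmul_eq_zero'
  have hpx : p • e.symm P = 0 := by
    rw [← map_nsmul, show p • P = 0 from congrArg Subtype.val hpP, map_zero]
  refine hP0 (Subtype.ext ?_)
  suffices e.symm P = 0 from e.symm.injective (this.trans (map_zero e.symm).symm)
  refine FA.Disjoint.eq_zero_of_stable_roots hp2 (hS.reachAll p) hpx fun g hg => ?_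
  obtain ⟨k, hk, hkP⟩ := exists_map_eq_of_generic hHK hH h hF (hp.odd_of_ne_two hp2)
    (one_mem K.fixingSubgroup) (τ := g) fun μ hμ => mem_rootsFix.mp hg μ (by rw [pow_one]; exact hμ)
  have hmem := hst k hk P hP
  rw [hkP P (congrArg Subtype.val hpP)] at hmem
  obtain ⟨j, hj⟩ := (mem_multiples_iff_mem_zmultiples (x := (⟨P, hP⟩ : G))).mpr
    (mem_zmultiples_of_prime_card (g' := ⟨_, hmem⟩) hcard hP0)
  refine ⟨j, e.injective ?_⟩
  rw [he, e.apply_symm_apply, map_nsmul, e.apply_symm_apply]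
  exact (congrArg Subtype.val hj).symm

end FA.Summary

end
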