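import Fermat.Agent.Root.SummaryAlmostAllTorsionFree
import Fermat.Agent.Root.AdelicTransvection

/-!
# Almost all elliptic curves have the largest image at every level

For every `N`, even or odd, almost every `y² = x³ + A x + B` has all of `Aut E[N]` as image of
Galois: almost every one has an irreducible `E[p]` for each `p ∣ N`, seen on a Frobenius, and a prime
`q ∤ 6 N` with `q ∥ Δ` and `q ∤ c₄`, whose inertia gives transvections modulo every power of every
`p`. The latter classes modulo `q²` have proportion at least `1 / (2 q)`.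
-/

set_option autoImplicit false
set_option linter.style.haveILetI false

noncomputable section

open Filter Topology Matrix WeierstrassCurve WeierstrassCurve.Affine FA.EC FA.Frob FA.RT
open scoped WeierstrassCurve.Affine

local notation "Qb" => AlgebraicClosure ℚ
local notation "GQ" => AlgebraicClosure ℚ ≃ₐ[ℚ] AlgebraicClosure ℚ

namespace FA.AlmostAll

/-- The reduction of a class modulo `q²` to one modulo `q`. -/
abbrev redSq (q : ℕ) : ZMod (q ^ 2) →+* ZMod q := ZMod.castHom (dvd_pow_self q two_ne_zero) _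

/-- A class modulo `q²` nonzero modulo `q` is a unit. -/
theorem isUnit_of_redSq {q : ℕ} (hq : q.Prime) {z : ZMod (q ^ 2)} (h : redSq q z ≠ 0) :
    IsUnit z := by
  have : NeZero (q ^ 2) := ⟨pow_ne_zero 2 hq.ne_zero⟩
  rw [← ZMod.natCast_zmod_val z] at h ⊢
  rw [map_natCast, ne_eq, ZMod.natCast_eq_zero_iff] at h
  exact (ZMod.isUnit_iff_coprime _ _).mpr ((hq.coprime_iff_not_dvd.mpr h).symm.pow_right 2)

/-- The classes modulo `q²` of the pairs with `q ∥ 4 A³ + 27 B²` and `q ∤ A`. -/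
def transClasses (q : ℕ) : Finset (ZMod (q ^ 2) × ZMod (q ^ 2)) :=
  if h : q = 0 then ∅ else
    have : NeZero (q ^ 2) := ⟨pow_ne_zero 2 h⟩
    Finset.univ.filter fun ab =>
      redSq q (4 * ab.1 ^ 3 + 27 * ab.2 ^ 2) = 0 ∧ 4 * ab.1 ^ 3 + 27 * ab.2 ^ 2 ≠ 0 ∧
        redSq q ab.1 ≠ 0

/-- There are at least `q (q - 1)²` such classes: `(-3 s², 2 s³ + q e)` for units `s`, `e`. -/
theorem card_transClasses {q : ℕ} (hq : q.Prime) (h5 : 5 ≤ q) :
    1 / (2 * (q : ℝ)) * ((q ^ 2 : ℕ) : ℝ) ^ 2 ≤ (transClasses q).card := by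
  classical
  haveI := Fact.mk hq
  haveI : NeZero (q ^ 2) := ⟨pow_ne_zero 2 hq.ne_zero⟩
  rw [transClasses, dif_neg hq.ne_zero]
  have hne : ∀ k : ℕ, 0 < k → k < 5 → (k : ZMod q) ≠ 0 := fun k hk hk5 h => by
    have := Nat.le_of_dvd hk ((ZMod.natCast_eq_zero_iff k q).mp h)
    omega
  have h2 : (2 : ZMod q) ≠ 0 := by exact_mod_cast hne 2 (by norm_num) (by norm_num)
  have h3 : (3 : ZMod q) ≠ 0 := by exact_mod_cast hne 3 (by norm_num) (by norm_num)
  have hu : ∀ k : ℕ, (k : ZMod q) ≠ 0 → IsUnit (k : ZMod (q ^ 2)) := fun k hk =>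
    isUnit_of_redSq hq (by rwa [map_natCast])
  have hu2 : IsUnit (2 : ZMod (q ^ 2)) := by exact_mod_cast hu 2 (by exact_mod_cast h2)
  have hu3 : IsUnit (3 : ZMod (q ^ 2)) := by exact_mod_cast hu 3 (by exact_mod_cast h3)
  have hqq : (q : ZMod (q ^ 2)) * q = 0 := by rw [← Nat.cast_mul, ← sq, ZMod.natCast_self]
  let f : (ZMod (q ^ 2))ˣ × (ZMod q)ˣ → ZMod (q ^ 2) × ZMod (q ^ 2) := fun x =>
    (-3 * (x.1 : ZMod (q ^ 2)) ^ 2,
      2 * (x.1 : ZMod (q ^ 2)) ^ 3 + (q : ZMod (q ^ 2)) * ((x.2 : ZMod q).val : ZMod (q ^ 2)))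
  have hs0 : ∀ s : (ZMod (q ^ 2))ˣ, redSq q s ≠ 0 := fun s => (s.isUnit.map (redSq q)).ne_zero
  have hinj : Function.Injective f := by
    rintro ⟨s, e⟩ ⟨s', e'⟩ h
    obtain ⟨h1, h2'⟩ := Prod.mk.inj h
    have hsq : (s : ZMod (q ^ 2)) ^ 2 = (s' : ZMod (q ^ 2)) ^ 2 :=
      (hu3.neg).mul_left_cancel h1
    have hred : redSq q s = redSq q s' := by
      have a2 := congrArg (redSq q) hsq
      have a3 := congrArg (redSq q) h2'
      simp only [map_add, map_mul, map_pow, map_natCast, ZMod.natCast_self, zero_mul, add_zero,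
        map_ofNat] at a2 a3
      refine mul_left_cancel₀ (pow_ne_zero 2 (hs0 s)) ?_
      have a4 := mul_left_cancel₀ h2 a3
      linear_combination a4 - redSq q s' * a2
    have hss : (s : ZMod (q ^ 2)) = s' := by
      have hu' : IsUnit ((s : ZMod (q ^ 2)) + s') := isUnit_of_redSq hq (by
        rw [map_add, ← hred, ← two_mul]
        exact mul_ne_zero h2 (hs0 s))
      exact sub_eq_zero.mp (hu'.mul_left_eq_zero.mp (by linear_combination hsq))
    have he : (q : ZMod (q ^ 2)) * ((e : ZMod q).val : ZMod (q ^ 2)) =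
        (q : ZMod (q ^ 2)) * ((e' : ZMod q).val : ZMod (q ^ 2)) := by
      linear_combination h2' - 2 * congrArg (· ^ 3) hss
    rw [← Nat.cast_mul, ← Nat.cast_mul, ZMod.natCast_eq_natCast_iff', sq, Nat.mul_mod_mul_left,
      Nat.mul_mod_mul_left, Nat.mod_eq_of_lt (ZMod.val_lt _), Nat.mod_eq_of_lt (ZMod.val_lt _)]
      at he
    exact Prod.ext (Units.ext hss)
      (Units.ext (ZMod.val_injective q (Nat.eq_of_mul_eq_mul_left hq.pos he)))
  have hsub : Finset.univ.image f ⊆ Finset.univ.filter fun ab : ZMod (q ^ 2) × ZMod (q ^ 2) =>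
      redSq q (4 * ab.1 ^ 3 + 27 * ab.2 ^ 2) = 0 ∧ 4 * ab.1 ^ 3 + 27 * ab.2 ^ 2 ≠ 0 ∧
        redSq q ab.1 ≠ 0 := by
    intro ab hab
    obtain ⟨⟨s, e⟩, -, rfl⟩ := Finset.mem_image.mp hab
    have hval : 4 * (f (s, e)).1 ^ 3 + 27 * (f (s, e)).2 ^ 2 =
        (108 * (s : ZMod (q ^ 2)) ^ 3) *
          ((q : ZMod (q ^ 2)) * ((e : ZMod q).val : ZMod (q ^ 2))) := by
      show 4 * (-3 * (s : ZMod (q ^ 2)) ^ 2) ^ 3 + 27 * (2 * (s : ZMod (q ^ 2)) ^ 3 +
        (q : ZMod (q ^ 2)) * ((e : ZMod q).val : ZMod (q ^ 2))) ^ 2 = _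
      linear_combination 27 * ((e : ZMod q).val : ZMod (q ^ 2)) ^ 2 * hqq
    refine Finset.mem_filter.mpr ⟨Finset.mem_univ _, ?_, ?_, ?_⟩
    · rw [hval]
      simp
    · rw [hval]
      intro h0
      have h108 : IsUnit ((108 : ZMod (q ^ 2)) * (s : ZMod (q ^ 2)) ^ 3) := by
        rw [show (108 : ZMod (q ^ 2)) = 2 ^ 2 * 3 ^ 3 by norm_num]
        exact ((hu2.pow 2).mul (hu3.pow 3)).mul (s.isUnit.pow 3)
      have h1 := h108.mul_right_eq_zero.mp h0
      rw [← Nat.cast_mul, ZMod.natCast_eq_zero_iff, sq] at h1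
      have h2 := Nat.eq_zero_of_dvd_of_lt (Nat.dvd_of_mul_dvd_mul_left hq.pos h1) (ZMod.val_lt _)
      exact e.ne_zero ((ZMod.val_eq_zero _).mp h2)
    · show redSq q (-3 * (s : ZMod (q ^ 2)) ^ 2) ≠ 0
      rw [map_mul, map_neg, map_pow, map_ofNat]
      exact mul_ne_zero (neg_ne_zero.mpr h3) (pow_ne_zero 2 (hs0 s))
  have hle := Finset.card_le_card hsub
  rw [Finset.card_image_of_injective _ hinj, Finset.card_univ, Fintype.card_prod,
    ZMod.card_units_eq_totient, ZMod.card_units, Nat.totient_prime_pow hq two_pos] at hle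
  simp only [Nat.reduceSub, pow_one] at hle
  refine le_trans ?_ (Nat.cast_le.mpr hle)
  have h5' : (5 : ℝ) ≤ q := by exact_mod_cast h5
  rw [Nat.cast_mul, Nat.cast_mul, Nat.cast_pow, Nat.cast_sub hq.one_le, Nat.cast_one]
  field_simp
  nlinarith

/-- Some prime `q ≥ 5` outside `F` with `q ∥ Δ` and `q ∤ c₄`. -/
def HasTrans (F : Finset ℕ) (AB : ℤ × ℤ) : Prop :=
  ∃ q : ℕ, q.Prime ∧ q ∉ F ∧ (q : ℤ) ∣ (shortInt AB).Δ ∧ ¬ (q : ℤ) ∣ (shortInt AB).c₄ ∧
    padicValInt q (shortInt AB).Δ = 1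

/-- A class of `transClasses` gives `q ∥ Δ` and `q ∤ c₄`. -/
theorem trans_of_mem {q : ℕ} (hq : q.Prime) (h5 : 5 ≤ q) {AB : ℤ × ℤ}
    (h : ((AB.1 : ZMod (q ^ 2)), (AB.2 : ZMod (q ^ 2))) ∈ transClasses q) :
    (q : ℤ) ∣ (shortInt AB).Δ ∧ ¬ (q : ℤ) ∣ (shortInt AB).c₄ ∧
      padicValInt q (shortInt AB).Δ = 1 := by
  haveI := Fact.mk hq
  haveI : NeZero (q ^ 2) := ⟨pow_ne_zero 2 hq.ne_zero⟩
  rw [transClasses, dif_neg hq.ne_zero, Finset.mem_filter] at h
  obtain ⟨-, h1, h2, h3⟩ := h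
  simp only [map_add, map_mul, map_pow, map_ofNat, map_intCast] at h1 h3
  have hΔ : (shortInt AB).Δ = -16 * (4 * AB.1 ^ 3 + 27 * AB.2 ^ 2) := by
    simp only [WeierstrassCurve.Δ, WeierstrassCurve.b₂, WeierstrassCurve.b₄, WeierstrassCurve.b₆,
      WeierstrassCurve.b₈]
    ring
  have hc : (shortInt AB).c₄ = -48 * AB.1 := by
    simp only [WeierstrassCurve.c₄, WeierstrassCurve.b₂, WeierstrassCurve.b₄]
    ring
  have hd : (q : ℤ) ∣ 4 * AB.1 ^ 3 + 27 * AB.2 ^ 2 := by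
    rw [← ZMod.intCast_zmod_eq_zero_iff_dvd]
    push_cast
    exact h1
  have hq2 : ¬ (q : ℤ) ^ 2 ∣ 4 * AB.1 ^ 3 + 27 * AB.2 ^ 2 := fun hdvd => h2 (by
    rw [← Nat.cast_pow, ← ZMod.intCast_zmod_eq_zero_iff_dvd] at hdvd
    push_cast at hdvd
    exact hdvd)
  have h16 : ¬ (q : ℤ) ∣ -16 := fun hd => by
    have h := Int.natCast_dvd.mp hd
    have := Nat.le_of_dvd two_pos (hq.dvd_of_dvd_pow (show q ∣ 2 ^ 4 by simpa using h))
    omega
  have h48 : ¬ (q : ℤ) ∣ -48 := fun hd => by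
    have h : q ∣ 2 ^ 4 * 3 := by simpa using Int.natCast_dvd.mp hd
    rcases hq.dvd_mul.mp h with h | h
    · have := Nat.le_of_dvd two_pos (hq.dvd_of_dvd_pow h); omega
    · have := Nat.le_of_dvd three_pos h; omega
  refine ⟨hΔ ▸ dvd_mul_of_dvd_right hd _, fun hdvd => ?_, ?_⟩
  · rw [hc] at hdvd
    rcases (Nat.prime_iff_prime_int.mp hq).dvd_mul.mp hdvd with h | h
    · exact h48 h
    · exact h3 ((ZMod.intCast_zmod_eq_zero_iff_dvd _ _).mpr h)
  · have hne : 4 * AB.1 ^ 3 + 27 * AB.2 ^ 2 ≠ 0 := fun e => hq2 (e ▸ dvd_zero _)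
    rw [hΔ, padicValInt.mul (by norm_num) hne, padicValInt.eq_zero_of_not_dvd h16, zero_add]
    have h1 : 1 ≤ padicValInt q (4 * AB.1 ^ 3 + 27 * AB.2 ^ 2) :=
      ((padicValInt_dvd_iff 1 _).mp (by rwa [pow_one])).resolve_left hne
    have h2 : ¬ 2 ≤ padicValInt q (4 * AB.1 ^ 3 + 27 * AB.2 ^ 2) := fun h =>
      hq2 ((padicValInt_dvd_iff 2 _).mpr (Or.inr h))
    omega

/-- A class of `transClasses` gives such a prime. -/
theorem hasTrans_of_mem {F : Finset ℕ} {q : ℕ} (hq : q.Prime) (h5 : 5 ≤ q) (hF : q ∉ F)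
    {AB : ℤ × ℤ} (h : ((AB.1 : ZMod (q ^ 2)), (AB.2 : ZMod (q ^ 2))) ∈ transClasses q) :
    HasTrans F AB :=
  ⟨q, hq, hF, trans_of_mem hq h5 h⟩

/-- **Almost every pair has such a prime.** -/
theorem tendsto_not_hasTrans (F : Finset ℕ) [DecidablePred fun AB => ¬ HasTrans F AB] :
    Tendsto (fun XY : ℕ × ℕ => (((box XY.1 XY.2).filter fun AB => ¬ HasTrans F AB).card : ℝ) /
      ((2 * XY.1 + 1) * (2 * XY.2 + 1))) atTop (𝓝 0) := by
  classical
  refine tendsto_avoid_coprime (Q := {q | (q.Prime ∧ 5 ≤ q) ∧ q ∉ F}) (m := fun q => q ^ 2)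
    (fun i hi j hj hij => Nat.Coprime.pow 2 2 ((Nat.coprime_primes hi.1.1 hj.1.1).mpr hij))
    (fun q hq => pow_pos hq.1.1.pos 2) (w := fun n => 1 / (2 * (n : ℝ))) (fun n => by positivity)
    (fun h => not_summable_five_le ?_) transClasses (fun q hq => card_transClasses hq.1.1 hq.1.2) _
    fun AB hbad q hq hmem => hbad (hasTrans_of_mem hq.1.1 hq.1.2 hq.2 hmem)
  refine (h.mul_left 2).congr_atTop (eventually_atTop.mpr ⟨F.sup id + 1, fun n hn => ?_⟩)
  have hnF : n ∉ F := fun hmem => by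
    have := Finset.le_sup (f := id) hmem
    simp only [id_eq] at this
    omega
  simp only [Set.indicator_apply, Set.mem_ofPred_eq, hnF, not_false_eq_true, and_true]
  split_ifs
  · ring
  · rw [mul_zero]

/-- A Frobenius at `l` without eigenvalue. -/
def IrrFrob (l : ℕ) (AB : ℤ × ℤ) : Prop :=
  ∃ t d : ZMod l, (∀ x : ZMod l, x ^ 2 - t * x + d ≠ 0) ∧ HasFrob l t d AB

/-- Such a Frobenius makes the torsion irreducible. -/
theorem irreducible_of_irrFrob {l : ℕ} [Fact l.Prime] {AB : ℤ × ℤ}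
    [(ratCurve (shortInt AB)).IsElliptic] (h : IrrFrob l AB) :
    (shortInt AB).ModRepIsIrreducible l := by
  by_contra hred
  obtain ⟨v, hv, heig⟩ := FA.Ribet.exists_eigenvector (shortInt AB) hred
  obtain ⟨t, d, hroot, q, hq, hql, hgood, ht, hdq⟩ := h
  obtain ⟨A, hA⟩ := FA.Deform.exists_liesOverPrime hq
  obtain ⟨σ, hσ⟩ := FA.Deform.exists_isFrobeniusAt hq hA
  obtain ⟨e1, e2⟩ := FA.Ribet.curveRep_frobenius (p := l) hq hql hgood hA hσ
  obtain ⟨a, ha⟩ := heig σ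
  refine hroot a ?_
  have := FA.Ribet.sq_sub_trace_mul_add_det hv ha
  rw [e1.trans ht, e2.trans hdq] at this
  linear_combination this

/-- `x² + x + 1` has no root modulo two. -/
theorem two_no_root : ∀ x : ZMod 2, x ^ 2 - 1 * x + 1 ≠ 0 := by decide

/-- A class without root has good reduction with an odd trace. -/
theorem apOfModel_two_of_noncube {q : ℕ} [hq : Fact q.Prime] (h7 : 7 ≤ q) {AB : ℤ × ℤ}
    (h : ((AB.1 : ZMod q), (AB.2 : ZMod q)) ∈ noncubeClasses q) :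
    (shortInt AB).IsGoodPrimeFor q ∧ ((shortInt AB).apOfModel q : ZMod 2) = 1 := by
  classical
  have hroot := not_root_of_noncube h
  rw [noncubeClasses, dif_neg hq.out.ne_zero, Finset.mem_product, Finset.mem_singleton,
    Finset.mem_compl] at h
  have hA : (AB.1 : ZMod q) = 0 := h.1
  have hB : (AB.2 : ZMod q) ≠ 0 := fun e => hroot 0 (by rw [hA, e]; ring)
  have hsmall : ∀ k : ℕ, 0 < k → k < 7 → (k : ZMod q) ≠ 0 := fun k hk hk7 e => by
    have := Nat.le_of_dvd hk ((ZMod.natCast_eq_zero_iff k q).mp e)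
    omega
  have h2 : (2 : ZMod q) ≠ 0 := by exact_mod_cast hsmall 2 (by norm_num) (by norm_num)
  have h3 : (3 : ZMod q) ≠ 0 := by exact_mod_cast hsmall 3 (by norm_num) (by norm_num)
  have hgood : (shortInt AB).IsGoodPrimeFor q := fun hdvd => by
    have hz := (ZMod.intCast_zmod_eq_zero_iff_dvd _ q).mpr hdvd
    simp only [WeierstrassCurve.Δ, WeierstrassCurve.b₂, WeierstrassCurve.b₄, WeierstrassCurve.b₆,
      WeierstrassCurve.b₈] at hz
    push_cast at hz
    rw [hA] at hz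
    refine mul_ne_zero (mul_ne_zero (pow_ne_zero 4 h2) (pow_ne_zero 3 h3)) (pow_ne_zero 2 hB) ?_
    linear_combination -hz
  refine ⟨hgood, ?_⟩
  · have hred : (shortInt AB).reductionMod q =
        ⟨0, 0, 0, (AB.1 : ZMod q), (AB.2 : ZMod q)⟩ := by ext <;> simp [reductionMod]
    rw [FA.Ribet.apOfModel_eq_nsPts hred]
    set P := FA.Ribet.nsPts 0 0 0 (AB.1 : ZMod q) (AB.2 : ZMod q) with hP
    have hy : ∀ p ∈ P, p.2 ≠ 0 := fun p hp hy => hroot p.1 (by
      rw [hP, FA.Ribet.nsPts, Finset.mem_filter] at hp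
      have e := hp.2.1
      rw [hy] at e
      linear_combination -e)
    have heven : 2 ∣ P.card := by
      rw [Finset.card_eq_sum_card_image Prod.fst]
      refine Finset.dvd_sum fun x hx => ?_
      obtain ⟨⟨x', y⟩, hp, rfl⟩ := Finset.mem_image.mp hx
      have he : P.filter (fun p => p.1 = x') = {(x', y), (x', -y)} := by
        ext ⟨u, w⟩
        simp only [hP, FA.Ribet.nsPts, Finset.mem_filter, Finset.mem_univ, true_and,
          Finset.mem_insert, Finset.mem_singleton, Prod.mk.injEq] at hp ⊢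
        constructor
        · rintro ⟨⟨e1, -⟩, rfl⟩
          rcases sq_eq_sq_iff_eq_or_eq_neg.mp
            (show w ^ 2 = y ^ 2 by linear_combination e1 - hp.1) with e | e
          · exact Or.inl ⟨rfl, e⟩
          · exact Or.inr ⟨rfl, e⟩
        · have hy' : y ≠ 0 := hy (x', y) (Finset.mem_filter.mpr ⟨Finset.mem_univ _, hp⟩)
          rintro (⟨rfl, rfl⟩ | ⟨rfl, rfl⟩)
          · exact ⟨hp, rfl⟩
          · refine ⟨⟨by linear_combination hp.1, Or.inr fun e => hy' ?_⟩, rfl⟩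
            exact (mul_eq_zero.mp (show (2 : ZMod q) * y = 0 by linear_combination -e)).resolve_left h2
      rw [he, Finset.card_pair]
      intro e
      exact hy (x', y) hp ((mul_eq_zero.mp (show (2 : ZMod q) * y = 0 by
        linear_combination (Prod.mk.inj e).2)).resolve_left h2)
    obtain ⟨k, hk⟩ := heven
    obtain ⟨j, hj⟩ := hq.out.odd_of_ne_two (by omega)
    rw [hk, hj]
    push_cast
    rw [show (2 : ZMod 2) = 0 from rfl]
    ring

/-- A class without root has a Frobenius of order three on the `2`-torsion. -/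
theorem hasFrob_two_of_noncube {q : ℕ} [hq : Fact q.Prime] (h7 : 7 ≤ q) {AB : ℤ × ℤ}
    (h : ((AB.1 : ZMod q), (AB.2 : ZMod q)) ∈ noncubeClasses q) : HasFrob 2 1 1 AB := by
  obtain ⟨hgood, ha⟩ := apOfModel_two_of_noncube h7 h
  refine ⟨q, hq.out, by omega, hgood, ha, ?_⟩
  obtain ⟨j, hj⟩ := hq.out.odd_of_ne_two (by omega)
  rw [hj]
  push_cast
  rw [show (2 : ZMod 2) = 0 from rfl]
  ring

/-- **Almost every pair has an irreducible Frobenius at each prime.** -/
theorem tendsto_not_irrFrob {l : ℕ} (hl : l.Prime) [DecidablePred fun AB => ¬ IrrFrob l AB] :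
    Tendsto (fun XY : ℕ × ℕ => (((box XY.1 XY.2).filter fun AB => ¬ IrrFrob l AB).card : ℝ) /
      ((2 * XY.1 + 1) * (2 * XY.2 + 1))) atTop (𝓝 0) := by
  classical
  haveI := Fact.mk hl
  rcases eq_or_ne l 2 with rfl | hl2
  · refine tendsto_avoid (fun q hq => hq.1) not_summable_one_mod_three
      (show (0 : ℝ) < 1 / 2 by norm_num) noncubeClasses
      (fun q hq => card_noncubeClasses hq.1 hq.2.1 hq.2.2) _ fun AB hbad q hq hmem => ?_
    haveI := Fact.mk hq.1
    exact hbad ⟨1, 1, two_no_root, hasFrob_two_of_noncube hq.2.1 hmem⟩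
  · obtain ⟨d, hd0, hns⟩ := FA.CharPolys.exists_nonsquare_disc (p := l) hl2
    refine squeeze_zero (fun XY => by positivity) (fun XY => ?_) (tendsto_not_hasFrob hl hl2 1 hd0)
    refine div_le_div_of_nonneg_right (Nat.cast_le.mpr (Finset.card_le_card fun AB hAB => ?_))
      (by positivity)
    obtain ⟨hb, hno⟩ := Finset.mem_filter.mp hAB
    exact Finset.mem_filter.mpr ⟨hb, fun h => hno ⟨1, d, fun x e => hns ⟨2 * x - 1, by
      linear_combination -4 * e⟩, h⟩⟩

/-- An irreducible Frobenius at each prime of `N` and a transvection prime outside `N` give every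
automorphism of the `N`-torsion. -/
theorem exists_smul_eq_of_trans {AB : ℤ × ℤ} [(ratCurve (shortInt AB)).IsElliptic] {N : ℕ}
    (hN0 : N ≠ 0) {F : Finset ℕ} (hF : N.primeFactors ⊆ F)
    (hirr : ∀ l ∈ N.primeFactors, IrrFrob l AB) (h : HasTrans F AB)
    (φ : Submodule.torsionBy ℤ ((ratCurve (shortInt AB))⁄Qb).Point (N : ℤ) ≃+
      Submodule.torsionBy ℤ ((ratCurve (shortInt AB))⁄Qb).Point (N : ℤ)) :
    ∃ σ : GQ, ∀ x, σ • x.1 = (φ x).1 := by
  obtain ⟨q, hq, hqF, hd, hc, hv⟩ := h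
  refine FA.PadicImage.exists_smul_eq_adelic_of_transvection
    (fun e => ?_) hN0 (fun l hl _ => irreducible_of_irrFrob (hirr l hl)) (fun l hl => ?_) φ
  · rw [e] at hv
    simp at hv
  · exact ⟨q, hq, fun hqN => hqF (hF (Nat.mem_primeFactors.mpr ⟨hq, hqN, hN0⟩)), hd, hc, by
      rw [hv]; exact (Nat.prime_of_mem_primeFactors hl).not_dvd_one⟩

end FA.AlmostAll

namespace FA.Summary

open FA.AlmostAll

/-- **Duke's theorem at all levels supported on given primes**: outside one negligible set Galois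
induces every automorphism of `E[N]` for every `N ≠ 0` with prime factors in `S`. -/
theorem almostAll_everyLevels [inst : DecidableEq (AlgebraicClosure ℚ)] (S : Finset ℕ) :
    Tendsto (fun XY : ℕ × ℕ => (Set.ncard {AB : ℤ × ℤ | |AB.1| ≤ XY.1 ∧ |AB.2| ≤ XY.2 ∧
        4 * AB.1 ^ 3 + 27 * AB.2 ^ 2 ≠ 0 ∧
        ∃ N : ℕ, N ≠ 0 ∧ N.primeFactors ⊆ S ∧
        ¬ ∀ φ : Submodule.torsionBy ℤ ((⟨0, 0, 0, (AB.1 : ℚ), (AB.2 : ℚ)⟩ :
              WeierstrassCurve ℚ).toAffine⁄(AlgebraicClosure ℚ)).Point (N : ℤ) ≃+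
            Submodule.torsionBy ℤ ((⟨0, 0, 0, (AB.1 : ℚ), (AB.2 : ℚ)⟩ :
              WeierstrassCurve ℚ).toAffine⁄(AlgebraicClosure ℚ)).Point (N : ℤ),
          ∃ σ : AlgebraicClosure ℚ ≃ₐ[ℚ] AlgebraicClosure ℚ, ∀ P,
            Affine.Point.map σ.toAlgHom P.1 = (φ P).1} : ℝ) /
      ((2 * XY.1 + 1) * (2 * XY.2 + 1))) atTop (𝓝 0) := by
  classical
  obtain rfl : inst = instDecEqAlgebraicClosureRat := Subsingleton.elim _ _
  have hI := tendsto_exists (bad := fun (i : S.filter Nat.Prime) AB => ¬ IrrFrob (i : ℕ) AB)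
    fun i => tendsto_not_irrFrob (Finset.mem_filter.mp i.2).2
  have hsum := hI.add (tendsto_not_hasTrans S)
  rw [add_zero] at hsum
  refine squeeze_zero (fun XY => by positivity) (fun XY => ?_) hsum
  rw [← add_div, ← Nat.cast_add]
  refine div_le_div_of_nonneg_right (Nat.cast_le.mpr ?_) (by positivity)
  refine le_trans ?_ (Finset.card_union_le _ _)
  rw [← Set.ncard_coe_finset]
  refine Set.ncard_le_ncard (fun AB h => ?_) (Finset.finite_toSet _)
  obtain ⟨hX, hY, hne, N, hN, hNS, hns⟩ := h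
  have hb : AB ∈ box XY.1 XY.2 := by
    rw [box, Finset.mem_product, Finset.mem_Icc, Finset.mem_Icc]
    exact ⟨abs_le.mp hX, abs_le.mp hY⟩
  rw [Finset.mem_coe, Finset.mem_union, Finset.mem_filter, Finset.mem_filter]
  by_contra hc
  simp only [hb, true_and, not_or, not_exists, not_not] at hc
  haveI : (shortRat AB).IsElliptic := isElliptic_of_ne hne
  have hW := shortInt_isIntegralModelOf AB
  haveI := ratCurve_isElliptic_of_Δ (Δ_ne_zero_of_model hW)
  exact hns fun φ => FA.Root.exists_map_eq_of_model hW N (fun ψ => exists_smul_eq_of_trans hN hNS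
    (fun l hl => hc.1 ⟨l, Finset.mem_filter.mpr ⟨hNS hl, Nat.prime_of_mem_primeFactors hl⟩⟩)
    hc.2 ψ) φ

/-- **Duke's theorem at every level**: for every `N ≥ 1` almost all elliptic curves over `ℚ` have
all of `Aut E[N]` as image of Galois. -/
theorem almostAll_everyLevel [inst : DecidableEq (AlgebraicClosure ℚ)] {N : ℕ} (hN : N ≠ 0) :
    Tendsto (fun XY : ℕ × ℕ => (Set.ncard {AB : ℤ × ℤ | |AB.1| ≤ XY.1 ∧ |AB.2| ≤ XY.2 ∧
        4 * AB.1 ^ 3 + 27 * AB.2 ^ 2 ≠ 0 ∧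
        ¬ ∀ φ : Submodule.torsionBy ℤ ((⟨0, 0, 0, (AB.1 : ℚ), (AB.2 : ℚ)⟩ :
              WeierstrassCurve ℚ).toAffine⁄(AlgebraicClosure ℚ)).Point (N : ℤ) ≃+
            Submodule.torsionBy ℤ ((⟨0, 0, 0, (AB.1 : ℚ), (AB.2 : ℚ)⟩ :
              WeierstrassCurve ℚ).toAffine⁄(AlgebraicClosure ℚ)).Point (N : ℤ),
          ∃ σ : AlgebraicClosure ℚ ≃ₐ[ℚ] AlgebraicClosure ℚ, ∀ P,
            Affine.Point.map σ.toAlgHom P.1 = (φ P).1} : ℝ) /
      ((2 * XY.1 + 1) * (2 * XY.2 + 1))) atTop (𝓝 0) := by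
  classical
  refine squeeze_zero (fun XY => by positivity) (fun XY => ?_)
    (almostAll_everyLevels (inst := inst) N.primeFactors)
  refine div_le_div_of_nonneg_right (Nat.cast_le.mpr (Set.ncard_le_ncard
    (fun AB h => ⟨h.1, h.2.1, h.2.2.1, N, hN, subset_rfl, h.2.2.2⟩) ?_)) (by positivity)
  exact ((box XY.1 XY.2).finite_toSet).subset fun AB h => by
    rw [Finset.mem_coe, box, Finset.mem_product, Finset.mem_Icc, Finset.mem_Icc]
    exact ⟨abs_le.mp h.1, abs_le.mp h.2.1⟩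

end FA.Summary

end
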