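import Fermat.Agent.Root.SummaryTorsionDegree
import Fermat.Agent.Root.SummaryTorsionNumberField

/-!
# Torsion of bounded degree, for every elliptic curve over `ℚ`

A torsion point with at most `d` conjugates is fixed by the `d!`-th power of every Frobenius
element, so for two primes `q ≠ q'` of good reduction its order divides the product of the numbers
of points over the fields with `q ^ d!` and `q' ^ d!` elements. Hence only finitely many torsion
points have degree at most `d`, and one number bounds the torsion over all number fields of degree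
at most `d`, with no hypothesis on the curve.
-/

set_option autoImplicit false
set_option linter.style.haveILetI false

noncomputable section

open WeierstrassCurve WeierstrassCurve.Affine FA.EC FA.Frob FA.RT FA.RT.Tate FA.HasseBound Module
open scoped WeierstrassCurve.Affine Nat

local notation "Qb" => AlgebraicClosure ℚ
local notation "GQ" => AlgebraicClosure ℚ ≃ₐ[ℚ] AlgebraicClosure ℚ

namespace FA.TorsionDegree

/-- A point with at most `d` conjugates is fixed by the `d!`-th power of every element. -/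
theorem pow_factorial_smul_eq {G X : Type*} [Group G] [MulAction G X] {x : X} {d : ℕ}
    (hfin : (Set.range fun σ : G => σ • x).Finite)
    (hd : (Set.range fun σ : G => σ • x).ncard ≤ d) (σ : G) : σ ^ d ! • x = x := by
  obtain ⟨i, hi, j, hj, hne, hij⟩ := Set.exists_ne_map_eq_of_ncard_lt_of_maps_to
    (s := (Finset.range (d + 1) : Set ℕ)) (t := Set.range fun σ : G => σ • x)
    (f := fun n : ℕ => σ ^ n • x) (by rw [Set.ncard_coe_finset, Finset.card_range]; omega)
    (fun n _ => ⟨σ ^ n, rfl⟩) hfin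
  wlog hlt : i < j generalizing i j
  · exact this j hj i hi hne.symm hij.symm (by omega)
  have hj' := Finset.mem_range.mp hj
  have h1 : σ ^ (j - i) • x = x := by
    apply MulAction.injective (σ ^ i)
    simp only [← mul_smul, ← pow_add, Nat.add_sub_cancel' hlt.le]
    exact hij.symm
  obtain ⟨e, he⟩ := Nat.dvd_factorial (n := d) (Nat.sub_pos_of_lt hlt) (by omega)
  rw [he, pow_mul]
  exact (pow_mem (show σ ^ (j - i) ∈ MulAction.stabilizer G x from h1) e :)

variable {W : WeierstrassCurve ℤ} [(ratCurve W).IsElliptic]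

/-- **The effective bound**: for good primes `q ≠ q'` the order of a torsion point with at most
`d` conjugates divides the product of the numbers of points over the fields with `q ^ d!` and
`q' ^ d!` elements. -/
theorem addOrderOf_dvd_pointCounts {q q' : ℕ} [Fact q.Prime] [Fact q'.Prime] (hne : q ≠ q')
    (hq : W.IsGoodPrimeFor q) (hq' : W.IsGoodPrimeFor q') {d : ℕ} {x : Pts W}
    (hx : IsOfFinAddOrder x) (hfix : ∀ σ : GQ, σ ^ d ! • x = x) :
    (addOrderOf x : ℤ) ∣ ((q : ℤ) ^ d ! + 1 - pointTrace (W.apOfModel q) q d !) *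
      ((q' : ℤ) ^ d ! + 1 - pointTrace (W.apOfModel q') q' d !) := by
  obtain ⟨A, hA⟩ := FA.Deform.exists_liesOverPrime (Fact.out : q.Prime)
  obtain ⟨σ, hσ⟩ := FA.Deform.exists_isFrobeniusAt Fact.out hA
  obtain ⟨A', hA'⟩ := FA.Deform.exists_liesOverPrime (Fact.out : q'.Prime)
  obtain ⟨σ', hσ'⟩ := FA.Deform.exists_isFrobeniusAt Fact.out hA'
  rw [Int.natCast_dvd]
  refine (Nat.dvd_iff_prime_pow_dvd_dvd _ _).mpr fun l v hlp hv => ?_
  haveI := Fact.mk hlp
  obtain ⟨e, he⟩ := hv
  have he0 : e ≠ 0 := fun h => hx.addOrderOf_pos.ne' (by rw [he, h, mul_zero])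
  have hord : addOrderOf (e • x) = l ^ v := by
    rw [addOrderOf_nsmul' x he0, he, Nat.gcd_eq_right (dvd_mul_left e _),
      Nat.mul_div_cancel _ (Nat.pos_of_ne_zero he0)]
  have hfix' : ∀ τ : GQ, τ ^ d ! • e • x = e • x := fun τ => by
    rw [FA.RT.Tate.gal_smul_nsmul, hfix τ]
  have h0 : l ^ v • (e • x) = 0 := hord ▸ addOrderOf_nsmul_eq_zero (e • x)
  rw [← hord, Int.natAbs_mul]
  rcases eq_or_ne q l with rfl | h
  · refine Dvd.dvd.mul_left (addOrderOf_dvd_iff_nsmul_eq_zero.mpr ?_) _
    rw [natAbs_nsmul_eq_zero]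
    exact FA.TorsionNumberField.nsmul_eq_zero_of_fixed Fact.out hne.symm hq' hA' hσ' h0 (hfix' σ')
  · refine Dvd.dvd.mul_right (addOrderOf_dvd_iff_nsmul_eq_zero.mpr ?_) _
    rw [natAbs_nsmul_eq_zero]
    exact FA.TorsionNumberField.nsmul_eq_zero_of_fixed Fact.out h hq hA hσ h0 (hfix' σ)

/-- One bound for all torsion points with at most `d` conjugates. -/
theorem exists_bound_degree (d : ℕ) : ∃ D : ℕ, 0 < D ∧ ∀ x : Pts W, IsOfFinAddOrder x →
    (∀ σ : GQ, σ ^ d ! • x = x) → D • x = 0 := by
  have hΔ : W.Δ ≠ 0 := fun h => (ratCurve W).isUnit_Δ.ne_zero (by simp [ratCurve, h])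
  obtain ⟨q, hq, hqp⟩ := Nat.exists_infinite_primes (W.Δ.natAbs + 1)
  obtain ⟨q', hq', hqp'⟩ := Nat.exists_infinite_primes (q + 1)
  haveI := Fact.mk hqp
  haveI := Fact.mk hqp'
  have hgood : ∀ l : ℕ, W.Δ.natAbs < l → W.IsGoodPrimeFor l := fun l hl h => by
    have := Nat.le_of_dvd (Int.natAbs_pos.mpr hΔ) (Int.natCast_dvd.mp h)
    omega
  have hN : ∀ l : ℕ, ∀ [Fact l.Prime], W.Δ.natAbs < l →
      (l : ℤ) ^ d ! + 1 - pointTrace (W.apOfModel l) l d ! ≠ 0 := fun l hl hlt => by
    haveI : (W.reductionMod l).IsElliptic := ⟨by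
      rw [reductionMod, WeierstrassCurve.map_Δ]
      exact (Ne.isUnit fun h => hgood l hlt ((ZMod.intCast_zmod_eq_zero_iff_dvd _ l).mp h))⟩
    exact FA.TorsionNumberField.pointTrace_ne
      (FA.HasseBound.traceOfFrobenius_sq_le (W.reductionMod l)) hl.out.one_lt
      (Nat.factorial_pos _).ne'
  refine ⟨_, Int.natAbs_pos.mpr (mul_ne_zero (hN q (by omega)) (hN q' (by omega))),
    fun x hx hfix => addOrderOf_dvd_iff_nsmul_eq_zero.mp (Int.natCast_dvd.mp
      (addOrderOf_dvd_pointCounts (by omega) (hgood q (by omega)) (hgood q' (by omega)) hx hfix))⟩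

end FA.TorsionDegree

namespace FA.Summary

/-- **Finitely many torsion points of bounded degree** on every elliptic curve over `ℚ`: only
finitely many torsion points have at most `d` conjugates. -/
theorem finite_torsion_conjugates_all (E : WeierstrassCurve ℚ) [E.IsElliptic]
    [inst : DecidableEq (AlgebraicClosure ℚ)] (d : ℕ) :
    {P : (E.toAffine⁄(AlgebraicClosure ℚ)).Point | IsOfFinAddOrder P ∧
      (Set.range fun σ : AlgebraicClosure ℚ ≃ₐ[ℚ] AlgebraicClosure ℚ =>
        Affine.Point.map (W' := E.toAffine) σ.toAlgHom P).ncard ≤ d}.Finite := by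
  obtain rfl : inst = instDecEqAlgebraicClosureRat := Subsingleton.elim _ _
  obtain ⟨W, hW⟩ := FA.Frob.exists_integralModel E
  haveI := FA.Frob.ratCurve_isElliptic_of_Δ (FA.Frob.Δ_ne_zero_of_model hW)
  obtain ⟨D, hD, key⟩ := FA.TorsionDegree.exists_bound_degree (W := W) d
  obtain ⟨e, he⟩ := FA.Root.exists_equiv_of_model hW
  haveI : Finite (Submodule.torsionBy ℤ ((ratCurve W)⁄Qb).Point (D : ℤ)) :=
    FA.EC.finite_torsion (ratCurve W) hD.ne'
  refine ((Set.finite_range fun Q : Submodule.torsionBy ℤ ((ratCurve W)⁄Qb).Point (D : ℤ) =>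
    e Q.1)).subset fun P ⟨hP, hd⟩ => ?_
  refine ⟨⟨e.symm P, ?_⟩, e.apply_symm_apply P⟩
  rw [Submodule.mem_torsionBy_iff, natCast_zsmul]
  have hx := e.symm.toAddMonoidHom.isOfFinAddOrder hP
  have heq : (Set.range fun σ : GQ => σ • e.symm P) =
      e.symm '' Set.range fun σ : GQ => Affine.Point.map (W' := E.toAffine) σ.toAlgHom P := by
    rw [← Set.range_comp]
    congr 1
    funext σ
    rw [Function.comp_apply, e.eq_symm_apply, he, e.apply_symm_apply]
  haveI : Finite (Submodule.torsionBy ℤ ((ratCurve W)⁄Qb).Point (addOrderOf (e.symm P) : ℤ)) :=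
    FA.EC.finite_torsion (ratCurve W) hx.addOrderOf_pos.ne'
  refine key _ hx fun σ => FA.TorsionDegree.pow_factorial_smul_eq ?_ ?_ σ
  · refine ((Submodule.torsionBy ℤ ((ratCurve W)⁄Qb).Point (addOrderOf (e.symm P) : ℤ) :
      Set _).toFinite).subset ?_
    rintro _ ⟨τ, rfl⟩
    rw [SetLike.mem_coe, Submodule.mem_torsionBy_iff, natCast_zsmul,
      ← FA.RT.Tate.gal_smul_nsmul, addOrderOf_nsmul_eq_zero]
    exact FA.Local.gal_smul_zero _ _
  · rw [heq, Set.ncard_image_of_injective _ e.symm.injective]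
    exact hd

/-- **Finitely many torsion points of bounded degree**, over all number fields at once, for every
elliptic curve over `ℚ`. -/
theorem finite_torsion_degree_all (E : WeierstrassCurve ℚ) [E.IsElliptic]
    [inst : DecidableEq (AlgebraicClosure ℚ)] (d : ℕ) :
    {P : (E.toAffine⁄(AlgebraicClosure ℚ)).Point | IsOfFinAddOrder P ∧
      ∃ K : IntermediateField ℚ (AlgebraicClosure ℚ), FiniteDimensional ℚ K ∧
        finrank ℚ K ≤ d ∧ ∀ σ ∈ K.fixingSubgroup, Affine.Point.map σ.toAlgHom P = P}.Finite := by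
  obtain rfl : inst = instDecEqAlgebraicClosureRat := Subsingleton.elim _ _
  refine (finite_torsion_conjugates_all E d).subset fun P ⟨hP, K, hK, hKd, hfix⟩ => ⟨hP, ?_⟩
  refine (FA.TorsionDegree.ncard_range_le K _ fun σ τ hστ => ?_).trans hKd
  have h1 := hfix (τ⁻¹ * σ) ((IntermediateField.mem_fixingSubgroup_iff _ _).mpr fun x hx => by
    rw [AlgEquiv.mul_apply, hστ x hx, AlgEquiv.aut_inv, AlgEquiv.symm_apply_apply])
  conv_rhs => rw [← h1, ← FA.OpenImage.map_mul_apply, mul_inv_cancel_left]

/-- **Bounded torsion over the number fields of bounded degree** (Merel's theorem for a fixed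
curve) for every elliptic curve over `ℚ`. -/
theorem boundedTorsion_of_degree_all (E : WeierstrassCurve ℚ) [E.IsElliptic] (d : ℕ) :
    ∃ B : ℕ, ∀ (K : Type*) [Field K] [NumberField K] [DecidableEq K], finrank ℚ K ≤ d →
      {P : (E.toAffine⁄K).Point | IsOfFinAddOrder P}.Finite ∧
        {P : (E.toAffine⁄K).Point | IsOfFinAddOrder P}.ncard ≤ B := by
  classical
  exact FA.TorsionDegree.exists_bound_of_finite E d (finite_torsion_degree_all E d)

end FA.Summary

end
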