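import Fermat.Agent.Root.SummaryAlmostAllEveryLevel
import Fermat.Agent.Root.SummaryTorsionDegreeAll
import Fermat.Agent.Twists.Count
import Fermat.Agent.Independence.AdelicGlue

/-!
# Almost all elliptic curves gain no torsion over number fields

For every number field `K` almost every `y² = x³ + A x + B` has no nonzero torsion point over `K`,
and for each `d` almost every curve has each torsion point with at most `d` conjugates conjugate to
all the points of its order, so none has degree at most two. A good prime in a fixed finite set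
bounds the primes dividing the order of such a point. For each remaining prime `p` almost every
curve has a good prime `q` whose Frobenius fixes `K` without `p` dividing `q + 1 - a_q`: if it also
fixes the `3 p`-torsion of `y² = x³ - 16 x + 16` the non-square twists of that curve are such
classes modulo `q`, and for `p = 2` the classes `(0, B)` with `B` no cube.
-/

set_option autoImplicit false
set_option linter.style.haveILetI false

noncomputable section

open Filter Topology IsDedekindDomain NumberField Matrix Module WeierstrassCurve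
  WeierstrassCurve.Affine FA.EC FA.Frob FA.RT FA.RT.Tate FA.HasseBound
open scoped WeierstrassCurve.Affine Nat

local notation "Qb" => AlgebraicClosure ℚ
local notation "GQ" => AlgebraicClosure ℚ ≃ₐ[ℚ] AlgebraicClosure ℚ

namespace FA.AlmostAll

/-! ### The primes of a point of bounded degree -/

/-- The conjugates of a torsion point are finitely many. -/
theorem finite_orbit {W : WeierstrassCurve ℤ} [(ratCurve W).IsElliptic] {x : Pts W}
    (hx : IsOfFinAddOrder x) : (Set.range fun σ : GQ => σ • x).Finite := by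
  haveI : Finite (Submodule.torsionBy ℤ ((ratCurve W)⁄Qb).Point (addOrderOf x : ℤ)) :=
    FA.EC.finite_torsion (ratCurve W) hx.addOrderOf_pos.ne'
  refine ((Submodule.torsionBy ℤ ((ratCurve W)⁄Qb).Point (addOrderOf x : ℤ) :
    Set _).toFinite).subset ?_
  rintro _ ⟨τ, rfl⟩
  rw [SetLike.mem_coe, Submodule.mem_torsionBy_iff, natCast_zsmul, ← FA.RT.Tate.gal_smul_nsmul,
    addOrderOf_nsmul_eq_zero]
  exact FA.Local.gal_smul_zero _ _

/-- **The primes of such points are bounded** given a good prime in a finite set. -/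
theorem exists_prime_bound {S : Finset ℕ} (hS : ∀ q ∈ S, q.Prime ∧ 5 ≤ q) (d : ℕ) :
    ∃ B : ℕ, ∀ AB : ℤ × ℤ, ∀ [(ratCurve (shortInt AB)).IsElliptic], HasGoodIn S AB →
      ∀ p : ℕ, p.Prime → ∀ x : Pts (shortInt AB), addOrderOf x = p →
        (Set.range fun σ : GQ => σ • x).ncard ≤ d → p ≤ B := by
  refine ⟨S.sup id ⊔ S.sup fun q => (Finset.Icc (-(2 * q : ℤ)) (2 * q)).sup fun a =>
    ((q : ℤ) ^ d ! + 1 - pointTrace a q d !).natAbs, fun AB _ ⟨q, hqS, hgood⟩ p hp x hx hd => ?_⟩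
  haveI := Fact.mk hp
  haveI := Fact.mk (hS q hqS).1
  have hfix := FA.TorsionDegree.pow_factorial_smul_eq
    (finite_orbit (addOrderOf_pos_iff.mp (hx ▸ hp.pos))) hd
  rcases eq_or_ne q p with rfl | hqp
  · exact le_sup_of_le_left (Finset.le_sup (f := id) hqS)
  obtain ⟨A, hA⟩ := FA.Deform.exists_liesOverPrime (hS q hqS).1
  obtain ⟨σ, hσ⟩ := FA.Deform.exists_isFrobeniusAt (hS q hqS).1 hA
  have h0 := FA.TorsionNumberField.nsmul_eq_zero_of_fixed (hS q hqS).1 hqp hgood hA hσ (v := 1)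
    (by rw [pow_one, ← hx, addOrderOf_nsmul_eq_zero]) (hfix σ)
  haveI : ((shortInt AB).reductionMod q).IsElliptic := ⟨by
    rw [reductionMod, WeierstrassCurve.map_Δ]
    exact (Ne.isUnit fun h => hgood ((ZMod.intCast_zmod_eq_zero_iff_dvd _ q).mp h))⟩
  have hne := FA.TorsionNumberField.pointTrace_ne
    (FA.HasseBound.traceOfFrobenius_sq_le ((shortInt AB).reductionMod q)) (hS q hqS).1.one_lt
    (Nat.factorial_pos d).ne'
  have ha : (shortInt AB).apOfModel q ∈ Finset.Icc (-(2 * q : ℤ)) (2 * q) := by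
    have h4 : (shortInt AB).apOfModel q ^ 2 ≤ 4 * (q : ℤ) :=
      FA.HasseBound.traceOfFrobenius_sq_le ((shortInt AB).reductionMod q)
    have hq1 : (5 : ℤ) ≤ q := by exact_mod_cast (hS q hqS).2
    rw [Finset.mem_Icc]
    constructor <;> nlinarith
  refine le_trans (Nat.le_of_dvd (Int.natAbs_pos.mpr hne) (Int.natCast_dvd.mp
    (hx ▸ addOrderOf_dvd_iff_zsmul_eq_zero.mpr h0))) (le_sup_of_le_right ?_)
  exact le_trans (Finset.le_sup (f := fun a : ℤ => ((q : ℤ) ^ d ! + 1 - pointTrace a q d !).natAbs)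
    ha) (Finset.le_sup (f := fun q : ℕ => (Finset.Icc (-(2 * q : ℤ)) (2 * q)).sup fun a =>
      ((q : ℤ) ^ d ! + 1 - pointTrace a q d !).natAbs) hqS)

/-- A multiple of prime order. -/
theorem exists_multiple_prime {G : Type*} [AddMonoid G] {x : G} (hx : IsOfFinAddOrder x) {p : ℕ}
    (hp : p ∣ addOrderOf x) : ∃ k : ℕ, addOrderOf (k • x) = p :=
  ⟨addOrderOf x / p, by
    rw [addOrderOf_nsmul_of_dvd (Nat.div_pos (Nat.le_of_dvd hx.addOrderOf_pos hp)
      (Nat.pos_of_dvd_of_pos hp hx.addOrderOf_pos)).ne' (Nat.div_dvd_of_dvd hp),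
      Nat.div_div_self hp hx.addOrderOf_pos.ne']⟩

/-- Multiples have no more conjugates. -/
theorem ncard_orbit_nsmul_le {W : WeierstrassCurve ℤ} [(ratCurve W).IsElliptic] {x : Pts W}
    (hx : IsOfFinAddOrder x) (k : ℕ) :
    (Set.range fun σ : GQ => σ • (k • x)).ncard ≤ (Set.range fun σ : GQ => σ • x).ncard := by
  rw [show (fun σ : GQ => σ • (k • x)) = (fun y : Pts W => k • y) ∘ fun σ : GQ => σ • x from
    funext fun σ => FA.RT.Tate.gal_smul_nsmul σ k x, Set.range_comp]
  exact Set.ncard_image_le (finite_orbit hx)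

/-- **The frame of the proofs**: a property is negligible if, given a good prime in any fixed finite
set, it lies in a negligible one. -/
theorem tendsto_of_goodPrimes (bad : ℤ × ℤ → Prop)
    (h : ∀ S : Finset ℕ, (∀ q ∈ S, q.Prime ∧ 5 ≤ q) → ∃ bad' : ℤ × ℤ → Prop,
      ∃ _ : DecidablePred bad',
      Tendsto (fun XY : ℕ × ℕ => (((box XY.1 XY.2).filter bad').card : ℝ) /
        ((2 * XY.1 + 1) * (2 * XY.2 + 1))) atTop (𝓝 0) ∧
      ∀ AB : ℤ × ℤ, 4 * AB.1 ^ 3 + 27 * AB.2 ^ 2 ≠ 0 → HasGoodIn S AB → bad AB → bad' AB) :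
    Tendsto (fun XY : ℕ × ℕ => (Set.ncard {AB : ℤ × ℤ | |AB.1| ≤ XY.1 ∧ |AB.2| ≤ XY.2 ∧
        4 * AB.1 ^ 3 + 27 * AB.2 ^ 2 ≠ 0 ∧ bad AB} : ℝ) /
      ((2 * XY.1 + 1) * (2 * XY.2 + 1))) atTop (𝓝 0) := by
  classical
  rw [Metric.tendsto_atTop]
  intro ε hε
  obtain ⟨S, hS, hgood⟩ := exists_goodPrimes (show 0 < ε / 2 by positivity)
  obtain ⟨bad', _, hlim, himp⟩ := h S hS
  rw [Metric.tendsto_atTop] at hlim
  obtain ⟨N, hN⟩ := hlim (ε / 2) (by positivity)
  refine ⟨N ⊔ (∏ q ∈ S, q, ∏ q ∈ S, q), fun XY hXY => ?_⟩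
  have h1 := hN XY (le_sup_left.trans hXY)
  have h2 := hgood XY.1 XY.2 (le_sup_right.trans hXY).1 (le_sup_right.trans hXY).2
  rw [Real.dist_eq, sub_zero, abs_of_nonneg (by positivity)] at h1 ⊢
  have hsub : Set.ncard {AB : ℤ × ℤ | |AB.1| ≤ XY.1 ∧ |AB.2| ≤ XY.2 ∧
      4 * AB.1 ^ 3 + 27 * AB.2 ^ 2 ≠ 0 ∧ bad AB} ≤
      ((box XY.1 XY.2).filter fun AB => ¬ HasGoodIn S AB).card +
        ((box XY.1 XY.2).filter bad').card := by
    refine le_trans ?_ (Finset.card_union_le _ _)
    rw [← Set.ncard_coe_finset]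
    refine Set.ncard_le_ncard (fun AB hAB => ?_) (Finset.finite_toSet _)
    obtain ⟨hX, hY, hne, hbad⟩ := hAB
    have hb : AB ∈ box XY.1 XY.2 := by
      rw [box, Finset.mem_product, Finset.mem_Icc, Finset.mem_Icc]
      exact ⟨abs_le.mp hX, abs_le.mp hY⟩
    rw [Finset.mem_coe, Finset.mem_union, Finset.mem_filter, Finset.mem_filter]
    by_cases hg : HasGoodIn S AB
    exacts [Or.inr ⟨hb, himp AB hne hg hbad⟩, Or.inl ⟨hb, hg⟩]
  refine lt_of_le_of_lt (div_le_div_of_nonneg_right (Nat.cast_le.mpr hsub) (by positivity)) ?_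
  rw [Nat.cast_add, add_div]
  linarith

/-! ### A Frobenius in a subgroup without fixed point of order `p` -/

/-- Some good prime `q ≠ p` has a Frobenius in `H` and `p` does not divide `q + 1 - a_q`. -/
def HasFreeFrob (H : Subgroup GQ) (p : ℕ) (AB : ℤ × ℤ) : Prop :=
  ∃ q : ℕ, q.Prime ∧ q ≠ p ∧ (shortInt AB).IsGoodPrimeFor q ∧
    ((q : ZMod p) + 1 - ((shortInt AB).apOfModel q : ZMod p) ≠ 0) ∧
    ∃ A : ValuationSubring Qb, A.LiesOverPrime q ∧ ∃ σ ∈ H, A.IsFrobeniusAt σ q

/-- Then `H` fixes no point of order `p`. -/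
theorem false_of_hasFreeFrob {H : Subgroup GQ} {p : ℕ} (hp : p.Prime) {AB : ℤ × ℤ}
    [(ratCurve (shortInt AB)).IsElliptic] (h : HasFreeFrob H p AB) {x : Pts (shortInt AB)}
    (hx : addOrderOf x = p) (hfix : ∀ σ ∈ H, σ • x = x) : False := by
  haveI := Fact.mk hp
  obtain ⟨q, hq, hqp, hgood, hne, A, hA, σ, hσH, hσ⟩ := h
  have h0 := FA.TorsionNumberField.nsmul_eq_zero_of_fixed hq hqp hgood hA hσ (f := 1) (v := 1)
    (by rw [pow_one, ← hx, addOrderOf_nsmul_eq_zero]) (by rw [pow_one]; exact hfix σ hσH)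
  have hdvd := hx ▸ addOrderOf_dvd_iff_zsmul_eq_zero.mpr h0
  rw [← ZMod.intCast_zmod_eq_zero_iff_dvd, pow_one, pointTrace] at hdvd
  push_cast at hdvd
  exact hne hdvd

/-- A non-square modulo `q`, or one. -/
def nonsquareUnit (q : ℕ) : ZMod q :=
  open Classical in if h : ∃ n : ZMod q, ¬ IsSquare n then h.choose else 1

/-- The classes of the non-square twists of `y² = x³ - 16 x + 16`. -/
def negTwistClasses (q : ℕ) : Finset (ZMod q × ZMod q) :=
  (twistClasses q).image fun ab => (nonsquareUnit q ^ 2 * ab.1, nonsquareUnit q ^ 3 * ab.2)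

theorem not_isSquare_nonsquareUnit {q : ℕ} [hq : Fact q.Prime] (h5 : 5 ≤ q) :
    ¬ IsSquare (nonsquareUnit q) := by
  have h : ∃ n : ZMod q, ¬ IsSquare n :=
    FiniteField.exists_nonsquare (by rw [ZMod.ringChar_zmod_n]; omega)
  rw [nonsquareUnit, dif_pos h]
  exact h.choose_spec

theorem card_negTwistClasses {q : ℕ} (hq : q.Prime) (h5 : 5 ≤ q) :
    (1 / 4 : ℝ) * q ≤ (negTwistClasses q).card := by
  haveI := Fact.mk hq
  have h0 : nonsquareUnit q ≠ 0 := fun e =>
    not_isSquare_nonsquareUnit h5 (e ▸ IsSquare.zero)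
  rw [negTwistClasses, Finset.card_image_of_injective _ fun a b e => ?_]
  · exact card_twistClasses hq h5
  · obtain ⟨e1, e2⟩ := Prod.mk.inj e
    exact Prod.ext (mul_left_cancel₀ (pow_ne_zero 2 h0) e1) (mul_left_cancel₀ (pow_ne_zero 3 h0) e2)

/-- A pair in such a class has minus the trace of `y² = x³ - 16 x + 16`. -/
theorem apOfModel_of_negTwistClass {q : ℕ} [hq : Fact q.Prime] (h5 : 5 ≤ q) (h37 : q ≠ 37)
    {AB : ℤ × ℤ} (h : ((AB.1 : ZMod q), (AB.2 : ZMod q)) ∈ negTwistClasses q) :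
    (shortInt AB).IsGoodPrimeFor q ∧
      (shortInt AB).apOfModel q = -(shortInt (-16, 16)).apOfModel q := by
  rw [negTwistClasses, Finset.mem_image] at h
  obtain ⟨⟨a', b'⟩, hab, he⟩ := h
  obtain ⟨e1, e2⟩ := Prod.mk.inj he
  obtain ⟨A', rfl⟩ := ZMod.intCast_surjective a'
  obtain ⟨B', rfl⟩ := ZMod.intCast_surjective b'
  obtain ⟨hgood', ha'⟩ := apOfModel_of_twistClass hq.out h5 h37 (AB := (A', B')) hab
  have h16 : (((-16 : ℤ) : ZMod q), ((16 : ℤ) : ZMod q)) ∈ twistClasses q := by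
    rw [twistClasses, dif_neg hq.out.ne_zero, Finset.mem_image]
    exact ⟨1, Finset.mem_erase.mpr ⟨one_ne_zero, Finset.mem_univ _⟩, by simp⟩
  rw [(apOfModel_of_twistClass hq.out h5 h37 (AB := (-16, 16)) h16).2, ← ha']
  have hq2 : ringChar (ZMod q) ≠ 2 := by rw [ZMod.ringChar_zmod_n]; omega
  set n := nonsquareUnit q
  have hns : ¬ IsSquare n := not_isSquare_nonsquareUnit h5
  have hn : n ≠ 0 := fun e => hns (e ▸ IsSquare.zero)
  have h27 : (27 : ZMod q) ≠ 0 := by
    rw [show (27 : ZMod q) = 3 ^ 3 by norm_num]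
    refine pow_ne_zero 3 fun e => ?_
    have := Nat.le_of_dvd three_pos ((ZMod.natCast_eq_zero_iff 3 q).mp (by exact_mod_cast e))
    omega
  have h54 : (54 : ZMod q) ≠ 0 := by
    rw [show (54 : ZMod q) = 2 * 27 by norm_num]
    refine mul_ne_zero (fun e => ?_) h27
    have := Nat.le_of_dvd two_pos ((ZMod.natCast_eq_zero_iff 2 q).mp (by exact_mod_cast e))
    omega
  have hred' : (shortInt (A', B')).reductionMod q =
      FA.Twists.short (-(A' : ZMod q) / 27) (-(B' : ZMod q) / 54) := by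
    ext <;> simp [reductionMod, FA.Twists.short] <;> field_simp
  have hred : (shortInt AB).reductionMod q =
      FA.Twists.short (n ^ 2 * (-(A' : ZMod q) / 27)) (n ^ 3 * (-(B' : ZMod q) / 54)) := by
    ext <;> simp [reductionMod, FA.Twists.short, ← e1, ← e2] <;> field_simp
  have hΔ : (FA.Twists.short (-(A' : ZMod q) / 27) (-(B' : ZMod q) / 54)).Δ ≠ 0 := fun e =>
    hgood' ((ZMod.intCast_zmod_eq_zero_iff_dvd _ q).mp (by
      rw [← e, ← hred', reductionMod, map_Δ, eq_intCast]))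
  refine ⟨fun hd => ?_, ?_⟩
  · rw [← ZMod.intCast_zmod_eq_zero_iff_dvd, ← eq_intCast (Int.castRingHom (ZMod q)),
      ← map_Δ, show (shortInt AB).map (Int.castRingHom (ZMod q)) = _ from hred,
      FA.Twists.short_Δ] at hd
    rw [FA.Twists.short_Δ] at hΔ
    refine hΔ ?_
    have h6 := (mul_eq_zero.mp (show n ^ 6 * (1259712 *
      ((-(A' : ZMod q) / 27) ^ 3 - (-(B' : ZMod q) / 54) ^ 2)) = 0 by linear_combination hd))
    exact h6.resolve_left (pow_ne_zero 6 hn)
  · rw [apOfModel, apOfModel, hred, hred', FA.Twists.traceOfFrobenius_short_twist hq2 hn hΔ,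
      quadraticChar_neg_one_iff_not_isSquare.mpr hns, neg_one_mul]

/-- **For each prime almost every pair has such a Frobenius** fixing a given number field. -/
theorem tendsto_not_hasFreeFrob (F : IntermediateField ℚ Qb) [FiniteDimensional ℚ F] {p : ℕ}
    (hp : p.Prime) [DecidablePred fun AB => ¬ HasFreeFrob F.fixingSubgroup p AB] :
    Tendsto (fun XY : ℕ × ℕ =>
      (((box XY.1 XY.2).filter fun AB => ¬ HasFreeFrob F.fixingSubgroup p AB).card : ℝ) /
        ((2 * XY.1 + 1) * (2 * XY.2 + 1))) atTop (𝓝 0) := by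
  classical
  haveI := Fact.mk hp
  haveI : Fact (Nat.Prime 3) := ⟨Nat.prime_three⟩
  haveI : (ratCurve (shortInt (-16, 16))).IsElliptic := ratCurve_isElliptic_of_Δ (by
    norm_num [shortInt, WeierstrassCurve.Δ, WeierstrassCurve.b₂, WeierstrassCurve.b₄,
      WeierstrassCurve.b₆, WeierstrassCurve.b₈])
  set W₀ := shortInt (-16, 16) with hW₀
  set L := IntermediateField.normalClosure ℚ F Qb
  set N := (curveRep p W₀).ker ⊓ (curveRep 3 W₀).ker ⊓ L.fixingSubgroup with hN
  haveI : L.fixingSubgroup.Normal := by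
    rw [← IntermediateField.restrictNormalHom_ker L]
    infer_instance
  haveI : N.Normal := inferInstance
  have hopen : IsOpen (N : Set GQ) := by
    rw [hN, Subgroup.coe_inf, Subgroup.coe_inf]
    exact ((isOpen_ker_curveRep W₀).inter (isOpen_ker_curveRep W₀)).inter
      (IntermediateField.fixingSubgroup_isOpen L)
  haveI : Finite (GQ ⧸ N) := Subgroup.quotient_finite_of_isOpen N hopen
  letI := Fintype.ofFinite (GQ ⧸ N)
  have hdens := FA.Chebotarev.hasDirichletDensity_frobSet (QuotientGroup.mk' N)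
    (QuotientGroup.mk'_surjective N) (by rwa [QuotientGroup.ker_mk']) (X := {1})
    (fun g hg x => by rw [Set.mem_singleton_iff] at hg ⊢; subst hg; group)
  set Q : Set ℕ := {q | q.Prime ∧ 7 ≤ q ∧ q ≠ 37 ∧ q ≠ p ∧ q % 3 = 1 ∧ (q : ZMod p) = 1 ∧
    (W₀.apOfModel q : ZMod p) = 2 ∧
    ∃ A : ValuationSubring Qb, A.LiesOverPrime q ∧ ∃ σ ∈ F.fixingSubgroup, A.IsFrobeniusAt σ q}
  have hdiv : ¬ Summable (Q.indicator fun n : ℕ => (1 : ℝ) / n) := by
    refine FA.PrimeDivisors.not_summable_of_density hdens ?_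
      (F := {v | Ideal.absNorm v.asIdeal ∈ (insert 37 (insert p (Finset.range 7)) : Finset ℕ)})
      ((Finset.finite_toSet _).preimage fun a _ b _ e => FA.PrimeDivisors.absNorm_injective e)
      fun v hv => or_iff_not_imp_left.mpr fun hF => ?_
    · rw [Nat.card_unique, Nat.cast_one]
      exact one_div_ne_zero (Nat.cast_ne_zero.mpr Fintype.card_ne_zero)
    simp only [Set.mem_ofPred_eq, Finset.mem_insert, Finset.mem_range, not_or, not_lt] at hF
    obtain ⟨h37, hqp, h7⟩ := hF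
    set q := Ideal.absNorm v.asIdeal
    have hq : q.Prime := FA.Chebotarev.absNorm_prime v
    haveI := Fact.mk hq
    obtain ⟨A, hA⟩ := FA.Deform.exists_liesOverPrime hq
    obtain ⟨σ, hσ⟩ := FA.Deform.exists_isFrobeniusAt hq hA
    have hσN : σ ∈ N := (QuotientGroup.eq_one_iff σ).mp (hv A hA σ hσ)
    obtain ⟨⟨hσp, hσ3⟩, hσL⟩ : (σ ∈ (curveRep p W₀).ker ∧ σ ∈ (curveRep 3 W₀).ker) ∧
        σ ∈ L.fixingSubgroup := hσN
    rw [MonoidHom.mem_ker] at hσp hσ3
    have hgood : W₀.IsGoodPrimeFor q := (apOfModel_of_twistClass hq (by omega) h37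
      (AB := (-16, 16)) (by
        rw [twistClasses, dif_neg hq.ne_zero, Finset.mem_image]
        exact ⟨1, Finset.mem_erase.mpr ⟨one_ne_zero, Finset.mem_univ _⟩, by simp⟩)).1
    obtain ⟨e1, e2⟩ := FA.Ribet.curveRep_frobenius (p := p) hq hqp hgood hA hσ
    obtain ⟨-, e3⟩ := FA.Ribet.curveRep_frobenius (p := 3) hq (by omega) hgood hA hσ
    rw [hσp, trace_one, Fintype.card_fin, Nat.cast_ofNat] at e1
    rw [hσp, det_one] at e2
    rw [hσ3, det_one] at e3
    refine ⟨hq, h7, h37, hqp, ?_, e2.symm, e1.symm, A, hA, σ,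
      IntermediateField.fixingSubgroup_le (IntermediateField.le_normalClosure F) hσL, hσ⟩
    have h := congrArg ZMod.val e3.symm
    rwa [ZMod.val_natCast, ZMod.val_one] at h
  set T : ∀ q : ℕ, Finset (ZMod q × ZMod q) := fun q =>
    if p = 2 then noncubeClasses q else negTwistClasses q
  refine tendsto_avoid (fun q hq => hq.1) hdiv (show (0 : ℝ) < 1 / 4 by norm_num) T
    (fun q hq => ?_) _ fun AB hbad q hq hmem => ?_
  · simp only [T]
    split_ifs
    · refine le_trans ?_ (card_noncubeClasses hq.1 hq.2.1 hq.2.2.2.2.1)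
      exact mul_le_mul_of_nonneg_right (by norm_num) (Nat.cast_nonneg _)
    · exact card_negTwistClasses hq.1 (by have := hq.2.1; omega)
  · obtain ⟨hq0, h7, h37, hqp, -, h1, h2, hfrob⟩ := hq
    haveI := Fact.mk hq0
    simp only [T] at hmem
    split_ifs at hmem with hp2
    · obtain ⟨hgood, ha⟩ := apOfModel_two_of_noncube h7 hmem
      refine hbad ⟨q, hq0, hqp, hgood, ?_, hfrob⟩
      subst hp2
      rw [h1, ha, show (1 : ZMod 2) + 1 - 1 = 1 by ring]
      exact one_ne_zero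
    · obtain ⟨hgood, ha⟩ := apOfModel_of_negTwistClass (by omega) h37 hmem
      refine hbad ⟨q, hq0, hqp, hgood, ?_, hfrob⟩
      rw [h1, ha, Int.cast_neg, h2, sub_neg_eq_add]
      rw [show (1 : ZMod p) + 1 + 2 = ((2 ^ 2 : ℕ) : ZMod p) by push_cast; ring]
      exact fun e => hp2 ((Nat.prime_dvd_prime_iff_eq hp Nat.prime_two).mp
        (hp.dvd_of_dvd_pow ((ZMod.natCast_eq_zero_iff _ p).mp e)))

/-! ### All points of one order -/

/-- A vector of full order is the first column of a matrix of determinant one. -/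
theorem exists_det_one_mulVec {n : ℕ} [NeZero n] {v : Fin 2 → ZMod n} (hv : addOrderOf v = n) :
    ∃ A : Matrix (Fin 2) (Fin 2) (ZMod n), A.det = 1 ∧ A *ᵥ ![1, 0] = v := by
  set a := (v 0).val with ha
  set b := (v 1).val with hb
  have hg : Nat.Coprime (Nat.gcd a b) n := by
    obtain ⟨k, hk⟩ := Nat.gcd_dvd_right (Nat.gcd a b) n
    have hk0 : k ≠ 0 := fun e => NeZero.ne n (by rw [hk, e, mul_zero])
    have hz : k • v = 0 := funext fun i => by
      have hi : Nat.gcd (Nat.gcd a b) n ∣ (v i).val := by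
        fin_cases i
        exacts [(Nat.gcd_dvd_left _ _).trans (Nat.gcd_dvd_left a b),
          (Nat.gcd_dvd_left _ _).trans (Nat.gcd_dvd_right a b)]
      obtain ⟨c, hc⟩ := hi
      rw [Pi.smul_apply, Pi.zero_apply, nsmul_eq_mul, ← ZMod.natCast_zmod_val (v i),
        ← Nat.cast_mul, ZMod.natCast_eq_zero_iff, hc]
      refine ⟨c, ?_⟩
      nth_rewrite 2 [hk]
      ring
    have := Nat.le_of_dvd (Nat.pos_of_ne_zero hk0) (hv ▸ addOrderOf_dvd_iff_nsmul_eq_zero.mpr hz)
    exact Nat.le_antisymm (le_of_mul_le_mul_right (by rw [← hk, one_mul]; exact this)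
      (Nat.pos_of_ne_zero hk0)) (Nat.gcd_pos_of_pos_right _ (NeZero.pos n))
  obtain ⟨u, hu⟩ : IsUnit ((Nat.gcd a b : ℕ) : ZMod n) := (ZMod.isUnit_iff_coprime _ n).mpr hg
  have hbez : (u : ZMod n) = v 0 * (Nat.gcdA a b : ℤ) + v 1 * (Nat.gcdB a b : ℤ) := by
    have h := congrArg (Int.cast (R := ZMod n)) (Nat.gcd_eq_gcd_ab a b)
    push_cast at h
    rw [ha, hb, ZMod.natCast_zmod_val, ZMod.natCast_zmod_val] at h
    exact hu.trans h
  refine ⟨!![v 0, -((Nat.gcdB a b : ℤ) * (↑u⁻¹ : ZMod n)); v 1, (Nat.gcdA a b : ℤ) *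
    (↑u⁻¹ : ZMod n)], ?_, by ext i; fin_cases i <;> simp⟩
  rw [det_fin_two_of, ← u.mul_inv, hbez]
  ring

/-- Galois inducing every automorphism of `E[n]` conjugates any two points of order `n`, and there
are three of them if `n ≥ 2`. -/
theorem orbit_eq_of_full {W : WeierstrassCurve ℤ} [(ratCurve W).IsElliptic] {x : Pts W}
    (hx : IsOfFinAddOrder x)
    (hfull : ∀ ψ : Submodule.torsionBy ℤ ((ratCurve W)⁄Qb).Point (addOrderOf x : ℤ) ≃+
      Submodule.torsionBy ℤ ((ratCurve W)⁄Qb).Point (addOrderOf x : ℤ),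
      ∃ σ : GQ, ∀ y, σ • y.1 = (ψ y).1) :
    (Set.range fun σ : GQ => σ • x) = {y | addOrderOf y = addOrderOf x} ∧
      (x ≠ 0 → 3 ≤ (Set.range fun σ : GQ => σ • x).ncard) := by
  obtain ⟨n, hn⟩ : ∃ n, addOrderOf x = n := ⟨_, rfl⟩
  rw [hn] at hfull ⊢
  haveI : NeZero n := ⟨hn ▸ hx.addOrderOf_pos.ne'⟩
  obtain ⟨e⟩ := FA.PadicImage.nonempty_torsion_equiv W (N := n)
  have hmem : ∀ {y : Pts W}, addOrderOf y = n →
      y ∈ Submodule.torsionBy ℤ ((ratCurve W)⁄Qb).Point (n : ℤ) := fun {y} hy => by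
    rw [Submodule.mem_torsionBy_iff, natCast_zsmul, ← hy, addOrderOf_nsmul_eq_zero]
  have horder : ∀ y : Submodule.torsionBy ℤ ((ratCurve W)⁄Qb).Point (n : ℤ),
      addOrderOf (e.symm y) = addOrderOf y.1 := fun y =>
    (addOrderOf_injective e.symm.toAddEquiv.toAddMonoidHom e.symm.injective y).trans
      (AddSubgroup.addOrderOf_coe (H := (Submodule.torsionBy ℤ ((ratCurve W)⁄Qb).Point
        (n : ℤ)).toAddSubgroup) y).symm
  have htrans : ∀ y, addOrderOf y = n → ∃ σ : GQ, σ • x = y := fun y hy => by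
    obtain ⟨A, hA, hAx⟩ := exists_det_one_mulVec ((horder ⟨x, hmem hn⟩).trans hn)
    obtain ⟨B, hB, hBy⟩ := exists_det_one_mulVec ((horder ⟨y, hmem hy⟩).trans hy)
    have hA' : IsUnit A.det := hA ▸ isUnit_one
    obtain ⟨ψ, hψ⟩ := FA.Independence.Adelic.exists_addEquiv e.symm.toAddEquiv (A := B * A⁻¹) (by
      rw [det_mul, det_nonsing_inv, hA, hB, Ring.inverse_one, one_mul]
      exact isUnit_one)
    obtain ⟨σ, hσ⟩ := hfull ψ
    refine ⟨σ, (hσ ⟨x, hmem hn⟩).trans ?_⟩
    rw [hψ]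
    suffices h : (B * A⁻¹) *ᵥ e.symm ⟨x, hmem hn⟩ = e.symm ⟨y, hmem hy⟩ by
      show (e ((B * A⁻¹) *ᵥ e.symm ⟨x, hmem hn⟩)).1 = y
      rw [h, LinearEquiv.apply_symm_apply]
    rw [← hAx, mulVec_mulVec, mul_assoc, nonsing_inv_mul _ hA', mul_one, hBy]
  refine ⟨Set.ext fun y => ⟨?_, fun hy => htrans y hy⟩, fun hx0 => ?_⟩
  · rintro ⟨σ, rfl⟩
    exact (addOrderOf_injective (DistribSMul.toAddMonoidHom (Pts W) σ) (MulAction.injective σ)
      x).trans hn
  have h2 : 2 ≤ n := by
    rcases Nat.lt_or_ge n 2 with h | h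
    · obtain rfl : n = 1 := by have := NeZero.pos n; omega
      exact absurd (AddMonoid.addOrderOf_eq_one_iff.mp hn) hx0
    · exact h
  haveI : Fact (1 < n) := ⟨h2⟩
  have hord : ∀ w : Fin 2 → ZMod n, (w 0 = 1 ∨ w 1 = 1) → addOrderOf (e w).1 = n := fun w hw => by
    rw [← horder, LinearEquiv.symm_apply_apply]
    refine Nat.dvd_antisymm (addOrderOf_dvd_iff_nsmul_eq_zero.mpr
      (funext fun i => by simp)) ?_
    have h0 := addOrderOf_nsmul_eq_zero w
    rcases hw with h | h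
    · have := congrFun h0 0
      rw [Pi.smul_apply, h, nsmul_one, Pi.zero_apply] at this
      exact (ZMod.natCast_eq_zero_iff _ n).mp this
    · have := congrFun h0 1
      rw [Pi.smul_apply, h, nsmul_one, Pi.zero_apply] at this
      exact (ZMod.natCast_eq_zero_iff _ n).mp this
  have hinj : Function.Injective fun w : Fin 2 → ZMod n => (e w).1 :=
    Subtype.val_injective.comp e.injective
  have hne : ∀ w w' : Fin 2 → ZMod n, ∀ i, w i ≠ w' i → (e w).1 ≠ (e w').1 :=
    fun w w' i h e' => h (congrFun (hinj e') i)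
  have h3 : ({(e ![1, 0]).1, (e ![0, 1]).1, (e ![1, 1]).1} : Set (Pts W)).ncard = 3 :=
    Set.ncard_eq_three.mpr ⟨_, _, _, hne _ _ 0 (by simp), hne _ _ 1 (by simp),
      hne _ _ 0 (by simp), rfl⟩
  rw [← h3]
  refine Set.ncard_le_ncard ?_ (finite_orbit hx)
  rintro y (rfl | rfl | rfl)
  exacts [htrans _ (hord _ (Or.inl rfl)), htrans _ (hord _ (Or.inr rfl)),
    htrans _ (hord _ (Or.inl rfl))]

/-- Almost every pair has full image at all levels supported on given primes. -/
theorem tendsto_not_full (T : Finset ℕ) [DecidablePred fun AB =>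
      (∃ l : T.filter Nat.Prime, ¬ IrrFrob (l : ℕ) AB) ∨ ¬ HasTrans T AB] :
    Tendsto (fun XY : ℕ × ℕ => (((box XY.1 XY.2).filter fun AB =>
      (∃ l : T.filter Nat.Prime, ¬ IrrFrob (l : ℕ) AB) ∨ ¬ HasTrans T AB).card : ℝ) /
      ((2 * XY.1 + 1) * (2 * XY.2 + 1))) atTop (𝓝 0) := by
  classical
  have hI := tendsto_exists (bad := fun (i : T.filter Nat.Prime) AB => ¬ IrrFrob (i : ℕ) AB)
    fun i => tendsto_not_irrFrob (Finset.mem_filter.mp i.2).2
  have hsum := hI.add (tendsto_not_hasTrans T)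
  rw [add_zero] at hsum
  refine squeeze_zero (fun XY => by positivity) (fun XY => ?_) hsum
  rw [← add_div, ← Nat.cast_add]
  refine div_le_div_of_nonneg_right (Nat.cast_le.mpr ?_) (by positivity)
  refine (Finset.card_le_card fun AB hAB => ?_).trans (Finset.card_union_le _ _)
  obtain ⟨hb, h⟩ := Finset.mem_filter.mp hAB
  exact Finset.mem_union.mpr (h.imp (fun h => Finset.mem_filter.mpr ⟨hb, h⟩)
    fun h => Finset.mem_filter.mpr ⟨hb, h⟩)

/-- A torsion point with few conjugates on a curve with a good prime and full image at the bounded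
primes has all points of its order as conjugates. -/
theorem orbit_eq_of_few {AB : ℤ × ℤ} [(ratCurve (shortInt AB)).IsElliptic] {B d : ℕ}
    (hB : ∀ p : ℕ, p.Prime → ∀ x : Pts (shortInt AB), addOrderOf x = p →
      (Set.range fun σ : GQ => σ • x).ncard ≤ d → p ≤ B)
    (hfull : ¬ ((∃ l : (Finset.range (B + 1)).filter Nat.Prime, ¬ IrrFrob (l : ℕ) AB) ∨
      ¬ HasTrans (Finset.range (B + 1)) AB))
    {x : Pts (shortInt AB)} (hx : IsOfFinAddOrder x)
    (hd : (Set.range fun σ : GQ => σ • x).ncard ≤ d) :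
    (Set.range fun σ : GQ => σ • x) = {y | addOrderOf y = addOrderOf x} ∧
      (x ≠ 0 → 3 ≤ (Set.range fun σ : GQ => σ • x).ncard) := by
  simp only [not_or, not_exists, not_not] at hfull
  have hsub : (addOrderOf x).primeFactors ⊆ Finset.range (B + 1) := fun p hp => by
    obtain ⟨k, hk⟩ := exists_multiple_prime hx (Nat.dvd_of_mem_primeFactors hp)
    exact Finset.mem_range.mpr (Nat.lt_succ_of_le (hB p (Nat.prime_of_mem_primeFactors hp) _ hk
      ((ncard_orbit_nsmul_le hx k).trans hd)))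
  exact orbit_eq_of_full hx fun ψ => exists_smul_eq_of_trans hx.addOrderOf_pos.ne' hsub
    (fun l hl => hfull.1 ⟨l, Finset.mem_filter.mpr ⟨hsub hl,
      Nat.prime_of_mem_primeFactors hl⟩⟩) hfull.2 ψ

end FA.AlmostAll

namespace FA.Summary

open FA.AlmostAll

/-- **Almost all elliptic curves over `ℚ` gain no torsion over a given number field.** -/
theorem almostAll_torsionFree_numberField (K : Type*) [Field K] [NumberField K] [DecidableEq K] :
    Tendsto (fun XY : ℕ × ℕ => (Set.ncard {AB : ℤ × ℤ | |AB.1| ≤ XY.1 ∧ |AB.2| ≤ XY.2 ∧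
        4 * AB.1 ^ 3 + 27 * AB.2 ^ 2 ≠ 0 ∧
        ∃ P : ((⟨0, 0, 0, (AB.1 : ℚ), (AB.2 : ℚ)⟩ : WeierstrassCurve ℚ).toAffine⁄K).Point,
          P ≠ 0 ∧ IsOfFinAddOrder P} : ℝ) /
      ((2 * XY.1 + 1) * (2 * XY.2 + 1))) atTop (𝓝 0) := by
  classical
  let f : K →ₐ[ℚ] Qb := IsAlgClosed.lift
  haveI : FiniteDimensional ℚ f.fieldRange :=
    (AlgEquiv.ofInjectiveField f).toLinearEquiv.finiteDimensional
  set H := f.fieldRange.fixingSubgroup
  refine tendsto_of_goodPrimes _ fun S hS => ?_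
  obtain ⟨B, hB⟩ := exists_prime_bound hS (finrank ℚ f.fieldRange)
  refine ⟨fun AB => ∃ l : (Finset.range (B + 1)).filter Nat.Prime, ¬ HasFreeFrob H (l : ℕ) AB,
    inferInstance, tendsto_exists (bad := fun (i : (Finset.range (B + 1)).filter Nat.Prime) AB =>
      ¬ HasFreeFrob H (i : ℕ) AB) fun i =>
        tendsto_not_hasFreeFrob f.fieldRange (Finset.mem_filter.mp i.2).2,
    fun AB hne hg ⟨P, hP0, hP⟩ => ?_⟩
  haveI : (shortRat AB).IsElliptic := isElliptic_of_ne hne
  have hW := shortInt_isIntegralModelOf AB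
  haveI := ratCurve_isElliptic_of_Δ (Δ_ne_zero_of_model hW)
  obtain ⟨e, he⟩ := FA.Root.exists_equiv_of_model hW
  set P' := Affine.Point.map (W' := (shortRat AB).toAffine) f P
  have hP'0 : P' ≠ 0 := fun h => hP0 ((map_eq_zero_iff _
    (Affine.Point.map_injective (W' := (shortRat AB).toAffine) f)).mp h)
  have hxfix : ∀ σ ∈ H, σ • e.symm P' = e.symm P' := fun σ hσ => e.injective (by
    have hcomp : σ.toAlgHom.comp f = f := AlgHom.ext fun z =>
      (IntermediateField.mem_fixingSubgroup_iff _ _).mp hσ _ ⟨z, rfl⟩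
    rw [he, e.apply_symm_apply]
    show Affine.Point.map σ.toAlgHom (Affine.Point.map f P) = Affine.Point.map f P
    rw [Affine.Point.map_map, hcomp])
  have hx : IsOfFinAddOrder (e.symm P') := e.symm.toAddMonoidHom.isOfFinAddOrder
    ((Affine.Point.map (W' := (shortRat AB).toAffine) f).isOfFinAddOrder hP)
  have hx1 : addOrderOf (e.symm P') ≠ 1 := fun h => hP'0 (e.symm.injective
    ((AddMonoid.addOrderOf_eq_one_iff.mp h).trans (map_zero e.symm).symm))
  obtain ⟨p, hp, hpd⟩ := Nat.exists_prime_and_dvd hx1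
  obtain ⟨k, hk⟩ := exists_multiple_prime hx hpd
  have hkfix : ∀ σ ∈ H, σ • (k • e.symm P') = k • e.symm P' := fun σ hσ => by
    rw [FA.RT.Tate.gal_smul_nsmul, hxfix σ hσ]
  have hple := hB AB hg p hp _ hk ((ncard_orbit_nsmul_le hx k).trans
    (FA.TorsionDegree.ncard_range_le f.fieldRange _ fun σ τ hστ => by
      have h1 := hxfix (τ⁻¹ * σ) ((IntermediateField.mem_fixingSubgroup_iff _ _).mpr fun y hy => by
        rw [AlgEquiv.mul_apply, hστ y hy, AlgEquiv.aut_inv, AlgEquiv.symm_apply_apply])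
      conv_rhs => rw [← h1, ← mul_smul, mul_inv_cancel_left]))
  exact ⟨⟨p, Finset.mem_filter.mpr ⟨Finset.mem_range.mpr (Nat.lt_succ_of_le hple), hp⟩⟩,
    fun h => false_of_hasFreeFrob hp h hk hkfix⟩

/-- **Torsion of bounded degree is as rare as possible**: outside a negligible set every torsion
point with at most `d` conjugates is conjugate to all points of the same order. -/
theorem almostAll_torsion_degree [inst : DecidableEq (AlgebraicClosure ℚ)] (d : ℕ) :
    Tendsto (fun XY : ℕ × ℕ => (Set.ncard {AB : ℤ × ℤ | |AB.1| ≤ XY.1 ∧ |AB.2| ≤ XY.2 ∧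
        4 * AB.1 ^ 3 + 27 * AB.2 ^ 2 ≠ 0 ∧
        ∃ P : ((⟨0, 0, 0, (AB.1 : ℚ), (AB.2 : ℚ)⟩ :
            WeierstrassCurve ℚ).toAffine⁄(AlgebraicClosure ℚ)).Point,
          IsOfFinAddOrder P ∧
          (Set.range fun σ : AlgebraicClosure ℚ ≃ₐ[ℚ] AlgebraicClosure ℚ =>
            Affine.Point.map σ.toAlgHom P).ncard ≤ d ∧
          (Set.range fun σ : AlgebraicClosure ℚ ≃ₐ[ℚ] AlgebraicClosure ℚ =>
            Affine.Point.map σ.toAlgHom P) ≠ {Q | addOrderOf Q = addOrderOf P}} : ℝ) /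
      ((2 * XY.1 + 1) * (2 * XY.2 + 1))) atTop (𝓝 0) := by
  classical
  obtain rfl : inst = instDecEqAlgebraicClosureRat := Subsingleton.elim _ _
  refine tendsto_of_goodPrimes _ fun S hS => ?_
  obtain ⟨B, hB⟩ := exists_prime_bound hS d
  refine ⟨_, inferInstance, tendsto_not_full (Finset.range (B + 1)),
    fun AB hne hg ⟨P, hP, hd, hne'⟩ => ?_⟩
  haveI : (shortRat AB).IsElliptic := isElliptic_of_ne hne
  have hW := shortInt_isIntegralModelOf AB
  haveI := ratCurve_isElliptic_of_Δ (Δ_ne_zero_of_model hW)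
  obtain ⟨e, he⟩ := FA.Root.exists_equiv_of_model hW
  have heq : (Set.range fun σ : GQ => σ • e.symm P) = e.symm '' Set.range fun σ : GQ =>
      Affine.Point.map (W' := (shortRat AB).toAffine) σ.toAlgHom P := by
    rw [← Set.range_comp]
    congr 1
    funext σ
    rw [Function.comp_apply, e.eq_symm_apply, he, e.apply_symm_apply]
  by_contra hfull
  have h := (orbit_eq_of_few (x := e.symm P) (hB AB hg) hfull
    (e.symm.toAddMonoidHom.isOfFinAddOrder hP)
    (by rw [heq, Set.ncard_image_of_injective _ e.symm.injective]; exact hd)).1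
  refine hne' (e.symm.injective.image_injective (heq.symm.trans (h.trans (Set.ext fun y => ?_))))
  rw [Set.mem_image]
  refine ⟨fun hy => ⟨e y, (addOrderOf_injective e.toAddMonoidHom e.injective y).trans (hy.trans
    (addOrderOf_injective e.symm.toAddMonoidHom e.symm.injective P)), e.symm_apply_apply y⟩, ?_⟩
  rintro ⟨Q, hQ, rfl⟩
  exact (addOrderOf_injective e.symm.toAddMonoidHom e.symm.injective Q).trans
    (hQ.trans (addOrderOf_injective e.symm.toAddMonoidHom e.symm.injective P).symm)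

/-- **Outside one negligible set no curve has torsion over any field of degree at most two.** -/
theorem almostAll_torsionFree_quadratic [inst : DecidableEq (AlgebraicClosure ℚ)] :
    Tendsto (fun XY : ℕ × ℕ => (Set.ncard {AB : ℤ × ℤ | |AB.1| ≤ XY.1 ∧ |AB.2| ≤ XY.2 ∧
        4 * AB.1 ^ 3 + 27 * AB.2 ^ 2 ≠ 0 ∧
        ∃ P : ((⟨0, 0, 0, (AB.1 : ℚ), (AB.2 : ℚ)⟩ :
            WeierstrassCurve ℚ).toAffine⁄(AlgebraicClosure ℚ)).Point,
          P ≠ 0 ∧ IsOfFinAddOrder P ∧
          ∃ K : IntermediateField ℚ (AlgebraicClosure ℚ), FiniteDimensional ℚ K ∧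
            finrank ℚ K ≤ 2 ∧ ∀ σ ∈ K.fixingSubgroup, Affine.Point.map σ.toAlgHom P = P} : ℝ) /
      ((2 * XY.1 + 1) * (2 * XY.2 + 1))) atTop (𝓝 0) := by
  classical
  obtain rfl : inst = instDecEqAlgebraicClosureRat := Subsingleton.elim _ _
  refine tendsto_of_goodPrimes _ fun S hS => ?_
  obtain ⟨B, hB⟩ := exists_prime_bound hS 2
  refine ⟨_, inferInstance, tendsto_not_full (Finset.range (B + 1)),
    fun AB hne hg ⟨P, hP0, hP, K, hK, hK2, hfix⟩ => ?_⟩
  haveI : (shortRat AB).IsElliptic := isElliptic_of_ne hne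
  have hW := shortInt_isIntegralModelOf AB
  haveI := ratCurve_isElliptic_of_Δ (Δ_ne_zero_of_model hW)
  obtain ⟨e, he⟩ := FA.Root.exists_equiv_of_model hW
  have hxfix : ∀ σ ∈ K.fixingSubgroup, σ • e.symm P = e.symm P := fun σ hσ => e.injective (by
    rw [he, e.apply_symm_apply]
    exact hfix σ hσ)
  have hd : (Set.range fun σ : GQ => σ • e.symm P).ncard ≤ 2 :=
    le_trans (FA.TorsionDegree.ncard_range_le K _ fun σ τ hστ => by
      have h1 := hxfix (τ⁻¹ * σ) ((IntermediateField.mem_fixingSubgroup_iff _ _).mpr fun y hy => by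
        rw [AlgEquiv.mul_apply, hστ y hy, AlgEquiv.aut_inv, AlgEquiv.symm_apply_apply])
      conv_rhs => rw [← h1, ← mul_smul, mul_inv_cancel_left]) hK2
  by_contra hfull
  have h := (orbit_eq_of_few (x := e.symm P) (hB AB hg) hfull
    (e.symm.toAddMonoidHom.isOfFinAddOrder hP) hd).2
    fun h0 => hP0 (e.symm.injective (h0.trans (map_zero e.symm).symm))
  omega

end FA.Summary

end
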