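import Fermat.Agent.IsogenyPrimes.Twelve
import Fermat.Agent.Root.SummaryIsogenyPrimes
import Fermat.Agent.Root.SummaryAlmostAllTorsionField
import Fermat.Agent.OpenImageAll.AlmostAllPairs

/-!
# Almost all elliptic curves have no rational isogeny

A stable subgroup of odd prime order `p` of a curve with good or multiplicative reduction at `p`
makes `p` divide the number of points over the field of `l¹²` elements at every other good prime
`l`. Almost every `y² = x³ + A x + B` has a good prime in a fixed finite set and few have `A` and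
`B` divisible by one large prime, so for almost all only finitely many `p` remain, where the sieve
applies: almost every curve is irreducible modulo all primes at once, hence has no finite cyclic
stable subgroup and, complex conjugation being odd, no torsion over the maximal abelian extension.
-/

set_option autoImplicit false
set_option linter.style.haveILetI false

noncomputable section

open Filter Topology NumberField Matrix Module WeierstrassCurve WeierstrassCurve.Affine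
  FA.EC FA.Frob FA.RT FA.RT.Tate FA.HasseBound
open scoped WeierstrassCurve.Affine

local notation "Qb" => AlgebraicClosure ℚ
local notation "GQ" => AlgebraicClosure ℚ ≃ₐ[ℚ] AlgebraicClosure ℚ

namespace FA.AlmostAll

/-- A prime beyond `B₀` divides both coefficients. -/
def CommonPrime (B₀ : ℕ) (AB : ℤ × ℤ) : Prop :=
  ∃ p : ℕ, p.Prime ∧ B₀ < p ∧ (p : ℤ) ∣ AB.1 ∧ (p : ℤ) ∣ AB.2

/-- Few pairs have such a prime. -/
theorem card_commonPrime_le {B₀ : ℕ} (hB : 0 < B₀) {X Y : ℕ} (hX : B₀ ≤ X) (hY : B₀ ≤ Y)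
    [DecidablePred (CommonPrime B₀)] :
    (((box X Y).filter (CommonPrime B₀)).card : ℝ) / ((2 * X + 1) * (2 * Y + 1)) ≤ 6 / B₀ := by
  classical
  set m := min X Y
  let D : ℕ → Finset (ℤ × ℤ) := fun p =>
    ((Finset.Icc (-(X : ℤ)) X).filter fun a : ℤ => ∀ l ∈ ({p} : Finset ℕ),
      (a : ZMod l) = ((0 : ℤ) : ZMod l)) ×ˢ
    ((Finset.Icc (-(Y : ℤ)) Y).filter fun a : ℤ => ∀ l ∈ ({p} : Finset ℕ),
      (a : ZMod l) = ((0 : ℤ) : ZMod l))
  have hsub : (box X Y).filter (CommonPrime B₀) ⊆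
      (({0} : Finset ℤ) ×ˢ Finset.Icc (-(Y : ℤ)) Y ∪ Finset.Icc (-(X : ℤ)) X ×ˢ {0}) ∪
        (Finset.Ioc B₀ m).biUnion D := fun AB hAB => by
    obtain ⟨hb, p, hp, hlt, hA, hB'⟩ := Finset.mem_filter.mp hAB
    obtain ⟨a, b⟩ := AB
    rw [box, Finset.mem_product] at hb
    simp only [Finset.mem_union, Finset.mem_product, Finset.mem_singleton, Finset.mem_biUnion]
    rcases eq_or_ne a 0 with rfl | ha
    · exact Or.inl (Or.inl ⟨rfl, hb.2⟩)
    rcases eq_or_ne b 0 with rfl | hb0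
    · exact Or.inl (Or.inr ⟨hb.1, rfl⟩)
    have h1 := Finset.mem_Icc.mp hb.1
    have h2 := Finset.mem_Icc.mp hb.2
    have hpa := Nat.le_of_dvd (Int.natAbs_pos.mpr ha) (Int.natCast_dvd.mp hA)
    have hpb := Nat.le_of_dvd (Int.natAbs_pos.mpr hb0) (Int.natCast_dvd.mp hB')
    refine Or.inr ⟨p, Finset.mem_Ioc.mpr ⟨hlt, le_min (by omega) (by omega)⟩, ?_⟩
    simp only [D, Finset.mem_product, Finset.mem_filter, Finset.mem_singleton, forall_eq,
      Int.cast_zero, ZMod.intCast_zmod_eq_zero_iff_dvd]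
    exact ⟨⟨hb.1, hA⟩, hb.2, hB'⟩
  have hD : ∀ p ∈ Finset.Ioc B₀ m, ((D p).card : ℝ) ≤
      4 * X * Y * ((p : ℝ) ^ 2)⁻¹ + ((2 * X + 2 * Y) / (B₀ : ℝ) + 1) := fun p hp => by
    have hlt := (Finset.mem_Ioc.mp hp).1
    have h := Nat.mul_le_mul
      (card_filter_le (S := {p}) (m := fun l => l) (by simp [Set.Pairwise]) (by simp; omega) X 0)
      (card_filter_le (S := {p}) (m := fun l => l) (by simp [Set.Pairwise]) (by simp; omega) Y 0)
    rw [Finset.prod_singleton] at h
    have hp0 : (0 : ℝ) < p := by exact_mod_cast (show 0 < p by omega)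
    have hle : ∀ Z : ℕ, ((2 * Z / p : ℕ) : ℝ) ≤ 2 * Z / p := fun Z => by
      refine Nat.cast_div_le.trans (le_of_eq ?_)
      push_cast
      rfl
    have h' : ((D p).card : ℝ) ≤ (2 * X / p + 1) * (2 * Y / p + 1) := by
      refine le_trans (Nat.cast_le.mpr (le_trans (le_of_eq (Finset.card_product _ _)) h)) ?_
      push_cast
      exact mul_le_mul (by linarith [hle X]) (by linarith [hle Y]) (by positivity) (by positivity)
    refine h'.trans ?_
    have hinv : (2 * X + 2 * Y : ℝ) / p ≤ (2 * X + 2 * Y) / B₀ :=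
      div_le_div_of_nonneg_left (by positivity) (by exact_mod_cast hB) (by exact_mod_cast hlt.le)
    have e : (2 * (X : ℝ) / p + 1) * (2 * Y / p + 1) =
        4 * X * Y * ((p : ℝ) ^ 2)⁻¹ + ((2 * X + 2 * Y) / p + 1) := by field_simp; ring
    rw [e]
    linarith
  have hcount : (((box X Y).filter (CommonPrime B₀)).card : ℝ) ≤
      ((2 * Y + 1) + (2 * X + 1)) + ∑ p ∈ Finset.Ioc B₀ m, ((D p).card : ℝ) := by
    have h := (Finset.card_le_card hsub).trans ((Finset.card_union_le _ _).trans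
      (Nat.add_le_add (Finset.card_union_le _ _) Finset.card_biUnion_le))
    rw [Finset.card_product, Finset.card_product, Finset.card_singleton, one_mul, mul_one,
      Int.card_Icc, Int.card_Icc,
      show (X : ℤ) + 1 - -(X : ℤ) = ((2 * X + 1 : ℕ) : ℤ) by push_cast; ring,
      show (Y : ℤ) + 1 - -(Y : ℤ) = ((2 * Y + 1 : ℕ) : ℤ) by push_cast; ring,
      Int.toNat_natCast, Int.toNat_natCast] at h
    exact_mod_cast h
  have hsq : ∑ p ∈ Finset.Ioc B₀ m, ((p : ℝ) ^ 2)⁻¹ ≤ (B₀ : ℝ)⁻¹ :=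
    (sum_Ioc_inv_sq_le_sub hB.ne' (le_min hX hY)).trans
      (sub_le_self _ (by positivity))
  have hsum : ∑ p ∈ Finset.Ioc B₀ m, ((D p).card : ℝ) ≤
      4 * X * Y * (B₀ : ℝ)⁻¹ + m * ((2 * X + 2 * Y) / (B₀ : ℝ) + 1) := by
    refine (Finset.sum_le_sum hD).trans ?_
    rw [Finset.sum_add_distrib, ← Finset.mul_sum, Finset.sum_const, nsmul_eq_mul, Nat.card_Ioc]
    refine add_le_add (mul_le_mul_of_nonneg_left hsq (by positivity))
      (mul_le_mul_of_nonneg_right (Nat.cast_le.mpr (Nat.sub_le _ _)) (by positivity))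
  have hB0 : (0 : ℝ) < B₀ := by exact_mod_cast hB
  have hXB : (B₀ : ℝ) ≤ X := by exact_mod_cast hX
  have hYB : (B₀ : ℝ) ≤ Y := by exact_mod_cast hY
  have hmX : (m : ℝ) ≤ X := by exact_mod_cast min_le_left X Y
  have hmY : (m : ℝ) ≤ Y := by exact_mod_cast min_le_right X Y
  rw [div_le_div_iff₀ (by positivity) hB0]
  have e : (4 * (X : ℝ) * Y * (B₀ : ℝ)⁻¹ + m * ((2 * X + 2 * Y) / (B₀ : ℝ) + 1)) * B₀ =
      4 * X * Y + m * (2 * X + 2 * Y) + m * B₀ := by field_simp; ring
  have h2 := mul_le_mul_of_nonneg_right (hcount.trans (add_le_add le_rfl hsum)) hB0.le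
  rw [add_mul, e] at h2
  nlinarith [mul_le_mul_of_nonneg_right hmY (show (0 : ℝ) ≤ 2 * X by positivity),
    mul_le_mul_of_nonneg_right hmX (show (0 : ℝ) ≤ 2 * Y by positivity),
    mul_le_mul hmX hYB hB0.le (show (0 : ℝ) ≤ X by positivity),
    mul_le_mul_of_nonneg_left hXB (show (0 : ℝ) ≤ 2 * Y + 1 by positivity),
    mul_le_mul_of_nonneg_left hYB (show (0 : ℝ) ≤ 2 * X + 1 by positivity)]

/-- **The primes of stable lines are bounded**, given a good prime in a finite set, except those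
dividing both coefficients. -/
theorem exists_isogeny_bound {S : Finset ℕ} (hS : ∀ q ∈ S, q.Prime ∧ 5 ≤ q) :
    ∃ B : ℕ, ∀ AB : ℤ × ℤ, ∀ [(ratCurve (shortInt AB)).IsElliptic], HasGoodIn S AB →
      ∀ p : ℕ, p.Prime → B < p → ¬ ((p : ℤ) ∣ AB.1 ∧ (p : ℤ) ∣ AB.2) →
        ∀ g : Pts (shortInt AB), p • g = 0 → (∀ σ : GQ, ∃ k : ℕ, σ • g = k • g) → g = 0 := by
  refine ⟨3 ⊔ S.sup id ⊔ S.sup fun q => (Finset.Icc (-(2 * q : ℤ)) (2 * q)).sup fun a =>
    ((q : ℤ) ^ 12 + 1 - pointTrace a q 12).natAbs,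
    fun AB _ ⟨q, hqS, hgood⟩ p hp hlt hnd g hgp hst => ?_⟩
  simp only [sup_lt_iff] at hlt
  obtain ⟨⟨h3, hpS⟩, hbound⟩ := hlt
  by_contra hg0
  haveI := Fact.mk hp
  haveI := Fact.mk (hS q hqS).1
  have hqp : q ≠ p := fun e => absurd ((Finset.le_sup (f := id) hqS).trans_lt hpS) (by simp [e])
  have hss : ¬ ((p : ℤ) ∣ (shortInt AB).Δ ∧ (p : ℤ) ∣ (shortInt AB).c₄) := fun ⟨hΔ, hc⟩ => by
    have hne : ∀ k : ℕ, 0 < k → k < 4 → (k : ZMod p) ≠ 0 := fun k hk hk4 h => by
      have := Nat.le_of_dvd hk ((ZMod.natCast_eq_zero_iff k p).mp h)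
      omega
    have h2 : (2 : ZMod p) ≠ 0 := by exact_mod_cast hne 2 (by norm_num) (by norm_num)
    have h3 : (3 : ZMod p) ≠ 0 := by exact_mod_cast hne 3 (by norm_num) (by norm_num)
    rw [← ZMod.intCast_zmod_eq_zero_iff_dvd] at hΔ hc
    simp only [WeierstrassCurve.Δ, WeierstrassCurve.c₄, WeierstrassCurve.b₂, WeierstrassCurve.b₄,
      WeierstrassCurve.b₆, WeierstrassCurve.b₈] at hΔ hc
    push_cast at hΔ hc
    have hA : (AB.1 : ZMod p) = 0 :=
      (mul_eq_zero.mp (show (2 ^ 4 * 3 : ZMod p) * (AB.1 : ZMod p) = 0 by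
        linear_combination -hc)).resolve_left (mul_ne_zero (pow_ne_zero 4 h2) h3)
    rw [hA] at hΔ
    have hB : (AB.2 : ZMod p) ^ 2 = 0 :=
      (mul_eq_zero.mp (show (2 ^ 4 * 3 ^ 3 : ZMod p) * (AB.2 : ZMod p) ^ 2 = 0 by
        linear_combination -hΔ)).resolve_left (mul_ne_zero (pow_ne_zero 4 h2) (pow_ne_zero 3 h3))
    exact hnd ⟨(ZMod.intCast_zmod_eq_zero_iff_dvd _ p).mp hA,
      (ZMod.intCast_zmod_eq_zero_iff_dvd _ p).mp (pow_eq_zero_iff two_ne_zero |>.mp hB)⟩
  have hdvd := FA.IsogenyPrimes.dvd_of_stable_twelve (by omega) hss hg0 hgp hst (hS q hqS).1 hqp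
    hgood
  haveI : ((shortInt AB).reductionMod q).IsElliptic := ⟨by
    rw [reductionMod, WeierstrassCurve.map_Δ]
    exact (Ne.isUnit fun h => hgood ((ZMod.intCast_zmod_eq_zero_iff_dvd _ q).mp h))⟩
  have hne := FA.TorsionNumberField.pointTrace_ne
    (FA.HasseBound.traceOfFrobenius_sq_le ((shortInt AB).reductionMod q)) (hS q hqS).1.one_lt
    (show 12 ≠ 0 by norm_num)
  have ha : (shortInt AB).apOfModel q ∈ Finset.Icc (-(2 * q : ℤ)) (2 * q) := by
    have h4 : (shortInt AB).apOfModel q ^ 2 ≤ 4 * (q : ℤ) :=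
      FA.HasseBound.traceOfFrobenius_sq_le ((shortInt AB).reductionMod q)
    have hq1 : (5 : ℤ) ≤ q := by exact_mod_cast (hS q hqS).2
    rw [Finset.mem_Icc]
    constructor <;> nlinarith
  exact absurd (le_trans (Nat.le_of_dvd (Int.natAbs_pos.mpr hne) (Int.natCast_dvd.mp hdvd))
    (le_trans (Finset.le_sup (f := fun a : ℤ => ((q : ℤ) ^ 12 + 1 - pointTrace a q 12).natAbs) ha)
      (Finset.le_sup (f := fun q : ℕ => (Finset.Icc (-(2 * q : ℤ)) (2 * q)).sup fun a =>
        ((q : ℤ) ^ 12 + 1 - pointTrace a q 12).natAbs) hqS))) hbound.not_ge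

/-- A torsion point fixed by the commutators, of odd prime order, gives a stable subgroup of that
order. -/
theorem exists_stable_of_commute {W : WeierstrassCurve ℤ} [(ratCurve W).IsElliptic] {p : ℕ}
    [hp : Fact p.Prime] (hp2 : p ≠ 2) {x : Pts W} (hx : addOrderOf x = p)
    (hcomm : ∀ σ τ : GQ, σ • τ • x = τ • σ • x) :
    ∃ g : Pts W, g ≠ 0 ∧ p • g = 0 ∧ ∀ σ : GQ, ∃ k : ℕ, σ • g = k • g := by
  classical
  have hodd : ¬ p ∣ 2 := fun h => hp2 ((Nat.prime_dvd_prime_iff_eq hp.out Nat.prime_two).mp h)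
  have hpx : p • x = 0 := hx ▸ addOrderOf_nsmul_eq_zero x
  have hx0 : x ≠ 0 := fun h => hp.out.one_lt.ne (hx ▸ (h ▸ addOrderOf_zero (G := Pts W))).symm
  have hcc : complexConjugation * complexConjugation = (1 : GQ) := complexConjugation_mul_self
  -- an eigenvector of complex conjugation fixed by the commutators
  obtain ⟨u, ε, hu0, hup, huc, hε⟩ : ∃ (u : Pts W) (ε : ℤ), u ≠ 0 ∧ p • u = 0 ∧
      (∀ σ : GQ, complexConjugation • σ • u = ε • (σ • u)) ∧ (ε = 1 ∨ ε = -1) := by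
    have h2 : complexConjugation • complexConjugation • x = x := by
      rw [← mul_smul, hcc, one_smul]
    have key : ∀ ε : ℤ, ε * ε = 1 → ∀ σ : GQ,
        complexConjugation • σ • (x + ε • (complexConjugation • x)) =
          ε • (σ • (x + ε • (complexConjugation • x))) := fun ε hε σ => by
      have a1 : complexConjugation • σ • x = σ • complexConjugation • x := hcomm _ _
      have a2 : complexConjugation • σ • complexConjugation • x = σ • x := by
        rw [← a1, ← mul_smul complexConjugation complexConjugation, hcc, one_smul]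
      rw [FA.Local.gal_smul_add, FA.Local.gal_smul_add, FA.RT.Tate.gal_smul_zsmul,
        FA.RT.Tate.gal_smul_zsmul, zsmul_add, ← mul_zsmul, hε, one_zsmul, a1, a2, add_comm]
    by_cases h : x + (1 : ℤ) • (complexConjugation • x) = 0
    · refine ⟨x + (-1 : ℤ) • (complexConjugation • x), -1, fun h' => hx0 ?_, ?_,
        key (-1) (by norm_num), Or.inr rfl⟩
      · have hxx : 2 • x = 0 := by
          rw [one_zsmul] at h
          rw [neg_zsmul, one_zsmul] at h'
          rw [two_nsmul, show x + x = (x + complexConjugation • x) + (x + -(complexConjugation • x))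
            by abel, h, h', add_zero]
        exact absurd (hx ▸ addOrderOf_dvd_of_nsmul_eq_zero hxx) hodd
      · rw [nsmul_add, hpx, zero_add, smul_comm p (-1 : ℤ), ← FA.RT.Tate.gal_smul_nsmul, hpx,
          FA.Local.gal_smul_zero, zsmul_zero]
    · refine ⟨x + (1 : ℤ) • (complexConjugation • x), 1, h, ?_, key 1 (by norm_num), Or.inl rfl⟩
      rw [nsmul_add, hpx, zero_add, smul_comm p (1 : ℤ), ← FA.RT.Tate.gal_smul_nsmul, hpx,
        FA.Local.gal_smul_zero, zsmul_zero]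
  refine ⟨u, hu0, hup, fun σ => ?_⟩
  -- the eigenspace is a line
  let V : AddSubgroup (Submodule.torsionBy ℤ ((ratCurve W)⁄Qb).Point (p : ℤ)) :=
    { carrier := {y | complexConjugation • y.1 = ε • y.1}
      add_mem' := fun {a b} ha hb => by
        show complexConjugation • (a.1 + b.1) = ε • (a.1 + b.1)
        rw [FA.Local.gal_smul_add, ha, hb, zsmul_add]
      zero_mem' := by
        show complexConjugation • (0 : Pts W) = ε • (0 : Pts W)
        rw [FA.Local.gal_smul_zero, zsmul_zero]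
      neg_mem' := fun {a} ha => by
        show complexConjugation • (-a.1) = ε • (-a.1)
        rw [smul_neg, ha, zsmul_neg] }
  have hmem : ∀ {y : Pts W}, p • y = 0 →
      y ∈ Submodule.torsionBy ℤ ((ratCurve W)⁄Qb).Point (p : ℤ) := fun {y} hy => by
    rw [Submodule.mem_torsionBy_iff, natCast_zsmul, hy]
  have hne : V ≠ ⊤ := fun htop => by
    have hall : ∀ y : Submodule.torsionBy ℤ ((ratCurve W)⁄Qb).Point (p : ℤ),
        complexConjugation • y.1 = ε • y.1 := fun y => by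
      have h : y ∈ V := htop ▸ AddSubgroup.mem_top y
      exact h
    have hM : curveRep p W complexConjugation = (ε : ZMod p) • (1 : Matrix (Fin 2) (Fin 2) _) := by
      rw [curveRep_apply, show (Affine.Point.galoisRepModuleEnd (K := Qb) ℚ (ratCurve W).toAffine p
          complexConjugation) = (ε : ZMod p) • LinearMap.id from LinearMap.ext fun y =>
        Subtype.ext ((hall y).trans (by
          rw [LinearMap.smul_apply, LinearMap.id_apply, Int.cast_smul_eq_zsmul]
          rfl)), map_smul, LinearMap.toMatrix_id]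
    have hdet := det_complexConjugation (p := p) W hp2
    rw [hM, det_smul, det_one, mul_one, Fintype.card_fin] at hdet
    have h1 : ((1 : ℤ) : ZMod p) = -1 := by
      rw [← hdet, ← Int.cast_pow]
      congr 1
      rcases hε with rfl | rfl <;> norm_num
    rw [Int.cast_one, eq_neg_iff_add_eq_zero, one_add_one_eq_two] at h1
    exact hodd ((ZMod.natCast_eq_zero_iff 2 p).mp (by exact_mod_cast h1))
  haveI : Finite (Submodule.torsionBy ℤ ((ratCurve W)⁄Qb).Point (p : ℤ)) :=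
    FA.EC.finite_torsion (ratCurve W) hp.out.ne_zero
  have hcardV : Nat.card V ≤ p := by
    obtain ⟨i, hi, hV⟩ := (Nat.dvd_prime_pow hp.out).mp
      (FA.EC.natCard_torsion (ratCurve W) hp.out.ne_zero ▸ AddSubgroup.card_addSubgroup_dvd_card V)
    rw [hV]
    rcases Nat.lt_or_ge i 2 with h | h
    · exact (Nat.pow_le_pow_right hp.out.pos (Nat.le_of_lt_succ h)).trans_eq (pow_one p)
    · refine absurd (AddSubgroup.eq_top_of_card_eq V ?_) hne
      rw [hV, FA.EC.natCard_torsion (ratCurve W) hp.out.ne_zero, le_antisymm hi h]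
  have huV : ∀ τ : GQ, (⟨τ • u, hmem (by
      rw [← FA.RT.Tate.gal_smul_nsmul, hup, FA.Local.gal_smul_zero])⟩ :
        Submodule.torsionBy ℤ ((ratCurve W)⁄Qb).Point (p : ℤ)) ∈ V := huc
  set u₁ : Submodule.torsionBy ℤ ((ratCurve W)⁄Qb).Point (p : ℤ) := ⟨u, hmem hup⟩
  have hu1 : u₁ ∈ V := by
    have h := huc 1
    rw [one_smul] at h
    exact h
  have hZ : AddSubgroup.zmultiples u₁ = V := by
    refine SetLike.coe_injective (Set.eq_of_subset_of_ncard_le
      (AddSubgroup.zmultiples_le_of_mem hu1) ?_ (Set.toFinite _))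
    rw [← Nat.card_coe_set_eq, ← Nat.card_coe_set_eq]
    refine hcardV.trans (le_of_eq ?_)
    change p = Nat.card (AddSubgroup.zmultiples u₁)
    rw [Nat.card_zmultiples, addOrderOf_eq_prime (p := p) (Subtype.ext hup) fun h => hu0
      (congrArg Subtype.val h)]
  obtain ⟨k, hk⟩ := (mem_multiples_iff_mem_zmultiples (x := u₁)).mpr (hZ.symm ▸ huV σ)
  exact ⟨k, (congrArg Subtype.val hk).symm⟩

/-- The two transvections modulo two commute on no nonzero vector. -/
theorem transvections_two : ∀ v : Fin 2 → ZMod 2, (!![1, 1; 0, 1] * !![1, 0; 1, 1]) *ᵥ v =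
    (!![1, 0; 1, 1] * !![1, 1; 0, 1]) *ᵥ v → v = 0 := by decide

/-- A cyclic stable subgroup other than zero contains a stable subgroup of prime order. -/
theorem exists_prime_stable {X : Type*} [AddCommGroup X] (a : GQ → X →+ X) (G : AddSubgroup X)
    [Finite G] (hcyc : IsAddCyclic G) (hne : G ≠ ⊥) (hst : ∀ σ, ∀ P ∈ G, a σ P ∈ G) :
    ∃ p : ℕ, p.Prime ∧ ∃ H : AddSubgroup X, Nat.card H = p ∧ ∀ σ, ∀ P ∈ H, a σ P ∈ H := by
  obtain ⟨⟨g, hg⟩, hgen⟩ := hcyc.exists_generator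
  have hgen' : ∀ P ∈ G, P ∈ AddSubgroup.zmultiples g := fun P hP => by
    obtain ⟨k, hk⟩ := AddSubgroup.mem_zmultiples_iff.mp (hgen ⟨P, hP⟩)
    exact AddSubgroup.mem_zmultiples_iff.mpr ⟨k, congrArg Subtype.val hk⟩
  have hfin : IsOfFinAddOrder g :=
    G.subtype.isOfFinAddOrder (isOfFinAddOrder_of_finite (⟨g, hg⟩ : G))
  have h1 : addOrderOf g ≠ 1 := fun h => hne (eq_bot_iff.mpr fun P hP => by
    have := hgen' P hP
    rwa [AddMonoid.addOrderOf_eq_one_iff.mp h, AddSubgroup.zmultiples_zero_eq_bot] at this)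
  obtain ⟨p, hp, hpd⟩ := Nat.exists_prime_and_dvd h1
  obtain ⟨k, hk⟩ := exists_multiple_prime hfin hpd
  refine ⟨p, hp, AddSubgroup.zmultiples (k • g), by rw [Nat.card_zmultiples, hk],
    fun σ P hP => ?_⟩
  obtain ⟨j, rfl⟩ := AddSubgroup.mem_zmultiples_iff.mp hP
  obtain ⟨i, hi⟩ := AddSubgroup.mem_zmultiples_iff.mp (hgen' _ (hst σ g hg))
  rw [map_zsmul, map_nsmul, ← hi]
  refine AddSubgroup.mem_zmultiples_iff.mpr ⟨j * i, ?_⟩
  rw [mul_zsmul, smul_comm i k g]

end FA.AlmostAll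

namespace FA.Summary

open FA.AlmostAll

/-- **An isogeny prime of semistable reduction divides a number of points**: if an odd prime `p`
divides not both the discriminant and `c₄` of an equation and some subgroup of order `p` is stable,
`p` divides the number of points over the field of `l¹²` elements for every good `l ≠ p`. -/
theorem dvd_pointCount_twelve_of_stableSubgroup (E : WeierstrassCurve ℚ) [E.IsElliptic]
    (W : WeierstrassCurve ℤ) (C : VariableChange ℚ) (hW : C • E = W.map (Int.castRingHom ℚ))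
    [inst : DecidableEq (AlgebraicClosure ℚ)] {p : ℕ} (hp : p.Prime) (hp2 : p ≠ 2)
    (hss : ¬ ((p : ℤ) ∣ W.Δ ∧ (p : ℤ) ∣ W.c₄))
    (G : AddSubgroup (E.toAffine⁄(AlgebraicClosure ℚ)).Point) (hcard : Nat.card G = p)
    (hst : ∀ σ : AlgebraicClosure ℚ ≃ₐ[ℚ] AlgebraicClosure ℚ, ∀ P ∈ G,
      Affine.Point.map σ.toAlgHom P ∈ G)
    {l : ℕ} [Fact l.Prime] (hlp : l ≠ p) (hlgood : ¬ (l : ℤ) ∣ W.Δ) :
    p ∣ Nat.card ((W.map (Int.castRingHom (ZMod l))).map
      (algebraMap (ZMod l) (GaloisField l 12))).toAffine.Point := by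
  obtain rfl : inst = instDecEqAlgebraicClosureRat := Subsingleton.elim _ _
  haveI := Fact.mk hp
  have hW' : W.IsIntegralModelOf E := ⟨C, hW⟩
  haveI := FA.Frob.ratCurve_isElliptic_of_Δ (FA.Frob.Δ_ne_zero_of_model hW')
  obtain ⟨g, hg0, hgp, hgst⟩ := FA.IsogenyPrimes.exists_stable_point hW' hp G hcard hst
  have h := FA.IsogenyPrimes.dvd_of_stable_twelve hp2 hss hg0 hgp hgst (Fact.out : l.Prime) hlp
    hlgood
  haveI : (W.reductionMod l).IsElliptic := ⟨isUnit_iff_ne_zero.mpr (by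
    rw [reductionMod, WeierstrassCurve.map_Δ]
    exact fun e => hlgood ((ZMod.intCast_zmod_eq_zero_iff_dvd _ l).mp e))⟩
  haveI : Fintype (GaloisField l 12) := Fintype.ofFinite _
  have hc := FA.HasseBound.natCard_point_extension (W.reductionMod l) (GaloisField l 12)
  rw [GaloisField.finrank l (by norm_num : 12 ≠ 0), ZMod.card] at hc
  have hap : (l : ℤ) + 1 - Nat.card (W.reductionMod l).toAffine.Point = W.apOfModel l := by
    rw [apOfModel, traceOfFrobenius, Nat.card_zmod, WeierstrassCurve.card]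
  rw [hap] at hc
  rw [← hc] at h
  exact_mod_cast h

/-- **Almost all elliptic curves over `ℚ` have no isogeny of any prime degree**: almost every one is
irreducible modulo all primes at once. -/
theorem almostAll_noIsogeny_allPrimes [inst : DecidableEq (AlgebraicClosure ℚ)] :
    Tendsto (fun XY : ℕ × ℕ => (Set.ncard {AB : ℤ × ℤ | |AB.1| ≤ XY.1 ∧ |AB.2| ≤ XY.2 ∧
        4 * AB.1 ^ 3 + 27 * AB.2 ^ 2 ≠ 0 ∧
        ∃ p : ℕ, p.Prime ∧ ∃ G : AddSubgroup ((⟨0, 0, 0, (AB.1 : ℚ), (AB.2 : ℚ)⟩ :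
            WeierstrassCurve ℚ).toAffine⁄(AlgebraicClosure ℚ)).Point, Nat.card G = p ∧
          ∀ σ : AlgebraicClosure ℚ ≃ₐ[ℚ] AlgebraicClosure ℚ, ∀ P ∈ G,
            Affine.Point.map σ.toAlgHom P ∈ G} : ℝ) /
      ((2 * XY.1 + 1) * (2 * XY.2 + 1))) atTop (𝓝 0) := by
  classical
  obtain rfl : inst = instDecEqAlgebraicClosureRat := Subsingleton.elim _ _
  rw [Metric.tendsto_atTop]
  intro ε hε
  obtain ⟨S, hS, hgood⟩ := exists_goodPrimes (show 0 < ε / 3 by positivity)
  obtain ⟨B, hB⟩ := exists_isogeny_bound hS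
  obtain ⟨n, hn⟩ := exists_nat_gt (18 / ε)
  set B₀ := B + n + 1 with hB₀
  have hI := tendsto_exists (bad := fun (i : (Finset.range (B₀ + 1)).filter Nat.Prime) AB =>
    ¬ IrrFrob (i : ℕ) AB) fun i => tendsto_not_irrFrob (Finset.mem_filter.mp i.2).2
  rw [Metric.tendsto_atTop] at hI
  obtain ⟨N, hN⟩ := hI (ε / 3) (by positivity)
  refine ⟨N ⊔ (∏ q ∈ S, q, ∏ q ∈ S, q) ⊔ (B₀, B₀), fun XY hXY => ?_⟩
  have h1 := hN XY (le_sup_left.trans (le_sup_left.trans hXY))
  have h2 := hgood XY.1 XY.2 (le_sup_right.trans (le_sup_left.trans hXY)).1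
    (le_sup_right.trans (le_sup_left.trans hXY)).2
  have h3 := card_commonPrime_le (show 0 < B₀ by omega) (le_sup_right.trans hXY).1
    (le_sup_right.trans hXY).2
  have h3' : (6 : ℝ) / B₀ < ε / 3 := by
    have : (n : ℝ) < B₀ := by exact_mod_cast (show n < B₀ by omega)
    rw [div_lt_div_iff₀ (by exact_mod_cast (show 0 < B₀ by omega)) (by norm_num)]
    rw [div_lt_iff₀ hε] at hn
    nlinarith
  rw [Real.dist_eq, sub_zero, abs_of_nonneg (by positivity)] at h1 ⊢
  have hsub : Set.ncard {AB : ℤ × ℤ | |AB.1| ≤ XY.1 ∧ |AB.2| ≤ XY.2 ∧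
      4 * AB.1 ^ 3 + 27 * AB.2 ^ 2 ≠ 0 ∧
      ∃ p : ℕ, p.Prime ∧ ∃ G : AddSubgroup ((⟨0, 0, 0, (AB.1 : ℚ), (AB.2 : ℚ)⟩ :
          WeierstrassCurve ℚ).toAffine⁄(AlgebraicClosure ℚ)).Point, Nat.card G = p ∧
        ∀ σ : AlgebraicClosure ℚ ≃ₐ[ℚ] AlgebraicClosure ℚ, ∀ P ∈ G,
          Affine.Point.map σ.toAlgHom P ∈ G} ≤
      ((box XY.1 XY.2).filter fun AB => ¬ HasGoodIn S AB).card +
        ((box XY.1 XY.2).filter (CommonPrime B₀)).card +
        ((box XY.1 XY.2).filter fun AB =>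
          ∃ i : (Finset.range (B₀ + 1)).filter Nat.Prime, ¬ IrrFrob (i : ℕ) AB).card := by
    refine le_trans ?_ ((Finset.card_union_le _ _).trans
      (Nat.add_le_add_right (Finset.card_union_le _ _) _))
    rw [← Set.ncard_coe_finset]
    refine Set.ncard_le_ncard (fun AB hAB => ?_) (Finset.finite_toSet _)
    obtain ⟨hX, hY, hne, p, hp, G, hcard, hst⟩ := hAB
    have hb : AB ∈ box XY.1 XY.2 := by
      rw [box, Finset.mem_product, Finset.mem_Icc, Finset.mem_Icc]
      exact ⟨abs_le.mp hX, abs_le.mp hY⟩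
    simp only [Finset.mem_coe, Finset.mem_union, Finset.mem_filter, hb, true_and]
    by_contra hc
    simp only [not_or, not_not, not_exists] at hc
    obtain ⟨⟨hg, hcom⟩, hirr⟩ := hc
    haveI : (shortRat AB).IsElliptic := isElliptic_of_ne hne
    have hW := shortInt_isIntegralModelOf AB
    haveI := ratCurve_isElliptic_of_Δ (Δ_ne_zero_of_model hW)
    haveI := Fact.mk hp
    rcases le_or_gt p B₀ with hle | hlt
    · exact FA.Root.not_modRepIsIrreducible_of_model_subgroup hW hp G hcard hst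
        (irreducible_of_irrFrob (hirr ⟨p, Finset.mem_filter.mpr
          ⟨Finset.mem_range.mpr (Nat.lt_succ_of_le hle), hp⟩⟩))
    · obtain ⟨g, hg0, hgp, hgst⟩ := FA.IsogenyPrimes.exists_stable_point hW hp G hcard hst
      exact hg0 (hB AB hg p hp (by omega)
        (fun ⟨hA, hB'⟩ => hcom ⟨p, hp, hlt, hA, hB'⟩) g hgp hgst)
  refine lt_of_le_of_lt (div_le_div_of_nonneg_right (Nat.cast_le.mpr hsub) (by positivity)) ?_
  rw [Nat.cast_add, Nat.cast_add, add_div, add_div]
  linarith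

/-- **Almost all elliptic curves over `ℚ` have no cyclic isogeny**: almost none has a finite cyclic
Galois stable subgroup other than zero. -/
theorem almostAll_noCyclicSubgroup [inst : DecidableEq (AlgebraicClosure ℚ)] :
    Tendsto (fun XY : ℕ × ℕ => (Set.ncard {AB : ℤ × ℤ | |AB.1| ≤ XY.1 ∧ |AB.2| ≤ XY.2 ∧
        4 * AB.1 ^ 3 + 27 * AB.2 ^ 2 ≠ 0 ∧
        ∃ G : AddSubgroup ((⟨0, 0, 0, (AB.1 : ℚ), (AB.2 : ℚ)⟩ :
            WeierstrassCurve ℚ).toAffine⁄(AlgebraicClosure ℚ)).Point,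
          Finite G ∧ IsAddCyclic G ∧ G ≠ ⊥ ∧
          ∀ σ : AlgebraicClosure ℚ ≃ₐ[ℚ] AlgebraicClosure ℚ, ∀ P ∈ G,
            Affine.Point.map σ.toAlgHom P ∈ G} : ℝ) /
      ((2 * XY.1 + 1) * (2 * XY.2 + 1))) atTop (𝓝 0) := by
  classical
  refine squeeze_zero (fun XY => by positivity) (fun XY => ?_)
    (almostAll_noIsogeny_allPrimes (inst := inst))
  refine div_le_div_of_nonneg_right (Nat.cast_le.mpr (Set.ncard_le_ncard ?_ ?_)) (by positivity)
  · rintro AB ⟨hX, hY, hne, G, hG, hcyc, hbot, hst⟩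
    exact ⟨hX, hY, hne, exists_prime_stable
      (fun σ => Affine.Point.map σ.toAlgHom) G hcyc hbot hst⟩
  · exact ((box XY.1 XY.2).finite_toSet).subset fun AB h => by
      rw [Finset.mem_coe, box, Finset.mem_product, Finset.mem_Icc, Finset.mem_Icc]
      exact ⟨abs_le.mp h.1, abs_le.mp h.2.1⟩

/-- **Almost all elliptic curves over `ℚ` have no torsion over the maximal abelian extension.** -/
theorem almostAll_torsionFree_abelian [inst : DecidableEq (AlgebraicClosure ℚ)] :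
    Tendsto (fun XY : ℕ × ℕ => (Set.ncard {AB : ℤ × ℤ | |AB.1| ≤ XY.1 ∧ |AB.2| ≤ XY.2 ∧
        4 * AB.1 ^ 3 + 27 * AB.2 ^ 2 ≠ 0 ∧
        ∃ P : ((⟨0, 0, 0, (AB.1 : ℚ), (AB.2 : ℚ)⟩ :
            WeierstrassCurve ℚ).toAffine⁄(AlgebraicClosure ℚ)).Point,
          P ≠ 0 ∧ IsOfFinAddOrder P ∧
          ∀ σ τ : AlgebraicClosure ℚ ≃ₐ[ℚ] AlgebraicClosure ℚ,
            Affine.Point.map (σ * τ * σ⁻¹ * τ⁻¹).toAlgHom P = P} : ℝ) /
      ((2 * XY.1 + 1) * (2 * XY.2 + 1))) atTop (𝓝 0) := by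
  classical
  obtain rfl : inst = instDecEqAlgebraicClosureRat := Subsingleton.elim _ _
  have hsum := (almostAll_noIsogeny_allPrimes
    (inst := instDecEqAlgebraicClosureRat)).add (almostAll_everyLevel
      (inst := instDecEqAlgebraicClosureRat) (show (2 : ℕ) ≠ 0 by norm_num))
  rw [add_zero] at hsum
  refine squeeze_zero (fun XY => by positivity) (fun XY => ?_) hsum
  rw [← add_div, ← Nat.cast_add]
  refine div_le_div_of_nonneg_right (Nat.cast_le.mpr ?_) (by positivity)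
  refine le_trans (Set.ncard_le_ncard (fun AB hAB => ?_) ?_) (Set.ncard_union_le _ _)
  swap
  · exact (((box XY.1 XY.2).finite_toSet).union ((box XY.1 XY.2).finite_toSet)).subset
      (Set.union_subset_union (fun AB h => Finset.mem_coe.mpr (mem_box.mpr ⟨h.1, h.2.1⟩)) fun AB h => Finset.mem_coe.mpr (mem_box.mpr ⟨h.1, h.2.1⟩))
  obtain ⟨hX, hY, hne, P, hP0, hP, hcomm⟩ := hAB
  haveI : (shortRat AB).IsElliptic := isElliptic_of_ne hne
  have hW := shortInt_isIntegralModelOf AB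
  haveI := ratCurve_isElliptic_of_Δ (Δ_ne_zero_of_model hW)
  obtain ⟨e, he⟩ := FA.Root.exists_equiv_of_model hW
  have hx : IsOfFinAddOrder (e.symm P) := e.symm.toAddMonoidHom.isOfFinAddOrder hP
  have hcx : ∀ σ τ : GQ, σ • τ • e.symm P = τ • σ • e.symm P := fun σ τ => by
    have h2 : (σ⁻¹ * τ⁻¹ * σ * τ) • e.symm P = e.symm P := e.injective (by
      rw [he, e.apply_symm_apply]
      simpa using hcomm σ⁻¹ τ⁻¹)
    calc σ • τ • e.symm P = (τ * σ * (σ⁻¹ * τ⁻¹ * σ * τ)) • e.symm P := by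
          rw [← mul_smul]; congr 1; group
      _ = τ • σ • e.symm P := by rw [mul_smul, h2, mul_smul]
  have hx1 : addOrderOf (e.symm P) ≠ 1 := fun h => hP0 (e.symm.injective
    ((AddMonoid.addOrderOf_eq_one_iff.mp h).trans (map_zero e.symm).symm))
  obtain ⟨p, hp, hpd⟩ := Nat.exists_prime_and_dvd hx1
  obtain ⟨k, hk⟩ := exists_multiple_prime hx hpd
  haveI := Fact.mk hp
  have hck : ∀ σ τ : GQ, σ • τ • (k • e.symm P) = τ • σ • (k • e.symm P) := fun σ τ => by
    simp only [FA.RT.Tate.gal_smul_nsmul, hcx σ τ]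
  rcases eq_or_ne p 2 with rfl | hp2
  · refine Or.inr ⟨hX, hY, hne, fun hfull => ?_⟩
    -- all points of order two would be fixed by the commutators
    obtain ⟨b⟩ := FA.PadicImage.nonempty_torsion_equiv (shortInt AB) (N := 2)
    obtain ⟨T, hT⟩ := FA.Root.exists_torsionBy_congr e (2 : ℤ)
    have hreal : ∀ M : Matrix (Fin 2) (Fin 2) (ZMod 2), IsUnit M.det →
        ∃ σ : GQ, ∀ y, σ • y.1 = (b (M *ᵥ b.symm y)).1 := fun M hM => by
      obtain ⟨φ, hφ⟩ := FA.Independence.Adelic.exists_addEquiv b.symm.toAddEquiv hM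
      obtain ⟨σ, hσ⟩ := hfull ((T.symm.trans φ).trans T)
      refine ⟨σ, fun y => e.injective ?_⟩
      rw [he, ← hT, hσ, AddEquiv.trans_apply, AddEquiv.trans_apply, T.symm_apply_apply, hT, hφ]
      rfl
    obtain ⟨σ, hσ⟩ := hreal !![1, 1; 0, 1] (by simp [det_fin_two_of])
    obtain ⟨τ, hτ⟩ := hreal !![1, 0; 1, 1] (by simp [det_fin_two_of])
    have hmem : k • e.symm P ∈
        Submodule.torsionBy ℤ ((ratCurve (shortInt AB))⁄Qb).Point ((2 : ℕ) : ℤ) := by
      rw [Submodule.mem_torsionBy_iff, natCast_zsmul]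
      exact hk ▸ addOrderOf_nsmul_eq_zero _
    have h := hck σ τ
    rw [hτ ⟨_, hmem⟩, hσ ⟨_, hmem⟩, hσ, hτ] at h
    simp only [LinearEquiv.symm_apply_apply, mulVec_mulVec] at h
    have h' := b.injective (Subtype.ext h)
    have h0 := congrArg (fun y => y.1) ((map_eq_zero_iff _ b.symm.injective).mp (transvections_two _ h'))
    exact absurd (show (2 : ℕ) = 1 by rw [← hk, show k • e.symm P = 0 from h0, addOrderOf_zero]) (by norm_num)
  · obtain ⟨g, hg0, hgp, hgst⟩ := exists_stable_of_commute hp2 hk hck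
    refine Or.inl ⟨hX, hY, hne, p, hp, AddSubgroup.zmultiples (e g), ?_, fun σ R hR => ?_⟩
    · rw [Nat.card_zmultiples]
      exact (addOrderOf_injective e.toAddMonoidHom e.injective g).trans
        (addOrderOf_eq_prime hgp hg0)
    · obtain ⟨j, rfl⟩ := AddSubgroup.mem_zmultiples_iff.mp hR
      obtain ⟨i, hi⟩ := hgst σ
      rw [map_zsmul, ← he, hi, map_nsmul]
      exact AddSubgroup.zsmul_mem _ (AddSubgroup.nsmul_mem _ (AddSubgroup.mem_zmultiples _) i) j

end FA.Summary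

end
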