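import Fermat.Agent.Root.SummaryAlmostAllSurjective
import Fermat.Agent.Root.SummarySurjectiveAdelic

/-!
# Almost all elliptic curves have the largest image at every level prime to six

For `N` prime to `6` almost every `y² = x³ + A x + B` has all of `Aut E[N]` as image of Galois:
modulo each prime dividing `N` it has every Frobenius polynomial, so the image modulo every power of
the prime is everything, and the levels glue. One negligible set serves all `N` with prime factors
in a given finite set.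
-/

set_option autoImplicit false
set_option linter.style.haveILetI false

noncomputable section

open Filter Topology Matrix WeierstrassCurve WeierstrassCurve.Affine FA.EC FA.Frob FA.RT
open scoped WeierstrassCurve.Affine

local notation "GQ" => AlgebraicClosure ℚ ≃ₐ[ℚ] AlgebraicClosure ℚ

namespace FA.AlmostAll

/-- Every Frobenius polynomial modulo each prime of `N` gives every automorphism of the
`N`-torsion. -/
theorem exists_smul_eq_of_hasFrob {AB : ℤ × ℤ} [(ratCurve (shortInt AB)).IsElliptic] {N : ℕ}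
    (hN0 : N ≠ 0) (h5 : ∀ l ∈ N.primeFactors, 5 ≤ l)
    (h : ∀ l ∈ N.primeFactors, ∀ t d : ZMod l, d ≠ 0 → HasFrob l t d AB)
    (φ : Submodule.torsionBy ℤ ((ratCurve (shortInt AB))⁄(AlgebraicClosure ℚ)).Point (N : ℤ) ≃+
      Submodule.torsionBy ℤ ((ratCurve (shortInt AB))⁄(AlgebraicClosure ℚ)).Point (N : ℤ)) :
    ∃ σ : GQ, ∀ x, σ • x.1 = (φ x).1 := by
  have hreach : ∀ l ∈ N.primeFactors, ∀ [Fact l.Prime], FA.PadicImage.ReachAll l (shortInt AB) :=
    fun l hl _ => FA.PadicImage.reachAll_of_base (h5 l hl) fun B M hM => by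
      obtain ⟨σ, hσ⟩ := exists_curveRep_of_hasFrob (h5 l hl) (h l hl) hM
      exact ⟨σ, (FA.PadicImage.rep_map_toZMod B σ).trans hσ⟩
  refine FA.PadicImage.exists_smul_eq_adelic_of_glue hN0 hreach (fun f hf =>
    FA.PadicImage.exists_glue_of_moves _ f hf fun a ha g hg => ?_) φ
  have hap := Nat.prime_of_mem_primeFactors ha
  haveI := Fact.mk hap
  have ha5 := h5 a ha
  refine FA.PadicImage.exists_mem_fixer (by omega) (hreach a ha) _ (fun l hl => ?_)
    (fun l hl => Nat.prime_of_mem_primeFactors hl) g hg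
  obtain ⟨hlN, hla⟩ := Finset.mem_filter.mp hl
  have hlp := Nat.prime_of_mem_primeFactors hlN
  have hl5 := h5 l hlN
  refine ⟨hlp, ?_⟩
  rcases hlp.eq_two_or_odd with h2 | h2
  · omega
  · have := hap.eq_two_or_odd
    omega

end FA.AlmostAll

namespace FA.Summary

open FA.AlmostAll

/-- **Duke's theorem at all levels supported on given primes `≥ 5`**: outside one negligible set
Galois induces every automorphism of `E[N]` for every `N` with prime factors in `S`. -/
theorem almostAll_levels [inst : DecidableEq (AlgebraicClosure ℚ)] (S : Finset ℕ)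
    (hS : ∀ l ∈ S, l.Prime ∧ 5 ≤ l) :
    Tendsto (fun XY : ℕ × ℕ => (Set.ncard {AB : ℤ × ℤ | |AB.1| ≤ XY.1 ∧ |AB.2| ≤ XY.2 ∧
        4 * AB.1 ^ 3 + 27 * AB.2 ^ 2 ≠ 0 ∧
        ∃ N : ℕ, N ≠ 0 ∧ N.primeFactors ⊆ S ∧
        ¬ ∀ φ : Submodule.torsionBy ℤ ((⟨0, 0, 0, (AB.1 : ℚ), (AB.2 : ℚ)⟩ :
              WeierstrassCurve ℚ).toAffine⁄(AlgebraicClosure ℚ)).Point (N : ℤ) ≃+
            Submodule.torsionBy ℤ ((⟨0, 0, 0, (AB.1 : ℚ), (AB.2 : ℚ)⟩ :
              WeierstrassCurve ℚ).toAffine⁄(AlgebraicClosure ℚ)).Point (N : ℤ),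
          ∃ σ : AlgebraicClosure ℚ ≃ₐ[ℚ] AlgebraicClosure ℚ, ∀ P,
            Affine.Point.map σ.toAlgHom P.1 = (φ P).1} : ℝ) /
      ((2 * XY.1 + 1) * (2 * XY.2 + 1))) atTop (𝓝 0) := by
  classical
  obtain rfl : inst = instDecEqAlgebraicClosureRat := Subsingleton.elim _ _
  haveI : ∀ l : S, Fact (l : ℕ).Prime := fun l => ⟨(hS l l.2).1⟩
  refine squeeze_zero (fun XY => by positivity) (fun XY => ?_)
    (tendsto_exists (bad := fun (i : Σ l : S, ZMod (l : ℕ) × (ZMod (l : ℕ))ˣ) AB =>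
      ¬ HasFrob (i.1 : ℕ) i.2.1 i.2.2 AB)
      fun i => tendsto_not_hasFrob (hS i.1 i.1.2).1 (by have := (hS i.1 i.1.2).2; omega)
        i.2.1 i.2.2.ne_zero)
  refine div_le_div_of_nonneg_right (Nat.cast_le.mpr ?_) (by positivity)
  rw [← Set.ncard_coe_finset]
  refine Set.ncard_le_ncard (fun AB h => ?_) (Finset.finite_toSet _)
  obtain ⟨hX, hY, hne, N, hN, hNS, hns⟩ := h
  rw [Finset.mem_coe, Finset.mem_filter, box, Finset.mem_product, Finset.mem_Icc, Finset.mem_Icc]
  refine ⟨⟨abs_le.mp hX, abs_le.mp hY⟩, by_contra fun hall => hns ?_⟩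
  push Not at hall
  haveI : (shortRat AB).IsElliptic := isElliptic_of_ne hne
  have hW := shortInt_isIntegralModelOf AB
  haveI := ratCurve_isElliptic_of_Δ (Δ_ne_zero_of_model hW)
  refine fun φ => FA.Root.exists_map_eq_of_model hW N (fun ψ => exists_smul_eq_of_hasFrob hN
    (fun l hl => (hS l (hNS hl)).2) (fun l hl t d hd => ?_) ψ) φ
  haveI := Fact.mk (hS l (hNS hl)).1
  exact hall ⟨⟨l, hNS hl⟩, t, Units.mk0 d hd⟩

/-- **Duke's theorem at every level prime to six**: almost all elliptic curves over `ℚ` have all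
of `Aut E[N]` as image of Galois. -/
theorem almostAll_level [inst : DecidableEq (AlgebraicClosure ℚ)] {N : ℕ} (hN : N.Coprime 6) :
    Tendsto (fun XY : ℕ × ℕ => (Set.ncard {AB : ℤ × ℤ | |AB.1| ≤ XY.1 ∧ |AB.2| ≤ XY.2 ∧
        4 * AB.1 ^ 3 + 27 * AB.2 ^ 2 ≠ 0 ∧
        ¬ ∀ φ : Submodule.torsionBy ℤ ((⟨0, 0, 0, (AB.1 : ℚ), (AB.2 : ℚ)⟩ :
              WeierstrassCurve ℚ).toAffine⁄(AlgebraicClosure ℚ)).Point (N : ℤ) ≃+
            Submodule.torsionBy ℤ ((⟨0, 0, 0, (AB.1 : ℚ), (AB.2 : ℚ)⟩ :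
              WeierstrassCurve ℚ).toAffine⁄(AlgebraicClosure ℚ)).Point (N : ℤ),
          ∃ σ : AlgebraicClosure ℚ ≃ₐ[ℚ] AlgebraicClosure ℚ, ∀ P,
            Affine.Point.map σ.toAlgHom P.1 = (φ P).1} : ℝ) /
      ((2 * XY.1 + 1) * (2 * XY.2 + 1))) atTop (𝓝 0) := by
  classical
  have hN0 : N ≠ 0 := fun e => by rw [e] at hN; norm_num at hN
  refine squeeze_zero (fun XY => by positivity) (fun XY => ?_)
    (almostAll_levels (inst := inst) N.primeFactors fun l hl => ⟨Nat.prime_of_mem_primeFactors hl, by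
      have hlp := Nat.prime_of_mem_primeFactors hl
      have hd := Nat.dvd_of_mem_primeFactors hl
      rcases le_or_gt 5 l with h | h
      · exact h
      · have h1 : l.Coprime 6 := hN.coprime_dvd_left hd
        have := hlp.two_le
        interval_cases l <;> first | (norm_num at h1; done) | (norm_num at hlp; done)⟩)
  refine div_le_div_of_nonneg_right (Nat.cast_le.mpr (Set.ncard_le_ncard
    (fun AB h => ⟨h.1, h.2.1, h.2.2.1, N, hN0, subset_rfl, h.2.2.2⟩) ?_)) (by positivity)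
  exact ((box XY.1 XY.2).finite_toSet).subset fun AB h => by
    rw [Finset.mem_coe, box, Finset.mem_product, Finset.mem_Icc, Finset.mem_Icc]
    exact ⟨abs_le.mp h.1, abs_le.mp h.2.1⟩

end FA.Summary

end
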