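import Fermat.Agent.Root.SummaryAlmostAllSerreCurves
import Fermat.Agent.SerreCurve.Level

/-!
# The image at every level for almost all elliptic curves

For almost every `y² = x³ + A x + B` one even `m` describes the image of Galois at all levels at
once: it is the whole of `Aut E[N]` exactly when `m ∤ N`, and every prime of odd exponent in
`4 A³ + 27 B²` divides `m`.
-/

set_option autoImplicit false
set_option linter.style.haveILetI false

noncomputable section

open Filter Topology WeierstrassCurve WeierstrassCurve.Affine FA.EC FA.Frob FA.RT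
open scoped WeierstrassCurve.Affine

local notation "Qb" => AlgebraicClosure ℚ
local notation "GQ" => AlgebraicClosure ℚ ≃ₐ[ℚ] AlgebraicClosure ℚ

namespace FA.AlmostAll

/-- A prime other than two divides `4 A³ + 27 B²` and the discriminant to the same exponent. -/
theorem padicValInt_disc {p : ℕ} (hp : p.Prime) (hp2 : p ≠ 2) {AB : ℤ × ℤ}
    (hne : 4 * AB.1 ^ 3 + 27 * AB.2 ^ 2 ≠ 0) :
    padicValInt p (shortInt AB).Δ = padicValInt p (4 * AB.1 ^ 3 + 27 * AB.2 ^ 2) := by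
  haveI := Fact.mk hp
  have hΔ : (shortInt AB).Δ = -16 * (4 * AB.1 ^ 3 + 27 * AB.2 ^ 2) := by
    simp only [WeierstrassCurve.Δ, WeierstrassCurve.b₂, WeierstrassCurve.b₄, WeierstrassCurve.b₆,
      WeierstrassCurve.b₈]
    ring
  have h16 : ¬ (p : ℤ) ∣ -16 := fun hd => hp2 ((Nat.prime_dvd_prime_iff_eq hp Nat.prime_two).mp
    (hp.dvd_of_dvd_pow (show p ∣ 2 ^ 4 by simpa using Int.natCast_dvd.mp hd)))
  rw [hΔ, padicValInt.mul (by norm_num) hne, padicValInt.eq_zero_of_not_dvd h16, zero_add]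

end FA.AlmostAll

namespace FA.Summary

open FA.AlmostAll

/-- **Almost all elliptic curves over `ℚ` have one exceptional level**: outside a negligible set
some even `m`, divisible by every prime of odd exponent in `4 A³ + 27 B²`, is such that Galois
induces every automorphism of the `N`-torsion exactly when `m ∤ N`. -/
theorem almostAll_exactLevel [inst : DecidableEq (AlgebraicClosure ℚ)] :
    Tendsto (fun XY : ℕ × ℕ => (Set.ncard {AB : ℤ × ℤ | |AB.1| ≤ XY.1 ∧ |AB.2| ≤ XY.2 ∧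
        4 * AB.1 ^ 3 + 27 * AB.2 ^ 2 ≠ 0 ∧
        ¬ ∃ m : ℕ, 0 < m ∧ 2 ∣ m ∧
          (∀ p : ℕ, p.Prime → ¬ 2 ∣ padicValInt p (4 * AB.1 ^ 3 + 27 * AB.2 ^ 2) → p ∣ m) ∧
          ∀ N : ℕ, N ≠ 0 → ((∀ φ : Submodule.torsionBy ℤ ((⟨0, 0, 0, (AB.1 : ℚ), (AB.2 : ℚ)⟩ :
                WeierstrassCurve ℚ).toAffine⁄(AlgebraicClosure ℚ)).Point (N : ℤ) ≃+
              Submodule.torsionBy ℤ ((⟨0, 0, 0, (AB.1 : ℚ), (AB.2 : ℚ)⟩ :
                WeierstrassCurve ℚ).toAffine⁄(AlgebraicClosure ℚ)).Point (N : ℤ),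
            ∃ σ : GQ, ∀ P, Affine.Point.map σ.toAlgHom P.1 = (φ P).1) ↔ ¬ m ∣ N)} : ℝ) /
      ((2 * XY.1 + 1) * (2 * XY.2 + 1))) atTop (𝓝 0) := by
  obtain rfl : inst = instDecEqAlgebraicClosureRat := Subsingleton.elim _ _
  refine tendsto_of_generic _ fun AB hE _ h hno => hno ?_
  have hW := shortInt_isIntegralModelOf AB
  obtain ⟨q, hS⟩ := exists_setting h (Δ_ne_zero_of_model hW)
  obtain ⟨m, hm0, h2m, hdvd, hiff⟩ := FA.SerreCurve.exists_level hS
  have hne : 4 * AB.1 ^ 3 + 27 * AB.2 ^ 2 ≠ 0 := fun e => Δ_ne_zero_of_model hW (by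
    simp only [WeierstrassCurve.Δ, WeierstrassCurve.b₂, WeierstrassCurve.b₄, WeierstrassCurve.b₆,
      WeierstrassCurve.b₈]
    linear_combination -16 * e)
  refine ⟨m, hm0, h2m, fun p hp hv => ?_, ?_⟩
  · rcases eq_or_ne p 2 with rfl | hp2
    · exact h2m
    · exact hdvd p hp (by rwa [padicValInt_disc hp hp2 hne])
  rw [show (⟨0, 0, 0, (AB.1 : ℚ), (AB.2 : ℚ)⟩ : WeierstrassCurve ℚ) = ratCurve (shortInt AB) by
    ext <;> simp]
  exact hiff

end FA.Summary

end
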