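import Fermat.Agent.OpenImageAll.AlmostAll
import Fermat.Agent.Root.SummaryOpenImageJ
import Fermat.Agent.Root.SummaryTwistCriterion

/-!
# Almost all elliptic curves over `ℚ` have an open adelic image

Among the equations `y² = x³ + A x + B` with `|A| ≤ X`, `|B| ≤ Y` and `4 A³ + 27 B² ≠ 0` the
proportion of those whose adelic image of Galois is not open, and of those with an integral
invariant, tends to zero with `X, Y → ∞`; in particular for the height `max (|A|³, B²)`.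
-/

set_option autoImplicit false
set_option linter.style.haveILetI false

noncomputable section

open Filter Topology WeierstrassCurve WeierstrassCurve.Affine FA.EC FA.Frob FA.RT
open scoped WeierstrassCurve.Affine

namespace FA.AlmostAll

/-- A multiplicative prime of `y² = x³ + A x + B` is a pole of the invariant. -/
theorem pole_of_mult {A B : ℤ} {l : ℕ} (hl : l.Prime) (h5 : 5 ≤ l)
    (hΔ : (l : ℤ) ∣ 4 * A ^ 3 + 27 * B ^ 2) (hA : ¬ (l : ℤ) ∣ A)
    [(⟨0, 0, 0, (A : ℚ), (B : ℚ)⟩ : WeierstrassCurve ℚ).IsElliptic] :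
    padicValRat l (⟨0, 0, 0, (A : ℚ), (B : ℚ)⟩ : WeierstrassCurve ℚ).j < 0 := by
  haveI := Fact.mk hl
  have hW : (⟨0, 0, 0, A, B⟩ : WeierstrassCurve ℤ).IsIntegralModelOf ⟨0, 0, 0, (A : ℚ), (B : ℚ)⟩ :=
    ⟨1, by rw [one_smul]; ext <;> simp⟩
  have hd : (⟨0, 0, 0, A, B⟩ : WeierstrassCurve ℤ).Δ = -16 * (4 * A ^ 3 + 27 * B ^ 2) := by
    simp only [WeierstrassCurve.Δ, WeierstrassCurve.b₂, WeierstrassCurve.b₄, WeierstrassCurve.b₆,
      WeierstrassCurve.b₈]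
    ring
  have hc : (⟨0, 0, 0, A, B⟩ : WeierstrassCurve ℤ).c₄ = -48 * A := by
    simp only [WeierstrassCurve.c₄, WeierstrassCurve.b₂, WeierstrassCurve.b₄]
    ring
  have hne := Δ_ne_zero_of_model hW
  have hc4 : ¬ (l : ℤ) ∣ (⟨0, 0, 0, A, B⟩ : WeierstrassCurve ℤ).c₄ := by
    rw [hc]
    rintro h
    rcases (Nat.prime_iff_prime_int.mp hl).dvd_mul.mp h with h | h
    · have h48 : l ∣ 3 * 2 ^ 4 := by
        have := Int.natCast_dvd.mp h
        norm_num at this ⊢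
        exact this
      rcases hl.dvd_mul.mp h48 with h3 | h2
      · have := Nat.le_of_dvd (by norm_num) h3; omega
      · have := Nat.le_of_dvd (by norm_num) (hl.dvd_of_dvd_pow h2); omega
    · exact hA h
  rw [FA.OggShafarevich.j_eq_of_model hW, padicValRat.div
    (pow_ne_zero 3 (Int.cast_ne_zero.mpr fun e => hc4 (by rw [e]; exact dvd_zero _)))
    (Int.cast_ne_zero.mpr hne), padicValRat.pow, padicValRat.of_int, padicValRat.of_int,
    padicValInt.eq_zero_of_not_dvd hc4]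
  have hdvd : (l : ℤ) ∣ (⟨0, 0, 0, A, B⟩ : WeierstrassCurve ℤ).Δ := hd ▸ dvd_mul_of_dvd_right hΔ _
  have : 1 ≤ padicValNat l (⟨0, 0, 0, A, B⟩ : WeierstrassCurve ℤ).Δ.natAbs :=
    one_le_padicValNat_of_dvd (Int.natAbs_ne_zero.mpr hne) (Int.natCast_dvd.mp hdvd)
  simp only [padicValInt]
  omega

/-- The short equation of a pair with nonzero discriminant is elliptic. -/
theorem isElliptic_of_ne {A B : ℤ} (h : 4 * A ^ 3 + 27 * B ^ 2 ≠ 0) :
    (⟨0, 0, 0, (A : ℚ), (B : ℚ)⟩ : WeierstrassCurve ℚ).IsElliptic := by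
  refine ⟨isUnit_iff_ne_zero.mpr ?_⟩
  have h' : (-16 * (4 * A ^ 3 + 27 * B ^ 2) : ℚ) ≠ 0 :=
    mul_ne_zero (by norm_num) (by exact_mod_cast h)
  convert h' using 1
  simp only [WeierstrassCurve.Δ, WeierstrassCurve.b₂, WeierstrassCurve.b₄, WeierstrassCurve.b₆,
    WeierstrassCurve.b₈]
  ring

end FA.AlmostAll

namespace FA.Summary

/-- **Almost all elliptic curves have a non-integral invariant** (`j = 6912 A³ / (4 A³ + 27 B²)`). -/
theorem almostAll_nonintegral_j :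
    Tendsto (fun XY : ℕ × ℕ => (Set.ncard {AB : ℤ × ℤ | |AB.1| ≤ XY.1 ∧ |AB.2| ≤ XY.2 ∧
        4 * AB.1 ^ 3 + 27 * AB.2 ^ 2 ≠ 0 ∧
        4 * AB.1 ^ 3 + 27 * AB.2 ^ 2 ∣ 6912 * AB.1 ^ 3} : ℝ) /
      ((2 * XY.1 + 1) * (2 * XY.2 + 1))) atTop (𝓝 0) := by
  classical
  refine squeeze_zero (fun XY => by positivity) (fun XY => ?_) FA.AlmostAll.tendsto_noMult
  refine div_le_div_of_nonneg_right (Nat.cast_le.mpr ?_) (by positivity)
  rw [← Set.ncard_coe_finset]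
  refine Set.ncard_le_ncard (fun AB h => ?_) (Finset.finite_toSet _)
  obtain ⟨hX, hY, -, hdvd⟩ := h
  rw [Finset.mem_coe, Finset.mem_filter, FA.AlmostAll.box, Finset.mem_product, Finset.mem_Icc,
    Finset.mem_Icc]
  refine ⟨⟨abs_le.mp hX, abs_le.mp hY⟩, fun l hl h5 hΔ => ?_⟩
  rcases (Nat.prime_iff_prime_int.mp hl).dvd_mul.mp (hΔ.trans hdvd) with h | h
  · have h' : l ∣ 3 ^ 3 * 2 ^ 8 := by
      have := Int.natCast_dvd.mp h
      norm_num at this ⊢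
      exact this
    rcases hl.dvd_mul.mp h' with h' | h'
    · have := Nat.le_of_dvd (by norm_num) (hl.dvd_of_dvd_pow h'); omega
    · have := Nat.le_of_dvd (by norm_num) (hl.dvd_of_dvd_pow h'); omega
  · exact (Nat.prime_iff_prime_int.mp hl).dvd_of_dvd_pow h

/-- **Almost all elliptic curves over `ℚ` have an open adelic image.** -/
theorem almostAll_openImage [inst : DecidableEq (AlgebraicClosure ℚ)] :
    Tendsto (fun XY : ℕ × ℕ => (Set.ncard {AB : ℤ × ℤ | |AB.1| ≤ XY.1 ∧ |AB.2| ≤ XY.2 ∧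
        4 * AB.1 ^ 3 + 27 * AB.2 ^ 2 ≠ 0 ∧
        ¬ ∃ m : ℕ, 0 < m ∧ ∀ (N : ℕ), N ≠ 0 →
          ∀ φ : Submodule.torsionBy ℤ ((⟨0, 0, 0, (AB.1 : ℚ), (AB.2 : ℚ)⟩ :
                WeierstrassCurve ℚ).toAffine⁄(AlgebraicClosure ℚ)).Point (N : ℤ) ≃+
              Submodule.torsionBy ℤ ((⟨0, 0, 0, (AB.1 : ℚ), (AB.2 : ℚ)⟩ :
                WeierstrassCurve ℚ).toAffine⁄(AlgebraicClosure ℚ)).Point (N : ℤ),
          (∀ P, m • P.1 = 0 → φ P = P) →
            ∃ σ : AlgebraicClosure ℚ ≃ₐ[ℚ] AlgebraicClosure ℚ, ∀ P,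
              Affine.Point.map σ.toAlgHom P.1 = (φ P).1} : ℝ) /
      ((2 * XY.1 + 1) * (2 * XY.2 + 1))) atTop (𝓝 0) := by
  classical
  refine squeeze_zero (fun XY => by positivity) (fun XY => ?_) FA.AlmostAll.tendsto_noMult
  refine div_le_div_of_nonneg_right (Nat.cast_le.mpr ?_) (by positivity)
  rw [← Set.ncard_coe_finset]
  refine Set.ncard_le_ncard (fun AB h => ?_) (Finset.finite_toSet _)
  obtain ⟨hX, hY, hne, hno⟩ := h
  rw [Finset.mem_coe, Finset.mem_filter, FA.AlmostAll.box, Finset.mem_product, Finset.mem_Icc,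
    Finset.mem_Icc]
  refine ⟨⟨abs_le.mp hX, abs_le.mp hY⟩, fun l hl h5 hΔ => by_contra fun hA => ?_⟩
  haveI := FA.AlmostAll.isElliptic_of_ne hne
  exact hno (serreOpenImage_adelic_of_pole _ ⟨l, hl, FA.AlmostAll.pole_of_mult hl h5 hΔ hA⟩)

/-- **The same for the height `max (|A|³, B²)`**. -/
theorem almostAll_openImage_height [inst : DecidableEq (AlgebraicClosure ℚ)] :
    Tendsto (fun H : ℕ => (Set.ncard {AB : ℤ × ℤ | |AB.1| ≤ (H ^ 2 : ℕ) ∧ |AB.2| ≤ (H ^ 3 : ℕ) ∧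
        4 * AB.1 ^ 3 + 27 * AB.2 ^ 2 ≠ 0 ∧
        ¬ ∃ m : ℕ, 0 < m ∧ ∀ (N : ℕ), N ≠ 0 →
          ∀ φ : Submodule.torsionBy ℤ ((⟨0, 0, 0, (AB.1 : ℚ), (AB.2 : ℚ)⟩ :
                WeierstrassCurve ℚ).toAffine⁄(AlgebraicClosure ℚ)).Point (N : ℤ) ≃+
              Submodule.torsionBy ℤ ((⟨0, 0, 0, (AB.1 : ℚ), (AB.2 : ℚ)⟩ :
                WeierstrassCurve ℚ).toAffine⁄(AlgebraicClosure ℚ)).Point (N : ℤ),
          (∀ P, m • P.1 = 0 → φ P = P) →
            ∃ σ : AlgebraicClosure ℚ ≃ₐ[ℚ] AlgebraicClosure ℚ, ∀ P,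
              Affine.Point.map σ.toAlgHom P.1 = (φ P).1} : ℝ) /
      ((2 * (H ^ 2 : ℕ) + 1) * (2 * (H ^ 3 : ℕ) + 1))) atTop (𝓝 0) := by
  have h := almostAll_openImage.comp
    (show Tendsto (fun H : ℕ => (H ^ 2, H ^ 3)) atTop atTop by
      rw [← prod_atTop_atTop_eq]
      exact (tendsto_pow_atTop (α := ℕ) two_ne_zero).prodMk
        (tendsto_pow_atTop (α := ℕ) three_ne_zero))
  simp only [Function.comp_def] at h
  exact h

end FA.Summary

end
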