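import Fermat.Agent.Independence.AdelicGlue
import Fermat.Agent.Root.SummaryIndependence
import Fermat.Agent.Root.SummaryOpenImageAllApplications
import Fermat.Agent.Root.SummarySurjectiveTwist

/-!
# The independence of two curves, adelic form

Serre's theorem for two curves (Invent. Math. 15 (1972), Théorème 6) in full: if two elliptic
curves over `ℚ` with open adelic images differ in `a_q²` at one prime of good reduction, then the
image of Galois on all torsion of the two curves is open among the pairs with equal determinants: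
one `m` serves for every `N`.
-/

set_option autoImplicit false
set_option linter.style.haveILetI false

noncomputable section

open WeierstrassCurve WeierstrassCurve.Affine Matrix FA.Frob FA.RT FA.RT.Tate
open FA.OpenImageAll (SurjectiveLarge)
open scoped WeierstrassCurve.Affine

local notation "Qb" => AlgebraicClosure ℚ
local notation "GQ" => AlgebraicClosure ℚ ≃ₐ[ℚ] AlgebraicClosure ℚ

namespace FA.Independence

/-- Full pairs modulo a prime `l ≥ 5` give full pairs modulo every power of `l`. -/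
theorem pair_reach_of_full {W W' : WeierstrassCurve ℤ} [(ratCurve W).IsElliptic]
    [(ratCurve W').IsElliptic] {l : ℕ} [hl : Fact l.Prime] (h5 : 5 ≤ l)
    (hfull : ∀ A B : GL (Fin 2) (ZMod l),
      (A : Matrix (Fin 2) (Fin 2) (ZMod l)).det = (B : Matrix (Fin 2) (Fin 2) (ZMod l)).det →
        ∃ σ : GQ, pairRep W W' l σ = (A, B))
    (B : TateBasis l W) (B' : TateBasis l W') :
    (∀ (n : ℕ) (M : Matrix (Fin 2) (Fin 2) ℤ_[l]), IsUnit M.det →
      ∃ g, (∃ Y, B.rep g = M + (l : ℤ_[l]) ^ n • Y) ∧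
        ∃ Y, B'.rep g = !![M.det, 0; 0, 1] + (l : ℤ_[l]) ^ n • Y) ∧
    ∀ (n : ℕ) (M : Matrix (Fin 2) (Fin 2) ℤ_[l]), IsUnit M.det →
      ∃ g, (∃ Y, B'.rep g = M + (l : ℤ_[l]) ^ n • Y) ∧
        ∃ Y, B.rep g = !![M.det, 0; 0, 1] + (l : ℤ_[l]) ^ n • Y := by
  have hbase : ∀ (C : TateBasis l W) (C' : TateBasis l W')
      (X X' : Matrix (Fin 2) (Fin 2) (ZMod l)), X.det = X'.det → X.det ≠ 0 →
      ∃ g, (C.rep g).map PadicInt.toZMod = X ∧ (C'.rep g).map PadicInt.toZMod = X' := by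
    intro C C' X X' hd h0
    obtain ⟨σ, hσ⟩ := hfull (GeneralLinearGroup.mkOfDetNeZero X h0)
      (GeneralLinearGroup.mkOfDetNeZero X' (hd ▸ h0)) hd
    exact ⟨σ, (FA.PadicImage.rep_map_toZMod C σ).trans (congrArg Units.val (congrArg Prod.fst hσ)),
      (FA.PadicImage.rep_map_toZMod C' σ).trans (congrArg Units.val (congrArg Prod.snd hσ))⟩
  have hr : FA.PadicImage.ReachAll l W := FA.PadicImage.reachAll_of_base h5 fun C X hX => by
    obtain ⟨g, hg, -⟩ := hbase C B' X X rfl hX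
    exact ⟨g, hg⟩
  have hr' : FA.PadicImage.ReachAll l W' := FA.PadicImage.reachAll_of_base h5 fun C X hX => by
    obtain ⟨g, -, hg⟩ := hbase B C X X rfl hX
    exact ⟨g, hg⟩
  exact ⟨fun n M hM =>
      Padic.exists_pair_reach h5 (Padic.det_rep_eq B B') (hbase B B') (hr' B') n hM,
    fun n M hM => Padic.exists_pair_reach h5 (Padic.det_rep_eq B' B)
      (fun X X' hd h0 => (hbase B B' X' X hd.symm (hd ▸ h0)).imp fun g h => ⟨h.2, h.1⟩)
      (hr B) n hM⟩

/-- One level for all `N`, on models with full images at the large primes. -/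
theorem galois_independence_adelic_of_surjective (E E' : WeierstrassCurve ℚ) [E.IsElliptic]
    [E'.IsElliptic] {W W' : WeierstrassCurve ℤ} [(ratCurve W).IsElliptic]
    [(ratCurve W').IsElliptic] (hW : W.IsIntegralModelOf E) (hW' : W'.IsIntegralModelOf E')
    (hs : SurjectiveLarge W) (hs' : SurjectiveLarge W')
    {q : ℕ} (hq : q.Prime) (hgood : ¬ (q : ℤ) ∣ W.Δ) (hgood' : ¬ (q : ℤ) ∣ W'.Δ)
    (hne : E.LFunction q ^ 2 ≠ E'.LFunction q ^ 2) :
    ∃ m : ℕ, 0 < m ∧ ∀ (N : ℕ), N ≠ 0 →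
      ∀ (e : Submodule.torsionBy ℤ (E.toAffine⁄Qb).Point (N : ℤ) ≃+ (Fin 2 → ZMod N))
        (e' : Submodule.torsionBy ℤ (E'.toAffine⁄Qb).Point (N : ℤ) ≃+ (Fin 2 → ZMod N))
        (X X' : Matrix (Fin 2) (Fin 2) (ZMod N)),
        (1 + (m : ZMod N) • X).det = (1 + (m : ZMod N) • X').det →
        IsUnit (1 + (m : ZMod N) • X).det →
        ∃ σ : GQ,
          (∀ P Q, e Q = (1 + (m : ZMod N) • X) *ᵥ e P →
            Affine.Point.map σ.toAlgHom P.1 = Q.1) ∧
          ∀ P Q, e' Q = (1 + (m : ZMod N) • X') *ᵥ e' P →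
            Affine.Point.map σ.toAlgHom P.1 = Q.1 := by
  obtain ⟨M, hM⟩ := exists_bound E E' hs hs' hW hW' hq hgood hgood' hne
  have hne' := hne
  rw [FA.Root.LFunction_apply_prime E W hW hq hgood,
    FA.Root.LFunction_apply_prime E' W' hW' hq hgood'] at hne'
  obtain ⟨m, hm, key⟩ := Adelic.exists_uniform_level_pair (W := W) (W' := W') (L := M + 5)
    (by omega) (fun p _ _ B B' => Padic.exists_level_pair B B' hs hs' hq hgood hgood' hne')
    fun l _ hl B B' => pair_reach_of_full (by omega) (hM l (by omega)) B B'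
  obtain ⟨a, ha⟩ := FA.Root.exists_equiv_of_model hW
  obtain ⟨a', ha'⟩ := FA.Root.exists_equiv_of_model hW'
  refine ⟨m, hm, fun N hN e e' X X' hd hu => ?_⟩
  obtain ⟨T, hT⟩ := FA.Root.exists_torsionBy_congr a (N : ℤ)
  obtain ⟨T', hT'⟩ := FA.Root.exists_torsionBy_congr a' (N : ℤ)
  obtain ⟨σ, h, h'⟩ := key N hN (T.trans e) (T'.trans e') X X' hd hu
  refine ⟨σ, fun P Q hPQ => ?_, fun P Q hPQ => ?_⟩
  · obtain ⟨P, rfl⟩ := T.surjective P
    obtain ⟨Q, rfl⟩ := T.surjective Q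
    rw [hT, hT, ← ha, h P, AddEquiv.trans_apply, ← hPQ]
    exact congrArg (fun y => a y.1) ((T.trans e).symm_apply_apply Q)
  · obtain ⟨P, rfl⟩ := T'.surjective P
    obtain ⟨Q, rfl⟩ := T'.surjective Q
    rw [hT', hT', ← ha', h' P, AddEquiv.trans_apply, ← hPQ]
    exact congrArg (fun y => a' y.1) ((T'.trans e').symm_apply_apply Q)

end FA.Independence

namespace FA.Summary

open FA.Independence

/-- **Independence of two elliptic curves, adelic form** (Serre): if curves over `ℚ` with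
non-integral invariants differ in `a_q²` at one prime of good reduction, some `m` is such that for
every `N ≠ 0` and all bases of `E[N]` and `E'[N]` every pair of invertible matrices congruent to one
modulo `m` with the same determinant is the action of one element of Galois. -/
theorem galois_independence_adelic (E E' : WeierstrassCurve ℚ) [E.IsElliptic] [E'.IsElliptic]
    [inst : DecidableEq (AlgebraicClosure ℚ)]
    (hj : ∃ p : ℕ, p.Prime ∧ padicValRat p E.j < 0)
    (hj' : ∃ p : ℕ, p.Prime ∧ padicValRat p E'.j < 0)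
    (W W' : WeierstrassCurve ℤ) (C C' : VariableChange ℚ)
    (hW : C • E = W.map (Int.castRingHom ℚ)) (hW' : C' • E' = W'.map (Int.castRingHom ℚ))
    {q : ℕ} (hq : q.Prime) (hgood : ¬ (q : ℤ) ∣ W.Δ) (hgood' : ¬ (q : ℤ) ∣ W'.Δ)
    (hne : E.LFunction q ^ 2 ≠ E'.LFunction q ^ 2) :
    ∃ m : ℕ, 0 < m ∧ ∀ (N : ℕ), N ≠ 0 →
      ∀ (e : Submodule.torsionBy ℤ (E.toAffine⁄(AlgebraicClosure ℚ)).Point (N : ℤ) ≃+
          (Fin 2 → ZMod N))
        (e' : Submodule.torsionBy ℤ (E'.toAffine⁄(AlgebraicClosure ℚ)).Point (N : ℤ) ≃+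
          (Fin 2 → ZMod N))
        (X X' : Matrix (Fin 2) (Fin 2) (ZMod N)),
        (1 + (m : ZMod N) • X).det = (1 + (m : ZMod N) • X').det →
        IsUnit (1 + (m : ZMod N) • X).det →
        ∃ σ : AlgebraicClosure ℚ ≃ₐ[ℚ] AlgebraicClosure ℚ,
          (∀ P Q, e Q = (1 + (m : ZMod N) • X) *ᵥ e P →
            Affine.Point.map σ.toAlgHom P.1 = Q.1) ∧
          ∀ P Q, e' Q = (1 + (m : ZMod N) • X') *ᵥ e' P →
            Affine.Point.map σ.toAlgHom P.1 = Q.1 := by
  obtain rfl : inst = instDecEqAlgebraicClosureRat := Subsingleton.elim _ _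
  haveI := FA.Frob.ratCurve_isElliptic_of_Δ (FA.Frob.Δ_ne_zero_of_model (E := E) ⟨C, hW⟩)
  haveI := FA.Frob.ratCurve_isElliptic_of_Δ (FA.Frob.Δ_ne_zero_of_model (E := E') ⟨C', hW'⟩)
  exact galois_independence_adelic_of_surjective E E' ⟨C, hW⟩ ⟨C', hW'⟩
    (surjectiveLarge_of_pole hj ⟨C, hW⟩) (surjectiveLarge_of_pole hj' ⟨C', hW'⟩) hq hgood hgood' hne

/-- The same for every two curves with a nonzero trace at an inert good prime of each quadratic
field. -/
theorem galois_independence_adelic_of_traces (E E' : WeierstrassCurve ℚ) [E.IsElliptic]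
    [E'.IsElliptic] [inst : DecidableEq (AlgebraicClosure ℚ)]
    (h : ∀ d : ℤ, Squarefree d → d ≠ 1 → ∃ (l : ℕ) (_ : Fact l.Prime),
      (∃ C : VariableChange ℚ_[l],
        HasGoodReduction ℤ_[l] (C • E.map (algebraMap ℚ ℚ_[l]))) ∧
      ¬ IsSquare (d : ZMod l) ∧ E.LFunction l ≠ 0)
    (h' : ∀ d : ℤ, Squarefree d → d ≠ 1 → ∃ (l : ℕ) (_ : Fact l.Prime),
      (∃ C : VariableChange ℚ_[l],
        HasGoodReduction ℤ_[l] (C • E'.map (algebraMap ℚ ℚ_[l]))) ∧
      ¬ IsSquare (d : ZMod l) ∧ E'.LFunction l ≠ 0)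
    (W W' : WeierstrassCurve ℤ) (C C' : VariableChange ℚ)
    (hW : C • E = W.map (Int.castRingHom ℚ)) (hW' : C' • E' = W'.map (Int.castRingHom ℚ))
    {q : ℕ} (hq : q.Prime) (hgood : ¬ (q : ℤ) ∣ W.Δ) (hgood' : ¬ (q : ℤ) ∣ W'.Δ)
    (hne : E.LFunction q ^ 2 ≠ E'.LFunction q ^ 2) :
    ∃ m : ℕ, 0 < m ∧ ∀ (N : ℕ), N ≠ 0 →
      ∀ (e : Submodule.torsionBy ℤ (E.toAffine⁄(AlgebraicClosure ℚ)).Point (N : ℤ) ≃+
          (Fin 2 → ZMod N))
        (e' : Submodule.torsionBy ℤ (E'.toAffine⁄(AlgebraicClosure ℚ)).Point (N : ℤ) ≃+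
          (Fin 2 → ZMod N))
        (X X' : Matrix (Fin 2) (Fin 2) (ZMod N)),
        (1 + (m : ZMod N) • X).det = (1 + (m : ZMod N) • X').det →
        IsUnit (1 + (m : ZMod N) • X).det →
        ∃ σ : AlgebraicClosure ℚ ≃ₐ[ℚ] AlgebraicClosure ℚ,
          (∀ P Q, e Q = (1 + (m : ZMod N) • X) *ᵥ e P →
            Affine.Point.map σ.toAlgHom P.1 = Q.1) ∧
          ∀ P Q, e' Q = (1 + (m : ZMod N) • X') *ᵥ e' P →
            Affine.Point.map σ.toAlgHom P.1 = Q.1 := by
  obtain rfl : inst = instDecEqAlgebraicClosureRat := Subsingleton.elim _ _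
  haveI := FA.Frob.ratCurve_isElliptic_of_Δ (FA.Frob.Δ_ne_zero_of_model (E := E) ⟨C, hW⟩)
  haveI := FA.Frob.ratCurve_isElliptic_of_Δ (FA.Frob.Δ_ne_zero_of_model (E := E') ⟨C', hW'⟩)
  exact galois_independence_adelic_of_surjective E E' ⟨C, hW⟩ ⟨C', hW'⟩
    (FA.OpenImageAll.surjectiveLarge_of_traces h ⟨C, hW⟩)
    (FA.OpenImageAll.surjectiveLarge_of_traces h' ⟨C', hW'⟩) hq hgood hgood' hne

end FA.Summary

end
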