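import Fermat.Agent.Independence.Basic
import Fermat.Agent.Root.SummaryAbelianTorsion
import Fermat.Agent.Root.SummaryOpenImageAllApplications
import Fermat.Agent.Root.SummarySerreFiniteIndex
import Fermat.Agent.Root.SummarySurjectiveTwist

/-!
# The independence of two curves on the torsion of `p`-power order, for every prime `p`

Serre's theorem for two curves (Invent. Math. 15 (1972), Théorème 6) at every prime: if two
elliptic curves over `ℚ` with open adelic images differ in `a_q²` at one prime of good reduction,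
then for every prime `p` the image of Galois on the two groups of points of `p`-power order is open
among the pairs with equal determinants. Over every number field there is then no nonzero Galois
equivariant homomorphism between these groups.
-/

set_option autoImplicit false
set_option linter.style.haveILetI false

noncomputable section

open WeierstrassCurve WeierstrassCurve.Affine Matrix FA.Frob FA.RT
open FA.OpenImageAll (SurjectiveLarge)
open scoped WeierstrassCurve.Affine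

local notation "Qb" => AlgebraicClosure ℚ
local notation "GQ" => AlgebraicClosure ℚ ≃ₐ[ℚ] AlgebraicClosure ℚ

namespace FA.Independence

/-- Open image on the pair of `p`-power torsion groups, on models with full images at the large
primes. -/
theorem galois_independence_padic_of_surjective (E E' : WeierstrassCurve ℚ) [E.IsElliptic]
    [E'.IsElliptic] {W W' : WeierstrassCurve ℤ} [(ratCurve W).IsElliptic]
    [(ratCurve W').IsElliptic] (hW : W.IsIntegralModelOf E) (hW' : W'.IsIntegralModelOf E')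
    (hs : SurjectiveLarge W) (hs' : SurjectiveLarge W')
    {q : ℕ} (hq : q.Prime) (hgood : ¬ (q : ℤ) ∣ W.Δ) (hgood' : ¬ (q : ℤ) ∣ W'.Δ)
    (hne : E.LFunction q ^ 2 ≠ E'.LFunction q ^ 2) {p : ℕ} (hp : p.Prime) :
    ∃ k : ℕ, 0 < k ∧ ∀ n : ℕ,
      ∃ (e : Submodule.torsionBy ℤ (E.toAffine⁄Qb).Point ((p ^ n : ℕ) : ℤ) ≃+
          (Fin 2 → ZMod (p ^ n)))
        (e' : Submodule.torsionBy ℤ (E'.toAffine⁄Qb).Point ((p ^ n : ℕ) : ℤ) ≃+
          (Fin 2 → ZMod (p ^ n))),
        ∀ X X' : Matrix (Fin 2) (Fin 2) (ZMod (p ^ n)),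
          (1 + (p : ZMod (p ^ n)) ^ k • X).det = (1 + (p : ZMod (p ^ n)) ^ k • X').det →
          ∃ σ : GQ,
            (∀ P Q, e Q = (1 + (p : ZMod (p ^ n)) ^ k • X) *ᵥ e P →
              Affine.Point.map σ.toAlgHom P.1 = Q.1) ∧
            ∀ P Q, e' Q = (1 + (p : ZMod (p ^ n)) ^ k • X') *ᵥ e' P →
              Affine.Point.map σ.toAlgHom P.1 = Q.1 := by
  haveI := Fact.mk hp
  obtain ⟨f, hf⟩ := FA.Root.exists_equiv_of_model hW
  obtain ⟨f', hf'⟩ := FA.Root.exists_equiv_of_model hW'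
  rw [FA.Root.LFunction_apply_prime E W hW hq hgood,
    FA.Root.LFunction_apply_prime E' W' hW' hq hgood'] at hne
  obtain ⟨k, hk0, hk⟩ := Padic.exists_torsion_pairs (p := p) hs hs' hq hgood hgood' hne
  refine ⟨k, hk0, fun n => ?_⟩
  obtain ⟨e, e', he⟩ := hk n
  obtain ⟨T, hT⟩ := FA.Root.exists_torsionBy_congr f ((p ^ n : ℕ) : ℤ)
  obtain ⟨T', hT'⟩ := FA.Root.exists_torsionBy_congr f' ((p ^ n : ℕ) : ℤ)
  refine ⟨T.symm.trans e, T'.symm.trans e', fun X X' hX => ?_⟩
  obtain ⟨σ, h, h'⟩ := he X X' hX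
  refine ⟨σ, fun P Q hPQ => ?_, fun P Q hPQ => ?_⟩
  · obtain ⟨P, rfl⟩ := T.surjective P
    obtain ⟨Q, rfl⟩ := T.surjective Q
    simp only [AddEquiv.trans_apply, AddEquiv.symm_apply_apply] at hPQ
    rw [hT, hT, ← hf, h P Q hPQ]
  · obtain ⟨P, rfl⟩ := T'.surjective P
    obtain ⟨Q, rfl⟩ := T'.surjective Q
    simp only [AddEquiv.trans_apply, AddEquiv.symm_apply_apply] at hPQ
    rw [hT', hT', ← hf', h' P Q hPQ]

/-- Pairs fill a congruence subgroup: no homomorphism is equivariant over a number field. -/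
theorem primaryHom_eq_zero_of_pairs (E E' : WeierstrassCurve ℚ) [E.IsElliptic] [E'.IsElliptic]
    {p : ℕ}
    (hp : p.Prime)
    (hk : ∃ k : ℕ, 0 < k ∧ ∀ n : ℕ,
      ∃ (e : Submodule.torsionBy ℤ (E.toAffine⁄Qb).Point ((p ^ n : ℕ) : ℤ) ≃+
          (Fin 2 → ZMod (p ^ n)))
        (e' : Submodule.torsionBy ℤ (E'.toAffine⁄Qb).Point ((p ^ n : ℕ) : ℤ) ≃+
          (Fin 2 → ZMod (p ^ n))),
        ∀ X X' : Matrix (Fin 2) (Fin 2) (ZMod (p ^ n)),
          (1 + (p : ZMod (p ^ n)) ^ k • X).det = (1 + (p : ZMod (p ^ n)) ^ k • X').det →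
          ∃ σ : GQ,
            (∀ P Q, e Q = (1 + (p : ZMod (p ^ n)) ^ k • X) *ᵥ e P →
              Affine.Point.map σ.toAlgHom P.1 = Q.1) ∧
            ∀ P Q, e' Q = (1 + (p : ZMod (p ^ n)) ^ k • X') *ᵥ e' P →
              Affine.Point.map σ.toAlgHom P.1 = Q.1)
    (K : IntermediateField ℚ Qb) [FiniteDimensional ℚ K]
    (f : AddCommGroup.primaryComponent (E.toAffine⁄Qb).Point p →+
      AddCommGroup.primaryComponent (E'.toAffine⁄Qb).Point p)
    (hf : ∀ σ ∈ K.fixingSubgroup, ∀ P Q, Affine.Point.map σ.toAlgHom P.1 = Q.1 →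
      Affine.Point.map σ.toAlgHom (f P).1 = (f Q).1) : f = 0 := by
  obtain ⟨k, -, hk⟩ := hk
  set m := K.fixingSubgroup.index.factorial
  set c := m * p ^ k with hc
  have hc0 : c ≠ 0 := mul_ne_zero (Nat.factorial_ne_zero _) (pow_ne_zero _ hp.ne_zero)
  suffices hkill : ∀ R, f (c • R) = 0 by
    refine AddMonoidHom.ext fun P => ?_
    obtain ⟨R, rfl⟩ := exists_nsmul_eq E hp hc0 P
    exact hkill R
  intro R
  obtain ⟨n, R, rfl⟩ := exists_toPrimary_eq E R
  haveI : NeZero (p ^ n) := ⟨pow_ne_zero _ hp.ne_zero⟩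
  obtain ⟨e, e', he⟩ := hk n
  -- the images of the unipotents vanish
  have key : ∀ (X : Matrix (Fin 2) (Fin 2) (ZMod (p ^ n))), X * X = 0 → X.det = 0 → X.trace = 0 →
      ∀ v, f (c • toPrimary E p n (e.symm (X *ᵥ v))) = 0 := by
    intro X hX hd ht v
    obtain ⟨σ, hσ, hσ'⟩ := he X 0 (by
      rw [det_fin_two] at hd
      rw [trace_fin_two] at ht
      simp [det_fin_two]
      linear_combination (p : ZMod (p ^ n)) ^ k * ht + ((p : ZMod (p ^ n)) ^ k) ^ 2 * hd)
    have h1 := (Moves.of_forall hσ).pow_one_add hX m (e.symm v)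
    have hfix : Fixes E' (p ^ n) σ := Fixes.of_forall fun P Q h =>
      hσ' P Q (by rw [smul_zero, add_zero]; exact h)
    rw [e.apply_symm_apply, add_mulVec, one_mulVec, smul_mulVec, ← Nat.cast_pow, ← Nat.cast_mul,
      Nat.cast_smul_eq_nsmul, map_add, map_nsmul] at h1
    have h2 := hf _ (pow_factorial_index_mem (FA.AbelianTorsion.index_fixingSubgroup_ne_zero K) σ)
      (toPrimary E p n (e.symm v))
      (toPrimary E p n (e.symm v) + c • toPrimary E p n (e.symm (X *ᵥ v)))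
      (h1.trans (by rw [← map_nsmul (toPrimary E p n), ← map_add]; rfl))
    have h3 := hfix.pow m (f (toPrimary E p n (e.symm v))).1 (by
      rw [← AddSubgroup.coe_nsmul, ← map_nsmul, ← map_nsmul, ← map_nsmul,
        show p ^ n • v = 0 from funext fun i => by simp, map_zero, map_zero, map_zero]
      rfl)
    rw [h2, map_add, AddSubgroup.coe_add, add_eq_left] at h3
    exact Subtype.ext h3
  have e₁ := key !![0, 1; 0, 0] (by ext i j; fin_cases i <;> fin_cases j <;> simp) (by simp)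
    (by simp [trace_fin_two]) ![0, e R 0]
  have e₂ := key !![0, 0; 1, 0] (by ext i j; fin_cases i <;> fin_cases j <;> simp) (by simp)
    (by simp [trace_fin_two]) ![e R 1, 0]
  have hsum : R = e.symm (!![0, 1; 0, 0] *ᵥ ![0, e R 0]) +
      e.symm (!![0, 0; 1, 0] *ᵥ ![e R 1, 0]) := e.injective (by
    rw [map_add, e.apply_symm_apply, e.apply_symm_apply]
    funext i
    fin_cases i <;> simp)
  rw [hsum, map_add, smul_add, map_add, e₁, e₂, add_zero]

end FA.Independence

namespace FA.Summary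

open FA.Independence

/-- **Independence of two elliptic curves at every prime** (Serre): if curves over `ℚ` with
non-integral invariants differ in `a_q²` at one prime of good reduction, then for every prime `p`
some `k` is such that in suitable bases of `E[p ^ n]` and `E'[p ^ n]`, for every `n`, every pair of
matrices congruent to one modulo `p ^ k` with the same determinant is the action of one element of
Galois. -/
theorem galois_independence_padic (E E' : WeierstrassCurve ℚ) [E.IsElliptic] [E'.IsElliptic]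
    [inst : DecidableEq (AlgebraicClosure ℚ)]
    (hj : ∃ p : ℕ, p.Prime ∧ padicValRat p E.j < 0)
    (hj' : ∃ p : ℕ, p.Prime ∧ padicValRat p E'.j < 0)
    (W W' : WeierstrassCurve ℤ) (C C' : VariableChange ℚ)
    (hW : C • E = W.map (Int.castRingHom ℚ)) (hW' : C' • E' = W'.map (Int.castRingHom ℚ))
    {q : ℕ} (hq : q.Prime) (hgood : ¬ (q : ℤ) ∣ W.Δ) (hgood' : ¬ (q : ℤ) ∣ W'.Δ)
    (hne : E.LFunction q ^ 2 ≠ E'.LFunction q ^ 2) {p : ℕ} (hp : p.Prime) :
    ∃ k : ℕ, 0 < k ∧ ∀ n : ℕ,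
      ∃ (e : Submodule.torsionBy ℤ (E.toAffine⁄(AlgebraicClosure ℚ)).Point ((p ^ n : ℕ) : ℤ) ≃+
          (Fin 2 → ZMod (p ^ n)))
        (e' : Submodule.torsionBy ℤ (E'.toAffine⁄(AlgebraicClosure ℚ)).Point ((p ^ n : ℕ) : ℤ) ≃+
          (Fin 2 → ZMod (p ^ n))),
        ∀ X X' : Matrix (Fin 2) (Fin 2) (ZMod (p ^ n)),
          (1 + (p : ZMod (p ^ n)) ^ k • X).det = (1 + (p : ZMod (p ^ n)) ^ k • X').det →
          ∃ σ : AlgebraicClosure ℚ ≃ₐ[ℚ] AlgebraicClosure ℚ,
            (∀ P Q, e Q = (1 + (p : ZMod (p ^ n)) ^ k • X) *ᵥ e P →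
              Affine.Point.map σ.toAlgHom P.1 = Q.1) ∧
            ∀ P Q, e' Q = (1 + (p : ZMod (p ^ n)) ^ k • X') *ᵥ e' P →
              Affine.Point.map σ.toAlgHom P.1 = Q.1 := by
  obtain rfl : inst = instDecEqAlgebraicClosureRat := Subsingleton.elim _ _
  haveI := FA.Frob.ratCurve_isElliptic_of_Δ (FA.Frob.Δ_ne_zero_of_model (E := E) ⟨C, hW⟩)
  haveI := FA.Frob.ratCurve_isElliptic_of_Δ (FA.Frob.Δ_ne_zero_of_model (E := E') ⟨C', hW'⟩)
  exact galois_independence_padic_of_surjective E E' ⟨C, hW⟩ ⟨C', hW'⟩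
    (surjectiveLarge_of_pole hj ⟨C, hW⟩)
    (surjectiveLarge_of_pole hj' ⟨C', hW'⟩) hq hgood hgood' hne hp

/-- The same for every two curves with a nonzero trace at an inert good prime of each quadratic
field. -/
theorem galois_independence_padic_of_traces (E E' : WeierstrassCurve ℚ) [E.IsElliptic]
    [E'.IsElliptic] [inst : DecidableEq (AlgebraicClosure ℚ)]
    (h : ∀ d : ℤ, Squarefree d → d ≠ 1 → ∃ (l : ℕ) (_ : Fact l.Prime),
      (∃ C : VariableChange ℚ_[l],
        HasGoodReduction ℤ_[l] (C • E.map (algebraMap ℚ ℚ_[l]))) ∧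
      ¬ IsSquare (d : ZMod l) ∧ E.LFunction l ≠ 0)
    (h' : ∀ d : ℤ, Squarefree d → d ≠ 1 → ∃ (l : ℕ) (_ : Fact l.Prime),
      (∃ C : VariableChange ℚ_[l],
        HasGoodReduction ℤ_[l] (C • E'.map (algebraMap ℚ ℚ_[l]))) ∧
      ¬ IsSquare (d : ZMod l) ∧ E'.LFunction l ≠ 0)
    (W W' : WeierstrassCurve ℤ) (C C' : VariableChange ℚ)
    (hW : C • E = W.map (Int.castRingHom ℚ)) (hW' : C' • E' = W'.map (Int.castRingHom ℚ))
    {q : ℕ} (hq : q.Prime) (hgood : ¬ (q : ℤ) ∣ W.Δ) (hgood' : ¬ (q : ℤ) ∣ W'.Δ)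
    (hne : E.LFunction q ^ 2 ≠ E'.LFunction q ^ 2) {p : ℕ} (hp : p.Prime) :
    ∃ k : ℕ, 0 < k ∧ ∀ n : ℕ,
      ∃ (e : Submodule.torsionBy ℤ (E.toAffine⁄(AlgebraicClosure ℚ)).Point ((p ^ n : ℕ) : ℤ) ≃+
          (Fin 2 → ZMod (p ^ n)))
        (e' : Submodule.torsionBy ℤ (E'.toAffine⁄(AlgebraicClosure ℚ)).Point ((p ^ n : ℕ) : ℤ) ≃+
          (Fin 2 → ZMod (p ^ n))),
        ∀ X X' : Matrix (Fin 2) (Fin 2) (ZMod (p ^ n)),
          (1 + (p : ZMod (p ^ n)) ^ k • X).det = (1 + (p : ZMod (p ^ n)) ^ k • X').det →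
          ∃ σ : AlgebraicClosure ℚ ≃ₐ[ℚ] AlgebraicClosure ℚ,
            (∀ P Q, e Q = (1 + (p : ZMod (p ^ n)) ^ k • X) *ᵥ e P →
              Affine.Point.map σ.toAlgHom P.1 = Q.1) ∧
            ∀ P Q, e' Q = (1 + (p : ZMod (p ^ n)) ^ k • X') *ᵥ e' P →
              Affine.Point.map σ.toAlgHom P.1 = Q.1 := by
  obtain rfl : inst = instDecEqAlgebraicClosureRat := Subsingleton.elim _ _
  haveI := FA.Frob.ratCurve_isElliptic_of_Δ (FA.Frob.Δ_ne_zero_of_model (E := E) ⟨C, hW⟩)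
  haveI := FA.Frob.ratCurve_isElliptic_of_Δ (FA.Frob.Δ_ne_zero_of_model (E := E') ⟨C', hW'⟩)
  exact galois_independence_padic_of_surjective E E' ⟨C, hW⟩ ⟨C', hW'⟩
    (FA.OpenImageAll.surjectiveLarge_of_traces h ⟨C, hW⟩)
    (FA.OpenImageAll.surjectiveLarge_of_traces h' ⟨C', hW'⟩) hq hgood hgood' hne hp

/-- **No homomorphism over any number field**: two such curves have no nonzero homomorphism of
their groups of points of `p`-power order commuting with the automorphisms fixing a number field. -/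
theorem primaryHom_eq_zero (E E' : WeierstrassCurve ℚ) [E.IsElliptic] [E'.IsElliptic]
    [inst : DecidableEq (AlgebraicClosure ℚ)]
    (hj : ∃ p : ℕ, p.Prime ∧ padicValRat p E.j < 0)
    (hj' : ∃ p : ℕ, p.Prime ∧ padicValRat p E'.j < 0)
    (W W' : WeierstrassCurve ℤ) (C C' : VariableChange ℚ)
    (hW : C • E = W.map (Int.castRingHom ℚ)) (hW' : C' • E' = W'.map (Int.castRingHom ℚ))
    {q : ℕ} (hq : q.Prime) (hgood : ¬ (q : ℤ) ∣ W.Δ) (hgood' : ¬ (q : ℤ) ∣ W'.Δ)
    (hne : E.LFunction q ^ 2 ≠ E'.LFunction q ^ 2) {p : ℕ} (hp : p.Prime)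
    (K : IntermediateField ℚ (AlgebraicClosure ℚ)) [FiniteDimensional ℚ K]
    (f : AddCommGroup.primaryComponent (E.toAffine⁄(AlgebraicClosure ℚ)).Point p →+
      AddCommGroup.primaryComponent (E'.toAffine⁄(AlgebraicClosure ℚ)).Point p)
    (hf : ∀ σ ∈ K.fixingSubgroup, ∀ P Q, Affine.Point.map σ.toAlgHom P.1 = Q.1 →
      Affine.Point.map σ.toAlgHom (f P).1 = (f Q).1) : f = 0 := by
  obtain rfl : inst = instDecEqAlgebraicClosureRat := Subsingleton.elim _ _
  exact primaryHom_eq_zero_of_pairs E E' hp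
    (galois_independence_padic E E' hj hj' W W' C C' hW hW' hq hgood hgood' hne hp) K f hf

/-- The same without a condition on the invariants. -/
theorem primaryHom_eq_zero_of_traces (E E' : WeierstrassCurve ℚ) [E.IsElliptic] [E'.IsElliptic]
    [inst : DecidableEq (AlgebraicClosure ℚ)]
    (h : ∀ d : ℤ, Squarefree d → d ≠ 1 → ∃ (l : ℕ) (_ : Fact l.Prime),
      (∃ C : VariableChange ℚ_[l],
        HasGoodReduction ℤ_[l] (C • E.map (algebraMap ℚ ℚ_[l]))) ∧
      ¬ IsSquare (d : ZMod l) ∧ E.LFunction l ≠ 0)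
    (h' : ∀ d : ℤ, Squarefree d → d ≠ 1 → ∃ (l : ℕ) (_ : Fact l.Prime),
      (∃ C : VariableChange ℚ_[l],
        HasGoodReduction ℤ_[l] (C • E'.map (algebraMap ℚ ℚ_[l]))) ∧
      ¬ IsSquare (d : ZMod l) ∧ E'.LFunction l ≠ 0)
    (W W' : WeierstrassCurve ℤ) (C C' : VariableChange ℚ)
    (hW : C • E = W.map (Int.castRingHom ℚ)) (hW' : C' • E' = W'.map (Int.castRingHom ℚ))
    {q : ℕ} (hq : q.Prime) (hgood : ¬ (q : ℤ) ∣ W.Δ) (hgood' : ¬ (q : ℤ) ∣ W'.Δ)
    (hne : E.LFunction q ^ 2 ≠ E'.LFunction q ^ 2) {p : ℕ} (hp : p.Prime)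
    (K : IntermediateField ℚ (AlgebraicClosure ℚ)) [FiniteDimensional ℚ K]
    (f : AddCommGroup.primaryComponent (E.toAffine⁄(AlgebraicClosure ℚ)).Point p →+
      AddCommGroup.primaryComponent (E'.toAffine⁄(AlgebraicClosure ℚ)).Point p)
    (hf : ∀ σ ∈ K.fixingSubgroup, ∀ P Q, Affine.Point.map σ.toAlgHom P.1 = Q.1 →
      Affine.Point.map σ.toAlgHom (f P).1 = (f Q).1) : f = 0 := by
  obtain rfl : inst = instDecEqAlgebraicClosureRat := Subsingleton.elim _ _
  exact primaryHom_eq_zero_of_pairs E E' hp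
    (galois_independence_padic_of_traces E E' h h' W W' C C' hW hW' hq hgood hgood' hne hp) K f hf

end FA.Summary

end
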