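import Fermat.Agent.Root.SummaryAlmostAllEveryLevel
import Fermat.Agent.Root.SummaryIndependenceAdelic
import Fermat.Agent.Root.SummaryIndependencePadic
import Fermat.Agent.OpenImageAll.AlmostAllPairs

/-!
# Almost all pairs of elliptic curves are independent

Almost every pair of equations `y² = x³ + A x + B`, `y² = x³ + A' x + B'` has the joint image of
Galois on all torsion open among the pairs of equal determinants, and no homomorphism between the
points of `p`-power order over any number field. Both curves almost always have non-integral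
invariants, and modulo a prime `q ≡ 1 mod 3` a cubic with a root gives an even `a_q`, a class
`(0, B')` with `B'` no cube an odd one: so `a_q² ≠ a'_q²` at some prime.
-/

set_option autoImplicit false
set_option linter.style.haveILetI false

noncomputable section

open Filter Topology Matrix WeierstrassCurve WeierstrassCurve.Affine FA.EC FA.Frob FA.RT
open scoped WeierstrassCurve.Affine

local notation "Qb" => AlgebraicClosure ℚ

namespace FA.AlmostAll

/-- Some common good prime `q` has `a_q² ≠ a'_q²`. -/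
def SepPrime (P : (ℤ × ℤ) × (ℤ × ℤ)) : Prop :=
  ∃ q : ℕ, q.Prime ∧ (shortInt P.1).IsGoodPrimeFor q ∧ (shortInt P.2).IsGoodPrimeFor q ∧
    (shortInt P.1).apOfModel q ^ 2 ≠ (shortInt P.2).apOfModel q ^ 2

/-- The smooth classes of cubics with a root. -/
def rootClasses (q : ℕ) : Finset (ZMod q × ZMod q) :=
  if h : q = 0 then ∅ else
    have : NeZero q := ⟨h⟩
    (Finset.univ.image fun ar : ZMod q × ZMod q => (ar.1, -ar.2 ^ 3 - ar.1 * ar.2)).filter
      fun ab => 4 * ab.1 ^ 3 + 27 * ab.2 ^ 2 ≠ 0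

/-- They number at least `q² / 6`. -/
theorem card_rootClasses {q : ℕ} (hq : q.Prime) (h7 : 7 ≤ q) :
    (1 / 6 : ℝ) * (q : ℝ) ^ 2 ≤ (rootClasses q).card := by
  classical
  haveI := Fact.mk hq
  rw [rootClasses, dif_neg hq.ne_zero]
  set I := Finset.univ.image fun ar : ZMod q × ZMod q => (ar.1, -ar.2 ^ 3 - ar.1 * ar.2)
  have h1 : q ^ 2 ≤ 3 * I.card := by
    refine le_trans (le_of_eq (by rw [Finset.card_univ, Fintype.card_prod, ZMod.card, sq]))
      (Finset.card_le_mul_card_image (Finset.univ : Finset (ZMod q × ZMod q)) 3 fun b _ => ?_)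
    set f : Polynomial (ZMod q) := Polynomial.X ^ 3 + Polynomial.C b.1 * Polynomial.X +
      Polynomial.C b.2
    have hf : f.natDegree ≤ 3 := by
      simp only [f]
      compute_degree!
    have hc : f.coeff 3 = 1 := by
      simp [f]
    have hf0 : f ≠ 0 := fun e => by simp [e] at hc
    refine le_trans (Finset.card_le_card_of_injOn (t := f.roots.toFinset) Prod.snd ?_ ?_)
      ((Multiset.toFinset_card_le _).trans ((Polynomial.card_roots' f).trans hf))
    · intro ar har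
      obtain ⟨-, e⟩ := Finset.mem_filter.mp (Finset.mem_coe.mp har)
      subst e
      rw [Finset.mem_coe, Multiset.mem_toFinset, Polynomial.mem_roots hf0, Polynomial.IsRoot.def]
      simp [f]
    · intro ar har as has e
      have e1 := congrArg Prod.fst (Finset.mem_filter.mp (Finset.mem_coe.mp har)).2
      have e2 := congrArg Prod.fst (Finset.mem_filter.mp (Finset.mem_coe.mp has)).2
      exact Prod.ext (e1.trans e2.symm) e
  have hne : ∀ k : ℕ, 0 < k → k < 7 → (k : ZMod q) ≠ 0 := fun k hk hk7 h => by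
    have := Nat.le_of_dvd hk ((ZMod.natCast_eq_zero_iff k q).mp h)
    omega
  have h2 : (2 : ZMod q) ≠ 0 := by exact_mod_cast hne 2 (by norm_num) (by norm_num)
  have h3 : (3 : ZMod q) ≠ 0 := by exact_mod_cast hne 3 (by norm_num) (by norm_num)
  have hsing : (I.filter fun ab => ¬ (4 * ab.1 ^ 3 + 27 * ab.2 ^ 2 ≠ 0)).card ≤ q := by
    refine (Finset.card_le_card (t := Finset.univ.image fun t : ZMod q =>
      (-3 * t ^ 2, 2 * t ^ 3)) fun ab hab => ?_).trans
      (Finset.card_image_le.trans_eq (by rw [Finset.card_univ, ZMod.card]))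
    obtain ⟨a, b⟩ := ab
    simp only [Finset.mem_filter, not_not] at hab
    have he := hab.2
    rcases eq_or_ne a 0 with rfl | ha
    · have hb : b = 0 := by
        have : (27 : ZMod q) * b ^ 2 = 0 := by linear_combination he
        rcases mul_eq_zero.mp this with h | h
        · exact absurd (show (3 : ZMod q) ^ 3 = 0 by linear_combination h) (pow_ne_zero 3 h3)
        · exact pow_eq_zero_iff two_ne_zero |>.mp h
      exact Finset.mem_image.mpr ⟨0, Finset.mem_univ _, by simp [hb]⟩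
    · refine Finset.mem_image.mpr ⟨-3 * b / (2 * a), Finset.mem_univ _, Prod.ext ?_ ?_⟩
      · field_simp
        linear_combination -he
      · field_simp
        linear_combination -b * he
  have h4 := Finset.card_filter_add_card_filter_not (s := I)
    (p := fun ab => 4 * ab.1 ^ 3 + 27 * ab.2 ^ 2 ≠ 0)
  set m := (I.filter fun ab => 4 * ab.1 ^ 3 + 27 * ab.2 ^ 2 ≠ 0).card
  have h5 : q ^ 2 ≤ 3 * (m + q) := by omega
  have h5' : (q : ℝ) ^ 2 ≤ 3 * ((m : ℝ) + q) := by exact_mod_cast h5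
  have h7' : (7 : ℝ) ≤ q := by exact_mod_cast h7
  nlinarith

/-- A root gives good reduction with an even trace. -/
theorem apOfModel_of_rootClass {q : ℕ} [hq : Fact q.Prime] (h5 : 5 ≤ q) {AB : ℤ × ℤ}
    (h : ((AB.1 : ZMod q), (AB.2 : ZMod q)) ∈ rootClasses q) :
    (shortInt AB).IsGoodPrimeFor q ∧ ((shortInt AB).apOfModel q : ZMod 2) = 0 := by
  classical
  rw [rootClasses, dif_neg hq.out.ne_zero, Finset.mem_filter, Finset.mem_image] at h
  obtain ⟨⟨⟨a, r⟩, -, he⟩, hne⟩ := h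
  obtain ⟨rfl, hb⟩ := Prod.mk.inj he
  have h16 : (16 : ZMod q) ≠ 0 := by
    rw [show (16 : ZMod q) = 2 ^ 4 by norm_num]
    refine pow_ne_zero 4 fun e => ?_
    have := Nat.le_of_dvd two_pos ((ZMod.natCast_eq_zero_iff 2 q).mp (by exact_mod_cast e))
    omega
  have hgood : (shortInt AB).IsGoodPrimeFor q := fun hdvd => hne (by
    have hz := (ZMod.intCast_zmod_eq_zero_iff_dvd _ q).mpr hdvd
    simp only [WeierstrassCurve.Δ, WeierstrassCurve.b₂, WeierstrassCurve.b₄,
      WeierstrassCurve.b₆, WeierstrassCurve.b₈] at hz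
    push_cast at hz
    exact (mul_eq_zero.mp (show (-16 : ZMod q) *
      (4 * (AB.1 : ZMod q) ^ 3 + 27 * (AB.2 : ZMod q) ^ 2) = 0 by
        linear_combination hz)).resolve_left (neg_ne_zero.mpr h16))
  refine ⟨hgood, ?_⟩
  set V := (shortInt AB).reductionMod q with hVdef
  haveI hV : V.IsElliptic := ⟨by
    rw [hVdef, reductionMod, WeierstrassCurve.map_Δ]
    exact (Ne.isUnit fun h => hgood ((ZMod.intCast_zmod_eq_zero_iff_dvd _ q).mp h))⟩
  have hns : V.toAffine.Nonsingular r 0 := by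
    rw [← Affine.equation_iff_nonsingular, Affine.equation_iff]
    simp [hVdef, reductionMod]
    linear_combination hb
  set R : V.toAffine.Point := Affine.Point.some r 0 hns
  have h2 : 2 • R = 0 := by
    rw [two_nsmul]
    exact Affine.Point.add_self_of_Y_eq (by simp [Affine.negY, hVdef, reductionMod])
  haveI : Fact (Nat.Prime 2) := ⟨Nat.prime_two⟩
  have hord : addOrderOf R = 2 := addOrderOf_eq_prime h2 (Affine.Point.some_ne_zero _)
  obtain ⟨k, hk⟩ := hord ▸ addOrderOf_dvd_natCard R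
  have hap : (shortInt AB).apOfModel q = (q : ℤ) + 1 - Nat.card V.toAffine.Point := by
    rw [apOfModel, traceOfFrobenius, Nat.card_zmod, WeierstrassCurve.card, ← hVdef]
  rw [hap, hk]
  obtain ⟨j, hj⟩ := hq.out.odd_of_ne_two (by omega)
  rw [hj]
  push_cast
  rw [show (2 : ZMod 2) = 0 from rfl]
  ring_nf
  rfl

/-- **Almost every pair has a separating prime.** -/
theorem tendsto_not_sepPrime [DecidablePred fun P => ¬ SepPrime P] :
    Tendsto (fun XY : ℕ × ℕ => (((pairBox XY.1 XY.2).filter fun P => ¬ SepPrime P).card : ℝ) /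
      ((2 * XY.1 + 1) * (2 * XY.2 + 1)) ^ 2) atTop (𝓝 0) := by
  refine tendsto_avoid_pair (fun q hq => hq.1) not_summable_one_mod_three
    (show (0 : ℝ) < 1 / 12 by norm_num) (fun q => rootClasses q ×ˢ noncubeClasses q)
    (fun q hq => ?_) _ fun P hbad q hq hmem => ?_
  · rw [Finset.card_product, Nat.cast_mul]
    have := mul_le_mul (card_rootClasses hq.1 hq.2.1) (card_noncubeClasses hq.1 hq.2.1 hq.2.2)
      (by positivity) (Nat.cast_nonneg _)
    linarith
  · haveI := Fact.mk hq.1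
    obtain ⟨h1, h2⟩ := Finset.mem_product.mp hmem
    obtain ⟨g1, a1⟩ := apOfModel_of_rootClass (by have := hq.2.1; omega) h1
    obtain ⟨g2, a2⟩ := apOfModel_two_of_noncube hq.2.1 h2
    refine hbad ⟨q, hq.1, g1, g2, fun e => ?_⟩
    have := congrArg (Int.cast (R := ZMod 2)) e
    rw [Int.cast_pow, Int.cast_pow, a1, a2] at this
    simp at this

/-- **The frame of the proofs**: what holds for two curves with poles and a separating prime holds
for almost all pairs. -/
theorem tendsto_pairs (bad : (ℤ × ℤ) × (ℤ × ℤ) → Prop)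
    (h : ∀ P : (ℤ × ℤ) × (ℤ × ℤ), 4 * P.1.1 ^ 3 + 27 * P.1.2 ^ 2 ≠ 0 →
      4 * P.2.1 ^ 3 + 27 * P.2.2 ^ 2 ≠ 0 → ¬ NoMult P.1 → ¬ NoMult P.2 → SepPrime P → ¬ bad P) :
    Tendsto (fun XY : ℕ × ℕ => (Set.ncard {P : (ℤ × ℤ) × (ℤ × ℤ) |
        |P.1.1| ≤ XY.1 ∧ |P.1.2| ≤ XY.2 ∧ |P.2.1| ≤ XY.1 ∧ |P.2.2| ≤ XY.2 ∧
        4 * P.1.1 ^ 3 + 27 * P.1.2 ^ 2 ≠ 0 ∧ 4 * P.2.1 ^ 3 + 27 * P.2.2 ^ 2 ≠ 0 ∧ bad P} : ℝ) /
      ((2 * XY.1 + 1) * (2 * XY.2 + 1)) ^ 2) atTop (𝓝 0) := by
  classical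
  have hsum := ((tendsto_fst tendsto_noMult).add (tendsto_snd tendsto_noMult)).add
    tendsto_not_sepPrime
  rw [add_zero, add_zero] at hsum
  refine squeeze_zero (fun XY => by positivity) (fun XY => ?_) hsum
  rw [← add_div, ← add_div, ← Nat.cast_add, ← Nat.cast_add]
  refine div_le_div_of_nonneg_right (Nat.cast_le.mpr ?_) (by positivity)
  refine le_trans ?_ ((Finset.card_union_le _ _).trans
    (Nat.add_le_add_right (Finset.card_union_le _ _) _))
  rw [← Set.ncard_coe_finset]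
  refine Set.ncard_le_ncard (fun P hP => ?_) (Finset.finite_toSet _)
  obtain ⟨a, b, c, d, h1, h2, hbad⟩ := hP
  have hb : P ∈ pairBox XY.1 XY.2 :=
    Finset.mem_product.mpr ⟨mem_box.mpr ⟨a, b⟩, mem_box.mpr ⟨c, d⟩⟩
  simp only [Finset.mem_coe, Finset.mem_union, Finset.mem_filter, hb, true_and]
  by_contra hc
  simp only [not_or, not_not] at hc
  exact h P h1 h2 hc.1.1 hc.1.2 hc.2 hbad

/-- A multiplicative prime is a pole. -/
theorem exists_pole {AB : ℤ × ℤ} (_hne : 4 * AB.1 ^ 3 + 27 * AB.2 ^ 2 ≠ 0) (h : ¬ NoMult AB)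
    [(shortRat AB).IsElliptic] : ∃ p : ℕ, p.Prime ∧ padicValRat p (shortRat AB).j < 0 := by
  obtain ⟨l, hl, h5, hΔ, hA⟩ : ∃ l : ℕ, l.Prime ∧ 5 ≤ l ∧
      (l : ℤ) ∣ 4 * AB.1 ^ 3 + 27 * AB.2 ^ 2 ∧ ¬ (l : ℤ) ∣ AB.1 := by
    simpa [NoMult] using h
  exact ⟨l, hl, pole_of_mult hl h5 hΔ hA⟩

/-- The traces at a separating prime are those of the rational models. -/
theorem exists_separating {P : (ℤ × ℤ) × (ℤ × ℤ)} [(shortRat P.1).IsElliptic]
    [(shortRat P.2).IsElliptic] (h : SepPrime P) :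
    ∃ q : ℕ, q.Prime ∧ ¬ (q : ℤ) ∣ (shortInt P.1).Δ ∧ ¬ (q : ℤ) ∣ (shortInt P.2).Δ ∧
      (shortRat P.1).LFunction q ^ 2 ≠ (shortRat P.2).LFunction q ^ 2 := by
  obtain ⟨q, hq, g1, g2, hne⟩ := h
  haveI := Fact.mk hq
  refine ⟨q, hq, g1, g2, ?_⟩
  rwa [FA.Root.LFunction_apply_prime _ _ (shortInt_isIntegralModelOf P.1) hq g1,
    FA.Root.LFunction_apply_prime _ _ (shortInt_isIntegralModelOf P.2) hq g2]

end FA.AlmostAll

namespace FA.Summary

open FA.AlmostAll

/-- **Almost all pairs of elliptic curves over `ℚ` are independent**: the joint image of Galois on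
all torsion of the two curves is open among the pairs with equal determinants. -/
theorem almostAll_pairs_independent [inst : DecidableEq (AlgebraicClosure ℚ)] :
    Tendsto (fun XY : ℕ × ℕ => (Set.ncard {P : (ℤ × ℤ) × (ℤ × ℤ) |
        |P.1.1| ≤ XY.1 ∧ |P.1.2| ≤ XY.2 ∧ |P.2.1| ≤ XY.1 ∧ |P.2.2| ≤ XY.2 ∧
        4 * P.1.1 ^ 3 + 27 * P.1.2 ^ 2 ≠ 0 ∧ 4 * P.2.1 ^ 3 + 27 * P.2.2 ^ 2 ≠ 0 ∧
        ¬ ∃ m : ℕ, 0 < m ∧ ∀ (N : ℕ), N ≠ 0 →
          ∀ (e : Submodule.torsionBy ℤ ((⟨0, 0, 0, (P.1.1 : ℚ), (P.1.2 : ℚ)⟩ :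
                WeierstrassCurve ℚ).toAffine⁄(AlgebraicClosure ℚ)).Point (N : ℤ) ≃+
              (Fin 2 → ZMod N))
            (e' : Submodule.torsionBy ℤ ((⟨0, 0, 0, (P.2.1 : ℚ), (P.2.2 : ℚ)⟩ :
                WeierstrassCurve ℚ).toAffine⁄(AlgebraicClosure ℚ)).Point (N : ℤ) ≃+
              (Fin 2 → ZMod N))
            (M M' : Matrix (Fin 2) (Fin 2) (ZMod N)),
            (1 + (m : ZMod N) • M).det = (1 + (m : ZMod N) • M').det →
            IsUnit (1 + (m : ZMod N) • M).det →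
            ∃ σ : AlgebraicClosure ℚ ≃ₐ[ℚ] AlgebraicClosure ℚ,
              (∀ R S, e S = (1 + (m : ZMod N) • M) *ᵥ e R →
                Affine.Point.map σ.toAlgHom R.1 = S.1) ∧
              ∀ R S, e' S = (1 + (m : ZMod N) • M') *ᵥ e' R →
                Affine.Point.map σ.toAlgHom R.1 = S.1} : ℝ) /
      ((2 * XY.1 + 1) * (2 * XY.2 + 1)) ^ 2) atTop (𝓝 0) := by
  refine tendsto_pairs _ fun P h1 h2 n1 n2 hs hbad => hbad ?_
  haveI : (shortRat P.1).IsElliptic := isElliptic_of_ne h1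
  haveI : (shortRat P.2).IsElliptic := isElliptic_of_ne h2
  obtain ⟨q, hq, g1, g2, hne⟩ := exists_separating hs
  obtain ⟨C, hC⟩ := shortInt_isIntegralModelOf P.1
  obtain ⟨C', hC'⟩ := shortInt_isIntegralModelOf P.2
  exact galois_independence_adelic (shortRat P.1) (shortRat P.2) (exists_pole h1 n1)
    (exists_pole h2 n2) _ _ C C' hC hC' hq g1 g2 hne

/-- **Almost all pairs have no homomorphism over any number field**: for every prime `p` no nonzero
map between their points of `p`-power order commutes with Galois over some number field. -/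
theorem almostAll_pairs_noHom [inst : DecidableEq (AlgebraicClosure ℚ)] :
    Tendsto (fun XY : ℕ × ℕ => (Set.ncard {P : (ℤ × ℤ) × (ℤ × ℤ) |
        |P.1.1| ≤ XY.1 ∧ |P.1.2| ≤ XY.2 ∧ |P.2.1| ≤ XY.1 ∧ |P.2.2| ≤ XY.2 ∧
        4 * P.1.1 ^ 3 + 27 * P.1.2 ^ 2 ≠ 0 ∧ 4 * P.2.1 ^ 3 + 27 * P.2.2 ^ 2 ≠ 0 ∧
        ∃ (p : ℕ) (_ : p.Prime) (K : IntermediateField ℚ (AlgebraicClosure ℚ))
          (_ : FiniteDimensional ℚ K)
          (f : AddCommGroup.primaryComponent ((⟨0, 0, 0, (P.1.1 : ℚ), (P.1.2 : ℚ)⟩ :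
              WeierstrassCurve ℚ).toAffine⁄(AlgebraicClosure ℚ)).Point p →+
            AddCommGroup.primaryComponent ((⟨0, 0, 0, (P.2.1 : ℚ), (P.2.2 : ℚ)⟩ :
              WeierstrassCurve ℚ).toAffine⁄(AlgebraicClosure ℚ)).Point p),
          f ≠ 0 ∧ ∀ σ ∈ K.fixingSubgroup, ∀ R S, Affine.Point.map σ.toAlgHom R.1 = S.1 →
            Affine.Point.map σ.toAlgHom (f R).1 = (f S).1} : ℝ) /
      ((2 * XY.1 + 1) * (2 * XY.2 + 1)) ^ 2) atTop (𝓝 0) := by
  refine tendsto_pairs _ fun P h1 h2 n1 n2 hs ⟨p, hp, K, _, f, hf0, hf⟩ => hf0 ?_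
  haveI : (shortRat P.1).IsElliptic := isElliptic_of_ne h1
  haveI : (shortRat P.2).IsElliptic := isElliptic_of_ne h2
  obtain ⟨q, hq, g1, g2, hne⟩ := exists_separating hs
  obtain ⟨C, hC⟩ := shortInt_isIntegralModelOf P.1
  obtain ⟨C', hC'⟩ := shortInt_isIntegralModelOf P.2
  exact primaryHom_eq_zero (shortRat P.1) (shortRat P.2) (exists_pole h1 n1) (exists_pole h2 n2)
    _ _ C C' hC hC' hq g1 g2 hne hp K f hf

end FA.Summary

end
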