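import Fermat.Agent.Root.SummaryAlmostAllSerreCurves
import Fermat.Agent.Independence.OddLevels

/-!
# Almost all pairs of elliptic curves have the largest joint image at odd levels

For almost every pair of equations `y² = x³ + A x + B`, `y² = x³ + A' x + B'` and every odd `N` at
once, every pair of matrices of the same invertible determinant is one element of Galois on
`E[N] × E'[N]`. Almost always each curve is a Serre curve and has two transvection primes, one in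
each of two finite sets of large primes, at which the other has good reduction: few curves are bad
at a prescribed large prime.
-/

set_option autoImplicit false
set_option linter.style.haveILetI false

noncomputable section

open Filter Topology Matrix WeierstrassCurve WeierstrassCurve.Affine FA.EC FA.Frob FA.RT FA.RT.Tate
open scoped WeierstrassCurve.Affine

local notation "Qb" => AlgebraicClosure ℚ
local notation "GQ" => AlgebraicClosure ℚ ≃ₐ[ℚ] AlgebraicClosure ℚ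

namespace FA.AlmostAll

/-- A transvection prime of the first equation in `S` at which the second is good. -/
def TransGoodIn (S : Finset ℕ) (P : (ℤ × ℤ) × (ℤ × ℤ)) : Prop :=
  ∃ q ∈ S, ((q : ℤ) ∣ (shortInt P.1).Δ ∧ ¬ (q : ℤ) ∣ (shortInt P.1).c₄ ∧
    padicValInt q (shortInt P.1).Δ = 1) ∧ (shortInt P.2).IsGoodPrimeFor q

/-- Few pairs are bad at a given large prime. -/
theorem card_not_good_le {q : ℕ} (hq : q.Prime) (h5 : 5 ≤ q) {X Y : ℕ} (hX : q ≤ X) (hY : q ≤ Y)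
    [DecidablePred fun AB => (q : ℤ) ∣ (shortInt AB).Δ] :
    (((box X Y).filter fun AB => (q : ℤ) ∣ (shortInt AB).Δ).card : ℝ) /
      ((2 * X + 1) * (2 * Y + 1)) ≤ 8 / q := by
  have h := card_avoid_ratio (S := {q}) (m := fun l => l) (by simp [Set.Pairwise])
    (by simpa using hq.pos) goodClasses (fun AB => (q : ℤ) ∣ (shortInt AB).Δ)
    (fun AB hd l hl hmem => by
      rw [Finset.mem_singleton] at hl
      subst hl
      rw [goodClasses, dif_neg hq.ne_zero, Finset.mem_filter] at hmem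
      refine hmem.2 ?_
      haveI := Fact.mk hq
      have hz := (ZMod.intCast_zmod_eq_zero_iff_dvd _ l).mpr hd
      simp only [WeierstrassCurve.Δ, WeierstrassCurve.b₂, WeierstrassCurve.b₄,
        WeierstrassCurve.b₆, WeierstrassCurve.b₈] at hz
      push_cast at hz
      have h16 : (16 : ZMod l) ≠ 0 := fun e => by
        have h := (ZMod.natCast_eq_zero_iff 16 l).mp (by exact_mod_cast e)
        have := Nat.le_of_dvd two_pos (hq.dvd_of_dvd_pow (show l ∣ 2 ^ 4 by simpa using h))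
        omega
      refine (mul_eq_zero.mp ?_).resolve_left (neg_ne_zero.mpr h16)
      linear_combination hz) (X := X) (Y := Y) (by simpa using hX) (by simpa using hY)
  rw [Finset.prod_singleton] at h
  refine h.trans ?_
  refine le_trans (mul_le_mul_of_nonneg_left (card_goodClasses hq h5) (by norm_num)) (le_of_eq ?_)
  ring

/-- **A finite set of large primes serves almost all pairs.** -/
theorem exists_transGood {ε : ℝ} (hε : 0 < ε) (Q₀ : ℕ) :
    ∃ S : Finset ℕ, (∀ q ∈ S, q.Prime ∧ 5 ≤ q ∧ Q₀ ≤ q) ∧ ∀ X Y : ℕ, ∏ l ∈ S, l ^ 2 ≤ X →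
      ∏ l ∈ S, l ^ 2 ≤ Y → ∀ [DecidablePred fun P => ¬ TransGoodIn S P],
      (((pairBox X Y).filter fun P => ¬ TransGoodIn S P).card : ℝ) /
        ((2 * X + 1) * (2 * Y + 1)) ^ 2 < ε := by
  classical
  obtain ⟨n, hn⟩ := exists_nat_gt (16 / ε)
  set L := max (max 5 Q₀) n
  have hdiv : ¬ Summable ({q : ℕ | q.Prime ∧ L ≤ q}.indicator fun n : ℕ => 1 / (2 * (n : ℝ))) := by
    refine fun h => not_summable_five_le ((h.mul_left 2).congr_atTop
      (eventually_atTop.mpr ⟨L, fun m hm => ?_⟩))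
    have h5 : 5 ≤ m := ((le_max_left 5 Q₀).trans (le_max_left _ _)).trans hm
    simp only [Set.indicator_apply, Set.mem_ofPred_eq, hm, h5, and_true]
    split_ifs
    · ring
    · rw [mul_zero]
  obtain ⟨S, hS, havoid⟩ := exists_avoid_finset (Q := {q | q.Prime ∧ L ≤ q}) (m := fun q => q ^ 2)
    (fun i hi j hj hij => Nat.Coprime.pow 2 2 ((Nat.coprime_primes hi.1 hj.1).mpr hij))
    (fun q hq => pow_pos hq.1.pos 2) (w := fun n => 1 / (2 * (n : ℝ))) (fun n => by positivity)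
    hdiv transClasses (fun q hq => card_transClasses hq.1
      (((le_max_left 5 Q₀).trans (le_max_left _ _)).trans hq.2))
    (show 0 < ε / 2 by positivity)
  have hS5 : ∀ q ∈ S, q.Prime ∧ 5 ≤ q ∧ Q₀ ≤ q ∧ n ≤ q := fun q hq =>
    ⟨(hS q hq).1, ((le_max_left 5 Q₀).trans (le_max_left _ _)).trans (hS q hq).2,
      ((le_max_right 5 Q₀).trans (le_max_left _ _)).trans (hS q hq).2,
      (le_max_right _ _).trans (hS q hq).2⟩
  refine ⟨S, fun q hq => ⟨(hS5 q hq).1, (hS5 q hq).2.1, (hS5 q hq).2.2.1⟩, fun X Y hX hY _ => ?_⟩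
  let inS : ℤ × ℤ → Prop := fun AB => ∀ q ∈ S,
    ((AB.1 : ZMod (q ^ 2)), (AB.2 : ZMod (q ^ 2))) ∉ transClasses q
  -- the chosen prime of the first equation
  let c : ℤ × ℤ → ℕ := fun AB =>
    if h : ∃ q ∈ S, ((AB.1 : ZMod (q ^ 2)), (AB.2 : ZMod (q ^ 2))) ∈ transClasses q then h.choose
    else 0
  set D : ℝ := (2 * (X : ℝ) + 1) * (2 * Y + 1) with hD
  have hD0 : 0 < D := by positivity
  let bad2 : (ℤ × ℤ) × (ℤ × ℤ) → Prop := fun P =>
    c P.1 ∈ S ∧ ((c P.1 : ℕ) : ℤ) ∣ (shortInt P.2).Δ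
  have hbad2 : (((pairBox X Y).filter bad2).card : ℝ) ≤ ε / 2 * D ^ 2 := by
    have hsum : ((pairBox X Y).filter bad2).card =
        ∑ AB ∈ box X Y, ((box X Y).filter fun CD => bad2 (AB, CD)).card := by
      rw [pairBox, Finset.card_filter, Finset.sum_product]
      exact Finset.sum_congr rfl fun AB _ => (Finset.card_filter _ _).symm
    rw [hsum, Nat.cast_sum]
    refine (Finset.sum_le_card_nsmul _ _ (ε / 2 * D) fun AB _ => ?_).trans_eq ?_
    swap
    · rw [nsmul_eq_mul, card_box, ← hD]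
      ring
    by_cases hc : c AB ∈ S
    swap
    · rw [Finset.filter_false_of_mem fun CD _ h => hc h.1, Finset.card_empty, Nat.cast_zero]
      positivity
    obtain ⟨hp, hp5, -, hpn⟩ := hS5 _ hc
    have hle : ∀ Z : ℕ, ∏ l ∈ S, l ^ 2 ≤ Z → c AB ≤ Z := fun Z hZ =>
      ((Nat.le_self_pow two_ne_zero _).trans (Finset.single_le_prod' (f := fun l => l ^ 2)
        (fun l hl => pow_pos (hS l hl).1.pos 2) hc)).trans hZ
    have h := card_not_good_le hp hp5 (hle X hX) (hle Y hY)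
    rw [← hD, div_le_iff₀ hD0] at h
    refine le_trans (Nat.cast_le.mpr (Finset.card_le_card fun CD hCD => ?_))
      (h.trans (mul_le_mul_of_nonneg_right ?_ hD0.le))
    · obtain ⟨hb, -, hd⟩ := Finset.mem_filter.mp hCD
      exact Finset.mem_filter.mpr ⟨hb, hd⟩
    · have hn0 : (n : ℝ) ≤ c AB := by exact_mod_cast hpn
      rw [div_lt_iff₀ hε] at hn
      rw [div_le_iff₀ (by exact_mod_cast hp.pos)]
      nlinarith
  have h1 : (((pairBox X Y).filter fun P => inS P.1).card : ℝ) / D ^ 2 < ε / 2 := by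
    rw [hD, ratio_fst inS X Y]
    exact havoid inS (fun AB h => h) X Y hX hY
  have hsub : ((pairBox X Y).filter fun P => ¬ TransGoodIn S P).card ≤
      ((pairBox X Y).filter fun P => inS P.1).card + ((pairBox X Y).filter bad2).card := by
    refine (Finset.card_le_card fun P hP => ?_).trans (Finset.card_union_le _ _)
    obtain ⟨hb, hno⟩ := Finset.mem_filter.mp hP
    rw [Finset.mem_union, Finset.mem_filter, Finset.mem_filter]
    by_cases hin : inS P.1
    · exact Or.inl ⟨hb, hin⟩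
    simp only [inS, not_forall, not_not] at hin
    obtain ⟨q₀, hq₀, hc₀⟩ := hin
    have hex : ∃ q ∈ S, ((P.1.1 : ZMod (q ^ 2)), (P.1.2 : ZMod (q ^ 2))) ∈ transClasses q :=
      ⟨q₀, hq₀, hc₀⟩
    obtain ⟨hmem, hcl⟩ := hex.choose_spec
    have hc : c P.1 = hex.choose := dif_pos hex
    refine Or.inr ⟨hb, hc ▸ hmem, ?_⟩
    by_contra hgood
    exact hno ⟨c P.1, hc ▸ hmem,
      hc ▸ trans_of_mem (hS5 _ hmem).1 (hS5 _ hmem).2.1 hcl, hgood⟩
  rw [div_lt_iff₀ (by positivity)]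
  rw [div_lt_iff₀ (by positivity)] at h1
  calc (((pairBox X Y).filter fun P => ¬ TransGoodIn S P).card : ℝ)
      ≤ ((pairBox X Y).filter fun P => inS P.1).card + ((pairBox X Y).filter bad2).card := by
        exact_mod_cast hsub
    _ < ε / 2 * D ^ 2 + ε / 2 * D ^ 2 := add_lt_add_of_lt_of_le h1 hbad2
    _ = ε * D ^ 2 := by ring

/-- Every automorphism pair of equal determinant at odd levels, from generic components and two
transvection primes on each side. -/
theorem exists_pair_of_transGood {P : (ℤ × ℤ) × (ℤ × ℤ)} [(ratCurve (shortInt P.1)).IsElliptic]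
    [(ratCurve (shortInt P.2)).IsElliptic] (h1 : Generic P.1) (h2 : Generic P.2) {S₁ S₂ : Finset ℕ}
    (hS₁ : ∀ q ∈ S₁, q.Prime) (hS₂ : ∀ q ∈ S₂, q.Prime) (hdisj : Disjoint S₁ S₂)
    (t₁ : TransGoodIn S₁ P) (t₂ : TransGoodIn S₂ P) (u₁ : TransGoodIn S₁ P.swap)
    (u₂ : TransGoodIn S₂ P.swap) {N : ℕ} (hN : Odd N)
    (e : Submodule.torsionBy ℤ (Pts (shortInt P.1)) (N : ℤ) ≃+ (Fin 2 → ZMod N))
    (e' : Submodule.torsionBy ℤ (Pts (shortInt P.2)) (N : ℤ) ≃+ (Fin 2 → ZMod N))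
    {X X' : Matrix (Fin 2) (Fin 2) (ZMod N)} (hdet : X.det = X'.det) (hu : IsUnit X.det) :
    ∃ σ : GQ, (∀ x, σ • x.1 = (e.symm (X *ᵥ e x)).1) ∧
      ∀ x, σ • x.1 = (e'.symm (X' *ᵥ e' x)).1 := by
  refine FA.Independence.OddLevels.exists_pair_of_odd (fun l hl _ B B' => ?_) hN e e' hdet hu
  have hΔ1 : (shortInt P.1).Δ ≠ 0 := fun h =>
    (ratCurve (shortInt P.1)).isUnit_Δ.ne_zero (by simp [ratCurve, h])
  have hΔ2 : (shortInt P.2).Δ ≠ 0 := fun h =>
    (ratCurve (shortInt P.2)).isUnit_Δ.ne_zero (by simp [ratCurve, h])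
  have hpick : ∀ {Q : (ℤ × ℤ) × (ℤ × ℤ)}, TransGoodIn S₁ Q → TransGoodIn S₂ Q →
      ∃ q, q.Prime ∧ q ≠ l ∧ (q : ℤ) ∣ (shortInt Q.1).Δ ∧ ¬ (q : ℤ) ∣ (shortInt Q.1).c₄ ∧
        ¬ l ∣ padicValInt q (shortInt Q.1).Δ ∧ (shortInt Q.2).IsGoodPrimeFor q :=
    fun {Q} ⟨q, hq, ⟨hd, hc, hv⟩, hg⟩ ⟨r, hr, ⟨hd', hc', hv'⟩, hg'⟩ => by
      by_cases hql : q = l
      · exact ⟨r, hS₂ r hr, fun e => (Finset.disjoint_left.mp hdisj (hql ▸ hq)) (e ▸ hr), hd', hc',
          by rw [hv']; exact hl.out.not_dvd_one, hg'⟩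
      · exact ⟨q, hS₁ q hq, hql, hd, hc, by rw [hv]; exact hl.out.not_dvd_one, hg⟩
  obtain ⟨q, hq, hql, hd, hc, hv, hg⟩ := hpick t₁ t₂
  obtain ⟨r, hr, hrl, hd', hc', hv', hg'⟩ := hpick u₁ u₂
  obtain ⟨A, hA⟩ := FA.Deform.exists_liesOverPrime hq
  obtain ⟨A', hA'⟩ := FA.Deform.exists_liesOverPrime hr
  obtain ⟨_, hS1⟩ := exists_setting h1 hΔ1
  obtain ⟨_, hS2⟩ := exists_setting h2 hΔ2
  exact ⟨fun n M hM => FA.Independence.OddLevels.exists_pair_of_good (h1.1 l) (hS2.reachAll l)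
      ⟨hΔ1, hq, hd, hc, hA⟩ hql hv hg B B' n M hM,
    fun n M hM => FA.Independence.OddLevels.exists_pair_of_good (h2.1 l) (hS1.reachAll l)
      ⟨hΔ2, hr, hd', hc', hA'⟩ hrl hv' hg' B' B n M hM⟩

end FA.AlmostAll

namespace FA.Summary

open FA.AlmostAll

/-- **Almost all pairs of elliptic curves have the largest joint image at every odd level**: outside
a negligible set, for all odd `N` at once and all bases of `E[N]` and `E'[N]`, every pair of
matrices with the same invertible determinant is the action of one element of Galois. -/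
theorem almostAll_pairs_oddLevels [inst : DecidableEq (AlgebraicClosure ℚ)] :
    Tendsto (fun XY : ℕ × ℕ => (Set.ncard {P : (ℤ × ℤ) × (ℤ × ℤ) |
        |P.1.1| ≤ XY.1 ∧ |P.1.2| ≤ XY.2 ∧ |P.2.1| ≤ XY.1 ∧ |P.2.2| ≤ XY.2 ∧
        4 * P.1.1 ^ 3 + 27 * P.1.2 ^ 2 ≠ 0 ∧ 4 * P.2.1 ^ 3 + 27 * P.2.2 ^ 2 ≠ 0 ∧
        ¬ ∀ (N : ℕ), Odd N →
          ∀ (e : Submodule.torsionBy ℤ ((⟨0, 0, 0, (P.1.1 : ℚ), (P.1.2 : ℚ)⟩ :
                WeierstrassCurve ℚ).toAffine⁄(AlgebraicClosure ℚ)).Point (N : ℤ) ≃+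
              (Fin 2 → ZMod N))
            (e' : Submodule.torsionBy ℤ ((⟨0, 0, 0, (P.2.1 : ℚ), (P.2.2 : ℚ)⟩ :
                WeierstrassCurve ℚ).toAffine⁄(AlgebraicClosure ℚ)).Point (N : ℤ) ≃+
              (Fin 2 → ZMod N))
            (X X' : Matrix (Fin 2) (Fin 2) (ZMod N)),
            X.det = X'.det → IsUnit X.det →
            ∃ σ : GQ,
              (∀ R S, e S = X *ᵥ e R → Affine.Point.map σ.toAlgHom R.1 = S.1) ∧
              ∀ R S, e' S = X' *ᵥ e' R → Affine.Point.map σ.toAlgHom R.1 = S.1} : ℝ) /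
      ((2 * XY.1 + 1) * (2 * XY.2 + 1)) ^ 2) atTop (𝓝 0) := by
  classical
  obtain rfl : inst = instDecEqAlgebraicClosureRat := Subsingleton.elim _ _
  rw [Metric.tendsto_atTop]
  intro ε hε
  set notGen : ℤ × ℤ → Prop := fun AB => 4 * AB.1 ^ 3 + 27 * AB.2 ^ 2 ≠ 0 ∧ ¬ Generic AB
  have hgen : Tendsto (fun XY : ℕ × ℕ => (((box XY.1 XY.2).filter notGen).card : ℝ) /
      ((2 * XY.1 + 1) * (2 * XY.2 + 1))) atTop (𝓝 0) := by
    refine (tendsto_of_generic (fun AB => ¬ Generic AB) fun AB _ _ h hno => hno h).congr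
      fun XY => ?_
    rw [← Set.ncard_coe_finset]
    congr 3
    ext AB
    simp only [notGen, Finset.coe_filter, Set.mem_ofPred_eq, mem_box, and_assoc]
  have hg := (tendsto_fst hgen).add (tendsto_snd hgen)
  rw [add_zero, Metric.tendsto_atTop] at hg
  obtain ⟨M, hM⟩ := hg (ε / 5) (by positivity)
  obtain ⟨S₁, hS₁, h₁⟩ := exists_transGood (show 0 < ε / 5 by positivity) 0
  obtain ⟨S₂, hS₂, h₂⟩ := exists_transGood (show 0 < ε / 5 by positivity) (S₁.sup id + 1)
  set P₁ := ∏ l ∈ S₁, l ^ 2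
  set P₂ := ∏ l ∈ S₂, l ^ 2
  refine ⟨M ⊔ (P₁, P₁) ⊔ (P₂, P₂), fun XY hXY => ?_⟩
  have hX₁ := (le_sup_right.trans (le_sup_left.trans hXY) : (P₁, P₁) ≤ XY)
  have hX₂ := (le_sup_right.trans hXY : (P₂, P₂) ≤ XY)
  have e0 := hM XY (le_sup_left.trans (le_sup_left.trans hXY))
  have e1 := h₁ XY.1 XY.2 hX₁.1 hX₁.2
  have e2 := h₂ XY.1 XY.2 hX₂.1 hX₂.2
  rw [Real.dist_eq, sub_zero, abs_of_nonneg (by positivity)] at e0 ⊢
  set D : ℝ := ((2 * (XY.1 : ℝ) + 1) * (2 * XY.2 + 1)) ^ 2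
  set B := pairBox XY.1 XY.2
  set A₁ := B.filter fun P => ¬ TransGoodIn S₁ P
  set A₂ := B.filter fun P => ¬ TransGoodIn S₂ P
  set A₁' := B.filter fun P => ¬ TransGoodIn S₁ P.swap
  set A₂' := B.filter fun P => ¬ TransGoodIn S₂ P.swap
  set G₁ := B.filter fun P => notGen P.1
  set G₂ := B.filter fun P => notGen P.2
  have s1 : A₁'.card = A₁.card := card_filter_swap (fun P => ¬ TransGoodIn S₁ P) _ _
  have s2 : A₂'.card = A₂.card := card_filter_swap (fun P => ¬ TransGoodIn S₂ P) _ _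
  refine lt_of_le_of_lt (b := (((G₁.card + G₂.card + A₁.card + A₂.card + A₁'.card + A₂'.card : ℕ)
    : ℝ)) / D) (div_le_div_of_nonneg_right (Nat.cast_le.mpr ?_) (by positivity)) ?_
  swap
  · push_cast [s1, s2]
    simp only [add_div]
    linarith
  refine le_trans ?_ ((Finset.card_union_le _ _).trans (Nat.add_le_add_right
    ((Finset.card_union_le _ _).trans (Nat.add_le_add_right ((Finset.card_union_le _ _).trans
      (Nat.add_le_add_right ((Finset.card_union_le _ _).trans (Nat.add_le_add_right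
        (Finset.card_union_le _ _) _)) _)) _)) _))
  rw [← Set.ncard_coe_finset]
  refine Set.ncard_le_ncard (fun P hP => ?_) (Finset.finite_toSet _)
  obtain ⟨a1, b1, a2, b2, n1, n2, hbad⟩ := hP
  have hb : P ∈ B := Finset.mem_product.mpr ⟨mem_box.mpr ⟨a1, b1⟩, mem_box.mpr ⟨a2, b2⟩⟩
  simp only [Finset.mem_coe, Finset.mem_union, A₁, A₂, A₁', A₂', G₁, G₂, Finset.mem_filter, hb,
    true_and]
  by_contra hc
  simp only [not_or, not_not, notGen, n1, n2, ne_eq, not_false_eq_true, true_and] at hc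
  obtain ⟨⟨⟨⟨⟨g1, g2⟩, t1⟩, t2⟩, u1⟩, u2⟩ := hc
  refine hbad ?_
  haveI : (shortRat P.1).IsElliptic := isElliptic_of_ne n1
  haveI : (shortRat P.2).IsElliptic := isElliptic_of_ne n2
  haveI := ratCurve_isElliptic_of_Δ (Δ_ne_zero_of_model (shortInt_isIntegralModelOf P.1))
  haveI := ratCurve_isElliptic_of_Δ (Δ_ne_zero_of_model (shortInt_isIntegralModelOf P.2))
  intro N hN
  rw [show (⟨0, 0, 0, (P.1.1 : ℚ), (P.1.2 : ℚ)⟩ : WeierstrassCurve ℚ) = ratCurve (shortInt P.1) by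
      ext <;> simp,
    show (⟨0, 0, 0, (P.2.1 : ℚ), (P.2.2 : ℚ)⟩ : WeierstrassCurve ℚ) = ratCurve (shortInt P.2) by
      ext <;> simp]
  intro e e' X X' hdet hu
  obtain ⟨σ, h, h'⟩ := exists_pair_of_transGood g1 g2 (fun q hq => (hS₁ q hq).1)
    (fun q hq => (hS₂ q hq).1) (Finset.disjoint_left.mpr fun q hq hq' => by
      have := Finset.le_sup (f := id) hq
      have := (hS₂ q hq').2.2
      simp only [id_eq] at *
      omega) t1 t2 u1 u2 hN e e' hdet hu
  refine ⟨σ, fun R S hRS => ?_, fun R S hRS => ?_⟩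
  · exact (h R).trans (by rw [← hRS, AddEquiv.symm_apply_apply])
  · exact (h' R).trans (by rw [← hRS, AddEquiv.symm_apply_apply])

end FA.Summary

end
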