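import Fermat.Agent.AlmostAllPrimitiveRoot.Main

/-!
# Almost all primes have a tiny prime primitive root

In the manner of Burgess and Elliott, and of G. Martin: with no hypothesis, for every `ε > 0`
all but `X ^ ε` of the primes `p ≤ X` have a prime primitive root `≤ (log p) ^ B`. The exponent
`B` is not explicit in the statements (it is about `2400 / ε` in the proof).
-/

set_option autoImplicit false

noncomputable section

namespace FA.AlmostAllRoot.Summary

open Finset Filter
open scoped Classical

/-- **All but `X ^ ε` primes have a prime primitive root below a power of their logarithm.** -/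
theorem almost_all_prime_primitive_root {ε : ℝ} (hε : 0 < ε) : ∃ B : ℕ, ∀ᶠ X : ℕ in atTop,
    (((Icc 1 X).filter fun p : ℕ => p.Prime ∧ ∀ l : ℕ, l.Prime → (l : ℝ) ≤ Real.log p ^ B →
      orderOf (l : ZMod p) ≠ p - 1).card : ℝ) ≤ (X : ℝ) ^ ε := by
  obtain ⟨B, hB⟩ := exists_card_exceptional_le hε
  exact ⟨B, hB⟩

/-- **So few primes have least primitive root above a power of their logarithm.** -/
theorem almost_all_primitive_root {ε : ℝ} (hε : 0 < ε) : ∃ B : ℕ, ∀ᶠ X : ℕ in atTop,
    (((Icc 1 X).filter fun p : ℕ => p.Prime ∧ ∀ g : ℕ, orderOf (g : ZMod p) = p - 1 →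
      Real.log p ^ B < g).card : ℝ) ≤ (X : ℝ) ^ ε := by
  obtain ⟨B, hB⟩ := exists_card_exceptional_le hε
  refine ⟨B, hB.mono fun X hX => le_trans (Nat.cast_le.2 (card_le_card fun p hp => ?_)) hX⟩
  simp only [exceptionalPrimes, mem_filter] at hp ⊢
  exact ⟨hp.1, hp.2.1, fun l _ hle hord => (hp.2.2 l hord).not_ge hle⟩

end FA.AlmostAllRoot.Summary

end
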