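import Fermat.Agent.Root.SummaryExceptionalField
import Fermat.Agent.Root.SummaryExceptionalStructure
import Fermat.Agent.Root.SummaryTwistCriterion
import Fermat.Agent.Ribet.SerreTrace

/-!
# One good prime can prove Serre's open image theorem

An exceptional curve has additive reduction at a prime of its field, and this prime divides
`4 l - a_l²` at the good primes with `a_l ≠ 0`. So the adelic image of Galois is open as soon as
one good prime `l` has `a_l ≠ 0` and the curve is semistable at the primes dividing `4 l - a_l²`: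
with no other hypothesis for `a_2 = ±2` and `a_3 = ±3`, hence for all equations in two classes
modulo `2` and `3`.
-/

set_option autoImplicit false
set_option linter.style.haveILetI false

noncomputable section

open WeierstrassCurve WeierstrassCurve.Affine FA.EC FA.Frob FA.RT
open scoped WeierstrassCurve.Affine

namespace FA.OnePrime

/-- A sum of two squares divisible by four has even terms. -/
theorem two_dvd_sq_of_four {a b c : ℤ} (h : 4 * c = a ^ 2 + b ^ 2) : (2 : ℤ) ∣ b ^ 2 := by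
  have key : ∀ x y : ZMod 4, x ^ 2 + y ^ 2 = 0 → y ^ 2 = 0 := by decide
  have h0 : (a : ZMod 4) ^ 2 + (b : ZMod 4) ^ 2 = 0 := by
    have := congrArg (Int.cast (R := ZMod 4)) h
    push_cast at this
    rw [← this, show (4 : ZMod 4) = 0 from by decide, zero_mul]
  have h4 : ((b ^ 2 : ℤ) : ZMod 4) = 0 := by
    push_cast
    exact key _ _ h0
  exact dvd_trans ⟨2, by norm_num⟩ ((ZMod.intCast_zmod_eq_zero_iff_dvd _ 4).mp h4)

/-- The trace at `2` of `y² + y = x³ + a₂ x² + a₄ x + a₆` with `a₂ + a₄` odd. -/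
theorem good_two_and_trace {W : WeierstrassCurve ℤ} (h1 : Even W.a₁) (h3 : Odd W.a₃)
    (h24 : Odd (W.a₂ + W.a₄)) : ¬ (2 : ℤ) ∣ W.Δ ∧ (W.apOfModel 2 = 2 ∨ W.apOfModel 2 = -2) := by
  have e1 : (W.a₁ : ZMod 2) = 0 := ZMod.intCast_eq_zero_iff_even.mpr h1
  have e3 : (W.a₃ : ZMod 2) = 1 := ZMod.intCast_eq_one_iff_odd.mpr h3
  have e4 : (W.a₄ : ZMod 2) = (W.a₂ : ZMod 2) + 1 := by
    have h := ZMod.intCast_eq_one_iff_odd.mpr h24
    push_cast at h
    revert h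
    generalize (W.a₂ : ZMod 2) = x
    generalize (W.a₄ : ZMod 2) = y
    revert x y
    decide
  have hred : W.reductionMod 2 =
      ⟨0, (W.a₂ : ZMod 2), 1, (W.a₂ : ZMod 2) + 1, (W.a₆ : ZMod 2)⟩ := by
    ext <;> simp [reductionMod, e1, e3, e4]
  refine ⟨fun hdvd => ?_, ?_⟩
  · have hΔ : (W.reductionMod 2).Δ = 0 := by
      rw [reductionMod, map_Δ, eq_intCast]
      exact (ZMod.intCast_zmod_eq_zero_iff_dvd _ 2).mpr hdvd
    rw [hred] at hΔ
    simp only [WeierstrassCurve.Δ, WeierstrassCurve.b₂, WeierstrassCurve.b₄, WeierstrassCurve.b₆,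
      WeierstrassCurve.b₈] at hΔ
    revert hΔ
    generalize (W.a₂ : ZMod 2) = x
    generalize (W.a₆ : ZMod 2) = y
    revert x y
    decide
  · have key : ∀ x y : ZMod 2, (FA.Ribet.nsPts 0 x 1 (x + 1) y).card = 0 ∨
        (FA.Ribet.nsPts 0 x 1 (x + 1) y).card = 4 := by decide
    rw [FA.Ribet.apOfModel_eq_nsPts hred]
    rcases key (W.a₂ : ZMod 2) (W.a₆ : ZMod 2) with h | h <;> rw [h] <;> norm_num

/-- The trace at `3` of `y² = x³ - x + a₆` with `a₆` prime to `3`. -/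
theorem good_three_and_trace {W : WeierstrassCurve ℤ} (h1 : (3 : ℤ) ∣ W.a₁) (h2 : (3 : ℤ) ∣ W.a₂)
    (h3 : (3 : ℤ) ∣ W.a₃) (h4 : (3 : ℤ) ∣ W.a₄ + 1) (h6 : ¬ (3 : ℤ) ∣ W.a₆) :
    ¬ (3 : ℤ) ∣ W.Δ ∧ (W.apOfModel 3 = 3 ∨ W.apOfModel 3 = -3) := by
  have hz : ∀ z : ℤ, (3 : ℤ) ∣ z → (z : ZMod 3) = 0 := fun z hz =>
    (ZMod.intCast_zmod_eq_zero_iff_dvd z 3).mpr hz
  have e4 : (W.a₄ : ZMod 3) = -1 := by
    have h := hz _ h4
    push_cast at h
    linear_combination h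
  have hred : W.reductionMod 3 = ⟨0, 0, 0, -1, (W.a₆ : ZMod 3)⟩ := by
    ext <;> simp [reductionMod, hz _ h1, hz _ h2, hz _ h3, e4]
  have h6' : (W.a₆ : ZMod 3) ≠ 0 := fun h =>
    h6 ((ZMod.intCast_zmod_eq_zero_iff_dvd _ 3).mp h)
  refine ⟨fun hdvd => ?_, ?_⟩
  · have hΔ : (W.reductionMod 3).Δ = 0 := by
      rw [reductionMod, map_Δ, eq_intCast]
      exact (ZMod.intCast_zmod_eq_zero_iff_dvd _ 3).mpr hdvd
    rw [hred] at hΔ
    simp only [WeierstrassCurve.Δ, WeierstrassCurve.b₂, WeierstrassCurve.b₄, WeierstrassCurve.b₆,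
      WeierstrassCurve.b₈] at hΔ
    revert hΔ h6'
    generalize (W.a₆ : ZMod 3) = y
    revert y
    decide
  · have key : ∀ y : ZMod 3, y ≠ 0 → (FA.Ribet.nsPts 0 0 0 (-1) y).card = 0 ∨
        (FA.Ribet.nsPts 0 0 0 (-1) y).card = 6 := by decide
    rw [FA.Ribet.apOfModel_eq_nsPts hred]
    rcases key (W.a₆ : ZMod 3) h6' with h | h <;> rw [h] <;> norm_num

/-- Semistability seen on one equation. -/
theorem isSemistableAt_of_equation {p : ℕ} [Fact p.Prime] {E : WeierstrassCurve ℚ}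
    {W : WeierstrassCurve ℤ} (hW : W.IsIntegralModelOf E)
    (h : ¬ ((p : ℤ) ∣ W.Δ ∧ (p : ℤ) ∣ W.c₄)) : FA.Root.IsSemistableAt E p := by
  obtain ⟨C, hC⟩ := hW
  refine FA.Root.isSemistableAt_of_rat E (C := C) ?_ ?_ ?_ ?_ ?_ ?_
  all_goals rw [hC]
  case refine_6 => exact fun hd => h (by simpa using hd)
  all_goals simpa using (Nat.Prime.ne_one Fact.out : p ≠ 1)

end FA.OnePrime

namespace FA.Summary

/-- **Open image from one prime**: if some good prime `l` has `a_l ≠ 0` and `E` is semistable at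
every prime dividing `4 l - a_l²`, the adelic image of Galois is open. -/
theorem openImage_of_onePrime (E : WeierstrassCurve ℚ) [E.IsElliptic]
    [inst : DecidableEq (AlgebraicClosure ℚ)] {l : ℕ} [Fact l.Prime]
    (hgood : ∃ C : VariableChange ℚ_[l],
      HasGoodReduction ℤ_[l] (C • E.map (algebraMap ℚ ℚ_[l])))
    (ha : E.LFunction l ≠ 0)
    (hs : ∀ q : ℕ, ∀ [Fact q.Prime], (q : ℤ) ∣ 4 * (l : ℤ) - E.LFunction l ^ 2 →
      ∃ C : VariableChange ℚ_[q], HasGoodReduction ℤ_[q] (C • E.map (algebraMap ℚ ℚ_[q])) ∨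
        HasMultiplicativeReduction ℤ_[q] (C • E.map (algebraMap ℚ ℚ_[q]))) :
    ∃ m : ℕ, 0 < m ∧ ∀ (N : ℕ), N ≠ 0 →
      ∀ φ : Submodule.torsionBy ℤ (E.toAffine⁄(AlgebraicClosure ℚ)).Point (N : ℤ) ≃+
        Submodule.torsionBy ℤ (E.toAffine⁄(AlgebraicClosure ℚ)).Point (N : ℤ),
      (∀ P, m • P.1 = 0 → φ P = P) →
        ∃ σ : AlgebraicClosure ℚ ≃ₐ[ℚ] AlgebraicClosure ℚ, ∀ P,
          Affine.Point.map σ.toAlgHom P.1 = (φ P).1 := by
  by_contra hno
  rw [serreOpenImage_adelic_iff_genus E, not_not] at hno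
  obtain ⟨d, hshape, -, h⟩ := hno
  obtain ⟨hd, hneg⟩ := FA.Genus.squarefree_and_neg hshape
  obtain ⟨hun, hun2⟩ := exceptional_unramified E hd (by omega) h
  obtain ⟨-, b, -, he⟩ := exceptional_normEquation E hd (by omega) h l hgood ha
  rw [abs_of_neg hneg] at he
  have hbad : ∀ q : ℕ, ∀ [Fact q.Prime], (q : ℤ) ∣ 4 * (l : ℤ) - E.LFunction l ^ 2 →
      ∃ C : VariableChange ℚ_[q], HasGoodReduction ℤ_[q] (C • E.map (algebraMap ℚ ℚ_[q])) :=
    fun q _ hq => exceptional_good_of_semistable E hd (by omega) h q (hs q hq)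
  rcases hshape with rfl | rfl | ⟨p, hp, -, rfl⟩
  · haveI : Fact (Nat.Prime 2) := ⟨Nat.prime_two⟩
    have h2 := hun2 (hbad 2 (by
      rw [Nat.cast_ofNat, show 4 * (l : ℤ) - E.LFunction l ^ 2 = b ^ 2 by linear_combination he]
      exact FA.OnePrime.two_dvd_sq_of_four (a := E.LFunction l) (c := (l : ℤ))
        (by linear_combination he)))
    norm_num at h2
  · haveI : Fact (Nat.Prime 2) := ⟨Nat.prime_two⟩
    exact hun 2 (hbad 2 ⟨b ^ 2, by push_cast; linear_combination he⟩) (by norm_num)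
  · haveI := Fact.mk hp
    exact hun p (hbad p ⟨b ^ 2, by linear_combination he⟩) (dvd_neg.mpr dvd_rfl)

/-- **Open image from one trace of an equation**: some `l ∤ Δ` with `a_l ≠ 0`, and no prime
dividing `4 l - a_l²` divides both `Δ` and `c₄`. -/
theorem openImage_of_onePrime_model (E : WeierstrassCurve ℚ) [E.IsElliptic]
    [inst : DecidableEq (AlgebraicClosure ℚ)] {W : WeierstrassCurve ℤ}
    (hW : W.IsIntegralModelOf E) {l : ℕ} (hl : l.Prime) (hgood : W.IsGoodPrimeFor l)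
    (ha : W.apOfModel l ≠ 0)
    (hs : ∀ q : ℕ, q.Prime → (q : ℤ) ∣ 4 * (l : ℤ) - W.apOfModel l ^ 2 →
      ¬ ((q : ℤ) ∣ W.Δ ∧ (q : ℤ) ∣ W.c₄)) :
    ∃ m : ℕ, 0 < m ∧ ∀ (N : ℕ), N ≠ 0 →
      ∀ φ : Submodule.torsionBy ℤ (E.toAffine⁄(AlgebraicClosure ℚ)).Point (N : ℤ) ≃+
        Submodule.torsionBy ℤ (E.toAffine⁄(AlgebraicClosure ℚ)).Point (N : ℤ),
      (∀ P, m • P.1 = 0 → φ P = P) →
        ∃ σ : AlgebraicClosure ℚ ≃ₐ[ℚ] AlgebraicClosure ℚ, ∀ P,
          Affine.Point.map σ.toAlgHom P.1 = (φ P).1 := by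
  haveI := Fact.mk hl
  have hL := FA.Root.LFunction_apply_prime E W hW hl hgood
  exact openImage_of_onePrime E (FA.Exceptional.exists_good_reduction hW l hgood) (hL ▸ ha)
    fun q hq hdvd => FA.Root.exists_reduction_of_isSemistableAt E
      (FA.OnePrime.isSemistableAt_of_equation hW (hs q hq.out (hL ▸ hdvd)))

/-- **`a_2 = ±2` at a good prime `2` forces an open image**. -/
theorem openImage_of_trace_two (E : WeierstrassCurve ℚ) [E.IsElliptic]
    [inst : DecidableEq (AlgebraicClosure ℚ)] {W : WeierstrassCurve ℤ}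
    (hW : W.IsIntegralModelOf E) (hgood : W.IsGoodPrimeFor 2)
    (ha : W.apOfModel 2 = 2 ∨ W.apOfModel 2 = -2) :
    ∃ m : ℕ, 0 < m ∧ ∀ (N : ℕ), N ≠ 0 →
      ∀ φ : Submodule.torsionBy ℤ (E.toAffine⁄(AlgebraicClosure ℚ)).Point (N : ℤ) ≃+
        Submodule.torsionBy ℤ (E.toAffine⁄(AlgebraicClosure ℚ)).Point (N : ℤ),
      (∀ P, m • P.1 = 0 → φ P = P) →
        ∃ σ : AlgebraicClosure ℚ ≃ₐ[ℚ] AlgebraicClosure ℚ, ∀ P,
          Affine.Point.map σ.toAlgHom P.1 = (φ P).1 := by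
  have h4 : 4 * ((2 : ℕ) : ℤ) - W.apOfModel 2 ^ 2 = ((2 ^ 2 : ℕ) : ℤ) := by
    rcases ha with h | h <;> rw [h] <;> norm_num
  refine openImage_of_onePrime_model E hW Nat.prime_two hgood (by omega) fun q hq hdvd hbad => ?_
  rw [h4, Int.natCast_dvd_natCast] at hdvd
  obtain rfl := (Nat.prime_dvd_prime_iff_eq hq Nat.prime_two).mp (hq.dvd_of_dvd_pow hdvd)
  exact hgood hbad.1

/-- **`a_3 = ±3` at a good prime `3` forces an open image**. -/
theorem openImage_of_trace_three (E : WeierstrassCurve ℚ) [E.IsElliptic]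
    [inst : DecidableEq (AlgebraicClosure ℚ)] {W : WeierstrassCurve ℤ}
    (hW : W.IsIntegralModelOf E) (hgood : W.IsGoodPrimeFor 3)
    (ha : W.apOfModel 3 = 3 ∨ W.apOfModel 3 = -3) :
    ∃ m : ℕ, 0 < m ∧ ∀ (N : ℕ), N ≠ 0 →
      ∀ φ : Submodule.torsionBy ℤ (E.toAffine⁄(AlgebraicClosure ℚ)).Point (N : ℤ) ≃+
        Submodule.torsionBy ℤ (E.toAffine⁄(AlgebraicClosure ℚ)).Point (N : ℤ),
      (∀ P, m • P.1 = 0 → φ P = P) →
        ∃ σ : AlgebraicClosure ℚ ≃ₐ[ℚ] AlgebraicClosure ℚ, ∀ P,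
          Affine.Point.map σ.toAlgHom P.1 = (φ P).1 := by
  have h4 : 4 * ((3 : ℕ) : ℤ) - W.apOfModel 3 ^ 2 = ((3 : ℕ) : ℤ) := by
    rcases ha with h | h <;> rw [h] <;> norm_num
  refine openImage_of_onePrime_model E hW Nat.prime_three hgood (by omega) fun q hq hdvd hbad => ?_
  rw [h4, Int.natCast_dvd_natCast] at hdvd
  obtain rfl := (Nat.prime_dvd_prime_iff_eq hq Nat.prime_three).mp hdvd
  exact hgood hbad.1

/-- **`a_2 = ±1` and semistable reduction at `7` force an open image** (`49a` is the exception). -/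
theorem openImage_of_ordinary_two (E : WeierstrassCurve ℚ) [E.IsElliptic]
    [inst : DecidableEq (AlgebraicClosure ℚ)] {W : WeierstrassCurve ℤ}
    (hW : W.IsIntegralModelOf E) (hgood : W.IsGoodPrimeFor 2)
    (ha : W.apOfModel 2 = 1 ∨ W.apOfModel 2 = -1)
    (h7 : ¬ ((7 : ℤ) ∣ W.Δ ∧ (7 : ℤ) ∣ W.c₄)) :
    ∃ m : ℕ, 0 < m ∧ ∀ (N : ℕ), N ≠ 0 →
      ∀ φ : Submodule.torsionBy ℤ (E.toAffine⁄(AlgebraicClosure ℚ)).Point (N : ℤ) ≃+
        Submodule.torsionBy ℤ (E.toAffine⁄(AlgebraicClosure ℚ)).Point (N : ℤ),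
      (∀ P, m • P.1 = 0 → φ P = P) →
        ∃ σ : AlgebraicClosure ℚ ≃ₐ[ℚ] AlgebraicClosure ℚ, ∀ P,
          Affine.Point.map σ.toAlgHom P.1 = (φ P).1 := by
  have h4 : 4 * ((2 : ℕ) : ℤ) - W.apOfModel 2 ^ 2 = ((7 : ℕ) : ℤ) := by
    rcases ha with h | h <;> rw [h] <;> norm_num
  refine openImage_of_onePrime_model E hW Nat.prime_two hgood (by omega) fun q hq hdvd hbad => ?_
  rw [h4, Int.natCast_dvd_natCast] at hdvd
  obtain rfl := (Nat.prime_dvd_prime_iff_eq hq (by norm_num)).mp hdvd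
  exact h7 hbad

/-- **A congruence class modulo two with open image**: every Weierstrass equation over `ℤ` with
`a₁` even, `a₃` and `a₂ + a₄` odd (`y² + y = x³ - x`, for one). -/
theorem openImage_of_class_mod_two (E : WeierstrassCurve ℚ) [E.IsElliptic]
    [inst : DecidableEq (AlgebraicClosure ℚ)] {W : WeierstrassCurve ℤ}
    (hW : W.IsIntegralModelOf E) (h1 : Even W.a₁) (h3 : Odd W.a₃) (h24 : Odd (W.a₂ + W.a₄)) :
    ∃ m : ℕ, 0 < m ∧ ∀ (N : ℕ), N ≠ 0 →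
      ∀ φ : Submodule.torsionBy ℤ (E.toAffine⁄(AlgebraicClosure ℚ)).Point (N : ℤ) ≃+
        Submodule.torsionBy ℤ (E.toAffine⁄(AlgebraicClosure ℚ)).Point (N : ℤ),
      (∀ P, m • P.1 = 0 → φ P = P) →
        ∃ σ : AlgebraicClosure ℚ ≃ₐ[ℚ] AlgebraicClosure ℚ, ∀ P,
          Affine.Point.map σ.toAlgHom P.1 = (φ P).1 :=
  openImage_of_trace_two E hW (FA.OnePrime.good_two_and_trace h1 h3 h24).1
    (FA.OnePrime.good_two_and_trace h1 h3 h24).2

/-- **A congruence class modulo three with open image**: every Weierstrass equation over `ℤ`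
congruent to `y² = x³ - x ± 1`. -/
theorem openImage_of_class_mod_three (E : WeierstrassCurve ℚ) [E.IsElliptic]
    [inst : DecidableEq (AlgebraicClosure ℚ)] {W : WeierstrassCurve ℤ}
    (hW : W.IsIntegralModelOf E) (h1 : (3 : ℤ) ∣ W.a₁) (h2 : (3 : ℤ) ∣ W.a₂)
    (h3 : (3 : ℤ) ∣ W.a₃) (h4 : (3 : ℤ) ∣ W.a₄ + 1) (h6 : ¬ (3 : ℤ) ∣ W.a₆) :
    ∃ m : ℕ, 0 < m ∧ ∀ (N : ℕ), N ≠ 0 →
      ∀ φ : Submodule.torsionBy ℤ (E.toAffine⁄(AlgebraicClosure ℚ)).Point (N : ℤ) ≃+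
        Submodule.torsionBy ℤ (E.toAffine⁄(AlgebraicClosure ℚ)).Point (N : ℤ),
      (∀ P, m • P.1 = 0 → φ P = P) →
        ∃ σ : AlgebraicClosure ℚ ≃ₐ[ℚ] AlgebraicClosure ℚ, ∀ P,
          Affine.Point.map σ.toAlgHom P.1 = (φ P).1 :=
  openImage_of_trace_three E hW (FA.OnePrime.good_three_and_trace h1 h2 h3 h4 h6).1
    (FA.OnePrime.good_three_and_trace h1 h2 h3 h4 h6).2

end FA.Summary

end
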