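import Fermat.Agent.Root.SummaryAlmostAllEveryLevel
import Fermat.Agent.Root.SummarySerreCurves
import Fermat.Agent.Root.SummaryOnePrimeOpenImage
import Mathlib.Algebra.Order.Field.GeomSum

/-!
# A positive proportion of all elliptic curves are Serre curves

Almost every semistable `y² = x³ + A x + B` has an adelic image of index exactly two: it has no
isogeny of prime degree `p ≥ 11`, `p ≠ 13`, by Serre and Mazur's method for semistable curves, none
of the other degrees by the sieve, and a pole of `j` of order one. The semistable ones, among them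
the transforms of `y² + y = x³ + a x + b` with `3 ∤ a` and no prime `p ≥ 5` dividing `a` and
`4 b + 1`, form a positive proportion.
-/

set_option autoImplicit false
set_option linter.style.haveILetI false

noncomputable section

open Filter Topology Matrix WeierstrassCurve WeierstrassCurve.Affine FA.EC FA.Frob FA.RT
open scoped WeierstrassCurve.Affine

local notation "Qb" => AlgebraicClosure ℚ
local notation "GQ" => AlgebraicClosure ℚ ≃ₐ[ℚ] AlgebraicClosure ℚ

namespace FA.AlmostAll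

/-- A transvection prime is a pole of `j` of order one. -/
theorem pole_of_hasTrans {AB : ℤ × ℤ} [(shortRat AB).IsElliptic] (h : HasTrans {2, 3} AB) :
    ∃ q : ℕ, q.Prime ∧ 5 ≤ q ∧ padicValRat q (shortRat AB).j = -1 := by
  obtain ⟨q, hq, hqF, hd, hc, hv⟩ := h
  haveI := Fact.mk hq
  simp only [Finset.mem_insert, Finset.mem_singleton, not_or] at hqF
  refine ⟨q, hq, hq.five_le_of_ne_two_of_ne_three hqF.1 hqF.2, ?_⟩
  have hW := shortInt_isIntegralModelOf AB
  rw [FA.OggShafarevich.j_eq_of_model hW, padicValRat.div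
    (pow_ne_zero 3 (Int.cast_ne_zero.mpr fun e => hc (by rw [e]; exact dvd_zero _)))
    (Int.cast_ne_zero.mpr (Δ_ne_zero_of_model hW)), padicValRat.pow, padicValRat.of_int,
    padicValRat.of_int, padicValInt.eq_zero_of_not_dvd hc, hv]
  norm_num

/-- The pairs of the family: `y² + y = x³ + a x + b` with semistable reduction everywhere. -/
def GoodPair (ab : ℕ × ℕ) : Prop :=
  ¬ 3 ∣ ab.1 ∧ ∀ p : ℕ, p.Prime → 5 ≤ p → p ∣ ab.1 → ¬ p ∣ 4 * ab.2 + 1

/-- The discriminant of the family modulo three. -/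
theorem three_key :
    ∀ x y : ZMod 3, x ≠ 0 → -64 * x ^ 3 - 27 * (4 * y + 1) ^ 2 ≠ 0 := by decide

/-- The member of the family is semistable. -/
theorem semistable_of_goodPair {a b : ℕ} (h : GoodPair (a, b)) :
    4 * (16 * (a : ℤ)) ^ 3 + 27 * (64 * (b : ℤ) + 16) ^ 2 ≠ 0 ∧
      ∀ p : ℕ, ∀ [Fact p.Prime], ∃ C : VariableChange ℚ_[p],
        HasGoodReduction ℤ_[p]
            (C • (shortRat (16 * (a : ℤ), 64 * (b : ℤ) + 16)).map (algebraMap ℚ ℚ_[p])) ∨
          HasMultiplicativeReduction ℤ_[p]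
            (C • (shortRat (16 * (a : ℤ), 64 * (b : ℤ) + 16)).map (algebraMap ℚ ℚ_[p])) := by
  set W : WeierstrassCurve ℤ := ⟨0, 0, 1, (a : ℤ), (b : ℤ)⟩
  have hΔ : W.Δ = -64 * (a : ℤ) ^ 3 - 27 * (4 * (b : ℤ) + 1) ^ 2 := by
    simp only [W, WeierstrassCurve.Δ, WeierstrassCurve.b₂, WeierstrassCurve.b₄,
      WeierstrassCurve.b₆, WeierstrassCurve.b₈]
    ring
  have hc : W.c₄ = -48 * (a : ℤ) := by
    simp only [W, WeierstrassCurve.c₄, WeierstrassCurve.b₂, WeierstrassCurve.b₄]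
    ring
  have h2 : ¬ (2 : ℤ) ∣ W.Δ := fun hd => by
    have hz := (ZMod.intCast_zmod_eq_zero_iff_dvd _ 2).mpr hd
    rw [hΔ] at hz
    push_cast at hz
    revert hz
    generalize (a : ZMod 2) = x
    generalize (b : ZMod 2) = y
    revert x y
    decide
  have hne : W.Δ ≠ 0 := fun e => h2 (e ▸ dvd_zero _)
  have hne' : 4 * (16 * (a : ℤ)) ^ 3 + 27 * (64 * (b : ℤ) + 16) ^ 2 ≠ 0 := fun e =>
    hne (by rw [hΔ]; linarith)
  have hs : ∀ p : ℕ, p.Prime → ¬ ((p : ℤ) ∣ W.Δ ∧ (p : ℤ) ∣ W.c₄) := fun p hp ⟨hd, hd4⟩ => by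
    rcases eq_or_ne p 2 with rfl | hp2
    · exact h2 hd
    haveI := Fact.mk hp
    rcases eq_or_ne p 3 with rfl | hp3
    · have h3 : (a : ZMod 3) ≠ 0 := fun e => h.1 ((ZMod.natCast_eq_zero_iff a 3).mp e)
      have hz := (ZMod.intCast_zmod_eq_zero_iff_dvd _ 3).mpr hd
      rw [hΔ] at hz
      push_cast at hz
      exact three_key _ _ h3 hz
    have h5 : 5 ≤ p := hp.five_le_of_ne_two_of_ne_three hp2 hp3
    have hpi := Nat.prime_iff_prime_int.mp hp
    have ha : p ∣ a := by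
      rw [hc] at hd4
      rcases hpi.dvd_mul.mp hd4 with h' | h'
      · have h'' : p ∣ 2 ^ 4 * 3 := by simpa using Int.natCast_dvd.mp h'
        rcases hp.dvd_mul.mp h'' with e | e
        · have := Nat.le_of_dvd two_pos (hp.dvd_of_dvd_pow e); omega
        · have := Nat.le_of_dvd three_pos e; omega
      · exact Int.natCast_dvd_natCast.mp h'
    refine h.2 p hp h5 ha ?_
    have h27 : (p : ℤ) ∣ 27 * (4 * (b : ℤ) + 1) ^ 2 := by
      have ha' : (p : ℤ) ∣ 64 * (a : ℤ) ^ 3 :=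
        dvd_mul_of_dvd_right (dvd_pow (Int.natCast_dvd_natCast.mpr ha) three_ne_zero) _
      have := dvd_add hd ha'
      rw [hΔ] at this
      rw [← dvd_neg]
      convert this using 1
      ring
    rcases hpi.dvd_mul.mp h27 with h' | h'
    · have h'' : p ∣ 3 ^ 3 := by simpa using Int.natCast_dvd.mp h'
      have := Nat.le_of_dvd three_pos (hp.dvd_of_dvd_pow h'')
      omega
    · exact_mod_cast hpi.dvd_of_dvd_pow h'
  haveI : (shortRat (16 * (a : ℤ), 64 * (b : ℤ) + 16)).IsElliptic := isElliptic_of_ne hne'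
  have hW : W.IsIntegralModelOf (shortRat (16 * (a : ℤ), 64 * (b : ℤ) + 16)) := by
    let C : VariableChange ℚ := ⟨Units.mk0 (1 / 2) (by norm_num), 0, 0, -1 / 2⟩
    have hC : C • W.map (Int.castRingHom ℚ) = shortRat (16 * (a : ℤ), 64 * (b : ℤ) + 16) := by
      ext <;> simp [C, W, variableChange_a₁, variableChange_a₂, variableChange_a₃, variableChange_a₄,
        variableChange_a₆] <;> (first | ring1 | (left; ring1))
    exact ⟨C⁻¹, by rw [← hC, inv_smul_smul]⟩
  exact ⟨hne', fun p hp => FA.Root.exists_reduction_of_isSemistableAt _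
    (FA.OnePrime.isSemistableAt_of_equation hW (hs p hp.out))⟩

/-- A finite sum of inverse squares from five on. -/
theorem sum_inv_sq_le (K : ℕ) :
    ∑ k ∈ Finset.Ico 5 (K + 5), (1 : ℝ) / (k : ℝ) ^ 2 ≤ 1 / 4 - 1 / ((K : ℝ) + 4) := by
  induction K with
  | zero => norm_num
  | succ K ih =>
    rw [show K + 1 + 5 = (K + 5) + 1 by omega, Finset.sum_Ico_succ_top (by omega)]
    have h4 : (0 : ℝ) < (K : ℝ) + 4 := by positivity
    have h5 : (1 : ℝ) / ((K + 5 : ℕ) : ℝ) ^ 2 ≤ 1 / ((K : ℝ) + 4) - 1 / ((K : ℝ) + 1 + 4) := by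
      push_cast
      rw [div_sub_div _ _ h4.ne' (by positivity), div_le_div_iff₀ (by positivity) (by positivity)]
      nlinarith
    push_cast at h5 ⊢
    linarith

/-- The pairs in a rectangle of the family. -/
theorem card_goodPair_ge {m n : ℕ} (hn : 2000 ≤ n) [DecidablePred GoodPair] :
    (m : ℝ) * n / 3 ≤ ((Finset.Icc 1 m ×ˢ Finset.Icc 1 n).filter GoodPair).card := by
  classical
  set R := Finset.Icc 1 m ×ˢ Finset.Icc 1 n
  set P := (Finset.Ico 5 (4 * n + 2)).filter Nat.Prime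
  let Bp : ℕ → Finset (ℕ × ℕ) := fun p =>
    ((Finset.Icc 1 m).filter (p ∣ ·)) ×ˢ ((Finset.Icc 1 n).filter fun b => p ∣ 4 * b + 1)
  let B3 : Finset (ℕ × ℕ) := ((Finset.Icc 1 m).filter (3 ∣ ·)) ×ˢ Finset.Icc 1 n
  have hcover : R ⊆ R.filter GoodPair ∪ (B3 ∪ P.biUnion Bp) := by
    rintro ⟨a, b⟩ hab
    by_cases hg : GoodPair (a, b)
    · exact Finset.mem_union_left _ (Finset.mem_filter.mpr ⟨hab, hg⟩)
    refine Finset.mem_union_right _ ?_
    obtain ⟨ha, hb⟩ := Finset.mem_product.mp hab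
    simp only [GoodPair, not_and_or, not_not, not_forall] at hg
    rcases hg with h3 | ⟨p, hp, h5, hpa, hpb⟩
    · exact Finset.mem_union_left _
        (Finset.mem_product.mpr ⟨Finset.mem_filter.mpr ⟨ha, h3⟩, hb⟩)
    · refine Finset.mem_union_right _ (Finset.mem_biUnion.mpr ⟨p, ?_, Finset.mem_product.mpr
        ⟨Finset.mem_filter.mpr ⟨ha, hpa⟩, Finset.mem_filter.mpr ⟨hb, hpb⟩⟩⟩)
      have := Nat.le_of_dvd (by omega) hpb
      rw [Finset.mem_Icc] at hb
      exact Finset.mem_filter.mpr ⟨Finset.mem_Ico.mpr ⟨h5, by omega⟩, hp⟩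
  have hcard := (Finset.card_le_card hcover).trans (Finset.card_union_le _ _)
  have hcard' := hcard.trans (Nat.add_le_add_left
    ((Finset.card_union_le _ _).trans (Nat.add_le_add_left Finset.card_biUnion_le _)) _)
  have hdiv : ∀ p : ℕ, 0 < p → (((Finset.Icc 1 m).filter (p ∣ ·)).card : ℝ) ≤ (m : ℝ) / p := by
    intro p hp
    rw [show Finset.Icc 1 m = Finset.Ioc 0 m by rfl, Nat.Ioc_filter_dvd_card_eq_div]
    exact Nat.cast_div_le
  have hclass : ∀ p : ℕ, p.Prime → 5 ≤ p →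
      (((Finset.Icc 1 n).filter fun b => p ∣ 4 * b + 1).card : ℝ) ≤ (n : ℝ) / p + 1 := by
    intro p hp h5
    have h : ((Finset.Icc 1 n).filter fun b => p ∣ 4 * b + 1).card ≤ n / p + 1 := by
      refine (Finset.card_le_card_of_injOn (t := Finset.range (n / p + 1)) (fun b => b / p)
        (fun b hb => ?_) fun b hb c hc hbc => ?_).trans_eq (Finset.card_range _)
      · simp only [Finset.coe_filter, Set.mem_ofPred_eq, Finset.mem_Icc] at hb
        simp only [Finset.coe_range, Set.mem_Iio]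
        exact Nat.lt_succ_of_le (Nat.div_le_div_right hb.1.2)
      · simp only [Finset.coe_filter, Set.mem_ofPred_eq, Finset.mem_Icc] at hb hc
        haveI := Fact.mk hp
        have h4 : (4 : ZMod p) ≠ 0 := fun e => by
          have h := (ZMod.natCast_eq_zero_iff 4 p).mp (by exact_mod_cast e)
          have := Nat.le_of_dvd (by norm_num) h
          omega
        have e1 := (ZMod.natCast_eq_zero_iff _ p).mpr hb.2
        have e2 := (ZMod.natCast_eq_zero_iff _ p).mpr hc.2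
        push_cast at e1 e2
        have hmod : b % p = c % p := (ZMod.natCast_eq_natCast_iff' b c p).mp
          (mul_left_cancel₀ h4 (by linear_combination e1 - e2))
        simp only at hbc
        rw [← Nat.div_add_mod b p, ← Nat.div_add_mod c p, hbc, hmod]
    calc (((Finset.Icc 1 n).filter fun b => p ∣ 4 * b + 1).card : ℝ) ≤ ((n / p + 1 : ℕ) : ℝ) :=
          Nat.cast_le.mpr h
      _ ≤ _ := by push_cast; linarith [Nat.cast_div_le (α := ℝ) (m := n) (n := p)]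
  have hR : R.card = m * n := by simp [R]
  rw [hR] at hcard'
  have h0 : (m : ℝ) * n ≤ ((R.filter GoodPair).card : ℝ) +
      ((B3.card : ℝ) + ∑ p ∈ P, ((Bp p).card : ℝ)) := by exact_mod_cast hcard'
  have h3 : (B3.card : ℝ) ≤ (m : ℝ) * n / 3 := by
    have := hdiv 3 (by norm_num)
    have e : (B3.card : ℝ) = ((Finset.Icc 1 m).filter (3 ∣ ·)).card * (n : ℝ) := by simp [B3]
    rw [e, mul_div_right_comm]
    push_cast at this
    gcongr
  have hp : ∀ p ∈ P, ((Bp p).card : ℝ) ≤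
      (m : ℝ) * n * (1 / (p : ℝ) ^ 2) + (m : ℝ) * (1 / (p : ℝ)) := fun p hp => by
    obtain ⟨hI, hpp⟩ := Finset.mem_filter.mp hp
    have h5 := (Finset.mem_Ico.mp hI).1
    have e : ((Bp p).card : ℝ) = ((Finset.Icc 1 m).filter (p ∣ ·)).card *
        (((Finset.Icc 1 n).filter fun b => p ∣ 4 * b + 1).card : ℝ) := by simp [Bp]
    rw [e]
    refine (mul_le_mul (hdiv p hpp.pos) (hclass p hpp h5) (Nat.cast_nonneg _)
      (by positivity)).trans_eq ?_
    ring
  have hsq : ∑ p ∈ P, (1 : ℝ) / (p : ℝ) ^ 2 ≤ 1 / 4 := by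
    refine (Finset.sum_le_sum_of_subset_of_nonneg (t := Finset.Ico 5 (4 * n + 5)) (fun p hp => ?_)
      fun i _ _ => by positivity).trans ((sum_inv_sq_le (4 * n)).trans ?_)
    · have := Finset.mem_Ico.mp (Finset.mem_filter.mp hp).1
      exact Finset.mem_Ico.mpr ⟨this.1, by omega⟩
    · have : (0 : ℝ) ≤ 1 / (((4 * n : ℕ) : ℝ) + 4) := by positivity
      linarith
  have hinv : ∑ p ∈ P, (1 : ℝ) / (p : ℝ) ≤ (n : ℝ) / 20 := by
    rw [← Finset.sum_filter_add_sum_filter_not P (· < 200)]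
    have h1 : ∑ p ∈ P.filter (· < 200), (1 : ℝ) / (p : ℝ) ≤ 40 := by
      refine (Finset.sum_le_card_nsmul _ _ (1 / 5) fun p hp => ?_).trans ?_
      · have := (Finset.mem_Ico.mp (Finset.mem_filter.mp (Finset.mem_filter.mp hp).1).1).1
        have : (5 : ℝ) ≤ p := by exact_mod_cast this
        exact one_div_le_one_div_of_le (by norm_num) this
      · have hc : (P.filter (· < 200)).card ≤ 200 := (Finset.card_le_card (t := Finset.range 200)
          fun p hp => Finset.mem_range.mpr (Finset.mem_filter.mp hp).2).trans_eq (Finset.card_range _)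
        have hc' : ((P.filter (· < 200)).card : ℝ) ≤ 200 := by exact_mod_cast hc
        rw [nsmul_eq_mul]
        linarith
    have h2 : ∑ p ∈ P.filter (fun p => ¬ p < 200), (1 : ℝ) / (p : ℝ) ≤ (4 * (n : ℝ) + 2) / 200 := by
      refine (Finset.sum_le_card_nsmul _ _ (1 / 200) fun p hp => ?_).trans ?_
      · have := (Finset.mem_filter.mp hp).2
        have : (200 : ℝ) ≤ p := by exact_mod_cast (not_lt.mp this)
        exact one_div_le_one_div_of_le (by norm_num) this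
      · have hc : (P.filter fun p => ¬ p < 200).card ≤ 4 * n + 2 :=
          ((Finset.card_filter_le _ _).trans (Finset.card_filter_le _ _)).trans
            (by rw [Nat.card_Ico]; omega)
        have hc' : ((P.filter fun p => ¬ p < 200).card : ℝ) ≤ 4 * (n : ℝ) + 2 := by
          exact_mod_cast hc
        rw [nsmul_eq_mul]
        linarith
    have hn' : (2000 : ℝ) ≤ n := by exact_mod_cast hn
    linarith
  have hs := Finset.sum_le_sum hp
  rw [Finset.sum_add_distrib, ← Finset.mul_sum, ← Finset.mul_sum] at hs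
  have hm : (0 : ℝ) ≤ m := Nat.cast_nonneg _
  have hmn : (0 : ℝ) ≤ (m : ℝ) * n := by positivity
  have t1 := mul_le_mul_of_nonneg_left hsq hmn
  have t2 := mul_le_mul_of_nonneg_left hinv hm
  linarith

end FA.AlmostAll

namespace FA.Summary

open FA.AlmostAll

/-- **Almost all semistable elliptic curves over `ℚ` are Serre curves.** -/
theorem almostAll_semistable_serreCurve [inst : DecidableEq (AlgebraicClosure ℚ)] :
    Tendsto (fun XY : ℕ × ℕ => (Set.ncard {AB : ℤ × ℤ | |AB.1| ≤ XY.1 ∧ |AB.2| ≤ XY.2 ∧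
        4 * AB.1 ^ 3 + 27 * AB.2 ^ 2 ≠ 0 ∧
        (∀ p : ℕ, ∀ [Fact p.Prime], ∃ C : VariableChange ℚ_[p],
          HasGoodReduction ℤ_[p] (C • (⟨0, 0, 0, (AB.1 : ℚ), (AB.2 : ℚ)⟩ :
              WeierstrassCurve ℚ).map (algebraMap ℚ ℚ_[p])) ∨
            HasMultiplicativeReduction ℤ_[p] (C • (⟨0, 0, 0, (AB.1 : ℚ), (AB.2 : ℚ)⟩ :
              WeierstrassCurve ℚ).map (algebraMap ℚ ℚ_[p]))) ∧
        ¬ ∃ ρ : GQ →* (AddCommGroup.torsion ((⟨0, 0, 0, (AB.1 : ℚ), (AB.2 : ℚ)⟩ :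
              WeierstrassCurve ℚ).toAffine⁄(AlgebraicClosure ℚ)).Point ≃ₗ[ℤ]
            AddCommGroup.torsion ((⟨0, 0, 0, (AB.1 : ℚ), (AB.2 : ℚ)⟩ :
              WeierstrassCurve ℚ).toAffine⁄(AlgebraicClosure ℚ)).Point),
          (∀ σ x, (ρ σ x).1 = Affine.Point.map σ.toAlgHom x.1) ∧ ρ.range.index = 2} : ℝ) /
      ((2 * XY.1 + 1) * (2 * XY.2 + 1))) atTop (𝓝 0) := by
  classical
  obtain rfl : inst = instDecEqAlgebraicClosureRat := Subsingleton.elim _ _
  set S : Finset ℕ := {2, 3, 5, 7, 13}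
  have hI := tendsto_exists (bad := fun (i : S) AB => ¬ IrrFrob (i : ℕ) AB)
    fun i => tendsto_not_irrFrob (by
      obtain ⟨l, hl⟩ := i
      simp only [S, Finset.mem_insert, Finset.mem_singleton] at hl
      rcases hl with rfl | rfl | rfl | rfl | rfl <;> norm_num)
  have hsum := hI.add (tendsto_not_hasTrans {2, 3})
  rw [add_zero] at hsum
  refine squeeze_zero (fun XY => by positivity) (fun XY => ?_) hsum
  rw [← add_div, ← Nat.cast_add]
  refine div_le_div_of_nonneg_right (Nat.cast_le.mpr ?_) (by positivity)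
  refine le_trans ?_ (Finset.card_union_le _ _)
  rw [← Set.ncard_coe_finset]
  refine Set.ncard_le_ncard (fun AB h => ?_) (Finset.finite_toSet _)
  obtain ⟨hX, hY, hne, hss, hno⟩ := h
  have hb : AB ∈ box XY.1 XY.2 := by
    rw [box, Finset.mem_product, Finset.mem_Icc, Finset.mem_Icc]
    exact ⟨abs_le.mp hX, abs_le.mp hY⟩
  rw [Finset.mem_coe, Finset.mem_union, Finset.mem_filter, Finset.mem_filter]
  by_contra hc
  simp only [hb, true_and, not_or, not_exists, not_not] at hc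
  haveI : (shortRat AB).IsElliptic := isElliptic_of_ne hne
  have hW := shortInt_isIntegralModelOf AB
  haveI := ratCurve_isElliptic_of_Δ (Δ_ne_zero_of_model hW)
  obtain ⟨q, hq, h5, hj⟩ := pole_of_hasTrans hc.2
  refine hno ⟨FA.OpenImage.torsionAction _, fun _ _ => rfl, serreCurve_criterion (shortRat AB) hss
    (fun p hp G hG hst => ?_) hq h5 (by rw [hj]; norm_num) (by rw [hj]; norm_num) hq (by omega)
    (by rw [hj]; norm_num) (by rw [hj]; norm_num) _ fun _ _ => rfl⟩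
  by_cases hpS : p ∈ S
  · haveI := Fact.mk hp
    exact FA.Root.not_modRepIsIrreducible_of_model_subgroup hW hp G hG hst
      (irreducible_of_irrFrob (hc.1 ⟨p, hpS⟩))
  · simp only [S, Finset.mem_insert, Finset.mem_singleton, not_or] at hpS
    have h11 : 11 ≤ p := by
      by_contra hlt
      have := hp.two_le
      interval_cases p <;> first | (norm_num at hp; done) | (norm_num at hpS; done)
    exact noStableSubgroup (shortRat AB) hss hp h11 (by omega) G hG hst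

/-- **A positive proportion of all elliptic curves over `ℚ` are semistable.** -/
theorem positiveProportion_semistable :
    ∃ c : ℝ, 0 < c ∧ ∀ᶠ XY : ℕ × ℕ in atTop,
      c ≤ (Set.ncard {AB : ℤ × ℤ | |AB.1| ≤ XY.1 ∧ |AB.2| ≤ XY.2 ∧
        4 * AB.1 ^ 3 + 27 * AB.2 ^ 2 ≠ 0 ∧
        ∀ p : ℕ, ∀ [Fact p.Prime], ∃ C : VariableChange ℚ_[p],
          HasGoodReduction ℤ_[p] (C • (⟨0, 0, 0, (AB.1 : ℚ), (AB.2 : ℚ)⟩ :
              WeierstrassCurve ℚ).map (algebraMap ℚ ℚ_[p])) ∨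
            HasMultiplicativeReduction ℤ_[p] (C • (⟨0, 0, 0, (AB.1 : ℚ), (AB.2 : ℚ)⟩ :
              WeierstrassCurve ℚ).map (algebraMap ℚ ℚ_[p]))} : ℝ) /
        ((2 * XY.1 + 1) * (2 * XY.2 + 1)) := by
  classical
  refine ⟨1 / (3 * 96 * 384), by norm_num, eventually_atTop.mpr ⟨(32, 256000), fun XY hXY => ?_⟩⟩
  have hX : 32 ≤ XY.1 := hXY.1
  have hY : 256000 ≤ XY.2 := hXY.2
  set m := XY.1 / 16 with hm
  set n := (XY.2 - 16) / 64 with hn
  have hn2 : 2000 ≤ n := by omega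
  have hcard := card_goodPair_ge (m := m) hn2
  set A : Set (ℤ × ℤ) := {AB : ℤ × ℤ | |AB.1| ≤ XY.1 ∧ |AB.2| ≤ XY.2 ∧
    4 * AB.1 ^ 3 + 27 * AB.2 ^ 2 ≠ 0 ∧
    ∀ p : ℕ, ∀ [Fact p.Prime], ∃ C : VariableChange ℚ_[p],
      HasGoodReduction ℤ_[p] (C • (shortRat AB).map (algebraMap ℚ ℚ_[p])) ∨
        HasMultiplicativeReduction ℤ_[p] (C • (shortRat AB).map (algebraMap ℚ ℚ_[p]))}
  have hfin : A.Finite := ((box XY.1 XY.2).finite_toSet).subset fun AB h => by
    rw [Finset.mem_coe, box, Finset.mem_product, Finset.mem_Icc, Finset.mem_Icc]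
    exact ⟨abs_le.mp h.1, abs_le.mp h.2.1⟩
  set G := (Finset.Icc 1 m ×ˢ Finset.Icc 1 n).filter GoodPair
  let f : ℕ × ℕ → ℤ × ℤ := fun ab => (16 * (ab.1 : ℤ), 64 * (ab.2 : ℤ) + 16)
  have hf : Function.Injective f := fun x y h => by
    simp only [f, Prod.mk.injEq] at h
    exact Prod.ext (by omega) (by omega)
  have hle : G.card ≤ A.ncard := by
    rw [← Finset.card_image_of_injective G hf, ← Set.ncard_coe_finset]
    refine Set.ncard_le_ncard (fun AB hAB => ?_) hfin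
    obtain ⟨⟨a, b⟩, hab, rfl⟩ := Finset.mem_image.mp (Finset.mem_coe.mp hAB)
    obtain ⟨hbox, hgood⟩ := Finset.mem_filter.mp hab
    rw [Finset.mem_product, Finset.mem_Icc, Finset.mem_Icc] at hbox
    obtain ⟨hne, hss⟩ := semistable_of_goodPair hgood
    refine ⟨?_, ?_, hne, hss⟩
    · rw [abs_le]; simp only [f]; omega
    · rw [abs_le]; simp only [f]; omega
  rw [le_div_iff₀ (by positivity)]
  have hm' : ((2 * XY.1 + 1 : ℕ) : ℝ) ≤ 96 * (m : ℝ) := by
    exact_mod_cast (show 2 * XY.1 + 1 ≤ 96 * m by omega)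
  have hn' : ((2 * XY.2 + 1 : ℕ) : ℝ) ≤ 384 * (n : ℝ) := by
    exact_mod_cast (show 2 * XY.2 + 1 ≤ 384 * n by omega)
  push_cast at hm' hn'
  have hprod := mul_le_mul hm' hn' (by positivity) (by positivity)
  have hA : (G.card : ℝ) ≤ (A.ncard : ℝ) := Nat.cast_le.mpr hle
  linarith

/-- **A positive proportion of all elliptic curves over `ℚ` are Serre curves**: the image of Galois
in the automorphisms of the torsion has the least possible index, two. -/
theorem positiveProportion_serreCurves [inst : DecidableEq (AlgebraicClosure ℚ)] :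
    ∃ c : ℝ, 0 < c ∧ ∀ᶠ XY : ℕ × ℕ in atTop,
      c ≤ (Set.ncard {AB : ℤ × ℤ | |AB.1| ≤ XY.1 ∧ |AB.2| ≤ XY.2 ∧
        4 * AB.1 ^ 3 + 27 * AB.2 ^ 2 ≠ 0 ∧
        ∃ ρ : GQ →* (AddCommGroup.torsion ((⟨0, 0, 0, (AB.1 : ℚ), (AB.2 : ℚ)⟩ :
              WeierstrassCurve ℚ).toAffine⁄(AlgebraicClosure ℚ)).Point ≃ₗ[ℤ]
            AddCommGroup.torsion ((⟨0, 0, 0, (AB.1 : ℚ), (AB.2 : ℚ)⟩ :
              WeierstrassCurve ℚ).toAffine⁄(AlgebraicClosure ℚ)).Point),
          (∀ σ x, (ρ σ x).1 = Affine.Point.map σ.toAlgHom x.1) ∧ ρ.range.index = 2} : ℝ) /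
        ((2 * XY.1 + 1) * (2 * XY.2 + 1)) := by
  classical
  obtain ⟨c, hc, hs⟩ := positiveProportion_semistable
  have hbad := (almostAll_semistable_serreCurve (inst := inst)).eventually
    (gt_mem_nhds (show (0 : ℝ) < c / 2 by positivity))
  refine ⟨c / 2, by positivity, (hs.and hbad).mono fun XY ⟨h1, h2⟩ => ?_⟩
  set D : ℝ := (2 * (XY.1 : ℝ) + 1) * (2 * XY.2 + 1) with hD
  have hD0 : 0 < D := by positivity
  rw [le_div_iff₀ hD0] at h1 ⊢
  rw [div_lt_iff₀ hD0] at h2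
  have hfin : ∀ P : ℤ × ℤ → Prop, {AB : ℤ × ℤ | |AB.1| ≤ XY.1 ∧ |AB.2| ≤ XY.2 ∧
      4 * AB.1 ^ 3 + 27 * AB.2 ^ 2 ≠ 0 ∧ P AB}.Finite := fun P =>
    ((box XY.1 XY.2).finite_toSet).subset fun AB h => by
      rw [Finset.mem_coe, box, Finset.mem_product, Finset.mem_Icc, Finset.mem_Icc]
      exact ⟨abs_le.mp h.1, abs_le.mp h.2.1⟩
  set P : ℤ × ℤ → Prop := fun AB => ∀ p : ℕ, ∀ [Fact p.Prime], ∃ C : VariableChange ℚ_[p],
    HasGoodReduction ℤ_[p] (C • (shortRat AB).map (algebraMap ℚ ℚ_[p])) ∨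
      HasMultiplicativeReduction ℤ_[p] (C • (shortRat AB).map (algebraMap ℚ ℚ_[p]))
  set R : ℤ × ℤ → Prop := fun AB => ∃ ρ : GQ →* (AddCommGroup.torsion
      ((shortRat AB).toAffine⁄(AlgebraicClosure ℚ)).Point ≃ₗ[ℤ]
      AddCommGroup.torsion ((shortRat AB).toAffine⁄(AlgebraicClosure ℚ)).Point),
    (∀ σ x, (ρ σ x).1 = Affine.Point.map σ.toAlgHom x.1) ∧ ρ.range.index = 2
  change c * D ≤ (Set.ncard {AB : ℤ × ℤ | |AB.1| ≤ XY.1 ∧ |AB.2| ≤ XY.2 ∧
    4 * AB.1 ^ 3 + 27 * AB.2 ^ 2 ≠ 0 ∧ P AB} : ℝ) at h1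
  change (Set.ncard {AB : ℤ × ℤ | |AB.1| ≤ XY.1 ∧ |AB.2| ≤ XY.2 ∧
    4 * AB.1 ^ 3 + 27 * AB.2 ^ 2 ≠ 0 ∧ P AB ∧ ¬ R AB} : ℝ) < c / 2 * D at h2
  change c / 2 * D ≤ (Set.ncard {AB : ℤ × ℤ | |AB.1| ≤ XY.1 ∧ |AB.2| ≤ XY.2 ∧
    4 * AB.1 ^ 3 + 27 * AB.2 ^ 2 ≠ 0 ∧ R AB} : ℝ)
  have hle := (Set.ncard_le_ncard (s := {AB : ℤ × ℤ | |AB.1| ≤ XY.1 ∧ |AB.2| ≤ XY.2 ∧
      4 * AB.1 ^ 3 + 27 * AB.2 ^ 2 ≠ 0 ∧ P AB}) (fun AB h => by
      by_cases hR : R AB
      · exact Or.inl ⟨h.1, h.2.1, h.2.2.1, hR⟩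
      · exact Or.inr ⟨h.1, h.2.1, h.2.2.1, h.2.2.2, hR⟩)
    ((hfin R).union (hfin fun AB => P AB ∧ ¬ R AB))).trans (Set.ncard_union_le _ _)
  rw [← Nat.cast_le (α := ℝ), Nat.cast_add] at hle
  linarith

end FA.Summary

end
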