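import Fermat.Agent.Root.SummaryAlmostAllIrreducible
import Fermat.Agent.Root.SummarySerreCurvesDensity

/-!
# Almost all elliptic curves are Serre curves

Jones's theorem: the image of Galois in the automorphisms of the torsion of almost every
`y² = x³ + A x + B` has the least possible index, two. Almost every curve is irreducible modulo all
primes at once and has two primes `q ≥ 5` with `q ∥ Δ`, `q ∤ c₄`: one in a finite set fixed
beforehand and one outside it. So for every prime `l` some inertia away from `l` is a transvection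
modulo `l`: the image is everything at all prime powers, and no semistability is needed to glue.
In particular almost no curve has an exceptional prime (Duke).
-/

set_option autoImplicit false
set_option linter.style.haveILetI false

noncomputable section

open Filter Topology WeierstrassCurve WeierstrassCurve.Affine FA.EC FA.Frob FA.RT
open scoped WeierstrassCurve.Affine

local notation "Qb" => AlgebraicClosure ℚ
local notation "GQ" => AlgebraicClosure ℚ ≃ₐ[ℚ] AlgebraicClosure ℚ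

namespace FA.AlmostAll

/-- Irreducible modulo every prime, with a transvection prime `q ≥ 5` other than any given one. -/
def Generic (AB : ℤ × ℤ) : Prop :=
  (∀ p : ℕ, ∀ [Fact p.Prime], (shortInt AB).ModRepIsIrreducible p) ∧
    ∀ l : ℕ, ∃ q : ℕ, q.Prime ∧ 5 ≤ q ∧ q ≠ l ∧ (q : ℤ) ∣ (shortInt AB).Δ ∧
      ¬ (q : ℤ) ∣ (shortInt AB).c₄ ∧ padicValInt q (shortInt AB).Δ = 1

/-- A generic pair is in the setting of Serre curves. -/
theorem exists_setting {AB : ℤ × ℤ} [(ratCurve (shortInt AB)).IsElliptic] (h : Generic AB)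
    (hΔ : (shortInt AB).Δ ≠ 0) : ∃ q, FA.SerreCurve.Setting (shortInt AB) q := by
  obtain ⟨q, hq, h5, -, hd, hc, hv⟩ := h.2 2
  obtain ⟨A, hA⟩ := FA.Deform.exists_liesOverPrime hq
  refine ⟨q, fun l hl B n M hM => ?_, h5, by omega, A, hΔ, hq, hd, hc, hA⟩
  obtain ⟨r, hr, -, hrl, hd', hc', hv'⟩ := h.2 l
  obtain ⟨A', hA'⟩ := FA.Deform.exists_liesOverPrime hr
  exact FA.PadicImage.reach_of_multAt (h.1 l) ⟨hΔ, hr, hd', hc', hA'⟩ hrl
    (by rw [hv']; exact hl.out.not_dvd_one) B n hM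

/-- **Almost every pair is generic with transvection primes outside a given finite set**: what
holds for no such pair is negligible. -/
theorem tendsto_of_generic_avoid (F : Finset ℕ) (bad : ℤ × ℤ → Prop)
    (h : ∀ AB : ℤ × ℤ, ∀ [(shortRat AB).IsElliptic] [(ratCurve (shortInt AB)).IsElliptic],
      Generic AB → (∀ l : ℕ, ∃ q : ℕ, q.Prime ∧ q ≠ l ∧ q ∉ F ∧ (q : ℤ) ∣ (shortInt AB).Δ ∧
        ¬ (q : ℤ) ∣ (shortInt AB).c₄ ∧ padicValInt q (shortInt AB).Δ = 1) → ¬ bad AB) :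
    Tendsto (fun XY : ℕ × ℕ => (Set.ncard {AB : ℤ × ℤ | |AB.1| ≤ XY.1 ∧ |AB.2| ≤ XY.2 ∧
        4 * AB.1 ^ 3 + 27 * AB.2 ^ 2 ≠ 0 ∧ bad AB} : ℝ) /
      ((2 * XY.1 + 1) * (2 * XY.2 + 1))) atTop (𝓝 0) := by
  classical
  rw [Metric.tendsto_atTop]
  intro ε hε
  have hI := FA.Summary.almostAll_noIsogeny_allPrimes
  rw [Metric.tendsto_atTop] at hI
  obtain ⟨N, hN⟩ := hI (ε / 3) (by positivity)
  -- the finite set of the first transvection prime
  obtain ⟨S, hS, havoid⟩ := exists_avoid_finset (Q := {q | (q.Prime ∧ 5 ≤ q) ∧ q ∉ F})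
    (m := fun q => q ^ 2)
    (fun i hi j hj hij => Nat.Coprime.pow 2 2 ((Nat.coprime_primes hi.1.1 hj.1.1).mpr hij))
    (fun q hq => pow_pos hq.1.1.pos 2) (w := fun n => 1 / (2 * (n : ℝ))) (fun n => by positivity)
    (fun hs => not_summable_five_le ((hs.mul_left 2).congr_atTop
      (eventually_atTop.mpr ⟨F.sup id + 1, fun n hn => by
        have hnF : n ∉ F := fun hmem => by
          have := Finset.le_sup (f := id) hmem
          simp only [id_eq] at this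
          omega
        simp only [Set.indicator_apply, Set.mem_ofPred_eq, hnF, not_false_eq_true, and_true]
        split_ifs
        · ring
        · rw [mul_zero]⟩)))
    transClasses (fun q hq => card_transClasses hq.1.1 hq.1.2) (show 0 < ε / 3 by positivity)
  have hT := tendsto_not_hasTrans (S ∪ F ∪ {2, 3})
  rw [Metric.tendsto_atTop] at hT
  obtain ⟨M, hM⟩ := hT (ε / 3) (by positivity)
  set P := ∏ l ∈ S, l ^ 2
  refine ⟨N ⊔ M ⊔ (P, P), fun XY hXY => ?_⟩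
  have h1 := hN XY (le_sup_left.trans (le_sup_left.trans hXY))
  have h2 := hM XY (le_sup_right.trans (le_sup_left.trans hXY))
  let inS : ℤ × ℤ → Prop := fun AB => ∀ q ∈ S,
    ((AB.1 : ZMod (q ^ 2)), (AB.2 : ZMod (q ^ 2))) ∉ transClasses q
  have h3 := havoid inS (fun AB hAB => hAB) XY.1 XY.2 (le_sup_right.trans hXY).1
    (le_sup_right.trans hXY).2
  rw [Real.dist_eq, sub_zero, abs_of_nonneg (by positivity)] at h1 h2 ⊢
  set I := {AB : ℤ × ℤ | |AB.1| ≤ XY.1 ∧ |AB.2| ≤ XY.2 ∧ 4 * AB.1 ^ 3 + 27 * AB.2 ^ 2 ≠ 0 ∧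
    ∃ p : ℕ, p.Prime ∧ ∃ G : AddSubgroup ((shortRat AB).toAffine⁄Qb).Point, Nat.card G = p ∧
      ∀ σ : GQ, ∀ P ∈ G, Affine.Point.map σ.toAlgHom P ∈ G} with hIdef
  set U := (box XY.1 XY.2).filter inS
  set V := (box XY.1 XY.2).filter fun AB => ¬ HasTrans (S ∪ F ∪ {2, 3}) AB
  have hmem : ∀ AB : ℤ × ℤ, |AB.1| ≤ XY.1 → |AB.2| ≤ XY.2 → AB ∈ box XY.1 XY.2 :=
    fun AB hX hY => by
      rw [box, Finset.mem_product, Finset.mem_Icc, Finset.mem_Icc]
      exact ⟨abs_le.mp hX, abs_le.mp hY⟩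
  have hfin : I.Finite :=
    (box XY.1 XY.2).finite_toSet.subset fun AB hAB => hmem AB hAB.1 hAB.2.1
  have hsub : Set.ncard {AB : ℤ × ℤ | |AB.1| ≤ XY.1 ∧ |AB.2| ≤ XY.2 ∧
      4 * AB.1 ^ 3 + 27 * AB.2 ^ 2 ≠ 0 ∧ bad AB} ≤ I.ncard + U.card + V.card := by
    rw [← Set.ncard_coe_finset U, ← Set.ncard_coe_finset V]
    refine le_trans ?_ ((Set.ncard_union_le _ _).trans
      (Nat.add_le_add_right (Set.ncard_union_le _ _) _))
    refine Set.ncard_le_ncard (fun AB hAB => ?_) ((hfin.union U.finite_toSet).union V.finite_toSet)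
    obtain ⟨hX, hY, hne, hbad⟩ := hAB
    by_contra hc
    simp only [Set.mem_union, not_or, Finset.mem_coe, U, V, Finset.mem_filter, hmem AB hX hY,
      true_and, not_not] at hc
    obtain ⟨⟨hnI, hnU⟩, r, hr, hrS, hdr, hcr, hvr⟩ := hc
    simp only [inS, not_forall, not_not] at hnU
    obtain ⟨q, hqS, hqc⟩ := hnU
    obtain ⟨⟨hq, h5⟩, hqF⟩ := hS q hqS
    haveI : (shortRat AB).IsElliptic := isElliptic_of_ne hne
    have hW := shortInt_isIntegralModelOf AB
    haveI := ratCurve_isElliptic_of_Δ (Δ_ne_zero_of_model hW)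
    simp only [Finset.mem_union, Finset.mem_insert, Finset.mem_singleton, not_or] at hrS
    have hsel : ∀ l : ℕ, ∃ s : ℕ, (s.Prime ∧ 5 ≤ s ∧ s ≠ l ∧ s ∉ F) ∧ (s : ℤ) ∣ (shortInt AB).Δ ∧
        ¬ (s : ℤ) ∣ (shortInt AB).c₄ ∧ padicValInt s (shortInt AB).Δ = 1 := fun l => by
      by_cases hql : q = l
      · exact ⟨r, ⟨hr, hr.five_le_of_ne_two_of_ne_three hrS.2.1 hrS.2.2,
          fun e => hrS.1.1 ((e.trans hql.symm) ▸ hqS), hrS.1.2⟩, hdr, hcr, hvr⟩
      · exact ⟨q, ⟨hq, h5, hql, hqF⟩, trans_of_mem hq h5 hqc⟩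
    refine h AB ⟨fun p _ => FA.Root.Irred.modRepIsIrreducible_of_noStableSubgroup hW fun G hG hst =>
      hnI ⟨hX, hY, hne, p, Fact.out, G, hG, hst⟩, fun l => ?_⟩ (fun l => ?_) hbad
    · obtain ⟨s, ⟨h1, h2, h3, -⟩, h4⟩ := hsel l
      exact ⟨s, h1, h2, h3, h4⟩
    · obtain ⟨s, ⟨h1, -, h3, h4⟩, h5'⟩ := hsel l
      exact ⟨s, h1, h3, h4, h5'⟩
  refine lt_of_le_of_lt (div_le_div_of_nonneg_right (Nat.cast_le.mpr hsub) (by positivity)) ?_
  push_cast
  rw [add_div, add_div]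
  linarith

/-- **Almost every pair is generic**: what holds for no generic pair is negligible. -/
theorem tendsto_of_generic (bad : ℤ × ℤ → Prop)
    (h : ∀ AB : ℤ × ℤ, ∀ [(shortRat AB).IsElliptic] [(ratCurve (shortInt AB)).IsElliptic],
      Generic AB → ¬ bad AB) :
    Tendsto (fun XY : ℕ × ℕ => (Set.ncard {AB : ℤ × ℤ | |AB.1| ≤ XY.1 ∧ |AB.2| ≤ XY.2 ∧
        4 * AB.1 ^ 3 + 27 * AB.2 ^ 2 ≠ 0 ∧ bad AB} : ℝ) /
      ((2 * XY.1 + 1) * (2 * XY.2 + 1))) atTop (𝓝 0) :=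
  tendsto_of_generic_avoid ∅ bad fun AB _ _ hg _ => h AB hg

end FA.AlmostAll

namespace FA.Summary

open FA.AlmostAll

/-- **Almost all elliptic curves over `ℚ` are Serre curves** (Jones): outside a negligible set the
image of Galois in the automorphisms of the torsion has index exactly two. -/
theorem almostAll_serreCurve [inst : DecidableEq (AlgebraicClosure ℚ)] :
    Tendsto (fun XY : ℕ × ℕ => (Set.ncard {AB : ℤ × ℤ | |AB.1| ≤ XY.1 ∧ |AB.2| ≤ XY.2 ∧
        4 * AB.1 ^ 3 + 27 * AB.2 ^ 2 ≠ 0 ∧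
        ¬ ∃ ρ : GQ →* (AddCommGroup.torsion ((⟨0, 0, 0, (AB.1 : ℚ), (AB.2 : ℚ)⟩ :
              WeierstrassCurve ℚ).toAffine⁄(AlgebraicClosure ℚ)).Point ≃ₗ[ℤ]
            AddCommGroup.torsion ((⟨0, 0, 0, (AB.1 : ℚ), (AB.2 : ℚ)⟩ :
              WeierstrassCurve ℚ).toAffine⁄(AlgebraicClosure ℚ)).Point),
          (∀ σ x, (ρ σ x).1 = Affine.Point.map σ.toAlgHom x.1) ∧ ρ.range.index = 2} : ℝ) /
      ((2 * XY.1 + 1) * (2 * XY.2 + 1))) atTop (𝓝 0) := by
  obtain rfl : inst = instDecEqAlgebraicClosureRat := Subsingleton.elim _ _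
  refine tendsto_of_generic _ fun AB _ _ h hno => hno ?_
  have hW := shortInt_isIntegralModelOf AB
  obtain ⟨q, hS⟩ := exists_setting h (Δ_ne_zero_of_model hW)
  obtain ⟨e, he⟩ := FA.Root.exists_equiv_of_model hW
  refine ⟨FA.OpenImage.torsionAction (shortRat AB), fun _ _ => rfl, ?_⟩
  rw [FA.SerreCurve.index_range_of_equiv e he _ fun _ _ => rfl]
  exact FA.SerreCurve.index_range hS

/-- **Duke's theorem: almost all elliptic curves over `ℚ` have no exceptional prime**: for every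
prime `p` at once Galois induces every automorphism of the `p`-torsion. -/
theorem almostAll_surjective_allPrimes [inst : DecidableEq (AlgebraicClosure ℚ)] :
    Tendsto (fun XY : ℕ × ℕ => (Set.ncard {AB : ℤ × ℤ | |AB.1| ≤ XY.1 ∧ |AB.2| ≤ XY.2 ∧
        4 * AB.1 ^ 3 + 27 * AB.2 ^ 2 ≠ 0 ∧
        ∃ p : ℕ, p.Prime ∧
        ¬ ∀ φ : Submodule.torsionBy ℤ ((⟨0, 0, 0, (AB.1 : ℚ), (AB.2 : ℚ)⟩ :
              WeierstrassCurve ℚ).toAffine⁄(AlgebraicClosure ℚ)).Point (p : ℤ) ≃+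
            Submodule.torsionBy ℤ ((⟨0, 0, 0, (AB.1 : ℚ), (AB.2 : ℚ)⟩ :
              WeierstrassCurve ℚ).toAffine⁄(AlgebraicClosure ℚ)).Point (p : ℤ),
          ∃ σ : GQ, ∀ P, Affine.Point.map σ.toAlgHom P.1 = (φ P).1} : ℝ) /
      ((2 * XY.1 + 1) * (2 * XY.2 + 1))) atTop (𝓝 0) := by
  obtain rfl : inst = instDecEqAlgebraicClosureRat := Subsingleton.elim _ _
  refine tendsto_of_generic _ fun AB _ _ h ⟨p, hp, hns⟩ => hns fun φ => ?_
  have hW := shortInt_isIntegralModelOf AB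
  refine FA.Root.exists_map_eq_of_model hW p (fun ψ => ?_) φ
  refine FA.PadicImage.exists_smul_eq_adelic_of_transvection (Δ_ne_zero_of_model hW) hp.ne_zero
    (fun l _ _ => h.1 l) (fun l hl => ?_) ψ
  obtain ⟨q, hq, -, hql, hd, hc, hv⟩ := h.2 p
  exact ⟨q, hq, fun hqp => hql ((Nat.prime_dvd_prime_iff_eq hq hp).mp hqp), hd, hc,
    by rw [hv]; exact (Nat.prime_of_mem_primeFactors hl).not_dvd_one⟩

/-- **Almost all elliptic curves over `ℚ` have the largest image at every odd level**: for every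
odd `N` at once Galois induces every automorphism of the `N`-torsion. -/
theorem almostAll_everyOddLevel [inst : DecidableEq (AlgebraicClosure ℚ)] :
    Tendsto (fun XY : ℕ × ℕ => (Set.ncard {AB : ℤ × ℤ | |AB.1| ≤ XY.1 ∧ |AB.2| ≤ XY.2 ∧
        4 * AB.1 ^ 3 + 27 * AB.2 ^ 2 ≠ 0 ∧
        ∃ N : ℕ, Odd N ∧
        ¬ ∀ φ : Submodule.torsionBy ℤ ((⟨0, 0, 0, (AB.1 : ℚ), (AB.2 : ℚ)⟩ :
              WeierstrassCurve ℚ).toAffine⁄(AlgebraicClosure ℚ)).Point (N : ℤ) ≃+
            Submodule.torsionBy ℤ ((⟨0, 0, 0, (AB.1 : ℚ), (AB.2 : ℚ)⟩ :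
              WeierstrassCurve ℚ).toAffine⁄(AlgebraicClosure ℚ)).Point (N : ℤ),
          ∃ σ : GQ, ∀ P, Affine.Point.map σ.toAlgHom P.1 = (φ P).1} : ℝ) /
      ((2 * XY.1 + 1) * (2 * XY.2 + 1))) atTop (𝓝 0) := by
  obtain rfl : inst = instDecEqAlgebraicClosureRat := Subsingleton.elim _ _
  refine tendsto_of_generic _ fun AB _ _ h ⟨N, hN, hns⟩ => hns fun φ => ?_
  have hW := shortInt_isIntegralModelOf AB
  obtain ⟨q, hS⟩ := exists_setting h (Δ_ne_zero_of_model hW)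
  exact FA.Root.exists_map_eq_of_model hW N (fun ψ => FA.SerreCurve.exists_smul_eq_of_odd hS
    hN.pos.ne' (fun h2 => Nat.not_even_iff_odd.mpr hN (even_iff_two_dvd.mpr h2)) ψ) φ

end FA.Summary

end
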