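import Fermat.Agent.Root.SummaryAlmostAllSurjective
import Fermat.Agent.Torsion.ReductionDvd
import Fermat.Agent.Ribet.MazurTwo

/-!
# Almost all elliptic curves over `ℚ` have no rational torsion

Without Mazur's theorem: almost every `y² = x³ + A x + B` has a good prime in a fixed finite set,
which bounds the order of its rational torsion, and for each prime `l` almost none has a rational
point of order `l`: by a Frobenius without eigenvalue for odd `l`, and for `l = 2` as the cubic has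
no root modulo some prime `q ≡ 1 mod 3`.
-/

set_option autoImplicit false
set_option linter.style.haveILetI false

noncomputable section

open Filter Topology IsDedekindDomain NumberField Matrix WeierstrassCurve WeierstrassCurve.Affine
  FA.EC FA.Frob FA.RT
open scoped WeierstrassCurve.Affine

local notation "Qb" => AlgebraicClosure ℚ

namespace FA.AlmostAll

/-- A nonzero rational root of `x³ + A x + B` reduces to a root modulo every prime. -/
theorem exists_root_mod {A B : ℤ} {x : ℚ} (hx : x ^ 3 + A * x + B = 0) (q : ℕ) [hq : Fact q.Prime] :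
    ∃ r : ZMod q, r ^ 3 + A * r + B = 0 := by
  have hZ : x.num ^ 3 + A * x.num * (x.den : ℤ) ^ 2 + B * (x.den : ℤ) ^ 3 = 0 := by
    have h := hx
    rw [← Rat.num_div_den x] at h
    have hd : (x.den : ℚ) ≠ 0 := Nat.cast_ne_zero.mpr x.den_ne_zero
    field_simp at h
    have h' : ((x.num ^ 3 + A * x.num * (x.den : ℤ) ^ 2 + B * (x.den : ℤ) ^ 3 : ℤ) : ℚ) = 0 := by
      push_cast
      linear_combination h
    exact_mod_cast h'
  have hden : (x.den : ZMod q) ≠ 0 := fun h0 => by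
    have hqd := (ZMod.natCast_eq_zero_iff x.den q).mp h0
    have h3 : (q : ℤ) ∣ x.num ^ 3 := ⟨-(A * x.num * (x.den : ℤ) + B * (x.den : ℤ) ^ 2) * (x.den / q : ℕ), by
      have e : (x.den : ℤ) = q * (x.den / q : ℕ) := by exact_mod_cast (Nat.mul_div_cancel' hqd).symm
      linear_combination hZ - (A * x.num * (x.den : ℤ) + B * (x.den : ℤ) ^ 2) * e⟩
    have hn := Int.natCast_dvd.mp ((Nat.prime_iff_prime_int.mp hq.out).dvd_of_dvd_pow h3)
    exact hq.out.ne_one (Nat.eq_one_of_dvd_one (x.reduced.gcd_eq_one ▸ Nat.dvd_gcd hn hqd))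
  refine ⟨(x.num : ZMod q) / (x.den : ZMod q), ?_⟩
  have h := congrArg (Int.cast (R := ZMod q)) hZ
  push_cast at h
  field_simp
  linear_combination h

/-- The classes `(0, B)` with `B` no cube modulo `q`. -/
def noncubeClasses (q : ℕ) : Finset (ZMod q × ZMod q) :=
  if h : q = 0 then ∅ else
    have : NeZero q := ⟨h⟩
    ({0} : Finset (ZMod q)) ×ˢ (Finset.univ.image fun r : ZMod q => r ^ 3)ᶜ

/-- At least half of the residues modulo `q ≡ 1 mod 3` are no cubes. -/
theorem card_noncubeClasses {q : ℕ} (hq : q.Prime) (h7 : 7 ≤ q) (h3 : q % 3 = 1) :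
    (1 / 2 : ℝ) * q ≤ (noncubeClasses q).card := by
  classical
  haveI := Fact.mk hq
  rw [noncubeClasses, dif_neg hq.ne_zero, Finset.card_product, Finset.card_singleton, one_mul,
    Finset.card_compl, ZMod.card]
  set m := (q - 1) / 3
  have hle : (Finset.univ.image fun r : ZMod q => r ^ 3).card ≤ m + 1 := by
    refine (Finset.card_le_card (t := insert 0 (Polynomial.nthRootsFinset m (1 : ZMod q)))
      fun b hb => ?_).trans ((Finset.card_insert_le _ _).trans (Nat.succ_le_succ ?_))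
    · obtain ⟨r, -, rfl⟩ := Finset.mem_image.mp hb
      rcases eq_or_ne r 0 with rfl | hr
      · simp
      · refine Finset.mem_insert_of_mem ((Polynomial.mem_nthRootsFinset (by omega) _).mpr ?_)
        rw [← pow_mul, show 3 * m = q - 1 by omega]
        exact ZMod.pow_card_sub_one_eq_one hr
    · rw [Polynomial.nthRootsFinset_def]
      exact (Multiset.toFinset_card_le _).trans (Polynomial.card_nthRoots m _)
  have h2 : q ≤ 2 * (q - (Finset.univ.image fun r : ZMod q => r ^ 3).card) := by omega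
  have h2' : (q : ℝ) ≤ 2 * ((q - (Finset.univ.image fun r : ZMod q => r ^ 3).card : ℕ) : ℝ) := by
    exact_mod_cast h2
  linarith

/-- Such a class has no root. -/
theorem not_root_of_noncube {q : ℕ} [hq : Fact q.Prime] {AB : ℤ × ℤ}
    (h : ((AB.1 : ZMod q), (AB.2 : ZMod q)) ∈ noncubeClasses q) (r : ZMod q) :
    r ^ 3 + AB.1 * r + AB.2 ≠ 0 := by
  classical
  rw [noncubeClasses, dif_neg hq.out.ne_zero, Finset.mem_product, Finset.mem_singleton,
    Finset.mem_compl] at h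
  intro he
  refine h.2 (Finset.mem_image.mpr ⟨-r, Finset.mem_univ _, ?_⟩)
  have h1 : (AB.1 : ZMod q) = 0 := h.1
  rw [h1] at he
  show (-r) ^ 3 = (AB.2 : ZMod q)
  linear_combination -he

/-- The primes `q ≡ 1 mod 3` have a divergent sum of inverses. -/
theorem not_summable_one_mod_three :
    ¬ Summable ({q : ℕ | q.Prime ∧ 7 ≤ q ∧ q % 3 = 1}.indicator fun n : ℕ => (1 : ℝ) / n) := by
  let E₀ : WeierstrassCurve ℚ := ⟨0, 0, 1, -1, ((0 : ℤ) : ℚ)⟩
  haveI : E₀.IsElliptic :=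
    ⟨isUnit_iff_ne_zero.mpr (by norm_num [E₀, WeierstrassCurve.Δ, WeierstrassCurve.b₂,
      WeierstrassCurve.b₄, WeierstrassCurve.b₆, WeierstrassCurve.b₈])⟩
  haveI : Fact (Nat.Prime 3) := ⟨Nat.prime_three⟩
  have hdens := FA.Summary.traceDistribution E₀ (N := 3) (by norm_num)
    (fun φ => FA.Summary.serreCurves_odd_torsion (k := 0) (dvd_zero _) (by decide) φ) 0 1
  have hne : (Nat.card {M : GL (Fin 2) (ZMod 3) // M.val.trace = 0 ∧ M.val.det = 1} : ℝ) /
      Nat.card (GL (Fin 2) (ZMod 3)) ≠ 0 := by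
    have hdet : IsUnit (!![0, -1; 1, 0] : Matrix (Fin 2) (Fin 2) (ZMod 3)) :=
      (Matrix.isUnit_iff_isUnit_det _).mpr (by simp [det_fin_two_of])
    have : Nonempty {M : GL (Fin 2) (ZMod 3) // M.val.trace = 0 ∧ M.val.det = 1} :=
      ⟨⟨hdet.unit, by simp [trace_fin_two], by simp [det_fin_two]⟩⟩
    exact div_ne_zero (Nat.cast_ne_zero.mpr Nat.card_pos.ne') (Nat.cast_ne_zero.mpr Nat.card_pos.ne')
  refine FA.PrimeDivisors.not_summable_of_density hdens hne
    (F := {v | Ideal.absNorm v.asIdeal ∈ Finset.range 7})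
    ((Finset.finite_toSet _).preimage fun a _ b _ e => FA.PrimeDivisors.absNorm_injective e)
    fun v hv => or_iff_not_imp_left.mpr fun hF => ?_
  simp only [Set.mem_ofPred_eq, Finset.mem_range, not_lt] at hF
  refine ⟨FA.Chebotarev.absNorm_prime v, hF, ?_⟩
  have h := congrArg ZMod.val hv.2
  rwa [ZMod.val_natCast, ZMod.val_one] at h

/-- A rational point of order two gives a rational root of the cubic. -/
theorem exists_root_of_order_two {AB : ℤ × ℤ} (P : (shortRat AB).toAffine.Point)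
    (hP : addOrderOf P = 2) : ∃ x : ℚ, x ^ 3 + AB.1 * x + AB.2 = 0 := by
  rcases P with _ | ⟨x, y, h⟩
  · rw [← Affine.Point.zero_def, addOrderOf_zero] at hP
    omega
  have h2 : 2 • Affine.Point.some x y h = 0 := hP ▸ addOrderOf_nsmul_eq_zero _
  have hy : y = 0 := by
    by_contra hy
    rw [two_nsmul, Affine.Point.add_self_of_Y_ne (by
      simp only [Affine.negY, zero_mul, sub_zero]
      exact fun e => hy (by linarith))] at h2
    exact Affine.Point.some_ne_zero _ h2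
  subst hy
  refine ⟨x, ?_⟩
  have := (Affine.equation_iff x 0).mp h.1
  simp at this
  linear_combination -this

/-- A Frobenius with nonsquare discriminant forbids a rational point of order `p`. -/
theorem false_of_point_hasFrob {p : ℕ} (hp : p.Prime) {AB : ℤ × ℤ} {t d : ZMod p}
    (hns : ¬ IsSquare (t ^ 2 - 4 * d)) (h : HasFrob p t d AB) [(shortRat AB).IsElliptic]
    (P : (shortRat AB).toAffine.Point) (hP : addOrderOf P = p) : False := by
  haveI := Fact.mk hp
  have hW := shortInt_isIntegralModelOf AB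
  have hΔ := Δ_ne_zero_of_model hW
  haveI := ratCurve_isElliptic_of_Δ hΔ
  obtain ⟨C, hC⟩ := hW
  let e : (ratCurve (shortInt AB)).toAffine.Point ≃+ (shortRat AB).toAffine.Point :=
    FA.Frob.vcEquiv C hC
  obtain ⟨v, hv, heig⟩ := FA.Ribet.exists_eigenvector (shortInt AB)
    (FA.Ribet.not_modRepIsIrreducible_of_point hΔ hp (e.symm P)
      ((addOrderOf_injective e.symm.toAddMonoidHom e.symm.injective P).trans hP))
  obtain ⟨q, hq, hqp, hgood, ht, hdq⟩ := h
  obtain ⟨A, hA⟩ := FA.Deform.exists_liesOverPrime hq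
  obtain ⟨σ, hσ⟩ := FA.Deform.exists_isFrobeniusAt hq hA
  obtain ⟨e1, e2⟩ := FA.Ribet.curveRep_frobenius (p := p) hq hqp hgood hA hσ
  obtain ⟨a, ha⟩ := heig σ
  exact FA.CharPolys.moves_line (by rw [e1.trans ht, e2.trans hdq]; exact hns) hv a ha

/-- A good prime bounds the primes dividing the order of the rational torsion. -/
theorem exists_prime_point_le {AB : ℤ × ℤ} [(shortRat AB).IsElliptic] {q : ℕ} (hq : q.Prime)
    (h3 : 3 ≤ q) (hgood : ¬ (q : ℤ) ∣ (shortInt AB).Δ)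
    (P : (shortRat AB).toAffine.Point) (hP0 : P ≠ 0) (hP : IsOfFinAddOrder P) :
    ∃ (l : ℕ) (Q : (shortRat AB).toAffine.Point), l.Prime ∧ l ≤ q ^ 2 + 1 ∧ addOrderOf Q = l := by
  classical
  haveI := Fact.mk hq
  have hW := shortInt_isIntegralModelOf AB
  haveI := ratCurve_isElliptic_of_Δ (Δ_ne_zero_of_model hW)
  obtain ⟨C, hC⟩ := hW
  let e : (ratCurve (shortInt AB)).toAffine.Point ≃+ (shortRat AB).toAffine.Point :=
    FA.Frob.vcEquiv C hC
  obtain ⟨hfin, hdvd⟩ := FA.Torsion.natCard_torsion_dvd_of_three_le q (shortInt AB) h3 hgood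
  set T := AddCommGroup.torsion (ratCurve (shortInt AB)).toAffine.Point
  have hP' : e.symm P ∈ T :=
    (AddCommGroup.mem_torsion _).mpr (e.symm.toAddMonoidHom.isOfFinAddOrder hP)
  have hne : (⟨e.symm P, hP'⟩ : T) ≠ 0 := fun h0 => hP0 (by
    simpa using congrArg Subtype.val h0)
  haveI : Nontrivial T := ⟨⟨_, _, hne⟩⟩
  obtain ⟨l, hl, hld⟩ := Nat.exists_prime_and_dvd (n := Nat.card T)
    (Finite.one_lt_card (α := T)).ne'
  haveI := Fact.mk hl
  obtain ⟨Q, hQ⟩ := exists_prime_addOrderOf_dvd_card' (G := T) l hld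
  refine ⟨l, e Q.1, hl, ?_, ?_⟩
  · set V := (shortInt AB).map (Int.castRingHom (ZMod q))
    have hV : (shortInt AB).reductionMod q = ⟨V.a₁, V.a₂, V.a₃, V.a₄, V.a₆⟩ := rfl
    have hap := FA.Ribet.apOfModel_eq_nsPts (W := shortInt AB) hV
    have hcard : Nat.card V.toAffine.Point =
        (FA.Ribet.nsPts V.a₁ V.a₂ V.a₃ V.a₄ V.a₆).card + 1 := by
      rw [apOfModel, traceOfFrobenius, WeierstrassCurve.card, Nat.card_zmod] at hap
      change Nat.card ((shortInt AB).reductionMod q).toAffine.Point = _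
      omega
    have hpos : 0 < Nat.card V.toAffine.Point := by omega
    refine (Nat.le_of_dvd hpos (hld.trans hdvd)).trans (hcard ▸ ?_)
    refine Nat.succ_le_succ ((Finset.card_le_univ _).trans_eq ?_)
    rw [Fintype.card_prod, ZMod.card, sq]
  · exact (addOrderOf_injective e.toAddMonoidHom e.injective Q.1).trans
      ((AddSubgroup.addOrderOf_coe Q).trans hQ)

/-- The classes outside the discriminant locus. -/
def goodClasses (l : ℕ) : Finset (ZMod l × ZMod l) :=
  if h : l = 0 then ∅ else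
    have : NeZero l := ⟨h⟩
    Finset.univ.filter fun ab => 4 * ab.1 ^ 3 + 27 * ab.2 ^ 2 ≠ 0

/-- The discriminant locus has at most `2 l` classes. -/
theorem card_goodClasses {l : ℕ} (hl : l.Prime) (h5 : 5 ≤ l) :
    ((l ^ 2 - (goodClasses l).card : ℕ) : ℝ) / (l : ℝ) ^ 2 ≤ 2 / l := by
  classical
  haveI := Fact.mk hl
  rw [goodClasses, dif_neg hl.ne_zero]
  set Z := Finset.univ.filter fun ab : ZMod l × ZMod l => 4 * ab.1 ^ 3 + 27 * ab.2 ^ 2 = 0
  have h27 : (27 : ZMod l) ≠ 0 := fun e => by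
    have h := (ZMod.natCast_eq_zero_iff 27 l).mp (by exact_mod_cast e)
    have := Nat.le_of_dvd three_pos (hl.dvd_of_dvd_pow (show l ∣ 3 ^ 3 by simpa using h))
    omega
  have hZ : Z.card ≤ 2 * l := by
    refine (Finset.card_le_mul_card_image_of_maps_to (f := Prod.fst) (t := Finset.univ)
      (fun _ _ => Finset.mem_univ _) 2 fun a _ => ?_).trans_eq (by rw [Finset.card_univ, ZMod.card])
    rcases Finset.eq_empty_or_nonempty (Z.filter fun ab => ab.1 = a) with he | ⟨ab, hab⟩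
    · rw [he]; exact Nat.zero_le _
    refine (Finset.card_le_card (t := {ab, (a, -ab.2)}) fun cd hcd => ?_).trans Finset.card_le_two
    simp only [Z, Finset.mem_filter, Finset.mem_univ, true_and] at hab hcd
    have hsq : cd.2 ^ 2 = ab.2 ^ 2 := mul_left_cancel₀ h27 (by
      have e1 := hab.1
      have e2 := hcd.1
      rw [hab.2] at e1
      rw [hcd.2] at e2
      linear_combination e2 - e1)
    rcases sq_eq_sq_iff_eq_or_eq_neg.mp hsq with e | e
    · exact Finset.mem_insert.mpr (Or.inl (Prod.ext (hcd.2.trans hab.2.symm) e))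
    · exact Finset.mem_insert.mpr (Or.inr (Finset.mem_singleton.mpr (Prod.ext hcd.2 e)))
  have hsplit : Z.card + (Finset.univ.filter fun ab : ZMod l × ZMod l =>
      4 * ab.1 ^ 3 + 27 * ab.2 ^ 2 ≠ 0).card = l ^ 2 := by
    rw [Finset.card_filter_add_card_filter_not, Finset.card_univ, Fintype.card_prod, ZMod.card, sq]
  have hb : l ^ 2 - (Finset.univ.filter fun ab : ZMod l × ZMod l =>
      4 * ab.1 ^ 3 + 27 * ab.2 ^ 2 ≠ 0).card ≤ 2 * l := by omega
  have hl0 : (0 : ℝ) < l := Nat.cast_pos.mpr hl.pos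
  rw [div_le_div_iff₀ (by positivity) hl0]
  have hb' : ((l ^ 2 - (Finset.univ.filter fun ab : ZMod l × ZMod l =>
      4 * ab.1 ^ 3 + 27 * ab.2 ^ 2 ≠ 0).card : ℕ) : ℝ) ≤ 2 * l := by exact_mod_cast hb
  nlinarith

/-- Some good prime in `S`. -/
def HasGoodIn (S : Finset ℕ) (AB : ℤ × ℤ) : Prop :=
  ∃ q ∈ S, ¬ (q : ℤ) ∣ (shortInt AB).Δ

/-- All but a small proportion have a good prime in a suitable finite set. -/
theorem exists_goodPrimes {ε : ℝ} (hε : 0 < ε) :
    ∃ S : Finset ℕ, (∀ q ∈ S, q.Prime ∧ 5 ≤ q) ∧ ∀ X Y : ℕ, ∏ q ∈ S, q ≤ X → ∏ q ∈ S, q ≤ Y →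
      ∀ [DecidablePred fun AB => ¬ HasGoodIn S AB],
      (((box X Y).filter fun AB => ¬ HasGoodIn S AB).card : ℝ) / ((2 * X + 1) * (2 * Y + 1)) < ε := by
  obtain ⟨k, hk⟩ := exists_pow_lt_of_lt_one (show 0 < ε / 4 by positivity)
    (show (2 / 5 : ℝ) < 1 by norm_num)
  have hinf : {q : ℕ | q.Prime ∧ 5 ≤ q}.Infinite :=
    (Nat.infinite_setOfPred_prime.sdiff (Set.finite_lt_nat 5)).mono fun q hq =>
      ⟨hq.1, not_lt.mp hq.2⟩
  obtain ⟨S, hS, hcard⟩ := hinf.exists_subset_card_eq k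
  refine ⟨S, fun q hq => hS hq, fun X Y hX hY _ => ?_⟩
  have hbad : ∀ AB, ¬ HasGoodIn S AB → ∀ l ∈ S,
      ((AB.1 : ZMod l), (AB.2 : ZMod l)) ∉ goodClasses l := fun AB hno l hl hmem =>
    hno ⟨l, hl, fun hdvd => by
      haveI := Fact.mk (hS hl).1
      rw [goodClasses, dif_neg (hS hl).1.ne_zero, Finset.mem_filter] at hmem
      refine hmem.2 ?_
      have h := (ZMod.intCast_zmod_eq_zero_iff_dvd _ l).mpr hdvd
      simp only [WeierstrassCurve.Δ, WeierstrassCurve.b₂, WeierstrassCurve.b₄,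
        WeierstrassCurve.b₆, WeierstrassCurve.b₈] at h
      push_cast at h
      have h16 : (16 : ZMod l) ≠ 0 := fun e => by
        have h := (ZMod.natCast_eq_zero_iff 16 l).mp (by exact_mod_cast e)
        have := Nat.le_of_dvd two_pos ((hS hl).1.dvd_of_dvd_pow (show l ∣ 2 ^ 4 by simpa using h))
        have := (hS hl).2
        omega
      refine (mul_eq_zero.mp ?_).resolve_left (neg_ne_zero.mpr h16)
      linear_combination h⟩
  refine lt_of_le_of_lt (card_avoid_ratio (m := fun q => q)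
    (fun i hi j hj hij => (Nat.coprime_primes (hS hi).1 (hS hj).1).mpr hij)
    (fun q hq => (hS hq).1.pos) goodClasses _ hbad hX hY) ?_
  have hle : ∏ q ∈ S, (((q ^ 2 - (goodClasses q).card : ℕ) : ℝ) / (q : ℝ) ^ 2) ≤ (2 / 5) ^ k := by
    rw [← hcard, ← Finset.prod_const]
    exact Finset.prod_le_prod (fun q _ => by positivity) fun q hq =>
      (card_goodClasses (hS hq).1 (hS hq).2).trans
        (div_le_div_of_nonneg_left zero_le_two (by norm_num) (by exact_mod_cast (hS hq).2))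
  linarith

end FA.AlmostAll

namespace FA.Summary

open FA.AlmostAll

/-- **Almost no curve has a rational point of a given prime order.** -/
theorem almostAll_noPointOfOrder {l : ℕ} (hl : l.Prime) :
    Tendsto (fun XY : ℕ × ℕ => (Set.ncard {AB : ℤ × ℤ | |AB.1| ≤ XY.1 ∧ |AB.2| ≤ XY.2 ∧
        4 * AB.1 ^ 3 + 27 * AB.2 ^ 2 ≠ 0 ∧
        ∃ P : (⟨0, 0, 0, (AB.1 : ℚ), (AB.2 : ℚ)⟩ : WeierstrassCurve ℚ).toAffine.Point,
          addOrderOf P = l} : ℝ) /
      ((2 * XY.1 + 1) * (2 * XY.2 + 1))) atTop (𝓝 0) := by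
  classical
  haveI := Fact.mk hl
  rcases eq_or_ne l 2 with rfl | hl2
  · refine squeeze_zero (fun XY => by positivity) (fun XY => ?_)
      (tendsto_avoid (fun q hq => hq.1) not_summable_one_mod_three (show (0 : ℝ) < 1 / 2 by norm_num)
        noncubeClasses (fun q hq => card_noncubeClasses hq.1 hq.2.1 hq.2.2)
        (fun AB => ∃ x : ℚ, x ^ 3 + AB.1 * x + AB.2 = 0) fun AB ⟨x, hx⟩ q hq hmem => by
          haveI := Fact.mk hq.1
          obtain ⟨r, hr⟩ := exists_root_mod hx q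
          exact not_root_of_noncube hmem r hr)
    refine div_le_div_of_nonneg_right (Nat.cast_le.mpr ?_) (by positivity)
    rw [← Set.ncard_coe_finset]
    refine Set.ncard_le_ncard (fun AB h => ?_) (Finset.finite_toSet _)
    obtain ⟨hX, hY, -, P, hP⟩ := h
    rw [Finset.mem_coe, Finset.mem_filter, box, Finset.mem_product, Finset.mem_Icc, Finset.mem_Icc]
    exact ⟨⟨abs_le.mp hX, abs_le.mp hY⟩, exists_root_of_order_two P hP⟩
  · obtain ⟨d, hd0, hns⟩ := FA.CharPolys.exists_nonsquare_disc (p := l) hl2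
    refine squeeze_zero (fun XY => by positivity) (fun XY => ?_) (tendsto_not_hasFrob hl hl2 1 hd0)
    refine div_le_div_of_nonneg_right (Nat.cast_le.mpr ?_) (by positivity)
    rw [← Set.ncard_coe_finset]
    refine Set.ncard_le_ncard (fun AB h => ?_) (Finset.finite_toSet _)
    obtain ⟨hX, hY, hne, P, hP⟩ := h
    rw [Finset.mem_coe, Finset.mem_filter, box, Finset.mem_product, Finset.mem_Icc, Finset.mem_Icc]
    haveI : (shortRat AB).IsElliptic := isElliptic_of_ne hne
    exact ⟨⟨abs_le.mp hX, abs_le.mp hY⟩, fun hF => false_of_point_hasFrob hl hns hF P hP⟩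

/-- **Almost all elliptic curves over `ℚ` have no rational torsion.** -/
theorem almostAll_torsionFree :
    Tendsto (fun XY : ℕ × ℕ => (Set.ncard {AB : ℤ × ℤ | |AB.1| ≤ XY.1 ∧ |AB.2| ≤ XY.2 ∧
        4 * AB.1 ^ 3 + 27 * AB.2 ^ 2 ≠ 0 ∧
        ∃ P : (⟨0, 0, 0, (AB.1 : ℚ), (AB.2 : ℚ)⟩ : WeierstrassCurve ℚ).toAffine.Point,
          P ≠ 0 ∧ IsOfFinAddOrder P} : ℝ) /
      ((2 * XY.1 + 1) * (2 * XY.2 + 1))) atTop (𝓝 0) := by
  classical
  rw [Metric.tendsto_atTop]
  intro ε hε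
  obtain ⟨S, hS, hgood⟩ := exists_goodPrimes (show 0 < ε / 2 by positivity)
  set L := (Finset.range (S.sup (fun q => q ^ 2 + 1) + 1)).filter Nat.Prime
  have hsum := tendsto_finsetSum L fun l hl =>
    almostAll_noPointOfOrder (Finset.mem_filter.mp hl).2
  rw [Finset.sum_const_zero, Metric.tendsto_atTop] at hsum
  obtain ⟨N, hN⟩ := hsum (ε / 2) (by positivity)
  refine ⟨N ⊔ (∏ q ∈ S, q, ∏ q ∈ S, q), fun XY hXY => ?_⟩
  have h1 := hN XY (le_sup_left.trans hXY)
  have h2 := hgood XY.1 XY.2 (le_sup_right.trans hXY).1 (le_sup_right.trans hXY).2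
  rw [Real.dist_eq, sub_zero, abs_of_nonneg (by positivity)] at h1 ⊢
  set M : ℕ → Set (ℤ × ℤ) := fun l => {AB | |AB.1| ≤ XY.1 ∧ |AB.2| ≤ XY.2 ∧
    4 * AB.1 ^ 3 + 27 * AB.2 ^ 2 ≠ 0 ∧
    ∃ P : (⟨0, 0, 0, (AB.1 : ℚ), (AB.2 : ℚ)⟩ : WeierstrassCurve ℚ).toAffine.Point, addOrderOf P = l}
  have hfin : ∀ l, (M l).Finite := fun l => ((box XY.1 XY.2).finite_toSet).subset fun AB h => by
    rw [Finset.mem_coe, box, Finset.mem_product, Finset.mem_Icc, Finset.mem_Icc]
    exact ⟨abs_le.mp h.1, abs_le.mp h.2.1⟩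
  have hsub : Set.ncard {AB : ℤ × ℤ | |AB.1| ≤ XY.1 ∧ |AB.2| ≤ XY.2 ∧
      4 * AB.1 ^ 3 + 27 * AB.2 ^ 2 ≠ 0 ∧
      ∃ P : (⟨0, 0, 0, (AB.1 : ℚ), (AB.2 : ℚ)⟩ : WeierstrassCurve ℚ).toAffine.Point,
        P ≠ 0 ∧ IsOfFinAddOrder P} ≤
      ((box XY.1 XY.2).filter fun AB => ¬ HasGoodIn S AB).card + ∑ l ∈ L, (M l).ncard := by
    refine le_trans (Set.ncard_le_ncard (t := ↑((box XY.1 XY.2).filter fun AB => ¬ HasGoodIn S AB) ∪
      ⋃ l ∈ L, M l) (fun AB h => ?_) ((Finset.finite_toSet _).union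
        (Set.Finite.biUnion (Finset.finite_toSet _) fun l _ => hfin l)))
      ((Set.ncard_union_le _ _).trans (Nat.add_le_add (Set.ncard_coe_finset _).le
        (Finset.set_ncard_biUnion_le _ _)))
    obtain ⟨hX, hY, hne, P, hP0, hP⟩ := h
    by_cases hg : HasGoodIn S AB
    · obtain ⟨q, hqS, hq⟩ := hg
      haveI : (shortRat AB).IsElliptic := isElliptic_of_ne hne
      obtain ⟨l, Q, hl, hle, hQ⟩ :=
        exists_prime_point_le (hS q hqS).1 (by have := (hS q hqS).2; omega) hq P hP0 hP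
      refine Or.inr (Set.mem_biUnion (x := l) (Finset.mem_filter.mpr ⟨Finset.mem_range.mpr ?_, hl⟩)
        ⟨hX, hY, hne, Q, hQ⟩)
      have := Finset.le_sup (f := fun q => q ^ 2 + 1) hqS
      omega
    · refine Or.inl (Finset.mem_coe.mpr (Finset.mem_filter.mpr ⟨?_, hg⟩))
      rw [box, Finset.mem_product, Finset.mem_Icc, Finset.mem_Icc]
      exact ⟨abs_le.mp hX, abs_le.mp hY⟩
  refine lt_of_le_of_lt (div_le_div_of_nonneg_right (Nat.cast_le.mpr hsub) (by positivity)) ?_
  rw [Nat.cast_add, Nat.cast_sum, add_div, Finset.sum_div]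
  linarith

/-- **The same for the height `max (|A|³, B²)`**. -/
theorem almostAll_torsionFree_height :
    Tendsto (fun H : ℕ => (Set.ncard {AB : ℤ × ℤ | |AB.1| ≤ (H ^ 2 : ℕ) ∧ |AB.2| ≤ (H ^ 3 : ℕ) ∧
        4 * AB.1 ^ 3 + 27 * AB.2 ^ 2 ≠ 0 ∧
        ∃ P : (⟨0, 0, 0, (AB.1 : ℚ), (AB.2 : ℚ)⟩ : WeierstrassCurve ℚ).toAffine.Point,
          P ≠ 0 ∧ IsOfFinAddOrder P} : ℝ) /
      ((2 * (H ^ 2 : ℕ) + 1) * (2 * (H ^ 3 : ℕ) + 1))) atTop (𝓝 0) := by
  have h := almostAll_torsionFree.comp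
    (show Tendsto (fun H : ℕ => (H ^ 2, H ^ 3)) atTop atTop by
      rw [← prod_atTop_atTop_eq]
      exact (tendsto_pow_atTop (α := ℕ) two_ne_zero).prodMk
        (tendsto_pow_atTop (α := ℕ) three_ne_zero))
  simp only [Function.comp_def] at h
  exact h

end FA.Summary

end
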