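import Fermat.Agent.AlmostGoldbach.Main

/-!
# Goldbach's conjecture for almost all even numbers

All but `O (X / (log X) ^ A)` even numbers up to `X` are sums of two distinct primes (Chudakov,
van der Corput, Estermann, 1937-38), and there are infinitely many three-term arithmetic
progressions of primes (van der Corput, 1939). The proof is the circle method in mean square on
top of the theorem of Siegel and Walfisz, so the constants are INEFFECTIVE. This is not Goldbach's
conjecture: the exceptional set is not shown to be empty or finite.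
-/

set_option autoImplicit false

namespace FA.AlmostGoldbach.Summary

open Finset ArithmeticFunction
open scoped ArithmeticFunction.Moebius Topology

/-- The singular series written out. -/
theorem pairSeries_eq (n : ℕ) : FA.AlmostGoldbach.pairSeries n = ∑' q : ℕ,
    (μ q : ℝ) ^ 2 / (q.totient : ℝ) ^ 2 *
      ∑ d ∈ q.divisors.filter (· ∣ n), (μ (q / d) : ℝ) * d := by
  refine tsum_congr fun q => ?_
  rw [pairTerm_apply, ThreePrimes.ramanujan, mul_apply,
    Nat.sum_divisorsAntidiagonal' (fun x y => ThreePrimes.moebiusR x * ThreePrimes.divPart n y),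
    sum_filter]
  simp only [ThreePrimes.divPart_apply, ThreePrimes.moebiusR, intCoe_apply, mul_ite, mul_zero]
  ring

/-- The singular series is `O (τ n)`, and at least `1/2` for even `n`. -/
theorem pairSeries_bounds : ∃ C : ℝ, ∀ n : ℕ, n ≠ 0 →
    |FA.AlmostGoldbach.pairSeries n| ≤ C * n.divisors.card ∧
      (Even n → 1 / 2 ≤ FA.AlmostGoldbach.pairSeries n) :=
  ⟨pairConst, fun _ hn => ⟨abs_pairSeries_le hn, half_le_pairSeries hn⟩⟩

/-- **The mean square**: `∑_{i+j=n} Λ i Λ j = 𝔖₂ n n` on average over `n ≤ X`, with an error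
`O (X ^ 3 / (log X) ^ e)`. -/
theorem goldbach_mean_square (e : ℕ) : ∃ C : ℝ, 0 < C ∧ ∀ X : ℕ, 2 ≤ X →
    ∑ n ∈ Icc 1 X, ((∑ i ∈ Icc 1 (n - 1), Λ i * Λ (n - i)) -
        FA.AlmostGoldbach.pairSeries n * n) ^ 2 ≤ C * ((X : ℝ) ^ 3 / Real.log X ^ e) :=
  exists_mean_square e

/-- **The Hardy-Littlewood formula holds for almost all `n`.** -/
theorem hardy_littlewood_almost_all (A : ℕ) : ∃ C : ℝ, 0 < C ∧ ∀ X : ℕ, 2 ≤ X →
    ({n : ℕ | 1 ≤ n ∧ n ≤ X ∧ (n : ℝ) / Real.log X ^ A <
      |(∑ i ∈ Icc 1 (n - 1), Λ i * Λ (n - i)) -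
        FA.AlmostGoldbach.pairSeries n * n|}.ncard : ℝ) ≤ C * ((X : ℝ) / Real.log X ^ A) := by
  obtain ⟨C, hC, h⟩ := exists_card_largeError_le A
  refine ⟨C, hC, fun X hX => le_of_eq_of_le ?_ (h X hX)⟩
  rw [← Set.ncard_coe_finset]
  congr 2
  ext n
  simp [largeError, pairW, and_assoc]

/-- Almost all even numbers have at least `n / (8 (log n) ^ 2)` representations. -/
theorem almost_all_goldbach_count (A : ℕ) : ∃ C : ℝ, 0 < C ∧ ∀ X : ℕ, 2 ≤ X →
    ({n : ℕ | 1 ≤ n ∧ n ≤ X ∧ Even n ∧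
      (((Icc 1 n).filter fun p => p.Prime ∧ (n - p).Prime).card : ℝ) * Real.log n ^ 2 <
        n / 8}.ncard : ℝ) ≤ C * ((X : ℝ) / Real.log X ^ A) := by
  obtain ⟨C, hC, h⟩ := exists_card_fewPairs_le A
  refine ⟨C, hC, fun X hX => le_of_eq_of_le ?_ (h X hX)⟩
  rw [← Set.ncard_coe_finset]
  congr 2
  ext n
  simp [fewPairs, goldbachCount, and_assoc]

/-- **Almost all even numbers are sums of two distinct primes.** -/
theorem almost_all_goldbach (A : ℕ) : ∃ C : ℝ, 0 < C ∧ ∀ X : ℕ, 2 ≤ X →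
    ({n : ℕ | 1 ≤ n ∧ n ≤ X ∧ Even n ∧
      ¬ ∃ p q : ℕ, p.Prime ∧ q.Prime ∧ p < q ∧ p + q = n}.ncard : ℝ) ≤
        C * ((X : ℝ) / Real.log X ^ A) := by
  obtain ⟨C, hC, h⟩ := exists_card_exceptions_le A
  refine ⟨C, hC, fun X hX => le_of_eq_of_le ?_ (h X hX)⟩
  rw [← Set.ncard_coe_finset]
  congr 2
  ext n
  simp [goldbachExceptions, and_assoc]

/-- The exceptional even numbers have density zero. -/
theorem almost_all_goldbach_density :
    Filter.Tendsto (fun X : ℕ => ({n : ℕ | 1 ≤ n ∧ n ≤ X ∧ Even n ∧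
      ¬ ∃ p q : ℕ, p.Prime ∧ q.Prime ∧ p < q ∧ p + q = n}.ncard : ℝ) / X)
        Filter.atTop (𝓝 0) := by
  obtain ⟨C, hC, h⟩ := almost_all_goldbach 1
  refine squeeze_zero' (Filter.Eventually.of_forall fun X => by positivity)
    ((Filter.eventually_ge_atTop 2).mono fun X hX => ?_)
    (tendsto_const_nhds.div_atTop (a := C)
      (Real.tendsto_log_atTop.comp tendsto_natCast_atTop_atTop))
  refine (div_le_div_of_nonneg_right (h X hX) (Nat.cast_nonneg X)).trans (le_of_eq ?_)
  have : (X : ℝ) ≠ 0 := Nat.cast_ne_zero.2 (by omega)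
  simp only [Function.comp_apply, pow_one]
  field_simp

/-- **Infinitely many three-term progressions of primes.** -/
theorem infinitely_many_prime_progressions :
    {x : ℕ × ℕ | 0 < x.2 ∧ x.1.Prime ∧ (x.1 + x.2).Prime ∧ (x.1 + 2 * x.2).Prime}.Infinite := by
  refine Set.Infinite.of_image (fun x => x.1 + x.2)
    (Set.infinite_of_forall_exists_gt fun B => ?_)
  obtain ⟨p, q, r, hp, hq, hr, hB, hpq, hqr, hsum⟩ := exists_prime_progression B
  refine ⟨q, ⟨(p, q - p), ⟨by omega, hp, ?_, ?_⟩, by simp only; omega⟩, hB⟩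
  · rwa [show p + (q - p) = q by omega]
  · rwa [show p + 2 * (q - p) = r by omega]

/-- **Many representations by three primes**: at least `n ^ 2 / (8 (log n) ^ 3)` of them. -/
theorem odd_sums_three_primes_many : ∃ N₀ : ℕ, ∀ N : ℕ, N₀ ≤ N → Odd N →
    (N : ℝ) ^ 2 / (8 * Real.log N ^ 3) ≤
      (((Icc 1 N ×ˢ Icc 1 N ×ˢ Icc 1 N).filter fun x =>
        x.1.Prime ∧ x.2.1.Prime ∧ x.2.2.Prime ∧ x.1 + x.2.1 + x.2.2 = N).card : ℝ) :=
  exists_threePrimeCount_ge

end FA.AlmostGoldbach.Summary
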