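import Fermat.Agent.AlperinFusion.Consequences

/-!
# Alperin's fusion theorem

`P` is a Sylow `p`-subgroup of a finite group; a tame intersection is some `Q = P ∩ R`, for a Sylow
subgroup `R`, with `N_P(Q)` and `N_R(Q)` Sylow subgroups of `N(Q)`.

* `alperin_fusion`: if `A` and `g A g⁻¹` lie in `P`, then `g` is a product of elements of
  normalisers of tame intersections, each containing the conjugate of `A` reached so far
  (Alperin, 1967);
* `alperin_focal`: the focal subgroup of `P`, which is `P ∩ G'`, is generated by the commutators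
  `[n, a]` with `a ∈ Q`, `n ∈ N(Q)` over the tame intersections;
* `alperin_control`: a subgroup containing the normalisers of the nontrivial tame intersections
  contains every element conjugating a nontrivial element of `P` into `P`;
* `burnside_fusion`: normal subsets of `P` conjugate in `G` are conjugate in `N(P)`.

The refinement of Alperin and Goldschmidt to essential subgroups and Grün's theorems are not
claimed.
-/

set_option autoImplicit false
set_option linter.style.haveILetI false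

noncomputable section

namespace FA.AlperinFusion.Summary

open Subgroup
open scoped commutatorElement

variable {p : ℕ} [hp : Fact p.Prime] {G : Type*} [Group G] [Finite G] (P : Sylow p G)

omit hp [Finite G] in
/-- Tame intersections. -/
theorem tame_iff (Q : Subgroup G) : Tame P Q ↔ ∃ R : Sylow p G, Q = (P : Subgroup G) ⊓ R ∧
    ¬ p ∣ ((P : Subgroup G) ⊓ normalizer (Q : Set G)).relIndex (normalizer (Q : Set G)) ∧
    ¬ p ∣ ((R : Subgroup G) ⊓ normalizer (Q : Set G)).relIndex (normalizer (Q : Set G)) :=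
  Iff.rfl

/-- **Alperin's fusion theorem.** -/
theorem alperin_fusion {A : Set G} {g : G} (hA : ∀ a ∈ A, a ∈ P)
    (hg : ∀ a ∈ A, g * a * g⁻¹ ∈ P) :
    ∃ (k : ℕ) (w : ℕ → G) (Q : ℕ → Subgroup G), w 0 = 1 ∧ w k = g ∧ ∀ i < k, Tame P (Q i) ∧
      w (i + 1) * (w i)⁻¹ ∈ normalizer (Q i : Set G) ∧ ∀ a ∈ A, w i * a * (w i)⁻¹ ∈ Q i :=
  (linked_of_conj hA hg).exists_steps

/-- **The focal subgroup.** -/
theorem alperin_focal :
    (P : Subgroup G).focalSubgroup = closure {c : G | ∃ Q : Subgroup G, Tame P Q ∧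
      ∃ a ∈ Q, ∃ n ∈ normalizer (Q : Set G), c = ⁅n, a⁆} :=
  focalSubgroup_eq P

/-- **Control of fusion.** -/
theorem alperin_control {H : Subgroup G}
    (hH : ∀ Q : Subgroup G, Tame P Q → Q ≠ ⊥ → normalizer (Q : Set G) ≤ H) {x g : G}
    (hx : x ∈ P) (hx1 : x ≠ 1) (hg : g * x * g⁻¹ ∈ P) : g ∈ H :=
  (linked_of_conj (A := {x}) (g := g) (fun _ ha => ha ▸ hx) fun _ ha => ha ▸ hg).mem
    (Set.mem_singleton x) hx1 hH

/-- **Burnside's fusion lemma.** -/
theorem burnside_fusion {A B : Set G} {g : G} (hAB : (fun a => g * a * g⁻¹) '' A = B)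
    (hA : ∀ c ∈ P, ∀ a ∈ A, c * a * c⁻¹ ∈ A) (hB : ∀ c ∈ P, ∀ b ∈ B, c * b * c⁻¹ ∈ B) :
    ∃ m ∈ normalizer ((P : Subgroup G) : Set G), (fun a => m * a * m⁻¹) '' A = B := by
  subst hAB
  refine exists_normalizer_conj P (fun c hc a => ⟨hA c hc a, fun h => ?_⟩) fun c hc a =>
    ⟨fun h => ?_, fun h => ?_⟩
  · simpa [mul_assoc] using hA c⁻¹ (inv_mem hc) _ h
  · obtain ⟨b, hb, hba⟩ := hB c hc a ⟨_, h, by group⟩
    rwa [← hba, show g⁻¹ * (g * b * g⁻¹) * g = b by group]
  · obtain ⟨b, hb, hba⟩ := hB c⁻¹ (inv_mem hc) (c * a * c⁻¹) ⟨_, h, by group⟩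
    rw [inv_inv, show c⁻¹ * (c * a * c⁻¹) * c = a by group] at hba
    rwa [← hba, show g⁻¹ * (g * b * g⁻¹) * g = b by group]

end FA.AlperinFusion.Summary

end
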