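import Fermat.Agent.AmbiguousClass.Fields

/-!
# Chevalley's ambiguous class number formula

For a cyclic extension `L/K` of number fields the classes of `L` fixed by the Galois group number
`h_K ∏ e_v / ([L : K] [E_K : E_K ∩ N L^×])`, the product over all places of `K`. Consequently, in a
`p`-power cyclic extension with at most one ramified place `p` divides the class number above only if it
divides the one below (Iwasawa), and a cyclic field of odd prime degree `p` whose discriminant has
`t` prime divisors has exactly `p ^ (t - 1)` fixed classes; so the class numbers of these fields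
are divisible by arbitrarily high powers of `p`.
-/

set_option autoImplicit false

noncomputable section

open NumberField IsDedekindDomain
open scoped Pointwise nonZeroDivisors

namespace FA.Summary

open FA.AmbClass

variable (K L : Type*) [Field K] [NumberField K] [Field L] [NumberField L] [Algebra K L]
  [IsGalois K L] [IsCyclic (L ≃ₐ[K] L)]

/-- **Chevalley's formula**: the number of fixed classes, the degree and the index of the units of
`K` that are norms of elements multiply to the class number of `K`, the ramification indices of the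
primes and `2` for each ramified infinite place. -/
theorem chevalley_ambiguous :
    Nat.card {c : ClassGroup (𝓞 L) // ∀ g : L ≃ₐ[K] L,
        ClassGroup.mulEquiv (MulSemiringAction.toRingEquiv (L ≃ₐ[K] L) (𝓞 L) g) c = c} *
      Module.finrank K L *
      ((Units.map (Algebra.norm K : L →* K)).range.comap
        (Units.map (algebraMap (𝓞 K) K : 𝓞 K →* K))).index =
    classNumber K * (∏ᶠ v : HeightOneSpectrum (𝓞 K), v.asIdeal.ramificationIdxIn (𝓞 L)) *
      2 ^ Nat.card {v : InfinitePlace K // ¬ v.IsUnramifiedIn L} := by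
  obtain ⟨σ, hσ⟩ := exists_generator (K := K) (L := L)
  have h := card_fixed hσ
  rw [prod_infIdx] at h
  exact h

/-- **Iwasawa's criterion**: cyclic of `p`-power degree with at most one ramified place, finite or
infinite. -/
theorem iwasawa_not_dvd_classNumber {p k : ℕ} (hp : p.Prime) (hdeg : Module.finrank K L = p ^ k)
    (hram : Nat.card {v : HeightOneSpectrum (𝓞 K) // v.asIdeal.ramificationIdxIn (𝓞 L) ≠ 1} +
      Nat.card {v : InfinitePlace K // ¬ v.IsUnramifiedIn L} ≤ 1)
    (hK : ¬ p ∣ classNumber K) : ¬ p ∣ classNumber L :=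
  haveI := Fact.mk hp
  not_dvd_classNumber hdeg hram hK

variable (F : Type*) [Field F] [NumberField F] [IsGalois ℚ F] [IsCyclic (F ≃ₐ[ℚ] F)]

/-- **Cyclic fields of odd prime degree**: with `t` primes dividing the discriminant there are
`p ^ (t - 1)` fixed classes. -/
theorem ambiguous_classes_prime_degree {p : ℕ} (hp : p.Prime) (hodd : Odd p)
    (hdeg : Module.finrank ℚ F = p) :
    Nat.card {c : ClassGroup (𝓞 F) // ∀ g : F ≃ₐ[ℚ] F,
        ClassGroup.mulEquiv (MulSemiringAction.toRingEquiv (F ≃ₐ[ℚ] F) (𝓞 F) g) c = c} * p =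
      p ^ Nat.card {q : Nat.Primes // ((q : ℕ) : ℤ) ∣ discr F} :=
  haveI := Fact.mk hp
  card_fixed_rat hodd hdeg

/-- The power of `p` from the ramified primes divides the class number. -/
theorem pow_dvd_classNumber_mul {p : ℕ} (hp : p.Prime) (hodd : Odd p)
    (hdeg : Module.finrank ℚ F = p) :
    p ^ Nat.card {q : Nat.Primes // ((q : ℕ) : ℤ) ∣ discr F} ∣ classNumber F * p := by
  haveI := Fact.mk hp
  rw [← card_fixed_rat hodd hdeg]
  refine Nat.mul_dvd_mul_right ?_ p
  have h := Subgroup.card_subgroup_dvd_card (fixedClasses ℚ F)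
  rw [Nat.card_eq_fintype_card (α := ClassGroup (𝓞 F))] at h
  exact h

/-- **`p` divides the class number iff two primes ramify.** -/
theorem dvd_classNumber_iff_two_le {p : ℕ} (hp : p.Prime) (hodd : Odd p)
    (hdeg : Module.finrank ℚ F = p) :
    p ∣ classNumber F ↔ 2 ≤ Nat.card {q : Nat.Primes // ((q : ℕ) : ℤ) ∣ discr F} := by
  haveI := Fact.mk hp
  refine ⟨fun h => ?_, fun h => ?_⟩
  · have h1 := Nat.mul_dvd_mul_right (dvd_card_fixed (k := 1) (by rw [hdeg, pow_one]) h) p
    rw [card_fixed_rat hodd hdeg, ← sq] at h1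
    exact (Nat.pow_dvd_pow_iff_le_right hp.one_lt).1 h1
  · have h1 := dvd_trans (pow_dvd_pow p h) (pow_dvd_classNumber_mul F hp hodd hdeg)
    rw [sq] at h1
    exact Nat.dvd_of_mul_dvd_mul_right hp.pos h1

/-- **Class numbers of cyclic fields of every odd prime degree `p` are divisible by arbitrarily
high powers of `p`.** -/
theorem exists_cyclic_pow_dvd_classNumber {p : ℕ} (hp : p.Prime) (hodd : Odd p) (m : ℕ) :
    ∃ (L : Type) (_ : Field L) (_ : NumberField L),
      IsGalois ℚ L ∧ IsCyclic (L ≃ₐ[ℚ] L) ∧ Module.finrank ℚ L = p ∧ p ^ m ∣ classNumber L := by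
  classical
  haveI := Fact.mk hp
  obtain ⟨S, hS, hc⟩ := (Nat.infinite_setOfPred_prime_modEq_one hp.ne_zero).exists_subset_card_eq (m + 1)
  obtain ⟨L, _, _, hG, hC, hd, hq⟩ := exists_field_ramified (p := p) S (fun q hq =>
    have h := hS hq
    ⟨h.1, (Nat.modEq_iff_dvd' h.1.one_le).1 h.2.symm⟩) (Finset.card_pos.1 (by omega))
  refine ⟨L, inferInstance, inferInstance, hG, hC, hd, ?_⟩
  have hf : Finite {q : Nat.Primes // ((q : ℕ) : ℤ) ∣ discr L} :=
    Finite.of_injective (fun q => (⟨q.1.1, Nat.lt_succ_of_le (Nat.le_of_dvd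
      (Int.natAbs_pos.2 (discr_ne_zero L)) (Int.natCast_dvd.1 q.2))⟩ :
        Fin ((discr L).natAbs + 1)))
      fun a b h => Subtype.ext (Subtype.ext (Fin.mk.inj_iff.1 h))
  have ht : m + 1 ≤ Nat.card {q : Nat.Primes // ((q : ℕ) : ℤ) ∣ discr L} := by
    rw [← hc, ← Nat.card_eq_finsetCard]
    exact Nat.card_le_card_of_injective
      (fun q : S => (⟨⟨q.1, (hS q.2).1⟩, hq q.1 q.2⟩ : {q : Nat.Primes // ((q : ℕ) : ℤ) ∣ discr L}))
      fun a b h => Subtype.ext (congrArg (fun x => x.1.1) h)
  have h1 := dvd_trans (pow_dvd_pow p ht) (pow_dvd_classNumber_mul L hp hodd hd)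
  rw [pow_succ] at h1
  exact Nat.dvd_of_mul_dvd_mul_right hp.pos h1

end FA.Summary
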