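import Fermat.Agent.Amenable.Main

/-!
# Amenable linear groups

A linear group in characteristic zero is amenable exactly when it has no free subgroup of rank two
(Tits), exactly when it is virtually solvable if it is finitely generated. `IsAmenable` asks for a
nonnegative left-invariant finitely additive set function of total mass one on all subsets.
-/

set_option autoImplicit false

noncomputable section

namespace FA.Summary

open FA.Amenable FA.TitsAlternative

/-- **A linear group is amenable iff it contains no free group of rank two.** -/
theorem linear_amenable_iff_no_free {K : Type*} [Field K] [CharZero K] {n : ℕ}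
    (G : Subgroup (Matrix.GeneralLinearGroup (Fin n) K)) :
    IsAmenable G ↔ ¬ ∃ f : FreeGroup (Fin 2) →* G, Function.Injective f :=
  isAmenable_iff_no_free G

/-- **A finitely generated linear group is amenable iff it is virtually solvable.** -/
theorem linear_amenable_iff_virtually_solvable {K : Type*} [Field K] [CharZero K] {n : ℕ}
    {G : Subgroup (Matrix.GeneralLinearGroup (Fin n) K)} (hG : G.FG) :
    IsAmenable G ↔ ∃ H : Subgroup G, H.FiniteIndex ∧ Group.IsSolvable H :=
  (isAmenable_iff_no_free G).trans (tits_alternative_iff hG)

/-- **Solvable groups are amenable.** -/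
theorem amenable_of_isSolvable {G : Type*} [Group G] (h : Group.IsSolvable G) : IsAmenable G :=
  (hasMean_of_isSolvable h).isAmenable

/-- **Virtually solvable groups, in particular finite groups, are amenable.** -/
theorem amenable_of_virtually_solvable {G : Type*} [Group G]
    (h : ∃ H : Subgroup G, H.FiniteIndex ∧ Group.IsSolvable H) : IsAmenable G :=
  (hasMean_of_virtuallySolvable h).isAmenable

/-- **A group containing a free group of rank two is not amenable.** -/
theorem not_amenable_of_free {G : Type*} [Group G] (f : FreeGroup (Fin 2) →* G)
    (hf : Function.Injective f) : ¬ IsAmenable G :=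
  not_isAmenable_of_free f hf

/-- **Both cases occur among infinite linear groups**: one unipotent element generates an amenable
group, while Sanov's two generate one which is not. -/
theorem amenable_and_not_amenable_linear_occur :
    (∃ G : Subgroup (Matrix.GeneralLinearGroup (Fin 2) ℚ), Infinite G ∧ IsAmenable G) ∧
      ∃ G : Subgroup (Matrix.GeneralLinearGroup (Fin 2) ℚ), G.FG ∧ ¬ IsAmenable G := by
  refine ⟨⟨Subgroup.zpowers (elementary 0 1), ?_, ?_⟩, ?_⟩
  · refine Infinite.of_injective (fun k : ℕ => ⟨elementary 0 1 ^ k, Subgroup.npow_mem_zpowers _ k⟩)
      fun a b h => ?_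
    have e : elementary 0 1 ^ a = elementary 0 1 ^ b := congrArg Subtype.val h
    rw [elementary_pow, elementary_pow] at e
    simpa [elementary] using congrArg (fun g : Matrix.GeneralLinearGroup (Fin 2) ℚ => g.1 0 1) e
  · let _ : CommGroup (Subgroup.zpowers (elementary 0 1)) :=
      { (Subgroup.zpowers (elementary 0 1)).toGroup with
        mul_comm := fun a b => IsMulCommutative.is_comm.comm a b }
    exact hasMean_of_comm.isAmenable
  · obtain ⟨G, hfg, ⟨f, hf⟩, -⟩ := tits_alternative_free_occurs
    exact ⟨G, hfg, not_amenable_of_free f hf⟩

end FA.Summary

end
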