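import Fermat.Agent.AmerBrumer.OddDegree
import Fermat.Agent.AmerBrumer.Cubic
import Fermat.Agent.SurfaceObstructions.DelPezzo
import Fermat.Agent.SurfaceObstructions.CubicNorm
import Mathlib.NumberTheory.NumberField.Basic

/-!
# Summary: the theorems of Amer, Brumer and a remark on cubic forms

Two quadratic forms have a common nontrivial zero over `k` exactly when `f + T g` has one over
`k(T)` (`amer_brumer`, every field). So if they have one in an extension of odd degree they have one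
over `k`, in characteristic other than two (`brumer_odd_degree`); and a cubic form with a zero in a
quadratic extension has one over `k` (`cubic_quadratic_point`). Hence the del Pezzo surface of Birch
and Swinnerton-Dyer has no point in a number field of odd degree (`delPezzo_no_odd_degree`), and
Swinnerton-Dyer's cubic surface none in a quadratic field (`cubicSurface_no_quadratic`).

Not claimed: more than two quadrics, cubic forms and extensions of degree four.
-/

set_option autoImplicit false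
set_option linter.style.haveILetI false

noncomputable section

open FA.SurfaceObstructions

namespace FA.AmerBrumer.Summary

/-- **Amer–Brumer.** -/
theorem amer_brumer {ι k : Type*} [Fintype ι] [Field k] (A B : ι → ι → k) :
    (∃ e : ι → k, e ≠ 0 ∧ ∑ i, ∑ j, A i j * e i * e j = 0 ∧ ∑ i, ∑ j, B i j * e i * e j = 0) ↔
      ∃ v : ι → RatFunc k, v ≠ 0 ∧
        ∑ i, ∑ j, (RatFunc.C (A i j) + RatFunc.X * RatFunc.C (B i j)) * v i * v j = 0 :=
  amer_brumer_iff A B

/-- **Brumer**: odd degree extensions create no common zero of two quadratic forms. -/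
theorem brumer_odd_degree {ι k L : Type*} [Fintype ι] [Field k] [Field L] [Algebra k L]
    [FiniteDimensional k L] (h2 : (2 : k) ≠ 0) (hodd : Odd (Module.finrank k L))
    (A B : ι → ι → k) (x : ι → L) (hx : x ≠ 0)
    (hA : ∑ i, ∑ j, algebraMap k L (A i j) * x i * x j = 0)
    (hB : ∑ i, ∑ j, algebraMap k L (B i j) * x i * x j = 0) :
    ∃ e : ι → k, e ≠ 0 ∧ ∑ i, ∑ j, A i j * e i * e j = 0 ∧ ∑ i, ∑ j, B i j * e i * e j = 0 :=
  brumer h2 hodd A B x hx hA hB

/-- **A cubic form with a zero in a quadratic extension has one over the ground field.** -/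
theorem cubic_quadratic_point {ι k L : Type*} [Fintype ι] [Field k] [Field L] [Algebra k L]
    (h2 : Module.finrank k L = 2) {F : MvPolynomial ι k} (hF : F.IsHomogeneous 3) {x : ι → L}
    (hx : x ≠ 0) (hFx : MvPolynomial.aeval x F = 0) :
    ∃ e : ι → k, e ≠ 0 ∧ MvPolynomial.eval e F = 0 :=
  cubic_quadratic h2 hF hx hFx

/-- **No point in a number field of odd degree** on `u v = x² - 5 y²`,
`(u + v) (u + 2 v) = x² - 5 z²`. -/
theorem delPezzo_no_odd_degree {L : Type*} [Field L] [NumberField L]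
    (hodd : Odd (Module.finrank ℚ L)) {u v x y z : L} (h₁ : u * v = x ^ 2 - 5 * y ^ 2)
    (h₂ : (u + v) * (u + 2 * v) = x ^ 2 - 5 * z ^ 2) :
    u = 0 ∧ v = 0 ∧ x = 0 ∧ y = 0 ∧ z = 0 := by
  by_contra hne
  obtain ⟨e, he, hA, hB⟩ := brumer (k := ℚ) (L := L) two_ne_zero hodd
    !![0, 1, 0, 0, 0; 0, 0, 0, 0, 0; 0, 0, -1, 0, 0; 0, 0, 0, 5, 0; 0, 0, 0, 0, 0]
    !![1, 3, 0, 0, 0; 0, 2, 0, 0, 0; 0, 0, -1, 0, 0; 0, 0, 0, 0, 0; 0, 0, 0, 0, 5]
    ![u, v, x, y, z] (fun h => hne (by simpa using h))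
    (by simp [quadVal, Fin.sum_univ_five]; linear_combination h₁)
    (by simp [quadVal, Fin.sum_univ_five]; linear_combination h₂)
  simp [quadVal, Fin.sum_univ_five] at hA hB
  obtain ⟨a₀, a₁, a₂, a₃, a₄⟩ := bsd_rational (u := e 0) (v := e 1) (x := e 2) (y := e 3) (z := e 4)
    ⟨by linear_combination hA, by linear_combination hB⟩
  exact he (funext fun i => by fin_cases i <;> assumption)

open MvPolynomial in
/-- **No point in a quadratic field** on `t (t + x) (t + 2 x) = N (x + y θ + z θ²)`. -/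
theorem cubicSurface_no_quadratic {L : Type*} [Field L] [Algebra ℚ L]
    (h2 : Module.finrank ℚ L = 2) {t x y z : L}
    (h : t * (t + x) * (t + 2 * x) = cubicNorm x y z) : t = 0 ∧ x = 0 ∧ y = 0 ∧ z = 0 := by
  by_contra hne
  set F : MvPolynomial (Fin 4) ℚ := X 0 * (X 0 + X 1) * (X 0 + C 2 * X 1) -
    cubicNorm (X 1) (X 2) (X 3)
  have hlin : ∀ (c : ℚ) (i : Fin 4), (C c * X i : MvPolynomial (Fin 4) ℚ).IsHomogeneous 1 :=
    fun c i => (isHomogeneous_C _ c).mul (isHomogeneous_X _ i)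
  have hm : ∀ (c : MvPolynomial (Fin 4) ℚ) (i j l : Fin 4), c.IsHomogeneous 0 →
      (c * (X i * X j * X l)).IsHomogeneous 3 := fun c i j l hc =>
    hc.mul (((isHomogeneous_X _ i).mul (isHomogeneous_X _ j)).mul (isHomogeneous_X _ l))
  have hF : F.IsHomogeneous 3 := by
    refine IsHomogeneous.sub ?_ ?_
    · exact ((isHomogeneous_X _ 0).mul ((isHomogeneous_X _ 0).add (isHomogeneous_X _ 1))).mul
        ((isHomogeneous_X _ 0).add (hlin 2 1))
    · have hn : ∀ m : ℕ, ((m : MvPolynomial (Fin 4) ℚ)).IsHomogeneous 0 := fun m => by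
        rw [← map_natCast (C : ℚ →+* MvPolynomial (Fin 4) ℚ)]
        exact isHomogeneous_C _ _
      have e : cubicNorm (X 1 : MvPolynomial (Fin 4) ℚ) (X 2) (X 3) =
          ((1 : ℕ) : MvPolynomial (Fin 4) ℚ) * (X 1 * X 1 * X 1) +
          ((7 : ℕ) : MvPolynomial (Fin 4) ℚ) * (X 1 * X 1 * X 2) +
          ((21 : ℕ) : MvPolynomial (Fin 4) ℚ) * (X 1 * X 1 * X 3) +
          ((14 : ℕ) : MvPolynomial (Fin 4) ℚ) * (X 1 * X 2 * X 2) +
          ((77 : ℕ) : MvPolynomial (Fin 4) ℚ) * (X 1 * X 2 * X 3) +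
          ((98 : ℕ) : MvPolynomial (Fin 4) ℚ) * (X 1 * X 3 * X 3) +
          ((7 : ℕ) : MvPolynomial (Fin 4) ℚ) * (X 2 * X 2 * X 2) +
          ((49 : ℕ) : MvPolynomial (Fin 4) ℚ) * (X 2 * X 2 * X 3) +
          ((98 : ℕ) : MvPolynomial (Fin 4) ℚ) * (X 2 * X 3 * X 3) +
          ((49 : ℕ) : MvPolynomial (Fin 4) ℚ) * (X 3 * X 3 * X 3) := by
        simp only [cubicNorm, Nat.cast_one, Nat.cast_ofNat]; ring
      rw [e]
      exact ((((((((hm _ 1 1 1 (hn _)).add (hm _ 1 1 2 (hn _))).add (hm _ 1 1 3 (hn _))).add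
        (hm _ 1 2 2 (hn _))).add (hm _ 1 2 3 (hn _))).add (hm _ 1 3 3 (hn _))).add
        (hm _ 2 2 2 (hn _))).add (hm _ 2 2 3 (hn _))).add (hm _ 2 3 3 (hn _)) |>.add
        (hm _ 3 3 3 (hn _))
  obtain ⟨e, he, hFe⟩ := cubic_quadratic h2 hF (x := ![t, x, y, z])
    (fun h' => hne (by simpa using h'))
    (by simp [F, cubicNorm, map_ofNat] at h ⊢; linear_combination h)
  obtain ⟨a₀, a₁, a₂, a₃⟩ := cubic_rational (t := e 0) (x := e 1) (y := e 2) (z := e 3) (by
    simp [F, cubicNorm, map_ofNat] at hFe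
    simp only [OnCubic, cubicNorm]
    linear_combination hFe)
  exact he (funext fun i => by fin_cases i <;> assumption)

end FA.AmerBrumer.Summary
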