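import Fermat.Agent.AliquotDensity.Main

/-!
# Amicable numbers have density zero (Erdős 1955)

`s n = ∑_{d ∣ n, d < n} d`.

* `FA.Summary.amicable_density_zero`: the `n` with `s n ≠ n` and `s (s n) = n` have density zero.
* `FA.Summary.aliquot_step`: `σ (s n) / s n ≥ σ n / n - ε` for almost all `n` (Erdős 1976).
* `FA.Summary.abundant_aliquot_abundant`: almost all abundant `n` have `s n` abundant.
-/

set_option autoImplicit false

noncomputable section

open Finset Filter
open scoped Topology Classical

namespace FA.Summary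

/-- **The amicable numbers have density zero.** -/
theorem amicable_density_zero :
    Tendsto (fun N : ℕ => (#((Icc 1 N).filter fun n : ℕ =>
      (∑ d ∈ n.properDivisors, d) ≠ n ∧
        (∑ d ∈ (∑ e ∈ n.properDivisors, e).properDivisors, d) = n) : ℝ) / N) atTop (𝓝 0) :=
  FA.AliquotDensity.tendsto_amicable

/-- **One step of the aliquot sequence hardly decreases `σ n / n`**, for almost all `n`. -/
theorem aliquot_step {ε : ℝ} (hε : 0 < ε) :
    Tendsto (fun N : ℕ => (#((Icc 1 N).filter fun n : ℕ =>
      (∑ d ∈ (∑ e ∈ n.properDivisors, e).divisors, (d : ℝ)) /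
          (∑ e ∈ n.properDivisors, e : ℕ) + ε <
        (∑ d ∈ n.divisors, (d : ℝ)) / n) : ℝ) / N) atTop (𝓝 0) :=
  FA.AliquotDensity.tendsto_step hε

/-- **Almost all abundant numbers have an abundant aliquot sum.** -/
theorem abundant_aliquot_abundant :
    Tendsto (fun N : ℕ => (#((Icc 1 N).filter fun n : ℕ =>
      n.Abundant ∧ ¬ (∑ d ∈ n.properDivisors, d).Abundant) : ℝ) / N) atTop (𝓝 0) :=
  FA.AliquotDensity.tendsto_abundant_not_abundant

end FA.Summary
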