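import Fermat.Agent.AnalyticDeterminacy.Game

/-!
# Analytic determinacy from a measurable cardinal (R1769)

Martin's theorem of 1970.  The large cardinal hypothesis is explicit in every statement: either a
measurable cardinal, or the nonprincipal countably complete ultrafilter which one provides.
-/

set_option autoImplicit false

universe u w

namespace FA.AnalyticDeterminacy

open Set Filter MeasureTheory Determinacy Cardinal

/-- A measurable cardinal: uncountable, with a nonprincipal ultrafilter on it which is closed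
under intersections of fewer sets. -/
def IsMeasurableCardinal (κ : Cardinal.{w}) : Prop :=
  ℵ₀ < κ ∧ ∃ U : Ultrafilter κ.out, (∀ a, {a} ∉ U) ∧
    ∀ S : Set (Set κ.out), #S < κ → (∀ s ∈ S, s ∈ U) → ⋂₀ S ∈ U

theorem IsMeasurableCardinal.exists_ultrafilter {κ : Cardinal.{w}} (h : IsMeasurableCardinal κ) :
    ∃ (K : Type w) (U : Ultrafilter K),
      (∀ a, {a} ∉ U) ∧ CountableInterFilter (U : Filter K) := by
  obtain ⟨hκ, U, hU, hc⟩ := h
  exact ⟨_, U, hU, ⟨fun S hS hs => hc S (hS.le_aleph0.trans_lt hκ) hs⟩⟩

variable {A : Type u} [TopologicalSpace A] [DiscreteTopology A] [Countable A] [Nonempty A]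

/-- Analytic games are determined if there is a nonprincipal countably complete ultrafilter. -/
theorem determined_of_ultrafilter {K : Type w} (U : Ultrafilter K)
    [CountableInterFilter (U : Filter K)] (hU : ∀ a, {a} ∉ U) {X : Set (ℕ → A)}
    (hX : AnalyticSet X ∨ AnalyticSet Xᶜ) : Determined (GameTree.univ A) X := by
  classical
  let _ : LinearOrder K := linearOrderOfSTO WellOrderingRel
  have : WellFoundedLT K := ⟨(WellOrderingRel.isWellOrder (α := K)).wf⟩
  rcases hX with hX | hX
  · obtain ⟨Q, hQ⟩ := exists_order_scheme hX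
    exact determined_of_kbRel hU Q false fun x => by simp [hQ x]
  · obtain ⟨Q, hQ⟩ := exists_order_scheme hX
    exact determined_of_kbRel hU Q true fun x => by simpa using (not_congr (hQ x))

/-- **Martin: analytic determinacy from a measurable cardinal.** If a measurable cardinal exists,
then in each game of length `ω` with countably many possible moves and analytic payoff one of the
players has a winning strategy: player I (`P = true`) wins the plays inside. -/
theorem analytic_determinacy (hM : ∃ κ : Cardinal.{w}, IsMeasurableCardinal κ) {X : Set (ℕ → A)}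
    (hX : AnalyticSet X) :
    ∃ (P : Bool) (σ : List A → A), ∀ x : ℕ → A,
      (∀ n, Moves P n → x n = σ ((List.range n).map x)) → (x ∈ X ↔ P = true) := by
  obtain ⟨κ, hκ⟩ := hM
  obtain ⟨K, U, hU, hc⟩ := hκ.exists_ultrafilter
  obtain ⟨P, σ, -, h⟩ := determined_of_ultrafilter U hU (.inl hX)
  exact ⟨P, σ, fun x hx => h x (by rw [GameTree.body_univ]; trivial) hx⟩

/-- **Coanalytic determinacy from a measurable cardinal.** -/
theorem coanalytic_determinacy (hM : ∃ κ : Cardinal.{w}, IsMeasurableCardinal κ)
    {X : Set (ℕ → A)} (hX : AnalyticSet Xᶜ) :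
    ∃ (P : Bool) (σ : List A → A), ∀ x : ℕ → A,
      (∀ n, Moves P n → x n = σ ((List.range n).map x)) → (x ∈ X ↔ P = true) := by
  obtain ⟨κ, hκ⟩ := hM
  obtain ⟨K, U, hU, hc⟩ := hκ.exists_ultrafilter
  obtain ⟨P, σ, -, h⟩ := determined_of_ultrafilter U hU (.inr hX)
  exact ⟨P, σ, fun x hx => h x (by rw [GameTree.body_univ]; trivial) hx⟩

/-- The case of Baire space. -/
theorem analytic_determinacy_baire (hM : ∃ κ : Cardinal.{w}, IsMeasurableCardinal κ)
    {X : Set (ℕ → ℕ)} (hX : AnalyticSet X) :
    ∃ (P : Bool) (σ : List ℕ → ℕ), ∀ x : ℕ → ℕ,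
      (∀ n, Moves P n → x n = σ ((List.range n).map x)) → (x ∈ X ↔ P = true) :=
  analytic_determinacy hM hX

end FA.AnalyticDeterminacy
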