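import Fermat.Agent.Root.SummaryAndersonModel
import Fermat.Agent.AndersonHolder.Exponent

/-!
# Le Page's theorem: the exponent of the Anderson model is Hölder

Potentials, law `ρ` and transfer matrices are those of `SummaryAndersonModel`.  The distance of
two lines is the sine of their angle.

* `uniform_contraction`: near every energy one power of the distance contracts at one geometric
  rate along the transfer products;
* `stationary_holder`: near every energy the stationary means of a function Hölder on projective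
  space are Hölder in the energy;
* `exponent_holder`: on every bounded interval the Lyapunov exponent is Hölder.

The exponents are not computed; the integrated density of states is not treated.
-/

set_option autoImplicit false

noncomputable section

namespace FA.AndersonHolder.Summary

open MeasureTheory ProbabilityTheory Filter Topology Module Metric
open FA.FurstenbergLyapunov FA.FurstenbergLyapunov.Summary FA.FurstenbergKifer
open FA.GuivarchRaugi FA.LePage FA.LePage.Summary FA.AndersonModel FA.AndersonModel.Summary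
open FA.AndersonHolder
open scoped RealInnerProductSpace BoundedContinuousFunction

variable {ρ : Measure ℝ} [IsProbabilityMeasure ρ] {ε : ℝ}

/-- **Uniform contraction.** -/
theorem uniform_contraction (hρ : ∀ a, ρ ≠ Measure.dirac a) (hε : 0 < ε)
    (hmom : Integrable (fun v : ℝ => |v| ^ ε) ρ) (e₀ : ℝ) :
    ∃ δ α C r : ℝ, 0 < δ ∧ 0 < α ∧ 0 < r ∧ r < 1 ∧
      ∀ e ∈ ball e₀ δ, ∀ (n : ℕ) (v w : sphere (0 : Plane) 1),
        ∫ x, Real.sqrt (1 - ⟪(act (randProd n x) v : Plane),
            (act (randProd n x) w : Plane)⟫ ^ 2) ^ α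
            ∂(Measure.infinitePi fun _ : ℕ => ρ.map (transfer e)) ≤
          C * r ^ n * Real.sqrt (1 - ⟪(v : Plane), (w : Plane)⟫ ^ 2) ^ α := by
  obtain ⟨δ, α, C, r, hδ, hα, -, -, hr, hr1, h⟩ :=
    exists_uniform_contraction hρ hε hmom e₀ one_pos
  simp only [Contracts, sineDist_eq] at h
  exact ⟨δ, α, C, r, hδ, hα, hr, hr1, h⟩

/-- **The stationary means are Hölder in the energy.** -/
theorem stationary_holder (hρ : ∀ a, ρ ≠ Measure.dirac a) (hε : 0 < ε)
    (hmom : Integrable (fun v : ℝ => |v| ^ ε) ρ) (e₀ : ℝ) :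
    ∃ δ α C : ℝ, 0 < δ ∧ 0 < α ∧ ∀ e ∈ ball e₀ δ, ∀ e' ∈ ball e₀ δ,
      ∀ ν ν' : Measure (sphere (0 : Plane) 1), IsProbabilityMeasure ν → IsProbabilityMeasure ν' →
        ((ρ.map (transfer e)).prod ν).map (fun p => act p.1 p.2) = ν →
        ((ρ.map (transfer e')).prod ν').map (fun p => act p.1 p.2) = ν' →
        ∀ (φ : sphere (0 : Plane) 1 →ᵇ ℝ) (L : ℝ), 0 ≤ L →
          (∀ v w, |φ v - φ w| ≤ L * Real.sqrt (1 - ⟪(v : Plane), (w : Plane)⟫ ^ 2) ^ α) →
          |(∫ v, φ v ∂ν) - ∫ v, φ v ∂ν'| ≤ C * L * |e - e'| ^ α := by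
  set d : ℝ := ((finrank ℝ Plane : ℕ) : ℝ) with hddef
  have hd0 : 0 ≤ d := Nat.cast_nonneg _
  obtain ⟨δ, α, C, r, hδ, hα, hαle, hC, hr, hr1, hc⟩ := exists_uniform_contraction hρ hε hmom e₀
    (α₀ := min 1 (ε / (d + 1))) (lt_min one_pos (by positivity))
  have hαd : α * (d + 1) ≤ ε := by
    have h := hαle.trans (min_le_right _ _)
    rwa [le_div_iff₀ (by positivity)] at h
  obtain ⟨K, -, hK⟩ := exists_stationary_holder (ρ := ρ) hε hmom hα
    (hαle.trans (min_le_left _ _)) hαd hC hr.le hr1 (R := |e₀| + δ)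
  have hR : ∀ e ∈ ball e₀ δ, |e| ≤ |e₀| + δ := fun e he => by
    have h1 : |e - e₀| < δ := by simpa [Metric.mem_ball, Real.dist_eq] using he
    linarith [abs_sub_abs_le_abs_sub e e₀]
  refine ⟨δ, α, K, hδ, hα, fun e he e' he' ν ν' h1 h2 hν hν' φ L hL hφ => ?_⟩
  refine (hK e e' (hR e he) (hR e' he') (hc e' he') ν ν' h1 h2 hν hν' φ L hL
    (fun v w => by rw [sineDist_eq]; exact hφ v w)).trans_eq ?_
  ring

variable {Ω : Type*} [MeasurableSpace Ω] {P : Measure Ω} [IsProbabilityMeasure P]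
  {V : ℕ → Ω → ℝ}

/-- **Le Page's theorem.** -/
theorem exponent_holder (hρ : ∀ a, ρ ≠ Measure.dirac a) (hε : 0 < ε)
    (hmom : Integrable (fun v : ℝ => |v| ^ ε) ρ) (hV : ∀ i, Measurable (V i))
    (hind : iIndepFun V P) (hlaw : ∀ i, P.map (V i) = ρ) {γ : ℝ → ℝ}
    (hγ : ∀ e, ∀ᵐ ω ∂P, Tendsto
      (fun n : ℕ => Real.log ‖randProd n (fun i => transfer e (V i ω))‖ / n) atTop (𝓝 (γ e)))
    (R : ℝ) :
    ∃ α C : ℝ, 0 < α ∧ ∀ e ∈ Set.Icc (-R) R, ∀ e' ∈ Set.Icc (-R) R,
      |γ e - γ e'| ≤ C * |e - e'| ^ α := by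
  obtain ⟨γ₀, -, h₀⟩ := exists_exponent_fun hρ hε hmom
  refine exists_holder_on hρ hε hmom (fun e => ?_) R
  have hX : ∀ i, Measurable fun ω => transfer e (V i ω) := fun i =>
    (measurable_transfer e).comp (hV i)
  have hm : Measurable fun ω i => transfer e (V i ω) := measurable_pi_iff.2 hX
  have hseq := map_seq hX (hind.comp (fun _ => transfer e) fun _ => measurable_transfer e)
    (law_transfer hV hlaw e)
  have h := (h₀ e).2
  have h' := ae_of_ae_map hm.aemeasurable (hseq.symm ▸ h)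
  obtain ⟨ω, hω, hω'⟩ := ((hγ e).and h').exists
  rw [tendsto_nhds_unique hω hω']
  exact h

end FA.AndersonHolder.Summary
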