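import Fermat.Agent.Root.SummaryGuivarchRaugi
import Fermat.Agent.ProjectiveRegularity.Regularity

/-!
# Large deviations and regularity of the stationary measure

Let `X 0, X 1, ...` be independent operators of a Euclidean space of dimension at least `2` with
common law `μ`, almost surely of determinant `±1`, strongly irreducible and proximal in the sense
of `SummaryGuivarchRaugi`, with `‖A‖ ^ ε` integrable for some `ε > 0`, and
`Q n = X (n - 1) * ... * X 0`.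

* `large_deviation` (Le Page): outside exponentially small events `log ‖Q n v‖` and `log ‖Q n‖`
  are within `η n` of `γ n`, and the second singular value is below the norm by the gap of the two
  exponents less `η`;
* `hyperplane_deviation`: the direction of `Q n v` is `exp (-η n)` near a given hyperplane only
  with exponentially small probability, uniformly in the direction and the hyperplane;
* `stationary_regularity` (Guivarc'h): every stationary measure gives the `r` neighbourhood of a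
  hyperplane mass at most `C * r ^ α`, and integrates a negative power of the distance to it.

No rate function is computed.
-/

set_option autoImplicit false

noncomputable section

namespace FA.ProjectiveRegularity.Summary

open MeasureTheory ProbabilityTheory Filter Topology Module Metric
open FA.FurstenbergLyapunov FA.FurstenbergLyapunov.Summary FA.FurstenbergKifer
open FA.GuivarchRaugi FA.GuivarchRaugi.Summary FA.LePage FA.ProjectiveRegularity
open scoped RealInnerProductSpace ENNReal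

/-- Decay written with an exponential. -/
theorem exists_exp_rate {ι : Sort*} {p : ι → ℕ → ℝ≥0∞} (h : Decays p) :
    ∃ C c : ℝ, 0 < c ∧ ∀ i (n : ℕ), p i n ≤ ENNReal.ofReal (C * Real.exp (-(c * n))) := by
  obtain ⟨C, r, -, hr, hr1, hb⟩ := h
  refine ⟨C, -Real.log r, neg_pos.2 (Real.log_neg hr hr1), fun i n => (hb i n).trans_eq ?_⟩
  rw [← neg_mul, neg_neg, Real.exp_mul, Real.exp_log hr, Real.rpow_natCast]

variable {E : Type*} [NormedAddCommGroup E] [InnerProductSpace ℝ E] [FiniteDimensional ℝ E]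
  [MeasurableSpace E] [BorelSpace E] [Nontrivial E]
  {μ : Measure (E →L[ℝ] E)} [IsProbabilityMeasure μ] {ε : ℝ}
  {Ω : Type*} [MeasurableSpace Ω] {P : Measure Ω} [IsProbabilityMeasure P]
  {X : ℕ → Ω → E →L[ℝ] E} {Q : ℕ → Ω → E →L[ℝ] E}

omit [FiniteDimensional ℝ E] [MeasurableSpace E] [BorelSpace E] [Nontrivial E]
  [IsProbabilityMeasure μ] in
theorem measure_le_seq (hX : ∀ i, Measurable (X i)) (hind : iIndepFun X P)
    (hlaw : ∀ i, P.map (X i) = μ) (hQ0 : ∀ ω, Q 0 ω = 1)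
    (hQ : ∀ n ω, Q (n + 1) ω = X n ω * Q n ω) (n : ℕ) (S : Set (E →L[ℝ] E)) :
    P {ω | Q n ω ∈ S} ≤ (Measure.infinitePi fun _ : ℕ => μ) {x | randProd n x ∈ S} := by
  rw [← map_seq hX hind hlaw]
  refine le_trans (le_of_eq ?_)
    (Measure.le_map_apply (measurable_pi_iff.2 hX).aemeasurable {x | randProd n x ∈ S})
  simp only [prod_eq hQ0 hQ]
  rfl

/-- **Large deviations.** -/
theorem large_deviation (hd : 2 ≤ finrank ℝ E) (hX : ∀ i, Measurable (X i))
    (hind : iIndepFun X P) (hlaw : ∀ i, P.map (X i) = μ) (hdet : ∀ᵐ A ∂μ, |A.det| = 1)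
    (hirr : ¬ ∃ F : Finset (Submodule ℝ E), F.Nonempty ∧ (∀ W ∈ F, W ≠ ⊥ ∧ W ≠ ⊤) ∧
      ∀ A ∈ μ.support, ∀ W ∈ F, W.map (A : E →ₗ[ℝ] E) ∈ F)
    (hprox : ∃ (A : ℕ → E →L[ℝ] E) (R : E →L[ℝ] E), (∀ j, A j ∈ Submonoid.closure μ.support) ∧
      Tendsto (fun j => ‖A j‖⁻¹ • A j) atTop (𝓝 R) ∧
      finrank ℝ (LinearMap.range (R : E →ₗ[ℝ] E)) = 1)
    (hε : 0 < ε) (hexp : Integrable (fun A : E →L[ℝ] E => ‖A‖ ^ ε) μ)
    (hQ0 : ∀ ω, Q 0 ω = 1) (hQ : ∀ n ω, Q (n + 1) ω = X n ω * Q n ω) :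
    ∃ γ l : ℝ, l < γ ∧ 0 < γ ∧
      (∀ᵐ ω ∂P, Tendsto (fun n : ℕ => Real.log ‖Q n ω‖ / n) atTop (𝓝 γ) ∧
        Tendsto (fun n : ℕ => Real.log ((Q n ω : E →ₗ[ℝ] E).singularValues 1) / n) atTop (𝓝 l)) ∧
      ∀ η > 0, ∃ C c : ℝ, 0 < c ∧ ∀ n : ℕ,
        (∀ v : E, ‖v‖ = 1 → P {ω | (n : ℝ) * η ≤ |Real.log ‖Q n ω v‖ - n * γ|} ≤
          ENNReal.ofReal (C * Real.exp (-(c * n)))) ∧
        P {ω | (n : ℝ) * η ≤ |Real.log ‖Q n ω‖ - n * γ|} ≤
          ENNReal.ofReal (C * Real.exp (-(c * n))) ∧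
        P {ω | -((γ - l - η) * n) ≤
            Real.log ((Q n ω : E →ₗ[ℝ] E).singularValues 1) - Real.log ‖Q n ω‖} ≤
          ENNReal.ofReal (C * Real.exp (-(c * n))) := by
  have hp := proximal_of_finrank_range hprox
  have hm : Measurable fun ω i => X i ω := measurable_pi_iff.2 hX
  obtain ⟨γ, l, hlγ, hγ0, hγ, hl⟩ :=
    exists_simple_exponent μ hd hdet hirr hp (integrable_log_norm hdet hε hexp)
  refine ⟨γ, l, hlγ, hγ0, ?_, fun η hη => ?_⟩
  · have h := hγ.and hl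
    rw [← map_seq hX hind hlaw] at h
    filter_upwards [ae_of_ae_map hm.aemeasurable h] with ω hω
    simp only [prod_eq hQ0 hQ]
    exact hω
  set π := Measure.infinitePi fun _ : ℕ => μ
  have h1 := decays_apply hdet hirr hε hexp hγ hη
  have h2 : Decays fun (_ : Unit) n =>
      π {x | (n : ℝ) * η ≤ |Real.log ‖randProd n x‖ - n * γ|} := by
    refine ((decays_norm hd hdet hirr hp hε hexp hγ hη).add
      (h1.comp fun _ : Unit => basePoint E)).mono fun _ n => ?_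
    refine (measure_mono_ae ?_).trans (measure_union_le _ _)
    filter_upwards [ae_all_unitDet μ hdet] with x hx
      (hev : (n : ℝ) * η ≤ |Real.log ‖randProd n x‖ - n * γ|)
    have hQn := randProd_mem_unitDet hx n
    have h3 : Real.log ‖randProd n x (basePoint E : E)‖ ≤ Real.log ‖randProd n x‖ :=
      Real.log_le_log (norm_pos_iff.2 (apply_ne_zero hQn (sph_ne_zero _)))
        (((randProd n x).le_opNorm _).trans_eq (by rw [norm_eq_of_mem_sphere, mul_one]))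
    rcases le_abs.1 hev with h | h
    · refine Or.inl ?_
      show (n : ℝ) * (γ + η) ≤ _
      linarith
    · refine Or.inr ?_
      show (n : ℝ) * η ≤ |_|
      exact le_trans (by linarith) (neg_le_abs _)
  obtain ⟨C, c, hc, hb⟩ := exists_exp_rate ((h1.comp (fun p : Sph E × Unit => p.1)).add
    ((h2.comp (fun p : Sph E × Unit => p.2)).add
      ((decays_gap hd hdet hirr hε hexp hγ hl hη).comp (fun p : Sph E × Unit => p.2))))
  refine ⟨C, c, hc, fun n => ⟨fun v hv => ?_, ?_, ?_⟩⟩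
  · exact ((measure_le_seq hX hind hlaw hQ0 hQ n
      {A | (n : ℝ) * η ≤ |Real.log ‖A v‖ - n * γ|}).trans le_self_add).trans
        (hb (⟨v, mem_sphere_zero_iff_norm.2 hv⟩, ()) n)
  · exact ((measure_le_seq hX hind hlaw hQ0 hQ n
      {A | (n : ℝ) * η ≤ |Real.log ‖A‖ - n * γ|}).trans (le_self_add.trans le_add_self)).trans
        (hb (basePoint E, ()) n)
  · exact ((measure_le_seq hX hind hlaw hQ0 hQ n
      {A | -((γ - l - η) * n) ≤
        Real.log ((A : E →ₗ[ℝ] E).singularValues 1) - Real.log ‖A‖}).trans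
        (le_add_self.trans le_add_self)).trans (hb (basePoint E, ()) n)

/-- **The walk avoids hyperplanes.** -/
theorem hyperplane_deviation (hd : 2 ≤ finrank ℝ E) (hX : ∀ i, Measurable (X i))
    (hind : iIndepFun X P) (hlaw : ∀ i, P.map (X i) = μ) (hdet : ∀ᵐ A ∂μ, |A.det| = 1)
    (hirr : ¬ ∃ F : Finset (Submodule ℝ E), F.Nonempty ∧ (∀ W ∈ F, W ≠ ⊥ ∧ W ≠ ⊤) ∧
      ∀ A ∈ μ.support, ∀ W ∈ F, W.map (A : E →ₗ[ℝ] E) ∈ F)
    (hprox : ∃ (A : ℕ → E →L[ℝ] E) (R : E →L[ℝ] E), (∀ j, A j ∈ Submonoid.closure μ.support) ∧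
      Tendsto (fun j => ‖A j‖⁻¹ • A j) atTop (𝓝 R) ∧
      finrank ℝ (LinearMap.range (R : E →ₗ[ℝ] E)) = 1)
    (hε : 0 < ε) (hexp : Integrable (fun A : E →L[ℝ] E => ‖A‖ ^ ε) μ)
    (hQ0 : ∀ ω, Q 0 ω = 1) (hQ : ∀ n ω, Q (n + 1) ω = X n ω * Q n ω) :
    ∀ η > 0, ∃ C c : ℝ, 0 < c ∧ ∀ (n : ℕ) (v y : sphere (0 : E) 1),
      P {ω | |⟪(y : E), (act (Q n ω) v : E)⟫| ≤ Real.exp (-(η * n))} ≤
        ENNReal.ofReal (C * Real.exp (-(c * n))) := by
  intro η hη
  obtain ⟨C, c, hc, hb⟩ := exists_exp_rate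
    (decays_hyperplane hd hdet hirr (proximal_of_finrank_range hprox) hε hexp hη)
  exact ⟨C, c, hc, fun n v y => (measure_le_seq hX hind hlaw hQ0 hQ n
    {A | |⟪(y : E), (act A v : E)⟫| ≤ Real.exp (-(η * n))}).trans (hb (y, v) n)⟩

omit [MeasurableSpace Ω] in
/-- **Guivarc'h's regularity theorem.** -/
theorem stationary_regularity (hd : 2 ≤ finrank ℝ E) (hdet : ∀ᵐ A ∂μ, |A.det| = 1)
    (hirr : ¬ ∃ F : Finset (Submodule ℝ E), F.Nonempty ∧ (∀ W ∈ F, W ≠ ⊥ ∧ W ≠ ⊤) ∧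
      ∀ A ∈ μ.support, ∀ W ∈ F, W.map (A : E →ₗ[ℝ] E) ∈ F)
    (hprox : ∃ (A : ℕ → E →L[ℝ] E) (R : E →L[ℝ] E), (∀ j, A j ∈ Submonoid.closure μ.support) ∧
      Tendsto (fun j => ‖A j‖⁻¹ • A j) atTop (𝓝 R) ∧
      finrank ℝ (LinearMap.range (R : E →ₗ[ℝ] E)) = 1)
    (hε : 0 < ε) (hexp : Integrable (fun A : E →L[ℝ] E => ‖A‖ ^ ε) μ) :
    ∃ α β C M : ℝ, 0 < α ∧ 0 < β ∧ ∀ ν : Measure (sphere (0 : E) 1), IsProbabilityMeasure ν →
      (μ.prod ν).map (fun p => act p.1 p.2) = ν → ∀ y : sphere (0 : E) 1,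
        (∀ r > 0, ν {w : sphere (0 : E) 1 | |⟪(y : E), (w : E)⟫| ≤ r} ≤
          ENNReal.ofReal (C * r ^ α)) ∧
        ν {w : sphere (0 : E) 1 | ⟪(y : E), (w : E)⟫ = 0} = 0 ∧
        ∫⁻ w : sphere (0 : E) 1, ENNReal.ofReal (|⟪(y : E), (w : E)⟫| ^ (-β)) ∂ν ≤
          ENNReal.ofReal M := by
  have hp := proximal_of_finrank_range hprox
  obtain ⟨α, C, hα, -, h1⟩ := exists_regularity hd hdet hirr hp hε hexp
  obtain ⟨β, M, hβ, h2⟩ := exists_negative_moment hd hdet hirr hp hε hexp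
  exact ⟨α, β, C, M, hα, hβ, fun ν hν₁ hν y =>
    ⟨fun r hr => h1 ν hν₁ hν y r hr, h2 ν hν₁ hν y⟩⟩

end FA.ProjectiveRegularity.Summary
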