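import Fermat.Agent.Root.SummaryLePage
import Fermat.Agent.Root.SummaryProjectiveRegularity
import Fermat.Agent.AndersonModel.Solution

/-!
# The one-dimensional Anderson model

Let `V 0, V 1, ...` be independent real potentials of common law `ρ`, not a point mass, with
`|v| ^ ε` integrable for some `ε > 0`, and for an energy `e` let `T e v` be the transfer matrix
`(e - v, -1; 1, 0)` of the equation `u (n + 2) + u n + V n * u (n + 1) = e * u (n + 1)`.

* `anderson_irreducible`: at every energy the law of the transfer matrices is strongly irreducible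
  and generates an unbounded semigroup;
* `anderson_exponent`: the Lyapunov exponent is positive and continuous in the energy, and for
  each energy almost surely a given nonzero initial datum gives a solution growing at that rate,
  so neither bounded nor square summable;
* `anderson_deviation`: the logarithm of the norm of the transfer products satisfies the central
  limit theorem, with positive variance if `|e - a| ≤ 2` for some `a` in the support, and large
  deviation bounds; the stationary measures are Hölder regular.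

Localisation is not proved: the statements concern one energy at a time.
-/

set_option autoImplicit false

noncomputable section

namespace FA.AndersonModel.Summary

open MeasureTheory ProbabilityTheory Filter Topology Module Metric
open FA.FurstenbergLyapunov FA.FurstenbergLyapunov.Summary FA.FurstenbergKifer
open FA.GuivarchRaugi FA.GuivarchRaugi.Summary FA.LePage FA.AndersonModel
open scoped RealInnerProductSpace ENNReal NNReal

/-- The transfer matrix is the one of the statement. -/
theorem transfer_spec (e v x y : ℝ) :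
    transfer e v (pairVec x y) = pairVec ((e - v) * x - y) x := by
  obtain ⟨h0, h1⟩ := transfer_apply e v (pairVec x y)
  obtain ⟨p0, p1⟩ := pairVec_apply x y
  obtain ⟨q0, q1⟩ := pairVec_apply ((e - v) * x - y) x
  ext i
  fin_cases i
  · exact h0.trans (by rw [p0, p1]; exact q0.symm)
  · exact h1.trans (by rw [p0]; exact q1.symm)

theorem finrank_range_of_proximal {S : Set (Plane →L[ℝ] Plane)} (hS : S ⊆ unitDet Plane)
    (h : Proximal S) : ∃ (A : ℕ → Plane →L[ℝ] Plane) (R : Plane →L[ℝ] Plane),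
      (∀ j, A j ∈ Submonoid.closure S) ∧ Tendsto (fun j => ‖A j‖⁻¹ • A j) atTop (𝓝 R) ∧
      finrank ℝ (LinearMap.range (R : Plane →ₗ[ℝ] Plane)) = 1 := by
  obtain ⟨A, R, hA, hR, hline⟩ := h
  refine ⟨A, R, hA, hR, finrank_range_of_isLine hline fun h0 => ?_⟩
  have h1 : Tendsto (fun _ : ℕ => (1 : ℝ)) atTop (𝓝 ‖R‖) := by
    refine hR.norm.congr fun j => ?_
    have hj : A j ∈ unitDet Plane := Submonoid.closure_induction
      (motive := fun B _ => B ∈ unitDet Plane) (fun B hB => hS hB) one_mem_unitDet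
      (fun _ _ _ _ h1 h2 => mul_mem_unitDet h1 h2) (hA j)
    rw [norm_smul, norm_inv, norm_norm, inv_mul_cancel₀ (one_pos.trans_le (one_le_norm hj)).ne']
  rw [h0, norm_zero] at h1
  exact one_ne_zero (tendsto_nhds_unique tendsto_const_nhds h1)

variable {ρ : Measure ℝ} [IsProbabilityMeasure ρ] {ε : ℝ}

/-- **Irreducibility and unboundedness at every energy.** -/
theorem anderson_irreducible (hρ : ∀ a, ρ ≠ Measure.dirac a) (e : ℝ) :
    (¬ ∃ F : Finset (Submodule ℝ Plane), F.Nonempty ∧ (∀ W ∈ F, W ≠ ⊥ ∧ W ≠ ⊤) ∧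
      ∀ A ∈ (ρ.map (transfer e)).support, ∀ W ∈ F, W.map (A : Plane →ₗ[ℝ] Plane) ∈ F) ∧
    ∀ M : ℝ, ∃ A ∈ Submonoid.closure (ρ.map (transfer e)).support, M < ‖A‖ :=
  ⟨transferLaw_irreducible hρ, transferLaw_unbounded hρ⟩

variable {Ω : Type*} [MeasurableSpace Ω] {P : Measure Ω} [IsProbabilityMeasure P]
  {V : ℕ → Ω → ℝ}

omit [IsProbabilityMeasure ρ] [IsProbabilityMeasure P] in
theorem law_transfer (hV : ∀ i, Measurable (V i)) (hlaw : ∀ i, P.map (V i) = ρ) (e : ℝ) (i : ℕ) :
    P.map (fun ω => transfer e (V i ω)) = transferLaw ρ e := by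
  rw [transferLaw, ← hlaw i, Measure.map_map (measurable_transfer e) (hV i)]
  rfl

/-- **The exponent of the Anderson model.** -/
theorem anderson_exponent (hρ : ∀ a, ρ ≠ Measure.dirac a) (hε : 0 < ε)
    (hmom : Integrable (fun v : ℝ => |v| ^ ε) ρ) (hV : ∀ i, Measurable (V i))
    (hind : iIndepFun V P) (hlaw : ∀ i, P.map (V i) = ρ) :
    ∃ γ : ℝ → ℝ, Continuous γ ∧ ∀ e : ℝ, 0 < γ e ∧
      (∀ᵐ ω ∂P, Tendsto
        (fun n : ℕ => Real.log ‖randProd n (fun i => transfer e (V i ω))‖ / n) atTop (𝓝 (γ e))) ∧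
      ∀ (a b : ℝ), a ≠ 0 ∨ b ≠ 0 → ∀ u : ℕ → Ω → ℝ, (∀ ω, u 0 ω = a ∧ u 1 ω = b) →
        (∀ n ω, u (n + 2) ω + u n ω + V n ω * u (n + 1) ω = e * u (n + 1) ω) →
        ∀ᵐ ω ∂P,
          Tendsto (fun n : ℕ => Real.log (|u n ω| + |u (n + 1) ω|) / n) atTop (𝓝 (γ e)) ∧
          (¬ ∃ B : ℝ, ∀ n, |u n ω| ≤ B) ∧ ¬ Summable fun n => u n ω ^ 2 := by
  obtain ⟨γ, hγc, hγ⟩ := exists_exponent_fun hρ hε hmom
  refine ⟨γ, hγc, fun e => ?_⟩
  obtain ⟨hγ0, hlim⟩ := hγ e
  have hX : ∀ i, Measurable fun ω => transfer e (V i ω) := fun i =>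
    (measurable_transfer e).comp (hV i)
  have hm : Measurable fun ω i => transfer e (V i ω) := measurable_pi_iff.2 hX
  have hseq := map_seq hX (hind.comp (fun _ => transfer e) fun _ => measurable_transfer e)
    (law_transfer hV hlaw e)
  refine ⟨hγ0, ae_of_ae_map hm.aemeasurable (hseq.symm ▸ hlim), fun a b hab u hu0 hu => ?_⟩
  have hne : pairVec b a ≠ 0 := fun h => by
    obtain ⟨p0, p1⟩ := pairVec_apply b a
    rw [h] at p0 p1
    simp at p0 p1
    rcases hab with h' | h'
    · exact h' p1.symm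
    · exact h' p0.symm
  have hgrow := tendsto_log_apply (transferLaw ρ e) (transferLaw_ae ρ e)
    (transferLaw_irreducible hρ) (integrable_log_norm (transferLaw_ae ρ e) hε
      (transferLaw_expMoment hε.le hmom)) hlim hne
  rw [← hseq] at hgrow
  filter_upwards [ae_of_ae_map hm.aemeasurable hgrow] with ω hω
  obtain ⟨ha, hb⟩ := hu0 ω
  have hstate := fun n => randProd_pairVec (e := e) (v := fun i => V i ω) (u := fun i => u i ω)
    (fun i => hu i ω) n
  simp only [hb, ha] at hstate
  have hnz : ∀ n, randProd n (fun i => transfer e (V i ω)) (pairVec b a) ≠ 0 := fun n =>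
    apply_ne_zero (randProd_mem_unitDet (fun i => transfer_mem_unitDet e (V i ω)) n) hne
  have h1 : Tendsto (fun n : ℕ => Real.log (|u n ω| + |u (n + 1) ω|) / n) atTop (𝓝 (γ e)) := by
    refine (tendsto_log_abs_add hnz hω).congr fun n => ?_
    rw [hstate n, (pairVec_apply _ _).1, (pairVec_apply _ _).2, add_comm]
  exact ⟨h1, not_bounded_of_rate hγ0 h1⟩

/-- **Central limit theorem, large deviations and regularity.** -/
theorem anderson_deviation (hρ : ∀ a, ρ ≠ Measure.dirac a) (hε : 0 < ε)
    (hmom : Integrable (fun v : ℝ => |v| ^ ε) ρ) (hV : ∀ i, Measurable (V i))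
    (hind : iIndepFun V P) (hlaw : ∀ i, P.map (V i) = ρ) (e : ℝ) :
    ∃ (γ : ℝ) (σ2 : ℝ≥0), 0 < γ ∧
      (∀ᵐ ω ∂P, Tendsto
        (fun n : ℕ => Real.log ‖randProd n (fun i => transfer e (V i ω))‖ / n) atTop (𝓝 γ)) ∧
      TendstoInDistribution (fun (n : ℕ) ω =>
          (Real.log ‖randProd n (fun i => transfer e (V i ω))‖ - n * γ) / Real.sqrt n) atTop id
        (fun _ => P) (gaussianReal 0 σ2) ∧
      ((∃ a ∈ ρ.support, |e - a| ≤ 2) → 0 < σ2) ∧
      (∀ η > 0, ∃ C c : ℝ, 0 < c ∧ ∀ n : ℕ,
        P {ω | (n : ℝ) * η ≤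
            |Real.log ‖randProd n (fun i => transfer e (V i ω))‖ - n * γ|} ≤
          ENNReal.ofReal (C * Real.exp (-(c * n)))) ∧
      ∃ α C : ℝ, 0 < α ∧ ∀ ν : Measure (sphere (0 : Plane) 1), IsProbabilityMeasure ν →
        ((ρ.map (transfer e)).prod ν).map (fun p => act p.1 p.2) = ν →
        ∀ y : sphere (0 : Plane) 1, ∀ r > 0,
          ν {w : sphere (0 : Plane) 1 | |⟪(y : Plane), (w : Plane)⟫| ≤ r} ≤
            ENNReal.ofReal (C * r ^ α) := by
  set μ := transferLaw ρ e
  have hd : 2 ≤ finrank ℝ Plane := (finrank_euclideanSpace_fin (n := 2)).ge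
  have hX : ∀ i, Measurable fun ω => transfer e (V i ω) := fun i =>
    (measurable_transfer e).comp (hV i)
  have hindX := hind.comp (fun _ => transfer e) fun _ => measurable_transfer e
  have hdet := transferLaw_ae ρ e
  have hirr := transferLaw_irreducible (e := e) hρ
  have hprox := finrank_range_of_proximal (Measure.support_subset_of_isClosed isClosed_unitDet hdet)
    (transferLaw_proximal (e := e) hρ)
  have hexp := transferLaw_expMoment (e := e) hε.le hmom
  obtain ⟨γ, σ2, hγ0, hlim, -, hclt, -, hpos⟩ := FA.LePage.Summary.le_page (μ := μ) (P := P)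
    (X := fun i ω => transfer e (V i ω))
    (Q := fun n ω => randProd n (fun i => transfer e (V i ω))) hd hX hindX
    (law_transfer hV hlaw e) hdet hirr hprox hε hexp (fun _ => rfl)
    (fun n ω => randProd_succ' n _)
  obtain ⟨γ', l, -, -, hlim', hld⟩ := FA.ProjectiveRegularity.Summary.large_deviation (μ := μ)
    (P := P) (X := fun i ω => transfer e (V i ω))
    (Q := fun n ω => randProd n (fun i => transfer e (V i ω))) hd hX hindX
    (law_transfer hV hlaw e) hdet hirr hprox hε hexp (fun _ => rfl)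
    (fun n ω => randProd_succ' n _)
  obtain ⟨ω, h1, h2, -⟩ := (hlim.and hlim').exists
  obtain rfl := tendsto_nhds_unique h1 h2
  obtain ⟨α, β, C, M, hα, -, hreg⟩ := FA.ProjectiveRegularity.Summary.stationary_regularity
    (μ := μ) hd hdet hirr hprox hε hexp
  refine ⟨γ, σ2, hγ0, hlim, hclt, fun ⟨a, ha, hae⟩ => ?_, fun η hη => ?_,
    α, C, hα, fun ν hν₁ hν y r hr => (hreg ν hν₁ hν y).1 r hr⟩
  · exact hpos _ (transfer_mem_support ha) 0 hγ0 (tendsto_log_transfer_pow hae)
  · obtain ⟨C', c, hc, hb⟩ := hld η hη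
    exact ⟨C', c, hc, fun n => (hb n).2.1⟩

end FA.AndersonModel.Summary
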