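import Fermat.Agent.AndreEFunctions.Main

/-!
# André's theorem on E-functions and Beukers' lifting of relations

E-functions are those in the strict sense with rational coefficients, as in
`SummarySiegelShidlovskii`.

* `andre_operator` (André, 2000): an E-function with a linear differential equation satisfies one
  whose leading coefficient is `z X ^ v`, so singular only at `0` and `∞`;
* `efunction_zero_singular`: a rational zero `α ≠ 0` of an E-function is a singular point of its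
  minimal equation;
* `beukers_linear_lifting`, `beukers_polynomial_lifting` (Beukers, 2006): at a rational `α` with
  `α T α ≠ 0` every linear or polynomial relation over `ℚ` between the values comes from a relation
  between the functions, which may be dependent;
* `exp_rational_irrational`: the case of `exp`.

Algebraic points and coefficients and E-functions in the broad sense are not treated.
-/

set_option autoImplicit false

noncomputable section

namespace FA.AndreEFunctions.Summary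

open Finset
open scoped Nat Polynomial

/-- **André's theorem.** -/
theorem andre_operator {f : PowerSeries ℚ}
    (hE : ∃ C : ℕ, (∀ k, |(k ! : ℚ) * PowerSeries.coeff k f| ≤ (C : ℚ) ^ (k + 1)) ∧
      ∀ N, ∃ d : ℕ, 0 < d ∧ d ≤ C ^ (N + 1) ∧
        ∀ k ≤ N, ∃ z : ℤ, (z : ℚ) = (d : ℚ) * ((k ! : ℚ) * PowerSeries.coeff k f))
    {N : ℕ} {e : ℕ → ℚ[X]} (he : ∃ j ≤ N, e j ≠ 0)
    (hf : ∑ j ∈ range (N + 1), (e j : PowerSeries ℚ) * (PowerSeries.derivative ℚ)^[j] f = 0) :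
    ∃ (M v : ℕ) (z : ℚ) (c : ℕ → ℚ[X]), z ≠ 0 ∧ c M = Polynomial.C z * Polynomial.X ^ v ∧
      ∑ j ∈ range (M + 1), (c j : PowerSeries ℚ) * (PowerSeries.derivative ℚ)^[j] f = 0 := by
  obtain ⟨j₀, hj₀, hne⟩ := he
  have hsum : ∑ j ∈ range (N + 1), Polynomial.monomial j (e j) ≠ (0 : ℚ[X][X]) :=
      fun h => hne <| by
    have h1 := congrArg (fun q : ℚ[X][X] => q.coeff j₀) h
    simp only [Polynomial.finsetSum_coeff, Polynomial.coeff_monomial, Polynomial.coeff_zero,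
      Finset.sum_ite_eq', mem_range] at h1
    rwa [if_pos (Nat.lt_succ_of_le hj₀)] at h1
  obtain ⟨M, m, v, z, hz, hdeg, hco, hM⟩ := exists_andre_operator hE
    ⟨_, hsum, by rw [opApply_sum_monomial]; exact hf⟩
  refine ⟨m, v, z, M.coeff, hz, hco, ?_⟩
  rw [← hM, opApply_eq_sum_range M (Nat.lt_succ_of_le hdeg)]
  rfl

/-- **A rational zero of an E-function is a singular point of its minimal equation.** -/
theorem efunction_zero_singular {f : PowerSeries ℚ}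
    (hE : ∃ C : ℕ, (∀ k, |(k ! : ℚ) * PowerSeries.coeff k f| ≤ (C : ℚ) ^ (k + 1)) ∧
      ∀ N, ∃ d : ℕ, 0 < d ∧ d ≤ C ^ (N + 1) ∧
        ∀ k ≤ N, ∃ z : ℤ, (z : ℚ) = (d : ℚ) * ((k ! : ℚ) * PowerSeries.coeff k f))
    (hf0 : f ≠ 0) {a : ℕ → ℤ[X]} {n : ℕ} (ha : a n ≠ 0)
    (heq : ∑ j ∈ range (n + 1), ((a j).map (Int.castRingHom ℚ) : PowerSeries ℚ) *
      (PowerSeries.derivative ℚ)^[j] f = 0)
    (hmin : ∀ b : ℕ → ℤ[X], ∑ j ∈ range n, ((b j).map (Int.castRingHom ℚ) : PowerSeries ℚ) *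
      (PowerSeries.derivative ℚ)^[j] f = 0 → ∀ j < n, b j = 0)
    {α : ℚ} (hα : α ≠ 0)
    (hval : ∑' k, ((PowerSeries.coeff k f : ℚ) : ℝ) * (α : ℝ) ^ k = 0) :
    ((a n).map (Int.castRingHom ℚ)).eval α = 0 :=
  leading_eval_eq_zero hE hf0 ⟨ha, heq, hmin⟩ hα hval

/-- **Beukers' lifting of linear relations.** -/
theorem beukers_linear_lifting {m : ℕ} (f : Fin m → PowerSeries ℚ)
    (hE : ∀ i, ∃ C : ℕ, (∀ k, |(k ! : ℚ) * PowerSeries.coeff k (f i)| ≤ (C : ℚ) ^ (k + 1)) ∧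
      ∀ N, ∃ d : ℕ, 0 < d ∧ d ≤ C ^ (N + 1) ∧
        ∀ k ≤ N, ∃ z : ℤ, (z : ℚ) = (d : ℚ) * ((k ! : ℚ) * PowerSeries.coeff k (f i)))
    (T : ℚ[X]) (Q : Matrix (Fin m) (Fin m) ℚ[X])
    (hf : ∀ i, (T : PowerSeries ℚ) * PowerSeries.derivative ℚ (f i) =
      ∑ j, (Q i j : PowerSeries ℚ) * f j)
    {α : ℚ} (hα0 : α ≠ 0) (hα : T.eval α ≠ 0) {b : Fin m → ℚ}
    (hb : ∑ i, (b i : ℝ) * ∑' k, ((PowerSeries.coeff k (f i) : ℚ) : ℝ) * (α : ℝ) ^ k = 0) :
    ∃ P : Fin m → ℚ[X],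
      ∑ i, (P i : PowerSeries ℚ) * f i = 0 ∧ ∀ i, (P i).eval α = b i :=
  exists_relation_of_values (fun h => hα (by simp [h])) hE hf hα0 hα hb

/-- **Beukers' lifting of polynomial relations.** -/
theorem beukers_polynomial_lifting {m : ℕ} (f : Fin m → PowerSeries ℚ)
    (hE : ∀ i, ∃ C : ℕ, (∀ k, |(k ! : ℚ) * PowerSeries.coeff k (f i)| ≤ (C : ℚ) ^ (k + 1)) ∧
      ∀ N, ∃ d : ℕ, 0 < d ∧ d ≤ C ^ (N + 1) ∧
        ∀ k ≤ N, ∃ z : ℤ, (z : ℚ) = (d : ℚ) * ((k ! : ℚ) * PowerSeries.coeff k (f i)))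
    (T : ℚ[X]) (q : Fin m → ℚ[X]) (Q : Matrix (Fin m) (Fin m) ℚ[X])
    (hf : ∀ i, (T : PowerSeries ℚ) * PowerSeries.derivative ℚ (f i) =
      (q i : PowerSeries ℚ) + ∑ j, (Q i j : PowerSeries ℚ) * f j)
    {α : ℚ} (hα0 : α ≠ 0) (hα : T.eval α ≠ 0) {p : MvPolynomial (Fin m) ℚ}
    (hp : MvPolynomial.aeval
      (fun i => ∑' k, ((PowerSeries.coeff k (f i) : ℚ) : ℝ) * (α : ℝ) ^ k) p = 0) :
    ∃ P : MvPolynomial (Fin m) ℚ[X],
      MvPolynomial.eval₂ Polynomial.coeToPowerSeries.ringHom f P = 0 ∧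
      MvPolynomial.map (Polynomial.evalRingHom α) P = p ∧ P.totalDegree ≤ p.totalDegree :=
  exists_polynomial_relation (fun h => hα (by simp [h])) hE hf hα0 hα hp

/-- **`e ^ α` is irrational.** -/
theorem exp_rational_irrational {α : ℚ} (hα : α ≠ 0) : Irrational (Real.exp α) :=
  irrational_exp hα

end FA.AndreEFunctions.Summary
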