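import Fermat.Agent.AndreJeannin.Main

/-!
# André-Jeannin's theorem on the inverse Fibonacci numbers

The sum of the inverses of the Fibonacci numbers is irrational, and not in `ℚ(√5)` (1989).
-/

set_option autoImplicit false

noncomputable section

namespace FA.Summary

/-- The series of inverse Fibonacci numbers converges (the term `n = 0` is `1 / 0 = 0`). -/
theorem inverse_fibonacci_summable : Summable fun n : ℕ => (1 : ℝ) / Nat.fib n :=
  AndreJeannin.hasSum_inv_fib.summable

/-- **André-Jeannin's theorem**: the sum of the inverse Fibonacci numbers is not in `ℚ(√5)`. -/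
theorem andre_jeannin (a b : ℚ) : ∑' n : ℕ, (1 : ℝ) / Nat.fib n ≠ a + b * √5 :=
  AndreJeannin.sum_inv_fib_ne a b

/-- The sum of the inverse Fibonacci numbers is irrational. -/
theorem inverse_fibonacci_irrational : Irrational (∑' n : ℕ, (1 : ℝ) / Nat.fib (n + 1)) := by
  have h := (hasSum_nat_add_iff' 1).2 inverse_fibonacci_summable.hasSum
  simp only [Finset.sum_range_one, Nat.fib_zero, Nat.cast_zero, div_zero, sub_zero] at h
  rw [h.tsum_eq]
  rintro ⟨q, hq⟩
  exact andre_jeannin q 0 (by simp [hq])

end FA.Summary
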