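import Fermat.Agent.AnkenyArtinChowla.Congruence
import Fermat.Agent.AnkenyArtinChowla.Existence

/-!
# The congruence of Ankeny, Artin and Chowla (1952)

Let `p ≡ 1 (mod 4)` be prime, `F` a quadratic field with an embedding in `ℝ` whose image contains
`√p`, `h` its class number and `ε = (t + b √p)/2 > 1` a unit that generates the units up to sign.
With `B = B_((p-1)/2)`:

* `ankeny_artin_chowla`: `p` does not divide the denominator of `B`, nor `t`, and `h b ≡ t B`;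
* `ankeny_artin_chowla_iff`: if `p ∤ h` then `p ∣ b` exactly when `p` divides the numerator of `B`;
* `exists_fundamental_unit`: such data exist for every `p`.

That `p ∤ b`, the conjecture of the three authors, is not claimed.
-/

set_option autoImplicit false

noncomputable section

open NumberField

namespace FA.AnkenyArtinChowla.Summary

variable {p : ℕ} [hp : Fact p.Prime]

theorem ankeny_artin_chowla (hp4 : p % 4 = 1) {F : Type*} [Field F] [NumberField F]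
    (hF : Module.finrank ℚ F = 2) (φ : F →+* ℝ) {s : F} (hs : φ s = Real.sqrt p) {ε : (𝓞 F)ˣ}
    (hgen : ∀ u : (𝓞 F)ˣ, ∃ n : ℤ, u = ε ^ n ∨ u = -ε ^ n) (h1 : 1 < φ ((ε : 𝓞 F) : F))
    {t b : ℤ} (htb : 2 * φ ((ε : 𝓞 F) : F) = t + b * Real.sqrt p) :
    ¬ p ∣ (bernoulli ((p - 1) / 2)).den ∧ ¬ (p : ℤ) ∣ t ∧
      (p : ℤ) ∣ (classNumber F : ℤ) * b * (bernoulli ((p - 1) / 2)).den -
        t * (bernoulli ((p - 1) / 2)).num := by
  rw [show (p - 1) / 2 = p / 2 by omega]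
  exact congruence hp4 hF φ hs hgen h1 htb

theorem ankeny_artin_chowla_iff (hp4 : p % 4 = 1) {F : Type*} [Field F] [NumberField F]
    (hF : Module.finrank ℚ F = 2) (φ : F →+* ℝ) {s : F} (hs : φ s = Real.sqrt p) {ε : (𝓞 F)ˣ}
    (hgen : ∀ u : (𝓞 F)ˣ, ∃ n : ℤ, u = ε ^ n ∨ u = -ε ^ n) (h1 : 1 < φ ((ε : 𝓞 F) : F))
    {t b : ℤ} (htb : 2 * φ ((ε : 𝓞 F) : F) = t + b * Real.sqrt p) (hh : ¬ p ∣ classNumber F) :
    (p : ℤ) ∣ b ↔ (p : ℤ) ∣ (bernoulli ((p - 1) / 2)).num := by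
  obtain ⟨hd, ht, hc⟩ := ankeny_artin_chowla hp4 hF φ hs hgen h1 htb
  have hpp : Prime (p : ℤ) := Nat.prime_iff_prime_int.1 hp.out
  constructor
  · intro hb
    have h : (p : ℤ) ∣ t * (bernoulli ((p - 1) / 2)).num :=
      (dvd_sub_right ((hb.mul_left _).mul_right _)).1 hc
    exact (hpp.dvd_or_dvd h).resolve_left ht
  · intro hn
    have h : (p : ℤ) ∣ (classNumber F : ℤ) * b * (bernoulli ((p - 1) / 2)).den :=
      (dvd_sub_left (hn.mul_left t)).1 hc
    rcases hpp.dvd_or_dvd h with h | h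
    · exact (hpp.dvd_or_dvd h).resolve_left fun h => hh (Int.natCast_dvd_natCast.1 h)
    · exact absurd (Int.natCast_dvd_natCast.1 h) hd

theorem exists_fundamental_unit (p : ℕ) [Fact p.Prime] :
    ∃ (F : Type) (_ : Field F) (_ : NumberField F), Module.finrank ℚ F = 2 ∧
      ∃ (φ : F →+* ℝ) (s : F) (ε : (𝓞 F)ˣ) (t b : ℤ), φ s = Real.sqrt p ∧
        (∀ u : (𝓞 F)ˣ, ∃ n : ℤ, u = ε ^ n ∨ u = -ε ^ n) ∧ 1 < φ ((ε : 𝓞 F) : F) ∧
        2 * φ ((ε : 𝓞 F) : F) = t + b * Real.sqrt p :=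
  exists_fundamental

end FA.AnkenyArtinChowla.Summary
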