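import Fermat.Agent.GRHProgressions.Converse
import Fermat.Agent.GRHProgressions.Classes

/-!
# The sharp prime number theorem in progressions on the Riemann hypothesis

If the zeros of `L (s, χ)` with `0 < re s < 1` are on `re s = 1/2` then
`∑_{n ≤ x} χ n Λ n = O (√x log² (q x))` with an absolute constant, and conversely even
`O_ε (x ^ (1/2 + ε))` puts them there. If this holds for every character mod `q` then
`ψ (x; q, a)` and `θ (x; q, a)` are `x / φ q + O (√x log² (q x))` uniformly in `q` and `a`, and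
the least prime `≡ a` is `O (φ q ² log⁴ (2 q))`.
-/

set_option autoImplicit false

noncomputable section

namespace FA.GRHProgressions.Summary

open Finset Filter Asymptotics
open DirichletCharacter (LFunction)
open scoped Real ArithmeticFunction.vonMangoldt

variable {q : ℕ} [NeZero q]

/-- The Riemann hypothesis for every character mod `q`, spelt out. -/
abbrev AllGRH (q : ℕ) [NeZero q] : Prop := ∀ (χ : DirichletCharacter ℂ q) (ρ : ℂ),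
  LFunction χ ρ = 0 → 0 < ρ.re → ρ.re < 1 → ρ.re = 1 / 2

/-- **`|∑_{n ≤ x} χ n Λ n| ≤ C √x log² (q x)` for `χ ≠ 1` on GRH, `C` absolute.** -/
theorem psi_char_bound : ∃ C : ℝ, 0 ≤ C ∧ ∀ (q : ℕ) [NeZero q]
    (χ : DirichletCharacter ℂ q), χ ≠ 1 →
      (∀ ρ : ℂ, LFunction χ ρ = 0 → 0 < ρ.re → ρ.re < 1 → ρ.re = 1 / 2) → ∀ x : ℝ, 2 ≤ x →
        ‖∑ n ∈ Icc 1 ⌊x⌋₊, χ n * ((Λ n : ℝ) : ℂ)‖ ≤ C * √x * Real.log (q * x) ^ 2 :=
  exists_psiChar_nontrivial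

/-- **GRH is `ψ (x, χ) = O (√x log² x)`.** -/
theorem grh_iff_psi_log_sq (χ : DirichletCharacter ℂ q) (hp : χ.IsPrimitive) (hχ : χ ≠ 1) :
    (∀ ρ : ℂ, LFunction χ ρ = 0 → 0 < ρ.re → ρ.re < 1 → ρ.re = 1 / 2) ↔
      (fun x : ℝ => ∑ n ∈ Icc 1 ⌊x⌋₊, χ n * ((Λ n : ℝ) : ℂ)) =O[atTop]
        fun x : ℝ => √x * Real.log x ^ 2 :=
  ⟨isBigO_psiChar hp hχ, fun h => grh_of_psi hp hχ fun _ hε =>
    h.trans (isBigO_sqrt_log_sq hε)⟩

/-- **GRH is `ψ (x, χ) = O_ε (x ^ (1/2 + ε))`.** -/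
theorem grh_iff_psi_rpow (χ : DirichletCharacter ℂ q) (hp : χ.IsPrimitive) (hχ : χ ≠ 1) :
    (∀ ρ : ℂ, LFunction χ ρ = 0 → 0 < ρ.re → ρ.re < 1 → ρ.re = 1 / 2) ↔
      ∀ ε : ℝ, 0 < ε → (fun x : ℝ => ∑ n ∈ Icc 1 ⌊x⌋₊, χ n * ((Λ n : ℝ) : ℂ)) =O[atTop]
        fun x : ℝ => x ^ (1 / 2 + ε) :=
  ⟨fun h _ hε => (isBigO_psiChar hp hχ h).trans (isBigO_sqrt_log_sq hε), grh_of_psi hp hχ⟩

/-- **`ψ (x; q, a)` on GRH, uniformly in `q` and `a`.** -/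
theorem psi_progression : ∃ C : ℝ, 0 ≤ C ∧ ∀ (q : ℕ) [NeZero q], AllGRH q →
    ∀ a : ZMod q, IsUnit a → ∀ x : ℝ, 2 ≤ x →
      |(∑ n ∈ (Icc 1 ⌊x⌋₊).filter (fun n : ℕ => (n : ZMod q) = a), Λ n) - x / q.totient| ≤
        C * √x * Real.log (q * x) ^ 2 := by
  obtain ⟨C, hC, h⟩ := exists_psiClass
  refine ⟨C, hC, fun q _ hG a ha x hx => ?_⟩
  refine le_trans (le_of_eq ?_) (h q hG a ha x hx)
  congr 2
  rw [PNT.psiClass, Finset.sum_filter]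
  refine Finset.sum_congr rfl fun n _ => ?_
  simp [ArithmeticFunction.vonMangoldt.residueClass, Set.indicator_apply]

/-- **`θ (x; q, a)` on GRH, uniformly in `q` and `a`.** -/
theorem theta_progression : ∃ C : ℝ, 0 ≤ C ∧ ∀ (q : ℕ) [NeZero q], AllGRH q →
    ∀ a : ZMod q, IsUnit a → ∀ x : ℝ, 2 ≤ x →
      |(∑ p ∈ (Icc 1 ⌊x⌋₊).filter (fun p : ℕ => p.Prime ∧ (p : ZMod q) = a), Real.log p) -
        x / q.totient| ≤ C * √x * Real.log (q * x) ^ 2 :=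
  exists_thetaClass

/-- **The least prime in a progression is `O (φ q ² log⁴ (2 q))` on GRH.** -/
theorem least_prime_progression : ∃ C : ℝ, 0 < C ∧ ∀ (q : ℕ) [NeZero q], AllGRH q →
    ∀ a : ZMod q, IsUnit a → ∃ p : ℕ, p.Prime ∧ (p : ZMod q) = a ∧
      (p : ℝ) ≤ C * (q.totient : ℝ) ^ 2 * Real.log (2 * q) ^ 4 :=
  exists_least_prime

end FA.GRHProgressions.Summary

end
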