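import Fermat.Agent.AnkenyBound.Subgroup
import Fermat.Agent.Root.SummaryGRHProgressions

/-!
# The bound of Ankeny, Montgomery and Bach, and Miller's test, with exactly `log ^ 2`

With an absolute constant `C`, and the Riemann hypothesis assumed for Dirichlet `L`-functions
only: a character `χ ≠ 1` mod `q` has a prime `p ∤ q` with `χ p ≠ 1` and `p ≤ C log² (2 q)`; every
proper subgroup of `(ℤ / n) ˣ` misses such a prime; these primes generate the group; the least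
quadratic nonresidue and the least `k`-th power nonresidue mod `p` are `O (log² p)`; and an odd
`n > 1` is prime iff it passes Miller's test for the bases up to `C log² (2 n)`.
-/

set_option autoImplicit false

noncomputable section

namespace FA.AnkenyBound.Summary

open DirichletCharacter
open FA.GRHProgressions.Summary (AllGRH)

/-- **The least prime with `χ p ≠ 1` is `O (log² q)`, on GRH for `χ` alone.** -/
theorem least_prime_char_ne_one : ∃ C : ℝ, 0 < C ∧ ∀ (q : ℕ) [NeZero q]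
    (χ : DirichletCharacter ℂ q), χ ≠ 1 →
      (∀ ρ : ℂ, LFunction χ ρ = 0 → 0 < ρ.re → ρ.re < 1 → ρ.re = 1 / 2) →
        ∃ p : ℕ, p.Prime ∧ ¬p ∣ q ∧ χ p ≠ 1 ∧ (p : ℝ) ≤ C * Real.log (2 * q) ^ 2 :=
  exists_prime_ne_one

/-- **Ankeny-Montgomery-Bach: the least prime outside a proper subgroup is `O (log² n)`.** -/
theorem least_prime_outside_subgroup : ∃ C : ℝ, 0 < C ∧ ∀ (n : ℕ) [NeZero n]
    (H : Subgroup (ZMod n)ˣ), H ≠ ⊤ →
      (∀ χ : DirichletCharacter ℂ n, χ ≠ 1 → (∀ u ∈ H, χ (u : ZMod n) = 1) →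
        ∀ ρ : ℂ, LFunction χ ρ = 0 → 0 < ρ.re → ρ.re < 1 → ρ.re = 1 / 2) →
      ∃ p : ℕ, p.Prime ∧ ¬p ∣ n ∧ (∀ u : (ZMod n)ˣ, (u : ZMod n) = p → u ∉ H) ∧
        (p : ℝ) ≤ C * Real.log (2 * n) ^ 2 :=
  exists_prime_outside

/-- **The primes up to `C log² (2 n)` generate `(ℤ / n) ˣ`.** -/
theorem small_primes_generate : ∃ C : ℝ, 0 < C ∧ ∀ (n : ℕ) [NeZero n], AllGRH n →
    Subgroup.closure {u : (ZMod n)ˣ | ∃ p : ℕ, p.Prime ∧ (u : ZMod n) = p ∧
      (p : ℝ) ≤ C * Real.log (2 * n) ^ 2} = ⊤ :=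
  exists_generators

/-- **Ankeny: the least quadratic nonresidue is `O (log² p)`.** -/
theorem least_quadratic_nonresidue : ∃ C : ℝ, 0 < C ∧ ∀ p : ℕ, p.Prime → p ≠ 2 →
    (∀ [NeZero p] (χ : DirichletCharacter ℂ p), χ ≠ 1 → χ ^ 2 = 1 →
      ∀ ρ : ℂ, LFunction χ ρ = 0 → 0 < ρ.re → ρ.re < 1 → ρ.re = 1 / 2) →
      ∃ l : ℕ, l.Prime ∧ ¬IsSquare (l : ZMod p) ∧ (l : ℝ) ≤ C * Real.log (2 * p) ^ 2 :=
  exists_quadratic_nonresidue

/-- **The least `k`-th power nonresidue is `O (log² p)`.** -/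
theorem least_power_nonresidue : ∃ C : ℝ, 0 < C ∧ ∀ p k : ℕ, p.Prime → 1 < Nat.gcd k (p - 1) →
    (∀ [NeZero p] (χ : DirichletCharacter ℂ p), χ ≠ 1 → χ ^ k = 1 →
      ∀ ρ : ℂ, LFunction χ ρ = 0 → 0 < ρ.re → ρ.re < 1 → ρ.re = 1 / 2) →
      ∃ l : ℕ, l.Prime ∧ l ≠ p ∧ (∀ u : ZMod p, u ^ k ≠ l) ∧
        (l : ℝ) ≤ C * Real.log (2 * p) ^ 2 :=
  exists_power_nonresidue

/-- **Miller's test with the bases up to `C log² (2 n)`.** -/
theorem miller_test : ∃ C : ℝ, 0 < C ∧ ∀ (n : ℕ) [NeZero n], AllGRH n → Odd n → 1 < n →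
    ∀ s d : ℕ, Odd d → n - 1 = 2 ^ s * d →
      (n.Prime ↔ ∀ a : ℕ, 1 < a → a < n → (a : ℝ) ≤ C * Real.log (2 * n) ^ 2 →
        (a : ZMod n) ^ d = 1 ∨ ∃ i < s, (a : ZMod n) ^ (2 ^ i * d) = -1) := by
  obtain ⟨C, hC, h⟩ := exists_witness
  refine ⟨C, hC, fun n _ hG hn hn1 s d hd hsd => ⟨fun hp a ha1 han _ =>
    FA.Miller.passes_of_prime hp hsd fun h0 => ?_, fun hall => by_contra fun hc => ?_⟩⟩
  · have := Nat.le_of_dvd (by omega) ((ZMod.natCast_eq_zero_iff a n).1 h0)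
    omega
  · obtain ⟨a, ha1, han, hab, hfail⟩ := h n hG hn hn1 hc s d hd hsd
    exact hfail (hall a ha1 han hab)

end FA.AnkenyBound.Summary

end
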