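import Fermat.Agent.CycloGrowth.LogFormulas

/-!
# Ankeny–Chowla and Brauer–Siegel for cyclotomic fields

For every conductor `m → ∞`:

* `relative_classNumber_asymptotic`: `log (h/h⁺) ~ φ(m)/4 · log m` (Kummer's asymptotic in logarithmic form,
  Ankeny–Chowla).
* `brauerSiegel_cyclotomic`: `log (h R) ~ log √|d|` for `ℚ(ζ_m)`.
* `brauerSiegel_cyclotomic_real`: `log (h⁺ R⁺) ~ log √|d⁺|` for the real subfield.

Ineffective through Siegel's theorem; independent of S01.
-/

set_option autoImplicit false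

noncomputable section

open NumberField
open scoped Real

namespace FA.Summary

/-- An error `φ (C + ε log m) + 2 log m` is at most `4 ε φ log m` for all large `m`. -/
theorem exists_cyclotomic_error_le (C : ℝ) {ε : ℝ} (hε : 0 < ε) :
    ∃ M : ℕ, ∀ m : ℕ, M ≤ m → 3 ≤ m ∧ 0 < (m.totient : ℝ) * Real.log m ∧
      (m.totient : ℝ) * (C + ε * Real.log m) + 2 * Real.log m ≤ 4 * ε * (m.totient * Real.log m) := by
  obtain ⟨N, hN⟩ := exists_nat_ge (1 / ε)
  obtain ⟨A, hA⟩ := exists_nat_ge (Real.exp (C / ε))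
  refine ⟨max (max ((2 * N).factorial + 1) A) 3, fun m hm => ?_⟩
  simp only [max_le_iff] at hm
  have hm0 : (0 : ℝ) < m := by exact_mod_cast (show 0 < m by omega)
  have hlog : 0 < Real.log m := Real.log_pos (by exact_mod_cast (show 1 < m by omega))
  have hphi : (0 : ℝ) < m.totient := by exact_mod_cast Nat.totient_pos.mpr (show 0 < m by omega)
  have h1 : 1 ≤ ε * m.totient := by
    have h : N ≤ m.totient := by
      by_contra! hlt
      have := FA.CycloGrowth.le_factorial_of_totient_le (show m ≠ 0 by omega) hlt.le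
      omega
    have h' : (1 / ε) ≤ m.totient := hN.trans (Nat.cast_le.mpr h)
    rw [div_le_iff₀ hε] at h'
    linarith
  have h2 : C ≤ ε * Real.log m := by
    have h : C / ε ≤ Real.log m :=
      (Real.le_log_iff_exp_le hm0).mpr (hA.trans (Nat.cast_le.mpr hm.1.2))
    rw [div_le_iff₀ hε] at h
    linarith
  refine ⟨hm.2, mul_pos hphi hlog, ?_⟩
  nlinarith [mul_le_mul_of_nonneg_left h2 hphi.le, mul_le_mul_of_nonneg_right h1 hlog.le]

/-- Two quantities equal to `c L + O(δ L)` have quotient near `1`. -/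
theorem abs_div_sub_one_lt_of_abs_sub_le {X Y c L δ ε : ℝ} (hc : 1 / 4 ≤ c) (hL : 0 < L) (hδ : 0 ≤ δ)
    (hδε : 12 * δ < ε) (hε : ε ≤ 1) (hX : |X - c * L| ≤ δ * L) (hY : |Y - c * L| ≤ δ * L) :
    |X / Y - 1| < ε := by
  rw [abs_le] at hX hY
  have hY0 : L / 6 ≤ Y := by nlinarith
  have hY1 : 0 < Y := by linarith
  rw [div_sub_one hY1.ne', abs_div, abs_of_pos hY1, div_lt_iff₀ hY1, abs_lt]
  constructor <;> nlinarith

/-- **Ankeny–Chowla**: `log (h/h⁺) ~ φ(m)/4 · log m`. -/
theorem relative_classNumber_asymptotic {ε : ℝ} (hε : 0 < ε) :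
    ∃ M : ℕ, ∀ (m : ℕ) [NeZero m] (K : Type*) [Field K] [NumberField K] [IsCyclotomicExtension {m} ℚ K],
      M ≤ m → |Real.log (classNumber K / classNumber (maximalRealSubfield K) : ℝ) /
        (m.totient / 4 * Real.log m) - 1| < ε := by
  have hε' : 0 < min ε 1 := lt_min hε one_pos
  obtain ⟨C, -, hC⟩ := FA.CycloGrowth.exists_abs_log_classNumber_le (show 0 < min ε 1 / 60 by positivity)
  obtain ⟨M, hM⟩ := exists_cyclotomic_error_le C (show 0 < min ε 1 / 60 by positivity)
  refine ⟨M, fun m _ K _ _ _ hm => ?_⟩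
  obtain ⟨hm3, hpos, herr⟩ := hM m hm
  have : IsCMField K := IsCyclotomicExtension.Rat.isCMField K (S := {m}) ⟨m, rfl, hm3⟩
  obtain ⟨h, -, -, -, -⟩ := hC m K hm3
  refine lt_of_lt_of_le (abs_div_sub_one_lt_of_abs_sub_le (c := 1 / 4) (δ := 4 * (min ε 1 / 60)) le_rfl hpos
    (by positivity) (by linarith) (min_le_right ε 1) ?_ ?_) (min_le_left ε 1)
  · rw [show 1 / 4 * ((m.totient : ℝ) * Real.log m) = m.totient / 4 * Real.log m by ring]
    exact h.trans herr
  · rw [show (m.totient : ℝ) / 4 * Real.log m = 1 / 4 * (m.totient * Real.log m) by ring, sub_self, abs_zero]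
    positivity

/-- **Brauer–Siegel for cyclotomic fields**: `log (h R) ~ log √|d|`. -/
theorem brauerSiegel_cyclotomic {ε : ℝ} (hε : 0 < ε) :
    ∃ M : ℕ, ∀ (m : ℕ) [NeZero m] (K : Type*) [Field K] [NumberField K] [IsCyclotomicExtension {m} ℚ K],
      M ≤ m → |Real.log (classNumber K * Units.regulator K : ℝ) /
        Real.log (Real.sqrt ((discr K).natAbs : ℝ)) - 1| < ε := by
  have hε' : 0 < min ε 1 := lt_min hε one_pos
  obtain ⟨C, -, hC⟩ := FA.CycloGrowth.exists_abs_log_classNumber_le (show 0 < min ε 1 / 60 by positivity)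
  obtain ⟨M, hM⟩ := exists_cyclotomic_error_le C (show 0 < min ε 1 / 60 by positivity)
  refine ⟨M, fun m _ K _ _ _ hm => ?_⟩
  obtain ⟨hm3, hpos, herr⟩ := hM m hm
  have : IsCMField K := IsCyclotomicExtension.Rat.isCMField K (S := {m}) ⟨m, rfl, hm3⟩
  obtain ⟨-, h, -, hd, -⟩ := hC m K hm3
  refine lt_of_lt_of_le (abs_div_sub_one_lt_of_abs_sub_le (c := 1 / 2) (δ := 4 * (min ε 1 / 60)) (by norm_num)
    hpos (by positivity) (by linarith) (min_le_right ε 1) ?_ ?_) (min_le_left ε 1) <;>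
    rw [show 1 / 2 * ((m.totient : ℝ) * Real.log m) = m.totient / 2 * Real.log m by ring]
  · exact h.trans herr
  · exact hd.trans herr

/-- **Brauer–Siegel for their real subfields**: `log (h⁺ R⁺) ~ log √|d⁺|`. -/
theorem brauerSiegel_cyclotomic_real {ε : ℝ} (hε : 0 < ε) :
    ∃ M : ℕ, ∀ (m : ℕ) [NeZero m] (K : Type*) [Field K] [NumberField K] [IsCyclotomicExtension {m} ℚ K],
      M ≤ m → |Real.log (classNumber (maximalRealSubfield K) * Units.regulator (maximalRealSubfield K) : ℝ) /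
        Real.log (Real.sqrt ((discr (maximalRealSubfield K)).natAbs : ℝ)) - 1| < ε := by
  have hε' : 0 < min ε 1 := lt_min hε one_pos
  obtain ⟨C, -, hC⟩ := FA.CycloGrowth.exists_abs_log_classNumber_le (show 0 < min ε 1 / 60 by positivity)
  obtain ⟨M, hM⟩ := exists_cyclotomic_error_le C (show 0 < min ε 1 / 60 by positivity)
  refine ⟨M, fun m _ K _ _ _ hm => ?_⟩
  obtain ⟨hm3, hpos, herr⟩ := hM m hm
  have : IsCMField K := IsCyclotomicExtension.Rat.isCMField K (S := {m}) ⟨m, rfl, hm3⟩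
  obtain ⟨-, -, h, -, hd⟩ := hC m K hm3
  refine lt_of_lt_of_le (abs_div_sub_one_lt_of_abs_sub_le (c := 1 / 4) (δ := 4 * (min ε 1 / 60)) le_rfl
    hpos (by positivity) (by linarith) (min_le_right ε 1) ?_ ?_) (min_le_left ε 1) <;>
    rw [show 1 / 4 * ((m.totient : ℝ) * Real.log m) = m.totient / 4 * Real.log m by ring]
  · exact h.trans herr
  · exact hd.trans herr

end FA.Summary
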