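import Fermat.Agent.Apery.Irrational
import Mathlib.NumberTheory.LSeries.RiemannZeta

/-!
# The theorem of Apéry

`ζ(3) = ∑ 1 / n ^ 3` is irrational (Apéry 1978, after van der Poorten's account), with the bound
`lcm (1, …, n) = O (3.1 ^ n)` of Chebyshev that the proof needs.
-/

set_option autoImplicit false

noncomputable section

namespace FA.Apery.Summary

/-- **Apéry: `∑ 1 / n ^ 3` is irrational.** -/
theorem apery : Irrational (∑' n : ℕ, 1 / (n : ℝ) ^ 3) := by
  rw [(Real.summable_one_div_nat_pow.mpr (by norm_num : 1 < 3)).tsum_eq_zero_add]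
  simpa [zetaThree] using irrational_zetaThree

/-- **Apéry: `ζ(3)` is irrational.** -/
theorem apery_riemannZeta : ∀ r : ℚ, riemannZeta 3 ≠ r := by
  intro r h
  refine apery ⟨r, Complex.ofReal_injective ?_⟩
  have h3 := zeta_nat_eq_tsum_of_gt_one (k := 3) (by norm_num)
  push_cast at h3
  rw [h] at h3
  rw [Complex.ofReal_tsum]
  push_cast
  exact h3

/-- The recurrence and the determinant of Apéry's numbers. -/
theorem apery_numbers (n : ℕ) :
    ((n : ℚ) + 2) ^ 3 * aSeq (n + 2) - pol ((n : ℚ) + 1) * aSeq (n + 1) +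
        ((n : ℚ) + 1) ^ 3 * aSeq n = 0 ∧
      aSeq n * bSeq (n + 1) - aSeq (n + 1) * bSeq n = 6 / ((n : ℚ) + 1) ^ 3 :=
  ⟨(recurrence n).1, wronskian n⟩

/-- `lcm (1, …, n) = O (3.1 ^ n)`. -/
theorem lcmUpto_le :
    ∃ C : ℝ, 0 < C ∧ ∀ n : ℕ, (Nat.lcmUpto n : ℝ) ≤ C * (31 / 10) ^ n :=
  exists_lcmUpto_le

end FA.Apery.Summary

end
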