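import Fermat.Agent.AperyCongruence.Pred
import Fermat.Agent.Apery.Recurrence

/-!
# The congruences of the Apéry numbers

`A n = ∑ C(n, k) ^ 2 C(n + k, k) ^ 2` (the denominators for `ζ(3)`) and
`B n = ∑ C(n, k) ^ 2 C(n + k, k)` (those for `ζ(2)`).

* `apery_lucas`, `apery_digits` (Gessel 1982): `A (p n + r) ≡ A n A r (mod p)` for every prime `p`
  and `r < p`, so `A n` is modulo `p` the product over the digits of `n`; the same for `B`;
* `gessel_cube` (Chowla, Cowles and Cowles 1980 for `n = 1`; Gessel): for `p ≥ 5`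
  `A (p n) ≡ A n` and `B (p n) ≡ B n (mod p ^ 3)`;
* `apery_pred_prime`: for `p ≥ 5` `A (p - 1) ≡ 1` and `B (p - 1) ≡ 1 (mod p ^ 3)`.
-/

set_option autoImplicit false

noncomputable section

open Finset

namespace FA.AperyCongruence.Summary

/-- The Apéry numbers for `ζ(3)`. -/
def aperyA (n : ℕ) : ℕ := ∑ k ∈ range (n + 1), n.choose k ^ 2 * (n + k).choose k ^ 2

/-- The Apéry numbers for `ζ(2)`. -/
def aperyB (n : ℕ) : ℕ := ∑ k ∈ range (n + 1), n.choose k ^ 2 * (n + k).choose k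

theorem aperyA_eq (n : ℕ) : aperyA n = Fermat.Agent.AperyCongruence.aperyNum 2 n := rfl

theorem aperyB_eq (n : ℕ) : aperyB n = Fermat.Agent.AperyCongruence.aperyNum 1 n := by
  simp [aperyB, Fermat.Agent.AperyCongruence.aperyNum, Fermat.Agent.AperyCongruence.aperyTerm]

/-- These are the denominators of Apéry's approximations. -/
theorem aperyA_eq_aSeq (n : ℕ) : (aperyA n : ℚ) = FA.Apery.aSeq n := by
  simp only [aperyA, FA.Apery.aSeq, FA.Apery.P]
  push_cast
  exact sum_congr rfl fun k _ => by ring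

variable {p : ℕ} [hp : Fact p.Prime]

/-- **Lucas's property of the Apéry numbers.** -/
theorem apery_lucas (n : ℕ) {r : ℕ} (hr : r < p) :
    aperyA (p * n + r) ≡ aperyA n * aperyA r [MOD p] ∧
      aperyB (p * n + r) ≡ aperyB n * aperyB r [MOD p] := by
  simp only [aperyA_eq, aperyB_eq, ← ZMod.natCast_eq_natCast_iff, Nat.cast_mul]
  exact ⟨Fermat.Agent.AperyCongruence.aperyNum_lucas 2 n hr,
    Fermat.Agent.AperyCongruence.aperyNum_lucas 1 n hr⟩

/-- **The product over the digits.** -/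
theorem apery_digits (n : ℕ) :
    aperyA n ≡ ((Nat.digits p n).map aperyA).prod [MOD p] ∧
      aperyB n ≡ ((Nat.digits p n).map aperyB).prod [MOD p] := by
  simp only [← ZMod.natCast_eq_natCast_iff, Nat.cast_list_prod, List.map_map, Function.comp_def,
    aperyA_eq, aperyB_eq]
  exact ⟨Fermat.Agent.AperyCongruence.aperyNum_digits 2 n,
    Fermat.Agent.AperyCongruence.aperyNum_digits 1 n⟩

/-- **Gessel's congruence.** -/
theorem gessel_cube (hp5 : 5 ≤ p) (n : ℕ) :
    aperyA (p * n) ≡ aperyA n [MOD p ^ 3] ∧ aperyB (p * n) ≡ aperyB n [MOD p ^ 3] := by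
  simp only [aperyA_eq, aperyB_eq]
  constructor <;>
  · refine (Nat.modEq_iff_dvd.2 ?_).symm
    push_cast
    exact Fermat.Agent.AperyCongruence.aperyNum_mul hp5 _ n

/-- **The index `p - 1`.** -/
theorem apery_pred_prime (hp5 : 5 ≤ p) :
    aperyA (p - 1) ≡ 1 [MOD p ^ 3] ∧ aperyB (p - 1) ≡ 1 [MOD p ^ 3] := by
  obtain ⟨q, hq⟩ : ∃ q, p = q + 1 := ⟨p - 1, by omega⟩
  obtain ⟨h1, h2⟩ := Fermat.Agent.AperyCongruence.aperyNum_pred hp5 hq
  simp only [aperyA_eq, aperyB_eq, show p - 1 = q by omega]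
  refine ⟨(Nat.modEq_iff_dvd.2 ?_).symm, (Nat.modEq_iff_dvd.2 ?_).symm⟩ <;> push_cast
  · exact h2
  · exact h1

end FA.AperyCongruence.Summary

end
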