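import Fermat.Agent.AperyExponents.ZetaValues
import Fermat.Agent.AperyExponents.LogTwo

/-!
# Apéry's irrationality exponents

An exponent of `x` is a `μ` such that `|x - p / q| ≥ c / q ^ μ` for some `c > 0` and all `p`, `q`.

* `zeta_two_exponent`: `ζ(2)` has every exponent above
  `1 + (5 log φ + 2) / (5 log φ - 2) = 11.85…`, `φ` the golden ratio, in particular `12`;
* `pi_exponent`: `π` has every exponent above twice that number, in particular `24`;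
* `zeta_three_exponent`: `ζ(3)` has every exponent above
  `1 + (4 log (1 + √2) + 3) / (4 log (1 + √2) - 3) = 13.41…`, in particular `14`;
* `log_two_exponent`: `log 2` has every exponent above
  `1 + (log (3 + 2 √2) + 1) / (log (3 + 2 √2) - 1) = 4.62…`, in particular `5`
  (Alladi and Robinson, 1980);
* `apery_growth`: the growth of the numbers behind them, and `log lcm (1, …, n) ∼ n`.

This sharpens `SummaryIrrationalityMeasure`. The later records (Rhin and Viola, Hata,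
Marcovecchio, Zeilberger and Zudilin) are not claimed.
-/

set_option autoImplicit false

noncomputable section

namespace FA.AperyExponents.Summary

open Filter Finset
open scoped Topology

/-- **`ζ(2)`.** -/
theorem zeta_two_exponent :
    (∀ μ : ℝ, 1 + (5 * Real.log ((1 + √5) / 2) + 2) / (5 * Real.log ((1 + √5) / 2) - 2) < μ →
      ∃ c : ℝ, 0 < c ∧ ∀ (p : ℤ) (q : ℕ), 0 < q →
        c / (q : ℝ) ^ μ ≤ |Real.pi ^ 2 / 6 - p / q|) ∧
    ∃ c : ℝ, 0 < c ∧ ∀ (p : ℤ) (q : ℕ), 0 < q →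
      c / (q : ℝ) ^ 12 ≤ |Real.pi ^ 2 / 6 - p / q| := by
  refine ⟨fun μ hμ => hasExponent_zetaTwo hμ, ?_⟩
  obtain ⟨c, hc, h⟩ := hasExponent_zetaTwo zetaTwo_exponent_lt
  exact ⟨c, hc, fun p q hq => by simpa using h p q hq⟩

/-- **`π`.** -/
theorem pi_exponent :
    (∀ μ : ℝ,
      2 * (1 + (5 * Real.log ((1 + √5) / 2) + 2) / (5 * Real.log ((1 + √5) / 2) - 2)) < μ →
      ∃ c : ℝ, 0 < c ∧ ∀ (p : ℤ) (q : ℕ), 0 < q → c / (q : ℝ) ^ μ ≤ |Real.pi - p / q|) ∧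
    ∃ c : ℝ, 0 < c ∧ ∀ (p : ℤ) (q : ℕ), 0 < q → c / (q : ℝ) ^ 24 ≤ |Real.pi - p / q| := by
  have hpos : 0 ≤ (5 * Real.log ((1 + √5) / 2) + 2) / (5 * Real.log ((1 + √5) / 2) - 2) :=
    div_nonneg (by linarith [twelve_fifths_lt_log]) (by linarith [twelve_fifths_lt_log])
  have key : ∀ μ : ℝ,
      2 * (1 + (5 * Real.log ((1 + √5) / 2) + 2) / (5 * Real.log ((1 + √5) / 2) - 2)) < μ →
      HasExponent Real.pi μ := fun μ hμ => by
    have h := hasExponent_pi (μ := μ / 2) (by linarith) (hasExponent_zetaTwo (by linarith))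
    rwa [mul_div_cancel₀ μ (two_ne_zero' ℝ)] at h
  refine ⟨key, ?_⟩
  obtain ⟨c, hc, h⟩ := key 24 (by linarith [zetaTwo_exponent_lt])
  exact ⟨c, hc, fun p q hq => by simpa using h p q hq⟩

/-- **`ζ(3)`.** -/
theorem zeta_three_exponent :
    (∀ μ : ℝ, 1 + (4 * Real.log (1 + √2) + 3) / (4 * Real.log (1 + √2) - 3) < μ →
      ∃ c : ℝ, 0 < c ∧ ∀ (p : ℤ) (q : ℕ), 0 < q →
        c / (q : ℝ) ^ μ ≤ |(∑' n : ℕ, 1 / ((n : ℝ) + 1) ^ 3 : ℝ) - p / q|) ∧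
    ∃ c : ℝ, 0 < c ∧ ∀ (p : ℤ) (q : ℕ), 0 < q →
      c / (q : ℝ) ^ 14 ≤ |(∑' n : ℕ, 1 / ((n : ℝ) + 1) ^ 3 : ℝ) - p / q| := by
  refine ⟨fun μ hμ => hasExponent_zetaThree hμ, ?_⟩
  obtain ⟨c, hc, h⟩ := hasExponent_zetaThree zetaThree_exponent_lt
  exact ⟨c, hc, fun p q hq => by simpa [FA.Apery.zetaThree] using h p q hq⟩

/-- **`log 2`.** -/
theorem log_two_exponent :
    (∀ μ : ℝ, 1 + (Real.log (3 + 2 * √2) + 1) / (Real.log (3 + 2 * √2) - 1) < μ →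
      ∃ c : ℝ, 0 < c ∧ ∀ (p : ℤ) (q : ℕ), 0 < q → c / (q : ℝ) ^ μ ≤ |Real.log 2 - p / q|) ∧
    ∃ c : ℝ, 0 < c ∧ ∀ (p : ℤ) (q : ℕ), 0 < q → c / (q : ℝ) ^ 5 ≤ |Real.log 2 - p / q| := by
  refine ⟨fun μ hμ => hasExponent_logTwo hμ, ?_⟩
  obtain ⟨c, hc, h⟩ := hasExponent_logTwo logTwo_exponent_lt
  exact ⟨c, hc, fun p q hq => by simpa using h p q hq⟩

/-- **The growth of the numbers of Apéry and Delannoy, and of `lcm (1, …, n)`.** -/
theorem apery_growth :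
    Tendsto (fun n : ℕ =>
      (∑ k ∈ range (n + 2), ((n + 1).choose k : ℝ) ^ 2 * ((n + 1 + k).choose k : ℝ) ^ 2) /
        ∑ k ∈ range (n + 1), (n.choose k : ℝ) ^ 2 * ((n + k).choose k : ℝ) ^ 2)
      atTop (𝓝 ((1 + √2) ^ 4)) ∧
    Tendsto (fun n : ℕ =>
      (∑ k ∈ range (n + 2), ((n + 1).choose k : ℝ) ^ 2 * ((n + 1 + k).choose k : ℝ)) /
        ∑ k ∈ range (n + 1), (n.choose k : ℝ) ^ 2 * ((n + k).choose k : ℝ))
      atTop (𝓝 (((1 + √5) / 2) ^ 5)) ∧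
    Tendsto (fun n : ℕ =>
      (∑ k ∈ range (n + 2), ((n + 1).choose k : ℝ) * ((n + 1 + k).choose k : ℝ)) /
        ∑ k ∈ range (n + 1), (n.choose k : ℝ) * ((n + k).choose k : ℝ))
      atTop (𝓝 (3 + 2 * √2)) ∧
    Tendsto (fun n : ℕ => Real.log (Nat.lcmUpto n) / n) atTop (𝓝 1) := by
  refine ⟨tendsto_ratio_aSeq.congr fun n => ?_, tendsto_ratio_aTwo.congr fun n => ?_,
    tendsto_ratio_delannoy.congr fun n => ?_, tendsto_log_lcmUpto⟩
  · simp [FA.Apery.aSeq, FA.Apery.P, mul_pow]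
  · simp [FA.Apery.aTwo, FA.Apery.PTwo, FA.Apery.P, sq, mul_assoc]
  · simp [delannoy, FA.Apery.P]

end FA.AperyExponents.Summary

end
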