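import Fermat.Agent.Apollonian.Main

/-!
# The Descartes circle theorem and integral Apollonian packings

A circle has a centre `z` and a signed curvature `k ≠ 0`, thus the radius `|1 / k|`. Two circles
are tangent, outside each other for equal signs and one inside the other for opposite signs, when
`dist z w = |1 / a + 1 / b|`.
-/

set_option autoImplicit false

noncomputable section

namespace FA.Summary

/-- The tangency condition makes the two circles meet in exactly one point. -/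
theorem tangent_circles_inter {z w : ℂ} {a b : ℝ} (h : dist z w = |1 / a + 1 / b|)
    (hab : 1 / a + 1 / b ≠ 0) :
    ∃ p, Metric.sphere z |1 / a| ∩ Metric.sphere w |1 / b| = {p} :=
  ⟨_, Apollonian.Tangent.sphere_inter h hab⟩

/-- **Descartes**: four mutually tangent circles satisfy `(∑ k) ^ 2 = 2 ∑ k ^ 2`. -/
theorem descartes_circle_theorem {z : Fin 4 → ℂ} {k : Fin 4 → ℝ} (hk : ∀ i, k i ≠ 0)
    (h : ∀ i j, i ≠ j → dist (z i) (z j) = |1 / k i + 1 / k j|) :
    (∑ i, k i) ^ 2 = 2 * ∑ i, k i ^ 2 :=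
  Apollonian.descartes ⟨hk, h⟩

/-- **Descartes**, for four circles touching each other externally. -/
theorem descartes_circle_external {z : Fin 4 → ℂ} {r : Fin 4 → ℝ} (hr : ∀ i, 0 < r i)
    (h : ∀ i j, i ≠ j → dist (z i) (z j) = r i + r j) :
    (∑ i, 1 / r i) ^ 2 = 2 * ∑ i, (1 / r i) ^ 2 :=
  Apollonian.descartes_external hr h

/-- Of four mutually tangent circles each can be replaced by a second circle tangent to the other
three, of curvature `2 ∑ k - 3 k i`. -/
theorem apollonian_reflection {z : Fin 4 → ℂ} {k : Fin 4 → ℝ} (hk : ∀ i, k i ≠ 0)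
    (h : ∀ i j, i ≠ j → dist (z i) (z j) = |1 / k i + 1 / k j|) (i : Fin 4)
    (hm : 2 * ∑ j, k j - 3 * k i ≠ 0) :
    ∃ w : ℂ, ∀ j, j ≠ i →
      dist w (z j) = |1 / (2 * ∑ l, k l - 3 * k i) + 1 / k j| :=
  Apollonian.exists_step ⟨hk, h⟩ i hm

/-- **Integral Apollonian packings**: replacing circles of an integral quadruple by circles tangent
to the other three, again and again, gives only integral curvatures. -/
theorem apollonian_integrality {P Q : (Fin 4 → ℂ) × (Fin 4 → ℝ)} (hk : ∀ i, P.2 i ≠ 0)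
    (h : ∀ i j, i ≠ j → dist (P.1 i) (P.1 j) = |1 / P.2 i + 1 / P.2 j|)
    (hint : ∀ i, ∃ n : ℤ, P.2 i = n)
    (hPQ : Relation.ReflTransGen
      (fun S T : (Fin 4 → ℂ) × (Fin 4 → ℝ) => ∃ i w m, m ≠ 0 ∧
        (∀ j, j ≠ i → dist w (S.1 j) = |1 / m + 1 / S.2 j|) ∧
        T = (Function.update S.1 i w, Function.update S.2 i m)) P Q) :
    ∀ i, ∃ n : ℤ, Q.2 i = n :=
  (Apollonian.integral_packing ⟨hk, h⟩ hint hPQ).2

/-- The root quadruple `(-1, 2, 2, 3)` is realised by circles. -/
theorem apollonian_packing_example : ∃ z : Fin 4 → ℂ, ∀ i j, i ≠ j →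
    dist (z i) (z j) = |1 / ![(-1 : ℝ), 2, 2, 3] i + 1 / ![(-1 : ℝ), 2, 2, 3] j| :=
  ⟨_, Apollonian.tangent_example.2⟩

/-- Every integral Descartes quadruple of positive sum descends to a root quadruple: no entry
exceeds half the sum, some entry is not positive, and at most one is negative. -/
theorem apollonian_root_quadruple {p : Fin 4 → ℤ} (hp : (∑ i, p i) ^ 2 = 2 * ∑ i, p i ^ 2)
    (hs : 0 < ∑ i, p i) :
    ∃ q : Fin 4 → ℤ, Relation.ReflTransGen
        (fun a b : Fin 4 → ℤ => ∃ i, b = Function.update a i (2 * ∑ j, a j - 3 * a i)) p q ∧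
      (∑ i, q i) ^ 2 = 2 * ∑ i, q i ^ 2 ∧ (∀ i, 2 * q i ≤ ∑ j, q j) ∧ (∃ i, q i ≤ 0) ∧
      ∀ i j, i ≠ j → 0 ≤ q i ∨ 0 ≤ q j :=
  Apollonian.exists_root_quadruple hp hs

end FA.Summary
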