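import Fermat.Agent.ApproximationFailures.Chatelet
import Fermat.Agent.ApproximationFailures.Integral

/-!
# Summary: weak approximation and the integral Hasse principle fail

On the smooth Châtelet surface `y² + z² = (4 x - 7) (x² - 2)` of Swinnerton-Dyer there are infinitely
many rational points, all with `x ≥ 7/4`, and real points outside their closure
(`weak_approximation_fails`). The equation `-9 x² + 2 x y + 7 y² + 2 z² = 1` of Borovoi and Rudnick,
with a nondegenerate indefinite form, has solutions in `ℚ`, `ℝ` and every `ℤ_p` and none in `ℤ`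
(`integral_hasse_fails`).

Not claimed: Brauer–Manin sets, spinor genera.
-/

set_option autoImplicit false
set_option linter.style.haveILetI false

noncomputable section

open Polynomial

namespace FA.ApproximationFailures.Summary

/-- **Swinnerton-Dyer: weak approximation fails.** -/
theorem weak_approximation_fails :
    ((Polynomial.C (4 : ℚ) * Polynomial.X - Polynomial.C 7) *
        (Polynomial.X ^ 2 - Polynomial.C 2)).Separable ∧
      {P : ℚ × ℚ × ℚ | P.2.1 ^ 2 + P.2.2 ^ 2 = (4 * P.1 - 7) * (P.1 ^ 2 - 2)}.Infinite ∧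
      (∀ x y z : ℚ, y ^ 2 + z ^ 2 = (4 * x - 7) * (x ^ 2 - 2) → 7 / 4 ≤ x) ∧
      ∃ P : ℝ × ℝ × ℝ, P.2.1 ^ 2 + P.2.2 ^ 2 = (4 * P.1 - 7) * (P.1 ^ 2 - 2) ∧
        P ∉ closure ((fun Q : ℚ × ℚ × ℚ => ((Q.1 : ℝ), (Q.2.1 : ℝ), (Q.2.2 : ℝ))) ''
          {Q | Q.2.1 ^ 2 + Q.2.2 ^ 2 = (4 * Q.1 - 7) * (Q.1 ^ 2 - 2)}) :=
  ⟨chatelet_separable, infinite_rational_points, fun _ _ _ h => le_of_rational_point h,
    exists_real_point_not_closure⟩

/-- **Borovoi and Rudnick: the integral Hasse principle fails.** -/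
theorem integral_hasse_fails :
    (∃ x y z : ℚ, -9 * x ^ 2 + 2 * x * y + 7 * y ^ 2 + 2 * z ^ 2 = 1) ∧
      (∃ x y z : ℝ, -9 * x ^ 2 + 2 * x * y + 7 * y ^ 2 + 2 * z ^ 2 = 1) ∧
      (∀ (p : ℕ) [Fact p.Prime],
        ∃ x y z : ℤ_[p], -9 * x ^ 2 + 2 * x * y + 7 * y ^ 2 + 2 * z ^ 2 = 1) ∧
      ¬∃ x y z : ℤ, -9 * x ^ 2 + 2 * x * y + 7 * y ^ 2 + 2 * z ^ 2 = 1 :=
  ⟨⟨_, _, _, br_rational⟩, ⟨3 / 8, -5 / 8, 0, by norm_num⟩, fun p _ => br_padic p,
    fun ⟨x, y, z, h⟩ => br_no_integral x y z h⟩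

/-- The form is nondegenerate. -/
theorem ternary_form_det :
    Matrix.det !![(-9 : ℚ), 1, 0; 1, 7, 0; 0, 0, 2] = -128 :=
  br_det

end FA.ApproximationFailures.Summary
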