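import Fermat.Agent.Arboreal.Stoll

/-!
# Arboreal Galois representations

Primitive divisors in the critical orbit of `x² + a` and Stoll's theorem on the Galois groups of
the iterates of `X² + a`; all statements are unconditional.
-/

set_option autoImplicit false

noncomputable section

open Polynomial

namespace FA.Summary

/-- **Rice**: for `a ≠ 0, -1, -2` every term from the second on of the orbit
`a, a² + a, (a² + a)² + a, …` has a primitive prime divisor. -/
theorem orbit_primitive_divisor {a : ℤ} (h0 : a ≠ 0) (h1 : a ≠ -1) (h2 : a ≠ -2) {n : ℕ}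
    (hn : 2 ≤ n) :
    ∃ p : ℕ, p.Prime ∧ (p : ℤ) ∣ FA.Arboreal.orbit a n ∧
      ∀ d, 0 < d → d < n → ¬(p : ℤ) ∣ FA.Arboreal.orbit a d := by
  obtain ⟨p, hp, -, h3, h4⟩ := FA.Arboreal.exists_primitive h0 h1 h2 hn
  exact ⟨p, hp, h3, h4⟩

/-- Infinitely many primes divide the critical orbit. -/
theorem orbit_infinitely_many_primes {a : ℤ} (h0 : a ≠ 0) (h1 : a ≠ -1) (h2 : a ≠ -2) :
    {p : ℕ | p.Prime ∧ ∃ n, 0 < n ∧ (p : ℤ) ∣ FA.Arboreal.orbit a n}.Infinite :=
  FA.Arboreal.infinite_prime_divisors h0 h1 h2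

/-- **Stoll's theorem.** Let `a > 0`, `a ≡ 1, 2 (mod 4)`, or `a < 0`, `a ≡ 0 (mod 4)`, with `-a`
not a square. Every iterate of `X² + a` is irreducible and its Galois group is the full iterated
wreath product of the group of order two. -/
theorem stoll_iterates {a : ℤ}
    (h : (0 < a ∧ (a % 4 = 1 ∨ a % 4 = 2)) ∨ (a < 0 ∧ a % 4 = 0)) (hsq : ¬IsSquare (-a))
    (m : ℕ) :
    Irreducible (FA.Arboreal.iterPoly a m) ∧
      Nat.card (FA.Arboreal.iterPoly a m).Gal = 2 ^ (2 ^ m - 1) ∧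
      Nonempty ((FA.Arboreal.iterPoly a m).Gal ≃*
        IteratedWreathProduct (Multiplicative (ZMod 2)) m) :=
  ⟨(FA.Arboreal.tower_main h hsq m).2, FA.Arboreal.card_gal_iterPoly h hsq m,
    FA.Arboreal.nonempty_gal_mulEquiv h hsq m⟩

/-- The Sylow `2`-subgroups of the symmetric groups of degree `2 ^ m` are Galois groups over
`ℚ`. -/
theorem sylow_two_inverse_galois (m : ℕ) (P : Sylow 2 (Equiv.Perm (Fin (2 ^ m)))) :
    ∃ f : ℚ[X], Irreducible f ∧ f.natDegree = 2 ^ m ∧ Nonempty (f.Gal ≃* P) := by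
  obtain ⟨h1, -, ⟨e⟩⟩ := stoll_iterates (a := 1) (Or.inl ⟨one_pos, Or.inl rfl⟩)
    (fun ⟨r, hr⟩ => by nlinarith [mul_self_nonneg r]) m
  exact ⟨_, h1, FA.Arboreal.iterPoly_natDegree 1 m, ⟨e.trans
    (Sylow.mulEquivIteratedWreathProduct 2 m _ (Nat.card_fin _) (Multiplicative (ZMod 2))
      (by simp) P).symm⟩⟩

end FA.Summary

end
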