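import Fermat.Agent.Arf.Main

/-!
# The Arf invariant

`Q` is a quadratic form over the field with two elements on a finite space, nondegenerate if no
nonzero vector is polar to all.

* `gauss_sum_arf`: the sum of `(-1) ^ Q` squares to the number of vectors, so the dimension is `2 m`
  and there are `2 ^ (2 m - 1) ± 2 ^ (m - 1)` zeros, the sign being the Arf invariant;
* `arf_classification`: the dimension and this sum determine the form up to isometry;
* `arf_normal_form`: a sum of `m` hyperbolic planes, the first perhaps replaced by `x² + x y + y²`;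
* `arf_additive`: the sums multiply on orthogonal sums;
* `two_planes`: two anisotropic planes are isometric to two hyperbolic ones;
* `zeros_example`: `x y + z w` has ten zeros and `x² + x y + y² + z w` six.
-/

set_option autoImplicit false

noncomputable section

namespace FA.Arf.Summary

open QuadraticMap (polar linMulLin)

variable {V : Type*} [AddCommGroup V] [Module (ZMod 2) V] [Fintype V]

/-- **Arf's count.** -/
theorem gauss_sum_arf (Q : QuadraticForm (ZMod 2) V)
    (hQ : ∀ v, (∀ w, polar Q v w = 0) → v = 0) :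
    (∑ v, if Q v = 0 then (1 : ℤ) else -1) ^ 2 = Fintype.card V ∧
      ∃ m : ℕ, Module.finrank (ZMod 2) V = 2 * m ∧
        (2 * ((Finset.univ.filter fun v => Q v = 0).card : ℤ) = 2 ^ (2 * m) + 2 ^ m ∨
          2 * ((Finset.univ.filter fun v => Q v = 0).card : ℤ) = 2 ^ (2 * m) - 2 ^ m) := by
  refine ⟨gaussSum_sq hQ, ?_⟩
  obtain ⟨m, hm, hS⟩ := exists_gaussSum_eq hQ
  refine ⟨m, hm, ?_⟩
  have h := two_mul_card_zeros Q
  rw [Module.card_eq_pow_finrank (K := ZMod 2) (V := V), ZMod.card, hm] at h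
  push_cast at h
  rcases hS with e | e <;> rw [e] at h
  · exact Or.inl h
  · exact Or.inr h

/-- **Classification by the Arf invariant.** -/
theorem arf_classification {V' : Type*} [AddCommGroup V'] [Module (ZMod 2) V'] [Fintype V']
    (Q : QuadraticForm (ZMod 2) V) (Q' : QuadraticForm (ZMod 2) V')
    (hQ : ∀ v, (∀ w, polar Q v w = 0) → v = 0) (hQ' : ∀ v, (∀ w, polar Q' v w = 0) → v = 0) :
    Q.Equivalent Q' ↔ Module.finrank (ZMod 2) V = Module.finrank (ZMod 2) V' ∧
      (∑ v, if Q v = 0 then (1 : ℤ) else -1) = ∑ v, if Q' v = 0 then (1 : ℤ) else -1 :=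
  ⟨fun ⟨e⟩ => ⟨e.toLinearEquiv.finrank_eq, gaussSum_congr e.toLinearEquiv.toEquiv e.map_app⟩,
    fun h => equivalent_of_eq _ hQ hQ' rfl h.1.symm h.2⟩

omit [Fintype V] in
theorem sgn_sum {ι : Type*} [Fintype ι] (g : ι → ZMod 2) : sgn (∑ i, g i) = ∏ i, sgn (g i) := by
  induction (Finset.univ : Finset ι) using Finset.cons_induction with
  | empty => rfl
  | cons i s hi ih => rw [Finset.sum_cons, Finset.prod_cons, sgn_add, ih]

/-- The summand of the normal form. -/
def planeVal (ε : Bool) (p : ZMod 2 × ZMod 2) : ZMod 2 :=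
  p.1 * p.2 + cond ε (p.1 * p.1 + p.2 * p.2) 0

/-- The normal form with twisted planes where `ε`. -/
def normalForm {m : ℕ} (ε : Fin m → Bool) :
    QuadraticForm (ZMod 2) (Fin m → ZMod 2 × ZMod 2) :=
  ∑ i, (linMulLin (LinearMap.fst _ _ _ ∘ₗ LinearMap.proj i)
      (LinearMap.snd _ _ _ ∘ₗ LinearMap.proj i)
    + cond (ε i) (linMulLin (LinearMap.fst _ _ _ ∘ₗ LinearMap.proj i)
        (LinearMap.fst _ _ _ ∘ₗ LinearMap.proj i) +
      linMulLin (LinearMap.snd _ _ _ ∘ₗ LinearMap.proj i)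
        (LinearMap.snd _ _ _ ∘ₗ LinearMap.proj i)) 0)

theorem normalForm_apply {m : ℕ} (ε : Fin m → Bool) (x : Fin m → ZMod 2 × ZMod 2) :
    normalForm ε x = ∑ i, planeVal (ε i) (x i) := by
  rw [normalForm, sum_apply]
  refine Finset.sum_congr rfl fun i _ => ?_
  cases ε i <;> simp [planeVal]

theorem polar_planeVal : ∀ (ε : Bool) (p q : ZMod 2 × ZMod 2),
    planeVal ε (p + q) - planeVal ε p - planeVal ε q = p.1 * q.2 + p.2 * q.1 := by decide

theorem nondeg_normalForm {m : ℕ} (ε : Fin m → Bool) : Nondeg (normalForm ε) := fun v h => by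
  have hp : ∀ w, polar (normalForm ε) v w = ∑ i, ((v i).1 * (w i).2 + (v i).2 * (w i).1) :=
    fun w => by
      simp only [polar, normalForm_apply, ← Finset.sum_sub_distrib, Pi.add_apply, polar_planeVal]
  funext i
  have h1 := h (Pi.single i (0, 1))
  have h2 := h (Pi.single i (1, 0))
  rw [hp, Finset.sum_eq_single i (fun j _ hj => by simp [Pi.single_eq_of_ne hj]) (by simp)] at h1 h2
  refine Prod.ext ?_ ?_
  · simpa using h1
  · simpa using h2

theorem sum_planeVal : ∀ ε : Bool, ∑ p, sgn (planeVal ε p) = cond ε (-2) 2 := by decide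

theorem gaussSum_normalForm {m : ℕ} (ε : Fin m → Bool) :
    gaussSum (normalForm ε) = ∏ i, cond (ε i) (-2 : ℤ) 2 := by
  simp only [gaussSum, normalForm_apply, sgn_sum, ← sum_planeVal]
  exact (Fintype.prod_sum fun i p => sgn (planeVal (ε i) p)).symm

/-- **Normal form.** -/
theorem arf_normal_form (Q : QuadraticForm (ZMod 2) V)
    (hQ : ∀ v, (∀ w, polar Q v w = 0) → v = 0) :
    ∃ (m : ℕ) (ε : ℕ) (e : V ≃ₗ[ZMod 2] (Fin m → ZMod 2 × ZMod 2)), ε ≤ 1 ∧
      ∀ v, Q v = ∑ i : Fin m, ((e v i).1 * (e v i).2 +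
        if (i : ℕ) < ε then (e v i).1 * (e v i).1 + (e v i).2 * (e v i).2 else 0) := by
  classical
  obtain ⟨m, hm, hS⟩ := exists_gaussSum_eq hQ
  obtain ⟨ε, hε, hval⟩ : ∃ ε : ℕ, ε ≤ 1 ∧
      gaussSum Q = ∏ i : Fin m, cond (decide ((i : ℕ) < ε)) (-2 : ℤ) 2 := by
    rcases hS with e | e
    · exact ⟨0, by norm_num, by simp [e]⟩
    · cases m with
      | zero =>
        refine absurd e ?_
        have hsub : Subsingleton V := Module.finrank_zero_iff (R := ZMod 2).1 (by simpa using hm)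
        simp [gaussSum, Subsingleton.elim (_ : V) 0, sgn]
      | succ m => exact ⟨1, le_rfl, by rw [e, Fin.prod_univ_succ]; simp [pow_succ']⟩
  obtain ⟨f⟩ := equivalent_of_eq (Module.finrank (ZMod 2) V) hQ
    (nondeg_normalForm fun i : Fin m => decide ((i : ℕ) < ε)) rfl
    (by rw [Module.finrank_pi_fintype, Finset.sum_congr rfl fun i _ => Module.finrank_prod]
        simp [hm, mul_comm])
    (hval.trans (gaussSum_normalForm _).symm)
  refine ⟨m, ε, f.toLinearEquiv, hε, fun v => ?_⟩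
  rw [← f.map_app, normalForm_apply]
  refine Finset.sum_congr rfl fun i _ => ?_
  by_cases h : (i : ℕ) < ε <;> simp [planeVal, h]

/-- **The sums multiply.** -/
theorem arf_additive {V' : Type*} [AddCommGroup V'] [Module (ZMod 2) V'] [Fintype V']
    (Q : QuadraticForm (ZMod 2) V) (Q' : QuadraticForm (ZMod 2) V') :
    (∑ v, if QuadraticMap.prod Q Q' v = 0 then (1 : ℤ) else -1) =
      (∑ v, if Q v = 0 then (1 : ℤ) else -1) * ∑ v, if Q' v = 0 then (1 : ℤ) else -1 := by
  rw [Fintype.sum_prod_type, Finset.sum_mul_sum]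
  exact Finset.sum_congr rfl fun a _ => Finset.sum_congr rfl fun b _ => by
    show sgn (Q a + Q' b) = sgn (Q a) * sgn (Q' b)
    exact sgn_add _ _

omit [Fintype V] in
/-- **Two anisotropic planes.** -/
theorem two_planes :
    ∃ e : ((ZMod 2 × ZMod 2) × (ZMod 2 × ZMod 2)) ≃ₗ[ZMod 2]
        ((ZMod 2 × ZMod 2) × (ZMod 2 × ZMod 2)),
      ∀ x : (ZMod 2 × ZMod 2) × (ZMod 2 × ZMod 2),
        (e x).1.1 * (e x).1.2 + (e x).2.1 * (e x).2.2 =
        (x.1.1 * x.1.1 + x.1.1 * x.1.2 + x.1.2 * x.1.2) +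
          (x.2.1 * x.2.1 + x.2.1 * x.2.2 + x.2.2 * x.2.2) := by
  let q : (Fin 2 → ZMod 2 × ZMod 2) ≃ₗ[ZMod 2] (ZMod 2 × ZMod 2) × (ZMod 2 × ZMod 2) :=
    LinearEquiv.finTwoArrow (ZMod 2) (ZMod 2 × ZMod 2)
  obtain ⟨f⟩ := equivalent_of_eq (Module.finrank (ZMod 2) (Fin 2 → ZMod 2 × ZMod 2))
    (nondeg_normalForm fun _ : Fin 2 => true) (nondeg_normalForm fun _ : Fin 2 => false) rfl rfl
    (by rw [gaussSum_normalForm, gaussSum_normalForm]; rfl)
  refine ⟨q.symm.trans (f.toLinearEquiv.trans q), fun x => ?_⟩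
  have h := f.map_app (q.symm x)
  rw [normalForm_apply, normalForm_apply, Fin.sum_univ_two, Fin.sum_univ_two] at h
  simp [planeVal, q] at h ⊢
  rw [h]
  ring

omit [Fintype V] in
/-- **Counting zeros.** -/
theorem zeros_example :
    ((Finset.univ : Finset ((ZMod 2 × ZMod 2) × (ZMod 2 × ZMod 2))).filter fun x =>
      x.1.1 * x.1.2 + x.2.1 * x.2.2 = 0).card = 10 ∧
    ((Finset.univ : Finset ((ZMod 2 × ZMod 2) × (ZMod 2 × ZMod 2))).filter fun x =>
      x.1.1 * x.1.1 + x.1.1 * x.1.2 + x.1.2 * x.1.2 + x.2.1 * x.2.2 = 0).card = 6 := by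
  decide

end FA.Arf.Summary
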