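import Fermat.Agent.ArgumentMean.Main

/-!
# The mean value of the argument of `ζ` (Littlewood 1924)

With `S t = N t - θ t / π - 1`, where `θ` is the argument of `Γℝ (1/2 + it)`, one has
`∫_0^T S = O (log T)`, without any hypothesis. Stirling's formula with its constant gives
`θ t / π + 1 = t/2π log (t/2π) - t/2π + 7/8 + O (1/t)`, so the statements use `argTerm`, the
difference of `N t` and this main term. The mean of `|S|` is bounded below, so `S` changes sign.

Sharp constants and the moments of `S` are not claimed.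
-/

set_option autoImplicit false

noncomputable section

namespace FA.ArgumentMean.Summary

open Complex Filter MeasureTheory FA.RiemannMangoldt
open scoped Real

/-- The term studied. -/
theorem argTerm_spec (t : ℝ) :
    argTerm t = (zeroCount t : ℝ) - mainTerm t - 7 / 8 ∧
      mainTerm t = t / (2 * π) * Real.log (t / (2 * π)) - t / (2 * π) ∧
      thetaFn t = (logGammaReal (((1 / 2 : ℝ) : ℂ) + t * I)).im :=
  ⟨rfl, rfl, rfl⟩

/-- **Stirling's formula for `θ`, with its constant.** -/
theorem theta_stirling {t : ℝ} (ht : 0 < t) :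
    |thetaFn t - (t / 2 * Real.log (t / (2 * π)) - t / 2 - π / 8)| ≤ 10 / t :=
  abs_thetaFn_sub_le ht

/-- `argTerm` is `S`, up to `O (1/t)`. -/
theorem argTerm_eq_classical {t : ℝ} (ht : 0 < t) :
    |argTerm t - ((zeroCount t : ℝ) - thetaFn t / π - 1)| ≤ 4 / t := by
  have h := theta_stirling ht
  have e : argTerm t - ((zeroCount t : ℝ) - thetaFn t / π - 1) =
      (thetaFn t - (t / 2 * Real.log (t / (2 * π)) - t / 2 - π / 8)) / π := by
    have := Real.pi_ne_zero
    rw [argTerm, mainTerm]
    field_simp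
    ring
  rw [e, abs_div, abs_of_pos Real.pi_pos, div_le_iff₀ Real.pi_pos]
  refine h.trans ?_
  rw [div_mul_eq_mul_div]
  exact div_le_div_of_nonneg_right (by linarith [Real.pi_gt_three]) ht.le

/-- **Littlewood's theorem**: `∫_0^T S = O (log T)`. -/
theorem littlewood_mean : ∃ C : ℝ, ∀ T : ℝ, 2 ≤ T →
    |∫ t in (0 : ℝ)..T, argTerm t| ≤ C * Real.log T := by
  obtain ⟨C, -, h⟩ := exists_littlewood_mean
  exact ⟨C, h⟩

/-- **The sum `∑ (T - γ)`** over the zeros with `0 < γ ≤ T`, with multiplicity. -/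
theorem sum_height_differences : ∃ C : ℝ, ∀ T : ℝ, 2 ≤ T →
    |(∑ ρ ∈ (finite_zetaZeros T).toFinset, (analyticOrderNatAt riemannZeta ρ : ℝ) * (T - ρ.im)) -
      ((∫ t in (0 : ℝ)..T, mainTerm t) + 7 / 8 * T)| ≤ C * Real.log T := by
  obtain ⟨C, -, h⟩ := exists_littlewood_mean
  refine ⟨C, fun T hT => ?_⟩
  rw [← integral_zeroCount (by linarith)]
  refine le_trans (le_of_eq ?_) (h T hT)
  congr 1
  unfold argTerm
  rw [intervalIntegral.integral_sub ((intervalIntegrable_zeroCount 0 T).sub
    (continuous_mainTerm.intervalIntegrable 0 T)) intervalIntegrable_const,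
    intervalIntegral.integral_sub (intervalIntegrable_zeroCount 0 T)
      (continuous_mainTerm.intervalIntegrable 0 T)]
  simp
  ring

/-- **`S` is not small on average.** -/
theorem mean_abs_lower : ∃ T₀ : ℝ, ∀ T : ℝ, T₀ ≤ T →
    T / 16 ≤ ∫ t in T..2 * T, |argTerm t| :=
  eventually_atTop.1 eventually_mean_abs

/-- **`S` changes sign in every interval `[T, 2T]`**, `T` large. -/
theorem sign_changes : ∃ T₀ : ℝ, ∀ T : ℝ, T₀ ≤ T →
    (∃ t ∈ Set.Icc T (2 * T), 1 / 80 < argTerm t) ∧
      ∃ t ∈ Set.Icc T (2 * T), argTerm t < -(1 / 80) :=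
  eventually_atTop.1 eventually_sign_change

end FA.ArgumentMean.Summary

end
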