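import Fermat.Agent.ArithmeticDynamics.Height
import Fermat.Agent.ArithmeticDynamics.Silverman

/-!
# Arithmetic dynamics on the projective line

A rational function `P / Q`, `P` and `Q` coprime, of degree `d = max (deg P, deg Q) ≥ 2` over a
number field acts on `OnePoint K` (`rational_map_apply`). It has a canonical height, within a
bounded distance of the height and multiplied by `d` under the map, which vanishes exactly at the
preperiodic points (`dynamical_canonical_height`); so there are finitely many of these (Northcott).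

Silverman's theorem: if `φ ∘ φ` is no polynomial, that is its denominator
`∑ Q_i P ^ i Q ^ (d - i)` is not constant, then `φ^[4] z` is an `S`-integer for finitely many `z`,
and every orbit has finitely many `S`-integers (`silverman_orbit`). The hypothesis is needed:
`z ↦ z⁻²` iterates twice to `z ^ 4` and the orbit of `2` has infinitely many integers
(`silverman_sharp`).
-/

set_option autoImplicit false

noncomputable section

open Polynomial OnePoint NumberField IsDedekindDomain

namespace FA.Summary

variable {K : Type*} [Field K]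

/-- The action of `P / Q` on the projective line. -/
theorem rational_map_apply [DecidableEq K] (P Q : K[X]) (z : K) :
    ArithmeticDynamics.ratApply P Q z = (if Q.eval z = 0 then ∞ else ↑(P.eval z / Q.eval z)) ∧
      ArithmeticDynamics.ratApply P Q ∞ =
        if Q.coeff (max P.natDegree Q.natDegree) = 0 then ∞
        else ↑(P.coeff (max P.natDegree Q.natDegree) / Q.coeff (max P.natDegree Q.natDegree)) := by
  rw [ArithmeticDynamics.ratApply_coe, ArithmeticDynamics.ratApply_infty,
    ArithmeticDynamics.degree]
  constructor <;> congr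

variable [NumberField K]

/-- **The canonical height of a rational function.** -/
theorem dynamical_canonical_height {P Q : K[X]} (hc : IsCoprime P Q)
    (hd : 2 ≤ max P.natDegree Q.natDegree) :
    ∃ h : OnePoint K → ℝ, (∃ C, ∀ z : K, |h z - Height.logHeight₁ z| ≤ C) ∧
      (∀ x, h (ArithmeticDynamics.ratApply P Q x) = max P.natDegree Q.natDegree * h x) ∧
      ∀ x, h x = 0 ↔ (Set.range fun n => (ArithmeticDynamics.ratApply P Q)^[n] x).Finite := by
  obtain ⟨C, hC⟩ := ArithmeticDynamics.exists_tendsto_canonicalHeight hc hd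
  refine ⟨ArithmeticDynamics.canonicalHeight P Q, ⟨C, fun z => ?_⟩, fun x => ?_, fun x =>
    ArithmeticDynamics.canonicalHeight_eq_zero_iff hc hd x⟩
  · simpa [ArithmeticDynamics.pointHeight_coe] using (hC z).2
  · rw [ArithmeticDynamics.canonicalHeight_ratApply hc hd]
    simp [ArithmeticDynamics.degree]

/-- **Northcott's theorem**: finitely many preperiodic points in `ℙ¹(K)`. -/
theorem northcott_preperiodic {P Q : K[X]} (hc : IsCoprime P Q)
    (hd : 2 ≤ max P.natDegree Q.natDegree) :
    {x : OnePoint K |
      (Set.range fun n => (ArithmeticDynamics.ratApply P Q)^[n] x).Finite}.Finite :=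
  ArithmeticDynamics.finite_preperiodic hc hd

/-- **Silverman's theorem**: `φ^[4] z` is an `S`-integer for finitely many `z` only. -/
theorem silverman_fourth_iterate {P Q : K[X]} (hc : IsCoprime P Q)
    (hd : 2 ≤ max P.natDegree Q.natDegree)
    (hsq : 0 < (∑ i ∈ Finset.range (max P.natDegree Q.natDegree + 1),
      C (Q.coeff i) * P ^ i * Q ^ (max P.natDegree Q.natDegree - i)).natDegree)
    (S : Finset (HeightOneSpectrum (𝓞 K))) :
    {x : OnePoint K | ∃ t : K, (∀ v ∉ S, HeightOneSpectrum.adicAbv K v t ≤ 1) ∧
      (ArithmeticDynamics.ratApply P Q)^[4] x = t}.Finite :=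
  ArithmeticDynamics.finite_sIntegral_fourth hc hd hsq S

/-- **Silverman's theorem**: every orbit contains finitely many `S`-integers. -/
theorem silverman_orbit {P Q : K[X]} (hc : IsCoprime P Q)
    (hd : 2 ≤ max P.natDegree Q.natDegree)
    (hsq : 0 < (∑ i ∈ Finset.range (max P.natDegree Q.natDegree + 1),
      C (Q.coeff i) * P ^ i * Q ^ (max P.natDegree Q.natDegree - i)).natDegree)
    (S : Finset (HeightOneSpectrum (𝓞 K))) (x : OnePoint K) :
    {t : K | (∀ v ∉ S, HeightOneSpectrum.adicAbv K v t ≤ 1) ∧
      ∃ n, (ArithmeticDynamics.ratApply P Q)^[n] x = t}.Finite :=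
  ArithmeticDynamics.finite_sIntegral_orbit hc hd hsq S x

/-- **Silverman's theorem**: a wandering point is `S`-integral finitely often. -/
theorem silverman_orbit_times {P Q : K[X]} (hc : IsCoprime P Q)
    (hd : 2 ≤ max P.natDegree Q.natDegree)
    (hsq : 0 < (∑ i ∈ Finset.range (max P.natDegree Q.natDegree + 1),
      C (Q.coeff i) * P ^ i * Q ^ (max P.natDegree Q.natDegree - i)).natDegree)
    (S : Finset (HeightOneSpectrum (𝓞 K))) {x : OnePoint K}
    (hx : (Set.range fun n => (ArithmeticDynamics.ratApply P Q)^[n] x).Infinite) :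
    {n : ℕ | ∃ t : K, (∀ v ∉ S, HeightOneSpectrum.adicAbv K v t ≤ 1) ∧
      (ArithmeticDynamics.ratApply P Q)^[n] x = t}.Finite :=
  ArithmeticDynamics.finite_sIntegral_times hc hd hsq S hx

/-- **Sharpness**: for `z ↦ z⁻²` the denominator of `φ ∘ φ` is constant and the orbit of `2`
contains infinitely many integers. -/
theorem silverman_sharp :
    IsCoprime (1 : ℚ[X]) (X ^ 2) ∧
    (∑ i ∈ Finset.range 3, C ((X ^ 2 : ℚ[X]).coeff i) * 1 ^ i * (X ^ 2) ^ (2 - i)).natDegree = 0 ∧
    {t : ℤ | ∃ n, (ArithmeticDynamics.ratApply (1 : ℚ[X]) (X ^ 2))^[n] (2 : ℚ) =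
      ((t : ℚ) : OnePoint ℚ)}.Infinite := by
  refine ⟨isCoprime_one_left, ?_, ?_⟩
  · simp [Finset.sum_range_succ, coeff_X_pow]
  have h : ∀ k : ℕ, (ArithmeticDynamics.ratApply (1 : ℚ[X]) (X ^ 2))^[2 * k] (2 : ℚ) =
      (((2 : ℤ) ^ 4 ^ k : ℤ) : ℚ) := by
    intro k
    induction k with
    | zero => simp
    | succ k ih =>
      rw [mul_add, mul_one, add_comm, Function.iterate_add_apply, ih, Function.iterate_succ_apply,
        Function.iterate_one, ArithmeticDynamics.ratApply_coe, if_neg (by simp),
        ArithmeticDynamics.ratApply_coe, if_neg (by simp)]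
      congr 1
      simp only [eval_one, eval_pow, eval_X, one_div, inv_pow, inv_inv, Int.cast_pow, ← pow_mul]
      congr 1
      ring
  refine Set.infinite_of_injective_forall_mem (f := fun k : ℕ => (2 : ℤ) ^ 4 ^ k) ?_ fun k =>
    ⟨2 * k, by rw [h k]⟩
  exact (pow_right_injective₀ (by norm_num) (by norm_num)).comp
    (Nat.pow_right_injective (by norm_num : 2 ≤ 4))

end FA.Summary

end
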