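import Fermat.Agent.ArtinL.EightRoots

/-!
# Arithmetically equivalent number fields

* `perlis_invariants`: number fields with equal zeta functions have the same degree, the same
  numbers of real and complex places and the same number of roots of unity;
* `zeta_determines_normalClosure`: they have the same normal closure in an algebraic closure of `ℚ`;
* `zeta_determines_classNumber_regulator`: and the same `h R / √|d|`;
* `perlis_example`: a field of degree `8` with an eighth root of `3` and one with an eighth root of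
  `48` have equal zeta functions and are not isomorphic;
* `zeta_not_determines_field`: so the zeta function does not determine a number field.

The discriminants, and `h` and `R` separately, are not compared.
-/

set_option autoImplicit false
set_option linter.style.haveILetI false
set_option linter.unusedSectionVars false

noncomputable section

open NumberField Module Filter Topology IntermediateField FA.ArtinL

namespace FA.Summary

section invariants

variable (F F' : Type*) [Field F] [NumberField F] [Field F'] [NumberField F']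

/-- **Invariants of the zeta function.** -/
theorem perlis_invariants (h : ∀ s : ℂ, 1 < s.re → dedekindZeta F s = dedekindZeta F' s) :
    finrank ℚ F = finrank ℚ F' ∧
      InfinitePlace.nrRealPlaces F = InfinitePlace.nrRealPlaces F' ∧
      InfinitePlace.nrComplexPlaces F = InfinitePlace.nrComplexPlaces F' ∧
      Units.torsionOrder F = Units.torsionOrder F' := by
  obtain ⟨N, hfin, hgal, ⟨ι⟩, ⟨ι'⟩⟩ := exists_galois_hull F F'
  haveI : NumberField N := { }
  have hd := zeta_determines_degree F F' h
  have hr := nrRealPlaces_eq ι ι' h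
  refine ⟨hd, hr, ?_, torsionOrder_eq ι ι' h⟩
  have h1 := InfinitePlace.card_add_two_mul_card_eq_rank F
  have h2 := InfinitePlace.card_add_two_mul_card_eq_rank F'
  omega

/-- **The class number times the regulator over the root of the discriminant.** -/
theorem zeta_determines_classNumber_regulator
    (h : ∀ s : ℂ, 1 < s.re → dedekindZeta F s = dedekindZeta F' s) :
    classNumber F * Units.regulator F / Real.sqrt |(discr F : ℝ)| =
      classNumber F' * Units.regulator F' / Real.sqrt |(discr F' : ℝ)| := by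
  obtain ⟨-, hr, hc, hw⟩ := perlis_invariants F F' h
  have hres : (dedekindZeta_residue F : ℂ) = dedekindZeta_residue F' := by
    refine tendsto_nhds_unique (tendsto_sub_one_mul_dedekindZeta_nhdsGT F)
      ((tendsto_sub_one_mul_dedekindZeta_nhdsGT F').congr' ?_)
    filter_upwards [self_mem_nhdsWithin] with s hs
    rw [h s (by simpa using hs)]
  have hres' := Complex.ofReal_injective hres
  rw [dedekindZeta_residue_def, dedekindZeta_residue_def, ← hr, ← hc, ← hw] at hres'
  have hpos : (0 : ℝ) < 2 ^ InfinitePlace.nrRealPlaces F *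
      (2 * Real.pi) ^ InfinitePlace.nrComplexPlaces F / Units.torsionOrder F :=
    div_pos (by positivity) (Nat.cast_pos.2 (Units.torsionOrder_pos F))
  refine mul_left_cancel₀ hpos.ne' ?_
  rw [div_mul_div_comm, div_mul_div_comm]
  convert hres' using 1 <;> ring

/-- The normal closure in the algebraic closure comes from any Galois field with an embedding. -/
theorem normalClosure_map {N : Type*} [Field N] [NumberField N] [IsGalois ℚ N]
    (j : N →ₐ[ℚ] AlgebraicClosure ℚ) {E : Type*} [Field E] [NumberField E] (ε : E →ₐ[ℚ] N) :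
    IntermediateField.normalClosure ℚ E (AlgebraicClosure ℚ) =
      (IntermediateField.normalClosure ℚ E N).map j := by
  refine le_antisymm (normalClosure_le_iff.2 fun f => ?_) ?_
  · obtain ⟨σ, hσ⟩ := exists_comp j ε f
    rw [← hσ, ← AlgHom.map_fieldRange]
    exact IntermediateField.map_mono _ (AlgHom.fieldRange_le_normalClosure _)
  · refine (IntermediateField.gc_map_comap j).l_le (normalClosure_le_iff.2 fun g => ?_)
    refine (IntermediateField.gc_map_comap j).le_u ?_
    rw [AlgHom.map_fieldRange]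
    exact AlgHom.fieldRange_le_normalClosure _

/-- **The zeta function determines the normal closure.** -/
theorem zeta_determines_normalClosure
    (h : ∀ s : ℂ, 1 < s.re → dedekindZeta F s = dedekindZeta F' s) :
    IntermediateField.normalClosure ℚ F (AlgebraicClosure ℚ) =
      IntermediateField.normalClosure ℚ F' (AlgebraicClosure ℚ) := by
  obtain ⟨N, hfin, hgal, ⟨ι⟩, ⟨ι'⟩⟩ := exists_galois_hull F F'
  haveI : NumberField N := { }
  rw [normalClosure_map N.val ι, normalClosure_map N.val ι', normalClosure_eq ι ι' h]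

end invariants

section example_

open Polynomial

/-- A Galois field with eighth roots of unity, of `3` and of `48`. -/
theorem exists_eight_hull (F : Type*) [Field F] [NumberField F] :
    ∃ N : IntermediateField ℚ (AlgebraicClosure ℚ), FiniteDimensional ℚ N ∧ IsGalois ℚ N ∧
      (∃ ζ : N, IsPrimitiveRoot ζ 8) ∧ Nonempty (F →ₐ[ℚ] N) := by
  obtain ⟨N, hfin, hgal, ⟨ι⟩, ⟨ι'⟩⟩ := exists_galois_hull (CyclotomicField 8 ℚ) F
  obtain ⟨z, hz⟩ := (CyclotomicField.isCyclotomicExtension 8 ℚ).exists_isPrimitiveRoot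
    (Set.mem_singleton 8) (by norm_num)
  exact ⟨N, hfin, hgal, ⟨_, hz.map_of_injective ι.injective⟩, ⟨ι'⟩⟩

/-- An eighth root of `3` has degree `8`. -/
theorem natDegree_minpoly_three {F : Type*} [Field F] [NumberField F] {x : F} (hx : x ^ 8 = 3) :
    (minpoly ℚ x).natDegree = 8 := by
  obtain ⟨N, hfin, hgal, ⟨ζ, hζ⟩, ⟨ι⟩⟩ := exists_eight_hull F
  haveI : NumberField N := { }
  have ha : (ι x) ^ 8 = 3 := by rw [← map_pow, hx, map_ofNat]
  obtain ⟨τ, hτζ, hτa⟩ := EightRoots.exists_rotation hζ ha
  rw [← minpoly.algHom_eq ι ι.injective,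
    EightRoots.natDegree_minpoly hζ hτζ hτa (EightRoots.a_ne_zero ha) (q := 3) (by simp [ha]),
    natDegree_X_pow_sub_C]

/-- A field of degree `8` is generated by an element of degree `8`. -/
theorem fieldRange_eq_adjoin {F L : Type*} [Field F] [NumberField F] [Field L] [NumberField L]
    (ι : F →ₐ[ℚ] L) {x : F} (hF : finrank ℚ F = 8) (hx : (minpoly ℚ x).natDegree = 8) :
    ι.fieldRange = ℚ⟮ι x⟯ := by
  refine (IntermediateField.eq_of_le_of_finrank_eq
    (adjoin_simple_le_iff.2 (AlgHom.mem_fieldRange.2 ⟨x, rfl⟩)) ?_).symm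
  rw [adjoin.finrank (IsIntegral.of_finite ℚ (ι x)), minpoly.algHom_eq ι ι.injective, hx, ← hF]
  exact (AlgEquiv.ofInjectiveField ι).toLinearEquiv.finrank_eq

/-- **Perlis' example.** -/
theorem perlis_example (F F' : Type*) [Field F] [NumberField F] [Field F'] [NumberField F']
    (hF : finrank ℚ F = 8) (hF' : finrank ℚ F' = 8) {x : F} (hx : x ^ 8 = 3) {y : F'}
    (hy : y ^ 8 = 48) :
    (∀ s : ℂ, 1 < s.re → dedekindZeta F s = dedekindZeta F' s) ∧ IsEmpty (F ≃+* F') := by
  obtain ⟨N, hfin, hgal, ⟨ζ, hζ⟩, ⟨ι⟩⟩ := exists_eight_hull F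
  haveI : NumberField N := { }
  set a := ι x with hadef
  have ha : a ^ 8 = 3 := by rw [hadef, ← map_pow, hx, map_ofNat]
  obtain ⟨τ, hτζ, hτa⟩ := EightRoots.exists_rotation hζ ha
  have hxdeg := natDegree_minpoly_three hx
  have hrange : ι.fieldRange = ℚ⟮a⟯ := fieldRange_eq_adjoin ι hF hxdeg
  set b := EightRoots.sqrtTwo ζ * a with hbdef
  have hb : b ^ 8 = 48 := by
    rw [hbdef, mul_pow, EightRoots.sqrtTwo_pow_eight hζ, ha]
    norm_num
  have hb0 : b ≠ 0 := fun h0 => by simp [h0] at hb
  have hbmin : minpoly ℚ b = X ^ 8 - C 48 :=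
    EightRoots.natDegree_minpoly hζ hτζ (EightRoots.rotation_root hζ ha hτζ hτa hb) hb0
      (q := 48) (by simp [hb])
  have hymin : minpoly ℚ y = minpoly ℚ b :=
    (minpoly.eq_of_irreducible_of_monic (hbmin ▸ minpoly.irreducible (IsIntegral.of_finite ℚ b))
      (by simp [hy]) (monic_X_pow_sub_C _ (by norm_num))).symm.trans hbmin.symm
  have hydeg : (minpoly ℚ y).natDegree = 8 := by rw [hymin, hbmin, natDegree_X_pow_sub_C]
  have htop : ℚ⟮y⟯ = ⊤ := (Field.primitive_element_iff_minpoly_natDegree_eq ℚ y).2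
    (hydeg.trans hF'.symm)
  let pb := IntermediateField.adjoin.powerBasis (IsIntegral.of_finite ℚ y)
  have hlift : aeval b (minpoly ℚ pb.gen) = 0 := by
    rw [show minpoly ℚ pb.gen = minpoly ℚ y from minpoly_gen ℚ y, hymin, minpoly.aeval]
  let ι' : F' →ₐ[ℚ] N := (pb.lift b hlift).comp
    ((IntermediateField.equivOfEq htop).trans IntermediateField.topEquiv).symm.toAlgHom
  have hι'y : ι' y = b := by
    change pb.lift b hlift _ = b
    convert pb.lift_gen b hlift
    exact Subtype.ext rfl
  have hrange' : ι'.fieldRange = ℚ⟮b⟯ := by rw [fieldRange_eq_adjoin ι' hF' hydeg, hι'y]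
  have hzeta : ∀ s : ℂ, 1 < s.re → dedekindZeta F s = dedekindZeta F' s := fun s hs => by
    rw [FA.AbelianZeta.dedekindZeta_congr
        (show F ≃ₐ[ℚ] ι.fieldRange from AlgEquiv.ofInjectiveField ι).toRingEquiv s,
      FA.AbelianZeta.dedekindZeta_congr
        (show F' ≃ₐ[ℚ] ι'.fieldRange from AlgEquiv.ofInjectiveField ι').toRingEquiv s]
    rw [hrange, hrange']
    exact EightRoots.dedekindZeta_eq hζ ha hs
  refine ⟨hzeta, ⟨fun e => ?_⟩⟩
  have hz : (ι (e.symm y)) ^ 8 = 48 := by rw [← map_pow, ← map_pow, hy, map_ofNat, map_ofNat]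
  exact EightRoots.pow_eight_ne hζ ha (by rw [← hrange]; exact ⟨e.symm y, rfl⟩) hz

/-- **The zeta function does not determine a number field.** -/
theorem zeta_not_determines_field :
    ∃ (F F' : IntermediateField ℚ (AlgebraicClosure ℚ)) (_ : NumberField F) (_ : NumberField F'),
      finrank ℚ F = 8 ∧ finrank ℚ F' = 8 ∧
        (∀ s : ℂ, 1 < s.re → dedekindZeta F s = dedekindZeta F' s) ∧ IsEmpty (F ≃+* F') := by
  obtain ⟨α, hα⟩ := IsAlgClosed.exists_pow_nat_eq (3 : AlgebraicClosure ℚ) (by norm_num : 0 < 8)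
  have hint : IsIntegral ℚ α :=
    ((AlgebraicClosure.isAlgebraic ℚ).isAlgebraic α).isIntegral
  haveI : FiniteDimensional ℚ ℚ⟮α⟯ := adjoin.finiteDimensional hint
  haveI : NumberField ℚ⟮α⟯ := { }
  obtain ⟨N, hfin, hgal, ⟨ζ, hζ⟩, ⟨ι⟩⟩ := exists_eight_hull ℚ⟮α⟯
  haveI : NumberField N := { }
  set a := ι (AdjoinSimple.gen ℚ α) with hadef
  have hgen : (AdjoinSimple.gen ℚ α) ^ 8 = 3 := Subtype.ext hα
  have ha : a ^ 8 = 3 := by rw [hadef, ← map_pow, hgen, map_ofNat]
  obtain ⟨τ, hτζ, hτa⟩ := EightRoots.exists_rotation hζ ha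
  set b := EightRoots.sqrtTwo ζ * a with hbdef
  have hb : b ^ 8 = 48 := by
    rw [hbdef, mul_pow, EightRoots.sqrtTwo_pow_eight hζ, ha]
    norm_num
  have hbN : ((b : N) : AlgebraicClosure ℚ) ^ 8 = 48 := by
    have e := congrArg N.val hb
    rwa [map_pow, map_ofNat] at e
  have hbmin := EightRoots.natDegree_minpoly hζ hτζ (EightRoots.rotation_root hζ ha hτζ hτa hb)
    (fun h0 => by simp [h0] at hb) (q := 48) (by simp [hb])
  have hbint : IsIntegral ℚ ((b : N) : AlgebraicClosure ℚ) :=
    ((AlgebraicClosure.isAlgebraic ℚ).isAlgebraic _).isIntegral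
  haveI : FiniteDimensional ℚ ℚ⟮((b : N) : AlgebraicClosure ℚ)⟯ := adjoin.finiteDimensional hbint
  haveI : NumberField ℚ⟮((b : N) : AlgebraicClosure ℚ)⟯ := { }
  have hF : finrank ℚ ℚ⟮α⟯ = 8 := by
    rw [adjoin.finrank hint, ← minpoly_gen ℚ α]
    exact natDegree_minpoly_three hgen
  have hF' : finrank ℚ ℚ⟮((b : N) : AlgebraicClosure ℚ)⟯ = 8 := by
    rw [adjoin.finrank hbint]
    change (minpoly ℚ (N.val b)).natDegree = 8
    rw [minpoly.algHom_eq N.val N.val.injective]
    exact (congrArg natDegree hbmin).trans natDegree_X_pow_sub_C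
  refine ⟨ℚ⟮α⟯, ℚ⟮((b : N) : AlgebraicClosure ℚ)⟯, inferInstance, inferInstance, hF, hF', ?_⟩
  exact perlis_example _ _ hF hF' hgen
    (y := AdjoinSimple.gen ℚ ((b : N) : AlgebraicClosure ℚ)) (Subtype.ext hbN)

end example_

end FA.Summary

end
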