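import Fermat.Agent.ArithmeticalHierarchy.Definable

/-!
# The arithmetical hierarchy

The classes `Σ n`, `Π n` of sets of natural numbers (Kleene 1943, Mostowski 1947): `Σ₁` is the class
of recursively enumerable sets, the levels increase strictly, and together they give exactly the
sets definable in `(ℕ, 0, 1, +, *)`. So the set of true sentences lies in no level.
-/

set_option autoImplicit false

namespace FA.ArithmeticalHierarchy

open FirstOrder Language ArithmeticTruth

/-- **`Σ₁` is the class of recursively enumerable sets.** -/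
theorem sigma_one_eq_rePred (P : ℕ → Prop) : IsSigma 1 P ↔ REPred P :=
  isSigma_one_iff

/-- The levels increase in both classes. -/
theorem levels_monotone (n : ℕ) (P : ℕ → Prop) :
    (IsSigma n P → IsSigma (n + 1) P ∧ IsPi (n + 1) P) ∧
      (IsPi n P → IsSigma (n + 1) P ∧ IsPi (n + 1) P) :=
  ⟨fun h => ⟨h.succ, h.pi_succ⟩, fun h => ⟨h.sigma_succ, h.succ⟩⟩

/-- **`Σ n` and `Π n` differ** for `n ≥ 1`: each has a set outside the other. -/
theorem sigma_ne_pi {n : ℕ} (hn : 1 ≤ n) :
    (∃ P, IsSigma n P ∧ ¬IsPi n P) ∧ ∃ P, IsPi n P ∧ ¬IsSigma n P := by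
  obtain ⟨k, rfl⟩ := Nat.exists_eq_add_of_le' hn
  exact ⟨⟨_, isSigma_diagonalSet k, not_isPi_diagonalSet k⟩,
    ⟨_, (isSigma_diagonalSet k).not, fun h => not_isPi_diagonalSet k h⟩⟩

/-- **The hierarchy does not collapse.** Each level is properly contained in the next, in both
classes. -/
theorem sigma_ssubset_succ (n : ℕ) :
    (∃ P, IsSigma (n + 1) P ∧ ¬IsSigma n P) ∧ ∃ P, IsPi (n + 1) P ∧ ¬IsPi n P :=
  ⟨⟨_, isSigma_diagonalSet n, fun h => not_isPi_diagonalSet n h.pi_succ⟩,
    ⟨_, (isSigma_diagonalSet n).not,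
      fun h => not_isPi_diagonalSet n (isPi_not.1 h).pi_succ⟩⟩

/-- **Arithmetical means definable.** -/
theorem arithmetical_iff_definable (P : ℕ → Prop) :
    (∃ n, IsSigma n P) ↔ (∅ : Set ℕ).Definable arithLanguage {v : Fin 1 → ℕ | P (v 0)} :=
  ⟨fun ⟨_, h⟩ => (isDefinedSet_iff P).1 h.isDefinedSet,
    fun h => exists_isSigma_of_isDefinedSet ((isDefinedSet_iff P).2 h)⟩

/-- **Truth lies in no level.** -/
theorem truth_not_arithmetical (n : ℕ) :
    ¬IsSigma n (fun k => k ∈ truth) ∧ ¬IsPi n fun k => k ∈ truth :=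
  ⟨fun h => tarski_undefinability ((arithmetical_iff_definable _).1 ⟨n, h⟩),
    fun h => tarski_undefinability ((arithmetical_iff_definable _).1 ⟨n + 1, h.sigma_succ⟩)⟩

end FA.ArithmeticalHierarchy
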