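import Fermat.Agent.ArmitageFroehlich.Counting

/-!
# The theorem of Armitage and Fröhlich

Let `K` be a number field with `r₁` real places and call `a : Kˣ` a square generator if all its
orders are even. The sign vectors of the square generators contain their orthogonal complement, so
they are at least `2 ^ ⌈r₁ / 2⌉`, and the narrow class group (the ray class group modulo `⊤`) has
two-rank at most that of the class group plus `⌊r₁ / 2⌋`. With odd class number the units have at
least `2 ^ ⌈r₁ / 2⌉` sign patterns and the narrow class number divides `2 ^ ⌊r₁ / 2⌋` times the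
class number. The proof is by the existence theorem and reciprocity; nothing is said about the signs
`2`-adically or about higher ranks.
-/

set_option autoImplicit false
set_option linter.style.haveILetI false

noncomputable section

universe u

open NumberField NumberField.InfinitePlace IsDedekindDomain
open scoped nonZeroDivisors

namespace FA.ArmFro

open FA.ArtinRec

variable {K : Type u} [Field K] [NumberField K]

theorem mem_sqGen_iff (a : Kˣ) :
    a ∈ sqGen K ↔ ∀ v : HeightOneSpectrum (𝓞 K), ∃ k : ℤ,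
      v.valuation K (a : K) = WithZero.exp (2 * k) := by
  refine forall_congr' fun v => ⟨fun ⟨k, hk⟩ => ⟨-k, ?_⟩, fun ⟨k, hk⟩ => ⟨-k, ?_⟩⟩
  · rw [valuation_eq_exp, hk, mul_neg]
  · rw [valuation_eq_exp, WithZero.exp_inj] at hk
    linarith

/-- The patterns as truth values. -/
def boolPattern (t : SgnGrp K) : RealPl K → Bool := fun w => decide (Multiplicative.toAdd t w = 0)

theorem boolPattern_injective : Function.Injective (boolPattern (K := K)) := fun s t h => by
  refine Multiplicative.toAdd.injective (funext fun w => ?_)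
  have h1 := congrFun h w
  simp only [boolPattern, decide_eq_decide] at h1
  revert h1
  generalize Multiplicative.toAdd s w = p
  generalize Multiplicative.toAdd t w = q
  revert p q
  decide

theorem card_patterns {ι : Type*} (f : ι → Kˣ) (P : Subgroup (SgnGrp K))
    (hP : ∀ t, t ∈ P ↔ ∃ i, sgnVec (f i) = t) :
    Nat.card (Set.range fun (i : ι) (w : RealPl K) =>
      decide (0 < embedding_of_isReal w.2 (f i : K))) = Nat.card P := by
  rw [show (Set.range fun (i : ι) (w : RealPl K) =>
      decide (0 < embedding_of_isReal w.2 (f i : K))) = boolPattern '' (P : Set (SgnGrp K)) by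
    have hfun : ∀ i, boolPattern (sgnVec (f i)) =
        fun w : RealPl K => decide (0 < embedding_of_isReal w.2 (f i : K)) := fun i =>
      funext fun w => decide_eq_decide.2 (sgnVec_eq_zero_iff (f i) w)
    ext g
    constructor
    · rintro ⟨i, rfl⟩
      exact ⟨sgnVec (f i), (hP _).2 ⟨i, rfl⟩, hfun i⟩
    · rintro ⟨t, ht, rfl⟩
      obtain ⟨i, rfl⟩ := (hP t).1 ht
      exact ⟨i, (hfun i).symm⟩]
  exact Nat.card_image_of_injective boolPattern_injective _

theorem card_realPl : Nat.card (RealPl K) = nrRealPlaces K := by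
  classical
  rw [Nat.card_eq_fintype_card, nrRealPlaces]

end FA.ArmFro

namespace FA.Summary

open FA.ArtinRec FA.ArmFro
open FA.Hecke (RayClassGroup)

variable (K : Type u) [Field K] [NumberField K]

/-- **Duality**: a set of real places on which every square generator is negative an even number of
times is the exact set of negative places of a square generator. -/
theorem armitage_froehlich_duality (S : Finset {w : InfinitePlace K // IsReal w})
    (h : ∀ a : Kˣ, (∀ v : HeightOneSpectrum (𝓞 K), ∃ k : ℤ,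
        v.valuation K (a : K) = WithZero.exp (2 * k)) →
      Even (S.filter fun w => embedding_of_isReal w.2 (a : K) < 0).card) :
    ∃ b : Kˣ, (∀ v : HeightOneSpectrum (𝓞 K), ∃ k : ℤ,
        v.valuation K (b : K) = WithZero.exp (2 * k)) ∧
      ∀ w : {w : InfinitePlace K // IsReal w}, embedding_of_isReal w.2 (b : K) < 0 ↔ w ∈ S := by
  classical
  have hneg : ∀ (a : Kˣ) (w : RealPl K),
      (¬ 0 < embedding_of_isReal w.2 (a : K)) ↔ embedding_of_isReal w.2 (a : K) < 0 := fun a w =>
    ⟨fun h0 => lt_of_le_of_ne (not_lt.1 h0) (emb_ne_zero w a), fun h0 => h0.not_gt⟩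
  obtain ⟨b, hb, hbs⟩ := mem_sqSigns_of_orthogonal
    (Multiplicative.ofAdd fun w : RealPl K => if w ∈ S then (1 : ZMod 2) else 0) fun t ht => by
    obtain ⟨a, ha, rfl⟩ := ht
    refine Multiplicative.toAdd.injective ?_
    rw [toAdd_sgnDot, toAdd_ofAdd, toAdd_one, dotProduct]
    simp only [toAdd_sgnVec, ite_mul, one_mul, zero_mul]
    rw [Finset.sum_ite_mem, Finset.univ_inter, Finset.sum_ite, Finset.sum_const_zero, zero_add,
      Finset.sum_const, nsmul_one, ZMod.natCast_eq_zero_iff_even,
      Finset.filter_congr fun w _ => hneg a w]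
    exact h a ((mem_sqGen_iff a).1 ha)
  refine ⟨b, (mem_sqGen_iff b).1 hb, fun w => ?_⟩
  have h1 := congrFun (congrArg Multiplicative.toAdd hbs) w
  rw [toAdd_sgnVec, toAdd_ofAdd] at h1
  by_cases hw : w ∈ S
  · rw [if_pos hw] at h1
    refine ⟨fun _ => hw, fun _ => (hneg b w).1 fun hp => ?_⟩
    rw [if_pos hp] at h1
    exact zero_ne_one h1
  · rw [if_neg hw] at h1
    refine ⟨fun hb0 => ?_, fun hh => absurd hh hw⟩
    rw [if_neg hb0.not_gt] at h1
    exact absurd h1 one_ne_zero

/-- **The signs of square generators** number at least `2 ^ ⌈r₁ / 2⌉`. -/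
theorem armitage_froehlich_signs :
    2 ^ ((nrRealPlaces K + 1) / 2) ≤ Nat.card (Set.range
      fun (a : {a : Kˣ // ∀ v : HeightOneSpectrum (𝓞 K), ∃ k : ℤ,
          v.valuation K (a : K) = WithZero.exp (2 * k)})
        (w : {w : InfinitePlace K // IsReal w}) =>
        decide (0 < embedding_of_isReal w.2 (a.1 : K))) := by
  rw [card_patterns (fun a => Subtype.val a) (sqSigns K) fun t =>
    ⟨fun ⟨a, ha, he⟩ => ⟨⟨a, (mem_sqGen_iff a).1 ha⟩, he⟩,
      fun ⟨a, he⟩ => ⟨a.1, (mem_sqGen_iff a.1).2 a.2, he⟩⟩, ← card_realPl]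
  exact two_pow_le_card_sqSigns

/-- **The two-rank of the narrow class group**, exactly and bounded. -/
theorem armitage_froehlich_two_rank :
    (powMonoidHom (α := RayClassGroup (⊤ : Ideal (𝓞 K))) 2).range.index *
        Nat.card (Set.range fun (a : {a : Kˣ // ∀ v : HeightOneSpectrum (𝓞 K), ∃ k : ℤ,
            v.valuation K (a : K) = WithZero.exp (2 * k)})
          (w : {w : InfinitePlace K // IsReal w}) =>
          decide (0 < embedding_of_isReal w.2 (a.1 : K))) =
      2 ^ nrRealPlaces K * (powMonoidHom (α := ClassGroup (𝓞 K)) 2).range.index ∧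
    (powMonoidHom (α := RayClassGroup (⊤ : Ideal (𝓞 K))) 2).range.index ∣
      2 ^ (nrRealPlaces K / 2) * (powMonoidHom (α := ClassGroup (𝓞 K)) 2).range.index := by
  rw [card_patterns (fun a => Subtype.val a) (sqSigns K) fun t =>
    ⟨fun ⟨a, ha, he⟩ => ⟨⟨a, (mem_sqGen_iff a).1 ha⟩, he⟩,
      fun ⟨a, he⟩ => ⟨a.1, (mem_sqGen_iff a.1).2 a.2, he⟩⟩]
  have h : (powMonoidHom (α := RayClassGroup (⊤ : Ideal (𝓞 K))) 2).range.index =
      (sqSigns K).index * (powMonoidHom (α := ClassGroup (𝓞 K)) 2).range.index := index_sqCls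
  refine ⟨?_, ?_⟩
  · rw [h, mul_right_comm, Subgroup.index_mul_card, card_sgnGrp, card_realPl]
  · rw [h, ← card_realPl]
    exact Nat.mul_dvd_mul_right index_sqSigns_dvd _

/-- **Odd class number**: at least `2 ^ ⌈r₁ / 2⌉` sign patterns of units. -/
theorem unit_signs_of_odd_classNumber (h : Odd (classNumber K)) :
    2 ^ ((nrRealPlaces K + 1) / 2) ≤ Nat.card (Set.range
      fun (u : (𝓞 K)ˣ) (w : {w : InfinitePlace K // IsReal w}) =>
        decide (0 < embedding_of_isReal w.2 ((u : 𝓞 K) : K))) := by
  refine le_of_le_of_eq ?_ (card_patterns (intUnits (F := K)) (unitSigns K) fun t =>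
    ⟨fun ⟨_, ⟨u, hu⟩, he⟩ => ⟨u, hu ▸ he⟩, fun ⟨u, he⟩ => ⟨_, ⟨u, rfl⟩, he⟩⟩).symm
  rw [← sqSigns_eq_unitSigns h, ← card_realPl]
  exact two_pow_le_card_sqSigns

/-- **Odd class number**: the narrow class number divides `2 ^ ⌊r₁ / 2⌋ h`. -/
theorem narrow_classNumber_dvd (h : Odd (classNumber K)) :
    Nat.card (RayClassGroup (⊤ : Ideal (𝓞 K))) ∣ classNumber K * 2 ^ (nrRealPlaces K / 2) := by
  rw [← card_realPl]
  exact card_narrow_dvd h

/-- Odd class number and at least three real places: a unit of mixed signs. -/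
theorem exists_unit_mixed_signs (h : Odd (classNumber K)) (h3 : 3 ≤ nrRealPlaces K) :
    ∃ u : (𝓞 K)ˣ,
      (∃ w : {w : InfinitePlace K // IsReal w}, 0 < embedding_of_isReal w.2 ((u : 𝓞 K) : K)) ∧
      ∃ w : {w : InfinitePlace K // IsReal w}, embedding_of_isReal w.2 ((u : 𝓞 K) : K) < 0 := by
  obtain ⟨u, ⟨w, hw⟩, w', hw'⟩ := exists_mixed_unit h (card_realPl (K := K) ▸ h3)
  rw [sgnVec_eq_zero_iff] at hw
  rw [Ne, sgnVec_eq_zero_iff] at hw'
  exact ⟨u, ⟨w, hw⟩, w', lt_of_le_of_ne (not_lt.1 hw') (emb_ne_zero w' (intUnits u))⟩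

/-- **Totally real cubic fields of odd class number**: at least four sign patterns of units. -/
theorem cubic_unit_signs [IsTotallyReal K] (hdeg : Module.finrank ℚ K = 3)
    (h : Odd (classNumber K)) :
    4 ≤ Nat.card (Set.range fun (u : (𝓞 K)ˣ) (w : {w : InfinitePlace K // IsReal w}) =>
        decide (0 < embedding_of_isReal w.2 ((u : 𝓞 K) : K))) := by
  have h3 : nrRealPlaces K = 3 := by rw [← IsTotallyReal.finrank, hdeg]
  exact le_trans (by rw [h3]; norm_num) (unit_signs_of_odd_classNumber K h)

end FA.Summary
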