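import Fermat.Agent.ArseninKunugui.Uniformisation

/-!
# Borel sets with sigma-compact sections (R1764)

The theorems of Novikov, Saint Raymond, Arsenin and Kunugui, with a classical proof.
-/

set_option autoImplicit false

universe u v

namespace FA.ArseninKunugui

open Set Topology MeasureTheory

variable {X : Type u} [TopologicalSpace X] [PolishSpace X] [MeasurableSpace X] [BorelSpace X]
  {Y : Type v} [TopologicalSpace Y] [PolishSpace Y] [MeasurableSpace Y] [BorelSpace Y]

/-- **Arsenin–Kunugui.** A Borel set in a product of Polish spaces whose vertical sections are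
sigma-compact has a Borel projection and contains a Borel graph over all of it. -/
theorem arsenin_kunugui {B : Set (X × Y)} (hB : MeasurableSet B)
    (h : ∀ x, IsSigmaCompact {y | (x, y) ∈ B}) :
    MeasurableSet (Prod.fst '' B) ∧
      ∃ S ⊆ B, MeasurableSet S ∧ InjOn Prod.fst S ∧ Prod.fst '' S = Prod.fst '' B :=
  ⟨measurableSet_image_fst hB h, exists_borel_graph hB h⟩

/-- **Saint Raymond.** Such a set is a countable union of Borel sets with compact sections. -/
theorem saint_raymond {B : Set (X × Y)} (hB : MeasurableSet B)
    (h : ∀ x, IsSigmaCompact {y | (x, y) ∈ B}) :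
    ∃ G : ℕ → Set (X × Y), (∀ n, MeasurableSet (G n)) ∧ (∀ n x, IsCompact {y | (x, y) ∈ G n}) ∧
      ⋃ n, G n = B :=
  exists_compact_section_cover hB h

/-- **Kunugui and Novikov.** When the second space is sigma-compact, closed sections suffice. -/
theorem kunugui_novikov [SigmaCompactSpace Y] {B : Set (X × Y)} (hB : MeasurableSet B)
    (h : ∀ x, IsClosed {y | (x, y) ∈ B}) :
    MeasurableSet (Prod.fst '' B) ∧
      ∃ S ⊆ B, MeasurableSet S ∧ InjOn Prod.fst S ∧ Prod.fst '' S = Prod.fst '' B :=
  arsenin_kunugui hB fun x => isSigmaCompact_univ.of_isClosed_subset (h x) (subset_univ _)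

end FA.ArseninKunugui
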