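import Fermat.Agent.DedekindPrimeIdeals.Fixed

/-!
# The prime ideal theorem with the classical error term, uniform in the field

With `L = 1 + log |d| + 2 n` and `R_K(x) = L ^ 3 x exp (- c log x / (L + √(n log x)))`, absolute
constants `c₀, c, C` and the entire continuation `E` of `(s - 1) ζ_K`:

* `prime_ideal_psi_uniform`: `|ψ_K x - x| ≤ C R_K(x)` if `E` has no zero in the interval
  `β ≥ 1 - c₀ / (1 + log |d| + n log 3)`, and `|ψ_K x - (x - x ^ β / β)| ≤ C R_K(x)` if `β` is one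
  (there is at most one, see `FA.Summary.dedekindZeta_at_most_one_real_zero`);
* `prime_ideal_count_uniform`: the same for `π_K x` against `∫_2^x (1 - t ^ (β - 1)) / log t`;
* `prime_ideal_theorem_classical`: for each field
  `ψ_K x = x + O (x exp (- c √(log x)))` and `π_K x = ∫_2^x dt / log t + O (x exp (- c √(log x)))`.

Independent of S01.
-/

set_option autoImplicit false
set_option linter.style.haveILetI false

noncomputable section

universe u

open NumberField IsDedekindDomain Module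
open FA.DedekindZF FA.DedekindPIT
open scoped Real Classical

namespace FA.Summary

variable (K : Type u) [Field K] [NumberField K]

/-- The number of primes of norm at most `x`. -/
theorem natCard_primes_eq_piK {x : ℝ} (hx : 0 ≤ x) :
    (Nat.card {v : HeightOneSpectrum (𝓞 K) // (Ideal.absNorm v.asIdeal : ℝ) ≤ x} : ℝ) = piK K x := by
  rw [piK, ← Nat.card_eq_finsetCard]
  congr 1
  refine Nat.card_congr (Equiv.subtypeEquivRight fun v => ?_)
  rw [FA.Hecke.mem_primesLE, Nat.le_floor_iff hx]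

theorem height_zero_eq :
    height K 0 = 1 + Real.log ((discr K).natAbs : ℝ) + finrank ℚ K * Real.log 3 := by
  rw [height, abs_zero, zero_add]

theorem error_le {C c x : ℝ} (hC : 0 ≤ C) (hx : 0 ≤ x) :
    C * height K 0 ^ 3 * (x * Real.exp (-(c * gauge K x))) ≤
      C * ((1 + Real.log ((discr K).natAbs : ℝ) + 2 * finrank ℚ K) ^ 3 * (x * Real.exp (-(c *
        (Real.log x / (1 + Real.log ((discr K).natAbs : ℝ) + 2 * finrank ℚ K +
          √(finrank ℚ K * Real.log x))))))) := by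
  rw [mul_assoc]
  refine mul_le_mul_of_nonneg_left (mul_le_mul_of_nonneg_right
    (pow_le_pow_left₀ (zero_le_one.trans (one_le_height K 0)) ?_ 3) (by positivity)) hC
  rw [height_zero_eq]
  have h3 : Real.log 3 ≤ 2 := by linarith [Real.log_le_sub_one_of_pos (show (0 : ℝ) < 3 by norm_num)]
  have := mul_le_mul_of_nonneg_left h3 (Nat.cast_nonneg (finrank ℚ K) : (0 : ℝ) ≤ _)
  linarith

/-- **`ψ_K`, uniformly in the field.** -/
theorem prime_ideal_psi_uniform :
    ∃ c₀ c C : ℝ, 0 < c₀ ∧ 0 < c ∧ ∀ (K : Type u) [Field K] [NumberField K] (E : ℂ → ℂ),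
      Differentiable ℂ E → (∀ s : ℂ, 1 < s.re → E s = (s - 1) * dedekindZeta K s) → ∀ x : ℝ, 2 ≤ x →
        let L := 1 + Real.log ((discr K).natAbs : ℝ) + 2 * finrank ℚ K
        let R := C * (L ^ 3 * (x * Real.exp (-(c * (Real.log x / (L + √(finrank ℚ K * Real.log x)))))))
        let I := Set.Ici (1 - c₀ / (1 + Real.log ((discr K).natAbs : ℝ) + finrank ℚ K * Real.log 3))
        ((∀ β ∈ I, E ((β : ℝ) : ℂ) ≠ 0) → |psiK K x - x| ≤ R) ∧
          ∀ β ∈ I, E ((β : ℝ) : ℂ) = 0 → |psiK K x - (x - x ^ β / β)| ≤ R := by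
  obtain ⟨c, C, hc, -, hC, h⟩ := exists_psiK_error.{u}
  refine ⟨zfrC, c, C, zfrC_pos, hc, fun K _ _ E hE hEL x hx => ?_⟩
  simp only [Set.mem_Ici, ← height_zero_eq]
  have hR := error_le K (c := c) hC (show 0 ≤ x by linarith)
  exact ⟨fun hno => ((h K E hE hEL x hx).1 hno).trans hR,
    fun β hβ h0 => ((h K E hE hEL x hx).2 β hβ h0).trans hR⟩

/-- **`π_K`, uniformly in the field.** -/
theorem prime_ideal_count_uniform :
    ∃ c₀ c C : ℝ, 0 < c₀ ∧ 0 < c ∧ ∀ (K : Type u) [Field K] [NumberField K] (E : ℂ → ℂ),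
      Differentiable ℂ E → (∀ s : ℂ, 1 < s.re → E s = (s - 1) * dedekindZeta K s) → ∀ x : ℝ, 2 ≤ x →
        let L := 1 + Real.log ((discr K).natAbs : ℝ) + 2 * finrank ℚ K
        let R := C * (L ^ 3 * (x * Real.exp (-(c * (Real.log x / (L + √(finrank ℚ K * Real.log x)))))))
        let I := Set.Ici (1 - c₀ / (1 + Real.log ((discr K).natAbs : ℝ) + finrank ℚ K * Real.log 3))
        let π' := (Nat.card {v : HeightOneSpectrum (𝓞 K) // (Ideal.absNorm v.asIdeal : ℝ) ≤ x} : ℝ)
        ((∀ β ∈ I, E ((β : ℝ) : ℂ) ≠ 0) → |π' - ∫ t in (2 : ℝ)..x, 1 / Real.log t| ≤ R) ∧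
          ∀ β ∈ I, E ((β : ℝ) : ℂ) = 0 →
            |π' - ∫ t in (2 : ℝ)..x, (1 - t ^ (β - 1)) / Real.log t| ≤ R := by
  obtain ⟨c, C, hc, hC, h⟩ := exists_piK_error.{u}
  refine ⟨zfrC, c, C, zfrC_pos, hc, fun K _ _ E hE hEL x hx => ?_⟩
  simp only [Set.mem_Ici, ← height_zero_eq, natCard_primes_eq_piK K (show 0 ≤ x by linarith)]
  have hR := error_le K (c := c) hC (show 0 ≤ x by linarith)
  exact ⟨fun hno => ((h K E hE hEL x hx).1 hno).trans hR,
    fun β hβ h0 => ((h K E hE hEL x hx).2 β hβ h0).trans hR⟩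

/-- **The classical error term.** -/
theorem prime_ideal_theorem_classical : ∃ c C : ℝ, 0 < c ∧ 0 < C ∧ ∀ x : ℝ, 2 ≤ x →
    |psiK K x - x| ≤ C * x * Real.exp (-(c * √(Real.log x))) ∧
      |(Nat.card {v : HeightOneSpectrum (𝓞 K) // (Ideal.absNorm v.asIdeal : ℝ) ≤ x} : ℝ) -
        ∫ t in (2 : ℝ)..x, 1 / Real.log t| ≤ C * x * Real.exp (-(c * √(Real.log x))) := by
  obtain ⟨c, C, hc, hC, h⟩ := exists_fixed_field_error K
  refine ⟨c, C, hc, hC, fun x hx => ?_⟩
  rw [natCard_primes_eq_piK K (by linarith)]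
  exact h x hx

end FA.Summary
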