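import Fermat.Agent.ArtinHooley.PrimeCount
import Fermat.Agent.Root.SummaryPrimeIdealErrorTerm

/-!
# The prime ideal theorem on the Riemann hypothesis, uniform in the field

Let `K` be a number field of degree `n` and discriminant `d`. Suppose the Riemann hypothesis for
`ζ_K`: every zero `z`, `0 < re z < 1`, of the entire continuation of `(s - 1) ζ_K` has
`re z = 1/2`. Then, with absolute constants and for `x ≥ 2`,
`ψ_K x = x + O (√x log ^ 4 x (1 + log |d| + n))` (`FA.Summary.prime_ideal_psi_of_RH`) and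
`π_K x = ∫_2^x dt / log t + O (√x log ^ 4 x (1 + log |d| + n))`
(`FA.Summary.prime_ideal_count_of_RH`). The hypothesis is an argument and is never assumed.
-/

set_option autoImplicit false
set_option linter.style.haveILetI false

noncomputable section

universe u

open NumberField IsDedekindDomain Module
open scoped Real Classical

namespace FA.Summary

/-- **`ψ_K` on the Riemann hypothesis.** -/
theorem prime_ideal_psi_of_RH : ∃ A : ℝ, ∀ (K : Type u) [Field K] [NumberField K],
    (∀ E : ℂ → ℂ, Differentiable ℂ E → (∀ s : ℂ, 1 < s.re → E s = (s - 1) * dedekindZeta K s) →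
      ∀ z : ℂ, E z = 0 → 0 < z.re → z.re < 1 → z.re = 1 / 2) →
    ∀ x : ℝ, 1 ≤ x → |FA.DedekindPIT.psiK K x - x| ≤
      A * (1 + Real.log ((discr K).natAbs : ℝ) + finrank ℚ K) *
        (√x * (Real.log x + 4) ^ 4) := by
  obtain ⟨A, -, h⟩ := FA.ArtinHooley.exists_psiK_le.{u}
  exact ⟨A, h⟩

/-- **The prime ideals of norm at most `x` on the Riemann hypothesis.** -/
theorem prime_ideal_count_of_RH : ∃ A : ℝ, ∀ (K : Type u) [Field K] [NumberField K],
    (∀ E : ℂ → ℂ, Differentiable ℂ E → (∀ s : ℂ, 1 < s.re → E s = (s - 1) * dedekindZeta K s) →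
      ∀ z : ℂ, E z = 0 → 0 < z.re → z.re < 1 → z.re = 1 / 2) →
    ∀ x : ℝ, 2 ≤ x →
      |(Nat.card {v : HeightOneSpectrum (𝓞 K) // (Ideal.absNorm v.asIdeal : ℝ) ≤ x} : ℝ) -
        ∫ t in (2 : ℝ)..x, 1 / Real.log t| ≤
      A * (1 + Real.log ((discr K).natAbs : ℝ) + finrank ℚ K) * (√x * Real.log x ^ 4) := by
  obtain ⟨A, -, h⟩ := FA.ArtinHooley.exists_piK_le.{u}
  refine ⟨A, fun K _ _ hRH x hx => ?_⟩
  rw [natCard_primes_eq_piK K (by linarith)]
  exact h K hRH x hx

end FA.Summary

end
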