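import Fermat.Agent.ArtinHooley.Main
import Fermat.Agent.Root.SummaryPrimeIdealGRH

/-!
# Hooley's theorem: Artin's conjecture on the Riemann hypothesis

Let `a ≠ -1` be a squarefree integer, `a ≢ 1 (mod 4)` (so `2, 3, 6, 7, 10, -2, …`). Suppose that
for every squarefree `k` the zeros `z`, `0 < re z < 1`, of the continuation of `(s - 1) ζ_K s`,
`K = ℚ(ζ_k, a ^ (1/k))`, have `re z = 1/2`. Then the primes `p ≤ x` with `a` a primitive root
number `A x / log x` asymptotically, `A = ∏_q (1 - 1/(q (q - 1))) > 0`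
(`FA.Summary.artin_primitive_root_of_RH`), so there are infinitely many
(`FA.Summary.artin_primitive_root_infinite_of_RH`, and `FA.Summary.two_primitive_root_of_GRH` for
`a = 2`). The hypothesis is an argument and is never assumed. For the other integers `a` see
`SummaryArtinAllBases`, which finds a positive lower density.
-/

set_option autoImplicit false
set_option linter.style.haveILetI false

noncomputable section

open Finset Filter NumberField Polynomial
open scoped Classical Topology

namespace FA.Summary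

/-- **Artin's constant is positive.** -/
theorem artin_constant_pos :
    0 < ∏' q : Nat.Primes, (1 - 1 / (((q : ℕ) : ℝ) * (((q : ℕ) : ℝ) - 1))) :=
  FA.ArtinHooley.artinConst_eq_tprod_primes ▸ FA.ArtinHooley.artinConst_pos

/-- **Hooley's theorem.** -/
theorem artin_primitive_root_of_RH (a : ℤ) (hsq : Squarefree a) (h4 : a % 4 ≠ 1) (h1 : a ≠ -1)
    (hRH : ∀ k : ℕ, Squarefree k → ∀ E : ℂ → ℂ, Differentiable ℂ E →
      (∀ s : ℂ, 1 < s.re →
        E s = (s - 1) * dedekindZeta (X ^ k - C (a : ℚ) : ℚ[X]).SplittingField s) →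
      ∀ z : ℂ, E z = 0 → 0 < z.re → z.re < 1 → z.re = 1 / 2) :
    Tendsto (fun N : ℕ => (((Icc 1 N).filter fun p : ℕ =>
        p.Prime ∧ orderOf (a : ZMod p) = p - 1).card : ℝ) * Real.log N / N) atTop
      (𝓝 (∏' q : Nat.Primes, (1 - 1 / (((q : ℕ) : ℝ) * (((q : ℕ) : ℝ) - 1))))) := by
  rw [← FA.ArtinHooley.artinConst_eq_tprod_primes]
  exact FA.ArtinHooley.tendsto_primRootSet ⟨hsq, h4, h1⟩ hRH

/-- There are infinitely many such primes. -/
theorem artin_primitive_root_infinite_of_RH (a : ℤ) (hsq : Squarefree a) (h4 : a % 4 ≠ 1)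
    (h1 : a ≠ -1)
    (hRH : ∀ k : ℕ, Squarefree k → ∀ E : ℂ → ℂ, Differentiable ℂ E →
      (∀ s : ℂ, 1 < s.re →
        E s = (s - 1) * dedekindZeta (X ^ k - C (a : ℚ) : ℚ[X]).SplittingField s) →
      ∀ z : ℂ, E z = 0 → 0 < z.re → z.re < 1 → z.re = 1 / 2) :
    {p : ℕ | p.Prime ∧ orderOf (a : ZMod p) = p - 1}.Infinite :=
  FA.ArtinHooley.infinite_primitive_root ⟨hsq, h4, h1⟩ hRH

/-- **On GRH, `2` is a primitive root modulo infinitely many primes.** -/
theorem two_primitive_root_of_GRH
    (hGRH : ∀ (K : Type) [Field K] [NumberField K] (E : ℂ → ℂ), Differentiable ℂ E →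
      (∀ s : ℂ, 1 < s.re → E s = (s - 1) * dedekindZeta K s) →
      ∀ z : ℂ, E z = 0 → 0 < z.re → z.re < 1 → z.re = 1 / 2) :
    {p : ℕ | p.Prime ∧ orderOf (2 : ZMod p) = p - 1}.Infinite := by
  have h := artin_primitive_root_infinite_of_RH 2 Int.prime_two.squarefree (by norm_num)
    (by norm_num) fun k _ => hGRH (FA.ArtinHooley.KummerField 2 k)
  simpa using h

end FA.Summary

end
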