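import Fermat.Agent.ArtinAllBases.Main
import Fermat.Agent.Root.SummaryArtinHooley

/-!
# Artin's conjecture on the Riemann hypothesis for every base

After Hooley. The hypothesis is an argument: for all `m` and squarefree `k ∣ m` the zeros `z`,
`0 < re z < 1`, of the continuation of `(s - 1) ζ_K s`, `K = ℚ(ζ_m, a ^ (1/k))` the splitting field
of `(X ^ m - 1) (X ^ k - a)`, have `re z = 1/2`. Let `a` be an integer, no square and not `-1`.

* `artin_all_infinite_of_RH`: `a` is a primitive root modulo infinitely many primes;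
* `artin_all_count_of_RH`: at least `c N / log N` of the primes `p ≤ N`, some `c > 0`;
* `artin_class_of_RH`, `artin_all_class_of_RH`: with `M = 4 |a|!` (or any `M`, `b` as stated) some
  class `b` mod `M` has `(A / (φ M ∏_{q ∣ M} (1 - 1/(q (q - 1))))) N / log N` of them
  asymptotically, `A` Artin's constant;
* `artin_conjecture_iff_of_GRH`: on GRH the primes with the primitive root `a` are infinitely many
  exactly when `a` is no square and not `-1`.

The asymptotic for all primes, with Hooley's rational factor, is stated only in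
`SummaryArtinHooley` for squarefree `a ≢ 1 (mod 4)`.
-/

set_option autoImplicit false
set_option linter.style.haveILetI false

noncomputable section

open Finset Filter NumberField Polynomial
open scoped Classical Topology

namespace FA.Summary

/-- **Artin's conjecture on the Riemann hypothesis.** -/
theorem artin_all_infinite_of_RH (a : ℤ) (hsq : ¬ IsSquare a) (h1 : a ≠ -1)
    (hRH : ∀ m k : ℕ, Squarefree k → k ∣ m → ∀ E : ℂ → ℂ, Differentiable ℂ E →
      (∀ s : ℂ, 1 < s.re → E s = (s - 1) *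
        dedekindZeta ((X ^ m - 1) * (X ^ k - C (a : ℚ)) : ℚ[X]).SplittingField s) →
      ∀ z : ℂ, E z = 0 → 0 < z.re → z.re < 1 → z.re = 1 / 2) :
    {p : ℕ | p.Prime ∧ orderOf (a : ZMod p) = p - 1}.Infinite :=
  FA.ArtinAll.infinite_primRoot hsq h1 hRH

/-- A positive proportion of the primes. -/
theorem artin_all_count_of_RH (a : ℤ) (hsq : ¬ IsSquare a) (h1 : a ≠ -1)
    (hRH : ∀ m k : ℕ, Squarefree k → k ∣ m → ∀ E : ℂ → ℂ, Differentiable ℂ E →
      (∀ s : ℂ, 1 < s.re → E s = (s - 1) *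
        dedekindZeta ((X ^ m - 1) * (X ^ k - C (a : ℚ)) : ℚ[X]).SplittingField s) →
      ∀ z : ℂ, E z = 0 → 0 < z.re → z.re < 1 → z.re = 1 / 2) :
    ∃ c : ℝ, 0 < c ∧ ∀ᶠ N : ℕ in atTop, c * (N / Real.log N) ≤
      (((Icc 1 N).filter fun p : ℕ => p.Prime ∧ orderOf (a : ZMod p) = p - 1).card : ℝ) :=
  FA.ArtinAll.eventually_card_ge hsq h1 hRH

/-- **The asymptotic in a class** without conditions at the prime divisors of `M`. -/
theorem artin_class_of_RH (a : ℤ) (M b : ℕ) (hM : 4 * a.natAbs ∣ M) (hb : b.Coprime M)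
    (hj : jacobiSym a b = -1) (hone : ∀ q : ℕ, q.Prime → q ≠ 2 → q ∣ M → b % q ≠ 1)
    (hpow : ∀ q : ℕ, q.Prime → ¬ q ∣ M → ∀ z : ℤ, z ^ q ≠ a)
    (hRH : ∀ m k : ℕ, Squarefree k → k ∣ m → ∀ E : ℂ → ℂ, Differentiable ℂ E →
      (∀ s : ℂ, 1 < s.re → E s = (s - 1) *
        dedekindZeta ((X ^ m - 1) * (X ^ k - C (a : ℚ)) : ℚ[X]).SplittingField s) →
      ∀ z : ℂ, E z = 0 → 0 < z.re → z.re < 1 → z.re = 1 / 2) :
    Tendsto (fun N : ℕ => (((Icc 1 N).filter fun p : ℕ =>
        p.Prime ∧ orderOf (a : ZMod p) = p - 1 ∧ p % M = b % M).card : ℝ) * Real.log N / N) atTop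
      (𝓝 ((∏' q : Nat.Primes, (1 - 1 / (((q : ℕ) : ℝ) * (((q : ℕ) : ℝ) - 1)))) /
        ((M.totient : ℝ) * ∏ q ∈ M.primeFactors, (1 - 1 / ((q : ℝ) * (q - 1)))))) := by
  rw [← FA.ArtinHooley.artinConst_eq_tprod_primes, ← FA.ArtinAll.classConst_eq]
  refine (FA.ArtinAll.tendsto_class ⟨hM, hb, hj, hone, hpow⟩ hRH).congr fun N => ?_
  rw [FA.ArtinHooley.primRootSet, Finset.filter_filter]
  congr 4
  ext p
  simp [FA.ArtinAll.inClass, and_assoc]

/-- Such a class exists modulo `4 |a|!`. -/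
theorem artin_all_class_of_RH (a : ℤ) (hsq : ¬ IsSquare a) (h1 : a ≠ -1)
    (hRH : ∀ m k : ℕ, Squarefree k → k ∣ m → ∀ E : ℂ → ℂ, Differentiable ℂ E →
      (∀ s : ℂ, 1 < s.re → E s = (s - 1) *
        dedekindZeta ((X ^ m - 1) * (X ^ k - C (a : ℚ)) : ℚ[X]).SplittingField s) →
      ∀ z : ℂ, E z = 0 → 0 < z.re → z.re < 1 → z.re = 1 / 2) :
    let M := 4 * a.natAbs.factorial
    ∃ b : ℕ, b.Coprime M ∧ Tendsto (fun N : ℕ => (((Icc 1 N).filter fun p : ℕ =>
        p.Prime ∧ orderOf (a : ZMod p) = p - 1 ∧ p % M = b % M).card : ℝ) * Real.log N / N) atTop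
      (𝓝 ((∏' q : Nat.Primes, (1 - 1 / (((q : ℕ) : ℝ) * (((q : ℕ) : ℝ) - 1)))) /
        ((M.totient : ℝ) * ∏ q ∈ M.primeFactors, (1 - 1 / ((q : ℝ) * (q - 1)))))) := by
  intro M
  obtain ⟨b, hb⟩ := FA.ArtinAll.exists_goodClass hsq h1
  exact ⟨b, hb.coprime, artin_class_of_RH a M b hb.four_dvd hb.coprime hb.symbol hb.not_one
    hb.not_pow hRH⟩

/-- **Artin's conjecture on GRH.** -/
theorem artin_conjecture_iff_of_GRH
    (hGRH : ∀ (K : Type) [Field K] [NumberField K] (E : ℂ → ℂ), Differentiable ℂ E →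
      (∀ s : ℂ, 1 < s.re → E s = (s - 1) * dedekindZeta K s) →
      ∀ z : ℂ, E z = 0 → 0 < z.re → z.re < 1 → z.re = 1 / 2) (a : ℤ) :
    {p : ℕ | p.Prime ∧ orderOf (a : ZMod p) = p - 1}.Infinite ↔ ¬ IsSquare a ∧ a ≠ -1 := by
  refine ⟨fun h => not_or.1 fun e => h (FA.ArtinAll.finite_primRoot e), fun h => ?_⟩
  exact artin_all_infinite_of_RH a h.1 h.2 fun m k _ _ =>
    hGRH (FA.ArtinAll.MixedField a m k)

end FA.Summary

end
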