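import Fermat.Agent.ArtinAlmostAll.Main

/-!
# Artin's conjecture for almost all bases (P. J. Stephens, 1969)

With no hypothesis, `A` Artin's constant: for all `ε, η > 0` and all large `x`, uniformly in
`N ≥ x ^ ε`, all but `η N` of the bases `a ≤ N` are primitive roots modulo `A π x` of the primes
`p ≤ x`, up to `η π x`. So almost every base has the density Artin predicted in every long range.

The rate of Stephens and his shorter range of `N` are not claimed; nothing is said about any
single base.
-/

set_option autoImplicit false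

noncomputable section

namespace FA.ArtinAlmostAll.Summary

open Finset Filter
open scoped Classical

/-- **Stephens: Artin's conjecture for almost all bases.** -/
theorem artin_almost_all {ε η : ℝ} (hε : 0 < ε) (hη : 0 < η) :
    ∀ᶠ x : ℕ in atTop, ∀ N : ℕ, (x : ℝ) ^ ε ≤ N →
      (#((Ioc 0 N).filter fun a : ℕ => η * Nat.primeCounting x <
          |(#((Icc 1 x).filter fun p : ℕ => p.Prime ∧ orderOf (a : ZMod p) = p - 1) : ℝ) -
            FA.ArtinHooley.artinConst * Nat.primeCounting x|) : ℝ) ≤ η * N := by
  have h := eventually_almost_all hε hη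
  simp only [FA.ArtinAverage.primesTo, filter_filter] at h
  exact h

/-- **The bases that are primitive roots for a positive share of the primes `p ≤ x`.** -/
theorem artin_almost_all_lower {ε η : ℝ} (hε : 0 < ε) (hη : 0 < η) :
    ∀ᶠ x : ℕ in atTop, ∀ N : ℕ, (x : ℝ) ^ ε ≤ N →
      (1 - η) * N ≤ (#((Ioc 0 N).filter fun a : ℕ =>
        (FA.ArtinHooley.artinConst - η) * Nat.primeCounting x ≤
          #((Icc 1 x).filter fun p : ℕ => p.Prime ∧ orderOf (a : ZMod p) = p - 1)) : ℝ) := by
  filter_upwards [artin_almost_all hε hη] with x hx N hN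
  have h := hx N hN
  obtain ⟨good, hgood⟩ : ∃ s, s = (Ioc 0 N).filter fun a : ℕ =>
      (FA.ArtinHooley.artinConst - η) * Nat.primeCounting x ≤
        #((Icc 1 x).filter fun p : ℕ => p.Prime ∧ orderOf (a : ZMod p) = p - 1) := ⟨_, rfl⟩
  obtain ⟨bad, hbad⟩ : ∃ s, s = (Ioc 0 N).filter fun a : ℕ => η * Nat.primeCounting x <
      |(#((Icc 1 x).filter fun p : ℕ => p.Prime ∧ orderOf (a : ZMod p) = p - 1) : ℝ) -
        FA.ArtinHooley.artinConst * Nat.primeCounting x| := ⟨_, rfl⟩
  rw [← hgood]
  rw [← hbad] at h
  have hsub : Ioc 0 N ⊆ good ∪ bad := fun a ha => by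
    rw [mem_union, hgood, hbad, mem_filter, mem_filter]
    by_contra! hc
    have h1 := (abs_le.1 (hc.2 ha)).1
    have h2 := hc.1 ha
    linarith
  have hc : ((Ioc 0 N).card : ℝ) ≤ good.card + bad.card := by
    exact_mod_cast (card_le_card hsub).trans (card_union_le _ _)
  rw [Nat.card_Ioc, Nat.sub_zero] at hc
  linarith

end FA.ArtinAlmostAll.Summary

end
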