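import Fermat.Agent.ArtinAverage.Main

/-!
# Artin's conjecture on average (P. J. Stephens, 1969)

With no hypothesis, `A` Artin's constant: the mean of `φ (p - 1) / (p - 1)` over the primes
`p ≤ x` tends to `A`, and for every `ε > 0`, uniformly in `N ≥ x ^ ε`, the bases `a ≤ N` are
primitive roots modulo `A π x` primes `p ≤ x` on average, up to `o (π x)`.

Stephens's shorter range `N > exp (4 √(log x log log x))` is not claimed. The thresholds are
not explicit.
-/

set_option autoImplicit false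

noncomputable section

namespace FA.ArtinAverage.Summary

open Finset Filter
open scoped Topology Classical

/-- **The mean of `φ (p - 1) / (p - 1)` is Artin's constant.** -/
theorem totient_pred_mean :
    Tendsto (fun x : ℕ => (∑ p ∈ (Icc 1 x).filter Nat.Prime,
      ((p - 1).totient : ℝ) / ((p - 1 : ℕ) : ℝ)) * Real.log x / x) atTop
      (𝓝 FA.ArtinHooley.artinConst) := by
  refine tendsto_genShare.congr fun x => ?_
  refine congrArg (fun s => s * Real.log x / x) (sum_congr rfl fun p hp => genShare_eq ?_)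
  have := (mem_primesTo.1 hp).1.two_le
  omega

/-- **Stephens: Artin's conjecture on average.** -/
theorem artin_average {ε η : ℝ} (hε : 0 < ε) (hη : 0 < η) :
    ∀ᶠ x : ℕ in atTop, ∀ N : ℕ, (x : ℝ) ^ ε ≤ N →
      |((∑ a ∈ Ioc 0 N, #((Icc 1 x).filter fun p : ℕ =>
            p.Prime ∧ orderOf (a : ZMod p) = p - 1) : ℕ) : ℝ) -
          FA.ArtinHooley.artinConst * N * Nat.primeCounting x| ≤
        η * N * Nat.primeCounting x := by
  have h := eventually_average hε hη
  simp only [primesTo, filter_filter] at h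
  exact h

/-- **Some base `a ≤ x ^ ε + 1` is a primitive root modulo `(A - η) π x` primes `p ≤ x`.** -/
theorem artin_small_base {ε η : ℝ} (hε : 0 < ε) (hη : 0 < η) :
    ∀ᶠ x : ℕ in atTop, ∃ a : ℕ, 0 < a ∧ (a : ℝ) ≤ (x : ℝ) ^ ε + 1 ∧
      (FA.ArtinHooley.artinConst - η) * Nat.primeCounting x ≤
        (#((Icc 1 x).filter fun p : ℕ => p.Prime ∧ orderOf (a : ZMod p) = p - 1) : ℝ) := by
  filter_upwards [artin_average hε hη, eventually_ge_atTop 1] with x hx hx1
  obtain ⟨N, hN⟩ : ∃ N, N = ⌈(x : ℝ) ^ ε⌉₊ := ⟨_, rfl⟩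
  have hpos : 0 < (x : ℝ) ^ ε := Real.rpow_pos_of_pos (Nat.cast_pos.2 hx1) _
  have h := (abs_le.1 (hx N (hN ▸ Nat.le_ceil _))).1
  have hN0 : 0 < N := hN ▸ Nat.ceil_pos.2 hpos
  by_contra! hno
  rw [Nat.cast_sum] at h
  have hlt : ∑ a ∈ Ioc 0 N,
      (#((Icc 1 x).filter fun p : ℕ => p.Prime ∧ orderOf (a : ZMod p) = p - 1) : ℝ) <
      ∑ _a ∈ Ioc 0 N, (FA.ArtinHooley.artinConst - η) * Nat.primeCounting x := by
    refine sum_lt_sum_of_nonempty ⟨N, mem_Ioc.2 ⟨hN0, le_rfl⟩⟩ fun a ha =>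
      hno a (mem_Ioc.1 ha).1 ?_
    exact (Nat.cast_le.2 (mem_Ioc.1 ha).2).trans (hN ▸ (Nat.ceil_lt_add_one hpos.le).le)
  rw [sum_const, Nat.card_Ioc, Nat.sub_zero, nsmul_eq_mul] at hlt
  linarith

end FA.ArtinAverage.Summary

end
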