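import Fermat.Agent.ArtinL.Factor
import Fermat.Agent.ArtinL.Formulas

/-!
# Artin L-series

For a finite Galois extension `L/K` of number fields `FA.ArtinL.artinL χ` is the L-series of a class
function `χ` of `Gal(L/K)` on the half plane `1 < re s`, all primes included.

* `artinL_euler_product`: for a representation it is the product over all primes of
  `det(1 - N(v) ^ (-s) Frob | V ^ I)⁻¹`;
* `artinL_formalism`: it converges absolutely, is multiplicative in `χ` and has no zero there, and
  the trivial character gives the zeta function of `K`;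
* `artinL_induction`: it is invariant under induction from intermediate fields;
* `dedekindZeta_factorisation`: `ζ_L = ∏ L(s, χ) ^ χ(1)`;
* `gassmann_zeta`: Gassmann equivalent fields have equal zeta functions.

Nothing is claimed for `re s ≤ 1`: neither continuation nor a functional equation, and the
L-series of a linear character is not identified with that of a ray class character.
-/

set_option autoImplicit false
set_option linter.style.haveILetI false
set_option linter.unusedSectionVars false

noncomputable section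

open NumberField IsDedekindDomain Module FA.ArtinL FA.CharacterTheory

namespace FA.Summary

variable (K L : Type*) [Field K] [NumberField K] [Field L] [NumberField L] [Algebra K L]
  [IsGalois K L]

/-- **The Euler product of an Artin L-series**, at all primes. -/
theorem artinL_euler_product (V : Type*) [AddCommGroup V] [Module ℂ V] [FiniteDimensional ℂ V]
    (ρ : Representation ℂ (L ≃ₐ[K] L) V) (Q : HeightOneSpectrum (𝓞 K) → Ideal (𝓞 L))
    [hQ : ∀ v, (Q v).IsMaximal] (hQv : ∀ v, (Q v).under (𝓞 K) = v.asIdeal)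
    (φ : HeightOneSpectrum (𝓞 K) → (L ≃ₐ[K] L))
    (hφ : ∀ v, IsArithFrobAt (𝓞 K) (φ v) (Q v)) {s : ℂ} (hs : 1 < s.re) :
    HasProd (fun v => (LinearMap.det
      (1 - ((Ideal.absNorm v.asIdeal : ℕ) : ℂ) ^ (-s) • frobOn ρ (hφ v)))⁻¹)
      (artinL ρ.character s) := by
  convert hasProd_artinL hs ρ.character using 1
  exact funext fun v => (exp_tsum_term ρ hs (hQv v) (hφ v)).symm

/-- **The formalism of Artin L-series.** -/
theorem artinL_formalism {s : ℂ} (hs : 1 < s.re) (χ ψ : (L ≃ₐ[K] L) → ℂ) (n : ℤ) :
    Summable (term χ s) ∧ artinL χ s ≠ 0 ∧ artinL (χ + ψ) s = artinL χ s * artinL ψ s ∧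
      artinL (n • χ) s = artinL χ s ^ n ∧
      artinL (fun _ : L ≃ₐ[K] L => (1 : ℂ)) s = dedekindZeta K s :=
  ⟨summable_term hs χ, artinL_ne_zero χ s, artinL_add hs χ ψ, artinL_zsmul n χ, artinL_one hs⟩

open scoped Classical in
/-- **Invariance under induction.** -/
theorem artinL_induction (M : Type*) [Field M] [NumberField M] [Algebra K M] [Algebra M L]
    [IsScalarTower K M L] [IsGalois M L] {ψ : (L ≃ₐ[M] L) → ℂ}
    (hψ : ∀ g x, ψ (g * x * g⁻¹) = ψ x) {s : ℂ} (hs : 1 < s.re) :
    artinL (fun g : L ≃ₐ[K] L => (Nat.card (L ≃ₐ[M] L) : ℂ)⁻¹ *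
      ∑ x : L ≃ₐ[K] L, ∑ h : L ≃ₐ[M] L,
        if h.restrictScalars K = x * g * x⁻¹ then ψ h else 0) s = artinL ψ s := by
  convert artinL_induced (K := K) hs hψ using 2
  funext g
  rw [inducedFn]
  congr 1

/-- **The factorisation of the zeta function.** -/
theorem dedekindZeta_factorisation {s : ℂ} (hs : 1 < s.re) :
    dedekindZeta L s = ∏ χ ∈ irr (L ≃ₐ[K] L), artinL χ s ^ (χ 1) :=
  dedekindZeta_eq_prod hs

/-- **Gassmann's theorem.** -/
theorem gassmann_zeta (M M' : IntermediateField K L)
    (hG : ∀ g : L ≃ₐ[K] L, Nat.card {h : M.fixingSubgroup // IsConj g (h : L ≃ₐ[K] L)} =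
      Nat.card {h : M'.fixingSubgroup // IsConj g (h : L ≃ₐ[K] L)})
    {s : ℂ} (hs : 1 < s.re) : dedekindZeta M s = dedekindZeta M' s := by
  have hcount : ∀ (N : IntermediateField K L) (g : L ≃ₐ[K] L),
      Nat.card {h : L ≃ₐ[N] L // IsConj g (galIncl K N L h)} =
        Nat.card {h : N.fixingSubgroup // IsConj g (h : L ≃ₐ[K] L)} := fun N g =>
    Nat.card_congr
      { toFun := fun h => ⟨⟨h.1.restrictScalars K, fun x => h.1.commutes x⟩, h.2⟩
        invFun := fun h => ⟨AlgEquiv.ofRingEquiv (f := h.1.1.toRingEquiv) fun x => h.1.2 x, by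
          convert h.2
          exact AlgEquiv.ext fun _ => rfl⟩
        left_inv := fun h => Subtype.ext (AlgEquiv.ext fun _ => rfl)
        right_inv := fun h => Subtype.ext (Subtype.ext (AlgEquiv.ext fun _ => rfl)) }
  exact dedekindZeta_eq_of_gassmann (K := K) (L := L) hs M fun g => by
    rw [hcount M g, hcount M' g]; exact hG g

end FA.Summary

end
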