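import Fermat.Agent.ArtinL.Brauer
import Fermat.Agent.Root.SummaryArtinL

/-!
# Artin L-series through abelian characters

* `artinL_brauer`: on `1 < re s` every Artin L-series is a product of integral powers of L-series
  of linear characters of intermediate fields whose groups are elementary;
* `artinL_rational`: for a rational-valued character `χ` the `|G|`-th power of `L(s, χ)` is a
  product of integral powers of zeta functions of intermediate fields;
* `artinL_rational_at_one`: as the real `s` decreases to `1`,
  `(s - 1) ^ (∑ χ(g)) L(s, χ) ^ |G|` tends to some limit which is not zero (its value as a product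
  of powers of residues is only in the proof).

The L-series of the linear characters are not identified with Hecke L-series, so neither the
continuation nor, for other characters, the behaviour at `1` is claimed.
-/

set_option autoImplicit false
set_option linter.style.haveILetI false

noncomputable section

open NumberField Module Filter Topology FA.ArtinL

namespace FA.Summary

variable (K L : Type*) [Field K] [NumberField K] [Field L] [NumberField L] [Algebra K L]
  [IsGalois K L] (V : Type*) [AddCommGroup V] [Module ℂ V] [FiniteDimensional ℂ V]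
  (ρ : Representation ℂ (L ≃ₐ[K] L) V)

/-- **Brauer's decomposition of an Artin L-series.** -/
theorem artinL_brauer :
    ∃ (n : ℕ) (k : Fin n → ℤ) (M : Fin n → IntermediateField K L)
      (ψ : (i : Fin n) → (L ≃ₐ[M i] L) →* ℂˣ),
      (∀ i, FA.BrauerInduction.IsElementary (M i).fixingSubgroup) ∧
      ∀ s : ℂ, 1 < s.re →
        artinL ρ.character s = ∏ i, artinL (fun h => (ψ i h : ℂ)) s ^ k i :=
  exists_brauer_product ρ

/-- **Rational-valued characters**: zeta functions suffice. -/
theorem artinL_rational (hrat : ∀ g, ∃ q : ℚ, ρ.character g = q) :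
    ∃ m : Subgroup (L ≃ₐ[K] L) →₀ ℤ, ∀ s : ℂ, 1 < s.re →
      artinL ρ.character s ^ Nat.card (L ≃ₐ[K] L) =
        ∏ H ∈ m.support, dedekindZeta (IntermediateField.fixedField H) s ^ m H := by
  classical
  obtain ⟨m, -, hm⟩ := exists_zeta_product ρ hrat
  exact ⟨m, hm⟩

/-- **The order at `1` of the L-series of a rational-valued character.** -/
theorem artinL_rational_at_one (hrat : ∀ g, ∃ q : ℚ, ρ.character g = q) :
    ∃ (e : ℤ) (c : ℂ), (e : ℂ) = ∑ g, ρ.character g ∧ c ≠ 0 ∧
      Tendsto (fun s : ℝ => ((s : ℂ) - 1) ^ e * artinL ρ.character s ^ Nat.card (L ≃ₐ[K] L))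
        (𝓝[>] 1) (𝓝 c) := by
  classical
  obtain ⟨m, e, he, -, h⟩ := exists_tendsto_at_one ρ hrat
  exact ⟨e, _, he, Finset.prod_ne_zero_iff.2 fun H _ => zpow_ne_zero _
    (Complex.ofReal_ne_zero.2 (dedekindZeta_residue_ne_zero _)), h⟩

end FA.Summary

end
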