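import Fermat.Agent.QuadraticLFF.Sums

/-!
# Quadratic L-functions over `F_q[t]` and the averages of Hoffstein and Rosen

For odd `q` and monic `f` the symbol `(D / f)` is the quadratic character of the resultant of `f`
and `D`; at an irreducible `f` it is the residue symbol. For a monic nonsquare `D` of degree `m` the
series `L(u, D) = ∑ (D / f) u ^ deg f` is a polynomial of degree less than `m`. Averaged over the
monic `D` of odd degree `m` its values at `1 / q` and at `1 / √q`, that is at `s = 1` and at the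
central point, are exactly `1 + 1 / q - q ^ (-(m + 1) / 2)` and `1 + (1 - 1 / q) (m - 1) / 2`.

Not claimed: the class number formula, or averages over squarefree `D` only.
-/

set_option autoImplicit false
set_option linter.style.openClassical false
set_option linter.style.haveILetI false
set_option linter.unusedSectionVars false

noncomputable section

open scoped Classical
open Polynomial

namespace FA.QuadraticLFF.Summary

variable {k : Type*} [Field k] [Fintype k]

/-- The symbol `(D / f)`. -/
def quadSymbol (f D : k[X]) : ℤ := quadraticChar k (resultant f D)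

/-- The coefficient of `u ^ n` in the L-function of `D`. -/
def lCoeff (D : k[X]) (n : ℕ) : ℤ :=
  ∑ᶠ f ∈ {f : k[X] | f.Monic ∧ f.natDegree = n}, quadSymbol f D

/-- The L-function of `D`. -/
def lFunction (D : k[X]) (u : ℝ) : ℝ := ∑' n, (lCoeff D n : ℝ) * u ^ n

theorem coe_monicSet (n : ℕ) :
    ↑(KurlbergRudnick.monicSet k n) = {f : k[X] | f.Monic ∧ f.natDegree = n} :=
  Set.ext fun f => by simp [KurlbergRudnick.mem_monicSet]

theorem lCoeff_eq (D : k[X]) : lCoeff D = coeffL D := funext fun n => by
  rw [lCoeff, coeffL, ← coe_monicSet, finsum_mem_coe_finset]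
  rfl

theorem lFunction_eq (D : k[X]) : lFunction D = lvalue D := by
  unfold lFunction lvalue
  rw [lCoeff_eq]

/-- **The symbol is the residue symbol** at a monic irreducible. -/
theorem symbol_irreducible (hk : ringChar k ≠ 2) {P : k[X]} (hm : P.Monic) (hP : Irreducible P)
    {D : k[X]} (h : ¬ P ∣ D) :
    (quadSymbol P D = 1 ↔ IsSquare (AdjoinRoot.mk P D)) ∧
      (quadSymbol P D = -1 ↔ ¬ IsSquare (AdjoinRoot.mk P D)) :=
  QuadraticLFF.symbol_irreducible hk hm hP h

/-- **The symbol is multiplicative** in both arguments and reciprocal up to a sign. -/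
theorem symbol_laws {f g : k[X]} (hf : f.Monic) (hg : g.Monic) (D E : k[X]) :
    quadSymbol f (D * E) = quadSymbol f D * quadSymbol f E ∧
    quadSymbol (f * g) D = quadSymbol f D * quadSymbol g D ∧
    quadSymbol f g =
      quadraticChar k ((-1) ^ (f.natDegree * g.natDegree)) * quadSymbol g f :=
  ⟨symbol_mul_right hf D E, by
    rw [quadSymbol, quadSymbol, quadSymbol, res_mul_left hf hg, map_mul],
    symbol_swap f g⟩

variable (hk : ringChar k ≠ 2)
include hk

/-- **The L-function of a nonsquare is a polynomial** of degree less than `deg D`. -/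
theorem lfunction_polynomial {D : k[X]} (hD : D.Monic) (hns : ¬ IsSquare D) :
    (∀ n, D.natDegree ≤ n → lCoeff D n = 0) ∧
    ∀ u : ℝ, lFunction D u = ∑ n ∈ Finset.range D.natDegree, (lCoeff D n : ℝ) * u ^ n := by
  have h : ∀ E : k[X], E.Monic → D ≠ E ^ 2 := fun E _ e => hns (e ▸ IsSquare.sq E)
  rw [lCoeff_eq, lFunction_eq]
  exact ⟨fun n hn => coeffL_eq_zero hk hD h hn, lvalue_eq_sum hk hD h⟩

/-- **The averages of the coefficients**, exact for `0 < n ≤ m`. -/
theorem mean_coefficient {m n : ℕ} (h0 : n ≠ 0) (hn : n ≤ m) :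
    ∑ᶠ D ∈ {D : k[X] | D.Monic ∧ D.natDegree = m}, lCoeff D n =
      if Even n then (Fintype.card k : ℤ) ^ (m + n / 2) - (Fintype.card k : ℤ) ^ (m + n / 2 - 1)
      else 0 := by
  rw [← coe_monicSet, finsum_mem_coe_finset]
  simp only [lCoeff_eq]
  exact sum_coeffL hk h0 hn

/-- **The average of the L-functions** over the monic `D` of degree `2 J + 1`, at every `u`. -/
theorem lfunction_average (J : ℕ) (u : ℝ) :
    (∑ᶠ D ∈ {D : k[X] | D.Monic ∧ D.natDegree = 2 * J + 1}, lFunction D u) /
        (Fintype.card k : ℝ) ^ (2 * J + 1) =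
      1 + (1 - (Fintype.card k : ℝ)⁻¹) *
        ∑ j ∈ Finset.range J, ((Fintype.card k : ℝ) * u ^ 2) ^ (j + 1) := by
  rw [← coe_monicSet, finsum_mem_coe_finset]
  simp only [lFunction_eq]
  exact average_lvalue hk J u

/-- **Hoffstein and Rosen**: the averages at `s = 1` and at the central point. -/
theorem hoffstein_rosen {m : ℕ} (hm : Odd m) :
    (∑ᶠ D ∈ {D : k[X] | D.Monic ∧ D.natDegree = m}, lFunction D (Fintype.card k : ℝ)⁻¹) /
        (Fintype.card k : ℝ) ^ m =
      1 + (Fintype.card k : ℝ)⁻¹ - (Fintype.card k : ℝ)⁻¹ ^ ((m + 1) / 2) ∧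
    (∑ᶠ D ∈ {D : k[X] | D.Monic ∧ D.natDegree = m},
        lFunction D (Real.sqrt (Fintype.card k))⁻¹) / (Fintype.card k : ℝ) ^ m =
      1 + (1 - (Fintype.card k : ℝ)⁻¹) * (((m - 1) / 2 : ℕ) : ℝ) := by
  obtain ⟨J, rfl⟩ := hm
  rw [lfunction_average hk, lfunction_average hk, show (2 * J + 1 + 1) / 2 = J + 1 by omega,
    show (2 * J + 1 - 1) / 2 = J by omega]
  have hpos : (0 : ℝ) < Fintype.card k := by exact_mod_cast Fintype.card_pos
  generalize (Fintype.card k : ℝ) = q at hpos ⊢
  have hq : q ≠ 0 := hpos.ne'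
  constructor
  · rw [show q * q⁻¹ ^ 2 = q⁻¹ by field_simp]
    induction J with
    | zero => simp
    | succ J ih =>
      rw [Finset.sum_range_succ, mul_add, ← add_assoc, ih, pow_succ q⁻¹ (J + 1)]
      ring
  · rw [inv_pow, Real.sq_sqrt hpos.le, mul_inv_cancel₀ hq]
    simp

end FA.QuadraticLFF.Summary
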