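import Fermat.Agent.QuadraticRH.Primes
import Fermat.Agent.Root.SummaryQuadraticLFF

/-!
# The Riemann hypothesis for quadratic L-functions over `F_q[t]`

For odd `q` and a monic squarefree `D` of degree `2 g + 1` the L-function `L(u, D)` has degree
exactly `2 g`, satisfies `L(u) = q ^ g u ^ (2 g) L(1 / (q u))`, and all its reciprocal roots have
absolute value exactly `√q` (Artin, Weil). For every monic squarefree nonconstant `D` half of the
monic irreducibles of degree `n` have either value of the symbol, up to `O(deg D q ^ (n / 2))`.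

Not claimed: the functional equation in even degree, or the class number formula.
-/

set_option autoImplicit false
set_option linter.style.openClassical false
set_option linter.style.haveILetI false
set_option linter.unusedSectionVars false

noncomputable section

open scoped Classical
open Polynomial
open FA.QuadraticLFF.Summary (quadSymbol lCoeff lFunction lCoeff_eq lFunction_eq)

namespace FA.QuadraticRH.Summary

variable {k : Type*} [Field k] [Fintype k] (hk : ringChar k ≠ 2) {D : k[X]} (hD : D.Monic)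
  (hsq : Squarefree D)
include hk hD hsq

section odd

variable {g : ℕ} (hdeg : D.natDegree = 2 * g + 1)
include hdeg

/-- **The functional equation**, with root number `1`. -/
theorem functional_equation :
    lCoeff D (2 * g) = (Fintype.card k : ℤ) ^ g ∧
    (∀ n ≤ 2 * g, lCoeff D n * (Fintype.card k : ℤ) ^ g =
      (Fintype.card k : ℤ) ^ n * lCoeff D (2 * g - n)) ∧
    ∀ u : ℝ, u ≠ 0 → lFunction D u = (Fintype.card k : ℝ) ^ g * u ^ (2 * g) *
      lFunction D ((Fintype.card k : ℝ) * u)⁻¹ := by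
  rw [lCoeff_eq, lFunction_eq]
  refine ⟨coeffL_top hk hD hsq hdeg, fun n hn => coeffL_fe hk hD hsq hdeg hn, fun u hu => ?_⟩
  have hns := QuadraticLFF.not_sq_of_odd (k := k) (D := D) (hdeg ▸ odd_two_mul_add_one g)
  rw [QuadraticLFF.lvalue_eq_sum hk hD hns, QuadraticLFF.lvalue_eq_sum hk hD hns, hdeg,
    ← Finset.sum_range_reflect, Finset.mul_sum]
  refine Finset.sum_congr rfl fun n hn => ?_
  rw [Finset.mem_range] at hn
  have h : (QuadraticLFF.coeffL D n : ℝ) * (Fintype.card k : ℝ) ^ g =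
      (Fintype.card k : ℝ) ^ n * (QuadraticLFF.coeffL D (2 * g - n) : ℝ) := by
    exact_mod_cast coeffL_fe hk hD hsq hdeg (n := n) (by omega)
  rw [show 2 * g + 1 - 1 - n = 2 * g - n by omega, inv_pow, mul_pow,
    pow_sub₀ u hu (by omega : n ≤ 2 * g)]
  have hq : (Fintype.card k : ℝ) ^ n ≠ 0 := pow_ne_zero _ (by simp)
  have hun : u ^ n ≠ 0 := pow_ne_zero _ hu
  field_simp
  linear_combination -h

/-- **The Riemann hypothesis**: `2 g` reciprocal roots, all of absolute value `√q`. -/
theorem riemann_hypothesis :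
    (∃ s : Multiset ℂ, Multiset.card s = 2 * g ∧
      (∀ a ∈ s, ‖a‖ = Real.sqrt (Fintype.card k)) ∧
      ∀ z : ℂ, ∑ n ∈ Finset.range (2 * g + 1), (lCoeff D n : ℂ) * z ^ n =
        (s.map fun a => 1 - a * z).prod) ∧
    ∀ z : ℂ, ∑ n ∈ Finset.range (2 * g + 1), (lCoeff D n : ℂ) * z ^ n = 0 →
      ‖z‖ = (Real.sqrt (Fintype.card k))⁻¹ := by
  rw [lCoeff_eq]
  refine ⟨⟨_, card_lRoots hk hD hsq hdeg, fun _ => norm_lRoots_eq hk hD hsq hdeg,
    sum_coeffL_mul_pow hk hD hsq hdeg⟩, fun z hz => ?_⟩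
  rw [sum_coeffL_mul_pow hk hD hsq hdeg, Multiset.prod_eq_zero_iff, Multiset.mem_map] at hz
  obtain ⟨a, ha, hz⟩ := hz
  have h := congrArg (‖·‖) (sub_eq_zero.mp hz)
  simp only [norm_one, norm_mul, norm_lRoots_eq hk hD hsq hdeg ha] at h
  exact eq_inv_of_mul_eq_one_right h.symm

/-- **The coefficients and the value at `1`.** -/
theorem coefficient_and_value_bounds :
    (∀ n ≤ 2 * g, |(lCoeff D n : ℝ)| ≤
      ((2 * g).choose n : ℝ) * Real.sqrt (Fintype.card k) ^ n) ∧
    (Real.sqrt (Fintype.card k) - 1) ^ (2 * g) ≤ lFunction D 1 ∧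
    lFunction D 1 ≤ (Real.sqrt (Fintype.card k) + 1) ^ (2 * g) := by
  rw [lCoeff_eq, lFunction_eq, QuadraticLFF.lvalue_eq_sum hk hD
    (QuadraticLFF.not_sq_of_odd (hdeg ▸ odd_two_mul_add_one g)), hdeg]
  simp only [one_pow, mul_one]
  exact ⟨fun n hn => abs_coeffL_le hk hD hsq hdeg hn, value_one_bounds hk hD hsq hdeg⟩

end odd

/-- **Split and inert primes**: each is half of the irreducibles of degree `n`. -/
theorem split_inert_primes (hm : 1 ≤ D.natDegree) {n : ℕ} (hn : 1 ≤ n) {e : ℤ}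
    (he : e = 1 ∨ e = -1) :
    |2 * (n : ℝ) *
        ({P : k[X] | P.Monic ∧ P.natDegree = n ∧ Irreducible P ∧ quadSymbol P D = e}.ncard : ℝ) -
      (Fintype.card k : ℝ) ^ n| ≤
      (2 * D.natDegree + 3 : ℕ) * Real.sqrt (Fintype.card k) ^ n := by
  rw [show {P : k[X] | P.Monic ∧ P.natDegree = n ∧ Irreducible P ∧ quadSymbol P D = e} =
      ↑((irrDeg k n).filter fun P => QuadraticLFF.symbol P D = e) from Set.ext fun P => by
    simp [irrDeg, KurlbergRudnick.mem_monicSet, quadSymbol, QuadraticLFF.symbol, and_assoc],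
    Set.ncard_coe_finset]
  exact abs_prime_count_sub_le hk hD hsq hm hn he

/-- **Both kinds occur in every degree** with `(2 deg D + 3) ^ 2 < q ^ n`. -/
theorem exists_split_inert (hm : 1 ≤ D.natDegree) {n : ℕ} (hn : 1 ≤ n)
    (hq : (2 * D.natDegree + 3) ^ 2 < Fintype.card k ^ n) {e : ℤ} (he : e = 1 ∨ e = -1) :
    ∃ P : k[X], P.Monic ∧ P.natDegree = n ∧ Irreducible P ∧ quadSymbol P D = e := by
  by_contra hno
  have h := split_inert_primes hk hD hsq hm hn he
  rw [show {P : k[X] | P.Monic ∧ P.natDegree = n ∧ Irreducible P ∧ quadSymbol P D = e} = ∅ from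
    Set.eq_empty_iff_forall_notMem.mpr fun P hP => hno ⟨P, hP⟩, Set.ncard_empty, Nat.cast_zero,
    mul_zero, zero_sub, abs_neg, abs_of_nonneg (by positivity)] at h
  set x := Real.sqrt (Fintype.card k) ^ n
  have hx : x * x = (Fintype.card k : ℝ) ^ n := by
    rw [← mul_pow, Real.mul_self_sqrt (Nat.cast_nonneg _)]
  have hlt : ((2 * D.natDegree + 3 : ℕ) : ℝ) ^ 2 < x * x := by
    rw [hx]; exact_mod_cast hq
  have hx0 : 0 ≤ x := by positivity
  rw [← hx] at h
  nlinarith [(Nat.cast_nonneg (2 * D.natDegree + 3) : (0 : ℝ) ≤ _)]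

end FA.QuadraticRH.Summary
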