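import Fermat.Agent.ArtinClassNumber.Count
import Fermat.Agent.Root.SummaryQuadraticRH

/-!
# Artin's class number formula over `F_q[t]`

For odd `q` and monic squarefree `D` of degree `2 g + 1` the number `h(D)` of reduced pairs
`(a, b)`, with `a` monic of degree at most `g`, `deg b < deg a` and `a ∣ b ^ 2 - D` (Artin's reduced
forms, in Mumford's shape), is exactly `L(1, D)`; so by the Riemann hypothesis it lies between
`(√q - 1) ^ (2 g)` and `(√q + 1) ^ (2 g)`, which settles Gauss's problem for `q ≥ 5`.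

Not claimed: the bijection of reduced pairs with the class group of `F_q[t, √D]`.
-/

set_option autoImplicit false
set_option linter.style.openClassical false
set_option linter.style.haveILetI false
set_option linter.unusedSectionVars false

noncomputable section

open scoped Classical
open Polynomial
open FA.QuadraticLFF.Summary (quadSymbol lCoeff lFunction lCoeff_eq lFunction_eq)

namespace FA.ArtinClassNumber.Summary

variable {k : Type*} [Field k]

/-- The reduced pairs. -/
def reducedPairs (D : k[X]) (g : ℕ) : Set (k[X] × k[X]) :=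
  {p | p.1.Monic ∧ p.1.natDegree ≤ g ∧ p.2.degree < p.1.degree ∧ p.1 ∣ p.2 ^ 2 - D}

/-- The class number. -/
def classNumber (D : k[X]) (g : ℕ) : ℕ := (reducedPairs D g).ncard

variable [Fintype k]

theorem classNumber_eq (D : k[X]) (g : ℕ) :
    classNumber D g = ∑ a ∈ KurlbergRudnick.upTo k g, rootNum D a := by
  have h : reducedPairs D g =
      ↑((KurlbergRudnick.upTo k g).biUnion fun a => (rootSet D a).image (Prod.mk a)) := by
    ext ⟨a, b⟩
    simp only [reducedPairs, Set.mem_ofPred_eq, Finset.mem_coe, Finset.mem_biUnion,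
      Finset.mem_image, Prod.mk.injEq, KurlbergRudnick.mem_upTo]
    constructor
    · rintro ⟨hm, hd, hb⟩
      exact ⟨a, ⟨hm, hd⟩, b, (mem_rootSet hm).mpr hb, rfl, rfl⟩
    · rintro ⟨a', ⟨hm, hd⟩, b', hb, rfl, rfl⟩
      exact ⟨hm, hd, (mem_rootSet hm).mp hb⟩
  rw [classNumber, h, Set.ncard_coe_finset, Finset.card_biUnion fun a _ a' _ hne =>
    Finset.disjoint_left.mpr fun p hp hp' => hne ?_]
  · exact Finset.sum_congr rfl fun a _ =>
      Finset.card_image_of_injective _ (Prod.mk_right_injective a)
  obtain ⟨b, -, rfl⟩ := Finset.mem_image.mp hp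
  obtain ⟨b', -, hb'⟩ := Finset.mem_image.mp hp'
  exact (Prod.ext_iff.mp hb').1.symm

variable (hk : ringChar k ≠ 2) {D : k[X]} (hD : D.Monic) (hsq : Squarefree D)
include hk hD hsq

/-- **Square roots of `D` modulo `a`**: multiplicative, with the local values of the symbol. -/
theorem sqrt_count {a b P : k[X]} (ha : a.Monic) (hb : b.Monic) (hc : IsCoprime a b)
    (hm : P.Monic) (hP : Irreducible P) {j : ℕ} (hj : 1 ≤ j) :
    rootNum D (a * b) = rootNum D a * rootNum D b ∧
    (¬ P ∣ D → (rootNum D (P ^ j) : ℤ) = 1 + quadSymbol P D) ∧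
    (P ∣ D → rootNum D (P ^ j) = if j = 1 then 1 else 0) := by
  refine ⟨rootNum_mul ha hb hc, fun hPD => ?_, fun hPD => rootNum_ramified hm hP hsq hPD hj⟩
  induction j, hj using Nat.le_induction with
  | base => rw [pow_one, rootNum_irreducible hk hm hP hPD]; rfl
  | succ j hj ih => rw [rootNum_pow_succ hk hm hP hPD hj, ih]

variable {g : ℕ} (hdeg : D.natDegree = 2 * g + 1)
include hdeg

/-- **Artin's class number formula**: `h(D) = L(1, D)`. -/
theorem class_number_formula : (classNumber D g : ℝ) = lFunction D 1 := by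
  rw [lFunction_eq, QuadraticLFF.lvalue_eq_sum hk hD
    (QuadraticLFF.not_sq_of_odd (hdeg ▸ odd_two_mul_add_one g)), hdeg, classNumber_eq]
  simp only [one_pow, mul_one]
  have h : (∑ a ∈ KurlbergRudnick.upTo k g, rootNum D a : ℤ) =
      ∑ n ∈ Finset.range (2 * g + 1), QuadraticLFF.coeffL D n := by
    rw [sum_rootNum_upTo hk hsq g, divTotal_eq]
    conv_rhs =>
      rw [show 2 * g + 1 = g + (g + 1) by ring, Finset.sum_range_add,
        ← Finset.sum_range_reflect (fun x => QuadraticLFF.coeffL D (g + x))]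
    rw [add_comm]
    refine congrArg _ (Finset.sum_congr rfl fun j hj => ?_)
    rw [Finset.mem_range] at hj
    rw [show g + (g + 1 - 1 - j) = 2 * g - j by omega]
    have hfe := QuadraticRH.coeffL_fe hk hD hsq hdeg (n := j) (by omega)
    refine mul_left_cancel₀ (pow_ne_zero j (by simp : (Fintype.card k : ℤ) ≠ 0)) ?_
    rw [← hfe, ← mul_assoc, ← pow_add, Nat.add_sub_cancel' (by omega), mul_comm]
  exact_mod_cast h

/-- **Gauss's class number problem** over `F_q[t]`: the bounds, `q = 3` whenever the class number is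
`1` in positive genus, and growth like `(3 / 2) ^ g` for `q ≥ 5`. -/
theorem gauss_class_number_problem :
    (Real.sqrt (Fintype.card k) - 1) ^ (2 * g) ≤ (classNumber D g : ℝ) ∧
    (classNumber D g : ℝ) ≤ (Real.sqrt (Fintype.card k) + 1) ^ (2 * g) ∧
    (classNumber D g = 1 → 1 ≤ g → Fintype.card k = 3) ∧
    (5 ≤ Fintype.card k → (3 / 2 : ℝ) ^ g ≤ (classNumber D g : ℝ)) := by
  obtain ⟨-, hlo, hup⟩ :=
    QuadraticRH.Summary.coefficient_and_value_bounds hk hD hsq hdeg
  rw [← class_number_formula hk hD hsq hdeg] at hlo hup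
  have h5 : 5 ≤ Fintype.card k → (3 / 2 : ℝ) ^ g ≤ (classNumber D g : ℝ) := fun hq => by
    refine le_trans ?_ hlo
    rw [pow_mul]
    refine pow_le_pow_left₀ (by norm_num) ?_ g
    have hq' : (5 : ℝ) ≤ Fintype.card k := by exact_mod_cast hq
    have hs := Real.sq_sqrt (Nat.cast_nonneg (α := ℝ) (Fintype.card k))
    nlinarith [Real.sqrt_nonneg (Fintype.card k : ℝ)]
  refine ⟨hlo, hup, fun h1 hg => ?_, h5⟩
  have hodd := FiniteField.odd_card_of_char_ne_two hk
  have := Fintype.one_lt_card (α := k)
  by_contra h3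
  have h := h5 (by omega)
  rw [h1, Nat.cast_one] at h
  have hlt : (1 : ℝ) < (3 / 2 : ℝ) ^ g := one_lt_pow₀ (by norm_num) (by omega)
  linarith

end FA.ArtinClassNumber.Summary
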