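import Fermat.Agent.ArtinConductor.Conductor

/-!
# Artin's theorem on the conductor

`artinConductor v hv ρ = ∑ᵢ (#Gᵢ / #G₀) · (dim V - dim V ^ Gᵢ)` for the lower ramification groups
`Gᵢ` of a finite group of automorphisms of a discretely valued field with perfect residue field.
-/

set_option autoImplicit false

open Fermat.Agent.HasseArf Fermat.Agent.ArtinConductor

namespace FA.ArtinConductor.Summary

variable {G L : Type*} [Group G] [Finite G] [Field L] [MulSemiringAction G L] [FaithfulSMul G L]
  (v : AddValuation L (WithTop ℤ)) (hv : ∀ (g : G) (x : L), v (g • x) = v x)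

/-- **Artin**: the conductor of every complex representation is a nonnegative integer. -/
theorem artin_conductor_integer (hπ : ∃ π : L, v π = ((1 : ℤ) : WithTop ℤ))
    (hperf : ∀ p : ℕ, p.Prime → 0 < v (p : L) → ∀ x, 0 ≤ v x → ∃ y, 0 < v (x - y ^ p))
    {V : Type*} [AddCommGroup V] [Module ℂ V] [FiniteDimensional ℂ V]
    (ρ : Representation ℂ G V) : ∃ n : ℕ, artinConductor v hv ρ = n :=
  exists_artinConductor_eq_natCast v hv hπ hperf ρ

omit [Finite G] [FaithfulSMul G L] in
/-- **Herbrand's lemma** for an arbitrary subgroup `H` of a totally ramified group: the valuation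
of `g ϖ - ϖ`, with `ϖ = ∏_{h ∈ H} h π`, is the sum of those of `g h π - π`. -/
theorem herbrand_lemma (T : TotallyRamified G L) (H : Subgroup G) [Fintype H]
    (hH : ∀ h : H, T.ij (h : G) = ⊤ → h = 1) (g : G) :
    T.v (g • T.normπ H - T.normπ H) = ∑ h : H, T.v ((g * h) • T.π - T.π) :=
  T.v_smul_sub_normπ_eq hH g

end FA.ArtinConductor.Summary
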