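import Fermat.Agent.ArtinReciprocity.Meromorphic

/-!
# Artin L-series beyond the half plane

For a finite Galois extension `L/K` of number fields:

* `artinL_linear_hecke`: the L-series of a linear character is the Hecke L-series of a character
  of finite order of the ideals of `K`, nontrivial exactly when the character is (reciprocity);
* `artinL_linear_entire`: if it is nontrivial it is entire without zeros on `1 ≤ re s`;
* `artinL_meromorphic`: every Artin L-series continues meromorphically to the plane, is holomorphic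
  without zeros on `1 ≤ re s`, `s ≠ 1`, and its order at `1` is minus the dimension of the fixed
  vectors.

Neither functional equations nor holomorphy in general (Artin's conjecture) is proved.
-/

set_option autoImplicit false
set_option linter.style.haveILetI false

noncomputable section

open NumberField IsDedekindDomain
open FA.ArtinL (artinL)
open scoped nonZeroDivisors

namespace FA.Summary

variable (K L : Type*) [Field K] [NumberField K] [Field L] [NumberField L] [Algebra K L]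
  [IsGalois K L]

/-- **A linear Artin L-series is a Hecke L-series.** -/
theorem artinL_linear_hecke (ψ : (L ≃ₐ[K] L) →* ℂˣ) :
    ∃ (𝔪 : Ideal (𝓞 K)) (f : Ideal (𝓞 K) →* ℂ), 𝔪 ≠ ⊥ ∧
      (∀ I : Ideal (𝓞 K), I ≠ ⊥ → (f I ≠ 0 ↔ I ⊔ 𝔪 = ⊤)) ∧
      (∀ x : 𝓞 K, x ≠ 0 → x - 1 ∈ 𝔪 → (∀ φ : K →+* ℝ, 0 < φ x) → f (Ideal.span {x}) = 1) ∧
      ((∃ I, I ≠ ⊥ ∧ f I ≠ 0 ∧ f I ≠ 1) ↔ ψ ≠ 1) ∧
      ∀ s : ℂ, 1 < s.re → artinL (fun σ => (ψ σ : ℂ)) s =
        ∑' I : (Ideal (𝓞 K))⁰, f I.1 * ((Ideal.absNorm I.1 : ℕ) : ℂ) ^ (-s) := by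
  obtain ⟨𝔪, f, hf, hnt, h⟩ := FA.ArtinRec.exists_hecke ψ
  exact ⟨𝔪, f, hf.ne_bot, hf.ne_zero_iff, hf.ray, hnt, fun s hs => (h s hs).trans rfl⟩

/-- **A nontrivial linear Artin L-series is entire without zeros on `1 ≤ re s`.** -/
theorem artinL_linear_entire (ψ : (L ≃ₐ[K] L) →* ℂˣ) (hψ : ψ ≠ 1) :
    ∃ E : ℂ → ℂ, Differentiable ℂ E ∧
      (∀ s : ℂ, 1 < s.re → E s = artinL (fun σ => (ψ σ : ℂ)) s) ∧
      ∀ s : ℂ, 1 ≤ s.re → E s ≠ 0 := by
  obtain ⟨𝔪, f, hf, hnt, h⟩ := FA.ArtinRec.exists_hecke ψ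
  obtain ⟨E, hE, hE'⟩ := FA.Hecke.exists_heckeE hf (hnt.2 hψ)
  exact ⟨E, hE, fun s hs => ((h s hs).trans (hE' s hs)).symm, fun s hs =>
    hf.heckeE_ne_zero hE hE' hs⟩

/-- **Artin L-series are meromorphic, with their orders on `1 ≤ re s`.** -/
theorem artinL_meromorphic (V : Type*) [AddCommGroup V] [Module ℂ V] [FiniteDimensional ℂ V]
    (ρ : Representation ℂ (L ≃ₐ[K] L) V) :
    ∃ F : ℂ → ℂ, Meromorphic F ∧
      (∀ s : ℂ, 1 < s.re → F s = artinL ρ.character s) ∧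
      (∀ s : ℂ, 1 ≤ s.re → s ≠ 1 → AnalyticAt ℂ F s ∧ F s ≠ 0) ∧
      meromorphicOrderAt F 1 =
        ((-(Module.finrank ℂ (Representation.invariants ρ) : ℤ) : ℤ) : WithTop ℤ) :=
  FA.ArtinRec.exists_meromorphic ρ

end FA.Summary

end
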