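import Fermat.Agent.Root.SummaryPrimesForms
import Fermat.Agent.Faltings.Lemma

/-!
# The field of the cube roots of two

* `cubeRootTwo_field`: the splitting field `ℚ(∛2, ω)` of `X³ - 2` is the ring class field of
  `ℤ[√-27]`; a prime `p ∤ 6` splits completely in it iff `p = x² + 27 y²`, and its irreducible two
  dimensional representations come from weight one cusp forms.
* `weightOne_cube_root_two`: a weight one cusp form whose `p`-th coefficient, for `p ∤ 6`, is one
  less than the number of cube roots of `2` modulo `p`.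
-/

set_option autoImplicit false

noncomputable section

open NumberField Module Polynomial
open CongruenceSubgroup (Gamma1)
open scoped MatrixGroups

namespace FA.OrderTheta

local notation "Qb" => AlgebraicClosure ℚ
local notation "GQ" => AlgebraicClosure ℚ ≃ₐ[ℚ] AlgebraicClosure ℚ

theorem isIntegral_of_cube_eq_two {a : Qb} (ha : a ^ 3 = 2) : IsIntegral ℤ a :=
  IsIntegral.of_pow (n := 3) (by norm_num)
    (by rw [ha, show (2 : Qb) = algebraMap ℤ Qb 2 by simp]; exact isIntegral_algebraMap)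

theorem cube_root_fixed {q : ℕ} (hq : q.Prime) (hq2 : q ≠ 2) (hq3 : q ≠ 3)
    (hform : ∃ x y : ℤ, (q : ℤ) = x ^ 2 + 27 * y ^ 2) {A : ValuationSubring Qb}
    (hA : A.LiesOverPrime q) {σ : GQ} (hσ : A.IsFrobeniusAt σ q) {a : Qb} (ha : a ^ 3 = 2) :
    σ a = a := by
  have : Fact q.Prime := ⟨hq⟩
  have h1 : q % 3 = 1 := by
    obtain ⟨x, y, hxy⟩ := hform
    have hx : (x ^ 2 + 27 * y ^ 2) % 3 = x % 3 * (x % 3) % 3 := by
      rw [← Int.mul_emod, ← pow_two]; omega
    have h0 : q % 3 ≠ 0 := fun h =>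
      hq3 ((Nat.prime_dvd_prime_iff_eq Nat.prime_three hq).mp (Nat.dvd_of_mod_eq_zero h)).symm
    have : x % 3 = 0 ∨ x % 3 = 1 ∨ x % 3 = 2 := by omega
    rcases this with e | e | e <;> rw [e] at hx <;> omega
  obtain ⟨z, hz⟩ := (two_cube_iff_form hq h1).mpr hform
  set k := q / 3
  have hk : q = 3 * k + 1 := by omega
  have hz0 : z ≠ 0 := fun e => by
    rw [e, zero_pow (by norm_num)] at hz
    exact hq2 ((Nat.prime_dvd_prime_iff_eq hq Nat.prime_two).mp
      ((ZMod.natCast_eq_zero_iff 2 q).mp (by exact_mod_cast hz.symm)))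
  have hdvd : (q : ℤ) ∣ 2 ^ k - 1 := by
    rw [← ZMod.intCast_zmod_eq_zero_iff_dvd]
    push_cast
    rw [← hz, ← pow_mul, show 3 * k = q - 1 by omega, ZMod.pow_card_sub_one_eq_one hz0, sub_self]
  set P := FA.Deform.primeAt A
  have hint : IsIntegral ℤ (σ a) :=
    isIntegral_of_cube_eq_two (by rw [← map_pow, ha, map_ofNat])
  let u : FA.Deform.ZBar := ⟨a, isIntegral_of_cube_eq_two ha⟩
  let v : FA.Deform.ZBar := ⟨σ a, hint⟩
  have hu : u ^ 3 = 2 := Subtype.ext (by show a ^ 3 = _; rw [ha]; rfl)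
  have hv : v ^ 3 = 2 := Subtype.ext (by show (σ a) ^ 3 = _; rw [← map_pow, ha, map_ofNat]; rfl)
  have h2 : v - u ^ q ∈ P := by
    rw [FA.Deform.mem_primeAt]
    show σ a - a ^ q ∈ A.nonunits
    exact FA.Density.sub_pow_mem_nonunits hσ (FA.Deform.zbar_mem_valuationSubring A u)
  have h3 : u ^ q - u ∈ P := by
    rw [hk, pow_succ, pow_mul, hu,
      show (2 : FA.Deform.ZBar) ^ k * u - u = ((2 ^ k - 1 : ℤ) : FA.Deform.ZBar) * u by
        push_cast; ring]
    exact P.mul_mem_right _ ((FA.Deform.intCast_mem_primeAt_iff hq hA _).mpr hdvd)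
  have h4 : v - u ∈ P := by simpa using P.add_mem h2 h3
  by_contra hne
  have hvu : v - u ≠ 0 := fun e => hne (congrArg Subtype.val (sub_eq_zero.mp e))
  have h5 : v ^ 2 + v * u + u ^ 2 = 0 :=
    (mul_eq_zero.mp (show (v - u) * (v ^ 2 + v * u + u ^ 2) = 0 by
      linear_combination hv - hu)).resolve_left hvu
  have h6 : ((3 : ℤ) : FA.Deform.ZBar) * u ^ 2 ∈ P := by
    rw [show ((3 : ℤ) : FA.Deform.ZBar) * u ^ 2 =
      (v ^ 2 + v * u + u ^ 2) - (v - u) * (v + 2 * u) by push_cast; ring, h5]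
    exact P.sub_mem P.zero_mem (P.mul_mem_right _ h4)
  rcases (inferInstance : (FA.Deform.primeAt A).IsPrime).mem_or_mem h6 with h | h
  · exact hq3 ((Nat.prime_dvd_prime_iff_eq hq Nat.prime_three).mp (by
      exact_mod_cast (FA.Deform.intCast_mem_primeAt_iff hq hA 3).mp h))
  · have h7 : ((2 : ℤ) : FA.Deform.ZBar) ∈ P := by
      rw [show ((2 : ℤ) : FA.Deform.ZBar) = u ^ 2 * u by push_cast; rw [← hu]; ring]
      exact P.mul_mem_right _ h
    exact hq2 ((Nat.prime_dvd_prime_iff_eq hq Nat.prime_two).mp (by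
      exact_mod_cast (FA.Deform.intCast_mem_primeAt_iff hq hA 2).mp h7))

/-- The splitting field of `X³ - 2`. -/
def cubeField : IntermediateField ℚ Qb := IntermediateField.adjoin ℚ {x : Qb | x ^ 3 = 2}

theorem cubeField_finite : FiniteDimensional ℚ cubeField := by
  have : Finite {x : Qb | x ^ 3 = 2} :=
    ((X ^ 3 - C (2 : Qb)).roots.toFinset.finite_toSet.subset fun x (hx : x ^ 3 = 2) => by
      rw [Finset.mem_coe, Multiset.mem_toFinset, mem_roots (X_pow_sub_C_ne_zero (by norm_num) _)]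
      simp [hx]).to_subtype
  exact IntermediateField.finiteDimensional_adjoin fun x hx =>
    (isIntegral_of_cube_eq_two hx).tower_top

theorem mem_cubeField_fixing {g : GQ} :
    g ∈ cubeField.fixingSubgroup ↔ ∀ x : Qb, x ^ 3 = 2 → g x = x := by
  refine ⟨fun h x hx => (IntermediateField.mem_fixingSubgroup_iff _ g).mp h x
    (IntermediateField.subset_adjoin ℚ _ hx), fun h => ?_⟩
  rw [IntermediateField.mem_fixingSubgroup_iff]
  intro x hx
  induction hx using IntermediateField.adjoin_induction with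
  | mem x hx => exact h x hx
  | algebraMap r => exact g.commutes r
  | add x y _ _ hx hy => rw [map_add, hx, hy]
  | inv x _ hx => rw [map_inv₀, hx]
  | mul x y _ _ hx hy => rw [map_mul, hx, hy]

theorem cube_two_irrational : ∀ b : ℚ, b ^ 3 ≠ 2 := by
  intro b hb
  obtain ⟨z, rfl⟩ : ∃ z : ℤ, (z : ℚ) = b := by
    have : IsIntegral ℤ b := IsIntegral.of_pow (n := 3) (by norm_num)
      (by rw [hb, show (2 : ℚ) = algebraMap ℤ ℚ 2 by simp]; exact isIntegral_algebraMap)
    simpa using IsIntegrallyClosed.isIntegral_iff.mp this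
  have h : z ^ 3 = 2 := by exact_mod_cast hb
  rcases le_or_gt z 1 with hz | hz
  · nlinarith [sq_nonneg z, sq_nonneg (z + 1)]
  · nlinarith [mul_le_mul (show (2 : ℤ) ≤ z from hz) (show (2 : ℤ) ≤ z from hz) (by norm_num)
      (by omega)]

theorem six_dvd_finrank_cubeField : 6 ∣ finrank ℚ cubeField := by
  have := cubeField_finite
  obtain ⟨a, ha⟩ := IsAlgClosed.exists_pow_nat_eq (2 : Qb) (show 0 < 3 by norm_num)
  obtain ⟨w, hw⟩ := HasEnoughRootsOfUnity.exists_primitiveRoot Qb 3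
  have haM : a ∈ cubeField := IntermediateField.subset_adjoin ℚ _ ha
  have hwM : w ∈ cubeField := by
    have h : w * a ∈ cubeField := IntermediateField.subset_adjoin ℚ _
      (show (w * a) ^ 3 = 2 by rw [mul_pow, hw.pow_eq_one, one_mul, ha])
    have ha0 : a ≠ 0 := fun e => by simp [e] at ha
    rw [show w = w * a / a by field_simp]
    exact div_mem h haM
  have h3 : finrank ℚ (IntermediateField.adjoin ℚ ({a} : Set Qb)) = 3 := by
    rw [IntermediateField.adjoin.finrank (isIntegral_of_cube_eq_two ha).tower_top,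
      ← minpoly.eq_of_irreducible_of_monic
        (X_pow_sub_C_irreducible_of_prime Nat.prime_three cube_two_irrational) (by simp [ha])
        (monic_X_pow_sub_C _ (by norm_num)), natDegree_X_pow_sub_C]
  have h2 : finrank ℚ (IntermediateField.adjoin ℚ ({w} : Set Qb)) = 2 := by
    rw [IntermediateField.adjoin.finrank ((hw.isIntegral (by norm_num)).tower_top),
      ← cyclotomic_eq_minpoly_rat hw (by norm_num), natDegree_cyclotomic]
    decide
  have d3 := IntermediateField.finrank_dvd_of_le_right (K := ℚ)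
    (IntermediateField.adjoin_simple_le_iff.mpr haM)
  have d2 := IntermediateField.finrank_dvd_of_le_right (K := ℚ)
    (IntermediateField.adjoin_simple_le_iff.mpr hwM)
  rw [h3] at d3
  rw [h2] at d2
  omega

theorem cube_roots_card {q : ℕ} (hq : q.Prime) (h6 : ¬ q ∣ 6) :
    (q % 3 = 1 ∧ (∃ x y : ℤ, (q : ℤ) = x ^ 2 + 27 * y ^ 2) ∧
      Nat.card {z : ZMod q // z ^ 3 = 2} = 3) ∨
    (q % 3 = 1 ∧ (¬ ∃ x y : ℤ, (q : ℤ) = x ^ 2 + 27 * y ^ 2) ∧
      Nat.card {z : ZMod q // z ^ 3 = 2} = 0) ∨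
    (q % 3 = 2 ∧ Nat.card {z : ZMod q // z ^ 3 = 2} = 1) := by
  classical
  have : Fact q.Prime := ⟨hq⟩
  have hq2 : q ≠ 2 := fun e => h6 (by norm_num [e])
  have hq3 : q ≠ 3 := fun e => h6 (by norm_num [e])
  have h0 : q % 3 ≠ 0 := fun h =>
    hq3 ((Nat.prime_dvd_prime_iff_eq Nat.prime_three hq).mp (Nat.dvd_of_mod_eq_zero h)).symm
  have htwo : (2 : ZMod q) ≠ 0 := fun e =>
    hq2 ((Nat.prime_dvd_prime_iff_eq hq Nat.prime_two).mp
      ((ZMod.natCast_eq_zero_iff 2 q).mp (by exact_mod_cast e)))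
  have hthree : (3 : ZMod q) ≠ 0 := fun e =>
    hq3 ((Nat.prime_dvd_prime_iff_eq hq Nat.prime_three).mp
      ((ZMod.natCast_eq_zero_iff 3 q).mp (by exact_mod_cast e)))
  rcases (show q % 3 = 1 ∨ q % 3 = 2 by omega) with h1 | h1
  · by_cases hf : ∃ x y : ℤ, (q : ℤ) = x ^ 2 + 27 * y ^ 2
    · refine Or.inl ⟨h1, hf, ?_⟩
      obtain ⟨z, hz⟩ := (two_cube_iff_form hq h1).mpr hf
      obtain ⟨u, hu⟩ := exists_prime_orderOf_dvd_card' (G := (ZMod q)ˣ) 3
        (hp := ⟨Nat.prime_three⟩) (by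
          rw [Nat.card_eq_fintype_card, ZMod.card_units]
          have := hq.two_le
          omega)
      set j : ZMod q := (u : ZMod q)
      have h3 : j ^ 3 = 1 := by
        rw [← Units.val_pow_eq_pow_val, ← hu, pow_orderOf_eq_one, Units.val_one]
      have hj1 : j ≠ 1 := fun e => by
        rw [show u = 1 from Units.ext e, orderOf_one] at hu
        norm_num at hu
      have hj : j ^ 2 + j + 1 = 0 :=
        (mul_eq_zero.mp (show (j - 1) * (j ^ 2 + j + 1) = 0 by
          linear_combination h3)).resolve_left (sub_ne_zero.mpr hj1)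
      have hz0 : z ≠ 0 := fun e => htwo (by rw [← hz, e]; ring)
      have hj2 : j ^ 2 ≠ 1 := fun e => hj1 (by linear_combination -j * e + h3)
      have hjj : j ^ 2 ≠ j := fun e => hj1 (by linear_combination (-j - 1) * e + h3)
      rw [Nat.card_eq_fintype_card, Fintype.card_subtype,
        show (Finset.univ.filter fun w : ZMod q => w ^ 3 = 2) = {z, z * j, z * j ^ 2} by
          ext w
          simp only [Finset.mem_filter, Finset.mem_univ, true_and, Finset.mem_insert,
            Finset.mem_singleton]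
          refine ⟨fun hw => ?_, ?_⟩
          · have : (w - z) * ((w - z * j) * (w - z * j ^ 2)) = 0 := by
              linear_combination hw - hz + (z ^ 2 * w * j - z * w ^ 2) * hj - z ^ 3 * h3
            simpa [sub_eq_zero] using this
          · rintro (rfl | rfl | rfl)
            · exact hz
            · linear_combination j ^ 3 * hz + 2 * h3
            · linear_combination j ^ 6 * hz + 2 * (j ^ 3 + 1) * h3]
      exact Finset.card_eq_three.mpr ⟨z, z * j, z * j ^ 2,
        fun e => hj1 (mul_left_cancel₀ hz0 ((mul_one z).trans e)).symm,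
        fun e => hj2 (mul_left_cancel₀ hz0 ((mul_one z).trans e)).symm,
        fun e => hjj (mul_left_cancel₀ hz0 e).symm, rfl⟩
    · refine Or.inr (Or.inl ⟨h1, hf, ?_⟩)
      rw [Nat.card_eq_zero]
      exact Or.inl ⟨fun z => hf ((two_cube_iff_form hq h1).mp ⟨z.1, z.2⟩)⟩
  · refine Or.inr (Or.inr ⟨h1, ?_⟩)
    set k := (2 * q - 1) / 3
    have hk : 3 * k = 1 + (q - 1) + (q - 1) := by omega
    have hpow : ∀ z : ZMod q, z ≠ 0 → z ^ (3 * k) = z := fun z hz => by
      rw [hk, pow_add, pow_add, pow_one, ZMod.pow_card_sub_one_eq_one hz, mul_one, mul_one]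
    rw [Nat.card_eq_one_iff_exists]
    refine ⟨⟨(2 : ZMod q) ^ k, by rw [← pow_mul, mul_comm, hpow _ htwo]⟩, ?_⟩
    rintro ⟨z, hz⟩
    refine Subtype.ext ?_
    show z = (2 : ZMod q) ^ k
    rw [← hz, ← pow_mul, hpow z fun e => htwo (by rw [← hz, e]; ring)]

end FA.OrderTheta

namespace FA.Summary

open FA.OrderTheta

local notation "Qb" => AlgebraicClosure ℚ
local notation "GQ" => AlgebraicClosure ℚ ≃ₐ[ℚ] AlgebraicClosure ℚ

/-- **The splitting field of `X³ - 2`**, the ring class field of `ℤ[√-27]`. -/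
theorem cubeRootTwo_field :
    ∃ (L : IntermediateField ℚ Qb) (_ : FiniteDimensional ℚ L) (_ : IsGalois ℚ L),
      L = IntermediateField.adjoin ℚ {x : Qb | x ^ 3 = 2} ∧ finrank ℚ L = 6 ∧
      (∀ p : ℕ, p.Prime → ¬ p ∣ 6 →
        (((Ideal.span {(p : ℤ)}).primesOver (𝓞 L)).ncard = finrank ℚ L ↔
          ∃ x y : ℤ, (p : ℤ) = x ^ 2 + 27 * y ^ 2)) ∧
      ∀ ρ : (L ≃ₐ[ℚ] L) →* Matrix (Fin 2) (Fin 2) ℂ,
        (∀ v : Fin 2 → ℂ, v ≠ 0 → ∃ g, ∀ μ : ℂ, Matrix.mulVec (ρ g) v ≠ μ • v) →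
        ∃ f : CuspForm (Gamma1 (4 * (81 * 27))) 1, ModularFormClass.qCoeff f 1 = 1 ∧
          ∀ p : ℕ, p.Prime → ¬ p ∣ 6 → ∀ Q : Ideal (𝓞 L), Q.IsMaximal → (p : 𝓞 L) ∈ Q →
            ∀ τ : L ≃ₐ[ℚ] L, IsArithFrobAt ℤ τ Q →
              (ρ τ).trace = ModularFormClass.qCoeff f p ∧
                (ρ τ).det = (jacobiSym (-27) p : ℂ) := by
  obtain ⟨L, hfin, hgal, d, -, hcard, -, -, hsplit, hmod⟩ := ringClassField_order 27
  rw [card_cl_examples.2.2.2] at hcard
  have h627 : ∀ p : ℕ, p.Prime → ¬ p ∣ 6 → ¬ p ∣ 6 * 27 := fun p hp h6 h => by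
    rcases hp.dvd_mul.mp h with h | h
    · exact h6 h
    · exact h6 (((hp.dvd_of_dvd_pow (show p ∣ 3 ^ 3 from h))).trans (by norm_num))
  have : NumberField L := { }
  have : IsGalois ℚ Qb := FA.EC.isGalois_algebraicClosure
  have := cubeField_finite
  have hKn : cubeField.fixingSubgroup.Normal := ⟨fun g hg τ => by
    rw [mem_cubeField_fixing] at hg ⊢
    intro x hx
    show τ (g (τ⁻¹ x)) = x
    rw [hg _ (by rw [← map_pow, hx, map_ofNat])]
    exact AlgEquiv.apply_symm_apply τ x⟩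
  obtain ⟨m, hm, hun⟩ := FA.Density.exists_unramified L
  have hle : cubeField ≤ L := by
    have hfix : L.fixingSubgroup ≤ cubeField.fixingSubgroup := by
      intro σ₀ hσ₀
      have hnorm : Normal ℚ L := IsGalois.to_normal
      let π : GQ →* (L ≃ₐ[ℚ] L) := AlgEquiv.restrictNormalHom L
      have hker : π.ker = L.fixingSubgroup :=
        @IntermediateField.restrictNormalHom_ker ℚ Qb _ _ _ L hnorm
      let N : Subgroup GQ := π.ker ⊓ cubeField.fixingSubgroup
      have hNn : N.Normal := Subgroup.normal_inf_normal _ _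
      have hNo : IsOpen (N : Set GQ) := by
        rw [Subgroup.coe_inf]
        refine IsOpen.inter ?_ (IntermediateField.fixingSubgroup_isOpen _)
        rw [hker]
        exact IntermediateField.fixingSubgroup_isOpen _
      obtain ⟨q, hq, hqS, A, hA, σ, hσ, hσg⟩ :=
        FA.Faltings.exists_frobenius_coset N hNo ((6 * 27).divisors ∪ m.divisors) (σ₀ : GQ ⧸ N)
      obtain ⟨hn, hK⟩ := QuotientGroup.eq.mp hσg.symm
      simp only [Finset.mem_union, Nat.mem_divisors, not_or, not_and] at hqS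
      have hq6 : ¬ q ∣ 6 := fun h => hqS.1 (h.trans (dvd_mul_right _ _)) (by norm_num)
      obtain ⟨P, hP⟩ := FA.Chebotarev.exists_isFrobPair_restrict (F := L) hq
        (fun P hP hqP τ hτ => hun q P hq hP hqP (fun h => hqS.2 h hm) τ hτ) hA hσ
      have h1 : π σ = 1 := by
        have h := MonoidHom.mem_ker.mp hn
        rw [map_mul, map_inv, MonoidHom.mem_ker.mp (hker ▸ hσ₀ : σ₀ ∈ π.ker), inv_one, one_mul] at h
        exact h
      have hform : ∃ x y : ℤ, (q : ℤ) = x ^ 2 + 27 * y ^ 2 := by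
        have := (hsplit q hq (h627 q hq hq6)).mp ((ncard_primesOver_iff hP).mpr h1)
        exact_mod_cast this
      replace hK := mem_cubeField_fixing.mp hK
      rw [mem_cubeField_fixing]
      intro x hx
      have hx' := hK x hx
      rw [AlgEquiv.mul_apply, cube_root_fixed hq (fun e => hq6 (by norm_num [e]))
        (fun e => hq6 (by norm_num [e])) hform hA hσ hx] at hx'
      conv_lhs => rw [← hx']
      exact AlgEquiv.apply_symm_apply σ₀ x
    intro x hx
    rw [← InfiniteGalois.fixedField_fixingSubgroup L]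
    exact fun g => (IntermediateField.mem_fixingSubgroup_iff _ g.1).mp (hfix g.2) x hx
  have heq : cubeField = L := IntermediateField.eq_of_le_of_finrank_le hle (by
    have := Nat.le_of_dvd finrank_pos six_dvd_finrank_cubeField
    omega)
  refine ⟨L, hfin, hgal, heq.symm, hcard, fun p hp h6 => ?_, fun ρ hρ => ?_⟩
  · rw [hsplit p hp (h627 p hp h6)]
    simp
  · obtain ⟨f, h1, hf⟩ := hmod ρ hρ
    refine ⟨f, h1, fun p hp h6 Q hQ hpQ τ hτ => ?_⟩
    simpa using hf p hp (h627 p hp h6) Q hQ hpQ τ hτ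

/-- The form of `weightOne_cube_root_two`, with its Hecke relations. -/
theorem weightOne_cube_root_two_eigen :
    ∃ f : CuspForm (Gamma1 (4 * (81 * 27))) 1,
      FA.Weight1.IsEigen (4 * (81 * 27)) (signChar (81 * 27)) f ∧
      ∀ p : ℕ, p.Prime → ¬ p ∣ 6 →
        ModularFormClass.qCoeff f p + 1 = (Nat.card {z : ZMod p // z ^ 3 = 2} : ℂ) := by
  classical
  let _ : Fintype (Cl (81 * 27)) := Fintype.ofFinite _
  have hcard : Nat.card (Cl 27) = 3 := card_cl_examples.2.2.2
  have : Nontrivial (Cl 27) := Finite.one_lt_card_iff_nontrivial.mp (by omega)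
  have : NeZero (Monoid.exponent (Cl 27) : ℂ) :=
    ⟨Nat.cast_ne_zero.mpr Monoid.exponent_ne_zero_of_finite⟩
  obtain ⟨c, hc⟩ := exists_ne (1 : Cl 27)
  obtain ⟨χ, hχ⟩ := CommGroup.exists_apply_ne_one_of_hasEnoughRootsOfUnity (Cl 27) ℂ hc
  have : Fact (Nat.card (Cl 27)).Prime := ⟨by rw [hcard]; norm_num⟩
  have hinj : ∀ g, g ≠ 1 → χ g ≠ 1 := fun g hg h => by
    rcases χ.ker.eq_bot_or_eq_top_of_prime_card with e | e
    · exact hg (by simpa [e] using (show g ∈ χ.ker from h))
    · exact hχ (show c ∈ χ.ker by rw [e]; exact Subgroup.mem_top c)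
  set ψ : Cl (81 * 27) →* ℂˣ := χ.comp (extCls 27)
  have hcube : ∀ g : Cl 27, (χ g : ℂ) ^ 3 = 1 := fun g => by
    rw [← Units.val_pow_eq_pow_val, ← map_pow, ← hcard, pow_card_eq_one', map_one, Units.val_one]
  have hψ : ψ ^ 2 ≠ 1 := fun e => by
    obtain ⟨b, rfl⟩ := extCls_surjective 27 c
    have h2 : (χ (extCls 27 b) : ℂ) ^ 2 = 1 := by
      rw [← Units.val_pow_eq_pow_val]; exact congrArg Units.val (DFunLike.congr_fun e b)
    exact hχ (Units.ext (by
      rw [Units.val_one]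
      linear_combination hcube (extCls 27 b) - (χ (extCls 27 b) : ℂ) * h2))
  have hN : 1 < 81 * 27 := by norm_num
  obtain ⟨f, hf, hf1, hrel⟩ := exists_weightOne hN ψ hψ
  refine ⟨f, ⟨hf1, hrel⟩, fun q hq h6 => ?_⟩
  have : Fact q.Prime := ⟨hq⟩
  have hq27 : ¬ q ∣ 6 * 27 := fun h => by
    rcases hq.dvd_mul.mp h with h | h
    · exact h6 h
    · exact h6 (((hq.dvd_of_dvd_pow (show q ∣ 3 ^ 3 from h))).trans (by norm_num))
  obtain ⟨h81, h2n⟩ := not_dvd_four_mul hq hq27
  have hthree : (3 : ZMod q) ≠ 0 := fun e => h6 (by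
    have := (ZMod.natCast_eq_zero_iff 3 q).mp (by exact_mod_cast e)
    exact this.trans (by norm_num))
  have hroot : IsSquare (-((27 : ℕ) : ZMod q)) ↔ ∃ j : ZMod q, j ^ 2 + j + 1 = 0 := by
    have htwo : (2 : ZMod q) ≠ 0 := fun e => h6 (by
      have := (ZMod.natCast_eq_zero_iff 2 q).mp (by exact_mod_cast e)
      exact this.trans (by norm_num))
    refine ⟨fun ⟨r, hr⟩ => ⟨(r / 3 - 1) / 2, ?_⟩, fun ⟨j, hj⟩ => ⟨3 * (2 * j + 1), ?_⟩⟩
    · push_cast at hr
      field_simp
      linear_combination -hr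
    · push_cast
      linear_combination -36 * hj
  rw [hf]
  rcases cube_roots_card hq h6 with ⟨h1, hform, hN3⟩ | ⟨h1, hform, hN0⟩ | ⟨h1, hN1⟩
  · obtain ⟨P, hP, hc1⟩ := (principal_iff (n := 27) hq).mpr (by exact_mod_cast hform)
    have hsq := (isSquare_eightyOne_iff hq hq27).mpr (isSquare_of_nrm hq hP)
    obtain ⟨P', hP'⟩ := (exists_nrm_iff hq (not_dvd_two_mul h81)).mpr hsq
    rw [coef_prime_split hN ψ hq h81 hP', hN3]
    have : extCls 27 (cls P') = 1 := by
      rw [extCls_cls]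
      rcases (prime_nrm hq h2n (P := ext 27 P') (by rw [nrm_ext, hP'])).2.2 P hP with e | e <;>
        rcases hc1 with e' | e' <;> simpa [e, cls_conj] using e'
    simp only [ψ, MonoidHom.comp_apply, this, map_one, inv_one, Units.val_one]
    norm_num
  · obtain ⟨u, hu⟩ := exists_prime_orderOf_dvd_card' (G := (ZMod q)ˣ) 3
      (hp := ⟨Nat.prime_three⟩) (by
        rw [Nat.card_eq_fintype_card, ZMod.card_units]
        have := hq.two_le
        omega)
    have hsq : IsSquare (-((27 : ℕ) : ZMod q)) := hroot.mpr ⟨u, by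
      have h3 : (u : ZMod q) ^ 3 = 1 := by
        rw [← Units.val_pow_eq_pow_val, ← hu, pow_orderOf_eq_one, Units.val_one]
      refine (mul_eq_zero.mp (show ((u : ZMod q) - 1) * ((u : ZMod q) ^ 2 + u + 1) = 0 by
        linear_combination h3)).resolve_left fun e => ?_
      rw [show u = 1 from Units.ext (sub_eq_zero.mp e), orderOf_one] at hu
      norm_num at hu⟩
    obtain ⟨P', hP'⟩ := (exists_nrm_iff hq (not_dvd_two_mul h81)).mpr
      ((isSquare_eightyOne_iff hq hq27).mpr hsq)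
    rw [coef_prime_split hN ψ hq h81 hP', hN0]
    set g := extCls 27 (cls P') with hg
    have hne : (χ g : ℂ) ≠ 1 := fun e => by
      have hg1 : g = 1 := by_contra fun h => hinj g h (Units.ext e)
      have hP : ∃ P : II 27, nrm P = q ∧ (cls P = 1 ∨ cls P = (1 : Cl 27)⁻¹) :=
        ⟨ext 27 P', by rw [nrm_ext, hP'], Or.inl (by rw [← extCls_cls, ← hg, hg1])⟩
      exact hform (by exact_mod_cast (principal_iff (n := 27) hq).mp hP)
    have hs : (χ g : ℂ) ^ 2 + χ g + 1 = 0 :=
      (mul_eq_zero.mp (show ((χ g : ℂ) - 1) * ((χ g : ℂ) ^ 2 + χ g + 1) = 0 by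
        linear_combination hcube g)).resolve_left (sub_ne_zero.mpr hne)
    show (χ g : ℂ) + ((χ g)⁻¹ : ℂˣ) + 1 = _
    rw [Units.val_inv_eq_inv_val]
    have := (χ g).ne_zero
    field_simp
    push_cast
    linear_combination hs
  · have hns : ¬ IsSquare (-((81 * 27 : ℕ) : ZMod q)) := fun h => by
      obtain ⟨j, hj⟩ := hroot.mp ((isSquare_eightyOne_iff hq hq27).mp h)
      have := FA.CM.Cubic.mod_three_eq_one hj (fun e => h6 (by norm_num [e]))
      omega
    rw [coef_prime_inert ψ hq hns, hN1]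
    norm_num

/-- **A weight one cusp form for `X³ - 2`**: its coefficient at `p ∤ 6` is one less than the number
of roots modulo `p`. -/
theorem weightOne_cube_root_two :
    ∃ f : CuspForm (Gamma1 (4 * (81 * 27))) 1, ModularFormClass.qCoeff f 1 = 1 ∧
      ∀ p : ℕ, p.Prime → ¬ p ∣ 6 →
        ModularFormClass.qCoeff f p + 1 = (Nat.card {z : ZMod p // z ^ 3 = 2} : ℂ) := by
  obtain ⟨f, hf, hp⟩ := weightOne_cube_root_two_eigen
  exact ⟨f, hf.one, hp⟩

end FA.Summary
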