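import Fermat.Agent.ArtinOne.Depleted
import Fermat.Agent.Root.SummaryCubeRootTwo

/-!
# Artin's conjecture for the dihedral representations of ring class fields

* `weightOne_partial_LFunction_entire`: for a weight one eigenform the Euler product over the primes
  prime to the level continues to an entire function.
* `artin_dihedral`: for `n ≥ 1` and an irreducible two dimensional representation of the ring class
  field of `ℤ[√-n]` the partial Artin L-function, over `p ∤ 6 n`, continues to an entire function.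
* `artin_cube_root_two`: the case of `X³ - 2`.
-/

set_option autoImplicit false
set_option linter.style.haveILetI false

noncomputable section

open NumberField Module
open CongruenceSubgroup (Gamma1)
open scoped MatrixGroups
open FA.OrderTheta

namespace FA.Summary

local notation "Qb" => AlgebraicClosure ℚ

/-- The partial L-function of a weight one eigenform is entire. -/
theorem weightOne_partial_LFunction_entire (N : ℕ) [NeZero N] (ε : DirichletCharacter ℂ N)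
    (f : CuspForm (Gamma1 N) 1) (hf₁ : ModularFormClass.qCoeff f 1 = 1)
    (hT : ∀ p : ℕ, p.Prime → ¬ p ∣ N → ∀ n : ℕ,
        ModularFormClass.qCoeff f (p * n) +
            ε (p : ZMod N) * (if p ∣ n then ModularFormClass.qCoeff f (n / p) else 0) =
          ModularFormClass.qCoeff f p * ModularFormClass.qCoeff f n) :
    ∃ F : ℂ → ℂ, Differentiable ℂ F ∧ ∀ s : ℂ, 1 < s.re →
      HasProd (fun p : {p : Nat.Primes // ¬ (p : ℕ) ∣ N} =>
        (1 - ModularFormClass.qCoeff f (p.1 : ℕ) * ((p.1 : ℕ) : ℂ) ^ (-s) +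
          ε ((p.1 : ℕ) : ZMod N) * (((p.1 : ℕ) : ℂ) ^ (-s)) ^ 2)⁻¹) (F s) :=
  FA.ArtinOne.exists_entire_eulerProduct ⟨hf₁, hT⟩ (NeZero.ne N) fun _ _ h => h

/-- **Artin's conjecture, dihedral case of ring class fields**: the partial L-functions of the
irreducible two dimensional representations of the ring class field of `ℤ[√-n]` are entire. -/
theorem artin_dihedral (n : ℕ) [NeZero n] :
    ∃ (L : IntermediateField ℚ Qb) (_ : FiniteDimensional ℚ L) (_ : IsGalois ℚ L),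
      finrank ℚ L = 2 * Nat.card (Cl n) ∧
      (∀ p : ℕ, p.Prime → ¬ p ∣ 6 * n →
        (((Ideal.span {(p : ℤ)}).primesOver (𝓞 L)).ncard = finrank ℚ L ↔
          ∃ x y : ℤ, (p : ℤ) = x ^ 2 + n * y ^ 2)) ∧
      (∃ τ : Nat.Primes → L ≃ₐ[ℚ] L, ∀ p : Nat.Primes, ¬ (p : ℕ) ∣ 6 * n →
        ∃ Q : Ideal (𝓞 L), Q.IsMaximal ∧ ((p : ℕ) : 𝓞 L) ∈ Q ∧ IsArithFrobAt ℤ (τ p) Q) ∧
      ∀ ρ : (L ≃ₐ[ℚ] L) →* Matrix (Fin 2) (Fin 2) ℂ,
        (∀ v : Fin 2 → ℂ, v ≠ 0 → ∃ g, ∀ μ : ℂ, Matrix.mulVec (ρ g) v ≠ μ • v) →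
        ∃ F : ℂ → ℂ, Differentiable ℂ F ∧
          ∀ τ : Nat.Primes → L ≃ₐ[ℚ] L, (∀ p : Nat.Primes, ¬ (p : ℕ) ∣ 6 * n →
            ∃ Q : Ideal (𝓞 L), Q.IsMaximal ∧ ((p : ℕ) : 𝓞 L) ∈ Q ∧ IsArithFrobAt ℤ (τ p) Q) →
          ∀ s : ℂ, 1 < s.re → HasProd (fun p : {p : Nat.Primes // ¬ (p : ℕ) ∣ 6 * n} =>
            ((1 - ((p.1 : ℕ) : ℂ) ^ (-s) • ρ (τ p.1)).det)⁻¹) (F s) := by
  classical
  obtain ⟨L, hfin, hgal, d, -, h2, -, -, R, res, hsurj, hres1, hres⟩ := exists_ringClassField n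
  have : NumberField L := { }
  refine ⟨L, hfin, hgal, h2, fun p hp hpn => ?_, ?_, fun ρ hρ => ?_⟩
  · obtain ⟨A, σ, P, -, -, hP, h⟩ := exists_frob_field R res hres1 hres hp hpn
    rw [ncard_primesOver_iff hP, h]
  · have hex : ∀ p : Nat.Primes, ¬ (p : ℕ) ∣ 6 * n → ∃ (g : L ≃ₐ[ℚ] L) (Q : Ideal (𝓞 L)),
        Q.IsMaximal ∧ ((p : ℕ) : 𝓞 L) ∈ Q ∧ IsArithFrobAt ℤ g Q := fun p hpn => by
      obtain ⟨A, σ, P, -, -, hP, -⟩ := exists_frob_field R res hres1 hres p.2 hpn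
      have : Algebra.IsInvariant ℤ (𝓞 L) (L ≃ₐ[ℚ] L) := IsGaloisGroup.isInvariant
      have := hP.isMaximal
      have hP0 : P ≠ ⊥ := fun e => p.2.ne_zero (by
        have := hP.mem
        rw [e, Ideal.mem_bot] at this
        exact_mod_cast this)
      have : Finite (𝓞 L ⧸ P) := Ideal.finiteQuotientOfFreeOfNeBot P hP0
      obtain ⟨g, hg⟩ := IsArithFrobAt.exists_of_isInvariant ℤ (L ≃ₐ[ℚ] L) P
      exact ⟨g, P, hP.isMaximal, hP.mem, hg⟩
    choose g hg using hex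
    exact ⟨fun p => if h : ¬ (p : ℕ) ∣ 6 * n then g p h else 1, fun p hp => by
      simpa [hp] using hg p hp⟩
  let _ : Fintype (Cl (81 * n)) := Fintype.ofFinite _
  obtain ⟨ψ, hψ⟩ := R.W.exists_eq_trace_det (ρ.comp res) fun v hv => by
    obtain ⟨g, hg⟩ := hρ v hv
    obtain ⟨g', rfl⟩ := hsurj g
    exact ⟨g', hg⟩
  have hn : 1 < 81 * n := by have := NeZero.pos n; omega
  have : NeZero (4 * (81 * n)) := ⟨by omega⟩
  obtain ⟨f, hf, hf1, hrel⟩ := exists_weightOne hn ψ.1 ψ.2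
  obtain ⟨F, hF, hFp⟩ := FA.ArtinOne.exists_entire_eulerProduct (f := f) ⟨hf1, hrel⟩
    (M := 6 * n) (mul_ne_zero (by norm_num) (NeZero.ne n))
    fun p hp hd => by_contra fun h => (not_dvd_four_mul hp h).1 hd
  refine ⟨F, hF, fun τ hτ s hs => (hFp s hs).congr_fun fun ⟨p, hpn⟩ => ?_⟩
  obtain ⟨Q, hQ, hpQ, hfr⟩ := hτ p hpn
  obtain ⟨A, σ, P, hA, hσ, hP, -⟩ := exists_frob_field R res hres1 hres p.2 hpn
  obtain ⟨x, hx⟩ := isConj_iff.mp (FA.Chebotarev.isConj_of_isFrobPair hP hQ hpQ hfr)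
  obtain ⟨ht, hd⟩ := R.coefRel p p.2 (not_dvd_four_mul p.2 hpn).1 A hA σ hσ ψ
  rw [← (hψ _).1, MonoidHom.comp_apply, hres, ← hf] at ht
  rw [← (hψ _).2, MonoidHom.comp_apply, hres] at hd
  have htr : (ρ (τ p)).trace = ModularFormClass.qCoeff f (p : ℕ) := by
    rw [← hx, map_mul, map_mul, Matrix.trace_mul_cycle, ← map_mul, inv_mul_cancel, map_one, one_mul,
      ht]
  have hdet : (ρ (τ p)).det = signChar (81 * n) ((p : ℕ) : ZMod (4 * (81 * n))) := by
    rw [← hx, map_mul, map_mul, Matrix.det_mul, Matrix.det_mul, mul_right_comm, ← Matrix.det_mul,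
      ← map_mul, mul_inv_cancel, map_one, Matrix.det_one, one_mul, hd]
  rw [← htr, ← hdet]
  congr 1
  rw [Matrix.det_fin_two, Matrix.det_fin_two, Matrix.trace_fin_two]
  simp only [Matrix.sub_apply, Matrix.smul_apply, Matrix.one_apply_eq, smul_eq_mul,
    Matrix.one_apply_ne (show (0 : Fin 2) ≠ 1 by decide),
    Matrix.one_apply_ne (show (1 : Fin 2) ≠ 0 by decide)]
  ring

/-- **Artin's conjecture for `X³ - 2`**: the partial L-function of its two dimensional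
representation, given by the numbers of roots modulo `p`, is entire. -/
theorem artin_cube_root_two :
    ∃ F : ℂ → ℂ, Differentiable ℂ F ∧ ∀ s : ℂ, 1 < s.re →
      HasProd (fun p : {p : Nat.Primes // ¬ (p : ℕ) ∣ 6} =>
        (1 - ((Nat.card {z : ZMod (p.1 : ℕ) // z ^ 3 = 2} : ℂ) - 1) * ((p.1 : ℕ) : ℂ) ^ (-s) +
          (jacobiSym (-27) (p.1 : ℕ) : ℂ) * (((p.1 : ℕ) : ℂ) ^ (-s)) ^ 2)⁻¹) (F s) := by
  obtain ⟨f, hf, hp⟩ := weightOne_cube_root_two_eigen
  obtain ⟨F, hF, hFp⟩ := FA.ArtinOne.exists_entire_eulerProduct hf (M := 6) (by norm_num)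
    fun p hp' hd => by
      rcases hp'.dvd_mul.mp hd with h | h
      · exact (hp'.dvd_of_dvd_pow (show p ∣ 2 ^ 2 from h)).trans (by norm_num)
      · exact (hp'.dvd_of_dvd_pow (show p ∣ 3 ^ 7 from h)).trans (by norm_num)
  refine ⟨F, hF, fun s hs => (hFp s hs).congr_fun fun ⟨p, hp6⟩ => ?_⟩
  have h27 : ¬ (p : ℕ) ∣ 6 * 27 := fun h => by
    rcases p.2.dvd_mul.mp h with h | h
    · exact hp6 h
    · exact hp6 ((p.2.dvd_of_dvd_pow (show (p : ℕ) ∣ 3 ^ 3 from h)).trans (by norm_num))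
  rw [signChar_eightyOne p.2 h27, ← hp p p.2 hp6]
  simp only [Nat.cast_ofNat]
  ring

end FA.Summary
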