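import Fermat.Agent.ArtinL.DegreeOne

/-!
# Artin L-series of degree one over `ℚ`

* `artinL_inflation_invariance`: for Galois `L/K` and `M/K` with `M ⊆ L` a class function and its
  inflation have the same L-series, at all primes;
* `artinL_one_rat`: the trivial character gives `riemannZeta`;
* `artinL_degree_one`: over `ℚ` the L-series of a character of degree one is the L-series of a
  unique primitive Dirichlet character;
* `artin_conjecture_degree_one`: if it is not trivial it continues to an entire function with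
  functional equation and without zeros on `1 ≤ re s`.

Characters of other base fields or of higher degree are not continued.
-/

set_option autoImplicit false
set_option linter.style.haveILetI false
set_option linter.unusedSectionVars false

noncomputable section

open NumberField Module DirichletCharacter FA.ArtinL

namespace FA.Summary

/-- **Inflation invariance.** -/
theorem artinL_inflation_invariance (K M L : Type*) [Field K] [NumberField K] [Field M]
    [NumberField M] [Field L] [NumberField L] [Algebra K L] [Algebra K M] [Algebra M L]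
    [IsScalarTower K M L] [IsGalois K L] [IsGalois K M] {f : (M ≃ₐ[K] M) → ℂ}
    (hf : ∀ g x, f (g * x * g⁻¹) = f x) (s : ℂ) :
    artinL (fun σ : L ≃ₐ[K] L => f (AlgEquiv.restrictNormalHom M σ)) s = artinL f s :=
  artinL_inflation hf s

variable (L : Type*) [Field L] [NumberField L] [IsGalois ℚ L]

/-- **Degree one over `ℚ`: a unique primitive Dirichlet character.** -/
theorem artinL_degree_one (ψ : (L ≃ₐ[ℚ] L) →* ℂˣ) :
    ∃ (N : ℕ) (_ : NeZero N) (χ : DirichletCharacter ℂ N),
      (χ.IsPrimitive ∧ ∀ s : ℂ, 1 < s.re → artinL (fun σ => (ψ σ : ℂ)) s = LFunction χ s) ∧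
      ∀ (N' : ℕ) [NeZero N'] (χ' : DirichletCharacter ℂ N'), χ'.IsPrimitive →
        (∀ s : ℂ, 1 < s.re → artinL (fun σ => (ψ σ : ℂ)) s = LFunction χ' s) →
        ∃ e : N' = N, e ▸ χ' = χ := by
  obtain ⟨N, hN, χ, hχ, h⟩ := exists_dirichlet ψ
  refine ⟨N, hN, χ, ⟨hχ, h⟩, fun N' _ χ' hχ' h' => eq_of_LFunction_eq hχ' hχ fun x hx => ?_⟩
  rw [← h _ (by simpa using hx), ← h' _ (by simpa using hx)]

/-- The trivial character gives the zeta function of Riemann. -/
theorem artinL_one_rat {s : ℂ} (hs : 1 < s.re) :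
    artinL (fun _ : L ≃ₐ[ℚ] L => (1 : ℂ)) s = riemannZeta s := by
  rw [artinL_one hs, dedekindZeta_rat hs]

/-- **Artin's conjecture in degree one over `ℚ`.** -/
theorem artin_conjecture_degree_one {ψ : (L ≃ₐ[ℚ] L) →* ℂˣ} (hψ : ψ ≠ 1) :
    ∃ (N : ℕ) (_ : NeZero N) (χ : DirichletCharacter ℂ N), χ.IsPrimitive ∧ χ ≠ 1 ∧
      (∀ s : ℂ, 1 < s.re → artinL (fun σ => (ψ σ : ℂ)) s = LFunction χ s) ∧
      Differentiable ℂ (LFunction χ) ∧ Differentiable ℂ (completedLFunction χ) ∧
      (∀ s : ℂ, completedLFunction χ (1 - s) =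
        (N : ℂ) ^ (s - 1 / 2) * rootNumber χ * completedLFunction χ⁻¹ s) ∧
      ∀ s : ℂ, 1 ≤ s.re → LFunction χ s ≠ 0 := by
  obtain ⟨N, hN, χ, hχ, h⟩ := exists_dirichlet ψ
  have hne : χ ≠ 1 := fun h1 => hψ (by
    obtain rfl : N = 1 := by
      rw [← (isPrimitive_def _).1 hχ]
      exact eq_one_iff_conductor_eq_one.1 h1
    have he : (fun σ : L ≃ₐ[ℚ] L => (ψ σ : ℂ)) = fun _ => (1 : ℂ) := by
      refine eq_of_artinL_eq (fun a x => by simp) (fun _ _ => rfl) fun x hx => ?_
      have hx' : 1 < ((x : ℂ)).re := by simpa using hx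
      rw [h _ hx', LFunction_modOne_eq, artinL_one hx', dedekindZeta_rat hx']
    exact MonoidHom.ext fun σ => Units.ext (congrFun he σ))
  exact ⟨N, hN, χ, hχ, hne, h, differentiable_LFunction hne,
    differentiable_completedLFunction hne, hχ.completedLFunction_one_sub,
    fun s hs => LFunction_ne_zero_of_one_le_re χ (Or.inl hne) hs⟩

end FA.Summary

end
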