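import Fermat.Agent.ArtinFE.Discriminant
import Fermat.Agent.Root.SummaryRayClassFields

/-!
# Functional equations of Artin L-series and the conductor-discriminant formula

For a finite Galois extension `L/K` of number fields with group `G`, `artinL` the Artin L-series on
`1 < re s`:

* `artinL_linear_functionalEquation`: for a linear character `ψ ≠ 1`, cutting out the field `M`, the
  function `(|d_K| N 𝔣)^(s/2) Γℝ(s)^(r₁ - r + r₂) Γℝ(s + 1)^(r + r₂) L(s, ψ)`, `𝔣` the conductor of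
  `M/K` and `r` the number of real places ramified in `M`, is entire and `Λ(1 - s, ψ) = W Λ(s, ψ⁻¹)`
  with `|W| = 1`;
* `artinL_functionalEquation`: for every representation `ρ` there are a rational `A > 0` and integers
  `a`, `b` with `a + b = dim ρ [K : ℚ]`, `a - b = ∑_{v real} χ(c_v)` for any choice of complex
  conjugations `c_v`, such that `A^(s/2) Γℝ(s)^a Γℝ(s + 1)^b L(s, ρ)` is meromorphic on the plane and
  `Λ(1 - s, ρ) = W Λ(s, dual of ρ)` with `|W| = 1`;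
* `artinL_conjugation_exists`: such choices of conjugations exist;
* `artinL_completion_unique`: `A`, `a`, `b` are determined by the functional equation;
* `conductor_discriminant_relative`: for abelian `L/K` there are exactly `[L : K]` linear characters
  and `|d_L| = |d_K|^[L : K] ∏_χ N 𝔣(χ)`, `𝔣(χ)` the conductor of the field cut out by `χ`.

By Artin reciprocity, Hecke's functional equation and Brauer's theorem. Holomorphy in general
(Artin's conjecture) is not proved, nor is `A` identified with a conductor for non-linear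
characters.
-/

set_option autoImplicit false
set_option linter.style.haveILetI false
set_option linter.unusedSectionVars false

noncomputable section

open NumberField NumberField.InfinitePlace Module Complex
open FA.ArtinL (artinL)
open FA.RayFields (FrobeniusClasses)
open FA.Hecke (RayClassGroup)
open scoped Classical

namespace FA.Summary

open FA.ArtinFE

variable (K L : Type*) [Field K] [NumberField K] [Field L] [NumberField L] [Algebra K L]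
  [IsGalois K L]

theorem linCond_iff_frobeniusClasses (ψ : (L ≃ₐ[K] L) →* ℂˣ) (𝔪 : Ideal (𝓞 K)) (h𝔪 : 𝔪 ≠ ⊥) :
    (∃ ω : RayClassGroup 𝔪 →*
        ((IntermediateField.fixedField ψ.ker) ≃ₐ[K] (IntermediateField.fixedField ψ.ker)),
      FrobeniusClasses (IntermediateField.fixedField ψ.ker) h𝔪 ω) ↔ linCond ψ ∣ 𝔪 := by
  obtain ⟨_, -, -, -⟩ := exists_faithful ψ
  exact FA.RayFields.exists_frobeniusClasses_iff.trans (isCond_linCond ψ 𝔪 h𝔪)

/-- **The functional equation of a linear character.** -/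
theorem artinL_linear_functionalEquation (ψ : (L ≃ₐ[K] L) →* ℂˣ) (hψ : ψ ≠ 1) :
    ∃ (𝔣 : Ideal (𝓞 K)) (r : ℕ) (Λ Λ' : ℂ → ℂ) (W : ℂ), 𝔣 ≠ ⊥ ∧
      (∀ (𝔪 : Ideal (𝓞 K)) (h𝔪 : 𝔪 ≠ ⊥), (∃ ω : RayClassGroup 𝔪 →*
          ((IntermediateField.fixedField ψ.ker) ≃ₐ[K] (IntermediateField.fixedField ψ.ker)),
        FrobeniusClasses (IntermediateField.fixedField ψ.ker) h𝔪 ω) ↔ 𝔣 ∣ 𝔪) ∧
      r = Nat.card {v : InfinitePlace K // ¬ v.IsUnramifiedIn (IntermediateField.fixedField ψ.ker)} ∧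
      Differentiable ℂ Λ ∧ Differentiable ℂ Λ' ∧ ‖W‖ = 1 ∧
      (∀ s : ℂ, 1 < s.re → Λ s =
        (((discr K).natAbs * Ideal.absNorm 𝔣 : ℕ) : ℂ) ^ (s / 2) *
          (Gammaℝ s ^ ((nrRealPlaces K : ℤ) - r + nrComplexPlaces K) *
            Gammaℝ (s + 1) ^ ((r : ℤ) + nrComplexPlaces K)) *
          artinL (fun σ => (ψ σ : ℂ)) s) ∧
      (∀ s : ℂ, 1 < s.re → Λ' s =
        (((discr K).natAbs * Ideal.absNorm 𝔣 : ℕ) : ℂ) ^ (s / 2) *
          (Gammaℝ s ^ ((nrRealPlaces K : ℤ) - r + nrComplexPlaces K) *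
            Gammaℝ (s + 1) ^ ((r : ℤ) + nrComplexPlaces K)) *
          artinL (fun σ => ((ψ⁻¹) σ : ℂ)) s) ∧
      ∀ s, Λ (1 - s) = W * Λ' s := by
  obtain ⟨Λ, Λ', W, hd, hd', hW, h, h', he⟩ := exists_linear_entire ψ hψ
  have hgam : ∀ s : ℂ, gamProd (linA ψ : ℝ) (linP ψ) (linM ψ) s =
      (((discr K).natAbs * Ideal.absNorm (linCond ψ) : ℕ) : ℂ) ^ (s / 2) *
        (Gammaℝ s ^ ((nrRealPlaces K : ℤ) - ((linS ψ).card : ℕ) + nrComplexPlaces K) *
          Gammaℝ (s + 1) ^ (((linS ψ).card : ℕ) + nrComplexPlaces K : ℤ)) := fun s => by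
    rw [gamProd_eq (Nat.cast_pos.2 (linA_pos ψ)), ofReal_natCast]
    rfl
  refine ⟨linCond ψ, (linS ψ).card, Λ, Λ', W, linCond_ne_bot ψ,
    linCond_iff_frobeniusClasses K L ψ, ?_, hd, hd', hW, fun s hs => ?_, fun s hs => ?_, he⟩
  · rw [Nat.card_eq_fintype_card, Fintype.card_subtype]
    rfl
  · rw [h s hs, hgam]
  · rw [h' s hs, hgam]

/-- **The functional equation of an Artin L-series.** -/
theorem artinL_functionalEquation (V : Type*) [AddCommGroup V] [Module ℂ V] [FiniteDimensional ℂ V]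
    (ρ : Representation ℂ (L ≃ₐ[K] L) V) :
    ∃ (A : ℚ) (a b : ℤ) (Λ Λ' : ℂ → ℂ) (W : ℂ), 0 < A ∧ Meromorphic Λ ∧ Meromorphic Λ' ∧
      ‖W‖ = 1 ∧
      (∀ s : ℂ, 1 < s.re → Λ s =
        (A : ℂ) ^ (s / 2) * (Gammaℝ s ^ a * Gammaℝ (s + 1) ^ b) * artinL ρ.character s) ∧
      (∀ s : ℂ, 1 < s.re → Λ' s =
        (A : ℂ) ^ (s / 2) * (Gammaℝ s ^ a * Gammaℝ (s + 1) ^ b) * artinL ρ.dual.character s) ∧
      (∀ s, Λ (1 - s) = W * Λ' s) ∧
      a + b = (finrank ℂ V : ℤ) * (finrank ℚ K : ℤ) ∧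
      ∀ c : InfinitePlace K → (L ≃ₐ[K] L), (∀ v : InfinitePlace K, IsReal v →
        ∃ φ : L →+* ℂ, φ.comp (algebraMap K L) = v.embedding ∧ ComplexEmbedding.IsConj φ (c v)) →
        ((a - b : ℤ) : ℂ) =
          ∑ v ∈ Finset.univ.filter (fun v : InfinitePlace K => IsReal v), ρ.character (c v) := by
  obtain ⟨A, a, b, Λ, Λ', W, hA, hm, hm', hW, h, h', he, hab, hc⟩ := exists_completed ρ
  have hg : ∀ s : ℂ, gamProd (A : ℝ) a b s =
      (A : ℂ) ^ (s / 2) * (Gammaℝ s ^ a * Gammaℝ (s + 1) ^ b) := fun s => by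
    rw [gamProd_eq (Rat.cast_pos.2 hA), ofReal_ratCast]
  exact ⟨A, a, b, Λ, Λ', W, hA, hm, hm', hW, fun s hs => by rw [h s hs, hg],
    fun s hs => by rw [h' s hs, hg], he, hab, hc⟩

/-- **Complex conjugations exist.** -/
theorem artinL_conjugation_exists :
    ∃ c : InfinitePlace K → (L ≃ₐ[K] L), ∀ v : InfinitePlace K, IsReal v →
      ∃ φ : L →+* ℂ, φ.comp (algebraMap K L) = v.embedding ∧ ComplexEmbedding.IsConj φ (c v) := by
  refine ⟨fun v => if h : ∃ σ : L ≃ₐ[K] L, ComplexEmbedding.IsConj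
    (ComplexEmbedding.lift L v.embedding) σ then h.choose else 1, fun v hv =>
      ⟨ComplexEmbedding.lift L v.embedding, ComplexEmbedding.lift_comp_algebraMap L _, ?_⟩⟩
  have h := exists_isConj (K := K) (φ := ComplexEmbedding.lift L v.embedding)
    (by rw [ComplexEmbedding.lift_comp_algebraMap]; exact isReal_iff.1 hv)
  simp only [dif_pos h]
  exact h.choose_spec

/-- **The completing factor is unique.** -/
theorem artinL_completion_unique (V : Type*) [AddCommGroup V] [Module ℂ V] [FiniteDimensional ℂ V]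
    (ρ : Representation ℂ (L ≃ₐ[K] L) V) {A₁ A₂ : ℝ} (hA₁ : 0 < A₁) (hA₂ : 0 < A₂)
    {a₁ b₁ a₂ b₂ : ℤ} {Λ₁ Λ₁' Λ₂ Λ₂' : ℂ → ℂ} {W₁ W₂ : ℂ} (hW₁ : W₁ ≠ 0) (hW₂ : W₂ ≠ 0)
    (hm₁ : Meromorphic Λ₁) (hm₁' : Meromorphic Λ₁') (hm₂ : Meromorphic Λ₂)
    (hm₂' : Meromorphic Λ₂')
    (h₁ : ∀ s : ℂ, 1 < s.re → Λ₁ s =
      (A₁ : ℂ) ^ (s / 2) * (Gammaℝ s ^ a₁ * Gammaℝ (s + 1) ^ b₁) * artinL ρ.character s)
    (h₁' : ∀ s : ℂ, 1 < s.re → Λ₁' s =
      (A₁ : ℂ) ^ (s / 2) * (Gammaℝ s ^ a₁ * Gammaℝ (s + 1) ^ b₁) * artinL ρ.dual.character s)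
    (h₂ : ∀ s : ℂ, 1 < s.re → Λ₂ s =
      (A₂ : ℂ) ^ (s / 2) * (Gammaℝ s ^ a₂ * Gammaℝ (s + 1) ^ b₂) * artinL ρ.character s)
    (h₂' : ∀ s : ℂ, 1 < s.re → Λ₂' s =
      (A₂ : ℂ) ^ (s / 2) * (Gammaℝ s ^ a₂ * Gammaℝ (s + 1) ^ b₂) * artinL ρ.dual.character s)
    (he₁ : ∀ s, Λ₁ (1 - s) = W₁ * Λ₁' s) (he₂ : ∀ s, Λ₂ (1 - s) = W₂ * Λ₂' s) :
    A₁ = A₂ ∧ a₁ = a₂ ∧ b₁ = b₂ :=
  params_unique hA₁ hA₂ hW₁ hW₂ (fun s _ => FA.ArtinL.artinL_ne_zero ρ.dual.character s)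
    hm₁ hm₁' hm₂ hm₂'
    (fun s hs => by rw [gamProd_eq hA₁]; exact h₁ s hs)
    (fun s hs => by rw [gamProd_eq hA₁]; exact h₁' s hs)
    (fun s hs => by rw [gamProd_eq hA₂]; exact h₂ s hs)
    (fun s hs => by rw [gamProd_eq hA₂]; exact h₂' s hs) he₁ he₂

/-- **The conductor-discriminant formula for an abelian extension of number fields.** -/
theorem conductor_discriminant_relative (hcomm : ∀ g h : L ≃ₐ[K] L, g * h = h * g) :
    Finite ((L ≃ₐ[K] L) →* ℂˣ) ∧ Nat.card ((L ≃ₐ[K] L) →* ℂˣ) = finrank K L ∧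
    ∃ 𝔣 : ((L ≃ₐ[K] L) →* ℂˣ) → Ideal (𝓞 K),
      (∀ χ, 𝔣 χ ≠ ⊥ ∧ ∀ (𝔪 : Ideal (𝓞 K)) (h𝔪 : 𝔪 ≠ ⊥), (∃ ω : RayClassGroup 𝔪 →*
          ((IntermediateField.fixedField χ.ker) ≃ₐ[K] (IntermediateField.fixedField χ.ker)),
        FrobeniusClasses (IntermediateField.fixedField χ.ker) h𝔪 ω) ↔ 𝔣 χ ∣ 𝔪) ∧
      (discr L).natAbs = (discr K).natAbs ^ finrank K L * ∏ᶠ χ, Ideal.absNorm (𝔣 χ) := by
  haveI := finite_linear hcomm
  letI := Fintype.ofFinite ((L ≃ₐ[K] L) →* ℂˣ)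
  refine ⟨inferInstance, card_linear hcomm, fun χ => linCond χ,
    fun χ => ⟨linCond_ne_bot χ, linCond_iff_frobeniusClasses K L χ⟩, ?_⟩
  rw [finprod_eq_prod_of_fintype]
  exact discr_eq hcomm

end FA.Summary

end
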