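import Fermat.Agent.ArtinProcesi.Quotients

/-!
# The Artin–Procesi theorem

Algebras are over a field `K`, which may be finite: only multilinear identities occur. A family
`a : Perm (Fin M) → K` is an identity of `A` if `∑ σ, a σ • x (σ 0) ⋯ x (σ (M - 1))` is always
zero.

* `capelli_cayley`: Razmyslov's central polynomial `c` satisfies
  `c (x) a = ∑ c (x with xᵢ replaced by a) xᵢ` on `n × n` matrices;
* `artin_procesi`: if `R` has the identities of `(n + 1) × (n + 1)` matrices and no proper quotient
  has those of `n × n` matrices, then `R` is an Azumaya algebra over its centre;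
* `simple_quotient`: its simple quotients have dimension `(n + 1) ^ 2` over their centres;
* `no_smaller_quotient_iff`: the hypothesis says that the values of `c` generate the unit ideal;
* `prime_generic_azumaya`: a prime algebra with an identity, of dimension `n ^ 2` after inverting
  the centre, has the identities of `n × n` matrices and becomes Azumaya on inverting one nonzero
  central element.
-/

set_option autoImplicit false

noncomputable section

namespace FA.ArtinProcesi.Summary

open Equiv
open scoped TensorProduct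
open FA.Posner (CVar cPoly slot)

variable {K : Type*} [Field K] {n : ℕ}

/-- **Cramer's rule for the central polynomial.** -/
theorem capelli_cayley (x : CVar n → Matrix (Fin n) (Fin n) K) (a : Matrix (Fin n) (Fin n) K) :
    cPoly K x * a = ∑ i, cPoly K (Function.update x (slot i) a) * x (slot i) :=
  cPoly_dual_matrix x a

variable {R : Type*} [Ring R] [Algebra K R]

/-- **The theorem of Artin and Procesi.** -/
theorem artin_procesi
    (hR : ∀ (M : ℕ) (a : Perm (Fin M) → K),
      (∀ x : Fin M → Matrix (Fin (n + 1)) (Fin (n + 1)) K,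
        ∑ σ, a σ • (List.ofFn fun i => x (σ i)).prod = 0) →
      ∀ x : Fin M → R, ∑ σ, a σ • (List.ofFn fun i => x (σ i)).prod = 0)
    (hno : ∀ I : TwoSidedIdeal R,
      (∀ (M : ℕ) (a : Perm (Fin M) → K),
        (∀ x : Fin M → Matrix (Fin n) (Fin n) K,
          ∑ σ, a σ • (List.ofFn fun i => x (σ i)).prod = 0) →
        ∀ x : Fin M → R, ∑ σ, a σ • (List.ofFn fun i => x (σ i)).prod ∈ I) → I = ⊤) :
    IsAzumaya (Subring.center R) R :=
  ArtinProcesi.artin_procesi n.succ_pos hR hno

/-- **The simple quotients.** -/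
theorem simple_quotient
    (hR : ∀ (M : ℕ) (a : Perm (Fin M) → K),
      (∀ x : Fin M → Matrix (Fin (n + 1)) (Fin (n + 1)) K,
        ∑ σ, a σ • (List.ofFn fun i => x (σ i)).prod = 0) →
      ∀ x : Fin M → R, ∑ σ, a σ • (List.ofFn fun i => x (σ i)).prod = 0)
    (hno : ∀ I : TwoSidedIdeal R,
      (∀ (M : ℕ) (a : Perm (Fin M) → K),
        (∀ x : Fin M → Matrix (Fin n) (Fin n) K,
          ∑ σ, a σ • (List.ofFn fun i => x (σ i)).prod = 0) →
        ∀ x : Fin M → R, ∑ σ, a σ • (List.ofFn fun i => x (σ i)).prod ∈ I) → I = ⊤)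
    {S : Type*} [Ring S] [IsSimpleRing S] [Algebra K S] (π : R →ₐ[K] S)
    (hπ : Function.Surjective π) :
    Module.Finite (Subring.center S) S ∧
      Module.finrank (Subring.center S) S = (n + 1) * (n + 1) :=
  finrank_simple_quotient n.succ_pos hR hno π hπ

/-- **The hypothesis by central values.** -/
theorem no_smaller_quotient_iff
    (hR : ∀ (M : ℕ) (a : Perm (Fin M) → K),
      (∀ x : Fin M → Matrix (Fin (n + 1)) (Fin (n + 1)) K,
        ∑ σ, a σ • (List.ofFn fun i => x (σ i)).prod = 0) →
      ∀ x : Fin M → R, ∑ σ, a σ • (List.ofFn fun i => x (σ i)).prod = 0) :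
    (∀ I : TwoSidedIdeal R,
      (∀ (M : ℕ) (a : Perm (Fin M) → K),
        (∀ x : Fin M → Matrix (Fin n) (Fin n) K,
          ∑ σ, a σ • (List.ofFn fun i => x (σ i)).prod = 0) →
        ∀ x : Fin M → R, ∑ σ, a σ • (List.ofFn fun i => x (σ i)).prod ∈ I) → I = ⊤) ↔
      Ideal.span (Set.range fun x : CVar (n + 1) → R => cPoly ℤ x) = ⊤ :=
  noSmallerQuotient_iff_span_eq_top n.succ_pos hR

/-- **Prime algebras are generically Azumaya.** -/
theorem prime_generic_azumaya [Nontrivial R] [IsDomain (Subring.center R)]
    (hR : ∀ x y : R, (∀ r, x * r * y = 0) → x = 0 ∨ y = 0)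
    {d : ℕ} {a : Perm (Fin d) → K} (ha : a ≠ 0)
    (hid : ∀ x : Fin d → R, ∑ σ, a σ • (List.ofFn fun i => x (σ i)).prod = 0)
    (hdim : Module.finrank (FractionRing (Subring.center R))
      (FractionRing (Subring.center R) ⊗[Subring.center R] R) = n * n) :
    (∀ (M : ℕ) (b : Perm (Fin M) → K),
      (∀ x : Fin M → Matrix (Fin n) (Fin n) K,
        ∑ σ, b σ • (List.ofFn fun i => x (σ i)).prod = 0) →
      ∀ x : Fin M → R, ∑ σ, b σ • (List.ofFn fun i => x (σ i)).prod = 0) ∧
    ∃ c : Subring.center R, c ≠ 0 ∧
      Function.Injective (fun r : R => (1 : Localization.Away c) ⊗ₜ[Subring.center R] r) ∧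
      IsAzumaya (Subring.center (Localization.Away c ⊗[Subring.center R] R))
        (Localization.Away c ⊗[Subring.center R] R) :=
  ArtinProcesi.prime_generic_azumaya hR hid ha hdim

end FA.ArtinProcesi.Summary
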