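import Fermat.Agent.ArtinSchreier.Rat

/-!
# The theorem of Artin and Schreier, torsion in absolute Galois groups

An algebraically closed field finite over a proper subfield `F` is `F(i)` and `F` is real closed. So
the elements of finite order of an absolute Galois group are involutions, and there are none but the
identity in positive characteristic. In the absolute Galois group of `ℚ` they are the conjugates of
complex conjugation, whose centraliser has two elements; the centre is trivial.
-/

set_option autoImplicit false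
set_option linter.style.haveILetI false

noncomputable section

open Module

namespace FA.Summary

open FA.ArtinSchreier

/-- **Artin and Schreier.** -/
theorem artin_schreier_theorem (F C : Type*) [Field F] [Field C] [IsAlgClosed C] [Algebra F C]
    [FiniteDimensional F C] (hne : finrank F C ≠ 1) :
    finrank F C = 2 ∧ (∃ i : C, i * i = -1 ∧ IntermediateField.adjoin F {i} = ⊤) ∧
      IsRealClosed F ∧ CharZero F := by
  obtain ⟨h1, h2, h3⟩ := artin_schreier F C hne
  exact ⟨h1, h2, h3, inferInstance⟩

/-- **Torsion in absolute Galois groups**: only involutions, and only the identity in positive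
characteristic. -/
theorem absoluteGalois_torsion (K : Type*) [Field K]
    (σ : AlgebraicClosure K ≃ₐ[K] AlgebraicClosure K) (h : IsOfFinOrder σ) :
    σ ^ 2 = 1 ∧ (∀ p : ℕ, p ≠ 0 → CharP K p → σ = 1) := by
  set s : AlgebraicClosure K ≃+* AlgebraicClosure K := σ.toRingEquiv
  have hpow : ∀ m : ℕ, ∀ y, (s ^ m) y = (σ ^ m) y := fun m => by
    induction m with
    | zero => intro y; rfl
    | succ m ih => intro y; rw [pow_succ, pow_succ]; exact ih (σ y)
  have hs : IsOfFinOrder s := by
    obtain ⟨n, hn, he⟩ := isOfFinOrder_iff_pow_eq_one.1 h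
    exact isOfFinOrder_iff_pow_eq_one.2 ⟨n, hn, RingEquiv.ext fun x => by rw [hpow, he]; rfl⟩
  refine ⟨AlgEquiv.ext fun x => ?_, fun p hp hchar => AlgEquiv.ext fun x => ?_⟩
  · rw [← hpow 2 x, (torsion_ringEquiv s hs).1]; rfl
  · haveI : CharP (AlgebraicClosure K) p :=
      charP_of_injective_algebraMap (algebraMap K (AlgebraicClosure K)).injective p
    exact RingEquiv.congr_fun (torsion_ringEquiv_charP p hp s hs) x

/-- **Torsion in the absolute Galois group of `ℚ`**: a non-trivial element of finite order is
conjugate to complex conjugation along any embedding. -/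
theorem absoluteGalois_rat_torsion (ι : AlgebraicClosure ℚ →+* ℂ)
    (σ : AlgebraicClosure ℚ ≃ₐ[ℚ] AlgebraicClosure ℚ) (h : IsOfFinOrder σ) (hne : σ ≠ 1) :
    ∃ τ : AlgebraicClosure ℚ ≃ₐ[ℚ] AlgebraicClosure ℚ,
      ∀ x, ι ((τ * σ * τ⁻¹) x) = starRingEnd ℂ (ι x) :=
  exists_conj_of_isOfFinOrder ι h hne

/-- All non-trivial elements of finite order are conjugate. -/
theorem absoluteGalois_rat_isConj (σ σ' : AlgebraicClosure ℚ ≃ₐ[ℚ] AlgebraicClosure ℚ)
    (h : IsOfFinOrder σ) (hne : σ ≠ 1) (h' : IsOfFinOrder σ') (hne' : σ' ≠ 1) : IsConj σ σ' := by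
  haveI := isAlgebraic_qbar
  obtain ⟨ι, hι⟩ := exists_embedding_of_isOfFinOrder h hne
  obtain ⟨τ, hτ⟩ := exists_conj_of_isOfFinOrder ι h' hne'
  exact (isConj_iff.2 ⟨τ, hτ.unique hι⟩).symm

/-- **The centraliser of complex conjugation** has two elements. -/
theorem centralizer_complexConjugation (ι : AlgebraicClosure ℚ →+* ℂ)
    (c : AlgebraicClosure ℚ ≃ₐ[ℚ] AlgebraicClosure ℚ) (hc : ∀ x, ι (c x) = starRingEnd ℂ (ι x)) :
    c ≠ 1 ∧ ∀ g, g * c = c * g ↔ g = 1 ∨ g = c :=
  ⟨IsConjAlong.ne_one hc, fun g => ⟨fun h => centralizer_conj hc h, fun h => by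
    rcases h with rfl | rfl
    · rw [one_mul, mul_one]
    · rfl⟩⟩

/-- **The centre of the absolute Galois group of `ℚ` is trivial.** -/
theorem absoluteGalois_rat_center :
    Subgroup.center (AlgebraicClosure ℚ ≃ₐ[ℚ] AlgebraicClosure ℚ) = ⊥ :=
  center_eq_bot

end FA.Summary
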