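import Fermat.Agent.IdeleClass.Functorial
import Fermat.Agent.IdeleClass.Transfer

/-!
# Functoriality of the Artin map: the norm and the transfer

* `artin_functoriality`: for a Galois extension `M/K` of number fields the maximal abelian
  extension of `K` embeds into that of `M`, and along any embedding the Artin map of `M` restricts
  to the Artin map of `K` composed with the norm;
* `idele_inclusion`: for any extension the ideles of `K` sit in those of `M`, compatibly with the
  principal ideles and, at the finite places, componentwise;
* `artin_transfer`: for `K ⊆ M ⊆ N` with `N/K` Galois and `A` the largest abelian subextension of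
  `N/K`, the Artin map of `M` on the ideles of `K`, in an abelian extension of `M` inside `N`, is the
  transfer of any element acting on `A` as the Artin map of `K`.
-/

set_option autoImplicit false
set_option linter.unusedSectionVars false
set_option linter.style.haveILetI false

noncomputable section

open NumberField IsDedekindDomain IsMulCommutative
open FA.Ideles FA.IdeleClass
open scoped Classical commutatorElement

namespace FA.Summary

universe u v w z

variable (K : Type u) [Field K] [NumberField K] (M : Type v) [Field M] [NumberField M] [Algebra K M]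

/-- **Norms become restrictions.** -/
theorem artin_functoriality [IsGalois K M] :
    Nonempty (maxAbelian K →ₐ[K] maxAbelian M) ∧
      ∀ (ι : maxAbelian K →ₐ[K] maxAbelian M) (y : Idele M) (t : maxAbelian K),
        ι (artinAbel (maxAbelian K) (normIdele K M y) t) = artinAbel (maxAbelian M) y (ι t) :=
  ⟨nonempty_maxAbelian_algHom K M, fun ι y t => artinAbel_normIdele ι y t⟩

/-- **The ideles of the smaller field inside those of the larger.** -/
theorem idele_inclusion :
    (∀ a : Kˣ, inclIdele K M (principal a) = principal (FA.ArtinRec.baseU a)) ∧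
      ∀ (P : HeightOneSpectrum (𝓞 M)) (x : Idele K),
        ((finComp P (inclIdele K M x) : (P.adicCompletion M)ˣ) : P.adicCompletion M) =
          finExt K P (finComp (FA.ArtinRec.belowP K P) x : ((FA.ArtinRec.belowP K P).adicCompletion K)ˣ) :=
  ⟨inclIdele_principal, fun P x => by rw [finComp_inclIdele]; rfl⟩

/-- **The transfer theorem.** -/
theorem artin_transfer (N : Type w) [Field N] [NumberField N] [Algebra K N] [Algebra M N]
    [IsScalarTower K M N] [IsGalois K N] [IsGalois M N] (L : Type z) [Field L] [NumberField L]
    [Algebra M L] [Algebra L N] [IsScalarTower M L N] [IsGalois M L]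
    [IsMulCommutative (L ≃ₐ[M] L)] :
    ∃ A : IntermediateField K N, ∃ _ : IsAbelianGalois K A,
      A = IntermediateField.fixedField (commutator (N ≃ₐ[K] N)) ∧
      ∀ x : Idele K,
        (∃ g : N ≃ₐ[K] N, ∀ a : A, g a = ((artinIdele A x a : A) : N)) ∧
        ∀ g : N ≃ₐ[K] N, (∀ a : A, g a = ((artinIdele A x a : A) : N)) →
          artinIdele L (inclIdele K M x) = MonoidHom.transfer (restrictOver K M N L) g := by
  set A := IntermediateField.fixedField (commutator (N ≃ₐ[K] N)) with hA
  haveI : IsGalois K A := IsGalois.of_fixedField_normal_subgroup _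
  have hker : (AlgEquiv.restrictNormalHom A : (N ≃ₐ[K] N) →* (A ≃ₐ[K] A)).ker =
      commutator (N ≃ₐ[K] N) := by
    rw [IntermediateField.restrictNormalHom_ker, hA, IntermediateField.fixingSubgroup_fixedField]
  haveI hab : IsAbelianGalois K A :=
    { (inferInstance : IsGalois K A) with
      is_comm := ⟨fun s t => by
        obtain ⟨s, rfl⟩ := AlgEquiv.restrictNormalHom_surjective N s
        obtain ⟨t, rfl⟩ := AlgEquiv.restrictNormalHom_surjective N t
        rw [← map_mul, ← map_mul, MonoidHom.eq_iff, hker]
        rw [show (t * s)⁻¹ * (s * t) = ⁅s⁻¹, t⁻¹⁆ by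
          rw [commutatorElement_def, mul_inv_rev, inv_inv, inv_inv]; group]
        exact Subgroup.commutator_mem_commutator (Subgroup.mem_top _) (Subgroup.mem_top _)⟩ }
  refine ⟨A, hab, rfl, fun x => ?_⟩
  have hiff : ∀ g : N ≃ₐ[K] N, (∀ a : A, g a = ((artinIdele A x a : A) : N)) ↔
      AlgEquiv.restrictNormalHom A g = artinIdele A x := fun g =>
    ⟨fun h => AlgEquiv.ext fun a => Subtype.ext ((g.restrictNormal_commutes A a).trans (h a)),
      fun h a => by rw [← h]; exact (g.restrictNormal_commutes A a).symm⟩
  refine ⟨?_, fun g hg => artinIdele_inclIdele hker.le ((hiff g).1 hg)⟩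
  obtain ⟨g, hg⟩ := AlgEquiv.restrictNormalHom_surjective N (artinIdele A x)
  exact ⟨g, (hiff g).2 hg⟩

end FA.Summary

end
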