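import Fermat.Agent.ArtinWhaples.Main

/-!
# The theorem of Artin and Whaples

A field with a product formula in which one absolute value is either archimedean, or discrete
with finite residue field, is a global field: a number field, or a finite extension of a field
`F_p(π)` of rational functions.

"Field with a product formula" is Mathlib's `Height.AdmissibleAbsValues`: a finite multiset
`archAbsVal` and a set `nonarchAbsVal` of nonarchimedean absolute values, almost all `1` at each
nonzero element, with product `1`. That class allows trivial absolute values in either part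
(and the members of `archAbsVal` need not be archimedean), so one member `w` is asked to satisfy
either `1 < w 2`, or to have an element `π` of largest value below `1` with `0 < w π` and finitely
many residues. Both conditions exclude the trivial absolute value. In a number field every member
of `archAbsVal` satisfies the first one, so the hypothesis is not empty
(`numberField_hypothesis`).
-/

set_option autoImplicit false

noncomputable section

open Height Height.AdmissibleAbsValues

namespace FA.ArtinWhaples.Summary

variable {K : Type*} [Field K]

section ProductFormula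

variable [AdmissibleAbsValues K]

/-- An archimedean member forces a number field. -/
theorem numberField_of_archimedean {w : AbsoluteValue K ℝ} (hw : w ∈ archAbsVal (K := K))
    (h2 : 1 < w 2) : NumberField K := by
  obtain ⟨hcz, hfin⟩ := finite_rat_of_arch hw h2
  exact ⟨⟩

/-- In characteristic zero a discrete member with finite residue field forces a number field. -/
theorem numberField_of_residue [CharZero K] {w : AbsoluteValue K ℝ}
    (hw : w ∈ nonarchAbsVal (K := K)) {π : K} (hπ0 : 0 < w π) (hπ1 : w π < 1)
    (hdisc : ∀ z, w z < 1 → w z ≤ w π) (S : Finset K)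
    (hS : ∀ z, w z ≤ 1 → ∃ r ∈ S, w (z - r) < 1) : NumberField K :=
  have := finite_rat_of_residue hw hπ0 hπ1 hdisc S hS
  ⟨⟩

/-- In characteristic `p` a discrete member with finite residue field forces a finite extension
of a rational function field. -/
theorem functionField_of_residue {p : ℕ} [Fact p.Prime] [Algebra (ZMod p) K]
    {w : AbsoluteValue K ℝ} (hw : w ∈ nonarchAbsVal (K := K)) {π : K} (hπ0 : 0 < w π)
    (hπ1 : w π < 1) (hdisc : ∀ z, w z < 1 → w z ≤ w π) (S : Finset K)
    (hS : ∀ z, w z ≤ 1 → ∃ r ∈ S, w (z - r) < 1) :
    Transcendental (ZMod p) π ∧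
      FiniteDimensional (IntermediateField.adjoin (ZMod p) {π}) K :=
  ⟨transcendental_of_small hπ0 hπ1, finite_ratFunc_of_residue hw hπ0 hπ1 hdisc S hS⟩

/-- **The theorem of Artin and Whaples.** -/
theorem artin_whaples
    (h : (∃ w ∈ archAbsVal (K := K), 1 < w 2) ∨
      ∃ w ∈ nonarchAbsVal (K := K), ∃ π : K, 0 < w π ∧ w π < 1 ∧
        (∀ z, w z < 1 → w z ≤ w π) ∧
        ∃ S : Finset K, ∀ z, w z ≤ 1 → ∃ r ∈ S, w (z - r) < 1) :
    NumberField K ∨
      ∃ (p : ℕ) (_ : Fact p.Prime) (_ : Algebra (ZMod p) K) (π : K),
        Transcendental (ZMod p) π ∧
          FiniteDimensional (IntermediateField.adjoin (ZMod p) {π}) K := by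
  rcases h with ⟨w, hw, h2⟩ | ⟨w, hw, π, hπ0, hπ1, hdisc, S, hS⟩
  · exact Or.inl (numberField_of_archimedean hw h2)
  · obtain ⟨p, hp⟩ := CharP.exists K
    rcases CharP.char_is_prime_or_zero K p with hprime | rfl
    · have := Fact.mk hprime
      exact Or.inr ⟨p, this, ZMod.algebra K p, π,
        @functionField_of_residue K _ _ p this (ZMod.algebra K p) w hw π hπ0 hπ1 hdisc S hS⟩
    · have := CharP.charP_to_charZero K
      exact Or.inl (numberField_of_residue hw hπ0 hπ1 hdisc S hS)

end ProductFormula

/-- Number fields satisfy the hypothesis. -/
theorem numberField_hypothesis [NumberField K] :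
    ∃ w ∈ archAbsVal (K := K), 1 < w 2 := by
  obtain ⟨v⟩ := (inferInstance : Nonempty (NumberField.InfinitePlace K))
  refine ⟨v.val, NumberField.mem_multisetInfinitePlace.2 v.isInfinitePlace, ?_⟩
  obtain ⟨φ, hφ⟩ := v.isInfinitePlace
  rw [← hφ, NumberField.place_apply, map_ofNat]
  norm_num

end FA.ArtinWhaples.Summary
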