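import Fermat.Agent.Ribet.SignatureCurves
import Fermat.Agent.Ribet.ThirtyThree

/-!
# Mazur's asymptotic criterion for the three signatures

For an arbitrary modulus `M` the equations `A x ^ n + B y ^ n + C z ^ n = 0`,
`x² = A y ^ n + B z ^ n` and `x³ = A y ^ n + B z ^ n` with coefficients supported on the primes of
`M` have no solution for `n` with a large prime factor, unless an eigenform of weight two of a
level dividing `M` has, at every prime `l` outside `M`, for eigenvalue an integer `t` in Hasse's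
interval with `l + 1 - t` divisible by `4`, by `2`, by `3`. There is no such form at `M = 22, 26`
and, for cubes, at `M = 33`: `x³ = A y ^ n + B z ^ n` has no solution with the primes `3, 11` and
large `p`.
-/

set_option autoImplicit false
set_option linter.unusedSectionVars false

noncomputable section

open WeierstrassCurve CongruenceSubgroup

namespace FA.Summary

/-- **The modular method for every modulus**: for `p` beyond a bound depending on `M` and the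
possible traces, a semistable curve with discriminant a `p`-th power away from `M` gives an
eigenform of a level dividing `M` with all its eigenvalues away from `M` possible traces. -/
theorem asymptotic_lowering {M : ℕ} (hM : M ≠ 0) (T : ℕ → Set ℤ) :
    ∃ C : ℕ, ∀ p : ℕ, p.Prime → C < p → ∀ W : WeierstrassCurve ℤ, W.Δ ≠ 0 → W.IsSemistableModel →
      (∀ r : ℕ, r.Prime → (r : ℤ) ∣ W.Δ → ¬ r ∣ M → p ∣ padicValInt r W.Δ) →
      (∀ l : ℕ, l.Prime → ¬ l ∣ M → W.IsGoodPrimeFor l → W.apOfModel l ∈ T l) →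
      ∃ N : ℕ, N ∣ M ∧ ∃ f : CuspForm (Gamma0 N) 2, f.IsNormalizedEigenform ∧
        ∀ l : ℕ, l.Prime → ¬ l ∣ M →
          ∃ t : ℤ, t ∈ T l ∧ t ^ 2 ≤ 4 * (l : ℤ) ∧ ModularFormClass.qCoeff f l = (t : ℂ) :=
  FA.Ribet.exists_bound_lowering hM T

/-- **Fermat's equation with arbitrary fixed primes in the coefficients**: if no eigenform of a
level dividing the even `M` has all eigenvalues integers `t ≡ l + 1 [MOD 4]` within Hasse's bound,
then `A x ^ n + B y ^ n + C z ^ n ≠ 0` for `n` with a large prime factor. -/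
theorem fermatEquation_asymptotic {M : ℕ} (hM : M ≠ 0) (h2 : 2 ∣ M)
    (hno : ∀ N : ℕ, N ∣ M → ∀ f : CuspForm (Gamma0 N) 2, f.IsNormalizedEigenform →
      ∃ l : ℕ, l.Prime ∧ ¬ l ∣ M ∧ ∀ t : ℤ, t ^ 2 ≤ 4 * (l : ℤ) → (4 : ℤ) ∣ (l : ℤ) + 1 - t →
        ModularFormClass.qCoeff f l ≠ (t : ℂ)) :
    ∃ C₀ : ℕ, ∀ n p : ℕ, p.Prime → C₀ < p → p ∣ n → ∀ A B C x y z : ℤ,
      A * B * C ≠ 0 → x * y * z ≠ 0 → (∀ r : ℕ, r.Prime → (r : ℤ) ∣ A * B * C → r ∣ M) →
      IsCoprime (A * x ^ n) (B * y ^ n) → (16 : ℤ) ∣ C * z ^ n →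
      A * x ^ n + B * y ^ n + C * z ^ n ≠ 0 := by
  obtain ⟨C₀, hC⟩ := asymptotic_lowering hM (fun l => {t : ℤ | (4 : ℤ) ∣ (l : ℤ) + 1 - t})
  refine ⟨C₀, fun n p hp hpC hpn A B C x y z hne hxyz hs hcop h16 heq => ?_⟩
  obtain ⟨W, hΔ, hW, hd, hT⟩ :=
    FA.Ribet.exists_fermatCurve h2 hp hpn hne hxyz hs hcop h16 heq
  obtain ⟨N, hN, f, hf, hfl⟩ := hC p hp hpC W hΔ hW hd hT
  obtain ⟨l, hl, hlM, hl'⟩ := hno N hN f hf
  obtain ⟨t, ht, hsq, he⟩ := hfl l hl hlM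
  exact hl' t hsq ht he

/-- **The equation `x² = A y ^ n + B z ^ n`, asymptotically**: if no eigenform of a level dividing
the even `M` has all eigenvalues integers `t ≡ l + 1 [MOD 2]` within Hasse's bound, then there is
no solution with `x` odd, `64 ∣ B z ^ n` and `n` with a large prime factor. -/
theorem squareEquation_asymptotic {M : ℕ} (hM : M ≠ 0) (h2 : 2 ∣ M)
    (hno : ∀ N : ℕ, N ∣ M → ∀ f : CuspForm (Gamma0 N) 2, f.IsNormalizedEigenform →
      ∃ l : ℕ, l.Prime ∧ ¬ l ∣ M ∧ ∀ t : ℤ, t ^ 2 ≤ 4 * (l : ℤ) → (2 : ℤ) ∣ (l : ℤ) + 1 - t →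
        ModularFormClass.qCoeff f l ≠ (t : ℂ)) :
    ∃ C₀ : ℕ, ∀ n p : ℕ, p.Prime → C₀ < p → p ∣ n → ∀ A B x y z : ℤ,
      A ≠ 0 → B ≠ 0 → y ≠ 0 → z ≠ 0 → (∀ r : ℕ, r.Prime → (r : ℤ) ∣ A * B → r ∣ M) →
      Odd x → IsCoprime x (B * z ^ n) → (64 : ℤ) ∣ B * z ^ n →
      x ^ 2 ≠ A * y ^ n + B * z ^ n := by
  obtain ⟨C₀, hC⟩ := asymptotic_lowering hM (fun l => {t : ℤ | (2 : ℤ) ∣ (l : ℤ) + 1 - t})
  refine ⟨C₀, fun n p hp hpC hpn A B x y z hA hB hy hz hs hx hcop h64 heq => ?_⟩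
  obtain ⟨W, hΔ, hW, hd, hT⟩ :=
    FA.Ribet.exists_squareCurve h2 hp hpn hA hB hy hz hs hx hcop h64 heq
  obtain ⟨N, hN, f, hf, hfl⟩ := hC p hp hpC W hΔ hW hd hT
  obtain ⟨l, hl, hlM, hl'⟩ := hno N hN f hf
  obtain ⟨t, ht, hsq, he⟩ := hfl l hl hlM
  exact hl' t hsq ht he

/-- **The equation `x³ = A y ^ n + B z ^ n`, asymptotically**: if no eigenform of a level dividing
`M`, a multiple of three, has all eigenvalues integers `t ≡ l + 1 [MOD 3]` within Hasse's bound,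
then there is no solution with `27 ∣ B z ^ n` and `n` with a large prime factor. -/
theorem cubeEquation_asymptotic {M : ℕ} (hM : M ≠ 0) (h3 : 3 ∣ M)
    (hno : ∀ N : ℕ, N ∣ M → ∀ f : CuspForm (Gamma0 N) 2, f.IsNormalizedEigenform →
      ∃ l : ℕ, l.Prime ∧ ¬ l ∣ M ∧ ∀ t : ℤ, t ^ 2 ≤ 4 * (l : ℤ) → (3 : ℤ) ∣ (l : ℤ) + 1 - t →
        ModularFormClass.qCoeff f l ≠ (t : ℂ)) :
    ∃ C₀ : ℕ, ∀ n p : ℕ, p.Prime → C₀ < p → p ∣ n → ∀ A B x y z : ℤ,
      A ≠ 0 → B ≠ 0 → y ≠ 0 → z ≠ 0 → (∀ r : ℕ, r.Prime → (r : ℤ) ∣ A * B → r ∣ M) →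
      IsCoprime x (B * z ^ n) → (27 : ℤ) ∣ B * z ^ n →
      x ^ 3 ≠ A * y ^ n + B * z ^ n := by
  obtain ⟨C₀, hC⟩ := asymptotic_lowering hM (fun l => {t : ℤ | (3 : ℤ) ∣ (l : ℤ) + 1 - t})
  refine ⟨C₀, fun n p hp hpC hpn A B x y z hA hB hy hz hs hcop h27 heq => ?_⟩
  obtain ⟨T, -, hΔ, hW, hd, hT⟩ :=
    FA.Ribet.exists_cubeCurve h3 hp hpn hA hB hy hz hs hcop h27 heq
  obtain ⟨N, hN, f, hf, hfl⟩ := hC p hp hpC _ hΔ hW hd hT
  obtain ⟨l, hl, hlM, hl'⟩ := hno N hN f hf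
  obtain ⟨t, ht, hsq, he⟩ := hfl l hl hlM
  exact hl' t hsq ht he

/-- **Cubes and the primes `3`, `11`**: `x³ ≠ A y ^ n + B z ^ n` when `n` has a large prime factor,
the primes of `A B` are `3` or `11`, `27 ∣ B z ^ n` and `x` is prime to `B z ^ n`. -/
theorem cubeEquation_thirtyThree :
    ∃ C₀ : ℕ, ∀ n p : ℕ, p.Prime → C₀ < p → p ∣ n → ∀ A B x y z : ℤ,
      A ≠ 0 → B ≠ 0 → y ≠ 0 → z ≠ 0 → (∀ r : ℕ, r.Prime → (r : ℤ) ∣ A * B → r ∣ 33) →
      IsCoprime x (B * z ^ n) → (27 : ℤ) ∣ B * z ^ n →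
      x ^ 3 ≠ A * y ^ n + B * z ^ n := by
  refine cubeEquation_asymptotic (by norm_num) (by norm_num) fun N hN f hf =>
    ⟨2, Nat.prime_two, by norm_num, fun t _ ht he => ?_⟩
  rcases FA.Ribet.qCoeff_two_thirtyThree hN hf with h | h
  · rw [h] at he
    obtain rfl : t = -2 := by exact_mod_cast he.symm
    norm_num at ht
  · rw [h] at he
    obtain rfl : t = 1 := by exact_mod_cast he.symm
    norm_num at ht

/-- The `S`-unit case: for `a ≥ 3` no cube is `± 11 ^ b ± 3 ^ a`. -/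
theorem cube_ne_eleven_pow_add_three_pow {a b : ℕ} (ha : 3 ≤ a) {e f : ℤ} (he : IsUnit e)
    (hf : IsUnit f) (x : ℤ) : x ^ 3 ≠ e * 11 ^ b + f * 3 ^ a := fun h => by
  obtain ⟨C₀, hC⟩ := cubeEquation_thirtyThree
  obtain ⟨p, hpC, hp⟩ := Nat.exists_infinite_primes (C₀ + 1)
  have h3 : (3 : ℤ) ∣ f * 3 ^ a := (dvd_pow_self 3 (by omega)).mul_left f
  have hx : ¬ (3 : ℤ) ∣ x := fun hd => by
    have := (dvd_add_left h3).mp (h ▸ dvd_pow hd three_ne_zero)
    have h' := Int.prime_three.dvd_of_dvd_pow (he.dvd_mul_left.mp this)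
    norm_num at h'
  have h11 : Nat.Prime 11 := by norm_num
  refine hC 0 p hp (by omega) (dvd_zero p) (e * 11 ^ b) (f * 3 ^ a) x 1 1
    (mul_ne_zero he.ne_zero (pow_ne_zero _ (by norm_num)))
    (mul_ne_zero hf.ne_zero (pow_ne_zero _ three_ne_zero)) one_ne_zero one_ne_zero ?_ ?_ ?_
    (by simpa using h)
  · intro r hr hd
    have hd' : r ∣ 11 ^ b * 3 ^ a := by
      have h' := Int.natCast_dvd.mp hd
      simpa [Int.natAbs_mul, Int.natAbs_pow, Int.isUnit_iff_natAbs_eq.mp he,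
        Int.isUnit_iff_natAbs_eq.mp hf] using h'
    rcases (Nat.Prime.dvd_mul hr).mp hd' with h' | h'
    · rw [(Nat.prime_dvd_prime_iff_eq hr h11).mp (hr.dvd_of_dvd_pow h')]
      norm_num
    · rw [(Nat.prime_dvd_prime_iff_eq hr Nat.prime_three).mp (hr.dvd_of_dvd_pow h')]
      norm_num
  · simpa [isCoprime_mul_unit_left_right hf] using
      ((Int.prime_three.coprime_iff_not_dvd.2 hx).symm).pow_right (n := a)
  · rw [pow_zero, mul_one]
    exact ((show (27 : ℤ) = 3 ^ 3 by norm_num) ▸ pow_dvd_pow 3 ha).mul_left f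

/-- The criterion for the square equation holds at `M = 22, 26`: for every eigenform of a level
dividing them some prime `l` not dividing `M` has an eigenvalue which is no `t ≡ l + 1 (mod 2)`
within Hasse's bound (the proof takes `l = 3`). -/
theorem asymptotic_criterion_twentyTwo {q : ℕ} (hq : q = 11 ∨ q = 13) {N : ℕ} (hN : N ∣ 2 * q)
    {f : CuspForm (Gamma0 N) 2} (hf : f.IsNormalizedEigenform) :
    ∃ l : ℕ, l.Prime ∧ ¬ l ∣ 2 * q ∧ ∀ t : ℤ, t ^ 2 ≤ 4 * (l : ℤ) → (2 : ℤ) ∣ (l : ℤ) + 1 - t →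
      ModularFormClass.qCoeff f l ≠ (t : ℂ) := by
  obtain ⟨E, -, -, h3, hEf⟩ := FA.Ribet.exists_curve_of_eigenform_exact (q := q) (by omega) hN hf
  have hl : ¬ 3 ∣ 2 * q := by rcases hq with rfl | rfl <;> norm_num
  refine ⟨3, Nat.prime_three, hl, fun t _ ht he => ?_⟩
  rw [hEf 3 Nat.prime_three hl] at he
  obtain rfl : E.apOfModel 3 = t := by exact_mod_cast he
  simp only [Finset.mem_insert, Finset.mem_singleton] at h3
  omega

end FA.Summary

end
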