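import Fermat.Agent.StammeringFractions.Complexity

/-!
# Automatic continued fractions

Bugeaud: the partial quotients of a real algebraic number of degree at least three have more than
`C m` factors of length `m` for every `C` and large `m` (or infinitely many). So an irrational
number whose partial quotients are automatic (have a finite `k`-kernel, as in `SummaryCobham`) is
quadratic or transcendental. The proof applies the subspace theorem in dimensions four and three
(`SummarySubspace`).
-/

set_option autoImplicit false

noncomputable section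

open GenContFract FA.PeriodicFractions

namespace FA.Summary

/-- **The complexity of the partial quotients** `a`. -/
theorem bugeaud_complexity {x : ℝ} (hx : Irrational x) (halg : IsAlgebraic ℚ x)
    (hnq : ¬∃ a b c : ℤ, a ≠ 0 ∧ (a : ℝ) * x ^ 2 + b * x + c = 0) {a : ℕ → ℤ}
    (ha : ∀ n, (GenContFract.of x).s.get? n = some ⟨1, (a n : ℝ)⟩) (C : ℕ) :
    ∃ M, ∀ m, M ≤ m → {w : Fin m → ℤ | ∃ i, w = fun (t : Fin m) => a (i + (t : ℕ))}.Finite →
      C * m < {w : Fin m → ℤ | ∃ i, w = fun (t : Fin m) => a (i + (t : ℕ))}.ncard := by
  obtain rfl : a = fun n => digit x (n + 1) := funext fun n => by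
    have h := ha n
    rw [get?_of hx] at h
    simp only [Option.some.injEq, GenContFract.Pair.mk.injEq, Int.cast_inj, true_and] at h
    exact h.symm
  exact FA.StammeringFractions.complexity_of_algebraic hx halg (fun h => hnq h.2) C

/-- **Automatic continued fractions are quadratic or transcendental.** -/
theorem bugeaud_automatic {x : ℝ} (hx : Irrational x) {k : ℕ} (hk : 2 ≤ k) {a : ℕ → ℤ}
    (ha : ∀ n, (GenContFract.of x).s.get? n = some ⟨1, (a n : ℝ)⟩)
    (hker : {s : ℕ → ℤ | ∃ e r : ℕ, r < k ^ e ∧ s = fun n => a (k ^ e * n + r)}.Finite) :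
    (∃ a b c : ℤ, a ≠ 0 ∧ (a : ℝ) * x ^ 2 + b * x + c = 0) ∨ Transcendental ℚ x := by
  obtain rfl : a = fun n => digit x (n + 1) := funext fun n => by
    have h := ha n
    rw [get?_of hx] at h
    simp only [Option.some.injEq, GenContFract.Pair.mk.injEq, Int.cast_inj, true_and] at h
    exact h.symm
  exact (FA.StammeringFractions.quadratic_or_transcendental_of_kern hx hk hker).imp_left (·.2)

end FA.Summary

end
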