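import Fermat.Agent.AutomaticZeros.Recurrence
import Mathlib.Algebra.MvPolynomial.Basic

/-!
# Zero sets in characteristic `p` are automatic

A set of tuples is `p`-automatic when its sections `{m | p ^ k m + r ∈ Z}`, `r < p ^ k`, form a
finite set. In characteristic `p` the theorem of Skolem, Mahler and Lech fails, as the zeros of
`(1 + X) ^ n - X ^ n - 1` are the powers of `p` (`lech_example`). But over any field of
characteristic `p` the zero set of a linear recurrence is `p`-automatic (`derksen_automatic`;
Derksen), and so is the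
set of exponents with which finitely many points of the affine space, multiplied coordinatewise,
land in an algebraic set (`adamczewski_bell`; Adamczewski and Bell): the theorem of Mordell–Lang
for tori in characteristic `p`.
-/

set_option autoImplicit false

noncomputable section

namespace FA.Summary

variable {p : ℕ} [Fact p.Prime] {K : Type*} [Field K] [CharP K p]

/-- **Adamczewski–Bell**: monoid orbits meet algebraic sets in automatic sets. -/
theorem adamczewski_bell {d : ℕ} {n : Type*} [Fintype n] (g : Fin d → n → K)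
    (V : Finset (MvPolynomial n K)) :
    {A : Set (Fin d → ℕ) | ∃ (k : ℕ) (r : Fin d → ℕ), (∀ j, r j < p ^ k) ∧ A = {m |
      ∀ f ∈ V, MvPolynomial.eval (fun i => ∏ j, g j i ^ (p ^ k * m j + r j)) f = 0}}.Finite := by
  classical
  convert AutomaticZeros.finite_kernel (p := p) (A := ↥V)
    (fun f (s : ↥(V.biUnion fun f => f.support)) =>
      MvPolynomial.coeff (s : n →₀ ℕ) (f : MvPolynomial n K))
    (fun j (s : ↥(V.biUnion fun f => f.support)) => ∏ i, g j i ^ (s : n →₀ ℕ) i) using 1
  have key : ∀ M : Fin d → ℕ,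
      (∀ f ∈ V, MvPolynomial.eval (fun i => ∏ j, g j i ^ M j) f = 0) ↔
      ∀ f : ↥V, ∑ s : ↥(V.biUnion fun f => f.support),
        MvPolynomial.coeff (s : n →₀ ℕ) (f : MvPolynomial n K) *
          ∏ j, (∏ i, g j i ^ (s : n →₀ ℕ) i) ^ M j = 0 := by
    intro M
    have h : ∀ f ∈ V, MvPolynomial.eval (fun i => ∏ j, g j i ^ M j) f =
        ∑ s : ↥(V.biUnion fun f => f.support), MvPolynomial.coeff (s : n →₀ ℕ) f *
          ∏ j, (∏ i, g j i ^ (s : n →₀ ℕ) i) ^ M j := by
      intro f hf
      rw [Finset.sum_coe_sort (V.biUnion fun f => f.support)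
        (fun s => MvPolynomial.coeff s f * ∏ j, (∏ i, g j i ^ s i) ^ M j), MvPolynomial.eval_eq',
        Finset.sum_subset (Finset.subset_biUnion_of_mem (fun f : MvPolynomial n K => f.support) hf)
          fun s _ hs => by rw [MvPolynomial.notMem_support_iff.1 hs, zero_mul]]
      refine Finset.sum_congr rfl fun s _ => ?_
      congr 1
      simp only [← Finset.prod_pow, ← pow_mul]
      rw [Finset.prod_comm]
      exact Finset.prod_congr rfl fun j _ => Finset.prod_congr rfl fun i _ => by rw [mul_comm]
    exact ⟨fun hh f => (h f f.2).symm.trans (hh f f.2), fun hh f hf => (h f hf).trans (hh ⟨f, hf⟩)⟩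
  simp only [AutomaticZeros.kernelSets, Set.mem_ofPred_eq, key]

/-- **Derksen**: the zero set of a linear recurrence is automatic. -/
theorem derksen_automatic (E : LinearRecurrence K) {u : ℕ → K} (hu : E.IsSolution u) :
    {A : Set ℕ | ∃ k r : ℕ, r < p ^ k ∧ A = {m | u (p ^ k * m + r) = 0}}.Finite := by
  refine ((AutomaticZeros.finite_kernel_recurrence (p := p) E hu).image
    fun A : Set (Fin 1 → ℕ) => {m : ℕ | (fun _ => m) ∈ A}).subset ?_
  rintro _ ⟨k, r, hr, rfl⟩
  exact ⟨_, ⟨k, fun _ => r, fun _ => hr, rfl⟩, rfl⟩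

open Polynomial in
/-- **Lech**: a zero set that is not eventually periodic. -/
theorem lech_example :
    {n : ℕ | ((1 + X) ^ n - X ^ n - 1 : (ZMod p)[X]) = 0} = Set.range fun k => p ^ k := by
  have hp := (Fact.out : p.Prime)
  ext n
  simp only [Set.mem_ofPred_eq, Set.mem_range]
  constructor
  · intro h
    rcases n.eq_zero_or_pos with rfl | hn
    · simp at h
    obtain ⟨k, m, hm, rfl⟩ := Nat.exists_eq_pow_mul_and_not_dvd hn.ne' p hp.ne_one
    refine ⟨k, ?_⟩
    by_contra hne
    have hm0 : 0 < m := Nat.pos_of_ne_zero fun h0 => hm (h0 ▸ dvd_zero p)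
    have hm1 : 1 < m := lt_of_le_of_ne hm0 fun h1 => hne (by rw [← h1, mul_one])
    have hexp : expand (ZMod p) (p ^ k) ((1 + X) ^ m - X ^ m - 1) = 0 := by
      rw [← h, map_sub, map_sub, map_pow, map_pow, map_one, map_add, map_one, expand_X,
        pow_mul (1 + X : (ZMod p)[X]), add_pow_char_pow, one_pow, pow_mul X]
    have h1 := congrArg (fun f => coeff f 1)
      ((expand_eq_zero (Nat.pow_pos hp.pos)).1 hexp)
    simp [coeff_one_add_X_pow, coeff_X_pow, hm1.ne, coeff_one] at h1
    exact hm ((CharP.cast_eq_zero_iff (ZMod p) p m).1 h1)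
  · rintro ⟨k, rfl⟩
    simp [add_pow_char_pow]

end FA.Summary

end
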