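import Fermat.Agent.AutTower.Tower

/-!
# Bender's theorem and Wielandt's automorphism tower theorem

* `bender`: the join of the subnormal `p`-subgroups and of the components (subnormal quasisimple
  subgroups) of a finite group contains its centraliser;
* `components_commute`: a component lies in or centralises each subnormal subgroup, so distinct
  components commute;
* `schenkman`: if the centraliser of a subnormal `S` is trivial then that of the nilpotent
  residual of `S` lies in the residual;
* `wielandt_subnormal_bound`: then the order of the group is bounded in terms of that of `S`;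
* `wielandt_automorphism_tower`: the automorphism tower of a finite group with trivial centre is
  eventually constant, at complete groups.

Transfinite towers and groups with nontrivial centre are not claimed.
-/

set_option autoImplicit false
set_option linter.style.haveILetI false

noncomputable section

universe u

namespace FA.AutTower.Summary

open Subgroup
open scoped commutatorElement

variable {G : Type u} [Group G]

/-- **Components commute.** -/
theorem components_commute {K : Subgroup G} (hsn : K.IsSubnormal) (hperf : ⁅K, K⁆ = K)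
    (hsimple : IsSimpleGroup (K ⧸ center K)) :
    (∀ U : Subgroup G, U.IsSubnormal → K ≤ U ∨ ⁅U, K⁆ = ⊥) ∧
      ∀ L : Subgroup G, L.IsSubnormal → ⁅L, L⁆ = L → IsSimpleGroup (L ⧸ center L) → K ≠ L →
        ⁅K, L⁆ = ⊥ :=
  have hK := isComponent_iff.2 ⟨hsn, hperf, hsimple⟩
  ⟨fun _ hU => hK.le_or_commute hU,
    fun _ h1 h2 h3 hne => hK.commute (isComponent_iff.2 ⟨h1, h2, h3⟩) hne⟩

/-- The generalised Fitting subgroup, described in the usual way. -/
theorem fStar_eq [Finite G] : fStar G =
    (⨆ (p : ℕ) (_ : p.Prime) (Q : Subgroup G) (_ : Q.IsSubnormal ∧ IsPGroup p Q), Q) ⊔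
      ⨆ (K : Subgroup G) (_ : K.IsSubnormal ∧ ⁅K, K⁆ = K ∧ IsSimpleGroup (K ⧸ center K)), K := by
  refine le_antisymm (sup_le (le_sup_of_le_left (iSup₂_le fun p hp => ?_))
    (le_sup_of_le_right (iSup₂_le fun K hK => ?_))) (sup_le ?_ ?_)
  · exact le_iSup₂_of_le p hp (le_iSup₂_of_le (pCore p G)
      ⟨(pCore_normal p).isSubnormal, isPGroup_pCore p⟩ le_rfl)
  · exact le_iSup₂_of_le K (isComponent_iff.1 hK) le_rfl
  · refine iSup₂_le fun p hp => iSup₂_le fun Q hQ => ?_
    haveI := Fact.mk hp
    exact le_fStar_of_isPGroup hQ.1 hQ.2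
  · exact iSup₂_le fun K hK => component_le_fStar (isComponent_iff.2 hK)

/-- **Bender's theorem.** -/
theorem bender [Finite G] {F : Subgroup G}
    (hF : F = (⨆ (p : ℕ) (_ : p.Prime) (Q : Subgroup G) (_ : Q.IsSubnormal ∧ IsPGroup p Q), Q) ⊔
      ⨆ (K : Subgroup G) (_ : K.IsSubnormal ∧ ⁅K, K⁆ = K ∧ IsSimpleGroup (K ⧸ center K)), K) :
    F.Normal ∧ centralizer (F : Set G) ≤ F := by
  rw [← fStar_eq] at hF
  subst hF
  exact ⟨inferInstance, centralizer_fStar_le⟩

/-- **Schenkman's theorem.** -/
theorem schenkman [Finite G] {S : Subgroup G} (hS : S.IsSubnormal)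
    (hC : centralizer (S : Set G) = ⊥) :
    centralizer ((⨅ n, S.lowerCentralSeries n : Subgroup G) : Set G) ≤
      ⨅ n, S.lowerCentralSeries n :=
  centralizer_residual_le hS hC

/-- **Wielandt's bound.** -/
theorem wielandt_subnormal_bound [Finite G] {S : Subgroup G} (hS : S.IsSubnormal)
    (hC : centralizer (S : Set G) = ⊥) :
    Nat.card G ≤ (Nat.card S * (Nat.card S).factorial) *
      (Nat.card S * (Nat.card S).factorial).factorial :=
  card_le_bound hS hC

/-- **Wielandt's automorphism tower theorem** (1939). -/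
theorem wielandt_automorphism_tower (G : Type u) [Group G] [Finite G] (hG : center G = ⊥) :
    ∃ T : ℕ → GrpCat.{u}, T 0 = GrpCat.of G ∧
      (∀ n, T (n + 1) = GrpCat.of (MulAut (T n))) ∧
      ∃ N, ∀ n, N ≤ n → Finite (T n) ∧ center (T n) = ⊥ ∧
        Function.Bijective (MulAut.conj : T n →* MulAut (T n)) := by
  refine ⟨tower G, rfl, fun n => rfl, ?_⟩
  obtain ⟨N, hN⟩ := exists_stable G hG
  refine ⟨N, fun n hn => ⟨finite_tower G n, ?_, hN n hn⟩⟩
  refine (eq_bot_iff_forall _).2 fun z hz => (hN n hn).1 ?_
  rw [map_one]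
  exact MulEquiv.ext fun y => by
    rw [MulAut.conj_apply, ← mem_center_iff.1 hz y, mul_inv_cancel_right, MulAut.one_apply]

end FA.AutTower.Summary

end
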