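import Fermat.Agent.Root.SummaryMassFormula

/-!
# Moments of the trace over the isomorphism classes

Over `𝔽_q`, `q ≥ 5`, the classes `c` of elliptic curves have `∑ a_c / #Aut = 0` and
`∑ a_c² / #Aut = q² - 1`, and there are at least `2 q` of them.
-/

set_option autoImplicit false
set_option linter.style.haveILetI false

noncomputable section

open WeierstrassCurve MulAction

namespace FA.Summary

variable {q : ℕ} [hq : Fact q.Prime]

/-- A power of the trace over the classes, by the short equations. -/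
theorem sum_trace_pow_classes (h5 : 5 ≤ q) (j : ℕ) :
    ∑ᶠ c : orbitRel.Quotient (VariableChange (ZMod q)) (FA.ReducedGroups.ellipticEquations q),
      ((c.out.1.traceOfFrobenius : ℚ) ^ j) / Nat.card (stabilizer (VariableChange (ZMod q)) c.out) =
      (q : ℚ) ^ 3 * (∑ ab ∈ FA.BirchMoment.nonsingular q,
        ((FA.BirchMoment.shortMod ab.1 ab.2).traceOfFrobenius : ℚ) ^ j) / (((q - 1) * q ^ 3 : ℕ) : ℚ) := by
  have hinv : ∀ (C : VariableChange (ZMod q)) (V : WeierstrassCurve (ZMod q)), V.Δ ≠ 0 →
      ((C • V).traceOfFrobenius : ℚ) ^ j = (V.traceOfFrobenius : ℚ) ^ j := fun C V hV => by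
    haveI : V.IsElliptic := ⟨hV.isUnit⟩
    rw [FA.ReducedGroups.traceOfFrobenius_variableChange]
  rw [FA.ReducedGroups.sum_classes (f := fun V => ((V.1.traceOfFrobenius : ℚ) ^ j))
      fun C V => hinv C V.1 V.2,
    FA.ReducedGroups.sum_ellipticEquations h5 (fun V => (V.traceOfFrobenius : ℚ) ^ j) hinv,
    FA.ReducedGroups.natCard_variableChange]

/-- **The traces of the classes average to zero.** -/
theorem classes_trace_sum (h5 : 5 ≤ q) :
    ∑ᶠ c : orbitRel.Quotient (VariableChange (ZMod q)) (FA.ReducedGroups.ellipticEquations q),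
      (c.out.1.traceOfFrobenius : ℚ) / Nat.card (stabilizer (VariableChange (ZMod q)) c.out) = 0 := by
  have h := sum_trace_pow_classes (q := q) h5 1
  simp only [pow_one] at h
  rw [h, ← Int.cast_sum, (FA.BirchMoment.sum_trace h5).1, Int.cast_zero, mul_zero, zero_div]

/-- **Birch's second moment over the classes.** -/
theorem classes_trace_sq_sum (h5 : 5 ≤ q) :
    ∑ᶠ c : orbitRel.Quotient (VariableChange (ZMod q)) (FA.ReducedGroups.ellipticEquations q),
      (c.out.1.traceOfFrobenius : ℚ) ^ 2 / Nat.card (stabilizer (VariableChange (ZMod q)) c.out) =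
      (q : ℚ) ^ 2 - 1 := by
  have hq0 : (q : ℚ) ≠ 0 := Nat.cast_ne_zero.mpr hq.out.ne_zero
  have hq1 : (q : ℚ) - 1 ≠ 0 := sub_ne_zero.mpr (Nat.cast_ne_one.mpr hq.out.ne_one)
  rw [sum_trace_pow_classes h5 2]
  simp only [← Int.cast_pow, ← Int.cast_sum, (FA.BirchMoment.sum_trace h5).2]
  push_cast [Nat.cast_sub hq.out.one_le]
  field_simp

/-- **At least `2 q` classes**: `-1` is an automorphism of every curve. -/
theorem two_mul_le_card_classes (h5 : 5 ≤ q) :
    2 * q ≤ Nat.card
      (orbitRel.Quotient (VariableChange (ZMod q)) (FA.ReducedGroups.ellipticEquations q)) := by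
  set S := FA.ReducedGroups.ellipticEquations q
  set G := VariableChange (ZMod q)
  haveI := Fintype.ofFinite (orbitRel.Quotient G S)
  have h2 : ∀ c : orbitRel.Quotient G S, 2 ≤ Nat.card (stabilizer G c.out) := fun c => by
    set V := (c.out : WeierstrassCurve (ZMod q))
    refine Finite.one_lt_card_iff_nontrivial.mpr
      ⟨⟨⟨⟨-1, 0, -V.a₁, -V.a₃⟩, ?_⟩, 1, fun e => ?_⟩⟩
    · refine mem_stabilizer_iff.mpr (Subtype.ext ?_)
      show (⟨-1, 0, -V.a₁, -V.a₃⟩ : G) • V = V
      ext <;> simp [variableChange_def] <;> ring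
    · have e' := congrArg (fun C : stabilizer G c.out => ((C.1.u : (ZMod q)ˣ) : ZMod q)) e
      simp only [OneMemClass.coe_one, Units.val_neg, Units.val_one] at e'
      rw [show VariableChange.u (1 : G) = 1 from rfl, Units.val_one] at e'
      have h0 : ((2 : ℕ) : ZMod q) = 0 := by
        push_cast
        linear_combination -e'
      have := Nat.le_of_dvd two_pos ((ZMod.natCast_eq_zero_iff 2 q).mp h0)
      omega
  have hmass := mass_formula (q := q) h5
  rw [finsum_eq_sum_of_fintype] at hmass
  have hle : (q : ℚ) ≤ ∑ _c : orbitRel.Quotient G S, (1 / 2 : ℚ) := hmass ▸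
    Finset.sum_le_sum fun c _ => one_div_le_one_div_of_le two_pos (by exact_mod_cast h2 c)
  rw [Finset.sum_const, Finset.card_univ, nsmul_eq_mul, ← Nat.card_eq_fintype_card] at hle
  exact_mod_cast (show ((2 * q : ℕ) : ℚ) ≤ Nat.card (orbitRel.Quotient G S) by push_cast; linarith)

end FA.Summary

end
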