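import Fermat.Agent.Tau.HurwitzGeneral

/-!
# The class number relation of Kronecker and Hurwitz

For a prime `p` the sum of `H(4 p - t²)` over the integers `t` with `t² < 4 p` is `2 p`; here `H(N)`
counts the reduced forms of discriminant `-N`, those proportional to `x² + y²` with weight `1/2`
and those proportional to `x² + x y + y²` with weight `1/3`. The proof compares the degree and the
roots of `Φ_p(X, X)`. More generally for every `n` that is no square the sum over `t² < 4 n` is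
`2 σ(n) - ∑ min (a, n / a)` over the divisors `a`: for a squarefree `n` this is the degree of
`Φ_n(X, X)`, in general of the product of the `Φ_(n / f²)(X, X)`. With `H(0) = -1/12` and the
range `t² ≤ 4 n` the relation holds for every `n ≥ 1`, squares included: it is the trace formula
of Eichler and Selberg in weight two and level one.
-/

set_option autoImplicit false
set_option linter.style.haveILetI false

noncomputable section

open UpperHalfPlane hiding I
open ModularForm EisensteinSeries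
open scoped MatrixGroups

namespace FA.Summary

/-- What `H(N)` counts. -/
theorem hurwitz_reducedForms_iff (N : ℕ) (a b c : ℤ) :
    (a, b, c) ∈ FA.ClassRelation.redForms N ↔
      b ^ 2 - 4 * a * c = -(N : ℤ) ∧ 0 < a ∧ |b| ≤ a ∧ a ≤ c ∧
      ((|b| = a ∨ a = c) → 0 ≤ b) :=
  FA.ClassRelation.mem_redForms

/-- **The Kronecker–Hurwitz class number relation.** -/
theorem hurwitz_class_number_relation (p : ℕ) [Fact p.Prime] :
    ∑ t ∈ (Finset.Icc (-(2 * (p : ℤ))) (2 * p)).filter (fun t => t ^ 2 < 4 * (p : ℤ)),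
      FA.ClassRelation.classNumberH (4 * (p : ℤ) - t ^ 2).toNat = 2 * p :=
  FA.ClassRelation.class_number_relation p

/-- The relation for `p = 2, 3, 5`, computed from the forms. -/
theorem hurwitz_class_number_relation_small : ∀ p ∈ ({2, 3, 5} : Finset ℕ),
    ∑ t ∈ (Finset.Icc (-(2 * (p : ℤ))) (2 * p)).filter (fun t => t ^ 2 < 4 * (p : ℤ)),
      FA.ClassRelation.classNumberH (4 * (p : ℤ) - t ^ 2).toNat = 2 * p := by
  decide +kernel

/-- **The Kronecker–Hurwitz relation for every `n` that is no square.** -/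
theorem hurwitz_class_number_relation_nonsquare (n : ℕ) (hn : ¬ IsSquare n) :
    ∑ t ∈ (Finset.Icc (-(2 * (n : ℤ))) (2 * n)).filter (fun t => t ^ 2 < 4 * (n : ℤ)),
      FA.ClassRelation.classNumberH (4 * (n : ℤ) - t ^ 2).toNat =
      2 * (∑ a ∈ n.divisors, a : ℕ) - (∑ a ∈ n.divisors, min a (n / a) : ℕ) :=
  (FA.ClassRelation.class_number_relation_sum hn).trans <| eq_sub_iff_add_eq.2 <| by
    exact_mod_cast FA.ClassRelation.sum_max_add_min n

/-- The relation for `n = 8`, computed from the forms. -/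
theorem hurwitz_class_number_relation_eight :
    ∑ t ∈ (Finset.Icc (-(2 * ((8 : ℕ) : ℤ))) (2 * (8 : ℕ))).filter
        (fun t => t ^ 2 < 4 * ((8 : ℕ) : ℤ)),
      FA.ClassRelation.classNumberH (4 * ((8 : ℕ) : ℤ) - t ^ 2).toNat = (24 : ℚ) := by
  decide +kernel

/-- **The class number relation for every `n ≥ 1`, squares included**, with `H(0) = -1/12`: the
trace formula of Eichler and Selberg in weight two and level one. -/
theorem hurwitz_class_number_relation_all (n : ℕ) (hn : 0 < n) :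
    (∑ t ∈ (Finset.Icc (-(2 * (n : ℤ))) (2 * n)).filter (fun t => t ^ 2 ≤ 4 * (n : ℤ)),
      if (4 * (n : ℤ) - t ^ 2).toNat = 0 then (-1 / 12 : ℚ)
      else FA.ClassRelation.classNumberH (4 * (n : ℤ) - t ^ 2).toNat) +
      (∑ a ∈ n.divisors, min a (n / a) : ℕ) = 2 * (∑ a ∈ n.divisors, a : ℕ) := by
  classical
  have hmax : ((∑ a ∈ n.divisors, max a (n / a) : ℕ) : ℚ) + (∑ a ∈ n.divisors, min a (n / a) : ℕ) =
      2 * (∑ a ∈ n.divisors, a : ℕ) := by
    exact_mod_cast FA.ClassRelation.sum_max_add_min n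
  have h := FA.ClassRelation.class_number_relation_all hn.ne'
  set I := Finset.Icc (-(2 * (n : ℤ))) (2 * n) with hI
  have hlt : ∑ t ∈ (I.filter fun t => t ^ 2 ≤ 4 * (n : ℤ)).filter (fun t => t ^ 2 < 4 * (n : ℤ)),
      (if (4 * (n : ℤ) - t ^ 2).toNat = 0 then (-1 / 12 : ℚ)
        else FA.ClassRelation.classNumberH (4 * (n : ℤ) - t ^ 2).toNat) =
      ∑ t ∈ FA.ClassRelation.traces n,
        FA.ClassRelation.classNumberH (4 * (n : ℤ) - t ^ 2).toNat := by
    refine Finset.sum_congr ?_ fun t ht => ?_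
    · rw [Finset.filter_filter, FA.ClassRelation.traces, hI]
      exact Finset.filter_congr fun t _ => ⟨And.right, fun h => ⟨h.le, h⟩⟩
    · rw [if_neg]
      have := (FA.ClassRelation.mem_traces n).1 ht
      omega
  have heq : ∑ t ∈ (I.filter fun t => t ^ 2 ≤ 4 * (n : ℤ)).filter
      (fun t => ¬ t ^ 2 < 4 * (n : ℤ)),
      (if (4 * (n : ℤ) - t ^ 2).toNat = 0 then (-1 / 12 : ℚ)
        else FA.ClassRelation.classNumberH (4 * (n : ℤ) - t ^ 2).toNat) =
      -((FA.ClassRelation.sqInd n : ℚ) / 6) := by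
    have hmem : ∀ t, t ∈ (I.filter fun t => t ^ 2 ≤ 4 * (n : ℤ)).filter
        (fun t => ¬ t ^ 2 < 4 * (n : ℤ)) ↔ t ^ 2 = 4 * (n : ℤ) := fun t => by
      simp only [Finset.mem_filter, hI, Finset.mem_Icc, not_lt]
      refine ⟨fun h => le_antisymm h.1.2 h.2, fun h => ⟨⟨⟨?_, ?_⟩, h.le⟩, h.ge⟩⟩ <;>
        nlinarith [sq_nonneg (t + 1), sq_nonneg (t - 1)]
    rw [Finset.sum_congr rfl (g := fun _ => (-1 / 12 : ℚ)) fun t ht =>
      if_pos (by rw [(hmem t).1 ht]; simp), Finset.sum_const, nsmul_eq_mul, FA.ClassRelation.sqInd]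
    split_ifs with hs
    · obtain ⟨m, hm⟩ := hs
      have hm0 : m ≠ 0 := fun e => hn.ne' (by rw [hm, e, mul_zero])
      rw [Finset.card_eq_two.2 ⟨2 * (m : ℤ), -(2 * (m : ℤ)), by omega, Finset.ext fun t => by
        rw [hmem, Finset.mem_insert, Finset.mem_singleton, hm, Nat.cast_mul,
          show 4 * ((m : ℤ) * m) = (2 * (m : ℤ)) ^ 2 by ring]
        exact sq_eq_sq_iff_eq_or_eq_neg⟩]
      norm_num
    · rw [Finset.card_eq_zero.2 (Finset.eq_empty_of_forall_notMem fun t ht => hs ?_)]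
      · norm_num
      have h4 := (hmem t).1 ht
      obtain ⟨w, rfl⟩ : (2 : ℤ) ∣ t := Int.prime_two.dvd_of_dvd_pow (n := 2) ⟨2 * n, by linarith⟩
      exact Int.isSquare_natCast_iff.1 ⟨w, by linarith⟩
  rw [← Finset.sum_filter_add_sum_filter_not _ (fun t : ℤ => t ^ 2 < 4 * (n : ℤ)), hlt, heq, h]
  linarith

/-- The relation for `n = 1, 4`, computed from the forms. -/
theorem hurwitz_class_number_relation_all_small :
    ((∑ t ∈ (Finset.Icc (-(2 * ((1 : ℕ) : ℤ))) (2 * (1 : ℕ))).filter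
        (fun t => t ^ 2 ≤ 4 * ((1 : ℕ) : ℤ)),
      if (4 * ((1 : ℕ) : ℤ) - t ^ 2).toNat = 0 then (-1 / 12 : ℚ)
      else FA.ClassRelation.classNumberH (4 * ((1 : ℕ) : ℤ) - t ^ 2).toNat) = 2 - 1) ∧
    ((∑ t ∈ (Finset.Icc (-(2 * ((4 : ℕ) : ℤ))) (2 * (4 : ℕ))).filter
        (fun t => t ^ 2 ≤ 4 * ((4 : ℕ) : ℤ)),
      if (4 * ((4 : ℕ) : ℤ) - t ^ 2).toNat = 0 then (-1 / 12 : ℚ)
      else FA.ClassRelation.classNumberH (4 * ((4 : ℕ) : ℤ) - t ^ 2).toNat) = 14 - 4) :=
  ⟨by decide +kernel, by decide +kernel⟩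

/-- **The Kronecker–Hurwitz relation for every squarefree `n > 1`.** -/
theorem hurwitz_class_number_relation_squarefree (n : ℕ) (h1 : 1 < n) (hn : Squarefree n) :
    ∑ t ∈ (Finset.Icc (-(2 * (n : ℤ))) (2 * n)).filter (fun t => t ^ 2 < 4 * (n : ℤ)),
      FA.ClassRelation.classNumberH (4 * (n : ℤ) - t ^ 2).toNat =
      2 * (∑ a ∈ n.divisors, a : ℕ) - (∑ a ∈ n.divisors, min a (n / a) : ℕ) :=
  hurwitz_class_number_relation_nonsquare n fun hs =>
    FA.ClassRelation.not_isSquare_of_squarefree h1 hn (Int.isSquare_natCast_iff.2 hs)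

/-- The relation for `n = 6, 10`, computed from the forms. -/
theorem hurwitz_class_number_relation_squarefree_small :
    (∑ t ∈ (Finset.Icc (-(2 * ((6 : ℕ) : ℤ))) (2 * (6 : ℕ))).filter
        (fun t => t ^ 2 < 4 * ((6 : ℕ) : ℤ)),
      FA.ClassRelation.classNumberH (4 * ((6 : ℕ) : ℤ) - t ^ 2).toNat = (18 : ℚ)) ∧
    (∑ t ∈ (Finset.Icc (-(2 * ((10 : ℕ) : ℤ))) (2 * (10 : ℕ))).filter
        (fun t => t ^ 2 < 4 * ((10 : ℕ) : ℤ)),
      FA.ClassRelation.classNumberH (4 * ((10 : ℕ) : ℤ) - t ^ 2).toNat = (30 : ℚ)) :=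
  ⟨by decide +kernel, by decide +kernel⟩

/-- **The degree of `Φ_n(X, X)`** for a squarefree `n > 1`. -/
theorem modularDiagonal_natDegree_squarefree (n : ℕ) (h1 : 1 < n) (hn : Squarefree n)
    {Φ : Polynomial (Polynomial ℤ)} (hm : Φ.Monic) (hd : Φ.natDegree = ∑ a ∈ n.divisors, a)
    (hv : ∀ τ w : ℍ, (w : ℂ) = (n : ℂ) * (τ : ℂ) →
      Φ.eval₂ (Polynomial.aeval (R := ℤ) (E₄ τ ^ 3 / ModularForm.discriminant τ)).toRingHom
        (E₄ w ^ 3 / ModularForm.discriminant w) = 0) :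
    (Φ.eval Polynomial.X).natDegree = ∑ a ∈ n.divisors, max a (n / a) := by
  haveI : Fact (1 < n) := ⟨h1⟩
  haveI : Fact (Squarefree n) := ⟨hn⟩
  have : NeZero n := ⟨(zero_lt_one.trans h1).ne'⟩
  let _ := Fintype.ofFinite (FA.Dim.Cos n)
  have hcard : Φ.natDegree = Nat.card (FA.Dim.Cos n) := by
    rw [hd, FA.Dim.card_cos, ModularCurve.dedekindPsi, Finset.filter_true_of_mem
      (fun d hd' => hn.squarefree_of_dvd (Nat.dvd_of_mem_divisors hd'))]
    exact (Nat.sum_div_divisors n id).symm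
  rw [FA.ModPoly.eq_phi n hm hcard fun z => hv z _ (FA.ModField.coe_scaleH n z),
    ← Polynomial.natDegree_map_eq_of_injective (f := Int.castRingHom ℂ) Int.cast_injective]
  exact FA.ClassRelation.natDegree_diag_sum n

/-- **The degree of `Φ_p(X, X)` is `2 p`.** -/
theorem modularDiagonal_natDegree (p : ℕ) [Fact p.Prime]
    {Φ : Polynomial (Polynomial ℤ)} (hm : Φ.Monic) (hd : Φ.natDegree = p + 1)
    (hv : ∀ τ w : ℍ, (w : ℂ) = (p : ℂ) * (τ : ℂ) →
      Φ.eval₂ (Polynomial.aeval (R := ℤ) (E₄ τ ^ 3 / ModularForm.discriminant τ)).toRingHom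
        (E₄ w ^ 3 / ModularForm.discriminant w) = 0) :
    (Φ.eval Polynomial.X).natDegree = 2 * p := by
  have : NeZero p := ⟨(Fact.out : p.Prime).ne_zero⟩
  let _ := Fintype.ofFinite (FA.Dim.Cos p)
  rw [FA.ModPoly.eq_phi p hm
    (by rw [hd, FA.Dim.card_cos, FA.ModField.dedekindPsi_prime (Fact.out : p.Prime)])
    fun z => hv z _ (FA.ModField.coe_scaleH p z),
    ← Polynomial.natDegree_map_eq_of_injective (f := Int.castRingHom ℂ) Int.cast_injective]
  exact FA.ClassRelation.natDegree_diag p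

/-- **The multiplicity of `j(τ)` as a root of `Φ_p(X, X)`** is the number of the cosets of `Γ₀(p)`
at which `j(p γ τ) = j(τ)`. -/
theorem modularDiagonal_rootMultiplicity (p : ℕ) [Fact p.Prime]
    {Φ : Polynomial (Polynomial ℤ)} (hm : Φ.Monic) (hd : Φ.natDegree = p + 1)
    (hv : ∀ τ w : ℍ, (w : ℂ) = (p : ℂ) * (τ : ℂ) →
      Φ.eval₂ (Polynomial.aeval (R := ℤ) (E₄ τ ^ 3 / ModularForm.discriminant τ)).toRingHom
        (E₄ w ^ 3 / ModularForm.discriminant w) = 0) (τ : ℍ) :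
    ((Φ.eval Polynomial.X).map (Int.castRingHom ℂ)).rootMultiplicity
        (E₄ τ ^ 3 / ModularForm.discriminant τ) =
      Nat.card {i : SL(2, ℤ) ⧸ CongruenceSubgroup.Gamma0 p //
        ∃ (γ : SL(2, ℤ)) (w : ℍ), i = QuotientGroup.mk γ⁻¹ ∧
          (w : ℂ) = (p : ℂ) * ((γ • τ : ℍ) : ℂ) ∧
          E₄ w ^ 3 / ModularForm.discriminant w = E₄ τ ^ 3 / ModularForm.discriminant τ} := by
  have : NeZero p := ⟨(Fact.out : p.Prime).ne_zero⟩
  let _ := Fintype.ofFinite (FA.Dim.Cos p)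
  rw [FA.ModPoly.eq_phi p hm
    (by rw [hd, FA.Dim.card_cos, FA.ModField.dedekindPsi_prime (Fact.out : p.Prime)])
    fun z => hv z _ (FA.ModField.coe_scaleH p z)]
  refine (FA.ClassRelation.rootMultiplicity_diag p τ).trans
    (Nat.card_congr (Equiv.subtypeEquivRight ?_))
  intro i
  induction i using QuotientGroup.induction_on with
  | H g =>
  show FA.ModField.cosVal p (FA.ModPoly.fN p) (QuotientGroup.mk g) τ = FA.ModField.jfun τ ↔ _
  rw [FA.ModField.cosVal_mk (FA.ModPoly.fN_mem p)]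
  refine ⟨fun h => ⟨g⁻¹, _, by rw [inv_inv], FA.ModField.coe_scaleH p _, h⟩, ?_⟩
  rintro ⟨γ, w, hi, hw, hj⟩
  obtain rfl : w = FA.ModField.scaleH p (γ • τ) :=
    UpperHalfPlane.ext (hw.trans (FA.ModField.coe_scaleH p _).symm)
  have h := FA.ModField.cosVal_mk (FA.ModPoly.fN_mem p) g τ
  rw [hi, FA.ModField.cosVal_mk (FA.ModPoly.fN_mem p), inv_inv] at h
  rw [← h]
  exact hj

end FA.Summary

end
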