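import Fermat.Agent.ReducedGroups.JFibre

/-!
# The twists over `𝔽_q`, one `j` at a time

For every `j` in `𝔽_q`, `q ≥ 5`, the classes with that invariant have `∑ 1 / #Aut = 1` and
`∑ a / #Aut = 0`; here `j = c₄³ / Δ`.
-/

set_option autoImplicit false
set_option linter.style.haveILetI false

noncomputable section

open WeierstrassCurve MulAction
open scoped Classical

namespace FA.Summary

variable {q : ℕ} [hq : Fact q.Prime]

/-- An invariant function over the classes of a given `j`, by the short equations. -/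
theorem sum_classes_j (h5 : 5 ≤ q) (j : ZMod q) (f : WeierstrassCurve (ZMod q) → ℚ)
    (hf : ∀ (C : VariableChange (ZMod q)) (V : WeierstrassCurve (ZMod q)), V.Δ ≠ 0 →
      f (C • V) = f V) :
    ∑ᶠ c : orbitRel.Quotient (VariableChange (ZMod q)) (FA.ReducedGroups.ellipticEquations q),
      (if c.out.1.c₄ ^ 3 / c.out.1.Δ = j then f c.out.1 else 0) /
        Nat.card (stabilizer (VariableChange (ZMod q)) c.out) =
      (∑ ab ∈ FA.ReducedGroups.jFibre j, f (FA.BirchMoment.shortMod ab.1 ab.2)) / ((q : ℚ) - 1) := by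
  set g : WeierstrassCurve (ZMod q) → ℚ := fun V => if V.c₄ ^ 3 / V.Δ = j then f V else 0
  have hg : ∀ (C : VariableChange (ZMod q)) (V : WeierstrassCurve (ZMod q)), V.Δ ≠ 0 →
      g (C • V) = g V := fun C V hV => by
    simp only [g]
    rw [hf C V hV, variableChange_c₄, variableChange_Δ, mul_pow, ← pow_mul,
      mul_div_mul_left _ _ (pow_ne_zero _ (Units.ne_zero _))]
  have h := FA.ReducedGroups.sum_classes (q := q) (f := fun V => g V.1) fun C V => hg C V.1 V.2
  simp only [g] at h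
  rw [h, FA.ReducedGroups.sum_ellipticEquations h5 g hg, FA.ReducedGroups.natCard_variableChange,
    Nat.cast_mul, Nat.cast_pow, Nat.cast_sub hq.out.one_le, Nat.cast_one]
  have hq0 : (q : ℚ) ≠ 0 := Nat.cast_ne_zero.mpr hq.out.ne_zero
  rw [mul_comm, mul_div_mul_right _ _ (pow_ne_zero 3 hq0), FA.ReducedGroups.jFibre,
    Finset.sum_filter]
  refine congrArg (· / ((q : ℚ) - 1)) (Finset.sum_congr rfl fun ab hab => ?_)
  have hD : 4 * ab.1 ^ 3 + 27 * ab.2 ^ 2 ≠ 0 := (Finset.mem_filter.mp hab).2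
  have hiff : (FA.BirchMoment.shortMod ab.1 ab.2).c₄ ^ 3 / (FA.BirchMoment.shortMod ab.1 ab.2).Δ = j ↔
      6912 * ab.1 ^ 3 = j * (4 * ab.1 ^ 3 + 27 * ab.2 ^ 2) := by
    have h16 : (-16 : ZMod q) ≠ 0 := by
      have := FA.ReducedGroups.natCast_ne_zero_of_smooth (q := q) h5 4 0
      norm_num at this
      exact neg_ne_zero.mpr this
    rw [div_eq_iff (FA.BirchMoment.shortMod_Δ_ne_zero h5 hD), FA.BirchMoment.shortMod_Δ,
      show (FA.BirchMoment.shortMod ab.1 ab.2).c₄ ^ 3 = -16 * (6912 * ab.1 ^ 3) by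
        simp only [WeierstrassCurve.c₄, WeierstrassCurve.b₂, WeierstrassCurve.b₄]; ring,
      mul_left_comm j, mul_right_inj' h16]
  simp only [g, hiff]

/-- **Each `j` has mass one.** -/
theorem classes_j_mass (h5 : 5 ≤ q) (j : ZMod q) :
    ∑ᶠ c : orbitRel.Quotient (VariableChange (ZMod q)) (FA.ReducedGroups.ellipticEquations q),
      (if c.out.1.c₄ ^ 3 / c.out.1.Δ = j then (1 : ℚ) else 0) /
        Nat.card (stabilizer (VariableChange (ZMod q)) c.out) = 1 := by
  rw [sum_classes_j h5 j (fun _ => 1) fun _ _ _ => rfl, Finset.sum_const,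
    FA.ReducedGroups.card_jFibre h5, nsmul_one, Nat.cast_sub hq.out.one_le, Nat.cast_one,
    div_self (sub_ne_zero.mpr (Nat.cast_ne_one.mpr hq.out.ne_one))]

/-- **The traces of the twists cancel.** -/
theorem classes_j_trace (h5 : 5 ≤ q) (j : ZMod q) :
    ∑ᶠ c : orbitRel.Quotient (VariableChange (ZMod q)) (FA.ReducedGroups.ellipticEquations q),
      (if c.out.1.c₄ ^ 3 / c.out.1.Δ = j then (c.out.1.traceOfFrobenius : ℚ) else 0) /
        Nat.card (stabilizer (VariableChange (ZMod q)) c.out) = 0 := by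
  rw [sum_classes_j h5 j (fun V => (V.traceOfFrobenius : ℚ)) fun C V hV => by
    haveI : V.IsElliptic := ⟨hV.isUnit⟩
    rw [FA.ReducedGroups.traceOfFrobenius_variableChange]]
  rw [← Int.cast_sum, Finset.sum_congr rfl fun ab hab =>
      FA.BirchMoment.traceOfFrobenius_eq h5 (FA.ReducedGroups.mem_jFibre.mp hab).1,
    Finset.sum_neg_distrib, FA.ReducedGroups.sum_charSum_jFibre h5, neg_zero, Int.cast_zero,
    zero_div]

end FA.Summary

end
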