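import Fermat.Agent.Supersingular.PrimeField
import Fermat.Agent.Root.SummaryTwistClasses

/-!
# Curves with `q + 1` points over `𝔽_q`

Over `𝔽_q`, `q ≥ 5`, the trace vanishes exactly when `j` is a supersingular invariant, so the classes
of trace zero have mass the number of supersingular invariants in `𝔽_q`; a curve with `q + 1` points
exists for every `q ≢ 1 (mod 24)`.
-/

set_option autoImplicit false
set_option linter.style.haveILetI false

noncomputable section

open WeierstrassCurve MulAction
open scoped Classical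

namespace FA.Summary

variable {q : ℕ} [hq : Fact q.Prime]

/-- **Supersingularity is geometric.** -/
theorem trace_eq_zero_iff_supersingular_j (h5 : 5 ≤ q) (W : WeierstrassCurve (ZMod q))
    [W.IsElliptic] :
    W.traceOfFrobenius = 0 ↔ ∃ (W' : WeierstrassCurve (AlgebraicClosure (ZMod q)))
      (_ : W'.IsElliptic), W'.j = algebraMap (ZMod q) (AlgebraicClosure (ZMod q)) W.j ∧
        ∀ P : W'.toAffine.Point, q • P = 0 → P = 0 := by
  haveI : CharP (AlgebraicClosure (ZMod q)) q :=
    charP_of_injective_algebraMap (algebraMap (ZMod q) (AlgebraicClosure (ZMod q))).injective q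
  exact FA.SupersingularPrime.trace_eq_zero_iff _ h5 W

/-- Twists of a curve of trace zero have trace zero. -/
theorem trace_eq_zero_of_j_eq (h5 : 5 ≤ q) {W W' : WeierstrassCurve (ZMod q)} [W.IsElliptic]
    [W'.IsElliptic] (hj : W.j = W'.j) (h : W.traceOfFrobenius = 0) : W'.traceOfFrobenius = 0 := by
  rw [trace_eq_zero_iff_supersingular_j h5] at h ⊢
  rwa [← hj]

/-- **A curve with `q + 1` points for `q ≢ 1 (mod 24)`.** -/
theorem exists_card_eq_succ (h5 : 5 ≤ q) (h24 : q % 24 ≠ 1) :
    ∃ W : WeierstrassCurve (ZMod q), W.Δ ≠ 0 ∧ Nat.card W.toAffine.Point = q + 1 := by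
  obtain ⟨W, hΔ, h⟩ := FA.SupersingularPrime.exists_trace_zero (q := q) h5 h24
  refine ⟨W, hΔ, ?_⟩
  have e : (q : ℤ) + 1 - Nat.card W.toAffine.Point = 0 := by
    rw [← h]
    show _ = (Nat.card (ZMod q) : ℤ) + 1 - (Nat.card W.toAffine.Point : ℤ)
    rw [Nat.card_zmod]
  omega

/-- **The mass of trace zero is the number of supersingular invariants in `𝔽_q`.** -/
theorem trace_zero_mass (h5 : 5 ≤ q) :
    ∑ᶠ c : orbitRel.Quotient (VariableChange (ZMod q)) (FA.ReducedGroups.ellipticEquations q),
      (if c.out.1.traceOfFrobenius = 0 then (1 : ℚ) else 0) /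
        Nat.card (stabilizer (VariableChange (ZMod q)) c.out) =
      {j : ZMod q | ∃ (W' : WeierstrassCurve (AlgebraicClosure (ZMod q))) (_ : W'.IsElliptic),
        W'.j = algebraMap (ZMod q) (AlgebraicClosure (ZMod q)) j ∧
          ∀ P : W'.toAffine.Point, q • P = 0 → P = 0}.ncard := by
  set G := VariableChange (ZMod q)
  set S := FA.ReducedGroups.ellipticEquations q
  haveI := Fintype.ofFinite (orbitRel.Quotient G S)
  set J : Finset (ZMod q) := Finset.univ.filter fun j => ∃ (W' : WeierstrassCurve
    (AlgebraicClosure (ZMod q))) (_ : W'.IsElliptic),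
      W'.j = algebraMap (ZMod q) (AlgebraicClosure (ZMod q)) j ∧
        ∀ P : W'.toAffine.Point, q • P = 0 → P = 0
  rw [show {j : ZMod q | ∃ (W' : WeierstrassCurve (AlgebraicClosure (ZMod q))) (_ : W'.IsElliptic),
        W'.j = algebraMap (ZMod q) (AlgebraicClosure (ZMod q)) j ∧
          ∀ P : W'.toAffine.Point, q • P = 0 → P = 0} = ↑J by ext j; simp [J],
    Set.ncard_coe_finset, finsum_eq_sum_of_fintype]
  calc ∑ c : orbitRel.Quotient G S, (if c.out.1.traceOfFrobenius = 0 then (1 : ℚ) else 0) /
        Nat.card (stabilizer G c.out)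
      = ∑ c : orbitRel.Quotient G S, ∑ j ∈ J,
          (if c.out.1.c₄ ^ 3 / c.out.1.Δ = j then (1 : ℚ) else 0) / Nat.card (stabilizer G c.out) :=
        Finset.sum_congr rfl fun c _ => by
          haveI : c.out.1.IsElliptic := ⟨Ne.isUnit c.out.2⟩
          rw [← Finset.sum_div, Finset.sum_ite_eq]
          refine congrArg (· / _) (if_congr ?_ rfl rfl)
          rw [trace_eq_zero_iff_supersingular_j h5, Finset.mem_filter,
            show c.out.1.c₄ ^ 3 / c.out.1.Δ = c.out.1.j by
              rw [j, Units.val_inv_eq_inv_val, coe_Δ', inv_mul_eq_div]]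
          simp
    _ = (J.card : ℚ) := by
        rw [Finset.sum_comm, Finset.sum_congr rfl (g := fun _ => (1 : ℚ)) fun j _ => by
          have h := classes_j_mass (q := q) h5 j
          rw [finsum_eq_sum_of_fintype] at h
          exact h, Finset.sum_const, nsmul_one]

end FA.Summary

end
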