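import Fermat.Agent.Supersingular.DeuringClassNumber
import Fermat.Agent.Root.SummaryClassMoments
import Fermat.Agent.Root.SummarySupersingularPrimeField
import Fermat.Agent.Root.SummaryHurwitzRelation

/-!
# Deuring's theorem: how many curves over `𝔽_p` have a given trace

For a prime `p ≥ 5` and `t² < 4 p` exactly `(p - 1) / 2 · H(4 p - t²)` equations `y² = x³ + A x + B`
have trace `t`: the classes of trace `t` have mass `H(4 p - t²) / 2` (Deuring 1941). So `H(4 p) / 2`
invariants in `𝔽_p` are supersingular, and Birch's second moment becomes the class number relation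
`∑ t² H(4 p - t²) = 2 p² - 2`.
-/

set_option autoImplicit false
set_option linter.style.haveILetI false

noncomputable section

open WeierstrassCurve MulAction
open scoped Classical

namespace FA.Summary

variable {p : ℕ} [hp : Fact p.Prime]

/-- **Deuring's theorem**: the equations with trace `t`. -/
theorem deuring_count_trace (h5 : 5 ≤ p) {t : ℤ} (ht : t ^ 2 < 4 * (p : ℤ)) :
    2 * (Nat.card {ab : ZMod p × ZMod p // 4 * ab.1 ^ 3 + 27 * ab.2 ^ 2 ≠ 0 ∧
        (⟨0, 0, 0, ab.1, ab.2⟩ : WeierstrassCurve (ZMod p)).traceOfFrobenius = t} : ℚ) =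
      ((p : ℚ) - 1) * FA.ClassRelation.classNumberH (4 * (p : ℤ) - t ^ 2).toNat := by
  rw [← FA.ClassTrace.two_mul_card_trace h5 ht, Nat.card_eq_fintype_card, Fintype.card_subtype,
    FA.BirchMoment.nonsingular, Finset.filter_filter]
  rfl

/-- **Deuring's theorem**: the classes of trace `t` have mass `H(4 p - t²) / 2`. -/
theorem deuring_class_mass (h5 : 5 ≤ p) {t : ℤ} (ht : t ^ 2 < 4 * (p : ℤ)) :
    ∑ᶠ c : orbitRel.Quotient (VariableChange (ZMod p)) (FA.ReducedGroups.ellipticEquations p),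
      (if c.out.1.traceOfFrobenius = t then (1 : ℚ) else 0) /
        Nat.card (stabilizer (VariableChange (ZMod p)) c.out) =
      FA.ClassRelation.classNumberH (4 * (p : ℤ) - t ^ 2).toNat / 2 := by
  have hinv : ∀ (C : VariableChange (ZMod p)) (V : WeierstrassCurve (ZMod p)), V.Δ ≠ 0 →
      (if (C • V).traceOfFrobenius = t then (1 : ℚ) else 0) =
        if V.traceOfFrobenius = t then 1 else 0 := fun C V hV => by
    haveI : V.IsElliptic := ⟨hV.isUnit⟩
    rw [FA.ReducedGroups.traceOfFrobenius_variableChange]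
  rw [FA.ReducedGroups.sum_classes
      (f := fun V => if V.1.traceOfFrobenius = t then (1 : ℚ) else 0) fun C V => hinv C V.1 V.2,
    FA.ReducedGroups.sum_ellipticEquations h5
      (fun V => if V.traceOfFrobenius = t then (1 : ℚ) else 0) hinv,
    FA.ReducedGroups.natCard_variableChange, Finset.sum_boole]
  have h := FA.ClassTrace.two_mul_card_trace h5 ht
  have hp0 : (p : ℚ) ≠ 0 := Nat.cast_ne_zero.mpr hp.out.ne_zero
  have hp1 : (p : ℚ) - 1 ≠ 0 := sub_ne_zero.mpr (Nat.cast_ne_one.mpr hp.out.ne_one)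
  simp only [FA.ClassTrace.tr] at h
  push_cast [Nat.cast_sub hp.out.one_le]
  field_simp
  linear_combination h

/-- **The supersingular invariants in `𝔽_p`** number `H(4 p) / 2`. -/
theorem supersingular_primeField_card (h5 : 5 ≤ p) :
    2 * ({j : ZMod p | ∃ (W' : WeierstrassCurve (AlgebraicClosure (ZMod p))) (_ : W'.IsElliptic),
        W'.j = algebraMap (ZMod p) (AlgebraicClosure (ZMod p)) j ∧
          ∀ P : W'.toAffine.Point, p • P = 0 → P = 0}.ncard : ℚ) =
      FA.ClassRelation.classNumberH (4 * p) := by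
  have h0 : ((0 : ℤ)) ^ 2 < 4 * (p : ℤ) := by
    have : (5 : ℤ) ≤ p := by exact_mod_cast h5
    linarith
  have e : Int.toNat (4 * (p : ℤ) - (0 : ℤ) ^ 2) = 4 * p := by omega
  rw [← trace_zero_mass h5, deuring_class_mass h5 h0, e]
  ring

/-- **The class number relation of weight four**: `∑ t² H(4 p - t²) = 2 p² - 2`. -/
theorem hurwitz_relation_second_moment (h5 : 5 ≤ p) :
    ∑ t ∈ (Finset.Icc (-(2 * (p : ℤ))) (2 * p)).filter (fun t => t ^ 2 < 4 * (p : ℤ)),
      (t : ℚ) ^ 2 * FA.ClassRelation.classNumberH (4 * (p : ℤ) - t ^ 2).toNat =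
      2 * (p : ℚ) ^ 2 - 2 := by
  have hp1 : (p : ℚ) - 1 ≠ 0 := sub_ne_zero.mpr (Nat.cast_ne_one.mpr hp.out.ne_one)
  have hmaps : ∀ ab ∈ FA.BirchMoment.nonsingular p,
      FA.ClassTrace.tr ab ∈ FA.ClassRelation.traces p := fun ab hab => by
    have hne := (Finset.mem_filter.1 hab).2
    haveI : (FA.BirchMoment.shortMod ab.1 ab.2).IsElliptic :=
      ⟨(FA.BirchMoment.shortMod_Δ_ne_zero h5 hne).isUnit⟩
    rw [FA.ClassRelation.mem_traces]
    refine lt_of_le_of_ne (FA.HasseBound.traceOfFrobenius_sq_le _)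
      fun (e : (FA.BirchMoment.shortMod ab.1 ab.2).traceOfFrobenius ^ 2 = 4 * (p : ℤ)) => ?_
    have hpz : Prime (p : ℤ) := Nat.prime_iff_prime_int.1 hp.out
    obtain ⟨c, hc⟩ : (p : ℤ) ∣ (FA.BirchMoment.shortMod ab.1 ab.2).traceOfFrobenius :=
      hpz.dvd_of_dvd_pow (n := 2) ⟨4, by rw [e]; ring⟩
    have h4 : (p : ℤ) ∣ 4 := ⟨c ^ 2, mul_left_cancel₀ hpz.ne_zero (by
      rw [hc] at e; linear_combination -e)⟩
    have := Int.le_of_dvd (by norm_num) h4
    omega
  refine mul_left_cancel₀ hp1 ?_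
  have hsq := congrArg (fun x : ℤ => (x : ℚ)) (FA.BirchMoment.sum_trace (q := p) h5).2
  push_cast at hsq
  rw [← Finset.sum_fiberwise_of_maps_to (g := FA.ClassTrace.tr) hmaps] at hsq
  have key : ∀ t ∈ FA.ClassRelation.traces p, ((p : ℚ) - 1) *
      ((t : ℚ) ^ 2 * FA.ClassRelation.classNumberH (4 * (p : ℤ) - t ^ 2).toNat) =
      2 * ∑ ab ∈ (FA.BirchMoment.nonsingular p).filter (fun ab => FA.ClassTrace.tr ab = t),
        ((FA.BirchMoment.shortMod ab.1 ab.2).traceOfFrobenius : ℚ) ^ 2 := fun t ht => by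
    rw [mul_left_comm, ← FA.ClassTrace.two_mul_card_trace h5
        ((FA.ClassRelation.mem_traces p).1 ht), Finset.sum_congr rfl fun ab hab =>
      (congrArg (fun x : ℤ => (x : ℚ) ^ 2) (Finset.mem_filter.1 hab).2 :
        ((FA.BirchMoment.shortMod ab.1 ab.2).traceOfFrobenius : ℚ) ^ 2 = (t : ℚ) ^ 2),
      Finset.sum_const, nsmul_eq_mul]
    ring
  have htr : (Finset.Icc (-(2 * (p : ℤ))) (2 * p)).filter (fun t => t ^ 2 < 4 * (p : ℤ)) =
      FA.ClassRelation.traces p := by
    unfold FA.ClassRelation.traces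
    rfl
  rw [htr, Finset.mul_sum, Finset.sum_congr rfl key, ← Finset.mul_sum, hsq]
  ring

end FA.Summary

end
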