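import Fermat.Agent.Supersingular.DeuringExistence

/-!
# Deuring's existence theorem: the whole of Hasse's interval occurs

For a prime `p ≥ 5` the traces of Frobenius of elliptic curves over `𝔽_p` are exactly the integers
`a` with `a² ≤ 4 p`, so the orders of their groups are exactly the integers within `2 √p` of `p + 1`
(Deuring 1941; Waterhouse).
-/

set_option autoImplicit false
set_option linter.style.haveILetI false

noncomputable section

open WeierstrassCurve

namespace FA.Summary

variable {p : ℕ} [hp : Fact p.Prime]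

/-- **Deuring's existence theorem**: every trace in Hasse's interval is that of a curve
`y² = x³ + A x + B` over `𝔽_p`. -/
theorem deuring_existence (h5 : 5 ≤ p) {a : ℤ} (ha : a ^ 2 ≤ 4 * (p : ℤ)) :
    ∃ A B : ZMod p, 4 * A ^ 3 + 27 * B ^ 2 ≠ 0 ∧
      (⟨0, 0, 0, A, B⟩ : WeierstrassCurve (ZMod p)).traceOfFrobenius = a :=
  FA.DeuringExistence.exists_trace_eq h5 ha

/-- The traces over `𝔽_p` are exactly the integers in Hasse's interval. -/
theorem traceOfFrobenius_range (h5 : 5 ≤ p) (a : ℤ) :
    (∃ W : WeierstrassCurve (ZMod p), W.Δ ≠ 0 ∧ W.traceOfFrobenius = a) ↔ a ^ 2 ≤ 4 * (p : ℤ) := by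
  constructor
  · rintro ⟨W, hW, rfl⟩
    haveI : W.IsElliptic := ⟨hW.isUnit⟩
    exact FA.HasseBound.traceOfFrobenius_sq_le W
  · intro ha
    obtain ⟨A, B, hAB, h⟩ := deuring_existence h5 ha
    exact ⟨_, FA.BirchMoment.shortMod_Δ_ne_zero h5 hAB, h⟩

/-- **The orders of the groups of elliptic curves over `𝔽_p`** are exactly the integers `N` with
`(p + 1 - N)² ≤ 4 p`. -/
theorem pointCount_range (h5 : 5 ≤ p) (N : ℕ) :
    (∃ W : WeierstrassCurve (ZMod p), W.Δ ≠ 0 ∧ Nat.card W.toAffine.Point = N) ↔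
      ((p : ℤ) + 1 - N) ^ 2 ≤ 4 * (p : ℤ) := by
  rw [← traceOfFrobenius_range h5]
  refine exists_congr fun W => and_congr_right fun _ => ?_
  rw [WeierstrassCurve.traceOfFrobenius, WeierstrassCurve.card, Nat.card_zmod]
  omega

end FA.Summary

end
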