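import Fermat.Agent.AlmostAll.ResidueDensity
import Fermat.Agent.Root.SummaryDeuringClassNumber
import Fermat.Agent.Root.SummaryDeuringExistence
import Fermat.Agent.Root.SummaryAlmostAllSerreCurves

/-!
# Lang and Trotter on average, by class numbers

By Deuring's count `(p - 1) H(4 p - t²) / 2` residues of `(A, B)` mod `p ≥ 5` give trace `t`. So
Serre curves `y² = x³ + A x + B` with prescribed traces at finitely many primes have exact density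
the product of the `(p - 1) H(4 p - t²) / (2 p²)`, the mean number of primes `5 ≤ p ≤ x` with
`a_p = t` is the sum of these numbers (the main term of Fouvry and Murty), and every trace is taken
at any given number of primes by a positive proportion of all curves.
-/

set_option autoImplicit false
set_option linter.style.haveILetI false

noncomputable section

open Filter Topology WeierstrassCurve WeierstrassCurve.Affine FA.AlmostAll
open scoped WeierstrassCurve.Affine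

local notation "Qb" => AlgebraicClosure ℚ
local notation "GQ" => AlgebraicClosure ℚ ≃ₐ[ℚ] AlgebraicClosure ℚ

namespace FA.AlmostAll

/-- The residues with a given trace. -/
def traceClasses (p : ℕ) (t : ℤ) : Set (ZMod p × ZMod p) :=
  {ab | 4 * ab.1 ^ 3 + 27 * ab.2 ^ 2 ≠ 0 ∧
    (⟨0, 0, 0, ab.1, ab.2⟩ : WeierstrassCurve (ZMod p)).traceOfFrobenius = t}

/-- A residue with trace `t` means good reduction and `a_p = t`. -/
theorem mem_traceClasses_iff {p : ℕ} (hp : p.Prime) (h5 : 5 ≤ p) (t : ℤ) (AB : ℤ × ℤ) :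
    ((AB.1 : ZMod p), (AB.2 : ZMod p)) ∈ traceClasses p t ↔
      (⟨0, 0, 0, AB.1, AB.2⟩ : WeierstrassCurve ℤ).IsGoodPrimeFor p ∧
        (⟨0, 0, 0, AB.1, AB.2⟩ : WeierstrassCurve ℤ).apOfModel p = t := by
  haveI := Fact.mk hp
  have hred : (⟨0, 0, 0, AB.1, AB.2⟩ : WeierstrassCurve ℤ).reductionMod p =
      FA.BirchMoment.shortMod (AB.1 : ZMod p) (AB.2 : ZMod p) := by
    ext <;> simp [reductionMod]
  have hΔ : (((⟨0, 0, 0, AB.1, AB.2⟩ : WeierstrassCurve ℤ).Δ : ℤ) : ZMod p) =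
      (FA.BirchMoment.shortMod (AB.1 : ZMod p) (AB.2 : ZMod p)).Δ := by
    rw [← hred, reductionMod, map_Δ, eq_intCast]
  constructor
  · rintro ⟨hne, htr⟩
    refine ⟨fun hd => FA.BirchMoment.shortMod_Δ_ne_zero h5 hne ?_,
      by rw [apOfModel, hred]; exact htr⟩
    rw [← hΔ]
    exact (ZMod.intCast_zmod_eq_zero_iff_dvd _ p).mpr hd
  · rintro ⟨hgood, hap⟩
    refine ⟨fun h0 => hgood ((ZMod.intCast_zmod_eq_zero_iff_dvd _ p).mp ?_), ?_⟩
    · rw [hΔ, FA.BirchMoment.shortMod_Δ, h0, mul_zero]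
    · rw [apOfModel, hred] at hap
      exact hap

/-- Deuring's count as a share. -/
theorem traceClasses_share {p : ℕ} (hp : p.Prime) (h5 : 5 ≤ p) {t : ℤ}
    (ht : t ^ 2 < 4 * (p : ℤ)) :
    ((traceClasses p t).ncard : ℝ) / (p : ℝ) ^ 2 = ((p : ℝ) - 1) *
      (FA.ClassRelation.classNumberH (4 * (p : ℤ) - t ^ 2).toNat : ℝ) / (2 * (p : ℝ) ^ 2) := by
  haveI := Fact.mk hp
  have h := congrArg (fun x : ℚ => (x : ℝ)) (FA.Summary.deuring_count_trace h5 ht)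
  push_cast at h
  have e : ((traceClasses p t).ncard : ℝ) = (Nat.card {ab : ZMod p × ZMod p //
      4 * ab.1 ^ 3 + 27 * ab.2 ^ 2 ≠ 0 ∧
        (⟨0, 0, 0, ab.1, ab.2⟩ : WeierstrassCurve (ZMod p)).traceOfFrobenius = t} : ℝ) := by
    rw [← Nat.card_coe_set_eq]
    rfl
  rw [e, ← h, mul_div_mul_left _ _ (two_ne_zero' ℝ)]

/-- Every trace in Hasse's interval has a positive share. -/
theorem traceClasses_share_pos {p : ℕ} (hp : p.Prime) (h5 : 5 ≤ p) {t : ℤ}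
    (ht : t ^ 2 < 4 * (p : ℤ)) :
    0 < ((p : ℝ) - 1) *
      (FA.ClassRelation.classNumberH (4 * (p : ℤ) - t ^ 2).toNat : ℝ) / (2 * (p : ℝ) ^ 2) := by
  haveI := Fact.mk hp
  rw [← traceClasses_share hp h5 ht]
  obtain ⟨A, B, hAB, htr⟩ := FA.Summary.deuring_existence h5 ht.le
  have : 0 < (traceClasses p t).ncard :=
    (Set.ncard_pos (Set.toFinite _)).mpr ⟨(A, B), hAB, htr⟩
  have : (0 : ℝ) < p := Nat.cast_pos.mpr hp.pos
  positivity

/-- Outside Hasse's interval there are none. -/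
theorem traceClasses_eq_empty {p : ℕ} (hp : p.Prime) (h5 : 5 ≤ p) {t : ℤ}
    (ht : ¬ t ^ 2 < 4 * (p : ℤ)) : traceClasses p t = ∅ := by
  haveI := Fact.mk hp
  refine Set.eq_empty_iff_forall_notMem.mpr fun ab ⟨hne, htr⟩ => ht ?_
  haveI : (FA.BirchMoment.shortMod ab.1 ab.2).IsElliptic :=
    ⟨(FA.BirchMoment.shortMod_Δ_ne_zero h5 hne).isUnit⟩
  have hle := FA.HasseBound.traceOfFrobenius_sq_le (FA.BirchMoment.shortMod ab.1 ab.2)
  rw [show (FA.BirchMoment.shortMod ab.1 ab.2).traceOfFrobenius = t from htr] at hle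
  refine lt_of_le_of_ne hle fun e => ?_
  have hpz : Prime (p : ℤ) := Nat.prime_iff_prime_int.1 hp
  obtain ⟨c, hc⟩ : (p : ℤ) ∣ t := hpz.dvd_of_dvd_pow (n := 2) ⟨4, by rw [e]; ring⟩
  have h4 : (p : ℤ) ∣ 4 := ⟨c ^ 2, mul_left_cancel₀ hpz.ne_zero (by
    rw [hc] at e; linear_combination -e)⟩
  have := Int.le_of_dvd (by norm_num) h4
  omega

/-- A property of almost all nonsingular pairs does not change a density. -/
theorem tendsto_and_of_almostAll {R S : ℤ × ℤ → Prop} [DecidablePred R] {δ : ℝ}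
    (hR : Tendsto (fun XY : ℕ × ℕ => (((box XY.1 XY.2).filter R).card : ℝ) /
      ((2 * XY.1 + 1) * (2 * XY.2 + 1))) atTop (𝓝 δ))
    (hS : Tendsto (fun XY : ℕ × ℕ => (Set.ncard {AB : ℤ × ℤ | |AB.1| ≤ XY.1 ∧ |AB.2| ≤ XY.2 ∧
        4 * AB.1 ^ 3 + 27 * AB.2 ^ 2 ≠ 0 ∧ ¬ S AB} : ℝ) /
      ((2 * XY.1 + 1) * (2 * XY.2 + 1))) atTop (𝓝 0)) :
    Tendsto (fun XY : ℕ × ℕ => (Set.ncard {AB : ℤ × ℤ | |AB.1| ≤ XY.1 ∧ |AB.2| ≤ XY.2 ∧
        4 * AB.1 ^ 3 + 27 * AB.2 ^ 2 ≠ 0 ∧ S AB ∧ R AB} : ℝ) /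
      ((2 * XY.1 + 1) * (2 * XY.2 + 1))) atTop (𝓝 δ) := by
  classical
  have hlow : Tendsto (fun XY : ℕ × ℕ => (((box XY.1 XY.2).filter R).card : ℝ) /
      ((2 * XY.1 + 1) * (2 * XY.2 + 1)) - ((Set.ncard {AB : ℤ × ℤ | |AB.1| ≤ XY.1 ∧
        |AB.2| ≤ XY.2 ∧ 4 * AB.1 ^ 3 + 27 * AB.2 ^ 2 ≠ 0 ∧ ¬ S AB} : ℝ) /
      ((2 * XY.1 + 1) * (2 * XY.2 + 1)) + (((box XY.1 XY.2).filter fun AB : ℤ × ℤ =>
        4 * AB.1 ^ 3 + 27 * AB.2 ^ 2 = 0).card : ℝ) /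
      ((2 * XY.1 + 1) * (2 * XY.2 + 1)))) atTop (𝓝 δ) := by
    simpa using hR.sub (hS.add tendsto_singular)
  have hmem : ∀ (X Y : ℕ) (P : ℤ × ℤ → Prop), {AB : ℤ × ℤ | |AB.1| ≤ X ∧ |AB.2| ≤ Y ∧ P AB} =
      (((box X Y).filter P : Finset (ℤ × ℤ)) : Set (ℤ × ℤ)) := fun X Y P => by
    ext AB
    simp only [box, Finset.coe_filter, Finset.mem_product, Finset.mem_Icc, Set.mem_ofPred_eq,
      abs_le]
    tauto
  refine tendsto_of_tendsto_of_tendsto_of_le_of_le hlow hR (fun XY => ?_) fun XY => ?_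
  · rw [← add_div, ← sub_div, hmem, hmem, Set.ncard_coe_finset, Set.ncard_coe_finset]
    refine div_le_div_of_nonneg_right ?_ (by positivity)
    rw [sub_le_iff_le_add', ← Nat.cast_add, ← Nat.cast_add, Nat.cast_le]
    refine (Finset.card_le_card fun AB hAB => ?_).trans
      ((Finset.card_union_le _ _).trans (Nat.add_le_add_right (Finset.card_union_le _ _) _))
    simp only [Finset.mem_union, Finset.mem_filter] at hAB ⊢
    obtain ⟨hb, hr⟩ := hAB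
    rcases eq_or_ne (4 * AB.1 ^ 3 + 27 * AB.2 ^ 2) 0 with h0 | h0
    · exact Or.inl (Or.inr ⟨hb, h0⟩)
    by_cases hs : S AB
    · exact Or.inr ⟨hb, h0, hs, hr⟩
    · exact Or.inl (Or.inl ⟨hb, h0, hs⟩)
  · rw [hmem, Set.ncard_coe_finset]
    refine div_le_div_of_nonneg_right (Nat.cast_le.mpr (Finset.card_le_card fun AB hAB => ?_))
      (by positivity)
    simp only [Finset.mem_filter] at hAB ⊢
    exact ⟨hAB.1, hAB.2.2.2⟩

end FA.AlmostAll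

namespace FA.Summary

open FA.AlmostAll

/-- **Serre curves with given traces have the class numbers as densities**: for primes `p ≥ 5` in a
finite set and `t_p² < 4 p` the Serre curves `y² = x³ + A x + B` with good reduction and
`a_p = t_p` at all of them have density `∏ (p - 1) H(4 p - t_p²) / (2 p²)`. -/
theorem serreCurves_prescribed_traces [inst : DecidableEq (AlgebraicClosure ℚ)] (P : Finset ℕ)
    (hP : ∀ p ∈ P, p.Prime ∧ 5 ≤ p) (t : ℕ → ℤ) (ht : ∀ p ∈ P, t p ^ 2 < 4 * (p : ℤ)) :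
    Tendsto (fun XY : ℕ × ℕ => (Set.ncard {AB : ℤ × ℤ | |AB.1| ≤ XY.1 ∧ |AB.2| ≤ XY.2 ∧
        4 * AB.1 ^ 3 + 27 * AB.2 ^ 2 ≠ 0 ∧
        (∃ ρ : GQ →* (AddCommGroup.torsion ((⟨0, 0, 0, (AB.1 : ℚ), (AB.2 : ℚ)⟩ :
              WeierstrassCurve ℚ).toAffine⁄(AlgebraicClosure ℚ)).Point ≃ₗ[ℤ]
            AddCommGroup.torsion ((⟨0, 0, 0, (AB.1 : ℚ), (AB.2 : ℚ)⟩ :
              WeierstrassCurve ℚ).toAffine⁄(AlgebraicClosure ℚ)).Point),
          (∀ σ x, (ρ σ x).1 = Affine.Point.map σ.toAlgHom x.1) ∧ ρ.range.index = 2) ∧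
        ∀ p ∈ P, (⟨0, 0, 0, AB.1, AB.2⟩ : WeierstrassCurve ℤ).IsGoodPrimeFor p ∧
          (⟨0, 0, 0, AB.1, AB.2⟩ : WeierstrassCurve ℤ).apOfModel p = t p} : ℝ) /
      ((2 * XY.1 + 1) * (2 * XY.2 + 1))) atTop
      (𝓝 (∏ p ∈ P, ((p : ℝ) - 1) *
        (FA.ClassRelation.classNumberH (4 * (p : ℤ) - t p ^ 2).toNat : ℝ) /
          (2 * (p : ℝ) ^ 2))) := by
  classical
  have h := tendsto_residues_primes P (fun p hp => (hP p hp).1) fun p => traceClasses p (t p)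
  rw [Finset.prod_congr rfl fun p hp => traceClasses_share (hP p hp).1 (hP p hp).2 (ht p hp)] at h
  refine tendsto_and_of_almostAll (h.congr fun XY => ?_) (almostAll_serreCurve (inst := inst))
  refine congrArg (fun s : Finset (ℤ × ℤ) => (s.card : ℝ) / _) (Finset.filter_congr fun AB _ => ?_)
  exact forall₂_congr fun p hp => mem_traceClasses_iff (hP p hp).1 (hP p hp).2 (t p) AB

/-- **Lang and Trotter on average** (Deuring; the main term of Fouvry and Murty): the mean number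
of primes `5 ≤ p ≤ x` with `a_p = t`, over the Serre curves `y² = x³ + A x + B` in growing boxes,
tends to the sum of `(p - 1) H(4 p - t²) / (2 p²)` over such `p` with `t² < 4 p`. -/
theorem average_langTrotter [inst : DecidableEq (AlgebraicClosure ℚ)] (x : ℕ) (t : ℤ) :
    Tendsto (fun XY : ℕ × ℕ => (Set.ncard {c : (ℤ × ℤ) × ℕ | |c.1.1| ≤ XY.1 ∧ |c.1.2| ≤ XY.2 ∧
        4 * c.1.1 ^ 3 + 27 * c.1.2 ^ 2 ≠ 0 ∧
        (∃ ρ : GQ →* (AddCommGroup.torsion ((⟨0, 0, 0, (c.1.1 : ℚ), (c.1.2 : ℚ)⟩ :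
              WeierstrassCurve ℚ).toAffine⁄(AlgebraicClosure ℚ)).Point ≃ₗ[ℤ]
            AddCommGroup.torsion ((⟨0, 0, 0, (c.1.1 : ℚ), (c.1.2 : ℚ)⟩ :
              WeierstrassCurve ℚ).toAffine⁄(AlgebraicClosure ℚ)).Point),
          (∀ σ x, (ρ σ x).1 = Affine.Point.map σ.toAlgHom x.1) ∧ ρ.range.index = 2) ∧
        c.2.Prime ∧ 5 ≤ c.2 ∧ c.2 ≤ x ∧
        (⟨0, 0, 0, c.1.1, c.1.2⟩ : WeierstrassCurve ℤ).IsGoodPrimeFor c.2 ∧
        (⟨0, 0, 0, c.1.1, c.1.2⟩ : WeierstrassCurve ℤ).apOfModel c.2 = t} : ℝ) /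
      (Set.ncard {AB : ℤ × ℤ | |AB.1| ≤ XY.1 ∧ |AB.2| ≤ XY.2 ∧
        4 * AB.1 ^ 3 + 27 * AB.2 ^ 2 ≠ 0 ∧
        (∃ ρ : GQ →* (AddCommGroup.torsion ((⟨0, 0, 0, (AB.1 : ℚ), (AB.2 : ℚ)⟩ :
              WeierstrassCurve ℚ).toAffine⁄(AlgebraicClosure ℚ)).Point ≃ₗ[ℤ]
            AddCommGroup.torsion ((⟨0, 0, 0, (AB.1 : ℚ), (AB.2 : ℚ)⟩ :
              WeierstrassCurve ℚ).toAffine⁄(AlgebraicClosure ℚ)).Point),
          (∀ σ x, (ρ σ x).1 = Affine.Point.map σ.toAlgHom x.1) ∧ ρ.range.index = 2)} : ℝ)) atTop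
      (𝓝 (∑ p ∈ (Finset.Icc 5 x).filter (fun p : ℕ => p.Prime ∧ t ^ 2 < 4 * (p : ℤ)),
        ((p : ℝ) - 1) * (FA.ClassRelation.classNumberH (4 * (p : ℤ) - t ^ 2).toNat : ℝ) /
          (2 * (p : ℝ) ^ 2))) := by
  classical
  set S : ℤ × ℤ → Prop := fun AB => ∃ ρ : GQ →* (AddCommGroup.torsion
      ((⟨0, 0, 0, (AB.1 : ℚ), (AB.2 : ℚ)⟩ :
        WeierstrassCurve ℚ).toAffine⁄(AlgebraicClosure ℚ)).Point ≃ₗ[ℤ]
      AddCommGroup.torsion ((⟨0, 0, 0, (AB.1 : ℚ), (AB.2 : ℚ)⟩ :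
        WeierstrassCurve ℚ).toAffine⁄(AlgebraicClosure ℚ)).Point),
      (∀ σ x, (ρ σ x).1 = Affine.Point.map σ.toAlgHom x.1) ∧ ρ.range.index = 2
  set P := (Finset.Icc 5 x).filter (fun p : ℕ => p.Prime ∧ t ^ 2 < 4 * (p : ℤ))
  have hden := serreCurves_prescribed_traces (inst := inst) ∅ (by simp) (fun _ => t) (by simp)
  have hnum : Tendsto (fun XY : ℕ × ℕ => ∑ p ∈ P, (Set.ncard {AB : ℤ × ℤ | |AB.1| ≤ XY.1 ∧
      |AB.2| ≤ XY.2 ∧ 4 * AB.1 ^ 3 + 27 * AB.2 ^ 2 ≠ 0 ∧ S AB ∧ ∀ q ∈ ({p} : Finset ℕ),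
        (⟨0, 0, 0, AB.1, AB.2⟩ : WeierstrassCurve ℤ).IsGoodPrimeFor q ∧
        (⟨0, 0, 0, AB.1, AB.2⟩ : WeierstrassCurve ℤ).apOfModel q = t} : ℝ) /
      ((2 * XY.1 + 1) * (2 * XY.2 + 1))) atTop (𝓝 (∑ p ∈ P, ∏ q ∈ ({p} : Finset ℕ),
        ((q : ℝ) - 1) * (FA.ClassRelation.classNumberH (4 * (q : ℤ) - t ^ 2).toNat : ℝ) /
          (2 * (q : ℝ) ^ 2))) := by
    refine tendsto_finsetSum _ fun p hp => ?_
    obtain ⟨hI, hpp, ht⟩ := Finset.mem_filter.mp hp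
    exact serreCurves_prescribed_traces (inst := inst) {p}
      (fun q hq => by rw [Finset.mem_singleton.mp hq]; exact ⟨hpp, (Finset.mem_Icc.mp hI).1⟩)
      (fun _ => t) (fun q hq => by rw [Finset.mem_singleton.mp hq]; exact ht)
  simp only [Finset.prod_singleton] at hnum
  simp only [Finset.prod_empty, Finset.notMem_empty, IsEmpty.forall_iff, implies_true,
    and_true] at hden
  have h := hnum.div hden one_ne_zero
  rw [div_one] at h
  refine h.congr fun XY => ?_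
  set D : ℝ := (2 * (XY.1 : ℝ) + 1) * (2 * (XY.2 : ℝ) + 1) with hD
  have hD0 : D ≠ 0 := by positivity
  rw [Pi.div_apply, ← Finset.sum_div, div_div_div_cancel_right₀ hD0, ← Nat.cast_sum]
  refine congrArg (fun n : ℕ => (n : ℝ) / _) ?_
  have hset : ∀ (Q : ℤ × ℤ → Prop), {AB : ℤ × ℤ | |AB.1| ≤ XY.1 ∧ |AB.2| ≤ XY.2 ∧ Q AB} =
      (((box XY.1 XY.2).filter Q : Finset (ℤ × ℤ)) : Set (ℤ × ℤ)) := fun Q => by
    ext AB
    simp only [box, Finset.coe_filter, Finset.mem_product, Finset.mem_Icc, Set.mem_ofPred_eq,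
      abs_le]
    tauto
  simp only [hset, Set.ncard_coe_finset]
  rw [← Finset.card_sigma]
  refine ((Set.ncard_coe_finset _).symm.trans ?_)
  refine Set.ncard_congr (fun a _ => (a.2, a.1)) (fun a ha => ?_) (fun a b _ _ e => ?_)
    fun c hc => ?_
  · simp only [Finset.coe_sigma, Set.mem_sigma_iff, Finset.coe_filter, Set.mem_ofPred_eq,
      Finset.mem_singleton, forall_eq, P, Finset.mem_Icc, box,
      Finset.mem_product] at ha ⊢
    obtain ⟨⟨⟨h5, hx⟩, hp, -⟩, ⟨hA, hB⟩, hne, hS, hg, ht⟩ := ha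
    exact ⟨abs_le.mpr hA, abs_le.mpr hB, hne, hS, hp, h5, hx, hg, ht⟩
  · exact Sigma.ext (congrArg Prod.snd e) (heq_of_eq (congrArg Prod.fst e))
  · obtain ⟨hA, hB, hne, hS, hp, h5, hx, hg, ht⟩ := hc
    refine ⟨⟨c.2, c.1⟩, ?_, rfl⟩
    simp only [Finset.coe_sigma, Set.mem_sigma_iff, Finset.coe_filter, Set.mem_ofPred_eq,
      Finset.mem_singleton, forall_eq, P, Finset.mem_Icc, box,
      Finset.mem_product]
    refine ⟨⟨⟨h5, hx⟩, hp, ?_⟩, ⟨abs_le.mp hA, abs_le.mp hB⟩, hne, hS, hg, ht⟩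
    by_contra hlt
    have hm := (mem_traceClasses_iff hp h5 t c.1).mpr ⟨hg, ht⟩
    rw [traceClasses_eq_empty hp h5 hlt] at hm
    exact hm

/-- **Every trace at many primes**: for every `t` and `k` a positive proportion of all elliptic
curves over `ℚ` are Serre curves with `a_p = t` at `k` primes or more. -/
theorem positiveProportion_trace_at_many_primes [inst : DecidableEq (AlgebraicClosure ℚ)]
    (t : ℤ) (k : ℕ) :
    ∃ c : ℝ, 0 < c ∧ ∀ᶠ XY : ℕ × ℕ in atTop,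
      c ≤ (Set.ncard {AB : ℤ × ℤ | |AB.1| ≤ XY.1 ∧ |AB.2| ≤ XY.2 ∧
        4 * AB.1 ^ 3 + 27 * AB.2 ^ 2 ≠ 0 ∧
        (∃ ρ : GQ →* (AddCommGroup.torsion ((⟨0, 0, 0, (AB.1 : ℚ), (AB.2 : ℚ)⟩ :
              WeierstrassCurve ℚ).toAffine⁄(AlgebraicClosure ℚ)).Point ≃ₗ[ℤ]
            AddCommGroup.torsion ((⟨0, 0, 0, (AB.1 : ℚ), (AB.2 : ℚ)⟩ :
              WeierstrassCurve ℚ).toAffine⁄(AlgebraicClosure ℚ)).Point),
          (∀ σ x, (ρ σ x).1 = Affine.Point.map σ.toAlgHom x.1) ∧ ρ.range.index = 2) ∧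
        ∃ T : Finset ℕ, T.card = k ∧ ∀ p ∈ T, p.Prime ∧
          (⟨0, 0, 0, AB.1, AB.2⟩ : WeierstrassCurve ℤ).IsGoodPrimeFor p ∧
          (⟨0, 0, 0, AB.1, AB.2⟩ : WeierstrassCurve ℤ).apOfModel p = t} : ℝ) /
        ((2 * XY.1 + 1) * (2 * XY.2 + 1)) := by
  classical
  obtain ⟨P, hsub, hcard⟩ :=
    (Nat.infinite_setOfPred_prime.sdiff
      (Set.finite_le_nat ((t ^ 2).toNat + 4))).exists_subset_card_eq k
  have hP : ∀ p ∈ P, p.Prime ∧ 5 ≤ p ∧ t ^ 2 < 4 * (p : ℤ) := fun p hp => by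
    obtain ⟨hpp, hlt⟩ := hsub hp
    simp only [Set.mem_ofPred_eq, not_le] at hlt
    refine ⟨hpp, by omega, ?_⟩
    have := Int.self_le_toNat (t ^ 2)
    omega
  have h := serreCurves_prescribed_traces (inst := inst) P
    (fun p hp => ⟨(hP p hp).1, (hP p hp).2.1⟩) (fun _ => t) fun p hp => (hP p hp).2.2
  have hpos : 0 < ∏ p ∈ P, ((p : ℝ) - 1) *
      (FA.ClassRelation.classNumberH (4 * (p : ℤ) - t ^ 2).toNat : ℝ) / (2 * (p : ℝ) ^ 2) :=
    Finset.prod_pos fun p hp => traceClasses_share_pos (hP p hp).1 (hP p hp).2.1 (hP p hp).2.2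
  refine ⟨_, half_pos hpos, (h.eventually (eventually_ge_nhds (half_lt_self hpos))).mono
    fun XY hXY => hXY.trans (div_le_div_of_nonneg_right (Nat.cast_le.mpr
      (Set.ncard_le_ncard (fun AB hAB => ?_) ?_)) (by positivity))⟩
  · obtain ⟨hA, hB, hne, hS, hg⟩ := hAB
    exact ⟨hA, hB, hne, hS, P, hcard, fun p hp => ⟨(hP p hp).1, hg p hp⟩⟩
  · exact (box XY.1 XY.2).finite_toSet.subset fun AB hAB =>
      Finset.mem_coe.mpr (mem_box.mpr ⟨hAB.1, hAB.2.1⟩)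

end FA.Summary

end
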