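import Fermat.Agent.AverageRank.Main
import Mathlib.Analysis.SpecificLimits.Normed

/-!
# The average rank of elliptic curves is bounded

The curves `y² = x³ + A x + B` with `|A|³ ≤ X`, `B² ≤ X` (all, or the minimal pairs) have bounded
mean of `2 ^ rank` (Bhargava–Shankar 2010, without their constants): every moment of the rank is
bounded, and outside an arbitrarily small proportion the rank is bounded. The proof counts binary
quartic forms of given height up to equivalence.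
-/

set_option autoImplicit false

noncomputable section

open WeierstrassCurve Filter FA.SiegelPoints
open scoped Classical

namespace FA.AverageRank.Summary

open FA.AverageRank

/-- The pairs `(A, B)` with `|A|³ ≤ X`, `B² ≤ X` and `4 A³ + 27 B² ≠ 0`. -/
def heightPairs (X : ℕ) : Finset (ℤ × ℤ) :=
  (Finset.Icc (-(X : ℤ)) X ×ˢ Finset.Icc (-(X : ℤ)) X).filter fun p =>
    |p.1| ^ 3 ≤ (X : ℤ) ∧ p.2 ^ 2 ≤ (X : ℤ) ∧ 4 * p.1 ^ 3 + 27 * p.2 ^ 2 ≠ 0

/-- Those of minimal models: no prime `q` with `q⁴ ∣ A` and `q⁶ ∣ B`. -/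
def minimalHeightPairs (X : ℕ) : Finset (ℤ × ℤ) :=
  (heightPairs X).filter fun p => ∀ q : ℕ, q.Prime → ¬ ((q : ℤ) ^ 4 ∣ p.1 ∧ (q : ℤ) ^ 6 ∣ p.2)

/-- The Mordell–Weil rank of `y² = x³ + A x + B`. -/
def curveRank (p : ℤ × ℤ) : ℕ :=
  Module.finrank ℤ (⟨0, 0, 0, (p.1 : ℚ), (p.2 : ℚ)⟩ : WeierstrassCurve ℚ).toAffine.Point

/-- **Binary quartic forms**: at most `C Y⁵` forms without rational zero, with `4 I³ ≠ J²`,
`|I| ≤ Y²` and `|J| ≤ Y³`, can be pairwise inequivalent under `GL₂(ℤ)`. -/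
theorem quartic_class_count : ∃ C : ℝ, ∀ (Y : ℝ) (S : Finset QuarticForm), 1 ≤ Y →
    (∀ F ∈ S, 4 * F.invI ^ 3 - F.invJ ^ 2 ≠ 0 ∧
      (∀ X Z : ℤ, F.eval X Z = 0 → X = 0 ∧ Z = 0) ∧
      |(F.invI : ℝ)| ≤ Y ^ 2 ∧ |(F.invJ : ℝ)| ≤ Y ^ 3) →
    (∀ F ∈ S, ∀ G ∈ S, ∀ p q r s : ℤ, (p * s - q * r = 1 ∨ p * s - q * r = -1) →
      F.act p q r s = G → F = G) →
    (S.card : ℝ) ≤ C * Y ^ 5 := by
  obtain ⟨C, hC⟩ := exists_class_bound
  refine ⟨C, fun Y S hY hS hinj => ?_⟩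
  obtain ⟨hfin, hle⟩ := hC Y hY
  refine le_trans ?_ hle
  rw [Nat.cast_le, ← Set.ncard_coe_finset S]
  refine Set.ncard_le_ncard_of_injOn slClass (fun F hF => ⟨F, hS F hF, rfl⟩) ?_ hfin
  intro F hF G hG e
  obtain ⟨p, q, r, s, hd, he⟩ := e ▸ mem_slClass_self G
  exact hinj F hF G hG p q r s (Or.inl hd) he

/-- **The rank and `E(ℚ)/2E(ℚ)`**: the quotient is finite and has at least `2 ^ rank` elements. -/
theorem two_pow_rank_le_points_mod_two {A B : ℤ} (hΔ : 4 * A ^ 3 + 27 * B ^ 2 ≠ 0) :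
    Finite ((⟨0, 0, 0, (A : ℚ), (B : ℚ)⟩ : WeierstrassCurve ℚ).toAffine.Point ⧸
      (nsmulAddMonoidHom 2).range) ∧
    2 ^ curveRank (A, B) ≤ Nat.card ((⟨0, 0, 0, (A : ℚ), (B : ℚ)⟩ :
      WeierstrassCurve ℚ).toAffine.Point ⧸ (nsmulAddMonoidHom 2).range) := by
  obtain ⟨C, hC⟩ := exists_class_bound
  set Y : ℝ := 1 + 48 * |(A : ℝ)| + 1728 * |(B : ℝ)|
  have ha := abs_nonneg (A : ℝ)
  have hb := abs_nonneg (B : ℝ)
  have hY : 1 ≤ Y := by simp only [Y]; linarith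
  have hfin : (classesAt A B).Finite := (hC Y hY).1.subset (by
    rintro c ⟨F, ⟨h1, h2, h3, h4⟩, rfl⟩
    refine ⟨F, ⟨h1, h2, ?_, ?_⟩, rfl⟩
    · rw [h3]; push_cast; rw [abs_mul, abs_neg, Nat.abs_ofNat]
      exact le_trans (by simp only [Y]; linarith) (le_self_pow₀ hY two_ne_zero)
    · rw [h4]; push_cast; rw [abs_mul, abs_neg, Nat.abs_ofNat]
      exact le_trans (by simp only [Y]; linarith) (le_self_pow₀ hY three_ne_zero))
  obtain ⟨hF, -⟩ := card_modTwo_le hΔ hfin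
  exact ⟨hF, two_pow_rank_le_modTwo hΔ⟩

/-- **The mean order of `E(ℚ)/2E(ℚ)` is bounded**, over all and over the minimal pairs. -/
theorem average_points_mod_two_bounded : ∃ C : ℝ, ∀ X : ℕ, 1 ≤ X →
    (minimalHeightPairs X).Nonempty ∧
    ∑ p ∈ heightPairs X, (Nat.card ((⟨0, 0, 0, (p.1 : ℚ), (p.2 : ℚ)⟩ :
        WeierstrassCurve ℚ).toAffine.Point ⧸ (nsmulAddMonoidHom 2).range) : ℝ) ≤
      C * (minimalHeightPairs X).card := by
  obtain ⟨C, -, hC⟩ := exists_modTwo_bound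
  exact ⟨C, hC⟩

/-- **Bhargava–Shankar, boundedness**: the mean of `2 ^ rank` over all pairs of height at most `X`
is bounded, and so is the mean over the minimal pairs. -/
theorem average_two_pow_rank_bounded : ∃ C : ℝ, ∀ X : ℕ, 1 ≤ X →
    (minimalHeightPairs X).Nonempty ∧
    ∑ p ∈ heightPairs X, (2 : ℝ) ^ curveRank p ≤ C * (heightPairs X).card ∧
    ∑ p ∈ minimalHeightPairs X, (2 : ℝ) ^ curveRank p ≤ C * (minimalHeightPairs X).card := by
  obtain ⟨C, hC0, hC⟩ := exists_rank_bound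
  refine ⟨C, fun X hX => ?_⟩
  obtain ⟨hne, h⟩ := hC X hX
  have h : ∑ p ∈ heightPairs X, (2 : ℝ) ^ curveRank p ≤ C * (minimalHeightPairs X).card := h
  exact ⟨hne, h.trans (mul_le_mul_of_nonneg_left
    (Nat.cast_le.mpr (Finset.card_le_card (Finset.filter_subset _ _))) hC0),
    (Finset.sum_le_sum_of_subset_of_nonneg (Finset.filter_subset _ _)
      fun _ _ _ => by positivity).trans h⟩

/-- **Every moment of the rank is bounded**; `k = 1`: the average rank is bounded. -/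
theorem average_rank_pow_bounded (k : ℕ) : ∃ C : ℝ, ∀ X : ℕ, 1 ≤ X →
    ∑ p ∈ heightPairs X, (curveRank p : ℝ) ^ k ≤ C * (heightPairs X).card ∧
    ∑ p ∈ minimalHeightPairs X, (curveRank p : ℝ) ^ k ≤ C * (minimalHeightPairs X).card := by
  obtain ⟨C, hC⟩ := average_two_pow_rank_bounded
  obtain ⟨D, hD⟩ := (tendsto_pow_const_div_const_pow_of_one_lt k
    (by norm_num : (1 : ℝ) < 2)).bddAbove_range
  refine ⟨D * C, fun X hX => ?_⟩
  have hle : ∀ r : ℕ, (r : ℝ) ^ k ≤ D * 2 ^ r := fun r => by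
    have := hD ⟨r, rfl⟩
    rwa [div_le_iff₀ (by positivity)] at this
  have hD0 : 0 ≤ D := by
    have := hle 1
    rw [Nat.cast_one, one_pow] at this
    linarith
  obtain ⟨-, h1, h2⟩ := hC X hX
  have key : ∀ (S : Finset (ℤ × ℤ)), ∑ p ∈ S, (2 : ℝ) ^ curveRank p ≤ C * S.card →
      ∑ p ∈ S, (curveRank p : ℝ) ^ k ≤ D * C * S.card := fun S h => by
    refine (Finset.sum_le_sum fun p _ => hle (curveRank p)).trans ?_
    rw [← Finset.mul_sum, mul_assoc]
    exact mul_le_mul_of_nonneg_left h hD0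
  exact ⟨key _ h1, key _ h2⟩

/-- **Large ranks are rare**: rank at least `r` in a proportion at most `C / 2 ^ r`. -/
theorem rank_tail : ∃ C : ℝ, ∀ X : ℕ, 1 ≤ X → ∀ r : ℕ,
    (((heightPairs X).filter fun p => r ≤ curveRank p).card : ℝ) ≤
      C / 2 ^ r * (heightPairs X).card ∧
    (((minimalHeightPairs X).filter fun p => r ≤ curveRank p).card : ℝ) ≤
      C / 2 ^ r * (minimalHeightPairs X).card := by
  obtain ⟨C, hC⟩ := average_two_pow_rank_bounded
  refine ⟨C, fun X hX r => ?_⟩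
  obtain ⟨-, h1, h2⟩ := hC X hX
  have key : ∀ (S : Finset (ℤ × ℤ)), ∑ p ∈ S, (2 : ℝ) ^ curveRank p ≤ C * S.card →
      ((S.filter fun p => r ≤ curveRank p).card : ℝ) ≤ C / 2 ^ r * S.card := fun S h => by
    rw [div_mul_eq_mul_div, le_div_iff₀ (by positivity), ← nsmul_eq_mul]
    refine le_trans ?_ h
    exact (Finset.card_nsmul_le_sum _ _ _ fun p hp =>
      pow_le_pow_right₀ one_le_two (Finset.mem_filter.mp hp).2).trans
      (Finset.sum_le_sum_of_subset_of_nonneg (Finset.filter_subset _ _) fun _ _ _ => by positivity)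
  exact ⟨key _ h1, key _ h2⟩

/-- **The rank is bounded outside an arbitrarily small proportion.** -/
theorem rank_bounded_almost_all {η : ℝ} (hη : 0 < η) : ∃ R : ℕ, ∀ X : ℕ, 1 ≤ X →
    (((minimalHeightPairs X).filter fun p => R ≤ curveRank p).card : ℝ) ≤
      η * (minimalHeightPairs X).card := by
  obtain ⟨C, hC⟩ := rank_tail
  obtain ⟨R, hR⟩ := pow_unbounded_of_one_lt (C / η) (by norm_num : (1 : ℝ) < 2)
  refine ⟨R, fun X hX => ((hC X hX R).2).trans (mul_le_mul_of_nonneg_right ?_ (Nat.cast_nonneg _))⟩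
  rw [div_lt_iff₀ hη] at hR
  rw [div_le_iff₀ (by positivity)]
  linarith

end FA.AverageRank.Summary
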