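import Fermat.Agent.AxFiniteFields.Ax
import Fermat.Agent.AxFiniteFields.Ostrowski

/-!
# Ax's theorem on finite fields, and the theorem of Ostrowski and Noether

* `ostrowski_noether`: an `f ∈ ℤ[x, y]` irreducible over `ℚ̄` is irreducible over `𝔽̄_p` for all
  large primes `p`;
* `points_mod_large_primes`: so it has `p + O_d (√p)` zeros modulo such `p`, with the constants of
  Weil's bound for its degree `d`;
* `padic_points_large_primes`: and a zero in `ℤ_p ^ 2` for every large `p`;
* `ax_perfect`, `ax_pseudoAlgClosed`, `ax_extensions`: Ax 1968: an ultraproduct of finite fields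
  with cardinalities tending to infinity is perfect, has a point with abscissa outside any finite
  set on every absolutely irreducible plane curve involving `y`, and has exactly one extension of
  each degree in its algebraic closure: it is pseudo-finite.

Pseudo algebraically closed is stated for plane curves; the exceptional primes are not effective.
Independent of S01.
-/

set_option autoImplicit false

noncomputable section

namespace FA.AxFiniteFields.Summary

open Fermat.Agent.AxKochen MvPolynomial

/-- **The theorem of Ostrowski and Noether.** -/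
theorem ostrowski_noether (f : MvPolynomial (Fin 2) ℤ)
    (h : Irreducible (f.map (algebraMap ℤ (AlgebraicClosure ℚ)))) :
    ∃ p₀ : ℕ, ∀ p : ℕ, ∀ [Fact p.Prime], p₀ ≤ p →
      Irreducible (f.map (Int.castRingHom (AlgebraicClosure (ZMod p)))) :=
  exists_irreducible_mod f h

/-- **The points modulo all large primes.** -/
theorem points_mod_large_primes (f : MvPolynomial (Fin 2) ℤ)
    (h : Irreducible (f.map (algebraMap ℤ (AlgebraicClosure ℚ)))) :
    ∃ p₀ : ℕ, ∀ p : ℕ, ∀ [Fact p.Prime], p₀ ≤ p →
      |(Nat.card {x : Fin 2 → ZMod p // eval x (f.map (Int.castRingHom (ZMod p))) = 0} : ℝ) - p| ≤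
        ((f.totalDegree - 1) * (f.totalDegree - 2) : ℕ) * Real.sqrt p +
          (f.totalDegree * (f.totalDegree * (2 * f.totalDegree + 1) + 1) + 1 : ℕ) := by
  obtain ⟨p₀, hp₀⟩ := exists_irreducible_mod f h
  refine ⟨p₀, fun p hp hle => ?_⟩
  have := hp
  have := CurveRH.abs_natCard_sub_le (ZMod p) (totalDegree_mod_le f p)
    (irreducible_zmod (hp₀ p hle))
  rwa [Nat.card_zmod, CurveRH.planeError] at this

/-- **Local points at all large primes.** -/
theorem padic_points_large_primes (f : MvPolynomial (Fin 2) ℤ)
    (h : Irreducible (f.map (algebraMap ℤ (AlgebraicClosure ℚ)))) :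
    ∃ p₀ : ℕ, ∀ p : ℕ, ∀ [Fact p.Prime], p₀ ≤ p → ∃ z : Fin 2 → ℤ_[p], aeval z f = 0 := by
  obtain ⟨p₀, hp₀⟩ := exists_irreducible_mod f h
  obtain ⟨q₀, hq₀⟩ := exists_nonsingular_point f.totalDegree
  refine ⟨max p₀ q₀, fun p hp hle => ?_⟩
  have := hp
  obtain ⟨x, i, hx, hi⟩ := hq₀ (ZMod p) _ (totalDegree_mod_le f p)
    (irreducible_zmod (hp₀ p (le_of_max_le_left hle)))
    (by rw [Nat.card_zmod]; exact le_of_max_le_right hle)
  exact exists_padic_point f p hx hi

variable {I : Type} {U : Ultrafilter I} {F : I → Type} [∀ i, Field (F i)] [∀ i, Finite (F i)]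

/-- **Ax**: an ultraproduct of finite fields is perfect. -/
theorem ax_perfect : PerfectField (UltraField U F) :=
  perfectField_ultra

/-- **Ax**: an ultraproduct of growing finite fields is pseudo algebraically closed. -/
theorem ax_pseudoAlgClosed (hbig : ∀ B : ℕ, ∀ᶠ i in (U : Filter I), B ≤ Nat.card (F i))
    {f : MvPolynomial (Fin 2) (UltraField U F)}
    (hirr : Irreducible (f.map (algebraMap _ (AlgebraicClosure (UltraField U F)))))
    (hy : f.degreeOf 1 ≠ 0) (S : Finset (UltraField U F)) :
    ∃ x : Fin 2 → UltraField U F, eval x f = 0 ∧ x 0 ∉ S := by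
  obtain ⟨s, hs, hc⟩ : ∃ s : Fin 2 →₀ ℕ, s 1 ≠ 0 ∧ f.coeff s ≠ 0 := by
    by_contra hno
    push Not at hno
    refine hy (Nat.le_zero.1 (degreeOf_le_iff.2 fun s hs => ?_))
    by_contra hs'
    exact mem_support_iff.1 hs (hno s (by omega))
  exact exists_point_ultra hbig hirr hs hc S

/-- **Ax**: an ultraproduct of finite fields has exactly one extension of each degree. -/
theorem ax_extensions {n : ℕ} (hn : 0 < n) :
    ∃! E : IntermediateField (UltraField U F) (AlgebraicClosure (UltraField U F)),
      Module.finrank (UltraField U F) E = n :=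
  existsUnique_intermediateField hn

end FA.AxFiniteFields.Summary

end
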