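import Fermat.Agent.DworkRationality.AxKatz
import Fermat.Agent.DworkRationality.ProjectiveCount

/-!
# The theorem of Ax and Katz, and projective zeta functions

Over a field with `q` elements let `N` be the number of common zeros in affine `n`-space of
polynomials `f j` of degrees at most `D`, of total `∑ d j`.

* `ax_katz` (Ax 1964, Katz 1971): `q ^ b` divides `N` as soon as `D b + ∑ d j < n + D`;
* `ax_katz_ceil`: so with `b = ⌈(n - ∑ d j) / D⌉`;
* `ax_single`: one equation of degree at most `D` gives `q ^ b ∣ N` for `b < n / D`;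
* `ax_katz_many_zeros`: without constant terms and with `∑ d j < n` there are at least `q ^ b`
  common zeros;
* `ax_katz_projective`: for forms, `q ^ b` divides `(q - 1) M + 1`, `M` the number of common zeros
  in projective space, so `M ≡ 1 + q + ⋯ + q ^ (b - 1)` modulo `q ^ b`;
* `dwork_rationality_projective`: the zeta series of a projective variety is rational.
-/

set_option autoImplicit false
set_option linter.unusedSectionVars false

noncomputable section

open Finset FA.DworkRationality
open scoped LinearAlgebra.Projectivization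

namespace FA.Summary

variable {F : Type*} [Field F] [Fintype F] {σ κ : Type*} [Fintype σ] [Fintype κ]

/-- **The theorem of Ax and Katz.** -/
theorem ax_katz (f : κ → MvPolynomial σ F) {D b : ℕ} (hD : 0 < D)
    (hdD : ∀ j, (f j).totalDegree ≤ D)
    (hb : D * b + ∑ j, (f j).totalDegree < Fintype.card σ + D) :
    Fintype.card F ^ b ∣ Nat.card {x : σ → F // ∀ j, MvPolynomial.eval x (f j) = 0} := by
  classical
  obtain ⟨p, hchar⟩ := CharP.exists F
  obtain ⟨⟨a, ha0⟩, hprime, hcard⟩ := FiniteField.card F p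
  simp only [PNat.mk_coe] at hcard
  have : Fact p.Prime := ⟨hprime⟩
  have ha : a ≠ 0 := by omega
  have : NeZero a := ⟨ha⟩
  have := finite_fixedField (p := p) ha
  have := Fintype.ofFinite (fixedField p a)
  let φ : F ≃+* fixedField p a := FiniteField.ringEquivOfCardEq (by
    rw [hcard, ← Nat.card_eq_fintype_card, natCard_fixedField ha])
  let g : κ → MvPolynomial σ (fixedField p a) := fun j =>
    MvPolynomial.map (φ : F →+* fixedField p a) (f j)
  have hdeg : ∀ j, (g j).totalDegree ≤ (f j).totalDegree := fun j =>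
    Finset.sup_mono (MvPolynomial.support_map_subset _ _)
  have h := AxKatz.pow_dvd_count g hD (fun j => (hdeg j).trans (hdD j)) (b := b)
    (lt_of_le_of_lt (Nat.add_le_add_left (sum_le_sum fun j _ => hdeg j) _) hb)
  rw [hcard]
  convert h using 1
  refine Nat.card_congr (Equiv.subtypeEquiv (Equiv.arrowCongr (Equiv.refl σ) φ.toEquiv)
    fun x => forall_congr' fun j => ?_)
  have h1 : MvPolynomial.eval (fun i => φ (x i)) (g j) = φ (MvPolynomial.eval x (f j)) := by
    rw [MvPolynomial.eval_map]
    exact (MvPolynomial.eval₂_comp_left (φ : F →+* fixedField p a) (RingHom.id F) x (f j)).symm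
  show _ ↔ MvPolynomial.eval (fun i => φ (x i)) (g j) = 0
  rw [h1, map_eq_zero_iff _ φ.injective]

/-- **Ax–Katz with the exponent `⌈(n - ∑ d) / D⌉`.** -/
theorem ax_katz_ceil (f : κ → MvPolynomial σ F) {D : ℕ} (hD : 0 < D)
    (hdD : ∀ j, (f j).totalDegree ≤ D) :
    Fintype.card F ^ ((Fintype.card σ - ∑ j, (f j).totalDegree + D - 1) / D) ∣
      Nat.card {x : σ → F // ∀ j, MvPolynomial.eval x (f j) = 0} := by
  rcases le_or_gt (Fintype.card σ) (∑ j, (f j).totalDegree) with h | h
  · rw [Nat.sub_eq_zero_of_le h, zero_add, Nat.div_eq_of_lt (by omega), pow_zero]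
    exact one_dvd _
  · refine ax_katz f hD hdD ?_
    have := Nat.mul_div_le (Fintype.card σ - ∑ j, (f j).totalDegree + D - 1) D
    omega

/-- **Ax's theorem** for one equation. -/
theorem ax_single (f : MvPolynomial σ F) {D b : ℕ} (hfD : f.totalDegree ≤ D) (hD : 0 < D)
    (hb : D * b < Fintype.card σ) :
    Fintype.card F ^ b ∣ Nat.card {x : σ → F // MvPolynomial.eval x f = 0} := by
  have h := ax_katz (fun _ : Unit => f) hD (fun _ => hfD) (b := b) (by
    rw [Fintype.sum_unique]; omega)
  simpa using h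

/-- **Many zeros**: Chevalley's theorem with the exponent of Ax and Katz. -/
theorem ax_katz_many_zeros (f : κ → MvPolynomial σ F) {D b : ℕ} (hD : 0 < D)
    (hdD : ∀ j, (f j).totalDegree ≤ D)
    (hb : D * b + ∑ j, (f j).totalDegree < Fintype.card σ + D)
    (h0 : ∀ j, MvPolynomial.constantCoeff (f j) = 0) :
    Fintype.card F ^ b ≤ Nat.card {x : σ → F // ∀ j, MvPolynomial.eval x (f j) = 0} := by
  classical
  have : Nonempty {x : σ → F // ∀ j, MvPolynomial.eval x (f j) = 0} :=
    ⟨⟨0, fun j => by rw [MvPolynomial.eval_zero, h0 j]⟩⟩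
  exact Nat.le_of_dvd Nat.card_pos (ax_katz f hD hdD hb)

variable {n : ℕ}

/-- **Ax–Katz in projective space.** -/
theorem ax_katz_projective (f : κ → MvPolynomial (Fin n) F) {d : κ → ℕ}
    (hf : ∀ j, (f j).IsHomogeneous (d j)) (hd : ∀ j, d j ≠ 0) {D b : ℕ} (hD : 0 < D)
    (hdD : ∀ j, d j ≤ D) (hb : D * b + ∑ j, d j < n + D) :
    Fintype.card F ^ b ∣ (Fintype.card F - 1) *
      Nat.card {P : ℙ F (Fin n → F) // ∀ j, MvPolynomial.eval P.rep (f j) = 0} + 1 := by
  classical
  have h := ax_katz f hD (fun j => (hf j).totalDegree_le.trans (hdD j)) (b := b) (by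
    rw [Fintype.card_fin]
    exact lt_of_le_of_lt (Nat.add_le_add_left (sum_le_sum fun j _ => (hf j).totalDegree_le) _) hb)
  have hzero : ∀ j, MvPolynomial.eval (0 : Fin n → F) (f j) = 0 := fun j => by
    have h1 := aeval_smul_of_isHomogeneous (hf j) (0 : F) (0 : Fin n → F)
    rw [zero_pow (hd j), zero_mul, zero_smul] at h1
    simpa [MvPolynomial.aeval_eq_eval] using h1
  have e1 : Nat.card (ProjZero f F) =
      Nat.card {P : ℙ F (Fin n → F) // ∀ j, MvPolynomial.eval P.rep (f j) = 0} :=
    Nat.card_congr (Equiv.subtypeEquivRight fun P => by simp [MvPolynomial.aeval_eq_eval])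
  have e2 : Nat.card {x : Fin n → F // ∀ j, MvPolynomial.eval x (f j) = 0} =
      Nat.card {x : Fin n → F // x ≠ 0 ∧ ∀ j, MvPolynomial.aeval x (f j) = 0} + 1 := by
    simp only [MvPolynomial.aeval_eq_eval, Nat.card_eq_fintype_card, Fintype.card_subtype]
    rw [← card_insert_of_notMem (a := (0 : Fin n → F)) (by simp)]
    congr 1
    ext x
    by_cases hx : x = 0
    · subst hx
      simpa [MvPolynomial.eval_zero] using hzero
    · simp [hx]
  rw [e2, card_cone_proj f hf, e1, Nat.card_eq_fintype_card (α := Fˣ), Fintype.card_units,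
    mul_comm] at h
  exact h

/-- **The congruence for the projective count.** -/
theorem ax_katz_projective_modEq (f : κ → MvPolynomial (Fin n) F) {d : κ → ℕ}
    (hf : ∀ j, (f j).IsHomogeneous (d j)) (hd : ∀ j, d j ≠ 0) {D b : ℕ} (hD : 0 < D)
    (hdD : ∀ j, d j ≤ D) (hb : D * b + ∑ j, d j < n + D) :
    Nat.card {P : ℙ F (Fin n → F) // ∀ j, MvPolynomial.eval P.rep (f j) = 0} ≡
      ∑ i ∈ range b, Fintype.card F ^ i [MOD Fintype.card F ^ b] := by
  have h := ax_katz_projective f hf hd hD hdD hb
  set M := Nat.card {P : ℙ F (Fin n → F) // ∀ j, MvPolynomial.eval P.rep (f j) = 0}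
  set q := Fintype.card F
  have hq : 1 < q := Fintype.one_lt_card
  rw [← ZMod.natCast_eq_natCast_iff]
  have h1 := (ZMod.natCast_eq_zero_iff _ _).2 h
  have h2 : ((q : ℕ) : ZMod (q ^ b)) ^ b = 0 := by
    rw [← Nat.cast_pow, ZMod.natCast_self]
  rw [Nat.cast_add, Nat.cast_mul, Nat.cast_sub hq.le, Nat.cast_one] at h1
  push_cast
  have h3 := geom_sum_mul (q : ZMod (q ^ b)) b
  rw [h2] at h3
  set S := ∑ i ∈ range b, (q : ZMod (q ^ b)) ^ i
  linear_combination (-S) * h1 + (M : ZMod (q ^ b)) * h3

omit [Fintype κ] in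
/-- **The zeta series of a projective variety is rational.** -/
theorem dwork_rationality_projective [Finite κ] (p : ℕ) [Fact p.Prime] [CharP F p]
    (f : κ → MvPolynomial (Fin n) F) {d : κ → ℕ} (hf : ∀ j, (f j).IsHomogeneous (d j)) :
    ∃ P Q : Polynomial ℤ, P.coeff 0 = 1 ∧ Q.coeff 0 = 1 ∧
      (PowerSeries.exp ℚ).subst (PowerSeries.mk fun s => match s with
          | 0 => 0
          | m + 1 => (Nat.card {P : ℙ (FiniteField.Extension F p (m + 1))
              (Fin n → FiniteField.Extension F p (m + 1)) //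
              ∀ j, MvPolynomial.aeval P.rep (f j) = 0} : ℚ) / (m + 1)) *
        ((Q.map (Int.castRingHom ℚ) : Polynomial ℚ) : PowerSeries ℚ) =
          ((P.map (Int.castRingHom ℚ) : Polynomial ℚ) : PowerSeries ℚ) := by
  have := Fintype.ofFinite κ
  obtain ⟨P, Q, hP, hQ, h⟩ := exists_rational_zetaSeries_sum (univ : Finset (Fin n))
    (N := fun i s => (extensionCount p (Sum.elim f (chartEquations i)) s : ℚ))
    fun i _ => exists_rational_extension (p := p) F _
  refine ⟨P, Q, hP, hQ, ?_⟩
  rw [← h, zetaSeries, FA.Mazur.expSeries]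
  congr 3
  funext s
  rcases s with _ | m
  · simp [extensionCount]
  · have := card_projZero_eq f (L := FiniteField.Extension F p (m + 1)) hf
    simp only [ProjZero] at this
    simp [extensionCount, this]

end FA.Summary

end
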