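import Fermat.Agent.AxKochen.Main

/-!
# The theorem of Ax and Kochen
-/

set_option autoImplicit false

namespace FA.AxKochen.Summary

open MvPolynomial FirstOrder FirstOrder.Language FirstOrder.Ring Fermat.Agent.AxKochen

/-- **Ax–Kochen 1965**: for given degrees, once `p` is large, forms over `ℚ_[p]` in more than
`∑ dᵢ²` variables have a nontrivial common zero; `p₀` depends on the degrees only. -/
theorem ax_kochen {r : ℕ} (d : Fin r → ℕ) (hd : ∀ l, 0 < d l) :
    ∃ p₀, ∀ (p : ℕ) [Fact p.Prime], p₀ < p → ∀ n, ∑ l, d l ^ 2 < n →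
      ∀ f : Fin r → MvPolynomial (Fin n) ℚ_[p], (∀ l, (f l).IsHomogeneous (d l)) →
        ∃ x : Fin n → ℚ_[p], x ≠ 0 ∧ ∀ l, eval x (f l) = 0 := by
  classical
  set N := ∑ l, d l ^ 2 + 1 with hN
  have hfin := finite_bad_primes (σ := Fin N) d hd
    (by rw [Fintype.card_fin]; exact Nat.lt_succ_self _)
  obtain ⟨p₀, hp₀⟩ := (hfin.image Subtype.val).bddAbove
  refine ⟨p₀, fun p hp hlt n hn f hf => ?_⟩
  let w : Fin n → MvPolynomial (Fin N) ℚ_[p] := fun j => if h : (j : ℕ) < N then X ⟨j, h⟩ else 0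
  have hw : ∀ j, (w j).IsHomogeneous 1 := fun j => by
    simp only [w]
    split_ifs
    · exact isHomogeneous_X _ _
    · exact isHomogeneous_zero _ _ _
  by_contra hcon
  refine (hp₀ ⟨⟨p, hp.out⟩, ⟨fun l => aeval w (f l),
    fun l => one_mul (d l) ▸ (hf l).aeval w hw, fun x hx => ?_⟩, rfl⟩).not_gt hlt
  by_contra hx0
  obtain ⟨j, hj⟩ := Function.ne_iff.1 hx0
  let y : Fin n → ℚ_[p] := fun i => if h : (i : ℕ) < N then x ⟨i, h⟩ else 0
  refine hcon ⟨y, fun h => hj ?_, fun l => ?_⟩
  · have := congrFun h ⟨j, lt_of_lt_of_le j.2 hn⟩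
    simpa [y] using this
  · have e : (eval x).comp (aeval w).toRingHom = eval y :=
      ringHom_ext (fun a => by simp) fun i => by
        simp only [w, y, RingHom.comp_apply, AlgHom.toRingHom_eq_coe, RingHom.coe_coe, aeval_X,
          eval_X]
        split_ifs <;> simp
    rw [← e]
    exact hx l

/-- A single form of degree `d` in more than `d²` variables. -/
theorem ax_kochen_form {d : ℕ} (hd : 0 < d) :
    ∃ p₀, ∀ (p : ℕ) [Fact p.Prime], p₀ < p → ∀ n, d ^ 2 < n →
      ∀ f : MvPolynomial (Fin n) ℚ_[p], f.IsHomogeneous d →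
        ∃ x : Fin n → ℚ_[p], x ≠ 0 ∧ eval x f = 0 := by
  obtain ⟨p₀, h⟩ := ax_kochen (fun _ : Fin 1 => d) fun _ => hd
  refine ⟨p₀, fun p _ hp n hn f hf => ?_⟩
  obtain ⟨x, hx, hx0⟩ := h p hp n (by simpa using hn) (fun _ => f) fun _ => hf
  exact ⟨x, hx, hx0 0⟩

attribute [local instance] compatibleRingOfRing in
/-- **The transfer principle**: a sentence in the language of rings holds in `ℚ_[p]` iff it holds
in `𝔽_p((t))`, for all large `p`. -/
theorem ax_kochen_transfer (φ : Language.ring.Sentence) :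
    ∃ p₀, ∀ (p : ℕ) [Fact p.Prime], p₀ < p →
      (ℚ_[p] ⊨ φ ↔ LaurentSeries (ZMod p) ⊨ φ) := by
  obtain ⟨p₀, hp₀⟩ := ((finite_transfer_exceptions φ).image Subtype.val).bddAbove
  refine ⟨p₀, fun p hp hlt => ?_⟩
  by_contra h
  exact (hp₀ ⟨⟨p, hp.out⟩, h, rfl⟩).not_gt hlt

universe u v w

/-- **The embedding lemma**: countable partial isomorphisms of henselian valued fields of residue
characteristic zero, with common residue field and value group, extend. -/
theorem ake_embedding {K L : Type u} {k : Type v} {Γ : Type w} [Field K] [Field L] [Field k]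
    [CharZero k] [AddCommGroup Γ] [LinearOrder Γ] [IsOrderedAddMonoid Γ] {D : HenselData K k Γ}
    {E : HenselData L k Γ} (hw : HasPseudoLimits E.v) {P : Subring (K × L)}
    (hP : IsCountablePartial D E P) (x : K) :
    ∃ P', IsCountablePartial D E P' ∧ P ≤ P' ∧ ∃ y, (x, y) ∈ P' :=
  hP.forth hw x

/-- **Ax–Kochen–Ershov**: such fields, saturated for pseudo-limits, satisfy the same sentences. -/
theorem ake_elementary_equivalence {K L : Type u} {k : Type v} {Γ : Type w} [Field K] [Field L]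
    [Field k] [CharZero k] [AddCommGroup Γ] [LinearOrder Γ] [IsOrderedAddMonoid Γ]
    [CompatibleRing K] [CompatibleRing L] {D : HenselData K k Γ} {E : HenselData L k Γ}
    (hv : HasPseudoLimits D.v) (hw : HasPseudoLimits E.v) (φ : Language.ring.Sentence) :
    K ⊨ φ ↔ L ⊨ φ := by
  obtain ⟨P, hP⟩ := exists_isCountablePartial D E
  exact (sentence_realize_iff φ _ _).trans
    ((realize_iff_of_partial hv hw φ hP default default fun i => i.elim0).trans
      (sentence_realize_iff φ _ _).symm)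

end FA.AxKochen.Summary
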