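import Fermat.Agent.AxSchanuel.Series

/-!
# Ax's theorem: Schanuel's conjecture for functions
-/

set_option autoImplicit false

namespace FA.AxSchanuel.Summary

open Fermat.Agent.AxSchanuel

/-- **Ax 1971**: in a differential field with constants `C`, if `zᵢ' = zᵢ yᵢ'` and no nontrivial
integral combination of the `yᵢ` is constant, then `trdeg_C C(y, z) ≥ n + 1`. -/
theorem ax_differential {C F : Type*} [Field C] [CharZero C] [Field F] [Algebra C F]
    (D : Derivation C F F) (hC : ∀ a, D a = 0 → a ∈ Set.range (algebraMap C F)) {n : ℕ}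
    (hn : 0 < n) (y z : Fin n → F) (hz : ∀ i, z i ≠ 0) (hD : ∀ i, D (z i) = z i * D (y i))
    (hy : ∀ m : Fin n → ℤ, D (∑ i, m i • y i) = 0 → m = 0) :
    (n : Cardinal) + 1 ≤
      Algebra.trdeg C (IntermediateField.adjoin C (Set.range y ∪ Set.range z)) :=
  ax_trdeg D hz hD hn hC hy

/-- **Ax for power series**: `trdeg_K K(yᵢ, exp yᵢ) ≥ n + 1` for `yᵢ ∈ t K⟦t⟧` linearly
independent over `ℤ`. -/
theorem ax_power_series {K : Type*} [Field K] [CharZero K] {n : ℕ} (hn : 0 < n)
    (y : Fin n → PowerSeries K) (hy0 : ∀ i, PowerSeries.constantCoeff (y i) = 0)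
    (hy : LinearIndependent ℤ y) :
    (n : Cardinal) + 1 ≤ Algebra.trdeg K (IntermediateField.adjoin K
      (Set.range (fun i => ((y i : PowerSeries K) : LaurentSeries K)) ∪
        Set.range fun i => ((PowerSeries.subst (y i) (PowerSeries.exp K) : PowerSeries K) :
          LaurentSeries K))) :=
  ax_series hn hy0 hy

/-- **Lindemann–Weierstrass for functions**: `t` and the exponentials of algebraic functions are
algebraically independent. -/
theorem functional_lindemann_weierstrass {K : Type*} [Field K] [CharZero K] {n : ℕ}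
    (y : Fin n → PowerSeries K) (hy0 : ∀ i, PowerSeries.constantCoeff (y i) = 0)
    (hy : LinearIndependent ℤ y)
    (halg : ∀ i, IsAlgebraic (IntermediateField.adjoin K {(HahnSeries.single (1 : ℤ) (1 : K))})
      ((y i : PowerSeries K) : LaurentSeries K)) :
    AlgebraicIndependent K (Fin.cons (HahnSeries.single (1 : ℤ) (1 : K))
      (fun i => ((PowerSeries.subst (y i) (PowerSeries.exp K) : PowerSeries K) :
        LaurentSeries K)) : Fin (n + 1) → LaurentSeries K) :=
  ax_independent hy0 hy halg

/-- **Rosenlicht**: logarithmic differentials with `ℚ`-independent constant coefficients are not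
exact, unless they vanish. -/
theorem log_derivatives_not_exact {C F : Type*} [Field C] [CharZero C] [Field F] [Algebra C F]
    {m : ℕ} (c : Fin m → C) (hc : LinearIndependent ℚ c) (z : Fin m → F) (hz : ∀ k, z k ≠ 0)
    (u : F) (h : ∀ δ : Derivation C F F, ∑ k, c k • (δ (z k) / z k) = δ u) (k : Fin m) :
    IsAlgebraic C (z k) :=
  rosenlicht c hc z hz u h k

end FA.AxSchanuel.Summary
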