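import Fermat.Agent.AxSenTate.Complete

/-!
# The theorem of Ax, Sen and Tate

`L` is an algebraically closed nonarchimedean normed field of characteristic zero and `Completion L`
its completion, for instance `PadicAlgCl p` and `ℂ_[p]`. An automorphism `σ` acts on the completion
by `Completion.map σ`.
-/

set_option autoImplicit false

open UniformSpace

namespace FA.AxSenTate.Summary

variable {L : Type*} [NormedField L] [IsUltrametricDist L] [IsAlgClosed L] [CharZero L]

/-- **Ax's lemma** in residue characteristic `p`: an element moved by at most `r` by a group of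
isometries is within `|p| ^ (-p / (p - 1) ^ 2) * r` of a fixed element. -/
theorem ax_approximation {G : Type*} [Group G] [MulSemiringAction G L]
    (hiso : ∀ (g : G) (x : L), ‖g • x‖ = ‖x‖) {p : ℕ} (hp : p.Prime) (hpL : ‖(p : L)‖ < 1) {α : L}
    (hfin : (MulAction.orbit G α).Finite) {r : ℝ} (hα : ∀ g : G, ‖g • α - α‖ ≤ r) :
    ∃ a : L, (∀ g : G, g • a = a) ∧
      ‖α - a‖ ≤ ‖(p : L)‖⁻¹ ^ ((p : ℝ) / ((p : ℝ) - 1) ^ 2) * r := by
  obtain ⟨a, ha, hle⟩ := Fermat.Agent.AxSenTate.ax_lemma hiso hp hpL hfin hα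
  refine ⟨a, ha, hle.trans (mul_le_mul_of_nonneg_right ?_ (by simpa using hα 1))⟩
  exact Real.rpow_le_rpow_of_exponent_le
    (one_le_inv_iff₀.2 ⟨norm_pos_iff.2 (by exact_mod_cast hp.ne_zero), hpL.le⟩)
    (Fermat.Agent.AxSenTate.axExponent_le hp _)

/-- **Ax–Sen–Tate**, for any base field with isometric automorphisms and any subgroup: the fixed
elements of the completion are the closure of the fixed field. -/
theorem ax_sen_tate {K : Type*} [Field K] [Algebra K L] [Algebra.IsAlgebraic K L]
    (hiso : ∀ (σ : L ≃ₐ[K] L) (x : L), ‖σ x‖ = ‖x‖) (H : Subgroup (L ≃ₐ[K] L))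
    (x : Completion L) :
    (∀ σ ∈ H, Completion.map σ x = x) ↔
      x ∈ closure ((↑) '' (IntermediateField.fixedField H : Set L)) :=
  Fermat.Agent.AxSenTate.fixed_completion_subgroup_iff hiso H x

/-- **Ax–Sen–Tate** over a complete field: `Ĉ ^ Gal(K̄/K) = K`. -/
theorem ax_sen_tate_complete {K : Type*} [NontriviallyNormedField K] [IsUltrametricDist K]
    [CompleteSpace K] [NormedAlgebra K L] [Algebra.IsAlgebraic K L] (x : Completion L) :
    (∀ σ : L ≃ₐ[K] L, Completion.map σ x = x) ↔
      x ∈ Set.range fun a : K => (algebraMap K L a : Completion L) :=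
  Fermat.Agent.AxSenTate.fixed_completion_top_iff x

/-- **Tate**: the elements of `ℂ_[p]` fixed by the Galois group of `ℚ_[p]` are `ℚ_[p]`. -/
theorem ax_sen_tate_padic (p : ℕ) [Fact p.Prime] (x : ℂ_[p]) :
    (∀ σ : PadicAlgCl p ≃ₐ[ℚ_[p]] PadicAlgCl p, Completion.map σ x = x) ↔
      x ∈ Set.range (algebraMap ℚ_[p] ℂ_[p]) :=
  Fermat.Agent.AxSenTate.fixed_padicComplex_iff p x

end FA.AxSenTate.Summary
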