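import Fermat.Agent.BCH.Main

/-!
# The Baker–Campbell–Hausdorff theorem and Friedrichs' criterion

* `primitive_iff_mem_lie`: in characteristic zero the primitive elements of an enveloping algebra
  are the elements of the Lie algebra;
* `friedrichs_criterion`: those of a free algebra are the Lie polynomials;
* `baker_campbell_hausdorff`: the homogeneous parts of `log (exp x * exp y)` are Lie polynomials in
  `x` and `y`;
* `bch_exp_log`, `bch_low_terms`: that series exponentiates back to the product and begins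
  `x + y + [x, y] / 2`.
-/

set_option autoImplicit false

noncomputable section

namespace FA.BCH.Summary

open PowerSeries TensorProduct Finset

attribute [local instance 100] LieRing.ofAssociativeRing

variable (K : Type*) [Field K] [CharZero K]

/-- The primitive elements of an enveloping algebra form the Lie algebra. -/
theorem primitive_iff_mem_lie {L : Type*} [LieRing L] [LieAlgebra K L]
    (Δ : UniversalEnvelopingAlgebra K L →ₐ[K]
      UniversalEnvelopingAlgebra K L ⊗[K] UniversalEnvelopingAlgebra K L)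
    (hΔ : ∀ x : L, Δ (UniversalEnvelopingAlgebra.ι K x) =
      UniversalEnvelopingAlgebra.ι K x ⊗ₜ[K] 1 + 1 ⊗ₜ[K] UniversalEnvelopingAlgebra.ι K x)
    (u : UniversalEnvelopingAlgebra K L) :
    Δ u = u ⊗ₜ[K] 1 + 1 ⊗ₜ[K] u ↔ ∃ x : L, UniversalEnvelopingAlgebra.ι K x = u := by
  have h : Δ = comul K L := UniversalEnvelopingAlgebra.hom_ext K (LieHom.ext fun x =>
    (hΔ x).trans (comul_ι x).symm)
  rw [h]
  exact primitive_iff u

/-- Friedrichs' criterion for Lie polynomials. -/
theorem friedrichs_criterion {X : Type*}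
    (Δ : FreeAlgebra K X →ₐ[K] FreeAlgebra K X ⊗[K] FreeAlgebra K X)
    (hΔ : ∀ x, Δ (FreeAlgebra.ι K x) = FreeAlgebra.ι K x ⊗ₜ[K] 1 + 1 ⊗ₜ[K] FreeAlgebra.ι K x)
    (u : FreeAlgebra K X) :
    Δ u = u ⊗ₜ[K] 1 + 1 ⊗ₜ[K] u ↔
      u ∈ LieSubalgebra.lieSpan K (FreeAlgebra K X) (Set.range (FreeAlgebra.ι K)) := by
  have h : Δ = freeComul K X := FreeAlgebra.hom_ext (funext fun x => by simp [freeComul, hΔ])
  rw [h]
  exact freeComul_eq_iff u

/-- `exp (t x) * exp (t y)` as a power series over the free algebra. -/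
def expProduct : PowerSeries (FreeAlgebra K (Fin 2)) :=
  PowerSeries.mk fun n => ∑ x ∈ antidiagonal n, ((x.1.factorial : K)⁻¹ * (x.2.factorial : K)⁻¹) •
    (FreeAlgebra.ι K (0 : Fin 2) ^ x.1 * FreeAlgebra.ι K (1 : Fin 2) ^ x.2)

/-- The degree `n` part of `log (exp x * exp y)`. -/
def bchTerm (n : ℕ) : FreeAlgebra K (Fin 2) :=
  ∑ k ∈ Icc 1 n, ((-1 : K) ^ (k - 1) / k) • coeff n ((expProduct K - 1) ^ k)

lemma expProduct_eq : expProduct K = product K := by
  ext n
  rw [expProduct, coeff_mk, coeff_product]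

lemma bchTerm_eq (n : ℕ) : bchTerm K n = coeff n (logS (K := K) (product K)) := by
  rw [bchTerm, expProduct_eq, coeff_logS_eq K (coeff_zero_product K)]

/-- The Baker–Campbell–Hausdorff theorem. -/
theorem baker_campbell_hausdorff (n : ℕ) :
    bchTerm K n ∈ LieSubalgebra.lieSpan K (FreeAlgebra K (Fin 2))
      ({FreeAlgebra.ι K 0, FreeAlgebra.ι K 1} : Set (FreeAlgebra K (Fin 2))) := by
  have h : ({FreeAlgebra.ι K 0, FreeAlgebra.ι K 1} : Set (FreeAlgebra K (Fin 2))) =
      Set.range (FreeAlgebra.ι K (X := Fin 2)) := by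
    ext u
    simp [Fin.exists_fin_two, eq_comm]
  rw [h, bchTerm_eq]
  exact coeff_logS_mem K n

/-- The series exponentiates to the product of the exponentials. -/
theorem bch_exp_log (n : ℕ) :
    ∑ k ∈ range (n + 1), (k.factorial : K)⁻¹ • coeff n ((PowerSeries.mk (bchTerm K)) ^ k) =
      coeff n (expProduct K) := by
  have h : PowerSeries.mk (bchTerm K) = logS (K := K) (product K) := by
    ext m
    rw [coeff_mk, bchTerm_eq]
  rw [h, expProduct_eq]
  conv_rhs => rw [← expS_logS (K := K) (coeff_zero_product K)]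
  rw [expS, coeff_sub_eq (coeff_zero_logS (K := K) _) n.lt_succ_self]
  simp only [coeff_exp']

/-- The first two terms. -/
theorem bch_low_terms :
    bchTerm K 1 = FreeAlgebra.ι K 0 + FreeAlgebra.ι K 1 ∧
      bchTerm K 2 = (2 : K)⁻¹ •
        ⁅FreeAlgebra.ι K (0 : Fin 2), FreeAlgebra.ι K (1 : Fin 2)⁆ := by
  have a1 : antidiagonal 1 = ({(0, 1), (1, 0)} : Finset (ℕ × ℕ)) := rfl
  have a2 : antidiagonal 2 = ({(0, 2), (1, 1), (2, 0)} : Finset (ℕ × ℕ)) := rfl
  constructor
  · simp [bchTerm, expProduct, a1, coeff_one, add_comm]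
  · rw [bchTerm, show Icc 1 2 = ({1, 2} : Finset ℕ) from rfl, sum_pair (by norm_num), pow_one,
      pow_two (expProduct K - 1), coeff_mul, a2]
    simp [expProduct, a1, a2, coeff_one, LieRing.of_associative_ring_bracket, mul_add,
      ← pow_two, smul_sub]
    rw [pow_two (FreeAlgebra.ι K (1 : Fin 2) + FreeAlgebra.ι K (0 : Fin 2))]
    simp only [add_mul, mul_add]
    simp only [← pow_two]
    module

end FA.BCH.Summary
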