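import Fermat.Agent.BDRCohomology.Extension

/-!
# Galois cohomology of `B_dR⁺` and extensions of de Rham representations

An element of `B_dR⁺` modulo `([ε] - 1) ^ n` is `N`-small when it is `p ^ N` times an element of
the image of `A_inf`; `t` is Fontaine's period. The weights of a Hodge–Tate representation are the
`j i` of a basis in which `σ` acts on the `i`-th vector by `χ(σ) ^ j i`.
-/

set_option autoImplicit false
set_option linter.unusedSectionVars false

noncomputable section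

open Filter FA.TateSen FA.BDR FA.Sen FA.PadicHodge FA.PadicDescent FA.BDRCoh
open scoped Topology Matrix

namespace FA.Summary

variable (p : ℕ) [hp : Fact p.Prime] (d e : Type) [Fintype d] [DecidableEq d] [Fintype e]
  [DecidableEq e]

local notation "Cp" => ℂ_[p]
local notation "G" => PadicAlgCl p ≃ₐ[ℚ_[p]] PadicAlgCl p
local notation "ι" => algebraMap (BPlus p) (BField p)

/-- The definitions used below. -/
theorem bdr_cohomology_defs :
    (∀ (n N : ℕ) (x : BQuot p n),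
      Small p n N x ↔ ∃ a : AInf p, x = (p : BQuot p n) ^ N * imgA p n a) ∧
    (∀ f : G → BPlus p, ContBPlus p f ↔
      ∀ (n : ℕ) (σ₀ : G) (N : ℕ),
        ∀ᶠ σ in 𝓝 σ₀, Small p n N (mkQ p n (f σ) - mkQ p n (f σ₀))) ∧
    (∀ f : G → BPlus p, IsBCocycle p f ↔
      ContBPlus p f ∧ ∀ σ τ : G, f (σ * τ) = f σ + σ • f τ) ∧
    (∀ (m : ℤ) (x : BField p), InFilB p m x ↔ ∃ b : BPlus p, x = ι b * ι (tPeriod p) ^ m) :=
  ⟨fun _ _ _ => Iff.rfl, fun _ => Iff.rfl, fun _ => ⟨fun h => ⟨h.cont, h.cocycle⟩,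
    fun h => ⟨h.1, h.2⟩⟩, fun _ _ => Iff.rfl⟩

/-- **The topology of `B_dR⁺`**: the Galois action is continuous, the topology is separated,
multiplication is continuous, division by `t` is continuous and `θ` is continuous. -/
theorem bdr_topology :
    (∀ b : BPlus p, ContBPlus p fun σ : G => σ • b) ∧
    (∀ (n : ℕ) (x : BQuot p n), (∀ N, Small p n N x) → x = 0) ∧
    (∀ f g : G → BPlus p, ContBPlus p f → ContBPlus p g → ContBPlus p fun σ => f σ * g σ) ∧
    (∀ (m : ℕ) (f : G → BPlus p), (ContBPlus p fun σ => tPeriod p ^ m * f σ) → ContBPlus p f) ∧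
    ∀ f : G → BPlus p, ContBPlus p f → Continuous fun σ => thetaPlus p (f σ) :=
  ⟨contBPlus_smul, fun _ _ h => eq_zero_of_bdd (c := 0) fun N => by
      obtain ⟨a, ha⟩ := h N
      exact ⟨a, by rw [pow_zero, one_mul, ha]⟩,
    fun _ _ hf hg => hf.mul hg, fun m _ hf => hf.of_tPeriod_pow_mul m,
    fun _ hf => hf.continuous_thetaPlus⟩

/-- **`H¹ (t ^ k B_dR⁺) = 0` for `1 ≤ k`.** -/
theorem bdr_plus_h1_twisted (k : ℕ) (hk : 1 ≤ k) (f : G → BPlus p) (hf : IsBCocycle p f)
    (hd : ∀ σ, tPeriod p ^ k ∣ f σ) :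
    ∃ y : BPlus p, tPeriod p ^ k ∣ y ∧ ∀ σ, f σ = σ • y - y :=
  exists_coboundary_twisted hk hf hd

/-- **`H¹ (B_dR⁺)` is the line of `log χ`.** -/
theorem bdr_plus_h1 :
    (∀ f : G → BPlus p, IsBCocycle p f →
      ∃! c : ℚ_[p], ∃ y : BPlus p, ∀ σ, f σ = qpHom p (c * logChi p σ) + (σ • y - y)) ∧
    ∀ (c : ℚ_[p]) (y : BPlus p),
      IsBCocycle p fun σ : G => qpHom p (c * logChi p σ) + (σ • y - y) := by
  refine ⟨fun f hf => ?_, fun c y => ⟨(isBCocycle_logChi c).cont.add (isBCocycle_coboundary y).cont,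
    fun σ τ => by
      rw [(isBCocycle_logChi c).cocycle, (isBCocycle_coboundary y).cocycle, smul_add]
      ring⟩⟩
  obtain ⟨c, y, hy⟩ := exists_logChi_add hf
  exact ⟨c, ⟨y, hy⟩, fun c' ⟨y', hy'⟩ =>
    logChi_coeff_unique_bPlus fun σ => (hy' σ).symm.trans (hy σ)⟩

/-- **The filtration on the periods**: with all weights at most `m` the invariants lie in
`t ^ (-m) B_dR⁺`, and a de Rham basis and its inverse are bounded by the extreme weights. -/
theorem de_rham_filtration (ρ : G → Matrix d d ℚ_[p]) (hρ : IsQpRep p d ρ)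
    (P : (Matrix d d Cp)ˣ) (j : d → ℤ)
    (hP : ∀ σ, FA.Sen.conj (cpRep ρ) P σ = Matrix.diagonal fun i => twist p (j i) σ) :
    (∀ (m : ℤ), (∀ i, j i ≤ m) → ∀ x ∈ dR ρ, ∀ i, InFilB p (-m) (x i)) ∧
    ∀ X : (Matrix d d (BField p))ˣ,
      (∀ σ : G, (ρ σ).map (qpB p) * (X : Matrix d d (BField p)).map (σ • ·) = X) →
        ∀ lo hi : ℤ, (∀ i, lo ≤ j i ∧ j i ≤ hi) → ∀ i k,
          InFilB p (-hi) ((X : Matrix d d (BField p)) i k) ∧
            InFilB p lo ((↑X⁻¹ : Matrix d d (BField p)) i k) :=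
  ⟨fun _ hm _ hx i => inFilB_of_mem_dR hP hm hx i, fun _ hX lo hi h i k =>
    ⟨(inFilB_basis hρ hX hP).1 hi (fun a => (h a).2) i k,
      (inFilB_basis hρ hX hP).2 lo (fun a => (h a).1) i k⟩⟩

/-- **Extensions**: if every weight of the subrepresentation `A` is larger than every weight of
the quotient `D` and both are de Rham, then so is the extension, with the weights of both. -/
theorem de_rham_extension (A : G → Matrix d d ℚ_[p]) (D : G → Matrix e e ℚ_[p])
    (c : G → Matrix d e ℚ_[p])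
    (hU : IsQpRep p (d ⊕ e) fun σ => Matrix.fromBlocks (A σ) (c σ) 0 (D σ))
    (hA : IsDeRham A) (hD : IsDeRham D)
    (P : (Matrix d d Cp)ˣ) (Q : (Matrix e e Cp)ˣ) (j : d → ℤ) (k : e → ℤ)
    (hP : ∀ σ, FA.Sen.conj (cpRep A) P σ = Matrix.diagonal fun i => twist p (j i) σ)
    (hQ : ∀ σ, FA.Sen.conj (cpRep D) Q σ = Matrix.diagonal fun i => twist p (k i) σ)
    (hlt : ∀ i l, k l < j i) :
    IsDeRham (fun σ => Matrix.fromBlocks (A σ) (c σ) 0 (D σ)) ∧
      ∃ R : (Matrix (d ⊕ e) (d ⊕ e) Cp)ˣ, ∀ σ,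
        FA.Sen.conj (cpRep fun σ => Matrix.fromBlocks (A σ) (c σ) 0 (D σ)) R σ =
          Matrix.diagonal fun a => twist p (Sum.elim j k a) σ :=
  isDeRham_fromBlocks hU hA hD hP hQ hlt

/-- **Every extension of `ℚ_p (k)` by `ℚ_p (j)` with `k < j` is de Rham**, for example every
extension of `ℚ_p` by `ℚ_p (1)`. -/
theorem tate_twist_extension_de_rham (j k : ℤ) (hjk : k < j) (c : G → Matrix Unit Unit ℚ_[p])
    (hU : IsQpRep p (Unit ⊕ Unit) fun σ =>
      Matrix.fromBlocks (tateRep (fun _ : Unit => j) σ) (c σ) 0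
        (tateRep (fun _ : Unit => k) σ)) :
    IsDeRham (fun σ => Matrix.fromBlocks (tateRep (fun _ : Unit => j) σ) (c σ) 0
      (tateRep (fun _ : Unit => k) σ)) :=
  isDeRham_tate_extension hjk hU

end FA.Summary
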