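import Fermat.Agent.BEST.Main

/-!
# The BEST theorem (de Bruijn, van Aardenne-Ehrenfest, Smith, Tutte)

For a finite directed multigraph in which every point has as many edges in as out, and at least
one:

* `best_theorem`: the Eulerian circuits number the arborescences towards any point times
  `∏ (d v - 1)!`.
* `best_theorem_det`: the same with the minor of the Laplacian.
* `best_theorem_tours`: the same for tours through all edges that start with a given edge.
* `directed_matrix_tree`: Tutte's theorem, for any multigraph.
* `arborescences_root_independent`: the number of arborescences does not depend on the root.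
* `exists_eulerian_circuit_iff`: a circuit exists iff an arborescence does.
-/

set_option autoImplicit false

noncomputable section

namespace FA.BEST.Summary

open Finset
open FA.MatrixTree (Rest)

variable {V E : Type*} [Fintype V] [Fintype E] [DecidableEq V] [DecidableEq E]
variable {src tgt : E → V}

theorem best_theorem (hbal : Balanced src tgt) (hd : ∀ v, 0 < outDeg src v) (r : V) :
    Nat.card {σ : Equiv.Perm E // (∀ e, src (σ e) = tgt e) ∧ ∀ a b, σ.SameCycle a b} =
      Nat.card (Arborescence src tgt r) * ∏ v, (outDeg src v - 1).factorial :=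
  card_circuit hbal hd r

theorem best_theorem_det (hbal : Balanced src tgt) (hd : ∀ v, 0 < outDeg src v) (r : V) :
    (Nat.card {σ : Equiv.Perm E // (∀ e, src (σ e) = tgt e) ∧ ∀ a b, σ.SameCycle a b} : ℤ) =
      ((laplacian src tgt).submatrix (Subtype.val : Rest r → V) Subtype.val).det *
        ∏ v, ((outDeg src v - 1).factorial : ℤ) := by
  rw [best_theorem hbal hd r, det_laplacian_minor, Nat.cast_mul, Nat.cast_prod]

theorem best_theorem_tours (hbal : Balanced src tgt) (hd : ∀ v, 0 < outDeg src v) {n : ℕ}
    (hn : Fintype.card E = n + 1) (e₀ : E) :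
    Nat.card {f : Fin (n + 1) ≃ E // f 0 = e₀ ∧ ∀ i, src (f (i + 1)) = tgt (f i)} =
      Nat.card (Arborescence src tgt (src e₀)) * ∏ v, (outDeg src v - 1).factorial :=
  card_tour hbal hd hn

omit [DecidableEq E] in
theorem directed_matrix_tree (src tgt : E → V) (r : V) :
    ((laplacian src tgt).submatrix (Subtype.val : Rest r → V) Subtype.val).det =
      Nat.card (Arborescence src tgt r) :=
  det_laplacian_minor src tgt r

theorem arborescences_root_independent (hbal : Balanced src tgt) (hd : ∀ v, 0 < outDeg src v)
    (r s : V) : Nat.card (Arborescence src tgt r) = Nat.card (Arborescence src tgt s) :=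
  Nat.eq_of_mul_eq_mul_right (prod_pos fun _ _ => Nat.factorial_pos _)
    ((card_circuit hbal hd r).symm.trans (card_circuit hbal hd s))

theorem exists_eulerian_circuit_iff (hbal : Balanced src tgt) (hd : ∀ v, 0 < outDeg src v)
    (r : V) : (∃ σ : Equiv.Perm E, (∀ e, src (σ e) = tgt e) ∧ ∀ a b, σ.SameCycle a b) ↔
      Nonempty (Arborescence src tgt r) := by
  have h := best_theorem hbal hd r
  constructor
  · rintro ⟨σ, hσ⟩
    have : Nonempty {σ : Equiv.Perm E // (∀ e, src (σ e) = tgt e) ∧ ∀ a b, σ.SameCycle a b} :=
      ⟨⟨σ, hσ⟩⟩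
    have hp := Nat.card_pos (α := {σ : Equiv.Perm E //
      (∀ e, src (σ e) = tgt e) ∧ ∀ a b, σ.SameCycle a b})
    rw [h] at hp
    exact (Nat.card_pos_iff.1 (pos_of_mul_pos_left hp (Nat.zero_le _))).1
  · rintro hA
    have hp : 0 < Nat.card {σ : Equiv.Perm E //
        (∀ e, src (σ e) = tgt e) ∧ ∀ a b, σ.SameCycle a b} := by
      rw [h]
      exact Nat.mul_pos Nat.card_pos (prod_pos fun _ _ => Nat.factorial_pos _)
    obtain ⟨⟨σ, hσ⟩⟩ := (Nat.card_pos_iff.1 hp).1
    exact ⟨σ, hσ⟩

end FA.BEST.Summary
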