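import Fermat.Agent.BGK.Applications
import Mathlib.GroupTheory.SpecificGroups.Cyclic
import Mathlib.RingTheory.IntegralDomain

/-!
# Exponential sums over small subgroups, and the sum-product phenomenon

The theorem of Bourgain, Glibichuk and Konyagin: for a subgroup `H` of `(ZMod p)ˣ` with at least
`p ^ δ` elements the sums `∑ h ∈ H, exp (2 π i a h / p)` are `O (#H p ^ (-ε))`, so `H` is
equidistributed and Waring's problem mod `p` has boundedly many variables up to `k ≤ p ^ (1 - δ)`.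
On the way: the sum-product theorem of Bourgain, Katz and Tao, and expansion by dilates.
-/

set_option autoImplicit false

noncomputable section

namespace FA.BGK.Summary

open Finset
open scoped Real Pointwise

variable {p : ℕ} [Fact p.Prime]

theorem exists_subgroupSet (H : Subgroup (ZMod p)ˣ) [Fintype H] :
    ∃ S : Finset (ZMod p), IsSubgroupSet S ∧ #S = Fintype.card H ∧
      (∀ f : ZMod p → ℂ, ∑ x ∈ S, f x = ∑ h : H, f ((h : (ZMod p)ˣ) : ZMod p)) ∧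
        ∀ x, x ∈ S ↔ ∃ h : H, ((h : (ZMod p)ˣ) : ZMod p) = x := by
  have hi : Function.Injective fun h : H => ((h : (ZMod p)ˣ) : ZMod p) :=
    Units.val_injective.comp Subtype.val_injective
  refine ⟨univ.image fun h : H => ((h : (ZMod p)ˣ) : ZMod p),
    ⟨mem_image.2 ⟨1, mem_univ _, rfl⟩, fun h => ?_, fun {a b} ha hb => ?_⟩,
    card_image_of_injective _ hi, fun f => sum_image hi.injOn, fun x => by simp⟩
  · obtain ⟨u, -, e⟩ := mem_image.1 h
    exact (u : (ZMod p)ˣ).ne_zero e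
  · obtain ⟨u, -, rfl⟩ := mem_image.1 ha
    obtain ⟨v, -, rfl⟩ := mem_image.1 hb
    exact mem_image.2 ⟨u * v, mem_univ _, rfl⟩

theorem stdAddChar_eq_exp (x : ZMod p) :
    ZMod.stdAddChar x = Complex.exp (((2 * π * (x.val / p) : ℝ) : ℂ) * Complex.I) := by
  rw [stdAddChar_eq_eAdd]
  rfl

theorem le_card_powRange {k : ℕ} (hk : 1 ≤ k) :
    p ≤ 2 * k * Nat.card (powMonoidHom k : (ZMod p)ˣ →* (ZMod p)ˣ).range := by
  have e := IsCyclic.card_powMonoidHom_range (G := (ZMod p)ˣ) k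
  rw [Nat.card_eq_fintype_card (α := (ZMod p)ˣ), ZMod.card_units p] at e
  rw [e, mul_assoc]
  have h := (Nat.mul_div_cancel' (Nat.gcd_dvd_left (p - 1) k)).ge.trans
    (Nat.mul_le_mul_right _ (Nat.le_of_dvd hk (Nat.gcd_dvd_right (p - 1) k)))
  have := (Fact.out : p.Prime).two_le
  omega

theorem rpow_half_le {δ : ℝ} (hδ : 0 < δ) {P₀ : ℕ} (hP₀ : (2 : ℝ) ^ (2 / δ) < P₀) {k n : ℕ}
    (hlarge : P₀ < p) (hkp : (k : ℝ) ≤ (p : ℝ) ^ (1 - δ)) (h2 : (p : ℝ) ≤ 2 * k * n) :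
    (p : ℝ) ^ (δ / 2) ≤ n := by
  have hp0 : (0 : ℝ) < p := Nat.cast_pos.2 (Fact.out : p.Prime).pos
  have h3 : (2 : ℝ) ≤ (p : ℝ) ^ (δ / 2) := by
    have h4 := Real.rpow_le_rpow (by positivity)
      (hP₀.le.trans (Nat.cast_le.2 hlarge.le)) (half_pos hδ).le
    rwa [← Real.rpow_mul zero_le_two, show 2 / δ * (δ / 2) = 1 by field_simp, Real.rpow_one] at h4
  refine le_of_mul_le_mul_left ?_ (show (0 : ℝ) < 2 * (p : ℝ) ^ (1 - δ) by positivity)
  refine le_trans ?_ (h2.trans (mul_le_mul_of_nonneg_right (by linarith) (Nat.cast_nonneg _)))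
  calc 2 * (p : ℝ) ^ (1 - δ) * (p : ℝ) ^ (δ / 2)
      ≤ (p : ℝ) ^ (δ / 2) * (p : ℝ) ^ (1 - δ) * (p : ℝ) ^ (δ / 2) := by gcongr
    _ = p := by
        rw [← Real.rpow_add hp0, ← Real.rpow_add hp0,
          show δ / 2 + (1 - δ) + δ / 2 = 1 by ring, Real.rpow_one]

/-- **The theorem of Bourgain, Glibichuk and Konyagin.** -/
theorem bourgain_glibichuk_konyagin {δ : ℝ} (hδ : 0 < δ) : ∃ ε C : ℝ, 0 < ε ∧ 1 ≤ C ∧
    ∀ (p : ℕ) [Fact p.Prime] (H : Subgroup (ZMod p)ˣ) [Fintype H],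
      (p : ℝ) ^ δ ≤ Fintype.card H → ∀ a : ZMod p, a ≠ 0 →
        ‖∑ h : H, Complex.exp
            (((2 * π * ((a * ((h : (ZMod p)ˣ) : ZMod p)).val / p) : ℝ) : ℂ) * Complex.I)‖ ≤
          C * Fintype.card H * (p : ℝ) ^ (-ε) := by
  obtain ⟨ε, C, hε, hC, h⟩ := exists_sum_bound hδ
  refine ⟨ε, C, hε, hC, fun p _ H _ hcard a ha => ?_⟩
  obtain ⟨S, hS, hSc, hSum, -⟩ := exists_subgroupSet H
  rw [← hSc] at hcard ⊢
  simp only [← stdAddChar_eq_exp]
  rw [← hSum fun x => ZMod.stdAddChar (a * x)]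
  exact h p S hS hcard a ha

/-- **The sum-product theorem of Bourgain, Katz and Tao.** -/
theorem sum_product {δ : ℝ} (hδ : 0 < δ) : ∃ ε c : ℝ, 0 < ε ∧ 0 < c ∧
    ∀ (p : ℕ) [Fact p.Prime] (A : Finset (ZMod p)), (p : ℝ) ^ δ ≤ #A →
      (#A : ℝ) ≤ (p : ℝ) ^ (1 - δ) →
        c * (p : ℝ) ^ ε * #A ≤ max (#(A + A) : ℝ) #(A * A) :=
  exists_sum_product hδ

/-- **Expansion by dilates**: for `p ^ η ≤ #A ≤ p ^ (1 - η)` and `p ^ δ ≤ #B` some `A + ξ A` with
`ξ ∈ B` is larger than `A` by a power of `p`. -/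
theorem expansion_by_dilates {δ η : ℝ} (hδ : 0 < δ) (hη : 0 < η) : ∃ ε c : ℝ, 0 < ε ∧ 0 < c ∧
    ∀ (p : ℕ) [Fact p.Prime] (A B : Finset (ZMod p)), (p : ℝ) ^ η ≤ #A →
      (#A : ℝ) ≤ (p : ℝ) ^ (1 - η) → (p : ℝ) ^ δ ≤ #B →
        ∃ ξ ∈ B, c * (p : ℝ) ^ ε * #A ≤ #(A + A.image fun a => ξ * a) := by
  obtain ⟨N, C, hN, hC, hgrow⟩ := exists_good_bound hδ hη
  obtain ⟨M, hM⟩ : ∃ M, M = 2 * N := ⟨_, rfl⟩
  have hM0 : M ≠ 0 := by omega
  refine ⟨η / M, (2 * C) ^ (-(M⁻¹ : ℝ)) / 2, by positivity, by positivity,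
    fun p _ A B hA1 hA2 hB => ?_⟩
  have hp2 := (Fact.out : p.Prime).two_le
  have hp1 : (1 : ℝ) < p := by exact_mod_cast (show 1 < p by omega)
  have hp0 : (0 : ℝ) < p := by linarith
  have hA0 : (0 : ℝ) < #A := lt_of_lt_of_le (by positivity) hA1
  have hAne : A.Nonempty := card_pos.1 (Nat.cast_pos.1 hA0)
  obtain ⟨K, hK⟩ : ∃ K : ℝ, K = (2 * C) ^ (-(M⁻¹ : ℝ)) * (p : ℝ) ^ (η / M) := ⟨_, rfl⟩
  by_contra hcon
  push Not at hcon
  have hle : ∀ ξ ∈ B, Good A K ξ := fun ξ hξ => by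
    refine (hcon ξ hξ).le.trans (mul_le_mul_of_nonneg_right ?_ hA0.le)
    rw [hK, div_mul_eq_mul_div]
    exact half_le_self (by positivity)
  obtain ⟨ξ, hξ, hξ0⟩ : ∃ ξ ∈ B, ξ ≠ 0 := exists_mem_ne (by
    exact_mod_cast lt_of_lt_of_le (Real.one_lt_rpow hp1 hδ) hB) 0
  have hK1 : 1 ≤ K := by
    refine le_of_mul_le_mul_right ?_ hA0
    rw [one_mul]
    exact le_trans (Nat.cast_le.2 (card_le_card_add_right
      (card_pos.1 (by rw [card_dil hξ0]; exact hAne.card_pos)))) (hle ξ hξ)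
  have h1 : Good A (K * K) 1 := by
    have h := ruzsa_triangle_inequality_add_add_add A (dil ξ A) A
    rw [card_dil hξ0, add_comm (dil ξ A) A] at h
    have h' : (#(A + A) : ℝ) * #A ≤ #(A + dil ξ A) * #(A + dil ξ A) := by exact_mod_cast h
    rw [Good, dil_one]
    refine le_of_mul_le_mul_right (h'.trans ?_) hA0
    refine (mul_le_mul (hle ξ hξ) (hle ξ hξ) (Nat.cast_nonneg _) (by positivity)).trans
      (le_of_eq ?_)
    ring
  have hKK : K ≤ K * K := le_mul_of_one_le_right (by linarith) hK1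
  have h := hgrow p A B (K * K) (hK1.trans hKK) hA1 hA2 hB h1 fun ξ hξ => (hle ξ hξ).mono hKK
  have e : C * (K * K) ^ N = (p : ℝ) ^ η / 2 := by
    rw [← sq, ← pow_mul, ← hM, hK, mul_pow, ← Real.rpow_natCast _ M, ← Real.rpow_natCast _ M,
      ← Real.rpow_mul (by positivity), ← Real.rpow_mul hp0.le, neg_mul,
      inv_mul_cancel₀ (Nat.cast_ne_zero.2 hM0), Real.rpow_neg_one,
      div_mul_cancel₀ η (Nat.cast_ne_zero.2 hM0)]
    field_simp
  rw [e] at h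
  linarith [Real.rpow_pos_of_pos hp0 η]

/-- **Every residue is a sum of boundedly many elements of `H`.** -/
theorem subgroup_sumset {δ : ℝ} (hδ : 0 < δ) : ∃ m₀ : ℕ, ∀ (p : ℕ) [Fact p.Prime]
    (H : Subgroup (ZMod p)ˣ) [Fintype H], (p : ℝ) ^ δ ≤ Fintype.card H → ∀ m, m₀ ≤ m →
      ∀ b : ZMod p, ∃ z : Fin m → (ZMod p)ˣ, (∀ i, z i ∈ H) ∧
        ∑ i, (z i : ZMod p) = b := by
  obtain ⟨m₀, h⟩ := exists_sumset_eq_univ hδ
  refine ⟨m₀, fun p _ H _ hcard m hm b => ?_⟩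
  obtain ⟨S, hS, hSc, -, hmem⟩ := exists_subgroupSet H
  obtain ⟨z, hz, e⟩ := h p S hS (by rwa [hSc]) m hm b
  choose w hw using fun i => (hmem (z i)).1 (hz i)
  exact ⟨fun i => (w i : (ZMod p)ˣ), fun i => (w i).2, by
    rw [← e]; exact sum_congr rfl fun i _ => hw i⟩

/-- **Waring's problem mod `p`**: for `k ≤ p ^ (1 - δ)` every residue is a sum of boundedly many
`k`th powers. -/
theorem waring_mod_prime {δ : ℝ} (hδ : 0 < δ) : ∃ m : ℕ, ∀ (p k : ℕ) [Fact p.Prime], 1 ≤ k →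
    (k : ℝ) ≤ (p : ℝ) ^ (1 - δ) → ∀ b : ZMod p, ∃ x : Fin m → ZMod p, ∑ i, x i ^ k = b := by
  obtain ⟨m₀, h⟩ := subgroup_sumset (half_pos hδ)
  obtain ⟨P₀, hP₀⟩ := exists_nat_gt ((2 : ℝ) ^ (2 / δ))
  refine ⟨max m₀ P₀, fun p k _ hk hkp b => ?_⟩
  have hp2 := (Fact.out : p.Prime).two_le
  have hp1 : (1 : ℝ) ≤ p := by exact_mod_cast (show 1 ≤ p by omega)
  have hp0 : (0 : ℝ) < p := by linarith
  have : NeZero p := ⟨by omega⟩
  rcases le_or_gt p P₀ with hsmall | hlarge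
  · refine ⟨fun i => if (i : ℕ) < b.val then 1 else 0, ?_⟩
    rw [Fin.sum_univ_eq_sum_range fun i => (if i < b.val then (1 : ZMod p) else 0) ^ k]
    simp only [ite_pow, one_pow, zero_pow (by omega : k ≠ 0)]
    rw [← sum_filter, sum_const, nsmul_eq_mul, mul_one]
    have e : (range (max m₀ P₀)).filter (fun i => i < b.val) = range b.val := by
      have := ZMod.val_lt b
      ext i
      simp only [mem_filter, mem_range]
      omega
    rw [e, card_range, ZMod.natCast_zmod_val]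
  classical
  obtain ⟨H, hH⟩ : ∃ H, H = (powMonoidHom k : (ZMod p)ˣ →* (ZMod p)ˣ).range := ⟨_, rfl⟩
  have hcard : (p : ℝ) ^ (δ / 2) ≤ Fintype.card H := by
    have h2 : (p : ℝ) ≤ 2 * k * Fintype.card H := by
      have e := le_card_powRange (p := p) hk
      rw [← hH, Nat.card_eq_fintype_card] at e
      exact_mod_cast e
    exact rpow_half_le hδ hP₀ hlarge hkp h2
  obtain ⟨z, hz, e⟩ := h p H hcard _ (le_max_left _ _) b
  simp only [hH, MonoidHom.mem_range, powMonoidHom_apply] at hz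
  choose w hw using hz
  exact ⟨fun i => (w i : ZMod p), by rw [← e]; exact sum_congr rfl fun i _ => by rw [← hw i]; rfl⟩

open scoped Classical in
/-- **Sums with a large exponent**: for `k ≤ p ^ (1 - δ)` the sum `∑ exp (2 π i a x ^ k / p)` is
`O (p ^ (1 - ε))`, where the bound of Weil is trivial once `k ≥ p ^ (1 / 2)`. -/
theorem large_exponent_sum {δ : ℝ} (hδ : 0 < δ) : ∃ ε C : ℝ, 0 < ε ∧ 0 < C ∧
    ∀ (p k : ℕ) [Fact p.Prime], 1 ≤ k → (k : ℝ) ≤ (p : ℝ) ^ (1 - δ) → ∀ a : ZMod p, a ≠ 0 →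
      ‖∑ x : ZMod p, Complex.exp (((2 * π * ((a * x ^ k).val / p) : ℝ) : ℂ) * Complex.I)‖ ≤
        C * (p : ℝ) ^ (1 - ε) := by
  obtain ⟨ε, C, hε, hC, h⟩ := bourgain_glibichuk_konyagin (half_pos hδ)
  obtain ⟨P₀, hP₀⟩ := exists_nat_gt ((2 : ℝ) ^ (2 / δ))
  refine ⟨min ε 1, max (P₀ : ℝ) (2 * C), by positivity, by positivity,
    fun p k _ hk hkp a ha => ?_⟩
  have hp2 := (Fact.out : p.Prime).two_le
  have hp1 : (1 : ℝ) ≤ p := by exact_mod_cast (show 1 ≤ p by omega)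
  have hp0 : (0 : ℝ) < p := by linarith
  have hone : (1 : ℝ) ≤ (p : ℝ) ^ (1 - min ε 1) :=
    Real.one_le_rpow hp1 (sub_nonneg.2 (min_le_right _ _))
  have hn : ∀ x : ℝ, ‖Complex.exp ((x : ℂ) * Complex.I)‖ = 1 := Complex.norm_exp_ofReal_mul_I
  rcases le_or_gt p P₀ with hsmall | hlarge
  · refine (norm_sum_le _ _).trans ?_
    simp only [hn, sum_const, card_univ, ZMod.card, nsmul_eq_mul, mul_one]
    exact le_trans ((Nat.cast_le.2 hsmall).trans (le_max_left _ _))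
      (le_mul_of_one_le_right (by positivity) hone)
  obtain ⟨f, hf⟩ : ∃ f : (ZMod p)ˣ →* (ZMod p)ˣ, f = powMonoidHom k := ⟨_, rfl⟩
  have hcard : (p : ℝ) ^ (δ / 2) ≤ Fintype.card f.range := by
    have h2 : (p : ℝ) ≤ 2 * k * Fintype.card f.range := by
      have e := le_card_powRange (p := p) hk
      rw [← hf, Nat.card_eq_fintype_card] at e
      exact_mod_cast e
    exact rpow_half_le hδ hP₀ hlarge hkp h2
  obtain ⟨g, hg⟩ : ∃ g : ZMod p → ℂ,
      g = fun y => Complex.exp (((2 * π * ((a * y).val / p) : ℝ) : ℂ) * Complex.I) := ⟨_, rfl⟩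
  have hgH : ‖∑ y : f.range, g ((y : (ZMod p)ˣ) : ZMod p)‖ ≤
      C * Fintype.card f.range * (p : ℝ) ^ (-ε) := by
    rw [hg]
    exact h p f.range hcard a ha
  have hsum : ∑ u : (ZMod p)ˣ, g ((f u : (ZMod p)ˣ) : ZMod p) =
      (Fintype.card f.ker : ℂ) * ∑ y : f.range, g ((y : (ZMod p)ˣ) : ZMod p) := by
    rw [← sum_fiberwise univ f.rangeRestrict, mul_sum]
    refine sum_congr rfl fun y _ => ?_
    rw [sum_congr rfl (g := fun _ => g ((y : (ZMod p)ˣ) : ZMod p))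
      fun u hu => by rw [← (mem_filter.1 hu).2]; rfl, sum_const, nsmul_eq_mul]
    congr 2
    rw [← Fintype.card_subtype]
    obtain ⟨v, rfl⟩ := f.rangeRestrict_surjective y
    refine Fintype.card_congr ((Equiv.mulLeft v⁻¹).subtypeEquiv fun u => ?_)
    simp [MonoidHom.mem_ker, Subtype.ext_iff, eq_comm, eq_inv_mul_iff_mul_eq]
  have hker : (Fintype.card f.ker : ℝ) * Fintype.card f.range ≤ p := by
    rw [← Fintype.card_congr (QuotientGroup.quotientKerEquivRange f).toEquiv]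
    have e := Subgroup.card_eq_card_quotient_mul_card_subgroup f.ker
    rw [Nat.card_eq_fintype_card, Nat.card_eq_fintype_card, Nat.card_eq_fintype_card,
      ZMod.card_units] at e
    exact_mod_cast (show Fintype.card f.ker * Fintype.card ((ZMod p)ˣ ⧸ f.ker) ≤ p by
      rw [mul_comm]; omega)
  have hsplit : ∑ x : ZMod p, g (x ^ k) =
      g 0 + ∑ u : (ZMod p)ˣ, g ((f u : (ZMod p)ˣ) : ZMod p) := by
    rw [← add_sum_erase _ _ (mem_univ (0 : ZMod p)), zero_pow (by omega)]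
    congr 1
    refine (sum_bij (fun (u : (ZMod p)ˣ) _ => (u : ZMod p))
      (fun u _ => mem_erase.2 ⟨u.ne_zero, mem_univ _⟩) (fun _ _ _ _ e => Units.ext e)
      (fun x hx => ⟨Units.mk0 x (ne_of_mem_erase hx), mem_univ _, rfl⟩) fun u _ => ?_).symm
    rw [hf, powMonoidHom_apply, Units.val_pow_eq_pow_val]
  have e : ∀ x : ZMod p, Complex.exp (((2 * π * ((a * x ^ k).val / p) : ℝ) : ℂ) * Complex.I) =
      g (x ^ k) := fun x => by rw [hg]
  simp only [e]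
  rw [hsplit, hsum]
  refine (norm_add_le _ _).trans ?_
  rw [norm_mul, Complex.norm_natCast, hg, hn, ← hg]
  have h1 : (Fintype.card f.ker : ℝ) * ‖∑ y : f.range, g ((y : (ZMod p)ˣ) : ZMod p)‖ ≤
      C * (p : ℝ) ^ (1 - min ε 1) := by
    refine (mul_le_mul_of_nonneg_left hgH (Nat.cast_nonneg _)).trans ?_
    calc (Fintype.card f.ker : ℝ) * (C * Fintype.card f.range * (p : ℝ) ^ (-ε))
        = C * ((Fintype.card f.ker * Fintype.card f.range) * (p : ℝ) ^ (-ε)) := by ring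
      _ ≤ C * ((p : ℝ) * (p : ℝ) ^ (-(min ε 1))) := by
          refine mul_le_mul_of_nonneg_left (mul_le_mul hker (Real.rpow_le_rpow_of_exponent_le hp1
            (neg_le_neg (min_le_left _ _))) (by positivity) (by positivity)) (by linarith)
      _ = _ := by rw [sub_eq_add_neg, Real.rpow_add hp0, Real.rpow_one]
  calc (1 : ℝ) + Fintype.card f.ker * ‖∑ y : f.range, g ((y : (ZMod p)ˣ) : ZMod p)‖
      ≤ C * (p : ℝ) ^ (1 - min ε 1) + C * (p : ℝ) ^ (1 - min ε 1) :=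
        add_le_add (one_le_mul_of_one_le_of_one_le hC hone) h1
    _ = 2 * C * (p : ℝ) ^ (1 - min ε 1) := by ring
    _ ≤ _ := mul_le_mul_of_nonneg_right (le_max_right _ _) (by positivity)

open scoped Classical in
/-- **Equidistribution.** -/
theorem equidistribution {δ : ℝ} (hδ : 0 < δ) : ∃ ε C : ℝ, 0 < ε ∧ 1 ≤ C ∧
    ∀ (p : ℕ) [Fact p.Prime] (H : Subgroup (ZMod p)ˣ) [Fintype H],
      (p : ℝ) ^ δ ≤ Fintype.card H → ∀ L ≤ p,
        |(#(univ.filter fun h : H => (((h : (ZMod p)ˣ) : ZMod p)).val < L) : ℝ) -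
            Fintype.card H * L / p| ≤ C * Fintype.card H * (p : ℝ) ^ (-ε) := by
  obtain ⟨ε, C, hε, hC, h⟩ := exists_equidistribution hδ
  refine ⟨ε, C, hε, hC, fun p _ H _ hcard L hL => ?_⟩
  obtain ⟨S, hS, hSc, -, hmem⟩ := exists_subgroupSet H
  have e : #(univ.filter fun h : H => (((h : (ZMod p)ˣ) : ZMod p)).val < L) =
      #(S.filter fun x => x.val < L) := by
    refine card_bij (fun h _ => ((h : (ZMod p)ˣ) : ZMod p)) (fun h hh => ?_) (fun _ _ _ _ e => ?_)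
      fun x hx => ?_
    · exact mem_filter.2 ⟨(hmem _).2 ⟨h, rfl⟩, (mem_filter.1 hh).2⟩
    · exact Subtype.ext (Units.ext e)
    · obtain ⟨h, rfl⟩ := (hmem _).1 (mem_filter.1 hx).1
      exact ⟨h, mem_filter.2 ⟨mem_univ _, (mem_filter.1 hx).2⟩, rfl⟩
  rw [e, ← hSc]
  exact h p S hS (by rwa [hSc]) L hL

end FA.BGK.Summary
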