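import Fermat.Agent.BMZ.Example

/-!
# Summary: bounded height of multiplicatively dependent points

The first theorem of Bombieri, Masser and Zannier (1999), for rational curves: a rational curve in
`G_m ^ n` in no translate of a proper subtorus has multiplicatively dependent points of bounded
height only; hence finitely many of each degree. For `α, 1 - α` they are infinitely many.
-/

set_option autoImplicit false

noncomputable section

namespace FA.BMZ.Summary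

open FA.BiluTorus (algHeight)

/-- **Bombieri–Masser–Zannier**: the functions `c i * ∏ j, (X - ρ j) ^ m i j`, independent modulo
the constants, take multiplicatively dependent values only at numbers of bounded height. -/
theorem bmz_bounded_height {ι J : Type*} [Fintype ι] [Fintype J] (c : ι → ℂ)
    (hcalg : ∀ i, IsAlgebraic ℚ (c i)) (ρ : J → ℂ) (hρ : Function.Injective ρ)
    (hρalg : ∀ j, IsAlgebraic ℚ (ρ j)) (m : ι → J → ℤ)
    (hm : ∀ e : ι → ℤ, (∀ j, ∑ i, e i * m i j = 0) → e = 0) :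
    ∃ T : ℝ, ∀ α : ℂ, IsAlgebraic ℚ α → (∀ j, α ≠ ρ j) →
      (∃ e : ι → ℤ, e ≠ 0 ∧ ∏ i, (c i * ∏ j, (α - ρ j) ^ m i j) ^ e i = 1) → algHeight α ≤ T :=
  exists_height_bound c hcalg ρ hρ hρalg m hm

/-- **Finitely many of each degree.** -/
theorem bmz_finitely_many_degree {ι J : Type*} [Fintype ι] [Fintype J] (c : ι → ℂ)
    (hcalg : ∀ i, IsAlgebraic ℚ (c i)) (ρ : J → ℂ) (hρ : Function.Injective ρ)
    (hρalg : ∀ j, IsAlgebraic ℚ (ρ j)) (m : ι → J → ℤ)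
    (hm : ∀ e : ι → ℤ, (∀ j, ∑ i, e i * m i j = 0) → e = 0) (d : ℕ) :
    {α : ℂ | IsAlgebraic ℚ α ∧ (minpoly ℚ α).natDegree ≤ d ∧ (∀ j, α ≠ ρ j) ∧
      ∃ e : ι → ℤ, e ≠ 0 ∧ ∏ i, (c i * ∏ j, (α - ρ j) ^ m i j) ^ e i = 1}.Finite := by
  obtain ⟨T, hT⟩ := exists_height_bound c hcalg ρ hρ hρalg m hm
  exact (finite_algHeight_le T d).subset fun α ⟨halg, hd, hα, he⟩ => ⟨halg, hd, hT α halg hα he⟩

/-- **The line `α, 1 - α`**: bounded height, yet infinitely many. -/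
theorem dependent_one_sub :
    (∃ T : ℝ, ∀ α : ℂ, IsAlgebraic ℚ α → α ≠ 0 → α ≠ 1 →
      (∃ u w : ℤ, (u ≠ 0 ∨ w ≠ 0) ∧ α ^ u * (1 - α) ^ w = 1) → algHeight α ≤ T) ∧
    {α : ℂ | IsAlgebraic ℚ α ∧ α ≠ 0 ∧ α ≠ 1 ∧
      ∃ u w : ℤ, (u ≠ 0 ∨ w ≠ 0) ∧ α ^ u * (1 - α) ^ w = 1}.Infinite := by
  obtain ⟨T, hT⟩ := dependentOneSub_bounded
  exact ⟨⟨T, fun α h1 h2 h3 h4 => hT α ⟨h1, h2, h3, h4⟩⟩, dependentOneSub_infinite⟩

end FA.BMZ.Summary

end
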