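import Fermat.Agent.BachLogSquare.Generation

/-!
# Bach's theorem with exactly `log²`

The Riemann hypothesis is an argument of every statement: each zero `z`, `0 < re z < 1`, of the
entire continuation of `(s - 1) ζ` has `re z = 1/2`. On it for `ζ_K` and `ζ_E`, `E/K` Galois of
degree `m ≥ 2`, a prime of `K` of degree one, unramified in `E` and not split completely has norm
`O ((log (2 |d_K|) + log |d_E| / m) ²)`. On it for `ζ_K` and its abelian extensions unramified
everywhere the primes of degree one of norm `O (log² (2 |d_K|))` generate the class group, so the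
class number is one iff they are all principal. The constants are absolute.
-/

set_option autoImplicit false
set_option linter.style.haveILetI false

noncomputable section

universe u v

open NumberField InfinitePlace IsDedekindDomain Module Ideal
open scoped nonZeroDivisors Real Classical

namespace FA.BachLogSquare.Summary

/-- **A small prime which does not split completely.** -/
theorem least_nonsplit_prime_of_RH : ∃ A : ℝ, 0 < A ∧ ∀ (K : Type u) (E : Type v) [Field K]
    [NumberField K] [Field E] [NumberField E] [Algebra K E] [IsGalois K E],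
    (∀ Z : ℂ → ℂ, Differentiable ℂ Z → (∀ s : ℂ, 1 < s.re → Z s = (s - 1) * dedekindZeta K s) →
      ∀ z : ℂ, Z z = 0 → 0 < z.re → z.re < 1 → z.re = 1 / 2) →
    (∀ Z : ℂ → ℂ, Differentiable ℂ Z → (∀ s : ℂ, 1 < s.re → Z s = (s - 1) * dedekindZeta E s) →
      ∀ z : ℂ, Z z = 0 → 0 < z.re → z.re < 1 → z.re = 1 / 2) →
    2 ≤ finrank K E →
    ∃ v : HeightOneSpectrum (𝓞 K), (absNorm v.asIdeal).Prime ∧
      (∀ Q ∈ v.asIdeal.primesOver (𝓞 E), Q.ramificationIdx (𝓞 K) = 1) ∧
      (v.asIdeal.primesOver (𝓞 E)).ncard ≠ finrank K E ∧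
      (absNorm v.asIdeal : ℝ) ≤ A * (Real.log (2 * ((discr K).natAbs : ℝ)) +
        Real.log ((discr E).natAbs : ℝ) / finrank K E) ^ 2 := by
  obtain ⟨A, hA, h⟩ := exists_nonsplit_logSquare.{u, v}
  refine ⟨A, hA, fun K E _ _ _ _ _ _ hK hE hm => h hK hE hm _ ?_ ?_⟩
  · exact le_add_of_nonneg_right (div_nonneg (Real.log_natCast_nonneg _) (Nat.cast_nonneg _))
  · have h1 : (1 : ℝ) ≤ finrank K E := by exact_mod_cast one_le_two.trans hm
    have h2 : (1 : ℝ) ≤ ((discr K).natAbs : ℝ) :=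
      Nat.one_le_cast.2 (Int.natAbs_pos.2 (discr_ne_zero K))
    rw [DedekindExplicit.discScale, Real.log_mul two_ne_zero
      (Nat.cast_ne_zero.2 (Int.natAbs_ne_zero.2 (discr_ne_zero E))), mul_add,
      mul_div_cancel₀ _ (show (finrank K E : ℝ) ≠ 0 by linarith)]
    refine add_le_add ?_ le_rfl
    exact (Real.log_le_log two_pos (by linarith)).trans
      (le_mul_of_one_le_left (Real.log_nonneg (by linarith)) h1)

/-- **Bach's theorem with exactly `log²`.** -/
theorem classGroup_generated_of_RH : ∃ A : ℝ, 0 < A ∧ ∀ (K : Type u) [Field K] [NumberField K],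
    (∀ Z : ℂ → ℂ, Differentiable ℂ Z → (∀ s : ℂ, 1 < s.re → Z s = (s - 1) * dedekindZeta K s) →
      ∀ z : ℂ, Z z = 0 → 0 < z.re → z.re < 1 → z.re = 1 / 2) →
    (∀ (E : Type u) [Field E] [NumberField E] [Algebra K E] [IsGalois K E],
      IsMulCommutative (E ≃ₐ[K] E) → Algebra.Unramified (𝓞 K) (𝓞 E) →
      (∀ w : InfinitePlace K, w.IsUnramifiedIn E) →
      ∀ Z : ℂ → ℂ, Differentiable ℂ Z → (∀ s : ℂ, 1 < s.re → Z s = (s - 1) * dedekindZeta E s) →
        ∀ z : ℂ, Z z = 0 → 0 < z.re → z.re < 1 → z.re = 1 / 2) →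
    Subgroup.closure {c : ClassGroup (𝓞 K) | ∃ v : HeightOneSpectrum (𝓞 K),
      (absNorm v.asIdeal).Prime ∧
      (absNorm v.asIdeal : ℝ) ≤ A * Real.log (2 * ((discr K).natAbs : ℝ)) ^ 2 ∧
      ClassGroup.mk0 ⟨v.asIdeal, mem_nonZeroDivisors_iff_ne_zero.2 v.ne_bot⟩ = c} = ⊤ := by
  obtain ⟨A, hA, h⟩ := exists_generation_logSquare.{u}
  exact ⟨A, hA, fun K _ _ hK hE => h K ⟨hK, hE⟩⟩

/-- **Class number one is decided by the primes of norm at most `A log² (2 |d|)`.** -/
theorem classNumber_one_iff_of_RH : ∃ A : ℝ, 0 < A ∧ ∀ (K : Type u) [Field K] [NumberField K],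
    (∀ Z : ℂ → ℂ, Differentiable ℂ Z → (∀ s : ℂ, 1 < s.re → Z s = (s - 1) * dedekindZeta K s) →
      ∀ z : ℂ, Z z = 0 → 0 < z.re → z.re < 1 → z.re = 1 / 2) →
    (∀ (E : Type u) [Field E] [NumberField E] [Algebra K E] [IsGalois K E],
      IsMulCommutative (E ≃ₐ[K] E) → Algebra.Unramified (𝓞 K) (𝓞 E) →
      (∀ w : InfinitePlace K, w.IsUnramifiedIn E) →
      ∀ Z : ℂ → ℂ, Differentiable ℂ Z → (∀ s : ℂ, 1 < s.re → Z s = (s - 1) * dedekindZeta E s) →
        ∀ z : ℂ, Z z = 0 → 0 < z.re → z.re < 1 → z.re = 1 / 2) →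
    (classNumber K = 1 ↔ ∀ v : HeightOneSpectrum (𝓞 K), (absNorm v.asIdeal).Prime →
      (absNorm v.asIdeal : ℝ) ≤ A * Real.log (2 * ((discr K).natAbs : ℝ)) ^ 2 →
        Submodule.IsPrincipal v.asIdeal) := by
  obtain ⟨A, hA, h⟩ := exists_classNumber_eq_one_iff.{u}
  exact ⟨A, hA, fun K _ _ hK hE => h K ⟨hK, hE⟩⟩

end FA.BachLogSquare.Summary

end
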