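import Fermat.Agent.BaerSuzuki.Main

/-!
# Wielandt's join theorem, the Baer–Suzuki theorem and Engel groups

* `wielandt_join`: in a finite group the join of two subnormal subgroups is subnormal;
* `wielandt_zipper`: a subgroup which is not subnormal but is subnormal in every proper subgroup
  containing it lies in exactly one maximal subgroup;
* `baer_suzuki`: `H` lies in a nilpotent normal subgroup iff each `⟨H, H^g⟩` is nilpotent;
* `baer_suzuki_pGroup`: `x` lies in a normal `p`-subgroup iff each `⟨x, x^g⟩` is a `p`-group;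
* `involution_inverts`: an involution outside every normal `2`-subgroup inverts an element of odd
  prime order;
* `baer_engel`: the left Engel elements are those of the nilpotent normal subgroups;
* `zorn_engel`: a finite group is nilpotent iff it is an Engel group.

Infinite groups (where the join of two subnormal subgroups need not be subnormal and Engel groups
need not be locally nilpotent) are not claimed.
-/

set_option autoImplicit false
set_option linter.style.haveILetI false

noncomputable section

open Subgroup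
open scoped commutatorElement

namespace FA.BaerSuzuki.Summary

variable {G : Type*} [Group G] [Finite G]

/-- **Wielandt's join theorem.** -/
theorem wielandt_join {S T : Subgroup G} (hS : S.IsSubnormal) (hT : T.IsSubnormal) :
    (S ⊔ T).IsSubnormal :=
  isSubnormal_sup hS hT

/-- **Wielandt's zipper lemma.** -/
theorem wielandt_zipper {S : Subgroup G} (hns : ¬ S.IsSubnormal)
    (hK : ∀ K : Subgroup G, K ≠ ⊤ → S ≤ K → (S.subgroupOf K).IsSubnormal) :
    ∃! M : Subgroup G, IsCoatom M ∧ S ≤ M := by
  obtain ⟨M, hM, hSM, huniq⟩ := exists_unique_coatom hns hK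
  exact ⟨M, ⟨hM, hSM⟩, fun K hK' => huniq K hK'.1 hK'.2⟩

/-- A subgroup is in a nilpotent normal subgroup iff it is in the product of the `p`-cores. -/
theorem le_fitting_iff_exists {H : Subgroup G} :
    (∃ N : Subgroup G, N.Normal ∧ Group.IsNilpotent N ∧ H ≤ N) ↔ H ≤ fitting G := by
  refine ⟨?_, fun h => ⟨fitting G, fitting_normal, fitting_isNilpotent, h⟩⟩
  rintro ⟨N, hN, hnil, hHN⟩
  exact hHN.trans (le_fitting hN.isSubnormal)

/-- **The Baer–Suzuki theorem.** -/
theorem baer_suzuki {H : Subgroup G} :
    (∃ N : Subgroup G, N.Normal ∧ Group.IsNilpotent N ∧ H ≤ N) ↔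
      ∀ g : G, Group.IsNilpotent ↥(H ⊔ H.map (MulAut.conj g).toMonoidHom) :=
  le_fitting_iff_exists.trans le_fitting_iff

/-- **The Baer–Suzuki theorem for `p`-elements.** -/
theorem baer_suzuki_pGroup {p : ℕ} [Fact p.Prime] {x : G} :
    (∃ N : Subgroup G, N.Normal ∧ IsPGroup p N ∧ x ∈ N) ↔
      ∀ g : G, IsPGroup p (closure ({x, g * x * g⁻¹} : Set G)) := by
  refine Iff.trans ⟨?_, fun h => ⟨AutTower.pCore p G, AutTower.pCore_normal p,
    AutTower.isPGroup_pCore p, h⟩⟩ mem_pCore_iff
  rintro ⟨N, hN, hp, hx⟩
  exact AutTower.le_pCore_of_normal hN hp hx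

/-- **Involutions and odd elements.** -/
theorem involution_inverts {t : G} (ht : t * t = 1)
    (h : ∀ N : Subgroup G, N.Normal → IsPGroup 2 N → t ∉ N) :
    ∃ y : G, (orderOf y).Prime ∧ Odd (orderOf y) ∧ t * y * t⁻¹ = y⁻¹ :=
  exists_inverted ht (h _ (AutTower.pCore_normal 2) (AutTower.isPGroup_pCore 2))

/-- **Baer's theorem on left Engel elements.** -/
theorem baer_engel {x : G} :
    (∃ N : Subgroup G, N.Normal ∧ Group.IsNilpotent N ∧ x ∈ N) ↔
      ∀ y : G, ∃ k : ℕ, (fun z => ⁅z, x⁆)^[k] y = 1 := by
  refine Iff.trans ?_ mem_fitting_iff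
  simpa only [zpowers_le] using le_fitting_iff_exists (H := zpowers x)

/-- **Zorn's theorem.** -/
theorem zorn_engel :
    Group.IsNilpotent G ↔ ∀ x y : G, ∃ k : ℕ, (fun z => ⁅z, x⁆)^[k] y = 1 :=
  isNilpotent_iff_engel

end FA.BaerSuzuki.Summary

end
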