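import Fermat.Agent.Voronin.Main
import Mathlib.Analysis.Calculus.IteratedDeriv.Lemmas

/-!
# Voronin's universality theorem

For `0 < r < 1/4` every function continuous and without zeros on `‖s‖ ≤ r` and holomorphic inside
is a uniform limit of `ζ (s + 3/4 + it)`, `t → ∞` (Voronin 1975); so the jets of `ζ` on
`re s = 3/4` are dense. The proof is by the rearrangement theorem, also stated, for Euler products
with free phases, and the mean square of `ζ ∏_{p < M} (1 - p^(-s)) - 1`.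

For the positive lower density of the set of `t` see `Root/SummaryBagchi`.
-/

set_option autoImplicit false

noncomputable section

namespace FA.Voronin.Summary

open Complex Finset

/-- An entire function of exponential type `R < 1/4` with `∑ p^(-3/4) |F (log p)|` finite is `0`. -/
theorem prime_log_uniqueness {b : ℕ → ℂ} {B R : ℝ} (hR : 0 ≤ R) (hR4 : R < 1 / 4)
    (hb : ∀ k, ‖b k‖ ≤ B * R ^ k)
    (hs : Summable fun p : {p : ℕ // p.Prime} =>
      ((p : ℕ) : ℝ) ^ (-(3 / 4) : ℝ) * ‖∑' k, b k * (Real.log p : ℂ) ^ k / (k.factorial : ℂ)‖) :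
    ∀ k, b k = 0 :=
  coeff_eq_zero_of_summable primeRich_univ hR hR4 hb (by
    obtain ⟨F, hF⟩ : ∃ F : ℕ → ℝ, F = fun p => if p.Prime then
        (p : ℝ) ^ (-(3 / 4) : ℝ) * ‖expSeries b (Real.log p)‖ else 0 := ⟨_, rfl⟩
    have h := (summable_subtype_iff_indicator (f := F) (s := {p : ℕ | p.Prime})).1
      (hs.congr fun p => by rw [hF, Function.comp_apply, if_pos p.2]; rfl)
    rw [Set.indicator_eq_self.2 fun n hn => by_contra fun hp => hn (by rw [hF]; exact if_neg hp),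
      hF] at h
    exact h.congr fun n => by simp [primeTerm])

/-- **Voronin**: Euler products with free phases approximate uniformly near `re s = 3/4`. -/
theorem euler_phases_dense {r R' : ℝ} (hr : 0 ≤ r) (hr4 : r < 1 / 4) (hrR : r < R') {h : ℂ → ℂ}
    (hh : DifferentiableOn ℂ h (Metric.ball 0 R')) {ε : ℝ} (hε : 0 < ε) :
    ∃ M₀ : ℕ, ∀ M, M₀ ≤ M → ∃ z : ℕ → ℂ, (∀ n, ‖z n‖ = 1) ∧ ∀ s : ℂ, ‖s‖ ≤ r →
      ‖∑ p ∈ Nat.primesBelow M, log (1 - z p * (p : ℂ) ^ (-(3 / 4 + s)))⁻¹ - h s‖ < ε := by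
  obtain ⟨M₀, -, hM₀⟩ := exists_eulerPhases hr hr4 hrR hh hε 0
  refine ⟨M₀, fun M hM => ?_⟩
  obtain ⟨z, hz, hle⟩ := hM₀ M hM
  refine ⟨z, hz, fun s hs => lt_of_eq_of_lt ?_ (hle s hs)⟩
  congr 2
  rw [Nat.primesBelow, sum_filter]
  refine sum_congr rfl fun n _ => ?_
  unfold primePower
  split_ifs <;> simp

/-- **Voronin's universality theorem.** -/
theorem voronin_universality {r : ℝ} (hr : 0 < r) (hr4 : r < 1 / 4) {f : ℂ → ℂ}
    (hfc : ContinuousOn f (Metric.closedBall 0 r))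
    (hfd : DifferentiableOn ℂ f (Metric.ball 0 r))
    (hf0 : ∀ s ∈ Metric.closedBall (0 : ℂ) r, f s ≠ 0) {ε : ℝ} (hε : 0 < ε) (T₀ : ℝ) :
    ∃ t : ℝ, T₀ ≤ t ∧ ∀ s : ℂ, ‖s‖ ≤ r → ‖riemannZeta (s + 3 / 4 + t * I) - f s‖ < ε :=
  exists_zeta_universal hr hr4 hfc hfd hf0 hε T₀

/-- **The jets are dense**: `ζ`, `ζ'`, …, `ζ^(n-1)` at `3/4 + it` come near any `n` values. -/
theorem zeta_jets_dense (n : ℕ) (a : ℕ → ℂ) {ε : ℝ} (hε : 0 < ε) (T₀ : ℝ) :
    ∃ t : ℝ, T₀ ≤ t ∧ ∀ k < n, ‖iteratedDeriv k riemannZeta (3 / 4 + t * I) - a k‖ < ε := by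
  classical
  obtain ⟨a₀, ha₀, hne⟩ : ∃ c : ℂ, ‖c - a 0‖ ≤ ε / 2 ∧ c ≠ 0 := by
    rcases eq_or_ne (a 0) 0 with h | h
    · refine ⟨((ε / 2 : ℝ) : ℂ), ?_, Complex.ofReal_ne_zero.2 (by linarith)⟩
      rw [h, sub_zero, Complex.norm_real, Real.norm_of_nonneg (by linarith)]
    · exact ⟨a 0, by rw [sub_self, norm_zero]; linarith, h⟩
  obtain ⟨c, hc⟩ : ∃ c : ℕ → ℂ, c = fun k => if k = 0 then a₀ else a k := ⟨_, rfl⟩
  obtain ⟨f, hf⟩ : ∃ f : ℂ → ℂ,
      f = fun s => ∑ k ∈ range (n + 1), c k * s ^ k / (k.factorial : ℂ) := ⟨_, rfl⟩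
  have hfd : Differentiable ℂ f := hf ▸ by fun_prop
  have hjet : ∀ k < n, iteratedDeriv k f 0 = c k := fun k hk => by
    rw [hf, iteratedDeriv_fun_sum fun i _ => by fun_prop]
    simp only [iteratedDeriv_div_const, iteratedDeriv_const_mul_field, iteratedDeriv_fun_pow_zero]
    rw [sum_eq_single_of_mem k (mem_range.2 (hk.trans n.lt_succ_self))
      fun i _ hi => by rw [if_neg hi.symm]; simp, if_pos rfl,
      mul_div_cancel_right₀ _ (Nat.cast_ne_zero.2 k.factorial_ne_zero)]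
  have hf0 : f 0 ≠ 0 := by
    rw [hf]
    simp [sum_range_succ', hc, hne]
  obtain ⟨δ, hδ0, hδ⟩ :=
    Metric.eventually_nhds_iff.1 (hfd.continuous.continuousAt.eventually_ne hf0)
  obtain ⟨r, hr⟩ : ∃ r, r = min (δ / 2) (1 / 8) := ⟨_, rfl⟩
  have hr0 : 0 < r := hr ▸ lt_min (half_pos hδ0) (by norm_num)
  have hr8 : r ≤ 1 / 8 := hr ▸ min_le_right _ _
  obtain ⟨η, hη⟩ : ∃ η, η = ε / 4 * r ^ n / n.factorial := ⟨_, rfl⟩
  have hη0 : 0 < η := hη ▸ by positivity
  obtain ⟨t, ht, htu⟩ := voronin_universality hr0 (by linarith) hfd.continuous.continuousOn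
    hfd.differentiableOn (fun s hs => hδ (lt_of_le_of_lt (Metric.mem_closedBall.1 hs)
      (lt_of_le_of_lt (hr ▸ min_le_left _ _) (half_lt_self hδ0)))) hη0 (max T₀ 1)
  refine ⟨t, le_trans (le_max_left _ _) ht, fun k hk => ?_⟩
  obtain ⟨D, hD⟩ : ∃ D : Set ℂ, D = Metric.ball 0 (r + 1 / 8) := ⟨_, rfl⟩
  have hgd : DifferentiableOn ℂ (fun s => riemannZeta ((3 / 4 + t * I) + s)) D := fun s hs => by
    rw [hD, Metric.mem_ball, dist_zero_right] at hs
    refine ((differentiableAt_riemannZeta fun h => ?_).comp s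
      (differentiableAt_id.const_add _)).differentiableWithinAt
    have h1 := congrArg Complex.im h
    simp at h1
    linarith [le_max_right T₀ 1, (abs_le.1 ((Complex.abs_im_le_norm s).trans hs.le)).1]
  have hD0 : (0 : ℂ) ∈ D := hD ▸ Metric.mem_ball_self (by linarith)
  have hDo : IsOpen D := hD ▸ Metric.isOpen_ball
  have hsub : Metric.closedBall (0 : ℂ) r ⊆ D :=
    hD ▸ Metric.closedBall_subset_ball (by linarith)
  have hdiff : ‖iteratedDeriv k (fun s => riemannZeta ((3 / 4 + t * I) + s) - f s) 0‖ ≤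
      k.factorial * η / r ^ k := by
    refine norm_iteratedDeriv_le_of_forall_mem_sphere_norm_le k hr0
      (((hgd.sub hfd.differentiableOn).mono
        ((closure_ball (0 : ℂ) hr0.ne').trans_subset hsub)).diffContOnCl) fun s hs => ?_
    rw [add_comm, ← add_assoc]
    exact (htu s (by simpa using Metric.sphere_subset_closedBall hs)).le
  have hg1 : ContDiffAt ℂ k (fun s => riemannZeta ((3 / 4 + t * I) + s)) 0 :=
    (hgd.analyticAt (hDo.mem_nhds hD0)).contDiffAt
  rw [show (fun s => riemannZeta ((3 / 4 + t * I) + s) - f s) =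
    (fun s => riemannZeta ((3 / 4 + t * I) + s)) - f from rfl,
    iteratedDeriv_sub hg1 hfd.contDiff.contDiffAt, hjet k hk, iteratedDeriv_comp_const_add] at hdiff
  simp only [add_zero] at hdiff
  have hbound : (k.factorial : ℝ) * η / r ^ k ≤ ε / 4 := by
    rw [div_le_iff₀ (by positivity), hη]
    have h1 : (k.factorial : ℝ) ≤ n.factorial := by exact_mod_cast Nat.factorial_le hk.le
    have h2 : r ^ n ≤ r ^ k := pow_le_pow_of_le_one hr0.le (by linarith) hk.le
    refine (mul_le_mul_of_nonneg_right h1 (by positivity)).trans ?_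
    rw [mul_div_assoc', mul_div_cancel_left₀ _ (Nat.cast_ne_zero.2 n.factorial_ne_zero)]
    exact mul_le_mul_of_nonneg_left h2 (by linarith)
  have hck : ‖c k - a k‖ ≤ ε / 2 := by
    rw [hc]
    simp only
    split_ifs with h
    · rw [h]; exact ha₀
    · rw [sub_self, norm_zero]; linarith
  linarith [norm_sub_le_norm_sub_add_norm_sub (iteratedDeriv k riemannZeta (3 / 4 + t * I))
    (c k) (a k), hdiff.trans hbound]

end FA.Voronin.Summary
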