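import Fermat.Agent.Voronin.Bagchi
import Fermat.Agent.Root.SummaryVoronin
import Fermat.Agent.Root.SummaryVonKoch

/-!
# Universality with positive density, and Bagchi's theorem

The shifts of Voronin's theorem have positive lower density, while those with a zero of `ζ` in the
disc have density `0` (Bohr and Landau). So the Riemann hypothesis holds iff, on every disc
`‖s‖ ≤ r < 1/4` about every `3/4 + iγ`, translates `ζ (s + iτ)` approximate `ζ` itself with
positive lower density of `τ` (Bagchi 1981).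

That the density of the universal shifts is a limit is not claimed.
-/

set_option autoImplicit false

noncomputable section

namespace FA.Voronin.Summary

open Complex Filter MeasureTheory
open scoped Topology

/-- **Voronin's theorem with positive lower density.** -/
theorem voronin_universality_density {r : ℝ} (hr : 0 < r) (hr4 : r < 1 / 4) {f : ℂ → ℂ}
    (hfc : ContinuousOn f (Metric.closedBall 0 r))
    (hfd : DifferentiableOn ℂ f (Metric.ball 0 r))
    (hf0 : ∀ s ∈ Metric.closedBall (0 : ℂ) r, f s ≠ 0) {ε : ℝ} (hε : 0 < ε) :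
    ∃ c : ℝ, 0 < c ∧ ∀ᶠ T : ℝ in atTop, c * T ≤ volume.real
      {t ∈ Set.Icc 0 T | ∀ s : ℂ, ‖s‖ ≤ r → ‖riemannZeta (s + 3 / 4 + t * I) - f s‖ < ε} :=
  exists_zeta_universal_density hr hr4 hfc hfd hf0 hε 0

/-- **Almost no disc along `re s = 3/4` holds a zero** (after Bohr and Landau). -/
theorem zero_shifts_density_zero {r : ℝ} (hr4 : r < 1 / 4) :
    Tendsto (fun T : ℝ => volume.real {t ∈ Set.Icc 3 T | ∃ s : ℂ, ‖s‖ ≤ r ∧
      riemannZeta (3 / 4 + t * I + s) = 0} / T) atTop (𝓝 0) := by
  rw [Metric.tendsto_nhds]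
  intro η hη
  filter_upwards [eventually_zero_shifts_le hr4 (half_pos hη), eventually_gt_atTop (0 : ℝ)]
    with T hT hT0
  rw [Real.dist_eq, sub_zero, abs_of_nonneg (div_nonneg measureReal_nonneg hT0.le),
    div_lt_iff₀ hT0]
  nlinarith

/-- **Bagchi's theorem.** -/
theorem bagchi : RiemannHypothesis ↔
    ∀ γ r ε : ℝ, 0 < r → r < 1 / 4 → 0 < ε → ∃ c : ℝ, 0 < c ∧ ∀ᶠ T : ℝ in atTop,
      c * T ≤ volume.real {τ ∈ Set.Icc 0 T | ∀ s : ℂ, ‖s‖ ≤ r →
        ‖riemannZeta (s + 3 / 4 + γ * I + τ * I) - riemannZeta (s + 3 / 4 + γ * I)‖ < ε} := by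
  refine ⟨fun hRH γ r ε hr hr4 hε => ?_, fun h => ?_⟩
  · have hre : ∀ s ∈ Metric.closedBall (0 : ℂ) r,
        1 / 2 < (s + 3 / 4 + γ * I).re ∧ (s + 3 / 4 + γ * I).re < 1 := fun s hs => by
      rw [Metric.mem_closedBall, dist_zero_right] at hs
      have := abs_le.1 ((Complex.abs_re_le_norm s).trans hs)
      simp
      constructor <;> linarith
    have hne : ∀ s ∈ Metric.closedBall (0 : ℂ) r, s + 3 / 4 + γ * I ≠ 1 := fun s hs h => by
      have := (hre s hs).2
      rw [h] at this
      simp at this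
    have hd : ∀ s ∈ Metric.closedBall (0 : ℂ) r,
        DifferentiableAt ℂ (fun s => riemannZeta (s + 3 / 4 + γ * I)) s := fun s hs =>
      (differentiableAt_riemannZeta (hne s hs)).comp s
        ((differentiableAt_id.add_const _).add_const _)
    have hf0 : ∀ s ∈ Metric.closedBall (0 : ℂ) r, riemannZeta (s + 3 / 4 + γ * I) ≠ 0 :=
      fun s hs h0 => by
        obtain ⟨h1, h2⟩ := hre s hs
        refine h1.ne' (hRH _ h0 ?_ (hne s hs))
        rintro ⟨n, hn⟩
        rw [hn] at h1
        simp at h1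
        linarith [(Nat.cast_nonneg n : (0 : ℝ) ≤ n)]
    obtain ⟨c, hc, hev⟩ := exists_zeta_universal_density hr hr4
      (fun s hs => (hd s hs).continuousAt.continuousWithinAt)
      (fun s hs => (hd s (Metric.ball_subset_closedBall hs)).differentiableWithinAt) hf0 hε |γ|
    refine ⟨c / 2, half_pos hc, ?_⟩
    filter_upwards [(tendsto_atTop_add_const_right atTop γ tendsto_id).eventually hev,
      eventually_ge_atTop (2 * |γ|)] with T hT hTγ
    simp only [id_eq] at hT
    refine le_trans ?_ (hT.trans (le_of_eq_of_le ?_ (measureReal_mono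
      (μ := volume) (s₁ := (fun τ => τ + γ) ⁻¹' {t ∈ Set.Icc |γ| (T + γ) | ∀ s : ℂ, ‖s‖ ≤ r →
        ‖riemannZeta (s + 3 / 4 + t * I) - riemannZeta (s + 3 / 4 + γ * I)‖ < ε}) ?_ ?_)))
    · nlinarith [neg_abs_le γ]
    · rw [measureReal_def, measureReal_def, measure_preimage_add_right]
    · rintro τ ⟨⟨h1, h2⟩, hτ⟩
      refine ⟨⟨by linarith [le_abs_self γ], by linarith⟩, fun s hs => ?_⟩
      convert hτ s hs using 4
      push_cast
      ring
    · exact ((measure_mono fun t ht => ht.1).trans_lt measure_Icc_lt_top).ne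
  · refine FA.VonKoch.Summary.riemannHypothesis_iff_psi.2
      ((FA.VonKoch.Summary.zeroFree_iff_psi le_rfl (by norm_num)).1 fun s hs _ => ?_)
    exact zeta_ne_zero_right (fun w => zeta_ne_zero_of_recurrent h) hs

end FA.Voronin.Summary
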