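import Fermat.Agent.BakerExplicit.SimultaneousPell

/-!
# An explicit theorem of Baker for algebraic numbers and simultaneous Pell equations

* `baker_algebraic_explicit`: for a number field `K` of degree at most `d` with an embedding `ψ`,
  `n` elements `α i` with `D α i` integral, `D` and every conjugate at most `2 ^ h`, different
  exponent vectors giving different products, any logarithms `l i` of the `ψ (α i)` with
  `‖l i‖ ≤ h`, and integers `b i` not all zero with `|b i| ≤ 2 ^ m`,
  `‖∑ b i l i‖ ≥ 1 / 2 ^ ((2 ^ (4 n² + 18) d (h + m)) ^ (6 n² + 6 n + 6))`. The field enters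
  through its degree only.
* `simultaneous_pell_effective`: when `a b` is not a square, the solutions of
  `x ² = a z ² + 1`, `y ² = b z ² + 1` have `z` below an explicit function of a bound `2 ^ h` for
  `a`, `b` and the two fundamental solutions; `simultaneous_pell_two_three` is an instance.
* `simultaneous_pell_finite`: they are finitely many (classically a case of Siegel's theorem).

Not claimed here (`SummaryThueEffective` has the theorem without independence and the effective
Thue equation): good exponents, the inhomogeneous form, `p`-adic logarithms of algebraic numbers,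
a bound for the fundamental solutions in terms of `a` and `b`, the bound of three solutions or
fewer.
-/

set_option autoImplicit false

noncomputable section

namespace FA.BakerExplicit.Algebraic

/-- **Baker's theorem for algebraic numbers, explicit.** -/
theorem baker_algebraic_explicit {K : Type*} [Field K] [NumberField K] {d : ℕ}
    (hd : Module.finrank ℚ K ≤ d) (ψ : K →+* ℂ) {n : ℕ} {α : Fin n → K} {D : ℕ} (hD0 : 0 < D)
    (hint : ∀ i, IsIntegral ℤ ((D : K) * α i)) {h m : ℕ} (hDh : D ≤ 2 ^ h)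
    (hαh : ∀ i (σ : K →+* ℂ), ‖σ (α i)‖ ≤ (2 : ℝ) ^ h) {l : Fin n → ℂ}
    (hexp : ∀ i, Complex.exp (l i) = ψ (α i)) (hl : ∀ i, ‖l i‖ ≤ h)
    (hind : ∀ u v : Fin n → ℕ, ∏ i, α i ^ u i = ∏ i, α i ^ v i → u = v)
    {b : Fin n → ℤ} (hb0 : b ≠ 0) (hbm : ∀ i, (b i).natAbs ≤ 2 ^ m) :
    1 / (2 : ℝ) ^ ((2 ^ (4 * n ^ 2 + 18) * d * (h + m)) ^ (6 * n ^ 2 + 6 * n + 6)) ≤
      ‖∑ i, (b i : ℂ) * l i‖ :=
  baker_algebraic_bound hd ψ hD0 hint hDh
    (fun i => house_le_of_forall (by positivity) (hαh i)) hexp hl (fun u v e => hind u v e) hb0 hbm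

/-- **Simultaneous Pell equations, effectively.** -/
theorem simultaneous_pell_effective {a b : ℕ} {ε : Pell.Solution₁ (a : ℤ)}
    {η : Pell.Solution₁ (b : ℤ)} (hε : Pell.IsFundamental ε) (hη : Pell.IsFundamental η)
    (hab : ¬IsSquare (a * b)) {h : ℕ} (hεh : ε.x ≤ 2 ^ h) (hηh : η.x ≤ 2 ^ h) (hah : a ≤ 2 ^ h)
    (hbh : b ≤ 2 ^ h) {x y z : ℕ} (hx : x ^ 2 = a * z ^ 2 + 1) (hy : y ^ 2 = b * z ^ 2 + 1) :
    z < 2 ^ (SimultaneousPell.pellBound h + 1) :=
  SimultaneousPell.z_lt_pellBound hε hη hab hεh hηh hah hbh hx hy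

/-- Finiteness. -/
theorem simultaneous_pell_finite {a b : ℕ} (ha : ¬IsSquare a) (hb : ¬IsSquare b)
    (hab : ¬IsSquare (a * b)) :
    {t : ℕ × ℕ × ℕ | t.1 ^ 2 = a * t.2.2 ^ 2 + 1 ∧ t.2.1 ^ 2 = b * t.2.2 ^ 2 + 1}.Finite :=
  SimultaneousPell.solutions_finite ha hb hab

/-- An instance: `2 z ² + 1` and `3 z ² + 1` are both squares only below an explicit bound. -/
theorem simultaneous_pell_two_three {x y z : ℕ} (hx : x ^ 2 = 2 * z ^ 2 + 1)
    (hy : y ^ 2 = 3 * z ^ 2 + 1) : z < 2 ^ (SimultaneousPell.pellBound 2 + 1) := by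
  refine simultaneous_pell_effective (a := 2) (b := 3)
    (ε := Pell.Solution₁.mk 3 2 (by norm_num)) (η := Pell.Solution₁.mk 2 1 (by norm_num))
    ⟨by simp, by simp, fun {t} ht => ?_⟩ ⟨by simp, by simp, fun {t} ht => ?_⟩ ?_
    (by simp) (by simp) (by norm_num) (by norm_num) hx hy
  · simp only [Pell.Solution₁.x_mk]
    by_contra h3
    have h2 : t.x = 2 := by omega
    have h5 := t.prop
    rw [h2] at h5
    omega
  · simp only [Pell.Solution₁.x_mk]
    omega
  · rintro ⟨r, hr⟩
    rcases le_or_gt r 2 with h2 | h2 <;> nlinarith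

end FA.BakerExplicit.Algebraic

end
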