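import Fermat.Agent.BakerCubeRoot.Main

/-!
# Baker's effective irrationality measure for the cube root of two

`|∛2 - p / q| > 10 ^ (-6) / |q| ^ 2.955` for every fraction `p / q`; hence an effective bound
for the solutions of `x ^ 3 - 2 * y ^ 3 = m`.
-/

set_option autoImplicit false

noncomputable section

open Polynomial

namespace FA.Summary

/-- **Baker (1964)**: an effective measure of irrationality of the cube root of two, with
exponent `2.955 < 3`. -/
theorem baker_cubeRootTwo_measure (p q : ℤ) (hq : q ≠ 0) :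
    1 / 10 ^ 6 / |(q : ℝ)| ^ ((2955 : ℝ) / 1000) < |(2 : ℝ) ^ ((1 : ℝ) / 3) - p / q| := by
  have h := BakerCubeRoot.irrationality_measure p q hq
  rwa [show (2955 : ℝ) / 1000 = 591 / 200 by norm_num]

/-- **An effective solution of the Thue equation** `x ^ 3 - 2 * y ^ 3 = m`:
`|y| ^ 0.045 ≤ 10 ^ 6 * |m|`, written in integers, and `|x| ≤ 2 |y| + |m|`. -/
theorem baker_thue_cubic_bound {x y m : ℤ} (h : x ^ 3 - 2 * y ^ 3 = m) :
    |y| ^ 9 ≤ (10 ^ 6 * |m|) ^ 200 ∧ |x| ≤ 2 * |y| + |m| :=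
  BakerCubeRoot.thue_bound h

/-- An explicit box containing all the solutions of `x ^ 3 - 2 * y ^ 3 = m`. -/
theorem baker_thue_cubic_box {x y m : ℤ} (h : x ^ 3 - 2 * y ^ 3 = m) :
    |y| ≤ (10 ^ 6 * |m|) ^ 23 ∧ |x| ≤ 2 * (10 ^ 6 * |m|) ^ 23 + |m| :=
  BakerCubeRoot.thue_box h

/-- **Thue and Siegel**: rational approximations to `(1 + z) ^ ν`, with an explicit error. -/
theorem thue_siegel_pade_binomial {ν : ℝ} (hν0 : 0 < ν) (hν1 : ν < 1) :
    ∃ P Q : ℕ → ℝ[X], (∀ n, (P n).natDegree ≤ n ∧ (Q n).natDegree ≤ n) ∧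
      ∀ (n : ℕ) (z : ℝ), 0 < z → z ≤ 1 / 2 →
        0 < (P n).eval z ∧
        |(Q n).eval z * (1 + z) ^ ν - (P n).eval z| ≤
          ν * z ^ (2 * n + 1) / (((n : ℝ) + 1) * n.centralBinom) ∧
        (P n).eval z * (Q (n + 1)).eval z ≠ (P (n + 1)).eval z * (Q n).eval z := by
  refine ⟨BakerCubeRoot.pade ν, BakerCubeRoot.pade (-ν), fun n =>
    ⟨BakerCubeRoot.natDegree_pade_le ν n, BakerCubeRoot.natDegree_pade_le (-ν) n⟩,
    fun n z hz0 hz => ?_⟩
  have hν : |ν| < 1 := by rwa [abs_of_pos hν0]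
  have hP := BakerCubeRoot.eval_pos hν n hz0.le
  have hP1 := BakerCubeRoot.eval_pos hν (n + 1) hz0.le
  refine ⟨hP, ?_, fun h => ?_⟩
  · have hb := BakerCubeRoot.ratio_bound hν0.le hν1 n hz0.le hz
    have hc := BakerCubeRoot.centralBinom_le_eval hν n hz0.le
    have hc0 : (0 : ℝ) < n.centralBinom := Nat.cast_pos.2 n.centralBinom_pos
    have e : (BakerCubeRoot.pade (-ν) n).eval z * (1 + z) ^ ν - (BakerCubeRoot.pade ν n).eval z =
        (BakerCubeRoot.pade ν n).eval z * (BakerCubeRoot.ratio ν n z - 1) := by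
      rw [BakerCubeRoot.ratio]
      field_simp
    rw [e, abs_mul, abs_of_pos hP]
    refine (mul_le_mul_of_nonneg_left hb hP.le).trans ?_
    rw [show (BakerCubeRoot.pade ν n).eval z * (ν * z ^ (2 * n + 1) /
        (((n : ℝ) + 1) * (BakerCubeRoot.pade ν n).eval z ^ 2)) = ν * z ^ (2 * n + 1) /
        (((n : ℝ) + 1) * (BakerCubeRoot.pade ν n).eval z) by field_simp]
    gcongr
  · have hlt := BakerCubeRoot.ratio_succ_lt hν0 hν1 n hz0 (hz.trans (by norm_num))
    rw [BakerCubeRoot.ratio, BakerCubeRoot.ratio, div_lt_div_iff₀ hP1 hP] at hlt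
    refine hlt.ne ?_
    linear_combination (1 + z) ^ ν * h

end FA.Summary

end
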