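import Fermat.Agent.BakerExplicit.Applications

/-!
# An explicit theorem of Baker for logarithms of rationals

* `baker_explicit`: for positive rationals `p i / q i`, `i < n`, with numerators and denominators
  at most `2 ^ h` and logarithms independent over `ℚ`, and integers `b i`, not all `0`, at most
  `2 ^ m` in absolute value,
  `|∑ b i log (p i / q i)| ≥ 2 ^ -((2 ^ (4 n² + 12) (h + m)) ^ (6 n² + 6 n + 6))`.
* `primes_explicit`: the same for different primes.
* `smooth_gap_effective`: different numbers composed of given primes are at least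
  `max / 2 ^ ((C log log max) ^ κ + 1)` apart.
* `smooth_difference_effective`, `smooth_difference_finite`: the solutions of `x - y = c` in
  numbers composed of given primes are bounded explicitly.

Not claimed: a good exponent (Baker and Wüstholz have `1` for `m`), algebraic numbers, a `p`-adic
analogue, the general `S`-unit equation.
-/

set_option autoImplicit false

noncomputable section

namespace FA.BakerExplicit.Summary

/-- **Baker's theorem, explicit.** -/
theorem baker_explicit {n : ℕ} {num den : Fin n → ℕ} (hN : ∀ i, 0 < num i) (hD : ∀ i, 0 < den i)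
    {h m : ℕ} (hNh : ∀ i, num i ≤ 2 ^ h) (hDh : ∀ i, den i ≤ 2 ^ h)
    (hind : ∀ c : Fin n → ℤ,
      ∑ i, (c i : ℝ) * Real.log ((num i : ℝ) / den i) = 0 → c = 0)
    {b : Fin n → ℤ} (hb0 : b ≠ 0) (hbm : ∀ i, (b i).natAbs ≤ 2 ^ m) :
    1 / (2 : ℝ) ^ ((2 ^ (4 * n ^ 2 + 12) * (h + m)) ^ (6 * n ^ 2 + 6 * n + 6)) ≤
      |∑ i, (b i : ℝ) * Real.log ((num i : ℝ) / den i)| :=
  FA.BakerExplicit.baker_bound hN hD hNh hDh hind hb0 hbm

/-- The bound for the logarithms of different primes. -/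
theorem primes_explicit {n : ℕ} {p : Fin n → ℕ} (hp : ∀ i, (p i).Prime)
    (hinj : Function.Injective p) {h m : ℕ} (hh : ∀ i, p i ≤ 2 ^ h) {b : Fin n → ℤ} (hb0 : b ≠ 0)
    (hbm : ∀ i, (b i).natAbs ≤ 2 ^ m) :
    1 / (2 : ℝ) ^ ((2 ^ (4 * n ^ 2 + 12) * (h + m)) ^ (6 * n ^ 2 + 6 * n + 6)) ≤
      |∑ i, (b i : ℝ) * Real.log (p i)| :=
  FA.BakerExplicit.primes_bound hp hinj hh hb0 hbm

/-- **Effective gaps between numbers composed of given primes.** -/
theorem smooth_gap_effective {s : Finset ℕ} (hs : ∀ q ∈ s, q.Prime) {h : ℕ}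
    (hh : ∀ q ∈ s, q ≤ 2 ^ h) {x y : ℕ} (hx : x ≠ 0) (hy : y ≠ 0) (hxy : x ≠ y)
    (hxs : x.primeFactors ⊆ s) (hys : y.primeFactors ⊆ s) :
    (max x y : ℕ) / (2 : ℝ) ^
        ((2 ^ (4 * s.card ^ 2 + 12) * (h + (Nat.log 2 (Nat.log 2 (max x y)) + 1))) ^
          (6 * s.card ^ 2 + 6 * s.card + 6) + 1) ≤
      |(x : ℝ) - y| :=
  FA.BakerExplicit.gap_bound hs hh hx hy hxy hxs hys

/-- **Effective solution of `x - y = c` in numbers composed of given primes.** -/
theorem smooth_difference_effective {s : Finset ℕ} (hs : ∀ q ∈ s, q.Prime) {h : ℕ}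
    (hh : ∀ q ∈ s, q ≤ 2 ^ h) {x y : ℕ} (hx : x ≠ 0) (hy : y ≠ 0) (hxs : x.primeFactors ⊆ s)
    (hys : y.primeFactors ⊆ s) {c : ℕ} (hc : c ≠ 0) (hxy : y + c = x) :
    x < 2 ^ (FA.BakerExplicit.differenceBound s.card h c + 1) :=
  FA.BakerExplicit.difference_bound hs hh hx hy hxs hys hc hxy

/-- Finiteness. -/
theorem smooth_difference_finite {s : Finset ℕ} (hs : ∀ q ∈ s, q.Prime) {c : ℕ} (hc : c ≠ 0) :
    {t : ℕ × ℕ | t.1 ≠ 0 ∧ t.2 ≠ 0 ∧ t.1.primeFactors ⊆ s ∧ t.2.primeFactors ⊆ s ∧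
      t.2 + c = t.1}.Finite :=
  FA.BakerExplicit.difference_finite hs hc

end FA.BakerExplicit.Summary

end
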