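import Fermat.Agent.BalazardSaiasYor.Lines
import Fermat.Agent.NymanBeurling.Easy

/-!
# The criterion of Balazard, Saias and Yor

* `FA.Summary.balazard_saias_yor_integrable`, `FA.Summary.balazard_saias_yor_nonneg`:
  `log |ζ (1/2 + it)| / (1/4 + t²)` is integrable over `ℝ` with nonnegative integral.
* `FA.Summary.balazard_saias_yor` (1999): the integral is `0` iff the Riemann hypothesis holds.
-/

set_option autoImplicit false

noncomputable section

open MeasureTheory Set Complex

namespace FA.Summary

open FA.BalazardSaiasYor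

private theorem bsy_split : ∀ᵐ θ ∂circ, Real.log ‖riemannZeta (bd θ)‖ = logBd θ - sing θ := by
  filter_upwards [ae_ne, ae_bd_ne_zero] with θ hθ hne
  have hs1 : bd θ ≠ 1 := fun h => by
    have := bd_re hθ
    rw [h, Complex.one_re] at this
    norm_num at this
  rw [logBd, ← norm_sub_bd_one θ hθ, riemannZeta_eq_inv_sub_mul hs1, norm_mul, norm_inv,
    Real.log_mul (inv_ne_zero (norm_ne_zero_iff.2 (sub_ne_zero.2 hs1))) (norm_ne_zero_iff.2 hne),
    Real.log_inv]
  ring

private theorem bsy_integral :
    ∫ t : ℝ, Real.log ‖riemannZeta (1 / 2 + t * Complex.I)‖ / (1 / 4 + t ^ 2) =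
      ∫ θ, logBd θ ∂circ := by
  rw [← integral_comp_eq (fun s => Real.log ‖riemannZeta s‖), integral_congr_ae bsy_split,
    integral_sub boundary_nonneg.1 integrable_sing, integral_sing, sub_zero]

/-- `log |ζ (1/2 + it)| / (1/4 + t²)` is integrable, with no hypothesis. -/
theorem balazard_saias_yor_integrable :
    Integrable fun t : ℝ =>
      Real.log ‖riemannZeta (1 / 2 + t * Complex.I)‖ / (1 / 4 + t ^ 2) :=
  (integrable_comp_iff (fun s => Real.log ‖riemannZeta s‖)).1
    ((boundary_nonneg.1.sub integrable_sing).congr (bsy_split.mono fun _ h => h.symm))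

/-- The integral is nonnegative, with no hypothesis. -/
theorem balazard_saias_yor_nonneg :
    0 ≤ ∫ t : ℝ, Real.log ‖riemannZeta (1 / 2 + t * Complex.I)‖ / (1 / 4 + t ^ 2) := by
  rw [bsy_integral]
  exact boundary_nonneg.2

/-- **Balazard, Saias and Yor.** -/
theorem balazard_saias_yor : RiemannHypothesis ↔
    ∫ t : ℝ, Real.log ‖riemannZeta (1 / 2 + t * Complex.I)‖ / (1 / 4 + t ^ 2) = 0 := by
  rw [bsy_integral]
  refine ⟨boundary_zero, fun h => FA.OneSided.riemannHypothesis_of_zero_free fun s hs hs1 hz => ?_⟩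
  have hne : s ≠ 1 := fun h' => by rw [h', Complex.one_re] at hs1; exact lt_irrefl _ hs1
  exact (boundary_pos hs hne (FA.OneSided.zeta₁_eq_zero_of_zeta hne hz)).ne' h

end FA.Summary

end
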