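import Fermat.Agent.ZetaOdd.Rivoal

/-!
# The theorem of Ball and Rivoal

The space spanned over `ℚ` by `1, ζ(3), ζ(5), …` up to `ζ(s)` has dimension at least `log s / 30`
(Ball and Rivoal, 2001), so at least `log s / 30 - 1` of these odd zeta values are irrational.
The constant is not optimised and the asymptotic constant `1 / (1 + log 2)` is not claimed.
-/

set_option autoImplicit false

noncomputable section

namespace FA.ZetaOdd.Summary

/-- **Ball and Rivoal: `dim_ℚ (ℚ + ℚ ζ(3) + ℚ ζ(5) + ⋯ + ℚ ζ(s)) ≥ log s / 30`.** -/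
theorem ball_rivoal (s : ℕ) : Real.log s / 30 ≤ (Module.finrank ℚ (Submodule.span ℚ
    (insert (1 : ℝ)
      {x : ℝ | ∃ k, Odd k ∧ 3 ≤ k ∧ k ≤ s ∧ x = ∑' n : ℕ, 1 / ((n : ℝ) + 1) ^ k})) : ℝ) := by
  set T : Set ℝ := insert (1 : ℝ)
    {x : ℝ | ∃ k, Odd k ∧ 3 ≤ k ∧ k ≤ s ∧ x = ∑' n : ℕ, 1 / ((n : ℝ) + 1) ^ k} with hT
  have hfin : T.Finite := by
    refine (((Set.finite_Iic s).image
      fun k => ∑' n : ℕ, 1 / ((n : ℝ) + 1) ^ k).subset ?_).insert _
    rintro x ⟨k, -, -, hk, rfl⟩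
    exact ⟨k, hk, rfl⟩
  have := FiniteDimensional.span_of_finite ℚ hfin
  set m := Module.finrank ℚ (Submodule.span ℚ T)
  set b := Module.finBasis ℚ (Submodule.span ℚ T)
  have hspan : ∀ x ∈ T, x ∈ Submodule.span ℚ (Set.range fun i => ((b i : _) : ℝ)) := by
    intro x hx
    have h := congrArg (fun y : Submodule.span ℚ T => (y : ℝ))
      (b.sum_repr ⟨x, Submodule.subset_span hx⟩)
    simp only [Submodule.coe_sum, Submodule.coe_smul] at h
    rw [← h]
    exact Submodule.sum_mem _ fun i _ => Submodule.smul_mem _ _ (Submodule.subset_span ⟨i, rfl⟩)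
  have hm : 1 ≤ m := by
    refine Submodule.one_le_finrank_iff.2 fun hbot => ?_
    have h1 : (1 : ℝ) ∈ Submodule.span ℚ T := Submodule.subset_span (Set.mem_insert _ _)
    rw [hbot, Submodule.mem_bot] at h1
    exact one_ne_zero h1
  have hgt : ∀ v, v < brLevel v := fun v => by
    have : v + 9 ≤ 2 ^ (v + 5) * (v + 9) := Nat.le_mul_of_pos_left _ (by positivity)
    unfold brLevel; omega
  obtain ⟨v, hv, hlt⟩ : ∃ v, v + 15 ≤ 15 * m ∧ s < brLevel (v + 1) := by
    by_cases hs : s < brLevel 0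
    · exact ⟨0, by omega, lt_of_lt_of_le hs (by norm_num [brLevel])⟩
    set v := Nat.findGreatest (fun v => brLevel v ≤ s) s with hv
    have hvs : brLevel v ≤ s :=
      Nat.findGreatest_spec (P := fun v => brLevel v ≤ s) (Nat.zero_le s) (not_lt.1 hs)
    refine ⟨v, add_le_of_mem_span (fun i => ((b i : _) : ℝ)) (hspan 1 (Set.mem_insert _ _))
      fun k hodd h3 hk => hspan _ (Set.mem_insert_of_mem _ ⟨k, hodd, h3, hk.trans hvs, rfl⟩), ?_⟩
    by_contra hle
    have hv1 : v + 1 ≤ s := by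
      have := hgt v
      omega
    exact Nat.findGreatest_is_greatest (Nat.lt_succ_self _) hv1 (not_lt.1 hle)
  rcases Nat.eq_zero_or_pos s with rfl | hs0
  · simp
  have hbr : brLevel (v + 1) ≤ 2 ^ (2 * v + 12) := by
    have h1 : v + 10 < 2 ^ (v + 5) := by
      calc v + 10 < 16 * (v + 1) := by omega
        _ ≤ 16 * 2 ^ (v + 1) := by gcongr; exact Nat.lt_two_pow_self.le
        _ = 2 ^ (v + 5) := by rw [pow_add 2 v 5, pow_succ]; ring
    have h2 : 4 ≤ 2 ^ (v + 6) :=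
      le_trans (by norm_num : 4 ≤ 2 ^ 2) (Nat.pow_le_pow_right two_pos (by omega))
    calc brLevel (v + 1) ≤ 2 ^ (v + 6) * (v + 10) + 2 ^ (v + 6) := by
          rw [brLevel, show v + 1 + 5 = v + 6 by ring, show v + 1 + 9 = v + 10 by ring]; omega
      _ = 2 ^ (v + 6) * (v + 10 + 1) := by ring
      _ ≤ 2 ^ (v + 6) * 2 ^ (v + 6) := by
          gcongr
          have : 2 ^ (v + 5) ≤ 2 ^ (v + 6) := Nat.pow_le_pow_right two_pos (by omega)
          omega
      _ = 2 ^ (2 * v + 12) := by rw [← pow_add]; ring_nf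
  have hlog : Real.log s ≤ 2 * (v : ℝ) + 12 := by
    have h1 : (s : ℝ) ≤ (2 : ℝ) ^ (2 * v + 12) := by exact_mod_cast (hlt.le.trans hbr)
    refine le_trans (Real.log_le_log (by exact_mod_cast hs0) h1) ?_
    rw [Real.log_pow]
    push_cast
    have h3 : Real.log 2 ≤ 1 := Real.log_two_lt_d9.le.trans (by norm_num)
    nlinarith [Real.log_pos one_lt_two]
  have hvr : (v : ℝ) + 15 ≤ 15 * (m : ℝ) := by exact_mod_cast hv
  rw [div_le_iff₀ (by norm_num)]
  linarith

/-- **Ball and Rivoal, for the zeta function.** -/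
theorem ball_rivoal_riemannZeta (s : ℕ) : Real.log s / 30 ≤ (Module.finrank ℚ (Submodule.span ℚ
    (insert (1 : ℂ) {z : ℂ | ∃ k : ℕ, Odd k ∧ 3 ≤ k ∧ k ≤ s ∧ z = riemannZeta k})) : ℝ) := by
  set f : ℝ →ₗ[ℚ] ℂ := Complex.ofRealCLM.toLinearMap.restrictScalars ℚ
  have hval : ∀ k : ℕ, 3 ≤ k →
      riemannZeta k = ((∑' n : ℕ, 1 / ((n : ℝ) + 1) ^ k : ℝ) : ℂ) := by
    intro k hk
    rw [zeta_eq_tsum_one_div_nat_add_one_cpow
      (by rw [Complex.natCast_re]; exact_mod_cast (show 1 < k by omega)), Complex.ofReal_tsum]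
    exact tsum_congr fun n => by rw [Complex.cpow_natCast]; push_cast; rfl
  have himage : f '' insert (1 : ℝ)
      {x : ℝ | ∃ k, Odd k ∧ 3 ≤ k ∧ k ≤ s ∧ x = ∑' n : ℕ, 1 / ((n : ℝ) + 1) ^ k} =
      insert (1 : ℂ) {z : ℂ | ∃ k : ℕ, Odd k ∧ 3 ≤ k ∧ k ≤ s ∧ z = riemannZeta k} := by
    rw [Set.image_insert_eq]
    congr 1
    ext z
    constructor
    · rintro ⟨x, ⟨k, h1, h2, h3, rfl⟩, rfl⟩
      exact ⟨k, h1, h2, h3, (hval k h2).symm⟩
    · rintro ⟨k, h1, h2, h3, rfl⟩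
      exact ⟨_, ⟨k, h1, h2, h3, rfl⟩, (hval k h2).symm⟩
  refine le_trans (ball_rivoal s) (le_of_eq ?_)
  rw [← himage, ← Submodule.map_span,
    (Submodule.equivMapOfInjective f Complex.ofReal_injective _).finrank_eq]

/-- At least `log s / 30 - 1` of `ζ(3), ζ(5), …` up to `ζ(s)` are irrational. -/
theorem ball_rivoal_irrational (s : ℕ) : Real.log s / 30 - 1 ≤
    ({k : ℕ | Odd k ∧ 3 ≤ k ∧ k ≤ s ∧ Irrational (∑' n : ℕ, 1 / ((n : ℝ) + 1) ^ k)}.ncard : ℝ) := by
  classical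
  set f : ℕ → ℝ := fun k => ∑' n : ℕ, 1 / ((n : ℝ) + 1) ^ k
  set I := (Finset.Icc 3 s).filter fun k => Odd k ∧ Irrational (f k) with hI
  have hset : {k : ℕ | Odd k ∧ 3 ≤ k ∧ k ≤ s ∧ Irrational (f k)} = ↑I := by
    ext k
    simp only [hI, Finset.coe_filter, Finset.mem_Icc, Set.mem_ofPred_eq]
    tauto
  rw [hset, Set.ncard_coe_finset, sub_le_iff_le_add]
  refine le_trans (ball_rivoal s) ?_
  have hle : Submodule.span ℚ (insert (1 : ℝ)
      {x : ℝ | ∃ k, Odd k ∧ 3 ≤ k ∧ k ≤ s ∧ x = f k}) ≤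
      Submodule.span ℚ (↑(insert (1 : ℝ) (I.image f)) : Set ℝ) := by
    rw [Submodule.span_le]
    rintro x (rfl | ⟨k, hodd, h3, hks, rfl⟩)
    · exact Submodule.subset_span (Finset.mem_insert_self _ _)
    by_cases hk : Irrational (f k)
    · exact Submodule.subset_span (Finset.mem_insert_of_mem (Finset.mem_image_of_mem f
        (Finset.mem_filter.2 ⟨Finset.mem_Icc.2 ⟨h3, hks⟩, hodd, hk⟩)))
    · obtain ⟨q, hq⟩ := not_not.1 hk
      rw [← hq, show ((q : ℝ)) = q • (1 : ℝ) by rw [Rat.smul_def, mul_one]]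
      exact Submodule.smul_mem _ _ (Submodule.subset_span (Finset.mem_insert_self _ _))
  have h1 := (Submodule.finrank_mono hle).trans (finrank_span_finset_le_card _)
  have h2 := h1.trans ((Finset.card_insert_le _ _).trans
    (Nat.add_le_add_right Finset.card_image_le 1))
  exact_mod_cast h2

end FA.ZetaOdd.Summary

end
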