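import Fermat.Agent.FreimanTheorem.Main

/-!
# Summary: Freiman's theorem on sets of integers with small doubling

* `freiman`: if `#(A + A) ≤ K #A` then `A` lies in a generalised arithmetic progression of
  dimension bounded in terms of `K` and of size at most a constant (depending on `K`) times `#A`;
* `bogolyubov`: for `B ⊆ ℤ / q` the set `2 B - 2 B` contains a Bohr set of radius `1 / 4` with at
  most `(q / #B) ^ 2` frequencies.
-/

set_option autoImplicit false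

noncomputable section

namespace FA.FreimanTheorem.Summary

open Finset
open scoped Pointwise

/-- **Freiman's theorem.** -/
theorem freiman (K : ℝ) : ∃ d₀ C : ℕ, ∀ A : Finset ℤ, A.Nonempty → (#(A + A) : ℝ) ≤ K * #A →
    ∃ d, d ≤ d₀ ∧ ∃ (a₀ : ℤ) (v : Fin d → ℤ) (L : Fin d → ℕ),
      ∏ i, L i ≤ C * #A ∧
      ∀ a ∈ A, ∃ x : Fin d → ℕ, (∀ i, x i < L i) ∧ a = a₀ + ∑ i, (x i : ℤ) * v i := by
  refine ⟨freimanDim ⌈K⌉₊, freimanConst ⌈K⌉₊, fun A hA hK => freiman_explicit hA ?_⟩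
  have h : (#(A + A) : ℝ) ≤ (⌈K⌉₊ : ℝ) * #A :=
    hK.trans (mul_le_mul_of_nonneg_right (Nat.le_ceil K) (Nat.cast_nonneg _))
  exact_mod_cast h

/-- **Bogolyubov's lemma.** -/
theorem bogolyubov {q : ℕ} [NeZero q] (B : Finset (ZMod q)) (hB : B.Nonempty) :
    ∃ Γ : Finset (ZMod q), #Γ * #B ^ 2 ≤ q ^ 2 ∧ ∀ x : ZMod q,
      (∀ r ∈ Γ, ∃ m : ℤ, (m : ZMod q) = r * x ∧ 4 * |m| ≤ q) →
        ∃ b₁ ∈ B, ∃ b₂ ∈ B, ∃ b₃ ∈ B, ∃ b₄ ∈ B, b₁ + b₂ - b₃ - b₄ = x := by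
  obtain ⟨Γ, h1, h2⟩ := FA.FreimanTheorem.bogolyubov hB
  exact ⟨Γ, h1, fun x hx => h2 x fun r hr =>
    let ⟨_, hm, hb⟩ := hx r hr
    re_stdAddChar_nonneg hm hb⟩

end FA.FreimanTheorem.Summary
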