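import Fermat.Agent.BalogSzemerediGowers.Main
import Fermat.Agent.Root.SummaryFreimanTheorem

/-!
# Summary: the theorem of Balog, Szemerédi and Gowers

* `balog_szemeredi_gowers`: if the additive energy of `A` is at least `#A ^ 3 / K` then some
  `A' ⊆ A` with at least `#A / (8 K)` elements has difference set and sumset at most a power of
  `K` times as large as itself;
* `freiman_energy`: so in `ℤ` a positive proportion of `A` lies in a progression of bounded
  dimension and of size `O (#A)`.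
-/

set_option autoImplicit false

noncomputable section

namespace FA.BalogSzemerediGowers.Summary

open Finset
open scoped Pointwise

/-- **The theorem of Balog, Szemerédi and Gowers.** -/
theorem balog_szemeredi_gowers {G : Type*} [AddCommGroup G] [DecidableEq G] {A : Finset G}
    (hA : A.Nonempty) {K : ℝ} (hE : (#A : ℝ) ^ 3 ≤ K * A.addEnergy A) :
    ∃ A' ⊆ A, A'.Nonempty ∧ (#A : ℝ) ≤ 8 * K * #A' ∧
      (#(A' - A') : ℝ) ≤ 2 ^ 22 * K ^ 10 * #A' ∧
      (#(A' + A') : ℝ) ≤ (2 ^ 22 * K ^ 10) ^ 2 * #A' :=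
  (FA.BalogSzemerediGowers.exists_subset_small_doubling hA hE).2

/-- A set of integers of large energy has a large part in a small progression. -/
theorem freiman_energy (K : ℝ) : ∃ d₀ C : ℕ, ∀ A : Finset ℤ, A.Nonempty →
    (#A : ℝ) ^ 3 ≤ K * A.addEnergy A →
    ∃ A' ⊆ A, (#A : ℝ) ≤ 8 * K * #A' ∧
      ∃ d, d ≤ d₀ ∧ ∃ (a₀ : ℤ) (v : Fin d → ℤ) (L : Fin d → ℕ),
        ∏ i, L i ≤ C * #A ∧
        ∀ a ∈ A', ∃ x : Fin d → ℕ, (∀ i, x i < L i) ∧ a = a₀ + ∑ i, (x i : ℤ) * v i := by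
  obtain ⟨d₀, C, h⟩ := FA.FreimanTheorem.Summary.freiman ((2 ^ 22 * K ^ 10) ^ 2)
  refine ⟨d₀, C, fun A hA hE => ?_⟩
  obtain ⟨A', hsub, hne, h8, -, hsum⟩ := balog_szemeredi_gowers hA hE
  obtain ⟨d, hd, a₀, v, L, hL, hmem⟩ := h A' hne hsum
  exact ⟨A', hsub, h8, d, hd, a₀, v, L,
    hL.trans (Nat.mul_le_mul_left _ (card_le_card hsub)), hmem⟩

end FA.BalogSzemerediGowers.Summary
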