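import Fermat.Agent.BanachRuziewicz.Means

/-!
# Spectral gap for rotations of the three-sphere and the theorem of Banach and Ruziewicz

For a prime `p ≥ 17` the average over the rotations by the Hurwitz quaternions of norm `p` has norm
at most `2 p ^ (3 / 4) / (p + 1) < 1` on the square integrable functions of mean zero, by the power
saving for the definite Hecke eigenvalues. Hence the invariant measure is the only finitely additive
rotation invariant probability on the measurable subsets of the sphere vanishing on null sets.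
-/

set_option autoImplicit false
set_option linter.unusedSectionVars false
set_option linter.style.haveILetI false

noncomputable section

open MeasureTheory
open FA.QuaternionJL FA.QuaternionJLSystems
open FA.SphereHecke (R4 sphereLaw vec4)

namespace FA.BanachRuziewicz.Summary

/-- **The rotations.** -/
theorem rotation_isometry (p : ℕ) (hp : p ≠ 0) :
    ∀ x ∈ normHz p, ∃ e : R4 ≃ₗᵢ[ℝ] R4, ⇑e = rotFun p x ∧ MeasurePreserving e sphereLaw sphereLaw :=
  fun _ hx => ⟨rotEquiv hp hx, coe_rotEquiv hp hx, measurePreserving_isometry _⟩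

/-- **They are left multiplications by quaternions, scaled to norm one.** -/
theorem rotation_formula (p : ℕ) (x y : Quaternion ℚ) :
    rotFun p x (vec4 y) = (Real.sqrt p)⁻¹ • vec4 (x * y) := by
  refine congrArg ((Real.sqrt p)⁻¹ • ·) (WithLp.ofLp_injective 2 (funext fun i => ?_))
  fin_cases i <;> simp [qlin, vec4]

/-- **The rate is below one.** -/
theorem rate_lt_one (p : ℕ) (h17 : 17 ≤ p) : 2 * (p : ℝ) ^ (3 / 4 : ℝ) / ((p : ℝ) + 1) < 1 :=
  gapRate_lt_one (by omega)

/-- **The spectral gap.** -/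
theorem rotation_average_gap (p : ℕ) (hp : p.Prime) (h17 : 17 ≤ p) (f : R4 → ℝ)
    (hf : MemLp f 2 sphereLaw) :
    ∫ u, (((normHz p).card : ℝ)⁻¹ * (∑ x ∈ normHz p, f (rotFun p x u)) -
        ∫ v, f v ∂sphereLaw) ^ 2 ∂sphereLaw ≤
      (2 * (p : ℝ) ^ (3 / 4 : ℝ) / ((p : ℝ) + 1)) ^ 2 *
        ∫ u, (f u - ∫ v, f v ∂sphereLaw) ^ 2 ∂sphereLaw := by
  have h := pow_le_pow_left₀ (norm_nonneg _) (norm_iterate_le hp (by omega) (hf.toLp f) 1) 2
  rw [mul_pow, iterate_toLp hp (by omega) hf 1, centred_toLp hf, pow_one, gapRate] at h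
  exact h

/-- **The iterates converge to the mean.** -/
theorem iterates_converge (p : ℕ) (hp : p.Prime) (h17 : 17 ≤ p) (f : R4 → ℝ)
    (hf : MemLp f 2 sphereLaw) (r : ℕ) :
    ∫ u, ((avgOp p)^[r] f u - ∫ v, f v ∂sphereLaw) ^ 2 ∂sphereLaw ≤
      (2 * (p : ℝ) ^ (3 / 4 : ℝ) / ((p : ℝ) + 1)) ^ (2 * r) *
        ∫ u, (f u - ∫ v, f v ∂sphereLaw) ^ 2 ∂sphereLaw := by
  have h := pow_le_pow_left₀ (norm_nonneg _) (norm_iterate_le hp (by omega) (hf.toLp f) r) 2
  rw [mul_pow, iterate_toLp hp (by omega) hf r, centred_toLp hf, ← pow_mul, mul_comm r, gapRate]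
    at h
  exact h

/-- **An almost invariant function is almost constant.** -/
theorem almost_invariant_trivial (p : ℕ) (hp : p.Prime) (h17 : 17 ≤ p) (f : R4 → ℝ)
    (hf : MemLp f 2 sphereLaw) :
    ∃ x ∈ normHz p, (1 - 2 * (p : ℝ) ^ (3 / 4 : ℝ) / ((p : ℝ) + 1)) ^ 2 *
        ∫ u, (f u - ∫ v, f v ∂sphereLaw) ^ 2 ∂sphereLaw ≤
      ∫ u, (f (rotFun p x u) - f u) ^ 2 ∂sphereLaw := by
  obtain ⟨x, hx, h⟩ := exists_moved hp (by omega) (hf.toLp f)
  refine ⟨x, hx, ?_⟩
  have h2 := pow_le_pow_left₀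
    (mul_nonneg (sub_nonneg.2 (gapRate_lt_one (p := p) (by omega)).le) (norm_nonneg _)) h 2
  rw [mul_pow, centred_toLp hf, rotL_toLp hp.ne_zero hx hf, gapRate] at h2
  exact h2

/-- **Finitely many rotations determine the invariant measure among the means.** -/
theorem banach_ruziewicz_finite (m : Set R4 → ℝ) (hnn : ∀ s, MeasurableSet s → 0 ≤ m s)
    (huniv : m Set.univ = 1)
    (hadd : ∀ s t, MeasurableSet s → MeasurableSet t → Disjoint s t → m (s ∪ t) = m s + m t)
    (hnull : ∀ s, MeasurableSet s → sphereLaw s = 0 → m s = 0)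
    (hinv : ∀ x ∈ normHz 17, ∀ s, MeasurableSet s → m (rotFun 17 x ⁻¹' s) = m s)
    (s : Set R4) (hs : MeasurableSet s) : m s = sphereLaw.real s := by
  have key : ∀ p : ℕ, p.Prime → 16 ≤ p → InvariantMean p m → m s = sphereLaw.real s :=
    fun p hp h16 hm => hm.eq_sphereLaw hp h16 hs
  exact key 17 (by norm_num) (by norm_num) ⟨hnn, huniv, hadd, hnull, hinv⟩

/-- **The theorem of Banach and Ruziewicz for the three-sphere.** -/
theorem banach_ruziewicz (m : Set R4 → ℝ) (hnn : ∀ s, MeasurableSet s → 0 ≤ m s)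
    (huniv : m Set.univ = 1)
    (hadd : ∀ s t, MeasurableSet s → MeasurableSet t → Disjoint s t → m (s ∪ t) = m s + m t)
    (hnull : ∀ s, MeasurableSet s → sphereLaw s = 0 → m s = 0)
    (hinv : ∀ e : R4 ≃ₗᵢ[ℝ] R4, ∀ s, MeasurableSet s → m (e ⁻¹' s) = m s)
    (s : Set R4) (hs : MeasurableSet s) : m s = sphereLaw.real s := by
  obtain ⟨p, hp, h16⟩ : ∃ p : ℕ, p.Prime ∧ 16 ≤ p := ⟨17, by norm_num⟩
  exact InvariantMean.eq_sphereLaw
    ⟨hnn, huniv, hadd, hnull, fun x hx t ht => hinv (rotEquiv hp.ne_zero hx) t ht⟩ hp h16 hs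

/-- The law of the sphere is such a mean. -/
theorem sphereLaw_invariant (e : R4 ≃ₗᵢ[ℝ] R4) (s : Set R4) (hs : MeasurableSet s) :
    sphereLaw.real (e ⁻¹' s) = sphereLaw.real s :=
  (measurePreserving_isometry e).measureReal_preimage hs.nullMeasurableSet

end FA.BanachRuziewicz.Summary

end
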