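import Fermat.Agent.BanachTarski.Main

/-!
# The Banach–Tarski paradox

* `banach_tarski`: the closed unit ball of three-space can be cut into finitely many pieces which,
  moved by isometries, form two disjoint closed unit balls;
* `free_rotations`: the free group on two letters embeds in the isometries of space fixing the
  origin (the two generators go to rotations by the angle with cosine `3 / 5`).
-/

set_option autoImplicit false

noncomputable section

open Set

namespace FA.Summary

/-- **The Banach–Tarski paradox.** -/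
theorem banach_tarski {v : EuclideanSpace ℝ (Fin 3)} (hv : 2 < ‖v‖) :
    ∃ (n : ℕ) (P : Fin n → Set (EuclideanSpace ℝ (Fin 3)))
      (g : Fin n → EuclideanSpace ℝ (Fin 3) ≃ᵢ EuclideanSpace ℝ (Fin 3)),
      Pairwise (fun i j => Disjoint (P i) (P j)) ∧
      ⋃ i, P i = Metric.closedBall 0 1 ∧
      Pairwise (fun i j => Disjoint (g i '' P i) (g j '' P j)) ∧
      ⋃ i, g i '' P i = Metric.closedBall 0 1 ∪ Metric.closedBall v 1 ∧
      Disjoint (Metric.closedBall (0 : EuclideanSpace ℝ (Fin 3)) 1) (Metric.closedBall v 1) := by
  have e : FA.BanachTarski.shift v '' FA.BanachTarski.ball = Metric.closedBall v 1 := by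
    rw [IsometryEquiv.image_closedBall, FA.BanachTarski.shift_apply, zero_add]
  obtain ⟨n, P, g, h1, h2, h3, h4⟩ := (FA.BanachTarski.eqd_ball_two_balls hv).exists_pieces
  exact ⟨n, P, g, h1, h2, h3, e ▸ h4, e ▸ FA.BanachTarski.disjoint_ball_shift hv⟩

/-- **A free group of rotations.** -/
theorem free_rotations :
    ∃ φ : FreeGroup Bool →* (EuclideanSpace ℝ (Fin 3) ≃ᵢ EuclideanSpace ℝ (Fin 3)),
      Function.Injective φ ∧ ∀ w, φ w 0 = 0 :=
  ⟨FA.BanachTarski.toRot, FA.BanachTarski.toRot_injective,
    fun w => (FA.BanachTarski.proper_toRot w).map_zero⟩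

end FA.Summary

end
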