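import Fermat.Agent.Banaszczyk.Covering

/-!
# Banaszczyk's transference theorems

For a positive form `P` on `ℤ ^ m`, `m = n + 1`, with squared lengths:

* `banaszczyk_tail`: for `c ≥ 1 / √(2 π)` the Gaussian mass of a translate outside the radius
  `c √m` is at most `(c √(2 π e) exp (-π c²)) ^ m` times the mass of the lattice;
* `banaszczyk_transference`: `1 ≤ λ k (P) λ (m - 1 - k) (P⁻¹) ≤ m²`;
* `banaszczyk_covering`: every point is within `quad P · minVal P⁻¹ ≤ m² / 4` of an integral one,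
  and some point stays at `≥ 1 / 4`;
* `ellipsoid_flatness`: an ellipsoid free of integral points has width at most `m` in an integral
  direction (Khinchine).
-/

set_option autoImplicit false

noncomputable section

open Matrix FA.Perfect FA.Reduction FA.Banaszczyk
open scoped Real

namespace FA.Summary

variable {n : ℕ}

/-- **The tail of the discrete Gaussian.** -/
theorem banaszczyk_tail {P : Matrix (Fin (n + 1)) (Fin (n + 1)) ℝ} (hP : P.PosDef)
    (u : Fin (n + 1) → ℝ) {c : ℝ} (hc : 1 / √(2 * π) ≤ c) :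
    ∑' v : {v : Fin (n + 1) → ℤ // c ^ 2 * ((n : ℝ) + 1) ≤ quad P (u + castVec v)},
        Real.exp (-π * quad P (u + castVec (v : Fin (n + 1) → ℤ))) ≤
      (c * √(2 * π * Real.exp 1) * Real.exp (-π * c ^ 2)) ^ (n + 1) *
        ∑' v : Fin (n + 1) → ℤ, Real.exp (-π * ival P v) := by
  have hc0 : 0 < c := lt_of_lt_of_le (by positivity) hc
  have h2 : 1 ≤ 2 * π * c ^ 2 := by
    rw [div_le_iff₀ (by positivity)] at hc
    have h := pow_le_pow_left₀ zero_le_one hc 2
    rw [mul_pow, Real.sq_sqrt (by positivity), one_pow] at h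
    linarith
  rw [← gsum_zero_eq]
  refine le_of_eq_of_le ?_ ((tail_le hP u (c ^ 2 * ((n : ℝ) + 1)) (s := (2 * π * c ^ 2)⁻¹)
    (by positivity) (inv_le_one_of_one_le₀ h2)).trans_eq ?_)
  · rw [← tsum_subtype_eq_of_support_subset (s := {v : Fin (n + 1) → ℤ |
      c ^ 2 * ((n : ℝ) + 1) ≤ quad P (u + castVec v)})]
    · exact tsum_congr fun v => (if_pos v.2).symm
    · intro v hv
      by_contra h
      exact hv (if_neg h)
  · congr 1
    have e : (√(2 * π * c ^ 2)⁻¹)⁻¹ = √(2 * π) * c := by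
      rw [Real.sqrt_inv, inv_inv, Real.sqrt_mul (by positivity) (c ^ 2), Real.sqrt_sq hc0.le]
    rw [e, Real.sqrt_mul (by positivity) (Real.exp 1), ← Real.exp_half,
      show -π * (1 - (2 * π * c ^ 2)⁻¹) * (c ^ 2 * ((n : ℝ) + 1)) =
        ((n + 1 : ℕ) : ℝ) * (1 / 2 + -π * c ^ 2) by push_cast; field_simp; ring,
      Real.exp_nat_mul, Real.exp_add, ← mul_pow]
    ring

/-- **Transference.** -/
theorem banaszczyk_transference {P : Matrix (Fin (n + 1)) (Fin (n + 1)) ℝ} (hP : P.PosDef)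
    (k : Fin (n + 1)) :
    1 ≤ succMin P k * succMin P⁻¹ k.rev ∧
      succMin P k * succMin P⁻¹ k.rev ≤ ((n : ℝ) + 1) ^ 2 :=
  ⟨one_le_succMin_mul hP k, succMin_mul_le hP k⟩

/-- **The covering radius.** -/
theorem banaszczyk_covering {P : Matrix (Fin (n + 1)) (Fin (n + 1)) ℝ} (hP : P.PosDef) :
    (∀ x, ∃ v, quad P (x - castVec v) * minVal P⁻¹ ≤ ((n : ℝ) + 1) ^ 2 / 4) ∧
      ∃ x, ∀ v, 1 / 4 ≤ quad P (x - castVec v) * minVal P⁻¹ :=
  ⟨exists_near hP, exists_far hP⟩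

/-- **Flatness of ellipsoids.** -/
theorem ellipsoid_flatness {P : Matrix (Fin (n + 1)) (Fin (n + 1)) ℝ} (hP : P.PosDef)
    (a : Fin (n + 1) → ℝ) (ha : ∀ v, 1 ≤ quad P (castVec v - a)) :
    ∃ w : Fin (n + 1) → ℤ, w ≠ 0 ∧ ∀ x y, quad P (x - a) ≤ 1 → quad P (y - a) ≤ 1 →
      |castVec w ⬝ᵥ x - castVec w ⬝ᵥ y| ≤ (n : ℝ) + 1 :=
  exists_flat hP ha

end FA.Summary

end
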