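import Fermat.Agent.Baranyai.Main

/-!
# Baranyai's theorem (1975)

* `baranyai`: if `k` divides `n`, the `k`-subsets of `n` points split into `C(n-1, k-1)` classes,
  each a partition of the points into `n / k` of them, and each subset in exactly one class.
-/

set_option autoImplicit false

noncomputable section

namespace FA.Baranyai.Summary

open Finset

theorem baranyai {α : Type*} [Fintype α] [DecidableEq α] {k : ℕ} (hk : 0 < k)
    (hdvd : k ∣ Fintype.card α) (hpos : 0 < Fintype.card α) :
    ∃ P : Fin ((Fintype.card α - 1).choose (k - 1)) → Fin (Fintype.card α / k) → Finset α,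
      (∀ i j, #(P i j) = k) ∧ (∀ i x, ∃! j, x ∈ P i j) ∧
        ∀ S : Finset α, #S = k → ∃! p : _ × _, P p.1 p.2 = S :=
  exists_classes hk hdvd hpos

end FA.Baranyai.Summary
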