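import Fermat.Agent.BarbanDavenportHalberstam.Main

/-!
# The theorem of Barban, Davenport and Halberstam

For every `A`, `∑_{q ≤ Q} ∑_{(a, q) = 1} (ψ (x; q, a) - x / φ q)² = O (x Q log x)` as soon as
`x / (log x) ^ A ≤ Q ≤ x` (Barban 1964, Davenport and Halberstam 1966, Gallagher 1967): in mean
square, primes are equidistributed in the progressions of almost all moduli up to `x`.

The constant is INEFFECTIVE (it comes from the theorem of Siegel and Walfisz).
-/

set_option autoImplicit false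

namespace FA.BarbanDavenportHalberstam.Summary

open Finset ArithmeticFunction
open scoped Real

/-- **The log-free large sieve for characters.** -/
theorem large_sieve_characters_sharp (Q M N : ℕ) (a : ℕ → ℂ) :
    ∑ q ∈ Icc 1 Q, (q : ℝ) / q.totient * ∑ χ ∈ FA.BombieriVinogradov.primChars q,
        ‖∑ n ∈ Ioc M (M + N), a n * χ n‖ ^ 2 ≤
      ((N : ℝ) + (Q : ℝ) * Q) * ∑ n ∈ Ioc M (M + N), ‖a n‖ ^ 2 :=
  largeSieve_chars_sharp Q M N a

/-- **The theorem of Barban, Davenport and Halberstam.** -/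
theorem barban_davenport_halberstam (A : ℕ) : ∃ C : ℝ, 0 < C ∧ ∀ x : ℕ, 3 ≤ x → ∀ Q : ℕ,
    (x : ℝ) / Real.log x ^ A ≤ Q → Q ≤ x →
      ∑ q ∈ Icc 1 Q, ∑ a ∈ (range q).filter (fun a => q.Coprime a),
        ((∑ n ∈ (Icc 1 x).filter (fun n : ℕ => n ≡ a [MOD q]), Λ n) - x / q.totient) ^ 2 ≤
          C * ((x : ℝ) * Q * Real.log x) := by
  obtain ⟨C, hC, h⟩ := exists_bdh A
  refine ⟨C, hC, fun x hx Q hAQ hQx => le_of_eq_of_le ?_ (h x hx Q hAQ hQx)⟩
  refine sum_congr rfl fun q _ => sum_congr rfl fun a _ => ?_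
  simp only [FA.BombieriVinogradov.psiAP, ZMod.natCast_eq_natCast_iff]

end FA.BarbanDavenportHalberstam.Summary
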