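import Fermat.Agent.Bashmakov.Adelic
import Fermat.Agent.Bashmakov.Scalar
import Fermat.Agent.Root.SummarySubgroupDetectionAll
import Fermat.Agent.Root.SummaryOpenImageAll

/-!
# The theorem of Bashmakov and Ribet at all levels at once, for every elliptic curve over `ℚ`

For independent rational points there is one `M` such that for every `N` with all prime factors
above `M` the elements of Galois fixing all of `E[N]` translate `N`-th parts of the points by every
family in `E[N]`: commutators of `-1` on `E[pⁿ]` with squares of translations fix all torsion, as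
`-1` is a scalar on `E[N]` for open image, and Galois of `ℚ(√d)` is abelian on torsion otherwise.
-/

set_option autoImplicit false
set_option linter.style.haveILetI false

noncomputable section

open WeierstrassCurve WeierstrassCurve.Affine FA.Frob FA.PointDiv
open scoped WeierstrassCurve.Affine

local notation "Qb" => AlgebraicClosure ℚ
local notation "GQ" => AlgebraicClosure ℚ ≃ₐ[ℚ] AlgebraicClosure ℚ

namespace FA.Bashmakov

open scoped Classical

/-- **`-1` with torsion commutators**: at all large primes `p` and every level `N` every square of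
an element of Galois commutes on `E[N]` with some element acting as `-1` on `E[pⁿ]`. -/
theorem exists_bound_neg_commutator (W : WeierstrassCurve ℤ) [(ratCurve W).IsElliptic] :
    ∃ M : ℕ, ∀ p : ℕ, p.Prime → M < p → ∀ (n N : ℕ), N ≠ 0 → ∀ g : GQ, ∃ τ,
      (∀ y ∈ pTors ((ratCurve W).toAffine⁄Qb).Point p n, pointAct (ratCurve W) τ y = -y) ∧
      ∀ y : ((ratCurve W).toAffine⁄Qb).Point, N • y = 0 →
        pointAct (ratCurve W) (τ * (g * g) * τ⁻¹ * (g * g)⁻¹) y = y := by
  set act := pointAct (ratCurve W)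
  have hinv : ∀ (σ : GQ) (y : ((ratCurve W).toAffine⁄Qb).Point), act σ (act σ⁻¹ y) = y :=
    fun σ y => by simpa using act_inv_act act σ⁻¹ y
  by_cases hexc : ∃ d : ℤ, Squarefree d ∧ d ≠ 1 ∧ ∀ l : ℕ, ∀ [Fact l.Prime],
      (∃ C : VariableChange ℚ_[l],
        HasGoodReduction ℤ_[l] (C • (ratCurve W).map (algebraMap ℚ ℚ_[l]))) →
      ¬ IsSquare (d : ZMod l) → (ratCurve W).LFunction l = 0
  · obtain ⟨d, hd, hd1, h⟩ := hexc
    obtain ⟨s, H, hs, hH, hopen, hfix⟩ := FA.OpenImageAll.exists_index_two_of_sqrt hd hd1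
    obtain ⟨M, hM⟩ := FA.Summary.exceptional_cartan_image (ratCurve W) hd hd1 h hs
      (inst := instDecEqAlgebraicClosureRat)
    have hE := FA.CMStructure.isExceptional_of_curve (E := ratCurve W) (W := W) ⟨1, one_smul _ _⟩
      hd hd1 h
    refine ⟨max 2 M, fun p hp hlt n N hN g => ?_⟩
    rw [max_lt_iff] at hlt
    obtain ⟨φ, -, hψ⟩ := hM p hp hlt.2
    obtain ⟨τ₀, hτ₀s, hτ₀⟩ := (hψ (AddEquiv.neg _)).1.mpr fun P => by simp
    obtain ⟨⟨τ, hτH⟩, hτ⟩ := exists_neg_pTors (act.comp H.subtype) (hp.odd_of_ne_two (by omega))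
      (τ := ⟨τ₀, (hfix τ₀).mpr hτ₀s⟩) (fun y hy => hτ₀ ⟨y, by
        rw [pTors, pow_one] at hy; exact hy⟩) n
    refine ⟨τ, hτ, fun y hy => ?_⟩
    have hz : IsOfFinAddOrder (act τ⁻¹ (act (g * g)⁻¹ y)) :=
      isOfFinAddOrder_iff_nsmul_eq_zero.mpr ⟨N, Nat.pos_of_ne_zero hN, by
        rw [← map_nsmul, ← map_nsmul, hy, map_zero, map_zero]⟩
    have e : act τ (act (g * g) (act τ⁻¹ (act (g * g)⁻¹ y))) =
        act (g * g) (act τ (act τ⁻¹ (act (g * g)⁻¹ y))) :=
      FA.Exceptional.smul_comm_of_fixed hd.ne_zero hs hH hopen hfix hE.vanish hτH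
        (Subgroup.mul_self_mem_of_index_two hH g) hz
    rw [act_mul, act_mul, act_mul, e, hinv, hinv]
  · obtain ⟨m, hm, hmN⟩ := (FA.Summary.serreOpenImage_adelic_iff (ratCurve W)
      (inst := instDecEqAlgebraicClosureRat)).mpr hexc
    refine ⟨max 2 m, fun p hp hlt n N hN g => ?_⟩
    rw [max_lt_iff] at hlt
    have hL : N * p ^ n ≠ 0 := mul_ne_zero hN (pow_ne_zero _ hp.ne_zero)
    obtain ⟨v, e, he, hL'⟩ := Nat.exists_eq_pow_mul_and_not_dvd hL p hp.ne_one
    -- `-1` at `p` and `1` at the other primes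
    obtain ⟨k, l, hkl⟩ : IsCoprime ((e * m : ℕ) : ℤ) ((p : ℤ) ^ v) := by
      rw [← Nat.cast_pow]
      refine Nat.isCoprime_iff_coprime.mpr
        (((hp.coprime_iff_not_dvd.mpr (hp.not_dvd_mul he fun hd => ?_)).symm).pow_right v)
      exact absurd (Nat.le_of_dvd hm hd) (by omega)
    set c : ℤ := 1 - 2 * (k * (e * m : ℕ)) with hc
    have hcop : IsCoprime c ((N * p ^ n : ℕ) : ℤ) := by
      rw [hL', Nat.cast_mul, Nat.cast_pow]
      refine IsCoprime.mul_right ⟨-1, 2 * l, ?_⟩ ⟨1, 2 * (k * (m : ℤ)), ?_⟩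
      · linear_combination 2 * hkl
      · rw [hc]; push_cast; ring
    obtain ⟨τ, hτ⟩ := exists_scalar_level (hmN _ hL) (c := c)
      ⟨-2 * k * e, by rw [hc]; push_cast; ring⟩ hcop
    have hnv : n ≤ v := by
      have h1 : p ^ n ∣ p ^ v * e := hL' ▸ dvd_mul_left _ _
      exact (Nat.pow_dvd_pow_iff_le_right hp.one_lt).mp
        (((hp.coprime_iff_not_dvd.mpr he).pow_left n).dvd_of_dvd_mul_right h1)
    have hneg : ∀ y : ((ratCurve W).toAffine⁄Qb).Point, p ^ n • y = 0 → act τ y = -y := by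
      intro y hy
      show Affine.Point.map τ.toAlgHom y = -y
      have h0 : ((p : ℤ) ^ v) • y = 0 := by
        rw [← Nat.cast_pow, natCast_zsmul, ← Nat.sub_add_cancel hnv, pow_add, mul_nsmul', hy,
          nsmul_zero]
      rw [hτ y (by rw [mul_nsmul', hy, nsmul_zero]),
        show c = -1 + 2 * l * (p : ℤ) ^ v by linear_combination -2 * hkl, add_zsmul, mul_zsmul, h0,
        zsmul_zero, add_zero, neg_one_zsmul]
    refine ⟨τ, fun y hy => hneg y (mem_pTors_iff.mp hy), fun y hy => ?_⟩
    have hN' : ∀ {z : ((ratCurve W).toAffine⁄Qb).Point}, N • z = 0 → act τ z = c • z :=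
      fun {z} hz => hτ z (by rw [mul_comm, mul_nsmul', hz, nsmul_zero])
    set u := g * g
    have hu : N • act u⁻¹ y = 0 := by rw [← map_nsmul, hy, map_zero]
    have hu' : N • act τ⁻¹ (act u⁻¹ y) = 0 := by rw [← map_nsmul, hu, map_zero]
    set w := act τ⁻¹ (act u⁻¹ y)
    rw [act_mul, act_mul, act_mul, hN' (by rw [← map_nsmul, hu', map_zero]), ← map_zsmul,
      ← hN' hu', hinv, hinv]

end FA.Bashmakov

namespace FA.Summary

open FA.Bashmakov

/-- **Bashmakov–Ribet at all levels, for every elliptic curve over `ℚ`**: for independent rational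
points there is one `M` such that for every `N` with all prime factors above `M` and `N • Q i = P i`
every family of translations of the `Q i` by `E[N]` is given by an element of Galois fixing `E[N]`:
the Galois group of `ℚ(E[N], N⁻¹⟨P i⟩)` over `ℚ(E[N])` is `E[N]ʳ`. -/
theorem kummerTranslations_adelic_all (W : WeierstrassCurve ℤ)
    [(W.map (Int.castRingHom ℚ)).IsElliptic] [inst : DecidableEq (AlgebraicClosure ℚ)]
    {ι : Type*} [Fintype ι] (P : ι → (W.map (Int.castRingHom ℚ)).toAffine.Point)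
    (hP : LinearIndependent ℤ P) :
    ∃ M : ℕ, ∀ N : ℕ, N ≠ 0 → (∀ p : ℕ, p.Prime → p ∣ N → M < p) →
      ∀ Q : ι → ((W.map (Int.castRingHom ℚ)).toAffine⁄(AlgebraicClosure ℚ)).Point,
      (∀ i, N • Q i =
        Affine.Point.map (W' := (W.map (Int.castRingHom ℚ)).toAffine) (Algebra.ofId ℚ Qb) (P i)) →
      ∀ t : ι → Submodule.torsionBy ℤ
          ((W.map (Int.castRingHom ℚ)).toAffine⁄(AlgebraicClosure ℚ)).Point (N : ℤ),
      ∃ g : AlgebraicClosure ℚ ≃ₐ[ℚ] AlgebraicClosure ℚ,
        (∀ T : Submodule.torsionBy ℤ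
            ((W.map (Int.castRingHom ℚ)).toAffine⁄(AlgebraicClosure ℚ)).Point (N : ℤ),
          Affine.Point.map g.toAlgHom T.1 = T.1) ∧
        ∀ i, Affine.Point.map g.toAlgHom (Q i) = Q i + (t i).1 := by
  obtain rfl : inst = instDecEqAlgebraicClosureRat := Subsingleton.elim _ _
  haveI : (ratCurve W).IsElliptic := ‹(W.map (Int.castRingHom ℚ)).IsElliptic›
  haveI := FA.MordellWeil.mordell (W.map (Int.castRingHom ℚ))
  obtain ⟨M₁, hM₁⟩ := exists_bound_neg_commutator W
  obtain ⟨M₂, hM₂⟩ := FA.LinearDependence.exists_bound_translations_family W ι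
  obtain ⟨B, hB⟩ := FA.LinearDependence.exists_bound_independent_family hP
  refine ⟨max 2 (max M₁ (max M₂ B)), fun N hN hall Q hQ t => ?_⟩
  obtain ⟨k, hk, hkQ⟩ := exists_translations_glue (pointAct (ratCurve W)) hN (Q := Q)
    (fun i σ => by rw [hQ i]; exact FA.Torsion.map_fixed (ratCurve W) σ (P i))
    (fun p n e hp hNe he w hw => by
      rcases Nat.eq_zero_or_pos n with rfl | hn
      · refine ⟨1, fun y _ => by rw [map_one]; rfl, fun i => ?_⟩
        have h0 : w i = 0 := by simpa using hw i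
        rw [map_one, h0, add_zero]
        rfl
      have hpN : p ∣ N := hNe ▸ (dvd_pow_self p hn.ne').mul_right e
      have hlt := hall p hp hpN
      simp only [max_lt_iff] at hlt
      obtain ⟨hp2, hlt₁, hlt₂, hlt₃⟩ := hlt
      haveI := Fact.mk hp
      have hQe : ∀ i, p ^ n • (e • Q i) = up W (P i) := fun i => by
        rw [← mul_nsmul', ← hNe, hQ i]; exact (FA.LinearDependence.up_eq_map (P i)).symm
      refine exists_act_commutator_sq (pointAct (ratCurve W)) (hp.odd_of_ne_two (by omega)) hp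
        (Q := fun i => e • Q i) (fun i σ => by rw [hQe]; exact smul_up W σ (P i))
        (P := fun k => ∀ y, N • y = 0 → pointAct (ratCurve W) k y = y)
        (fun g => hM₁ p hp hlt₁ n N hN g)
        (fun v => hM₂ p hlt₂ n P (hB p hp hlt₃) _ hQe v) hw)
    (fun i => (t i).1) fun i => by
      rw [← natCast_zsmul]; exact (Submodule.mem_torsionBy_iff _ _).mp (t i).2
  exact ⟨k, fun T => hk T.1 (by
    rw [← natCast_zsmul]; exact (Submodule.mem_torsionBy_iff _ _).mp T.2), hkQ⟩

end FA.Summary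

end
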