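import Fermat.Agent.BassLubotzky.Torsion
import Mathlib.GroupTheory.Index

/-!
# Groups of polynomial automorphisms

The theorems of Bass and Lubotzky, the analogues for affine space of those of Malcev, Selberg and
Schur: in characteristic zero a finitely generated group `G` of automorphisms of a polynomial ring
in finitely many variables is residually finite (`bass_lubotzky_residuallyFinite`), has a normal
subgroup of finite index without torsion (`bass_lubotzky_selberg`), is finite if periodic
(`bass_lubotzky_periodic`), and its finite subgroups and torsion elements have bounded orders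
(`bass_lubotzky_bounded`).
-/

set_option autoImplicit false

noncomputable section

open MvPolynomial FA.BassLubotzky

namespace FA.Summary

variable {σ : Type*} [Fintype σ] [DecidableEq σ] {K : Type*} [Field K] [CharZero K]

/-- **Residual finiteness.** -/
theorem bass_lubotzky_residuallyFinite
    (G : Subgroup (MvPolynomial σ K ≃ₐ[K] MvPolynomial σ K)) (hG : G.FG) :
    Group.ResiduallyFinite G := by
  obtain ⟨p, hp, O, ψ, -, hψ, hle⟩ := exists_integral hG
  haveI := hp
  rw [Group.residuallyFinite_iff_exists_finiteIndex]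
  intro g hg
  obtain ⟨k, hk⟩ := exists_pointAction_ne_one hψ (g := Subgroup.inclusion hle g) fun e =>
    hg (Subgroup.inclusion_injective hle (e.trans (map_one _).symm))
  haveI : NeZero (p ^ k) := ⟨pow_ne_zero k hp.out.ne_zero⟩
  exact ⟨((pointAction ((PadicInt.toZModPow k).comp ψ)).comp (Subgroup.inclusion hle)).ker,
    Subgroup.finiteIndex_ker _, hk⟩

/-- **Selberg's lemma for polynomial automorphisms.** -/
theorem bass_lubotzky_selberg
    (G : Subgroup (MvPolynomial σ K ≃ₐ[K] MvPolynomial σ K)) (hG : G.FG) :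
    ∃ N : Subgroup G, N.Normal ∧ N.FiniteIndex ∧ ∀ g ∈ N, IsOfFinOrder g → g = 1 := by
  obtain ⟨p, hp, O, ψ, hp2, hψ, hle⟩ := exists_integral hG
  haveI := hp
  haveI : NeZero (p ^ 2) := ⟨pow_ne_zero 2 hp.out.ne_zero⟩
  refine ⟨((pointAction ((PadicInt.toZModPow 2).comp ψ)).comp (Subgroup.inclusion hle)).ker,
    inferInstance, Subgroup.finiteIndex_ker _, fun g hg hfin => ?_⟩
  exact Subgroup.inclusion_injective hle ((eq_one_of_isOfFinOrder hp2 hψ hg
    ((Subgroup.inclusion hle).isOfFinOrder hfin)).trans (map_one _).symm)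

/-- **Periodic groups are finite.** -/
theorem bass_lubotzky_periodic
    (G : Subgroup (MvPolynomial σ K ≃ₐ[K] MvPolynomial σ K)) (hG : G.FG)
    (h : ∀ g ∈ G, IsOfFinOrder g) : Finite G := by
  obtain ⟨N, -, hfi, hN⟩ := bass_lubotzky_selberg G hG
  have hbot : N = ⊥ := (Subgroup.eq_bot_iff_forall N).2 fun g hg =>
    hN g hg (Submonoid.isOfFinOrder_coe.1 (h g g.2))
  subst hbot
  exact Finite.of_equiv _ QuotientGroup.quotientBot.toEquiv

/-- **Bounded finite subgroups and bounded torsion.** -/
theorem bass_lubotzky_bounded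
    (G : Subgroup (MvPolynomial σ K ≃ₐ[K] MvPolynomial σ K)) (hG : G.FG) :
    ∃ B : ℕ, (∀ H : Subgroup (MvPolynomial σ K ≃ₐ[K] MvPolynomial σ K),
      H ≤ G → Finite H → Nat.card H ≤ B) ∧ ∀ g ∈ G, IsOfFinOrder g → orderOf g ≤ B := by
  obtain ⟨N, -, hfi, hN⟩ := bass_lubotzky_selberg G hG
  haveI : Finite (G ⧸ N) := Subgroup.finite_quotient_of_finiteIndex
  have key : ∀ H : Subgroup (MvPolynomial σ K ≃ₐ[K] MvPolynomial σ K),
      H ≤ G → Finite H → Nat.card H ≤ N.index := by
    intro H hHG hH
    refine Nat.card_le_card_of_injective (fun x : H => (Subgroup.inclusion hHG x : G ⧸ N))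
      fun x y e => ?_
    have h1 : Subgroup.inclusion hHG (x⁻¹ * y) ∈ N := by
      rw [map_mul, map_inv]; exact QuotientGroup.eq.1 e
    have h2 := hN _ h1 ((Subgroup.inclusion hHG).isOfFinOrder (isOfFinOrder_of_finite _))
    exact inv_mul_eq_one.1 (Subgroup.inclusion_injective hHG (h2.trans (map_one _).symm))
  refine ⟨N.index, key, fun g hg hfin => ?_⟩
  rw [← Nat.card_zpowers]
  exact key _ (Subgroup.zpowers_le.2 hg) hfin.finite_zpowers.to_subtype

end FA.Summary

end
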