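import Fermat.Agent.Belyi.Langevin

/-!
# Belyi's theorem on the line and the theorem of Elkies and Langevin

Belyi's theorem is unconditional. The radical bounds are CONDITIONAL on `FA.Abc.ABCBound`, an
explicit hypothesis which is nowhere assumed; they are equivalent to it.
-/

set_option autoImplicit false

noncomputable section

open Polynomial

open UniqueFactorizationMonoid (radical)

namespace FA.Summary

/-- **Belyi's theorem.** Every finite set of algebraic numbers is sent to `{0, 1}` by a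
non-constant rational polynomial `P` all whose critical values are in `{0, 1}`; such a `P` is
extremal for Mason–Stothers: `P (P - 1)` has exactly `deg P + 1` distinct roots. -/
theorem belyi_theorem (S : Finset ℂ) (hS : ∀ z ∈ S, IsAlgebraic ℚ z) :
    ∃ P : ℚ[X], 0 < P.natDegree ∧ (∀ z ∈ S, aeval z P ∈ ({0, 1} : Set ℂ)) ∧
      (∀ z : ℂ, aeval z (derivative P) = 0 → aeval z P ∈ ({0, 1} : Set ℂ)) ∧
      ((P * (P - 1)).aroots ℂ).toFinset.card = P.natDegree + 1 := by
  have hne : (∏ z ∈ S, minpoly ℚ z) ≠ 0 :=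
    Finset.prod_ne_zero_iff.2 fun z hz => minpoly.ne_zero (hS z hz).isIntegral
  obtain ⟨P, hP, hPS, hc⟩ := FA.Belyi.belyi hne
  refine ⟨P, hP, fun z hz => hPS z ?_, hc, FA.Belyi.card_roots_eq hP hc⟩
  rw [map_prod]
  exact Finset.prod_eq_zero hz (minpoly.aeval ℚ z)

/-- **Elkies, Langevin**: the abc conjecture is equivalent to the radical bound for binary
forms. -/
theorem abc_iff_langevin_bound : FA.Abc.ABCBound ↔ FA.Belyi.LangevinBound :=
  FA.Belyi.abc_iff_langevin

/-- **Conditional on abc**: values of a separable binary form of degree `d` have radical at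
least `max |m| |n| ^ (d - 2 - ε)`. -/
theorem rad_form_lower_of_abc (h : FA.Abc.ABCBound) {f : ℤ[X]}
    (hsep : (f.map (Int.castRingHom ℚ)).Separable) (hd : 0 < f.natDegree) {ε : ℝ} (hε : 0 < ε) :
    ∃ C : ℝ, ∀ m n : ℤ, IsCoprime m n → (∑ i ∈ Finset.range (f.natDegree + 1),
        f.coeff i * m ^ i * n ^ (f.natDegree - i)) ≠ 0 →
      ((max m.natAbs n.natAbs : ℕ) : ℝ) ^ ((f.natDegree : ℝ) - 2 - ε) ≤
        C * ((radical (∑ i ∈ Finset.range (f.natDegree + 1),
          f.coeff i * m ^ i * n ^ (f.natDegree - i)).natAbs : ℕ) : ℝ) :=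
  FA.Belyi.rad_form_lower h hsep hd hε

/-- **Conditional on abc**: `rad f(x) ≫ |x| ^ (d - 1 - ε)` for separable `f` of degree `d`. -/
theorem rad_value_lower_of_abc (h : FA.Abc.ABCBound) {f : ℤ[X]}
    (hsep : (f.map (Int.castRingHom ℚ)).Separable) (hd : 0 < f.natDegree) {ε : ℝ} (hε : 0 < ε) :
    ∃ C : ℝ, ∀ x : ℤ, x ≠ 0 → f.eval x ≠ 0 →
      (x.natAbs : ℝ) ^ ((f.natDegree : ℝ) - 1 - ε) ≤
        C * ((radical (f.eval x).natAbs : ℕ) : ℝ) :=
  FA.Belyi.rad_value_lower h hsep hd hε

/-- **Conditional on abc**: a separable polynomial of degree at least three takes finitely many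
squarefull values. -/
theorem squarefull_values_finite_of_abc (h : FA.Abc.ABCBound) {f : ℤ[X]}
    (hsep : (f.map (Int.castRingHom ℚ)).Separable) (hd : 3 ≤ f.natDegree) :
    {x : ℤ | ∀ p : ℕ, p.Prime → (p : ℤ) ∣ f.eval x → (p : ℤ) ^ 2 ∣ f.eval x}.Finite :=
  FA.Belyi.squarefull_values_finite h hsep hd

end FA.Summary

end
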