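import Fermat.Agent.Ribet.CurveCriterion.Curve
import Fermat.Agent.Ribet.CurveCriterion.TwoTorsion
import Fermat.Agent.Ribet.SignatureCurves
import Mathlib.NumberTheory.LSeries.PrimesInAP

/-!
# The theorem of Serre and Mazur on `x ^ n + y ^ n + q ^ α z ^ n = 0`

Mazur's asymptotic criterion in the language of curves: beyond a bound a semistable curve with
discriminant a `p`-th power away from `M` gives one with good reduction away from `M` and traces in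
the same sets. At `M = 2 q` and the Frey curve there is none, when `q` is neither `2 ^ k + 1` nor
`2 ^ k - 1`: Fermat's equation with coefficients supported on `2` and `q` has no solution for `n`
with a large prime factor.
-/

set_option autoImplicit false

noncomputable section

open WeierstrassCurve

namespace FA.Summary

/-- **Mazur's asymptotic criterion with curves**: for `p` beyond a bound depending on `M` and `T`,
a semistable curve with discriminant a `p`-th power away from `M` and traces in `T` gives a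
semistable curve with good reduction away from `M` and all traces there in `T`. -/
theorem asymptotic_lowering_curve {M : ℕ} (hM : M ≠ 0) (T : ℕ → Set ℤ) :
    ∃ C : ℕ, ∀ p : ℕ, p.Prime → C < p → ∀ W : WeierstrassCurve ℤ, W.Δ ≠ 0 → W.IsSemistableModel →
      (∀ r : ℕ, r.Prime → (r : ℤ) ∣ W.Δ → ¬ r ∣ M → p ∣ padicValInt r W.Δ) →
      (∀ l : ℕ, l.Prime → ¬ l ∣ M → W.IsGoodPrimeFor l → W.apOfModel l ∈ T l) →
      ∃ V : WeierstrassCurve ℤ, V.Δ ≠ 0 ∧ V.IsSemistableModel ∧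
        ∀ l : ℕ, l.Prime → ¬ l ∣ M → V.IsGoodPrimeFor l ∧ V.apOfModel l ∈ T l :=
  FA.CurveCriterion.exists_bound_curve hM T

/-- **Fermat's equation**: no solution for `n` with a large prime factor, if no semistable curve
with good reduction away from the even `M` has `4 ∣ l + 1 - a_l` at all primes `l` not dividing
`M`. -/
theorem fermatEquation_asymptotic_curve {M : ℕ} (hM : M ≠ 0) (h2 : 2 ∣ M)
    (hno : ∀ V : WeierstrassCurve ℤ, V.Δ ≠ 0 → V.IsSemistableModel →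
      (∀ l : ℕ, l.Prime → ¬ l ∣ M → V.IsGoodPrimeFor l) →
      ∃ l : ℕ, l.Prime ∧ ¬ l ∣ M ∧ ¬ (4 : ℤ) ∣ (l : ℤ) + 1 - V.apOfModel l) :
    ∃ C₀ : ℕ, ∀ n p : ℕ, p.Prime → C₀ < p → p ∣ n → ∀ A B C x y z : ℤ,
      A * B * C ≠ 0 → x * y * z ≠ 0 → (∀ r : ℕ, r.Prime → (r : ℤ) ∣ A * B * C → r ∣ M) →
      IsCoprime (A * x ^ n) (B * y ^ n) → (16 : ℤ) ∣ C * z ^ n →
      A * x ^ n + B * y ^ n + C * z ^ n ≠ 0 := by
  obtain ⟨C₀, hC⟩ := asymptotic_lowering_curve hM (fun l => {t : ℤ | (4 : ℤ) ∣ (l : ℤ) + 1 - t})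
  refine ⟨C₀, fun n p hp hpC hpn A B C x y z hne hxyz hs hcop h16 heq => ?_⟩
  obtain ⟨W, hΔ, hW, hd, hT⟩ :=
    FA.Ribet.exists_fermatCurve h2 hp hpn hne hxyz hs hcop h16 heq
  obtain ⟨V, hVΔ, hV, hl⟩ := hC p hp hpC W hΔ hW hd hT
  obtain ⟨l, hlp, hlM, h⟩ := hno V hVΔ hV fun l h1 h2 => (hl l h1 h2).1
  exact h (hl l hlp hlM).2

/-- **The equation `x² = A y ^ n + B z ^ n`**: no solution with `x` odd, `64 ∣ B z ^ n` and `n` with
a large prime factor, if no semistable curve with good reduction away from the even `M` has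
`2 ∣ l + 1 - a_l` at all primes `l` not dividing `M`. -/
theorem squareEquation_asymptotic_curve {M : ℕ} (hM : M ≠ 0) (h2 : 2 ∣ M)
    (hno : ∀ V : WeierstrassCurve ℤ, V.Δ ≠ 0 → V.IsSemistableModel →
      (∀ l : ℕ, l.Prime → ¬ l ∣ M → V.IsGoodPrimeFor l) →
      ∃ l : ℕ, l.Prime ∧ ¬ l ∣ M ∧ ¬ (2 : ℤ) ∣ (l : ℤ) + 1 - V.apOfModel l) :
    ∃ C₀ : ℕ, ∀ n p : ℕ, p.Prime → C₀ < p → p ∣ n → ∀ A B x y z : ℤ,
      A ≠ 0 → B ≠ 0 → y ≠ 0 → z ≠ 0 → (∀ r : ℕ, r.Prime → (r : ℤ) ∣ A * B → r ∣ M) →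
      Odd x → IsCoprime x (B * z ^ n) → (64 : ℤ) ∣ B * z ^ n →
      x ^ 2 ≠ A * y ^ n + B * z ^ n := by
  obtain ⟨C₀, hC⟩ := asymptotic_lowering_curve hM (fun l => {t : ℤ | (2 : ℤ) ∣ (l : ℤ) + 1 - t})
  refine ⟨C₀, fun n p hp hpC hpn A B x y z hA hB hy hz hs hx hcop h64 heq => ?_⟩
  obtain ⟨W, hΔ, hW, hd, hT⟩ :=
    FA.Ribet.exists_squareCurve h2 hp hpn hA hB hy hz hs hx hcop h64 heq
  obtain ⟨V, hVΔ, hV, hl⟩ := hC p hp hpC W hΔ hW hd hT
  obtain ⟨l, hlp, hlM, h⟩ := hno V hVΔ hV fun l h1 h2 => (hl l h1 h2).1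
  exact h (hl l hlp hlM).2

/-- **The equation `x³ = A y ^ n + B z ^ n`**: no solution with `27 ∣ B z ^ n` and `n` with a large
prime factor, if no semistable curve with good reduction away from `M`, a multiple of three, has
`3 ∣ l + 1 - a_l` at all primes `l` not dividing `M`. -/
theorem cubeEquation_asymptotic_curve {M : ℕ} (hM : M ≠ 0) (h3 : 3 ∣ M)
    (hno : ∀ V : WeierstrassCurve ℤ, V.Δ ≠ 0 → V.IsSemistableModel →
      (∀ l : ℕ, l.Prime → ¬ l ∣ M → V.IsGoodPrimeFor l) →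
      ∃ l : ℕ, l.Prime ∧ ¬ l ∣ M ∧ ¬ (3 : ℤ) ∣ (l : ℤ) + 1 - V.apOfModel l) :
    ∃ C₀ : ℕ, ∀ n p : ℕ, p.Prime → C₀ < p → p ∣ n → ∀ A B x y z : ℤ,
      A ≠ 0 → B ≠ 0 → y ≠ 0 → z ≠ 0 → (∀ r : ℕ, r.Prime → (r : ℤ) ∣ A * B → r ∣ M) →
      IsCoprime x (B * z ^ n) → (27 : ℤ) ∣ B * z ^ n →
      x ^ 3 ≠ A * y ^ n + B * z ^ n := by
  obtain ⟨C₀, hC⟩ := asymptotic_lowering_curve hM (fun l => {t : ℤ | (3 : ℤ) ∣ (l : ℤ) + 1 - t})
  refine ⟨C₀, fun n p hp hpC hpn A B x y z hA hB hy hz hs hcop h27 heq => ?_⟩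
  obtain ⟨T, -, hΔ, hW, hd, hT⟩ :=
    FA.Ribet.exists_cubeCurve h3 hp hpn hA hB hy hz hs hcop h27 heq
  obtain ⟨V, hVΔ, hV, hl⟩ := hC p hp hpC _ hΔ hW hd hT
  obtain ⟨l, hlp, hlM, h⟩ := hno V hVΔ hV fun l h1 h2 => (hl l h1 h2).1
  exact h (hl l hlp hlM).2

/-- For `q` neither `2 ^ k + 1` nor `2 ^ k - 1` every semistable curve with good reduction away from
`2 q` has a prime `l` not dividing `2 q` with `4 ∤ l + 1 - a_l`. -/
theorem exists_not_four_dvd_trace {q : ℕ} (hq : q.Prime) (hq2 : q ≠ 2)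
    (hne : ∀ k : ℕ, q ≠ 2 ^ k + 1 ∧ q + 1 ≠ 2 ^ k) (V : WeierstrassCurve ℤ) (hΔ : V.Δ ≠ 0)
    (hV : V.IsSemistableModel) (hgood : ∀ l : ℕ, l.Prime → ¬ l ∣ 2 * q → V.IsGoodPrimeFor l) :
    ∃ l : ℕ, l.Prime ∧ ¬ l ∣ 2 * q ∧ ¬ (4 : ℤ) ∣ (l : ℤ) + 1 - V.apOfModel l := by
  by_contra h
  exact FA.CurveCriterion.not_four_dvd_traces hq hq2 hne hΔ hV hgood fun l hl hl2 =>
    by_contra fun h4 => h ⟨l, hl, hl2, h4⟩

/-- **The theorem of Serre and Mazur**: for an odd prime `q` neither `2 ^ k + 1` nor `2 ^ k - 1`,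
`A x ^ n + B y ^ n + C z ^ n ≠ 0` when the primes of `A B C` are `2` or `q`, `A x ^ n` is prime to
`B y ^ n`, sixteen divides `C z ^ n` and `n` has a prime factor beyond a bound depending on `q`. -/
theorem serre_mazur {q : ℕ} (hq : q.Prime) (hq2 : q ≠ 2)
    (hne : ∀ k : ℕ, q ≠ 2 ^ k + 1 ∧ q + 1 ≠ 2 ^ k) :
    ∃ C₀ : ℕ, ∀ n p : ℕ, p.Prime → C₀ < p → p ∣ n → ∀ A B C x y z : ℤ,
      A * B * C ≠ 0 → x * y * z ≠ 0 →
      (∀ r : ℕ, r.Prime → (r : ℤ) ∣ A * B * C → r = 2 ∨ r = q) →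
      IsCoprime (A * x ^ n) (B * y ^ n) → (16 : ℤ) ∣ C * z ^ n →
      A * x ^ n + B * y ^ n + C * z ^ n ≠ 0 := by
  obtain ⟨C₀, hC⟩ := fermatEquation_asymptotic_curve (M := 2 * q)
    (mul_ne_zero two_ne_zero hq.ne_zero) (dvd_mul_right 2 q) (exists_not_four_dvd_trace hq hq2 hne)
  refine ⟨C₀, fun n p hp hpC hpn A B C x y z hne' hxyz hs => ?_⟩
  refine hC n p hp hpC hpn A B C x y z hne' hxyz fun r hr hd => ?_
  rcases hs r hr hd with rfl | rfl
  exacts [dvd_mul_right 2 q, dvd_mul_left r 2]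

/-- Removing the common part of `x` and `y`. -/
theorem exists_coprime_of_serre_mazur {q : ℕ} (hq : q.Prime) {n α : ℕ} (hn : n ≠ 0) {x y z : ℤ}
    (hxyz : x * y * z ≠ 0) (h : x ^ n + y ^ n + (q : ℤ) ^ α * z ^ n = 0) :
    ∃ (β : ℕ) (x' y' z' : ℤ), x' * y' * z' ≠ 0 ∧ IsCoprime x' y' ∧
      x' ^ n + y' ^ n + (q : ℤ) ^ β * z' ^ n = 0 := by
  simp only [mul_ne_zero_iff] at hxyz
  obtain ⟨⟨hx, hy⟩, hz⟩ := hxyz
  have hqi := Nat.prime_iff_prime_int.mp hq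
  obtain ⟨g, x', y', hg, hco, rfl, rfl⟩ : ∃ g x' y' : ℤ, g ≠ 0 ∧ IsCoprime x' y' ∧
      x = g * x' ∧ y = g * y' := by
    obtain ⟨x', y', hco, hx', hy'⟩ := Int.exists_gcd_one (m := x) (n := y)
      (Int.gcd_pos_of_ne_zero_left _ hx)
    exact ⟨(Int.gcd x y : ℤ), x', y', by exact_mod_cast (Int.gcd_pos_of_ne_zero_left _ hx).ne',
      Int.isCoprime_iff_gcd_eq_one.mpr hco, by rw [mul_comm]; exact hx',
      by rw [mul_comm]; exact hy'⟩
  obtain ⟨k, z₀, hz₀, rfl⟩ := WfDvdMonoid.max_power_factor hz hqi.irreducible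
  obtain ⟨m, g₀, hg₀, rfl⟩ := WfDvdMonoid.max_power_factor hg hqi.irreducible
  have hzg : g₀ ^ n ∣ z₀ ^ n := by
    refine ((hqi.coprime_iff_not_dvd.mpr hg₀).symm.pow (m := n)
      (n := α + k * n)).dvd_of_dvd_mul_left ⟨-(((q : ℤ) ^ m) ^ n * (x' ^ n + y' ^ n)), ?_⟩
    rw [pow_add, pow_mul]
    linear_combination h
  obtain ⟨w, rfl⟩ := (Int.pow_dvd_pow_iff hn).mp hzg
  have hw : ¬ (q : ℤ) ∣ w := fun hd => hz₀ (hd.mul_left g₀)
  have hg0 : g₀ ≠ 0 := fun e => hg₀ (e ▸ dvd_zero _)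
  have e : ((q : ℤ) ^ (m * n)) * (x' ^ n + y' ^ n) + (q : ℤ) ^ (α + k * n) * w ^ n = 0 :=
    mul_left_cancel₀ (pow_ne_zero n hg0) (by
      rw [pow_add, pow_mul, pow_mul, mul_zero]
      linear_combination h)
  have hle : m * n ≤ α + k * n := by
    by_contra! hlt
    obtain ⟨j, hj⟩ := Nat.exists_eq_add_of_lt hlt
    rw [hj, show α + k * n + j + 1 = (α + k * n) + (j + 1) by ring, pow_add, mul_assoc,
      ← mul_add] at e
    refine hw (hqi.dvd_of_dvd_pow (n := n) ?_)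
    refine ⟨-((q : ℤ) ^ j * (x' ^ n + y' ^ n)), ?_⟩
    linear_combination (mul_eq_zero.mp e).resolve_left (pow_ne_zero _ hqi.ne_zero)
  refine ⟨α + k * n - m * n, x', y', w, ?_, hco, mul_left_cancel₀
    (pow_ne_zero (m * n) hqi.ne_zero) ?_⟩
  · exact mul_ne_zero (mul_ne_zero (right_ne_zero_of_mul hx) (right_ne_zero_of_mul hy))
      fun e0 => hw (e0 ▸ dvd_zero _)
  · rw [mul_zero, mul_add, ← mul_assoc ((q : ℤ) ^ (m * n)) _ (w ^ n), ← pow_add,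
      Nat.add_sub_cancel' hle]
    exact e

/-- **`x ^ n + y ^ n + q ^ α z ^ n = 0` has no solution in nonzero integers**, for `q` an odd prime
neither `2 ^ k + 1` nor `2 ^ k - 1` and `n` with a prime factor beyond a bound depending on `q`
alone. -/
theorem serre_mazur_pure {q : ℕ} (hq : q.Prime) (hq2 : q ≠ 2)
    (hne : ∀ k : ℕ, q ≠ 2 ^ k + 1 ∧ q + 1 ≠ 2 ^ k) :
    ∃ C₀ : ℕ, ∀ n p : ℕ, p.Prime → C₀ < p → p ∣ n → ∀ α : ℕ, ∀ x y z : ℤ,
      x * y * z ≠ 0 → x ^ n + y ^ n + (q : ℤ) ^ α * z ^ n ≠ 0 := by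
  obtain ⟨C₀, hC⟩ := serre_mazur hq hq2 hne
  refine ⟨max C₀ 4, fun n p hp hpC hpn α x y z hxyz heq => ?_⟩
  simp only [max_lt_iff] at hpC
  rcases eq_or_ne n 0 with rfl | hn
  · simp only [pow_zero, mul_one] at heq
    have : (0 : ℤ) ≤ (q : ℤ) ^ α := by positivity
    omega
  have h4 : 4 ≤ n := le_trans (le_of_lt hpC.2) (Nat.le_of_dvd (by omega) hpn)
  have h16 : ∀ {C t : ℤ}, Even t → (16 : ℤ) ∣ C * t ^ n := fun ht =>
    (((show (16 : ℤ) = 2 ^ 4 by norm_num) ▸ pow_dvd_pow 2 h4).trans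
      (pow_dvd_pow_of_dvd (even_iff_two_dvd.mp ht) n)).mul_left _
  have hq0 : (q : ℤ) ^ (0 : ℕ) = 1 := pow_zero _
  obtain ⟨β, x', y', z', hne', hco, h⟩ := exists_coprime_of_serre_mazur hq hn hxyz heq
  have hsupp : ∀ r : ℕ, r.Prime → (r : ℤ) ∣ (q : ℤ) ^ β → r = 2 ∨ r = q := fun r hr hd =>
    Or.inr ((Nat.prime_dvd_prime_iff_eq hr hq).mp
      (hr.dvd_of_dvd_pow (n := β) (by exact_mod_cast hd)))
  have hqβ : (q : ℤ) ^ β ≠ 0 := pow_ne_zero _ (by exact_mod_cast hq.ne_zero)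
  rcases Int.even_or_odd z' with hz | hz
  · exact hC n p hp hpC.1 hpn 1 1 ((q : ℤ) ^ β) x' y' z' (by simpa using hqβ) hne'
      (by simpa using hsupp) (by simpa using hco.pow) (h16 hz) (by linear_combination h)
  rcases Int.even_or_odd x' with hx | hx
  · exact hC n p hp hpC.1 hpn ((q : ℤ) ^ β) 1 1 z' y' x' (by simpa using hqβ)
      (by rwa [show z' * y' * x' = x' * y' * z' by ring]) (by simpa using hsupp)
      (by
        rw [show (q : ℤ) ^ β * z' ^ n = -(x' ^ n + y' ^ n * 1) by linear_combination h, one_mul]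
        exact (hco.pow.add_mul_left_left 1).neg_left)
      (h16 hx) (by linear_combination h)
  rcases Int.even_or_odd y' with hy | hy
  · exact hC n p hp hpC.1 hpn ((q : ℤ) ^ β) 1 1 z' x' y' (by simpa using hqβ)
      (by rwa [show z' * x' * y' = x' * y' * z' by ring]) (by simpa using hsupp)
      (by
        rw [show (q : ℤ) ^ β * z' ^ n = -(y' ^ n + x' ^ n * 1) by linear_combination h, one_mul]
        exact (hco.symm.pow.add_mul_left_left 1).neg_left)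
      (h16 hy) (by linear_combination h)
  have hqodd : Odd ((q : ℤ) ^ β * z' ^ n) := (((Int.odd_coe_nat q).mpr
    (hq.odd_of_ne_two hq2)).pow).mul hz.pow
  have := ((hx.pow (n := n)).add_odd (hy.pow (n := n))).add_odd hqodd
  rw [h] at this
  exact absurd this (by decide)

/-- `x ^ n + y ^ n + 11 ^ α z ^ n = 0` and `x ^ n + y ^ n + 13 ^ α z ^ n = 0` have no solution for
`n` with a large prime factor. -/
theorem serre_mazur_eleven_thirteen :
    ∃ C₀ : ℕ, ∀ q : ℕ, q = 11 ∨ q = 13 → ∀ n p : ℕ, p.Prime → C₀ < p → p ∣ n → ∀ α : ℕ,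
      ∀ x y z : ℤ, x * y * z ≠ 0 → x ^ n + y ^ n + (q : ℤ) ^ α * z ^ n ≠ 0 := by
  have hne : ∀ q : ℕ, q = 11 ∨ q = 13 → ∀ k : ℕ, q ≠ 2 ^ k + 1 ∧ q + 1 ≠ 2 ^ k := by
    intro q hq k
    rcases Nat.lt_or_ge k 4 with hk | hk
    · interval_cases k <;> omega
    · have := Nat.pow_le_pow_right two_pos hk
      omega
  obtain ⟨C, hC⟩ := serre_mazur_pure (q := 11) (by norm_num) (by norm_num) (hne 11 (Or.inl rfl))
  obtain ⟨D, hD⟩ := serre_mazur_pure (q := 13) (by norm_num) (by norm_num) (hne 13 (Or.inr rfl))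
  refine ⟨max C D, fun q hq n p hp hpC => ?_⟩
  simp only [max_lt_iff] at hpC
  rcases hq with rfl | rfl
  exacts [hC n p hp hpC.1, hD n p hp hpC.2]

/-- The theorem applies to infinitely many primes, those congruent to `13` modulo `15` among
them. -/
theorem serre_mazur_primes_infinite :
    {q : ℕ | q.Prime ∧ q ≠ 2 ∧ ∀ k : ℕ, q ≠ 2 ^ k + 1 ∧ q + 1 ≠ 2 ^ k}.Infinite := by
  refine (Nat.infinite_setOfPred_prime_and_eq_mod (q := 15) (a := 13) (by decide)).mono ?_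
  rintro q ⟨hq, h15⟩
  have hmod : q % 15 = 13 := by
    have := (ZMod.natCast_eq_natCast_iff' q 13 15).mp (by exact_mod_cast h15)
    omega
  refine ⟨hq, by omega, fun k => ?_⟩
  have h2 : ∀ j : ℕ, 2 ^ j % 15 = 1 ∨ 2 ^ j % 15 = 2 ∨ 2 ^ j % 15 = 4 ∨ 2 ^ j % 15 = 8 := by
    intro j
    induction j with
    | zero => simp
    | succ i ih => rw [pow_succ]; omega
  have := h2 k
  omega

end FA.Summary

end
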