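import Fermat.Agent.Ribet.CurveCriterion.ThreeIsogeny
import Fermat.Agent.Root.SummarySerreMazur

/-!
# The equation `x³ = A y ^ n + B z ^ n` with the primes `3` and `q ≡ 2, 4, 5, 7 (mod 9)`

For such a prime `q` no semistable curve with bad primes among `3, q` has reducible `3`-torsion,
so some `l + 1 - a_l` is prime to `3`. By the criterion with curves, the equation
`x³ = A y ^ n + B z ^ n` has no solution of the usual shape for `n` with a large prime factor.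
-/

set_option autoImplicit false

noncomputable section

open WeierstrassCurve

namespace FA.Summary

/-- **No isogeny of degree three**: for a prime `q ≡ 2, 4, 5, 7 (mod 9)` the `3`-torsion of a
semistable curve with good reduction outside `3 q` is irreducible. -/
theorem irreducible_three_of_twoPrimes {q : ℕ} (hq : q.Prime)
    (h9 : q % 9 = 2 ∨ q % 9 = 4 ∨ q % 9 = 5 ∨ q % 9 = 7) {V : WeierstrassCurve ℤ} (hΔ : V.Δ ≠ 0)
    (hV : V.IsSemistableModel) (hgood : ∀ l : ℕ, l.Prime → ¬ l ∣ 3 * q → V.IsGoodPrimeFor l) :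
    V.ModRepIsIrreducible 3 :=
  FA.CurveCriterion.irreducible_three hq h9 hΔ hV hgood

/-- Some `l + 1 - a_l` is prime to three. -/
theorem exists_not_three_dvd_trace {q : ℕ} (hq : q.Prime)
    (h9 : q % 9 = 2 ∨ q % 9 = 4 ∨ q % 9 = 5 ∨ q % 9 = 7) (V : WeierstrassCurve ℤ) (hΔ : V.Δ ≠ 0)
    (hV : V.IsSemistableModel) (hgood : ∀ l : ℕ, l.Prime → ¬ l ∣ 3 * q → V.IsGoodPrimeFor l) :
    ∃ l : ℕ, l.Prime ∧ ¬ l ∣ 3 * q ∧ ¬ (3 : ℤ) ∣ (l : ℤ) + 1 - V.apOfModel l := by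
  by_contra h
  exact FA.CurveCriterion.reducible_of_dvd hΔ Nat.prime_three
    (mul_ne_zero three_ne_zero hq.ne_zero)
    (fun l hl hl3 => by_contra fun h3 => h ⟨l, hl, hl3, h3⟩)
    (irreducible_three_of_twoPrimes hq h9 hΔ hV hgood)

/-- **The theorem of Bennett, Vatsal and Yazdani, asymptotically**: for a prime `q ≡ 2, 4, 5, 7 (mod 9)`
the equation `x³ = A y ^ n + B z ^ n`, primes of `A B` among `3, q`, `x` prime to `B z ^ n`,
`27 ∣ B z ^ n`, has no solution with `y z ≠ 0` when `n` has a prime factor beyond a bound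
depending on `q`. -/
theorem bennett_vatsal_yazdani_asymptotic {q : ℕ} (hq : q.Prime)
    (h9 : q % 9 = 2 ∨ q % 9 = 4 ∨ q % 9 = 5 ∨ q % 9 = 7) :
    ∃ C₀ : ℕ, ∀ n p : ℕ, p.Prime → C₀ < p → p ∣ n → ∀ A B x y z : ℤ,
      A ≠ 0 → B ≠ 0 → y ≠ 0 → z ≠ 0 →
      (∀ r : ℕ, r.Prime → (r : ℤ) ∣ A * B → r = 3 ∨ r = q) →
      IsCoprime x (B * z ^ n) → (27 : ℤ) ∣ B * z ^ n →
      x ^ 3 ≠ A * y ^ n + B * z ^ n := by
  obtain ⟨C₀, hC⟩ := cubeEquation_asymptotic_curve (M := 3 * q)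
    (mul_ne_zero three_ne_zero hq.ne_zero) (dvd_mul_right 3 q) (exists_not_three_dvd_trace hq h9)
  refine ⟨C₀, fun n p hp hpC hpn A B x y z hA hB hy hz hs => ?_⟩
  refine hC n p hp hpC hpn A B x y z hA hB hy hz fun r hr hd => ?_
  rcases hs r hr hd with rfl | rfl
  exacts [dvd_mul_right 3 q, dvd_mul_left r 3]

/-- For a prime `q ≡ 2, 4, 5, 7 (mod 9)`, `a ≥ 3` and `x` prime to `3 q` neither `x³ + 3 ^ a q ^ b` nor
`x³ - 3 ^ a q ^ b` is an `n`-th power when `n` has a prime factor beyond a bound depending on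
`q`. -/
theorem cube_pm_three_pow_mul_pow_ne_pow {q : ℕ} (hq : q.Prime)
    (h9 : q % 9 = 2 ∨ q % 9 = 4 ∨ q % 9 = 5 ∨ q % 9 = 7) :
    ∃ C₀ : ℕ, ∀ n p : ℕ, p.Prime → C₀ < p → p ∣ n → ∀ a b : ℕ, 3 ≤ a → ∀ x y : ℤ,
      ¬ (3 : ℤ) ∣ x → ¬ (q : ℤ) ∣ x →
      x ^ 3 + 3 ^ a * (q : ℤ) ^ b ≠ y ^ n ∧ x ^ 3 - 3 ^ a * (q : ℤ) ^ b ≠ y ^ n := by
  obtain ⟨C₀, hC⟩ := bennett_vatsal_yazdani_asymptotic hq h9
  refine ⟨C₀, fun n p hp hpC hpn a b ha x y h3x hqx => ?_⟩
  have hq0 : (q : ℤ) ≠ 0 := by exact_mod_cast hq.ne_zero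
  have main : ∀ e : ℤ, e = 1 ∨ e = -1 → x ^ 3 ≠ y ^ n + e * (3 ^ a * (q : ℤ) ^ b) := by
    intro e he heq
    wlog hey : y ≠ 0 generalizing y
    · rcases eq_or_ne n 0 with rfl | hn
      · exact this 1 (by simpa using heq) one_ne_zero
      rw [not_not.mp hey, zero_pow hn, zero_add] at heq
      exact h3x (Int.prime_three.dvd_of_dvd_pow (n := 3)
        (heq ▸ ((dvd_pow_self 3 (by omega)).mul_right _).mul_left e))
    refine hC n p hp hpC hpn 1 (e * (3 ^ a * (q : ℤ) ^ b)) x y 1 one_ne_zero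
      (mul_ne_zero (by omega) (mul_ne_zero (pow_ne_zero _ three_ne_zero) (pow_ne_zero _ hq0))) hey
      one_ne_zero ?_ ?_ ?_ (by rw [heq]; ring)
    · intro r hr hd
      have hd' : r ∣ 3 ^ a * q ^ b := by
        have := Int.natCast_dvd.mp hd
        rcases he with rfl | rfl <;> simpa [Int.natAbs_mul, Int.natAbs_pow] using this
      exact (hr.dvd_mul.mp hd').imp
        (fun h => (Nat.prime_dvd_prime_iff_eq hr Nat.prime_three).mp (hr.dvd_of_dvd_pow h))
        fun h => (Nat.prime_dvd_prime_iff_eq hr hq).mp (hr.dvd_of_dvd_pow h)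
    · have hc : IsCoprime x (3 ^ a * (q : ℤ) ^ b) :=
        (Int.prime_three.coprime_iff_not_dvd.mpr h3x).symm.pow_right.mul_right
          ((Nat.prime_iff_prime_int.mp hq).coprime_iff_not_dvd.mpr hqx).symm.pow_right
      rw [one_pow, mul_one]
      rcases he with rfl | rfl
      · rwa [one_mul]
      · rw [neg_one_mul]; exact hc.neg_right
    · rw [one_pow, mul_one]
      exact (((show (27 : ℤ) = 3 ^ 3 by norm_num) ▸ pow_dvd_pow 3 ha).mul_right _).mul_left e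
  exact ⟨fun h => main (-1) (Or.inr rfl) (by linarith), fun h => main 1 (Or.inl rfl) (by linarith)⟩

/-- There are infinitely many such primes, those `≡ 2 (mod 9)` among them. -/
theorem bennett_vatsal_yazdani_primes_infinite :
    {q : ℕ | q.Prime ∧ (q % 9 = 2 ∨ q % 9 = 4 ∨ q % 9 = 5 ∨ q % 9 = 7)}.Infinite := by
  refine (Nat.infinite_setOfPred_prime_and_eq_mod (q := 9) (a := 2) (by decide)).mono ?_
  rintro q ⟨hq, h⟩
  exact ⟨hq, Or.inl ((ZMod.natCast_eq_natCast_iff' q 2 9).mp (by exact_mod_cast h))⟩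

end FA.Summary

end
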