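import Fermat.Agent.Berlekamp.Basic

/-!
# Berlekamp's theorem on factorisation over a finite field (1967)

For a squarefree monic polynomial `f` over a field `K` with `q` elements:

* `berlekamp_finrank`: the residues `h` with `h ^ q = h` modulo `f` form an algebra whose dimension
  is the number of monic irreducible factors of `f`.
* `berlekamp_irreducible_iff`: `f` is irreducible iff this dimension is one.
* `berlekamp_gcd_factorisation`: each such `h` writes `f` as the product over `c ∈ K` of the monic
  `gcd (f, h - c)`.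
* `berlekamp_nontrivial_factor`: a nonconstant `h` of smaller degree gives a proper factor.
* `berlekamp_separates`: any two irreducible factors are separated by some `h`.
-/

set_option autoImplicit false

noncomputable section

namespace FA.Berlekamp.Summary

open Polynomial Finset

variable {K : Type*} [Field K] [Fintype K] {f : K[X]}

theorem berlekamp_finrank (hm : f.Monic) (hs : Squarefree f) :
    Module.finrank K (berlekampAlgebra f) =
      Nat.card {p : K[X] // p.Monic ∧ Irreducible p ∧ p ∣ f} := by
  classical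
  obtain ⟨S, hirr, hmon, hf, hS⟩ := exists_factor_set hm hs
  obtain ⟨e⟩ := exists_linearEquiv hirr hmon hf
  rw [← e.finrank_eq, Module.finrank_pi, Fintype.card_coe, ← Nat.card_eq_finsetCard]
  exact Nat.card_congr (Equiv.subtypeEquivRight hS)

theorem berlekamp_irreducible_iff (hm : f.Monic) (hs : Squarefree f) :
    Irreducible f ↔ Module.finrank K (berlekampAlgebra f) = 1 := by
  classical
  obtain ⟨S, hirr, hmon, hf, hS⟩ := exists_factor_set hm hs
  obtain ⟨e⟩ := exists_linearEquiv hirr hmon hf
  rw [← e.finrank_eq, Module.finrank_pi, Fintype.card_coe, card_eq_one]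
  refine ⟨fun hi => ⟨f, eq_singleton_iff_unique_mem.2
    ⟨(hS f).2 ⟨hm, hi, dvd_rfl⟩, fun p hp => ?_⟩⟩, ?_⟩
  · obtain ⟨h1, h2, h3⟩ := (hS p).1 hp
    exact eq_of_monic_of_associated h1 hm (h2.associated_of_dvd hi h3)
  · rintro ⟨p, rfl⟩
    rw [hf, prod_singleton]
    exact hirr p (mem_singleton_self p)

theorem berlekamp_gcd_factorisation [DecidableEq K] (hm : f.Monic) (hs : Squarefree f) {h : K[X]}
    (hh : f ∣ h ^ Fintype.card K - h) :
    ∏ c : K, normalize (EuclideanDomain.gcd f (h - C c)) = f := by
  obtain ⟨S, hirr, hmon, hf, -⟩ := exists_factor_set hm hs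
  exact prod_gcd hirr hmon hf hh

theorem berlekamp_nontrivial_factor [DecidableEq K] (hm : f.Monic) (hs : Squarefree f) {h : K[X]}
    (hh : f ∣ h ^ Fintype.card K - h) (h0 : 0 < h.natDegree) (hdeg : h.natDegree < f.natDegree) :
    ∃ c : K, 0 < (EuclideanDomain.gcd f (h - C c)).natDegree ∧
      (EuclideanDomain.gcd f (h - C c)).natDegree < f.natDegree := by
  by_contra hcon
  push Not at hcon
  have hne : ∀ c, h - C c ≠ 0 := fun c he => by
    have := congrArg natDegree (sub_eq_zero.1 he)
    rw [natDegree_C] at this
    omega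
  have hzero : ∀ c, (EuclideanDomain.gcd f (h - C c)).natDegree = 0 := fun c => by
    by_contra hc
    have h1 := hcon c (Nat.pos_of_ne_zero hc)
    have h2 := natDegree_le_of_dvd (EuclideanDomain.gcd_dvd_right f (h - C c)) (hne c)
    rw [natDegree_sub_C] at h2
    omega
  have h1 := congrArg natDegree (berlekamp_gcd_factorisation hm hs hh)
  have h2 : (∏ c : K, normalize (EuclideanDomain.gcd f (h - C c))).natDegree ≤
      ∑ c : K, (normalize (EuclideanDomain.gcd f (h - C c))).natDegree :=
    natDegree_prod_le _ _
  simp only [natDegree_eq_of_degree_eq degree_normalize, hzero, sum_const_zero] at h2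
  omega

theorem berlekamp_separates (hm : f.Monic) (hs : Squarefree f) {p r : K[X]} (hp : p.Monic)
    (hp' : Irreducible p) (hpf : p ∣ f) (hr : r.Monic) (hr' : Irreducible r) (hrf : r ∣ f)
    (hne : p ≠ r) : ∃ h : K[X], f ∣ h ^ Fintype.card K - h ∧ p ∣ h ∧ ¬r ∣ h := by
  obtain ⟨S, hirr, hmon, hf, hS⟩ := exists_factor_set hm hs
  exact exists_separating hirr hmon hf ((hS p).2 ⟨hp, hp', hpf⟩) ((hS r).2 ⟨hr, hr', hrf⟩) hne

end FA.Berlekamp.Summary
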