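import Fermat.Agent.BernoulliConvolution.Main

/-!
# Erdős's theorem on Bernoulli convolutions

For a Pisot number `θ ≠ 2` the law of `∑ n ≥ 0, ± θ ^ (-n)`, signs independent and fair, has a
Fourier transform that does not tend to zero, so it is not absolutely continuous (Erdős 1939): for
example at the golden ratio.
-/

set_option autoImplicit false

noncomputable section

open MeasureTheory Polynomial Filter
open scoped ENNReal goldenRatio

namespace FA.BernoulliConvolution.Summary

/-- The measure is a probability measure, the law of the signed series. -/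
theorem bernoulliConvolution_spec {θ : ℝ} (hθ : 1 < θ) :
    IsProbabilityMeasure (bernoulliConvolution θ) ∧
      bernoulliConvolution θ = (Measure.infinitePi fun _ : ℕ =>
        (2⁻¹ : ℝ≥0∞) • Measure.dirac true + (2⁻¹ : ℝ≥0∞) • Measure.dirac false).map
          (fun ω => ∑' n, (if ω n then 1 else -1 : ℝ) / θ ^ n) :=
  ⟨Measure.isProbabilityMeasure_map (measurable_signedSeries hθ).aemeasurable, rfl⟩

/-- Its Fourier transform is the product of cosines. -/
theorem bernoulliConvolution_charFun {θ : ℝ} (hθ : 1 < θ) (t : ℝ) :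
    Tendsto (fun M => ∏ n ∈ Finset.range M, ((Real.cos (t / θ ^ n) : ℝ) : ℂ)) atTop
      (nhds (charFun (bernoulliConvolution θ) t)) :=
  charFun_eq hθ t

/-- **Erdős**: at a Pisot number `θ ≠ 2` the transform does not decay. -/
theorem erdos_charFun_no_decay {θ : ℝ} (hθ : 1 < θ) (hint : IsIntegral ℤ θ)
    (hconj : ∀ z : ℂ, aeval z (minpoly ℤ θ) = 0 → z ≠ (θ : ℂ) → ‖z‖ < 1) (h2 : θ ≠ 2) :
    ∃ c : ℝ, 0 < c ∧ ∀ N : ℕ, c ≤ ‖charFun (bernoulliConvolution θ) (Real.pi * θ ^ N)‖ :=
  exists_le_norm_charFun ⟨hθ, hint, hconj⟩ h2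

/-- **Erdős's theorem.** -/
theorem erdos_bernoulli_convolution {θ : ℝ} (hθ : 1 < θ) (hint : IsIntegral ℤ θ)
    (hconj : ∀ z : ℂ, aeval z (minpoly ℤ θ) = 0 → z ≠ (θ : ℂ) → ‖z‖ < 1) (h2 : θ ≠ 2) :
    ¬bernoulliConvolution θ ≪ volume :=
  not_absolutelyContinuous ⟨hθ, hint, hconj⟩ h2

/-- **The golden ratio.** -/
theorem bernoulli_convolution_goldenRatio : ¬bernoulliConvolution φ ≪ volume :=
  not_absolutelyContinuous isPisot_goldenRatio (ne_of_lt Real.goldenRatio_lt_two)

end FA.BernoulliConvolution.Summary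

end
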