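import Fermat.Agent.BernsteinPolynomial.Gelfand

/-!
# The theorem of Bernstein on `b`-functions, and the problem of Gelfand

A differential operator `P ∈ k[s][x]⟨∂⟩` is given as `∑ⱼ aⱼ ∂^(wⱼ)`, with `aⱼ ∈ k[s][x]` and `wⱼ`
a word in the variables. Specialising `s` to natural numbers determines it.
-/

set_option autoImplicit false

open MvPolynomial MeasureTheory
open scoped ContDiff

namespace FA.Bernstein.Summary

/-- **Bernstein**: for a nonzero polynomial `f` over a field of characteristic zero there are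
`b ≠ 0` in `k[s]` and `P` in `k[s][x]⟨∂⟩` with `P f ^ (s + 1) = b(s) f ^ s`. -/
theorem bernstein_functional_equation {k : Type*} [Field k] [CharZero k] {n : ℕ}
    (f : MvPolynomial (Fin n) k) (hf : f ≠ 0) :
    ∃ b : Polynomial k, b ≠ 0 ∧ ∃ (r : ℕ) (a : Fin r → MvPolynomial (Fin n) (Polynomial k))
      (w : Fin r → List (Fin n)), ∀ m : ℕ,
        ∑ j, MvPolynomial.map (Polynomial.evalRingHom (m : k)) (a j) *
            (w j).foldr (fun i g => pderiv i g) (f ^ (m + 1)) =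
          C (b.eval (m : k)) * f ^ m :=
  Fermat.Agent.BernsteinPolynomial.exists_functional_equation f hf

/-- `∫ f ^ s φ` is holomorphic for `0 < re s`. -/
theorem gelfand_integral_analytic {n : ℕ} (f : MvPolynomial (Fin n) ℝ)
    (hf : ∀ x, 0 ≤ eval x f) {φ : (Fin n → ℝ) → ℂ} (hφ : ContDiff ℝ ∞ φ)
    (hφ' : HasCompactSupport φ) {s : ℂ} (hs : 0 < s.re) :
    AnalyticAt ℂ (fun s => ∫ x, ((eval x f : ℝ) : ℂ) ^ s * φ x) s :=
  Fermat.Agent.BernsteinPolynomial.analyticAt_zetaInt f hf ⟨hφ, hφ'⟩ hs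

/-- **Gelfand's problem** (Bernstein): for a polynomial `f ≥ 0` on `ℝⁿ` and a test function `φ`
the integral `∫ f ^ s φ` continues meromorphically to the whole plane. -/
theorem gelfand_meromorphic_continuation {n : ℕ} (f : MvPolynomial (Fin n) ℝ) (hf0 : f ≠ 0)
    (hf : ∀ x, 0 ≤ eval x f) {φ : (Fin n → ℝ) → ℂ} (hφ : ContDiff ℝ ∞ φ)
    (hφ' : HasCompactSupport φ) :
    ∃ G : ℂ → ℂ, MeromorphicOn G Set.univ ∧
      ∀ s : ℂ, 0 < s.re → G s = ∫ x, ((eval x f : ℝ) : ℂ) ^ s * φ x :=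
  Fermat.Agent.BernsteinPolynomial.exists_meromorphicOn_univ f hf hf0 ⟨hφ, hφ'⟩

end FA.Bernstein.Summary
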