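import Fermat.Agent.BerryEsseen.IteratedLog

/-!
# The theorem of Berry and Esseen and the law of the iterated logarithm

Let `X 0, X 1, ...` be independent real variables with a common law of mean `0`, variance
`σ ^ 2 > 0` and finite third absolute moment, and `S n` the sum of the first `n` of them.

* `berry_esseen`: the distribution function of `S n / (σ √n)` differs from the standard normal one
  by at most `8000 E |X 0| ^ 3 / (σ ^ 3 √n)`, everywhere;
* `iterated_logarithm` (Khinchin, Kolmogorov, Hartman–Wintner): almost surely, for every `c > 1`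
  one has `|S n| < c σ √(2 n log log n)` for large `n`, for every `c < 1` each of
  `± S n > c σ √(2 n log log n)` happens infinitely often, and the upper and lower limits of
  `S n / √(2 n log log n)` are `σ` and `-σ`;
* `iterated_logarithm_bounded`, `random_walk`: hence the same for bounded variables, and for the
  simple random walk.

The law of the iterated logarithm with a second moment only, variables with different laws, and
the best constant are not proved.
-/

set_option autoImplicit false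

noncomputable section

namespace FA.BerryEsseen.Summary

open MeasureTheory ProbabilityTheory Filter Set
open FA.BerryEsseen
open scoped Real Topology

variable {Ω : Type*} [MeasurableSpace Ω] {P : Measure Ω} [IsProbabilityMeasure P]
  {X : ℕ → Ω → ℝ} {σ : ℝ}

omit [IsProbabilityMeasure P] in
theorem standard_div (hX : ∀ i, Measurable (X i)) (hind : iIndepFun X P)
    (hid : ∀ i, IdentDistrib (X i) (X 0) P P) (h3 : Integrable (fun ω => |X 0 ω| ^ 3) P)
    (hmean : ∫ ω, X 0 ω ∂P = 0) (hσ : 0 < σ) (hvar : ∫ ω, X 0 ω ^ 2 ∂P = σ ^ 2) :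
    Standard (fun i ω => X i ω / σ) P ∧
      thirdMoment (fun i ω => X i ω / σ) P = (∫ ω, |X 0 ω| ^ 3 ∂P) / σ ^ 3 := by
  have e : ∀ ω, |X 0 ω / σ| ^ 3 = |X 0 ω| ^ 3 / σ ^ 3 := fun ω => by
    rw [abs_div, abs_of_pos hσ, div_pow]
  refine ⟨⟨fun i => (hX i).div_const σ, hind.comp (fun _ x => x / σ) fun _ =>
    measurable_id.div_const σ, fun i => (hid i).comp (measurable_id.div_const σ), ?_, ?_, ?_⟩, ?_⟩
  · simp only [e]
    exact h3.div_const _
  · rw [integral_div, hmean, zero_div]
  · simp only [div_pow]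
    rw [integral_div, hvar, div_self (pow_ne_zero 2 hσ.ne')]
  · show ∫ ω, |X 0 ω / σ| ^ 3 ∂P = _
    simp only [e]
    rw [integral_div]

/-- **The theorem of Berry and Esseen.** -/
theorem berry_esseen (hX : ∀ i, Measurable (X i)) (hind : iIndepFun X P)
    (hid : ∀ i, IdentDistrib (X i) (X 0) P P) (h3 : Integrable (fun ω => |X 0 ω| ^ 3) P)
    (hmean : ∫ ω, X 0 ω ∂P = 0) (hσ : 0 < σ) (hvar : ∫ ω, X 0 ω ^ 2 ∂P = σ ^ 2)
    {n : ℕ} (hn : 0 < n) (x : ℝ) :
    |P.real {ω | ∑ i ∈ Finset.range n, X i ω ≤ x * σ * Real.sqrt n} -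
        ∫ y in Iic x, Real.exp (-y ^ 2 / 2) / √(2 * π)| ≤
      8000 * (∫ ω, |X 0 ω| ^ 3 ∂P) / (σ ^ 3 * Real.sqrt n) := by
  obtain ⟨hs, hρ⟩ := standard_div hX hind hid h3 hmean hσ hvar
  have key := hs.abs_sub_normCdf_le hn x
  rw [hρ, mul_div_assoc', div_div] at key
  refine le_trans (le_of_eq ?_) key
  congr 2
  congr 1
  ext ω
  simp only [mem_ofPred_eq]
  rw [← Finset.sum_div, div_le_iff₀ hσ, mul_right_comm]

/-- **The law of the iterated logarithm.** -/
theorem iterated_logarithm (hX : ∀ i, Measurable (X i)) (hind : iIndepFun X P)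
    (hid : ∀ i, IdentDistrib (X i) (X 0) P P) (h3 : Integrable (fun ω => |X 0 ω| ^ 3) P)
    (hmean : ∫ ω, X 0 ω ∂P = 0) (hσ : 0 < σ) (hvar : ∫ ω, X 0 ω ^ 2 ∂P = σ ^ 2) :
    ∀ᵐ ω ∂P,
      (∀ c > 1, ∀ᶠ n : ℕ in atTop,
        |∑ i ∈ Finset.range n, X i ω| < c * σ * Real.sqrt (2 * n * Real.log (Real.log n))) ∧
      (∀ c < 1, ∃ᶠ n : ℕ in atTop,
        c * σ * Real.sqrt (2 * n * Real.log (Real.log n)) < ∑ i ∈ Finset.range n, X i ω) ∧
      (∀ c < 1, ∃ᶠ n : ℕ in atTop,
        ∑ i ∈ Finset.range n, X i ω < -(c * σ * Real.sqrt (2 * n * Real.log (Real.log n)))) ∧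
      limsup (fun n : ℕ => (∑ i ∈ Finset.range n, X i ω) /
        Real.sqrt (2 * n * Real.log (Real.log n))) atTop = σ ∧
      liminf (fun n : ℕ => (∑ i ∈ Finset.range n, X i ω) /
        Real.sqrt (2 * n * Real.log (Real.log n))) atTop = -σ := by
  filter_upwards [(standard_div hX hind hid h3 hmean hσ hvar).1.iterated_log] with ω
    ⟨h1, h2, h4, h5, h6⟩
  simp only [partialSum, ← Finset.sum_div, lilScale] at h1 h2 h4 h5 h6
  refine ⟨fun c hc => (h1 c hc).mono fun n hn => ?_, fun c hc => (h2 c hc).mono fun n hn => ?_,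
    fun c hc => (h4 c hc).mono fun n hn => ?_, ?_, ?_⟩
  · rw [abs_div, abs_of_pos hσ, div_lt_iff₀ hσ] at hn
    linarith
  · rw [lt_div_iff₀ hσ] at hn
    linarith
  · rw [div_lt_iff₀ hσ] at hn
    linarith
  all_goals
    have hb : ∀ᶠ n : ℕ in atTop, (∑ i ∈ Finset.range n, X i ω) / σ /
        Real.sqrt (2 * n * Real.log (Real.log n)) ≤ 2 ∧ -2 ≤ (∑ i ∈ Finset.range n, X i ω) / σ /
        Real.sqrt (2 * n * Real.log (Real.log n)) := by
      filter_upwards [h1 2 one_lt_two, lilScale_eventually_pos] with n hn hpos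
      simp only [lilScale] at hpos
      obtain ⟨hn1, hn2⟩ := abs_lt.1 hn
      exact ⟨(div_le_iff₀ hpos).2 hn2.le, (le_div_iff₀ hpos).2 (by linarith)⟩
    have hb1 : IsBoundedUnder (· ≤ ·) atTop fun n : ℕ => (∑ i ∈ Finset.range n, X i ω) / σ /
        Real.sqrt (2 * n * Real.log (Real.log n)) :=
      ⟨2, eventually_map.2 (hb.mono fun n hn => hn.1)⟩
    have hb2 : IsBoundedUnder (· ≥ ·) atTop fun n : ℕ => (∑ i ∈ Finset.range n, X i ω) / σ /
        Real.sqrt (2 * n * Real.log (Real.log n)) :=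
      ⟨-2, eventually_map.2 (hb.mono fun n hn => hn.2)⟩
  · calc limsup (fun n : ℕ => (∑ i ∈ Finset.range n, X i ω) /
          Real.sqrt (2 * n * Real.log (Real.log n))) atTop
        = limsup ((fun t => σ * t) ∘ fun n : ℕ => (∑ i ∈ Finset.range n, X i ω) / σ /
            Real.sqrt (2 * n * Real.log (Real.log n))) atTop :=
          congrArg (limsup · atTop) (funext fun n => by simp only [Function.comp_apply]; field_simp)
      _ = σ * limsup (fun n : ℕ => (∑ i ∈ Finset.range n, X i ω) / σ /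
            Real.sqrt (2 * n * Real.log (Real.log n))) atTop :=
          ((monotone_mul_left_of_nonneg hσ.le).map_limsup_of_continuousAt _
            (continuous_const_mul σ).continuousAt hb1 hb2.isCoboundedUnder_le).symm
      _ = σ := by rw [h5, mul_one]
  · calc liminf (fun n : ℕ => (∑ i ∈ Finset.range n, X i ω) /
          Real.sqrt (2 * n * Real.log (Real.log n))) atTop
        = liminf ((fun t => σ * t) ∘ fun n : ℕ => (∑ i ∈ Finset.range n, X i ω) / σ /
            Real.sqrt (2 * n * Real.log (Real.log n))) atTop :=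
          congrArg (liminf · atTop) (funext fun n => by simp only [Function.comp_apply]; field_simp)
      _ = σ * liminf (fun n : ℕ => (∑ i ∈ Finset.range n, X i ω) / σ /
            Real.sqrt (2 * n * Real.log (Real.log n))) atTop :=
          ((monotone_mul_left_of_nonneg hσ.le).map_liminf_of_continuousAt _
            (continuous_const_mul σ).continuousAt hb1.isCoboundedUnder_ge hb2).symm
      _ = -σ := by rw [h6, mul_neg, mul_one]

/-- **Bounded variables.** -/
theorem iterated_logarithm_bounded (hX : ∀ i, Measurable (X i)) (hind : iIndepFun X P)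
    (hid : ∀ i, IdentDistrib (X i) (X 0) P P) {M : ℝ} (hM : ∀ᵐ ω ∂P, |X 0 ω| ≤ M)
    (hmean : ∫ ω, X 0 ω ∂P = 0) (hσ : 0 < σ) (hvar : ∫ ω, X 0 ω ^ 2 ∂P = σ ^ 2) :
    ∀ᵐ ω ∂P,
      limsup (fun n : ℕ => (∑ i ∈ Finset.range n, X i ω) /
        Real.sqrt (2 * n * Real.log (Real.log n))) atTop = σ ∧
      liminf (fun n : ℕ => (∑ i ∈ Finset.range n, X i ω) /
        Real.sqrt (2 * n * Real.log (Real.log n))) atTop = -σ := by
  have h3 : Integrable (fun ω => |X 0 ω| ^ 3) P :=
    .of_bound ((hX 0).abs.pow_const 3).aestronglyMeasurable (M ^ 3) (hM.mono fun ω hω => by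
      rw [Real.norm_eq_abs, abs_of_nonneg (by positivity)]
      exact pow_le_pow_left₀ (abs_nonneg _) hω 3)
  filter_upwards [iterated_logarithm hX hind hid h3 hmean hσ hvar] with ω hω
  exact hω.2.2.2

/-- **The simple random walk.** -/
theorem random_walk (hX : ∀ i, Measurable (X i)) (hind : iIndepFun X P)
    (hid : ∀ i, IdentDistrib (X i) (X 0) P P) (hone : ∀ᵐ ω ∂P, |X 0 ω| = 1)
    (hmean : ∫ ω, X 0 ω ∂P = 0) :
    ∀ᵐ ω ∂P,
      limsup (fun n : ℕ => (∑ i ∈ Finset.range n, X i ω) /
        Real.sqrt (2 * n * Real.log (Real.log n))) atTop = 1 ∧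
      liminf (fun n : ℕ => (∑ i ∈ Finset.range n, X i ω) /
        Real.sqrt (2 * n * Real.log (Real.log n))) atTop = -1 := by
  refine iterated_logarithm_bounded hX hind hid (hone.mono fun ω hω => hω.le) hmean one_pos ?_
  rw [integral_congr_ae (hone.mono fun ω hω => show X 0 ω ^ 2 = 1 by rw [← sq_abs, hω, one_pow])]
  simp

end FA.BerryEsseen.Summary
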