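import Fermat.Agent.Bertrandias.Disc
import Fermat.Agent.Bertrandias.Converse

/-!
# The rationality theorem of Borel, Dwork and Bertrandias, and the converse of Pólya's theorem

A series with rational coefficients which is, at the infinite place, holomorphic off a compact set
of Chebyshev constant `ρ` and finitely many points and, at the primes `l` of a finite set,
meromorphic in the disc `|t| < 1 / R l`, and integral at all other primes, is rational if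
`ρ * ∏ R l < 1`. Conversely, near the hull of a symmetric compact set of Chebyshev constant at
least one there are irrational integral series. Number fields other than `ℚ` and `p`-adic sets
other than discs are not treated.
-/

set_option autoImplicit false

noncomputable section

namespace FA.Bertrandias.Summary

open Polynomial
open scoped Topology ComplexConjugate

/-- **The theorem of Bertrandias over `ℚ`.** -/
theorem bertrandias_rationality {S : Finset Nat.Primes} {R : Nat.Primes → ℝ} {a : ℕ → ℚ}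
    {K F : Set ℂ} (hK : IsCompact K) (hF : F.Finite) {p : ℂ[X]} (hp : p.Monic)
    (hd : 0 < p.natDegree) {ρ : ℝ} (hρ : 0 ≤ ρ)
    (hsmall : ∀ z ∈ K, ‖p.eval z‖ ≤ ρ ^ p.natDegree) (hRpos : ∀ l ∈ S, 0 < R l)
    (hint : ∀ l : Nat.Primes, l ∉ S → ∀ n, padicNorm l (a n) ≤ 1)
    (hmero : ∀ l ∈ S, ∃ (Q : ℚ_[(l : ℕ)][X]) (C : ℝ), Q.coeff 0 = 1 ∧ ∀ n,
      ‖PowerSeries.coeff n (PowerSeries.mk (fun m => (a m : ℚ_[(l : ℕ)])) *
        (Q : PowerSeries ℚ_[(l : ℕ)]))‖ ≤ C * R l ^ n)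
    (hprod : ρ * ∏ l ∈ S, R l < 1) {f : ℂ → ℂ} {R₀ : ℝ} (hf : DifferentiableOn ℂ f (K ∪ F)ᶜ)
    (hser : ∀ z : ℂ, R₀ < ‖z‖ → HasSum (fun n => (a n : ℂ) / z ^ (n + 1)) (f z)) :
    ∃ P Q : ℚ[X], Q.Monic ∧ ∃ r : ℝ, ∀ z : ℂ, r < ‖z‖ → f z * aeval z Q = aeval z P := by
  obtain ⟨Q, hQ, hann⟩ :=
    exists_annihilator hK hF hp hd hρ hsmall hRpos hint hmero hprod hf hser
  obtain ⟨P, h⟩ := exists_eq_aeval hann hser
  exact ⟨P, Q, hQ, h⟩

/-- **The criterion of Borel and Dwork.** -/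
theorem borel_dwork {S : Finset Nat.Primes} {R : Nat.Primes → ℝ} {a : ℕ → ℚ}
    (hRpos : ∀ l ∈ S, 0 < R l)
    (hint : ∀ l : Nat.Primes, l ∉ S → ∀ n, padicNorm l (a n) ≤ 1)
    (hmero : ∀ l ∈ S, ∃ (Q : ℚ_[(l : ℕ)][X]) (C : ℝ), Q.coeff 0 = 1 ∧ ∀ n,
      ‖PowerSeries.coeff n (PowerSeries.mk (fun m => (a m : ℚ_[(l : ℕ)])) *
        (Q : PowerSeries ℚ_[(l : ℕ)]))‖ ≤ C * R l ^ n)
    {Rinf : ℝ} (hprod : ∏ l ∈ S, R l < Rinf) {g : ℂ → ℂ}
    (hg : MeromorphicOn g (Metric.ball 0 Rinf))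
    (hser : ∀ᶠ w in 𝓝 (0 : ℂ), HasSum (fun n => (a n : ℂ) * w ^ n) (g w)) :
    ∃ P B : ℚ[X], B.coeff 0 = 1 ∧
      PowerSeries.mk a * (B : PowerSeries ℚ) = (P : PowerSeries ℚ) :=
  exists_powerSeries_eq_of_meromorphic hRpos hint hmero hprod hg hser

/-- **Borel, 1894**: an integral power series meromorphic in a disc of radius above one. -/
theorem borel_1894 {a : ℕ → ℤ} {R : ℝ} (hR : 1 < R) {g : ℂ → ℂ}
    (hg : MeromorphicOn g (Metric.ball 0 R))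
    (hser : ∀ᶠ w in 𝓝 (0 : ℂ), HasSum (fun n => (a n : ℂ) * w ^ n) (g w)) :
    ∃ P B : ℤ[X], B.coeff 0 = 1 ∧
      PowerSeries.mk a * (B : PowerSeries ℤ) = (P : PowerSeries ℤ) :=
  exists_intPolynomial_of_meromorphic hR hg hser

/-- **Product one is not enough**: here `ρ = 1 / 2` and `R 2 = 2`. -/
theorem bertrandias_sharp :
    ∃ (a : ℕ → ℚ) (f : ℂ → ℂ),
      (∀ l : Nat.Primes, (l : ℕ) ≠ 2 → ∀ n, padicNorm l (a n) ≤ 1) ∧
      (∀ n, ‖(a n : ℚ_[2])‖ ≤ 2 ^ n) ∧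
      DifferentiableOn ℂ f (Metric.closedBall (0 : ℂ) (1 / 2))ᶜ ∧
      (∀ z : ℂ, 1 / 2 < ‖z‖ → HasSum (fun n => (a n : ℂ) / z ^ (n + 1)) (f z)) ∧
      ∀ P Q : ℂ[X], Q ≠ 0 → ∀ R : ℝ, ∃ z : ℂ, R < ‖z‖ ∧ f z * Q.eval z ≠ P.eval z :=
  exists_irrational_scaled

/-- **The converse of Pólya's theorem**: if no monic polynomial is below one on `K`, every
neighbourhood of the polynomial hull holds the singularities of an irrational integral series. -/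
theorem polya_converse {K U : Set ℂ} (hK : IsCompact K) (hsymm : ∀ z ∈ K, conj z ∈ K)
    (hbig : ∀ p : ℂ[X], p.Monic → 0 < p.natDegree → ∃ z ∈ K, 1 ≤ ‖p.eval z‖) (hU : IsOpen U)
    (hhull : ∀ z, (∀ (p : ℂ[X]) (s : ℝ), (∀ x ∈ K, ‖p.eval x‖ ≤ s) → ‖p.eval z‖ ≤ s) → z ∈ U) :
    ∃ (L : Set ℂ) (a : ℕ → ℤ) (f : ℂ → ℂ) (R₀ : ℝ), IsCompact L ∧ L ⊆ U ∧
      DifferentiableOn ℂ f Lᶜ ∧
      (∀ z : ℂ, R₀ < ‖z‖ → HasSum (fun n => (a n : ℂ) / z ^ (n + 1)) (f z)) ∧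
      ∀ P Q : ℂ[X], Q ≠ 0 → ∀ R : ℝ, ∃ z : ℂ, R < ‖z‖ ∧ f z * Q.eval z ≠ P.eval z :=
  exists_irrational_near hK hsymm hbig hU hhull

/-- **Pólya's theorem with its converse**: the Chebyshev constant of a symmetric compact set is
below one iff some neighbourhood of its hull admits only rational integral series. -/
theorem polya_iff {K : Set ℂ} (hK : IsCompact K) (hsymm : ∀ z ∈ K, conj z ∈ K) :
    (∃ p : ℂ[X], p.Monic ∧ 0 < p.natDegree ∧ ∀ z ∈ K, ‖p.eval z‖ < 1) ↔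
    ∃ U : Set ℂ, IsOpen U ∧
      (∀ z, (∀ (p : ℂ[X]) (s : ℝ), (∀ x ∈ K, ‖p.eval x‖ ≤ s) → ‖p.eval z‖ ≤ s) → z ∈ U) ∧
      ∀ (L : Set ℂ) (a : ℕ → ℤ) (f : ℂ → ℂ) (R₀ : ℝ), IsCompact L → L ⊆ U →
        DifferentiableOn ℂ f Lᶜ →
        (∀ z : ℂ, R₀ < ‖z‖ → HasSum (fun n => (a n : ℂ) / z ^ (n + 1)) (f z)) →
        ∃ P Q : ℤ[X], Q.Monic ∧ ∃ R : ℝ, ∀ z : ℂ, R < ‖z‖ → f z * aeval z Q = aeval z P := by
  constructor
  · rintro ⟨p, hp, hd, hsmall⟩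
    obtain ⟨δ, hδ, hδK⟩ : ∃ δ : ℝ, 0 < δ ∧ ∀ z ∈ K, δ ≤ 1 - ‖p.eval z‖ :=
      hK.exists_forall_le' (by fun_prop) fun z hz => sub_pos.2 (hsmall z hz)
    refine ⟨{z | ‖p.eval z‖ < 1}, isOpen_lt p.continuous.norm continuous_const, fun z hz => ?_,
      fun L a f R₀ hL hLU hf hser =>
        PolyaRationality.exists_rational_of_compact hL hp hd hLU hf hser⟩
    have h := hz p (max (1 - δ) 0) fun x hx =>
      le_max_of_le_left (by linarith [hδK x hx])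
    exact h.trans_lt (max_lt (by linarith) one_pos)
  · rintro ⟨U, hU, hhull, hrat⟩
    by_contra! hbig
    obtain ⟨L, a, f, R₀, hL, hLU, hf, hser, hirr⟩ := polya_converse hK hsymm hbig hU hhull
    obtain ⟨P, Q, hQ, R, heq⟩ := hrat L a f R₀ hL hLU hf hser
    obtain ⟨z, hz, hne⟩ := hirr (P.map (Int.castRingHom ℂ)) (Q.map (Int.castRingHom ℂ))
      (hQ.map _).ne_zero R
    apply hne
    have h := heq z hz
    rwa [aeval_def, aeval_def, algebraMap_int_eq, ← eval_map, ← eval_map] at h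

end FA.Bertrandias.Summary
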