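import Fermat.Agent.DigitFrequency.Dimension

/-!
# The theorem of Besicovitch and Eggleston

The reals of `[0, 1)` whose digits in base `b` have the frequencies `p` form a set of
Hausdorff dimension `(-∑ p j log p j) / log b`.  The middle-thirds Cantor set has dimension
`log 2 / log 3`, and positive finite measure in that dimension.
-/

set_option autoImplicit false

noncomputable section

open Filter Topology MeasureTheory Measure

namespace FA.DigitFrequency.Summary

/-- **The theorem of Besicovitch and Eggleston.** -/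
theorem besicovitch_eggleston {b : ℕ} [NeZero b] (hb : 2 ≤ b) {p : Fin b → ℝ}
    (hp0 : ∀ j, 0 ≤ p j) (hp1 : ∑ j, p j = 1) :
    dimH {x : ℝ | x ∈ Set.Ico (0 : ℝ) 1 ∧ ∀ j, Tendsto (fun n : ℕ =>
      (((Finset.range n).filter fun i => Real.digits x b i = j).card : ℝ) / n)
        atTop (𝓝 (p j))} = ENNReal.ofReal ((∑ j, -(p j * Real.log (p j))) / Real.log b) := by
  rw [Finset.sum_neg_distrib, ← entropy_eq]
  exact le_antisymm (dimH_freqReals_le hb hp0 hp1) (le_dimH_freqReals hb hp0 hp1)

/-- The middle-thirds Cantor set has Hausdorff dimension `log 2 / log 3`. -/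
theorem dimH_cantorSet : dimH cantorSet = ENNReal.ofReal (Real.log 2 / Real.log 3) :=
  dimH_cantorSet_eq

/-- The `log 2 / log 3`-dimensional measure of the Cantor set is positive and at most `1`. -/
theorem hausdorffMeasure_cantorSet :
    μH[Real.log 2 / Real.log 3] cantorSet ≠ 0 ∧ μH[Real.log 2 / Real.log 3] cantorSet ≤ 1 :=
  ⟨hausdorffMeasure_cantorSet_ne_zero, hausdorffMeasure_cantorSet_le_one⟩

/-- The reals that are not simply normal in base `b` form a set of full dimension. -/
theorem dimH_not_simply_normal {b : ℕ} [NeZero b] (hb : 2 ≤ b) :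
    dimH {x : ℝ | x ∈ Set.Ico (0 : ℝ) 1 ∧ ¬∀ j, Tendsto (fun n : ℕ =>
      (((Finset.range n).filter fun i => Real.digits x b i = j).card : ℝ) / n)
        atTop (𝓝 (1 / (b : ℝ)))} = 1 :=
  dimH_not_simplyNormal hb

end FA.DigitFrequency.Summary
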