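import Fermat.Agent.Frostman.Besicovitch

/-!
# Besicovitch's theorem on plane Kakeya sets

Some compact plane set of Lebesgue measure zero contains a unit segment in every direction
(Besicovitch 1928). By Davies's theorem it has Hausdorff dimension `2`.
-/

set_option autoImplicit false

noncomputable section

open MeasureTheory

namespace FA.Frostman.Summary

/-- **Besicovitch's theorem.** -/
theorem besicovitch_kakeya :
    ∃ K : Set ℂ, IsCompact K ∧ volume K = 0 ∧
      ∀ θ : ℝ, ∃ z : ℂ, ∀ t ∈ Set.Icc (0 : ℝ) 1,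
        (⟨z.re + t * Real.cos θ, z.im + t * Real.sin θ⟩ : ℂ) ∈ K := by
  obtain ⟨K, hK, hkak, hnull⟩ := exists_null_kakeya
  exact ⟨K, hK, hnull, hkak⟩

/-- A null compact Kakeya set of dimension `2`. -/
theorem besicovitch_kakeya_dimension :
    ∃ K : Set ℂ, IsCompact K ∧ volume K = 0 ∧ dimH K = 2 ∧
      ∀ θ : ℝ, ∃ z : ℂ, ∀ t ∈ Set.Icc (0 : ℝ) 1,
        (⟨z.re + t * Real.cos θ, z.im + t * Real.sin θ⟩ : ℂ) ∈ K := by
  obtain ⟨K, hK, hkak, hnull⟩ := exists_null_kakeya
  exact ⟨K, hK, hnull, dimH_kakeya hK hkak, hkak⟩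

/-- **Körner**: compact sets of lines of all slopes in `[0, 1]` with null sections exist. -/
theorem null_sections_all_slopes :
    ∃ E : Set ℂ, IsCompact E ∧ Complex.re '' E = Set.Icc 0 1 ∧
      ∀ x ∈ Set.Icc (0 : ℝ) 1, volume ((fun w : ℂ => w.re * x + w.im) '' E) = 0 :=
  exists_null_lineSections

end FA.Frostman.Summary

end
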