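import Fermat.Agent.SiegelShidlovskii.BesselTranscendental

/-!
# Siegel's theorem on the Bessel function

* `bessel_functions_algebraicIndependent`: `J₀(z) = ∑ (-1) ^ l (z / 2) ^ (2 l) / l! ^ 2` and its
  derivative satisfy no algebraic equation over `ℚ(z)`;
* `bessel_algebraicIndependent`, `bessel_transcendental`: Siegel (1929): for rational `α ≠ 0` the
  numbers `J₀ α` and `J₀' α` are algebraically independent over `ℚ`; so both, and every
  nonconstant polynomial in them, are transcendental (rational `α` only, not algebraic `α`).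

Complements `SummarySiegelShidlovskii`; independent of S01.
-/

set_option autoImplicit false

noncomputable section

open Finset
open scoped Nat

namespace FA.SiegelShidlovskii.Summary

/-- **`J₀` and `J₀'` are algebraically independent functions.** -/
theorem bessel_functions_algebraicIndependent {J : PowerSeries ℚ}
    (hJ : ∀ k, PowerSeries.coeff k J =
      if Even k then (-1 : ℚ) ^ (k / 2) / (4 ^ (k / 2) * ((k / 2)! : ℚ) ^ 2) else 0)
    (p : MvPolynomial (Fin 3) ℚ)
    (hp : MvPolynomial.aeval ![PowerSeries.derivative ℚ J, J, PowerSeries.X] p = 0) : p = 0 := by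
  obtain rfl : J = FA.SiegelShidlovskii.besselSeries := PowerSeries.ext fun k => by
    rw [hJ, FA.SiegelShidlovskii.besselSeries, PowerSeries.coeff_mk]
  exact FA.SiegelShidlovskii.relEval_eq_zero hp

/-- **Siegel's theorem.** -/
theorem bessel_algebraicIndependent {α : ℚ} (hα : α ≠ 0) :
    AlgebraicIndependent ℚ ![∑' l : ℕ, (-1) ^ l * ((α : ℝ) / 2) ^ (2 * l) / ((l ! : ℝ)) ^ 2,
      deriv (fun x : ℝ => ∑' l : ℕ, (-1) ^ l * (x / 2) ^ (2 * l) / ((l ! : ℝ)) ^ 2) α] :=
  FA.SiegelShidlovskii.algebraicIndependent_bessel hα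

/-- **`J₀ α` and `J₀' α` are transcendental.** -/
theorem bessel_transcendental {α : ℚ} (hα : α ≠ 0) :
    Transcendental ℚ (∑' l : ℕ, (-1) ^ l * ((α : ℝ) / 2) ^ (2 * l) / ((l ! : ℝ)) ^ 2) ∧
      Transcendental ℚ
        (deriv (fun x : ℝ => ∑' l : ℕ, (-1) ^ l * (x / 2) ^ (2 * l) / ((l ! : ℝ)) ^ 2) α) :=
  ⟨(bessel_algebraicIndependent hα).transcendental 0,
    (bessel_algebraicIndependent hα).transcendental 1⟩

end FA.SiegelShidlovskii.Summary

end
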