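import Fermat.Agent.SiegelShidlovskii.KZeros

/-!
# The zeros of Bessel functions (Lommel, Hurwitz, Siegel)

`K_λ z = ∑ (-1) ^ l (z / 2) ^ (2 l) / (l! (λ + 1) … (λ + l))`, so that
`J_λ z = (z / 2) ^ λ K_λ z / Γ (λ + 1)`; here `λ > -1` is rational.

* `lommel_zeros_real`: every zero of `K_λ` is real;
* `bessel_zeros_simple`: the zeros of `K_λ` are simple;
* `hurwitz_zeros`: for `T ≥ 2 (|λ| + 1)` there is a zero in `[T, T + 2 π]`;
* `siegel_zeros_transcendental`: so, unless `λ` is half an odd integer, `K_λ` has infinitely many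
  positive zeros and all zeros are transcendental;
* `bessel_order_zeros`: for natural `n` the zeros of `J_n` are real, and infinitely many of them
  are positive and transcendental.

Complements `SummarySiegelBesselTheorem`; independent of S01.
-/

set_option autoImplicit false

noncomputable section

open Finset
open scoped Nat

namespace FA.SiegelShidlovskii.Summary

/-- **Lommel.** -/
theorem lommel_zeros_real {lam : ℚ} (h : -1 < lam) {z : ℂ}
    (hz : ∑' l : ℕ, (-1) ^ l * (z / 2) ^ (2 * l) /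
      ((l ! : ℂ) * ∏ j ∈ Icc 1 l, ((lam : ℂ) + j)) = 0) : z.im = 0 :=
  FA.SiegelShidlovskii.kSeries_zero_im h ((FA.SiegelShidlovskii.cval_kSeries lam z).trans hz)

/-- **The zeros are simple.** -/
theorem bessel_zeros_simple {lam : ℚ} (h : -1 < lam) {z : ℂ}
    (hz : ∑' l : ℕ, (-1) ^ l * (z / 2) ^ (2 * l) /
      ((l ! : ℂ) * ∏ j ∈ Icc 1 l, ((lam : ℂ) + j)) = 0) :
    deriv (fun z : ℂ => ∑' l : ℕ, (-1) ^ l * (z / 2) ^ (2 * l) /
      ((l ! : ℂ) * ∏ j ∈ Icc 1 l, ((lam : ℂ) + j))) z ≠ 0 := by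
  have hlam := FA.SiegelShidlovskii.ne_neg_nat_of_neg_one_lt h
  rw [← funext fun z => FA.SiegelShidlovskii.cval_kSeries lam z,
    ((FA.SiegelShidlovskii.isEFunction_kSeries hlam).expGrowth.chasDerivAt z).deriv]
  exact FA.SiegelShidlovskii.kSeries_zero_simple hlam
    ((FA.SiegelShidlovskii.cval_kSeries lam z).trans hz)

/-- **Hurwitz.** -/
theorem hurwitz_zeros {lam : ℚ} (h : -1 < lam) {T : ℝ} (hT : 2 * (|(lam : ℝ)| + 1) ≤ T) :
    ∃ x ∈ Set.Icc T (T + 2 * Real.pi), ∑' l : ℕ, (-1) ^ l * ((x : ℂ) / 2) ^ (2 * l) /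
      ((l ! : ℂ) * ∏ j ∈ Icc 1 l, ((lam : ℂ) + j)) = 0 := by
  obtain ⟨x, hx, hx0⟩ := FA.SiegelShidlovskii.exists_kSeries_zero_mem
    (FA.SiegelShidlovskii.ne_neg_nat_of_neg_one_lt h) hT
  refine ⟨x, hx, ?_⟩
  rw [← FA.SiegelShidlovskii.cval_kSeries, FA.SiegelShidlovskii.cval_ofReal, hx0,
    Complex.ofReal_zero]

/-- **Infinitely many zeros, all transcendental.** -/
theorem siegel_zeros_transcendental {lam : ℚ} (h : -1 < lam)
    (hhalf : ∀ t : ℤ, lam ≠ (t : ℚ) + 1 / 2) :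
    {x : ℝ | 0 < x ∧ Transcendental ℚ x ∧ ∑' l : ℕ, (-1) ^ l * ((x : ℂ) / 2) ^ (2 * l) /
      ((l ! : ℂ) * ∏ j ∈ Icc 1 l, ((lam : ℂ) + j)) = 0}.Infinite := by
  have hlam := FA.SiegelShidlovskii.ne_neg_nat_of_neg_one_lt h
  refine (FA.SiegelShidlovskii.infinite_kSeries_zeros hlam).mono ?_
  rintro x ⟨hx, hx0⟩
  refine ⟨hx, fun ha => ?_, ?_⟩
  · exact FA.SiegelShidlovskii.transcendental_kSeries_zero hlam hhalf hx0
      (FA.SiegelShidlovskii.isAlgebraic_ofReal_iff'.2 ha)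
  · rwa [← FA.SiegelShidlovskii.cval_kSeries]

/-- **The zeros of `J_n`.** -/
theorem bessel_order_zeros (n : ℕ) :
    (∀ z : ℂ, ∑' l : ℕ, (-1) ^ l * (z / 2) ^ (2 * l + n) / ((l ! : ℂ) * ((l + n)! : ℂ)) = 0 →
        z.im = 0) ∧
      {x : ℝ | 0 < x ∧ Transcendental ℚ x ∧ ∑' l : ℕ, (-1) ^ l * ((x : ℂ) / 2) ^ (2 * l + n) /
        ((l ! : ℂ) * ((l + n)! : ℂ)) = 0}.Infinite :=
  FA.SiegelShidlovskii.besselC_zeros n

end FA.SiegelShidlovskii.Summary

end
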