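import Fermat.Agent.BetaExpansion.Main

/-!
# Periodic beta-expansions

The theorem of Bertrand and Schmidt: at a Pisot number `β` every point of `ℚ(β) ∩ [0, 1)` has an
eventually periodic greedy expansion in base `β`; if all rationals in `[0, 1)` have one, `β` is an
algebraic integer with its other conjugates in the closed unit disc, a Pisot or Salem number.
-/

set_option autoImplicit false

noncomputable section

open Polynomial
open scoped IntermediateField

namespace FA.BetaExpansion.Summary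

/-- **Bertrand, Schmidt.** -/
theorem bertrand_schmidt {β : ℝ} (h1 : 1 < β) (hint : IsIntegral ℤ β)
    (hconj : ∀ z : ℂ, aeval z (minpoly ℤ β) = 0 → z ≠ (β : ℂ) → ‖z‖ < 1) {x : ℝ}
    (hx : x ∈ Set.Ico (0 : ℝ) 1) (hxK : x ∈ ℚ⟮β⟯) : HasPeriodicExpansion β x :=
  hasPeriodicExpansion_of_isPisot ⟨h1, hint, hconj⟩ hx hxK

/-- At a Pisot number every rational in `[0, 1)` has an eventually periodic expansion. -/
theorem bertrand_schmidt_rational {β : ℝ} (h1 : 1 < β) (hint : IsIntegral ℤ β)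
    (hconj : ∀ z : ℂ, aeval z (minpoly ℤ β) = 0 → z ≠ (β : ℂ) → ‖z‖ < 1) {r : ℚ} (h0 : 0 ≤ r)
    (hr : r < 1) : HasPeriodicExpansion β r :=
  bertrand_schmidt h1 hint hconj ⟨by exact_mod_cast h0, by exact_mod_cast hr⟩
    (by simp)

/-- **Schmidt's converse.** -/
theorem schmidt_converse {β : ℝ} (hβ : 1 < β)
    (h : ∀ r : ℚ, 0 ≤ r → r < 1 → HasPeriodicExpansion β r) :
    IsIntegral ℤ β ∧ ∀ z : ℂ, aeval z (minpoly ℤ β) = 0 → z ≠ (β : ℂ) → ‖z‖ ≤ 1 :=
  norm_conj_le_one_of_periodic hβ h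

/-- The greedy digits do expand `x`. -/
theorem beta_expansion_hasSum {β x : ℝ} (hβ : 1 < β) (hx : x ∈ Set.Ico (0 : ℝ) 1) :
    HasSum (fun n => (digit β x n : ℝ) / β ^ (n + 1)) x :=
  hasSum_digit hβ hx

end FA.BetaExpansion.Summary

end
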