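import Fermat.Agent.BeukersSchlickewei.Specialisation
import Mathlib.Algebra.Group.Subgroup.Finsupp

/-!
# The theorem of Beukers and Schlickewei

In a subgroup of rank `r` of `Kˣ × Kˣ`, `K` any field of characteristic zero, finitely generated or
not, at most `555 * 5 ^ (19 r)` elements `(x, y)` satisfy `x + y = 1` (`beukers_schlickewei`;
Beukers and Schlickewei 1996, here with a larger constant than their `2 ^ (8 r + 8)`). So
`a x + b y = 1` has finitely many solutions in a group of finite rank (`lang_unit_equation`; Lang),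
and a binary exponential equation `a α ^ n + b β ^ n = c` boundedly many, with an absolute bound
(`binary_recurrence_multiplicity`). The proof uses Padé approximations and elementary heights.
-/

set_option autoImplicit false

noncomputable section

open FA.BeukersSchlickewei Finset

namespace FA.Summary

variable {K : Type*} [Field K] [CharZero K]

/-- **Beukers–Schlickewei**: `x + y = 1` in a group of rank `r` has boundedly many solutions. -/
theorem beukers_schlickewei {r : ℕ} (Γ : Subgroup (Kˣ × Kˣ))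
    (hΓ : ∃ g : Fin r → Kˣ × Kˣ,
      ∀ γ ∈ Γ, ∃ k : ℕ, 0 < k ∧ ∃ n : Fin r → ℤ, γ ^ k = ∏ i, g i ^ n i) :
    {u : Kˣ × Kˣ | u ∈ Γ ∧ (u.1 : K) + u.2 = 1}.Finite ∧
      {u : Kˣ × Kˣ | u ∈ Γ ∧ (u.1 : K) + u.2 = 1}.ncard ≤ 555 * 5 ^ (19 * r) := by
  obtain ⟨g, hg⟩ := hΓ
  have h : ∀ S : Finset (Kˣ × Kˣ), (S : Set (Kˣ × Kˣ)) ⊆ {u | u ∈ Γ ∧ (u.1 : K) + u.2 = 1} →
      S.card ≤ solutionBound r := fun S hS =>
    card_solutions_charZero_le g S (fun u hu => hg u (hS hu).1) fun u hu => (hS hu).2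
  have hfin : {u : Kˣ × Kˣ | u ∈ Γ ∧ (u.1 : K) + u.2 = 1}.Finite := by
    by_contra hinf
    obtain ⟨S, hS, hcard⟩ := Set.Infinite.exists_subset_card_eq hinf (solutionBound r + 1)
    have := h S hS
    omega
  refine ⟨hfin, ?_⟩
  rw [Set.ncard_eq_toFinset_card _ hfin]
  exact h _ hfin.coe_toFinset.subset

/-- **Lang's theorem** on the unit equation in groups of finite rank, with a uniform bound. -/
theorem lang_unit_equation {r : ℕ} (Γ : Subgroup Kˣ)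
    (hΓ : ∃ g : Fin r → Kˣ, ∀ γ ∈ Γ, ∃ k : ℕ, 0 < k ∧ ∃ n : Fin r → ℤ, γ ^ k = ∏ i, g i ^ n i)
    {a b : K} (ha : a ≠ 0) (hb : b ≠ 0) :
    {u : Kˣ × Kˣ | u.1 ∈ Γ ∧ u.2 ∈ Γ ∧ a * u.1 + b * u.2 = 1}.Finite ∧
      {u : Kˣ × Kˣ | u.1 ∈ Γ ∧ u.2 ∈ Γ ∧ a * u.1 + b * u.2 = 1}.ncard ≤
        555 * 5 ^ (19 * (2 * r + 1)) := by
  classical
  obtain ⟨g, hg⟩ := hΓ
  set c : Kˣ × Kˣ := (Units.mk0 a ha, Units.mk0 b hb)
  set G : Fin (r + r + 1) → Kˣ × Kˣ :=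
    Fin.snoc (Fin.append (fun i => (g i, 1)) fun i => (1, g i)) c with hG
  set Γ' := Subgroup.zpowers c ⊔ Γ.prod Γ
  have hrank : ∀ w ∈ Γ', ∃ k : ℕ, 0 < k ∧ ∃ n : Fin (r + r + 1) → ℤ,
      w ^ k = ∏ i, G i ^ n i := by
    intro w hw
    obtain ⟨x, hx, y, hy, rfl⟩ := Subgroup.mem_sup.1 hw
    obtain ⟨e, rfl⟩ := Subgroup.mem_zpowers_iff.1 hx
    obtain ⟨h1, h2⟩ := Subgroup.mem_prod.1 hy
    obtain ⟨k, hk, n, hn⟩ := hg _ h1
    obtain ⟨l, hl, m, hm⟩ := hg _ h2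
    refine ⟨k * l, Nat.mul_pos hk hl,
      Fin.snoc (Fin.append (fun i => n i * l) fun i => m i * k) (e * (k * l : ℕ)), ?_⟩
    rw [Fin.prod_univ_castSucc, Fin.prod_univ_add]
    simp only [hG, Fin.snoc_castSucc, Fin.snoc_last, Fin.append_left, Fin.append_right, zpow_mul,
      zpow_natCast, prod_pow, mul_pow]
    rw [mul_comm ((c ^ e) ^ (k * l))]
    congr 1
    refine Prod.ext ?_ ?_
    · simp [Prod.fst_prod, pow_mul, hn]
    · simp [Prod.snd_prod, mul_comm k l, pow_mul, hm]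
  obtain ⟨hfin, hcard⟩ := beukers_schlickewei Γ' ⟨G, hrank⟩
  have hmaps : Set.MapsTo (c * ·) {u : Kˣ × Kˣ | u.1 ∈ Γ ∧ u.2 ∈ Γ ∧ a * u.1 + b * u.2 = 1}
      {u | u ∈ Γ' ∧ (u.1 : K) + u.2 = 1} := fun u hu =>
    ⟨Subgroup.mul_mem_sup (Subgroup.mem_zpowers c) (Subgroup.mem_prod.2 ⟨hu.1, hu.2.1⟩),
      by simpa [c] using hu.2.2⟩
  have hinj := (mul_right_injective c).injOn
    (s := {u : Kˣ × Kˣ | u.1 ∈ Γ ∧ u.2 ∈ Γ ∧ a * u.1 + b * u.2 = 1})
  refine ⟨Set.Finite.of_injOn hmaps hinj hfin,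
    (Set.ncard_le_ncard_of_injOn _ hmaps hinj hfin).trans (hcard.trans_eq ?_)⟩
  rw [two_mul]

/-- **Lang's theorem** for finitely generated groups. -/
theorem lang_unit_equation_fg (Γ : Subgroup Kˣ) (hΓ : Γ.FG) {a b : K} (ha : a ≠ 0) (hb : b ≠ 0) :
    {u : Kˣ × Kˣ | u.1 ∈ Γ ∧ u.2 ∈ Γ ∧ a * u.1 + b * u.2 = 1}.Finite := by
  classical
  obtain ⟨S, hS⟩ := hΓ
  refine (lang_unit_equation Γ ⟨fun i => (S.equivFin.symm i : Kˣ), fun γ hγ => ⟨1, one_pos, ?_⟩⟩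
    ha hb).1
  rw [← hS] at hγ
  have hγ' : γ ∈ Subgroup.closure (Set.range fun i => (S.equivFin.symm i : Kˣ)) := by
    convert hγ
    ext x
    exact ⟨fun ⟨i, hi⟩ => hi ▸ (S.equivFin.symm i).2, fun hx => ⟨S.equivFin ⟨x, hx⟩, by simp⟩⟩
  obtain ⟨n, hn⟩ := Subgroup.exists_of_mem_closure_range _ γ hγ'
  exact ⟨n, by rw [pow_one, hn]⟩

/-- **Binary exponential equations** have an absolutely bounded number of solutions. -/
theorem binary_recurrence_multiplicity {a b c : K} (ha : a ≠ 0) (hb : b ≠ 0) (hc : c ≠ 0)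
    (α β : Kˣ) (h : ¬(IsOfFinOrder α ∧ IsOfFinOrder β)) :
    {n : ℤ | a * (α : K) ^ n + b * (β : K) ^ n = c}.Finite ∧
      {n : ℤ | a * (α : K) ^ n + b * (β : K) ^ n = c}.ncard ≤ 555 * 5 ^ 38 := by
  set u₀ : Kˣ × Kˣ := (Units.mk0 (a / c) (div_ne_zero ha hc), Units.mk0 (b / c) (div_ne_zero hb hc))
  set v : Kˣ × Kˣ := (α, β)
  obtain ⟨hfin, hcard⟩ := beukers_schlickewei (r := 2) (Subgroup.zpowers u₀ ⊔ Subgroup.zpowers v)
    ⟨![u₀, v], fun w hw => by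
      obtain ⟨x, hx, y, hy, rfl⟩ := Subgroup.mem_sup.1 hw
      obtain ⟨i, rfl⟩ := Subgroup.mem_zpowers_iff.1 hx
      obtain ⟨j, rfl⟩ := Subgroup.mem_zpowers_iff.1 hy
      exact ⟨1, one_pos, ![i, j], by simp [Fin.prod_univ_two]⟩⟩
  have hmaps : Set.MapsTo (fun n : ℤ => u₀ * v ^ n) {n : ℤ | a * (α : K) ^ n + b * (β : K) ^ n = c}
      {u | u ∈ Subgroup.zpowers u₀ ⊔ Subgroup.zpowers v ∧ (u.1 : K) + u.2 = 1} := fun n hn =>
    ⟨Subgroup.mul_mem_sup (Subgroup.mem_zpowers u₀) (Subgroup.zpow_mem_zpowers v n), by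
      simp only [u₀, v, Prod.fst_mul, Prod.snd_mul, Prod.pow_fst, Prod.pow_snd, Units.val_mul,
        Units.val_zpow_eq_zpow_val, Units.val_mk0]
      field_simp
      exact hn⟩
  have hinj : Function.Injective fun n : ℤ => v ^ n := by
    rcases not_and_or.1 h with h' | h'
    · exact fun m n e => injective_zpow_iff_not_isOfFinOrder.2 h' (congrArg Prod.fst e)
    · exact fun m n e => injective_zpow_iff_not_isOfFinOrder.2 h' (congrArg Prod.snd e)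
  have hinj' : Set.InjOn (fun n : ℤ => u₀ * v ^ n)
      {n : ℤ | a * (α : K) ^ n + b * (β : K) ^ n = c} :=
    fun m _ n _ e => hinj (mul_left_cancel e)
  exact ⟨Set.Finite.of_injOn hmaps hinj' hfin,
    (Set.ncard_le_ncard_of_injOn _ hmaps hinj' hfin).trans hcard⟩

end FA.Summary

end
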