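import Fermat.Agent.BeukersTheorem.Consequences

/-!
# Beukers' theorem on the values of E-functions at algebraic points

E-functions are those in the strict sense with rational coefficients, as in
`SummarySiegelShidlovskii`; the points and the coefficients of the relations are algebraic.

* `beukers_polynomial_lifting_algebraic`, `beukers_linear_lifting_algebraic` (Beukers, 2006): at an
  algebraic `α` with `α T α ≠ 0` every polynomial or linear relation over `ℚ̄` between the values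
  comes from a relation between the functions, which may be dependent;
* `siegel_shidlovskii_linear_algebraic`: values of functions independent over `ℚ(z)` are linearly
  independent over `ℚ̄`;
* `efunction_values_transcendental`: if `1` and the functions are independent over `ℚ(z)`, each
  value is transcendental;
* `efunctions_no_algebraic_relation_field`: a quotient of two polynomials in the functions which is
  algebraic over `ℚ̄(z)` is a rational function;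
* `exp_algebraic_transcendental`: the case of `exp`.

E-functions with algebraic coefficients or in the broad sense, and singular points, are not treated.
-/

set_option autoImplicit false

noncomputable section

namespace FA.BeukersTheorem.Summary

open Finset
open scoped Nat Polynomial

/-- **Beukers' lifting of polynomial relations** at an algebraic point. -/
theorem beukers_polynomial_lifting_algebraic {m : ℕ} (f : Fin m → PowerSeries ℚ)
    (hE : ∀ i, ∃ C : ℕ, (∀ k, |(k ! : ℚ) * PowerSeries.coeff k (f i)| ≤ (C : ℚ) ^ (k + 1)) ∧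
      ∀ N, ∃ d : ℕ, 0 < d ∧ d ≤ C ^ (N + 1) ∧
        ∀ k ≤ N, ∃ z : ℤ, (z : ℚ) = (d : ℚ) * ((k ! : ℚ) * PowerSeries.coeff k (f i)))
    (T : ℚ[X]) (q : Fin m → ℚ[X]) (Q : Matrix (Fin m) (Fin m) ℚ[X])
    (hf : ∀ i, (T : PowerSeries ℚ) * PowerSeries.derivative ℚ (f i) =
      (q i : PowerSeries ℚ) + ∑ j, (Q i j : PowerSeries ℚ) * f j)
    {α : ℂ} (hα : IsAlgebraic ℚ α) (hα0 : α ≠ 0) (hT : Polynomial.aeval α T ≠ 0)
    {p : MvPolynomial (Fin m) ℂ} (hpK : ∀ μ, IsAlgebraic ℚ (p.coeff μ))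
    (hp : MvPolynomial.eval
      (fun i => ∑' k, ((PowerSeries.coeff k (f i) : ℚ) : ℂ) * α ^ k) p = 0) :
    ∃ P : MvPolynomial (Fin m) ℂ[X], (∀ μ n, IsAlgebraic ℚ ((P.coeff μ).coeff n)) ∧
      MvPolynomial.eval₂ Polynomial.coeToPowerSeries.ringHom
        (fun i => PowerSeries.map (algebraMap ℚ ℂ) (f i)) P = 0 ∧
      MvPolynomial.map (Polynomial.evalRingHom α) P = p ∧ P.totalDegree ≤ p.totalDegree :=
  exists_relation hE hf hα hα0 hT hpK hp

/-- **Beukers' lifting of linear relations** at an algebraic point. -/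
theorem beukers_linear_lifting_algebraic {m : ℕ} (f : Fin m → PowerSeries ℚ)
    (hE : ∀ i, ∃ C : ℕ, (∀ k, |(k ! : ℚ) * PowerSeries.coeff k (f i)| ≤ (C : ℚ) ^ (k + 1)) ∧
      ∀ N, ∃ d : ℕ, 0 < d ∧ d ≤ C ^ (N + 1) ∧
        ∀ k ≤ N, ∃ z : ℤ, (z : ℚ) = (d : ℚ) * ((k ! : ℚ) * PowerSeries.coeff k (f i)))
    (T : ℚ[X]) (Q : Matrix (Fin m) (Fin m) ℚ[X])
    (hf : ∀ i, (T : PowerSeries ℚ) * PowerSeries.derivative ℚ (f i) =
      ∑ j, (Q i j : PowerSeries ℚ) * f j)
    {α : ℂ} (hα : IsAlgebraic ℚ α) (hα0 : α ≠ 0) (hT : Polynomial.aeval α T ≠ 0)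
    {b : Fin m → ℂ} (hbK : ∀ i, IsAlgebraic ℚ (b i))
    (hb : ∑ i, b i * ∑' k, ((PowerSeries.coeff k (f i) : ℚ) : ℂ) * α ^ k = 0) :
    ∃ P : Fin m → ℂ[X], (∀ i n, IsAlgebraic ℚ ((P i).coeff n)) ∧
      ∑ i, (P i : PowerSeries ℂ) * PowerSeries.map (algebraMap ℚ ℂ) (f i) = 0 ∧
      ∀ i, (P i).eval α = b i :=
  exists_linear_relation hE (q := 0) (Q := Q) (fun i => by simp [hf i]) hα hα0 hT
    (fun _ => rfl) hbK hb

/-- **Linear independence of the values over the algebraic numbers.** -/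
theorem siegel_shidlovskii_linear_algebraic {m : ℕ} (f : Fin m → PowerSeries ℚ)
    (hE : ∀ i, ∃ C : ℕ, (∀ k, |(k ! : ℚ) * PowerSeries.coeff k (f i)| ≤ (C : ℚ) ^ (k + 1)) ∧
      ∀ N, ∃ d : ℕ, 0 < d ∧ d ≤ C ^ (N + 1) ∧
        ∀ k ≤ N, ∃ z : ℤ, (z : ℚ) = (d : ℚ) * ((k ! : ℚ) * PowerSeries.coeff k (f i)))
    (T : ℚ[X]) (Q : Matrix (Fin m) (Fin m) ℚ[X])
    (hf : ∀ i, (T : PowerSeries ℚ) * PowerSeries.derivative ℚ (f i) =
      ∑ j, (Q i j : PowerSeries ℚ) * f j)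
    (hind : ∀ A : Fin m → ℚ[X], ∑ i, (A i : PowerSeries ℚ) * f i = 0 → A = 0)
    {α : ℂ} (hα : IsAlgebraic ℚ α) (hα0 : α ≠ 0) (hT : Polynomial.aeval α T ≠ 0)
    {b : Fin m → ℂ} (hbK : ∀ i, IsAlgebraic ℚ (b i))
    (hb : ∑ i, b i * ∑' k, ((PowerSeries.coeff k (f i) : ℚ) : ℂ) * α ^ k = 0) : b = 0 :=
  values_linearIndependent hE (q := 0) (Q := Q) (fun i => by simp [hf i]) hα hα0 hT
    (fun _ => rfl) hind hbK hb

/-- **Transcendence of the values of E-functions.** -/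
theorem efunction_values_transcendental {m : ℕ} (f : Fin m → PowerSeries ℚ)
    (hE : ∀ i, ∃ C : ℕ, (∀ k, |(k ! : ℚ) * PowerSeries.coeff k (f i)| ≤ (C : ℚ) ^ (k + 1)) ∧
      ∀ N, ∃ d : ℕ, 0 < d ∧ d ≤ C ^ (N + 1) ∧
        ∀ k ≤ N, ∃ z : ℤ, (z : ℚ) = (d : ℚ) * ((k ! : ℚ) * PowerSeries.coeff k (f i)))
    (T : ℚ[X]) (q : Fin m → ℚ[X]) (Q : Matrix (Fin m) (Fin m) ℚ[X])
    (hf : ∀ i, (T : PowerSeries ℚ) * PowerSeries.derivative ℚ (f i) =
      (q i : PowerSeries ℚ) + ∑ j, (Q i j : PowerSeries ℚ) * f j)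
    (hind : ∀ (A₀ : ℚ[X]) (A : Fin m → ℚ[X]),
      (A₀ : PowerSeries ℚ) + ∑ i, (A i : PowerSeries ℚ) * f i = 0 → A₀ = 0 ∧ A = 0)
    {α : ℂ} (hα : IsAlgebraic ℚ α) (hα0 : α ≠ 0) (hT : Polynomial.aeval α T ≠ 0) (i : Fin m) :
    Transcendental ℚ (∑' k, ((PowerSeries.coeff k (f i) : ℚ) : ℂ) * α ^ k) :=
  transcendental_values hE hf hind hα hα0 hT i

/-- **The field of E-functions is regular over the rational functions.** -/
theorem efunctions_no_algebraic_relation_field {m : ℕ} (f : Fin m → PowerSeries ℚ)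
    (hE : ∀ i, ∃ C : ℕ, (∀ k, |(k ! : ℚ) * PowerSeries.coeff k (f i)| ≤ (C : ℚ) ^ (k + 1)) ∧
      ∀ N, ∃ d : ℕ, 0 < d ∧ d ≤ C ^ (N + 1) ∧
        ∀ k ≤ N, ∃ z : ℤ, (z : ℚ) = (d : ℚ) * ((k ! : ℚ) * PowerSeries.coeff k (f i)))
    (ev : MvPolynomial (Fin m) (algebraicClosure ℚ ℂ)[X] →+*
      PowerSeries (algebraicClosure ℚ ℂ))
    (hev : ev = MvPolynomial.eval₂Hom Polynomial.coeToPowerSeries.ringHom
      fun i => PowerSeries.map (algebraMap ℚ (algebraicClosure ℚ ℂ)) (f i))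
    {A B : MvPolynomial (Fin m) (algebraicClosure ℚ ℂ)[X]} (hB : ev B ≠ 0) {n : ℕ}
    {c : ℕ → (algebraicClosure ℚ ℂ)[X]} (hc : c n ≠ 0)
    (h : ∑ k ∈ range (n + 1),
      (c k : PowerSeries (algebraicClosure ℚ ℂ)) * ev A ^ k * ev B ^ (n - k) = 0) :
    ∃ H G : (algebraicClosure ℚ ℂ)[X], G ≠ 0 ∧
      ev A * (G : PowerSeries (algebraicClosure ℚ ℂ)) =
        (H : PowerSeries (algebraicClosure ℚ ℂ)) * ev B := by
  subst hev
  exact exists_quotient_of_algebraic hE hB hc h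

/-- **`e ^ α` is transcendental** for an algebraic `α ≠ 0`, from the theorem of Beukers. -/
theorem exp_algebraic_transcendental {α : ℂ} (hα : IsAlgebraic ℚ α) (hα0 : α ≠ 0) :
    Transcendental ℚ (Complex.exp α) :=
  transcendental_exp hα hα0

end FA.BeukersTheorem.Summary

end
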