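import Fermat.Agent.BeurlingPrimes.Main
import Mathlib.Data.Nat.Factorization.Basic
import Mathlib.NumberTheory.PrimeCounting

/-!
# Beurling's prime number theorem

* `FA.Summary.beurling_prime_number_theorem`: for real numbers `p i > 1` (repetitions allowed)
  whose products, counted with multiplicity, number `A x + O (x ^ θ)` up to `x` with `A > 0` and
  `θ < 1`, the number of `i` with `p i ≤ x` is asymptotic to `x / log x`. Beurling's weaker
  hypothesis `A x + O (x / (log x) ^ γ)`, `γ > 3 / 2`, is not treated.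
* `FA.Summary.beurling_natural_primes`: the ordinary primes satisfy the hypothesis with `A = 1`,
  `θ = 0`, so the theorem applies to them.
-/

set_option autoImplicit false

noncomputable section

open Filter Real
open scoped Topology

namespace FA.Summary

/-- **Beurling's prime number theorem**, with a power saving in the hypothesis. -/
theorem beurling_prime_number_theorem {p : ℕ → ℝ} (hp : ∀ i, 1 < p i) {A θ C : ℝ} (hA : 0 < A)
    (hθ : θ < 1) (hN : ∀ x : ℝ, 1 ≤ x →
      |(Nat.card {e : ℕ →₀ ℕ // (e.prod fun i k => p i ^ k) ≤ x} : ℝ) - A * x| ≤ C * x ^ θ) :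
    Tendsto (fun x : ℝ => (Nat.card {i // p i ≤ x} : ℝ) * log x / x) atTop (𝓝 1) :=
  FA.Beurling.beurling hp hA hθ hN

/-- **The ordinary primes are a system of generalized primes.** -/
theorem beurling_natural_primes :
    (∀ x : ℝ, 1 ≤ x → |(Nat.card {e : ℕ →₀ ℕ //
      (e.prod fun i k => ((Nat.nth Nat.Prime i : ℕ) : ℝ) ^ k) ≤ x} : ℝ) - 1 * x| ≤
        1 * x ^ (0 : ℝ)) ∧
    Tendsto (fun x : ℝ => (Nat.card {i // ((Nat.nth Nat.Prime i : ℕ) : ℝ) ≤ x} : ℝ) * log x / x)
      atTop (𝓝 1) := by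
  have hinj : Function.Injective (Nat.nth Nat.Prime) :=
    Nat.nth_injective Nat.infinite_setOfPred_prime
  have hpr : ∀ i, (Nat.nth Nat.Prime i).Prime := fun i =>
    Nat.nth_mem_of_infinite Nat.infinite_setOfPred_prime i
  obtain ⟨F, hF⟩ : ∃ F : (ℕ →₀ ℕ) → ℕ, F = fun e => e.prod fun i k => Nat.nth Nat.Prime i ^ k :=
    ⟨_, rfl⟩
  have hmap : ∀ e, F e = (e.mapDomain (Nat.nth Nat.Prime)).prod fun q k => q ^ k := fun e => by
    rw [hF, Finsupp.prod_mapDomain_index_inj hinj]
  have hsupp : ∀ e : ℕ →₀ ℕ, ∀ q ∈ (e.mapDomain (Nat.nth Nat.Prime)).support, q.Prime :=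
    fun e q hq => by
      obtain ⟨i, -, rfl⟩ := Finset.mem_image.1 (Finsupp.mapDomain_support hq)
      exact hpr i
  have hFinj : Function.Injective F := fun a b hab => by
    refine Finsupp.mapDomain_injective hinj ?_
    rw [← Nat.prod_pow_factorization_eq_self (hsupp a),
      ← Nat.prod_pow_factorization_eq_self (hsupp b), ← hmap, ← hmap, hab]
  have hFpos : ∀ e, 0 < F e := fun e => by
    rw [hF]
    exact Finset.prod_pos fun i _ => pow_pos (hpr i).pos _
  have hFsurj : ∀ n, 0 < n → ∃ e, F e = n := fun n hn => by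
    refine ⟨n.factorization.comapDomain (Nat.nth Nat.Prime) hinj.injOn, ?_⟩
    rw [hmap, Finsupp.mapDomain_comapDomain _ hinj _ fun q hq => ?_,
      Nat.prod_factorization_pow_eq_self hn.ne']
    rw [Nat.range_nth_of_infinite Nat.infinite_setOfPred_prime]
    exact Nat.prime_of_mem_primeFactors hq
  have hN : ∀ x : ℝ, 1 ≤ x → |(Nat.card {e : ℕ →₀ ℕ //
      (e.prod fun i k => ((Nat.nth Nat.Prime i : ℕ) : ℝ) ^ k) ≤ x} : ℝ) - 1 * x| ≤
        1 * x ^ (0 : ℝ) := by
    intro x hx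
    have hx0 : 0 ≤ x := by linarith
    have hcast : ∀ e, (e.prod fun i k => ((Nat.nth Nat.Prime i : ℕ) : ℝ) ^ k) = (F e : ℝ) :=
      fun e => by simp [hF, Finsupp.prod]
    have hcard : Nat.card {e : ℕ →₀ ℕ //
        (e.prod fun i k => ((Nat.nth Nat.Prime i : ℕ) : ℝ) ^ k) ≤ x} = ⌊x⌋₊ := by
      rw [show ⌊x⌋₊ = (Finset.Icc 1 ⌊x⌋₊).card by simp, ← Nat.card_eq_finsetCard]
      refine Nat.card_eq_of_bijective (fun e => ⟨F e.1, Finset.mem_Icc.2
        ⟨hFpos e.1, (Nat.le_floor_iff hx0).2 (hcast e.1 ▸ e.2)⟩⟩)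
        ⟨fun a b hab => Subtype.ext (hFinj (congrArg Subtype.val hab)), fun n => ?_⟩
      obtain ⟨e, he⟩ := hFsurj n.1 (Finset.mem_Icc.1 n.2).1
      refine ⟨⟨e, ?_⟩, Subtype.ext he⟩
      rw [hcast, he]
      exact (Nat.le_floor_iff hx0).1 (Finset.mem_Icc.1 n.2).2
    rw [hcard, Real.rpow_zero, one_mul, one_mul, abs_le]
    exact ⟨by linarith [Nat.lt_floor_add_one x], by linarith [Nat.floor_le hx0]⟩
  exact ⟨hN, beurling_prime_number_theorem (fun i => Nat.one_lt_cast.2 (hpr i).one_lt) one_pos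
    zero_lt_one hN⟩

end FA.Summary
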