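import Fermat.Agent.BezoutCurves.Basic

/-!
# Bézout's inequality for plane curves

* `bezout_inequality`: over any field, two coprime polynomials in two variables have at most as
  many common zeros as the product of their degrees;
* `bezout_inequality_projective`: two coprime forms of degrees `m` and `n` in three variables have
  at most `m n` common zeros in the projective plane;
* `bezout_common_factor`: more common zeros force a common factor;
* `infinite_intersection_common_factor`: so do infinitely many.
-/

set_option autoImplicit false

noncomputable section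

open MvPolynomial

namespace FA.Summary

variable {K : Type*} [Field K]

/-- **Bézout's inequality.** -/
theorem bezout_inequality {f g : MvPolynomial (Fin 2) K} (hcop : IsRelPrime f g)
    (S : Finset (Fin 2 → K)) (hS : ∀ p ∈ S, eval p f = 0 ∧ eval p g = 0) :
    S.card ≤ f.totalDegree * g.totalDegree :=
  FA.BezoutCurves.card_common_zeros hcop S hS

/-- **Bézout's inequality in the projective plane.** -/
theorem bezout_inequality_projective {f g : MvPolynomial (Fin 3) K} {m n : ℕ}
    (hf : f.IsHomogeneous m) (hg : g.IsHomogeneous n) (hcop : IsRelPrime f g) {ι : Type*}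
    [Fintype ι] (p : ι → Fin 3 → K) (hp0 : ∀ i, p i ≠ 0)
    (hp : ∀ i j, i ≠ j → ∀ c : K, p j ≠ c • p i) (hfz : ∀ i, eval (p i) f = 0)
    (hgz : ∀ i, eval (p i) g = 0) : Fintype.card ι ≤ m * n :=
  FA.BezoutCurves.card_projective_zeros hf hg hcop p hp0 hp hfz hgz

/-- **Too many intersections force a common component.** -/
theorem bezout_common_factor {f g : MvPolynomial (Fin 2) K} (S : Finset (Fin 2 → K))
    (hS : ∀ p ∈ S, eval p f = 0 ∧ eval p g = 0)
    (h : f.totalDegree * g.totalDegree < S.card) : ∃ c, ¬IsUnit c ∧ c ∣ f ∧ c ∣ g := by
  by_contra! hno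
  exact absurd (bezout_inequality (fun c hcf hcg => by_contra fun hu => hno c hu hcf hcg) S hS)
    (not_le.2 h)

/-- **Infinitely many intersections force a common component.** -/
theorem infinite_intersection_common_factor {f g : MvPolynomial (Fin 2) K}
    (h : {p : Fin 2 → K | eval p f = 0 ∧ eval p g = 0}.Infinite) :
    ∃ c, ¬IsUnit c ∧ c ∣ f ∧ c ∣ g := by
  obtain ⟨S, hS, hcard⟩ := h.exists_subset_card_eq (f.totalDegree * g.totalDegree + 1)
  exact bezout_common_factor S (fun p hp => hS hp) (by omega)

end FA.Summary

end
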