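import Fermat.Agent.BhargavaCubes.Main

/-!
# Bhargava's cubes

`D` is no square; forms, `μ` and the principal form `e` are as in `SummaryGaussComposition` (so for
`D < 0` the forms are positive). A cube has the faces `[a b; c d]` and `[e f; g h]`; in each of the
three directions the slices `M`, `N` give the form `-det (M x - N y)`. `Slices` says that these are
the given three forms, so the cube is projective of discriminant `D`.

* `slices_iff`: `Slices` spelled out;
* `cube_law`: the three forms compose to the identity;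
* `exists_cube`: every triple of classes composing to the identity comes from a cube;
* `cube_classes_iff`: two cubes are equivalent under `SL₂ (ℤ) ^ 3` iff the three classes agree, and
  two of the classes already suffice (`two_classes_suffice`);
* `bhargava_bijection`: the bijection between cube classes and such triples, so `h ^ 2` classes;
* `two_forms_suffice`: if two forms are primitive of discriminant `D` and positive for `D < 0`, so
  is the third.
-/

set_option autoImplicit false

noncomputable section

namespace FA.BhargavaCubes.Summary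

open FA.GaussComposition

variable {D : ℤ} {μ : FormClass D → FormClass D → FormClass D}

/-- What `Slices` says. -/
theorem slices_iff (T : Cube) (F G H : Form D) : T.Slices F G H ↔
    (∀ x y : ℤ, F.eval x y =
      -((T.a * x - T.e * y) * (T.d * x - T.h * y) - (T.b * x - T.f * y) * (T.c * x - T.g * y))) ∧
    (∀ x y : ℤ, G.eval x y =
      -((T.a * x - T.b * y) * (T.g * x - T.h * y) - (T.c * x - T.d * y) * (T.e * x - T.f * y))) ∧
    ∀ x y : ℤ, H.eval x y =
      -((T.a * x - T.c * y) * (T.f * x - T.h * y) - (T.e * x - T.g * y) * (T.b * x - T.d * y)) := by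
  constructor
  · rintro ⟨⟨f1, f2, f3⟩, ⟨g1, g2, g3⟩, k1, k2, k3⟩
    refine ⟨fun x y => ?_, fun x y => ?_, fun x y => ?_⟩ <;>
      simp only [Form.eval, f1, f2, f3, g1, g2, g3, k1, k2, k3] <;> ring
  · rintro ⟨hf, hg, hh⟩
    have a1 := hf 1 0; have a2 := hf 0 1; have a3 := hf 1 1
    have b1 := hg 1 0; have b2 := hg 0 1; have b3 := hg 1 1
    have c1 := hh 1 0; have c2 := hh 0 1; have c3 := hh 1 1
    simp only [Form.eval] at a1 a2 a3 b1 b2 b3 c1 c2 c3
    exact ⟨⟨by linarith, by linarith, by linarith⟩, ⟨by linarith, by linarith, by linarith⟩,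
      by linarith, by linarith, by linarith⟩

/-- **The cube law.** -/
theorem cube_law (hD : ¬IsSquare D) (hμ : IsComposition μ) {T : Cube} {F G H e : Form D}
    (hT : T.Slices F G H) (he : e.a = 1) : μ (μ F.cl G.cl) H.cl = e.cl :=
  FA.BhargavaCubes.cube_law hD hμ hT he

/-- **Every such triple occurs.** -/
theorem exists_cube (hD : ¬IsSquare D) (hμ : IsComposition μ) {F G H e : Form D} (he : e.a = 1)
    (h : μ (μ F.cl G.cl) H.cl = e.cl) :
    ∃ (T : Cube) (F' G' H' : Form D), T.Slices F' G' H' ∧
      F'.cl = F.cl ∧ G'.cl = G.cl ∧ H'.cl = H.cl :=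
  FA.BhargavaCubes.exists_cube hD hμ he h

/-- **The classes classify.** -/
theorem cube_classes_iff (hD : ¬IsSquare D) {T T' : Cube} {F G H F' G' H' : Form D}
    (hT : T.Slices F G H) (hT' : T'.Slices F' G' H') :
    T.Equivalent T' ↔ F.cl = F'.cl ∧ G.cl = G'.cl ∧ H.cl = H'.cl :=
  equivalent_iff hD hT hT'

/-- Two classes suffice. -/
theorem two_classes_suffice (hD : ¬IsSquare D) {T T' : Cube} {F G H F' G' H' : Form D}
    (hT : T.Slices F G H) (hT' : T'.Slices F' G' H') (hF : F.cl = F'.cl) (hG : G.cl = G'.cl) :
    T.Equivalent T' :=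
  (equivalent_of_pair hD hT hT' hF hG).1

/-- **Bhargava's bijection.** -/
theorem bhargava_bijection (hD : ¬IsSquare D) (hμ : IsComposition μ) {e : Form D} (he : e.a = 1) :
    Equivalence Cube.Equivalent ∧
    (∃ Φ : Quot (fun T T' : {T : Cube // ∃ F G H : Form D, T.Slices F G H} =>
          T.1.Equivalent T'.1) ≃
        {x : FormClass D × FormClass D × FormClass D // μ (μ x.1 x.2.1) x.2.2 = e.cl},
      ∀ (T : {T : Cube // ∃ F G H : Form D, T.Slices F G H}) (F G H : Form D),
        T.1.Slices F G H → (Φ (Quot.mk _ T)).1 = (F.cl, G.cl, H.cl)) ∧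
    Nat.card (Quot fun T T' : {T : Cube // ∃ F G H : Form D, T.Slices F G H} =>
        T.1.Equivalent T'.1) = Nat.card (FormClass D) ^ 2 :=
  ⟨Cube.equivalent_equivalence, exists_equiv hD hμ he, card_cubes hD hμ he⟩

/-- The third form. -/
theorem two_forms_suffice (hD : ¬IsSquare D) {T : Cube} {F G : Form D}
    (hF : ∀ x y : ℤ, F.eval x y =
      -((T.a * x - T.e * y) * (T.d * x - T.h * y) - (T.b * x - T.f * y) * (T.c * x - T.g * y)))
    (hG : ∀ x y : ℤ, G.eval x y =
      -((T.a * x - T.b * y) * (T.g * x - T.h * y) - (T.c * x - T.d * y) * (T.e * x - T.f * y))) :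
    ∃ H : Form D, T.Slices F G H := by
  have a1 := hF 1 0; have a2 := hF 0 1; have a3 := hF 1 1
  have b1 := hG 1 0; have b2 := hG 0 1; have b3 := hG 1 1
  simp only [Form.eval] at a1 a2 a3 b1 b2 b3
  exact exists_third hD ⟨by linarith, by linarith, by linarith⟩
    ⟨by linarith, by linarith, by linarith⟩

end FA.BhargavaCubes.Summary
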