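import Fermat.Agent.Bieberbach.Conjugation
import Fermat.Agent.Bieberbach.Finiteness
import Fermat.Agent.Bieberbach.Example

/-!
# Bieberbach's theorems on crystallographic groups

`FA.Bieberbach.IsCrystallographic G`, for a group `G` of affine isometries of a euclidean space:
finitely many elements move `0` a bounded distance and the orbit of `0` is cobounded.

* `bieberbach_first`: the translations of such a group have finite index, and their vectors form a
  lattice spanning the space;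
* `translations_maximal_abelian`: every abelian normal subgroup consists of translations;
* `bieberbach_second`: every isomorphism of two such groups is conjugation by an affine map;
* `bieberbach_third`: in each dimension there are finitely many of them up to isomorphism (the
  first part of Hilbert's eighteenth problem);
* `crystallographic_examples`: the integral translations, with or without `-1`, form such groups.
-/

set_option autoImplicit false

noncomputable section

open Module FA.Bieberbach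

namespace FA.Summary

variable {n : ℕ}

/-- The euclidean space. -/
local notation "E" => EuclideanSpace ℝ (Fin n)

/-- **Bieberbach's first theorem.** -/
theorem bieberbach_first {G : Subgroup (E ≃ᵃⁱ[ℝ] E)} (hG : IsCrystallographic G) :
    ((rotHom E).comp G.subtype).ker.FiniteIndex ∧
    ∃ L : Submodule ℤ E, DiscreteTopology L ∧ Submodule.span ℝ (L : Set E) = ⊤ ∧
      ∀ v, v ∈ L ↔ AffineIsometryEquiv.constVAdd ℝ E v ∈ G :=
  ⟨finiteIndex_ker hG, transLattice G, discreteTopology_transLattice hG, span_transLattice hG,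
    fun _ => mem_transLattice⟩

/-- **Abelian normal subgroups.** -/
theorem translations_maximal_abelian {G : Subgroup (E ≃ᵃⁱ[ℝ] E)} (hG : IsCrystallographic G)
    (N : Subgroup G) (hN : N.Normal) (hab : ∀ x ∈ N, ∀ y ∈ N, x * y = y * x) :
    ∀ γ ∈ N, γ.1.linearIsometryEquiv = LinearIsometryEquiv.refl ℝ E :=
  fun _ hγ => le_ker_of_abelian_normal hG N hN hab hγ

/-- **Bieberbach's second theorem.** -/
theorem bieberbach_second {G H : Subgroup (E ≃ᵃⁱ[ℝ] E)} (hG : IsCrystallographic G)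
    (hH : IsCrystallographic H) (φ : G ≃* H) :
    ∃ f : E ≃ᵃ[ℝ] E, ∀ (γ : G) (x : E), (φ γ).1 (f x) = f (γ.1 x) :=
  exists_affine_conj hG hH φ

variable (n) in
/-- **Bieberbach's third theorem.** -/
theorem bieberbach_third :
    ∃ F : Set (Subgroup (E ≃ᵃⁱ[ℝ] E)), F.Finite ∧ (∀ G ∈ F, IsCrystallographic (V := E) G) ∧
      ∀ G : Subgroup (E ≃ᵃⁱ[ℝ] E), IsCrystallographic G → ∃ G' ∈ F, Nonempty (G ≃* G') :=
  exists_finite_classes (finrank_euclideanSpace_fin (𝕜 := ℝ))

variable (n) in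
/-- **Examples.** -/
theorem crystallographic_examples :
    (∃ G : Subgroup (E ≃ᵃⁱ[ℝ] E), IsCrystallographic G ∧
      ∀ γ, γ ∈ G ↔ ∃ v : E, (∀ i, ∃ z : ℤ, v i = z) ∧ γ = AffineIsometryEquiv.constVAdd ℝ E v) ∧
    ∃ G : Subgroup (E ≃ᵃⁱ[ℝ] E), IsCrystallographic G ∧
      (∀ v : E, (∀ i, ∃ z : ℤ, v i = z) → AffineIsometryEquiv.constVAdd ℝ E v ∈ G) ∧
      (LinearIsometryEquiv.neg ℝ).toAffineIsometryEquiv ∈ G := by
  obtain ⟨s, hs⟩ : ∃ s : E ≃ₗᵢ[ℝ] E, s = LinearIsometryEquiv.neg ℝ := ⟨_, rfl⟩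
  obtain ⟨P, hP⟩ : ∃ P : Subgroup (E ≃ₗᵢ[ℝ] E), P = Subgroup.zpowers s := ⟨_, rfl⟩
  have hsq : s ^ 2 = 1 := by
    rw [sq, hs]
    exact LinearIsometryEquiv.ext fun x => neg_neg x
  haveI : Finite P := hP ▸ (isOfFinOrder_iff_pow_eq_one.2 ⟨2, two_pos, hsq⟩).finite_zpowers
  have hst : ∀ A ∈ P, ∀ v ∈ intPoints n, A v ∈ intPoints n := by
    intro A hA v hv
    rw [hP] at hA
    obtain ⟨k, rfl⟩ := hA
    show (s ^ k) v ∈ intPoints n
    rcases Int.even_or_odd' k with ⟨j, rfl | rfl⟩
    · rw [zpow_mul, zpow_ofNat, hsq, one_zpow]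
      exact hv
    · rw [zpow_add, zpow_mul, zpow_ofNat, hsq, one_zpow, one_mul, zpow_one, hs]
      exact (intPoints n).neg_mem hv
  have hbot : ∀ A ∈ (⊥ : Subgroup (E ≃ₗᵢ[ℝ] E)), ∀ v ∈ intPoints n, A v ∈ intPoints n := by
    intro A hA v hv
    rw [Subgroup.mem_bot.1 hA]
    exact hv
  refine ⟨⟨symmorphic ⊥ hbot, isCrystallographic_symmorphic ⊥ hbot, fun γ =>
    ⟨fun h => ⟨γ 0, h.2, eq_shift (Subgroup.mem_bot.1 h.1)⟩, ?_⟩⟩,
    ⟨symmorphic P hst, isCrystallographic_symmorphic P hst, fun v hv =>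
      ⟨?_, (shift_zero_apply v).symm ▸ hv⟩, ?_, ?_⟩⟩
  · rintro ⟨v, hv, rfl⟩
    exact ⟨Subgroup.mem_bot.2 (rotHom_shift v), (shift_zero_apply v).symm ▸ hv⟩
  · show rotHom E (shift v) ∈ P
    rw [rotHom_shift]
    exact P.one_mem
  · show (LinearIsometryEquiv.neg ℝ).toAffineIsometryEquiv.linearIsometryEquiv ∈ P
    rw [hP]
    show (LinearIsometryEquiv.neg ℝ : E ≃ₗᵢ[ℝ] E) ∈ Subgroup.zpowers s
    rw [← hs]
    exact Subgroup.mem_zpowers s
  · show (LinearIsometryEquiv.neg ℝ : E ≃ₗᵢ[ℝ] E) (0 : E) ∈ intPoints n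
    rw [map_zero]
    exact (intPoints n).zero_mem

end FA.Summary

end
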