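import Fermat.Agent.Bilharz.Main

/-!
# Bilharz's theorem: Artin's conjecture on primitive roots for `F[T]`

A nonconstant polynomial `a` over a finite field with `q` elements is a primitive root modulo
infinitely many monic irreducible `P` if and only if it is no `ℓ`-th power in `F[T]` for a prime
`ℓ ∣ q - 1` (Bilharz 1937, made unconditional by Weil's Riemann hypothesis for curves); then such
`P` exist in every large degree `n ≡ 1` modulo `(deg a)!`.

Proved here from Weil's bound for multiplicative character sums by a sieve over the primes of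
`q ^ n - 1`. Rational functions `a`, densities and elliptic analogues are not claimed; there is no
link with Fermat's last theorem.
-/

set_option autoImplicit false

noncomputable section

namespace FA.Bilharz.Summary

open Polynomial Filter

variable {F : Type*} [Field F] [Fintype F]

/-- **Bilharz's theorem**, with the degree: for every large `n ≡ 1` modulo `(deg a)!` some monic
irreducible `P` of degree `n` has the powers of `a` in every class prime to it. -/
theorem bilharz_degree (a : F[X]) (hm : 1 ≤ a.natDegree)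
    (ha : ∀ l : ℕ, l.Prime → l ∣ Fintype.card F - 1 → ¬ ∃ u : F[X], a = u ^ l) :
    ∀ᶠ n : ℕ in atTop, n ≡ 1 [MOD a.natDegree.factorial] →
      ∃ P : F[X], P.Monic ∧ Irreducible P ∧ P.natDegree = n ∧
        ¬ P ∣ a ∧ ∀ g : F[X], ¬ P ∣ g → ∃ k : ℕ, P ∣ a ^ k - g := by
  classical
  exact eventually_exists_primitiveRootMod hm ha

/-- An `ℓ`-th power, `ℓ ∣ q - 1`, is a primitive root modulo no irreducible polynomial. -/
theorem not_primitive_root_pow {l : ℕ} (hl : 1 < l) (hlq : l ∣ Fintype.card F - 1) (b P : F[X])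
    (hP : Irreducible P) :
    ¬ (¬ P ∣ b ^ l ∧ ∀ g : F[X], ¬ P ∣ g → ∃ k : ℕ, P ∣ (b ^ l) ^ k - g) := by
  classical
  exact not_isPrimitiveRootMod_pow hl hlq b hP

/-- **Bilharz's theorem (Artin's conjecture for `F[T]`).** -/
theorem bilharz (a : F[X]) (hm : 1 ≤ a.natDegree) :
    {P : F[X] | P.Monic ∧ Irreducible P ∧
        ¬ P ∣ a ∧ ∀ g : F[X], ¬ P ∣ g → ∃ k : ℕ, P ∣ a ^ k - g}.Infinite ↔
      ∀ l : ℕ, l.Prime → l ∣ Fintype.card F - 1 → ¬ ∃ u : F[X], a = u ^ l := by
  constructor
  · rintro h l hl hlq ⟨u, rfl⟩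
    obtain ⟨P, -, hirr, hroot⟩ := h.nonempty
    exact not_primitive_root_pow hl.one_lt hlq u P hirr hroot
  · intro ha
    obtain ⟨N, hN⟩ := eventually_atTop.1 (bilharz_degree a hm ha)
    refine Set.Infinite.of_image natDegree (Set.infinite_of_forall_exists_gt fun d => ?_)
    have hle : N + d ≤ a.natDegree.factorial * (N + d) :=
      Nat.le_mul_of_pos_left _ (Nat.factorial_pos _)
    obtain ⟨P, hmon, hirr, hdeg, hroot⟩ := hN (a.natDegree.factorial * (N + d) + 1) (by omega)
      (by simp [Nat.ModEq])
    exact ⟨_, ⟨P, ⟨hmon, hirr, hroot⟩, rfl⟩, by omega⟩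

/-- Every irreducible polynomial is a primitive root modulo infinitely many others. -/
theorem bilharz_irreducible (a : F[X]) (ha : Irreducible a) :
    {P : F[X] | P.Monic ∧ Irreducible P ∧
        ¬ P ∣ a ∧ ∀ g : F[X], ¬ P ∣ g → ∃ k : ℕ, P ∣ a ^ k - g}.Infinite := by
  refine (bilharz a ha.natDegree_pos).2 ?_
  rintro l hl - ⟨u, rfl⟩
  exact not_irreducible_pow hl.ne_one ha

/-- Over the field with two elements every nonconstant polynomial is one. -/
theorem bilharz_two (hq : Fintype.card F = 2) (a : F[X]) (hm : 1 ≤ a.natDegree) :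
    {P : F[X] | P.Monic ∧ Irreducible P ∧
        ¬ P ∣ a ∧ ∀ g : F[X], ¬ P ∣ g → ∃ k : ℕ, P ∣ a ^ k - g}.Infinite :=
  (bilharz a hm).2 fun l hl hlq => by
    rw [hq] at hlq
    exact absurd (Nat.dvd_one.1 hlq) hl.ne_one

end FA.Bilharz.Summary
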