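import Fermat.Agent.BiluEquidistribution.Corollaries

/-!
# Bilu's equidistribution theorem

For integer polynomials of growing degree and Mahler measure `exp (o (degree))` the roots become
equidistributed on the unit circle.

* `bilu_quantitative`: the explicit bound on the angular sums;
* `bilu_equidistribution`, `bilu_equidistribution_irreducible`: Bilu's theorem;
* `bilu_real_conjugates`, `bilu_closed_set`: few conjugates are real, or lie in a closed set
  meeting the circle in a null set;
* `primitive_roots_equidistribute`: the primitive roots of unity;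
* `zhang_bogomolov_line`: Zhang's theorem on the line `x + y = 1`.
-/

set_option autoImplicit false

noncomputable section

namespace FA.Summary

open Filter Topology Finset Polynomial Real

/-- **The quantitative bound**: the `k`-th angular sum of the roots. -/
theorem bilu_quantitative {f : ℤ[X]} (hsep : (f.map (Int.castRingHom ℂ)).Separable)
    (h0 : f.coeff 0 ≠ 0) (hd : 0 < f.natDegree) {ε : ℝ} (hε : 0 < ε) (hε1 : ε ≤ 1) (k : ℕ) :
    (1 - ε) ^ k / k *
        ‖∑ z ∈ (f.map (Int.castRingHom ℂ)).roots.toFinset, (z / (‖z‖ : ℂ)) ^ k‖ ^ 2 ≤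
      2 * f.natDegree * log (f.map (Int.castRingHom ℂ)).mahlerMeasure +
        (f.natDegree : ℝ) ^ 2 * ε - f.natDegree * log ε +
        4 * f.natDegree * log (f.map (Int.castRingHom ℂ)).mahlerMeasure / ε :=
  FA.Bilu.angSum_le hsep h0 hd hε hε1 k

/-- **Bilu's equidistribution theorem.** -/
theorem bilu_equidistribution {f : ℕ → ℤ[X]}
    (hsep : ∀ᶠ n in atTop, ((f n).map (Int.castRingHom ℂ)).Separable)
    (h0 : ∀ᶠ n in atTop, (f n).coeff 0 ≠ 0)
    (hdeg : Tendsto (fun n => (f n).natDegree) atTop atTop)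
    (hM : Tendsto (fun n => log ((f n).map (Int.castRingHom ℂ)).mahlerMeasure /
      (f n).natDegree) atTop (𝓝 0))
    {g : ℂ → ℂ} (hg : Continuous g) (hB : ∃ B : ℝ, ∀ z, ‖g z‖ ≤ B) :
    Tendsto (fun n => (∑ z ∈ ((f n).map (Int.castRingHom ℂ)).roots.toFinset, g z) /
      (#((f n).map (Int.castRingHom ℂ)).roots.toFinset : ℂ)) atTop
      (𝓝 (circleAverage g 0 1)) := by
  obtain ⟨B, hB⟩ := hB
  exact FA.Bilu.tendsto_mean_roots hsep h0 hdeg hM hg hB

/-- Bilu's theorem for a strict sequence of algebraic numbers, given by their minimal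
polynomials: no hypothesis on the degree is needed. -/
theorem bilu_equidistribution_irreducible {f : ℕ → ℤ[X]} (hirr : ∀ n, Irreducible (f n))
    (hd : ∀ n, 0 < (f n).natDegree) (hinj : Function.Injective f)
    (hM : Tendsto (fun n => log ((f n).map (Int.castRingHom ℂ)).mahlerMeasure /
      (f n).natDegree) atTop (𝓝 0))
    {g : ℂ → ℂ} (hg : Continuous g) (hB : ∃ B : ℝ, ∀ z, ‖g z‖ ≤ B) :
    Tendsto (fun n => (∑ z ∈ ((f n).map (Int.castRingHom ℂ)).roots.toFinset, g z) /
      (#((f n).map (Int.castRingHom ℂ)).roots.toFinset : ℂ)) atTop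
      (𝓝 (circleAverage g 0 1)) := by
  obtain ⟨B, hB⟩ := hB
  exact FA.Bilu.tendsto_mean_roots_irreducible hirr hinj hM hd hg hB

open scoped Classical in
/-- A closed set meeting the circle in a null set holds `o (degree)` of the roots. -/
theorem bilu_closed_set {f : ℕ → ℤ[X]}
    (hsep : ∀ᶠ n in atTop, ((f n).map (Int.castRingHom ℂ)).Separable)
    (h0 : ∀ᶠ n in atTop, (f n).coeff 0 ≠ 0)
    (hdeg : Tendsto (fun n => (f n).natDegree) atTop atTop)
    (hM : Tendsto (fun n => log ((f n).map (Int.castRingHom ℂ)).mahlerMeasure /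
      (f n).natDegree) atTop (𝓝 0))
    {A : Set ℂ} (hA : IsClosed A) (hnull : ∀ᵐ θ : ℝ, circleMap 0 1 θ ∉ A) :
    Tendsto (fun n => (#(((f n).map (Int.castRingHom ℂ)).roots.toFinset.filter (· ∈ A)) : ℝ) /
      #((f n).map (Int.castRingHom ℂ)).roots.toFinset) atTop (𝓝 0) :=
  FA.Bilu.tendsto_proportion hsep h0 hdeg hM hA hnull

/-- **Few conjugates are real.** -/
theorem bilu_real_conjugates {f : ℕ → ℤ[X]}
    (hsep : ∀ᶠ n in atTop, ((f n).map (Int.castRingHom ℂ)).Separable)
    (h0 : ∀ᶠ n in atTop, (f n).coeff 0 ≠ 0)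
    (hdeg : Tendsto (fun n => (f n).natDegree) atTop atTop)
    (hM : Tendsto (fun n => log ((f n).map (Int.castRingHom ℂ)).mahlerMeasure /
      (f n).natDegree) atTop (𝓝 0)) :
    Tendsto (fun n =>
      (#(((f n).map (Int.castRingHom ℂ)).roots.toFinset.filter (·.im = 0)) : ℝ) /
      #((f n).map (Int.castRingHom ℂ)).roots.toFinset) atTop (𝓝 0) :=
  FA.Bilu.tendsto_proportion_real hsep h0 hdeg hM

/-- **The primitive roots of unity equidistribute.** -/
theorem primitive_roots_equidistribute {g : ℂ → ℂ} (hg : Continuous g)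
    (hB : ∃ B : ℝ, ∀ z, ‖g z‖ ≤ B) :
    Tendsto (fun n => (∑ z ∈ primitiveRoots n ℂ, g z) / (#(primitiveRoots n ℂ) : ℂ)) atTop
      (𝓝 (circleAverage g 0 1)) := by
  obtain ⟨B, hB⟩ := hB
  exact FA.Bilu.tendsto_mean_primitiveRoots hg hB

/-- **Zhang's theorem**: for some `c > 0` only finitely many algebraic `α` have
`h α + h (1 - α) < c`; here `p` is a minimal polynomial, so `p (1 - X)` is one of `1 - α`. -/
theorem zhang_bogomolov_line :
    ∃ c > 0, {α : ℂ | ∃ p : ℤ[X], Irreducible p ∧ aeval α p = 0 ∧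
      log (p.map (Int.castRingHom ℂ)).mahlerMeasure +
        log ((p.comp (1 - X)).map (Int.castRingHom ℂ)).mahlerMeasure < c * p.natDegree}.Finite :=
  FA.Bilu.bogomolov_line

end FA.Summary

end
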