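import Fermat.Agent.BiluTorus.Bogomolov

/-!
# Bilu's theorem on tori and Zhang's toric theorem

The height `FA.BiluTorus.algHeight x` of a complex algebraic number is `log M(p) / deg p` for its
irreducible integer polynomial `p` (`algebraic_height_spec`); `FA.BiluTorus.conjMean P g` is the
mean of `g` over the points `σ P` for the embeddings `σ` of `ℚ(P)` in `ℂ`; and
`FA.BiluTorus.torusMean g` is the integral of `g` over `(S¹)^ι` for the Haar measure.

* `algebraic_height_mul_le`, `algebraic_height_zpow`, `algebraic_height_root_of_unity`;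
* `bilu_torus`: strict sequences of small points equidistribute on the torus;
* `zhang_toric_bogomolov`: Zhang's theorem for hypersurfaces;
* `manin_mumford_torus`, `manin_mumford_curve`: torsion points on hypersurfaces and curves.
-/

set_option autoImplicit false

noncomputable section

namespace FA.Summary

open Filter Topology FA.BiluTorus

theorem algebraic_height_spec {x : ℂ} {p : Polynomial ℤ} (hp : Irreducible p)
    (hx : Polynomial.aeval x p = 0) :
    algHeight x = Real.log (p.map (Int.castRingHom ℂ)).mahlerMeasure / p.natDegree :=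
  algHeight_eq hp hx

theorem algebraic_height_mul_le {x y : ℂ} (hx : IsAlgebraic ℚ x) (hy : IsAlgebraic ℚ y) :
    algHeight (x * y) ≤ algHeight x + algHeight y :=
  algHeight_mul_le hx hy

theorem algebraic_height_zpow {x : ℂ} (hx : IsAlgebraic ℚ x) (n : ℤ) :
    algHeight (x ^ n) = n.natAbs * algHeight x :=
  algHeight_zpow hx n

theorem algebraic_height_root_of_unity {x : ℂ} {m : ℕ} (hm : 0 < m) (hx : x ^ m = 1) :
    algHeight x = 0 :=
  algHeight_eq_zero_of_pow_eq_one hm hx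

/-- **Bilu's theorem on tori.** -/
theorem bilu_torus {ι : Type*} [Fintype ι] {P : ℕ → ι → ℂ}
    (halg : ∀ k i, IsAlgebraic ℚ (P k i)) (hne : ∀ k i, P k i ≠ 0)
    (hh : ∀ i, Tendsto (fun k => algHeight (P k i)) atTop (𝓝 0))
    (hstrict : ∀ a : ι → ℤ, a ≠ 0 → ∀ᶠ k in atTop, ∏ i, P k i ^ a i ≠ 1)
    {g : (ι → ℂ) → ℂ} (hg : Continuous g) (hB : ∃ B : ℝ, ∀ w, ‖g w‖ ≤ B) :
    Tendsto (fun k => conjMean (P k) g) atTop (𝓝 (torusMean g)) := by
  obtain ⟨B, hB⟩ := hB
  exact tendsto_conjMean halg hne hh hstrict hg hB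

/-- **Zhang's theorem for hypersurfaces in tori.** -/
theorem zhang_toric_bogomolov {ι : Type*} [Fintype ι] {f : MvPolynomial ι ℚ} (hf : f ≠ 0) :
    ∃ c > 0, ∃ A : Finset (ι → ℤ), (0 : ι → ℤ) ∉ A ∧ ∀ P : ι → ℂ,
      (∀ i, IsAlgebraic ℚ (P i)) → (∀ i, P i ≠ 0) → MvPolynomial.aeval P f = 0 →
      ∑ i, algHeight (P i) < c → ∃ a ∈ A, ∏ i, P i ^ a i = 1 :=
  bogomolov_hypersurface hf

/-- **Manin–Mumford for tori** (Ihara, Serre, Tate, Laurent), for hypersurfaces over `ℚ`. -/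
theorem manin_mumford_torus {ι : Type*} [Fintype ι] {f : MvPolynomial ι ℚ} (hf : f ≠ 0) :
    ∃ A : Finset (ι → ℤ), (0 : ι → ℤ) ∉ A ∧ ∀ ζ : ι → ℂ,
      (∀ i, ∃ m : ℕ, 0 < m ∧ ζ i ^ m = 1) → MvPolynomial.aeval ζ f = 0 →
      ∃ a ∈ A, ∏ i, ζ i ^ a i = 1 :=
  maninMumford_hypersurface hf

/-- A curve over `ℚ` with infinitely many torsion points meets a fixed one-dimensional subgroup
infinitely often. -/
theorem manin_mumford_curve {f : MvPolynomial (Fin 2) ℚ} (hf : f ≠ 0)
    (hinf : {ζ : Fin 2 → ℂ | (∀ i, ∃ m : ℕ, 0 < m ∧ ζ i ^ m = 1) ∧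
      MvPolynomial.aeval ζ f = 0}.Infinite) :
    ∃ a b : ℤ, (a, b) ≠ (0, 0) ∧
      {ζ : Fin 2 → ℂ | MvPolynomial.aeval ζ f = 0 ∧ ζ 0 ^ a * ζ 1 ^ b = 1}.Infinite :=
  maninMumford_curve hf hinf

end FA.Summary

end
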