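import Fermat.Agent.BinaryClasses.Main

/-!
# Goldbach's conjecture in residue classes for almost all numbers (Lavrik)

For `a₁`, `a₂` prime to `m`, all but `O (X / (log X) ^ A)` even `n ≤ X` with `n ≡ a₁ + a₂ (mod m)`
are sums of two distinct primes `p ≡ a₁`, `q ≡ a₂ (mod m)`, and the formula of Hardy and
Littlewood for their number holds in mean square; so every class prime to `m` contains infinitely
many three-term progressions of primes. The constants are INEFFECTIVE (Siegel and Walfisz). This is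
not Goldbach's conjecture: the exceptional set is not shown to be empty or finite.
-/

set_option autoImplicit false

namespace FA.BinaryClasses.Summary

open Finset ArithmeticFunction Filter
open scoped Topology

/-- **Almost all numbers of the class are sums of two primes of the classes.** -/
theorem almost_all_two_primes_classes {m a₁ a₂ : ℕ} (hm : 0 < m) (h₁ : a₁.Coprime m)
    (h₂ : a₂.Coprime m) (A : ℕ) : ∃ C : ℝ, 0 < C ∧ ∀ X : ℕ, 2 ≤ X →
      ({n : ℕ | 1 ≤ n ∧ n ≤ X ∧ n ≡ a₁ + a₂ [MOD m] ∧ Even n ∧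
        ¬ ∃ p q : ℕ, (p.Prime ∧ p ≡ a₁ [MOD m]) ∧ (q.Prime ∧ q ≡ a₂ [MOD m]) ∧
          p ≠ q ∧ p + q = n}.ncard : ℝ) ≤ C * ((X : ℝ) / Real.log X ^ A) := by
  obtain ⟨C, hC, h⟩ := exists_card_binExceptions_le hm h₁ h₂ A
  refine ⟨C, hC, fun X hX => le_of_eq_of_le ?_ (h X hX)⟩
  rw [← Set.ncard_coe_finset]
  congr 2
  ext n
  simp [binExceptions, and_assoc]

/-- For an even modulus no parity condition is needed. -/
theorem almost_all_two_primes_classes_even {m a₁ a₂ : ℕ} (hm : 0 < m) (h2 : 2 ∣ m)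
    (h₁ : a₁.Coprime m) (h₂ : a₂.Coprime m) (A : ℕ) : ∃ C : ℝ, 0 < C ∧ ∀ X : ℕ, 2 ≤ X →
      ({n : ℕ | 1 ≤ n ∧ n ≤ X ∧ n ≡ a₁ + a₂ [MOD m] ∧
        ¬ ∃ p q : ℕ, (p.Prime ∧ p ≡ a₁ [MOD m]) ∧ (q.Prime ∧ q ≡ a₂ [MOD m]) ∧
          p ≠ q ∧ p + q = n}.ncard : ℝ) ≤ C * ((X : ℝ) / Real.log X ^ A) := by
  obtain ⟨C, hC, h⟩ := almost_all_two_primes_classes hm h₁ h₂ A
  refine ⟨C, hC, fun X hX => le_of_eq_of_le ?_ (h X hX)⟩
  congr 2
  ext n
  simp only [Set.mem_ofPred_eq]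
  exact ⟨fun h => ⟨h.1, h.2.1, h.2.2.1, even_of_modEq h2 h₁ h₂ h.2.2.1, h.2.2.2⟩,
    fun h => ⟨h.1, h.2.1, h.2.2.1, h.2.2.2.2⟩⟩

/-- The exceptions of an even modulus have density zero. -/
theorem two_primes_classes_density {m a₁ a₂ : ℕ} (hm : 0 < m) (h2 : 2 ∣ m)
    (h₁ : a₁.Coprime m) (h₂ : a₂.Coprime m) :
    Tendsto (fun X : ℕ => ({n : ℕ | 1 ≤ n ∧ n ≤ X ∧ n ≡ a₁ + a₂ [MOD m] ∧
      ¬ ∃ p q : ℕ, (p.Prime ∧ p ≡ a₁ [MOD m]) ∧ (q.Prime ∧ q ≡ a₂ [MOD m]) ∧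
        p ≠ q ∧ p + q = n}.ncard : ℝ) / X) atTop (𝓝 0) := by
  obtain ⟨C, hC, h⟩ := almost_all_two_primes_classes_even hm h2 h₁ h₂ 1
  refine squeeze_zero' (Filter.Eventually.of_forall fun X => by positivity)
    ((Filter.eventually_ge_atTop 2).mono fun X hX => ?_)
    (tendsto_const_nhds.div_atTop (a := C)
      (Real.tendsto_log_atTop.comp tendsto_natCast_atTop_atTop))
  refine (div_le_div_of_nonneg_right (h X hX) (Nat.cast_nonneg X)).trans (le_of_eq ?_)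
  have : (X : ℝ) ≠ 0 := Nat.cast_ne_zero.2 (by omega)
  simp only [Function.comp_apply, pow_one]
  field_simp

/-- Almost every `n ≡ 2 (mod 4)` is a sum of two primes `≡ 1 (mod 4)`. -/
theorem two_primes_one_mod_four :
    Tendsto (fun X : ℕ => ({n : ℕ | 1 ≤ n ∧ n ≤ X ∧ n % 4 = 2 ∧
      ¬ ∃ p q : ℕ, (p.Prime ∧ p % 4 = 1) ∧ (q.Prime ∧ q % 4 = 1) ∧
        p ≠ q ∧ p + q = n}.ncard : ℝ) / X) atTop (𝓝 0) :=
  two_primes_classes_density (m := 4) (a₁ := 1) (a₂ := 1) (by norm_num) (by norm_num)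
    (by norm_num) (by norm_num)

/-- Almost every `n ≡ 2 (mod 4)` is a sum of two primes `≡ 3 (mod 4)`. -/
theorem two_primes_three_mod_four :
    Tendsto (fun X : ℕ => ({n : ℕ | 1 ≤ n ∧ n ≤ X ∧ n % 4 = 2 ∧
      ¬ ∃ p q : ℕ, (p.Prime ∧ p % 4 = 3) ∧ (q.Prime ∧ q % 4 = 3) ∧
        p ≠ q ∧ p + q = n}.ncard : ℝ) / X) atTop (𝓝 0) :=
  two_primes_classes_density (m := 4) (a₁ := 3) (a₂ := 3) (by norm_num) (by norm_num)
    (by norm_num) (by norm_num)

/-- Almost every multiple of `4` is a prime `≡ 1` plus a prime `≡ 3 (mod 4)`. -/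
theorem two_primes_one_three_mod_four :
    Tendsto (fun X : ℕ => ({n : ℕ | 1 ≤ n ∧ n ≤ X ∧ n % 4 = 0 ∧
      ¬ ∃ p q : ℕ, (p.Prime ∧ p % 4 = 1) ∧ (q.Prime ∧ q % 4 = 3) ∧
        p ≠ q ∧ p + q = n}.ncard : ℝ) / X) atTop (𝓝 0) :=
  two_primes_classes_density (m := 4) (a₁ := 1) (a₂ := 3) (by norm_num) (by norm_num)
    (by norm_num) (by norm_num)

/-- **The mean square.** -/
theorem mean_square_classes {m a₁ a₂ : ℕ} (hm : 0 < m) (h₁ : a₁.Coprime m)
    (h₂ : a₂.Coprime m) (e : ℕ) : ∃ C : ℝ, 0 < C ∧ ∀ X : ℕ, 2 ≤ X →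
      ∑ n ∈ (Icc 1 X).filter (fun n => n ≡ a₁ + a₂ [MOD m]),
        ((∑ i ∈ (Icc 1 (n - 1)).filter (fun i => i ≡ a₁ [MOD m] ∧ n - i ≡ a₂ [MOD m]),
            Λ i * Λ (n - i)) -
          (m : ℝ) / (m.totient : ℝ) ^ 2 * binSeries m n * n) ^ 2 ≤
        C * ((X : ℝ) ^ 3 / Real.log X ^ e) := by
  obtain ⟨C, hC, h⟩ := exists_bin_mean_square hm h₁ h₂ e
  refine ⟨C, hC, fun X hX => le_of_eq_of_le (sum_congr rfl fun n _ => ?_) (h X hX)⟩
  rw [binMain, binW, sum_filter]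
  congr 2
  refine sum_congr rfl fun i _ => ?_
  simp only [ThreePrimesClasses.classLambda, Nat.ModEq]
  split_ifs <;> simp_all

/-- Almost all even numbers of the class have `≫ n / (log n) ^ 2` representations. -/
theorem almost_all_count_classes {m a₁ a₂ : ℕ} (hm : 0 < m) (h₁ : a₁.Coprime m)
    (h₂ : a₂.Coprime m) (A : ℕ) : ∃ C : ℝ, 0 < C ∧ ∀ X : ℕ, 2 ≤ X →
      ({n : ℕ | 1 ≤ n ∧ n ≤ X ∧ n ≡ a₁ + a₂ [MOD m] ∧ Even n ∧
        (((Icc 1 n).filter fun p => (p.Prime ∧ p ≡ a₁ [MOD m]) ∧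
          ((n - p).Prime ∧ n - p ≡ a₂ [MOD m])).card : ℝ) * Real.log n ^ 2 <
            (m : ℝ) / (m.totient : ℝ) ^ 2 / 8 * n}.ncard : ℝ) ≤
        C * ((X : ℝ) / Real.log X ^ A) := by
  obtain ⟨C, hC, h⟩ := exists_card_binFewPairs_le hm h₁ h₂ A
  refine ⟨C, hC, fun X hX => le_of_eq_of_le ?_ (h X hX)⟩
  rw [← Set.ncard_coe_finset]
  congr 2
  ext n
  simp [binFewPairs, binCount, binRate, and_assoc]

/-- The series is the product of the factors of Hardy and Littlewood over the primes off `m`. -/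
theorem series_product (m : ℕ) {n : ℕ} (hn : n ≠ 0) :
    Tendsto (fun k : ℕ => ∏ p ∈ k.primesBelow, if p ∣ m then (1 : ℝ) else
      if p ∣ n then 1 + 1 / ((p : ℝ) - 1) else 1 - 1 / ((p : ℝ) - 1) ^ 2) atTop
      (𝓝 (binSeries m n)) := by
  refine (tendsto_binSeries m hn).congr fun k => prod_congr rfl fun p hp => ?_
  have hp' := (Nat.mem_primesBelow.1 hp).2
  have h1 : (p : ℝ) - 1 ≠ 0 := by
    have : (2 : ℝ) ≤ p := by exact_mod_cast hp'.two_le
    exact ne_of_gt (by linarith)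
  split_ifs with hm hd
  · rfl
  all_goals
    rw [AlmostGoldbach.pairTerm_apply, ThreePrimes.ramanujan_prime n hp',
      Nat.totient_prime hp', Nat.cast_sub hp'.one_le, Nat.cast_one, ThreePrimes.moebiusR,
      ArithmeticFunction.intCoe_apply, ArithmeticFunction.moebius_apply_prime hp', Int.cast_neg,
      Int.cast_one]
  · rw [if_pos hd]
    field_simp
  · rw [if_neg hd]
    ring

/-- The series is `O (τ n)`, and at least `1 / 2` unless `m` and `n` are odd. -/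
theorem series_bounds : ∃ C : ℝ, ∀ m n : ℕ, n ≠ 0 →
    |binSeries m n| ≤ C * n.divisors.card ∧ (2 ∣ m ∨ Even n → 1 / 2 ≤ binSeries m n) :=
  ⟨AlmostGoldbach.pairConst, fun m _ hn => ⟨abs_binSeries_le m hn, half_le_binSeries hn⟩⟩

/-- **Infinitely many three-term progressions of primes inside one class.** -/
theorem infinitely_many_progressions_class {m a : ℕ} (hm : 0 < m) (ha : a.Coprime m) :
    {x : ℕ × ℕ | 0 < x.2 ∧ (x.1.Prime ∧ x.1 ≡ a [MOD m]) ∧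
      ((x.1 + x.2).Prime ∧ x.1 + x.2 ≡ a [MOD m]) ∧
      ((x.1 + 2 * x.2).Prime ∧ x.1 + 2 * x.2 ≡ a [MOD m])}.Infinite := by
  refine Set.Infinite.of_image (fun x => x.1 + x.2)
    (Set.infinite_of_forall_exists_gt fun B => ?_)
  obtain ⟨p, q, r, hp, hq, hr, hB, hpq, hqr, hsum⟩ := exists_class_progression hm ha B
  refine ⟨q, ⟨(p, q - p), ⟨by omega, hp, ?_, ?_⟩, by simp only; omega⟩, hB⟩
  · rwa [show p + (q - p) = q by omega]
  · rwa [show p + 2 * (q - p) = r by omega]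

end FA.BinaryClasses.Summary
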