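import Fermat.Agent.RecurrencePowers.Finite

/-!
# Perfect powers in binary recurrences with real roots

* `binary_recurrence_powers_finite`: Pethő, Shorey and Stewart: if `u (n + 2) = P u (n + 1) + Q u n`
  with `P`, `Q` non-zero, `D = P² + 4 Q > 0`, square or not, `(2 u 1 - P u 0)² ≠ D u 0²` and
  `b ≠ 0`, then only finitely many `n` have `u n = b y ^ q`, `q ≥ 2`, all exponents at once.
* `exponential_sum_powers_finite`: so for `a A ^ n + c B ^ n = b y ^ q` with `|A| ≠ |B|`, none of
  the coefficients and bases zero.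
* `repdigit_powers_finite`: so only finitely many repdigits `d (1 + x + ⋯ + x ^ (n - 1))` of each
  base `x ≥ 2` are perfect powers (Shorey–Tijdeman for a fixed base).

By Baker's theorem sharpened in the last height and effective `S`-integral superelliptic equations.

Not claimed: non-real roots, a varying base, explicit bounds or lists.
-/

set_option autoImplicit false

noncomputable section

namespace FA.RecurrencePowers.Summary

variable {P Q : ℤ} {u : ℕ → ℤ}

/-- **Perfect powers in a binary recurrence with real roots.** -/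
theorem binary_recurrence_powers_finite (hD : 0 < P ^ 2 + 4 * Q) (hP : P ≠ 0) (hQ : Q ≠ 0)
    (hc : (2 * u 1 - P * u 0) ^ 2 ≠ (P ^ 2 + 4 * Q) * u 0 ^ 2)
    (hrec : ∀ n, u (n + 2) = P * u (n + 1) + Q * u n) {b : ℤ} (hb : b ≠ 0) :
    {n : ℕ | ∃ (y : ℤ) (q : ℕ), 2 ≤ q ∧ u n = b * y ^ q}.Finite :=
  powers_finite hD hP hQ (sub_ne_zero.2 hc) hrec hb

/-- **Perfect powers among sums of two exponentials.** -/
theorem exponential_sum_powers_finite {a c A B : ℤ} (ha : a ≠ 0) (hc : c ≠ 0) (hA : A ≠ 0)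
    (hB : B ≠ 0) (hne : |A| ≠ |B|) {b : ℤ} (hb : b ≠ 0) :
    {n : ℕ | ∃ (y : ℤ) (q : ℕ), 2 ≤ q ∧ a * A ^ n + c * B ^ n = b * y ^ q}.Finite :=
  exponential_sum_finite ha hc hA hB hne hb

/-- **Repdigits that are perfect powers.** -/
theorem repdigit_powers_finite {x d : ℕ} (hx : 2 ≤ x) (hd : d ≠ 0) :
    {n : ℕ | ∃ y q : ℕ, 2 ≤ q ∧ d * ∑ i ∈ Finset.range n, x ^ i = y ^ q}.Finite :=
  repdigit_finite hx hd

end FA.RecurrencePowers.Summary

end
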