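import Fermat.Agent.BinaryWaring.Main
import Mathlib.FieldTheory.IsAlgClosed.Basic
import Mathlib.Analysis.SpecialFunctions.Pow.Real

/-!
# Waring's problem for binary forms

A binary form of degree `d` is written `∑ k ≤ d, c k * x ^ (d - k) * y ^ k`. Over a field of
characteristic `0` it is a combination of at most `d` powers of linear forms (Sylvester,
Comas–Seiguer), and `x ^ (d - 1) * y` needs all `d` of them.
-/

set_option autoImplicit false

namespace FA.BinaryWaring.Summary

/-- Every binary form of degree `d ≥ 1` is a linear combination of at most `d` powers of linear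
forms. -/
theorem waring_weighted {K : Type*} [Field K] [CharZero K] {d : ℕ} (hd : 0 < d) (c : ℕ → K) :
    ∃ r ≤ d, ∃ w a b : Fin r → K, ∀ x y : K,
      ∑ k ∈ Finset.range (d + 1), c k * x ^ (d - k) * y ^ k =
        ∑ i, w i * (a i * x + b i * y) ^ d :=
  weighted hd c

/-- Over an algebraically closed field of characteristic `0`, every binary form of degree `d ≥ 1`
is a sum of at most `d` powers of linear forms. -/
theorem waring_closed {K : Type*} [Field K] [CharZero K] [IsAlgClosed K] {d : ℕ} (hd : 0 < d)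
    (c : ℕ → K) :
    ∃ r ≤ d, ∃ a b : Fin r → K, ∀ x y : K,
      ∑ k ∈ Finset.range (d + 1), c k * x ^ (d - k) * y ^ k = ∑ i, (a i * x + b i * y) ^ d := by
  obtain ⟨r, hr, w, a, b, h⟩ := weighted hd c
  choose z hz using fun i => IsAlgClosed.exists_pow_nat_eq (w i) hd
  exact ⟨r, hr, fun i => z i * a i, fun i => z i * b i, fun x y => (h x y).trans
    (Finset.sum_congr rfl fun i _ => by rw [← hz i, ← mul_pow]; ring)⟩

/-- Over the real numbers, every binary form of degree `d ≥ 1` is a sum of at most `d` powers of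
linear forms with signs. -/
theorem waring_real {d : ℕ} (hd : 0 < d) (c : ℕ → ℝ) :
    ∃ r ≤ d, ∃ e a b : Fin r → ℝ, (∀ i, e i = 1 ∨ e i = -1) ∧ ∀ x y : ℝ,
      ∑ k ∈ Finset.range (d + 1), c k * x ^ (d - k) * y ^ k =
        ∑ i, e i * (a i * x + b i * y) ^ d := by
  obtain ⟨r, hr, w, a, b, h⟩ := weighted hd c
  refine ⟨r, hr, fun i => if 0 ≤ w i then 1 else -1, fun i => |w i| ^ ((d : ℝ)⁻¹) * a i,
    fun i => |w i| ^ ((d : ℝ)⁻¹) * b i, fun i => ?_,
    fun x y => (h x y).trans (Finset.sum_congr rfl fun i _ => ?_)⟩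
  · by_cases h0 : 0 ≤ w i
    · exact Or.inl (if_pos h0)
    · exact Or.inr (if_neg h0)
  · rw [show |w i| ^ ((d : ℝ)⁻¹) * a i * x + |w i| ^ ((d : ℝ)⁻¹) * b i * y =
      |w i| ^ ((d : ℝ)⁻¹) * (a i * x + b i * y) by ring, mul_pow,
      Real.rpow_inv_natCast_pow (abs_nonneg _) hd.ne', ← mul_assoc]
    congr 1
    show w i = (if 0 ≤ w i then 1 else -1) * |w i|
    by_cases h0 : 0 ≤ w i
    · rw [if_pos h0, one_mul, abs_of_nonneg h0]
    · rw [if_neg h0, abs_of_neg (not_le.1 h0)]; ring

/-- In characteristic `0` the form `x ^ (d - 1) * y` is no linear combination of fewer than `d`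
powers of linear forms. -/
theorem monomial_rank {K : Type*} [Field K] [CharZero K] {d r : ℕ} (hr : r < d)
    (w a b : Fin r → K) :
    ¬∀ x y : K, x ^ (d - 1) * y = ∑ i, w i * (a i * x + b i * y) ^ d :=
  monomial_lower hr w a b

/-- Over an algebraically closed field of characteristic `0` the largest Waring rank of a binary
form of degree `d ≥ 1` is exactly `d`. -/
theorem max_rank {K : Type*} [Field K] [CharZero K] [IsAlgClosed K] {d : ℕ} (hd : 0 < d) :
    IsLeast {R : ℕ | ∀ c : ℕ → K, ∃ r ≤ R, ∃ a b : Fin r → K, ∀ x y : K,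
      ∑ k ∈ Finset.range (d + 1), c k * x ^ (d - k) * y ^ k = ∑ i, (a i * x + b i * y) ^ d} d := by
  refine ⟨fun c => waring_closed hd c, fun R hR => ?_⟩
  by_contra hlt
  obtain ⟨r, hr, a, b, h⟩ := hR fun k => if k = 1 then 1 else 0
  refine monomial_rank (by omega : r < d) (fun _ => 1) a b fun x y => ?_
  simp only [one_mul, ← h x y]
  rw [Finset.sum_eq_single 1]
  · simp
  · intro k _ hk; simp [hk]
  · intro h1; exact absurd (Finset.mem_range.2 (by omega)) h1

end FA.BinaryWaring.Summary
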