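import Fermat.Agent.Erdos.Binomial
import Mathlib.Data.Nat.Choose.Factorization
import Mathlib.Tactic.NormNum

/-!
# Binomial coefficients are almost never powers

Erdős's theorem (1951): for `4 ≤ k ≤ n - 4` and every exponent `l ≥ 2` the coefficient
`n.choose k` is not an `l`-th power; the bound is sharp, as `(50).choose 3 = 140 ^ 2`. The proof is elementary: counting primes stands
in for the theorem of Sylvester, then the `l`-th power free parts of `n - k + 1, …, n` decide.
-/

set_option autoImplicit false

noncomputable section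

namespace FA.Summary

/-- **Erdős's theorem**: `n.choose k` is no perfect power for `4 ≤ k ≤ n - 4`. -/
theorem binomial_ne_pow {n k l : ℕ} (hk : 4 ≤ k) (hkn : k + 4 ≤ n) (hl : 2 ≤ l) (m : ℕ) :
    n.choose k ≠ m ^ l := by
  rcases Nat.lt_or_ge n (2 * k) with h | h
  · rw [← Nat.choose_symm (show k ≤ n by omega)]
    exact FA.Erdos.choose_ne_pow (by omega) (by omega) hl
  · exact FA.Erdos.choose_ne_pow hk h hl

/-- The bound `4 ≤ k` is sharp. -/
theorem binomial_fifty_three : Nat.choose 50 3 = 140 ^ 2 := by
  norm_num [Nat.choose_eq_descFactorial_div_factorial, Nat.descFactorial, Nat.factorial]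

/-- **The product of `k ≥ 4` consecutive integers, the least at least `5`, is never `k!` times a
perfect power.** -/
theorem consecutive_ne_factorial_mul_pow {n k l : ℕ} (hk : 4 ≤ k) (hkn : k + 4 ≤ n) (hl : 2 ≤ l)
    (y : ℕ) : ∏ x ∈ Finset.Ioc (n - k) n, x ≠ k.factorial * y ^ l := fun h => by
  rw [← FA.Erdos.descFactorial_eq_prod_Ioc (show k ≤ n by omega),
    Nat.descFactorial_eq_factorial_mul_choose] at h
  exact binomial_ne_pow hk hkn hl y (Nat.eq_of_mul_eq_mul_left k.factorial_pos h)

end FA.Summary

end
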