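import Fermat.Agent.BiquadNorm.Example

/-!
# The norm principle in biquadratic extensions

For a Galois extension `L/K` of number fields with group of order four and exponent two:

* `biquadratic_norm_principle`: the local norms are global norms iff some prime has a decomposition
  group of order four;
* `biquadratic_norm_obstruction`: one element `x` makes every local norm `c` a norm as `c` or as
  `c x ^ 2`; when all decomposition groups have order at most two, `x ^ 2` is a norm everywhere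
  locally and no norm;
* `sqrt_norm_principle_fails`: so it is in `ℚ(√p, √q)` for distinct primes `p, q` congruent to `1`
  modulo `4` with `p` a square modulo `q`;
* `thirteen_seventeen_norm_principle_fails`: such is `ℚ(√13, √17)`.

Local norms are formulated as in `hasse_norm_theorem`. No other group that is not cyclic is treated.
-/

set_option autoImplicit false
set_option linter.style.haveILetI false
set_option linter.unusedSectionVars false

noncomputable section

open NumberField NumberField.InfinitePlace IsDedekindDomain WithZero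
open FA.ArtinRec FA.NormResidue FA.BiquadNorm
open FA.HasseCyclic (locNorms mem_locNorms)
open scoped Pointwise Classical

namespace FA.Summary

section general

variable (K L : Type*) [Field K] [NumberField K] [Field L] [NumberField L] [Algebra K L]

theorem isMulCommutative_of_exp_two (hexp : ∀ g : L ≃ₐ[K] L, g * g = 1) :
    IsMulCommutative (L ≃ₐ[K] L) :=
  ⟨⟨fun a b => by
    rw [← one_mul (b * a), ← hexp (a * b), mul_assoc, mul_assoc a b (b * a), ← mul_assoc b b,
      hexp, one_mul, hexp, mul_one]⟩⟩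

variable [IsGalois K L]

theorem isLocNorm_iff [IsMulCommutative (L ≃ₐ[K] L)] {c : K} (hc : c ≠ 0) :
    IsLocNorm L (Units.mk0 c hc) ↔
      (∀ (v : HeightOneSpectrum (𝓞 K)) (k : ℕ), ∃ x : L, x ≠ 0 ∧
        v.valuation K (c / Algebra.norm K x - 1) ≤ exp (-(k : ℤ))) ∧
      ∀ w : InfinitePlace K, ¬ w.IsUnramifiedIn L →
        ∀ h : IsReal w, 0 < embedding_of_isReal h c := by
  refine and_congr (forall_congr' fun v => ?_) Iff.rfl
  rw [← MonoidHom.mem_ker, ker_normSymbol, mem_locNorms]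
  exact forall_congr' fun k => ⟨fun ⟨x, h⟩ => ⟨(x : L), x.ne_zero, h⟩,
    fun ⟨x, hx, h⟩ => ⟨Units.mk0 x hx, h⟩⟩

theorem exists_norm_iff [IsMulCommutative (L ≃ₐ[K] L)] (c : Kˣ) :
    (∃ y : Lˣ, FA.ArtinRec.normU' (K := K) y = c) ↔ ∃ y : L, Algebra.norm K y = (c : K) :=
  ⟨fun ⟨y, hy⟩ => ⟨(y : L), congrArg Units.val hy⟩, fun ⟨y, hy⟩ =>
    ⟨Units.mk0 y fun h => c.ne_zero (by rw [← hy, h, Algebra.norm_zero]), Units.ext hy⟩⟩

theorem isFull_iff [IsMulCommutative (L ≃ₐ[K] L)] (hcard : Nat.card (L ≃ₐ[K] L) = 4)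
    (Q : HeightOneSpectrum (𝓞 L)) :
    IsFull L (belowP K Q) ↔ Nat.card (MulAction.stabilizer (L ≃ₐ[K] L) Q.asIdeal) = 4 := by
  rw [IsFull, range_normSymbol rfl, ← hcard, Subgroup.card_eq_iff_eq_top]

/-- **The norm principle of a biquadratic extension.** -/
theorem biquadratic_norm_principle (hexp : ∀ g : L ≃ₐ[K] L, g * g = 1)
    (hcard : Nat.card (L ≃ₐ[K] L) = 4) :
    (∀ c : K, c ≠ 0 → (∀ (v : HeightOneSpectrum (𝓞 K)) (k : ℕ), ∃ x : L, x ≠ 0 ∧
          v.valuation K (c / Algebra.norm K x - 1) ≤ exp (-(k : ℤ))) →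
        (∀ w : InfinitePlace K, ¬ w.IsUnramifiedIn L →
          ∀ h : IsReal w, 0 < embedding_of_isReal h c) →
        ∃ y : L, Algebra.norm K y = c) ↔
      ∃ Q : HeightOneSpectrum (𝓞 L),
        Nat.card (MulAction.stabilizer (L ≃ₐ[K] L) Q.asIdeal) = 4 := by
  haveI := isMulCommutative_of_exp_two K L hexp
  have hiff := (principle K L hexp hcard).1
  constructor
  · intro h
    obtain ⟨v, hv⟩ := hiff.1 fun c hc => (exists_norm_iff K L c).2
      (h c c.ne_zero ((isLocNorm_iff K L c.ne_zero).1 (by simpa using hc)).1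
        ((isLocNorm_iff K L c.ne_zero).1 (by simpa using hc)).2)
    obtain ⟨Q, rfl⟩ := exists_belowP K L v
    exact ⟨Q, (isFull_iff K L hcard Q).1 hv⟩
  · rintro ⟨Q, hQ⟩ c hc h1 h2
    exact (exists_norm_iff K L (Units.mk0 c hc)).1
      (hiff.2 ⟨_, (isFull_iff K L hcard Q).2 hQ⟩ _ ((isLocNorm_iff K L hc).2 ⟨h1, h2⟩))

/-- **The obstruction is one square.** -/
theorem biquadratic_norm_obstruction (hexp : ∀ g : L ≃ₐ[K] L, g * g = 1)
    (hcard : Nat.card (L ≃ₐ[K] L) = 4) :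
    ∃ x : K, x ≠ 0 ∧
      ((∀ Q : HeightOneSpectrum (𝓞 L),
          Nat.card (MulAction.stabilizer (L ≃ₐ[K] L) Q.asIdeal) ≤ 2) →
        (∀ (v : HeightOneSpectrum (𝓞 K)) (k : ℕ), ∃ y : L, y ≠ 0 ∧
            v.valuation K (x ^ 2 / Algebra.norm K y - 1) ≤ exp (-(k : ℤ))) ∧
          (∀ w : InfinitePlace K, ¬ w.IsUnramifiedIn L →
            ∀ h : IsReal w, 0 < embedding_of_isReal h (x ^ 2)) ∧
          ¬ ∃ y : L, Algebra.norm K y = x ^ 2) ∧
      ∀ c : K, c ≠ 0 → (∀ (v : HeightOneSpectrum (𝓞 K)) (k : ℕ), ∃ y : L, y ≠ 0 ∧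
          v.valuation K (c / Algebra.norm K y - 1) ≤ exp (-(k : ℤ))) →
        (∀ w : InfinitePlace K, ¬ w.IsUnramifiedIn L →
          ∀ h : IsReal w, 0 < embedding_of_isReal h c) →
        (∃ y : L, Algebra.norm K y = c) ∨ ∃ y : L, Algebra.norm K y = c * x ^ 2 := by
  haveI := isMulCommutative_of_exp_two K L hexp
  obtain ⟨-, x, hno, hor⟩ := principle K L hexp hcard
  have hsq : ∀ (c : K) (u : Kˣ), c = (u : K) → ((∃ y : Lˣ, FA.ArtinRec.normU' (K := K) y = u) ↔
      ∃ y : L, Algebra.norm K y = c) := fun c u h => h ▸ exists_norm_iff K L u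
  refine ⟨x, x.ne_zero, fun h => ?_, fun c hc h1 h2 => ?_⟩
  · have h0 : (x : K) ^ 2 ≠ 0 := pow_ne_zero _ x.ne_zero
    have e : Units.mk0 _ h0 = x * x := Units.ext (pow_two (x : K))
    have hl : IsLocNorm L (x * x) :=
      ⟨fun v => by rw [map_mul, hexp], fun w _ hr => by
        rw [Units.val_mul, map_mul]; exact mul_self_pos.2 ((map_ne_zero _).2 x.ne_zero)⟩
    obtain ⟨h3, h4⟩ := (isLocNorm_iff K L h0).1 (e.symm ▸ hl)
    refine ⟨h3, h4, fun hy => hno (fun v hv => ?_) ((hsq _ (x * x) (pow_two (x : K))).2 hy)⟩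
    obtain ⟨Q, rfl⟩ := exists_belowP K L v
    have := (isFull_iff K L hcard Q).1 hv
    have := h Q
    omega
  · exact (hor _ ((isLocNorm_iff K L hc).2 ⟨h1, h2⟩)).imp (exists_norm_iff K L _).1
      (hsq _ (Units.mk0 c hc * (x * x)) (by simp [pow_two])).1

end general

/-- **The principle fails in `ℚ(√p, √q)`.** -/
theorem sqrt_norm_principle_fails {p q : ℕ} (hp : p.Prime) (hq : q.Prime) (hpq : p ≠ q)
    (hp4 : p % 4 = 1) (hq4 : q % 4 = 1) (hsq : IsSquare (p : ZMod q)) (L : Type*) [Field L]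
    [NumberField L] [IsGalois ℚ L] {α β : L} (hα : α ^ 2 = p) (hβ : β ^ 2 = q)
    (hgen : IntermediateField.adjoin ℚ {α, β} = ⊤) :
    ∃ x : ℚ, x ≠ 0 ∧
      (∀ (v : HeightOneSpectrum (𝓞 ℚ)) (k : ℕ), ∃ y : L, y ≠ 0 ∧
        v.valuation ℚ (x ^ 2 / Algebra.norm ℚ y - 1) ≤ exp (-(k : ℤ))) ∧
      (∀ w : InfinitePlace ℚ, ¬ w.IsUnramifiedIn L →
        ∀ h : IsReal w, 0 < embedding_of_isReal h (x ^ 2)) ∧
      ¬ ∃ y : L, Algebra.norm ℚ y = x ^ 2 := by
  obtain ⟨x, hx, h, -⟩ := biquadratic_norm_obstruction ℚ L (exp_two hgen hα hβ)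
    (card_aut hgen hα hβ hp hq hpq)
  exact ⟨x, hx, h (card_stabilizer_le_two hgen hα hβ hp hq hpq hp4 hq4 hsq)⟩

/-- **An instance**: `ℚ(√13, √17)`. -/
theorem thirteen_seventeen_norm_principle_fails :
    ∃ (L : Type) (_ : Field L) (_ : NumberField L) (α β : L),
      α ^ 2 = 13 ∧ β ^ 2 = 17 ∧ IntermediateField.adjoin ℚ {α, β} = ⊤ ∧
      ∃ x : ℚ, x ≠ 0 ∧
        (∀ (v : HeightOneSpectrum (𝓞 ℚ)) (k : ℕ), ∃ y : L, y ≠ 0 ∧
          v.valuation ℚ (x ^ 2 / Algebra.norm ℚ y - 1) ≤ exp (-(k : ℤ))) ∧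
        (∀ w : InfinitePlace ℚ, ¬ w.IsUnramifiedIn L →
          ∀ h : IsReal w, 0 < embedding_of_isReal h (x ^ 2)) ∧
        ¬ ∃ y : L, Algebra.norm ℚ y = x ^ 2 := by
  obtain ⟨L, _, _, _, α, β, hα, hβ, hgen⟩ := exists_field 13 17
  refine ⟨L, inferInstance, inferInstance, α, β, by simpa using hα, by simpa using hβ, hgen,
    sqrt_norm_principle_fails (p := 13) (q := 17) (by norm_num) (by norm_num) (by norm_num)
      (by norm_num) (by norm_num) ⟨8, by decide⟩ L hα hβ hgen⟩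

end FA.Summary

end
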