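import Fermat.Agent.Biquadratic.Two

/-!
# The law of biquadratic reciprocity

`symbol4 α x` is the symbol `(x / α)₄` of `ℤ[i]`, with values `0, ±1, ±i`; primary means `≡ 1` modulo `(1 + i)³`.

* `biquadraticSymbol_mul`, `biquadraticSymbol_residue`: multiplicative in both arguments; at a prime `π` it is
  congruent to `x ^ ((N π - 1) / 4)` and is `1` exactly at the fourth powers modulo `π`.
* `biquadraticReciprocity` (Gauss, Eisenstein): `(α / β)₄ = (-1) ^ ((N α - 1) / 4 · (N β - 1) / 4) · (β / α)₄` for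
  all primary `α`, `β`; `biquadraticReciprocity_residues`: for primary primes, one of norm `1 (mod 8)`, each is a
  fourth power modulo the other simultaneously.
* `biquadraticReciprocity_supplements`: the values at `-1`, `i` and `2`.
* `two_isFourthPower_iff`: for a prime `p ≡ 1 (mod 4)`, `2` is a fourth power modulo `p` iff `p = x² + 64 y²`.

Independent of S01.
-/

set_option autoImplicit false

noncomputable section

open scoped Classical

namespace FA.Summary

open FA.Biquadratic FA.CM.Quartic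

local notation "ℤ[i]" => GaussianInt

/-- **Multiplicativity.** -/
theorem biquadraticSymbol_mul {α β : ℤ[i]} (hα : IsOdd α) (hβ : IsOdd β) (x y : ℤ[i]) :
    symbol4 (α * β) x = symbol4 α x * symbol4 β x ∧ symbol4 α (x * y) = symbol4 α x * symbol4 α y :=
  ⟨symbol4_mul_left hα hβ x, symbol4_mul_right hα x y⟩

/-- **The symbol at a prime.** -/
theorem biquadraticSymbol_residue {π x : ℤ[i]} (hπ : Prime π) (ho : IsOdd π) (hx : ¬ π ∣ x) :
    (symbol4 π x ^ 4 = 1 ∧ π ∣ x ^ ((π.norm.natAbs - 1) / 4) - symbol4 π x) ∧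
      (symbol4 π x = 1 ↔ ∃ y, π ∣ x - y ^ 4) := by
  rw [symbol4_prime hπ ho]
  exact ⟨symbolPrime4_spec hπ ho hx, symbolPrime4_eq_one_iff hπ ho hx⟩

/-- **The law of biquadratic reciprocity.** -/
theorem biquadraticReciprocity {α β : ℤ[i]} (hα : IsPrimary α) (hβ : IsPrimary β) :
    symbol4 β α = (-1) ^ ((α.norm.natAbs - 1) / 4 * ((β.norm.natAbs - 1) / 4)) * symbol4 α β :=
  biquadratic_reciprocity hα hβ

/-- **The law for residues.** -/
theorem biquadraticReciprocity_residues {π ρ : ℤ[i]} (hπ : Prime π) (hρ : Prime ρ) (hπ' : IsPrimary π)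
    (hρ' : IsPrimary ρ) (hne : π ≠ ρ) (h8 : π.norm % 8 = 1) :
    (∃ y, ρ ∣ π - y ^ 4) ↔ ∃ y, π ∣ ρ - y ^ 4 := by
  have h1 : ¬ ρ ∣ π := fun h => hne (eq_of_associated hρ' hπ' (hρ.associated_of_dvd hπ h)).symm
  have h2 : ¬ π ∣ ρ := fun h => hne (eq_of_associated hπ' hρ' (hπ.associated_of_dvd hρ h))
  rw [← (biquadraticSymbol_residue hρ (isOdd_of_isPrimary hρ') h1).2,
    ← (biquadraticSymbol_residue hπ (isOdd_of_isPrimary hπ') h2).2, biquadraticReciprocity hπ' hρ',
    Even.neg_one_pow (Even.mul_right (Nat.even_iff.mpr (by have := GaussianInt.norm_nonneg π; omega)) _),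
    one_mul]

/-- **The supplements.** -/
theorem biquadraticReciprocity_supplements {α : ℤ[i]} (hα : IsPrimary α) :
    symbol4 α (-1) = (-1) ^ ((α.norm.natAbs - 1) / 4) ∧
      symbol4 α ⟨0, 1⟩ = ⟨0, 1⟩ ^ ((α.norm.natAbs - 1) / 4) ∧
      symbol4 α 2 = ⟨0, 1⟩ ^ ((-(α.im / 2)) % 4).toNat :=
  ⟨symbol4_unit (isOdd_of_isPrimary hα) (by decide), symbol4_unit (isOdd_of_isPrimary hα) (by decide),
    symbol4_two hα⟩

/-- **Gauss's criterion for `2`.** -/
theorem two_isFourthPower_iff {p : ℕ} [Fact p.Prime] (h4 : p % 4 = 1) :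
    (∃ y : ZMod p, y ^ 4 = 2) ↔ ∃ x y : ℤ, (p : ℤ) = x ^ 2 + 64 * y ^ 2 :=
  two_fourth_power_iff h4

end FA.Summary
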