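import Fermat.Agent.BirchComplete.Main
import Fermat.Agent.BirchComplete.TwoThree

/-!
# Complete sequences `p ^ a * q ^ b`

* `birch_complete` (Birch 1959, conjectured by Erdős): for coprime `p, q ≥ 2` every large `n` is a
  sum of distinct numbers `p ^ a * q ^ b`.
* `birch_davenport`: moreover the exponent of `q` may be bounded (Davenport's remark).
* `birch_necessary`: if `gcd (p, q) ≥ 3` infinitely many `n` are no such sum.
* `erdos_two_three`: every `n` is a sum of `2 ^ a * 3 ^ b` none of which divides another.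
-/

set_option autoImplicit false

namespace FA.BirchComplete.Summary

open Finset

theorem birch_complete {p q : ℕ} (hp : 1 < p) (hq : 1 < q) (hpq : Nat.Coprime p q) :
    ∃ N, ∀ n, N ≤ n → ∃ s : Finset ℕ,
      (∀ x ∈ s, ∃ a b, x = p ^ a * q ^ b) ∧ ∑ x ∈ s, x = n := by
  obtain ⟨B, N, h⟩ := exists_complete hp hq hpq
  refine ⟨N, fun n hn => ?_⟩
  obtain ⟨s, hs, hsum⟩ := h n hn
  exact ⟨s, fun x hx => band_subset p q B (hs x hx), hsum⟩

theorem birch_davenport {p q : ℕ} (hp : 1 < p) (hq : 1 < q) (hpq : Nat.Coprime p q) :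
    ∃ B N, ∀ n, N ≤ n → ∃ s : Finset (ℕ × ℕ),
      (∀ x ∈ s, x.2 ≤ B) ∧ ∑ x ∈ s, p ^ x.1 * q ^ x.2 = n := by
  classical
  obtain ⟨B, N, h⟩ := exists_complete hp hq hpq
  refine ⟨B, N, fun n hn => ?_⟩
  obtain ⟨s, hs, hsum⟩ := h n hn
  choose a b hb he using hs
  refine ⟨s.attach.image fun x => (a x.1 x.2, b x.1 x.2), fun z hz => ?_, ?_⟩
  · obtain ⟨⟨x, hx⟩, -, rfl⟩ := mem_image.1 hz
    exact (hb x hx).le
  · rw [sum_image, ← hsum, ← s.sum_attach (fun x => x)]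
    · exact sum_congr rfl fun x _ => (he x.1 x.2).symm
    · intro x _ y _ hxy
      simp only [Prod.mk.injEq] at hxy
      exact Subtype.ext (by rw [he x.1 x.2, he y.1 y.2, hxy.1, hxy.2])

theorem birch_necessary {p q : ℕ} (hg : 3 ≤ Nat.gcd p q) (N : ℕ) :
    ∃ n, N ≤ n ∧ ∀ s : Finset ℕ, (∀ x ∈ s, ∃ a b, x = p ^ a * q ^ b) → ∑ x ∈ s, x ≠ n := by
  obtain ⟨g, hg'⟩ : ∃ g, g = Nat.gcd p q := ⟨_, rfl⟩
  rw [← hg'] at hg
  have hN : N ≤ g * N := Nat.le_mul_of_pos_left N (by omega)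
  refine ⟨g * N + 2, by omega, fun s hs hsum => ?_⟩
  have hrest : g ∣ ∑ x ∈ s.erase 1, x := dvd_sum fun x hx => by
    obtain ⟨h1, hx⟩ := mem_erase.1 hx
    obtain ⟨a, b, rfl⟩ := hs x hx
    rcases Nat.eq_zero_or_pos a with rfl | ha
    · rcases Nat.eq_zero_or_pos b with rfl | hb
      · exact absurd (by simp) h1
      · exact Dvd.dvd.mul_left ((hg' ▸ Nat.gcd_dvd_right p q).trans (dvd_pow_self q hb.ne')) _
    · exact Dvd.dvd.mul_right ((hg' ▸ Nat.gcd_dvd_left p q).trans (dvd_pow_self p ha.ne')) _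
  obtain ⟨c, hc⟩ := hrest
  by_cases h1 : 1 ∈ s
  · rw [← add_sum_erase _ _ h1, hc] at hsum
    have h2 : g ∣ 1 :=
      (Nat.dvd_add_right (dvd_mul_right g N)).1 ⟨c, by omega⟩
    exact absurd (Nat.dvd_one.1 h2) (by omega)
  · rw [erase_eq_of_notMem h1] at hc
    rw [hc] at hsum
    have h2 : g ∣ 2 := (Nat.dvd_add_right (dvd_mul_right g N)).1 ⟨c, hsum.symm⟩
    exact absurd (Nat.le_of_dvd two_pos h2) (by omega)

theorem erdos_two_three (n : ℕ) :
    ∃ s : Finset ℕ, (∀ x ∈ s, ∃ a b, x = 2 ^ a * 3 ^ b) ∧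
      (∀ x ∈ s, ∀ y ∈ s, x ∣ y → x = y) ∧ ∑ x ∈ s, x = n :=
  exists_antichain n

end FA.BirchComplete.Summary
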