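import Fermat.Agent.BirchForms.Main

/-!
# Birch's theorem on forms of odd degree

Rational forms of given odd degrees in sufficiently many variables vanish on a common linear space
of any given dimension, in particular at a common nonzero integer point (Birch, 1957). The analytic
input: a diagonal equation of odd degree `k` in more than `k (k + 1)` variables has a nontrivial
integer solution, by the circle method with the mean value theorem of Vinogradov.
-/

set_option autoImplicit false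

noncomputable section

namespace FA.BirchForms.Summary

open MvPolynomial

/-- **Birch's theorem.** -/
theorem birch {r : ℕ} (d : Fin r → ℕ) (hd : ∀ i, Odd (d i)) (m : ℕ) :
    ∃ n₀ : ℕ, ∀ n, n₀ ≤ n → ∀ F : Fin r → MvPolynomial (Fin n) ℚ,
      (∀ i, (F i).IsHomogeneous (d i)) →
        ∃ W : Submodule ℚ (Fin n → ℚ), Module.finrank ℚ W = m ∧
          ∀ x ∈ W, ∀ i, eval x (F i) = 0 :=
  exists_birch d hd m

/-- A common nonzero integer zero. -/
theorem birch_integer_zero {r : ℕ} (d : Fin r → ℕ) (hd : ∀ i, Odd (d i)) :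
    ∃ n₀ : ℕ, ∀ n, n₀ ≤ n → ∀ F : Fin r → MvPolynomial (Fin n) ℚ,
      (∀ i, (F i).IsHomogeneous (d i)) →
        ∃ x : Fin n → ℤ, x ≠ 0 ∧ ∀ i, eval (fun j => (x j : ℚ)) (F i) = 0 := by
  obtain ⟨n₀, h⟩ := exists_birch d hd 1
  refine ⟨n₀, fun n hn F hF => ?_⟩
  obtain ⟨W, hW, hz⟩ := h n hn F hF
  obtain ⟨y, hy, hy0⟩ : ∃ y ∈ W, y ≠ 0 := by
    refine W.exists_mem_ne_zero_of_ne_bot fun e => ?_
    rw [e, finrank_bot] at hW
    exact absurd hW (by norm_num)
  obtain ⟨⟨D, hD⟩, hint⟩ := IsLocalization.exist_integer_multiples_of_finite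
    (nonZeroDivisors ℤ) (S := ℚ) y
  choose x hx using hint
  have e : (fun j => (x j : ℚ)) = (D : ℚ) • y := funext fun j => by
    simpa [Algebra.smul_def] using hx j
  refine ⟨x, fun h0 => hy0 ?_, fun i => hz _ (e ▸ W.smul_mem _ hy) i⟩
  have : (D : ℚ) • y = 0 := by rw [← e, h0]; simp; rfl
  exact (smul_eq_zero.1 this).resolve_left (Int.cast_ne_zero.2 (nonZeroDivisors.ne_zero hD))

/-- **Diagonal equations of odd degree.** -/
theorem odd_diagonal_equation {k n : ℕ} (hk : Odd k) (hn : k * (k + 1) < n)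
    (c : Fin n → ℤ) : ∃ x : Fin n → ℤ, x ≠ 0 ∧ ∑ i, c i * x i ^ k = 0 :=
  exists_diagonal_zero hk (by rwa [Fintype.card_fin]) c

/-- **Diagonalisation**: a form of odd degree in many variables is diagonal on some subspace. -/
theorem diagonalisation {d : ℕ} (hd : Odd d) (s : ℕ) : ∃ n₀ : ℕ, ∀ n, n₀ ≤ n →
    ∀ F : MvPolynomial (Fin n) ℚ, F.IsHomogeneous d →
      ∃ (L : (Fin s → ℚ) →ₗ[ℚ] (Fin n → ℚ)) (c : Fin s → ℚ), Function.Injective L ∧
        ∀ t, eval (L t) F = ∑ j, c j * t j ^ d :=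
  exists_diagonal hd (fun e he _ => solvable_odd e he) s

end FA.BirchForms.Summary
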