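import Fermat.Agent.Twists.Count
import Fermat.Agent.Root.SummaryAlmostAllSurjective

/-!
# Birch's second moment of Frobenius traces

For a prime `q ≥ 5` the sums `∑ χ (x³ + a x + b)` have squares adding up to `q² (q - 1)` over all
`(a, b)`, and the `q - 1` singular equations with `a ≠ 0` contribute one each. So the traces over
the nonsingular equations have sum `0` and squares adding up to `(q - 1) (q² - 1)`: some curve over
`𝔽_q` has `a_q² > q`, and with Hasse's bound a tenth of all classes have `a_q² > q / 2`. By the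
sieve almost every curve over `ℚ` has as many such primes as one wishes.
-/

set_option autoImplicit false
set_option linter.style.haveILetI false

noncomputable section

open Filter Topology WeierstrassCurve

namespace FA.BirchMoment

variable {q : ℕ}

/-- The equation `y² = x³ + a x + b` over `ZMod q`. -/
abbrev shortMod (a b : ZMod q) : WeierstrassCurve (ZMod q) := ⟨0, 0, 0, a, b⟩

/-- The character sum of `x³ + a x + b`. -/
def charSum [Fact q.Prime] (a b : ZMod q) : ℤ :=
  ∑ x : ZMod q, quadraticChar (ZMod q) (x ^ 3 + a * x + b)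

/-- The singular equations. -/
def singular (q : ℕ) [NeZero q] : Finset (ZMod q × ZMod q) :=
  Finset.univ.filter fun ab => 4 * ab.1 ^ 3 + 27 * ab.2 ^ 2 = 0

/-- The nonsingular equations. -/
def nonsingular (q : ℕ) [NeZero q] : Finset (ZMod q × ZMod q) :=
  Finset.univ.filter fun ab => 4 * ab.1 ^ 3 + 27 * ab.2 ^ 2 ≠ 0

section prime

variable [hq : Fact q.Prime]

theorem natCast_ne_zero_of_five (h5 : 5 ≤ q) {k : ℕ} (hk : 0 < k) (hk5 : k < 5) :
    (k : ZMod q) ≠ 0 := fun h => by
  have := Nat.le_of_dvd hk ((ZMod.natCast_eq_zero_iff k q).mp h)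
  omega

theorem ringChar_ne_two (h5 : 5 ≤ q) : ringChar (ZMod q) ≠ 2 := by
  rw [ZMod.ringChar_zmod_n]; omega

theorem shortMod_Δ (a b : ZMod q) : (shortMod a b).Δ = -16 * (4 * a ^ 3 + 27 * b ^ 2) := by
  simp only [WeierstrassCurve.Δ, WeierstrassCurve.b₂, WeierstrassCurve.b₄,
    WeierstrassCurve.b₆, WeierstrassCurve.b₈]
  ring

theorem shortMod_Δ_ne_zero (h5 : 5 ≤ q) {a b : ZMod q} (h : 4 * a ^ 3 + 27 * b ^ 2 ≠ 0) :
    (shortMod a b).Δ ≠ 0 := by
  have h2 : (2 : ZMod q) ≠ 0 := by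
    exact_mod_cast natCast_ne_zero_of_five h5 two_pos (by norm_num : 2 < 5)
  rw [shortMod_Δ, show (-16 : ZMod q) = -2 ^ 4 by norm_num]
  exact mul_ne_zero (neg_ne_zero.mpr (pow_ne_zero 4 h2)) h

/-- The trace is minus the character sum. -/
theorem traceOfFrobenius_eq (h5 : 5 ≤ q) {a b : ZMod q} (h : 4 * a ^ 3 + 27 * b ^ 2 ≠ 0) :
    (shortMod a b).traceOfFrobenius = -charSum a b := by
  have h2 : (2 : ZMod q) ≠ 0 := Ring.two_ne_zero (ringChar_ne_two h5)
  have hsum : ∑ x : ZMod q, quadraticChar (ZMod q) (4 * x ^ 3 + (shortMod a b).b₂ * x ^ 2 +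
      2 * (shortMod a b).b₄ * x + (shortMod a b).b₆) = charSum a b := by
    refine Finset.sum_congr rfl fun x _ => ?_
    rw [show 4 * x ^ 3 + (shortMod a b).b₂ * x ^ 2 + 2 * (shortMod a b).b₄ * x +
        (shortMod a b).b₆ = 2 ^ 2 * (x ^ 3 + a * x + b) by
          simp only [WeierstrassCurve.b₂, WeierstrassCurve.b₄, WeierstrassCurve.b₆]; ring,
      map_mul, quadraticChar_sq_one' h2, one_mul]
  rw [traceOfFrobenius, WeierstrassCurve.card,
    FA.Twists.natCard_point_eq_sum (ringChar_ne_two h5) _ (shortMod_Δ_ne_zero h5 h), hsum,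
    Nat.card_eq_fintype_card]
  ring

/-- The squares of the character sums add up to `q² (q - 1)`. -/
theorem sum_charSum_sq (h5 : 5 ≤ q) :
    ∑ ab : ZMod q × ZMod q, charSum ab.1 ab.2 ^ 2 = (q : ℤ) ^ 2 * ((q : ℤ) - 1) := by
  have hsq : ∑ u : ZMod q, quadraticChar (ZMod q) u ^ 2 = (q : ℤ) - 1 := by
    rw [← Finset.add_sum_erase _ _ (Finset.mem_univ (0 : ZMod q)), quadraticChar_zero, sq,
      zero_mul, zero_add, Finset.sum_congr rfl fun u hu => by
        rw [← map_pow, quadraticChar_sq_one' (Finset.ne_of_mem_erase hu)],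
      Finset.sum_const, Finset.card_erase_of_mem (Finset.mem_univ _), Finset.card_univ, ZMod.card]
    rw [nsmul_eq_mul, mul_one, Nat.cast_sub hq.out.one_le, Nat.cast_one]
  have hxy : ∀ x y : ZMod q, ∑ ab : ZMod q × ZMod q,
      quadraticChar (ZMod q) (x ^ 3 + ab.1 * x + ab.2) *
        quadraticChar (ZMod q) (y ^ 3 + ab.1 * y + ab.2) =
      if x = y then (q : ℤ) * ((q : ℤ) - 1) else 0 := fun x y => by
    split_ifs with h
    · subst h
      rw [Fintype.sum_prod_type]
      simp only [← sq]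
      have : ∀ a : ZMod q, ∑ b : ZMod q, quadraticChar (ZMod q) (x ^ 3 + a * x + b) ^ 2 =
          (q : ℤ) - 1 := fun a => by
        rw [← hsq]
        exact Fintype.sum_equiv (Equiv.addLeft (x ^ 3 + a * x)) _ _ fun b => rfl
      rw [Finset.sum_congr rfl fun a _ => this a, Finset.sum_const, Finset.card_univ, ZMod.card,
        nsmul_eq_mul]
    · have hinj : Function.Injective fun ab : ZMod q × ZMod q =>
          (x ^ 3 + ab.1 * x + ab.2, y ^ 3 + ab.1 * y + ab.2) := fun ab ab' e => by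
        obtain ⟨e1, e2⟩ := Prod.mk.inj e
        have ha : ab.1 = ab'.1 := mul_right_cancel₀ (sub_ne_zero.mpr h)
          (by linear_combination e1 - e2)
        exact Prod.ext ha (by linear_combination e1 - x * ha)
      rw [Fintype.sum_bijective _ (Finite.injective_iff_bijective.mp hinj) _
          (fun uv : ZMod q × ZMod q => quadraticChar (ZMod q) uv.1 * quadraticChar (ZMod q) uv.2)
          (fun _ => rfl),
        Fintype.sum_prod_type, ← Finset.sum_mul_sum, quadraticChar_sum_zero (ringChar_ne_two h5),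
        zero_mul]
  simp only [charSum, sq, Finset.sum_mul_sum]
  rw [Finset.sum_comm]
  simp_rw [Finset.sum_comm (s := (Finset.univ : Finset (ZMod q × ZMod q))), hxy,
    Finset.sum_ite_eq, Finset.mem_univ, if_true, Finset.sum_const, Finset.card_univ, ZMod.card,
    nsmul_eq_mul]
  ring

/-- The character sums add up to zero. -/
theorem sum_charSum (h5 : 5 ≤ q) : ∑ ab : ZMod q × ZMod q, charSum ab.1 ab.2 = 0 := by
  simp only [charSum, Fintype.sum_prod_type]
  refine Finset.sum_eq_zero fun a _ => ?_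
  rw [Finset.sum_comm]
  exact Finset.sum_eq_zero fun x _ => (Fintype.sum_equiv (Equiv.addLeft (x ^ 3 + a * x)) _ _
    fun b => rfl).trans (quadraticChar_sum_zero (ringChar_ne_two h5))

/-- The singular equations are `(-3 t², 2 t³)`. -/
theorem singular_eq_image (h5 : 5 ≤ q) :
    singular q = Finset.univ.image fun t : ZMod q => (-3 * t ^ 2, 2 * t ^ 3) := by
  have h2 : (2 : ZMod q) ≠ 0 := Ring.two_ne_zero (ringChar_ne_two h5)
  have h3 : (3 : ZMod q) ≠ 0 := by
    exact_mod_cast natCast_ne_zero_of_five h5 three_pos (by norm_num : 3 < 5)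
  have h27 : (27 : ZMod q) ≠ 0 := by
    rw [show (27 : ZMod q) = 3 ^ 3 by norm_num]; exact pow_ne_zero 3 h3
  ext ⟨a, b⟩
  simp only [singular, Finset.mem_filter, Finset.mem_univ, true_and, Finset.mem_image,
    Prod.mk.injEq]
  constructor
  · intro h
    rcases eq_or_ne a 0 with rfl | ha
    · refine ⟨0, by ring, ?_⟩
      have hb : b = 0 := by
        have h' : 27 * b ^ 2 = 0 := by linear_combination h
        exact pow_eq_zero_iff two_ne_zero |>.mp ((mul_eq_zero.mp h').resolve_left h27)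
      rw [hb]; ring
    · refine ⟨-3 * b / (2 * a), ?_, ?_⟩
      · field_simp
        linear_combination -h
      · field_simp
        linear_combination -b * h
  · rintro ⟨t, rfl, rfl⟩
    ring

/-- The character sum of `(x - t)² (x + 2 t)`. -/
theorem charSum_singular (h5 : 5 ≤ q) (t : ZMod q) :
    charSum (-3 * t ^ 2) (2 * t ^ 3) = -quadraticChar (ZMod q) (3 * t) := by
  have hz : ∑ x : ZMod q, quadraticChar (ZMod q) (x + 2 * t) = 0 :=
    (Fintype.sum_equiv (Equiv.addRight (2 * t)) _ _ fun x => rfl).trans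
      (quadraticChar_sum_zero (ringChar_ne_two h5))
  rw [← Finset.add_sum_erase _ _ (Finset.mem_univ t),
    show t + 2 * t = 3 * t by ring] at hz
  rw [charSum, ← Finset.add_sum_erase _ _ (Finset.mem_univ t),
    show t ^ 3 + -3 * t ^ 2 * t + 2 * t ^ 3 = 0 by ring, quadraticChar_zero, zero_add,
    Finset.sum_congr rfl fun x hx => by
      rw [show x ^ 3 + -3 * t ^ 2 * x + 2 * t ^ 3 = (x - t) ^ 2 * (x + 2 * t) by ring, map_mul,
        quadraticChar_sq_one' (sub_ne_zero.mpr (Finset.ne_of_mem_erase hx)), one_mul]]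
  linarith

theorem injective_singular (h5 : 5 ≤ q) :
    Function.Injective fun t : ZMod q => (-3 * t ^ 2, 2 * t ^ 3) := fun s t e => by
  obtain ⟨e1, e2⟩ := Prod.mk.inj e
  have h2 : (2 : ZMod q) ≠ 0 := Ring.two_ne_zero (ringChar_ne_two h5)
  have h3 : (3 : ZMod q) ≠ 0 := by
    exact_mod_cast natCast_ne_zero_of_five h5 three_pos (by norm_num : 3 < 5)
  have hsq : s ^ 2 = t ^ 2 := mul_left_cancel₀ (neg_ne_zero.mpr h3) e1
  have hcu : s ^ 3 = t ^ 3 := mul_left_cancel₀ h2 e2
  rcases eq_or_ne s 0 with rfl | hs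
  · exact (pow_eq_zero_iff two_ne_zero |>.mp (by rw [← hsq]; ring)).symm
  · refine mul_left_cancel₀ (pow_ne_zero 2 hs) ?_
    linear_combination hcu - t * hsq

/-- **The traces add up to zero, their squares to `(q - 1) (q² - 1)`.** -/
theorem sum_trace (h5 : 5 ≤ q) :
    ∑ ab ∈ nonsingular q, (shortMod ab.1 ab.2).traceOfFrobenius = 0 ∧
      ∑ ab ∈ nonsingular q, (shortMod ab.1 ab.2).traceOfFrobenius ^ 2 =
        ((q : ℤ) - 1) * ((q : ℤ) ^ 2 - 1) := by
  have h3 : (3 : ZMod q) ≠ 0 := by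
    exact_mod_cast natCast_ne_zero_of_five h5 three_pos (by norm_num : 3 < 5)
  have hmem : ∀ {ab}, ab ∈ nonsingular q → 4 * ab.1 ^ 3 + 27 * ab.2 ^ 2 ≠ 0 := fun h =>
    (Finset.mem_filter.mp h).2
  have hsplit : ∀ f : ZMod q × ZMod q → ℤ,
      ∑ ab ∈ nonsingular q, f ab + ∑ t : ZMod q, f (-3 * t ^ 2, 2 * t ^ 3) = ∑ ab, f ab :=
    fun f => by
    rw [← Finset.sum_image (f := f) fun s _ t _ e => injective_singular h5 e,
      ← singular_eq_image h5, singular, nonsingular, Finset.sum_filter_not_add_sum_filter]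
  constructor
  · rw [Finset.sum_congr rfl fun ab hab => traceOfFrobenius_eq h5 (hmem hab),
      Finset.sum_neg_distrib, neg_eq_zero]
    have h := hsplit fun ab => charSum ab.1 ab.2
    have hz : ∑ t : ZMod q, quadraticChar (ZMod q) (3 * t) = 0 :=
      (Fintype.sum_equiv (Equiv.mulLeft₀ 3 h3) _ _ fun x => rfl).trans
        (quadraticChar_sum_zero (ringChar_ne_two h5))
    simp only [charSum_singular h5, Finset.sum_neg_distrib, hz, neg_zero, add_zero,
      sum_charSum h5] at h
    exact h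
  · rw [Finset.sum_congr rfl fun ab hab => by
      rw [traceOfFrobenius_eq h5 (hmem hab), neg_sq]]
    have h := hsplit fun ab => charSum ab.1 ab.2 ^ 2
    simp only [charSum_singular h5, neg_sq, sum_charSum_sq h5] at h
    have hone : ∑ t : ZMod q, quadraticChar (ZMod q) (3 * t) ^ 2 = (q : ℤ) - 1 := by
      rw [← Finset.add_sum_erase _ _ (Finset.mem_univ (0 : ZMod q)), mul_zero, quadraticChar_zero,
        sq, zero_mul, zero_add, Finset.sum_congr rfl fun t ht => by
          rw [← map_pow, quadraticChar_sq_one' (mul_ne_zero h3 (Finset.ne_of_mem_erase ht))],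
        Finset.sum_const, Finset.card_erase_of_mem (Finset.mem_univ _), Finset.card_univ, ZMod.card,
        nsmul_eq_mul, mul_one, Nat.cast_sub hq.out.one_le, Nat.cast_one]
    rw [hone] at h
    linear_combination h

theorem card_nonsingular (h5 : 5 ≤ q) :
    ((nonsingular q).card : ℤ) = (q : ℤ) ^ 2 - q := by
  have h := Finset.card_filter_add_card_filter_not (s := (Finset.univ : Finset (ZMod q × ZMod q)))
    fun ab => 4 * ab.1 ^ 3 + 27 * ab.2 ^ 2 = 0
  rw [show (Finset.univ : Finset (ZMod q × ZMod q)).filter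
      (fun ab => 4 * ab.1 ^ 3 + 27 * ab.2 ^ 2 = 0) = singular q from rfl, singular_eq_image h5,
    Finset.card_image_of_injective _ (injective_singular h5), Finset.card_univ, Finset.card_univ,
    Fintype.card_prod, ZMod.card] at h
  have h' : (q : ℤ) + ((nonsingular q).card : ℤ) = (q : ℤ) * q := by exact_mod_cast h
  linarith

/-- The classes with `a_q² > q / 2`. -/
def bigClasses (q : ℕ) : Finset (ZMod q × ZMod q) :=
  if h : q = 0 then ∅ else
    have : NeZero q := ⟨h⟩
    (nonsingular q).filter fun ab => (q : ℤ) < 2 * (shortMod ab.1 ab.2).traceOfFrobenius ^ 2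

/-- **A tenth of the classes have `a_q² > q / 2`.** -/
theorem card_bigClasses (h5 : 5 ≤ q) : (q : ℤ) ^ 2 ≤ 10 * (bigClasses q).card := by
  classical
  rw [bigClasses, dif_neg hq.out.ne_zero]
  set T := (nonsingular q).filter fun ab =>
    (q : ℤ) < 2 * (shortMod ab.1 ab.2).traceOfFrobenius ^ 2
  have hle : ∀ ab ∈ nonsingular q, 2 * (shortMod ab.1 ab.2).traceOfFrobenius ^ 2 ≤
      q + if ab ∈ T then (7 * q : ℤ) else 0 := fun ab hab => by
    split_ifs with hT
    · haveI : (shortMod ab.1 ab.2).IsElliptic :=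
        ⟨(shortMod_Δ_ne_zero h5 (Finset.mem_filter.mp hab).2).isUnit⟩
      have := FA.HasseBound.traceOfFrobenius_sq_le (shortMod ab.1 ab.2)
      linarith
    · rw [add_zero]
      exact not_lt.mp fun h => hT (Finset.mem_filter.mpr ⟨hab, h⟩)
  have h := Finset.sum_le_sum hle
  rw [← Finset.mul_sum, (sum_trace h5).2, Finset.sum_add_distrib, Finset.sum_const, nsmul_eq_mul,
    card_nonsingular h5, Finset.sum_ite_mem,
    Finset.inter_eq_right.mpr (Finset.filter_subset _ _), Finset.sum_const, nsmul_eq_mul] at h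
  have h5' : (5 : ℤ) ≤ q := by exact_mod_cast h5
  refine le_of_mul_le_mul_left ?_ (show (0 : ℤ) < 7 * q by linarith)
  nlinarith [mul_le_mul_of_nonneg_left h5' (sq_nonneg (q : ℤ))]

end prime

/-! ### The sieve -/

open FA.AlmostAll in
/-- At least `m` primes outside `F` with `a_q² > q / 2`. -/
def Many (F : Finset ℕ) (m : ℕ) (AB : ℤ × ℤ) : Prop :=
  ∃ T : Finset ℕ, T.card = m ∧ ∀ p ∈ T, p.Prime ∧ p ∉ F ∧ (shortInt AB).IsGoodPrimeFor p ∧
    (p : ℤ) < 2 * (shortInt AB).apOfModel p ^ 2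

open FA.AlmostAll in
/-- A class gives such a prime. -/
theorem of_mem_bigClasses {p : ℕ} (hp : p.Prime) (h5 : 5 ≤ p) {AB : ℤ × ℤ}
    (h : ((AB.1 : ZMod p), (AB.2 : ZMod p)) ∈ bigClasses p) :
    (shortInt AB).IsGoodPrimeFor p ∧ (p : ℤ) < 2 * (shortInt AB).apOfModel p ^ 2 := by
  haveI := Fact.mk hp
  rw [bigClasses, dif_neg hp.ne_zero, Finset.mem_filter] at h
  have hred : (shortInt AB).reductionMod p = shortMod (AB.1 : ZMod p) (AB.2 : ZMod p) := by
    ext <;> simp [reductionMod]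
  refine ⟨fun hd => shortMod_Δ_ne_zero h5 (Finset.mem_filter.mp h.1).2 ?_, ?_⟩
  · rw [← hred, reductionMod, map_Δ, eq_intCast]
    exact (ZMod.intCast_zmod_eq_zero_iff_dvd _ p).mpr hd
  · rw [apOfModel, hred]
    exact h.2

open FA.AlmostAll in
/-- **Almost every pair has `m` such primes outside any finite set.** -/
theorem tendsto_not_many (m : ℕ) : ∀ F : Finset ℕ, ∀ [DecidablePred fun AB => ¬ Many F m AB],
    Tendsto (fun XY : ℕ × ℕ => (((box XY.1 XY.2).filter fun AB => ¬ Many F m AB).card : ℝ) /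
      ((2 * XY.1 + 1) * (2 * XY.2 + 1))) atTop (𝓝 0) := by
  classical
  induction m with
  | zero =>
    intro F _
    refine tendsto_const_nhds.congr fun XY => ?_
    rw [Finset.filter_eq_empty_iff.mpr fun AB _ h => h ⟨∅, rfl, by simp⟩, Finset.card_empty,
      Nat.cast_zero, zero_div]
  | succ m ih =>
    intro F _
    rw [Metric.tendsto_atTop]
    intro ε hε
    have hdiv : ¬ Summable ({p : ℕ | (p.Prime ∧ 5 ≤ p) ∧ p ∉ F}.indicator
        fun _ => (1 / 10 : ℝ)) := fun h => by
      refine not_summable_five_le ((Summable.of_nonneg_of_le (fun n => ?_) (fun n => ?_)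
        (h.mul_left 10) : Summable ({p : ℕ | (p.Prime ∧ 5 ≤ p) ∧ p ∉ F}.indicator
          fun n : ℕ => (1 : ℝ) / n)).congr_atTop
            (eventually_atTop.mpr ⟨F.sup id + 1, fun n hn => ?_⟩))
      · exact Set.indicator_nonneg (fun i _ => by positivity) n
      · rw [Set.indicator_apply, Set.indicator_apply]
        split_ifs with hn
        · norm_num
          exact inv_le_one_of_one_le₀ (by exact_mod_cast hn.1.1.one_le)
        · simp
      · have hnF : n ∉ F := fun hmem => by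
          have := Finset.le_sup (f := id) hmem
          simp only [id_eq] at this
          omega
        simp only [Set.indicator_apply, Set.mem_ofPred_eq, hnF, not_false_eq_true, and_true]
    have hcard : ∀ p ∈ {p : ℕ | (p.Prime ∧ 5 ≤ p) ∧ p ∉ F},
        (1 / 10 : ℝ) * (p : ℝ) ^ 2 ≤ (bigClasses p).card := fun p hp => by
      haveI := Fact.mk hp.1.1
      have h := card_bigClasses (q := p) hp.1.2
      have h' : ((p : ℝ)) ^ 2 ≤ 10 * ((bigClasses p).card : ℝ) := by exact_mod_cast h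
      linarith
    obtain ⟨S, hS, havoid⟩ := exists_avoid_finset (m := fun p => p)
      (fun i hi j hj hij => (Nat.coprime_primes hi.1.1 hj.1.1).mpr hij)
      (fun p hp => hp.1.1.pos) (fun _ => by norm_num) hdiv bigClasses hcard
      (show 0 < ε / 2 by positivity)
    have h := ih (F ∪ S)
    rw [Metric.tendsto_atTop] at h
    obtain ⟨N, hN⟩ := h (ε / 2) (by positivity)
    refine ⟨N ⊔ (∏ p ∈ S, p, ∏ p ∈ S, p), fun XY hXY => ?_⟩
    have h1 := hN XY (le_sup_left.trans hXY)
    have h2 := havoid (fun AB => ∀ p ∈ S, ((AB.1 : ZMod p), (AB.2 : ZMod p)) ∉ bigClasses p)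
      (fun _ h => h) XY.1 XY.2 (le_sup_right.trans hXY).1 (le_sup_right.trans hXY).2
    rw [Real.dist_eq, sub_zero, abs_of_nonneg (by positivity)] at h1 ⊢
    set U := (box XY.1 XY.2).filter fun AB : ℤ × ℤ =>
      ∀ p ∈ S, ((AB.1 : ZMod p), (AB.2 : ZMod p)) ∉ bigClasses p with hU
    set V := (box XY.1 XY.2).filter fun AB => ¬ Many (F ∪ S) m AB with hV
    have hsub : (box XY.1 XY.2).filter (fun AB => ¬ Many F (m + 1) AB) ⊆ U ∪ V := fun AB hAB => by
      obtain ⟨hb, hno⟩ := Finset.mem_filter.mp hAB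
      rw [Finset.mem_union, hU, hV, Finset.mem_filter, Finset.mem_filter]
      by_cases hT : Many (F ∪ S) m AB
      swap
      · exact Or.inr ⟨hb, hT⟩
      refine Or.inl ⟨hb, fun p hp hmem => hno ?_⟩
      obtain ⟨T, hcard, hT⟩ := hT
      have hpT : p ∉ T := fun h => (hT p h).2.1 (Finset.mem_union_right _ hp)
      obtain ⟨hg, hbig⟩ := of_mem_bigClasses (hS p hp).1.1 (hS p hp).1.2 hmem
      refine ⟨insert p T, by rw [Finset.card_insert_of_notMem hpT, hcard], fun r hr => ?_⟩
      rcases Finset.mem_insert.mp hr with rfl | hr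
      · exact ⟨(hS r hp).1.1, (hS r hp).2, hg, hbig⟩
      · exact ⟨(hT r hr).1, fun hF => (hT r hr).2.1 (Finset.mem_union_left _ hF), (hT r hr).2.2⟩
    refine lt_of_le_of_lt (div_le_div_of_nonneg_right (Nat.cast_le.mpr
      ((Finset.card_le_card hsub).trans (Finset.card_union_le _ _))) (by positivity)) ?_
    rw [Nat.cast_add, add_div]
    linarith

end FA.BirchMoment

namespace FA.Summary

open FA.BirchMoment

/-- **Birch's second moment**: for a prime `q ≥ 5`, over the nonsingular `y² = x³ + a x + b` over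
`𝔽_q` the traces of Frobenius add up to `0` and their squares to `(q - 1) (q² - 1)`. -/
theorem birch_second_moment {q : ℕ} [Fact q.Prime] (h5 : 5 ≤ q) :
    ∑ ab ∈ Finset.univ.filter (fun ab : ZMod q × ZMod q => 4 * ab.1 ^ 3 + 27 * ab.2 ^ 2 ≠ 0),
        (⟨0, 0, 0, ab.1, ab.2⟩ : WeierstrassCurve (ZMod q)).traceOfFrobenius = 0 ∧
      ∑ ab ∈ Finset.univ.filter (fun ab : ZMod q × ZMod q => 4 * ab.1 ^ 3 + 27 * ab.2 ^ 2 ≠ 0),
        (⟨0, 0, 0, ab.1, ab.2⟩ : WeierstrassCurve (ZMod q)).traceOfFrobenius ^ 2 =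
          ((q : ℤ) - 1) * ((q : ℤ) ^ 2 - 1) :=
  sum_trace h5

/-- **Over every `𝔽_q`, `q ≥ 5`, some elliptic curve has `a_q² > q`.** -/
theorem exists_trace_sq_gt {q : ℕ} [hq : Fact q.Prime] (h5 : 5 ≤ q) :
    ∃ a b : ZMod q, 4 * a ^ 3 + 27 * b ^ 2 ≠ 0 ∧
      (q : ℤ) < (⟨0, 0, 0, a, b⟩ : WeierstrassCurve (ZMod q)).traceOfFrobenius ^ 2 := by
  by_contra hno
  push Not at hno
  have hle : ∀ ab ∈ nonsingular q, (shortMod ab.1 ab.2).traceOfFrobenius ^ 2 ≤ (q : ℤ) - 1 :=
    fun ab hab => by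
      have h : (shortMod ab.1 ab.2).traceOfFrobenius ^ 2 ≤ (q : ℤ) :=
        hno ab.1 ab.2 (Finset.mem_filter.mp hab).2
      have hne : (shortMod ab.1 ab.2).traceOfFrobenius ^ 2 ≠ (q : ℤ) := fun e => by
        refine hq.out.not_isSquare ⟨(shortMod ab.1 ab.2).traceOfFrobenius.natAbs, ?_⟩
        rw [← Int.natCast_inj, Nat.cast_mul, Int.natCast_natAbs, abs_mul_abs_self, ← e, sq]
      omega
  have h := Finset.sum_le_sum hle
  rw [(sum_trace h5).2, Finset.sum_const, nsmul_eq_mul, card_nonsingular h5] at h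
  have h5' : (5 : ℤ) ≤ q := by exact_mod_cast h5
  nlinarith

/-- **Almost all elliptic curves over `ℚ` have many large traces**: for every `m`, almost all have
`m` good primes `q` with `a_q² > q / 2`. -/
theorem almostAll_large_traces (m : ℕ) :
    Tendsto (fun XY : ℕ × ℕ => (Set.ncard {AB : ℤ × ℤ | |AB.1| ≤ XY.1 ∧ |AB.2| ≤ XY.2 ∧
        4 * AB.1 ^ 3 + 27 * AB.2 ^ 2 ≠ 0 ∧
        ¬ ∃ T : Finset ℕ, T.card = m ∧ ∀ q ∈ T, q.Prime ∧
          (⟨0, 0, 0, AB.1, AB.2⟩ : WeierstrassCurve ℤ).IsGoodPrimeFor q ∧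
          (q : ℤ) < 2 * (⟨0, 0, 0, AB.1, AB.2⟩ : WeierstrassCurve ℤ).apOfModel q ^ 2} : ℝ) /
      ((2 * XY.1 + 1) * (2 * XY.2 + 1))) atTop (𝓝 0) := by
  classical
  refine squeeze_zero (fun XY => by positivity) (fun XY => ?_) (tendsto_not_many m ∅)
  refine div_le_div_of_nonneg_right (Nat.cast_le.mpr ?_) (by positivity)
  rw [← Set.ncard_coe_finset]
  refine Set.ncard_le_ncard (fun AB hAB => ?_) (Finset.finite_toSet _)
  obtain ⟨hX, hY, -, hno⟩ := hAB
  rw [Finset.mem_coe, Finset.mem_filter]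
  exact ⟨Finset.mem_product.mpr ⟨Finset.mem_Icc.mpr (abs_le.mp hX),
    Finset.mem_Icc.mpr (abs_le.mp hY)⟩, fun ⟨T, hc, hT⟩ =>
    hno ⟨T, hc, fun q hq => ⟨(hT q hq).1, (hT q hq).2.2⟩⟩⟩

end FA.Summary

end
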