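import Fermat.Agent.BirchTwists.Main
import Fermat.Agent.CongruentNumber.Prime
import Mathlib.NumberTheory.LSeries.PrimesInAP

/-!
# The theorem of Birch and Swinnerton-Dyer on `y² = x³ - p² x`

For a prime `p ≡ 3 (mod 8)` the L-series of `y² = x³ - p² x`, continued, is not zero at `1`. By the
theorem of Coates and Wiles there are then finitely many rational points, so the order of vanishing
at `1` and the rank are both zero; there are infinitely many such curves, no two isomorphic.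

* `birch_swinnertonDyer_nonvanishing`: for every continuation holomorphic on `1 / 2 < re s`;
* `finite_points_of_coates_wiles`: finiteness by the theorem of Coates and Wiles;
* `rankEquality`: an entire continuation of order equal to the rank, both `0`;
* `infinitely_many`: infinitely many, pairwise non-isomorphic, curves.
-/

set_option autoImplicit false

noncomputable section

open WeierstrassCurve

namespace FA.Root.BirchTwistsSummary

/-- **Birch and Swinnerton-Dyer (1965)**: `L (E_p, 1) ≠ 0` for `p ≡ 3 (mod 8)`. -/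
theorem birch_swinnertonDyer_nonvanishing (p : ℕ) (hp : p.Prime) (h8 : p % 8 = 3) {g : ℂ → ℂ}
    (hg : DifferentiableOn ℂ g {s | 1 / 2 < s.re})
    (hgE : ∀ s : ℂ, 3 / 2 < s.re →
      g s = (⟨0, 0, 0, -(p : ℚ) ^ 2, 0⟩ : WeierstrassCurve ℚ).LSeries s) :
    g 1 ≠ 0 :=
  FA.BirchTwists.value_one_ne_zero' hp h8 hg hgE

/-- **Finitely many rational points**, by the theorem of Coates and Wiles. -/
theorem finite_points_of_coates_wiles (p : ℕ) (hp : p.Prime) (h8 : p % 8 = 3) :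
    Finite (⟨0, 0, 0, -(p : ℚ) ^ 2, 0⟩ : WeierstrassCurve ℚ).toAffine.Point :=
  FA.BirchTwists.finite_point hp h8

/-- **The order of vanishing at `1` equals the rank**, both being `0`. -/
theorem rankEquality (p : ℕ) (hp : p.Prime) (h8 : p % 8 = 3) :
    ∃ g : ℂ → ℂ, Differentiable ℂ g ∧
      (∀ s : ℂ, 3 / 2 < s.re →
        g s = (⟨0, 0, 0, -(p : ℚ) ^ 2, 0⟩ : WeierstrassCurve ℚ).LSeries s) ∧
      g 1 ≠ 0 ∧ analyticOrderAt g 1 = 0 ∧
      Module.finrank ℤ (⟨0, 0, 0, -(p : ℚ) ^ 2, 0⟩ : WeierstrassCurve ℚ).toAffine.Point = 0 ∧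
      analyticOrderAt g 1 =
        Module.finrank ℤ (⟨0, 0, 0, -(p : ℚ) ^ 2, 0⟩ : WeierstrassCurve ℚ).toAffine.Point := by
  obtain ⟨g, hg, hgE⟩ := FA.Summary.entire_continuation_congruentCurve (p : ℚ)
    (Nat.cast_ne_zero.2 hp.ne_zero)
  have hgE' : ∀ s : ℂ, 3 / 2 < s.re →
      g s = (⟨0, 0, 0, -(p : ℚ) ^ 2, 0⟩ : WeierstrassCurve ℚ).LSeries s :=
    fun s hs => (hgE s hs).symm
  have h1 := birch_swinnertonDyer_nonvanishing p hp h8 hg.differentiableOn hgE'
  have ho : analyticOrderAt g 1 = 0 := (hg.analyticAt 1).analyticOrderAt_eq_zero.mpr h1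
  have hr : Module.finrank ℤ
      (⟨0, 0, 0, -(p : ℚ) ^ 2, 0⟩ : WeierstrassCurve ℚ).toAffine.Point = 0 := by
    have := finite_points_of_coates_wiles p hp h8
    exact Module.finrank_eq_zero_iff.mpr fun x => ⟨(addOrderOf x : ℤ),
      by exact_mod_cast (addOrderOf_pos x).ne', by rw [natCast_zsmul, addOrderOf_nsmul_eq_zero]⟩
  exact ⟨g, hg, hgE', h1, ho, hr, by rw [ho, hr, Nat.cast_zero]⟩

/-- The four rational points. -/
theorem natCard_points (p : ℕ) (hp : p.Prime) (h8 : p % 8 = 3) :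
    Nat.card (⟨0, 0, 0, -(p : ℚ) ^ 2, 0⟩ : WeierstrassCurve ℚ).toAffine.Point = 4 := by
  obtain ⟨e⟩ := FA.Summary.point_group_prime_three_mod_eight p hp h8
  rw [Nat.card_congr e.toEquiv, Nat.card_prod, Nat.card_zmod]

/-- **Infinitely many curves**: there are infinitely many `p` with a value other than `0` at `1`,
and no two of their curves are isomorphic over `ℚ`. -/
theorem infinitely_many :
    ∃ S : Set ℕ, S.Infinite ∧
      (∀ p ∈ S, ∃ g : ℂ → ℂ, Differentiable ℂ g ∧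
        (∀ s : ℂ, 3 / 2 < s.re →
          g s = (⟨0, 0, 0, -(p : ℚ) ^ 2, 0⟩ : WeierstrassCurve ℚ).LSeries s) ∧ g 1 ≠ 0 ∧
        Finite (⟨0, 0, 0, -(p : ℚ) ^ 2, 0⟩ : WeierstrassCurve ℚ).toAffine.Point) ∧
      ∀ p ∈ S, ∀ q ∈ S, ∀ C : VariableChange ℚ,
        C • (⟨0, 0, 0, -(p : ℚ) ^ 2, 0⟩ : WeierstrassCurve ℚ) = ⟨0, 0, 0, -(q : ℚ) ^ 2, 0⟩ →
          p = q := by
  refine ⟨{p | p.Prime ∧ p % 8 = 3}, Set.infinite_of_forall_exists_gt fun B => ?_,
    fun p hp => ?_, fun p hp q hq C h => FA.BirchTwists.eq_of_variableChange hp.1 hq.1 h⟩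
  · obtain ⟨p, hB, hp, he⟩ := Nat.forall_exists_prime_gt_and_eq_mod (q := 8) (a := 3)
      (by decide) B
    exact ⟨p, ⟨hp, (ZMod.natCast_eq_natCast_iff' p 3 8).1 (by exact_mod_cast he)⟩, hB⟩
  · obtain ⟨g, hg, hgE, h1, -⟩ := rankEquality p hp.1 hp.2
    exact ⟨g, hg, hgE, h1, finite_points_of_coates_wiles p hp.1 hp.2⟩

/-- The case `p = 3`: `y² = x³ - 9 x`. -/
theorem nine_example : ∃ g : ℂ → ℂ, Differentiable ℂ g ∧
    (∀ s : ℂ, 3 / 2 < s.re → g s = (⟨0, 0, 0, -9, 0⟩ : WeierstrassCurve ℚ).LSeries s) ∧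
      g 1 ≠ 0 := by
  obtain ⟨g, hg, hgE, h1, -⟩ := rankEquality 3 Nat.prime_three rfl
  refine ⟨g, hg, fun s hs => ?_, h1⟩
  rw [hgE s hs]
  norm_num

end FA.Root.BirchTwistsSummary

end
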