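import Fermat.Agent.CoatesWiles.LSum
import Fermat.Agent.CoatesWiles.Main

/-!
# Toward the theorem of Coates and Wiles

A curve `y² = x³ + A x + B` over `𝓞 K` whose period lattice is `Ω 𝓞 K`, `K` imaginary quadratic, so
with multiplication by all of `𝓞 K`.

* `frobenius_is_multiplication`: at a split place `v` of prime norm `p`, prime to six and to the
  discriminant, the element `π` generating `v` with `π π̄ = p` and `π + π̄ = a_v` is Frobenius: every
  Frobenius element at `v` acts as `π` on the torsion of order prime to `v`. Over every place of the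
  algebraic closure above `v` the `π`-power torsion is in the kernel of reduction and the
  `π̄`-power torsion meets it only in zero.
* `l_value_one`: Deuring's character `ψ`, taken modulo a suitable `M`, gives a Dirichlet series
  `∑ conj ψ (I) N I ^ (-s)` with an entire continuation whose value at `1` is `Ω` times an element
  of `K` (Damerell's theorem at the edge weight one, as an exact statement of field of definition).
* `division_tower`: at such a place with `π̄² - 1` prime to it, the field of the parameter `z` of the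
  `π ^ n`-torsion is totally ramified of degree `p ^ (n - 1) (p - 1)` with uniformiser `z`, and a
  homomorphism on its multiplicative group that is killed by `p`, continuous and equivariant for
  the action on the torsion vanishes as soon as it kills one unit `u` with `|u - 1| = |z|`.
* `coates_wiles`: if the curve has a point of infinite order over `K`, the L-series of the conjugate
  of `ψ` vanishes at `1` (Coates and Wiles): the elliptic units would otherwise split the extension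
  by a division point of the point at a suitable place.
-/

set_option autoImplicit false
set_option linter.style.haveILetI false

noncomputable section

open WeierstrassCurve NumberField IsDedekindDomain FA.IsogenyNF
open FA.TraceNF (frobTrace)
open FA.DeuringCM (IQF)
open FA.Hecke (coprimeIdeals)
open scoped WeierstrassCurve.Affine nonZeroDivisors Classical ComplexConjugate

namespace FA.Root.CoatesWilesSummary

/-- **Frobenius is multiplication by `π`.** -/
theorem frobenius_is_multiplication {K : Type} [Field K] [NumberField K]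
    (D : FA.CoatesWiles.CMDat K) (Q : IQF K) {v : HeightOneSpectrum (𝓞 K)}
    (hp : (Ideal.absNorm v.asIdeal).Prime) (hΔ : D.W₀.Δ ∉ v.asIdeal)
    (h6 : (6 : 𝓞 K) ∉ v.asIdeal) (hsplit : ∃ x ∈ v.asIdeal, Q.conj x ∉ v.asIdeal) :
    ∃ π : 𝓞 K, v.asIdeal = Ideal.span {π} ∧
      π * Q.conj π = Ideal.absNorm v.asIdeal ∧ Q.tr π = frobTrace D.W₀ v ∧
      (∀ (σ : AlgebraicClosure K ≃ₐ[K] AlgebraicClosure K) (N : ℕ) (F : FrobPlace D.W σ N),
        F.l ^ F.n = Ideal.absNorm v.asIdeal →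
        (∀ x : 𝓞 K, x ∈ v.asIdeal →
          F.A.valuation (algebraMap K (AlgebraicClosure K) x) < 1) →
        ∀ S : D.Pt, N • S = 0 → σ • S = D.mulPt π S) ∧
      ∀ P : FA.CoatesWiles.CMPlace D, P.v = v → ∀ (n : ℕ) (S : D.Pt),
        (D.mulPt (π ^ n) S = 0 → P.red S = 0) ∧
        (D.mulPt (Q.conj π ^ n) S = 0 → P.red S = 0 → S = 0) := by
  obtain ⟨π, h⟩ := FA.CoatesWiles.exists_isFrobElt D Q hp hΔ h6 hsplit
  exact ⟨π, h.span_eq, h.mul_conj, h.tr_eq,
    fun _ _ F hq hK _ hS => h.smul_eq_of_frobPlace F hq hK hS,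
    fun P hP _ _ => ⟨h.red_eq_zero_of_pow P hP, h.eq_zero_of_conj_pow P hP⟩⟩

/-- **The value at `1` is the period times an element of `K`.** -/
theorem l_value_one {K : Type} [Field K] [NumberField K]
    (D : FA.CoatesWiles.CMDat K) (Q : IQF K) :
    ∃ (M : ℕ) (ψ : Ideal (𝓞 K) →* ℂ) (Lc : ℂ → ℂ) (A : K), M ≠ 0 ∧
      FA.AlgHecke.IsAlgChar (Ideal.span {(M : 𝓞 K)})
        (fun σ : K →+* ℂ => if σ Q.s = D.emb Q.s then (1 : ℤ) else 0) ψ ∧
      (∀ (v : HeightOneSpectrum (𝓞 K)) (π : 𝓞 K), FA.CoatesWiles.IsFrobElt D Q v π →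
        (M : 𝓞 K) ∉ v.asIdeal → ψ v.asIdeal = D.emb (π : K)) ∧
      Differentiable ℂ Lc ∧
      (∀ s : ℂ, 3 / 2 < s.re → Lc s = ∑' I : coprimeIdeals (Ideal.span {(M : 𝓞 K)}),
        conj (ψ I.1.1) * ((Ideal.absNorm I.1.1 : ℕ) : ℂ) ^ (-s)) ∧
      Lc 1 = D.Ω * D.emb A := by
  obtain ⟨G⟩ := FA.CoatesWiles.exists_grossen D Q
  obtain ⟨Lc, hd, hs⟩ := G.exists_continuation
  have hN : G.M + 1 ≠ 0 := Nat.succ_ne_zero _
  obtain ⟨A, hA⟩ := G.algValue_mem hN
  have h := G.value_at_one hN (dvd_refl G.M) hd.differentiableOn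
    fun s hs' => hs s (by linarith)
  rw [← hA] at h
  refine ⟨G.M, G.ψ, Lc,
    A / ((G.M : K) * (2 * (((G.M + 1 : ℕ) : K) - ((G.M + 1 : ℕ) : K) ^ 2))),
    G.M_ne, G.algChar, G.frob, hd, hs, ?_⟩
  have hM : (G.M : ℂ) ≠ 0 := Nat.cast_ne_zero.2 G.M_ne
  have hd0 : (2 : ℂ) * (((G.M + 1 : ℕ) : ℂ) - ((G.M + 1 : ℕ) : ℂ) ^ 2) ≠ 0 := by
    push_cast
    rw [show (2 : ℂ) * (((G.M : ℂ) + 1) - ((G.M : ℂ) + 1) ^ 2) =
      -2 * (G.M : ℂ) * ((G.M : ℂ) + 1) by ring]
    exact mul_ne_zero (mul_ne_zero (by norm_num) hM) (by exact_mod_cast Nat.succ_ne_zero G.M)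
  refine mul_left_cancel₀ hd0 (h.trans ?_)
  simp only [map_div₀, map_mul, map_sub, map_pow, map_natCast, map_ofNat]
  show D.Ω / (G.M : ℂ) * D.emb A = _
  field_simp
  rw [mul_div_cancel_right₀]
  push_cast
  simpa using hM

/-- **The tower of `π`-power torsion and its equivariant homomorphisms.** -/
theorem division_tower {K : Type} [Field K] [NumberField K]
    {D : FA.CoatesWiles.CMDat K} {Q : IQF K} (X : FA.CoatesWiles.SplitPlace D Q) {n : ℕ}
    (hn : n ≠ 0) :
    Module.finrank K (X.fld n) = X.p ^ (n - 1) * (X.p - 1) ∧ IsGalois K (X.fld n) ∧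
      X.P.R.valuation (X.z n) ^ (X.p ^ (n - 1) * (X.p - 1)) =
        X.P.R.valuation (algebraMap K (AlgebraicClosure K) (X.π : K)) ∧
      ∀ {V : Type} [AddCommGroup V] (φ : AlgebraicClosure K → V),
        (∀ x ∈ X.fld n, ∀ y ∈ X.fld n, x ≠ 0 → y ≠ 0 → φ (x * y) = φ x + φ y) →
        (∀ x ∈ X.fld n, x ≠ 0 → X.p • φ x = 0) →
        (∃ B : ℕ, ∀ x ∈ X.fld n,
          X.P.R.valuation (x - 1) ≤ X.P.R.valuation (X.z n) ^ B → φ x = 0) →
        (∀ (σ : AlgebraicClosure K ≃ₐ[K] AlgebraicClosure K) (j : ℕ),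
          σ • X.pt n = j • X.pt n → ∀ x ∈ X.fld n, x ≠ 0 → φ (σ x) = j • φ x) →
        ∀ u ∈ X.fld n, X.P.R.valuation (u - 1) = X.P.R.valuation (X.z n) → φ u = 0 →
          ∀ x ∈ X.fld n, x ≠ 0 → φ x = 0 := by
  refine ⟨X.finrank_fld hn, X.isGalois_fld n, X.ρ_pow_e hn, fun φ hm hk hc he u hu hu1 hφu => ?_⟩
  obtain ⟨B, hB⟩ := hc
  have hφ : X.EquivHom n φ := ⟨hm, ⟨B, fun x hx => hB x hx.1 hx.2⟩, he, hk⟩
  exact fun x hx hx0 => hφ.eq_zero hn ⟨hu, by rw [pow_one, hu1]⟩ (by rw [hu1]; exact lt_irrefl _)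
    hφu hx hx0

/-- **The theorem of Coates and Wiles**: a point of infinite order over the field of multiplication
forces the vanishing of the L-series at `1`. -/
theorem coates_wiles {K : Type} [Field K] [NumberField K]
    (D : FA.CoatesWiles.CMDat K) (Q : IQF K) (P : D.W.toAffine.Point)
    (hP : ∀ m : ℕ, m ≠ 0 → m • P ≠ 0) :
    ∃ (M : ℕ) (ψ : Ideal (𝓞 K) →* ℂ) (Lc : ℂ → ℂ), M ≠ 0 ∧
      FA.AlgHecke.IsAlgChar (Ideal.span {(M : 𝓞 K)})
        (fun σ : K →+* ℂ => if σ Q.s = D.emb Q.s then (1 : ℤ) else 0) ψ ∧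
      (∀ (v : HeightOneSpectrum (𝓞 K)) (π : 𝓞 K), FA.CoatesWiles.IsFrobElt D Q v π →
        (M : 𝓞 K) ∉ v.asIdeal → ψ v.asIdeal = D.emb (π : K)) ∧
      Differentiable ℂ Lc ∧
      (∀ s : ℂ, 3 / 2 < s.re → Lc s = ∑' I : coprimeIdeals (Ideal.span {(M : 𝓞 K)}),
        conj (ψ I.1.1) * ((Ideal.absNorm I.1.1 : ℕ) : ℂ) ^ (-s)) ∧
      Lc 1 = 0 := by
  obtain ⟨G⟩ := FA.CoatesWiles.exists_grossen D Q
  obtain ⟨Lc, hd, hs⟩ := G.exists_continuation
  set up := FA.Frob.mapHom (algebraMap K (AlgebraicClosure K))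
    (W := D.W.toAffine) (W' := (D.W.baseChange (AlgebraicClosure K)).toAffine) rfl
  refine ⟨G.M, G.ψ, Lc, G.M_ne, G.algChar, G.frob, hd, hs,
    FA.CoatesWiles.lValue_eq_zero G (S₀ := up P) (fun σ => ?_) (fun m hm h => hP m hm ?_)
      hd.differentiableOn fun s hs' => hs s (by linarith)⟩
  · rcases P with _ | ⟨x, y, h⟩
    · exact smul_zero (A := D.Pt) σ
    · show σ • (Affine.Point.some (algebraMap K (AlgebraicClosure K) x)
        (algebraMap K (AlgebraicClosure K) y) _ : D.Pt) = Affine.Point.some _ _ _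
      simp only [Affine.Point.algEquiv_smul_def, Affine.Point.map_some, Affine.Point.some.injEq]
      exact ⟨σ.commutes x, σ.commutes y⟩
  · refine FA.Frob.mapHom_injective (algebraMap K (AlgebraicClosure K)) (W := D.W.toAffine)
      (W' := (D.W.baseChange (AlgebraicClosure K)).toAffine) rfl ?_
    rw [map_nsmul, map_zero]
    exact h

end FA.Root.CoatesWilesSummary

end
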