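import Fermat.Agent.CoatesWiles.RationalMain
import Fermat.Agent.Root.SummaryCoatesWiles
import Fermat.Agent.Root.SummaryModularCM
import Fermat.Agent.Root.SummaryCentralValue

/-!
# The theorem of Coates and Wiles over `ℚ`

An elliptic curve over `ℚ` with multiplication by the maximal order of an imaginary quadratic field,
equivalently with one of the nine invariants below, has finitely many rational points when its
L-series, continued, does not vanish at `1`.

* `coates_wiles_rational`: for every continuation holomorphic on `1 / 2 < re s`, in particular for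
  the entire one, which exists for all these curves (`coates_wiles_rational_continuation`);
* `setting_nonempty`: the setting of `FA.Root.CoatesWilesSummary` occurs, for `y² = x³ - x` over
  `ℚ(i)`;
* `coates_wiles_gaussian`: and the theorem applies to `y² = x³ - x`, whose value at `1` is not `0`.
-/

set_option autoImplicit false
set_option linter.style.haveILetI false

noncomputable section

open WeierstrassCurve NumberField
open FA.DeuringCM (IQF)
open scoped WeierstrassCurve.Affine Classical

namespace FA.Root.CoatesWilesSummary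

/-- The invariants of the nine maximal orders of class number one. -/
theorem exists_isMaximalInvariant {j : ℚ} (hj : j ∈ ({1728, 8000, 0, -3375, -32768, -884736,
    -884736000, -147197952000, -262537412640768000} : Finset ℚ)) :
    ∃ d v : ℤ, FA.CoatesWiles.IsMaximalInvariant d v ∧ j = v := by
  simp only [Finset.mem_insert, Finset.mem_singleton] at hj
  unfold FA.CoatesWiles.IsMaximalInvariant
  rcases hj with rfl | rfl | rfl | rfl | rfl | rfl | rfl | rfl | rfl
  exacts [⟨-1, 1728, by norm_num, by norm_num⟩, ⟨-2, 8000, by norm_num, by norm_num⟩,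
    ⟨-3, 0, by norm_num, by norm_num⟩, ⟨-7, -3375, by norm_num, by norm_num⟩,
    ⟨-11, -32768, by norm_num, by norm_num⟩, ⟨-19, -884736, by norm_num, by norm_num⟩,
    ⟨-43, -884736000, by norm_num, by norm_num⟩, ⟨-67, -147197952000, by norm_num, by norm_num⟩,
    ⟨-163, -262537412640768000, by norm_num, by norm_num⟩]

/-- The entire continuation of the L-series of these curves. -/
theorem exists_entire_continuation (E : WeierstrassCurve ℚ) [E.IsElliptic]
    (hj : E.j ∈ ({1728, 8000, 0, -3375, -32768, -884736, -884736000, -147197952000,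
      -262537412640768000} : Finset ℚ)) :
    ∃ g : ℂ → ℂ, Differentiable ℂ g ∧ ∀ s : ℂ, 3 / 2 < s.re → g s = E.LSeries s := by
  obtain ⟨-, g, hg, hgs⟩ := FA.Summary.modularity_cm E (by
    simp only [Finset.mem_insert, Finset.mem_singleton] at hj ⊢
    tauto)
  exact ⟨g, hg, fun s hs => (hgs s hs).2.symm⟩

/-- **The theorem of Coates and Wiles over `ℚ`.** -/
theorem coates_wiles_rational (E : WeierstrassCurve ℚ) [E.IsElliptic]
    (hj : E.j ∈ ({1728, 8000, 0, -3375, -32768, -884736, -884736000, -147197952000,
      -262537412640768000} : Finset ℚ))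
    {g : ℂ → ℂ} (hg : DifferentiableOn ℂ g {s | 1 / 2 < s.re})
    (hgE : ∀ s : ℂ, 3 / 2 < s.re → g s = E.LSeries s) (h1 : g 1 ≠ 0) :
    Finite E.toAffine.Point := by
  obtain ⟨d, v, h, hv⟩ := exists_isMaximalInvariant hj
  obtain ⟨g₀, hg₀, hg₀E⟩ := exists_entire_continuation E hj
  exact FA.CoatesWiles.finite_point_of_ne_zero_halfPlane E h hv hg₀ hg₀E hg hgE h1

/-- The continuation exists, and a value other than `0` at `1` forces finitely many points. -/
theorem coates_wiles_rational_continuation (E : WeierstrassCurve ℚ) [E.IsElliptic]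
    (hj : E.j ∈ ({1728, 8000, 0, -3375, -32768, -884736, -884736000, -147197952000,
      -262537412640768000} : Finset ℚ)) :
    ∃ g : ℂ → ℂ, Differentiable ℂ g ∧ (∀ s : ℂ, 3 / 2 < s.re → g s = E.LSeries s) ∧
      (Infinite E.toAffine.Point → g 1 = 0) := by
  obtain ⟨g, hg, hgE⟩ := exists_entire_continuation E hj
  refine ⟨g, hg, hgE, fun hinf => ?_⟩
  by_contra h1
  exact hinf.not_finite (coates_wiles_rational E hj hg.differentiableOn hgE h1)

/-- **The setting is not empty.** -/
theorem setting_nonempty : ∃ (K : Type) (_ : Field K) (_ : NumberField K)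
    (D : FA.CoatesWiles.CMDat K) (_ : IQF K), D.W₀ = ⟨0, 0, 0, -1, 0⟩ := by
  obtain ⟨L, Ω, hW, hlat⟩ := FA.CoatesWiles.exists_lattice (d := -1) (v := 1728) (a := -1) (b := 0)
    (by unfold FA.CoatesWiles.IsMaximalInvariant; norm_num)
    (by norm_num [FA.CoatesWiles.shortInt, WeierstrassCurve.Δ, b₂, b₄, b₆, b₈]) (by norm_num)
  obtain ⟨K, i1, i2, -, D, Q, -, -, hD, -⟩ :=
    FA.CoatesWiles.exists_compare (isUnit_one.neg).squarefree (by norm_num : (-1 : ℤ) < 0) hW hlat
  exact ⟨K, i1, i2, D, Q, by rw [hD, FA.CoatesWiles.shortInt_map]; simp⟩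

/-- **The curve `y² = x³ - x`.** -/
theorem coates_wiles_gaussian : Finite (⟨0, 0, 0, -1, 0⟩ : WeierstrassCurve ℚ).toAffine.Point := by
  haveI : (⟨0, 0, 0, -1, 0⟩ : WeierstrassCurve ℚ).IsElliptic :=
    ⟨isUnit_iff_ne_zero.mpr (by norm_num [Δ, b₂, b₄, b₆, b₈])⟩
  obtain ⟨g, hg, hgs, -, h1⟩ := FA.Summary.centralValue_32a
  refine coates_wiles_rational _ ?_ hg.differentiableOn hgs h1
  simp only [Finset.mem_insert, Finset.mem_singleton]
  left
  norm_num [WeierstrassCurve.j, Δ, c₄, b₂, b₄, b₆, b₈]

end FA.Root.CoatesWilesSummary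

end
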