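import Fermat.Agent.BirchTwists.PartTwo
import Fermat.Agent.Root.SummaryBirchTwists
import Fermat.Agent.Root.SummaryCoatesWilesRational
import Fermat.Agent.Monsky.Descent
import Fermat.Agent.Monsky.SelmerRanks
import Fermat.Agent.Transcendence.SchneiderJ

/-!
# Birch's rationality and the two-part of `L (E, 1)` for congruent number curves

`E_n : y² = x³ - n² x` and `ω_n = Γ(1/4)² / (2 √(2 π |n|))`, its least positive real period.

* `centralValue_rational`: `L (E_n, 1)` is `ω_n` times a rational number, for every `n ≠ 0`;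
* `centralValue_zero_or_transcendental`: hence `0` or transcendental;
* `congruent_centralValue_eq_zero`: it is `0` for congruent `n` (Coates and Wiles);
* `two_part`: for a prime `p ≡ 3 (mod 8)` the rational has odd numerator and denominator, there are
  four points and `ShaTwo` is zero.

`Ш` and Tamagawa numbers are not defined in this development. With the two real components, the
Tamagawa numbers `c_2 = 2` and `c_p = 4` and four torsion points the formula of Birch and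
Swinnerton-Dyer reads `L (E_p, 1) = #Ш · ω_p`, so `two_part` is, in these terms only, its two-part.
-/

set_option autoImplicit false

noncomputable section

open WeierstrassCurve
open FA.Monsky
open scoped Real

namespace FA.Root.BirchTwistsSummary

/-- **Birch's rationality for every congruent number curve.** -/
theorem centralValue_rational (n : ℚ) (hn : n ≠ 0) {G : ℂ → ℂ}
    (hG : DifferentiableOn ℂ G {s | 1 / 2 < s.re})
    (hGs : ∀ s : ℂ, 3 / 2 < s.re →
      G s = (⟨0, 0, 0, -n ^ 2, 0⟩ : WeierstrassCurve ℚ).LSeries s) :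
    ∃ r : ℚ, G 1 =
      r * ((Real.Gamma (1 / 4) ^ 2 / (2 * √(2 * π * |(n : ℝ)|)) : ℝ) : ℂ) := by
  obtain ⟨g, hg, hgs⟩ := FA.Summary.entire_continuation_congruentCurve n hn
  obtain ⟨r, hr⟩ := FA.BirchTwists.centralValue_rat hn hg fun s hs => (hgs s (by linarith)).symm
  refine ⟨r, ?_⟩
  have hev : G =ᶠ[nhds (2 : ℂ)] g := Filter.eventuallyEq_of_mem
    ((isOpen_lt continuous_const Complex.continuous_re).mem_nhds (by norm_num :
      (3 / 2 : ℝ) < (2 : ℂ).re)) fun s hs => (hGs s hs).trans (hgs s hs)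
  have e : G 1 = g 1 := (hG.analyticOnNhd (isOpen_lt continuous_const Complex.continuous_re)
    ).eqOn_of_preconnected_of_eventuallyEq (fun z _ => hg.analyticAt z)
    (convex_halfSpace_re_gt _).isPreconnected
    (show (2 : ℂ) ∈ {s : ℂ | (1 / 2 : ℝ) < s.re} by norm_num) hev
    (show (1 : ℂ) ∈ {s : ℂ | (1 / 2 : ℝ) < s.re} by norm_num)
  rw [e, hr]
  rfl

/-- **`L (E_n, 1)` is `0` or transcendental.** -/
theorem centralValue_zero_or_transcendental (n : ℚ) (hn : n ≠ 0) {G : ℂ → ℂ}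
    (hG : DifferentiableOn ℂ G {s | 1 / 2 < s.re})
    (hGs : ∀ s : ℂ, 3 / 2 < s.re →
      G s = (⟨0, 0, 0, -n ^ 2, 0⟩ : WeierstrassCurve ℚ).LSeries s) :
    G 1 = 0 ∨ Transcendental ℚ (G 1) := by
  obtain ⟨r, hr⟩ := centralValue_rational n hn hG hGs
  rcases eq_or_ne r 0 with rfl | hr0
  · exact Or.inl (by simpa using hr)
  right
  have hnR : 0 < |(n : ℝ)| := abs_pos.2 (Rat.cast_ne_zero.2 hn)
  have hn4 : ((4 * |(n : ℝ)| ^ 2 : ℝ) : ℂ) = 4 * (n : ℂ) ^ 2 := by
    rw [sq_abs]; push_cast; rfl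
  obtain ⟨L, h2, h3⟩ := FA.JInj.exists_g₂_g₃ (a := 4 * (n : ℂ) ^ 2) (b := 0) (by simpa using hn)
  obtain ⟨ω, hω, hper, hval⟩ := FA.Summary.congruentCurve_realPeriod L hnR (by rw [h2, hn4]) h3
  have hA : IsAlgebraic ℚ L.g₂ := by
    rw [h2, show 4 * (n : ℂ) ^ 2 = algebraMap ℚ ℂ (4 * n ^ 2) by simp]
    exact isAlgebraic_algebraMap _
  have htr := FA.SchneiderLang.transcendental_period hA
    (by rw [h3]; exact isAlgebraic_zero) ((hper ω).2 ⟨1, by simp⟩)
    (Complex.ofReal_ne_zero.2 hω.ne')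
  intro hal
  refine htr ?_
  rw [hval, show ((Real.Gamma (1 / 4) ^ 2 / (2 * √(2 * π * |(n : ℝ)|)) : ℝ) : ℂ) =
    algebraMap ℚ ℂ r⁻¹ * G 1 by
      rw [hr, eq_ratCast, Rat.cast_inv, inv_mul_cancel_left₀ (Rat.cast_ne_zero.2 hr0)]]
  exact (isAlgebraic_algebraMap _).mul hal

/-- **A congruent number has `L (E_n, 1) = 0`.** -/
theorem congruent_centralValue_eq_zero (n : ℕ) (hn : n ≠ 0)
    (h : ∃ a b c : ℚ, 0 < a ∧ 0 < b ∧ 0 < c ∧ a ^ 2 + b ^ 2 = c ^ 2 ∧ a * b / 2 = n) {G : ℂ → ℂ}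
    (hG : DifferentiableOn ℂ G {s | 1 / 2 < s.re})
    (hGs : ∀ s : ℂ, 3 / 2 < s.re →
      G s = (⟨0, 0, 0, -(n : ℚ) ^ 2, 0⟩ : WeierstrassCurve ℚ).LSeries s) :
    G 1 = 0 := by
  have hq : (n : ℚ) ≠ 0 := Nat.cast_ne_zero.2 hn
  have := FA.BirchTwists.isElliptic_congruentCurve hq
  by_contra h1
  refine ((FA.Summary.congruentNumber_iff_infinite n hn).1 h).not_finite ?_
  exact FA.Root.CoatesWilesSummary.coates_wiles_rational (FA.CM.congruentCurve (n : ℚ))
    (by rw [FA.BirchTwists.j_congruentCurve hq]; simp) hG hGs h1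

/-- **`ShaTwo` is zero** for `p ≡ 3 (mod 8)`. -/
theorem shaTwo_eq_zero (p : ℕ) [NeZero p] (h8 : p % 8 = 3)
    (hP : OddPrimes fun _ : Fin 1 => p) : Module.finrank (ZMod 2) (ShaTwo hP) = 0 := by
  have := Fact.mk (hP.prime 0)
  obtain ⟨m0, d0⟩ := (syms_of_mod_eight hP 0).2.1 h8
  have h := finrank_add_shaTwo hP
  rw [finrank_ker_of_entry (fun i j h => absurd (Subsingleton.elim i j) h), Fin.sum_univ_one,
    if_neg (by rw [d0]; decide), if_neg (by rw [m0]; decide)] at h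
  omega

/-- **The two-part for `p ≡ 3 (mod 8)`.** -/
theorem two_part (p : ℕ) (hp : p.Prime) (h8 : p % 8 = 3) :
    ∃ (g : ℂ → ℂ) (r : ℚ), Differentiable ℂ g ∧
      (∀ s : ℂ, 3 / 2 < s.re →
        g s = (⟨0, 0, 0, -(p : ℚ) ^ 2, 0⟩ : WeierstrassCurve ℚ).LSeries s) ∧
      g 1 = r * ((Real.Gamma (1 / 4) ^ 2 / (2 * √(2 * π * p)) : ℝ) : ℂ) ∧
      Odd r.num ∧ Odd r.den ∧ padicValRat 2 r = 0 ∧
      Nat.card (⟨0, 0, 0, -(p : ℚ) ^ 2, 0⟩ : WeierstrassCurve ℚ).toAffine.Point = 4 ∧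
      ∀ (_ : NeZero p) (hP : OddPrimes fun _ : Fin 1 => p),
        Module.finrank (ZMod 2) (ShaTwo hP) = 0 := by
  obtain ⟨g, hg, hgs⟩ := FA.Summary.entire_continuation_congruentCurve (p : ℚ)
    (Nat.cast_ne_zero.2 hp.ne_zero)
  have hgs' : ∀ s : ℂ, 3 / 2 < s.re →
      g s = (⟨0, 0, 0, -(p : ℚ) ^ 2, 0⟩ : WeierstrassCurve ℚ).LSeries s :=
    fun s hs => (hgs s hs).symm
  obtain ⟨r, hr, hodd⟩ := FA.BirchTwists.exists_odd_centralValue hp h8 hg hgs'
  refine ⟨g, r, hg, hgs', ?_, hodd.1, hodd.2, FA.BirchTwists.padicValRat_two_eq_zero hodd,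
    natCard_points p hp h8, fun _ hP => shaTwo_eq_zero p h8 hP⟩
  rw [hr, FA.BirchTwists.period, Rat.cast_natCast, Nat.abs_cast]

end FA.Root.BirchTwistsSummary

end
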