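import Fermat.Agent.BirkhoffFactorisation.Main

/-!
# The theorem of Birkhoff and Grothendieck
-/

set_option autoImplicit false

open Polynomial LaurentPolynomial Matrix
open scoped LaurentPolynomial

namespace FA.BirkhoffFactorisation.Summary

open Fermat.Agent.BirkhoffFactorisation

variable {k : Type*} [Field k] {n : ℕ}

/-- `toInvLaurent p = p(t⁻¹)`. -/
theorem toInvLaurent_spec (p : k[X]) :
    toInvLaurent p = Polynomial.aeval (T (-1) : k[T;T⁻¹]) p := by
  induction p using Polynomial.induction_on' with
  | add p q hp hq => simp only [map_add, hp, hq]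
  | monomial i c =>
    rw [← C_mul_X_pow_eq_monomial]
    simp [toInvLaurent, T_pow, LaurentPolynomial.algebraMap_apply]

/-- **Birkhoff factorisation**: an invertible matrix of Laurent polynomials is
`P · diag(t ^ dᵢ) · Q(t⁻¹)` with `P` and `Q` invertible over `k[t]`. -/
theorem birkhoff_grothendieck_exists (A : Matrix (Fin n) (Fin n) k[T;T⁻¹]) (hA : IsUnit A.det) :
    ∃ (d : Fin n → ℤ) (P Q : GL (Fin n) k[X]),
      A = (P : Matrix (Fin n) (Fin n) k[X]).map toLaurent *
      diagonal (fun i => T (d i)) * (Q : Matrix (Fin n) (Fin n) k[X]).map toInvLaurent :=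
  exists_factorisation A hA

/-- The exponents are unique up to order. -/
theorem birkhoff_grothendieck_unique {a b : Fin n → ℤ} {P P' Q Q' : GL (Fin n) k[X]}
    (h : (P : Matrix (Fin n) (Fin n) k[X]).map toLaurent * diagonal (fun i => T (a i)) *
        (Q : Matrix (Fin n) (Fin n) k[X]).map toInvLaurent =
      (P' : Matrix (Fin n) (Fin n) k[X]).map toLaurent * diagonal (fun i => T (b i)) *
        (Q' : Matrix (Fin n) (Fin n) k[X]).map toInvLaurent) :
    ∃ σ : Equiv.Perm (Fin n), b = a ∘ σ :=
  factorisation_unique h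

/-- Vector bundles on the projective line: the transition matrix determines one multiset of
degrees. -/
theorem splitting_type_existsUnique (A : Matrix (Fin n) (Fin n) k[T;T⁻¹]) (hA : IsUnit A.det) :
    ∃! M : Multiset ℤ, ∃ (d : Fin n → ℤ) (P Q : GL (Fin n) k[X]),
      Finset.univ.val.map d = M ∧ A = (P : Matrix (Fin n) (Fin n) k[X]).map toLaurent *
        diagonal (fun i => T (d i)) * (Q : Matrix (Fin n) (Fin n) k[X]).map toInvLaurent := by
  obtain ⟨d, P, Q, h⟩ := exists_factorisation A hA
  refine ⟨_, ⟨d, P, Q, rfl, h⟩, ?_⟩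
  rintro M ⟨d', P', Q', rfl, h'⟩
  obtain ⟨σ, rfl⟩ := factorisation_unique (h.symm.trans h')
  rw [← Multiset.map_map]
  congr 1
  exact congrArg Finset.val (Finset.map_univ_equiv σ)

end FA.BirkhoffFactorisation.Summary
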