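import Fermat.Agent.BlockCartan.Sections

/-!
# Cartan invariants of blocks and Brauer's formula for `k(B)`

`v` is a place of `ℂ` over `p`; `latt p B` is the lattice spanned over `ℤ` by the characters of `B`
cut off at the `p`-regular elements and `lB p B` its rank; for a basis `b`, `decomp b` is the
decomposition matrix and `cartan b` is `Dᵀ D`; `corr v C χ` are the characters of `C` whose block
corresponds to that of `χ`.

* `regular_lattice`: a basis of the lattice of all characters is a basis over `ℂ` of the class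
  functions supported on the regular elements, its rank is the number of regular classes, and the
  lattice is the direct sum of those of the blocks;
* `cartan_matrix`: the Cartan matrix is positive definite, `pᵈ C⁻¹` is integral, the determinant is
  a power of `p` dividing `p^(d l)` and `D C⁻¹ Dᵀ` is the matrix of contributions;
* `l_lt_k`: `1 ≤ l(B) ≤ k(B)`, equality exactly for defect zero;
* `block_sections`: `k(B)` is the sum over the classes of `p`-elements `u` of `l` of the blocks of
  `C(u)` corresponding to `B`; in particular `k(G)` is the sum of the numbers of regular classes;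
* `one_modular`: a block with `l(B) = 1` has Cartan invariant `pᵈ`.

Irreducible Brauer characters, nonnegativity of decomposition numbers and the elementary divisors
are not claimed.
-/

set_option autoImplicit false
set_option linter.style.haveILetI false

noncomputable section

open Finset FA.CharacterTheory FA.Thompson FA.PrincipalBlock
open FA.BrauerFeit (contr ordDefect)
open FA.SecondMainTheorem (corr)
open scoped Classical

namespace FA.BlockCartan.Summary

variable {G : Type*} [Group G] [Fintype G] {p : ℕ} [hp : Fact p.Prime] {v : Place p}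

/-- **The lattice of characters on the regular elements.** -/
theorem regular_lattice (v : Place p) :
    (∀ {ι : Type} [Fintype ι] (b : Module.Basis ι ℤ (latt p (irr G))),
        LinearIndependent ℂ (fun i => (b i : G → ℂ)) ∧
        ∀ f : G → ℂ, f ∈ Submodule.span ℂ (Set.range fun i => (b i : G → ℂ)) ↔
          (∀ g x, f (g * x * g⁻¹) = f x) ∧ ∀ g, p ∣ orderOf g → f g = 0) ∧
      lB p (irr G) =
        Nat.card {c : ConjClasses G // ∃ g, ¬ p ∣ orderOf g ∧ ConjClasses.mk g = c} ∧
      ∑ B ∈ (irr G).image (blk v), lB p B = lB p (irr G) ∧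
      iSupIndep (fun B : {B // B ∈ (irr G).image (blk v)} => latt p B.1) ∧
      ⨆ B : {B // B ∈ (irr G).image (blk v)}, latt p B.1 = latt p (irr G) := by
  refine ⟨fun b => ⟨(cartan_spec (good_irr (v := v)) b).1, fun f => ?_⟩, ?_, ?_,
    latt_iSupIndep v⟩
  · rw [mem_span_iff b f]
    simp only [IsCls, Reg, not_not]
  · rw [lB_irr v, card_regClasses]
  · rw [sum_lB v, lB_irr v]

/-- **The Cartan matrix of a block.** -/
theorem cartan_matrix (χ₀ : G → ℂ) {ι : Type*} [Fintype ι]
    (b : Module.Basis ι ℤ (latt p (blk v χ₀))) :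
    ((cartan b).map (Int.cast : ℤ → ℝ)).PosDef ∧
      (∃ j ≤ ordDefect p (blk v χ₀) * Fintype.card ι, (cartan b).det = (p : ℤ) ^ j) ∧
      ∃ Γ : Matrix ι ι ℤ, Γ * cartan b = (p : ℤ) ^ ordDefect p (blk v χ₀) • 1 ∧
        ∀ χ ψ : (blk v χ₀ : Finset (G → ℂ)),
          (p : ℂ) ^ ordDefect p (blk v χ₀) * contr p (χ : G → ℂ) ψ =
            ((decomp b * Γ * (decomp b).transpose) χ ψ : ℤ) :=
  ⟨(cartan_posDef (good_blk v χ₀) b).1, (cartan_posDef (good_blk v χ₀) b).2,
    (cartan_spec (good_blk v χ₀) b).2⟩

/-- **`l(B) < k(B)` in positive defect.** -/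
theorem l_lt_k {χ₀ : G → ℂ} (hχ₀ : χ₀ ∈ irr G) :
    1 ≤ lB p (blk v χ₀) ∧ lB p (blk v χ₀) ≤ (blk v χ₀).card ∧
      (lB p (blk v χ₀) = (blk v χ₀).card ↔ ordDefect p (blk v χ₀) = 0) :=
  ⟨one_le_lB hχ₀, lB_le hχ₀⟩

/-- **Brauer's formula.** -/
theorem block_sections (v : Place p) :
    ∃ U : Finset G, (∀ u ∈ U, ∃ k, u ^ p ^ k = 1) ∧
      (∀ a : G, (∃ k, a ^ p ^ k = 1) → ∃! u, u ∈ U ∧ IsConj u a) ∧
      (∀ χ₀ ∈ irr G, (blk v χ₀).card =
        ∑ u ∈ U, lB p (corr v (Subgroup.centralizer ({u} : Set G)) χ₀)) ∧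
      Nat.card (ConjClasses G) = ∑ u ∈ U,
        Nat.card {c : ConjClasses (Subgroup.centralizer ({u} : Set G)) //
          ∃ g, ¬ p ∣ orderOf g ∧ ConjClasses.mk g = c} := by
  obtain ⟨U, hU, hrep⟩ := exists_reps (G := G) (p := p)
  refine ⟨U, hU, hrep, fun χ₀ h => card_blk_eq hU hrep h, ?_⟩
  rw [card_classes_eq hU hrep]
  exact sum_congr rfl fun u _ => card_regClasses

/-- **One modular character.** -/
theorem one_modular {χ₀ : G → ℂ} (hχ₀ : χ₀ ∈ irr G) {ι : Type*} [Fintype ι]
    (b : Module.Basis ι ℤ (latt p (blk v χ₀))) (hl : lB p (blk v χ₀) = 1) (i : ι) :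
    cartan b i i = (p : ℤ) ^ ordDefect p (blk v χ₀) :=
  cartan_of_one hχ₀ b ((Module.finrank_eq_card_basis b).symm.trans hl) i

end FA.BlockCartan.Summary

end
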