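import Fermat.Agent.BohrCourant.Main

/-!
# The theorem of Bohr and Courant on the values of `ζ`

For `1/2 < σ ≤ 1` the values `ζ (σ + it)`, `t` real, are dense in `ℂ` (Bohr and Courant 1914), also
when `t` is restricted to any half line `t ≥ T₀`. In particular `ζ (1 + it)` is unbounded.

The limit distribution is not claimed. For universality see `Root/SummaryVoronin`.
-/

set_option autoImplicit false

noncomputable section

namespace FA.BohrCourant.Summary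

open Complex Metric

/-- **Bohr and Courant**: dense values on every vertical line with `1/2 < σ ≤ 1`. -/
theorem bohr_courant {σ : ℝ} (hσ : 1 / 2 < σ) (hσ1 : σ ≤ 1) (T₀ : ℝ) :
    Dense ((fun t : ℝ => riemannZeta (σ + t * I)) '' Set.Ici T₀) := by
  refine Metric.dense_iff.2 fun w ε hε => ?_
  obtain ⟨v, hv, hwv⟩ : ∃ v : ℂ, v ≠ 0 ∧ dist v w < ε / 2 := by
    rcases eq_or_ne w 0 with rfl | hw
    · refine ⟨((ε / 4 : ℝ) : ℂ), ofReal_ne_zero.2 (by linarith), ?_⟩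
      rw [dist_zero_right, Complex.norm_real, Real.norm_of_nonneg (by linarith)]
      linarith
    · exact ⟨w, hw, by rw [dist_self]; linarith⟩
  obtain ⟨t, ht, hlt⟩ := exists_zeta_near hσ hσ1 hv (half_pos hε) T₀
  rw [← dist_eq_norm] at hlt
  refine ⟨riemannZeta (σ + t * I), ?_, t, ht, rfl⟩
  rw [Metric.mem_ball]
  linarith [dist_triangle (riemannZeta (σ + t * I)) v w]

/-- `ζ (σ + it)` is unbounded as `t → ∞` for `1/2 < σ ≤ 1`. -/
theorem zeta_unbounded {σ : ℝ} (hσ : 1 / 2 < σ) (hσ1 : σ ≤ 1) (T₀ B : ℝ) :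
    ∃ t : ℝ, T₀ ≤ t ∧ B < ‖riemannZeta (σ + t * I)‖ := by
  obtain ⟨t, ht, hlt⟩ := exists_zeta_near hσ hσ1
    (w := ((|B| + 2 : ℝ) : ℂ)) (ofReal_ne_zero.2 (by positivity)) one_pos T₀
  refine ⟨t, ht, ?_⟩
  have h := norm_le_norm_add_norm_sub (riemannZeta (σ + t * I)) (((|B| + 2 : ℝ) : ℂ))
  rw [Complex.norm_real, Real.norm_of_nonneg (by positivity)] at h
  linarith [le_abs_self B]

/-- `ζ (σ + it)` comes arbitrarily near `0` as `t → ∞` for `1/2 < σ ≤ 1`. -/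
theorem zeta_near_zero {σ : ℝ} (hσ : 1 / 2 < σ) (hσ1 : σ ≤ 1) (T₀ : ℝ) {ε : ℝ} (hε : 0 < ε) :
    ∃ t : ℝ, T₀ ≤ t ∧ ‖riemannZeta (σ + t * I)‖ < ε := by
  obtain ⟨_, hmem, t, ht, rfl⟩ := Metric.dense_iff.1 (bohr_courant hσ hσ1 T₀) 0 ε hε
  exact ⟨t, ht, by simpa using hmem⟩

end FA.BohrCourant.Summary
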