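import Fermat.Agent.BohrJessen.Law

/-!
# The limit law of Bohr and Jessen

For every `σ > 1/2` the values `ζ (σ + it)` have a limit law: a Borel probability measure `μ` on
`ℂ` with `(1/T) ∫_0^T φ (ζ (σ + it)) → ∫ φ dμ` for every bounded continuous `φ` (Bohr and Jessen
1932). For `1/2 < σ < 1` its support is the whole plane.

The support for `σ ≥ 1`, the density of `μ` and the law of `log ζ` are not claimed.
-/

set_option autoImplicit false

noncomputable section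

namespace FA.BohrJessen.Summary

open Filter Complex MeasureTheory
open scoped Topology

/-- **The limit law exists** for every `σ > 1/2`. -/
theorem bohr_jessen {σ : ℝ} (hσ : 1 / 2 < σ) :
    ∃ μ : Measure ℂ, IsProbabilityMeasure μ ∧ ∀ φ : ℂ → ℝ, Continuous φ →
      (∃ C, ∀ z, |φ z| ≤ C) →
        Tendsto (fun T : ℝ => (∫ t in (0 : ℝ)..T, φ (riemannZeta (σ + t * I))) / T) atTop
          (𝓝 (∫ z, φ z ∂μ)) :=
  ⟨lineLaw hσ, lineLaw_probability hσ, fun _ hφ ⟨_, hC⟩ => tendsto_lineMean_law hσ hφ hC⟩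

/-- **Its support is the whole plane** for `1/2 < σ < 1`. -/
theorem bohr_jessen_support {σ : ℝ} (hσ : 1 / 2 < σ) (hσ1 : σ < 1) :
    ∃ μ : Measure ℂ, IsProbabilityMeasure μ ∧ (∀ φ : ℂ → ℝ, Continuous φ →
      (∃ C, ∀ z, |φ z| ≤ C) →
        Tendsto (fun T : ℝ => (∫ t in (0 : ℝ)..T, φ (riemannZeta (σ + t * I))) / T) atTop
          (𝓝 (∫ z, φ z ∂μ))) ∧
      ∀ U : Set ℂ, IsOpen U → U.Nonempty → 0 < μ U := by
  refine ⟨lineLaw hσ, lineLaw_probability hσ,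
    fun _ hφ ⟨_, hC⟩ => tendsto_lineMean_law hσ hφ hC, fun U hU ⟨w, hw⟩ => ?_⟩
  obtain ⟨ε, hε, hsub⟩ := Metric.isOpen_iff.1 hU w hw
  exact (lineLaw_ball_pos hσ hσ1 w hε).trans_le (measure_mono hsub)

/-- **The law is unique**: two laws agree on all bounded continuous functions. -/
theorem bohr_jessen_unique {σ : ℝ} {μ ν : Measure ℂ} [IsFiniteMeasure μ] [IsFiniteMeasure ν]
    (hμ : ∀ φ : ℂ → ℝ, Continuous φ → (∃ C, ∀ z, |φ z| ≤ C) →
      Tendsto (fun T : ℝ => (∫ t in (0 : ℝ)..T, φ (riemannZeta (σ + t * I))) / T) atTop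
        (𝓝 (∫ z, φ z ∂μ)))
    (hν : ∀ φ : ℂ → ℝ, Continuous φ → (∃ C, ∀ z, |φ z| ≤ C) →
      Tendsto (fun T : ℝ => (∫ t in (0 : ℝ)..T, φ (riemannZeta (σ + t * I))) / T) atTop
        (𝓝 (∫ z, φ z ∂ν))) : μ = ν :=
  ext_of_forall_integral_eq_of_IsFiniteMeasure fun f => tendsto_nhds_unique
    (hμ f f.continuous ⟨‖f‖, fun z => f.norm_coe_le_norm z⟩)
    (hν f f.continuous ⟨‖f‖, fun z => f.norm_coe_le_norm z⟩)

end FA.BohrJessen.Summary
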