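import Fermat.Agent.BohrStrip.Main

/-!
# R1335: Bohr's strip of uniform but not absolute convergence has width one half

Dirichlet series `∑ a_n n^(-s)` with arbitrary complex coefficients; convergence is that of the
partial sums over `n < N`, absolute convergence is `LSeriesSummable`.

* `bohr_uniform_convergence` (Bohr 1913): if the series converges absolutely somewhere and
  continues to a function analytic and bounded on all of `re s > σ₀`, it converges uniformly to it
  on every `re s ≥ σ₀ + ε`.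
* `bohr_strip_upper`: partial sums bounded on a whole line `re s = σ`, or uniform convergence on
  `re s ≥ σ`, or such a continuation to `re s > σ`, give absolute convergence for
  `re s > σ + 1/2`.
* `dirichlet_polynomial_line`: for all `m, p ≥ 1` some polynomial with `p^m` coefficients of
  modulus `1` has `|f (i t)|² ≤ p^(m+1)` for every `t` (the trivial bound is `p^(2m)`);
* `dirichlet_polynomial_sup`: for `m ≥ 2` and `r` arbitrarily large there are polynomials with
  `r^(m²)` coefficients of modulus `1`, supported on `(r^(m²), r^(m(m+1))]`, bounded by `1/r` on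
  `re s ≥ 1/2 + 1/m`.
* `bohnenblust_hille_sharp` (Bohnenblust and Hille 1931): some series has abscissa of absolute
  convergence exactly `1` and converges uniformly on every `re s ≥ σ` with `σ > 1/2`. So the
  width `1/2` is attained.

Not claimed: the inequality of Bohnenblust and Hille for multilinear forms, its constants, or the
refined count of coefficients of bounded Dirichlet polynomials.
-/

set_option autoImplicit false

noncomputable section

open Complex Filter Topology

namespace FA.BohrStripSummary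

open FA.BohrStrip

variable {a : ℕ → ℂ} {F : ℂ → ℂ} {σ σ₁ M : ℝ}

/-- **Bohr's theorem.** -/
theorem bohr_uniform_convergence (hsum : LSeriesSummable a (σ₁ : ℂ))
    (hF : DifferentiableOn ℂ F {s : ℂ | σ < s.re}) (hM : ∀ s : ℂ, σ < s.re → ‖F s‖ ≤ M)
    (heq : ∀ s : ℂ, σ < s.re → σ₁ ≤ s.re → F s = LSeries a s) {ε : ℝ} (hε : 0 < ε) :
    TendstoUniformlyOn (fun N s => ∑ n ∈ Finset.range N, LSeries.term a s n) F atTop
      {s : ℂ | σ + ε ≤ s.re} :=
  tendstoUniformlyOn_of_bounded hsum hF hM heq hε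

/-- **The strip has width at most `1/2`.** -/
theorem bohr_strip_upper {s : ℂ} (hs : σ + 1 / 2 < s.re) :
    ((∀ N : ℕ, ∀ t : ℝ, ‖∑ n ∈ Finset.range N, LSeries.term a ((σ : ℂ) + (t : ℂ) * I) n‖ ≤ M) →
      LSeriesSummable a s) ∧
    (TendstoUniformlyOn (fun N z => ∑ n ∈ Finset.range N, LSeries.term a z n) F atTop
      {z : ℂ | σ ≤ z.re} → LSeriesSummable a s) ∧
    (LSeriesSummable a (σ₁ : ℂ) → DifferentiableOn ℂ F {z : ℂ | σ < z.re} →
      (∀ z : ℂ, σ < z.re → ‖F z‖ ≤ M) →
      (∀ z : ℂ, σ < z.re → σ₁ ≤ z.re → F z = LSeries a z) → LSeriesSummable a s) :=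
  ⟨fun hb => lSeriesSummable_of_bounded hb hs, fun hu => lSeriesSummable_of_uniform hu hs,
    fun hsum hF hM heq => lSeriesSummable_of_uniform (σ := σ + (s.re - σ - 1 / 2) / 2)
      (tendstoUniformlyOn_of_bounded hsum hF hM heq (by linarith)) (by linarith)⟩

/-- **Chirps: `p^m` terms of modulus `1`, at most `p^((m+1)/2)` on the whole imaginary axis.** -/
theorem dirichlet_polynomial_line {m p : ℕ} (hm : 1 ≤ m) (hp : 1 ≤ p) :
    ∃ (S : Finset ℕ) (b : ℕ → ℂ), S.card = p ^ m ∧ (∀ n ∈ S, ‖b n‖ = 1) ∧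
      ∀ t : ℝ, ‖∑ n ∈ S, b n * (n : ℂ) ^ (-((t : ℂ) * I))‖ ^ 2 ≤ (p : ℝ) ^ (m + 1) := by
  classical
  obtain ⟨i, rfl⟩ := Nat.exists_eq_add_of_le' hm
  obtain ⟨q, hq⟩ : ∃ q : ℕ → Fin p → ℕ,
      q = fun (l : ℕ) (j : Fin p) => Nat.nth Nat.Prime (l * p + j) :=
    ⟨_, rfl⟩
  have hprime : ∀ l j, (q l j).Prime := fun l j =>
    hq ▸ Nat.nth_mem_of_infinite Nat.infinite_setOfPred_prime _
  have hinj : Function.Injective (pathNum q : (Fin (i + 1) → Fin p) → ℕ) :=
    pathNum_injective (fun l _ j => hprime l j) fun l _ l' _ j j' h => by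
      have e := Nat.nth_injective Nat.infinite_setOfPred_prime (by simpa [hq] using h)
      have h1 := congrArg (· / p) e
      have h2 := congrArg (· % p) e
      simp only [Nat.mul_add_mod', Nat.mod_eq_of_lt j.2, Nat.mod_eq_of_lt j'.2] at h2
      simp only [Nat.mul_comm l, Nat.mul_comm l', Nat.mul_add_div hp, Nat.div_eq_of_lt j.2,
        Nat.div_eq_of_lt j'.2, Nat.add_zero] at h1
      exact ⟨h1, Fin.ext h2⟩
  refine ⟨Finset.univ.image (pathNum q : (Fin (i + 1) → Fin p) → ℕ), fun n =>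
    ∑ J : Fin (i + 1) → Fin p, if pathNum q J = n then pathWt i J else 0, ?_, ?_, fun t => ?_⟩
  · rw [Finset.card_image_of_injective _ hinj, Finset.card_univ, Fintype.card_fun,
      Fintype.card_fin, Fintype.card_fin]
  all_goals
    have hone : ∀ J, (∑ K : Fin (i + 1) → Fin p,
        if pathNum q K = pathNum q J then pathWt i K else 0) = pathWt i J := fun J => by
      rw [Finset.sum_eq_single J (fun K _ hK => if_neg fun h => hK (hinj h))
        (fun h => absurd (Finset.mem_univ J) h), if_pos rfl]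
  · intro n hn
    obtain ⟨J, -, rfl⟩ := Finset.mem_image.1 hn
    show ‖∑ K : Fin (i + 1) → Fin p, _‖ = 1
    rw [hone, norm_pathWt]
  · rw [Finset.sum_image fun x _ y _ h => hinj h]
    simp only [hone]
    refine (norm_chirpPoly_sq_le (by omega) (q := q) (s := (t : ℂ) * I) (ρ := 1)
      fun l _ j => le_of_eq ?_).trans (le_of_eq (by simp))
    rw [Complex.norm_natCast_cpow_of_pos (hprime l j).pos]
    simp

/-- **Polynomials with coefficients of modulus `1` and small supremum.** -/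
theorem dirichlet_polynomial_sup {m : ℕ} (hm : 2 ≤ m) (R : ℕ) :
    ∃ r : ℕ, R ≤ r ∧ ∃ (S : Finset ℕ) (b : ℕ → ℂ),
      (∀ n ∈ S, r ^ (m ^ 2) < n ∧ n ≤ r ^ (m * (m + 1))) ∧ S.card = r ^ (m ^ 2) ∧
      (∀ n ∈ S, ‖b n‖ = 1) ∧
      ∀ s : ℂ, 1 / 2 + 1 / (m : ℝ) ≤ s.re → ‖∑ n ∈ S, LSeries.term b s n‖ ≤ 1 / r := by
  obtain ⟨i, rfl⟩ := Nat.exists_eq_add_of_le' hm
  obtain ⟨r, hR, S, b, h1, h2, h3, h4⟩ := exists_block i R
  exact ⟨r, hR, S, b, h1, h2, h3, fun s hs => h4 s (by push_cast at hs; exact hs)⟩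

/-- **The width `1/2` is attained.** -/
theorem bohnenblust_hille_sharp : ∃ a : ℕ → ℂ, (∀ n, ‖a n‖ ≤ 1) ∧
    LSeries.abscissaOfAbsConv a = 1 ∧ (∀ s : ℂ, s.re < 1 → ¬LSeriesSummable a s) ∧
    ∀ σ : ℝ, 1 / 2 < σ → ∃ F : ℂ → ℂ,
      TendstoUniformlyOn (fun N s => ∑ n ∈ Finset.range N, LSeries.term a s n) F atTop
        {s : ℂ | σ ≤ s.re} := by
  obtain ⟨r, S, w, hr, hdis, hS, hcard, hw, hsup⟩ := exists_blocks
  refine ⟨glueSeq S w, norm_glueSeq_le hdis hw, le_antisymm ?_ ?_,
    fun s hs => not_summable_glueSeq hdis hr hS hcard hw hs,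
    fun σ hσ => exists_uniform_glueSeq hdis hr hw hsup hσ⟩
  · exact LSeries.abscissaOfAbsConv_le_of_le_const ⟨1, fun n _ => norm_glueSeq_le hdis hw n⟩
  · by_contra hlt
    rw [not_le] at hlt
    obtain ⟨y, hy1, hy2⟩ := EReal.lt_iff_exists_real_btwn.1 hlt
    exact not_summable_glueSeq hdis hr hS hcard hw (s := (y : ℂ))
      (by simpa using (EReal.coe_lt_coe_iff (y := (1 : ℝ))).1 hy2)
      (LSeriesSummable_of_abscissaOfAbsConv_lt_re (by simpa using hy1))

end FA.BohrStripSummary

end
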