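import Fermat.Agent.KroneckerApprox.Zeta

/-!
# Bohr: the values of `ζ` right of the line one

* `log_primes_linearIndependent`: the logarithms of distinct primes are linearly independent;
* `bohr_zeta_bounds`: for `σ > 1` the bounds `ζ (2 σ) / ζ σ ≤ |ζ (σ + i t)| ≤ ζ σ` are approached
  at arbitrarily large `t`;
* `bohr_zeta_unbounded`: `ζ` and `1 / ζ` are unbounded in `re s > 1`, `im s ≥ T`, for every `T`.
-/

set_option autoImplicit false

noncomputable section

open Complex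

namespace FA.Summary

/-- **The logarithms of the primes are independent.** -/
theorem log_primes_linearIndependent {n : ℕ} {p : Fin n → ℕ} (hp : ∀ i, (p i).Prime)
    (hinj : Function.Injective p) (m : Fin n → ℤ)
    (h : ∑ i, (m i : ℝ) * Real.log (p i) = 0) : m = 0 :=
  FA.KroneckerApprox.log_primes_independent hp hinj m h

/-- **Bohr's theorem.** -/
theorem bohr_zeta_bounds {σ : ℝ} (hσ : 1 < σ) :
    (∀ t : ℝ, (riemannZeta (2 * σ : ℝ)).re / (riemannZeta σ).re ≤ ‖riemannZeta (σ + t * I)‖ ∧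
      ‖riemannZeta (σ + t * I)‖ ≤ (riemannZeta σ).re) ∧
    ∀ ε > 0, ∀ T : ℝ,
      (∃ t, T ≤ t ∧ (riemannZeta σ).re - ε < ‖riemannZeta (σ + t * I)‖) ∧
      ∃ t, T ≤ t ∧ ‖riemannZeta (σ + t * I)‖ <
        (riemannZeta (2 * σ : ℝ)).re / (riemannZeta σ).re + ε :=
  FA.KroneckerApprox.bohr_extremes hσ

/-- **Bohr**: `ζ` and `1 / ζ` are unbounded at great height right of the line one. -/
theorem bohr_zeta_unbounded (C T : ℝ) :
    (∃ s : ℂ, 1 < s.re ∧ T ≤ s.im ∧ C < ‖riemannZeta s‖) ∧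
      ∃ s : ℂ, 1 < s.re ∧ T ≤ s.im ∧ C < ‖(riemannZeta s)⁻¹‖ :=
  FA.KroneckerApprox.bohr_unbounded C T

end FA.Summary

end
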