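import Fermat.Agent.SieveConstant.UpperBound
import Fermat.Agent.SieveConstant.ChenCount

/-!
# The sieve with the singular series

With `2 e ^ γ` and Mertens' third theorem the linear sieve gives the bounds of Bombieri and
Davenport (1966): at most `(4 + ε) 𝔖 h x / log ^ 2 x` primes `p ≤ x` have `p + h` prime, and `N`
has at most `(4 + ε) 𝔖 N N / log ^ 2 N` representations as a sum of two primes; Chen's
representations `N = p + P₂` are at least `𝔖 N N / (50 log ^ 2 N)`. Here
`𝔖 n = 2 C₂ ∏_{p ∣ n, p > 2} (p - 1) / (p - 2)` for even `n`, `C₂` the twin prime constant.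

Hardy and Littlewood's conjecture is the asymptotic formula without the `4 + ε`; Bombieri and
Davenport's application to the gaps between primes is not included. The thresholds are ineffective.
-/

set_option autoImplicit false

noncomputable section

namespace FA.SieveConstant.Summary

open Finset Filter
open FA.AlmostGoldbach (pairSeries)
open scoped Topology ArithmeticFunction.Omega

/-- `2 C₂` is the singular series of `2`. -/
theorem twin_prime_constant : Tendsto (fun k : ℕ => 2 * ∏ p ∈ k.primesBelow.erase 2,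
    (1 - 1 / ((p : ℝ) - 1) ^ 2)) atTop (𝓝 (pairSeries 2)) :=
  tendsto_twinConst

/-- The singular series of an even number. -/
theorem singular_series_formula {n : ℕ} (hn0 : n ≠ 0) (hn : Even n) :
    pairSeries n = pairSeries 2 *
      ∏ p ∈ n.primeFactors.erase 2, ((p : ℝ) - 1) / ((p : ℝ) - 2) :=
  pairSeries_classical hn0 hn.two_dvd

/-- **Bombieri–Davenport: prime pairs.** -/
theorem prime_pairs_le {ε : ℝ} (hε : 0 < ε) {h : ℕ} (hh : Even h) (hh0 : 0 < h) :
    ∀ᶠ x : ℕ in atTop, (#((Icc 1 x).filter fun p => p.Prime ∧ (p + h).Prime) : ℝ) ≤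
      (4 + ε) * pairSeries h * x / Real.log x ^ 2 :=
  eventually_pairs_le hε hh hh0

/-- **Twin primes**: at most four times the conjectured number. -/
theorem twin_primes_le {ε : ℝ} (hε : 0 < ε) :
    ∀ᶠ x : ℕ in atTop, (#((Icc 1 x).filter fun p => p.Prime ∧ (p + 2).Prime) : ℝ) ≤
      (4 + ε) * pairSeries 2 * x / Real.log x ^ 2 :=
  eventually_pairs_le hε even_two two_pos

/-- **Bombieri–Davenport: the representations of Goldbach's problem.** -/
theorem goldbach_representations_le {ε : ℝ} (hε : 0 < ε) : ∀ᶠ N : ℕ in atTop, Even N →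
    (#((range N).filter fun p => p.Prime ∧ (N - p).Prime) : ℝ) ≤
      (4 + ε) * pairSeries N * N / Real.log N ^ 2 :=
  eventually_goldbach_le hε

/-- **Chen's theorem with the singular series.** -/
theorem chen_goldbach_count : ∀ᶠ N : ℕ in atTop, Even N →
    pairSeries N / 50 * N / Real.log N ^ 2 ≤ (((range N).filter fun p => p.Prime ∧ 1 < N - p ∧
      Ω (N - p) ≤ 2 ∧ ∀ q ∈ (N - p).primeFactors, N ≤ q ^ 8).card : ℝ) :=
  eventually_goldbach_two_series

/-- The same for `p + h`. -/
theorem chen_shift_count {h : ℕ} (hh : Even h) (hh0 : 0 < h) : ∀ᶠ x : ℕ in atTop,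
    pairSeries h / 50 * x / Real.log x ^ 2 ≤ (((Icc 1 x).filter fun p => p.Prime ∧
      Ω (p + h) ≤ 2 ∧ ∀ q ∈ (p + h).primeFactors, x ≤ q ^ 8).card : ℝ) :=
  eventually_shift_two_series hh hh0

end FA.SieveConstant.Summary
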