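import Fermat.Agent.BombieriPila.Main
import Mathlib.Algebra.MvPolynomial.Eval

/-!
# The theorem of Bombieri and Pila

* `bombieri_pila`: the graph of a real-analytic transcendental function on a segment holds at most
  `C H ^ ε` rational points with denominators (hence also heights) at most `H`;
* `bombieri_pila_dilates`: its dilates by a factor `t` hold at most `C t ^ ε` lattice points;
* `exp_rational_points`: so the graph of the exponential function has few rational points.
-/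

set_option autoImplicit false

noncomputable section

open MvPolynomial

namespace FA.BombieriPila

/-- Transcendence, stated with polynomials in two variables. -/
theorem transcendent_of_mvPolynomial {f : ℝ → ℝ} {a b : ℝ}
    (htr : ∀ P : MvPolynomial (Fin 2) ℝ, P ≠ 0 → ∃ x ∈ Set.Icc a b, eval ![x, f x] P ≠ 0) :
    Transcendent f a b := by
  classical
  intro d v hv
  let e : Fin (d * d) → Fin 2 →₀ ℕ := fun j =>
    Finsupp.single 0 (finProdFinEquiv.symm j).1.val +
      Finsupp.single 1 (finProdFinEquiv.symm j).2.val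
  let P : MvPolynomial (Fin 2) ℝ := ∑ j, monomial (e j) (v j)
  have he : Function.Injective e := fun i j h => finProdFinEquiv.symm.injective <|
    Prod.ext (Fin.ext (by simpa [e] using DFunLike.congr_fun h 0))
      (Fin.ext (by simpa [e] using DFunLike.congr_fun h 1))
  have hP : P ≠ 0 := fun h => hv (funext fun j => by
    have := congrArg (MvPolynomial.coeff (e j)) h
    simpa [P, MvPolynomial.coeff_sum, MvPolynomial.coeff_monomial, he.eq_iff] using this)
  obtain ⟨x, hx, hne⟩ := htr P hP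
  refine ⟨x, hx, fun h => hne (Eq.trans ?_ h)⟩
  simp [P, e, eval_monomial, FA.BombieriPila.monomials, Finsupp.prod_fintype, Fin.prod_univ_two]

end FA.BombieriPila

namespace FA.Summary

/-- **The theorem of Bombieri and Pila.** -/
theorem bombieri_pila {f : ℝ → ℝ} {a b : ℝ} (hf : AnalyticOnNhd ℝ f (Set.Icc a b))
    (htr : ∀ P : MvPolynomial (Fin 2) ℝ, P ≠ 0 → ∃ x ∈ Set.Icc a b, eval ![x, f x] P ≠ 0)
    {ε : ℝ} (hε : 0 < ε) :
    ∃ C : ℝ, ∀ H : ℕ, 0 < H → ∀ S : Finset ℚ,
      (∀ x ∈ S, (x : ℝ) ∈ Set.Icc a b ∧ x.den ≤ H ∧ ∃ y : ℚ, f x = y ∧ y.den ≤ H) →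
      (S.card : ℝ) ≤ C * (H : ℝ) ^ ε :=
  FA.BombieriPila.rational_points_le hf (FA.BombieriPila.transcendent_of_mvPolynomial htr) hε

/-- **Lattice points on dilates.** -/
theorem bombieri_pila_dilates {f : ℝ → ℝ} {a b : ℝ} (hf : AnalyticOnNhd ℝ f (Set.Icc a b))
    (htr : ∀ P : MvPolynomial (Fin 2) ℝ, P ≠ 0 → ∃ x ∈ Set.Icc a b, eval ![x, f x] P ≠ 0)
    {ε : ℝ} (hε : 0 < ε) :
    ∃ C : ℝ, ∀ t : ℕ, 0 < t → ∀ S : Finset ℤ,
      (∀ m ∈ S, (m : ℝ) / t ∈ Set.Icc a b ∧ ∃ n : ℤ, f ((m : ℝ) / t) = (n : ℝ) / t) →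
      (S.card : ℝ) ≤ C * (t : ℝ) ^ ε :=
  FA.BombieriPila.dilates_le hf (FA.BombieriPila.transcendent_of_mvPolynomial htr) hε

/-- **Rational points on the graph of the exponential function.** -/
theorem exp_rational_points {a b ε : ℝ} (hab : a < b) (hε : 0 < ε) :
    ∃ C : ℝ, ∀ H : ℕ, 0 < H → ∀ S : Finset ℚ,
      (∀ x ∈ S, (x : ℝ) ∈ Set.Icc a b ∧ x.den ≤ H ∧ ∃ y : ℚ, Real.exp x = y ∧ y.den ≤ H) →
      (S.card : ℝ) ≤ C * (H : ℝ) ^ ε :=
  FA.BombieriPila.rational_points_le (fun _ _ => analyticAt_rexp)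
    (FA.BombieriPila.transcendent_exp hab) hε

end FA.Summary

end
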