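import Fermat.Agent.BooneHigman.Embedding
import Fermat.Agent.BooneHigman.Kuznetsov

/-!
# The theorem of Boone and Higman

* `boone_higman` (Boone, Higman, 1974): a finitely generated group has solvable word problem if
  and only if it embeds into a simple subgroup of a finitely presented group.
* `elementary_group_simple`: the stable elementary group over a simple ring of additive maps is
  simple.

The simple group is not the one of Boone and Higman: it is the elementary group over a crossed
product. No hypothesis is assumed. Not claimed: a finitely generated simple group, the conjecture
that the simple group can be finitely presented.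
-/

set_option autoImplicit false

namespace FA.BooneHigman

/-- **Boone and Higman.** -/
theorem boone_higman {G : Type} [Group G] {n : ℕ} (π : FreeGroup (Fin n) →* G)
    (hπ : Function.Surjective π) :
    (ComputablePred fun w : List (Fin n × Bool) => π (FreeGroup.mk w) = 1) ↔
      ∃ (P : Type) (_ : Group P) (H : Subgroup P) (ρ : G →* H),
        Group.IsFinitelyPresented P ∧ IsSimpleGroup H ∧ Function.Injective ρ :=
  ⟨exists_simple_overgroup π hπ,
    fun ⟨_, _, H, ρ, hP, _, hρ⟩ => computable_of_simple_overgroup π hP H ρ hρ⟩

/-- The elementary group over a simple ring. -/
theorem elementary_group_simple {V : Type*} [AddCommGroup V] {S : Subring (AddMonoid.End V)}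
    (hS : IsSimpleIn S) (h : (1 : AddMonoid.End V) ≠ 0) : IsSimpleGroup (elemGroup S) :=
  isSimpleGroup_elemGroup hS h

end FA.BooneHigman
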