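import Fermat.Agent.BorelBernstein.Main

/-!
# The theorem of Borel and Bernstein on partial quotients

For positive `φ` almost every real number has infinitely many partial quotients `a_n ≥ φ n` exactly
when `∑ 1 / φ n` diverges; if it converges almost every number has only finitely many (Borel 1909,
Bernstein 1911). In particular almost every number has unbounded partial quotients, eventually
below `n ^ (1 + ε)` and infinitely often at least `n log n`. No monotonicity is assumed.
-/

set_option autoImplicit false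

noncomputable section

open MeasureTheory Filter Topology GenContFract
open FA.PeriodicFractions

namespace FA.BorelBernstein.Summary

/-- **Borel–Bernstein**, divergence. -/
theorem borel_bernstein_divergence {φ : ℕ → ℝ}
    (hdiv : ¬Summable fun i => 1 / φ i) :
    ∀ᵐ x : ℝ, ∃ a : ℕ → ℝ, (∀ i, (GenContFract.of x).s.get? i = some ⟨1, a i⟩) ∧
      {i | φ i ≤ a i}.Infinite := by
  have hd : ¬Summable fun i => 1 / max (φ i) 1 := fun hs => hdiv <| by
    refine hs.congr_atTop ?_
    filter_upwards [hs.tendsto_atTop_zero.eventually_lt_const one_pos] with i hi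
    rcases le_total (φ i) 1 with h | h
    · rw [max_eq_right h, div_one] at hi
      exact absurd hi (lt_irrefl 1)
    · rw [max_eq_left h]
  filter_upwards [ae_infinite_large_digits (fun i => le_max_right _ _) hd] with x ⟨hx, hinf⟩
  exact ⟨fun i => (digit x (i + 1) : ℝ), get?_of hx,
    hinf.mono fun i (hi : max (φ i) 1 ≤ _) => (le_max_left (φ i) 1).trans hi⟩

/-- **Borel–Bernstein**, convergence. -/
theorem borel_bernstein_convergence {φ : ℕ → ℝ} (h0 : ∀ i, 0 < φ i)
    (hs : Summable fun i => 1 / φ i) :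
    ∀ᵐ x : ℝ, ∃ a : ℕ → ℝ, (∀ i, (GenContFract.of x).s.get? i = some ⟨1, a i⟩) ∧
      {i | φ i ≤ a i}.Finite := by
  have hs' : Summable fun i => 1 / max (φ i) 1 := Summable.of_nonneg_of_le
    (fun i => by have := h0 i; positivity)
    (fun i => one_div_le_one_div_of_le (h0 i) (le_max_left _ _)) hs
  filter_upwards [ae_finite_large_digits (fun i => le_max_right _ _) hs'] with x ⟨hx, hfin⟩
  refine ⟨fun i => (digit x (i + 1) : ℝ), get?_of hx, hfin.subset fun i hi => ?_⟩
  have h1 : (1 : ℝ) ≤ (digit x (i + 1) : ℝ) := by exact_mod_cast one_le_digit hx i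
  exact max_le hi h1

/-- **Borel–Bernstein**: the zero-one law. -/
theorem borel_bernstein {φ : ℕ → ℝ} (h0 : ∀ i, 0 < φ i) :
    (∀ᵐ x : ℝ, ∃ a : ℕ → ℝ, (∀ i, (GenContFract.of x).s.get? i = some ⟨1, a i⟩) ∧
      {i | φ i ≤ a i}.Infinite) ↔ ¬Summable fun i => 1 / φ i := by
  refine ⟨fun h hs => ?_, borel_bernstein_divergence⟩
  obtain ⟨x, ⟨a, ha, hinf⟩, ⟨b, hb, hfin⟩⟩ :=
    (h.and (borel_bernstein_convergence h0 hs)).exists
  have e : a = b := funext fun i =>
    congrArg GenContFract.Pair.b (Option.some.inj ((ha i).symm.trans (hb i)))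
  exact hinf (e ▸ hfin)

/-- **Almost every number has unbounded partial quotients.** -/
theorem partial_quotients_unbounded :
    ∀ᵐ x : ℝ, ∃ a : ℕ → ℝ, (∀ i, (GenContFract.of x).s.get? i = some ⟨1, a i⟩) ∧
      ∀ M : ℝ, {i | M ≤ a i}.Infinite := by
  have h := fun m : ℕ => ae_infinite_large_digits (φ := fun _ => (m : ℝ) + 1)
    (fun _ => le_add_of_nonneg_left (Nat.cast_nonneg m))
    (by rw [summable_const_iff]; exact one_div_ne_zero (Nat.cast_add_one_ne_zero m))
  filter_upwards [ae_all_iff.2 h] with x hx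
  refine ⟨fun i => (digit x (i + 1) : ℝ), get?_of (hx 0).1, fun M => ?_⟩
  obtain ⟨m, hm⟩ := exists_nat_ge M
  exact (hx m).2.mono fun i hi => le_trans (hm.trans (le_add_of_nonneg_right zero_le_one)) hi

theorem not_summable_log_growth :
    ¬Summable fun n : ℕ => 1 / (((n : ℝ) + 1) * Real.log ((n : ℝ) + 3)) := by
  intro hs
  have hpos : ∀ q : ℕ, 0 < Real.log ((q : ℝ) + 3) := fun q =>
    Real.log_pos (by linarith [(Nat.cast_nonneg q : (0 : ℝ) ≤ q)])
  have hc := (summable_condensed_iff_of_nonneg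
    (f := fun n : ℕ => 1 / (((n : ℝ) + 1) * Real.log ((n : ℝ) + 3)))
    (fun q => by have := hpos q; positivity) fun m n _ hmn => by
      have hmn' : (m : ℝ) ≤ n := Nat.cast_le.2 hmn
      refine one_div_le_one_div_of_le (mul_pos (by positivity) (hpos m)) ?_
      exact mul_le_mul (by linarith) (Real.log_le_log (by positivity) (by linarith)) (hpos m).le
        (by positivity)).2 hs
  refine Real.not_summable_one_div_natCast ((summable_nat_add_iff 2).1 ?_)
  refine Summable.of_nonneg_of_le (fun k => by positivity) (fun k => ?_)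
    (hc.mul_left (2 * Real.log 2))
  have hL := hpos (2 ^ k)
  push_cast at hL ⊢
  have h2 : (1 : ℝ) ≤ 2 ^ k := one_le_pow₀ one_le_two
  have hle : Real.log ((2 : ℝ) ^ k + 3) ≤ ((k : ℝ) + 2) * Real.log 2 := by
    rw [show ((k : ℝ) + 2) * Real.log 2 = Real.log (2 ^ (k + 2)) by
      rw [Real.log_pow]; push_cast; rfl]
    exact Real.log_le_log (by positivity) (by rw [pow_add]; linarith)
  rw [mul_one_div, mul_div_assoc', div_le_div_iff₀ (by positivity) (by positivity), one_mul]
  nlinarith [mul_le_mul (show (2 : ℝ) ^ k + 1 ≤ 2 * 2 ^ k by linarith) hle hL.le (by positivity)]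

/-- **The growth of the partial quotients.** -/
theorem digit_growth :
    ∀ᵐ x : ℝ, ∃ a : ℕ → ℝ, (∀ i, (GenContFract.of x).s.get? i = some ⟨1, a i⟩) ∧
      (∀ ε : ℝ, 0 < ε → ∀ᶠ n : ℕ in atTop, a n < ((n : ℝ) + 1) ^ (1 + ε)) ∧
      ∃ᶠ n : ℕ in atTop, ((n : ℝ) + 1) * Real.log ((n : ℝ) + 3) ≤ a n := by
  have h1 := fun m : ℕ => borel_bernstein_convergence
    (φ := fun n : ℕ => ((n : ℝ) + 1) ^ (1 + 1 / ((m : ℝ) + 1))) (fun n => by positivity) (by
      have hp : (1 : ℝ) < 1 + 1 / ((m : ℝ) + 1) := lt_add_of_pos_right 1 (by positivity)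
      exact ((summable_nat_add_iff 1).2 (Real.summable_one_div_nat_rpow.2 hp)).congr fun n => by
        push_cast; rfl)
  have h2 := borel_bernstein_divergence
    (φ := fun n : ℕ => ((n : ℝ) + 1) * Real.log ((n : ℝ) + 3))
    not_summable_log_growth
  filter_upwards [ae_all_iff.2 h1, h2] with x hx ⟨a, ha, hinf⟩
  refine ⟨a, ha, fun ε hε => ?_, Nat.frequently_atTop_iff_infinite.2 hinf⟩
  obtain ⟨m, hm⟩ := exists_nat_one_div_lt hε
  obtain ⟨b, hb, hfin⟩ := hx m
  have e : a = b := funext fun i =>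
    congrArg GenContFract.Pair.b (Option.some.inj ((ha i).symm.trans (hb i)))
  subst e
  filter_upwards [Nat.cofinite_eq_atTop ▸ hfin.eventually_cofinite_notMem] with n hn
  refine lt_of_lt_of_le (not_le.1 hn) (Real.rpow_le_rpow_of_exponent_le ?_ (by linarith))
  linarith [(Nat.cast_nonneg n : (0 : ℝ) ≤ n)]

end FA.BorelBernstein.Summary
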