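import Fermat.Agent.BorelCombinatorics.Graph
import Fermat.Agent.BorelCombinatorics.Automorphism

/-!
# Borel combinatorics

Borel colourings of graphs (Kechris, Solecki and Todorcevic), markers, smoothness and
hyperfiniteness of countable Borel equivalence relations.
-/

set_option autoImplicit false

universe u

namespace FA.BorelCombinatorics

open Set Topology MeasureTheory

variable {X : Type u} [TopologicalSpace X] [PolishSpace X] [MeasurableSpace X] [BorelSpace X]

/-- **Kechris, Solecki and Todorcevic.** A locally finite Borel graph on a Polish space has a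
countable Borel colouring, and a Borel maximal independent set. -/
theorem kst_locally_finite {G : SimpleGraph X}
    (hG : MeasurableSet {p : X × X | G.Adj p.1 p.2}) (hfin : ∀ x, (G.neighborSet x).Finite) :
    (∃ c : G.Coloring ℕ, Measurable c) ∧
      ∃ I : Set X, MeasurableSet I ∧ (∀ x ∈ I, ∀ y ∈ I, ¬G.Adj x y) ∧
        ∀ x ∉ I, ∃ y ∈ I, G.Adj x y := by
  obtain ⟨c, hc⟩ := exists_countable_colouring_of_finite hG hfin
  exact ⟨⟨c, hc⟩, exists_maximal_independent hG (fun x => (hfin x).countable) c hc⟩

/-- **Kechris, Solecki and Todorcevic.** A Borel graph of degree at most `d` has a Borel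
colouring with `d + 1` colours. -/
theorem kst_bounded_degree {d : ℕ} {G : SimpleGraph X}
    (hG : MeasurableSet {p : X × X | G.Adj p.1 p.2}) (hdeg : ∀ x, (G.neighborSet x).encard ≤ d) :
    ∃ c : G.Coloring (Fin (d + 1)), Measurable c :=
  exists_degree_colouring d hG hdeg

/-- **The marker lemma of Slaman and Steel.** A countable Borel equivalence relation with
infinite classes has a decreasing sequence of Borel complete sections with empty
intersection. -/
theorem marker_lemma (s : Setoid X) (hs : MeasurableSet {p : X × X | s p.1 p.2})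
    (hcount : ∀ x, {y | s x y}.Countable) (hinf : ∀ x, {y | s x y}.Infinite) :
    ∃ A : ℕ → Set X, (∀ n, MeasurableSet (A n)) ∧ Antitone A ∧ ⋂ n, A n = ∅ ∧
      ∀ n x, ∃ y ∈ A n, s x y := by
  obtain ⟨A, hA, hanti, hempty, -, hmeet⟩ := exists_markers hs hcount
  refine ⟨A, hA, hanti, hempty, fun n x => ?_⟩
  obtain ⟨y, hy, hyA⟩ := (hmeet n x (hinf x)).nonempty
  exact ⟨y, hyA, hy⟩

/-- **Smoothness and transversals.** A countable Borel equivalence relation is smooth exactly
when it has a Borel transversal. -/
theorem smooth_iff_transversal (s : Setoid X) (hs : MeasurableSet {p : X × X | s p.1 p.2})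
    (hcount : ∀ x, {y | s x y}.Countable) :
    IsSmooth s ↔ ∃ T : Set X, MeasurableSet T ∧ ∀ x, ∃! t, t ∈ T ∧ s x t :=
  ⟨exists_transversal_of_isSmooth hcount, fun ⟨_, hT, h⟩ => isSmooth_of_transversal hs hT h⟩

/-- A Borel equivalence relation with finite classes is smooth and has a Borel transversal. -/
theorem finite_classes_smooth (s : Setoid X) (hs : MeasurableSet {p : X × X | s p.1 p.2})
    (hfin : ∀ x, {y | s x y}.Finite) :
    IsSmooth s ∧ ∃ T : Set X, MeasurableSet T ∧ ∀ x, ∃! t, t ∈ T ∧ s x t :=
  ⟨isSmooth_of_finite hs hfin,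
    exists_transversal_of_isSmooth (fun x => (hfin x).countable) (isSmooth_of_finite hs hfin)⟩

/-- **`E_0` is hyperfinite and not smooth.** -/
theorem eZero_hyperfinite_not_smooth : IsHyperfinite eZero ∧ ¬IsSmooth eZero :=
  ⟨isHyperfinite_eZero, not_isSmooth_eZero⟩

/-- **Weiss, Slaman and Steel.** The orbit relation of a Borel automorphism of a Polish space is
hyperfinite. -/
theorem slaman_steel (T : X ≃ᵐ X) : IsHyperfinite (orbitRel T) :=
  isHyperfinite_orbitRel T

omit [TopologicalSpace X] [PolishSpace X] [BorelSpace X] in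
/-- The orbit relation relates a point to its iterates and to nothing else. -/
theorem orbitRel_iff (T : X ≃ᵐ X) (x y : X) :
    orbitRel T x y ↔ ∃ k : ℤ, (T.toEquiv ^ k : Equiv.Perm X) x = y :=
  Iff.rfl

end FA.BorelCombinatorics
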