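import Fermat.Agent.BorelDensity.SpecialLinear

/-!
# Borel's density theorem

For a subgroup `Γ` of a second countable group `G` such that `G ⧸ Γ` has an invariant probability
measure (`HasFiniteCovolume`) and one-parameter subgroups generating `G` which act polynomially in a
continuous representation `ρ` on `ℝᵐ` (`IsPolyGenerated`):

* `borel_invariant_subspace`, `borel_fixed_vector`: subspaces and vectors fixed by `Γ` are fixed by
  `G`; `borel_span`: `ρ G` lies in the span of `ρ Γ`.

For `SL n ℝ`, where transvections do this: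

* `borel_density_sln`: a polynomial in the entries vanishing on `Γ` vanishes identically;
* `lattice_irreducible`, `lattice_commutant`, `lattice_not_triangular`;
* `integral_points_dense`: a polynomial vanishing at the integral matrices of determinant one
  vanishes at the real ones; `integral_unipotents_not_lattice`: the hypothesis on the measure is
  needed.

Other semisimple groups and other fields are not claimed.
-/

set_option autoImplicit false
set_option linter.unusedSectionVars false
set_option linter.style.haveILetI false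

noncomputable section

open MeasureTheory Matrix Set Function
open scoped MatrixGroups

namespace FA.BorelDensity.Summary

section General

variable {G : Type*} [Group G] [TopologicalSpace G] [IsTopologicalGroup G]
  [SecondCountableTopology G] [MeasurableSpace G] [BorelSpace G] {Γ : Subgroup G}
  {m : Type*} [Fintype m] [DecidableEq m] {ρ : G →* Matrix m m ℝ} {ι : Type*} {u : ι → ℝ → G}

/-- **Invariant subspaces.** -/
theorem borel_invariant_subspace (hΓ : HasFiniteCovolume Γ) (hρ : Continuous ρ)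
    (hu : IsPolyGenerated u ρ) {W : Submodule ℝ (m → ℝ)}
    (hW : ∀ γ ∈ Γ, ∀ w ∈ W, ρ γ *ᵥ w ∈ W) : ∀ g, ∀ w ∈ W, ρ g *ᵥ w ∈ W :=
  fun g _ hw => invariant_subspace hΓ hρ hu hW g hw

/-- **Fixed vectors.** -/
theorem borel_fixed_vector (hΓ : HasFiniteCovolume Γ) (hρ : Continuous ρ)
    (hu : IsPolyGenerated u ρ) {v : m → ℝ} (hv : ∀ γ ∈ Γ, ρ γ *ᵥ v = v) : ∀ g, ρ g *ᵥ v = v :=
  fixed_vector hΓ hρ hu hv

/-- **The span.** -/
theorem borel_span (hΓ : HasFiniteCovolume Γ) (hρ : Continuous ρ) (hu : IsPolyGenerated u ρ) :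
    Submodule.span ℝ (range ρ) = Submodule.span ℝ (ρ '' (Γ : Set G)) :=
  le_antisymm (Submodule.span_le.2 (range_subset_iff.2 (mem_span_image hΓ hρ hu)))
    (Submodule.span_mono (image_subset_range _ _))

end General

variable {n : ℕ} [MeasurableSpace (SpecialLinearGroup (Fin n) ℝ)]
  [BorelSpace (SpecialLinearGroup (Fin n) ℝ)] {Γ : Subgroup (SpecialLinearGroup (Fin n) ℝ)}

/-- **Borel's density theorem for `SL n ℝ`.** -/
theorem borel_density_sln (hΓ : HasFiniteCovolume Γ) (f : MvPolynomial (Fin n × Fin n) ℝ)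
    (h : ∀ γ ∈ Γ, MvPolynomial.eval (fun p => γ.1 p.1 p.2) f = 0) :
    ∀ g : SpecialLinearGroup (Fin n) ℝ, MvPolynomial.eval (fun p => g.1 p.1 p.2) f = 0 :=
  eval_eq_zero_of_vanish hΓ f h

/-- **A subgroup of finite covolume acts irreducibly.** -/
theorem lattice_irreducible (hΓ : HasFiniteCovolume Γ) {W : Submodule ℝ (Fin n → ℝ)}
    (hW : ∀ γ ∈ Γ, ∀ w ∈ W, γ.1 *ᵥ w ∈ W) : W = ⊥ ∨ W = ⊤ :=
  eq_bot_or_eq_top hΓ hW

/-- **Only scalars commute with it.** -/
theorem lattice_commutant (hΓ : HasFiniteCovolume Γ) {A : Matrix (Fin n) (Fin n) ℝ}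
    (hA : ∀ γ ∈ Γ, Commute A γ.1) : ∃ c : ℝ, A = Matrix.scalar (Fin n) c :=
  (mem_range_scalar_of_commute hΓ hA).imp fun _ h => h.symm

/-- **It is not triangular.** -/
theorem lattice_not_triangular (hn : 2 ≤ n) (hΓ : HasFiniteCovolume Γ) :
    ∃ γ ∈ Γ, ¬ BlockTriangular γ.1 id := by
  obtain ⟨γ, hγ, hne⟩ := exists_lower_entry_ne_zero hΓ (i := ⟨1, hn⟩) (j := ⟨0, by omega⟩)
    Nat.zero_lt_one
  exact ⟨γ, hγ, fun h => hne (h (show (⟨0, by omega⟩ : Fin n) < ⟨1, hn⟩ from Nat.zero_lt_one))⟩

omit [MeasurableSpace (SpecialLinearGroup (Fin n) ℝ)]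
  [BorelSpace (SpecialLinearGroup (Fin n) ℝ)] in
/-- **Integral points are Zariski dense.** -/
theorem integral_points_dense [NeZero n] (f : MvPolynomial (Fin n × Fin n) ℝ)
    (h : ∀ A : Matrix (Fin n) (Fin n) ℤ, A.det = 1 →
      MvPolynomial.eval (fun p => (A p.1 p.2 : ℝ)) f = 0) :
    ∀ A : Matrix (Fin n) (Fin n) ℝ, A.det = 1 →
      MvPolynomial.eval (fun p => A p.1 p.2) f = 0 := by
  letI : MeasurableSpace (SpecialLinearGroup (Fin n) ℝ) := borel _
  haveI : BorelSpace (SpecialLinearGroup (Fin n) ℝ) := ⟨rfl⟩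
  intro A hA
  exact eval_eq_zero_of_vanish hasFiniteCovolume_int f
    (by rintro _ ⟨B, rfl⟩; exact h B.1 B.2) ⟨A, hA⟩

omit [MeasurableSpace (SpecialLinearGroup (Fin n) ℝ)]
  [BorelSpace (SpecialLinearGroup (Fin n) ℝ)] in
/-- **The measure hypothesis is needed**: the integral upper unipotent matrices have no invariant
probability measure on the quotient. -/
theorem integral_unipotents_not_lattice [MeasurableSpace SL(2, ℝ)] [BorelSpace SL(2, ℝ)] :
    ¬ HasFiniteCovolume (Subgroup.closure (range fun k : ℤ =>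
      (SpecialLinearGroup.transvection (zero_ne_one (α := Fin 2)) (k : ℝ) : SL(2, ℝ)))) := by
  intro hΓ
  obtain ⟨γ, hγ, hne⟩ := exists_lower_entry_ne_zero hΓ (i := (1 : Fin 2)) (j := 0) (by decide)
  refine hne ?_
  clear hne
  induction hγ using Subgroup.closure_induction with
  | mem x hx =>
    obtain ⟨k, rfl⟩ := hx
    simp [SpecialLinearGroup.transvection_coe]
  | one => simp
  | mul x y _ _ hx hy =>
    rw [SpecialLinearGroup.coe_mul, Matrix.mul_apply, Fin.sum_univ_two, hx, hy]
    simp
  | inv x _ hx =>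
    simp [SpecialLinearGroup.coe_inv, Matrix.adjugate_fin_two, hx]

end FA.BorelDensity.Summary

end
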