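import Fermat.Agent.Determinacy.Borel

/-!
# Borel determinacy

Martin's theorem (1975): in a game of perfect information of length `ω` with any set of moves
and a Borel payoff one of the players has a winning strategy. The proof is Martin's inductive
one: closed payoffs become clopen in an auxiliary game with committed quasi-strategies,
countable unions are handled by inverse limits of coverings, and the induction runs over the
Borel sigma-algebra of the product of discrete spaces.
-/

set_option autoImplicit false

universe u

namespace FA.Determinacy

variable {A : Type u}

/-- **Gale and Stewart.** Open and closed payoffs are determined on every game tree. -/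
theorem gale_stewart [TopologicalSpace A] (T : GameTree A) {X : Set (ℕ → A)}
    (h : IsOpen X ∨ IsClosed X) : Determined T X :=
  determined_of_isOpenOn_or_compl (h.imp (fun h => isOpenOn_of_isOpen h T)
    fun h => isOpenOn_of_isOpen h.isOpen_compl T)

/-- **Martin's coverings.** A Borel payoff is clopen in some covering of any given level. -/
theorem exists_covering_unravels [TopologicalSpace A] (T : GameTree A) {X : Set (ℕ → A)}
    (hX : @MeasurableSet _ (borel (ℕ → A)) X) (k : ℕ) :
    ∃ (B : Type u) (S : GameTree B) (c : CoveringMap S T k),
      IsClopenOn S {y | c.proj ∘ y ∈ X} := by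
  have h : Unravels T k {y | (id : A → A) ∘ y ∈ X} :=
    unravelsAll_of_borel T hX A T id (fun p hp => by simpa using hp) k
  exact h

/-- **Martin's theorem on every game tree.** -/
theorem borel_determinacy_tree [TopologicalSpace A] (T : GameTree A) {X : Set (ℕ → A)}
    (hX : @MeasurableSet _ (borel (ℕ → A)) X) : Determined T X :=
  Unravels.determined (k := 0) (exists_covering_unravels T hX 0)

/-- **Borel determinacy.** For every set of moves and every Borel set of plays one of the players
has a strategy with which every play is won: player I (`P = true`) wins the plays inside. -/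
theorem borel_determinacy [TopologicalSpace A] [DiscreteTopology A] [Nonempty A]
    {X : Set (ℕ → A)} (hX : @MeasurableSet _ (borel (ℕ → A)) X) :
    ∃ (P : Bool) (σ : List A → A), ∀ x : ℕ → A,
      (∀ n, Moves P n → x n = σ ((List.range n).map x)) → (x ∈ X ↔ P = true) := by
  obtain ⟨P, σ, -, h⟩ := borel_determinacy_tree (GameTree.univ A) hX
  exact ⟨P, σ, fun x hx => h x (by rw [GameTree.body_univ]; trivial) hx⟩

/-- **Borel determinacy in Baire space.** -/
theorem borel_determinacy_baire {X : Set (ℕ → ℕ)} (hX : MeasurableSet X) :
    ∃ (P : Bool) (σ : List ℕ → ℕ), ∀ x : ℕ → ℕ,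
      (∀ n, Moves P n → x n = σ ((List.range n).map x)) → (x ∈ X ↔ P = true) :=
  borel_determinacy (by rwa [BorelSpace.measurable_eq (α := ℕ → ℕ)] at hX)

/-- Exactly one of the players moves at each position. -/
theorem moves_xor (n : ℕ) : (Moves true n ↔ Even n) ∧ (Moves false n ↔ ¬Even n) := by
  simp [Moves]

end FA.Determinacy
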