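import Fermat.Agent.BorsukProblem.Basic

/-!
# Borsuk's problem

Borsuk asked whether every bounded set in `ℝ ^ d` can be cut into `d + 1` pieces of smaller
diameter. Kahn and Kalai: no, and the number of pieces needed outgrows every power of `d`.

* `borsuk_conjecture_false`: for some `d` a finite set of positive diameter needs more than
  `d + 1` parts;
* `kahn_kalai_borsuk`: for every `k` and `N` some `d ≥ N` has a finite set needing more than
  `d ^ k` parts;
* `kahn_kalai_bound`: in dimension `16 p ²`, `p` prime, at least `(3 / 2) ^ (p / 2) / (2 p)` parts.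
-/

set_option autoImplicit false

noncomputable section

open Finset

namespace FA.Summary

/-- **The bound of Kahn and Kalai** in dimension `16 p²`. -/
theorem kahn_kalai_bound {p : ℕ} (hp : p.Prime) :
    ∃ S : Set (EuclideanSpace ℝ (Fin (4 * p * (4 * p)))), S.Finite ∧ 0 < Metric.diam S ∧
      ∀ T : Finset (Set (EuclideanSpace ℝ (Fin (4 * p * (4 * p))))), S ⊆ ⋃ t ∈ T, t →
        (∀ t ∈ T, Metric.diam (t ∩ S) < Metric.diam S) →
          3 ^ (p / 2) ≤ 2 * p * 2 ^ (p / 2) * T.card := by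
  have := Fact.mk hp
  obtain ⟨h1, h2⟩ := FA.BorsukProblem.body_facts hp
  exact ⟨_, h1, h2, fun T hT hs => FA.BorsukProblem.parts_lower_bound T hT hs⟩

/-- **The theorem of Kahn and Kalai.** -/
theorem kahn_kalai_borsuk (k N : ℕ) :
    ∃ d, N ≤ d ∧ ∃ S : Set (EuclideanSpace ℝ (Fin d)), S.Finite ∧ 0 < Metric.diam S ∧
      ∀ T : Finset (Set (EuclideanSpace ℝ (Fin d))), S ⊆ ⋃ t ∈ T, t →
        (∀ t ∈ T, Metric.diam (t ∩ S) < Metric.diam S) → d ^ k < T.card := by
  obtain ⟨M, hM⟩ := FA.BorsukProblem.eventually_many k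
  obtain ⟨p, hMp, hp⟩ := Nat.exists_infinite_primes (M + N)
  obtain ⟨S, h1, h2, h3⟩ := kahn_kalai_bound hp
  refine ⟨4 * p * (4 * p), ?_, S, h1, h2, fun T hT hs => ?_⟩
  · have := Nat.le_mul_self p
    nlinarith
  · exact Nat.lt_of_mul_lt_mul_left ((hM p (by omega)).trans_le (h3 T hT hs))

/-- **Borsuk's conjecture is false.** -/
theorem borsuk_conjecture_false :
    ∃ (d : ℕ) (S : Set (EuclideanSpace ℝ (Fin d))), S.Finite ∧ 0 < Metric.diam S ∧
      ∀ T : Finset (Set (EuclideanSpace ℝ (Fin d))), S ⊆ ⋃ t ∈ T, t →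
        (∀ t ∈ T, Metric.diam (t ∩ S) < Metric.diam S) → d + 1 < T.card := by
  obtain ⟨d, hd, S, h1, h2, h3⟩ := kahn_kalai_borsuk 2 2
  refine ⟨d, S, h1, h2, fun T hT hs => lt_of_le_of_lt ?_ (h3 T hT hs)⟩
  nlinarith

end FA.Summary

end
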