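import Fermat.Agent.Brouwer.Basic
import Fermat.Agent.BorsukUlam.HamSandwich

/-!
# The theorem of Borsuk and Ulam

* `borsuk_ulam`: every continuous map from the `n`-sphere to `ℝ ^ n` identifies two antipodes;
* `no_odd_map_of_spheres`: there is no continuous odd map to a sphere of smaller dimension;
* `no_continuous_retraction`: the closed ball does not retract continuously onto its sphere;
* `lusternik_schnirelmann`: `n + 1` sets covering the `n`-sphere, each of the first `n` open or
  closed, have a member with two antipodes;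
* `tucker_lemma`: an odd labelling of the `n`-sphere by `±1, …, ±n` gives opposite labels to two
  points as close as one likes;
* `ham_sandwich_theorem`: one hyperplane halves the volumes of `n` sets in `ℝ ^ n`.
-/

set_option autoImplicit false

noncomputable section

open Metric Module Set MeasureTheory
open scoped InnerProductSpace

namespace FA.Summary

/-- **The theorem of Borsuk and Ulam.** -/
theorem borsuk_ulam {n : ℕ} {f : EuclideanSpace ℝ (Fin (n + 1)) → EuclideanSpace ℝ (Fin n)}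
    (hf : ContinuousOn f (sphere 0 1)) :
    ∃ x ∈ sphere (0 : EuclideanSpace ℝ (Fin (n + 1))) 1, f x = f (-x) :=
  Fermat.Agent.BorsukUlam.borsuk_ulam (by simp) hf

/-- **No odd map to a smaller sphere.** -/
theorem no_odd_map_of_spheres {m n : ℕ} (h : n < m)
    {f : EuclideanSpace ℝ (Fin m) → EuclideanSpace ℝ (Fin n)} (hf : ContinuousOn f (sphere 0 1))
    (hodd : ∀ x ∈ sphere (0 : EuclideanSpace ℝ (Fin m)) 1, f (-x) = -f x)
    (hmap : MapsTo f (sphere 0 1) (sphere 0 1)) : False :=
  Fermat.Agent.BorsukUlam.no_odd_map_to_sphere (by simpa using h) hf hodd hmap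

/-- **The ball does not retract onto its sphere.** -/
theorem no_continuous_retraction {V : Type*} [NormedAddCommGroup V] [NormedSpace ℝ V]
    [FiniteDimensional ℝ V] {r : V → V} (hr : ContinuousOn r (closedBall 0 1))
    (hnorm : ∀ x ∈ closedBall (0 : V) 1, ‖r x‖ = 1) (hfix : ∀ x : V, ‖x‖ = 1 → r x = x) :
    False := by
  obtain ⟨x, hx, he⟩ := FA.Brouwer.exists_fixed (isCompact_closedBall (0 : V) 1)
    (convex_closedBall 0 1) ⟨0, mem_closedBall_self zero_le_one⟩ hr.neg
    fun x hx => by simp [hnorm x hx]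
  rw [Pi.neg_apply] at he
  have hn : ‖x‖ = 1 := by rw [← he, norm_neg, hnorm x hx]
  rw [hfix x hn, neg_eq_iff_add_eq_zero, ← two_smul ℝ] at he
  rw [(smul_eq_zero.1 he).resolve_left two_ne_zero, norm_zero] at hn
  exact zero_ne_one hn

/-- **The covering theorem of Lusternik and Schnirelmann.** -/
theorem lusternik_schnirelmann {n : ℕ} (A : Fin (n + 1) → Set (EuclideanSpace ℝ (Fin (n + 1))))
    (hA : ∀ i : Fin n, IsOpen (A i.castSucc) ∨ IsClosed (A i.castSucc))
    (hcov : sphere 0 1 ⊆ ⋃ i, A i) :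
    ∃ i, ∃ x ∈ sphere (0 : EuclideanSpace ℝ (Fin (n + 1))) 1, x ∈ A i ∧ -x ∈ A i :=
  Fermat.Agent.BorsukUlam.lusternik_schnirelmann (by simp) A hA hcov

/-- **Tucker's lemma**, metric form. -/
theorem tucker_lemma {n : ℕ} (L : EuclideanSpace ℝ (Fin (n + 1)) → Fin n × Bool)
    (hodd : ∀ x ∈ sphere (0 : EuclideanSpace ℝ (Fin (n + 1))) 1, L (-x) = ((L x).1, !(L x).2))
    {ε : ℝ} (hε : 0 < ε) :
    ∃ x ∈ sphere (0 : EuclideanSpace ℝ (Fin (n + 1))) 1,
      ∃ y ∈ sphere (0 : EuclideanSpace ℝ (Fin (n + 1))) 1,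
        dist x y < ε ∧ (L x).1 = (L y).1 ∧ (L x).2 ≠ (L y).2 :=
  Fermat.Agent.BorsukUlam.tucker (by simp) L hodd hε

/-- **The ham sandwich theorem.** -/
theorem ham_sandwich_theorem {n : ℕ} (hn : 0 < n) (A : Fin n → Set (EuclideanSpace ℝ (Fin n)))
    (hA : ∀ i, volume (A i) ≠ ⊤) :
    ∃ u : EuclideanSpace ℝ (Fin n), u ≠ 0 ∧ ∃ t : ℝ, ∀ i,
      volume ({x | t < ⟪u, x⟫_ℝ} ∩ A i) = volume ({x | ⟪u, x⟫_ℝ < t} ∩ A i) := by
  obtain ⟨u, hu, t, h⟩ := Fermat.Agent.BorsukUlam.ham_sandwich_volume (by simpa using hn) volume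
    (fun i => A (Fin.cast (by simp) i)) fun i => hA _
  exact ⟨u, hu, t, fun i => by simpa using h (Fin.cast (by simp) i)⟩

end FA.Summary

end
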