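import Fermat.Agent.BorweinSeries.Main

/-!
# Borwein's theorem

`∑ 1 / (q ^ n + r)` is irrational for an integer `q` with `|q| ≥ 2` and a rational `r ≠ 0` such
that no term is undefined (Borwein 1992).
-/

set_option autoImplicit false

noncomputable section

namespace FA.Summary

/-- The series converges. -/
theorem borwein_series_summable (q : ℤ) (hq : 2 ≤ |q|) (r : ℝ) :
    Summable fun n : ℕ => 1 / ((q : ℝ) ^ (n + 1) + r) :=
  BorweinSeries.summable_borwein q hq r

/-- **Borwein's theorem**: `∑_{n ≥ 1} 1 / (q ^ n + r)` is irrational. -/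
theorem borwein_series_irrational (q : ℤ) (hq : 2 ≤ |q|) (r : ℚ) (hr0 : r ≠ 0)
    (hr : ∀ n : ℕ, 1 ≤ n → r ≠ -(q : ℚ) ^ n) :
    Irrational (∑' n : ℕ, 1 / ((q : ℝ) ^ (n + 1) + (r : ℝ))) :=
  BorweinSeries.irrational_borwein q hq r hr0 hr

/-- `∑_{n ≥ 1} 1 / (2 ^ n + 1)` is irrational. -/
theorem two_pow_add_one_irrational : Irrational (∑' n : ℕ, 1 / ((2 : ℝ) ^ (n + 1) + 1)) := by
  have h := borwein_series_irrational 2 (by norm_num) 1 one_ne_zero fun n _ h => by
    have h2 : (0 : ℚ) < (2 : ℚ) ^ n := by positivity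
    push_cast at h
    linarith
  simpa using h

end FA.Summary
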