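import Fermat.Agent.Tau.SiegelDiscriminant

/-!
# Gauss's conjecture for all discriminants and singular moduli of bounded degree

`h(D)` is the number of reduced primitive forms of negative discriminant `D`.

* `discriminant_classNumber_lower_bound`: `h(D) ≥ C(ε) |D|^(1/2 - ε)`.
* `discriminant_classNumber_finite`: only finitely many discriminants have `h(D) ≤ B`.
* `singularModuli_finite_of_degree`: for every `d` only finitely many complex numbers are values
  of `j` at imaginary quadratic points and have degree at most `d` over `ℚ`.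
* `cmInvariants_finite_of_degree`: for every `d` only finitely many `j`-invariants of elliptic
  curves over subfields of `ℂ` of degree at most `d` over `ℚ` have complex multiplication.

All four are INEFFECTIVE: they rest on Siegel's theorem, which gives no way to compute the
finite sets.
-/

set_option autoImplicit false
set_option linter.style.haveILetI false

noncomputable section

open UpperHalfPlane hiding I
open ModularForm EisensteinSeries

namespace FA.Summary

/-- **Siegel's lower bound for all negative discriminants** (ineffective). -/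
theorem discriminant_classNumber_lower_bound (ε : ℝ) (hε : 0 < ε) :
    ∃ C : ℝ, 0 < C ∧ ∀ D : ℤ, D < 0 → D % 4 = 0 ∨ D % 4 = 1 →
      C * |(D : ℝ)| ^ (1 / 2 - ε) ≤
        ({t : ℤ × ℤ × ℤ | t.2.1 ^ 2 - 4 * t.1 * t.2.2 = D ∧
          Int.gcd (Int.gcd t.1 t.2.1) t.2.2 = 1 ∧ 0 < t.1 ∧ |t.2.1| ≤ t.1 ∧ t.1 ≤ t.2.2 ∧
          ((|t.2.1| = t.1 ∨ t.1 = t.2.2) → 0 ≤ t.2.1)}.ncard : ℝ) :=
  FA.SiegelDiscriminant.ncard_red_lower_bound ε hε

/-- **Gauss's conjecture for all negative discriminants** (ineffective): only finitely many have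
class number at most `B`. -/
theorem discriminant_classNumber_finite (B : ℕ) :
    {D : ℤ | D < 0 ∧ (D % 4 = 0 ∨ D % 4 = 1) ∧
      {t : ℤ × ℤ × ℤ | t.2.1 ^ 2 - 4 * t.1 * t.2.2 = D ∧
        Int.gcd (Int.gcd t.1 t.2.1) t.2.2 = 1 ∧ 0 < t.1 ∧ |t.2.1| ≤ t.1 ∧ t.1 ≤ t.2.2 ∧
        ((|t.2.1| = t.1 ∨ t.1 = t.2.2) → 0 ≤ t.2.1)}.ncard ≤ B}.Finite :=
  FA.SiegelDiscriminant.finite_red_le B

/-- **Singular moduli of bounded degree are finitely many** (ineffective). -/
theorem singularModuli_finite_of_degree (d : ℕ) :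
    {z : ℂ | ∃ (a b c : ℤ) (τ : ℍ), a ≠ 0 ∧ (a : ℂ) * (τ : ℂ) ^ 2 + b * (τ : ℂ) + c = 0 ∧
      E₄ τ ^ 3 / ModularForm.discriminant τ = z ∧ (minpoly ℚ z).natDegree ≤ d}.Finite :=
  FA.SiegelDiscriminant.finite_values_natDegree_le d

/-- **CM invariants over fields of bounded degree are finitely many** (ineffective). -/
theorem cmInvariants_finite_of_degree (d : ℕ) :
    {z : ℂ | ∃ (K : IntermediateField ℚ ℂ) (_ : FiniteDimensional ℚ K)
      (E : WeierstrassCurve K) (_ : E.IsElliptic) (L : PeriodPair) (w : ℂ),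
      Module.finrank ℚ K ≤ d ∧ L.g₂ = (E.c₄ : ℂ) / 12 ∧ L.g₃ = (E.c₆ : ℂ) / 216 ∧
      w.im ≠ 0 ∧ (∀ l ∈ L.lattice, w * l ∈ L.lattice) ∧ (E.j : ℂ) = z}.Finite := by
  refine (FA.SiegelDiscriminant.finite_values_natDegree_le d).subset ?_
  rintro z ⟨K, hK, E, hE, L, w, hd, h2, h3, hw, hs, rfl⟩
  set W := E.map K.val.toRingHom
  have h4 : W.c₄ = (E.c₄ : ℂ) := E.map_c₄ _
  have h6 : W.c₆ = (E.c₆ : ℂ) := E.map_c₆ _
  obtain ⟨a, b, c, τ, ha, hτ, hj⟩ := FA.SiegelDiscriminant.exists_quadratic (W := W)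
    (by rw [h4]; exact h2) (by rw [h6]; exact h3) hw hs
  refine ⟨a, b, c, τ, ha, hτ, hj.trans (E.map_j _), ?_⟩
  rw [show minpoly ℚ (E.j : ℂ) = minpoly ℚ E.j from
    minpoly.algHom_eq K.val K.val.injective E.j]
  exact (minpoly.natDegree_le E.j).trans hd

end FA.Summary

end
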