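import Fermat.Agent.BoundedGaps.Main
import Mathlib.Data.Nat.Nth
import Mathlib.NumberTheory.SmoothNumbers

/-!
# Bounded gaps between primes: the theorem of Maynard and Tao

For every `m` there is an `H` such that infinitely many intervals of length `H` contain more than
`m` primes; equivalently `liminf (p (n + m) - p n)` is finite (Maynard and Tao, 2013; the case
`m = 1` is due to Zhang). In particular some positive integer is infinitely often a difference of
two primes.

The proof is Maynard's multidimensional sieve on `2 ^ L` consecutive terms of the progression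
`1 mod D!`, with the theorem of Bombieri and Vinogradov. The value of `H` is NOT explicit and is
far from the best known (`246` for `m = 1`), the dependence `H ≪ exp (c m)` is not proved, and the
lower limit for the start of the intervals is ineffective.
-/

set_option autoImplicit false

namespace FA.BoundedGaps.Summary

open Finset

/-- **The theorem of Maynard and Tao.** -/
theorem maynard_tao (m : ℕ) : ∃ H : ℕ, ∀ n₀ : ℕ, ∃ n, n₀ ≤ n ∧
    m < ((Icc n (n + H)).filter Nat.Prime).card := by
  obtain ⟨k, D₀, hk, h⟩ := exists_prime_forms m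
  obtain ⟨D, hD, hkD⟩ : ∃ D, D₀ ≤ D ∧ k ≤ D :=
    ⟨max D₀ k, le_max_left _ _, le_max_right _ _⟩
  let inst : FA.BoundedGaps.Shifts := ⟨fun i => D.factorial * i + 1⟩
  have hsh : ∀ i, shift i = D.factorial * i + 1 := fun i => rfl
  refine ⟨D.factorial * k, fun n₀ => ?_⟩
  obtain ⟨j, hj, hcard⟩ := h D hD (admissibleTuple_consecutive hkD) n₀
  have hW := Nat.factorial_pos D
  refine ⟨FA.BoundedGaps.form D 0 j, ?_, hcard.trans_le ?_⟩
  · have := Nat.le_mul_of_pos_left j hW
    rw [form, hsh]
    omega
  · refine card_le_card_of_injOn (fun i : Fin k => FA.BoundedGaps.form D i j) (fun i hi => ?_)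
      fun i _ i' _ e => ?_
    · rw [mem_coe, mem_filter] at hi
      rw [mem_coe, mem_filter, mem_Icc]
      refine ⟨⟨?_, ?_⟩, hi.2⟩ <;> simp only [form, hsh]
      · omega
      · have := Nat.mul_le_mul_left D.factorial i.2.le
        omega
    · exact Fin.ext (by simpa [form, hsh, hW.ne'] using e)

/-- The same for the sequence of primes: `p (n + m) ≤ p n + H` infinitely often. -/
theorem maynard_tao_nth (m : ℕ) : ∃ H : ℕ, ∀ n₀ : ℕ, ∃ n, n₀ ≤ n ∧
    Nat.nth Nat.Prime (n + m) ≤ Nat.nth Nat.Prime n + H := by
  obtain ⟨H, h⟩ := maynard_tao m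
  refine ⟨H, fun n₀ => ?_⟩
  obtain ⟨n, hn, hcard⟩ := h (Nat.nth Nat.Prime n₀)
  refine ⟨Nat.count Nat.Prime n, ?_, ?_⟩
  · rw [← Nat.count_nth_of_infinite Nat.infinite_setOfPred_prime n₀]
    exact Nat.count_monotone _ hn
  · have hcount : Nat.count Nat.Prime n + m < Nat.count Nat.Prime (n + H + 1) := by
      rw [Nat.count_eq_card_filter_range, Nat.count_eq_card_filter_range]
      have e : range (n + H + 1) = range n ∪ Icc n (n + H) := by
        ext x
        simp only [mem_range, mem_union, mem_Icc]
        omega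
      rw [e, filter_union, card_union_of_disjoint (disjoint_filter_filter
        (disjoint_left.2 fun x h1 h2 => by
          rw [mem_range] at h1
          rw [mem_Icc] at h2
          omega))]
      refine Nat.add_lt_add_left ?_ _
      convert hcard
    have h1 := Nat.nth_lt_of_lt_count hcount
    have h2 : n ≤ Nat.nth Nat.Prime (Nat.count Nat.Prime n) :=
      Nat.le_nth_count Nat.infinite_setOfPred_prime n
    omega

/-- **Bounded gaps between primes.** -/
theorem bounded_prime_gaps : ∃ H : ℕ,
    {n : ℕ | Nat.nth Nat.Prime (n + 1) - Nat.nth Nat.Prime n ≤ H}.Infinite := by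
  obtain ⟨H, h⟩ := maynard_tao_nth 1
  refine ⟨H, Set.infinite_of_forall_exists_gt fun a => ?_⟩
  obtain ⟨n, hn, hle⟩ := h (a + 1)
  exact ⟨n, show _ - _ ≤ H by omega, by omega⟩

/-- Some positive `h` is infinitely often a difference of two primes. -/
theorem exists_prime_difference : ∃ h : ℕ, 0 < h ∧
    {p : ℕ | p.Prime ∧ (p + h).Prime}.Infinite := by
  obtain ⟨H, hH⟩ := bounded_prime_gaps
  by_contra hcon
  push Not at hcon
  refine hH (Set.Finite.subset ((Set.Finite.biUnion (Icc 1 H).finite_toSet
    (t := fun h => {p : ℕ | p.Prime ∧ (p + h).Prime}) fun h hh => hcon h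
      (Finset.mem_Icc.1 (Finset.mem_coe.1 hh)).1).preimage
        (Nat.nth_injective Nat.infinite_setOfPred_prime).injOn) fun n hn => ?_)
  have h1 : Nat.nth Nat.Prime n < Nat.nth Nat.Prime (n + 1) :=
    Nat.nth_strictMono Nat.infinite_setOfPred_prime (Nat.lt_succ_self n)
  have h2 : Nat.nth Nat.Prime (n + 1) - Nat.nth Nat.Prime n ≤ H := hn
  simp only [Set.mem_preimage, Set.mem_iUnion, mem_coe, mem_Icc]
  refine ⟨Nat.nth Nat.Prime (n + 1) - Nat.nth Nat.Prime n, ⟨by omega, h2⟩,
    Nat.prime_nth_prime n, ?_⟩
  rw [Nat.add_sub_cancel' h1.le]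
  exact Nat.prime_nth_prime (n + 1)

end FA.BoundedGaps.Summary
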