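import Fermat.Agent.BoundedGeneration.Main

/-!
# Bounded generation by semisimple elements

The theorem of Corvaja, Rapinchuk, Ren and Zannier: a linear group in characteristic zero that is a
product of finitely many cyclic subgroups generated by semisimple elements of it consists of
semisimple elements and has an abelian subgroup of finite index; so a group with a unipotent element
other than one, like the image of `GL₂(ℤ)`, is no such product. Behind it the theorem of Jarden and
Narkiewicz: no finitely generated group yields all natural numbers as sums of boundedly many of its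
elements. Proved from the unit equation in several variables, without generic elements or algebraic
groups. The converse (virtually abelian anisotropic groups are so generated) is not proved here.
-/

set_option autoImplicit false

noncomputable section

namespace FA.Summary

/-- **Bounded generation by semisimple elements** (Corvaja, Rapinchuk, Ren and Zannier). -/
theorem bounded_generation_semisimple {K : Type*} [Field K] [CharZero K] {n : ℕ}
    (G : Subgroup (Matrix.GeneralLinearGroup (Fin n) K)) {k : ℕ}
    (g : Fin k → Matrix.GeneralLinearGroup (Fin n) K) (hg : ∀ i, g i ∈ G)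
    (hss : ∀ i, Module.End.IsSemisimple (Matrix.toLin' (g i : Matrix (Fin n) (Fin n) K)))
    (hgen : ∀ x ∈ G, ∃ a : Fin k → ℤ, x = (List.ofFn fun i => g i ^ a i).prod) :
    (∀ x ∈ G, Module.End.IsSemisimple (Matrix.toLin' (x : Matrix (Fin n) (Fin n) K))) ∧
      ∃ A : Subgroup G, A.FiniteIndex ∧ ∀ x ∈ A, ∀ y ∈ A, x * y = y * x :=
  BoundedGeneration.bounded_generation G g hg hss hgen

/-- **Unipotent elements obstruct** bounded generation by semisimple elements. -/
theorem bounded_generation_unipotent {K : Type*} [Field K] [CharZero K] {n : ℕ}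
    (G : Subgroup (Matrix.GeneralLinearGroup (Fin n) K))
    {u : Matrix.GeneralLinearGroup (Fin n) K} (hu : u ∈ G) (hu1 : u ≠ 1)
    (hnil : IsNilpotent ((u : Matrix (Fin n) (Fin n) K) - 1)) {k : ℕ}
    (g : Fin k → Matrix.GeneralLinearGroup (Fin n) K) (hg : ∀ i, g i ∈ G)
    (hss : ∀ i, Module.End.IsSemisimple (Matrix.toLin' (g i : Matrix (Fin n) (Fin n) K))) :
    ∃ x ∈ G, ∀ a : Fin k → ℤ, x ≠ (List.ofFn fun i => g i ^ a i).prod :=
  BoundedGeneration.not_bounded_generation G hu hu1 hnil g hg hss

/-- **`GL₂(ℤ)`** is not boundedly generated by semisimple elements. -/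
theorem bounded_generation_GL_two_int {k : ℕ}
    (g : Fin k → Matrix.GeneralLinearGroup (Fin 2) ℚ)
    (hg : ∀ i, g i ∈ (Matrix.GeneralLinearGroup.map (n := Fin 2) (Int.castRingHom ℚ)).range)
    (hss : ∀ i, Module.End.IsSemisimple (Matrix.toLin' (g i : Matrix (Fin 2) (Fin 2) ℚ))) :
    ∃ x ∈ (Matrix.GeneralLinearGroup.map (n := Fin 2) (Int.castRingHom ℚ)).range,
      ∀ a : Fin k → ℤ, x ≠ (List.ofFn fun i => g i ^ a i).prod := by
  let u : Matrix.GeneralLinearGroup (Fin 2) ℤ :=
    ⟨!![1, 1; 0, 1], !![1, -1; 0, 1], by ext i j; fin_cases i <;> fin_cases j <;> simp,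
      by ext i j; fin_cases i <;> fin_cases j <;> simp⟩
  refine bounded_generation_unipotent
    (Matrix.GeneralLinearGroup.map (n := Fin 2) (Int.castRingHom ℚ)).range
    (u := Matrix.GeneralLinearGroup.map (Int.castRingHom ℚ) u)
    (MonoidHom.mem_range.2 ⟨u, rfl⟩) (fun h => ?_) ⟨2, ?_⟩ g hg hss
  · have := congrArg (fun m : Matrix.GeneralLinearGroup (Fin 2) ℚ =>
      (m : Matrix (Fin 2) (Fin 2) ℚ) 0 1) h
    simp [u] at this
  · ext i j
    fin_cases i <;> fin_cases j <;> simp [u, pow_two, Matrix.mul_apply]

/-- **Jarden–Narkiewicz**: some natural number is no sum of at most `N` elements of a finitely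
generated group. -/
theorem jarden_narkiewicz {K : Type*} [Field K] [CharZero K] {M : Subgroup Kˣ} (hM : M.FG)
    (N : ℕ) : ∃ m : ℕ, ∀ (T : Finset (Fin N)) (u : Fin N → Kˣ), (∀ i, u i ∈ M) →
      (m : K) ≠ ∑ i ∈ T, (u i : K) := by
  obtain ⟨m, hm⟩ := BoundedGeneration.exists_not_shortSum hM N 0 (one_ne_zero : (1 : K) ≠ 0)
  exact ⟨m, fun T u hu h => hm ⟨T, u, hu, by rw [zero_add, one_mul, h]⟩⟩

end FA.Summary

end
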