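import Fermat.Agent.BoundedRemainder.Main

/-!
# The theorem of Hecke and Kesten

* `hecke_kesten`: for irrational `α` and `[a, b) ⊆ [0, 1]` the error
  `#{n < N : {n α} ∈ [a, b)} - N (b - a)` stays bounded iff `b - a ∈ α ℤ + ℤ`;
* `half_interval_not_bounded`: so never for `[0, 1 / 2)`.

Complements `SummaryRothDiscrepancy`; independent of S01.
-/

set_option autoImplicit false

noncomputable section

open Finset

namespace FA.BoundedRemainder.Summary

/-- **Hecke, Kesten.** -/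
theorem hecke_kesten {α a b : ℝ} (hα : Irrational α) (ha : 0 ≤ a) (hab : a ≤ b) (hb : b ≤ 1) :
    (∃ C : ℝ, ∀ N : ℕ, |(#((range N).filter fun n : ℕ =>
      Int.fract ((n : ℝ) * α) ∈ Set.Ico a b) : ℝ) - N * (b - a)| ≤ C) ↔
      ∃ k m : ℤ, b - a = k * α + m := by
  simp only [← remainder_zero_eq ha hab hb]
  refine ⟨fun ⟨C, hC⟩ => exists_of_bounded hα ha hab hb hC,
    fun ⟨k, m, h⟩ => ⟨|(k : ℝ)|, fun N => ?_⟩⟩
  exact abs_remainder_le h N 0

/-- The half interval. -/
theorem half_interval_not_bounded {α : ℝ} (hα : Irrational α) (C : ℝ) :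
    ∃ N : ℕ, C < |(#((range N).filter fun n : ℕ =>
      Int.fract ((n : ℝ) * α) ∈ Set.Ico 0 (1 / 2)) : ℝ) - N / 2| := by
  by_contra hcon
  push Not at hcon
  obtain ⟨k, m, h⟩ := (hecke_kesten hα le_rfl (by norm_num : (0 : ℝ) ≤ 1 / 2) (by norm_num)).1
    ⟨C, fun N => by simpa [div_eq_mul_inv] using hcon N⟩
  rcases eq_or_ne k 0 with rfl | hk
  · have : ((1 : ℤ) : ℝ) = ((2 * m : ℤ) : ℝ) := by push_cast at h ⊢; linarith
    have := Int.cast_inj.1 this
    omega
  · refine hα ⟨(1 / 2 - m) / k, ?_⟩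
    have : (k : ℝ) ≠ 0 := Int.cast_ne_zero.2 hk
    push_cast
    rw [div_eq_iff this]
    linarith

end FA.BoundedRemainder.Summary

end
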