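import Fermat.Agent.StrongApproximation.Main

/-!
# Strong approximation in `SL₂ (ℤ)`

For a finitely generated subgroup of `SL₂ (ℤ)` the following agree: it is not virtually solvable,
it contains a free group of rank two, it surjects onto `SL₂ (ℤ / m)` for every `m` without small
prime factors (the strong approximation theorem of Matthews, Vaserstein and Weisfeiler).
-/

set_option autoImplicit false

noncomputable section

namespace FA.Summary

open Matrix FA.StrongApprox

/-- **Strong approximation.** -/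
theorem sl2_strong_approximation {Γ : Subgroup (SpecialLinearGroup (Fin 2) ℤ)} (hΓ : Γ.FG)
    (h : ¬ ∃ H : Subgroup Γ, H.FiniteIndex ∧ Group.IsSolvable H) :
    ∃ N, ∀ m, 0 < m → (∀ p, p.Prime → p ∣ m → N < p) →
      Γ.map (SpecialLinearGroup.map (Int.castRingHom (ZMod m))) = ⊤ := by
  obtain ⟨f, hf⟩ := (virtSolvable_or_free hΓ).resolve_left h
  obtain ⟨S, hS, hon⟩ := exists_bound_of_free hf
  exact ⟨S, fun m hm hfac => onto_of_primes hS hon m hm fun p hp hpm => (hfac p hp hpm).le⟩

/-- **Onto modulo almost all primes exactly for the groups which are not virtually solvable.** -/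
theorem sl2_strong_approximation_iff {Γ : Subgroup (SpecialLinearGroup (Fin 2) ℤ)} (hΓ : Γ.FG) :
    (∃ N, ∀ p, p.Prime → N < p →
        Γ.map (SpecialLinearGroup.map (Int.castRingHom (ZMod p))) = ⊤) ↔
      ¬ ∃ H : Subgroup Γ, H.FiniteIndex ∧ Group.IsSolvable H := by
  refine ⟨fun ⟨N, hN⟩ hv => ?_, fun h => ?_⟩
  · obtain ⟨S, hS⟩ := not_onto_of_virtSolvable hv
    obtain ⟨p, hle, hp⟩ := Nat.exists_infinite_primes (max S (N + 1))
    exact hS p hp (le_of_max_le_left hle) (hN p hp (le_of_max_le_right hle))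
  · obtain ⟨N, hN⟩ := sl2_strong_approximation hΓ h
    exact ⟨N, fun p hp hle => hN p hp.pos fun q hq hqp =>
      ((Nat.prime_dvd_prime_iff_eq hq hp).1 hqp).symm ▸ hle⟩

/-- **The same for free subgroups of rank two.** -/
theorem sl2_strong_approximation_iff_free {Γ : Subgroup (SpecialLinearGroup (Fin 2) ℤ)}
    (hΓ : Γ.FG) :
    (∃ N, ∀ p, p.Prime → N < p →
        Γ.map (SpecialLinearGroup.map (Int.castRingHom (ZMod p))) = ⊤) ↔
      ∃ f : FreeGroup (Fin 2) →* Γ, Function.Injective f :=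
  (sl2_strong_approximation_iff hΓ).trans
    ⟨(virtSolvable_or_free hΓ).resolve_left,
      fun h hv => TitsAlternative.not_free_and_virtually_solvable hv h⟩

/-- **Infinitely many primes or finitely many failures**: there is nothing in between. -/
theorem sl2_strong_approximation_dichotomy {Γ : Subgroup (SpecialLinearGroup (Fin 2) ℤ)}
    (hΓ : Γ.FG) :
    {p | p.Prime ∧ Γ.map (SpecialLinearGroup.map (Int.castRingHom (ZMod p))) = ⊤}.Finite ∨
      {p | p.Prime ∧ Γ.map (SpecialLinearGroup.map (Int.castRingHom (ZMod p))) ≠ ⊤}.Finite := by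
  by_cases hv : ∃ H : Subgroup Γ, H.FiniteIndex ∧ Group.IsSolvable H
  · obtain ⟨S, hS⟩ := not_onto_of_virtSolvable hv
    exact .inl ((Set.finite_lt_nat S).subset fun p hp =>
      not_le.1 fun hle => hS p hp.1 hle hp.2)
  · obtain ⟨N, hN⟩ := (sl2_strong_approximation_iff hΓ).2 hv
    exact .inr ((Set.finite_le_nat N).subset fun p hp =>
      not_lt.1 fun hlt => hp.2 (hN p hp.1 hlt))

/-- **The exceptions are needed**: `⟨(1 3; 0 1), (1 0; 3 1)⟩` is not virtually solvable, is onto
modulo every prime but `3` and is trivial modulo `3`. -/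
theorem sl2_strong_approximation_exception :
    ∃ Γ : Subgroup (SpecialLinearGroup (Fin 2) ℤ), Γ.FG ∧
      (¬ ∃ H : Subgroup Γ, H.FiniteIndex ∧ Group.IsSolvable H) ∧
      (∀ p, p.Prime → p ≠ 3 →
        Γ.map (SpecialLinearGroup.map (Int.castRingHom (ZMod p))) = ⊤) ∧
      Γ.map (SpecialLinearGroup.map (Int.castRingHom (ZMod 3))) = ⊥ := by
  classical
  set Γ := Subgroup.closure ({U 3, L 3} : Set (SpecialLinearGroup (Fin 2) ℤ))
  have hfg : Γ.FG := Subgroup.fg_iff _ |>.2 ⟨_, rfl, Set.toFinite _⟩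
  have hon : ∀ p, p.Prime → p ≠ 3 →
      Γ.map (SpecialLinearGroup.map (Int.castRingHom (ZMod p))) = ⊤ := by
    intro p hp hp3
    have : Fact p.Prime := ⟨hp⟩
    have h3 : ((3 : ℕ) : ZMod p) ≠ 0 := fun e =>
      hp3 ((Nat.prime_dvd_prime_iff_eq hp Nat.prime_three).1 ((ZMod.natCast_eq_zero_iff _ _).1 e))
    refine eq_top_of_transvections h3 h3 ⟨U 3, Subgroup.subset_closure (.inl rfl), ?_⟩
      ⟨L 3, Subgroup.subset_closure (.inr rfl), ?_⟩
    · rw [map_U, map_ofNat, Nat.cast_ofNat]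
    · rw [map_L, map_ofNat, Nat.cast_ofNat]
  refine ⟨Γ, hfg, (sl2_strong_approximation_iff hfg).1 ⟨3, fun p hp hlt => hon p hp hlt.ne'⟩,
    hon, ?_⟩
  have h0 : (3 : ZMod 3) = 0 := by decide
  rw [MonoidHom.map_closure, Subgroup.closure_eq_bot_iff]
  rintro _ ⟨x, rfl | rfl, rfl⟩
  · rw [map_U, map_ofNat, h0, U_zero]
    rfl
  · rw [map_L, map_ofNat, h0, L_zero]
    rfl

/-- **The hypothesis is needed**: the unipotent upper triangular group is onto modulo no prime. -/
theorem sl2_strong_approximation_cyclic (p : ℕ) (hp : p.Prime) :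
    (Subgroup.zpowers (U (1 : ℤ))).map
      (SpecialLinearGroup.map (Int.castRingHom (ZMod p))) ≠ ⊤ := by
  have : Fact p.Prime := ⟨hp⟩
  intro h
  rw [MonoidHom.map_zpowers] at h
  have hc : ∀ g : SL2 (ZMod p), ∃ k : ℤ, red p (U 1) ^ k = g := fun g =>
    Subgroup.mem_zpowers_iff.1 (h ▸ Subgroup.mem_top g)
  obtain ⟨a, ha⟩ := hc (U 1)
  obtain ⟨b, hb⟩ := hc (L 1)
  have hcomm : U (1 : ZMod p) * L 1 = L 1 * U 1 := by
    rw [← ha, ← hb, ← _root_.zpow_add, ← _root_.zpow_add, add_comm]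
  have := congrFun (congrFun (congrArg Subtype.val hcomm) 0) 0
  simp [U, L, Matrix.mul_apply, Fin.sum_univ_two] at this

end FA.Summary

end
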