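import Fermat.Agent.BourgainGamburd.Main
import Fermat.Agent.Root.SummaryStrongApproximation

/-!
# Expanders from `SL₂ (ℤ)`

The theorem of Bourgain and Gamburd (2008): the Cayley graphs of `SL₂ (𝔽_p)` for the reductions of
a finite subset of `SL₂ (ℤ)` are expanders exactly when it generates a group which is not virtually
solvable.
-/

set_option autoImplicit false

noncomputable section

namespace FA.Summary

open Matrix Finset
open scoped Pointwise

/-- **The spectral gap.** -/
theorem sl2_spectral_gap {S : Finset (SpecialLinearGroup (Fin 2) ℤ)}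
    (h : ¬ ∃ H : Subgroup (Subgroup.closure (S : Set (SpecialLinearGroup (Fin 2) ℤ))),
      H.FiniteIndex ∧ Group.IsSolvable H) :
    ∃ (c : ℝ) (N : ℕ), 0 < c ∧ ∀ (p : ℕ) [Fact p.Prime], N < p →
      ∀ f : SpecialLinearGroup (Fin 2) (ZMod p) → ℝ, ∑ x, f x = 0 →
        ∃ s ∈ S, c * ∑ x, f x ^ 2 ≤
          ∑ x, (f ((SpecialLinearGroup.map (Int.castRingHom (ZMod p)) s)⁻¹ * x) - f x) ^ 2 :=
  BourgainGamburd.gap_of_not_virtSolvable h

/-- **Expanders.** -/
theorem sl2_expander {S : Finset (SpecialLinearGroup (Fin 2) ℤ)}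
    (h : ¬ ∃ H : Subgroup (Subgroup.closure (S : Set (SpecialLinearGroup (Fin 2) ℤ))),
      H.FiniteIndex ∧ Group.IsSolvable H) :
    ∃ (c : ℝ) (N : ℕ), 0 < c ∧ ∀ (p : ℕ) [Fact p.Prime], N < p →
      ∀ X : Finset (SpecialLinearGroup (Fin 2) (ZMod p)),
        2 * #X ≤ Fintype.card (SpecialLinearGroup (Fin 2) (ZMod p)) →
        (1 + c) * #X ≤
          (#(X ∪ S.image (SpecialLinearGroup.map (Int.castRingHom (ZMod p))) * X) : ℝ) :=
  BourgainGamburd.expansion_of_not_virtSolvable h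

/-- **Expanders exactly for the groups which are not virtually solvable.** -/
theorem sl2_expander_iff (S : Finset (SpecialLinearGroup (Fin 2) ℤ)) :
    (∃ (c : ℝ) (N : ℕ), 0 < c ∧ ∀ (p : ℕ) [Fact p.Prime], N < p →
      ∀ X : Finset (SpecialLinearGroup (Fin 2) (ZMod p)),
        2 * #X ≤ Fintype.card (SpecialLinearGroup (Fin 2) (ZMod p)) →
        (1 + c) * #X ≤
          (#(X ∪ S.image (SpecialLinearGroup.map (Int.castRingHom (ZMod p))) * X) : ℝ)) ↔
      ¬ ∃ H : Subgroup (Subgroup.closure (S : Set (SpecialLinearGroup (Fin 2) ℤ))),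
        H.FiniteIndex ∧ Group.IsSolvable H := by
  refine ⟨fun ⟨c, N, hc, hX⟩ => ?_, sl2_expander⟩
  refine (sl2_strong_approximation_iff
    (Subgroup.fg_iff _ |>.2 ⟨_, rfl, S.finite_toSet⟩)).1 ⟨N, fun p hp hle => ?_⟩
  have : Fact p.Prime := ⟨hp⟩
  exact BourgainGamburd.onto_of_expansion hc (hX p hle)

/-- **Examples**: a pair with expansion, and one element without. -/
theorem sl2_expander_examples :
    (∃ S : Finset (SpecialLinearGroup (Fin 2) ℤ),
      ¬ ∃ H : Subgroup (Subgroup.closure (S : Set (SpecialLinearGroup (Fin 2) ℤ))),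
        H.FiniteIndex ∧ Group.IsSolvable H) ∧
      ∃ S : Finset (SpecialLinearGroup (Fin 2) ℤ), S.Nonempty ∧
        ∃ H : Subgroup (Subgroup.closure (S : Set (SpecialLinearGroup (Fin 2) ℤ))),
          H.FiniteIndex ∧ Group.IsSolvable H := by
  refine ⟨?_, {StrongApprox.U 1}, singleton_nonempty _, ?_⟩
  · obtain ⟨Γ, hfg, hnv, -⟩ := sl2_strong_approximation_exception
    obtain ⟨S, rfl⟩ := hfg
    exact ⟨S, hnv⟩
  · by_contra hnv
    rw [coe_singleton] at hnv
    obtain ⟨N, hN⟩ := (sl2_strong_approximation_iff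
      (Subgroup.fg_iff _ |>.2 ⟨_, rfl, Set.toFinite _⟩)).2 hnv
    obtain ⟨p, hle, hp⟩ := Nat.exists_infinite_primes (N + 1)
    exact sl2_strong_approximation_cyclic p hp (by
      rw [Subgroup.zpowers_eq_closure]
      exact hN p hp hle)

end FA.Summary

end
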