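import Fermat.Agent.SiegelShidlovskii.BesselFraction

/-!
# Siegel's theorems on Bessel functions of integral order

`J_n z = ∑ (-1) ^ l (z / 2) ^ (2 l + n) / (l! (l + n)!)` for natural `n` and complex `z`.

* `bessel_order_transcendental`: `J_n α` is transcendental for every algebraic `α ≠ 0`, so the
  nonzero zeros of `J_n` are transcendental (`bessel_zero_transcendental`);
* `bourget_hypothesis` (Bourget 1866, Siegel 1929): for `m ≥ 1` the functions `J_n` and `J_(n+m)`
  have no common zero other than `0`;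
* `arithmetic_fraction_transcendental`: for natural `b ≥ 1` the number `[0; b, 2 b, 3 b, …]`,
  in particular `[0; 1, 2, 3, …]`, is transcendental; it is `I₁ (2 / b) / I₀ (2 / b)`
  (`arithmetic_fraction_value`);
* `bessel_ratio_transcendental`: so is `I₁ t / I₀ t` for real algebraic `t ≠ 0`.

Complements `SummarySiegelShidlovskiiAlgebraic`; independent of S01.
-/

set_option autoImplicit false

noncomputable section

open Finset
open scoped Nat

namespace FA.SiegelShidlovskii.Summary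

/-- **`J_n α` is transcendental.** -/
theorem bessel_order_transcendental (n : ℕ) {α : ℂ} (hα : IsAlgebraic ℚ α) (hα0 : α ≠ 0) :
    Transcendental ℚ
      (∑' l : ℕ, (-1) ^ l * (α / 2) ^ (2 * l + n) / ((l ! : ℂ) * ((l + n)! : ℂ))) :=
  FA.SiegelShidlovskii.transcendental_besselC n hα hα0

/-- **The zeros of `J_n` are transcendental.** -/
theorem bessel_zero_transcendental (n : ℕ) {z : ℂ} (hz : z ≠ 0)
    (h : ∑' l : ℕ, (-1) ^ l * (z / 2) ^ (2 * l + n) / ((l ! : ℂ) * ((l + n)! : ℂ)) = 0) :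
    Transcendental ℚ z :=
  fun ha => bessel_order_transcendental n ha hz (by rw [h]; exact isAlgebraic_zero)

/-- **Bourget's hypothesis.** -/
theorem bourget_hypothesis (n : ℕ) {m : ℕ} (hm : 0 < m) {z : ℂ} (hz : z ≠ 0)
    (h : ∑' l : ℕ, (-1) ^ l * (z / 2) ^ (2 * l + n) / ((l ! : ℂ) * ((l + n)! : ℂ)) = 0) :
    ∑' l : ℕ, (-1) ^ l * (z / 2) ^ (2 * l + (n + m)) / ((l ! : ℂ) * ((l + (n + m))! : ℂ)) ≠ 0 :=
  FA.SiegelShidlovskii.besselC_add_ne_zero hm hz h

/-- **Continued fractions with partial quotients in arithmetic progression.** -/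
theorem arithmetic_fraction_transcendental {b : ℕ} (hb : 0 < b) {x : ℝ}
    (h0 : (GenContFract.of x).h = 0)
    (hs : ∀ k : ℕ, (GenContFract.of x).s.get? k = some ⟨1, ((k : ℝ) + 1) * b⟩) :
    Transcendental ℚ x :=
  FA.SiegelShidlovskii.transcendental_of_arithmetic_quotients hb h0 hs

/-- **The value of `[0; b, 2 b, 3 b, …]`.** -/
theorem arithmetic_fraction_value {b : ℕ} (hb : 0 < b) :
    let x := (∑' l : ℕ, ((2 / (b : ℝ)) / 2) ^ (2 * l + 1) / ((l ! : ℝ) * ((l + 1)! : ℝ))) /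
      ∑' l : ℕ, ((2 / (b : ℝ)) / 2) ^ (2 * l + 0) / ((l ! : ℝ) * ((l + 0)! : ℝ))
    (GenContFract.of x).h = 0 ∧
      ∀ k : ℕ, (GenContFract.of x).s.get? k = some ⟨1, ((k : ℝ) + 1) * b⟩ :=
  (FA.SiegelShidlovskii.quotients_besselI_ratio hb).2

/-- **`I₁ t / I₀ t` is transcendental.** -/
theorem bessel_ratio_transcendental {t : ℝ} (ht : IsAlgebraic ℚ t) (ht0 : t ≠ 0) :
    Transcendental ℚ ((∑' l : ℕ, (t / 2) ^ (2 * l + 1) / ((l ! : ℝ) * ((l + 1)! : ℝ))) /
      ∑' l : ℕ, (t / 2) ^ (2 * l + 0) / ((l ! : ℝ) * ((l + 0)! : ℝ))) :=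
  FA.SiegelShidlovskii.transcendental_besselI_ratio ht ht0

end FA.SiegelShidlovskii.Summary

end
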