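import Fermat.Agent.Bowen.Bernoulli

/-!
# Bowen's invariant of actions of free groups

For an observable `P` of an action of the free group on `α`, with `r` generators, `Bowen.func` is
`(1 - 2r) H(P) + ∑ H(P ∨ a P)`, the sum over the generators `a`, and `Bowen.fInv` is its infimum
over the joins of `P` along balls. `Bowen.Generates` says that these joins approximate every
observable, and `Gaboriau.groupShift g x` is `h ↦ x (g⁻¹ * h)`. Logarithms are natural.

* `bowen_splitting`: adjoining a translate by a generator of a coarsening does not increase the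
  functional, and so it decreases along balls;
* `bowen_generator_independent` (Bowen): generating observables have the same invariant;
* `bowen_conjugacy`: isomorphic actions have the same invariant at corresponding observables;
* `bowen_f_bernoulli`: a Bernoulli shift has the entropy of one letter as its invariant;
* `bowen_bernoulli` (Bowen): isomorphic Bernoulli shifts of a free group have equal entropy.
-/

set_option autoImplicit false

noncomputable section

open MeasureTheory Real
open FA.KolmogorovSinai (entropy)
open FA.Gaboriau (groupShift)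

namespace FA.Summary

variable {α : Type*} [Fintype α] [DecidableEq α] {X : Type*} [MeasurableSpace X]
  [MulAction (FreeGroup α) X] {μ : Measure X} [IsProbabilityMeasure μ]

/-- **Bowen's splitting lemma.** -/
theorem bowen_splitting (hpres : ∀ g : FreeGroup α, MeasurePreserving (fun x : X => g • x) μ μ)
    {B C : Type*} [Fintype B] [MeasurableSpace B] [MeasurableSingletonClass B] [Fintype C]
    [MeasurableSpace C] [MeasurableSingletonClass C] {P : X → B} (hP : Measurable P) (f : B → C)
    (l : α × Bool) :
    Bowen.func α μ (fun x => (P x, f (P ((Bowen.sign l)⁻¹ • x)))) ≤ Bowen.func α μ P ∧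
      Antitone fun n => Bowen.func α μ (Bowen.obs P (Bowen.ball α n)) :=
  ⟨Bowen.func_split hpres hP f l, Bowen.func_ball_anti hpres hP⟩

/-- **The invariant does not depend on the generating observable.** -/
theorem bowen_generator_independent
    (hpres : ∀ g : FreeGroup α, MeasurePreserving (fun x : X => g • x) μ μ)
    {B C : Type*} [Fintype B] [MeasurableSpace B] [MeasurableSingletonClass B] [Fintype C]
    [MeasurableSpace C] [MeasurableSingletonClass C] {P : X → B} {Q : X → C} (hP : Measurable P)
    (hQ : Measurable Q) (hgP : Bowen.Generates α μ P) (hgQ : Bowen.Generates α μ Q) :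
    Bowen.fInv α μ P = Bowen.fInv α μ Q :=
  le_antisymm (Bowen.fInv_le_of_generates hpres hP hgP hQ hgQ)
    (Bowen.fInv_le_of_generates hpres hQ hgQ hP hgP)

/-- **The invariant is invariant under isomorphism.** -/
theorem bowen_conjugacy (hpres : ∀ g : FreeGroup α, MeasurePreserving (fun x : X => g • x) μ μ)
    {Y : Type*} [MeasurableSpace Y] [MulAction (FreeGroup α) Y] {ν : Measure Y}
    [IsProbabilityMeasure ν]
    (hpres' : ∀ g : FreeGroup α, MeasurePreserving (fun y : Y => g • y) ν ν)
    {Φ : X → Y} {Ψ : Y → X} (hΦ : MeasurePreserving Φ μ ν) (hΨ : Measurable Ψ)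
    (hinv : Ψ ∘ Φ =ᵐ[μ] id)
    (heq : ∀ g : FreeGroup α, (fun x => Φ (g • x)) =ᵐ[μ] fun x => g • Φ x)
    {B C : Type*} [Fintype B] [MeasurableSpace B] [MeasurableSingletonClass B] [Fintype C]
    [MeasurableSpace C] [MeasurableSingletonClass C] {P : X → B} {Q : Y → C} (hP : Measurable P)
    (hQ : Measurable Q) (hgP : Bowen.Generates α μ P) (hgQ : Bowen.Generates α ν Q) :
    Bowen.fInv α μ P = Bowen.fInv α ν Q :=
  (bowen_generator_independent hpres hP (hQ.comp hΦ.measurable) hgP
    (hgQ.comp hΦ hΨ hinv heq hpres' hQ)).trans (Bowen.fInv_comp hpres hpres' hΦ heq hQ)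

variable {A B : Type*} [Fintype A] [MeasurableSpace A] [MeasurableSingletonClass A] [Fintype B]
  [MeasurableSpace B] [MeasurableSingletonClass B]

attribute [local instance] FA.Gaboriau.shiftAction

omit [MeasurableSpace X] [MulAction (FreeGroup α) X] in
/-- **The invariant of a Bernoulli shift.** -/
theorem bowen_f_bernoulli (q : Measure A) [IsProbabilityMeasure q] :
    Bowen.Generates α (Measure.infinitePi fun _ : FreeGroup α => q) (fun x => x 1) ∧
      Bowen.fInv α (Measure.infinitePi fun _ : FreeGroup α => q) (fun x => x 1) =
        ((∑ a, negMulLog (q.real {a}) : ℝ) : EReal) := by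
  refine ⟨Bowen.generates_coord q, ?_⟩
  show ⨅ n, ((Bowen.func α (Bowen.bernF α q) (Bowen.obs (Bowen.coord α) (Bowen.ball α n)) : ℝ) :
    EReal) = _
  simp only [Bowen.func_bernoulli q, iInf_const]

omit [MeasurableSpace X] [MulAction (FreeGroup α) X] in
/-- **Bowen's isomorphism theorem.** -/
theorem bowen_bernoulli (p : Measure A) [IsProbabilityMeasure p] (q : Measure B)
    [IsProbabilityMeasure q] {Φ : (FreeGroup α → A) → FreeGroup α → B}
    {Ψ : (FreeGroup α → B) → FreeGroup α → A}
    (hΦ : MeasurePreserving Φ (Measure.infinitePi fun _ => p) (Measure.infinitePi fun _ => q))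
    (hΨ : Measurable Ψ) (hinv : Ψ ∘ Φ =ᵐ[Measure.infinitePi fun _ => p] id)
    (heq : ∀ g, Φ ∘ groupShift g =ᵐ[Measure.infinitePi fun _ => p] groupShift g ∘ Φ) :
    ∑ a, negMulLog (p.real {a}) = ∑ b, negMulLog (q.real {b}) := by
  have h := bowen_conjugacy (α := α) (Bowen.measurePreserving_groupShift p)
    (Bowen.measurePreserving_groupShift q) hΦ hΨ hinv heq (measurable_pi_apply 1)
    (measurable_pi_apply 1) (bowen_f_bernoulli p).1 (bowen_f_bernoulli q).1
  rw [(bowen_f_bernoulli p).2, (bowen_f_bernoulli q).2] at h
  exact EReal.coe_injective h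

end FA.Summary

end
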