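import Fermat.Agent.BoydLawton.Example

/-!
# The theorem of Boyd and Lawton

For `f ∈ ℂ[X][Y]` the value at `(x, y)` is `(f.map (evalRingHom x)).eval y`, and `m(f)` is the
average over `|x| = 1` of the averages over `|y| = 1` of `log |f (x, y)|`.

* `lawton_sublevel`: for every `k` there is `C` with
  `|{θ : |P (e ^ iθ)| < y |lead P|}| ≤ C y ^ (1 / k)` for all polynomials `P` with at most `k`
  terms, of whatever degree;
* `boyd_lawton_integrable`: both averages in `m(f)` integrate integrable functions;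
* `boyd_lawton`: `m(f (x, x ^ n)) → m(f)` for every `f ≠ 0`;
* `smyth_limit`: `M (X ^ n + X + 1)` tends to `exp (3√3/(4π) L (χ₋₃, 2))`, a number above `1`.

That the measures of the trinomials differ from their limit, three or more variables and rates of
convergence are not claimed. Independent of S01.
-/

set_option autoImplicit false

noncomputable section

namespace FA.BoydLawton.Summary

open Polynomial Filter Topology MeasureTheory Set Real

/-- **Lawton's lemma.** -/
theorem lawton_sublevel (k : ℕ) : ∃ C : ℝ, 0 < C ∧ ∀ P : ℂ[X], P ≠ 0 → P.support.card ≤ k →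
    ∀ y : ℝ, 0 < y →
      volume {θ ∈ Ioc 0 (2 * π) | ‖P.eval (circleMap 0 1 θ)‖ < y * ‖P.leadingCoeff‖} ≤
        ENNReal.ofReal (C * y ^ (1 / (k : ℝ))) :=
  exists_sublevel_bound k

/-- **Integrability.** -/
theorem boyd_lawton_integrable (f : ℂ[X][X]) (hf : f ≠ 0) :
    (∀ x : ℂ, CircleIntegrable (fun y => log ‖(f.map (evalRingHom x)).eval y‖) 0 1) ∧
      CircleIntegrable
        (fun x => circleAverage (fun y => log ‖(f.map (evalRingHom x)).eval y‖) 0 1) 0 1 :=
  ⟨fun _ => circleIntegrable_log_eval _, (outer_average hf).1⟩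

/-- **The theorem of Boyd and Lawton.** -/
theorem boyd_lawton (f : ℂ[X][X]) (hf : f ≠ 0) :
    Tendsto (fun n : ℕ => (f.eval ((X : ℂ[X]) ^ n)).logMahlerMeasure) atTop
      (𝓝 (circleAverage
        (fun x => circleAverage (fun y => log ‖(f.map (evalRingHom x)).eval y‖) 0 1) 0 1)) :=
  tendsto_logMahlerMeasure hf

/-- **The limit of the trinomials.** -/
theorem smyth_limit :
    Tendsto (fun n : ℕ => ((X ^ n + X + 1 : ℤ[X]).map (Int.castRingHom ℂ)).mahlerMeasure) atTop
        (𝓝 (exp (3 * √3 / (4 * π) *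
          ∑' k : ℕ, (1 / (3 * (k : ℝ) + 1) ^ 2 - 1 / (3 * (k : ℝ) + 2) ^ 2)))) ∧
      1 < exp (3 * √3 / (4 * π) *
        ∑' k : ℕ, (1 / (3 * (k : ℝ) + 1) ^ 2 - 1 / (3 * (k : ℝ) + 2) ^ 2)) :=
  ⟨tendsto_trinomial, one_lt_limit⟩

end FA.BoydLawton.Summary

end
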