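import Fermat.Agent.GaussTower.Main

/-!
# The main conjecture of Iwasawa theory for the odd branches

`p ≥ 5` is a prime, `g` a generator, `i` odd with `3 ≤ i ≤ p - 2`, `L = ℚ(ζ_(p^(n+1)))` and
`A = wPart p _ L i` the classes of `p`-power order of weight `ω ^ i` (`Summary.weight_part_iff` in
`Root/SummaryIwasawaControl`). `P` is the action of `ℤ_p[X]` on `A` for which `1 + X` acts as the
generator `γ ^ (p ^ n - 1)` of `Gal(L/ℚ(ζ_p))`.

`iwasawa_main_conjecture_minus`: `A` has generators `C 1, …, C t` whose relations are, modulo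
`ω_n = (1 + X)^(p^n) - 1`, exactly the combinations of the rows of a square matrix `M`, and
`(det M, ω_n) = (θ_n, ω_n)`, `θ_n = sys hg u n` being the branch at `u = g ^ (-i)` of
Stickelberger's element (`‖θ_n (ζ - 1)‖` is that of `B_{1,χ}` for the characters `χ` with
`χ g = ω (g) ^ (-i) ζ`).
So the Fitting ideal of `A` is generated by the `p`-adic `L`-function, at every level and with no
hypothesis on the classes.

The proof is Kolyvagin's: the Euler system of Gauss sums bounds `|θ_m(x)|` by `|det M_m(x)|` at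
every point of the open disc, the constant terms agree by the theorem for `ℚ(ζ_p)`, and the
Weierstrass preparation turns the two into equality. Independent of S01.
-/

set_option autoImplicit false
set_option linter.unusedSectionVars false
set_option linter.style.haveILetI false

noncomputable section

open NumberField Polynomial Matrix FA.IwasawaControl
open scoped Classical
open FA.CycloTower (actCl)
open FA.IwasawaStructure (expo)
open FA.IwasawaMinus (IsGen sys omega res)
open FA.GaussTower.LRing (cls cls_surjective cls_eq_zero_iff)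

namespace FA.Summary

variable (p : ℕ) [hp : Fact p.Prime] (n : ℕ) (L : Type) [Field L] [NumberField L]
  [IsCyclotomicExtension {p ^ (n + 1)} ℚ L]

/-- **The main conjecture, minus part.** -/
theorem iwasawa_main_conjecture_minus (hp5 : 5 ≤ p) {g : ℕ} (hg : IsGen p g) {i : ℕ}
    (hi : Odd i) (hi3 : 3 ≤ i) (hip : i ≤ p - 2) :
    ∃ u : (ZMod p)ˣ, (g : ZMod p) ^ i * u = 1 ∧ ∃ γ : L ≃ₐ[ℚ] L,
      (∀ σ, σ ∈ Subgroup.zpowers γ) ∧ (∀ k, expo (p ^ (n + 1)) (γ ^ k) = res p g n k) ∧
      ∃ P : ℤ_[p][X] →+* AddMonoid.End (Additive (wPart p (p ^ (n + 1)) L i)),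
        (∀ a, ((P X a).toMul : ClassGroup (𝓞 L)) =
          actCl (γ ^ (p ^ n - 1)) (a.toMul : ClassGroup (𝓞 L)) / (a.toMul : ClassGroup (𝓞 L))) ∧
        ∃ (t : ℕ) (C : Fin t → Additive (wPart p (p ^ (n + 1)) L i))
          (M : Matrix (Fin t) (Fin t) ℤ_[p][X]),
          (∀ a, ∃ f : Fin t → ℤ_[p][X], ∑ j, P (f j) (C j) = a) ∧
          (∀ f : Fin t → ℤ_[p][X], ∑ j, P (f j) (C j) = 0 ↔
            ∃ c q : Fin t → ℤ_[p][X], f = c ᵥ* M + omega (p := p) n • q) ∧
          Ideal.span {M.det, omega n} = Ideal.span {sys hg u n, omega n} := by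
  obtain ⟨u, hu⟩ := exists_branch_residue hp5 hg (i := i) (by omega)
  let b : FA.GaussTower.Brn p := ⟨g, i, u, hp5, hg, hi, hi3, by omega, hu⟩
  obtain ⟨l⟩ := FA.GaussTower.exists_lvl b n L
  obtain ⟨t, C, M₀, hM⟩ := l.exists_rel
  choose M hMe using fun j k => cls_surjective (M₀ j k)
  have hmap : (Matrix.of M).map (cls p n) = M₀ := Matrix.ext fun j k => hMe j k
  refine ⟨u, hu, l.γ, l.hgen, l.hexp,
    polyAct p (pLvl p L) (diffEnd p (p ^ (n + 1)) L i (l.γ ^ (p ^ n - 1))), fun a => ?_, t + 1,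
    C, Matrix.of M, fun a => ?_, fun f => ⟨fun hf => ?_, ?_⟩, ?_⟩
  · rw [polyAct_X, diffEnd]
    show ((wAct p (p ^ (n + 1)) L i (l.γ ^ (p ^ n - 1)) a - a).toMul : ClassGroup (𝓞 L)) = _
    generalize l.γ ^ (p ^ n - 1) = τ
    simp [wAct_val]
  · obtain ⟨f, hf⟩ := hM.gen a
    choose f' hf' using fun j => cls_surjective (f j)
    refine ⟨f', Eq.trans (Finset.sum_congr rfl fun j _ => ?_) hf⟩
    rw [← hf' j, l.cls_smul]
  · obtain ⟨c, hc⟩ := hM.span (fun j => cls p n (f j)) (Eq.trans
      (Finset.sum_congr rfl fun j _ => l.cls_smul (f j) (C j)) hf)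
    choose c' hc' using fun j => cls_surjective (c j)
    have h : ∀ j, omega n ∣ f j - (c' ᵥ* Matrix.of M) j := fun j => cls_eq_zero_iff.1 (by
      rw [map_sub, RingHom.map_vecMul, hmap, show cls p n ∘ c' = c from funext hc',
        ← congrFun hc j, sub_self])
    choose q hq using h
    refine ⟨c', q, funext fun j => ?_⟩
    rw [Pi.add_apply, Pi.smul_apply, smul_eq_mul, ← hq j]
    ring
  · rintro ⟨c, q, rfl⟩
    refine Eq.trans (Finset.sum_congr rfl fun j _ => (l.cls_smul _ (C j)).symm) ?_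
    refine Eq.trans (Finset.sum_congr rfl fun j _ => ?_) (hM.rel_vecMul (cls p n ∘ c))
    rw [Pi.add_apply, Pi.smul_apply, smul_eq_mul, map_add, map_mul,
      FA.GaussTower.LRing.cls_omega, zero_mul, add_zero, RingHom.map_vecMul, hmap]
  · obtain ⟨w, hw⟩ := l.associated_det_sys hM
    rw [← hmap, ← RingHom.mapMatrix_apply, ← RingHom.map_det] at hw
    obtain ⟨w₁, hw₁⟩ := cls_surjective (w : FA.GaussTower.LRing p n)
    obtain ⟨w₂, hw₂⟩ := cls_surjective ((w⁻¹ : (FA.GaussTower.LRing p n)ˣ) :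
      FA.GaussTower.LRing p n)
    have hmem : ∀ {x y z : ℤ_[p][X]}, cls p n x = cls p n (y * z) →
        x ∈ Ideal.span {y, omega n} := fun {x y z} h => by
      rw [← sub_eq_zero, ← map_sub, cls_eq_zero_iff] at h
      obtain ⟨q, hq⟩ := h
      exact Ideal.mem_span_pair.2 ⟨z, q, by linear_combination -hq⟩
    refine le_antisymm (Ideal.span_le.2 ?_) (Ideal.span_le.2 ?_) <;>
      rintro x (rfl | rfl)
    · refine hmem (z := w₂) ?_
      rw [map_mul, hw₂, ← hw, mul_assoc, Units.mul_inv, mul_one]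
    · exact Ideal.subset_span (by simp)
    · refine hmem (z := w₁) ?_
      rw [map_mul, hw₁, hw]
    · exact Ideal.subset_span (by simp)

end FA.Summary
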