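import Fermat.Agent.GaussTower.Rank
import Fermat.Agent.Root.SummaryMainConjecture

/-!
# Iwasawa's invariants of the odd branches

`p ≥ 5` is a prime, `g` a generator, `i` odd with `3 ≤ i ≤ p - 2`, `u = g ^ (-i)`,
`L = ℚ(ζ_(p^(n+1)))` and `A = wPart p _ L i` the classes of `p`-power order of weight `ω ^ i`
(`Summary.weight_part_iff`). `bval p g s (θ(u) ζ)` is `-B_{1,χ} / 2` for the character
`χ g = θ(u) ζ`, and `bexp p i` the valuation of `B_{1,ω^(-i)}`.

* `iwasawa_branch_order`: `|A|⁻¹` is the product of `|B_{1,χ}|_p` over the characters of the branch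
  of level `≤ n`: the exact order of every eigen-part of the minus class group, at every level;
* `iwasawa_branch_invariants`: with `λ` the first unit coefficient of the branch,
  `|A_n| = p ^ (λ (n - λ) + e)` for `n ≥ λ` (so `μ = 0`), `A_n` has `p`-rank exactly `λ` once
  `λ < p ^ n`, and `λ = 0` iff `B_{1,ω^(-i)}` is a unit;
* `iwasawa_branch_trivial_iff`: `A_n` is trivial iff `B_{1,ω^(-i)}` is a unit;
* `iwasawa_branch_irregular`: otherwise `|A_n| ≥ p ^ (v + n)`, `v` its valuation.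

Iwasawa, Ferrero–Washington, Mazur–Wiles; here from the main conjecture
(`iwasawa_main_conjecture_minus`). Independent of S01.
-/

set_option autoImplicit false
set_option linter.unusedSectionVars false
set_option linter.style.haveILetI false

noncomputable section

open NumberField FA.IwasawaControl
open scoped Classical
open FA.IwasawaMinus (IsGen sys bval theta Dominant)
open FA.GaussKolyvagin (bexp)

namespace FA.Summary

variable (p : ℕ) [hp : Fact p.Prime]

section order

variable (n : ℕ) (L : Type) [Field L] [NumberField L] [IsCyclotomicExtension {p ^ (n + 1)} ℚ L]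

/-- **The exact order of a branch.** -/
theorem iwasawa_branch_order (hp5 : 5 ≤ p) {g : ℕ} (hg : IsGen p g) {i : ℕ} (hi : Odd i)
    (hi3 : 3 ≤ i) (hip : i ≤ p - 2) {u : (ZMod p)ˣ} (hu : (g : ZMod p) ^ i * u = 1) :
    (Nat.card (wPart p (p ^ (n + 1)) L i) : ℝ)⁻¹ = ∏ s ∈ Finset.range (n + 1),
      ∏ ζ ∈ primitiveRoots (p ^ s) (PadicAlgCl p), ‖bval p g s (theta u * ζ)‖ := by
  let b : FA.GaussTower.Brn p := ⟨g, i, u, hp5, hg, hi, hi3, by omega, hu⟩
  obtain ⟨l⟩ := FA.GaussTower.exists_lvl b n L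
  rw [← Nat.card_congr (Additive.toMul (α := wPart p (p ^ (n + 1)) L i))]
  exact l.inv_natCard_A

/-- **The branches without a zero of the `L`-function have no classes**, and only they. -/
theorem iwasawa_branch_trivial_iff (hp5 : 5 ≤ p) {i : ℕ} (hi : Odd i) (hi3 : 3 ≤ i)
    (hip : i ≤ p - 2) : Nat.card (wPart p (p ^ (n + 1)) L i) = 1 ↔ bexp p i = 0 := by
  obtain ⟨g, hg⟩ := FA.IwasawaMinus.exists_isGen (p := p) (by omega)
  obtain ⟨u, hu⟩ := exists_branch_residue hp5 hg (i := i) (by omega)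
  let b : FA.GaussTower.Brn p := ⟨g, i, u, hp5, hg, hi, hi3, by omega, hu⟩
  have h := iwasawa_branch_order p n L hp5 hg hi hi3 hip hu
  have hp0 : (0 : ℝ) < (p : ℝ)⁻¹ := inv_pos.2 (Nat.cast_pos.2 hp.out.pos)
  have hp1 : (p : ℝ)⁻¹ < 1 := inv_lt_one_of_one_lt₀ (Nat.one_lt_cast.2 hp.out.one_lt)
  obtain ⟨lam, hD⟩ := FA.GaussTower.exists_dominant_branch b
  constructor <;> intro h1
  · by_contra hb
    rw [h1, Nat.cast_one, inv_one, Finset.prod_range_succ'] at h
    have h2 : ∏ k ∈ Finset.range n, FA.GaussTower.levelFactor b (k + 1) ≤ 1 :=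
      Finset.prod_le_one (fun k _ => FA.GaussTower.levelFactor_nonneg b _) fun k _ =>
        (FA.GaussTower.levelFactor_le b hb k).trans hp1.le
    refine lt_irrefl (1 : ℝ) (h.trans_lt ?_)
    refine (mul_le_of_le_one_left (FA.GaussTower.levelFactor_nonneg b 0) h2).trans_lt ?_
    rw [FA.GaussTower.levelFactor_zero]
    exact pow_lt_one₀ hp0.le hp1 hb
  · have hl : lam = 0 := (FA.GaussTower.bexp_eq_zero_iff b hD).1 h1
    subst hl
    have h2 : ∀ s ∈ Finset.range (n + 1), FA.GaussTower.levelFactor b s = 1 := fun s _ => by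
      rcases s with _ | k
      · rw [FA.GaussTower.levelFactor_zero, show bexp p b.i = 0 from h1, pow_zero]
      · rw [FA.GaussTower.levelFactor_eq_pow b hD (FA.IwasawaMinus.phi_pos k), pow_zero]
    exact_mod_cast inv_eq_one.1 (h.trans (Finset.prod_eq_one h2))

/-- **The irregular branches grow at every level.** -/
theorem iwasawa_branch_irregular (hp5 : 5 ≤ p) {i : ℕ} (hi : Odd i) (hi3 : 3 ≤ i)
    (hip : i ≤ p - 2) (hb : bexp p i ≠ 0) :
    p ^ (bexp p i + n) ≤ Nat.card (wPart p (p ^ (n + 1)) L i) := by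
  obtain ⟨g, hg⟩ := FA.IwasawaMinus.exists_isGen (p := p) (by omega)
  obtain ⟨u, hu⟩ := exists_branch_residue hp5 hg (i := i) (by omega)
  let b : FA.GaussTower.Brn p := ⟨g, i, u, hp5, hg, hi, hi3, by omega, hu⟩
  have h := iwasawa_branch_order p n L hp5 hg hi hi3 hip hu
  rw [Finset.prod_range_succ'] at h
  have hle : (Nat.card (wPart p (p ^ (n + 1)) L i) : ℝ)⁻¹ ≤
      (((p ^ (bexp p i + n) : ℕ) : ℝ))⁻¹ := by
    rw [h, Nat.cast_pow, ← inv_pow, add_comm, pow_add]
    refine mul_le_mul ?_ (FA.GaussTower.levelFactor_zero b).le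
      (FA.GaussTower.levelFactor_nonneg b 0) (by positivity)
    refine (Finset.prod_le_prod (fun k _ => FA.GaussTower.levelFactor_nonneg b _) fun k _ =>
      FA.GaussTower.levelFactor_le b hb k).trans_eq ?_
    rw [Finset.prod_const, Finset.card_range]
  exact_mod_cast (inv_le_inv₀ (Nat.cast_pos.2 Nat.card_pos)
    (Nat.cast_pos.2 (pow_pos hp.out.pos _))).1 hle

end order

/-- **Iwasawa's invariants of a branch.** -/
theorem iwasawa_branch_invariants (hp5 : 5 ≤ p) {g : ℕ} (hg : IsGen p g) {i : ℕ} (hi : Odd i)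
    (hi3 : 3 ≤ i) (hip : i ≤ p - 2) {u : (ZMod p)ˣ} (hu : (g : ZMod p) ^ i * u = 1) :
    ∃ lam e : ℕ, Dominant (sys hg u) 0 lam ∧ (bexp p i = 0 ↔ lam = 0) ∧
      (∀ n, lam ≤ n → ∀ (L : Type) [Field L] [NumberField L]
        [IsCyclotomicExtension {p ^ (n + 1)} ℚ L],
          Nat.card (wPart p (p ^ (n + 1)) L i) = p ^ (lam * (n - lam) + e)) ∧
      ∀ n, lam < p ^ n → ∀ (L : Type) [Field L] [NumberField L]
        [IsCyclotomicExtension {p ^ (n + 1)} ℚ L],
          Nat.card {x : ClassGroup (𝓞 L) // x ∈ wPart p (p ^ (n + 1)) L i ∧ x ^ p = 1} =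
            p ^ lam := by
  let b : FA.GaussTower.Brn p := ⟨g, i, u, hp5, hg, hi, hi3, by omega, hu⟩
  obtain ⟨lam, hD⟩ := FA.GaussTower.exists_dominant_branch b
  obtain ⟨l₀⟩ := FA.GaussTower.exists_lvl b lam (FA.GaussTower.Fam p lam)
  obtain ⟨e, he⟩ := l₀.exists_natCard_A
  have hprod : ∀ n, lam ≤ n → ∏ s ∈ Finset.range (n + 1), FA.GaussTower.levelFactor b s =
      (p : ℝ)⁻¹ ^ (lam * (n - lam) + e) := fun n hn => by
    induction n, hn using Nat.le_induction with
    | base => rw [← l₀.inv_natCard_A, he, Nat.cast_pow, inv_pow, Nat.sub_self, mul_zero, zero_add]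
    | succ k hk ih =>
      rw [Finset.prod_range_succ, ih, FA.GaussTower.levelFactor_eq_pow b hD
        (hk.trans_lt ((Nat.lt_pow_self hp.out.one_lt).trans_le
          (Nat.le_mul_of_pos_left _ (Nat.sub_pos_of_lt hp.out.one_lt)))),
        ← pow_add, Nat.succ_sub hk, Nat.mul_succ, add_right_comm]
  refine ⟨lam, e, hD, FA.GaussTower.bexp_eq_zero_iff b hD, fun n hn L _ _ _ => ?_,
    fun n hn L _ _ _ => ?_⟩
  · have h := iwasawa_branch_order p n L hp5 hg hi hi3 hip hu
    have h2 := h.trans (hprod n hn)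
    rw [inv_pow, _root_.inv_inj] at h2
    exact_mod_cast h2
  · obtain ⟨l⟩ := FA.GaussTower.exists_lvl b n L
    rw [← l.natCard_torsion hD hn]
    refine Nat.card_congr
      { toFun := fun x => ⟨l.ofMem x.1 x.2.1, ?_⟩
        invFun := fun a => ⟨Additive.toMul (l.val a.1), l.val_mem a.1, ?_⟩
        left_inv := fun x => rfl
        right_inv := fun a => rfl }
    · refine l.val_injective ?_
      rw [nsmulAddMonoidHom_apply, map_nsmul, FA.GaussTower.Lvl.val_ofMem, map_zero,
        ← ofMul_pow, x.2.2, ofMul_one]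
    · have h := congrArg l.val a.2
      rw [nsmulAddMonoidHom_apply, map_nsmul, map_zero] at h
      rw [← toMul_nsmul, h, toMul_zero]

end FA.Summary
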