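import Fermat.Agent.BrauerInvariant.Classification

/-!
# The classification of division algebras over a number field

* `divisionAlgebra_iso_iff`: two central division algebras are isomorphic if and only if they have
  the same invariants.
* `divisionAlgebra_exists`: every admissible family of invariants occurs.
* `divisionAlgebra_degree`: the degree is the least common multiple of the local orders.
* `divisionAlgebra_local_index`: the order of an invariant is the local index.
* `quaternionAlgebra_iff`: the quaternion division algebras correspond to the nonempty even sets of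
  finite and real places.
-/

set_option autoImplicit false

noncomputable section

open NumberField IsDedekindDomain Module
open FA.BrauerInvariant
open scoped TensorProduct

namespace FA.Summary

variable {K : Type} [Field K] [NumberField K] {D D' : Type} [DivisionRing D] [Algebra K D]
  [FiniteDimensional K D] [Algebra.IsCentral K D] [DivisionRing D'] [Algebra K D']
  [FiniteDimensional K D'] [Algebra.IsCentral K D']

/-- **A division algebra is determined by its invariants.** -/
theorem divisionAlgebra_iso_iff :
    Nonempty (D ≃ₐ[K] D') ↔ (∀ v, invAt v (classOf K D) = invAt v (classOf K D')) ∧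
      ∀ w, invAtInf w (classOf K D) = invAtInf w (classOf K D') :=
  nonempty_algEquiv_iff

/-- **Every admissible family occurs.** -/
theorem divisionAlgebra_exists (r : HeightOneSpectrum (𝓞 K) → AddCircle (1 : ℚ))
    (hfin : (Function.support r).Finite) (s : InfinitePlace K → AddCircle (1 : ℚ))
    (hs : ∀ w, s w + s w = 0) (hcx : ∀ w, ¬ w.IsReal → s w = 0)
    (hsum : (∑ᶠ v, r v) + ∑ w, s w = 0) :
    ∃ (D : Type) (_ : DivisionRing D) (_ : Algebra K D) (_ : FiniteDimensional K D)
      (_ : Algebra.IsCentral K D),
      (∀ v, invAt v (classOf K D) = r v) ∧ ∀ w, invAtInf w (classOf K D) = s w :=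
  exists_division r hfin s hs hcx hsum

/-- **The degree is the least common multiple of the local orders.** -/
theorem divisionAlgebra_degree :
    finrank K D = Nat.lcm
      ((finite_invAt (classOf K D)).toFinset.lcm fun v => addOrderOf (invAt v (classOf K D)))
      (Finset.univ.lcm fun w => addOrderOf (invAtInf w (classOf K D))) ^ 2 :=
  finrank_eq_sq.trans (congrArg (· ^ 2) (orderOf_eq_lcm _))

/-- **The order of an invariant is the local index.** -/
theorem divisionAlgebra_local_index (v : HeightOneSpectrum (𝓞 K)) {E : Type} [DivisionRing E]
    [Algebra (v.adicCompletion K) E] [FiniteDimensional (v.adicCompletion K) E]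
    [Algebra.IsCentral (v.adicCompletion K) E] {r : ℕ} (hr : r ≠ 0)
    (e : v.adicCompletion K ⊗[K] D ≃ₐ[v.adicCompletion K] Matrix (Fin r) (Fin r) E) :
    finrank (v.adicCompletion K) E = addOrderOf (invAt v (classOf K D)) ^ 2 :=
  local_index v hr e

/-- **Quaternion division algebras and nonempty even sets of places.** -/
theorem quaternionAlgebra_iff (S : Finset (HeightOneSpectrum (𝓞 K)))
    (T : Finset (InfinitePlace K)) (hT : ∀ w ∈ T, w.IsReal) :
    (∃ (D : Type) (_ : DivisionRing D) (_ : Algebra K D) (_ : FiniteDimensional K D)
      (_ : Algebra.IsCentral K D), finrank K D = 4 ∧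
        (∀ v, invAt v (classOf K D) ≠ 0 ↔ v ∈ S) ∧ ∀ w, invAtInf w (classOf K D) ≠ 0 ↔ w ∈ T) ↔
      Even (S.card + T.card) ∧ (S.Nonempty ∨ T.Nonempty) :=
  exists_quaternion_iff S T hT

end FA.Summary

end
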