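import Fermat.Agent.BrauerFeit.Main

/-!
# The theorem of Brauer and Feit and the defect of ordinary blocks

`v` is a place of `ℂ` over `p` with residue field `v.k`; `blk v χ` is the block of the irreducible
character `χ`, `red v χ` its idempotent reduced into `v.k[G]`, `deg χ` the degree, `ordDefect p S`
the largest exponent of `p` in `|G| / χ(1)` over `S`, and `contr p χ ψ` is
`|G|⁻¹ ∑ χ(s) ψ(s⁻¹)` over the `p`-regular `s`.

* `block_reduction`: reduction gives a bijection from the blocks of characters onto the blocks, that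
  is the primitive central idempotents, of `v.k[G]`;
* `defect_group_order`: a defect group of the reduced block has order `pᵈ`, `d` the defect of the
  block, and `p^(a-d)` divides every degree in the block, exactly for some;
* `regular_contributions`: `pᵈ contr` is an integral symmetric matrix `M` with `M² = pᵈ M`;
* `brauer_feit`: a block has at most `p^(2d)/4 + 1`, so at most `p^(2d)`, characters;
* `brauer_nesbitt_defect_zero`: `pᵃ ∣ χ(1)` exactly when `χ` vanishes on the singular elements; then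
  `χ` is alone in its block, and this is the case exactly when the defect group is trivial.

The decomposition matrix, the Cartan invariants and the improved bounds are not claimed.
-/

set_option autoImplicit false
set_option linter.style.haveILetI false

noncomputable section

open Finset FA.FrobeniusGroups FA.CharacterTheory FA.Thompson FA.PrincipalBlock
open scoped Classical

namespace FA.BrauerFeit.Summary

variable {G : Type*} [Group G] [Fintype G] {p : ℕ} [hp : Fact p.Prime] {v : Place p}

omit hp in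
/-- **Blocks of characters are the blocks of the group algebra over the residue field.** -/
theorem block_reduction :
    (∀ χ ∈ irr G, DefectGroups.IsBlock (red v χ)) ∧
      (∀ b : MonoidAlgebra v.k G, DefectGroups.IsBlock b → ∃ χ ∈ irr G, red v χ = b) ∧
      ∀ χ ∈ irr G, ∀ ψ : G → ℂ, red v χ = red v ψ ↔ blk v χ = blk v ψ :=
  ⟨fun _ h => isBlock_red h, fun _ h => exists_red_eq h,
    fun χ hχ ψ => ⟨red_injective hχ, fun h => by simp only [red, h]⟩⟩

/-- **The defect of a block and the order of its defect groups.** -/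
theorem defect_group_order {χ₀ : G → ℂ} (hχ₀ : χ₀ ∈ irr G) {D : Subgroup G}
    (hD : DefectGroups.IsDefect p D (red v χ₀)) :
    Nat.card D = p ^ ordDefect p (blk v χ₀) ∧
      (∀ χ ∈ blk v χ₀, p ^ ((Nat.card G).factorization p - ordDefect p (blk v χ₀)) ∣ deg χ) ∧
      ∃ χ ∈ blk v χ₀,
        (deg χ).factorization p = (Nat.card G).factorization p - ordDefect p (blk v χ₀) :=
  ⟨card_defect hD, degree_dvd hχ₀⟩

/-- **The contributions of the regular elements.** -/
theorem regular_contributions (χ₀ : G → ℂ) :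
    ∃ M : (G → ℂ) → (G → ℂ) → ℤ,
      (∀ χ ∈ blk v χ₀, ∀ ψ ∈ blk v χ₀,
        (p : ℂ) ^ ordDefect p (blk v χ₀) *
          ((Nat.card G : ℂ)⁻¹ * ∑ s ∈ univ.filter (Reg p), χ s * ψ s⁻¹) = M χ ψ) ∧
      (∀ χ ∈ blk v χ₀, ∀ φ ∈ blk v χ₀,
        ∑ ψ ∈ blk v χ₀, M χ ψ * M ψ φ = (p : ℤ) ^ ordDefect p (blk v χ₀) * M χ φ) ∧
      ∀ χ ∈ blk v χ₀, ∀ ψ ∈ blk v χ₀, M χ ψ = M ψ χ := by
  obtain ⟨M, h1, h2, h3⟩ := exists_matrix (good_blk v χ₀)
  exact ⟨M, fun χ hχ ψ hψ => by rw [← contr_eq]; exact h1 χ hχ ψ hψ, h2, h3⟩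

/-- **The theorem of Brauer and Feit.** -/
theorem brauer_feit {χ₀ : G → ℂ} (hχ₀ : χ₀ ∈ irr G) :
    (blk v χ₀).card ≤ p ^ (2 * ordDefect p (blk v χ₀)) / 4 + 1 ∧
      (blk v χ₀).card ≤ p ^ (2 * ordDefect p (blk v χ₀)) := by
  have h := card_blk_le (v := v) (p := p) hχ₀
  exact ⟨by omega, card_blk_le_sq hχ₀⟩

/-- **Brauer and Nesbitt: blocks of defect zero.** -/
theorem brauer_nesbitt_defect_zero {χ : G → ℂ} (hχ : χ ∈ irr G) :
    (p ^ (Nat.card G).factorization p ∣ deg χ ↔ ∀ g, ¬ Reg p g → χ g = 0) ∧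
      (p ^ (Nat.card G).factorization p ∣ deg χ → blk v χ = {χ}) ∧
      ∀ D : Subgroup G, DefectGroups.IsDefect p D (red v χ) →
        (D = ⊥ ↔ p ^ (Nat.card G).factorization p ∣ deg χ) :=
  ⟨⟨fun h => (defect_zero (v := v) hχ h).1, pow_dvd_deg_of_vanish hχ⟩,
    fun h => (defect_zero hχ h).2, fun _ hD => defect_trivial_iff hχ hD⟩

end FA.BrauerFeit.Summary

end
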