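import Fermat.Agent.BrauerForms.Padic

/-!
# Brauer's theorem on forms in many variables
-/

set_option autoImplicit false

namespace FA.BrauerForms.Summary

open MvPolynomial Fermat.Agent.BrauerForms

/-- **Brauer 1945**: if diagonal forms of every degree have zeros once the variables are many, then
systems of forms of bounded degree vanish on large subspaces once the variables are many. -/
theorem brauer_forms (K : Type*) [Field K]
    (hdiag : ∀ d, 2 ≤ d → ∃ h, ∀ n, h ≤ n → ∀ a : Fin n → K,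
      ∃ x : Fin n → K, x ≠ 0 ∧ ∑ i, a i * x i ^ d = 0)
    (D r m : ℕ) : ∃ N, ∀ n, N ≤ n → ∀ (f : Fin r → MvPolynomial (Fin n) K) (deg : Fin r → ℕ),
      (∀ i, (f i).IsHomogeneous (deg i) ∧ 1 ≤ deg i ∧ deg i ≤ D) →
        ∃ v : Fin m → Fin n → K, LinearIndependent K v ∧
          ∀ i (x : Fin m → K), eval (∑ j, x j • v j) (f i) = 0 :=
  subspaceZeros_of_diagonal hdiag D r m

/-- Finitely many classes modulo `d`-th powers and `-1` a sum of `d`-th powers suffice. -/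
theorem diagonal_criterion {K : Type*} [Field K] {d : ℕ} (hd : d ≠ 0) {C : Type*} [Fintype C]
    (κ : K → C) (hκ : ∀ a b : K, a ≠ 0 → b ≠ 0 → κ a = κ b → ∃ c, b = a * c ^ d)
    (hneg : ∃ (s : ℕ) (y : Fin s → K), ∑ l, y l ^ d = -1) :
    ∃ h, ∀ n, h ≤ n → ∀ a : Fin n → K, ∃ x : Fin n → K, x ≠ 0 ∧ ∑ i, a i * x i ^ d = 0 :=
  diagonalZeros_of_classes hd κ hκ hneg

/-- Diagonal forms over `ℚ_[p]`. -/
theorem padic_diagonal_zero (p : ℕ) [Fact p.Prime] {d : ℕ} (hd : d ≠ 0) :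
    ∃ h, ∀ n, h ≤ n → ∀ a : Fin n → ℚ_[p],
      ∃ x : Fin n → ℚ_[p], x ≠ 0 ∧ ∑ i, a i * x i ^ d = 0 :=
  diagonalZeros_padic p hd

/-- **Brauer, p-adically**: systems of `p`-adic forms in many variables vanish on subspaces of any
given dimension. -/
theorem brauer_padic_subspace (p : ℕ) [Fact p.Prime] (D r m : ℕ) :
    ∃ N, ∀ n, N ≤ n → ∀ (f : Fin r → MvPolynomial (Fin n) ℚ_[p]) (deg : Fin r → ℕ),
      (∀ i, (f i).IsHomogeneous (deg i) ∧ 1 ≤ deg i ∧ deg i ≤ D) →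
        ∃ v : Fin m → Fin n → ℚ_[p], LinearIndependent ℚ_[p] v ∧
          ∀ i (x : Fin m → ℚ_[p]), eval (∑ j, x j • v j) (f i) = 0 :=
  subspaceZeros_padic p D r m

/-- **The weak form of Artin's conjecture**: a nontrivial common zero. -/
theorem brauer_padic_zero (p : ℕ) [Fact p.Prime] (D r : ℕ) :
    ∃ N, ∀ n, N ≤ n → ∀ (f : Fin r → MvPolynomial (Fin n) ℚ_[p]) (deg : Fin r → ℕ),
      (∀ i, (f i).IsHomogeneous (deg i) ∧ 1 ≤ deg i ∧ deg i ≤ D) →
        ∃ x : Fin n → ℚ_[p], x ≠ 0 ∧ ∀ i, eval x (f i) = 0 := by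
  obtain ⟨N, hN⟩ := subspaceZeros_padic p D r 1
  refine ⟨N, fun n hn f deg hf => ?_⟩
  obtain ⟨v, hv, hz⟩ := hN n hn f deg hf
  exact ⟨v 0, hv.ne_zero 0, fun i => by simpa using hz i 1⟩

end FA.BrauerForms.Summary
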