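import Fermat.Agent.BrauerFowler.Main

/-!
# The Brauer–Fowler theorem

* `brauer_fowler_index`: a group with a non-central involution whose centraliser has order `c` has
  an element other than `1` with at most `2c²` conjugates;
* `brauer_fowler`: a non-abelian simple group with an involution whose centraliser has order `c`
  embeds into the permutations of `2c²` letters, so has order at most `(2c²)!`;
* `brauer_fowler_finiteness`: there are thus only finitely many for each `c`.
-/

set_option autoImplicit false
set_option linter.style.haveILetI false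

noncomputable section

open FA.BrauerFowler

namespace FA.Summary

variable (G : Type*) [Group G] [Finite G]

/-- **An element with few conjugates.** -/
theorem brauer_fowler_index {t : G} (ht : t ^ 2 = 1)
    (hc : Subgroup.centralizer ({t} : Set G) ≠ ⊤) :
    ∃ x : G, x ≠ 1 ∧ (Subgroup.centralizer ({x} : Set G)).index ≤
      2 * Nat.card (Subgroup.centralizer ({t} : Set G)) ^ 2 := by
  haveI := Fintype.ofFinite G
  exact exists_small_index (by rwa [← sq]) (lt_of_le_of_ne (Subgroup.card_le_card_group _)
    fun h => hc (Subgroup.eq_top_of_card_eq _ h))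

/-- **The Brauer–Fowler theorem.** -/
theorem brauer_fowler [IsSimpleGroup G] (hG : ¬∀ a b : G, a * b = b * a) {t : G}
    (ht : t ^ 2 = 1) (hne : t ≠ 1) :
    (∃ f : G →* Equiv.Perm (Fin (2 * Nat.card (Subgroup.centralizer ({t} : Set G)) ^ 2)),
      Function.Injective f) ∧
    Nat.card G ≤ (2 * Nat.card (Subgroup.centralizer ({t} : Set G)) ^ 2).factorial := by
  haveI := Fintype.ofFinite G
  obtain ⟨f, hf⟩ := exists_embedding hG (by rwa [← sq]) hne
  refine ⟨⟨f, hf⟩, ?_⟩
  have h := Nat.card_le_card_of_injective f hf
  rwa [Nat.card_eq_fintype_card (α := Equiv.Perm _), Fintype.card_perm, Fintype.card_fin] at h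

/-- **Finiteness**: each is a subgroup of one finite group. -/
theorem brauer_fowler_finiteness (c : ℕ) [IsSimpleGroup G] (hG : ¬∀ a b : G, a * b = b * a)
    {t : G} (ht : t ^ 2 = 1) (hne : t ≠ 1)
    (hc : Nat.card (Subgroup.centralizer ({t} : Set G)) = c) :
    ∃ H : Subgroup (Equiv.Perm (Fin (2 * c ^ 2))), Nonempty (G ≃* H) := by
  haveI := Fintype.ofFinite G
  obtain ⟨f, hf⟩ := exists_embedding hG (by rwa [← sq]) hne
  subst hc
  exact ⟨f.range, ⟨MonoidHom.ofInjective hf⟩⟩

end FA.Summary

end
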