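import Fermat.Agent.BrauerTheory.Splitting
import Fermat.Agent.CSA.BrauerReal
import Fermat.Agent.Root.SummarySkolemNoether
import Mathlib.GroupTheory.SpecificGroups.Cyclic

/-!
# The Brauer group

`BrauerGroup.{u, u} K` with the tensor product is an abelian group
(`FA.BrauerTheory.instCommGroupBrauerGroup`).

* `brauerGroup_mul`, `brauerGroup_inv`, `brauerGroup_eq_one_iff`: products are tensor products,
  inverses opposite algebras, the trivial class consists of the matrix algebras.
* `brauerGroup_restriction_kernel`, `brauerGroup_separable_splitting`: restriction along `K → L`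
  and its kernel; every class dies in a finite separable extension.
* `brauerGroup_relative_cyclic`: `Br(L/K) ≅ Kˣ / N(Lˣ)` for cyclic `L/K`.
* `brauerGroup_real_equiv`: `Br(ℝ) ≅ ℤ/2`.
* `brauerGroup_local_global`: over a number field a class split by a cyclic extension is trivial
  iff it is trivial at every completion.
-/

set_option autoImplicit false

noncomputable section

universe u

open scoped TensorProduct
open NumberField IsDedekindDomain
open FA.BrauerTheory (restriction)

namespace FA.Summary

variable {K : Type u} [Field K]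

/-- **Products are tensor products.** -/
theorem brauerGroup_mul (A B : CSA.{u, u} K) :
    ∃ C : CSA.{u, u} K, Nonempty (C ≃ₐ[K] (A : Type u) ⊗[K] (B : Type u)) ∧
      FA.BrauerTheory.mk A * FA.BrauerTheory.mk B = FA.BrauerTheory.mk C :=
  ⟨FA.BrauerTheory.tensorCSA A B, ⟨AlgEquiv.refl⟩, rfl⟩

/-- **Inverses are opposite algebras.** -/
theorem brauerGroup_inv (A : CSA.{u, u} K) :
    ∃ C : CSA.{u, u} K, Nonempty (C ≃ₐ[K] (A : Type u)ᵐᵒᵖ) ∧
      (FA.BrauerTheory.mk A)⁻¹ = FA.BrauerTheory.mk C :=
  ⟨FA.BrauerTheory.oppositeCSA A, ⟨AlgEquiv.refl⟩, rfl⟩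

/-- **The trivial class consists of the matrix algebras.** -/
theorem brauerGroup_eq_one_iff (A : CSA.{u, u} K) :
    FA.BrauerTheory.mk A = 1 ↔
      ∃ n, n ≠ 0 ∧ Nonempty (A ≃ₐ[K] Matrix (Fin n) (Fin n) K) :=
  FA.BrauerTheory.mk_eq_one_iff

/-- **Restriction is a homomorphism; its kernel consists of the algebras `L` splits.** -/
theorem brauerGroup_restriction_kernel (L : Type u) [Field L] [Algebra K L] (A : CSA.{u, u} K) :
    FA.BrauerTheory.mk A ∈ (restriction (K := K) L).ker ↔
      ∃ n, n ≠ 0 ∧ Nonempty (L ⊗[K] A ≃ₐ[L] Matrix (Fin n) (Fin n) L) :=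
  FA.BrauerTheory.restriction_eq_one_iff L A

/-- **Every class is split by a finite separable extension.** -/
theorem brauerGroup_separable_splitting (x : BrauerGroup.{u, u} K) :
    ∃ (L : Type u) (_ : Field L) (_ : Algebra K L), FiniteDimensional K L ∧
      Algebra.IsSeparable K L ∧ restriction L x = 1 :=
  FA.BrauerTheory.exists_separable_restriction_eq_one x

/-- **The relative Brauer group of a cyclic extension is `Kˣ / N(Lˣ)`.** -/
theorem brauerGroup_relative_cyclic (L : Type u) [Field L] [Algebra K L] [FiniteDimensional K L]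
    [IsGalois K L] [IsCyclic (L ≃ₐ[K] L)] :
    Nonempty (Kˣ ⧸ (Units.map (Algebra.norm K : L →* K)).range ≃*
      (restriction (K := K) L).ker) := by
  obtain ⟨σ, hσ⟩ := IsCyclic.exists_generator (α := L ≃ₐ[K] L)
  exact ⟨FA.BrauerTheory.relativeEquiv hσ⟩

/-- **`Br(ℝ) ≅ ℤ/2`.** -/
theorem brauerGroup_real_equiv : Nonempty (BrauerGroup.{0, 0} ℝ ≃* Multiplicative (ZMod 2)) := by
  have h : Nat.card (BrauerGroup.{0, 0} ℝ) = 2 := brauerGroup_real
  have h' : Nat.card (Multiplicative (ZMod 2)) = 2 := by simp
  have : Fact (Nat.Prime 2) := ⟨Nat.prime_two⟩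
  exact ⟨mulEquivOfPrimeCardEq h h'⟩

/-- **Local-global principle** for classes split by a cyclic extension of number fields. -/
theorem brauerGroup_local_global {K L : Type} [Field K] [NumberField K] [Field L] [NumberField L]
    [Algebra K L] [IsGalois K L] [IsCyclic (L ≃ₐ[K] L)] {x : BrauerGroup.{0, 0} K}
    (hx : restriction L x = 1) :
    x = 1 ↔ (∀ v : HeightOneSpectrum (𝓞 K), restriction (v.adicCompletion K) x = 1) ∧
      ∀ φ : K →+* ℝ, letI := φ.toAlgebra; restriction ℝ x = 1 :=
  ⟨fun h => ⟨fun v => by rw [h, map_one], fun φ => by rw [h, map_one]⟩,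
    fun ⟨h1, h2⟩ => FA.BrauerTheory.eq_one_of_local hx h1 h2⟩

end FA.Summary

end
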