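import Fermat.Agent.BrauerInvariant.Sum

/-!
# Invariants of the Brauer group and their sum

* `brauerGroup_invariant_local`: at a prime the invariant `Br(K_v) ≅ ℚ / ℤ` sends `(E, Frob, a)`,
  `E` unramified of degree `n`, to `ord a / n`.
* `brauerGroup_unramified_splitting`: every class is such a `(E, Frob, a)`.
* `brauerGroup_invariant_real`: over `ℝ` the invariant is `1 / 2` for the class that is not trivial.
* `brauerGroup_invariant_finite`: the invariants of a global class vanish at almost every prime.
* `brauerGroup_invariant_sum`: **the sum of the invariants of a global class is zero.**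
* `brauerGroup_invariant_injective`: a global class is determined by its invariants.
-/

set_option autoImplicit false

noncomputable section

open Module NumberField IsDedekindDomain
open FA.BrauerTheory (cyclicHom restriction)
open FA.BrauerInvariant

namespace FA.Summary

variable {K : Type} [Field K] [NumberField K] (v : HeightOneSpectrum (𝓞 K))

/-- **The local invariant of `(E, Frob, a)` is `ord a / n`.** -/
theorem brauerGroup_invariant_local {E : Type} [Field E] [Algebra (v.adicCompletion K) E]
    [FiniteDimensional (v.adicCompletion K) E] [IsGalois (v.adicCompletion K) E]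
    {σ : E ≃ₐ[v.adicCompletion K] E} (hσ : ∀ g, g ∈ Subgroup.zpowers σ) (hE : IsUnramified v E)
    (hfrob : IsFrobenius v σ) (a : (v.adicCompletion K)ˣ) :
    invariant v (Additive.ofMul (cyclicHom hσ a)) =
      (((locOrd v a : ℚ) / finrank (v.adicCompletion K) E : ℚ) : AddCircle (1 : ℚ)) :=
  invFun_cyclicHom hσ hE hfrob a

/-- **Every class is split by an unramified extension.** -/
theorem brauerGroup_unramified_splitting (x : BrauerGroup.{0, 0} (v.adicCompletion K)) :
    ∃ (E : Type) (_ : Field E) (_ : Algebra (v.adicCompletion K) E)
      (_ : FiniteDimensional (v.adicCompletion K) E) (_ : IsGalois (v.adicCompletion K) E)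
      (σ : E ≃ₐ[v.adicCompletion K] E) (hσ : ∀ g, g ∈ Subgroup.zpowers σ)
      (a : (v.adicCompletion K)ˣ),
      IsUnramified v E ∧ IsFrobenius v σ ∧ cyclicHom hσ a = x := by
  obtain ⟨-, E, _, _, _, _, σ, hσ, a, h1, h2, h3, -⟩ := exists_hasInvariant v x
  exact ⟨E, inferInstance, inferInstance, inferInstance, inferInstance, σ, hσ, a, h1, h2, h3⟩

/-- **The invariant over `ℝ`.** -/
theorem brauerGroup_invariant_real {x : BrauerGroup.{0, 0} ℝ} (hx : x ≠ 1) :
    invariantReal (Additive.ofMul x) = ((1 / 2 : ℚ) : AddCircle (1 : ℚ)) :=
  if_neg hx

/-- **The invariants vanish at almost every prime.** -/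
theorem brauerGroup_invariant_finite (x : BrauerGroup.{0, 0} K) :
    {v : HeightOneSpectrum (𝓞 K) |
      invariant v (Additive.ofMul (restriction (v.adicCompletion K) x)) ≠ 0}.Finite :=
  finite_invAt x

open scoped Classical in
/-- **The sum of the invariants is zero.** -/
theorem brauerGroup_invariant_sum (x : BrauerGroup.{0, 0} K) :
    (∑ᶠ v : HeightOneSpectrum (𝓞 K),
        invariant v (Additive.ofMul (restriction (v.adicCompletion K) x))) +
      ∑ w : InfinitePlace K,
        (if hr : w.IsReal then
          letI : Algebra K ℝ := (InfinitePlace.embedding_of_isReal hr).toAlgebra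
          invariantReal (Additive.ofMul (restriction ℝ x))
        else 0) = 0 :=
  sum_invariants x

/-- **A class is determined by its invariants.** -/
theorem brauerGroup_invariant_injective {x : BrauerGroup.{0, 0} K}
    (h : ∀ v : HeightOneSpectrum (𝓞 K), invAt v x = 0)
    (h' : ∀ w : InfinitePlace K, invAtInf w x = 0) : x = 1 :=
  eq_one_of_invariants h h'

end FA.Summary

end
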