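import Fermat.Agent.ArtinL.Biquadratic
import Fermat.Agent.Root.SummaryArithmeticEquivalence

/-!
# Brauer–Kuroda relations

* `brauer_relation`: an integral relation between the permutation characters of the subgroups of
  `Gal(L/K)` gives the same relation between the zeta functions of the fixed fields, their numbers
  of real and complex places and the quotients `h R / (w √|d|)`;
* `brauer_relation_iff`: over `ℚ` these are all the multiplicative relations between those zeta
  functions;
* `kuroda_zeta`: for a biquadratic `L/K` with quadratic subfields `k₁, k₂, k₃`,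
  `ζ_L ζ_K ^ 2 = ζ₁ ζ₂ ζ₃` and the quotients `h R / (w √|d|)` satisfy the same relation;
* `kuroda_rat`: over `ℚ` this is `h R / (4 w) = ∏ hᵢ Rᵢ / wᵢ`.

The unit index is not computed, so the formula is left in regulators.
-/

set_option autoImplicit false
set_option linter.style.haveILetI false
set_option linter.unusedSectionVars false

noncomputable section

open NumberField Module Finset Filter Topology FA.ArtinL FA.CharacterTheory

namespace FA.Summary

variable (K L : Type*) [Field K] [NumberField K] [Field L] [NumberField L] [Algebra K L]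
  [IsGalois K L]

/-- **Brauer's relations.** -/
theorem brauer_relation {ι : Type*} [Fintype ι] (H : ι → Subgroup (L ≃ₐ[K] L)) (m : ι → ℤ)
    (h : ∀ g, ∑ i, (m i : ℂ) * induced (H i) (fun _ => (1 : ℂ)) g = 0) :
    (∀ s : ℂ, 1 < s.re →
      ∏ i, dedekindZeta (IntermediateField.fixedField (H i)) s ^ m i = 1) ∧
    ∑ i, m i = 0 ∧
    ∑ i, m i * (InfinitePlace.nrRealPlaces (IntermediateField.fixedField (H i)) : ℤ) = 0 ∧
    ∑ i, m i * (InfinitePlace.nrComplexPlaces (IntermediateField.fixedField (H i)) : ℤ) = 0 ∧
    ∏ i, ((classNumber (IntermediateField.fixedField (H i)) : ℝ) *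
      Units.regulator (IntermediateField.fixedField (H i)) /
        (Units.torsionOrder (IntermediateField.fixedField (H i)) *
          Real.sqrt |(discr (IntermediateField.fixedField (H i)) : ℝ)|)) ^ m i = 1 :=
  ⟨fun _ hs => prod_dedekindZeta_eq_one h hs, sum_eq_zero_of_relation h,
    sum_nrRealPlaces_eq_zero h, sum_nrComplexPlaces_eq_zero h, prod_hRwd_eq_one h⟩

/-- **Over `ℚ` there are no other relations.** -/
theorem brauer_relation_iff (L : Type*) [Field L] [NumberField L] [IsGalois ℚ L] {ι : Type*}
    [Fintype ι] (H : ι → Subgroup (L ≃ₐ[ℚ] L)) (m : ι → ℤ) :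
    (∀ s : ℂ, 1 < s.re →
      ∏ i, dedekindZeta (IntermediateField.fixedField (H i)) s ^ m i = 1) ↔
      ∀ g, ∑ i, (m i : ℂ) * induced (H i) (fun _ => (1 : ℂ)) g = 0 := by
  refine ⟨fun h => (combination_eq_zero_iff H m).1 (eq_zero_of_artinL_eq_one (fun a x => ?_)
    fun x hx => ?_), fun h s hs => prod_dedekindZeta_eq_one h hs⟩
  · simp only [Finset.sum_apply, Pi.smul_apply, FA.BrauerInduction.induced_conj]
  · rw [artinL_combination H m (by simpa using hx)]
    exact h x (by simpa using hx)

theorem hRwd_congr (F F' : Type*) [Field F] [NumberField F] [Field F'] [NumberField F']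
    (h : ∀ s : ℂ, 1 < s.re → dedekindZeta F s = dedekindZeta F' s) : hRwd F = hRwd F' := by
  obtain ⟨-, -, -, hw⟩ := perlis_invariants F F' h
  have h1 := zeta_determines_classNumber_regulator F F' h
  simp only [hRwd, mul_comm (Units.torsionOrder F' : ℝ),
    ← div_div, h1, hw]

/-- **Kuroda's relation.** -/
theorem kuroda_zeta [IsKleinFour (L ≃ₐ[K] L)] {a b : L ≃ₐ[K] L} (ha : a ≠ 1) (hb : b ≠ 1)
    (hab : a ≠ b) :
    (∀ s : ℂ, 1 < s.re → dedekindZeta L s * dedekindZeta K s ^ 2 =
      dedekindZeta (IntermediateField.fixedField (Subgroup.zpowers a)) s *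
        dedekindZeta (IntermediateField.fixedField (Subgroup.zpowers b)) s *
        dedekindZeta (IntermediateField.fixedField (Subgroup.zpowers (a * b))) s) ∧
    hRwd L * hRwd K ^ 2 = hRwd (IntermediateField.fixedField (Subgroup.zpowers a)) *
      hRwd (IntermediateField.fixedField (Subgroup.zpowers b)) *
      hRwd (IntermediateField.fixedField (Subgroup.zpowers (a * b))) := by
  have hrel : IsBrauerRelation (kleinFamily a b) kleinCoeff := klein_relation ha hb hab
  have hone : ∀ (F : Type _) [Field F] [NumberField F], ∀ s : ℂ, 1 < s.re →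
      dedekindZeta F s ≠ 0 := fun F _ _ s hs => by
    rw [← artinL_one (K := F) (L := F) hs]
    exact artinL_ne_zero _ _
  have hq : ∀ (F : Type _) [Field F] [NumberField F], hRwd F ≠ 0 := fun F _ _ =>
    div_ne_zero (mul_ne_zero (Nat.cast_ne_zero.2 (classNumber_pos F).ne')
      (Units.regulator_ne_zero F))
      (mul_ne_zero (Nat.cast_ne_zero.2 (Units.torsionOrder_ne_zero F))
        (Real.sqrt_ne_zero'.2 (abs_pos.2 (Int.cast_ne_zero.2 (discr_ne_zero F)))))
  refine ⟨fun s hs => ?_, ?_⟩
  · have h1 := prod_dedekindZeta_eq_one hrel hs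
    simp only [Fin.prod_univ_five, kleinFamily, kleinCoeff, Matrix.cons_val_zero,
      Matrix.cons_val_one, Matrix.cons_val, zpow_neg_one, zpow_ofNat] at h1
    rw [dedekindZeta_fixedField_bot, dedekindZeta_fixedField_top] at h1
    have n1 := hone (IntermediateField.fixedField (Subgroup.zpowers a)) s hs
    have n2 := hone (IntermediateField.fixedField (Subgroup.zpowers b)) s hs
    have n3 := hone (IntermediateField.fixedField (Subgroup.zpowers (a * b))) s hs
    field_simp at h1
    exact h1
  · have h1 := prod_hRwd_eq_one hrel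
    simp only [Fin.prod_univ_five, kleinFamily, kleinCoeff, Matrix.cons_val_zero,
      Matrix.cons_val_one, Matrix.cons_val, zpow_neg_one, zpow_ofNat] at h1
    rw [hRwd_congr (IntermediateField.fixedField (⊥ : Subgroup (L ≃ₐ[K] L))) L
      fun s _ => dedekindZeta_fixedField_bot s,
      hRwd_congr (IntermediateField.fixedField (⊤ : Subgroup (L ≃ₐ[K] L))) K
        fun s _ => dedekindZeta_fixedField_top s] at h1
    have n1 := hq (IntermediateField.fixedField (Subgroup.zpowers a))
    have n2 := hq (IntermediateField.fixedField (Subgroup.zpowers b))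
    have n3 := hq (IntermediateField.fixedField (Subgroup.zpowers (a * b)))
    field_simp at h1
    exact h1

theorem hRwd_rat : hRwd ℚ = 1 / 2 := by
  have hreg : Units.regulator ℚ = 1 := by
    have hrank : IsEmpty {w : InfinitePlace ℚ // w ≠ Units.dirichletUnitTheorem.w₀} :=
      ⟨fun w => w.2 (Subsingleton.elim _ _)⟩
    rw [Units.regulator_eq_det']
    have hdet : ∀ {α : Type} {_ : DecidableEq α} {_ : Fintype α}, IsEmpty α →
        ∀ M : Matrix α α ℝ, |M.det| = 1 := fun {α _ _} h M => by
      rw [Matrix.det_isEmpty, abs_one]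
    exact hdet hrank _
  rw [hRwd, Rat.classNumber_eq, hreg, Rat.numberField_discr,
    Units.torsionOrder_eq_two_of_odd_finrank (by rw [Module.finrank_self]; exact odd_one)]
  simp

/-- **Dirichlet–Kuroda over `ℚ`.** -/
theorem kuroda_rat (L : Type*) [Field L] [NumberField L] [IsGalois ℚ L]
    [IsKleinFour (L ≃ₐ[ℚ] L)] {a b : L ≃ₐ[ℚ] L} (ha : a ≠ 1) (hb : b ≠ 1) (hab : a ≠ b) :
    (classNumber L : ℝ) * Units.regulator L / (4 * Units.torsionOrder L) =
      (classNumber (IntermediateField.fixedField (Subgroup.zpowers a)) : ℝ) *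
          Units.regulator (IntermediateField.fixedField (Subgroup.zpowers a)) /
          Units.torsionOrder (IntermediateField.fixedField (Subgroup.zpowers a)) *
        ((classNumber (IntermediateField.fixedField (Subgroup.zpowers b)) : ℝ) *
          Units.regulator (IntermediateField.fixedField (Subgroup.zpowers b)) /
          Units.torsionOrder (IntermediateField.fixedField (Subgroup.zpowers b))) *
        ((classNumber (IntermediateField.fixedField (Subgroup.zpowers (a * b))) : ℝ) *
          Units.regulator (IntermediateField.fixedField (Subgroup.zpowers (a * b))) /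
          Units.torsionOrder (IntermediateField.fixedField (Subgroup.zpowers (a * b)))) := by
  have h := (kuroda_zeta ℚ L ha hb hab).2
  have hsq : Real.sqrt |(discr L : ℝ)| =
      Real.sqrt |(discr (IntermediateField.fixedField (Subgroup.zpowers a)) : ℝ)| *
        Real.sqrt |(discr (IntermediateField.fixedField (Subgroup.zpowers b)) : ℝ)| *
        Real.sqrt |(discr (IntermediateField.fixedField (Subgroup.zpowers (a * b))) : ℝ)| := by
    have hd : ∀ z : ℤ, |(z : ℝ)| = (z.natAbs : ℝ) := fun z => by
      rw [Nat.cast_natAbs, Int.cast_abs]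
    simp only [hd, natAbs_discr_biquadratic ha hb hab, Nat.cast_mul]
    rw [Real.sqrt_mul (by positivity), Real.sqrt_mul (by positivity)]
  have hs : ∀ (F : Type _) [Field F] [NumberField F], Real.sqrt |(discr F : ℝ)| ≠ 0 :=
    fun F _ _ => Real.sqrt_ne_zero'.2 (abs_pos.2 (Int.cast_ne_zero.2 (discr_ne_zero F)))
  rw [hRwd_rat] at h
  simp only [hRwd, hsq] at h
  have n1 := hs (IntermediateField.fixedField (Subgroup.zpowers a))
  have n2 := hs (IntermediateField.fixedField (Subgroup.zpowers b))
  have n3 := hs (IntermediateField.fixedField (Subgroup.zpowers (a * b)))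
  field_simp at h ⊢
  linear_combination h

end FA.Summary

end
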