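import Fermat.Agent.BrauerModular.Classes
import Fermat.Agent.BrauerModular.Simple

/-!
# Brauer's theorem on modular representations

Over an algebraically closed field of characteristic `p` a finite group has as many irreducible
representations as conjugacy classes of `p`-regular elements.

* `brauer_modular_count`: a complete irredundant family indexed by that number;
* `brauer_count_le_classes`: at most the number of classes, with equality iff `p` does not divide
  the order;
* `p_group_trivial`: a `p`-group has only the trivial irreducible representation;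
* `brauer_trace_subspace`: the codimension of the trace subspace of the group algebra.
-/

set_option autoImplicit false

noncomputable section

namespace FA.BrauerModular.Summary

open Module

universe u v w

variable (p : ℕ) [hp : Fact p.Prime] {k : Type u} [Field k] [CharP k p] {G : Type v} [Group G]
  [Finite G]

/-- Brauer's count of the irreducible modular representations. -/
theorem brauer_modular_count [IsAlgClosed k] :
    ∃ r : ℕ, r = Nat.card {c : ConjClasses G // ∃ g, ¬ p ∣ orderOf g ∧ ConjClasses.mk g = c} ∧
      ∃ (d : Fin r → ℕ) (ρ : ∀ i, Representation k G (Fin (d i) → k)),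
        (∀ i, (ρ i).IsIrreducible) ∧ (∀ i j, i ≠ j → IsEmpty ((ρ i).Equiv (ρ j))) ∧
        ∀ (V : Type w) [AddCommGroup V] [Module k V] (σ : Representation k G V), σ.IsIrreducible →
          ∃ i, Nonempty ((ρ i).Equiv σ) := by
  obtain ⟨r, d, hd, π, hπ, hker⟩ := exists_blocks (k := k) (MonoidAlgebra k G)
  refine ⟨r, ?_, d, blockRep π, fun i => ?_, fun i j hij => ?_, fun V _ _ σ hσ => ?_⟩
  · rw [← finrank_quotient_traceSpace (k := k) (G := G) p, finrank_quotient_traceSpace_eq p hd hπ hker]
  · have := hd i
    exact blockRep_irreducible hπ i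
  · have := hd i
    exact blockRep_not_equiv hπ hij
  · exact exists_equiv_blockRep hd hπ hker σ

include hp in
/-- The count is at most the number of classes, with equality iff `p` does not divide the order. -/
theorem brauer_count_le_classes :
    Nat.card {c : ConjClasses G // ∃ g, ¬ p ∣ orderOf g ∧ ConjClasses.mk g = c} ≤
        Nat.card (ConjClasses G) ∧
      (Nat.card {c : ConjClasses G // ∃ g, ¬ p ∣ orderOf g ∧ ConjClasses.mk g = c} =
        Nat.card (ConjClasses G) ↔ ¬ p ∣ Nat.card G) := by
  refine ⟨Finite.card_subtype_le _, fun h hdvd => ?_, fun h => ?_⟩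
  · obtain ⟨g, hg⟩ := exists_prime_orderOf_dvd_card' p hdvd
    have := Fintype.ofFinite (ConjClasses G)
    have hlt := Finite.card_subtype_lt (p := fun c : ConjClasses G =>
      ∃ g, ¬ p ∣ orderOf g ∧ ConjClasses.mk g = c) (x := ConjClasses.mk g) (by
        rintro ⟨h', hh, he⟩
        obtain ⟨c, rfl⟩ := isConj_iff.1 (ConjClasses.mk_eq_mk_iff_isConj.1 he)
        refine hh ?_
        have hconj : orderOf (c * h' * c⁻¹) = orderOf h' :=
          orderOf_injective (MulAut.conj c).toMonoidHom (MulAut.conj c).injective h'
        rw [← hconj, hg])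
    omega
  · exact Nat.card_congr (Equiv.subtypeUnivEquiv fun c => by
      obtain ⟨g, rfl⟩ := ConjClasses.exists_rep c
      exact ⟨g, fun hg => h (hg.trans (orderOf_dvd_natCard g)), rfl⟩)

/-- A `p`-group has only the trivial irreducible representation. -/
theorem p_group_trivial [IsAlgClosed k] (hG : IsPGroup p G) {V : Type w} [AddCommGroup V]
    [Module k V] (σ : Representation k G V) [σ.IsIrreducible] :
    finrank k V = 1 ∧ ∀ g, σ g = 1 := by
  obtain ⟨r, d, hd, π, hπ, hker⟩ := exists_blocks (k := k) (MonoidAlgebra k G)
  have hr : r ≤ 1 := by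
    rw [← finrank_quotient_traceSpace_eq p hd hπ hker, finrank_quotient_traceSpace,
      Finite.card_le_one_iff_subsingleton]
    refine ⟨fun ⟨c, g, hg, hc⟩ ⟨c', g', hg', hc'⟩ => Subtype.ext ?_⟩
    have key : ∀ x : G, ¬ p ∣ orderOf x → x = 1 := fun x hx => by
      obtain ⟨j, hj⟩ := (IsPGroup.iff_orderOf.1 hG) x
      rcases j with _ | j
      · exact orderOf_eq_one_iff.1 (by rw [hj, pow_zero])
      · exact absurd (hj ▸ dvd_pow_self p (Nat.succ_ne_zero j)) hx
    show c = c'
    rw [← hc, ← hc', key g hg, key g' hg']
  let τ : Representation k G k := 1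
  have hτ : τ.IsIrreducible := by
    have : Nontrivial (Subrepresentation τ) := by
      refine ⟨⊥, ⊤, fun h => ?_⟩
      have h' : (⊥ : Submodule k k) = ⊤ := congrArg Subrepresentation.toSubmodule h
      exact bot_ne_top h'
    refine ⟨fun W => ?_⟩
    rcases eq_bot_or_eq_top W.toSubmodule with h | h
    · exact Or.inl (Subrepresentation.toSubmodule_injective h)
    · exact Or.inr (Subrepresentation.toSubmodule_injective h)
  obtain ⟨i, ⟨φ⟩⟩ := exists_equiv_blockRep hd hπ hker σ
  obtain ⟨j, ⟨ψ⟩⟩ := exists_equiv_blockRep hd hπ hker τ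
  obtain rfl : i = j := by
    have : Subsingleton (Fin r) := Fin.subsingleton_iff_le_one.2 hr
    exact Subsingleton.elim i j
  refine ⟨?_, fun g => LinearMap.ext fun v => ?_⟩
  · rw [← φ.toLinearEquiv.finrank_eq, ψ.toLinearEquiv.finrank_eq, finrank_self]
  · obtain ⟨w, rfl⟩ := φ.toLinearEquiv.surjective v
    have h1 := LinearMap.congr_fun (φ.isIntertwining' g) w
    have h2 := LinearMap.congr_fun (ψ.isIntertwining' g) w
    have h3 : blockRep π i g w = w := ψ.toLinearEquiv.injective h2
    rw [LinearMap.comp_apply, LinearMap.comp_apply, h3] at h1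
    exact h1.symm

/-- The trace subspace has the number of `p`-regular classes as codimension. -/
theorem brauer_trace_subspace :
    finrank k (MonoidAlgebra k G ⧸ traceSpace (k := k) (A := MonoidAlgebra k G) p) =
      Nat.card {c : ConjClasses G // ∃ g, ¬ p ∣ orderOf g ∧ ConjClasses.mk g = c} :=
  finrank_quotient_traceSpace p

end FA.BrauerModular.Summary
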