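import Fermat.Agent.BrauerInvariant.Restriction

/-!
# Invariants over extensions, splitting fields and maximal subfields

* `brauerGroup_invariant_restriction`: `inv_w (res x) = e f · inv_v x` for `w` over `v`, with
  `brauerGroup_invariant_restriction_infinite` at the infinite places.
* `brauerGroup_splitting_iff`: `F` splits `x` iff the local degrees are multiples of the orders of
  the invariants and real places of `F` lie over real places of trivial invariant.
* `divisionAlgebra_subfield_iff`: a field of the degree of `D` embeds into `D` iff it satisfies the
  same conditions.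
-/

set_option autoImplicit false

noncomputable section

open NumberField IsDedekindDomain Module
open FA.ArtinRec (belowP eIdx)
open FA.BrauerTheory (restriction)
open FA.BrauerInvariant

namespace FA.Summary

variable {K : Type} [Field K] [NumberField K] {F : Type} [Field F] [NumberField F] [Algebra K F]

/-- **`inv_w ∘ res = e f · inv_v`.** -/
theorem brauerGroup_invariant_restriction (x : BrauerGroup.{0, 0} K)
    (w : HeightOneSpectrum (𝓞 F)) :
    invAt w (restriction F x) =
      (eIdx K w * w.asIdeal.inertiaDeg (𝓞 K)) • invAt (belowP K w) x :=
  invAt_restriction x w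

omit [NumberField K] [NumberField F] in
open scoped Classical in
/-- **The infinite places.** -/
theorem brauerGroup_invariant_restriction_infinite (x : BrauerGroup.{0, 0} K)
    (u : InfinitePlace F) :
    invAtInf u (restriction F x) =
      if u.IsReal then invAtInf (u.comap (algebraMap K F)) x else 0 :=
  invAtInf_restriction x u

/-- **Splitting fields.** -/
theorem brauerGroup_splitting_iff (x : BrauerGroup.{0, 0} K) :
    restriction F x = 1 ↔
      (∀ w : HeightOneSpectrum (𝓞 F), addOrderOf (invAt (belowP K w) x) ∣
          eIdx K w * w.asIdeal.inertiaDeg (𝓞 K)) ∧
        ∀ u : InfinitePlace F, u.IsReal → invAtInf (u.comap (algebraMap K F)) x = 0 :=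
  restriction_eq_one_iff_invariants x

/-- **Maximal subfields of a division algebra.** -/
theorem divisionAlgebra_subfield_iff {D : Type} [DivisionRing D] [Algebra K D]
    [FiniteDimensional K D] [Algebra.IsCentral K D] [FiniteDimensional K F]
    (hdim : finrank K D = finrank K F ^ 2) :
    Nonempty (F →ₐ[K] D) ↔
      (∀ w : HeightOneSpectrum (𝓞 F), addOrderOf (invAt (belowP K w) (classOf K D)) ∣
          eIdx K w * w.asIdeal.inertiaDeg (𝓞 K)) ∧
        ∀ u : InfinitePlace F, u.IsReal →
          invAtInf (u.comap (algebraMap K F)) (classOf K D) = 0 :=
  (nonempty_algHom_iff hdim).trans (restriction_eq_one_iff_invariants _)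

end FA.Summary

end
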