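import Fermat.Agent.BrauerInvariant.Exact

/-!
# The exact sequence of Hasse, Brauer and Noether

`0 → Br K → ⊕ Br K_v → ℚ / ℤ → 0`: a family of local invariants is that of exactly one class over
the number field if and only if almost all vanish and the sum is zero.

* `brauerGroup_exact_sequence`: the characterisation of the families that occur, with uniqueness.
* `brauerGroup_exact_sequence_exists`: the existence half.
* `brauerGroup_exact_sequence_onto`: onto `ℚ / ℤ`, already from any single prime.
-/

set_option autoImplicit false

noncomputable section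

open NumberField IsDedekindDomain
open FA.BrauerInvariant

namespace FA.Summary

variable {K : Type} [Field K] [NumberField K]

/-- **The exact sequence.** -/
theorem brauerGroup_exact_sequence (r : HeightOneSpectrum (𝓞 K) → AddCircle (1 : ℚ))
    (s : InfinitePlace K → AddCircle (1 : ℚ)) :
    (∃! x : BrauerGroup.{0, 0} K, (∀ v, invAt v x = r v) ∧ ∀ w, invAtInf w x = s w) ↔
      (Function.support r).Finite ∧ (∀ w, s w + s w = 0) ∧ (∀ w, ¬ w.IsReal → s w = 0) ∧
        (∑ᶠ v, r v) + ∑ w, s w = 0 :=
  existsUnique_iff r s

/-- **Every family of invariants with sum zero comes from a global class.** -/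
theorem brauerGroup_exact_sequence_exists (r : HeightOneSpectrum (𝓞 K) → AddCircle (1 : ℚ))
    (hfin : (Function.support r).Finite) (hsum : (∑ᶠ v, r v) = 0) :
    ∃ x : BrauerGroup.{0, 0} K, (∀ v, invAt v x = r v) ∧ ∀ w, invAtInf w x = 0 :=
  exists_invariants_eq r hfin 0 (fun _ => add_zero 0) (fun _ _ => rfl)
    (by rw [hsum, zero_add]; exact Finset.sum_eq_zero fun _ _ => rfl)

/-- **The map to `ℚ / ℤ` is onto**, already at one prime. -/
theorem brauerGroup_exact_sequence_onto (v : HeightOneSpectrum (𝓞 K)) (q : AddCircle (1 : ℚ)) :
    ∃ y : BrauerGroup.{0, 0} (v.adicCompletion K), invariant v (Additive.ofMul y) = q :=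
  invFun_surjective v q

end FA.Summary

end
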