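import Fermat.Agent.Tau.FieldClassBound
import Fermat.Agent.Tau.SiegelDiscriminant
import Fermat.Agent.Tau.IdonealFinite

/-!
# Heilbronn's theorem for imaginary quadratic fields

`K` is a number field of degree two containing `√d`, `d < 0` squarefree; `D = d` or `4 d` is its
discriminant.

* `fieldClassNumber_ge_forms`: at most `classNumber K` reduced primitive forms have discriminant
  `D`.
* `fieldClassNumber_lower_bound`: `classNumber K ≥ C(ε) |d|^(1/2 - ε)`.
* `fieldClassNumber_finite`: only finitely many `d` give a class number at most `B`.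
* `fieldClassGroup_exponentTwo_finite`: only finitely many `d` give a class group of exponent two.

The last three are INEFFECTIVE: they rest on Siegel's theorem.
-/

set_option autoImplicit false

noncomputable section

open NumberField Module

namespace FA.Summary

/-- **The forms inject into the class group.** -/
theorem fieldClassNumber_ge_forms (K : Type*) [Field K] [NumberField K]
    (hK : finrank ℚ K = 2) {d : ℤ} (hd : Squarefree d) (hd0 : d < 0)
    (hs : ∃ s : K, s ^ 2 = (d : K)) :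
    {t : ℤ × ℤ × ℤ | t.2.1 ^ 2 - 4 * t.1 * t.2.2 = (if d % 4 = 1 then d else 4 * d) ∧
      Int.gcd (Int.gcd t.1 t.2.1) t.2.2 = 1 ∧ 0 < t.1 ∧ |t.2.1| ≤ t.1 ∧ t.1 ≤ t.2.2 ∧
      ((|t.2.1| = t.1 ∨ t.1 = t.2.2) → 0 ≤ t.2.1)}.ncard ≤ classNumber K := by
  obtain ⟨s, hs⟩ := hs
  exact FA.FieldClassBound.ncard_red_le_classNumber hK hd hd0 hs

/-- **Siegel's lower bound for imaginary quadratic fields** (ineffective). -/
theorem fieldClassNumber_lower_bound (ε : ℝ) (hε : 0 < ε) :
    ∃ C : ℝ, 0 < C ∧ ∀ (K : Type*) [Field K] [NumberField K], finrank ℚ K = 2 →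
      ∀ d : ℤ, Squarefree d → d < 0 → (∃ s : K, s ^ 2 = (d : K)) →
        C * |(d : ℝ)| ^ (1 / 2 - ε) ≤ classNumber K := by
  obtain ⟨C, hC, h⟩ := FA.SiegelDiscriminant.ncard_red_lower_bound (min ε (1 / 2))
    (lt_min hε (by norm_num))
  refine ⟨C, hC, fun K _ _ hK d hd hd0 hs => ?_⟩
  obtain ⟨s, hs⟩ := hs
  refine le_trans ?_ ((h _ (FA.FieldClassBound.discK_neg hd0)
    (FA.FieldClassBound.discK_mod_four d)).trans
    (Nat.cast_le.2 (FA.FieldClassBound.ncard_red_le_classNumber hK hd hd0 hs)))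
  have h1 : (1 : ℝ) ≤ |(d : ℝ)| := by exact_mod_cast Int.one_le_abs hd0.ne
  refine mul_le_mul_of_nonneg_left ((Real.rpow_le_rpow_of_exponent_le h1
    (by linarith [min_le_left ε (1 / 2)])).trans (Real.rpow_le_rpow (abs_nonneg _) ?_
    (by linarith [min_le_right ε (1 / 2)]))) hC.le
  unfold FA.FieldClassBound.discK
  split_ifs
  · exact le_rfl
  · push_cast
    rw [abs_mul, abs_of_pos (four_pos (α := ℝ))]
    linarith

/-- **Heilbronn's theorem** (ineffective): bounded class number, bounded `d`. -/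
theorem fieldClassNumber_finite (B : ℕ) :
    ∃ M : ℕ, ∀ (K : Type*) [Field K] [NumberField K], finrank ℚ K = 2 →
      ∀ d : ℤ, Squarefree d → d < 0 → (∃ s : K, s ^ 2 = (d : K)) →
        classNumber K ≤ B → d.natAbs ≤ M := by
  obtain ⟨M, hM⟩ := ((FA.SiegelDiscriminant.finite_red_le B).image Int.natAbs).bddAbove
  refine ⟨M, fun K _ _ hK d hd hd0 hs hB => ?_⟩
  obtain ⟨s, hs⟩ := hs
  have h := hM ⟨FA.FieldClassBound.discK d, ⟨FA.FieldClassBound.discK_neg hd0,
    FA.FieldClassBound.discK_mod_four d,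
    (FA.FieldClassBound.ncard_red_le_classNumber hK hd hd0 hs).trans hB⟩, rfl⟩
  refine le_trans ?_ h
  unfold FA.FieldClassBound.discK
  split_ifs <;> omega

/-- **Finitely many class groups of exponent two** (ineffective). -/
theorem fieldClassGroup_exponentTwo_finite :
    ∃ M : ℕ, ∀ (K : Type*) [Field K] [NumberField K], finrank ℚ K = 2 →
      ∀ d : ℤ, Squarefree d → d < 0 → (∃ s : K, s ^ 2 = (d : K)) →
        (∀ x : ClassGroup (𝓞 K), x * x = 1) → d.natAbs ≤ M := by
  obtain ⟨C, hC, hlo⟩ := FA.SiegelDiscriminant.ncard_red_lower_bound (1 / 8) (by norm_num)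
  obtain ⟨C', hC', hup⟩ := FA.IdonealFinite.two_pow_card_primeFactors_le (1 / 8) (by norm_num)
  refine ⟨⌈(9 * C' / C) ^ (4 : ℕ)⌉₊, fun K _ _ hK d hd hd0 hs h2 => ?_⟩
  obtain ⟨s, hs⟩ := hs
  set D := FA.FieldClassBound.discK d
  set m := d.natAbs
  have hm0 : m ≠ 0 := Int.natAbs_ne_zero.2 hd0.ne
  have hm : (0 : ℝ) < m := Nat.cast_pos.2 (Nat.pos_of_ne_zero hm0)
  have hsq : Squarefree m := Int.squarefree_natAbs.2 hd
  -- the divisors
  have hdiv : D.natAbs.divisors.card ≤ 3 * 2 ^ m.primeFactors.card := by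
    have h1 : m.divisors.card = 2 ^ m.primeFactors.card := by
      rw [Nat.card_divisors hm0]
      refine (Finset.prod_eq_pow_card fun p hp => ?_)
      rw [Nat.factorization_eq_one_of_squarefree hsq (Nat.prime_of_mem_primeFactors hp)
        (Nat.dvd_of_mem_primeFactors hp)]
    have h4 : D.natAbs ∣ 4 * m := by
      simp only [D, FA.FieldClassBound.discK, m]
      split_ifs
      · exact dvd_mul_left _ _
      · rw [Int.natAbs_mul]; rfl
    refine (Finset.card_le_card
      (Nat.divisors_subset_of_dvd (mul_ne_zero four_ne_zero hm0) h4)).trans ?_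
    rw [Nat.divisors_mul, ← h1]
    exact Finset.card_mul_le.trans (le_of_eq (by rw [show (4 : ℕ).divisors.card = 3 from rfl]))
  have hD := FA.FieldClassBound.discK_neg hd0
  have hn := (FA.FieldClassBound.ncard_red_le_divisors hD fun a b c hf =>
    FA.FieldClassBound.ambiguous_of_exponent_two hK hd hd0 hs h2 hf).trans
    (Nat.mul_le_mul_left 3 hdiv)
  have hn' : ((FA.Singular.Red D).ncard : ℝ) ≤ 9 * (2 : ℝ) ^ m.primeFactors.card := by
    have : ((FA.Singular.Red D).ncard : ℝ) ≤ ((3 * (3 * 2 ^ m.primeFactors.card) : ℕ) : ℝ) :=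
      Nat.cast_le.2 hn
    push_cast at this
    linarith
  have hDm : (m : ℝ) ≤ |(D : ℝ)| := by
    rw [← Int.cast_abs, Int.abs_eq_natAbs, Int.cast_natCast, Nat.cast_le]
    simp only [D, m, FA.FieldClassBound.discK]
    split_ifs <;> omega
  have h := ((mul_le_mul_of_nonneg_left (Real.rpow_le_rpow hm.le hDm (by norm_num)) hC.le).trans
    (hlo D hD (FA.FieldClassBound.discK_mod_four d))).trans
      (hn'.trans (mul_le_mul_of_nonneg_left (hup m hm0) (by norm_num)))
  rw [show (1 / 2 - 1 / 8 : ℝ) = 1 / 4 + 1 / 8 by norm_num, Real.rpow_add hm, ← mul_assoc,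
    ← mul_assoc, mul_le_mul_iff_of_pos_right (Real.rpow_pos_of_pos hm _),
    ← le_div_iff₀' hC] at h
  have h' := pow_le_pow_left₀ (Real.rpow_nonneg hm.le _) h 4
  rw [← Real.rpow_natCast ((m : ℝ) ^ (1 / 4 : ℝ)) 4, ← Real.rpow_mul hm.le,
    show (1 / 4 : ℝ) * ((4 : ℕ) : ℝ) = 1 by norm_num, Real.rpow_one] at h'
  exact Nat.cast_le.1 (h'.trans (Nat.le_ceil _))

end FA.Summary

end
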