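import Fermat.Agent.Tau.FieldClassEquality
import Fermat.Agent.Root.SummaryHeilbronn

/-!
# The Brauer–Siegel theorem for imaginary quadratic fields

`K` is a number field of degree two containing `√d`, `d < 0` squarefree; `D = d` or `4 d` is its
discriminant.

* `fieldClassNumber_eq_forms` (Gauss, Dirichlet): `classNumber K` is the number of reduced
  primitive forms of discriminant `D`.
* `singularModulus_degree_eq_classNumber`: `j(τ)` has degree `h_K` at the roots of these forms.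
* `discriminant_classNumber_upper_bound`: `h(D) ≤ 6 √|D| (1 + log 4|D|)` for every discriminant.
* `fieldClassNumber_upper_bound`: `h_K ≤ C(ε) |d|^(1/2 + ε)`.
* `brauerSiegel_imaginary_quadratic`: `log h_K / log √|d| → 1`. INEFFECTIVE: the lower half rests
  on Siegel's theorem.
-/

set_option autoImplicit false

noncomputable section

open NumberField Module
open UpperHalfPlane hiding I
open ModularForm EisensteinSeries

namespace FA.Summary

/-- **The class number counts the reduced forms.** -/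
theorem fieldClassNumber_eq_forms (K : Type*) [Field K] [NumberField K]
    (hK : finrank ℚ K = 2) {d : ℤ} (hd : Squarefree d) (hd0 : d < 0)
    (hs : ∃ s : K, s ^ 2 = (d : K)) :
    classNumber K =
      {t : ℤ × ℤ × ℤ | t.2.1 ^ 2 - 4 * t.1 * t.2.2 = (if d % 4 = 1 then d else 4 * d) ∧
        Int.gcd (Int.gcd t.1 t.2.1) t.2.2 = 1 ∧ 0 < t.1 ∧ |t.2.1| ≤ t.1 ∧ t.1 ≤ t.2.2 ∧
        ((|t.2.1| = t.1 ∨ t.1 = t.2.2) → 0 ≤ t.2.1)}.ncard := by
  obtain ⟨s, hs⟩ := hs
  exact FA.FieldClassBound.classNumber_eq_ncard_red hK hd hd0 hs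

/-- **The degree of `j` at a point with multiplication by the integers is `h_K`.** -/
theorem singularModulus_degree_eq_classNumber (K : Type*) [Field K] [NumberField K]
    (hK : finrank ℚ K = 2) {d : ℤ} (hd : Squarefree d) (hd0 : d < 0)
    (hs : ∃ s : K, s ^ 2 = (d : K)) {a b c : ℤ} (ha : 0 < a)
    (hdisc : b ^ 2 - 4 * a * c = if d % 4 = 1 then d else 4 * d) {τ : ℍ}
    (hτ : (a : ℂ) * (τ : ℂ) ^ 2 + b * (τ : ℂ) + c = 0) :
    (minpoly ℚ (E₄ τ ^ 3 / ModularForm.discriminant τ)).natDegree = classNumber K := by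
  obtain ⟨s, hs⟩ := hs
  have hD := FA.FieldClassBound.discK_neg hd0
  have hv := FA.Singular.jfun_mem_values (t := (a, b, c)) ha (hdisc.trans_lt hD)
    (FA.FieldClassBound.gcd_eq_one_of_disc hd hdisc) hτ
  rw [show FA.Singular.disc (a, b, c) = FA.FieldClassBound.discK d from hdisc] at hv
  rw [FA.FieldClassBound.classNumber_eq_ncard_red hK hd hd0 hs]
  exact FA.Singular.natDegree_minpoly hD hv

/-- **The upper bound for class numbers of forms.** -/
theorem discriminant_classNumber_upper_bound {D : ℤ} (hD : D < 0)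
    (h4 : D % 4 = 0 ∨ D % 4 = 1) :
    ({t : ℤ × ℤ × ℤ | t.2.1 ^ 2 - 4 * t.1 * t.2.2 = D ∧
      Int.gcd (Int.gcd t.1 t.2.1) t.2.2 = 1 ∧ 0 < t.1 ∧ |t.2.1| ≤ t.1 ∧ t.1 ≤ t.2.2 ∧
      ((|t.2.1| = t.1 ∨ t.1 = t.2.2) → 0 ≤ t.2.1)}.ncard : ℝ) ≤
      6 * (√|(D : ℝ)| * (1 + Real.log (4 * |(D : ℝ)|))) :=
  FA.FieldClassBound.ncard_red_upper_bound hD h4

/-- **The upper bound for class numbers of fields.** -/
theorem fieldClassNumber_upper_bound (ε : ℝ) (hε : 0 < ε) :
    ∃ C : ℝ, 0 < C ∧ ∀ (K : Type*) [Field K] [NumberField K], finrank ℚ K = 2 →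
      ∀ d : ℤ, Squarefree d → d < 0 → (∃ s : K, s ^ 2 = (d : K)) →
        (classNumber K : ℝ) ≤ C * |(d : ℝ)| ^ (1 / 2 + ε) := by
  refine ⟨12 * ((1 + 1 / ε) * (16 : ℝ) ^ ε), by positivity, fun K _ _ hK d hd hd0 hs => ?_⟩
  obtain ⟨s, hs⟩ := hs
  rw [FA.FieldClassBound.classNumber_eq_ncard_red hK hd hd0 hs]
  refine (FA.FieldClassBound.ncard_red_upper_bound (FA.FieldClassBound.discK_neg hd0)
    (FA.FieldClassBound.discK_mod_four d)).trans ?_
  have h1' : (1 : ℝ) ≤ |(d : ℝ)| := by exact_mod_cast Int.one_le_abs hd0.ne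
  set x := |(d : ℝ)|
  have h1 : 1 ≤ x := h1'
  have hD : |(FA.FieldClassBound.discK d : ℝ)| ≤ 4 * x := by
    unfold FA.FieldClassBound.discK
    split_ifs
    · linarith [abs_nonneg (d : ℝ)]
    · push_cast
      rw [abs_mul, abs_of_pos (four_pos (α := ℝ))]
  have hD1 : (1 : ℝ) ≤ |(FA.FieldClassBound.discK d : ℝ)| := by
    exact_mod_cast Int.one_le_abs (FA.FieldClassBound.discK_neg hd0).ne
  have hs4 : √|(FA.FieldClassBound.discK d : ℝ)| ≤ 2 * √x := by
    refine (Real.sqrt_le_sqrt hD).trans (le_of_eq ?_)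
    rw [Real.sqrt_mul (by norm_num), show (4 : ℝ) = 2 ^ 2 by norm_num,
      Real.sqrt_sq zero_le_two]
  have hl : 1 + Real.log (4 * |(FA.FieldClassBound.discK d : ℝ)|) ≤
      (1 + 1 / ε) * ((16 : ℝ) ^ ε * x ^ ε) := by
    have h2 : Real.log (4 * |(FA.FieldClassBound.discK d : ℝ)|) ≤ Real.log (16 * x) :=
      Real.log_le_log (by linarith) (by linarith)
    have h3 := Real.log_le_rpow_div (show (0 : ℝ) ≤ 16 * x by linarith) hε
    have h4 := Real.one_le_rpow (show (1 : ℝ) ≤ 16 * x by linarith) hε.le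
    rw [Real.mul_rpow (by norm_num) (by linarith)] at h3 h4
    rw [div_eq_inv_mul, ← one_div] at h3
    nlinarith
  have hl0 : 0 ≤ 1 + Real.log (4 * |(FA.FieldClassBound.discK d : ℝ)|) := by
    linarith [Real.log_nonneg (show (1 : ℝ) ≤ 4 * |(FA.FieldClassBound.discK d : ℝ)| by linarith)]
  calc 6 * (√|(FA.FieldClassBound.discK d : ℝ)| *
        (1 + Real.log (4 * |(FA.FieldClassBound.discK d : ℝ)|)))
      ≤ 6 * ((2 * √x) * ((1 + 1 / ε) * ((16 : ℝ) ^ ε * x ^ ε))) := by gcongr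
    _ = 12 * ((1 + 1 / ε) * (16 : ℝ) ^ ε) * (√x * x ^ ε) := by ring
    _ = _ := by rw [Real.sqrt_eq_rpow, ← Real.rpow_add (by linarith)]

/-- **The Brauer–Siegel theorem for imaginary quadratic fields** (ineffective). -/
theorem brauerSiegel_imaginary_quadratic (ε : ℝ) (hε : 0 < ε) :
    ∃ M : ℕ, ∀ (K : Type*) [Field K] [NumberField K], finrank ℚ K = 2 →
      ∀ d : ℤ, Squarefree d → d < 0 → (∃ s : K, s ^ 2 = (d : K)) → M < d.natAbs →
        |Real.log (classNumber K) / Real.log √|(d : ℝ)| - 1| < ε := by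
  obtain ⟨C, hC, hlo⟩ := fieldClassNumber_lower_bound (ε / 4) (by linarith)
  obtain ⟨C', hC', hup⟩ := fieldClassNumber_upper_bound (ε / 4) (by linarith)
  refine ⟨⌈Real.exp ((|Real.log C| + |Real.log C'|) * (4 / ε))⌉₊ + 1,
    fun K _ _ hK d hd hd0 hs hM => ?_⟩
  have h1 := hlo K hK d hd hd0 hs
  have h2 := hup K hK d hd hd0 hs
  set x := |(d : ℝ)| with hx
  set T := (|Real.log C| + |Real.log C'|) * (4 / ε)
  have hT0 : 0 ≤ T := by positivity
  have hxM : Real.exp T < x := by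
    have e : x = (d.natAbs : ℝ) := by rw [hx, Nat.cast_natAbs, Int.cast_abs]
    rw [e]
    refine (Nat.le_ceil _).trans_lt ?_
    exact_mod_cast (Nat.le_succ _).trans_lt hM
  have hx0 : 0 < x := (Real.exp_pos T).trans hxM
  have hL : T < Real.log x := (Real.lt_log_iff_exp_lt hx0).2 hxM
  have hh : (0 : ℝ) < classNumber K :=
    (mul_pos hC (Real.rpow_pos_of_pos hx0 _)).trans_le h1
  have hl1 := Real.log_le_log (mul_pos hC (Real.rpow_pos_of_pos hx0 _)) h1
  have hl2 := Real.log_le_log hh h2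
  rw [Real.log_mul hC.ne' (Real.rpow_pos_of_pos hx0 _).ne', Real.log_rpow hx0] at hl1
  rw [Real.log_mul hC'.ne' (Real.rpow_pos_of_pos hx0 _).ne', Real.log_rpow hx0] at hl2
  have hL' : |Real.log C| + |Real.log C'| < Real.log x * (ε / 4) := by
    have := mul_lt_mul_of_pos_right hL (show 0 < ε / 4 by linarith)
    calc |Real.log C| + |Real.log C'| = T * (ε / 4) := by simp only [T]; field_simp
      _ < _ := this
  rw [Real.log_sqrt (abs_nonneg _), div_sub_one (by linarith [hT0, hL] : Real.log x / 2 ≠ 0),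
    abs_div, abs_of_pos (show 0 < Real.log x / 2 by linarith), div_lt_iff₀ (by linarith), abs_lt]
  constructor <;> nlinarith [neg_abs_le (Real.log C), le_abs_self (Real.log C'),
    abs_nonneg (Real.log C), abs_nonneg (Real.log C')]

end FA.Summary

end
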