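import Fermat.Agent.BrauerSiegelDegree.Main
import Mathlib.NumberTheory.NumberField.Discriminant.Basic

/-!
# The theorem of Brauer and Siegel for all fields of a fixed degree

No normality is assumed.

* `galois_closure_discr_bound`: a field of degree `n` has a Galois closure `M` of degree at most
  `n!` with `|d_M| ≤ (n! |d|)^(n!)`;
* `classNumber_mul_regulator_ge_of_degree`: `h R ≥ c(n, ε) |d|^(1/2 - ε)` in every degree `n`
  (`c` is ineffective), and `brauer_siegel_degree`: `log (h R) / log √|d| → 1`;
* `classNumber_mul_regulator_finite`: finitely many fields of bounded degree have bounded `h R`;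
* `cm_relativeClassNumber_discr_bounded`, `cm_relativeClassNumber_finite`,
  `cm_classNumber_finite`: finitely many CM fields of bounded degree, normal or not, have bounded
  relative class number, in particular bounded class number.

Proved from the Galois case through the entire quotient of the completed zeta functions;
independent of S01.
-/

set_option autoImplicit false
set_option linter.style.haveILetI false

noncomputable section

universe u

open NumberField Module
open scoped Real Classical

namespace FA.Summary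

/-- **The Galois closure.** -/
theorem galois_closure_discr_bound (F : Type u) [Field F] [NumberField F] :
    ∃ (M : Type) (_ : Field M) (_ : NumberField M) (_ : Algebra F M), IsGalois ℚ M ∧ IsGalois F M ∧
      finrank ℚ M ≤ (finrank ℚ F).factorial ∧
      (discr M).natAbs ≤ ((finrank ℚ F).factorial * (discr F).natAbs) ^ (finrank ℚ F).factorial :=
  FA.BSDegree.exists_galois_closure F

/-- **Brauer's lower bound in every degree.** -/
theorem classNumber_mul_regulator_ge_of_degree (n : ℕ) {ε : ℝ} (hε : 0 < ε) :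
    ∃ c > 0, ∀ (F : Type u) [Field F] [NumberField F], finrank ℚ F = n →
      c * |((discr F : ℤ) : ℝ)| ^ (1 / 2 - ε) ≤ (classNumber F : ℝ) * Units.regulator F :=
  FA.BSDegree.exists_hR_lower n hε

/-- **Brauer–Siegel in every degree.** -/
theorem brauer_siegel_degree (n : ℕ) {ε : ℝ} (hε : 0 < ε) :
    ∃ D : ℝ, ∀ (F : Type u) [Field F] [NumberField F], finrank ℚ F = n →
      D < |((discr F : ℤ) : ℝ)| →
      |Real.log ((classNumber F : ℝ) * Units.regulator F) /
        Real.log (Real.sqrt |((discr F : ℤ) : ℝ)|) - 1| < ε :=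
  FA.BSDegree.exists_log_hR_div n hε

/-- **Bounded `h R`**: finitely many fields. -/
theorem classNumber_mul_regulator_finite (n : ℕ) (B : ℝ) :
    {F : IntermediateField ℚ ℂ | FiniteDimensional ℚ F ∧ finrank ℚ F ≤ n ∧
      ∀ [NumberField F], (classNumber F : ℝ) * Units.regulator F ≤ B}.Finite := by
  choose c hc hlo using fun m => FA.BSDegree.exists_hR_lower.{0} m (show (0 : ℝ) < 1 / 4 by norm_num)
  set c₀ := (Finset.range (n + 1)).inf' ⟨0, Finset.mem_range.2 (by omega)⟩ c
  have hc₀ : 0 < c₀ := (Finset.lt_inf'_iff _).2 fun m _ => hc m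
  obtain ⟨D, hD⟩ := exists_nat_ge ((B / c₀) ^ (4 : ℝ))
  refine ((finite_of_discr_bdd ℂ D).image Subtype.val).subset ?_
  rintro F ⟨hfin, hn, hB⟩
  haveI : NumberField F := @NumberField.mk _ _ inferInstance hfin
  refine ⟨⟨F, hfin⟩, ?_, rfl⟩
  show |discr F| ≤ (D : ℤ)
  have hd : 0 ≤ |((discr F : ℤ) : ℝ)| := abs_nonneg _
  have hle : c₀ ≤ c (finrank ℚ F) := Finset.inf'_le _ (Finset.mem_range.2 (by omega))
  have h : |((discr F : ℤ) : ℝ)| ^ (1 / 4 : ℝ) ≤ B / c₀ := by
    rw [le_div_iff₀ hc₀, mul_comm, show (1 / 4 : ℝ) = 1 / 2 - 1 / 4 by norm_num]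
    exact ((mul_le_mul_of_nonneg_right hle (Real.rpow_nonneg hd _)).trans (hlo _ F rfl)).trans hB
  have h' : |((discr F : ℤ) : ℝ)| ≤ (D : ℝ) := by
    calc |((discr F : ℤ) : ℝ)| = (|((discr F : ℤ) : ℝ)| ^ (1 / 4 : ℝ)) ^ (4 : ℝ) := by
          rw [← Real.rpow_mul hd]; norm_num
      _ ≤ (B / c₀) ^ (4 : ℝ) := Real.rpow_le_rpow (Real.rpow_nonneg hd _) h (by norm_num)
      _ ≤ _ := hD
  exact_mod_cast h'

/-- **CM fields**: the discriminant is bounded by degree and relative class number. -/
theorem cm_relativeClassNumber_discr_bounded (n B : ℕ) :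
    ∃ D : ℕ, ∀ (F : Type u) [Field F] [NumberField F] [IsCMField F],
      finrank ℚ F ≤ n → classNumber F ≤ B * classNumber (maximalRealSubfield F) →
      (discr F).natAbs ≤ D :=
  FA.BSDegree.exists_cm_discr_bound_le n B

/-- **Bounded relative class number**: finitely many CM fields. -/
theorem cm_relativeClassNumber_finite (n B : ℕ) :
    {F : IntermediateField ℚ ℂ | FiniteDimensional ℚ F ∧ finrank ℚ F ≤ n ∧
      ∀ [NumberField F], IsCMField F ∧
        classNumber F ≤ B * classNumber (maximalRealSubfield F)}.Finite := by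
  obtain ⟨D, hD⟩ := cm_relativeClassNumber_discr_bounded.{0} n B
  refine ((finite_of_discr_bdd ℂ D).image Subtype.val).subset ?_
  rintro F ⟨hfin, hn, hB⟩
  haveI : NumberField F := @NumberField.mk _ _ inferInstance hfin
  obtain ⟨hcm, hh⟩ := @hB this
  haveI := hcm
  refine ⟨⟨F, hfin⟩, ?_, rfl⟩
  show |discr F| ≤ (D : ℤ)
  rw [← Int.natCast_natAbs]
  exact_mod_cast hD F hn hh

/-- **Bounded class number**: finitely many CM fields. -/
theorem cm_classNumber_finite (n B : ℕ) :
    {F : IntermediateField ℚ ℂ | FiniteDimensional ℚ F ∧ finrank ℚ F ≤ n ∧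
      ∀ [NumberField F], IsCMField F ∧ classNumber F ≤ B}.Finite :=
  (cm_relativeClassNumber_finite n B).subset fun _ ⟨hfin, hn, hB⟩ =>
    ⟨hfin, hn, fun {_} => ⟨hB.1, hB.2.trans (Nat.le_mul_of_pos_right B (classNumber_pos _))⟩⟩

end FA.Summary
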