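import Fermat.Agent.HeckeFE.Extension

/-!
# Hecke's functional equation for every number field

For an arbitrary number field `F` with `r = r₁ + r₂` infinite places:

* `classZeta_hecke_functionalEquation`: for each ideal class `C` the function
  `|d|^(s/2) Γℝ(s)^r₁ Γℂ(s)^r₂ ζ(C, s) + 2^r R / (w s (1 - s))` (defined for `1 < re s`) is the
  restriction of an entire function, and `s ↦ 1 - s` sends `C` to `[𝔇] C⁻¹`.
* `dedekindZeta_hecke_completed`: likewise for `ζ_F`, with `h 2^r R / w`, symmetric under `s ↦ 1 - s`.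
* `dedekindZeta_hecke_functionalEquation`: `ζ_F` continues to a function `Z` differentiable outside
  `1`, with residue `dedekindZeta_residue F` there, `ξ(1 - s) = ξ(s)`,
  `Z(s) / s^(r - 1) → -h R / w` at `0`, zeros at the negative even integers, and at all negative
  integers if `F` is totally complex.
* `dedekindZeta_extension_unique`: such a continuation is unique outside `1`.

Proved by Hecke's theta method (Poisson summation, unfolding along the unit lattice);
independent of S01.
-/

set_option autoImplicit false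
set_option linter.style.haveILetI false

noncomputable section

open NumberField InfinitePlace Filter Complex
open scoped Real nonZeroDivisors Classical Topology

namespace FA.Summary

/-- **Hecke's functional equation for partial zeta functions.** -/
theorem classZeta_hecke_functionalEquation (F : Type*) [Field F] [NumberField F] :
    ∃ Ξ : ClassGroup (𝓞 F) → ℂ → ℂ, (∀ C, Differentiable ℂ (Ξ C)) ∧
      (∀ (𝔇 : (Ideal (𝓞 F))⁰), (𝔇 : Ideal (𝓞 F)) = differentIdeal ℤ (𝓞 F) →
        ∀ C s, Ξ C (1 - s) = Ξ (ClassGroup.mk0 𝔇 * C⁻¹) s) ∧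
      ∀ (C : ClassGroup (𝓞 F)) (s : ℂ), 1 < s.re →
        (((discr F).natAbs : ℕ) : ℂ) ^ (s / 2) *
            (Gammaℝ s ^ nrRealPlaces F * Gammaℂ s ^ nrComplexPlaces F) *
            ∑' I : {I : (Ideal (𝓞 F))⁰ // ClassGroup.mk0 I = C},
              ((Ideal.absNorm (I.1 : Ideal (𝓞 F)) : ℕ) : ℂ) ^ (-s) =
          Ξ C s - (2 : ℂ) ^ (nrRealPlaces F + nrComplexPlaces F) * (Units.regulator F : ℂ) /
            (Units.torsionOrder F : ℂ) / (s * (1 - s)) := by
  refine ⟨FA.HeckeFE.classXi, FA.HeckeFE.differentiable_classXi, fun 𝔇 h𝔇 C s => ?_,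
    fun C s hs => ?_⟩
  · rw [show 𝔇 = FA.HeckeFE.different F from Subtype.ext h𝔇]
    exact FA.HeckeFE.classXi_one_sub C s
  · refine (FA.HeckeFE.classXi_half C hs).trans ?_
    rw [FA.HeckeFE.jac]
    push_cast
    ring

/-- **The completed zeta function.** -/
theorem dedekindZeta_hecke_completed (F : Type*) [Field F] [NumberField F] :
    ∃ Ξ : ℂ → ℂ, Differentiable ℂ Ξ ∧ (∀ s, Ξ (1 - s) = Ξ s) ∧
      ∀ s : ℂ, 1 < s.re →
        completedDedekind F (dedekindZeta F) s =
          Ξ s - (2 : ℂ) ^ (nrRealPlaces F + nrComplexPlaces F) *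
            ((classNumber F : ℂ) * (Units.regulator F : ℂ) / (Units.torsionOrder F : ℂ)) /
              (s * (1 - s)) :=
  ⟨FA.HeckeFE.zetaXi F, FA.HeckeFE.differentiable_zetaXi, FA.HeckeFE.zetaXi_one_sub, fun s hs => by
    rw [← FA.HeckeFE.polarConst_eq]
    exact FA.HeckeFE.zetaXi_half hs⟩

/-- **Hecke's theorem: continuation and functional equation of every Dedekind zeta function.** -/
theorem dedekindZeta_hecke_functionalEquation (F : Type*) [Field F] [NumberField F] :
    ∃ Z : ℂ → ℂ, DifferentiableOn ℂ Z {1}ᶜ ∧ (∀ s, 1 < s.re → Z s = dedekindZeta F s) ∧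
      Tendsto (fun s => (s - 1) * Z s) (𝓝[≠] 1) (𝓝 (dedekindZeta_residue F : ℂ)) ∧
      (∀ s : ℂ, (∀ m : ℤ, s ≠ m) → completedDedekind F Z (1 - s) = completedDedekind F Z s) ∧
      Tendsto (fun s => Z s / s ^ (nrRealPlaces F + nrComplexPlaces F - 1)) (𝓝[≠] 0)
        (𝓝 (-((classNumber F : ℂ) * (Units.regulator F : ℂ) / (Units.torsionOrder F : ℂ)))) ∧
      (∀ k : ℕ, Z (-(2 * (k + 1))) = 0) ∧ (IsTotallyComplex F → ∀ k : ℕ, Z (-(k + 1)) = 0) :=
  ⟨FA.HeckeFE.extension F, FA.HeckeFE.differentiableOn_extension F,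
    fun _ hs => FA.HeckeFE.extension_eq_dedekindZeta F hs, FA.HeckeFE.tendsto_extension_one F,
    fun _ hs => FA.HeckeFE.completedDedekind_extension_one_sub F hs,
    FA.HeckeFE.tendsto_extension_zero F, FA.HeckeFE.extension_neg_even F,
    fun h k => haveI := h; FA.HeckeFE.extension_neg_int F k⟩

/-- The continuation is unique outside `1`. -/
theorem dedekindZeta_extension_unique (F : Type*) [Field F] [NumberField F] {Z Z' : ℂ → ℂ}
    (hZ : DifferentiableOn ℂ Z {1}ᶜ) (hZ' : DifferentiableOn ℂ Z' {1}ᶜ)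
    (h : ∀ s, 1 < s.re → Z s = dedekindZeta F s) (h' : ∀ s, 1 < s.re → Z' s = dedekindZeta F s) :
    Set.EqOn Z Z' {1}ᶜ := by
  refine (hZ.analyticOnNhd isOpen_compl_singleton).eqOn_of_preconnected_of_eventuallyEq
    (hZ'.analyticOnNhd isOpen_compl_singleton)
    (isConnected_compl_singleton_of_one_lt_rank (by simp [Complex.rank_real_complex]) 1).isPreconnected
    (z₀ := 2) (by norm_num) ?_
  filter_upwards [(isOpen_lt continuous_const Complex.continuous_re).mem_nhds
    (show (1 : ℝ) < (2 : ℂ).re by norm_num)] with s hs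
  rw [h s hs, h' s hs]

end FA.Summary
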