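import Fermat.Agent.HeckeBS.Residue
import Fermat.Agent.Root.SummaryHeckeFunctionalEquation

/-!
# Bounds for `h R` in every number field

* `classNumber_mul_regulator_le` (Landau): `h R ≤ C(n, ε) |d|^(1/2 + ε)` in degree `n`.
* `classNumber_mul_regulator_ge_of_no_zero` (Hecke): if `ζ_F` has no zero in `[x, 1)`, `0 < x < 1`,
  then `h R ≥ x (1 - x) c(n) |d|^(x/2)`, with `c(n) = exp (-π e n) / 2^n`.

Proved from the theta integral; independent of S01.
-/

set_option autoImplicit false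
set_option linter.style.haveILetI false

noncomputable section

open NumberField InfinitePlace Module Complex
open scoped Real Classical

namespace FA.Summary

universe u

/-- **Landau**: the upper half of the theorem of Brauer and Siegel, in every degree. -/
theorem classNumber_mul_regulator_le (n : ℕ) {ε : ℝ} (hε : 0 < ε) :
    ∃ C > 0, ∀ (F : Type u) [Field F] [NumberField F], finrank ℚ F = n →
      (classNumber F : ℝ) * Units.regulator F ≤ C * |((discr F : ℤ) : ℝ)| ^ (1 / 2 + ε) :=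
  FA.HeckeBS.exists_hR_upper n hε

/-- **Hecke**: without real zeros near `1`, `h R` is large. -/
theorem classNumber_mul_regulator_ge_of_no_zero (F : Type u) [Field F] [NumberField F] {Z : ℂ → ℂ}
    (hZ : DifferentiableOn ℂ Z {1}ᶜ) (hZ' : ∀ s, 1 < s.re → Z s = dedekindZeta F s)
    {x : ℝ} (hx0 : 0 < x) (hx1 : x < 1) (h : ∀ y : ℝ, x ≤ y → y < 1 → Z (y : ℂ) ≠ 0) :
    x * (1 - x) * (Real.exp (-(π * Real.exp 1 * finrank ℚ F)) / 2 ^ finrank ℚ F) *
      |((discr F : ℤ) : ℝ)| ^ (x / 2) ≤ (classNumber F : ℝ) * Units.regulator F := by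
  refine FA.HeckeBS.hR_lower_of_no_zero F hx0 hx1 fun y hy => ?_
  rcases eq_or_lt_of_le hy.2 with rfl | hy1
  · rw [Complex.ofReal_one, FA.HeckeBS.xiFun_one]
    exact Complex.ofReal_ne_zero.2 (FA.HeckeBS.polarR_pos F).ne'
  have hy0 : 0 < y := hx0.trans_le hy.1
  have hne : (y : ℂ) ≠ 1 := fun e => hy1.ne (by exact_mod_cast e)
  have hyne : (y : ℂ) ≠ 0 := Complex.ofReal_ne_zero.2 hy0.ne'
  have hR1 : Gammaℝ (y : ℂ) ≠ 0 := Gammaℝ_ne_zero_of_re_pos (by simpa using hy0)
  have hR2 : Gammaℝ ((y : ℂ) + 1) ≠ 0 := Gammaℝ_ne_zero_of_re_pos (by simp; linarith)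
  have heq : Z (y : ℂ) = FA.HeckeFE.extension F y :=
    dedekindZeta_extension_unique F hZ (FA.HeckeFE.differentiableOn_extension F) hZ'
      (fun s hs => FA.HeckeFE.extension_eq_dedekindZeta F hs) hne
  have hc := FA.HeckeFE.completed_extension F hne hR1 hR2
  have hxi : FA.HeckeBS.xiFun F y =
      (y : ℂ) * ((y : ℂ) - 1) * (FA.HeckeFE.gamFac F y * FA.HeckeFE.extension F y) := by
    have h1 : 1 - (y : ℂ) ≠ 0 := sub_ne_zero.2 hne.symm
    rw [hc, FA.HeckeBS.xiFun]
    field_simp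
    ring
  rw [hxi]
  refine mul_ne_zero (mul_ne_zero hyne (sub_ne_zero.2 hne)) (mul_ne_zero ?_ (heq ▸ h y hy.1 hy1))
  rw [FA.HeckeFE.gamFac, ← Gammaℝ_mul_Gammaℝ_add_one]
  exact mul_ne_zero (cpow_ne_zero_iff.2 (Or.inl (FA.HeckeFE.discr_natAbs_ne_zero F)))
    (mul_ne_zero (pow_ne_zero _ hR1) (pow_ne_zero _ (mul_ne_zero hR1 hR2)))

end FA.Summary
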