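import Fermat.Agent.HeckeBS.Main

/-!
# The theorem of Brauer and Siegel for Galois fields of a fixed degree

* `classNumber_mul_regulator_ge`: `h R ≥ c(n, ε) |d|^(1/2 - ε)` for every Galois field of degree `n`
  (Brauer; `c` is ineffective).
* `brauer_siegel_galois`: `log (h R) / log √|d| → 1` as `|d| → ∞` among these fields.
* `discr_le_of_classNumber_mul_regulator_le`: a bound on `h R` bounds the discriminant.

No conjecture is assumed.
Proved from the functional equation and Aramata–Brauer; independent of S01.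
-/

set_option autoImplicit false
set_option linter.style.haveILetI false

noncomputable section

open NumberField Module
open scoped Real Classical

namespace FA.Summary

universe u

/-- **Brauer**: the lower half of the theorem of Brauer and Siegel. -/
theorem classNumber_mul_regulator_ge (n : ℕ) {ε : ℝ} (hε : 0 < ε) :
    ∃ c > 0, ∀ (F : Type u) [Field F] [NumberField F] [IsGalois ℚ F], finrank ℚ F = n →
      c * |((discr F : ℤ) : ℝ)| ^ (1 / 2 - ε) ≤ (classNumber F : ℝ) * Units.regulator F :=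
  FA.HeckeBS.exists_hR_lower_galois n hε

/-- **Brauer–Siegel**: `log (h R)` is asymptotic to `log √|d|`. -/
theorem brauer_siegel_galois (n : ℕ) {ε : ℝ} (hε : 0 < ε) :
    ∃ D : ℝ, ∀ (F : Type u) [Field F] [NumberField F] [IsGalois ℚ F], finrank ℚ F = n →
      D < |((discr F : ℤ) : ℝ)| →
      |Real.log ((classNumber F : ℝ) * Units.regulator F) /
        Real.log (Real.sqrt |((discr F : ℤ) : ℝ)|) - 1| < ε := by
  obtain ⟨c, hc, hlo⟩ := FA.HeckeBS.exists_hR_lower_galois.{u} n (show 0 < ε / 4 by linarith)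
  obtain ⟨C, hC, hup⟩ := FA.HeckeBS.exists_hR_upper.{u} n (show 0 < ε / 4 by linarith)
  set B := |Real.log c| + |Real.log C| + 1 with hB
  refine ⟨Real.exp (4 * B / ε), fun F _ _ _ hF hD => ?_⟩
  set d := |((discr F : ℤ) : ℝ)|
  have hd : 0 < d := (Real.exp_pos _).trans hD
  have hL : 4 * B / ε < Real.log d := (Real.lt_log_iff_exp_lt hd).2 hD
  have hB1 : 1 ≤ B := le_add_of_nonneg_left (by positivity)
  have hL' : 4 * B < ε * Real.log d := by rw [div_lt_iff₀ hε] at hL; linarith
  have hL0 : 0 < Real.log d := lt_trans (by positivity) hL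
  have h1 := Real.log_le_log (mul_pos hc (Real.rpow_pos_of_pos hd _)) (hlo F hF)
  have h2 := Real.log_le_log (FA.HeckeBS.hR_pos F) (hup F hF)
  rw [Real.log_mul hc.ne' (Real.rpow_pos_of_pos hd _).ne', Real.log_rpow hd] at h1
  rw [Real.log_mul hC.ne' (Real.rpow_pos_of_pos hd _).ne', Real.log_rpow hd] at h2
  rw [Real.log_sqrt hd.le, div_sub_one (by linarith), abs_div,
    abs_of_pos (half_pos hL0), div_lt_iff₀ (half_pos hL0), abs_lt]
  have := neg_abs_le (Real.log c)
  have := le_abs_self (Real.log C)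
  have := abs_nonneg (Real.log c)
  have := abs_nonneg (Real.log C)
  unfold FA.HeckeBS.hR at h1 h2
  constructor <;> nlinarith

/-- A bound on `h R` bounds the discriminant of a Galois field of degree `n`. -/
theorem discr_le_of_classNumber_mul_regulator_le (n : ℕ) (B : ℝ) :
    ∃ D : ℝ, ∀ (F : Type u) [Field F] [NumberField F] [IsGalois ℚ F], finrank ℚ F = n →
      (classNumber F : ℝ) * Units.regulator F ≤ B → |((discr F : ℤ) : ℝ)| ≤ D := by
  obtain ⟨c, hc, hlo⟩ := FA.HeckeBS.exists_hR_lower_galois.{u} n (show (0 : ℝ) < 1 / 4 by norm_num)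
  refine ⟨(B / c) ^ (4 : ℝ), fun F _ _ _ hF hB => ?_⟩
  have hd : 0 ≤ |((discr F : ℤ) : ℝ)| := abs_nonneg _
  have h : |((discr F : ℤ) : ℝ)| ^ (1 / 4 : ℝ) ≤ B / c := by
    rw [le_div_iff₀ hc, mul_comm, show (1 / 4 : ℝ) = 1 / 2 - 1 / 4 by norm_num]
    exact (hlo F hF).trans hB
  calc |((discr F : ℤ) : ℝ)| = (|((discr F : ℤ) : ℝ)| ^ (1 / 4 : ℝ)) ^ (4 : ℝ) := by
        rw [← Real.rpow_mul hd]; norm_num
    _ ≤ _ := Real.rpow_le_rpow (Real.rpow_nonneg hd _) h (by norm_num)

end FA.Summary
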