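import Fermat.Agent.StarkEffective.Uniform

/-!
# Brauer–Siegel with the degree free

* `brauer_siegel_uniform`: for `ε > 0` there is `δ > 0` such that every Galois number field of degree
  `n ≤ δ log |d|` has `|log (h R) / log √|d| - 1| < ε`;
* `brauer_siegel_sequence`: along Galois fields with `n / log |d| → 0` the ratio tends to `1`;
* `log_classNumber_mul_regulator_le`: the upper bound holds for every field;
* `cm_relativeClassNumber_finite_uniform`: there is `δ > 0` such that for every `B` only finitely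
  many Galois CM fields have `n ≤ δ log |d|` and relative class number at most `B`, whatever the
  degree.

The constants are ineffective (Siegel). Independent of S01.
-/

set_option autoImplicit false
set_option linter.style.haveILetI false

noncomputable section

universe u

open NumberField Module Filter Topology
open FA.HeckeBS FA.StarkEff
open scoped Real Classical

namespace FA.Summary

/-- **Landau's bound, uniform in the degree.** -/
theorem log_classNumber_mul_regulator_le (F : Type u) [Field F] [NumberField F] {a : ℝ} (ha : 0 < a)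
    (ha1 : a ≤ 1) :
    Real.log ((classNumber F : ℝ) * Units.regulator F) ≤
      (1 + a) / 2 * Real.log ((discr F).natAbs : ℝ) + (6 + 1 / a) * finrank ℚ F :=
  log_hR_le F ha ha1

/-- **The theorem of Brauer and Siegel.** -/
theorem brauer_siegel_uniform {ε : ℝ} (hε : 0 < ε) :
    ∃ δ > 0, ∀ (F : Type u) [Field F] [NumberField F] [IsGalois ℚ F],
      (finrank ℚ F : ℝ) ≤ δ * Real.log ((discr F).natAbs : ℝ) →
      |Real.log ((classNumber F : ℝ) * Units.regulator F) /
        Real.log (Real.sqrt ((discr F).natAbs : ℝ)) - 1| < ε := by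
  obtain ⟨C, hC⟩ := exists_log_hR_ge.{u} (show 0 < ε / 8 by linarith)
  set a := min (ε / 4) 1
  have ha : 0 < a := lt_min (by linarith) one_pos
  set M := max (|C|) (6 + 1 / a)
  have hM : 0 < M := lt_of_lt_of_le (by positivity) (le_max_right _ _)
  refine ⟨ε / (8 * M), by positivity, fun F _ _ _ hn => ?_⟩
  set n : ℝ := (finrank ℚ F : ℝ) with hndef
  set D := Real.log ((discr F).natAbs : ℝ) with hD
  have hn1 : 1 ≤ n := one_le_finrank_cast F
  have hδ : 0 < ε / (8 * M) := by positivity
  have hD0 : 0 < D := by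
    by_contra h
    push Not at h
    nlinarith [mul_le_mul_of_nonneg_left h hδ.le]
  have hlo := hC F
  have hup := log_hR_le F ha (min_le_right _ _)
  change (1 / 2 - ε / 8) * D - C * n ≤ _ at hlo
  change _ ≤ (1 + a) / 2 * D + (6 + 1 / a) * n at hup
  have hMn : M * n ≤ ε / 8 * D := by
    refine (mul_le_mul_of_nonneg_left hn hM.le).trans (le_of_eq ?_)
    field_simp
  have h1 : C * n ≤ M * n :=
    mul_le_mul_of_nonneg_right ((le_abs_self C).trans (le_max_left _ _)) (by linarith)
  have h2 : (6 + 1 / a) * n ≤ M * n := mul_le_mul_of_nonneg_right (le_max_right _ _) (by linarith)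
  have h3 : a * D ≤ ε / 4 * D := mul_le_mul_of_nonneg_right (min_le_left _ _) hD0.le
  have h4 : 0 < ε * D := mul_pos hε hD0
  rw [Real.log_sqrt (Nat.cast_nonneg _), ← hD, div_sub_one (by linarith), abs_div,
    abs_of_pos (half_pos hD0), div_lt_iff₀ (half_pos hD0), abs_lt]
  change _ < Real.log (hR F) - D / 2 ∧ Real.log (hR F) - D / 2 < _
  constructor <;> linarith

/-- **Sequences with `n / log |d| → 0`.** -/
theorem brauer_siegel_sequence {ι : Type*} {l : Filter ι} (F : ι → Type u) [∀ i, Field (F i)]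
    [∀ i, NumberField (F i)] [∀ i, IsGalois ℚ (F i)] (hF : ∀ i, 1 < finrank ℚ (F i))
    (h : Tendsto (fun i => (finrank ℚ (F i) : ℝ) / Real.log ((discr (F i)).natAbs : ℝ)) l (𝓝 0)) :
    Tendsto (fun i => Real.log ((classNumber (F i) : ℝ) * Units.regulator (F i)) /
      Real.log (Real.sqrt ((discr (F i)).natAbs : ℝ))) l (𝓝 1) := by
  refine Metric.tendsto_nhds.2 fun ε hε => ?_
  obtain ⟨δ, hδ, hmain⟩ := brauer_siegel_uniform.{u} hε
  filter_upwards [h.eventually (eventually_le_nhds hδ)] with i hi
  rw [Real.dist_eq]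
  refine hmain (F i) ?_
  have hd : 2 < |discr (F i)| := abs_discr_gt_two (hF i)
  rw [← Int.natCast_natAbs] at hd
  have hpos : 0 < Real.log ((discr (F i)).natAbs : ℝ) := Real.log_pos (by
    have : 1 < (discr (F i)).natAbs := by omega
    exact_mod_cast this)
  exact (div_le_iff₀ hpos).1 hi

/-- **CM fields of unbounded degree.** -/
theorem cm_relativeClassNumber_finite_uniform :
    ∃ δ > 0, ∀ B : ℕ, {F : IntermediateField ℚ ℂ | FiniteDimensional ℚ F ∧
      ∀ [NumberField F], IsGalois ℚ F ∧ IsCMField F ∧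
        (finrank ℚ F : ℝ) ≤ δ * Real.log ((discr F).natAbs : ℝ) ∧
        classNumber F ≤ B * classNumber (maximalRealSubfield F)}.Finite := by
  obtain ⟨C, hC⟩ := exists_log_hR_ge.{0} (show (0 : ℝ) < 1 / 32 by norm_num)
  set M := |C| + 20
  have hM : 0 < M := by positivity
  refine ⟨1 / (16 * M), by positivity, fun B => ?_⟩
  obtain ⟨N, hN⟩ := exists_nat_ge (Real.exp (8 * ((B : ℝ) + 1)))
  refine ((finite_of_discr_bdd ℂ N).image Subtype.val).subset ?_
  rintro F ⟨hfin, hF⟩
  haveI : NumberField F := @NumberField.mk _ _ inferInstance hfin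
  obtain ⟨hgal, hcm, hn, hB⟩ := @hF this
  haveI := hgal
  haveI := hcm
  refine ⟨⟨F, hfin⟩, ?_, rfl⟩
  show |discr F| ≤ (N : ℤ)
  rw [← Int.natCast_natAbs]
  set n : ℝ := (finrank ℚ F : ℝ) with hndef
  set D := Real.log ((discr F).natAbs : ℝ) with hD
  have hD0 : 0 ≤ D := logDiscr_nonneg F
  have hn1 : 1 ≤ n := one_le_finrank_cast F
  have hlo := hC F
  change (1 / 2 - 1 / 32) * D - C * n ≤ _ at hlo
  have hup := log_hR_le (maximalRealSubfield F) (show (0 : ℝ) < 1 / 8 by norm_num) (by norm_num)
  have hnP : (finrank ℚ (maximalRealSubfield F) : ℝ) ≤ n := by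
    rw [hndef, Nat.cast_le, FA.CMFinite.finrank_eq_two_mul F]; omega
  have hDP : logDiscr (maximalRealSubfield F) ≤ D / 2 := by
    have h := Real.log_le_log (pow_pos (Nat.cast_pos.2 (Int.natAbs_pos.2
      (discr_ne_zero (maximalRealSubfield F)))) 2) (show ((((discr (maximalRealSubfield F)).natAbs : ℕ) : ℝ)) ^ 2 ≤
        (((discr F).natAbs : ℕ) : ℝ) by exact_mod_cast FA.CMFinite.natAbs_discr_plus_sq_le F)
    rw [Real.log_pow, ← hD] at h
    push_cast at h
    change Real.log _ ≤ _
    linarith
  have hB0 : 0 < B := Nat.pos_of_ne_zero fun h0 => by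
    rw [h0, Nat.zero_mul] at hB; exact (classNumber_pos F).ne' (Nat.le_zero.1 hB)
  have hplus := Real.log_le_log (hR_pos F) (FA.CMFinite.hR_le_plus F hB)
  rw [Real.log_mul (by positivity) (hR_pos _).ne', Real.log_mul (by positivity) (by positivity),
    Real.log_pow, ← hndef] at hplus
  have hlB : Real.log B ≤ B := by
    linarith [Real.log_le_sub_one_of_pos (show (0 : ℝ) < B from Nat.cast_pos.2 hB0)]
  have h2 := mul_le_mul_of_nonneg_left Real.log_two_lt_d9.le (show 0 ≤ n by linarith)
  have hMn : M * n ≤ D / 16 := by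
    refine (mul_le_mul_of_nonneg_left hn hM.le).trans (le_of_eq ?_)
    field_simp
  have hCn : C * n ≤ |C| * n := mul_le_mul_of_nonneg_right (le_abs_self C) (by linarith)
  have hPn := mul_le_mul_of_nonneg_left hnP (show (0 : ℝ) ≤ 6 + 1 / (1 / 8) by norm_num)
  have hPD := mul_le_mul_of_nonneg_left hDP (show (0 : ℝ) ≤ (1 + 1 / 8) / 2 by norm_num)
  simp only [M, add_mul] at hMn
  have hD8 : D ≤ 8 * ((B : ℝ) + 1) := by
    norm_num at hup hPn hPD
    linarith
  have h : (((discr F).natAbs : ℕ) : ℝ) ≤ (N : ℝ) := by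
    refine le_trans ?_ hN
    rw [← Real.log_le_iff_le_exp (Nat.cast_pos.2 (Int.natAbs_pos.2 (discr_ne_zero F))), ← hD]
    exact hD8
  exact_mod_cast h

end FA.Summary
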