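import Fermat.Agent.PositiveInvolution.RealPlaces
import Fermat.Agent.PositiveInvolution.Representation

/-!
# The theorems of Albert and of Brauer and Speiser

* `albert_positive_involution`: a division algebra with a positive involution has a totally real or
  CM centre; in the first case it is the centre or a quaternion algebra over it.
* `albert_quaternion_places`: a quaternion algebra with positive involution over a totally real field
  is split at every real place or at none.
* `brauer_speiser`: the endomorphism algebra of an irreducible rational representation of a finite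
  group has a totally real or CM centre, with Schur index at most `2` in the first case.
-/

set_option autoImplicit false
set_option linter.style.haveILetI false

noncomputable section

open NumberField Module
open FA.BrauerInvariant FA.PositiveInvolution

namespace FA.Summary

variable {D : Type} [DivisionRing D] [Algebra ℚ D]

/-- **Albert's theorem on positive involutions.** -/
theorem albert_positive_involution [FiniteDimensional ℚ D] {s : D →ₗ[ℚ] D}
    (hmul : ∀ x y, s (x * y) = s y * s x) (hinv : ∀ x, s (s x) = x)
    (hpos : ∀ x, x ≠ 0 → 0 < LinearMap.trace ℚ D (LinearMap.mulLeft ℚ (s x * x))) :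
    ∃ (Z : Type) (_ : Field Z) (_ : NumberField Z) (_ : Algebra Z D), Algebra.IsCentral Z D ∧
      ((IsTotallyReal Z ∧ (finrank Z D = 1 ∨ finrank Z D = 4)) ∨ IsCMField Z) := by
  let Z := Subring.center D
  haveI : CharZero D := charZero_of_injective_algebraMap (algebraMap ℚ D).injective
  haveI : CharZero Z := ⟨fun a b h => Nat.cast_injective (R := D) (by
    simpa using congrArg Subtype.val h)⟩
  haveI : NumberField Z :=
    { to_finiteDimensional := FiniteDimensional.of_injective Z.subtype.toRatAlgHom.toLinearMap
        Subtype.val_injective }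
  letI : Algebra Z D := RingHom.toAlgebra' Z.subtype fun z x =>
    (Subring.mem_center_iff.1 z.2 x).symm
  haveI : Algebra.IsCentral Z D := ⟨fun x hx => Algebra.mem_bot.2
    ⟨⟨x, Subring.mem_center_iff.2 fun y => Subalgebra.mem_center_iff.1 hx y⟩, by rfl⟩⟩
  haveI := isScalarTower_rat (Z := Z) (D := D)
  haveI : FiniteDimensional Z D := Module.Finite.of_restrictScalars_finite ℚ Z D
  refine ⟨Z, inferInstance, inferInstance, inferInstance, inferInstance, ?_⟩
  rcases (IsPositiveInvolution.mk hmul hinv hpos).albert (Z := Z) with ⟨h1, h2, -⟩ | ⟨h, -⟩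
  exacts [Or.inl ⟨h1, h2⟩, Or.inr h]

/-- **Albert's types II and III.** -/
theorem albert_quaternion_places {Z : Type} [Field Z] [NumberField Z] [IsTotallyReal Z]
    [Algebra Z D] [Algebra.IsCentral Z D] [FiniteDimensional Z D] {s : D →ₗ[ℚ] D}
    (hmul : ∀ x y, s (x * y) = s y * s x) (hinv : ∀ x, s (s x) = x)
    (hpos : ∀ x, x ≠ 0 → 0 < LinearMap.trace ℚ D (LinearMap.mulLeft ℚ (s x * x)))
    (hd : finrank Z D = 4) :
    (∀ w : InfinitePlace Z, invAtInf w (classOf Z D) = 0) ∨
      ∀ w : InfinitePlace Z, invAtInf w (classOf Z D) ≠ 0 :=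
  (IsPositiveInvolution.mk hmul hinv hpos).real_places hd

/-- **The Brauer–Speiser theorem.** -/
theorem brauer_speiser (G : Type) [Group G] [Finite G] (M : Type) [AddCommGroup M]
    [Module (MonoidAlgebra ℚ G) M] [Module ℚ M] [IsScalarTower ℚ (MonoidAlgebra ℚ G) M]
    [FiniteDimensional ℚ M] [IsSimpleModule (MonoidAlgebra ℚ G) M] :
    ∃ (Z : Type) (_ : Field Z) (_ : NumberField Z)
      (_ : Algebra Z (Module.End (MonoidAlgebra ℚ G) M)),
      Algebra.IsCentral Z (Module.End (MonoidAlgebra ℚ G) M) ∧
      ((IsTotallyReal Z ∧ (finrank Z (Module.End (MonoidAlgebra ℚ G) M) = 1 ∨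
        finrank Z (Module.End (MonoidAlgebra ℚ G) M) = 4)) ∨ IsCMField Z) := by
  classical
  haveI := Fintype.ofFinite G
  haveI : FiniteDimensional ℚ (Module.End (MonoidAlgebra ℚ G) M) :=
    FiniteDimensional.of_injective (LinearMap.restrictScalarsₗ ℚ (MonoidAlgebra ℚ G) M M ℚ)
      fun f g h => LinearMap.restrictScalars_injective ℚ h
  obtain ⟨s, hs⟩ := exists_positiveInvolution G M
  exact albert_positive_involution hs.map_mul hs.involutive hs.trace_pos

end FA.Summary

end
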