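import Fermat.Agent.BrauerSplitting.Main
import Mathlib.LinearAlgebra.Matrix.Basis

/-!
# Brauer's splitting field theorem

* `brauer_splitting`: a complex representation of a finite group of exponent `e` has a basis in
  which all entries lie in the field of the `e`-th roots of unity;
* `brauer_splitting_matrix`: the same for homomorphisms to `GL n ℂ`;
* `complexGalois_cyclotomic`: a continuous complex Galois representation is conjugate to one with
  entries in a cyclotomic field.
-/

set_option autoImplicit false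
set_option linter.style.haveILetI false

noncomputable section

open Module FA.BrauerSplitting

namespace FA.Summary

/-- **Brauer's splitting field theorem.** -/
theorem brauer_splitting (G : Type*) [Group G] [Finite G] (V : Type*) [AddCommGroup V]
    [Module ℂ V] [FiniteDimensional ℂ V] (σ : Representation ℂ G V) :
    ∃ b : Basis (Fin (finrank ℂ V)) ℂ V, ∀ g i j,
      LinearMap.toMatrix b b (σ g) i j ∈
        IntermediateField.adjoin ℚ {z : ℂ | z ^ Monoid.exponent G = 1} := by
  haveI := Fintype.ofFinite G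
  obtain ⟨b, hb⟩ := exists_basis
    (K := IntermediateField.adjoin ℚ {z : ℂ | z ^ Monoid.exponent G = 1})
    (mem_range_adjoin (Monoid.exponent G)) σ
  exact ⟨b, fun g i j => by
    obtain ⟨x, hx⟩ := hb g i j
    rw [← hx]
    exact x.2⟩

/-- **The matrix form.** -/
theorem brauer_splitting_matrix (G : Type*) [Group G] [Finite G] (n : ℕ)
    (ρ : G →* Matrix.GeneralLinearGroup (Fin n) ℂ) :
    ∃ P : Matrix.GeneralLinearGroup (Fin n) ℂ, ∀ g i j,
      (P * ρ g * P⁻¹ : Matrix.GeneralLinearGroup (Fin n) ℂ) i j ∈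
        IntermediateField.adjoin ℚ {z : ℂ | z ^ Monoid.exponent G = 1} := by
  obtain ⟨b, hb⟩ := brauer_splitting G (Fin n → ℂ)
    ((Matrix.toLinAlgEquiv' : Matrix (Fin n) (Fin n) ℂ ≃ₐ[ℂ] _).toAlgHom.toMonoidHom.comp
      ((Units.coeHom _).comp ρ))
  set c := b.reindex (finCongr (Module.finrank_fin_fun ℂ))
  set s := Pi.basisFun ℂ (Fin n)
  refine ⟨⟨c.toMatrix s, s.toMatrix c, c.toMatrix_mul_toMatrix_flip s,
    s.toMatrix_mul_toMatrix_flip c⟩, fun g i j => ?_⟩
  show (c.toMatrix s * (ρ g : Matrix (Fin n) (Fin n) ℂ) * s.toMatrix c) i j ∈ _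
  have h := basis_toMatrix_mul_linearMap_toMatrix_mul_basis_toMatrix c s c s
    (Matrix.toLin' (ρ g : Matrix (Fin n) (Fin n) ℂ))
  rw [show LinearMap.toMatrix s s (Matrix.toLin' (ρ g : Matrix (Fin n) (Fin n) ℂ)) =
    (ρ g : Matrix (Fin n) (Fin n) ℂ) from LinearMap.toMatrix'_toLin' _] at h
  rw [h, LinearMap.toMatrix_apply]
  simp only [c, Basis.reindex_apply, Basis.repr_reindex_apply]
  rw [← LinearMap.toMatrix_apply]
  exact hb g _ _

/-- **Complex Galois representations are defined over cyclotomic fields.** -/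
theorem complexGalois_cyclotomic (K : Type*) [Field K] (n : ℕ)
    (ρ : (AlgebraicClosure K ≃ₐ[K] AlgebraicClosure K) →* Matrix.GeneralLinearGroup (Fin n) ℂ)
    (hρ : Continuous ρ) :
    ∃ (e : ℕ) (P : Matrix.GeneralLinearGroup (Fin n) ℂ), e ≠ 0 ∧ ∀ σ i j,
      (P * ρ σ * P⁻¹ : Matrix.GeneralLinearGroup (Fin n) ℂ) i j ∈
        IntermediateField.adjoin ℚ {z : ℂ | z ^ e = 1} := by
  haveI := FA.ComplexGalois.finite_range ρ hρ
  obtain ⟨P, hP⟩ := brauer_splitting_matrix ρ.range n ρ.range.subtype
  exact ⟨_, P, Monoid.exponent_ne_zero_of_finite, fun σ => hP (ρ.rangeRestrict σ)⟩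

end FA.Summary

end
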