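import Fermat.Agent.BrauerSuzuki.Main
import Mathlib.FieldTheory.Galois.Basic

/-!
# The Brauer–Suzuki theorem

For a finite group `G` whose Sylow `2`-subgroup is a generalised quaternion group of order at
least `16`:

* `brauer_suzuki`: a normal subgroup of odd order contains every `g z g⁻¹ z⁻¹` with `z` an
  involution, that is, the involution is central modulo `O(G)`;
* `brauer_suzuki_centralizer`: `G = N · C(z)` for such a subgroup `N`;
* `brauer_suzuki_center`: the centre of `G ⧸ N` has even order;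
* `brauer_suzuki_not_simple`: `G` has a proper nontrivial normal subgroup, so it is not simple;
* `brauer_suzuki_galois`: a Galois extension with such a group has a proper nontrivial Galois
  subextension.

The quaternion group of order `8` is not claimed.
-/

set_option autoImplicit false
set_option linter.style.haveILetI false

noncomputable section

namespace FA.BrauerSuzuki.Summary

open Subgroup

variable {G : Type*} [Group G] [Finite G] (S : Sylow 2 G) {k : ℕ} (hk : 2 ≤ k)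
  (e : (S : Subgroup G) ≃* QuaternionGroup (2 ^ k))

include hk e

/-- **The Brauer–Suzuki theorem.** -/
theorem brauer_suzuki : ∃ N : Subgroup G, N.Normal ∧ Odd (Nat.card N) ∧
    ∀ z : G, z ^ 2 = 1 → ∀ g : G, g * z * g⁻¹ * z⁻¹ ∈ N := by
  haveI : Fact (Nat.Prime 2) := ⟨Nat.prime_two⟩
  obtain ⟨F⟩ := exists_frame S hk e
  obtain ⟨N, hN, hodd, hz⟩ := F.exists_odd_normal
  refine ⟨N, hN, Nat.not_even_iff_odd.1 fun h => hodd (even_iff_two_dvd.1 h), fun z hz2 g => ?_⟩
  obtain ⟨h, hh⟩ := F.exists_conj_le (T := zpowers z) (IsPGroup.of_card_dvd_pow (n := 1) (by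
    rw [Nat.card_zpowers, pow_one]
    exact orderOf_dvd_of_pow_eq_one hz2))
  rcases F.involution_S (hh z (mem_zpowers z))
    (by rw [conj_pow, hz2, mul_one, mul_inv_cancel]) with h1 | h1
  · rw [mul_inv_eq_one, mul_eq_left] at h1
    simp [h1]
  · rw [show g * z * g⁻¹ * z⁻¹ =
      g * h⁻¹ * (h * z * h⁻¹) * (g * h⁻¹)⁻¹ * (h * z * h⁻¹)⁻¹ *
        (h⁻¹ * (h * z * h⁻¹) * h⁻¹⁻¹ * (h * z * h⁻¹)⁻¹)⁻¹ by group, h1]
    exact N.mul_mem (hz _) (N.inv_mem (hz _))

/-- **`G = O(G) · C(z)`.** -/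
theorem brauer_suzuki_centralizer : ∃ N : Subgroup G, N.Normal ∧ Odd (Nat.card N) ∧
    ∀ z : G, z ^ 2 = 1 → ∀ g : G, ∃ n ∈ N, ∃ c : G, c * z = z * c ∧ g = n * c := by
  obtain ⟨N, hN, ⟨m, hm⟩, hz⟩ := brauer_suzuki S hk e
  refine ⟨N, hN, ⟨m, hm⟩, fun z hz2 g => ?_⟩
  set n := g * z * g⁻¹ * z⁻¹ with hn
  have hzi : z⁻¹ = z := inv_eq_of_mul_eq_one_right (by rwa [← sq])
  have hninv : z * n * z⁻¹ = n⁻¹ := by
    have h2 : (g * z * g⁻¹)⁻¹ = g * z * g⁻¹ := by rw [conj_inv, hzi]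
    calc z * n * z⁻¹ = z * (g * z * g⁻¹) * (z⁻¹ * z⁻¹) := by rw [hn]; group
      _ = z * (g * z * g⁻¹)⁻¹ := by rw [h2, hzi, ← sq, hz2, mul_one]
      _ = n⁻¹ := by rw [hn]; group
  have hsq : n ^ (m + 1) * n ^ (m + 1) = n := by
    rw [← pow_add, show m + 1 + (m + 1) = Nat.card N + 1 by omega, pow_succ,
      orderOf_dvd_iff_pow_eq_one.1 (N.orderOf_dvd_natCard (hz z hz2 g)), one_mul]
  set r := n ^ (m + 1) with hr
  have hrinv : z * r * z⁻¹ = r⁻¹ := by rw [hr, ← conj_pow, hninv, inv_pow]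
  have hrz : r * z * r⁻¹ = g * z * g⁻¹ := by
    calc r * z * r⁻¹ = r * (z * r * z⁻¹)⁻¹ * z := by group
      _ = n * z := by rw [hrinv, inv_inv, hsq]
      _ = g * z * g⁻¹ := by rw [hn]; group
  refine ⟨r, pow_mem (hz z hz2 g) _, r⁻¹ * g, ?_, by group⟩
  calc r⁻¹ * g * z = r⁻¹ * (g * z * g⁻¹) * g := by group
    _ = r⁻¹ * (r * z * r⁻¹) * g := by rw [hrz]
    _ = z * (r⁻¹ * g) := by group

/-- **The centre of `G ⧸ O(G)` has even order.** -/
theorem brauer_suzuki_center : ∃ (N : Subgroup G) (_ : N.Normal), Odd (Nat.card N) ∧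
    Even (Nat.card (center (G ⧸ N))) := by
  haveI : Fact (Nat.Prime 2) := ⟨Nat.prime_two⟩
  obtain ⟨N, hN, hodd, hz⟩ := brauer_suzuki S hk e
  obtain ⟨F⟩ := exists_frame S hk e
  refine ⟨N, hN, hodd, even_iff_two_dvd.2 ?_⟩
  have hc : QuotientGroup.mk F.z ∈ center (G ⧸ N) := mem_center_iff.2 fun q => by
    obtain ⟨g, rfl⟩ := QuotientGroup.mk_surjective q
    rw [← mul_inv_eq_iff_eq_mul, ← mul_inv_eq_one, ← QuotientGroup.mk_mul, ← QuotientGroup.mk_inv,
      ← QuotientGroup.mk_mul, ← QuotientGroup.mk_inv, ← QuotientGroup.mk_mul,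
      QuotientGroup.eq_one_iff]
    exact hz _ F.z_sq g
  have h1 : orderOf (QuotientGroup.mk F.z : G ⧸ N) = 2 := by
    refine orderOf_eq_prime (by rw [← QuotientGroup.mk_pow, F.z_sq, QuotientGroup.mk_one]) fun h => ?_
    have h2 := N.orderOf_dvd_natCard ((QuotientGroup.eq_one_iff _).1 h)
    rw [orderOf_eq_prime F.z_sq F.z_ne_one] at h2
    exact Nat.not_even_iff_odd.2 hodd (even_iff_two_dvd.2 h2)
  exact h1 ▸ (center (G ⧸ N)).orderOf_dvd_natCard hc

/-- **A proper nontrivial normal subgroup.** -/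
theorem brauer_suzuki_normal : ∃ H : Subgroup G, H.Normal ∧ H ≠ ⊥ ∧ H ≠ ⊤ := by
  haveI : Fact (Nat.Prime 2) := ⟨Nat.prime_two⟩
  obtain ⟨N, hN, hodd, hz⟩ := brauer_suzuki S hk e
  obtain ⟨F⟩ := exists_frame S hk e
  rcases eq_or_ne N ⊥ with rfl | hne
  · refine ⟨center G, inferInstance, fun h => F.z_ne_one ?_, fun h => ?_⟩
    · have : F.z ∈ center G := mem_center_iff.2 fun g =>
        mul_inv_eq_iff_eq_mul.1 (mul_inv_eq_one.1 (mem_bot.1 (hz _ F.z_sq g)))
      rwa [h, mem_bot] at this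
    · have h1 := F.conj_x
      rw [mem_center_iff.1 (h ▸ mem_top F.x : F.x ∈ center G) F.y, mul_inv_cancel_right,
        eq_inv_iff_mul_eq_one, ← sq, F.pow_eq_one_iff] at h1
      have := Nat.le_of_dvd two_pos h1
      have := F.four_le
      omega
  · refine ⟨N, hN, hne, fun h => Nat.not_even_iff_odd.2 hodd ?_⟩
    rw [h, card_top, even_iff_two_dvd, ← orderOf_eq_prime F.z_sq F.z_ne_one]
    exact orderOf_dvd_natCard F.z

/-- **No simple group has generalised quaternion Sylow `2`-subgroups.** -/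
theorem brauer_suzuki_not_simple : ¬ IsSimpleGroup G := fun h => by
  obtain ⟨H, hH, hb, ht⟩ := brauer_suzuki_normal S hk e
  exact (hH.eq_bot_or_eq_top).elim hb ht

omit S hk e

omit [Group G] [Finite G] in
/-- **Galois form.** -/
theorem brauer_suzuki_galois (F L : Type*) [Field F] [Field L] [Algebra F L]
    [FiniteDimensional F L] [IsGalois F L] (S : Sylow 2 (L ≃ₐ[F] L)) {k : ℕ} (hk : 2 ≤ k)
    (e : (S : Subgroup (L ≃ₐ[F] L)) ≃* QuaternionGroup (2 ^ k)) :
    ∃ E : IntermediateField F L, IsGalois F E ∧ E ≠ ⊥ ∧ E ≠ ⊤ := by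
  obtain ⟨H, hH, hb, ht⟩ := brauer_suzuki_normal S hk e
  haveI := hH
  refine ⟨IntermediateField.fixedField H, IsGalois.of_fixedField_normal_subgroup H,
    fun h => ht ?_, fun h => hb ?_⟩
  · rw [← IntermediateField.fixingSubgroup_fixedField H, h, IntermediateField.fixingSubgroup_bot]
  · rw [← IntermediateField.fixingSubgroup_fixedField H, h, IntermediateField.fixingSubgroup_top]

end FA.BrauerSuzuki.Summary

end
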