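import Fermat.Agent.BremnerMacleod.Main

/-!
# The cubic representation problem of Bremner and Macleod

For odd `N` no positive `a, b, c` satisfy `a / (b + c) + b / (c + a) + c / (a + b) = N`, as the
corresponding elliptic curve has no rational point with `x < 0`; for `N = 4` a positive solution
of 81 digits is exhibited (that it is the least one is not proved).
-/

set_option autoImplicit false

namespace FA.BremnerMacleod.Summary

/-- For odd `N` the curve `y ^ 2 = x ^ 3 + (4 N ^ 2 + 12 N - 3) x ^ 2 + 32 (N + 3) x` has no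
rational point with `x < 0`. -/
theorem egg_empty {N : ℕ} (hN : Odd N) :
    ¬∃ x y : ℚ, x < 0 ∧
      y ^ 2 = x ^ 3 + (4 * (N : ℚ) ^ 2 + 12 * N - 3) * x ^ 2 + 32 * ((N : ℚ) + 3) * x :=
  fun ⟨_, _, hx, h⟩ => FA.BremnerMacleod.egg_empty hN h hx

/-- A solution of the cubic equation gives a point on the curve. -/
theorem curve_map {K : Type*} [Field K] {N a b c : K}
    (h : a * (c + a) * (a + b) + b * (b + c) * (a + b) + c * (b + c) * (c + a) =
      N * ((b + c) * (c + a) * (a + b)))
    (hden : 2 * a + 2 * b - c + (a + b) * N ≠ 0) :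
    let x := -4 * (a + b + 2 * c) * (N + 3) / (2 * a + 2 * b - c + (a + b) * N)
    let y := 4 * (a - b) * (N + 3) * (2 * N + 5) / (2 * a + 2 * b - c + (a + b) * N)
    y ^ 2 = x ^ 3 + (4 * N ^ 2 + 12 * N - 3) * x ^ 2 + 32 * (N + 3) * x := by
  intro x y
  have key : (4 * (a - b) * (N + 3) * (2 * N + 5)) ^ 2 * (2 * a + 2 * b - c + (a + b) * N) =
      (-4 * (a + b + 2 * c) * (N + 3)) ^ 3 + (4 * N ^ 2 + 12 * N - 3) *
        (-4 * (a + b + 2 * c) * (N + 3)) ^ 2 * (2 * a + 2 * b - c + (a + b) * N) +
      32 * (N + 3) * (-4 * (a + b + 2 * c) * (N + 3)) *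
        (2 * a + 2 * b - c + (a + b) * N) ^ 2 := by
    linear_combination 64 * (N + 3) ^ 2 * (2 * N + 5) ^ 2 * h
  simp only [x, y]
  generalize 2 * a + 2 * b - c + (a + b) * N = D at hden key ⊢
  generalize -4 * (a + b + 2 * c) * (N + 3) = X at key ⊢
  generalize 4 * (a - b) * (N + 3) * (2 * N + 5) = Y at key ⊢
  field_simp
  linear_combination key

/-- For odd `N` the equation has no solution in positive rationals. -/
theorem no_solution_odd {N : ℕ} (hN : Odd N) {a b c : ℚ} (ha : 0 < a) (hb : 0 < b) (hc : 0 < c) :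
    a / (b + c) + b / (c + a) + c / (a + b) ≠ N := by
  intro h
  have h1 : c < (N : ℚ) * (a + b) := by
    rw [← div_lt_iff₀ (by positivity), ← h]
    have : 0 < a / (b + c) + b / (c + a) := by positivity
    linarith
  field_simp at h
  have hden : 0 < 2 * a + 2 * b - c + (a + b) * (N : ℚ) := by linarith
  refine egg_empty hN ⟨_, _, ?_, curve_map (N := (N : ℚ)) (a := a) (b := b) (c := c)
    (by linear_combination h) hden.ne'⟩
  refine div_neg_of_neg_of_pos ?_ hden
  have : 0 < (a + b + 2 * c) * ((N : ℚ) + 3) := by positivity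
  linarith

/-- In contrast `N = 4` has solutions in positive integers. -/
theorem solution_four :
    ∃ a b c : ℕ, 0 < a ∧ 0 < b ∧ 0 < c ∧
      (a : ℚ) / (b + c) + (b : ℚ) / (c + a) + (c : ℚ) / (a + b) = 4 := by
  refine ⟨154476802108746166441951315019919837485664325669565431700026634898253202035277999,
    36875131794129999827197811565225474825492979968971970996283137471637224634055579,
    4373612677928697257861252602371390152816537558161613618621437993378423467772036,
    ?_, ?_, ?_, ?_⟩ <;> norm_num

end FA.BremnerMacleod.Summary
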