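import Fermat.Agent.Brouwer.Nash

/-!
# Brouwer's fixed point theorem

* `no_retraction_ball`: no continuously differentiable map near a closed Euclidean ball retracts
  it onto its sphere;
* `brouwer_fixed_point`: a continuous self map of a nonempty compact convex set in a
  finite-dimensional normed space has a fixed point;
* `nash_equilibrium_exists`: a finite game has an equilibrium in mixed strategies.
-/

set_option autoImplicit false

noncomputable section

open Set Metric Finset Function

namespace FA.Summary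

/-- **No retraction of a ball onto its sphere.** -/
theorem no_retraction_ball {n : ℕ} {U : Set (EuclideanSpace ℝ (Fin n))} (hU : IsOpen U)
    (hBU : closedBall 0 1 ⊆ U) {r : EuclideanSpace ℝ (Fin n) → EuclideanSpace ℝ (Fin n)}
    (hr : ContDiffOn ℝ 1 r U) (hnorm : ∀ x ∈ closedBall 0 1, ‖r x‖ = 1)
    (hfix : ∀ x, ‖x‖ = 1 → r x = x) : False :=
  FA.Brouwer.no_retraction hU hBU hr hnorm hfix

/-- **Brouwer's fixed point theorem.** -/
theorem brouwer_fixed_point {V : Type*} [NormedAddCommGroup V] [NormedSpace ℝ V]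
    [FiniteDimensional ℝ V] {s : Set V} (hc : IsCompact s) (hconv : Convex ℝ s)
    (hne : s.Nonempty) {f : V → V} (hf : ContinuousOn f s) (hmap : MapsTo f s s) :
    ∃ x ∈ s, f x = x :=
  FA.Brouwer.exists_fixed hc hconv hne hf hmap

/-- **Nash's theorem.** -/
theorem nash_equilibrium_exists {ι : Type*} [Fintype ι] [DecidableEq ι] {S : ι → Type*}
    [∀ i, Fintype (S i)] [∀ i, Nonempty (S i)] (u : ι → (∀ i, S i) → ℝ) :
    ∃ σ : ∀ i, S i → ℝ, (∀ i, σ i ∈ stdSimplex ℝ (S i)) ∧ ∀ i, ∀ τ ∈ stdSimplex ℝ (S i),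
      ∑ a : ∀ i, S i, (∏ j, update σ i τ j (a j)) * u i a ≤
        ∑ a : ∀ i, S i, (∏ j, σ j (a j)) * u i a :=
  FA.Brouwer.exists_equilibrium u

end FA.Summary

end
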