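import Fermat.Agent.BrownawellWaldschmidt.Main

/-!
# The theorem of Brownawell and Waldschmidt

* `brownawell_waldschmidt`: for `x₁, x₂` and `y₁, y₂` independent over `ℚ` with `exp (x₁ y₁)`,
  `exp (x₁ y₂)` algebraic, two of the numbers `x₁, x₂, y₁, y₂, exp (x₂ y₁), exp (x₂ y₂)` are
  algebraically independent (Brownawell, Waldschmidt, 1973);
* `schneider_eighth_problem`: `e ^ e` or `e ^ (e ²)` is transcendental;
* `exp_pi_sq_or_algebraicIndependent`: `e ^ (π ²)` is transcendental or `π`, `e` are algebraically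
  independent;
* `exp_polynomial_zero_estimate_poly`: zeros of an exponential polynomial with polynomial
  coefficients in a disc.

Independent of S01.
-/

set_option autoImplicit false

noncomputable section

namespace FA.BrownawellWaldschmidt.Summary

/-- **Brownawell and Waldschmidt, 1973.** -/
theorem brownawell_waldschmidt {x₁ x₂ y₁ y₂ : ℂ} (hx : LinearIndependent ℚ ![x₁, x₂])
    (hy : LinearIndependent ℚ ![y₁, y₂]) (h₁ : IsAlgebraic ℚ (Complex.exp (x₁ * y₁)))
    (h₂ : IsAlgebraic ℚ (Complex.exp (x₁ * y₂))) :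
    ∃ i j : Fin 6, AlgebraicIndependent ℚ
      ![![x₁, x₂, y₁, y₂, Complex.exp (x₂ * y₁), Complex.exp (x₂ * y₂)] i,
        ![x₁, x₂, y₁, y₂, Complex.exp (x₂ * y₁), Complex.exp (x₂ * y₂)] j] := by
  obtain ⟨i, j, h⟩ := FA.BrownawellWaldschmidt.brownawell_waldschmidt hx hy
    (fun j => by fin_cases j <;> simpa)
  refine ⟨i, j, ?_⟩
  simpa [FA.BrownawellWaldschmidt.sixValues] using h

/-- **Schneider's eighth problem.** -/
theorem schneider_eighth_problem :
    Transcendental ℚ (Real.exp (Real.exp 1)) ∨ Transcendental ℚ (Real.exp (Real.exp 2)) :=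
  FA.BrownawellWaldschmidt.schneider_eighth_problem_real

/-- `e ^ (π ²)` is transcendental or `π` and `e` are algebraically independent. -/
theorem exp_pi_sq_or_algebraicIndependent :
    Transcendental ℚ (Real.exp (Real.pi ^ 2)) ∨
      AlgebraicIndependent ℚ ![(Real.pi : ℂ), Complex.exp 1] :=
  FA.BrownawellWaldschmidt.exp_pi_sq_or_algebraicIndependent

/-- Zeros of an exponential polynomial with polynomial coefficients. -/
theorem exp_polynomial_zero_estimate_poly {ι : Type*} [Fintype ι] {A : ℕ}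
    (c : ι × Fin A → ℂ) (w : ι → ℂ) (hw : Function.Injective w) (hc : c ≠ 0) {Δ R : ℝ}
    (hΔ0 : 0 ≤ Δ) (hΔ : ∀ i, ‖w i‖ ≤ Δ) (hR : 0 < R) (Z : Finset ℂ) (hZ : ∀ z ∈ Z, ‖z‖ ≤ R)
    {m : ℕ} (hvan : ∀ z ∈ Z, ∀ t < m,
      iteratedDeriv t (FA.BrownawellWaldschmidt.expPolyM c w) z = 0) :
    (4 : ℝ) ^ (m * Z.card) ≤ (Fintype.card ι * A : ℕ) * 9 ^ (Fintype.card ι * A) *
      Real.exp (18 * R * Δ) :=
  FA.BrownawellWaldschmidt.zero_estimate_poly c w hw hc hΔ0 hΔ hR Z hZ hvan

end FA.BrownawellWaldschmidt.Summary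

end
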