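import Fermat.Agent.Brownian.Version
import Fermat.Agent.Brownian.Nowhere

/-!
# Brownian motion

Mathlib's `IsBrownianReal B P` asks for the Brownian finite dimensional laws and almost surely
continuous paths; here such a process is constructed and its paths are examined.

* `brownian_motion_exists`: the construction of Lévy and Ciesielski gives a Brownian motion with
  measurable marginals, every path continuous and every path starting at `0`;
* `wiener_law`: the Brownian finite dimensional laws are those of one probability measure on
  `ℝ≥0 → ℝ`;
* `brownian_not_lipschitz`: almost surely at no time is there a Lipschitz bound to the right;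
* `brownian_nowhere_differentiable`: the theorem of Paley, Wiener and Zygmund, almost surely the
  path is differentiable at no time, not even from the right.

The last two only use the values on countably many grids, so they hold for every pre-Brownian
process, with or without continuous paths. The quadratic variation, the strong Markov property, the
law of the iterated logarithm and Donsker's theorem are not treated.
-/

set_option autoImplicit false

noncomputable section

namespace FA.Brownian.Summary

open MeasureTheory ProbabilityTheory Filter FA.Brownian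
open scoped NNReal Topology

/-- **Brownian motion exists.** -/
theorem brownian_motion_exists :
    ∃ (P : Measure (ℕ × ℕ → ℝ)) (B : ℝ≥0 → (ℕ × ℕ → ℝ) → ℝ), IsProbabilityMeasure P ∧
      IsBrownianReal B P ∧ (∀ t, Measurable (B t)) ∧ (∀ ω, Continuous (B · ω)) ∧
      ∀ ω, B 0 ω = 0 :=
  let ⟨B, hB, hm, hc, h0⟩ := exists_version
  ⟨noiseLaw, B, inferInstance, hB, hm, hc, h0⟩

/-- **The Wiener law exists.** -/
theorem wiener_law :
    ∃ μ : Measure (ℝ≥0 → ℝ), IsProbabilityMeasure μ ∧
      IsProjectiveLimit μ BrownianReal.projectiveFamily :=
  exists_wienerLaw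

variable {Ω : Type*} {mΩ : MeasurableSpace Ω} {P : Measure Ω} {B : ℝ≥0 → Ω → ℝ}

/-- **No time admits a Lipschitz bound to the right.** -/
theorem brownian_not_lipschitz (hB : IsPreBrownianReal B P) :
    ∀ᵐ ω ∂P, ∀ t : ℝ≥0, ∀ C : ℝ,
      ¬ ∀ᶠ s : ℝ≥0 in 𝓝[>] t, |B s ω - B t ω| ≤ C * ((s : ℝ) - t) :=
  ae_not_rightLipschitz hB

/-- **The theorem of Paley, Wiener and Zygmund.** -/
theorem brownian_nowhere_differentiable (hB : IsPreBrownianReal B P) :
    ∀ᵐ ω ∂P, ∀ t : ℝ≥0,
      ¬ DifferentiableWithinAt ℝ (fun s : ℝ => B s.toNNReal ω) (Set.Ici (t : ℝ)) t ∧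
      ¬ DifferentiableAt ℝ (fun s : ℝ => B s.toNNReal ω) t := by
  filter_upwards [ae_not_differentiableWithinAt hB] with ω hω t
  exact ⟨hω t, fun h => hω t h.differentiableWithinAt⟩

end FA.Brownian.Summary
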