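import Fermat.Agent.BruckRyserChowla.Main

/-!
# The Bruck–Ryser–Chowla theorem

* `bruck_ryser_chowla`: for a symmetric `(v, k, l)` design with `v` odd the equation
  `x ^ 2 = (k - l) y ^ 2 + (-1) ^ ((v - 1) / 2) l z ^ 2` has an integer solution with `y ≠ 0`;
* `schutzenberger_design`: for `v` even `k - l` is a square;
* `bruck_ryser`: the order of a finite projective plane, if it is `1` or `2` modulo `4`, is a sum of
  two squares;
* `no_projective_plane_order_six`: no projective plane has order six.
-/

set_option autoImplicit false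

noncomputable section

open Configuration

namespace FA.Summary

/-- **The Bruck–Ryser–Chowla theorem.** -/
theorem bruck_ryser_chowla {P Q : Type*} [Fintype P] [Fintype Q] (R : Q → P → Prop) {k l : ℕ}
    (hsym : Fintype.card Q = Fintype.card P) (hblock : ∀ q, Nat.card {p // R q p} = k)
    (hpoint : ∀ p, Nat.card {q // R q p} = k)
    (hpair : ∀ p p', p ≠ p' → Nat.card {q // R q p ∧ R q p'} = l) (hlk : l < k)
    (hodd : Odd (Fintype.card P)) :
    ∃ x y z : ℤ, y ≠ 0 ∧
      x ^ 2 = ((k : ℤ) - l) * y ^ 2 + (-1) ^ ((Fintype.card P - 1) / 2) * l * z ^ 2 :=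
  (FA.BruckRyserChowla.IsDesign.mk hsym hblock hpoint hpair).exists_solution hlk hodd

/-- **Schützenberger's theorem.** -/
theorem schutzenberger_design {P Q : Type*} [Fintype P] [Fintype Q] (R : Q → P → Prop) {k l : ℕ}
    (hsym : Fintype.card Q = Fintype.card P) (hblock : ∀ q, Nat.card {p // R q p} = k)
    (hpoint : ∀ p, Nat.card {q // R q p} = k)
    (hpair : ∀ p p', p ≠ p' → Nat.card {q // R q p ∧ R q p'} = l) (hlk : l < k)
    (hpos : 0 < Fintype.card P) (heven : Even (Fintype.card P)) : IsSquare (k - l) :=
  (FA.BruckRyserChowla.IsDesign.mk hsym hblock hpoint hpair).isSquare_of_even hlk hpos heven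

/-- **The Bruck–Ryser theorem.** -/
theorem bruck_ryser (P L : Type*) [Membership P L] [ProjectivePlane P L] [Finite P] [Finite L]
    (h : ProjectivePlane.order P L % 4 = 1 ∨ ProjectivePlane.order P L % 4 = 2) :
    ∃ a b : ℕ, ProjectivePlane.order P L = a ^ 2 + b ^ 2 :=
  FA.BruckRyserChowla.plane_two_squares P L h

/-- **There is no projective plane of order six.** -/
theorem no_projective_plane_order_six (P L : Type*) [Membership P L] [ProjectivePlane P L]
    [Finite P] [Finite L] : ProjectivePlane.order P L ≠ 6 :=
  FA.BruckRyserChowla.order_ne_six P L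

end FA.Summary

end
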