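import Fermat.Agent.Transcendence.Brumer
import Mathlib.NumberTheory.Padics.Complex

/-!
# The theorem of Brumer: `p`-adic linear forms in logarithms

*If `ℓ₁, …, ℓₙ` in `ℂ_p` have absolute value `< 1 / p` (so are in the disc of the exponential),
have algebraic exponentials and are linearly independent over `ℚ`, then `1, ℓ₁, …, ℓₙ` are
linearly independent over the algebraic numbers* (Brumer 1967, after Baker and Ax).
-/

set_option autoImplicit false

noncomputable section

namespace FA.Brumer.Summary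

variable {p : ℕ} [Fact p.Prime]

/-- **Brumer's theorem.** -/
theorem brumer {n : ℕ} (ℓ : Fin n → ℂ_[p]) (hℓ : ∀ i, (p : ℝ) * ‖ℓ i‖ < 1)
    (hexp : ∀ i, IsAlgebraic ℚ (pexp (ℓ i))) (hind : LinearIndependent ℚ ℓ) :
    LinearIndependent (algebraicClosure ℚ ℂ_[p]) (Fin.cons 1 ℓ : Fin (n + 1) → ℂ_[p]) := by
  rw [Fintype.linearIndependent_iff]
  intro c hc
  have halg : ∀ k, IsAlgebraic ℚ (c k : ℂ_[p]) := fun k => mem_algebraicClosure_iff.mp (c k).2
  simp only [Fin.sum_univ_succ, Fin.cons_zero, Fin.cons_succ, IntermediateField.smul_def,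
    smul_eq_mul, mul_one] at hc
  have hsucc : (fun i => (c (Fin.succ i) : ℂ_[p])) = 0 := by
    by_contra hne
    exact false_of_relation (p := p) ℓ hℓ hexp hind _ (fun i => halg _) (-(c 0 : ℂ_[p]))
      (halg 0).neg hne (eq_neg_of_add_eq_zero_right hc)
  refine Fin.cases ?_ fun i => Subtype.ext (congrFun hsucc i)
  exact Subtype.ext
    (by simpa [show ∀ i, (c (Fin.succ i) : ℂ_[p]) = 0 from congrFun hsucc] using hc)

/-- A non-trivial algebraic combination of independent `p`-adic logarithms is transcendental. -/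
theorem transcendental_sum {n : ℕ} (ℓ : Fin n → ℂ_[p]) (hℓ : ∀ i, (p : ℝ) * ‖ℓ i‖ < 1)
    (hexp : ∀ i, IsAlgebraic ℚ (pexp (ℓ i))) (hind : LinearIndependent ℚ ℓ)
    (β : Fin n → ℂ_[p]) (hβ : ∀ i, IsAlgebraic ℚ (β i)) (hne : β ≠ 0) :
    Transcendental ℚ (∑ i, β i * ℓ i) := fun h =>
  false_of_relation (p := p) ℓ hℓ hexp hind β hβ _ h hne rfl

/-- The `p`-adic theorem of Mahler: `pexp` of a non-zero small algebraic number is
transcendental. -/
theorem transcendental_pexp {z : ℂ_[p]} (hz : (p : ℝ) * ‖z‖ < 1) (hz0 : z ≠ 0)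
    (halg : IsAlgebraic ℚ z) : Transcendental ℚ (pexp z) := fun h => by
  refine false_of_relation (p := p) (fun _ : Fin 1 => z) (fun _ => hz) (fun _ => h)
    (LinearIndependent.of_subsingleton 0 hz0) (fun _ => 1) (fun _ => isAlgebraic_one) z halg
    (fun h1 => one_ne_zero (congrFun h1 0)) ?_
  simp

end FA.Brumer.Summary

end
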