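import Fermat.Agent.ThueMahler.Shafarevich

/-!
# Shafarevich's theorem

For a finite set `S` of primes `y² = x³ + k`, `k ≠ 0`, has finitely many points with `S`-integral
`x`, and up to isomorphism there are finitely many elliptic curves over `ℚ` with good reduction
outside `S`; nothing is asked of the reduction at the primes of `S`, and `S` may omit `2` and `3`.
-/

set_option autoImplicit false

noncomputable section

open WeierstrassCurve

namespace FA.Summary

/-- **`S`-integral points on Mordell's curves are finite in number.** -/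
theorem sIntegral_mordell_finite (S : Finset ℕ) {k : ℤ} (hk : k ≠ 0) :
    {p : ℚ × ℚ | p.2 ^ 2 = p.1 ^ 3 + k ∧
      ∀ q : ℕ, q.Prime → q ∣ p.1.den → q ∈ S}.Finite :=
  FA.ThueMahler.finite_sIntegral_mordell S hk

/-- **Shafarevich's theorem**: up to isomorphism there are finitely many elliptic curves over `ℚ`
with good reduction outside a finite set `S`. -/
theorem shafarevich (S : Finset ℕ) :
    ∃ T : Set (WeierstrassCurve ℚ), T.Finite ∧ ∀ (E : WeierstrassCurve ℚ) [E.IsElliptic],
      (∀ p : ℕ, ∀ [Fact p.Prime], p ∉ S → ∃ C : VariableChange ℚ_[p],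
        HasGoodReduction ℤ_[p] (C • E.map (algebraMap ℚ ℚ_[p]))) →
      ∃ C : VariableChange ℚ, C • E ∈ T :=
  FA.ThueMahler.finite_good_reduction S

/-- The elliptic curves over `ℚ` with good reduction outside `S` have finitely many invariants. -/
theorem shafarevich_j_finite (S : Finset ℕ) :
    {j : ℚ | ∃ (E : WeierstrassCurve ℚ) (_ : E.IsElliptic),
      (∀ p : ℕ, ∀ [Fact p.Prime], p ∉ S → ∃ C : VariableChange ℚ_[p],
        HasGoodReduction ℤ_[p] (C • E.map (algebraMap ℚ ℚ_[p]))) ∧ E.j = j}.Finite := by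
  obtain ⟨T, hT, h⟩ := shafarevich S
  refine (hT.image fun W => W.c₄ ^ 3 / W.Δ).subset ?_
  rintro _ ⟨E, hE, hgood, rfl⟩
  obtain ⟨C, hC⟩ := @h E hE hgood
  refine ⟨C • E, hC, ?_⟩
  have key : ∀ (W : WeierstrassCurve ℚ) [W.IsElliptic], W.c₄ ^ 3 / W.Δ = W.j := fun W _ => by
    rw [WeierstrassCurve.j, Units.val_inv_eq_inv_val, coe_Δ', div_eq_inv_mul]
  show (C • E).c₄ ^ 3 / (C • E).Δ = E.j
  rw [key, variableChange_j]

end FA.Summary

end
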