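import Fermat.Agent.BrumerSilverman.Curves
import Fermat.Agent.BrumerSilverman.Example
import Fermat.Agent.Root.SummaryShafarevich

/-!
# The theorem of Brumer and Silverman

With `ω` the number of primes of `6 k`, `h` the class number of a quadratic field with a square root
of `k` and `R` the product of the primes of `6 k`:

* `descent_le_classNumber`, `descent_le_of_isSquare`: the image of the dual isogeny has index at
  most `3 + 9 · 81 ^ ω h` in `y² = x³ + k`, and at most `3 + 9 · 81 ^ ω` for a square `k`;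
* `index_le`, `three_pow_rank_le_index`, `rank_le_log`: the index is `O_ε (R ^ (1/2 + ε))`, the
  product of the two indices bounds `3 ^ rank`, and `rank ≤ (1 + ε) log₃ |k| + C_ε`;
* `mordell_sIntegral_points_le`, `mordell_sIntegral_points_le_classNumber`,
  `mordell_integral_points_le`: the `S`-integral points are at most exponentially many in
  `#S + ω` times the descent classes, so `O_ε (|k| ^ (1/2 + ε))` integral points;
* `brumer_silverman`, `brumer_silverman_models`: up to isomorphism there are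
  `O_ε ((∏ S) ^ (1/2 + ε))` elliptic curves over `ℚ` with good reduction outside `S`.

Exponents below one half, conductor exponents and explicit constants are not claimed.
Independent of S01.
-/

set_option autoImplicit false
set_option linter.style.haveILetI false

noncomputable section

open WeierstrassCurve NumberField Module
open FA.MordellAverage (dualIndex mordRank mord)

namespace FA.BrumerSilverman.Summary

/-- **The descent against the class number.** -/
theorem descent_le_classNumber (K : Type) [Field K] [NumberField K] (hK : finrank ℚ K = 2)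
    {k : ℤ} (hk : k ≠ 0) (hsq : ¬ IsSquare k) (S : K) (hS : S ^ 2 = (k : K)) :
    dualIndex (k : ℚ) ≠ 0 ∧
      dualIndex (k : ℚ) ≤ 3 + 9 * 81 ^ (6 * k).natAbs.primeFactors.card * classNumber K := by
  obtain ⟨hfin, hle⟩ := classes_le_classNumber hK hk hsq S hS
  exact ⟨(FA.MordellAverage.dualIndex_le hk).1,
    (dualIndex_le_classes (Int.cast_ne_zero.mpr hk)).trans (Nat.add_le_add_left hle 3)⟩

/-- **The square case.** -/
theorem descent_le_of_isSquare {k : ℤ} (hk : k ≠ 0) (hsq : IsSquare k) :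
    dualIndex (k : ℚ) ≠ 0 ∧
      dualIndex (k : ℚ) ≤ 3 + 9 * 81 ^ (6 * k).natAbs.primeFactors.card := by
  obtain ⟨hfin, hle⟩ := classes_le_of_isSquare hk hsq
  exact ⟨(FA.MordellAverage.dualIndex_le hk).1,
    (dualIndex_le_classes (Int.cast_ne_zero.mpr hk)).trans (Nat.add_le_add_left hle 3)⟩

/-- **The index against the primes of `6 k`.** -/
theorem index_le {ε : ℝ} (hε : 0 < ε) : ∃ C : ℝ, 0 ≤ C ∧ ∀ k : ℤ, k ≠ 0 →
    (dualIndex (k : ℚ) : ℝ) ≤ C * ((∏ p ∈ (6 * k).natAbs.primeFactors, p : ℕ) : ℝ) ^ (1 / 2 + ε) :=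
  exists_index_bound hε

/-- The two indices bound the rank. -/
theorem three_pow_rank_le_index {k : ℤ} (hk : k ≠ 0) :
    3 ^ finrank ℤ (mord (k : ℚ)).toAffine.Point ≤
      dualIndex (k : ℚ) * dualIndex ((-27 * k : ℤ) : ℚ) :=
  FA.MordellAverage.three_pow_rank_le hk

/-- **The rank.** -/
theorem rank_le_log {ε : ℝ} (hε : 0 < ε) : ∃ C : ℝ, ∀ k : ℤ, k ≠ 0 →
    (finrank ℤ (mord (k : ℚ)).toAffine.Point : ℝ) ≤ (1 + ε) * Real.logb 3 |(k : ℝ)| + C := by
  obtain ⟨C, h⟩ := exists_rank_log_bound hε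
  have h3 : 0 < Real.log 3 := Real.log_pos (by norm_num)
  refine ⟨C / Real.log 3, fun k hk => ?_⟩
  rw [Real.logb, mul_div_assoc', ← add_div, le_div_iff₀ h3]
  exact h k hk

/-- **`S`-integral points against the descent.** -/
theorem mordell_sIntegral_points_le (S : Finset ℕ) {k : ℤ} (hk : k ≠ 0) :
    Finite (DescentClasses (k : ℚ)) ∧
    {p : ℚ × ℚ | p.2 ^ 2 = p.1 ^ 3 + (k : ℚ) ∧
      ∀ q : ℕ, q.Prime → q ∣ p.1.den → q ∈ S}.Finite ∧
    {p : ℚ × ℚ | p.2 ^ 2 = p.1 ^ 3 + (k : ℚ) ∧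
      ∀ q : ℕ, q.Prime → q ∣ p.1.den → q ∈ S}.ncard ≤
      2 + 2 * IntegralAverage.solBound 3 (S ∪ (6 * k).natAbs.primeFactors).card *
        Nat.card (DescentClasses (k : ℚ)) := by
  obtain ⟨C, -, h⟩ := exists_classes_bound one_pos
  haveI := (h k hk).1
  exact ⟨inferInstance, mordSPoints_le_classes S hk⟩

/-- **`S`-integral points against the class number.** -/
theorem mordell_sIntegral_points_le_classNumber (S : Finset ℕ) (K : Type) [Field K] [NumberField K]
    (hK : finrank ℚ K = 2) {k : ℤ} (hk : k ≠ 0) (hsq : ¬ IsSquare k) (r : K)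
    (hr : r ^ 2 = (k : K)) :
    {p : ℚ × ℚ | p.2 ^ 2 = p.1 ^ 3 + (k : ℚ) ∧
      ∀ q : ℕ, q.Prime → q ∣ p.1.den → q ∈ S}.ncard ≤
      2 + 18 * IntegralAverage.solBound 3 (S ∪ (6 * k).natAbs.primeFactors).card *
        81 ^ (6 * k).natAbs.primeFactors.card * classNumber K := by
  obtain ⟨hfin, hle⟩ := classes_le_classNumber hK hk hsq r hr
  refine (mordSPoints_le_classes S hk).2.trans (Nat.add_le_add_left ?_ 2)
  refine (Nat.mul_le_mul_left _ hle).trans_eq ?_
  unfold supportPrimes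
  ring

/-- **Integral points.** -/
theorem mordell_integral_points_le {ε : ℝ} (hε : 0 < ε) : ∃ C : ℝ, 0 ≤ C ∧ ∀ k : ℤ, k ≠ 0 →
    {p : ℤ × ℤ | p.2 ^ 2 = p.1 ^ 3 + k}.Finite ∧
    ({p : ℤ × ℤ | p.2 ^ 2 = p.1 ^ 3 + k}.ncard : ℝ) ≤ C * |(k : ℝ)| ^ (1 / 2 + ε) :=
  exists_integral_bound_of (by norm_num) torsionExponent_half hε

/-- **The theorem of Brumer and Silverman.** -/
theorem brumer_silverman {ε : ℝ} (hε : 0 < ε) : ∃ C : ℝ, 0 ≤ C ∧
    ∀ S : Finset ℕ, (∀ p ∈ S, p.Prime) → ∀ W : Set (WeierstrassCurve ℚ),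
      (∀ E ∈ W, E.IsElliptic ∧ ∀ p : ℕ, ∀ [Fact p.Prime], p ∉ S →
        ∃ v : VariableChange ℚ_[p], HasGoodReduction ℤ_[p] (v • E.map (algebraMap ℚ ℚ_[p]))) →
      (∀ E ∈ W, ∀ E' ∈ W, (∃ v : VariableChange ℚ, v • E = E') → E = E') →
      W.Finite ∧ (W.ncard : ℝ) ≤ C * ((∏ p ∈ S, p : ℕ) : ℝ) ^ (1 / 2 + ε) := by
  obtain ⟨C, hC, h⟩ := exists_count_bound hε
  exact ⟨C, hC, fun S hS W hW hiso => h S hS W (fun E hE => ⟨(hW E hE).1, (hW E hE).2⟩) hiso⟩

/-- **The same as a list of models.** -/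
theorem brumer_silverman_models {ε : ℝ} (hε : 0 < ε) : ∃ C : ℝ, 0 ≤ C ∧
    ∀ S : Finset ℕ, (∀ p ∈ S, p.Prime) → ∃ T : Set (WeierstrassCurve ℚ), T.Finite ∧
      (T.ncard : ℝ) ≤ C * ((∏ p ∈ S, p : ℕ) : ℝ) ^ (1 / 2 + ε) ∧
      ∀ (E : WeierstrassCurve ℚ) [E.IsElliptic],
        (∀ p : ℕ, ∀ [Fact p.Prime], p ∉ S → ∃ v : VariableChange ℚ_[p],
          HasGoodReduction ℤ_[p] (v • E.map (algebraMap ℚ ℚ_[p]))) →
        ∃ v : VariableChange ℚ, v • E ∈ T :=
  exists_models hε

/-- The predicate is the one of Shafarevich's theorem, which follows. -/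
theorem shafarevich_again : type_of% @FA.Summary.shafarevich := by
  intro S
  classical
  obtain ⟨C, -, h⟩ := exists_models one_pos
  obtain ⟨T, hT, -, hE⟩ := h (S.filter Nat.Prime) fun p hp => (Finset.mem_filter.mp hp).2
  refine ⟨T, hT, fun E _ hgood => hE E fun p hp hmem => hgood p ?_⟩
  exact fun h' => hmem (Finset.mem_filter.mpr ⟨h', hp.out⟩)

/-- The hypotheses can be met. -/
theorem good_outside_six : (mord (1 : ℚ)).IsElliptic ∧ ∀ p : ℕ, ∀ [Fact p.Prime],
    p ∉ ({2, 3} : Finset ℕ) → ∃ v : VariableChange ℚ_[p],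
      HasGoodReduction ℤ_[p] (v • (mord (1 : ℚ)).map (algebraMap ℚ ℚ_[p])) :=
  ⟨FA.MordellAverage.isElliptic_mord one_ne_zero, fun p _ h => good_mord_one p h⟩

end FA.BrumerSilverman.Summary

end
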