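import Fermat.Agent.BrunnMinkowski.Isoperimetric

/-!
# The Brunn-Minkowski inequality and the isoperimetric inequality

For Lebesgue measure on `ℝⁿ`:

* `prekopa_leindler`: the Prékopa-Leindler inequality;
* `marginal_log_concave`: marginals of log-concave functions are log-concave;
* `brunn_minkowski`, `brunn_minkowski_weighted`, `brunn_minkowski_euclidean`: the additive and
  multiplicative forms (sums are measured by the outer measure);
* `isoperimetric`: thickening a compact set of volume `V` by `ε` adds at least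
  `n ε ωₙ^(1/n) V^((n-1)/n)`, `ωₙ` the volume of the unit ball;
* `isoperimetric_content`: hence the same bound for the lower outer Minkowski content;
* `isoperimetric_ball`: balls attain it.

The surface area is measured by the outer Minkowski content; perimeters of other kinds and the
uniqueness of balls are not claimed.
-/

set_option autoImplicit false
set_option linter.unusedSectionVars false

noncomputable section

open MeasureTheory Topology Filter Metric
open scoped ENNReal Pointwise

namespace FA.BrunnMinkowski.Summary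

variable {n : ℕ}

/-- **The Prékopa-Leindler inequality.** -/
theorem prekopa_leindler {f g h : (Fin n → ℝ) → ℝ≥0∞} (hf : Measurable f) (hg : Measurable g)
    (hh : Measurable h) {l : ℝ} (hl0 : 0 < l) (hl1 : l < 1)
    (hfgh : ∀ x y, f x ^ (1 - l) * g y ^ l ≤ h ((1 - l) • x + l • y)) :
    (∫⁻ x, f x) ^ (1 - l) * (∫⁻ x, g x) ^ l ≤ ∫⁻ x, h x :=
  prekopa_pi hl0 hl1 n f g h hf hg hh hfgh

/-- **Marginals of log-concave functions are log-concave.** -/
theorem marginal_log_concave {m : ℕ} {f : (Fin m → ℝ) × (Fin n → ℝ) → ℝ≥0∞} (hf : Measurable f)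
    (hlc : ∀ (l : ℝ), 0 < l → l < 1 → ∀ p q, f p ^ (1 - l) * f q ^ l ≤ f ((1 - l) • p + l • q))
    {l : ℝ} (hl0 : 0 < l) (hl1 : l < 1) (x y : Fin m → ℝ) :
    (∫⁻ v, f (x, v)) ^ (1 - l) * (∫⁻ v, f (y, v)) ^ l ≤ ∫⁻ v, f ((1 - l) • x + l • y, v) :=
  marginal_pi hf hl0 hl1 (hlc l hl0 hl1) x y

/-- **The Brunn-Minkowski inequality.** -/
theorem brunn_minkowski (hn : 0 < n) {A B : Set (Fin n → ℝ)} (hA : MeasurableSet A)
    (hB : MeasurableSet B) (hAn : A.Nonempty) (hBn : B.Nonempty) :
    volume A ^ (1 / n : ℝ) + volume B ^ (1 / n : ℝ) ≤ volume (A + B) ^ (1 / n : ℝ) :=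
  brunn_minkowski_pi hn hA hB hAn hBn

/-- **The multiplicative Brunn-Minkowski inequality.** -/
theorem brunn_minkowski_weighted {A B : Set (Fin n → ℝ)} (hA : MeasurableSet A)
    (hB : MeasurableSet B) {l : ℝ} (hl0 : 0 < l) (hl1 : l < 1) :
    volume A ^ (1 - l) * volume B ^ l ≤ volume ((1 - l) • A + l • B) :=
  volume_geom_mean_le hA hB hl0 hl1 fun _ ha _ hb =>
    Set.add_mem_add (Set.smul_mem_smul_set ha) (Set.smul_mem_smul_set hb)

/-- **Brunn-Minkowski in Euclidean space.** -/
theorem brunn_minkowski_euclidean (hn : 0 < n) {A B : Set (EuclideanSpace ℝ (Fin n))}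
    (hA : IsCompact A) (hB : IsCompact B) (hAn : A.Nonempty) (hBn : B.Nonempty) :
    volume A ^ (1 / n : ℝ) + volume B ^ (1 / n : ℝ) ≤ volume (A + B) ^ (1 / n : ℝ) :=
  brunn_minkowski_euclid hn hA hB hAn hBn

/-- **The isoperimetric inequality.** -/
theorem isoperimetric (hn : 0 < n) {A : Set (EuclideanSpace ℝ (Fin n))} (hA : IsCompact A)
    (hAn : A.Nonempty) {ε : ℝ} (hε : 0 ≤ ε) :
    n * ε * volume.real (closedBall (0 : EuclideanSpace ℝ (Fin n)) 1) ^ (1 / n : ℝ) *
        volume.real A ^ (((n : ℝ) - 1) / n) ≤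
      volume.real (cthickening ε A) - volume.real A :=
  isoperimetric_thickening hn hA hAn hε

/-- **The isoperimetric inequality for the lower Minkowski content.** -/
theorem isoperimetric_content (hn : 0 < n) {A : Set (EuclideanSpace ℝ (Fin n))} (hA : IsCompact A)
    (hAn : A.Nonempty) :
    ∀ᶠ ε in 𝓝[>] (0 : ℝ),
      n * volume.real (closedBall (0 : EuclideanSpace ℝ (Fin n)) 1) ^ (1 / n : ℝ) *
          volume.real A ^ (((n : ℝ) - 1) / n) ≤
        (volume.real (cthickening ε A) - volume.real A) / ε := by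
  filter_upwards [self_mem_nhdsWithin] with ε (hε : 0 < ε)
  rw [le_div_iff₀ hε]
  exact le_trans (le_of_eq (by ring)) (isoperimetric hn hA hAn hε.le)

/-- **Balls attain equality.** -/
theorem isoperimetric_ball (hn : 0 < n) (x : EuclideanSpace ℝ (Fin n)) {r : ℝ} (hr : 0 ≤ r) :
    Tendsto (fun ε => (volume.real (cthickening ε (closedBall x r)) -
        volume.real (closedBall x r)) / ε) (𝓝[>] 0)
      (𝓝 (n * volume.real (closedBall (0 : EuclideanSpace ℝ (Fin n)) 1) ^ (1 / n : ℝ) *
        volume.real (closedBall x r) ^ (((n : ℝ) - 1) / n))) :=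
  isoperimetric_ball_limit hn x hr

end FA.BrunnMinkowski.Summary

end
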