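import Fermat.Agent.Buchi.Decide
import Mathlib.Computability.Halting

/-!
# Büchi's theorem and the decidability of S1S

The languages of infinite words accepted by automata of Büchi are closed under complement, by the
argument from Ramsey's theorem, and are exactly the languages definable in the monadic second order
logic of one successor, whose truth is decidable (Büchi 1962).
-/

set_option autoImplicit false

namespace FA.Buchi

variable {α β : Type}

/-- **Büchi's complementation theorem.** -/
theorem buchi_complement {L : Set (ℕ → α)} (h : IsOmegaRegular L) : IsOmegaRegular Lᶜ :=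
  h.recognizable.compl.isOmegaRegular

/-- The omega-regular languages form a Boolean algebra closed under projection. -/
theorem omegaRegular_closure {L L' : Set (ℕ → α)} (h : IsOmegaRegular L)
    (h' : IsOmegaRegular L') :
    IsOmegaRegular (L ∩ L') ∧ IsOmegaRegular (L ∪ L') ∧
      ∀ R : β → α → Prop, IsOmegaRegular {w | ∃ v, (∀ n, R (w n) (v n)) ∧ v ∈ L} := by
  refine ⟨(h.recognizable.inter h'.recognizable).isOmegaRegular, ?_,
    fun R => (h.recognizable.project R).isOmegaRegular⟩
  have := ((h.recognizable.compl.inter h'.recognizable.compl).compl).isOmegaRegular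
  rwa [← Set.compl_union, compl_compl] at this

/-- **Büchi's theorem.** A language is definable in the monadic second order logic of one
successor exactly when an automaton of Büchi accepts it. -/
theorem buchi_definable_iff {k : ℕ} (L : Set (ℕ → Fin k → Bool)) :
    IsDefinable L ↔ IsOmegaRegular L :=
  ⟨fun h => h.recognizable.isOmegaRegular, IsOmegaRegular.isDefinable⟩

/-- **A nonempty omega-regular language has an ultimately periodic word.** -/
theorem exists_ultimately_periodic {L : Set (ℕ → α)} (h : IsOmegaRegular L) (hne : L.Nonempty) :
    ∃ z ∈ L, ∃ m p : ℕ, 0 < p ∧ ∀ n, m ≤ n → z (n + p) = z n := by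
  obtain ⟨S, hS, mul, val, acc, hv, hL⟩ := h.recognizable
  obtain ⟨w, hw⟩ := hne
  obtain ⟨c, s, e, hl⟩ := exists_linked_id hv w
  have hlt : c 0 < c 1 := hl.mono Nat.one_pos
  let z : ℕ → α := fun n => if n < c 0 then w n else w (c 0 + (n - c 0) % (c 1 - c 0))
  let d : ℕ → ℕ := fun k => c 0 + k * (c 1 - c 0)
  have hd : StrictMono d := fun x y hxy =>
    Nat.add_lt_add_left (Nat.mul_lt_mul_of_pos_right hxy (Nat.sub_pos_of_lt hlt)) (c 0)
  have hz : Linked val z d s e := by
    refine Linked.of_blocks hv hd (by simpa [d] using hl.pos) ?_ (fun k => ?_) (hl.idem hv)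
      (hl.absorb hv)
    · rw [show d 0 = c 0 by simp [d], ← hl.prefix_val 0]
      congr 1
      refine List.map_congr_left fun t ht => ?_
      rw [List.mem_range] at ht
      simp [z, show t < c 0 by omega]
    · rw [← hl.block_val 0 1 Nat.one_pos]
      congr 1
      have hlen : d (k + 1) - d k = c 1 - c 0 := by
        simp only [d, Nat.succ_mul]
        omega
      rw [seg, seg, hlen]
      refine List.map_congr_left fun t ht => ?_
      rw [List.mem_range] at ht
      have hn : ¬d k + t < c 0 := by simp only [d]; omega
      simp only [z, if_neg hn]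
      congr 2
      rw [show d k + t - c 0 = t + k * (c 1 - c 0) by simp only [d]; omega,
        Nat.add_mul_mod_self_right, Nat.mod_eq_of_lt ht]
  refine ⟨z, (hL z d s e hz).2 ((hL w c s e hl).1 hw), c 0, c 1 - c 0, Nat.sub_pos_of_lt hlt,
    fun n hn => ?_⟩
  simp only [z, if_neg (not_lt.2 hn), if_neg (show ¬n + (c 1 - c 0) < c 0 by omega)]
  rw [show n + (c 1 - c 0) - c 0 = n - c 0 + (c 1 - c 0) by omega, Nat.add_mod_right]

/-- The order of the natural numbers is definable. -/
theorem order_definable :
    ∃ φ : Formula, ∀ V : ℕ → Set ℕ, ∀ a b, V 0 = {a} → V 1 = {b} → (φ.Realize V ↔ a < b) :=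
  ⟨Formula.less 0 1 2 3 4 5 6, fun _ _ _ ha hb => Formula.realize_less (by decide) ha hb⟩

/-- The truth of a sentence does not depend on the assignment. -/
theorem sentence_truth {φ : Formula} (h : φ.freeVars = ∅) (V : ℕ → Set ℕ) :
    φ.Realize V ↔ φ.Realize fun _ => ∅ :=
  φ.realize_congr (by simp [h])

/-- **The decidability of S1S, for code numbers**: the procedure is even primitive recursive. -/
theorem s1s_primrec_decision :
    Primrec decideCode ∧
      ∀ n, decideCode n = true ↔ (Formula.ofCode n).Realize fun _ => ∅ :=
  ⟨primrec_decideCode, fun n => by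
    simpa [Formula.code_ofCode] using decideCode_iff (Formula.ofCode n)⟩

/-- **The decidability of S1S** (Büchi). Truth of formulas of the monadic second order theory of
`(ℕ, +1)` under the empty assignment, in particular truth of sentences, is computable. -/
theorem s1s_decidable : ComputablePred fun φ : Formula => φ.Realize fun _ => ∅ :=
  ComputablePred.computable_iff.2
    ⟨fun φ => decideCode (Formula.numbering φ),
      (primrec_decideCode.comp Primrec.of_equiv).to_comp,
      funext fun φ => propext (decideCode_iff φ).symm⟩

end FA.Buchi
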