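import Fermat.Agent.BunyakovskyFails.Counterexample

/-!
# The failure of Bunyakovsky's and Chowla's conjectures over `F_q[t]`

Over a finite field of odd characteristic the Moebius function is `(-1) ^ n` times the quadratic
character of the discriminant (Pellet). So for `p ∣ m` the Moebius value of `g ^ (2 m) + b` depends
only on `g` modulo `b'` and the parity of `deg g` (Conrad, Conrad and Gross), and `T ^ (4 p) + t`,
irreducible and without local obstruction, has prime values only at constants.

Not claimed: characteristic `2`, or periodicity for a general `f` in `k[t][T ^ p]`.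
-/

set_option autoImplicit false
set_option linter.style.openClassical false
set_option linter.style.haveILetI false

noncomputable section

open scoped Classical
open Polynomial UniqueFactorizationMonoid

namespace FA.BunyakovskyFails.Summary

variable {k : Type*} [Field k] [Fintype k]

/-- The Moebius function of `k[t]`. -/
def moebius (h : k[X]) : ℤ :=
  if Squarefree h then (-1) ^ (normalizedFactors h).card else 0

/-- **Pellet's theorem over every finite field of odd characteristic.** -/
theorem pellet_parity_finite_field (hk : ringChar k ≠ 2) {h : k[X]} (hm : h.Monic) :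
    moebius h = (-1) ^ h.natDegree * quadraticChar k
      ((-1) ^ (h.natDegree * (h.natDegree - 1) / 2) * resultant h (derivative h)) :=
  mu_eq_quadraticChar_disc hk hm

/-- **The Moebius value of `g ^ (2 m) + b`** in characteristic `p ∣ m`, and its periodicity. -/
theorem moebius_values_periodic (hk : ringChar k ≠ 2) (p : ℕ) [CharP k p] {m : ℕ} (hpm : p ∣ m)
    {b : k[X]} (hb : derivative b ≠ 0) :
    (∀ g : k[X], b.natDegree < 2 * m * g.natDegree →
      moebius (g ^ (2 * m) + b) = quadraticChar k (-1) ^ (m * g.natDegree) *
        quadraticChar k (resultant (derivative b) (g ^ (2 * m) + b))) ∧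
    ∀ g g' : k[X], b.natDegree < 2 * m * g.natDegree → b.natDegree < 2 * m * g'.natDegree →
      g.natDegree % 2 = g'.natDegree % 2 → derivative b ∣ g - g' →
        moebius (g ^ (2 * m) + b) = moebius (g' ^ (2 * m) + b) := by
  refine ⟨fun g hg => mu_value hk hpm hg, fun g g' hg hg' hpar hdvd => ?_⟩
  show mu _ = mu _
  rw [mu_value_eq_phi hk hpm hb hg hdvd, mu_value_eq_phi hk hpm hb hg' (r := g') (by simp)]
  refine congrArg (· * _) ?_
  have hred : ∀ j : ℕ,
      quadraticChar k (-1) ^ (m * j) = quadraticChar k (-1) ^ (m * (j % 2)) := fun j => by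
    conv_lhs => rw [show m * j = m * (j % 2) + 2 * (m * (j / 2)) by
      rw [mul_left_comm, ← mul_add, Nat.mod_add_div]]
    rw [pow_add, pow_mul (quadraticChar k (-1)) 2,
      quadraticChar_sq_one (neg_ne_zero.mpr one_ne_zero), one_pow, mul_one]
  rw [hred g.natDegree, hpar, ← hred]

/-- **The exact Moebius sum** over the monic `g = t ^ d + a` of degree `d`: a constant depending
only on the parity of `d` times `q ^ (d - deg b')`. -/
theorem moebius_values_sum (hk : ringChar k ≠ 2) (p : ℕ) [CharP k p] {m : ℕ} (hpm : p ∣ m)
    {b : k[X]} (hb : derivative b ≠ 0) :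
    ∃ S : ℤ, ∀ d : ℕ, b.natDegree < 2 * m * d → (derivative b).natDegree ≤ d →
      ∑ᶠ a : degreeLT k d, moebius ((X ^ d + a.1) ^ (2 * m) + b) =
        (Fintype.card k : ℤ) ^ (d - (derivative b).natDegree) *
          (quadraticChar k (-1) ^ (m * d) * S) :=
  ⟨_, fun _ hd he => sum_mu_value hk hpm hb hd he⟩

/-- **Bunyakovsky's conjecture fails over `F_q[t]`**, `q` odd: `T ^ (4 p) + t` is irreducible, no
irreducible divides all its values, all these are squarefree, its Moebius values at nonconstant
arguments are all `1`, so their sum is maximal and only constants give prime values. -/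
theorem bunyakovsky_fails (hk : ringChar k ≠ 2) (p : ℕ) [Fact p.Prime] [CharP k p] :
    Irreducible (X ^ (4 * p) + C X : k[X][X]) ∧
    (∀ P : k[X], Irreducible P → ∃ g, ¬ P ∣ g ^ (4 * p) + X) ∧
    (∀ g : k[X], Squarefree (g ^ (4 * p) + X)) ∧
    (∀ g : k[X], g.natDegree ≠ 0 → moebius (g ^ (4 * p) + X) = 1) ∧
    (∀ d : ℕ, d ≠ 0 → ∑ᶠ a : degreeLT k d, moebius ((X ^ d + a.1) ^ (4 * p) + X) =
      (Fintype.card k : ℤ) ^ d) ∧
    (∀ g : k[X], Irreducible (g ^ (4 * p) + X) ↔ ∃ c, g = C c) ∧
    {g : k[X] | Irreducible (g ^ (4 * p) + X)}.Finite := by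
  simp only [← eval_badPoly k p]
  exact ⟨irreducible_badPoly k p, fun P hP => exists_not_dvd_eval k p hP,
    squarefree_eval_badPoly hk, fun g => mu_eval_badPoly hk, fun d => sum_mu_eval_badPoly hk,
    irreducible_eval_iff hk, finite_prime_values hk⟩

/-- **No analogue of Bunyakovsky's conjecture**: some irreducible in `k[t][T]` without local
obstruction has only finitely many prime values. -/
theorem exists_irreducible_finitely_many_prime_values (hk : ringChar k ≠ 2) :
    ∃ f : k[X][X], Irreducible f ∧ (∀ P : k[X], Irreducible P → ∃ g, ¬ P ∣ f.eval g) ∧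
      {g : k[X] | Irreducible (f.eval g)}.Finite := by
  obtain ⟨p, hp⟩ := CharP.exists k
  haveI : Fact p.Prime := ⟨CharP.char_is_prime k p⟩
  exact ⟨badPoly k p, irreducible_badPoly k p, fun P hP => exists_not_dvd_eval k p hP,
    finite_prime_values hk⟩

end FA.BunyakovskyFails.Summary
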