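import Fermat.Agent.Burgess.LeastNonresidue

/-!
# Stepanov's method, the theorem of Burgess and the least quadratic non-residue

* `|∑_x (f x / p)| ≤ 25 (deg f + 1) √p` for `f` not a constant times a square, hence
  `#{y ^ 2 = f x} = p + O (√p)`: Weil's bound, up to the constant, by Stepanov's method.
* Burgess (1957): the Legendre symbol cancels on every interval of length `p ^ (1/4 + δ)`, hence
  the least quadratic non-residue is `≤ p ^ (1/(4√e) + η)` for all large `p`.

Burgess's quantitative inequality and general characters are not claimed; there is no link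
with Fermat's last theorem.
-/

set_option autoImplicit false

noncomputable section

namespace FA.Burgess.Summary

open Finset Filter Polynomial
open scoped Topology

variable {p : ℕ} [Fact p.Prime]

theorem chi_intCast (a : ℤ) : chi p (a : ZMod p) = (legendreSym p a : ℝ) := rfl

theorem chi_natCast (n : ℕ) : chi p (n : ZMod p) = (legendreSym p (n : ℤ) : ℝ) := by
  rw [← Int.cast_natCast (R := ZMod p), chi_intCast]

/-- **The bound of Weil, by Stepanov's method.** -/
theorem weil_hyperelliptic (f : (ZMod p)[X])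
    (hf : ¬ ∃ (c : ZMod p) (u : (ZMod p)[X]), f = C c * u ^ 2) :
    |∑ x : ZMod p, ((quadraticChar (ZMod p) (f.eval x) : ℤ) : ℝ)| ≤
      25 * (f.natDegree + 1) * Real.sqrt p :=
  abs_sum_chi_le hf

/-- The curve `y ^ 2 = f x` has `p + O (√p)` points. -/
theorem weil_hyperelliptic_points (hp2 : p ≠ 2) (f : (ZMod p)[X])
    (hf : ¬ ∃ (c : ZMod p) (u : (ZMod p)[X]), f = C c * u ^ 2) :
    |((univ.filter fun z : ZMod p × ZMod p => z.2 ^ 2 = f.eval z.1).card : ℝ) - p| ≤
      25 * (f.natDegree + 1) * Real.sqrt p := by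
  classical
  refine le_of_eq_of_le (congrArg abs ?_) (weil_hyperelliptic f hf)
  have h : ∀ x : ZMod p, (((univ.filter fun y : ZMod p => y ^ 2 = f.eval x).card : ℕ) : ℝ) =
      ((quadraticChar (ZMod p) (f.eval x) : ℤ) : ℝ) + 1 := fun x => by
    have h1 := quadraticChar_card_sqrts (F := ZMod p) (by rwa [ZMod.ringChar_zmod_n]) (f.eval x)
    rw [show (univ.filter fun y : ZMod p => y ^ 2 = f.eval x) =
      {y : ZMod p | y ^ 2 = f.eval x}.toFinset by ext; simp]
    exact_mod_cast h1
  rw [card_filter, Fintype.sum_prod_type]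
  simp only [← card_filter]
  push_cast
  rw [sum_congr rfl fun x _ => h x, sum_add_distrib, sum_const, card_univ, ZMod.card,
    nsmul_one, add_sub_cancel_right]

/-- **The theorem of Burgess.** -/
theorem burgess {ε δ : ℝ} (hε : 0 < ε) (hδ : 0 < δ) :
    ∀ᶠ p : ℕ in atTop, ∀ [Fact p.Prime] (M N : ℕ), (p : ℝ) ^ ((1 : ℝ) / 4 + δ) ≤ N →
      |∑ n ∈ Ioc M (M + N), (legendreSym p (n : ℤ) : ℝ)| ≤ ε * N := by
  filter_upwards [eventually_abs_windowSum_le hε hδ] with p h
  intro _ M N hN
  simpa only [windowSum, chi_natCast] using h M N hN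

/-- Every interval of length `p ^ (1/4 + δ)` has a residue and a non-residue. -/
theorem residue_nonresidue_in_intervals {δ : ℝ} (hδ : 0 < δ) :
    ∀ᶠ p : ℕ in atTop, ∀ [Fact p.Prime] (M N : ℕ), (p : ℝ) ^ ((1 : ℝ) / 4 + δ) ≤ N →
      (∃ n ∈ Ioc M (M + N), legendreSym p (n : ℤ) = 1) ∧
        ∃ n ∈ Ioc M (M + N), legendreSym p (n : ℤ) = -1 := by
  filter_upwards [burgess (show (0 : ℝ) < 1 / 5 by norm_num) hδ, eventually_ge_atTop 11]
    with p h hp
  intro _ M N hN
  have hb := abs_le.1 (h M N hN)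
  have hpr : (11 : ℝ) ≤ p := by exact_mod_cast hp
  have hN0 : 0 < N := by
    rw [← Nat.cast_pos (α := ℝ)]
    exact lt_of_lt_of_le (Real.rpow_pos_of_pos (by linarith) _) hN
  obtain ⟨Z, hZ⟩ : ∃ Z, Z = (Ioc M (M + N)).filter fun n => p ∣ n := ⟨_, rfl⟩
  have hZc : (Z.card : ℝ) ≤ N / p + 1 := by
    have h1 := Nat.Ioc_filter_dvd_card_eq_div (M + N) p
    have h2 : Z.card + M / p = (M + N) / p := by
      rw [← h1, ← Nat.Ioc_filter_dvd_card_eq_div M p, hZ, add_comm,
        ← card_union_of_disjoint (disjoint_filter_filter (Ioc_disjoint_Ioc_of_le le_rfl)),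
        ← filter_union, Ioc_union_Ioc_eq_Ioc (Nat.zero_le M) (Nat.le_add_right M N)]
    have h3 : (M + N) / p ≤ M / p + N / p + 1 := by
      rw [Nat.add_div (show 0 < p by omega)]
      split_ifs <;> omega
    have h4 : ((N / p : ℕ) : ℝ) ≤ (N : ℝ) / p := Nat.cast_div_le
    have h5 : (Z.card : ℝ) ≤ ((N / p : ℕ) : ℝ) + 1 := by
      exact_mod_cast (by omega : Z.card ≤ N / p + 1)
    linarith
  have key : ∀ s : ℤ, (s = 1 ∨ s = -1) →
      (∀ n ∈ Ioc M (M + N), legendreSym p (n : ℤ) ≠ s) →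
        ((N : ℝ) - Z.card) ≤ |∑ n ∈ Ioc M (M + N), (legendreSym p (n : ℤ) : ℝ)| := by
    intro s hs hne
    have h1 : ∀ n ∈ Ioc M (M + N), (legendreSym p (n : ℤ) : ℝ) =
        (-(s : ℝ)) * (1 - if p ∣ n then 1 else 0) := fun n hn => by
      rcases eq_or_ne ((n : ℤ) : ZMod p) 0 with h0 | h0
      · rw [(legendreSym.eq_zero_iff p n).2 h0, if_pos ((ZMod.natCast_eq_zero_iff n p).1
          (by simpa using h0))]
        simp
      · rw [if_neg fun hd => h0 (by simpa using (ZMod.natCast_eq_zero_iff n p).2 hd)]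
        have := hne n hn
        rcases legendreSym.eq_one_or_neg_one p h0 with e | e <;> rcases hs with rfl | rfl <;>
          simp_all
    rw [sum_congr rfl h1, ← mul_sum, sum_sub_distrib, sum_boole, sum_const, Nat.card_Ioc,
      Nat.add_sub_cancel_left, nsmul_one, ← hZ, abs_mul]
    refine le_of_le_of_eq (le_abs_self _) ?_
    rcases hs with rfl | rfl <;> simp
  have hN2 : (2 : ℝ) ≤ N ∨ N = 1 := by
    rcases (show N = 1 ∨ 2 ≤ N by omega) with h1 | h1
    · exact Or.inr h1
    · exact Or.inl (by exact_mod_cast h1)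
  have hN1 : (p : ℝ) ^ ((1 : ℝ) / 4) ≤ N :=
    (Real.rpow_le_rpow_of_exponent_le (by linarith) (by linarith)).trans hN
  have h2 : (3 / 2 : ℝ) < (p : ℝ) ^ ((1 : ℝ) / 4) := by
    rw [one_div (4 : ℝ), ← pow_lt_pow_iff_left₀ (by norm_num) (by positivity)
      (show (4 : ℕ) ≠ 0 by norm_num), show (4 : ℝ) = ((4 : ℕ) : ℝ) by norm_num,
      Real.rpow_inv_natCast_pow (by linarith) (by norm_num)]
    norm_num
    linarith
  have hNtwo : (2 : ℝ) ≤ N := hN2.resolve_right fun h1 => by
    rw [h1, Nat.cast_one] at hN1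
    linarith
  have hNp : (N : ℝ) / p ≤ N / 11 := div_le_div_of_nonneg_left (by linarith) (by norm_num) hpr
  constructor
  all_goals by_contra hcon
  all_goals push Not at hcon
  · have := (key 1 (Or.inl rfl) hcon).trans (h M N hN)
    linarith
  · have := (key (-1) (Or.inr rfl) hcon).trans (h M N hN)
    linarith

/-- **The least quadratic non-residue** is at most `p ^ (1 / (4 √e) + η)`. -/
theorem least_quadratic_nonresidue {η : ℝ} (hη : 0 < η) :
    ∀ᶠ p : ℕ in atTop, ∀ [Fact p.Prime], ∃ q : ℕ, q.Prime ∧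
      (q : ℝ) ≤ (p : ℝ) ^ (1 / (4 * Real.sqrt (Real.exp 1)) + η) ∧
        legendreSym p (q : ℤ) = -1 := by
  filter_upwards [eventually_least_nonresidue (lt_min hη (show (0 : ℝ) < 1 / 4 by norm_num))
    (min_le_right η (1 / 4)), eventually_ge_atTop 1] with p h hp
  intro _
  obtain ⟨q, hq, hqp, hc⟩ := h
  refine ⟨q, hqp, hq.trans (Real.rpow_le_rpow_of_exponent_le (Nat.one_le_cast.2 hp) ?_), ?_⟩
  · linarith [min_le_left η (1 / 4)]
  · rw [chi_natCast] at hc
    exact_mod_cast hc

end FA.Burgess.Summary
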