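import Fermat.Agent.BurgessApplications.LValues
import Fermat.Agent.BurgessApplications.Nonresidue

/-!
# Burgess's subconvexity bound and the least non-residue of a character

For every prime `p` and nonprincipal character `χ` modulo `p`:

* `|L(1/2 + i t, χ)| ≤ C (1 + |t|) p ^ (3/16) (log p) ^ 2` (Burgess 1963), `C` absolute;
* for large `p`, `|L(1, χ)| ≤ (1/4 + ε) log p`;
* for large `p`, some prime `q ≤ p ^ (1/(4√e) + η)` has `χ q ≠ 1`; so the least `d`-th power
  non-residue is as small whenever `(d, p - 1) > 1`.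

Only prime moduli; the exponent of `log p` and the linear growth in `t` are not optimised; the
sharper exponents of Davenport–Erdős and Wang Yuan for large `d` are not claimed. There is no link
with Fermat's last theorem.
-/

set_option autoImplicit false

noncomputable section

namespace FA.BurgessApplications.Summary

open Filter DirichletCharacter

/-- **Burgess's subconvexity bound.** -/
theorem burgess_subconvexity :
    ∃ C : ℝ, ∀ (p : ℕ) [Fact p.Prime] (χ : DirichletCharacter ℂ p), χ ≠ 1 → ∀ t : ℝ,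
      ‖LFunction χ (1 / 2 + t * Complex.I)‖ ≤
        C * (1 + |t|) * ((p : ℝ) ^ ((3 : ℝ) / 16) * Real.log p ^ 2) :=
  ⟨9 * (FA.BurgessGeneral.burgessConst 2 + 2), fun _ _ _ hχ t => norm_LFunction_half_le hχ t⟩

/-- **`|L(1, χ)| ≤ (1/4 + ε) log p`.** -/
theorem burgess_LOne {ε : ℝ} (hε : 0 < ε) :
    ∀ᶠ p : ℕ in atTop, ∀ [Fact p.Prime] (χ : DirichletCharacter ℂ p), χ ≠ 1 →
      ‖LFunction χ 1‖ ≤ (1 / 4 + ε) * Real.log p :=
  eventually_norm_LFunction_one_le hε

/-- **The least non-residue of a character.** -/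
theorem least_character_nonresidue {η : ℝ} (hη : 0 < η) :
    ∀ᶠ p : ℕ in atTop, ∀ [Fact p.Prime] (χ : MulChar (ZMod p) ℂ), χ ≠ 1 →
      ∃ q : ℕ, q.Prime ∧ (q : ℝ) ≤ (p : ℝ) ^ (1 / (4 * Real.sqrt (Real.exp 1)) + η) ∧
        χ (q : ZMod p) ≠ 0 ∧ χ (q : ZMod p) ≠ 1 := by
  filter_upwards [eventually_least_nonresidue_char hη] with p hp
  intro _ χ hχ
  obtain ⟨q, hq, hqθ, hqp, hne⟩ := hp χ hχ
  exact ⟨q, hq, hqθ, ((FA.Burgess.natCast_ne_zero_of_lt hq.one_le hqp).isUnit.map χ).ne_zero, hne⟩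

/-- **The least `d`-th power non-residue.** -/
theorem least_nonPower {η : ℝ} (hη : 0 < η) :
    ∀ᶠ p : ℕ in atTop, p.Prime → ∀ d : ℕ, 1 < Nat.gcd d (p - 1) →
      ∃ q : ℕ, q.Prime ∧ (q : ℝ) ≤ (p : ℝ) ^ (1 / (4 * Real.sqrt (Real.exp 1)) + η) ∧
        ∀ x : ZMod p, x ^ d ≠ q :=
  eventually_least_nonPower hη

end FA.BurgessApplications.Summary

end
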