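import Fermat.Agent.BurgessComposite.LValues

/-!
# Burgess's bounds for composite moduli

For primitive characters `χ` modulo `q = k m`, `k ≤ K`, `(k, m) = 1`, `m` squarefree (so every
squarefree conductor and, with `K = 8`, every fundamental discriminant):

* Burgess's inequality `|∑_{M < n ≤ M + N} χ n| ≤ C N ^ (1 - 1/r) q ^ ((r + 1) / (4 r ^ 2) + ε)`;
* `|L(1/2 + i t, χ)| ≤ C (1 + |t|) q ^ (3/16 + ε)`;
* `|L(1, χ)| ≤ (1/4 + ε) log q` for large `q`, so `h(-4 n) ≤ (1/(4 π) + ε) √(4 n) log (4 n)` for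
  large squarefree `n ≡ 1 (mod 4)`.

Cube-free moduli and `r = 2` for all moduli (Burgess's full theorems) are not claimed. There is no
link with Fermat's last theorem.
-/

set_option autoImplicit false

noncomputable section

namespace FA.BurgessComposite.Summary

open Finset DirichletCharacter

/-- **Burgess's inequality.** -/
theorem burgess_composite (K : ℕ) {r : ℕ} (hr : 1 ≤ r) {ε : ℝ} (hε : 0 < ε) :
    ∃ C : ℝ, ∀ (k m : ℕ) [NeZero k] [NeZero m], k ≤ K → k.Coprime m → Squarefree m → 1 < k * m →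
      ∀ (χ : DirichletCharacter ℂ (k * m)), χ.IsPrimitive → ∀ M N : ℕ,
        ‖∑ n ∈ Ioc M (M + N), χ (n : ZMod (k * m))‖ ≤
          C * ((N : ℝ) ^ (1 - 1 / (r : ℝ)) *
            ((k * m : ℕ) : ℝ) ^ (((r : ℝ) + 1) / (4 * (r : ℝ) ^ 2) + ε)) :=
  exists_burgess_composite K hr hε

/-- **Subconvexity in the conductor.** -/
theorem subconvexity_composite (K : ℕ) {ε : ℝ} (hε : 0 < ε) :
    ∃ C : ℝ, ∀ (k m : ℕ) [NeZero k] [NeZero m], k ≤ K → k.Coprime m → Squarefree m → 1 < k * m →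
      ∀ (χ : DirichletCharacter ℂ (k * m)), χ.IsPrimitive → ∀ t : ℝ,
        ‖LFunction χ (1 / 2 + t * Complex.I)‖ ≤
          C * (1 + |t|) * ((k * m : ℕ) : ℝ) ^ ((3 : ℝ) / 16 + ε) :=
  exists_subconvexity_composite K hε

/-- **`|L(1, χ)| ≤ (1/4 + ε) log q`.** -/
theorem LOne_composite (K : ℕ) {ε : ℝ} (hε : 0 < ε) :
    ∃ q₀ : ℕ, ∀ (k m : ℕ) [NeZero k] [NeZero m], k ≤ K → k.Coprime m → Squarefree m →
      q₀ ≤ k * m → ∀ (χ : DirichletCharacter ℂ (k * m)), χ.IsPrimitive →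
        ‖LFunction χ 1‖ ≤ (1 / 4 + ε) * Real.log (k * m : ℕ) :=
  exists_LOne_composite K hε

/-- **Class numbers of imaginary quadratic fields of discriminant `-4 n`.** -/
theorem classNumber_le {ε : ℝ} (hε : 0 < ε) :
    ∃ n₀ : ℕ, ∀ (n : ℕ) [NeZero n], n₀ ≤ n → Squarefree n → n % 4 = 1 →
      (Nat.card (FA.OrderTheta.Cl n) : ℝ) ≤
        (1 / (4 * Real.pi) + ε) * Real.sqrt (4 * n : ℕ) * Real.log (4 * n : ℕ) :=
  exists_classNumber_le hε

end FA.BurgessComposite.Summary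

end
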