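import Fermat.Agent.BurgessGeneral.PrimitiveRoot

/-!
# Burgess's inequality and the least primitive root

For every prime `p`, nonprincipal character `χ` modulo `p`, `r ≥ 1` and all `M`, `N`:
`|∑_{M < n ≤ M + N} χ n| ≤ C_r N ^ (1 - 1/r) p ^ ((r + 1) / (4 r ^ 2)) (1 + log p)`; hence every
interval of length `p ^ (1/4 + ε)` contains a primitive root modulo a large prime `p`, and the
least primitive root and the least non-`d`-th-power are `≤ p ^ (1/4 + ε)` (Burgess 1962).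

The exponent of `1 + log p` is `1`, not the sharper `1/r`; composite moduli are not claimed. There
is no link with Fermat's last theorem.
-/

set_option autoImplicit false

noncomputable section

namespace FA.BurgessGeneral.Summary

open Finset Filter

/-- **Burgess's inequality.** -/
theorem burgess_inequality {r : ℕ} (hr : 1 ≤ r) :
    ∃ C : ℝ, ∀ (p : ℕ) [Fact p.Prime] (χ : MulChar (ZMod p) ℂ), χ ≠ 1 → ∀ M N : ℕ,
      ‖∑ n ∈ Ioc M (M + N), χ (n : ZMod p)‖ ≤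
        C * ((1 + Real.log p) * ((N : ℝ) ^ (1 - 1 / (r : ℝ)) *
          (p : ℝ) ^ (((r : ℝ) + 1) / (4 * (r : ℝ) ^ 2)))) :=
  ⟨burgessConst r, fun _ _ _ hχ M N => norm_windowSumC_le_burgess hχ hr M N⟩

/-- A power is saved on every interval of length `p ^ (1/4 + δ)`. -/
theorem burgess_power_saving {δ : ℝ} (hδ : 0 < δ) :
    ∃ η : ℝ, 0 < η ∧ ∀ᶠ p : ℕ in atTop, ∀ [Fact p.Prime] (χ : MulChar (ZMod p) ℂ), χ ≠ 1 →
      ∀ M N : ℕ, (p : ℝ) ^ (1 / 4 + δ) ≤ N →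
        ‖∑ n ∈ Ioc M (M + N), χ (n : ZMod p)‖ ≤ N * (p : ℝ) ^ (-η) :=
  eventually_norm_windowSumC_le hδ

/-- **Primitive roots in short intervals.** -/
theorem primitiveRoot_in_interval {ε : ℝ} (hε : 0 < ε) :
    ∀ᶠ p : ℕ in atTop, p.Prime → ∀ M N : ℕ, (p : ℝ) ^ (1 / 4 + ε) ≤ N →
      ∃ n ∈ Ioc M (M + N), orderOf (n : ZMod p) = p - 1 :=
  eventually_exists_primitiveRoot hε

/-- **The least primitive root is at most `p ^ (1/4 + ε)`.** -/
theorem least_primitiveRoot {ε : ℝ} (hε : 0 < ε) :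
    ∀ᶠ p : ℕ in atTop, p.Prime →
      ∃ n : ℕ, 1 ≤ n ∧ (n : ℝ) ≤ (p : ℝ) ^ (1 / 4 + ε) ∧ orderOf (n : ZMod p) = p - 1 := by
  have h2 : ∀ᶠ p : ℕ in atTop, (2 : ℝ) ≤ (p : ℝ) ^ (ε / 2) :=
    ((tendsto_rpow_atTop (half_pos hε)).comp tendsto_natCast_atTop_atTop).eventually_ge_atTop _
  filter_upwards [eventually_exists_primitiveRoot (half_pos hε), h2, eventually_ge_atTop 1]
    with p hp hp2 hp1 hprime
  have hp0 : (0 : ℝ) < p := Nat.cast_pos.2 hp1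
  have hx : 1 ≤ (p : ℝ) ^ (1 / 4 + ε / 2) :=
    Real.one_le_rpow (Nat.one_le_cast.2 hp1) (by linarith)
  obtain ⟨n, hn, hord⟩ := hp hprime 0 ⌈(p : ℝ) ^ (1 / 4 + ε / 2)⌉₊ (Nat.le_ceil _)
  rw [mem_Ioc, zero_add] at hn
  refine ⟨n, hn.1, ?_, hord⟩
  refine (Nat.cast_le.2 hn.2).trans ((Nat.ceil_lt_add_one (zero_le_one.trans hx)).le.trans ?_)
  rw [show 1 / 4 + ε = 1 / 4 + ε / 2 + ε / 2 by ring, Real.rpow_add hp0 (1 / 4 + ε / 2)]
  have := mul_le_mul_of_nonneg_left hp2 (zero_le_one.trans hx)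
  linarith

/-- The least non-`d`-th-power residue. -/
theorem least_nonPowerResidue {ε : ℝ} (hε : 0 < ε) :
    ∀ᶠ p : ℕ in atTop, p.Prime → ∀ d : ℕ, 1 < Nat.gcd d (p - 1) →
      ∃ n : ℕ, 1 ≤ n ∧ (n : ℝ) ≤ (p : ℝ) ^ (1 / 4 + ε) ∧ ∀ x : ZMod p, x ^ d ≠ n := by
  filter_upwards [least_primitiveRoot hε] with p hp hprime d hd
  have := Fact.mk hprime
  obtain ⟨n, h1, h2, hord⟩ := hp hprime
  refine ⟨n, h1, h2, fun x hx => ?_⟩
  have hp1 := hprime.one_lt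
  obtain ⟨g, hg⟩ : ∃ g, g = Nat.gcd d (p - 1) := ⟨_, rfl⟩
  rw [← hg] at hd
  obtain ⟨a, ha⟩ : g ∣ d := hg ▸ Nat.gcd_dvd_left _ _
  obtain ⟨b, hb⟩ : g ∣ p - 1 := hg ▸ Nat.gcd_dvd_right _ _
  have hn0 : (n : ZMod p) ≠ 0 := fun h => by
    rw [h, orderOf_zero] at hord
    omega
  have hd0 : d ≠ 0 := fun h => by
    rw [h, pow_zero] at hx
    rw [← hx, orderOf_one] at hord
    rw [h, Nat.gcd_zero_left] at hg
    omega
  have hx0 : x ≠ 0 := fun h => hn0 (by rw [← hx, h, zero_pow hd0])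
  have h3 : (n : ZMod p) ^ b = 1 := by
    rw [← hx, ← pow_mul, ha, mul_comm g a, mul_assoc, ← hb, mul_comm a, pow_mul,
      ZMod.pow_card_sub_one_eq_one hx0, one_pow]
  have hb0 : 0 < b := Nat.pos_of_mul_pos_left (show 0 < g * b by omega)
  have h4 := Nat.le_of_dvd hb0 (orderOf_dvd_of_pow_eq_one h3)
  rw [hord, hb] at h4
  have := Nat.mul_le_mul_right b hd
  omega

end FA.BurgessGeneral.Summary
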