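import Fermat.Agent.BurnsideBrauer.Main

/-!
# The theorem of Burnside and Brauer

For a complex representation `ρ` of a finite group with character `χ`, and the irreducible
characters `irr G`:

* `character_kernel`: `χ g = χ 1` iff `ρ g = 1`;
* `burnside_brauer`: if `ρ` is faithful and `χ` takes `m` values, every irreducible `ψ` has a
  nonzero inner product with `χ ^ j` for some `j < m`, and `χ ^ j` is the trace of the `j`-th
  tensor power;
* `burnside_converse`: if every irreducible `ψ` has one for some `j`, then `ρ` is faithful;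
* `faithful_irreducible_centre`: a faithful irreducible `ρ` makes the centre cyclic.

The minimal exponent and other fields are not claimed.
-/

set_option autoImplicit false

noncomputable section

open Finset FA.CharacterTheory
open FA.SchurWeylDuality (tpow)

namespace FA.Summary.BurnsideBrauer

variable {G : Type*} [Group G] [Fintype G] {V : Type*} [AddCommGroup V] [Module ℂ V]
  [FiniteDimensional ℂ V] (ρ : Representation ℂ G V)

/-- **The kernel of a character.** -/
theorem character_kernel (g : G) : ρ.character g = ρ.character 1 ↔ ρ g = 1 :=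
  FA.BurnsideBrauer.character_eq_iff ρ g

/-- **The theorem of Burnside and Brauer.** -/
theorem burnside_brauer (hρ : Function.Injective ρ) :
    (∀ ψ ∈ irr G, ∃ j < (Set.range ρ.character).ncard,
      (Nat.card G : ℂ)⁻¹ * ∑ x, ρ.character x ^ j * ψ x⁻¹ ≠ 0) ∧
    ∀ (b : Module.Basis (Fin (Module.finrank ℂ V)) ℂ V) (g : G) (j : ℕ),
      ρ.character g ^ j = (tpow (LinearMap.toMatrixAlgEquiv b (ρ g)) :
        Matrix (Fin j → _) (Fin j → _) ℂ).trace :=
  ⟨fun _ hψ => FA.BurnsideBrauer.exists_pairing_ne_zero ρ hρ hψ,
    FA.BurnsideBrauer.character_pow ρ⟩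

omit [FiniteDimensional ℂ V] in
/-- **The converse.** -/
theorem burnside_converse
    (h : ∀ ψ ∈ irr G, ∃ j : ℕ, (Nat.card G : ℂ)⁻¹ * ∑ x, ρ.character x ^ j * ψ x⁻¹ ≠ 0) :
    Function.Injective ρ :=
  FA.BurnsideBrauer.injective_of_pairing ρ h

/-- **The centre.** -/
theorem faithful_irreducible_centre [Representation.IsIrreducible ρ]
    (hρ : Function.Injective ρ) : IsCyclic (Subgroup.center G) :=
  FA.BurnsideBrauer.isCyclic_center ρ hρ

end FA.Summary.BurnsideBrauer

end
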