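import Fermat.Agent.LinearGroups.Burnside

/-!
# Burnside's theorem on linear groups of bounded exponent

* `burnside_exponent`: in characteristic zero a subgroup of `GL n K` of exponent `e` has at most
  `e ^ n³` elements;
* `periodic_subgroup_finite`: over a number field every periodic subgroup of `GL n K` is finite, of
  order bounded in terms of `n` and the degree alone (Minkowski, Schur);
* `finite_subgroups_GL_rat`: so the finite subgroups of `GL n ℚ` have order at most `(2n)! ^ n³`;
* `trace_determines_identity`: a matrix of finite order with trace `n` is the identity.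
-/

set_option autoImplicit false
set_option linter.style.haveILetI false

noncomputable section

open FA.LinearGroups

namespace FA.Summary

variable {n : Type*} [Fintype n] [DecidableEq n] {K : Type*} [Field K]

/-- **Burnside's theorem**: bounded exponent makes a linear group finite. -/
theorem burnside_exponent [CharZero K] {e : ℕ} (he : e ≠ 0)
    (G : Subgroup (Matrix.GeneralLinearGroup n K)) (h : ∀ g ∈ G, g ^ e = 1) :
    Finite G ∧ Nat.card G ≤ e ^ Fintype.card n ^ 3 :=
  finite_of_exponent he G h

/-- **Periodic linear groups over number fields** are finite, of bounded order. -/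
theorem periodic_subgroup_finite [NumberField K] (G : Subgroup (Matrix.GeneralLinearGroup n K))
    (h : ∀ g ∈ G, IsOfFinOrder g) :
    Finite G ∧ Nat.card G ≤
      (2 * (Fintype.card n * Module.finrank ℚ K)).factorial ^ Fintype.card n ^ 3 :=
  finite_of_exponent (Nat.factorial_ne_zero _) G fun g hg => pow_factorial_eq_one (h g hg)

/-- **Minkowski**: the finite subgroups of `GL n ℚ` have bounded order. -/
theorem finite_subgroups_GL_rat (G : Subgroup (Matrix.GeneralLinearGroup n ℚ)) [Finite G] :
    Nat.card G ≤ (2 * Fintype.card n).factorial ^ Fintype.card n ^ 3 := by
  have h := (periodic_subgroup_finite G fun g hg =>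
    Submonoid.isOfFinOrder_coe.2 (isOfFinOrder_of_finite (⟨g, hg⟩ : G))).2
  rwa [Module.finrank_self, mul_one] at h

/-- A matrix of finite order with trace `n` is `1`. -/
theorem trace_determines_identity [CharZero K] (A : Matrix n n K) (hA : IsOfFinOrder A)
    (htr : A.trace = (Fintype.card n : K)) : A = 1 :=
  eq_one_of_trace' hA.orderOf_pos.ne' (pow_orderOf_eq_one A) htr

end FA.Summary

end
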