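import Fermat.Agent.CMTorsionBound.Main
import Fermat.Agent.ConductorDiscr.AbelianBounds

/-!
# Silverberg's bound for torsion with complex multiplication

Let `E` over a number field `F ⊆ ℚ̄` have multiplication by the maximal order of `K = ℚ(√d)`, of
class number `h`, and let `P` be a point over `F` of exact order `n`.

* `silverberg_totient`: for `d ≠ -1, -3`, `h φ(n) ≤ 2 [F : ℚ]`, and `h φ(n) ≤ [F : ℚ]` when
  `√d ∈ F` (`silverberg_totient_of_sqrt_mem`).
* `silverberg_totient_special`: for `d = -1, -3` with `k = 2, 3`, `φ(n) h ≤ 2 k [F : ℚ]`.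
* `cm_torsion_order_le`: so for every such `d` the order is at most `72 [F : ℚ] ^ 2`.
* `cm_full_level_bound`: if `E [n]` is over `F` then `h #(𝓞/n)ˣ ≤ 2 [F : ℚ]`.

For the orders which are not maximal see `SummaryCMTorsionAllOrders`.
-/

set_option autoImplicit false
set_option linter.style.haveILetI false
set_option linter.unusedSectionVars false

noncomputable section

open WeierstrassCurve NumberField Module FA.CMTorsionBound
open scoped WeierstrassCurve.Affine Classical

namespace FA.Summary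

section CMTorsion

variable {d : ℤ} (hd : Squarefree d) (hd0 : d < 0)
  (F : IntermediateField ℚ (AlgebraicClosure ℚ)) [FiniteDimensional ℚ F]
  (E : WeierstrassCurve F) [E.IsElliptic] (ψ : F →+* ℂ) {L : PeriodPair}
  (h2 : L.g₂ = ψ E.c₄ / 12) (h3 : L.g₃ = ψ E.c₆ / 216)
  (hring : ∀ w : ℂ, (∀ l ∈ L.lattice, w * l ∈ L.lattice) ↔
    ∃ u v : ℤ, w = (u : ℂ) + (v : ℂ) * ((((if d % 4 = 1 then d else 4 * d : ℤ)) : ℂ) +
      Complex.I * (Real.sqrt (-((if d % 4 = 1 then d else 4 * d : ℤ) : ℝ)) : ℂ)) / 2)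
  {s : AlgebraicClosure ℚ} (hs : s ^ 2 = (d : AlgebraicClosure ℚ))
  [NumberField (IntermediateField.adjoin ℚ {s})]
include hd hd0 h2 h3 hring hs

omit hd hd0 h2 h3 hs in
/-- The hypothesis on the multipliers. -/
theorem cm_multiplierRing :
    FA.CMFields.IsMultiplierRing L (FA.FieldClassBound.discK d) := fun w =>
  (hring w).trans (by simp only [FA.CMFields.omega, FA.FieldClassBound.discK, mul_div_assoc])

omit hd hd0 h2 h3 hring in
/-- The compositum with `ℚ(√d)` has at most twice the degree. -/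
theorem cm_finrank_sup_le :
    finrank ℚ (F ⊔ IntermediateField.adjoin ℚ {s} : IntermediateField ℚ (AlgebraicClosure ℚ)) ≤
      2 * finrank ℚ F := by
  refine (IntermediateField.finrank_sup_le _ _).trans ?_
  rw [mul_comm 2]
  refine Nat.mul_le_mul_left _ ?_
  have hint : IsIntegral ℚ s := Algebra.IsIntegral.isIntegral s
  rw [IntermediateField.adjoin.finrank hint]
  refine le_trans (Polynomial.natDegree_le_of_dvd (minpoly.dvd ℚ s
    (p := Polynomial.X ^ 2 - Polynomial.C (d : ℚ)) (by simp [hs]))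
    (Polynomial.monic_X_pow_sub_C _ two_ne_zero).ne_zero) ?_
  rw [Polynomial.natDegree_X_pow_sub_C]

/-- **Silverberg's bound**: `h φ(n) ≤ 2 [F : ℚ]` for a point of exact order `n`, `d ≠ -1, -3`. -/
theorem silverberg_totient (hd1 : d ≠ -1) (hd3 : d ≠ -3) {n : ℕ} (hn : n ≠ 0)
    {P : E.toAffine.Point} (hP : addOrderOf P = n) :
    classNumber (IntermediateField.adjoin ℚ {s}) * n.totient ≤ 2 * finrank ℚ F := by
  have h := totient_mul_classNumber_le (k := 1) (Or.inl ⟨rfl, hd1, hd3⟩) hd hd0 E ψ h2 h3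
    (cm_multiplierRing hring) hs hn hP
  rw [one_mul] at h
  exact h.trans (cm_finrank_sup_le F hs)

/-- **Silverberg's bound over a field containing `√d`**: `h φ(n) ≤ [F : ℚ]`. -/
theorem silverberg_totient_of_sqrt_mem (hd1 : d ≠ -1) (hd3 : d ≠ -3) (hsF : s ∈ F) {n : ℕ}
    (hn : n ≠ 0) {P : E.toAffine.Point} (hP : addOrderOf P = n) :
    classNumber (IntermediateField.adjoin ℚ {s}) * n.totient ≤ finrank ℚ F := by
  have h := totient_mul_classNumber_le (k := 1) (Or.inl ⟨rfl, hd1, hd3⟩) hd hd0 E ψ h2 h3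
    (cm_multiplierRing hring) hs hn hP
  rwa [one_mul, sup_eq_left.mpr (IntermediateField.adjoin_simple_le_iff.mpr hsF)] at h

omit hd hd0 in
/-- **Silverberg's bound for `ℚ(i)` and `ℚ(ζ₃)`**: `h φ(n) ≤ 2 k [F : ℚ]`, `2 k = 4, 6` units. -/
theorem silverberg_totient_special {k : ℕ} (hdk : d = -1 ∧ k = 2 ∨ d = -3 ∧ k = 3) {n : ℕ}
    (hn : n ≠ 0) {P : E.toAffine.Point} (hP : addOrderOf P = n) :
    classNumber (IntermediateField.adjoin ℚ {s}) * n.totient ≤ 2 * k * finrank ℚ F := by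
  have h := totient_mul_classNumber_le (k := k) (Or.inr hdk) (FA.CMWeber.Special.squarefree hdk)
    (FA.CMWeber.Special.neg hdk) E ψ h2 h3 (cm_multiplierRing hring) hs hn hP
  refine h.trans ?_
  rw [mul_comm 2 k, mul_assoc]
  exact Nat.mul_le_mul_left k (cm_finrank_sup_le F hs)

/-- **Full level**: if all points killed by `n` are over `F` then `h #(𝓞/n)ˣ ≤ 2 [F : ℚ]`. -/
theorem cm_full_level_bound (hd1 : d ≠ -1) (hd3 : d ≠ -3) {n : ℕ} (hn : n ≠ 0)
    (hfull : ∀ Q : (E.toAffine⁄(AlgebraicClosure ℚ)).Point, n • Q = 0 →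
      ∃ P : E.toAffine.Point, Affine.Point.map (W' := E.toAffine) (S := F) (F := F)
        (Algebra.ofId F (AlgebraicClosure ℚ)) P = Q) :
    classNumber (IntermediateField.adjoin ℚ {s}) *
        Nat.card (𝓞 (IntermediateField.adjoin ℚ {s}) ⧸
          Ideal.span {(n : 𝓞 (IntermediateField.adjoin ℚ {s}))})ˣ ≤ 2 * finrank ℚ F :=
  (units_mul_classNumber_le hd hd0 hd1 hd3 E ψ h2 h3 (cm_multiplierRing hring) hs hn
    hfull).trans (cm_finrank_sup_le F hs)

end CMTorsion

/-- **A uniform bound**: with multiplication by any maximal order a torsion point over `F` has order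
at most `72 [F : ℚ] ^ 2`. -/
theorem cm_torsion_order_le {d : ℤ} (hd : Squarefree d) (hd0 : d < 0)
    (F : IntermediateField ℚ (AlgebraicClosure ℚ)) [FiniteDimensional ℚ F]
    (E : WeierstrassCurve F) [E.IsElliptic] (ψ : F →+* ℂ) {L : PeriodPair}
    (h2 : L.g₂ = ψ E.c₄ / 12) (h3 : L.g₃ = ψ E.c₆ / 216)
    (hring : ∀ w : ℂ, (∀ l ∈ L.lattice, w * l ∈ L.lattice) ↔
      ∃ u v : ℤ, w = (u : ℂ) + (v : ℂ) * ((((if d % 4 = 1 then d else 4 * d : ℤ)) : ℂ) +
        Complex.I * (Real.sqrt (-((if d % 4 = 1 then d else 4 * d : ℤ) : ℝ)) : ℂ)) / 2)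
    {P : E.toAffine.Point} (hP : IsOfFinAddOrder P) :
    addOrderOf P ≤ 72 * finrank ℚ F ^ 2 := by
  obtain ⟨s, hs⟩ := IsAlgClosed.exists_pow_nat_eq (d : AlgebraicClosure ℚ) two_pos
  haveI : FiniteDimensional ℚ (IntermediateField.adjoin ℚ {s}) :=
    IntermediateField.adjoin.finiteDimensional (Algebra.IsIntegral.isIntegral s)
  haveI : NumberField (IntermediateField.adjoin ℚ {s}) := { }
  set n := addOrderOf P with hn
  have hn0 : n ≠ 0 := hP.addOrderOf_pos.ne'
  have hh : 1 ≤ classNumber (IntermediateField.adjoin ℚ {s}) := Fintype.card_pos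
  have key : classNumber (IntermediateField.adjoin ℚ {s}) * n.totient ≤ 6 * finrank ℚ F := by
    by_cases h1 : d = -1
    · refine (silverberg_totient_special F E ψ h2 h3 hring hs (k := 2) (Or.inl ⟨h1, rfl⟩)
        hn0 rfl).trans (Nat.mul_le_mul_right _ (by norm_num))
    by_cases h3' : d = -3
    · exact (silverberg_totient_special F E ψ h2 h3 hring hs (k := 3) (Or.inr ⟨h3', rfl⟩)
        hn0 rfl)
    · exact (silverberg_totient hd hd0 F E ψ h2 h3 hring hs h1 h3' hn0 rfl).trans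
        (Nat.mul_le_mul_right _ (by norm_num))
  have h6 : n.totient ≤ 6 * finrank ℚ F := le_trans (Nat.le_mul_of_pos_left _ hh) key
  calc n ≤ n.gcd 2 * n.totient ^ 2 := FA.ConductorDiscr.le_gcd_two_mul_totient_sq n
    _ ≤ 2 * (6 * finrank ℚ F) ^ 2 :=
      Nat.mul_le_mul (Nat.le_of_dvd two_pos (Nat.gcd_dvd_right n 2)) (Nat.pow_le_pow_left h6 2)
    _ = _ := by ring

end FA.Summary
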