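import Fermat.Agent.CMTorsionAllOrders.Main
import Fermat.Agent.Root.SummaryCMTorsionBound

/-!
# Torsion of elliptic curves with complex multiplication by any order

Let `E` over a number field `F ⊆ ℚ̄` have a multiplier outside `ℤ` and `P` be a point over `F` of
exact order `n`.

* `cm_multiplierRing_exists`: the multipliers are the order of some discriminant `D < 0`.
* `cm_order_totient_le`: if `D < -4` then `φ(n) ≤ 2 [F : ℚ]`, and `φ(n) ≤ [F : ℚ]` when
  `√D ∈ F` (`cm_order_totient_le_of_sqrt_mem`).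
* `cm_torsion_totient_le_all`, `cm_torsion_order_le_all`: for every such curve `φ(n) ≤ 6 [F : ℚ]`
  and `n ≤ 72 [F : ℚ] ^ 2`, uniformly in the curve and in the order.
* `cm_torsion_orders_finite`: so in each degree finitely many orders of points occur.
* `cm_torsion_order_rational`: over `ℚ` and for `D < -4` the order is `1, 2, 3, 4` or `6`.
-/

set_option autoImplicit false
set_option linter.style.haveILetI false
set_option linter.unusedSectionVars false

noncomputable section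

open WeierstrassCurve NumberField Module FA.CMTorsionAllOrders
open scoped WeierstrassCurve.Affine Classical

namespace FA.Summary

/-- **The multipliers of a lattice with multiplication form an order.** -/
theorem cm_multiplierRing_exists {L : PeriodPair}
    (h : ∃ ω : ℂ, (∀ m : ℤ, ω ≠ m) ∧ ∀ l ∈ L.lattice, ω * l ∈ L.lattice) :
    ∃ D : ℤ, D < 0 ∧ ∀ w : ℂ, (∀ l ∈ L.lattice, w * l ∈ L.lattice) ↔
      ∃ u v : ℤ, w = (u : ℂ) + (v : ℂ) *
        (((D : ℂ) + Complex.I * (Real.sqrt (-(D : ℝ)) : ℂ)) / 2) :=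
  exists_multiplierRing h

section Order

variable (F : IntermediateField ℚ (AlgebraicClosure ℚ)) [FiniteDimensional ℚ F]
  (E : WeierstrassCurve F) [E.IsElliptic] (ψ : F →+* ℂ) {L : PeriodPair}
  (h2 : L.g₂ = ψ E.c₄ / 12) (h3 : L.g₃ = ψ E.c₆ / 216) {D : ℤ} (hD : D < -4)
  (hring : ∀ w : ℂ, (∀ l ∈ L.lattice, w * l ∈ L.lattice) ↔
    ∃ u v : ℤ, w = (u : ℂ) + (v : ℂ) *
      (((D : ℂ) + Complex.I * (Real.sqrt (-(D : ℝ)) : ℂ)) / 2))
  {n : ℕ} (hn : n ≠ 0) {P : E.toAffine.Point} (hP : addOrderOf P = n)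
include h2 h3 hD hring hn hP

/-- **Torsion with multiplication by a non-maximal or maximal order**: `φ(n) ≤ 2 [F : ℚ]`. -/
theorem cm_order_totient_le : n.totient ≤ 2 * finrank ℚ F := by
  obtain ⟨d, f, hd, hd0, -, hDdf⟩ := exists_squarefree_mul_sq (show D < 0 by omega)
  obtain ⟨s, hs⟩ := IsAlgClosed.exists_pow_nat_eq (d : AlgebraicClosure ℚ) two_pos
  haveI : FiniteDimensional ℚ (IntermediateField.adjoin ℚ {s}) :=
    IntermediateField.adjoin.finiteDimensional (Algebra.IsIntegral.isIntegral s)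
  haveI : NumberField (IntermediateField.adjoin ℚ {s}) := { }
  refine (totient_le F E ψ hd hd0 hDdf hD h2 h3 hring hs hn hP).trans
    ((IntermediateField.finrank_sup_le _ _).trans ?_)
  rw [FA.Jugendtraum.finrank_adjoin_sqrt hd0 hs, mul_comm]

/-- **Over a field containing `√D`**: `φ(n) ≤ [F : ℚ]`. -/
theorem cm_order_totient_le_of_sqrt_mem {r : AlgebraicClosure ℚ}
    (hr : r ^ 2 = (D : AlgebraicClosure ℚ)) (hrF : r ∈ F) : n.totient ≤ finrank ℚ F := by
  obtain ⟨d, f, hd, hd0, hf, hDdf⟩ := exists_squarefree_mul_sq (show D < 0 by omega)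
  have hfQ : (f : AlgebraicClosure ℚ) ≠ 0 := Int.cast_ne_zero.mpr hf
  set s : AlgebraicClosure ℚ := r / (f : AlgebraicClosure ℚ) with hs'
  have hs : s ^ 2 = (d : AlgebraicClosure ℚ) := by
    rw [hs', div_pow, div_eq_iff (pow_ne_zero 2 hfQ), hr, hDdf]
    push_cast
    ring
  haveI : FiniteDimensional ℚ (IntermediateField.adjoin ℚ {s}) :=
    IntermediateField.adjoin.finiteDimensional (Algebra.IsIntegral.isIntegral s)
  haveI : NumberField (IntermediateField.adjoin ℚ {s}) := { }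
  have h := totient_le F E ψ hd hd0 hDdf hD h2 h3 hring hs hn hP
  rwa [sup_eq_left.mpr (IntermediateField.adjoin_simple_le_iff.mpr
    (hs' ▸ div_mem hrF (intCast_mem F f)))] at h

end Order

/-- **The totient of the order of a torsion point with complex multiplication**: `φ(n) ≤ 6 [F : ℚ]`
for every order of multipliers. -/
theorem cm_torsion_totient_le_all (F : IntermediateField ℚ (AlgebraicClosure ℚ))
    [FiniteDimensional ℚ F] (E : WeierstrassCurve F) [E.IsElliptic] (ψ : F →+* ℂ) {L : PeriodPair}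
    (h2 : L.g₂ = ψ E.c₄ / 12) (h3 : L.g₃ = ψ E.c₆ / 216)
    (hcm : ∃ ω : ℂ, (∀ m : ℤ, ω ≠ m) ∧ ∀ l ∈ L.lattice, ω * l ∈ L.lattice)
    {n : ℕ} (hn : n ≠ 0) {P : E.toAffine.Point} (hP : addOrderOf P = n) :
    n.totient ≤ 6 * finrank ℚ F := by
  obtain ⟨D, hD0, hring⟩ := exists_multiplierRing hcm
  rcases lt_or_ge D (-4) with hD | hD
  · exact (cm_order_totient_le F E ψ h2 h3 hD hring hn hP).trans
      (Nat.mul_le_mul_right _ (by norm_num))
  -- the discriminant is `-3` or `-4`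
  obtain ⟨θ, t, m, htm, -⟩ := FA.CMTorsionAllOrders.exists_action (Kb := AlgebraicClosure ℚ) E ψ
    (d := D) (f := 1) hD0 (by ring) h2 h3 hring
    (IsAlgClosed.exists_pow_nat_eq (D : AlgebraicClosure ℚ) two_pos).choose_spec one_ne_zero
  have h4 : D % 4 = 0 ∨ D % 4 = 1 := by
    rcases Int.even_or_odd t with ⟨r, hr⟩ | ⟨r, hr⟩
    · left
      rw [← htm, hr, show (r + r) ^ 2 - 4 * m = 4 * (r * r - m) by ring, Int.mul_emod_right]
    · right
      rw [← htm, hr, show (2 * r + 1) ^ 2 - 4 * m = 1 + 4 * (r * r + r - m) by ring,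
        Int.add_mul_emod_self_left]
      norm_num
  obtain ⟨d, k, hdk, hdD⟩ : ∃ (d : ℤ) (k : ℕ), (d = -1 ∧ k = 2 ∨ d = -3 ∧ k = 3) ∧
      (if d % 4 = 1 then d else 4 * d) = D := by
    rcases (show D = -4 ∨ D = -3 by omega) with rfl | rfl
    · exact ⟨-1, 2, Or.inl ⟨rfl, rfl⟩, by norm_num⟩
    · exact ⟨-3, 3, Or.inr ⟨rfl, rfl⟩, by norm_num⟩
  obtain ⟨s, hs⟩ := IsAlgClosed.exists_pow_nat_eq (d : AlgebraicClosure ℚ) two_pos
  haveI : FiniteDimensional ℚ (IntermediateField.adjoin ℚ {s}) :=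
    IntermediateField.adjoin.finiteDimensional (Algebra.IsIntegral.isIntegral s)
  haveI : NumberField (IntermediateField.adjoin ℚ {s}) := { }
  have h := silverberg_totient_special F E ψ h2 h3 (d := d)
    (fun w => by
      refine (hring w).trans ?_
      simp only [FA.CMFields.omega, hdD, mul_div_assoc]) hs hdk hn hP
  have hh : 1 ≤ classNumber (IntermediateField.adjoin ℚ {s}) := Fintype.card_pos
  have hk : 2 * k ≤ 6 := by rcases hdk with ⟨-, rfl⟩ | ⟨-, rfl⟩ <;> norm_num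
  exact (le_trans (Nat.le_mul_of_pos_left _ hh) h).trans (Nat.mul_le_mul_right _ hk)

/-- **The uniform bound**: a torsion point over `F` on any curve with complex multiplication has
order at most `72 [F : ℚ] ^ 2`. -/
theorem cm_torsion_order_le_all (F : IntermediateField ℚ (AlgebraicClosure ℚ))
    [FiniteDimensional ℚ F] (E : WeierstrassCurve F) [E.IsElliptic] (ψ : F →+* ℂ) {L : PeriodPair}
    (h2 : L.g₂ = ψ E.c₄ / 12) (h3 : L.g₃ = ψ E.c₆ / 216)
    (hcm : ∃ ω : ℂ, (∀ m : ℤ, ω ≠ m) ∧ ∀ l ∈ L.lattice, ω * l ∈ L.lattice)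
    {P : E.toAffine.Point} (hP : IsOfFinAddOrder P) :
    addOrderOf P ≤ 72 * finrank ℚ F ^ 2 := by
  have h6 := cm_torsion_totient_le_all F E ψ h2 h3 hcm hP.addOrderOf_pos.ne' rfl
  set n := addOrderOf P
  calc n ≤ n.gcd 2 * n.totient ^ 2 := FA.ConductorDiscr.le_gcd_two_mul_totient_sq n
    _ ≤ 2 * (6 * finrank ℚ F) ^ 2 :=
      Nat.mul_le_mul (Nat.le_of_dvd two_pos (Nat.gcd_dvd_right n 2)) (Nat.pow_le_pow_left h6 2)
    _ = _ := by ring

/-- **In each degree finitely many orders of torsion points occur** with complex multiplication. -/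
theorem cm_torsion_orders_finite (δ : ℕ) :
    {n : ℕ | ∃ (F : IntermediateField ℚ (AlgebraicClosure ℚ)) (_ : FiniteDimensional ℚ F)
      (E : WeierstrassCurve F) (_ : E.IsElliptic) (ψ : F →+* ℂ) (L : PeriodPair)
      (P : E.toAffine.Point), finrank ℚ F ≤ δ ∧ L.g₂ = ψ E.c₄ / 12 ∧ L.g₃ = ψ E.c₆ / 216 ∧
        (∃ ω : ℂ, (∀ m : ℤ, ω ≠ m) ∧ ∀ l ∈ L.lattice, ω * l ∈ L.lattice) ∧
          IsOfFinAddOrder P ∧ addOrderOf P = n}.Finite := by
  refine (Set.finite_Iic (72 * δ ^ 2)).subset ?_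
  rintro n ⟨F, _, E, _, ψ, L, P, hδ, h2, h3, hcm, hP, rfl⟩
  exact (cm_torsion_order_le_all F E ψ h2 h3 hcm hP).trans
    (Nat.mul_le_mul_left _ (Nat.pow_le_pow_left hδ 2))

/-- **Over `ℚ`**, with discriminant below `-4`, the order of a torsion point is `1, 2, 3, 4` or
`6`. -/
theorem cm_torsion_order_rational (F : IntermediateField ℚ (AlgebraicClosure ℚ))
    [FiniteDimensional ℚ F] (hF : finrank ℚ F = 1) (E : WeierstrassCurve F) [E.IsElliptic]
    (ψ : F →+* ℂ) {L : PeriodPair} (h2 : L.g₂ = ψ E.c₄ / 12) (h3 : L.g₃ = ψ E.c₆ / 216) {D : ℤ}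
    (hD : D < -4)
    (hring : ∀ w : ℂ, (∀ l ∈ L.lattice, w * l ∈ L.lattice) ↔
      ∃ u v : ℤ, w = (u : ℂ) + (v : ℂ) *
        (((D : ℂ) + Complex.I * (Real.sqrt (-(D : ℝ)) : ℂ)) / 2))
    {P : E.toAffine.Point} (hP : IsOfFinAddOrder P) :
    addOrderOf P ∈ ({1, 2, 3, 4, 6} : Finset ℕ) := by
  have h := cm_order_totient_le F E ψ h2 h3 hD hring hP.addOrderOf_pos.ne' rfl
  rw [hF] at h
  have h0 := hP.addOrderOf_pos
  set n := addOrderOf P
  have h8 : n ≤ 8 := by
    calc n ≤ n.gcd 2 * n.totient ^ 2 := FA.ConductorDiscr.le_gcd_two_mul_totient_sq n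
      _ ≤ 2 * 2 ^ 2 :=
        Nat.mul_le_mul (Nat.le_of_dvd two_pos (Nat.gcd_dvd_right n 2)) (Nat.pow_le_pow_left h 2)
  have key : ∀ m ∈ Finset.Icc 1 8, Nat.totient m ≤ 2 → m ∈ ({1, 2, 3, 4, 6} : Finset ℕ) := by
    decide
  exact key n (Finset.mem_Icc.mpr ⟨h0, h8⟩) h

end FA.Summary

end
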