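import Fermat.Agent.CMClassFactor.Main
import Fermat.Agent.Root.SummaryCMTorsionAllOrders

/-!
# The class number in the torsion bound, and Parish's theorem

Let `E` over a number field `F ⊆ ℚ̄` have multiplication by the order of discriminant `D < -4`, and
`h` be the number of reduced primitive forms of discriminant `D`.

* `cm_order_classNumber_totient_le`: a point of exact order `n` over `F` gives
  `h φ(n) ≤ 2 [F : ℚ]`, and `h φ(n) ≤ [F : ℚ]` if `√D ∈ F`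
  (`cm_order_classNumber_totient_le_of_sqrt_mem`); so a prime order `p` gives
  `h (p - 1) ≤ 2 [F : ℚ]` (`cm_order_classNumber_prime_le`).
* `cm_homothety_classNumber_index_le`: `h` times the index of the scalars in the image of Galois on
  `E[n]` is at most `2 [F : ℚ]`.
* `parish_torsion`, `parish_homothety`: over `F = ℚ(j)` a torsion point has order `1, 2, 3, 4` or
  `6`, and for all `n` and `c` prime to `n` multiplication by `c²` on `E[n]` comes from Galois.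
-/

set_option autoImplicit false
set_option linter.style.haveILetI false
set_option linter.unusedSectionVars false

noncomputable section

open WeierstrassCurve NumberField Module FA.CMTorsionAllOrders
open FA.CMTorsionBound (upPoint upPoint_injective)
open scoped WeierstrassCurve.Affine Classical

namespace FA.Summary

variable (F : IntermediateField ℚ (AlgebraicClosure ℚ)) [FiniteDimensional ℚ F]
  (E : WeierstrassCurve F) [E.IsElliptic] (ψ : F →+* ℂ) {L : PeriodPair}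
  (h2 : L.g₂ = ψ E.c₄ / 12) (h3 : L.g₃ = ψ E.c₆ / 216) {D : ℤ} (hD : D < -4)
  (hring : ∀ w : ℂ, (∀ l ∈ L.lattice, w * l ∈ L.lattice) ↔
    ∃ u v : ℤ, w = (u : ℂ) + (v : ℂ) *
      (((D : ℂ) + Complex.I * (Real.sqrt (-(D : ℝ)) : ℂ)) / 2))
include h2 h3 hD hring

/-- **The scalars in the image of Galois with the class number**: `h [(ℤ/n)ˣ : U] ≤ 2 [F : ℚ]`. -/
theorem cm_homothety_classNumber_index_le {n : ℕ} (hn : n ≠ 0) :
    ∃ U : Subgroup (ZMod n)ˣ,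
      {t : ℤ × ℤ × ℤ | t.2.1 ^ 2 - 4 * t.1 * t.2.2 = D ∧
        Int.gcd (Int.gcd t.1 t.2.1) t.2.2 = 1 ∧ 0 < t.1 ∧ |t.2.1| ≤ t.1 ∧ t.1 ≤ t.2.2 ∧
        ((|t.2.1| = t.1 ∨ t.1 = t.2.2) → 0 ≤ t.2.1)}.ncard * U.index ≤ 2 * finrank ℚ F ∧
      ∀ c ∈ U, ∃ σ : AlgebraicClosure ℚ ≃ₐ[F] AlgebraicClosure ℚ,
        (∀ r : AlgebraicClosure ℚ, r ^ 2 = (D : AlgebraicClosure ℚ) → σ r = r) ∧
        ∀ z : ℤ, (z : ZMod n) = (c : ZMod n) →
          ∀ Q : (E.toAffine⁄(AlgebraicClosure ℚ)).Point, n • Q = 0 → σ • Q = z • Q := by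
  obtain ⟨d, f, hd, hd0, -, hDdf⟩ := exists_squarefree_mul_sq (show D < 0 by omega)
  obtain ⟨s, hs⟩ := IsAlgClosed.exists_pow_nat_eq (d : AlgebraicClosure ℚ) two_pos
  haveI : FiniteDimensional ℚ (IntermediateField.adjoin ℚ {s}) :=
    IntermediateField.adjoin.finiteDimensional (Algebra.IsIntegral.isIntegral s)
  haveI : NumberField (IntermediateField.adjoin ℚ {s}) := { }
  refine ⟨scalarGroup E s n, (FA.CMClassFactor.classNumber_mul_scalar_index_le F E ψ hd hd0 hDdf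
    hD h2 h3 hring hs hn).trans ((IntermediateField.finrank_sup_le _ _).trans ?_), fun c hc => ?_⟩
  · rw [FA.Jugendtraum.finrank_adjoin_sqrt hd0 hs, mul_comm]
  obtain ⟨σ, hσs, hσ⟩ := hc
  refine ⟨σ, fun r hr => ?_, hσ⟩
  have hrs : r ^ 2 = ((f : AlgebraicClosure ℚ) * s) ^ 2 := by
    rw [hr, hDdf, mul_pow, hs]
    push_cast
    ring
  rcases sq_eq_sq_iff_eq_or_eq_neg.mp hrs with rfl | rfl <;>
    simp [map_mul, map_neg, map_intCast, hσs]

variable {n : ℕ} {P : E.toAffine.Point}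

/-- **The torsion bound with the class number**: `h φ(n) ≤ 2 [F : ℚ]`. -/
theorem cm_order_classNumber_totient_le (hn : n ≠ 0) (hP : addOrderOf P = n) :
    {t : ℤ × ℤ × ℤ | t.2.1 ^ 2 - 4 * t.1 * t.2.2 = D ∧
        Int.gcd (Int.gcd t.1 t.2.1) t.2.2 = 1 ∧ 0 < t.1 ∧ |t.2.1| ≤ t.1 ∧ t.1 ≤ t.2.2 ∧
        ((|t.2.1| = t.1 ∨ t.1 = t.2.2) → 0 ≤ t.2.1)}.ncard * n.totient ≤ 2 * finrank ℚ F := by
  haveI : NeZero n := ⟨hn⟩
  obtain ⟨d, f, hd, hd0, -, hDdf⟩ := exists_squarefree_mul_sq (show D < 0 by omega)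
  obtain ⟨s, hs⟩ := IsAlgClosed.exists_pow_nat_eq (d : AlgebraicClosure ℚ) two_pos
  haveI : FiniteDimensional ℚ (IntermediateField.adjoin ℚ {s}) :=
    IntermediateField.adjoin.finiteDimensional (Algebra.IsIntegral.isIntegral s)
  haveI : NumberField (IntermediateField.adjoin ℚ {s}) := { }
  rw [← ZMod.card_units_eq_totient, ← Nat.card_eq_fintype_card, ← Subgroup.index_bot,
    ← scalarGroup_eq_bot E s hP]
  refine (FA.CMClassFactor.classNumber_mul_scalar_index_le F E ψ hd hd0 hDdf hD h2 h3 hring hs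
    hn).trans ((IntermediateField.finrank_sup_le _ _).trans ?_)
  rw [FA.Jugendtraum.finrank_adjoin_sqrt hd0 hs, mul_comm]

/-- **Over a field containing `√D`**: `h φ(n) ≤ [F : ℚ]`. -/
theorem cm_order_classNumber_totient_le_of_sqrt_mem (hn : n ≠ 0) (hP : addOrderOf P = n)
    {r : AlgebraicClosure ℚ} (hr : r ^ 2 = (D : AlgebraicClosure ℚ)) (hrF : r ∈ F) :
    {t : ℤ × ℤ × ℤ | t.2.1 ^ 2 - 4 * t.1 * t.2.2 = D ∧
        Int.gcd (Int.gcd t.1 t.2.1) t.2.2 = 1 ∧ 0 < t.1 ∧ |t.2.1| ≤ t.1 ∧ t.1 ≤ t.2.2 ∧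
        ((|t.2.1| = t.1 ∨ t.1 = t.2.2) → 0 ≤ t.2.1)}.ncard * n.totient ≤ finrank ℚ F := by
  haveI : NeZero n := ⟨hn⟩
  obtain ⟨d, f, hd, hd0, hf, hDdf⟩ := exists_squarefree_mul_sq (show D < 0 by omega)
  have hfQ : (f : AlgebraicClosure ℚ) ≠ 0 := Int.cast_ne_zero.mpr hf
  set s : AlgebraicClosure ℚ := r / (f : AlgebraicClosure ℚ) with hs'
  have hs : s ^ 2 = (d : AlgebraicClosure ℚ) := by
    rw [hs', div_pow, div_eq_iff (pow_ne_zero 2 hfQ), hr, hDdf]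
    push_cast
    ring
  haveI : FiniteDimensional ℚ (IntermediateField.adjoin ℚ {s}) :=
    IntermediateField.adjoin.finiteDimensional (Algebra.IsIntegral.isIntegral s)
  haveI : NumberField (IntermediateField.adjoin ℚ {s}) := { }
  rw [← ZMod.card_units_eq_totient, ← Nat.card_eq_fintype_card, ← Subgroup.index_bot,
    ← scalarGroup_eq_bot E s hP]
  have h := FA.CMClassFactor.classNumber_mul_scalar_index_le F E ψ hd hd0 hDdf hD h2 h3 hring hs hn
  rwa [sup_eq_left.mpr (IntermediateField.adjoin_simple_le_iff.mpr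
    (hs' ▸ div_mem hrF (intCast_mem F f)))] at h

/-- **A point of prime order**: `h (p - 1) ≤ 2 [F : ℚ]`. -/
theorem cm_order_classNumber_prime_le {p : ℕ} (hp : p.Prime) {Q : E.toAffine.Point}
    (hQ : addOrderOf Q = p) :
    {t : ℤ × ℤ × ℤ | t.2.1 ^ 2 - 4 * t.1 * t.2.2 = D ∧
        Int.gcd (Int.gcd t.1 t.2.1) t.2.2 = 1 ∧ 0 < t.1 ∧ |t.2.1| ≤ t.1 ∧ t.1 ≤ t.2.2 ∧
        ((|t.2.1| = t.1 ∨ t.1 = t.2.2) → 0 ≤ t.2.1)}.ncard * (p - 1) ≤ 2 * finrank ℚ F := by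
  rw [← Nat.totient_prime hp]
  exact cm_order_classNumber_totient_le F E ψ h2 h3 hD hring hp.ne_zero hQ

/-- **Parish's theorem**: over `ℚ(j)` torsion points have order `1, 2, 3, 4` or `6`. -/
theorem parish_torsion
    (hF : F = IntermediateField.adjoin ℚ {(E.j : AlgebraicClosure ℚ)}) {Q : E.toAffine.Point}
    (hQ : IsOfFinAddOrder Q) : addOrderOf Q ∈ ({1, 2, 3, 4, 6} : Finset ℕ) := by
  have h := cm_order_classNumber_totient_le F E ψ h2 h3 hD hring hQ.addOrderOf_pos.ne' rfl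
  have hdeg := (FA.CMRayClass.exists_curve_adjoin_j E ψ (show D < 0 by omega) h2 h3 hring).1
  rw [← hF] at hdeg
  rw [show {t : ℤ × ℤ × ℤ | t.2.1 ^ 2 - 4 * t.1 * t.2.2 = D ∧
        Int.gcd (Int.gcd t.1 t.2.1) t.2.2 = 1 ∧ 0 < t.1 ∧ |t.2.1| ≤ t.1 ∧ t.1 ≤ t.2.2 ∧
        ((|t.2.1| = t.1 ∨ t.1 = t.2.2) → 0 ≤ t.2.1)}.ncard = finrank ℚ F from hdeg.symm] at h
  have hpos : 0 < finrank ℚ F := Module.finrank_pos
  have h0 := hQ.addOrderOf_pos
  set n := addOrderOf Q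
  have h2' : n.totient ≤ 2 := by nlinarith
  have h8 : n ≤ 8 := by
    calc n ≤ n.gcd 2 * n.totient ^ 2 := FA.ConductorDiscr.le_gcd_two_mul_totient_sq n
      _ ≤ 2 * 2 ^ 2 :=
        Nat.mul_le_mul (Nat.le_of_dvd two_pos (Nat.gcd_dvd_right n 2)) (Nat.pow_le_pow_left h2' 2)
  have key : ∀ m ∈ Finset.Icc 1 8, Nat.totient m ≤ 2 → m ∈ ({1, 2, 3, 4, 6} : Finset ℕ) := by
    decide
  exact key n (Finset.mem_Icc.mpr ⟨h0, h8⟩) h2'

/-- **Over `ℚ(j)` every square is a homothety**: multiplication by `c²` comes from Galois. -/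
theorem parish_homothety
    (hF : F = IntermediateField.adjoin ℚ {(E.j : AlgebraicClosure ℚ)}) {m : ℕ} (hm : m ≠ 0) {c : ℤ}
    (hc : IsCoprime c (m : ℤ)) :
    ∃ σ : AlgebraicClosure ℚ ≃ₐ[F] AlgebraicClosure ℚ,
      ∀ Q : (E.toAffine⁄(AlgebraicClosure ℚ)).Point, m • Q = 0 → σ • Q = (c ^ 2) • Q := by
  haveI : NeZero m := ⟨hm⟩
  obtain ⟨U, hU, hsc⟩ := cm_homothety_classNumber_index_le F E ψ h2 h3 hD hring hm
  have hdeg := (FA.CMRayClass.exists_curve_adjoin_j E ψ (show D < 0 by omega) h2 h3 hring).1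
  rw [← hF] at hdeg
  rw [show {t : ℤ × ℤ × ℤ | t.2.1 ^ 2 - 4 * t.1 * t.2.2 = D ∧
        Int.gcd (Int.gcd t.1 t.2.1) t.2.2 = 1 ∧ 0 < t.1 ∧ |t.2.1| ≤ t.1 ∧ t.1 ≤ t.2.2 ∧
        ((|t.2.1| = t.1 ∨ t.1 = t.2.2) → 0 ≤ t.2.1)}.ncard = finrank ℚ F from hdeg.symm] at hU
  have hpos : 0 < finrank ℚ F := Module.finrank_pos
  have hi : 0 < U.index := Nat.pos_of_ne_zero Subgroup.index_ne_zero_of_finite
  have h2' : U.index ≤ 2 := by nlinarith
  obtain ⟨k, hk⟩ : U.index ∣ 2 := by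
    rcases (show U.index = 1 ∨ U.index = 2 by omega) with h | h <;> rw [h]
    exact one_dvd 2
  set u : (ZMod m)ˣ := ZMod.unitOfIsCoprime c hc with hu
  have hmem : u ^ 2 ∈ U := by
    rw [hk, pow_mul]
    exact pow_mem (Subgroup.pow_index_mem U u) k
  obtain ⟨σ, -, hσ⟩ := hsc _ hmem
  exact ⟨σ, hσ _ (by rw [Units.val_pow_eq_pow_val, hu, ZMod.coe_unitOfIsCoprime]; push_cast; rfl)⟩

end FA.Summary

end
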