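import Fermat.Agent.Supersingular.QuadraticField

/-!
# Deuring: supersingular curves are defined over `𝔽_(q²)`

In characteristic `q ≥ 5` a curve over an algebraically closed field without a point of order `q` has
`j ^ q² = j` and a model with coefficients fixed by `x ↦ x ^ q²`; multiplication by `q` is
`x ↦ (x ^ q² - s) / C` on abscissae.
-/

set_option autoImplicit false
set_option linter.style.haveILetI false

noncomputable section

open WeierstrassCurve
open scoped Classical

namespace FA.Summary

variable (k : Type*) [Field k] (q : ℕ) [hq : Fact q.Prime] [CharP k q] [IsAlgClosed k]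

/-- **Deuring: supersingular invariants lie in `𝔽_(q²)`.** -/
theorem supersingular_j_pow_sq (h5 : 5 ≤ q) {j : k}
    (h : ∃ (W : WeierstrassCurve k) (_ : W.IsElliptic),
      W.j = j ∧ ∀ P : W.toAffine.Point, q • P = 0 → P = 0) : j ^ q ^ 2 = j := by
  obtain ⟨W, _, rfl, hss⟩ := h
  exact FA.SupersingularField.j_pow_sq h5 hss

/-- **A supersingular curve has a model over `𝔽_(q²)`.** -/
theorem supersingular_model (h5 : 5 ≤ q) (W : WeierstrassCurve k) [W.IsElliptic]
    (hss : ∀ P : W.toAffine.Point, q • P = 0 → P = 0) :
    ∃ C : VariableChange k, (C • W).map (iterateFrobenius k q 2) = C • W :=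
  FA.SupersingularField.exists_model h5 hss

/-- **Multiplication by `q` on a supersingular curve is purely inseparable.** -/
theorem supersingular_nsmul_xc (h5 : 5 ≤ q) (W : WeierstrassCurve k) [W.IsElliptic]
    (hss : ∀ P : W.toAffine.Point, q • P = 0 → P = 0) :
    ∃ C s : k, C ≠ 0 ∧ ∀ P : W.toAffine.Point, P ≠ 0 →
      FA.EC.xc (q • P) = (FA.EC.xc P ^ q ^ 2 - s) / C :=
  FA.SupersingularField.exists_xc_nsmul h5 hss

end FA.Summary

end
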