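import Fermat.Agent.Supersingular.CMReduction
import Fermat.Agent.Root.SummaryClassPolynomial
import Fermat.Agent.Root.SummarySupersingularField
import Fermat.Agent.Root.SummarySupersingularCount
import Fermat.Agent.Root.SummarySupersingularPrimeField
import Fermat.Agent.Root.LFunctionForm

/-!
# Deuring: class polynomials modulo non-split primes

For a discriminant `D < 0` and a prime `p ≥ 5` at which `D` is no square in `ℚ_p` (inert or
ramified in `ℚ(√D)`), every root of the class polynomial modulo `p` is a supersingular invariant.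
So it lies in `𝔽_(p²)`, there are at most as many distinct ones as supersingular invariants, and a
curve over `ℚ` with good reduction at such a `p` dividing the numerator of `H_D (j)` has `a_p = 0`:
the key lemma of Elkies' theorem on supersingular primes.
-/

set_option autoImplicit false
set_option linter.style.haveILetI false

noncomputable section

open WeierstrassCurve UpperHalfPlane Polynomial
open ModularForm EisensteinSeries
open scoped Classical

namespace FA.Summary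

variable {p : ℕ} [hp : Fact p.Prime]

local notation "Fbar" => AlgebraicClosure (ZMod p)

/-- **Deuring: singular moduli reduce to supersingular invariants at non-split primes.** -/
theorem singularModulus_supersingular (h5 : 5 ≤ p) {D : ℤ} (hns : ¬ IsSquare (D : ℚ_[p]))
    {H : ℤ[X]} (hH : H.Monic)
    (hroots : ∀ z : ℂ, aeval z H = 0 → ∃ (a b c : ℤ) (τ : ℍ), 0 < a ∧
      b ^ 2 - 4 * a * c = D ∧ Int.gcd (Int.gcd a b) c = 1 ∧
      (a : ℂ) * (τ : ℂ) ^ 2 + b * (τ : ℂ) + c = 0 ∧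
      E₄ τ ^ 3 / ModularForm.discriminant τ = z)
    (W : WeierstrassCurve Fbar) [W.IsElliptic] (hr : (H.map (Int.castRingHom Fbar)).IsRoot W.j) :
    (∀ P : W.toAffine.Point, p • P = 0 → P = 0) ∧ W.j ^ p ^ 2 = W.j := by
  have h : ∀ P : W.toAffine.Point, p • P = 0 → P = 0 :=
    FA.CMReduction.no_pTorsion h5 hns hH hroots W hr
  haveI : CharP Fbar p :=
    charP_of_injective_algebraMap (algebraMap (ZMod p) Fbar).injective p
  exact ⟨h, supersingular_j_pow_sq Fbar p h5 ⟨W, inferInstance, rfl, h⟩⟩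

/-- **The class polynomial modulo a non-split prime has few distinct roots.** -/
theorem classPolynomial_roots_card_le (h5 : 5 ≤ p) {D : ℤ} (hns : ¬ IsSquare (D : ℚ_[p]))
    {H : ℤ[X]} (hH : H.Monic)
    (hroots : ∀ z : ℂ, aeval z H = 0 → ∃ (a b c : ℤ) (τ : ℍ), 0 < a ∧
      b ^ 2 - 4 * a * c = D ∧ Int.gcd (Int.gcd a b) c = 1 ∧
      (a : ℂ) * (τ : ℂ) ^ 2 + b * (τ : ℂ) + c = 0 ∧
      E₄ τ ^ 3 / ModularForm.discriminant τ = z) :
    (H.map (Int.castRingHom Fbar)).roots.toFinset.card ≤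
      p / 12 + (if p % 3 = 2 then 1 else 0) + (if p % 4 = 3 then 1 else 0) := by
  haveI : CharP Fbar p :=
    charP_of_injective_algebraMap (algebraMap (ZMod p) Fbar).injective p
  have hc := supersingular_invariants_card Fbar p h5
  have hfin := Set.finite_of_ncard_ne_zero (s := {j : Fbar | ∃ (W : WeierstrassCurve Fbar)
      (_ : W.IsElliptic), W.j = j ∧ ∀ P : W.toAffine.Point, p • P = 0 → P = 0}) (by
    have h3 : p % 3 ≠ 0 := fun e => by
      have := (Nat.prime_dvd_prime_iff_eq Nat.prime_three hp.out).1 (Nat.dvd_of_mod_eq_zero e)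
      omega
    have h2 : p % 2 ≠ 0 := fun e => by
      have := (Nat.prime_dvd_prime_iff_eq Nat.prime_two hp.out).1 (Nat.dvd_of_mod_eq_zero e)
      omega
    rw [hc]; split_ifs <;> omega)
  rw [← hc, ← Set.ncard_coe_finset]
  refine Set.ncard_le_ncard (fun r hr => ?_) hfin
  rw [Finset.mem_coe, Multiset.mem_toFinset, mem_roots'] at hr
  exact ⟨ofJ r, inferInstance, ofJ_j r, (singularModulus_supersingular h5 hns hH hroots (ofJ r)
    (by rw [ofJ_j]; exact hr.2)).1⟩

/-- Every discriminant has such a polynomial, with the singular moduli of discriminant `D` as roots,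
irreducible of degree `h (D)`. -/
theorem exists_classPolynomial_supersingular (h5 : 5 ≤ p) {D : ℤ} (hD : D < 0)
    (hne : ∃ a b c : ℤ, 0 < a ∧ b ^ 2 - 4 * a * c = D ∧ Int.gcd (Int.gcd a b) c = 1)
    (hns : ¬ IsSquare (D : ℚ_[p])) :
    ∃ H : ℤ[X], H.Monic ∧ Irreducible (H.map (Int.castRingHom ℚ)) ∧
      H.natDegree = {t : ℤ × ℤ × ℤ | t.2.1 ^ 2 - 4 * t.1 * t.2.2 = D ∧
        Int.gcd (Int.gcd t.1 t.2.1) t.2.2 = 1 ∧ 0 < t.1 ∧ |t.2.1| ≤ t.1 ∧ t.1 ≤ t.2.2 ∧
        ((|t.2.1| = t.1 ∨ t.1 = t.2.2) → 0 ≤ t.2.1)}.ncard ∧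
      (∀ z : ℂ, aeval z H = 0 ↔ ∃ (a b c : ℤ) (τ : ℍ), 0 < a ∧
        b ^ 2 - 4 * a * c = D ∧ Int.gcd (Int.gcd a b) c = 1 ∧
        (a : ℂ) * (τ : ℂ) ^ 2 + b * (τ : ℂ) + c = 0 ∧
        E₄ τ ^ 3 / ModularForm.discriminant τ = z) ∧
      ∀ r ∈ (H.map (Int.castRingHom Fbar)).roots, ∀ (W : WeierstrassCurve Fbar) [W.IsElliptic],
        W.j = r → ∀ P : W.toAffine.Point, p • P = 0 → P = 0 := by
  obtain ⟨H, hH, hirr, hdeg, hroots⟩ := classPolynomial hD hne
  refine ⟨H, hH, hirr, hdeg, hroots, fun r hr W _ hj => (singularModulus_supersingular h5 hns hH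
    (fun z hz => (hroots z).1 hz) W ?_).1⟩
  rw [hj]
  exact (mem_roots'.1 hr).2

/-- The invariant of the reduction at a good prime dividing the numerator of `H (j)` is a root of
`H` modulo it. -/
theorem isRoot_reduction_of_dvd_num {H : ℤ[X]} (E : WeierstrassCurve ℚ) [E.IsElliptic]
    (W : WeierstrassCurve ℤ) (hW : W.IsIntegralModelOf E) (hgood : ¬ (p : ℤ) ∣ W.Δ)
    [(W.map (Int.castRingHom (ZMod p))).IsElliptic] (hdvd : (p : ℤ) ∣ (aeval E.j H).num) :
    (H.map (Int.castRingHom Fbar)).IsRoot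
      ((W.map (Int.castRingHom (ZMod p))).map (algebraMap (ZMod p) Fbar)).j := by
  set Wp : WeierstrassCurve ℤ_[p] := W.map (Int.castRingHom ℤ_[p]) with hWp
  haveI : Wp.IsElliptic := ⟨by
    rw [hWp, WeierstrassCurve.map_Δ, eq_intCast, PadicInt.isUnit_iff]
    exact (PadicInt.norm_le_one _).eq_or_lt.resolve_right
      fun h => hgood ((PadicInt.norm_int_lt_one_iff_dvd _).1 h)⟩
  rw [WeierstrassCurve.map_j, show Int.castRingHom Fbar =
    (algebraMap (ZMod p) Fbar).comp (Int.castRingHom (ZMod p)) from RingHom.ext_int _ _,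
    ← Polynomial.map_map]
  refine Polynomial.IsRoot.map ?_
  have hj : (Wp.j : ℚ_[p]) = (E.j : ℚ_[p]) := by
    obtain ⟨C, hC⟩ := hW
    have e1 : (C • E).map (Rat.castHom ℚ_[p]) = Wp.map PadicInt.Coe.ringHom := by
      rw [hC, hWp, WeierstrassCurve.map_map, WeierstrassCurve.map_map]
      exact congrArg _ (RingHom.ext_int _ _)
    calc (Wp.j : ℚ_[p]) = (Wp.map PadicInt.Coe.ringHom).j :=
          (WeierstrassCurve.map_j Wp PadicInt.Coe.ringHom).symm
      _ = ((C • E).map (Rat.castHom ℚ_[p])).j := by congr 1; exact e1.symm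
      _ = (E.j : ℚ_[p]) := by rw [WeierstrassCurve.map_j, WeierstrassCurve.variableChange_j]; rfl
  have hnorm : ‖(aeval Wp.j H : ℤ_[p])‖ < 1 := by
    have e : ((aeval Wp.j H : ℤ_[p]) : ℚ_[p]) = ((aeval E.j H : ℚ) : ℚ_[p]) := by
      rw [← PadicInt.Coe.ringHom_apply, aeval_def, hom_eval₂, ← Rat.coe_castHom, aeval_def,
        hom_eval₂, PadicInt.Coe.ringHom_apply, Rat.coe_castHom, hj,
        RingHom.ext_int (PadicInt.Coe.ringHom.comp (algebraMap ℤ ℤ_[p]))
          ((Rat.castHom ℚ_[p]).comp (algebraMap ℤ ℚ))]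
    rw [PadicInt.norm_def, e]
    set q := aeval E.j H
    have hden : ¬ p ∣ q.den := fun h => hp.out.ne_one (Nat.dvd_one.1
      (q.reduced ▸ Nat.dvd_gcd (Int.natCast_dvd.1 hdvd) h))
    rw [Rat.cast_def, norm_div,
      show ‖(q.den : ℚ_[p])‖ = 1 from Padic.norm_natCast_eq_one_iff.2
        ((Nat.Prime.coprime_iff_not_dvd hp.out).2 hden), div_one]
    exact Padic.norm_intCast_lt_one_iff.2 hdvd
  have hz : PadicInt.toZMod (aeval Wp.j H) = 0 := by
    rw [← RingHom.mem_ker, PadicInt.ker_toZMod, PadicInt.maximalIdeal_eq_span_p,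
      ← PadicInt.norm_lt_one_iff_dvd _ |>.trans Ideal.mem_span_singleton.symm]
    exact hnorm
  rw [aeval_def, hom_eval₂, ← WeierstrassCurve.map_j,
    RingHom.ext_int (PadicInt.toZMod.comp (algebraMap ℤ ℤ_[p])) (Int.castRingHom (ZMod p))] at hz
  rw [IsRoot.def, eval_map, ← hz]
  congr 1
  simp only [hWp, WeierstrassCurve.map_map]
  congr 1
  exact congrArg _ (RingHom.ext_int _ _)

/-- **Elkies' key lemma**: a good prime, non-split for `D`, dividing the numerator of `H_D (j)` is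
supersingular. -/
theorem supersingular_of_dvd_classPolynomial (h5 : 5 ≤ p) {D : ℤ}
    (hns : ¬ IsSquare (D : ℚ_[p])) {H : ℤ[X]} (hH : H.Monic)
    (hroots : ∀ z : ℂ, aeval z H = 0 → ∃ (a b c : ℤ) (τ : ℍ), 0 < a ∧
      b ^ 2 - 4 * a * c = D ∧ Int.gcd (Int.gcd a b) c = 1 ∧
      (a : ℂ) * (τ : ℂ) ^ 2 + b * (τ : ℂ) + c = 0 ∧
      E₄ τ ^ 3 / ModularForm.discriminant τ = z)
    (E : WeierstrassCurve ℚ) [E.IsElliptic] (W : WeierstrassCurve ℤ) (hW : W.IsIntegralModelOf E)
    (hgood : ¬ (p : ℤ) ∣ W.Δ) (hdvd : (p : ℤ) ∣ (aeval E.j H).num) :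
    E.LFunction p = 0 := by
  rw [FA.Root.LFunction_apply_prime E W hW hp.out hgood]
  haveI : (W.map (Int.castRingHom (ZMod p))).IsElliptic := ⟨by
    rw [WeierstrassCurve.map_Δ, eq_intCast, isUnit_iff_ne_zero, Ne,
      ZMod.intCast_zmod_eq_zero_iff_dvd]
    exact hgood⟩
  show (W.map (Int.castRingHom (ZMod p))).traceOfFrobenius = 0
  rw [trace_eq_zero_iff_supersingular_j h5]
  refine ⟨(W.map (Int.castRingHom (ZMod p))).map (algebraMap (ZMod p) Fbar), inferInstance,
    WeierstrassCurve.map_j _ _, (singularModulus_supersingular h5 hns hH hroots _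
      (isRoot_reduction_of_dvd_num E W hW hgood hdvd)).1⟩

end FA.Summary

end
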