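import Fermat.Agent.Supersingular.CMOrdinary
import Fermat.Agent.Root.SummaryCMReduction

/-!
# Deuring's dichotomy for singular moduli

For a discriminant `D` and a prime `p ≥ 5` the reductions modulo `p` of the singular moduli of
discriminant `D` are all supersingular if `D` is no square in `ℚ_p` (`p` inert or ramified in
`ℚ(√D)`) and all ordinary if it is one (`p` split). So at a good prime dividing the numerator of
`H_D (j)` one has `a_p = 0` exactly in the first case.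
-/

set_option autoImplicit false
set_option linter.style.haveILetI false

noncomputable section

open WeierstrassCurve UpperHalfPlane Polynomial
open ModularForm EisensteinSeries
open scoped Classical

namespace FA.Summary

variable {p : ℕ} [hp : Fact p.Prime]

local notation "Fbar" => AlgebraicClosure (ZMod p)

/-- **Deuring: singular moduli reduce to ordinary invariants at split primes.** -/
theorem singularModulus_ordinary (h5 : 5 ≤ p) {D : ℤ} (hs : IsSquare (D : ℚ_[p]))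
    {H : ℤ[X]} (hH : H.Monic)
    (hroots : ∀ z : ℂ, aeval z H = 0 → ∃ (a b c : ℤ) (τ : ℍ), 0 < a ∧
      b ^ 2 - 4 * a * c = D ∧ Int.gcd (Int.gcd a b) c = 1 ∧
      (a : ℂ) * (τ : ℂ) ^ 2 + b * (τ : ℂ) + c = 0 ∧
      E₄ τ ^ 3 / ModularForm.discriminant τ = z)
    (W : WeierstrassCurve Fbar) [W.IsElliptic] (hr : (H.map (Int.castRingHom Fbar)).IsRoot W.j) :
    ∃ P : W.toAffine.Point, P ≠ 0 ∧ p • P = 0 :=
  FA.CMReduction.exists_pTorsion h5 hs hH hroots W hr

/-- **Deuring's dichotomy**: a singular modulus of discriminant `D` is supersingular modulo `p ≥ 5`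
exactly when `D` is no square in `ℚ_p`. -/
theorem singularModulus_supersingular_iff (h5 : 5 ≤ p) {D : ℤ} {H : ℤ[X]} (hH : H.Monic)
    (hroots : ∀ z : ℂ, aeval z H = 0 → ∃ (a b c : ℤ) (τ : ℍ), 0 < a ∧
      b ^ 2 - 4 * a * c = D ∧ Int.gcd (Int.gcd a b) c = 1 ∧
      (a : ℂ) * (τ : ℂ) ^ 2 + b * (τ : ℂ) + c = 0 ∧
      E₄ τ ^ 3 / ModularForm.discriminant τ = z)
    (W : WeierstrassCurve Fbar) [W.IsElliptic] (hr : (H.map (Int.castRingHom Fbar)).IsRoot W.j) :
    (∀ P : W.toAffine.Point, p • P = 0 → P = 0) ↔ ¬ IsSquare (D : ℚ_[p]) := by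
  refine ⟨fun h hs => ?_, fun hns => (singularModulus_supersingular h5 hns hH hroots W hr).1⟩
  obtain ⟨P, hP0, hP⟩ := singularModulus_ordinary h5 hs hH hroots W hr
  exact hP0 (h P hP)

/-- Every discriminant has such a polynomial, with the singular moduli of discriminant `D` as roots,
irreducible of degree `h (D)`. -/
theorem exists_classPolynomial_dichotomy (h5 : 5 ≤ p) {D : ℤ} (hD : D < 0)
    (hne : ∃ a b c : ℤ, 0 < a ∧ b ^ 2 - 4 * a * c = D ∧ Int.gcd (Int.gcd a b) c = 1) :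
    ∃ H : ℤ[X], H.Monic ∧ Irreducible (H.map (Int.castRingHom ℚ)) ∧
      H.natDegree = {t : ℤ × ℤ × ℤ | t.2.1 ^ 2 - 4 * t.1 * t.2.2 = D ∧
        Int.gcd (Int.gcd t.1 t.2.1) t.2.2 = 1 ∧ 0 < t.1 ∧ |t.2.1| ≤ t.1 ∧ t.1 ≤ t.2.2 ∧
        ((|t.2.1| = t.1 ∨ t.1 = t.2.2) → 0 ≤ t.2.1)}.ncard ∧
      (∀ z : ℂ, aeval z H = 0 ↔ ∃ (a b c : ℤ) (τ : ℍ), 0 < a ∧
        b ^ 2 - 4 * a * c = D ∧ Int.gcd (Int.gcd a b) c = 1 ∧
        (a : ℂ) * (τ : ℂ) ^ 2 + b * (τ : ℂ) + c = 0 ∧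
        E₄ τ ^ 3 / ModularForm.discriminant τ = z) ∧
      ∀ r ∈ (H.map (Int.castRingHom Fbar)).roots, ∀ (W : WeierstrassCurve Fbar) [W.IsElliptic],
        W.j = r → ((∀ P : W.toAffine.Point, p • P = 0 → P = 0) ↔ ¬ IsSquare (D : ℚ_[p])) := by
  obtain ⟨H, hH, hirr, hdeg, hroots⟩ := classPolynomial hD hne
  refine ⟨H, hH, hirr, hdeg, hroots, fun r hr W _ hj =>
    singularModulus_supersingular_iff h5 hH (fun z hz => (hroots z).1 hz) W ?_⟩
  rw [hj]
  exact (mem_roots'.1 hr).2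

/-- **Deuring's criterion through the class polynomial**: at a good prime `p ≥ 5` dividing the
numerator of `H_D (j)`, `a_p = 0` exactly when `D` is no square in `ℚ_p`. -/
theorem trace_eq_zero_iff_of_dvd_classPolynomial (h5 : 5 ≤ p) {D : ℤ} {H : ℤ[X]} (hH : H.Monic)
    (hroots : ∀ z : ℂ, aeval z H = 0 → ∃ (a b c : ℤ) (τ : ℍ), 0 < a ∧
      b ^ 2 - 4 * a * c = D ∧ Int.gcd (Int.gcd a b) c = 1 ∧
      (a : ℂ) * (τ : ℂ) ^ 2 + b * (τ : ℂ) + c = 0 ∧
      E₄ τ ^ 3 / ModularForm.discriminant τ = z)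
    (E : WeierstrassCurve ℚ) [E.IsElliptic] (W : WeierstrassCurve ℤ) (hW : W.IsIntegralModelOf E)
    (hgood : ¬ (p : ℤ) ∣ W.Δ) (hdvd : (p : ℤ) ∣ (aeval E.j H).num) :
    E.LFunction p = 0 ↔ ¬ IsSquare (D : ℚ_[p]) := by
  refine ⟨fun h0 hs => ?_, fun hns =>
    supersingular_of_dvd_classPolynomial h5 hns hH hroots E W hW hgood hdvd⟩
  rw [FA.Root.LFunction_apply_prime E W hW hp.out hgood] at h0
  haveI : (W.map (Int.castRingHom (ZMod p))).IsElliptic := ⟨by
    rw [WeierstrassCurve.map_Δ, eq_intCast, isUnit_iff_ne_zero, Ne,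
      ZMod.intCast_zmod_eq_zero_iff_dvd]
    exact hgood⟩
  have h0' : (W.map (Int.castRingHom (ZMod p))).traceOfFrobenius = 0 := h0
  rw [trace_eq_zero_iff_supersingular_j h5] at h0'
  obtain ⟨W', _, hj', hss'⟩ := h0'
  obtain ⟨P, hP0, hP⟩ := singularModulus_ordinary h5 hs hH hroots W' (by
    rw [hj', ← WeierstrassCurve.map_j]
    exact isRoot_reduction_of_dvd_num E W hW hgood hdvd)
  exact hP0 (hss' P hP)

end FA.Summary

end
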