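import Fermat.Agent.CMDivisibility.Main
import Fermat.Agent.CMDivisibility.Arith
import Fermat.Agent.Root.SummaryCMClassFactor

/-!
# Divisibility in the torsion bound, and Aoki's theorem on odd degrees

Let `E` over a number field `F ⊆ ℚ̄` have multiplication by the order of discriminant `D < -4`, and
`h` be the number of reduced primitive forms of discriminant `D`.

* `cm_order_totient_dvd`: a point of exact order `n ≥ 3` over `F` gives `h φ(n) ∣ 2 [F : ℚ]`, and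
  `h φ(n) ∣ [F : ℚ]` if `√D ∈ F` (`cm_order_totient_dvd_of_sqrt_mem`).
* `cm_homothety_sign_index_dvd`: `h` times the index of the units that are scalars in the image of
  Galois on `E[n]` up to sign divides `[F : ℚ]`.
* `aoki_odd_degree`: if `[F : ℚ]` is odd then `h` is odd and every torsion point over `F` has
  order `1, 2, 4`, `p ^ k` or `2 p ^ k` with `p ≡ 3 (mod 4)`.
* `parish_prime_degree`: if `[F : ℚ] = l ≥ 5` is prime the orders are `1, 2, 3, 4, 6`, or `p, 2 p`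
  with `p = 2 l + 1` prime and then `h = 1`.
-/

set_option autoImplicit false
set_option linter.style.haveILetI false
set_option linter.unusedSectionVars false

noncomputable section

open WeierstrassCurve NumberField Module FA.CMTorsionAllOrders FA.CMDivisibility
open FA.CMRayClass (pmOne)
open scoped WeierstrassCurve.Affine Classical

namespace FA.Summary

variable (F : IntermediateField ℚ (AlgebraicClosure ℚ)) [FiniteDimensional ℚ F]
  (E : WeierstrassCurve F) [E.IsElliptic] (ψ : F →+* ℂ) {L : PeriodPair}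
  (h2 : L.g₂ = ψ E.c₄ / 12) (h3 : L.g₃ = ψ E.c₆ / 216) {D : ℤ} (hD : D < -4)
  (hring : ∀ w : ℂ, (∀ l ∈ L.lattice, w * l ∈ L.lattice) ↔
    ∃ u v : ℤ, w = (u : ℂ) + (v : ℂ) *
      (((D : ℂ) + Complex.I * (Real.sqrt (-(D : ℝ)) : ℂ)) / 2))
include h2 h3 hD hring

/-- **The index of the scalars up to sign, with the class number, divides the degree.** -/
theorem cm_homothety_sign_index_dvd {n : ℕ} (hn : n ≠ 0) :
    ∃ V : Subgroup (ZMod n)ˣ,
      {t : ℤ × ℤ × ℤ | t.2.1 ^ 2 - 4 * t.1 * t.2.2 = D ∧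
        Int.gcd (Int.gcd t.1 t.2.1) t.2.2 = 1 ∧ 0 < t.1 ∧ |t.2.1| ≤ t.1 ∧ t.1 ≤ t.2.2 ∧
        ((|t.2.1| = t.1 ∨ t.1 = t.2.2) → 0 ≤ t.2.1)}.ncard * V.index ∣ finrank ℚ F ∧
      ∀ c ∈ V, ∃ (σ : AlgebraicClosure ℚ ≃ₐ[F] AlgebraicClosure ℚ) (ε : ℤ),
        (ε = 1 ∨ ε = -1) ∧
        (∀ r : AlgebraicClosure ℚ, r ^ 2 = (D : AlgebraicClosure ℚ) → σ r = r) ∧
        ∀ z : ℤ, (z : ZMod n) = (c : ZMod n) →
          ∀ Q : (E.toAffine⁄(AlgebraicClosure ℚ)).Point, n • Q = 0 → σ • Q = (ε * z) • Q := by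
  obtain ⟨d, f, hd, hd0, -, hDdf⟩ := exists_squarefree_mul_sq (show D < 0 by omega)
  obtain ⟨s, hs⟩ := IsAlgClosed.exists_pow_nat_eq (d : AlgebraicClosure ℚ) two_pos
  haveI : FiniteDimensional ℚ (IntermediateField.adjoin ℚ {s}) :=
    IntermediateField.adjoin.finiteDimensional (Algebra.IsIntegral.isIntegral s)
  haveI : NumberField (IntermediateField.adjoin ℚ {s}) := { }
  refine ⟨scalarGroup E s n ⊔ pmOne (ZMod n), Nat.dvd_of_mul_dvd_mul_left two_pos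
    ((FA.CMClassFactor.classNumber_mul_sup_index_dvd F E ψ hd hd0 hDdf hD h2 h3 hring hs hn).trans
      (finrank_sup_dvd F hd0 hs)), fun c hc => ?_⟩
  obtain ⟨a, ha, b, hb, rfl⟩ := Subgroup.mem_sup.1 hc
  obtain ⟨σ, hσs, hσ⟩ := ha
  have hfix : ∀ r : AlgebraicClosure ℚ, r ^ 2 = (D : AlgebraicClosure ℚ) → σ r = r := fun r hr =>
    by
    have hrs : r ^ 2 = ((f : AlgebraicClosure ℚ) * s) ^ 2 := by
      rw [hr, hDdf, mul_pow, hs]
      push_cast
      ring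
    rcases sq_eq_sq_iff_eq_or_eq_neg.mp hrs with rfl | rfl <;>
      simp [map_mul, map_neg, map_intCast, hσs]
  rcases hb with rfl | rfl
  · refine ⟨σ, 1, Or.inl rfl, hfix, fun z hz Q hQ => ?_⟩
    rw [one_mul]
    exact hσ z (by simpa using hz) Q hQ
  · refine ⟨σ, -1, Or.inr rfl, hfix, fun z hz Q hQ => ?_⟩
    exact hσ (-1 * z) (by push_cast; rw [hz]; simp) Q hQ

variable {n : ℕ} {P : E.toAffine.Point}

/-- **Silverberg's divisibility**: `h φ(n) ∣ 2 [F : ℚ]`. -/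
theorem cm_order_totient_dvd (hn : 3 ≤ n) (hP : addOrderOf P = n) :
    {t : ℤ × ℤ × ℤ | t.2.1 ^ 2 - 4 * t.1 * t.2.2 = D ∧
        Int.gcd (Int.gcd t.1 t.2.1) t.2.2 = 1 ∧ 0 < t.1 ∧ |t.2.1| ≤ t.1 ∧ t.1 ≤ t.2.2 ∧
        ((|t.2.1| = t.1 ∨ t.1 = t.2.2) → 0 ≤ t.2.1)}.ncard * n.totient ∣ 2 * finrank ℚ F := by
  obtain ⟨d, f, hd, hd0, -, hDdf⟩ := exists_squarefree_mul_sq (show D < 0 by omega)
  obtain ⟨s, hs⟩ := IsAlgClosed.exists_pow_nat_eq (d : AlgebraicClosure ℚ) two_pos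
  haveI : FiniteDimensional ℚ (IntermediateField.adjoin ℚ {s}) :=
    IntermediateField.adjoin.finiteDimensional (Algebra.IsIntegral.isIntegral s)
  haveI : NumberField (IntermediateField.adjoin ℚ {s}) := { }
  have h := (FA.CMClassFactor.classNumber_mul_sup_index_dvd F E ψ hd hd0 hDdf hD h2 h3 hring hs
    (n := n) (by omega)).trans (finrank_sup_dvd F hd0 hs)
  rwa [scalarGroup_eq_bot E s hP, bot_sup_eq, mul_left_comm, two_mul_index_pmOne hn] at h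

/-- **Over a field containing `√D`**: `h φ(n) ∣ [F : ℚ]`. -/
theorem cm_order_totient_dvd_of_sqrt_mem (hn : 3 ≤ n) (hP : addOrderOf P = n)
    {r : AlgebraicClosure ℚ} (hr : r ^ 2 = (D : AlgebraicClosure ℚ)) (hrF : r ∈ F) :
    {t : ℤ × ℤ × ℤ | t.2.1 ^ 2 - 4 * t.1 * t.2.2 = D ∧
        Int.gcd (Int.gcd t.1 t.2.1) t.2.2 = 1 ∧ 0 < t.1 ∧ |t.2.1| ≤ t.1 ∧ t.1 ≤ t.2.2 ∧
        ((|t.2.1| = t.1 ∨ t.1 = t.2.2) → 0 ≤ t.2.1)}.ncard * n.totient ∣ finrank ℚ F := by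
  obtain ⟨d, f, hd, hd0, hf, hDdf⟩ := exists_squarefree_mul_sq (show D < 0 by omega)
  have hfQ : (f : AlgebraicClosure ℚ) ≠ 0 := Int.cast_ne_zero.mpr hf
  set s : AlgebraicClosure ℚ := r / (f : AlgebraicClosure ℚ) with hs'
  have hs : s ^ 2 = (d : AlgebraicClosure ℚ) := by
    rw [hs', div_pow, div_eq_iff (pow_ne_zero 2 hfQ), hr, hDdf]
    push_cast
    ring
  haveI : FiniteDimensional ℚ (IntermediateField.adjoin ℚ {s}) :=
    IntermediateField.adjoin.finiteDimensional (Algebra.IsIntegral.isIntegral s)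
  haveI : NumberField (IntermediateField.adjoin ℚ {s}) := { }
  have h := FA.CMClassFactor.classNumber_mul_sup_index_dvd F E ψ hd hd0 hDdf hD h2 h3 hring hs
    (n := n) (by omega)
  rwa [sup_eq_left.mpr (IntermediateField.adjoin_simple_le_iff.mpr
    (hs' ▸ div_mem hrF (intCast_mem F f))), scalarGroup_eq_bot E s hP, bot_sup_eq, mul_left_comm,
    two_mul_index_pmOne hn] at h

/-- **Aoki's theorem on odd degrees.** -/
theorem aoki_odd_degree (hodd : Odd (finrank ℚ F)) :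
    Odd {t : ℤ × ℤ × ℤ | t.2.1 ^ 2 - 4 * t.1 * t.2.2 = D ∧
        Int.gcd (Int.gcd t.1 t.2.1) t.2.2 = 1 ∧ 0 < t.1 ∧ |t.2.1| ≤ t.1 ∧ t.1 ≤ t.2.2 ∧
        ((|t.2.1| = t.1 ∨ t.1 = t.2.2) → 0 ≤ t.2.1)}.ncard ∧
      ∀ Q : E.toAffine.Point, IsOfFinAddOrder Q →
        addOrderOf Q = 1 ∨ addOrderOf Q = 2 ∨ addOrderOf Q = 4 ∨
          ∃ p k : ℕ, p.Prime ∧ p % 4 = 3 ∧ 1 ≤ k ∧
            (addOrderOf Q = p ^ k ∨ addOrderOf Q = 2 * p ^ k) := by
  refine ⟨?_, fun Q hQ => ?_⟩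
  · obtain ⟨V, hV, -⟩ := cm_homothety_sign_index_dvd F E ψ h2 h3 hD hring (n := 1) one_ne_zero
    exact hodd.of_dvd_nat (dvd_of_mul_right_dvd hV)
  refine eq_of_four_not_dvd hQ.addOrderOf_pos.ne' fun h4 => ?_
  have hn : 3 ≤ addOrderOf Q := by
    by_contra hlt
    have h0 := hQ.addOrderOf_pos
    rcases (show addOrderOf Q = 1 ∨ addOrderOf Q = 2 by omega) with e | e <;>
      simp [e] at h4
  obtain ⟨r, hr⟩ := h4.trans
    (dvd_of_mul_left_dvd (cm_order_totient_dvd F E ψ h2 h3 hD hring hn rfl))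
  obtain ⟨m, hm⟩ := hodd
  omega

/-- **Parish's theorem on prime degrees.** -/
theorem parish_prime_degree {l : ℕ} (hl : l.Prime) (hl5 : 5 ≤ l) (hdeg : finrank ℚ F = l)
    {Q : E.toAffine.Point} (hQ : IsOfFinAddOrder Q) :
    addOrderOf Q ∈ ({1, 2, 3, 4, 6} : Finset ℕ) ∨
      (2 * l + 1).Prime ∧ (addOrderOf Q = 2 * l + 1 ∨ addOrderOf Q = 2 * (2 * l + 1)) ∧
        {t : ℤ × ℤ × ℤ | t.2.1 ^ 2 - 4 * t.1 * t.2.2 = D ∧
          Int.gcd (Int.gcd t.1 t.2.1) t.2.2 = 1 ∧ 0 < t.1 ∧ |t.2.1| ≤ t.1 ∧ t.1 ≤ t.2.2 ∧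
          ((|t.2.1| = t.1 ∨ t.1 = t.2.2) → 0 ≤ t.2.1)}.ncard = 1 := by
  by_cases hn : 3 ≤ addOrderOf Q
  swap
  · left
    have h0 := hQ.addOrderOf_pos
    rcases (show addOrderOf Q = 1 ∨ addOrderOf Q = 2 by omega) with e | e <;> rw [e] <;> simp
  have h := cm_order_totient_dvd F E ψ h2 h3 hD hring hn rfl
  rw [hdeg] at h
  rcases eq_of_dvd_two_mul_prime hQ.addOrderOf_pos.ne' hl hl5 (dvd_of_mul_left_dvd h) with
    h' | ⟨hp, hpn⟩
  · exact Or.inl h'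
  refine Or.inr ⟨hp, hpn, ?_⟩
  have htot : (addOrderOf Q).totient = 2 * l := by
    rcases hpn with e | e <;> rw [e]
    · rw [Nat.totient_prime hp]; omega
    · rw [Nat.totient_mul ((Nat.coprime_primes Nat.prime_two hp).2 (by omega)), Nat.totient_two,
        one_mul, Nat.totient_prime hp]
      omega
  rw [htot] at h
  exact Nat.dvd_one.1 (Nat.dvd_of_mul_dvd_mul_right
    (show 0 < 2 * l by omega) (by rwa [one_mul]))

end FA.Summary

end
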