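import Fermat.Agent.CMExponent.Main
import Mathlib.NumberTheory.NumberField.Discriminant.Basic
import Mathlib.FieldTheory.IsAlgClosed.AlgebraicClosure

/-!
# Louboutin-Okazaki, Amoroso-Dvornicich: the exponent of the class group of a CM field

For a CM field `K` of degree `n` and discriminant `D`:

* `split_prime_power_principal`: if `P` has degree one, is unramified over `ℚ` and `P ^ e` is
  principal, `e ≥ 1`, then `|D| ≤ n! ² N P ^ (2 e (n - 1))`;
* `exponent_bound_of_split_prime`: so the exponent of the class group is at least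
  `(log |D| - 2 log n!) / (2 (n - 1) log N P)` for every such `P`;
* `exponent_bound_of_RH`: if `ζ_K` satisfies the Riemann hypothesis the exponent is at least
  `c_n log |D| / log (log |D| + 16)`;
* `cm_exponent_finiteness`: for each `n` and `e` finitely many CM subfields of `ℚ̄` of degree `n`
  satisfy the hypothesis and have exponent at most `e`.

The imaginary quadratic case is `FA.Summary.class_exponent_of_GRH`. Uniformity in `n` and
unconditional finiteness are not claimed; the hypothesis is an argument and is never assumed.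
Independent of S01.
-/

set_option autoImplicit false
set_option linter.style.haveILetI false

noncomputable section

namespace FA.CMExponent.Summary

open NumberField Module

/-- **A principal power of a small split prime bounds the discriminant.** -/
theorem split_prime_power_principal (K : Type) [Field K] [NumberField K] [IsCMField K]
    (P : Ideal (𝓞 K)) (hP : (Ideal.absNorm P).Prime)
    (hunr : ¬ P ^ 2 ∣ Ideal.span {(Ideal.absNorm P : 𝓞 K)}) {e : ℕ} (he : 1 ≤ e)
    (hpr : (P ^ e).IsPrincipal) :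
    |(discr K : ℝ)| ≤ ((finrank ℚ K).factorial : ℝ) ^ 2 *
      (Ideal.absNorm P : ℝ) ^ (2 * e * (finrank ℚ K - 1)) :=
  discr_le_of_principal ⟨hP, hunr⟩ (by omega) hpr

/-- **Every split prime bounds the exponent from below.** -/
theorem exponent_bound_of_split_prime (K : Type) [Field K] [NumberField K] [IsCMField K]
    (P : Ideal (𝓞 K)) (hP : (Ideal.absNorm P).Prime)
    (hunr : ¬ P ^ 2 ∣ Ideal.span {(Ideal.absNorm P : 𝓞 K)}) :
    (Real.log |(discr K : ℝ)| - 2 * Real.log (finrank ℚ K).factorial) /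
        (2 * ((finrank ℚ K : ℝ) - 1) * Real.log (Ideal.absNorm P)) ≤
      Monoid.exponent (ClassGroup (𝓞 K)) := by
  have h := log_discr_le_exponent (P := P) ⟨hP, hunr⟩
  have hn : (1 : ℝ) ≤ finrank ℚ K := Nat.one_le_cast.2 finrank_pos
  rcases le_or_gt (Real.log |(discr K : ℝ)| - 2 * Real.log (finrank ℚ K).factorial) 0 with h0 | h0
  · exact (div_nonpos_of_nonpos_of_nonneg h0 (mul_nonneg (mul_nonneg zero_le_two (by linarith))
      (Real.log_natCast_nonneg _))).trans (Nat.cast_nonneg _)
  · refine (div_le_iff₀ ?_).2 (by linarith)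
    by_contra hc
    push Not at hc
    nlinarith only [h, h0, hc, Nat.cast_nonneg (α := ℝ) (Monoid.exponent (ClassGroup (𝓞 K)))]

/-- **The exponent on the Riemann hypothesis.** -/
theorem exponent_bound_of_RH (n : ℕ) : ∃ c : ℝ, 0 < c ∧
    ∀ (K : Type) [Field K] [NumberField K] [IsCMField K],
      (∀ E : ℂ → ℂ, Differentiable ℂ E → (∀ s : ℂ, 1 < s.re → E s = (s - 1) * dedekindZeta K s) →
        ∀ z : ℂ, E z = 0 → 0 < z.re → z.re < 1 → z.re = 1 / 2) →
      finrank ℚ K = n → c * Real.log |(discr K : ℝ)| /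
        Real.log (Real.log |(discr K : ℝ)| + 16) ≤ Monoid.exponent (ClassGroup (𝓞 K)) :=
  exists_exponent_bound n

/-- **Few CM fields have a small exponent.** -/
theorem cm_exponent_finiteness (n : ℕ) (hn : 1 ≤ n) (e : ℕ) :
    {K : IntermediateField ℚ (AlgebraicClosure ℚ) |
      finrank ℚ K = n ∧ ∀ [NumberField K], IsCMField K ∧
        (∀ E : ℂ → ℂ, Differentiable ℂ E →
          (∀ s : ℂ, 1 < s.re → E s = (s - 1) * dedekindZeta K s) →
          ∀ z : ℂ, E z = 0 → 0 < z.re → z.re < 1 → z.re = 1 / 2) ∧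
        Monoid.exponent (ClassGroup (𝓞 K)) ≤ e}.Finite := by
  obtain ⟨c, hc, h⟩ := exists_exponent_bound n
  obtain ⟨B, hB⟩ : ∃ B : ℝ, B = max 16 (2 * (2 * e / c) ^ 2) := ⟨_, rfl⟩
  obtain ⟨N, hN⟩ : ∃ N : ℕ, Real.exp B ≤ N := exists_nat_ge _
  refine ((finite_of_discr_bdd (AlgebraicClosure ℚ) (N := N)).image Subtype.val).subset
    fun K hK => ?_
  have hfd : FiniteDimensional ℚ K := FiniteDimensional.of_finrank_pos (by rw [hK.1]; omega)
  haveI : NumberField K := @NumberField.mk _ _ inferInstance hfd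
  obtain ⟨hcm, hRH, hexp⟩ := @hK.2 this
  refine ⟨⟨K, hfd⟩, ?_, rfl⟩
  show |discr K| ≤ (N : ℤ)
  obtain ⟨L, hL⟩ : ∃ L, L = Real.log |(discr K : ℝ)| := ⟨_, rfl⟩
  have hD : 1 ≤ |(discr K : ℝ)| := by
    rw [← Int.cast_abs]
    exact_mod_cast Int.one_le_abs (discr_ne_zero K)
  have hL0 : 0 ≤ L := hL ▸ Real.log_nonneg hD
  have h1 := (h K hRH hK.1).trans (Nat.cast_le.2 hexp)
  rw [← hL, div_le_iff₀ (Real.log_pos (by linarith))] at h1
  have hsq : Real.log (L + 16) ≤ 2 * √(L + 16) := by
    have := Real.log_le_rpow_div (x := L + 16) (by linarith) (by norm_num : (0 : ℝ) < 1 / 2)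
    rw [← Real.sqrt_eq_rpow] at this
    linarith
  have hLB : L ≤ B := by
    rcases le_or_gt L 16 with h16 | h16
    · exact h16.trans (hB ▸ le_max_left _ _)
    · refine le_trans ?_ (hB ▸ le_max_right _ _)
      have h2 : L ≤ 2 * e / c * √(L + 16) := by
        rw [div_mul_eq_mul_div, le_div_iff₀ hc]
        linarith [mul_le_mul_of_nonneg_left hsq (Nat.cast_nonneg (α := ℝ) e)]
      have h3 := pow_le_pow_left₀ hL0 h2 2
      rw [mul_pow, Real.sq_sqrt (by linarith)] at h3
      nlinarith [sq_nonneg ((2 : ℝ) * e / c)]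
  have h3 : |(discr K : ℝ)| ≤ N :=
    ((Real.log_le_iff_le_exp (by linarith)).1 (hL ▸ hLB)).trans hN
  exact_mod_cast h3

end FA.CMExponent.Summary

end
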