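import Fermat.Agent.CM.ClassOne.Fricke
import Fermat.Agent.CM.ClassOne.Main
import Fermat.Agent.CM.Eleven.ModularEleven
import Fermat.Agent.CM.Nineteen.ModularNineteen
import Fermat.Agent.CM.CongruentCurves
import Fermat.Agent.Root.SummaryTwistParity

/-!
# The functional equation of the curves of conductor `q²` with complex multiplication

For `q = 11, 19, 43, 67, 163` the curve with multiplication by the integers of `ℚ(√-q)` and good
reduction outside `q` has the L-series of a theta series with Fricke eigenvalue `1` at level `q²`: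
the completed function of conductor `q²` satisfies `Λ (2 - s) = -Λ (s)`, so the L-series vanishes
at `1` to odd order.
-/

set_option autoImplicit false

noncomputable section

open WeierstrassCurve CongruenceSubgroup Filter
open scoped Real Topology

namespace FA.CM.ClassOne

/-- The functional equation from the law of the traces. -/
theorem functionalEquation_of_traceLaw {q : ℕ} [Fact q.Prime] (hq8 : q % 8 = 3) (hq3 : q ≠ 3)
    {W : WeierstrassCurve ℤ} (hΔ : W.Δ = -(q : ℤ) ^ 3) (hc4 : (q : ℤ) ∣ W.c₄)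
    (hlaw : TraceLaw q W) (E : WeierstrassCurve ℚ) {C : VariableChange ℚ}
    (hC : C • E = W.map (Int.castRingHom ℚ)) :
    ∃ Λ : ℂ → ℂ, Differentiable ℂ Λ ∧
      (∀ s : ℂ, 3 / 2 < s.re → Λ s = ((q ^ 2 : ℕ) : ℂ) ^ (s / 2) * (2 * (π : ℂ)) ^ (-s) *
        Complex.Gamma s * E.LSeries s) ∧
      ∀ s : ℂ, Λ (2 - s) = -Λ s := by
  obtain ⟨n, hn, hodd, h2n⟩ : ∃ n, q + 1 = 4 * n ∧ Odd n ∧ 2 ≤ n :=
    ⟨(q + 1) / 4, by omega, Nat.odd_iff.mpr (by omega), by omega⟩
  have := Fact.mk hn
  have : NeZero n := ⟨by omega⟩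
  have : NeZero (q ^ 2) := ⟨pow_ne_zero 2 (Fact.out : q.Prime).ne_zero⟩
  obtain ⟨L, f, hL, hf, hfr⟩ := exists_form_fricke hq8 (n := n)
  have : NeZero L := ⟨hL.ne'⟩
  have hu : (C.u : ℚ) ≠ 0 := Units.ne_zero _
  have h4 : E.c₄ = (C.u : ℚ) ^ 4 * ((1 : ℤ) : ℚ) ^ 2 * (W.c₄ : ℚ) := by
    rw [← eq_intCast (Int.castRingHom ℚ) W.c₄, ← map_c₄, ← hC, variableChange_c₄,
      Units.val_inv_eq_inv_val]
    field_simp
    simp
  have h6 : E.c₆ = (C.u : ℚ) ^ 6 * ((1 : ℤ) : ℚ) ^ 3 * (W.c₆ : ℚ) := by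
    rw [← eq_intCast (Int.castRingHom ℚ) W.c₆, ← map_c₆, ← hC, variableChange_c₆,
      Units.val_inv_eq_inv_val]
    field_simp
    simp
  have hψ : ∀ l : ℕ, l.Prime →
      (1 : DirichletCharacter ℂ 1) (l : ZMod 1) = (FA.Twists.twistSign 1 l : ℂ) := fun l _ => by
    rw [MulChar.one_apply (isUnit_of_subsingleton _), FA.Twists.twistSign,
      if_pos (by norm_num : (1 : ℤ) % 8 = 1), jacobiSym.one_left, ite_self, Int.cast_one]
  have hcoeff : ∀ k : ℕ, ModularFormClass.qCoeff f k = (E.LFunction k : ℂ) := fun k => by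
    rw [hf, LFunction_twist hodd h2n hΔ hc4 hlaw E squarefree_one hu h4 h6
      (1 : DirichletCharacter ℂ 1) hψ k, MulChar.one_apply (isUnit_of_subsingleton _), one_mul]
  refine ⟨FA.Twists.completedAt (q ^ 2) f, FA.Twists.differentiable_completedAt _ f,
    fun s hs => ?_, fun s => ?_⟩
  · refine FA.HasseBound.eqOn_threeHalves
      (G := fun s => ((q ^ 2 : ℕ) : ℂ) ^ (s / 2) * (2 * (π : ℂ)) ^ (-s) *
        Complex.Gamma s * E.LSeries s)
      (fun z _ => (FA.Twists.differentiable_completedAt _ f).analyticAt z)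
      (AnalyticOnNhd.mul ?_ (FA.HasseBound.analyticOnNhd_LSeries _)) (fun z hz => ?_) hs
    · refine DifferentiableOn.analyticOnNhd
        (fun z hz => DifferentiableAt.differentiableWithinAt ?_)
        (isOpen_lt continuous_const Complex.continuous_re)
      have hG : DifferentiableAt ℂ Complex.Gamma z :=
        Complex.differentiableAt_Gamma z fun i e => by
          have : (3 / 2 : ℝ) < z.re := hz
          rw [e, Complex.neg_re, Complex.natCast_re] at this
          linarith [(Nat.cast_nonneg i : (0 : ℝ) ≤ i)]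
      refine DifferentiableAt.mul (DifferentiableAt.mul ?_ ?_) hG
      · exact (differentiableAt_id.div_const 2).const_cpow
          (Or.inl (Nat.cast_ne_zero.mpr (NeZero.ne _)))
      · exact differentiableAt_id.neg.const_cpow
          (Or.inl (mul_ne_zero two_ne_zero (Complex.ofReal_ne_zero.mpr Real.pi_ne_zero)))
    · rw [FA.Twists.completedAt_eq_LSeries f hz, WeierstrassCurve.LSeries]
      congr 1
      exact congrArg (LSeries · z) (funext hcoeff)
  · rw [FA.Twists.completedAt_two_sub f hfr s, neg_one_mul]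

end FA.CM.ClassOne

namespace FA.Summary

open FA.CM.ClassOne

/-- **The functional equation of the curves of conductor `q²` with complex multiplication**: for
the curves isomorphic over `ℚ` to the five minimal models of discriminant `-q³` with multiplication
by the integers of `ℚ(√-q)` the completed L-series of conductor `q²` is entire and changes its
sign under `s ↦ 2 - s`: the root number is `-1`. -/
theorem functionalEquation_cm (E : WeierstrassCurve ℚ) {q : ℕ}
    (h : ∃ C : VariableChange ℚ, (q, C • E) ∈ ({(11, ⟨0, -1, 1, -7, 10⟩),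
      (19, ⟨0, 0, 1, -38, 90⟩), (43, ⟨0, 0, 1, -860, 9707⟩), (67, ⟨0, 0, 1, -7370, 243528⟩),
      (163, ⟨0, 0, 1, -2174420, 1234136692⟩)} : Set (ℕ × WeierstrassCurve ℚ))) :
    ∃ Λ : ℂ → ℂ, Differentiable ℂ Λ ∧
      (∀ s : ℂ, 3 / 2 < s.re → Λ s = ((q ^ 2 : ℕ) : ℂ) ^ (s / 2) * (2 * (π : ℂ)) ^ (-s) *
        Complex.Gamma s * E.LSeries s) ∧
      ∀ s : ℂ, Λ (2 - s) = -Λ s := by
  obtain ⟨C, hC⟩ := h
  simp only [Set.mem_insert_iff, Set.mem_singleton_iff, Prod.mk.injEq] at hC
  rcases hC with ⟨rfl, hC⟩ | ⟨rfl, hC⟩ | ⟨rfl, hC⟩ | ⟨rfl, hC⟩ | ⟨rfl, hC⟩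
  · have : Fact (Nat.Prime 11) := ⟨FA.CM.Eleven.prime_eleven_arith⟩
    obtain ⟨e4, -, eΔ⟩ := FA.CM.Eleven.curveEleven_invariants
    exact functionalEquation_of_traceLaw (by norm_num) (by norm_num) (by rw [eΔ]; norm_num)
      (by rw [e4]; norm_num) FA.CM.Eleven.traceLaw_eleven E
      (hC.trans (by ext <;> simp [FA.CM.Eleven.curveEleven]))
  · have : Fact (Nat.Prime 19) := ⟨FA.CM.Nineteen.prime_nineteen_arith⟩
    obtain ⟨e4, -, eΔ⟩ := FA.CM.Nineteen.curveNineteen_invariants
    exact functionalEquation_of_traceLaw (by norm_num) (by norm_num) (by rw [eΔ]; norm_num)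
      (by rw [e4]; norm_num) FA.CM.Nineteen.traceLaw_nineteen E
      (hC.trans (by ext <;> simp [FA.CM.Nineteen.curveNineteen]))
  · have := Fact.mk prime_fortyThree
    exact functionalEquation_of_traceLaw (W := ⟨0, 0, 1, -860, 9707⟩) (by norm_num) (by norm_num)
      (by norm_num [WeierstrassCurve.Δ, b₂, b₄, b₆, b₈]) ⟨960, by norm_num [c₄, b₂, b₄]⟩
      traceLaw_fortyThree E
      (hC.trans (by ext <;> simp))
  · have := Fact.mk prime_sixtySeven
    exact functionalEquation_of_traceLaw (W := ⟨0, 0, 1, -7370, 243528⟩) (by norm_num)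
      (by norm_num) (by norm_num [WeierstrassCurve.Δ, b₂, b₄, b₆, b₈])
      ⟨5280, by norm_num [c₄, b₂, b₄]⟩
      traceLaw_sixtySeven E
      (hC.trans (by ext <;> simp))
  · have := Fact.mk prime_oneSixtyThree
    exact functionalEquation_of_traceLaw (W := ⟨0, 0, 1, -2174420, 1234136692⟩) (by norm_num)
      (by norm_num) (by norm_num [WeierstrassCurve.Δ, b₂, b₄, b₆, b₈])
      ⟨640320, by norm_num [c₄, b₂, b₄]⟩
      traceLaw_oneSixtyThree E
      (hC.trans (by ext <;> simp))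

/-- **The central zero**: the L-series of these curves have an entire continuation which vanishes
at `1` to odd order. -/
theorem centralValue_cm_eq_zero (E : WeierstrassCurve ℚ) {q : ℕ}
    (h : ∃ C : VariableChange ℚ, (q, C • E) ∈ ({(11, ⟨0, -1, 1, -7, 10⟩),
      (19, ⟨0, 0, 1, -38, 90⟩), (43, ⟨0, 0, 1, -860, 9707⟩), (67, ⟨0, 0, 1, -7370, 243528⟩),
      (163, ⟨0, 0, 1, -2174420, 1234136692⟩)} : Set (ℕ × WeierstrassCurve ℚ))) :
    ∃ g : ℂ → ℂ, Differentiable ℂ g ∧ (∀ s : ℂ, 3 / 2 < s.re → g s = E.LSeries s) ∧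
      g 1 = 0 ∧ ∃ r : ℕ, Odd r ∧ analyticOrderAt g 1 = r := by
  have hq : q ≠ 0 := by
    obtain ⟨C, hC⟩ := h
    simp only [Set.mem_insert_iff, Set.mem_singleton_iff, Prod.mk.injEq] at hC
    omega
  obtain ⟨Λ, hΛ, hs, hfe⟩ := functionalEquation_cm E h
  obtain ⟨g, hg, hgs, -, hg1, r, hord, hε⟩ := FA.Parity.exists_parity _ (pow_ne_zero 2 hq) hΛ hs
    (ε := (-1 : ℂ)) (fun s => by rw [hfe, neg_one_mul])
  refine ⟨g, hg, hgs, hg1 rfl, r, ?_, hord⟩
  rcases Nat.even_or_odd r with h | h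
  · rw [h.neg_one_pow] at hε; norm_num at hε
  · exact h

end FA.Summary

end
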