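import Fermat.Agent.DeuringCM.AllFields
import Fermat.Agent.DeuringCM.ExactLSeriesDescended

/-!
# The L-function of Hasse and Weil of a curve with complex multiplication, exactly

For a curve over a number field `F` with integral model `W₀` and a multiplier in `ℚ(√d)`,
`FA.GoodNF.traceAt W v` is the trace of Frobenius of any equation good at `v`
(`traceAt_eq_of_model`) and `eulerFactorAt W v z` is `(1 - a_v q ^ (-z) + q ^ (1 - 2 z))⁻¹` at the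
places of good reduction and `1` at the bad ones, where every integral equation is additive
(`bad_places_additive`).

* `hasse_weil_cm`: for every such curve over every number field the product of these factors,
  completed by `M ^ (z / 2) Γℂ(z) ^ [F : ℚ]`, is entire, has no zero with `3 / 2 ≤ re z` and
  satisfies `Λ (2 - z) = ± Λ z`, where every prime of `M` divides the discriminant of `F` or lies in
  a bad place;
* `hasse_weil_cm_of_sqrt`: if `√d ∈ F` the sign is `1` and `M = (|d_F| N 𝔣) ^ 2` for an ideal `𝔣`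
  whose prime divisors are exactly the bad places, the conductor of Deuring's character;
* `hasse_weil_cm_descended`: otherwise `M = |d_E| N 𝔣` for `E = F (√d)`;
* `hasse_weil_gaussian`: in particular for `y² = x³ + a x` over every number field.
-/

set_option autoImplicit false
set_option linter.unusedSectionVars false

noncomputable section

open WeierstrassCurve NumberField IsDedekindDomain
open FA.TraceNF (frobTrace)
open FA.GoodNF (GoodAt traceAt)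
open FA.DeuringCM (eulerFactorAt)
open scoped WeierstrassCurve.Affine Classical ComplexConjugate

namespace FA.Root.CMHasseWeilSummary

variable {F : Type} [Field F] [NumberField F] (W₀ : WeierstrassCurve (𝓞 F))
  [(W₀.map (algebraMap (𝓞 F) F)).IsElliptic]

local notation "W" => W₀.map (algebraMap (𝓞 F) F)

omit [(W₀.map (algebraMap (𝓞 F) F)).IsElliptic] in
/-- The trace at a place is that of every equation good there. -/
theorem traceAt_eq_of_model {E : WeierstrassCurve F} {v : HeightOneSpectrum (𝓞 F)}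
    {W₁ : WeierstrassCurve (𝓞 F)} {C : VariableChange F}
    (hC : C • E = W₁.map (algebraMap (𝓞 F) F)) (hΔ : W₁.Δ ∉ v.asIdeal) :
    GoodAt E v ∧ traceAt E v = frobTrace W₁ v :=
  ⟨FA.GoodNF.goodAt_of_model hC hΔ, FA.GoodNF.traceAt_eq hC hΔ⟩

/-- The meaning of the Euler factors. -/
theorem eulerFactorAt_def (E : WeierstrassCurve F) (v : HeightOneSpectrum (𝓞 F)) (z : ℂ) :
    eulerFactorAt E v z = if GoodAt E v then
      (1 - (traceAt E v : ℂ) * ((Ideal.absNorm v.asIdeal : ℕ) : ℂ) ^ (-z) +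
        ((Ideal.absNorm v.asIdeal : ℕ) : ℂ) ^ (1 - 2 * z))⁻¹ else 1 :=
  rfl

/-- **The bad places are additive**: an integral equation is singular there with a cusp. -/
theorem bad_places_additive (ψ : F →+* ℂ)
    (hcm : ∃ L : PeriodPair, L.g₂ = ψ (W).c₄ / 12 ∧ L.g₃ = ψ (W).c₆ / 216 ∧
      ∃ ω : ℂ, (∀ m : ℤ, ω ≠ m) ∧ (∀ l ∈ L.lattice, ω * l ∈ L.lattice))
    {v : HeightOneSpectrum (𝓞 F)} (hv : ¬ GoodAt (W) v) {W₁ : WeierstrassCurve (𝓞 F)}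
    {C : VariableChange F} (hC : C • W = W₁.map (algebraMap (𝓞 F) F)) :
    W₁.Δ ∈ v.asIdeal ∧ W₁.c₄ ∈ v.asIdeal := by
  have hΔ : W₁.Δ ∈ v.asIdeal := not_not.mp fun h => hv (FA.GoodNF.goodAt_of_model hC h)
  refine ⟨hΔ, (v.valuation_lt_one_iff_mem (K := F) _).1 (lt_of_not_ge fun h1 => ?_)⟩
  have hj : v.valuation F (W₁.map (algebraMap (𝓞 F) F)).c₄ ^ 3 ≤
      v.valuation F (W₁.map (algebraMap (𝓞 F) F)).Δ := by
    simp only [← hC]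
    rw [← map_pow, FA.GoodNF.c₄_pow_three, map_mul, variableChange_j]
    exact mul_le_of_le_one_left' (FA.DeuringCM.j_le_one_of_cm W₀ ψ hcm v)
  rw [map_c₄, map_Δ] at hj
  exact absurd (le_trans (one_le_pow₀ h1) hj)
    (not_le.2 ((v.valuation_lt_one_iff_mem (K := F) _).2 hΔ))

/-- **The L-function of Hasse and Weil of every curve with complex multiplication.** -/
theorem hasse_weil_cm (ψ : F →+* ℂ) {d : ℤ} (hd : Squarefree d) (hd0 : d < 0)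
    (hcm : ∃ L : PeriodPair, L.g₂ = ψ (W).c₄ / 12 ∧ L.g₃ = ψ (W).c₆ / 216 ∧
      ∃ ω : ℂ, (∀ m : ℤ, ω ≠ m) ∧ (∀ l ∈ L.lattice, ω * l ∈ L.lattice) ∧
        ∃ x y : ℚ, (ω - (x : ℂ)) ^ 2 = (d : ℂ) * (y : ℂ) ^ 2) :
    ∃ (M : ℕ) (ε : ℂ) (Λ : ℂ → ℂ), 0 < M ∧ (ε = 1 ∨ ε = -1) ∧
      (∀ p : ℕ, p.Prime → p ∣ M → (p : ℤ) ∣ discr F ∨
        ∃ v : HeightOneSpectrum (𝓞 F), ¬ GoodAt (W) v ∧ (p : 𝓞 F) ∈ v.asIdeal) ∧
      Differentiable ℂ Λ ∧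
      (∀ z : ℂ, 3 / 2 < z.re → ∃ L : ℂ,
        HasProd (fun v : HeightOneSpectrum (𝓞 F) => eulerFactorAt (W) v z) L ∧
        Λ z = (M : ℂ) ^ (z / 2) * Complex.Gammaℂ z ^ Module.finrank ℚ F * L) ∧
      (∀ z : ℂ, Λ (2 - z) = ε * Λ z) ∧ ∀ z : ℂ, 3 / 2 ≤ z.re → Λ z ≠ 0 := by
  by_cases h : ∃ s : F, s ^ 2 = (d : F)
  · obtain ⟨s, hs⟩ := h
    obtain ⟨𝔣, Λ, h0, hiff, hΛ, hL, hfe, hnz⟩ :=
      FA.DeuringCM.exists_exact_lSeries ψ hd hd0 hs hcm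
    refine ⟨_, 1, Λ, ?_, Or.inl rfl, fun p hp => FA.DeuringCM.prime_dvd_const h0 hiff hp, hΛ, hL,
      fun z => by rw [hfe, one_mul], hnz⟩
    exact pow_pos (Nat.mul_pos (Int.natAbs_pos.mpr (discr_ne_zero F))
      (Nat.pos_of_ne_zero fun h => h0 (Ideal.absNorm_eq_zero_iff.mp h))) 2
  · obtain ⟨M, ε, Λ, hM, hε, hsupp, -, hrest⟩ :=
      FA.DeuringCM.exists_exact_lSeries_descended W₀ ψ hd hd0 h hcm
    exact ⟨M, ε, Λ, hM, hε, hsupp, hrest⟩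

/-- **With `√d` in the field.** -/
theorem hasse_weil_cm_of_sqrt (ψ : F →+* ℂ) {d : ℤ} (hd : Squarefree d) (hd0 : d < 0) {s : F}
    (hs : s ^ 2 = (d : F))
    (hcm : ∃ L : PeriodPair, L.g₂ = ψ (W).c₄ / 12 ∧ L.g₃ = ψ (W).c₆ / 216 ∧
      ∃ ω : ℂ, (∀ m : ℤ, ω ≠ m) ∧ (∀ l ∈ L.lattice, ω * l ∈ L.lattice) ∧
        ∃ x y : ℚ, (ω - (x : ℂ)) ^ 2 = (d : ℂ) * (y : ℂ) ^ 2) :
    ∃ (𝔣 : Ideal (𝓞 F)) (Λ : ℂ → ℂ), 𝔣 ≠ ⊥ ∧
      (∀ v : HeightOneSpectrum (𝓞 F), GoodAt (W) v ↔ v.asIdeal ⊔ 𝔣 = ⊤) ∧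
      Differentiable ℂ Λ ∧
      (∀ z : ℂ, 3 / 2 < z.re → ∃ L : ℂ,
        HasProd (fun v : HeightOneSpectrum (𝓞 F) => eulerFactorAt (W) v z) L ∧
        Λ z = ((((discr F).natAbs * Ideal.absNorm 𝔣) ^ 2 : ℕ) : ℂ) ^ (z / 2) *
          Complex.Gammaℂ z ^ Module.finrank ℚ F * L) ∧
      (∀ z : ℂ, Λ (2 - z) = Λ z) ∧ ∀ z : ℂ, 3 / 2 ≤ z.re → Λ z ≠ 0 :=
  FA.DeuringCM.exists_exact_lSeries ψ hd hd0 hs hcm

/-- **Without `√d` in the field.** -/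
theorem hasse_weil_cm_descended (ψ : F →+* ℂ) {d : ℤ} (hd : Squarefree d) (hd0 : d < 0)
    (hnot : ¬ ∃ s : F, s ^ 2 = (d : F))
    (hcm : ∃ L : PeriodPair, L.g₂ = ψ (W).c₄ / 12 ∧ L.g₃ = ψ (W).c₆ / 216 ∧
      ∃ ω : ℂ, (∀ m : ℤ, ω ≠ m) ∧ (∀ l ∈ L.lattice, ω * l ∈ L.lattice) ∧
        ∃ x y : ℚ, (ω - (x : ℂ)) ^ 2 = (d : ℂ) * (y : ℂ) ^ 2) :
    ∃ (E : IntermediateField F (AlgebraicClosure F)) (_ : NumberField E) (𝔣 : Ideal (𝓞 E))
      (ε : ℂ) (Λ : ℂ → ℂ), Module.finrank F E = 2 ∧ (∃ s : E, s ^ 2 = (d : E)) ∧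
      (ε = 1 ∨ ε = -1) ∧
      (∀ (v : HeightOneSpectrum (𝓞 F)) (w : HeightOneSpectrum (𝓞 E)),
        w.asIdeal.under (𝓞 F) = v.asIdeal → (GoodAt (W) v ↔ w.asIdeal ⊔ 𝔣 = ⊤)) ∧
      Differentiable ℂ Λ ∧
      (∀ z : ℂ, 3 / 2 < z.re → ∃ L : ℂ,
        HasProd (fun v : HeightOneSpectrum (𝓞 F) => eulerFactorAt (W) v z) L ∧
        Λ z = (((discr E).natAbs * Ideal.absNorm 𝔣 : ℕ) : ℂ) ^ (z / 2) *
          Complex.Gammaℂ z ^ Module.finrank ℚ F * L) ∧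
      (∀ z : ℂ, Λ (2 - z) = ε * Λ z) ∧ ∀ z : ℂ, 3 / 2 ≤ z.re → Λ z ≠ 0 := by
  obtain ⟨M, ε, Λ, -, hε, -, ⟨E, instE, 𝔣, hdeg, hs, hiff, rfl⟩, hrest⟩ :=
    FA.DeuringCM.exists_exact_lSeries_descended W₀ ψ hd hd0 hnot hcm
  exact ⟨E, instE, 𝔣, ε, Λ, hdeg, hs, hε, hiff, hrest⟩

omit [(W₀.map (algebraMap (𝓞 F) F)).IsElliptic] in
/-- **The curves `y² = x³ + a x` over every number field.** -/
theorem hasse_weil_gaussian {a : 𝓞 F} (ha : a ≠ 0) :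
    let E : WeierstrassCurve F :=
      (⟨0, 0, 0, a, 0⟩ : WeierstrassCurve (𝓞 F)).map (algebraMap (𝓞 F) F)
    ∃ (M : ℕ) (ε : ℂ) (Λ : ℂ → ℂ), 0 < M ∧ (ε = 1 ∨ ε = -1) ∧
      (∀ p : ℕ, p.Prime → p ∣ M → (p : ℤ) ∣ discr F ∨
        ∃ v : HeightOneSpectrum (𝓞 F), ¬ GoodAt E v ∧ (p : 𝓞 F) ∈ v.asIdeal) ∧
      Differentiable ℂ Λ ∧
      (∀ z : ℂ, 3 / 2 < z.re → ∃ L : ℂ,
        HasProd (fun v : HeightOneSpectrum (𝓞 F) => eulerFactorAt E v z) L ∧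
        Λ z = (M : ℂ) ^ (z / 2) * Complex.Gammaℂ z ^ Module.finrank ℚ F * L) ∧
      (∀ z : ℂ, Λ (2 - z) = ε * Λ z) ∧ ∀ z : ℂ, 3 / 2 ≤ z.re → Λ z ≠ 0 := by
  intro E
  obtain ⟨hell, ψ, hcm⟩ := FA.DeuringCM.gaussian_cm ha
  haveI := hell
  exact hasse_weil_cm _ ψ (d := -1) (by simp) (by norm_num) hcm

end FA.Root.CMHasseWeilSummary

end
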