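import Fermat.Agent.ExistenceTheorem.HilbertClassField

/-!
# Class field theory of number fields: existence, uniqueness and the Hilbert class field

With `RayClassGroup 𝔪` the narrow ray class group of a number field `K` modulo `𝔪`:

* `existence_theorem`: for a modulus, a set `S` of real places and a subgroup `H` containing the
  classes of the elements congruent to `1` positive at `S` there is an abelian extension unramified
  outside the modulus and at the other infinite places whose Artin map is onto the Galois group with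
  kernel `H`;
* `existence_theorem_narrow`: in particular every subgroup of a narrow ray class group occurs;
* `abelian_extension_eq_of_split`: abelian extensions with the same split primes, up to finitely
  many, are isomorphic, so these fields are unique;
* `hilbert_class_field`: there is an abelian extension unramified at all finite and infinite places
  with Galois group the ideal class group through Frobenius, of degree the class number, in which
  exactly the principal primes split completely and which contains every abelian extension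
  unramified at all finite and infinite places.

For exponent `p` with the roots of unity, Kummer theory: local indices of `p`-th powers, the index of
the powers in the units outside a finite set and Artin reciprocity give the field.  The general case
follows by induction on the index, descending along cyclic extensions.
-/

set_option autoImplicit false
set_option linter.style.haveILetI false

noncomputable section

universe u

open NumberField NumberField.InfinitePlace IsDedekindDomain
open FA.Hecke (RayClassGroup rayClass coprimeIdeals)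
open FA.Ext (primeIdeal)
open scoped Pointwise nonZeroDivisors

namespace FA.ArtinRec

theorem not_isRam_of_unramified {K L : Type*} [Field K] [NumberField K] [Field L] [NumberField L]
    [Algebra K L] [IsGalois K L] [Algebra.Unramified (𝓞 K) (𝓞 L)]
    (v : HeightOneSpectrum (𝓞 K)) : ¬ IsRam L v := by
  rintro ⟨Q, hQ, hne⟩
  haveI := v.isMaximal
  haveI := Q.isPrime
  haveI : Q.asIdeal.LiesOver v.asIdeal := ⟨(congrArg HeightOneSpectrum.asIdeal hQ).symm⟩
  haveI : Finite (𝓞 K ⧸ v.asIdeal) := Ideal.finiteQuotientOfFreeOfNeBot _ v.ne_bot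
  haveI : Algebra.IsUnramifiedAt (𝓞 K) Q.asIdeal :=
    Algebra.unramified_iff_forall.1 inferInstance ⟨Q.asIdeal, Q.isPrime⟩
  refine hne ((Subgroup.card_eq_one (H := Q.asIdeal.inertia (L ≃ₐ[K] L))).1 ?_)
  rw [Ideal.card_inertia_eq_ramificationIdxIn (G := L ≃ₐ[K] L) v.asIdeal Q.asIdeal,
    Ideal.ramificationIdxIn_eq_ramificationIdx v.asIdeal Q.asIdeal (L ≃ₐ[K] L),
    Ideal.ramificationIdx_eq_one_iff.2 inferInstance]

theorem artinAt_eq_one_of_relNorm {K L : Type*} [Field K] [NumberField K] [Field L] [NumberField L]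
    [Algebra K L] [IsGalois K L] [IsMulCommutative (L ≃ₐ[K] L)] {v : HeightOneSpectrum (𝓞 K)}
    (hv : ¬ IsRam L v)
    (h : ∃ Q : HeightOneSpectrum (𝓞 L), Ideal.relNorm (𝓞 K) Q.asIdeal = v.asIdeal) :
    artinAt L v = 1 := by
  obtain ⟨Q, hQ⟩ := h
  rw [relNorm_prime] at hQ
  have hd : (belowP K Q).asIdeal ∣ v.asIdeal := hQ ▸ dvd_pow_self _ (fDeg_ne_zero _)
  rw [show belowP K Q = v from HeightOneSpectrum.ext
    ((prime_dvd_prime_iff_eq (belowP K Q).prime v.prime).1 hd)] at hQ
  have h1 := congrArg (ordI v) hQ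
  rw [ordI_pow v v.ne_bot, ordI_prime, if_pos rfl, mul_one] at h1
  simpa [h1] using artinAt_pow_fDeg (L := L) hv

end FA.ArtinRec

namespace FA.Summary

open FA.ArtinRec

variable (K : Type u) [Field K] [NumberField K]

/-- **The existence theorem of class field theory.** -/
theorem existence_theorem {𝔪 : Ideal (𝓞 K)} (h𝔪 : 𝔪 ≠ ⊥) (S : Set (InfinitePlace K))
    (H : Subgroup (RayClassGroup 𝔪))
    (hS : ∀ (x : 𝓞 K) (I : coprimeIdeals 𝔪), x ≠ 0 → x - 1 ∈ 𝔪 →
      (∀ w ∈ S, ∀ h : IsReal w, 0 < embedding_of_isReal h (x : K)) →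
      I.1.1 = Ideal.span {x} → rayClass h𝔪 I ∈ H) :
    ∃ (L : Type u) (_ : Field L) (_ : NumberField L) (_ : Algebra K L) (_ : IsGalois K L),
      (∀ g h : L ≃ₐ[K] L, g * h = h * g) ∧
      (∀ Q : HeightOneSpectrum (𝓞 L), Q.asIdeal.under (𝓞 K) ⊔ 𝔪 = ⊤ →
        Q.asIdeal.inertia (L ≃ₐ[K] L) = ⊥) ∧
      (∀ w : InfinitePlace L, w.comap (algebraMap K L) ∉ S → w.IsUnramified K) ∧
      ∃ ω : RayClassGroup 𝔪 →* (L ≃ₐ[K] L), Function.Surjective ω ∧ ω.ker = H ∧
        ∀ (v : HeightOneSpectrum (𝓞 K)) (hv : v.asIdeal ⊔ 𝔪 = ⊤) (Q : HeightOneSpectrum (𝓞 L))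
          (τ : L ≃ₐ[K] L), Q.asIdeal.under (𝓞 K) = v.asIdeal →
          IsArithFrobAt (𝓞 K) τ Q.asIdeal → ω (rayClass h𝔪 ⟨primeIdeal v, hv⟩) = τ := by
  obtain ⟨L, _, _, _, _, hc, hL⟩ := exists_classField h𝔪 S H (by
    rw [semiClasses, Subgroup.closure_le]
    rintro _ ⟨x, hx, rfl⟩
    exact hS x _ hx.1 hx.2.1 hx.2.2 rfl)
  obtain ⟨ω, hsurj, hker, hω⟩ := hL.artin
  refine ⟨L, inferInstance, inferInstance, inferInstance, inferInstance, fun g h => mul_comm' g h,
    fun Q hQ => inertia_eq_bot (hL.unram (belowP K Q) hQ) rfl,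
    fun w hw => hL.unramInf _ hw w rfl, ω, hsurj, hker, fun v hv Q τ hQ hτ => ?_⟩
  rw [hω]
  exact (artinHom_prime v).trans
    (artinAt_eq (hL.unram v hv) (HeightOneSpectrum.ext hQ) hτ).symm

/-- **Every subgroup of a narrow ray class group has a class field.** -/
theorem existence_theorem_narrow {𝔪 : Ideal (𝓞 K)} (h𝔪 : 𝔪 ≠ ⊥)
    (H : Subgroup (RayClassGroup 𝔪)) :
    ∃ (L : Type u) (_ : Field L) (_ : NumberField L) (_ : Algebra K L) (_ : IsGalois K L),
      (∀ g h : L ≃ₐ[K] L, g * h = h * g) ∧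
      (∀ Q : HeightOneSpectrum (𝓞 L), Q.asIdeal.under (𝓞 K) ⊔ 𝔪 = ⊤ →
        Q.asIdeal.inertia (L ≃ₐ[K] L) = ⊥) ∧
      Module.finrank K L = H.index ∧
      ∃ ω : RayClassGroup 𝔪 →* (L ≃ₐ[K] L), Function.Surjective ω ∧ ω.ker = H ∧
        ∀ (v : HeightOneSpectrum (𝓞 K)) (hv : v.asIdeal ⊔ 𝔪 = ⊤) (Q : HeightOneSpectrum (𝓞 L))
          (τ : L ≃ₐ[K] L), Q.asIdeal.under (𝓞 K) = v.asIdeal →
          IsArithFrobAt (𝓞 K) τ Q.asIdeal → ω (rayClass h𝔪 ⟨primeIdeal v, hv⟩) = τ := by
  obtain ⟨L, _, _, _, _, hab, hunr, -, ω, hsurj, hker, hω⟩ :=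
    existence_theorem K h𝔪 Set.univ H fun x I hx0 hx1 hpos hI => by
      have hx : IsSemiRay 𝔪 (Set.univ : Set (InfinitePlace K)) x := ⟨hx0, hx1, hpos⟩
      have h1 : rayClass h𝔪 hx.ideal ∈ (⊥ : Subgroup (RayClassGroup 𝔪)) :=
        semiClasses_univ h𝔪 ▸ hx.rayClass_mem h𝔪
      rw [show I = hx.ideal from Subtype.ext (Subtype.ext hI), Subgroup.mem_bot.1 h1]
      exact one_mem H
  refine ⟨L, inferInstance, inferInstance, inferInstance, inferInstance, hab, hunr, ?_, ω, hsurj,
    hker, hω⟩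
  rw [← IsGalois.card_aut_eq_finrank, ← hker, Subgroup.index_ker, MonoidHom.range_eq_top.2 hsurj,
    Nat.card_congr Subgroup.topEquiv.toEquiv]

/-- **An abelian extension is determined by the primes that split in it.** -/
theorem abelian_extension_eq_of_split (L E : Type*) [Field L] [NumberField L] [Field E]
    [NumberField E] [Algebra K L] [Algebra K E] [IsGalois K L] [IsGalois K E]
    (hL : ∀ g h : L ≃ₐ[K] L, g * h = h * g) (hE : ∀ g h : E ≃ₐ[K] E, g * h = h * g)
    {B : Set (HeightOneSpectrum (𝓞 K))} (hB : B.Finite)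
    (h : ∀ v ∉ B, (∃ Q : HeightOneSpectrum (𝓞 L), Ideal.relNorm (𝓞 K) Q.asIdeal = v.asIdeal) ↔
      ∃ Q : HeightOneSpectrum (𝓞 E), Ideal.relNorm (𝓞 K) Q.asIdeal = v.asIdeal) :
    Nonempty (L ≃ₐ[K] E) := by
  haveI : IsMulCommutative (L ≃ₐ[K] L) := ⟨⟨hL⟩⟩
  haveI : IsMulCommutative (E ≃ₐ[K] E) := ⟨⟨hE⟩⟩
  have hfin := hB.union ((finite_isRam K L).union (finite_isRam K E))
  obtain ⟨f⟩ := exists_algHom_of_split (L := L) (E := E) hfin fun v hv h1 => by
    simp only [Set.mem_union, Set.mem_ofPred_eq, not_or] at hv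
    exact artinAt_eq_one_of_relNorm hv.2.2 ((h v hv.1).1 (exists_relNorm_eq h1))
  obtain ⟨g⟩ := exists_algHom_of_split (L := E) (E := L) hfin fun v hv h1 => by
    simp only [Set.mem_union, Set.mem_ofPred_eq, not_or] at hv
    exact artinAt_eq_one_of_relNorm hv.2.1 ((h v hv.1).2 (exists_relNorm_eq h1))
  exact ⟨AlgEquiv.ofBijective g ⟨g.toRingHom.injective,
    (LinearMap.injective_iff_surjective_of_finrank_eq_finrank (f := g.toLinearMap)
      (le_antisymm
        (LinearMap.finrank_le_finrank_of_injective (f := g.toLinearMap) g.toRingHom.injective)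
        (LinearMap.finrank_le_finrank_of_injective (f := f.toLinearMap) f.toRingHom.injective))).1
      g.toRingHom.injective⟩⟩

/-- **The Hilbert class field.** -/
theorem hilbert_class_field :
    ∃ (L : Type u) (_ : Field L) (_ : NumberField L) (_ : Algebra K L) (_ : IsGalois K L),
      Algebra.Unramified (𝓞 K) (𝓞 L) ∧ IsUnramifiedAtInfinitePlaces K L ∧
      Module.finrank K L = classNumber K ∧
      (∃ e : ClassGroup (𝓞 K) ≃* (L ≃ₐ[K] L),
        ∀ (Q : HeightOneSpectrum (𝓞 L)) (τ : L ≃ₐ[K] L), IsArithFrobAt (𝓞 K) τ Q.asIdeal →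
          e (ClassGroup.mk0 (primeIdeal (Q.under (𝓞 K)))) = τ) ∧
      (∀ v : HeightOneSpectrum (𝓞 K), Submodule.IsPrincipal v.asIdeal ↔
        ∃ Q : HeightOneSpectrum (𝓞 L), Ideal.relNorm (𝓞 K) Q.asIdeal = v.asIdeal) ∧
      ∀ (E : Type u) [Field E] [NumberField E] [Algebra K E] [IsGalois K E],
        (∀ g h : E ≃ₐ[K] E, g * h = h * g) → Algebra.Unramified (𝓞 K) (𝓞 E) →
          IsUnramifiedAtInfinitePlaces K E → Nonempty (E →ₐ[K] L) := by
  obtain ⟨L, _, _, _, _, hc, hunr, hinf, ⟨e, he⟩, hL⟩ := exists_hilbertClassField K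
  haveI := hunr
  refine ⟨L, inferInstance, inferInstance, inferInstance, inferInstance, hunr, hinf, ?_,
    ⟨e, fun Q τ hτ => ?_⟩, fun v => ?_, fun E _ _ _ _ hab hE hE' => ?_⟩
  · rw [← IsGalois.card_aut_eq_finrank, ← Nat.card_congr e.toEquiv, classNumber,
      Nat.card_eq_fintype_card]
  · rw [he]
    exact (artinAt_eq (not_isRam_of_unramified _) rfl hτ).symm
  · have hmk : Submodule.IsPrincipal v.asIdeal ↔ artinAt L v = 1 := by
      rw [← he, MulEquiv.map_eq_one_iff, primeIdeal, ClassGroup.mk0_eq_one_iff]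
    exact hmk.trans ⟨fun h => exists_relNorm_eq h,
      artinAt_eq_one_of_relNorm (not_isRam_of_unramified v)⟩
  · haveI : IsMulCommutative (E ≃ₐ[K] E) := ⟨⟨hab⟩⟩
    haveI := hE
    haveI := hE'
    exact exists_algHom_hilbertClassField K hL not_isRam_of_unramified

end FA.Summary

end
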