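import Fermat.Agent.CMRayClass.Invariant
import Fermat.Agent.Root.SummaryExistenceTheorem

/-!
# The Hilbert class field of an imaginary quadratic field

`hilbertClassField_eq_adjoin_j`: if `E` over a number field has multiplication by the maximal order
of `K = ℚ(√d)` then `K(j(E))` is the Hilbert class field of `K`: it has degree `h_K` over `K`, it is
the image of an extension unramified everywhere whose group is the class group through Frobenius,
and it contains every abelian extension of `K` unramified everywhere.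
-/

set_option autoImplicit false
set_option linter.style.haveILetI false
set_option linter.unusedSectionVars false

noncomputable section

open WeierstrassCurve NumberField IsDedekindDomain Module FA.CMRayClass
open FA.Ext (primeIdeal)
open scoped Classical nonZeroDivisors

local notation "Qb" => AlgebraicClosure ℚ
local notation "GQ" => AlgebraicClosure ℚ ≃ₐ[ℚ] AlgebraicClosure ℚ

namespace FA.Summary

/-- **`K(j)` is the Hilbert class field.** -/
theorem hilbertClassField_eq_adjoin_j {d : ℤ} (hd : Squarefree d) (hd0 : d < 0)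
    (F : IntermediateField ℚ (AlgebraicClosure ℚ)) [FiniteDimensional ℚ F]
    (E : WeierstrassCurve F) [E.IsElliptic] (ψ : F →+* ℂ) {L : PeriodPair}
    (h2 : L.g₂ = ψ E.c₄ / 12) (h3 : L.g₃ = ψ E.c₆ / 216)
    (hring : ∀ w : ℂ, (∀ l ∈ L.lattice, w * l ∈ L.lattice) ↔
      ∃ u v : ℤ, w = (u : ℂ) + (v : ℂ) * ((((if d % 4 = 1 then d else 4 * d : ℤ)) : ℂ) +
        Complex.I * (Real.sqrt (-((if d % 4 = 1 then d else 4 * d : ℤ) : ℝ)) : ℂ)) / 2)
    {s : AlgebraicClosure ℚ} (hs : s ^ 2 = (d : AlgebraicClosure ℚ))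
    [NumberField (IntermediateField.adjoin ℚ {s})] :
    finrank ℚ (IntermediateField.adjoin ℚ ({s, (E.j : AlgebraicClosure ℚ)} : Set _)) =
        2 * classNumber (IntermediateField.adjoin ℚ {s}) ∧
    (∀ σ τ : GQ, σ s = s → τ s = s →
      ∀ x ∈ IntermediateField.adjoin ℚ ({s, (E.j : AlgebraicClosure ℚ)} : Set _),
        (σ * τ * σ⁻¹ * τ⁻¹) x = x) ∧
    (∃ (H : Type) (_ : Field H) (_ : NumberField H)
        (_ : Algebra (IntermediateField.adjoin ℚ {s}) H)
        (_ : IsGalois (IntermediateField.adjoin ℚ {s}) H)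
        (ι : H →ₐ[IntermediateField.adjoin ℚ {s}] AlgebraicClosure ℚ)
        (e : ClassGroup (𝓞 (IntermediateField.adjoin ℚ {s})) ≃*
          (H ≃ₐ[IntermediateField.adjoin ℚ {s}] H)),
      Algebra.Unramified (𝓞 (IntermediateField.adjoin ℚ {s})) (𝓞 H) ∧
      (∀ (Q : HeightOneSpectrum (𝓞 H)) (τ : H ≃ₐ[IntermediateField.adjoin ℚ {s}] H),
        IsArithFrobAt (𝓞 (IntermediateField.adjoin ℚ {s})) τ Q.asIdeal →
          e (ClassGroup.mk0 (primeIdeal (Q.under (𝓞 (IntermediateField.adjoin ℚ {s}))))) = τ) ∧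
      Set.range ι = (IntermediateField.adjoin ℚ ({s, (E.j : AlgebraicClosure ℚ)} : Set _) :
        Set (AlgebraicClosure ℚ))) ∧
    ∀ (M : Type) [Field M] [NumberField M] [Algebra (IntermediateField.adjoin ℚ {s}) M]
      [IsGalois (IntermediateField.adjoin ℚ {s}) M],
      (∀ g h : M ≃ₐ[IntermediateField.adjoin ℚ {s}] M, g * h = h * g) →
        Algebra.Unramified (𝓞 (IntermediateField.adjoin ℚ {s})) (𝓞 M) →
          IsUnramifiedAtInfinitePlaces (IntermediateField.adjoin ℚ {s}) M →
            ∀ (ι : M →ₐ[IntermediateField.adjoin ℚ {s}] AlgebraicClosure ℚ) (z : M),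
              ι z ∈ IntermediateField.adjoin ℚ ({s, (E.j : AlgebraicClosure ℚ)} : Set _) := by
  have hring' : FA.CMFields.IsMultiplierRing L (FA.FieldClassBound.discK d) := fun w =>
    (hring w).trans (by simp only [FA.CMFields.omega, FA.FieldClassBound.discK, mul_div_assoc])
  haveI : IsGalois ℚ Qb := FA.EC.isGalois_algebraicClosure
  obtain ⟨hdeg, E', hE', ψ', L', h2', h3', hring''⟩ :=
    exists_curve_adjoin_j E ψ (FA.FieldClassBound.discK_neg hd0) h2 h3 hring'
  haveI : FiniteDimensional ℚ (IntermediateField.adjoin ℚ {(E.j : Qb)}) :=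
    IntermediateField.adjoin.finiteDimensional (Algebra.IsIntegral.isIntegral _)
  set M₁ := IntermediateField.adjoin ℚ ({s, (E.j : Qb)} : Set Qb) with hM₁
  have hsup : M₁ = IntermediateField.adjoin ℚ {s} ⊔ IntermediateField.adjoin ℚ {(E.j : Qb)} := by
    rw [← IntermediateField.gc.l_sup]; rfl
  have hK := FA.Jugendtraum.finrank_adjoin_sqrt hd0 hs
  have hupper : finrank ℚ M₁ ≤ 2 * classNumber (IntermediateField.adjoin ℚ {s}) := by
    rw [hsup, classNumber_adjoin hd hd0 hs]
    refine (IntermediateField.finrank_sup_le _ _).trans ?_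
    rw [hK, hdeg]
  obtain ⟨H, _, _, _, _, hunr, -, hrank, ⟨e, he⟩, -, hmax⟩ :=
    hilbert_class_field (IntermediateField.adjoin ℚ {s})
  have habH : ∀ g h : H ≃ₐ[IntermediateField.adjoin ℚ {s}] H, g * h = h * g := fun g h => by
    obtain ⟨a, rfl⟩ := e.surjective g
    obtain ⟨b, rfl⟩ := e.surjective h
    rw [← map_mul, ← map_mul, mul_comm]
  haveI : Algebra.IsAlgebraic (IntermediateField.adjoin ℚ {s}) H :=
    Algebra.IsAlgebraic.of_finite _ _
  let ι : H →ₐ[IntermediateField.adjoin ℚ {s}] Qb := IsAlgClosed.lift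
  have hmem : ∀ z : H, ι z ∈ M₁ := fun z => by
    rw [← InfiniteGalois.fixedField_fixingSubgroup M₁, IntermediateField.mem_fixedField_iff]
    intro σ hσ
    rw [IntermediateField.mem_fixingSubgroup_iff] at hσ
    refine fixed_of_level (IntermediateField.adjoin ℚ {(E.j : Qb)}) E' ψ' hd hd0
      ⟨L', h2', h3', exists_multiplier_mem hd0 hring''⟩ hs
      (FA.ArtinRec.unitModulus_ne_bot _) (n := 1) one_ne_zero Submodule.mem_top
      (e.toMonoidHom.comp (FA.ArtinRec.toClassGroup _)) (fun v hv Q τ hQ hτ => ?_) ι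
      (hσ s (IntermediateField.subset_adjoin ℚ _ (Set.mem_insert _ _)))
      (fun y hy => hσ y (IntermediateField.adjoin_simple_le_iff.mpr
        (IntermediateField.subset_adjoin ℚ _ (Set.mem_insert_of_mem s (Set.mem_singleton _))) hy))
      (fun P hP => ?_) z
    · show e (FA.ArtinRec.toClassGroup _ _) = τ
      obtain rfl : v = Q.under (𝓞 (IntermediateField.adjoin ℚ {s})) :=
        HeightOneSpectrum.ext hQ.symm
      rw [FA.ArtinRec.toClassGroup_apply]
      exact he Q τ hτ
    · rw [one_nsmul] at hP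
      subst hP
      exact map_zero σ
  let ιℚ : H →ₐ[ℚ] Qb := ι.toRingHom.toRatAlgHom
  haveI : FiniteDimensional ℚ M₁ := by
    rw [hsup]
    haveI := Module.finite_of_finrank_pos (R := ℚ)
      (M := IntermediateField.adjoin ℚ {s}) (by rw [hK]; exact two_pos)
    exact IntermediateField.finiteDimensional_sup _ _
  have hH : finrank ℚ ιℚ.fieldRange = 2 * classNumber (IntermediateField.adjoin ℚ {s}) := by
    show finrank ℚ ιℚ.range = _
    rw [← (AlgEquiv.ofInjectiveField ιℚ).toLinearEquiv.finrank_eq,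
      ← finrank_mul_finrank ℚ (IntermediateField.adjoin ℚ {s}) H, hK, hrank]
  have heq : ιℚ.fieldRange = M₁ := IntermediateField.eq_of_le_of_finrank_le
    (by rintro _ ⟨z, rfl⟩; exact hmem z) (hupper.trans hH.ge)
  refine ⟨heq ▸ hH, fun σ τ hσ hτ x hx => ?_,
    ⟨H, inferInstance, inferInstance, inferInstance, inferInstance, ι, e, hunr, he, ?_⟩,
    fun M _ _ _ _ hab hM hM' ι' z => ?_⟩
  · rw [← heq] at hx
    obtain ⟨z, rfl⟩ := hx
    exact commutator_fix habH ι hσ hτ z
  · rw [← heq]; rfl
  · obtain ⟨g⟩ := hmax M hab hM hM'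
    obtain ⟨y, hy⟩ := apply_mem_range (ι.comp g) ι' z
    rw [← hy]
    exact hmem _

end FA.Summary

end
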