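import Fermat.Agent.CMHomothety.Conjugates

/-!
# Homotheties in the image of Galois with complex multiplication

Let `E` over a number field `F ⊆ ℚ̄` have a multiplier outside `ℤ`, and let the multipliers be the
order of discriminant `D`.

* `cm_homothety_index_le`: for `D < -4` and every `n` the units `c` modulo `n` whose multiplication
  on `E[n]` comes from an automorphism fixing `F(√D)` have index at most `2 [F : ℚ]`.
* `cm_homothety_uniform`: so with `m = (2 δ)!`, for all such curves over all fields of degree at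
  most `δ`, all `n` and all `c` prime to `n`, multiplication by `c ^ m` comes from Galois.
* `cm_conjugates_ge`: a point of exact order `n` of `E(ℚ̄)` has at least `φ(n) / (2 [F : ℚ])`
  conjugates over `F` for `D < -4`, and at least `φ(n) / (6 [F : ℚ])` for every such curve
  (`cm_conjugates_ge_all`).
* `cm_torsion_few_conjugates_finite`: so for each `δ` only finitely many torsion points of `E(ℚ̄)`
  have at most `δ` conjugates, all of order at most `72 (δ [F : ℚ]) ^ 2`.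
-/

set_option autoImplicit false
set_option linter.style.haveILetI false
set_option linter.unusedSectionVars false

noncomputable section

open WeierstrassCurve NumberField Module FA.CMTorsionAllOrders FA.CMHomothety
open scoped WeierstrassCurve.Affine Classical

namespace FA.Summary

section Order

variable (F : IntermediateField ℚ (AlgebraicClosure ℚ)) [FiniteDimensional ℚ F]
  (E : WeierstrassCurve F) [E.IsElliptic] (ψ : F →+* ℂ) {L : PeriodPair}
  (h2 : L.g₂ = ψ E.c₄ / 12) (h3 : L.g₃ = ψ E.c₆ / 216) {D : ℤ} (hD : D < -4)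
  (hring : ∀ w : ℂ, (∀ l ∈ L.lattice, w * l ∈ L.lattice) ↔
    ∃ u v : ℤ, w = (u : ℂ) + (v : ℂ) *
      (((D : ℂ) + Complex.I * (Real.sqrt (-(D : ℝ)) : ℂ)) / 2))
include h2 h3 hD hring

/-- **Uniform homotheties**: the scalars in the image of Galois on `E[n]` have index at most
`2 [F : ℚ]`. -/
theorem cm_homothety_index_le {n : ℕ} (hn : n ≠ 0) :
    ∃ U : Subgroup (ZMod n)ˣ, U.index ≤ 2 * finrank ℚ F ∧
      ∀ c ∈ U, ∃ σ : AlgebraicClosure ℚ ≃ₐ[F] AlgebraicClosure ℚ,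
        (∀ r : AlgebraicClosure ℚ, r ^ 2 = (D : AlgebraicClosure ℚ) → σ r = r) ∧
        ∀ z : ℤ, (z : ZMod n) = (c : ZMod n) →
          ∀ Q : (E.toAffine⁄(AlgebraicClosure ℚ)).Point, n • Q = 0 → σ • Q = z • Q := by
  obtain ⟨d, f, hd, hd0, -, hDdf⟩ := exists_squarefree_mul_sq (show D < 0 by omega)
  obtain ⟨s, hs⟩ := IsAlgClosed.exists_pow_nat_eq (d : AlgebraicClosure ℚ) two_pos
  haveI : FiniteDimensional ℚ (IntermediateField.adjoin ℚ {s}) :=
    IntermediateField.adjoin.finiteDimensional (Algebra.IsIntegral.isIntegral s)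
  haveI : NumberField (IntermediateField.adjoin ℚ {s}) := { }
  refine ⟨scalarGroup E s n, (scalarGroup_index_le F E ψ hd hd0 hDdf hD h2 h3 hring hs hn).trans
    ((IntermediateField.finrank_sup_le _ _).trans ?_), fun c hc => ?_⟩
  · rw [FA.Jugendtraum.finrank_adjoin_sqrt hd0 hs, mul_comm]
  obtain ⟨σ, hσs, hσ⟩ := hc
  refine ⟨σ, fun r hr => ?_, hσ⟩
  have hrs : r ^ 2 = ((f : AlgebraicClosure ℚ) * s) ^ 2 := by
    rw [hr, hDdf, mul_pow, hs]
    push_cast
    ring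
  rcases sq_eq_sq_iff_eq_or_eq_neg.mp hrs with rfl | rfl <;>
    simp [map_mul, map_neg, map_intCast, hσs]

/-- **Conjugates of torsion points**, `D < -4`: at least `φ(n) / (2 [F : ℚ])`. -/
theorem cm_conjugates_ge {n : ℕ} (hn : n ≠ 0) {Q : (E.toAffine⁄(AlgebraicClosure ℚ)).Point}
    (hQ : addOrderOf Q = n) :
    n.totient ≤ 2 * finrank ℚ F *
      (Set.range fun σ : AlgebraicClosure ℚ ≃ₐ[F] AlgebraicClosure ℚ => σ • Q).ncard := by
  haveI : NeZero n := ⟨hn⟩
  obtain ⟨d, f, hd, hd0, -, hDdf⟩ := exists_squarefree_mul_sq (show D < 0 by omega)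
  obtain ⟨s, hs⟩ := IsAlgClosed.exists_pow_nat_eq (d : AlgebraicClosure ℚ) two_pos
  haveI : FiniteDimensional ℚ (IntermediateField.adjoin ℚ {s}) :=
    IntermediateField.adjoin.finiteDimensional (Algebra.IsIntegral.isIntegral s)
  haveI : NumberField (IntermediateField.adjoin ℚ {s}) := { }
  have hi := (scalarGroup_index_le F E ψ hd hd0 hDdf hD h2 h3 hring hs hn).trans
    ((IntermediateField.finrank_sup_le _ _).trans_eq
      (by rw [FA.Jugendtraum.finrank_adjoin_sqrt hd0 hs, mul_comm]))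
  calc n.totient = (scalarGroup E s n).index * Nat.card (scalarGroup E s n) := by
        rw [Subgroup.index_mul_card, Nat.card_eq_fintype_card, ZMod.card_units_eq_totient]
    _ ≤ _ := Nat.mul_le_mul hi (card_scalarGroup_le E s hn hQ)

end Order

/-- **Uniform homotheties in a fixed degree**: multiplication by `c ^ (2 δ)!` comes from Galois. -/
theorem cm_homothety_uniform (δ : ℕ) (F : IntermediateField ℚ (AlgebraicClosure ℚ))
    [FiniteDimensional ℚ F] (hδ : finrank ℚ F ≤ δ) (E : WeierstrassCurve F) [E.IsElliptic]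
    (ψ : F →+* ℂ) {L : PeriodPair} (h2 : L.g₂ = ψ E.c₄ / 12) (h3 : L.g₃ = ψ E.c₆ / 216) {D : ℤ}
    (hD : D < -4)
    (hring : ∀ w : ℂ, (∀ l ∈ L.lattice, w * l ∈ L.lattice) ↔
      ∃ u v : ℤ, w = (u : ℂ) + (v : ℂ) *
        (((D : ℂ) + Complex.I * (Real.sqrt (-(D : ℝ)) : ℂ)) / 2))
    {n : ℕ} (hn : n ≠ 0) {c : ℤ} (hc : IsCoprime c (n : ℤ)) :
    ∃ σ : AlgebraicClosure ℚ ≃ₐ[F] AlgebraicClosure ℚ,
      ∀ Q : (E.toAffine⁄(AlgebraicClosure ℚ)).Point, n • Q = 0 →
        σ • Q = (c ^ (2 * δ).factorial) • Q := by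
  haveI : NeZero n := ⟨hn⟩
  obtain ⟨U, hU, hsc⟩ := cm_homothety_index_le F E ψ h2 h3 hD hring hn
  set u : (ZMod n)ˣ := ZMod.unitOfIsCoprime c hc with hu
  have hpos : 0 < U.index := Nat.pos_of_ne_zero Subgroup.index_ne_zero_of_finite
  obtain ⟨k, hk⟩ := Nat.dvd_factorial hpos (hU.trans (Nat.mul_le_mul_left 2 hδ))
  have hmem : u ^ (2 * δ).factorial ∈ U := by
    rw [hk, pow_mul]
    exact pow_mem (Subgroup.pow_index_mem U u) k
  obtain ⟨σ, -, hσ⟩ := hsc _ hmem
  exact ⟨σ, hσ _ (by rw [Units.val_pow_eq_pow_val, hu, ZMod.coe_unitOfIsCoprime]; push_cast; rfl)⟩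

/-- **Conjugates of torsion points**, every curve with complex multiplication: at least
`φ(n) / (6 [F : ℚ])`. -/
theorem cm_conjugates_ge_all (F : IntermediateField ℚ (AlgebraicClosure ℚ))
    [FiniteDimensional ℚ F] (E : WeierstrassCurve F) [E.IsElliptic] (ψ : F →+* ℂ) {L : PeriodPair}
    (h2 : L.g₂ = ψ E.c₄ / 12) (h3 : L.g₃ = ψ E.c₆ / 216)
    (hcm : ∃ ω : ℂ, (∀ m : ℤ, ω ≠ m) ∧ ∀ l ∈ L.lattice, ω * l ∈ L.lattice)
    {n : ℕ} (hn : n ≠ 0) {Q : (E.toAffine⁄(AlgebraicClosure ℚ)).Point} (hQ : addOrderOf Q = n) :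
    n.totient ≤ 6 * finrank ℚ F *
      (Set.range fun σ : AlgebraicClosure ℚ ≃ₐ[F] AlgebraicClosure ℚ => σ • Q).ncard :=
  totient_le_conjugates E ψ h2 h3 hcm hn hQ

/-- **Finitely many torsion points with few conjugates.** -/
theorem cm_torsion_few_conjugates_finite (F : IntermediateField ℚ (AlgebraicClosure ℚ))
    [FiniteDimensional ℚ F] (E : WeierstrassCurve F) [E.IsElliptic] (ψ : F →+* ℂ) {L : PeriodPair}
    (h2 : L.g₂ = ψ E.c₄ / 12) (h3 : L.g₃ = ψ E.c₆ / 216)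
    (hcm : ∃ ω : ℂ, (∀ m : ℤ, ω ≠ m) ∧ ∀ l ∈ L.lattice, ω * l ∈ L.lattice) (δ : ℕ) :
    {Q : (E.toAffine⁄(AlgebraicClosure ℚ)).Point | IsOfFinAddOrder Q ∧
        (Set.range fun σ : AlgebraicClosure ℚ ≃ₐ[F] AlgebraicClosure ℚ => σ • Q).ncard ≤ δ}.Finite ∧
      ∀ Q : (E.toAffine⁄(AlgebraicClosure ℚ)).Point, IsOfFinAddOrder Q →
        (Set.range fun σ : AlgebraicClosure ℚ ≃ₐ[F] AlgebraicClosure ℚ => σ • Q).ncard ≤ δ →
          addOrderOf Q ≤ 72 * (δ * finrank ℚ F) ^ 2 := by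
  have key : ∀ Q : (E.toAffine⁄(AlgebraicClosure ℚ)).Point, IsOfFinAddOrder Q →
      (Set.range fun σ : AlgebraicClosure ℚ ≃ₐ[F] AlgebraicClosure ℚ => σ • Q).ncard ≤ δ →
        addOrderOf Q ≤ 72 * (δ * finrank ℚ F) ^ 2 := by
    intro Q hQ hδ
    have h6 := (cm_conjugates_ge_all F E ψ h2 h3 hcm hQ.addOrderOf_pos.ne' rfl).trans
      (Nat.mul_le_mul_left _ hδ)
    set n := addOrderOf Q
    calc n ≤ n.gcd 2 * n.totient ^ 2 := FA.ConductorDiscr.le_gcd_two_mul_totient_sq n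
      _ ≤ 2 * (6 * finrank ℚ F * δ) ^ 2 :=
        Nat.mul_le_mul (Nat.le_of_dvd two_pos (Nat.gcd_dvd_right n 2)) (Nat.pow_le_pow_left h6 2)
      _ = _ := by ring
  refine ⟨Set.Finite.subset (Set.Finite.biUnion
    (Set.finite_Icc 1 (72 * (δ * finrank ℚ F) ^ 2))
    fun n hn => FA.IsogenyNF.finite_nsmul_eq_zero (W := E) (Kb := AlgebraicClosure ℚ)
      (show n ≠ 0 by have := hn.1; omega)) ?_, key⟩
  rintro Q ⟨hQ, hδ⟩
  exact Set.mem_biUnion (Set.mem_Icc.mpr ⟨hQ.addOrderOf_pos, key Q hQ hδ⟩)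
    (addOrderOf_nsmul_eq_zero Q)

end FA.Summary

end
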