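import Fermat.Agent.Tau.CMCriterion
import Fermat.Agent.Root.SummaryExceptionalNine

/-!
# Complex multiplication over `ℚ`: thirteen invariants

An elliptic curve over `ℚ` has complex multiplication, that is, its lattice has a multiplier
outside `ℤ`, exactly when `j` is one of thirteen integers; the adelic image of Galois is open
exactly when no such curve has the same L-function.
-/

set_option autoImplicit false

noncomputable section

open WeierstrassCurve WeierstrassCurve.Affine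

namespace FA.Summary

/-- **Complex multiplication over `ℚ` means one of thirteen values of `j`.** -/
theorem cmLattice_iff_thirteen (E : WeierstrassCurve ℚ) [E.IsElliptic] :
    (∃ L : PeriodPair, L.g₂ = (E.c₄ : ℂ) / 12 ∧ L.g₃ = (E.c₆ : ℂ) / 216 ∧
      ∃ ω : ℂ, (∀ m : ℤ, ω ≠ m) ∧ ∀ l ∈ L.lattice, ω * l ∈ L.lattice) ↔
    E.j ∈ ({0, 1728, -3375, 8000, -32768, 54000, 287496, -884736, -12288000, 16581375,
      -884736000, -147197952000, -262537412640768000} : Finset ℚ) :=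
  FA.CMLattice.hasCM_iff

/-- **Serre's open image theorem, up to the L-function**: the adelic image is open iff no curve
with complex multiplication has the same L-function. -/
theorem openImage_iff_no_cmLattice_LFunction (E : WeierstrassCurve ℚ) [E.IsElliptic]
    [inst : DecidableEq (AlgebraicClosure ℚ)] :
    (∃ m : ℕ, 0 < m ∧ ∀ (N : ℕ), N ≠ 0 →
      ∀ φ : Submodule.torsionBy ℤ (E.toAffine⁄(AlgebraicClosure ℚ)).Point (N : ℤ) ≃+
        Submodule.torsionBy ℤ (E.toAffine⁄(AlgebraicClosure ℚ)).Point (N : ℤ),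
      (∀ P, m • P.1 = 0 → φ P = P) →
        ∃ σ : AlgebraicClosure ℚ ≃ₐ[ℚ] AlgebraicClosure ℚ, ∀ P,
          Affine.Point.map σ.toAlgHom P.1 = (φ P).1) ↔
    ¬ ∃ (E₀ : WeierstrassCurve ℚ) (_ : E₀.IsElliptic),
      (∃ L : PeriodPair, L.g₂ = (E₀.c₄ : ℂ) / 12 ∧ L.g₃ = (E₀.c₆ : ℂ) / 216 ∧
        ∃ ω : ℂ, (∀ m : ℤ, ω ≠ m) ∧ ∀ l ∈ L.lattice, ω * l ∈ L.lattice) ∧
      E.LFunction = E₀.LFunction := by
  rw [openImage_iff_not_cm_LFunction E]
  refine not_congr (exists_congr fun E₀ => exists_congr fun _ => and_congr_left' ?_)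
  rw [cmLattice_iff_thirteen]
  simp only [Finset.mem_insert, Finset.mem_singleton]
  norm_num
  tauto

/-- **A curve with complex multiplication never has open image.** -/
theorem not_openImage_of_cmLattice (E : WeierstrassCurve ℚ) [E.IsElliptic]
    [inst : DecidableEq (AlgebraicClosure ℚ)]
    (h : ∃ L : PeriodPair, L.g₂ = (E.c₄ : ℂ) / 12 ∧ L.g₃ = (E.c₆ : ℂ) / 216 ∧
      ∃ ω : ℂ, (∀ m : ℤ, ω ≠ m) ∧ ∀ l ∈ L.lattice, ω * l ∈ L.lattice) :
    ¬ ∃ m : ℕ, 0 < m ∧ ∀ (N : ℕ), N ≠ 0 →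
      ∀ φ : Submodule.torsionBy ℤ (E.toAffine⁄(AlgebraicClosure ℚ)).Point (N : ℤ) ≃+
        Submodule.torsionBy ℤ (E.toAffine⁄(AlgebraicClosure ℚ)).Point (N : ℤ),
      (∀ P, m • P.1 = 0 → φ P = P) →
        ∃ σ : AlgebraicClosure ℚ ≃ₐ[ℚ] AlgebraicClosure ℚ, ∀ P,
          Affine.Point.map σ.toAlgHom P.1 = (φ P).1 :=
  fun hopen => (openImage_iff_no_cmLattice_LFunction E).mp hopen ⟨E, inferInstance, h, rfl⟩

end FA.Summary

end
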