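import Fermat.Agent.DeuringCM.Multiplicity

/-!
# Reduction and strong multiplicity one for complex multiplication over number fields

Let curves over a number field `F` with integral models `W₀`, `W₀'` have multipliers in `ℚ(√d)`,
`ℚ(√d')` for squarefree `d, d' < 0`. Counts are of places of norm at most `n`, times `log n / n`.

* `deuring_reduction`: at a good place over `p`, `p ∤ a_v` exactly when `d` is a nonzero square in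
  `ℚ_p` (`d ≡ 1 (mod 8)` at `2`, a nonzero square modulo `p` otherwise), and then
  `a_v² - 4 N v = d b²`;
* `supersingular_density`: the places with `p ∣ a_v` have density `0` if `√d ∈ F`, else `1 / 2`;
* `cm_field_of_common_traces`: if `d ≠ d'` the nonzero traces agree at finitely many places of
  degree one only;
* `cm_strong_multiplicity_one`: if the traces agree on a set of upper density above `3 / 4`, then
  `d = d'` and they agree at every place good for both;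
* `cm_strong_multiplicity_one_sqrt`: with `d = d'` and `√d ∈ F` above `1 / 2` suffices;
* `cm_traces_determined`: so agreement at almost all places gives agreement at all common good ones.

The bad factors and isogenies are not addressed.
-/

set_option autoImplicit false
set_option linter.unusedSectionVars false

noncomputable section

open WeierstrassCurve NumberField IsDedekindDomain Filter Topology
open FA.TraceNF (frobTrace)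
open scoped Classical

namespace FA.Root.CMMultiplicitySummary

variable {F : Type} [Field F] [NumberField F] (W₀ W₀' : WeierstrassCurve (𝓞 F))
  [(W₀.map (algebraMap (𝓞 F) F)).IsElliptic] [(W₀'.map (algebraMap (𝓞 F) F)).IsElliptic]

local notation "W" => W₀.map (algebraMap (𝓞 F) F)
local notation "W'" => W₀'.map (algebraMap (𝓞 F) F)

/-- **Deuring's reduction theorem.** -/
theorem deuring_reduction (ψ : F →+* ℂ) {d : ℤ} (hd : Squarefree d) (hd0 : d < 0)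
    (hcm : ∃ L : PeriodPair, L.g₂ = ψ (W).c₄ / 12 ∧ L.g₃ = ψ (W).c₆ / 216 ∧
      ∃ ω : ℂ, (∀ m : ℤ, ω ≠ m) ∧ (∀ l ∈ L.lattice, ω * l ∈ L.lattice) ∧
        ∃ x y : ℚ, (ω - (x : ℂ)) ^ 2 = (d : ℂ) * (y : ℂ) ^ 2)
    {v : HeightOneSpectrum (𝓞 F)} (hΔ : W₀.Δ ∉ v.asIdeal) {p : ℕ} (hp : p.Prime)
    (hpv : (p : 𝓞 F) ∈ v.asIdeal) :
    (¬ (p : ℤ) ∣ frobTrace W₀ v ↔
      (p = 2 ∧ d % 8 = 1) ∨ (p ≠ 2 ∧ ¬ (p : ℤ) ∣ d ∧ IsSquare (d : ZMod p))) ∧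
    (¬ (p : ℤ) ∣ frobTrace W₀ v →
      ∃ b : ℤ, frobTrace W₀ v ^ 2 - 4 * (Ideal.absNorm v.asIdeal : ℤ) = d * b ^ 2) :=
  FA.DeuringCM.ordinary_iff W₀ ψ hd hd0 hcm hΔ hp hpv

/-- **The density of the supersingular places.** -/
theorem supersingular_density (ψ : F →+* ℂ) {d : ℤ} (hd : Squarefree d) (hd0 : d < 0)
    (hcm : ∃ L : PeriodPair, L.g₂ = ψ (W).c₄ / 12 ∧ L.g₃ = ψ (W).c₆ / 216 ∧
      ∃ ω : ℂ, (∀ m : ℤ, ω ≠ m) ∧ (∀ l ∈ L.lattice, ω * l ∈ L.lattice) ∧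
        ∃ x y : ℚ, (ω - (x : ℂ)) ^ 2 = (d : ℂ) * (y : ℂ) ^ 2) :
    Tendsto (fun n : ℕ => Real.log n / n *
      (Nat.card {v : HeightOneSpectrum (𝓞 F) // Ideal.absNorm v.asIdeal ≤ n ∧
        ∃ p : ℕ, p.Prime ∧ (p : 𝓞 F) ∈ v.asIdeal ∧ (p : ℤ) ∣ frobTrace W₀ v} : ℝ)) atTop
      (𝓝 (if ∃ s : F, s ^ 2 = (d : F) then 0 else 1 / 2)) := by
  obtain ⟨S, hS, hord⟩ := FA.DeuringCM.exists_ordinary_all W₀ ψ hd hd0 hcm
  have key : ∀ m : ℝ, FA.Hecke.HasMean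
      (fun v => if frobTrace W₀ v = 0 then (1 : ℝ) else 0) m →
      FA.Hecke.HasMean (fun v => if ∃ p : ℕ, p.Prime ∧ (p : 𝓞 F) ∈ v.asIdeal ∧
        (p : ℤ) ∣ frobTrace W₀ v then (1 : ℝ) else 0) m := fun m hm => by
    refine FA.Hecke.hasMean_congr S hS (B := 1) (fun v => ?_) (fun v hv hq => ?_) hm
    · split_ifs <;> simp
    · refine if_congr ⟨fun ⟨p, hp, hpv, hpa⟩ => ?_, fun h0 => ⟨_, hq, Ideal.absNorm_mem _,
        h0 ▸ dvd_zero _⟩⟩ rfl rfl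
      by_contra h0
      have hpq : p = Ideal.absNorm v.asIdeal :=
        (Nat.prime_dvd_prime_iff_eq hp hq).mp (FA.DeuringCM.dvd_absNorm_of_mem hp hpv)
      exact (hord v hv).2 hq h0 (hpq ▸ hpa)
  split_ifs with h
  · obtain ⟨s, hs⟩ := h
    exact FA.DeuringCM.tendsto_natCard (key 0
      (by convert (FA.DeuringCM.hasMean_satoTate W₀ ψ hd hd0 hs hcm).2))
  · exact FA.DeuringCM.tendsto_natCard (key _
      (by convert (FA.DeuringCM.hasMean_satoTate_descended W₀ ψ hd hd0 h hcm).2))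

/-- **Different fields of multiplication.** -/
theorem cm_field_of_common_traces (ψ ψ' : F →+* ℂ) {d d' : ℤ} (hd : Squarefree d) (hd0 : d < 0)
    (hd' : Squarefree d') (hd0' : d' < 0)
    (hcm : ∃ L : PeriodPair, L.g₂ = ψ (W).c₄ / 12 ∧ L.g₃ = ψ (W).c₆ / 216 ∧
      ∃ ω : ℂ, (∀ m : ℤ, ω ≠ m) ∧ (∀ l ∈ L.lattice, ω * l ∈ L.lattice) ∧
        ∃ x y : ℚ, (ω - (x : ℂ)) ^ 2 = (d : ℂ) * (y : ℂ) ^ 2)
    (hcm' : ∃ L : PeriodPair, L.g₂ = ψ' (W').c₄ / 12 ∧ L.g₃ = ψ' (W').c₆ / 216 ∧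
      ∃ ω : ℂ, (∀ m : ℤ, ω ≠ m) ∧ (∀ l ∈ L.lattice, ω * l ∈ L.lattice) ∧
        ∃ x y : ℚ, (ω - (x : ℂ)) ^ 2 = (d' : ℂ) * (y : ℂ) ^ 2)
    (h : {v : HeightOneSpectrum (𝓞 F) | (Ideal.absNorm v.asIdeal).Prime ∧
      frobTrace W₀ v = frobTrace W₀' v ∧ frobTrace W₀ v ≠ 0}.Infinite) : d = d' := by
  by_contra hne
  exact h (FA.DeuringCM.finite_common_trace W₀ W₀' ψ ψ' hd hd0 hd' hd0' hcm hcm' hne)

/-- **Strong multiplicity one.** -/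
theorem cm_strong_multiplicity_one (ψ ψ' : F →+* ℂ) {d d' : ℤ} (hd : Squarefree d) (hd0 : d < 0)
    (hd' : Squarefree d') (hd0' : d' < 0)
    (hcm : ∃ L : PeriodPair, L.g₂ = ψ (W).c₄ / 12 ∧ L.g₃ = ψ (W).c₆ / 216 ∧
      ∃ ω : ℂ, (∀ m : ℤ, ω ≠ m) ∧ (∀ l ∈ L.lattice, ω * l ∈ L.lattice) ∧
        ∃ x y : ℚ, (ω - (x : ℂ)) ^ 2 = (d : ℂ) * (y : ℂ) ^ 2)
    (hcm' : ∃ L : PeriodPair, L.g₂ = ψ' (W').c₄ / 12 ∧ L.g₃ = ψ' (W').c₆ / 216 ∧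
      ∃ ω : ℂ, (∀ m : ℤ, ω ≠ m) ∧ (∀ l ∈ L.lattice, ω * l ∈ L.lattice) ∧
        ∃ x y : ℚ, (ω - (x : ℂ)) ^ 2 = (d' : ℂ) * (y : ℂ) ^ 2)
    {c : ℝ} (hc : 3 / 4 < c)
    (h : ∃ᶠ n : ℕ in atTop, c ≤ Real.log n / n * (Nat.card {v : HeightOneSpectrum (𝓞 F) //
      Ideal.absNorm v.asIdeal ≤ n ∧ frobTrace W₀ v = frobTrace W₀' v} : ℝ)) :
    d = d' ∧ ∀ v : HeightOneSpectrum (𝓞 F), W₀.Δ ∉ v.asIdeal → W₀'.Δ ∉ v.asIdeal →
      frobTrace W₀ v = frobTrace W₀' v :=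
  (FA.DeuringCM.equal_or_threeQuarters W₀ W₀' ψ ψ' hd hd0 hd' hd0' hcm hcm').resolve_right
    fun hu => FA.DeuringCM.not_frequently_count hc (by convert hu) h

/-- **The bound `1 / 2` inside `F`.** -/
theorem cm_strong_multiplicity_one_sqrt (ψ ψ' : F →+* ℂ) {d : ℤ} (hd : Squarefree d) (hd0 : d < 0)
    {s : F} (hs : s ^ 2 = (d : F))
    (hcm : ∃ L : PeriodPair, L.g₂ = ψ (W).c₄ / 12 ∧ L.g₃ = ψ (W).c₆ / 216 ∧
      ∃ ω : ℂ, (∀ m : ℤ, ω ≠ m) ∧ (∀ l ∈ L.lattice, ω * l ∈ L.lattice) ∧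
        ∃ x y : ℚ, (ω - (x : ℂ)) ^ 2 = (d : ℂ) * (y : ℂ) ^ 2)
    (hcm' : ∃ L : PeriodPair, L.g₂ = ψ' (W').c₄ / 12 ∧ L.g₃ = ψ' (W').c₆ / 216 ∧
      ∃ ω : ℂ, (∀ m : ℤ, ω ≠ m) ∧ (∀ l ∈ L.lattice, ω * l ∈ L.lattice) ∧
        ∃ x y : ℚ, (ω - (x : ℂ)) ^ 2 = (d : ℂ) * (y : ℂ) ^ 2)
    {c : ℝ} (hc : 1 / 2 < c)
    (h : ∃ᶠ n : ℕ in atTop, c ≤ Real.log n / n * (Nat.card {v : HeightOneSpectrum (𝓞 F) //
      Ideal.absNorm v.asIdeal ≤ n ∧ frobTrace W₀ v = frobTrace W₀' v} : ℝ))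
    {v : HeightOneSpectrum (𝓞 F)} (hΔ : W₀.Δ ∉ v.asIdeal) (hΔ' : W₀'.Δ ∉ v.asIdeal) :
    frobTrace W₀ v = frobTrace W₀' v :=
  (FA.DeuringCM.equal_or_half W₀ W₀' ψ ψ' hd hd0 hs hcm hcm').resolve_right
    (fun hu => FA.DeuringCM.not_frequently_count hc (by convert hu) h) v hΔ hΔ'

/-- **Almost all traces determine all.** -/
theorem cm_traces_determined (ψ ψ' : F →+* ℂ) {d d' : ℤ} (hd : Squarefree d) (hd0 : d < 0)
    (hd' : Squarefree d') (hd0' : d' < 0)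
    (hcm : ∃ L : PeriodPair, L.g₂ = ψ (W).c₄ / 12 ∧ L.g₃ = ψ (W).c₆ / 216 ∧
      ∃ ω : ℂ, (∀ m : ℤ, ω ≠ m) ∧ (∀ l ∈ L.lattice, ω * l ∈ L.lattice) ∧
        ∃ x y : ℚ, (ω - (x : ℂ)) ^ 2 = (d : ℂ) * (y : ℂ) ^ 2)
    (hcm' : ∃ L : PeriodPair, L.g₂ = ψ' (W').c₄ / 12 ∧ L.g₃ = ψ' (W').c₆ / 216 ∧
      ∃ ω : ℂ, (∀ m : ℤ, ω ≠ m) ∧ (∀ l ∈ L.lattice, ω * l ∈ L.lattice) ∧
        ∃ x y : ℚ, (ω - (x : ℂ)) ^ 2 = (d' : ℂ) * (y : ℂ) ^ 2)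
    (h : {v : HeightOneSpectrum (𝓞 F) | frobTrace W₀ v ≠ frobTrace W₀' v}.Finite) :
    d = d' ∧ ∀ v : HeightOneSpectrum (𝓞 F), W₀.Δ ∉ v.asIdeal → W₀'.Δ ∉ v.asIdeal →
      frobTrace W₀ v = frobTrace W₀' v := by
  have h1 : FA.Hecke.HasMean (fun v : HeightOneSpectrum (𝓞 F) =>
      if frobTrace W₀ v = frobTrace W₀' v then (1 : ℝ) else 0) 1 := by
    refine FA.Hecke.hasMean_congr _ h (B := 1) (fun v => ?_) (fun v hv _ => ?_)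
      (FA.Hecke.hasMean_one F)
    · split_ifs <;> simp
    · rw [if_pos (by simpa using hv)]
  exact cm_strong_multiplicity_one W₀ W₀' ψ ψ' hd hd0 hd' hd0' hcm hcm' (c := 7 / 8) (by norm_num)
    (((FA.DeuringCM.tendsto_natCard (P := fun v => frobTrace W₀ v = frobTrace W₀' v)
      (c := 1) (by convert h1)).eventually (eventually_ge_nhds
      (show (7 : ℝ) / 8 < 1 by norm_num))).frequently)

end FA.Root.CMMultiplicitySummary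

end
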