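import Fermat.Agent.CMTwist.Structure
import Fermat.Agent.Torsion.Groups
import Fermat.Agent.Root.SummaryCMDivisibility

/-!
# Galois outside the field of multiplication, and Aoki's theorem in full

Let `E` over a number field `F ⊆ ℚ̄` have multiplication by the order of discriminant `D < 0`.

* `cm_galois_twist`: there are `θ` and `t² - 4 m = D` with `θ² = t θ - m` on the points killed by
  `n`, commuting with the automorphisms fixing `√D` and carried to `t - θ` by the others.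
* `cm_full_level_sqrt_mem`: if all points killed by some `n ≥ 3` are over `F` then `√D ∈ F`.
* `cm_torsion_structure`, `cm_torsion_card_le`: so over a field without `√D`, for instance of odd
  degree (`cm_sqrt_not_mem_of_odd`), the torsion is cyclic or `ℤ/2 × ℤ/2k`, of order at most
  `144 [F : ℚ] ^ 2`.
* `cm_roots_of_unity_mem`: over such a field a point of prime order `p` puts the `p`-th roots of
  unity in `F (√D)`.
* `aoki_odd_degree_full`: in odd degree an odd prime `p` dividing the order of a torsion point is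
  `3 (mod 4)` and `D = - p u²`, so there is at most one such prime for each `D`
  (`aoki_odd_prime_unique`); otherwise the orders are `1, 2, 4` (`aoki_two_group`, `D < -4`).
-/

set_option autoImplicit false
set_option linter.style.haveILetI false
set_option linter.unusedSectionVars false

noncomputable section

open WeierstrassCurve NumberField Module FA.CMTwist FA.CMTorsionAllOrders
open FA.CMTorsionBound (upPoint upPoint_injective)
open scoped WeierstrassCurve.Affine Classical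

local notation "Qb" => AlgebraicClosure ℚ

namespace FA.Summary

/-- **Over a field of odd degree there is no square root of a negative integer.** -/
theorem cm_sqrt_not_mem_of_odd (F : IntermediateField ℚ Qb) [FiniteDimensional ℚ F]
    (hodd : Odd (finrank ℚ F)) {D : ℤ} (hD : D < 0) : ∀ r ∈ F, r ^ 2 ≠ (D : Qb) := by
  intro r hr hr2
  have h := IntermediateField.finrank_dvd_of_le_right
    (IntermediateField.adjoin_simple_le_iff.mpr hr)
  rw [FA.Jugendtraum.finrank_adjoin_sqrt hD hr2] at h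
  exact Nat.not_even_iff_odd.2 hodd (even_iff_two_dvd.2 h)

variable (F : IntermediateField ℚ (AlgebraicClosure ℚ)) [FiniteDimensional ℚ F]
  (E : WeierstrassCurve F) [E.IsElliptic] (ψ : F →+* ℂ) {L : PeriodPair}
  (h2 : L.g₂ = ψ E.c₄ / 12) (h3 : L.g₃ = ψ E.c₆ / 216) {D : ℤ} (hD : D < 0)
  (hring : ∀ w : ℂ, (∀ l ∈ L.lattice, w * l ∈ L.lattice) ↔
    ∃ u v : ℤ, w = (u : ℂ) + (v : ℂ) *
      (((D : ℂ) + Complex.I * (Real.sqrt (-(D : ℝ)) : ℂ)) / 2))
include h2 h3 hD hring

/-- **Galois and the multiplier.** -/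
theorem cm_galois_twist {n : ℕ} (hn : n ≠ 0) {r : Qb} (hr : r ^ 2 = (D : Qb)) :
    ∃ (θ : (E.toAffine⁄Qb).Point →+ (E.toAffine⁄Qb).Point) (t m : ℤ),
      t ^ 2 - 4 * m = D ∧
      (∀ P : (E.toAffine⁄Qb).Point, n • P = 0 → θ (θ P) = t • θ P - m • P) ∧
      (∀ σ : Qb ≃ₐ[F] Qb, σ r = r → ∀ P, σ • θ P = θ (σ • P)) ∧
      ∀ σ : Qb ≃ₐ[F] Qb, σ r ≠ r → ∀ P, σ • θ P = t • (σ • P) - θ (σ • P) := by
  haveI : Algebra.IsAlgebraic F Qb := Algebra.IsAlgebraic.tower_top (K := ℚ) F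
  obtain ⟨θ, t, m, htm, hθθ, hact, htw, -⟩ :=
    exists_action_twist (Kb := Qb) E ψ (d := D) (f := 1) hD (by ring) h2 h3 hring hr hn
  exact ⟨θ, t, m, htm, hθθ, fun σ hσ P => ((hact σ hσ).1 P).symm, htw⟩

/-- **Full level above two needs `√D`** (Bourdon, Clark). -/
theorem cm_full_level_sqrt_mem {n : ℕ} (hn : 3 ≤ n)
    (hfix : ∀ (σ : Qb ≃ₐ[F] Qb) (Q : (E.toAffine⁄Qb).Point), n • Q = 0 → σ • Q = Q) {r : Qb}
    (hr : r ^ 2 = (D : Qb)) : r ∈ F :=
  mem_of_full_level F E ψ (d := D) (f := 1) hD (by ring) h2 h3 hring hr hn hfix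

/-- The lattice has multiplication. -/
theorem cm_exists_multiplier :
    ∃ ω : ℂ, (∀ m : ℤ, ω ≠ m) ∧ ∀ l ∈ L.lattice, ω * l ∈ L.lattice := by
  refine ⟨((D : ℂ) + Complex.I * (Real.sqrt (-(D : ℝ)) : ℂ)) / 2, fun m hm => ?_,
    (hring _).2 ⟨0, 1, by simp⟩⟩
  have hpos : 0 < Real.sqrt (-(D : ℝ)) :=
    Real.sqrt_pos.mpr (neg_pos.mpr (Int.cast_lt_zero.mpr hD))
  have := congrArg Complex.im hm
  simp [Complex.div_ofNat_im] at this
  linarith

/-- **The torsion subgroup over a field without `√D`.** -/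
theorem cm_torsion_structure (hF : ∀ r ∈ F, r ^ 2 ≠ (D : Qb)) :
    ∃ k : ℕ, 0 < k ∧ k ≤ 72 * finrank ℚ F ^ 2 ∧
      (Nonempty (AddCommGroup.torsion E.toAffine.Point ≃+ ZMod k) ∨
        Even k ∧ Nonempty (AddCommGroup.torsion E.toAffine.Point ≃+ ZMod 2 × ZMod k)) := by
  have hB := fun (P : E.toAffine.Point) (hP : IsOfFinAddOrder P) =>
    cm_torsion_order_le_all F E ψ h2 h3 (cm_exists_multiplier F E ψ h2 h3 hD hring) hP
  haveI := finite_torsion_of_bound E hB
  obtain ⟨r, hr⟩ := IsAlgClosed.exists_pow_nat_eq (D : Qb) two_pos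
  have hno : ∀ m : ℕ, 3 ≤ m → ∀ φ : ZMod m × ZMod m →+ AddCommGroup.torsion E.toAffine.Point,
      ¬ Function.Injective φ := fun m hm φ hφ => by
    haveI : NeZero m := ⟨by omega⟩
    exact hF r (cm_full_level_sqrt_mem F E ψ h2 h3 hD hring hm (fun σ Q hQ =>
      full_of_injective E ((AddCommGroup.torsion E.toAffine.Point).subtype.comp φ)
        (Subtype.val_injective.comp hφ) σ Q hQ) hr) hr
  obtain ⟨g, hg⟩ := FA.Torsion.cyclic_or_two_times (G := AddCommGroup.torsion E.toAffine.Point)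
    (fun p hp hpo => hno p (by have := hp.two_le; rcases hpo with ⟨c, rfl⟩; omega))
    (hno 4 (by norm_num)) (card_two_le E)
  refine ⟨addOrderOf g, addOrderOf_pos g, ?_, ?_⟩
  · rw [← AddSubgroup.addOrderOf_coe g]
    exact hB _ g.2
  rcases hg with h | ⟨y, -, -, heven, h⟩
  exacts [Or.inl h, Or.inr ⟨heven, h⟩]

/-- **The order of the torsion subgroup over a field without `√D`.** -/
theorem cm_torsion_card_le (hF : ∀ r ∈ F, r ^ 2 ≠ (D : Qb)) :
    Finite (AddCommGroup.torsion E.toAffine.Point) ∧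
      Nat.card (AddCommGroup.torsion E.toAffine.Point) ≤ 144 * finrank ℚ F ^ 2 := by
  obtain ⟨k, hk0, hk, h⟩ := cm_torsion_structure F E ψ h2 h3 hD hring hF
  haveI : NeZero k := ⟨hk0.ne'⟩
  rcases h with ⟨⟨e⟩⟩ | ⟨-, ⟨e⟩⟩
  · refine ⟨Finite.of_equiv _ e.symm.toEquiv, ?_⟩
    rw [Nat.card_congr e.toEquiv, Nat.card_zmod]
    omega
  · refine ⟨Finite.of_equiv _ e.symm.toEquiv, ?_⟩
    rw [Nat.card_congr e.toEquiv, Nat.card_prod, Nat.card_zmod, Nat.card_zmod]
    omega

/-- **The roots of unity of a rational point of prime order lie in `F (√D)`.** -/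
theorem cm_roots_of_unity_mem (hF : ∀ r ∈ F, r ^ 2 ≠ (D : Qb)) {p : ℕ} (hp : p.Prime)
    {P : E.toAffine.Point} (hP : addOrderOf P = p) {μ : Qb} (hμ : μ ^ p = 1) {r : Qb}
    (hr : r ^ 2 = (D : Qb)) : μ ∈ F ⊔ IntermediateField.adjoin ℚ {r} := by
  haveI : IsGalois ℚ Qb := FA.EC.isGalois_algebraicClosure
  have hrF : r ∉ F := fun h => hF r h hr
  rw [← InfiniteGalois.fixedField_fixingSubgroup (F ⊔ IntermediateField.adjoin ℚ {r}),
    IntermediateField.mem_fixedField_iff]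
  intro g hg
  rw [IntermediateField.mem_fixingSubgroup_iff] at hg
  let σ : Qb ≃ₐ[F] Qb := AlgEquiv.ofRingEquiv (f := g.toRingEquiv) fun z =>
    hg z ((le_sup_left : F ≤ F ⊔ IntermediateField.adjoin ℚ {r}) z.2)
  have hσr : σ r = r := hg r ((le_sup_right : IntermediateField.adjoin ℚ {r} ≤
    F ⊔ IntermediateField.adjoin ℚ {r}) (IntermediateField.mem_adjoin_simple_self ℚ r))
  exact root_fixed F E ψ (d := D) (f := 1) hD (by ring) h2 h3 hring hr hrF hp
    (Q := upPoint E P) ((addOrderOf_injective (upPoint E) (upPoint_injective E) P).trans hP)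
    (fun τ => smul_upPoint E τ P) (σ := σ) hσr hμ

/-- The field of multiplication is determined by a point of odd prime order. -/
theorem cm_eq_neg_prime {d f : ℤ} (hd : Squarefree d) (hd0 : d < 0) (hDdf : D = d * f ^ 2)
    (hodd : Odd (finrank ℚ F)) {Q : E.toAffine.Point} (hQ : IsOfFinAddOrder Q) {p : ℕ}
    (hp : p.Prime) (hp2 : p ≠ 2) (hdvd : p ∣ addOrderOf Q) : d = -(p : ℤ) ∧ p % 4 = 3 := by
  obtain ⟨s, hs⟩ := IsAlgClosed.exists_pow_nat_eq (d : Qb) two_pos
  set k := addOrderOf Q / p with hk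
  have hk0 : k ≠ 0 := (Nat.div_pos (Nat.le_of_dvd hQ.addOrderOf_pos hdvd) hp.pos).ne'
  have hord : addOrderOf (k • Q) = p := by
    rw [addOrderOf_nsmul_of_dvd hk0 (Nat.div_dvd_of_dvd hdvd), hk,
      Nat.div_div_self hdvd hQ.addOrderOf_pos.ne']
  exact eq_neg_prime F E ψ hD hDdf h2 h3 hring hs hd hd0 hodd hp hp2
    (Q := upPoint E (k • Q))
    ((addOrderOf_injective (upPoint E) (upPoint_injective E) _).trans hord)
    (fun σ => smul_upPoint E σ _)

/-- **Aoki's theorem on odd degrees, in full**: the field of multiplication is `ℚ(√-p)`. -/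
theorem aoki_odd_degree_full (hodd : Odd (finrank ℚ F)) {Q : E.toAffine.Point}
    (hQ : IsOfFinAddOrder Q) {p : ℕ} (hp : p.Prime) (hp2 : p ≠ 2) (hdvd : p ∣ addOrderOf Q) :
    p % 4 = 3 ∧ ∃ u : ℤ, D = -(p : ℤ) * u ^ 2 := by
  obtain ⟨d, f, hd, hd0, -, hDdf⟩ := exists_squarefree_mul_sq hD
  obtain ⟨hdp, h4⟩ := cm_eq_neg_prime F E ψ h2 h3 hD hring hd hd0 hDdf hodd hQ hp hp2 hdvd
  exact ⟨h4, f, by rw [hDdf, hdp]⟩

/-- **At most one odd prime divides the orders**, in odd degree. -/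
theorem aoki_odd_prime_unique (hodd : Odd (finrank ℚ F)) {Q Q' : E.toAffine.Point}
    (hQ : IsOfFinAddOrder Q) (hQ' : IsOfFinAddOrder Q') {p q : ℕ} (hp : p.Prime) (hp2 : p ≠ 2)
    (hdvd : p ∣ addOrderOf Q) (hq : q.Prime) (hq2 : q ≠ 2) (hdvd' : q ∣ addOrderOf Q') :
    p = q := by
  obtain ⟨d, f, hd, hd0, -, hDdf⟩ := exists_squarefree_mul_sq hD
  have e := (cm_eq_neg_prime F E ψ h2 h3 hD hring hd hd0 hDdf hodd hQ hp hp2 hdvd).1
  have e' := (cm_eq_neg_prime F E ψ h2 h3 hD hring hd hd0 hDdf hodd hQ' hq hq2 hdvd').1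
  omega

/-- **Elsewhere the torsion in odd degree is small**: the orders are `1`, `2` or `4`. -/
theorem aoki_two_group (hD4 : D < -4) (hodd : Odd (finrank ℚ F))
    (hne : ∀ (p : ℕ) (u : ℤ), p.Prime → p % 4 = 3 → D ≠ -(p : ℤ) * u ^ 2)
    {Q : E.toAffine.Point} (hQ : IsOfFinAddOrder Q) :
    addOrderOf Q = 1 ∨ addOrderOf Q = 2 ∨ addOrderOf Q = 4 := by
  rcases (aoki_odd_degree F E ψ h2 h3 hD4 hring hodd).2 Q hQ with
    h | h | h | ⟨p, k, hp, hp4, hk, h⟩
  · exact Or.inl h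
  · exact Or.inr (Or.inl h)
  · exact Or.inr (Or.inr h)
  have hdvd : p ∣ addOrderOf Q := by
    rcases h with e | e <;> rw [e]
    exacts [dvd_pow_self p (by omega), dvd_mul_of_dvd_right (dvd_pow_self p (by omega)) 2]
  obtain ⟨-, u, hu⟩ := aoki_odd_degree_full F E ψ h2 h3 hD hring hodd hQ hp (by omega) hdvd
  exact absurd hu (hne p u hp hp4)

end FA.Summary

end
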