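import Fermat.Agent.CMStableLine.Scalar
import Fermat.Agent.Root.SummaryCMTwist

/-!
# Rational isogenies of curves with complex multiplication in odd degree

Let `E` over a number field `F ⊆ ℚ̄` have multiplication by the order of discriminant `D < 0` and
`p` be an odd prime. A stable line is a point `Q` of exact order `p` with every conjugate a
multiple of it.

* `cm_stable_line_exists`: if `p ∣ D` there is one, over every field.
* `cm_stable_line_dichotomy`: over a field without `√D` a stable line gives `p ∣ D` or a square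
  root of `± p ≡ 1 (mod 4)` in `F (√D)`.
* `aoki_isogeny_iff`: if `[F : ℚ]` is odd there is a stable line iff `p ∣ D` (Aoki; over `ℚ` Kwon);
  so every odd prime dividing the degree of a cyclic isogeny over `F` divides `D`
  (`aoki_cyclic_isogeny_primes`).
* `aoki_stable_line_unique`: and the line is unique unless `D = - p u²`.
-/

set_option autoImplicit false
set_option linter.style.haveILetI false
set_option linter.unusedSectionVars false

noncomputable section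

open WeierstrassCurve NumberField Module FA.CMTwist FA.CMStableLine FA.CMTorsionAllOrders
open scoped WeierstrassCurve.Affine Classical

local notation "Qb" => AlgebraicClosure ℚ

namespace FA.Summary

variable (F : IntermediateField ℚ (AlgebraicClosure ℚ)) [FiniteDimensional ℚ F]
  (E : WeierstrassCurve F) [E.IsElliptic] (ψ : F →+* ℂ) {L : PeriodPair}
  (h2 : L.g₂ = ψ E.c₄ / 12) (h3 : L.g₃ = ψ E.c₆ / 216) {D : ℤ} (hD : D < 0)
  (hring : ∀ w : ℂ, (∀ l ∈ L.lattice, w * l ∈ L.lattice) ↔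
    ∃ u v : ℤ, w = (u : ℂ) + (v : ℂ) *
      (((D : ℂ) + Complex.I * (Real.sqrt (-(D : ℝ)) : ℂ)) / 2))
  {p : ℕ} (hp : p.Prime) (hp2 : p ≠ 2)
include h2 h3 hD hring hp hp2

/-- **A stable line at the primes dividing `D`.** -/
theorem cm_stable_line_exists (hdvd : (p : ℤ) ∣ D) :
    ∃ Q : (E.toAffine⁄Qb).Point, addOrderOf Q = p ∧
      ∀ σ : Qb ≃ₐ[F] Qb, ∃ c : ℤ, σ • Q = c • Q := by
  haveI : Algebra.IsAlgebraic F Qb := Algebra.IsAlgebraic.tower_top (K := ℚ) F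
  obtain ⟨r, hr⟩ := IsAlgClosed.exists_pow_nat_eq (D : Qb) two_pos
  obtain ⟨θ, t, m, htm, hθθ, hact, htw, hfaith⟩ := exists_action_twist (Kb := Qb) E ψ (d := D)
    (f := 1) hD (by ring) h2 h3 hring hr hp.ne_zero
  obtain ⟨Q, hQ, hline⟩ := exists_line hp hp2 hθθ hfaith (htm ▸ hdvd)
  exact ⟨Q, hQ, line_stable hQ hline (fun σ hσ => (hact σ hσ).1) htw⟩

/-- **A stable line over a field without `√D`.** -/
theorem cm_stable_line_dichotomy {δ : Qb} (hδ : δ ^ 2 = (D : Qb)) (hδF : δ ∉ F)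
    {Q : (E.toAffine⁄Qb).Point} (hQ : addOrderOf Q = p)
    (hst : ∀ σ : Qb ≃ₐ[F] Qb, ∃ c : ℤ, σ • Q = c • Q) :
    (p : ℤ) ∣ D ∨ ∃ (r : Qb) (e : ℤ), (e = 1 ∨ e = -1) ∧ e * p % 4 = 1 ∧
      r ^ 2 = ((e * p : ℤ) : Qb) ∧ r ∈ F ⊔ IntermediateField.adjoin ℚ {δ} := by
  haveI := Fact.mk hp
  obtain ⟨r, e, he, he4, hr, hract⟩ := FA.SerreCurve.exists_sqrt_prime_action (p := p) hp2
  exact (stable_dichotomy ψ (d := D) (f := 1) hD (by ring) h2 h3 hring hδ hδF hp hp2 hQ hst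
    hract).imp And.left fun h => ⟨r, e, he, he4, hr, h⟩

/-- In odd degree a stable line gives `p ∣ D`, and it is unique unless `D = - p u²`. -/
theorem aoki_stable_line_facts (hodd : Odd (finrank ℚ F)) {Q : (E.toAffine⁄Qb).Point}
    (hQ : addOrderOf Q = p) (hst : ∀ σ : Qb ≃ₐ[F] Qb, ∃ c : ℤ, σ • Q = c • Q) :
    (p : ℤ) ∣ D ∧ ((∃ u : ℤ, D = -(p : ℤ) * u ^ 2) ∨ ∀ Q' : (E.toAffine⁄Qb).Point,
      addOrderOf Q' = p → (∀ σ : Qb ≃ₐ[F] Qb, ∃ c : ℤ, σ • Q' = c • Q') →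
        Q' ∈ AddSubgroup.zmultiples Q) := by
  haveI := Fact.mk hp
  obtain ⟨d, f, hd, hd0, -, hDdf⟩ := exists_squarefree_mul_sq hD
  obtain ⟨s, hs⟩ := IsAlgClosed.exists_pow_nat_eq (d : Qb) two_pos
  have hsF : s ∉ F := fun h => cm_sqrt_not_mem_of_odd F hodd hd0 s h hs
  obtain ⟨r, e, he, he4, hr, hract⟩ := FA.SerreCurve.exists_sqrt_prime_action (p := p) hp2
  rcases stable_dichotomy ψ hD hDdf h2 h3 hring hs hsF hp hp2 hQ hst hract with ⟨hdvd, hu⟩ | hmem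
  · exact ⟨hdvd, Or.inr hu⟩
  · obtain ⟨hdp, -⟩ := eq_neg_prime_of_sqrt_mem F hs hd hd0 hodd hp he he4 hr hmem
    exact ⟨⟨-f ^ 2, by rw [hDdf, hdp]; ring⟩, Or.inl ⟨f, by rw [hDdf, hdp]⟩⟩

/-- **Aoki's theorem on isogenies in odd degree**: a stable line exactly at `p ∣ D`. -/
theorem aoki_isogeny_iff (hodd : Odd (finrank ℚ F)) :
    (∃ Q : (E.toAffine⁄Qb).Point, addOrderOf Q = p ∧
      ∀ σ : Qb ≃ₐ[F] Qb, ∃ c : ℤ, σ • Q = c • Q) ↔ (p : ℤ) ∣ D :=
  ⟨fun ⟨_, hQ, hst⟩ => (aoki_stable_line_facts F E ψ h2 h3 hD hring hp hp2 hodd hQ hst).1,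
    cm_stable_line_exists F E ψ h2 h3 hD hring hp hp2⟩

/-- **The odd primes of cyclic isogenies divide `D`.** -/
theorem aoki_cyclic_isogeny_primes (hodd : Odd (finrank ℚ F)) {Q : (E.toAffine⁄Qb).Point}
    (hQ : IsOfFinAddOrder Q) (hst : ∀ σ : Qb ≃ₐ[F] Qb, ∃ c : ℤ, σ • Q = c • Q)
    (hdvd : p ∣ addOrderOf Q) : (p : ℤ) ∣ D := by
  set k := addOrderOf Q / p with hk
  have hk0 : k ≠ 0 := (Nat.div_pos (Nat.le_of_dvd hQ.addOrderOf_pos hdvd) hp.pos).ne'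
  have hord : addOrderOf (k • Q) = p := by
    rw [addOrderOf_nsmul_of_dvd hk0 (Nat.div_dvd_of_dvd hdvd), hk,
      Nat.div_div_self hdvd hQ.addOrderOf_pos.ne']
  refine (aoki_stable_line_facts F E ψ h2 h3 hD hring hp hp2 hodd hord fun σ => ?_).1
  obtain ⟨c, hc⟩ := hst σ
  exact ⟨c, by rw [Affine.Point.algEquiv_smul_def, map_nsmul, ← Affine.Point.algEquiv_smul_def,
    hc, smul_comm]⟩

/-- **The stable line is unique** unless `D = - p u²`. -/
theorem aoki_stable_line_unique (hodd : Odd (finrank ℚ F)) (hne : ∀ u : ℤ, D ≠ -(p : ℤ) * u ^ 2)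
    {Q Q' : (E.toAffine⁄Qb).Point} (hQ : addOrderOf Q = p)
    (hst : ∀ σ : Qb ≃ₐ[F] Qb, ∃ c : ℤ, σ • Q = c • Q) (hQ' : addOrderOf Q' = p)
    (hst' : ∀ σ : Qb ≃ₐ[F] Qb, ∃ c : ℤ, σ • Q' = c • Q') :
    Q' ∈ AddSubgroup.zmultiples Q := by
  rcases (aoki_stable_line_facts F E ψ h2 h3 hD hring hp hp2 hodd hQ hst).2 with ⟨u, hu⟩ | h
  · exact absurd hu (hne u)
  · exact h Q' hQ' hst'

end FA.Summary

end
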