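import Fermat.Agent.CMOddOrders.Parity
import Fermat.Agent.Root.SummaryCMStableLine

/-!
# The orders of multiplication in odd degree

* `cm_classNumber_odd_iff`: the number of reduced primitive forms of a discriminant `D < 0` is odd
  iff `D` is `-4, -8, -16, -p^k` or `-4 p^k` with `p ≡ 3 (mod 4)` prime and `k` odd.
* `cm_oddDegree_iff`: exactly these orders are the multipliers of curves over fields of odd degree
  (`aoki_odd_degree_orders` for a given curve over `F ⊆ ℚ̄`).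
* `aoki_one_prime`, `aoki_one_prime_torsion`: over `F` of odd degree one prime `p` is such that
  every cyclic isogeny, so every torsion point, has order `2^a p^b`, with `b = 0` unless
  `p ≡ 3 (mod 4)` divides `D`.
-/

set_option autoImplicit false
set_option linter.style.haveILetI false
set_option linter.unusedSectionVars false

noncomputable section

open WeierstrassCurve Module
open scoped WeierstrassCurve.Affine Classical

namespace FA.Summary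

/-- **The discriminants of odd class number.** -/
theorem cm_classNumber_odd_iff {D : ℤ} (hD : D < 0) (h4 : D % 4 = 0 ∨ D % 4 = 1) :
    Odd {t : ℤ × ℤ × ℤ | t.2.1 ^ 2 - 4 * t.1 * t.2.2 = D ∧
        Int.gcd (Int.gcd t.1 t.2.1) t.2.2 = 1 ∧ 0 < t.1 ∧ |t.2.1| ≤ t.1 ∧ t.1 ≤ t.2.2 ∧
        ((|t.2.1| = t.1 ∨ t.1 = t.2.2) → 0 ≤ t.2.1)}.ncard ↔
    D = -4 ∨ D = -8 ∨ D = -16 ∨
      ∃ p k : ℕ, p.Prime ∧ p % 4 = 3 ∧ Odd k ∧ (D = -(p : ℤ) ^ k ∨ D = -4 * (p : ℤ) ^ k) :=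
  FA.CMOddOrders.odd_ncard_red_iff_list hD h4

/-- **The orders of multiplication over fields of odd degree.** -/
theorem cm_oddDegree_iff {D : ℤ} (hD : D < 0) :
    (∃ (K : IntermediateField ℚ ℂ) (_ : FiniteDimensional ℚ K) (E : WeierstrassCurve K)
      (_ : E.IsElliptic) (L : PeriodPair), L.g₂ = (E.c₄ : ℂ) / 12 ∧ L.g₃ = (E.c₆ : ℂ) / 216 ∧
      (∀ w : ℂ, (∀ l ∈ L.lattice, w * l ∈ L.lattice) ↔
        ∃ x y : ℤ, w = (x : ℂ) + (y : ℂ) *
          (((D : ℂ) + Complex.I * (Real.sqrt (-(D : ℝ)) : ℂ)) / 2)) ∧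
      Odd (finrank ℚ K)) ↔
    D = -4 ∨ D = -8 ∨ D = -16 ∨
      ∃ p k : ℕ, p.Prime ∧ p % 4 = 3 ∧ Odd k ∧ (D = -(p : ℤ) ^ k ∨ D = -4 * (p : ℤ) ^ k) := by
  constructor
  · rintro ⟨K, hK, E, hE, L, h2, h3, hr, hodd⟩
    obtain ⟨B, C, hBC⟩ := FA.CMClassFactor.exists_eq_sq_sub hD hr
    refine (FA.CMOddOrders.odd_ncard_red_iff_list hD ?_).1
      (hodd.of_dvd_nat (FA.CMFields.degree_of_cmBy E hD ⟨L, h2, h3, hr⟩).2)
    rcases Int.even_or_odd B with ⟨r, rfl⟩ | ⟨r, rfl⟩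
    · left
      rw [← hBC, show (r + r) ^ 2 - 4 * C = 4 * (r * r - C) by ring, Int.mul_emod_right]
    · right
      rw [← hBC, show (2 * r + 1) ^ 2 - 4 * C = 1 + 4 * (r * r + r - C) by ring,
        Int.add_mul_emod_self_left]
      norm_num
  · intro h
    have h4 : D % 4 = 0 ∨ D % 4 = 1 := by
      rcases h with rfl | rfl | rfl | ⟨p, k, hp, hp4, hk, rfl | rfl⟩
      · norm_num
      · norm_num
      · norm_num
      · have h3 : p ^ k % 4 = 3 := (FA.CMOddOrders.pow_mod_four hp).2 ⟨hp4, hk⟩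
        have : ((p : ℤ) ^ k) % 4 = 3 := by exact_mod_cast h3
        omega
      · omega
    obtain ⟨b, c, hbc, hg⟩ : ∃ b c : ℤ, b ^ 2 - 4 * 1 * c = D ∧
        Int.gcd (Int.gcd 1 b) c = 1 := by
      rcases h4 with e | e
      · exact ⟨0, -D / 4, by omega, by simp⟩
      · exact ⟨1, (1 - D) / 4, by omega, by simp⟩
    obtain ⟨K, hK, E, hE, ⟨L, h2, h3, hr⟩, hd⟩ := FA.CMFields.exists_cmBy one_pos hbc hD hg
    exact ⟨K, hK, E, hE, L, h2, h3, hr,
      hd ▸ (FA.CMOddOrders.odd_ncard_red_iff_list hD h4).2 h⟩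

variable (F : IntermediateField ℚ (AlgebraicClosure ℚ)) [FiniteDimensional ℚ F]
  (E : WeierstrassCurve F) [E.IsElliptic] (ψ : F →+* ℂ) {L : PeriodPair}
  (h2 : L.g₂ = ψ E.c₄ / 12) (h3 : L.g₃ = ψ E.c₆ / 216) {D : ℤ} (hD : D < 0)
  (hring : ∀ w : ℂ, (∀ l ∈ L.lattice, w * l ∈ L.lattice) ↔
    ∃ u v : ℤ, w = (u : ℂ) + (v : ℂ) *
      (((D : ℂ) + Complex.I * (Real.sqrt (-(D : ℝ)) : ℂ)) / 2))
include h2 h3 hD hring

/-- **The order of a curve over a field of odd degree.** -/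
theorem aoki_odd_degree_orders (hodd : Odd (finrank ℚ F)) :
    D = -4 ∨ D = -8 ∨ D = -16 ∨
      ∃ p k : ℕ, p.Prime ∧ p % 4 = 3 ∧ Odd k ∧ (D = -(p : ℤ) ^ k ∨ D = -4 * (p : ℤ) ^ k) := by
  obtain ⟨B, C, hBC⟩ := FA.CMClassFactor.exists_eq_sq_sub hD hring
  have h4 : D % 4 = 0 ∨ D % 4 = 1 := by
    rcases Int.even_or_odd B with ⟨r, rfl⟩ | ⟨r, rfl⟩
    · left
      rw [← hBC, show (r + r) ^ 2 - 4 * C = 4 * (r * r - C) by ring, Int.mul_emod_right]
    · right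
      rw [← hBC, show (2 * r + 1) ^ 2 - 4 * C = 1 + 4 * (r * r + r - C) by ring,
        Int.add_mul_emod_self_left]
      norm_num
  rcases lt_or_ge D (-4) with hlt | hge
  · exact (cm_classNumber_odd_iff hD h4).1 (aoki_odd_degree F E ψ h2 h3 hlt hring hodd).1
  · rcases (show D = -4 ∨ D = -3 by omega) with rfl | rfl
    · exact Or.inl rfl
    · exact Or.inr (Or.inr (Or.inr
        ⟨3, 1, Nat.prime_three, by norm_num, odd_one, Or.inl (by norm_num)⟩))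

/-- **One prime for all cyclic isogenies and all torsion**: the orders are `2^a p^b`. -/
theorem aoki_one_prime (hodd : Odd (finrank ℚ F)) :
    ∃ p : ℕ, p.Prime ∧ ∀ Q : (E.toAffine⁄(AlgebraicClosure ℚ)).Point, IsOfFinAddOrder Q →
      (∀ σ : AlgebraicClosure ℚ ≃ₐ[F] AlgebraicClosure ℚ, ∃ c : ℤ, σ • Q = c • Q) →
        ∃ a b : ℕ, addOrderOf Q = 2 ^ a * p ^ b ∧ (b ≠ 0 → p % 4 = 3 ∧ (p : ℤ) ∣ D) := by
  obtain ⟨p, hp, huniq⟩ : ∃ p : ℕ, p.Prime ∧ ∀ q : ℕ, q.Prime → q ≠ 2 → (q : ℤ) ∣ D →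
      q = p ∧ p % 4 = 3 := by
    have hq2 : ∀ q j : ℕ, q.Prime → (q : ℤ) ∣ (2 : ℤ) ^ j → q = 2 := fun q j hq hd =>
      (Nat.prime_dvd_prime_iff_eq hq Nat.prime_two).1
        (hq.dvd_of_dvd_pow (n := j) (by exact_mod_cast hd))
    rcases aoki_odd_degree_orders F E ψ h2 h3 hD hring hodd with
      h | h | h | ⟨p, k, hp, hp4, -, h⟩
    · exact ⟨3, Nat.prime_three, fun q hq hne hd =>
        absurd (hq2 q 2 hq (by simpa [h] using hd)) hne⟩
    · exact ⟨3, Nat.prime_three, fun q hq hne hd =>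
        absurd (hq2 q 3 hq (by simpa [h] using hd)) hne⟩
    · exact ⟨3, Nat.prime_three, fun q hq hne hd =>
        absurd (hq2 q 4 hq (by simpa [h] using hd)) hne⟩
    refine ⟨p, hp, fun q hq hne hd => ⟨?_, hp4⟩⟩
    have hd' : q ∣ 4 * p ^ k := by
      rcases h with rfl | rfl
      · exact dvd_mul_of_dvd_right
          (Int.natCast_dvd_natCast.1 (by rw [dvd_neg] at hd; exact_mod_cast hd)) 4
      · refine Int.natCast_dvd_natCast.1 ?_
        rw [neg_mul, dvd_neg] at hd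
        exact_mod_cast hd
    rcases hq.dvd_mul.1 hd' with h' | h'
    · exact absurd ((Nat.prime_dvd_prime_iff_eq hq Nat.prime_two).1
        (hq.dvd_of_dvd_pow (show q ∣ 2 ^ 2 by simpa using h'))) hne
    · exact (Nat.prime_dvd_prime_iff_eq hq hp).1 (hq.dvd_of_dvd_pow h')
  refine ⟨p, hp, fun Q hQ hst => ?_⟩
  obtain ⟨a, m, hm2, hn⟩ := Nat.exists_eq_pow_mul_and_not_dvd hQ.addOrderOf_pos.ne' 2 (by norm_num)
  have hm0 : m ≠ 0 := fun e => hm2 (e ▸ dvd_zero 2)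
  have key : ∀ q : ℕ, q.Prime → q ∣ m → q = p ∧ p % 4 = 3 ∧ (q : ℤ) ∣ D := fun q hq hqm => by
    have hne : q ≠ 2 := fun e => hm2 (e ▸ hqm)
    have hd := aoki_cyclic_isogeny_primes F E ψ h2 h3 hD hring hq hne hodd hQ hst
      (hn ▸ dvd_mul_of_dvd_right hqm _)
    exact ⟨(huniq q hq hne hd).1, (huniq q hq hne hd).2, hd⟩
  refine ⟨a, m.primeFactorsList.length, ?_, fun hb => ?_⟩
  · rw [hn, ← Nat.eq_prime_pow_of_unique_prime_dvd hm0 fun {q} hq hqm => (key q hq hqm).1]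
  · have hm1 : m ≠ 1 := fun e => hb (by simp [e])
    obtain ⟨q, hq, hqm⟩ := Nat.exists_prime_and_dvd hm1
    obtain ⟨rfl, h4, hd⟩ := key q hq hqm
    exact ⟨h4, hd⟩

/-- **One prime for the torsion points over `F`.** -/
theorem aoki_one_prime_torsion (hodd : Odd (finrank ℚ F)) :
    ∃ p : ℕ, p.Prime ∧ ∀ P : E.toAffine.Point, IsOfFinAddOrder P →
      ∃ a b : ℕ, addOrderOf P = 2 ^ a * p ^ b ∧ (b ≠ 0 → p % 4 = 3 ∧ (p : ℤ) ∣ D) := by
  obtain ⟨p, hp, h⟩ := aoki_one_prime F E ψ h2 h3 hD hring hodd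
  refine ⟨p, hp, fun P hP => ?_⟩
  have hord := addOrderOf_injective (FA.CMTorsionBound.upPoint E)
    (FA.CMTorsionBound.upPoint_injective E) P
  rw [← hord]
  exact h _ (addOrderOf_pos_iff.mp (hord ▸ hP.addOrderOf_pos))
    fun σ => ⟨1, by rw [one_zsmul, FA.CMTorsionAllOrders.smul_upPoint]⟩

end FA.Summary

end
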