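import Fermat.Agent.CMPrimeDegree.Small
import Fermat.Agent.Root.SummaryCMOddOrders

/-!
# Torsion with complex multiplication over fields of prime degree

Let `E` over `F` of prime degree `l` have multiplication by the order of discriminant `D < -4`
(the theorem of Bourdon, Clark and Stankewicz; upper lists, no realisation is shown, and nothing
is claimed for `D = -3, -4`).

* `bcs_prime_degree`, `bcs_prime_degree_group`: if `l ≥ 7` the orders of torsion points are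
  `1, 2, 3, 4, 6` and the group is `ℤ/k` for one of these `k` or `ℤ/2 × ℤ/k` for `k = 2, 4, 6`.
* `cm_torsion_degree_five`: if `l = 5` also `11, 22` can occur, only for `D = -11`.
* `cm_torsion_degree_three`: if `l = 3` also `7, 14`, only for `D = -7, -28`, and `9, 18`, only for
  `D = -12, -27`.
-/

set_option autoImplicit false
set_option linter.style.haveILetI false
set_option linter.unusedSectionVars false

noncomputable section

open WeierstrassCurve Module FA.CMPrimeDegree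
open scoped WeierstrassCurve.Affine Classical

namespace FA.Summary

variable (F : IntermediateField ℚ (AlgebraicClosure ℚ)) [FiniteDimensional ℚ F]
  (E : WeierstrassCurve F) [E.IsElliptic] (ψ : F →+* ℂ) {L : PeriodPair}
  (h2 : L.g₂ = ψ E.c₄ / 12) (h3 : L.g₃ = ψ E.c₆ / 216) {D : ℤ} (hD : D < -4)
  (hring : ∀ w : ℂ, (∀ l ∈ L.lattice, w * l ∈ L.lattice) ↔
    ∃ u v : ℤ, w = (u : ℂ) + (v : ℂ) *
      (((D : ℂ) + Complex.I * (Real.sqrt (-(D : ℝ)) : ℂ)) / 2))
include h2 h3 hD hring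

/-- One reduced form puts `D` among the thirteen. -/
theorem cm_mem_thirteen
    (h1 : {t : ℤ × ℤ × ℤ | t.2.1 ^ 2 - 4 * t.1 * t.2.2 = D ∧
      Int.gcd (Int.gcd t.1 t.2.1) t.2.2 = 1 ∧ 0 < t.1 ∧ |t.2.1| ≤ t.1 ∧ t.1 ≤ t.2.2 ∧
      ((|t.2.1| = t.1 ∨ t.1 = t.2.2) → 0 ≤ t.2.1)}.ncard = 1) :
    D ∈ ({-3, -4, -7, -8, -11, -12, -16, -19, -27, -28, -43, -67, -163} : Finset ℤ) := by
  obtain ⟨B, C, hBC⟩ := FA.CMClassFactor.exists_eq_sq_sub (show D < 0 by omega) hring
  refine mem_thirteen_of_ncard (show D < 0 by omega) ?_ h1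
  rcases Int.even_or_odd B with ⟨r, rfl⟩ | ⟨r, rfl⟩
  · left
    rw [← hBC, show (r + r) ^ 2 - 4 * C = 4 * (r * r - C) by ring, Int.mul_emod_right]
  · right
    rw [← hBC, show (2 * r + 1) ^ 2 - 4 * C = 1 + 4 * (r * r + r - C) by ring,
      Int.add_mul_emod_self_left]
    norm_num

/-- The exceptional orders of prime degree `l ≥ 5` need `D = -11`, `l = 5`. -/
theorem cm_prime_degree_cases {l : ℕ} (hl : l.Prime) (hl5 : 5 ≤ l) (hdeg : finrank ℚ F = l)
    {Q : E.toAffine.Point} (hQ : IsOfFinAddOrder Q) :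
    addOrderOf Q ∈ ({1, 2, 3, 4, 6} : Finset ℕ) ∨
      l = 5 ∧ D = -11 ∧ (addOrderOf Q = 11 ∨ addOrderOf Q = 22) := by
  have hodd : Odd (finrank ℚ F) := hdeg ▸ hl.odd_of_ne_two (by omega)
  rcases parish_prime_degree F E ψ h2 h3 hD hring hl hl5 hdeg hQ with h | ⟨hp, hpn, h1⟩
  · exact Or.inl h
  have hdvd : 2 * l + 1 ∣ addOrderOf Q := by
    rcases hpn with e | e <;> rw [e]
    exact dvd_mul_left _ _
  obtain ⟨hp4, u, hu⟩ := aoki_odd_degree_full F E ψ h2 h3 (show D < 0 by omega) hring hodd hQ hp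
    (by omega) hdvd
  have hpD : ((2 * l + 1 : ℕ) : ℤ) ∣ D := ⟨-u ^ 2, by rw [hu]; ring⟩
  rcases prime_cases (cm_mem_thirteen F E ψ h2 h3 hD hring h1) hpD (by omega) with
    ⟨he, hD11⟩ | he
  · exact Or.inr ⟨by omega, hD11, by omega⟩
  · rcases (show l = 9 ∨ l = 13 ∨ l = 21 ∨ l = 33 ∨ l = 81 by omega) with
      rfl | rfl | rfl | rfl | rfl
    · exact absurd hl (by norm_num)
    · exact absurd hp (by norm_num)
    · exact absurd hl (by norm_num)
    · exact absurd hl (by norm_num)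
    · exact absurd hl (by norm_num)

/-- **Prime degree at least seven**: nothing new. -/
theorem bcs_prime_degree {l : ℕ} (hl : l.Prime) (hl7 : 7 ≤ l) (hdeg : finrank ℚ F = l)
    {Q : E.toAffine.Point} (hQ : IsOfFinAddOrder Q) :
    addOrderOf Q ∈ ({1, 2, 3, 4, 6} : Finset ℕ) := by
  rcases cm_prime_degree_cases F E ψ h2 h3 hD hring hl (by omega) hdeg hQ with h | ⟨h, -⟩
  · exact h
  · omega

/-- **The torsion groups in prime degree at least seven.** -/
theorem bcs_prime_degree_group {l : ℕ} (hl : l.Prime) (hl7 : 7 ≤ l) (hdeg : finrank ℚ F = l) :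
    ∃ k : ℕ,
      k ∈ ({1, 2, 3, 4, 6} : Finset ℕ) ∧
        Nonempty (AddCommGroup.torsion E.toAffine.Point ≃+ ZMod k) ∨
      k ∈ ({2, 4, 6} : Finset ℕ) ∧
        Nonempty (AddCommGroup.torsion E.toAffine.Point ≃+ ZMod 2 × ZMod k) := by
  have hodd : Odd (finrank ℚ F) := hdeg ▸ hl.odd_of_ne_two (by omega)
  have hD0 : D < 0 := by omega
  obtain ⟨k, hk0, -, h⟩ := cm_torsion_structure F E ψ h2 h3 hD0 hring
    (cm_sqrt_not_mem_of_odd F hodd hD0)
  have key : ∀ Q : AddCommGroup.torsion E.toAffine.Point,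
      addOrderOf Q ∈ ({1, 2, 3, 4, 6} : Finset ℕ) := fun Q =>
    AddSubgroup.addOrderOf_coe Q ▸ bcs_prime_degree F E ψ h2 h3 hD hring hl hl7 hdeg Q.2
  refine ⟨k, ?_⟩
  rcases h with ⟨⟨e⟩⟩ | ⟨heven, ⟨e⟩⟩
  · refine Or.inl ⟨?_, ⟨e⟩⟩
    have := key (e.symm 1)
    rwa [e.symm.addOrderOf_eq, ZMod.addOrderOf_one] at this
  · refine Or.inr ⟨?_, ⟨e⟩⟩
    have := key (e.symm (0, 1))
    rw [e.symm.addOrderOf_eq, Prod.addOrderOf_mk, addOrderOf_zero, ZMod.addOrderOf_one,
      Nat.lcm_one_left] at this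
    simp only [Finset.mem_insert, Finset.mem_singleton] at this ⊢
    obtain ⟨c, rfl⟩ := heven
    omega

/-- **Degree five.** -/
theorem cm_torsion_degree_five (hdeg : finrank ℚ F = 5) {Q : E.toAffine.Point}
    (hQ : IsOfFinAddOrder Q) :
    addOrderOf Q ∈ ({1, 2, 3, 4, 6} : Finset ℕ) ∨
      D = -11 ∧ (addOrderOf Q = 11 ∨ addOrderOf Q = 22) :=
  (cm_prime_degree_cases F E ψ h2 h3 hD hring (by norm_num) le_rfl hdeg hQ).imp id And.right

/-- **Degree three.** -/
theorem cm_torsion_degree_three (hdeg : finrank ℚ F = 3) {Q : E.toAffine.Point}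
    (hQ : IsOfFinAddOrder Q) :
    addOrderOf Q ∈ ({1, 2, 3, 4, 6} : Finset ℕ) ∨
      (D = -7 ∨ D = -28) ∧ (addOrderOf Q = 7 ∨ addOrderOf Q = 14) ∨
      (D = -12 ∨ D = -27) ∧ (addOrderOf Q = 9 ∨ addOrderOf Q = 18) := by
  by_cases hn : 3 ≤ addOrderOf Q
  swap
  · left
    have := hQ.addOrderOf_pos
    simp only [Finset.mem_insert, Finset.mem_singleton]
    omega
  have hodd : Odd (finrank ℚ F) := hdeg ▸ ⟨1, rfl⟩
  have h := cm_order_totient_dvd F E ψ h2 h3 hD hring hn rfl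
  rw [hdeg] at h
  rcases eq_of_dvd_six hn (dvd_of_mul_left_dvd h) with e | e | e | ⟨htot, he⟩
  · exact Or.inl (by rw [e]; simp)
  · exact Or.inl (by rw [e]; simp)
  · exact Or.inl (by rw [e]; simp)
  rw [htot] at h
  have h1 := Nat.dvd_one.1 (Nat.dvd_of_mul_dvd_mul_right (show 0 < 6 by omega)
    (h.trans (dvd_of_eq (one_mul 6).symm)))
  have h13 := cm_mem_thirteen F E ψ h2 h3 hD hring h1
  simp only [Finset.mem_insert, Finset.mem_singleton] at h13
  right
  rcases (show 7 ∣ addOrderOf Q ∧ (addOrderOf Q = 7 ∨ addOrderOf Q = 14) ∨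
    3 ∣ addOrderOf Q ∧ (addOrderOf Q = 9 ∨ addOrderOf Q = 18) by omega) with ⟨hd, e⟩ | ⟨hd, e⟩
  · obtain ⟨-, u, hu⟩ := aoki_odd_degree_full F E ψ h2 h3 (show D < 0 by omega) hring hodd hQ
      (by norm_num) (by norm_num) hd
    refine Or.inl ⟨?_, e⟩
    push_cast at hu
    omega
  · obtain ⟨-, u, hu⟩ := aoki_odd_degree_full F E ψ h2 h3 (show D < 0 by omega) hring hodd hQ
      Nat.prime_three (by norm_num) hd
    refine Or.inr ⟨?_, e⟩
    push_cast at hu
    omega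

end FA.Summary

end
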