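import Fermat.Agent.OddDegreeTorsion.Main
import Fermat.Agent.Root.SummaryCMPrimeDegree

/-!
# Torsion with complex multiplication in odd degree, for every order

* `cm_disc_neg_four_torsion`, `cm_disc_neg_three_torsion`: over a field of odd degree `d` a curve
  with multiplication by the order of discriminant `-4` has torsion orders dividing `4`, by that of
  discriminant `-3` dividing `2 * 3 ^ (1 + log₃ d)`.
* `aoki_odd_degree_all`: for every order the torsion orders in odd degree are `1, 2, 4`, or `p ^ k`,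
  `2 p ^ k` with `p ≡ 3 (mod 4)` prime and `D = - p u²` (Aoki), and the torsion group is cyclic or
  `ℤ/2 × ℤ/k`, `k` even, for such a `k` (`aoki_odd_degree_group`).
* `bcs_prime_degree_all`, `cm_torsion_degree_five_all`, `cm_torsion_degree_three_all`: the lists in
  prime degree for every `D ≠ -3` (upper lists, no realisation is shown).
-/

set_option autoImplicit false
set_option linter.style.haveILetI false
set_option linter.unusedSectionVars false

noncomputable section

open WeierstrassCurve NumberField Module FA.IsogenyNF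
open scoped WeierstrassCurve.Affine Classical

namespace FA.CMOddAll

variable {K : Type*} [Field K] [NumberField K] [inst : DecidableEq K]
  (hd : Odd (finrank ℚ K)) {W : WeierstrassCurve K} [W.IsElliptic] (h1 : W.a₁ = 0) (h2 : W.a₂ = 0)
  (h3 : W.a₃ = 0)
include hd h1 h2 h3

/-- The orders on `y² = x³ + D x`, for any test of equality. -/
theorem quartic_order (h6 : W.a₆ = 0) {P : W.toAffine.Point} (hP : IsOfFinAddOrder P) :
    addOrderOf P ∣ 4 := by
  obtain rfl : inst = fun a b => Classical.propDecidable (a = b) := Subsingleton.elim _ _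
  rw [show addOrderOf P = addOrderOf (⟨P, hP⟩ : AddCommGroup.torsion W.toAffine.Point) from
    AddSubgroup.addOrderOf_coe (⟨P, hP⟩ : AddCommGroup.torsion W.toAffine.Point)]
  exact (addOrderOf_dvd_natCard _).trans
    (FA.OddDegreeTorsion.quartic_torsion_dvd hd h1 h2 h3 h6).2

/-- The orders on `y² = x³ + k`, for any test of equality. -/
theorem mordell_order (h4 : W.a₄ = 0) {P : W.toAffine.Point} (hP : IsOfFinAddOrder P) :
    addOrderOf P ∣ 2 * 3 ^ (1 + Nat.log 3 (finrank ℚ K)) := by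
  obtain rfl : inst = fun a b => Classical.propDecidable (a = b) := Subsingleton.elim _ _
  rw [show addOrderOf P = addOrderOf (⟨P, hP⟩ : AddCommGroup.torsion W.toAffine.Point) from
    AddSubgroup.addOrderOf_coe (⟨P, hP⟩ : AddCommGroup.torsion W.toAffine.Point)]
  exact (addOrderOf_dvd_natCard _).trans
    (FA.OddDegreeTorsion.mordell_torsion_dvd hd h1 h2 h3 h4).2

end FA.CMOddAll

namespace FA.Summary

variable (F : IntermediateField ℚ (AlgebraicClosure ℚ)) [FiniteDimensional ℚ F]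
  (E : WeierstrassCurve F) [E.IsElliptic] (ψ : F →+* ℂ) {L : PeriodPair}
  (h2 : L.g₂ = ψ E.c₄ / 12) (h3 : L.g₃ = ψ E.c₆ / 216) {D : ℤ} (hD : D < 0)
  (hring : ∀ w : ℂ, (∀ l ∈ L.lattice, w * l ∈ L.lattice) ↔
    ∃ u v : ℤ, w = (u : ℂ) + (v : ℂ) *
      (((D : ℂ) + Complex.I * (Real.sqrt (-(D : ℝ)) : ℂ)) / 2))
include h2 h3 hD hring

/-- **Discriminant `-4`**: the orders divide `4`. -/
theorem cm_disc_neg_four_torsion (hD4 : D = -4) (hodd : Odd (finrank ℚ F))
    {Q : E.toAffine.Point} (hQ : IsOfFinAddOrder Q) : addOrderOf Q ∣ 4 := by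
  haveI : NumberField F := { }
  subst hD4
  have hring' : FA.CMFields.IsMultiplierRing L (FA.FieldClassBound.discK (-1)) := by
    rw [show FA.FieldClassBound.discK (-1) = -4 by simp [FA.FieldClassBound.discK]]
    exact hring
  have hc6 : E.c₆ = 0 := by
    rcases FA.CMWeber.g_vanish (k := 2) (Or.inl ⟨rfl, rfl⟩) (FA.CMWeber.stable_rot hring') with
      ⟨-, h0, -⟩ | ⟨h, -⟩
    · exact ψ.injective (by rw [h3] at h0; simpa using h0)
    · omega
  obtain ⟨C, hC⟩ := exists_variableChange E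
  haveI := FA.CMWeber.isElliptic_shortModel E
  set e := (FA.Frob.vcEquiv C hC).symm
  have hord : addOrderOf (e Q) = addOrderOf Q := e.addOrderOf_eq Q
  rw [← hord]
  exact FA.CMOddAll.quartic_order hodd rfl rfl rfl (by simp [shortModel, hc6])
    (addOrderOf_pos_iff.mp (hord ▸ hQ.addOrderOf_pos))

/-- **Discriminant `-3`**: the orders divide `2 * 3 ^ (1 + log₃ d)`. -/
theorem cm_disc_neg_three_torsion (hD3 : D = -3) (hodd : Odd (finrank ℚ F))
    {Q : E.toAffine.Point} (hQ : IsOfFinAddOrder Q) :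
    addOrderOf Q ∣ 2 * 3 ^ (1 + Nat.log 3 (finrank ℚ F)) := by
  haveI : NumberField F := { }
  subst hD3
  have hring' : FA.CMFields.IsMultiplierRing L (FA.FieldClassBound.discK (-3)) := by
    rw [show FA.FieldClassBound.discK (-3) = -3 by simp [FA.FieldClassBound.discK]]
    exact hring
  have hc4 : E.c₄ = 0 := by
    rcases FA.CMWeber.g_vanish (k := 3) (Or.inr ⟨rfl, rfl⟩) (FA.CMWeber.stable_rot hring') with
      ⟨h, -⟩ | ⟨-, h0, -⟩
    · omega
    · exact ψ.injective (by rw [h2] at h0; simpa using h0)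
  obtain ⟨C, hC⟩ := exists_variableChange E
  haveI := FA.CMWeber.isElliptic_shortModel E
  set e := (FA.Frob.vcEquiv C hC).symm
  have hord : addOrderOf (e Q) = addOrderOf Q := e.addOrderOf_eq Q
  rw [← hord]
  exact FA.CMOddAll.mordell_order hodd rfl rfl rfl (by simp [shortModel, hc4])
    (addOrderOf_pos_iff.mp (hord ▸ hQ.addOrderOf_pos))

/-- In odd degree a discriminant at least `-4` is `-4` or `-3`. -/
theorem cm_odd_small_disc (hodd : Odd (finrank ℚ F)) (hge : -4 ≤ D) : D = -4 ∨ D = -3 := by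
  obtain ⟨B, C, hBC⟩ := FA.CMClassFactor.exists_eq_sq_sub hD hring
  rcases Int.even_or_odd B with ⟨r, rfl⟩ | ⟨r, rfl⟩
  · rw [show (r + r) ^ 2 - 4 * C = 4 * (r * r - C) by ring] at hBC
    omega
  · rw [show (2 * r + 1) ^ 2 - 4 * C = 1 + 4 * (r * r + r - C) by ring] at hBC
    omega

/-- **Aoki's theorem in odd degree for every order of multiplication.** -/
theorem aoki_odd_degree_all (hodd : Odd (finrank ℚ F)) {Q : E.toAffine.Point}
    (hQ : IsOfFinAddOrder Q) :
    addOrderOf Q = 1 ∨ addOrderOf Q = 2 ∨ addOrderOf Q = 4 ∨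
      ∃ p k : ℕ, p.Prime ∧ p % 4 = 3 ∧ 1 ≤ k ∧
        (addOrderOf Q = p ^ k ∨ addOrderOf Q = 2 * p ^ k) ∧ ∃ u : ℤ, D = -(p : ℤ) * u ^ 2 := by
  rcases lt_or_ge D (-4) with hlt | hge
  · rcases (aoki_odd_degree F E ψ h2 h3 hlt hring hodd).2 Q hQ with
      h | h | h | ⟨p, k, hp, hp4, hk, h⟩
    · exact Or.inl h
    · exact Or.inr (Or.inl h)
    · exact Or.inr (Or.inr (Or.inl h))
    refine Or.inr (Or.inr (Or.inr ⟨p, k, hp, hp4, hk, h, ?_⟩))
    refine (aoki_odd_degree_full F E ψ h2 h3 hD hring hodd hQ hp (by omega) ?_).2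
    rcases h with e | e <;> rw [e]
    exacts [dvd_pow_self p (by omega), dvd_mul_of_dvd_right (dvd_pow_self p (by omega)) 2]
  rcases cm_odd_small_disc F E ψ h2 h3 hD hring hodd hge with hD' | hD'
  · have h := cm_disc_neg_four_torsion F E ψ h2 h3 hD hring hD' hodd hQ
    obtain ⟨i, hi, e⟩ := (Nat.dvd_prime_pow Nat.prime_two (m := 2)).1 h
    rw [e]
    interval_cases i <;> simp
  · have h := cm_disc_neg_three_torsion F E ψ h2 h3 hD hring hD' hodd hQ
    obtain ⟨a, b, ha, hb, hab⟩ := exists_dvd_and_dvd_of_dvd_mul h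
    obtain ⟨k, -, rfl⟩ := (Nat.dvd_prime_pow Nat.prime_three).1 hb
    rcases Nat.eq_zero_or_pos k with rfl | hk
    · rw [pow_zero, mul_one] at hab
      rcases (Nat.dvd_prime Nat.prime_two).1 ha with rfl | rfl
      · exact Or.inl hab
      · exact Or.inr (Or.inl hab)
    refine Or.inr (Or.inr (Or.inr ⟨3, k, Nat.prime_three, by norm_num, hk, ?_, 1, by
      rw [hD']; norm_num⟩))
    rcases (Nat.dvd_prime Nat.prime_two).1 ha with rfl | rfl
    · exact Or.inl (by rw [hab, one_mul])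
    · exact Or.inr hab

/-- **The torsion group in odd degree, for every order.** -/
theorem aoki_odd_degree_group (hodd : Odd (finrank ℚ F)) :
    ∃ k : ℕ,
      (k = 1 ∨ k = 2 ∨ k = 4 ∨ ∃ p i : ℕ, p.Prime ∧ p % 4 = 3 ∧ 1 ≤ i ∧
        (k = p ^ i ∨ k = 2 * p ^ i) ∧ ∃ u : ℤ, D = -(p : ℤ) * u ^ 2) ∧
      (Nonempty (AddCommGroup.torsion E.toAffine.Point ≃+ ZMod k) ∨
        Even k ∧ Nonempty (AddCommGroup.torsion E.toAffine.Point ≃+ ZMod 2 × ZMod k)) := by
  obtain ⟨k, hk0, -, h⟩ := cm_torsion_structure F E ψ h2 h3 hD hring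
    (cm_sqrt_not_mem_of_odd F hodd hD)
  refine ⟨k, ?_, h⟩
  have key : ∀ T : AddCommGroup.torsion E.toAffine.Point, addOrderOf T = k → _ := fun T hT =>
    (hT ▸ AddSubgroup.addOrderOf_coe T) ▸ aoki_odd_degree_all F E ψ h2 h3 hD hring hodd T.2
  rcases h with ⟨⟨e⟩⟩ | ⟨-, ⟨e⟩⟩
  · exact key (e.symm 1) (by rw [e.symm.addOrderOf_eq, ZMod.addOrderOf_one])
  · exact key (e.symm (0, 1)) (by rw [e.symm.addOrderOf_eq, Prod.addOrderOf_mk, addOrderOf_zero,
      ZMod.addOrderOf_one, Nat.lcm_one_left])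

/-- **Prime degree at least seven, every `D ≠ -3`.** -/
theorem bcs_prime_degree_all (hD3 : D ≠ -3) {l : ℕ} (hl : l.Prime) (hl7 : 7 ≤ l)
    (hdeg : finrank ℚ F = l) {Q : E.toAffine.Point} (hQ : IsOfFinAddOrder Q) :
    addOrderOf Q ∈ ({1, 2, 3, 4, 6} : Finset ℕ) := by
  have hodd : Odd (finrank ℚ F) := hdeg ▸ hl.odd_of_ne_two (by omega)
  rcases lt_or_ge D (-4) with hlt | hge
  · exact bcs_prime_degree F E ψ h2 h3 hlt hring hl hl7 hdeg hQ
  · have h := cm_disc_neg_four_torsion F E ψ h2 h3 hD hring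
      ((cm_odd_small_disc F E ψ h2 h3 hD hring hodd hge).resolve_right hD3) hodd hQ
    have hle := Nat.le_of_dvd (by norm_num) h
    have h0 := hQ.addOrderOf_pos
    simp only [Finset.mem_insert, Finset.mem_singleton]
    omega

/-- **Degree five, every `D ≠ -3`.** -/
theorem cm_torsion_degree_five_all (hD3 : D ≠ -3) (hdeg : finrank ℚ F = 5)
    {Q : E.toAffine.Point} (hQ : IsOfFinAddOrder Q) :
    addOrderOf Q ∈ ({1, 2, 3, 4, 6} : Finset ℕ) ∨
      D = -11 ∧ (addOrderOf Q = 11 ∨ addOrderOf Q = 22) := by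
  rcases lt_or_ge D (-4) with hlt | hge
  · exact cm_torsion_degree_five F E ψ h2 h3 hlt hring hdeg hQ
  · have hodd : Odd (finrank ℚ F) := hdeg ▸ ⟨2, rfl⟩
    have h := cm_disc_neg_four_torsion F E ψ h2 h3 hD hring
      ((cm_odd_small_disc F E ψ h2 h3 hD hring hodd hge).resolve_right hD3) hodd hQ
    have hle := Nat.le_of_dvd (by norm_num) h
    have h0 := hQ.addOrderOf_pos
    simp only [Finset.mem_insert, Finset.mem_singleton]
    omega

/-- **Degree three, every `D ≠ -3`.** -/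
theorem cm_torsion_degree_three_all (hD3 : D ≠ -3) (hdeg : finrank ℚ F = 3)
    {Q : E.toAffine.Point} (hQ : IsOfFinAddOrder Q) :
    addOrderOf Q ∈ ({1, 2, 3, 4, 6} : Finset ℕ) ∨
      (D = -7 ∨ D = -28) ∧ (addOrderOf Q = 7 ∨ addOrderOf Q = 14) ∨
      (D = -12 ∨ D = -27) ∧ (addOrderOf Q = 9 ∨ addOrderOf Q = 18) := by
  rcases lt_or_ge D (-4) with hlt | hge
  · exact cm_torsion_degree_three F E ψ h2 h3 hlt hring hdeg hQ
  · have hodd : Odd (finrank ℚ F) := hdeg ▸ ⟨1, rfl⟩
    have h := cm_disc_neg_four_torsion F E ψ h2 h3 hD hring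
      ((cm_odd_small_disc F E ψ h2 h3 hD hring hodd hge).resolve_right hD3) hodd hQ
    have hle := Nat.le_of_dvd (by norm_num) h
    have h0 := hQ.addOrderOf_pos
    simp only [Finset.mem_insert, Finset.mem_singleton]
    omega

end FA.Summary

end
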