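import Fermat.Agent.CMQuasiPeriods.GammaProducts

/-!
# Chudnovsky's theorem for complex multiplication

For a lattice with algebraic invariants and a non-real `β` with `β L ⊆ L`:

* `cm_distribution`: `β² ℘ (β z) = ∑ ℘ (z + u) - S` with algebraic `S`, the sum over the kernel;
* `masser_relation`: `η = A ω + B π / ω` with algebraic `A`, `B`;
* `chudnovsky_cm_period`: `π` and every non-zero period are algebraically independent;

and for every imaginary quadratic field, of discriminant `D`,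

* `chudnovsky_chowla_selberg`: `π` and `∏ Γ (a / |D|) ^ (w χ a)` are algebraically independent.

Independent of S01.
-/

set_option autoImplicit false
set_option linter.style.haveILetI false

noncomputable section

open NumberField Module
open scoped Real PeriodPair

namespace FA.CMQuasiPeriods.Summary

variable {L : PeriodPair} {β : ℂ}

/-- **The distribution relation.** -/
theorem cm_distribution (hβ : ∀ l ∈ L.lattice, β * l ∈ L.lattice) (him : β.im ≠ 0) :
    ∃ (U : Finset ℂ) (S : ℂ), (∀ u ∈ U, β * u ∈ L.lattice) ∧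
      (IsAlgebraic ℚ L.g₂ → IsAlgebraic ℚ L.g₃ → IsAlgebraic ℚ S) ∧
      ∀ z, β * z ∉ L.lattice → β ^ 2 * ℘[L] (β * z) = ∑ u ∈ U, ℘[L] (z + u) - S :=
  FA.CMQuasiPeriods.exists_distribution hβ him

/-- **Masser's relation.** -/
theorem masser_relation (h₂ : IsAlgebraic ℚ L.g₂) (h₃ : IsAlgebraic ℚ L.g₃)
    (hβ : ∀ l ∈ L.lattice, β * l ∈ L.lattice) (him : β.im ≠ 0) {ζ : ℂ → ℂ}
    (hζ : ∀ z ∉ L.lattice, HasDerivAt ζ (-℘[L] z) z) {ω η : ℂ} (hω : ω ∈ L.lattice) (hω0 : ω ≠ 0)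
    (hη : ∀ z ∉ L.lattice, ζ (z + ω) = ζ z + η) :
    ∃ A B : ℂ, IsAlgebraic ℚ A ∧ IsAlgebraic ℚ B ∧ η = A * ω + B * ((π : ℂ) / ω) :=
  FA.CMQuasiPeriods.exists_quasiPeriod_relation h₂ h₃ ⟨β, him, hβ⟩ hζ hω hω0 hη

/-- **Chudnovsky: `π` and a period of a CM lattice.** -/
theorem chudnovsky_cm_period (h₂ : IsAlgebraic ℚ L.g₂) (h₃ : IsAlgebraic ℚ L.g₃)
    (hβ : ∀ l ∈ L.lattice, β * l ∈ L.lattice) (him : β.im ≠ 0) {ω : ℂ} (hω : ω ∈ L.lattice)
    (hω0 : ω ≠ 0) : AlgebraicIndependent ℚ ![(π : ℂ), ω] :=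
  FA.CMQuasiPeriods.algebraicIndependent_pi_period h₂ h₃ ⟨β, him, hβ⟩ hω hω0

/-- **`π` and the Chowla–Selberg product of every imaginary quadratic field.** -/
theorem chudnovsky_chowla_selberg (K : Type*) [Field K] [NumberField K] [IsTotallyComplex K]
    (hK : finrank ℚ K = 2) :
    haveI : NeZero (discr K).natAbs := ⟨Int.natAbs_ne_zero.mpr (discr_ne_zero K)⟩
    ∃ χ : DirichletCharacter ℂ (discr K).natAbs, χ.IsPrimitive ∧ χ ^ 2 = 1 ∧ χ.Odd ∧
      (∀ z : ℂ, 1 < z.re →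
        dedekindZeta K z = riemannZeta z * DirichletCharacter.LFunction χ z) ∧
      AlgebraicIndependent ℚ ![π, ∏ a : ZMod (discr K).natAbs,
        Real.Gamma ((a.val : ℝ) / (discr K).natAbs) ^
          ((Units.torsionOrder K : ℝ) * (χ a).re)] :=
  FA.CMQuasiPeriods.algebraicIndependent_pi_gammaProduct K hK

end FA.CMQuasiPeriods.Summary

end
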