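import Fermat.Agent.Root.SummaryCMFunctionalEquation
import Fermat.Agent.Root.SummaryRankOne
import Fermat.Agent.Frob.VarChange

/-!
# Points of infinite order on five curves with complex multiplication

For `q = 11, 19, 43, 67, 163` the models of discriminant `-q³` with multiplication by the integers
of `ℚ(√-q)` have infinitely many rational points, next to the zero of odd order of the L-series at
`1` (`centralValue_cm_eq_zero`), as the conjecture of Birch and Swinnerton-Dyer predicts.
-/

set_option autoImplicit false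
set_option linter.style.haveILetI false

noncomputable section

open WeierstrassCurve
open FA.Frob (ratCurve vcEquiv)
open FA.Torsion (countMod natCard_torsion_dvd)

namespace FA.CMRank

/-- A point of an equation with coprime point counts at two primes gives infinitely many points. -/
theorem infinite_point_of_counts (W : WeierstrassCurve ℤ) (hΔ0 : W.Δ ≠ 0) (p r : ℕ) [Fact p.Prime]
    [Fact r.Prime] (hp : 7 < p) (hr : 7 < r) (hpΔ : ¬ (p : ℤ) ∣ W.Δ) (hrΔ : ¬ (r : ℤ) ∣ W.Δ)
    (hg : (countMod W p).gcd (countMod W r) ∣ 1) (x y : ℚ)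
    (heq : (W.map (Int.castRingHom ℚ)).toAffine.Equation x y) :
    Infinite (W.map (Int.castRingHom ℚ)).toAffine.Point := by
  haveI : (W.map (Int.castRingHom ℚ)).IsElliptic := FA.Frob.ratCurve_isElliptic_of_Δ hΔ0
  haveI : (ratCurve W).IsElliptic := FA.Frob.ratCurve_isElliptic_of_Δ hΔ0
  have h1 := (natCard_torsion_dvd p W hp hpΔ).2
  have h2 := (natCard_torsion_dvd r W hr hrΔ).2
  exact Infinite.of_injective _ (injective_nsmul_iff_not_isOfFinAddOrder.mpr
    (FA.Central.not_isOfFinAddOrder_of_card ((Nat.dvd_gcd h1 h2).trans hg)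
      (Affine.Point.some_ne_zero (Affine.equation_iff_nonsingular.mp heq))))

local instance cmRankFact11 : Fact (Nat.Prime 11) := ⟨by norm_num⟩

local instance cmRankFact13 : Fact (Nat.Prime 13) := ⟨by norm_num⟩

local instance cmRankFact17 : Fact (Nat.Prime 17) := ⟨by norm_num⟩

local instance cmRankFact23 : Fact (Nat.Prime 23) := ⟨by norm_num⟩

local instance cmRankFact41 : Fact (Nat.Prime 41) := ⟨by norm_num⟩

theorem infinite_eleven : Infinite (⟨0, -1, 1, -7, 10⟩ : WeierstrassCurve ℚ).toAffine.Point := by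
  have h := infinite_point_of_counts ⟨0, -1, 1, -7, 10⟩ (by decide +kernel) 13 23 (by norm_num)
    (by norm_num) (by decide +kernel) (by decide +kernel) (by decide +kernel) 4 5
    (by rw [Affine.equation_iff]; norm_num)
  have e : (⟨0, -1, 1, -7, 10⟩ : WeierstrassCurve ℤ).map (Int.castRingHom ℚ) =
      ⟨0, -1, 1, -7, 10⟩ := by ext <;> simp
  rwa [e] at h

theorem infinite_nineteen : Infinite (⟨0, 0, 1, -38, 90⟩ : WeierstrassCurve ℚ).toAffine.Point := by
  have h := infinite_point_of_counts ⟨0, 0, 1, -38, 90⟩ (by decide +kernel) 11 13 (by norm_num)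
    (by norm_num) (by decide +kernel) (by decide +kernel) (by decide +kernel) 0 9
    (by rw [Affine.equation_iff]; norm_num)
  have e : (⟨0, 0, 1, -38, 90⟩ : WeierstrassCurve ℤ).map (Int.castRingHom ℚ) =
      ⟨0, 0, 1, -38, 90⟩ := by ext <;> simp
  rwa [e] at h

theorem infinite_fortyThree :
    Infinite (⟨0, 0, 1, -860, 9707⟩ : WeierstrassCurve ℚ).toAffine.Point := by
  have h := infinite_point_of_counts ⟨0, 0, 1, -860, 9707⟩ (by decide +kernel) 11 13 (by norm_num)
    (by norm_num) (by decide +kernel) (by decide +kernel) (by decide +kernel) 17 0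
    (by rw [Affine.equation_iff]; norm_num)
  have e : (⟨0, 0, 1, -860, 9707⟩ : WeierstrassCurve ℤ).map (Int.castRingHom ℚ) =
      ⟨0, 0, 1, -860, 9707⟩ := by ext <;> simp
  rwa [e] at h

theorem infinite_sixtySeven :
    Infinite (⟨0, 0, 1, -7370, 243528⟩ : WeierstrassCurve ℚ).toAffine.Point := by
  have h := infinite_point_of_counts ⟨0, 0, 1, -7370, 243528⟩ (by decide +kernel) 11 17
    (by norm_num) (by norm_num) (by decide +kernel) (by decide +kernel) (by decide +kernel)
    (201 / 4) (-71 / 8) (by rw [Affine.equation_iff]; norm_num)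
  have e : (⟨0, 0, 1, -7370, 243528⟩ : WeierstrassCurve ℤ).map (Int.castRingHom ℚ) =
      ⟨0, 0, 1, -7370, 243528⟩ := by ext <;> simp
  rwa [e] at h

theorem infinite_oneSixtyThree :
    Infinite (⟨0, 0, 1, -2174420, 1234136692⟩ : WeierstrassCurve ℚ).toAffine.Point := by
  have h := infinite_point_of_counts ⟨0, 0, 1, -2174420, 1234136692⟩ (by decide +kernel) 11 41
    (by norm_num) (by norm_num) (by decide +kernel) (by decide +kernel) (by decide +kernel)
    850 68 (by rw [Affine.equation_iff]; norm_num)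
  have e : (⟨0, 0, 1, -2174420, 1234136692⟩ : WeierstrassCurve ℤ).map (Int.castRingHom ℚ) =
      ⟨0, 0, 1, -2174420, 1234136692⟩ := by ext <;> simp
  rwa [e] at h

end FA.CMRank

namespace FA.Summary

open FA.CMRank

/-- **A point of infinite order next to the central zero**: the curves isomorphic over `ℚ` to the
five models of discriminant `-q³`, `q = 11, 19, 43, 67, 163`, have infinitely many rational points,
and their L-series vanishes at `1` to odd order. -/
theorem rankPositive_cm (E : WeierstrassCurve ℚ) {q : ℕ}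
    (h : ∃ C : VariableChange ℚ, (q, C • E) ∈ ({(11, ⟨0, -1, 1, -7, 10⟩),
      (19, ⟨0, 0, 1, -38, 90⟩), (43, ⟨0, 0, 1, -860, 9707⟩), (67, ⟨0, 0, 1, -7370, 243528⟩),
      (163, ⟨0, 0, 1, -2174420, 1234136692⟩)} : Set (ℕ × WeierstrassCurve ℚ))) :
    Infinite E.toAffine.Point ∧
      ∃ g : ℂ → ℂ, Differentiable ℂ g ∧ (∀ s : ℂ, 3 / 2 < s.re → g s = E.LSeries s) ∧
        g 1 = 0 ∧ ∃ r : ℕ, Odd r ∧ analyticOrderAt g 1 = r := by
  refine ⟨?_, centralValue_cm_eq_zero E h⟩
  obtain ⟨C, hC⟩ := h
  simp only [Set.mem_insert_iff, Set.mem_singleton_iff, Prod.mk.injEq] at hC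
  obtain ⟨hΔ, hinf⟩ : (C • E).Δ ≠ 0 ∧ Infinite (C • E).toAffine.Point := by
    rcases hC with ⟨-, hC⟩ | ⟨-, hC⟩ | ⟨-, hC⟩ | ⟨-, hC⟩ | ⟨-, hC⟩ <;> rw [hC] <;>
      refine ⟨by norm_num [WeierstrassCurve.Δ, b₂, b₄, b₆, b₈], ?_⟩
    exacts [infinite_eleven, infinite_nineteen, infinite_fortyThree, infinite_sixtySeven,
      infinite_oneSixtyThree]
  haveI : E.IsElliptic := ⟨isUnit_iff_ne_zero.mpr fun h0 => hΔ (by
    rw [variableChange_Δ, h0, mul_zero])⟩
  haveI : (C • E).IsElliptic := ⟨isUnit_iff_ne_zero.mpr hΔ⟩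
  exact Infinite.of_injective _ (vcEquiv C (W := E) rfl).injective

end FA.Summary

end
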