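import Fermat.Agent.IsogenyNF.CMStable
import Fermat.Agent.IsogenyNF.Reducible
import Fermat.Agent.IsogenyNF.Extension
import Fermat.Agent.IsogenyNF.QuotientTransfer

/-!
# Complex multiplication is infinitely many reducible primes over a finite extension

A curve over a number field has complex multiplication exactly when over some finite extension it
has infinitely many cyclic stable subgroups, equivalently infinitely many primes with a reducible
representation. In particular this does not depend on the embedding.
-/

set_option autoImplicit false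
set_option linter.unusedSectionVars false

noncomputable section

namespace FA.Summary

open WeierstrassCurve WeierstrassCurve.Affine.Point FA.IsogenyNF
open scoped WeierstrassCurve.Affine

universe u

variable {K : Type u} [Field K] [NumberField K] [DecidableEq (AlgebraicClosure K)]
  (E : WeierstrassCurve K) [E.IsElliptic]

local notation "Kc" => AlgebraicClosure K

/-- **Complex multiplication gives infinitely many reducible primes** over an extension of degree
at most two. -/
theorem exists_infinite_reducible_of_hasCM (ψ : K →+* ℂ) (hcm : HasCM E ψ) :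
    ∃ F : IntermediateField K Kc, (FiniteDimensional K F ∧ Module.finrank K F ≤ 2) ∧
      {p : ℕ | p.Prime ∧ ¬ GaloisRepIsIrreducible (K := Kc) F E.toAffine p}.Infinite := by
  obtain ⟨hW, φ, L, hL, e, hno, -, he⟩ := exists_short (Kb := Kc) E ψ
  obtain ⟨F, hF, hinf⟩ := exists_infinite_prime_stable hL (hno.1 hcm)
  refine ⟨F, hF, hinf.mono ?_⟩
  rintro p ⟨hp, g, hg, hst⟩
  refine ⟨hp, (reducible_iff_exists_stable E hp).2
    ⟨e g, (addOrderOf_injective e.toAddMonoidHom e.injective g).trans hg, fun σ => ?_⟩⟩
  have hmem : σ.restrictScalars K ∈ F.fixingSubgroup := fun x => σ.commutes x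
  obtain ⟨k, hk⟩ := AddSubgroup.mem_zmultiples_iff.1 (hst _ hmem)
  have hres : (σ • e g : (E.toAffine⁄Kc).Point) = σ.restrictScalars K • e g := by
    rcases e g with _ | ⟨x, y, h⟩ <;> rfl
  exact AddSubgroup.mem_zmultiples_iff.2 ⟨k, by rw [hres, ← he, ← hk, map_zsmul]⟩

/-- **Without complex multiplication, over every finite extension all but finitely many primes
are irreducible.** -/
theorem finite_reducible_primes_extension (ψ : K →+* ℂ) (hcm : ¬ HasCM E ψ)
    (F : IntermediateField K Kc) [FiniteDimensional K F] :
    {p : ℕ | p.Prime ∧ ¬ GaloisRepIsIrreducible (K := Kc) F E.toAffine p}.Finite := by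
  refine ((finite_stable_extension E ψ hcm F).image addOrderOf).subset ?_
  rintro p ⟨hp, h⟩
  obtain ⟨g, hg, hst⟩ := (reducible_iff_exists_stable E hp).1 h
  exact ⟨g, ⟨hg.symm ▸ hp.pos, hst⟩, hg⟩

/-- **CM is infinitely many cyclic stable subgroups** over some finite extension. -/
theorem hasCM_iff_infinite_stable (ψ : K →+* ℂ) :
    HasCM E ψ ↔ ∃ F : IntermediateField K Kc, FiniteDimensional K F ∧
      {g : (E.toAffine⁄Kc).Point | IsOfFinAddOrder g ∧
        ∀ σ : Kc ≃ₐ[F] Kc, σ • g ∈ AddSubgroup.zmultiples g}.Infinite := by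
  refine ⟨fun hcm => ?_, fun ⟨F, _, hinf⟩ => ?_⟩
  · obtain ⟨F, ⟨hF, -⟩, hinf⟩ := exists_infinite_reducible_of_hasCM E ψ hcm
    refine ⟨F, hF, Set.Infinite.of_image addOrderOf (hinf.mono ?_)⟩
    rintro p ⟨hp, h⟩
    obtain ⟨g, hg, hst⟩ := (reducible_iff_exists_stable E hp).1 h
    exact ⟨g, ⟨addOrderOf_pos_iff.1 (hg.symm ▸ hp.pos), hst⟩, hg⟩
  · by_contra hcm
    exact hinf ((finite_stable_extension E ψ hcm F).subset fun g hg =>
      ⟨hg.1.addOrderOf_pos, hg.2⟩)

/-- **CM is infinitely many reducible primes** over some finite extension. -/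
theorem hasCM_iff_infinite_reducible (ψ : K →+* ℂ) :
    HasCM E ψ ↔ ∃ F : IntermediateField K Kc, FiniteDimensional K F ∧
      {p : ℕ | p.Prime ∧ ¬ GaloisRepIsIrreducible (K := Kc) F E.toAffine p}.Infinite := by
  refine ⟨fun h => (exists_infinite_reducible_of_hasCM E ψ h).imp fun F hF => ⟨hF.1.1, hF.2⟩,
    fun ⟨F, _, hinf⟩ => ?_⟩
  by_contra hcm
  exact hinf (finite_reducible_primes_extension E ψ hcm F)

/-- **No complex multiplication is irreducibility modulo almost all primes everywhere.** -/
theorem not_hasCM_iff_finite_reducible (ψ : K →+* ℂ) :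
    ¬ HasCM E ψ ↔ ∀ F : IntermediateField K Kc, FiniteDimensional K F →
      {p : ℕ | p.Prime ∧ ¬ GaloisRepIsIrreducible (K := Kc) F E.toAffine p}.Finite := by
  simp only [hasCM_iff_infinite_reducible E ψ, not_exists, not_and, Set.not_infinite]

omit [DecidableEq (AlgebraicClosure K)] in
/-- **Complex multiplication does not depend on the embedding.** -/
theorem hasCM_embedding_iff (ψ ψ' : K →+* ℂ) : HasCM E ψ ↔ HasCM E ψ' := by
  classical
  exact (hasCM_iff_infinite_reducible E ψ).trans (hasCM_iff_infinite_reducible E ψ').symm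

end FA.Summary

end
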