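import Fermat.Agent.DeuringCM.SymPower
import Fermat.Agent.DeuringCM.SymPowerDescended
import Fermat.Agent.DeuringCM.JointAngles

/-!
# Symmetric powers and the joint Sato–Tate law for complex multiplication

Let curves over a number field `F` with integral models `W₀`, `W₀'` have multipliers in `ℚ(√d)`,
`ℚ(√d')` for squarefree `d, d' < 0`. Write `a_v = π + conj π` with `π * conj π = N v` at a good
place.

* `symmetric_power_lSeries`: if `√d ∈ F`, for every `n` there are values `c v i`, equal to `π ^ (n - i) conj π ^ i`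
  at every good place and `0` or of absolute value `(√ N v) ^ n` at all, such that the Euler product
  of `∏ i (1 - c v i (N v) ^ (-z))⁻¹`, completed by `M ^ (z / 2)`, the factors
  `Γℂ (z - min i (n - i))` at every complex place and, for even `n`, `(z - n / 2) (z - n / 2 - 1)`,
  is entire, invariant under `z ↦ n + 1 - z` with sign `1`, and free of zeros for `1 + n / 2 ≤ re z`.
  Every prime factor of `M` divides the discriminant of `F` or lies under a place of bad reduction;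
* `symmetric_power_lSeries_descended`: the same if `√d ∉ F`, with a sign `±1`, the factors
  `Γℂ (z - i) ^ [F : ℚ]` for `2 i < n` and, for `n = 2 m`, `Γℝ (z - m + δ)` at every real place,
  `δ ≡ m (mod 2)`, and `Γℂ (z - m)` at every complex one; the two poles occur only for `4 ∣ n`;
* `satoTate_joint`: if `√d, √d' ∈ F` and `d ≠ d'`, the places with `a_v ≤ 2 t √(N v)` and `a'_v ≤ 2 t' √(N v)` have
  density `(1 - arccos t / π) (1 - arccos t' / π)`: the two arcsine laws are independent.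

The bad values and `M` are not identified with the local factors and the conductor of the symmetric
power.
-/

set_option autoImplicit false
set_option linter.unusedSectionVars false

noncomputable section

open WeierstrassCurve NumberField NumberField.InfinitePlace IsDedekindDomain Filter Topology
open FA.TraceNF (frobTrace)
open scoped Classical Real ComplexConjugate

namespace FA.Root.CMSymmetricPowersSummary

variable {F : Type} [Field F] [NumberField F] (W₀ W₀' : WeierstrassCurve (𝓞 F))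
  [(W₀.map (algebraMap (𝓞 F) F)).IsElliptic] [(W₀'.map (algebraMap (𝓞 F) F)).IsElliptic]

local notation "W" => W₀.map (algebraMap (𝓞 F) F)
local notation "W'" => W₀'.map (algebraMap (𝓞 F) F)

omit [(W₀'.map (algebraMap (𝓞 F) F)).IsElliptic] in
/-- **The L-series of the symmetric powers.** -/
theorem symmetric_power_lSeries (ψ : F →+* ℂ) {d : ℤ} (hd : Squarefree d) (hd0 : d < 0) {s : F}
    (hs : s ^ 2 = (d : F))
    (hcm : ∃ L : PeriodPair, L.g₂ = ψ (W).c₄ / 12 ∧ L.g₃ = ψ (W).c₆ / 216 ∧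
      ∃ ω : ℂ, (∀ m : ℤ, ω ≠ m) ∧ (∀ l ∈ L.lattice, ω * l ∈ L.lattice) ∧
        ∃ x y : ℚ, (ω - (x : ℂ)) ^ 2 = (d : ℂ) * (y : ℂ) ^ 2) (n : ℕ) :
    ∃ (M : ℕ) (c : HeightOneSpectrum (𝓞 F) → ℕ → ℂ) (H : ℂ → ℂ), 0 < M ∧
      (∀ v : HeightOneSpectrum (𝓞 F), W₀.Δ ∉ v.asIdeal → ∃ p : ℂ,
        p + conj p = frobTrace W₀ v ∧ p * conj p = (Ideal.absNorm v.asIdeal : ℂ) ∧
        ∀ i ≤ n, c v i = p ^ (n - i) * conj p ^ i) ∧
      (∀ v : HeightOneSpectrum (𝓞 F), ∀ i ≤ n,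
        (c v i = 0 ∨ ‖c v i‖ = Real.sqrt (Ideal.absNorm v.asIdeal) ^ n) ∧
        c v (n - i) = conj (c v i)) ∧
      (∀ p : ℕ, p.Prime → p ∣ M → (p : ℤ) ∣ discr F ∨
        ∃ v : HeightOneSpectrum (𝓞 F), W₀.Δ ∈ v.asIdeal ∧ (p : 𝓞 F) ∈ v.asIdeal) ∧
      Differentiable ℂ H ∧ (∀ z, H ((n : ℂ) + 1 - z) = H z) ∧
      (∀ z : ℂ, 1 + (n : ℝ) / 2 < z.re → ∃ L : ℂ,
        HasProd (fun v : HeightOneSpectrum (𝓞 F) => ∏ i ∈ Finset.range (n + 1),
          (1 - c v i * ((Ideal.absNorm v.asIdeal : ℕ) : ℂ) ^ (-z))⁻¹) L ∧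
        H z = (if Even n then (z - (n : ℂ) / 2) * (z - (n : ℂ) / 2 - 1) else 1) *
          (M : ℂ) ^ (z / 2) *
          (∏ i ∈ Finset.range (n + 1), Complex.Gammaℂ (z - ((min i (n - i) : ℕ) : ℂ))) ^
            nrComplexPlaces F * L) ∧
      ∀ z : ℂ, 1 + (n : ℝ) / 2 ≤ z.re → H z ≠ 0 :=
  FA.DeuringCM.exists_symPower W₀ ψ hd hd0 hs hcm n

omit [(W₀'.map (algebraMap (𝓞 F) F)).IsElliptic] in
/-- **The L-series of the symmetric powers without the field of multiplication.** -/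
theorem symmetric_power_lSeries_descended (ψ : F →+* ℂ) {d : ℤ} (hd : Squarefree d) (hd0 : d < 0)
    (hnot : ¬ ∃ s : F, s ^ 2 = (d : F))
    (hcm : ∃ L : PeriodPair, L.g₂ = ψ (W).c₄ / 12 ∧ L.g₃ = ψ (W).c₆ / 216 ∧
      ∃ ω : ℂ, (∀ m : ℤ, ω ≠ m) ∧ (∀ l ∈ L.lattice, ω * l ∈ L.lattice) ∧
        ∃ x y : ℚ, (ω - (x : ℂ)) ^ 2 = (d : ℂ) * (y : ℂ) ^ 2) (n : ℕ) :
    ∃ (M : ℕ) (ε : ℂ) (c : HeightOneSpectrum (𝓞 F) → ℕ → ℂ) (H : ℂ → ℂ), 0 < M ∧
      (ε = 1 ∨ ε = -1) ∧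
      (∀ v : HeightOneSpectrum (𝓞 F), W₀.Δ ∉ v.asIdeal → ∃ p : ℂ,
        p + conj p = frobTrace W₀ v ∧ p * conj p = (Ideal.absNorm v.asIdeal : ℂ) ∧
        ∀ i ≤ n, c v i = p ^ (n - i) * conj p ^ i) ∧
      (∀ v : HeightOneSpectrum (𝓞 F), ∀ i ≤ n,
        c v i = 0 ∨ ‖c v i‖ = Real.sqrt (Ideal.absNorm v.asIdeal) ^ n) ∧
      (∀ p : ℕ, p.Prime → p ∣ M → (p : ℤ) ∣ discr F ∨
        ∃ v : HeightOneSpectrum (𝓞 F), W₀.Δ ∈ v.asIdeal ∧ (p : 𝓞 F) ∈ v.asIdeal) ∧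
      Differentiable ℂ H ∧ (∀ z, H ((n : ℂ) + 1 - z) = ε * H z) ∧
      (∀ z : ℂ, 1 + (n : ℝ) / 2 < z.re → ∃ L : ℂ,
        HasProd (fun v : HeightOneSpectrum (𝓞 F) => ∏ i ∈ Finset.range (n + 1),
          (1 - c v i * ((Ideal.absNorm v.asIdeal : ℕ) : ℂ) ^ (-z))⁻¹) L ∧
        H z = (if 4 ∣ n then (z - (n : ℂ) / 2) * (z - (n : ℂ) / 2 - 1) else 1) *
          (M : ℂ) ^ (z / 2) *
          (∏ i ∈ Finset.range ((n + 1) / 2), Complex.Gammaℂ (z - (i : ℂ))) ^ Module.finrank ℚ F *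
          (if Even n then
            Complex.Gammaℝ (z - (n : ℂ) / 2 + ((n / 2 % 2 : ℕ) : ℂ)) ^ nrRealPlaces F *
              Complex.Gammaℂ (z - (n : ℂ) / 2) ^ nrComplexPlaces F else 1) * L) ∧
      ∀ z : ℂ, 1 + (n : ℝ) / 2 ≤ z.re → H z ≠ 0 :=
  FA.DeuringCM.exists_symPower_descended W₀ ψ hd hd0 hnot hcm n

/-- **Two different fields give independent laws.** -/
theorem satoTate_joint (ψ ψ' : F →+* ℂ) {d d' : ℤ} (hd : Squarefree d) (hd0 : d < 0)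
    (hd' : Squarefree d') (hd0' : d' < 0) (hne : d ≠ d') {s s' : F} (hs : s ^ 2 = (d : F))
    (hs' : s' ^ 2 = (d' : F))
    (hcm : ∃ L : PeriodPair, L.g₂ = ψ (W).c₄ / 12 ∧ L.g₃ = ψ (W).c₆ / 216 ∧
      ∃ ω : ℂ, (∀ m : ℤ, ω ≠ m) ∧ (∀ l ∈ L.lattice, ω * l ∈ L.lattice) ∧
        ∃ x y : ℚ, (ω - (x : ℂ)) ^ 2 = (d : ℂ) * (y : ℂ) ^ 2)
    (hcm' : ∃ L : PeriodPair, L.g₂ = ψ' (W').c₄ / 12 ∧ L.g₃ = ψ' (W').c₆ / 216 ∧
      ∃ ω : ℂ, (∀ m : ℤ, ω ≠ m) ∧ (∀ l ∈ L.lattice, ω * l ∈ L.lattice) ∧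
        ∃ x y : ℚ, (ω - (x : ℂ)) ^ 2 = (d' : ℂ) * (y : ℂ) ^ 2)
    {t t' : ℝ} (ht : -1 ≤ t) (ht₁ : t ≤ 1) (ht' : -1 ≤ t') (ht₁' : t' ≤ 1) :
    Tendsto (fun n : ℕ => Real.log n / n *
      (Nat.card {v : HeightOneSpectrum (𝓞 F) // Ideal.absNorm v.asIdeal ≤ n ∧
        (frobTrace W₀ v : ℝ) ≤ 2 * t * Real.sqrt (Ideal.absNorm v.asIdeal) ∧
        (frobTrace W₀' v : ℝ) ≤ 2 * t' * Real.sqrt (Ideal.absNorm v.asIdeal)} : ℝ)) atTop
      (𝓝 ((1 - Real.arccos t / π) * (1 - Real.arccos t' / π))) := by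
  obtain ⟨𝔣, f, hf, -, -, hv⟩ := FA.DeuringCM.exists_hecke_char W₀ ψ hd hd0 hs hcm
  obtain ⟨𝔤, g, hg, -, -, hv'⟩ := FA.DeuringCM.exists_hecke_char W₀' ψ' hd' hd0' hs' hcm'
  obtain ⟨S, hS, hord⟩ := FA.DeuringCM.exists_ordinary W₀ ψ hd hd0 hs hcm
  obtain ⟨S', hS', hord'⟩ := FA.DeuringCM.exists_ordinary W₀' ψ' hd' hd0' hs' hcm'
  have q1 : FA.DeuringCM.QuadValues f d (frobTrace W₀) (S ∪ S') :=
    ⟨fun v h => (hv v (hord v fun h' => h (Or.inl h')).1).2.1,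
      fun v h => (hv v (hord v fun h' => h (Or.inl h')).1).2.2,
      fun v h => FA.JugendtraumField.frobTrace_normEquation W₀ ψ hd hcm hs
        (hord v fun h' => h (Or.inl h')).1,
      fun v h => (hord v fun h' => h (Or.inl h')).2⟩
  have q2 : FA.DeuringCM.QuadValues g d' (frobTrace W₀') (S ∪ S') :=
    ⟨fun v h => (hv' v (hord' v fun h' => h (Or.inr h')).1).2.1,
      fun v h => (hv' v (hord' v fun h' => h (Or.inr h')).1).2.2,
      fun v h => FA.JugendtraumField.frobTrace_normEquation W₀' ψ' hd' hcm' hs'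
        (hord' v fun h' => h (Or.inr h')).1,
      fun v h => (hord' v fun h' => h (Or.inr h')).2⟩
  exact FA.DeuringCM.tendsto_natCard (by
    convert FA.DeuringCM.hasMean_re_le_pair hd hd0 hd' hne hf
      (FA.DeuringCM.sum_type_eq_one hd0 hs ψ) hg (FA.DeuringCM.sum_type_eq_one hd0' hs' ψ')
      (hS.union hS') q1 q2 ht ht₁ ht' ht₁')

end FA.Root.CMSymmetricPowersSummary

end
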