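import Fermat.Agent.IsogenyNF.CMAbelian
import Fermat.Agent.Root.SummaryCMStableSubgroups

/-!
# Complex multiplication over number fields: abelian torsion

A curve with complex multiplication over a number field `K` has an endomorphism of its algebraic
points defined over `K(ω)`, an extension of degree at most two, over which Galois acts
commutatively on all torsion and infinitely many primes are reducible.
-/

set_option autoImplicit false
set_option linter.unusedSectionVars false

noncomputable section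

namespace FA.Summary

open WeierstrassCurve WeierstrassCurve.Affine.Point FA.IsogenyNF
open scoped WeierstrassCurve.Affine

universe u

variable {K : Type u} [Field K] [NumberField K] [DecidableEq (AlgebraicClosure K)]
  (E : WeierstrassCurve K) [E.IsElliptic] (ψ : K →+* ℂ)

local notation "Kc" => AlgebraicClosure K

/-- **The endomorphism and the abelian torsion** of a curve with complex multiplication: `θ` is
quadratic over `ℤ`, not an integer, and commutes with the automorphisms fixing its eigenvalue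
`ω₀`; these commute with each other on every torsion point. -/
theorem exists_cm_endomorphism (hcm : HasCM E ψ) :
    ∃ (ω₀ : Kc) (t n : ℤ) (θ : (E.toAffine⁄Kc).Point →+ (E.toAffine⁄Kc).Point),
      t ^ 2 < 4 * n ∧ ω₀ ^ 2 - (t : Kc) * ω₀ + (n : Kc) = 0 ∧
      (∀ σ : Kc ≃ₐ[K] Kc, σ ω₀ = ω₀ → ∀ P, θ (σ • P) = σ • θ P) ∧
      (∀ P, θ (θ P) - t • θ P + n • P = 0) ∧
      (∀ m : ℤ, ∃ P, θ P ≠ m • P) ∧
      ∀ σ τ : Kc ≃ₐ[K] Kc, σ ω₀ = ω₀ → τ ω₀ = ω₀ →
        ∀ P : (E.toAffine⁄Kc).Point, IsOfFinAddOrder P → σ • τ • P = τ • σ • P := by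
  obtain ⟨hW, φ, L, hL, e, hno, -, he⟩ := exists_short (Kb := Kc) E ψ
  obtain ⟨ω₀, t, n, θ, hd, hr, heq, hθθ, hne, hcom⟩ := exists_commute hL (hno.1 hcm)
  have he' : ∀ σ : Kc ≃ₐ[K] Kc, ∀ P, e.symm (σ • P) = σ • e.symm P := fun σ P => by
    apply e.injective
    rw [he, e.apply_symm_apply, e.apply_symm_apply]
  refine ⟨ω₀, t, n, (e.toAddMonoidHom.comp θ).comp e.symm.toAddMonoidHom, hd, hr,
    fun σ hσ P => ?_, fun P => ?_, fun m => ?_, fun σ τ hσ hτ P hP => ?_⟩
  · show e (θ (e.symm (σ • P))) = σ • e (θ (e.symm P))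
    rw [he', heq σ hσ, he]
  · show e (θ (e.symm (e (θ (e.symm P))))) - t • e (θ (e.symm P)) + n • P = 0
    rw [e.symm_apply_apply]
    have h := congrArg e (hθθ (e.symm P))
    rw [map_add, map_sub, map_zsmul, map_zsmul, _root_.map_zero, e.apply_symm_apply] at h
    exact h
  · obtain ⟨P, hP⟩ := hne m
    refine ⟨e P, fun h => hP (e.injective ?_)⟩
    rw [map_zsmul]
    simpa using h
  · apply e.symm.injective
    rw [he', he', he', he']
    exact hcom σ τ hσ hτ _ (e.symm.toAddMonoidHom.isOfFinAddOrder hP)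

/-- **All torsion is abelian over a field of degree at most two**: it is fixed by the commutators
of the automorphisms over that field, so is rational over its maximal abelian extension. -/
theorem cm_torsion_fixed_by_commutator (hcm : HasCM E ψ) :
    ∃ F : IntermediateField K Kc, (FiniteDimensional K F ∧ Module.finrank K F ≤ 2) ∧
      ∀ σ ∈ ⁅F.fixingSubgroup, F.fixingSubgroup⁆, ∀ P : (E.toAffine⁄Kc).Point,
        IsOfFinAddOrder P → σ • P = P := by
  obtain ⟨ω₀, t, n, θ, -, hr, -, -, -, hcom⟩ := exists_cm_endomorphism E ψ hcm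
  refine ⟨IntermediateField.adjoin K {ω₀}, finrank_adjoin_le hr, fun σ hσ P hP => ?_⟩
  have hle : ⁅(IntermediateField.adjoin K {ω₀}).fixingSubgroup,
      (IntermediateField.adjoin K {ω₀}).fixingSubgroup⁆ ≤
      MulAction.stabilizer (Kc ≃ₐ[K] Kc) P := by
    rw [Subgroup.commutator_le]
    intro a ha b hb
    rw [MulAction.mem_stabilizer_iff, commutatorElement_def, mul_smul, mul_smul, mul_smul]
    have hfix : ∀ c ∈ (IntermediateField.adjoin K {ω₀}).fixingSubgroup, c ω₀ = ω₀ := fun c hc =>
      (IntermediateField.mem_fixingSubgroup_iff _ c).1 hc ω₀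
        (IntermediateField.subset_adjoin K _ rfl)
    have hPb : IsOfFinAddOrder (b⁻¹ • P) :=
      (DistribSMul.toAddMonoidHom _ (b⁻¹ : Kc ≃ₐ[K] Kc)).isOfFinAddOrder hP
    rw [hcom b a⁻¹ (hfix b hb) (hfix _ (inv_mem ha)) _ hPb, smul_inv_smul, smul_inv_smul]
  exact MulAction.mem_stabilizer_iff.1 (hle hσ)

/-- **CM is infinitely many reducible primes over an extension of degree at most two.** -/
theorem hasCM_iff_quadratic_reducible :
    HasCM E ψ ↔ ∃ F : IntermediateField K Kc,
      (FiniteDimensional K F ∧ Module.finrank K F ≤ 2) ∧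
      {p : ℕ | p.Prime ∧ ¬ GaloisRepIsIrreducible (K := Kc) F E.toAffine p}.Infinite := by
  refine ⟨exists_infinite_reducible_of_hasCM E ψ, fun ⟨F, ⟨hF, _⟩, hinf⟩ => ?_⟩
  exact (hasCM_iff_infinite_reducible E ψ).2 ⟨F, hF, hinf⟩

end FA.Summary

end
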