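import Fermat.Agent.CMValue.Abelian
import Fermat.Agent.CMValue.Brumer

/-!
# Summary: relative class numbers of CM fields, and Brumer's element

For every CM field `K`, Galois over `ℚ` or not, the zeta function is that of `K⁺` times the
L-series of a primitive totally odd quadratic ray class character `g` of `K⁺`, and
`h 2 ^ n = h⁺ Q w L (g, 0)`, `n = [K⁺ : ℚ]`; for `K` abelian over a totally real `F` the last factor
is the product over the characters of `Gal (K/F)` that are `-1` at complex conjugation of values at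
`0` which are not zero and follow the characters under `Aut ℂ`. The values at `0` of the narrow ray
classes of `F` form Brumer's element of the rational group ring. For an imaginary quadratic field
this is Dirichlet's `h = w L (g, 0) / 2`, thus `L (g, 0) = 1/2` for `ℚ (i)`. Not claimed:
the annihilation conjectured by Brumer and Stark, integrality, the value of `Q`.
-/

set_option autoImplicit false
set_option linter.unusedSectionVars false
set_option linter.style.haveILetI false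

noncomputable section

open NumberField InfinitePlace IsDedekindDomain Module Filter Complex
open scoped Real nonZeroDivisors Classical

namespace FA.CMValue.Summary

open FA.HeckeCharFE FA.KlingenRay
open FA.Hecke (IsRayChar IsNontrivial heckeL RayClassGroup rayClass rayCharFn)
open FA.ArtinL (artinL)

section quadratic

variable {K : Type*} [Field K] [NumberField K] [IsCMField K]

/-- **The relative class number formula of every CM field.** -/
theorem cm_class_number_formula :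
    ∃ (𝔣 : Ideal (𝓞 (maximalRealSubfield K))) (g : Ideal (𝓞 (maximalRealSubfield K)) →* ℂ),
      HasSigns 𝔣 g Finset.univ ∧ IsPrimitiveChar 𝔣 g ∧ IsNontrivial g ∧
      (∀ I, I ≠ ⊥ → g I = 0 ∨ g I = 1 ∨ g I = -1) ∧
      (∀ s : ℂ, 1 < s.re →
        dedekindZeta K s = dedekindZeta (maximalRealSubfield K) s * heckeL g s) ∧
      ∀ Z : ℂ → ℂ, DifferentiableOn ℂ Z {1}ᶜ → (∀ s : ℂ, 1 < s.re → Z s = heckeL g s) →
        (classNumber K : ℂ) * 2 ^ finrank ℚ (maximalRealSubfield K) =
          (classNumber (maximalRealSubfield K) : ℂ) * (IsCMField.indexRealUnits K : ℂ) *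
            (Units.torsionOrder K : ℂ) * Z 0 ∧
        ∃ r : ℚ, 0 < r ∧ Z 0 = (r : ℂ) := by
  obtain ⟨𝔣, g, hS, hp, hnt, hv, hz⟩ := exists_cm_char K
  refine ⟨𝔣, g, hS, hp, hnt, hv, hz, fun Z hd hL => ?_⟩
  have h := classNumber_formula (K := K) hd fun s hs => by rw [hz s hs, hL s hs]
  refine ⟨h, (classNumber K : ℚ) * 2 ^ finrank ℚ (maximalRealSubfield K) /
    ((classNumber (maximalRealSubfield K) : ℚ) * (IsCMField.indexRealUnits K : ℚ) *
      (Units.torsionOrder K : ℚ)), ?_, ?_⟩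
  · have h1 : (0 : ℚ) < classNumber K := Nat.cast_pos.2 (classNumber_pos K)
    have h2 : (0 : ℚ) < classNumber (maximalRealSubfield K) := Nat.cast_pos.2 (classNumber_pos _)
    have h3 : (0 : ℚ) < IsCMField.indexRealUnits K := by
      rcases IsCMField.indexRealUnits_eq_one_or_two K with e | e <;> rw [e] <;> norm_num
    have h4 : (0 : ℚ) < Units.torsionOrder K := Nat.cast_pos.2 (NeZero.pos _)
    positivity
  · have h2 : (classNumber (maximalRealSubfield K) : ℂ) ≠ 0 :=
      Nat.cast_ne_zero.2 (classNumber_pos _).ne'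
    have h3 : (IsCMField.indexRealUnits K : ℂ) ≠ 0 := by
      rcases IsCMField.indexRealUnits_eq_one_or_two K with e | e <;> rw [e] <;> norm_num
    have h4 : (Units.torsionOrder K : ℂ) ≠ 0 := Nat.cast_ne_zero.2 (NeZero.ne _)
    push_cast
    rw [h]
    field_simp

/-- **Dirichlet's case**: `h = w L (g, 0) / 2` for an imaginary quadratic field. -/
theorem imaginary_quadratic (h2 : finrank ℚ K = 2) {Z : ℂ → ℂ} (hd : DifferentiableOn ℂ Z {1}ᶜ)
    (hz : ∀ s : ℂ, 1 < s.re → dedekindZeta K s = dedekindZeta (maximalRealSubfield K) s * Z s) :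
    (classNumber K : ℂ) = (Units.torsionOrder K : ℂ) * Z 0 / 2 := by
  have hn : finrank ℚ (maximalRealSubfield K) = 1 := by
    have h := Module.finrank_mul_finrank ℚ (maximalRealSubfield K) K
    rw [Algebra.IsQuadraticExtension.finrank_eq_two (maximalRealSubfield K) K, h2] at h
    omega
  have hh : classNumber (maximalRealSubfield K) = 1 := by
    have hb := Module.Free.bijective_algebraMap_of_finrank_eq_one
      (R := ℚ) (S := maximalRealSubfield K) hn
    let e' : 𝓞 (maximalRealSubfield K) ≃+* ℤ := (RingOfIntegers.mapRingEquiv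
      (AlgEquiv.ofBijective (Algebra.ofId ℚ _) hb).symm.toRingEquiv).trans
        Rat.ringOfIntegersEquiv
    haveI : IsPrincipalIdealRing (𝓞 (maximalRealSubfield K)) :=
      IsPrincipalIdealRing.of_surjective e'.symm.toRingHom e'.symm.surjective
    exact classNumber_eq_one_iff.2 inferInstance
  have hQ : IsCMField.indexRealUnits K = 1 := by
    have hr : Units.rank K = 0 := by
      rw [← IsCMField.units_rank_eq_units_rank K, Units.rank,
        card_eq_nrRealPlaces_add_nrComplexPlaces, IsTotallyReal.nrComplexPlaces_eq_zero,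
        ← IsTotallyReal.finrank, hn]
    have : IsEmpty (Fin (Units.rank K)) := by rw [hr]; infer_instance
    have ht := Units.closure_fundSystem_sup_torsion_eq_top (K := K)
    rw [Set.range_eq_empty, Subgroup.closure_empty, bot_sup_eq] at ht
    rw [IsCMField.indexRealUnits, ht, sup_top_eq, Subgroup.index_top]
  have h := classNumber_formula (K := K) hd hz
  rw [hn, hh, hQ, pow_one, Nat.cast_one, one_mul, one_mul] at h
  linear_combination h / 2

end quadratic

/-- The check of the constant: `L (g, 0) = 1/3` for the field of the cube roots of unity. -/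
theorem eisenstein_check {K : Type*} [Field K] [NumberField K] [IsCyclotomicExtension {3} ℚ K]
    {Z : ℂ → ℂ} (hd : DifferentiableOn ℂ Z {1}ᶜ)
    (hz : ∀ s : ℂ, 1 < s.re → dedekindZeta K s = dedekindZeta (maximalRealSubfield K) s * Z s) :
    Z 0 = 1 / 3 := by
  haveI := IsCyclotomicExtension.Rat.isCMField K (S := {3}) ⟨3, rfl, by norm_num⟩
  have h2 : finrank ℚ K = 2 := by
    rw [IsCyclotomicExtension.finrank K (Polynomial.cyclotomic.irreducible_rat (n := 3)
      (by norm_num))]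
    decide
  have h := imaginary_quadratic h2 hd hz
  rw [classNumber_eq_one_iff.2 (IsCyclotomicExtension.Rat.three_pid K),
    IsCyclotomicExtension.Rat.torsionOrder_eq (n := 3) (K := K)] at h
  norm_num at h
  linear_combination -h / 3

section abelian

variable {F L : Type*} [Field F] [NumberField F] [IsTotallyReal F] [Field L] [NumberField L]
  [IsCMField L] [Algebra F L] [IsGalois F L]

/-- **An odd character**: a primitive totally odd ray class character of `F` with its L-series,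
continued. -/
theorem odd_char_ray (ψ : (L ≃ₐ[F] L) →* ℂˣ) (h : ψ (conjAut F L) = -1) :
    (∀ x : L, conjAut F L x = IsCMField.complexConj L x) ∧
    ∃ (𝔣 : Ideal (𝓞 F)) (g : Ideal (𝓞 F) →* ℂ) (Z : ℂ → ℂ), HasSigns 𝔣 g Finset.univ ∧
      IsPrimitiveChar 𝔣 g ∧ IsNontrivial g ∧ DifferentiableOn ℂ Z {1}ᶜ ∧
      ∀ s : ℂ, 1 < s.re → Z s = artinL (fun a => (ψ a : ℂ)) s ∧
        artinL (fun a => (ψ a : ℂ)) s = heckeL g s := by
  obtain ⟨𝔣, g, hS, hp, hnt, hL⟩ := exists_char ψ h
  exact ⟨conjAut_apply, 𝔣, g, primExt hS hp, hS, hp, hnt,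
    (differentiable_primExt hS hp).differentiableOn, fun s hs =>
      ⟨(primExt_eq hS hp hnt hs).trans (hL (RingHom.id ℂ) s hs).symm, hL (RingHom.id ℂ) s hs⟩⟩

/-- **The values at `0` of the odd characters**: not zero, in the field of the character, carried
by `σ` to those of `σ ∘ ψ`. -/
theorem odd_char_value (ψ : (L ≃ₐ[F] L) →* ℂˣ) (h : ψ (conjAut F L) = -1) {Z : ℂ → ℂ}
    (hd : DifferentiableOn ℂ Z {1}ᶜ)
    (hL : ∀ s : ℂ, 1 < s.re → Z s = artinL (fun a => (ψ a : ℂ)) s) :
    Z 0 ≠ 0 ∧ Z 0 ∈ IntermediateField.adjoin ℚ (Set.range fun a => (ψ a : ℂ)) ∧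
    ∀ (σ : ℂ →+* ℂ) (Z' : ℂ → ℂ), DifferentiableOn ℂ Z' {1}ᶜ →
      (∀ s : ℂ, 1 < s.re → Z' s = artinL (fun a => σ (ψ a : ℂ)) s) → σ (Z 0) = Z' 0 :=
  ⟨(artinValue_galois h ⟨hd, hL⟩).1, artinValue_mem h ⟨hd, hL⟩,
    fun σ Z' hd' hL' => (artinValue_galois h ⟨hd, hL⟩).2 σ Z' ⟨hd', hL'⟩⟩

/-- **The relative class number of a CM field abelian over a totally real field.** -/
theorem cm_class_number_abelian (hcomm : ∀ a b : L ≃ₐ[F] L, a * b = b * a)
    [Fintype ((L ≃ₐ[F] L) →* ℂˣ)] {Z : ((L ≃ₐ[F] L) →* ℂˣ) → ℂ → ℂ}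
    (hd : ∀ ψ, DifferentiableOn ℂ (Z ψ) {1}ᶜ)
    (hL : ∀ ψ : (L ≃ₐ[F] L) →* ℂˣ, ψ (conjAut F L) = -1 →
      ∀ s : ℂ, 1 < s.re → Z ψ s = artinL (fun a => (ψ a : ℂ)) s) :
    (classNumber L : ℂ) * 2 ^ finrank ℚ (maximalRealSubfield L) =
      (classNumber (maximalRealSubfield L) : ℂ) * (IsCMField.indexRealUnits L : ℂ) *
        (Units.torsionOrder L : ℂ) *
        ∏ ψ ∈ Finset.univ.filter (fun ψ : (L ≃ₐ[F] L) →* ℂˣ => ψ (conjAut F L) = -1), Z ψ 0 :=
  classNumber_abelian hcomm fun ψ h => ⟨hd ψ, hL ψ h⟩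

end abelian

section brumer

variable {F : Type*} [Field F] [NumberField F] [IsTotallyReal F] {𝔪 𝔐 : Ideal (𝓞 F)}
variable [Fintype (RayClassGroup 𝔪)]

/-- The coefficients: the values at `0` of the zeta functions of the classes. -/
theorem brumer_element_def (h𝔪 : 𝔪 ≠ ⊥) :
    brumerElt h𝔪 = ∑ γ, MonoidAlgebra.single γ⁻¹ (rayClassValue h𝔪 γ) ∧
    ∀ (γ : RayClassGroup 𝔪) (Z : ℂ → ℂ), DifferentiableOn ℂ Z {1}ᶜ →
      (∀ s : ℂ, 1 < s.re → Z s = rayClassZeta h𝔪 γ s) → Z 0 = (rayClassValue h𝔪 γ : ℂ) :=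
  ⟨rfl, fun γ _ hd hL => rayClassValue_spec h𝔪 γ ⟨hd, hL⟩⟩

/-- **A character carries Brumer's element to the value at `0` of its inverse.** -/
theorem brumer_element_char (h𝔪 : 𝔪 ≠ ⊥) (χ : RayClassGroup 𝔪 →* ℂˣ) {Z : ℂ → ℂ}
    (hd : DifferentiableOn ℂ Z {1}ᶜ)
    (hL : ∀ s : ℂ, 1 < s.re → Z s = heckeL (rayCharFn h𝔪 χ⁻¹) s) :
    MonoidAlgebra.lift ℚ ℂ (RayClassGroup 𝔪) ((Units.coeHom ℂ).comp χ) (brumerElt h𝔪) = Z 0 :=
  charEval_brumerElt_eq h𝔪 χ ⟨hd, hL⟩

/-- **Compatibility**: the factor is the product of `1 - [v]⁻¹` over the primes dividing the larger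
modulus and prime to the smaller one. -/
theorem brumer_element_compat (h𝔪 : 𝔪 ≠ ⊥) (h𝔐 : 𝔐 ≠ ⊥) (hle : 𝔐 ≤ 𝔪)
    [Fintype (RayClassGroup 𝔐)] :
    (∀ v : HeightOneSpectrum (𝓞 F), eulerElt h𝔪 v = if h : v.asIdeal ⊔ 𝔪 = ⊤ then
      1 - MonoidAlgebra.single (rayClass h𝔪 ⟨FA.Ext.primeIdeal v, h⟩)⁻¹ 1 else 1) ∧
    MonoidAlgebra.mapDomainAlgHom ℚ ℚ (FA.ArtinRec.rayMap h𝔐 h𝔪 hle) (brumerElt h𝔐) =
      brumerElt h𝔪 * ∏ v ∈ (Ideal.finite_factors h𝔐).toFinset, eulerElt h𝔪 v :=
  ⟨fun _ => rfl, brumerElt_compat h𝔪 h𝔐 hle⟩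

end brumer

end FA.CMValue.Summary

end
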