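import Fermat.Agent.CNGroups.Reduction

/-!
# CN-groups (Suzuki; Feit, Hall, Thompson): the local theory

A CN-group is one in which the centralisers of the nontrivial elements are nilpotent.

* `cn_hall`: a maximal nilpotent subgroup with two primes in its order is a TI Hall subgroup
  containing the centraliser of each of its nontrivial elements;
* `cn_dichotomy`: for a prime `p` either every Sylow `p`-subgroup lies in such a subgroup, and they
  are TI, or the centralisers of the nontrivial `p`-elements are `p`-groups;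
* `cn_quotient`: in the second case the quotients by normal `p`-subgroups are CN;
* `cn_minimal_simple`: a non-solvable CN-group of odd order all whose smaller relatives are
  solvable is simple with solvable proper subgroups;
* `cn_reduction`: so the theorem of Feit, Hall and Thompson follows from that case.

The theorem of Feit, Hall and Thompson itself is not claimed here.
-/

set_option autoImplicit false
set_option linter.style.haveILetI false

noncomputable section

universe u

open Subgroup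

namespace FA.Summary.CN

variable {G : Type*} [Group G] [Finite G]

/-- **Nilpotent Hall subgroups.** -/
theorem cn_hall (hG : ∀ x : G, x ≠ 1 → Group.IsNilpotent (centralizer ({x} : Set G)))
    (M : Subgroup G) (hM : Group.IsNilpotent M)
    (hmax : ∀ N : Subgroup G, Group.IsNilpotent N → M ≤ N → N = M)
    (htwo : ∃ p q : ℕ, p.Prime ∧ q.Prime ∧ p ≠ q ∧ p ∣ Nat.card M ∧ q ∣ Nat.card M) :
    (∀ y ∈ M, y ≠ 1 → centralizer ({y} : Set G) ≤ M) ∧
      (∀ g : G, ∀ y ∈ M, y ≠ 1 → g * y * g⁻¹ ∈ M → g ∈ normalizer (M : Set G)) ∧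
      (Nat.card M).Coprime M.index := by
  have hM' : FA.CNGroups.Mixed M := ⟨hM, hmax, htwo⟩
  refine ⟨fun y hy hy1 => hM'.centralizer_le hG hy hy1, fun g y hy hy1 hg => ?_,
    hM'.coprime_index hG⟩
  haveI := hM
  set e := Subgroup.equivMapOfInjective M (MulAut.conj g).toMonoidHom (MulAut.conj g).injective
  have hN : FA.CNGroups.Mixed (M.map (MulAut.conj g).toMonoidHom) := by
    refine ⟨Group.nilpotent_of_mulEquiv e, fun N hN hle => ?_, ?_⟩
    · have h1 : N.map (MulAut.conj g⁻¹).toMonoidHom = M := by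
        refine hmax _ (haveI := hN; Group.nilpotent_of_mulEquiv
          (Subgroup.equivMapOfInjective N _ (MulAut.conj g⁻¹).injective)) fun m hm => ?_
        exact ⟨g * m * g⁻¹, hle ⟨m, hm, rfl⟩, by simp [mul_assoc]⟩
      refine le_antisymm (fun n hn => ?_) hle
      exact ⟨g⁻¹ * n * g, h1 ▸ ⟨n, hn, by simp⟩, by simp [mul_assoc]⟩
    · obtain ⟨a, b, ha, hb, hab, had, hbd⟩ := htwo
      exact ⟨a, b, ha, hb, hab, by rwa [← Nat.card_congr e.toEquiv],
        by rwa [← Nat.card_congr e.toEquiv]⟩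
  have he : M.map (MulAut.conj g).toMonoidHom = M :=
    hN.eq_of_mem hG hM' (fun h => hy1 (conj_eq_one_iff.1 h)) ⟨y, hy, rfl⟩ hg
  refine mem_normalizer_iff.2 fun m => ⟨fun hm => he ▸ ⟨m, hm, rfl⟩, fun hm => ?_⟩
  rw [← he] at hm
  obtain ⟨m', hm', hmm⟩ := hm
  rwa [← (MulAut.conj g).injective (hmm : MulAut.conj g m' = MulAut.conj g m)]

/-- **The dichotomy.** -/
theorem cn_dichotomy (hG : ∀ x : G, x ≠ 1 → Group.IsNilpotent (centralizer ({x} : Set G)))
    (p : ℕ) [Fact p.Prime] :
    ((∀ P : Sylow p G, ∃ M : Subgroup G, (P : Subgroup G) ≤ M ∧ Group.IsNilpotent M ∧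
        (∃ a b : ℕ, a.Prime ∧ b.Prime ∧ a ≠ b ∧ a ∣ Nat.card M ∧ b ∣ Nat.card M) ∧
        ∀ y ∈ M, y ≠ 1 → centralizer ({y} : Set G) ≤ M) ∧
      ∀ P Q : Sylow p G, ∀ w : G, w ≠ 1 → w ∈ (P : Subgroup G) → w ∈ (Q : Subgroup G) → P = Q) ∨
    ∀ x : G, x ≠ 1 → (∃ k, x ^ p ^ k = 1) → IsPGroup p (centralizer ({x} : Set G)) := by
  by_cases h : FA.CNGroups.Cross p G
  · refine Or.inl ⟨fun P => ?_, fun P Q w hw hP hQ => FA.CNGroups.sylow_eq_of_cross hG h hw hP hQ⟩
    obtain ⟨M, hPM, hM⟩ := FA.CNGroups.exists_mixed_of_cross hG h P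
    exact ⟨M, hPM, hM.nilp, hM.two, fun y hy hy1 => hM.centralizer_le hG hy hy1⟩
  · exact Or.inr fun x hx hxp => FA.CNGroups.isPGroup_centralizer h hx hxp

/-- **Quotients in the second case.** -/
theorem cn_quotient (hG : ∀ x : G, x ≠ 1 → Group.IsNilpotent (centralizer ({x} : Set G)))
    {p : ℕ} [Fact p.Prime]
    (hpure : ∀ x : G, x ≠ 1 → (∃ k, x ^ p ^ k = 1) → IsPGroup p (centralizer ({x} : Set G)))
    {X : Subgroup G} [X.Normal] (hX : IsPGroup p X) :
    ∀ q : G ⧸ X, q ≠ 1 → Group.IsNilpotent (centralizer ({q} : Set (G ⧸ X))) := by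
  refine FA.CNGroups.isCN_quotient hG ?_ hX
  rintro ⟨q, hq, hqp, x, y, hx, hy, hxp, hyq, hxy⟩
  obtain ⟨k, hk⟩ := FA.CNGroups.isPow_of_mem (hpure x hx hxp)
    (mem_centralizer_singleton_iff.2 hxy.symm)
  have h1 : q ∣ p ^ k := (hyq.dvd_orderOf hq hy).trans (orderOf_dvd_of_pow_eq_one hk)
  exact hqp ((Nat.prime_dvd_prime_iff_eq hq Fact.out).1 (hq.dvd_of_dvd_pow h1))

/-- **Minimal counterexamples are simple.** -/
theorem cn_minimal_simple {G : Type u} [Group G] [Finite G]
    (hG : ∀ x : G, x ≠ 1 → Group.IsNilpotent (centralizer ({x} : Set G)))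
    (hodd : Odd (Nat.card G)) (hns : ¬ Group.IsSolvable G)
    (hmin : ∀ (K : Type u) [Group K] [Finite K], Nat.card K < Nat.card G → Odd (Nat.card K) →
      (∀ x : K, x ≠ 1 → Group.IsNilpotent (centralizer ({x} : Set K))) → Group.IsSolvable K) :
    IsSimpleGroup G ∧ ∀ H : Subgroup G, H ≠ ⊤ → Group.IsSolvable H :=
  FA.CNGroups.minimal_isSimple hG hodd hns fun K _ _ h1 h2 h3 => hmin K h1 h2 h3

/-- **Reduction to the simple case.** -/
theorem cn_reduction
    (hsimple : ∀ (K : Type u) [Group K] [Finite K], IsSimpleGroup K → Odd (Nat.card K) →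
      (∀ x : K, x ≠ 1 → Group.IsNilpotent (centralizer ({x} : Set K))) →
      (∀ H : Subgroup K, H ≠ ⊤ → Group.IsSolvable H) → Group.IsSolvable K)
    (G : Type u) [Group G] [Finite G] (hodd : Odd (Nat.card G))
    (hG : ∀ x : G, x ≠ 1 → Group.IsNilpotent (centralizer ({x} : Set G))) :
    Group.IsSolvable G :=
  FA.CNGroups.isSolvable_of_simple_case (fun K _ _ a b c d => hsimple K a b c d) G hodd hG

end FA.Summary.CN

end
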