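import Fermat.Agent.CNGroups.Structure

/-!
# The local structure of a minimal simple CN-group of odd order

Let `G` be a finite non-abelian simple group of odd order in which centralisers of nontrivial
elements are nilpotent and proper subgroups are solvable.  (By
`FA.CNGroups.isSolvable_of_simple_case` the Feit–Hall–Thompson theorem amounts to the non-existence
of such groups; this is the local part of its proof, completed in
`Root/SummaryFeitHallThompson`.)

* `cn_simple_sylow_TI`: two Sylow subgroups for the same prime meet trivially;
* `cn_simple_partition`: each nontrivial element lies in exactly one maximal nilpotent subgroup;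
* `cn_simple_hall`: each is a Hall subgroup containing the centralisers of its nontrivial elements;
* `cn_simple_frobenius_normalisers`: each is properly contained in its normaliser, whose elements
  outside it commute with none of its nontrivial elements.
-/

set_option autoImplicit false

noncomputable section

namespace FA.CNGroups.Summary

open Subgroup

variable {G : Type*} [Group G] [Finite G] [IsSimpleGroup G]

omit [Finite G] in
/-- Non-abelian simple groups are not solvable. -/
theorem not_isSolvable (hab : ∃ a b : G, a * b ≠ b * a) : ¬ Group.IsSolvable G := fun h => by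
  obtain ⟨a, b, hab⟩ := hab
  exact hab (IsSimpleGroup.comm_iff_isSolvable.2 h a b)

variable (hodd : Odd (Nat.card G)) (hab : ∃ a b : G, a * b ≠ b * a)
  (hG : ∀ x : G, x ≠ 1 → Group.IsNilpotent (centralizer ({x} : Set G)))
  (hprop : ∀ H : Subgroup G, H ≠ ⊤ → Group.IsSolvable H)

include hodd hab hG hprop

/-- **The Sylow subgroups are TI.** -/
theorem cn_simple_sylow_TI (p : ℕ) [Fact p.Prime] (P Q : Sylow p G) (hne : P ≠ Q) :
    (P : Subgroup G) ⊓ Q = ⊥ :=
  sylow_inf_eq_bot hodd hG (not_isSolvable hab) hprop hne

/-- **The partition.** -/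
theorem cn_simple_partition (x : G) (hx : x ≠ 1) :
    ∃! M : Subgroup G, x ∈ M ∧ MaxNil M := by
  obtain ⟨M, hxM, hM⟩ := exists_maxNil x
  exact ⟨M, ⟨hxM, hM⟩, fun N hN =>
    hN.2.eq_of_mem hodd hG (not_isSolvable hab) hprop hM hx hN.1 hxM⟩

/-- **Hall subgroups containing centralisers.** -/
theorem cn_simple_hall (M : Subgroup G) (hM : MaxNil M) :
    (Nat.card M).Coprime M.index ∧
      ∀ x ∈ M, x ≠ 1 → centralizer ({x} : Set G) ≤ M :=
  ⟨hM.coprime_index hG,
    fun _ hx hx1 => hM.centralizer_le hodd hG (not_isSolvable hab) hprop hx hx1⟩

/-- **The normalisers.** -/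
theorem cn_simple_frobenius_normalisers (M : Subgroup G) (hM : MaxNil M) :
    M < normalizer (M : Set G) ∧
      ∀ g ∈ normalizer (M : Set G), g ∉ M → ∀ x ∈ M, x ≠ 1 → g * x ≠ x * g :=
  ⟨hM.lt_normalizer hodd hG (not_isSolvable hab) hprop, fun _ _ hg _ hx hx1 h =>
    hg (hM.centralizer_le hodd hG (not_isSolvable hab) hprop hx hx1
      (mem_centralizer_singleton_iff.2 h))⟩

end FA.CNGroups.Summary
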