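import Fermat.Agent.CallSilverman.Example

/-!
# Summary: the specialisation theorems of Call–Silverman and Silverman

Let `K` be a number field. For `P / Q ∈ K(T)(X)` of degree `d ≥ 2`, given with coefficients in
`K[T]`, and `x ∈ ℙ¹ (K(T))` the limit `l` of `deg (f^k x) / d ^ k` exists and the canonical height
of the specialised point divided by `h (t)` tends to `l` as `t` leaves every finite set
(`call_silverman`); if `l ≠ 0` only finitely many `t` make it preperiodic (`preperiodic_finite`).
For an elliptic curve over `K(T)` the Néron–Tate height of the specialisation divided by `h (t)`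
tends to that of the point (`silverman_specialisation`), so points with nonsingular height matrix
are independent at all but finitely many `t` (`silverman_independence`); such points exist
(`nondegenerate_example`).

Heights: on `K` the height of Mathlib, not divided by `[K : ℚ]`, also in the canonical heights, so
the ratios do not depend on this; of a point of an elliptic curve the height of the abscissa
(twice the usual); on `K(T)` the degree. Not claimed: positive definiteness of the pairing over
`K(T)` for non-constant `j`, other bases, effective bounds.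
-/

set_option autoImplicit false
set_option linter.style.haveILetI false
set_option linter.unusedSectionVars false

noncomputable section

open WeierstrassCurve Polynomial OnePoint Height Filter Topology
open FA.ArithmeticDynamics
open FA.NeronSpecialisation (specW)
open scoped Classical

namespace FA.CallSilverman.Summary

variable {K : Type*} [Field K]

/-- Specialisation of points of the line, and their degree. -/
theorem specialisation_apply (t : K) (z : RatFunc K) :
    specPt t (∞ : OnePoint (RatFunc K)) = ∞ ∧
      specPt t (z : OnePoint (RatFunc K)) =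
        (if z.denom.eval t = 0 then ∞ else ↑(z.num.eval t / z.denom.eval t)) ∧
      ptDeg (z : OnePoint (RatFunc K)) = max z.num.natDegree z.denom.natDegree :=
  ⟨rfl, by rw [specPt_coe, toPoint]; simp, rfl⟩

variable [NumberField K]

/-- **The theorem of Call and Silverman.** -/
theorem call_silverman {P Q : K[X][X]}
    (hc : IsCoprime (P.map (algebraMap K[X] (RatFunc K))) (Q.map (algebraMap K[X] (RatFunc K))))
    (hd : 2 ≤ max P.natDegree Q.natDegree) (x : OnePoint (RatFunc K)) :
    ∃ l : ℝ, Tendsto (fun k : ℕ =>
        (ptDeg ((ratApply (P.map (algebraMap K[X] (RatFunc K)))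
          (Q.map (algebraMap K[X] (RatFunc K))))^[k] x) : ℝ) /
          ((max P.natDegree Q.natDegree : ℕ) : ℝ) ^ k) atTop (𝓝 l) ∧
      Tendsto (fun t : K => canonicalHeight (P.map (evalRingHom t)) (Q.map (evalRingHom t))
        (specPt t x) / logHeight₁ t) cofinite (𝓝 l) := by
  have e : degree (P.map (algebraMap K[X] (RatFunc K))) (Q.map (algebraMap K[X] (RatFunc K))) =
      max P.natDegree Q.natDegree := by
    rw [FA.ArithmeticDynamics.degree, natDegree_map_eq_of_injective (RatFunc.algebraMap_injective K),
      natDegree_map_eq_of_injective (RatFunc.algebraMap_injective K)]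
  obtain ⟨l, h1, h2⟩ := exists_limit hc (e ▸ hd) x
  rw [e] at h1
  refine ⟨l, h1, h2.congr fun t => ?_⟩
  rw [pointHeight_coe]
  rfl

/-- **Finitely many parameters with preperiodic specialisation.** -/
theorem preperiodic_finite {P Q : K[X][X]}
    (hc : IsCoprime (P.map (algebraMap K[X] (RatFunc K))) (Q.map (algebraMap K[X] (RatFunc K))))
    (hd : 2 ≤ max P.natDegree Q.natDegree) {x : OnePoint (RatFunc K)} {l : ℝ} (hl : l ≠ 0)
    (h : Tendsto (fun k : ℕ =>
      (ptDeg ((ratApply (P.map (algebraMap K[X] (RatFunc K)))
        (Q.map (algebraMap K[X] (RatFunc K))))^[k] x) : ℝ) /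
        ((max P.natDegree Q.natDegree : ℕ) : ℝ) ^ k) atTop (𝓝 l)) :
    {t : K | (Set.range fun n => (ratApply (P.map (evalRingHom t))
      (Q.map (evalRingHom t)))^[n] (specPt t x)).Finite}.Finite := by
  have e : degree (P.map (algebraMap K[X] (RatFunc K))) (Q.map (algebraMap K[X] (RatFunc K))) =
      max P.natDegree Q.natDegree := by
    rw [FA.ArithmeticDynamics.degree, natDegree_map_eq_of_injective (RatFunc.algebraMap_injective K),
      natDegree_map_eq_of_injective (RatFunc.algebraMap_injective K)]
  rw [← e] at h
  exact finite_preperiodic_specialisations hc (e ▸ hd) hl h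

variable {W : WeierstrassCurve K[X]}

/-- The specialisation of a point has the specialised abscissa. -/
theorem specW_abscissa {t : K} (ht : (W.map (evalRingHom t)).Δ ≠ 0)
    (P : (W.map (algebraMap K[X] (RatFunc K))).toAffine.Point) :
    toPoint (specW W ht P).xRep = specPt t (toPoint P.xRep) :=
  xPt_specW ht P

/-- The height over `K(T)` is the limit of `deg x (2^k P) / 4^k`. -/
theorem genHgt_limit (hW : W.Δ ≠ 0) (P : (W.map (algebraMap K[X] (RatFunc K))).toAffine.Point) :
    Tendsto (fun k : ℕ => (ptDeg (toPoint ((2 ^ k) • P).xRep) : ℝ) / (4 : ℝ) ^ k) atTop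
      (𝓝 (genHgt W P)) :=
  (tendsto_hgtAt hW P).1

/-- **Silverman's specialisation theorem**: the Néron–Tate height of the specialisation, divided
by `h (t)`, tends to the height of the point over `K(T)`. -/
theorem silverman_specialisation (hW : W.Δ ≠ 0)
    (P : (W.map (algebraMap K[X] (RatFunc K))).toAffine.Point) {ε : ℝ} (hε : 0 < ε) :
    {t : K | ∃ (ht : (W.map (evalRingHom t)).Δ ≠ 0)
      (f : (W.map (evalRingHom t)).toAffine.Point → ℝ),
      (∃ C, ∀ R, |f R - logHeight R.xRep| ≤ C) ∧ (∀ R, f (2 • R) = 4 * f R) ∧
        ε ≤ |f (specW W ht P) / logHeight₁ t - genHgt W P|}.Finite := by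
  have h := Metric.tendsto_nhds.1 (tendsto_hgtAt hW P).2 ε hε
  refine (eventually_cofinite.1 h).subset ?_
  rintro t ⟨ht, f, hf, h2, hle⟩ hlt
  rw [Real.dist_eq, ← hgtAt_eq ht hf h2 P, pointHeight_coe] at hlt
  exact absurd hlt (not_lt.2 hle)

/-- The parallelogram law over `K(T)`. -/
theorem genHgt_parallelogram (hW : W.Δ ≠ 0)
    (P Q : (W.map (algebraMap K[X] (RatFunc K))).toAffine.Point) :
    genHgt W (P + Q) + genHgt W (P - Q) = 2 * (genHgt W P + genHgt W Q) :=
  FA.CallSilverman.genHgt_parallelogram hW P Q

/-- **Independence at all but finitely many parameters.** -/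
theorem silverman_independence (hW : W.Δ ≠ 0) {n : ℕ}
    (P : Fin n → (W.map (algebraMap K[X] (RatFunc K))).toAffine.Point)
    (hdet : (Matrix.of fun i j =>
      (genHgt W (P i + P j) - genHgt W (P i) - genHgt W (P j)) / 2).det ≠ 0) :
    {t : K | ∃ ht : (W.map (evalRingHom t)).Δ ≠ 0,
      ¬LinearIndependent ℤ fun i => specW W ht (P i)}.Finite :=
  finite_dependent_specW hW P hdet

/-- **The hypothesis is met**: by the two points of the twisting family of R1332. -/
theorem nondegenerate_example {A B : ℚ} (hA : A ≠ 0) (hB : B ≠ 0)
    (hd : 4 * A ^ 3 + 27 * B ^ 2 ≠ 0) :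
    ∃ (W : WeierstrassCurve ℚ[X]) (P : Fin 2 → (W.map (algebraMap ℚ[X] (RatFunc ℚ))).toAffine.Point),
      W.Δ ≠ 0 ∧ (Matrix.of fun i j =>
        (genHgt W (P i + P j) - genHgt W (P i) - genHgt W (P j)) / 2).det ≠ 0 :=
  ⟨_, _, FA.TwistRankTwo.twistW_Δ_ne hA hB hd, det_pairing_ne hA hB hd⟩

end FA.CallSilverman.Summary
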