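import Fermat.Agent.Cannonball.Main

/-!
# Lucas's cannonball problem

`1² + 2² + ⋯ + 24² = 70²` is the only nontrivial square among the square pyramidal numbers
(Lucas 1875, Watson 1918); the proof is the elementary one of Ma and Anglin.
-/

set_option autoImplicit false

namespace FA.Summary

/-- **The cannonball problem**: `1² + ⋯ + n²` is a square only for `n = 0, 1, 24`. -/
theorem cannonball (n : ℕ) :
    (∃ y : ℕ, ∑ i ∈ Finset.range (n + 1), i ^ 2 = y ^ 2) ↔ n = 0 ∨ n = 1 ∨ n = 24 := by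
  constructor
  · rintro ⟨y, hy⟩
    have h : (n : ℤ) * (n + 1) * (2 * n + 1) = 6 * (y : ℤ) ^ 2 := by
      rw [← Cannonball.six_mul_sum_sq]
      exact_mod_cast congrArg (6 * ·) hy
    rcases Cannonball.solutions.1 h with ⟨h0 | h0, -⟩ | ⟨h0, -⟩ | ⟨h0, -⟩ <;> omega
  · rintro (rfl | rfl | rfl)
    exacts [⟨0, rfl⟩, ⟨1, rfl⟩, ⟨70, by decide⟩]

/-- All integral solutions of `6 y ² = x (x + 1) (2 x + 1)`. -/
theorem square_pyramidal_integer {x y : ℤ} : x * (x + 1) * (2 * x + 1) = 6 * y ^ 2 ↔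
    (x = 0 ∨ x = -1) ∧ y = 0 ∨ x = 1 ∧ (y = 1 ∨ y = -1) ∨ x = 24 ∧ (y = 70 ∨ y = -70) :=
  Cannonball.solutions

/-- A solution of `v² - 3 u² = 1` with `v = 4 M² + 3` has `v = 7`. -/
theorem pell_three_four_sq_add_three {v u M : ℤ} (h : v ^ 2 - 3 * u ^ 2 = 1)
    (hM : v = 4 * M ^ 2 + 3) : v = 7 :=
  Cannonball.eq_seven h hM

end FA.Summary
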