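import Fermat.Agent.DigitFrequency.Dimension
import Fermat.Agent.Frostman.CantorFourier

/-!
# The Fourier dimension of the Cantor set

No probability measure on the middle-third Cantor set has transform tending to `0` at infinity, so
the Fourier dimension is `0`, while the Hausdorff dimension is `log 2 / log 3`.
-/

set_option autoImplicit false

noncomputable section

open MeasureTheory Filter Topology
open scoped ENNReal

namespace FA.Frostman.Summary

/-- **The Cantor set is a set of extended uniqueness.** -/
theorem cantor_no_rajchman_measure (μ : Measure ℝ) [IsProbabilityMeasure μ]
    (hμ : μ cantorSetᶜ = 0) : ¬ Tendsto (charFun μ) atTop (𝓝 0) :=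
  not_tendsto_charFun_cantorSet μ hμ

/-- On the line the Fourier dimension can be smaller than the Hausdorff dimension. -/
theorem cantor_fourier_dimension :
    fourierDim cantorSet = 0 ∧ dimH cantorSet = ENNReal.ofReal (Real.log 2 / Real.log 3) :=
  ⟨fourierDim_cantorSet, DigitFrequency.dimH_cantorSet_eq⟩

end FA.Frostman.Summary

end
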