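import Fermat.Agent.TrigUniqueness.Main
import Mathlib.Algebra.BigOperators.Intervals

/-!
# Cantor's uniqueness theorem for trigonometric series

If the symmetric partial sums of two trigonometric series have the same limit at every point
outside a closed countable set, the series have the same coefficients (Cantor 1870, 1872).
-/

set_option autoImplicit false

noncomputable section

open Filter Topology Finset MeasureTheory

namespace FA.TrigUniqueness.Summary

/-- The symmetric partial sum `∑_{|n| ≤ N} c n e^(inx)`. -/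
def symmetricSum (c : ℤ → ℂ) (N : ℕ) (x : ℝ) : ℂ :=
  ∑ n ∈ Icc (-(N : ℤ)) N, c n * Complex.exp (((n : ℝ) * x : ℝ) * Complex.I)

theorem symmetricSum_eq (c : ℤ → ℂ) (N : ℕ) (x : ℝ) :
    symmetricSum c N x = ∑ n ∈ range (N + 1), trigTerm c n x := by
  induction N with
  | zero => simp [symmetricSum, trigTerm]
  | succ N ih =>
    have e : Icc (-((N + 1 : ℕ) : ℤ)) ((N + 1 : ℕ) : ℤ) =
        insert (-((N + 1 : ℕ) : ℤ)) (insert ((N + 1 : ℕ) : ℤ) (Icc (-(N : ℤ)) N)) := by
      ext z
      simp only [mem_Icc, mem_insert]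
      omega
    rw [symmetricSum, e, sum_insert (by simp only [mem_insert, mem_Icc]; omega),
      sum_insert (by simp only [mem_Icc]; omega), ← symmetricSum, ih, sum_range_succ _ (N + 1),
      trigTerm, if_neg (Nat.succ_ne_zero N)]
    push_cast
    ring_nf

/-- **Cantor's uniqueness theorem.** -/
theorem cantor_uniqueness {c : ℤ → ℂ} {E : Set ℝ} (hE : IsClosed E) (hEc : E.Countable)
    (h : ∀ x ∉ E, Tendsto (fun N => symmetricSum c N x) atTop (𝓝 0)) : c = 0 := by
  funext k
  refine coeff_eq_zero hE hEc (fun x hx => ?_) k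
  rw [← tendsto_add_atTop_iff_nat 1]
  simpa only [symmetricSum_eq] using h x hx

/-- Two series with the same sum outside a closed countable set are equal. -/
theorem cantor_uniqueness_sum {c d : ℤ → ℂ} {E : Set ℝ} (hE : IsClosed E) (hEc : E.Countable)
    {f : ℝ → ℂ} (hc : ∀ x ∉ E, Tendsto (fun N => symmetricSum c N x) atTop (𝓝 (f x)))
    (hd : ∀ x ∉ E, Tendsto (fun N => symmetricSum d N x) atTop (𝓝 (f x))) : c = d := by
  refine sub_eq_zero.1 (cantor_uniqueness hE hEc fun x hx => ?_)
  simpa only [symmetricSum, Pi.sub_apply, sub_mul, sum_sub_distrib, sub_self] using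
    (hc x hx).sub (hd x hx)

/-- **The Cantor–Lebesgue lemma.** -/
theorem cantor_lebesgue {c : ℤ → ℂ}
    (h : ∀ᵐ x ∂(volume : Measure ℝ), Tendsto (fun n => trigTerm c n x) atTop (𝓝 0)) :
    Tendsto (fun n : ℕ => max ‖c n‖ ‖c (-n)‖) atTop (𝓝 0) :=
  tendsto_coeff h

end FA.TrigUniqueness.Summary

end
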