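import Fermat.Agent.CapSet.Monomials
import Mathlib.FieldTheory.Finite.Basic
import Mathlib.Analysis.SpecificLimits.Basic

/-!
# The cap set theorem

* `ellenberg_gijswijt`: a subset of `𝔽_q^n` with only trivial solutions of `α x + β y + γ z = 0`,
  `α + β + γ = 0`, has at most three times as many elements as there are monomials of degree at
  most `(q - 1) n / 3`, hence at most `3 c^n` with `c < q`;
* `capSet_zmod_three`: cap sets in `𝔽_3^n` have at most `3 · 2.7552^n` elements;
* `progressionFree_littleO`: progression-free sets are `o(q^n)` for odd `q`;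
* `naslund_sawin`: a sunflower-free family of subsets of an `n`-element set has at most
  `3 (n + 1) ∑_{j ≤ n/3} C(n, j)` members.
-/

set_option autoImplicit false

noncomputable section

namespace FA.CapSet

open Finset

variable {F : Type*} [Field F] [Fintype F] {n : ℕ}

theorem card_le_lowExps {α β γ : F} (hα : α + β + γ = 0) {A : Finset (Fin n → F)}
    (hA : ∀ x ∈ A, ∀ y ∈ A, ∀ z ∈ A, α • x + β • y + γ • z = 0 → x = y ∧ y = z) :
    A.card ≤ 3 * (lowExps n (Fintype.card F - 1)).card := by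
  classical
  have hq : Fintype.card F - 1 ≠ 0 := by have := Fintype.one_lt_card (α := F); omega
  let L : MvPolynomial (Fin 3) F :=
    MvPolynomial.C α * MvPolynomial.X 0 + MvPolynomial.C β * MvPolynomial.X 1 +
      MvPolynomial.C γ * MvPolynomial.X 2
  have hL : L.totalDegree ≤ 1 := by
    have h : ∀ (a : F) (i : Fin 3),
        (MvPolynomial.C a * MvPolynomial.X i : MvPolynomial (Fin 3) F).totalDegree ≤ 1 :=
      fun a i => (MvPolynomial.totalDegree_mul _ _).trans (by simp)
    exact (MvPolynomial.totalDegree_add _ _).trans (max_le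
      ((MvPolynomial.totalDegree_add _ _).trans (max_le (h α 0) (h β 1))) (h γ 2))
  refine card_le_three_mul (1 - L ^ (Fintype.card F - 1)) ?_ (fun a _ i => ?_)
    (fun a ha b hb c hc habc => ?_)
  · refine (MvPolynomial.totalDegree_sub _ _).trans (max_le (by simp) ?_)
    exact (MvPolynomial.totalDegree_pow _ _).trans
      ((Nat.mul_le_mul_left _ hL).trans (mul_one _).le)
  · simp [L, ← add_mul, hα, zero_pow hq]
  · by_contra h
    push Not at h
    refine habc (hA a ha b hb c hc (funext fun i => ?_))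
    by_contra hi
    refine h i ?_
    simp only [Pi.add_apply, Pi.smul_apply, smul_eq_mul, Pi.zero_apply] at hi
    simp [L, FiniteField.pow_card_sub_one_eq_one _ hi]

theorem exists_base_lt (q : ℕ) (hq : 2 ≤ q) : ∃ c : ℝ, 0 < c ∧ c < q ∧
    ∀ n, ((lowExps n (q - 1)).card : ℝ) ≤ c ^ n := by
  obtain ⟨u, hu0, hu1, hu⟩ := exists_u_lt (D := q - 1) (by omega)
  refine ⟨_, div_pos (Finset.sum_pos (fun j _ => by positivity) (by simp)) (pow_pos hu0 _),
    hu.trans_le ?_, fun n => card_lowExps_le n (q - 1) hu0 hu1.le⟩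
  rw [Nat.cast_sub (by omega : 1 ≤ q)]
  simp

/-- A family of equally large sets without sunflowers. -/
theorem card_uniform_le {m : ℕ} {S : Finset (Finset (Fin n))} (hm : ∀ s ∈ S, s.card = m)
    (hS : ∀ x ∈ S, ∀ y ∈ S, ∀ z ∈ S, x ≠ y → y ≠ z → x ≠ z →
      ¬(x ∩ y = y ∩ z ∧ y ∩ z = x ∩ z)) :
    S.card ≤ 3 * (lowExps n 1).card := by
  classical
  let χ : Finset (Fin n) → Fin n → ℚ := fun s i => if i ∈ s then 1 else 0
  have hχ : Function.Injective χ := fun s t h => Finset.ext fun i => by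
    have := congrFun h i
    by_cases hs : i ∈ s <;> by_cases ht : i ∈ t <;> simp [χ, hs, ht] at this ⊢
  rw [← Finset.card_image_of_injective S hχ]
  let P : MvPolynomial (Fin 3) ℚ :=
    MvPolynomial.C 2 - (MvPolynomial.X 0 + MvPolynomial.X 1 + MvPolynomial.X 2)
  refine card_le_three_mul P ?_ (fun a ha i => ?_) (fun a ha b hb c hc habc => ?_)
  · refine (MvPolynomial.totalDegree_sub _ _).trans (max_le (by simp) ?_)
    exact (MvPolynomial.totalDegree_add _ _).trans (max_le
      ((MvPolynomial.totalDegree_add _ _).trans (max_le (by simp) (by simp))) (by simp))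
  · obtain ⟨s, -, rfl⟩ := mem_image.1 ha
    by_cases hs : i ∈ s <;> simp [P, χ, hs] <;> norm_num
  obtain ⟨x, hx, rfl⟩ := mem_image.1 ha
  obtain ⟨y, hy, rfl⟩ := mem_image.1 hb
  obtain ⟨z, hz, rfl⟩ := mem_image.1 hc
  -- a coordinate lying in exactly two of the sets
  obtain ⟨i, hi⟩ : ∃ i, (i ∈ x ∧ i ∈ y ∧ i ∉ z) ∨ (i ∈ x ∧ i ∉ y ∧ i ∈ z) ∨
      (i ∉ x ∧ i ∈ y ∧ i ∈ z) := by
    by_contra h
    push Not at h
    have hpair : ∀ u ∈ S, ∀ v ∈ S, (∀ i ∈ u, i ∈ v) → u = v := fun u hu v hv huv =>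
      Finset.eq_of_subset_of_card_le huv (by rw [hm u hu, hm v hv])
    have hxy : x ≠ y := fun e => habc ⟨congrArg χ e, congrArg χ (hpair y hy z hz fun i hi => by
      have := (h i).1 (e ▸ hi) hi
      exact this)⟩
    have hyz : y ≠ z := fun e => habc ⟨congrArg χ (hpair y hy x hx fun i hi => by
      by_contra hix
      exact (h i).2.2 hix hi (e ▸ hi)).symm, congrArg χ e⟩
    have hxz : x ≠ z := fun e => hxy (hpair x hx y hy fun i hi => by
      by_contra hiy
      exact (h i).2.1 hi hiy (e ▸ hi))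
    refine hS x hx y hy z hz hxy hyz hxz ⟨?_, ?_⟩ <;> ext i <;>
      simp only [Finset.mem_inter] <;> have := h i <;> tauto
  refine ⟨i, ?_⟩
  rcases hi with ⟨h1, h2, h3⟩ | ⟨h1, h2, h3⟩ | ⟨h1, h2, h3⟩ <;>
    simp [P, χ, h1, h2, h3] <;> norm_num

end FA.CapSet

namespace FA.Summary

open Finset FA.CapSet

/-- **The theorem of Croot–Lev–Pach and Ellenberg–Gijswijt.** -/
theorem ellenberg_gijswijt (F : Type*) [Field F] [Fintype F] :
    ∃ c : ℝ, 0 < c ∧ c < Fintype.card F ∧
      ∀ (n : ℕ) (α β γ : F), α + β + γ = 0 → ∀ A : Finset (Fin n → F),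
        (∀ x ∈ A, ∀ y ∈ A, ∀ z ∈ A, α • x + β • y + γ • z = 0 → x = y ∧ y = z) →
        A.card ≤ 3 * ((univ : Finset (Fin n → Fin (Fintype.card F))).filter
          fun e => 3 * ∑ i, (e i : ℕ) ≤ (Fintype.card F - 1) * n).card ∧
        (A.card : ℝ) ≤ 3 * c ^ n := by
  classical
  have hq : 2 ≤ Fintype.card F := Fintype.one_lt_card
  obtain ⟨c, hc0, hcq, hc⟩ := exists_base_lt _ hq
  refine ⟨c, hc0, hcq, fun n α β γ hsum A hA => ?_⟩
  have h := card_le_lowExps hsum hA
  refine ⟨h.trans (Nat.mul_le_mul_left 3 (le_of_eq ?_)), ?_⟩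
  · have he : Fintype.card F - 1 + 1 = Fintype.card F := by omega
    refine Finset.card_equiv (Equiv.arrowCongr (Equiv.refl _) (finCongr he)) fun e => ?_
    simp [lowExps]
  · calc (A.card : ℝ) ≤ ((3 * (lowExps n (Fintype.card F - 1)).card : ℕ) : ℝ) :=
          Nat.cast_le.2 h
      _ ≤ 3 * c ^ n := by
          push_cast
          exact mul_le_mul_of_nonneg_left (hc n) (by norm_num)

/-- **Cap sets.** -/
theorem capSet_zmod_three (n : ℕ) (A : Finset (Fin n → ZMod 3))
    (hA : ∀ x ∈ A, ∀ y ∈ A, ∀ z ∈ A, x ≠ y → y ≠ z → x ≠ z → x + y + z ≠ 0) :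
    (A.card : ℝ) ≤ 3 * (2.7552 : ℝ) ^ n := by
  have key : ∀ u v w : ZMod 3, u + v + w = 0 → (u = v → v = w) ∧ (v = w → u = v) ∧
      (u = w → u = v) := by decide
  have h111 : (1 : ZMod 3) + 1 + 1 = 0 := by decide
  have : Fact (Nat.Prime 3) := ⟨Nat.prime_three⟩
  have h := card_le_lowExps (F := ZMod 3) (α := 1) (β := 1) (γ := 1) h111 (A := A)
    fun x hx y hy z hz e => by
      simp only [one_smul] at e
      have hk := fun i => key (x i) (y i) (z i) (congrFun e i)
      by_cases hxy : x = y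
      · exact ⟨hxy, funext fun i => (hk i).1 (congrFun hxy i)⟩
      by_cases hyz : y = z
      · exact absurd (funext fun i => (hk i).2.1 (congrFun hyz i)) hxy
      by_cases hxz : x = z
      · exact absurd (funext fun i => (hk i).2.2 (congrFun hxz i)) hxy
      exact absurd e (hA x hx y hy z hz hxy hyz hxz)
  rw [ZMod.card] at h
  have h3 : (lowExps n 2).card ≤ (2.7552 : ℝ) ^ n := by
    refine (card_lowExps_le n 2 (u := 0.84) (by norm_num) (by norm_num)).trans ?_
    refine pow_le_pow_left₀ (div_nonneg (Finset.sum_nonneg fun j _ => by positivity)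
      (by norm_num)) ?_ n
    norm_num [Finset.sum_range_succ]
  calc (A.card : ℝ) ≤ ((3 * (lowExps n 2).card : ℕ) : ℝ) := Nat.cast_le.2 h
    _ ≤ 3 * (2.7552 : ℝ) ^ n := by push_cast; linarith

/-- **Progression-free sets have density tending to zero.** -/
theorem progressionFree_littleO (F : Type*) [Field F] [Fintype F] (h2 : (2 : F) ≠ 0) :
    ∀ ε : ℝ, 0 < ε → ∃ N, ∀ n ≥ N, ∀ A : Finset (Fin n → F),
      (∀ x ∈ A, ∀ y ∈ A, ∀ z ∈ A, x + z = y + y → x = z) →
      (A.card : ℝ) ≤ ε * (Fintype.card F : ℝ) ^ n := by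
  intro ε hε
  obtain ⟨c, hc0, hcq, hc⟩ := ellenberg_gijswijt F
  have hq : (0 : ℝ) < Fintype.card F := hc0.trans hcq
  have hlim := tendsto_pow_atTop_nhds_zero_of_lt_one (div_nonneg hc0.le hq.le)
    ((div_lt_one hq).2 hcq)
  obtain ⟨N, hN⟩ := Filter.eventually_atTop.1
    (hlim.eventually_lt_const (show (0 : ℝ) < ε / 3 by linarith))
  refine ⟨N, fun n hn A hA => ?_⟩
  have h := (hc n 1 (-2) 1 (by ring) A fun x hx y hy z hz e => by
    have e' : x + z = y + y := funext fun i => by
      have := congrFun e i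
      simp at this ⊢
      linear_combination this
    have hxz := hA x hx y hy z hz e'
    subst hxz
    have hxy : x = y := funext fun i => mul_left_cancel₀ h2 (by
      have := congrFun e' i
      simp at this
      linear_combination this)
    exact ⟨hxy, hxy.symm⟩).2
  refine h.trans ?_
  have h' := hN n hn
  rw [div_pow, div_lt_iff₀ (pow_pos hq n)] at h'
  linarith

/-- **Sunflower-free families (Naslund–Sawin).** -/
theorem naslund_sawin (n : ℕ) (S : Finset (Finset (Fin n)))
    (hS : ∀ x ∈ S, ∀ y ∈ S, ∀ z ∈ S, x ≠ y → y ≠ z → x ≠ z →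
      ¬(x ∩ y = y ∩ z ∧ y ∩ z = x ∩ z)) :
    S.card ≤ 3 * (n + 1) * ∑ j ∈ range (n / 3 + 1), n.choose j := by
  classical
  rw [← card_lowExps_one, Finset.card_eq_sum_card_fiberwise (f := Finset.card)
    (t := range (n + 1)) fun s _ => by
      have := Finset.card_le_univ s
      rw [Fintype.card_fin] at this
      exact mem_coe.2 (mem_range.2 (Nat.lt_succ_of_le this))]
  refine (Finset.sum_le_card_nsmul _ _ (3 * (lowExps n 1).card) fun m _ => ?_).trans
    (le_of_eq (by simp; ring))
  exact card_uniform_le (m := m) (fun s hs => (mem_filter.1 hs).2)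
    fun x hx y hy z hz => hS x (mem_filter.1 hx).1 y (mem_filter.1 hy).1 z (mem_filter.1 hz).1

end FA.Summary

end
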