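import Fermat.Agent.Capacity.Choquet

/-!
# Capacitability of analytic sets
-/

set_option autoImplicit false

universe u v

namespace FA.Capacity

open Set Topology MeasureTheory
open scoped ENNReal

/-- **Choquet's capacitability theorem.** The capacity of an analytic set is the supremum of the
capacities of its compact subsets. -/
theorem choquet_capacitability {X : Type u} [TopologicalSpace X] {c : Set X → ℝ≥0∞}
    (hc : IsChoquetCapacity c) {A : Set X} (hA : AnalyticSet A) :
    c A = ⨆ (K : Set X) (_ : K ⊆ A) (_ : IsCompact K), c K :=
  capacity_eq_iSup hc hA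

variable {X : Type u} [TopologicalSpace X] [MeasurableSpace X]

/-- **Inner regularity on analytic sets.** The outer measure of an analytic set is the supremum
of the measures of its compact subsets. -/
theorem measure_analytic_eq_iSup (μ : Measure X) [μ.OuterRegular] {A : Set X}
    (hA : AnalyticSet A) : μ A = ⨆ (K : Set X) (_ : K ⊆ A) (_ : IsCompact K), μ K :=
  capacity_eq_iSup (isChoquetCapacity_measure μ) hA

/-- **Inner regularity for finite Borel measures on metrizable spaces.** -/
theorem finite_measure_analytic_eq_iSup [TopologicalSpace.MetrizableSpace X] [BorelSpace X]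
    (μ : Measure X) [IsFiniteMeasure μ] {A : Set X} (hA : AnalyticSet A) :
    μ A = ⨆ (K : Set X) (_ : K ⊆ A) (_ : IsCompact K), μ K :=
  measure_analytic_eq_iSup μ hA

/-- **Projections are approximated by projections of compact sets.** -/
theorem exists_compact_projection {Y : Type v} [TopologicalSpace Y] (μ : Measure X)
    [μ.OuterRegular] {R : Set (X × Y)} (hR : AnalyticSet R) {t : ℝ≥0∞}
    (ht : t < μ (Prod.fst '' R)) : ∃ K ⊆ R, IsCompact K ∧ t ≤ μ (Prod.fst '' K) :=
  exists_compact_le (isChoquetCapacity_image μ continuous_fst) hR ht

end FA.Capacity
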