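import Fermat.Agent.Cardy.Main

/-!
# Critical site percolation on the triangular lattice

The lattice is `ℤ × ℤ` with the six neighbours `±(1, 0)`, `±(0, 1)`, `±(1, -1)`; on a finite set
`D` of sites every one of the `2 ^ D.card` configurations has the same weight
(`FA.Cardy.pr D`), and `FA.Cardy.Conn S u v` says that a walk inside `S` joins `u` to `v`.
The lemma of Hex, the crossing bounds of Russo, Seymour and Welsh, the decay of one arm, and
the formula of Cardy on the equilateral triangle, as proved by Smirnov. Only this domain is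
covered: other domains, and conformal invariance in general, are not.
-/

set_option autoImplicit false

noncomputable section

open Finset FA.Cardy
open scoped Classical

namespace FA.Summary

/-- The model: six neighbours, walks inside a set, and equal weights. -/
theorem triangular_model (D : Finset (ℤ × ℤ)) (A : Set (Set (ℤ × ℤ))) (S : Set (ℤ × ℤ))
    (u v : ℤ × ℤ) :
    (Adj u v ↔ v - u ∈ ({(1, 0), (-1, 0), (0, 1), (0, -1), (1, -1), (-1, 1)} : Set (ℤ × ℤ))) ∧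
    (Conn S u v ↔ u ∈ S ∧ Relation.ReflTransGen (fun x y => Adj x y ∧ y ∈ S) u v) ∧
    pr D A = (((D.powerset.filter fun s : Finset (ℤ × ℤ) => (↑s : Set (ℤ × ℤ)) ∈ A).card : ℕ) : ℝ)
      / 2 ^ D.card := by
  refine ⟨?_, Iff.rfl, rfl⟩
  simp only [Adj, Set.mem_insert_iff, Set.mem_singleton_iff, Prod.ext_iff, Prod.fst_sub,
    Prod.snd_sub]
  omega

/-- **The lemma of Hex**: in a parallelogram exactly one of an open crossing from left to right
and a closed crossing from bottom to top occurs. -/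
theorem triangular_hex {x₀ x₁ y₀ y₁ : ℤ} (hx : x₀ ≤ x₁) (hy : y₀ ≤ y₁) (η : Set (ℤ × ℤ)) :
    (∃ u v, Conn (η ∩ ↑(Finset.Icc x₀ x₁ ×ˢ Finset.Icc y₀ y₁)) u v ∧ u.1 = x₀ ∧ v.1 = x₁) ↔
      ¬∃ u v, Conn (ηᶜ ∩ ↑(Finset.Icc x₀ x₁ ×ˢ Finset.Icc y₀ y₁)) u v ∧ u.2 = y₀ ∧ v.2 = y₁ :=
  ⟨fun h h' => not_lrCross_and_btCross η ⟨h, h'⟩,
    (lrCross_or_btCross hx hy η).resolve_right⟩

/-- The rhombus is crossed with chance exactly one half. -/
theorem triangular_rhombus_half (n : ℕ) :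
    pr (Finset.Icc 0 (n : ℤ) ×ˢ Finset.Icc 0 (n : ℤ))
      {η | ∃ u v, Conn (η ∩ ↑(Finset.Icc 0 (n : ℤ) ×ˢ Finset.Icc 0 (n : ℤ))) u v ∧
        u.1 = 0 ∧ v.1 = (n : ℤ)} = 1 / 2 := by
  have h := pr_lrCross_rhombus 0 n
  simp only [zero_add] at h
  exact h

/-- **The theorem of Russo, Seymour and Welsh**: parallelograms of a fixed shape are crossed the
long way with a chance bounded below, at every scale and place. -/
theorem triangular_rsw (k : ℕ) : ∃ c : ℝ, 0 < c ∧ ∀ (a b : ℤ) (n : ℕ),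
    c ≤ pr (Finset.Icc a (a + k * n) ×ˢ Finset.Icc b (b + n))
      {η | ∃ u v, Conn (η ∩ ↑(Finset.Icc a (a + k * n) ×ˢ Finset.Icc b (b + n))) u v ∧
        u.1 = a ∧ v.1 = a + k * n} :=
  exists_lrCross_lower k

/-- **One arm**: an open walk from within `r` of `z` to distance `R` has chance at most a power
of `r / R`. -/
theorem triangular_one_arm : ∃ C α : ℝ, 0 < C ∧ 0 < α ∧ ∀ (z : ℤ × ℤ) (r R : ℕ), 1 ≤ r → r ≤ R →
    pr (Finset.Icc (z.1 - R) (z.1 + R) ×ˢ Finset.Icc (z.2 - R) (z.2 + R))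
      {η | ∃ u v,
        Conn (η ∩ ↑(Finset.Icc (z.1 - R) (z.1 + R) ×ˢ Finset.Icc (z.2 - R) (z.2 + R))) u v ∧
        (|u.1 - z.1| ≤ r ∧ |u.2 - z.2| ≤ r) ∧ (R ≤ |v.1 - z.1| ∨ R ≤ |v.2 - z.2|)} ≤
      C * ((r : ℝ) / R) ^ α := by
  obtain ⟨C, α, hC, hα, h⟩ := exists_arm_bound
  refine ⟨C, α, hC, hα, fun z r R hr hrR => le_trans (pr_mono fun s _ hs => ?_) (h z r R hr hrR)⟩
  obtain ⟨u, v, huv, ⟨hu1, hu2⟩, hv⟩ := hs
  rw [abs_le] at hu1 hu2
  rw [le_abs, le_abs] at hv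
  refine ⟨u, v, huv, mem_par.2 (by omega), ?_⟩
  simp only [Beyond]
  omega

/-- **The formula of Cardy** (Smirnov): in the triangle of side `n` with corners `(0, 0)`, `(n, 0)`,
`(0, n)`, the chance of an open walk from the side `u.1 = 0` to the part `k ≤ v.1` of the side
`v.1 + v.2 = n` tends to `1 - t` when `k / n` tends to `t`. -/
theorem triangular_cardy {k : ℕ → ℕ} (hk : ∀ n, k n ≤ n) {t : ℝ}
    (ht : Filter.Tendsto (fun n => (k n : ℝ) / n) Filter.atTop (nhds t)) :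
    Filter.Tendsto (fun n : ℕ =>
      pr ((Finset.Icc 0 (n : ℤ) ×ˢ Finset.Icc 0 (n : ℤ)).filter fun v => v.1 + v.2 ≤ (n : ℤ))
        {η | ∃ u v, Conn (η ∩ ↑((Finset.Icc 0 (n : ℤ) ×ˢ Finset.Icc 0 (n : ℤ)).filter
            fun v => v.1 + v.2 ≤ (n : ℤ))) u v ∧
          u.1 = 0 ∧ v.1 + v.2 = (n : ℤ) ∧ (k n : ℤ) ≤ v.1})
      Filter.atTop (nhds (1 - t)) :=
  tendsto_sideCross hk ht

end FA.Summary

end
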