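import Fermat.Agent.Carlitz.Galois

/-!
# The Carlitz module and cyclotomic function fields

`F` is a finite field with `q` elements, `carlitz a ∈ F[T][x]` the Carlitz polynomial of
`a ∈ F[T]`, `L` a splitting field of `carlitz M` over `F(T)`.
-/

set_option autoImplicit false

noncomputable section

namespace FA.Summary

open Polynomial FA.Carlitz

variable {F : Type*} [Field F] [Fintype F]

/-- **The Carlitz module**: `C_1 = x`, `C_T = T x + x^q`, `a ↦ C_a` is `F`-linear and turns products
into composition; `C_a` has degree `q^(deg a)` and derivative `a`; modulo a monic prime `P` one has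
`C_P ≡ x^(q^deg P)`. -/
theorem carlitz_module :
    carlitz (1 : F[X]) = X ∧ carlitz (X : F[X]) = C X * X + X ^ Fintype.card F ∧
      (∀ a b : F[X], carlitz (a + b) = carlitz a + carlitz b ∧
        carlitz (a * b) = (carlitz a).comp (carlitz b)) ∧
      (∀ (c : F) (a : F[X]), carlitz (c • a) = C (C c) * carlitz a) ∧
      (∀ a : F[X], derivative (carlitz a) = C a ∧
        (a ≠ 0 → (carlitz a).natDegree = Fintype.card F ^ a.natDegree)) ∧
      ∀ P : F[X], P.Monic → Irreducible P →
        (carlitz P).map (AdjoinRoot.mk P) = X ^ (Fintype.card F ^ P.natDegree) := by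
  refine ⟨carlitz_one, carlitz_X, fun a b => ⟨carlitz_add a b, carlitz_mul a b⟩, carlitz_smul,
    fun a => ⟨derivative_carlitz a, fun ha => (natDegree_carlitz ha).1⟩, fun P hP hirr => ?_⟩
  have : Fact (Irreducible P) := ⟨hirr⟩
  exact map_carlitz (AdjoinRoot.mk P) hP hirr AdjoinRoot.mk_self

variable (L : Type*) [Field L] [Algebra F[X] L] [Algebra (RatFunc F) L]
  [IsScalarTower F[X] (RatFunc F) L] {M : F[X]} (hM : M ≠ 0)
  [hL : IsSplittingField (RatFunc F) L ((carlitz M).map (algebraMap F[X] (RatFunc F)))]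

include hM hL

/-- **Torsion**: `C_M` has `q^(deg M)` roots in `L`, and they are the `C_a(λ)` for one of them,
`C_a(λ)` depending exactly on `a` modulo `M`. -/
theorem carlitz_torsion :
    Nat.card {x : L // aeval x (carlitz M) = 0} = Fintype.card F ^ M.natDegree ∧
      ∃ lam : L, (∀ a : F[X], aeval lam (carlitz a) = 0 ↔ M ∣ a) ∧
        ∀ x : L, aeval x (carlitz M) = 0 ↔ ∃ a : F[X], aeval lam (carlitz a) = x := by
  let instF : Algebra F L := ((algebraMap F[X] L).comp C).toAlgebra
  have : IsScalarTower F F[X] L := IsScalarTower.of_algebraMap_eq fun _ => rfl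
  have hinj : Function.Injective (algebraMap F[X] L) := algebraMap_injective
  have hs := splits_map (L := L) (M := M)
  obtain ⟨g, hg⟩ := exists_primitive hM hinj hs
  refine ⟨?_, g, fun a => by rw [aeval_carlitz]; exact hg a, fun x => ⟨fun hx => ?_, ?_⟩⟩
  · rw [← card_rootSet_carlitz hM hinj hs dvd_rfl]
    exact Nat.card_congr (Equiv.subtypeEquivRight fun x => by
      rw [aeval_carlitz]
      exact (mem_rootSet_carlitz hM hinj dvd_rfl).symm)
  · rw [aeval_carlitz] at hx
    obtain ⟨a, ha⟩ := eq_rho_of_root hM hinj hs hg hx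
    exact ⟨a, by rw [aeval_carlitz, ha]⟩
  · rintro ⟨a, rfl⟩
    rw [aeval_carlitz, aeval_carlitz, ← rho_mul]
    exact (hg _).2 (dvd_mul_right M a)

/-- **The Galois group of a cyclotomic function field** is `(F[T]/M)ˣ`, the class of `a` acting on
the torsion by `C_a`; hence the degree is the number of these units. -/
theorem carlitz_galois :
    IsGalois (RatFunc F) L ∧
      Module.finrank (RatFunc F) L = Nat.card (F[X] ⧸ Ideal.span {M})ˣ ∧
      (∃ lam : L, aeval lam (carlitz M) = 0 ∧ Algebra.adjoin (RatFunc F) ({lam} : Set L) = ⊤) ∧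
      ∃ χ : Gal(L/RatFunc F) ≃* (F[X] ⧸ Ideal.span {M})ˣ,
        ∀ (σ : Gal(L/RatFunc F)) (a : F[X]),
          Ideal.Quotient.mk (Ideal.span {M}) a = (χ σ : F[X] ⧸ Ideal.span {M}) →
            ∀ x : L, aeval x (carlitz M) = 0 → σ x = aeval x (carlitz a) := by
  let instF : Algebra F L := ((algebraMap F[X] L).comp C).toAlgebra
  have : IsScalarTower F F[X] L := IsScalarTower.of_algebraMap_eq fun _ => rfl
  obtain ⟨g, hg⟩ := exists_primitive hM algebraMap_injective (splits_map (L := L) (M := M))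
  obtain ⟨χ, hχ⟩ := exists_galEquiv (L := L) hM
  refine ⟨FA.Carlitz.isGalois hM, finrank_eq hM,
    ⟨g, by rw [aeval_carlitz]; exact (hg M).2 dvd_rfl, adjoin_eq_top hM hg⟩,
    χ, fun σ a ha x hx => ?_⟩
  rw [aeval_carlitz] at hx ⊢
  exact hχ σ a ha x hx

/-- **Frobenius**: for a monic prime `P` not dividing `M` some automorphism sends every torsion
point `x` to `C_P(x)`, which is `x^(q^deg P)` modulo `P` by `carlitz_module`. -/
theorem carlitz_frobenius {P : F[X]} (hirr : Irreducible P) (hPM : ¬ P ∣ M) :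
    ∃! σ : Gal(L/RatFunc F), ∀ x : L, aeval x (carlitz M) = 0 → σ x = aeval x (carlitz P) := by
  obtain ⟨-, -, ⟨lam, hlam, htop⟩, χ, hχ⟩ := carlitz_galois L hM
  have hu : IsUnit (Ideal.Quotient.mk (Ideal.span {M}) P) := by
    obtain ⟨c, d, hcd⟩ := hirr.coprime_iff_not_dvd.2 hPM
    refine IsUnit.of_mul_eq_one (Ideal.Quotient.mk _ c) ?_
    rw [← map_mul, ← map_one (Ideal.Quotient.mk (Ideal.span {M})), Ideal.Quotient.eq,
      Ideal.mem_span_singleton]
    exact ⟨-d, by linear_combination hcd⟩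
  obtain ⟨σ, hσ⟩ := χ.surjective hu.unit
  refine ⟨σ, hχ σ P (by rw [hσ]; rfl), fun τ hτ => ?_⟩
  refine AlgEquiv.coe_toAlgHom_injective (AlgHom.ext_of_adjoin_eq_top htop ?_)
  rintro x rfl
  exact (hτ _ hlam).trans (hχ σ P (by rw [hσ]; rfl) _ hlam).symm

end FA.Summary

end
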