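import Fermat.Agent.ExceptionalPoly.Carlitz

/-!
# Exceptional polynomials and the conjecture of Carlitz in the tame case

Below `Φ` is `(f X₀ - f X₁) / (X₀ - X₁)` for `f ∈ 𝔽_q[X]` of degree `n ≥ 1`, written out by
`diffQuot_spec`.

* `davenport_lewis`: for `q ≥ q₀ n` a permutation polynomial is exceptional: every absolutely
  irreducible factor of `Φ` over `𝔽_q` is a multiple of `X₀ - X₁`;
* `lenstra_gcd`: if moreover the characteristic does not divide `n`, then `gcd (n, q - 1) = 1`;
* `carlitz_conjecture_tame`: so there are none of even degree `n` prime to the characteristic;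
* `value_set_bound`: if `gcd (n, q - 1) ≠ 1` and the characteristic does not divide `n` then at
  least `q / n - O_n (√q)` values are missed;
* `integer_polynomial_even`: an integer polynomial of even degree permutes `𝔽_p` for only finitely
  many primes `p`.

Here `q₀ n = (n n + E n + n + 2) ^ 2` with `E n = n (n (2 n + 1) + 1)`. The wild case `p ∣ n` and
Fried's theorem on the conjecture of Schur are not claimed. Independent of S01.
-/

set_option autoImplicit false

noncomputable section

namespace FA.ExceptionalPoly.Summary

open MvPolynomial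

variable {k : Type*} [Field k]

/-- `Φ` is the quotient. -/
theorem diffQuot_spec (f : Polynomial k) :
    diffQuot f * (X 0 - X 1) = Polynomial.aeval (X 0) f - Polynomial.aeval (X 1) f :=
  diffQuot_mul f

variable [Finite k]

/-- **Davenport and Lewis**: permutation polynomials of large fields are exceptional. -/
theorem davenport_lewis {f : Polynomial k} (hf : 0 < f.natDegree)
    (hq : sizeBound f.natDegree ≤ Nat.card k) (hbij : Function.Bijective fun a => f.eval a)
    {G : MvPolynomial (Fin 2) k} (hG : G ∣ diffQuot f)
    (hirr : Irreducible (G.map (algebraMap k (AlgebraicClosure k)))) :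
    (X 0 - X 1 : MvPolynomial (Fin 2) k) ∣ G :=
  by_contra fun hdiag => not_bijective_of_factor hf hq hG hdiag hirr hbij

/-- **The degree is prime to `q - 1`.** -/
theorem lenstra_gcd {f : Polynomial k} (hp : (f.natDegree : k) ≠ 0)
    (hq : sizeBound f.natDegree ≤ Nat.card k) (hbij : Function.Bijective fun a => f.eval a) :
    Nat.Coprime f.natDegree (Nat.card k - 1) :=
  coprime_of_bijective hp hq hbij

/-- **The conjecture of Carlitz, tame case.** -/
theorem carlitz_conjecture_tame {f : Polynomial k} (hp : (f.natDegree : k) ≠ 0)
    (heven : Even f.natDegree) (hq : sizeBound f.natDegree ≤ Nat.card k) :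
    ¬Function.Bijective fun a => f.eval a :=
  not_bijective_of_even hp heven hq

/-- **The value set.** -/
theorem value_set_bound {f : Polynomial k} (hp : (f.natDegree : k) ≠ 0)
    (hgcd : Nat.gcd f.natDegree (Nat.card k - 1) ≠ 1) :
    (Nat.card k : ℝ) ≤
      f.natDegree * ((Nat.card k : ℝ) - Nat.card (Set.range fun a => f.eval a)) +
        ((f.natDegree * f.natDegree : ℕ) * Real.sqrt (Nat.card k) +
          (f.natDegree * (f.natDegree * (2 * f.natDegree + 1) + 1) + 1 + f.natDegree : ℕ)) := by
  obtain ⟨H, h1, h2, h3⟩ := exists_absolutelyIrreducible_of_gcd hp hgcd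
  have h := card_le_of_factor (Nat.pos_of_ne_zero fun e => hp (by rw [e, Nat.cast_zero])) h1 h2 h3
  rwa [collisionError, CurveRH.planeError] at h

/-- **Integer polynomials of even degree.** -/
theorem integer_polynomial_even (f : Polynomial ℤ) (hn : 0 < f.natDegree)
    (heven : Even f.natDegree) :
    ∃ p₀ : ℕ, ∀ p : ℕ, ∀ [Fact p.Prime], p₀ ≤ p →
      ¬Function.Bijective fun a : ZMod p => (f.map (Int.castRingHom (ZMod p))).eval a :=
  exists_not_bijective_mod f hn heven

end FA.ExceptionalPoly.Summary

end
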