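import Fermat.Agent.CarmichaelOrder.Main

/-!
# The normal order of Carmichael's function

Erdős, Pomerance and Schmutz (1991): for almost all `n` the exponent `λ n` of `(ℤ/n)ˣ` is
`n / (log n) ^ ((1 + o (1)) log log log n)`. So for almost all `n` the largest multiplicative order
modulo `n` exceeds `n ^ (1 - ε)` and is below `n / (log n) ^ A`, for every fixed `ε` and `A`.
The counts of the `p - 1` come from the theorem of Bombieri and Vinogradov; no rate is stated.
-/

set_option autoImplicit false

noncomputable section

open Finset Filter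
open FA.ErdosKac (loglog)
open scoped Topology Classical

namespace FA.Summary

/-- **Erdős, Pomerance and Schmutz**: `log (n / λ n)` has the normal order
`log log n · log log log n`. -/
theorem carmichael_normal_order {ε : ℝ} (hε : 0 < ε) :
    Tendsto (fun N : ℕ => (((Icc 1 N).filter fun n : ℕ =>
      ε * (Real.log (Real.log n) * Real.log (Real.log (Real.log n))) <
        |Real.log n - Real.log (ArithmeticFunction.carmichael n) -
          Real.log (Real.log n) * Real.log (Real.log (Real.log n))|).card : ℝ) / N)
      atTop (𝓝 0) := by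
  refine (FA.CarmichaelOrder.tendsto_abnormal_defect hε).congr fun N => ?_
  simp only [FA.CarmichaelOrder.logDefect, loglog]

/-- **The largest order modulo almost all `n`** exceeds `n ^ (1 - ε)`, while every order is below
`n / (log n) ^ A`. -/
theorem max_order_almost_all {ε : ℝ} (hε : 0 < ε) (A : ℝ) :
    Tendsto (fun N : ℕ => (((Icc 1 N).filter fun n : ℕ =>
      ¬ ((∃ a : (ZMod n)ˣ, (n : ℝ) ^ (1 - ε) < orderOf a) ∧
        ∀ a : (ZMod n)ˣ, (orderOf a : ℝ) < (n : ℝ) / Real.log n ^ A)).card : ℝ) / N)
      atTop (𝓝 0) := by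
  refine squeeze_zero (fun N => by positivity) (fun N => ?_)
    (FA.CarmichaelOrder.tendsto_order_atypical hε A)
  refine div_le_div_of_nonneg_right (Nat.cast_le.2 (card_le_card fun n hn => ?_))
    (Nat.cast_nonneg N)
  obtain ⟨hnI, hbad⟩ := mem_filter.1 hn
  refine mem_filter.2 ⟨hnI, fun hgood => hbad ?_⟩
  have : NeZero n := ⟨by have := (mem_Icc.1 hnI).1; omega⟩
  have he := ArithmeticFunction.carmichael_eq_exponent' n
  refine ⟨?_, fun a => lt_of_le_of_lt (Nat.cast_le.2 ?_) hgood.2⟩
  · obtain ⟨g, hg⟩ := Monoid.exists_orderOf_eq_exponent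
      (Monoid.ExponentExists.of_finite (G := (ZMod n)ˣ))
    exact ⟨g, by rw [hg, ← he]; exact hgood.1⟩
  · rw [he]
    exact Nat.le_of_dvd (Nat.pos_of_ne_zero Monoid.exponent_ne_zero_of_finite)
      (Monoid.order_dvd_exponent a)

end FA.Summary

end
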