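import Fermat.Agent.PrimalityCriteria.Basic

/-!
# Carmichael numbers and primality criteria

* `korselt_criterion`: `b ^ (n - 1) ≡ 1` for every `b` prime to `n` iff `n` is squarefree and
  `p - 1 ∣ n - 1` for its prime divisors;
* `korselt_pseudoprimes`: a composite `n` is a pseudoprime to all such bases under the same
  condition; `carmichael_three_factors`: it is then odd with at least three prime factors;
* `chernick_carmichael`: `(6k + 1) (12k + 1) (18k + 1)` is one if the three factors are prime;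
* `pocklington_criterion` and `proth_criterion`.
-/

set_option autoImplicit false

namespace FA.Summary

/-- **Korselt's criterion.** -/
theorem korselt_criterion {n : ℕ} (hn : 1 < n) :
    (∀ b : ℕ, b.Coprime n → b ^ (n - 1) ≡ 1 [MOD n]) ↔
      Squarefree n ∧ ∀ p, p.Prime → p ∣ n → p - 1 ∣ n - 1 :=
  FA.PrimalityCriteria.korselt hn

/-- **Korselt's criterion** for pseudoprimes to every base. -/
theorem korselt_pseudoprimes {n : ℕ} :
    (∀ b : ℕ, 1 ≤ b → b.Coprime n → Nat.FermatPsp n b) ↔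
      1 < n ∧ ¬n.Prime ∧ Squarefree n ∧ ∀ p, p.Prime → p ∣ n → p - 1 ∣ n - 1 := by
  constructor
  · intro h
    obtain ⟨-, hc, hn⟩ := h 1 le_rfl (Nat.coprime_one_left n)
    refine ⟨hn, hc, (korselt_criterion hn).1 fun b hb => ?_⟩
    rcases Nat.eq_zero_or_pos b with rfl | hb0
    · rw [Nat.coprime_zero_left] at hb
      omega
    · exact (Nat.probablePrime_iff_modEq n hb0).1 (h b hb0 hb).1
  · rintro ⟨hn, hc, hk⟩ b hb1 hb
    exact ⟨(Nat.probablePrime_iff_modEq n hb1).2 ((korselt_criterion hn).2 hk b hb), hc, hn⟩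

/-- **Carmichael numbers** are odd and have at least three prime factors. -/
theorem carmichael_three_factors {n : ℕ}
    (h : ∀ b : ℕ, 1 ≤ b → b.Coprime n → Nat.FermatPsp n b) :
    Odd n ∧ 3 ≤ n.primeFactors.card := by
  obtain ⟨hn, hc, hk⟩ := korselt_pseudoprimes.1 h
  exact FA.PrimalityCriteria.carmichael_structure hn hc ((korselt_criterion hn).2 hk)

/-- **Chernick's theorem.** -/
theorem chernick_carmichael {k : ℕ} (hk : 0 < k) (h1 : (6 * k + 1).Prime)
    (h2 : (12 * k + 1).Prime) (h3 : (18 * k + 1).Prime) :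
    ∀ b : ℕ, 1 ≤ b → b.Coprime ((6 * k + 1) * (12 * k + 1) * (18 * k + 1)) →
      Nat.FermatPsp ((6 * k + 1) * (12 * k + 1) * (18 * k + 1)) b := by
  intro b hb1 hb
  refine ⟨(Nat.probablePrime_iff_modEq _ hb1).2
    (FA.PrimalityCriteria.chernick hk h1 h2 h3 b hb), ?_, ?_⟩
  · refine Nat.not_prime_mul ?_ ?_
    · exact (Nat.one_lt_mul_iff.2 ⟨by omega, by omega, Or.inl (by omega)⟩).ne'
    · omega
  · exact h3.one_lt.trans_le (Nat.le_mul_of_pos_left _ (by positivity))

/-- **Pocklington's criterion.** -/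
theorem pocklington_criterion {N F : ℕ} (hN : 1 < N) (hFN : F ∣ N - 1)
    (hlt : N < (F + 1) ^ 2)
    (h : ∀ q, q.Prime → q ∣ F → ∃ a : ZMod N,
      a ^ (N - 1) = 1 ∧ IsUnit (a ^ ((N - 1) / q) - 1)) : N.Prime :=
  FA.PrimalityCriteria.pocklington hN hFN hlt h

/-- **Proth's theorem.** -/
theorem proth_criterion {k m : ℕ} (hk : 0 < k) (hm : 0 < m) (hkm : k < 2 ^ m) :
    (k * 2 ^ m + 1).Prime ↔
      ∃ a : ZMod (k * 2 ^ m + 1), a ^ (k * 2 ^ (m - 1)) = -1 :=
  FA.PrimalityCriteria.proth hk hm hkm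

end FA.Summary
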