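import Fermat.Agent.CarmichaelNumbers.Main
import Fermat.Agent.Root.SummaryPrimalityCriteria

/-!
# There are infinitely many Carmichael numbers

Alford, Granville and Pomerance (1994): there are infinitely many composite `n` with
`b ^ (n - 1) ≡ 1` modulo `n` for every `b` prime to `n`, and for some `δ > 0` at least `x ^ δ` of
them up to every large `x`. On the way: product-one subsequences in abelian groups of smooth
exponent, primes in progressions for all moduli `≤ X ^ B` that are not multiples of one exceptional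
modulus, and primes `q` with `q - 1` free of prime factors `> q ^ (1 - E)`.

The value of `δ` is not given (their `2/7` is not claimed), the thresholds are not computed, and
nothing is said on Carmichael numbers with a fixed number of prime factors. There is no link with
Fermat's last theorem.
-/

set_option autoImplicit false

noncomputable section

namespace FA.CarmichaelNumbers.Summary

open Finset Filter
open scoped Classical

/-- **The theorem of Alford, Granville and Pomerance.** -/
theorem infinitely_many_carmichael :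
    {n : ℕ | 1 < n ∧ ¬ n.Prime ∧ ∀ b : ℕ, b.Coprime n → b ^ (n - 1) ≡ 1 [MOD n]}.Infinite := by
  intro hfin
  obtain ⟨δ, hδ, h⟩ := exists_carmichael_count
  have hbig := ((tendsto_rpow_atTop hδ).comp
    (tendsto_natCast_atTop_atTop (R := ℝ))).eventually_ge_atTop ((#hfin.toFinset : ℝ) + 1)
  obtain ⟨x, hx, hx'⟩ := (h.and hbig).exists
  have h1 : #(carmichaelUpTo x) ≤ #hfin.toFinset :=
    card_le_card fun n hn => hfin.mem_toFinset.2 (mem_filter.1 hn).2
  have h2 : (#(carmichaelUpTo x) : ℝ) ≤ #hfin.toFinset := Nat.cast_le.2 h1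
  simp only [Function.comp_apply] at hx'
  linarith

/-- **At least `x ^ δ` up to `x`.** -/
theorem carmichael_count : ∃ δ : ℝ, 0 < δ ∧ ∀ᶠ x : ℕ in atTop, (x : ℝ) ^ δ ≤
    #((Icc 1 x).filter fun n =>
      1 < n ∧ ¬ n.Prime ∧ ∀ b : ℕ, b.Coprime n → b ^ (n - 1) ≡ 1 [MOD n]) := by
  obtain ⟨δ, hδ, h⟩ := exists_carmichael_count
  refine ⟨δ, hδ, h.mono fun x hx => le_of_le_of_eq hx ?_⟩
  congr 2
  exact filter_congr fun n _ => Iff.rfl

/-- The same as Fermat pseudoprimes to every base prime to them. -/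
theorem infinitely_many_pseudoprimes_every_base :
    {n : ℕ | ∀ b : ℕ, 1 ≤ b → b.Coprime n → Nat.FermatPsp n b}.Infinite := by
  refine infinitely_many_carmichael.mono fun n hn => ?_
  obtain ⟨h1, h2, h3⟩ := hn
  exact FA.Summary.korselt_pseudoprimes.2 ⟨h1, h2, (FA.Summary.korselt_criterion h1).1 h3⟩

/-- **Product-one parts for a smooth exponent**: `∏_{r ^ e ‖ m} (k r ^ e + 1)` elements suffice in a
group generated by `k` elements of exponent `m`. -/
theorem product_one_bound {G : Type*} [CommGroup G] {κ : Type*} [Fintype κ] {m : ℕ} (hm : 0 < m)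
    (b : κ → G) (hb : ∀ i, b i ^ m = 1) (g : ℕ → G) (s : Finset ℕ)
    (hg : ∀ j ∈ s, g j ∈ Subgroup.closure (Set.range b))
    (hs : ∏ r ∈ m.primeFactors, (Fintype.card κ * r ^ m.factorization r + 1) ≤ #s) :
    ∃ t ⊆ s, t.Nonempty ∧ ∏ j ∈ t, g j = 1 :=
  hasZeroSum_zeroBound m hm b hb g s hg hs

/-- **Primes `≡ 1` modulo every small modulus, off one exceptional modulus.** -/
theorem primes_one_mod_uniform : ∃ B : ℝ, 0 < B ∧ ∀ᶠ X : ℕ in atTop, ∃ D : ℕ, 2 ≤ D ∧
    ∀ q : ℕ, 0 < q → (q : ℝ) ≤ (X : ℝ) ^ B → ¬ D ∣ q →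
      (X : ℝ) / (2 * q.totient * Real.log (2 * X)) ≤
        #((Ioc X (2 * X)).filter fun p : ℕ => p.Prime ∧ p ≡ 1 [MOD q]) := by
  obtain ⟨B, hB, -, h⟩ := exists_classPrimes_ge
  exact ⟨B, hB, h⟩

/-- **A positive proportion of primes `q` with `q - 1` smooth.** -/
theorem smooth_shifted_primes : ∃ E c : ℝ, 0 < E ∧ 0 < c ∧ ∀ᶠ Z : ℕ in atTop,
    c * Z / Real.log Z ≤ #((Ioc Z (2 * Z)).filter fun q : ℕ =>
      q.Prime ∧ ∀ r : ℕ, r.Prime → r ∣ q - 1 → (r : ℝ) ≤ (Z : ℝ) ^ (1 - E)) := by
  obtain ⟨E, c, hE, -, hc, h⟩ := exists_smoothPrimes_ge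
  exact ⟨E, c, hE, hc, h⟩

end FA.CarmichaelNumbers.Summary
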