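import Fermat.Agent.CarmichaelUpper.Main

/-!
# Pomerance's upper bound for the Carmichael numbers

Erdős (1956) and Pomerance (1981): up to a large `x` there are at most
`x exp (-(1 - ε) log x log log log x / log log x)` Carmichael numbers, and so their reciprocals have
a finite sum. The conjecture that this is their true number is not claimed.
-/

set_option autoImplicit false

noncomputable section

open Finset Filter
open scoped Topology Classical

namespace FA.Summary

/-- **Pomerance's theorem.** -/
theorem carmichael_count_upper {ε : ℝ} (hε : 0 < ε) : ∀ᶠ x : ℕ in atTop,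
    (((Icc 1 x).filter fun n : ℕ =>
      1 < n ∧ ¬ n.Prime ∧ ∀ b : ℕ, b.Coprime n → b ^ (n - 1) ≡ 1 [MOD n]).card : ℝ) ≤
      x * Real.exp (-(1 - ε) *
        (Real.log x * Real.log (Real.log (Real.log x)) / Real.log (Real.log x))) := by
  filter_upwards [FA.CarmichaelUpper.eventually_card_korseltSet_le hε] with x hx
  refine le_trans (Nat.cast_le.2 (card_le_card fun n hn => ?_)) hx
  obtain ⟨hn, h1, h2, h3⟩ := mem_filter.1 hn
  obtain ⟨hsq, hdvd⟩ := (FA.PrimalityCriteria.korselt h1).1 h3
  exact mem_filter.2 ⟨hn, h1, h2, hsq, fun p hp =>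
    hdvd p (Nat.prime_of_mem_primeFactors hp) (Nat.dvd_of_mem_primeFactors hp)⟩

/-- **The reciprocals of the Carmichael numbers have a finite sum.** -/
theorem carmichael_summable :
    Summable fun n : ℕ =>
      if 1 < n ∧ ¬ n.Prime ∧ (∀ b : ℕ, b.Coprime n → b ^ (n - 1) ≡ 1 [MOD n]) then (1 : ℝ) / n
      else 0 := by
  refine Summable.of_nonneg_of_le (fun n => ?_) (fun n => ?_) FA.CarmichaelUpper.summable_korselt
  · split_ifs <;> positivity
  · split_ifs with h h' h' <;> first | exact le_rfl | positivity | skip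
    refine absurd ⟨h.1, h.2.1, ?_⟩ h'
    obtain ⟨hsq, hdvd⟩ := (FA.PrimalityCriteria.korselt h.1).1 h.2.2
    exact ⟨hsq, fun p hp => hdvd p (Nat.prime_of_mem_primeFactors hp)
      (Nat.dvd_of_mem_primeFactors hp)⟩

end FA.Summary

end
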