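import Fermat.Agent.HighestWeight.Main

/-!
# The theorem of the highest weight

For a split semisimple Lie algebra in characteristic zero with a base of simple roots:

* `exists_unique_highest_weight`: a finite-dimensional irreducible module has a unique highest
  weight, and it takes natural values on the simple coroots;
* `exists_irreducible_of_dominant`: every such functional is the highest weight of a
  finite-dimensional irreducible module;
* `irreducible_equiv_iff`: irreducible modules are isomorphic exactly when their highest weights
  are equal;
* `exists_nontrivial_irreducible`, `sl_two_example`: the classification is not vacuous.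
-/

set_option autoImplicit false
set_option linter.unusedSectionVars false

noncomputable section

namespace FA.HighestWeight.Summary

open LieModule Module LieAlgebra LieAlgebra.IsKilling LieAlgebra.SpecialLinear

attribute [local instance 100] LieRing.ofAssociativeRing

universe u v w

variable {K : Type u} {L : Type v} [Field K] [CharZero K] [LieRing L] [LieAlgebra K L]
  [IsKilling K L] [FiniteDimensional K L]
  {H : LieSubalgebra K L} [H.IsCartanSubalgebra] [IsTriangularizable K H L]
  (b : (rootSystem H).Base)

/-- `v` is a highest weight vector of weight `lam`: nonzero, an eigenvector of the Cartan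
subalgebra, killed by the positive root spaces. -/
def IsHighest {M : Type*} [AddCommGroup M] [Module K M] [LieRingModule L M] (lam : Dual K H)
    (v : M) : Prop :=
  v ≠ 0 ∧ (∀ h : H, ⁅(h : L), v⁆ = lam h • v) ∧
    ∀ α : H.root, b.IsPos α → ∀ x ∈ rootSpace H α.1, ⁅x, v⁆ = 0

lemma isHighest_iff {M : Type*} [AddCommGroup M] [Module K M] [LieRingModule L M]
    [LieModule K L M] (lam : Dual K H) (v : M) :
    IsHighest b lam v ↔ IsHighestWeight b lam v :=
  ⟨fun h => ⟨h.1, h.2.1, h.2.2⟩, fun h => ⟨h.ne_zero, h.weight, h.raise⟩⟩

/-- A finite-dimensional irreducible module has a unique highest weight, dominant and integral. -/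
theorem exists_unique_highest_weight {M : Type*} [AddCommGroup M] [Module K M]
    [LieRingModule L M] [LieModule K L M] [FiniteDimensional K M] [IsIrreducible K L M] :
    ∃! lam : Dual K H, (∀ α ∈ b.support, ∃ n : ℕ, lam (coroot α.1) = (n : K)) ∧
      ∃ v : M, IsHighest b lam v := by
  simp only [isHighest_iff]
  exact existsUnique_highest_weight b

/-- Every dominant integral weight is the highest weight of a finite-dimensional irreducible
module. -/
theorem exists_irreducible_of_dominant (lam : Dual K H)
    (hdom : ∀ α ∈ b.support, ∃ n : ℕ, lam (coroot α.1) = (n : K)) :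
    ∃ (V : Type (max u v)) (_ : AddCommGroup V) (_ : Module K V) (_ : LieRingModule L V)
      (_ : LieModule K L V), IsIrreducible K L V ∧ FiniteDimensional K V ∧
        ∃ v : V, IsHighest b lam v := by
  obtain ⟨V, i₁, i₂, i₃, i₄, hirr, hfin, v, hv⟩ := exists_finiteDimensional_irreducible b lam hdom
  exact ⟨V, i₁, i₂, i₃, i₄, hirr, hfin, v, (isHighest_iff b lam v).2 hv⟩

/-- Irreducible modules are isomorphic if and only if their highest weights are equal. -/
theorem irreducible_equiv_iff {V W : Type w} [AddCommGroup V] [Module K V] [LieRingModule L V]
    [LieModule K L V] [AddCommGroup W] [Module K W] [LieRingModule L W] [LieModule K L W]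
    [IsIrreducible K L V] [IsIrreducible K L W] {lam μ : Dual K H} {v : V} {w : W}
    (hv : IsHighest b lam v) (hw : IsHighest b μ w) :
    Nonempty (V ≃ₗ⁅K,L⁆ W) ↔ lam = μ := by
  rw [isHighest_iff] at hv hw
  refine ⟨fun ⟨e⟩ => highest_weight_eq_of_equiv hv hw e, ?_⟩
  rintro rfl
  exact nonempty_equiv hv hw

include b in
/-- A nonzero split semisimple Lie algebra has an irreducible module of dimension at least two. -/
theorem exists_nontrivial_irreducible [Nontrivial L] :
    ∃ (V : Type (max u v)) (_ : AddCommGroup V) (_ : Module K V) (_ : LieRingModule L V)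
      (_ : LieModule K L V), IsIrreducible K L V ∧ FiniteDimensional K V ∧ 2 ≤ finrank K V :=
  FA.HighestWeight.exists_nontrivial_irreducible b

/-- The hypotheses hold for `sl₂` over an algebraically closed field. -/
theorem sl_two_example (F : Type u) [Field F] [CharZero F] [IsAlgClosed F] :
    HasTrivialRadical F (sl (Fin 2) F) ∧
    ∃ (V : Type u) (_ : AddCommGroup V) (_ : Module F V) (_ : LieRingModule (sl (Fin 2) F) V)
      (_ : LieModule F (sl (Fin 2) F) V),
      IsIrreducible F (sl (Fin 2) F) V ∧ FiniteDimensional F V ∧ 2 ≤ finrank F V :=
  ⟨sl_two_hasTrivialRadical F, sl_two_exists_nontrivial_irreducible F⟩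

end FA.HighestWeight.Summary
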