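import Fermat.Agent.CartanClassification.Main
import Fermat.Agent.Root.SummaryHighestWeight

/-!
# Classification of simple Lie algebras by root systems

The Cartan matrix of a semisimple Lie algebra over an algebraically closed field of characteristic
zero depends neither on the Cartan subalgebra nor on the base, and it determines the algebra.
Simple algebras correspond to irreducible root systems. The list of the irreducible Cartan matrices
is not part of this file.
-/

set_option autoImplicit false

noncomputable section

namespace FA.CartanClassification.Summary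

open Module LieModule LieAlgebra LieAlgebra.IsKilling FA.CartanClassification

attribute [local instance 100] LieRing.ofAssociativeRing

/-- **Bases of a root system are conjugate**: a product of reflections carries one base onto the
other. -/
theorem bases_conjugate {ι R M N : Type*} [Field R] [CharZero R] [AddCommGroup M] [Module R M]
    [AddCommGroup N] [Module R N] {P : RootPairing ι R M N} [Finite ι] [P.IsRootSystem]
    [P.IsCrystallographic] [P.IsReduced] (b₁ b₂ : P.Base) :
    ∃ (σ : b₁.support ≃ b₂.support) (l : List ι),
      ∀ i : b₁.support, P.root (σ i) = (l.map P.reflection).prod (P.root i) := by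
  obtain ⟨σ, l, h, -⟩ := exists_equiv_cartanMatrix b₁ b₂
  exact ⟨σ, l, fun i => by rw [h i, root_permWord]; rfl⟩

/-- The Cartan matrix of a root system does not depend on the base. -/
theorem cartanMatrix_unique {ι R M N : Type*} [Field R] [CharZero R] [AddCommGroup M] [Module R M]
    [AddCommGroup N] [Module R N] {P : RootPairing ι R M N} [Finite ι] [P.IsRootSystem]
    [P.IsCrystallographic] [P.IsReduced] (b₁ b₂ : P.Base) :
    ∃ σ : b₁.support ≃ b₂.support,
      ∀ i j, b₂.cartanMatrix (σ i) (σ j) = b₁.cartanMatrix i j := by
  obtain ⟨σ, -, -, h⟩ := exists_equiv_cartanMatrix b₁ b₂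
  exact ⟨σ, h⟩

/-- **Semisimple Lie algebras are classified by their Cartan matrices**, equivalently by their root
systems, whatever Cartan subalgebras and bases are chosen. -/
theorem semisimple_iso_iff_cartanMatrix {K L L' : Type*} [Field K] [CharZero K] [IsAlgClosed K]
    [LieRing L] [LieAlgebra K L] [FiniteDimensional K L] [IsKilling K L]
    [LieRing L'] [LieAlgebra K L'] [FiniteDimensional K L'] [IsKilling K L']
    {H : LieSubalgebra K L} [H.IsCartanSubalgebra]
    {H' : LieSubalgebra K L'} [H'.IsCartanSubalgebra]
    (b : (rootSystem H).Base) (b' : (rootSystem H').Base) :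
    [Nonempty (L ≃ₗ⁅K⁆ L'),
      ∃ σ : b.support ≃ b'.support,
        ∀ i j, b'.cartanMatrix (σ i) (σ j) = b.cartanMatrix i j,
      Nonempty ((rootSystem H).Equiv (rootSystem H'))].TFAE := by
  classical
  tfae_have 1 → 2 := fun ⟨φ⟩ => exists_equiv_of_lieEquiv φ b b'
  tfae_have 2 → 3 := fun ⟨σ, hσ⟩ => ⟨b.equivOfCartanMatrixEq b' σ hσ⟩
  tfae_have 3 → 2 := fun ⟨e⟩ => exists_equiv_of_rootSystem_equiv e b b'
  tfae_have 2 → 1 := fun ⟨σ, hσ⟩ =>
    ⟨FA.SerreTheorem.isoEquiv b (FA.SerreTheorem.stdTriples b) b'
      (FA.SerreTheorem.stdTriples b') σ hσ⟩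
  tfae_finish

/-- Semisimple Lie algebras are isomorphic if and only if their root systems are equivalent. -/
theorem semisimple_iso_iff_rootSystem {K L L' : Type*} [Field K] [CharZero K] [IsAlgClosed K]
    [LieRing L] [LieAlgebra K L] [FiniteDimensional K L] [IsKilling K L]
    [LieRing L'] [LieAlgebra K L'] [FiniteDimensional K L'] [IsKilling K L']
    (H : LieSubalgebra K L) [H.IsCartanSubalgebra]
    (H' : LieSubalgebra K L') [H'.IsCartanSubalgebra] :
    Nonempty (L ≃ₗ⁅K⁆ L') ↔ Nonempty ((rootSystem H).Equiv (rootSystem H')) := by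
  obtain ⟨b⟩ := (rootSystem H).nonempty_base
  obtain ⟨b'⟩ := (rootSystem H').nonempty_base
  exact (semisimple_iso_iff_cartanMatrix b b').out 0 2

/-- Every irreducible reduced crystallographic root system is the root system of a simple Lie
algebra. -/
theorem simple_exists {ι K M N : Type*} [Fintype ι] [DecidableEq ι] [Field K] [CharZero K]
    [IsAlgClosed K] [AddCommGroup M] [Module K M] [AddCommGroup N] [Module K N]
    {P : RootPairing ι K M N} [P.IsReduced] [P.IsCrystallographic] [P.IsIrreducible]
    [P.IsRootSystem] (b : P.Base) :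
    LieAlgebra.IsSimple K (RootPairing.GeckConstruction.lieAlgebra b) ∧
      Nonempty (P.Equiv (rootSystem (RootPairing.GeckConstruction.cartanSubalgebra' b))) :=
  ⟨isSimple_geck b, ⟨RootPairing.GeckConstruction.equivRootSystem b⟩⟩

/-- **Classification of simple Lie algebras**: the root system is irreducible, the algebra is
isomorphic to Geck's algebra of that root system, and simple algebras are isomorphic exactly when
their root systems are equivalent. -/
theorem simple_classification {K L : Type*} [Field K] [CharZero K] [IsAlgClosed K]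
    [LieRing L] [LieAlgebra K L] [FiniteDimensional K L] [LieAlgebra.IsSimple K L]
    {H : LieSubalgebra K L} [H.IsCartanSubalgebra] [DecidableEq H.root]
    (b : (rootSystem H).Base) :
    (rootSystem H).IsIrreducible ∧
      Nonempty (L ≃ₗ⁅K⁆ RootPairing.GeckConstruction.lieAlgebra b) ∧
      ∀ {L' : Type*} [LieRing L'] [LieAlgebra K L'] [FiniteDimensional K L']
        [LieAlgebra.IsSimple K L'] (H' : LieSubalgebra K L') [H'.IsCartanSubalgebra],
        Nonempty (L ≃ₗ⁅K⁆ L') ↔ Nonempty ((rootSystem H).Equiv (rootSystem H')) := by
  refine ⟨inferInstance, ?_, fun {L'} _ _ _ _ H' _ => semisimple_iso_iff_rootSystem H H'⟩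
  obtain ⟨e, -⟩ := FA.SerreTheorem.exists_geck_equiv b
  exact ⟨(FA.SerreTheorem.serreEquiv b (FA.SerreTheorem.stdTriples b)).symm.trans e⟩

/-- The hypotheses are satisfiable: `sl₂` is semisimple and has a Cartan subalgebra whose root
system has a base. -/
theorem classification_nonvacuous (F : Type*) [Field F] [CharZero F] [IsAlgClosed F] :
    ∃ (_ : IsKilling F (LieAlgebra.SpecialLinear.sl (Fin 2) F))
      (H : LieSubalgebra F (LieAlgebra.SpecialLinear.sl (Fin 2) F))
      (_ : H.IsCartanSubalgebra), Nonempty (rootSystem H).Base := by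
  have : LieAlgebra.HasTrivialRadical F (LieAlgebra.SpecialLinear.sl (Fin 2) F) :=
    (FA.HighestWeight.Summary.sl_two_example F).1
  obtain ⟨x, hx⟩ := LieAlgebra.exists_isCartanSubalgebra_engel F
    (LieAlgebra.SpecialLinear.sl (Fin 2) F)
  exact ⟨inferInstance, _, hx, (rootSystem _).nonempty_base⟩

end FA.CartanClassification.Summary
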