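import Fermat.Agent.CartanConjugacy.Conjugacy

/-!
# Conjugacy of Cartan subalgebras

Chevalley's theorem for an arbitrary finite-dimensional Lie algebra over an algebraically closed
field of characteristic zero, and the equality of the dimension of a Cartan subalgebra with the
rank.
-/

set_option autoImplicit false

noncomputable section

namespace FA.CartanClassification.Summary

open Module FA.CartanConjugacy

attribute [local instance 100] LieRing.ofAssociativeRing

variable {K L : Type*} [Field K] [CharZero K] [IsAlgClosed K] [LieRing L] [LieAlgebra K L]
  [FiniteDimensional K L]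

/-- **Chevalley's conjugacy theorem**: a composite of exponentials of nilpotent inner derivations
carries one Cartan subalgebra onto the other. -/
theorem cartan_subalgebras_conjugate (H₁ H₂ : LieSubalgebra K L) [H₁.IsCartanSubalgebra]
    [H₂.IsCartanSubalgebra] :
    ∃ φ : L ≃ₗ⁅K⁆ L, IsElementary φ ∧ H₁.map φ.toLieHom = H₂ :=
  exists_elementary_map_eq H₁ H₂

/-- Every Cartan subalgebra has dimension the rank. -/
theorem finrank_cartan_eq_rank (H : LieSubalgebra K L) [H.IsCartanSubalgebra] :
    finrank K H = LieAlgebra.rank K L :=
  finrank_eq_rank H

omit [IsAlgClosed K] [FiniteDimensional K L] in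
/-- The steps of an elementary automorphism are the exponential series of nilpotent inner
derivations. -/
theorem elementary_step_apply (x : L) (hx : IsNilpotent (LieAlgebra.ad K L x)) {N : ℕ}
    (hN : LieAlgebra.ad K L x ^ N = 0) (y : L) :
    IsElementary (expAd x hx) ∧
      expAd x hx y = ∑ n ∈ Finset.range N, (n.factorial : K)⁻¹ • (LieAlgebra.ad K L x ^ n) y :=
  ⟨isElementary_expAd x hx, expAd_apply x hx hN y⟩

end FA.CartanClassification.Summary
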