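import Fermat.Agent.CasselsHurwitz.Main

/-!
# Zeros right of the line one (Davenport and Heilbronn, Cassels)

For every real `0 < a < 1` other than `1/2`, rational or not, algebraic or not, and every `δ > 0`,
`ζ (s, a)` has at least `C T` zeros with `1 < re s < 1 + δ` and `0 < im s ≤ T`; for `a = 1` and
`a = 1/2` it has none with `re s > 1`. The same holds for every combination of the `L`-functions
modulo `q` with two non-zero coefficients. The lemma of Cassels on large prime factors of the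
values of an irreducible polynomial is included.

Zeros are counted as distinct points. Asymptotic counts, and zeros with `1/2 < re s < 1` for
irrational `a`, are not treated.
-/

set_option autoImplicit false

noncomputable section

namespace FA.CasselsHurwitz.Summary

open Filter Complex Finset Polynomial
open DirichletCharacter (LFunction)
open HurwitzZeta (hurwitzZeta)

/-- **Davenport, Heilbronn and Cassels.** -/
theorem hurwitzZeta_zeros_right {a : ℝ} (ha0 : 0 < a) (ha1 : a < 1) (ha2 : a ≠ 1 / 2) {δ : ℝ}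
    (hδ : 0 < δ) :
    ∃ C : ℝ, 0 < C ∧ ∀ᶠ T : ℝ in atTop, ∃ S : Finset ℂ, C * T ≤ S.card ∧
      ∀ s ∈ S, 1 < s.re ∧ s.re < 1 + δ ∧ 0 < s.im ∧ s.im ≤ T ∧
        hurwitzZeta (a : UnitAddCircle) s = 0 :=
  manyZerosRight_hurwitz ha0 ha1 ha2 hδ

/-- **The parameters for which `ζ (s, a)` vanishes in `re s > 1`.** -/
theorem hurwitzZeta_zeros_right_iff {a : ℝ} (ha0 : 0 < a) (ha1 : a ≤ 1) :
    (∃ s : ℂ, 1 < s.re ∧ hurwitzZeta (a : UnitAddCircle) s = 0) ↔ a ≠ 1 / 2 ∧ a ≠ 1 := by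
  constructor
  · rintro ⟨s, hs, h0⟩
    exact ⟨fun h => hurwitzZeta_half_ne_zero hs (h ▸ h0),
      fun h => hurwitzZeta_one_ne_zero hs (h ▸ h0)⟩
  · rintro ⟨h2, h1⟩
    obtain ⟨C, hC, hev⟩ := hurwitzZeta_zeros_right ha0 (lt_of_le_of_ne ha1 h1) h2 one_pos
    obtain ⟨T, ⟨S, hS, hS'⟩, hT⟩ := (hev.and (eventually_gt_atTop 0)).exists
    obtain ⟨s, hs⟩ : S.Nonempty := card_pos.1
      (Nat.cast_pos.1 ((mul_pos hC hT).trans_le hS))
    exact ⟨s, (hS' s hs).1, (hS' s hs).2.2.2.2⟩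

/-- **Combinations of `L`-functions vanish right of the line one.** -/
theorem combination_zeros_right {q : ℕ} [NeZero q] {c : DirichletCharacter ℂ q → ℂ}
    {χ₁ χ₂ : DirichletCharacter ℂ q} (h12 : χ₁ ≠ χ₂) (h1 : c χ₁ ≠ 0) (h2 : c χ₂ ≠ 0) {δ : ℝ}
    (hδ : 0 < δ) :
    ∃ C : ℝ, 0 < C ∧ ∀ᶠ T : ℝ in atTop, ∃ S : Finset ℂ, C * T ≤ S.card ∧
      ∀ s ∈ S, 1 < s.re ∧ s.re < 1 + δ ∧ 0 < s.im ∧ s.im ≤ T ∧
        ∑ χ : DirichletCharacter ℂ q, c χ * LFunction χ s = 0 :=
  manyZerosRight_charComb h12 h1 h2 hδ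

open Classical in
/-- **The lemma of Cassels.** In a short block more than half of the values of an irreducible
polynomial of degree at least two have a prime factor beyond any multiple of the block. -/
theorem cassels_large_prime {f : ℤ[X]} (hirr : Irreducible f) (hd : 2 ≤ f.natDegree) :
    ∃ η : ℝ, 0 < η ∧ ∀ L : ℕ, 1 ≤ L → ∀ K : ℕ, ∀ᶠ M : ℕ in atTop,
      (1 / 2 + η) * (M / L : ℕ) ≤ (((Ioc M (M + M / L)).filter fun n : ℕ =>
        ∃ p, p.Prime ∧ K * M < p ∧ p ∣ (f.eval (n : ℤ)).natAbs).card : ℝ) :=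
  exists_large_prime_factor hirr hd

/-- **A large prime frees a logarithm.** If `g` divides every integral polynomial vanishing at `a`
and a prime above `M` divides `g (-n)`, then `log (n + a)` is outside the rational span of the
other `log (m + a)`, `m ≤ M`. -/
theorem log_shift_free {a : ℝ} (ha : 0 < a) {g : ℤ[X]}
    (hg : ∀ h : ℤ[X], aeval a h = 0 → g ∣ h) {p M n : ℕ} (hp : p.Prime) (hpM : M < p)
    (hn : n ≤ M) (hdvd : (p : ℤ) ∣ g.eval (-(n : ℤ))) :
    Real.log (n + a) ∉ Submodule.span ℚ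
      ((fun m : ℕ => Real.log (m + a)) '' {m | m ≤ M ∧ m ≠ n}) :=
  isFree_of_dvd ha hg hp hpM hn hdvd

/-- **The logarithms `log (n + a)` are mostly independent for irrational `a`.** -/
theorem log_shift_free_dense {a : ℝ} (ha : 0 < a) (hirr : Irrational a) :
    ∃ η : ℝ, 0 < η ∧ ∀ L : ℕ, 1 ≤ L → ∀ᶠ M : ℕ in atTop, ∃ F : Finset ℕ,
      F ⊆ Ioc M (M + M / L) ∧ (1 / 2 + η) * (M / L : ℕ) ≤ F.card ∧
        ∀ n ∈ F, Real.log (n + a) ∉ Submodule.span ℚ
          ((fun m : ℕ => Real.log (m + a)) '' {m | m ≤ M + M / L ∧ m ≠ n}) :=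
  freeDense_of_irrational ha hirr

end FA.CasselsHurwitz.Summary
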