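import Fermat.Agent.LocalTorsion.NumberField
import Mathlib.RingTheory.IntegralClosure.IntegrallyClosed
import Mathlib.RingTheory.Int.Basic

/-!
# Cassels's theorem and Nagell–Lutz over number fields

On a Weierstrass equation with integral coefficients over a number field of degree `d` a torsion
point is integral unless its order is `p ^ (k + 1)` with `p ^ k (p - 1) ≤ d`, and then
`p ^ 2 x ^ n`, `p ^ 3 y ^ n` are integral for `n = p ^ k (p - 1)`. For `y² = x³ + a x + b` the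
square of the ordinate divides `4 a³ + 27 b²` when the point and its double avoid these orders.
-/

set_option autoImplicit false
set_option linter.unusedSectionVars false

noncomputable section

open WeierstrassCurve NumberField FA.LocalTorsion
open scoped Classical

namespace FA.Summary

variable {K : Type*} [Field K] [NumberField K] {W : WeierstrassCurve K} [W.IsElliptic] {x y : K}

/-- **A torsion point whose order is no prime power is integral**, over every number field. -/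
theorem cassels_integral_of_not_primePow
    (hW : IsIntegral ℤ W.a₁ ∧ IsIntegral ℤ W.a₂ ∧ IsIntegral ℤ W.a₃ ∧ IsIntegral ℤ W.a₄ ∧
      IsIntegral ℤ W.a₆) (h : W.toAffine.Nonsingular x y)
    (hfin : IsOfFinAddOrder (Affine.Point.some x y h))
    (hm : ¬ IsPrimePow (addOrderOf (Affine.Point.some x y h))) :
    IsIntegral ℤ x ∧ IsIntegral ℤ y :=
  isIntegral_of_not_primePow ⟨hW.1, hW.2.1, hW.2.2.1, hW.2.2.2.1, hW.2.2.2.2⟩ h hfin hm

/-- **The denominators at order `p ^ (k + 1)`**: `p ^ 2 x ^ n` and `p ^ 3 y ^ n` are integral for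
`n = p ^ k (p - 1)`. -/
theorem cassels_denominators
    (hW : IsIntegral ℤ W.a₁ ∧ IsIntegral ℤ W.a₂ ∧ IsIntegral ℤ W.a₃ ∧ IsIntegral ℤ W.a₄ ∧
      IsIntegral ℤ W.a₆) (h : W.toAffine.Nonsingular x y) {p k : ℕ} (hp : p.Prime)
    (hord : addOrderOf (Affine.Point.some x y h) = p ^ (k + 1)) :
    IsIntegral ℤ ((p : K) ^ 2 * x ^ (p ^ k * (p - 1))) ∧
      IsIntegral ℤ ((p : K) ^ 3 * y ^ (p ^ k * (p - 1))) :=
  have : Fact p.Prime := ⟨hp⟩
  isIntegral_cleared ⟨hW.1, hW.2.1, hW.2.2.1, hW.2.2.2.1, hW.2.2.2.2⟩ h hord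

/-- **Only orders `p ^ (k + 1)` with `p ^ k (p - 1) ≤ [K : ℚ]` allow denominators.** -/
theorem cassels_order_bound
    (hW : IsIntegral ℤ W.a₁ ∧ IsIntegral ℤ W.a₂ ∧ IsIntegral ℤ W.a₃ ∧ IsIntegral ℤ W.a₄ ∧
      IsIntegral ℤ W.a₆) (h : W.toAffine.Nonsingular x y)
    (hfin : IsOfFinAddOrder (Affine.Point.some x y h))
    (hxy : ¬ (IsIntegral ℤ x ∧ IsIntegral ℤ y)) :
    ∃ p k : ℕ, p.Prime ∧ addOrderOf (Affine.Point.some x y h) = p ^ (k + 1) ∧
      p ^ k * (p - 1) ≤ Module.finrank ℚ K :=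
  order_of_not_isIntegral ⟨hW.1, hW.2.1, hW.2.2.1, hW.2.2.2.1, hW.2.2.2.2⟩ h hfin hxy

omit [W.IsElliptic] in
/-- **Nagell–Lutz over a number field**: on `y² = x³ + a x + b`, if neither the order of the point
nor that of its double is `p ^ (k + 1)` with `p ^ k (p - 1) ≤ [K : ℚ]` then the coordinates are
integral and `y = 0` or `y² ∣ 4 a³ + 27 b²`. -/
theorem nagell_lutz_numberField (a b : 𝓞 K) (hD : 4 * a ^ 3 + 27 * b ^ 2 ≠ 0)
    {h : (⟨0, 0, 0, (a : K), (b : K)⟩ : WeierstrassCurve K).toAffine.Nonsingular x y}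
    (hfin : IsOfFinAddOrder (Affine.Point.some x y h))
    (hord : ∀ p k : ℕ, p.Prime →
      addOrderOf (Affine.Point.some x y h) = p ^ (k + 1) ∨
        addOrderOf (2 • Affine.Point.some x y h) = p ^ (k + 1) →
      Module.finrank ℚ K < p ^ k * (p - 1)) :
    ∃ X Y : 𝓞 K, x = X ∧ y = Y ∧ (Y = 0 ∨ Y ^ 2 ∣ 4 * a ^ 3 + 27 * b ^ 2) := by
  have : (⟨0, 0, 0, (a : K), (b : K)⟩ : WeierstrassCurve K).IsElliptic := ⟨isUnit_iff_ne_zero.2 (by
    rw [show (⟨0, 0, 0, (a : K), (b : K)⟩ : WeierstrassCurve K).Δ =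
        -16 * ((4 * a ^ 3 + 27 * b ^ 2 : 𝓞 K) : K) by
      simp [WeierstrassCurve.Δ, WeierstrassCurve.b₂, WeierstrassCurve.b₄, WeierstrassCurve.b₆,
        WeierstrassCurve.b₈, map_ofNat]
      ring]
    exact mul_ne_zero (by norm_num) (RingOfIntegers.coe_ne_zero_iff.2 hD))⟩
  have hE : IntegralEquation (⟨0, 0, 0, (a : K), (b : K)⟩ : WeierstrassCurve K) :=
    ⟨isIntegral_zero, isIntegral_zero, isIntegral_zero, a.2, b.2⟩
  have hint : ∀ {u v : K}
      (hu : (⟨0, 0, 0, (a : K), (b : K)⟩ : WeierstrassCurve K).toAffine.Nonsingular u v),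
      IsOfFinAddOrder (Affine.Point.some u v hu) →
      (∀ p k : ℕ, p.Prime → addOrderOf (Affine.Point.some u v hu) = p ^ (k + 1) →
        Module.finrank ℚ K < p ^ k * (p - 1)) → IsIntegral ℤ u ∧ IsIntegral ℤ v :=
    fun {u v} hu hf hb => by
      by_contra hn
      obtain ⟨p, k, hp, ho, hle⟩ := order_of_not_isIntegral hE hu hf hn
      exact absurd (hb p k hp ho) (not_lt.2 hle)
  obtain ⟨hx, hy⟩ := hint h hfin fun p k hp ho => hord p k hp (Or.inl ho)
  refine ⟨⟨x, hx⟩, ⟨y, hy⟩, rfl, rfl, ?_⟩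
  rcases e : 2 • Affine.Point.some x y h with _ | ⟨x₂, y₂, h₂⟩
  · left
    refine RingOfIntegers.ext ?_
    by_contra hy0
    rw [← Affine.Point.zero_def, two_nsmul, add_eq_zero_iff_eq_neg, Affine.Point.neg_some,
      Affine.Point.some.injEq] at e
    have h2 : (2 : K) * y = 0 := by
      have := e.2
      simp only [Affine.negY, zero_mul, sub_zero] at this
      linear_combination this
    exact hy0 ((mul_eq_zero.1 h2).resolve_left two_ne_zero)
  · right
    obtain ⟨hx₂, -⟩ := hint h₂ (e ▸ hfin.nsmul) fun p k hp ho => hord p k hp (Or.inr (e ▸ ho))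
    exact sq_dvd_of_integral_double (x := ⟨x, hx⟩) (y := ⟨y, hy⟩) (x₂ := ⟨x₂, hx₂⟩) (h := h) e

/-- **The bound is attained over `ℚ`**: `(-1/4, 1/8)` on `y² + xy = x³ + 4x² + x` has order `2`,
`2² x = -1` and `2 x` is not integral. -/
theorem cassels_sharp :
    ∃ h : (⟨1, 4, 0, 1, 0⟩ : WeierstrassCurve ℚ).toAffine.Nonsingular (-(1 / 4)) (1 / 8),
      addOrderOf (Affine.Point.some _ _ h) = 2 ∧ (2 : ℚ) ^ 2 * (-(1 / 4)) = -1 ∧
      ¬ IsIntegral ℤ ((2 : ℚ) * (-(1 / 4))) := by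
  have : (⟨1, 4, 0, 1, 0⟩ : WeierstrassCurve ℚ).IsElliptic := ⟨isUnit_iff_ne_zero.2 (by
    simp [WeierstrassCurve.Δ, WeierstrassCurve.b₂, WeierstrassCurve.b₄, WeierstrassCurve.b₆,
      WeierstrassCurve.b₈]
    norm_num)⟩
  refine ⟨Affine.equation_iff_nonsingular.1 (by rw [Affine.equation_iff]; norm_num), ?_,
    by norm_num, fun hi => ?_⟩
  · refine addOrderOf_eq_prime ?_ (Affine.Point.some_ne_zero _)
    rw [two_nsmul, add_eq_zero_iff_eq_neg, Affine.Point.neg_some, Affine.Point.some.injEq]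
    refine ⟨rfl, ?_⟩
    simp only [Affine.negY]
    norm_num
  · obtain ⟨n, hn⟩ := IsIntegrallyClosed.isIntegral_iff.1 hi
    have h2 : (2 * n : ℤ) = -1 := by
      have : (2 * n : ℚ) = -1 := by
        rw [show (n : ℚ) = 2 * -(1 / 4) from hn]; norm_num
      exact_mod_cast this
    omega

end FA.Summary
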