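import Fermat.Agent.NormalBases.Normal

/-!
# The theorem of Cassels and Schmidt on normality in different bases

A number is normal in base `r` if every block of `k` digits occurs with frequency `r ^ (-k)`, as in
`FA.Summary.borel_normal_numbers`. `cantorMeasure p` is the law of the number whose digits in base
`p` are chosen from `0` and `p - 1` by independent fair coins.

* `cantor_measure`: for `p = 3` a probability measure without atoms carried by the Cantor set;
* `cassels_schmidt`: for this measure almost every point is normal in every base that is not a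
  power of `3`;
* `cantorSet_not_normal`: no point of the Cantor set is normal in base `3`;
* `cassels_uncountable`: uncountably many reals are normal in every base that is not a power of `3`
  and not normal in base `3`;
* `cantor_measure_prime`, `cassels_schmidt_prime`, `cassels_uncountable_prime`: the same for every
  odd prime in place of `3`.
-/

set_option autoImplicit false

noncomputable section

open MeasureTheory Filter Finset
open scoped Topology

namespace FA.NormalBases.Summary

/-- **The measure for an odd prime.** -/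
theorem cantor_measure_prime {p : ℕ} (hp : 3 ≤ p) :
    IsProbabilityMeasure (cantorMeasure p) ∧ (∀ y, cantorMeasure p {y} = 0) ∧
      cantorMeasure p = (volume.restrict (Set.Ioc (0 : ℝ) 1)).map (fun t : ℝ =>
        ∑' i : ℕ, (if ⌊(2 : ℝ) ^ (i + 1) * t⌋ % 2 = 1 then (p : ℝ) - 1 else 0) *
          ((p : ℝ) ^ (i + 1))⁻¹) := by
  refine ⟨isProbabilityMeasure_cantorMeasure (by omega), cantorMeasure_singleton hp, ?_⟩
  rw [cantorMeasure]
  congr 1
  funext t
  exact tsum_congr fun i => by simp [binaryBit]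

/-- **The Cantor measure.** -/
theorem cantor_measure :
    IsProbabilityMeasure (cantorMeasure 3) ∧ cantorMeasure 3 cantorSet = 1 ∧
      ∀ y, cantorMeasure 3 {y} = 0 :=
  ⟨isProbabilityMeasure_cantorMeasure (by norm_num),
    cantorMeasure_eq_one (by norm_num) isClosed_cantorSet.measurableSet
      (fun ε => cantorSet_eq_range ▸ Set.mem_range_self ε),
    cantorMeasure_singleton le_rfl⟩

/-- **The theorem of Cassels and Schmidt** for an odd prime base. -/
theorem cassels_schmidt_prime {p : ℕ} (hp : p.Prime) (hp2 : p ≠ 2) :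
    ∀ᵐ y ∂cantorMeasure p, ∀ r : ℕ, 2 ≤ r → (∀ j, r ≠ p ^ j) → ∀ k W : ℕ, W < r ^ k →
      Tendsto (fun N : ℕ => (((range N).filter fun i =>
        ⌊(r : ℝ) ^ (i + k) * y⌋ % ((r : ℤ) ^ k) = (W : ℤ)).card : ℝ) / N) atTop
          (𝓝 (1 / (r : ℝ) ^ k)) := by
  refine ae_all_iff.2 fun r => ?_
  by_cases h : 2 ≤ r ∧ ∀ j, r ≠ p ^ j
  · have hind : IndepBases r p := fun i j hi _ e => by
      obtain ⟨l, -, hl⟩ := (Nat.dvd_prime_pow hp).1 (e ▸ dvd_pow_self r hi.ne')
      exact h.2 l hl
    filter_upwards [ae_normal (lt_of_le_of_ne hp.two_le (Ne.symm hp2)) h.1 hind] with y hy _ _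
    exact hy
  · exact Eventually.of_forall fun y h1 h2 => absurd ⟨h1, h2⟩ h

/-- **The theorem of Cassels and Schmidt**: for the Cantor measure almost every point is normal in
every base that is not a power of `3`. -/
theorem cassels_schmidt :
    ∀ᵐ y ∂cantorMeasure 3, ∀ r : ℕ, 2 ≤ r → (∀ j, r ≠ 3 ^ j) → ∀ k W : ℕ, W < r ^ k →
      Tendsto (fun N : ℕ => (((range N).filter fun i =>
        ⌊(r : ℝ) ^ (i + k) * y⌋ % ((r : ℤ) ^ k) = (W : ℤ)).card : ℝ) / N) atTop
          (𝓝 (1 / (r : ℝ) ^ k)) :=
  cassels_schmidt_prime Nat.prime_three (by norm_num)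

/-- **No point of the Cantor set is normal in base `3`.** -/
theorem cantorSet_not_normal {y : ℝ} (hy : y ∈ cantorSet) :
    ¬Tendsto (fun N : ℕ => (((range N).filter fun i =>
        ⌊(3 : ℝ) ^ (i + 1) * y⌋ % ((3 : ℤ) ^ 1) = 1).card : ℝ) / N) atTop
          (𝓝 (1 / (3 : ℝ) ^ 1)) := by
  rw [cantorSet_eq_range] at hy
  obtain ⟨ε, rfl⟩ := hy
  simpa using not_normal_self (p := 3) le_rfl ε

/-- Uncountably many reals normal in every base that is not a power of the odd prime `p`, and not
normal in base `p`. -/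
theorem cassels_uncountable_prime {p : ℕ} (hp : p.Prime) (hp2 : p ≠ 2) :
    ¬{y : ℝ | (∀ r : ℕ, 2 ≤ r → (∀ j, r ≠ p ^ j) → ∀ k W : ℕ, W < r ^ k →
        Tendsto (fun N : ℕ => (((range N).filter fun i =>
          ⌊(r : ℝ) ^ (i + k) * y⌋ % ((r : ℤ) ^ k) = (W : ℤ)).card : ℝ) / N) atTop
            (𝓝 (1 / (r : ℝ) ^ k))) ∧
      ¬∀ k W : ℕ, W < p ^ k →
        Tendsto (fun N : ℕ => (((range N).filter fun i =>
          ⌊(p : ℝ) ^ (i + k) * y⌋ % ((p : ℤ) ^ k) = (W : ℤ)).card : ℝ) / N) atTop
            (𝓝 (1 / (p : ℝ) ^ k))}.Countable := by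
  intro hc
  have hp3 : 3 ≤ p := lt_of_le_of_ne hp.two_le (Ne.symm hp2)
  have := isProbabilityMeasure_cantorMeasure (show 2 ≤ p by omega)
  have h := ae_of_ae_map (measurable_coded (show 2 ≤ p by omega)).aemeasurable
    ((cassels_schmidt_prime hp hp2).and (measure_eq_zero_iff_ae_notMem.1
      (cantorMeasure_countable hp3 hc)))
  have hne : volume.restrict (Set.Ioc (0 : ℝ) 1) ≠ 0 := fun e => by
    have := congrArg (fun m : Measure ℝ => m Set.univ) e
    simp at this
  have : (ae (volume.restrict (Set.Ioc (0 : ℝ) 1))).NeBot := ae_neBot.2 hne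
  obtain ⟨t, hnormal, hnot⟩ := h.exists
  refine hnot ⟨hnormal, fun hall => ?_⟩
  exact not_normal_self hp3 (binaryBit t) (hall 1 1 (by rw [pow_one]; omega))

/-- **Normality in base `r` does not imply normality in base `3`**: uncountably many reals are
normal in every base that is not a power of `3` and not normal in base `3`. -/
theorem cassels_uncountable :
    ¬{y : ℝ | (∀ r : ℕ, 2 ≤ r → (∀ j, r ≠ 3 ^ j) → ∀ k W : ℕ, W < r ^ k →
        Tendsto (fun N : ℕ => (((range N).filter fun i =>
          ⌊(r : ℝ) ^ (i + k) * y⌋ % ((r : ℤ) ^ k) = (W : ℤ)).card : ℝ) / N) atTop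
            (𝓝 (1 / (r : ℝ) ^ k))) ∧
      ¬∀ k W : ℕ, W < 3 ^ k →
        Tendsto (fun N : ℕ => (((range N).filter fun i =>
          ⌊(3 : ℝ) ^ (i + k) * y⌋ % ((3 : ℤ) ^ k) = (W : ℤ)).card : ℝ) / N) atTop
            (𝓝 (1 / (3 : ℝ) ^ k))}.Countable := by
  simpa using cassels_uncountable_prime Nat.prime_three (by norm_num)

end FA.NormalBases.Summary

end
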