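import Fermat.Agent.VanDerWaerden.Main

/-!
# Van der Waerden's theorem on random polynomials

Almost all monic integral polynomials of degree `n`, ordered by the size of their coefficients, are
irreducible with Galois group `Sₙ` (van der Waerden, 1936). The proof is by Dedekind's reduction
theorem and a sieve: an irreducible reduction gives transitivity, a reduction `linear × irreducible`
an `(n-1)`-cycle fixing a root, and a reduction `quadratic × distinct linear` a transposition.
-/

set_option autoImplicit false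

noncomputable section

open Polynomial Filter Topology
open scoped Polynomial

namespace FA.Summary

lemma monicOf_map_int_eq {n : ℕ} (a : Fin n → ℤ) :
    (Fermat.Agent.VanDerWaerden.monicOf a).map (Int.castRingHom ℚ)
      = X ^ n + ∑ i, C (a i : ℚ) * X ^ (i : ℕ) := by
  rw [Fermat.Agent.VanDerWaerden.map_monicOf]
  rfl

lemma hasSymmetricGroup_iff {n : ℕ} (a : Fin n → ℤ) :
    Fermat.Agent.VanDerWaerden.HasSymmetricGroup a ↔
      Irreducible (X ^ n + ∑ i, C (a i : ℚ) * X ^ (i : ℕ)) ∧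
        Nonempty ((X ^ n + ∑ i, C (a i : ℚ) * X ^ (i : ℕ)).Gal ≃* Equiv.Perm (Fin n)) := by
  unfold Fermat.Agent.VanDerWaerden.HasSymmetricGroup
  rw [monicOf_map_int_eq]

/-- **Van der Waerden**: of the `(2N+1)^n` monic integral polynomials of degree `n` with
coefficients in `[-N, N]`, all but a proportion tending to zero are irreducible with Galois group
`Sₙ`. -/
theorem vanDerWaerden_symmetric_galois {n : ℕ} (hn : 1 ≤ n) :
    Tendsto (fun N : ℕ =>
      ({a : Fin n → ℤ | (∀ i, |a i| ≤ N) ∧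
        Irreducible (X ^ n + ∑ i, C (a i : ℚ) * X ^ (i : ℕ)) ∧
        Nonempty ((X ^ n + ∑ i, C (a i : ℚ) * X ^ (i : ℕ)).Gal ≃* Equiv.Perm (Fin n))}.ncard : ℝ)
          / (2 * N + 1) ^ n) atTop (𝓝 1) := by
  classical
  have h := Fermat.Agent.VanDerWaerden.tendsto_not_symmetric hn
  have h1 := h.const_sub 1
  rw [sub_zero] at h1
  refine h1.congr fun N => ?_
  set G := {a : Fin n → ℤ | (∀ i, |a i| ≤ (N : ℤ)) ∧
    Irreducible (X ^ n + ∑ i, C (a i : ℚ) * X ^ (i : ℕ)) ∧
    Nonempty ((X ^ n + ∑ i, C (a i : ℚ) * X ^ (i : ℕ)).Gal ≃* Equiv.Perm (Fin n))}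
  set B := {a : Fin n → ℤ | (∀ i, |a i| ≤ (N : ℤ)) ∧
    ¬ Fermat.Agent.VanDerWaerden.HasSymmetricGroup a}
  have hunion : G ∪ B = ↑(Fermat.Agent.VanDerWaerden.box n N) := by
    ext a
    simp only [G, B, Set.mem_union, Set.mem_ofPred_eq, Finset.mem_coe,
      Fermat.Agent.VanDerWaerden.mem_box, hasSymmetricGroup_iff]
    tauto
  have hdis : Disjoint G B :=
    Set.disjoint_left.2 fun a ha hb => hb.2 ((hasSymmetricGroup_iff a).2 ha.2)
  have hfin : (G ∪ B).Finite := hunion ▸ Finset.finite_toSet _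
  have hc := Set.ncard_union_eq hdis (hfin.subset Set.subset_union_left)
    (hfin.subset Set.subset_union_right)
  rw [hunion, Set.ncard_coe_finset, Fermat.Agent.VanDerWaerden.card_box] at hc
  have hc' : ((2 * N + 1 : ℝ)) ^ n = (G.ncard : ℝ) + (B.ncard : ℝ) := mod_cast hc
  rw [eq_div_iff (by positivity), sub_mul, one_mul, div_mul_cancel₀ _ (by positivity), hc']
  ring

/-- Almost all monic integral polynomials of degree `n` are irreducible over `ℚ`. -/
theorem vanDerWaerden_almost_all_irreducible {n : ℕ} (hn : 1 ≤ n) :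
    Tendsto (fun N : ℕ =>
      ({a : Fin n → ℤ | (∀ i, |a i| ≤ N) ∧
        Irreducible (X ^ n + ∑ i, C (a i : ℚ) * X ^ (i : ℕ))}.ncard : ℝ)
          / (2 * N + 1) ^ n) atTop (𝓝 1) := by
  refine tendsto_of_tendsto_of_tendsto_of_le_of_le (vanDerWaerden_symmetric_galois hn)
    tendsto_const_nhds (fun N => ?_) (fun N => ?_)
  · refine div_le_div_of_nonneg_right (Nat.cast_le.2 (Set.ncard_le_ncard
      (fun a ha => ⟨ha.1, ha.2.1⟩) ?_)) (by positivity)
    exact (Fermat.Agent.VanDerWaerden.box n N).finite_toSet.subset fun a ha =>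
      Fermat.Agent.VanDerWaerden.mem_box.2 ha.1
  · refine (div_le_one (by positivity)).2 ?_
    have h := Set.ncard_le_ncard (fun a (ha : a ∈ {a : Fin n → ℤ | (∀ i, |a i| ≤ (N : ℤ)) ∧
        Irreducible (X ^ n + ∑ i, C (a i : ℚ) * X ^ (i : ℕ))}) =>
      Fermat.Agent.VanDerWaerden.mem_box.2 ha.1) (Finset.finite_toSet _)
    rw [Set.ncard_coe_finset, Fermat.Agent.VanDerWaerden.card_box] at h
    calc _ ≤ (((2 * N + 1) ^ n : ℕ) : ℝ) := Nat.cast_le.2 h
      _ = _ := by push_cast; ring

end FA.Summary
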