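import Fermat.Agent.ReducibleModP.Construction
import Fermat.Agent.ReducibleModP.Degrees
import Fermat.Agent.Root.SummaryVanDerWaerden

/-!
# Irreducible polynomials reducible modulo every prime

Hilbert's `X ^ 4 + 1` is irreducible and reducible modulo every prime. Such polynomials exist
exactly in composite degrees (Brandl 1986). More precisely an irreducible `f` stays irreducible modulo some
prime iff modulo infinitely many iff an automorphism permutes its roots cyclically; the density of
these primes is the proportion of such automorphisms in the Galois group, `1/n` for almost all `f`.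
-/

set_option autoImplicit false

noncomputable section

open Polynomial Filter Topology NumberField IsDedekindDomain Fermat.Agent.ReducibleModP
open scoped Polynomial Nat

namespace FA.Summary

/-- **In every composite degree** some irreducible monic integral polynomial is reducible modulo
every prime. -/
theorem exists_irreducible_reducible_mod_every_prime {n : ℕ} (hn : 2 ≤ n) (hcomp : ¬ n.Prime) :
    ∃ f : ℤ[X], f.Monic ∧ f.natDegree = n ∧ Irreducible (f.map (Int.castRingHom ℚ)) ∧
      ∀ p : ℕ, p.Prime → ¬ Irreducible (f.map (Int.castRingHom (ZMod p))) :=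
  exists_reducible_mod_every_prime hn hcomp

/-- An irreducible polynomial of prime degree stays irreducible modulo infinitely many primes. -/
theorem irreducible_mod_infinitely_many_of_prime_degree {f : ℤ[X]} (hf : f.Monic)
    (hirr : Irreducible (f.map (Int.castRingHom ℚ))) (hn : f.natDegree.Prime) :
    {p : ℕ | p.Prime ∧ Irreducible (f.map (Int.castRingHom (ZMod p)))}.Infinite := by
  let : Algebra ℚ (f.map (Int.castRingHom ℚ)).SplittingField := SplittingField.instAlgebra_1 _
  have : IsSplittingField ℚ (f.map (Int.castRingHom ℚ)).SplittingField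
    (f.map (Int.castRingHom ℚ)) := IsSplittingField.splittingField _
  obtain ⟨σ, hσ⟩ := exists_cyclicOn_of_prime (L := (f.map (Int.castRingHom ℚ)).SplittingField)
    hf hirr hn
  exact infinite_irreducible_mod_of_splittingField hf hirr hσ

/-- **Brandl's theorem**: the degrees `n ≥ 2` of the irreducible polynomials reducible modulo
every prime are exactly the composite numbers. -/
theorem exists_reducible_mod_every_prime_iff {n : ℕ} (hn : 2 ≤ n) :
    (∃ f : ℤ[X], f.Monic ∧ f.natDegree = n ∧ Irreducible (f.map (Int.castRingHom ℚ)) ∧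
      ∀ p : ℕ, p.Prime → ¬ Irreducible (f.map (Int.castRingHom (ZMod p)))) ↔ ¬ n.Prime := by
  refine ⟨?_, exists_irreducible_reducible_mod_every_prime hn⟩
  rintro ⟨f, hf, rfl, hirr, hred⟩ hp
  obtain ⟨q, hq, hq'⟩ := (irreducible_mod_infinitely_many_of_prime_degree hf hirr hp).nonempty
  exact hred q hq hq'

/-- Irreducible modulo one prime implies irreducible modulo infinitely many. -/
theorem irreducible_mod_one_iff_infinitely_many {f : ℤ[X]} (hf : f.Monic)
    (hirr : Irreducible (f.map (Int.castRingHom ℚ))) :
    (∃ p : ℕ, p.Prime ∧ Irreducible (f.map (Int.castRingHom (ZMod p)))) ↔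
      {p : ℕ | p.Prime ∧ Irreducible (f.map (Int.castRingHom (ZMod p)))}.Infinite := by
  refine ⟨?_, fun h => h.nonempty⟩
  rintro ⟨p, hp, hp'⟩
  have : Fact p.Prime := ⟨hp⟩
  let : Algebra ℚ (f.map (Int.castRingHom ℚ)).SplittingField := SplittingField.instAlgebra_1 _
  have : IsSplittingField ℚ (f.map (Int.castRingHom ℚ)).SplittingField
    (f.map (Int.castRingHom ℚ)) := IsSplittingField.splittingField _
  obtain ⟨σ, hσ⟩ := exists_cyclicOn_of_irreducible_mod
    (L := (f.map (Int.castRingHom ℚ)).SplittingField) hf hp'
  exact infinite_irreducible_mod_of_splittingField hf hirr hσ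

/-- An irreducible polynomial is irreducible modulo infinitely many primes iff some automorphism of
`ℚ̄` permutes its roots cyclically. -/
theorem irreducible_mod_infinitely_many_iff_cycle {f : ℤ[X]} (hf : f.Monic)
    (hirr : Irreducible (f.map (Int.castRingHom ℚ))) :
    {p : ℕ | p.Prime ∧ Irreducible (f.map (Int.castRingHom (ZMod p)))}.Infinite ↔
      ∃ g : AlgebraicClosure ℚ ≃ₐ[ℚ] AlgebraicClosure ℚ,
        ∀ x ∈ (f.map (Int.castRingHom ℚ)).rootSet (AlgebraicClosure ℚ),
          ∀ y ∈ (f.map (Int.castRingHom ℚ)).rootSet (AlgebraicClosure ℚ),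
            ∃ i : ℕ, (g ^ i) x = y := by
  refine ⟨fun h => ?_, ?_⟩
  · obtain ⟨p, hp, hp'⟩ := h.nonempty
    have : Fact p.Prime := ⟨hp⟩
    exact exists_cyclicOn_algebraicClosure hf hp'
  rintro ⟨g, hg⟩
  set fQ := f.map (Int.castRingHom ℚ) with hfQ
  let : Algebra ℚ fQ.SplittingField := SplittingField.instAlgebra_1 _
  have : IsSplittingField ℚ fQ.SplittingField fQ := IsSplittingField.splittingField _
  have : Normal ℚ fQ.SplittingField := Normal.of_isSplittingField fQ
  let ι : fQ.SplittingField →ₐ[ℚ] AlgebraicClosure ℚ :=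
    IsSplittingField.lift fQ.SplittingField fQ (IsAlgClosed.splits _)
  let : Algebra fQ.SplittingField (AlgebraicClosure ℚ) := ι.toRingHom.toAlgebra
  have : IsScalarTower ℚ fQ.SplittingField (AlgebraicClosure ℚ) :=
    IsScalarTower.of_algebraMap_eq fun r => (ι.commutes r).symm
  have hcomm : ∀ (i : ℕ) (x : fQ.SplittingField),
      ι ((g.restrictNormal fQ.SplittingField ^ i) x) = (g ^ i) (ι x) := by
    intro i x
    induction i with
    | zero => rfl
    | succ i ih =>
      rw [pow_succ', AlgEquiv.mul_apply, pow_succ', AlgEquiv.mul_apply, ← ih]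
      exact g.restrictNormal_commutes fQ.SplittingField _
  refine infinite_irreducible_mod_of_splittingField (σ := g.restrictNormal fQ.SplittingField) hf
    hirr fun x hx y hy => ?_
  obtain ⟨i, hi⟩ := hg _ (rootSet_mapsTo ι hx) _ (rootSet_mapsTo ι hy)
  exact ⟨i, ι.injective ((hcomm i x).trans hi)⟩

/-- The Dirichlet density of the primes modulo which `f` stays irreducible is the proportion of
automorphisms, in any Galois number field over which `f` splits, permuting the roots cyclically. -/
theorem irreducible_mod_density {f : ℤ[X]} (hf : f.Monic)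
    (hirr : Irreducible (f.map (Int.castRingHom ℚ))) (L : Type) [Field L] [NumberField L]
    [IsGalois ℚ L] (hs : ((f.map (Int.castRingHom ℚ)).map (algebraMap ℚ L)).Splits) :
    {v : HeightOneSpectrum (𝓞 ℚ) |
      Irreducible (f.map (Int.castRingHom (ZMod (Ideal.absNorm v.asIdeal))))}.HasDirichletDensity
      ((Nat.card {σ : L ≃ₐ[ℚ] L | ∀ x ∈ (f.map (Int.castRingHom ℚ)).rootSet L,
        ∀ y ∈ (f.map (Int.castRingHom ℚ)).rootSet L, ∃ i : ℕ, (σ ^ i) x = y} : ℝ) /
          Nat.card (L ≃ₐ[ℚ] L)) :=
  hasDirichletDensity_irreducible_mod hf hirr hs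

/-- With Galois group `Sₙ` the primes of irreducible reduction have density `1/n`. -/
theorem irreducible_mod_density_symmetric {f : ℤ[X]} (hf : f.Monic)
    (hirr : Irreducible (f.map (Int.castRingHom ℚ)))
    (hG : Nonempty ((f.map (Int.castRingHom ℚ)).Gal ≃* Equiv.Perm (Fin f.natDegree))) :
    {v : HeightOneSpectrum (𝓞 ℚ) |
      Irreducible (f.map (Int.castRingHom (ZMod (Ideal.absNorm v.asIdeal))))}.HasDirichletDensity
      (1 / f.natDegree : ℝ) := by
  obtain ⟨e⟩ := hG
  have hc : Nat.card (f.map (Int.castRingHom ℚ)).Gal = (f.natDegree !) := by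
    rw [Nat.card_congr e.toEquiv, Nat.card_perm, Nat.card_fin]
  let : Algebra ℚ (f.map (Int.castRingHom ℚ)).SplittingField := SplittingField.instAlgebra_1 _
  have : IsSplittingField ℚ (f.map (Int.castRingHom ℚ)).SplittingField
    (f.map (Int.castRingHom ℚ)) := IsSplittingField.splittingField _
  exact hasDirichletDensity_of_card_eq_factorial
    (L := (f.map (Int.castRingHom ℚ)).SplittingField) hf hirr hc

/-- For almost all monic integral polynomials of degree `n` (coefficients in `[-N, N]`) the primes
of irreducible reduction have density `1/n`. -/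
theorem almost_all_irreducible_mod_density {n : ℕ} (hn : 1 ≤ n) :
    Tendsto (fun N : ℕ =>
      ({a : Fin n → ℤ | (∀ i, |a i| ≤ N) ∧
        {v : HeightOneSpectrum (𝓞 ℚ) | Irreducible ((X ^ n + ∑ i, C (a i) * X ^ (i : ℕ)).map
          (Int.castRingHom (ZMod (Ideal.absNorm v.asIdeal))))}.HasDirichletDensity
            (1 / n : ℝ)}.ncard : ℝ) / (2 * N + 1) ^ n) atTop (𝓝 1) := by
  refine tendsto_of_tendsto_of_tendsto_of_le_of_le (vanDerWaerden_symmetric_galois hn)
    tendsto_const_nhds (fun N => ?_) (fun N => ?_)
  · refine div_le_div_of_nonneg_right (Nat.cast_le.2 (Set.ncard_le_ncard (fun a ha => ⟨ha.1, ?_⟩)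
      ((Fermat.Agent.VanDerWaerden.box n N).finite_toSet.subset fun a ha =>
        Fermat.Agent.VanDerWaerden.mem_box.2 ha.1))) (by positivity)
    obtain ⟨-, hirr, hG⟩ := ha
    rw [← monicOf_map_int_eq] at hirr hG
    have hd : (Fermat.Agent.VanDerWaerden.monicOf a).natDegree = n :=
      Fermat.Agent.VanDerWaerden.natDegree_monicOf a
    have h := irreducible_mod_density_symmetric (Fermat.Agent.VanDerWaerden.monicOf_monic a) hirr
      (by rw [hd]; exact hG)
    rw [hd] at h
    exact h
  · refine (div_le_one (by positivity)).2 ?_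
    refine (Nat.cast_le.2 ((Set.ncard_le_ncard (fun a ha =>
      Fermat.Agent.VanDerWaerden.mem_box.2 ha.1) (Finset.finite_toSet _)).trans_eq
        ((Set.ncard_coe_finset _).trans (Fermat.Agent.VanDerWaerden.card_box n N)))).trans_eq ?_
    push_cast
    ring

end FA.Summary
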