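import Fermat.Agent.RootsModP.Orbits
import Fermat.Agent.RootsModP.Intersective
import Fermat.Agent.Root.SummaryVanDerWaerden

/-!
# How many roots a polynomial has modulo primes

Frobenius (1896): the primes modulo which `f` has exactly `k` roots have the density of the Galois
elements fixing `k` roots; their mean is the number of irreducible factors (Kronecker). An
irreducible `f` of degree `n ≥ 2` has no root modulo a set of primes of density at least `1/n`
(Jordan, Cameron–Cohen, Serre), and of density `Dₙ/n!` (derangements, tending to `1/e` by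
`numDerangements_tendsto_inv_e`) for the group `Sₙ`, hence for almost all `f`. Roots modulo every
integer do not force a rational root: `(X² - 2)(X² - 17)(X² - 34)`.
-/

set_option autoImplicit false

noncomputable section

open Polynomial Filter Topology NumberField IsDedekindDomain Fermat.Agent.RootsModP
open scoped Polynomial Nat

namespace FA.Summary

/-- **Frobenius**: the Dirichlet density of the primes modulo which `f` has exactly `k` roots. -/
theorem root_count_density {f : ℤ[X]} (hf : f.Monic)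
    (hsep : (f.map (Int.castRingHom ℚ)).Separable) (L : Type) [Field L] [NumberField L]
    [IsGalois ℚ L] (hs : ((f.map (Int.castRingHom ℚ)).map (algebraMap ℚ L)).Splits) (k : ℕ) :
    {v : HeightOneSpectrum (𝓞 ℚ) | {x : ZMod (Ideal.absNorm v.asIdeal) |
      (f.map (Int.castRingHom _)).eval x = 0}.ncard = k}.HasDirichletDensity
      ((Nat.card {σ : L ≃ₐ[ℚ] L |
        {x : L | x ∈ (f.map (Int.castRingHom ℚ)).rootSet L ∧ σ x = x}.ncard = k} : ℝ) /
          Nat.card (L ≃ₐ[ℚ] L)) :=
  hasDirichletDensity_rootsMod hf hsep hs k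

/-- **Kronecker**: on average `f` has as many roots modulo a prime as irreducible factors. -/
theorem kronecker_mean_root_count {f : ℤ[X]} (hf : f.Monic)
    (hsep : (f.map (Int.castRingHom ℚ)).Separable) :
    ∃ δ : ℕ → ℝ, (∀ k, {v : HeightOneSpectrum (𝓞 ℚ) | {x : ZMod (Ideal.absNorm v.asIdeal) |
        (f.map (Int.castRingHom _)).eval x = 0}.ncard = k}.HasDirichletDensity (δ k)) ∧
      ∑ k ∈ Finset.range (f.natDegree + 1), (k : ℝ) * δ k
        = {g : ℚ[X] | g.Monic ∧ Irreducible g ∧ g ∣ f.map (Int.castRingHom ℚ)}.ncard := by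
  classical
  set F := (f.map (Int.castRingHom ℚ)).SplittingField
  have : IsSplittingField ℚ F (f.map (Int.castRingHom ℚ)) := by
    convert! IsSplittingField.splittingField (f.map (Int.castRingHom ℚ)) using 2
  have : FiniteDimensional ℚ F :=
    IsSplittingField.finiteDimensional F (f.map (Int.castRingHom ℚ))
  have : NumberField F := { }
  have : IsGalois ℚ F := IsGalois.of_separable_splitting_field hsep
  have hs := IsSplittingField.splits F (f.map (Int.castRingHom ℚ))
  refine ⟨_, fun k => hasDirichletDensity_rootsMod hf hsep hs k, ?_⟩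
  have hmaps : ∀ σ : F ≃ₐ[ℚ] F, σ ∈ Finset.univ →
      fixedRoots f σ ∈ Finset.range (f.natDegree + 1) :=
    fun σ _ => Finset.mem_range.2 (Nat.lt_succ_of_le (by
      rw [← hf.natDegree_map (Int.castRingHom ℚ), fixedRoots]
      exact (Set.ncard_le_ncard (fun x hx => hx.1) (rootSet_finite _ _)).trans
        (ncard_rootSet_le _ _)))
  have h := sum_fixedRoots (L := F) hf hs
  rw [← Finset.sum_fiberwise_of_maps_to hmaps] at h
  have h' : ∑ k ∈ Finset.range (f.natDegree + 1),
      k * Nat.card {σ : F ≃ₐ[ℚ] F | fixedRoots f σ = k}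
      = {g : ℚ[X] | g.Monic ∧ Irreducible g ∧ g ∣ f.map (Int.castRingHom ℚ)}.ncard
        * Nat.card (F ≃ₐ[ℚ] F) := by
    rw [← h]
    refine Finset.sum_congr rfl fun k _ => ?_
    rw [Finset.sum_congr rfl fun σ hσ => (Finset.mem_filter.1 hσ).2, Finset.sum_const, smul_eq_mul,
      mul_comm, Set.coe_ofPred, Nat.card_eq_fintype_card, Fintype.card_subtype]
  have hpos : (Nat.card (F ≃ₐ[ℚ] F) : ℝ) ≠ 0 := Nat.cast_ne_zero.2 Nat.card_pos.ne'
  simp only [← mul_div_assoc]
  rw [← Finset.sum_div, div_eq_iff hpos]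
  exact_mod_cast h'

/-- An irreducible polynomial of degree `n ≥ 2` has no root modulo a set of primes of density at
least `1/n`. -/
theorem no_root_density_ge {f : ℤ[X]} (hf : f.Monic)
    (hirr : Irreducible (f.map (Int.castRingHom ℚ))) (hn : 2 ≤ f.natDegree) :
    ∃ δ : ℝ, 1 / (f.natDegree : ℝ) ≤ δ ∧
      {v : HeightOneSpectrum (𝓞 ℚ) | {x : ZMod (Ideal.absNorm v.asIdeal) |
        (f.map (Int.castRingHom _)).eval x = 0}.ncard = 0}.HasDirichletDensity δ := by
  set F := (f.map (Int.castRingHom ℚ)).SplittingField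
  have : IsSplittingField ℚ F (f.map (Int.castRingHom ℚ)) := by
    convert! IsSplittingField.splittingField (f.map (Int.castRingHom ℚ)) using 2
  have : FiniteDimensional ℚ F :=
    IsSplittingField.finiteDimensional F (f.map (Int.castRingHom ℚ))
  have : NumberField F := { }
  have : IsGalois ℚ F := IsGalois.of_separable_splitting_field hirr.separable
  have hs := IsSplittingField.splits F (f.map (Int.castRingHom ℚ))
  refine ⟨_, ?_, hasDirichletDensity_rootsMod hf hirr.separable hs 0⟩
  have h := card_le_mul_card_no_fixedRoot (L := F) hf hirr hs hn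
  have hpos : (0 : ℝ) < Nat.card (F ≃ₐ[ℚ] F) := Nat.cast_pos.2 Nat.card_pos
  rw [div_le_div_iff₀ (Nat.cast_pos.2 (by omega)) hpos, one_mul]
  calc (Nat.card (F ≃ₐ[ℚ] F) : ℝ)
      ≤ ((f.natDegree * Nat.card {σ : F ≃ₐ[ℚ] F | fixedRoots f σ = 0} : ℕ) : ℝ) :=
        Nat.cast_le.2 h
    _ = _ := by push_cast; ring

/-- The density for a splitting field with `n!` automorphisms. -/
lemma no_root_density_of_card {f : ℤ[X]} {L : Type} [Field L] [CharZero L] [alg : Algebra ℚ L]
    [IsSplittingField ℚ L (f.map (Int.castRingHom ℚ))] (hf : f.Monic)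
    (hsep : (f.map (Int.castRingHom ℚ)).Separable) (hG : Nat.card (L ≃ₐ[ℚ] L) = (f.natDegree !)) :
    {v : HeightOneSpectrum (𝓞 ℚ) | {x : ZMod (Ideal.absNorm v.asIdeal) |
      (f.map (Int.castRingHom _)).eval x = 0}.ncard = 0}.HasDirichletDensity
      ((numDerangements f.natDegree : ℝ) / (f.natDegree ! : ℕ)) := by
  obtain rfl : alg = DivisionRing.toRatAlgebra := Subsingleton.elim _ _
  have : FiniteDimensional ℚ L :=
    IsSplittingField.finiteDimensional L (f.map (Int.castRingHom ℚ))
  have : NumberField L := { }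
  have : IsGalois ℚ L := IsGalois.of_separable_splitting_field hsep
  have h := hasDirichletDensity_rootsMod hf hsep
    (IsSplittingField.splits L (f.map (Int.castRingHom ℚ))) 0
  rw [card_no_fixedRoot_symmetric hf hsep hG, hG] at h
  exact h

/-- With Galois group `Sₙ` the primes without root have density `Dₙ / n!`. -/
theorem no_root_density_symmetric {f : ℤ[X]} (hf : f.Monic)
    (hirr : Irreducible (f.map (Int.castRingHom ℚ)))
    (hG : Nonempty ((f.map (Int.castRingHom ℚ)).Gal ≃* Equiv.Perm (Fin f.natDegree))) :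
    {v : HeightOneSpectrum (𝓞 ℚ) | {x : ZMod (Ideal.absNorm v.asIdeal) |
      (f.map (Int.castRingHom _)).eval x = 0}.ncard = 0}.HasDirichletDensity
      ((numDerangements f.natDegree : ℝ) / (f.natDegree ! : ℕ)) := by
  obtain ⟨e⟩ := hG
  have hc : Nat.card (f.map (Int.castRingHom ℚ)).Gal = (f.natDegree !) := by
    rw [Nat.card_congr e.toEquiv, Nat.card_perm, Nat.card_fin]
  let : Algebra ℚ (f.map (Int.castRingHom ℚ)).SplittingField := SplittingField.instAlgebra_1 _
  have : IsSplittingField ℚ (f.map (Int.castRingHom ℚ)).SplittingField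
    (f.map (Int.castRingHom ℚ)) := IsSplittingField.splittingField _
  exact no_root_density_of_card (L := (f.map (Int.castRingHom ℚ)).SplittingField) hf
    hirr.separable hc

/-- For almost all monic integral polynomials of degree `n` the primes without root have density
`Dₙ / n!`. -/
theorem almost_all_no_root_density {n : ℕ} (hn : 1 ≤ n) :
    Tendsto (fun N : ℕ =>
      ({a : Fin n → ℤ | (∀ i, |a i| ≤ N) ∧
        {v : HeightOneSpectrum (𝓞 ℚ) | {x : ZMod (Ideal.absNorm v.asIdeal) |
          ((X ^ n + ∑ i, C (a i) * X ^ (i : ℕ)).map (Int.castRingHom _)).eval x = 0}.ncard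
            = 0}.HasDirichletDensity ((numDerangements n : ℝ) / (n ! : ℕ))}.ncard : ℝ)
        / (2 * N + 1) ^ n) atTop (𝓝 1) := by
  refine tendsto_of_tendsto_of_tendsto_of_le_of_le (vanDerWaerden_symmetric_galois hn)
    tendsto_const_nhds (fun N => ?_) (fun N => ?_)
  · refine div_le_div_of_nonneg_right (Nat.cast_le.2 (Set.ncard_le_ncard (fun a ha => ⟨ha.1, ?_⟩)
      ((Fermat.Agent.VanDerWaerden.box n N).finite_toSet.subset fun a ha =>
        Fermat.Agent.VanDerWaerden.mem_box.2 ha.1))) (by positivity)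
    obtain ⟨-, hirr, hG⟩ := ha
    rw [← monicOf_map_int_eq] at hirr hG
    have hd : (Fermat.Agent.VanDerWaerden.monicOf a).natDegree = n :=
      Fermat.Agent.VanDerWaerden.natDegree_monicOf a
    have h := no_root_density_symmetric (Fermat.Agent.VanDerWaerden.monicOf_monic a) hirr
      (by rw [hd]; exact hG)
    rw [hd] at h
    exact h
  · refine (div_le_one (by positivity)).2 ?_
    refine (Nat.cast_le.2 ((Set.ncard_le_ncard (fun a ha =>
      Fermat.Agent.VanDerWaerden.mem_box.2 ha.1) (Finset.finite_toSet _)).trans_eq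
        ((Set.ncard_coe_finset _).trans (Fermat.Agent.VanDerWaerden.card_box n N)))).trans_eq ?_
    push_cast
    ring

/-- `f` has roots modulo almost all primes iff every automorphism fixes a root. -/
theorem roots_mod_almost_all_iff {f : ℤ[X]} (hf : f.Monic)
    (hsep : (f.map (Int.castRingHom ℚ)).Separable) (L : Type) [Field L] [NumberField L]
    [IsGalois ℚ L] (hs : ((f.map (Int.castRingHom ℚ)).map (algebraMap ℚ L)).Splits) :
    {p : ℕ | p.Prime ∧ ∀ x : ZMod p, (f.map (Int.castRingHom (ZMod p))).eval x ≠ 0}.Finite ↔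
      ∀ σ : L ≃ₐ[ℚ] L, ∃ x ∈ (f.map (Int.castRingHom ℚ)).rootSet L, σ x = x := by
  rw [show {p : ℕ | p.Prime ∧ ∀ x : ZMod p, (f.map (Int.castRingHom (ZMod p))).eval x ≠ 0}
      = {p : ℕ | p.Prime ∧ rootsMod f p = 0} from ?_, finite_no_root_iff hf hsep hs]
  · refine forall_congr' fun σ => ?_
    rw [fixedRoots, ne_eq, Set.ncard_eq_zero ((rootSet_finite _ _).subset fun x hx => hx.1),
      ← Set.not_nonempty_iff_eq_empty, not_not]
    exact ⟨fun ⟨x, h1, h2⟩ => ⟨x, h1, h2⟩, fun ⟨x, h1, h2⟩ => ⟨x, h1, h2⟩⟩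
  · ext p
    refine and_congr_right fun hp => ?_
    have : Fact p.Prime := ⟨hp⟩
    rw [rootsMod, Set.ncard_eq_zero (Set.toFinite _), Set.eq_empty_iff_forall_notMem]
    rfl

/-- **An intersective polynomial**: a root modulo every positive integer, none rational. -/
theorem intersective_polynomial_example :
    (∀ m : ℕ, 0 < m → ∃ x : ℤ, (m : ℤ) ∣ (x ^ 2 - 2) * (x ^ 2 - 17) * (x ^ 2 - 34)) ∧
      ∀ x : ℚ, (x ^ 2 - 2) * (x ^ 2 - 17) * (x ^ 2 - 34) ≠ 0 :=
  ⟨fun _ hm => exists_root_mod hm, no_rat_root⟩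

end FA.Summary
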