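import Fermat.Agent.SelmerPolynomial.Galois
import Fermat.Agent.Root.SummaryReducibleModP
import Fermat.Agent.Root.SummaryRootsModP

/-!
# Osada's theorem on Selmer's polynomials

`X ^ n - X - 1` has Galois group `Sₙ` over `ℚ` for every `n ≥ 2` (Osada 1987): it is irreducible
(Selmer), every inertia group acts on its roots through at most one transposition, and by
Minkowski the inertia groups generate the Galois group. So this single explicit family realises
every symmetric group, and every finite group over some number field.
-/

set_option autoImplicit false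

noncomputable section

open Polynomial NumberField IsDedekindDomain Fermat.Agent.SelmerPolynomial
open scoped Polynomial Nat

namespace FA.Summary

/-- **Osada's theorem**: the Galois group of `X ^ n - X - 1` over `ℚ` is `Sₙ`. -/
theorem selmer_polynomial_galois_symmetric {n : ℕ} (hn : 2 ≤ n) :
    Irreducible (X ^ n - X - 1 : ℚ[X]) ∧
      Nonempty ((X ^ n - X - 1 : ℚ[X]).Gal ≃* Equiv.Perm (Fin n)) :=
  ⟨X_pow_sub_X_sub_one_irreducible_rat (by omega), nonempty_gal_selmer hn⟩

/-- `X ^ n - X - 1` is irreducible modulo a set of primes of density exactly `1/n`. -/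
theorem selmer_polynomial_irreducible_mod_density {n : ℕ} (hn : 2 ≤ n) :
    {v : HeightOneSpectrum (𝓞 ℚ) |
      Irreducible (X ^ n - X - 1 : (ZMod (Ideal.absNorm v.asIdeal))[X])}.HasDirichletDensity
      (1 / n : ℝ) := by
  have h := irreducible_mod_density_symmetric (selmer_monic hn) (irreducible_selmer hn) (by
    rw [natDegree_selmer hn, map_selmer]
    exact nonempty_gal_selmer hn)
  simp only [natDegree_selmer hn, map_selmer] at h
  exact h

/-- `X ^ n - X - 1` has no root modulo a set of primes of density exactly `Dₙ / n!`. -/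
theorem selmer_polynomial_no_root_density {n : ℕ} (hn : 2 ≤ n) :
    {v : HeightOneSpectrum (𝓞 ℚ) | {x : ZMod (Ideal.absNorm v.asIdeal) |
      x ^ n - x - 1 = 0}.ncard = 0}.HasDirichletDensity
      ((numDerangements n : ℝ) / (n ! : ℕ)) := by
  have h := no_root_density_symmetric (selmer_monic hn) (irreducible_selmer hn) (by
    rw [natDegree_selmer hn, map_selmer]
    exact nonempty_gal_selmer hn)
  simp only [natDegree_selmer hn, map_selmer, eval_sub, eval_pow, eval_X, eval_one] at h
  exact h

/-- For `n ≥ 5` no root of `X ^ n - X - 1` is expressible by radicals. -/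
theorem selmer_polynomial_not_solvable {n : ℕ} (hn : 5 ≤ n) :
    ¬ Group.IsSolvable (X ^ n - X - 1 : ℚ[X]).Gal ∧
      ∀ z : ℂ, z ^ n - z - 1 = 0 → z ∉ solvableByRad ℚ ℂ := by
  obtain ⟨hirr, ⟨e⟩⟩ := selmer_polynomial_galois_symmetric (n := n) (by omega)
  have hsol : ¬ Group.IsSolvable (X ^ n - X - 1 : ℚ[X]).Gal := fun h =>
    Equiv.Perm.not_isSolvable (Fin n) (by simpa using hn)
      (Group.isSolvable_of_surjective e.surjective (f := e.toMonoidHom))
  exact ⟨hsol, fun z hz hrad => hsol (isSolvable_gal_of_irreducible hrad hirr (by simpa using hz))⟩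

/-- Every finite group is the Galois group of the splitting field of some `X ^ n - X - 1` over one
of its subfields. -/
theorem finite_group_galois_selmer_polynomial (G : Type*) [Group G] [Finite G] :
    ∃ (n : ℕ) (E : IntermediateField ℚ (X ^ n - X - 1 : ℚ[X]).SplittingField), 2 ≤ n ∧
      Nonempty (((X ^ n - X - 1 : ℚ[X]).SplittingField ≃ₐ[E]
        (X ^ n - X - 1 : ℚ[X]).SplittingField) ≃* G) := by
  have := Fintype.ofFinite G
  set n := Fintype.card G + 1
  have hn : 2 ≤ n := Nat.succ_le_succ Fintype.card_pos
  obtain ⟨hirr, ⟨e⟩⟩ := selmer_polynomial_galois_symmetric hn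
  let ι : G →* Equiv.Perm (Fin n) :=
    (Equiv.Perm.viaEmbeddingHom Fin.castSuccEmb).comp
      ((Fintype.equivFin G).permCongrHom.toMonoidHom.comp (MulAction.toPermHom G G))
  have hι : Function.Injective ι := (Equiv.Perm.viaEmbeddingHom_injective _).comp
    ((Fintype.equivFin G).permCongrHom.injective.comp MulAction.toPerm_injective)
  set p := (X ^ n - X - 1 : ℚ[X])
  let e' : (p.SplittingField ≃ₐ[ℚ] p.SplittingField) ≃* Equiv.Perm (Fin n) := e
  have : IsSplittingField ℚ p.SplittingField p := by
    convert! IsSplittingField.splittingField p using 2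
  have : IsGalois ℚ p.SplittingField := IsGalois.of_separable_splitting_field hirr.separable
  set H : Subgroup (p.SplittingField ≃ₐ[ℚ] p.SplittingField) := ι.range.map e'.symm.toMonoidHom
  refine ⟨n, IntermediateField.fixedField H, hn, ⟨?_⟩⟩
  exact ((IntermediateField.fixingSubgroupEquiv _).symm.trans
    (MulEquiv.subgroupCongr (IntermediateField.fixingSubgroup_fixedField H))).trans
    ((e'.symm.subgroupMap ι.range).symm.trans (MonoidHom.ofInjective hι).symm)

end FA.Summary
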