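import Fermat.Agent.RealRadicals.CasusIrreducibilis
import Fermat.Agent.Root.SummarySelmerPolynomial

/-!
# The casus irreducibilis and the criterion for constructibility

`IsRealRadical` is the closure of `ℚ` in `ℝ` under field operations and real roots of every index;
`IsConstructible` is the same with square roots only.
-/

set_option autoImplicit false
set_option linter.style.haveILetI false

noncomputable section

namespace FA.Summary

open Polynomial FA.LemniscateDivision FA.RealRadicals

/-- **Constructibility**: a complex number is constructible exactly if it is algebraic and the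
Galois group of its minimal polynomial is a `2`-group. -/
theorem constructible_iff_galois_two_group {z : ℂ} :
    IsConstructible z.re ∧ IsConstructible z.im ↔
      IsIntegral ℚ z ∧ ∃ k, Nat.card (minpoly ℚ z).Gal = 2 ^ k :=
  mem_constructibleField_iff_gal

/-- **Hölder's theorem**: an algebraic number all of whose conjugates are real is expressible by
real radicals exactly if it is constructible, exactly if the Galois group of its minimal polynomial
is a `2`-group. -/
theorem hoelder_real_radicals {x : ℝ} (hx : IsIntegral ℚ (x : ℂ))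
    (hreal : ∀ r : ℂ, aeval r (minpoly ℚ (x : ℂ)) = 0 → r.im = 0) :
    (IsRealRadical x ↔ IsConstructible x) ∧
      (IsRealRadical x ↔ ∃ k, Nat.card (minpoly ℚ (x : ℂ)).Gal = 2 ^ k) := by
  have h := isRealRadical_iff_isConstructible ((isTotallyReal_iff hx).2 hreal)
  refine ⟨h, ?_⟩
  rw [h, ← ofReal_mem_constructibleField, mem_constructibleField_iff_gal]
  exact and_iff_right hx

/-- **Casus irreducibilis**: a rational cubic with three real roots and no rational one has no
root expressible by real radicals. -/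
theorem casus_irreducibilis {P : ℚ[X]} (hdeg : P.natDegree = 3) (hrat : ∀ q : ℚ, P.eval q ≠ 0)
    (hreal : ∀ r : ℂ, aeval r P = 0 → r.im = 0) {x : ℝ} (hx : aeval x P = 0) :
    ¬ IsRealRadical x := by
  have hne : P ≠ 0 := fun e => by simp [e] at hdeg
  have hirr : Irreducible P :=
    (irreducible_iff_roots_eq_zero_of_degree_le_three (by omega) (by omega)).2
      (Multiset.eq_zero_of_forall_notMem fun q hq => hrat q (mem_roots'.1 hq).2)
  have hxc : aeval (x : ℂ) P = 0 := by
    rw [← Complex.coe_algebraMap, aeval_algebraMap_apply, hx, map_zero]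
  have hint : IsIntegral ℚ (x : ℂ) :=
    IsAlgebraic.isIntegral (show IsAlgebraic ℚ (x : ℂ) from ⟨P, hne, hxc⟩)
  have hmin := minpoly.eq_of_irreducible hirr hxc
  intro h
  have htr : IsTotallyReal (x : ℂ) := (isTotallyReal_iff hint).2 fun r hr => hreal r (by
    rw [← hmin, map_mul, aeval_C] at hr
    exact (mul_eq_zero.1 hr).resolve_right
      ((_root_.map_ne_zero _).2 (inv_ne_zero (leadingCoeff_ne_zero.2 hne))))
  obtain ⟨k, hk⟩ := natDegree_minpoly_dvd_two_pow
    (ofReal_mem_constructibleField.2 ((isRealRadical_iff_isConstructible htr).1 h))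
  rw [← hmin, natDegree_mul_C (inv_ne_zero (leadingCoeff_ne_zero.2 hne)), hdeg] at hk
  exact absurd (Nat.prime_three.dvd_of_dvd_pow hk) (by norm_num)

/-- **The cyclotomic case**: `cos (2π/n)` is expressible by real radicals exactly if `n` is a power
of two times a product of distinct Fermat primes. -/
theorem cos_isRealRadical_iff {n : ℕ} (hn : 0 < n) :
    IsRealRadical (Real.cos (2 * Real.pi / n)) ↔
      ∃ k : ℕ, ∃ S : Finset ℕ, (∀ p ∈ S, p.Prime ∧ ∃ m, p = 2 ^ 2 ^ m + 1) ∧
        n = 2 ^ k * ∏ p ∈ S, p := by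
  set c : ℝ := 2 * Real.pi / n
  have hζ : Complex.exp ((c : ℂ) * Complex.I) ^ n = 1 := by
    rw [← Complex.exp_nat_mul, show (n : ℂ) * ((c : ℂ) * Complex.I) = 2 * Real.pi * Complex.I by
      have hn' : (n : ℂ) ≠ 0 := Nat.cast_ne_zero.2 hn.ne'
      simp only [c]
      push_cast
      field_simp, Complex.exp_two_pi_mul_I]
  have htr : IsTotallyReal (Real.cos c : ℂ) := fun σ => by
    set w := σ (Complex.exp ((c : ℂ) * Complex.I))
    have hw : w ^ n = 1 := by rw [← map_pow, hζ, map_one]
    have e : (Real.cos c : ℂ) =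
        (Complex.exp ((c : ℂ) * Complex.I) + (Complex.exp ((c : ℂ) * Complex.I))⁻¹) / 2 := by
      rw [Complex.ofReal_cos, Complex.cos, ← Complex.exp_neg, neg_mul]
    rw [e, map_div₀, map_add, map_inv₀, map_ofNat,
      Complex.inv_eq_conj (Complex.norm_eq_one_of_pow_eq_one hw hn.ne'), Complex.add_conj]
    simp
  rw [isRealRadical_iff_isConstructible htr]
  exact isConstructible_cos_iff hn

/-- Neither `cos 20°` nor `cos (2π/7)` is expressible by real radicals. -/
theorem cos_nine_seven_not_isRealRadical :
    ¬ IsRealRadical (Real.cos (Real.pi / 9)) ∧ ¬ IsRealRadical (Real.cos (2 * Real.pi / 7)) := by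
  have key : ∀ {n : ℕ}, 0 < n → (¬ ∃ k, n.totient = 2 ^ k) →
      ¬ IsRealRadical (Real.cos (2 * Real.pi / n)) := fun hn h hr =>
    h (isFermatProduct_iff.1 ((cos_isRealRadical_iff hn).1 hr))
  have h6 : ∀ k : ℕ, 6 ≠ 2 ^ k := fun k e => by
    have : 3 ∣ 2 ^ k := e ▸ (by norm_num : 3 ∣ 6)
    exact absurd (Nat.prime_three.dvd_of_dvd_pow this) (by norm_num)
  refine ⟨?_, ?_⟩
  · have := key (n := 18) (by norm_num) fun ⟨k, hk⟩ => h6 k (by rw [← hk]; decide)
    rwa [show (2 * Real.pi / ((18 : ℕ) : ℝ)) = Real.pi / 9 by push_cast; ring] at this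
  · simpa using key (n := 7) (by norm_num) fun ⟨k, hk⟩ => h6 k (by rw [← hk]; decide)

/-- **Wantzel**: the cube root of two is not constructible, no construction trisects every angle,
and there are numbers of degree four that are not constructible. -/
theorem wantzel_impossibilities :
    (∀ x : ℝ, x ^ 3 = 2 → ¬ IsConstructible x) ∧
    (IsConstructible (Real.cos (Real.pi / 3)) ∧ ¬ IsConstructible (Real.cos (Real.pi / 3 / 3))) ∧
    ∀ z : ℂ, z ^ 4 - z - 1 = 0 → ¬ (IsConstructible z.re ∧ IsConstructible z.im) := by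
  refine ⟨fun x hx h => ?_, ⟨?_, fun h => ?_⟩, fun z hz h => ?_⟩
  · obtain ⟨k, hk⟩ := natDegree_minpoly_dvd_two_pow (ofReal_mem_constructibleField.2 h)
    have hirr : Irreducible (X ^ 3 - C 2 : ℚ[X]) :=
      X_pow_sub_C_irreducible_of_prime Nat.prime_three fun b hb => by
        have h1 : padicValRat 2 (b ^ 3) = 1 := by
          rw [hb, show (2 : ℚ) = ((2 : ℕ) : ℚ) by norm_num, padicValRat.of_nat, padicValNat_self]
          norm_num
        rw [padicValRat.pow (p := 2) (q := b) (k := 3)] at h1
        omega
    have hroot : aeval (x : ℂ) (X ^ 3 - C 2 : ℚ[X]) = 0 := by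
      simp [← Complex.ofReal_pow, hx]
    rw [← minpoly.eq_of_irreducible_of_monic hirr hroot (monic_X_pow_sub_C _ three_ne_zero),
      natDegree_X_pow_sub_C] at hk
    exact absurd (Nat.prime_three.dvd_of_dvd_pow hk) (by norm_num)
  · rw [Real.cos_pi_div_three]
    simpa using IsConstructible.rat (1 / 2)
  · rw [show Real.pi / 3 / 3 = Real.pi / 9 by ring] at h
    exact cos_nine_seven_not_isRealRadical.1 (isRealRadical_of_isConstructible h)
  · obtain ⟨-, k, hk⟩ := constructible_iff_galois_two_group.1 h
    obtain ⟨hirr, ⟨e⟩⟩ := selmer_polynomial_galois_symmetric (n := 4) (by norm_num)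
    have hroot : aeval z (X ^ 4 - X - 1 : ℚ[X]) = 0 := by simpa using hz
    have hmon : (X ^ 4 - X - 1 : ℚ[X]).Monic := by monicity!
    rw [← minpoly.eq_of_irreducible_of_monic hirr hroot hmon, Nat.card_congr e.toEquiv,
      Nat.card_perm, Nat.card_fin] at hk
    have : 3 ∣ 2 ^ k := hk ▸ (by decide : 3 ∣ Nat.factorial 4)
    exact absurd (Nat.prime_three.dvd_of_dvd_pow this) (by norm_num)

end FA.Summary

end
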