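import Fermat.Agent.Catalan.MihailescuMain
import Fermat.Agent.Root.SummaryCassels

/-!
# Mihăilescu's double Wieferich theorem and Catalan's equation for small exponents

* `mihailescu_double_wieferich`: `x^p - y^q = 1`, `p`, `q` odd primes, `x y ≠ 0`: then `p² ∣ y`, `q² ∣ x`,
  `p^(q-1) ≡ 1 (mod q²)` and `q^(p-1) ≡ 1 (mod p²)`.
* `catalan_lt_500`: Catalan's conjecture for all exponents below `500`.

Classical: Cassels' theorem and Stickelberger's relation; no modularity.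
-/

set_option autoImplicit false

namespace FA.Summary

/-- **Mihăilescu's theorem** (1999). -/
theorem mihailescu_double_wieferich {p q : ℕ} (hp : p.Prime) (hq : q.Prime) (hp2 : Odd p) (hq2 : Odd q)
    {x y : ℤ} (hx : x ≠ 0) (hy : y ≠ 0) (h : x ^ p - y ^ q = 1) :
    (p : ℤ) ^ 2 ∣ y ∧ (q : ℤ) ^ 2 ∣ x ∧ (p : ZMod (q ^ 2)) ^ (q - 1) = 1 ∧
      (q : ZMod (p ^ 2)) ^ (p - 1) = 1 := by
  obtain ⟨h1, h2⟩ := FA.Catalan.mihailescu_side hp hq hp2 hq2 hx hy h
  obtain ⟨h3, h4⟩ := FA.Catalan.mihailescu_side hq hp hq2 hp2 (neg_ne_zero.mpr hy) (neg_ne_zero.mpr hx)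
    (FA.Catalan.catalan_symm hp2 hq2 h)
  exact ⟨dvd_neg.mp h3, h1, h2, h4⟩

/-- The odd primes below `500`. -/
def catalanPrimes : List ℕ :=
  [3, 5, 7, 11, 13, 17, 19, 23, 29, 31, 37, 41, 43, 47, 53, 59, 61, 67, 71, 73, 79, 83, 89, 97, 101, 103,
    107, 109, 113, 127, 131, 137, 139, 149, 151, 157, 163, 167, 173, 179, 181, 191, 193, 197, 199, 211,
    223, 227, 229, 233, 239, 241, 251, 257, 263, 269, 271, 277, 281, 283, 293, 307, 311, 313, 317, 331,
    337, 347, 349, 353, 359, 367, 373, 379, 383, 389, 397, 401, 409, 419, 421, 431, 433, 439, 443, 449,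
    457, 461, 463, 467, 479, 487, 491, 499]

theorem mem_catalanPrimes {p : ℕ} (hp : p.Prime) (hodd : Odd p) (h : p < 500) : p ∈ catalanPrimes := by
  have key : (List.range 500).all (fun n => (n % 2 == 0) || decide (n < 3) || catalanPrimes.contains n ||
      (List.range 23).any fun d => decide (2 ≤ d) && decide (d < n) && (n % d == 0)) = true := by decide +kernel
  simp only [List.all_eq_true, List.mem_range, Bool.or_eq_true, beq_iff_eq, decide_eq_true_eq,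
    List.contains_iff_mem, List.any_eq_true, Bool.and_eq_true] at key
  rw [Nat.odd_iff] at hodd
  rcases key p h with ((h1 | h1) | h1) | ⟨d, -, ⟨hd2, hdp⟩, hd⟩
  · omega
  · have := hp.two_le; omega
  · exact h1
  · rcases (Nat.dvd_prime hp).mp (Nat.dvd_of_mod_eq_zero hd) with e | e <;> omega

/-- No double Wieferich pair of odd primes below `500`. -/
theorem no_double_wieferich_pair_lt_500 {p q : ℕ} (hp : p.Prime) (hq : q.Prime) (hp2 : Odd p) (hq2 : Odd q)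
    (hpl : p < 500) (hql : q < 500) (hne : p ≠ q) :
    ¬ ((p : ZMod (q ^ 2)) ^ (q - 1) = 1 ∧ (q : ZMod (p ^ 2)) ^ (p - 1) = 1) := by
  have key : catalanPrimes.all (fun p => catalanPrimes.all fun q =>
      (p == q) || !(p ^ (q - 1) % (q * q) == 1 && q ^ (p - 1) % (p * p) == 1)) = true := by decide +kernel
  rintro ⟨h1, h2⟩
  have hconv : ∀ {u v : ℕ}, 2 ≤ v → (u : ZMod (v ^ 2)) ^ (v - 1) = 1 → u ^ (v - 1) % (v * v) = 1 := by
    intro u v hv e
    have e' : ((u ^ (v - 1) : ℕ) : ZMod (v ^ 2)) = ((1 : ℕ) : ZMod (v ^ 2)) := by push_cast; exact e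
    rw [ZMod.natCast_eq_natCast_iff'] at e'
    rw [← sq, e', Nat.one_mod_eq_one, sq]
    exact fun e2 => by have := Nat.eq_one_of_mul_eq_one_left e2; omega
  simp only [List.all_eq_true, Bool.or_eq_true, beq_iff_eq, Bool.not_eq_true', Bool.and_eq_false_iff,
    beq_eq_false_iff_ne] at key
  rcases key p (mem_catalanPrimes hp hp2 hpl) q (mem_catalanPrimes hq hq2 hql) with e | e | e
  · exact hne e
  · exact e (hconv hq.two_le h1)
  · exact e (hconv hp.two_le h2)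

/-- Catalan's conjecture when both exponents have a prime factor below `500`. -/
theorem catalan_primeFactor_lt_500 {m n x y : ℕ} (hm : 2 ≤ m) (hn : 2 ≤ n) (hx : 0 < x) (hy : 0 < y)
    (hm' : ∃ p, p.Prime ∧ p ∣ m ∧ p < 500) (hn' : ∃ q, q.Prime ∧ q ∣ n ∧ q < 500) :
    x ^ m = y ^ n + 1 ↔ x = 3 ∧ m = 2 ∧ y = 2 ∧ n = 3 := by
  by_cases heven : Even m ∨ Even n
  · exact catalan_even hm hn hx hy heven
  push Not at heven
  simp only [Nat.not_even_iff_odd] at heven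
  refine ⟨fun h => ?_, fun ⟨h1, h2, h3, h4⟩ => by subst h1 h2 h3 h4; norm_num⟩
  exfalso
  obtain ⟨p, hp, ⟨m', rfl⟩, hpl⟩ := hm'
  obtain ⟨q, hq, ⟨n', rfl⟩, hql⟩ := hn'
  simp only [Nat.odd_mul] at heven
  rw [mul_comm p, mul_comm q, pow_mul, pow_mul] at h
  have e : ((x ^ m' : ℕ) : ℤ) ^ p - ((y ^ n' : ℕ) : ℤ) ^ q = 1 := by
    rw [← Nat.cast_pow, ← Nat.cast_pow, h]; push_cast; ring
  have hx' : ((x ^ m' : ℕ) : ℤ) ≠ 0 := Int.natCast_ne_zero.mpr (pow_pos hx m').ne'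
  have hy' : ((y ^ n' : ℕ) : ℤ) ≠ 0 := Int.natCast_ne_zero.mpr (pow_pos hy n').ne'
  have hne : p ≠ q := fun e' => by
    subst e'
    exact FA.Catalan.ne_of_pow_sub_pow_eq_one hp.two_le heven.1.1 hx' hy' e
  obtain ⟨-, -, h1, h2⟩ := mihailescu_double_wieferich hp hq heven.1.1 heven.2.1 hx' hy' e
  exact no_double_wieferich_pair_lt_500 hp hq heven.1.1 heven.2.1 hpl hql hne ⟨h1, h2⟩

/-- **Catalan's conjecture for all exponents below `500`.** -/
theorem catalan_lt_500 {m n x y : ℕ} (hm : 2 ≤ m) (hn : 2 ≤ n) (hm500 : m < 500) (hn500 : n < 500) (hx : 0 < x)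
    (hy : 0 < y) : x ^ m = y ^ n + 1 ↔ x = 3 ∧ m = 2 ∧ y = 2 ∧ n = 3 := by
  obtain ⟨p, hp, hpm⟩ := Nat.exists_prime_and_dvd (show m ≠ 1 by omega)
  obtain ⟨q, hq, hqn⟩ := Nat.exists_prime_and_dvd (show n ≠ 1 by omega)
  exact catalan_primeFactor_lt_500 hm hn hx hy
    ⟨p, hp, hpm, (Nat.le_of_dvd (by omega) hpm).trans_lt hm500⟩
    ⟨q, hq, hqn, (Nat.le_of_dvd (by omega) hqn).trans_lt hn500⟩

end FA.Summary
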