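import Fermat.Agent.Catalan.MinusBound
import Fermat.Agent.Root.SummaryMihailescu

/-!
# Mihăilescu's bound for the exponents of Catalan's equation

* `catalan_exponent_bound`: `x^p - y^q = 1`, `p`, `q ≥ 5` prime, `x y ≠ 0`: if `q ≥ 500` then `q ≤ 4 p²`.
* `catalan_not_dvd_sub_one`: `q ∤ p - 1` and `p ∤ q - 1`.

Classical: Stickelberger's relation and `B_(1,χ) ≠ 0`; no modularity.
-/

set_option autoImplicit false

namespace FA.Summary

/-- **Mihăilescu's bound.** -/
theorem catalan_exponent_bound {p q : ℕ} (hp : p.Prime) (hq : q.Prime) (hp5 : 5 ≤ p) (hq500 : 500 ≤ q) {x y : ℤ}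
    (hx : x ≠ 0) (hy : y ≠ 0) (h : x ^ p - y ^ q = 1) : q ≤ 4 * p ^ 2 :=
  FA.Catalan.le_four_mul_sq hp hq hp5 hq500 hx hy h

/-- **`p ≢ 1 (mod q)` and `q ≢ 1 (mod p)`.** -/
theorem catalan_not_dvd_sub_one {p q : ℕ} (hp : p.Prime) (hq : q.Prime) (hp5 : 5 ≤ p) (hq5 : 5 ≤ q) {x y : ℤ}
    (hx : x ≠ 0) (hy : y ≠ 0) (h : x ^ p - y ^ q = 1) : ¬ q ∣ p - 1 ∧ ¬ p ∣ q - 1 := by
  have main : ∀ {p q : ℕ}, p.Prime → q.Prime → 5 ≤ p → 5 ≤ q → ∀ {x y : ℤ}, x ≠ 0 → y ≠ 0 →
      x ^ p - y ^ q = 1 → ¬ q ∣ p - 1 := by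
    intro p q hp hq hp5 hq5 x y hx hy h hdvd
    have hp2 : Odd p := hp.odd_of_ne_two (by omega)
    have hq2 : Odd q := hq.odd_of_ne_two (by omega)
    obtain ⟨-, -, hpW, hqW⟩ := mihailescu_double_wieferich hp hq hp2 hq2 hx hy h
    obtain ⟨k, hk⟩ := hdvd
    have hpe : p = q * k + 1 := by omega
    -- `q ∣ k`
    have hqk : q ∣ k := by
      obtain ⟨r, hr⟩ : ∃ r : ℕ, (q * k + 1) ^ (q - 1) = 1 + (q - 1) * (q * k) + (q * k) ^ 2 * r := by
        generalize q - 1 = n
        induction n with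
        | zero => exact ⟨0, by simp⟩
        | succ n ih =>
          obtain ⟨r, hr⟩ := ih
          exact ⟨n + r + q * k * r, by rw [pow_succ, hr]; ring⟩
      have e : ((q * k + 1 : ℕ) : ZMod (q ^ 2)) ^ (q - 1) = 1 := hpe ▸ hpW
      rw [← Nat.cast_pow, hr] at e
      have hq0 : ((q : ZMod (q ^ 2))) ^ 2 = 0 := by rw [← Nat.cast_pow, ZMod.natCast_self]
      push_cast at e
      have e' : (((q - 1) * (q * k) : ℕ) : ZMod (q ^ 2)) = 0 := by
        push_cast
        linear_combination e - ((k : ZMod (q ^ 2)) ^ 2 * r) * hq0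
      rw [ZMod.natCast_eq_zero_iff, sq, mul_left_comm] at e'
      rcases (Nat.Prime.dvd_mul hq).mp ((Nat.mul_dvd_mul_iff_left hq.pos).mp e') with e1 | e1
      · have := Nat.le_of_dvd (by omega) e1
        omega
      · exact e1
    obtain ⟨j, rfl⟩ := hqk
    have hj : j % 2 = 0 := by
      rcases Nat.mod_two_eq_zero_or_one j with e | e
      · exact e
      · exfalso
        rw [Nat.odd_iff] at hp2 hq2
        rw [hpe] at hp2
        simp [Nat.add_mod, Nat.mul_mod, hq2, e] at hp2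
    have hj4 : 4 ≤ j := by
      by_contra hlt
      rcases (show j = 0 ∨ j = 2 by omega) with rfl | rfl
      · omega
      · have h3 : 3 ∣ p := by
          have hq3 : q % 3 = 1 ∨ q % 3 = 2 := by
            have : ¬ 3 ∣ q := fun e => by
              have := (Nat.prime_dvd_prime_iff_eq Nat.prime_three hq).mp e
              omega
            omega
          rw [hpe, Nat.dvd_iff_mod_eq_zero]
          rcases hq3 with e | e <;> simp [Nat.add_mod, Nat.mul_mod, e]
        have := (Nat.prime_dvd_prime_iff_eq Nat.prime_three hp).mp h3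
        omega
    have hbig : 4 * q ^ 2 < p := by nlinarith
    have hp500 : 500 ≤ p := by
      by_contra hlt
      exact no_double_wieferich_pair_lt_500 hp hq hp2 hq2 (by omega) (by nlinarith) (by nlinarith) ⟨hpW, hqW⟩
    have := catalan_exponent_bound hq hp hq5 hp500 (neg_ne_zero.mpr hy) (neg_ne_zero.mpr hx)
      (FA.Catalan.catalan_symm hp2 hq2 h)
    omega
  exact ⟨main hp hq hp5 hq5 hx hy h, main hq hp hq5 hp5 (neg_ne_zero.mpr hy) (neg_ne_zero.mpr hx)
    (FA.Catalan.catalan_symm (hp.odd_of_ne_two (by omega)) (hq.odd_of_ne_two (by omega)) h)⟩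

end FA.Summary
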