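import Fermat.Agent.Catalan.Nagell
import Fermat.Agent.Root.SummaryCatalanEven

/-!
# Catalan's equation with an exponent divisible by three

* `nagell_equation`: `x² + x + 1 = 3 y^n` only for `x = 1, -2`, if `n` has a prime factor `≥ 5` (Nagell 1921).
* `catalan_three`: `x^m = y^n + 1` only `3² = 2³ + 1` when `3` divides `m` or `n`.
* `catalan_reduction`: what remains of Catalan's conjecture are two distinct prime exponents `≥ 5`.
-/

set_option autoImplicit false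

namespace FA.Summary

open FA.Catalan

/-- **Nagell's equation.** -/
theorem nagell_equation {n : ℕ} (hn : ∃ p, p.Prime ∧ 5 ≤ p ∧ p ∣ n) {x y : ℤ}
    (h : x ^ 2 + x + 1 = 3 * y ^ n) : x = 1 ∨ x = -2 := by
  obtain ⟨p, hp, hp5, m, rfl⟩ := hn
  rw [mul_comm p, pow_mul] at h
  exact nagell hp hp5 h

/-- A solution with odd exponents gives one with distinct prime exponents `≥ 5`. -/
theorem catalan_reduce_odd {m n x y : ℕ} (hm : 2 ≤ m) (hn : 2 ≤ n) (hmo : Odd m) (hno : Odd n)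
    (hx : 0 < x) (hy : 0 < y) (h : x ^ m = y ^ n + 1) {p q : ℕ} (hp : p.Prime) (hq : q.Prime) (hpm : p ∣ m)
    (hqn : q ∣ n) : 5 ≤ p ∧ 5 ≤ q ∧ p ≠ q ∧
      ∃ X Y : ℤ, X ≠ 0 ∧ Y ≠ 0 ∧ X ^ p - Y ^ q = 1 := by
  obtain ⟨m', rfl⟩ := hpm
  obtain ⟨n', rfl⟩ := hqn
  rw [mul_comm p, mul_comm q, pow_mul, pow_mul] at h
  have e : ((x ^ m' : ℕ) : ℤ) ^ p - ((y ^ n' : ℕ) : ℤ) ^ q = 1 := by
    rw [← Nat.cast_pow, ← Nat.cast_pow, h]; push_cast; ring
  have hx' : ((x ^ m' : ℕ) : ℤ) ≠ 0 := Int.natCast_ne_zero.mpr (pow_pos hx m').ne'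
  have hy' : ((y ^ n' : ℕ) : ℤ) ≠ 0 := Int.natCast_ne_zero.mpr (pow_pos hy n').ne'
  have hp2 := (Nat.odd_mul.mp hmo).1
  have hq2 := (Nat.odd_mul.mp hno).1
  have hne : p ≠ q := fun e' => by
    subst e'
    exact ne_of_pow_sub_pow_eq_one hp.two_le hp2 hx' hy' e
  have h5 : ∀ {r : ℕ}, r.Prime → Odd r → r = 3 ∨ 5 ≤ r := fun {r} hr ho => by
    have := hr.two_le
    rw [Nat.odd_iff] at ho
    omega
  rcases h5 hp hp2 with rfl | hp5
  · rcases h5 hq hq2 with rfl | hq5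
    · exact absurd rfl hne
    · exact absurd e (cube_sub_pow_ne_one hq hq5 hy' hx')
  · rcases h5 hq hq2 with rfl | hq5
    · exact absurd (catalan_symm hp2 hq2 e) (cube_sub_pow_ne_one hp hp5 (neg_ne_zero.mpr hx') (neg_ne_zero.mpr hy'))
    · exact ⟨hp5, hq5, hne, _, _, hx', hy', e⟩

/-- **Catalan's conjecture when an exponent is divisible by three.** -/
theorem catalan_three {m n x y : ℕ} (hm : 2 ≤ m) (hn : 2 ≤ n) (hx : 0 < x) (hy : 0 < y)
    (h3 : 3 ∣ m ∨ 3 ∣ n) : x ^ m = y ^ n + 1 ↔ x = 3 ∧ m = 2 ∧ y = 2 ∧ n = 3 := by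
  by_cases heven : Even m ∨ Even n
  · exact catalan_even hm hn hx hy heven
  push Not at heven
  simp only [Nat.not_even_iff_odd] at heven
  refine ⟨fun h => ?_, fun ⟨h1, h2, h4, h5⟩ => by subst h1 h2 h4 h5; norm_num⟩
  exfalso
  rcases h3 with h3 | h3
  · obtain ⟨q, hq, hqn⟩ := Nat.exists_prime_and_dvd (show n ≠ 1 by omega)
    have := (catalan_reduce_odd hm hn heven.1 heven.2 hx hy h Nat.prime_three hq h3 hqn).1
    omega
  · obtain ⟨p, hp, hpm⟩ := Nat.exists_prime_and_dvd (show m ≠ 1 by omega)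
    have := (catalan_reduce_odd hm hn heven.1 heven.2 hx hy h hp Nat.prime_three hpm h3).2.1
    omega

/-- **The remaining case** of Catalan's conjecture. -/
theorem catalan_reduction {m n x y : ℕ} (hm : 2 ≤ m) (hn : 2 ≤ n) (hx : 0 < x) (hy : 0 < y)
    (h : x ^ m = y ^ n + 1) : (x = 3 ∧ m = 2 ∧ y = 2 ∧ n = 3) ∨
      ∃ p q : ℕ, p.Prime ∧ q.Prime ∧ 5 ≤ p ∧ 5 ≤ q ∧ p ≠ q ∧ p ∣ m ∧ q ∣ n ∧
        ∃ X Y : ℤ, X ≠ 0 ∧ Y ≠ 0 ∧ X ^ p - Y ^ q = 1 := by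
  by_cases heven : Even m ∨ Even n
  · exact Or.inl ((catalan_even hm hn hx hy heven).mp h)
  push Not at heven
  simp only [Nat.not_even_iff_odd] at heven
  obtain ⟨p, hp, hpm⟩ := Nat.exists_prime_and_dvd (show m ≠ 1 by omega)
  obtain ⟨q, hq, hqn⟩ := Nat.exists_prime_and_dvd (show n ≠ 1 by omega)
  obtain ⟨hp5, hq5, hne, hex⟩ := catalan_reduce_odd hm hn heven.1 heven.2 hx hy h hp hq hpm hqn
  exact Or.inr ⟨p, q, hp, hq, hp5, hq5, hne, hpm, hqn, hex⟩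

end FA.Summary
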