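import Fermat.Agent.Catalan.CatalanSize
import Fermat.Agent.Catalan.PlusPart
import Fermat.Agent.Root.SummaryCatalanThree
import Fermat.Agent.Root.SummaryCatalanBound

/-!
# Mihăilescu's theorem: Catalan's conjecture

* `catalan_prime_exponents`: `x^p - y^q = 1` has no solution in nonzero integers for primes `p`, `q ≥ 5`.
* `catalan_mihailescu`: `x^m = y^n + 1` with `m`, `n ≥ 2` and `x`, `y > 0` only for `3² = 2³ + 1`.

Classical: the minus argument with Stickelberger's relation, the plus argument with Thaine's theorem and Runge's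
method. No modularity.
-/

set_option autoImplicit false

open FA.Catalan

namespace FA.Summary

set_option backward.isDefEq.respectTransparency false in
/-- The plus argument on a solution: `p ≤ q`. -/
theorem catalan_le_exponent {p q : ℕ} (hp : p.Prime) (hq : q.Prime) (hp5 : 5 ≤ p) (hq5 : 5 ≤ q) {x y : ℤ}
    (hx : x ≠ 0) (hy : y ≠ 0) (h : x ^ p - y ^ q = 1) : p ≤ q := by
  have := Fact.mk hp
  have := Fact.mk hq
  have hp2 : Odd p := hp.odd_of_ne_two (by omega)
  have hq2 : Odd q := hq.odd_of_ne_two (by omega)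
  have hne : q ≠ p := fun e => ne_of_pow_sub_pow_eq_one hp.two_le hp2 hx hy (e ▸ h)
  obtain ⟨hqp, hpq⟩ := catalan_not_dvd_sub_one hp hq hp5 hq5 hx hy h
  obtain ⟨hqx, -⟩ := mihailescu_side hp hq hp2 hq2 hx hy h
  have hbig := pow_two_mul_le_abs hp hq hp5 hq5 hpq hx hy h
  obtain ⟨a, v, -, ha, hyv, -⟩ := exists_pow_of_dvd hp hp2 hq2 h (cassels_dvd hp hq hp2 hq2 hx hy h)
  have hq1 : 1 ≤ q := hq.one_le
  have hx1 : (p : ℤ) ∣ x - 1 := ha ▸ (dvd_pow_self (p : ℤ) (by omega)).mul_right _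
  have hΦ : ∑ i ∈ Finset.range p, x ^ i = (p : ℤ) * v ^ q := by
    have hxne : x - 1 ≠ 0 := fun e => by
      obtain rfl : x = 1 := by linear_combination e
      rw [one_pow] at h
      exact hy ((pow_eq_zero_iff hq.ne_zero).mp (by linear_combination -h))
    refine mul_right_cancel₀ hxne ?_
    rw [geom_sum_mul, show x ^ p - 1 = y ^ q by linear_combination h, hyv, ha, mul_pow, mul_pow,
      ← Nat.sub_add_cancel hq1, pow_succ (p : ℤ), Nat.add_sub_cancel]
    ring
  obtain ⟨N, hN⟩ := hp2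
  let L := CyclotomicField p ℚ
  have : IsCyclotomicExtension {p} ℚ L :=
    inferInstanceAs (IsCyclotomicExtension {p} ℚ (CyclotomicField p ℚ))
  have : NumberField L := IsCyclotomicExtension.numberField {p} ℚ L
  exact le_of_primary (K := L) hne (one_add_zeta_primary p L (N := N) (by omega) (by omega) hq5 hne
    (fun e => hqp ((ZMod.natCast_eq_zero_iff _ _).mp e)) hx1 hqx hbig hΦ)

/-- **Catalan's equation with prime exponents `≥ 5`.** -/
theorem catalan_prime_exponents {p q : ℕ} (hp : p.Prime) (hq : q.Prime) (hp5 : 5 ≤ p) (hq5 : 5 ≤ q) {x y : ℤ}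
    (hx : x ≠ 0) (hy : y ≠ 0) : x ^ p - y ^ q ≠ 1 := fun h => by
  have h1 := catalan_le_exponent hp hq hp5 hq5 hx hy h
  have h2 := catalan_le_exponent hq hp hq5 hp5 (neg_ne_zero.mpr hy) (neg_ne_zero.mpr hx)
    (catalan_symm (hp.odd_of_ne_two (by omega)) (hq.odd_of_ne_two (by omega)) h)
  obtain rfl : p = q := le_antisymm h1 h2
  exact ne_of_pow_sub_pow_eq_one hp.two_le (hp.odd_of_ne_two (by omega)) hx hy h

/-- **Mihăilescu's theorem** (Catalan's conjecture). -/
theorem catalan_mihailescu {m n x y : ℕ} (hm : 2 ≤ m) (hn : 2 ≤ n) (hx : 0 < x) (hy : 0 < y) :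
    x ^ m = y ^ n + 1 ↔ x = 3 ∧ m = 2 ∧ y = 2 ∧ n = 3 := by
  refine ⟨fun h => ?_, fun ⟨h1, h2, h3, h4⟩ => by subst h1 h2 h3 h4; norm_num⟩
  rcases catalan_reduction hm hn hx hy h with h1 | ⟨p, q, hp, hq, hp5, hq5, -, -, -, X, Y, hX, hY, hXY⟩
  · exact h1
  · exact absurd hXY (catalan_prime_exponents hp hq hp5 hq5 hX hY)

end FA.Summary
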