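import Fermat.Agent.Root.SummaryMordellFactorial
import Mathlib.NumberTheory.Bernoulli
import Mathlib.Algebra.Ring.GeomSum

/-!
# Cauchy: the class number and the Bernoulli number `B_((p+1)/2)` modulo `p`

* `cauchy_classNumber_bernoulli`: for `p ≡ 3 (mod 4)`, `p > 3`, the number `B_((p+1)/2)` is `p`-integral
  and `h(p) ≡ -2 (2 - (2/p)) B_((p+1)/2) (mod p)`.
* `not_dvd_bernoulli_half`: hence `p` never divides the numerator of `B_((p+1)/2)`.
-/

set_option autoImplicit false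

noncomputable section

open Finset

namespace FA.OrderTheta

/-- `p`-integral rationals. -/
def PIntegral (p : ℕ) (x : ℚ) : Prop := ¬ p ∣ x.den

variable {p : ℕ} [hp : Fact p.Prime]

theorem PIntegral.intCast (z : ℤ) : PIntegral p (z : ℚ) := by
  simp [PIntegral, hp.out.ne_one]

theorem PIntegral.natCast (z : ℕ) : PIntegral p (z : ℚ) := by
  simp [PIntegral, hp.out.ne_one]

theorem PIntegral.add {x y : ℚ} (hx : PIntegral p x) (hy : PIntegral p y) : PIntegral p (x + y) :=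
  fun h => (hp.out.dvd_mul.mp (h.trans (Rat.add_den_dvd x y))).elim hx hy

theorem PIntegral.mul {x y : ℚ} (hx : PIntegral p x) (hy : PIntegral p y) : PIntegral p (x * y) :=
  fun h => (hp.out.dvd_mul.mp (h.trans (Rat.mul_den_dvd x y))).elim hx hy

theorem PIntegral.sum {ι : Type*} {s : Finset ι} {f : ι → ℚ} (h : ∀ i ∈ s, PIntegral p (f i)) :
    PIntegral p (∑ i ∈ s, f i) :=
  Finset.sum_induction f (PIntegral p) (fun _ _ => PIntegral.add)
    (by simp [PIntegral, hp.out.ne_one]) h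

omit hp in
theorem PIntegral.inv_natCast {n : ℕ} (hn : ¬ p ∣ n) : PIntegral p ((n : ℚ)⁻¹) := by
  have h0 : 0 < n := Nat.pos_of_ne_zero fun e => hn (e ▸ dvd_zero p)
  rw [PIntegral, Rat.inv_natCast_den_of_pos h0]
  exact hn

/-- `B_i` is `p`-integral for `i < p - 1`. -/
theorem pIntegral_bernoulli : ∀ i : ℕ, i + 1 < p → PIntegral p (bernoulli i) := by
  intro i
  induction i using Nat.strong_induction_on with
  | _ i ih =>
    intro hi
    have h := sum_bernoulli (i + 1)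
    rw [Finset.sum_range_succ, Nat.choose_succ_self_right] at h
    have hne : ((i + 1 : ℕ) : ℚ) ≠ 0 := by exact_mod_cast Nat.succ_ne_zero i
    have e : bernoulli i = ((if i + 1 = 1 then (1 : ℤ) else 0 : ℤ) : ℚ) * ((i + 1 : ℕ) : ℚ)⁻¹ +
        ((-1 : ℤ) : ℚ) * ((∑ k ∈ range i, ((i + 1).choose k : ℚ) * bernoulli k) *
          ((i + 1 : ℕ) : ℚ)⁻¹) := by
      field_simp
      push_cast at h ⊢
      split_ifs at h ⊢ <;> linear_combination h
    rw [e]
    have hinv : PIntegral p (((i + 1 : ℕ) : ℚ)⁻¹) :=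
      PIntegral.inv_natCast fun hd => by
        have := Nat.le_of_dvd (Nat.succ_pos i) hd
        omega
    exact ((PIntegral.intCast _).mul hinv).add ((PIntegral.intCast _).mul
      ((PIntegral.sum fun k hk => (PIntegral.natCast _).mul
        (ih k (mem_range.mp hk) (by have := mem_range.mp hk; omega))).mul hinv))

theorem add_pow_of_sq_zero {R : Type*} [CommRing R] (x y : R) (hy : y * y = 0) (n : ℕ) :
    (x + y) ^ (n + 1) = x ^ (n + 1) + ((n + 1 : ℕ) : R) * x ^ n * y := by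
  induction n with
  | zero => simp
  | succ n ih =>
    rw [pow_succ (x + y), ih]
    push_cast
    linear_combination ((n : R) + 1) * x ^ n * hy

/-- The Voronoi congruence for the multiplier two, modulo `p²`. -/
theorem powerSum_voronoi_two {k : ℕ} (hk : p = 2 * k + 1) (hkodd : Odd k) :
    (∑ r ∈ range p, (r : ZMod (p ^ 2)) ^ (k + 1)) * (1 - 2 ^ (k + 1)) =
      (p : ZMod (p ^ 2)) * ((k + 1 : ℕ) : ZMod (p ^ 2)) * 2 ^ k *
        ∑ r ∈ Icc 1 k, (r : ZMod (p ^ 2)) ^ k := by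
  set R := ZMod (p ^ 2)
  have hpp : (p : R) * (p : R) = 0 := by
    rw [← Nat.cast_mul, ← pow_two, ZMod.natCast_self]
  have hperm : ∑ r ∈ range p, (r : R) ^ (k + 1) =
      ∑ r ∈ range p, (((2 * r) % p : ℕ) : R) ^ (k + 1) := by
    refine (Finset.sum_nbij' (fun r => (2 * r) % p) (fun r => ((k + 1) * r) % p) ?_ ?_ ?_ ?_ ?_).symm
    · intro r _; exact mem_range.mpr (Nat.mod_lt _ hp.out.pos)
    · intro r _; exact mem_range.mpr (Nat.mod_lt _ hp.out.pos)
    · intro r hr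
      rw [mem_range] at hr
      rw [Nat.mul_mod_mod, ← mul_assoc, show (k + 1) * 2 = 1 + p by omega, add_mul, one_mul,
        Nat.add_mul_mod_self_left, Nat.mod_eq_of_lt hr]
    · intro r hr
      rw [mem_range] at hr
      rw [Nat.mul_mod_mod, ← mul_assoc, show 2 * (k + 1) = 1 + p by omega, add_mul, one_mul,
        Nat.add_mul_mod_self_left, Nat.mod_eq_of_lt hr]
    · intro r _; rfl
  have hterm : ∀ r ∈ range p, (((2 * r) % p : ℕ) : R) ^ (k + 1) =
      2 ^ (k + 1) * (r : R) ^ (k + 1) -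
        (if k < r then (p : R) * ((k + 1 : ℕ) : R) * 2 ^ k * (r : R) ^ k else 0) := by
    intro r hr
    rw [mem_range] at hr
    split_ifs with h
    · rw [Nat.mod_eq_sub_mod (by omega), Nat.mod_eq_of_lt (by omega), Nat.cast_sub (by omega),
        sub_eq_add_neg, add_pow_of_sq_zero _ _ (by rw [neg_mul_neg, hpp]), Nat.cast_mul,
        Nat.cast_ofNat, mul_pow, mul_pow]
      ring
    · rw [Nat.mod_eq_of_lt (by omega), Nat.cast_mul, Nat.cast_ofNat, mul_pow, sub_zero]
  have hupper : (p : R) * ∑ r ∈ (range p).filter (fun r => k < r), (r : R) ^ k =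
      -((p : R) * ∑ r ∈ Icc 1 k, (r : R) ^ k) := by
    rw [Finset.mul_sum, Finset.mul_sum, ← Finset.sum_neg_distrib]
    refine Finset.sum_nbij' (fun r => p - r) (fun r => p - r) ?_ ?_ ?_ ?_ ?_ <;>
      intro r hr <;> simp only [mem_filter, mem_range, mem_Icc] at hr ⊢
    · omega
    · omega
    · omega
    · omega
    · obtain ⟨j, hj⟩ : ∃ j, k = j + 1 := ⟨k - 1, by omega⟩
      have hj' : Even j := by
        rw [Nat.odd_iff] at hkodd
        exact Nat.even_iff.mpr (by omega)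
      rw [Nat.cast_sub (by omega : r ≤ p), hj, sub_eq_add_neg, add_comm (p : R),
        add_pow_of_sq_zero _ _ hpp, pow_succ (-(r : R)) j, hj'.neg_pow]
      linear_combination ((j + 1 : ℕ) : R) * (r : R) ^ j * hpp
  have hS : ∑ r ∈ range p, (r : R) ^ (k + 1) = 2 ^ (k + 1) * ∑ r ∈ range p, (r : R) ^ (k + 1) -
      (p : R) * ((k + 1 : ℕ) : R) * 2 ^ k *
        ∑ r ∈ (range p).filter (fun r => k < r), (r : R) ^ k := by
    conv_lhs => rw [hperm]
    rw [Finset.sum_congr rfl hterm, sum_sub_distrib, ← Finset.sum_filter, Finset.mul_sum, Finset.mul_sum]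
  linear_combination hS - ((k + 1 : ℕ) : R) * 2 ^ k * hupper

/-- Faulhaber: `∑ r^m = p (B_m + p T)` with `T` integral at `p`. -/
theorem exists_powerSum_eq {m : ℕ} (hm : m + 1 < p) :
    ∃ T : ℚ, PIntegral p T ∧
      ∑ r ∈ range p, (r : ℚ) ^ m = (p : ℚ) * (bernoulli m + (p : ℚ) * T) := by
  refine ⟨∑ i ∈ range m, bernoulli i * ((m + 1).choose i : ℚ) * ((p ^ (m - 1 - i) : ℕ) : ℚ) *
    ((m + 1 : ℕ) : ℚ)⁻¹, PIntegral.sum fun i hi => ?_, ?_⟩
  · rw [mem_range] at hi
    exact (((pIntegral_bernoulli i (by omega)).mul (PIntegral.natCast _)).mul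
      (PIntegral.natCast _)).mul (PIntegral.inv_natCast fun hd => by
        have := Nat.le_of_dvd (Nat.succ_pos m) hd
        omega)
  · rw [sum_range_pow, Finset.sum_range_succ, mul_add, Finset.mul_sum, Finset.mul_sum,
      add_comm ((p : ℚ) * bernoulli m)]
    congr 1
    · refine Finset.sum_congr rfl fun i hi => ?_
      rw [mem_range] at hi
      rw [show m + 1 - i = 1 + 1 + (m - 1 - i) by omega, pow_add, pow_add, pow_one]
      push_cast
      ring
    · rw [show m + 1 - m = 1 by omega, pow_one, Nat.choose_succ_self_right]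
      push_cast
      field_simp

theorem cauchy_congruence {k : ℕ} (hk : p = 2 * k + 1) (hkodd : Odd k) (hp3 : p ≠ 3) :
    ¬ p ∣ (bernoulli (k + 1)).den ∧ ((∑ r ∈ Icc 1 k, legendreSym p r : ℤ) : ZMod p) =
      -2 * (2 - (legendreSym p 2 : ZMod p)) *
        (((bernoulli (k + 1)).num : ZMod p) / ((bernoulli (k + 1)).den : ZMod p)) := by
  have h7 : 3 ≤ k := by
    rw [Nat.odd_iff] at hkodd
    omega
  have hB : PIntegral p (bernoulli (k + 1)) := pIntegral_bernoulli _ (by omega)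
  refine ⟨hB, ?_⟩
  obtain ⟨T, hT, hST⟩ := exists_powerSum_eq (p := p) (m := k + 1) (by omega)
  set B := bernoulli (k + 1)
  have hS0 : ((∑ r ∈ range p, r ^ (k + 1) : ℕ) : ZMod p) = 0 := by
    rw [Nat.cast_sum]
    have hz := FiniteField.sum_pow_lt_card_sub_one (ZMod p) (k + 1) (by rw [ZMod.card]; omega)
    rw [← hz]
    refine Finset.sum_nbij (fun j : ℕ => (j : ZMod p)) (fun j _ => mem_univ _) ?_ ?_ ?_
    · intro a ha b hb e
      rw [coe_range, Set.mem_Iio] at ha hb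
      have := (ZMod.natCast_eq_natCast_iff' a b p).mp e
      rwa [Nat.mod_eq_of_lt ha, Nat.mod_eq_of_lt hb] at this
    · exact fun x _ => ⟨x.val, by simpa using ZMod.val_lt x, ZMod.natCast_zmod_val x⟩
    · intro j _
      push_cast
      rfl
  obtain ⟨s, hs⟩ := (ZMod.natCast_eq_zero_iff _ p).mp hS0
  have hV : ((p * s * 1 : ℕ) : ℤ) * (1 - 2 ^ (k + 1)) -
      (p : ℤ) * ((k + 1 : ℕ) : ℤ) * 2 ^ k * ((∑ r ∈ Icc 1 k, r ^ k : ℕ) : ℤ) =
      (p : ℤ) * ((s : ℤ) * (1 - 2 ^ (k + 1)) -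
        ((k + 1 : ℕ) : ℤ) * 2 ^ k * ((∑ r ∈ Icc 1 k, r ^ k : ℕ) : ℤ)) := by
    push_cast
    ring
  have hd : ((p ^ 2 : ℕ) : ℤ) ∣ (p : ℤ) * ((s : ℤ) * (1 - 2 ^ (k + 1)) -
      ((k + 1 : ℕ) : ℤ) * 2 ^ k * ((∑ r ∈ Icc 1 k, r ^ k : ℕ) : ℤ)) := by
    rw [← hV, mul_one, ← hs, ← ZMod.intCast_zmod_eq_zero_iff_dvd]
    have h := powerSum_voronoi_two (p := p) hk hkodd
    push_cast at h ⊢
    linear_combination h
  rw [pow_two, Nat.cast_mul] at hd
  have hd' := (ZMod.intCast_zmod_eq_zero_iff_dvd _ p).mpr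
    ((mul_dvd_mul_iff_left (by exact_mod_cast hp.out.ne_zero)).mp hd)
  have hsB : ((s : ℕ) : ℚ) = B + (p : ℚ) * T := by
    have h : ((∑ r ∈ range p, r ^ (k + 1) : ℕ) : ℚ) = ((p * s : ℕ) : ℚ) := by rw [hs]
    push_cast at h
    rw [hST] at h
    exact mul_left_cancel₀ (by exact_mod_cast hp.out.ne_zero) h.symm
  have hnum : (s : ℤ) * (B.den * T.den) = B.num * T.den + (p : ℤ) * (T.num * B.den) := by
    have e : (s : ℚ) * ((B.den : ℚ) * T.den) =
        (B.num : ℚ) * T.den + (p : ℚ) * ((T.num : ℚ) * B.den) := by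
      rw [hsB, ← Rat.mul_den_eq_num B, ← Rat.mul_den_eq_num T]
      ring
    exact_mod_cast e
  have hBd : ((B.den : ℕ) : ZMod p) ≠ 0 := fun h => hB ((ZMod.natCast_eq_zero_iff _ p).mp h)
  have hTd : ((T.den : ℕ) : ZMod p) ≠ 0 := fun h => hT ((ZMod.natCast_eq_zero_iff _ p).mp h)
  have hsmod : (s : ZMod p) = (B.num : ZMod p) / (B.den : ZMod p) := by
    have h := congrArg (Int.cast : ℤ → ZMod p) hnum
    push_cast at h
    rw [ZMod.natCast_self, zero_mul, add_zero] at h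
    rw [eq_div_iff hBd]
    exact mul_right_cancel₀ hTd (by linear_combination h)
  have heps : (legendreSym p 2 : ZMod p) = (2 : ZMod p) ^ k := by
    rw [legendreSym.eq_pow, show p / 2 = k by omega]
    norm_num
  have hsum : ((∑ r ∈ Icc 1 k, legendreSym p r : ℤ) : ZMod p) =
      ∑ r ∈ Icc 1 k, (r : ZMod p) ^ k := by
    rw [Int.cast_sum]
    exact Finset.sum_congr rfl fun r _ => by
      rw [legendreSym.eq_pow, show p / 2 = k by omega, Int.cast_natCast]
  have h20 : (2 : ZMod p) ≠ 0 := by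
    rw [show (2 : ZMod p) = ((2 : ℕ) : ZMod p) by norm_num, Ne, ZMod.natCast_eq_zero_iff]
    intro h
    have := Nat.le_of_dvd two_pos h
    omega
  have he2 : ((2 : ZMod p) ^ k) * 2 ^ k = 1 := by
    rw [← pow_add, show k + k = p - 1 by omega, ZMod.pow_card_sub_one_eq_one h20]
  have hhalf : (2 : ZMod p) * ((k : ZMod p) + 1) = 1 := by
    have h : ((2 * (k + 1) : ℕ) : ZMod p) = ((p + 1 : ℕ) : ZMod p) :=
      congrArg Nat.cast (show 2 * (k + 1) = p + 1 by omega)
    push_cast at h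
    rw [ZMod.natCast_self, zero_add] at h
    exact h
  push_cast at hd'
  rw [hsum, heps, ← hsmod]
  linear_combination (-2 * (2 : ZMod p) ^ k) * hd' +
    (-(∑ r ∈ Icc 1 k, (r : ZMod p) ^ k) * (2 : ZMod p) ^ k * 2 ^ k) * hhalf +
    (-4 * (s : ZMod p) - ∑ r ∈ Icc 1 k, (r : ZMod p) ^ k) * he2

end FA.OrderTheta

namespace FA.Summary

open FA.OrderTheta

variable (p : ℕ) [Fact p.Prime] [NeZero p]

/-- **Cauchy's congruence.** -/
theorem cauchy_classNumber_bernoulli (hp : p % 4 = 3) (hp3 : p ≠ 3) :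
    ¬ p ∣ (bernoulli ((p + 1) / 2)).den ∧ (Nat.card (Cl p) : ZMod p) =
      -2 * (2 - (legendreSym p 2 : ZMod p)) *
        (((bernoulli ((p + 1) / 2)).num : ZMod p) / ((bernoulli ((p + 1) / 2)).den : ZMod p)) := by
  obtain ⟨hden, h⟩ := cauchy_congruence (p := p) (k := p / 2) (by omega)
    (Nat.odd_iff.mpr (by omega)) hp3
  rw [show (p + 1) / 2 = p / 2 + 1 by omega]
  refine ⟨hden, ?_⟩
  rw [← h, ← card_cl_eq_sum_legendre hp]
  simp

/-- `(p + 1) / 2` is never an irregular index. -/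
theorem not_dvd_bernoulli_half (hp : p % 4 = 3) (hp3 : p ≠ 3) :
    ¬ (p : ℤ) ∣ (bernoulli ((p + 1) / 2)).num := by
  intro hd
  obtain ⟨-, h⟩ := cauchy_classNumber_bernoulli p hp hp3
  rw [(ZMod.intCast_zmod_eq_zero_iff_dvd _ p).mpr hd, zero_div, mul_zero,
    ZMod.natCast_eq_zero_iff] at h
  have := finite_cl (N := p)
  have hpos : 0 < Nat.card (Cl p) := Nat.card_pos
  obtain ⟨N, -, hN⟩ := classNumber_le_half p hp
  have := Nat.le_of_dvd hpos h
  omega

end FA.Summary
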