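import Fermat.Agent.CauchyJacobi.Main
import Fermat.Agent.CauchyJacobi.ClassNumber

/-!
# The theorem of Gauss, Jacobi, Cauchy and Stickelberger on `4 p ^ h = a ^ 2 + l b ^ 2`

`l ≡ 3 (mod 4)` is a prime `> 3`, `p = l k + 1` a prime, `R` the quadratic residues `r` in
`(0, l)`, `n = (∑ r) / l`, and `h` the class number of the imaginary quadratic field `K` of
discriminant `-l`.

* `classNumber_excess` (Dirichlet): `l h + ∑ r = ∑` of the nonresidues;
* `cauchy_jacobi`: `4 p ^ h = a ^ 2 + l b ^ 2` with `p ∤ a` and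
  `a ∏ (r k)! ≡ (-1) ^ (n + 1) (mod p)`;
* `cauchy_jacobi_unique`: any such representation has `±a` in place of `a`;
* `padic_chowla_selberg` (Gross and Koblitz 1979): `u = (-1) ^ (n + 1) ∏ Γ_p (r / l)` is the unit
  root of `u ^ 2 - a u + p ^ h = 0`.

Not claimed: primes `p` of higher residue degree in `ℚ (ζ_l)`.
-/

set_option autoImplicit false

noncomputable section

open Finset NumberField FA.DworkRationality FA.GrossKoblitz
open scoped Classical

namespace FA.CauchyJacobi.Summary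

/-- The quadratic residues in `(0, l)`. -/
def residues (l : ℕ) : Finset ℕ := (Ioo 0 l).filter fun r : ℕ => IsSquare (r : ZMod l)

/-- The nonresidues in `(0, l)`. -/
def nonresidues (l : ℕ) : Finset ℕ := (Ioo 0 l).filter fun r : ℕ => ¬ IsSquare (r : ZMod l)

variable {l : ℕ} [hl : Fact l.Prime]

theorem residues_eq :
    residues l = (Fermat.Agent.CauchyJacobi.resSet l).image ZMod.val := by
  ext r
  simp only [residues, mem_filter, mem_Ioo, mem_image, Fermat.Agent.CauchyJacobi.mem_resSet]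
  constructor
  · rintro ⟨⟨h0, h1⟩, h2⟩
    refine ⟨(r : ZMod l), ⟨fun h => ?_, h2⟩, ZMod.val_natCast_of_lt h1⟩
    have := Nat.le_of_dvd h0 ((ZMod.natCast_eq_zero_iff r l).1 h)
    omega
  · rintro ⟨x, ⟨h0, h1⟩, rfl⟩
    exact ⟨⟨ZMod.val_pos.2 h0, ZMod.val_lt x⟩, by rwa [ZMod.natCast_zmod_val]⟩

theorem prod_residues {M : Type*} [CommMonoid M] (φ : ℕ → M) :
    ∏ r ∈ residues l, φ r = ∏ r ∈ Fermat.Agent.CauchyJacobi.resSet l, φ r.val := by
  rw [residues_eq, prod_image fun x _ y _ h => ZMod.val_injective l h]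

theorem sum_residues :
    ∑ r ∈ residues l, r = Fermat.Agent.CauchyJacobi.valSum (1 : ZMod l) := by
  rw [residues_eq, sum_image fun x _ y _ h => ZMod.val_injective l h]
  simp [Fermat.Agent.CauchyJacobi.valSum]

variable (hl4 : l % 4 = 3) (hl3 : 3 < l) (K : Type*) [Field K] [NumberField K] [IsTotallyComplex K]
  (hK : Module.finrank ℚ K = 2) (hdisc : discr K = -(l : ℤ))
include hl4 hl3 hK hdisc

/-- **Dirichlet's class number formula** for `ℚ (√-l)`. -/
theorem classNumber_excess :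
    l * classNumber K + ∑ r ∈ residues l, r = ∑ r ∈ nonresidues l, r := by
  have hcard := Fermat.Agent.CauchyJacobi.card_eq_add_classNumber hl4 hl3 K hK hdisc
  have hadd := Fermat.Agent.CauchyJacobi.valSum_add_neg hl4 hl3
  obtain ⟨n, hn⟩ := Fermat.Agent.CauchyJacobi.dvd_valSum hl4 hl3 (1 : ZMod l)
  have hl0 : 0 < l := by omega
  have hsplit : ∑ r ∈ residues l, r + ∑ r ∈ nonresidues l, r = ∑ r ∈ Ioo 0 l, r :=
    by unfold residues nonresidues; convert sum_filter_add_sum_filter_not (Ioo 0 l) (fun r : ℕ => IsSquare (r : ZMod l)) fun r => r using 3 <;> (ext; simp)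
  have htot : 2 * (∑ r ∈ Ioo 0 l, r) = l * (l - 1) := by
    have h1 : ∑ r ∈ Ioo 0 l, r = ∑ r ∈ range l, r :=
      sum_subset (fun x hx => by simp only [mem_Ioo, mem_range] at hx ⊢; omega) fun x hx hx' => by
        simp only [mem_Ioo, mem_range] at hx hx'; omega
    rw [h1, mul_comm, sum_range_id_mul_two]
  have h2 := Fermat.Agent.CauchyJacobi.two_mul_card hl4 hl3
  rw [hn, Nat.mul_div_cancel_left _ hl0] at hcard
  rw [sum_residues, hn] at hsplit ⊢
  have e2 : l - 1 = 2 * (2 * n + classNumber K) := by omega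
  rw [e2] at htot
  linarith

variable {p : ℕ} [hp : Fact p.Prime] {k : ℕ} (hk : p = l * k + 1)
include hk

/-- **The theorem of Gauss, Jacobi, Cauchy and Stickelberger.** -/
theorem cauchy_jacobi : ∃ a b : ℤ,
    4 * (p : ℤ) ^ classNumber K = a ^ 2 + (l : ℤ) * b ^ 2 ∧ ¬ (p : ℤ) ∣ a ∧
      a * (∏ r ∈ residues l, ((r * k).factorial : ℤ)) ≡
        (-1) ^ ((∑ r ∈ residues l, r) / l + 1) [ZMOD p] := by
  obtain ⟨a, b, h1, h2, -, h4⟩ := Fermat.Agent.CauchyJacobi.exists_representation hl4 hl3 hk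
    (h := classNumber K) (Nat.pos_of_ne_zero (by simp [classNumber]))
    (Fermat.Agent.CauchyJacobi.card_eq_add_classNumber hl4 hl3 K hK hdisc)
  refine ⟨a, b, h1, h2, ?_⟩
  rw [prod_residues, sum_residues]
  exact (Int.modEq_iff_dvd.2 h4).symm

omit [IsTotallyComplex K] hK hdisc in
/-- **Uniqueness.** -/
theorem cauchy_jacobi_unique {a b x y : ℤ}
    (hab : 4 * (p : ℤ) ^ classNumber K = a ^ 2 + (l : ℤ) * b ^ 2)
    (hxy : 4 * (p : ℤ) ^ classNumber K = x ^ 2 + (l : ℤ) * y ^ 2)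
    (ha : ¬ (p : ℤ) ∣ a) (hx : ¬ (p : ℤ) ∣ x) : x = a ∨ x = -a :=
  Fermat.Agent.CauchyJacobi.representation_unique hl4 hl3
    (Fermat.Agent.CauchyJacobi.p_ne_two hl4 hl3 hk) hab hxy ha hx

/-- **The `p`-adic formula of Chowla and Selberg.** -/
theorem padic_chowla_selberg {a b : ℤ}
    (hab : 4 * (p : ℤ) ^ classNumber K = a ^ 2 + (l : ℤ) * b ^ 2) (ha : ¬ (p : ℤ) ∣ a)
    (hsign : a * (∏ r ∈ residues l, ((r * k).factorial : ℤ)) ≡
      (-1) ^ ((∑ r ∈ residues l, r) / l + 1) [ZMOD p])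
    {u : ℂ_[p]} (hu : u = (-1) ^ ((∑ r ∈ residues l, r) / l + 1) *
      ∏ r ∈ residues l, padicGamma p ((r : ℤ_[p]) * Ring.inverse (l : ℤ_[p]))) :
    ‖u‖ = 1 ∧ u ^ 2 - (a : ℂ_[p]) * u + (p : ℂ_[p]) ^ classNumber K = 0 := by
  rw [prod_residues, sum_residues] at hu hsign
  obtain ⟨A, B, h1, h2, h3, h4⟩ := Fermat.Agent.CauchyJacobi.exists_representation hl4 hl3 hk
    (h := classNumber K) (Nat.pos_of_ne_zero (by simp [classNumber]))
    (Fermat.Agent.CauchyJacobi.card_eq_add_classNumber hl4 hl3 K hK hdisc)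
  have hu' : u = Fermat.Agent.CauchyJacobi.unitProd p l := hu
  subst hu'
  have hnorm := Fermat.Agent.CauchyJacobi.norm_unitProd (p := p) (l := l)
  refine ⟨hnorm, ?_⟩
  have haA : a = A := by
    refine (Fermat.Agent.CauchyJacobi.representation_unique hl4 hl3
      (Fermat.Agent.CauchyJacobi.p_ne_two hl4 hl3 hk) h1 hab h2 ha).resolve_right fun h => ?_
    rw [h] at hsign
    have hpp : Prime (p : ℤ) := Nat.prime_iff_prime_int.1 hp.out
    have h5 : (p : ℤ) ∣ 2 * (-1) ^ (Fermat.Agent.CauchyJacobi.valSum (1 : ZMod l) / l + 1) := by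
      have := dvd_sub (Int.modEq_iff_dvd.1 hsign) h4
      rw [neg_mul, sub_neg_eq_add] at this
      rwa [show ∀ x y : ℤ, y + x - (x - y) = 2 * y from fun x y => by ring] at this
    have h6 : (p : ℤ) ∣ 2 := (hpp.dvd_or_dvd h5).resolve_right fun e =>
      hpp.not_dvd_one ((dvd_neg).1 (hpp.dvd_of_dvd_pow e))
    have h7 : p ∣ 2 := by exact_mod_cast h6
    exact Fermat.Agent.CauchyJacobi.p_ne_two hl4 hl3 hk
      ((Nat.prime_dvd_prime_iff_eq hp.out Nat.prime_two).1 h7)
  subst haA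
  have hu0 : Fermat.Agent.CauchyJacobi.unitProd p l ≠ 0 :=
    norm_ne_zero_iff.1 (by rw [hnorm]; exact one_ne_zero)
  rw [h3]
  field_simp
  ring

end FA.CauchyJacobi.Summary

end
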