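import Fermat.Agent.CayleyBacharach.Pascal

/-!
# Cayley–Bacharach, Pascal and Pappus

* `cayley_bacharach`: if two coprime cubic forms have nine common points in the projective plane
  over any field, every cubic form through eight of them passes through the ninth;
* `pascal_hexagon`: the opposite sides of a hexagon inscribed in an irreducible conic meet in three
  collinear points;
* `pappus_hexagon`: the same for a hexagon with vertices alternately on two lines.
-/

set_option autoImplicit false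

noncomputable section

open MvPolynomial Matrix Finset

namespace FA.Summary

variable {K : Type*} [Field K]

/-- **The theorem of Cayley and Bacharach.** -/
theorem cayley_bacharach (p : Fin 9 → Fin 3 → K) (hp0 : ∀ i, p i ≠ 0)
    (hp : ∀ i j, i ≠ j → ∀ c : K, p j ≠ c • p i) {f g h : MvPolynomial (Fin 3) K}
    (hf : f.IsHomogeneous 3) (hg : g.IsHomogeneous 3) (hh : h.IsHomogeneous 3)
    (hcop : IsRelPrime f g) (hfz : ∀ i, eval (p i) f = 0) (hgz : ∀ i, eval (p i) g = 0)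
    (hhz : ∀ i, i ≠ 8 → eval (p i) h = 0) : eval (p 8) h = 0 :=
  FA.CayleyBacharach.ninth_point (Fintype.card_fin 9) ⟨hp0, hp⟩ hf hg hcop hfz hgz hh hhz

/-- **Pascal's theorem.** -/
theorem pascal_hexagon (A : Fin 6 → Fin 3 → K) (hA0 : ∀ i, A i ≠ 0)
    (hA : ∀ i j, i ≠ j → ∀ c : K, A j ≠ c • A i) (q : MvPolynomial (Fin 3) K)
    (hq : q.IsHomogeneous 2) (hirr : Irreducible q) (hAq : ∀ k, eval (A k) q = 0)
    (X Y Z : Fin 3 → K) (hX : X ≠ 0) (hY : Y ≠ 0) (hZ : Z ≠ 0)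
    (hX1 : det ![A 0, A 1, X] = 0) (hX2 : det ![A 3, A 4, X] = 0)
    (hY1 : det ![A 1, A 2, Y] = 0) (hY2 : det ![A 4, A 5, Y] = 0)
    (hZ1 : det ![A 2, A 3, Z] = 0) (hZ2 : det ![A 5, A 0, Z] = 0) :
    det ![X, Y, Z] = 0 :=
  FA.CayleyBacharach.pascal ⟨hA0, hA⟩ hq hirr hAq (P := ![X, Y, Z])
    (fun i => by fin_cases i <;> assumption)
    (fun i => by
      rw [FA.CayleyBacharach.side, FA.CayleyBacharach.eval_lineThrough]
      fin_cases i <;> assumption)
    fun i => by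
      rw [FA.CayleyBacharach.side, FA.CayleyBacharach.eval_lineThrough]
      fin_cases i <;> assumption

/-- **Pappus's theorem.** -/
theorem pappus_hexagon (A : Fin 6 → Fin 3 → K) (hA0 : ∀ i, A i ≠ 0)
    (hA : ∀ i j, i ≠ j → ∀ c : K, A j ≠ c • A i) (u w : Fin 3 → K)
    (hu : ∀ k : Fin 6, Even k.val → u ⬝ᵥ A k = 0 ∧ w ⬝ᵥ A k ≠ 0)
    (hw : ∀ k : Fin 6, Odd k.val → w ⬝ᵥ A k = 0 ∧ u ⬝ᵥ A k ≠ 0)
    (X Y Z : Fin 3 → K) (hX : X ≠ 0) (hY : Y ≠ 0) (hZ : Z ≠ 0)
    (hX1 : det ![A 0, A 1, X] = 0) (hX2 : det ![A 3, A 4, X] = 0)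
    (hY1 : det ![A 1, A 2, Y] = 0) (hY2 : det ![A 4, A 5, Y] = 0)
    (hZ1 : det ![A 2, A 3, Z] = 0) (hZ2 : det ![A 5, A 0, Z] = 0) :
    det ![X, Y, Z] = 0 :=
  FA.CayleyBacharach.pappus ⟨hA0, hA⟩ hu hw (P := ![X, Y, Z])
    (fun i => by fin_cases i <;> assumption)
    (fun i => by
      rw [FA.CayleyBacharach.side, FA.CayleyBacharach.eval_lineThrough]
      fin_cases i <;> assumption)
    fun i => by
      rw [FA.CayleyBacharach.side, FA.CayleyBacharach.eval_lineThrough]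
      fin_cases i <;> assumption

end FA.Summary

end
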