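import Fermat.Agent.CayleyTrees.Trees
import Mathlib.SetTheory.Cardinal.Finite

/-!
# Cayley's formula

The number of trees on `n` labelled vertices, of rooted trees, and of rooted forests.
-/

set_option autoImplicit false

namespace FA.Summary

/-- **Cayley's formula**: there are `n ^ (n - 2)` trees on `n` labelled vertices. -/
theorem cayley_formula (n : ℕ) (hn : 1 ≤ n) :
    Nat.card {G : SimpleGraph (Fin n) // G.IsTree} = n ^ (n - 2) := by
  have : Nonempty (Fin n) := ⟨⟨0, hn⟩⟩
  simpa using CayleyTrees.card_trees (α := Fin n)

/-- There are `n ^ (n - 1)` rooted trees on `n` labelled vertices. -/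
theorem cayley_rooted_trees (n : ℕ) (hn : 1 ≤ n) :
    Nat.card ({G : SimpleGraph (Fin n) // G.IsTree} × Fin n) = n ^ (n - 1) := by
  rw [Nat.card_prod, cayley_formula n hn, Nat.card_eq_fintype_card, Fintype.card_fin]
  rcases Nat.lt_or_ge 1 n with h | h
  · rw [← pow_succ, show n - 2 + 1 = n - 1 by omega]
  · simp [show n = 1 by omega]

/-- **Cayley's formula for forests**: with `k < n` given roots among `n` vertices there are
`k n ^ (n - k - 1)` rooted forests, a forest being the map from each vertex to its parent. -/
theorem cayley_forest_formula (n : ℕ) (R : Finset (Fin n)) (hR : R.card < n) :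
    Nat.card {f : Fin n → Fin n // (∀ v ∈ R, f v = v) ∧ ∀ v, ∃ m : ℕ, f^[m] v ∈ R} =
      R.card * n ^ (n - R.card - 1) := by
  classical
  have h := CayleyTrees.card_forests _ Finset.univ R rfl (Finset.subset_univ _)
  rw [Finset.card_univ, Fintype.card_fin, CayleyTrees.forestCount, if_neg hR.ne] at h
  rw [← h, ← Fintype.card_coe, ← Nat.card_eq_fintype_card]
  refine Nat.card_congr (Equiv.subtypeEquivRight fun f => ?_)
  simp [CayleyTrees.mem_forests, CayleyTrees.IsForest]

end FA.Summary
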