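import Fermat.Agent.CayleySylvester.Substitution
import Fermat.Agent.CayleySylvester.Reciprocity

/-!
# The theorem of Cayley and Sylvester on invariants of binary forms

`boxCount m d j` is the number of multisets of size `m` of numbers at most `d` with sum `j`, the
coefficient of `q ^ j` in a Gaussian binomial coefficient. A binary form of degree `d` is
`∑ cᵢ x ^ (d - i) y ^ i`; polynomials in the `cᵢ` have the weight with `cᵢ` of weight `i`.

* `gaussian_unimodal`, `gaussian_symmetric`: Sylvester's theorem;
* `hermite_reciprocity`, `invariant_reciprocity`: `m` and `d` can be exchanged;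
* `semi_invariant_dimension`: those killed by `∑ (d + 1 - i) cᵢ₋₁ ∂/∂cᵢ`;
* `cayley_sylvester`, `cayley_sylvester_odd`: the invariants of `SL₂` of degree `m`;
* `discriminants_example`: one invariant of degree `2` of a quadratic form, one of degree `4` of
  a cubic one.
-/

set_option autoImplicit false

noncomputable section

open MvPolynomial

namespace FA.CayleySylvester.Summary

variable {k : Type*} [Field k]

theorem boxCount_spec (m d j : ℕ) : boxCount m d j =
    Nat.card {s : Sym (Fin (d + 1)) m // ((s : Multiset (Fin (d + 1))).map Fin.val).sum = j} :=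
  rfl

/-- The Gaussian coefficients are symmetric. -/
theorem gaussian_symmetric (m d j : ℕ) (h : j ≤ m * d) :
    boxCount m d j = boxCount m d (m * d - j) :=
  boxCount_symm m h

/-- **Sylvester 1878**: they are unimodal. -/
theorem gaussian_unimodal (m d : ℕ) {i j : ℕ} (hij : i ≤ j) :
    (2 * j ≤ m * d + 1 → boxCount m d i ≤ boxCount m d j) ∧
      (m * d ≤ 2 * i + 1 → j ≤ m * d → boxCount m d j ≤ boxCount m d i) := by
  have key : ∀ {i j : ℕ}, i ≤ j → 2 * j ≤ m * d + 1 → boxCount m d i ≤ boxCount m d j := by
    intro i j hij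
    induction hij with
    | refl => exact fun _ => le_rfl
    | @step j _ ih => exact fun h => (ih (by omega)).trans (boxCount_le_succ (by omega))
  refine ⟨key hij, fun hi hj => ?_⟩
  rw [boxCount_symm m hj, boxCount_symm m (hij.trans hj)]
  exact key (by omega) (by omega)

/-- **Hermite's reciprocity.** -/
theorem hermite_reciprocity (m d j : ℕ) : boxCount m d j = boxCount d m j :=
  boxCount_comm m d j

/-- **Semi-invariants.** -/
theorem semi_invariant_dimension [CharZero k] (m d j : ℕ) (h : 2 * (j + 1) ≤ m * d + 1) :
    ∃ V : Submodule k (MvPolynomial (Fin (d + 1)) k),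
      (∀ P, P ∈ V ↔ (∀ μ ∈ P.support, μ.degree = m ∧ ∑ i, μ i * (i : ℕ) = j + 1) ∧
        ∑ i : Fin (d + 1), (if (i : ℕ) = 0 then 0 else
          C ((d + 1 - i : ℕ) : k) * X (⟨(i : ℕ) - 1, by omega⟩ : Fin (d + 1)) * pderiv i P) = 0) ∧
      Module.finrank k V + boxCount m d j = boxCount m d (j + 1) := by
  refine ⟨semiInvariants d k m (j + 1), fun P => ?_, finrank_semiInvariants_succ (by omega)⟩
  have hD : ∀ Q : MvPolynomial (Fin (d + 1)) k, lower d k Q = ∑ i : Fin (d + 1),
      (if (i : ℕ) = 0 then 0 else
        C ((d + 1 - i : ℕ) : k) * X (⟨(i : ℕ) - 1, by omega⟩ : Fin (d + 1)) * pderiv i Q) := by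
    intro Q
    induction Q using MvPolynomial.induction_on with
    | C a => simp
    | add p q hp hq =>
      rw [map_add, hp, hq, ← Finset.sum_add_distrib]
      exact Finset.sum_congr rfl fun i _ => by split_ifs <;> simp [mul_add]
    | mul_X p i hp =>
      rw [Derivation.leibniz, hp, lower_X, smul_eq_mul, smul_eq_mul, Finset.mul_sum,
        ← Finset.add_sum_erase _ _ (Finset.mem_univ i),
        ← Finset.add_sum_erase _ _ (Finset.mem_univ i), ← add_assoc]
      refine congrArg₂ (· + ·) ?_ (Finset.sum_congr rfl fun l hl => ?_)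
      · split_ifs
        · ring
        · rw [pderiv_mul, pderiv_X_self, prevIdx]
          ring
      · split_ifs
        · rw [mul_zero]
        · rw [pderiv_mul, pderiv_X_of_ne (Finset.ne_of_mem_erase hl).symm]
          ring
  rw [mem_semiInvariants, hD]
  refine and_congr_left fun _ => (mem_restrictSupport_iff k).trans ?_
  refine forall₂_congr fun μ _ => ?_
  show μ.degree = m ∧ wt μ = j + 1 ↔ _
  rw [wt_eq_sum]

variable [CharZero k]

/-- The invariants of degree `m` of binary forms of degree `d`. -/
theorem mem_invariants_iff (m d : ℕ) (P : MvPolynomial (Fin (d + 1)) k) :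
    P ∈ sl2Invariants d k m ↔ P.IsHomogeneous m ∧
      ∀ g : Matrix (Fin 2) (Fin 2) k, g.det = 1 → ∀ c : Fin (d + 1) → k,
        eval (fun i : Fin (d + 1) => coeff (Finsupp.single 0 (d - (i : ℕ)) +
          Finsupp.single 1 (i : ℕ)) (aeval (fun j => ∑ l, C (g l j) * X l)
            (∑ l : Fin (d + 1), C (c l) *
              ((X 0 : MvPolynomial (Fin 2) k) ^ (d - (l : ℕ)) * X 1 ^ (l : ℕ))))) P = eval c P :=
  and_congr_right fun _ => (invariant_iff P).symm

/-- **Cayley–Sylvester.** -/
theorem cayley_sylvester (m d : ℕ) {j : ℕ} (h : m * d = 2 * j) :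
    Module.finrank k (sl2Invariants d k m) =
      boxCount m d j - (if j = 0 then 0 else boxCount m d (j - 1)) := by
  rw [sl2Invariants_even h]
  obtain _ | j := j
  · rw [if_pos rfl, Nat.sub_zero, finrank_semiInvariants_zero]
  · rw [if_neg (Nat.succ_ne_zero j), Nat.add_sub_cancel,
      ← finrank_semiInvariants_succ (k := k) (show 2 * j < m * d by omega), Nat.add_sub_cancel]

/-- An odd `m d` allows no invariant but zero. -/
theorem cayley_sylvester_odd (m d : ℕ) (h : Odd (m * d)) : sl2Invariants d k m = ⊥ :=
  sl2Invariants_odd h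

/-- **Reciprocity for invariants.** -/
theorem invariant_reciprocity (m d : ℕ) :
    Module.finrank k (sl2Invariants d k m) = Module.finrank k (sl2Invariants m k d) := by
  rcases Nat.even_or_odd (m * d) with he | ho
  · obtain ⟨j, hj⟩ := he
    rw [cayley_sylvester m d (j := j) (by omega),
      cayley_sylvester d m (j := j) (by rw [mul_comm, hj, two_mul]), boxCount_comm m d,
      boxCount_comm m d]
  · rw [sl2Invariants_odd ho, sl2Invariants_odd (mul_comm m d ▸ ho : Odd (d * m)), finrank_bot,
      finrank_bot]

/-- The discriminants of quadratic and cubic forms. -/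
theorem discriminants_example :
    Module.finrank k (sl2Invariants 2 k 2) = 1 ∧ Module.finrank k (sl2Invariants 3 k 4) = 1 := by
  rw [cayley_sylvester 2 2 (j := 2) rfl, cayley_sylvester 4 3 (j := 6) rfl]
  simp only [boxCount, Nat.card_eq_fintype_card]
  decide +kernel

end FA.CayleySylvester.Summary
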