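import Fermat.Agent.ModularParametrization.Rational
import Fermat.Agent.Transcendence.EllipticExp
import Fermat.Agent.Transcendence.EllipticValues
import Fermat.Agent.Root.SummaryTwistedCentralValues

/-!
# Summary: transcendence of periods and central values

* `eigenformPeriods_transcendental`: for a rational eigenform the non-zero periods of `2 π i f dτ`
  are transcendental, as are their quotients by `π`; two of them have an algebraic quotient only if
  it is rational or the lattice has complex multiplication.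
* `centralValue_transcendental`: `L(f, 1)` and the twisted `L(f ⊗ ψ, 1)` are zero or transcendental,
  also after division by `π`.
* `centralValue_transcendental_semistable`, `centralValue_transcendental_twist`: the same for
  `L(E, 1)` of every elliptic curve over `ℚ` with a semistable quadratic twist.
-/

set_option autoImplicit false

noncomputable section

namespace FA.Summary

open UpperHalfPlane hiding I
open Complex CongruenceSubgroup WeierstrassCurve
open scoped Real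

variable {N : ℕ} [NeZero N] {f : CuspForm (Gamma0 N) 2}

/-- The periods lie in a lattice with rational invariants. -/
private theorem exists_rational_lattice (hf : f.IsNormalizedEigenform) {a : ℕ → ℤ}
    (ha : ∀ n, ModularFormClass.qCoeff f n = (a n : ℂ)) :
    ∃ L : PeriodPair, IsAlgebraic ℚ L.g₂ ∧ IsAlgebraic ℚ L.g₃ ∧
      ∀ z : ℂ, z ∈ L.lattice ↔ ∃ γ, 2 * (π : ℂ) * I * ModularCurve.periodMap N f γ = z := by
  obtain ⟨L, hL⟩ := FA.ModularParametrization.exists_scaledPeriods hf ha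
  obtain ⟨g₂, g₃, h2, h3⟩ := FA.ModularParametrization.exists_rat_invariants hf ha hL
  refine ⟨L, h2 ▸ isAlgebraic_algebraMap g₂, h3 ▸ isAlgebraic_algebraMap g₃, fun z => ?_⟩
  rw [hL z]
  constructor
  · rintro ⟨_, ⟨γ, rfl⟩, rfl⟩
    exact ⟨γ, rfl⟩
  · rintro ⟨γ, rfl⟩
    exact ⟨_, ⟨γ, rfl⟩, rfl⟩

/-- **Periods of eigenforms are transcendental.** -/
theorem eigenformPeriods_transcendental (hf : f.IsNormalizedEigenform) {a : ℕ → ℤ}
    (ha : ∀ n, ModularFormClass.qCoeff f n = (a n : ℂ)) :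
    ∃ L : PeriodPair,
      (∀ z : ℂ, z ∈ L.lattice ↔ ∃ γ, 2 * (π : ℂ) * I * ModularCurve.periodMap N f γ = z) ∧
      (∀ ω ∈ L.lattice, ω ≠ 0 → Transcendental ℚ ω ∧ Transcendental ℚ (ω / π)) ∧
      ∀ ω ∈ L.lattice, ∀ ω' ∈ L.lattice, ω ≠ 0 → IsAlgebraic ℚ (ω' / ω) →
        (∃ r : ℚ, ω' / ω = r) ∨ ∃ u v w : ℤ, u ≠ 0 ∧
          (u : ℂ) * L.ω₂ ^ 2 + v * (L.ω₁ * L.ω₂) + w * L.ω₁ ^ 2 = 0 := by
  obtain ⟨L, h2, h3, hL⟩ := exists_rational_lattice hf ha
  refine ⟨L, hL, fun ω hω h0 => ⟨FA.SchneiderLang.transcendental_period h2 h3 hω h0, fun hal =>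
    FA.SchneiderLang.transcendental_pi_div_period h2 h3 hω h0 ?_⟩, ?_⟩
  · have h := hal.inv
    rwa [inv_div] at h
  intro ω hω ω' hω' h0 hal
  obtain ⟨m, n, rfl⟩ := PeriodPair.mem_lattice.1 hω
  obtain ⟨m', n', rfl⟩ := PeriodPair.mem_lattice.1 hω'
  set r := ((m' : ℂ) * L.ω₁ + n' * L.ω₂) / (m * L.ω₁ + n * L.ω₂) with hr
  have hω₁ : L.ω₁ ≠ 0 := by simpa using L.indep.ne_zero 0
  have e : r * (m * L.ω₁ + n * L.ω₂) = m' * L.ω₁ + n' * L.ω₂ := div_mul_cancel₀ _ h0
  by_cases hden : r * n - n' = 0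
  · left
    rcases eq_or_ne n 0 with rfl | hn
    · refine ⟨m' / m, ?_⟩
      have hn' : (n' : ℂ) = 0 := by simpa [sub_eq_zero, eq_comm] using hden
      have hm : (m : ℂ) ≠ 0 := fun hm => h0 (by simp [hm])
      rw [hn'] at e
      push_cast
      rw [eq_div_iff hm]
      refine mul_right_cancel₀ hω₁ ?_
      push_cast at e
      linear_combination e
    · refine ⟨n' / n, ?_⟩
      push_cast
      rw [eq_div_iff (Int.cast_ne_zero.mpr hn)]
      linear_combination hden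
  · right
    have hτ : IsAlgebraic ℚ (L.ω₂ / L.ω₁) := by
      rw [show L.ω₂ / L.ω₁ = ((m' : ℂ) - r * m) / (r * n - n') by
        rw [div_eq_div_iff hω₁ hden]; linear_combination e, div_eq_mul_inv]
      exact ((isAlgebraic_intCast m').sub (hal.mul (isAlgebraic_intCast m))).mul
        ((hal.mul (isAlgebraic_intCast n)).sub (isAlgebraic_intCast n')).inv
    obtain ⟨u, v, w, hu, huvw⟩ := FA.SchneiderLang.exists_quadratic_period_ratio h2 h3 hτ
    refine ⟨u, v, w, hu, ?_⟩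
    field_simp at huvw
    linear_combination huvw

/-- A rational multiple of a non-zero period over `√q` is zero or transcendental. -/
private theorem zero_or_transcendental {L : PeriodPair} (h2 : IsAlgebraic ℚ L.g₂)
    (h3 : IsAlgebraic ℚ L.g₃) {ω c x : ℂ} (hω : ω ∈ L.lattice) (h0 : ω ≠ 0)
    (hc : IsAlgebraic ℚ c) {r : ℚ} (he : c * x = r * ω) (hc0 : c ≠ 0) :
    x = 0 ∨ (Transcendental ℚ x ∧ Transcendental ℚ (x / π)) := by
  refine or_iff_not_imp_left.mpr fun hx => ?_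
  have hr : (r : ℂ) ≠ 0 := fun hr => mul_ne_zero hc0 hx (by rw [he, hr, zero_mul])
  have hrat : IsAlgebraic ℚ (r : ℂ) := isAlgebraic_algebraMap r
  refine ⟨fun hal => FA.SchneiderLang.transcendental_period h2 h3 hω h0 ?_,
    fun hal => FA.SchneiderLang.transcendental_pi_div_period h2 h3 hω h0 ?_⟩
  · rw [show ω = c * x * (r : ℂ)⁻¹ by rw [he]; field_simp]
    exact (hc.mul hal).mul hrat.inv
  · have hπ : (π : ℂ) ≠ 0 := Complex.ofReal_ne_zero.2 Real.pi_ne_zero
    rw [show (π : ℂ) / ω = (r : ℂ) * (c * (x / π))⁻¹ by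
      rw [mul_div_assoc', he]; field_simp]
    exact hrat.mul (hc.mul hal).inv

private theorem isAlgebraic_sqrt (q : ℕ) : IsAlgebraic ℚ (Real.sqrt q : ℂ) :=
  IsAlgebraic.of_pow two_pos (by
    rw [← Complex.ofReal_pow, Real.sq_sqrt (Nat.cast_nonneg q), Complex.ofReal_natCast]
    exact isAlgebraic_natCast q)

/-- Values on the two periods are zero or transcendental. -/
private theorem transcendental_of_periods (hf : f.IsNormalizedEigenform) {a : ℕ → ℤ}
    (ha : ∀ n, ModularFormClass.qCoeff f n = (a n : ℂ)) {Ωp Ωm : ℝ}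
    (hp : IsLeast {x : ℝ | 0 < x ∧ ∃ γ, 2 * (π : ℂ) * I * ModularCurve.periodMap N f γ = x} Ωp)
    (hm : IsLeast
      {x : ℝ | 0 < x ∧ ∃ γ, 2 * (π : ℂ) * I * ModularCurve.periodMap N f γ = x * I} Ωm)
    {q : ℕ} (hq : q ≠ 0) {x : ℂ} (h : (∃ r : ℚ, (Real.sqrt q : ℂ) * x = r * Ωp) ∨
      ∃ r : ℚ, (Real.sqrt q : ℂ) * x = r * Ωm) :
    x = 0 ∨ (Transcendental ℚ x ∧ Transcendental ℚ (x / π)) := by
  obtain ⟨L, h2, h3, hL⟩ := exists_rational_lattice hf ha
  have hs0 : (Real.sqrt q : ℂ) ≠ 0 :=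
    Complex.ofReal_ne_zero.2 (Real.sqrt_ne_zero'.2 (Nat.cast_pos.2 (Nat.pos_of_ne_zero hq)))
  rcases h with ⟨r, hr⟩ | ⟨r, hr⟩
  · exact zero_or_transcendental h2 h3 ((hL _).mpr hp.1.2)
      (Complex.ofReal_ne_zero.2 hp.1.1.ne') (isAlgebraic_sqrt q) hr hs0
  · have hI : IsAlgebraic ℚ Complex.I :=
      IsAlgebraic.of_pow two_pos (by rw [Complex.I_sq]; exact isAlgebraic_one.neg)
    refine zero_or_transcendental h2 h3 ((hL _).mpr hm.1.2)
      (mul_ne_zero (Complex.ofReal_ne_zero.2 hm.1.1.ne') Complex.I_ne_zero)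
      (hI.mul (isAlgebraic_sqrt q)) (r := r) ?_ (mul_ne_zero Complex.I_ne_zero hs0)
    linear_combination Complex.I * hr

/-- **Central values of rational eigenforms are zero or transcendental.** -/
theorem centralValue_transcendental (hf : f.IsNormalizedEigenform) {a : ℕ → ℤ}
    (ha : ∀ n, ModularFormClass.qCoeff f n = (a n : ℂ)) :
    (∀ G : ℂ → ℂ, Differentiable ℂ G →
      (∀ s : ℂ, 2 < s.re → G s = LSeries (fun n : ℕ => (a n : ℂ)) s) →
        G 1 = 0 ∨ (Transcendental ℚ (G 1) ∧ Transcendental ℚ (G 1 / π))) ∧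
    ∀ (q : ℕ) [NeZero q] (ψ : DirichletCharacter ℂ q), (∀ u : (ZMod q)ˣ, ψ u * ψ u = 1) →
      (∀ p : ℕ, p.Prime → p ∣ q → ∃ n : ℕ, ((q / p : ℕ) : ℤ) ∣ (n : ℤ) - 1 ∧
        ψ (n : ZMod q) = -1) →
      ∀ G : ℂ → ℂ, Differentiable ℂ G →
        (∀ s : ℂ, 2 < s.re → G s = LSeries (fun n : ℕ => ψ (n : ZMod q) * (a n : ℂ)) s) →
        G 1 = 0 ∨ (Transcendental ℚ (G 1) ∧ Transcendental ℚ (G 1 / π)) := by
  obtain ⟨Ωp, Ωm, hp, hm, hval⟩ := twisted_centralValue_rationality hf ha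
  refine ⟨fun G hG hGs => ?_, fun q _ ψ hψ hnd G hG hGs => ?_⟩
  · have h1 := (hval 1 (1 : DirichletCharacter ℂ 1) (fun u => by simp)
      (fun p hp hd => absurd (Nat.dvd_one.mp hd) hp.ne_one) G hG fun s hs => by
        rw [hGs s hs]
        congr 1
        funext n
        rw [MulChar.one_apply (isUnit_of_subsingleton _), one_mul]).1
      (MulChar.one_apply (isUnit_of_subsingleton _))
    exact transcendental_of_periods hf ha hp hm one_ne_zero (Or.inl h1)
  · obtain ⟨he, ho⟩ := hval q ψ hψ hnd G hG hGs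
    refine transcendental_of_periods hf ha hp hm (NeZero.ne q) ?_
    have hsign : ψ (-1) = 1 ∨ ψ (-1) = -1 := by
      refine mul_self_eq_one_iff.mp ?_
      rw [← map_mul, neg_one_mul, neg_neg, map_one]
    exact hsign.imp he ho

/-- **`L(E, 1)` is zero or transcendental** for semistable `E / ℚ`. -/
theorem centralValue_transcendental_semistable (E : WeierstrassCurve ℚ) [E.IsElliptic]
    (h : ∀ p : ℕ, ∀ [Fact p.Prime], ∃ C : VariableChange ℚ_[p],
      HasGoodReduction ℤ_[p] (C • E.map (algebraMap ℚ ℚ_[p])) ∨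
        HasMultiplicativeReduction ℤ_[p] (C • E.map (algebraMap ℚ ℚ_[p])))
    (G : ℂ → ℂ) (hG : Differentiable ℂ G) (hGs : ∀ s : ℂ, 2 < s.re → G s = E.LSeries s) :
    G 1 = 0 ∨ (Transcendental ℚ (G 1) ∧ Transcendental ℚ (G 1 / π)) := by
  obtain ⟨-, N, f, -, -, hsq, -, hf, hn⟩ := FA.Root.exists_newform_LFunction E h
  have : NeZero N := ⟨hsq.ne_zero⟩
  exact (centralValue_transcendental hf.isNormalizedEigenform (a := fun n => E.LFunction n) hn).1
    G hG hGs

/-- **`L(E, 1)` is zero or transcendental** for every `E / ℚ` with a semistable twist. -/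
theorem centralValue_transcendental_twist (E : WeierstrassCurve ℚ) [E.IsElliptic] {d : ℚ}
    (hd : d ≠ 0)
    (h : ∀ p : ℕ, ∀ [Fact p.Prime], ∃ C : VariableChange ℚ_[p],
      HasGoodReduction ℤ_[p] (C • (⟨0, 0, 0, -27 * (d ^ 2 * E.c₄), -54 * (d ^ 3 * E.c₆)⟩ :
          WeierstrassCurve ℚ).map (algebraMap ℚ ℚ_[p])) ∨
        HasMultiplicativeReduction ℤ_[p] (C • (⟨0, 0, 0, -27 * (d ^ 2 * E.c₄),
          -54 * (d ^ 3 * E.c₆)⟩ : WeierstrassCurve ℚ).map (algebraMap ℚ ℚ_[p])))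
    (G : ℂ → ℂ) (hG : Differentiable ℂ G) (hGs : ∀ s : ℂ, 2 < s.re → G s = E.LSeries s) :
    G 1 = 0 ∨ (Transcendental ℚ (G 1) ∧ Transcendental ℚ (G 1 / π)) := by
  have := FA.Root.quadTwist_isElliptic E hd
  obtain ⟨W, N, f, hW, hs, hN, -, hf, hn⟩ :=
    FA.Root.exists_newform_LFunction (FA.Twists.quadTwist E d) h
  obtain ⟨D, q, ψ, -, -, hq, hψ, hnd, hL⟩ :=
    FA.Twists.exists_char_LFunction E hd hW (FA.Frob.Δ_ne_zero_of_model hW) hs
  have : NeZero N := ⟨hN.ne_zero⟩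
  have : NeZero q := ⟨hq.ne'⟩
  refine (centralValue_transcendental hf.isNormalizedEigenform
    (a := fun n => (FA.Twists.quadTwist E d).LFunction n) hn).2 q ψ hψ hnd G hG fun s hs' => ?_
  rw [hGs s hs', WeierstrassCurve.LSeries]
  exact congrArg (LSeries · s) (funext hL)

end FA.Summary

end
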