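import Fermat.Agent.NormalNumbers.Champernowne

/-!
# Champernowne's theorem

* `champernowne_digits`: the stream consists of the digits of `1, 2, 3, …` in base `b`, most
  significant first;
* `champernowne_normal`: every block of length `k` occurs in it with frequency `b ^ (-k)`;
* `champernowne_equidistributed`: for the number `x` with these digits `fract (b ^ i x)` is
  equidistributed in `[0, 1)`;
* `champernowne_irrational`: so `x` is irrational.
-/

set_option autoImplicit false

noncomputable section

open Filter Topology FA.NormalNumbers

namespace FA.Summary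

/-- **The digit stream and the number.** -/
theorem champernowne_digits {b : ℕ} (hb : 1 < b) :
    (∀ n, (List.range (∑ m ∈ Finset.range n, (Nat.log b (m + 1) + 1))).map (champernowneDigit b) =
      ((List.range n).map fun m => (Nat.digits b (m + 1)).reverse).flatten) ∧
      HasSum (fun i : ℕ => (champernowneDigit b i : ℝ) / (b : ℝ) ^ (i + 1)) (champernowne b) := by
  refine ⟨digits_flatten hb, ?_⟩
  have h := (summable_tail hb 0).hasSum
  simp only [zero_add] at h
  simpa [champernowne, tail] using h

/-- **Champernowne's theorem: the number is normal.** -/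
theorem champernowne_normal {b : ℕ} (hb : 1 < b) (k : ℕ) (w : Fin k → Fin b) :
    Tendsto (fun N : ℕ => (((Finset.range N).filter fun i =>
        ∀ j : Fin k, champernowneDigit b (i + j) = (w j : ℕ)).card : ℝ) / N)
      atTop (𝓝 (1 / (b : ℝ) ^ k)) := by
  rcases Nat.eq_zero_or_pos k with rfl | hk
  · refine (tendsto_congr' ?_).2 tendsto_const_nhds
    filter_upwards [eventually_ne_atTop 0] with N hN
    simp [hN]
  let f : ℕ → ℕ := fun j => if h : j < k then (w ⟨j, h⟩ : ℕ) else 0
  have hf : ∀ j < k, f j < b := fun j hj => by simp [f, hj]
  refine (tendsto_occurrences hb hk (blockValue_lt hf)).congr fun N => ?_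
  rw [occurrences, Nat.count_eq_card_filter_range]
  refine congrArg (fun s : Finset ℕ => (s.card : ℝ) / N) (Finset.filter_congr fun i _ => ?_)
  rw [window, blockValue_eq_iff (fun _ _ => digit_lt (by omega) _) hf]
  exact ⟨fun h j => (h j j.2).trans (by simp [f]),
    fun h j hj => (h ⟨j, hj⟩).trans (by simp [f, hj])⟩

/-- **Equidistribution.** -/
theorem champernowne_equidistributed {b : ℕ} (hb : 1 < b) {u v : ℝ} (hu : 0 ≤ u) (huv : u ≤ v)
    (hv : v ≤ 1) :
    Tendsto (fun N : ℕ => (((Finset.range N).filter fun i : ℕ =>
      u ≤ Int.fract ((b : ℝ) ^ i * champernowne b) ∧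
        Int.fract ((b : ℝ) ^ i * champernowne b) < v).card : ℝ) / N) atTop (𝓝 (v - u)) := by
  simp only [fract_pow_mul hb]
  exact equidistributed hb hu huv hv

/-- **Irrationality.** -/
theorem champernowne_irrational {b : ℕ} (hb : 1 < b) : Irrational (champernowne b) :=
  irrational_champernowne hb

end FA.Summary

end
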