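import Fermat.Agent.NormalNumbers.Transcendence
import Fermat.Agent.Root.SummaryChampernowne

/-!
# Champernowne's number is transcendental (Mahler 1937)

`FA.NormalNumbers.champernowne b` is the number whose digits are identified by
`champernowne_digits`; it is transcendental in every base `b ≥ 2`.
-/

set_option autoImplicit false

noncomputable section

open FA.NormalNumbers

namespace FA.Summary

/-- **Mahler's theorem**: Champernowne's number is transcendental in every base. -/
theorem champernowne_transcendental {b : ℕ} (hb : 1 < b) :
    Transcendental ℚ (champernowne b) :=
  transcendental_champernowne hb

/-- **Over `ℤ`.** -/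
theorem champernowne_transcendental_int {b : ℕ} (hb : 1 < b) :
    Transcendental ℤ (champernowne b) := fun h =>
  champernowne_transcendental hb ((IsFractionRing.isAlgebraic_iff ℤ ℚ ℝ).1 h)

end FA.Summary

end
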