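import Fermat.Agent.ChannelCoding.Coding

/-!
# Shannon's channel coding theorem and Wolfowitz's strong converse

`W x y` is the probability that the letter `x` is received as `y`; `wordW W n` is the channel used
`n` times independently. A code has `M` words `c i` of length `n` and a decoder `d`; its error at
`i` is the probability that `d` of the output of `c i` is not `i`. Logarithms are natural.

* `channel_capacity`: the mutual information attains its maximum `C`, and every row has divergence
  at most `C` from the output of a maximiser, exactly `C` if its letter is used;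
* `channel_capacity_minimax`: `C` is the least radius of a ball of laws holding all the rows;
* `channel_coding_achievable` (Shannon): below `C` there are codes of `exp (n R)` words with
  exponentially small maximal error;
* `channel_coding_strong_converse` (Wolfowitz): above `C` the probability of correct decoding is
  exponentially small;
* `channel_coding_iff`: every rate below `R` has codes with error tending to zero iff `R ≤ C`;
* `binary_symmetric_capacity`: the binary symmetric channel has `C = log 2 - H (e, 1 - e)`.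
-/

set_option autoImplicit false

noncomputable section

open Filter Topology Real

namespace FA.Summary

open ChannelCoding

variable {X Y : Type*} [Fintype X] [Fintype Y] [Nonempty X] {W : X → Y → ℝ}

/-- **The capacity is attained, and the used rows are equidistant from the best output law.** -/
theorem channel_capacity (hW : ∀ x, W x ∈ stdSimplex ℝ Y) :
    ∃ p ∈ stdSimplex ℝ X, mutualInfo W p = capacity W ∧
      (∀ p' ∈ stdSimplex ℝ X, mutualInfo W p' ≤ capacity W) ∧
      (∀ x y, out W p y = 0 → W x y = 0) ∧ (∀ x, relEnt (W x) (out W p) ≤ capacity W) ∧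
      ∀ x, 0 < p x → relEnt (W x) (out W p) = capacity W := by
  obtain ⟨p, hp, hC, hmax⟩ := exists_capacity W
  exact ⟨p, hp, hC, hmax, fun x => (relEnt_le_capacity hW hp hC x).1,
    fun x => (relEnt_le_capacity hW hp hC x).2, fun x hx => relEnt_eq_capacity hW hp hC hx⟩

/-- **The capacity is the radius of the set of rows.** -/
theorem channel_capacity_minimax (hW : ∀ x, W x ∈ stdSimplex ℝ Y) :
    IsLeast {r | ∃ q ∈ stdSimplex ℝ Y, (∀ x y, q y = 0 → W x y = 0) ∧
      ∀ x, relEnt (W x) q ≤ r} (capacity W) := by
  obtain ⟨p, hp, -, -, h1, h2, -⟩ := channel_capacity hW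
  refine ⟨⟨out W p, out_mem hW hp, h1, h2⟩, fun r ⟨q, hq, hd, hr⟩ => ?_⟩
  obtain ⟨x, hx⟩ := exists_capacity_le hW hq hd
  exact hx.trans (hr x)

/-- **Shannon's coding theorem.** -/
theorem channel_coding_achievable (hW : ∀ x, W x ∈ stdSimplex ℝ Y) {R : ℝ} (hR : R < capacity W) :
    ∃ ρ, 0 ≤ ρ ∧ ρ < 1 ∧ ∀ n : ℕ, ∃ (M : ℕ) (c : Fin M → Fin n → X) (d : (Fin n → Y) → Fin M),
      exp (n * R) ≤ M ∧ ∀ i, ∑ v, (if d v = i then 0 else wordW W n (c i) v) ≤ 2 * ρ ^ n :=
  exists_codes hW hR

/-- **Wolfowitz's strong converse.** -/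
theorem channel_coding_strong_converse (hW : ∀ x, W x ∈ stdSimplex ℝ Y) {R : ℝ}
    (hR : capacity W < R) :
    ∃ ρ, 0 ≤ ρ ∧ ρ < 1 ∧ ∀ (n M : ℕ) (c : Fin M → Fin n → X) (d : (Fin n → Y) → Fin M),
      exp (n * R) ≤ M →
      1 - 2 * ρ ^ n ≤ (∑ i, ∑ v, if d v = i then 0 else wordW W n (c i) v) / M := by
  obtain ⟨ρ, h0, h1, h⟩ := exists_strong_converse hW hR
  refine ⟨ρ, h0, h1, fun n M c d hM => ?_⟩
  have hM0 : (0 : ℝ) < M := (exp_pos _).trans_le hM
  have e : (∑ i, ∑ v, if d v = i then 0 else wordW W n (c i) v) +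
      ∑ i, ∑ v, (if d v = i then wordW W n (c i) v else 0) = M := by
    rw [← Finset.sum_add_distrib]
    refine (Finset.sum_congr rfl fun i _ => ?_).trans (by simp : ∑ _i : Fin M, (1 : ℝ) = M)
    rw [← Finset.sum_add_distrib, ← sum_wordW hW n (c i)]
    exact Finset.sum_congr rfl fun v _ => by split_ifs <;> ring
  have := h n M c d hM
  rw [div_le_iff₀ hM0] at this
  rw [le_div_iff₀ hM0]
  linarith

/-- **The channel coding theorem.** -/
theorem channel_coding_iff (hW : ∀ x, W x ∈ stdSimplex ℝ Y) (R : ℝ) :
    (∀ δ > 0, ∀ ε > 0, ∀ᶠ n : ℕ in atTop, ∃ (M : ℕ) (c : Fin M → Fin n → X)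
      (d : (Fin n → Y) → Fin M), exp (n * (R - δ)) ≤ M ∧
        ∀ i, ∑ v, (if d v = i then 0 else wordW W n (c i) v) ≤ ε) ↔ R ≤ capacity W := by
  have hlim : ∀ ρ : ℝ, 0 ≤ ρ → ρ < 1 → Tendsto (fun n : ℕ => 2 * ρ ^ n) atTop (𝓝 0) :=
    fun ρ h0 h1 => by simpa using (tendsto_pow_atTop_nhds_zero_of_lt_one h0 h1).const_mul 2
  refine ⟨fun h => ?_, fun hR δ hδ ε hε => ?_⟩
  · by_contra hcon
    push Not at hcon
    obtain ⟨ρ, h0, h1, hc⟩ := channel_coding_strong_converse hW
      (R := (R + capacity W) / 2) (by linarith)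
    obtain ⟨n, ⟨M, c, d, hM, herr⟩, hn⟩ := ((h ((R - capacity W) / 2) (by linarith) (1 / 4)
      (by norm_num)).and ((hlim ρ h0 h1).eventually_lt_const
        (by norm_num : (0 : ℝ) < 1 / 4))).exists
    rw [show R - (R - capacity W) / 2 = (R + capacity W) / 2 by ring] at hM
    have hM0 : (0 : ℝ) < M := (exp_pos _).trans_le hM
    have h2 := hc n M c d hM
    rw [le_div_iff₀ hM0] at h2
    have h3 : (∑ i, ∑ v, if d v = i then 0 else wordW W n (c i) v) ≤ M * (1 / 4) :=
      (Finset.sum_le_sum fun i _ => herr i).trans_eq (by simp)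
    nlinarith
  · obtain ⟨ρ, h0, h1, h⟩ := exists_codes hW (R := R - δ) (by linarith)
    filter_upwards [(hlim ρ h0 h1).eventually_lt_const hε] with n hn
    obtain ⟨M, c, d, hM, herr⟩ := h n
    exact ⟨M, c, d, hM, fun i => (herr i).trans hn.le⟩

/-- **The capacity of the binary symmetric channel.** -/
theorem binary_symmetric_capacity {e : ℝ} (he0 : 0 ≤ e) (he1 : e ≤ 1) :
    capacity (fun x y : Bool => if x = y then 1 - e else e) =
      log 2 - (negMulLog e + negMulLog (1 - e)) := by
  set V : Bool → Bool → ℝ := fun x y => if x = y then 1 - e else e with hV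
  have hW : IsChannel V := fun x => ⟨fun y => by
    by_cases h : x = y <;> simp [hV, h] <;> linarith, by cases x <;> simp [hV]⟩
  have hval : ∀ p ∈ stdSimplex ℝ Bool, mutualInfo V p =
      negMulLog (out V p true) + negMulLog (out V p false) -
        (negMulLog e + negMulLog (1 - e)) := fun p hp => by
    have h1 : p true + p false = 1 := by simpa using hp.2
    simp only [mutualInfo, Fintype.sum_bool, hV]
    norm_num
    linear_combination (negMulLog e + negMulLog (1 - e)) * h1
  obtain ⟨p, hp, hC, hmax⟩ := exists_capacity V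
  have hu : (fun _ : Bool => (1 / 2 : ℝ)) ∈ stdSimplex ℝ Bool :=
    ⟨fun _ => by norm_num, by simp⟩
  refine le_antisymm ?_ ?_
  · rw [← hC, hval p hp]
    have hq := out_mem hW hp
    have hq1 : out V p true + out V p false = 1 := by simpa using hq.2
    have hg := relEnt_nonneg hq hu fun y hy => absurd hy (by norm_num)
    have e1 : ∀ t : ℝ, t * log (t / (1 / 2)) = -negMulLog t + t * log 2 := fun t => by
      rcases eq_or_ne t 0 with rfl | ht
      · simp
      rw [log_div ht (by norm_num), one_div, log_inv, negMulLog]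
      ring
    simp only [relEnt, Fintype.sum_bool, e1] at hg
    have := congrArg (· * log 2) hq1
    simp only [add_mul, one_mul] at this
    linarith
  · refine le_trans (le_of_eq ?_) (hmax _ hu)
    rw [hval _ hu]
    have e2 : negMulLog (1 / 2 : ℝ) = log 2 / 2 := by
      rw [negMulLog, one_div, log_inv]
      ring
    have e3 : ∀ y, out V (fun _ => 1 / 2) y = 1 / 2 := fun y => by
      cases y <;> simp [out, hV] <;> ring
    rw [e3, e3, e2]
    ring

end FA.Summary

end
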