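import Fermat.Agent.MomentLower.Characters

/-!
# Lower bounds for the moments of `L (1/2, χ)`

The theorem of Rudnick and Soundararajan, unconditional: over the characters `χ ≠ 1` to a large
prime modulus `q`, `∑ |L (1/2, χ)|^{2k} ≫ q (log q)^{k²}` for rational `k ≥ 1`
(`lfunction_moment_lower`, and `lfunction_moment_lower_nat` with natural exponents), with
`(log q)^{k² - ε}` for real `k ≥ 1` (`lfunction_moment_lower_real`).
-/

set_option autoImplicit false

noncomputable section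

namespace FA.Summary

open Finset Filter
open DirichletCharacter (LFunction)

/-- **Rudnick and Soundararajan**, rational exponents. -/
theorem lfunction_moment_lower {r : ℚ} (hr : 1 ≤ r) :
    ∃ c : ℝ, 0 < c ∧ ∀ᶠ q : ℕ in atTop, ∀ _ : NeZero q, q.Prime →
      c * q * Real.log q ^ ((r : ℝ) ^ 2) ≤
        ∑ χ ∈ {χ : DirichletCharacter ℂ q | χ ≠ 1}, ‖LFunction χ (1 / 2)‖ ^ (2 * (r : ℝ)) := by
  have hn : ((r.num.natAbs : ℕ) : ℝ) = (r.num : ℝ) := by
    rw [← Int.cast_natCast, Int.natAbs_of_nonneg (Rat.num_nonneg.2 (by linarith))]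
  have hd : (0 : ℝ) < r.den := Nat.cast_pos.2 r.den_pos
  have hcast : (r : ℝ) = (r.num.natAbs : ℝ) / r.den := by rw [hn, Rat.cast_def]
  have hle : r.den ≤ r.num.natAbs := by
    have h : (1 : ℝ) ≤ r := by exact_mod_cast hr
    rw [hcast, le_div_iff₀ hd, one_mul] at h
    exact_mod_cast h
  simp only [hcast]
  exact FA.MomentLower.exists_char_moment_lower r.den_pos hle

/-- **Rudnick and Soundararajan**, natural exponents. -/
theorem lfunction_moment_lower_nat {k : ℕ} (hk : 1 ≤ k) :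
    ∃ c : ℝ, 0 < c ∧ ∀ᶠ q : ℕ in atTop, ∀ _ : NeZero q, q.Prime →
      c * q * Real.log q ^ k ^ 2 ≤
        ∑ χ ∈ {χ : DirichletCharacter ℂ q | χ ≠ 1}, ‖LFunction χ (1 / 2)‖ ^ (2 * k) := by
  obtain ⟨c, hc0, hc⟩ := FA.MomentLower.exists_char_moment_lower Nat.one_pos hk
  refine ⟨c, hc0, hc.mono fun q h hne hq => ?_⟩
  have h := h hne hq
  rw [Nat.cast_one, div_one, ← Nat.cast_pow, Real.rpow_natCast,
    show (2 : ℝ) * k = ((2 * k : ℕ) : ℝ) by push_cast; ring] at h
  simpa only [Real.rpow_natCast] using h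

/-- **Rudnick and Soundararajan**, every real exponent. -/
theorem lfunction_moment_lower_real {k ε : ℝ} (hk : 1 ≤ k) (hε : 0 < ε) :
    ∃ c : ℝ, 0 < c ∧ ∀ᶠ q : ℕ in atTop, ∀ _ : NeZero q, q.Prime →
      c * q * Real.log q ^ (k ^ 2 - ε) ≤
        ∑ χ ∈ {χ : DirichletCharacter ℂ q | χ ≠ 1}, ‖LFunction χ (1 / 2)‖ ^ (2 * k) :=
  FA.MomentLower.exists_char_moment_lower_real hk hε

end FA.Summary

end
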