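import Fermat.Agent.Resonance.CharMain

/-!
# The resonance method at the central point

For `q ≥ 3`, nonnegative `r n`, `n ≤ N < q`, vanishing unless `n` is prime to `q`, the ratio
`∑_{k m ≤ N} r m r (k m) / √k : ∑ r n²` is at most `|L (1/2, χ)| + 3 √q N / φ(q)` for some `χ ≠ 1`
mod `q`. With Soundararajan's resonator of length `q ^ (1/2 - ε)` avoiding the primes of `q` this
gives, for every `c < 1/√2` and every large modulus `q`, a character `χ ≠ 1` mod `q` with
`|L (1/2, χ)| ≥ exp (c √(log q / log log q))`.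

The character need not be primitive, and no larger constant is claimed.
-/

set_option autoImplicit false

noncomputable section

namespace FA.Resonance.CharSummary

open Finset Filter DirichletCharacter

/-- **The resonance inequality mod `q`.** -/
theorem resonance_inequality_mod {q : ℕ} [NeZero q] (hq : 3 ≤ q) {r : ℕ → ℝ} {N : ℕ}
    (hr : ∀ n, r n ≠ 0 → n.Coprime q) (h0 : ∀ n, 0 ≤ r n) (hN : N < q) :
    ∃ χ : DirichletCharacter ℂ q, χ ≠ 1 ∧
      ∑ k ∈ Icc 1 N, ∑ m ∈ Icc 1 (N / k), r m * r (k * m) / √(k : ℝ) ≤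
        (‖LFunction χ (1 / 2)‖ + 3 * √(q : ℝ) * N / q.totient) * ∑ n ∈ Icc 1 N, r n ^ 2 :=
  exists_charMainSum_le hq hr h0 hN

/-- **Large central values**: for every `c < 1/√2` and all large `q` some `χ ≠ 1` mod `q` has
`|L (1/2, χ)| ≥ exp (c √(log q / log log q))`. -/
theorem large_central_values {c : ℝ} (hc : c < 1 / √2) :
    ∀ᶠ q : ℕ in atTop, ∀ _ : NeZero q, ∃ χ : DirichletCharacter ℂ q, χ ≠ 1 ∧
      Real.exp (c * √(Real.log q / Real.log (Real.log q))) ≤ ‖LFunction χ (1 / 2)‖ :=
  exists_large_lfunction hc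

end FA.Resonance.CharSummary
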