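import Fermat.Agent.CharacterTheory.Artin
import Fermat.Agent.ComplexGalois.FiniteImage
import Mathlib.FieldTheory.IsAlgClosed.AlgebraicClosure

/-!
# The classical theorems of character theory

* `characters_irreducible`, `characters_realised`: the finite set of irreducible complex characters;
* `characters_card_eq_classes`, `characters_orthogonality`, `characters_sum_sq`: as many as classes,
  orthogonality of rows and of columns, the squares of the degrees sum to `|G|`;
* `characters_degree_dvd`: a degree divides `|G|`; `characters_burnside_mod_sixteen`: for odd `|G|`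
  the number of classes is `|G|` modulo `16`;
* `artin_induction`, `artin_induction_virtual`: `|G| χ` is an integral combination of functions
  induced from linear characters of cyclic subgroups, which are virtual characters;
* `complexGalois_degree`: an irreducible continuous `Gal(K̄/K) → GL n ℂ` has `n` dividing the order
  of its image, `n²` at most it, and `n = 1` exactly when the image is abelian.
-/

set_option autoImplicit false
set_option linter.style.haveILetI false

noncomputable section

open Module FA.CharacterTheory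

namespace FA.Summary

variable (G : Type*) [Group G] [Fintype G]

/-- **The irreducible characters**: those of irreducible representations are in `irr G`. -/
theorem characters_irreducible (V : Type*) [AddCommGroup V] [Module ℂ V] [FiniteDimensional ℂ V]
    (σ : Representation ℂ G V) [Representation.IsIrreducible σ] : σ.character ∈ irr G :=
  character_mem_irr σ

/-- Every member of `irr G` is the character of an irreducible representation. -/
theorem characters_realised {χ : G → ℂ} (hχ : χ ∈ irr G) :
    ∃ W : Subrepresentation (FA.Solvable.regular G),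
      Representation.IsIrreducible W.toRepresentation ∧ W.toRepresentation.character = χ :=
  exists_of_mem_irr hχ

/-- **As many irreducible characters as classes.** -/
theorem characters_card_eq_classes : (irr G).card = Nat.card (ConjClasses G) :=
  card_irr

open scoped Classical in
/-- **Orthogonality** of rows and of columns. -/
theorem characters_orthogonality :
    (∀ χ ∈ irr G, ∀ ψ ∈ irr G, ∑ x, χ x * ψ x⁻¹ = if χ = ψ then (Nat.card G : ℂ) else 0) ∧
      ∀ g h : G, ∑ χ ∈ irr G, χ h * χ g⁻¹ =
        if IsConj g h then (Nat.card (Subgroup.centralizer ({g} : Set G)) : ℂ) else 0 := by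
  refine ⟨fun χ hχ ψ hψ => ?_, column_orthogonality⟩
  have h := pairing_irr hχ hψ
  rw [FA.FrobeniusGroups.pairing,
    inv_mul_eq_iff_eq_mul₀ (Nat.cast_ne_zero.2 Nat.card_pos.ne')] at h
  rw [h, mul_ite, mul_one, mul_zero]

/-- **The squares of the degrees** add up to the order. -/
theorem characters_sum_sq : ∑ χ ∈ irr G, χ 1 ^ 2 = (Nat.card G : ℂ) :=
  sum_sq_degree

/-- **Degrees divide the order** (Frobenius). -/
theorem characters_degree_dvd (V : Type*) [AddCommGroup V] [Module ℂ V] [FiniteDimensional ℂ V]
    (σ : Representation ℂ G V) [Representation.IsIrreducible σ] :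
    finrank ℂ V ∣ Nat.card G :=
  finrank_dvd_card σ

/-- **Burnside's congruence.** -/
theorem characters_burnside_mod_sixteen (hodd : Odd (Nat.card G)) :
    Nat.card G ≡ Nat.card (ConjClasses G) [MOD 16] :=
  card_modEq_classes hodd

open scoped Classical in
/-- **Artin's induction theorem.** -/
theorem artin_induction (V : Type*) [AddCommGroup V] [Module ℂ V] [FiniteDimensional ℂ V]
    (σ : Representation ℂ G V) :
    Nat.card G • σ.character ∈ AddSubgroup.closure
      {f : G → ℂ | ∃ C : Subgroup G, IsCyclic C ∧ ∃ ψ : C →* ℂˣ, f = fun x =>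
        (Nat.card C : ℂ)⁻¹ * ∑ g : G,
          if h : g * x * g⁻¹ ∈ C then (ψ ⟨_, h⟩ : ℂ) else 0} :=
  artin σ

open scoped Classical in
/-- The functions in Artin's theorem are virtual characters. -/
theorem artin_induction_virtual (C : Subgroup G) (ψ : C →* ℂˣ) :
    ∃ n : (G → ℂ) → ℤ, ∀ x, ((Nat.card C : ℂ)⁻¹ * ∑ g : G,
      if h : g * x * g⁻¹ ∈ C then (ψ ⟨_, h⟩ : ℂ) else 0) = ∑ χ ∈ irr G, (n χ : ℂ) * χ x := by
  obtain ⟨n, hn⟩ := exists_int_induced C ψ
  exact ⟨n, fun x => congrFun hn x⟩

/-- **Degrees of irreducible complex Galois representations.** -/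
theorem complexGalois_degree (K : Type*) [Field K] (n : ℕ) (hn : 0 < n)
    (ρ : (AlgebraicClosure K ≃ₐ[K] AlgebraicClosure K) →* Matrix.GeneralLinearGroup (Fin n) ℂ)
    (hρ : Continuous ρ)
    (hirr : ∀ U : Submodule ℂ (Fin n → ℂ),
      (∀ σ, ∀ v ∈ U, (ρ σ : Matrix (Fin n) (Fin n) ℂ).mulVec v ∈ U) → U = ⊥ ∨ U = ⊤) :
    n ∣ Nat.card ρ.range ∧ n ^ 2 ≤ Nat.card ρ.range ∧
      (n = 1 ↔ ∀ a ∈ ρ.range, ∀ b ∈ ρ.range, a * b = b * a) := by
  classical
  haveI := FA.ComplexGalois.finite_range ρ hρ
  haveI := Fintype.ofFinite ρ.range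
  haveI : NeZero n := ⟨hn.ne'⟩
  set τ : Representation ℂ ρ.range (Fin n → ℂ) :=
    (Matrix.toLinAlgEquiv' : Matrix (Fin n) (Fin n) ℂ ≃ₐ[ℂ] _).toAlgHom.toMonoidHom.comp
      ((Units.coeHom _).comp ρ.range.subtype)
  haveI : Representation.IsIrreducible τ := by
    haveI : Nontrivial (Subrepresentation τ) := ⟨⊥, ⊤, fun h => by
      obtain ⟨v, hv⟩ := exists_ne (0 : Fin n → ℂ)
      exact hv (show v ∈ (⊥ : Subrepresentation τ) from h ▸ trivial)⟩
    refine ⟨fun U => ?_⟩
    rcases hirr U.toSubmodule fun σ v hv =>
      U.apply_mem_toSubmodule (⟨ρ σ, σ, rfl⟩ : ρ.range) hv with h | h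
    · exact Or.inl (Subrepresentation.toSubmodule_injective h)
    · exact Or.inr (Subrepresentation.toSubmodule_injective h)
  have hdim : finrank ℂ (Fin n → ℂ) = n := finrank_fin_fun ℂ
  have hdvd := finrank_dvd_card τ
  rw [hdim] at hdvd
  refine ⟨hdvd, ?_, ⟨?_, fun h => ?_⟩⟩
  · have hle : ∀ χ ∈ irr ρ.range, ∃ d : ℕ, χ 1 = d := fun χ hχ =>
      ⟨_, (irr_degree hχ).choose_spec.1⟩
    choose! d hd using hle
    have hsum : ∑ χ ∈ irr ρ.range, d χ ^ 2 = Nat.card ρ.range := by
      have h := sum_sq_degree (G := ρ.range)
      rw [Finset.sum_congr rfl fun χ hχ => by rw [hd χ hχ]] at h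
      exact_mod_cast h
    have hτ := character_mem_irr τ
    have h1 : d τ.character = n := by
      have := hd _ hτ
      rw [Representation.char_one, hdim] at this
      exact_mod_cast this.symm
    rw [← hsum]
    calc n ^ 2 = d τ.character ^ 2 := by rw [h1]
      _ ≤ _ := Finset.single_le_sum (f := fun χ => d χ ^ 2) (fun χ _ => Nat.zero_le _) hτ
  · rintro rfl a - b -
    refine Units.ext (Matrix.ext fun i j => ?_)
    simp [Matrix.mul_apply, Fin.fin_one_eq_zero, mul_comm]
  · haveI : IsMulCommutative ρ.range :=
      ⟨⟨fun a b => Subtype.ext (h _ a.2 _ b.2)⟩⟩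
    rw [← hdim]
    exact Representation.IsIrreducible.finrank_eq_one_of_isMulCommutative τ

end FA.Summary

end
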