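import Fermat.Agent.CharacteristicVectors.LowRank

/-!
# Summary: characteristic vectors and a characterization of `ℤⁿ`

For positive unimodular lattices of any parity: the shadow transformation of the theta series,
the theorem of Elkies (1995) that `ℤⁿ` is the only one all of whose characteristic vectors have
norm at least `n`, and the lattices of rank at most nine. The list of Elkies for norm `n - 8` and
ranks from ten on are not treated; the negative definite statement is only the algebraic one.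
-/

set_option autoImplicit false

noncomputable section

namespace FA.CharacteristicVectors.Summary

open Complex Matrix
open IndefiniteUnimodular (val Iso Characteristic)
open scoped Real

variable {n : ℕ} {A : Matrix (Fin n) (Fin n) ℤ}

/-- The notions used, spelt out. -/
theorem characteristicVectors_def :
    (PosUnimodular A ↔ (A.transpose = A ∧ IsUnit A.det) ∧
      ∀ x : Fin n → ℤ, x ≠ 0 → 0 < x ⬝ᵥ (A *ᵥ x)) ∧
    (∀ z : ℂ, latTheta A z = ∑' v : Fin n → ℤ, cexp (π * I * (v ⬝ᵥ (A *ᵥ v) : ℤ) * z)) ∧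
    (∀ c : Fin n → ℤ, Characteristic A c ↔
      ∀ x : Fin n → ℤ, 2 ∣ c ⬝ᵥ (A *ᵥ x) - x ⬝ᵥ (A *ᵥ x)) ∧
    (∀ B : Matrix (Fin n) (Fin n) ℤ, Iso A B ↔ ∃ (P : Matrix (Fin n) (Fin n) ℤ) (Q : _),
      P * Q = 1 ∧ Q * P = 1 ∧ B = Pᵀ * A * P) :=
  ⟨Iff.rfl, fun _ => rfl, fun _ => Iff.rfl, fun _ => Iff.rfl⟩

/-- **The shadow.** -/
theorem shadow_transformation (hA : PosUnimodular A) {z : ℂ} (hz : 0 < z.im) :
    latTheta A (-1 / z) = (-I * z) ^ ((n : ℂ) / 2) * latTheta A z ∧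
    latTheta A (1 + -1 / z) = (-I * z) ^ ((n : ℂ) / 2) *
      ∑' w : {w : Fin n → ℤ // Characteristic A w},
        cexp (π * I * ((w.1 ⬝ᵥ (A *ᵥ w.1) : ℤ) : ℂ) / 4 * z) := by
  refine ⟨by simpa using latTheta_inversion hA hz, ?_⟩
  obtain ⟨c, hc⟩ := IndefiniteUnimodular.exists_characteristic hA.1
  have hcx : ∀ x : Fin n → ℤ, Characteristic A ((2 : ℤ) • x + c) := fun x y => by
    rw [add_dotProduct, smul_dotProduct, smul_eq_mul, add_sub_assoc]
    exact dvd_add (dvd_mul_right _ _) (hc y)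
  obtain ⟨F, hF⟩ : ∃ F : (Fin n → ℤ) → {w : Fin n → ℤ // Characteristic A w},
      ∀ x, F x = ⟨(2 : ℤ) • x + c, hcx x⟩ := ⟨_, fun _ => rfl⟩
  have hbij : Function.Bijective F := by
    refine ⟨fun x y h => funext fun i => ?_, fun w => ?_⟩
    · rw [hF, hF, Subtype.mk.injEq] at h
      simpa using congrFun (add_right_cancel h) i
    · obtain ⟨t, c₀, h0, hw⟩ := mulVec_diag_congr hA.1 w.2
      obtain ⟨t', c₁, h1, hc'⟩ := mulVec_diag_congr hA.1 hc
      have e : c₀ = c₁ :=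
        mulVec_injective_of_det_ne_zero hA.1.2.ne_zero (h0.trans h1.symm)
      refine ⟨t - t', ?_⟩
      rw [hF, Subtype.ext_iff, hw]
      show (2 : ℤ) • (t - t') + c = _
      rw [hc', e, smul_sub]
      abel
  rw [latTheta_shadow hA hc hz, Fintype.card_fin, shadowTheta,
    ← (Equiv.ofBijective F hbij).tsum_eq]
  simp [hF, val]

/-- **Jacobi's theta series does not vanish** in the upper half plane. -/
theorem jacobi_theta_ne_zero {z : ℂ} (hz : 0 < z.im) : jacobiTheta z ≠ 0 :=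
  jacobiTheta_ne_zero hz

/-- **Elkies' theorem.** -/
theorem elkies (hA : PosUnimodular A) :
    Iso A (1 : Matrix (Fin n) (Fin n) ℤ) ↔
      ∀ c : Fin n → ℤ, Characteristic A c → (n : ℤ) ≤ c ⬝ᵥ (A *ᵥ c) :=
  iso_one_iff hA

/-- Any other lattice has a characteristic vector of norm at most `n - 8`. -/
theorem short_characteristic (hA : PosUnimodular A)
    (h : ¬ Iso A (1 : Matrix (Fin n) (Fin n) ℤ)) :
    ∃ c : Fin n → ℤ, Characteristic A c ∧ c ⬝ᵥ (A *ᵥ c) + 8 ≤ n :=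
  exists_short_characteristic hA h

/-- The negative definite form: no characteristic `c` with `c·c + n > 0` forces `-I`. -/
theorem negative_definite_diagonal (hA : A.IsSymm) (hd : IsUnit A.det)
    (hneg : ∀ x : Fin n → ℤ, x ≠ 0 → x ⬝ᵥ (A *ᵥ x) < 0)
    (h : ∀ c : Fin n → ℤ, Characteristic A c → c ⬝ᵥ (A *ᵥ c) ≤ -(n : ℤ)) :
    Iso A (-1 : Matrix (Fin n) (Fin n) ℤ) :=
  iso_neg_one_of_characteristic ⟨hA, hd⟩ hneg h

/-- **Rank at most seven**: only `ℤⁿ`. -/
theorem unimodular_rank_le_seven (hn : n ≤ 7) (hA : PosUnimodular A) :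
    Iso A (1 : Matrix (Fin n) (Fin n) ℤ) :=
  iso_one_of_rank_le_seven hn hA

/-- **Rank eight**: `ℤ⁸` and `E₈`, which differ. -/
theorem unimodular_rank_eight :
    (∀ B : Matrix (Fin 8) (Fin 8) ℤ, PosUnimodular B →
      Iso B (1 : Matrix (Fin 8) (Fin 8) ℤ) ∨ Iso B FA.Summary.e8Gram) ∧
    ¬ Iso (1 : Matrix (Fin 8) (Fin 8) ℤ) FA.Summary.e8Gram :=
  ⟨fun _ hB => rank_eight hB, not_iso_one_e8⟩

/-- **Rank nine**: `ℤ⁹` and `ℤ ⊕ E₈`, which differ. -/
theorem unimodular_rank_nine :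
    (∀ B : Matrix (Fin 9) (Fin 9) ℤ, PosUnimodular B → Iso B (1 : Matrix (Fin 9) (Fin 9) ℤ) ∨
      Iso B (fromBlocks (1 : Matrix (Fin 1) (Fin 1) ℤ) 0 0 FA.Summary.e8Gram)) ∧
    ¬ Iso (1 : Matrix (Fin 9) (Fin 9) ℤ)
      (fromBlocks (1 : Matrix (Fin 1) (Fin 1) ℤ) 0 0 FA.Summary.e8Gram) := by
  have e : fromBlocks (1 : Matrix (Fin 1) (Fin 1) ℤ) 0 0 FA.Summary.e8Gram =
      IndefiniteUnimodular.dsum (IndefiniteUnimodular.line 1) FA.Summary.e8Gram := by
    simp [IndefiniteUnimodular.dsum, IndefiniteUnimodular.line]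
  rw [e]
  exact ⟨fun _ hB => rank_nine hB, not_iso_one_line_e8⟩

end FA.CharacteristicVectors.Summary

end
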