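import Fermat.Agent.ChebotarevGRH.Applications
import Fermat.Agent.Root.SummaryEffectiveChebotarev

/-!
# Chebotarev's density theorem on the Riemann hypothesis

After Lagarias and Odlyzko. In each theorem the Riemann hypothesis for one field is an argument:
every zero `z`, `0 < re z < 1`, of the entire continuation of `(s - 1) ζ` has `re z = 1/2`. The
constants are absolute and not explicit. Let `L/K` be Galois, `C` stable under conjugation,
`σ = |C| / [L : K]`, `S = 1 + log |d_L| + n_L`, and suppose the hypothesis for `ζ_L`.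

* `chebotarev_psi_of_RH`, `chebotarev_of_RH`: `ψ_C x = σ x` up to
  `A σ S √x (log x + 4) ^ 4` and `π_C x = σ ∫_2^x dt / log t` up to `A σ S √x log ^ 4 x`;
* `least_prime_frobenius_class_of_RH`: for `K = ℚ` every nonempty `C` contains a Frobenius element
  at an unramified prime `p ≤ B S ^ 2 log ^ 8 (2 S)`;
* `least_prime_progression_of_RH`: on the hypothesis for `ℚ(ζ_q)` every class prime to `q` contains
  a prime at most `B q ^ 2 log ^ 10 (2 q)`;
* `least_nonresidue_of_RH`: for an odd prime `p`, on the hypothesis for the splitting field of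
  `X ^ 2 - (-1) ^ ((p - 1) / 2) p`, a prime at most `B log ^ 2 p (log (16 log p)) ^ 8` is a
  quadratic nonresidue modulo `p` (Ankeny's bound up to powers of `log log p`).
-/

set_option autoImplicit false
set_option linter.style.haveILetI false

noncomputable section

universe u v

open NumberField IsDedekindDomain Module Polynomial
open FA.DedekindPIT (partialSum)
open FA.ChebError (mangoldtF)
open scoped Real Classical

namespace FA.Summary

/-- **`ψ_C` on the Riemann hypothesis.** -/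
theorem chebotarev_psi_of_RH : ∃ A : ℝ, ∀ (K : Type u) (L : Type v) [Field K] [NumberField K]
    [Field L] [NumberField L] [Algebra K L] [IsGalois K L],
    (∀ E : ℂ → ℂ, Differentiable ℂ E → (∀ s : ℂ, 1 < s.re → E s = (s - 1) * dedekindZeta L s) →
      ∀ z : ℂ, E z = 0 → 0 < z.re → z.re < 1 → z.re = 1 / 2) →
    ∀ C : Set (L ≃ₐ[K] L), (∀ g ∈ C, ∀ x, x * g * x⁻¹ ∈ C) → ∀ x : ℝ, 1 ≤ x →
      let σ := (Nat.card C : ℝ) / Nat.card (L ≃ₐ[K] L)
      let S := 1 + Real.log ((discr L).natAbs : ℝ) + finrank ℚ L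
      |partialSum (mangoldtF C) x - σ * x| ≤ A * σ * S * (√x * (Real.log x + 4) ^ 4) := by
  obtain ⟨A, -, h⟩ := FA.ChebGRH.exists_psiF_le.{u, v}
  exact ⟨A, fun K L _ _ _ _ _ _ hRH C hC x hx => h hRH C hC x hx⟩

/-- **Chebotarev's theorem on the Riemann hypothesis.** -/
theorem chebotarev_of_RH : ∃ A : ℝ, ∀ (K : Type u) (L : Type v) [Field K] [NumberField K]
    [Field L] [NumberField L] [Algebra K L] [IsGalois K L],
    (∀ E : ℂ → ℂ, Differentiable ℂ E → (∀ s : ℂ, 1 < s.re → E s = (s - 1) * dedekindZeta L s) →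
      ∀ z : ℂ, E z = 0 → 0 < z.re → z.re < 1 → z.re = 1 / 2) →
    ∀ C : Set (L ≃ₐ[K] L), (∀ g ∈ C, ∀ x, x * g * x⁻¹ ∈ C) → ∀ x : ℝ, 2 ≤ x →
      let σ := (Nat.card C : ℝ) / Nat.card (L ≃ₐ[K] L)
      let S := 1 + Real.log ((discr L).natAbs : ℝ) + finrank ℚ L
      |(Nat.card {v : HeightOneSpectrum (𝓞 K) // (Ideal.absNorm v.asIdeal : ℝ) ≤ x ∧
          ∃ Q : Ideal (𝓞 L), Q.IsMaximal ∧ Q.under (𝓞 K) = v.asIdeal ∧
            ∃ τ ∈ C, IsArithFrobAt (𝓞 K) τ Q} : ℝ) - σ * ∫ t in (2 : ℝ)..x, 1 / Real.log t| ≤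
        A * σ * S * (√x * Real.log x ^ 4) := by
  obtain ⟨A, -, h⟩ := FA.ChebGRH.exists_countF_le.{u, v}
  refine ⟨A, fun K L _ _ _ _ _ _ hRH C hC x hx => ?_⟩
  have h1 := h hRH C hC x hx
  rw [← FA.NaturalChebotarev.natCard_le_eq_countIn (FA.NaturalChebotarev.someFrobSet K L C)
    (show (0 : ℝ) ≤ x by linarith)] at h1
  exact h1

/-- **The least prime in a Frobenius class on the Riemann hypothesis.** -/
theorem least_prime_frobenius_class_of_RH : ∃ B : ℝ, 0 < B ∧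
    ∀ (L : Type v) [Field L] [NumberField L] [IsGalois ℚ L],
    (∀ E : ℂ → ℂ, Differentiable ℂ E → (∀ s : ℂ, 1 < s.re → E s = (s - 1) * dedekindZeta L s) →
      ∀ z : ℂ, E z = 0 → 0 < z.re → z.re < 1 → z.re = 1 / 2) →
    ∀ C : Set (L ≃ₐ[ℚ] L), (∀ g ∈ C, ∀ x, x * g * x⁻¹ ∈ C) → C.Nonempty →
      let S := 1 + Real.log ((discr L).natAbs : ℝ) + finrank ℚ L
      ∃ p : ℕ, p.Prime ∧ ¬ (p : ℤ) ∣ discr L ∧
        (p : ℝ) ≤ B * S ^ 2 * Real.log (2 * S) ^ 8 ∧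
        ∃ Q : Ideal (𝓞 L), Q.IsMaximal ∧ (p : 𝓞 L) ∈ Q ∧ ∃ τ ∈ C, IsArithFrobAt ℤ τ Q := by
  obtain ⟨B, hB, h⟩ := FA.ChebGRH.exists_rat_prime_of_RH.{v}
  refine ⟨B, hB, fun L _ _ _ hRH C hC hne => ?_⟩
  obtain ⟨p, hp, hd, -, hle, hQ⟩ := h hRH C hC hne (FA.ArtinHooley.fieldSize L) 1 le_rfl
    one_ne_zero (by
      rw [Nat.cast_one, Real.log_one]
      exact zero_le_one.trans (FA.ArtinHooley.one_le_fieldSize (K := L)).1)
  exact ⟨p, hp, hd, hle, hQ⟩

/-- **The least prime in an arithmetic progression on the Riemann hypothesis.** -/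
theorem least_prime_progression_of_RH : ∃ B : ℝ, 0 < B ∧ ∀ (q : ℕ) [NeZero q],
    (∀ E : ℂ → ℂ, Differentiable ℂ E →
      (∀ s : ℂ, 1 < s.re → E s = (s - 1) * dedekindZeta (CyclotomicField q ℚ) s) →
      ∀ z : ℂ, E z = 0 → 0 < z.re → z.re < 1 → z.re = 1 / 2) →
    ∀ a : ZMod q, IsUnit a → ∃ p : ℕ, p.Prime ∧ (p : ZMod q) = a ∧
      (p : ℝ) ≤ B * (q : ℝ) ^ 2 * Real.log (2 * q) ^ 10 := by
  obtain ⟨B, hB, h⟩ := FA.ChebGRH.exists_prime_progression_of_RH
  refine ⟨B, hB, fun q _ hRH a ha => ?_⟩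
  obtain ⟨u, rfl⟩ := ha
  exact h q hRH u

/-- **The least quadratic nonresidue on the Riemann hypothesis.** -/
theorem least_nonresidue_of_RH : ∃ B : ℝ, 0 < B ∧ ∀ p : ℕ, p.Prime → p ≠ 2 →
    (∀ E : ℂ → ℂ, Differentiable ℂ E →
      (∀ s : ℂ, 1 < s.re → E s = (s - 1) * dedekindZeta
        (X ^ 2 - C (((-1) ^ (p / 2) * p : ℤ) : ℚ) : ℚ[X]).SplittingField s) →
      ∀ z : ℂ, E z = 0 → 0 < z.re → z.re < 1 → z.re = 1 / 2) →
    ∃ l : ℕ, l.Prime ∧ ¬ IsSquare (l : ZMod p) ∧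
      (l : ℝ) ≤ B * Real.log p ^ 2 * Real.log (16 * Real.log p) ^ 8 := by
  obtain ⟨B, hB, h⟩ := FA.ChebGRH.exists_nonresidue_of_RH
  refine ⟨B, hB, fun p hp hp2 hRH => ?_⟩
  haveI : Fact p.Prime := ⟨hp⟩
  exact h p hp2 hRH

end FA.Summary

end
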