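import Fermat.Agent.ChebotarevMinors.Uncertainty

/-!
# Chebotarev's minors and Tao's uncertainty principle
-/

set_option autoImplicit false

open Polynomial

namespace FA.ChebotarevMinors.Summary

open Fermat.Agent.ChebotarevMinors

variable {p : ℕ} [Fact p.Prime]

/-- **Chebotarev**: every minor of the matrix `(ζ ^ (a * b))` of `p`th roots of unity is
nonzero. -/
theorem chebotarev_minor_ne_zero {K : Type*} [Field K] [CharZero K] {ζ : K}
    (hζ : IsPrimitiveRoot ζ p) {m : ℕ} {a b : Fin m → ZMod p} (ha : Function.Injective a)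
    (hb : Function.Injective b) :
    (Matrix.of fun i j => ζ ^ (a i * b j).val).det ≠ 0 :=
  det_minor_ne_zero p hζ ha hb

/-- A nonzero polynomial of degree below `p` has fewer roots among the `p`th roots of unity than
nonzero coefficients. -/
theorem sparse_polynomial_unity_roots_lt {K : Type*} [Field K] [CharZero K] [DecidableEq K]
    {ζ : K} (hζ : IsPrimitiveRoot ζ p) {g : K[X]} (hg : g ≠ 0) (hdeg : g.natDegree < p) :
    (Finset.univ.filter fun x : ZMod p => g.eval (ζ ^ x.val) = 0).card < g.support.card :=
  card_unity_roots_lt hζ hg hdeg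

/-- **Tao's uncertainty principle**. -/
theorem tao_uncertainty {f : ZMod p → ℂ} (hf : f ≠ 0) :
    p + 1 ≤ (Function.support f).ncard + (Function.support (ZMod.dft f)).ncard := by
  rw [Set.ncard_eq_toFinset_card _ (Set.toFinite _),
    Set.ncard_eq_toFinset_card _ (Set.toFinite _)]
  exact uncertainty hf

/-- The converse: all supports allowed by the inequality occur. -/
theorem tao_uncertainty_converse {A B : Finset (ZMod p)} (h : p + 1 ≤ A.card + B.card) :
    ∃ f : ZMod p → ℂ, Function.support f = A ∧ Function.support (ZMod.dft f) = B := by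
  obtain ⟨f, hA, hB⟩ := exists_supp_eq h
  refine ⟨f, Set.ext fun x => ?_, Set.ext fun x => ?_⟩
  · rw [Function.mem_support, Finset.mem_coe, ← hA, mem_supp]
  · rw [Function.mem_support, Finset.mem_coe, ← hB, mem_supp]

omit [Fact p.Prime] in
/-- Primality is needed: on `ZMod 4` total size `4` occurs. -/
theorem tao_uncertainty_fails_four :
    ∃ f : ZMod 4 → ℂ, f ≠ 0 ∧
      (Function.support f).ncard + (Function.support (ZMod.dft f)).ncard ≤ 4 := by
  obtain ⟨f, hf, h⟩ := uncertainty_fails_four
  refine ⟨f, hf, ?_⟩
  rw [Set.ncard_eq_toFinset_card _ (Set.toFinite _),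
    Set.ncard_eq_toFinset_card _ (Set.toFinite _)]
  exact h

end FA.ChebotarevMinors.Summary
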