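import Fermat.Agent.ChebotarevProduct.Field
import Fermat.Agent.EuclideanMinimum.BarnesSwinnertonDyer

/-!
# Chebotarev's theorem on the product of inhomogeneous linear forms

* `chebotarev_product`: for real `A`, `det A ≠ 0`, any `x` and `ε > 0` some integral `m` has
  `∏ |x i + (A m) i| ≤ |det A| / 2 ^ (n/2) + ε` (Minkowski conjectured `2 ^ n`).
* `totally_real_minimum`: in a totally real field of degree `n` every `z` has an integer `g` with
  `|N(z - g)| ≤ √d / 2 ^ (n/2)`; `totally_real_euclideanMinimum_le`: so `M ≤ √d / 2 ^ (n/2)`.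
* `real_quadratic_minimum`: for a real quadratic field `√d / 2 ^ 153 ≤ M ≤ √d / 2`.
-/

set_option autoImplicit false
set_option linter.style.haveILetI false

noncomputable section

namespace FA.ChebotarevProduct.Summary

open NumberField Module Matrix FA.EuclideanMinimum

theorem chebotarev_product {n : ℕ} (A : Matrix (Fin n) (Fin n) ℝ) (hA : A.det ≠ 0)
    (x : Fin n → ℝ) {ε : ℝ} (hε : 0 < ε) :
    ∃ m : Fin n → ℤ,
      ∏ i, |x i + (A *ᵥ fun j => (m j : ℝ)) i| ≤ |A.det| / Real.sqrt 2 ^ n + ε :=
  exists_product_le A hA x hε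

theorem totally_real_minimum (K : Type*) [Field K] [NumberField K] [IsTotallyReal K] (z : K) :
    ∃ g : 𝓞 K, |((Algebra.norm ℚ (z - g) : ℚ) : ℝ)| ≤
      Real.sqrt (discr K) / Real.sqrt 2 ^ finrank ℚ K :=
  exists_norm_le K z

theorem totally_real_euclideanMinimum_le (K : Type*) [Field K] [NumberField K] [IsTotallyReal K] :
    euclideanMinimum K ≤ Real.sqrt (discr K) / Real.sqrt 2 ^ finrank ℚ K :=
  euclideanMinimum_le K

theorem real_quadratic_minimum (K : Type*) [Field K] [NumberField K] [IsTotallyReal K]
    (hK : finrank ℚ K = 2) :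
    Real.sqrt (discr K) / 2 ^ 153 ≤ euclideanMinimum K ∧
      euclideanMinimum K ≤ Real.sqrt (discr K) / 2 := by
  have hc : InfinitePlace.nrComplexPlaces K = 0 := IsTotallyReal.nrComplexPlaces_eq_zero K
  have hpos : 0 < discr K := by
    have := sign_discr K
    rw [hc, pow_zero] at this
    exact Int.sign_eq_one_iff_pos.1 this
  refine ⟨?_, ?_⟩
  · have h := InfinitePlace.card_add_two_mul_card_eq_rank (K := K)
    have hplaces : Fintype.card (InfinitePlace K) = 2 := by
      rw [FA.UnitRankOneEuclidean.card_places_eq]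
      omega
    have := le_euclideanMinimum hplaces
    rwa [abs_of_pos (Int.cast_pos.2 hpos)] at this
  · have := euclideanMinimum_le K
    rwa [hK, Real.sq_sqrt zero_le_two] at this

end FA.ChebotarevProduct.Summary
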