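import Fermat.Agent.ChebyshevBias.Converse

/-!
# Chebyshev's bias modulo `4` as an equivalent of the Riemann hypothesis for `L (s, χ₄)`

With `D x = ∑_{p ≤ x} χ₄ p log p (x - p)`: all zeros of `L (s, χ₄)` in the critical strip are on
the line iff `D x < 0` for all large `x` (Landau 1918, after Hardy and Littlewood; Knapowski and
Turán), and then `D x ≤ -x √x / 6`.  Further `e D n ≤ C n ^ (α + 1)` leaves no zero in `re s > α`.
-/

set_option autoImplicit false

noncomputable section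

namespace FA.ChebyshevBias.Summary

open Filter
open DirichletCharacter (LFunction)

/-- The Riemann hypothesis for `L (s, χ₄)`, spelt out. -/
abbrev GRHFour : Prop := ∀ ρ : ℂ,
  LFunction (ZMod.χ₄.ringHomComp (Int.castRingHom ℂ)) ρ = 0 → 0 < ρ.re → ρ.re < 1 → ρ.re = 1 / 2

/-- `∑_{p ≤ x} χ₄ p log p (x - p)`, spelt out. -/
abbrev biasSum (x : ℝ) : ℝ := ∑ p ∈ (Finset.Icc 1 ⌊x⌋₊).filter Nat.Prime,
  ((ZMod.χ₄ (p : ZMod 4) : ℤ) : ℝ) * Real.log p * (x - p)

/-- **Chebyshev's bias on the Riemann hypothesis.** -/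
theorem bias_of_grh (h : GRHFour) : ∀ᶠ x : ℝ in atTop, biasSum x ≤ -(1 / 6) * (x * √x) :=
  eventually_weightedRace_le h

/-- **Landau's equivalence.** -/
theorem grh_iff_bias : GRHFour ↔ ∀ᶠ x : ℝ in atTop, biasSum x < 0 := by
  refine ⟨fun h => ((eventually_weightedRace_le h).and (eventually_gt_atTop 0)).mono
    fun x hx => ?_, grhFor_of_weightedRace_neg⟩
  have : 0 < x * √x := mul_pos hx.2 (Real.sqrt_pos.2 hx.2)
  have h1 : biasSum x ≤ -(1 / 6) * (x * √x) := hx.1
  linarith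

/-- **The bias with the two classes side by side.** -/
theorem three_beats_one (h : GRHFour) : ∀ᶠ x : ℝ in atTop,
    (∑ p ∈ (Finset.Icc 1 ⌊x⌋₊).filter (fun p => p.Prime ∧ p % 4 = 1), Real.log p * (x - p)) +
        1 / 6 * (x * √x) ≤
      ∑ p ∈ (Finset.Icc 1 ⌊x⌋₊).filter (fun p => p.Prime ∧ p % 4 = 3), Real.log p * (x - p) := by
  filter_upwards [bias_of_grh h] with x hx
  have e : biasSum x =
      (∑ p ∈ (Finset.Icc 1 ⌊x⌋₊).filter (fun p => p.Prime ∧ p % 4 = 1), Real.log p * (x - p)) -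
        ∑ p ∈ (Finset.Icc 1 ⌊x⌋₊).filter (fun p => p.Prime ∧ p % 4 = 3), Real.log p * (x - p) := by
    simp only [biasSum, Finset.sum_filter, ← Finset.sum_sub_distrib]
    refine Finset.sum_congr rfl fun p _ => ?_
    rw [show ((ZMod.χ₄ (p : ZMod 4) : ℤ) : ℝ) = FA.PrimeTwoSquares.chi p from rfl,
      FA.PrimeTwoSquares.chi_eq_ite]
    split_ifs <;> first | (exfalso; omega) | simp_all
  linarith

/-- **A one-sided bound leaves no zero to the right**; `e` selects the side. -/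
theorem zero_free_of_one_sided {α C e : ℝ} (hα : 1 / 2 ≤ α) (he : e ≠ 0)
    (h : ∀ᶠ n : ℕ in atTop, e * biasSum n ≤ C * (n : ℝ) ^ (α + 1)) {s : ℂ} (hs : α < s.re) :
    LFunction (ZMod.χ₄.ringHomComp (Int.castRingHom ℂ)) s ≠ 0 :=
  lChi_ne_zero_of_weighted hα he h hs

end FA.ChebyshevBias.Summary

end
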