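import Fermat.Agent.ChebyshevSquares.Main

/-!
# Chebyshev's theorem on `n ^ 2 + 1`

The largest prime factor of `∏_{n ≤ x} (n ^ 2 + 1)` grows faster than `x` (Chebyshev; Markov
1895). Two roots modulo each prime power and Mertens' theorem in the classes modulo `4`.
-/

set_option autoImplicit false

namespace FA.Summary

open Filter
open scoped Nat.Prime

/-- **Chebyshev's theorem**: for every `A` and all large `x` some `n ≤ x` has a prime factor of
`n ^ 2 + 1` above `A x`. -/
theorem chebyshev_sq_add_one (A : ℕ) :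
    ∀ᶠ x : ℕ in atTop, ∃ n ≤ x, ∃ p : ℕ, p.Prime ∧ A * x < p ∧ p ∣ n ^ 2 + 1 :=
  ChebyshevSquares.eventually_exists_large_prime A

/-- For every `A` infinitely many `n` have a prime factor of `n ^ 2 + 1` above `A n`. -/
theorem chebyshev_sq_add_one_infinite (A : ℕ) :
    {n : ℕ | ∃ p : ℕ, p.Prime ∧ A * n < p ∧ p ∣ n ^ 2 + 1}.Infinite :=
  ChebyshevSquares.infinite_large_prime A

/-- The primes up to `B` contribute at most `x log B + O (x)` and a term in `π B` to the
logarithm of `∏_{n ≤ x} (n ^ 2 + 1)`. -/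
theorem chebyshev_small_primes : ∃ C : ℝ, ∀ x B : ℕ, 1 ≤ B →
    (∑ p ∈ ((∏ n ∈ Finset.Icc 1 x, (n ^ 2 + 1)).primeFactors.filter (fun p => p ≤ B) : Finset ℕ),
      ((∏ n ∈ Finset.Icc 1 x, (n ^ 2 + 1)).factorization p : ℝ) * Real.log ((p : ℕ) : ℝ)) ≤
      x * Real.log B + C * x + 2 * (π B : ℝ) * Real.log ((x : ℝ) ^ 2 + 1) :=
  ChebyshevSquares.exists_smallLog_le

end FA.Summary
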