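import Fermat.Agent.ChowlaDworkEvans.Main

/-!
# The theorem of Chowla, Dwork and Evans

`p = a ^ 2 + b ^ 2` is a prime, `p ≡ 1 (mod 4)`, `a ≡ 1 (mod 4)`, `C` the binomial coefficient
`((p - 1) / 2 choose (p - 1) / 4)` and `Γ_p` Morita's Gamma function.

* `chowla_dwork_evans` (Chowla, Dwork and Evans 1986, conjectured by Beukers):
  `4 a C ≡ (2 ^ (p - 1) + 1) (4 a ^ 2 - p) (mod p ^ 2)`, that is
  `C ≡ (1 + (2 ^ (p - 1) - 1) / 2) (2 a - p / (2 a))`;
* `padicGamma_two_squares`: `u = -Γ_p (1 / 4) ^ 2 Γ_p (1 / 2)` is the unit root of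
  `u ^ 2 - 2 a u + p = 0`;
* `padicGamma_mod_sq`: for `p` odd and `p ∣ s, t` the second difference
  `Γ_p (x + s + t) Γ_p (x) - Γ_p (x + s) Γ_p (x + t)` is at most `|s| |t|`.

The proof is by the formula of Gross and Koblitz and the multiplication formula.
-/

set_option autoImplicit false

noncomputable section

open FA.DworkRationality FA.GrossKoblitz

namespace FA.ChowlaDworkEvans.Summary

variable {p : ℕ} [hp : Fact p.Prime]

/-- **The theorem of Chowla, Dwork and Evans.** -/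
theorem chowla_dwork_evans (hp4 : p % 4 = 1) (a b : ℤ) (h : (p : ℤ) = a ^ 2 + b ^ 2)
    (ha : a % 4 = 1) :
    4 * a * (((p - 1) / 2).choose ((p - 1) / 4) : ℕ) ≡
      (2 ^ (p - 1) + 1) * (4 * a ^ 2 - (p : ℤ)) [ZMOD ((p : ℤ) ^ 2)] := by
  obtain ⟨r, hr⟩ : ∃ r, p = 4 * r + 1 := ⟨p / 4, by omega⟩
  rw [show (p - 1) / 2 = 2 * r by omega, show (p - 1) / 4 = r by omega,
    show p - 1 = 4 * r by omega]
  exact (Int.modEq_iff_dvd.2 (Fermat.Agent.ChowlaDworkEvans.sq_dvd_congruence hr h ha)).symm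

/-- **The unit root in terms of Morita's Gamma function.** -/
theorem padicGamma_two_squares (hp4 : p % 4 = 1) (a b : ℤ) (h : (p : ℤ) = a ^ 2 + b ^ 2)
    (ha : a % 4 = 1) (x y : ℤ_[p]) (hx : 4 * x = 1) (hy : 2 * y = 1) :
    ‖-(padicGamma p x ^ 2 * padicGamma p y)‖ = 1 ∧
      (-(padicGamma p x ^ 2 * padicGamma p y)) ^ 2 -
        2 * (a : ℂ_[p]) * -(padicGamma p x ^ 2 * padicGamma p y) + (p : ℂ_[p]) = 0 := by
  obtain ⟨r, hr⟩ : ∃ r, p = 4 * r + 1 := ⟨p / 4, by omega⟩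
  have h4 := Fermat.Agent.ChowlaDworkEvans.four_mul_quarter hr
  have hxq : x = Fermat.Agent.ChowlaDworkEvans.quarter p :=
    (Fermat.Agent.ChowlaDworkEvans.isUnit_four hr).mul_left_cancel (hx.trans h4.symm)
  have hyq : y = 2 * Fermat.Agent.ChowlaDworkEvans.quarter p :=
    mul_left_cancel₀ two_ne_zero (by linear_combination hy - h4)
  subst hxq hyq
  exact ⟨Fermat.Agent.ChowlaDworkEvans.norm_unitRoot hr,
    (Fermat.Agent.ChowlaDworkEvans.unitRoot_spec hr h ha).1⟩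

/-- **The second difference of `Γ_p`.** -/
theorem padicGamma_mod_sq (hp2 : p ≠ 2) (x s t : ℤ_[p]) (hs : (p : ℤ_[p]) ∣ s)
    (ht : (p : ℤ_[p]) ∣ t) :
    ‖padicGamma p (x + s + t) * padicGamma p x - padicGamma p (x + s) * padicGamma p (x + t)‖ ≤
      ‖s‖ * ‖t‖ :=
  Fermat.Agent.ChowlaDworkEvans.padicGamma_second_difference hp2 hs ht x

end FA.ChowlaDworkEvans.Summary

end
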