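import Fermat.Agent.ChowlaLargeField.Main

/-!
# Chowla's conjecture over `F_q[t]` for large `q`

Carmon and Rudnick: for fixed `n` and `r`, the `r`-point correlations of the Moebius function over
the monic polynomials of degree `n` are `O(q ^ (n - 1/2))`, with constant `4 n ^ 2 r ^ 2`. So each
of the `2 ^ r` sign patterns occurs `q ^ n / 2 ^ r + O(q ^ (n - 1/2))` times.

The shifts are distinct of degree less than `n`, the characteristic is odd and `n (n - 1)` is not
zero in the field. Not claimed: characteristic dividing `n (n - 1)`, or `n` growing with fixed `q`.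
-/

set_option autoImplicit false
set_option linter.style.openClassical false
set_option linter.style.haveILetI false

noncomputable section

open scoped Classical
open Polynomial UniqueFactorizationMonoid

namespace FA.ChowlaLargeField.Summary

variable {k : Type*} [Field k] [Fintype k]

/-- The Moebius function of `k[t]`. -/
def moebius (h : k[X]) : ℤ :=
  if Squarefree h then (-1) ^ (normalizedFactors h).card else 0

theorem chowlaConst_le (r m : ℕ) : chowlaConst r m ≤ 4 * (m + 1) ^ 2 * r ^ 2 := by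
  have h : r * m ≤ r ^ 2 * m := Nat.mul_le_mul_right _ (Nat.le_self_pow two_ne_zero r)
  simp only [chowlaConst]
  nlinarith [Nat.zero_le (r ^ 2 * m), Nat.zero_le (r ^ 2)]

theorem natCast_rpow_sub_half {q : ℕ} (hq : 0 < q) (m : ℕ) :
    (q : ℝ) ^ (((m + 1 : ℕ) : ℝ) - 1 / 2) = (q : ℝ) ^ m * Real.sqrt q := by
  rw [Real.sqrt_eq_rpow, ← Real.rpow_natCast (q : ℝ) m, ← Real.rpow_add (by exact_mod_cast hq)]
  push_cast
  ring_nf

variable (hk : ringChar k ≠ 2) {n r : ℕ} (hn : ((n * (n - 1) : ℕ) : k) ≠ 0) (α : Fin r → k[X])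
  (hα : ∀ i, (α i).degree < n) (hinj : Function.Injective α)
include hk hn hα hinj

/-- **Chowla's conjecture for large fields** (Carmon, Rudnick). -/
theorem chowla_large_field (hr : 1 ≤ r) :
    |((∑ᶠ a : degreeLT k n, ∏ i, moebius (X ^ n + a.1 + α i) : ℤ) : ℝ)| ≤
      4 * (n : ℝ) ^ 2 * (r : ℝ) ^ 2 * (Fintype.card k : ℝ) ^ ((n : ℝ) - 1 / 2) := by
  obtain ⟨m, rfl⟩ := Nat.exists_eq_succ_of_ne_zero (n := n) fun h => hn (by simp [h])
  rw [Nat.succ_sub_one, Nat.cast_mul, mul_ne_zero_iff] at hn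
  haveI : Nonempty (Fin r) := ⟨⟨0, hr⟩⟩
  refine (abs_chowla_sum_le ⟨hk, hn.2, hn.1, hα, hinj⟩).trans ?_
  rw [natCast_rpow_sub_half Fintype.card_pos, mul_assoc, Fintype.card_fin]
  refine mul_le_mul_of_nonneg_right ?_ (by positivity)
  exact_mod_cast chowlaConst_le r m

/-- **Equidistribution of the sign patterns of the Moebius function.** -/
theorem moebius_sign_patterns (ε : Fin r → ℤ) (hε : ∀ i, ε i = 1 ∨ ε i = -1) :
    |(Nat.card {a : degreeLT k n // ∀ i, moebius (X ^ n + a.1 + α i) = ε i} : ℝ) -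
        (Fintype.card k : ℝ) ^ n / 2 ^ r| ≤
      8 * (n : ℝ) ^ 2 * (r : ℝ) ^ 2 * (Fintype.card k : ℝ) ^ ((n : ℝ) - 1 / 2) := by
  obtain ⟨m, rfl⟩ := Nat.exists_eq_succ_of_ne_zero (n := n) fun h => hn (by simp [h])
  rw [Nat.succ_sub_one, Nat.cast_mul, mul_ne_zero_iff] at hn
  have h := abs_pattern_count_sub_le ⟨hk, hn.2, hn.1, hα, hinj⟩ ε hε
  rw [Fintype.card_fin] at h
  refine h.trans ?_
  rw [natCast_rpow_sub_half Fintype.card_pos, mul_assoc (_ * _)]
  refine mul_le_mul_of_nonneg_right ?_ (by positivity)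
  have hc : (chowlaConst r m : ℝ) ≤ 4 * ((m + 1 : ℕ) : ℝ) ^ 2 * (r : ℝ) ^ 2 := by
    exact_mod_cast chowlaConst_le r m
  push_cast at hc ⊢
  linarith

/-- **Every sign pattern occurs** once `q` is large in terms of `n` and `r`. -/
theorem exists_sign_pattern (hq : (8 * n ^ 2 * r ^ 2 * 2 ^ r) ^ 2 < Fintype.card k)
    (ε : Fin r → ℤ) (hε : ∀ i, ε i = 1 ∨ ε i = -1) :
    ∃ F : k[X], F.Monic ∧ F.natDegree = n ∧ ∀ i, moebius (F + α i) = ε i := by
  obtain ⟨m, rfl⟩ := Nat.exists_eq_succ_of_ne_zero (n := n) fun h => hn (by simp [h])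
  have h := moebius_sign_patterns hk hn α hα hinj ε hε
  rw [natCast_rpow_sub_half Fintype.card_pos] at h
  set q := Fintype.card k
  rcases isEmpty_or_nonempty
    {a : degreeLT k (m + 1) // ∀ i, moebius (X ^ (m + 1) + a.1 + α i) = ε i} with he | ⟨⟨a, ha⟩⟩
  · exfalso
    rw [Nat.card_of_isEmpty, Nat.cast_zero, zero_sub, abs_neg, abs_of_nonneg (by positivity),
      div_le_iff₀ (by positivity), pow_succ] at h
    have hlt : ((8 * (m + 1) ^ 2 * r ^ 2 * 2 ^ r : ℕ) : ℝ) < Real.sqrt q := by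
      rw [Real.lt_sqrt (Nat.cast_nonneg _)]
      exact_mod_cast hq
    have hpos : (0 : ℝ) < (q : ℝ) ^ m * Real.sqrt q :=
      mul_pos (pow_pos (by exact_mod_cast Fintype.card_pos) _)
        (Real.sqrt_pos.mpr (by exact_mod_cast Fintype.card_pos))
    have h' := mul_lt_mul_of_pos_left hlt hpos
    rw [mul_assoc ((q : ℝ) ^ m) _ (Real.sqrt q), Real.mul_self_sqrt (Nat.cast_nonneg _)] at h'
    push_cast at h h'
    linarith
  · exact ⟨_, monic_X_pow_add (mem_degreeLT.mp a.2),
      natDegree_eq_of_degree_eq_some (by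
        rw [degree_add_eq_left_of_degree_lt (by rw [degree_X_pow]; exact mem_degreeLT.mp a.2),
          degree_X_pow]), ha⟩

end FA.ChowlaLargeField.Summary
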