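import Fermat.Agent.Christol.Applications

/-!
# Christol's theorem and Furstenberg's theorem on Hadamard products

A power series over a finite field with `q` elements is algebraic over the polynomials iff the
sequence of its coefficients is `q`-automatic: the sequences `n ↦ a (q ^ k n + r)`, `r < q ^ k`,
form a finite set. So the algebraic series are closed under termwise products and under taking
arithmetic progressions of coefficients; the series of Thue and Morse is algebraic and `∑ X ^ k!`
is transcendental.
-/

set_option autoImplicit false

noncomputable section

open Polynomial

namespace FA.Summary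

variable (F : Type*) [Field F] [Fintype F]

/-- **Christol's theorem.** -/
theorem christol_automatic (f : PowerSeries F) :
    IsAlgebraic F[X] f ↔
      {s : ℕ → F | ∃ k r : ℕ, r < Fintype.card F ^ k ∧
        s = fun n => PowerSeries.coeff (Fintype.card F ^ k * n + r) f}.Finite :=
  (FA.Christol.christol f).trans (FA.Christol.seqKernel_finite_iff f).symm

/-- **Furstenberg's theorem**: the termwise product of algebraic series is algebraic. -/
theorem furstenberg_hadamard {f g : PowerSeries F} (hf : IsAlgebraic F[X] f)
    (hg : IsAlgebraic F[X] g) :
    IsAlgebraic F[X] (PowerSeries.mk fun n => PowerSeries.coeff n f * PowerSeries.coeff n g) :=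
  FA.Christol.isAlgebraic_hadamard hf hg

/-- Arithmetic progressions of the coefficients. -/
theorem algebraic_series_progression {f : PowerSeries F} (hf : IsAlgebraic F[X] f) (a b : ℕ) :
    IsAlgebraic F[X] (PowerSeries.mk fun n => PowerSeries.coeff (a * n + b) f) :=
  FA.Christol.isAlgebraic_progression hf a b

/-- **Thue–Morse**: the parity of the binary digit sum. -/
theorem thueMorse_series_algebraic :
    IsAlgebraic (ZMod 2)[X] (PowerSeries.mk fun n => ((Nat.digits 2 n).sum : ZMod 2)) :=
  FA.Christol.isAlgebraic_thueMorse

open scoped Classical in
/-- **`∑ X ^ k!` is transcendental** over every finite field. -/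
theorem factorial_series_transcendental :
    Transcendental F[X]
      (PowerSeries.mk fun n => if ∃ j : ℕ, n = j.factorial then (1 : F) else 0) :=
  FA.Christol.transcendental_factorialSeries

end FA.Summary
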