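import Fermat.Agent.Chudnovsky.Hexagonal

/-!
# Chudnovsky's theorem

* `chudnovsky`: for a lattice let `f` satisfy `f' = -℘ - α` and have the period `ω₁` (so that
  `α = η₁ / ω₁`); two of `g₂, g₃, α, π / ω₁` are algebraically independent (Chudnovsky, 1976);
* `chudnovsky_pi_gamma_quarter`: `π` and `Γ(1/4)` are algebraically independent;
* `transcendental_gamma_quarter`: in particular `Γ(1/4)` is transcendental;
* `chudnovsky_pi_gamma_third`, `transcendental_gamma_third`: the same for `Γ(1/3)`.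

Independent of S01.
-/

set_option autoImplicit false

noncomputable section

open scoped Real PeriodPair

namespace FA.Chudnovsky.Summary

/-- **Chudnovsky, 1976.** -/
theorem chudnovsky (L : PeriodPair) {α : ℂ} {f : ℂ → ℂ}
    (hf : ∀ z ∉ L.lattice, HasDerivAt f (-℘[L] z - α) z)
    (hper : ∀ z ∉ L.lattice, f (z + L.ω₁) = f z) :
    ∃ i j : Fin 4, AlgebraicIndependent ℚ
      ![![L.g₂, L.g₃, α, (π : ℂ) / L.ω₁] i, ![L.g₂, L.g₃, α, (π : ℂ) / L.ω₁] j] := by
  obtain ⟨Φ, hΦ⟩ := FA.Chudnovsky.exists_frame L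
  rw [FA.Chudnovsky.alpha_eq_of_periodic Φ hf (by rw [hΦ]; exact hper), ← hΦ]
  exact FA.Chudnovsky.chudnovsky_frame Φ

/-- Such a function exists for every lattice. -/
theorem exists_periodic_primitive (L : PeriodPair) :
    ∃ (α : ℂ) (f : ℂ → ℂ), (∀ z ∉ L.lattice, HasDerivAt f (-℘[L] z - α) z) ∧
      ∀ z ∉ L.lattice, f (z + L.ω₁) = f z := by
  obtain ⟨Φ, hΦ⟩ := FA.Chudnovsky.exists_frame L
  exact ⟨FA.Chudnovsky.alpha Φ, FA.Chudnovsky.zt Φ,
    fun z hz => FA.Chudnovsky.hasDerivAt_zt Φ hz,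
    fun z _ => hΦ ▸ FA.Chudnovsky.zt_add_period Φ z⟩

/-- **`π` and `Γ(1/4)` are algebraically independent.** -/
theorem chudnovsky_pi_gamma_quarter :
    AlgebraicIndependent ℚ ![π, Real.Gamma (1 / 4)] :=
  FA.Chudnovsky.chudnovsky_pi_gamma

/-- **`Γ(1/4)` is transcendental.** -/
theorem transcendental_gamma_quarter : Transcendental ℚ (Real.Gamma (1 / 4)) := by
  simpa using chudnovsky_pi_gamma_quarter.transcendental 1

/-- **`π` and `Γ(1/3)` are algebraically independent.** -/
theorem chudnovsky_pi_gamma_third :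
    AlgebraicIndependent ℚ ![π, Real.Gamma (1 / 3)] :=
  FA.Chudnovsky.chudnovsky_pi_gamma_three

/-- **`Γ(1/3)` is transcendental.** -/
theorem transcendental_gamma_third : Transcendental ℚ (Real.Gamma (1 / 3)) := by
  simpa using chudnovsky_pi_gamma_third.transcendental 1

end FA.Chudnovsky.Summary

end
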