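import Fermat.Agent.Viazovska.Inequality

/-!
# Viazovska's two inequalities

For the sphere packing in dimension eight, with `φ₀ = (E₂ E₄ - E₆)² / Δ` and
`ψ_I = 128 ((θ₃⁴ + θ₄⁴) / θ₂⁸ + (θ₄⁴ - θ₂⁴) / θ₃⁸)` on the imaginary axis, and the two functions
`A, B = -t² φ₀(i / t) ∓ 36 / π² · ψ_I(i t)`:

* `viazovska_F_lt_G`: `(E₂ E₄ - E₆)² < 18 / π² · θ₂¹² (2 θ₂⁸ + 5 θ₂⁴ θ₄⁴ + 5 θ₄⁸)` on the axis;
* `viazovska_A_neg`: `A(t) < 0` for `t > 0`;
* `viazovska_B_pos`: `B(t) > 0` for `t > 0`.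

Here `thetaTwo`, `thetaThree`, `thetaFour` (in `FA.ThetaAGM`) are the real series
`∑ exp (-π t (n + 1/2)²)`, `∑ exp (-π t n²)`, `∑ (-1)ⁿ exp (-π t n²)`. The proof is Lee's, by
differential equations, without numerical computation.
-/

set_option autoImplicit false

noncomputable section

open UpperHalfPlane hiding I
open Complex FA.Viazovska FA.ThetaAGM
open scoped Real

namespace FA.Summary

theorem viazovska_dictionary {s : ℝ} (hs : 0 < s) :
    thetaTwo s ^ 4 = axTwo s ∧ thetaFour s ^ 4 = axFour s ∧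
      ((EisensteinSeries.E2 (ofComplex ((s : ℂ) * I)) * ModularForm.E₄ (ofComplex ((s : ℂ) * I)) -
        ModularForm.E₆ (ofComplex ((s : ℂ) * I))) ^ 2).re = uR s ^ 2 ∧
      (ModularForm.discriminant (ofComplex ((s : ℂ) * I))).re = discR s := by
  obtain ⟨ea, ec, -, -, -⟩ := axis_real hs
  obtain ⟨e2, e4, e6⟩ := re_eisTwo_axis hs
  obtain ⟨h1, h2⟩ := FA.Gleason.theta_ray (t := s)
  have k1 := sq_add_sq hs
  have k2 := sq_sub_sq hs
  have k3 := quartic hs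
  have hA : axTwo s = 4 * thetaThree (2 * s) ^ 2 * thetaTwo (2 * s) ^ 2 := by
    rw [axTwo, thetaFourthTwo, h1, h2]; norm_cast
  have hC : axFour s = (thetaThree (2 * s) ^ 2 - thetaTwo (2 * s) ^ 2) ^ 2 := by
    rw [axFour, thetaFourthFour, h1, h2]; norm_cast
  refine ⟨?_, ?_, ?_, ?_⟩
  · rw [hA]
    linear_combination k3 + (thetaThree s ^ 2 - thetaFour s ^ 2) * k1 +
      2 * thetaThree (2 * s) ^ 2 * k2
  · rw [hC, show thetaThree (2 * s) ^ 2 - thetaTwo (2 * s) ^ 2 = thetaFour s ^ 2 by linarith]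
    ring
  · rw [e2, e4, e6, ← ofReal_mul, ← ofReal_sub, ← ofReal_pow, ofReal_re, uR]
  · rw [discriminant_eq, ofComplex_apply_of_im_pos (im_axis hs)]
    simp only [ea, ec, discR]
    norm_cast

/-- **Viazovska's inequality**, as a statement on two forms of weight twelve and ten. -/
theorem viazovska_F_lt_G {s : ℝ} (hs : 0 < s) :
    ((EisensteinSeries.E2 (ofComplex ((s : ℂ) * I)) * ModularForm.E₄ (ofComplex ((s : ℂ) * I)) -
        ModularForm.E₆ (ofComplex ((s : ℂ) * I))) ^ 2).re <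
      18 / π ^ 2 * ((∑' n : ℤ, Real.exp (-π * s * ((n : ℝ) + 1 / 2) ^ 2)) ^ 12 *
        (2 * (∑' n : ℤ, Real.exp (-π * s * ((n : ℝ) + 1 / 2) ^ 2)) ^ 8 +
          5 * (∑' n : ℤ, Real.exp (-π * s * ((n : ℝ) + 1 / 2) ^ 2)) ^ 4 *
            (∑' n : ℤ, (-1 : ℝ) ^ n * Real.exp (-π * s * (n : ℝ) ^ 2)) ^ 4 +
          5 * (∑' n : ℤ, (-1 : ℝ) ^ n * Real.exp (-π * s * (n : ℝ) ^ 2)) ^ 8)) := by
  obtain ⟨d1, d2, d3, -⟩ := viazovska_dictionary hs
  rw [d3]
  refine (uR_sq_lt hs).trans_eq ?_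
  show _ = 18 / π ^ 2 * (thetaTwo s ^ 12 * (2 * thetaTwo s ^ 8 +
    5 * thetaTwo s ^ 4 * thetaFour s ^ 4 + 5 * thetaFour s ^ 8))
  rw [gR, ← d1, ← d2]
  ring

theorem viazovska_AB {t : ℝ} (ht : 0 < t) :
    t ^ 2 * (((EisensteinSeries.E2 (ofComplex (((1 / t : ℝ) : ℂ) * I)) *
        ModularForm.E₄ (ofComplex (((1 / t : ℝ) : ℂ) * I)) -
        ModularForm.E₆ (ofComplex (((1 / t : ℝ) : ℂ) * I))) ^ 2).re /
          (ModularForm.discriminant (ofComplex (((1 / t : ℝ) : ℂ) * I))).re) =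
      t ^ 2 * (uR (1 / t) ^ 2 / discR (1 / t)) ∧
    128 * ((thetaThree t ^ 4 + thetaFour t ^ 4) / thetaTwo t ^ 8 +
        (thetaFour t ^ 4 - thetaTwo t ^ 4) / thetaThree t ^ 8) =
      t ^ 2 * gR (1 / t) / (2 * discR (1 / t)) := by
  have hs : 0 < 1 / t := by positivity
  obtain ⟨-, -, d3, d4⟩ := viazovska_dictionary hs
  obtain ⟨d1, d2, -, -⟩ := viazovska_dictionary ht
  refine ⟨by rw [d3, d4], ?_⟩
  obtain ⟨-, -, -, ha, hc⟩ := axis_real hs
  obtain ⟨j1, j2, -⟩ := axis_inv hs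
  rw [one_div, inv_inv] at j1 j2
  rw [show thetaThree t ^ 4 = thetaTwo t ^ 4 + thetaFour t ^ 4 from (quartic ht).symm,
    show thetaTwo t ^ 8 = (thetaTwo t ^ 4) ^ 2 by ring,
    show thetaThree t ^ 8 = (thetaTwo t ^ 4 + thetaFour t ^ 4) ^ 2 by rw [quartic ht]; ring,
    d1, d2, j1, j2, gR, discR]
  rw [one_div] at ha hc ⊢
  rw [div_add_div _ _ (by positivity) (by positivity), mul_div_assoc',
    div_eq_div_iff (by positivity) (by positivity)]
  field_simp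
  ring

/-- **The first inequality**: `A(t) < 0`. -/
theorem viazovska_A_neg {t : ℝ} (ht : 0 < t) :
    -(t ^ 2 * (((EisensteinSeries.E2 (ofComplex (((1 / t : ℝ) : ℂ) * I)) *
        ModularForm.E₄ (ofComplex (((1 / t : ℝ) : ℂ) * I)) -
        ModularForm.E₆ (ofComplex (((1 / t : ℝ) : ℂ) * I))) ^ 2).re /
          (ModularForm.discriminant (ofComplex (((1 / t : ℝ) : ℂ) * I))).re)) -
      36 / π ^ 2 * (128 * ((thetaThree t ^ 4 + thetaFour t ^ 4) / thetaTwo t ^ 8 +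
        (thetaFour t ^ 4 - thetaTwo t ^ 4) / thetaThree t ^ 8)) < 0 := by
  obtain ⟨h1, h2⟩ := viazovska_AB ht
  have hs : 0 < 1 / t := by positivity
  have hg := gR_pos hs
  have hd := discR_pos hs
  have p1 : 0 ≤ t ^ 2 * (uR (1 / t) ^ 2 / discR (1 / t)) := by positivity
  have p2 : 0 < 36 / π ^ 2 * (t ^ 2 * gR (1 / t) / (2 * discR (1 / t))) := by positivity
  rw [h1, h2]
  linarith

/-- **The second inequality**: `B(t) > 0`. -/
theorem viazovska_B_pos {t : ℝ} (ht : 0 < t) :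
    0 < -(t ^ 2 * (((EisensteinSeries.E2 (ofComplex (((1 / t : ℝ) : ℂ) * I)) *
        ModularForm.E₄ (ofComplex (((1 / t : ℝ) : ℂ) * I)) -
        ModularForm.E₆ (ofComplex (((1 / t : ℝ) : ℂ) * I))) ^ 2).re /
          (ModularForm.discriminant (ofComplex (((1 / t : ℝ) : ℂ) * I))).re)) +
      36 / π ^ 2 * (128 * ((thetaThree t ^ 4 + thetaFour t ^ 4) / thetaTwo t ^ 8 +
        (thetaFour t ^ 4 - thetaTwo t ^ 4) / thetaThree t ^ 8)) := by
  obtain ⟨h1, h2⟩ := viazovska_AB ht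
  have hs : 0 < 1 / t := by positivity
  have h := mul_pos (div_pos (pow_pos ht 2) (discR_pos hs)) (sub_pos.2 (uR_sq_lt hs))
  rw [h1, h2]
  refine h.trans_eq ?_
  ring

end FA.Summary

end
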