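import Fermat.Agent.Ckmrv.Inequality
import Fermat.Agent.Root.SummaryViazovskaInequalities

/-!
# The inequalities of Cohn, Kumar, Miller, Radchenko and Viazovska

For the sphere packing in dimension twenty-four, with
`F = (49 E₄³ - 25 E₆²) E₂² - 48 E₆ E₄² E₂ + 49 E₄ E₆² - 25 E₄⁴`,
`G = θ₂²⁰ (2 θ₂⁸ + 7 θ₂⁴ θ₄⁴ + 7 θ₄⁸)`, `φ = F / Δ²` and
`ψ = (7 θ₄²⁰ θ₂⁸ + 7 θ₄²⁴ θ₂⁴ + 2 θ₄²⁸) / Δ²` on the imaginary axis:

* `ckmrv_F_pos`, `ckmrv_F_lt_G`: `0 < F < 432 / π² · G`;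
* `ckmrv_A_neg`: `-t¹⁰ φ(i / t) - 432 / π² · ψ(i t) < 0` for `t > 0`;
* `ckmrv_B_pos`: `-t¹⁰ φ(i / t) + 432 / π² · ψ(i t) > 0` for `t > 0`.

The proof is by differential equations, without numerical computation.
-/

set_option autoImplicit false

noncomputable section

open UpperHalfPlane hiding I
open Complex FA.Viazovska FA.ThetaAGM FA.Ckmrv
open scoped Real

namespace FA.Summary

/-- `F` in terms of the Eisenstein series. -/
theorem ckmrv_dictionary {s : ℝ} (hs : 0 < s) :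
    ((49 * ModularForm.E₄ (ofComplex ((s : ℂ) * I)) ^ 3 -
          25 * ModularForm.E₆ (ofComplex ((s : ℂ) * I)) ^ 2) *
        EisensteinSeries.E2 (ofComplex ((s : ℂ) * I)) ^ 2 -
      48 * ModularForm.E₆ (ofComplex ((s : ℂ) * I)) * ModularForm.E₄ (ofComplex ((s : ℂ) * I)) ^ 2 *
        EisensteinSeries.E2 (ofComplex ((s : ℂ) * I)) +
      49 * ModularForm.E₄ (ofComplex ((s : ℂ) * I)) *
        ModularForm.E₆ (ofComplex ((s : ℂ) * I)) ^ 2 -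
      25 * ModularForm.E₄ (ofComplex ((s : ℂ) * I)) ^ 4).re = fR s := by
  obtain ⟨e2, e4, e6⟩ := re_eisTwo_axis hs
  rw [e2, e4, e6]
  norm_cast
  simp only [fR, polyA, polyB, polyC, axP, axQ]
  ring

/-- **`F` is positive.** -/
theorem ckmrv_F_pos {s : ℝ} (hs : 0 < s) :
    0 < ((49 * ModularForm.E₄ (ofComplex ((s : ℂ) * I)) ^ 3 -
          25 * ModularForm.E₆ (ofComplex ((s : ℂ) * I)) ^ 2) *
        EisensteinSeries.E2 (ofComplex ((s : ℂ) * I)) ^ 2 -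
      48 * ModularForm.E₆ (ofComplex ((s : ℂ) * I)) * ModularForm.E₄ (ofComplex ((s : ℂ) * I)) ^ 2 *
        EisensteinSeries.E2 (ofComplex ((s : ℂ) * I)) +
      49 * ModularForm.E₄ (ofComplex ((s : ℂ) * I)) *
        ModularForm.E₆ (ofComplex ((s : ℂ) * I)) ^ 2 -
      25 * ModularForm.E₄ (ofComplex ((s : ℂ) * I)) ^ 4).re :=
  ckmrv_dictionary hs ▸ fR_pos hs

/-- **The inequality of Cohn, Kumar, Miller, Radchenko and Viazovska**, as a statement on two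
forms of weight sixteen and fourteen. -/
theorem ckmrv_F_lt_G {s : ℝ} (hs : 0 < s) :
    ((49 * ModularForm.E₄ (ofComplex ((s : ℂ) * I)) ^ 3 -
          25 * ModularForm.E₆ (ofComplex ((s : ℂ) * I)) ^ 2) *
        EisensteinSeries.E2 (ofComplex ((s : ℂ) * I)) ^ 2 -
      48 * ModularForm.E₆ (ofComplex ((s : ℂ) * I)) * ModularForm.E₄ (ofComplex ((s : ℂ) * I)) ^ 2 *
        EisensteinSeries.E2 (ofComplex ((s : ℂ) * I)) +
      49 * ModularForm.E₄ (ofComplex ((s : ℂ) * I)) *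
        ModularForm.E₆ (ofComplex ((s : ℂ) * I)) ^ 2 -
      25 * ModularForm.E₄ (ofComplex ((s : ℂ) * I)) ^ 4).re <
      432 / π ^ 2 * ((∑' n : ℤ, Real.exp (-π * s * ((n : ℝ) + 1 / 2) ^ 2)) ^ 20 *
        (2 * (∑' n : ℤ, Real.exp (-π * s * ((n : ℝ) + 1 / 2) ^ 2)) ^ 8 +
          7 * (∑' n : ℤ, Real.exp (-π * s * ((n : ℝ) + 1 / 2) ^ 2)) ^ 4 *
            (∑' n : ℤ, (-1 : ℝ) ^ n * Real.exp (-π * s * (n : ℝ) ^ 2)) ^ 4 +
          7 * (∑' n : ℤ, (-1 : ℝ) ^ n * Real.exp (-π * s * (n : ℝ) ^ 2)) ^ 8)) := by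
  obtain ⟨d1, d2, -, -⟩ := viazovska_dictionary hs
  rw [ckmrv_dictionary hs]
  refine (fR_lt hs).trans_eq ?_
  show _ = 432 / π ^ 2 * (thetaTwo s ^ 20 * (2 * thetaTwo s ^ 8 +
    7 * thetaTwo s ^ 4 * thetaFour s ^ 4 + 7 * thetaFour s ^ 8))
  rw [gFR, ← d1, ← d2]
  ring

theorem ckmrv_AB {t : ℝ} (ht : 0 < t) :
    (7 * thetaFour t ^ 20 * thetaTwo t ^ 8 + 7 * thetaFour t ^ 24 * thetaTwo t ^ 4 +
        2 * thetaFour t ^ 28) / (ModularForm.discriminant (ofComplex ((t : ℂ) * I))).re ^ 2 =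
      t ^ 10 * (gFR (1 / t) / discR (1 / t) ^ 2) := by
  have hs : 0 < 1 / t := by positivity
  obtain ⟨d1, d2, -, d4⟩ := viazovska_dictionary ht
  obtain ⟨-, -, -, ha, hc⟩ := axis_real hs
  obtain ⟨j1, j2, -⟩ := axis_inv hs
  rw [one_div, inv_inv] at j1 j2
  rw [show thetaTwo t ^ 8 = (thetaTwo t ^ 4) ^ 2 by ring,
    show thetaFour t ^ 20 = (thetaFour t ^ 4) ^ 5 by ring,
    show thetaFour t ^ 24 = (thetaFour t ^ 4) ^ 6 by ring,
    show thetaFour t ^ 28 = (thetaFour t ^ 4) ^ 7 by ring,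
    d1, d2, d4, gFR, discR, discR, j1, j2]
  rw [one_div] at ha hc ⊢
  field_simp
  ring

/-- **The first inequality**: `A(t) < 0`. -/
theorem ckmrv_A_neg {t : ℝ} (ht : 0 < t) :
    -(t ^ 10 * (((49 * ModularForm.E₄ (ofComplex (((1 / t : ℝ) : ℂ) * I)) ^ 3 -
          25 * ModularForm.E₆ (ofComplex (((1 / t : ℝ) : ℂ) * I)) ^ 2) *
        EisensteinSeries.E2 (ofComplex (((1 / t : ℝ) : ℂ) * I)) ^ 2 -
      48 * ModularForm.E₆ (ofComplex (((1 / t : ℝ) : ℂ) * I)) *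
        ModularForm.E₄ (ofComplex (((1 / t : ℝ) : ℂ) * I)) ^ 2 *
        EisensteinSeries.E2 (ofComplex (((1 / t : ℝ) : ℂ) * I)) +
      49 * ModularForm.E₄ (ofComplex (((1 / t : ℝ) : ℂ) * I)) *
        ModularForm.E₆ (ofComplex (((1 / t : ℝ) : ℂ) * I)) ^ 2 -
      25 * ModularForm.E₄ (ofComplex (((1 / t : ℝ) : ℂ) * I)) ^ 4).re /
        (ModularForm.discriminant (ofComplex (((1 / t : ℝ) : ℂ) * I))).re ^ 2)) -
      432 / π ^ 2 * ((7 * thetaFour t ^ 20 * thetaTwo t ^ 8 +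
        7 * thetaFour t ^ 24 * thetaTwo t ^ 4 + 2 * thetaFour t ^ 28) /
          (ModularForm.discriminant (ofComplex ((t : ℂ) * I))).re ^ 2) < 0 := by
  have hs : 0 < 1 / t := by positivity
  obtain ⟨-, -, -, d4⟩ := viazovska_dictionary hs
  rw [ckmrv_dictionary hs, ckmrv_AB ht, d4]
  have := fR_pos hs
  have := gFR_pos hs
  have := discR_pos hs
  have p1 : 0 < t ^ 10 * (fR (1 / t) / discR (1 / t) ^ 2) := by positivity
  have p2 : 0 < 432 / π ^ 2 * (t ^ 10 * (gFR (1 / t) / discR (1 / t) ^ 2)) := by positivity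
  linarith

/-- **The second inequality**: `B(t) > 0`. -/
theorem ckmrv_B_pos {t : ℝ} (ht : 0 < t) :
    0 < -(t ^ 10 * (((49 * ModularForm.E₄ (ofComplex (((1 / t : ℝ) : ℂ) * I)) ^ 3 -
          25 * ModularForm.E₆ (ofComplex (((1 / t : ℝ) : ℂ) * I)) ^ 2) *
        EisensteinSeries.E2 (ofComplex (((1 / t : ℝ) : ℂ) * I)) ^ 2 -
      48 * ModularForm.E₆ (ofComplex (((1 / t : ℝ) : ℂ) * I)) *
        ModularForm.E₄ (ofComplex (((1 / t : ℝ) : ℂ) * I)) ^ 2 *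
        EisensteinSeries.E2 (ofComplex (((1 / t : ℝ) : ℂ) * I)) +
      49 * ModularForm.E₄ (ofComplex (((1 / t : ℝ) : ℂ) * I)) *
        ModularForm.E₆ (ofComplex (((1 / t : ℝ) : ℂ) * I)) ^ 2 -
      25 * ModularForm.E₄ (ofComplex (((1 / t : ℝ) : ℂ) * I)) ^ 4).re /
        (ModularForm.discriminant (ofComplex (((1 / t : ℝ) : ℂ) * I))).re ^ 2)) +
      432 / π ^ 2 * ((7 * thetaFour t ^ 20 * thetaTwo t ^ 8 +
        7 * thetaFour t ^ 24 * thetaTwo t ^ 4 + 2 * thetaFour t ^ 28) /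
          (ModularForm.discriminant (ofComplex ((t : ℂ) * I))).re ^ 2) := by
  have hs : 0 < 1 / t := by positivity
  obtain ⟨-, -, -, d4⟩ := viazovska_dictionary hs
  rw [ckmrv_dictionary hs, ckmrv_AB ht, d4]
  have h := mul_pos (div_pos (pow_pos ht 10) (pow_pos (discR_pos hs) 2)) (sub_pos.2 (fR_lt hs))
  refine h.trans_eq ?_
  ring

end FA.Summary

end
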