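import Fermat.Agent.PackingLP.Gaussian
import Fermat.Agent.Perfect.Packing

/-!
# The linear programming bound for sphere packings

* `cohn_elkies`: let `f` be continuous on `ℝ ^ n`, with `f` and its Fourier transform
  `F` bounded by `C / (1 + |x|²) ^ n`, with `F ≥ 0` everywhere and `f x ≤ 0` for `|x| ≥ 1`. If the
  balls of radius `r` about the points `p + B ℤ ^ n`, `p` in a finite set, are pairwise disjoint,
  their density is at most `f(0) / F(0)` times the volume of the ball of radius `1 / 2`;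
* `cohn_elkies_cube`: the same bound for disjoint balls inside a cube, with no periodicity;
* `spherePacking_density_le`: disjoint balls of one radius inside a cube of side `S` in dimension
  `n` have total volume at most `3 (n + 1) (e / 4) ^ (n / 2) S ^ n`;
* `periodicPacking_density_le`, `latticePacking_density_le`: periodic packings, in particular
  lattice packings, have density at most `3 (n + 1) (e / 4) ^ (n / 2)`;
* `spherePacking_bound_tendsto`, `densest_latticePacking_tendsto`: this tends to zero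
  exponentially, and so does the density of the densest lattice packing.
-/

set_option autoImplicit false

noncomputable section

open MeasureTheory Complex Matrix Filter Set FA.Perfect FA.PackingLP
open scoped Real Topology

namespace FA.Summary

/-- **Cohn and Elkies**: the linear programming bound for periodic packings of balls. -/
theorem cohn_elkies {n : ℕ} {f F : (Fin n → ℝ) → ℝ} (hf : Continuous f)
    (hfd : ∃ C : ℝ, ∀ x, ‖f x‖ ≤ C * ((1 + ∑ i, x i ^ 2) ^ n)⁻¹)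
    (hFd : ∃ C : ℝ, ∀ ξ, ‖F ξ‖ ≤ C * ((1 + ∑ i, ξ i ^ 2) ^ n)⁻¹)
    (hF : ∀ ξ : Fin n → ℝ, ∫ x : Fin n → ℝ,
      cexp (-(2 * π * I * ∑ i, (ξ i : ℂ) * (x i : ℂ))) * (f x : ℂ) = (F ξ : ℂ))
    (hF0 : ∀ ξ, 0 ≤ F ξ) (hf0 : ∀ x, 1 ≤ ∑ i, x i ^ 2 → f x ≤ 0)
    {r : ℝ} (hr : 0 < r) {B : Matrix (Fin n) (Fin n) ℝ} (hB : B.det ≠ 0)
    (t : Finset (EuclideanSpace ℝ (Fin n)))
    (hpack : Pairwise fun a b : t × (Fin n → ℤ) =>
      Disjoint (Metric.ball ((a.1 : EuclideanSpace ℝ (Fin n)) +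
          WithLp.toLp 2 (B *ᵥ fun i => (a.2 i : ℝ))) r)
        (Metric.ball ((b.1 : EuclideanSpace ℝ (Fin n)) +
          WithLp.toLp 2 (B *ᵥ fun i => (b.2 i : ℝ))) r)) :
    (t.card : ℝ) * volume.real (Metric.ball (0 : EuclideanSpace ℝ (Fin n)) r) * F 0 ≤
      |B.det| * volume.real (Metric.ball (0 : EuclideanSpace ℝ (Fin n)) (1 / 2)) * f 0 :=
  periodic_density ⟨hf, hfd, hF, hFd, hF0, hf0⟩ hr hB t hpack

/-- **Cohn and Elkies**: the bound for disjoint balls inside a cube. -/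
theorem cohn_elkies_cube {n : ℕ} (hn : 0 < n) {f F : (Fin n → ℝ) → ℝ} (hf : Continuous f)
    (hfd : ∃ C : ℝ, ∀ x, ‖f x‖ ≤ C * ((1 + ∑ i, x i ^ 2) ^ n)⁻¹)
    (hFd : ∃ C : ℝ, ∀ ξ, ‖F ξ‖ ≤ C * ((1 + ∑ i, ξ i ^ 2) ^ n)⁻¹)
    (hF : ∀ ξ : Fin n → ℝ, ∫ x : Fin n → ℝ,
      cexp (-(2 * π * I * ∑ i, (ξ i : ℂ) * (x i : ℂ))) * (f x : ℂ) = (F ξ : ℂ))
    (hF0 : ∀ ξ, 0 ≤ F ξ) (hf0 : ∀ x, 1 ≤ ∑ i, x i ^ 2 → f x ≤ 0)
    {r S : ℝ} (hr : 0 < r) (hS : 0 ≤ S) (t : Finset (EuclideanSpace ℝ (Fin n)))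
    (hcube : ∀ p ∈ t, ∀ x ∈ Metric.ball p r, ∀ i, x i ∈ Set.Icc 0 S)
    (hdisj : (t : Set (EuclideanSpace ℝ (Fin n))).PairwiseDisjoint fun p => Metric.ball p r) :
    (t.card : ℝ) * volume.real (Metric.ball (0 : EuclideanSpace ℝ (Fin n)) r) * F 0 ≤
      S ^ n * volume.real (Metric.ball (0 : EuclideanSpace ℝ (Fin n)) (1 / 2)) * f 0 :=
  cube_density ⟨hf, hfd, hF, hFd, hF0, hf0⟩ hn.ne' hr t hcube hdisj hS

/-- **Exponentially small density**: disjoint equal balls inside a cube. -/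
theorem spherePacking_density_le {n : ℕ} (hn : 0 < n) {r S : ℝ} (hr : 0 < r) (hS : 0 ≤ S)
    (t : Finset (EuclideanSpace ℝ (Fin n)))
    (hcube : ∀ p ∈ t, ∀ x ∈ Metric.ball p r, ∀ i, x i ∈ Set.Icc 0 S)
    (hdisj : (t : Set (EuclideanSpace ℝ (Fin n))).PairwiseDisjoint fun p => Metric.ball p r) :
    (t.card : ℝ) * volume.real (Metric.ball (0 : EuclideanSpace ℝ (Fin n)) r) ≤
      3 * ((n : ℝ) + 1) * Real.sqrt (Real.exp 1 / 4) ^ n * S ^ n := by
  obtain ⟨hpos, hle⟩ := testFourier_zero_pos hn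
  refine le_of_mul_le_mul_right ((cube_density (isTestFunction_testFun hn) hn.ne' hr t hcube hdisj
    hS).trans ?_) hpos
  rw [mul_assoc, mul_right_comm _ (S ^ n) (testFourier n 0), mul_comm _ (S ^ n)]
  exact mul_le_mul_of_nonneg_left hle (pow_nonneg hS n)

/-- **Exponentially small density**: periodic packings. -/
theorem periodicPacking_density_le {n : ℕ} (hn : 0 < n) {r : ℝ} (hr : 0 < r)
    {B : Matrix (Fin n) (Fin n) ℝ} (hB : B.det ≠ 0) (t : Finset (EuclideanSpace ℝ (Fin n)))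
    (hpack : Pairwise fun a b : t × (Fin n → ℤ) =>
      Disjoint (Metric.ball ((a.1 : EuclideanSpace ℝ (Fin n)) +
          WithLp.toLp 2 (B *ᵥ fun i => (a.2 i : ℝ))) r)
        (Metric.ball ((b.1 : EuclideanSpace ℝ (Fin n)) +
          WithLp.toLp 2 (B *ᵥ fun i => (b.2 i : ℝ))) r)) :
    (t.card : ℝ) * volume.real (Metric.ball (0 : EuclideanSpace ℝ (Fin n)) r) / |B.det| ≤
      3 * ((n : ℝ) + 1) * Real.sqrt (Real.exp 1 / 4) ^ n := by
  obtain ⟨hpos, hle⟩ := testFourier_zero_pos hn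
  rw [div_le_iff₀ (abs_pos.2 hB)]
  refine le_of_mul_le_mul_right ((periodic_density (isTestFunction_testFun hn) hr hB t
    hpack).trans ?_) hpos
  rw [mul_assoc, mul_right_comm _ |B.det| (testFourier n 0), mul_comm _ |B.det|]
  exact mul_le_mul_of_nonneg_left hle (abs_nonneg _)

/-- **Exponentially small density**: lattice packings. -/
theorem latticePacking_density_le {n : ℕ} (hn : 0 < n) {δ : ℝ}
    (hδ : δ ∈ latticePackingDensities n) :
    δ ≤ 3 * ((n : ℝ) + 1) * Real.sqrt (Real.exp 1 / 4) ^ n := by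
  obtain ⟨B, r, hB, hr, hpack, rfl⟩ := hδ
  refine le_of_eq_of_le (by simp) (periodicPacking_density_le hn hr hB {0} fun a b hab => ?_)
  have ha : ((a.1 : EuclideanSpace ℝ (Fin n))) = 0 := Finset.mem_singleton.1 a.1.2
  have hb : ((b.1 : EuclideanSpace ℝ (Fin n))) = 0 := Finset.mem_singleton.1 b.1.2
  simp only [ha, hb, zero_add]
  exact hpack fun h => hab (Prod.ext (Subtype.ext (ha.trans hb.symm)) h)

/-- The bound tends to zero. -/
theorem spherePacking_bound_tendsto :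
    Tendsto (fun n : ℕ => 3 * ((n : ℝ) + 1) * Real.sqrt (Real.exp 1 / 4) ^ n) atTop (𝓝 0) := by
  have h0 : 0 ≤ lpRate := Real.sqrt_nonneg _
  have h1 := (tendsto_self_mul_const_pow_of_lt_one h0 lpRate_lt_one).const_mul 3
  have h2 := (tendsto_pow_atTop_nhds_zero_of_lt_one h0 lpRate_lt_one).const_mul 3
  have h := h1.add h2
  simp only [mul_zero, add_zero] at h
  refine h.congr fun n => ?_
  rw [lpRate]
  ring

/-- The density of the densest lattice packing tends to zero. -/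
theorem densest_latticePacking_tendsto :
    Tendsto (fun n : ℕ => sSup (latticePackingDensities (n + 1))) atTop (𝓝 0) := by
  refine tendsto_of_tendsto_of_tendsto_of_le_of_le tendsto_const_nhds
    (spherePacking_bound_tendsto.comp (tendsto_add_atTop_nat 1)) (fun n => ?_) fun n => ?_
  · obtain ⟨δ, hδ⟩ := exists_densest n
    rw [hδ.csSup_eq]
    obtain ⟨B, r, -, -, -, h⟩ := hδ.1
    exact h ▸ div_nonneg measureReal_nonneg (abs_nonneg _)
  · obtain ⟨δ, hδ⟩ := exists_densest n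
    rw [hδ.csSup_eq]
    exact latticePacking_density_le (Nat.succ_pos n) hδ.1

end FA.Summary

end
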