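import Fermat.Agent.Ckmrv.Function
import Fermat.Agent.Ckmrv.LeechBasis
import Fermat.Agent.Root.SummarySpherePacking
import Fermat.Agent.Root.SummaryCkmrvInequalities

/-!
# The sphere packing problem in dimension twenty-four

* `ckmrv_magic_function`: the function of Cohn, Kumar, Miller, Radchenko and Viazovska: `f` and its
  Fourier transform `F` decay like `(1 + |x|²) ^ (-24)`, `F ≥ 0`, `f x ≤ 0` for `|x| ≥ 1`,
  `f 0 = 1`, `F 0 = 2 ^ (-24)`;
* `ckmrv_twentyfour_periodic`: periodic packings of balls in `ℝ²⁴` have density at most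
  `π¹² / 12!`;
* `ckmrv_twentyfour_cube`: disjoint balls of one radius inside a cube of side `S` have total volume
  at most `π¹² / 12! · S²⁴`;
* `ckmrv_leech_unit`: the Leech lattice, scaled, has covolume one and minimal norm four;
* `ckmrv_twentyfour`: `π¹² / 12!` is the greatest density of a lattice packing, attained by the
  Leech lattice.
-/

set_option autoImplicit false

noncomputable section

open MeasureTheory Complex Matrix Set FA.Perfect FA.PackingLP FA.Ckmrv
open scoped Real Nat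

namespace FA.Summary

/-- **The magic function in dimension twenty-four.** -/
theorem ckmrv_magic_function :
    ∃ f F : (Fin 24 → ℝ) → ℝ, Continuous f ∧
      (∃ C : ℝ, ∀ x, ‖f x‖ ≤ C * ((1 + ∑ i, x i ^ 2) ^ 24)⁻¹) ∧
      (∃ C : ℝ, ∀ ξ, ‖F ξ‖ ≤ C * ((1 + ∑ i, ξ i ^ 2) ^ 24)⁻¹) ∧
      (∀ ξ : Fin 24 → ℝ, ∫ x : Fin 24 → ℝ,
        cexp (-(2 * π * I * ∑ i, (ξ i : ℂ) * (x i : ℂ))) * (f x : ℂ) = (F ξ : ℂ)) ∧
      (∀ ξ, 0 ≤ F ξ) ∧ (∀ x, 1 ≤ ∑ i, x i ^ 2 → f x ≤ 0) ∧ f 0 = 1 ∧ F 0 = 1 / 2 ^ 24 :=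
  ⟨leechTest, leechTestFourier, isTestFunction_leechTest.continuous, isTestFunction_leechTest.decay,
    isTestFunction_leechTest.decay_fourier, isTestFunction_leechTest.fourier,
    isTestFunction_leechTest.nonneg, isTestFunction_leechTest.nonpos, leechTest_zero.1,
    leechTest_zero.2⟩

theorem twentyfourBall_volume :
    volume.real (Metric.ball (0 : EuclideanSpace ℝ (Fin 24)) (1 / 2)) * 2 ^ 24 = π ^ 12 / 12 ! := by
  rw [measureReal_def, EuclideanSpace.volume_ball, Fintype.card_fin, ENNReal.toReal_mul,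
    ENNReal.toReal_pow, ENNReal.toReal_ofReal (by norm_num),
    show ((24 : ℕ) : ℝ) / 2 + 1 = ((12 : ℕ) : ℝ) + 1 by norm_num, Real.Gamma_nat_eq_factorial,
    ENNReal.toReal_ofReal (by positivity),
    show Real.sqrt π ^ 24 = π ^ 12 by
      rw [show 24 = 2 * 12 by norm_num, pow_mul, Real.sq_sqrt Real.pi_pos.le],
    mul_right_comm, ← mul_pow]
  norm_num

/-- **Cohn, Kumar, Miller, Radchenko, Viazovska**: periodic packings in dimension twenty-four. -/
theorem ckmrv_twentyfour_periodic {r : ℝ} (hr : 0 < r)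
    {B : Matrix (Fin 24) (Fin 24) ℝ} (hB : B.det ≠ 0) (t : Finset (EuclideanSpace ℝ (Fin 24)))
    (hpack : Pairwise fun a b : t × (Fin 24 → ℤ) =>
      Disjoint (Metric.ball ((a.1 : EuclideanSpace ℝ (Fin 24)) +
          WithLp.toLp 2 (B *ᵥ fun i => (a.2 i : ℝ))) r)
        (Metric.ball ((b.1 : EuclideanSpace ℝ (Fin 24)) +
          WithLp.toLp 2 (B *ᵥ fun i => (b.2 i : ℝ))) r)) :
    (t.card : ℝ) * volume.real (Metric.ball (0 : EuclideanSpace ℝ (Fin 24)) r) / |B.det| ≤
      π ^ 12 / 12 ! := by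
  have h := periodic_density isTestFunction_leechTest hr hB t hpack
  rw [leechTest_zero.1, leechTest_zero.2] at h
  rw [div_le_iff₀ (abs_pos.2 hB), ← twentyfourBall_volume]
  simp only [ballVolume] at h
  linarith

/-- **Cohn, Kumar, Miller, Radchenko, Viazovska**: disjoint balls inside a cube in dimension
twenty-four. -/
theorem ckmrv_twentyfour_cube {r S : ℝ} (hr : 0 < r) (hS : 0 ≤ S)
    (t : Finset (EuclideanSpace ℝ (Fin 24)))
    (hcube : ∀ p ∈ t, ∀ x ∈ Metric.ball p r, ∀ i, x i ∈ Set.Icc 0 S)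
    (hdisj : (t : Set (EuclideanSpace ℝ (Fin 24))).PairwiseDisjoint fun p => Metric.ball p r) :
    (t.card : ℝ) * volume.real (Metric.ball (0 : EuclideanSpace ℝ (Fin 24)) r) ≤
      π ^ 12 / 12 ! * S ^ 24 := by
  have h := cube_density isTestFunction_leechTest (by norm_num) hr t hcube hdisj hS
  rw [leechTest_zero.1, leechTest_zero.2] at h
  rw [← twentyfourBall_volume]
  simp only [ballVolume] at h
  linarith

/-- **The Leech lattice at covolume one**: its points are points of `leechLattice` over `√8`, and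
its minimal norm is at least four. -/
theorem ckmrv_leech_unit : ∃ L : Matrix (Fin 24) (Fin 24) ℝ, |L.det| = 1 ∧
    (∀ z : Fin 24 → ℤ, ∃ x ∈ leechLattice,
      latticePoint L z = WithLp.toLp 2 fun i => (x i : ℝ) / Real.sqrt 8) ∧
    ∀ z : Fin 24 → ℤ, z ≠ 0 → 4 ≤ ‖latticePoint L z‖ ^ 2 := by
  set M : Matrix (Fin 24) (Fin 24) ℝ := leechBasis.map fun x : ℤ => (x : ℝ)
  have hM : M.det = 8 ^ 12 := by
    rw [show M.det = ((leechBasis.det : ℤ) : ℝ) from ((Int.castRingHom ℝ).map_det leechBasis).symm,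
      leechBasis_det]
    norm_num
  have hs : Real.sqrt 8 ^ 24 = 8 ^ 12 := by
    rw [show 24 = 2 * 12 by norm_num, pow_mul, Real.sq_sqrt (by norm_num)]
  refine ⟨(Real.sqrt 8)⁻¹ • M, ?_, ?_⟩
  · rw [det_smul, Fintype.card_fin, hM, inv_pow, hs, inv_mul_cancel₀ (by norm_num), abs_one]
  have hpt : ∀ z : Fin 24 → ℤ, latticePoint ((Real.sqrt 8)⁻¹ • M) z =
      WithLp.toLp 2 fun i => ((leechBasis *ᵥ z) i : ℝ) / Real.sqrt 8 := fun z => by
    refine congrArg (WithLp.toLp 2) (funext fun i => ?_)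
    rw [Matrix.smul_mulVec, Pi.smul_apply, smul_eq_mul, inv_mul_eq_div]
    simp only [Matrix.mulVec, dotProduct, M, Matrix.map_apply, castVec]
    push_cast
    rfl
  refine ⟨fun z => ⟨_, leechBasis_mulVec z, hpt z⟩, fun z hz => ?_⟩
  have hne : leechBasis *ᵥ z ≠ 0 := fun h => hz
    (Matrix.eq_zero_of_mulVec_eq_zero (by rw [leechBasis_det]; norm_num) h)
  have hmin : (32 : ℝ) ≤ ∑ i, ((leechBasis *ᵥ z) i : ℝ) ^ 2 := by
    exact_mod_cast leech_minimal.1 _ (leechBasis_mulVec z) hne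
  rw [hpt, EuclideanSpace.real_norm_sq_eq]
  simp only [div_pow, Real.sq_sqrt (show (0 : ℝ) ≤ 8 by norm_num), ← Finset.sum_div]
  linarith

/-- **Cohn, Kumar, Miller, Radchenko, Viazovska**: the Leech lattice gives the densest lattice
packing, and no packing in dimension twenty-four is denser. -/
theorem ckmrv_twentyfour : IsGreatest (latticePackingDensities 24) (π ^ 12 / 12 !) := by
  refine ⟨?_, ?_⟩
  · obtain ⟨L, hdet, -, hmin⟩ := ckmrv_leech_unit
    refine ⟨L, 1, fun h => by simp [h] at hdet, one_pos, ?_, ?_⟩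
    · rw [isLatticePacking_iff L one_pos]
      intro z hz
      rw [← norm_latticePoint_sq]
      exact le_of_eq_of_le (by norm_num) (hmin z hz)
    · show π ^ 12 / 12 ! = ballVolume 24 1 / |L.det|
      rw [hdet, div_one, ballVolume_eq one_pos, ← twentyfourBall_volume, ballVolume]
      ring
  · rintro δ ⟨B, r, hB, hr, hpack, rfl⟩
    refine le_of_eq_of_le (by simp) (ckmrv_twentyfour_periodic hr hB {0} fun a b hab => ?_)
    have ha : ((a.1 : EuclideanSpace ℝ (Fin 24))) = 0 := Finset.mem_singleton.1 a.1.2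
    have hb : ((b.1 : EuclideanSpace ℝ (Fin 24))) = 0 := Finset.mem_singleton.1 b.1.2
    simp only [ha, hb, zero_add]
    exact hpack fun h => hab (Prod.ext (Subtype.ext (ha.trans hb.symm)) h)

end FA.Summary

end
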