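import Fermat.Agent.Root.SummaryMassFormula

/-!
# The number of isomorphism classes of elliptic curves over a prime field

For a prime `q ≥ 5` there are `2 q - 4 + (4, q - 1) + (6, q - 1)` classes, that is `2 q + 6`,
`2 q + 2`, `2 q + 4`, `2 q` as `q ≡ 1, 5, 7, 11 (mod 12)`.
-/

set_option autoImplicit false
set_option linter.style.haveILetI false

noncomputable section

open WeierstrassCurve MulAction
open scoped Classical

namespace FA.ReducedGroups

variable {q : ℕ} [hq : Fact q.Prime]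

/-- The roots of unity of order dividing `n`. -/
theorem natCard_pow_eq_one (n : ℕ) :
    Nat.card {u : (ZMod q)ˣ // u ^ n = 1} = (q - 1).gcd n := by
  have h := IsCyclic.card_powMonoidHom_ker (ZMod q)ˣ n
  rw [Nat.card_units, Nat.card_zmod] at h
  exact h

/-- **Automorphisms of a short equation**: the `u` with `u⁴ a = a`, `u⁶ b = b`. -/
theorem natCard_stabilizer_short (h5 : 5 ≤ q) (a b : ZMod q) :
    Nat.card (stabilizer (VariableChange (ZMod q)) (FA.BirchMoment.shortMod a b)) =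
      Nat.card {u : (ZMod q)ˣ // (u : ZMod q) ^ 4 * a = a ∧ (u : ZMod q) ^ 6 * b = b} := by
  have h2 : (2 : ZMod q) ≠ 0 := Ring.two_ne_zero (FA.BirchMoment.ringChar_ne_two h5)
  have h3 : (3 : ZMod q) ≠ 0 := by
    exact_mod_cast FA.BirchMoment.natCast_ne_zero_of_five h5 three_pos (by norm_num : 3 < 5)
  have hshape : ∀ C : stabilizer (VariableChange (ZMod q)) (FA.BirchMoment.shortMod a b),
      C.1.s = 0 ∧ C.1.r = 0 ∧ C.1.t = 0 ∧
        (C.1.u : ZMod q) ^ 4 * a = a ∧ (C.1.u : ZMod q) ^ 6 * b = b := by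
    rintro ⟨⟨u, r, s, t⟩, hC⟩
    have e := mem_stabilizer_iff.mp hC
    simp only [variableChange_def, WeierstrassCurve.ext_iff] at e
    obtain ⟨e1, e2, e3, e4, e6⟩ := e
    have hu : ((u⁻¹ : (ZMod q)ˣ) : ZMod q) ≠ 0 := Units.ne_zero _
    obtain rfl : s = 0 := (mul_eq_zero.mp (by linear_combination e1 :
      ((u⁻¹ : (ZMod q)ˣ) : ZMod q) * 2 * s = 0)).resolve_left (mul_ne_zero hu h2)
    obtain rfl : r = 0 := (mul_eq_zero.mp (by linear_combination e2 :
      ((u⁻¹ : (ZMod q)ˣ) : ZMod q) ^ 2 * 3 * r = 0)).resolve_left (mul_ne_zero (pow_ne_zero 2 hu) h3)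
    obtain rfl : t = 0 := (mul_eq_zero.mp (by linear_combination e3 :
      ((u⁻¹ : (ZMod q)ˣ) : ZMod q) ^ 3 * 2 * t = 0)).resolve_left (mul_ne_zero (pow_ne_zero 3 hu) h2)
    have hui : (u : ZMod q) * ((u⁻¹ : (ZMod q)ˣ) : ZMod q) = 1 := u.mul_inv
    ring_nf at e4 e6
    refine ⟨rfl, rfl, rfl, ?_, ?_⟩
    · show (u : ZMod q) ^ 4 * a = a
      have h4 : ((u : ZMod q) * ((u⁻¹ : (ZMod q)ˣ) : ZMod q)) ^ 4 = 1 := by rw [hui, one_pow]
      linear_combination a * h4 - (u : ZMod q) ^ 4 * e4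
    · show (u : ZMod q) ^ 6 * b = b
      have h6 : ((u : ZMod q) * ((u⁻¹ : (ZMod q)ˣ) : ZMod q)) ^ 6 = 1 := by rw [hui, one_pow]
      linear_combination b * h6 - (u : ZMod q) ^ 6 * e6
  refine Nat.card_congr
    { toFun := fun C => ⟨C.1.u, (hshape C).2.2.2⟩
      invFun := fun u => ⟨⟨u.1, 0, 0, 0⟩, mem_stabilizer_iff.mpr ?_⟩
      left_inv := fun C => ?_
      right_inv := fun u => rfl }
  · obtain ⟨u, h4, h6⟩ := u
    have hui : (u : ZMod q) * ((u⁻¹ : (ZMod q)ˣ) : ZMod q) = 1 := u.mul_inv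
    have e4 : ((u : ZMod q) * ((u⁻¹ : (ZMod q)ˣ) : ZMod q)) ^ 4 = 1 := by rw [hui, one_pow]
    have e6 : ((u : ZMod q) * ((u⁻¹ : (ZMod q)ˣ) : ZMod q)) ^ 6 = 1 := by rw [hui, one_pow]
    rw [variableChange_def]
    ext <;> simp only
    · ring
    · ring
    · ring
    · linear_combination a * e4 - ((u⁻¹ : (ZMod q)ˣ) : ZMod q) ^ 4 * h4
    · linear_combination b * e6 - ((u⁻¹ : (ZMod q)ˣ) : ZMod q) ^ 6 * h6
  · obtain ⟨hs, hr, ht, -⟩ := hshape C
    refine Subtype.ext (VariableChange.ext rfl hr.symm hs.symm ht.symm)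

/-- The automorphisms of the short equations, added up. -/
theorem sum_stabilizer_short (h5 : 5 ≤ q) :
    ∑ ab ∈ FA.BirchMoment.nonsingular q,
      (Nat.card (stabilizer (VariableChange (ZMod q)) (FA.BirchMoment.shortMod ab.1 ab.2)) : ℚ) =
      ((q : ℚ) - 1) * (2 * q - 4 + (q - 1).gcd 4 + (q - 1).gcd 6) := by
  have h2 : (2 : ZMod q) ≠ 0 := Ring.two_ne_zero (FA.BirchMoment.ringChar_ne_two h5)
  have h3 : (3 : ZMod q) ≠ 0 := by
    exact_mod_cast FA.BirchMoment.natCast_ne_zero_of_five h5 three_pos (by norm_num : 3 < 5)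
  have h4' : (4 : ZMod q) ≠ 0 := by
    rw [show (4 : ZMod q) = 2 * 2 by norm_num]; exact mul_ne_zero h2 h2
  have h27 : (27 : ZMod q) ≠ 0 := by
    rw [show (27 : ZMod q) = 3 ^ 3 by norm_num]; exact pow_ne_zero 3 h3
  have hpt : ∀ ab ∈ FA.BirchMoment.nonsingular q,
      (Nat.card (stabilizer (VariableChange (ZMod q)) (FA.BirchMoment.shortMod ab.1 ab.2)) : ℚ) =
        2 + (if ab.1 = 0 then ((q - 1).gcd 6 : ℚ) - 2 else 0) +
          (if ab.2 = 0 then ((q - 1).gcd 4 : ℚ) - 2 else 0) := by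
    rintro ⟨a, b⟩ hab
    have hns : 4 * a ^ 3 + 27 * b ^ 2 ≠ 0 := (Finset.mem_filter.mp hab).2
    rw [natCard_stabilizer_short h5]
    have hpow : ∀ (n : ℕ) (u : (ZMod q)ˣ), (u : ZMod q) ^ n = 1 ↔ u ^ n = 1 := fun n u => by
      rw [← Units.val_pow_eq_pow_val, Units.val_eq_one]
    by_cases ha : a = 0
    · subst ha
      have hb : b ≠ 0 := fun e => hns (by rw [e]; ring)
      rw [Nat.card_congr (Equiv.subtypeEquivRight (q := fun u : (ZMod q)ˣ => u ^ 6 = 1) fun u => by
        simp [mul_eq_right₀ hb, hpow]), natCard_pow_eq_one, if_pos rfl, if_neg hb]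
      ring
    by_cases hb : b = 0
    · subst hb
      rw [Nat.card_congr (Equiv.subtypeEquivRight (q := fun u : (ZMod q)ˣ => u ^ 4 = 1) fun u => by
        simp [mul_eq_right₀ ha, hpow]), natCard_pow_eq_one, if_neg ha, if_pos rfl]
      ring
    have hiff : ∀ u : (ZMod q)ˣ,
        (u : ZMod q) ^ 4 * a = a ∧ (u : ZMod q) ^ 6 * b = b ↔ u ^ 2 = 1 := fun u => by
      rw [mul_eq_right₀ ha, mul_eq_right₀ hb, hpow, hpow]
      constructor
      · rintro ⟨e4, e6⟩
        rw [← mul_right_inj (u ^ 4), mul_one, ← pow_add]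
        rw [e4, e6]
      · intro e
        exact ⟨by rw [show 4 = 2 * 2 from rfl, pow_mul, e, one_pow],
          by rw [show 6 = 2 * 3 from rfl, pow_mul, e, one_pow]⟩
    rw [Nat.card_congr (Equiv.subtypeEquivRight hiff), natCard_pow_eq_one, if_neg ha, if_neg hb]
    have hodd : 2 ∣ q - 1 := by
      have := hq.out.eq_two_or_odd
      omega
    rw [Nat.gcd_eq_right hodd]
    norm_num
  have hA : ((FA.BirchMoment.nonsingular q).filter fun ab => ab.1 = 0) =
      ({0} : Finset (ZMod q)) ×ˢ Finset.univ.erase 0 := by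
    ext ⟨a, b⟩
    simp only [FA.BirchMoment.nonsingular, Finset.mem_filter, Finset.mem_univ, true_and,
      Finset.mem_product, Finset.mem_singleton, Finset.mem_erase, and_true]
    constructor
    · rintro ⟨h, rfl⟩
      exact ⟨rfl, fun e => h (by rw [e]; ring)⟩
    · rintro ⟨rfl, hb⟩
      exact ⟨by simpa [h27] using hb, rfl⟩
  have hB : ((FA.BirchMoment.nonsingular q).filter fun ab => ab.2 = 0) =
      Finset.univ.erase 0 ×ˢ ({0} : Finset (ZMod q)) := by
    ext ⟨a, b⟩
    simp only [FA.BirchMoment.nonsingular, Finset.mem_filter, Finset.mem_univ, true_and,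
      Finset.mem_product, Finset.mem_singleton, Finset.mem_erase, and_true]
    constructor
    · rintro ⟨h, rfl⟩
      exact ⟨fun e => h (by rw [e]; ring), rfl⟩
    · rintro ⟨ha, rfl⟩
      exact ⟨by simpa [h4'] using ha, rfl⟩
  have hn : ((FA.BirchMoment.nonsingular q).card : ℚ) = (q : ℚ) ^ 2 - q := by
    exact_mod_cast FA.BirchMoment.card_nonsingular h5
  rw [Finset.sum_congr rfl hpt, Finset.sum_add_distrib, Finset.sum_add_distrib, Finset.sum_const,
    ← Finset.sum_filter, ← Finset.sum_filter, hA, hB, Finset.sum_const, Finset.sum_const,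
    Finset.card_product, Finset.card_product, Finset.card_singleton, one_mul, mul_one,
    Finset.card_erase_of_mem (Finset.mem_univ _), Finset.card_univ, ZMod.card, nsmul_eq_mul,
    nsmul_eq_mul, nsmul_eq_mul, hn, Nat.cast_sub hq.out.one_le, Nat.cast_one]
  ring

end FA.ReducedGroups

namespace FA.Summary

variable {q : ℕ} [hq : Fact q.Prime]

/-- **The number of classes.** -/
theorem card_classes (h5 : 5 ≤ q) :
    Nat.card (orbitRel.Quotient (VariableChange (ZMod q)) (FA.ReducedGroups.ellipticEquations q)) +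
      4 = 2 * q + (q - 1).gcd 4 + (q - 1).gcd 6 := by
  set G := VariableChange (ZMod q)
  have hinv : ∀ (C : G) (V : WeierstrassCurve (ZMod q)), V.Δ ≠ 0 →
      (Nat.card (stabilizer G (C • V)) : ℚ) = Nat.card (stabilizer G V) := fun C V _ => by
    rw [Nat.card_congr (stabilizerEquivStabilizer (G := G) (a := V) (g := C) rfl).toEquiv]
  have hst : ∀ V : FA.ReducedGroups.ellipticEquations q,
      Nat.card (stabilizer G V) = Nat.card (stabilizer G V.1) := fun V =>
    Nat.card_congr (Equiv.subtypeEquivRight fun C => by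
      simp only [mem_stabilizer_iff, Subtype.ext_iff, SetLike.val_smul])
  have h := FA.ReducedGroups.sum_classes (q := q)
    (f := fun V => (Nat.card (stabilizer G V.1) : ℚ)) fun C V => hinv C V.1 V.2
  haveI := Fintype.ofFinite (orbitRel.Quotient G (FA.ReducedGroups.ellipticEquations q))
  rw [FA.ReducedGroups.sum_ellipticEquations h5 (fun V => (Nat.card (stabilizer G V) : ℚ)) hinv,
    FA.ReducedGroups.sum_stabilizer_short h5, FA.ReducedGroups.natCard_variableChange,
    finsum_eq_sum_of_fintype, Finset.sum_congr rfl (g := fun _ => (1 : ℚ)) fun c _ => by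
      rw [hst, div_self (Nat.cast_ne_zero.mpr Nat.card_pos.ne')],
    Finset.sum_const, Finset.card_univ, nsmul_one, ← Nat.card_eq_fintype_card] at h
  have hq0 : (q : ℚ) ≠ 0 := Nat.cast_ne_zero.mpr hq.out.ne_zero
  have hq1 : (q : ℚ) - 1 ≠ 0 := sub_ne_zero.mpr (Nat.cast_ne_one.mpr hq.out.ne_one)
  push_cast [Nat.cast_sub hq.out.one_le] at h
  field_simp at h
  rw [← @Nat.cast_inj ℚ]
  push_cast
  linarith

/-- **By the residue modulo twelve.** -/
theorem card_classes_mod_twelve (h5 : 5 ≤ q) :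
    Nat.card (orbitRel.Quotient (VariableChange (ZMod q)) (FA.ReducedGroups.ellipticEquations q)) =
      if q % 12 = 1 then 2 * q + 6 else if q % 12 = 5 then 2 * q + 2
      else if q % 12 = 7 then 2 * q + 4 else 2 * q := by
  have h := card_classes (q := q) h5
  have h2 : q % 2 = 1 := hq.out.eq_two_or_odd.resolve_left (by omega)
  have h3 : q % 3 ≠ 0 := fun e => by
    have := (Nat.prime_dvd_prime_iff_eq Nat.prime_three hq.out).mp (Nat.dvd_of_mod_eq_zero e)
    omega
  have g4 : (q - 1).gcd 4 = if q % 4 = 1 then 4 else 2 := by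
    rw [Nat.gcd_comm, Nat.gcd_rec]
    split_ifs with e
    · rw [show (q - 1) % 4 = 0 by omega, Nat.gcd_zero_left]
    · rw [show (q - 1) % 4 = 2 by omega]; rfl
  have g6 : (q - 1).gcd 6 = if q % 3 = 1 then 6 else 2 := by
    rw [Nat.gcd_comm, Nat.gcd_rec]
    split_ifs with e
    · rw [show (q - 1) % 6 = 0 by omega, Nat.gcd_zero_left]
    · rw [show (q - 1) % 6 = 4 by omega]; rfl
  rw [g4, g6] at h
  split_ifs at h ⊢ <;> omega

end FA.Summary

end
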