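import Fermat.Agent.ClassField.Artin
import Fermat.Agent.Root.SummaryKroneckerWeber

/-!
# Class field theory over `ℚ`

Every abelian number field `F` has a conductor `n` and an Artin map `(ℤ/n)ˣ → Gal(F/ℚ)`: the primes
dividing `n` are the ramified ones, `n` divides `N` iff `F` maps into `ℚ(ζ_N)`, the map is onto and
sends every other prime to its Frobenius, and its kernel is the group of norms of the ideals prime
to `n`. Conversely every subgroup of `(ℤ/n)ˣ` is such a group of norms.
-/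

set_option autoImplicit false
set_option linter.style.haveILetI false
set_option linter.unusedSectionVars false

noncomputable section

open NumberField IsCyclotomicExtension

namespace FA.ClassField

section transport

variable {F F' : Type*} [Field F] [NumberField F] [Field F'] [NumberField F'] (e : F ≃ₐ[ℚ] F')

/-- The induced map of rings of integers. -/
def intEquiv : 𝓞 F ≃+* 𝓞 F' := RingOfIntegers.mapRingEquiv e.toRingEquiv

theorem under_comap (P : Ideal (𝓞 F')) : (P.comap (intEquiv e)).under ℤ = P.under ℤ := by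
  rw [Ideal.under_def, Ideal.under_def, ← Ideal.comap_coe (intEquiv e), Ideal.comap_comap]
  congr 1
  exact RingHom.ext_int _ _

theorem absNorm_map_intEquiv (I : Ideal (𝓞 F)) :
    Ideal.absNorm (I.map (intEquiv e)) = Ideal.absNorm I := by
  simp only [Ideal.absNorm_apply, Submodule.cardQuot_apply]
  exact Nat.card_congr (Ideal.quotientEquiv I (I.map (intEquiv e)) (intEquiv e) rfl).toEquiv.symm

theorem absNorm_comap_intEquiv (J : Ideal (𝓞 F')) :
    Ideal.absNorm (J.comap (intEquiv e)) = Ideal.absNorm J := by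
  rw [← absNorm_map_intEquiv e, Ideal.map_comap_of_surjective _ (intEquiv e).surjective]

include e in
theorem ncard_primesOver_congr (p : Ideal ℤ) :
    (p.primesOver (𝓞 F')).ncard = (p.primesOver (𝓞 F)).ncard := by
  rw [← Nat.card_coe_set_eq, ← Nat.card_coe_set_eq]
  refine Nat.card_congr
    { toFun := fun P => ⟨P.1.comap (intEquiv e),
        ⟨haveI := P.2.1; Ideal.comap_isPrime (intEquiv e) P.1,
          ⟨by rw [under_comap]; exact P.2.2.over⟩⟩⟩
      invFun := fun P => ⟨P.1.comap (intEquiv e.symm),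
        ⟨haveI := P.2.1; Ideal.comap_isPrime (intEquiv e.symm) P.1,
          ⟨by rw [under_comap]; exact P.2.2.over⟩⟩⟩
      left_inv := fun P => Subtype.ext (Ideal.ext fun x => ?_)
      right_inv := fun P => Subtype.ext (Ideal.ext fun x => ?_) }
  · simp only [Ideal.mem_comap]
    rw [show intEquiv e (intEquiv e.symm x) = x from RingOfIntegers.ext (e.apply_symm_apply _)]
  · simp only [Ideal.mem_comap]
    rw [show intEquiv e.symm (intEquiv e x) = x from RingOfIntegers.ext (e.symm_apply_apply _)]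

theorem isArithFrobAt_congr {σ : Gal(F'/ℚ)} {P : Ideal (𝓞 F)}
    (h : IsArithFrobAt ℤ σ (P.comap (intEquiv e.symm))) :
    IsArithFrobAt ℤ (AlgEquiv.autCongr e.symm σ) P := fun x => by
  have h1 := h (intEquiv e x)
  rw [under_comap, Ideal.mem_comap, map_sub, map_pow] at h1
  convert h1 using 2
  · exact RingOfIntegers.ext rfl
  · congr 1
    exact RingOfIntegers.ext (e.symm_apply_apply _).symm

end transport

theorem isCyclotomicExtension_field (N : ℕ) [NeZero N] :
    IsCyclotomicExtension {N} ℚ (CyclotomicField N ℚ) :=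
  haveI : NeZero (N : ℚ) := ⟨Nat.cast_ne_zero.mpr (NeZero.ne N)⟩
  CyclotomicField.isCyclotomicExtension N ℚ

theorem admissible_of_dvd {F : Type*} [Field F] [Algebra ℚ F] {n N : ℕ} [NeZero N] (h : n ∣ N)
    (f : F →ₐ[ℚ] CyclotomicField n ℚ) : Nonempty (F →ₐ[ℚ] CyclotomicField N ℚ) := by
  haveI : NeZero n := ⟨fun e => NeZero.ne N (by simpa [e] using h)⟩
  haveI := isCyclotomicExtension_field n
  haveI := isCyclotomicExtension_field N
  obtain ⟨g⟩ := exists_algHom_of_dvd h (CyclotomicField n ℚ) (CyclotomicField N ℚ)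
  exact ⟨g.comp f⟩

/-- The levels of the cyclotomic fields containing `F` are closed under gcd. -/
theorem admissible_gcd {F : Type*} [Field F] [NumberField F] [IsAbelianGalois ℚ F] {a b : ℕ}
    [NeZero a] [NeZero b] (ha : Nonempty (F →ₐ[ℚ] CyclotomicField a ℚ))
    (hb : Nonempty (F →ₐ[ℚ] CyclotomicField b ℚ)) :
    Nonempty (F →ₐ[ℚ] CyclotomicField (a.gcd b) ℚ) := by
  haveI : NeZero (a.gcd b) := ⟨Nat.gcd_ne_zero_left (NeZero.ne a)⟩
  haveI := isCyclotomicExtension_field a
  haveI := isCyclotomicExtension_field b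
  haveI := isCyclotomicExtension_field (a.gcd b)
  haveI := isCyclotomicExtension_field (a * b)
  haveI : IsAbelianGalois ℚ (CyclotomicField (a * b) ℚ) :=
    IsCyclotomicExtension.isAbelianGalois {a * b} ℚ (CyclotomicField (a * b) ℚ)
  obtain ⟨fa⟩ := ha
  obtain ⟨fb⟩ := hb
  obtain ⟨g⟩ := admissible_of_dvd (dvd_mul_right a b) fa
  let e : F ≃ₐ[ℚ] g.fieldRange := AlgEquiv.ofInjectiveField g
  have h1 := (admissible_iff (a * b) (CyclotomicField (a * b) ℚ) (dvd_mul_right a b)
    (CyclotomicField a ℚ) g.fieldRange).mp ⟨fa.comp e.symm.toAlgHom⟩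
  have h2 := (admissible_iff (a * b) (CyclotomicField (a * b) ℚ) (dvd_mul_left b a)
    (CyclotomicField b ℚ) g.fieldRange).mp ⟨fb.comp e.symm.toAlgHom⟩
  obtain ⟨h⟩ := (admissible_iff (a * b) (CyclotomicField (a * b) ℚ)
    ((Nat.gcd_dvd_left a b).trans (dvd_mul_right a b))
    (CyclotomicField (a.gcd b) ℚ) g.fieldRange).mpr (ker_gcd_le _ _ h1 h2)
  exact ⟨h.comp e.toAlgHom⟩

end FA.ClassField

namespace FA.Summary

open FA.ClassField

/-- **Class field theory over `ℚ`**: an abelian number field `F` has a conductor `n` and an Artin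
map `(ℤ/n)ˣ → Gal(F/ℚ)`. A prime divides the discriminant iff it divides `n`; `n ∣ N` iff `F` maps
into `ℚ(ζ_N)`; the map is onto and sends every prime `p ∤ n` to a Frobenius at every prime above
it, so `p` splits completely iff it is in the kernel; and the kernel is the group of the norms of
the ideals prime to `n`. -/
theorem classFieldTheory_rat (F : Type*) [Field F] [NumberField F] [IsAbelianGalois ℚ F] :
    ∃ (n : ℕ) (_ : NeZero n) (art : (ZMod n)ˣ →* Gal(F/ℚ)), Function.Surjective art ∧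
      (∀ p : ℕ, p.Prime → ((p : ℤ) ∣ discr F ↔ p ∣ n)) ∧
      (∀ N : ℕ, 0 < N → (n ∣ N ↔ Nonempty (F →ₐ[ℚ] CyclotomicField N ℚ))) ∧
      (∀ (p : ℕ) (hp : p.Coprime n), p.Prime → ∀ P : Ideal (𝓞 F), P.IsPrime → (p : 𝓞 F) ∈ P →
        IsArithFrobAt ℤ (art (ZMod.unitOfCoprime p hp)) P) ∧
      (∀ (p : ℕ) (hp : p.Coprime n), p.Prime →
        (((Ideal.span {(p : ℤ)}).primesOver (𝓞 F)).ncard = Module.finrank ℚ F ↔
          art (ZMod.unitOfCoprime p hp) = 1)) ∧
      ∀ u : (ZMod n)ˣ, art u = 1 ↔ ∃ I : Ideal (𝓞 F), (Ideal.absNorm I).Coprime n ∧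
        ((Ideal.absNorm I : ℕ) : ZMod n) = u := by
  classical
  have hex : ∃ N : ℕ, 0 < N ∧ Nonempty (F →ₐ[ℚ] CyclotomicField N ℚ) :=
    kroneckerWeber_cyclotomicField F
  set n := Nat.find hex with hn
  obtain ⟨hn0, ⟨f⟩⟩ : 0 < n ∧ Nonempty (F →ₐ[ℚ] CyclotomicField n ℚ) := Nat.find_spec hex
  haveI : NeZero n := ⟨hn0.ne'⟩
  haveI := isCyclotomicExtension_field n
  haveI : IsAbelianGalois ℚ (CyclotomicField n ℚ) :=
    IsCyclotomicExtension.isAbelianGalois {n} ℚ (CyclotomicField n ℚ)
  let F' := f.fieldRange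
  haveI : IsAbelianGalois ℚ F' := IsAbelianGalois.tower_bot ℚ F' (CyclotomicField n ℚ)
  let e : F ≃ₐ[ℚ] F' := AlgEquiv.ofInjectiveField f
  have hmin : ∀ N : ℕ, 0 < N → Nonempty (F →ₐ[ℚ] CyclotomicField N ℚ) → n ∣ N := by
    intro N hN hNf
    haveI : NeZero N := ⟨hN.ne'⟩
    have hle : n ≤ n.gcd N :=
      Nat.find_min' hex ⟨Nat.gcd_pos_of_pos_left _ hn0, admissible_gcd ⟨f⟩ hNf⟩
    exact Nat.gcd_eq_left_iff_dvd.mp
      (le_antisymm (Nat.le_of_dvd hn0 (Nat.gcd_dvd_left n N)) hle)
  refine ⟨n, inferInstance, ((AlgEquiv.autCongr e.symm).toMonoidHom).comp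
    (artHom n (CyclotomicField n ℚ) F'), (AlgEquiv.autCongr e.symm).surjective.comp
    (artHom_surjective n (CyclotomicField n ℚ) F'), fun p hp => ?_, fun N hN => ?_,
    fun p hp hpp P hP hpP => ?_, fun p hp hpp => ?_, fun u => ?_⟩
  · haveI := Fact.mk hp
    obtain ⟨k, m, hnm, hm⟩ : ∃ k m, n = p ^ k * m ∧ ¬ p ∣ m :=
      ⟨n.factorization p, n / p ^ n.factorization p, (Nat.ordProj_mul_ordCompl_eq_self n p).symm,
        Nat.not_dvd_ordCompl hp (NeZero.ne n)⟩
    have hmn : m ∣ n := hnm ▸ dvd_mul_left m (p ^ k)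
    haveI : NeZero m := FA.AbelianZeta.ne_zero_level n hnm
    haveI := isCyclotomicExtension_field m
    rw [discr_eq_discr_of_algEquiv F e, ← not_iff_not,
      not_dvd_discr_iff n (CyclotomicField n ℚ) hnm hm F',
      ← admissible_iff n (CyclotomicField n ℚ) hmn (CyclotomicField m ℚ) F']
    refine ⟨fun ⟨g⟩ hpn => ?_, fun hpn => ?_⟩
    · have h := Nat.le_antisymm (Nat.le_of_dvd hn0 hmn)
        (Nat.le_of_dvd (NeZero.pos m) (hmin m (NeZero.pos m) ⟨g.comp e.toAlgHom⟩))
      exact hm (h.symm ▸ hpn)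
    · have hk : k = 0 := by
        by_contra hk
        exact hpn (hnm ▸ (dvd_pow_self p hk).mul_right m)
      have h : m = n := by rw [hnm, hk, pow_zero, one_mul]
      subst h
      exact ⟨f.comp e.symm.toAlgHom⟩
  · haveI : NeZero N := ⟨hN.ne'⟩
    exact ⟨fun h => admissible_of_dvd h f, hmin N hN⟩
  · haveI := Fact.mk hpp
    haveI : (P.comap (intEquiv e.symm)).IsPrime := Ideal.comap_isPrime (intEquiv e.symm) P
    exact isArithFrobAt_congr e (isArithFrobAt_artHom n (CyclotomicField n ℚ) F' hp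
      (P.comap (intEquiv e.symm)) (by rw [Ideal.mem_comap, map_natCast]; exact hpP))
  · haveI := Fact.mk hpp
    obtain ⟨-, hg⟩ := card_quotient_norm n (CyclotomicField n ℚ) F' p hp
    rw [← ncard_primesOver_congr e, e.toLinearEquiv.finrank_eq, MonoidHom.comp_apply]
    refine Iff.trans ?_ (map_eq_one_iff _ (AlgEquiv.autCongr e.symm).injective).symm
    rw [← orderOf_eq_one_iff]
    refine ⟨fun h => ?_, fun h => by rwa [h, mul_one] at hg⟩
    rw [h] at hg
    exact (Nat.mul_eq_left Module.finrank_pos.ne').mp hg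
  · rw [MonoidHom.comp_apply]
    refine ((map_eq_one_iff _ (AlgEquiv.autCongr e.symm).injective).trans
      (artHom_eq_one_iff n (CyclotomicField n ℚ) F' u)).trans ⟨?_, ?_⟩
    · rintro ⟨I, h1, h2⟩
      exact ⟨I.comap (intEquiv e), by rw [absNorm_comap_intEquiv]; exact h1,
        by rw [absNorm_comap_intEquiv]; exact h2⟩
    · rintro ⟨I, h1, h2⟩
      exact ⟨I.map (intEquiv e), by rw [absNorm_map_intEquiv]; exact h1,
        by rw [absNorm_map_intEquiv]; exact h2⟩

/-- **The existence theorem over `ℚ`**: every subgroup of `(ℤ/n)ˣ` is the group of norms of the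
ideals prime to `n` of a subfield of `ℚ(ζ_n)` of degree its index. -/
theorem classFieldExistence_rat (n : ℕ) [NeZero n] (H : Subgroup (ZMod n)ˣ) :
    ∃ F : IntermediateField ℚ (CyclotomicField n ℚ), Module.finrank ℚ F = H.index ∧
      ∀ u : (ZMod n)ˣ, u ∈ H ↔ ∃ I : Ideal (𝓞 F), (Ideal.absNorm I).Coprime n ∧
        ((Ideal.absNorm I : ℕ) : ZMod n) = u := by
  haveI := isCyclotomicExtension_field n
  haveI : IsAbelianGalois ℚ (CyclotomicField n ℚ) :=
    IsCyclotomicExtension.isAbelianGalois {n} ℚ (CyclotomicField n ℚ)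
  let F := IntermediateField.fixedField
    (H.comap (Rat.galEquivZMod n (CyclotomicField n ℚ)).toMonoidHom)
  haveI : IsAbelianGalois ℚ F := IsAbelianGalois.tower_bot ℚ F (CyclotomicField n ℚ)
  have hN : normGroup n (CyclotomicField n ℚ) F = H := by
    rw [normGroup, IntermediateField.fixingSubgroup_fixedField,
      Subgroup.map_comap_eq_self_of_surjective (MulEquiv.surjective _)]
  refine ⟨F, by rw [← index_normGroup n (CyclotomicField n ℚ), hN], fun u => ?_⟩
  rw [← artHom_eq_one_iff n (CyclotomicField n ℚ) F u, ← MonoidHom.mem_ker, ker_artHom, hN]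

end FA.Summary

end
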