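import Fermat.Agent.GolodShafarevich.Split

/-!
# Cyclotomic class field towers and split primes

Let `p` be an odd prime and `n` have eight or more prime divisors congruent to `1` modulo `p`.
Then the cyclotomic field of order `n` and its maximal real subfield have infinite unramified
extensions, and `p` divides the class number of every number field containing either. Finitely
many further primes may be asked to split completely in such a tower (Ihara).
-/

set_option autoImplicit false

noncomputable section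

open Fermat.Agent.GolodShafarevich NumberField
open scoped Pointwise

local notation "Qb" => AlgebraicClosure ℚ

namespace FA.Summary

variable {p n : ℕ}

/-- **Infinite class field towers of cyclotomic fields**: every Galois field with the real part of
a primitive `n`-th root of unity has an infinite Galois extension unramified at every place. -/
theorem cyclotomic_infinite_classFieldTower (hp : p.Prime) (hp2 : p ≠ 2) (S : Finset Nat.Primes)
    (hS : ∀ q ∈ S, p ∣ (q : ℕ) - 1) (h8 : 8 ≤ S.card) (hn : n ≠ 0)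
    (hdvd : ∀ q ∈ S, (q : ℕ) ∣ n) (F : IntermediateField ℚ Qb) [IsGalois ℚ F] {ζ : Qb}
    (hζ : IsPrimitiveRoot ζ n) (hF : ζ + ζ⁻¹ ∈ F) :
    ∃ M : IntermediateField ℚ Qb, F ≤ M ∧ IsGalois ℚ M ∧ ¬ FiniteDimensional ℚ M ∧
      (complexConjugation ∈ F.fixingSubgroup → complexConjugation ∈ M.fixingSubgroup) ∧
      ∀ q : ℕ, q.Prime → ∀ A : ValuationSubring Qb, A.LiesOverPrime q →
        A.inertiaSubgroupIn ℚ ⊓ F.fixingSubgroup ≤ M.fixingSubgroup := by
  have : Fact p.Prime := ⟨hp⟩
  obtain ⟨K, -, -, -, hc, -, hcyc, h⟩ := exists_genus_tower hp2 hS h8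
  exact h.exists_infinite_over (le_of_add_inv_mem hn hdvd hc hcyc hζ hF)

/-- `p` divides the class number of every number field with a primitive `n`-th root of unity. -/
theorem dvd_classNumber_of_cyclotomic (hp : p.Prime) (hp2 : p ≠ 2) (S : Finset Nat.Primes)
    (hS : ∀ q ∈ S, p ∣ (q : ℕ) - 1) (h8 : 8 ≤ S.card) (hn : n ≠ 0)
    (hdvd : ∀ q ∈ S, (q : ℕ) ∣ n) (F : Type) [Field F] [NumberField F] {z : F}
    (hz : IsPrimitiveRoot z n) : p ∣ classNumber F := by
  have : Fact p.Prime := ⟨hp⟩
  exact dvd_classNumber_of_primitiveRoot hp2 hS h8 hn hdvd F hz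

/-- The same for the fields with the real part of such a root. -/
theorem dvd_classNumber_of_realCyclotomic (hp : p.Prime) (hp2 : p ≠ 2) (S : Finset Nat.Primes)
    (hS : ∀ q ∈ S, p ∣ (q : ℕ) - 1) (h8 : 8 ≤ S.card) (hn : n ≠ 0)
    (hdvd : ∀ q ∈ S, (q : ℕ) ∣ n) (F : Type) [Field F] [NumberField F] (j : F →+* Qb) {ζ : Qb}
    (hζ : IsPrimitiveRoot ζ n) (x : F) (hx : j x = ζ + ζ⁻¹) : p ∣ classNumber F := by
  have : Fact p.Prime := ⟨hp⟩
  exact dvd_classNumber_of_add_inv_mem hp2 hS h8 hn hdvd F j hζ hx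

/-- **An explicit family**: `3` divides the class number of the cyclotomic field of every multiple
of `7·13·19·31·37·43·61·67`, and of every number field containing one of them. -/
theorem three_dvd_classNumber_of_cyclotomic {m : ℕ} (hm : m ≠ 0)
    (hdvd : 7 * 13 * 19 * 31 * 37 * 43 * 61 * 67 ∣ m) (F : Type) [Field F] [NumberField F]
    {z : F} (hz : IsPrimitiveRoot z m) : 3 ∣ classNumber F := by
  let S : Finset Nat.Primes := {⟨7, by norm_num⟩, ⟨13, by norm_num⟩, ⟨19, by norm_num⟩,
    ⟨31, by norm_num⟩, ⟨37, by norm_num⟩, ⟨43, by norm_num⟩, ⟨61, by norm_num⟩, ⟨67, by norm_num⟩}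
  refine dvd_classNumber_of_cyclotomic Nat.prime_three (by norm_num) S ?_ ?_ hm
    (fun q hq => (?_ : (q : ℕ) ∣ 7 * 13 * 19 * 31 * 37 * 43 * 61 * 67).trans hdvd) F hz
  · intro q hq
    simp only [S, Finset.mem_insert, Finset.mem_singleton] at hq
    rcases hq with rfl | rfl | rfl | rfl | rfl | rfl | rfl | rfl <;> decide
  · decide
  · simp only [S, Finset.mem_insert, Finset.mem_singleton] at hq
    rcases hq with rfl | rfl | rfl | rfl | rfl | rfl | rfl | rfl <;> norm_num

/-- In particular for the cyclotomic field itself. -/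
theorem three_dvd_classNumber_cyclotomicField {m : ℕ} [NeZero m]
    (hdvd : 7 * 13 * 19 * 31 * 37 * 43 * 61 * 67 ∣ m) :
    3 ∣ classNumber (CyclotomicField m ℚ) := by
  have : IsCyclotomicExtension {m} ℚ (CyclotomicField m ℚ) :=
    CyclotomicField.isCyclotomicExtension m ℚ
  exact three_dvd_classNumber_of_cyclotomic (NeZero.ne m) hdvd _
    (IsCyclotomicExtension.zeta_spec m ℚ (CyclotomicField m ℚ))

/-- **Ihara**: for a set `S` of primes congruent to `1` modulo an odd prime `p` and a finite set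
`T` of other primes with `4 (2 #S + #T) ≤ (#S) ^ 2` the field `K` of degree `p ^ #S` ramified in `S`
has unramified Galois extensions of unbounded `p`-power degree, and an infinite one, in which the
primes over `T` split completely. -/
theorem ihara_split_tower (hp : p.Prime) (hp2 : p ≠ 2) (S : Finset Nat.Primes)
    (hS : ∀ q ∈ S, p ∣ (q : ℕ) - 1) (T : Finset Nat.Primes) (hT : ∀ q ∈ T, q ∉ S)
    (hpos : 0 < S.card) (hcount : 4 * (2 * S.card + T.card) ≤ S.card ^ 2) :
    ∃ K : IntermediateField ℚ Qb, FiniteDimensional ℚ K ∧ IsGalois ℚ K ∧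
      Module.finrank ℚ K = p ^ S.card ∧ complexConjugation ∈ K.fixingSubgroup ∧
      (∀ q : Nat.Primes, q ∉ S → ∀ A : ValuationSubring Qb, A.LiesOverPrime (q : ℕ) →
        A.inertiaSubgroupIn ℚ ≤ K.fixingSubgroup) ∧
      (∀ B : ℕ, ∃ L : IntermediateField ℚ Qb, K ≤ L ∧ FiniteDimensional ℚ L ∧ IsGalois ℚ L ∧
        (∃ k, Module.finrank ℚ L = p ^ k) ∧ B < Module.finrank ℚ L ∧
        complexConjugation ∈ L.fixingSubgroup ∧
        (∀ q : ℕ, q.Prime → ∀ A : ValuationSubring Qb, A.LiesOverPrime q →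
          A.inertiaSubgroupIn ℚ ⊓ K.fixingSubgroup ≤ L.fixingSubgroup) ∧
        ∀ q : Nat.Primes, q ∈ T → ∀ A : ValuationSubring Qb, A.LiesOverPrime (q : ℕ) →
          A.decompositionSubgroup ℚ ⊓ K.fixingSubgroup ≤ L.fixingSubgroup) ∧
      ∃ M : IntermediateField ℚ Qb, K ≤ M ∧ IsGalois ℚ M ∧ ¬ FiniteDimensional ℚ M ∧
        complexConjugation ∈ M.fixingSubgroup ∧
        (∀ q : ℕ, q.Prime → ∀ A : ValuationSubring Qb, A.LiesOverPrime q →
          A.inertiaSubgroupIn ℚ ⊓ K.fixingSubgroup ≤ M.fixingSubgroup) ∧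
        ∀ q : Nat.Primes, q ∈ T → ∀ A : ValuationSubring Qb, A.LiesOverPrime (q : ℕ) →
          A.decompositionSubgroup ℚ ⊓ K.fixingSubgroup ≤ M.fixingSubgroup := by
  have : Fact p.Prime := ⟨hp⟩
  exact exists_split_tower hp2 hS T hT hpos hcount

end FA.Summary
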