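import Fermat.Agent.Regular.AuxiliaryTable
import Fermat.Agent.Root.SummaryFermatBelow157

/-!
# The first case below ten thousand, and the class groups below `157`

* `exists_auxiliary_prime_lt_10000`: every prime `5 ≤ p < 10000` has a prime `q ≡ 1 (mod p)` such that
  no three nonzero `p`-th powers sum to zero modulo `q` and `p` is no `p`-th power modulo `q`.
* `fermat_first_case_lt_10000`: for every prime `p < 10000`, `a^p + b^p ≠ c^p` when `p ∤ a b c`
  (the theorem of Sophie Germain and Legendre).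
* `herbrand_ribet_lt_157`: the theorem of Herbrand and Ribet for the primes below `157`.
* `eigen_lt_157`: for these primes every class killed by `p` has weight `p - k`, `(p, k)` irregular.

Classical; independent of S01 and of elliptic curves.
-/

set_option autoImplicit false

noncomputable section

open NumberField
open scoped nonZeroDivisors

namespace FA.Summary

/-- An auxiliary prime for every prime below ten thousand. -/
theorem exists_auxiliary_prime_lt_10000 (p : ℕ) (hp : p.Prime) (h5 : 5 ≤ p) (h : p < 10000) :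
    ∃ q : ℕ, q.Prime ∧ (∀ x y z : ZMod q, x ^ p + y ^ p + z ^ p = 0 → x = 0 ∨ y = 0 ∨ z = 0) ∧
      ∀ x : ZMod q, x ^ p ≠ (p : ZMod q) := by
  have hc := FA.Regular.auxTable_complete
  simp only [FA.Regular.auxTableComplete, List.all_eq_true, List.mem_range, Bool.or_eq_true,
    decide_eq_true_eq, List.any_eq_true, Bool.and_eq_true] at hc
  rcases hc (p / 100) (by omega) (p % 100) (Nat.mod_lt _ (by norm_num)) with
    (h' | ⟨l, hl, hlp, hmod⟩) | ⟨⟨p', q, w⟩, hmem, hpeq⟩
  · rw [Nat.div_add_mod] at h'; omega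
  · rw [Nat.div_add_mod] at hlp hmod
    have : 2 ≤ l := by
      simp only [FA.Regular.auxSmallPrimes, List.mem_cons, List.not_mem_nil, or_false] at hl
      omega
    rcases hp.eq_one_or_self_of_dvd l (Nat.dvd_of_mod_eq_zero hmod) with e | e <;> omega
  · rw [Nat.div_add_mod] at hpeq
    simp only at hpeq
    subst hpeq
    have hrows := FA.Regular.auxTable_rows
    simp only [FA.Regular.auxTableRows, List.all_eq_true] at hrows
    rw [List.getD_eq_getElem?_getD] at hmem
    rcases hb : FA.Regular.auxTable[p' / 100]? with _ | b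
    · simp [hb] at hmem
    · rw [hb, Option.getD_some] at hmem
      obtain ⟨-, hq, h1, h2⟩ := FA.Regular.auxRow_spec (hrows b (List.mem_of_getElem? hb) _ hmem)
      exact ⟨q, hq, h1, h2⟩

/-- **The theorem of Sophie Germain and Legendre**: the first case below ten thousand. -/
theorem fermat_first_case_lt_10000 (p : ℕ) (hp : p.Prime) (h : p < 10000) (a b c : ℤ)
    (habc : ¬ (p : ℤ) ∣ a * b * c) : a ^ p + b ^ p ≠ c ^ p := by
  have : Fact p.Prime := ⟨hp⟩
  by_cases h5 : p < 100
  · exact fermat_first_case_lt_hundred p h5 a b c habc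
  obtain ⟨q, hq, h1, h2⟩ := exists_auxiliary_prime_lt_10000 p hp (by omega) h
  have : Fact q.Prime := ⟨hq⟩
  exact first_case_of_auxiliary p (hp.odd_of_ne_two (by omega)) (Finset.univ.image (fun x : ZMod q => x ^ p)).toList
    (fun x => by simp) (fun x hx y hy z hz hsum => by
      simp only [Finset.mem_toList, Finset.mem_image, Finset.mem_univ, true_and] at hx hy hz
      obtain ⟨x, rfl⟩ := hx; obtain ⟨y, rfl⟩ := hy; obtain ⟨z, rfl⟩ := hz
      rcases h1 x y z hsum with e | e | e <;> simp [e, zero_pow hp.ne_zero])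
    (fun hx => by
      simp only [Finset.mem_toList, Finset.mem_image, Finset.mem_univ, true_and] at hx
      obtain ⟨x, hx⟩ := hx
      exact h2 x hx) a b c habc

variable (p : ℕ) [Fact p.Prime] (K : Type*) [Field K] [NumberField K]
  [IsCyclotomicExtension {p} ℚ K]

/-- Below `157` every even weight vanishes. -/
theorem even_weightProj_eq_one_lt_157 (hp5 : 5 ≤ p) (h157 : p < 157) {i : ℕ} (hev : Even i)
    (hi : i < p - 1) {x : ClassGroup (𝓞 K)} (hx : x ^ p = 1) : FA.Ext.weightProj p K i x = 1 := by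
  set y := FA.Ext.weightProj p K i x with hy
  have hyp : y ^ p = 1 := by rw [hy, ← map_pow, hx, map_one]
  refine vandiver_lt_157 p K hp5 h157 (FA.Ext.sigmaK p K (-1)) (MulEquiv.apply_symm_apply _ _) y hyp ?_
  show FA.Ext.sigmaCl p K (-1) y = y
  rw [hy, FA.Regular.weightProj_eigen p K i hx, Units.val_neg, Units.val_one, hev.neg_one_pow,
    ZMod.val_one, pow_one]

/-- Below `157` every class killed by `p` has the weight of the irregular index. -/
theorem eigen_lt_157 (hp5 : 5 ≤ p) (h157 : p < 157) {k : ℕ} (hev : Even k) (hk : 2 ≤ k)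
    (hkp : k ≤ p - 3) (hB : (p : ℤ) ∣ (bernoulli k).num) {x : ClassGroup (𝓞 K)} (hx : x ^ p = 1)
    (σ : K ≃ₐ[ℚ] K) :
    ClassGroup.mulEquiv (RingOfIntegers.mapRingEquiv σ.toRingEquiv) x =
      x ^ ((((IsCyclotomicExtension.Rat.galEquivZMod p K σ : (ZMod p)ˣ) : ZMod p)) ^ (p - k)).val := by
  refine FA.Regular.eigen_of_single_index p K hp5
    (fun i hev' hi' y hy => even_weightProj_eq_one_lt_157 p K hp5 h157 hev' hi' hy)
    hev hk hkp (fun i hev' hi hip hd => ?_) hx σ
  have e1 := (irregular_pairs_lt_157 p i Fact.out h157 hev' hi hip).mp hd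
  have e2 := (irregular_pairs_lt_157 p k Fact.out h157 hev hk hkp).mp hB
  simp only [List.mem_cons, Prod.mk.injEq, List.not_mem_nil, or_false] at e1 e2
  omega

/-- **The theorem of Herbrand and Ribet below `157`.** -/
theorem herbrand_ribet_lt_157 (hp5 : 5 ≤ p) (h157 : p < 157) (i : ℕ) (hi : Odd i) (hip : i ≤ p - 2) :
    (∃ x : ClassGroup (𝓞 K), x ≠ 1 ∧ x ^ p = 1 ∧ ∀ σ : K ≃ₐ[ℚ] K,
      ClassGroup.mulEquiv (RingOfIntegers.mapRingEquiv σ.toRingEquiv) x =
        x ^ ((((IsCyclotomicExtension.Rat.galEquivZMod p K σ : (ZMod p)ˣ) : ZMod p)) ^ i).val) ↔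
      3 ≤ i ∧ (p : ℤ) ∣ (bernoulli (p - i)).num :=
  FA.Regular.herbrand_ribet_of_single_index p K hp5
    (fun _ hev' hi' _ hy => even_weightProj_eq_one_lt_157 p K hp5 h157 hev' hi' hy)
    (fun i j h1 h2 h3 h4 h1' h2' h3' h4' => by
      have e1 := (irregular_pairs_lt_157 p i Fact.out h157 h1 h2 h3).mp h4
      have e2 := (irregular_pairs_lt_157 p j Fact.out h157 h1' h2' h3').mp h4'
      simp only [List.mem_cons, Prod.mk.injEq, List.not_mem_nil, or_false] at e1 e2
      omega) i hi hip

end FA.Summary
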