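import Fermat.Agent.Regular.ValuationCertificates
import Fermat.Agent.Root.SummaryFirstCaseBelowTenThousand

/-!
# The `p`-class groups of `ℚ(ζ_p)`, `p < 157`

* `kummer_vandiver_real_lt_157`: `p` does not divide `h(ℚ(ζ_p)⁺)`.
* `padicValNat_classNumber_lt_157`: `p` divides `h(ℚ(ζ_p))` exactly once for
  `p = 37, 59, 67, 101, 103, 131, 149` and not at all for the other primes `5 ≤ p < 157`.
* `pClassGroup_lt_157`: at an irregular pair `(p, k)` the classes of `p`-power order form a group of
  order `p`, on which `σ` acts by `a(σ)^(p-k)`.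

Classical; independent of S01.
-/

set_option autoImplicit false

noncomputable section

open NumberField
open scoped nonZeroDivisors

namespace FA.Summary

variable (p : ℕ) [Fact p.Prime] (K : Type*) [Field K] [NumberField K]
  [IsCyclotomicExtension {p} ℚ K]

/-- **The conjecture of Kummer and Vandiver in its classical form below `157`**: `p ∤ h⁺`. -/
theorem kummer_vandiver_real_lt_157 [IsCMField K] (hp5 : 5 ≤ p) (h157 : p < 157) :
    ¬ p ∣ classNumber (maximalRealSubfield K) :=
  FA.Regular.not_dvd_classNumber_real p K (by omega) fun C hC hfix =>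
    vandiver_lt_157 p K hp5 h157 (FA.Ext.sigmaK p K (-1)) (MulEquiv.apply_symm_apply _ _) C hC hfix

/-- An irregular prime below `157` divides the class number exactly once. -/
theorem padicValNat_classNumber_of_irregular (hp5 : 5 ≤ p) (h157 : p < 157) {k : ℕ} (hev : Even k)
    (hk : 2 ≤ k) (hkp : k ≤ p - 3) (hB : (p : ℤ) ∣ (bernoulli k).num) :
    padicValNat p (classNumber K) = 1 := by
  have : NeZero p := ⟨(Fact.out : p.Prime).ne_zero⟩
  have : IsCMField K := IsCyclotomicExtension.Rat.isCMField K (S := {p}) ⟨p, rfl, by omega⟩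
  refine FA.Regular.padicValNat_classNumber_eq_one hp5 hev hk hkp hB
    (kummer_vandiver_real_lt_157 p K hp5 h157) ?_
  have h := (irregular_pairs_lt_157 p k Fact.out h157 hev hk hkp).mp hB
  simp only [List.mem_cons, Prod.mk.injEq, List.not_mem_nil, or_false] at h
  rcases h with ⟨rfl, rfl⟩ | ⟨rfl, rfl⟩ | ⟨rfl, rfl⟩ | ⟨rfl, rfl⟩ | ⟨rfl, rfl⟩ | ⟨rfl, rfl⟩ | ⟨rfl, rfl⟩
  · exact FA.Regular.certValuation_thirtySeven
  · exact FA.Regular.certValuation_fiftyNine
  · exact FA.Regular.certValuation_sixtySeven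
  · exact FA.Regular.certValuation_oneHundredOne
  · exact FA.Regular.certValuation_oneHundredThree
  · exact FA.Regular.certValuation_oneHundredThirtyOne
  · exact FA.Regular.certValuation_oneHundredFortyNine

/-- **The exact power of `p` in `h(ℚ(ζ_p))`, `p < 157`.** -/
theorem padicValNat_classNumber_lt_157 (hp5 : 5 ≤ p) (h157 : p < 157) :
    padicValNat p (classNumber K) = if p ∈ [37, 59, 67, 101, 103, 131, 149] then 1 else 0 := by
  split_ifs with h
  · obtain ⟨k, hk⟩ : ∃ k, (p, k) ∈ [(37, 32), (59, 44), (67, 58), (101, 68), (103, 24), (131, 22), (149, 130)] := by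
      simp only [List.mem_cons, List.not_mem_nil, or_false] at h
      rcases h with rfl | rfl | rfl | rfl | rfl | rfl | rfl <;> simp
    have hk' := hk
    simp only [List.mem_cons, Prod.mk.injEq, List.not_mem_nil, or_false] at hk'
    have hev : Even k := by rw [Nat.even_iff]; omega
    exact padicValNat_classNumber_of_irregular p K hp5 h157 hev (by omega) (by omega)
      ((irregular_pairs_lt_157 p k Fact.out h157 hev (by omega) (by omega)).mpr hk)
  · refine padicValNat.eq_zero_of_not_dvd
      (FA.Regular.not_dvd_classNumber_of_regular p K hp5 fun k hev hk hkp hd => h ?_)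
    have h' := (irregular_pairs_lt_157 p k Fact.out h157 hev hk hkp).mp hd
    simp only [List.mem_cons, Prod.mk.injEq, List.not_mem_nil, or_false] at h' ⊢
    omega

/-- **The `p`-class group at an irregular pair below `157`**: of order `p`, of weight `p - k`. -/
theorem pClassGroup_lt_157 (hp5 : 5 ≤ p) (h157 : p < 157) {k : ℕ} (hev : Even k)
    (hk : 2 ≤ k) (hkp : k ≤ p - 3) (hB : (p : ℤ) ∣ (bernoulli k).num) :
    ∃ x : ClassGroup (𝓞 K), orderOf x = p ∧
      (∀ (y : ClassGroup (𝓞 K)) (j : ℕ), y ^ p ^ j = 1 → y ∈ Subgroup.zpowers x) ∧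
      ∀ σ : K ≃ₐ[ℚ] K, ClassGroup.mulEquiv (RingOfIntegers.mapRingEquiv σ.toRingEquiv) x =
        x ^ ((((IsCyclotomicExtension.Rat.galEquivZMod p K σ : (ZMod p)ˣ) : ZMod p)) ^ (p - k)).val := by
  have hp : p.Prime := Fact.out
  have hv := padicValNat_classNumber_of_irregular p K hp5 h157 hev hk hkp hB
  have hdvd : p ∣ classNumber K := dvd_of_one_le_padicValNat (by omega)
  obtain ⟨c, hc⟩ := hdvd
  have hc0 : c ≠ 0 := fun e => (classNumber_pos K).ne' (by rw [hc, e, mul_zero])
  have hpc : ¬ p ∣ c := fun hd => by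
    rw [hc, padicValNat.mul hp.ne_zero hc0, padicValNat_self] at hv
    have := one_le_padicValNat_of_dvd hc0 hd
    omega
  obtain ⟨x, hx⟩ := exists_prime_orderOf_dvd_card p (G := ClassGroup (𝓞 K)) ⟨c, hc⟩
  refine ⟨x, hx, fun y j hy => ?_, fun σ => eigen_lt_157 p K hp5 h157 hev hk hkp hB
    (hx ▸ pow_orderOf_eq_one x) σ⟩
  obtain ⟨P, hP⟩ := IsPGroup.exists_le_sylow (p := p) (P := Subgroup.zpowers x)
    (IsPGroup.of_card (n := 1) (by rw [Nat.card_zpowers, hx, pow_one]))
  obtain ⟨Q, hQ⟩ := IsPGroup.exists_le_sylow (p := p) (P := Subgroup.zpowers y) (by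
    obtain ⟨e, -, he⟩ := (Nat.dvd_prime_pow hp).mp (orderOf_dvd_of_pow_eq_one hy)
    exact IsPGroup.of_card (n := e) (by rw [Nat.card_zpowers, he]))
  have hPQ : (Q : Subgroup (ClassGroup (𝓞 K))) = P := by
    obtain ⟨g, hg⟩ := MulAction.exists_smul_eq (ClassGroup (𝓞 K)) P Q
    rw [Sylow.smul_eq_of_normal] at hg
    rw [hg]
  have hcard : Nat.card P = p := by
    rw [P.card_eq_multiplicity, ← Nat.factorization_def _ hp] at *
    rw [Nat.card_eq_fintype_card, show Fintype.card (ClassGroup (𝓞 K)) = classNumber K from rfl, hv,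
      pow_one]
  have : Subgroup.zpowers x = P :=
    Subgroup.eq_of_le_of_card_ge hP (by rw [hcard, Nat.card_zpowers, hx])
  rw [this, ← hPQ]
  exact hQ (Subgroup.mem_zpowers y)

end FA.Summary
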