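import Fermat.Agent.ChowlaSelberg.Transcendence

/-!
# Transcendental values of class group L-functions (Murty–Murty)

For an imaginary quadratic field `K` of discriminant `D`:
* `classL_transcendental`: `√|D| L (1, χ) / π` is transcendental for every character `χ ≠ 1` of the
  class group, and the constant terms of two class zeta functions differ by `0` or by a number
  whose product with `√|D| / π` is transcendental;
* `eulerKronecker_transcendental`: `exp (L' (1, χ_D) / L (1, χ_D) - γ)` and `exp (γ_K - 2 γ)`, for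
  the Euler–Kronecker constant `γ_K`, both equal `2 / Ω²` and are transcendental.
-/

set_option autoImplicit false
set_option linter.style.haveILetI false

noncomputable section

open NumberField Module FA.ChowlaSelberg
open scoped Real UpperHalfPlane nonZeroDivisors Classical

namespace FA.Summary

/-- **Transcendence at `s = 1` for the class group.** -/
theorem classL_transcendental (K : Type*) [Field K] [NumberField K] [IsTotallyComplex K]
    (hK : finrank ℚ K = 2) :
    (∀ (χ : ClassGroup (𝓞 K) →* ℂˣ) (E : ℂ → ℂ), χ ≠ 1 → Differentiable ℂ E →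
      (∀ s : ℂ, 1 < s.re → ∑' I : (Ideal (𝓞 K))⁰,
        (χ (ClassGroup.mk0 I) : ℂ) * ((Ideal.absNorm I.1 : ℕ) : ℂ) ^ (-s) = E s) →
      Transcendental ℚ ((√((discr K).natAbs : ℝ) : ℂ) * E 1 / π)) ∧
    ∀ (C C' : ClassGroup (𝓞 K)) (F F' : ℂ → ℂ), Differentiable ℂ F → Differentiable ℂ F' →
      (∀ s : ℂ, 1 < s.re →
        ∑' I : {I : (Ideal (𝓞 K))⁰ // ClassGroup.mk0 I = C},
            ((Ideal.absNorm I.1.1 : ℕ) : ℂ) ^ (-s) =
          (dedekindZeta_residue K / classNumber K : ℝ) / (s - 1) + F s) →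
      (∀ s : ℂ, 1 < s.re →
        ∑' I : {I : (Ideal (𝓞 K))⁰ // ClassGroup.mk0 I = C'},
            ((Ideal.absNorm I.1.1 : ℕ) : ℂ) ^ (-s) =
          (dedekindZeta_residue K / classNumber K : ℝ) / (s - 1) + F' s) →
      F 1 = F' 1 ∨ Transcendental ℚ ((√((discr K).natAbs : ℝ) : ℂ) * (F 1 - F' 1) / π) := by
  obtain ⟨e, H, hH, hF, hL, -⟩ := kronecker_class_limit K hK
  set N : ℕ := (discr K).natAbs
  set w : ℕ := Units.torsionOrder K
  have hw : (w : ℂ) ≠ 0 := Nat.cast_ne_zero.2 (Units.torsionOrder_ne_zero K)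
  have hs : ((√(N : ℝ) : ℝ) : ℂ) ≠ 0 := Complex.ofReal_ne_zero.2 (Real.sqrt_ne_zero'.2
    (Nat.cast_pos.2 (Int.natAbs_pos.2 (discr_ne_zero K))))
  have hπ : (π : ℂ) ≠ 0 := Complex.ofReal_ne_zero.2 Real.pi_ne_zero
  choose T hTmem hTH using fun C => show ∃ τ : ℍ, (τ : ℂ) ∈ e.range ∧ H C = height τ by
    obtain ⟨-, a, b, c, α, τ, -, -, ha, -, -, -, hα, -, hv⟩ := hH C
    exact ⟨τ, ⟨(α : K) / (a : K), by
      rw [map_div₀, map_intCast, hα, mul_div_cancel_left₀ _ (Int.cast_ne_zero.2 ha.ne')]⟩, hv⟩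
  refine ⟨fun χ E hχ hE hEs => ?_, fun C C' F F' hFd hF'd hFs hF's => ?_⟩
  · obtain ⟨E', hE', hE's, hval, hne⟩ := hL χ hχ
    have h1 : E 1 = E' 1 := (pole_unique (A := 0) (B := 0) hE.continuous hE'.continuous
      fun z hz _ => by rw [← hEs z (by simpa using hz), hE's z (by simpa using hz)]).2
    have h0 : ∑ C, (χ C : ℂ) = 0 := (FA.PrimeIdeal.sum_char_eq χ).trans (if_neg hχ)
    have hS : ∑ C, (χ C : ℂ) * (Real.log (height (T C⁻¹) / height (T 1)) : ℂ) =
        ∑ C, (χ C : ℂ) * (Real.log (H C⁻¹) : ℂ) := by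
      simp only [← hTH, Real.log_div (hH _).1.ne' (hH _).1.ne', Complex.ofReal_sub, mul_sub,
        Finset.sum_sub_distrib, ← Finset.sum_mul, h0, zero_mul, sub_zero]
    have hS0 : ∑ C, (χ C : ℂ) * (Real.log (height (T C⁻¹) / height (T 1)) : ℂ) ≠ 0 := fun h => by
      rw [hS] at h
      exact hne (by rw [hval, h, mul_zero])
    have ht := transcendental_height_sum hK e (fun C => T C⁻¹) (T 1) (fun C => hTmem _) (hTmem _)
      (fun C => (χ C : ℂ)) (fun C => isAlgebraic_char χ C) hS0
    intro halg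
    refine ht ?_
    rw [h1, hval] at halg
    rw [hS]
    have h2 := halg.mul ((isAlgebraic_natCast w).mul (isAlgebraic_natCast 4).inv).neg
    refine Eq.mpr (congrArg (IsAlgebraic ℚ) ?_) h2
    push_cast
    field_simp
  · obtain ⟨G, hG, hGs, hG1⟩ := hF C
    obtain ⟨G', hG', hG's, hG'1⟩ := hF C'
    have e1 : F 1 = G 1 := (pole_unique hFd.continuous hG.continuous fun z hz _ => by
      rw [← hFs z (by simpa using hz), hGs z (by simpa using hz)]).2
    have e2 : F' 1 = G' 1 := (pole_unique hF'd.continuous hG'.continuous fun z hz _ => by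
      rw [← hF's z (by simpa using hz), hG's z (by simpa using hz)]).2
    rw [e1, e2, hG1, hG'1, hTH, hTH]
    set l : ℂ := (Real.log (height (T C⁻¹) / height (T C'⁻¹)) : ℂ) with hl
    by_cases h0 : l = 0
    · left
      rw [hl, Real.log_div (height_pos _).ne' (height_pos _).ne', Complex.ofReal_eq_zero,
        sub_eq_zero] at h0
      rw [h0]
    · right
      have ht := transcendental_height_sum hK e (fun _ : Unit => T C⁻¹) (T C'⁻¹) (fun _ => hTmem _)
        (hTmem _) (fun _ => 1) (fun _ => isAlgebraic_one)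
          (by rwa [Fintype.sum_unique, one_mul])
      simp only [Fintype.sum_unique, one_mul] at ht
      intro halg
      refine ht ?_
      have h2 := halg.mul ((isAlgebraic_natCast w).mul (isAlgebraic_natCast 4).inv).neg
      refine Eq.mpr (congrArg (IsAlgebraic ℚ) ?_) h2
      rw [Real.log_div (height_pos _).ne' (height_pos _).ne']
      push_cast
      field_simp
      ring

/-- **The Euler–Kronecker constant.** -/
theorem eulerKronecker_transcendental (K : Type*) [Field K] [NumberField K] [IsTotallyComplex K]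
    (hK : finrank ℚ K = 2) :
    haveI : NeZero (discr K).natAbs := ⟨Int.natAbs_ne_zero.mpr (discr_ne_zero K)⟩
    ∃ χ : DirichletCharacter ℂ (discr K).natAbs, χ.IsPrimitive ∧ χ ^ 2 = 1 ∧ χ.Odd ∧
      (∀ z : ℂ, 1 < z.re →
        dedekindZeta K z = riemannZeta z * DirichletCharacter.LFunction χ z) ∧
      letI Ω : ℝ := (√π)⁻¹ * ∏ a : ZMod (discr K).natAbs,
        Real.Gamma ((a.val : ℝ) / (discr K).natAbs) ^
          ((Units.torsionOrder K : ℝ) * (χ a).re / (4 * classNumber K))
      Transcendental ℚ ((2 / Ω ^ 2 : ℝ) : ℂ) ∧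
      Complex.exp (deriv (DirichletCharacter.LFunction χ) 1 / DirichletCharacter.LFunction χ 1 -
        (Real.eulerMascheroniConstant : ℂ)) = ((2 / Ω ^ 2 : ℝ) : ℂ) ∧
      ∀ H : ℂ → ℂ, Differentiable ℂ H →
        (∀ s : ℂ, 1 < s.re → dedekindZeta K s = dedekindZeta_residue K / (s - 1) + H s) →
        Complex.exp (H 1 / dedekindZeta_residue K - 2 * (Real.eulerMascheroniConstant : ℂ)) =
          ((2 / Ω ^ 2 : ℝ) : ℂ) := by
  obtain ⟨d, hd, hd0, s, hs⟩ := exists_sq_eq_intCast_neg K hK
  haveI : NeZero (discr K).natAbs := ⟨Int.natAbs_ne_zero.mpr (discr_ne_zero K)⟩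
  obtain ⟨χ, hprim, hq, hodd, hζ⟩ := exists_fieldChar hK hd0 hs
  obtain ⟨e, he⟩ := FA.FieldClassBound.exists_emb hd0 hs
  haveI : Fintype (FA.Singular.Red (FA.FieldClassBound.discK d)) :=
    (FA.Singular.red_finite _).fintype
  choose T A hg using fun f : FA.Singular.Red (FA.FieldClassBound.discK d) =>
    FA.FieldClassBound.exists_gen e hd0 hs he (f := (f : ℤ × ℤ × ℤ)) f.2.2.2.1 f.2.1
  have hL := (main hK hd hd0 hs rfl hprim hq hodd hζ T fun f => (hg f).1).1
  have hlog := exp_logDeriv hprim hq hodd hL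
  refine ⟨χ, hprim, hq, hodd, hζ, fun halg => ?_, hlog, fun H hH hHs => ?_⟩
  · have him : 0 < (e s).im := by
      rw [he]
      simpa using Real.sqrt_pos.2 (neg_pos.2 (Int.cast_lt_zero.2 hd0 : (d : ℝ) < 0))
    set τ : ℍ := ⟨e s, him⟩
    have h12 := isAlgebraic_omega_div hK hd hd0 hs he rfl hprim hq hodd hζ (τ := τ) ⟨s, rfl⟩
    have hj := isAlgebraic_jfun_of_mem hK hd0 hs (τ := τ) (e := e) ⟨s, rfl⟩
    have hΩ : IsAlgebraic ℚ ((csOmega K χ : ℂ)) := by
      refine IsAlgebraic.of_pow two_pos ?_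
      have h' := (isAlgebraic_natCast 2).mul halg.inv
      have hne : (csOmega K χ : ℂ) ≠ 0 := Complex.ofReal_ne_zero.2 (csOmega_ne_zero hodd)
      refine Eq.mpr (congrArg (IsAlgebraic ℚ) ?_) h'
      show _ = (2 : ℕ) * (((2 / csOmega K χ ^ 2 : ℝ) : ℂ))⁻¹
      push_cast
      field_simp
    refine FA.ModularParametrization.transcendental_discriminant hj ?_
    have h' := (hΩ.pow 12).mul h12.inv
    rwa [inv_div, mul_div_cancel₀ _ (pow_ne_zero 12
      (Complex.ofReal_ne_zero.2 (csOmega_ne_zero hodd)))] at h'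
  · have hχ1 : χ ≠ 1 := ne_one_of_odd hodd
    set L := DirichletCharacter.LFunction χ
    have hLd : Differentiable ℂ L := DirichletCharacter.differentiable_LFunction hχ1
    have hz := ZetaAsymptotics.tendsto_riemannZeta_sub_one_div_nhds_right
    have hi : Filter.Tendsto (fun z : ℝ => (z : ℂ)) (nhdsWithin 1 (Set.Ioi 1))
        (nhdsWithin (1 : ℂ) {1}ᶜ) := by
      refine tendsto_nhdsWithin_iff.2 ⟨?_, ?_⟩
      · simpa using (Complex.continuous_ofReal.tendsto 1).mono_left nhdsWithin_le_nhds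
      · filter_upwards [self_mem_nhdsWithin] with z hz
        simpa using (ne_of_gt (show (1 : ℝ) < z from hz))
    have hsl : Filter.Tendsto (fun z : ℝ => (L z - L 1) / ((z : ℂ) - 1))
        (nhdsWithin 1 (Set.Ioi 1)) (nhds (deriv L 1)) :=
      ((hasDerivAt_iff_tendsto_slope.1 (hLd 1).hasDerivAt).comp hi).congr fun z => by
        rw [Function.comp_apply, slope_def_field]
    have hLc := (hLd.continuous.tendsto 1).comp (hi.mono_right nhdsWithin_le_nhds)
    have hHc : Filter.Tendsto (fun z : ℝ => H z) (nhdsWithin 1 (Set.Ioi 1)) (nhds (H 1)) :=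
      (hH.continuous.tendsto 1).comp (hi.mono_right nhdsWithin_le_nhds)
    set κ : ℂ := (dedekindZeta_residue K : ℂ)
    have hd' : Filter.Tendsto (fun z : ℝ => (κ - L 1) / ((z : ℂ) - 1))
        (nhdsWithin 1 (Set.Ioi 1))
        (nhds (L 1 * (Real.eulerMascheroniConstant : ℂ) + deriv L 1 - H 1)) := by
      refine (((hLc.mul hz).add hsl).sub hHc).congr' ?_
      filter_upwards [self_mem_nhdsWithin] with z hz
      have h := hHs z (by simpa using hz)
      rw [hζ z (by simpa using hz)] at h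
      simp only [Function.comp_apply]
      linear_combination h
    have hid : Filter.Tendsto (fun z : ℝ => (z : ℂ) - 1) (nhdsWithin 1 (Set.Ioi 1)) (nhds 0) :=
      (Complex.continuous_ofReal.sub continuous_const).tendsto' 1 _ (by simp)
        |>.mono_left nhdsWithin_le_nhds
    have h1 : κ - L 1 = 0 := by
      refine tendsto_nhds_unique (l := nhdsWithin (1 : ℝ) (Set.Ioi 1)) tendsto_const_nhds ?_
      have := hd'.mul hid
      rw [mul_zero] at this
      refine this.congr' ?_
      filter_upwards [self_mem_nhdsWithin] with z hz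
      rw [div_mul_cancel₀]
      simpa [sub_eq_zero] using (ne_of_gt (show (1 : ℝ) < z from hz))
    simp only [h1, zero_div] at hd'
    have h2 := (sub_eq_zero.1 (tendsto_nhds_unique tendsto_const_nhds hd').symm).symm
    have hL0 : L 1 ≠ 0 := DirichletCharacter.LFunction_apply_one_ne_zero hχ1
    refine Eq.trans ?_ hlog
    rw [h2, show κ = L 1 from sub_eq_zero.1 h1]
    congr 1
    field_simp
    ring

end FA.Summary

end
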