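import Fermat.Agent.ClassNumberExtremes.Main

/-!
# Extreme values of `L(1, χ)` and of the class number (Littlewood, Walfisz, Chowla)

For squarefree `n ≡ 1 (mod 4)` the number `-4 n` is a fundamental discriminant and
`χ = (-n / ·)` is primitive modulo `4 n`.

* `large_LValues`: for infinitely many such `n`, `L(1, χ) ≥ c log log n` (Chowla 1949; Walfisz).
* `small_LValues`: for infinitely many such `n`, `0 < L(1, χ) ≤ C / log log n`.
* `large_classNumbers`, `small_classNumbers`: so `h(-4n) ≥ c √n log log n` infinitely often and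
  `h(-4n) ≤ C √n / log log n` infinitely often, without any hypothesis.

The best constants (`e^γ` for Chowla) and the real quadratic fields are not claimed.
-/

set_option autoImplicit false

noncomputable section

open FA.OrderTheta (signChar)

namespace FA.ClassNumberExtremes.Summary

/-- For squarefree `n ≡ 1 (mod 4)` the character is primitive and is the Jacobi symbol. -/
theorem signChar_primitive {n : ℕ} [NeZero n] (hsq : Squarefree n) (h4 : n % 4 = 1) :
    (signChar n).IsPrimitive ∧ ∀ m : ℕ, m.Coprime (4 * n) →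
      signChar n (m : ZMod (4 * n)) = (jacobiSym (-(n : ℤ)) m : ℂ) := by
  refine ⟨signChar_isPrimitive hsq h4, fun m hm => ?_⟩
  have ho : Odd m :=
    Nat.coprime_two_right.mp (hm.coprime_dvd_right (Dvd.dvd.mul_right (by norm_num) n))
  rw [signChar_natCast, jn_odd n ho]
  norm_num

/-- **`L(1, χ) ≫ log log n` infinitely often.** -/
theorem large_LValues : ∃ c : ℝ, 0 < c ∧ {n : ℕ | ∃ _ : NeZero n, Squarefree n ∧ n % 4 = 1 ∧
    (signChar n).IsPrimitive ∧
    c * Real.log (Real.log n) ≤ (DirichletCharacter.LFunction (signChar n) 1).re}.Infinite := by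
  obtain ⟨c, hc, h⟩ := exists_large_squarefree
  refine ⟨c, hc, Set.infinite_of_forall_exists_gt fun N => ?_⟩
  obtain ⟨n, hN, hn, hsq, h4, hle⟩ := h N
  refine ⟨n, ⟨hn, hsq, h4, signChar_isPrimitive hsq h4, ?_⟩, hN⟩
  rwa [LFunction_eq_LVal, Complex.ofReal_re]

/-- **`L(1, χ) ≪ 1 / log log n` infinitely often.** -/
theorem small_LValues : ∃ C : ℝ, 0 < C ∧ {n : ℕ | ∃ _ : NeZero n, Squarefree n ∧ n % 4 = 1 ∧
    (signChar n).IsPrimitive ∧
    0 < (DirichletCharacter.LFunction (signChar n) 1).re ∧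
    (DirichletCharacter.LFunction (signChar n) 1).re ≤ C / Real.log (Real.log n)}.Infinite := by
  obtain ⟨C, hC, h⟩ := exists_small_squarefree
  refine ⟨C, hC, Set.infinite_of_forall_exists_gt fun N => ?_⟩
  obtain ⟨n, hN, hn, hsq, h4, hle⟩ := h N
  refine ⟨n, ⟨hn, hsq, h4, signChar_isPrimitive hsq h4, ?_, ?_⟩, hN⟩
  · rw [LFunction_eq_LVal, Complex.ofReal_re]; exact LVal_pos
  · rwa [LFunction_eq_LVal, Complex.ofReal_re]

/-- **Large class numbers of imaginary quadratic orders.** -/
theorem large_classNumbers : ∃ c : ℝ, 0 < c ∧ {n : ℕ | ∃ _ : NeZero n, Squarefree n ∧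
    n % 4 = 1 ∧
    c * Real.sqrt n * Real.log (Real.log n) ≤
      Nat.card (FA.OrderTheta.Cl n)}.Infinite := by
  obtain ⟨c, hc, h⟩ := exists_large_squarefree
  refine ⟨2 / Real.pi * c, by positivity, Set.infinite_of_forall_exists_gt fun N => ?_⟩
  obtain ⟨n, hN, hn, hsq, h4, hle⟩ := h (N + 1)
  refine ⟨n, ⟨hn, hsq, h4, ?_⟩, by omega⟩
  rw [card_cl_eq (by omega)]
  calc 2 / Real.pi * c * Real.sqrt n * Real.log (Real.log n)
      = 2 * Real.sqrt n / Real.pi * (c * Real.log (Real.log n)) := by ring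
    _ ≤ _ := mul_le_mul_of_nonneg_left hle (by positivity)

/-- **Small class numbers of imaginary quadratic orders.** -/
theorem small_classNumbers : ∃ C : ℝ, 0 < C ∧ {n : ℕ | ∃ _ : NeZero n, Squarefree n ∧
    n % 4 = 1 ∧
    0 < Nat.card (FA.OrderTheta.Cl n) ∧
    (Nat.card (FA.OrderTheta.Cl n) : ℝ) ≤ C * Real.sqrt n / Real.log (Real.log n)}.Infinite := by
  obtain ⟨C, hC, h⟩ := exists_small_squarefree
  refine ⟨2 / Real.pi * C, by positivity, Set.infinite_of_forall_exists_gt fun N => ?_⟩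
  obtain ⟨n, hN, hn, hsq, h4, hle⟩ := h (N + 1)
  have := FA.OrderTheta.finite_cl (N := n)
  refine ⟨n, ⟨hn, hsq, h4, Nat.card_pos, ?_⟩, by omega⟩
  rw [card_cl_eq (by omega)]
  calc 2 * Real.sqrt n / Real.pi * LVal n
      ≤ 2 * Real.sqrt n / Real.pi * (C / Real.log (Real.log n)) :=
        mul_le_mul_of_nonneg_left hle (by positivity)
    _ = _ := by ring

end FA.ClassNumberExtremes.Summary
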