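import Fermat.Agent.ThetaOne.OrderClassFormula

/-!
# Dirichlet's class number formula for binary quadratic forms

`n > 1`, `h(n)` is the number of reduced primitive forms `a x² + 2 b x y + c y²` of determinant `n`
(`classNumber_reduced_forms`), and `χ` the character modulo `4n` with `χ(m) = (-n / m)` for `m` prime
to `4n`.

* `dirichlet_massFormula`: for `m` prime to `4n` these forms represent `m` in all
  `2 ∑_{d ∣ m} (-n / d)` times.
* `dirichlet_classNumberFormula_forms`: `L(1, χ) = π h(n) / (2 √n)`; `lFunction_one_fourteen` is the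
  case `n = 14`, `L(1, χ) = 2 π / √14`.
-/

set_option autoImplicit false

noncomputable section

open FA.Theta
open scoped Real

namespace FA.Summary

open FA.OrderTheta

/-- **Dirichlet's mass formula**: the reduced primitive forms of determinant `n > 1`, as pairs
`(a, b)`, represent an `m` prime to `4n` in all `2 ∑_{d ∣ m} (-n / d)` times. -/
theorem dirichlet_massFormula (n : ℕ) (hn : 1 < n) (M : ℕ) (hM : 4 * n < 3 * (M + 1) ^ 2) (m : ℕ)
    (hm : m.Coprime (4 * n)) :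
    ∑ t ∈ (Finset.range (M + 1) ×ˢ Finset.Icc (-(M : ℤ)) M).filter (fun t =>
        0 < t.1 ∧ (t.1 : ℤ) ∣ t.2 ^ 2 + n ∧
          Int.gcd (Int.gcd t.1 (2 * t.2)) ((t.2 ^ 2 + n) / t.1) = 1 ∧ 2 * |t.2| ≤ (t.1 : ℤ) ∧
          (t.1 : ℤ) * t.1 ≤ t.2 ^ 2 + n ∧
          ((2 * |t.2| = (t.1 : ℤ) ∨ (t.1 : ℤ) * t.1 = t.2 ^ 2 + n) → 0 ≤ t.2)),
      (({v : ℤ × ℤ | (t.1 : ℤ) * v.1 ^ 2 + 2 * t.2 * v.1 * v.2 + (t.2 ^ 2 + n) / t.1 * v.2 ^ 2 =
        (m : ℤ)}.ncard : ℕ) : ℤ) =
      2 * ∑ d ∈ m.divisors, jacobiSym (-(n : ℤ)) d := by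
  classical
  have : NeZero n := ⟨by omega⟩
  have : NeZero (4 * n) := ⟨by omega⟩
  have := finite_cl (N := n)
  let _ : Fintype (Cl n) := Fintype.ofFinite _
  have h := coef_one_eq_charSum (n := n) hn hm
  have hχ : charSum n m = ((∑ d ∈ m.divisors, jacobiSym (-(n : ℤ)) d : ℤ) : ℂ) := by
    rw [charSum, Int.cast_sum]
    exact Finset.sum_congr rfl fun d hd => by
      rw [signChar, FA.Twists.twistChar_natCast _ (hm.coprime_dvd_left (Nat.dvd_of_mem_divisors hd))]
  rw [hχ, coef] at h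
  simp only [MonoidHom.one_apply, inv_one, Units.val_one, one_mul] at h
  have hsum : ∑ g : Cl n, (cnt (rep g) m : ℤ) = 2 * ∑ d ∈ m.divisors, jacobiSym (-(n : ℤ)) d := by
    have : ((∑ g : Cl n, (cnt (rep g) m : ℤ) : ℤ) : ℂ) =
        ((2 * ∑ d ∈ m.divisors, jacobiSym (-(n : ℤ)) d : ℤ) : ℂ) := by
      push_cast at h ⊢
      linear_combination 2 * h
    exact_mod_cast this
  rw [← hsum, ← Finset.sum_coe_sort]
  refine Fintype.sum_bijective _ (redSet_bijective hM) _ _ fun t => ?_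
  congr 1
  obtain ⟨t, ht⟩ := t
  have hr : IsRed n t.1 t.2 := (Finset.mem_filter.mp ht).2
  rw [cnt_congr (J := redII hr) (cls_rep _) m, redII, cnt_rootII]

/-- **Dirichlet's class number formula for forms of determinant `n > 1`.** -/
theorem dirichlet_classNumberFormula_forms (n : ℕ) [NeZero n] [NeZero (4 * n)] (hn : 1 < n) :
    ∃ χ : DirichletCharacter ℂ (4 * n),
      (∀ m : ℕ, m.Coprime (4 * n) → χ (m : ZMod (4 * n)) = (jacobiSym (-(n : ℤ)) m : ℂ)) ∧
      DirichletCharacter.LFunction χ 1 =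
        ((π * Nat.card (Cl n) / (2 * Real.sqrt n) : ℝ) : ℂ) :=
  ⟨signChar n, fun m hm => by rw [signChar, FA.Twists.twistChar_natCast _ hm],
    lFunction_one_eq hn⟩

/-- The case `n = 14`: four forms, so `L(1, χ) = 2 π / √14`. -/
theorem lFunction_one_fourteen :
    ∃ χ : DirichletCharacter ℂ 56,
      (∀ m : ℕ, m.Coprime 56 → χ (m : ZMod 56) = (jacobiSym (-14) m : ℂ)) ∧
      DirichletCharacter.LFunction χ 1 = ((2 * π / Real.sqrt 14 : ℝ) : ℂ) := by
  obtain ⟨χ, h1, h2⟩ := dirichlet_classNumberFormula_forms 14 (by norm_num)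
  refine ⟨χ, h1, h2.trans ?_⟩
  rw [card_cl_examples.2.2.1]
  congr 1
  push_cast
  ring

end FA.Summary
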