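import Fermat.Agent.ClassNumberModEight.Main

/-!
# Summary: the class number of `ℚ(√-p)` modulo eight

`p` is a prime `≡ 1 (mod 4)` and `K` quadratic with `s² = -p`.

* `two_dvd_classNumber_neg_prime`, `four_dvd_classNumber_neg_prime`: `2 ∣ h`, and `4 ∣ h` iff
  `p ≡ 1 (mod 8)` (Gauss).
* `eight_dvd_classNumber_iff_representation`: `8 ∣ h` iff `p = x² + 32 y²` (Reichardt; Barrucand
  and Cohn 1969).
* `exists_pell_representation`, `eight_dvd_classNumber_iff_pell`: for `p ≡ 1 (mod 8)` some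
  `p = 2 z² - a²`, `z > 0`, and for any such `8 ∣ h` iff `z ≡ 1 (mod 4)`.
* `eight_dvd_classNumber_forty_one`, `not_eight_dvd_classNumber_seventeen`: examples.

Not claimed: `p ≡ 3 (mod 4)`, composite or even radicands, divisibility by `16`, densities.
Classical; independent of S01.
-/

set_option autoImplicit false
set_option linter.style.haveILetI false

noncomputable section

open NumberField Module
open scoped Classical

namespace FA.Summary

open FA.ClassEight

variable (p : ℕ) [Fact p.Prime] (K : Type*) [Field K] [NumberField K]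

omit [Fact p.Prime] in
theorem exists_sqrt_integer (hs : ∃ s : K, s ^ 2 = -(p : K)) :
    ∃ s : 𝓞 K, s ^ 2 = -(p : 𝓞 K) := by
  obtain ⟨s, hs⟩ := hs
  have hint : IsIntegral ℤ s := IsIntegral.of_pow two_pos (by
    rw [hs, ← map_natCast (algebraMap ℤ K)]
    exact isIntegral_algebraMap.neg)
  exact ⟨⟨s, hint⟩, RingOfIntegers.ext (show s ^ 2 = ((-(p : 𝓞 K) : 𝓞 K) : K) by simp [hs])⟩

/-- `h` is even. -/
theorem two_dvd_classNumber_neg_prime (hK : finrank ℚ K = 2) (hs : ∃ s : K, s ^ 2 = -(p : K))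
    (h4 : p % 4 = 1) : 2 ∣ classNumber K := by
  obtain ⟨s, hs⟩ := exists_sqrt_integer p K hs
  exact two_dvd_classNumber hK h4 hs

/-- **Gauss**: `4 ∣ h` iff `p ≡ 1 (mod 8)`. -/
theorem four_dvd_classNumber_neg_prime (hK : finrank ℚ K = 2) (hs : ∃ s : K, s ^ 2 = -(p : K))
    (h4 : p % 4 = 1) : 4 ∣ classNumber K ↔ p % 8 = 1 := by
  obtain ⟨s, hs⟩ := exists_sqrt_integer p K hs
  refine ⟨mod_eight_of_four_dvd hK h4 hs, fun h8 => ?_⟩
  obtain ⟨a, z, hz, h⟩ := exists_rep_pell h8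
  exact (eight_dvd_iff_mod_four hK h4 hs h8 hz h).1

/-- `p = 2 z² - a²`. -/
theorem exists_pell_representation (h8 : p % 8 = 1) :
    ∃ a : ℤ, ∃ z : ℕ, 0 < z ∧ (p : ℤ) = 2 * (z : ℤ) ^ 2 - a ^ 2 :=
  exists_rep_pell h8

/-- **The criterion in `p = 2 z² - a²`.** -/
theorem eight_dvd_classNumber_iff_pell (hK : finrank ℚ K = 2) (hs : ∃ s : K, s ^ 2 = -(p : K))
    (h8 : p % 8 = 1) {a : ℤ} {z : ℕ} (hz : 0 < z) (h : (p : ℤ) = 2 * (z : ℤ) ^ 2 - a ^ 2) :
    8 ∣ classNumber K ↔ z % 4 = 1 := by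
  obtain ⟨s, hs⟩ := exists_sqrt_integer p K hs
  exact (eight_dvd_iff_mod_four hK (by omega) hs h8 hz h).2

/-- **Reichardt, Barrucand and Cohn**: `8 ∣ h` iff `p = x² + 32 y²`. -/
theorem eight_dvd_classNumber_iff_representation (hK : finrank ℚ K = 2)
    (hs : ∃ s : K, s ^ 2 = -(p : K)) (h4 : p % 4 = 1) :
    8 ∣ classNumber K ↔ ∃ x y : ℤ, (p : ℤ) = x ^ 2 + 32 * y ^ 2 := by
  constructor
  · intro h
    have h8 : p % 8 = 1 := (four_dvd_classNumber_neg_prime p K hK hs h4).mp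
      (dvd_trans (by norm_num) h)
    obtain ⟨a, z, hz, hpell⟩ := exists_rep_pell h8
    obtain ⟨x, C, hx⟩ := exists_rep_eight h8
    have hC := (jacobi_z_iff_even h8 hz hpell hx).mp ((jacobi_z h8 hz hpell).mpr
      ((eight_dvd_classNumber_iff_pell p K hK hs h8 hz hpell).mp h))
    obtain ⟨y, rfl⟩ := hC
    exact ⟨x, y, by rw [hx]; ring⟩
  · rintro ⟨x, y, hxy⟩
    have h8 : p % 8 = 1 := by
      obtain ⟨k, rfl | rfl⟩ := Int.even_or_odd' x
      · exfalso
        ring_nf at hxy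
        omega
      · obtain ⟨m, hm⟩ := (Int.even_mul_succ_self k).two_dvd
        rw [show (2 * k + 1) ^ 2 = 4 * (k * (k + 1)) + 1 by ring, hm] at hxy
        omega
    obtain ⟨a, z, hz, hpell⟩ := exists_rep_pell h8
    refine (eight_dvd_classNumber_iff_pell p K hK hs h8 hz hpell).mpr
      ((jacobi_z h8 hz hpell).mp ((jacobi_z_iff_even h8 hz hpell
        (x := x) (C := 2 * y) (by rw [hxy]; ring)).mpr ⟨y, two_mul y⟩))

/-- `h(-41) ≡ 0 (mod 8)`. -/
theorem eight_dvd_classNumber_forty_one (hK : finrank ℚ K = 2) (hs : ∃ s : K, s ^ 2 = -(41 : K)) :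
    8 ∣ classNumber K := by
  haveI : Fact (Nat.Prime 41) := ⟨by norm_num⟩
  exact (eight_dvd_classNumber_iff_representation 41 K hK (by exact_mod_cast hs) (by norm_num)).mpr
    ⟨3, 1, by norm_num⟩

/-- `h(-17) ≡ 4 (mod 8)`. -/
theorem not_eight_dvd_classNumber_seventeen (hK : finrank ℚ K = 2)
    (hs : ∃ s : K, s ^ 2 = -(17 : K)) : 4 ∣ classNumber K ∧ ¬ 8 ∣ classNumber K := by
  haveI : Fact (Nat.Prime 17) := ⟨by norm_num⟩
  refine ⟨(four_dvd_classNumber_neg_prime 17 K hK (by exact_mod_cast hs) (by norm_num)).mpr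
    (by norm_num), fun h => ?_⟩
  have := (eight_dvd_classNumber_iff_pell 17 K hK (by exact_mod_cast hs) (by norm_num)
    (a := 1) (z := 3) (by norm_num) (by norm_num)).mp h
  norm_num at this

end FA.Summary
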