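import Fermat.Agent.ClassNumberOneFF.Main
import Fermat.Agent.Root.SummaryArtinClassNumber

/-!
# The class number one problem for imaginary quadratic function fields of odd degree

For odd `q` and monic squarefree `D` of degree `2 g + 1` with `g ≥ 1`, Artin's class number `h(D)`
is `1` exactly for `q = 3`, `g = 1` and `D = X ^ 3 - X - 1` (MacRae, Madan and Queen). The proof:
`h(D) = 1` makes all small primes inert, so `L(u, D)` has the value `g + 1 - g √q` at
`u = 1 / √q`, which by the Riemann hypothesis is not negative.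

Not claimed: the even degree case (`∞` inert), characteristic `2`, or the identification of `h(D)`
with the class group of `F_q[t, √D]`.
-/

set_option autoImplicit false
set_option linter.style.openClassical false
set_option linter.style.haveILetI false
set_option linter.unusedSectionVars false

noncomputable section

open scoped Classical
open Polynomial
open FA.QuadraticLFF.Summary (quadSymbol lCoeff lFunction lCoeff_eq lFunction_eq)
open FA.ArtinClassNumber.Summary (classNumber)

namespace FA.ClassNumberOneFF.Summary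

variable {k : Type*} [Field k] [Fintype k]

/-- **`h(D) = 1`** says that `D` is no square modulo a polynomial of degree `1, ..., g`. -/
theorem classNumber_eq_one_iff (D : k[X]) (g : ℕ) : classNumber D g = 1 ↔
    ∀ a b : k[X], a.Monic → 1 ≤ a.natDegree → a.natDegree ≤ g → ¬ a ∣ b ^ 2 - D := by
  rw [ArtinClassNumber.Summary.classNumber_eq, ← Finset.add_sum_erase _ _
    (KurlbergRudnick.mem_upTo.mpr ⟨monic_one, by simp⟩ : (1 : k[X]) ∈ KurlbergRudnick.upTo k g),
    ArtinClassNumber.rootNum_one, add_eq_left, Finset.sum_eq_zero_iff]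
  constructor
  · intro h a b ha h1 hg hb
    have h0 := h a (Finset.mem_erase.mpr
      ⟨fun e => by simp [e] at h1, KurlbergRudnick.mem_upTo.mpr ⟨ha, hg⟩⟩)
    rw [ArtinClassNumber.rootNum, Finset.card_eq_zero] at h0
    have hd : a ∣ b %ₘ a - b :=
      ⟨-(b /ₘ a), by linear_combination modByMonic_add_div b a⟩
    have hr : b %ₘ a ∈ ArtinClassNumber.rootSet D a := by
      refine (ArtinClassNumber.mem_rootSet ha).mpr ⟨degree_modByMonic_lt b ha, ?_⟩
      have h := dvd_add (hd.mul_right (b %ₘ a + b)) hb
      rwa [show (b %ₘ a - b) * (b %ₘ a + b) + (b ^ 2 - D) = (b %ₘ a) ^ 2 - D by ring] at h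
    simp [h0] at hr
  · intro h a ha
    obtain ⟨h1, ha⟩ := Finset.mem_erase.mp ha
    obtain ⟨hm, hg⟩ := KurlbergRudnick.mem_upTo.mp ha
    rw [ArtinClassNumber.rootNum, Finset.card_eq_zero, Finset.eq_empty_iff_forall_notMem]
    exact fun b hb => h a b hm (Nat.pos_of_ne_zero fun e => h1 (hm.natDegree_eq_zero.mp e)) hg
      ((ArtinClassNumber.mem_rootSet hm).mp hb).2

theorem rootNum_eq_zero {D : k[X]} {g : ℕ} (h : classNumber D g = 1) {a : k[X]} (ha : a.Monic)
    (h1 : 1 ≤ a.natDegree) (hg : a.natDegree ≤ g) : ArtinClassNumber.rootNum D a = 0 := by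
  rw [ArtinClassNumber.rootNum, Finset.card_eq_zero, Finset.eq_empty_iff_forall_notMem]
  exact fun b hb => (classNumber_eq_one_iff D g).mp h a b ha h1 hg
    ((ArtinClassNumber.mem_rootSet ha).mp hb).2

/-- **The example** `y ^ 2 = X ^ 3 - X - 1` over the field with `3` elements. -/
theorem cubic_example (hq : Fintype.card k = 3) :
    ringChar k ≠ 2 ∧ (X ^ 3 - X - 1 : k[X]).Monic ∧ Squarefree (X ^ 3 - X - 1 : k[X]) ∧
      (X ^ 3 - X - 1 : k[X]).natDegree = 3 ∧ classNumber (X ^ 3 - X - 1 : k[X]) 1 = 1 := by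
  have h3 : (3 : k) = 0 := by
    have h := FiniteField.cast_card_eq_zero k
    rwa [hq, Nat.cast_ofNat] at h
  refine ⟨fun h => ?_, by monicity!, Separable.squarefree ?_, by compute_degree!, ?_⟩
  · have h2 := FiniteField.even_card_iff_char_two.mp h
    omega
  · have hd : derivative (X ^ 3 - X - 1 : k[X]) = -1 := by
      rw [derivative_sub, derivative_sub, derivative_X_pow, derivative_X, derivative_one,
        Nat.cast_ofNat, h3, map_zero, zero_mul, zero_sub, sub_zero]
    rw [separable_def, hd]
    exact isCoprime_one_right.neg_right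
  rw [classNumber_eq_one_iff]
  intro a b ha h1 hg hb
  obtain ⟨x, rfl⟩ : ∃ x, a = X - C x := by
    refine ⟨-a.coeff 0, ?_⟩
    rw [map_neg, sub_neg_eq_add]
    exact ha.eq_X_add_C (le_antisymm hg h1)
  have h0 : ArtinClassNumber.rootNum (X ^ 3 - X - 1 : k[X]) (X - C x) = 0 :=
    ClassNumberOneFF.rootNum_cubic hq x
  rw [ClassNumberOneFF.rootNum_X_sub_C, Finset.card_eq_zero, Finset.filter_eq_empty_iff] at h0
  refine h0 (Finset.mem_univ (b.eval x)) ?_
  have h := dvd_iff_isRoot.mp hb
  rwa [IsRoot, eval_sub, eval_pow, sub_eq_zero] at h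

variable (hk : ringChar k ≠ 2) {D : k[X]} (hD : D.Monic) (hsq : Squarefree D) {g : ℕ}
  (hdeg : D.natDegree = 2 * g + 1)
include hk hD hsq hdeg

/-- **Class number `1`** makes the small primes inert, so the first coefficients are Liouville's. -/
theorem small_primes_inert (h : classNumber D g = 1) :
    (∀ P : k[X], P.Monic → Irreducible P → P.natDegree ≤ g → quadSymbol P D = -1) ∧
    ∀ n ≤ g, lCoeff D n = if Even n then (Fintype.card k : ℤ) ^ (n / 2)
      else -(Fintype.card k : ℤ) ^ (n / 2 + 1) := by
  refine ⟨fun P hm hP hd => ?_, fun n hn => ?_⟩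
  · have h0 := rootNum_eq_zero h hm hP.natDegree_pos hd
    have hPD : ¬ P ∣ D := fun hdvd =>
      (classNumber_eq_one_iff D g).mp h P 0 hm hP.natDegree_pos hd (by simpa using hdvd)
    have hs := (ArtinClassNumber.Summary.sqrt_count hk hD hsq monic_one monic_one isCoprime_one_left
      hm hP le_rfl).2.1 hPD
    rw [pow_one, h0, Nat.cast_zero] at hs
    omega
  · rw [lCoeff_eq]
    exact ClassNumberOneFF.coeffL_of_no_roots hk hsq (fun a => rootNum_eq_zero h) hn

/-- **The value at the central point** is not negative, and is `g + 1 - g √q` if `h(D) = 1`. -/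
theorem central_value :
    0 ≤ lFunction D (Real.sqrt (Fintype.card k))⁻¹ ∧
    (classNumber D g = 1 →
      lFunction D (Real.sqrt (Fintype.card k))⁻¹ = g + 1 - g * Real.sqrt (Fintype.card k)) := by
  rw [lFunction_eq, QuadraticLFF.lvalue_eq_sum hk hD
    (QuadraticLFF.not_sq_of_odd (hdeg ▸ odd_two_mul_add_one g)), hdeg]
  exact ⟨ClassNumberOneFF.central_value_nonneg hk hD hsq hdeg, fun h =>
    ClassNumberOneFF.central_value_eq hk hD hsq hdeg fun a => rootNum_eq_zero h⟩

/-- **The class number one problem**: the only example in positive genus. -/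
theorem class_number_one (hg : 1 ≤ g) :
    classNumber D g = 1 ↔ Fintype.card k = 3 ∧ g = 1 ∧ D = X ^ 3 - X - 1 := by
  constructor
  · intro h
    obtain ⟨hq, rfl⟩ :=
      ClassNumberOneFF.card_and_genus hk hD hsq hdeg hg fun a => rootNum_eq_zero h
    refine ⟨hq, rfl, ClassNumberOneFF.eq_cubic hq hD hdeg fun x => ?_⟩
    exact rootNum_eq_zero h (monic_X_sub_C x) (natDegree_X_sub_C x).ge (natDegree_X_sub_C x).le
  · rintro ⟨hq, rfl, rfl⟩
    exact (cubic_example hq).2.2.2.2

end FA.ClassNumberOneFF.Summary
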