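import Fermat.Agent.ThetaOne.OrderClassFormula
import Fermat.Agent.Root.SummaryClassNumberFormulaForms

/-!
# The class numbers of the orders in one imaginary quadratic field

* `classNumber_relation`: Gauss's formula for `h(n f²)`, `n > 1`, in terms of `h(n)`.
* `classNumber_four_mul`, `classNumber_dvd`: `h(4 n) = 2 h(n)` and `h(n) ∣ h(n f²)`.
* `classNumber_arbitrary_divisor`: every `m` divides `h(n f²)` for infinitely many `f`.
-/

set_option autoImplicit false

noncomputable section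

open scoped Real
open DirichletCharacter

namespace FA.OrderTheta

variable {n f : ℕ} [NeZero n] [NeZero f]

theorem signChar_mul_sq :
    signChar (n * f ^ 2) =
      changeLevel (mul_dvd_mul_left 4 (dvd_mul_right n (f ^ 2))) (signChar n) := by
  have : NeZero (4 * n) := ⟨by have := NeZero.pos n; omega⟩
  have : NeZero (4 * (n * f ^ 2)) :=
    ⟨mul_ne_zero (by norm_num) (mul_ne_zero (NeZero.ne n) (pow_ne_zero _ (NeZero.ne f)))⟩
  refine MulChar.ext fun u => ?_
  have hu : (((u : ZMod (4 * (n * f ^ 2))).val : ℕ) : ZMod (4 * (n * f ^ 2))) = u :=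
    ZMod.natCast_zmod_val _
  have hm : (u : ZMod (4 * (n * f ^ 2))).val.Coprime (4 * (n * f ^ 2)) := ZMod.val_coe_unit_coprime u
  have hmn : (u : ZMod (4 * (n * f ^ 2))).val.Coprime (4 * n) :=
    hm.coprime_dvd_right (mul_dvd_mul_left 4 (dvd_mul_right n _))
  rw [changeLevel_eq_cast_of_dvd, ← hu, ZMod.cast_natCast
    (mul_dvd_mul_left 4 (dvd_mul_right n (f ^ 2))), signChar, signChar,
    FA.Twists.twistChar_natCast _ hm, FA.Twists.twistChar_natCast _ hmn]
  have hf : Int.gcd (f : ℤ) (u : ZMod (4 * (n * f ^ 2))).val = 1 := by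
    show Nat.gcd f (u : ZMod (4 * (n * f ^ 2))).val = 1
    exact (hm.coprime_dvd_right ((dvd_pow_self f two_ne_zero).trans
      ((dvd_mul_left _ n).trans (dvd_mul_left _ 4)))).symm
  rw [show (-((n * f ^ 2 : ℕ) : ℤ)) = -(n : ℤ) * (f : ℤ) ^ 2 by push_cast; ring, jacobiSym.mul_left,
    jacobiSym.sq_one' hf, mul_one]

/-- The factor of a prime. -/
def orderFactor (n p : ℕ) : ℤ := if p = 2 then 2 else (p : ℤ) - jacobiSym (-(n : ℤ)) p

theorem signChar_prime_value {p : ℕ} (hp : p.Prime) :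
    (p : ℂ) * (1 - signChar n (p : ZMod (4 * n)) * (p : ℂ) ^ (-(1 : ℂ))) = orderFactor n p := by
  have : NeZero (4 * n) := ⟨by have := NeZero.pos n; omega⟩
  have hp0 : (p : ℂ) ≠ 0 := Nat.cast_ne_zero.mpr hp.ne_zero
  rw [Complex.cpow_neg_one, mul_sub, mul_one, mul_left_comm, mul_inv_cancel₀ hp0, mul_one]
  by_cases hd : p ∣ 4 * n
  · rw [(signChar n).map_nonunit (fun h => hp.ne_one (Nat.eq_one_of_dvd_coprimes
      ((ZMod.isUnit_iff_coprime p _).mp h) dvd_rfl hd)), sub_zero, orderFactor]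
    split_ifs with h2
    · simp [h2]
    · have hpn : (p : ℤ) ∣ (n : ℤ) := Int.natCast_dvd_natCast.mpr
        ((hp.dvd_mul.mp hd).resolve_left fun h =>
          h2 ((Nat.prime_dvd_prime_iff_eq hp Nat.prime_two).mp
            (hp.dvd_of_dvd_pow (show p ∣ 2 ^ 2 from h))))
      have : NeZero p := ⟨hp.ne_zero⟩
      rw [jacobiSym.eq_zero_iff_not_coprime.mpr (fun h => hp.ne_one (Nat.dvd_one.mp (by
        have h' : (p : ℤ) ∣ ((Int.gcd (-(n : ℤ)) p : ℕ) : ℤ) :=
          Int.dvd_coe_gcd (dvd_neg.mpr hpn) dvd_rfl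
        rw [h] at h'
        exact_mod_cast h')))]
      simp
  · have h2 : p ≠ 2 := fun e => hd (e ▸ dvd_mul_of_dvd_left (by norm_num) n)
    rw [signChar, FA.Twists.twistChar_natCast _ ((Nat.Prime.coprime_iff_not_dvd hp).mpr hd),
      orderFactor, if_neg h2]
    push_cast
    rfl

theorem card_cl_relation (hn : 1 < n) :
    (Nat.card (Cl (n * f ^ 2)) : ℤ) * ∏ p ∈ f.primeFactors, (p : ℤ) =
      Nat.card (Cl n) * f * ∏ p ∈ f.primeFactors, orderFactor n p := by
  classical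
  have : NeZero (4 * n) := ⟨by omega⟩
  have hf1 : 1 ≤ f := NeZero.one_le
  have hN : 1 < n * f ^ 2 := lt_of_lt_of_le hn (Nat.le_mul_of_pos_right n (by positivity))
  have : NeZero (n * f ^ 2) := ⟨by omega⟩
  have : NeZero (4 * (n * f ^ 2)) := ⟨by omega⟩
  have := finite_cl (N := n)
  have := finite_cl (N := n * f ^ 2)
  let _ : Fintype (Cl n) := Fintype.ofFinite _
  let _ : Fintype (Cl (n * f ^ 2)) := Fintype.ofFinite _
  have h := lFunction_one_eq (n := n * f ^ 2) hN
  rw [signChar_mul_sq, LFunction_changeLevel _ _ (Or.inl signChar_ne_one), lFunction_one_eq hn] at h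
  set P := ∏ p ∈ f.primeFactors, (1 - signChar n (p : ZMod (4 * n)) * (p : ℂ) ^ (-(1 : ℂ)))
  have hP : ∏ p ∈ (4 * (n * f ^ 2) : ℕ).primeFactors,
      (1 - signChar n (p : ZMod (4 * n)) * (p : ℂ) ^ (-(1 : ℂ))) = P := by
    refine (Finset.prod_subset (fun p hp => ?_) fun p hp hpf => ?_).symm
    · obtain ⟨h1, h2, -⟩ := Nat.mem_primeFactors.mp hp
      exact Nat.mem_primeFactors.mpr ⟨h1, ((h2.trans (dvd_pow_self f two_ne_zero)).mul_left n).mul_left 4,
        NeZero.ne _⟩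
    · obtain ⟨h1, h2, -⟩ := Nat.mem_primeFactors.mp hp
      have hd : p ∣ 4 * n := by
        rw [← mul_assoc] at h2
        rcases h1.dvd_mul.mp h2 with h | h
        · exact h
        · exact absurd (Nat.mem_primeFactors.mpr ⟨h1, h1.dvd_of_dvd_pow h, NeZero.ne f⟩) hpf
      rw [(signChar n).map_nonunit (fun h => h1.ne_one (Nat.eq_one_of_dvd_coprimes
        ((ZMod.isUnit_iff_coprime p _).mp h) dvd_rfl hd))]
      ring
  rw [hP] at h
  have hsn : (Real.sqrt n : ℂ) ≠ 0 :=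
    Complex.ofReal_ne_zero.mpr (Real.sqrt_ne_zero'.mpr (by exact_mod_cast (NeZero.pos n)))
  have hf0 : (f : ℂ) ≠ 0 := Nat.cast_ne_zero.mpr (NeZero.ne f)
  have hπ : (π : ℂ) ≠ 0 := Complex.ofReal_ne_zero.mpr Real.pi_ne_zero
  have hs : Real.sqrt ((n * f ^ 2 : ℕ) : ℝ) = Real.sqrt n * f := by
    push_cast
    rw [Real.sqrt_mul (Nat.cast_nonneg n), Real.sqrt_sq (Nat.cast_nonneg f)]
  rw [hs] at h
  simp only [Complex.ofReal_div, Complex.ofReal_mul,
    Complex.ofReal_natCast, Complex.ofReal_ofNat] at h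
  field_simp at h
  have hprod : (∏ p ∈ f.primeFactors, (p : ℂ)) * P =
      ((∏ p ∈ f.primeFactors, orderFactor n p : ℤ) : ℂ) := by
    rw [← Finset.prod_mul_distrib, Int.cast_prod]
    exact Finset.prod_congr rfl fun p hp =>
      signChar_prime_value (Nat.prime_of_mem_primeFactors hp)
  have key : ((Nat.card (Cl (n * f ^ 2)) : ℤ) * ∏ p ∈ f.primeFactors, (p : ℤ) : ℂ) =
      ((Nat.card (Cl n) : ℤ) * f * ∏ p ∈ f.primeFactors, orderFactor n p : ℂ) := by
    rw [← hprod]
    push_cast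
    linear_combination -(∏ p ∈ f.primeFactors, (p : ℂ)) * h
  exact_mod_cast key

end FA.OrderTheta

namespace FA.Summary

open FA.OrderTheta

/-- **Gauss's formula for the class number of an order**: `n > 1`, `f ≥ 1`; the factor of `p ∣ f` is
`p - (-n / p)` for odd `p` and `2` for `p = 2`. -/
theorem classNumber_relation (n f : ℕ) [NeZero n] [NeZero f] (hn : 1 < n) :
    (Nat.card (Cl (n * f ^ 2)) : ℤ) * ∏ p ∈ f.primeFactors, (p : ℤ) =
      Nat.card (Cl n) * f *
        ∏ p ∈ f.primeFactors, (if p = 2 then 2 else (p : ℤ) - jacobiSym (-(n : ℤ)) p) :=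
  card_cl_relation hn

/-- `h(n)` divides `h(n f²)`. -/
theorem classNumber_dvd (n f : ℕ) [NeZero n] [NeZero f] (hn : 1 < n) :
    Nat.card (Cl n) ∣ Nat.card (Cl (n * f ^ 2)) := by
  obtain ⟨k, hk⟩ : ∃ k, f = (∏ p ∈ f.primeFactors, p) * k :=
    Nat.prod_primeFactors_dvd f
  have h := card_cl_relation (n := n) (f := f) hn
  have hR : (∏ p ∈ f.primeFactors, (p : ℤ)) ≠ 0 := Finset.prod_ne_zero_iff.mpr fun p hp => by
    exact_mod_cast (Nat.prime_of_mem_primeFactors hp).ne_zero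
  have hfz : (f : ℤ) = (∏ p ∈ f.primeFactors, (p : ℤ)) * k := by
    conv_lhs => rw [hk]
    push_cast
    rfl
  rw [← Int.natCast_dvd_natCast]
  exact ⟨k * ∏ p ∈ f.primeFactors, orderFactor n p, mul_right_cancel₀ hR (h.trans (by rw [hfz]; ring))⟩

/-- `h(4 n) = 2 h(n)` for `n > 1`. -/
theorem classNumber_four_mul (n : ℕ) [NeZero n] (hn : 1 < n) :
    Nat.card (Cl (n * 2 ^ 2)) = 2 * Nat.card (Cl n) := by
  have h := card_cl_relation (n := n) (f := 2) hn
  rw [Nat.Prime.primeFactors Nat.prime_two, Finset.prod_singleton, Finset.prod_singleton,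
    orderFactor, if_pos rfl] at h
  norm_num at h ⊢
  omega

/-- Every `m` divides `h(n f²)` for arbitrarily large `f`, so class numbers are unbounded. -/
theorem classNumber_arbitrary_divisor (n : ℕ) [NeZero n] (hn : 1 < n) (m : ℕ) (hm : 0 < m) (B : ℕ) :
    ∃ f, B < f ∧ ∃ _ : NeZero f, m ∣ Nat.card (Cl (n * f ^ 2)) := by
  set g := m * 2 ^ (B + 1) with hg
  have hg0 : g ≠ 0 := by positivity
  refine ⟨g * g, ?_, ?_⟩
  · have h1 := Nat.lt_two_pow_self (n := B + 1)
    have h2 : 2 ^ (B + 1) ≤ g := Nat.le_mul_of_pos_left _ hm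
    have h3 : g ≤ g * g := Nat.le_mul_of_pos_left _ (by omega)
    omega
  have hgg : NeZero (g * g) := ⟨by positivity⟩
  refine ⟨hgg, ?_⟩
  have h := card_cl_relation (n := n) (f := g * g) hn
  set R := ∏ p ∈ (g * g).primeFactors, (p : ℤ) with hRdef
  have hR : R ≠ 0 := Finset.prod_ne_zero_iff.mpr fun p hp => by
    exact_mod_cast (Nat.prime_of_mem_primeFactors hp).ne_zero
  obtain ⟨k, hk⟩ : ∃ k : ℕ, (g : ℤ) = R * k := by
    have hpf : (g * g).primeFactors = g.primeFactors := by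
      rw [Nat.primeFactors_mul hg0 hg0, Finset.union_self]
    obtain ⟨k, hk⟩ := Nat.prod_primeFactors_dvd g
    refine ⟨k, ?_⟩
    conv_lhs => rw [hk]
    rw [hRdef, hpf]
    push_cast
    rfl
  rw [← Int.natCast_dvd_natCast]
  have e : (Nat.card (Cl (n * (g * g) ^ 2)) : ℤ) =
      Nat.card (Cl n) * g * k * ∏ p ∈ (g * g).primeFactors, orderFactor n p :=
    mul_right_cancel₀ hR (h.trans (by push_cast; rw [hk]; ring))
  rw [e]
  have : (m : ℤ) ∣ (g : ℤ) := Int.natCast_dvd_natCast.mpr ⟨_, hg⟩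
  exact ((this.mul_left _).mul_right _).mul_right _

end FA.Summary
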