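import Fermat.Agent.Tau.RealModuli
import Fermat.Agent.Root.SummaryGenus

/-!
# Real singular moduli and idoneal numbers

`j` at the root of a reduced form is real iff the form is ambiguous, so there are `2 ^ (μ - 1)` real
singular moduli of discriminant `-4n`; `n` is idoneal iff they are all real iff `ℚ(j(√-n))` is
normal over `ℚ`.
-/

set_option autoImplicit false

noncomputable section

open UpperHalfPlane hiding I
open ModularForm EisensteinSeries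

namespace FA.RealModuli

open FA.Singular hiding IsRoot

theorem values_eq {D : ℤ} (hD : D < 0) (z : ℂ) :
    z ∈ values D ↔ ∃ (a b c : ℤ) (τ : ℍ), 0 < a ∧ b ^ 2 - 4 * a * c = D ∧
      Int.gcd (Int.gcd a b) c = 1 ∧ (a : ℂ) * (τ : ℂ) ^ 2 + b * (τ : ℂ) + c = 0 ∧
      E₄ τ ^ 3 / ModularForm.discriminant τ = z := by
  constructor
  · rintro ⟨⟨a, b, c⟩, hf, τ, hτ, rfl⟩
    exact ⟨a, b, c, τ, hf.2.2.1, hf.1, hf.2.1, hτ, rfl⟩
  · rintro ⟨a, b, c, τ, ha, hd, hg, hτ, rfl⟩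
    have := jfun_mem_values (t := (a, b, c)) ha (hd.trans_lt hD) hg hτ
    rwa [show disc (a, b, c) = D from hd] at this

end FA.RealModuli

namespace FA.Summary

/-- **`j` at the root of a reduced form is real iff the form is ambiguous.** -/
theorem singularModulus_real_iff {a b c : ℤ} (hD : b ^ 2 - 4 * a * c < 0)
    (hp : Int.gcd (Int.gcd a b) c = 1)
    (hr : 0 < a ∧ |b| ≤ a ∧ a ≤ c ∧ ((|b| = a ∨ a = c) → 0 ≤ b)) {τ : ℍ}
    (hτ : (a : ℂ) * (τ : ℂ) ^ 2 + b * (τ : ℂ) + c = 0) :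
    (E₄ τ ^ 3 / ModularForm.discriminant τ).im = 0 ↔ b = 0 ∨ |b| = a ∨ a = c :=
  FA.RealModuli.im_eq_zero_iff hD (f := (a, b, c)) ⟨rfl, hp, hr⟩ hτ

/-- **The real singular moduli of discriminant `D` are as many as the ambiguous reduced forms.** -/
theorem realSingularModuli_ncard {D : ℤ} (hD : D < 0) :
    {z : ℂ | (∃ (a b c : ℤ) (τ : ℍ), 0 < a ∧ b ^ 2 - 4 * a * c = D ∧
        Int.gcd (Int.gcd a b) c = 1 ∧ (a : ℂ) * (τ : ℂ) ^ 2 + b * (τ : ℂ) + c = 0 ∧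
        E₄ τ ^ 3 / ModularForm.discriminant τ = z) ∧ z.im = 0}.ncard =
      {t : ℤ × ℤ × ℤ | (t.2.1 ^ 2 - 4 * t.1 * t.2.2 = D ∧
        Int.gcd (Int.gcd t.1 t.2.1) t.2.2 = 1 ∧ 0 < t.1 ∧ |t.2.1| ≤ t.1 ∧ t.1 ≤ t.2.2 ∧
        ((|t.2.1| = t.1 ∨ t.1 = t.2.2) → 0 ≤ t.2.1)) ∧
        (t.2.1 = 0 ∨ |t.2.1| = t.1 ∨ t.1 = t.2.2)}.ncard := by
  simp only [← FA.RealModuli.values_eq hD]
  exact FA.RealModuli.ncard_real hD

/-- **`2 ^ (μ - 1)` real singular moduli of discriminant `-4n`.** -/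
theorem realSingularModuli_count (n : ℕ) [NeZero n] (hn : 1 < n) :
    {z : ℂ | (∃ (a b c : ℤ) (τ : ℍ), 0 < a ∧ b ^ 2 - 4 * a * c = -4 * (n : ℤ) ∧
        Int.gcd (Int.gcd a b) c = 1 ∧ (a : ℂ) * (τ : ℂ) ^ 2 + b * (τ : ℂ) + c = 0 ∧
        E₄ τ ^ 3 / ModularForm.discriminant τ = z) ∧ z.im = 0}.ncard = 2 ^
      ((if n % 4 = 3 then (n.primeFactors.erase 2).card
        else if n % 8 = 0 then (n.primeFactors.erase 2).card + 2
        else (n.primeFactors.erase 2).card + 1) - 1) := by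
  have hD : -4 * (n : ℤ) < 0 := by omega
  simp only [← FA.RealModuli.values_eq hD]
  exact ((FA.RealModuli.ncard_real hD).trans (FA.RealModuli.ncard_amb n hn)).trans
    (FA.OrderTheta.splits_total hn)

/-- **Idoneal numbers by `j`**: all singular moduli of discriminant `-4n` are real, or lie in
`ℚ(j(√-n))`, or this field is normal. -/
theorem idoneal_tfae_jInvariant (n : ℕ) [NeZero n] {τ : ℍ}
    (hτ : (τ : ℂ) ^ 2 = -(n : ℂ)) :
    List.TFAE
      [∀ (a : ℕ) (b : ℤ), FA.OrderTheta.IsRed n a b →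
          b = 0 ∨ 2 * |b| = a ∨ (a : ℤ) * a = b ^ 2 + n,
        ∀ (a b c : ℤ) (σ : ℍ), 0 < a → b ^ 2 - 4 * a * c = -4 * (n : ℤ) →
          Int.gcd (Int.gcd a b) c = 1 → (a : ℂ) * (σ : ℂ) ^ 2 + b * (σ : ℂ) + c = 0 →
          (E₄ σ ^ 3 / ModularForm.discriminant σ).im = 0,
        ∀ (a b c : ℤ) (σ : ℍ), 0 < a → b ^ 2 - 4 * a * c = -4 * (n : ℤ) →
          Int.gcd (Int.gcd a b) c = 1 → (a : ℂ) * (σ : ℂ) ^ 2 + b * (σ : ℂ) + c = 0 →
          E₄ σ ^ 3 / ModularForm.discriminant σ ∈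
            IntermediateField.adjoin ℚ {E₄ τ ^ 3 / ModularForm.discriminant τ},
        Normal ℚ (IntermediateField.adjoin ℚ {E₄ τ ^ 3 / ModularForm.discriminant τ})] := by
  have hD : -4 * (n : ℤ) < 0 := by have := NeZero.pos n; omega
  have h := FA.RealModuli.real_tfae n hτ
  have key : ∀ P : ℂ → Prop, (∀ v ∈ FA.Singular.values (-4 * (n : ℤ)), P v) ↔
      ∀ (a b c : ℤ) (σ : ℍ), 0 < a → b ^ 2 - 4 * a * c = -4 * (n : ℤ) →
        Int.gcd (Int.gcd a b) c = 1 → (a : ℂ) * (σ : ℂ) ^ 2 + b * (σ : ℂ) + c = 0 →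
        P (E₄ σ ^ 3 / ModularForm.discriminant σ) := fun P => by
    refine ⟨fun h a b c σ h1 h2 h3 h4 => h _
      ((FA.RealModuli.values_eq hD _).2 ⟨a, b, c, σ, h1, h2, h3, h4, rfl⟩), fun h v hv => ?_⟩
    obtain ⟨a, b, c, σ, h1, h2, h3, h4, rfl⟩ := (FA.RealModuli.values_eq hD _).1 hv
    exact h a b c σ h1 h2 h3 h4
  rw [key, key] at h
  exact h

/-- `14` is not idoneal, so `ℚ(j(√-14))` is not normal. -/
theorem jInvariant_sqrt_fourteen_not_normal {τ : ℍ} (hτ : (τ : ℂ) ^ 2 = -14) :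
    ¬ Normal ℚ (IntermediateField.adjoin ℚ {E₄ τ ^ 3 / ModularForm.discriminant τ}) := fun h => by
  have h4 := ((idoneal_tfae_jInvariant 14 (by exact_mod_cast hτ)).out 3 0).mp h
  exact absurd (h4 3 1 (by decide +kernel)) (by norm_num)

end FA.Summary

end
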