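import Fermat.Agent.Tau.GaloisModuli
import Fermat.Agent.Root.SummaryRealSingularModuli

/-!
# The Galois action on singular moduli

For `D = -4n`: the automorphisms of `ℚ(√-n, j(√-n))` fixing `√-n` form a group isomorphic to the
class group of `ℤ[√-n]`, simply transitive on the singular moduli; if an ideal `P` has norm the
prime `p ∤ 6n`, the class polynomial, when separable modulo `p`, splits there into irreducible
factors all of degree the order of the class of `P`.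
-/

set_option autoImplicit false

noncomputable section

open UpperHalfPlane hiding I
open ModularForm EisensteinSeries NumberField

namespace FA.Summary

local notation "Qb" => AlgebraicClosure ℚ

/-- **The class group acts simply transitively on the singular moduli.** -/
theorem galois_singularModuli (n : ℕ) [NeZero n] {τ : ℍ} (hτ : (τ : ℂ) ^ 2 = -(n : ℂ)) :
    ∃ (L : IntermediateField ℚ Qb) (_ : FiniteDimensional ℚ L) (_ : IsGalois ℚ L)
      (ι : Qb →ₐ[ℚ] ℂ) (d y : L), d ^ 2 = -(n : L) ∧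
      ι (y : Qb) = E₄ τ ^ 3 / ModularForm.discriminant τ ∧
      L = IntermediateField.adjoin ℚ {(d : Qb), (y : Qb)} ∧
      Nonempty (MulAction.stabilizer (L ≃ₐ[ℚ] L) d ≃* FA.OrderTheta.Cl n) ∧
      (∀ (a b c : ℤ) (σ : ℍ), 0 < a → b ^ 2 - 4 * a * c = -4 * (n : ℤ) →
        Int.gcd (Int.gcd a b) c = 1 → (a : ℂ) * (σ : ℂ) ^ 2 + b * (σ : ℂ) + c = 0 →
        ∃ z : L, ι (z : Qb) = E₄ σ ^ 3 / ModularForm.discriminant σ) ∧
      (∀ z w : L,
        (∃ (a b c : ℤ) (σ : ℍ), 0 < a ∧ b ^ 2 - 4 * a * c = -4 * (n : ℤ) ∧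
          Int.gcd (Int.gcd a b) c = 1 ∧ (a : ℂ) * (σ : ℂ) ^ 2 + b * (σ : ℂ) + c = 0 ∧
          E₄ σ ^ 3 / ModularForm.discriminant σ = ι (z : Qb)) →
        (∃ (a b c : ℤ) (σ : ℍ), 0 < a ∧ b ^ 2 - 4 * a * c = -4 * (n : ℤ) ∧
          Int.gcd (Int.gcd a b) c = 1 ∧ (a : ℂ) * (σ : ℂ) ^ 2 + b * (σ : ℂ) + c = 0 ∧
          E₄ σ ^ 3 / ModularForm.discriminant σ = ι (w : Qb)) →
        ∃! s : L ≃ₐ[ℚ] L, s d = d ∧ s z = w) ∧
      ∀ p : ℕ, p.Prime → ¬ p ∣ 6 * n → ∀ P : FA.OrderTheta.II n, FA.OrderTheta.nrm P = p →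
        ∃ (Q : Ideal (𝓞 L)) (g : L ≃ₐ[ℚ] L), Q.IsMaximal ∧ (p : 𝓞 L) ∈ Q ∧
          (∀ x : 𝓞 L, g • x - x ^ p ∈ Q) ∧ g d = d ∧
          orderOf g = orderOf (FA.OrderTheta.cls P) := by
  have hD : -4 * (n : ℤ) < 0 := by have := NeZero.pos n; omega
  obtain ⟨L, hfin, hgal, ι, d, y, hd, hy, hL, he, -, -, -, hall, htrans, hfrob⟩ :=
    FA.GaloisModuli.exists_galois_data n hτ
  refine ⟨L, hfin, hgal, ι, d, y, hd, hy, hL, he, fun a b c σ h1 h2 h3 h4 => ?_,
    fun z w hz hw => ?_, fun p hp hpn P hP => (hfrob p hp hpn P hP).1⟩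
  · exact hall _ ((FA.RealModuli.values_eq hD _).2 ⟨a, b, c, σ, h1, h2, h3, h4, rfl⟩)
  · exact htrans z w ((FA.RealModuli.values_eq hD _).2 hz) ((FA.RealModuli.values_eq hD _).2 hw)

/-- **The factors of the class polynomial modulo `p`** have degree the order of the class of an
ideal of norm `p`. -/
theorem classPolynomial_factor_degree (n : ℕ) [NeZero n] {τ : ℍ}
    (hτ : (τ : ℂ) ^ 2 = -(n : ℂ)) {p : ℕ} (hp : p.Prime) (hpn : ¬ p ∣ 6 * n)
    {P : FA.OrderTheta.II n} (hP : FA.OrderTheta.nrm P = p)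
    (hsep : ((minpoly ℤ (E₄ τ ^ 3 / ModularForm.discriminant τ)).map
      (Int.castRingHom (ZMod p))).Separable)
    {f : Polynomial (ZMod p)} (hf : Irreducible f)
    (hfH : f ∣ (minpoly ℤ (E₄ τ ^ 3 / ModularForm.discriminant τ)).map
      (Int.castRingHom (ZMod p))) :
    f.natDegree = orderOf (FA.OrderTheta.cls P) := by
  obtain ⟨L, hfin, hgal, ι, d, y, -, -, -, -, -, -, -, -, -, hfrob⟩ :=
    FA.GaloisModuli.exists_galois_data n hτ
  exact (hfrob p hp hpn P hP).2 hsep f hf hfH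

end FA.Summary

end
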