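import Fermat.Agent.Tau.GaloisModuliInert
import Fermat.Agent.Root.SummaryGaloisSingularModuli

/-!
# The class polynomial modulo inert primes, and the density of primes where it has a root

Let `H` be the minimal polynomial of `j(√-n)` and `μ` the number of genus characters of
determinant `n`, so that `2 ^ (μ - 1)` classes of `ℤ[√-n]` are killed by squaring. If `p ∤ 6n` is
inert in `ℚ(√-n)` and `H` is separable modulo `p`, all its factors there are linear or quadratic and
it has `0` or `2 ^ (μ - 1)` roots; the primes modulo which `H` has a root have Dirichlet density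
`1/(2h(n)) + 1/2^μ`.
-/

set_option autoImplicit false
set_option linter.style.haveILetI false

noncomputable section

open UpperHalfPlane hiding I
open ModularForm EisensteinSeries NumberField IsDedekindDomain
open FA.OrderTheta FA.Density

namespace FA.Summary

/-- A maximal ideal over `p` with a Frobenius element. -/
theorem exists_frob_over {L : Type*} [Field L] [NumberField L] [IsGalois ℚ L] {p : ℕ}
    (hp : p.Prime) :
    ∃ (P : Ideal (𝓞 L)) (g : L ≃ₐ[ℚ] L), P.IsMaximal ∧ (p : 𝓞 L) ∈ P ∧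
      ∀ y : 𝓞 L, g • y - y ^ p ∈ P := by
  have : (Ideal.span {(p : ℤ)}).IsMaximal :=
    PrincipalIdealRing.isMaximal_of_irreducible (Nat.prime_iff_prime_int.mp hp).irreducible
  obtain ⟨P, hPmax, hover⟩ :=
    Ideal.exists_maximal_ideal_liesOver_of_isIntegral (S := 𝓞 L) (Ideal.span {(p : ℤ)})
  have hpP : (p : 𝓞 L) ∈ P := by
    have h := hover.over ▸ Ideal.mem_span_singleton_self (p : ℤ)
    rwa [Ideal.under, Ideal.mem_comap, map_natCast] at h
  have : Finite (𝓞 L ⧸ P) := Ideal.finiteQuotientOfFreeOfNeBot P fun e => hp.ne_zero <| by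
    rw [e, Ideal.mem_bot] at hpP
    exact_mod_cast hpP
  obtain ⟨g, hg⟩ := IsArithFrobAt.exists_of_isInvariant ℤ (L ≃ₐ[ℚ] L) P
  refine ⟨P, g, hPmax, hpP, fun y => ?_⟩
  have h := hg y
  rwa [FA.FrobeniusDensity.card_quotient_under hp hPmax.ne_top hpP] at h

/-- **The class polynomial modulo an inert prime**: factors of degree at most two, and `0` or
`2 ^ (μ - 1)` roots. -/
theorem classPolynomial_inert (n : ℕ) [NeZero n] {τ : ℍ} (hτ : (τ : ℂ) ^ 2 = -(n : ℂ))
    {p : ℕ} (hp : p.Prime) (hpn : ¬ p ∣ 6 * n) (hns : ¬ IsSquare (-(n : ZMod p)))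
    (hsep : ((minpoly ℤ (E₄ τ ^ 3 / ModularForm.discriminant τ)).map
      (Int.castRingHom (ZMod p))).Separable) :
    (∀ f : Polynomial (ZMod p), Irreducible f →
      f ∣ (minpoly ℤ (E₄ τ ^ 3 / ModularForm.discriminant τ)).map (Int.castRingHom (ZMod p)) →
      f.natDegree ∣ 2) ∧
    (Nat.card {r : ZMod p // ((minpoly ℤ (E₄ τ ^ 3 / ModularForm.discriminant τ)).map
        (Int.castRingHom (ZMod p))).IsRoot r} = 0 ∨
      Nat.card {r : ZMod p // ((minpoly ℤ (E₄ τ ^ 3 / ModularForm.discriminant τ)).map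
        (Int.castRingHom (ZMod p))).IsRoot r} = 2 ^
          ((if n % 4 = 3 then (n.primeFactors.erase 2).card
            else if n % 8 = 0 then (n.primeFactors.erase 2).card + 2
            else (n.primeFactors.erase 2).card + 1) - 1)) := by
  obtain ⟨L, hfin, hgal, d, hd, hmon, hsplits, -, hinv, hfix, -⟩ :=
    FA.GaloisModuli.exists_reflection_data n hτ
  have : NumberField L := { }
  haveI := Fact.mk hp
  obtain ⟨P, g, hmax, hpP, hfrob⟩ := exists_frob_over (L := L) hp
  have hgd : g d ≠ d := fun e => hns <| (FA.GaloisModuli.frob_fix_iff_isSquare hmax hpP hfrob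
    (fun h => hpn (h.trans (mul_dvd_mul_right (by norm_num) n))) hd).1 e
  refine ⟨fun f hf hfH => ?_, ?_⟩
  · obtain ⟨z, -, hz⟩ := FA.GaloisModuli.exists_root_natDegree_dvd hmax hpP hfrob hmon hsplits
      hsep hf hfH
    rw [hz 2, pow_two, hinv g hgd]
    rfl
  · have hcard := FA.GaloisModuli.card_roots_zmod hmax hpP hfrob hmon hsplits hsep
    by_cases hex : ∃ z : L,
        Polynomial.aeval z (minpoly ℤ (E₄ τ ^ 3 / ModularForm.discriminant τ)) = 0 ∧ g z = z
    · obtain ⟨z, hz, hgz⟩ := hex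
      exact Or.inr (hcard.trans (hfix g hgd z hz hgz))
    · refine Or.inl (hcard.trans ?_)
      exact @Nat.card_of_isEmpty _ ⟨fun z => hex ⟨z.1, z.2⟩⟩

/-- **The primes modulo which the class polynomial has a root** have Dirichlet density
`1/(2h) + 1/2^μ`. -/
theorem classPolynomial_root_density (n : ℕ) [NeZero n] {τ : ℍ} (hτ : (τ : ℂ) ^ 2 = -(n : ℂ)) :
    {v : HeightOneSpectrum (𝓞 ℚ) | ∃ r : ZMod (Ideal.absNorm v.asIdeal),
      ((minpoly ℤ (E₄ τ ^ 3 / ModularForm.discriminant τ)).map
        (Int.castRingHom (ZMod (Ideal.absNorm v.asIdeal)))).IsRoot r}.HasDirichletDensity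
      (1 / (2 * Nat.card (Cl n) : ℕ) + 1 / (2 : ℝ) ^
        (if n % 4 = 3 then (n.primeFactors.erase 2).card
          else if n % 8 = 0 then (n.primeFactors.erase 2).card + 2
          else (n.primeFactors.erase 2).card + 1)) := by
  classical
  obtain ⟨L, hfin, hgal, d, hd, hmon, hsplits, hdeg, -, -, hcount⟩ :=
    FA.GaloisModuli.exists_reflection_data n hτ
  have : NumberField L := { }
  have hD : -4 * (n : ℤ) < 0 := by have := NeZero.pos n; omega
  have hu : FA.ModField.jfun τ ∈ FA.Singular.values (-4 * (n : ℤ)) := by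
    have hdisc : FA.Singular.disc (1, 0, (n : ℤ)) = -4 * (n : ℤ) := by simp [FA.Singular.disc]
    rw [← hdisc]
    exact FA.Singular.jfun_mem_values one_pos (by rw [hdisc]; exact hD) (by simp)
      (by simp [FA.Singular.IsRoot, hτ])
  obtain ⟨M, hM⟩ := FA.Singular.exists_separable_bound hD hu
  obtain ⟨𝔉⟩ := FA.FrobeniusDensity.nonempty_frobSystem (F := L)
  set H := minpoly ℤ (E₄ τ ^ 3 / ModularForm.discriminant τ) with hH
  set C : Set (L ≃ₐ[ℚ] L) := {g | ∃ z : L, Polynomial.aeval z H = 0 ∧ g z = z} with hCdef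
  have hC : ∀ g ∈ C, ∀ x : L ≃ₐ[ℚ] L, x * g * x⁻¹ ∈ C := by
    rintro g ⟨z, hz, hgz⟩ x
    refine ⟨x z, ((Polynomial.aeval_algHom_apply ((x.restrictScalars ℤ).toAlgHom) z H).trans
      (congrArg x hz)).trans (map_zero x), ?_⟩
    simp only [AlgEquiv.mul_apply]
    rw [show x⁻¹ (x z) = z from x.symm_apply_apply z, hgz]
  have h := hasDirichletDensity_of_frob L C hC
    (fun q => ∃ r : ZMod q, (H.map (Int.castRingHom (ZMod q))).IsRoot r)
    (Finset.range (M + 1) ∪ 𝔉.excluded) fun q hq hqT => by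
      rw [Finset.mem_union, not_or, Finset.mem_range, not_lt, Nat.succ_le_iff] at hqT
      obtain ⟨P, hP⟩ := 𝔉.spec q hq hqT.2
      refine ⟨_, P, hP, ?_⟩
      haveI := Fact.mk hq
      have hc : Nat.card {r : ZMod q // (H.map (Int.castRingHom (ZMod q))).IsRoot r} =
          Nat.card {z : L // Polynomial.aeval z H = 0 ∧ 𝔉.frob q z = z} :=
        FA.GaloisModuli.card_roots_zmod hP.isMaximal hP.mem hP.frob hmon hsplits (hM q hq hqT.1)
      haveI : Finite {z : L // Polynomial.aeval z H = 0 ∧ 𝔉.frob q z = z} :=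
        (((H.map (algebraMap ℤ L)).roots.toFinset.finite_toSet).subset fun z hz => by
          rw [Finset.mem_coe, Multiset.mem_toFinset]
          exact (Polynomial.mem_aroots.2 ⟨hmon.ne_zero, hz.1⟩)).to_subtype
      have hne : Nonempty {z : L // Polynomial.aeval z H = 0 ∧ 𝔉.frob q z = z} ↔
          Nonempty {r : ZMod q // (H.map (Int.castRingHom (ZMod q))).IsRoot r} := by
        rw [← Finite.card_pos_iff, ← Finite.card_pos_iff, hc]
      simp only [nonempty_subtype] at hne
      exact hne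
  convert h using 1
  have hm : ((2 : ℝ) ^ (genusMu n - 1)) * 2 = (2 : ℝ) ^ genusMu n := by
    rw [← pow_succ, Nat.sub_add_cancel (FA.GaloisModuli.card_sq_eq_two_pow n).2]
  have hc : (Nat.card C : ℝ) * (2 : ℝ) ^ (genusMu n - 1) =
      Nat.card (Cl n) + (2 : ℝ) ^ (genusMu n - 1) := by exact_mod_cast hcount
  rw [IsGalois.card_aut_eq_finrank, hdeg]
  show (1 : ℝ) / _ + 1 / (2 : ℝ) ^ genusMu n = _
  have h0 : (Nat.card (Cl n) : ℝ) ≠ 0 := Nat.cast_ne_zero.2 Nat.card_pos.ne'
  rw [← hm]
  push_cast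
  field_simp
  linear_combination -hc

end FA.Summary

end
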