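import Fermat.Agent.ReducedGroups.ThreeTorsion

/-!
# Frobenius on the three-torsion over the isomorphism classes

Over `𝔽_q`, `q ≥ 5`, weighted by `1 / #Aut`, the classes with `1`, `3`, `9` rational points killed
by three have masses `(5 q + 1) / 8`, `q / 3`, `(q - 3) / 24` for `q ≡ 1 (mod 3)` and `(q + 1) / 2`,
`(q - 1) / 2`, `0` for `q ≡ 2 (mod 3)`; so those with `3 ∣ #E(𝔽_q)` have mass `(3 q - 1) / 8`,
respectively `(q - 1) / 2`.
-/

set_option autoImplicit false
set_option linter.style.haveILetI false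

noncomputable section

open WeierstrassCurve MulAction
open scoped WeierstrassCurve.Affine Classical

namespace FA.Summary

variable {q : ℕ} [hq : Fact q.Prime]

/-- The weight of a class with `k` points killed by three. -/
def threeTorsionWeight (k : ℕ) (V : WeierstrassCurve (ZMod q)) : ℚ :=
  if Nat.card {P : V.toAffine.Point // 3 • P = 0} = k then 1 else 0

/-- The weight of a class whose number of points is a multiple of three. -/
def threeDvdWeight (V : WeierstrassCurve (ZMod q)) : ℚ :=
  if 3 ∣ Nat.card V.toAffine.Point then 1 else 0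

/-- An invariant function over the classes, by the short equations. -/
theorem sum_classes_short (h5 : 5 ≤ q) (f : WeierstrassCurve (ZMod q) → ℚ)
    (hf : ∀ (C : VariableChange (ZMod q)) (V : WeierstrassCurve (ZMod q)), V.Δ ≠ 0 →
      f (C • V) = f V) :
    ∑ᶠ c : orbitRel.Quotient (VariableChange (ZMod q)) (FA.ReducedGroups.ellipticEquations q),
      f c.out.1 / Nat.card (stabilizer (VariableChange (ZMod q)) c.out) =
      (∑ ab ∈ FA.BirchMoment.nonsingular q, f (FA.BirchMoment.shortMod ab.1 ab.2)) /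
        ((q : ℚ) - 1) := by
  rw [FA.ReducedGroups.sum_classes (f := fun V => f V.1) fun C V => hf C V.1 V.2,
    FA.ReducedGroups.sum_ellipticEquations h5 f hf, FA.ReducedGroups.natCard_variableChange,
    Nat.cast_mul, Nat.cast_pow, Nat.cast_sub hq.out.one_le, Nat.cast_one]
  have hq0 : (q : ℚ) ≠ 0 := Nat.cast_ne_zero.mpr hq.out.ne_zero
  field_simp

/-- The masses by the flex parameters. -/
theorem mass_three_torsion (h5 : 5 ≤ q) (k : ℕ) :
    ∑ᶠ c : orbitRel.Quotient (VariableChange (ZMod q)) (FA.ReducedGroups.ellipticEquations q),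
      threeTorsionWeight k c.out.1 / Nat.card (stabilizer (VariableChange (ZMod q)) c.out) =
      ((FA.BirchMoment.nonsingular q).filter fun ab =>
        (FA.ReducedGroups.flexFibre ab).card + 1 = k).card / ((q : ℚ) - 1) := by
  have hinv : ∀ (C : VariableChange (ZMod q)) (V : WeierstrassCurve (ZMod q)), V.Δ ≠ 0 →
      threeTorsionWeight k (C • V) = threeTorsionWeight k V := fun C V hV => by
    haveI : V.IsElliptic := ⟨hV.isUnit⟩
    unfold threeTorsionWeight
    rw [Nat.card_congr ((FA.Frob.vcEquiv C rfl).toEquiv.subtypeEquiv (q := fun P => 3 • P = 0)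
      fun P => by rw [AddEquiv.toEquiv_eq_coe, EquivLike.coe_coe, ← map_nsmul,
        AddEquiv.map_eq_zero_iff])]
  rw [sum_classes_short h5 _ hinv,
    Finset.sum_congr rfl fun ab hab => show threeTorsionWeight k
        (FA.BirchMoment.shortMod ab.1 ab.2) =
      if (FA.ReducedGroups.flexFibre ab).card + 1 = k then (1 : ℚ) else 0 by
      rw [threeTorsionWeight, FA.ReducedGroups.natCard_three_torsion_short h5 hab],
    Finset.sum_boole]

/-- The three counts. -/
theorem count_three_torsion (h5 : 5 ≤ q) :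
    let N : ℕ → ℚ := fun k => ((FA.BirchMoment.nonsingular q).filter fun ab =>
      (FA.ReducedGroups.flexFibre ab).card + 1 = k).card
    N 1 + N 3 + N 9 = (q : ℚ) ^ 2 - q ∧ 2 * N 3 + 8 * N 9 = ((q : ℚ) - 1) ^ 2 ∧
      48 * N 9 = if q % 3 = 1 then 2 * ((q : ℚ) - 1) * ((q : ℚ) - 3) else 0 := by
  intro N
  set S := FA.BirchMoment.nonsingular q
  set n : ZMod q × ZMod q → ℕ := fun ab => (FA.ReducedGroups.flexFibre ab).card
  have hn : ∀ ab ∈ S, n ab = 0 ∨ n ab = 2 ∨ n ab = 8 := fun ab h =>
    FA.ReducedGroups.card_flexFibre h5 h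
  have hN : ∀ k, N k = ∑ ab ∈ S, if n ab + 1 = k then (1 : ℚ) else 0 := fun k =>
    (Finset.sum_boole _ _).symm
  refine ⟨?_, ?_, ?_⟩
  · rw [hN, hN, hN, ← Finset.sum_add_distrib, ← Finset.sum_add_distrib,
      Finset.sum_congr rfl (g := fun _ => (1 : ℚ)) fun ab hab => by
        rcases hn ab hab with e | e | e <;> rw [e] <;> norm_num,
      Finset.sum_const, nsmul_one]
    exact_mod_cast FA.BirchMoment.card_nonsingular h5
  · rw [hN, hN, Finset.mul_sum, Finset.mul_sum, ← Finset.sum_add_distrib,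
      Finset.sum_congr rfl (g := fun ab => (n ab : ℚ)) fun ab hab => by
        rcases hn ab hab with e | e | e <;> rw [e] <;> norm_num,
      ← Nat.cast_sum]
    rw [show ∑ ab ∈ S, n ab = (FA.ReducedGroups.flexParams (q := q)).card from ?_]
    · exact_mod_cast FA.ReducedGroups.card_flexParams h5
    rw [Finset.card_eq_sum_card_fiberwise (s := FA.ReducedGroups.flexParams (q := q))
      (f := FA.ReducedGroups.flexCoeffs) (t := S) fun p hp => (Finset.mem_filter.mp hp).2]
    refine Finset.sum_congr rfl fun ab hab => congrArg Finset.card ?_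
    ext p
    simp only [FA.ReducedGroups.flexFibre, FA.ReducedGroups.flexParams, Finset.mem_filter,
      Finset.mem_univ, true_and]
    exact ⟨fun e => ⟨e ▸ hab, e⟩, fun e => e.2⟩
  · rw [hN, Finset.mul_sum,
      Finset.sum_congr rfl (g := fun ab => ((FA.ReducedGroups.flexPairsAt ab).card : ℚ))
        fun ab hab => by
          rw [FA.ReducedGroups.card_flexPairsAt h5 hab]
          show _ = (((n ab) * (n ab - 2) : ℕ) : ℚ)
          rcases hn ab hab with e | e | e <;> rw [e] <;> norm_num,
      ← Nat.cast_sum, FA.ReducedGroups.sum_card_flexPairsAt h5]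
    exact_mod_cast FA.ReducedGroups.card_flexTriples h5

/-- **Frobenius on `E[3]` for `q ≡ 1 (mod 3)`.** -/
theorem classes_three_torsion_one (h5 : 5 ≤ q) (h : q % 3 = 1) :
    (∑ᶠ c : orbitRel.Quotient (VariableChange (ZMod q)) (FA.ReducedGroups.ellipticEquations q),
      threeTorsionWeight 1 c.out.1 / Nat.card (stabilizer (VariableChange (ZMod q)) c.out) =
        (5 * (q : ℚ) + 1) / 8) ∧
    (∑ᶠ c : orbitRel.Quotient (VariableChange (ZMod q)) (FA.ReducedGroups.ellipticEquations q),
      threeTorsionWeight 3 c.out.1 / Nat.card (stabilizer (VariableChange (ZMod q)) c.out) =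
        (q : ℚ) / 3) ∧
    (∑ᶠ c : orbitRel.Quotient (VariableChange (ZMod q)) (FA.ReducedGroups.ellipticEquations q),
      threeTorsionWeight 9 c.out.1 / Nat.card (stabilizer (VariableChange (ZMod q)) c.out) =
        ((q : ℚ) - 3) / 24) := by
  rw [mass_three_torsion h5 1, mass_three_torsion h5 3, mass_three_torsion h5 9]
  obtain ⟨h1, h2, h3⟩ := count_three_torsion (q := q) h5
  rw [if_pos h] at h3
  have hq1 : (q : ℚ) - 1 ≠ 0 := sub_ne_zero.mpr (Nat.cast_ne_one.mpr hq.out.ne_one)
  refine ⟨?_, ?_, ?_⟩ <;> rw [div_eq_div_iff hq1 (by norm_num)]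
  · linear_combination 8 * h1 - 4 * h2 + h3 / 2
  · linear_combination 3 / 2 * h2 - h3 / 4
  · linear_combination h3 / 2

/-- **Frobenius on `E[3]` for `q ≡ 2 (mod 3)`.** -/
theorem classes_three_torsion_two (h5 : 5 ≤ q) (h : q % 3 = 2) :
    (∑ᶠ c : orbitRel.Quotient (VariableChange (ZMod q)) (FA.ReducedGroups.ellipticEquations q),
      threeTorsionWeight 1 c.out.1 / Nat.card (stabilizer (VariableChange (ZMod q)) c.out) =
        ((q : ℚ) + 1) / 2) ∧
    (∑ᶠ c : orbitRel.Quotient (VariableChange (ZMod q)) (FA.ReducedGroups.ellipticEquations q),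
      threeTorsionWeight 3 c.out.1 / Nat.card (stabilizer (VariableChange (ZMod q)) c.out) =
        ((q : ℚ) - 1) / 2) ∧
    (∑ᶠ c : orbitRel.Quotient (VariableChange (ZMod q)) (FA.ReducedGroups.ellipticEquations q),
      threeTorsionWeight 9 c.out.1 / Nat.card (stabilizer (VariableChange (ZMod q)) c.out) = 0) := by
  rw [mass_three_torsion h5 1, mass_three_torsion h5 3, mass_three_torsion h5 9]
  obtain ⟨h1, h2, h3⟩ := count_three_torsion (q := q) h5
  rw [if_neg (by omega : ¬ q % 3 = 1)] at h3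
  have hq1 : (q : ℚ) - 1 ≠ 0 := sub_ne_zero.mpr (Nat.cast_ne_one.mpr hq.out.ne_one)
  refine ⟨?_, ?_, ?_⟩
  · rw [div_eq_div_iff hq1 (by norm_num)]; linear_combination 2 * h1 - h2 + h3 / 8
  · rw [div_eq_div_iff hq1 (by norm_num)]; linear_combination h2 - h3 / 6
  · rw [div_eq_zero_iff]; exact Or.inl (by linear_combination h3 / 48)

/-- **The classes with `3 ∣ #E(𝔽_q)`**: a proportion near `3 / 8`, respectively `1 / 2`. -/
theorem classes_three_dvd (h5 : 5 ≤ q) :
    ∑ᶠ c : orbitRel.Quotient (VariableChange (ZMod q)) (FA.ReducedGroups.ellipticEquations q),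
      threeDvdWeight c.out.1 / Nat.card (stabilizer (VariableChange (ZMod q)) c.out) =
      if q % 3 = 1 then (3 * (q : ℚ) - 1) / 8 else ((q : ℚ) - 1) / 2 := by
  have hinv : ∀ (C : VariableChange (ZMod q)) (V : WeierstrassCurve (ZMod q)), V.Δ ≠ 0 →
      threeDvdWeight (C • V) = threeDvdWeight V := fun C V hV => by
    haveI : V.IsElliptic := ⟨hV.isUnit⟩
    unfold threeDvdWeight
    rw [Nat.card_congr (FA.Frob.vcEquiv C rfl).toEquiv]
  have hiff : ∀ ab ∈ FA.BirchMoment.nonsingular q,
      (3 ∣ Nat.card (FA.BirchMoment.shortMod ab.1 ab.2).toAffine.Point ↔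
        0 < (FA.ReducedGroups.flexFibre ab).card) := fun ab hab => by
    haveI : Fact (Nat.Prime 3) := ⟨Nat.prime_three⟩
    haveI : (FA.BirchMoment.shortMod ab.1 ab.2).IsElliptic :=
      ⟨(FA.BirchMoment.shortMod_Δ_ne_zero h5 (Finset.mem_filter.mp hab).2).isUnit⟩
    have hc : Nat.card {Q : (FA.BirchMoment.shortMod ab.1 ab.2).toAffine.Point // 3 • Q = 0} =
        (FA.ReducedGroups.flexFibre ab).card + 1 :=
      FA.ReducedGroups.natCard_three_torsion_short h5 (a := ab.1) (b := ab.2) hab
    constructor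
    · intro h3
      obtain ⟨P, hP⟩ := exists_prime_addOrderOf_dvd_card' 3 h3
      by_contra h0
      have h1 : Nat.card {Q : (FA.BirchMoment.shortMod ab.1 ab.2).toAffine.Point // 3 • Q = 0} = 1 := by
        rw [hc]; simpa using h0
      have := (Nat.card_eq_one_iff_unique.mp h1).1.elim ⟨P, hP ▸ addOrderOf_nsmul_eq_zero P⟩
        ⟨0, nsmul_zero 3⟩
      rw [Subtype.mk.injEq] at this
      simp [this] at hP
    · intro h0
      haveI : Finite {Q : (FA.BirchMoment.shortMod ab.1 ab.2).toAffine.Point // 3 • Q = 0} :=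
        Subtype.finite
      haveI : Nontrivial {Q : (FA.BirchMoment.shortMod ab.1 ab.2).toAffine.Point // 3 • Q = 0} :=
        Finite.one_lt_card_iff_nontrivial.mp (by rw [hc]; omega)
      obtain ⟨⟨P, hP⟩, hne⟩ := exists_ne
        (⟨0, nsmul_zero 3⟩ : {Q : (FA.BirchMoment.shortMod ab.1 ab.2).toAffine.Point // 3 • Q = 0})
      have hP0 : P ≠ 0 := fun e => hne (Subtype.ext e)
      exact addOrderOf_eq_prime hP hP0 ▸ addOrderOf_dvd_natCard P
  rw [sum_classes_short h5 _ hinv,
    Finset.sum_congr rfl fun ab hab => show threeDvdWeight (FA.BirchMoment.shortMod ab.1 ab.2) =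
      (if (FA.ReducedGroups.flexFibre ab).card + 1 = 3 then (1 : ℚ) else 0) +
        if (FA.ReducedGroups.flexFibre ab).card + 1 = 9 then (1 : ℚ) else 0 by
      rw [threeDvdWeight, if_congr (hiff ab hab) rfl rfl]
      rcases FA.ReducedGroups.card_flexFibre h5 hab with e | e | e <;> rw [e] <;> norm_num,
    Finset.sum_add_distrib, Finset.sum_boole, Finset.sum_boole, add_div,
    ← mass_three_torsion h5 3, ← mass_three_torsion h5 9]
  have h30 : q % 3 ≠ 0 := fun e => by
    have := (Nat.prime_dvd_prime_iff_eq Nat.prime_three hq.out).mp (Nat.dvd_of_mod_eq_zero e)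
    omega
  split_ifs with h
  · obtain ⟨-, e3, e9⟩ := classes_three_torsion_one h5 h
    rw [e3, e9]; ring
  · obtain ⟨-, e3, e9⟩ := classes_three_torsion_two h5 (by omega)
    rw [e3, e9, add_zero]

end FA.Summary

end
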