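import Fermat.Agent.ReducedGroups.MassFormula

/-!
# Deuring's mass formula

The isomorphism classes of elliptic curves over `𝔽_q`, `q ≥ 5` prime, have `∑ 1 / #Aut = q`: the
classes are the orbits of the coordinate changes on the equations with nonzero discriminant, the
automorphisms their stabilisers.
-/

set_option autoImplicit false
set_option linter.style.haveILetI false

noncomputable section

open WeierstrassCurve MulAction

namespace FA.Summary

/-- **Deuring's mass formula.** -/
theorem mass_formula {q : ℕ} [Fact q.Prime] (h5 : 5 ≤ q) :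
    ∑ᶠ c : orbitRel.Quotient (VariableChange (ZMod q)) (FA.ReducedGroups.ellipticEquations q),
      (1 : ℚ) / Nat.card (stabilizer (VariableChange (ZMod q)) c.out) = q := by
  set G := VariableChange (ZMod q)
  set S := FA.ReducedGroups.ellipticEquations q
  haveI := Fintype.ofFinite (orbitRel.Quotient G S)
  have hG : (Nat.card G : ℚ) ≠ 0 := Nat.cast_ne_zero.mpr Nat.card_pos.ne'
  have hsum : Nat.card S = ∑ c : orbitRel.Quotient G S, Nat.card (G ⧸ stabilizer G c.out) :=
    (Nat.card_congr (selfEquivSigmaOrbitsQuotientStabilizer G S)).trans Nat.card_sigma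
  have key : ∀ c : orbitRel.Quotient G S,
      (1 : ℚ) / Nat.card (stabilizer G c.out) =
        (Nat.card (G ⧸ stabilizer G c.out) : ℚ) / Nat.card G := fun c => by
    rw [div_eq_div_iff (Nat.cast_ne_zero.mpr Nat.card_pos.ne') hG, one_mul, ← Nat.cast_mul,
      ← Subgroup.card_eq_card_quotient_mul_card_subgroup]
  rw [finsum_eq_sum_of_fintype, Finset.sum_congr rfl fun c _ => key c, ← Finset.sum_div,
    ← Nat.cast_sum, ← hsum, FA.ReducedGroups.natCard_ellipticEquations h5,
    FA.ReducedGroups.natCard_variableChange, div_eq_iff (by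
      rw [← FA.ReducedGroups.natCard_variableChange]; exact hG)]
  rw [← Nat.cast_mul, Nat.cast_inj, mul_comm, mul_assoc, ← pow_succ, Nat.sub_mul, one_mul,
    ← pow_succ']

end FA.Summary

end
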