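import Fermat.Agent.ReducedGroups.CubicRoots
import Fermat.Agent.Root.SummaryMassFormula

/-!
# Frobenius on the two-torsion over the isomorphism classes

Over `𝔽_q`, `q ≥ 5`, the classes with trivial, cyclic and full rational two-torsion have
`∑ 1 / #Aut` equal to `(q + 1) / 3`, `q / 2` and `(q - 2) / 6`.
-/

set_option autoImplicit false
set_option linter.style.haveILetI false

noncomputable section

open WeierstrassCurve MulAction
open scoped WeierstrassCurve.Affine Classical

namespace FA.Summary

variable {q : ℕ} [hq : Fact q.Prime]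

/-- The weight of a class with `k` points killed by two. -/
def twoTorsionWeight (k : ℕ) (V : WeierstrassCurve (ZMod q)) : ℚ :=
  if Nat.card {P : V.toAffine.Point // 2 • P = 0} = k then 1 else 0

/-- The masses by the roots of the short equations. -/
theorem mass_two_torsion (h5 : 5 ≤ q) (k : ℕ) :
    ∑ᶠ c : orbitRel.Quotient (VariableChange (ZMod q)) (FA.ReducedGroups.ellipticEquations q),
      twoTorsionWeight k c.out.1 / Nat.card (stabilizer (VariableChange (ZMod q)) c.out) =
      ((FA.BirchMoment.nonsingular q).filter fun ab =>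
        (FA.ReducedGroups.cubicRoots ab).card + 1 = k).card / ((q : ℚ) - 1) := by
  have hinv : ∀ (C : VariableChange (ZMod q)) (V : WeierstrassCurve (ZMod q)), V.Δ ≠ 0 →
      twoTorsionWeight k (C • V) = twoTorsionWeight k V := fun C V hV => by
    haveI : V.IsElliptic := ⟨hV.isUnit⟩
    unfold twoTorsionWeight
    rw [Nat.card_congr ((FA.Frob.vcEquiv C rfl).toEquiv.subtypeEquiv (q := fun P => 2 • P = 0)
      fun P => by rw [AddEquiv.toEquiv_eq_coe, EquivLike.coe_coe, ← map_nsmul,
        AddEquiv.map_eq_zero_iff])]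
  rw [FA.ReducedGroups.sum_classes (f := fun V => twoTorsionWeight k V.1)
      fun C V => hinv C V.1 V.2,
    FA.ReducedGroups.sum_ellipticEquations h5 (twoTorsionWeight k) hinv,
    FA.ReducedGroups.natCard_variableChange,
    Finset.sum_congr rfl fun ab hab => show twoTorsionWeight k (FA.BirchMoment.shortMod ab.1 ab.2) =
      if (FA.ReducedGroups.cubicRoots ab).card + 1 = k then (1 : ℚ) else 0 by
      rw [twoTorsionWeight, FA.ReducedGroups.natCard_two_torsion_short h5 hab],
    Finset.sum_boole, Nat.cast_mul, Nat.cast_pow, Nat.cast_sub hq.out.one_le, Nat.cast_one]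
  have hq0 : (q : ℚ) ≠ 0 := Nat.cast_ne_zero.mpr hq.out.ne_zero
  field_simp

/-- **The distribution of Frobenius on `E[2]`.** -/
theorem classes_two_torsion (h5 : 5 ≤ q) :
    (∑ᶠ c : orbitRel.Quotient (VariableChange (ZMod q)) (FA.ReducedGroups.ellipticEquations q),
      twoTorsionWeight 1 c.out.1 / Nat.card (stabilizer (VariableChange (ZMod q)) c.out) =
        ((q : ℚ) + 1) / 3) ∧
    (∑ᶠ c : orbitRel.Quotient (VariableChange (ZMod q)) (FA.ReducedGroups.ellipticEquations q),
      twoTorsionWeight 2 c.out.1 / Nat.card (stabilizer (VariableChange (ZMod q)) c.out) =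
        (q : ℚ) / 2) ∧
    (∑ᶠ c : orbitRel.Quotient (VariableChange (ZMod q)) (FA.ReducedGroups.ellipticEquations q),
      twoTorsionWeight 4 c.out.1 / Nat.card (stabilizer (VariableChange (ZMod q)) c.out) =
        ((q : ℚ) - 2) / 6) := by
  rw [mass_two_torsion h5 1, mass_two_torsion h5 2, mass_two_torsion h5 4]
  set S := FA.BirchMoment.nonsingular q
  set r : ZMod q × ZMod q → ℕ := fun ab => (FA.ReducedGroups.cubicRoots ab).card
  set N : ℕ → ℚ := fun k => ((S.filter fun ab => r ab + 1 = k).card : ℚ)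
  have hr : ∀ ab ∈ S, r ab = 0 ∨ r ab = 1 ∨ r ab = 3 := fun ab h =>
    FA.ReducedGroups.card_cubicRoots h
  have hN : ∀ k, N k = ∑ ab ∈ S, if r ab + 1 = k then (1 : ℚ) else 0 := fun k =>
    (Finset.sum_boole _ _).symm
  have h1 : N 1 + N 2 + N 4 = (q : ℚ) ^ 2 - q := by
    rw [hN, hN, hN, ← Finset.sum_add_distrib, ← Finset.sum_add_distrib,
      Finset.sum_congr rfl (g := fun _ => (1 : ℚ)) fun ab hab => by
        rcases hr ab hab with e | e | e <;> rw [e] <;> norm_num,
      Finset.sum_const, nsmul_one]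
    exact_mod_cast FA.BirchMoment.card_nonsingular h5
  have h2 : N 2 + 3 * N 4 = ((q : ℚ) - 1) ^ 2 := by
    rw [hN, hN, Finset.mul_sum, ← Finset.sum_add_distrib,
      Finset.sum_congr rfl (g := fun ab => (r ab : ℚ)) fun ab hab => by
        rcases hr ab hab with e | e | e <;> rw [e] <;> norm_num]
    exact_mod_cast FA.ReducedGroups.sum_card_cubicRoots h5
  have h3 : 6 * N 4 = ((q : ℚ) - 1) * ((q : ℚ) - 2) := by
    rw [hN, Finset.mul_sum,
      Finset.sum_congr rfl (g := fun ab => ((FA.ReducedGroups.cubicRoots ab).offDiag.card : ℚ))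
        fun ab hab => by
          rw [Finset.offDiag_card]
          show _ = ((r ab * r ab - r ab : ℕ) : ℚ)
          rcases hr ab hab with e | e | e <;> rw [e] <;> norm_num]
    exact_mod_cast FA.ReducedGroups.sum_card_offDiag_cubicRoots h5
  have hq1 : (q : ℚ) - 1 ≠ 0 := sub_ne_zero.mpr (Nat.cast_ne_one.mpr hq.out.ne_one)
  refine ⟨?_, ?_, ?_⟩ <;> rw [div_eq_div_iff hq1 (by norm_num)]
  · linear_combination 3 * h1 - 3 * h2 + h3
  · linear_combination 2 * h2 - h3
  · linear_combination h3

end FA.Summary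

end
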