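import Fermat.Agent.Root.SummaryKummerFermat

/-!
# Fermat's Last Theorem for small exponents by the classical route

* `fermat_classical_exponent`: exponents divisible by `3`, by `4` or by a prime `5 ≤ p < 100` other
  than `37, 59, 67`.
* `fermat_classical_lt_hundred`: every exponent `3 ≤ n < 100` other than `37, 59, 67, 74`.

Exponents three and four are Euler's and Fermat's proofs (Mathlib), the others Kummer's theorem.
Independent of S01.
-/

set_option autoImplicit false

namespace FA.Summary

/-- Exponents with a divisor `3`, `4` or a regular prime below one hundred. -/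
theorem fermat_classical_exponent {n d : ℕ} (hd : d ∣ n)
    (h : d = 3 ∨ d = 4 ∨ (d.Prime ∧ 5 ≤ d ∧ d < 100 ∧ d ≠ 37 ∧ d ≠ 59 ∧ d ≠ 67)) :
    FermatLastTheoremFor n := by
  refine FermatLastTheoremFor.mono hd ?_
  rcases h with rfl | rfl | ⟨hp, h5, h100, h37, h59, h67⟩
  · exact fermatLastTheoremThree
  · exact fermatLastTheoremFour
  · have : Fact d.Prime := ⟨hp⟩
    exact kummer_fermat_lt_hundred d h5 h100 h37 h59 h67

/-- Exponents below one hundred. -/
theorem fermat_classical_lt_hundred (n : ℕ) (h3 : 3 ≤ n) (hn : n < 100)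
    (hex : n ∉ ({37, 59, 67, 74} : Finset ℕ)) (a b c : ℕ) (ha : 0 < a) (hb : 0 < b) (hc : 0 < c) :
    a ^ n + b ^ n ≠ c ^ n := by
  simp only [Finset.mem_insert, Finset.mem_singleton, not_or] at hex
  suffices h : FermatLastTheoremFor n from h a b c ha.ne' hb.ne' hc.ne'
  by_cases h4 : 4 ∣ n
  · exact fermat_classical_exponent h4 (Or.inr (Or.inl rfl))
  obtain ⟨q, hq, hqn, hq2⟩ : ∃ q, q.Prime ∧ q ∣ n ∧ q ≠ 2 := by
    by_contra h
    push Not at h
    have hpow := Nat.eq_prime_pow_of_unique_prime_dvd (p := 2) (n := n) (by omega)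
      fun {d} hd hdn => h d hd hdn
    rw [hpow] at h4 h3
    rcases hlen : n.primeFactorsList.length with _ | _ | l <;> rw [hlen] at h4 h3
    · omega
    · omega
    · exact h4 ⟨2 ^ l, by ring⟩
  have hqle : q ≤ n := Nat.le_of_dvd (by omega) hqn
  by_cases hq3 : q = 3
  · exact fermat_classical_exponent hqn (Or.inl hq3)
  have h5 : 5 ≤ q := by
    have := hq.two_le
    by_contra h
    have h4' : q = 4 := by omega
    rw [h4'] at hq
    norm_num at hq
  obtain ⟨r, hr⟩ := hqn
  refine fermat_classical_exponent (d := q) ⟨r, hr⟩ (Or.inr (Or.inr ⟨hq, h5, by omega, ?_, ?_, ?_⟩))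
  all_goals
    rintro rfl
    omega

end FA.Summary
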