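import Fermat.Agent.CliffordTheory.Ito
import Fermat.Agent.CliffordTheory.Taketa
import Fermat.Agent.ComplexGalois.FiniteImage
import Mathlib.FieldTheory.IsAlgClosed.AlgebraicClosure

/-!
# The theorems of Clifford, Schur, Itô and Taketa

* `clifford`, `clifford_constituents`: an irreducible representation restricted to a normal subgroup
  is the direct sum of translates of one irreducible subspace `U`, every irreducible subspace is
  isomorphic to a translate of it, and `dim U` divides the dimension;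
* `schur_degree_dvd_index`, `schur_degree_dvd_center_index`: a complex degree divides the index of
  any subgroup acting by scalars, in particular the index of the centre;
* `ito_degree_dvd_index`, `ito_galois`: it divides the index of every abelian normal subgroup, and
  the same for irreducible continuous complex Galois representations;
* `taketa`: a finite group all of whose irreducible complex representations are monomial is
  solvable.

The Itô–Michler theorem and the extension theorems of Gallagher are not claimed.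
-/

set_option autoImplicit false
set_option linter.style.haveILetI false

noncomputable section

open Module

namespace FA.CliffordTheory.Summary

section Clifford

variable {K G V : Type*} [Field K] [Group G] [AddCommGroup V] [Module K V] [FiniteDimensional K V]
  (ρ : Representation K G V) [hirr : ρ.IsIrreducible] (N : Subgroup G) [N.Normal]

/-- **Clifford's theorem**: the decomposition. -/
theorem clifford :
    ∃ U : Submodule K V, U ≠ ⊥ ∧ (∀ n ∈ N, ∀ u ∈ U, ρ n u ∈ U) ∧
      (∀ W ≤ U, (∀ n ∈ N, ∀ w ∈ W, ρ n w ∈ W) → W ≠ ⊥ → W = U) ∧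
      finrank K U ∣ finrank K V ∧
      ∃ S : Finset G, haveI := Classical.decEq G;
        DirectSum.IsInternal fun s : S => U.map (ρ (s : G)) := by
  have htop : (⊤ : Submodule K V) ≠ ⊥ := fun h => by
    obtain ⟨S, T, hne⟩ := hirr.toNontrivial
    refine hne (Subrepresentation.toSubmodule_injective ?_)
    haveI := Submodule.subsingleton_iff K |>.1 (subsingleton_of_bot_eq_top h.symm)
    exact Subsingleton.elim _ _
  obtain ⟨U, -, hU⟩ := exists_simpleOn (ρ := ρ) (N := N) (W := ⊤) (fun _ _ _ _ => trivial) htop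
  obtain ⟨S, hint, hdim⟩ := exists_isInternal hU
  exact ⟨U, hU.1, hU.2.1, hU.2.2, ⟨S.card, hdim.trans (mul_comm _ _)⟩, S, by convert hint; rfl⟩

/-- **Clifford's theorem**: the constituents are conjugate. -/
theorem clifford_constituents {U W : Submodule K V}
    (hU : U ≠ ⊥ ∧ (∀ n ∈ N, ∀ u ∈ U, ρ n u ∈ U) ∧
      ∀ X ≤ U, (∀ n ∈ N, ∀ w ∈ X, ρ n w ∈ X) → X ≠ ⊥ → X = U)
    (hW : W ≠ ⊥ ∧ (∀ n ∈ N, ∀ w ∈ W, ρ n w ∈ W) ∧
      ∀ X ≤ W, (∀ n ∈ N, ∀ w ∈ X, ρ n w ∈ X) → X ≠ ⊥ → X = W) :
    ∃ g : G, ∃ e : W ≃ₗ[K] (U.map (ρ g) : Submodule K V), ∀ n ∈ N, ∀ w w' : W,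
      (w' : V) = ρ n w → (e w' : V) = ρ n (e w) :=
  exists_equiv_translate hU hW

end Clifford

variable {G : Type*} [Group G] [Fintype G] {V : Type*} [AddCommGroup V] [Module ℂ V]
  [FiniteDimensional ℂ V] (ρ : Representation ℂ G V) [hirr : ρ.IsIrreducible]

include hirr in
/-- **Schur's theorem.** -/
theorem schur_degree_dvd_index {Z : Subgroup G} (hZ : ∀ z ∈ Z, ∃ c : ℂ, ρ z = c • 1) :
    finrank ℂ V ∣ Z.index :=
  finrank_dvd_index ρ hZ

include hirr in
/-- **The index of the centre.** -/
theorem schur_degree_dvd_center_index : finrank ℂ V ∣ (Subgroup.center G).index :=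
  finrank_dvd_index ρ fun z hz => by
    obtain ⟨c, hc⟩ :=
      (Representation.IsIrreducible.algebraMap_intertwiningMap_bijective_of_isAlgClosed (ρ := ρ)).2
        ⟨ρ z, fun g => by
          show ρ z * ρ g = ρ g * ρ z
          rw [← map_mul, ← map_mul, Subgroup.mem_center_iff.1 hz g]⟩
    refine ⟨c, ?_⟩
    have h := congrArg Representation.IntertwiningMap.toLinearMap hc
    rw [← Algebra.algebraMap_eq_smul_one]
    exact h.symm

include hirr in
/-- **Itô's theorem** (1951). -/
theorem ito_degree_dvd_index {A : Subgroup G} [A.Normal]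
    (hA : ∀ a ∈ A, ∀ b ∈ A, a * b = b * a) : finrank ℂ V ∣ A.index :=
  finrank_dvd_index_of_comm ρ hA

/-- **Itô's theorem for Galois representations.** -/
theorem ito_galois (K : Type*) [Field K] (n : ℕ) (hn : 0 < n)
    (ρ : (AlgebraicClosure K ≃ₐ[K] AlgebraicClosure K) →* Matrix.GeneralLinearGroup (Fin n) ℂ)
    (hρ : Continuous ρ)
    (hirr : ∀ U : Submodule ℂ (Fin n → ℂ),
      (∀ σ, ∀ v ∈ U, (ρ σ : Matrix (Fin n) (Fin n) ℂ).mulVec v ∈ U) → U = ⊥ ∨ U = ⊤)
    (A : Subgroup ρ.range) [A.Normal] (hA : ∀ a ∈ A, ∀ b ∈ A, a * b = b * a) :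
    n ∣ A.index := by
  haveI := FA.ComplexGalois.finite_range ρ hρ
  haveI := Fintype.ofFinite ρ.range
  haveI : NeZero n := ⟨hn.ne'⟩
  set τ : Representation ℂ ρ.range (Fin n → ℂ) :=
    (Matrix.toLinAlgEquiv' : Matrix (Fin n) (Fin n) ℂ ≃ₐ[ℂ] _).toAlgHom.toMonoidHom.comp
      ((Units.coeHom _).comp ρ.range.subtype)
  haveI : τ.IsIrreducible := by
    haveI : Nontrivial (Subrepresentation τ) := ⟨⊥, ⊤, fun h => by
      obtain ⟨v, hv⟩ := exists_ne (0 : Fin n → ℂ)
      exact hv (show v ∈ (⊥ : Subrepresentation τ) from h ▸ trivial)⟩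
    refine ⟨fun U => ?_⟩
    rcases hirr U.toSubmodule fun σ v hv =>
      U.apply_mem_toSubmodule (⟨ρ σ, σ, rfl⟩ : ρ.range) hv with h | h
    · exact Or.inl (Subrepresentation.toSubmodule_injective h)
    · exact Or.inr (Subrepresentation.toSubmodule_injective h)
  have h := finrank_dvd_index_of_comm τ hA
  rwa [finrank_fin_fun] at h

/-- **Taketa's theorem** (1930): M-groups are solvable. -/
theorem taketa {G : Type*} [Group G] [Finite G]
    (h : ∀ (d : ℕ) (ρ : Representation ℂ G (Fin d → ℂ)), ρ.IsIrreducible →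
      ∃ (m : ℕ) (b : Basis (Fin m) ℂ (Fin d → ℂ)), ∀ g i, ∃ j, ∃ c : ℂ, ρ g (b i) = c • b j) :
    Group.IsSolvable G :=
  isSolvable_of_monomial h

end FA.CliffordTheory.Summary

end
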