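import Fermat.Agent.CloseDivisors.Main

/-!
# Close divisors

Maier and Tenenbaum (1984) proved the conjecture of Erdős (1948) that almost all integers have two
divisors `d < d' < 2 d`. Their finer result, with `2` replaced by `1 + (log n) ^ (-β)`, `β` below
`log 3 - 1`, is not claimed.
-/

set_option autoImplicit false

noncomputable section

open Finset Filter
open scoped Topology

namespace FA.Summary

open scoped Classical in
/-- **Maier and Tenenbaum**: the `n` without divisors `d < d' < 2 d` have density `0`. -/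
theorem erdos_close_divisors :
    Tendsto (fun N : ℕ => (((Icc 1 N).filter fun n =>
      ¬∃ d d' : ℕ, d ∣ n ∧ d' ∣ n ∧ d < d' ∧ d' < 2 * d).card : ℝ) / N) atTop (𝓝 0) :=
  FA.CloseDivisors.tendsto_lonelyCount

open scoped Classical in
/-- Hence those with two such divisors have density `1`. -/
theorem erdos_close_divisors_density_one :
    Tendsto (fun N : ℕ => (((Icc 1 N).filter fun n =>
      ∃ d d' : ℕ, d ∣ n ∧ d' ∣ n ∧ d < d' ∧ d' < 2 * d).card : ℝ) / N) atTop (𝓝 1) := by
  have h := erdos_close_divisors.const_sub 1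
  rw [sub_zero] at h
  refine h.congr' ?_
  filter_upwards [eventually_ge_atTop 1] with N hN
  have e := card_filter_add_card_filter_not (s := Icc 1 N)
    fun n => ∃ d d' : ℕ, d ∣ n ∧ d' ∣ n ∧ d < d' ∧ d' < 2 * d
  rw [Nat.card_Icc, Nat.add_sub_cancel] at e
  have hN0 : (N : ℝ) ≠ 0 := Nat.cast_ne_zero.2 (by omega)
  rw [eq_div_iff hN0, sub_mul, one_mul, div_mul_cancel₀ _ hN0, sub_eq_iff_eq_add]
  exact_mod_cast e.symm

end FA.Summary

end
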