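import Fermat.Agent.Coanalytic.Prewellorder

/-!
# Coanalytic sets (R1736)

Completeness of the well-founded relations, the theorem of Lusin and Sierpiński on unions of
`ℵ₁` Borel sets, the rank as a coanalytic norm and the reduction property.
-/

set_option autoImplicit false

universe u

namespace FA.Coanalytic

open Set Topology MeasureTheory Cardinal
open FA.KunenMartin

/-- **The well-founded relations are complete coanalytic**: they form a coanalytic set to which
every coanalytic set in a Polish space reduces by a Borel map, and every coanalytic subset of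
Baire space by a continuous one. -/
theorem wellFounded_pi11_complete :
    AnalyticSet wellFoundedCodesᶜ ∧
    (∀ (X : Type u) [TopologicalSpace X] [PolishSpace X] [MeasurableSpace X] [BorelSpace X]
      (C : Set X), AnalyticSet Cᶜ →
        ∃ f : X → ℕ × ℕ → Bool, Measurable f ∧ C = f ⁻¹' wellFoundedCodes) ∧
    (∀ C : Set (ℕ → ℕ), AnalyticSet Cᶜ →
      ∃ f : (ℕ → ℕ) → ℕ × ℕ → Bool, Continuous f ∧ C = f ⁻¹' wellFoundedCodes) :=
  ⟨analyticSet_compl_wellFoundedCodes, fun _ _ _ _ _ _ hC => exists_measurable_reduction hC,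
    fun _ hC => exists_continuous_reduction hC⟩

/-- **Lusin and Sierpiński.** In a Polish space analytic and coanalytic sets are unions of at most
`ℵ₁` Borel sets; for coanalytic sets these can be chosen so that every analytic subset is
contained in one of them. -/
theorem lusin_sierpinski {X : Type u} [TopologicalSpace X] [PolishSpace X] [MeasurableSpace X]
    [BorelSpace X] {C : Set X} :
    (AnalyticSet C → ∃ S : Set (Set X), #S ≤ ℵ₁ ∧ (∀ B ∈ S, MeasurableSet B) ∧ ⋃₀ S = C) ∧
    (AnalyticSet Cᶜ → ∃ S : Set (Set X), #S ≤ ℵ₁ ∧ (∀ B ∈ S, MeasurableSet B) ∧ ⋃₀ S = C ∧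
      ∀ A ⊆ C, AnalyticSet A → ∃ B ∈ S, A ⊆ B) :=
  ⟨analytic_exists_borel_pieces, coanalytic_exists_borel_pieces⟩

/-- **The rank is a coanalytic norm** on the well-founded relations: the relations `≤*` and `<*`
of comparing ranks are coanalytic. -/
theorem wellFounded_coanalytic_norm :
    AnalyticSet {p : (ℕ × ℕ → Bool) × (ℕ × ℕ → Bool) |
        p.1 ∈ wellFoundedCodes ∧ (p.2, p.1) ∉ dominateSet}ᶜ ∧
      AnalyticSet {p : (ℕ × ℕ → Bool) × (ℕ × ℕ → Bool) |
        p.1 ∈ wellFoundedCodes ∧ (p.2, p.1) ∉ embedSet}ᶜ ∧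
      (∀ a b : ℕ × ℕ → Bool, b ∉ wellFoundedCodes → a ∈ wellFoundedCodes →
        (b, a) ∉ dominateSet ∧ (b, a) ∉ embedSet) ∧
      (∀ (a b : ℕ × ℕ → Bool) (ha : a ∈ wellFoundedCodes) (hb : b ∈ wellFoundedCodes),
        ((b, a) ∉ dominateSet ↔ ∀ m, ∃ k,
          ((ha : WellFounded _).apply m).rank ≤ ((hb : WellFounded _).apply k).rank) ∧
        ((b, a) ∉ embedSet ↔ ∃ n, ∀ m,
          ((ha : WellFounded _).apply m).rank < ((hb : WellFounded _).apply n).rank)) :=
  ⟨analyticSet_compl_norm.1, analyticSet_compl_norm.2,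
    fun _ _ hb ha =>
      ⟨fun h => hb (of_mem_dominateSet ha h).1, fun h => hb (of_mem_embedSet ha h).1⟩,
    fun _ _ ha hb => norm_iff ha hb⟩

/-- **The reduction property** of coanalytic sets. -/
theorem coanalytic_reduction {X : Type u} [TopologicalSpace X] [PolishSpace X] {C D : Set X}
    (hC : AnalyticSet Cᶜ) (hD : AnalyticSet Dᶜ) :
    ∃ C' D' : Set X, C' ⊆ C ∧ D' ⊆ D ∧ AnalyticSet C'ᶜ ∧ AnalyticSet D'ᶜ ∧ Disjoint C' D' ∧
      C' ∪ D' = C ∪ D := by
  let _ : MeasurableSpace X := borel X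
  have : BorelSpace X := ⟨rfl⟩
  exact exists_reduction hC hD

end FA.Coanalytic
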