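import Fermat.Agent.CobhamTheorem.Main

/-!
# Cobham's theorem

A sequence `a` is automatic in base `k` if its `k`-kernel, the set of the sequences
`n ↦ a (k ^ e n + r)`, `r < k ^ e`, is finite (the notion of `christol_automatic`).

* `cobham_theorem`: for multiplicatively independent `k, l ≥ 2` a sequence is automatic in both
  bases iff it is eventually periodic (Cobham);
* `powersOfTwo_not_automatic`: so the indicator of the powers of two is not automatic in base `3`.

Complements `SummaryChristol`; independent of S01.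
-/

set_option autoImplicit false

noncomputable section

namespace FA.Summary

/-- **Cobham's theorem.** -/
theorem cobham_theorem {α : Type*} {a : ℕ → α} {k l : ℕ} (hk : 2 ≤ k) (hl : 2 ≤ l)
    (hind : ∀ m n : ℕ, 0 < m → k ^ m ≠ l ^ n) :
    ({s : ℕ → α | ∃ e r : ℕ, r < k ^ e ∧ s = fun n => a (k ^ e * n + r)}.Finite ∧
      {s : ℕ → α | ∃ e r : ℕ, r < l ^ e ∧ s = fun n => a (l ^ e * n + r)}.Finite) ↔
    ∃ p M, 0 < p ∧ ∀ n, M ≤ n → a (n + p) = a n :=
  FA.Cobham.cobham_iff hk hl hind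

open scoped Classical in
/-- The indicator of the powers of two has an infinite `3`-kernel. -/
theorem powersOfTwo_not_automatic :
    ¬{s : ℕ → Bool | ∃ e r : ℕ, r < 3 ^ e ∧
      s = fun n => decide (∃ j : ℕ, 3 ^ e * n + r = 2 ^ j)}.Finite := by
  intro h3
  set a : ℕ → Bool := fun n => decide (∃ j : ℕ, n = 2 ^ j) with ha
  have h2 : (FA.Cobham.kern 2 a).Finite := by
    refine (Set.toFinite ({a, fun n => decide (n = 0), fun _ => false} : Set (ℕ → Bool))).subset ?_
    rintro _ ⟨e, r, hr, rfl⟩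
    simp only [Set.mem_insert_iff, Set.mem_singleton_iff]
    rcases Nat.eq_zero_or_pos r with rfl | hr0
    · refine Or.inl (funext fun n => ?_)
      simp only [ha, add_zero]
      refine decide_eq_decide.2 ⟨fun ⟨j, hj⟩ => ?_, fun ⟨j, hj⟩ => ⟨e + j, by rw [hj, pow_add]⟩⟩
      obtain ⟨i, -, hi⟩ := (Nat.dvd_prime_pow Nat.prime_two).1 ⟨2 ^ e, by rw [← hj, mul_comm]⟩
      exact ⟨i, hi⟩
    · by_cases hp : ∃ j, r = 2 ^ j
      · obtain ⟨j, rfl⟩ := hp
        have hje : j < e := (Nat.pow_lt_pow_iff_right (by norm_num)).1 hr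
        refine Or.inr (Or.inl (funext fun n => ?_))
        simp only [ha]
        refine decide_eq_decide.2 ⟨fun ⟨i, hi⟩ => ?_, fun hn => ⟨j, by rw [hn]; simp⟩⟩
        by_contra hn
        have h1 : 2 ^ e ≤ 2 ^ e * n := Nat.le_mul_of_pos_right _ (Nat.pos_of_ne_zero hn)
        have he : e ≤ i := (Nat.pow_le_pow_iff_right (by norm_num : 1 < 2)).1 (by omega)
        have h2 : 2 ^ e ∣ 2 ^ j := (Nat.dvd_add_right (dvd_mul_right _ n)).1
          (hi ▸ pow_dvd_pow 2 he)
        exact absurd (Nat.le_of_dvd (by positivity) h2) (by omega)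
      · refine Or.inr (Or.inr (funext fun n => ?_))
        simp only [ha, decide_eq_false_iff_not]
        rintro ⟨i, hi⟩
        rcases lt_or_ge i e with he | he
        · rcases Nat.eq_zero_or_pos n with rfl | hn
          · exact hp ⟨i, by simpa using hi⟩
          · have h1 : 2 ^ e ≤ 2 ^ e * n := Nat.le_mul_of_pos_right _ hn
            have h2 : 2 ^ i < 2 ^ e := Nat.pow_lt_pow_right (by norm_num) he
            omega
        · have h2 : 2 ^ e ∣ r := (Nat.dvd_add_right (dvd_mul_right _ n)).1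
            (hi ▸ pow_dvd_pow 2 he)
          exact absurd (Nat.le_of_dvd hr0 h2) (by omega)
  have hind : ∀ m n : ℕ, 0 < m → 2 ^ m ≠ 3 ^ n := fun m n hm he =>
    absurd ((Nat.prime_two.dvd_of_dvd_pow (he ▸ dvd_pow_self 2 hm.ne' : 2 ∣ 3 ^ n))) (by norm_num)
  obtain ⟨p, M, hp, hper⟩ := FA.Cobham.cobham le_rfl (by norm_num) hind h2 h3
  obtain ⟨j, hj1, hj2⟩ : ∃ j, M ≤ 2 ^ j ∧ p < 2 ^ j :=
    ⟨M + p, le_trans (Nat.le_add_right M p) Nat.lt_two_pow_self.le,
      lt_of_le_of_lt (Nat.le_add_left p M) Nat.lt_two_pow_self⟩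
  have h := hper (2 ^ j) hj1
  simp only [ha, decide_eq_decide] at h
  obtain ⟨i, hi⟩ := h.2 ⟨j, rfl⟩
  have h1 : j < i := (Nat.pow_lt_pow_iff_right (by norm_num : 1 < 2)).1 (by omega)
  have h4 : 2 ^ (j + 1) ≤ 2 ^ i := Nat.pow_le_pow_right (by norm_num) h1
  rw [pow_succ] at h4
  omega

end FA.Summary

end
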