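import Fermat.Agent.CocompactDegree.Applications
import Fermat.Agent.Horocycle.Quaternion

/-!
# The degree formula for cocompact Fuchsian groups

For a discrete subgroup `Γ` of `SL(2, ℝ)` with compact quotient, `area Γ` is the invariant area
`dx dy / y ^ 2` of a measurable transversal of its orbits, and `ramIndex Γ z` the order of the
stabiliser of `z` modulo the elements acting trivially.

* `log_derivative_distribution`: `∫ f' / f · ∂φ / ∂z̄ = -π ∑ ord · φ`;
* `stabiliser_orders`: the meaning of `ramIndex`, which is one outside a countable set;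
* `transversal_exists`, `transversal_area`: transversals exist and share one area in `(0, ∞)`;
* `degree_formula`: a nonzero form of weight `k` has finitely many zeros in a transversal and
  their weighted number `∑ ord / e` is `k A / (4 π)`;
* `area_rational`: so `A` is a positive rational multiple of `π` (Gauss–Bonnet, qualitatively);
* `dimension_bound`: the forms of weight `k` have dimension at most `⌊k A / (4 π)⌋ + 1`;
* `functions_equidegree`: a quotient of two forms without common zero takes every value, each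
  with the same weighted multiplicity;
* `quaternion_area`: the case of the norm-one units of an order in `(-1, 3)` over `ℚ`.

The Gauss–Bonnet value of the area in terms of genus and elliptic points, exact dimensions and
algebraic models are not claimed.
-/

set_option autoImplicit false
set_option linter.unusedSectionVars false
set_option linter.style.haveILetI false

noncomputable section

open MeasureTheory Set Filter Topology Complex
open UpperHalfPlane hiding I
open FA.CocompactForms
open scoped MatrixGroups Manifold Real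

namespace FA.CocompactDegree.Summary

/-- **The logarithmic derivative as a distribution.** -/
theorem log_derivative_distribution {U : Set ℂ} (hU : IsOpen U) {f φ : ℂ → ℂ}
    (hf : DifferentiableOn ℂ f U) (hφ : ContDiff ℝ 1 φ) (hφs : HasCompactSupport φ)
    (hsub : tsupport φ ⊆ U) (S : Finset ℂ) (hS : ∀ a ∈ S, a ∈ U ∧ analyticOrderAt f a ≠ ⊤)
    (hzero : ∀ a ∈ tsupport φ, f a = 0 → a ∈ S) :
    ∫ z, deriv f z / f z * ((fderiv ℝ φ z 1 + I * fderiv ℝ φ z I) / 2) =
      -π * ∑ a ∈ S, (analyticOrderNatAt f a : ℂ) * φ a :=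
  (integral_logDeriv_dbar hU hφ hφs hsub S f hf hS hzero).2

variable (Γ : Subgroup SL(2, ℝ)) [DiscreteTopology Γ]

/-- **The orders of the stabilisers.** -/
theorem stabiliser_orders :
    (∀ z, ramIndex Γ z * Nat.card (triv Γ) = Nat.card (MulAction.stabilizer Γ z) ∧
      0 < ramIndex Γ z) ∧
    (∀ γ : Γ, γ ∈ triv Γ ↔ ∀ z : ℍ, γ • z = z) ∧
    (∀ (γ : Γ) z, ramIndex Γ (γ • z) = ramIndex Γ z) ∧
    {z | ramIndex Γ z ≠ 1}.Countable :=
  ⟨fun z => ⟨ramIndex_mul Γ z, ramIndex_pos Γ z⟩, fun _ => mem_triv Γ, fun γ z => ramIndex_smul γ z,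
    (countable_fixSet Γ).mono fun _ hz => by_contra fun h => hz (ramIndex_eq_one Γ h)⟩

/-- **Transversals exist.** -/
theorem transversal_exists :
    ∃ D : Set ℍ, MeasurableSet D ∧ ∀ z : ℍ, ∃! w, w ∈ D ∧ w ∈ MulAction.orbit Γ z :=
  exists_fundSet Γ

variable [CompactSpace (SL(2, ℝ) ⧸ Γ)]

/-- **All transversals have the same positive finite area.** -/
theorem transversal_area :
    0 < area Γ ∧ ∀ D : Set ℍ, IsFundSet Γ D → volume D = ENNReal.ofReal (area Γ) :=
  ⟨area_pos Γ, fun _ hD => volume_eq_area Γ hD⟩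

/-- **The degree formula.** -/
theorem degree_formula {k : ℤ} {f : ℍ → ℂ} (hf : IsForm Γ k f) (h0 : f ≠ 0) {D : Set ℍ}
    (hD : IsFundSet Γ D) :
    {z ∈ D | f z = 0}.Finite ∧
      ∑ᶠ z ∈ D, (analyticOrderNatAt (f ∘ ofComplex) (z : ℂ) : ℝ) / ramIndex Γ z =
        k * area Γ / (4 * π) :=
  degree_formula_fundSet hf h0 hD

/-- **The area is a rational multiple of `π`.** -/
theorem area_rational : ∃ q : ℚ, 0 < q ∧ area Γ = q * π :=
  FA.CocompactDegree.area_rational Γ

/-- **The dimension bound.** -/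
theorem dimension_bound (k : ℤ) :
    FiniteDimensional ℂ (forms Γ k) ∧
      Module.finrank ℂ (forms Γ k) ≤ ⌊(k : ℝ) * area Γ / (4 * π)⌋₊ + 1 :=
  finrank_forms_le Γ k

/-- **Every value is taken with the same weighted multiplicity.** -/
theorem functions_equidegree {k : ℤ} {f g : ℍ → ℂ} (hf : IsForm Γ k f) (hg : IsForm Γ k g)
    (hg0 : g ≠ 0) (hcommon : ∀ z, f z = 0 → g z ≠ 0)
    (hprop : ∀ c : ℂ, f ≠ fun z => c * g z) {D : Set ℍ} (hD : IsFundSet Γ D) (c : ℂ) :
    (∃ z, g z ≠ 0 ∧ f z / g z = c) ∧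
    (∀ z, g z ≠ 0 → (f z - c * g z = 0 ↔ f z / g z = c) ∧
      analyticOrderNatAt (fun w => (f ∘ ofComplex) w / (g ∘ ofComplex) w - c) (z : ℂ) =
        ordAt (fun u => f u - c * g u) z) ∧
    (∀ z, f z - c * g z = 0 → g z ≠ 0) ∧
    ∑ᶠ z ∈ D, (ordAt (fun u => f u - c * g u) z : ℝ) / ramIndex Γ z =
      ∑ᶠ z ∈ D, (ordAt g z : ℝ) / ramIndex Γ z := by
  obtain ⟨-, -, -, h1, h2, h3⟩ := equidegree hf hg hg0 hcommon hprop c
  have hφ : IsForm Γ k fun u => f u - c * g u :=
    (forms Γ k).sub_mem hf ((forms Γ k).smul_mem c hg)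
  refine ⟨h3, fun z hz => ⟨by rw [sub_eq_zero, div_eq_iff hz], h2 z hz⟩, h1, ?_⟩
  rw [(degree_formula_fundSet hφ (fun h => hprop c (funext fun z => sub_eq_zero.1 (congrFun h z)))
    hD).2, (degree_formula_fundSet hg hg0 hD).2]

/-- **The quaternionic example.** -/
theorem quaternion_area :
    (∃ q : ℚ, 0 < q ∧ area Horocycle.unitGroup = q * π) ∧
      ∀ k : ℤ, Module.finrank ℂ (forms Horocycle.unitGroup k) ≤
        ⌊(k : ℝ) * area Horocycle.unitGroup / (4 * π)⌋₊ + 1 :=
  ⟨area_rational _, fun k => (dimension_bound _ k).2⟩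

end FA.CocompactDegree.Summary

end
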