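import Fermat.Agent.CocompactForms.NoParabolic
import Fermat.Agent.CocompactForms.Poincare
import Fermat.Agent.Horocycle.Quaternion

/-!
# Automorphic forms for cocompact Fuchsian groups

For a discrete subgroup `Γ` of `SL(2, ℝ)` with compact quotient, a form of weight `k : ℤ`
(`IsForm`) is a holomorphic `f` on the upper half plane with `f (γ z) = (c z + d) ^ k f z`; they
form the space `forms Γ k`.

* `cocompact_no_parabolic`: `1` is the only element of trace two, so there are no cusps;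
* `forms_norm_bounded`: `y ^ (k/2) |f|` is invariant and attains its maximum;
* `negative_weight`, `weight_zero_constant`;
* `forms_finite_dimensional`: the dimension is at most a constant times `|k| + 1`;
* `discrete_sum_norm`: for any discrete subgroup `∑ ‖γ‖ ^ (-k)` converges for `k ≥ 3`;
* `poincare_series`: so `∑ ((a + i c) z + b + i d) ^ (-k)` is a form of weight `k`;
* `forms_exist`: nonzero forms exist in arbitrarily large weights;
* `quaternion_forms`: all this for the norm-one units of an order in `(-1, 3)` over `ℚ`, a group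
  without cusps.

Exact dimensions, Hecke operators and algebraic models are not claimed.
-/

set_option autoImplicit false
set_option linter.unusedSectionVars false
set_option linter.style.haveILetI false

noncomputable section

open Complex Filter Topology
open UpperHalfPlane hiding I
open scoped MatrixGroups Manifold

namespace FA.CocompactForms.Summary

variable (Γ : Subgroup SL(2, ℝ)) [DiscreteTopology Γ]

section Cocompact

variable [CompactSpace (SL(2, ℝ) ⧸ Γ)]

/-- **No parabolic elements.** -/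
theorem cocompact_no_parabolic {γ : SL(2, ℝ)} (hγ : γ ∈ Γ)
    (h : Matrix.trace (γ : Matrix (Fin 2) (Fin 2) ℝ) = 2) : γ = 1 :=
  eq_one_of_trace_eq_two hγ (by rwa [Matrix.trace_fin_two] at h)

/-- **The invariant norm of a form is bounded.** -/
theorem forms_norm_bounded {k : ℤ} {f : ℍ → ℂ} (hf : IsForm Γ k f) :
    (∀ γ ∈ Γ, ∀ z : ℍ, Real.sqrt (γ • z).im ^ k * ‖f (γ • z)‖ = Real.sqrt z.im ^ k * ‖f z‖) ∧
      ∃ z₀ : ℍ, ∀ z : ℍ, Real.sqrt z.im ^ k * ‖f z‖ ≤ Real.sqrt z₀.im ^ k * ‖f z₀‖ :=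
  ⟨fun _ hγ z => pet_smul hf hγ z, exists_max_pet hf⟩

/-- **Negative weights carry no forms.** -/
theorem negative_weight {k : ℤ} (hk : k < 0) {f : ℍ → ℂ} (hf : IsForm Γ k f) : f = 0 :=
  eq_zero_of_neg hk hf

/-- **Forms of weight zero are constant.** -/
theorem weight_zero_constant {f : ℍ → ℂ} (hf : IsForm Γ 0 f) : ∃ c, f = fun _ => c :=
  eq_const_of_weight_zero hf

/-- **Finite dimensionality, with a bound linear in the weight.** -/
theorem forms_finite_dimensional :
    ∃ C : ℕ, ∀ k : ℤ, FiniteDimensional ℂ (forms Γ k) ∧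
      Module.finrank ℂ (forms Γ k) ≤ C * (k.natAbs + 1) :=
  exists_finrank_le Γ

end Cocompact

/-- **Convergence exponent of a discrete subgroup.** -/
theorem discrete_sum_norm {k : ℕ} (hk : 3 ≤ k) :
    Summable fun γ : Γ => (Real.sqrt (∑ i, ∑ j, (γ : SL(2, ℝ)).1 i j ^ 2))⁻¹ ^ k := by
  refine (summable_normSqSL Γ).of_nonneg_of_le (fun γ => by positivity) fun γ => ?_
  have h := two_le_normSqSL (γ : SL(2, ℝ))
  rw [FA.SLnCount.normSqSL_eq] at h ⊢
  exact pow_le_pow_of_le_one (by positivity)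
    (inv_le_one_of_one_le₀ (Real.one_le_sqrt.2 (le_trans one_le_two h))) hk

/-- **Poincaré series.** -/
theorem poincare_series {k : ℕ} (hk : 3 ≤ k) :
    (∀ z : ℍ, Summable fun γ : Γ =>
      (((γ.1 0 0 : ℂ) * z + (γ.1 0 1 : ℂ) + I * ((γ.1 1 0 : ℂ) * z + (γ.1 1 1 : ℂ))) ^ k)⁻¹) ∧
    IsForm Γ (k : ℤ) fun z : ℍ => ∑' γ : Γ,
      (((γ.1 0 0 : ℂ) * z + (γ.1 0 1 : ℂ) + I * ((γ.1 1 0 : ℂ) * z + (γ.1 1 1 : ℂ))) ^ k)⁻¹ :=
  ⟨fun z => summable_poincare Γ hk z.im_pos, isForm_poincare Γ hk⟩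

/-- **Forms exist in arbitrarily large weights.** -/
theorem forms_exist (K : ℕ) : ∃ k : ℕ, K ≤ k ∧ forms Γ (k : ℤ) ≠ ⊥ := by
  obtain ⟨k, hk, f, hf, h0⟩ := exists_form_ne_zero Γ K
  exact ⟨k, hk, fun h => h0 ((Submodule.eq_bot_iff _).1 h f hf)⟩

/-- **The quaternionic example.** -/
theorem quaternion_forms :
    (∀ γ ∈ Horocycle.unitGroup, Matrix.trace (γ : Matrix (Fin 2) (Fin 2) ℝ) = 2 → γ = 1) ∧
      ∃ C : ℕ, (∀ k : ℤ, FiniteDimensional ℂ (forms Horocycle.unitGroup k) ∧
          Module.finrank ℂ (forms Horocycle.unitGroup k) ≤ C * (k.natAbs + 1)) ∧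
        ∀ K : ℕ, ∃ k : ℕ, K ≤ k ∧ 0 < Module.finrank ℂ (forms Horocycle.unitGroup (k : ℤ)) := by
  refine ⟨fun γ hγ h => cocompact_no_parabolic _ hγ h, ?_⟩
  obtain ⟨C, hC⟩ := forms_finite_dimensional Horocycle.unitGroup
  refine ⟨C, hC, fun K => ?_⟩
  obtain ⟨k, hk, hne⟩ := forms_exist Horocycle.unitGroup K
  haveI := (hC k).1
  exact ⟨k, hk, Nat.pos_of_ne_zero fun h => hne (Submodule.finrank_eq_zero.1 h)⟩

end FA.CocompactForms.Summary

end
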