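import Fermat.Agent.CocompactFunctions.Field
import Fermat.Agent.Horocycle.Quaternion

/-!
# The function field of a compact quotient of the upper half plane

For a discrete subgroup `Γ` of `SL(2, ℝ)`, possibly containing `-1`, with compact quotient, the
automorphic functions are the elements `f / g` of the fraction field of the holomorphic functions
on the upper half plane with `f` and `g` forms of equal weight; they form a field `funcField Γ`
over `ℂ`.

* `forms_separate`: a form of some even weight vanishes at one of two points in different orbits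
  and not at the other (true for every discrete subgroup);
* `functions_separate`: an automorphic function takes different values there;
* `functions_nonconstant`: some automorphic function is transcendental over `ℂ`;
* `function_field_finite`: the field is finite over `ℂ(j)` for every transcendental `j`, and
  `function_field_trdeg`: its transcendence degree is one;
* `functions_algebraically_dependent`, `forms_algebraically_dependent`: two functions, and three
  forms of positive weights, satisfy a polynomial relation;
* `quaternion_functions`: the case of the norm-one units of an order in `(-1, 3)` over `ℚ`, which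
  contain `-1`.

No projective embedding, genus or algebraic model is claimed.
-/

set_option autoImplicit false
set_option linter.unusedSectionVars false
set_option linter.style.haveILetI false

noncomputable section

open Complex Filter Topology
open UpperHalfPlane hiding I
open IntermediateField (adjoin)
open FA.CocompactForms
open scoped MatrixGroups Manifold

namespace FA.CocompactFunctions.Summary

variable (Γ : Subgroup SL(2, ℝ)) [DiscreteTopology Γ]

/-- **Forms separate the orbits.** -/
theorem forms_separate {z w : ℍ} (hzw : ∀ γ ∈ Γ, γ • z ≠ w) :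
    ∃ k : ℕ, 3 ≤ k ∧ Even k ∧ ∃ f : ℍ → ℂ, IsForm Γ (k : ℤ) f ∧ f w = 0 ∧ f z ≠ 0 := by
  obtain ⟨k, hk, hev, f, _, hf, -, hfw, hfz, -⟩ := exists_separating Γ hzw
  exact ⟨k, hk, hev, f, hf, hfw, hfz⟩

/-- **Automorphic functions separate the orbits.** -/
theorem functions_separate {z w : ℍ} (hzw : ∀ γ ∈ Γ, γ • z ≠ w) :
    ∃ x : funcField Γ, ∃ (k : ℤ) (f g : holAlg), IsForm Γ k f ∧ IsForm Γ k g ∧
      (x : MeroFrac) = toFrac f / toFrac g ∧ g.1 z ≠ 0 ∧ g.1 w ≠ 0 ∧
        f.1 z / g.1 z ≠ f.1 w / g.1 w := by
  obtain ⟨x, k, f, g, hf, hg, hx, hgz, hgw, hfz, hfw⟩ := exists_separating_quot Γ hzw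
  refine ⟨x, k, f, g, hf, hg, hx, hgz, hgw, ?_⟩
  rw [hfw, zero_div]
  exact div_ne_zero hfz hgz

variable [CompactSpace (SL(2, ℝ) ⧸ Γ)]

/-- **A nonconstant automorphic function exists.** -/
theorem functions_nonconstant : ∃ j : funcField Γ, Transcendental ℂ j :=
  exists_transcendental Γ

/-- **The field is finite over `ℂ(j)`.** -/
theorem function_field_finite (j : funcField Γ) (hj : Transcendental ℂ j) :
    FiniteDimensional (adjoin ℂ {j}) (funcField Γ) :=
  finite_over_adjoin Γ j hj

/-- **Transcendence degree one.** -/
theorem function_field_trdeg : Algebra.trdeg ℂ (funcField Γ) = 1 := by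
  obtain ⟨j, hj⟩ := exists_transcendental Γ
  exact trdeg_funcField Γ hj

/-- **Two automorphic functions are algebraically dependent.** -/
theorem functions_algebraically_dependent (x y : funcField Γ) :
    ∃ P : MvPolynomial (Fin 2) ℂ, P ≠ 0 ∧ MvPolynomial.aeval ![x, y] P = 0 := by
  have h : ¬ AlgebraicIndependent ℂ ![x, y] := fun h => by
    have h1 := h.lift_cardinalMk_le_trdeg
    rw [function_field_trdeg Γ] at h1
    simp at h1
  rw [algebraicIndependent_iff] at h
  push Not at h
  exact h.imp fun P hP => ⟨hP.2, hP.1⟩

/-- **Three forms of positive weights are algebraically dependent.** -/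
theorem forms_algebraically_dependent {k : Fin 3 → ℕ} (hk : ∀ i, 0 < k i) {f : Fin 3 → ℍ → ℂ}
    (hf : ∀ i, IsForm Γ (k i : ℤ) (f i)) :
    ∃ P : MvPolynomial (Fin 3) ℂ, P ≠ 0 ∧ ∀ z : ℍ, MvPolynomial.eval (fun i => f i z) P = 0 := by
  have h := not_algebraicIndependent_three Γ hk (f := fun i => ⟨f i, (hf i).1⟩) hf
  rw [algebraicIndependent_iff] at h
  push Not at h
  obtain ⟨P, hP, hP0⟩ := h
  refine ⟨P, hP0, fun z => ?_⟩
  have h1 := congrArg ((Pi.evalAlgHom ℂ (fun _ : ℍ => ℂ) z).comp holAlg.val) hP
  rw [map_zero, MvPolynomial.comp_aeval_apply] at h1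
  rw [← h1, ← MvPolynomial.coe_aeval_eq_eval]
  rfl

/-- **The quaternionic example.** -/
theorem quaternion_functions :
    (-1 : SL(2, ℝ)) ∈ Horocycle.unitGroup ∧ Algebra.trdeg ℂ (funcField Horocycle.unitGroup) = 1 ∧
      ∀ z w : ℍ, (∀ γ ∈ Horocycle.unitGroup, γ • z ≠ w) →
        ∃ x : funcField Horocycle.unitGroup, ∃ (k : ℤ) (f g : holAlg),
          IsForm Horocycle.unitGroup k f ∧ IsForm Horocycle.unitGroup k g ∧
            (x : MeroFrac) = toFrac f / toFrac g ∧ g.1 z ≠ 0 ∧ g.1 w ≠ 0 ∧
              f.1 z / g.1 z ≠ f.1 w / g.1 w :=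
  ⟨⟨(-1, 0, 0, 0), by ext i j; fin_cases i <;> fin_cases j <;> simp [Horocycle.quadMat]⟩,
    function_field_trdeg _, fun _ _ h => functions_separate _ h⟩

end FA.CocompactFunctions.Summary

end
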