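import Fermat.Agent.CocompactGaussBonnet.Formula
import Fermat.Agent.Horocycle.Quaternion

/-!
# The formula of Gauss and Bonnet for cocompact Fuchsian groups

For a discrete subgroup `Γ` of `SL(2, ℝ)` with compact quotient and a transversal `D` the Petersson
product of forms of weight `k` is `∫ over D` of `y ^ k conj(f) g` for `dx dy / y ^ 2`.

* `bergman_reproducing`: the weighted mean value property of the disc, and its transport: a
  holomorphic `f` with `y ^ (k/2) |f|` bounded is `(k - 1) (-2 i) ^ k / (4 π)` times the integral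
  of `y ^ k f (z) / (conj z - p) ^ k` at `p`, for `k ≥ 4`;
* `petersson_kernel`: the product does not depend on `D`, is Hermitian and positive definite, and
  a Poincaré series `P_p` reproduces it;
* `dimension_integral`: `dim` of weight `k` times the number of elements acting trivially is the
  integral of `y ^ k P_z (z)`, and `y ^ k P_z (z) = (k - 1) / (4 π) ∑ q_γ (z) ^ k`;
* `elliptic_orbits_finite`, `elliptic_vanishing`: finitely many orbits have `e > 1`, there the
  stabiliser acts by the `e`-th roots of unity, and a form of weight `2 m` vanishes to an order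
  congruent to `-m` modulo `e`;
* `gauss_bonnet`: for some natural `g` the area is `2 π (2 g - 2 + ∑ (1 - 1/e))`;
* `dimension_formula`: for that `g` and large `m` the forms of weight `2 m` have dimension
  `(2 m - 1) (g - 1) + ∑ ⌊m (1 - 1/e)⌋`;
* `area_lower_bound`: Siegel's bound `π / 21 ≤ A`;
* `quaternion_gauss_bonnet`: the case of the norm-one units of an order in `(-1, 3)` over `ℚ`.

That `g` is the topological genus and the formula for small weights are not claimed.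
-/

set_option autoImplicit false
set_option linter.unusedSectionVars false
set_option linter.style.haveILetI false

noncomputable section

open MeasureTheory Set Filter Topology Complex
open UpperHalfPlane hiding I
open FA.CocompactForms FA.CocompactFunctions FA.CocompactDegree
open scoped MatrixGroups Manifold Real ComplexConjugate

namespace FA.CocompactGaussBonnet.Summary

/-- **The reproducing kernels of the disc and of the upper half plane.** -/
theorem bergman_reproducing :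
    (∀ (n : ℕ) (g : ℂ → ℂ) (M : ℝ), DifferentiableOn ℂ g (Metric.ball 0 1) →
      (∀ w ∈ Metric.ball (0 : ℂ) 1, ‖(((1 - ‖w‖ ^ 2) ^ n : ℝ) : ℂ) * g w‖ ≤ M) →
      ∫ w in Metric.ball 0 1, (((1 - ‖w‖ ^ 2) ^ n : ℝ) : ℂ) * g w = π / (n + 1) * g 0) ∧
    ∀ (k : ℕ) (f : ℍ → ℂ) (M : ℝ), 4 ≤ k → MDiff f →
      (∀ z : ℍ, Real.sqrt z.im ^ k * ‖f z‖ ≤ M) → ∀ p : ℍ,
      f p = ((k : ℂ) - 1) * (-2 * I) ^ k / (4 * π) *
        ∫ z : ℍ, (z.im ^ k) • (f z / (conj (z : ℂ) - p) ^ k) := by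
  refine ⟨fun n g M hg hM => disc_reproducing n hg hM, fun k f M hk hf hM p => ?_⟩
  have hsy : (Real.sqrt p.im : ℂ) ≠ 0 := ofReal_ne_zero.2 (Real.sqrt_ne_zero'.2 p.im_pos)
  have hb := bergman hk p.toSL2R⁻¹ hf (M := M) fun z => by
    simpa [pet] using hM z
  have hjp := jac_inv p.toSL2R⁻¹
  rw [inv_inv, toSL2R_smul_I] at hb hjp
  rw [eq_inv_of_mul_eq_one_left hjp, jac_toSL2R, ofReal_inv, inv_inv, conj_kerConst] at hb
  refine mul_left_cancel₀ (pow_ne_zero k hsy) (hb.trans ?_)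
  rw [mul_left_comm, ← integral_const_mul ((Real.sqrt p.im : ℂ) ^ k)]
  congr 1
  refine integral_congr_ae (.of_forall fun z => ?_)
  have hseed : seed p.toSL2R⁻¹ z = ((z : ℂ) - conj (p : ℂ)) / Real.sqrt p.im := by
    rw [eq_div_iff hsy]
    simp [seed, jac, UpperHalfPlane.toSL2R_apply, Matrix.SpecialLinearGroup.coe_inv,
      Matrix.adjugate_fin_two, Complex.ext_iff]
    have hs := Real.sqrt_pos.2 p.im_pos
    constructor <;> field_simp <;> nlinarith [Real.sq_sqrt p.im_pos.le]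
  simp only [hseed, map_pow, map_div₀, map_sub, conj_conj, conj_ofReal,
    Complex.real_smul, div_pow, inv_div]
  ring

variable (Γ : Subgroup SL(2, ℝ)) [DiscreteTopology Γ] [CompactSpace (SL(2, ℝ) ⧸ Γ)]

/-- **The Petersson product and its kernel.** -/
theorem petersson_kernel {k : ℕ} (hk : 4 ≤ k) {f g : ℍ → ℂ} (hf : IsForm Γ (k : ℤ) f)
    (hg : IsForm Γ (k : ℤ) g) {D D' : Set ℍ} (hD : IsFundSet Γ D) (hD' : IsFundSet Γ D') :
    ∫ z in D, (z.im ^ k) • (conj (f z) * g z) = ∫ z in D', (z.im ^ k) • (conj (f z) * g z) ∧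
    conj (∫ z in D, (z.im ^ k) • (conj (g z) * f z)) =
      ∫ z in D, (z.im ^ k) • (conj (f z) * g z) ∧
    (f ≠ 0 → 0 < (∫ z in D, (z.im ^ k) • (conj (f z) * f z)).re) ∧
    ∀ p : ℍ, IsForm Γ (k : ℤ) (kerFun Γ k p) ∧
      ∫ z in D, (z.im ^ k) • (conj (kerFun Γ k p z) * f z) = trivCard Γ * f p := by
  obtain ⟨ψ, G, h⟩ := exists_partition Γ
  refine ⟨by rw [petInner_eq_fundSet h hf hg hD, petInner_eq_fundSet h hf hg hD'], ?_,
    fun h0 => ?_, fun p => ⟨isForm_kerFun (by omega) p, by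
      rw [petInner_eq_fundSet h (isForm_kerFun (by omega) p) hf hD, petInner_kerFun h hk hf p]⟩⟩
  · rw [← integral_conj]
    refine integral_congr_ae (.of_forall fun z => ?_)
    simp [Complex.real_smul, conj_ofReal, mul_comm]
  · obtain ⟨h1, h2⟩ := petInner_self (k := k) h hf.1
    rw [petInner_eq_fundSet h hf hf hD, Complex.mul_re, natCast_re, natCast_im, zero_mul, sub_zero]
    refine mul_pos (Nat.cast_pos.2 (trivCard_pos Γ)) (lt_of_le_of_ne h1 fun e => h0 (h2 ?_))
    have him : (petInner ψ k f f).im = 0 := by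
      rw [← Complex.conj_eq_iff_im, petInner, ← integral_conj]
      refine integral_congr_ae (.of_forall fun z => ?_)
      simp [Complex.real_smul, conj_ofReal, mul_comm]
    exact Complex.ext e.symm him

/-- **The dimension as an integral.** -/
theorem dimension_integral {k : ℕ} (hk : 4 ≤ k) {D : Set ℍ} (hD : IsFundSet Γ D) :
    trivCard Γ * (Module.finrank ℂ (forms Γ (k : ℤ)) : ℂ) =
      ∫ z in D, z.im ^ k • kerFun Γ k z z ∧
    ∀ z : ℍ, z.im ^ k • kerFun Γ k z z = ((k : ℂ) - 1) / (4 * π) *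
      ∑' γ : Γ, (2 * I / seed (z.toSL2R⁻¹ * (γ : SL(2, ℝ)) * z.toSL2R) I) ^ k := by
  obtain ⟨ψ, G, h⟩ := exists_partition Γ
  refine ⟨(finrank_eq_integral_fundSet h hk hD).symm, fun z => ?_⟩
  rw [Complex.real_smul, ofReal_pow]
  exact kerFun_self z

/-- **Finitely many elliptic orbits.** -/
theorem elliptic_orbits_finite :
    {x : Orb Γ | ramIndex Γ x.out ≠ 1}.Finite ∧
      ∀ (p : ℍ) (ζ : ℂ), (∃ γ : Γ, γ • p = p ∧ (jac (γ : SL(2, ℝ)) p ^ 2)⁻¹ = ζ) ↔
        ζ ^ ramIndex Γ p = 1 :=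
  ⟨finite_elliptic Γ, fun p ζ => by
    rw [← range_etaHom Γ p ζ]
    exact ⟨fun ⟨γ, h1, h2⟩ => ⟨⟨γ, h1⟩, h2⟩, fun ⟨γ, h⟩ => ⟨γ, γ.2, h⟩⟩⟩

/-- **Vanishing at elliptic points.** -/
theorem elliptic_vanishing {m : ℕ} {f : ℍ → ℂ} (hf : IsForm Γ ((2 * m : ℕ) : ℤ) f) (h0 : f ≠ 0)
    (p : ℍ) : ramIndex Γ p ∣ analyticOrderNatAt (f ∘ ofComplex) (p : ℂ) + m :=
  dvd_ord_add Γ hf h0 p

theorem finsum_ramIndex {M : Type*} [AddCommMonoid M] (F : ℕ → M) (hF : F 1 = 0) :
    ∑ᶠ x : Orb Γ, F (ramIndex Γ x.out) =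
      ∑ x ∈ (finite_elliptic Γ).toFinset, F (ramIndex Γ x.out) :=
  finsum_eq_sum_of_support_subset _ fun x hx => (finite_elliptic Γ).mem_toFinset.2 fun h => hx (by
    show F (ramIndex Γ x.out) = 0
    rw [h, hF])

/-- **The formula of Gauss and Bonnet.** -/
theorem gauss_bonnet :
    ∃ g : ℕ, area Γ =
      2 * π * (2 * (g : ℝ) - 2 + ∑ᶠ x : Orb Γ, (1 - 1 / (ramIndex Γ x.out : ℝ))) := by
  obtain ⟨g, hg, -⟩ := exists_genus Γ
  exact ⟨g, by rw [finsum_ramIndex Γ (fun e => 1 - 1 / (e : ℝ)) (by norm_num)]; exact hg⟩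

/-- **The dimension formula for large weights.** -/
theorem dimension_formula :
    ∃ g K : ℕ, area Γ =
        2 * π * (2 * (g : ℝ) - 2 + ∑ᶠ x : Orb Γ, (1 - 1 / (ramIndex Γ x.out : ℝ))) ∧
      ∀ m : ℕ, K ≤ m → (Module.finrank ℂ (forms Γ ((2 * m : ℕ) : ℤ)) : ℤ) =
        (2 * (m : ℤ) - 1) * ((g : ℤ) - 1) +
          ((∑ᶠ x : Orb Γ, m * (ramIndex Γ x.out - 1) / ramIndex Γ x.out : ℕ) : ℤ) := by
  obtain ⟨g, hg, hev⟩ := exists_genus Γ
  obtain ⟨K, hK⟩ := eventually_atTop.1 hev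
  refine ⟨g, K, by rw [finsum_ramIndex Γ (fun e => 1 - 1 / (e : ℝ)) (by norm_num)]; exact hg,
    fun m hm => ?_⟩
  rw [hK m hm, finsum_ramIndex Γ (fun e => m * (e - 1) / e) (by simp)]
  rfl

/-- **Siegel's bound.** -/
theorem area_lower_bound : π / 21 ≤ area Γ := pi_div_le_area Γ

/-- **The quaternionic example.** -/
theorem quaternion_gauss_bonnet :
    π / 21 ≤ area Horocycle.unitGroup ∧
      ∃ g : ℕ, area Horocycle.unitGroup = 2 * π * (2 * (g : ℝ) - 2 +
        ∑ᶠ x : Orb Horocycle.unitGroup, (1 - 1 / (ramIndex Horocycle.unitGroup x.out : ℝ))) :=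
  ⟨area_lower_bound _, gauss_bonnet _⟩

end FA.CocompactGaussBonnet.Summary

end
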