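import Fermat.Agent.CocompactHurwitz.Congruence

/-!
# The theorem of Hurwitz for cocompact Fuchsian groups

For a discrete subgroup `G` of `SL(2, ℝ)` with compact quotient:

* `overgroup_finite_index`: a discrete overgroup `H` is cocompact, the index is finite, and with
  `t` the number of elements acting trivially `t_H A_G = t_G [H : G] A_H`;
* `maximal_overgroup`: `[H : G] ≤ 42 A_G / π`, and a maximal discrete overgroup exists;
* `centralizer_trivial`, `normalizer_discrete`: only `±1` commute with `G`, and the normaliser is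
  discrete and cocompact;
* `elliptic_free_genus`: without elliptic points `A = 4 π (g - 1)` with `g ≥ 2`;
* `hurwitz_theorem`: for such `g`, `t_G [H : G] ≤ t_H 84 (g - 1)` for every discrete overgroup, so
  the normaliser contains `G` with index at most `84 (g - 1)` if `-1 ∈ G`, and at most twice that
  in general;
* `quaternion_congruence`: for `n ≥ 2` the congruence subgroups of the units of the order in
  `(-1, 3)` over `ℚ` are normal of finite index without elliptic points, and their genera are
  unbounded.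

The statement in terms of automorphisms of Riemann surfaces is not claimed.
-/

set_option autoImplicit false
set_option linter.unusedSectionVars false
set_option linter.style.haveILetI false

noncomputable section

open Set Filter Topology
open UpperHalfPlane hiding I
open FA.CocompactForms FA.CocompactDegree FA.CocompactGaussBonnet
open scoped MatrixGroups Real

namespace FA.CocompactHurwitz.Summary

variable (G : Subgroup SL(2, ℝ)) [DiscreteTopology G] [CompactSpace (SL(2, ℝ) ⧸ G)]

/-- **Discrete overgroups.** -/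
theorem overgroup_finite_index (H : Subgroup SL(2, ℝ)) [DiscreteTopology H] (hle : G ≤ H) :
    haveI := compactSpace_of_le hle
    CompactSpace (SL(2, ℝ) ⧸ H) ∧ 0 < G.relIndex H ∧
      trivCard H * area G = trivCard G * G.relIndex H * area H :=
  ⟨compactSpace_of_le hle, relIndex_pos hle, area_mul hle⟩

/-- **Maximal discrete overgroups.** -/
theorem maximal_overgroup :
    (∀ H : Subgroup SL(2, ℝ), G ≤ H → DiscreteTopology H →
      (G.relIndex H : ℝ) ≤ 42 * area G / π) ∧
    ∃ M : Subgroup SL(2, ℝ), G ≤ M ∧ DiscreteTopology M ∧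
      ∀ M' : Subgroup SL(2, ℝ), M ≤ M' → DiscreteTopology M' → M' = M :=
  ⟨fun _ hle hH => haveI := hH; relIndex_le hle, exists_maximal G⟩

/-- **The centraliser is trivial.** -/
theorem centralizer_trivial :
    (Subgroup.centralizer (G : Set SL(2, ℝ)) : Set SL(2, ℝ)) = {1, -1} := by
  refine Subset.antisymm
    (fun g hg => eq_one_or_neg_one_of_commute (G := G) (Subgroup.mem_centralizer_iff.1 hg)) ?_
  rintro g (rfl | rfl)
  · exact one_mem _
  · exact Subgroup.mem_centralizer_iff.2 fun h _ => Subtype.ext (by simp)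

/-- **The normaliser is discrete.** -/
theorem normalizer_discrete :
    DiscreteTopology (Subgroup.normalizer (G : Set SL(2, ℝ))) ∧
      CompactSpace (SL(2, ℝ) ⧸ Subgroup.normalizer (G : Set SL(2, ℝ))) :=
  ⟨discreteTopology_normalizer, compactSpace_of_le le_normalizer_self⟩

/-- **The genus without elliptic points.** -/
theorem elliptic_free_genus (hfree : ∀ γ ∈ G, ∀ z : ℍ, γ • z = z → γ = 1 ∨ γ = -1) :
    ∃ g : ℕ, 2 ≤ g ∧ area G = 4 * π * ((g : ℝ) - 1) :=
  exists_genus_of_free hfree

/-- **Hurwitz's theorem.** -/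
theorem hurwitz_theorem (hfree : ∀ γ ∈ G, ∀ z : ℍ, γ • z = z → γ = 1 ∨ γ = -1) :
    ∃ g : ℕ, 2 ≤ g ∧ area G = 4 * π * ((g : ℝ) - 1) ∧
      (∀ H : Subgroup SL(2, ℝ), G ≤ H → DiscreteTopology H →
        trivCard G * G.relIndex H ≤ trivCard H * (84 * (g - 1))) ∧
      G.relIndex (Subgroup.normalizer (G : Set SL(2, ℝ))) ≤ 2 * (84 * (g - 1)) ∧
      ((-1 : SL(2, ℝ)) ∈ G →
        G.relIndex (Subgroup.normalizer (G : Set SL(2, ℝ))) ≤ 84 * (g - 1)) := by
  obtain ⟨g, hg2, hg⟩ := exists_genus_of_free hfree
  haveI := discreteTopology_normalizer (G := G)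
  have hN := trivCard_eq.1 (neg_one_mem_normalizer (G := G))
  have h := hurwitz_inequality (le_normalizer_self (G := G)) hg
  rw [hN] at h
  refine ⟨g, hg2, hg, fun H hle hH => haveI := hH; hurwitz_inequality hle hg, ?_, fun h1 => ?_⟩
  · exact (Nat.le_mul_of_pos_left _ (trivCard_pos G)).trans h
  · rw [trivCard_eq.1 h1] at h
    exact Nat.le_of_mul_le_mul_left h two_pos

/-- **Congruence subgroups of the quaternionic example.** -/
theorem quaternion_congruence :
    (∀ n : ℕ, 2 ≤ n → ∀ [NeZero n],
      congruenceSubgroup n ≤ Horocycle.unitGroup ∧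
      Horocycle.unitGroup ≤ Subgroup.normalizer (congruenceSubgroup n : Set SL(2, ℝ)) ∧
      0 < (congruenceSubgroup n).relIndex Horocycle.unitGroup ∧
      (3 ≤ n → (-1 : SL(2, ℝ)) ∉ congruenceSubgroup n) ∧
      (∀ γ ∈ congruenceSubgroup n, ∀ z : ℍ, γ • z = z → γ = 1 ∨ γ = -1) ∧
      ∃ g : ℕ, 2 ≤ g ∧ area (congruenceSubgroup n) = 4 * π * ((g : ℝ) - 1) ∧
        (congruenceSubgroup n).relIndex Horocycle.unitGroup ≤ 2 * (84 * (g - 1))) ∧
    ∀ G : ℕ, ∃ n₀ : ℕ, ∀ (n : ℕ) [NeZero n], n₀ ≤ n → ∀ g : ℕ,
      area (congruenceSubgroup n) = 4 * π * ((g : ℝ) - 1) → G < g := by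
  refine ⟨fun n hn _ => ?_, fun G => ?_⟩
  · obtain ⟨g, hg2, hg, hH, -, -⟩ := hurwitz_theorem (congruenceSubgroup n) (congruence_free hn)
    refine ⟨congruenceSubgroup_le n, le_normalizer_congruence n,
      Nat.pos_of_ne_zero (relIndex_congruence_ne_zero n), neg_one_notMem_congruence,
      congruence_free hn, g, hg2, hg, ?_⟩
    exact ((Nat.le_mul_of_pos_left _ (trivCard_pos (congruenceSubgroup n))).trans
      (hH _ (congruenceSubgroup_le n) inferInstance)).trans
      (Nat.mul_le_mul_right _ trivCard_le_two)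
  · obtain ⟨n₀, h⟩ := genus_unbounded G
    refine ⟨n₀, fun n _ hn g hg => ?_⟩
    have h1 := h n hn
    rw [hg] at h1
    have h2 : (G : ℝ) < g := by nlinarith [Real.pi_pos]
    exact_mod_cast h2

end FA.CocompactHurwitz.Summary

end
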