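import Fermat.Agent.CocompactTrace.Quaternion

/-!
# The exact trace formula for the dimension

`Γ` is a discrete subgroup of `SL(2, ℝ)` with compact quotient; `forms`, `area`, `ramIndex`,
`qFun` and `IsPartition` are as in `SummaryCocompactGaussBonnet` and `SummaryCocompactDegree`.

* `elliptic_or_hyperbolic`: an element is `±1`, or has a fixed point and `|trace| < 2`, or has
  `|trace| > 2`;
* `hyperbolic_centralizer`: an element without fixed points commutes only with `± εⁿ`;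
* `elliptic_integral`: the exact integral of the term of a rotation in every even weight, which in
  weight `≥ 4` is the order of the stabiliser times the sum over the conjugates;
* `hyperbolic_integral`: in weight `≥ 4` the sum over the conjugates of an element without fixed
  points is zero;
* `dimension_exact`: dimension `(2 m - 1) (g - 1) + ∑ ⌊m (1 - 1/e)⌋` for every `m ≥ 2`;
* `quaternion_dimensions`: the same for the units of discriminant `6` and their normaliser;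
* `eichler_dimensions`: the same for level `p`, and `(p + (-4/p) + 2) / 2` in weight `4`.

Weight two, odd weights and the traces of Hecke operators are not claimed.
-/

set_option autoImplicit false
set_option linter.unusedSectionVars false
set_option linter.style.haveILetI false

noncomputable section

open MeasureTheory Set Filter Topology Complex
open UpperHalfPlane hiding I
open scoped MatrixGroups Real
open FA.CocompactForms FA.CocompactDegree FA.CocompactGaussBonnet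

namespace FA.CocompactTrace.Summary

variable {Γ : Subgroup SL(2, ℝ)} [DiscreteTopology Γ] [CompactSpace (SL(2, ℝ) ⧸ Γ)]

/-- **No parabolic elements.** -/
theorem elliptic_or_hyperbolic {g : SL(2, ℝ)} (hg : g ∈ Γ) :
    (g = 1 ∨ g = -1) ∨ ((g 0 0 + g 1 1) ^ 2 < 4 ∧ ∃ p : ℍ, g • p = p) ∨
      4 < (g 0 0 + g 1 1) ^ 2 :=
  CocompactTrace.elliptic_or_hyperbolic hg

/-- **The centraliser of a hyperbolic element.** -/
theorem hyperbolic_centralizer {γ : Γ} (hγ : ∀ p : ℍ, γ • p ≠ p) :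
    ∃ ε ∈ Subgroup.centralizer ({γ} : Set Γ), (∀ n : ℤ, ε ^ n = 1 → n = 0) ∧
      ∀ ζ ∈ Subgroup.centralizer ({γ} : Set Γ), ∃ n : ℤ,
        (ζ : SL(2, ℝ)) = (ε : SL(2, ℝ)) ^ n ∨ (ζ : SL(2, ℝ)) = -(ε : SL(2, ℝ)) ^ n :=
  centralizer_cyclic hγ

/-- **The elliptic orbital integral.** -/
theorem elliptic_integral {p : ℍ} {γ : Γ} (hγp : γ • p = p) (hγ : γ ∉ triv Γ) (m : ℕ) :
    (∫ z : ℍ, qFun (γ : SL(2, ℝ)) z ^ (2 * (m + 1)) =
      4 * π / (2 * (m : ℂ) + 1) * (etaOf (γ : SL(2, ℝ)) p ^ (m + 1) /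
        (1 - etaOf (γ : SL(2, ℝ)) p))) ∧
    ∀ {ψ : ℂ → ℝ} {G : Finset Γ}, IsPartition Γ ψ G → 1 ≤ m →
      (Nat.card (MulAction.stabilizer Γ p) : ℂ) *
          ∑' δ : Γ ⧸ MulAction.stabilizer Γ p, ∫ z : ℍ,
            ψ z • qFun ((δ.out * γ * δ.out⁻¹ : Γ) : SL(2, ℝ)) z ^ (2 * (m + 1)) =
        4 * π / (2 * (m : ℂ) + 1) * (etaOf (γ : SL(2, ℝ)) p ^ (m + 1) /
          (1 - etaOf (γ : SL(2, ℝ)) p)) :=
  ⟨integral_qFun_rot hγp (etaOf_ne_one hγp hγ) m, fun h hm => tsum_conj_elliptic h hγp hγ hm⟩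

/-- **The hyperbolic orbital integral.** -/
theorem hyperbolic_integral {γ : Γ} (hγ : ∀ p : ℍ, γ • p ≠ p) {ψ : ℂ → ℝ} {G : Finset Γ}
    (h : IsPartition Γ ψ G) {m : ℕ} (hm : 1 ≤ m) :
    ∑' δ : Γ ⧸ Subgroup.centralizer ({γ} : Set Γ), ∫ z : ℍ,
      ψ z • qFun ((δ.out * γ * δ.out⁻¹ : Γ) : SL(2, ℝ)) z ^ (2 * (m + 1)) = 0 :=
  tsum_conj_hyperbolic h hγ hm

variable (Γ) in
/-- **The dimension in every weight at least four.** -/
theorem dimension_exact :
    ∃ g : ℕ, area Γ = 2 * π * (2 * (g : ℝ) - 2 + ellipticDefect Γ) ∧ ∀ m : ℕ, 2 ≤ m →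
      (Module.finrank ℂ (forms Γ ((2 * m : ℕ) : ℤ)) : ℤ) =
        (2 * (m : ℤ) - 1) * ((g : ℤ) - 1) + floorSum Γ m :=
  exists_genus_exact Γ

/-- **The units of discriminant `6` and their normaliser.** -/
theorem quaternion_dimensions (m : ℕ) (hm : 2 ≤ m) :
    (Module.finrank ℂ (forms QuaternionHecke.orderUnits ((2 * m : ℕ) : ℤ)) : ℤ) =
        1 - 2 * (m : ℤ) + 2 * ((m / 2 : ℕ) : ℤ) + 2 * ((2 * m / 3 : ℕ) : ℤ) ∧
      (Module.finrank ℂ (forms QuaternionNormalizer.unitsNormalizer ((2 * m : ℕ) : ℤ)) : ℤ) =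
        1 - 2 * (m : ℤ) + ((m / 2 : ℕ) : ℤ) + ((3 * m / 4 : ℕ) : ℤ) + ((5 * m / 6 : ℕ) : ℤ) :=
  ⟨finrank_orderUnits hm, finrank_normalizer hm⟩

/-- **Level `p`.** -/
theorem eichler_dimensions (p : ℕ) [Fact p.Prime] (hp5 : 5 ≤ p) :
    (∃ g : ℕ, 6 * (g : ℤ) = p - 3 * legendreSym p (-4) - 4 * legendreSym p (-3) ∧
      ∀ m : ℕ, 2 ≤ m →
        (Module.finrank ℂ (forms (QuaternionLevel.eichler p hp5) ((2 * m : ℕ) : ℤ)) : ℤ) =
          (2 * (m : ℤ) - 1) * ((g : ℤ) - 1) +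
            (1 + legendreSym p (-4)) * (2 * ((m / 2 : ℕ) : ℤ)) +
            (1 + legendreSym p (-3)) * (2 * ((2 * m / 3 : ℕ) : ℤ))) ∧
      2 * (Module.finrank ℂ (forms (QuaternionLevel.eichler p hp5) 4) : ℤ) =
        (p : ℤ) + legendreSym p (-4) + 2 :=
  ⟨finrank_eichler p hp5, finrank_eichler_four p hp5⟩

end FA.CocompactTrace.Summary

end
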