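import Fermat.Agent.CodeExtension.Basic

/-!
# The extension theorem of MacWilliams (1962)

* `macwilliams_extension`: over a finite field, a linear map from a code into the ambient space
  preserving Hamming weights is the restriction of a permutation of coordinates followed by nonzero
  scalars.
* `monomial_weight`: monomial maps preserve Hamming weights.
* `equivalent_codes_iff`: two codes are monomially equivalent iff a linear bijection between them
  preserves Hamming weights.
* `functionals_extension`: the form for two families of functionals.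
-/

set_option autoImplicit false

noncomputable section

namespace FA.CodeExtension.Summary

open Finset

variable {F ι : Type*} [Field F] [Fintype F] [DecidableEq F] [Fintype ι]

/-- A permutation of coordinates followed by nonzero scalars. -/
def monomialMap (σ : Equiv.Perm ι) (u : ι → Fˣ) : (ι → F) ≃ₗ[F] (ι → F) :=
  (LinearEquiv.funCongrLeft F F σ).trans (LinearEquiv.piCongrRight fun i =>
    LinearEquiv.smulOfUnit (u i))

omit [Fintype F] [DecidableEq F] [Fintype ι] in
theorem monomialMap_apply (σ : Equiv.Perm ι) (u : ι → Fˣ) (x : ι → F) (i : ι) :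
    monomialMap σ u x i = u i * x (σ i) := rfl

omit [Fintype F] in
theorem monomial_weight (σ : Equiv.Perm ι) (u : ι → Fˣ) (x : ι → F) :
    hammingNorm (monomialMap σ u x) = hammingNorm x := by
  refine card_equiv σ fun i => ?_
  simp [monomialMap_apply, mem_filter]

theorem functionals_extension {V : Type*} [AddCommGroup V] [Module F V] [Fintype V]
    {a b : ι → V →ₗ[F] F} (h : ∀ x, #{i | a i x = 0} = #{i | b i x = 0}) :
    ∃ (σ : Equiv.Perm ι) (u : ι → Fˣ), ∀ i, b i = u i • a (σ i) :=
  exists_perm_smul (by convert h)

theorem macwilliams_extension (C : Submodule F (ι → F)) (f : C →ₗ[F] ι → F)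
    (hf : ∀ x : C, hammingNorm (f x) = hammingNorm (x : ι → F)) :
    ∃ (σ : Equiv.Perm ι) (u : ι → Fˣ), ∀ x : C, f x = monomialMap σ u x := by
  classical
  obtain ⟨σ, u, h⟩ := functionals_extension (V := C)
    (a := fun i => (LinearMap.proj i).comp C.subtype) (b := fun i => (LinearMap.proj i).comp f)
    fun x => by
      have h1 := card_filter_add_card_filter_not (s := univ) (fun i => (x : ι → F) i = 0)
      have h2 := card_filter_add_card_filter_not (s := univ) (fun i => f x i = 0)
      have h3 := hf x
      simp only [hammingNorm, ne_eq] at h3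
      simp only [LinearMap.comp_apply, LinearMap.proj_apply, Submodule.coe_subtype]
      omega
  refine ⟨σ, u, fun x => funext fun i => ?_⟩
  have := LinearMap.congr_fun (h i) x
  simpa [monomialMap_apply, Units.smul_def] using this

theorem equivalent_codes_iff (C D : Submodule F (ι → F)) :
    (∃ e : C ≃ₗ[F] D, ∀ x : C, hammingNorm (e x : ι → F) = hammingNorm (x : ι → F)) ↔
      ∃ (σ : Equiv.Perm ι) (u : ι → Fˣ),
        C.map (monomialMap σ u : (ι → F) →ₗ[F] ι → F) = D := by
  constructor
  · rintro ⟨e, he⟩
    obtain ⟨σ, u, h⟩ := macwilliams_extension C (D.subtype.comp e.toLinearMap) he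
    refine ⟨σ, u, le_antisymm ?_ fun y hy => ?_⟩
    · rintro _ ⟨x, hx, rfl⟩
      have := h ⟨x, hx⟩
      simp only [LinearMap.comp_apply, Submodule.coe_subtype, LinearEquiv.coe_coe] at this ⊢
      rw [← this]
      exact (e ⟨x, hx⟩).2
    · refine ⟨(e.symm ⟨y, hy⟩ : C), (e.symm ⟨y, hy⟩).2, ?_⟩
      have := h (e.symm ⟨y, hy⟩)
      simpa using this.symm
  · rintro ⟨σ, u, rfl⟩
    exact ⟨(monomialMap σ u).submoduleMap C, fun x => monomial_weight σ u x⟩

end FA.CodeExtension.Summary
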