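import Fermat.Agent.CoefficientSize.Consequences
import Fermat.Agent.Tau.Mordell

/-!
# Summary: the size and the signs of the coefficients of cusp forms

For a nonzero `f ∈ S_k(Γ₀(N))`: `∑_{n ≤ M} |a_n|² ≍ M^k`; hence the series `∑ |a_n|² n^(-s)`
diverges for `s ≤ k`, `|a_n| ≫ n^((k-1)/2)` infinitely often, and, for `k ≥ 3` and real
coefficients, at least `c √M / (log M)^12` of the `a_n`, `n ≤ M`, have each sign. The asymptotic
constant of the mean square and omega results with growing factors are not treated.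
-/

set_option autoImplicit false

noncomputable section

namespace FA.Summary

open UpperHalfPlane hiding I
open Complex CongruenceSubgroup Filter
open scoped MatrixGroups Real

variable {N k : ℕ} [NeZero N]

/-- **Rankin**: the order of magnitude of the mean square is `M^k`. -/
theorem rankin_order {f : CuspForm (Gamma0 N) (k : ℤ)} (hf : f ≠ 0) :
    ∃ c C : ℝ, 0 < c ∧ ∀ᶠ M : ℕ in atTop,
      c * (M : ℝ) ^ k ≤ ∑ n ∈ Finset.Icc 1 M, ‖(qExpansion 1 f).coeff n‖ ^ 2 ∧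
      ∑ n ∈ Finset.Icc 1 M, ‖(qExpansion 1 f).coeff n‖ ^ 2 ≤ C * (M : ℝ) ^ k := by
  obtain ⟨c, hc, hlow⟩ := CoefficientSize.mean_square_lower hf
  obtain ⟨C, -, hC⟩ := VoronoiSummation.mean_square f
  exact ⟨c, C, hc, hlow.mono fun M hM => ⟨hM, by simpa using hC M⟩⟩

/-- The Rankin–Selberg series diverges for `s ≤ k`. -/
theorem rankinSelberg_diverges {f : CuspForm (Gamma0 N) (k : ℤ)} (hf : f ≠ 0) {s : ℝ}
    (hs : s ≤ k) :
    ¬ Summable fun n : ℕ => ‖(qExpansion 1 f).coeff n‖ ^ 2 * (n : ℝ) ^ (-s) :=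
  CoefficientSize.not_summable_rpow hf hs

/-- **Omega result**: `a_n` is not `o(n^((k-1)/2))`. -/
theorem coeff_omega {f : CuspForm (Gamma0 N) (k : ℤ)} (hf : f ≠ 0) :
    ∃ c : ℝ, 0 < c ∧
      {n : ℕ | c * (n : ℝ) ^ (((k : ℝ) - 1) / 2) ≤ ‖(qExpansion 1 f).coeff n‖}.Infinite :=
  (CoefficientSize.frequently_coeff_ge hf).imp fun _ h =>
    ⟨h.1, Nat.frequently_atTop_iff_infinite.1 h.2⟩

/-- `∑_{n ≤ M} |a_n| ≫ M^(k/2 + 1/4) / (log M)^6`. -/
theorem coeff_abs_sum_lower (hk : 3 ≤ k) {f : CuspForm (Gamma0 N) (k : ℤ)} (hf : f ≠ 0) :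
    ∃ c : ℝ, 0 < c ∧ ∀ᶠ M : ℕ in atTop,
      c * ((M : ℝ) ^ ((k : ℝ) / 2 + 1 / 4) / Real.log M ^ 6) ≤
        ∑ n ∈ Finset.Icc 1 M, ‖(qExpansion 1 f).coeff n‖ := by
  obtain ⟨-, c, -, hc, h, -⟩ := CoefficientSize.mean_abs_lower hk hf
  exact ⟨c, hc, h⟩

/-- **Sign changes**, with a count. -/
theorem coeff_sign_count (hk : 3 ≤ k) {f : CuspForm (Gamma0 N) (k : ℤ)} (hf : f ≠ 0)
    {r : ℕ → ℝ} (hr : ∀ n, (qExpansion 1 f).coeff n = (r n : ℂ)) :
    ∃ c : ℝ, 0 < c ∧ ∀ᶠ M : ℕ in atTop,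
      c * ((M : ℝ) ^ (1 / 2 : ℝ) / Real.log M ^ 12) ≤
          (((Finset.Icc 1 M).filter fun n => 0 < r n).card : ℝ) ∧
        c * ((M : ℝ) ^ (1 / 2 : ℝ) / Real.log M ^ 12) ≤
          (((Finset.Icc 1 M).filter fun n => r n < 0).card : ℝ) :=
  CoefficientSize.sign_count_lower hk hf hr

/-- Infinitely many coefficients of each sign. -/
theorem coeff_both_signs (hk : 3 ≤ k) {f : CuspForm (Gamma0 N) (k : ℤ)} (hf : f ≠ 0)
    {r : ℕ → ℝ} (hr : ∀ n, (qExpansion 1 f).coeff n = (r n : ℂ)) :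
    {n | 0 < r n}.Infinite ∧ {n | r n < 0}.Infinite := by
  obtain ⟨c, hc, h⟩ := CoefficientSize.sign_count_lower hk hf hr
  exact ⟨CoefficientSize.infinite_of_count (s := {n | 0 < r n}) hc (h.mono fun _ e => e.1),
    CoefficientSize.infinite_of_count (s := {n | r n < 0}) hc (h.mono fun _ e => e.2)⟩

/-- Ramanujan's `τ`: `|τ(n)| ≫ n^(11/2)` infinitely often, and both signs occur infinitely often. -/
theorem ramanujanTau_omega_signs :
    (∃ c : ℝ, 0 < c ∧ {n : ℕ | c * (n : ℝ) ^ (11 / 2 : ℝ) ≤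
      |((PowerSeries.coeff n FA.Tau.deltaInt : ℤ) : ℝ)|}.Infinite) ∧
    {n : ℕ | 0 < PowerSeries.coeff n FA.Tau.deltaInt}.Infinite ∧
    {n : ℕ | PowerSeries.coeff n FA.Tau.deltaInt < 0}.Infinite := by
  set τ : ℕ → ℝ := fun n => ((PowerSeries.coeff n FA.Tau.deltaInt : ℤ) : ℝ)
  set f : CuspForm (Gamma0 1) ((12 : ℕ) : ℤ) := FA.Tau.deltaForm
  have hτ : ∀ n, (qExpansion 1 f).coeff n = (τ n : ℂ) := fun n => by
    simp only [τ, ofReal_intCast]
    exact FA.Tau.qCoeff_deltaForm n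
  have hf : f ≠ 0 := fun h => by
    have h1 := hτ 1
    simp [τ, h, FA.Tau.coeff_deltaInt_one, qExpansion_zero] at h1
  obtain ⟨c, hc, hinf⟩ := coeff_omega hf
  obtain ⟨hp, hn⟩ := coeff_both_signs (by norm_num) hf hτ
  refine ⟨⟨c, hc, hinf.mono fun n hn => ?_⟩, ?_, ?_⟩
  · simp only [Set.mem_ofPred_eq, hτ, norm_real, Real.norm_eq_abs] at hn ⊢
    norm_num at hn ⊢
    exact hn
  · simpa [τ] using hp
  · simpa [τ] using hn

end FA.Summary

end
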