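import Fermat.Agent.CoefficientsAlmostAll.Conjugation
import Fermat.Agent.Root.LFunctionCoeffs

/-!
# The coefficients of an elliptic curve are almost always divisible by a given integer

Serre's theorem: for every elliptic curve over `ℚ` and every `m ≥ 1`, outside a set of natural
density zero `m` divides the `n`-th coefficient of the L-function.
-/

set_option autoImplicit false
set_option linter.style.haveILetI false

noncomputable section

open Filter Topology WeierstrassCurve

namespace FA.Summary

/-- **Serre's theorem**: for an elliptic curve over `ℚ` and `m ≥ 1`, the `n` with `m ∤ a_n` have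
natural density zero. -/
theorem coefficients_dvd_almostAll (E : WeierstrassCurve ℚ) [E.IsElliptic] {m : ℕ} (hm : 0 < m) :
    Tendsto (fun X : ℕ => (Nat.card {n : ℕ // n < X ∧ ¬ (m : ℤ) ∣ E.LFunction n} : ℝ) / X)
      atTop (𝓝 0) := by
  haveI : NeZero m := ⟨hm.ne'⟩
  obtain ⟨W, hW⟩ := FA.Frob.exists_integralModel E
  have hΔ := FA.Frob.Δ_ne_zero_of_model hW
  haveI := FA.Frob.ratCurve_isElliptic_of_Δ hΔ
  refine FA.Tau.tendsto_zero_of_avoid (fun p hp => hp.1)
    (FA.CoeffAlmostAll.not_summable_trace_dvd (W := W) hΔ m) fun p hp n hd hd2 =>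
      not_not.mpr ?_
  obtain ⟨hpp, hgood, ha⟩ := hp
  obtain ⟨k, rfl⟩ := hd
  have hcop : p.Coprime k := (Nat.Prime.coprime_iff_not_dvd hpp).mpr fun h' =>
    hd2 (by rw [pow_two]; exact mul_dvd_mul_left p h')
  rw [(FA.Root.isMultiplicative_LFunction E).map_mul_of_coprime hcop,
    FA.Root.LFunction_apply_prime E W hW hpp hgood]
  exact ha.mul_right _

end FA.Summary

end
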