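import Fermat.Agent.CohenLenstra.Measure

/-!
# The Cohen–Lenstra measure on finite abelian `p`-groups

`Classes p` indexes the isomorphism classes of finite abelian `p`-groups, `Rep` gives a group in
each, `eta p = ∏_{i ≥ 1} (1 - p ^ (-i))` and `mu p x = eta p / |Aut (Rep x)|`.

* `sublattice_gaussian`: the subgroups of index `p ^ k` of `ℤ ^ n` are counted by the Gaussian
  binomial coefficient;
* `cohen_lenstra_classes`: every finite abelian `p`-group is in exactly one class;
* `hall_mass_formula`: `∑ 1 / |Aut G|` over the groups of order `p ^ k` and over all of them;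
* `cokernel_limit`: the number of subgroups of `ℤ ^ n` with quotient `G`, divided by `|G| ^ n`,
  tends to `1 / |Aut G|`;
* `cohen_lenstra_moments`: the expected number of surjections to `H` is `1`, of homomorphisms the
  number of subgroups of `H`;
* `cohen_lenstra_examples`: the probability of the trivial group is `eta p`, the average `p`-torsion
  is `2`, the probability of a cyclic group is `eta p (p ^ 2 - p + 1) / (p - 1) ^ 2`.

The heuristic for class groups is not claimed.
-/

set_option autoImplicit false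
set_option linter.style.haveILetI false

noncomputable section

open Finset Filter Topology
open FA.CohenLenstra
open FA.SLnVolume (idxCount)

namespace FA.Summary

variable (p : ℕ) [hp : Fact p.Prime]

/-- **Counting subgroups of index `p ^ k`.** -/
theorem sublattice_gaussian (n k : ℕ) :
    (Nat.card {L : AddSubgroup (Fin n → ℤ) // L.index = p ^ k} : ℝ) *
        ∏ i ∈ range k, ((p : ℝ) ^ (i + 1) - 1) =
      ∏ i ∈ range k, ((p : ℝ) ^ (n + i) - 1) :=
  idxCount_mul_prod hp.out n k

/-- **The classes.** -/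
theorem cohen_lenstra_classes :
    (∀ x : Classes p, Nat.card (Rep x.2) = p ^ x.1) ∧
    ∀ (A : Type*) [AddCommGroup A] (k : ℕ), Nat.card A = p ^ k →
      ∃! x : Classes p, Nonempty (Rep x.2 ≃+ A) :=
  ⟨fun x => card_rep x.2, fun A _ _ hA => existsUnique_classes p A hA⟩

/-- **Hall's mass formula.** -/
theorem hall_mass_formula :
    (∀ k, HasSum (fun c : Cls p k => (1 : ℝ) / Nat.card (AddAut (Rep c)))
      (((p : ℝ)⁻¹) ^ k / ∏ i ∈ range k, (1 - (p : ℝ)⁻¹ ^ (i + 1)))) ∧
    HasSum (fun x : Classes p => (1 : ℝ) / Nat.card (AddAut (Rep x.2))) (eta p)⁻¹ ∧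
    eta p = ∏' i : ℕ, (1 - (p : ℝ)⁻¹ ^ (i + 1)) ∧ 0 < eta p ∧
    HasSum (mu p) 1 := by
  haveI := fun k => Fintype.ofFinite (Cls p k)
  have heta := (tendsto_prod_eta hp.out).2
  refine ⟨fun k => ?_, ?_, rfl, heta, hasSum_mu p⟩
  · have h := hasSum_fintype fun c : Cls p k => (1 : ℝ) / Nat.card (AddAut (Rep c))
    rw [sum_inv_addAut] at h
    exact h
  · have h := (hasSum_mu p).mul_left (eta p)⁻¹
    rw [mul_one] at h
    refine h.congr_fun fun x => ?_
    rw [mu, mul_div_assoc', inv_mul_cancel₀ heta.ne']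

/-- **Cokernels.** -/
theorem cokernel_limit (A : Type*) [AddCommGroup A] [Finite A] :
    Tendsto (fun n => (Nat.card {L : AddSubgroup (Fin n → ℤ) //
        Nonempty ((Fin n → ℤ) ⧸ L ≃+ A)} : ℝ) / (Nat.card A : ℝ) ^ n) atTop
      (𝓝 (1 / Nat.card (AddAut A))) :=
  tendsto_withQuotient A

/-- **Moments.** -/
theorem cohen_lenstra_moments (H : Type*) [AddCommGroup H] {h : ℕ} (hH : Nat.card H = p ^ h) :
    HasSum (fun x : Classes p =>
      (Nat.card {f : Rep x.2 →+ H // Function.Surjective f} : ℝ) * mu p x) 1 ∧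
    HasSum (fun x : Classes p => (Nat.card (Rep x.2 →+ H) : ℝ) * mu p x)
      (Nat.card (AddSubgroup H)) := by
  haveI := fun k => Fintype.ofFinite (Cls p k)
  exact ⟨hasSum_sur p H hH, hasSum_hom p H hH⟩

/-- **Examples.** -/
theorem cohen_lenstra_examples :
    (∀ x : Classes p, Nat.card (Rep x.2) = 1 → mu p x = eta p) ∧
    HasSum (fun x : Classes p => (Nat.card {a : Rep x.2 // p • a = 0} : ℝ) * mu p x) 2 ∧
    HasSum (fun x : Classes p => {x : Classes p | IsAddCyclic (Rep x.2)}.indicator (mu p) x)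
      (eta p * (((p : ℝ) ^ 2 - p + 1) / ((p : ℝ) - 1) ^ 2)) := by
  haveI := fun k => Fintype.ofFinite (Cls p k)
  exact ⟨mu_trivial p, hasSum_torsion p, hasSum_cyclic p⟩

end FA.Summary

end
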