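import Fermat.Agent.CohenStructure.Mixed

/-!
# The structure theorem of Cohen for complete noetherian local rings

Equal characteristic is expressed as `CharP A p` and `CharP (ResidueField A) p` for one `p`
(which may be `0`). In mixed characteristic the residue field is assumed to be perfect, so that
the coefficient ring is the ring of Witt vectors.
-/

set_option autoImplicit false

universe u

open IsLocalRing

namespace FA.CohenStructure.Summary

/-- Every field extension of a perfect field is formally smooth, finitely generated or not. -/
theorem formally_smooth_over_perfect_field (K k : Type*) [Field K] [Field k] [Algebra K k]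
    [PerfectField K] : Algebra.FormallySmooth K k :=
  Fermat.Agent.CohenStructure.formallySmooth_of_perfectField K k

variable (A : Type u) [CommRing A]

/-- A complete local ring of equal characteristic has a coefficient field. -/
theorem coefficient_field [IsLocalRing A] [IsAdicComplete (maximalIdeal A) A] (p : ℕ) [CharP A p]
    [CharP (ResidueField A) p] :
    ∃ ι : ResidueField A →+* A, ∀ x, residue A (ι x) = x :=
  Fermat.Agent.CohenStructure.exists_coefficientRingHom A p

/-- **Cohen's structure theorem**: a complete noetherian local ring of equal characteristic is a
quotient of a power series ring over its residue field, in as many variables as its embedding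
dimension. -/
theorem cohen_structure [IsLocalRing A] [IsNoetherianRing A]
    [IsAdicComplete (maximalIdeal A) A] (p : ℕ) [CharP A p] [CharP (ResidueField A) p] :
    ∃ φ : MvPowerSeries (Fin (maximalIdeal A).spanFinrank) (ResidueField A) →+* A,
      Function.Surjective φ ∧ ∀ c, residue A (φ (MvPowerSeries.C c)) = c :=
  let ⟨φ, h1, h2, _⟩ := Fermat.Agent.CohenStructure.exists_powerSeries_surjection A p
  ⟨φ, h1, h2⟩

/-- **Cohen**: a complete regular local ring of equal characteristic is the ring of power series
over its residue field in `dim A` variables. -/
theorem cohen_regular_power_series [IsRegularLocalRing A] [IsAdicComplete (maximalIdeal A) A]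
    (p : ℕ) [CharP A p] [CharP (ResidueField A) p] :
    ∃ d : ℕ, ringKrullDim A = d ∧
      Nonempty (A ≃+* MvPowerSeries (Fin d) (ResidueField A)) :=
  Fermat.Agent.CohenStructure.nonempty_ringEquiv_powerSeries A p

variable (p : ℕ) [Fact p.Prime]

/-- **Cohen's structure theorem**, mixed characteristic: a complete noetherian local ring with
perfect residue field of characteristic `p` is a quotient of a power series ring over the Witt
vectors of the residue field. -/
theorem cohen_structure_mixed [IsLocalRing A] [IsNoetherianRing A]
    [IsAdicComplete (maximalIdeal A) A] [CharP (ResidueField A) p]
    [PerfectRing (ResidueField A) p] :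
    ∃ φ : MvPowerSeries (Fin (maximalIdeal A).spanFinrank) (WittVector p (ResidueField A)) →+* A,
      Function.Surjective φ :=
  Fermat.Agent.CohenStructure.exists_wittPowerSeries_surjection p A

/-- **Cohen**: an unramified complete regular local ring with perfect residue field of
characteristic `p` is the ring of power series over the Witt vectors in `dim A - 1` variables. -/
theorem cohen_regular_unramified [IsRegularLocalRing A] [IsAdicComplete (maximalIdeal A) A]
    [CharP (ResidueField A) p] [PerfectRing (ResidueField A) p]
    (hp : (p : A) ∉ maximalIdeal A ^ 2) :
    ∃ d : ℕ, ringKrullDim A = (d + 1 : ℕ) ∧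
      Nonempty (A ≃+* MvPowerSeries (Fin d) (WittVector p (ResidueField A))) :=
  Fermat.Agent.CohenStructure.nonempty_ringEquiv_wittPowerSeries p A hp

end FA.CohenStructure.Summary
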