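import Fermat.Agent.CohnCriterion.Cohn
import Mathlib.Data.List.GetD
import Mathlib.Data.Nat.Digits.Lemmas

/-!
# Cohn's irreducibility criterion

* `cohn_irreducibility` (Cohn; Brillhart, Filaseta and Odlyzko): if `∑ a i b ^ i` is prime and the
  `a i` are digits in base `b ≥ 2`, then `∑ a i X ^ i` is irreducible over `ℤ`;
* `cohn_irreducibility_digits`: the same for `Nat.digits`;
* `murty_irreducibility` (Murty): `f` is irreducible if `|f n|` is prime for some
  `n ≥ H + 2`, where `|coeff i| ≤ H |leading coefficient|`.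
-/

set_option autoImplicit false

noncomputable section

open Finset Polynomial

namespace FA.Summary

/-- **Cohn's criterion.** -/
theorem cohn_irreducibility {b n : ℕ} (hb : 2 ≤ b) (a : ℕ → ℕ) (ha : ∀ i ≤ n, a i < b)
    (hp : (∑ i ∈ range (n + 1), a i * b ^ i).Prime) :
    Irreducible (∑ i ∈ range (n + 1), C (a i : ℤ) * X ^ i) :=
  FA.CohnCriterion.cohn hb a ha hp

/-- **Cohn's criterion** for the digits of a prime. -/
theorem cohn_irreducibility_digits {b p : ℕ} (hb : 2 ≤ b) (hp : p.Prime) :
    Irreducible (∑ i ∈ range (Nat.digits b p).length,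
      C (((Nat.digits b p).getD i 0 : ℕ) : ℤ) * X ^ i) := by
  obtain ⟨n, hn⟩ : ∃ n, (Nat.digits b p).length = n + 1 :=
    ⟨(Nat.digits b p).length - 1, (Nat.sub_add_cancel (List.length_pos_iff.2
      (Nat.digits_ne_nil_iff_ne_zero.2 hp.ne_zero))).symm⟩
  rw [hn]
  refine FA.CohnCriterion.cohn hb _ (fun i hi => ?_) ?_
  · rw [List.getD_eq_getElem _ _ (by omega)]
    exact Nat.digits_lt_base hb (List.getElem_mem _)
  · suffices ∀ L : List ℕ, ∑ i ∈ range L.length, L.getD i 0 * b ^ i = Nat.ofDigits b L by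
      rw [← hn, this, Nat.ofDigits_digits]
      exact hp
    intro L
    induction L with
    | nil => simp
    | cons x L ih =>
      rw [List.length_cons, sum_range_succ', Nat.ofDigits_cons, ← ih, mul_sum, add_comm]
      simp only [List.getD_cons_succ, List.getD_cons_zero, pow_zero, mul_one]
      exact congrArg₂ _ rfl (sum_congr rfl fun i _ => by ring)

/-- **Murty's criterion.** -/
theorem murty_irreducibility {f : ℤ[X]} {H n : ℕ} (hd : 1 ≤ f.natDegree)
    (hH : ∀ i < f.natDegree, |f.coeff i| ≤ H * |f.leadingCoeff|) (hn : H + 2 ≤ n)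
    (hp : (f.eval (n : ℤ)).natAbs.Prime) : Irreducible f :=
  FA.CohnCriterion.murty hd hH hn hp

end FA.Summary

end
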