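import Fermat.Agent.Coinvariant.Regular

/-!
# The coinvariant algebra of a reflection group

`k` is a field of characteristic zero and `G` a finite group of `n × n` matrices over `k` generated
by pseudo-reflections, a matrix substituting `∑ i, g i j Xᵢ` for `Xⱼ`; `I` is the ideal generated by
the invariant forms of positive degree.

* `free_over_invariants`: `|G|` homogeneous polynomials form a free base of `k[X]` over the
  invariants;
* `coinvariant_dimension`: `k[X] / I` has dimension `|G|`;
* `coinvariant_regular`: `k[X] / I` is the regular representation of `G`.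
-/

set_option autoImplicit false

noncomputable section

open MvPolynomial

namespace FA.Coinvariant.Summary

open Fermat.Agent.ReflectionGroups

variable {n : ℕ} {k : Type*} [Field k] [CharZero k] (G : Subgroup (GL (Fin n) k)) [Finite G]

/-- **Freeness over the invariants.** -/
theorem free_over_invariants
    (hG : G = Subgroup.closure {g | g ∈ G ∧ ((g : Matrix (Fin n) (Fin n) k) - 1).rank ≤ 1}) :
    ∃ b : Fin (Nat.card G) → MvPolynomial (Fin n) k, (∀ i, ∃ e, (b i).IsHomogeneous e) ∧
      ∀ p : MvPolynomial (Fin n) k, ∃! r : Fin (Nat.card G) → MvPolynomial (Fin n) k,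
        (∀ i, ∀ g ∈ G,
          aeval (fun j => ∑ l, C ((g : Matrix (Fin n) (Fin n) k) l j) * X l) (r i) = r i) ∧
          p = ∑ i, r i * b i := by
  obtain ⟨s, B, b, e, hb⟩ := exists_homogeneous_basis G
  have := finite_index G hG B hb
  let _ := Fintype.ofFinite s
  set E : s ≃ Fin (Nat.card G) := (Fintype.equivFin s).trans
    (finCongr (card_basis G (liftBasis G hG B hb)))
  set L := (liftBasis G hG B hb).reindex E
  have hL : ∀ i, L i = b (E.symm i) := fun i => by
    rw [Module.Basis.reindex_apply, liftBasis_apply]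
  refine ⟨fun i => b (E.symm i), fun i => ⟨_, (hb _).1⟩, fun p =>
    ⟨fun i => L.repr p i, ⟨fun i => (L.repr p i).2, ?_⟩, fun r ⟨hr, he⟩ => funext fun i => ?_⟩⟩
  · conv_lhs => rw [← L.sum_repr p]
    exact Finset.sum_congr rfl fun i _ => by rw [hL]; rfl
  · have h : p = ∑ l, (⟨r l, hr l⟩ : invariants G) • L l := by
      rw [he]
      exact Finset.sum_congr rfl fun l _ => by rw [hL]; rfl
    rw [h, L.repr_sum_self]

/-- **The dimension of the coinvariant algebra.** -/
theorem coinvariant_dimension
    (hG : G = Subgroup.closure {g | g ∈ G ∧ ((g : Matrix (Fin n) (Fin n) k) - 1).rank ≤ 1}) :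
    FiniteDimensional k (MvPolynomial (Fin n) k ⧸ Ideal.span
      {f : MvPolynomial (Fin n) k | f ∈ invariants G ∧ ∃ d, 0 < d ∧ f.IsHomogeneous d}) ∧
    Module.finrank k (MvPolynomial (Fin n) k ⧸ Ideal.span
      {f : MvPolynomial (Fin n) k | f ∈ invariants G ∧ ∃ d, 0 < d ∧ f.IsHomogeneous d}) =
        Nat.card G :=
  finrank_coinv G hG

/-- **The coinvariant algebra affords the regular representation.** -/
theorem coinvariant_regular
    (hG : G = Subgroup.closure {g | g ∈ G ∧ ((g : Matrix (Fin n) (Fin n) k) - 1).rank ≤ 1}) :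
    ∃ Θ : (MvPolynomial (Fin n) k ⧸ Ideal.span
        {f : MvPolynomial (Fin n) k | f ∈ invariants G ∧ ∃ d, 0 < d ∧ f.IsHomogeneous d}) ≃ₗ[k]
        (G → k),
      ∀ (g : G) (p : MvPolynomial (Fin n) k) (h : G),
        Θ (Ideal.Quotient.mk _ (aeval (fun j =>
          ∑ i, C (((g : GL (Fin n) k) : Matrix (Fin n) (Fin n) k) i j) * X i) p)) h =
            Θ (Ideal.Quotient.mk _ p) (h * g) := by
  obtain ⟨Θ, hΘ⟩ := exists_regular_equiv G hG
  exact ⟨Θ, fun g p h => congrFun (hΘ g (toCoinv G p)) h⟩

end FA.Coinvariant.Summary
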