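import Fermat.Agent.LubinTate.Coleman.UnitsSequence

/-!
# The exact sequence of Coleman for the local units of the cyclotomic tower

`lam k` is a tower of torsion points of `p X + X ^ p`, so `lev ℚ_[p] lam k = ℚ_[p] (μ_{p^(k+1)})`
and `ζ k = cycloZeta hlam k` are compatible roots of unity. `normUnits` consists of the norm
compatible systems of units of these fields, `D = (1 + X) d/dX`, `φ` substitutes `(1 + X) ^ p - 1`.

* `coleman_norm_and_psi`: on series the norm over the image of `φ` and the operator `ψ` satisfy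
  `ψ (D log g) = D log (N g)`, and `D log` maps the units fixed by `N` onto the series fixed by `ψ`
  with kernel the constants of order dividing `p - 1`;
* `coleman_series_of_units`: a system is the system of values of exactly one series, fixed by `N`;
* `coleman_map_characterisation`: the map `L` sends it to the measure whose Amice transform is
  `D log g - φ (D log g)`;
* `coleman_exact_sequence`: the sequence
  `1 → μ_{p-1} × ℤ_p → normUnits → measures on ℤ_pˣ → ℤ_p → 0` is exact, the first map being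
  `(ω, a) ↦ ω ((-1) ^ (p - 1) ζ k) ^ a` and the last one `μ ↦ μ 1`;
* `coleman_map_cyclotomic`: the units `(ζ k ^ a - 1) / (ζ k - 1)` go to the measure of the `p`-adic
  zeta function of `FA.Coleman.Summary.coleman_zeta_moments`.
-/

set_option autoImplicit false

noncomputable section

open Fermat.Agent.LubinTate IntermediateField

namespace FA.ColemanMap.Summary

variable (p : ℕ) [hp : Fact p.Prime]

/-- **The norm operator and `ψ`.** -/
theorem coleman_norm_and_psi :
    (∀ g : PowerSeries ℤ_[p], IsUnit g →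
      colemanPsi p (logDeriv' p g) = logDeriv' p (normSeries p g)) ∧
    (∀ h : PowerSeries ℤ_[p], colemanPsi p h = h →
      ∃ g ∈ normFixed p, logDeriv' p g = h) ∧
    ∀ g ∈ normFixed p, logDeriv' p g = 0 ↔
      ∃ c : ℤ_[p], c ^ (p - 1) = 1 ∧
        ((g : (PowerSeries ℤ_[p])ˣ) : PowerSeries ℤ_[p]) = PowerSeries.C c :=
  ⟨fun _ hg => colemanPsi_logDeriv p hg, fun _ hh => exists_logDeriv_eq p hh,
    fun _ hg => logDeriv_eq_zero_iff p hg⟩

variable {p} {Ω : Type*} [Field Ω] [Algebra ℚ_[p] Ω] [Algebra ℤ_[p] Ω]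
  [IsScalarTower ℤ_[p] ℚ_[p] Ω] {lam : ℕ → Ω} (hlam : IsTorsionTower (p : ℤ_[p]) lam)

/-- **The series of a system of units.** -/
theorem coleman_series_of_units (u : normUnits ℚ_[p] hlam) :
    ∃ g ∈ normFixed p, ∀ h : PowerSeries ℤ_[p],
      (∀ k, torsionValue hlam k (cycloSubst p h) =
        ((((u : ∀ k, (lev ℚ_[p] lam k)ˣ) k : (lev ℚ_[p] lam k)ˣ) : lev ℚ_[p] lam k) : Ω)) ↔
      h = ((g : (PowerSeries ℤ_[p])ˣ) : PowerSeries ℤ_[p]) := by
  refine ⟨_, ((fixedUnitsEquiv hlam).symm u).2,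
    fun h => ⟨fun hh => cycloSubst_eq_of_values hlam fun k => ?_, ?_⟩⟩
  · exact (hh k).trans (torsionValue_unitsSeries hlam u k).symm
  · rintro rfl k
    exact torsionValue_unitsSeries hlam u k

/-- **The map of Coleman.** -/
theorem coleman_map_characterisation (u : normUnits ℚ_[p] hlam) {g : PowerSeries ℤ_[p]}
    (hg : ∀ k, torsionValue hlam k (cycloSubst p g) =
      ((((u : ∀ k, (lev ℚ_[p] lam k)ˣ) k : (lev ℚ_[p] lam k)ˣ) : lev ℚ_[p] lam k) : Ω)) :
    Multiplicative.toAdd (colemanMapHom hlam u) =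
      amiceIntegral (logDeriv' p g - frobSubst p (logDeriv' p g)) := by
  rw [cycloSubst_eq_of_values hlam fun k =>
    (hg k).trans (torsionValue_unitsSeries hlam u k).symm]
  rfl

/-- **The exact sequence of Coleman.** -/
theorem coleman_exact_sequence :
    ∃ (i : rootsOfUnity (p - 1) ℤ_[p] × Multiplicative ℤ_[p] →* normUnits ℚ_[p] hlam),
      Function.Injective i ∧
      (∀ x (k : ℕ),
        ((((i x : ∀ k, (lev ℚ_[p] lam k)ˣ) k : (lev ℚ_[p] lam k)ˣ) : lev ℚ_[p] lam k) : Ω) =
          algebraMap ℤ_[p] Ω ((x.1 : ℤ_[p]ˣ) : ℤ_[p]) *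
            ((-1) ^ (p - 1) * cycloZeta hlam k) ^
              (PadicInt.toZModPow (p := p) (k + 1) x.2.toAdd).val) ∧
      (colemanMapHom hlam).ker = i.range ∧
      (∀ μ : C(ℤ_[p], ℤ_[p]) →L[ℤ_[p]] ℤ_[p],
        Multiplicative.ofAdd μ ∈ (colemanMapHom hlam).range ↔
          (∀ f, μ (f * unitsIndicator) = μ f) ∧ μ 1 = 0) ∧
      ∀ c : ℤ_[p], ∃ μ : C(ℤ_[p], ℤ_[p]) →L[ℤ_[p]] ℤ_[p],
        (∀ f, μ (f * unitsIndicator) = μ f) ∧ μ 1 = c :=
  ⟨colemanKernelHom hlam, colemanKernelHom_injective hlam, coe_colemanKernelHom hlam,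
    ker_colemanMapHom hlam, mem_range_colemanMapHom_iff hlam, exists_unitsSupported_eq⟩

/-- **The cyclotomic units.** -/
theorem coleman_map_cyclotomic {a : ℕ} (ha : ¬ p ∣ a) :
    ∃ u : normUnits ℚ_[p] hlam,
      (∀ k, ((((u : ∀ k, (lev ℚ_[p] lam k)ˣ) k : (lev ℚ_[p] lam k)ˣ) : lev ℚ_[p] lam k) : Ω) =
        (cycloZeta hlam k ^ a - 1) / (cycloZeta hlam k - 1)) ∧
      Multiplicative.toAdd (colemanMapHom hlam u) = amiceIntegral (cycloMeasure p a) := by
  have hu : IsUnit (cycloSeries ℤ_[p] a) := isUnit_cycloSeries ha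
  have hmem : hu.unit ∈ normFixed p := by
    rw [mem_normFixed, IsUnit.unit_spec, normSeries_eq_self_iff]
    exact colemanNorm_cycloSeries hlam ha
  refine ⟨fixedUnitsEquiv hlam ⟨hu.unit, hmem⟩, fun k => ?_, ?_⟩
  · rw [coe_fixedUnitsEquiv, cycloZeta_pow_sub_one, map_mul, cycloZeta, add_sub_cancel_left,
      mul_div_cancel_left₀ _ (torsionValue_cycloCoord_ne_zero hlam k)]
    rfl
  · rw [colemanMapHom_apply, unitsSeries, MulEquiv.symm_apply_apply]
    rfl

end FA.ColemanMap.Summary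

end
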