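import Fermat.Agent.LubinTate.Coleman.Cyclotomic
import Fermat.Agent.LubinTate.Coleman.ZetaMeasure
import Fermat.Agent.Root.SummaryPadicZeta
import Mathlib.NumberTheory.LSeries.HurwitzZetaValues

/-!
# The `p`-adic zeta function from the cyclotomic units

`p` is any prime, `a` a natural number prime to `p`, `g = ∑_{i < a} (1 + X) ^ i`.

* `coleman_cyclotomic_roots`: a tower of torsion points of `p X + X ^ p` gives compatible primitive
  roots of unity `ζ k` of order `p ^ (k + 1)`, generating the levels;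
* `coleman_cyclotomic_units`: `g`, in the coordinate of the multiplicative group, is the one series
  of Coleman of the units `(ζ k ^ a - 1) / (ζ k - 1)`, and it is fixed by the norm operator;
* `coleman_zeta_moments`: `F = h - h ((1 + X) ^ p - 1)`, `h = (1 + X) g' / g`, is the Amice
  transform of a measure on the units whose `k`th moment is `(1 - a ^ (k + 1)) (1 - p ^ k) ζ (-k)`;
* `coleman_zeta_congruences`: the congruences of Kummer for these numbers, at every prime;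
* `coleman_zeta_branches`: they extend to continuous functions on `ℤ_p`;
* `coleman_zeta_kubota_leopoldt`: on the branch of `k` these functions are `1 - a ^ m` times the
  function of `FA.Summary.padicZeta`.
-/

set_option autoImplicit false

noncomputable section

open Fermat.Agent.LubinTate IntermediateField

namespace FA.Coleman.Summary

variable {p : ℕ} [hp : Fact p.Prime]

section Units

variable {Ω : Type*} [Field Ω] [Algebra ℚ_[p] Ω] [Algebra ℤ_[p] Ω]
  [IsScalarTower ℤ_[p] ℚ_[p] Ω] {lam : ℕ → Ω} (hlam : IsTorsionTower (p : ℤ_[p]) lam)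

/-- **The roots of unity of a tower.** -/
theorem coleman_cyclotomic_roots (k : ℕ) :
    IsPrimitiveRoot (cycloZeta hlam k) (p ^ (k + 1)) ∧
      cycloZeta hlam (k + 1) ^ p = cycloZeta hlam k ∧
      lev ℚ_[p] lam k = ℚ_[p]⟮cycloZeta hlam k⟯ :=
  ⟨isPrimitiveRoot_cycloZeta hlam k, cycloZeta_succ_pow hlam k, by
    simpa using lev_eq_adjoin hlam (a := 1) (Nat.Prime.not_dvd_one hp.out) k⟩

include hlam in
/-- **The series of the cyclotomic units.** -/
theorem coleman_cyclotomic_units {a : ℕ} (ha : ¬ p ∣ a) :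
    colemanNorm (π := (p : ℤ_[p])) PadicInt.irreducible_p
        (cycloSubst p (cycloSeries ℤ_[p] a)) = cycloSubst p (cycloSeries ℤ_[p] a) ∧
      (∃! g : PowerSeries ℤ_[p], ∀ k, torsionValue hlam k (cycloSubst p g) =
        (cycloZeta hlam k ^ a - 1) / (cycloZeta hlam k - 1)) ∧
      ∀ k, torsionValue hlam k (cycloSubst p (cycloSeries ℤ_[p] a)) =
        (cycloZeta hlam k ^ a - 1) / (cycloZeta hlam k - 1) :=
  ⟨colemanNorm_cycloSeries hlam ha, existsUnique_cycloSeries hlam, fun k => by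
    rw [cycloZeta_pow_sub_one, map_mul, cycloZeta, add_sub_cancel_left,
      mul_div_cancel_left₀ _ (torsionValue_cycloCoord_ne_zero hlam k)]⟩

end Units

variable {a : ℕ} (ha : ¬ p ∣ a)
include ha

theorem coe_moment_eq_zeta (k : ℕ) : ∃ q : ℚ,
    (q : ℂ) = (1 - (a : ℂ) ^ (k + 1)) * (1 - (p : ℂ) ^ k) * riemannZeta (-k) ∧
      ((amiceIntegral (cycloMeasure p a) (ContinuousMap.id ℤ_[p] ^ k) : ℤ_[p]) : ℚ_[p]) =
        (q : ℚ_[p]) := by
  refine ⟨(1 - (p : ℚ) ^ k) * (((a : ℚ) ^ (k + 1) - 1) * (bernoulli' (k + 1) / (k + 1))), ?_,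
    cycloMeasure_moment ha k⟩
  rw [riemannZeta_neg_nat_eq_bernoulli']
  push_cast
  ring

/-- **The measure of the cyclotomic units has zeta values as moments.** -/
theorem coleman_zeta_moments :
    let g : PowerSeries ℤ_[p] := ∑ i ∈ Finset.range a, (1 + PowerSeries.X) ^ i
    let h : PowerSeries ℤ_[p] :=
      (1 + PowerSeries.X) * PowerSeries.derivative ℤ_[p] g * Ring.inverse g
    let F : PowerSeries ℤ_[p] := h - PowerSeries.subst ((1 + PowerSeries.X) ^ p - 1) h
    (∀ f : C(ℤ_[p], ℤ_[p]), amiceIntegral F (f * unitsIndicator) = amiceIntegral F f) ∧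
      ∀ k : ℕ, ∃ q : ℚ,
        (q : ℂ) = (1 - (a : ℂ) ^ (k + 1)) * (1 - (p : ℂ) ^ k) * riemannZeta (-k) ∧
        ((amiceIntegral F (ContinuousMap.id ℤ_[p] ^ k) : ℤ_[p]) : ℚ_[p]) = (q : ℚ_[p]) := by
  intro g h F
  have hF : F = cycloMeasure p a := by
    simp only [F, h, g, cycloMeasure, cycloLog, frobSubst_apply, cycloSeries, amiceD,
      multiplicativeSeries]
  rw [hF]
  exact ⟨amiceIntegral_mul_unitsIndicator ha, coe_moment_eq_zeta ha⟩

/-- **The congruences of Kummer.** -/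
theorem coleman_zeta_congruences {N i e : ℕ} (hN : 1 ≤ N) (he : p ^ (N - 1) * (p - 1) ∣ e) :
    ‖(((1 - (p : ℚ) ^ (i + e)) * (((a : ℚ) ^ (i + e + 1) - 1) *
        (bernoulli' (i + e + 1) / ((i + e : ℕ) + 1))) : ℚ) : ℚ_[p]) -
      (((1 - (p : ℚ) ^ i) * (((a : ℚ) ^ (i + 1) - 1) * (bernoulli' (i + 1) / (i + 1))) : ℚ) :
        ℚ_[p])‖ ≤ (p : ℝ) ^ (-N : ℤ) := by
  rw [← unitsMoment_eq ha, ← unitsMoment_eq ha, ← PadicInt.coe_sub, ← PadicInt.norm_def]
  exact norm_unitsMoment_sub_le hN he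

/-- **The branches.** -/
theorem coleman_zeta_branches (i : ℕ) : ∃ G : C(ℤ_[p], ℤ_[p]), ∀ t : ℕ, ∃ q : ℚ,
    (q : ℂ) = (1 - (a : ℂ) ^ (i + (p - 1) * t + 1)) * (1 - (p : ℂ) ^ (i + (p - 1) * t)) *
      riemannZeta (-(i + (p - 1) * t : ℕ)) ∧ ((G (t : ℤ_[p]) : ℤ_[p]) : ℚ_[p]) = (q : ℚ_[p]) := by
  obtain ⟨G, hG⟩ := exists_continuous_moments (p := p) (a := a) i
  refine ⟨G, fun t => ?_⟩
  rw [hG, amiceIntegral_mul_unitsIndicator ha]
  exact coe_moment_eq_zeta ha _

/-- **The function of Kubota and Leopoldt comes from the cyclotomic units.** -/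
theorem coleman_zeta_kubota_leopoldt {k : ℕ} (hk : 2 ≤ k) {Z : ℤ_[p] → ℤ_[p]} (hZ : Continuous Z)
    (hval : ∀ t : ℕ, ((Z (t : ℤ_[p]) : ℤ_[p]) : ℚ_[p]) =
      ((-((1 - (p : ℚ) ^ (k + (p - 1) * t - 1)) *
        (bernoulli (k + (p - 1) * t) / ((k + (p - 1) * t : ℕ) : ℚ))) : ℚ) : ℚ_[p])) :
    ∃ U G : C(ℤ_[p], ℤ_[p]), (∀ t : ℕ, U (t : ℤ_[p]) = (a : ℤ_[p]) ^ ((p - 1) * t)) ∧
      (∀ t : ℕ, G (t : ℤ_[p]) = amiceIntegral (cycloMeasure p a)
        (ContinuousMap.id ℤ_[p] ^ (k - 1 + (p - 1) * t) * unitsIndicator)) ∧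
      ∀ s, (1 - (a : ℤ_[p]) ^ k * U s) * Z s = G s := by
  obtain ⟨U, hU⟩ := exists_continuous_pow (p := p) ha
  obtain ⟨G, hG⟩ := exists_continuous_moments (p := p) (a := a) (k - 1)
  have hc : Continuous fun s => (1 - (a : ℤ_[p]) ^ k * U s) * Z s :=
    (continuous_const.sub (continuous_const.mul (map_continuous U))).mul hZ
  refine ⟨U, G, hU, hG, fun s => congrFun
    (PadicInt.denseRange_natCast.equalizer hc (map_continuous G) (funext fun t => ?_)) s⟩
  simp only [Function.comp_apply, hU, hG]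
  refine Subtype.ext ?_
  rw [PadicInt.coe_mul, PadicInt.coe_sub, PadicInt.coe_one, PadicInt.coe_mul, PadicInt.coe_pow,
    PadicInt.coe_pow, PadicInt.coe_natCast, hval, unitsMoment_eq ha,
    bernoulli_eq_bernoulli'_of_ne_one (by omega),
    show k - 1 + (p - 1) * t + 1 = k + (p - 1) * t by omega,
    show k + (p - 1) * t - 1 = k - 1 + (p - 1) * t by omega,
    show ((k - 1 + (p - 1) * t : ℕ) : ℚ) + 1 = ((k + (p - 1) * t : ℕ) : ℚ) by
      exact_mod_cast (show k - 1 + (p - 1) * t + 1 = k + (p - 1) * t by omega),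
    ← pow_add]
  push_cast
  ring

end FA.Coleman.Summary

end
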