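import Fermat.Agent.LubinTate.Coleman.CyclotomicQuotient
import Fermat.Agent.Root.SummaryColemanSequence
import Fermat.Agent.Root.SummaryColemanZeta

/-!
# Local units modulo cyclotomic units

`lam k` is a tower of torsion points of `p X + X ^ p` and `ζ k = cycloZeta hlam k`, as in
`SummaryColemanSequence`. The twisted map of Coleman sends a norm compatible system to `x⁻¹` times
its measure; it is equivariant for `ℤ_pˣ`, so its image is the measures on the units killing `x`.

* `coleman_twist_sequence`: the image and the kernel of the twisted map;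
* `coleman_twist_equivariant`: the system of conjugates by `ζ ↦ ζ ^ b` goes to the image of the
  measure by `x ↦ b x`;
* `coleman_cyclotomic_closure`: a system lies, at every level, in the closure of the group generated
  by `-1`, `ζ` and the `(ζ ^ a - 1) / (ζ - 1)` iff its measure lies in the ideal generated by the
  measures `θ a` of these units, `a` in a finite set of generators of `ℤ_pˣ`;
* `coleman_quotient_iwasawa`: the quotient of the units by that closure is the quotient of the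
  measures killing `x` by that ideal;
* `coleman_generators`: one generator for odd `p`, three and five for `p = 2`;
* `coleman_twist_zeta`: the moments of `θ a` are the values `(1 - a ^ (k + 1)) (1 - p ^ k) ζ (-k)`.
-/

set_option autoImplicit false

noncomputable section

open Fermat.Agent.LubinTate IntermediateField

namespace FA.ColemanMap.Summary

variable {p : ℕ} [hp : Fact p.Prime] {Ω : Type*} [Field Ω] [Algebra ℚ_[p] Ω] [Algebra ℤ_[p] Ω]
  [IsScalarTower ℤ_[p] ℚ_[p] Ω] {lam : ℕ → Ω} (hlam : IsTorsionTower (p : ℤ_[p]) lam)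

/-- **The twisted exact sequence.** -/
theorem coleman_twist_sequence :
    (∀ ν : C(ℤ_[p], ℤ_[p]) →L[ℤ_[p]] ℤ_[p],
      (∃ u : normUnits ℚ_[p] hlam, colemanTwist p (unitsSeries hlam u) = ν) ↔
        (∀ f, ν (f * unitsIndicator) = ν f) ∧ ν (ContinuousMap.id ℤ_[p]) = 0) ∧
    ∀ u : normUnits ℚ_[p] hlam, colemanTwist p (unitsSeries hlam u) = 0 ↔
      u ∈ (colemanKernelHom hlam).range := by
  refine ⟨fun ν => ⟨?_, fun h => ?_⟩, fun u => ?_⟩
  · rintro ⟨u, rfl⟩
    exact ⟨colemanTwist_supported p _,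
      colemanTwist_id p ((fixedUnitsEquiv hlam).symm u).2⟩
  · obtain ⟨u, hu⟩ := twistTargetHom_surjective hlam (Multiplicative.ofAdd ⟨ν, h⟩)
    exact ⟨u, congrArg (fun x => (Multiplicative.toAdd x).1) hu⟩
  · rw [← ker_colemanMapHom, MonoidHom.mem_ker, unitsSeries,
      colemanTwist_eq_zero_iff p ((fixedUnitsEquiv hlam).symm u).2]
    exact ⟨fun h => Multiplicative.toAdd.injective (by
        rw [colemanMapHom_apply, unitsSeries, h, amiceIntegral_zero]; rfl),
      fun h => (exists_amiceIntegral_eq p _).unique (congrArg Multiplicative.toAdd h)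
        amiceIntegral_zero⟩

/-- **Equivariance.** -/
theorem coleman_twist_equivariant {b : ℤ_[p]} (hb : IsUnit b) (u : normUnits ℚ_[p] hlam) :
    ∃ v : normUnits ℚ_[p] hlam,
      (∀ k (s : lev ℚ_[p] lam k →ₐ[ℚ_[p]] lev ℚ_[p] lam k) (z : lev ℚ_[p] lam k),
        (z : Ω) = cycloZeta hlam k →
        (s z : Ω) = cycloZeta hlam k ^ (PadicInt.toZModPow (p := p) (k + 1) b).val →
        s (((u : ∀ k, (lev ℚ_[p] lam k)ˣ) k : (lev ℚ_[p] lam k)ˣ) : lev ℚ_[p] lam k) =
          (((v : ∀ k, (lev ℚ_[p] lam k)ˣ) k : (lev ℚ_[p] lam k)ˣ) : lev ℚ_[p] lam k)) ∧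
      ∀ f, colemanTwist p (unitsSeries hlam v) f =
        colemanTwist p (unitsSeries hlam u) (f.comp (scaleMap p b)) :=
  exists_conjugate hlam hb u

/-- **The closure of the cyclotomic units.** -/
theorem coleman_cyclotomic_closure {A : Finset ℕ} (hA : GeneratesUnits p A)
    (u : normUnits ℚ_[p] hlam) :
    (∀ k i : ℕ, ∃ c ∈ Subgroup.closure {x : (lev ℚ_[p] lam k)ˣ |
        ((x : lev ℚ_[p] lam k) : Ω) = -1 ∨ ((x : lev ℚ_[p] lam k) : Ω) = cycloZeta hlam k ∨
        ∃ a : ℕ, ¬ p ∣ a ∧ ((x : lev ℚ_[p] lam k) : Ω) =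
          (cycloZeta hlam k ^ a - 1) / (cycloZeta hlam k - 1)},
      ∃ z, IsIntegral ℤ_[p] z ∧
        (((u : ∀ k, (lev ℚ_[p] lam k)ˣ) k : (lev ℚ_[p] lam k)ˣ) : lev ℚ_[p] lam k) - c =
          algebraMap ℤ_[p] (lev ℚ_[p] lam k) ((p : ℤ_[p]) ^ i) * z) ↔
    ∃ c : A → (C(ℤ_[p], ℤ_[p]) →L[ℤ_[p]] ℤ_[p]), ∀ f,
      colemanTwist p (unitsSeries hlam u) f =
        ∑ a : A, c a (scaleIntegral p (cycloTwist p a) f) :=
  mem_cycloClosure_iff_twist hlam hA u

/-- **Iwasawa's theorem**: units modulo cyclotomic units. -/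
theorem coleman_quotient_iwasawa {A : Finset ℕ} (hA : GeneratesUnits p A) :
    cycloIdealMeasures p A ≤ twistTarget p ∧
      ∃ e : normUnits ℚ_[p] hlam ⧸ cycloClosure hlam ≃*
          Multiplicative (twistTarget p ⧸ (cycloIdealMeasures p A).addSubgroupOf (twistTarget p)),
        ∀ u, e (QuotientGroup.mk u) = Multiplicative.ofAdd (QuotientAddGroup.mk
          (Multiplicative.toAdd (twistTargetHom hlam u))) :=
  ⟨cycloIdealMeasures_le hlam hA.1, cycloQuotientEquiv hlam hA, fun _ => rfl⟩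

omit [Algebra ℚ_[p] Ω] [Algebra ℤ_[p] Ω] [IsScalarTower ℤ_[p] ℚ_[p] Ω] in
/-- **Generators.** -/
theorem coleman_generators :
    (p ≠ 2 → ∃ a : ℕ, GeneratesUnits p {a}) ∧ (p = 2 → GeneratesUnits p {3, 5}) :=
  ⟨exists_generatesUnits_singleton p, fun h => by subst h; exact generatesUnits_two⟩

omit [Algebra ℚ_[p] Ω] [Algebra ℤ_[p] Ω] [IsScalarTower ℤ_[p] ℚ_[p] Ω] in
/-- **The measures of the cyclotomic units and zeta.** -/
theorem coleman_twist_zeta {a : ℕ} (ha : ¬ p ∣ a) (k : ℕ) : ∃ q : ℚ,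
    (q : ℂ) = (1 - (a : ℂ) ^ (k + 1)) * (1 - (p : ℂ) ^ k) * riemannZeta (-k) ∧
      ((cycloTwist p a (ContinuousMap.id ℤ_[p] ^ (k + 1)) : ℤ_[p]) : ℚ_[p]) = (q : ℚ_[p]) := by
  rw [cycloTwist_pow ha]
  exact FA.Coleman.Summary.coe_moment_eq_zeta ha k

end FA.ColemanMap.Summary

end
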