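import Fermat.Agent.LubinTate.Coleman.Interpolation

/-!
# The power series of Coleman

`O` is a complete discrete valuation ring with finite residue field of `q` elements, `π` a
uniformizer, `lam k` a compatible system of torsion points of the group of `π X + X ^ q`, of exact
level `k + 1`, and `lev K lam k` the field it generates over `K = Frac O`.

* `coleman_tower_exists`: such systems exist in the algebraic closure;
* `coleman_norm_values`: the norm from a level to the previous one of the value of a series is the
  value of the norm operator applied to the series;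
* `coleman_norm_polynomial`: on polynomials the operator is the norm from `O[X]` down to
  `O[π X + X ^ q]`;
* `coleman_theorem`: a norm compatible system of units is the system of values of exactly one
  series, which is a unit fixed by the norm operator;
* `coleman_isomorphism`: the fixed units form a group isomorphic to that of these systems.
-/

set_option autoImplicit false

noncomputable section

open Polynomial IsLocalRing Fermat.Agent.LubinTate

namespace FA.Coleman.Summary

variable {O : Type*} [CommRing O] [IsDomain O] [IsDiscreteValuationRing O]
  [Finite (ResidueField O)] [IsAdicComplete (maximalIdeal O) O]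
  {K : Type*} [Field K] [Algebra O K] [IsFractionRing O K] {π : O} (hπ : Irreducible π)

omit [IsAdicComplete (maximalIdeal O) O] in
include hπ in
/-- **Towers of torsion points exist.** -/
theorem coleman_tower_exists :
    ∃ lam : ℕ → AlgebraicClosure K, IsTorsionTower π lam :=
  have : FaithfulSMul O (AlgebraicClosure K) := (faithfulSMul_iff_algebraMap_injective O _).2 (by
    rw [IsScalarTower.algebraMap_eq O K (AlgebraicClosure K)]
    exact (algebraMap K (AlgebraicClosure K)).injective.comp (IsFractionRing.injective O K))
  exists_torsionTower hπ

/-- **The operator on polynomials** is the norm of a free extension. -/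
theorem coleman_norm_polynomial (p : O[X]) :
    colemanNorm hπ (p : PowerSeries O) = (normPoly π (residueCard O) p : PowerSeries O) :=
  colemanNorm_coe hπ p

variable {Ω : Type*} [Field Ω] [Algebra K Ω] [Algebra O Ω] [IsScalarTower O K Ω] {lam : ℕ → Ω}
  (hlam : IsTorsionTower π lam)

/-- **Norms of values.** -/
theorem coleman_norm_values (k : ℕ) (h : PowerSeries O) :
    levNorm hlam k (evalLev (K := K) hπ hlam (k + 1) h) =
      evalLev (K := K) hπ hlam k (colemanNorm hπ h) :=
  levNorm_evalLev hπ hlam k h

/-- **Coleman's theorem.** -/
theorem coleman_theorem {u : ∀ k, (lev K lam k)ˣ}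
    (hu : ∀ k, IsIntegral O (u k : lev K lam k) ∧
      IsIntegral O (((u k)⁻¹ : (lev K lam k)ˣ) : lev K lam k))
    (hnorm : ∀ k, levNorm hlam k (u (k + 1) : lev K lam (k + 1)) = (u k : lev K lam k)) :
    ∃! g : PowerSeries O, IsUnit g ∧ colemanNorm hπ g = g ∧
      ∀ k, evalLev (K := K) hπ hlam k g = u k := by
  obtain ⟨g, hg, huniq⟩ := existsUnique_coleman hπ hlam (u := u) ⟨hu, hnorm⟩
  refine ⟨g, ⟨isUnit_of_value hπ hlam (hu 0).2 (by rw [hg, Units.mul_inv]), ?_, hg⟩,
    fun g' hg' => huniq g' hg'.2.2⟩
  exact (colemanNorm_eq_self_iff hπ hlam g).2 fun k => by rw [hg, hg, hnorm]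

/-- **The isomorphism of Coleman.** -/
theorem coleman_isomorphism :
    ∃ e : colemanFixed hπ ≃* normUnits K hlam, ∀ (g : colemanFixed hπ) (k : ℕ),
      (((e g : ∀ k, (lev K lam k)ˣ) k : (lev K lam k)ˣ) : lev K lam k) =
        evalLev (K := K) hπ hlam k ((g : (PowerSeries O)ˣ) : PowerSeries O) :=
  ⟨colemanEquiv K hπ hlam, fun _ _ => rfl⟩

end FA.Coleman.Summary

end
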