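import Fermat.Agent.CombinatorialSieve.Integers

/-!
# The fundamental lemma of the combinatorial sieve

For a sieve problem of dimension `κ` (the products of `(1 - ν p)⁻¹` over `w ≤ p < Z` are at most
`K (log Z / log w) ^ κ`), the sum sifted by the primes `< Z` is
`X ∏ (1 - ν p) (1 + O (K ^ 10 e ^ (-s))) + O (∑_{d < Z ^ s} |r d|)` for `s ≥ β ≥ 9 κ + 1`, with
explicit constants (Brun 1920; the weights are those of the beta sieve of Iwaniec and Rosser).
The beta weights are upper, respectively lower, Möbius. A criterion for the dimension comes from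
Mertens' second theorem, and the integers without prime factor `< Z` are the first example.

The exponent `β = 9 κ + 1` is not the best: this is not the linear sieve of Jurkat and Richert.
-/

set_option autoImplicit false

noncomputable section

namespace FA.CombinatorialSieve.Summary

open Finset

/-- **The fundamental lemma**, upper and lower bound at once. -/
theorem fundamental_lemma (S : BoundingSieve) {Z κ K s : ℝ} {β : ℕ} (hX : 0 ≤ S.totalMass)
    (hP : ∀ p ∈ S.prodPrimes.primeFactors, (p : ℝ) < Z) (hZ : 2 ≤ Z)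
    (hκ : 0 ≤ κ) (hβ : 9 * κ + 1 ≤ (β : ℝ)) (hβ2 : 2 ≤ β) (hK : 1 ≤ K) (hs : (β : ℝ) ≤ s)
    (hdim : ∀ w : ℝ, 2 ≤ w → w ≤ Z →
      ∏ p ∈ S.prodPrimes.primeFactors.filter (fun p : ℕ => w ≤ p), (1 - S.nu p)⁻¹ ≤
        K * (Real.log Z / Real.log w) ^ κ) :
    |S.siftedSum - S.totalMass * ∏ p ∈ S.prodPrimes.primeFactors, (1 - S.nu p)| ≤
      20 * Real.exp β * K ^ 10 * Real.exp (-s) *
          (S.totalMass * ∏ p ∈ S.prodPrimes.primeFactors, (1 - S.nu p)) +
        ∑ d ∈ S.prodPrimes.divisors.filter (fun d : ℕ => (d : ℝ) < Z ^ s), |S.rem d| :=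
  FA.CombinatorialSieve.fundamental_lemma S hX hP hZ hκ hβ hβ2 hK hs hdim

open Classical in
/-- The beta weights, spelled out. -/
theorem betaWeight_spec (D : ℝ) (β par d : ℕ) : betaWeight D β par d =
    if Squarefree d ∧ ∀ p ∈ d.primeFactors, #(d.primeFactors.filter (p ≤ ·)) % 2 = par →
        ((∏ q ∈ d.primeFactors.filter (p ≤ ·), q : ℕ) : ℝ) * (p : ℝ) ^ β < D
      then (ArithmeticFunction.moebius d : ℝ) else 0 := by
  rw [betaWeight]
  exact if_congr Iff.rfl rfl rfl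

/-- **The upper beta weights are upper Möbius.** -/
theorem beta_upperMoebius (D : ℝ) (β : ℕ) : BoundingSieve.IsUpperMoebius (betaWeight D β 1) :=
  isUpperMoebius_betaWeight D β

/-- **The lower beta weights are lower Möbius.** -/
theorem beta_lowerMoebius {P : ℕ} (hP : Squarefree P) (D : ℝ) (β n : ℕ) :
    ∑ d ∈ P.divisors, betaWeight D β 0 d * (if d ∣ n then (1 : ℝ) else 0) ≤
      if P.Coprime n then (1 : ℝ) else 0 :=
  sum_betaWeight_lower_le hP D β n

/-- **Dimension from Mertens' theorem**, with an explicit constant. -/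
theorem dimension_criterion {T : Finset ℕ} {x : ℕ → ℝ} {Z κ B : ℝ} (hκ : 0 ≤ κ) (hB : 0 ≤ B)
    (hT : ∀ p ∈ T, p.Prime ∧ (p : ℝ) < Z) (hx : ∀ p ∈ T, 0 ≤ x p ∧ x p < 1)
    (hbd : ∀ p ∈ T, x p / (1 - x p) ≤ κ / p + B / (p : ℝ) ^ 2) {w : ℝ} (hw : 2 ≤ w) (hwZ : w ≤ Z) :
    ∏ p ∈ T.filter (fun p : ℕ => w ≤ p), (1 - x p)⁻¹ ≤
      Real.exp (11 * κ + B) * (Real.log Z / Real.log w) ^ κ :=
  dimensionBound_of_le hκ hB hT hx hbd w hw hwZ

/-- **Mertens' second theorem between two points**, with an explicit constant. -/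
theorem sum_prime_inv_between {T : Finset ℕ} {w Z : ℝ} (hw : 2 ≤ w) (hwZ : w ≤ Z)
    (hT : ∀ p ∈ T, p.Prime ∧ w ≤ p ∧ (p : ℝ) < Z) :
    ∑ p ∈ T, (p : ℝ)⁻¹ ≤ Real.log (Real.log Z) - Real.log (Real.log w) + 11 :=
  sum_prime_inv_le hw hwZ hT

open Classical in
/-- **Integers without small prime factors.** -/
theorem sifted_integers (N : ℕ) {Z s : ℝ} (hZ : 2 ≤ Z) (hs : 10 ≤ s) :
    |(#((Ioc 0 N).filter fun n : ℕ => ∀ p : ℕ, p.Prime → (p : ℝ) < Z → ¬ p ∣ n) : ℝ) -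
        N * ∏ p ∈ (range ⌈Z⌉₊).filter Nat.Prime, (1 - (p : ℝ)⁻¹)| ≤
      20 * Real.exp 140 * Real.exp (-s) * (N * ∏ p ∈ (range ⌈Z⌉₊).filter Nat.Prime,
        (1 - (p : ℝ)⁻¹)) + Z ^ s :=
  abs_sifted_sub_le N hZ hs

/-- **Mertens' product.** -/
theorem mertens_product_order : ∃ c C : ℝ, 0 < c ∧ ∀ Z : ℝ, 2 ≤ Z →
    c / Real.log Z ≤ ∏ p ∈ (range ⌈Z⌉₊).filter Nat.Prime, (1 - (p : ℝ)⁻¹) ∧
      ∏ p ∈ (range ⌈Z⌉₊).filter Nat.Prime, (1 - (p : ℝ)⁻¹) ≤ C / Real.log Z :=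
  exists_mertens_product

end FA.CombinatorialSieve.Summary
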