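import Fermat.Agent.Subspace.GcdApplications

/-!
# Common divisors of `a ^ n - 1` and `b ^ n - 1`

The theorems of Bugeaud, Corvaja and Zannier: for multiplicatively independent `a, b ≥ 2` the
greatest common divisor of `a ^ n - 1` and `b ^ n - 1` is below `exp (ε n)` for large `n`; more
generally `gcd (u - 1, v - 1) < max (|u|, |v|) ^ ε` for `S`-units `u, v` of `ℤ` outside finitely many
curves `u ^ p v ^ q = r`. So the largest prime factor of `(a b + 1) (a c + 1)`, `a > b > c > 0`,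
tends to infinity with `a` (conjecture of Győry, Sárközy and Stewart; Corvaja and Zannier, and
Hernández and Luca). Ineffective.
-/

set_option autoImplicit false

noncomputable section

namespace FA.Subspace.Summary

/-- **The theorem of Bugeaud, Corvaja and Zannier.** -/
theorem bugeaud_corvaja_zannier {a b : ℕ} (ha : 2 ≤ a) (hb : 2 ≤ b)
    (hind : ∀ i j : ℕ, 0 < i → a ^ i ≠ b ^ j) {ε : ℝ} (hε : 0 < ε) :
    ∃ N : ℕ, ∀ n, N ≤ n → (Nat.gcd (a ^ n - 1) (b ^ n - 1) : ℝ) < Real.exp (ε * n) :=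
  gcd_pow_sub_one_lt ha hb hind hε

/-- **Common divisors for `S`-units** (Corvaja and Zannier). -/
theorem corvaja_zannier_gcd (S : Finset ℕ) {ε : ℝ} (hε : 0 < ε) :
    ∃ R : Finset ((ℤ × ℤ) × ℚ), (∀ c ∈ R, c.1 ≠ 0) ∧
      ∀ u v : ℤ, u ≠ 0 → v ≠ 0 → u.natAbs.primeFactors ⊆ S → v.natAbs.primeFactors ⊆ S →
        (∀ c ∈ R, (u : ℚ) ^ c.1.1 * (v : ℚ) ^ c.1.2 ≠ c.2) →
          (Int.gcd (u - 1) (v - 1) : ℝ) < max |(u : ℝ)| |(v : ℝ)| ^ ε := by
  obtain ⟨R, hR, h⟩ := exists_curves_of_large_gcd (S.filter Nat.Prime)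
    (fun p hp => (Finset.mem_filter.1 hp).2) hε
  refine ⟨R, hR, fun u v hu hv huS hvS hc => not_le.1 fun hbig => ?_⟩
  have hH : (0 : ℝ) < max |(u : ℝ)| |(v : ℝ)| ^ ε :=
    Real.rpow_pos_of_pos (lt_max_of_lt_left (abs_pos.2 (Int.cast_ne_zero.2 hu))) ε
  have hsub : ∀ {x : ℤ}, x.natAbs.primeFactors ⊆ S →
      x.natAbs.primeFactors ⊆ S.filter Nat.Prime := fun hx p hp =>
    Finset.mem_filter.2 ⟨hx hp, (Nat.mem_primeFactors.1 hp).1⟩
  obtain ⟨c, hcR, e⟩ := h u v hu hv (hsub huS) (hsub hvS) (Int.gcd (u - 1) (v - 1) : ℕ)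
    (by exact_mod_cast (hH.trans_le hbig)) (Int.gcd_dvd_left _ _) (Int.gcd_dvd_right _ _)
    (by exact_mod_cast hbig)
  exact hc c hcR e

/-- **The conjecture of Győry, Sárközy and Stewart.** -/
theorem gyory_sarkozy_stewart (P : ℕ) :
    ∃ A, ∀ a b c : ℕ, 0 < c → c < b → b < a → A ≤ a →
      ∃ p, P < p ∧ p.Prime ∧ p ∣ (a * b + 1) * (a * c + 1) :=
  exists_large_prime_factor P

end FA.Subspace.Summary

end
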