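import Fermat.Agent.CommutingPolynomials.Family

/-!
# Summary: commuting polynomials

In characteristic zero a nonconstant polynomial commutes with `X² + c` iff it is an iterate of it,
or `c = 0` and it is a power of `X`, or `c = -2` and it is a Chebyshev polynomial `C n`
(`commutant_quadratic`).  So otherwise only degrees `2 ^ k` occur (`quadratic_iterates_only`), a
quadratic polynomial commutes with at most one polynomial of each degree (`commutant_unique`), and
pairwise commuting polynomials of every degree are, up to one affine change of variable, the powers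
or the Chebyshev polynomials (`block_thielman`, Block and Thielman).

Not claimed: commuting polynomials without a quadratic one (Ritt), positive characteristic.
-/

set_option autoImplicit false

noncomputable section

open Polynomial

namespace FA.CommutingPolynomials.Summary

variable {K : Type*} [Field K] [CharZero K]

/-- **The commutant of `X² + c`.** -/
theorem commutant_quadratic {c : K} {Q : K[X]} (hn : Q.natDegree ≠ 0) :
    Q.comp (X ^ 2 + C c) = (X ^ 2 + C c).comp Q ↔
      (c = 0 ∧ ∃ n : ℕ, Q = X ^ n) ∨ (c = -2 ∧ ∃ n : ℕ, Q = Chebyshev.C K n) ∨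
        ∃ k, Q = ((X ^ 2 + C c).comp)^[k] X :=
  commutant hn

/-- **Otherwise only the degrees `2 ^ k`.** -/
theorem quadratic_iterates_only {c : K} (h0 : c ≠ 0) (h2 : c ≠ -2) {Q : K[X]}
    (hn : Q.natDegree ≠ 0) (h : Q.comp (X ^ 2 + C c) = (X ^ 2 + C c).comp Q) :
    ∃ k, Q.natDegree = 2 ^ k := by
  rcases (commutant hn).1 h with ⟨e, -⟩ | ⟨e, -⟩ | ⟨k, rfl⟩
  · exact absurd e h0
  · exact absurd e h2
  · exact ⟨k, natDegree_iterate c k⟩

/-- **One in each degree.** -/
theorem commutant_unique {P Q R : K[X]} (hP : P.natDegree = 2) (hn : Q.natDegree ≠ 0)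
    (hd : R.natDegree = Q.natDegree) (hQ : Q.comp P = P.comp Q) (hR : R.comp P = P.comp R) :
    Q = R :=
  commutant_unique_general hP hn hd hQ hR

/-- **The theorem of Block and Thielman.** -/
theorem block_thielman {Q : ℕ → K[X]} (hdeg : ∀ n, 0 < n → (Q n).natDegree = n)
    (hcomm : ∀ m n, 0 < m → 0 < n → (Q m).comp (Q n) = (Q n).comp (Q m)) :
    ∃ a b : K, a ≠ 0 ∧
      ((∀ n, 0 < n → (Q n).comp (C a * X + C b) = (C a * X + C b).comp (X ^ n)) ∨
        ∀ n : ℕ, 0 < n →
          (Q n).comp (C a * X + C b) = (C a * X + C b).comp (Chebyshev.C K n)) :=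
  family_classification hdeg hcomm

end FA.CommutingPolynomials.Summary
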