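import Fermat.Agent.CompactAbelian.Equidistribution

/-!
# The Peter-Weyl theorem for compact abelian groups

For a compact Hausdorff abelian group, a character being a continuous homomorphism to the complex
numbers of absolute value `1`:

* `compact_abelian_separation`: the characters separate points;
* `compact_abelian_dense`: their span is dense in the continuous functions;
* `compact_abelian_fourier_unique`: a continuous function with all Fourier coefficients `0` is `0`;
* `compact_abelian_weyl`: Weyl's criterion, bounded functionals converge to the Haar integral as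
  soon as they do so on the characters.

The proof applies Gelfand's theory to the commutative algebra of operators generated by translations
and convolutions. Pontryagin duality and nonabelian groups are not claimed.
-/

set_option autoImplicit false
set_option linter.unusedSectionVars false

noncomputable section

open MeasureTheory MeasureTheory.Measure Topology Filter
open FA.CompactAbelian

namespace FA.Summary

variable {G : Type*} [TopologicalSpace G] [CommGroup G] [IsTopologicalGroup G] [CompactSpace G]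
  [T2Space G]

/-- **The characters separate points.** -/
theorem compact_abelian_separation {x y : G} (h : x ≠ y) :
    ∃ ψ : G →* ℂˣ, Continuous ψ ∧ (∀ z, ‖((ψ z : ℂˣ) : ℂ)‖ = 1) ∧ ψ x ≠ ψ y := by
  obtain ⟨ψ, hc, hu, hne⟩ := exists_char_ne_one (a := x / y) fun e => h (div_eq_one.1 e)
  exact ⟨ψ, hc, hu, fun e => hne (by rw [map_div, e, div_self'])⟩

/-- **The trigonometric polynomials are dense.** -/
theorem compact_abelian_dense :
    Dense (Submodule.span ℂ {f : C(G, ℂ) | ∃ ψ : G →* ℂˣ, Continuous ψ ∧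
      (∀ x, ‖((ψ x : ℂˣ) : ℂ)‖ = 1) ∧ ∀ x, f x = ((ψ x : ℂˣ) : ℂ)} : Set C(G, ℂ)) :=
  dense_span_charSet

variable [MeasurableSpace G] [BorelSpace G] (μ : Measure G) [IsMulLeftInvariant μ]
  [IsProbabilityMeasure μ]

/-- **Fourier uniqueness.** -/
theorem compact_abelian_fourier_unique [IsOpenPosMeasure μ] {F : C(G, ℂ)}
    (h : ∀ ψ : G →* ℂˣ, Continuous ψ → (∀ x, ‖((ψ x : ℂˣ) : ℂ)‖ = 1) →
      ∫ x, starRingEnd ℂ ((ψ x : ℂˣ) : ℂ) * F x ∂μ = 0) : F = 0 :=
  eq_zero_of_coeff μ h

/-- **Weyl's criterion.** -/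
theorem compact_abelian_weyl {ι : Type*} {l : Filter ι} (Φ : ι → C(G, ℂ) →ₗ[ℂ] ℂ) {B : ℝ}
    (hB : ∀ᶠ i in l, ∀ F, ‖Φ i F‖ ≤ B * ‖F‖) (h1 : Tendsto (fun i => Φ i 1) l (𝓝 1))
    (hψ : ∀ (ψ : G →* ℂˣ) (hc : Continuous ψ), (∀ x, ‖((ψ x : ℂˣ) : ℂ)‖ = 1) → ψ ≠ 1 →
      Tendsto (fun i => Φ i ⟨fun x => ((ψ x : ℂˣ) : ℂ), Units.continuous_val.comp hc⟩) l (𝓝 0))
    (F : C(G, ℂ)) : Tendsto (fun i => Φ i F) l (𝓝 (∫ x, F x ∂μ)) :=
  tendsto_integral_of_chars μ Φ hB h1 hψ F

end FA.Summary

end
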