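import Fermat.Agent.CompactQuotient.Compactness
import Fermat.Agent.CompactQuotient.Decomposition
import Fermat.Agent.CompactQuotient.Heisenberg

/-!
# Discrete decomposition of `L²(G ⧸ Γ)` for cocompact `Γ`

The theorem of Gelfand, Graev and Piatetski-Shapiro.  Let `G` be a locally compact Hausdorff group
and `Γ` a countable discrete subgroup with `G ⧸ Γ` compact.

* `unimodular`: Haar measure is right invariant;
* `exists_invariant_measure`: `G ⧸ Γ` has a nonzero finite invariant Borel measure, the image of the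
  Haar measure of a fundamental domain (`quotMeasure`);
* `quasi_regular`: translations on `L²(G ⧸ Γ)` are a strongly continuous unitary representation and
  `averages_compact`: their averages against compactly supported continuous functions are compact;
* `discrete_decomposition`: `L²(G ⧸ Γ)` is the closure of an orthogonal sum of irreducible closed
  invariant subspaces;
* `finite_multiplicity`: each nonzero representation occurs only finitely often, in particular each
  irreducible summand (`finite_multiplicity_summands`);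
* `heisenberg_decomposition`: the case of the integer lattice in the real Heisenberg group.

No trace formula and nothing about non-cocompact lattices is claimed.
-/

set_option autoImplicit false
set_option linter.unusedSectionVars false
set_option linter.style.haveILetI false

noncomputable section

open MeasureTheory MeasureTheory.Measure Topology
open scoped InnerProductSpace ComplexConjugate

namespace FA.CompactQuotient.Summary

variable {G : Type*} [Group G] [TopologicalSpace G] [IsTopologicalGroup G] [T2Space G]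
  [LocallyCompactSpace G] (Γ : Subgroup G) [DiscreteTopology Γ] [CompactSpace (G ⧸ Γ)]
  [Countable Γ] [MeasurableSpace G] [BorelSpace G]

include Γ in
/-- A group with a cocompact discrete subgroup is unimodular. -/
theorem unimodular : (haar : Measure G).IsMulRightInvariant :=
  isMulRightInvariant_of_cocompact Γ

/-- An invariant finite measure on the quotient. -/
theorem exists_invariant_measure :
    ∃ ν : Measure (G ⧸ Γ), ν ≠ 0 ∧ IsFiniteMeasure ν ∧ SMulInvariantMeasure G (G ⧸ Γ) ν :=
  ⟨quotMeasure Γ, quotMeasure_ne_zero Γ, inferInstance, inferInstance⟩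

/-- The quasi-regular representation is strongly continuous and unitary. -/
theorem quasi_regular :
    (∀ g (v : QuotL2 Γ), quasiRegular Γ g v =ᵐ[quotMeasure Γ] fun x => v (g⁻¹ • x)) ∧
      (∀ g, quasiRegular Γ g ∈ unitary (QuotL2 Γ →L[ℂ] QuotL2 Γ)) ∧
      ∀ v, Continuous fun g => quasiRegular Γ g v := by
  refine ⟨quasiRegular_coe Γ, fun g => ?_, continuous_quasiRegular Γ⟩
  rw [Unitary.mem_iff, FA.GelfandRaikov.star_eq_inv _ (norm_quasiRegular Γ), ← map_mul, ← map_mul,
    inv_mul_cancel, mul_inv_cancel, map_one]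
  exact ⟨rfl, rfl⟩

/-- Averaged translations are compact. -/
theorem averages_compact {f : G → ℂ} (hf : Continuous f) (hfs : HasCompactSupport f) :
    ∃ a : QuotL2 Γ →L[ℂ] QuotL2 Γ,
      (∀ v, a v = ∫ g, f g • quasiRegular Γ g v ∂(haar : Measure G)) ∧ IsCompactOperator a := by
  obtain ⟨a, ha, -, hac, -⟩ := exists_compact_average Γ hf hfs
  exact ⟨a, ha, hac⟩

theorem hasCompactAverages : HasCompactAverages (haar : Measure G) (quasiRegular Γ) := fun _ hf hfs =>
  let ⟨a, ha, hast, hac, _⟩ := exists_compact_average Γ hf hfs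
  ⟨a, ha, hast, hac⟩

/-- **The Gelfand, Graev and Piatetski-Shapiro theorem.** -/
theorem discrete_decomposition :
    ∃ S : Set (Submodule ℂ (QuotL2 Γ)),
      (∀ W ∈ S, IsClosed (W : Set (QuotL2 Γ)) ∧ (∀ g, ∀ w ∈ W, quasiRegular Γ g w ∈ W) ∧ W ≠ ⊥ ∧
        ∀ W' ≤ W, IsClosed (W' : Set (QuotL2 Γ)) → (∀ g, ∀ w ∈ W', quasiRegular Γ g w ∈ W') →
          W' = ⊥ ∨ W' = W) ∧
      (S.Pairwise fun W W' => ∀ v ∈ W, ∀ w ∈ W', ⟪v, w⟫_ℂ = 0) ∧
      Dense ((sSup S : Submodule ℂ (QuotL2 Γ)) : Set (QuotL2 Γ)) :=
  exists_decomposition (haar : Measure G) (quasiRegular Γ) (continuous_quasiRegular Γ)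
    (norm_quasiRegular Γ) (hasCompactAverages Γ)

/-- **Multiplicities are finite.** -/
theorem finite_multiplicity {K : Type*} [NormedAddCommGroup K] [InnerProductSpace ℂ K]
    [CompleteSpace K] [Nontrivial K] (U : G →* (K →L[ℂ] K)) {ι : Type*}
    (j : ι → K →ₗᵢ[ℂ] QuotL2 Γ) (hj : ∀ i g k, j i (U g k) = quasiRegular Γ g (j i k))
    (horth : Pairwise fun i i' => ∀ k k', ⟪j i k, j i' k'⟫_ℂ = 0) : Finite ι :=
  finite_of_orthogonal_copies (haar : Measure G) (quasiRegular Γ) (continuous_quasiRegular Γ)
    (norm_quasiRegular Γ) (hasCompactAverages Γ) U j hj horth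

/-- Each irreducible summand has finitely many equivalent summands. -/
theorem finite_multiplicity_summands {S : Set (Submodule ℂ (QuotL2 Γ))}
    (hS : S.Pairwise fun W W' => ∀ v ∈ W, ∀ w ∈ W', ⟪v, w⟫_ℂ = 0) {W : Submodule ℂ (QuotL2 Γ)}
    (hW : IsIrreducibleSubspace (quasiRegular Γ) W) :
    {W' ∈ S | ∃ e : W ≃ₗᵢ[ℂ] W', ∀ (g : G) (w : W),
      ((e ⟨quasiRegular Γ g w, hW.2.1 g w w.2⟩ : W') : QuotL2 Γ) =
        quasiRegular Γ g (e w : QuotL2 Γ)}.Finite := by
  haveI : CompleteSpace W := hW.1.completeSpace_coe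
  haveI : Nontrivial W := Submodule.nontrivial_iff_ne_bot.2 hW.2.2.1
  let U : G →* (W →L[ℂ] W) :=
    { toFun := fun g => (quasiRegular Γ g).restrict (hW.2.1 g)
      map_one' := ContinuousLinearMap.ext fun w => Subtype.ext (by
        show quasiRegular Γ 1 (w : QuotL2 Γ) = w
        rw [map_one, one_apply_eq_self])
      map_mul' := fun g h => ContinuousLinearMap.ext fun w => Subtype.ext (by
        show quasiRegular Γ (g * h) (w : QuotL2 Γ) = quasiRegular Γ g (quasiRegular Γ h w)
        rw [map_mul, mul_apply_eq_comp]) }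
  set T := {W' ∈ S | ∃ e : W ≃ₗᵢ[ℂ] W', ∀ (g : G) (w : W),
    ((e ⟨quasiRegular Γ g w, hW.2.1 g w w.2⟩ : W') : QuotL2 Γ) =
      quasiRegular Γ g (e w : QuotL2 Γ)}
  choose e he using fun i : T => i.2.2
  have : Finite T := finite_multiplicity Γ U
    (fun i => (Submodule.subtypeₗᵢ (i : Submodule ℂ (QuotL2 Γ))).comp (e i).toLinearIsometry)
    (fun i g w => he i g w) fun i i' hne k k' =>
      hS i.2.1 i'.2.1 (fun h => hne (Subtype.ext h)) _ (e i k).2 _ (e i' k').2
  exact Set.toFinite T

/-- The Heisenberg group with its integer lattice is an example that is neither compact nor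
commutative. -/
theorem heisenberg_decomposition [MeasurableSpace (Heis ℝ)] [BorelSpace (Heis ℝ)] :
    (∃ x y : Heis ℝ, x * y ≠ y * x) ∧ ¬ CompactSpace (Heis ℝ) ∧
    ∃ S : Set (Submodule ℂ (QuotL2 Heis.lattice)),
      (∀ W ∈ S, IsIrreducibleSubspace (quasiRegular Heis.lattice) W) ∧
      (S.Pairwise fun W W' => ∀ v ∈ W, ∀ w ∈ W', ⟪v, w⟫_ℂ = 0) ∧
      Dense ((sSup S : Submodule ℂ (QuotL2 Heis.lattice)) : Set (QuotL2 Heis.lattice)) :=
  ⟨Heis.not_commutative, Heis.not_compact, discrete_decomposition Heis.lattice⟩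

end FA.CompactQuotient.Summary

end
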