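import Fermat.Agent.GoodReduction.CompatibleSystem

/-!
# The Tate modules of an elliptic curve form a strictly compatible system

For every elliptic curve over `ℚ` there is for each prime `q` one integral polynomial which is
`det (1 - X Frob)` on the coinvariants of inertia at `q` in the rational `p`-adic Tate module for
every `p ≠ q`. It is pure at the good primes, and the product over all primes of the inverses at
`q ^ (-s)` is the L-series. No prime is exceptional.
-/

set_option autoImplicit false
set_option linter.style.haveILetI false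
set_option linter.unusedSectionVars false

noncomputable section

open WeierstrassCurve FA.Frob FA.RT.Tate FA.GoodReduction

namespace FA.Summary

/-- **The strictly compatible system of an elliptic curve over `ℚ` and its L-series.** There are
polynomials `P q` over `ℤ`, one for each prime `q`, such that for every prime `p ≠ q`, every
integral model, basis of its Tate module, place above `q` and arithmetic Frobenius `F` at it,
`det (1 - X F)` on the coinvariants of inertia is `P q`; `P q` is `1 - a X + q X ^ 2` with
`a ^ 2 ≤ 4 q` at good, `1 ∓ X` at multiplicative, `1` at additive reduction, `a = a_q`; and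
`L(E, s)` is the product of `(P q (q ^ (-s)))⁻¹` for `3/2 < re s`. -/
theorem compatibleSystem (E : WeierstrassCurve ℚ) [E.IsElliptic] :
    ∃ P : Nat.Primes → Polynomial ℤ,
      (∀ (q : Nat.Primes) (p : ℕ) [Fact p.Prime], (q : ℕ) ≠ p →
        ∀ (W : WeierstrassCurve ℤ) [(ratCurve W).IsElliptic], W.IsIntegralModelOf E →
          ∀ (B : TateBasis p W) (A : ValuationSubring (AlgebraicClosure ℚ)),
            A.LiesOverPrime (q : ℕ) →
            ∀ (F : AlgebraicClosure ℚ ≃ₐ[ℚ] AlgebraicClosure ℚ)
              (hF : A.IsFrobeniusAt F (q : ℕ)),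
              (coinvMap B hF.mem_decompositionSubgroup).charpoly.reverse =
                (P q).map (Int.castRingHom ℚ_[p])) ∧
      (∀ (q : Nat.Primes) [Fact (q : ℕ).Prime],
        let good := ∃ C : VariableChange ℚ_[(q : ℕ)],
          HasGoodReduction ℤ_[(q : ℕ)] (C • E.map (algebraMap ℚ ℚ_[(q : ℕ)]))
        let ss := ∃ C : VariableChange ℚ_[(q : ℕ)],
          HasGoodReduction ℤ_[(q : ℕ)] (C • E.map (algebraMap ℚ ℚ_[(q : ℕ)])) ∨
            HasMultiplicativeReduction ℤ_[(q : ℕ)] (C • E.map (algebraMap ℚ ℚ_[(q : ℕ)]))
        (good → P q = 1 - Polynomial.C (E.LFunction q) * Polynomial.X +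
            Polynomial.C ((q : ℕ) : ℤ) * Polynomial.X ^ 2 ∧
              E.LFunction q ^ 2 ≤ 4 * ((q : ℕ) : ℤ)) ∧
          (ss → ¬ good → P q = 1 - Polynomial.C (E.LFunction q) * Polynomial.X ∧
            (E.LFunction q = 1 ∨ E.LFunction q = -1)) ∧
          (¬ ss → P q = 1)) ∧
      ∀ s : ℂ, 3 / 2 < s.re →
        HasProd (fun q : Nat.Primes => ((P q).aeval (((q : ℕ) : ℂ) ^ (-s)))⁻¹) (E.LSeries s) :=
  ⟨FA.HasseBound.localPoly E,
    fun _ _ _ hqp _ _ hW B _ hA _ hF => reverse_charpoly_coinvMap hqp hW B hA hF,
    fun _ _ => ⟨localPoly_of_good, localPoly_of_multiplicative, localPoly_of_additive⟩,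
    fun _ hs => lSeries_eulerProduct E hs⟩

end FA.Summary

end
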