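import Fermat.Agent.LinearGroups.JordanField

/-!
# Jordan's theorem on finite linear groups

* `jordan_linear_groups`: for every `n` there is `J` such that every finite subgroup of `GL n K`,
  `K` any field of characteristic zero, has an abelian normal subgroup of index at most `J`;
* `jordan_finite_image`: the same for every representation of a group with finite image.
-/

set_option autoImplicit false
set_option linter.style.haveILetI false

noncomputable section

namespace FA.Summary

variable (n : Type*) [Fintype n] [DecidableEq n]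

/-- **Jordan's theorem.** -/
theorem jordan_linear_groups : ∃ J : ℕ, ∀ (K : Type*) [Field K] [CharZero K]
    (G : Subgroup (Matrix.GeneralLinearGroup n K)), Finite G →
      ∃ A : Subgroup G, A.Normal ∧ (∀ x ∈ A, ∀ y ∈ A, x * y = y * x) ∧ A.index ≤ J ∧
        A.index ≠ 0 :=
  FA.LinearGroups.exists_bound_field n

/-- **Finite images**: a representation with finite image becomes abelian on a normal subgroup of
index at most `J`. -/
theorem jordan_finite_image : ∃ J : ℕ, ∀ (Γ : Type*) [Group Γ] (K : Type*) [Field K] [CharZero K]
    (ρ : Γ →* Matrix.GeneralLinearGroup n K), Finite ρ.range →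
      ∃ A : Subgroup Γ, A.Normal ∧ (∀ x ∈ A, ∀ y ∈ A, ρ (x * y) = ρ (y * x)) ∧ A.index ≤ J ∧
        A.index ≠ 0 := by
  obtain ⟨J, hJ⟩ := FA.LinearGroups.exists_bound_field n
  refine ⟨J, fun Γ _ K _ _ ρ hρ => ?_⟩
  obtain ⟨A, hA, hc, hle, hne⟩ := hJ K ρ.range hρ
  refine ⟨A.comap ρ.rangeRestrict, hA.comap _, fun x hx y hy => ?_, ?_, ?_⟩
  · rw [map_mul, map_mul]
    exact congrArg Subtype.val (hc _ hx _ hy)
  · rwa [A.index_comap_of_surjective ρ.rangeRestrict_surjective]
  · rwa [A.index_comap_of_surjective ρ.rangeRestrict_surjective]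

end FA.Summary

end
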