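import Fermat.Agent.ComplexGalois.FiniteImage
import Fermat.Agent.Root.SummaryJordanLinearGroups
import Fermat.Agent.Root.SummaryBurnsideSolvable
import Mathlib.FieldTheory.Galois.Infinite
import Mathlib.FieldTheory.IsAlgClosed.AlgebraicClosure

/-!
# Continuous complex representations of absolute Galois groups

* `complexGalois_finite_image`: the image is finite, for every field;
* `complexGalois_abelian_index`: for every `n` there is `J` such that over every perfect field each
  is abelian on a Galois extension of degree at most `J` (Jordan);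
* `complexGalois_solvable_image`: an image of order `pᵃ qᵇ` is solvable (Burnside);
* `complexGalois_trace`: a trace is a sum of `n` roots of unity, of absolute value at most `n`, with
  equality only at scalars.
-/

set_option autoImplicit false
set_option linter.style.haveILetI false

noncomputable section

open FA.ComplexGalois

namespace FA.Summary

variable (n : Type*) [Fintype n] [DecidableEq n]

/-- **Finite image.** -/
theorem complexGalois_finite_image (K : Type*) [Field K]
    (ρ : (AlgebraicClosure K ≃ₐ[K] AlgebraicClosure K) →* Matrix.GeneralLinearGroup n ℂ)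
    (hρ : Continuous ρ) : Finite ρ.range :=
  finite_range ρ hρ

/-- **Abelian after an extension of bounded degree.** -/
theorem complexGalois_abelian_index : ∃ J : ℕ, ∀ (K : Type*) [Field K] [PerfectField K]
    (ρ : (AlgebraicClosure K ≃ₐ[K] AlgebraicClosure K) →* Matrix.GeneralLinearGroup n ℂ),
    Continuous ρ → ∃ L : IntermediateField K (AlgebraicClosure K),
      FiniteDimensional K L ∧ IsGalois K L ∧ Module.finrank K L ≤ J ∧
      ∀ σ ∈ L.fixingSubgroup, ∀ τ ∈ L.fixingSubgroup, ρ σ * ρ τ = ρ τ * ρ σ := by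
  obtain ⟨J, hJ⟩ := jordan_finite_image n
  refine ⟨J, fun K _ _ ρ hρ => ?_⟩
  haveI := finite_range ρ hρ
  obtain ⟨A, hA, hcomm, hle, hne⟩ := hJ _ ℂ ρ inferInstance
  have hopen :
      IsOpen ((A ⊔ ρ.ker : Subgroup _) : Set (AlgebraicClosure K ≃ₐ[K] AlgebraicClosure K)) :=
    Subgroup.isOpen_mono le_sup_right (isOpen_ker ρ hρ)
  set B : OpenSubgroup (AlgebraicClosure K ≃ₐ[K] AlgebraicClosure K) := ⟨A ⊔ ρ.ker, hopen⟩
  set L := IntermediateField.fixedField (A ⊔ ρ.ker)
  have hfix : L.fixingSubgroup = A ⊔ ρ.ker :=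
    InfiniteGalois.fixingSubgroup_fixedField ⟨A ⊔ ρ.ker, B.isClosed⟩
  have hgal : FiniteDimensional K L ∧ IsGalois K L :=
    (InfiniteGalois.isOpen_and_normal_iff_finite_and_isGalois L).1
      ⟨show IsOpen (SetLike.coe L.fixingSubgroup) by rw [hfix]; exact hopen,
        by rw [hfix]; infer_instance⟩
  refine ⟨L, hgal.1, hgal.2, ?_, ?_⟩
  · rw [IntermediateField.finrank_eq_fixingSubgroup_index, hfix]
    exact (Nat.le_of_dvd (Nat.pos_of_ne_zero hne)
      (Subgroup.index_dvd_of_le le_sup_left)).trans hle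
  · intro σ hσ τ hτ
    rw [hfix] at hσ hτ
    obtain ⟨a, ha, k, hk, rfl⟩ := Subgroup.mem_sup_of_normal_right.1 hσ
    obtain ⟨a', ha', k', hk', rfl⟩ := Subgroup.mem_sup_of_normal_right.1 hτ
    rw [map_mul ρ a k, map_mul ρ a' k', MonoidHom.mem_ker.1 hk, MonoidHom.mem_ker.1 hk', mul_one,
      mul_one, ← map_mul, ← map_mul]
    exact hcomm a ha a' ha'

/-- **Solvable image.** -/
theorem complexGalois_solvable_image (K : Type*) [Field K]
    (ρ : (AlgebraicClosure K ≃ₐ[K] AlgebraicClosure K) →* Matrix.GeneralLinearGroup n ℂ)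
    {p q a b : ℕ} (hp : p.Prime) (hq : q.Prime) (h : Nat.card ρ.range = p ^ a * q ^ b) :
    Group.IsSolvable ρ.range :=
  burnside_solvable ρ.range hp hq h

/-- **Traces.** -/
theorem complexGalois_trace (K : Type*) [Field K]
    (ρ : (AlgebraicClosure K ≃ₐ[K] AlgebraicClosure K) →* Matrix.GeneralLinearGroup n ℂ)
    (hρ : Continuous ρ) (σ : AlgebraicClosure K ≃ₐ[K] AlgebraicClosure K) :
    (∃ e : ℕ, e ≠ 0 ∧ ∃ s : Multiset ℂ, Multiset.card s = Fintype.card n ∧
      (∀ x ∈ s, x ^ e = 1) ∧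
      ((ρ σ : Matrix.GeneralLinearGroup n ℂ) : Matrix n n ℂ).trace = s.sum) ∧
    ‖((ρ σ : Matrix.GeneralLinearGroup n ℂ) : Matrix n n ℂ).trace‖ ≤ Fintype.card n ∧
    (‖((ρ σ : Matrix.GeneralLinearGroup n ℂ) : Matrix n n ℂ).trace‖ = Fintype.card n →
      ∃ z : ℂ, ((ρ σ : Matrix.GeneralLinearGroup n ℂ) : Matrix n n ℂ) = z • 1) := by
  haveI := finite_range ρ hρ
  have he : orderOf (ρ.rangeRestrict σ) ≠ 0 := (orderOf_pos _).ne'
  have hA : ((ρ σ : Matrix.GeneralLinearGroup n ℂ) : Matrix n n ℂ) ^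
      orderOf (ρ.rangeRestrict σ) = 1 := by
    rw [← Units.val_pow_eq_pow_val, show ρ σ ^ orderOf (ρ.rangeRestrict σ) =
      ((ρ.rangeRestrict σ ^ orderOf (ρ.rangeRestrict σ) : ρ.range) :
        Matrix.GeneralLinearGroup n ℂ)
      from rfl, pow_orderOf_eq_one]
    rfl
  obtain ⟨s, hs, hroot, hsum⟩ := exists_roots_of_finite_order hA
  refine ⟨⟨_, he, s, hs, hroot, hsum⟩, ?_, eq_scalar_of_norm_trace he hA⟩
  rw [hsum, ← hs]
  refine (norm_multiset_sum_le s).trans
    ((Multiset.sum_le_card_nsmul _ 1 fun r hr => ?_).trans_eq ?_)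
  · obtain ⟨x, hx, rfl⟩ := Multiset.mem_map.1 hr
    exact (Complex.norm_eq_one_of_pow_eq_one (hroot x hx) he).le
  · rw [Multiset.card_map, nsmul_one]

end FA.Summary

end
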