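import Fermat.Agent.GoodReduction.Congruence
import Fermat.Agent.HasseBound.Summary
import Fermat.Agent.Root.SummaryInertiaTraces

/-!
# Congruences propagate to the bad primes

Let two elliptic curves over `ℚ` have `a_l` congruent modulo `p ^ n` at almost all primes. At every
prime `q ≠ p`, also `2` and `3`: if `p ^ n ≥ 5` they are semistable together; where both are, their
traces of Frobenius, `a_q` at good and `a_q (q + 1)` at multiplicative reduction, are congruent;
so good reduction for one and multiplicative for the other needs `p ^ n ∣ (q + 1) ^ 2 - a_q ^ 2`,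
which is impossible for `p ^ n > (q + 1) ^ 2`.
-/

set_option autoImplicit false
set_option linter.style.haveILetI false
set_option linter.unusedSectionVars false

noncomputable section

open WeierstrassCurve WeierstrassCurve.Affine FA.Frob FA.RT.Tate FA.GoodReduction
open scoped WeierstrassCurve.Affine

local notation "Qb" => AlgebraicClosure ℚ
local notation "GQ" => AlgebraicClosure ℚ ≃ₐ[ℚ] AlgebraicClosure ℚ

namespace FA.GoodReduction

/-- The trace of Frobenius at a semistable prime, on the Tate module of any equation. -/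
theorem trace_frobenius_semistable (E : WeierstrassCurve ℚ) [E.IsElliptic] {q : ℕ} [Fact q.Prime]
    (hss : ∃ C : VariableChange ℚ_[q],
      HasGoodReduction ℤ_[q] (C • E.map (algebraMap ℚ ℚ_[q])) ∨
        HasMultiplicativeReduction ℤ_[q] (C • E.map (algebraMap ℚ ℚ_[q])))
    {p : ℕ} [Fact p.Prime] (hqp : q ≠ p) {W : WeierstrassCurve ℤ} [(ratCurve W).IsElliptic]
    (hW : W.IsIntegralModelOf E) (B : TateBasis p W) {A : ValuationSubring Qb}
    (hA : A.LiesOverPrime q) {F : GQ} (hF : A.IsFrobeniusAt F q) :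
    ((∃ C : VariableChange ℚ_[q], HasGoodReduction ℤ_[q] (C • E.map (algebraMap ℚ ℚ_[q]))) →
      (B.rep F).trace = (E.LFunction q : ℤ_[p])) ∧
    (¬ (∃ C : VariableChange ℚ_[q], HasGoodReduction ℤ_[q] (C • E.map (algebraMap ℚ ℚ_[q]))) →
      (B.rep F).trace = (E.LFunction q : ℤ_[p]) * (q + 1) ∧
        (E.LFunction q = 1 ∨ E.LFunction q = -1)) := by
  have hq : q.Prime := Fact.out
  obtain ⟨W', hW', hs⟩ := FA.OggShafarevich.exists_model_semistableAt E
    (FA.Root.isSemistableAt_of_reduction E hss.choose_spec)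
  have hΔ := FA.Frob.Δ_ne_zero_of_model hW'
  haveI := FA.Frob.ratCurve_isElliptic_of_Δ hΔ
  obtain ⟨B'⟩ := exists_tateBasis (p := p) W'
  have htr := FA.TorsionIso.trace_rep_eq_of_LFunction hW hW' B B' ∅ (fun _ _ _ => rfl) F
  rw [htr]
  by_cases hbad : (q : ℤ) ∣ W'.Δ
  · have hc : ¬ (q : ℤ) ∣ W'.c₄ := fun h => hs ⟨hbad, h⟩
    have ha : E.LFunction q = FA.Root.splitSign W' q := by
      have := FA.Root.LFunction_apply_prime_pow_mult E W' hW' hq hbad hΔ hc 1
      rwa [pow_one, pow_one] at this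
    refine ⟨fun hg => absurd hg.choose_spec
      (FA.Root.not_hasGoodReduction_of_bad hW' hbad hc hg.choose), fun _ => ?_⟩
    rw [ha, trace_frobenius_mult_all B' ⟨hΔ, hq, hbad, hc, hA⟩ hqp hF]
    refine ⟨rfl, ?_⟩
    rw [FA.Root.splitSign]
    split_ifs <;> simp
  · refine ⟨fun _ => ?_, fun h => absurd (FA.Root.exists_good_of_model hW' q hbad) h⟩
    rw [FA.Root.LFunction_apply_prime E W' hW' hq hbad]
    exact (B'.rep_frobenius hq hA hqp hbad hF).1

/-- The traces of Frobenius at `q` are congruent. -/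
theorem exists_frobenius_congr (E E' : WeierstrassCurve ℚ) [E.IsElliptic] [E'.IsElliptic]
    {p : ℕ} [Fact p.Prime] {n : ℕ} (S : Finset ℕ)
    (h : ∀ l : ℕ, l.Prime → l ∉ S → (p : ℤ) ^ n ∣ E.LFunction l - E'.LFunction l)
    {q : ℕ} [Fact q.Prime] :
    ∃ (W W' : WeierstrassCurve ℤ) (_ : (ratCurve W).IsElliptic) (_ : (ratCurve W').IsElliptic)
      (B : TateBasis p W) (B' : TateBasis p W') (A : ValuationSubring Qb) (F : GQ),
      W.IsIntegralModelOf E ∧ W'.IsIntegralModelOf E' ∧ A.LiesOverPrime q ∧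
        A.IsFrobeniusAt F q ∧
          PadicInt.toZModPow n (B.rep F).trace = PadicInt.toZModPow n (B'.rep F).trace := by
  obtain ⟨W, hW⟩ := FA.Frob.exists_integralModel E
  obtain ⟨W', hW'⟩ := FA.Frob.exists_integralModel E'
  haveI := FA.Frob.ratCurve_isElliptic_of_Δ (FA.Frob.Δ_ne_zero_of_model hW)
  haveI := FA.Frob.ratCurve_isElliptic_of_Δ (FA.Frob.Δ_ne_zero_of_model hW')
  obtain ⟨B⟩ := exists_tateBasis (p := p) W
  obtain ⟨B'⟩ := exists_tateBasis (p := p) W'
  obtain ⟨A, hA⟩ := FA.Deform.exists_liesOverPrime (Fact.out : q.Prime)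
  obtain ⟨F, hF⟩ := FA.Deform.exists_isFrobeniusAt (Fact.out : q.Prime) hA
  exact ⟨W, W', ‹_›, ‹_›, B, B', A, F, hW, hW', hA, hF,
    toZModPow_trace_eq_of_LFunction hW hW' B B' S h F⟩

end FA.GoodReduction

namespace FA.Summary

variable (E E' : WeierstrassCurve ℚ) [E.IsElliptic] [E'.IsElliptic] {p : ℕ} [Fact p.Prime] {n : ℕ}
  (S : Finset ℕ) (h : ∀ l : ℕ, l.Prime → l ∉ S → (p : ℤ) ^ n ∣ E.LFunction l - E'.LFunction l)
  {q : ℕ} [Fact q.Prime] (hqp : q ≠ p)

include h hqp

/-- **A congruence modulo `p ^ n ≥ 5` preserves semistability**: if `a_l ≡ a'_l` modulo `p ^ n` at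
almost all primes then at every prime `q ≠ p` one curve has good or multiplicative reduction
exactly when the other has. -/
theorem semistable_iff_of_congruence (h5 : 5 ≤ p ^ n) :
    (∃ C : VariableChange ℚ_[q], HasGoodReduction ℤ_[q] (C • E.map (algebraMap ℚ ℚ_[q])) ∨
        HasMultiplicativeReduction ℤ_[q] (C • E.map (algebraMap ℚ ℚ_[q]))) ↔
      ∃ C : VariableChange ℚ_[q], HasGoodReduction ℤ_[q] (C • E'.map (algebraMap ℚ ℚ_[q])) ∨
        HasMultiplicativeReduction ℤ_[q] (C • E'.map (algebraMap ℚ ℚ_[q])) := by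
  classical
  have hp : p.Prime := Fact.out
  suffices key : ∀ (F F' : WeierstrassCurve ℚ) [F.IsElliptic] [F'.IsElliptic],
      (∀ l : ℕ, l.Prime → l ∉ S → (p : ℤ) ^ n ∣ F.LFunction l - F'.LFunction l) →
      (∃ C : VariableChange ℚ_[q], HasGoodReduction ℤ_[q] (C • F.map (algebraMap ℚ ℚ_[q])) ∨
        HasMultiplicativeReduction ℤ_[q] (C • F.map (algebraMap ℚ ℚ_[q]))) →
      ∃ C : VariableChange ℚ_[q], HasGoodReduction ℤ_[q] (C • F'.map (algebraMap ℚ ℚ_[q])) ∨
        HasMultiplicativeReduction ℤ_[q] (C • F'.map (algebraMap ℚ ℚ_[q])) from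
    ⟨key E E' h, key E' E fun l hl hlS => dvd_sub_comm.mp (h l hl hlS)⟩
  intro F F' _ _ hFF hss
  have hu := (semistableAt_iff_unipotent F hp (Ne.symm hqp)).mp hss
  refine (semistableAt_iff_unipotent F' hp (Ne.symm hqp)).mpr fun A hA σ hσ m P hP => ?_
  obtain ⟨W, hW⟩ := FA.Frob.exists_integralModel F
  obtain ⟨W', hW'⟩ := FA.Frob.exists_integralModel F'
  haveI := FA.Frob.ratCurve_isElliptic_of_Δ (FA.Frob.Δ_ne_zero_of_model hW)
  haveI := FA.Frob.ratCurve_isElliptic_of_Δ (FA.Frob.Δ_ne_zero_of_model hW')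
  obtain ⟨e, he⟩ := FA.Root.exists_equiv_of_model hW
  obtain ⟨e', he'⟩ := FA.Root.exists_equiv_of_model hW'
  obtain ⟨B⟩ := exists_tateBasis (p := p) W
  obtain ⟨B'⟩ := exists_tateBasis (p := p) W'
  have hq : q.Prime := Fact.out
  have hM : (B.rep σ - 1) * (B.rep σ - 1) = 0 := (rep_sub_one_sq_iff B σ).mpr fun k x hx =>
    e.injective (by
      rw [he, map_sub, he]
      exact hu A hA σ hσ k (e x) (by rw [← map_nsmul, hx, map_zero]))
  obtain ⟨t, ht, heq⟩ := inertia_trace_independent F' hA hσ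
  have htr' := trace_eq_of_equation B' (t := t) (det_rep_inertia B' hq hqp hA hσ) fun k x hx =>
    e'.injective (by
      rw [map_add, map_zsmul, he', he']
      exact heq (p ^ k) (fun hd => hqp ((Nat.prime_dvd_prime_iff_eq hq hp).mp
        (hq.dvd_of_dvd_pow hd))) _ (by rw [← map_nsmul, hx, map_zero]))
  have hc := toZModPow_trace_eq_of_LFunction hW hW' B B' S hFF σ
  rw [trace_eq_two hM, htr', map_intCast, ← Int.cast_ofNat, map_intCast,
    ZMod.intCast_eq_intCast_iff_dvd_sub] at hc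
  have h2 : t = 2 := by
    by_contra hne
    have hlt : |t - 2| ≤ 4 := by
      rw [abs_le] at ht ⊢
      omega
    have := Int.le_of_dvd (abs_pos.mpr (sub_ne_zero.mpr hne)) ((dvd_abs _ _).mpr hc)
    omega
  have hu' := (rep_sub_one_sq_iff B' σ).mp
    (sub_one_sq_of_trace (by rw [htr', h2]; norm_num) (det_rep_inertia B' hq hqp hA hσ))
  obtain ⟨x, rfl⟩ := e'.surjective P
  rw [← he', ← map_sub, ← he', hu' m x (e'.injective (by rw [map_nsmul, hP, map_zero]))]

/-- **The congruence at a prime good for both.** -/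
theorem congruence_at_good
    (hg : ∃ C : VariableChange ℚ_[q], HasGoodReduction ℤ_[q] (C • E.map (algebraMap ℚ ℚ_[q])))
    (hg' : ∃ C : VariableChange ℚ_[q],
      HasGoodReduction ℤ_[q] (C • E'.map (algebraMap ℚ ℚ_[q]))) :
    (p : ℤ) ^ n ∣ E.LFunction q - E'.LFunction q := by
  obtain ⟨W, W', _, _, B, B', A, F, hW, hW', hA, hF, hc⟩ :=
    exists_frobenius_congr E E' S h (q := q)
  rw [(trace_frobenius_semistable E ⟨_, Or.inl hg.choose_spec⟩ hqp hW B hA hF).1 hg,
    (trace_frobenius_semistable E' ⟨_, Or.inl hg'.choose_spec⟩ hqp hW' B' hA hF).1 hg',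
    map_intCast, map_intCast, ZMod.intCast_eq_intCast_iff_dvd_sub] at hc
  exact dvd_sub_comm.mp (by exact_mod_cast hc)

/-- **The congruence at a prime multiplicative for both.** -/
theorem congruence_at_multiplicative
    (hss : ∃ C : VariableChange ℚ_[q],
      HasGoodReduction ℤ_[q] (C • E.map (algebraMap ℚ ℚ_[q])) ∨
        HasMultiplicativeReduction ℤ_[q] (C • E.map (algebraMap ℚ ℚ_[q])))
    (hb : ¬ ∃ C : VariableChange ℚ_[q], HasGoodReduction ℤ_[q] (C • E.map (algebraMap ℚ ℚ_[q])))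
    (hss' : ∃ C : VariableChange ℚ_[q],
      HasGoodReduction ℤ_[q] (C • E'.map (algebraMap ℚ ℚ_[q])) ∨
        HasMultiplicativeReduction ℤ_[q] (C • E'.map (algebraMap ℚ ℚ_[q])))
    (hb' : ¬ ∃ C : VariableChange ℚ_[q],
      HasGoodReduction ℤ_[q] (C • E'.map (algebraMap ℚ ℚ_[q]))) :
    (p : ℤ) ^ n ∣ (E.LFunction q - E'.LFunction q) * (q + 1) := by
  obtain ⟨W, W', _, _, B, B', A, F, hW, hW', hA, hF, hc⟩ :=
    exists_frobenius_congr E E' S h (q := q)
  rw [((trace_frobenius_semistable E hss hqp hW B hA hF).2 hb).1,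
    ((trace_frobenius_semistable E' hss' hqp hW' B' hA hF).2 hb').1] at hc
  have hc' : ((E.LFunction q * (q + 1) : ℤ) : ZMod (p ^ n)) =
      ((E'.LFunction q * (q + 1) : ℤ) : ZMod (p ^ n)) := by
    push_cast
    simpa using hc
  rw [ZMod.intCast_eq_intCast_iff_dvd_sub] at hc'
  rw [sub_mul]
  exact dvd_sub_comm.mp (by exact_mod_cast hc')

/-- **The level raising condition is necessary**: if one curve is good and the other
multiplicative at `q ≠ p` then `p ^ n` divides `(q + 1) ^ 2 - a_q ^ 2`. -/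
theorem levelRaising_condition
    (hg : ∃ C : VariableChange ℚ_[q], HasGoodReduction ℤ_[q] (C • E.map (algebraMap ℚ ℚ_[q])))
    (hss' : ∃ C : VariableChange ℚ_[q],
      HasGoodReduction ℤ_[q] (C • E'.map (algebraMap ℚ ℚ_[q])) ∨
        HasMultiplicativeReduction ℤ_[q] (C • E'.map (algebraMap ℚ ℚ_[q])))
    (hb' : ¬ ∃ C : VariableChange ℚ_[q],
      HasGoodReduction ℤ_[q] (C • E'.map (algebraMap ℚ ℚ_[q]))) :
    (p : ℤ) ^ n ∣ ((q : ℤ) + 1) ^ 2 - E.LFunction q ^ 2 := by
  obtain ⟨W, W', _, _, B, B', A, F, hW, hW', hA, hF, hc⟩ :=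
    exists_frobenius_congr E E' S h (q := q)
  obtain ⟨ht', hs⟩ := (trace_frobenius_semistable E' hss' hqp hW' B' hA hF).2 hb'
  rw [(trace_frobenius_semistable E ⟨_, Or.inl hg.choose_spec⟩ hqp hW B hA hF).1 hg, ht'] at hc
  have hc' : ((E.LFunction q : ℤ) : ZMod (p ^ n)) =
      ((E'.LFunction q * (q + 1) : ℤ) : ZMod (p ^ n)) := by
    push_cast
    simpa using hc
  rw [ZMod.intCast_eq_intCast_iff_dvd_sub, Nat.cast_pow] at hc'
  refine hc'.trans ⟨E'.LFunction q * (q + 1) + E.LFunction q, ?_⟩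
  rcases hs with hs | hs <;> rw [hs] <;> ring

/-- **A large congruence preserves the reduction type**: if `p ^ n > (q + 1) ^ 2` then the curves
have good reduction at `q` together (and, by `semistable_iff_of_congruence`, additive reduction). -/
theorem good_iff_of_congruence (hbig : (q + 1) ^ 2 < p ^ n) :
    (∃ C : VariableChange ℚ_[q], HasGoodReduction ℤ_[q] (C • E.map (algebraMap ℚ ℚ_[q]))) ↔
      ∃ C : VariableChange ℚ_[q], HasGoodReduction ℤ_[q] (C • E'.map (algebraMap ℚ ℚ_[q])) := by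
  have hq : q.Prime := Fact.out
  have h5 : 5 ≤ p ^ n := by
    have := Nat.pow_le_pow_left (show 3 ≤ q + 1 by have := hq.two_le; omega) 2
    omega
  suffices key : ∀ (F F' : WeierstrassCurve ℚ) [F.IsElliptic] [F'.IsElliptic],
      (∀ l : ℕ, l.Prime → l ∉ S → (p : ℤ) ^ n ∣ F.LFunction l - F'.LFunction l) →
      (∃ C : VariableChange ℚ_[q], HasGoodReduction ℤ_[q] (C • F.map (algebraMap ℚ ℚ_[q]))) →
      ∃ C : VariableChange ℚ_[q], HasGoodReduction ℤ_[q] (C • F'.map (algebraMap ℚ ℚ_[q])) from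
    ⟨key E E' h, key E' E fun l hl hlS => dvd_sub_comm.mp (h l hl hlS)⟩
  intro F F' _ _ hFF hg
  by_contra hb'
  have hss' := (semistable_iff_of_congruence F F' S hFF hqp h5).mp ⟨_, Or.inl hg.choose_spec⟩
  have hd := levelRaising_condition F F' S hFF hqp hg hss' hb'
  obtain ⟨W, ⟨C, hC⟩, hW⟩ := FA.CM.Deuring.exists_model_not_dvd F hg
  have hH := hasse_LFunction F W C hC hq hW
  have hpos : (0 : ℤ) < ((q : ℤ) + 1) ^ 2 - F.LFunction q ^ 2 := by
    have : (2 : ℤ) ≤ q := by exact_mod_cast hq.two_le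
    nlinarith
  have h1 := Int.le_of_dvd hpos hd
  have h2 : ((q : ℤ) + 1) ^ 2 < (p : ℤ) ^ n := by exact_mod_cast hbig
  have := sq_nonneg (F.LFunction q)
  omega

end FA.Summary

end
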