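import Fermat.Agent.CongruenceSL.Normal

/-!
# The congruence subgroup property of `SL n ℤ`

For `n ≥ 3` every subgroup of finite index contains a congruence kernel (Bass–Lazard–Serre,
Mennicke), the congruence kernels are normally generated by elementary matrices, and every normal
subgroup is central or of finite index (Margulis' normal subgroup theorem in this case).
-/

set_option autoImplicit false

noncomputable section

namespace FA.Summary

open Matrix FA.CongruenceSL

variable {n : ℕ}

/-- **Mennicke**: congruence kernels are normally generated by elementary matrices. -/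
theorem mennicke (hn : 3 ≤ n) {m : ℕ} (hm : 0 < m) :
    (SpecialLinearGroup.map (n := Fin n) (Int.castRingHom (ZMod m))).ker =
      Subgroup.normalClosure {g : SpecialLinearGroup (Fin n) ℤ | ∃ i j, i ≠ j ∧ ∃ t : ℤ,
        (m : ℤ) ∣ t ∧ g.1 = transvection i j t} := by
  refine le_antisymm (fun g hg => ?_) (Subgroup.normalClosure_le_normal ?_)
  · have h := ker_le_elem hn hm hg
    refine Subgroup.normalClosure_mono ?_ h
    rintro x ⟨i, j, hij, hx⟩
    exact ⟨i, j, hij, m, dvd_rfl, hx⟩
  · rintro x ⟨i, j, hij, t, ht, hx⟩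
    rw [show x = tv i j hij t from Subtype.ext hx]
    exact elem_le_ker n m (tv_mem_elem hij ht)

/-- **The congruence subgroup property.** -/
theorem congruence_subgroup_property (hn : 3 ≤ n) (H : Subgroup (SpecialLinearGroup (Fin n) ℤ))
    [H.FiniteIndex] : ∃ m : ℕ, 0 < m ∧
      (SpecialLinearGroup.map (n := Fin n) (Int.castRingHom (ZMod m))).ker ≤ H := by
  refine ⟨H.normalCore.index, Nat.pos_of_ne_zero Subgroup.FiniteIndex.index_ne_zero,
    ((ker_le_elem hn (Nat.pos_of_ne_zero Subgroup.FiniteIndex.index_ne_zero)).trans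
      (elem_le fun i j hij => ?_)).trans H.normalCore_le⟩
  have h := Subgroup.pow_index_mem H.normalCore (tv i j hij 1)
  rwa [← zpow_natCast, ← tv_mul_int, mul_one] at h

/-- **Normal subgroups**: central, or of finite index and then congruence subgroups. -/
theorem sl_normal_subgroups (hn : 3 ≤ n) (N : Subgroup (SpecialLinearGroup (Fin n) ℤ)) [N.Normal] :
    N ≤ Subgroup.center (SpecialLinearGroup (Fin n) ℤ) ∨ (N.FiniteIndex ∧ ∃ m : ℕ, 0 < m ∧
      (SpecialLinearGroup.map (n := Fin n) (Int.castRingHom (ZMod m))).ker ≤ N) := by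
  refine or_iff_not_imp_left.2 fun hN => ?_
  obtain ⟨m, hm, hle⟩ := exists_elem_le hn hN
  have := finiteIndex_elem hn hm
  exact ⟨Subgroup.finiteIndex_of_le hle, m, hm, (ker_le_elem hn hm).trans hle⟩

/-- **The centre is `± 1`.** -/
theorem center_sl (hn : 1 ≤ n) {g : SpecialLinearGroup (Fin n) ℤ}
    (hg : g ∈ Subgroup.center (SpecialLinearGroup (Fin n) ℤ)) : g.1 = 1 ∨ g.1 = -1 := by
  obtain ⟨c, hc, he⟩ := exists_scalar_of_mem_center hg
  have hu : IsUnit c :=
    isUnit_of_dvd_one (hc ▸ dvd_pow_self c (Nat.one_le_iff_ne_zero.1 hn))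
  rcases Int.isUnit_iff.1 hu with rfl | rfl
  · exact Or.inl (by rw [he, map_one])
  · exact Or.inr (by rw [he, map_neg, map_one])

/-- **The kernels are proper and infinite**, so the two alternatives differ. -/
theorem congruence_kernel_proper (hn : 3 ≤ n) {m : ℕ} (hm : 2 ≤ m) :
    (SpecialLinearGroup.map (n := Fin n) (Int.castRingHom (ZMod m))).ker ≠ ⊤ ∧
      ¬ (SpecialLinearGroup.map (n := Fin n) (Int.castRingHom (ZMod m))).ker ≤
        Subgroup.center (SpecialLinearGroup (Fin n) ℤ) := by
  let i : Fin n := ⟨0, by omega⟩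
  let j : Fin n := ⟨1, by omega⟩
  have hij : i ≠ j := by simp [i, j, Fin.ext_iff]
  have hval : ∀ t : ℤ, (tv i j hij t).1 i j = t := fun t => by
    simp [tv, transvection, hij]
  constructor
  · intro h
    have hg : tv i j hij 1 ∈ (reduction n m).ker := by
      show _ ∈ (SpecialLinearGroup.map (n := Fin n) (Int.castRingHom (ZMod m))).ker
      rw [h]
      trivial
    have := mem_ker_iff.1 hg i j
    rw [hval, one_apply_ne hij, sub_zero] at this
    have := Int.le_of_dvd one_pos this
    omega
  · intro h
    have hg : tv i j hij (m : ℤ) ∈ (reduction n m).ker :=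
      elem_le_ker n m (tv_mem_elem hij dvd_rfl)
    have := hval (m : ℤ)
    rcases center_sl (by omega) (h hg) with e | e <;> rw [e] at this <;>
      simp [hij] at this <;> omega

end FA.Summary

end
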