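import Fermat.Agent.Monsky.Classes

/-!
# The parity of the kernel of Monsky's matrices

The kernel of Monsky's matrix, which bounds the rank of `y² = x³ - n² x`, has even dimension for
squarefree `n ≡ 1, 2, 3 (mod 8)` and odd dimension for `n ≡ 5, 6, 7 (mod 8)`. From the determinant
for two primes, each of the classes `1, 2, 3` has non-congruent numbers with arbitrarily large
primes.
-/

set_option autoImplicit false

noncomputable section

namespace FA.Summary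

open FA.Monsky

/-- **Parity for odd `n = ∏ P i`**: the kernel of `(A + D₂, D₂; D₂, A + D₋₁ + D₂)`, with the symbols
as in `monsky_rank_bound`, has odd dimension exactly for `n ≡ 5, 7 (mod 8)`; the determinant then
vanishes. -/
theorem monsky_parity {k : ℕ} (P : Fin k → ℕ) [∀ i, NeZero (P i)] (hp : ∀ i, (P i).Prime)
    (h2 : ∀ i, P i ≠ 2) (hinj : Function.Injective P) (ε : Fin k → Fin k → ZMod 2)
    (d m : Fin k → ZMod 2)
    (hε : ∀ i j, ε i j = if IsSquare (P j : ZMod (P i)) then 0 else 1)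
    (hd : ∀ i, d i = if IsSquare (2 : ZMod (P i)) then 0 else 1)
    (hm : ∀ i, m i = if IsSquare (-1 : ZMod (P i)) then 0 else 1)
    (M : Matrix (Fin k ⊕ Fin k) (Fin k ⊕ Fin k) (ZMod 2))
    (hM : M = Matrix.fromBlocks
      (Matrix.of fun i j => if i = j then (∑ l ∈ Finset.univ.erase i, ε i l) + d i else ε i j)
      (Matrix.diagonal d) (Matrix.diagonal d)
      (Matrix.of fun i j =>
        if i = j then (∑ l ∈ Finset.univ.erase i, ε i l) + m i + d i else ε i j)) :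
    (Odd (Module.finrank (ZMod 2) (LinearMap.ker M.mulVecLin)) ↔
      (∏ i, P i) % 8 = 5 ∨ (∏ i, P i) % 8 = 7) ∧
    ((∏ i, P i) % 8 = 5 ∨ (∏ i, P i) % 8 = 7 → M.det = 0) := by
  have hP : OddPrimes P := ⟨hp, h2, hinj⟩
  obtain rfl : M = matrix P := by
    rw [hM, show ε = entry P from funext fun i => funext fun j => hε i j,
      show d = fun i => sym (P i) 2 from funext hd, show m = fun i => sym (P i) (-1) from funext hm]
    rfl
  exact ⟨odd_finrank_ker_matrix hP,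
    fun h => det_eq_zero_of_odd ((odd_finrank_ker_matrix hP).2 h)⟩

/-- **Parity for even `n = 2 ∏ P i`**: the kernel of `(D₂, A + D₂; Aᵀ + D₂, D₋₁)` has odd dimension
exactly for `n ≡ 6 (mod 8)`; the determinant then vanishes. -/
theorem monsky_parity_even {k : ℕ} (P : Fin k → ℕ) [∀ i, NeZero (P i)] (hp : ∀ i, (P i).Prime)
    (h2 : ∀ i, P i ≠ 2) (hinj : Function.Injective P) (ε : Fin k → Fin k → ZMod 2)
    (d m : Fin k → ZMod 2)
    (hε : ∀ i j, ε i j = if IsSquare (P j : ZMod (P i)) then 0 else 1)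
    (hd : ∀ i, d i = if IsSquare (2 : ZMod (P i)) then 0 else 1)
    (hm : ∀ i, m i = if IsSquare (-1 : ZMod (P i)) then 0 else 1)
    (M : Matrix (Fin k ⊕ Fin k) (Fin k ⊕ Fin k) (ZMod 2))
    (hM : M = Matrix.fromBlocks (Matrix.diagonal d)
      (Matrix.of fun i j => if i = j then (∑ l ∈ Finset.univ.erase i, ε i l) + d i else ε i j)
      (Matrix.of fun i j => if i = j then (∑ l ∈ Finset.univ.erase i, ε i l) + d i else ε j i)
      (Matrix.diagonal m)) :
    (Odd (Module.finrank (ZMod 2) (LinearMap.ker M.mulVecLin)) ↔ (2 * ∏ i, P i) % 8 = 6) ∧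
    ((2 * ∏ i, P i) % 8 = 6 → M.det = 0) := by
  have hP : OddPrimes P := ⟨hp, h2, hinj⟩
  obtain rfl : M = matrixTwo P := by
    rw [hM, show ε = entry P from funext fun i => funext fun j => hε i j,
      show d = fun i => sym (P i) 2 from funext hd, show m = fun i => sym (P i) (-1) from funext hm]
    rfl
  exact ⟨odd_finrank_ker_matrixTwo hP,
    fun h => det_eq_zero_of_odd ((odd_finrank_ker_matrixTwo hP).2 h)⟩

/-- **Non-congruent numbers with two primes**: `p q` for `p ≡ q ≡ 3 (mod 8)`, `2 p q` for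
`p ≡ q ≡ 5 (mod 8)`, and `p q` for `p ≡ 5`, `q ≡ 7 (mod 8)` with `q` a nonsquare modulo `p`. -/
theorem not_congruent_two_primes (p q : ℕ) (hp : p.Prime) (hq : q.Prime) (hne : p ≠ q) :
    (p % 8 = 3 → q % 8 = 3 → ¬ ∃ a b c : ℚ, 0 < a ∧ 0 < b ∧ 0 < c ∧ a ^ 2 + b ^ 2 = c ^ 2 ∧
      a * b / 2 = ((p * q : ℕ) : ℚ)) ∧
    (p % 8 = 5 → q % 8 = 5 → ¬ ∃ a b c : ℚ, 0 < a ∧ 0 < b ∧ 0 < c ∧ a ^ 2 + b ^ 2 = c ^ 2 ∧
      a * b / 2 = ((2 * (p * q) : ℕ) : ℚ)) ∧
    (p % 8 = 5 → q % 8 = 7 → ¬ IsSquare (q : ZMod p) → ¬ ∃ a b c : ℚ,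
      0 < a ∧ 0 < b ∧ 0 < c ∧ a ^ 2 + b ^ 2 = c ^ 2 ∧ a * b / 2 = ((p * q : ℕ) : ℚ)) :=
  ⟨not_congruent_three_three hp hq hne, not_congruent_two_five_five hp hq hne,
    not_congruent_five_seven hp hq⟩

/-- **Unbounded non-congruent numbers in each class `1, 2, 3 (mod 8)`** with two odd primes. -/
theorem not_congruent_unbounded_classes (a : ℕ) (ha : a = 1 ∨ a = 2 ∨ a = 3) (X : ℕ) :
    ∃ n p q : ℕ, p.Prime ∧ q.Prime ∧ X < p ∧ p < q ∧ n % 8 = a ∧ (n = p * q ∨ n = 2 * (p * q)) ∧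
      ¬ ∃ a b c : ℚ, 0 < a ∧ 0 < b ∧ 0 < c ∧ a ^ 2 + b ^ 2 = c ^ 2 ∧ a * b / 2 = (n : ℚ) :=
  exists_two_primes a ha X

end FA.Summary

end
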