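import Fermat.Agent.Monsky.Congruent
import Fermat.Agent.Root.SummaryMonskyParity

/-!
# Congruent numbers in every residue class

Every residue class holds congruent numbers with arbitrarily large primes in the squarefree part
(Bennett); each class `1, 2, 3, 5, 6, 7 (mod 8)` holds infinitely many squarefree congruent numbers
(Chahal), and `1, 2, 3` hold infinitely many squarefree non-congruent ones as well.
-/

set_option autoImplicit false

noncomputable section

namespace FA.Summary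

open FA.Monsky

/-- **Bennett**: for every modulus `M`, class `r` and bound `B` there is a congruent
`n ≡ r (mod M)` with a prime `q > B` dividing it exactly once, so the class holds congruent numbers
in infinitely many classes modulo squares. -/
theorem congruent_every_residue_class (M : ℕ) (hM : 0 < M) (r B : ℕ) :
    ∃ n q : ℕ, n ≡ r [MOD M] ∧ q.Prime ∧ B < q ∧ q ∣ n ∧ ¬ q ^ 2 ∣ n ∧
      ∃ a b c : ℚ, 0 < a ∧ 0 < b ∧ 0 < c ∧ a ^ 2 + b ^ 2 = c ^ 2 ∧ a * b / 2 = (n : ℚ) :=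
  exists_congruent_modEq hM r B

/-- Every residue class holds infinitely many congruent numbers. -/
theorem congruent_residue_class_infinite (M : ℕ) (hM : 0 < M) (r : ℕ) :
    {n : ℕ | n ≡ r [MOD M] ∧ ∃ a b c : ℚ, 0 < a ∧ 0 < b ∧ 0 < c ∧ a ^ 2 + b ^ 2 = c ^ 2 ∧
      a * b / 2 = (n : ℚ)}.Infinite := by
  refine Set.infinite_of_forall_exists_gt fun B => ?_
  obtain ⟨n, q, hn, hq, hB, hqn, hexact, hc⟩ := exists_congruent_modEq hM r B
  exact ⟨n, ⟨hn, hc⟩, hB.trans_le (Nat.le_of_dvd (Nat.pos_of_ne_zero fun h => by simp [h] at hexact)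
    hqn)⟩

/-- **Chahal**: each class `1, 2, 3, 5, 6, 7 (mod 8)` holds infinitely many squarefree congruent
numbers. -/
theorem congruent_squarefree_classes_infinite (s : ℕ) (hs : s ∈ [1, 2, 3, 5, 6, 7]) :
    {n : ℕ | Squarefree n ∧ n % 8 = s ∧ ∃ a b c : ℚ, 0 < a ∧ 0 < b ∧ 0 < c ∧
      a ^ 2 + b ^ 2 = c ^ 2 ∧ a * b / 2 = (n : ℚ)}.Infinite := by
  refine Set.infinite_of_forall_exists_gt fun B => ?_
  obtain ⟨n, h1, h2, h3, h4⟩ := exists_squarefree_congruent s hs B
  exact ⟨n, ⟨h1, h2, h4⟩, h3⟩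

/-- In each class `1, 2, 3 (mod 8)` both the squarefree congruent numbers and the squarefree
non-congruent numbers are infinite. -/
theorem congruent_and_not_congruent_infinite (s : ℕ) (hs : s = 1 ∨ s = 2 ∨ s = 3) :
    {n : ℕ | Squarefree n ∧ n % 8 = s ∧ ∃ a b c : ℚ, 0 < a ∧ 0 < b ∧ 0 < c ∧
      a ^ 2 + b ^ 2 = c ^ 2 ∧ a * b / 2 = (n : ℚ)}.Infinite ∧
    {n : ℕ | Squarefree n ∧ n % 8 = s ∧ ¬ ∃ a b c : ℚ, 0 < a ∧ 0 < b ∧ 0 < c ∧
      a ^ 2 + b ^ 2 = c ^ 2 ∧ a * b / 2 = (n : ℚ)}.Infinite := by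
  refine ⟨congruent_squarefree_classes_infinite s
    (by rcases hs with rfl | rfl | rfl <;> decide), Set.infinite_of_forall_exists_gt fun B => ?_⟩
  obtain ⟨n, p, q, hp, hq, hB, hpq, hn, hn', hc⟩ := not_congruent_unbounded_classes s hs (B + 2)
  have hsf : Squarefree (p * q) := Nat.squarefree_mul_iff.2
    ⟨(Nat.coprime_primes hp hq).2 hpq.ne, hp.squarefree, hq.squarefree⟩
  have h2 : p ≤ p * q := Nat.le_mul_of_pos_right p hq.pos
  rcases hn' with rfl | rfl
  · exact ⟨_, ⟨hsf, hn, hc⟩, by omega⟩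
  · refine ⟨_, ⟨Nat.squarefree_mul_iff.2 ⟨?_, Nat.prime_two.squarefree, hsf⟩, hn, hc⟩, by omega⟩
    exact Nat.Coprime.mul_right ((Nat.coprime_primes Nat.prime_two hp).2 (by omega))
      ((Nat.coprime_primes Nat.prime_two hq).2 (by omega))

end FA.Summary

end
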