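import Fermat.Agent.QuarticDescent.Main
import Fermat.Agent.CongruentNumber.RankOne

/-!
# Corollaries of the descents

The quartics `A⁴ + p B⁴ = W²` and `X⁴ - 4 p Y⁴ = Z²` for primes `p ≡ 7, 11 (mod 16)`, and the rank
of `y² = x³ - p² x` for primes `p ≡ 3, 5, 7 (mod 8)`.
-/

set_option autoImplicit false
set_option linter.style.haveILetI false

noncomputable section

open WeierstrassCurve

namespace FA.Summary

/-- For a prime `p ≡ 7, 11 (mod 16)` the equation `A⁴ + p B⁴ = W²` has only trivial rational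
solutions. -/
theorem quartic_prime_eq_sq (p : ℕ) (hp : p.Prime) (h16 : p % 16 = 7 ∨ p % 16 = 11)
    {A B W : ℚ} (h : A ^ 4 + p * B ^ 4 = W ^ 2) : A * B = 0 := by
  haveI := Fact.mk hp
  by_contra hAB
  obtain ⟨hA, hB⟩ := mul_ne_zero_iff.mp hAB
  obtain ⟨e⟩ := point_group_quartic_prime p hp h16
  have hy : A * W / B ^ 3 ≠ 0 := by
    have hW : W ≠ 0 := fun h0 => by
      rw [h0] at h
      have : (0 : ℚ) < A ^ 4 + p * B ^ 4 := by positivity
      simp at h
      linarith
    positivity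
  set P : (FA.QuarticDescent.curve p).toAffine.Point := .some ((A / B) ^ 2) (A * W / B ^ 3)
    (FA.QuarticDescent.nonsingular_curve (by field_simp; linear_combination -h))
  have h2 : P + P = 0 := e.injective (by
    rw [map_add, map_zero]
    exact (by decide : ∀ z : ZMod 2, z + z = 0) _)
  rw [Affine.Point.add_self_of_Y_ne
    (by rw [FA.CM.Seven.twoCurve_negY]; intro he; exact hy (by linarith))] at h2
  exact Affine.Point.some_ne_zero _ h2

/-- For a prime `p ≡ 7, 11 (mod 16)` the equation `X⁴ - 4 p Y⁴ = Z²` has only rational solutions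
with `Y = 0`. -/
theorem quartic_four_prime_eq_sq (p : ℕ) (hp : p.Prime) (h16 : p % 16 = 7 ∨ p % 16 = 11)
    {X Y Z : ℚ} (h : X ^ 4 - 4 * p * Y ^ 4 = Z ^ 2) : Y = 0 := by
  by_contra hY
  have hp0 : (0 : ℚ) < p := Nat.cast_pos.mpr hp.pos
  have hX : X ≠ 0 := fun h0 => by
    rw [h0] at h
    have : (0 : ℚ) < 4 * p * Y ^ 4 := by positivity
    nlinarith [sq_nonneg Z]
  have key := quartic_prime_eq_sq p hp h16 (A := Z) (B := 2 * X * Y) (W := X ^ 4 + 4 * p * Y ^ 4)
    (by linear_combination (Z ^ 2 + (X ^ 4 - 4 * p * Y ^ 4)) * h.symm)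
  have hZ : Z = 0 := (mul_eq_zero.mp key).resolve_right (by positivity)
  have hs : IsSquare ((p : ℕ) : ℚ) := ⟨X ^ 2 / (2 * Y ^ 2), by
    rw [hZ] at h; field_simp; linear_combination -h⟩
  obtain ⟨m, hm⟩ := Rat.isSquare_natCast_iff.mp hs
  exact hp.not_isSquare ⟨m, hm⟩

/-- **The rank of `y² = x³ - p² x`** for a prime `p ≡ 3, 5, 7 (mod 8)`: at most one, zero for
`p ≡ 3`, and for `p ≡ 5, 7` equal to one exactly when `p` is a congruent number. -/
theorem rank_congruent_prime (p : ℕ) (hp : p.Prime) (h8 : p % 8 = 3 ∨ p % 8 = 5 ∨ p % 8 = 7) :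
    Module.finrank ℤ (⟨0, 0, 0, -(p : ℚ) ^ 2, 0⟩ : WeierstrassCurve ℚ).toAffine.Point ≤ 1 ∧
      (p % 8 = 3 →
        Module.finrank ℤ (⟨0, 0, 0, -(p : ℚ) ^ 2, 0⟩ : WeierstrassCurve ℚ).toAffine.Point = 0) ∧
      (Module.finrank ℤ (⟨0, 0, 0, -(p : ℚ) ^ 2, 0⟩ : WeierstrassCurve ℚ).toAffine.Point = 1 ↔
        ∃ a b c : ℚ, 0 < a ∧ 0 < b ∧ 0 < c ∧ a ^ 2 + b ^ 2 = c ^ 2 ∧ a * b / 2 = p) := by
  set E : WeierstrassCurve ℚ := ⟨0, 0, 0, -(p : ℚ) ^ 2, 0⟩
  haveI : E.IsElliptic := FA.CongruentNumber.isElliptic_congCurve hp.ne_zero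
  haveI : AddGroup.FG E.toAffine.Point := FA.MordellWeil.mordell E
  haveI : Module.Finite ℤ E.toAffine.Point := Module.Finite.iff_addGroup_fg.mpr inferInstance
  have hfin : Finite E.toAffine.Point ↔ Module.finrank ℤ E.toAffine.Point = 0 := by
    rw [Module.finrank_eq_zero_iff]
    refine ⟨fun _ P => ⟨addOrderOf P, Int.natCast_ne_zero.mpr (addOrderOf_pos P).ne', ?_⟩,
      fun hall => ?_⟩
    · rw [natCast_zsmul, addOrderOf_nsmul_eq_zero]
    · haveI : Finite (AddCommGroup.torsion E.toAffine.Point) :=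
        (FA.CongruentNumber.torsion_congCurve hp.ne_zero).1
      exact Finite.of_injective (fun P => (⟨P, (AddCommGroup.mem_torsion _).mpr
        (isOfFinAddOrder_iff_zsmul_eq_zero.mpr (hall P))⟩ : AddCommGroup.torsion E.toAffine.Point))
        fun P Q h => congrArg Subtype.val h
  have h3 : p % 8 = 3 → Module.finrank ℤ E.toAffine.Point = 0 := fun h => hfin.mp (by
    obtain ⟨e⟩ := point_group_prime_three_mod_eight p hp h
    exact Finite.of_equiv _ e.toEquiv.symm)
  have hle : Module.finrank ℤ E.toAffine.Point ≤ 1 := by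
    rcases h8 with h | h | h
    · rw [h3 h]; exact zero_le_one
    · exact rank_le_one_prime_five_seven_mod_eight p hp (Or.inl h)
    · exact rank_le_one_prime_five_seven_mod_eight p hp (Or.inr h)
  refine ⟨hle, h3, ?_⟩
  rw [congruentNumber_iff_infinite p hp.ne_zero, ← not_finite_iff_infinite, hfin]
  omega

end FA.Summary

end
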