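import Fermat.Agent.CongruentFive.Main
import Fermat.Agent.CongruentNumber.RankOne
import Fermat.Agent.Root.SummaryDescentCorollaries
import Fermat.Agent.CM.CongruentParity
import Mathlib.NumberTheory.LSeries.PrimesInAP

/-!
# Every prime `p ≡ 5 (mod 8)` is a congruent number

* `prime_five_mod_eight_congruent`: the theorem of Heegner, Birch, Stephens and Monsky;
* `infinite_congruent_primes`: so infinitely many primes are congruent numbers;
* `point_group_prime_five`, `rank_prime_five`: the rational points of `y² = x³ - p² x` are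
  `ℤ × ℤ/2 × ℤ/2`, so the rank is exactly one;
* `parity_prime_five`: its L-series continues, vanishes at `1` to odd order, and the rank is odd.

The proof uses only complex multiplication: `F = ℚ(j(√-p))` has an involution `σ` with fixed field
of odd degree, `u = 2 k k'` has `σ u = -1 / u` as `j ≢ 1728` modulo `p`, and `1 / u - u = e q²`,
`u + 1 / u = r √p` give a point of odd degree on `p r² = e² q⁴ + 4`.
-/

set_option autoImplicit false

noncomputable section

namespace FA.Root.CongruentFiveSummary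

/-- **A prime `p ≡ 5 (mod 8)` is a congruent number.** -/
theorem prime_five_mod_eight_congruent (p : ℕ) (hp : p.Prime) (h8 : p % 8 = 5) :
    ∃ a b c : ℚ, 0 < a ∧ 0 < b ∧ 0 < c ∧ a ^ 2 + b ^ 2 = c ^ 2 ∧ a * b / 2 = (p : ℚ) :=
  FA.CongruentFive.prime_congruent hp h8

/-- **Infinitely many congruent primes.** -/
theorem infinite_congruent_primes :
    {p : ℕ | p.Prime ∧ ∃ a b c : ℚ, 0 < a ∧ 0 < b ∧ 0 < c ∧ a ^ 2 + b ^ 2 = c ^ 2 ∧
      a * b / 2 = (p : ℚ)}.Infinite := by
  refine Set.infinite_of_forall_exists_gt fun N => ?_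
  obtain ⟨p, hN, hp, h⟩ := Nat.forall_exists_prime_gt_and_eq_mod (q := 8) (a := 5)
    (by decide) N
  refine ⟨p, ⟨hp, prime_five_mod_eight_congruent p hp ?_⟩, hN⟩
  exact (ZMod.natCast_eq_natCast_iff' p 5 8).1 (show ((p : ℕ) : ZMod 8) = ((5 : ℕ) : ZMod 8) by
    simpa using h)

/-- **The point group.** -/
theorem point_group_prime_five (p : ℕ) (hp : p.Prime) (h8 : p % 8 = 5) :
    Nonempty ((⟨0, 0, 0, -(p : ℚ) ^ 2, 0⟩ : WeierstrassCurve ℚ).toAffine.Point ≃+
      ℤ × ZMod 2 × ZMod 2) :=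
  FA.Summary.point_group_prime_five_seven_mod_eight p hp (Or.inl h8)
    (prime_five_mod_eight_congruent p hp h8)

/-- **The rank is one.** -/
theorem rank_prime_five (p : ℕ) (hp : p.Prime) (h8 : p % 8 = 5) :
    Module.finrank ℤ (⟨0, 0, 0, -(p : ℚ) ^ 2, 0⟩ : WeierstrassCurve ℚ).toAffine.Point = 1 :=
  ((FA.Summary.rank_congruent_prime p hp (Or.inr (Or.inl h8))).2.2).2
    (prime_five_mod_eight_congruent p hp h8)

/-- **Parity**: the L-series vanishes at `1` to odd order, and the rank is odd. -/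
theorem parity_prime_five (p : ℕ) (hp : p.Prime) (h8 : p % 8 = 5) :
    ∃ g : ℂ → ℂ, Differentiable ℂ g ∧
      (∀ s : ℂ, 3 / 2 < s.re →
        g s = (⟨0, 0, 0, -(p : ℚ) ^ 2, 0⟩ : WeierstrassCurve ℚ).LSeries s) ∧
      g 1 = 0 ∧ (∃ r : ℕ, Odd r ∧ analyticOrderAt g 1 = r) ∧
      Odd (Module.finrank ℤ
        (⟨0, 0, 0, -(p : ℚ) ^ 2, 0⟩ : WeierstrassCurve ℚ).toAffine.Point) := by
  obtain ⟨g, hg, hgs, -, hg1, hord⟩ :=
    FA.Summary.congruentCurve_central_zero hp.squarefree (Or.inl h8)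
  exact ⟨g, hg, hgs, hg1, hord, by rw [rank_prime_five p hp h8]; exact odd_one⟩

end FA.Root.CongruentFiveSummary

end
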