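import Fermat.Agent.Monsky.RankTwo

/-!
# Infinitely many congruent number curves of rank at least two

Triples `a² + a b + b² = c²` give three right triangles of equal area `a b c (a + b)`; their points
generate a group of rank two on `y² = x³ - n² x` for infinitely many squarefree `n`.
-/

set_option autoImplicit false

noncomputable section

namespace FA.Summary

open FA.Monsky

/-- **Infinitely many squarefree `n` with `rank ≥ 2`** for `y² = x³ - n² x`. -/
theorem congruent_rank_two_infinite :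
    {n : ℕ | Squarefree n ∧ 2 ≤ Module.finrank ℤ
      (⟨0, 0, 0, -(n : ℚ) ^ 2, 0⟩ : WeierstrassCurve ℚ).toAffine.Point}.Infinite := by
  refine Set.infinite_of_forall_exists_gt fun B => ?_
  obtain ⟨n, h1, h2, h3⟩ := exists_rank_two B
  exact ⟨n, ⟨h1, h3⟩, h2⟩

/-- **Three right triangles of equal area**: for `s ≥ 2` put `a = s² - 1`, `b = 2 s + 1`,
`c = s² + s + 1`; the triangles with legs `(b (a + b), 2 a c)`, `(a (a + b), 2 b c)`,
`(a b, 2 (a + b) c)` have integral hypotenuses and the common area `a b c (a + b)`. -/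
theorem three_triangles_equal_area (s : ℕ) (hs : 2 ≤ s) (a b c : ℕ) (ha : a + 1 = s ^ 2)
    (hb : b = 2 * s + 1) (hc : c = s ^ 2 + s + 1) :
    0 < a * b * c * (a + b) ∧
    (b * (a + b)) ^ 2 + (2 * a * c) ^ 2 = (a ^ 2 + c ^ 2) ^ 2 ∧
    (a * (a + b)) ^ 2 + (2 * b * c) ^ 2 = (b ^ 2 + c ^ 2) ^ 2 ∧
    (a * b) ^ 2 + (2 * (a + b) * c) ^ 2 = ((a + b) ^ 2 + c ^ 2) ^ 2 ∧
    b * (a + b) * (2 * a * c) = 2 * (a * b * c * (a + b)) ∧
    a * (a + b) * (2 * b * c) = 2 * (a * b * c * (a + b)) ∧
    a * b * (2 * (a + b) * c) = 2 * (a * b * c * (a + b)) := by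
  subst hb hc
  have haZ : (a : ℤ) = (s : ℤ) ^ 2 - 1 := by
    have := congrArg (Nat.cast : ℕ → ℤ) ha
    push_cast at this
    linarith
  have : 0 < a := by nlinarith
  refine ⟨by positivity, ?_, ?_, ?_, by ring, by ring, by ring⟩ <;>
    (zify; rw [haZ]; ring)

end FA.Summary

end
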