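import Fermat.Agent.CongruentSeven.Main
import Fermat.Agent.Root.SummaryCongruentFive

/-!
# Every prime `p ≡ 7 (mod 8)` is a congruent number

* `prime_seven_mod_eight_congruent`: the theorem of Heegner, Birch, Stephens and Monsky;
* `point_group_prime_seven`, `rank_prime_seven`, `parity_prime_seven`: `y² = x³ - p² x` has the
  rational points `ℤ × ℤ/2 × ℤ/2` and an L-series vanishing at `1` to odd order;
* `prime_congruent_of_five_or_seven`, `congruent_prime_iff`: with `p ≡ 5` and the descent at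
  `p ≡ 3`: for `p ≡ 3, 5, 7 (mod 8)` the prime `p` is congruent iff `p ≢ 3 (mod 8)`;
* `infinite_congruent_primes_seven`: there are infinitely many such primes.

The proof uses three steps of the tower of the Hauptmodul of level two above `(b + √-p) / 16`,
`32 ∣ b² + p`: the value `16 / (λ λ')` at `√-p` is `d⁴ (16 - d⁴)` with `d` in the ring class field,
which gives a point of odd degree on `2 y² = x⁴ + p²`.
-/

set_option autoImplicit false

noncomputable section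

namespace FA.Root.CongruentSevenSummary

/-- **A prime `p ≡ 7 (mod 8)` is a congruent number.** -/
theorem prime_seven_mod_eight_congruent (p : ℕ) (hp : p.Prime) (h8 : p % 8 = 7) :
    ∃ a b c : ℚ, 0 < a ∧ 0 < b ∧ 0 < c ∧ a ^ 2 + b ^ 2 = c ^ 2 ∧ a * b / 2 = (p : ℚ) :=
  FA.CongruentSeven.prime_congruent hp h8

/-- **Primes `p ≡ 5, 7 (mod 8)` are congruent.** -/
theorem prime_congruent_of_five_or_seven (p : ℕ) (hp : p.Prime) (h8 : p % 8 = 5 ∨ p % 8 = 7) :
    ∃ a b c : ℚ, 0 < a ∧ 0 < b ∧ 0 < c ∧ a ^ 2 + b ^ 2 = c ^ 2 ∧ a * b / 2 = (p : ℚ) :=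
  h8.elim (FA.Root.CongruentFiveSummary.prime_five_mod_eight_congruent p hp)
    (prime_seven_mod_eight_congruent p hp)

/-- **Congruent primes outside the class `1 (mod 8)`.** -/
theorem congruent_prime_iff (p : ℕ) (hp : p.Prime)
    (h8 : p % 8 = 3 ∨ p % 8 = 5 ∨ p % 8 = 7) :
    (∃ a b c : ℚ, 0 < a ∧ 0 < b ∧ 0 < c ∧ a ^ 2 + b ^ 2 = c ^ 2 ∧ a * b / 2 = (p : ℚ)) ↔
      p % 8 = 5 ∨ p % 8 = 7 := by
  refine ⟨fun h => h8.resolve_left fun h3 => ?_, prime_congruent_of_five_or_seven p hp⟩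
  obtain ⟨-, h0, h1⟩ := FA.Summary.rank_congruent_prime p hp h8
  have := h1.2 h
  rw [h0 h3] at this
  exact zero_ne_one this

/-- **The point group.** -/
theorem point_group_prime_seven (p : ℕ) (hp : p.Prime) (h8 : p % 8 = 7) :
    Nonempty ((⟨0, 0, 0, -(p : ℚ) ^ 2, 0⟩ : WeierstrassCurve ℚ).toAffine.Point ≃+
      ℤ × ZMod 2 × ZMod 2) :=
  FA.Summary.point_group_prime_five_seven_mod_eight p hp (Or.inr h8)
    (prime_seven_mod_eight_congruent p hp h8)

/-- **The rank is one.** -/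
theorem rank_prime_seven (p : ℕ) (hp : p.Prime) (h8 : p % 8 = 7) :
    Module.finrank ℤ (⟨0, 0, 0, -(p : ℚ) ^ 2, 0⟩ : WeierstrassCurve ℚ).toAffine.Point = 1 :=
  ((FA.Summary.rank_congruent_prime p hp (Or.inr (Or.inr h8))).2.2).2
    (prime_seven_mod_eight_congruent p hp h8)

/-- **Parity**: the L-series vanishes at `1` to odd order, and the rank is odd. -/
theorem parity_prime_seven (p : ℕ) (hp : p.Prime) (h8 : p % 8 = 7) :
    ∃ g : ℂ → ℂ, Differentiable ℂ g ∧
      (∀ s : ℂ, 3 / 2 < s.re →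
        g s = (⟨0, 0, 0, -(p : ℚ) ^ 2, 0⟩ : WeierstrassCurve ℚ).LSeries s) ∧
      g 1 = 0 ∧ (∃ r : ℕ, Odd r ∧ analyticOrderAt g 1 = r) ∧
      Odd (Module.finrank ℤ
        (⟨0, 0, 0, -(p : ℚ) ^ 2, 0⟩ : WeierstrassCurve ℚ).toAffine.Point) := by
  obtain ⟨g, hg, hgs, -, hg1, hord⟩ :=
    FA.Summary.congruentCurve_central_zero hp.squarefree (Or.inr (Or.inr h8))
  exact ⟨g, hg, hgs, hg1, hord, by rw [rank_prime_seven p hp h8]; exact odd_one⟩

/-- **Infinitely many congruent primes `7 (mod 8)`.** -/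
theorem infinite_congruent_primes_seven :
    {p : ℕ | p.Prime ∧ p % 8 = 7 ∧ ∃ a b c : ℚ, 0 < a ∧ 0 < b ∧ 0 < c ∧
      a ^ 2 + b ^ 2 = c ^ 2 ∧ a * b / 2 = (p : ℚ)}.Infinite := by
  refine Set.infinite_of_forall_exists_gt fun N => ?_
  obtain ⟨p, hN, hp, h⟩ := Nat.forall_exists_prime_gt_and_eq_mod (q := 8) (a := 7)
    (by decide) N
  have h7 : p % 8 = 7 :=
    (ZMod.natCast_eq_natCast_iff' p 7 8).1 (show ((p : ℕ) : ZMod 8) = ((7 : ℕ) : ZMod 8) by
      simpa using h)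
  exact ⟨p, ⟨hp, h7, prime_seven_mod_eight_congruent p hp h7⟩, hN⟩

end FA.Root.CongruentSevenSummary

end
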