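import Fermat.Agent.ConicCount.Main

/-!
# Serre's theorem: few conics have rational points

* `serre_conic_bound`: the triples of nonzero integers `|vᵢ| ≤ B` for which
  `v₀ x² + v₁ y² + v₂ z² = 0` has a nontrivial rational zero number `≪ B³ / (log B)^(3/2)`;
* `serre_conic_local_bound`: so do those with a zero in every `ℚ_[p]`;
* `serre_conic_density_zero`: hence almost no such conic has a rational point;
* `conic_bad_classes`, `conic_bad_insoluble`: for each odd `p` the classes modulo `p²` used,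
  `3 p² (p - 1)³ / 2` of the `p⁶`, have no `p`-adic zero.

Only the upper bound is claimed, not Guo's lower bound of the same order, nor other families.
Independent of S01.
-/

set_option autoImplicit false
set_option linter.style.haveILetI false

noncomputable section

open Filter
open scoped Classical Topology

namespace FA.ConicCount.Summary

/-- **Serre's theorem.** -/
theorem serre_conic_bound : ∃ C : ℝ, ∀ᶠ B : ℕ in atTop,
    ({v : Fin 3 → ℤ | (∀ i, v i ≠ 0 ∧ |v i| ≤ (B : ℤ)) ∧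
      ∃ x : Fin 3 → ℚ, x ≠ 0 ∧ ∑ i, (v i : ℚ) * x i ^ 2 = 0}.ncard : ℝ) ≤
      C * (B : ℝ) ^ 3 / Real.log B ^ (3 / 2 : ℝ) :=
  exists_globalTriples_bound

/-- The same for everywhere locally soluble conics. -/
theorem serre_conic_local_bound : ∃ C : ℝ, ∀ᶠ B : ℕ in atTop,
    ({v : Fin 3 → ℤ | (∀ i, v i ≠ 0 ∧ |v i| ≤ (B : ℤ)) ∧ ∀ (p : ℕ) [Fact p.Prime],
      ∃ x : Fin 3 → ℚ_[p], x ≠ 0 ∧ ∑ i, (v i : ℚ_[p]) * x i ^ 2 = 0}.ncard : ℝ) ≤
      C * (B : ℝ) ^ 3 / Real.log B ^ (3 / 2 : ℝ) :=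
  exists_localTriples_bound

/-- **Almost no conic has a rational point.** -/
theorem serre_conic_density_zero : Tendsto (fun B : ℕ =>
    ({v : Fin 3 → ℤ | (∀ i, v i ≠ 0 ∧ |v i| ≤ (B : ℤ)) ∧
      ∃ x : Fin 3 → ℚ, x ≠ 0 ∧ ∑ i, (v i : ℚ) * x i ^ 2 = 0}.ncard : ℝ) / (2 * (B : ℝ)) ^ 3)
    atTop (𝓝 0) :=
  tendsto_density_of_bound exists_globalTriples_bound

/-- The bad classes. -/
theorem conic_bad_classes (p : ℕ) [Fact p.Prime] (hp : p ≠ 2) :
    2 * (((Fintype.piFinset fun _ : Fin 3 => Finset.range (p ^ 2)).filter fun h =>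
      BadAt p fun i => (h i : ℤ)).card) = 3 * (p ^ 2 * (p - 1) ^ 3) :=
  card_badClasses p hp

/-- They are insoluble. -/
theorem conic_bad_insoluble {p : ℕ} [Fact p.Prime] {v : Fin 3 → ℤ} {i : Fin 3}
    (h1 : (p : ℤ) ∣ v i) (h2 : ¬(p : ℤ) ^ 2 ∣ v i) (h3 : ¬(p : ℤ) ∣ v (i + 1))
    (h4 : ¬(p : ℤ) ∣ v (i + 2))
    (h5 : ¬IsSquare ((-(v (i + 1) * v (i + 2)) : ℤ) : ZMod p)) {x : Fin 3 → ℚ_[p]} (hx : x ≠ 0) :
    ∑ i, (v i : ℚ_[p]) * x i ^ 2 ≠ 0 :=
  no_padic_zero ⟨i, h1, h2, h3, h4, h5⟩ hx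

end FA.ConicCount.Summary
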