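import Fermat.Agent.Root.SummaryPowerDifference
import Fermat.Agent.Root.MathlibForm

/-!
# Products of consecutive integers and binomial coefficients near powers

For an exponent `n` with a prime factor `p ≥ 11` and `D` composed of the primes of `M = 6` or `10`,
`x² - 1`, `x (x + 1)`, `C(x, 2)`, `x (x + 1) (x + 2) (x + 3)` and, for `M = 6`, `C(x, 4)` are no
`D y ^ n` divisible by the evident power of two; `x (x + 1) (x + 2) (x + 3)` is never `y ^ n` and
`x (x + 1) (x + 2)` never `2 ^ k y ^ n` divisible by `16`. For every `n ≥ 2` the product of three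
consecutive integers is no `n`-th power.
-/

set_option autoImplicit false

noncomputable section

namespace FA.Consecutive

open FA.SquareEquation (exists_odd_factor)

/-- Odd `p`-th powers do not differ by two, except `±1`. -/
theorem eq_neg_one_of_pow_eq_add_two {p : ℕ} (hp : Odd p) (h3 : 3 ≤ p) {u v : ℤ} (hu : Odd u)
    (h : v ^ p = u ^ p + 2) : u = -1 := by
  have hlt : u < v := hp.strictMono_pow.lt_iff_lt.1 (show u ^ p < v ^ p by omega)
  have hd : v - u ∣ 2 := by simpa [h] using sub_dvd_pow_sub_pow v u p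
  have hv : Odd v := by
    refine (Int.odd_pow' (by omega : p ≠ 0)).1 ?_
    rw [h]
    exact hu.pow.add_even even_two
  have hle := Int.le_of_dvd two_pos hd
  rw [Int.odd_iff] at hu hv
  obtain rfl : v = u + 2 := by omega
  have h4 : (2 : ℤ) ^ 3 ≤ 2 ^ p := pow_le_pow_right₀ one_le_two h3
  by_contra hne
  rcases lt_or_ge 0 u with hpos | hneg
  · have := pow_add_pow_le hpos.le zero_le_two (n := p) (by omega)
    omega
  · have := pow_add_pow_le (show (0 : ℤ) ≤ -(u + 2) by omega) zero_le_two (n := p) (by omega)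
    rw [show -(u + 2) + 2 = -u by ring, hp.neg_pow, hp.neg_pow] at this
    omega

/-- Three consecutive integers about a prime exponent. -/
theorem mul_sq_sub_one_ne {p : ℕ} (hp : p.Prime) (h11 : 11 ≤ p) {k : ℕ} {m y : ℤ} (hy : y ≠ 0)
    (h16 : (16 : ℤ) ∣ 2 ^ k * y ^ p) : m * (m ^ 2 - 1) ≠ 2 ^ k * y ^ p := by
  intro h
  have hpo : Odd p := hp.odd_of_ne_two (by omega)
  rcases Int.even_or_odd m with ⟨j, hj⟩ | hm
  · have hcop : IsCoprime (m - 1) (m + 1) := ⟨-j - 1, j, by rw [hj]; ring⟩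
    have hm1 : IsCoprime (m - 1) m := ⟨-1, 1, by ring⟩
    have hm2 : IsCoprime (m + 1) m := ⟨1, -1, by ring⟩
    have ho : Odd (m - 1) := by rw [Int.odd_iff]; omega
    have ho' : Odd (m + 1) := by rw [Int.odd_iff]; omega
    obtain ⟨u, hu⟩ := exists_odd_factor hpo ho (hm1.mul_right hcop) (k := k) (y := y)
      (b := m * (m + 1)) (by rw [← h]; ring)
    obtain ⟨v, hv⟩ := exists_odd_factor hpo ho' (hm2.mul_right hcop.symm) (k := k) (y := y)
      (b := m * (m - 1)) (by rw [← h]; ring)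
    have := eq_neg_one_of_pow_eq_add_two hpo (by omega) ((Int.odd_pow' hp.ne_zero).1 (hu ▸ ho))
      (u := u) (v := v) (by rw [← hu, ← hv]; ring)
    rw [this, hpo.neg_one_pow] at hu
    rw [show m = 0 by omega, zero_mul, eq_comm] at h
    exact mul_ne_zero (pow_ne_zero _ two_ne_zero) (pow_ne_zero _ hy) h
  · obtain ⟨s, rfl⟩ := exists_odd_factor hpo hm ⟨m, -1, by ring⟩ h
    have hs : Odd s := (Int.odd_pow' hp.ne_zero).1 hm
    have hs0 : s ≠ 0 := fun e => by simp [e] at hs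
    obtain ⟨j, hj⟩ := hm
    have hs2 : IsCoprime (s ^ p) 2 := ⟨1, -j, by rw [hj]; ring⟩
    obtain ⟨t, rfl⟩ : s ∣ y := (Int.pow_dvd_pow_iff hp.ne_zero).1
      ((hs2.pow_right (n := k)).dvd_of_dvd_mul_left ⟨_, h.symm⟩)
    rw [mul_pow, mul_left_comm] at h
    have ht := mul_left_cancel₀ (pow_ne_zero p hs0) h
    rw [mul_pow, mul_left_comm] at h16
    refine FA.Summary.ribetEquation_all (n := p) hp h11 dvd_rfl (α := k) (a := -1) (b := -t)
      (c := s ^ 2) (neg_ne_zero.2 (right_ne_zero_of_mul hy)) (pow_ne_zero _ hs0) odd_one.neg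
      isCoprime_one_left.neg_left ?_ ?_
    · rw [hpo.neg_pow, mul_neg]
      exact (((show (2 : ℤ) ^ 4 = 16 by norm_num) ▸ hs2.symm.pow_left).dvd_of_dvd_mul_left
        h16).neg_right
    · rw [hpo.neg_one_pow, hpo.neg_pow, ← pow_mul, pow_mul']
      linear_combination ht

end FA.Consecutive

namespace FA.Summary

/-- **`x² - 1 ≠ D y ^ n`** for `D` composed of the primes of `6` or of `10` and `64 ∣ D y ^ n`. -/
theorem sq_sub_one_ne_sUnit_mul_pow {n p : ℕ} (hp : p.Prime) (h11 : 11 ≤ p) (hpn : p ∣ n) {M : ℕ}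
    (hM : M = 6 ∨ M = 10) {D x y : ℤ} (hD : D ≠ 0) (hy : y ≠ 0)
    (hsD : ∀ q : ℕ, q.Prime → (q : ℤ) ∣ D → q ∣ M) (h64 : (64 : ℤ) ∣ D * y ^ n) :
    x ^ 2 - 1 ≠ D * y ^ n := fun h => by
  have hcop : IsCoprime x (D * y ^ n) := ⟨x, -1, by linear_combination h⟩
  have hx : Odd x := Int.not_even_iff_odd.1 fun he => Int.prime_two.not_isUnit
    (hcop.isUnit_of_dvd' he.two_dvd (dvd_trans (by norm_num) h64))
  exact squareEquation_general hp h11 hpn hM one_ne_zero hD one_ne_zero hy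
    (fun q hq h => absurd (isUnit_of_dvd_one h) (Nat.prime_iff_prime_int.1 hq).not_isUnit) hsD hx
    hcop h64 (by rw [one_pow]; linear_combination h)

/-- **`x (x + 1) ≠ D y ^ n`** for such `D` with `16 ∣ D y ^ n`. -/
theorem mul_succ_ne_sUnit_mul_pow {n p : ℕ} (hp : p.Prime) (h11 : 11 ≤ p) (hpn : p ∣ n) {M : ℕ}
    (hM : M = 6 ∨ M = 10) {D x y : ℤ} (hD : D ≠ 0) (hy : y ≠ 0)
    (hsD : ∀ q : ℕ, q.Prime → (q : ℤ) ∣ D → q ∣ M) (h16 : (16 : ℤ) ∣ D * y ^ n) :
    x * (x + 1) ≠ D * y ^ n := fun h => by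
  refine sq_sub_one_ne_sUnit_mul_pow hp h11 hpn hM (x := 2 * x + 1)
    (mul_ne_zero (show (4 : ℤ) ≠ 0 by norm_num) hD) hy (fun q hq hq' => ?_) ?_
    (by linear_combination 4 * h)
  · rcases (Nat.prime_iff_prime_int.1 hq).dvd_or_dvd hq' with h | h
    · have h' : q ∣ 2 ^ 2 := Int.natCast_dvd_natCast.1 (by simpa using h)
      obtain rfl := (Nat.prime_dvd_prime_iff_eq hq Nat.prime_two).1 (hq.dvd_of_dvd_pow h')
      rcases hM with rfl | rfl <;> norm_num
    · exact hsD q hq h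
  · rw [mul_assoc, show (64 : ℤ) = 4 * 16 by norm_num]
    exact mul_dvd_mul_left 4 h16

/-- **Triangular numbers**: `C(x, 2) ≠ D y ^ n` for such `D` with `8 ∣ D y ^ n`. -/
theorem choose_two_ne_sUnit_mul_pow {n p : ℕ} (hp : p.Prime) (h11 : 11 ≤ p) (hpn : p ∣ n) {M : ℕ}
    (hM : M = 6 ∨ M = 10) {D y : ℤ} (hD : D ≠ 0) (hy : y ≠ 0)
    (hsD : ∀ q : ℕ, q.Prime → (q : ℤ) ∣ D → q ∣ M) (h8 : (8 : ℤ) ∣ D * y ^ n) (x : ℕ) :
    (x.choose 2 : ℤ) ≠ D * y ^ n := fun h => by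
  refine mul_succ_ne_sUnit_mul_pow hp h11 hpn hM (x := (x : ℤ) - 1)
    (mul_ne_zero two_ne_zero hD) hy (fun q hq hq' => ?_) ?_ ?_
  · rcases (Nat.prime_iff_prime_int.1 hq).dvd_or_dvd hq' with h | h
    · obtain rfl := (Nat.prime_dvd_prime_iff_eq hq Nat.prime_two).1
        (Int.natCast_dvd_natCast.1 (by simpa using h))
      rcases hM with rfl | rfl <;> norm_num
    · exact hsD q hq h
  · rw [mul_assoc, show (16 : ℤ) = 2 * 8 by norm_num]
    exact mul_dvd_mul_left 2 h8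
  · rw [mul_assoc, ← h]
    have h2 : 2 * x.choose 2 = x * (x - 1) := by
      rw [Nat.choose_two_right, Nat.mul_div_cancel' (Nat.even_mul_pred_self x).two_dvd]
    rcases Nat.eq_zero_or_pos x with rfl | hx
    · simp
    · rw [show (2 : ℤ) * (x.choose 2 : ℤ) = ((2 * x.choose 2 : ℕ) : ℤ) by push_cast; ring, h2,
        Nat.cast_mul, Nat.cast_sub hx]
      push_cast
      ring

/-- **Four consecutive integers**: `x (x + 1) (x + 2) (x + 3) ≠ D y ^ n` for such `D` with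
`64 ∣ D y ^ n`. -/
theorem four_consecutive_ne_sUnit_mul_pow {n p : ℕ} (hp : p.Prime) (h11 : 11 ≤ p) (hpn : p ∣ n)
    {M : ℕ} (hM : M = 6 ∨ M = 10) {D x y : ℤ} (hD : D ≠ 0) (hy : y ≠ 0)
    (hsD : ∀ q : ℕ, q.Prime → (q : ℤ) ∣ D → q ∣ M) (h64 : (64 : ℤ) ∣ D * y ^ n) :
    x * (x + 1) * (x + 2) * (x + 3) ≠ D * y ^ n := fun h =>
  sq_sub_one_ne_sUnit_mul_pow hp h11 hpn hM (x := x ^ 2 + 3 * x + 1) hD hy hsD h64
    (by linear_combination h)

/-- **Four consecutive integers do not multiply to an `n`-th power.** -/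
theorem four_consecutive_ne_pow {n p : ℕ} (hp : p.Prime) (h11 : 11 ≤ p) (hpn : p ∣ n) (hn : n ≠ 0)
    {x y : ℤ} (hy : y ≠ 0) : x * (x + 1) * (x + 2) * (x + 3) ≠ y ^ n := fun h => by
  have he : Even (y ^ n) := by
    rw [← h]
    exact ((Int.even_mul_succ_self x).mul_right _).mul_right _
  obtain ⟨z, rfl⟩ := ((Int.even_pow' hn).1 he).two_dvd
  refine four_consecutive_ne_sUnit_mul_pow hp h11 hpn (Or.inl rfl) (x := x) one_ne_zero hy
    (fun q hq h => absurd (isUnit_of_dvd_one h) (Nat.prime_iff_prime_int.1 hq).not_isUnit) ?_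
    (by rw [one_mul]; exact h)
  rw [one_mul, mul_pow, show (64 : ℤ) = 2 ^ 6 by norm_num]
  exact (pow_dvd_pow 2 (by have := Nat.le_of_dvd (Nat.pos_of_ne_zero hn) hpn; omega)).mul_right _

/-- **`C(x + 3, 4) ≠ D y ^ n`** for `D` composed of `2` and `3` with `8 ∣ D y ^ n`. -/
theorem choose_four_ne_sUnit_mul_pow {n p : ℕ} (hp : p.Prime) (h11 : 11 ≤ p) (hpn : p ∣ n)
    {D y : ℤ} (hD : D ≠ 0) (hy : y ≠ 0) (hsD : ∀ q : ℕ, q.Prime → (q : ℤ) ∣ D → q ∣ 6)
    (h8 : (8 : ℤ) ∣ D * y ^ n) (x : ℕ) : ((x + 3).choose 4 : ℤ) ≠ D * y ^ n := fun h => by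
  refine four_consecutive_ne_sUnit_mul_pow hp h11 hpn (Or.inl rfl) (x := (x : ℤ))
    (mul_ne_zero (show (24 : ℤ) ≠ 0 by norm_num) hD) hy (fun q hq hq' => ?_) ?_ ?_
  · rcases (Nat.prime_iff_prime_int.1 hq).dvd_or_dvd hq' with h | h
    · have h' : q ∣ 2 ^ 3 * 3 := Int.natCast_dvd_natCast.1 (by simpa using h)
      rcases hq.dvd_mul.1 h' with h2 | h3
      · exact (hq.dvd_of_dvd_pow h2).trans (by norm_num)
      · exact h3.trans (by norm_num)
    · exact hsD q hq h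
  · rw [mul_assoc, show (64 : ℤ) = 8 * 8 by norm_num]
    exact mul_dvd_mul (by norm_num) h8
  · rw [mul_assoc (24 : ℤ), ← h]
    have h4 : (24 : ℕ) * (x + 3).choose 4 = x * (x + 1) * (x + 2) * (x + 3) := by
      rw [show (24 : ℕ) = Nat.factorial 4 from rfl, ← Nat.descFactorial_eq_factorial_mul_choose]
      simp [Nat.descFactorial_succ]
      ring
    exact_mod_cast h4.symm

/-- **Three consecutive integers**: `x (x + 1) (x + 2)` is no `2 ^ k y ^ n` divisible by `16`. -/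
theorem three_consecutive_ne_two_pow_mul_pow {n p : ℕ} (hp : p.Prime) (h11 : 11 ≤ p) (hpn : p ∣ n)
    {k : ℕ} {x y : ℤ} (hy : y ≠ 0) (h16 : (16 : ℤ) ∣ 2 ^ k * y ^ n) :
    x * (x + 1) * (x + 2) ≠ 2 ^ k * y ^ n := fun h => by
  obtain ⟨m, rfl⟩ := hpn
  rw [mul_comm p m, pow_mul] at h16 h
  exact FA.Consecutive.mul_sq_sub_one_ne hp h11 (pow_ne_zero _ hy) (m := x + 1) h16
    (by linear_combination h)

/-- **Three consecutive integers do not multiply to a perfect power.** -/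
theorem three_consecutive_ne_pow {n : ℕ} (hn : 2 ≤ n) {x y : ℤ} (hy : y ≠ 0) :
    x * (x + 1) * (x + 2) ≠ y ^ n := by
  intro h
  obtain ⟨a, ha⟩ : ∃ a, (x + 1).natAbs = a := ⟨_, rfl⟩
  obtain ⟨b, hb⟩ : ∃ b, ((x + 1) ^ 2 - 1).natAbs = b := ⟨_, rfl⟩
  have hab : a * b = y.natAbs ^ n := by
    rw [← ha, ← hb, ← Int.natAbs_mul, ← Int.natAbs_pow, ← h]
    congr 1
    ring
  have hy0 : y.natAbs ^ n ≠ 0 := pow_ne_zero _ (Int.natAbs_ne_zero.2 hy)
  have ha0 : a ≠ 0 := fun e => hy0 (by rw [← hab, e, zero_mul])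
  have hb0 : b ≠ 0 := fun e => hy0 (by rw [← hab, e, mul_zero])
  have hrel : b + 1 = a ^ 2 := by
    have h1 : (1 : ℤ) ≤ (x + 1) ^ 2 := by
      have : x + 1 ≠ 0 := fun e => ha0 (by rw [← ha, e]; rfl)
      exact (one_le_sq_iff_one_le_abs _).2 (Int.one_le_abs this)
    zify
    rw [← hb, ← ha, Int.natAbs_of_nonneg (by linarith), Int.natAbs_sq]
    ring
  have hcop : IsUnit (gcd a b) := by
    rw [gcd_eq_nat_gcd, Nat.isUnit_iff]
    refine Nat.eq_one_of_dvd_one ((Nat.dvd_add_right (Nat.gcd_dvd_right a b)).1 ?_)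
    rw [hrel]
    exact (Nat.gcd_dvd_left a b).pow two_ne_zero
  obtain ⟨s, hs⟩ := exists_eq_pow_of_mul_eq_pow hcop hab
  obtain ⟨r, hr⟩ := exists_eq_pow_of_mul_eq_pow (a := b) (b := a)
    (by rwa [gcd_comm]) (by rw [mul_comm, hab])
  have hs0 : s ≠ 0 := fun e => ha0 (by rw [hs, e, zero_pow (by omega)])
  have hr0 : r ≠ 0 := fun e => hb0 (by rw [hr, e, zero_pow (by omega)])
  rw [hs, hr, ← pow_mul, mul_comm n 2, pow_mul] at hrel
  rcases Nat.lt_or_ge n 3 with h3 | h3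
  · obtain rfl : n = 2 := by omega
    have hlt : r < s ^ 2 := Nat.pow_lt_pow_iff_left two_ne_zero |>.1 (by omega)
    have : (r + 1) ^ 2 ≤ (s ^ 2) ^ 2 := Nat.pow_le_pow_left hlt 2
    rw [add_sq, ← hrel] at this
    omega
  · exact FA.Root.fermatLastTheorem_closed n h3 r 1 (s ^ 2) hr0 one_ne_zero (pow_ne_zero _ hs0)
      (by rw [one_pow, hrel])

end FA.Summary

end
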