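import Fermat.Agent.ConsecutiveDivisors.Main

/-!
# Equally many divisors at a fixed distance

Heath-Brown (1984), proving a conjecture of Erdős and Mirsky: `d (n) = d (n + 1)` infinitely often;
Pinner (1997): `d (n) = d (n + s)` for every `s`; Schlage-Puchta (2003), proving a conjecture of
Erdős: `ω (n) = ω (n + 1)` infinitely often. The proof here gives `x / (log x) ^ 500` of them up to
`x` (Heath-Brown had the exponent `7`), the same for `Ω`, and every distance `s ≥ 1` for all three.
-/

set_option autoImplicit false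

noncomputable section

open Finset Filter
open scoped Topology

namespace FA.Summary

/-- **Heath-Brown's lemma**: `k` numbers, any two with gcd equal to their difference, and
multipliers `x` with `x i d (a j / g) = x j d (a i / g)` for `g` the gcd of `a i` and `a j`. -/
theorem heath_brown_difference_gcd (k : ℕ) (hk : 0 < k) : ∃ a x : Fin k → ℕ,
    (∀ i, 0 < a i ∧ 0 < x i) ∧
    (∀ i j, i ≠ j → a j = a i + (a i).gcd (a j) ∨ a i = a j + (a i).gcd (a j)) ∧
    ∀ i j, x i * (a j / (a i).gcd (a j)).divisors.card =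
      x j * (a i / (a i).gcd (a j)).divisors.card := by
  obtain ⟨a, x, h⟩ := FA.ConsecutiveDivisors.exists_compatible one_pos k hk
  exact ⟨a, x, fun i => ⟨h.pos i, h.wpos i⟩, h.step, by simpa only [one_mul] using h.ratio⟩

/-- **Heath-Brown**: `≫ x / (log x) ^ 500` numbers `n ≤ x` have `d (n) = d (n + 1)`. -/
theorem heath_brown_divisor_count : ∃ c : ℝ, 0 < c ∧ ∀ᶠ x : ℕ in atTop,
    c * x / Real.log x ^ 500 ≤
      (((Icc 1 x).filter fun n => n.divisors.card = (n + 1).divisors.card).card : ℝ) :=
  FA.ConsecutiveDivisors.exists_card_divisors_eq one_pos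

/-- The same for the number of prime factors with multiplicity. -/
theorem cardFactors_consecutive_count : ∃ c : ℝ, 0 < c ∧ ∀ᶠ x : ℕ in atTop,
    c * x / Real.log x ^ 500 ≤ (((Icc 1 x).filter fun n =>
      ArithmeticFunction.cardFactors n = ArithmeticFunction.cardFactors (n + 1)).card : ℝ) :=
  FA.ConsecutiveDivisors.exists_cardFactors_eq one_pos

open scoped Classical in
/-- A set with that many numbers up to `x` is infinite. -/
theorem infinite_of_count_lower {P : ℕ → Prop} {c : ℝ} {k : ℕ} (hc : 0 < c)
    (h : ∀ᶠ x : ℕ in atTop, c * x / Real.log x ^ k ≤ (((Icc 1 x).filter P).card : ℝ)) :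
    {n | P n}.Infinite := fun hfin => by
  have hlim := (isLittleO_log_rpow_rpow_atTop (k : ℝ) one_pos).def
    (show 0 < c / ((hfin.toFinset.card : ℝ) + 1) by positivity)
  obtain ⟨x, hx, hl, hx2⟩ := (h.and ((tendsto_natCast_atTop_atTop.eventually hlim).and
    (eventually_ge_atTop 2))).exists
  rw [Real.rpow_natCast, Real.rpow_one, Real.norm_eq_abs, Real.norm_eq_abs, Nat.abs_cast] at hl
  have hL : 0 < Real.log x ^ k := pow_pos (Real.log_pos (Nat.one_lt_cast.2 hx2)) k
  rw [abs_of_pos hL] at hl
  have hcard : (((Icc 1 x).filter P).card : ℝ) ≤ hfin.toFinset.card := Nat.cast_le.2 (card_le_card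
    fun n hn => hfin.mem_toFinset.2 (mem_filter.1 hn).2)
  rw [div_mul_eq_mul_div, le_div_iff₀ (by positivity)] at hl
  rw [div_le_iff₀ hL] at hx
  have := mul_le_mul_of_nonneg_right hcard hL.le
  linarith

/-- **Erdős–Mirsky conjecture**: infinitely many `n` with `d (n) = d (n + 1)`. -/
theorem heath_brown_divisor_infinite :
    {n : ℕ | n.divisors.card = (n + 1).divisors.card}.Infinite := by
  obtain ⟨c, hc, h⟩ := heath_brown_divisor_count
  classical
  exact infinite_of_count_lower hc (by convert h)

/-- Infinitely many `n` with `Ω (n) = Ω (n + 1)`. -/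
theorem cardFactors_consecutive_infinite :
    {n : ℕ | ArithmeticFunction.cardFactors n =
      ArithmeticFunction.cardFactors (n + 1)}.Infinite := by
  obtain ⟨c, hc, h⟩ := cardFactors_consecutive_count
  classical
  exact infinite_of_count_lower hc (by convert h)

/-- **Pinner**: `≫ x / (log x) ^ 500` numbers `n ≤ x` have `d (n) = d (n + s)`. -/
theorem divisor_shift_count (s : ℕ) (hs : 0 < s) : ∃ c : ℝ, 0 < c ∧ ∀ᶠ x : ℕ in atTop,
    c * x / Real.log x ^ 500 ≤
      (((Icc 1 x).filter fun n => n.divisors.card = (n + s).divisors.card).card : ℝ) :=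
  FA.ConsecutiveDivisors.exists_card_divisors_eq hs

/-- The same for `Ω`. -/
theorem cardFactors_shift_count (s : ℕ) (hs : 0 < s) : ∃ c : ℝ, 0 < c ∧ ∀ᶠ x : ℕ in atTop,
    c * x / Real.log x ^ 500 ≤ (((Icc 1 x).filter fun n =>
      ArithmeticFunction.cardFactors n = ArithmeticFunction.cardFactors (n + s)).card : ℝ) :=
  FA.ConsecutiveDivisors.exists_cardFactors_eq hs

/-- **Schlage-Puchta**, at any distance: `≫ x / (log x) ^ 500` numbers `n ≤ x` have
`ω (n) = ω (n + s)`. -/
theorem schlage_puchta_omega_count (s : ℕ) (hs : 0 < s) : ∃ c : ℝ, 0 < c ∧ ∀ᶠ x : ℕ in atTop,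
    c * x / Real.log x ^ 500 ≤
      (((Icc 1 x).filter fun n => n.primeFactors.card = (n + s).primeFactors.card).card : ℝ) :=
  FA.ConsecutiveDivisors.exists_card_primeFactors_eq hs

/-- **Pinner**: infinitely many `n` with `d (n) = d (n + s)`. -/
theorem divisor_shift_infinite (s : ℕ) (hs : 0 < s) :
    {n : ℕ | n.divisors.card = (n + s).divisors.card}.Infinite := by
  obtain ⟨c, hc, h⟩ := divisor_shift_count s hs
  classical
  exact infinite_of_count_lower hc (by convert h)

/-- **Schlage-Puchta**: infinitely many `n` with `ω (n) = ω (n + 1)`. -/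
theorem schlage_puchta_omega_infinite :
    {n : ℕ | n.primeFactors.card = (n + 1).primeFactors.card}.Infinite := by
  obtain ⟨c, hc, h⟩ := schlage_puchta_omega_count 1 one_pos
  classical
  exact infinite_of_count_lower hc (by convert h)

end FA.Summary

end
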