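import Fermat.Agent.ConsecutiveIntegers.Pillai
import Fermat.Agent.ConsecutiveIntegers.Kurschak

/-!
# Consecutive integers: the theorems of Pillai (1940) and Kürschák (1918)
-/

set_option autoImplicit false

namespace FA.Summary

/-- **Pillai**: of `k ≤ 16` consecutive integers one is coprime to all the others. -/
theorem pillai_consecutive {k : ℕ} (hk0 : 0 < k) (hk : k ≤ 16) (m : ℕ) :
    ∃ i < k, ∀ j < k, j ≠ i → Nat.Coprime (m + i) (m + j) :=
  ConsecutiveIntegers.pillai hk0 hk m

/-- Pillai's bound is sharp: each of the `17` consecutive integers from `2184 + 30030 t` on shares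
a factor with another one. -/
theorem pillai_consecutive_sharp (t : ℕ) : ∀ i < 17, ∃ j < 17, j ≠ i ∧
    ¬Nat.Coprime (2184 + 30030 * t + i) (2184 + 30030 * t + j) :=
  ConsecutiveIntegers.sharp t

/-- **Kürschák**: `1 / m + ⋯ + 1 / n` is never an integer for `0 < m < n`. -/
theorem kurschak_reciprocals {m n : ℕ} (hm : 0 < m) (hmn : m < n) (z : ℤ) :
    ∑ i ∈ Finset.Icc m n, (1 : ℚ) / i ≠ z :=
  ConsecutiveIntegers.kurschak hm hmn z

end FA.Summary
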