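import Fermat.Agent.PeriodicFractions.SquareRoot
import Mathlib.NumberTheory.Pell

/-!
# The continued fraction of `√d`, Pell's equation, Serret's theorem

* `serret_equivalence` (Serret): two irrational numbers share a tail of their continued fractions
  iff an integral Möbius map of determinant `± 1` carries one to the other;
* `sqrt_period` (Euler, Lagrange): the fraction of `√d` is periodic from its first partial quotient,
  the period ends in `2 ⌊√d⌋` and is symmetric before that;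
* `sqrt_pell`: the positive solutions of `x² - d y² = ± 1` are the convergents ending a period, the
  sign being the parity of their index;
* `sqrt_negative_pell`: `x² - d y² = -1` is solvable iff the period is odd;
* `sqrt_fundamental_solution`: the fundamental solution of Pell's equation is the convergent that
  ends the first period of even length.
-/

set_option autoImplicit false

noncomputable section

open GenContFract FA.PeriodicFractions

namespace FA.Summary

/-- **Serret's theorem.** -/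
theorem serret_equivalence {x y : ℝ} (hx : Irrational x) (hy : Irrational y) :
    (∃ m n, ∀ k, (GenContFract.of x).s.get? (m + k) = (GenContFract.of y).s.get? (n + k)) ↔
      ∃ a b c e : ℤ, |a * e - b * c| = 1 ∧ y = (a * x + b) / (c * x + e) := by
  have he : ∀ i j, (GenContFract.of x).s.get? i = (GenContFract.of y).s.get? j ↔
      digit x (i + 1) = digit y (j + 1) := fun i j => by simp [get?_of hx, get?_of hy]
  have h1 : (∃ m n, ∀ k, (GenContFract.of x).s.get? (m + k) = (GenContFract.of y).s.get? (n + k)) ↔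
      ∃ m n, cq x m = cq y n := by
    simp only [he]
    refine ⟨fun ⟨m, n, h⟩ => ⟨m + 1, n + 1, (cq_eq_iff_digit hx hy _ _).2 fun k => ?_⟩,
      fun ⟨m, n, h⟩ => ⟨m, n, fun k => ?_⟩⟩
    · rw [Nat.add_right_comm, Nat.add_right_comm n]
      exact h k
    · exact (cq_eq_iff_digit hx hy _ _).1 h (k + 1)
  rw [h1, serret hx hy]
  refine exists_congr fun a => exists_congr fun b => exists_congr fun c => exists_congr fun e =>
    and_congr_right fun hdet => ⟨fun h => ?_, fun h => ?_⟩
  · refine (eq_div_iff fun h0 => ?_).2 h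
    rw [h0, mul_zero] at h
    rcases eq_or_ne c 0 with rfl | hc
    · have : (e : ℝ) = 0 := by simpa using h0
      simp [Int.cast_eq_zero.1 this] at hdet
    · refine hx.ne_rational (-e) c ?_
      rw [eq_div_iff (Int.cast_ne_zero.2 hc), Int.cast_neg]
      linarith
  · have hne : (c : ℝ) * x + e ≠ 0 := fun h0 => hy.ne_int 0 (by simp [h, h0])
    exact (eq_div_iff hne).1 h

/-- **The period of the continued fraction of `√d`.** -/
theorem sqrt_period {d : ℕ} (hd : ¬IsSquare d) : ∃ k, 0 < k ∧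
    (∀ K, (∀ n, (GenContFract.of √(d : ℝ)).s.get? (n + K) =
      (GenContFract.of √(d : ℝ)).s.get? n) ↔ k ∣ K) ∧
    (GenContFract.of √(d : ℝ)).s.get? (k - 1) = some ⟨1, 2 * (Nat.sqrt d : ℝ)⟩ ∧
    ∀ i j, i + j + 2 = k →
      (GenContFract.of √(d : ℝ)).s.get? i = (GenContFract.of √(d : ℝ)).s.get? j := by
  have hs := irrational_sqrt_natCast_iff.2 hd
  obtain ⟨k, hk, hper⟩ := exists_period hd
  refine ⟨k, hk, fun K => ?_, ?_, fun i j hij => ?_⟩
  · rw [← periodic_from_one_iff hd hk hper K]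
    refine forall_congr' fun n => ?_
    simp [get?_of hs, Nat.add_right_comm n K 1]
  · obtain ⟨j, rfl⟩ : ∃ j, k = j + 1 := ⟨k - 1, by omega⟩
    rw [Nat.add_sub_cancel, get?_of hs, ← digit_shifted_succ, digit,
      (hper _).2 dvd_rfl, ← show digit (shifted d) 0 = ⌊shifted d⌋ from rfl,
      digit_shifted_zero hd]
    push_cast
    rfl
  · rw [get?_of hs, get?_of hs, ← digit_shifted_succ, ← digit_shifted_succ,
      palindrome hd ((hper k).2 dvd_rfl) i (j + 1) (by omega)]

/-- A number whose multiples are the periods is the least one. -/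
theorem period_spec {d : ℕ} (hd : ¬IsSquare d) {k : ℕ}
    (h : ∀ K, (∀ n, (GenContFract.of √(d : ℝ)).s.get? (n + K) =
      (GenContFract.of √(d : ℝ)).s.get? n) ↔ k ∣ K) (m : ℕ) :
    cq (shifted d) m = shifted d ↔ k ∣ m := by
  obtain ⟨k', hk', hper⟩ := exists_period hd
  have hiff : ∀ K, k ∣ K ↔ k' ∣ K := fun K => by
    rw [← h K, ← periodic_from_one_iff hd hk' hper K]
    refine forall_congr' fun n => ?_
    simp [get?_of (irrational_sqrt_natCast_iff.2 hd), Nat.add_right_comm n K 1]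
  rw [hper m, hiff m]

/-- **The positive solutions of `x² - d y² = ± 1`.** -/
theorem sqrt_pell {d : ℕ} (hd : ¬IsSquare d) {k : ℕ}
    (h : ∀ K, (∀ n, (GenContFract.of √(d : ℝ)).s.get? (n + K) =
      (GenContFract.of √(d : ℝ)).s.get? n) ↔ k ∣ K) :
    (∀ x y : ℤ, 0 < x → 0 < y → x ^ 2 - d * y ^ 2 = 1 ∨ x ^ 2 - d * y ^ 2 = -1 →
      ∃ n, k ∣ n + 1 ∧ (GenContFract.of √(d : ℝ)).nums n = x ∧
        (GenContFract.of √(d : ℝ)).dens n = y) ∧
    ∀ n, k ∣ n + 1 → ∃ x y : ℤ, (GenContFract.of √(d : ℝ)).nums n = x ∧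
      (GenContFract.of √(d : ℝ)).dens n = y ∧ 0 < x ∧ 0 < y ∧
        x ^ 2 - d * y ^ 2 = (-1) ^ (n + 1) := by
  have hs := irrational_sqrt_natCast_iff.2 hd
  have hper := period_spec hd h
  refine ⟨fun x y hx hy hxy => ?_, fun n hn => ?_⟩
  · obtain ⟨n, p', q', hn, hcq, hc⟩ := cq_of_pell hd hx hy hxy
    obtain ⟨m, rfl⟩ : ∃ m, n = m + 1 := ⟨n - 1, by omega⟩
    rw [← cq_shifted_succ, hper] at hcq
    exact ⟨m, hcq, by rw [(nums_dens hs m).1, hc], by rw [(nums_dens hs m).2, hc]⟩
  · obtain ⟨p, p', q, q', hc, -⟩ := contin_spec hs (n + 1)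
    have hcq : cq √(d : ℝ) (n + 1) = shifted d := by rw [← cq_shifted_succ, hper]; exact hn
    obtain ⟨e, hp, hq⟩ := pell_of_cq hd n.succ_pos hcq hc
    exact ⟨p, q, by rw [(nums_dens hs n).1, hc], by rw [(nums_dens hs n).2, hc], hp, hq, e⟩

/-- **The negative Pell equation and the parity of the period.** -/
theorem sqrt_negative_pell {d : ℕ} (hd : ¬IsSquare d) {k : ℕ} (hk : 0 < k)
    (h : ∀ K, (∀ n, (GenContFract.of √(d : ℝ)).s.get? (n + K) =
      (GenContFract.of √(d : ℝ)).s.get? n) ↔ k ∣ K) :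
    (∃ x y : ℤ, x ^ 2 - d * y ^ 2 = -1) ↔ Odd k :=
  negativePell_iff_odd hd hk (period_spec hd h)

/-- **The fundamental solution of Pell's equation.** -/
theorem sqrt_fundamental_solution {d : ℕ} (hd : ¬IsSquare d) {k : ℕ} (hk : 0 < k)
    (h : ∀ K, (∀ n, (GenContFract.of √(d : ℝ)).s.get? (n + K) =
      (GenContFract.of √(d : ℝ)).s.get? n) ↔ k ∣ K)
    {a : Pell.Solution₁ (d : ℤ)} (ha : Pell.IsFundamental a) :
    (GenContFract.of √(d : ℝ)).nums (Nat.lcm 2 k - 1) = (a.x : ℝ) ∧
      (GenContFract.of √(d : ℝ)).dens (Nat.lcm 2 k - 1) = (a.y : ℝ) := by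
  have hs := irrational_sqrt_natCast_iff.2 hd
  have hper := period_spec hd h
  have hd0 : (0 : ℤ) < d := by
    rcases Nat.eq_zero_or_pos d with rfl | h0
    · exact absurd IsSquare.zero hd
    · exact_mod_cast h0
  obtain ⟨L, hL⟩ : ∃ L, Nat.lcm 2 k = L + 1 :=
    ⟨Nat.lcm 2 k - 1, by have := Nat.lcm_pos two_pos hk; omega⟩
  rw [hL, Nat.add_sub_cancel, (nums_dens hs L).1, (nums_dens hs L).2]
  obtain ⟨p, p', q, q', hc, -⟩ := contin_spec hs (L + 1)
  have hcq : cq √(d : ℝ) (L + 1) = shifted d := by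
    rw [← cq_shifted_succ, hper, ← hL]
    exact Nat.dvd_lcm_right _ _
  obtain ⟨e, hp, hq⟩ := pell_of_cq hd L.succ_pos hcq hc
  rw [(even_iff_two_dvd.2 ((Nat.dvd_lcm_left 2 k).trans hL.dvd)).neg_one_pow] at e
  have hp1 : 1 < p := by
    by_contra! hle
    obtain rfl : p = 1 := by omega
    nlinarith [one_le_pow₀ (n := 2) (Int.add_one_le_iff.2 hq)]
  obtain ⟨ha1, ha2, hmin⟩ := ha
  have hle : a.x ≤ p := hmin (b := Pell.Solution₁.mk p q e) hp1
  obtain ⟨n, r', s', hn, hcn, hc'⟩ := cq_of_pell hd (by omega) ha2 (Or.inl a.prop)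
  obtain ⟨m, rfl⟩ : ∃ m, n = m + 1 := ⟨n - 1, by omega⟩
  have hev : 2 ∣ m + 1 := by
    have := (pell_of_cq hd m.succ_pos hcn hc').1
    rw [a.prop] at this
    rw [← even_iff_two_dvd, ← Nat.not_odd_iff_even]
    intro hodd
    rw [hodd.neg_one_pow] at this
    omega
  rw [← cq_shifted_succ, hper] at hcn
  obtain ⟨t, ht⟩ : ∃ t, m + 1 = L + 1 + t := by
    refine Nat.exists_eq_add_of_le ?_
    rw [← hL]
    exact Nat.le_of_dvd m.succ_pos (Nat.lcm_dvd hev hcn)
  have hqy : q ≤ a.y := by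
    have := contin_den_mono hs L t
    rwa [← ht, hc, hc'] at this
  have hsq : p ^ 2 ≤ a.x ^ 2 := by
    have := mul_le_mul_of_nonneg_left (pow_le_pow_left₀ hq.le hqy 2) hd0.le
    linarith [a.prop]
  have hpx : p = a.x := le_antisymm ((pow_le_pow_iff_left₀ hp.le (by omega) two_ne_zero).1 hsq) hle
  have hqy' : q = a.y := by
    refine (pow_left_inj₀ hq.le ha2.le two_ne_zero).1 (mul_left_cancel₀ hd0.ne' ?_)
    have := a.prop
    rw [← hpx] at this
    linarith
  rw [hc, ← hpx, ← hqy']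
  exact ⟨rfl, rfl⟩

end FA.Summary

end
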