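import Fermat.Agent.Tau.ContractionModP

/-!
# `U_p` lowers the weight of forms modulo `p`

For `p ≥ 5` the operator `U` maps forms modulo `p` of weight `k` to forms of weight at most
`p + (k - 1) / p`; so its iterates land in weight at most `p + 1`, and the ordinary eigenforms
(eigenvalue not zero) all have a weight at most `p + 1`.
-/

set_option autoImplicit false

noncomputable section

open UpperHalfPlane
open scoped MatrixGroups

namespace FA.Summary

variable {p : ℕ} [Fact p.Prime]

/-- **Serre**: `U` contracts the weights. -/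
theorem uOperator_contraction (h5 : 5 ≤ p) {k : ℕ} {f : PowerSeries (ZMod p)} :
    let W : PowerSeries (ZMod p) → Set ℕ := fun g => {n | ∃ (G : ModularForm 𝒮ℒ (n : ℤ))
      (T : PowerSeries ℤ), qExpansion 1 ⇑G = T.map (Int.castRingHom ℂ) ∧
        T.map (Int.castRingHom (ZMod p)) = g}
    k ∈ W f → ∃ n ≤ p + (k - 1) / p,
      n ∈ W (PowerSeries.mk fun m => PowerSeries.coeff (m * p) f) :=
  fun h => FA.SwinnertonDyer.exists_weight_uOp h5 h

/-- **Ordinary forms have small weight**: if `U f = c f` with `c ≠ 0` then `f` has a weight at most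
`p + 1`. -/
theorem ordinary_weight_bound (h5 : 5 ≤ p) {k : ℕ} {f : PowerSeries (ZMod p)} {c : ZMod p}
    (hc : c ≠ 0) (he : ∀ m, PowerSeries.coeff (m * p) f = c * PowerSeries.coeff m f) :
    let W : PowerSeries (ZMod p) → Set ℕ := fun g => {n | ∃ (G : ModularForm 𝒮ℒ (n : ℤ))
      (T : PowerSeries ℤ), qExpansion 1 ⇑G = T.map (Int.castRingHom ℂ) ∧
        T.map (Int.castRingHom (ZMod p)) = g}
    k ∈ W f → ∃ n ≤ p + 1, n ∈ W f :=
  fun h => FA.SwinnertonDyer.exists_weight_of_uOp_eq h5 h hc (PowerSeries.ext fun m => by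
    rw [SwinnertonDyer.uOp, PowerSeries.coeff_mk, PowerSeries.coeff_C_mul, he])

/-- **The iterates of `U`** land in weight at most `p + 1`. -/
theorem uOperator_iterate_bound (h5 : 5 ≤ p) {k : ℕ} {f : PowerSeries (ZMod p)} :
    let W : PowerSeries (ZMod p) → Set ℕ := fun g => {n | ∃ (G : ModularForm 𝒮ℒ (n : ℤ))
      (T : PowerSeries ℤ), qExpansion 1 ⇑G = T.map (Int.castRingHom ℂ) ∧
        T.map (Int.castRingHom (ZMod p)) = g}
    k ∈ W f → ∀ i, k ≤ i → ∃ n ≤ p + 1,
      n ∈ W ((fun g => PowerSeries.mk fun m => PowerSeries.coeff (m * p) g)^[i] f) := by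
  intro W h i hi
  obtain ⟨n, hn, hn'⟩ := FA.SwinnertonDyer.exists_weight_uOp_iterate h5 h i
  exact ⟨n, by omega, hn'⟩

end FA.Summary

end
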