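import Fermat.Agent.CopelandErdos.Main

/-!
# The theorem of Copeland and Erdős

Let `a` be a strictly increasing sequence of positive integers with `a n ≤ n ^ (1 + ε)` eventually
for every `ε > 0`, and `d` the sequence of the base `b` digits of `a 0, a 1, …` written one after
another, most significant first (`hd`; such a `d` exists, `copeland_erdos_stream`).

* `copeland_erdos`: every block of length `k` occurs in `d` with frequency `b ^ (-k)`;
* `copeland_erdos_primes`: so this holds for the digits of `2, 3, 5, 7, 11, …`: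
  the number `0.235711131719…` is normal in base ten, and its analogue in every base is normal;
* `copeland_erdos_irrational`: these numbers are irrational.

Complements `SummaryChampernowne`; independent of S01.
-/

set_option autoImplicit false

noncomputable section

open Finset Filter Topology

namespace FA.Summary

/-- The digit streams exist. -/
theorem copeland_erdos_stream {b : ℕ} (hb : 2 ≤ b) {a : ℕ → ℕ} (ha : ∀ n, 0 < a n) :
    ∃ d : ℕ → Fin b, ∀ n,
      (List.range (∑ m ∈ range n, (Nat.log b (a m) + 1))).map (fun i => (d i : ℕ)) =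
        ((List.range n).map fun m => (Nat.digits b (a m)).reverse).flatten :=
  ⟨fun i => ⟨FA.CopelandErdos.streamDigit b a i, FA.CopelandErdos.streamDigit_lt (by omega) i⟩,
    FA.CopelandErdos.digits_flatten hb ha⟩

private theorem digit_unique {b : ℕ} (hb : 2 ≤ b) {a : ℕ → ℕ} (ha : ∀ n, 0 < a n)
    {d : ℕ → Fin b}
    (hd : ∀ n, (List.range (∑ m ∈ range n, (Nat.log b (a m) + 1))).map (fun i => (d i : ℕ)) =
        ((List.range n).map fun m => (Nat.digits b (a m)).reverse).flatten) (i : ℕ) :
    (d i : ℕ) = FA.CopelandErdos.streamDigit b a i :=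
  List.map_inj_left.1 ((hd (i + 1)).trans (FA.CopelandErdos.digits_flatten hb ha (i + 1)).symm) i
    (List.mem_range.2 (FA.CopelandErdos.le_wordStart (b := b) (a := a) (i + 1)))

/-- **The theorem of Copeland and Erdős.** -/
theorem copeland_erdos {b : ℕ} (hb : 2 ≤ b) {a : ℕ → ℕ} (hmono : StrictMono a)
    (ha : ∀ n, 0 < a n)
    (hgrow : ∀ ε : ℝ, 0 < ε → ∀ᶠ n : ℕ in atTop, (a n : ℝ) ≤ (n : ℝ) ^ (1 + ε))
    {d : ℕ → Fin b}
    (hd : ∀ n, (List.range (∑ m ∈ range n, (Nat.log b (a m) + 1))).map (fun i => (d i : ℕ)) =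
        ((List.range n).map fun m => (Nat.digits b (a m)).reverse).flatten)
    (k : ℕ) (w : Fin k → Fin b) :
    Tendsto (fun N : ℕ => (#((range N).filter fun i => ∀ j : Fin k, d (i + j) = w j) : ℝ) / N)
      atTop (𝓝 (1 / (b : ℝ) ^ k)) := by
  rcases Nat.eq_zero_or_pos k with rfl | hk
  · refine (tendsto_congr' ?_).2 tendsto_const_nhds
    filter_upwards [eventually_ne_atTop 0] with N hN
    simp [hN]
  let f : ℕ → ℕ := fun j => if h : j < k then (w ⟨j, h⟩ : ℕ) else 0
  have hf : ∀ j < k, f j < b := fun j hj => by simp [f, hj]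
  refine (FA.CopelandErdos.tendsto_frequency hb hmono ha hgrow hk
    (FA.NormalNumbers.blockValue_lt hf)).congr fun N => ?_
  rw [Nat.count_eq_card_filter_range]
  refine congrArg (fun s : Finset ℕ => (s.card : ℝ) / N) (Finset.filter_congr fun i _ => ?_)
  rw [FA.CopelandErdos.streamWindow, FA.NormalNumbers.blockValue_eq_iff
    (fun _ _ => FA.CopelandErdos.streamDigit_lt (by omega) _) hf]
  simp only [Fin.ext_iff, digit_unique hb ha hd]
  exact ⟨fun h j => (h j j.2).trans (by simp [f]),
    fun h j hj => (h ⟨j, hj⟩).trans (by simp [f, hj])⟩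

/-- **The primes written one after another give a normal number.** -/
theorem copeland_erdos_primes {b : ℕ} (hb : 2 ≤ b) {d : ℕ → Fin b}
    (hd : ∀ n,
      (List.range (∑ m ∈ range n, (Nat.log b (Nat.nth Nat.Prime m) + 1))).map
          (fun i => (d i : ℕ)) =
        ((List.range n).map fun m => (Nat.digits b (Nat.nth Nat.Prime m)).reverse).flatten)
    (k : ℕ) (w : Fin k → Fin b) :
    Tendsto (fun N : ℕ => (#((range N).filter fun i => ∀ j : Fin k, d (i + j) = w j) : ℝ) / N)
      atTop (𝓝 (1 / (b : ℝ) ^ k)) :=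
  copeland_erdos hb (Nat.nth_strictMono Nat.infinite_setOfPred_prime)
    (fun n => (Nat.prime_nth_prime n).pos) FA.CopelandErdos.subpolynomial_nth_prime hd k w

/-- **Irrationality.** -/
theorem copeland_erdos_irrational {b : ℕ} (hb : 2 ≤ b) {a : ℕ → ℕ} (hmono : StrictMono a)
    (ha : ∀ n, 0 < a n)
    (hgrow : ∀ ε : ℝ, 0 < ε → ∀ᶠ n : ℕ in atTop, (a n : ℝ) ≤ (n : ℝ) ^ (1 + ε))
    {d : ℕ → Fin b}
    (hd : ∀ n, (List.range (∑ m ∈ range n, (Nat.log b (a m) + 1))).map (fun i => (d i : ℕ)) =
        ((List.range n).map fun m => (Nat.digits b (a m)).reverse).flatten) :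
    Irrational (Real.ofDigits d) :=
  FA.CopelandErdos.irrational_of_normal hb (digit_unique hb ha hd) hmono ha hgrow

end FA.Summary

end
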