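import Fermat.Agent.Coppersmith.Roots

/-!
# Coppersmith's small roots of modular polynomials (1996)

* `coppersmith`: for monic `f : ℤ[X]` of degree `d`, `n = d m` and
  `n² 2 ^ (n-1) X ^ (2 (n-1)) < N ^ (2 (m-1))`, a nonzero integral polynomial of degree below `n`,
  the first vector of a reduced lattice basis, vanishes at every `|x| ≤ X` with `N ∣ f x`.
* `small_roots_count`: at most `C (d, ε)` integers `|x| ≤ N ^ (1/d - ε)` have `N ∣ f x`, for every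
  `N` and every monic `f` of degree `d`.
* `small_roots_sharp`: with `1/d + ε` there is no such bound.
-/

set_option autoImplicit false

noncomputable section

namespace FA.Coppersmith.Summary

open Polynomial

theorem coppersmith {f : ℤ[X]} (hf : f.Monic) (hd : 0 < f.natDegree) {m N X : ℕ} (hm : 0 < m)
    (hN : 0 < N) (hX : 0 < X)
    (h : (f.natDegree * m) ^ 2 * 2 ^ (f.natDegree * m - 1) *
      X ^ (2 * (f.natDegree * m - 1)) < N ^ (2 * (m - 1))) :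
    ∃ G : ℤ[X], G ≠ 0 ∧ G.natDegree < f.natDegree * m ∧
      ∀ x : ℤ, x.natAbs ≤ X → (N : ℤ) ∣ f.eval x → G.eval x = 0 :=
  exists_root_polynomial hf hd hm hN hX h

theorem small_roots_count {d : ℕ} (hd : 0 < d) {ε : ℝ} (hε : 0 < ε) :
    ∃ C : ℕ, ∀ (N : ℕ) (f : ℤ[X]), f.Monic → f.natDegree = d → ∀ s : Finset ℤ,
      (∀ x ∈ s, (N : ℤ) ∣ f.eval x ∧ |(x : ℝ)| ≤ (N : ℝ) ^ (1 / (d : ℝ) - ε)) → s.card ≤ C :=
  exists_count_bound hd hε

theorem small_roots_sharp {d : ℕ} (hd : 0 < d) {ε : ℝ} (hε : 0 < ε) (C : ℕ) :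
    ∃ (N : ℕ) (f : ℤ[X]), 1 < N ∧ f.Monic ∧ f.natDegree = d ∧ ∃ s : Finset ℤ,
      (∀ x ∈ s, (N : ℤ) ∣ f.eval x ∧ |(x : ℝ)| ≤ (N : ℝ) ^ (1 / (d : ℝ) + ε)) ∧ C < s.card :=
  exists_many_roots hd hε C

end FA.Coppersmith.Summary
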