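import Fermat.Agent.CorvajaZannier.PeriodTheorem
import Mathlib.Analysis.Real.Sqrt
import Mathlib.NumberTheory.Real.Irrational

/-!
# Mahler's problem: powers of algebraic numbers near the integers

Corvaja and Zannier (2004): for algebraic `α > 1` the distance of `α ^ n` to the integers is below
`l ^ n`, some `l < 1`, infinitely often iff a power of `α` is a Pisot number; otherwise it exceeds
`e ^ (-ε n)` for all large `n`, also for `λ α ^ n` with algebraic `λ ≠ 0`. This extends Mahler's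
theorem on `(3 / 2) ^ n` (`SummaryRidout`) to all algebraic numbers; ineffective.

The main theorem behind it, for the powers of one number: apart from finitely many pairs `(q, n)`
a number `q λ α ^ n` above one in absolute value within `l ^ n q ^ (-d - ε)` of an integer, `d` the
degree of `α`, equals the integer or is pseudo-Pisot (its other conjugates inside the unit disc,
its trace an integer).

Mendès France's problem (`corvaja_zannier_period`): for a real quadratic irrational `α > 0` the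
period of the continued fraction of `α ^ n` tends to infinity iff `α ^ 2` is irrational and `α` is
not a unit of the algebraic integers. Both exclusions are necessary and these are all: if `α ^ 2`
is rational, the powers `α ^ (2 k)` are rational with finite fractions; if `α` is a unit, the
fractions of `α ^ n` have period two for large `n`.
-/

set_option autoImplicit false

noncomputable section

namespace FA.Summary

open FA.PisotCriterion

/-- **Corvaja–Zannier**: if `λ α ^ n` is geometrically near the integers infinitely often, a power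
of `α` is a Pisot number. -/
theorem corvaja_zannier_pisot {α lam : ℝ} (hα : 1 < α) (halg : IsAlgebraic ℚ α) (hlam0 : lam ≠ 0)
    (hlam : IsAlgebraic ℚ lam) {l : ℝ} (hl0 : 0 < l) (hl : l < 1)
    (hinf : {n : ℕ | |lam * α ^ n - round (lam * α ^ n)| < l ^ n}.Infinite) :
    ∃ h : ℕ, 0 < h ∧ IsPisot (α ^ h) :=
  CorvajaZannier.exists_pow_isPisot hα halg hlam0 hlam hl0 hl hinf

/-- **Mahler's problem solved**: the characterisation. -/
theorem mahler_problem_iff {α : ℝ} (hα : 1 < α) (halg : IsAlgebraic ℚ α) :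
    (∃ l : ℝ, 0 < l ∧ l < 1 ∧ {n : ℕ | |α ^ n - round (α ^ n)| < l ^ n}.Infinite) ↔
      ∃ h : ℕ, 0 < h ∧ IsPisot (α ^ h) := by
  refine ⟨fun ⟨l, hl0, hl, hinf⟩ => ?_, fun ⟨h, hh, hP⟩ =>
    CorvajaZannier.exists_infinite_near hh hP⟩
  exact corvaja_zannier_pisot hα halg one_ne_zero isAlgebraic_one hl0 hl
    (by simpa only [one_mul] using hinf)

/-- **No Pisot power**: `λ α ^ n` stays subexponentially away from the integers. -/
theorem powers_near_integers_finite {α lam : ℝ} (hα : 1 < α) (halg : IsAlgebraic ℚ α)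
    (hlam0 : lam ≠ 0) (hlam : IsAlgebraic ℚ lam) (hP : ∀ h : ℕ, 0 < h → ¬IsPisot (α ^ h)) {ε : ℝ}
    (hε : 0 < ε) :
    {n : ℕ | |lam * α ^ n - round (lam * α ^ n)| < Real.exp (-(ε * n))}.Finite := by
  by_contra h
  have hinf : {n : ℕ | |lam * α ^ n - round (lam * α ^ n)| < Real.exp (-ε) ^ n}.Infinite := by
    simp only [← Real.exp_nat_mul, mul_neg, mul_comm _ ε]
    exact h
  obtain ⟨k, hk, hk'⟩ := corvaja_zannier_pisot hα halg hlam0 hlam (Real.exp_pos (-ε))
    (Real.exp_lt_one_iff.2 (neg_neg_of_pos hε)) hinf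
  exact hP k hk hk'

/-- A rational number that is no integer has no Pisot power. -/
theorem not_isPisot_rat_pow {q : ℚ} (hden : q.den ≠ 1) {h : ℕ} (hh : 0 < h) :
    ¬IsPisot ((q : ℝ) ^ h) := by
  rintro ⟨-, hint, -⟩
  obtain ⟨z, hz⟩ := (IsIntegrallyClosed.isIntegral_iff (R := ℤ) (K := ℚ)).1
    (IsIntegral.of_pow hh ((isIntegral_algebraMap_iff (R := ℤ) (A := ℚ) (B := ℝ) (x := q ^ h)
      (algebraMap ℚ ℝ).injective).1 (by simpa using hint)))
  exact hden (by rw [← hz]; simp)

/-- **`λ q ^ n` for rational `q`**, in particular `(3 / 2) ^ n`, for every algebraic `λ ≠ 0`. -/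
theorem rational_powers_near_integers_finite {q : ℚ} (hq : 1 < q) (hden : q.den ≠ 1) {lam : ℝ}
    (hlam0 : lam ≠ 0) (hlam : IsAlgebraic ℚ lam) {ε : ℝ} (hε : 0 < ε) :
    {n : ℕ | |lam * (q : ℝ) ^ n - round (lam * (q : ℝ) ^ n)| < Real.exp (-(ε * n))}.Finite :=
  powers_near_integers_finite (show (1 : ℝ) < (q : ℝ) by exact_mod_cast hq)
    (isAlgebraic_algebraMap q) hlam0 hlam
    (fun _ hh => not_isPisot_rat_pow hden hh) hε

open Polynomial in
/-- **The main theorem of Corvaja and Zannier** for the multiples of powers. -/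
theorem corvaja_zannier_multiples {α lam : ℝ} (hα0 : α ≠ 0) (halg : IsAlgebraic ℚ α)
    (hlam0 : lam ≠ 0) (hlam : IsAlgebraic ℚ lam) {l ε : ℝ} (hl0 : 0 < l) (hl : l < 1)
    (hε : 0 < ε) :
    {x : ℕ × ℕ | 0 < x.1 ∧ 1 < |(x.1 : ℝ) * (lam * α ^ x.2)| ∧
      ¬(1 < |(x.1 : ℝ) * (lam * α ^ x.2)| ∧ IsAlgebraic ℚ ((x.1 : ℝ) * (lam * α ^ x.2)) ∧
        (∀ z : ℂ, aeval z (minpoly ℚ ((x.1 : ℝ) * (lam * α ^ x.2))) = 0 →
          z ≠ (((x.1 : ℝ) * (lam * α ^ x.2) : ℝ) : ℂ) → ‖z‖ < 1) ∧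
        ∃ t : ℤ, (minpoly ℚ ((x.1 : ℝ) * (lam * α ^ x.2))).nextCoeff = t) ∧
      0 < |(x.1 : ℝ) * (lam * α ^ x.2) - round ((x.1 : ℝ) * (lam * α ^ x.2))| ∧
      |(x.1 : ℝ) * (lam * α ^ x.2) - round ((x.1 : ℝ) * (lam * α ^ x.2))| <
        l ^ x.2 * (x.1 : ℝ) ^ (-(((minpoly ℚ α).natDegree : ℝ) + ε))}.Finite :=
  CorvajaZannier.finite_not_pseudoPisot hα0 halg hlam0 hlam hl0 hl hε

open Polynomial in
/-- **Rational data**: a non-integral rational is never pseudo-Pisot, so only finitely many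
`q r ρ ^ n` are within `l ^ n q ^ (-1 - ε)` of an integer different from them. -/
theorem corvaja_zannier_rational {ρ r : ℚ} (hρ : ρ ≠ 0) (hr : r ≠ 0) {l ε : ℝ} (hl0 : 0 < l)
    (hl : l < 1) (hε : 0 < ε) :
    {x : ℕ × ℕ | 0 < x.1 ∧ 1 < |(x.1 : ℝ) * ((r : ℝ) * (ρ : ℝ) ^ x.2)| ∧
      0 < |(x.1 : ℝ) * ((r : ℝ) * (ρ : ℝ) ^ x.2) -
        round ((x.1 : ℝ) * ((r : ℝ) * (ρ : ℝ) ^ x.2))| ∧
      |(x.1 : ℝ) * ((r : ℝ) * (ρ : ℝ) ^ x.2) - round ((x.1 : ℝ) * ((r : ℝ) * (ρ : ℝ) ^ x.2))| <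
        l ^ x.2 * (x.1 : ℝ) ^ (-(1 + ε))}.Finite := by
  refine (CorvajaZannier.finite_not_pseudoPisot (α := (ρ : ℝ)) (lam := (r : ℝ))
    (Rat.cast_ne_zero.2 hρ) (isAlgebraic_algebraMap ρ) (Rat.cast_ne_zero.2 hr)
    (isAlgebraic_algebraMap r) hl0 hl hε).subset ?_
  rintro ⟨q, n⟩ ⟨h0, h1, h2, h3⟩
  refine ⟨h0, h1, fun hP => ?_, h2, ?_⟩
  · obtain ⟨-, -, -, t, ht⟩ := hP
    have hx : ((q : ℝ) * ((r : ℝ) * (ρ : ℝ) ^ n)) = algebraMap ℚ ℝ ((q : ℚ) * (r * ρ ^ n)) := by
      rw [eq_ratCast]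
      push_cast
      rfl
    rw [hx, minpoly.eq_X_sub_C, nextCoeff_X_sub_C] at ht
    refine h2.ne' ?_
    dsimp only
    rw [hx, show ((q : ℚ) * (r * ρ ^ n)) = ((-t : ℤ) : ℚ) by push_cast; linarith, eq_ratCast,
      Rat.cast_intCast, round_intCast, sub_self, abs_zero]
  · dsimp only
    rwa [show minpoly ℚ (ρ : ℝ) = X - C ρ from minpoly.eq_X_sub_C ℝ ρ, natDegree_X_sub_C,
      Nat.cast_one]

open Polynomial in
/-- An algebraic integer without Pisot powers: `1 + √5`, whose conjugate is `1 - √5 < -1`. -/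
theorem one_add_sqrt_five_near_integers_finite {ε : ℝ} (hε : 0 < ε) :
    {n : ℕ | |(1 + √5) ^ n - round ((1 + √5) ^ n)| < Real.exp (-(ε * n))}.Finite := by
  have h5 : √5 * √5 = (5 : ℝ) := Real.mul_self_sqrt (by norm_num)
  have h2 : 2 < √5 := by nlinarith [Real.sqrt_nonneg (5 : ℝ)]
  set α : ℝ := 1 + √5
  have hpoly : ∀ x : ℝ, aeval x (X ^ 2 - C (2 : ℚ) * X - C 4) = x ^ 2 - 2 * x - 4 := fun x => by
    simp
  have hm : (X ^ 2 - C (2 : ℚ) * X - C 4).Monic := by monicity!
  have hirr : Irrational √5 := by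
    simpa using Nat.Prime.irrational_sqrt (show Nat.Prime 5 by norm_num)
  have key : ∀ f : ℚ[X], aeval α f = 0 → aeval (1 - √5) f = 0 := fun f hf => by
    set g := X ^ 2 - C (2 : ℚ) * X - C 4
    have hg : ∀ x : ℝ, x = α ∨ x = 1 - √5 → aeval x g = 0 := by
      rintro x (rfl | rfl) <;> rw [hpoly]
      · simp only [α]; linear_combination h5
      · linear_combination h5
    have hdeg : (f %ₘ g).natDegree ≤ 1 := by
      have h := natDegree_modByMonic_lt f hm (fun h => by
        have h4 := congrArg (coeff · 0) h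
        simp [g] at h4
        norm_num at h4)
      have hd : g.natDegree = 2 := by simp only [g]; compute_degree!
      omega
    have hval : ∀ x : ℝ, x = α ∨ x = 1 - √5 → aeval x f = aeval x (f %ₘ g) := fun x hx => by
      conv_lhs => rw [← modByMonic_add_div f g]
      simp [hg x hx]
    obtain ⟨c₁, c₀, hc⟩ := exists_eq_X_add_C_of_natDegree_le_one hdeg
    rw [hval _ (Or.inl rfl), hc] at hf
    rw [hval _ (Or.inr rfl), hc]
    simp only [map_add, map_mul, aeval_C, aeval_X, eq_ratCast] at hf ⊢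
    have hc1 : c₁ = 0 := by
      by_contra hne
      refine hirr ⟨-c₀ / c₁ - 1, ?_⟩
      have hne' : (c₁ : ℝ) ≠ 0 := Rat.cast_ne_zero.2 hne
      push_cast
      rw [div_sub_one hne', div_eq_iff hne']
      simp only [α] at hf
      linear_combination -hf
    subst hc1
    simpa using hf
  have halg : IsAlgebraic ℚ α :=
    ⟨_, hm.ne_zero, by rw [hpoly]; simp only [α]; linear_combination h5⟩
  have hP : ∀ h : ℕ, 0 < h → ¬IsPisot (α ^ h) := by
    rintro h hh ⟨-, hint, hconj⟩
    have h0 := key ((minpoly ℤ (α ^ h)).map (algebraMap ℤ ℚ) |>.comp (X ^ h)) (by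
      rw [aeval_comp, map_pow, aeval_X, aeval_map_algebraMap, minpoly.aeval])
    rw [aeval_comp, map_pow, aeval_X, aeval_map_algebraMap] at h0
    have hbig : 1 ≤ |1 - √5| := by rw [abs_of_neg] <;> linarith
    have hlt : |1 - √5| < α := by
      rw [abs_of_neg (by linarith)]
      simp only [α]
      linarith
    have hne : (((1 - √5) ^ h : ℝ) : ℂ) ≠ ((α ^ h : ℝ) : ℂ) := fun e => by
      have e' := congrArg abs (Complex.ofReal_injective e)
      rw [abs_pow, abs_of_pos (show (0 : ℝ) < α ^ h by positivity)] at e'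
      exact (pow_lt_pow_left₀ hlt (abs_nonneg _) hh.ne').ne e'
    have hroot : aeval (((1 - √5) ^ h : ℝ) : ℂ) (minpoly ℤ (α ^ h)) = 0 := by
      rw [show (((1 - √5) ^ h : ℝ) : ℂ) = Complex.ofRealHom.toIntAlgHom ((1 - √5) ^ h) from rfl,
        aeval_algHom_apply, h0, map_zero]
    have h1 := hconj _ hroot hne
    rw [Complex.norm_real, Real.norm_eq_abs, abs_pow] at h1
    exact (one_le_pow₀ hbig).not_gt h1
  simpa only [one_mul] using powers_near_integers_finite
    (show 1 < α by simp only [α]; linarith) halg one_ne_zero isAlgebraic_one hP hε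

/-- **Mendès France's problem**: the periods of the continued fractions of `α ^ n` tend to infinity
iff `α ^ 2` is irrational and `α` is not a unit of the algebraic integers. -/
theorem corvaja_zannier_period {α : ℝ} (hα0 : 0 < α) (hirr : Irrational α) {a b c : ℤ}
    (ha : a ≠ 0) (hroot : (a : ℝ) * α ^ 2 + b * α + c = 0) :
    (∀ R : ℕ, ∀ᶠ n : ℕ in Filter.atTop, ∀ N k, 0 < k → (∀ i, N ≤ i →
      (GenContFract.of (α ^ n)).s.get? (i + k) = (GenContFract.of (α ^ n)).s.get? i) → R < k) ↔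
      Irrational (α ^ 2) ∧ ¬(IsIntegral ℤ α ∧ IsIntegral ℤ α⁻¹) :=
  CorvajaZannier.period_tendsto_iff hα0 hirr ha hroot

/-- An instance with a Pisot number that is no unit: `1 + √3`. -/
theorem corvaja_zannier_period_one_add_sqrt_three (R : ℕ) :
    ∀ᶠ n : ℕ in Filter.atTop, ∀ N k, 0 < k → (∀ i, N ≤ i →
      (GenContFract.of ((1 + √3) ^ n)).s.get? (i + k) =
        (GenContFract.of ((1 + √3) ^ n)).s.get? i) → R < k := by
  have h3 : √3 * √3 = (3 : ℝ) := Real.mul_self_sqrt (by norm_num)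
  have hirr : Irrational (1 + √3) := by
    simpa using (Nat.Prime.irrational_sqrt (show Nat.Prime 3 by norm_num)).ratCast_add 1
  have hQ : CorvajaZannier.QuadPair (1 + √3) (1 - √3) 2 (-2) :=
    ⟨hirr, by push_cast; ring, by push_cast; linear_combination -h3⟩
  refine (corvaja_zannier_period (by positivity) hirr (a := 1) (b := -2) (c := -2) one_ne_zero
    (by push_cast; linear_combination h3)).2
      ⟨hQ.sq_irrational_iff.2 (by norm_num), fun ⟨_, h⟩ => ?_⟩ R
  obtain ⟨⟨z, hz⟩, b, hb⟩ := hQ.inv.isIntegral_iff.1 h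
  have h1 : (b : ℚ) * -2 = 1 := by rw [← hb]; norm_num
  have h2 : b * -2 = 1 := by exact_mod_cast h1
  omega

end FA.Summary

end
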