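import Fermat.Agent.CountableModels.Count

/-!
# Countable models of uncountably categorical theories

Up to isomorphism a complete theory in a countable language which is categorical in an uncountable
size has one countable model or countably infinitely many, never a finite number above one.
-/

set_option autoImplicit false

universe u v

namespace FA.CountableModels

open FirstOrder Language Cardinal

variable {L : Language.{u, v}} {T : L.Theory}

/-- **The count of the countable models.** Categoricity in an uncountable size leaves one
countable model, or a list of pairwise non-isomorphic ones indexed by the natural numbers. -/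
theorem one_or_infinitely_many [Countable L.Symbols] (hT : T.IsComplete)
    (M₀ : Theory.ModelType.{u, v, max u v} T) [Infinite M₀] {κ : Cardinal.{max u v}}
    (hκ : ℵ₀ < κ) (h : κ.Categorical T) :
    Cardinal.Categorical.{u, v, max u v} ℵ₀ T ∨
      ∃ rep : ℕ → Theory.ModelType.{u, v, max u v} T,
        (∀ n, #(rep n) = ℵ₀) ∧ (∀ m n, Nonempty (rep m ≃[L] rep n) → m = n) ∧
          ∀ N : Theory.ModelType.{u, v, max u v} T, #N = ℵ₀ → ∃ n, Nonempty (N ≃[L] rep n) :=
  countable_models_of_categorical hT M₀ hκ h

/-- **Two countable models call for more.** If an uncountably categorical theory has two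
non-isomorphic countable models, no finite list contains all of them up to isomorphism. -/
theorem exists_new_countable_model [Countable L.Symbols] (hT : T.IsComplete)
    (M₀ : Theory.ModelType.{u, v, max u v} T) [Infinite M₀] {κ : Cardinal.{max u v}}
    (hκ : ℵ₀ < κ) (h : κ.Categorical T) {M N : Theory.ModelType.{u, v, max u v} T}
    (hM : #M = ℵ₀) (hN : #N = ℵ₀) (hMN : IsEmpty (M ≃[L] N)) {m : ℕ}
    (K : Fin m → Theory.ModelType.{u, v, max u v} T) :
    ∃ E : Theory.ModelType.{u, v, max u v} T, #E = ℵ₀ ∧ ∀ i, IsEmpty (E ≃[L] K i) := by
  rcases one_or_infinitely_many hT M₀ hκ h with hcat | ⟨rep, hcard, hne, -⟩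
  · exact ((hcat M N hM hN).elim hMN.false).elim
  by_contra! hall
  have hex : ∀ n, ∃ i, Nonempty (rep n ≃[L] K i) := fun n => hall _ (hcard n)
  choose i hi using hex
  obtain ⟨a, b, hab, he⟩ := Finite.exists_ne_map_eq_of_infinite i
  obtain ⟨f⟩ := hi a
  obtain ⟨g⟩ := (he ▸ hi b : Nonempty (rep b ≃[L] K (i a)))
  exact hab (hne a b ⟨g.symm.comp f⟩)

end FA.CountableModels
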