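import Fermat.Agent.CoxParry.Classification

/-!
# Summary: the torsion subgroups of elliptic curves over `k(T)` (Levin, Cox and Parry)

Let `k` have characteristic zero and let `E` be an elliptic curve over `k(T)` which is not
isomorphic over `k(T)` to a curve defined over `k` (non-constant twists with constant invariant are
included). Then the torsion subgroup is finite and isomorphic to one of the nineteen groups
`ℤ/n` (`n ≤ 10` or `n = 12`), `ℤ/2 × ℤ/2n` (`n ≤ 4`), `ℤ/3 × ℤ/3`, `ℤ/3 × ℤ/6`, `ℤ/4 × ℤ/4`,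
`ℤ/5 × ℤ/5` (`cox_parry_levin`); in particular a torsion point has order at most twelve and not
eleven (`torsion_order`). For algebraically closed `k` a point of order at least five makes every
fibre of the minimal model semistable, infinity included, and the invariant non-constant
(`semistable_of_point`).

The proof counts singular fibres by component orders against Szpiro's inequality, without modular
curves.

For algebraically closed `k` each of the nineteen occurs: see `SummaryTorsionRealisedLine`.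

Not claimed: bases of higher genus, positive characteristic.
-/

set_option autoImplicit false
set_option linter.unusedSectionVars false

noncomputable section

open Polynomial WeierstrassCurve
open scoped Classical

namespace FA.CoxParry.Summary

variable {k : Type*} [Field k] [CharZero k]

/-- **The nineteen torsion groups over `k(T)`.** -/
theorem cox_parry_levin (E : WeierstrassCurve (RatFunc k)) [E.IsElliptic]
    (hE : ¬∃ (E₀ : WeierstrassCurve k) (C₀ : VariableChange (RatFunc k)),
      C₀ • E = E₀.map (algebraMap k (RatFunc k))) :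
    ∃ p ∈ [(1, 1), (1, 2), (1, 3), (1, 4), (1, 5), (1, 6), (1, 7), (1, 8), (1, 9), (1, 10), (1, 12),
        (2, 2), (2, 4), (2, 6), (2, 8), (3, 3), (3, 6), (4, 4), (5, 5)],
      Nonempty (AddCommGroup.torsion E.toAffine.Point ≃+ ZMod p.1 × ZMod p.2) :=
  torsion_classification hE

/-- **Orders of torsion points.** -/
theorem torsion_order (E : WeierstrassCurve (RatFunc k)) [E.IsElliptic]
    (hE : ¬∃ (E₀ : WeierstrassCurve k) (C₀ : VariableChange (RatFunc k)),
      C₀ • E = E₀.map (algebraMap k (RatFunc k)))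
    {P : E.toAffine.Point} (hP : IsOfFinAddOrder P) :
    addOrderOf P ∈ ({1, 2, 3, 4, 5, 6, 7, 8, 9, 10, 12} : Finset ℕ) := by
  obtain ⟨⟨a, b⟩, hmem, ⟨e⟩⟩ := torsion_classification hE
  set Q : AddCommGroup.torsion E.toAffine.Point := ⟨P, hP⟩
  have hord : addOrderOf P = addOrderOf (e Q) := by
    rw [AddEquiv.addOrderOf_eq e]
    exact addOrderOf_injective (AddCommGroup.torsion E.toAffine.Point).subtype
      Subtype.val_injective Q
  have key : a ∣ b ∧ 0 < b ∧ ∀ d ∈ Nat.divisors b, d ∈ ({1, 2, 3, 4, 5, 6, 7, 8, 9, 10, 12} : Finset ℕ) :=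
    (by decide +kernel : ∀ p ∈ nineteen, p.1 ∣ p.2 ∧ 0 < p.2 ∧
      ∀ d ∈ Nat.divisors p.2, d ∈ ({1, 2, 3, 4, 5, 6, 7, 8, 9, 10, 12} : Finset ℕ)) (a, b) hmem
  refine key.2.2 _ (Nat.mem_divisors.2 ⟨?_, key.2.1.ne'⟩)
  rw [hord]
  refine addOrderOf_dvd_of_nsmul_eq_zero ?_
  refine Prod.ext ?_ (by simp)
  rw [Prod.smul_fst, Prod.fst_zero, nsmul_eq_mul, (ZMod.natCast_eq_zero_iff _ _).2 key.1,
    zero_mul]

/-- **Semistable fibres.** -/
theorem semistable_of_point [IsAlgClosed k] (E : WeierstrassCurve (RatFunc k)) [E.IsElliptic]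
    (hE : ¬∃ (E₀ : WeierstrassCurve k) (C₀ : VariableChange (RatFunc k)),
      C₀ • E = E₀.map (algebraMap k (RatFunc k)))
    {P : E.toAffine.Point} (h5 : 5 ≤ addOrderOf P) :
    ∃ (A B : k[X]) (m : ℕ) (C₀ : VariableChange (RatFunc k)),
      C₀ • E = ⟨0, 0, 0, -27 * algebraMap k[X] (RatFunc k) A,
        -54 * algebraMap k[X] (RatFunc k) B⟩ ∧
      (A.natDegree ≤ 4 * m ∧ B.natDegree ≤ 6 * m ∧
        ¬(A.natDegree + 4 ≤ 4 * m ∧ B.natDegree + 6 ≤ 6 * m) ∧
        ∀ t : k, ¬((X - C t) ^ 4 ∣ A ∧ (X - C t) ^ 6 ∣ B)) ∧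
      (∀ t : k, (A ^ 3 - B ^ 2).eval t = 0 → A.eval t ≠ 0) ∧
      ((A ^ 3 - B ^ 2).natDegree < 12 * m → A.natDegree = 4 * m) ∧
      ¬∃ c : k, A ^ 3 = C c * (A ^ 3 - B ^ 2) :=
  semistable_of_order hE h5

end FA.CoxParry.Summary
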