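import Fermat.Agent.CramerChungFuchs.ChungFuchs

/-!
# Large deviations and recurrence of random walks

Let `X 0, X 1, ...` be independent real variables with a common law, `S n` the sum of the first
`n` of them and `I a = sup_t (t a - log E exp (t X 0))`.

* `cramer` (Cramér): if all exponential moments are finite, the mean is less than `a` and
  `P (X 0 > a) > 0`, then `P (S n ≥ n a) ≤ exp (-n I a)` for all `n` and
  `log P (S n ≥ n a) / n` tends to `-I a`; `cramer_lower` is the same for `P (S n ≤ n a)`;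
* `chung_fuchs` (Chung–Fuchs): with an integrable law of mean `0`, almost surely `|S n| < ε`
  infinitely often for every `ε > 0`, so `liminf |S n| = 0`;
* `integer_walk`: an integer valued such walk returns to `0` infinitely often;
* `recurrent_iff`: so an integrable walk is recurrent exactly when its mean is `0`.

Cramér's theorem without exponential moments, Sanov's theorem and the recurrence of walks in
dimension `2` are not proved.
-/

set_option autoImplicit false

noncomputable section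

namespace FA.CramerChungFuchs.Summary

open MeasureTheory ProbabilityTheory Filter Set
open FA.CramerChungFuchs
open scoped Topology

variable {Ω : Type*} [MeasurableSpace Ω] {P : Measure Ω} [IsProbabilityMeasure P]
  {X : ℕ → Ω → ℝ}

/-- **The theorem of Cramér.** -/
theorem cramer (hX : ∀ i, Measurable (X i)) (hind : iIndepFun X P)
    (hid : ∀ i, IdentDistrib (X i) (X 0) P P)
    (hexp : ∀ t : ℝ, Integrable (fun ω => Real.exp (t * X 0 ω)) P) {a : ℝ}
    (ha : ∫ ω, X 0 ω ∂P < a) (hp : 0 < P.real {ω | a < X 0 ω}) :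
    (∀ n : ℕ, P.real {ω | (n : ℝ) * a ≤ ∑ i ∈ Finset.range n, X i ω} ≤
      Real.exp (-(n * ⨆ t : ℝ, t * a - cgf (X 0) P t))) ∧
      Tendsto (fun n : ℕ => Real.log (P.real {ω | (n : ℝ) * a ≤ ∑ i ∈ Finset.range n, X i ω}) / n)
        atTop (𝓝 (-⨆ t : ℝ, t * a - cgf (X 0) P t)) :=
  tendsto_log_walk hX hind hid hexp ha hp

/-- **The theorem of Cramér**, below the mean. -/
theorem cramer_lower (hX : ∀ i, Measurable (X i)) (hind : iIndepFun X P)
    (hid : ∀ i, IdentDistrib (X i) (X 0) P P)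
    (hexp : ∀ t : ℝ, Integrable (fun ω => Real.exp (t * X 0 ω)) P) {a : ℝ}
    (ha : a < ∫ ω, X 0 ω ∂P) (hp : 0 < P.real {ω | X 0 ω < a}) :
    (∀ n : ℕ, P.real {ω | ∑ i ∈ Finset.range n, X i ω ≤ (n : ℝ) * a} ≤
      Real.exp (-(n * ⨆ t : ℝ, t * a - cgf (X 0) P t))) ∧
      Tendsto (fun n : ℕ => Real.log (P.real {ω | ∑ i ∈ Finset.range n, X i ω ≤ (n : ℝ) * a}) / n)
        atTop (𝓝 (-⨆ t : ℝ, t * a - cgf (X 0) P t)) := by
  have h := cramer (X := fun i ω => -X i ω) (a := -a) (fun i => (hX i).neg)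
    (hind.comp (fun _ => Neg.neg) fun _ => measurable_neg) (fun i => (hid i).comp measurable_neg)
    (fun t => by simpa using hexp (-t)) (by rw [integral_neg]; linarith)
    (by simpa only [neg_lt_neg_iff] using hp)
  have e1 : ∀ n : ℕ, {ω | (n : ℝ) * -a ≤ ∑ i ∈ Finset.range n, -X i ω} =
      {ω | ∑ i ∈ Finset.range n, X i ω ≤ (n : ℝ) * a} := fun n => by
    ext ω
    simp
  have e2 : (⨆ t : ℝ, t * -a - cgf (fun ω => -X 0 ω) P t) =
      ⨆ t : ℝ, t * a - cgf (X 0) P t := by
    refine (Equiv.neg ℝ).iSup_congr fun t => ?_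
    rw [Equiv.neg_apply, show (fun ω => -X 0 ω) = -X 0 from rfl, cgf_neg]
    ring
  simpa only [e1, e2] using h

/-- **The theorem of Chung and Fuchs.** -/
theorem chung_fuchs (hX : ∀ i, Measurable (X i)) (hind : iIndepFun X P)
    (hid : ∀ i, IdentDistrib (X i) (X 0) P P) (hint : Integrable (X 0) P)
    (hmean : ∫ ω, X 0 ω ∂P = 0) :
    ∀ᵐ ω ∂P, (∀ ε > 0, ∃ᶠ n : ℕ in atTop, |∑ i ∈ Finset.range n, X i ω| < ε) ∧
      liminf (fun n : ℕ => |∑ i ∈ Finset.range n, X i ω|) atTop = 0 := by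
  filter_upwards [ae_all_iff.2 fun j : ℕ => frequently_small hX hind hid hint hmean
    (ε := 1 / ((j : ℝ) + 1)) (by positivity)] with ω hω
  have h : ∀ ε > 0, ∃ᶠ n : ℕ in atTop, |∑ i ∈ Finset.range n, X i ω| < ε := fun ε hε => by
    obtain ⟨j, hj⟩ := exists_nat_one_div_lt hε
    exact (hω j).mono fun n hn => hn.trans hj
  have hb : IsBoundedUnder (· ≥ ·) atTop fun n : ℕ => |∑ i ∈ Finset.range n, X i ω| :=
    ⟨0, eventually_map.2 (Eventually.of_forall fun n => abs_nonneg _)⟩
  refine ⟨h, le_antisymm (le_of_forall_gt_imp_ge_of_dense fun c hc =>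
    liminf_le_of_frequently_le ((h c hc).mono fun n hn => hn.le) hb) ?_⟩
  exact le_liminf_of_le (IsCoboundedUnder.of_frequently_le ((h 1 one_pos).mono fun n hn => hn.le))
    (Eventually.of_forall fun n => abs_nonneg _)

/-- **An integer valued walk of mean `0` returns.** -/
theorem integer_walk {Y : ℕ → Ω → ℤ} (hX : ∀ i, Measurable (Y i)) (hind : iIndepFun Y P)
    (hid : ∀ i, IdentDistrib (Y i) (Y 0) P P) (hint : Integrable (fun ω => (Y 0 ω : ℝ)) P)
    (hmean : ∫ ω, (Y 0 ω : ℝ) ∂P = 0) :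
    ∀ᵐ ω ∂P, ∃ᶠ n : ℕ in atTop, ∑ i ∈ Finset.range n, Y i ω = 0 := by
  have hc : Measurable fun z : ℤ => (z : ℝ) := measurable_of_countable _
  filter_upwards [chung_fuchs (X := fun i ω => (Y i ω : ℝ)) (fun i => hc.comp (hX i))
    (hind.comp (fun _ z => (z : ℝ)) fun _ => hc) (fun i => (hid i).comp hc) hint hmean] with ω hω
  refine (hω.1 1 one_pos).mono fun n hn => Int.abs_lt_one_iff.1 ?_
  rw [← Int.cast_lt (R := ℝ)]
  push_cast
  exact hn

/-- **Recurrence means mean `0`.** -/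
theorem recurrent_iff (hX : ∀ i, Measurable (X i)) (hind : iIndepFun X P)
    (hid : ∀ i, IdentDistrib (X i) (X 0) P P) (hint : Integrable (X 0) P) :
    (∀ᵐ ω ∂P, ∀ ε > 0, ∃ᶠ n : ℕ in atTop, |∑ i ∈ Finset.range n, X i ω| < ε) ↔
      ∫ ω, X 0 ω ∂P = 0 := by
  refine ⟨fun h => ?_, fun h => (chung_fuchs hX hind hid hint h).mono fun ω hω => hω.1⟩
  by_contra hne
  obtain ⟨ω, h1, h2⟩ := (h.and (tendsto_abs_walk hind hid hint hne)).exists
  obtain ⟨n, hn1, hn2⟩ := ((h1 1 one_pos).and_eventually (h2.eventually_ge_atTop 1)).exists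
  exact absurd hn2 (not_le.2 hn1)

end FA.CramerChungFuchs.Summary
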