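import Fermat.Agent.CramerGaps.Main

/-!
# Cramér's theorem on the gaps between primes, in progressions, on the Riemann hypothesis

`C` is absolute. On GRH mod `q` every interval `(x, x + C φ q √x log (q x)]` with
`C φ q log (q x) ≤ √x` contains a prime `≡ a`, so the least one is `O (φ q ² log² (2 q))`; on the
Riemann hypothesis `p (n + 1) - p n = O (√(p n) log (p n))` for every `n` (Cramér 1920).
-/

set_option autoImplicit false

noncomputable section

namespace FA.CramerGaps.Summary

open DirichletCharacter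

/-- The Riemann hypothesis for every character mod `q`, spelt out. -/
abbrev GRHModulus (q : ℕ) [NeZero q] : Prop := ∀ (χ : DirichletCharacter ℂ q) (ρ : ℂ),
  LFunction χ ρ = 0 → 0 < ρ.re → ρ.re < 1 → ρ.re = 1 / 2

/-- **A prime of the class in every short interval.** -/
theorem prime_interval_progression : ∃ C : ℝ, 0 < C ∧ ∀ (q : ℕ) [NeZero q], GRHModulus q →
    ∀ a : ZMod q, IsUnit a → ∀ x : ℝ, 2 ≤ x → C * q.totient * Real.log (q * x) ≤ √x →
      ∃ p : ℕ, p.Prime ∧ (p : ZMod q) = a ∧ x < p ∧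
        (p : ℝ) ≤ x + C * q.totient * √x * Real.log (q * x) :=
  exists_prime_interval

/-- **The least prime in a progression is `O (φ q ² log² (2 q))`.** -/
theorem least_prime_progression_sharp : ∃ C : ℝ, 0 < C ∧ ∀ (q : ℕ) [NeZero q], GRHModulus q →
    ∀ a : ZMod q, IsUnit a → ∃ p : ℕ, p.Prime ∧ (p : ZMod q) = a ∧
      (p : ℝ) ≤ C * (q.totient : ℝ) ^ 2 * Real.log (2 * q) ^ 2 :=
  exists_least_prime_sq

/-- **Cramér's theorem.** -/
theorem cramer_gaps : ∃ C : ℝ, 0 < C ∧ (RiemannHypothesis → ∀ n : ℕ,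
    (Nat.nth Nat.Prime (n + 1) : ℝ) - Nat.nth Nat.Prime n ≤
      C * √(Nat.nth Nat.Prime n : ℝ) * Real.log (Nat.nth Nat.Prime n)) :=
  exists_gap_bound

end FA.CramerGaps.Summary

end
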