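import Fermat.Agent.HindrySilverman.Irreducible

/-!
# Summary: elliptic surfaces over the line without reducible fibres

Let `k` be algebraically closed of characteristic zero, `deg A ≤ 4 m`, `deg B ≤ 6 m`, `m ≥ 1`, and
`D = A³ - B²` squarefree of degree at least `12 m - 1`: all singular fibres of
`y² = x³ - 27 A x - 54 B`, infinity included, are nodal curves. Then the curve over `k(T)` has no
torsion and its height is `max (2 m + deg den x) (deg num x)`, an even integer at least `2 m` off
zero (`torsion_free`, `height_even`); at most `2 (2 ^ r - 1)` of its points, `r` the rank, have as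
abscissa a polynomial of degree at most `2 m` (`integral_points`: `510` for
`r = 8`, against the `240` of `E₈`). In every semistable case the same bound holds for the narrow
points of height `2 m` (`minimal_vectors`). The hypotheses are met by a curve with a nonzero point
(`example_squarefree`).

Not claimed: rank at most `8` at level one, the lattice `E₈`, exact counts.
-/

set_option autoImplicit false
set_option linter.unusedSectionVars false
set_option linter.style.haveILetI false

noncomputable section

open Polynomial WeierstrassCurve FA.SzpiroLine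
open FA.CallSilverman
open FA.NeronSpecialisation (genW genW_isElliptic)
open scoped Classical

namespace FA.HindrySilverman.IrreducibleSummary

variable {k : Type*} [Field k] [CharZero k] [IsAlgClosed k] {A B : k[X]} {m : ℕ}
  (hm : 0 < m) (hA : A.natDegree ≤ 4 * m) (hB : B.natDegree ≤ 6 * m)
  (hsq : Squarefree (A ^ 3 - B ^ 2)) (hdeg : 12 * m ≤ (A ^ 3 - B ^ 2).natDegree + 1)

include hm hA hB hsq hdeg

/-- **No torsion.** -/
theorem torsion_free
    {P : (genW (⟨0, 0, 0, -27 * A, -54 * B⟩ : WeierstrassCurve k[X])).toAffine.Point}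
    (hP : IsOfFinAddOrder P) : P = 0 := by
  have hS := semistable_of_squarefree hm hA hB hsq hdeg
  haveI := genW_isElliptic (shortW_Δ_ne hS)
  exact narrow_torsion_free hS
    ((AddSubgroup.eq_top_iff' _).1 (narrow_eq_top hS (discOrd_le_one hsq hdeg)) P) hP

/-- **The height.** -/
theorem height_even {x y : RatFunc k}
    {h : (genW (⟨0, 0, 0, -27 * A, -54 * B⟩ : WeierstrassCurve k[X])).toAffine.Nonsingular x y} :
    genHgt (⟨0, 0, 0, -27 * A, -54 * B⟩ : WeierstrassCurve k[X]) (Affine.Point.some x y h) =
        (max (2 * m + x.denom.natDegree) x.num.natDegree : ℕ) ∧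
      Even (max (2 * m + x.denom.natDegree) x.num.natDegree) := by
  have hS := semistable_of_squarefree hm hA hB hsq hdeg
  haveI := genW_isElliptic (shortW_Δ_ne hS)
  refine ⟨genHgt_narrow hS
    ((AddSubgroup.eq_top_iff' _).1 (narrow_eq_top hS (discOrd_le_one hsq hdeg)) _), ?_⟩
  obtain ⟨z, hz⟩ := even_poleDeg hS h
  exact ⟨z + m, hz.trans (by omega)⟩

/-- **At most `2 (2 ^ r - 1)` integral sections.** -/
theorem integral_points :
    {P : (genW (⟨0, 0, 0, -27 * A, -54 * B⟩ : WeierstrassCurve k[X])).toAffine.Point |
      ∃ (p : k[X]) (y : RatFunc k) (h : _), p.natDegree ≤ 2 * m ∧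
        P = Affine.Point.some (algebraMap k[X] (RatFunc k) p) y h}.Finite ∧
    {P : (genW (⟨0, 0, 0, -27 * A, -54 * B⟩ : WeierstrassCurve k[X])).toAffine.Point |
      ∃ (p : k[X]) (y : RatFunc k) (h : _), p.natDegree ≤ 2 * m ∧
        P = Affine.Point.some (algebraMap k[X] (RatFunc k) p) y h}.ncard ≤
      2 * (2 ^ Module.finrank ℤ
        (genW (⟨0, 0, 0, -27 * A, -54 * B⟩ : WeierstrassCurve k[X])).toAffine.Point - 1) := by
  have hS := semistable_of_squarefree hm hA hB hsq hdeg
  haveI := genW_isElliptic (shortW_Δ_ne hS)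
  have htop := (AddSubgroup.eq_top_iff' _).1 (narrow_eq_top hS (discOrd_le_one hsq hdeg))
  have hsub : {P : (genW (shortW A B)).toAffine.Point |
      ∃ (p : k[X]) (y : RatFunc k) (h : _), p.natDegree ≤ 2 * m ∧
        P = Affine.Point.some (algebraMap k[X] (RatFunc k) p) y h} ⊆
      {P : (genW (shortW A B)).toAffine.Point |
        P ∈ narrow hS ∧ genHgt (shortW A B) P = 2 * (m : ℝ)} := by
    rintro P ⟨p, y, h, hp, rfl⟩
    exact ⟨htop _, (genHgt_narrow_min hS (htop _)).2 ⟨p, hp, rfl⟩⟩
  obtain ⟨h1, h2⟩ := count_minimal hS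
  exact ⟨h1.subset hsub, (Set.ncard_le_ncard hsub h1).trans h2⟩

omit hm hA hB hsq hdeg

/-- **Minimal narrow vectors** in every semistable case. -/
theorem minimal_vectors (hS : Semistable A B m) [(genW (shortW A B)).IsElliptic] :
    {P : (genW (shortW A B)).toAffine.Point |
      P ∈ narrow hS ∧ genHgt (shortW A B) P = 2 * (m : ℝ)}.ncard ≤
        2 * (2 ^ Module.finrank ℤ (genW (shortW A B)).toAffine.Point - 1) :=
  (count_minimal hS).2

/-- **The hypotheses are met**, with a point of height `2`. -/
theorem example_squarefree :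
    Squarefree ((1 : k[X]) ^ 3 - (-6 * exS k ^ 2) ^ 2) ∧
      ((1 : k[X]) ^ 3 - (-6 * exS k ^ 2) ^ 2).natDegree = 12 ∧
      genHgt (shortW (1 : k[X]) (-6 * exS k ^ 2))
        (Affine.Point.some _ _ (nonsingular_example (k := k))) = 2 :=
  ⟨squarefree_example, natDegree_exD, genHgt_example⟩

end FA.HindrySilverman.IrreducibleSummary
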