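import Fermat.Agent.CubicDescentRank.Descent
import Fermat.Agent.Root.SummaryIrreducibleFibres

/-!
# Summary: the rank of elliptic surfaces over the line without reducible fibres

Let `k` be algebraically closed of characteristic zero, `deg A ≤ 4 m`, `deg B ≤ 6 m`, `m ≥ 1`, and
`D = A³ - B²` squarefree of degree at least `12 m - 1` (all singular fibres of
`E : y² = x³ - 27 A x - 54 B` nodal and irreducible, infinity included). Then the cubic is
irreducible over `k(T)` (`cubic_irreducible`: no point of order two), the curve it defines, a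
triple cover of the line, has genus at most `6 m - 2` (`genus_bound`), and the doubles of `E(k(T))`
have index at most `2 ^ (2 g)` (`two_descent`). So the points are finitely generated of rank at most
`12 m - 4` (`rank_bound`), at most eight for rational elliptic surfaces
(`rational_surface_rank_le_eight`), and there are at most `2 (2 ^ (12 m - 4) - 1)` integral sections
(`integral_sections_uniform`), `510` at level one (`rational_surface_sections`), uniformly in `A`,
`B`. The hypotheses are met by a curve with a nonzero point (`example_rank`).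

Not claimed: surfaces with reducible fibres, Shioda's bound `10 m - 2` for `m ≥ 2`, that rank eight
or `240` sections occur, positive characteristic, bases of higher genus.
-/

set_option autoImplicit false
set_option linter.unusedSectionVars false
set_option linter.style.haveILetI false

noncomputable section

universe u

open Polynomial WeierstrassCurve FA.CubicDescentRank FA.FunctionFieldMW FA.SzpiroLine
open FA.HindrySilverman (shortW shortW_Δ_ne semistable_of_squarefree exS squarefree_example natDegree_exD
  nonsingular_example genHgt_example)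
open FA.NeronSpecialisation (genW genW_isElliptic)
open FA.CallSilverman
open scoped Classical

namespace FA.CubicDescentRank.Summary

variable {k : Type u} [Field k] [CharZero k] [IsAlgClosed k] {A B : k[X]} {m : ℕ}
  (hm : 0 < m) (hA : A.natDegree ≤ 4 * m) (hB : B.natDegree ≤ 6 * m)
  (hsq : Squarefree (A ^ 3 - B ^ 2)) (hdeg : 12 * m ≤ (A ^ 3 - B ^ 2).natDegree + 1)

include hm hA hB hsq hdeg

/-- **The cubic is irreducible.** -/
theorem cubic_irreducible :
    Irreducible (cubicPoly (pCoef k A) (qCoef k B)) ∧
      ∀ r : RatFunc k, r ^ 3 + pCoef k A * r + qCoef k B ≠ 0 := by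
  haveI : Fact (Irreducible (cubicPoly (pCoef k A) (qCoef k B))) :=
    ⟨irreducible_of_squarefree hm hA hB hsq hdeg⟩
  exact ⟨Fact.out, no_root _ _⟩

/-- **The genus of the trigonal curve.** -/
theorem genus_bound [Fact (Irreducible (cubicPoly (pCoef k A) (qCoef k B)))] :
    FA.Curve.genus k (cubicField (pCoef k A) (qCoef k B)) + 2 ≤ 6 * m :=
  genus_le hA hB

/-- **Two-descent**: the index of the doubles is at most `2 ^ (2 g)`. -/
theorem two_descent [Fact (Irreducible (cubicPoly (pCoef k A) (qCoef k B)))]
    [(cubicCurve 0 (pCoef k A) (qCoef k B)).IsElliptic] :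
    (nsmulAddMonoidHom
        (α := (cubicCurve 0 (pCoef k A) (qCoef k B)).toAffine.Point) 2).range.index ≤
      2 ^ (2 * FA.Curve.genus k (cubicField (pCoef k A) (qCoef k B))) :=
  (index_doubles_le hA hB hsq hdeg).2

/-- **The rank is at most `12 m - 4`.** -/
theorem rank_bound :
    AddGroup.FG (genW (⟨0, 0, 0, -27 * A, -54 * B⟩ : WeierstrassCurve k[X])).toAffine.Point ∧
      Module.finrank ℤ
          (genW (⟨0, 0, 0, -27 * A, -54 * B⟩ : WeierstrassCurve k[X])).toAffine.Point ≤
        12 * m - 4 := by
  obtain ⟨h, h'⟩ := FA.CubicDescentRank.rank_le hm hA hB hsq hdeg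
  exact ⟨h, Nat.le_sub_of_add_le h'⟩

/-- **Integral sections, uniformly.** -/
theorem integral_sections_uniform :
    {P : (genW (⟨0, 0, 0, -27 * A, -54 * B⟩ : WeierstrassCurve k[X])).toAffine.Point |
      ∃ (p : k[X]) (y : RatFunc k) (h : _), p.natDegree ≤ 2 * m ∧
        P = Affine.Point.some (algebraMap k[X] (RatFunc k) p) y h}.Finite ∧
    {P : (genW (⟨0, 0, 0, -27 * A, -54 * B⟩ : WeierstrassCurve k[X])).toAffine.Point |
      ∃ (p : k[X]) (y : RatFunc k) (h : _), p.natDegree ≤ 2 * m ∧
        P = Affine.Point.some (algebraMap k[X] (RatFunc k) p) y h}.ncard ≤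
      2 * (2 ^ (12 * m - 4) - 1) := by
  obtain ⟨h1, h2⟩ := FA.HindrySilverman.IrreducibleSummary.integral_points hm hA hB hsq hdeg
  refine ⟨h1, h2.trans (Nat.mul_le_mul_left 2 (Nat.sub_le_sub_right ?_ 1))⟩
  exact Nat.pow_le_pow_right two_pos (rank_bound hm hA hB hsq hdeg).2

omit hm hA hB hsq hdeg

/-- **A rational elliptic surface without reducible fibres has rank at most eight.** -/
theorem rational_surface_rank_le_eight (hA : A.natDegree ≤ 4) (hB : B.natDegree ≤ 6)
    (hsq : Squarefree (A ^ 3 - B ^ 2)) (hdeg : 11 ≤ (A ^ 3 - B ^ 2).natDegree) :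
    Module.finrank ℤ
      (genW (⟨0, 0, 0, -27 * A, -54 * B⟩ : WeierstrassCurve k[X])).toAffine.Point ≤ 8 :=
  (rank_bound (m := 1) one_pos hA hB hsq (by omega)).2

/-- **At most `510` sections with abscissa of degree at most two.** -/
theorem rational_surface_sections (hA : A.natDegree ≤ 4) (hB : B.natDegree ≤ 6)
    (hsq : Squarefree (A ^ 3 - B ^ 2)) (hdeg : 11 ≤ (A ^ 3 - B ^ 2).natDegree) :
    {P : (genW (⟨0, 0, 0, -27 * A, -54 * B⟩ : WeierstrassCurve k[X])).toAffine.Point |
      ∃ (p : k[X]) (y : RatFunc k) (h : _), p.natDegree ≤ 2 ∧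
        P = Affine.Point.some (algebraMap k[X] (RatFunc k) p) y h}.ncard ≤ 510 :=
  (integral_sections_uniform (m := 1) one_pos hA hB hsq (by omega)).2

/-- **The hypotheses are met**: the example of height `2` has rank between one and eight. -/
theorem example_rank :
    1 ≤ Module.finrank ℤ (genW (shortW (1 : k[X]) (-6 * exS k ^ 2))).toAffine.Point ∧
      Module.finrank ℤ (genW (shortW (1 : k[X]) (-6 * exS k ^ 2))).toAffine.Point ≤ 8 := by
  have hsq := squarefree_example (k := k)
  have hd := natDegree_exD (k := k)
  have hA : (1 : k[X]).natDegree ≤ 4 := by simp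
  have hB : (-6 * exS k ^ 2).natDegree ≤ 6 := by
    by_contra hlt
    rw [natDegree_sub_eq_right_of_natDegree_lt
      (by simp only [one_pow, natDegree_one, natDegree_pow]; omega), natDegree_pow] at hd
    omega
  refine ⟨?_, rational_surface_rank_le_eight hA hB hsq (by omega)⟩
  have hS := semistable_of_squarefree one_pos hA hB hsq (by omega)
  haveI := genW_isElliptic (shortW_Δ_ne hS)
  haveI : Module.Finite ℤ (genW (shortW (1 : k[X]) (-6 * exS k ^ 2))).toAffine.Point :=
    Module.Finite.iff_addGroup_fg.mpr (FA.CubicDescentRank.rank_le one_pos hA hB hsq (by omega)).1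
  rw [Nat.one_le_iff_ne_zero]
  intro h0
  obtain ⟨c, hc, hc'⟩ := Module.finrank_eq_zero_iff.1 h0
    (Affine.Point.some _ _ (nonsingular_example (k := k)))
  refine Affine.Point.some_ne_zero _ (FA.HindrySilverman.IrreducibleSummary.torsion_free one_pos hA hB
    hsq (by omega) (P := Affine.Point.some _ _ (nonsingular_example (k := k))) ?_)
  exact isOfFinAddOrder_iff_zsmul_eq_zero.2 ⟨c, hc, hc'⟩

end FA.CubicDescentRank.Summary
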