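import Fermat.Agent.CubicForms.PadicZero
import Fermat.Agent.CubicForms.Weyl
import Fermat.Agent.CubicForms.Main

/-!
# Cubic forms in many variables

Davenport's theorem (1963): a cubic form with rational coefficients in at least sixteen variables
has a nonzero integer zero, by the circle method without any hypothesis of nonsingularity.
The theorem of Demyanov and Lewis: a cubic form in at least ten variables over `ℚ_[p]` has a
nontrivial zero. Davenport's counts: for a form without nonzero integer zero `O (R ^ n)` pairs of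
integer points of size `R` are annihilated by its trilinear form.
-/

set_option autoImplicit false

noncomputable section

namespace FA.CubicForms.Summary

/-- **Davenport's theorem on cubic forms.** -/
theorem davenport {n : ℕ} (hn : 16 ≤ n) (F : MvPolynomial (Fin n) ℚ) (hF : F.IsHomogeneous 3) :
    ∃ x : Fin n → ℤ, x ≠ 0 ∧ MvPolynomial.eval (fun i => (x i : ℚ)) F = 0 :=
  exists_rat_form_zero hn F hF

/-- The same for an integral tensor. -/
theorem davenport_integral {n : ℕ} (hn : 16 ≤ n) (c : Fin n → Fin n → Fin n → ℤ) :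
    ∃ x : Fin n → ℤ, x ≠ 0 ∧ ∑ i, ∑ j, ∑ k, c i j k * (x i * x j * x k) = 0 :=
  exists_cubic_zero hn c

/-- **Demyanov and Lewis.** -/
theorem demyanov_lewis {n p : ℕ} [Fact p.Prime] (hn : 10 ≤ n)
    (F : MvPolynomial (Fin n) ℚ_[p]) (hF : F.IsHomogeneous 3) :
    ∃ x : Fin n → ℚ_[p], x ≠ 0 ∧ MvPolynomial.eval x F = 0 :=
  exists_padic_zero (by rwa [Fintype.card_fin]) F hF

/-- Primitive zeros of integral cubic forms modulo every prime power. -/
theorem cubic_primitive_zero_mod {n : ℕ} (hn : 10 ≤ n) (c : Fin n → Fin n → Fin n → ℤ)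
    {p : ℕ} (hp : p.Prime) (J : ℕ) : ∃ x : Fin n → ℤ, (∃ i, ¬(p : ℤ) ∣ x i) ∧
      (p : ℤ) ^ J ∣ ∑ i, ∑ j, ∑ k, c i j k * (x i * x j * x k) :=
  exists_primitive_mod (by rwa [Fintype.card_fin]) c hp J

/-- **Annihilated pairs** of a form without nonzero integer zero. -/
theorem annihilated_pairs {n : ℕ} (c : Fin n → Fin n → Fin n → ℤ)
    (hc : ∀ x : Fin n → ℤ, ∑ i, ∑ j, ∑ k, c i j k * (x i * x j * x k) = 0 → x = 0) :
    ∃ C : ℕ, ∀ R, 1 ≤ R → (zeroPairs c R).card ≤ C * R ^ n :=
  exists_zeroPairs_le hc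

end FA.CubicForms.Summary
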