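import Fermat.Agent.SurfaceObstructions.CubicLocal
import Mathlib.Algebra.MvPolynomial.PDeriv

/-!
# Summary: a smooth cubic surface which fails the Hasse principle

Let `N x y z` be the norm of `x + y θ + z θ²`, `θ³ - 7 θ² + 14 θ - 7 = 0`, a form of the cubic subfield
of `ℚ(ζ₇)` (`normForm_split`). The surface `t (t + x) (t + 2 x) = N x y z` is smooth in every
characteristic other than `2, 7, 107` (`cubicSurface_smooth`), has points over `ℝ` and every `ℚ_p`
and none over `ℚ` (`cubicSurface_hasse_fails`): Swinnerton-Dyer's refutation of Mordell's conjecture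
on cubic surfaces.

Not claimed: Brauer groups, or diagonal cubic surfaces.
-/

set_option autoImplicit false
set_option linter.style.haveILetI false

noncomputable section

namespace FA.SurfaceObstructions.Summary

/-- The form, spelt out. -/
theorem normForm_spelt {R : Type*} [CommRing R] (x y z : R) :
    cubicNorm x y z = x ^ 3 + 7 * x ^ 2 * y + 21 * x ^ 2 * z + 14 * x * y ^ 2 + 77 * x * y * z +
      98 * x * z ^ 2 + 7 * y ^ 3 + 49 * y ^ 2 * z + 98 * y * z ^ 2 + 49 * z ^ 3 :=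
  rfl

/-- **It is the product of three conjugate linear forms.** -/
theorem normForm_split {R : Type*} [CommRing R] {a : R}
    (ha : a ^ 3 - 7 * a ^ 2 + 14 * a - 7 = 0) (x y z : R) :
    let b := 4 * a - a ^ 2
    let c := 7 - a - b
    cubicNorm x y z =
      (x + y * a + z * a ^ 2) * (x + y * b + z * b ^ 2) * (x + y * c + z * c ^ 2) :=
  cubicNorm_split ha x y z

open MvPolynomial in
/-- **Smoothness**: at a nonzero zero some partial derivative of the equation does not vanish. -/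
theorem cubicSurface_smooth {F : Type*} [Field F] (h2 : (2 : F) ≠ 0) (h7 : (7 : F) ≠ 0)
    (h107 : (107 : F) ≠ 0) (v : Fin 4 → F) (hv : v ≠ 0)
    (h : v 0 * (v 0 + v 1) * (v 0 + 2 * v 1) = cubicNorm (v 1) (v 2) (v 3)) :
    ∃ i, MvPolynomial.eval v (pderiv i (X 0 * (X 0 + X 1) * (X 0 + C 2 * X 1) -
      (X 1 ^ 3 + C 7 * X 1 ^ 2 * X 2 + C 21 * X 1 ^ 2 * X 3 + C 14 * X 1 * X 2 ^ 2 +
        C 77 * X 1 * X 2 * X 3 + C 98 * X 1 * X 3 ^ 2 + C 7 * X 2 ^ 3 + C 49 * X 2 ^ 2 * X 3 +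
        C 98 * X 2 * X 3 ^ 2 + C 49 * X 3 ^ 3))) ≠ 0 := by
  by_contra hall
  simp only [not_exists, not_not] at hall
  have e₀ := hall 0
  have e₁ := hall 1
  have e₂ := hall 2
  have e₃ := hall 3
  simp [pderiv_X] at e₀ e₁ e₂ e₃
  obtain ⟨a, b, c, d⟩ := cubic_smooth h2 h7 h107 (t := v 0) (x := v 1) (y := v 2) (z := v 3) h
    (by simp only [cubicDt]; linear_combination e₀) (by simp only [cubicDx]; linear_combination e₁)
    (by simp only [cubicDy]; linear_combination -e₂) (by simp only [cubicDz]; linear_combination -e₃)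
  exact hv (funext fun i => by fin_cases i <;> assumption)

/-- **No rational point.** -/
theorem cubicSurface_no_point {t x y z : ℚ} (h : t * (t + x) * (t + 2 * x) = cubicNorm x y z) :
    t = 0 ∧ x = 0 ∧ y = 0 ∧ z = 0 :=
  cubic_rational h

/-- **Swinnerton-Dyer: a cubic surface fails the Hasse principle.** -/
theorem cubicSurface_hasse_fails :
    (∃ t x y z : ℝ, t * (t + x) * (t + 2 * x) = cubicNorm x y z ∧
        (t ≠ 0 ∨ x ≠ 0 ∨ y ≠ 0 ∨ z ≠ 0)) ∧
      (∀ (p : ℕ) [Fact p.Prime], ∃ t x y z : ℚ_[p],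
        t * (t + x) * (t + 2 * x) = cubicNorm x y z ∧ (t ≠ 0 ∨ x ≠ 0 ∨ y ≠ 0 ∨ z ≠ 0)) ∧
      ∀ t x y z : ℚ, t * (t + x) * (t + 2 * x) = cubicNorm x y z →
        t = 0 ∧ x = 0 ∧ y = 0 ∧ z = 0 := by
  refine ⟨?_, fun p _ => cubic_padic, fun t x y z h => cubic_rational h⟩
  obtain ⟨t, ht⟩ := cubic_real
  exact ⟨t, 1, 0, 0, ht, Or.inr (Or.inl one_ne_zero)⟩

end FA.SurfaceObstructions.Summary
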