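import Fermat.Agent.Root.SummaryRealDensity
import Fermat.Agent.MordellCurve.Torsion
import Fermat.Agent.CongruentNumber.Main

/-!
# Sums of two cubes and rational right triangles

The theorem of Viète, Bachet and Fermat: a rational number which is the sum of the cubes of two
distinct nonzero rationals is one in infinitely many ways, densely on the real curve
`u³ + v³ = m`.  A positive one has infinitely many representations by positive rationals, so a
difference of two cubes is a sum of two positive cubes.  Likewise the rational right triangles of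
a given congruent area are dense among the real ones.
-/

set_option autoImplicit false
set_option linter.style.haveILetI false

noncomputable section

open WeierstrassCurve Filter Topology

namespace FA.SumTwoCubes

open FA.MordellCurve

/-- A proper representation gives a point of infinite order on `y² = x³ - 432 M²`. -/
theorem infinite_points {M : ℤ} (hM : M ≠ 0) {u v : ℚ} (h : u ^ 3 + v ^ 3 = M) (hu : u ≠ 0)
    (hv : v ≠ 0) (huv : u ≠ v) : Infinite (mordCurve (-432 * M ^ 2)).toAffine.Point := by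
  set k : ℤ := -432 * M ^ 2 with hk_def
  have hk : k ≠ 0 := mul_ne_zero (by norm_num) (pow_ne_zero _ hM)
  have hkq : (k : ℚ) = -432 * (M : ℚ) ^ 2 := by simp [hk_def]
  have hMq : (M : ℚ) ≠ 0 := Int.cast_ne_zero.mpr hM
  have hs : u + v ≠ 0 := fun e => hMq (by
    rw [← h, eq_neg_of_add_eq_zero_left e]; ring)
  have he : (36 * (M : ℚ) * (u - v) / (u + v)) ^ 2 = (12 * (M : ℚ) / (u + v)) ^ 3 + (k : ℚ) := by
    rw [hkq]
    field_simp
    rw [← h]
    ring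
  set P : (mordCurve k).toAffine.Point := .some _ _ (nonsingular_mordCurve hk he)
  obtain ⟨hfin, hd⟩ := natCard_torsion_dvd_six hk
  refine not_finite_iff_infinite.mp fun hf => ?_
  -- otherwise the point is killed by six
  have h6 : 6 • P = 0 := by
    obtain ⟨c, hc⟩ := hd
    let T : AddCommGroup.torsion (mordCurve k).toAffine.Point :=
      ⟨P, isOfFinAddOrder_of_finite P⟩
    have h0 : Nat.card (AddCommGroup.torsion (mordCurve k).toAffine.Point) • P = 0 :=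
      congrArg Subtype.val (card_nsmul_eq_zero' (x := T))
    rw [hc, mul_comm, mul_nsmul', h0]
    exact nsmul_zero c
  have hy : 36 * (M : ℚ) * (u - v) / (u + v) ≠ 0 :=
    div_ne_zero (mul_ne_zero (mul_ne_zero (by norm_num) hMq) (sub_ne_zero.mpr huv)) hs
  have h2P : 2 • P ≠ 0 := fun e => hy (two_smul_iff.mp e)
  have h3P : 3 • P ≠ 0 := fun e => by
    obtain ⟨-, e'⟩ := three_smul_iff.mp e
    have hx : 12 * (M : ℚ) / (u + v) ≠ 0 := div_ne_zero (mul_ne_zero (by norm_num) hMq) hs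
    have e'' := (mul_eq_zero.mp e').resolve_left hx
    rw [hkq] at e''
    field_simp at e''
    have : (u + v) * (3 * u * v) = 0 := by
      rw [← h] at e'' hMq
      have hm2 : (u ^ 3 + v ^ 3) ^ 2 ≠ 0 := pow_ne_zero _ hMq
      apply mul_left_cancel₀ hm2
      linear_combination (-(1 : ℚ) / 1728) * e''
    simp [hs, hu, hv] at this
  -- points of order two and three exclude each other
  obtain ⟨x₂, y₂, h₂, e₂⟩ : ∃ x y h', 3 • P = Affine.Point.some x y h' := by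
    generalize 3 • P = Q at h3P
    cases Q with
    | zero => exact absurd rfl h3P
    | some x y h' => exact ⟨x, y, h', rfl⟩
  obtain ⟨x₃, y₃, h₃, e₃⟩ : ∃ x y h', 2 • P = Affine.Point.some x y h' := by
    generalize 2 • P = Q at h2P
    cases Q with
    | zero => exact absurd rfl h2P
    | some x y h' => exact ⟨x, y, h', rfl⟩
  have hy₂ : y₂ = 0 := two_smul_iff.mp (by rw [← e₂, ← mul_nsmul]; exact h6)
  obtain ⟨hy₃, hx₃⟩ := three_smul_iff.mp (show 3 • Affine.Point.some x₃ y₃ h₃ = 0 by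
    rw [← e₃, ← mul_nsmul]; exact h6)
  have e2 := (Affine.equation_iff x₂ y₂).mp h₂.1
  have e3 := (Affine.equation_iff x₃ y₃).mp h₃.1
  simp only [zero_mul, add_zero, hy₂] at e2
  simp only [zero_mul, add_zero] at e3
  rcases mul_eq_zero.mp hx₃ with rfl | hx₃
  · have : (k : ℚ) < 0 := by rw [hkq]; nlinarith [sq_pos_iff.mpr hMq]
    nlinarith [sq_nonneg y₃]
  have hx₂ : x₂ ≠ 0 := by
    rintro rfl
    simp at e2
    exact hk (by exact_mod_cast e2.symm)
  obtain ⟨c, hc⟩ := exists_int_of_pow (x := x₃ / x₂) (k := 4) (n := 3) (by norm_num) (by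
    rw [div_pow]
    field_simp
    push_cast
    linear_combination hx₃ + 4 * e2)
  have hc4 : c ^ 3 = 4 := by
    have : ((c : ℚ)) ^ 3 = 4 := by
      rw [← hc, div_pow]
      field_simp
      linear_combination hx₃ + 4 * e2
    exact_mod_cast this
  have : c ≤ 1 := by nlinarith [sq_nonneg c, sq_nonneg (c - 2)]
  have : 0 < c := by nlinarith [sq_nonneg c]
  interval_cases c
  norm_num at hc4

/-- Density for an integer. -/
theorem dense_int {M : ℤ} (hM : M ≠ 0) {u v : ℚ} (h : u ^ 3 + v ^ 3 = M) (hu : u ≠ 0)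
    (hv : v ≠ 0) (huv : u ≠ v) {r s : ℝ} (hrs : r ^ 3 + s ^ 3 = M) {ε : ℝ} (hε : 0 < ε) :
    {q : ℚ × ℚ | q.1 ^ 3 + q.2 ^ 3 = M ∧ |(q.1 : ℝ) - r| < ε ∧ |(q.2 : ℝ) - s| < ε}.Infinite := by
  have hk : (-432 * M ^ 2 : ℤ) ≠ 0 := mul_ne_zero (by norm_num) (pow_ne_zero _ hM)
  haveI := isElliptic_mordCurve hk
  haveI := infinite_points hM h hu hv huv
  have hMr : (M : ℝ) ≠ 0 := Int.cast_ne_zero.mpr hM
  have hsum : r + s ≠ 0 := fun e => hMr (by
    rw [← hrs, eq_neg_of_add_eq_zero_left e]; ring)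
  set X := 12 * (M : ℝ) / (r + s)
  set Y := 36 * (M : ℝ) * (r - s) / (r + s)
  have hX : X ≠ 0 := div_ne_zero (mul_ne_zero (by norm_num) hMr) hsum
  have hXY : (36 * (M : ℝ) + Y) / (6 * X) = r ∧ (36 * (M : ℝ) - Y) / (6 * X) = s := by
    simp only [X, Y]
    constructor <;> field_simp <;> ring
  have hY : Y ^ 2 = X ^ 3 + ((0 : ℚ) : ℝ) * X + ((((-432 * M ^ 2 : ℤ) : ℚ)) : ℝ) := by
    simp only [X, Y]
    push_cast
    field_simp
    rw [← hrs]
    ring
  -- near `(X, Y)` the inverse map is near `(r, s)`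
  have hev : ∀ᶠ p : ℝ × ℝ in 𝓝 (X, Y), p.1 ≠ 0 ∧ |(36 * (M : ℝ) + p.2) / (6 * p.1) - r| < ε ∧
      |(36 * (M : ℝ) - p.2) / (6 * p.1) - s| < ε := by
    have c0 : ContinuousAt (fun p : ℝ × ℝ => p.1) (X, Y) := continuousAt_fst
    have c1 : ContinuousAt (fun p : ℝ × ℝ => (36 * (M : ℝ) + p.2) / (6 * p.1)) (X, Y) :=
      (continuousAt_const.add continuousAt_snd).div (continuousAt_const.mul c0) (by simp [hX])
    have c2 : ContinuousAt (fun p : ℝ × ℝ => (36 * (M : ℝ) - p.2) / (6 * p.1)) (X, Y) :=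
      (continuousAt_const.sub continuousAt_snd).div (continuousAt_const.mul c0) (by simp [hX])
    refine ((c0.eventually_ne hX).and ((Metric.tendsto_nhds.mp c1.tendsto ε hε).and
      (Metric.tendsto_nhds.mp c2.tendsto ε hε))).mono fun p hp => ⟨hp.1, ?_, ?_⟩
    · simpa [Real.dist_eq, hXY.1] using hp.2.1
    · simpa [Real.dist_eq, hXY.2] using hp.2.2
  obtain ⟨δ, hδ, hball⟩ := Metric.eventually_nhds_iff.mp hev
  have hpts := FA.Summary.rationalPoints_dense_all (A := 0) (B := ((-432 * M ^ 2 : ℤ) : ℚ))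
    (by
      have hk' : ((-432 * M ^ 2 : ℤ) : ℚ) ≠ 0 := Int.cast_ne_zero.mpr hk
      linarith [sq_pos_iff.mpr hk']) hY hδ
  have hnear : ∀ p : ℚ × ℚ, |(p.1 : ℝ) - X| < δ → |(p.2 : ℝ) - Y| < δ →
      (p.1 : ℝ) ≠ 0 ∧ |(36 * (M : ℝ) + p.2) / (6 * p.1) - r| < ε ∧
      |(36 * (M : ℝ) - p.2) / (6 * p.1) - s| < ε := fun p h1 h2 =>
    hball (y := ((p.1 : ℝ), (p.2 : ℝ))) (by
      rw [Prod.dist_eq]; exact max_lt (by rwa [Real.dist_eq]) (by rwa [Real.dist_eq]))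
  refine ((Set.infinite_image_iff
    (f := fun p : ℚ × ℚ => ((36 * (M : ℚ) + p.2) / (6 * p.1), (36 * (M : ℚ) - p.2) / (6 * p.1)))
    fun p hp p' hp' e => ?_).mpr hpts).mono (Set.image_subset_iff.mpr fun p hp => ?_)
  · have h1 : p.1 ≠ 0 := Rat.cast_ne_zero.mp (hnear p hp.2.1 hp.2.2).1
    have h2 : p'.1 ≠ 0 := Rat.cast_ne_zero.mp (hnear p' hp'.2.1 hp'.2.2).1
    rw [Prod.mk.injEq] at e
    obtain ⟨e1, e2⟩ := e
    field_simp at e1 e2
    have e3 : (p.1 - p'.1) * (M : ℚ) = 0 := by linear_combination (-(1 : ℚ) / 72) * (e1 + e2)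
    have e4 : p.1 = p'.1 :=
      sub_eq_zero.mp ((mul_eq_zero.mp e3).resolve_right (Int.cast_ne_zero.mpr hM))
    refine Prod.ext e4 ?_
    rw [e4] at e1
    linarith [mul_right_cancel₀ h2 (e1.trans (mul_comm _ _))]
  · obtain ⟨hne, hr, hs⟩ := hnear p hp.2.1 hp.2.2
    refine ⟨?_, by push_cast; exact hr, by push_cast; exact hs⟩
    have h1 : p.1 ≠ 0 := Rat.cast_ne_zero.mp hne
    have he := hp.1
    push_cast at he
    field_simp
    linear_combination 216 * (M : ℚ) * he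

end FA.SumTwoCubes

namespace FA.Summary

/-- **Sums of two cubes are dense on the real cubic.** -/
theorem sumTwoCubes_dense {m u v : ℚ} (hm : m ≠ 0) (h : u ^ 3 + v ^ 3 = m) (hu : u ≠ 0)
    (hv : v ≠ 0) (huv : u ≠ v) {r s : ℝ} (hrs : r ^ 3 + s ^ 3 = m) {ε : ℝ} (hε : 0 < ε) :
    {q : ℚ × ℚ | q.1 ^ 3 + q.2 ^ 3 = m ∧ |(q.1 : ℝ) - r| < ε ∧ |(q.2 : ℝ) - s| < ε}.Infinite := by
  set d : ℚ := (m.den : ℚ) with hd_def
  have hd : d ≠ 0 := Nat.cast_ne_zero.mpr m.den_ne_zero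
  have hd0 : (0 : ℝ) < d := by simp only [hd_def]; exact_mod_cast m.den_pos
  set M : ℤ := m.num * m.den ^ 2
  have hMd : (M : ℚ) = m * d ^ 3 := by
    simp only [M, hd_def]
    push_cast
    linear_combination (-(m.den : ℚ) ^ 2) * Rat.mul_den_eq_num m
  have hMd' : (M : ℝ) = m * (d : ℝ) ^ 3 := by exact_mod_cast hMd
  have hM : M ≠ 0 :=
    mul_ne_zero (Rat.num_ne_zero.mpr hm) (pow_ne_zero _ (Nat.cast_ne_zero.mpr m.den_ne_zero))
  have hS := FA.SumTwoCubes.dense_int hM (u := d * u) (v := d * v)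
    (by rw [hMd]; linear_combination d ^ 3 * h) (mul_ne_zero hd hu) (mul_ne_zero hd hv)
    (fun e => huv (mul_left_cancel₀ hd e)) (r := d * r) (s := d * s)
    (by rw [hMd']; linear_combination (d : ℝ) ^ 3 * hrs) (mul_pos hd0 hε)
  refine ((Set.infinite_image_iff (f := fun q : ℚ × ℚ => (q.1 / d, q.2 / d))
    fun p _ p' _ e => ?_).mpr hS).mono (Set.image_subset_iff.mpr fun q hq => ?_)
  · rw [Prod.mk.injEq, div_left_inj' hd, div_left_inj' hd] at e
    exact Prod.ext e.1 e.2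
  · obtain ⟨e, h1, h2⟩ := hq
    refine ⟨?_, ?_, ?_⟩
    · have e' : q.1 ^ 3 + q.2 ^ 3 = m * d ^ 3 := e.trans hMd
      field_simp
      linear_combination e'
    all_goals
      push_cast
      rw [abs_lt] at h1 h2 ⊢
      constructor
      · rw [lt_sub_iff_add_lt, lt_div_iff₀ hd0]; linarith
      · rw [sub_lt_iff_lt_add, div_lt_iff₀ hd0]; linarith

/-- **Fermat**: infinitely many positive representations. -/
theorem sumTwoCubes_positive {m u v : ℚ} (hm : 0 < m) (h : u ^ 3 + v ^ 3 = m) (hu : u ≠ 0)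
    (hv : v ≠ 0) (huv : u ≠ v) :
    {q : ℚ × ℚ | q.1 ^ 3 + q.2 ^ 3 = m ∧ 0 < q.1 ∧ 0 < q.2}.Infinite := by
  have hm' : (0 : ℝ) < (m : ℝ) / 2 := by
    have : (0 : ℝ) < m := by exact_mod_cast hm
    linarith
  set r := ((m : ℝ) / 2) ^ ((3 : ℝ)⁻¹)
  have hr : r ^ 3 = (m : ℝ) / 2 := by
    have := Real.rpow_inv_natCast_pow hm'.le (n := 3) (by norm_num)
    simpa using this
  have hr0 : 0 < r := Real.rpow_pos_of_pos hm' _
  refine (sumTwoCubes_dense hm.ne' h hu hv huv (r := r) (s := r) (by rw [hr]; ring) hr0).mono ?_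
  rintro q ⟨e, h1, h2⟩
  exact ⟨e, (Rat.cast_pos (K := ℝ)).mp (by linarith [(abs_lt.mp h1).1]),
    (Rat.cast_pos (K := ℝ)).mp (by linarith [(abs_lt.mp h2).1])⟩

/-- So six is the sum of two positive rational cubes in infinitely many ways. -/
theorem six_sumTwoCubes : {q : ℚ × ℚ | q.1 ^ 3 + q.2 ^ 3 = 6 ∧ 0 < q.1 ∧ 0 < q.2}.Infinite :=
  sumTwoCubes_positive (u := 17 / 21) (v := 37 / 21) (by norm_num) (by norm_num) (by norm_num)
    (by norm_num) (by norm_num)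

/-- **A difference of two cubes is a sum of two cubes**, in infinitely many ways, and also a
difference of two cubes in infinitely many ways. -/
theorem differenceTwoCubes {a b : ℚ} (hb : 0 < b) (hab : b < a) :
    {q : ℚ × ℚ | q.1 ^ 3 + q.2 ^ 3 = a ^ 3 - b ^ 3 ∧ 0 < q.1 ∧ 0 < q.2}.Infinite ∧
      {q : ℚ × ℚ | q.1 ^ 3 - q.2 ^ 3 = a ^ 3 - b ^ 3 ∧ 0 < q.1 ∧ 0 < q.2}.Infinite := by
  have hm : 0 < a ^ 3 - b ^ 3 := sub_pos.mpr (pow_lt_pow_left₀ hab hb.le (by norm_num))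
  have ha : 0 < a := hb.trans hab
  have h : a ^ 3 + (-b) ^ 3 = a ^ 3 - b ^ 3 := by ring
  have hne : a ≠ -b := by linarith
  refine ⟨sumTwoCubes_positive hm h ha.ne' (neg_ne_zero.mpr hb.ne') hne, ?_⟩
  have ha' : (0 : ℝ) < a := by exact_mod_cast ha
  have hb' : (0 : ℝ) < b := by exact_mod_cast hb
  have hS := sumTwoCubes_dense hm.ne' h ha.ne' (neg_ne_zero.mpr hb.ne') hne
    (r := (a : ℝ)) (s := -(b : ℝ)) (by push_cast; ring) (lt_min ha' hb')
  refine ((Set.infinite_image_iff (f := fun q : ℚ × ℚ => (q.1, -q.2))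
    fun p _ p' _ e => ?_).mpr hS).mono (Set.image_subset_iff.mpr fun q hq => ?_)
  · rw [Prod.mk.injEq, neg_inj] at e
    exact Prod.ext e.1 e.2
  · obtain ⟨e, h1, h2⟩ := hq
    refine ⟨by linear_combination e, ?_, ?_⟩
    · exact (Rat.cast_pos (K := ℝ)).mp (by linarith [(abs_lt.mp h1).1, min_le_left (a : ℝ) b])
    · exact (Rat.cast_pos (K := ℝ)).mp
        (by push_cast; linarith [(abs_lt.mp h2).2, min_le_right (a : ℝ) b])

/-- **Rational right triangles of a congruent area are dense among the real ones.** -/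
theorem congruentTriangles_dense {n : ℕ} (hn : n ≠ 0)
    (hc : ∃ a b c : ℚ, 0 < a ∧ 0 < b ∧ 0 < c ∧ a ^ 2 + b ^ 2 = c ^ 2 ∧ a * b / 2 = n)
    {a b : ℝ} (ha : 0 < a) (hb : 0 < b) (hab : a * b / 2 = n) {ε : ℝ} (hε : 0 < ε) :
    {p : ℚ × ℚ × ℚ | (0 < p.1 ∧ 0 < p.2.1 ∧ 0 < p.2.2) ∧ p.1 ^ 2 + p.2.1 ^ 2 = p.2.2 ^ 2 ∧
      p.1 * p.2.1 / 2 = n ∧ |(p.1 : ℝ) - a| < ε ∧ |(p.2.1 : ℝ) - b| < ε ∧
      |(p.2.2 : ℝ) - √(a ^ 2 + b ^ 2)| < ε}.Infinite := by
  haveI := FA.CongruentNumber.isElliptic_congCurve hn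
  haveI := (congruentNumber_iff_infinite n hn).mp hc
  have hn0 : (0 : ℝ) < n := Nat.cast_pos.mpr (Nat.pos_of_ne_zero hn)
  set c := √(a ^ 2 + b ^ 2)
  have hc2 : c ^ 2 = a ^ 2 + b ^ 2 := Real.sq_sqrt (by positivity)
  have hcb : b < c := by
    rw [← Real.sqrt_sq hb.le]
    exact Real.sqrt_lt_sqrt (sq_nonneg b) (by nlinarith)
  have hab' : a * b = 2 * n := by linarith
  set X := (n : ℝ) * (a + c) / b
  set Y := 2 * (n : ℝ) ^ 2 * (a + c) / b ^ 2
  have hXn : (n : ℝ) < X := by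
    rw [lt_div_iff₀ hb]; exact mul_lt_mul_of_pos_left (by linarith) hn0
  have hY0 : 0 < Y := by positivity
  have hY : Y ^ 2 = X ^ 3 + ((-(n : ℚ) ^ 2 : ℚ) : ℝ) * X + ((0 : ℚ) : ℝ) := by
    simp only [X, Y]
    push_cast
    field_simp
    linear_combination (-b * (n : ℝ) ^ 3 * (a + c)) * hc2 -
      2 * (n : ℝ) ^ 3 * (a + c) ^ 2 * hab'
  have hXY : (X ^ 2 - (n : ℝ) ^ 2) / Y = a ∧ 2 * n * X / Y = b ∧
      (X ^ 2 + (n : ℝ) ^ 2) / Y = c := by
    have hac : a + c ≠ 0 := by linarith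
    simp only [X, Y]
    refine ⟨?_, ?_, ?_⟩ <;> field_simp
    · linear_combination hc2
    · linear_combination -hc2
  have hev : ∀ᶠ p : ℝ × ℝ in 𝓝 (X, Y), ((n : ℝ) < p.1 ∧ 0 < p.2) ∧
      |(p.1 ^ 2 - (n : ℝ) ^ 2) / p.2 - a| < ε ∧ |2 * n * p.1 / p.2 - b| < ε ∧
      |(p.1 ^ 2 + (n : ℝ) ^ 2) / p.2 - c| < ε := by
    have cx : ContinuousAt (fun p : ℝ × ℝ => p.1) (X, Y) := continuousAt_fst
    have cy : ContinuousAt (fun p : ℝ × ℝ => p.2) (X, Y) := continuousAt_snd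
    have ca := ((cx.pow 2).sub (continuousAt_const (y := (n : ℝ) ^ 2))).div cy hY0.ne'
    have cb := ((continuousAt_const (y := 2 * (n : ℝ))).mul cx).div cy hY0.ne'
    have cc := ((cx.pow 2).add (continuousAt_const (y := (n : ℝ) ^ 2))).div cy hY0.ne'
    refine (((cx.eventually (eventually_gt_nhds hXn)).and
      (cy.eventually (eventually_gt_nhds hY0))).and ((Metric.tendsto_nhds.mp ca.tendsto ε hε).and
      ((Metric.tendsto_nhds.mp cb.tendsto ε hε).and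
        (Metric.tendsto_nhds.mp cc.tendsto ε hε)))).mono fun p hp => ⟨hp.1, ?_, ?_, ?_⟩
    · simpa [Real.dist_eq, hXY.1] using hp.2.1
    · simpa [Real.dist_eq, hXY.2.1] using hp.2.2.1
    · simpa [Real.dist_eq, hXY.2.2] using hp.2.2.2
  obtain ⟨δ, hδ, hball⟩ := Metric.eventually_nhds_iff.mp hev
  have hpts := rationalPoints_dense (A := -(n : ℚ) ^ 2) (B := 0) hY (fun t ht => by
    push_cast
    have : (n : ℝ) < t := hXn.trans ht
    nlinarith [mul_pos (hn0.trans this) (mul_pos (sub_pos.mpr this)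
      (by linarith : (0 : ℝ) < t + n))]) hδ
  have hnear : ∀ p : ℚ × ℚ, |(p.1 : ℝ) - X| < δ → |(p.2 : ℝ) - Y| < δ →
      ((n : ℝ) < p.1 ∧ 0 < (p.2 : ℝ)) ∧
      |((p.1 : ℝ) ^ 2 - (n : ℝ) ^ 2) / p.2 - a| < ε ∧ |2 * n * (p.1 : ℝ) / p.2 - b| < ε ∧
      |((p.1 : ℝ) ^ 2 + (n : ℝ) ^ 2) / p.2 - c| < ε := fun p h1 h2 =>
    hball (y := ((p.1 : ℝ), (p.2 : ℝ))) (by
      rw [Prod.dist_eq]; exact max_lt (by rwa [Real.dist_eq]) (by rwa [Real.dist_eq]))
  refine ((Set.infinite_image_iff (f := fun p : ℚ × ℚ =>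
      ((p.1 ^ 2 - (n : ℚ) ^ 2) / p.2, 2 * n * p.1 / p.2, (p.1 ^ 2 + (n : ℚ) ^ 2) / p.2))
    fun p hp p' hp' e => ?_).mpr hpts).mono (Set.image_subset_iff.mpr fun p hp => ?_)
  · obtain ⟨⟨-, h1⟩, -⟩ := hnear p hp.2.1 hp.2.2
    obtain ⟨⟨-, h2⟩, -⟩ := hnear p' hp'.2.1 hp'.2.2
    have h1' : p.2 ≠ 0 := (Rat.cast_pos.mp h1).ne'
    have h2' : p'.2 ≠ 0 := (Rat.cast_pos.mp h2).ne'
    have hn' : (n : ℚ) ≠ 0 := Nat.cast_ne_zero.mpr hn
    simp only [Prod.mk.injEq] at e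
    obtain ⟨ea, eb, ec⟩ := e
    have e3 : (p.1 ^ 2 + (n : ℚ) ^ 2) / p.2 - (p.1 ^ 2 - (n : ℚ) ^ 2) / p.2 =
        (p'.1 ^ 2 + (n : ℚ) ^ 2) / p'.2 - (p'.1 ^ 2 - (n : ℚ) ^ 2) / p'.2 := by rw [ea, ec]
    field_simp at e3
    have ey : p.2 = p'.2 := by
      refine mul_left_cancel₀ (pow_ne_zero 2 hn') ?_
      linear_combination (-(1 : ℚ) / 2) * e3
    rw [ey, div_left_inj' h2'] at eb
    exact Prod.ext (mul_left_cancel₀ (mul_ne_zero two_ne_zero hn') eb) ey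
  · obtain ⟨⟨hx, hy⟩, ea, eb, ec⟩ := hnear p hp.2.1 hp.2.2
    have hx' : (n : ℚ) < p.1 := by exact_mod_cast hx
    have hy' : 0 < p.2 := Rat.cast_pos.mp hy
    have hn' : (0 : ℚ) < n := Nat.cast_pos.mpr (Nat.pos_of_ne_zero hn)
    have hp1 : 0 < p.1 := hn'.trans hx'
    refine ⟨⟨div_pos (by nlinarith) hy', by positivity, by positivity⟩, ?_, ?_,
      by push_cast; exact ea, by push_cast; exact eb, by push_cast; exact ec⟩
    · field_simp
      ring
    · field_simp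
      linear_combination -hp.1

end FA.Summary

end
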