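import Fermat.Agent.CubicTwistCount.Main
import Fermat.Agent.Root.SummarySumTwoCubes

/-!
# Twists of the Fermat cubic with positive rank

At least `c N ^ (2/3)` squarefree `m ≤ N` make `u³ + v³ = m`, equally `y² = x³ - 432 m²`, have
infinitely many rational points, and these curves are pairwise non-isomorphic.
-/

set_option autoImplicit false
set_option linter.style.haveILetI false

noncomputable section

open Filter
open FA.MordellCurve

namespace FA.CubicTwistCount.Summary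

/-- **Squarefree sums of two positive cubes.** -/
theorem squarefree_two_cubes :
    ∃ c : ℝ, 0 < c ∧ ∀ᶠ N : ℕ in atTop, c * (N : ℝ) ^ (2 / 3 : ℝ) ≤
      ({m | m ≤ N ∧ Squarefree m ∧
        ∃ x y : ℕ, 0 < x ∧ 0 < y ∧ x ^ 3 + y ^ 3 = m}.ncard : ℝ) :=
  eventually_ncard_ge _ fun _ x y _ hx hy _ he => ⟨x, y, hx, hy, he⟩

/-- **Twists of positive rank.** -/
theorem twists_positive_rank :
    ∃ c : ℝ, 0 < c ∧ ∀ᶠ N : ℕ in atTop, c * (N : ℝ) ^ (2 / 3 : ℝ) ≤
      ({m | m ≤ N ∧ Squarefree m ∧ {q : ℚ × ℚ | q.1 ^ 3 + q.2 ^ 3 = (m : ℚ)}.Infinite ∧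
        Infinite (mordCurve (-432 * (m : ℤ) ^ 2)).toAffine.Point}.ncard : ℝ) := by
  refine eventually_ncard_ge _ fun m x y _ hx hy hxy he => ?_
  have heq : (x : ℚ) ^ 3 + (y : ℚ) ^ 3 = (m : ℚ) := by exact_mod_cast he
  have hm : 0 < m := he ▸ Nat.add_pos_left (pow_pos hx 3) _
  have hx' : (x : ℚ) ≠ 0 := Nat.cast_ne_zero.2 hx.ne'
  have hy' : (y : ℚ) ≠ 0 := Nat.cast_ne_zero.2 hy.ne'
  have hxy' : (x : ℚ) ≠ (y : ℚ) := fun h => hxy (Nat.cast_injective h)
  exact ⟨(FA.Summary.sumTwoCubes_positive (Nat.cast_pos.2 hm) heq hx' hy' hxy').mono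
      fun q hq => hq.1,
    FA.SumTwoCubes.infinite_points (Int.natCast_ne_zero.2 hm.ne') (u := (x : ℚ)) (v := (y : ℚ))
      (by rw [Int.cast_natCast]; exact heq) hx' hy' hxy'⟩

/-- **Different squarefree `m` give non-isomorphic curves.** -/
theorem twists_pairwise_nonisomorphic {m m' : ℕ} (hm : Squarefree m) (hm' : Squarefree m')
    (C : WeierstrassCurve.VariableChange ℚ)
    (h : C • mordCurve (-432 * (m : ℤ) ^ 2) = mordCurve (-432 * (m' : ℤ) ^ 2)) : m = m' := by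
  have hu : ((C.u⁻¹ : ℚˣ) : ℚ) ≠ 0 := Units.ne_zero _
  have h1 := congrArg WeierstrassCurve.a₁ h
  have h2 := congrArg WeierstrassCurve.a₂ h
  have h3 := congrArg WeierstrassCurve.a₃ h
  have h6 := congrArg WeierstrassCurve.a₆ h
  simp only [WeierstrassCurve.variableChange_a₁, WeierstrassCurve.variableChange_a₂,
    WeierstrassCurve.variableChange_a₃, WeierstrassCurve.variableChange_a₆] at h1 h2 h3 h6
  have hs : C.s = 0 := by simpa using (mul_eq_zero.1 h1).resolve_left hu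
  have hr : C.r = 0 := by simpa [hs] using (mul_eq_zero.1 h2).resolve_left (pow_ne_zero 2 hu)
  have ht : C.t = 0 := by simpa [hr] using (mul_eq_zero.1 h3).resolve_left (pow_ne_zero 3 hu)
  set w : ℚ := ((C.u⁻¹ : ℚˣ) : ℚ) with hw
  have hsq : ((m : ℚ) * |w| ^ 3) ^ 2 = (m' : ℚ) ^ 2 := by
    simp only [hr, ht] at h6
    push_cast at h6
    rw [mul_pow, ← pow_mul, pow_mul' |w| 3 2, sq_abs, ← pow_mul]
    linear_combination (-1 / 432 : ℚ) * h6
  have he : (m : ℚ) * |w| ^ 3 = (m' : ℚ) :=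
    (pow_left_inj₀ (by positivity) (Nat.cast_nonneg _) two_ne_zero).1 hsq
  set q := |w| with hq
  have hq0 : 0 < q := abs_pos.2 hu
  set a := q.num.natAbs with ha
  have hqd : q = (a : ℚ) / q.den := by
    rw [ha, Nat.cast_natAbs, abs_of_pos (Rat.num_pos.2 hq0)]
    exact (Rat.num_div_den q).symm
  have hnat : m * a ^ 3 = m' * q.den ^ 3 := by
    have : (m : ℚ) * (a : ℚ) ^ 3 = (m' : ℚ) * (q.den : ℚ) ^ 3 := by
      have e : (a : ℚ) = q * (q.den : ℚ) :=
        ((eq_div_iff (Nat.cast_ne_zero.2 q.den_nz)).1 hqd).symm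
      rw [← he, e, mul_pow, mul_assoc]
    exact_mod_cast this
  have hcop : Nat.Coprime a q.den := q.reduced
  have hden : q.den = 1 := by
    have h' : q.den ^ 3 ∣ m := (hcop.symm.pow 3 3).dvd_of_dvd_mul_right ⟨m', by rw [hnat]; ring⟩
    exact Nat.isUnit_iff.1 (hm q.den ((dvd_pow_self _ (by norm_num : (1 : ℕ) ≠ 0)).trans
      (by rw [pow_one, ← sq]; exact (pow_dvd_pow _ (by norm_num)).trans h')))
  rw [hden, one_pow, mul_one] at hnat
  have ha1 : a = 1 := Nat.isUnit_iff.1 (hm' a (by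
    rw [← hnat, ← sq]
    exact (pow_dvd_pow a (by norm_num : 2 ≤ 3)).mul_left m))
  rwa [ha1, one_pow, mul_one] at hnat

end FA.CubicTwistCount.Summary

end
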