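import Fermat.Agent.CubicTwoTorsion.Mean

/-!
# The mean two-torsion of the class groups of cubic fields is bounded

A nontrivial class killed by two of a cubic field `K` gives, without class field theory, a quartic
field `L` with a root of its resolvent in `K` and `|d_L| ≤ 256 |d_K|`: `Gives c L` says that for
`𝔟` in `c` with `𝔟² = (β)` some `4 b₀² / β` is that root.

* `class_gives_quartic`: every class `c ≠ 1` with `c² = 1` gives such a field;
* `quartic_determines_class`: isomorphic quartic fields come from isomorphic cubic fields, and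
  one field from at most three classes of one cubic field;
* `cubic_two_torsion_sum`: over pairwise non-isomorphic cubic fields with `|d| ≤ X` the nontrivial
  classes killed by two number at most `C X`;
* `cubic_two_torsion_mean`: over all cubic fields with `0 < d ≤ X`, or with `-X ≤ d < 0`, the mean
  of `#Cl[2]` is at most a constant (Bhargava 2005, upper half; the count from below is the theorem
  of Davenport and Heilbronn).

The values `5/4` and `3/2` of the means, narrow class groups and any lower bound are not claimed.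
Independent of S01.
-/

set_option autoImplicit false
set_option linter.style.haveILetI false

noncomputable section

open NumberField Module Finset
open scoped Classical nonZeroDivisors

namespace FA.CubicTwoTorsion.Summary

/-- **A class gives a quartic field.** -/
theorem class_gives_quartic (K : Type) [Field K] [NumberField K] (hK : finrank ℚ K = 3)
    (c : ClassGroup (𝓞 K)) (hc : c ^ 2 = 1) (hc1 : c ≠ 1) :
    ∃ (L : Type) (_ : Field L) (_ : NumberField L), Gives c L ∧ finrank ℚ L = 4 ∧
      |discr L| ≤ 256 * |discr K| := by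
  obtain ⟨L, hF, hNF, hG, hd⟩ := exists_gives hK hc hc1
  exact ⟨L, hF, hNF, hG, hG.1, hd⟩

/-- **The quartic field determines the cubic field and, up to three choices, the class.** -/
theorem quartic_determines_class (K K' L₀ L : Type) [Field K] [NumberField K] [Field K']
    [NumberField K'] [Field L₀] [NumberField L₀] [Field L] [NumberField L]
    (hK : finrank ℚ K = 3) (hK' : finrank ℚ K' = 3) (c : ClassGroup (𝓞 K))
    (c' : ClassGroup (𝓞 K')) (h₀ : Gives c L₀) (h : Gives c' L) (σ : L ≃+* L₀) :
    Nonempty (K ≃+* K') ∧ ∀ S : Finset (ClassGroup (𝓞 K)),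
      (∀ d ∈ S, ∃ (M : Type) (_ : Field M) (_ : NumberField M),
        Gives d M ∧ Nonempty (M ≃+* L₀)) → S.card ≤ 3 := by
  refine ⟨?_, fun S hS => card_fibre_le hK h₀ S hS⟩
  obtain ⟨hn, D, I, β, b₀, φ, hR, hφ, -⟩ := h₀
  obtain ⟨-, D', I', β', b₀', φ', hR', hφ', -⟩ := h
  obtain ⟨τ, -⟩ := exists_transfer_iso hK hK' hn D D' hR hR' hφ hφ' σ
  exact ⟨τ.toRingEquiv⟩

/-- **The sum of the two-torsion.** -/
theorem cubic_two_torsion_sum : ∃ C : ℝ, 0 ≤ C ∧
    ∀ (X : ℝ), 0 ≤ X → ∀ (ι : Type) (K : ι → Type) [∀ i, Field (K i)] [∀ i, NumberField (K i)],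
      (∀ i, finrank ℚ (K i) = 3) → (∀ i, |(discr (K i) : ℝ)| ≤ X) →
      (∀ i j, Nonempty (K i ≃+* K j) → i = j) → ∀ S : Finset ι,
        ∑ i ∈ S, (Nat.card {c : ClassGroup (𝓞 (K i)) // c ^ 2 = 1 ∧ c ≠ 1} : ℝ) ≤ C * X :=
  exists_sum_bound

/-- **The mean is bounded.** -/
theorem cubic_two_torsion_mean : ∃ C : ℝ,
    ∀ (X : ℝ) (ι : Type) [Fintype ι] (F : ι → Type) [∀ i, Field (F i)] [∀ i, NumberField (F i)],
      (IsSystem (fun d => 0 < d ∧ (d : ℝ) ≤ X) F ∨ IsSystem (fun d => d < 0 ∧ (-d : ℝ) ≤ X) F) →
        ∑ i, (Nat.card {c : ClassGroup (𝓞 (F i)) // c ^ 2 = 1} : ℝ) ≤ C * Fintype.card ι :=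
  exists_mean_bound

end FA.CubicTwoTorsion.Summary
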