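import Fermat.Agent.CurveDeRham.Multiplicative
import Fermat.Agent.Ribet.SerreMore

/-!
# Elliptic curves with multiplicative reduction at `p` are de Rham at `p`

`W` is a Weierstrass curve over `ℤ`, `B` a basis of its `p`-adic Tate module and `curveAtP B` the
representation on `ℚ_p ^ 2` of the Galois group of `ℚ_p`. The weights are signed as in
`SummaryPadicHodge`: `χ` has weight `1`. Good reduction at `p`, `p = 2` and `B_st` are not treated.
-/

set_option autoImplicit false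
set_option linter.unusedSectionVars false

noncomputable section

open Finset Matrix WeierstrassCurve FA.TateSen FA.BDR FA.Sen FA.PadicHodge FA.PadicDescent
  FA.DRCoh FA.CurveDR FA.RT.Tate FA.Frob FA.EC

namespace FA.Summary

variable (p : ℕ) [hp : Fact p.Prime] (W : WeierstrassCurve ℤ) [(ratCurve W).IsElliptic]

local notation "Cp" => ℂ_[p]
local notation "G" => PadicAlgCl p ≃ₐ[ℚ_[p]] PadicAlgCl p

/-- The definition used below. -/
theorem curve_de_rham_defs (B : TateBasis p W) (τ : G) (i j : Fin 2) :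
    curveAtP B τ i j = ((B.rep (localGaloisToGlobal p τ) i j : ℤ_[p]) : ℚ_[p]) ∧
    ∀ (n : ℕ) (v : Fin 2 → ℤ_[p]),
      localGaloisToGlobal p τ • B.φ n v = B.φ n (B.rep (localGaloisToGlobal p τ) *ᵥ v) :=
  ⟨rfl, fun n v => B.rep_spec _ n v⟩

/-- **The shape at `p`**: in some basis an extension of a quadratic character `η` by `χ η`. -/
theorem multiplicative_shape (hp2 : p ≠ 2) (hΔ : W.Δ ≠ 0) (hd : (p : ℤ) ∣ W.Δ)
    (hc : ¬ (p : ℤ) ∣ W.c₄) (B : TateBasis p W) :
    IsQpRep p (Fin 2) (curveAtP B) ∧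
    ∃ (C : (Matrix (Fin 2) (Fin 2) ℚ_[p])ˣ) (η : G →* ℚ_[p]) (y : G → ℚ_[p]),
      Continuous η ∧ Continuous y ∧ (∀ τ, η τ ^ 2 = 1) ∧
        ∀ τ, curveAtP B τ * (C : Matrix (Fin 2) (Fin 2) ℚ_[p]) =
          (C : Matrix (Fin 2) (Fin 2) ℚ_[p]) *
            !![((chi p τ : ℤ_[p]) : ℚ_[p]) * η τ, y τ; 0, η τ] :=
  ⟨isQpRep_curveAtP B, exists_shape B hp2 (multAt_padicPlace hΔ hd hc)⟩

/-- **Multiplicative reduction at an odd `p` gives a de Rham representation** with Hodge–Tate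
weights `1` and `0`; the periods have dimension two and their zeroth step dimension one. -/
theorem multiplicative_de_rham (hp2 : p ≠ 2) (hΔ : W.Δ ≠ 0) (hd : (p : ℤ) ∣ W.Δ)
    (hc : ¬ (p : ℤ) ∣ W.c₄) (B : TateBasis p W) :
    IsDeRham (curveAtP B) ∧
    (∃ P : (Matrix (Fin 2) (Fin 2) Cp)ˣ, ∀ τ, FA.Sen.conj (cpRep (curveAtP B)) P τ =
      Matrix.diagonal fun i => twist p (![1, 0] i) τ) ∧
    Module.finrank ℚ_[p] (dR (curveAtP B)) = 2 ∧
    (Module.finrank ℚ_[p] (filDR (curveAtP B) 0) = 1 ∧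
      Module.finrank ℚ_[p] (filDR (curveAtP B) (-1)) = 2 ∧
      Module.finrank ℚ_[p] (filDR (curveAtP B) 1) = 0) := by
  obtain ⟨h, P, hP⟩ := isDeRham_curveAtP B hp2 (multAt_padicPlace hΔ hd hc)
  refine ⟨h, ⟨P, hP⟩, (isDeRham_iff_finrank _).1 h, ?_, ?_, ?_⟩ <;>
    rw [finrank_filDR_weights h hP] <;> decide

/-- The determinant is the cyclotomic character; dual and tensor square are de Rham as well. -/
theorem multiplicative_de_rham_operations (hp2 : p ≠ 2) (hΔ : W.Δ ≠ 0) (hd : (p : ℤ) ∣ W.Δ)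
    (hc : ¬ (p : ℤ) ∣ W.c₄) (B : TateBasis p W) :
    (∀ τ, (curveAtP B τ).det = ((chi p τ : ℤ_[p]) : ℚ_[p])) ∧
      IsDeRham (dualRep (curveAtP B)) ∧ IsDeRham (tensRep (curveAtP B) (curveAtP B)) :=
  have h := (isDeRham_curveAtP B hp2 (multAt_padicPlace hΔ hd hc)).1
  ⟨det_curveAtP B, isDeRham_dual (isQpRep_curveAtP B) h, isDeRham_tens h h⟩

/-- **A semistable curve is de Rham at each odd prime of bad reduction.** -/
theorem semistable_de_rham_at_bad_prime (hp2 : p ≠ 2) (hΔ : W.Δ ≠ 0) (hW : W.IsSemistableModel)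
    (hd : (p : ℤ) ∣ W.Δ) :
    Nonempty (TateBasis p W) ∧ ∀ B : TateBasis p W, IsDeRham (curveAtP B) :=
  ⟨exists_tateBasis W, fun B =>
    (isDeRham_curveAtP B hp2 (multAt_padicPlace hΔ hd (hW p hp.out hd))).1⟩

/-- **An example**: `y² + y = x³ - x²` at `p = 11`. -/
theorem curve_eleven_de_rham [Fact (Nat.Prime 11)] :
    ∃ _ : (ratCurve FA.Ribet.curve11).IsElliptic, Nonempty (TateBasis 11 FA.Ribet.curve11) ∧
      ∀ B : TateBasis 11 FA.Ribet.curve11, IsDeRham (curveAtP B) := by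
  have hΔ : FA.Ribet.curve11.Δ ≠ 0 := by decide
  have := ratCurve_isElliptic_of_Δ hΔ
  exact ⟨this, exists_tateBasis _, fun B => (isDeRham_curveAtP B (by norm_num)
    (multAt_padicPlace hΔ (by rw [FA.Ribet.curve11_Δ]; norm_num) (by decide))).1⟩

end FA.Summary
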