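import Fermat.Agent.ProjBertini.Main

/-!
# Poonen's Bertini theorem for projective plane curves over a finite field

Among the forms of degree `d` in three variables over the field of `q` elements the proportion of
the smooth ones tends to `(1 - 1/q) (1 - 1/q²) (1 - 1/q³)`. A smooth form is irreducible over the
algebraic closure, so the geometrically irreducible forms have at least this lower density.
-/

set_option autoImplicit false
set_option linter.style.openClassical false
set_option linter.style.haveILetI false

noncomputable section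

open scoped Classical Topology
open MvPolynomial Filter FA.PlaneBertini

namespace FA.ProjBertini.Summary

variable (k : Type*) [Field k] [Finite k]

omit [Finite k] in
/-- The forms with a property, read in the last chart. -/
theorem natCard_forms (d : ℕ) (s : MvPolynomial (Fin 3) k → Prop) :
    Nat.card {F : MvPolynomial (Fin 3) k // F.IsHomogeneous d ∧ s F} =
      Nat.card {g : Poly k d // s (homog 2 d g.1)} :=
  Nat.card_congr
    { toFun := fun F => ⟨⟨deh 2 F.1, (mem_restrictTotalDegree _ _ _).mpr
        (totalDegree_deh_le 2 F.2.1)⟩, by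
          show s (homog 2 d (deh 2 F.1))
          rw [homog_deh 2 F.2.1]
          exact F.2.2⟩
      invFun := fun g => ⟨homog 2 d g.1.1, homog_isHomogeneous 2 d _, g.2⟩
      left_inv := fun F => Subtype.ext (homog_deh 2 F.2.1)
      right_inv := fun g => Subtype.ext (Subtype.ext
        (deh_homog 2 ((mem_restrictTotalDegree _ _ _).mp g.1.2))) }

/-- **Poonen's theorem**: the smooth projective plane curves. -/
theorem smooth_projective_plane_curves_density :
    Tendsto (fun d : ℕ => (Nat.card {F : MvPolynomial (Fin 3) k // F.IsHomogeneous d ∧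
        ∀ P : Fin 3 → AlgebraicClosure k, P ≠ 0 →
          ¬ (aeval P F = 0 ∧ ∀ i, aeval P (pderiv i F) = 0)} : ℝ) /
      Nat.card {F : MvPolynomial (Fin 3) k // F.IsHomogeneous d}) atTop
      (𝓝 ((1 - 1 / (Nat.card k : ℝ)) * (1 - 1 / (Nat.card k : ℝ) ^ 2) *
        (1 - 1 / (Nat.card k : ℝ) ^ 3))) := by
  haveI := Fintype.ofFinite k
  have hlim : zetaFactor k = (1 - 1 / (Nat.card k : ℝ)) * (1 - 1 / (Nat.card k : ℝ) ^ 2) *
      (1 - 1 / (Nat.card k : ℝ) ^ 3) := by
    rw [zetaFactor, Fin.prod_univ_three, Nat.card_eq_fintype_card]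
    simp only [Fin.val_zero, Fin.val_one, Fin.val_two, one_div]
    ring
  rw [← hlim]
  refine (tendsto_proportion_smoothCharts (k := k)).congr fun d => ?_
  rw [proportion, natCard_forms]
  have hall : Nat.card {F : MvPolynomial (Fin 3) k // F.IsHomogeneous d} = Nat.card (Poly k d) :=
    (Nat.card_congr (Equiv.subtypeEquivRight fun _ => (and_iff_left trivial).symm)).trans
      ((natCard_forms k d fun _ => True).trans
        (Nat.card_congr (Equiv.subtypeUnivEquiv fun _ => trivial)))
  rw [hall]
  congr 2
  refine Nat.card_congr (Equiv.subtypeEquivRight fun g => ?_)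
  have h := smoothCharts_iff (k := k) (homog_isHomogeneous 2 d g.1)
  rwa [deh_homog 2 ((mem_restrictTotalDegree _ _ _).mp g.2)] at h

/-- **Smooth projective plane curves of every large degree**, over every finite field. -/
theorem exists_smooth_projective_plane_curve :
    ∀ᶠ d : ℕ in atTop, ∃ F : MvPolynomial (Fin 3) k, F.IsHomogeneous d ∧
      ∀ P : Fin 3 → AlgebraicClosure k, P ≠ 0 →
        ¬ (aeval P F = 0 ∧ ∀ i, aeval P (pderiv i F) = 0) := by
  haveI := Fintype.ofFinite k
  have hq : (1 : ℝ) < Nat.card k := by exact_mod_cast Finite.one_lt_card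
  have hpos : ∀ n : ℕ, n ≠ 0 → 0 < 1 - 1 / (Nat.card k : ℝ) ^ n := fun n hn => by
    rw [one_div, sub_pos]
    exact inv_lt_one_of_one_lt₀ (one_lt_pow₀ hq hn)
  have h1 := hpos 1 one_ne_zero
  rw [pow_one] at h1
  filter_upwards [(smooth_projective_plane_curves_density k).eventually
    (lt_mem_nhds (mul_pos (mul_pos h1 (hpos 2 two_ne_zero)) (hpos 3 three_ne_zero)))] with d hd
  by_contra! hno
  refine hd.ne' ?_
  rw [Nat.card_eq_zero.mpr (Or.inl ⟨fun F => ?_⟩), Nat.cast_zero, zero_div]
  obtain ⟨P, hP, h0, hd'⟩ := hno F.1 F.2.1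
  exact F.2.2 P hP ⟨h0, hd'⟩

omit [Finite k] in
/-- **A smooth form is irreducible over the algebraic closure.** -/
theorem smooth_form_irreducible {d : ℕ} (hd : d ≠ 0) {F : MvPolynomial (Fin 3) k}
    (hF : F.IsHomogeneous d)
    (hs : ∀ P : Fin 3 → AlgebraicClosure k, P ≠ 0 →
      ¬ (aeval P F = 0 ∧ ∀ i, aeval P (pderiv i F) = 0)) :
    Irreducible (F.map (algebraMap k (AlgebraicClosure k))) := by
  refine irreducible_of_smooth hd (hF.map _) fun P hP => ?_
  have h := hs P hP
  simpa only [FormSingularAt, pderiv_map, aeval_map_algebraMap] using h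

/-- **Geometrically irreducible forms** have lower density at least the same product. -/
theorem geometrically_irreducible_lower_density {ε : ℝ} (hε : 0 < ε) :
    ∀ᶠ d : ℕ in atTop,
      (1 - 1 / (Nat.card k : ℝ)) * (1 - 1 / (Nat.card k : ℝ) ^ 2) *
          (1 - 1 / (Nat.card k : ℝ) ^ 3) - ε ≤
        (Nat.card {F : MvPolynomial (Fin 3) k // F.IsHomogeneous d ∧
          Irreducible (F.map (algebraMap k (AlgebraicClosure k)))} : ℝ) /
        Nat.card {F : MvPolynomial (Fin 3) k // F.IsHomogeneous d} := by
  haveI := Fintype.ofFinite k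
  filter_upwards [(smooth_projective_plane_curves_density k).eventually
    (lt_mem_nhds (sub_lt_self _ hε)), eventually_ne_atTop 0] with d hd hd0
  refine hd.le.trans (div_le_div_of_nonneg_right ?_ (Nat.cast_nonneg _))
  rw [Nat.cast_le, natCard_forms, natCard_forms]
  exact Nat.card_le_card_of_injective
    (Subtype.map id fun g hg => smooth_form_irreducible k hd0 (homog_isHomogeneous 2 d _) hg)
    (Subtype.map_injective _ Function.injective_id)

end FA.ProjBertini.Summary
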