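import Fermat.Agent.CurvePointStatistics.Main
import Fermat.Agent.Root.SummaryProjBertini

/-!
# Rational points on random smooth plane curves

The theorem of Bucur, David, Feigon and Lalín: as the degree grows the rational points of the
smooth projective plane curves over the field of `q` elements are distributed like independent
trials, one for each of the `q² + q + 1` points, of chance `(q + 1)/(q² + q + 1)`. In particular
every set of rational points, all of them or none, is that of a smooth curve of every large degree.
-/

set_option autoImplicit false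
set_option linter.style.openClassical false
set_option linter.style.haveILetI false

noncomputable section

open scoped Classical Topology LinearAlgebra.Projectivization
open MvPolynomial Filter FA.PlaneBertini FA.ProjBertini

namespace FA.CurvePointStatistics.Summary

/-- A form of degree `d` without singular points. -/
def IsSmoothForm {k : Type*} [Field k] (d : ℕ) (F : MvPolynomial (Fin 3) k) : Prop :=
  F.IsHomogeneous d ∧ ∀ P : Fin 3 → AlgebraicClosure k, P ≠ 0 →
    ¬ (aeval P F = 0 ∧ ∀ i, aeval P (pderiv i F) = 0)

variable (k : Type*) [Field k] [Finite k]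

omit [Finite k] in
theorem share_eq [Fintype k] (C : MvPolynomial (Fin 3) k → Prop) (d : ℕ) :
    (Nat.card {F : MvPolynomial (Fin 3) k // IsSmoothForm d F ∧ C F} : ℝ) /
      Nat.card {F : MvPolynomial (Fin 3) k // IsSmoothForm d F} = smoothShare k C d := by
  have key : ∀ C : MvPolynomial (Fin 3) k → Prop,
      Nat.card {F : MvPolynomial (Fin 3) k // IsSmoothForm d F ∧ C F} =
        Nat.card {g : Poly k d // SmoothCharts d g.1 ∧ C (homog 2 d g.1)} := fun C => by
    refine (Nat.card_congr (Equiv.subtypeEquivRight fun F => and_assoc)).trans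
      ((FA.ProjBertini.Summary.natCard_forms k d _).trans
        (Nat.card_congr (Equiv.subtypeEquivRight fun g => and_congr_left' ?_)))
    have h := smoothCharts_iff (k := k) (homog_isHomogeneous 2 d g.1)
    rw [deh_homog 2 ((mem_restrictTotalDegree _ _ _).mp g.2)] at h
    exact h.symm
  have h1 := key fun _ => True
  simp only [and_true] at h1
  rw [smoothShare, proportion, proportion, key C, h1, div_div_div_cancel_right₀]
  exact (card_poly_pos d).ne'

/-- **Bucur, David, Feigon and Lalín**: each set of rational points. -/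
theorem smooth_curves_prescribed_points (A : Finset (ℙ k (Fin 3 → k))) :
    Tendsto (fun d : ℕ => (Nat.card {F : MvPolynomial (Fin 3) k //
        IsSmoothForm d F ∧ ∀ x : ℙ k (Fin 3 → k), eval x.rep F = 0 ↔ x ∈ A} : ℝ) /
      Nat.card {F : MvPolynomial (Fin 3) k // IsSmoothForm d F}) atTop
      (𝓝 ((((Nat.card k : ℝ) + 1) / ((Nat.card k : ℝ) ^ 2 + Nat.card k + 1)) ^ A.card *
        (1 - ((Nat.card k : ℝ) + 1) / ((Nat.card k : ℝ) ^ 2 + Nat.card k + 1)) ^
          (Nat.card k ^ 2 + Nat.card k + 1 - A.card))) := by
  haveI := Fintype.ofFinite k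
  simp only [Nat.card_eq_fintype_card (α := k)]
  refine (tendsto_smoothShare_zeroSet A).congr fun d => ?_
  rw [← share_eq]
  congr 2
  exact Nat.card_congr (Equiv.subtypeEquivRight fun F => and_congr_right' (by
    simp [zeroSet, Finset.ext_iff]))

/-- **The binomial law** of the number of rational points. -/
theorem point_count_binomial (m : ℕ) :
    Tendsto (fun d : ℕ => (Nat.card {F : MvPolynomial (Fin 3) k //
        IsSmoothForm d F ∧ Nat.card {x : ℙ k (Fin 3 → k) // eval x.rep F = 0} = m} : ℝ) /
      Nat.card {F : MvPolynomial (Fin 3) k // IsSmoothForm d F}) atTop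
      (𝓝 (((Nat.card k ^ 2 + Nat.card k + 1).choose m : ℝ) *
        (((Nat.card k : ℝ) + 1) / ((Nat.card k : ℝ) ^ 2 + Nat.card k + 1)) ^ m *
        (1 - ((Nat.card k : ℝ) + 1) / ((Nat.card k : ℝ) ^ 2 + Nat.card k + 1)) ^
          (Nat.card k ^ 2 + Nat.card k + 1 - m))) := by
  haveI := Fintype.ofFinite k
  simp only [Nat.card_eq_fintype_card (α := k)]
  refine (tendsto_smoothShare_card m).congr fun d => ?_
  rw [← share_eq]
  congr 2
  exact Nat.card_congr (Equiv.subtypeEquivRight fun F => and_congr_right' (by
    rw [Nat.card_eq_fintype_card, Fintype.card_subtype]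
    rfl))

/-- **The mean** number of rational points tends to `q + 1`. -/
theorem point_count_mean :
    Tendsto (fun d : ℕ => ∑ m ∈ Finset.range (Nat.card k ^ 2 + Nat.card k + 2), (m : ℝ) *
        ((Nat.card {F : MvPolynomial (Fin 3) k //
          IsSmoothForm d F ∧ Nat.card {x : ℙ k (Fin 3 → k) // eval x.rep F = 0} = m} : ℝ) /
        Nat.card {F : MvPolynomial (Fin 3) k // IsSmoothForm d F})) atTop
      (𝓝 ((Nat.card k : ℝ) + 1)) := by
  haveI := Fintype.ofFinite k
  simp only [Nat.card_eq_fintype_card (α := k)]
  refine (tendsto_mean_points (k := k)).congr fun d => Finset.sum_congr rfl fun m _ => ?_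
  rw [← share_eq]
  congr 3
  exact Nat.card_congr (Equiv.subtypeEquivRight fun F => and_congr_right' (by
    rw [Nat.card_eq_fintype_card, Fintype.card_subtype]
    rfl))

/-- **Smooth curves through all rational points**, and through none, in every large degree. -/
theorem exists_smooth_space_filling_curve :
    ∀ᶠ d : ℕ in atTop,
      (∃ F, IsSmoothForm d F ∧ ∀ x : ℙ k (Fin 3 → k), eval x.rep F = 0) ∧
      ∃ F, IsSmoothForm d F ∧ ∀ x : ℙ k (Fin 3 → k), eval x.rep F ≠ 0 := by
  haveI := Fintype.ofFinite k
  filter_upwards [eventually_exists_zeroSet (k := k) Finset.univ,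
    eventually_exists_zeroSet (k := k) ∅] with d ⟨F, hF, hs, hz⟩ ⟨G, hG, ht, hw⟩
  refine ⟨⟨F, ⟨hF, hs⟩, fun x => ?_⟩, ⟨G, ⟨hG, ht⟩, fun x h => ?_⟩⟩
  · have h := Finset.mem_univ x
    rw [← hz, zeroSet, Finset.mem_filter] at h
    exact h.2
  · have h' : x ∈ zeroSet G := Finset.mem_filter.mpr ⟨Finset.mem_univ x, h⟩
    rw [hw] at h'
    exact Finset.notMem_empty x h'

end FA.CurvePointStatistics.Summary
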