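import Fermat.Agent.SkolemMahlerLech.Main

/-!
# The theorem of Skolem, Mahler and Lech

* `skolem_mahler_lech`: the zeros of a linear recurrence over a field of characteristic zero are
  periodic from some point on; `skolem_mahler_lech_progressions`: they are a finite set and finitely
  many arithmetic progressions.
* `recurrence_finite_zeros`: a recurrence vanishing on no whole progression has finitely many zeros;
  `recurrence_value_finite`: unless it is constant on a whole progression it takes each value
  finitely often.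
* `cassels_embedding`: finitely many elements of a field of characteristic zero lie in a subfield
  with an embedding into `ℚ_p`, `p` odd, under which they are `p`-adic integers.
-/

set_option autoImplicit false

noncomputable section

open Finset

namespace FA.Summary

variable {K : Type*} [Field K] [CharZero K]

/-- **Skolem–Mahler–Lech.** -/
theorem skolem_mahler_lech (E : LinearRecurrence K) (u : ℕ → K) (hu : E.IsSolution u) :
    ∃ N M : ℕ, 0 < N ∧ ∀ n, M ≤ n → (u n = 0 ↔ u (n + N) = 0) :=
  FA.SkolemMahlerLech.periodic_field E.order E.coeffs u hu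

/-- **The zero set**: a finite set and finitely many progressions with one difference. -/
theorem skolem_mahler_lech_progressions (E : LinearRecurrence K) (u : ℕ → K)
    (hu : E.IsSolution u) :
    ∃ (N : ℕ) (F R : Finset ℕ), 0 < N ∧
      {n | u n = 0} = (F : Set ℕ) ∪ {n | ∃ r ∈ R, ∃ m, n = r + N * m} := by
  classical
  obtain ⟨N, M, hN, hM⟩ := skolem_mahler_lech E u hu
  have hper : ∀ r, M ≤ r → ∀ m, (u r = 0 ↔ u (r + N * m) = 0) := fun r hr m => by
    induction m with
    | zero => simp
    | succ m ih => rw [ih, hM _ (hr.trans (Nat.le_add_right _ _)), Nat.mul_succ, add_assoc]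
  refine ⟨N, (range M).filter (u · = 0), (Ico M (M + N)).filter (u · = 0), hN,
    Set.ext fun n => ⟨fun hn => ?_, ?_⟩⟩
  · rcases lt_or_ge n M with h | h
    · exact Or.inl (mem_coe.2 (mem_filter.2 ⟨mem_range.2 h, hn⟩))
    · have e : M + (n - M) % N + N * ((n - M) / N) = n := by
        rw [add_assoc, Nat.mod_add_div, Nat.add_sub_cancel' h]
      refine Or.inr ⟨M + (n - M) % N, mem_filter.2 ⟨mem_Ico.2 ⟨Nat.le_add_right _ _,
        Nat.add_lt_add_left (Nat.mod_lt _ hN) M⟩, ?_⟩, (n - M) / N, e.symm⟩
      rw [hper _ (Nat.le_add_right _ _) ((n - M) / N), e]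
      exact hn
  · rintro (h | ⟨r, hr, m, rfl⟩)
    · exact (mem_filter.1 (mem_coe.1 h)).2
    · obtain ⟨hr1, hr2⟩ := mem_filter.1 hr
      exact (hper r (mem_Ico.1 hr1).1 m).1 hr2

/-- **Finitely many zeros** when no progression of zeros occurs. -/
theorem recurrence_finite_zeros (E : LinearRecurrence K) (u : ℕ → K) (hu : E.IsSolution u)
    (h : ∀ r N : ℕ, 0 < N → ∃ m, u (r + N * m) ≠ 0) : {n | u n = 0}.Finite := by
  obtain ⟨N, F, R, hN, hset⟩ := skolem_mahler_lech_progressions E u hu
  rw [hset]
  refine F.finite_toSet.subset fun n hn => hn.elim id fun ⟨r, hr, _⟩ => ?_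
  obtain ⟨m, hm⟩ := h r N hN
  exact absurd (hset.ge (Or.inr ⟨r, hr, m, rfl⟩)) hm

/-- **Each value finitely often**, unless constant on a progression. -/
theorem recurrence_value_finite (E : LinearRecurrence K) (u : ℕ → K) (hu : E.IsSolution u) (a : K)
    (h : ∀ r N : ℕ, 0 < N → ∃ m, u (r + N * m) ≠ a) : {n | u n = a}.Finite := by
  set c : Fin (E.order + 1) → K := fun i =>
    (Fin.snoc (α := fun _ => K) (0 : Fin E.order → K) 1) i +
      (Fin.cons (α := fun _ => K) 0 E.coeffs) i - (Fin.snoc (α := fun _ => K) E.coeffs 0) i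
  have hsol : (LinearRecurrence.mk (E.order + 1) c).IsSolution fun n => u n - a := fun n => by
    have h1 := hu n
    have h2 := hu (n + 1)
    simp only [c, add_mul, sub_mul, Finset.sum_add_distrib, Finset.sum_sub_distrib]
    rw [Fin.sum_univ_castSucc, Fin.sum_univ_succ, Fin.sum_univ_castSucc]
    simp only [Fin.snoc_castSucc, Fin.snoc_last, Fin.cons_zero, Fin.cons_succ, Pi.zero_apply,
      Fin.val_castSucc, Fin.val_last, Fin.val_succ, zero_mul, Finset.sum_const_zero, mul_sub,
      Finset.sum_sub_distrib, ← Finset.sum_mul]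
    rw [← h1, show ∑ i : Fin E.order, E.coeffs i * u (n + (i + 1)) = u (n + (E.order + 1)) by
      rw [show n + (E.order + 1) = n + 1 + E.order by omega, h2]
      exact Finset.sum_congr rfl fun i _ => by rw [show n + 1 + (i : ℕ) = n + (i + 1) by omega]]
    ring
  refine (recurrence_finite_zeros _ _ hsol fun r N hN => ?_).subset fun n hn => sub_eq_zero.2 hn
  obtain ⟨m, hm⟩ := h r N hN
  exact ⟨m, sub_ne_zero.2 hm⟩

/-- **Cassels' embedding theorem.** -/
theorem cassels_embedding (S : Finset K) :
    ∃ (p : ℕ) (_ : Fact p.Prime), p ≠ 2 ∧ ∃ (L : Subfield K) (φ : L →+* ℚ_[p]),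
      ∀ x ∈ S, ∃ h : x ∈ L, ‖φ ⟨x, h⟩‖ ≤ 1 :=
  FA.SkolemMahlerLech.exists_padic_embedding S

end FA.Summary

end
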