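import Fermat.Agent.DworkRationality.Main
import Fermat.Agent.Root.SummarySkolemMahlerLech

/-!
# Dwork's theorem: the zeta function of a variety over a finite field is rational

For finitely many polynomials `f j` over a finite field `F` let `N s` be the number of their common
zeros with coordinates in the extension of degree `s`.

* `dwork_rationality` (Dwork 1960, the first of Weil's conjectures): `exp (∑ N s T ^ s / s)` is a
  quotient of two integral polynomials with constant term one;
* `dwork_pointCount`: `N s = ∑ α ^ s - ∑ β ^ s` for finitely many algebraic integers;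
* `dwork_linearRecurrence`: `N` satisfies a linear recurrence with integral coefficients;
* `dwork_eventually_periodic_empty`: the degrees of the extensions without a common zero are
  periodic from some point on.
-/

set_option autoImplicit false
set_option linter.unusedSectionVars false

noncomputable section

open PowerSeries FA.DworkRationality

namespace FA.Summary

variable (p : ℕ) [Fact p.Prime] {F : Type*} [Field F] [Fintype F] [CharP F p]
  {σ κ : Type*} [Fintype σ] [Fintype κ]

/-- **Dwork's rationality theorem.** -/
theorem dwork_rationality (f : κ → MvPolynomial σ F) :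
    ∃ P Q : Polynomial ℤ, P.coeff 0 = 1 ∧ Q.coeff 0 = 1 ∧
      (exp ℚ).subst (mk fun s => match s with
          | 0 => 0
          | m + 1 => (Nat.card {x : σ → FiniteField.Extension F p (m + 1) //
              ∀ j, MvPolynomial.aeval x (f j) = 0} : ℚ) / (m + 1)) *
        ((Q.map (Int.castRingHom ℚ) : Polynomial ℚ) : PowerSeries ℚ) =
          ((P.map (Int.castRingHom ℚ) : Polynomial ℚ) : PowerSeries ℚ) := by
  obtain ⟨P, Q, hP, hQ, h⟩ := exists_rational_extension (p := p) F f
  refine ⟨P, Q, hP, hQ, ?_⟩
  rw [← h, zetaSeries, FA.Mazur.expSeries]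
  congr 3
  funext s
  rcases s with _ | m <;> simp [extensionCount]

/-- **The number of points is a difference of power sums of algebraic integers.** -/
theorem dwork_pointCount (f : κ → MvPolynomial σ F) :
    ∃ α β : Multiset ℂ, (∀ x ∈ α + β, IsIntegral ℤ x) ∧ ∀ m : ℕ,
      (Nat.card {x : σ → FiniteField.Extension F p (m + 1) //
          ∀ j, MvPolynomial.aeval x (f j) = 0} : ℂ) =
        (α.map (· ^ (m + 1))).sum - (β.map (· ^ (m + 1))).sum := by
  obtain ⟨P, Q, hP, hQ, h⟩ := exists_rational_extension (p := p) F f
  refine ⟨(Q.reverse.map (Int.castRingHom ℂ)).roots, (P.reverse.map (Int.castRingHom ℂ)).roots,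
    fun x hx => ?_, fun m => exists_powerSums hP hQ h (m + 1) m.succ_ne_zero⟩
  rcases Multiset.mem_add.1 hx with hx | hx
  · exact ⟨_, monic_reverse hQ, by
      rw [← Polynomial.eval_map, algebraMap_int_eq]
      exact (Polynomial.mem_roots'.1 hx).2⟩
  · exact ⟨_, monic_reverse hP, by
      rw [← Polynomial.eval_map, algebraMap_int_eq]
      exact (Polynomial.mem_roots'.1 hx).2⟩

/-- **A linear recurrence with integral coefficients.** -/
theorem dwork_linearRecurrence (f : κ → MvPolynomial σ F) :
    ∃ E : LinearRecurrence ℤ, E.IsSolution fun m =>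
      (Nat.card {x : σ → FiniteField.Extension F p (m + 1) //
        ∀ j, MvPolynomial.aeval x (f j) = 0} : ℤ) := by
  obtain ⟨P, Q, hP, hQ, h⟩ := exists_rational_extension (p := p) F f
  exact exists_recurrence_powerSums (N := extensionCount p f) (monic_reverse hQ) (monic_reverse hP)
    (exists_powerSums hP hQ h)

/-- **The extensions without points** have eventually periodic degrees. -/
theorem dwork_eventually_periodic_empty (f : κ → MvPolynomial σ F) :
    ∃ d M : ℕ, 0 < d ∧ ∀ m, M ≤ m →
      ((∀ x : σ → FiniteField.Extension F p (m + 1), ∃ j, MvPolynomial.aeval x (f j) ≠ 0) ↔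
        ∀ x : σ → FiniteField.Extension F p (m + d + 1), ∃ j, MvPolynomial.aeval x (f j) ≠ 0) := by
  obtain ⟨E, hE⟩ := dwork_linearRecurrence p f
  obtain ⟨d, M, hd, hM⟩ := skolem_mahler_lech
    ⟨E.order, fun i => (E.coeffs i : ℚ)⟩
    (fun m => (Nat.card {x : σ → FiniteField.Extension F p (m + 1) //
      ∀ j, MvPolynomial.aeval x (f j) = 0} : ℚ))
    (fun n => by
      have := congrArg (fun z : ℤ => (z : ℚ)) (hE n)
      push_cast at this
      exact this)
  have hz : ∀ m, (Nat.card {x : σ → FiniteField.Extension F p (m + 1) //
      ∀ j, MvPolynomial.aeval x (f j) = 0} : ℚ) = 0 ↔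
      ∀ x : σ → FiniteField.Extension F p (m + 1), ∃ j, MvPolynomial.aeval x (f j) ≠ 0 :=
    fun m => by
    rw [Nat.cast_eq_zero, Nat.card_eq_zero, or_iff_left (not_infinite_iff_finite.2 inferInstance),
      isEmpty_subtype]
    exact forall_congr' fun x => not_forall
  exact ⟨d, M, hd, fun m hm => ((hz m).symm.trans (hM m hm)).trans (hz (m + d))⟩

end FA.Summary

end
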