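import Fermat.Agent.CurveRH.Main
import Fermat.Agent.Root.SummaryDworkRationality

/-!
# The Riemann hypothesis for curves over finite fields

Weil's theorem of 1948 for absolutely irreducible plane curves, by Bombieri's proof of 1972.

* `bombieri_fixed_places`: in a function field of genus `g` over an algebraically closed field an
  automorphism raising constants to the power `Q = r s`, `r ≤ s` powers of the characteristic and
  `(g + 2) ^ 2 ≤ s`, fixes at most `Q + (2 g + 1) s` places;
* `curve_riemann_hypothesis`: an absolutely irreducible `f ∈ k[x, y]` has `q ^ n + O (q ^ (n / 2))`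
  zeros in the extension of degree `n` of the field `k` with `q` elements, for every `n`;
* `curve_weil_numbers`: with Dwork's theorem, their number is `q ^ n + ∑ γ ^ n - ∑ δ ^ n` for
  finitely many algebraic integers of absolute value at most `√q`;
* `curve_points_eventually`: so there are arbitrarily many in every large extension.

The points are those of the affine plane model; the constant depends on the curve and the field,
so neither `2 g √q` nor the theorem of Lang and Weil is claimed, nor `|γ| = √q` and the functional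
equation. Independent of S01.
-/

set_option autoImplicit false

noncomputable section

namespace FA.CurveRH.Summary

open AlgebraicCurve Filter

/-- **Bombieri's inequality.** -/
theorem bombieri_fixed_places {K F : Type*} [Field K] [IsAlgClosed K] [Field F] [Algebra K F]
    (hF : FA.Curve.IsFunctionField K F) (p : ℕ) [Fact p.Prime] [CharP K p]
    (g : SemilinearAut K F) {μ ν : ℕ}
    (hg : ∀ a, SemilinearAut.baseAut g a = a ^ (p ^ μ * p ^ ν)) (hμν : μ ≤ ν)
    (hν : (FA.Curve.genus K F + 2) ^ 2 ≤ p ^ ν) (S : Finset (Place K F))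
    (hS : ∀ v ∈ S, g • v = v) :
    (S.card : ℤ) ≤ p ^ μ * p ^ ν + (2 * FA.Curve.genus K F + 1) * p ^ ν :=
  card_fixed_le hF p g hg hμν hν S hS

variable (k : Type*) [Field k] [Finite k] (p : ℕ) [Fact p.Prime] [CharP k p]

/-- **The Riemann hypothesis for absolutely irreducible plane curves over finite fields.** -/
theorem curve_riemann_hypothesis {f : MvPolynomial (Fin 2) k}
    (hirr : Irreducible (f.map (algebraMap k (AlgebraicClosure k)))) :
    ∃ C : ℝ, ∀ m : ℕ,
      |(Nat.card {x : Fin 2 → FiniteField.Extension k p (m + 1) //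
          MvPolynomial.aeval x f = 0} : ℝ) - (Nat.card k : ℝ) ^ (m + 1)| ≤
        C * Real.sqrt ((Nat.card k : ℝ) ^ (m + 1)) :=
  exists_abs_natCard_sub_le k p hirr

/-- **The Weil numbers of the curve have absolute value at most `√q`.** -/
theorem curve_weil_numbers {f : MvPolynomial (Fin 2) k}
    (hirr : Irreducible (f.map (algebraMap k (AlgebraicClosure k)))) :
    ∃ γ δ : Multiset ℂ, (∀ z ∈ γ + δ, IsIntegral ℤ z ∧ ‖z‖ ≤ Real.sqrt (Nat.card k)) ∧
      ∀ m : ℕ, (Nat.card {x : Fin 2 → FiniteField.Extension k p (m + 1) //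
          MvPolynomial.aeval x f = 0} : ℂ) =
        (Nat.card k : ℂ) ^ (m + 1) + (γ.map (· ^ (m + 1))).sum - (δ.map (· ^ (m + 1))).sum := by
  classical
  have := Fintype.ofFinite k
  obtain ⟨α, β, hint, hN⟩ := FA.Summary.dwork_pointCount p (F := k) (fun _ : Unit => f)
  simp only [forall_const] at hN
  obtain ⟨C, hC⟩ := exists_abs_natCard_sub_le k p hirr
  obtain ⟨b, hb⟩ : ∃ b : Multiset ℂ, b = (Nat.card k : ℂ) ::ₘ β := ⟨_, rfl⟩
  obtain ⟨γ, hγ⟩ : ∃ γ, γ = α - b := ⟨_, rfl⟩
  obtain ⟨δ, hδ⟩ : ∃ δ, δ = b - α := ⟨_, rfl⟩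
  have hsum : γ + b = δ + α := by
    rw [hγ, hδ, ← Multiset.union_def, ← Multiset.union_def, Multiset.union_comm]
  have heq : ∀ m : ℕ, (Nat.card {x : Fin 2 → FiniteField.Extension k p (m + 1) //
      MvPolynomial.aeval x f = 0} : ℂ) =
        (Nat.card k : ℂ) ^ (m + 1) + (γ.map (· ^ (m + 1))).sum - (δ.map (· ^ (m + 1))).sum := by
    intro m
    have h := congrArg (fun s : Multiset ℂ => (s.map (· ^ (m + 1))).sum) hsum
    simp only [Multiset.map_add, Multiset.sum_add, hb, Multiset.map_cons, Multiset.sum_cons] at h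
    rw [hN m]
    linear_combination -h
  have hq : (0 : ℝ) < Nat.card k := by exact_mod_cast Nat.card_pos
  have hbound : ∀ n : ℕ, 1 ≤ n → ‖∑ z ∈ (γ + δ).toFinset,
      ((γ.count z : ℂ) - δ.count z) * z ^ n‖ ≤ C * Real.sqrt (Nat.card k) ^ n := by
    intro n hn
    obtain ⟨m, rfl⟩ : ∃ m, n = m + 1 := ⟨n - 1, by omega⟩
    have e : ∑ z ∈ (γ + δ).toFinset, ((γ.count z : ℂ) - δ.count z) * z ^ (m + 1) =
        (γ.map (· ^ (m + 1))).sum - (δ.map (· ^ (m + 1))).sum := by
      rw [Finset.sum_multiset_map_count, Finset.sum_multiset_map_count]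
      simp only [sub_mul, Finset.sum_sub_distrib, nsmul_eq_mul]
      congr 1 <;>
      · refine (Finset.sum_subset (Multiset.toFinset_subset.2 (Multiset.subset_of_le ?_))
          fun z _ hz => ?_).symm
        · first
            | exact Multiset.le_add_right _ _
            | exact Multiset.le_add_left _ _
        · rw [Multiset.count_eq_zero.2 (fun h => hz (Multiset.mem_toFinset.2 h))]
          simp
    rw [e, show (γ.map (· ^ (m + 1))).sum - (δ.map (· ^ (m + 1))).sum =
      (((Nat.card {x : Fin 2 → FiniteField.Extension k p (m + 1) //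
        MvPolynomial.aeval x f = 0} : ℝ) - (Nat.card k : ℝ) ^ (m + 1) : ℝ) : ℂ) by
          push_cast; rw [heq m]; ring, Complex.norm_real, Real.norm_eq_abs]
    refine (hC m).trans (le_of_eq ?_)
    congr 1
    exact (Real.sqrt_eq_iff_eq_sq (by positivity) (by positivity)).2
      (by rw [← pow_mul, mul_comm, pow_mul, Real.sq_sqrt hq.le])
  refine ⟨γ, δ, fun z hz => ⟨?_, ?_⟩, heq⟩
  · have hb' : ∀ w ∈ b, IsIntegral ℤ w := fun w hw => by
      rw [hb, Multiset.mem_cons] at hw
      rcases hw with rfl | hw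
      · exact_mod_cast (isIntegral_algebraMap : IsIntegral ℤ (algebraMap ℤ ℂ (Nat.card k : ℤ)))
      · exact hint w (Multiset.mem_add.2 (Or.inr hw))
    rcases Multiset.mem_add.1 hz with h | h
    · exact hint z (Multiset.mem_add.2 (Or.inl (Multiset.mem_of_le tsub_le_self (hγ ▸ h))))
    · exact hb' z (Multiset.mem_of_le tsub_le_self (hδ ▸ h))
  · refine norm_le_of_signed_powerSums (c := fun w : ℂ => (γ.count w : ℂ) - δ.count w)
      (Real.sqrt_pos.2 hq) hbound (Multiset.mem_toFinset.2 hz) ?_
    rw [sub_ne_zero, Ne, Nat.cast_inj]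
    intro e
    have h1 := Multiset.count_pos.2 hz
    rw [Multiset.count_add] at h1
    rw [hγ, hδ, Multiset.count_sub, Multiset.count_sub] at e h1
    omega

/-- **Every large extension has arbitrarily many points of the curve.** -/
theorem curve_points_eventually {f : MvPolynomial (Fin 2) k}
    (hirr : Irreducible (f.map (algebraMap k (AlgebraicClosure k)))) (B : ℕ) :
    ∃ M : ℕ, ∀ m, M ≤ m →
      B ≤ Nat.card {x : Fin 2 → FiniteField.Extension k p (m + 1) //
        MvPolynomial.aeval x f = 0} := by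
  obtain ⟨C, hC⟩ := exists_abs_natCard_sub_le k p hirr
  have hq : (1 : ℝ) < Nat.card k := by exact_mod_cast Finite.one_lt_card
  have h1 : Tendsto (fun m : ℕ => Real.sqrt ((Nat.card k : ℝ) ^ (m + 1))) atTop atTop :=
    Real.tendsto_sqrt_atTop.comp
      ((tendsto_pow_atTop_atTop_of_one_lt hq).comp (tendsto_add_atTop_nat 1))
  obtain ⟨M, hM⟩ := eventually_atTop.1 (h1.eventually_ge_atTop (max 1 (C + B)))
  refine ⟨M, fun m hm => ?_⟩
  have h2 := hM m hm
  have h3 := (abs_le.1 (hC m)).1
  have h4 : Real.sqrt ((Nat.card k : ℝ) ^ (m + 1)) * Real.sqrt ((Nat.card k : ℝ) ^ (m + 1)) =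
      (Nat.card k : ℝ) ^ (m + 1) := Real.mul_self_sqrt (by positivity)
  have h5 : (B : ℝ) ≤ Nat.card {x : Fin 2 → FiniteField.Extension k p (m + 1) //
      MvPolynomial.aeval x f = 0} := by
    nlinarith [le_max_left (1 : ℝ) (C + B), le_max_right (1 : ℝ) (C + B),
      (Nat.cast_nonneg B : (0 : ℝ) ≤ B)]
  exact_mod_cast h5

end FA.CurveRH.Summary

end
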