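import Fermat.Agent.JZeroInertia.CuspCount

/-!
# Summary: the cuspidal group inside the component group of `J₀(p)` at `p`

`p` is a prime, `n` the numerator of `(p - 1) / 12`, `g = dim S₂(Γ₀(p))`.

* `fixed_card_lower`: for `M` prime to `6 p` inertia at `p` fixes at least `M ^ g · gcd (M, n)`
  classes of `J₀(p)[M]`;
* `fixed_card_of_dvd_numerator`: exactly `M ^ (g + 1)` for `M ∣ n`;
* `fixed_card_split`: exactly `(a b) ^ g · a` for `M = a b` with `a ∣ n` and `b` prime to `a n`;
* `cuspidal_not_displaced`: some rational class of order `n` has no nonzero multiple of order prime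
  to `6` of the form `τ • y - y` with `τ` in inertia and `y` torsion prime to `p`. The component
  group, which Grothendieck describes by these displaced classes, is not itself defined here;
* `level_eleven_fixed_card_five`: at level `11` inertia fixes `25 N` classes of `J₀(11)[5 N]`,
  `N` prime to `330`.

Not proved here: the primes `2`, `3`, and the exact count at higher powers of the divisors of `n`.
-/

set_option autoImplicit false
set_option linter.style.haveILetI false
set_option linter.unusedSectionVars false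
set_option synthInstance.maxHeartbeats 400000
set_option maxHeartbeats 1000000

noncomputable section

open ModularCurve FA.Mazur FA.JTorsion FA.ModField CongruenceSubgroup
open scoped MatrixGroups

namespace FA.CuspComponentJZero.Summary

open FA.JZeroInertia

local notation "Qb" => AlgebraicClosure ℚ
local notation "GQ" => AlgebraicClosure ℚ ≃ₐ[ℚ] AlgebraicClosure ℚ

variable {p : ℕ} [hp : Fact p.Prime]

/-- **At least `M ^ g · gcd (M, n)` fixed classes.** -/
theorem fixed_card_lower {M : ℕ} (hM : M.Coprime (6 * p)) {A : ValuationSubring Qb}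
    (hA : A.LiesOverPrime p) :
    M ^ Module.finrank ℂ (CuspForm (Gamma0 p) 2) * Nat.gcd M (eisensteinNumerator p) ≤
      Nat.card {x : JZero p // M • x = 0 ∧ ∀ τ ∈ A.inertiaSubgroupIn ℚ, τ • x = x} := by
  rw [card_fixI]
  exact (card_fixI_bounds hA M hM).1

/-- **`M ^ (g + 1)` fixed classes for `M ∣ n`.** -/
theorem fixed_card_of_dvd_numerator {M : ℕ} (hn : M ∣ eisensteinNumerator p) (hM : M.Coprime 6)
    {A : ValuationSubring Qb} (hA : A.LiesOverPrime p) :
    Nat.card {x : JZero p // M • x = 0 ∧ ∀ τ ∈ A.inertiaSubgroupIn ℚ, τ • x = x} =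
      M ^ (Module.finrank ℂ (CuspForm (Gamma0 p) 2) + 1) := by
  rw [card_fixI]
  exact (card_fixI_bounds hA M (Nat.Coprime.mul_right hM
    (Nat.Coprime.coprime_dvd_left hn (hp.out.coprime_iff_not_dvd.2
      (not_dvd_numerator (p := p))).symm))).2 hn

/-- **The exact count for a product.** -/
theorem fixed_card_split {a b : ℕ} (ha : a ∣ eisensteinNumerator p) (ha6 : a.Coprime 6)
    (hb : b.Coprime (6 * eisensteinNumerator p * p)) {A : ValuationSubring Qb}
    (hA : A.LiesOverPrime p) :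
    Nat.card {x : JZero p // (a * b) • x = 0 ∧ ∀ τ ∈ A.inertiaSubgroupIn ℚ, τ • x = x} =
      (a * b) ^ Module.finrank ℂ (CuspForm (Gamma0 p) 2) * a := by
  have hab : a.Coprime b :=
    (Nat.Coprime.coprime_dvd_right ((ha.trans (dvd_mul_left _ 6)).trans (dvd_mul_right _ p)) hb).symm
  rw [card_fixI, card_fixI_mul hab, ← card_fixI, ← card_fixI,
    fixed_card_of_dvd_numerator ha ha6 hA, FA.ToricJZero.Summary.fixed_card hb hA, mul_pow,
    pow_succ]
  ring

/-- **The cuspidal group injects into the fixed classes modulo the displaced ones.** -/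
theorem cuspidal_not_displaced (hp5 : 5 ≤ p) {A : ValuationSubring Qb} (hA : A.LiesOverPrime p) :
    ∃ c : JZero p, addOrderOf c = eisensteinNumerator p ∧ (∀ σ : GQ, σ • c = c) ∧
      ∀ i : ℕ, (addOrderOf (i • c)).Coprime 6 → i • c ≠ 0 →
        ∀ τ ∈ A.inertiaSubgroupIn ℚ, ∀ (M : ℕ) (y : JZero p), ¬ p ∣ M → M • y = 0 →
          τ • y - y ≠ i • c := by
  obtain ⟨alg⟩ := exists_algebra_qbar
  letI := alg
  haveI : NeZero p := ⟨hp.out.ne_zero⟩
  obtain ⟨c, hord, hrat, hT⟩ := exists_cusp_toric_mul hp5 p (one_mul p).symm hA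
  refine ⟨c, hord, hrat, fun i hi hne τ hτ M y hpM hy he => ?_⟩
  set o := addOrderOf (i • c)
  have hn0 : eisensteinNumerator p ≠ 0 := fun h =>
    not_dvd_numerator (p := p) (by rw [h]; exact dvd_zero p)
  have hon : o ∣ eisensteinNumerator p := addOrderOf_dvd_of_nsmul_eq_zero (by
    rw [smul_comm, ← hord, addOrderOf_nsmul_eq_zero, nsmul_zero])
  obtain ⟨l, hl, hlo⟩ := Nat.exists_prime_and_dvd (n := o) fun h =>
    hne (AddMonoid.addOrderOf_eq_one_iff.1 h)
  haveI : Fact l.Prime := ⟨hl⟩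
  have hlp : l ≠ p := fun h => not_dvd_numerator (p := p) (by
    have h1 := hlo.trans hon
    rwa [← h] at h1 ⊢)
  have h5 : 5 ≤ l := by
    have h6 : ¬ l ∣ 6 := hl.coprime_iff_not_dvd.1 (Nat.Coprime.coprime_dvd_left hlo hi)
    by_contra h
    have h2 := hl.two_le
    interval_cases l <;> revert h6 hl <;> decide
  -- the multiple of order `l`
  set x := (o / l) • (i • c) with hx
  have hlx : l • x = 0 := by
    rw [hx, ← mul_nsmul, Nat.div_mul_cancel hlo, addOrderOf_nsmul_eq_zero]
  have hx0 : x ≠ 0 := fun h => by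
    have h1 := addOrderOf_dvd_of_nsmul_eq_zero h
    have h2 : 0 < o := Nat.pos_of_ne_zero fun h0 => hn0 (zero_dvd_iff.1 (h0 ▸ hon))
    have h3 := Nat.le_of_dvd (Nat.div_pos (Nat.le_of_dvd h2 hlo) hl.pos) h1
    exact absurd (Nat.div_lt_self h2 hl.one_lt) (not_lt.2 h3)
  have hxy : x = τ • ((o / l) • y) - (o / l) • y := by
    rw [hx, ← he, nsmul_sub, smul_nsmul_comm]
  have hM0 : M ≠ 0 := fun h => hpM (h ▸ dvd_zero p)
  obtain ⟨k, M', hM', hMk⟩ := Nat.exists_eq_pow_mul_and_not_dvd hM0 l hl.ne_one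
  have hco : (l ^ k).Coprime M' := Nat.Coprime.pow_left _ (hl.coprime_iff_not_dvd.2 hM')
  obtain ⟨e, he1, he0⟩ := Nat.chineseRemainder hco 1 0
  set w := (o / l) • y
  have hw : M • w = 0 := by rw [smul_comm, hy, nsmul_zero]
  have hxM : M • x = 0 := by rw [hxy, nsmul_sub, nsmul_smul_eq_zero hw, hw, sub_zero]
  rcases Nat.eq_zero_or_pos k with rfl | hk
  · -- no `l` in `M`
    refine hx0 ?_
    have h1 : M.Coprime l := by
      rw [hMk, pow_zero, one_mul]; exact (hl.coprime_iff_not_dvd.2 hM').symm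
    exact AddMonoid.addOrderOf_eq_one_iff.1 (Nat.eq_one_of_dvd_coprimes h1
      (addOrderOf_dvd_of_nsmul_eq_zero hxM) (addOrderOf_dvd_of_nsmul_eq_zero hlx))
  obtain ⟨T, -, hTd, -, hTc⟩ := hT l hl h5 hlp k
  have hwk : l ^ k • (e • w) = 0 := by
    obtain ⟨d, rfl⟩ := Nat.modEq_zero_iff_dvd.1 he0
    rw [← mul_nsmul', ← mul_assoc, ← hMk, mul_nsmul, hw, nsmul_zero]
  have hex : e • x = x := by
    rw [nsmul_congr hlx (he1.of_dvd (dvd_pow_self l hk.ne')), one_nsmul]
  have hxT : x ∈ T := by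
    rw [← hex, hxy, nsmul_sub, ← smul_nsmul_comm]
    exact hTd τ hτ _ hwk
  obtain ⟨t, ht⟩ : ∃ t : ℕ, x = t • c := ⟨i * (o / l), by rw [hx, ← mul_nsmul]⟩
  have hln : l ∣ eisensteinNumerator p := hlo.trans hon
  have hdvd : eisensteinNumerator p / l ∣ t := by
    have h1 : eisensteinNumerator p ∣ t * l := by
      rw [← hord]
      exact addOrderOf_dvd_of_nsmul_eq_zero (by rw [mul_nsmul, ← ht, hlx])
    exact Nat.dvd_of_mul_dvd_mul_right hl.pos (by rwa [Nat.div_mul_cancel hln])
  obtain ⟨j, hj⟩ := hdvd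
  have hlj : ¬ l ∣ j := fun ⟨d, hd⟩ => hx0 (by
    rw [ht, hj, hd, ← mul_assoc, Nat.div_mul_cancel hln, mul_nsmul, ← hord,
      addOrderOf_nsmul_eq_zero, nsmul_zero])
  obtain ⟨u, -, hu⟩ := Nat.exists_mul_mod_eq_one_of_coprime
    ((hl.coprime_iff_not_dvd.2 hlj).symm) hl.one_lt
  have hnl : l • ((eisensteinNumerator p / l) • c) = 0 := by
    rw [← mul_nsmul, Nat.div_mul_cancel hln, ← hord, addOrderOf_nsmul_eq_zero]
  refine hTc hln hk ?_
  rw [show (eisensteinNumerator p / l) • c = u • x by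
    rw [ht, hj, ← mul_nsmul, mul_assoc, mul_nsmul, nsmul_congr hnl
      (show j * u ≡ 1 [MOD l] by rw [Nat.ModEq, hu, Nat.one_mod_eq_one.2 hl.ne_one]), one_nsmul]]
  exact AddSubgroup.nsmul_mem _ hxT _

/-- **At level `11`.** -/
theorem level_eleven_fixed_card_five [Fact (Nat.Prime 11)] {N : ℕ} (hN : N.Coprime 330)
    {A : ValuationSubring Qb} (hA : A.LiesOverPrime 11) :
    Nat.card {x : JZero 11 // (5 * N) • x = 0 ∧ ∀ τ ∈ A.inertiaSubgroupIn ℚ, τ • x = x} =
      25 * N := by
  rw [fixed_card_split (p := 11) (a := 5) (b := N) (by decide) (by norm_num) hN hA,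
    FA.CuspClass.finrank_cuspForm_eleven, pow_one]
  ring

end FA.CuspComponentJZero.Summary
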