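import Fermat.Agent.Thirteen.Summary
import Fermat.Agent.Torsion.RealisedBasic
import Fermat.Agent.Torsion.Basic
import Fermat.Agent.Torsion.Realised
import Fermat.Agent.Root.SummaryRankZero

/-!
# The bound on stable subgroups of semistable curves is sharp

A semistable elliptic curve over `ℚ` has a Galois stable subgroup of prime order `p` exactly for
`p = 2, 3, 5, 7`: curves of conductors `34` and `26` and `11a3` have rational points of orders `6`,
`7` and `5`.
-/

set_option autoImplicit false
set_option linter.style.haveILetI false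

noncomputable section

open WeierstrassCurve
open scoped WeierstrassCurve.Affine
open FA.Frob (ratCurve)

namespace FA.Sharp

local notation "Qb" => AlgebraicClosure ℚ

/-- A rational point of prime order spans a stable subgroup. -/
theorem exists_stable_of_point (E : WeierstrassCurve ℚ) [E.IsElliptic] {p : ℕ} (hp : p.Prime)
    (P : E.toAffine.Point) (hP : p • P = 0) (hP0 : P ≠ 0) :
    ∃ G : AddSubgroup (E.toAffine⁄Qb).Point, Nat.card G = p ∧
      ∀ σ : Qb ≃ₐ[ℚ] Qb, ∀ Q ∈ G, Affine.Point.map σ.toAlgHom Q ∈ G := by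
  refine ⟨AddSubgroup.zmultiples (FA.Torsion.toQb E P), ?_, fun σ Q hQ => ?_⟩
  · have := Fact.mk hp
    rw [Nat.card_zmultiples, addOrderOf_injective _ (FA.Torsion.toQb_injective E),
      addOrderOf_eq_prime hP hP0]
  · obtain ⟨k, rfl⟩ := AddSubgroup.mem_zmultiples_iff.mp hQ
    rw [map_zsmul]
    exact AddSubgroup.zsmul_mem _
      (by rw [show Affine.Point.map σ.toAlgHom (FA.Torsion.toQb E P) = FA.Torsion.toQb E P from
        FA.Torsion.toQb_fixed E σ P]; exact AddSubgroup.mem_zmultiples _) k

/-- A point of an equation with `c₄` prime to the discriminant gives a semistable example. -/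
theorem exists_semistable_with_stable (W : WeierstrassCurve ℤ) (hΔ : W.Δ ≠ 0)
    (hgcd : Int.gcd W.Δ W.c₄ = 1) {p : ℕ} (hp : p.Prime) (P : (ratCurve W).toAffine.Point)
    (hP : p • P = 0) (hP0 : P ≠ 0) :
    ∃ (E : WeierstrassCurve ℚ) (_ : E.IsElliptic),
      (∀ q : ℕ, ∀ [Fact q.Prime], ∃ C : VariableChange ℚ_[q],
        HasGoodReduction ℤ_[q] (C • E.map (algebraMap ℚ ℚ_[q])) ∨
          HasMultiplicativeReduction ℤ_[q] (C • E.map (algebraMap ℚ ℚ_[q]))) ∧
      ∃ G : AddSubgroup (E.toAffine⁄Qb).Point, Nat.card G = p ∧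
        ∀ σ : Qb ≃ₐ[ℚ] Qb, ∀ Q ∈ G, Affine.Point.map σ.toAlgHom Q ∈ G :=
  haveI := FA.Frob.ratCurve_isElliptic_of_Δ hΔ
  haveI : (W.map (Int.castRingHom ℚ)).IsElliptic := this
  ⟨W.map (Int.castRingHom ℚ), this, fun q _ => FA.Central.reduction_of_coprime_c₄ W hgcd q,
    exists_stable_of_point (W.map (Int.castRingHom ℚ)) hp P hP hP0⟩

end FA.Sharp

namespace FA.Summary

open FA.Sharp FA.Torsion

/-- **Mazur's bound for semistable curves is sharp**: a prime `p` is the order of a Galois stable
subgroup of a semistable elliptic curve over `ℚ` if and only if `p` is `2`, `3`, `5` or `7`. -/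
theorem stableSubgroup_semistable_iff [inst : DecidableEq (AlgebraicClosure ℚ)] {p : ℕ}
    (hp : p.Prime) :
    (∃ (E : WeierstrassCurve ℚ) (_ : E.IsElliptic),
      (∀ q : ℕ, ∀ [Fact q.Prime], ∃ C : VariableChange ℚ_[q],
        HasGoodReduction ℤ_[q] (C • E.map (algebraMap ℚ ℚ_[q])) ∨
          HasMultiplicativeReduction ℤ_[q] (C • E.map (algebraMap ℚ ℚ_[q]))) ∧
      ∃ G : AddSubgroup (E.toAffine⁄(AlgebraicClosure ℚ)).Point, Nat.card G = p ∧
        ∀ σ : AlgebraicClosure ℚ ≃ₐ[ℚ] AlgebraicClosure ℚ, ∀ Q ∈ G,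
          Affine.Point.map σ.toAlgHom Q ∈ G) ↔
      p ∈ ({2, 3, 5, 7} : Finset ℕ) := by
  obtain rfl : inst = instDecEqAlgebraicClosureRat := Subsingleton.elim _ _
  constructor
  · rintro ⟨E, hE, hss, G, hcard, hst⟩
    have hlt : p < 11 := not_le.mp fun h11 => noStableSubgroup_all E hss hp h11 G hcard hst
    have h2 := hp.two_le
    simp only [Finset.mem_insert, Finset.mem_singleton]
    interval_cases p <;> first | omega | exact absurd hp (by norm_num)
  · intro h
    simp only [Finset.mem_insert, Finset.mem_singleton] at h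
    rcases h with rfl | rfl | rfl | rfl
    · exact exists_semistable_with_stable ⟨1, 0, 0, -3, 1⟩ (by decide +kernel) (by decide +kernel)
        hp (3 • intPoint _ (by decide +kernel) 0 1 (by decide +kernel)) (by decide +kernel)
        (by decide +kernel)
    · exact exists_semistable_with_stable ⟨1, 0, 0, -3, 1⟩ (by decide +kernel) (by decide +kernel)
        hp (2 • intPoint _ (by decide +kernel) 0 1 (by decide +kernel)) (by decide +kernel)
        (by decide +kernel)
    · exact exists_semistable_with_stable ⟨0, -1, 1, 0, 0⟩ (by decide +kernel) (by decide +kernel)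
        hp (intPoint _ (by decide +kernel) 0 0 (by decide +kernel)) (by decide +kernel)
        (by decide +kernel)
    · exact exists_semistable_with_stable ⟨1, -1, 1, -3, 3⟩ (by decide +kernel) (by decide +kernel)
        hp (intPoint _ (by decide +kernel) (-1) 2 (by decide +kernel)) (by decide +kernel)
        (by decide +kernel)

end FA.Summary

end
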