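import Fermat.Agent.Root.SummaryParametrizationSurjective
import Fermat.Agent.Root.SummaryNoStableSubgroupSharp
import Fermat.Agent.Root.SummaryTraces

/-!
# Summary: the cuspidal point of a semistable curve and the integrality of `L(E, 1) / Ω`

* `cuspidalPoint_bound`: for a semistable `E / ℚ` a prime dividing the order `m` of the image of the
  cusp `0` is `2`, `3`, `5` or `7` and is the order of a Galois stable subgroup of `E`;
  `m ≤ q + 1 + √(4 q)` at every good prime `q`; if no subgroup of order `2, 3, 5, 7` is stable then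
  the cusp `0` goes to the origin and `L(E, 1)` is an integer multiple of the least real period.
-/

set_option autoImplicit false

noncomputable section

namespace FA.Summary

open UpperHalfPlane hiding I
open Complex CongruenceSubgroup Filter WeierstrassCurve FA.Mazur.Wp
open scoped Real MatrixGroups Topology WeierstrassCurve.Affine

/-- **The cuspidal point of a semistable curve.** -/
theorem cuspidalPoint_bound [DecidableEq (AlgebraicClosure ℚ)] (E : WeierstrassCurve ℚ)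
    [E.IsElliptic]
    (h : ∀ p : ℕ, ∀ [Fact p.Prime], ∃ C : VariableChange ℚ_[p],
      HasGoodReduction ℤ_[p] (C • E.map (algebraMap ℚ ℚ_[p])) ∨
        HasMultiplicativeReduction ℤ_[p] (C • E.map (algebraMap ℚ ℚ_[p]))) :
    ∃ (W : WeierstrassCurve ℤ) (N : ℕ) (f : CuspForm (Gamma0 N) 2) (L : PeriodPair) (F : ℍ → ℂ)
      (c : ℂ) (Ω : ℝ), W.IsIntegralModelOf E ∧ f.IsNewform ∧
      (∀ n : ℕ, ModularFormClass.qCoeff f n = (E.LFunction n : ℂ)) ∧
      (∀ z : ℂ, z ∈ L.lattice ↔ z ∈ (ModularCurve.periodMap N f).range) ∧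
      (∀ τ : ℍ, HasDerivAt (F ∘ ofComplex) (f τ) (τ : ℂ)) ∧ Tendsto F atImInfty (𝓝 0) ∧
      Tendsto (fun w : ℍ => F (ModularGroup.S • w)) atImInfty (𝓝 c) ∧
      IsLeast {x : ℝ | 0 < x ∧ ∃ γ, 2 * (π : ℂ) * I * ModularCurve.periodMap N f γ = x} Ω ∧
      0 < addOrderOf (unif L c) ∧
      (∀ l : ℕ, l.Prime → l ∣ addOrderOf (unif L c) → l ∈ ({2, 3, 5, 7} : Finset ℕ) ∧
        ∃ G : AddSubgroup (E.toAffine⁄(AlgebraicClosure ℚ)).Point, Nat.card G = l ∧
          ∀ σ : AlgebraicClosure ℚ ≃ₐ[ℚ] AlgebraicClosure ℚ, ∀ P ∈ G,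
            Affine.Point.map σ.toAlgHom P ∈ G) ∧
      (∀ q : ℕ, q.Prime → ¬ (q : ℤ) ∣ W.Δ →
        addOrderOf (unif L c) ≤ q + 1 + Nat.sqrt (4 * q)) ∧
      ((∀ l ∈ ({2, 3, 5, 7} : Finset ℕ),
          ∀ G : AddSubgroup (E.toAffine⁄(AlgebraicClosure ℚ)).Point, Nat.card G = l →
            ¬ ∀ σ : AlgebraicClosure ℚ ≃ₐ[ℚ] AlgebraicClosure ℚ, ∀ P ∈ G,
              Affine.Point.map σ.toAlgHom P ∈ G) →
        unif L c = 0 ∧ ∀ G : ℂ → ℂ, Differentiable ℂ G →
          (∀ s : ℂ, 2 < s.re → G s = E.LSeries s) → ∃ k : ℤ, G 1 = k * Ω) := by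
  obtain ⟨W, N, f, hW, -, hsq, hN, hf, hn⟩ := FA.Root.exists_newform_LFunction E h
  have : NeZero N := ⟨hsq.ne_zero⟩
  obtain ⟨L, hL⟩ := FA.ModularParametrization.exists_periodPair hf.isNormalizedEigenform
    (a := fun n => E.LFunction n) hn
  obtain ⟨F, hF, hF0⟩ : ∃ F : ℍ → ℂ, (∀ τ : ℍ, HasDerivAt (F ∘ ofComplex) (f τ) (τ : ℂ)) ∧
      Tendsto F atImInfty (𝓝 0) :=
    ⟨_, FA.ManinDrinfeld.isPrimitive_prim f, FA.ManinDrinfeld.tendsto_prim f⟩
  obtain ⟨c, hc, hpos, hcong, -⟩ := cuspidalPoint_congruence hf.isNormalizedEigenform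
    (a := fun n => E.LFunction n) hn hL hF hF0
  have hdvd : ∀ q : ℕ, q.Prime → ¬ (q : ℤ) ∣ W.Δ →
      addOrderOf (unif L c) ∣ (W.reductionMod q).card := fun q hq hgood => by
    have h1 := hcong q hq fun hd => hgood ((hN q hq).mp hd)
    have hap := FA.Root.LFunction_apply_prime E W hW hq hgood
    simp only [WeierstrassCurve.apOfModel, WeierstrassCurve.traceOfFrobenius, Nat.card_zmod] at hap
    refine Int.natCast_dvd_natCast.mp ?_
    convert h1 using 1
    rw [hap]
    ring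
  obtain ⟨Ω, hΩ⟩ := FA.PeriodLattice.exists_isLeast_realPeriod hf.isNormalizedEigenform
    (a := fun n => E.LFunction n) hn
  obtain ⟨C, hC⟩ := hW
  have hstable : ∀ l : ℕ, l.Prime → l ∣ addOrderOf (unif L c) →
      ∃ G : AddSubgroup (E.toAffine⁄(AlgebraicClosure ℚ)).Point, Nat.card G = l ∧
        ∀ σ : AlgebraicClosure ℚ ≃ₐ[ℚ] AlgebraicClosure ℚ, ∀ P ∈ G,
          Affine.Point.map σ.toAlgHom P ∈ G := fun l hl hlm => by
    by_contra hno
    push Not at hno
    obtain ⟨q, hq, hgood, hnd⟩ := (infinitely_many_not_dvd_pointCount E W C hC hl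
      fun G hG hst => by
        obtain ⟨σ, P, hP, hn⟩ := hno G hG
        exact hn (hst σ P hP)).nonempty
    exact hnd (hlm.trans (hdvd q hq hgood))
  refine ⟨W, N, f, L, F, c, Ω, ⟨C, hC⟩, hf, hn, hL, hF, hF0, hc, ?_, hpos, fun l hl hlm => ?_,
    fun q hq hgood => ?_, fun hno => ?_⟩
  · convert hΩ using 1
    ext x
    simp only [Set.mem_ofPred_eq, FA.PeriodLattice.mem_realPeriods]
    exact and_comm
  · obtain ⟨G, hG, hst⟩ := hstable l hl hlm
    exact ⟨(stableSubgroup_semistable_iff hl).mp ⟨E, inferInstance, h, G, hG, hst⟩, G, hG, hst⟩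
  · have := Fact.mk hq
    refine (Nat.le_of_dvd Nat.card_pos (hdvd q hq hgood)).trans ?_
    have hap := FA.Root.LFunction_apply_prime E W ⟨C, hC⟩ hq hgood
    simp only [WeierstrassCurve.apOfModel, WeierstrassCurve.traceOfFrobenius, Nat.card_zmod] at hap
    have hH := hasse_LFunction E W C hC hq hgood
    have hs : (E.LFunction q).natAbs ≤ Nat.sqrt (4 * q) :=
      Nat.le_sqrt.mpr (by zify; rw [abs_mul_abs_self, ← sq]; exact hH)
    have h1 : ((W.reductionMod q).card : ℤ) ≤ q + 1 + Nat.sqrt (4 * q) := by omega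
    exact_mod_cast h1
  · have h1 : addOrderOf (unif L c) = 1 := by
      by_contra hne
      obtain ⟨l, hl, hlm⟩ := Nat.exists_prime_and_dvd hne
      obtain ⟨G, hG, hst⟩ := hstable l hl hlm
      exact hno l ((stableSubgroup_semistable_iff hl).mp ⟨E, inferInstance, h, G, hG, hst⟩)
        G hG hst
    have h0 : unif L c = 0 := AddMonoid.addOrderOf_eq_one_iff.mp h1
    refine ⟨h0, fun G hG hGs => ?_⟩
    rw [unif_eq_zero_iff, hL] at h0
    obtain ⟨γ, hγ⟩ := h0
    have hc' : FA.ManinDrinfeld.toZero f = c := FA.ManinDrinfeld.toZero_eq hF hF0 hc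
    have hG1 : G 1 = 2 * (π : ℂ) * I * FA.ManinDrinfeld.toZero f :=
      FA.PadicL.continuation_eq_centre hG fun s hs => by
        rw [hGs s hs, WeierstrassCurve.LSeries]
        exact congrArg (LSeries · s) (funext fun n => (hn n).symm)
    have hre := FA.PadicL.centre_eq_re (a := fun n => E.LFunction n) (f := f) hn
    set x := (2 * (π : ℂ) * I * FA.ManinDrinfeld.toZero f).re
    obtain ⟨k, hk⟩ := FA.PeriodLattice.exists_eq_intCast_mul hΩ (x := x)
      (FA.PeriodLattice.mem_realPeriods.mpr ⟨γ, by rw [hγ, ← hc', hre]⟩)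
    exact ⟨k, by rw [hG1, hre, hk]; push_cast; rfl⟩

end FA.Summary

end
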