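import Fermat.Agent.ArithmeticDynamics.CycleBound
import Mathlib.LinearAlgebra.Lagrange

/-!
# Cycles of polynomials and rational functions

Narkiewicz's theorem: for a number field `K` and a finite set `S` of primes the cycles in the
`S`-integers of all polynomials with `S`-integral coefficients, of any degree, have bounded length
(`narkiewicz_cycles`). The same holds on `ℙ¹(K)` for all rational functions with good reduction
outside `S`, that is with unit resultant (`good_reduction_cycles`; Morton–Silverman, Canci). Over
`ℤ` the length is at most two (`integer_polynomial_cycles`); without integrality every length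
occurs (`rational_polynomial_cycles`).
-/

set_option autoImplicit false

noncomputable section

open Polynomial OnePoint NumberField IsDedekindDomain

namespace FA.Summary

variable (K : Type*) [Field K] [NumberField K]

/-- **Narkiewicz's theorem.** -/
theorem narkiewicz_cycles (S : Finset (HeightOneSpectrum (𝓞 K))) :
    ∃ B : ℕ, ∀ f : K[X], (∀ i, ∀ v ∉ S, HeightOneSpectrum.adicAbv K v (f.coeff i) ≤ 1) →
      ∀ x : K, (∀ v ∉ S, HeightOneSpectrum.adicAbv K v x ≤ 1) →
        Function.minimalPeriod (fun y => f.eval y) x ≤ B := by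
  obtain ⟨B, hB⟩ := ArithmeticDynamics.exists_cycle_bound (K := K) S
  refine ⟨B, fun f hf x hx => ?_⟩
  set g : K → K := fun y => f.eval y
  have hw := fun v : HeightOneSpectrum (𝓞 K) =>
    NumberField.HeightOneSpectrum.isNonarchimedean_adicAbv K v
  have hint : ∀ v ∉ S, ∀ i, HeightOneSpectrum.adicAbv K v (g^[i] x) ≤ 1 := fun v hv i => by
    induction i with
    | zero => exact hx v hv
    | succ i ih =>
      rw [Function.iterate_succ_apply']
      exact ArithmeticDynamics.abv_eval_le (hw v) (fun k => hf k v hv) ih
  refine hB (Function.minimalPeriod g x) (fun i => ↑(g^[i] x)) ⟨fun i hi j hj e =>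
    Function.iterate_injOn_Iio_minimalPeriod hi hj (OnePoint.coe_injective e), fun i => by
      simp only [Function.iterate_add_minimalPeriod_eq], fun v hv => ⟨fun i => by
      simp only [Function.iterate_add_minimalPeriod_eq], fun i j => ?_⟩⟩
  rw [ArithmeticDynamics.chordDist_coe (hint v hv _) (hint v hv _),
    ArithmeticDynamics.chordDist_coe (hint v hv _) (hint v hv _),
    Function.iterate_succ_apply', Function.iterate_succ_apply']
  exact ArithmeticDynamics.abv_eval_sub_le (hw v) (fun k => hf k v hv) (hint v hv i) (hint v hv j)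

/-- **Cycles of rational functions of good reduction** (Morton–Silverman, Canci). -/
theorem good_reduction_cycles (S : Finset (HeightOneSpectrum (𝓞 K))) :
    ∃ B : ℕ, ∀ P Q : K[X], 1 ≤ max P.natDegree Q.natDegree →
      (∀ v ∉ S, (∀ i, HeightOneSpectrum.adicAbv K v (P.coeff i) ≤ 1) ∧
        (∀ i, HeightOneSpectrum.adicAbv K v (Q.coeff i) ≤ 1) ∧
        HeightOneSpectrum.adicAbv K v
          (P.resultant Q (max P.natDegree Q.natDegree) (max P.natDegree Q.natDegree)) = 1) →
      ∀ x : OnePoint K, Function.minimalPeriod (ArithmeticDynamics.ratApply P Q) x ≤ B := by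
  obtain ⟨B, hB⟩ := ArithmeticDynamics.exists_cycle_bound (K := K) S
  refine ⟨B, fun P Q hd hgood x => hB _ _ (ArithmeticDynamics.isSCycle_iterate S _ x
    fun v hv i j => ?_)⟩
  have hw := NumberField.HeightOneSpectrum.isNonarchimedean_adicAbv K v
  obtain ⟨h1, h2, h3⟩ := hgood v hv
  exact (ArithmeticDynamics.good_of_resultant hw hd h1 h2 h3).chordDist_le hw _ _

/-- **Over `ℤ`** cycles have length at most two, and `1 - X ^ 2` has one of length two. -/
theorem integer_polynomial_cycles :
    (∀ (f : ℤ[X]) (x : ℤ), Function.minimalPeriod (fun y => f.eval y) x ≤ 2) ∧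
      Function.minimalPeriod (fun y => (1 - X ^ 2 : ℤ[X]).eval y) 0 = 2 := by
  refine ⟨fun f x => ?_, Function.minimalPeriod_eq_prime (p := 2)
    (by simp [Function.IsPeriodicPt, Function.IsFixedPt, Function.iterate_succ_apply])
    (by simp [Function.IsFixedPt])⟩
  set g : ℤ → ℤ := fun y => f.eval y
  set n := Function.minimalPeriod g x with hn
  by_contra h
  have hn0 : 0 < n := by omega
  set d : ℕ → ℤ := fun i => g^[i + 1] x - g^[i] x with hd
  have hdvd : ∀ i, d i ∣ d (i + 1) := fun i => by
    simp only [hd, Function.iterate_succ_apply']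
    exact sub_dvd_eval_sub _ _ f
  have hchain : ∀ i j, d i ∣ d (i + j) := fun i j => by
    induction j with
    | zero => rfl
    | succ j ih => exact ih.trans (hdvd _)
  have hne : ∀ i, d i ≠ 0 := fun i h0 => by
    have h0' : d (i + (n * i - i)) = 0 := zero_dvd_iff.1 (h0 ▸ hchain i _)
    have hi : i ≤ n * i := Nat.le_mul_of_pos_left i hn0
    rw [Nat.add_sub_cancel' hi, hd] at h0'
    simp only [sub_eq_zero] at h0'
    have e : ∀ t, g^[n * i + t] x = g^[t] x := fun t => by
      rw [add_comm, ← Function.iterate_mod_minimalPeriod_eq, ← hn, Nat.add_mul_mod_self_left,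
        hn, Function.iterate_mod_minimalPeriod_eq]
    rw [e, show g^[n * i] x = g^[0] x from e 0, Function.iterate_one] at h0'
    have := Function.IsPeriodicPt.minimalPeriod_le one_pos
      (show Function.IsPeriodicPt g 1 x from h0')
    omega
  have habs : ∀ i, d (i + 1) = d i ∨ d (i + 1) = -d i := fun i => by
    refine Int.natAbs_eq_natAbs_iff.1 (Nat.dvd_antisymm ?_ (Int.natAbs_dvd_natAbs.2 (hdvd i)))
    have h1 : d (i + 1) ∣ d (i + 1 + (n - 1)) := hchain _ _
    have h2 : d (i + 1 + (n - 1)) = d i := by
      simp only [hd]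
      rw [show i + 1 + (n - 1) + 1 = i + 1 + n by omega, show i + 1 + (n - 1) = i + n by omega, hn,
        Function.iterate_add_minimalPeriod_eq, Function.iterate_add_minimalPeriod_eq]
    exact Int.natAbs_dvd_natAbs.2 (h2 ▸ h1)
  have hsame : ∀ i, d (i + 1) = d i := fun i => by
    refine (habs i).resolve_right fun e => ?_
    have h2 : Function.IsPeriodicPt g 2 (g^[i] x) := by
      show g^[2] (g^[i] x) = g^[i] x
      simp only [hd] at e
      rw [← Function.iterate_add_apply, add_comm 2 i, show i + 2 = i + 1 + 1 from rfl]
      linarith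
    have hle := Function.IsPeriodicPt.minimalPeriod_le two_pos h2
    rw [Function.minimalPeriod_apply_iterate (Function.minimalPeriod_pos_iff_mem_periodicPts.1 hn0),
      ← hn] at hle
    omega
  have hlin : ∀ i : ℕ, g^[i] x = x + i * d 0 := fun i => by
    have hconst : ∀ i, d i = d 0 := fun i => by
      induction i with
      | zero => rfl
      | succ i ih => rw [hsame, ih]
    induction i with
    | zero => simp
    | succ i ih =>
      have := hconst i
      simp only [hd] at this ⊢
      push_cast
      linarith
  have := hlin n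
  rw [hn, Function.iterate_minimalPeriod, ← hn] at this
  have h0 : (n : ℤ) * d 0 = 0 := by linarith
  exact mul_ne_zero (Int.natCast_ne_zero.2 hn0.ne') (hne 0) h0

/-- **Without integrality** every cycle length occurs. -/
theorem rational_polynomial_cycles (n : ℕ) (hn : 0 < n) :
    ∃ f : ℚ[X], Function.minimalPeriod (fun y => f.eval y) 0 = n := by
  refine ⟨Lagrange.interpolate (Finset.range n) (fun i => (i : ℚ))
    fun i => (((i + 1) % n : ℕ) : ℚ), ?_⟩
  set g : ℚ → ℚ := fun y => (Lagrange.interpolate (Finset.range n) (fun i => (i : ℚ))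
    fun i => (((i + 1) % n : ℕ) : ℚ)).eval y
  have hg : ∀ k : ℕ, g^[k] 0 = ((k % n : ℕ) : ℚ) := fun k => by
    induction k with
    | zero => simp
    | succ k ih =>
      rw [Function.iterate_succ_apply', ih]
      refine (Lagrange.eval_interpolate_at_node _ (Set.injOn_of_injective Nat.cast_injective)
        (Finset.mem_range.2 (Nat.mod_lt _ hn))).trans ?_
      simp [Nat.add_mod]
  refine le_antisymm (Function.IsPeriodicPt.minimalPeriod_le hn ?_) ?_
  · show g^[n] 0 = 0
    simp [hg]
  · by_contra hlt
    rw [not_le] at hlt
    have h := hg (Function.minimalPeriod g 0)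
    rw [Function.iterate_minimalPeriod, Nat.mod_eq_of_lt hlt] at h
    have hpos : 0 < Function.minimalPeriod g 0 :=
      Function.IsPeriodicPt.minimalPeriod_pos hn (show g^[n] 0 = 0 by simp [hg])
    exact hpos.ne' (Nat.cast_eq_zero.1 h.symm)

end FA.Summary

end
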