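import Fermat.Agent.CyclicAlgebra.Global

/-!
# Cyclic algebras

For `L/K` cyclic of degree `n` with generator `σ`, a cyclic algebra `(L/K, σ, a)` is given by
`FA.CyclicAlgebra.Presentation σ a A` with `dim A = n ^ 2`.

* `cyclicAlgebra_exists`, `cyclicAlgebra_centralSimple`, `cyclicAlgebra_of_embedding`: they exist
  for every `a ≠ 0`, are central simple, and are all the algebras of degree `n` containing `L`.
* `cyclicAlgebra_iso_iff`, `cyclicAlgebra_split_iff`: isomorphism and splitting are norm questions.
* `albert_brauer_hasse_noether_cyclic`: over a number field a central simple algebra of degree `n`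
  with a cyclic subfield of degree `n` is a matrix algebra iff it is one at every prime and every
  real embedding.
-/

set_option autoImplicit false

noncomputable section

universe w

open NumberField IsDedekindDomain
open scoped TensorProduct

namespace FA.Summary

section general

variable {K : Type*} [Field K] {L : Type w} [Field L] [Algebra K L] [FiniteDimensional K L]
  [IsGalois K L] {σ : L ≃ₐ[K] L}

/-- **Cyclic algebras exist.** -/
theorem cyclicAlgebra_exists (hσ : ∀ g, g ∈ Subgroup.zpowers σ) {a : K} (ha : a ≠ 0) :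
    ∃ (A : Type w) (_ : Ring A) (_ : Algebra K A), IsSimpleRing A ∧ Algebra.IsCentral K A ∧
      FiniteDimensional K A ∧ Module.finrank K A = Module.finrank K L ^ 2 ∧
        Nonempty (FA.CyclicAlgebra.Presentation σ a A) := by
  obtain ⟨A, _, _, _, _, P, hA⟩ := FA.CyclicAlgebra.exists_presentation σ hσ ha
  exact ⟨A, _, _, P.isSimpleRing hσ ha hA, P.isCentral hσ ha hA, inferInstance, hA, ⟨P⟩⟩

/-- **Cyclic algebras are central simple.** -/
theorem cyclicAlgebra_centralSimple (hσ : ∀ g, g ∈ Subgroup.zpowers σ) {a : K} (ha : a ≠ 0)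
    {A : Type*} [Ring A] [Nontrivial A] [Algebra K A] [FiniteDimensional K A]
    (P : FA.CyclicAlgebra.Presentation σ a A)
    (hA : Module.finrank K A = Module.finrank K L ^ 2) :
    IsSimpleRing A ∧ Algebra.IsCentral K A :=
  ⟨P.isSimpleRing hσ ha hA, P.isCentral hσ ha hA⟩

variable {A : Type*} [Ring A] [Algebra K A] [IsSimpleRing A] [Algebra.IsCentral K A]
  [FiniteDimensional K A]

/-- **Algebras of degree `n` containing a cyclic field of degree `n` are cyclic.** -/
theorem cyclicAlgebra_of_embedding (hσ : ∀ g, g ∈ Subgroup.zpowers σ)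
    (hA : Module.finrank K A = Module.finrank K L ^ 2) (f : L →ₐ[K] A) :
    ∃ a : K, a ≠ 0 ∧ Nonempty (FA.CyclicAlgebra.Presentation σ a A) :=
  FA.CyclicAlgebra.exists_presentation_of_embedding hσ hA f

/-- **Two cyclic algebras are isomorphic iff the constants differ by a norm.** -/
theorem cyclicAlgebra_iso_iff (hσ : ∀ g, g ∈ Subgroup.zpowers σ) {a a' : K} (ha : a ≠ 0)
    (ha' : a' ≠ 0) {B : Type*} [Ring B] [Nontrivial B] [Algebra K B] [FiniteDimensional K B]
    (hA : Module.finrank K A = Module.finrank K L ^ 2)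
    (hB : Module.finrank K B = Module.finrank K L ^ 2)
    (P : FA.CyclicAlgebra.Presentation σ a A) (Q : FA.CyclicAlgebra.Presentation σ a' B) :
    Nonempty (A ≃ₐ[K] B) ↔ ∃ c : L, a' = a * Algebra.norm K c :=
  FA.CyclicAlgebra.nonempty_algEquiv_iff hσ hA hB P Q ha ha'

/-- **A cyclic algebra splits iff the constant is a norm.** -/
theorem cyclicAlgebra_split_iff (hσ : ∀ g, g ∈ Subgroup.zpowers σ) {a : K} (ha : a ≠ 0)
    (hA : Module.finrank K A = Module.finrank K L ^ 2)
    (P : FA.CyclicAlgebra.Presentation σ a A) :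
    Nonempty (A ≃ₐ[K] Matrix (Fin (Module.finrank K L)) (Fin (Module.finrank K L)) K) ↔
      ∃ x : L, Algebra.norm K x = a :=
  FA.CyclicAlgebra.nonempty_matrix_iff hσ hA P ha

end general

/-- **The theorem of Albert, Brauer, Hasse and Noether** for algebras with a cyclic maximal
subfield. -/
theorem albert_brauer_hasse_noether_cyclic {K L : Type*} [Field K] [NumberField K] [Field L]
    [NumberField L] [Algebra K L] [IsGalois K L] [IsCyclic (L ≃ₐ[K] L)] {A : Type*} [Ring A]
    [Algebra K A] [IsSimpleRing A] [Algebra.IsCentral K A] [FiniteDimensional K A] (f : L →ₐ[K] A)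
    (hA : Module.finrank K A = Module.finrank K L ^ 2) :
    Nonempty (A ≃ₐ[K] Matrix (Fin (Module.finrank K L)) (Fin (Module.finrank K L)) K) ↔
      (∀ v : HeightOneSpectrum (𝓞 K), Nonempty (v.adicCompletion K ⊗[K] A ≃ₐ[v.adicCompletion K]
        Matrix (Fin (Module.finrank K L)) (Fin (Module.finrank K L)) (v.adicCompletion K))) ∧
      ∀ φ : K →+* ℝ, letI := φ.toAlgebra
        Nonempty (ℝ ⊗[K] A ≃ₐ[ℝ]
          Matrix (Fin (Module.finrank K L)) (Fin (Module.finrank K L)) ℝ) := by
  obtain ⟨σ, hσ⟩ := IsCyclic.exists_generator (α := L ≃ₐ[K] L)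
  obtain ⟨a, ha, ⟨P⟩⟩ := FA.CyclicAlgebra.exists_presentation_of_embedding hσ hA f
  exact FA.CyclicAlgebra.nonempty_matrix_iff_local hσ P ha hA

end FA.Summary

end
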