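import Fermat.Agent.CyclicNumbers.Main

/-!
# Cyclic and abelian numbers

The theorems of Szele (1947) and Dickson (1905).
-/

set_option autoImplicit false

namespace FA.Summary

/-- **Szele**: every group of order `n` is cyclic if and only if `gcd (n, φ n) = 1`. -/
theorem szele_cyclic_number {n : ℕ} (hn : 0 < n) :
    (∀ (G : Type) [Group G], Nat.card G = n → IsCyclic G) ↔ n.Coprime n.totient := by
  refine ⟨fun h => ?_, fun h G _ hG => ?_⟩
  · by_contra hc
    obtain ⟨G, _, hG, hne⟩ := CyclicNumbers.exists_noncyclic hn hc
    exact hne (h G hG)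
  · subst hG
    have := Nat.finite_of_card_ne_zero hn.ne'
    exact CyclicNumbers.isCyclic_of_coprime h

/-- **Dickson**: every group of order `n` is abelian if and only if `n` is cube-free and `n` is
prime to `p ^ k - 1` for every prime power `p ^ k` dividing it. -/
theorem dickson_abelian_number {n : ℕ} (hn : 0 < n) :
    (∀ (G : Type) [Group G], Nat.card G = n → ∀ x y : G, x * y = y * x) ↔
      ∀ p : ℕ, p.Prime → ¬p ^ 3 ∣ n ∧ ∀ k, 1 ≤ k → p ^ k ∣ n → n.Coprime (p ^ k - 1) := by
  refine ⟨fun h => ?_, fun h G _ hG x y => ?_⟩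
  · by_contra hc
    obtain ⟨G, _, hG, hne⟩ := CyclicNumbers.exists_of_not_isAbelianNumber hc
    exact hne (h G hG)
  · subst hG
    have := Nat.finite_of_card_ne_zero hn.ne'
    exact CyclicNumbers.commute_of_isAbelianNumber h x y

/-- A finite group whose order is prime to its totient is cyclic. -/
theorem isCyclic_of_coprime_totient {G : Type*} [Group G] [Finite G]
    (h : (Nat.card G).Coprime (Nat.card G).totient) : IsCyclic G :=
  CyclicNumbers.isCyclic_of_coprime h

end FA.Summary
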