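import Fermat.Agent.CyclicCount.Main
import Fermat.Agent.Root.SummaryCyclicNumbers

/-!
# The number of cyclic numbers

Erdős (1948): the `n ≤ N` prime to `φ n`, that is the `n` for which every group of order `n` is
cyclic, number `~ exp (-γ) N / log log log N`. The level of distribution comes from the theorem of
Bombieri and Vinogradov, hence any implied rate is ineffective; none is stated.
-/

set_option autoImplicit false

noncomputable section

open Finset Filter
open scoped Topology Classical

namespace FA.Summary

/-- **Erdős**: `#{n ≤ N : gcd (n, φ n) = 1} ~ exp (-γ) N / log log log N`. -/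
theorem coprime_totient_count :
    Tendsto (fun N : ℕ => (((Icc 1 N).filter fun n : ℕ => n.Coprime n.totient).card : ℝ) *
      Real.log (Real.log (Real.log N)) / N) atTop
      (𝓝 (Real.exp (-Real.eulerMascheroniConstant))) := by
  refine FA.CyclicCount.tendsto_primeToTotient.congr fun N => ?_
  rw [FA.CyclicCount.primeToTotient, FA.ErdosKac.loglog]

/-- **The cyclic numbers up to `N`** number `~ exp (-γ) N / log log log N`. -/
theorem cyclic_number_count :
    Tendsto (fun N : ℕ => (((Icc 1 N).filter fun n : ℕ =>
      ∀ (G : Type) [Group G], Nat.card G = n → IsCyclic G).card : ℝ) *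
      Real.log (Real.log (Real.log N)) / N) atTop
      (𝓝 (Real.exp (-Real.eulerMascheroniConstant))) := by
  refine coprime_totient_count.congr fun N => ?_
  congr 4
  exact filter_congr fun n hn => (szele_cyclic_number (mem_Icc.1 hn).1).symm

end FA.Summary

end
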