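import Fermat.Agent.CubicCount.MeanValue
import Fermat.Agent.CubicCount.Fields

/-!
# Cohn's theorem on cyclic cubic fields

* `cyclicCubic_discr`: the discriminant of a cyclic cubic field is a square `f ^ 2`, `f ≥ 2`.
* `two_mul_card_cyclicCubic_conductor`: twice the number of those of conductor `f` is the number of primitive cubic
  characters mod `f`; for a squarefree `f` with all primes `≡ 1 (mod 3)` that is `2 ^ ω(f)`.
* `cohn_cyclicCubic`: the number of cyclic cubic fields with discriminant at most `X` is asymptotic to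
  `11√3/(36π) ∏_{p ≡ 1 (3)} (1 - 2/(p(p+1))) √X`, a positive multiple of `√X`.

Classical (Hasse 1930, Cohn 1954); independent of S01.
-/

set_option autoImplicit false
set_option linter.style.haveILetI false

noncomputable section

open NumberField IntermediateField Filter
open scoped Classical Topology Real

namespace FA.Summary

/-- **The discriminant of a cyclic cubic field is a square.** -/
theorem cyclicCubic_discr (F : Type*) [Field F] [NumberField F] [IsGalois ℚ F] (h3 : Module.finrank ℚ F = 3) :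
    ∃ f : ℕ, 2 ≤ f ∧ discr F = (f : ℤ) ^ 2 := by
  let φ : F →ₐ[ℚ] ℂ := IsAlgClosed.lift
  let e : F ≃ₐ[ℚ] φ.fieldRange := AlgEquiv.ofInjectiveField φ
  haveI : NumberField φ.fieldRange := NumberField.of_ringEquiv _ φ.fieldRange e.toRingEquiv
  haveI : IsGalois ℚ φ.fieldRange := IsGalois.of_algEquiv e
  obtain ⟨f, hf, hd⟩ := FA.CubicCount.exists_natAbs_discr_eq_sq
    (F := φ.fieldRange) (e.toLinearEquiv.finrank_eq.symm.trans h3)
  refine ⟨f, hf, ?_⟩
  rw [← Int.natAbs_of_nonneg (FA.CubicCount.discr_nonneg_cubic h3), discr_eq_discr_of_algEquiv _ e, hd]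
  push_cast
  rfl

theorem cubicFields_eq (P : ℕ → Prop) (Q : ℤ → Prop) (h : ∀ n : ℕ, P n ↔ Q n) :
    {F : IntermediateField ℚ ℂ | Module.finrank ℚ F = 3 ∧ IsGalois ℚ F ∧ ∃ _ : NumberField F, Q (discr F)} =
      FA.CubicCount.cubicFields P := by
  ext F
  constructor
  · rintro ⟨h3, hgal, hnf, hq⟩
    refine ⟨h3, hgal, hnf, (h _).mpr ?_⟩
    rwa [Int.natAbs_of_nonneg (FA.CubicCount.discr_nonneg_cubic h3)]
  · rintro ⟨h3, hgal, hnf, hp⟩
    refine ⟨h3, hgal, hnf, ?_⟩
    have h' := (h _).mp hp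
    rwa [Int.natAbs_of_nonneg (FA.CubicCount.discr_nonneg_cubic h3)] at h'

/-- **The fields of conductor `f`.** -/
theorem two_mul_card_cyclicCubic_conductor (f : ℕ) (hf : 2 ≤ f) :
    2 * Nat.card {F : IntermediateField ℚ ℂ |
        Module.finrank ℚ F = 3 ∧ IsGalois ℚ F ∧ ∃ _ : NumberField F, discr F = (f : ℤ) ^ 2} =
      Nat.card {χ : DirichletCharacter ℂ f // χ ^ 3 = 1 ∧ χ.conductor = f} := by
  rw [cubicFields_eq (fun d => ∃ g ∈ ({f} : Finset ℕ), d = g ^ 2) (fun d => d = (f : ℤ) ^ 2) fun n => by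
    simp only [Finset.mem_singleton, exists_eq_left]
    exact_mod_cast Iff.rfl]
  have h := FA.CubicCount.two_mul_card_cubicFields {f} fun g hg => (Finset.mem_singleton.mp hg) ▸ hf
  rw [Finset.sum_singleton, FA.CubicCount.primCubic_apply (by omega)] at h
  exact_mod_cast h

/-- **`2 ^ (t - 1)` fields.** -/
theorem two_mul_card_cyclicCubic_squarefree (f : ℕ) (hf : 2 ≤ f) (hsq : Squarefree f)
    (hp : ∀ p ∈ f.primeFactors, p % 3 = 1) :
    2 * Nat.card {F : IntermediateField ℚ ℂ |
        Module.finrank ℚ F = 3 ∧ IsGalois ℚ F ∧ ∃ _ : NumberField F, discr F = (f : ℤ) ^ 2} =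
      2 ^ f.primeFactors.card := by
  rw [two_mul_card_cyclicCubic_conductor f hf]
  have h := FA.CubicCount.primCubic_apply (f := f) (by omega)
  conv_lhs at h => rw [← Nat.prod_primeFactors_of_squarefree hsq]
  rw [FA.CubicCount.primCubic_isMultiplicative.map_prod_of_prime _ fun p hp => Nat.prime_of_mem_primeFactors hp,
    Finset.prod_congr rfl fun p hpm => by
      rw [FA.CubicCount.primCubic_prime (Nat.prime_of_mem_primeFactors hpm), if_pos (hp p hpm)],
    Finset.prod_const] at h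
  exact_mod_cast h.symm

theorem finite_cyclicCubic_discr_le (X : ℕ) :
    {F : IntermediateField ℚ ℂ |
      Module.finrank ℚ F = 3 ∧ IsGalois ℚ F ∧ ∃ _ : NumberField F, discr F ≤ X}.Finite := by
  rw [cubicFields_eq (fun d => d ≤ X) (fun d => d ≤ X) fun n => Nat.cast_le.symm]
  exact FA.CubicCount.finite_cubicFields_le X

/-- **Cohn's theorem.** -/
theorem cohn_cyclicCubic :
    Tendsto (fun X : ℕ => (Nat.card {F : IntermediateField ℚ ℂ |
        Module.finrank ℚ F = 3 ∧ IsGalois ℚ F ∧ ∃ _ : NumberField F, discr F ≤ X} : ℝ) / √X) atTop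
      (𝓝 (11 * √3 / (36 * π) *
        ∏' p : Nat.Primes, if (p : ℕ) % 3 = 1 then 1 - 2 / ((p : ℝ) * ((p : ℝ) + 1)) else 1)) := by
  have hN : Tendsto Nat.sqrt atTop atTop :=
    tendsto_atTop.mpr fun b => (eventually_ge_atTop (b ^ 2)).mono fun a ha => Nat.le_sqrt'.mpr ha
  have hratio : Tendsto (fun X : ℕ => (X.sqrt : ℝ) / √X) atTop (𝓝 1) := by
    refine tendsto_of_tendsto_of_tendsto_of_le_of_le' (g := fun X : ℕ => 1 - (√X)⁻¹) ?_ tendsto_const_nhds ?_ ?_
    · simpa using tendsto_const_nhds.sub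
        (tendsto_inv_atTop_zero.comp (Real.tendsto_sqrt_atTop.comp tendsto_natCast_atTop_atTop))
    · filter_upwards [eventually_gt_atTop 0] with X hX
      have hs : 0 < √(X : ℝ) := Real.sqrt_pos.mpr (Nat.cast_pos.mpr hX)
      rw [le_div_iff₀ hs, sub_mul, one_mul, inv_mul_cancel₀ hs.ne']
      linarith [Real.real_sqrt_lt_nat_sqrt_succ (a := X)]
    · filter_upwards [eventually_gt_atTop 0] with X hX
      rw [div_le_one (Real.sqrt_pos.mpr (Nat.cast_pos.mpr hX))]
      exact Real.nat_sqrt_le_real_sqrt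
  have hmean := ((FA.CubicCount.tendsto_sum_primCubic'.comp hN).sub
    ((tendsto_one_div_atTop_nhds_zero_nat (𝕜 := ℝ)).comp hN)).mul hratio |>.div_const 2
  rw [show (11 * √3 / (18 * π) * FA.CubicCount.splitProduct - 0) * 1 / 2 =
    11 * √3 / (36 * π) * FA.CubicCount.splitProduct by ring] at hmean
  refine hmean.congr' ?_
  filter_upwards [eventually_gt_atTop 0] with X hX
  rw [cubicFields_eq (fun d => d ≤ X) (fun d => d ≤ X) fun n => Nat.cast_le.symm]
  have h := FA.CubicCount.two_mul_card_le X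
  have h1 : 1 ≤ X.sqrt := Nat.le_sqrt'.mpr (by omega)
  have hsplit := Finset.sum_Ioc_consecutive (fun f => FA.CubicCount.primCubic f) zero_le_one h1
  rw [← h, show Finset.Ioc 0 1 = {1} from rfl, Finset.sum_singleton, FA.CubicCount.primCubic_one] at hsplit
  simp only [Function.comp, ← hsplit]
  have h0 : ((X.sqrt : ℕ) : ℝ) ≠ 0 := Nat.cast_ne_zero.mpr (by omega)
  have hs : √(X : ℝ) ≠ 0 := (Real.sqrt_pos.mpr (Nat.cast_pos.mpr hX)).ne'
  push_cast
  field_simp
  ring

/-- The constant is positive. -/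
theorem cohn_constant_pos :
    0 < 11 * √3 / (36 * π) *
      ∏' p : Nat.Primes, if (p : ℕ) % 3 = 1 then 1 - 2 / ((p : ℝ) * ((p : ℝ) + 1)) else 1 :=
  mul_pos (by positivity) FA.CubicCount.splitProduct_pos

end FA.Summary
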