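import Fermat.Agent.IsogenyDegrees.Examples
import Fermat.Agent.Root.SummaryNoStableSubgroupSharp
import Fermat.Agent.Root.SummaryCMIsogeny

/-!
# Every prime of Mazur's list is the degree of a rational isogeny

For each prime `p` of `2, 3, 5, 7, 11, 13, 17, 19, 37, 43, 67, 163` some elliptic curve over `ℚ` has
a Galois stable subgroup of order `p`: semistable curves up to `7`, curves with complex
multiplication for `11, 19, 43, 67, 163`, and curves of conductors `147`, `14450`, `1225` for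
`13, 17, 37`.
-/

set_option autoImplicit false
set_option linter.style.haveILetI false

noncomputable section

open WeierstrassCurve
open scoped WeierstrassCurve.Affine

namespace FA.Summary

/-- **Every prime of Mazur's list is the degree of a rational isogeny.** -/
theorem exists_stable_subgroup_mazur_list [inst : DecidableEq (AlgebraicClosure ℚ)] {p : ℕ}
    (hp : p ∈ ({2, 3, 5, 7, 11, 13, 17, 19, 37, 43, 67, 163} : Finset ℕ)) :
    ∃ (E : WeierstrassCurve ℚ) (_ : E.IsElliptic)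
      (G : AddSubgroup (E.toAffine⁄(AlgebraicClosure ℚ)).Point), Nat.card G = p ∧
      ∀ σ : AlgebraicClosure ℚ ≃ₐ[ℚ] AlgebraicClosure ℚ, ∀ Q ∈ G,
        Affine.Point.map σ.toAlgHom Q ∈ G := by
  obtain rfl : inst = instDecEqAlgebraicClosureRat := Subsingleton.elim _ _
  have small : ∀ q : ℕ, q ∈ ({2, 3, 5, 7} : Finset ℕ) → q.Prime →
      ∃ (E : WeierstrassCurve ℚ) (_ : E.IsElliptic)
        (G : AddSubgroup (E.toAffine⁄(AlgebraicClosure ℚ)).Point), Nat.card G = q ∧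
        ∀ σ : AlgebraicClosure ℚ ≃ₐ[ℚ] AlgebraicClosure ℚ, ∀ Q ∈ G,
          Affine.Point.map σ.toAlgHom Q ∈ G := fun q hq hq' => by
    obtain ⟨E, hE, -, G, hG⟩ := (stableSubgroup_semistable_iff hq').mpr hq
    exact ⟨E, hE, G, hG⟩
  have cm : ∀ (q : ℕ) (W : WeierstrassCurve ℤ), W.Δ ≠ 0 →
      (q = 11 ∧ (W.c₄ : ℚ) ^ 3 = -32768 * (W.Δ : ℚ) ∨
        q = 19 ∧ (W.c₄ : ℚ) ^ 3 = -884736 * (W.Δ : ℚ) ∨
        q = 43 ∧ (W.c₄ : ℚ) ^ 3 = -884736000 * (W.Δ : ℚ) ∨
        q = 67 ∧ (W.c₄ : ℚ) ^ 3 = -147197952000 * (W.Δ : ℚ) ∨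
        q = 163 ∧ (W.c₄ : ℚ) ^ 3 = -262537412640768000 * (W.Δ : ℚ)) →
      ∃ (E : WeierstrassCurve ℚ) (_ : E.IsElliptic)
        (G : AddSubgroup (E.toAffine⁄(AlgebraicClosure ℚ)).Point), Nat.card G = q ∧
        ∀ σ : AlgebraicClosure ℚ ≃ₐ[ℚ] AlgebraicClosure ℚ, ∀ Q ∈ G,
          Affine.Point.map σ.toAlgHom Q ∈ G := fun q W hΔ h => by
    haveI : (W.map (Int.castRingHom ℚ)).IsElliptic :=
      ⟨(Ne.isUnit (by rw [map_Δ, eq_intCast]; exact_mod_cast hΔ))⟩
    have hj : ∀ j : ℚ, (W.c₄ : ℚ) ^ 3 = j * (W.Δ : ℚ) → (W.map (Int.castRingHom ℚ)).j = j :=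
      fun j e => by
        rw [WeierstrassCurve.j, Units.val_inv_eq_inv_val, coe_Δ', map_c₄, map_Δ, eq_intCast,
          eq_intCast, inv_mul_eq_div, div_eq_iff (by exact_mod_cast hΔ), e, mul_comm]
    obtain ⟨G, hG⟩ := exists_stable_subgroup_of_cm (W.map (Int.castRingHom ℚ)) (q := q)
      (h.imp (And.imp_right (hj _)) (Or.imp (And.imp_right (hj _))
        (Or.imp (And.imp_right (hj _)) (Or.imp (And.imp_right (hj _)) (And.imp_right (hj _))))))
    exact ⟨_, inferInstance, G, hG⟩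
  have new : ∀ (q g : ℕ) (W : WeierstrassCurve ℤ) (r : List ℤ) (bd bg : List Bool), W.Δ ≠ 0 →
      q.Prime → 5 ≤ q → 1 ≤ g → g < q → 2 * r.length + 1 = q →
      2 * FA.KerPoly.valBits bd + 1 = q → FA.KerPoly.valBits bg = g →
      FA.KerPoly.kernelCheck r W bd bg = true → FA.KerPoly.powCheck q g r.length = true →
      ∃ (E : WeierstrassCurve ℚ) (_ : E.IsElliptic)
        (G : AddSubgroup (E.toAffine⁄(AlgebraicClosure ℚ)).Point), Nat.card G = q ∧
        ∀ σ : AlgebraicClosure ℚ ≃ₐ[ℚ] AlgebraicClosure ℚ, ∀ Q ∈ G,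
          Affine.Point.map σ.toAlgHom Q ∈ G :=
    fun q g W r bd bg hΔ hq h5 h1 hg hd hbd hbg hc hp => by
    haveI : (W.map (Int.castRingHom ℚ)).IsElliptic :=
      ⟨(Ne.isUnit (by rw [map_Δ, eq_intCast]; exact_mod_cast hΔ))⟩
    obtain ⟨G, h₁, -, h₃⟩ := FA.KerPoly.exists_stable_of_check hq h5 h1 hg hd hbd hbg hc hp
    exact ⟨_, inferInstance, G, h₁, h₃⟩
  simp only [Finset.mem_insert, Finset.mem_singleton] at hp
  rcases hp with rfl | rfl | rfl | rfl | rfl | rfl | rfl | rfl | rfl | rfl | rfl | rfl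
  · exact small 2 (by decide) (by norm_num)
  · exact small 3 (by decide) (by norm_num)
  · exact small 5 (by decide) (by norm_num)
  · exact small 7 (by decide) (by norm_num)
  · exact cm 11 ⟨0, -1, 1, -7, 10⟩ (by decide +kernel)
      (by norm_num [c₄, WeierstrassCurve.Δ, b₂, b₄, b₆, b₈])
  · exact new 13 2 _ _ _ _ (by decide +kernel) (by norm_num) (by norm_num) (by norm_num)
      (by norm_num) rfl rfl rfl FA.KerPoly.check_thirteen (by decide +kernel)
  · exact new 17 3 _ _ _ _ (by decide +kernel) (by norm_num) (by norm_num) (by norm_num)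
      (by norm_num) rfl rfl rfl FA.KerPoly.check_seventeen (by decide +kernel)
  · exact cm 19 ⟨0, 0, 1, -38, 90⟩ (by decide +kernel)
      (by norm_num [c₄, WeierstrassCurve.Δ, b₂, b₄, b₆, b₈])
  · exact new 37 2 _ _ _ _ (by decide +kernel) (by norm_num) (by norm_num) (by norm_num)
      (by norm_num) rfl rfl rfl FA.KerPoly.check_thirtySeven (by decide +kernel)
  · exact cm 43 ⟨0, 0, 1, -860, 9707⟩ (by decide +kernel)
      (by norm_num [c₄, WeierstrassCurve.Δ, b₂, b₄, b₆, b₈])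
  · exact cm 67 ⟨0, 0, 1, -7370, 243528⟩ (by decide +kernel)
      (by norm_num [c₄, WeierstrassCurve.Δ, b₂, b₄, b₆, b₈])
  · exact cm 163 ⟨0, 0, 1, -2174420, 1234136692⟩ (by decide +kernel)
      (by norm_num [c₄, WeierstrassCurve.Δ, b₂, b₄, b₆, b₈])

end FA.Summary

end
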