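import Fermat.Agent.IsogenyDegrees.CyclicExamples
import Fermat.Agent.Root.SummaryMazurDegrees
import Fermat.Agent.Torsion.Realised

/-!
# Every degree of the list of cyclic isogenies occurs

For each `N` of `1, …, 19, 21, 25, 27, 37, 43, 67, 163` some elliptic curve over `ℚ` has a Galois
stable cyclic subgroup of order `N`: a rational point up to `10` and for `12`, checked kernel
polynomials for `14, 15, 16, 18, 21, 25, 27`, and the stable subgroups of prime order otherwise.
-/

set_option autoImplicit false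
set_option linter.style.haveILetI false

noncomputable section

open WeierstrassCurve
open scoped WeierstrassCurve.Affine

namespace FA.Summary

/-- **Every degree of the list of cyclic isogenies occurs.** -/
theorem exists_stable_cyclic_subgroup [inst : DecidableEq (AlgebraicClosure ℚ)] {N : ℕ}
    (hN : N ∈ ({1, 2, 3, 4, 5, 6, 7, 8, 9, 10, 11, 12, 13, 14, 15, 16, 17, 18, 19, 21, 25, 27, 37,
      43, 67, 163} : Finset ℕ)) :
    ∃ (E : WeierstrassCurve ℚ) (_ : E.IsElliptic)
      (G : AddSubgroup (E.toAffine⁄(AlgebraicClosure ℚ)).Point), Nat.card G = N ∧ IsAddCyclic G ∧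
      ∀ σ : AlgebraicClosure ℚ ≃ₐ[ℚ] AlgebraicClosure ℚ, ∀ Q ∈ G,
        Affine.Point.map σ.toAlgHom Q ∈ G := by
  obtain rfl : inst = instDecEqAlgebraicClosureRat := Subsingleton.elim _ _
  have pt : ∀ n : ℕ, n ∈ ({1, 2, 3, 4, 5, 6, 7, 8, 9, 10, 12} : Finset ℕ) →
      ∃ (E : WeierstrassCurve ℚ) (_ : E.IsElliptic)
        (G : AddSubgroup (E.toAffine⁄(AlgebraicClosure ℚ)).Point), Nat.card G = n ∧
        IsAddCyclic G ∧ ∀ σ : AlgebraicClosure ℚ ≃ₐ[ℚ] AlgebraicClosure ℚ, ∀ Q ∈ G,
          Affine.Point.map σ.toAlgHom Q ∈ G := fun n hn => by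
    obtain ⟨E, hE, ⟨f⟩⟩ := FA.Torsion.torsion_realised_cyclic hn
    haveI := hE
    refine ⟨E, hE, AddSubgroup.zmultiples (FA.Torsion.toQb E (f.symm 1 : E.toAffine.Point)), ?_,
      inferInstance, fun σ Q hQ => ?_⟩
    · rw [Nat.card_zmultiples, addOrderOf_injective _ (FA.Torsion.toQb_injective E),
        AddSubgroup.addOrderOf_coe, AddEquiv.addOrderOf_eq, ZMod.addOrderOf_one]
    · obtain ⟨k, rfl⟩ := AddSubgroup.mem_zmultiples_iff.mp hQ
      rw [map_zsmul]
      refine AddSubgroup.zsmul_mem _ ?_ k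
      rw [show Affine.Point.map σ.toAlgHom (FA.Torsion.toQb E (f.symm 1 : E.toAffine.Point)) =
        FA.Torsion.toQb E (f.symm 1 : E.toAffine.Point) from FA.Torsion.toQb_fixed E σ _]
      exact AddSubgroup.mem_zmultiples _
  have pr : ∀ p : ℕ, p ∈ ({2, 3, 5, 7, 11, 13, 17, 19, 37, 43, 67, 163} : Finset ℕ) → p.Prime →
      ∃ (E : WeierstrassCurve ℚ) (_ : E.IsElliptic)
        (G : AddSubgroup (E.toAffine⁄(AlgebraicClosure ℚ)).Point), Nat.card G = p ∧
        IsAddCyclic G ∧ ∀ σ : AlgebraicClosure ℚ ≃ₐ[ℚ] AlgebraicClosure ℚ, ∀ Q ∈ G,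
          Affine.Point.map σ.toAlgHom Q ∈ G := fun p hp hp' => by
    obtain ⟨E, hE, G, hG, hst⟩ := exists_stable_subgroup_mazur_list hp
    have := Fact.mk hp'
    exact ⟨E, hE, G, hG, isAddCyclic_of_prime_card hG, hst⟩
  have chk : ∀ (n g : ℕ) (W : WeierstrassCurve ℤ) (r : List ℤ) (bn bg : List Bool), W.Δ ≠ 0 →
      2 ≤ n → g.Coprime n → r ≠ [] → FA.KerPoly.valBits bn = n → FA.KerPoly.valBits bg = g →
      FA.KerPoly.cycleCheck r W bn bg = true →
      (∀ q ∈ n.primeFactors, ∃ (bm : List Bool) (u : List ℤ) (c : ℤ),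
        FA.KerPoly.orderCheck r W bm u c = true ∧ FA.KerPoly.valBits bm = n / q) →
      FA.KerPoly.powCheck n g r.length = true →
      ∃ (E : WeierstrassCurve ℚ) (_ : E.IsElliptic)
        (G : AddSubgroup (E.toAffine⁄(AlgebraicClosure ℚ)).Point), Nat.card G = n ∧
        IsAddCyclic G ∧ ∀ σ : AlgebraicClosure ℚ ≃ₐ[ℚ] AlgebraicClosure ℚ, ∀ Q ∈ G,
          Affine.Point.map σ.toAlgHom Q ∈ G :=
    fun n g W r bn bg hΔ h2 hcop hr hbn hbg hc hq hp => by
    haveI : (W.map (Int.castRingHom ℚ)).IsElliptic :=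
      ⟨(Ne.isUnit (by rw [map_Δ, eq_intCast]; exact_mod_cast hΔ))⟩
    exact ⟨_, inferInstance, FA.KerPoly.exists_cyclic_of_checks h2 hcop hr hbn hbg hc hq hp⟩
  fin_cases hN
  iterate 10 exact pt _ (by decide)
  · exact pr 11 (by decide) (by norm_num)
  · exact pt _ (by decide)
  · exact pr 13 (by decide) (by norm_num)
  · refine chk 14 3 _ _ _ _ (by decide +kernel) (by norm_num) (by norm_num) (by decide) rfl rfl
      FA.KerPoly.cycle_fourteen (fun q hq => ?_) (by decide +kernel)
    rw [show Nat.primeFactors 14 = {2, 7} by decide +kernel] at hq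
    fin_cases hq
    exacts [⟨_, _, _, FA.KerPoly.order_fourteen_two, rfl⟩,
      ⟨_, _, _, FA.KerPoly.order_fourteen_seven, rfl⟩]
  · refine chk 15 2 _ _ _ _ (by decide +kernel) (by norm_num) (by norm_num) (by decide) rfl rfl
      FA.KerPoly.cycle_fifteen (fun q hq => ?_) (by decide +kernel)
    rw [show Nat.primeFactors 15 = {3, 5} by decide +kernel] at hq
    fin_cases hq
    exacts [⟨_, _, _, FA.KerPoly.order_fifteen_three, rfl⟩,
      ⟨_, _, _, FA.KerPoly.order_fifteen_five, rfl⟩]
  · refine chk 16 3 _ _ _ _ (by decide +kernel) (by norm_num) (by norm_num) (by decide) rfl rfl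
      FA.KerPoly.cycle_sixteen (fun q hq => ?_) (by decide +kernel)
    rw [show Nat.primeFactors 16 = {2} by decide +kernel] at hq
    fin_cases hq
    exact ⟨_, _, _, FA.KerPoly.order_sixteen_two, rfl⟩
  · exact pr 17 (by decide) (by norm_num)
  · refine chk 18 5 _ _ _ _ (by decide +kernel) (by norm_num) (by norm_num) (by decide) rfl rfl
      FA.KerPoly.cycle_eighteen (fun q hq => ?_) (by decide +kernel)
    rw [show Nat.primeFactors 18 = {2, 3} by decide +kernel] at hq
    fin_cases hq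
    exacts [⟨_, _, _, FA.KerPoly.order_eighteen_two, rfl⟩,
      ⟨_, _, _, FA.KerPoly.order_eighteen_three, rfl⟩]
  · exact pr 19 (by decide) (by norm_num)
  · refine chk 21 2 _ _ _ _ (by decide +kernel) (by norm_num) (by norm_num) (by decide) rfl rfl
      FA.KerPoly.cycle_twentyOne (fun q hq => ?_) (by decide +kernel)
    rw [show Nat.primeFactors 21 = {3, 7} by decide +kernel] at hq
    fin_cases hq
    exacts [⟨_, _, _, FA.KerPoly.order_twentyOne_three, rfl⟩,
      ⟨_, _, _, FA.KerPoly.order_twentyOne_seven, rfl⟩]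
  · refine chk 25 2 _ _ _ _ (by decide +kernel) (by norm_num) (by norm_num) (by decide) rfl rfl
      FA.KerPoly.cycle_twentyFive (fun q hq => ?_) (by decide +kernel)
    rw [show Nat.primeFactors 25 = {5} by decide +kernel] at hq
    fin_cases hq
    exact ⟨_, _, _, FA.KerPoly.order_twentyFive_five, rfl⟩
  · refine chk 27 2 _ _ _ _ (by decide +kernel) (by norm_num) (by norm_num) (by decide) rfl rfl
      FA.KerPoly.cycle_twentySeven (fun q hq => ?_) (by decide +kernel)
    rw [show Nat.primeFactors 27 = {3} by decide +kernel] at hq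
    fin_cases hq
    exact ⟨_, _, _, FA.KerPoly.order_twentySeven_three, rfl⟩
  · exact pr 37 (by decide) (by norm_num)
  · exact pr 43 (by decide) (by norm_num)
  · exact pr 67 (by decide) (by norm_num)
  · exact pr 163 (by decide) (by norm_num)

end FA.Summary

end
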