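import Fermat.Agent.Tau.CyclicSublattice

/-!
# The moduli meaning of the modular equation

`Φ_N(j(M), j(L)) = 0` exactly when a multiple of `L` lies in `M` with cyclic quotient of order `N`;
for `N > 1` this relation between lattices is symmetric.
-/

set_option autoImplicit false

noncomputable section

open UpperHalfPlane hiding I
open ModularForm EisensteinSeries

namespace FA.Summary

/-- **The modular equation classifies cyclic sublattices.** -/
theorem modularEquation_iff_cyclicSublattice (N : ℕ) [NeZero N]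
    {Φ : Polynomial (Polynomial ℤ)} (hm : Φ.Monic) (hd : Φ.natDegree = ModularCurve.dedekindPsi N)
    (hv : ∀ τ w : ℍ, (w : ℂ) = (N : ℂ) * (τ : ℂ) →
      Φ.eval₂ (Polynomial.aeval (R := ℤ) (E₄ τ ^ 3 / ModularForm.discriminant τ)).toRingHom
        (E₄ w ^ 3 / ModularForm.discriminant w) = 0)
    (L M : PeriodPair) :
    (∃ c : ℂ, c ≠ 0 ∧ ∃ φ : M.lattice →+ ZMod N, Function.Surjective φ ∧
        ∀ x : ℂ, x ∈ (fun z => c * z) '' (L.lattice : Set ℂ) ↔
          ∃ h : x ∈ M.lattice, φ ⟨x, h⟩ = 0) ↔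
      Φ.eval₂
          (Polynomial.aeval (R := ℤ)
            (1728 * (M.g₂ ^ 3 / (M.g₂ ^ 3 - 27 * M.g₃ ^ 2)))).toRingHom
          (1728 * (L.g₂ ^ 3 / (L.g₂ ^ 3 - 27 * L.g₃ ^ 2))) = 0 := by
  let _ := Fintype.ofFinite (FA.Dim.Cos N)
  rw [FA.ModPoly.eq_phi N hm (by rw [hd, FA.Dim.card_cos])
    fun z => hv z _ (FA.ModField.coe_scaleH N z)]
  exact FA.CyclicLattice.cyclicSub_iff N L M

/-- **The dual of a cyclic isogeny.** -/
theorem cyclicSublattice_symm (N : ℕ) (hN : 1 < N) {L M : PeriodPair}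
    (h : ∃ c : ℂ, c ≠ 0 ∧ ∃ φ : M.lattice →+ ZMod N, Function.Surjective φ ∧
      ∀ x : ℂ, x ∈ (fun z => c * z) '' (L.lattice : Set ℂ) ↔
        ∃ h : x ∈ M.lattice, φ ⟨x, h⟩ = 0) :
    ∃ c : ℂ, c ≠ 0 ∧ ∃ φ : L.lattice →+ ZMod N, Function.Surjective φ ∧
      ∀ x : ℂ, x ∈ (fun z => c * z) '' (M.lattice : Set ℂ) ↔
        ∃ h : x ∈ L.lattice, φ ⟨x, h⟩ = 0 :=
  have : NeZero N := ⟨by omega⟩
  let _ := Fintype.ofFinite (FA.Dim.Cos N)
  FA.CyclicLattice.cyclicSub_symm N hN h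

end FA.Summary

end
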