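import Fermat.Agent.PrimeDivisors.Product
import Fermat.Agent.Root.SummaryOpenImageAll
import Mathlib.NumberTheory.SumPrimeReciprocals

/-!
# The number of points is almost never prime

For an elliptic curve over `ℚ` with open adelic image, that is with a nonzero trace at an inert
good prime of each quadratic field, and any set of primes `P` with divergent sum of reciprocals,
almost all primes `q` (Dirichlet density one) have `#E(𝔽_q)`, and `a_q`, divisible by at least `k`
primes of `P`. So `#E(𝔽_q)`, and `|a_q|`, are prime only for a set of primes `q` of density zero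
(the unconditional upper half of Koblitz's question, without a rate).
-/

set_option autoImplicit false
set_option linter.unusedSectionVars false
set_option linter.style.haveILetI false

noncomputable section

open NumberField IsDedekindDomain WeierstrassCurve WeierstrassCurve.Affine FA.EC FA.Frob FA.RT
open scoped WeierstrassCurve.Affine

local notation "Qb" => AlgebraicClosure ℚ
local notation "GQ" => AlgebraicClosure ℚ ≃ₐ[ℚ] AlgebraicClosure ℚ

namespace FA.PrimeDivisors

/-- Open adelic image gives everything at the levels prime to some `m` on an equation. -/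
theorem exists_surjective_coprime {E : WeierstrassCurve ℚ} [E.IsElliptic]
    (h : ∀ d : ℤ, Squarefree d → d ≠ 1 → ∃ (l : ℕ) (_ : Fact l.Prime),
      (∃ C : VariableChange ℚ_[l],
        HasGoodReduction ℤ_[l] (C • E.map (algebraMap ℚ ℚ_[l]))) ∧
      ¬ IsSquare (d : ZMod l) ∧ E.LFunction l ≠ 0)
    {W : WeierstrassCurve ℤ} [(ratCurve W).IsElliptic] (hW : W.IsIntegralModelOf E) :
    ∃ m : ℕ, m ≠ 0 ∧ ∀ N : ℕ, N ≠ 0 → N.Coprime m →
      ∀ φ : Submodule.torsionBy ℤ ((ratCurve W)⁄Qb).Point (N : ℤ) ≃+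
        Submodule.torsionBy ℤ ((ratCurve W)⁄Qb).Point (N : ℤ),
      ∃ σ : GQ, ∀ x, σ • x.1 = (φ x).1 := by
  obtain ⟨m, hm, key⟩ := FA.Summary.serreOpenImage_adelic_of_traces E h
  refine ⟨m, hm.ne', fun N hN hcop =>
    FA.TraceDist.surjective_of_curve hW (N : ℤ) fun φ => key N hN φ fun P hP => ?_⟩
  have hN0 : N • P.1 = 0 := by
    rw [← natCast_zsmul]; exact (Submodule.mem_torsionBy_iff _ _).mp P.2
  obtain rfl : P = 0 := Subtype.ext (AddMonoid.addOrderOf_eq_one_iff.mp
    (Nat.eq_one_of_dvd_coprimes hcop (addOrderOf_dvd_iff_nsmul_eq_zero.mpr hN0)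
      (addOrderOf_dvd_iff_nsmul_eq_zero.mpr hP)))
  exact map_zero φ

/-- The primes are a set with divergent sum of reciprocals. -/
theorem not_summable_primes :
    ¬ Summable ({p : ℕ | p.Prime}.indicator fun n : ℕ => (1 : ℝ) / n) :=
  not_summable_one_div_on_primes

end FA.PrimeDivisors

namespace FA.Summary

open FA.PrimeDivisors FA.TraceDist

/-- **Almost all point counts have `k` prime divisors in `P`**, for any set of primes `P` with
divergent sum of reciprocals and an elliptic curve over `ℚ` with a nonzero trace at an inert good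
prime of each quadratic field. -/
theorem pointCount_divisible_density_one (E : WeierstrassCurve ℚ) [E.IsElliptic]
    (h : ∀ d : ℤ, Squarefree d → d ≠ 1 → ∃ (l : ℕ) (_ : Fact l.Prime),
      (∃ C : VariableChange ℚ_[l],
        HasGoodReduction ℤ_[l] (C • E.map (algebraMap ℚ ℚ_[l]))) ∧
      ¬ IsSquare (d : ZMod l) ∧ E.LFunction l ≠ 0)
    (W : WeierstrassCurve ℤ) (C : VariableChange ℚ) (hW : C • E = W.map (Int.castRingHom ℚ))
    (P : Set ℕ) (hP : ∀ l ∈ P, l.Prime)
    (hdiv : ¬ Summable (P.indicator fun n : ℕ => (1 : ℝ) / n)) (k : ℕ) :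
    Set.HasDirichletDensity {v : HeightOneSpectrum (𝓞 ℚ) |
      ∃ S : Finset ℕ, (S : Set ℕ) ⊆ P ∧ k ≤ S.card ∧ ∀ l ∈ S, l ∣ Nat.card
        (W.map (Int.castRingHom (ZMod (Ideal.absNorm v.asIdeal)))).toAffine.Point} 1 := by
  have hΔ := FA.Frob.Δ_ne_zero_of_model (E := E) ⟨C, hW⟩
  haveI := FA.Frob.ratCurve_isElliptic_of_Δ hΔ
  obtain ⟨m, hm, hsurj⟩ := exists_surjective_coprime h (W := W) ⟨C, hW⟩
  have h0 := density_zero_lt (W := W) (fun _ t d => t = d + 1)
    (fun l q => l ∣ Nat.card (W.map (Int.castRingHom (ZMod q))).toAffine.Point) (m := m)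
    (fun l hl => ?_) (fun l q _ hq _ _ hRl => ?_) hsurj hm k P hP hdiv
  · simpa [Set.compl_ofPred] using FA.Supersingular.hasDirichletDensity_compl h0
  · haveI := Fact.mk hl
    have hc := card_fixing (k := ZMod l)
    rw [ZMod.card] at hc
    rw [card_gl2, ZMod.card]
    obtain ⟨j, rfl⟩ := Nat.exists_eq_add_of_le' hl.two_le
    have e1 : (j + 2) ^ 2 - 1 = (j + 1) * (j + 3) := by
      rw [show (j + 2) ^ 2 = (j + 1) * (j + 3) + 1 by ring, Nat.add_sub_cancel]
    have e2 : (j + 2) ^ 2 - (j + 2) = (j + 1) * (j + 2) := by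
      rw [show (j + 2) ^ 2 = (j + 1) * (j + 2) + (j + 2) by ring, Nat.add_sub_cancel]
    rw [e1, e2]
    nlinarith
  · haveI := Fact.mk hq
    rw [← ZMod.natCast_eq_zero_iff]
    have e : (W.apOfModel q : ZMod l) = (q : ZMod l) + 1 -
        (Nat.card (W.map (Int.castRingHom (ZMod q))).toAffine.Point : ZMod l) := by
      simp [apOfModel, traceOfFrobenius, WeierstrassCurve.card, reductionMod]
    linear_combination e - hRl

/-- **Almost all point counts have at least `k` prime divisors.** -/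
theorem pointCount_primeFactors_density_one (E : WeierstrassCurve ℚ) [E.IsElliptic]
    (h : ∀ d : ℤ, Squarefree d → d ≠ 1 → ∃ (l : ℕ) (_ : Fact l.Prime),
      (∃ C : VariableChange ℚ_[l],
        HasGoodReduction ℤ_[l] (C • E.map (algebraMap ℚ ℚ_[l]))) ∧
      ¬ IsSquare (d : ZMod l) ∧ E.LFunction l ≠ 0)
    (W : WeierstrassCurve ℤ) (C : VariableChange ℚ) (hW : C • E = W.map (Int.castRingHom ℚ))
    (k : ℕ) :
    Set.HasDirichletDensity {v : HeightOneSpectrum (𝓞 ℚ) | k ≤ (Nat.card
      (W.map (Int.castRingHom (ZMod (Ideal.absNorm v.asIdeal)))).toAffine.Point).primeFactors.card}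
      1 := by
  have h1 := pointCount_divisible_density_one E h W C hW {p | p.Prime} (fun _ hl => hl)
    not_summable_primes k
  refine FA.Chebotarev.hasDirichletDensity_congr ?_ ?_ h1
  · refine Set.Finite.subset Set.finite_empty fun v hv => hv.2 ?_
    exact ⟨_, fun l hl => Nat.prime_of_mem_primeFactors hl, hv.1,
      fun l hl => Nat.dvd_of_mem_primeFactors hl⟩
  · refine Set.Finite.subset Set.finite_empty fun v ⟨⟨S, hS, hk, hdvd⟩, hn⟩ => hn ?_
    haveI := Fact.mk (FA.Chebotarev.absNorm_prime v)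
    haveI : NeZero (Ideal.absNorm v.asIdeal) := ⟨(FA.Chebotarev.absNorm_prime v).ne_zero⟩
    exact hk.trans (Finset.card_le_card fun l hl =>
      Nat.mem_primeFactors.mpr ⟨hS hl, hdvd l hl, Nat.card_pos.ne'⟩)

/-- **The point count is almost never prime** (Koblitz's question, upper half). -/
theorem pointCount_prime_density_zero (E : WeierstrassCurve ℚ) [E.IsElliptic]
    (h : ∀ d : ℤ, Squarefree d → d ≠ 1 → ∃ (l : ℕ) (_ : Fact l.Prime),
      (∃ C : VariableChange ℚ_[l],
        HasGoodReduction ℤ_[l] (C • E.map (algebraMap ℚ ℚ_[l]))) ∧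
      ¬ IsSquare (d : ZMod l) ∧ E.LFunction l ≠ 0)
    (W : WeierstrassCurve ℤ) (C : VariableChange ℚ) (hW : C • E = W.map (Int.castRingHom ℚ)) :
    Set.HasDirichletDensity {v : HeightOneSpectrum (𝓞 ℚ) | (Nat.card
      (W.map (Int.castRingHom (ZMod (Ideal.absNorm v.asIdeal)))).toAffine.Point).Prime} 0 := by
  have h2 := FA.Supersingular.hasDirichletDensity_compl
    (pointCount_primeFactors_density_one E h W C hW 2)
  rw [sub_self] at h2
  refine density_zero_subset ?_ h2
  intro v hv hk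
  change 2 ≤ Finset.card _ at hk
  rw [(show Nat.Prime _ from hv).primeFactors, Finset.card_singleton] at hk
  omega

/-- **Almost all traces have `k` prime divisors in `P`.** -/
theorem trace_divisible_density_one (E : WeierstrassCurve ℚ) [E.IsElliptic]
    (h : ∀ d : ℤ, Squarefree d → d ≠ 1 → ∃ (l : ℕ) (_ : Fact l.Prime),
      (∃ C : VariableChange ℚ_[l],
        HasGoodReduction ℤ_[l] (C • E.map (algebraMap ℚ ℚ_[l]))) ∧
      ¬ IsSquare (d : ZMod l) ∧ E.LFunction l ≠ 0)
    (P : Set ℕ) (hP : ∀ l ∈ P, l.Prime)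
    (hdiv : ¬ Summable (P.indicator fun n : ℕ => (1 : ℝ) / n)) (k : ℕ) :
    Set.HasDirichletDensity {v : HeightOneSpectrum (𝓞 ℚ) |
      ∃ S : Finset ℕ, (S : Set ℕ) ⊆ P ∧ k ≤ S.card ∧
        ∀ l ∈ S, (l : ℤ) ∣ E.LFunction (Ideal.absNorm v.asIdeal)} 1 := by
  obtain ⟨W, hW⟩ := FA.Frob.exists_integralModel E
  have hΔ := FA.Frob.Δ_ne_zero_of_model hW
  haveI := FA.Frob.ratCurve_isElliptic_of_Δ hΔ
  obtain ⟨m, hm, hsurj⟩ := exists_surjective_coprime h hW
  have h0 := density_zero_lt (W := W) (fun _ t _ => t = 0)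
    (fun l q => (l : ℤ) ∣ E.LFunction q) (m := m)
    (fun l hl => ?_) (fun l q _ hq _ hgood hRl => ?_) hsurj hm k P hP hdiv
  · simpa [Set.compl_ofPred] using FA.Supersingular.hasDirichletDensity_compl h0
  · haveI := Fact.mk hl
    rw [card_trace_zero, card_gl2, ZMod.card]
    obtain ⟨j, rfl⟩ := Nat.exists_eq_add_of_le' hl.two_le
    have e1 : (j + 2) ^ 2 - 1 = (j + 1) * (j + 3) := by
      rw [show (j + 2) ^ 2 = (j + 1) * (j + 3) + 1 by ring, Nat.add_sub_cancel]
    have e2 : (j + 2) ^ 2 - (j + 2) = (j + 1) * (j + 2) := by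
      rw [show (j + 2) ^ 2 = (j + 1) * (j + 2) + (j + 2) by ring, Nat.add_sub_cancel]
    rw [e1, e2, show j + 2 - 1 = j + 1 by omega]
    nlinarith
  · rw [FA.Root.LFunction_apply_prime E W hW hq hgood]
    exact (ZMod.intCast_zmod_eq_zero_iff_dvd _ _).mp hRl

/-- **The trace is almost never prime.** -/
theorem trace_prime_density_zero (E : WeierstrassCurve ℚ) [E.IsElliptic]
    (h : ∀ d : ℤ, Squarefree d → d ≠ 1 → ∃ (l : ℕ) (_ : Fact l.Prime),
      (∃ C : VariableChange ℚ_[l],
        HasGoodReduction ℤ_[l] (C • E.map (algebraMap ℚ ℚ_[l]))) ∧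
      ¬ IsSquare (d : ZMod l) ∧ E.LFunction l ≠ 0) :
    Set.HasDirichletDensity {v : HeightOneSpectrum (𝓞 ℚ) |
      (E.LFunction (Ideal.absNorm v.asIdeal)).natAbs.Prime} 0 := by
  have h2 := FA.Supersingular.hasDirichletDensity_compl
    (trace_divisible_density_one E h {p | p.Prime} (fun _ hl => hl) not_summable_primes 2)
  rw [sub_self] at h2
  refine density_zero_subset ?_ h2
  rintro v (hv : Nat.Prime _) ⟨S, hS, hk, hdvd⟩
  have hle := Finset.card_le_card fun l (hl : l ∈ S) => Finset.mem_singleton.mpr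
    ((Nat.prime_dvd_prime_iff_eq (hS hl) hv).mp (Int.natCast_dvd.mp (hdvd l hl)))
  rw [Finset.card_singleton] at hle
  omega

/-- For a non-integral invariant the hypothesis holds: the point count is almost never prime. -/
theorem pointCount_prime_density_zero_of_pole (E : WeierstrassCurve ℚ) [E.IsElliptic]
    (hj : ∃ q : ℕ, q.Prime ∧ padicValRat q E.j < 0)
    (W : WeierstrassCurve ℤ) (C : VariableChange ℚ) (hW : C • E = W.map (Int.castRingHom ℚ)) :
    Set.HasDirichletDensity {v : HeightOneSpectrum (𝓞 ℚ) | (Nat.card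
      (W.map (Int.castRingHom (ZMod (Ideal.absNorm v.asIdeal)))).toAffine.Point).Prime} 0 :=
  pointCount_prime_density_zero E (fun d hd hd1 => by
    obtain ⟨M, hM⟩ := galoisSurjectiveTorsion_large E hj
    exact exists_inert_trace_ne_zero E ⟨M, fun p hp hlt φ => hM p hp hlt φ⟩ hd hd1) W C hW

/-- The hypothesis is not empty: for `y² + y = x³ - x` the point count is almost never prime. -/
theorem pointCount_prime_density_zero_37a1 :
    Set.HasDirichletDensity {v : HeightOneSpectrum (𝓞 ℚ) | (Nat.card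
      ((⟨0, 0, 1, -1, 0⟩ : WeierstrassCurve ℤ).map
        (Int.castRingHom (ZMod (Ideal.absNorm v.asIdeal)))).toAffine.Point).Prime} 0 := by
  haveI := ratCurve_isElliptic_of_Δ (W := (⟨0, 0, 1, -1, 0⟩ : WeierstrassCurve ℤ)) (by decide)
  refine pointCount_prime_density_zero_of_pole (ratCurve ⟨0, 0, 1, -1, 0⟩)
    ⟨37, by norm_num, ?_⟩ ⟨0, 0, 1, -1, 0⟩ 1 (one_smul _ _)
  haveI : Fact (Nat.Prime 37) := ⟨by norm_num⟩
  rw [FA.OggShafarevich.j_eq_of_model (W := (⟨0, 0, 1, -1, 0⟩ : WeierstrassCurve ℤ))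
    ⟨1, one_smul _ _⟩, show (⟨0, 0, 1, -1, 0⟩ : WeierstrassCurve ℤ).c₄ = 48 by decide,
    show (⟨0, 0, 1, -1, 0⟩ : WeierstrassCurve ℤ).Δ = 37 by decide]
  rw [padicValRat.div (by norm_num) (by norm_num),
    show ((48 : ℤ) : ℚ) ^ 3 = ((110592 : ℕ) : ℚ) by norm_num,
    show ((37 : ℤ) : ℚ) = ((37 : ℕ) : ℚ) by norm_num, padicValRat.of_nat, padicValRat.of_nat,
    padicValNat.eq_zero_of_not_dvd (show ¬ 37 ∣ 110592 by norm_num), padicValNat_self]
  norm_num

end FA.Summary

end
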