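import Fermat.Agent.ReducedGroups.Basic
import Fermat.Agent.Root.SummaryPrimePointCount

/-!
# The groups `E(𝔽_q)`: full torsion and cyclicity

For an integral equation with nonzero discriminant the primes `q` at which `E(𝔽_q)` has `N ^ 2`
points killed by `N` have Dirichlet density one over the number of automorphisms Galois induces on
`E[N]`, and those without this at a finite set of levels the matching proportion. So `E(𝔽_q)` is
non-cyclic on a set containing one of positive density, and for open image the cyclic ones lie in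
sets of density `∏ (1 - 1 / #GL₂(𝔽_l))`: Serre's constant as an unconditional upper bound.
-/

set_option autoImplicit false
set_option linter.style.haveILetI false
set_option linter.unusedSectionVars false

noncomputable section

open NumberField IsDedekindDomain WeierstrassCurve WeierstrassCurve.Affine FA.EC FA.Frob
open scoped WeierstrassCurve.Affine

local notation "Qb" => AlgebraicClosure ℚ
local notation "GQ" => AlgebraicClosure ℚ ≃ₐ[ℚ] AlgebraicClosure ℚ

namespace FA.ReducedGroups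

variable (W : WeierstrassCurve ℤ) [(ratCurve W).IsElliptic]

/-- Maps with the same fibres have images of the same size. -/
theorem natCard_range_congr {α β γ : Type*} {a : α → β} {b : α → γ}
    (h : ∀ x y, a x = a y ↔ b x = b y) : Nat.card (Set.range a) = Nat.card (Set.range b) := by
  refine Nat.card_eq_of_bijective (fun r => ⟨b r.2.choose, r.2.choose, rfl⟩) ⟨fun r s e => ?_, ?_⟩
  · refine Subtype.ext ?_
    rw [← r.2.choose_spec, ← s.2.choose_spec]
    exact (h _ _).mpr (congrArg Subtype.val e)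
  · rintro ⟨_, x, rfl⟩
    refine ⟨⟨a x, x, rfl⟩, Subtype.ext ((h _ _).mp ?_)⟩
    exact Exists.choose_spec (p := fun y => a y = a x) ⟨x, rfl⟩

/-- The values satisfying a predicate are the image of the points where it holds. -/
theorem natCard_range_subtype {α δ : Type*} (c : α → δ) (R : δ → Prop) :
    Nat.card {r : Set.range c // R r.1} =
      Nat.card (Set.range fun x : {x // R (c x)} => c x.1) := by
  refine Nat.card_congr ⟨fun r => ⟨r.1.1, ⟨r.1.2.choose, by rw [r.1.2.choose_spec]; exact r.2⟩,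
      r.1.2.choose_spec⟩,
    fun r => ⟨⟨r.1, r.2.choose.1, r.2.choose_spec⟩, ?_⟩, fun r => rfl, fun r => rfl⟩
  show R r.1
  rw [← r.2.choose_spec]
  exact r.2.choose.2

/-- Maps with the same fibres send as many values into matching predicates. -/
theorem natCard_range_subtype_congr {α β γ : Type*} {a : α → β} {b : α → γ}
    (h : ∀ x y, a x = a y ↔ b x = b y) {P : β → Prop} {Q : γ → Prop}
    (hPQ : ∀ x, P (a x) ↔ Q (b x)) :
    Nat.card {r : Set.range a // P r.1} = Nat.card {r : Set.range b // Q r.1} := by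
  rw [natCard_range_subtype a P, natCard_range_subtype b Q]
  have e : (fun x : {x // P (a x)} => b x.1) =
      (fun x : {x // Q (b x)} => b x.1) ∘ Equiv.subtypeEquivRight hPQ := rfl
  rw [natCard_range_congr (a := fun x : {x // P (a x)} => a x.1)
    (b := fun x => b x.1) fun x y => h x.1 y.1, e,
    (Equiv.subtypeEquivRight hPQ).surjective.range_comp]

/-- Two elements act alike on the torsion exactly when the representation agrees. -/
theorem glLevel_eq_iff (N : ℕ) [NeZero N] (σ τ : GQ) :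
    (fun x : Submodule.torsionBy ℤ ((ratCurve W).toAffine⁄Qb).Point (N : ℤ) =>
        Affine.Point.map σ.toAlgHom x.1) = (fun x => Affine.Point.map τ.toAlgHom x.1) ↔
      FA.TraceDist.glLevel W N σ = FA.TraceDist.glLevel W N τ := by
  have h1 : FA.TraceDist.glLevel W N σ = FA.TraceDist.glLevel W N τ ↔
      FA.TraceDist.repLevel W N (τ⁻¹ * σ) = 1 := by
    rw [eq_comm, ← inv_mul_eq_one, ← map_inv, ← map_mul, ← Units.val_inj]
    rfl
  rw [h1, FA.TraceDist.repLevel_eq_one_iff, funext_iff]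
  refine ⟨fun h x hx => ?_, fun h x => ?_⟩
  · have e : σ • x = τ • x :=
      h ⟨x, (Submodule.mem_torsionBy_iff _ _).mpr (by rw [natCast_zsmul]; exact hx)⟩
    rw [mul_smul, e, inv_smul_smul]
  · have hx : N • x.1 = 0 := by
      rw [← natCast_zsmul]; exact (Submodule.mem_torsionBy_iff _ _).mp x.2
    show σ • x.1 = τ • x.1
    rw [← inv_smul_eq_iff, ← mul_smul]
    exact h x.1 hx

/-- Surjectivity at the product of the primes makes the joint representation onto. -/
theorem levelRep_range_eq_top (L : Finset ℕ) (hL : ∀ l ∈ L, l.Prime) [∀ n : L, NeZero (n : ℕ)]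
    (hsurj : ∀ φ : Submodule.torsionBy ℤ ((ratCurve W)⁄Qb).Point
        (FA.PrimeDivisors.level L : ℤ) ≃+
      Submodule.torsionBy ℤ ((ratCurve W)⁄Qb).Point (FA.PrimeDivisors.level L : ℤ),
      ∃ σ : GQ, ∀ x, σ • x.1 = (φ x).1) :
    (levelRep W L).range = ⊤ := by
  haveI : NeZero (FA.PrimeDivisors.level L) :=
    ⟨Finset.prod_ne_zero_iff.mpr fun l _ => NeZero.ne (l : ℕ)⟩
  have hker : (levelRep W L).ker ≤ (FA.TraceDist.glLevel W (FA.PrimeDivisors.level L)).ker := by
    intro σ hσ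
    rw [MonoidHom.mem_ker] at hσ ⊢
    refine Units.ext ((FA.TraceDist.repLevel_eq_one_iff σ).mpr fun x hx => ?_)
    have hl : ∀ l : L, ∀ y : FA.RT.Tate.Pts W, (l : ℕ) • y = 0 → σ • y = y := fun l =>
      (FA.TraceDist.repLevel_eq_one_iff σ).mp (congrArg Units.val (congrFun hσ l) :)
    suffices key : ∀ (J : Finset L) (y : FA.RT.Tate.Pts W), (∏ l ∈ J, (l : ℕ)) • y = 0 →
        σ • y = y from key Finset.univ x hx
    classical
    intro J
    induction J using Finset.induction with
    | empty =>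
      intro y hy
      rw [Finset.prod_empty, one_nsmul] at hy
      rw [hy]
      exact FA.Local.gal_smul_zero _ σ
    | @insert l J hlJ ih =>
      intro y hy
      rw [Finset.prod_insert hlJ] at hy
      set b := ∏ i ∈ J, (i : ℕ)
      have h1 : σ • (b • y) = b • y := hl l _ (by rw [← mul_nsmul', hy])
      have h2 : σ • ((l : ℕ) • y) = (l : ℕ) • y := ih _ (by rw [← mul_nsmul', mul_comm, hy])
      have hco : (l : ℕ).Coprime b := Nat.Coprime.prod_right fun i hi =>
        (Nat.coprime_primes (hL l l.2) (hL i i.2)).mpr fun e =>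
          hlJ ((Subtype.ext e : l = i) ▸ hi)
      obtain ⟨u, v, huv⟩ := Int.isCoprime_iff_nat_coprime.mpr
        (show Nat.Coprime ((l : ℕ) : ℤ).natAbs (b : ℤ).natAbs by simpa using hco)
      have hye : y = u • ((l : ℕ) • y) + v • (b • y) := by
        rw [← natCast_zsmul y (l : ℕ), ← natCast_zsmul y b, smul_smul, smul_smul, ← add_zsmul,
          huv, one_zsmul]
      calc σ • y = σ • (u • ((l : ℕ) • y) + v • (b • y)) := by rw [← hye]
        _ = u • (σ • ((l : ℕ) • y)) + v • (σ • (b • y)) := by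
            rw [FA.Local.gal_smul_add, FA.RT.Tate.gal_smul_zsmul (W := W),
              FA.RT.Tate.gal_smul_zsmul (W := W)]
        _ = y := by rw [h1, h2, ← hye]
  have h1 : Nat.card (GL (Fin 2) (ZMod (FA.PrimeDivisors.level L))) ∣
      Nat.card (levelRep W L).range := by
    rw [← Nat.card_congr (Subgroup.topEquiv (G := GL (Fin 2)
        (ZMod (FA.PrimeDivisors.level L)))).toEquiv,
      ← MonoidHom.range_eq_top.mpr (FA.TraceDist.glLevel_surjective hsurj), ← Subgroup.index_ker,
      ← Subgroup.index_ker]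
    exact Subgroup.index_dvd_of_le hker
  have h2 := Nat.card_le_card_of_surjective _ (FA.PrimeDivisors.toProd_surjective L hL)
  exact Subgroup.eq_top_of_le_card _ (h2.trans (Nat.le_of_dvd Nat.card_pos h1))

end FA.ReducedGroups

namespace FA.Summary

open FA.ReducedGroups

/-- **Full `N`-torsion modulo `q` has density one over the image of Galois on `E[N]`.** -/
theorem fullTorsion_density (W : WeierstrassCurve ℤ) (hΔ : W.Δ ≠ 0) (N : ℕ) (hN : N ≠ 0) :
    Set.HasDirichletDensity {v : HeightOneSpectrum (𝓞 ℚ) |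
      ∃ _ : Fact (Ideal.absNorm v.asIdeal).Prime, Nat.card {P : (W.map (Int.castRingHom
        (ZMod (Ideal.absNorm v.asIdeal)))).toAffine.Point // N • P = 0} = N ^ 2}
      (1 / Nat.card (Set.range fun (σ : GQ)
        (x : Submodule.torsionBy ℤ ((W.map (Int.castRingHom ℚ)).toAffine⁄Qb).Point (N : ℤ)) =>
          Affine.Point.map σ.toAlgHom x.1)) := by
  haveI := ratCurve_isElliptic_of_Δ hΔ
  haveI := NeZero.mk hN
  rw [natCard_range_congr (b := fun σ => FA.TraceDist.glLevel W N σ) (glLevel_eq_iff W N)]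
  exact density_fullAt W hΔ N

/-- **The density is `1 / #GL₂(ℤ/N)`** when Galois induces every automorphism of `E[N]`. -/
theorem fullTorsion_density_of_surjective (W : WeierstrassCurve ℤ) (hΔ : W.Δ ≠ 0) (N : ℕ)
    [NeZero N]
    (hsurj : ∀ φ : Submodule.torsionBy ℤ ((W.map (Int.castRingHom ℚ)).toAffine⁄Qb).Point (N : ℤ) ≃+
        Submodule.torsionBy ℤ ((W.map (Int.castRingHom ℚ)).toAffine⁄Qb).Point (N : ℤ),
      ∃ σ : GQ, ∀ x, Affine.Point.map σ.toAlgHom x.1 = (φ x).1) :
    Set.HasDirichletDensity {v : HeightOneSpectrum (𝓞 ℚ) |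
      ∃ _ : Fact (Ideal.absNorm v.asIdeal).Prime, Nat.card {P : (W.map (Int.castRingHom
        (ZMod (Ideal.absNorm v.asIdeal)))).toAffine.Point // N • P = 0} = N ^ 2}
      (1 / Nat.card (GL (Fin 2) (ZMod N))) := by
  haveI := ratCurve_isElliptic_of_Δ hΔ
  have h := density_fullAt W hΔ N
  rwa [MonoidHom.range_eq_top.mpr (FA.TraceDist.glLevel_surjective hsurj),
    Nat.card_congr Subgroup.topEquiv.toEquiv] at h

/-- **No full torsion at any of finitely many levels**: the density is the proportion, among the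
automorphisms Galois induces on these torsion groups together, of those trivial on none. -/
theorem fullTorsion_avoid_density (W : WeierstrassCurve ℤ) (hΔ : W.Δ ≠ 0) (L : Finset ℕ)
    (hL : ∀ n ∈ L, n ≠ 0) :
    Set.HasDirichletDensity {v : HeightOneSpectrum (𝓞 ℚ) | ∀ n ∈ L,
      ¬ ∃ _ : Fact (Ideal.absNorm v.asIdeal).Prime, Nat.card {P : (W.map (Int.castRingHom
        (ZMod (Ideal.absNorm v.asIdeal)))).toAffine.Point // n • P = 0} = n ^ 2}
      ((Nat.card {r : Set.range (fun (σ : GQ) (n : L) (x : Submodule.torsionBy ℤ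
            ((W.map (Int.castRingHom ℚ)).toAffine⁄Qb).Point ((n : ℕ) : ℤ)) =>
          Affine.Point.map σ.toAlgHom x.1) // ∀ n, r.1 n ≠ Subtype.val} : ℝ) /
        Nat.card (Set.range (fun (σ : GQ) (n : L) (x : Submodule.torsionBy ℤ
            ((W.map (Int.castRingHom ℚ)).toAffine⁄Qb).Point ((n : ℕ) : ℤ)) =>
          Affine.Point.map σ.toAlgHom x.1))) := by
  haveI := ratCurve_isElliptic_of_Δ hΔ
  haveI : ∀ n : L, NeZero (n : ℕ) := fun n => ⟨hL n n.2⟩
  have hone : ∀ n : ℕ, (fun x : Submodule.torsionBy ℤ ((ratCurve W).toAffine⁄Qb).Point (n : ℤ) =>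
      Affine.Point.map (1 : GQ).toAlgHom x.1) = Subtype.val :=
    fun n => funext fun x => one_smul GQ x.1
  have hfib : ∀ σ τ : GQ, (fun (n : L) (x : Submodule.torsionBy ℤ
        ((ratCurve W).toAffine⁄Qb).Point ((n : ℕ) : ℤ)) => Affine.Point.map σ.toAlgHom x.1) =
      (fun n x => Affine.Point.map τ.toAlgHom x.1) ↔ levelRep W L σ = levelRep W L τ :=
    fun σ τ => by
      rw [funext_iff, funext_iff]
      exact forall_congr' fun n => glLevel_eq_iff W n σ τ
  rw [natCard_range_subtype_congr (P := fun r => ∀ n, r n ≠ Subtype.val)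
      (Q := fun g : ∀ n : L, GL (Fin 2) (ZMod (n : ℕ)) => ∀ n, g n ≠ 1) hfib fun σ =>
      forall_congr' fun n => not_congr ((Iff.of_eq (congrArg (fun z => _ = z)
        (hone n).symm)).trans ((glLevel_eq_iff W n σ 1).trans (by rw [map_one]; rfl))),
    natCard_range_congr hfib]
  exact density_not_fullAt W hΔ L

/-- **The product formula** at primes whose product has the whole automorphism group as image. -/
theorem fullTorsion_avoid_density_of_surjective (W : WeierstrassCurve ℤ) (hΔ : W.Δ ≠ 0)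
    (L : Finset ℕ) (hL : ∀ l ∈ L, l.Prime)
    (hsurj : ∀ φ : Submodule.torsionBy ℤ ((W.map (Int.castRingHom ℚ)).toAffine⁄Qb).Point
          ((∏ l ∈ L, l : ℕ) : ℤ) ≃+
        Submodule.torsionBy ℤ ((W.map (Int.castRingHom ℚ)).toAffine⁄Qb).Point
          ((∏ l ∈ L, l : ℕ) : ℤ),
      ∃ σ : GQ, ∀ x, Affine.Point.map σ.toAlgHom x.1 = (φ x).1) :
    Set.HasDirichletDensity {v : HeightOneSpectrum (𝓞 ℚ) | ∀ n ∈ L,
      ¬ ∃ _ : Fact (Ideal.absNorm v.asIdeal).Prime, Nat.card {P : (W.map (Int.castRingHom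
        (ZMod (Ideal.absNorm v.asIdeal)))).toAffine.Point // n • P = 0} = n ^ 2}
      (∏ l ∈ L, (1 - 1 / ((((l ^ 2 - 1) * (l ^ 2 - l) : ℕ)) : ℝ))) := by
  classical
  haveI := ratCurve_isElliptic_of_Δ hΔ
  haveI : ∀ l : L, NeZero (l : ℕ) := fun l => ⟨(hL l l.2).ne_zero⟩
  have hlev : FA.PrimeDivisors.level L = ∏ l ∈ L, l := Finset.prod_coe_sort L (fun l => l)
  rw [← hlev] at hsurj
  have h := density_not_fullAt W hΔ L
  suffices key : (Nat.card {g : (levelRep W L).range // ∀ n, g.1 n ≠ 1} : ℝ) /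
      Nat.card (levelRep W L).range =
        ∏ l ∈ L, (1 - 1 / ((((l ^ 2 - 1) * (l ^ 2 - l) : ℕ)) : ℝ)) by
    rw [key] at h
    exact h
  have htop := levelRep_range_eq_top W L hL hsurj
  have hcG : ∀ l : L, Nat.card (GL (Fin 2) (ZMod (l : ℕ))) =
      ((l : ℕ) ^ 2 - 1) * ((l : ℕ) ^ 2 - (l : ℕ)) := fun l => by
    haveI := Fact.mk (hL l l.2)
    rw [Matrix.card_GL_field, Fin.prod_univ_two, ZMod.card]
    simp
  have e1 : Nat.card {g : (levelRep W L).range // ∀ n, g.1 n ≠ 1} =
      ∏ l : L, (Nat.card (GL (Fin 2) (ZMod (l : ℕ))) - 1) := by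
    refine (Nat.card_congr ((Equiv.subtypeEquiv (q := fun g : ∀ l : L, GL (Fin 2) (ZMod (l : ℕ)) =>
        ∀ n, g n ≠ 1) ((MulEquiv.subgroupCongr htop).trans Subgroup.topEquiv).toEquiv
        fun g => Iff.rfl).trans (Equiv.subtypePiEquivPi (p := fun (l : L)
          (x : GL (Fin 2) (ZMod (l : ℕ))) => x ≠ 1)))).trans ?_
    rw [Nat.card_pi]
    refine Finset.prod_congr rfl fun l _ => ?_
    rw [← Nat.card_congr (Equiv.refl {x : GL (Fin 2) (ZMod (l : ℕ)) // x ≠ 1}),
      Nat.card_eq_fintype_card, Nat.card_eq_fintype_card, Fintype.card_subtype_compl,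
      Fintype.card_subtype_eq]
  have e2 : Nat.card (levelRep W L).range = ∏ l : L, Nat.card (GL (Fin 2) (ZMod (l : ℕ))) := by
    rw [Nat.card_congr ((MulEquiv.subgroupCongr htop).trans Subgroup.topEquiv).toEquiv, Nat.card_pi]
  rw [e1, e2, Nat.cast_prod, Nat.cast_prod, ← Finset.prod_div_distrib,
    ← Finset.prod_coe_sort L fun l => 1 - 1 / ((((l ^ 2 - 1) * (l ^ 2 - l) : ℕ)) : ℝ)]
  refine Finset.prod_congr rfl fun l _ => ?_
  rw [← hcG, Nat.cast_sub Nat.card_pos, Nat.cast_one, sub_div,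
    div_self (Nat.cast_ne_zero.mpr Nat.card_pos.ne')]

/-- **Cyclic reductions have no full torsion**, so lie in each of these sets. -/
theorem cyclicReduction_subset (W : WeierstrassCurve ℤ) (hΔ : W.Δ ≠ 0) (L : Finset ℕ)
    (hL : ∀ n ∈ L, 2 ≤ n) :
    {v : HeightOneSpectrum (𝓞 ℚ) | ∃ _ : Fact (Ideal.absNorm v.asIdeal).Prime,
      IsAddCyclic (W.map (Int.castRingHom (ZMod (Ideal.absNorm v.asIdeal)))).toAffine.Point} ⊆
    {v : HeightOneSpectrum (𝓞 ℚ) | ∀ n ∈ L,
      ¬ ∃ _ : Fact (Ideal.absNorm v.asIdeal).Prime, Nat.card {P : (W.map (Int.castRingHom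
        (ZMod (Ideal.absNorm v.asIdeal)))).toAffine.Point // n • P = 0} = n ^ 2} := by
  haveI := ratCurve_isElliptic_of_Δ hΔ
  rintro v ⟨_, h⟩ n hn
  exact not_fullAt_of_isAddCyclic W (hL n hn) h

/-- **Serre's constant bounds the cyclic reductions from above**: with open image, beyond some
bound, they lie for every finite set of primes in a set of density `∏ (1 - 1 / #GL₂(𝔽_l))`. -/
theorem cyclicReduction_le_serreConstant (W : WeierstrassCurve ℤ) (hΔ : W.Δ ≠ 0)
    (h : ∀ d : ℤ, Squarefree d → d ≠ 1 → ∃ (l : ℕ) (_ : Fact l.Prime),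
      (∃ C : VariableChange ℚ_[l], HasGoodReduction ℤ_[l]
        (C • (W.map (Int.castRingHom ℚ)).map (algebraMap ℚ ℚ_[l]))) ∧
      ¬ IsSquare (d : ZMod l) ∧ (W.map (Int.castRingHom ℚ)).LFunction l ≠ 0) :
    ∃ m : ℕ, ∀ L : Finset ℕ, (∀ l ∈ L, l.Prime ∧ m < l) →
      ∃ S : Set (HeightOneSpectrum (𝓞 ℚ)),
        Set.HasDirichletDensity S
          (∏ l ∈ L, (1 - 1 / ((((l ^ 2 - 1) * (l ^ 2 - l) : ℕ)) : ℝ))) ∧
        {v : HeightOneSpectrum (𝓞 ℚ) | ∃ _ : Fact (Ideal.absNorm v.asIdeal).Prime,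
          IsAddCyclic (W.map (Int.castRingHom
            (ZMod (Ideal.absNorm v.asIdeal)))).toAffine.Point} ⊆ S := by
  haveI := ratCurve_isElliptic_of_Δ hΔ
  obtain ⟨m, hm, hsurj⟩ :=
    FA.PrimeDivisors.exists_surjective_coprime h (W := W) ⟨1, one_smul _ _⟩
  refine ⟨m, fun L hL => ⟨_, fullTorsion_avoid_density_of_surjective W hΔ L
    (fun l hl => (hL l hl).1)
    (hsurj _ (Finset.prod_ne_zero_iff.mpr fun l hl => (hL l hl).1.ne_zero)
      (Nat.Coprime.prod_left fun l hl => (hL l hl).1.coprime_iff_not_dvd.mpr fun hd => by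
        have := Nat.le_of_dvd (Nat.pos_of_ne_zero hm) hd
        have := (hL l hl).2
        omega)),
    cyclicReduction_subset W hΔ L fun l hl => (hL l hl).1.two_le⟩⟩

/-- **Non-cyclic reductions contain a set of positive density**, for every curve. -/
theorem noncyclicReduction_density_pos (W : WeierstrassCurve ℤ) (hΔ : W.Δ ≠ 0) :
    ∃ (S : Set (HeightOneSpectrum (𝓞 ℚ))) (δ : ℝ), 0 < δ ∧ S.HasDirichletDensity δ ∧
      S ⊆ {v : HeightOneSpectrum (𝓞 ℚ) | ∃ _ : Fact (Ideal.absNorm v.asIdeal).Prime,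
        ¬ IsAddCyclic (W.map (Int.castRingHom
          (ZMod (Ideal.absNorm v.asIdeal)))).toAffine.Point} := by
  haveI := ratCurve_isElliptic_of_Δ hΔ
  refine ⟨_, _, ?_, density_fullAt W hΔ 2, fun v hv => ?_⟩
  · exact div_pos one_pos (Nat.cast_pos.mpr Nat.card_pos)
  · obtain ⟨hq, h⟩ := hv
    exact ⟨hq, fun hc => not_fullAt_of_isAddCyclic W le_rfl hc ⟨hq, h⟩⟩

/-- Infinitely many reductions are non-cyclic. -/
theorem infinitely_many_noncyclic_reductions (W : WeierstrassCurve ℤ) (hΔ : W.Δ ≠ 0) :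
    {q : ℕ | ∃ _ : Fact q.Prime,
      ¬ IsAddCyclic (W.map (Int.castRingHom (ZMod q))).toAffine.Point}.Infinite := by
  haveI := ratCurve_isElliptic_of_Δ hΔ
  refine (FA.TraceDist.infinite_of_density (P := fun q => FullAt W 2 q)
    (one_div_ne_zero (Nat.cast_ne_zero.mpr Nat.card_pos.ne')) (density_fullAt W hΔ 2)).mono
    fun q hq => ?_
  obtain ⟨hqp, h⟩ := hq.2
  exact ⟨hqp, fun hc => not_fullAt_of_isAddCyclic W le_rfl hc ⟨hqp, h⟩⟩

/-- **With all `N`-torsion rational no good reduction away from `N` is cyclic.** -/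
theorem noncyclicReduction_of_rational_torsion (W : WeierstrassCurve ℤ) {N : ℕ} (hN : 2 ≤ N)
    (hfull : Nat.card {P : (W.map (Int.castRingHom ℚ)).toAffine.Point // N • P = 0} = N ^ 2)
    {q : ℕ} [Fact q.Prime] (hgood : ¬ (q : ℤ) ∣ W.Δ) (hqN : ¬ q ∣ N) :
    ¬ IsAddCyclic (W.map (Int.castRingHom (ZMod q))).toAffine.Point := by
  haveI := ratCurve_isElliptic W (l := q) hgood
  haveI : NeZero N := ⟨by omega⟩
  intro hc
  obtain ⟨A, hA⟩ := FA.Deform.exists_liesOverPrime (Fact.out : q.Prime)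
  obtain ⟨σ, hσ⟩ := FA.Deform.exists_isFrobeniusAt (Fact.out : q.Prime) hA
  refine not_fullAt_of_isAddCyclic W hN hc ((fullAt_iff W Fact.out hgood hqN hA hσ).mpr
    (Units.ext ((FA.TraceDist.repLevel_eq_one_iff σ).mpr fun x hx => ?_)))
  classical
  have hcx : Nat.card {Q : FA.RT.Tate.Pts W // N • Q = 0} = N ^ 2 :=
    FA.EC.natCard_nsmul_eq_zero _ (Nat.cast_ne_zero.mpr (by omega))
  haveI : Finite {Q : FA.RT.Tate.Pts W // N • Q = 0} :=
    Nat.finite_of_card_ne_zero (by rw [hcx]; exact pow_ne_zero 2 (by omega))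
  let φ : {P : (ratCurve W).toAffine.Point // N • P = 0} → {Q : FA.RT.Tate.Pts W // N • Q = 0} :=
    fun P => ⟨FA.PointDiv.up W P.1, by rw [← map_nsmul, P.2, map_zero]⟩
  obtain ⟨P, hP⟩ := ((Nat.bijective_iff_injective_and_card φ).mpr
    ⟨fun P P' e => Subtype.ext (mapHom_injective _ _ (congrArg Subtype.val e)),
      hfull.trans hcx.symm⟩).2 ⟨x, hx⟩
  obtain rfl : FA.PointDiv.up W P.1 = x := congrArg Subtype.val hP
  exact FA.PointDiv.smul_up W σ P.1

end FA.Summary

end
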