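import Fermat.Agent.CyclicReductions.Positive
import Fermat.Agent.Root.SummaryReducedGroups

/-!
# Serre's theorem on cyclic reductions, on the Riemann hypothesis

For an integral equation with `Δ ≠ 0`, on the Riemann hypothesis for all number fields:

* `cyclicity_serre_of_GRH`: the primes `p ≤ x` not dividing `Δ` with `E(𝔽_p)` cyclic number
  `δ x / log x` asymptotically, `δ` the infimum (and limit) over `z` of the proportion, among the
  automorphisms Galois induces on all `E[q]`, `q ≤ z` prime, of those trivial on none;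
* `cyclicity_density_pos_of_GRH`: `δ > 0` iff not all `2`-torsion is rational;
* `cyclicity_infinite_iff_of_GRH`: so there are infinitely many cyclic reductions iff `E(ℚ)` has
  fewer than four points killed by `2`.

Every curve is covered, with or without complex multiplication. The hypothesis is an argument and
is never assumed.
-/

set_option autoImplicit false
set_option linter.style.haveILetI false

noncomputable section

open Finset Filter NumberField WeierstrassCurve WeierstrassCurve.Affine FA.Frob FA.EC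
  FA.CyclicRed FA.ReducedGroups
open scoped WeierstrassCurve.Affine Classical Topology

local notation "Qb" => AlgebraicClosure ℚ
local notation "GQ" => AlgebraicClosure ℚ ≃ₐ[ℚ] AlgebraicClosure ℚ

namespace FA.CyclicRed

theorem cycSet_eq (W : WeierstrassCurve ℤ) (N : ℕ) :
    ((Icc 1 N).filter fun p : ℕ => ∃ _ : Fact p.Prime, ¬ (p : ℤ) ∣ W.Δ ∧
      IsAddCyclic (W.map (Int.castRingHom (ZMod p))).toAffine.Point) = cycSet W N := by
  rw [cycSet]
  exact Finset.filter_congr fun p _ => Iff.rfl

end FA.CyclicRed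

namespace FA.Summary

/-- **Serre's theorem on cyclic reductions**, on the Riemann hypothesis. -/
theorem cyclicity_serre_of_GRH (W : WeierstrassCurve ℤ) (hΔ : W.Δ ≠ 0)
    (hGRH : ∀ (K : Type) [Field K] [NumberField K] (E : ℂ → ℂ), Differentiable ℂ E →
      (∀ s : ℂ, 1 < s.re → E s = (s - 1) * dedekindZeta K s) →
      ∀ z : ℂ, E z = 0 → 0 < z.re → z.re < 1 → z.re = 1 / 2) :
    let share : ℕ → ℝ := fun z =>
      (Nat.card {r : Set.range (fun (σ : GQ) (n : ((Icc 1 z).filter Nat.Prime : Finset ℕ))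
            (x : Submodule.torsionBy ℤ
              ((W.map (Int.castRingHom ℚ)).toAffine⁄Qb).Point ((n : ℕ) : ℤ)) =>
          Affine.Point.map σ.toAlgHom x.1) // ∀ n, r.1 n ≠ Subtype.val} : ℝ) /
        Nat.card (Set.range fun (σ : GQ) (n : ((Icc 1 z).filter Nat.Prime : Finset ℕ))
            (x : Submodule.torsionBy ℤ
              ((W.map (Int.castRingHom ℚ)).toAffine⁄Qb).Point ((n : ℕ) : ℤ)) =>
          Affine.Point.map σ.toAlgHom x.1)
    Tendsto share atTop (𝓝 (⨅ z, share z)) ∧
    Tendsto (fun N : ℕ => (((Icc 1 N).filter fun p : ℕ => ∃ _ : Fact p.Prime, ¬ (p : ℤ) ∣ W.Δ ∧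
        IsAddCyclic (W.map (Int.castRingHom (ZMod p))).toAffine.Point).card : ℝ) *
      Real.log N / N) atTop (𝓝 (⨅ z, share z)) := by
  intro share
  haveI := ratCurve_isElliptic_of_Δ hΔ
  have hone : ∀ n : ℕ, (fun x : Submodule.torsionBy ℤ ((ratCurve W).toAffine⁄Qb).Point (n : ℤ) =>
      Affine.Point.map (1 : GQ).toAlgHom x.1) = Subtype.val :=
    fun n => funext fun x => one_smul GQ x.1
  have hshare : share = avoidShare W := funext fun z => by
    have hfib : ∀ σ τ : GQ, (fun (n : levelsUpTo z) (x : Submodule.torsionBy ℤ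
          ((ratCurve W).toAffine⁄Qb).Point ((n : ℕ) : ℤ)) => Affine.Point.map σ.toAlgHom x.1) =
        (fun n x => Affine.Point.map τ.toAlgHom x.1) ↔
          levelRep W (levelsUpTo z) σ = levelRep W (levelsUpTo z) τ := fun σ τ => by
      rw [funext_iff, funext_iff]
      exact forall_congr' fun n => glLevel_eq_iff W n σ τ
    show (Nat.card {r : Set.range (fun (σ : GQ) (n : levelsUpTo z) (x : Submodule.torsionBy ℤ
          ((ratCurve W).toAffine⁄Qb).Point ((n : ℕ) : ℤ)) => Affine.Point.map σ.toAlgHom x.1) //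
          ∀ n, r.1 n ≠ Subtype.val} : ℝ) /
      Nat.card (Set.range fun (σ : GQ) (n : levelsUpTo z) (x : Submodule.torsionBy ℤ
          ((ratCurve W).toAffine⁄Qb).Point ((n : ℕ) : ℤ)) => Affine.Point.map σ.toAlgHom x.1) = _
    rw [natCard_range_subtype_congr (P := fun r => ∀ n, r n ≠ Subtype.val)
        (Q := fun g : ∀ n : levelsUpTo z, GL (Fin 2) (ZMod (n : ℕ)) => ∀ n, g n ≠ 1) hfib fun σ =>
        forall_congr' fun n => not_congr ((Iff.of_eq (congrArg (fun z => _ = z)
          (hone n).symm)).trans ((glLevel_eq_iff W n σ 1).trans (by rw [map_one]; rfl))),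
      natCard_range_congr hfib]
    rfl
  simp only [FA.CyclicRed.cycSet_eq]
  rw [hshare]
  exact ⟨tendsto_atTop_ciInf (avoidShare_antitone hΔ hGRH) bddBelow_avoidShare,
    tendsto_cycSet hΔ hGRH⟩

/-- **The density is positive iff the `2`-torsion is not all rational.** -/
theorem cyclicity_density_pos_of_GRH (W : WeierstrassCurve ℤ) (hΔ : W.Δ ≠ 0)
    (hGRH : ∀ (K : Type) [Field K] [NumberField K] (E : ℂ → ℂ), Differentiable ℂ E →
      (∀ s : ℂ, 1 < s.re → E s = (s - 1) * dedekindZeta K s) →
      ∀ z : ℂ, E z = 0 → 0 < z.re → z.re < 1 → z.re = 1 / 2) :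
    ∃ δ : ℝ, Tendsto (fun N : ℕ => (((Icc 1 N).filter fun p : ℕ => ∃ _ : Fact p.Prime,
        ¬ (p : ℤ) ∣ W.Δ ∧
          IsAddCyclic (W.map (Int.castRingHom (ZMod p))).toAffine.Point).card : ℝ) *
      Real.log N / N) atTop (𝓝 δ) ∧
      (0 < δ ↔
        Nat.card {P : (W.map (Int.castRingHom ℚ)).toAffine.Point // 2 • P = 0} ≠ 4) := by
  haveI := ratCurve_isElliptic_of_Δ hΔ
  simp only [FA.CyclicRed.cycSet_eq]
  refine ⟨cycDensity W, tendsto_cycSet hΔ hGRH, fun hpos hfull => ?_, fun h => ?_⟩
  · refine hpos.ne' (tendsto_nhds_unique (tendsto_cycSet hΔ hGRH) ?_)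
    have h0 : Tendsto (fun N : ℕ => ((FA.CyclicRed.badPrimes W).card : ℝ) * (Real.log N / N))
        atTop (𝓝 0) := by
      have := ((Real.isLittleO_log_id_atTop.tendsto_div_nhds_zero).comp
        tendsto_natCast_atTop_atTop).const_mul ((FA.CyclicRed.badPrimes W).card : ℝ)
      simpa [Function.comp_def] using this
    refine squeeze_zero (fun N => by
      have := Real.log_natCast_nonneg N
      positivity) (fun N => ?_) h0
    rw [mul_div_assoc]
    exact mul_le_mul_of_nonneg_right (Nat.cast_le.2 (card_le_card fun p hp =>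
      cycSet_subset_of_trivial hΔ (natCard_two_torsion_eq_iff.1 hfull) (mem_filter.1 hp).2))
      (div_nonneg (Real.log_natCast_nonneg N) (Nat.cast_nonneg N))
  · refine cycDensity_pos hΔ hGRH ?_
    by_contra hall
    push Not at hall
    exact h (natCard_two_torsion_eq_iff.2 hall)

/-- **Infinitely many cyclic reductions iff the `2`-torsion is not all rational.** -/
theorem cyclicity_infinite_iff_of_GRH (W : WeierstrassCurve ℤ) (hΔ : W.Δ ≠ 0)
    (hGRH : ∀ (K : Type) [Field K] [NumberField K] (E : ℂ → ℂ), Differentiable ℂ E →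
      (∀ s : ℂ, 1 < s.re → E s = (s - 1) * dedekindZeta K s) →
      ∀ z : ℂ, E z = 0 → 0 < z.re → z.re < 1 → z.re = 1 / 2) :
    {p : ℕ | ∃ _ : Fact p.Prime, ¬ (p : ℤ) ∣ W.Δ ∧
        IsAddCyclic (W.map (Int.castRingHom (ZMod p))).toAffine.Point}.Infinite ↔
      Nat.card {P : (W.map (Int.castRingHom ℚ)).toAffine.Point // 2 • P = 0} ≠ 4 := by
  haveI := ratCurve_isElliptic_of_Δ hΔ
  refine ⟨fun hinf hfull => hinf ((FA.CyclicRed.badPrimes W).finite_toSet.subset fun p hp =>
    cycSet_subset_of_trivial hΔ (natCard_two_torsion_eq_iff.1 hfull) hp), fun h => ?_⟩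
  refine infinite_cycPrime hΔ hGRH ?_
  by_contra hall
  push Not at hall
  exact h (natCard_two_torsion_eq_iff.2 hall)

end FA.Summary

end
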