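import Fermat.Agent.CycloUnitIndex.Roots

/-!
# The index of the cyclotomic units of a real abelian field

`ζ` generates `K = ℚ(ζ_N)`, `N > 1` arbitrary, `E` is a totally real subfield, `r` its unit rank,
`h` its class number; `χ` runs through the characters `≠ 1` modulo `N` trivial on the group of `E`
and `χ₀` is the primitive character of `χ`. `U` is generated by `-1` and the units
`N_{K/E}((1 - ζ^a) / (1 - ζ))`, `a` prime to `N`.

* `cyclotomic_units_index_square`: `[units : U] = 2^r h ∏_χ ∏_{q ∣ N} |1 - χ₀(q)|`, index `0`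
  standing for infinite;
* `cyclotomic_units_finiteIndex_iff`: so `U` has finite index iff no `χ₀(q)` is `1`;
* `cyclotomic_units_index`: `[units : C] = h ∏_χ ∏_{q ∣ N} |1 - χ₀(q)|`, `C` the units with square
  in `U`;
* `cyclotomic_units_index_primePow`: for `N = q^n`, any prime `q`, the index of `C` is exactly `h`,
  in particular for `ℚ(ζ_{q^n})⁺`.

Kummer and Hasse (Washington, Lemma 8.7 and Theorem 8.2). `SummaryKummerIndex` has the case of
`ℚ(ζ_p)⁺`. Sinnott's group for composite `N` and Ramachandra's units are not treated.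
Independent of S01.
-/

set_option autoImplicit false
set_option linter.unusedSectionVars false
set_option linter.style.haveILetI false

noncomputable section

open Finset NumberField
open scoped Classical

namespace FA.Summary

variable {N : ℕ} [NeZero N] {K : Type} [Field K] [NumberField K] [IsCyclotomicExtension {N} ℚ K]
  (E : IntermediateField ℚ K) [IsTotallyReal E] {ζ : K}

/-- **The index of the norms of cyclotomic units.** -/
theorem cyclotomic_units_index_square (hN : 1 < N) (hζ : IsPrimitiveRoot ζ N) :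
    ((Subgroup.closure ({-1} ∪ {u : (𝓞 E)ˣ | ∃ a : ℕ, a.Coprime N ∧
        ((u : 𝓞 E) : E) = Algebra.norm E ((1 - ζ ^ a) / (1 - ζ))})).index : ℝ) =
      2 ^ Units.rank E * classNumber E *
        ∏ χ ∈ univ.filter (fun χ : DirichletCharacter ℂ N => χ ≠ 1 ∧
          ∀ σ ∈ E.fixingSubgroup, χ (IsCyclotomicExtension.Rat.galEquivZMod N K σ) = 1),
            ∏ q ∈ N.primeFactors, ‖1 - χ.primitiveCharacter (q : ZMod χ.conductor)‖ := by
  haveI : IsAbelianGalois ℚ K := IsCyclotomicExtension.isAbelianGalois {N} ℚ K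
  haveI : IsAbelianGalois ℚ E := IsAbelianGalois.tower_bot ℚ E K
  refine Eq.trans (FA.CycloUnitIndex.index_cycSubgroup E hζ hN) ?_
  congr 1
  refine prod_congr ?_ fun χ _ => rfl
  ext χ
  simp only [mem_erase, mem_filter, mem_univ, true_and, FA.AbelianZeta.mem_fieldChars_iff]

/-- **The criterion of finite index.** -/
theorem cyclotomic_units_finiteIndex_iff (hN : 1 < N) (hζ : IsPrimitiveRoot ζ N) :
    (Subgroup.closure ({-1} ∪ {u : (𝓞 E)ˣ | ∃ a : ℕ, a.Coprime N ∧
        ((u : 𝓞 E) : E) = Algebra.norm E ((1 - ζ ^ a) / (1 - ζ))})).FiniteIndex ↔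
      ∀ χ : DirichletCharacter ℂ N, χ ≠ 1 →
        (∀ σ ∈ E.fixingSubgroup, χ (IsCyclotomicExtension.Rat.galEquivZMod N K σ) = 1) →
        ∀ q ∈ N.primeFactors, χ.primitiveCharacter (q : ZMod χ.conductor) ≠ 1 := by
  rw [Subgroup.finiteIndex_iff, ← Nat.cast_ne_zero (R := ℝ),
    cyclotomic_units_index_square E hN hζ, mul_ne_zero_iff, prod_ne_zero_iff,
    and_iff_right (mul_ne_zero (pow_ne_zero _ two_ne_zero)
      (Nat.cast_ne_zero.2 (classNumber_pos E).ne'))]
  simp only [prod_ne_zero_iff, mem_filter, mem_univ, true_and, and_imp, norm_ne_zero_iff,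
    sub_ne_zero, ne_comm (a := (1 : ℂ))]

/-- **The index of the cyclotomic units.** -/
theorem cyclotomic_units_index (hN : 1 < N) (hζ : IsPrimitiveRoot ζ N) :
    (((Subgroup.closure ({-1} ∪ {u : (𝓞 E)ˣ | ∃ a : ℕ, a.Coprime N ∧
        ((u : 𝓞 E) : E) = Algebra.norm E ((1 - ζ ^ a) / (1 - ζ))})).comap
          (powMonoidHom 2)).index : ℝ) =
      classNumber E *
        ∏ χ ∈ univ.filter (fun χ : DirichletCharacter ℂ N => χ ≠ 1 ∧
          ∀ σ ∈ E.fixingSubgroup, χ (IsCyclotomicExtension.Rat.galEquivZMod N K σ) = 1),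
            ∏ q ∈ N.primeFactors, ‖1 - χ.primitiveCharacter (q : ZMod χ.conductor)‖ := by
  haveI : IsAbelianGalois ℚ K := IsCyclotomicExtension.isAbelianGalois {N} ℚ K
  haveI : IsAbelianGalois ℚ E := IsAbelianGalois.tower_bot ℚ E K
  refine Eq.trans (FA.CycloUnitIndex.index_comap_sq E hζ hN) ?_
  congr 1
  refine prod_congr ?_ fun χ _ => rfl
  ext χ
  simp only [mem_erase, mem_filter, mem_univ, true_and, FA.AbelianZeta.mem_fieldChars_iff]

/-- **Kummer's theorem for every prime power.** -/
theorem cyclotomic_units_index_primePow (hN : 1 < N) (hζ : IsPrimitiveRoot ζ N) {q n : ℕ}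
    (hq : q.Prime) (hNq : N = q ^ n) :
    ((Subgroup.closure ({-1} ∪ {u : (𝓞 E)ˣ | ∃ a : ℕ, a.Coprime N ∧
        ((u : 𝓞 E) : E) = Algebra.norm E ((1 - ζ ^ a) / (1 - ζ))})).comap
          (powMonoidHom 2)).index = classNumber E := by
  have h := cyclotomic_units_index E hN hζ
  rw [prod_eq_one fun χ hχ => ?_, mul_one] at h
  · exact_mod_cast h
  · exact FA.CycloUnitIndex.eulerFactor_primePow hq hNq (mem_filter.1 hχ).2.1

end FA.Summary
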