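import Fermat.Agent.CyclotomicCoeff.Suzuki

/-!
# The coefficients of cyclotomic polynomials

* `suzuki_cyclotomic` (Suzuki): every integer is a coefficient of some cyclotomic polynomial, at a
  degree not above that of the polynomial;
* `migotti_cyclotomic` (Migotti): for two distinct primes `p`, `q` the coefficients of `Φ_{pq}` lie
  in `{-1, 0, 1}`.
-/

set_option autoImplicit false

noncomputable section

open Polynomial

namespace FA.Summary

/-- **Suzuki's theorem.** -/
theorem suzuki_cyclotomic (c : ℤ) : ∃ n k : ℕ, k ≤ Nat.totient n ∧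
    (cyclotomic n ℤ).coeff k = c := by
  obtain ⟨n, k, hk, h⟩ := FA.CyclotomicCoeff.suzuki c
  exact ⟨n, k, by rwa [natDegree_cyclotomic] at hk, h⟩

/-- **Migotti's theorem.** -/
theorem migotti_cyclotomic {p q : ℕ} (hp : p.Prime) (hq : q.Prime) (hne : p ≠ q) (k : ℕ) :
    |(cyclotomic (p * q) ℤ).coeff k| ≤ 1 :=
  FA.CyclotomicCoeff.migotti hp hq hne k

end FA.Summary

end
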