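import Fermat.Agent.ClassField94.PrimePowerLevels
import Fermat.Agent.Root.SummaryMasleyMontgomery
import Fermat.Agent.Root.SummaryWeber
import Fermat.Agent.Root.SummaryKummerIndex

/-!
# The theorem of Masley and Montgomery for prime power conductors, `p ≥ 23`

* `minus_class_not_capitulated`: no class of `ℚ(ζ_p)` inverted by conjugation becomes principal in `ℚ(ζ_(p^(n+1)))`.
* `classNumber_primePower_ne_one`, `not_uniqueFactorization_primePower`, `not_isPrincipalIdealRing_primePower`:
  for every prime `p ≥ 23` and every `n` the ring `ℤ[ζ_(p^(n+1))]` has class number above one and no unique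
  factorisation.
* `dvd_classNumber_primePower_iff`: given `p ∤ h⁺`, `p` divides `h(ℚ(ζ_(p^(n+1))))` iff it divides `h(ℚ(ζ_p))`;
  `dvd_classNumber_primePower_iff_lt_157`: below `157` exactly for `37, 59, 67, 101, 103, 131, 149`.

Classical (Iwasawa, Masley–Montgomery); no class field theory; independent of S01.
-/

set_option autoImplicit false

noncomputable section

open NumberField

namespace FA.Summary

variable {p : ℕ} [Fact p.Prime]

/-- **No minus class capitulates in the tower.** -/
theorem minus_class_not_capitulated (hp2 : p ≠ 2) (n : ℕ) {K L : Type} [Field K] [NumberField K] [IsCMField K]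
    [IsCyclotomicExtension {p} ℚ K] [Field L] [NumberField L] [IsCMField L] [IsCyclotomicExtension {p ^ (n + 1)} ℚ L]
    [Algebra K L] {x : ClassGroup (𝓞 K)} (hminus : FA.ClassField94.conjClass K x = x⁻¹)
    (hx : ClassGroup.extendedHom (𝓞 K) (𝓞 L) x = 1) : x = 1 :=
  FA.ClassField94.minus_injective (p := p) n hp2 hminus hx

/-- Some class of `ℚ(ζ_p)`, `p ≥ 23`, has order prime to `p` or is inverted by conjugation. -/
theorem exists_rigid_class (K : Type) [Field K] [NumberField K] [IsCMField K] [IsCyclotomicExtension {p} ℚ K]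
    (h23 : 23 ≤ p) :
    ∃ x : ClassGroup (𝓞 K), x ≠ 1 ∧ (¬ p ∣ orderOf x ∨ FA.ClassField94.conjClass K x = x⁻¹) := by
  by_contra! hno
  have hp : p.Prime := Fact.out
  have hodd := hp.eq_two_or_odd
  have hfix : ∀ x : ClassGroup (𝓞 K), FA.ClassField94.conjClass K x = x := fun x => by
    by_contra hne
    refine (hno (x / FA.ClassField94.conjClass K x) (fun h => hne (div_eq_one.mp h).symm)).2 ?_
    rw [map_div, FA.ClassField94.conjClass_conjClass, inv_div]
  have hpord : ∀ x : ClassGroup (𝓞 K), x ≠ 1 → p ∣ orderOf x := fun x hx => (hno x hx).1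
  have hsurj : Function.Surjective (ClassGroup.extendedHom (𝓞 (maximalRealSubfield K)) (𝓞 K)) := by
    intro x
    have hcop : Nat.Coprime (Nat.card (ClassGroup (𝓞 K))) 2 := by
      refine Nat.Coprime.symm (Nat.prime_two.coprime_iff_not_dvd.mpr fun h => ?_)
      obtain ⟨y, hy⟩ := exists_prime_orderOf_dvd_card' 2 h
      have hd := hpord y fun e => by rw [e, orderOf_one] at hy; omega
      rw [hy, Nat.prime_dvd_prime_iff_eq hp Nat.prime_two] at hd
      omega
    obtain ⟨w, rfl⟩ := (powCoprime hcop).surjective x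
    obtain ⟨z, hz⟩ := FA.ClassField94.mul_conjClass_mem_range K w
    exact ⟨z, by rw [hz, hfix, powCoprime_apply, pow_two]⟩
  have hdvd : classNumber K ∣ classNumber (maximalRealSubfield K) := by
    rw [classNumber, classNumber, ← Nat.card_eq_fintype_card, ← Nat.card_eq_fintype_card]
    exact Subgroup.card_dvd_of_surjective _ hsurj
  rcases Nat.lt_or_ge p 197 with h197 | h197
  · by_cases h37 : p = 37
    · subst h37
      have h1 := (kummer_criterion_lt_hundred_iff 37 K (by norm_num) (by norm_num)).mpr (Or.inl rfl)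
      exact not_dvd_classNumber_real_lt_157 37 K (by norm_num) (by norm_num) (h1.trans hdvd)
    obtain ⟨m, hm⟩ : ∃ m, p = 2 * m + 1 := ⟨(p - 1) / 2, by omega⟩
    have hM := FA.CycloIndex.maillet_classNumber (p := p) K hm (by omega)
    obtain ⟨c, hc⟩ := hdvd
    rw [hc, ← mul_assoc, mul_comm _ (classNumber K), mul_assoc, mul_comm (p ^ (m - 1))] at hM
    refine FA.CycloGrowth.not_dvd_pow_lt_two_hundred hm h23 (by omega) h37 (m - 1)
      (Dvd.intro c (Nat.eq_of_mul_eq_mul_left Fintype.card_pos hM))
  · exact absurd (Nat.le_of_dvd Fintype.card_pos hdvd) (classNumber_real_lt_classNumber p K h197).not_ge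

set_option backward.isDefEq.respectTransparency false in
/-- **Masley and Montgomery at prime powers**: the class number is not one. -/
theorem classNumber_primePower_ne_one (h23 : 23 ≤ p) (n : ℕ) (K : Type*) [Field K] [NumberField K]
    [IsCyclotomicExtension {p ^ (n + 1)} ℚ K] : classNumber K ≠ 1 := by
  have hp : p.Prime := Fact.out
  have : NeZero (p ^ (n + 1)) := ⟨pow_ne_zero _ hp.ne_zero⟩
  rw [classNumber_cyclotomicField (p ^ (n + 1)) K]
  set L := CyclotomicField (p ^ (n + 1)) ℚ
  have hζ := IsCyclotomicExtension.zeta_spec (p ^ (n + 1)) ℚ L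
  have hζp : IsPrimitiveRoot (IsCyclotomicExtension.zeta (p ^ (n + 1)) ℚ L ^ p ^ n) p :=
    hζ.pow (pow_pos hp.pos _) (pow_succ p n)
  set F := IntermediateField.adjoin ℚ {IsCyclotomicExtension.zeta (p ^ (n + 1)) ℚ L ^ p ^ n}
  have : IsCyclotomicExtension {p} ℚ F := hζp.intermediateField_adjoin_isCyclotomicExtension ℚ
  have : IsCMField F := IsCyclotomicExtension.Rat.isCMField F (S := {p}) ⟨p, rfl, by omega⟩
  have : IsCMField L := IsCyclotomicExtension.Rat.isCMField L (S := {p ^ (n + 1)})
    ⟨_, rfl, lt_of_lt_of_le (by omega : 2 < p) (Nat.le_self_pow n.succ_ne_zero p)⟩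
  obtain ⟨x, hx, hcase⟩ := exists_rigid_class (p := p) F h23
  intro h1
  have h2 : ClassGroup.extendedHom (𝓞 F) (𝓞 L) x = 1 :=
    (Fintype.card_le_one_iff.mp h1.le) _ _
  exact hx (hcase.elim (fun h => FA.ClassField94.coprime_injective (p := p) n h h2)
    fun h => FA.ClassField94.minus_injective (p := p) n (show p ≠ 2 by omega) h h2)

/-- **No unique factorisation at prime powers.** -/
theorem not_uniqueFactorization_primePower (h23 : 23 ≤ p) (n : ℕ) (K : Type*) [Field K] [NumberField K]
    [IsCyclotomicExtension {p ^ (n + 1)} ℚ K] : ¬ UniqueFactorizationMonoid (𝓞 K) := fun h =>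
  classNumber_primePower_ne_one h23 n K ((uniqueFactorization_iff_classNumber_eq_one K).mp h)

/-- **No principal ideal ring at prime powers.** -/
theorem not_isPrincipalIdealRing_primePower (h23 : 23 ≤ p) (n : ℕ) (K : Type*) [Field K] [NumberField K]
    [IsCyclotomicExtension {p ^ (n + 1)} ℚ K] : ¬ IsPrincipalIdealRing (𝓞 K) := fun h =>
  classNumber_primePower_ne_one h23 n K (classNumber_eq_one_iff.mpr h)

set_option backward.isDefEq.respectTransparency false in
/-- **The converse of Iwasawa's theorem**, given `p ∤ h⁺`. -/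
theorem dvd_classNumber_primePower (hp5 : 5 ≤ p) (n : ℕ) (L : Type) [Field L] [NumberField L]
    [IsCyclotomicExtension {p ^ (n + 1)} ℚ L] (K : Type) [Field K] [NumberField K] [IsCyclotomicExtension {p} ℚ K]
    [Algebra K L] (hreal : ¬ p ∣ classNumber (maximalRealSubfield K)) (h : p ∣ classNumber K) : p ∣ classNumber L := by
  have hp : p.Prime := Fact.out
  have : IsCMField K := IsCyclotomicExtension.Rat.isCMField K (S := {p}) ⟨p, rfl, by omega⟩
  have : IsCMField L := IsCyclotomicExtension.Rat.isCMField L (S := {p ^ (n + 1)})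
    ⟨_, rfl, lt_of_lt_of_le (by omega : 2 < p) (Nat.le_self_pow n.succ_ne_zero p)⟩
  obtain ⟨x, hx⟩ := exists_prime_orderOf_dvd_card p (G := ClassGroup (𝓞 K)) h
  obtain ⟨z, hz⟩ := FA.ClassField94.mul_conjClass_mem_range K x
  have hxp : x ^ p = 1 := hx ▸ pow_orderOf_eq_one x
  have hy1 : orderOf (x * FA.ClassField94.conjClass K x) ∣ p :=
    orderOf_dvd_of_pow_eq_one (by rw [mul_pow, ← map_pow, hxp, map_one, one_mul])
  have hy2 : orderOf (x * FA.ClassField94.conjClass K x) ∣ classNumber (maximalRealSubfield K) :=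
    orderOf_dvd_of_pow_eq_one (by rw [← hz, ← map_pow, classNumber, pow_card_eq_one, map_one])
  have hminus : FA.ClassField94.conjClass K x = x⁻¹ := eq_inv_of_mul_eq_one_right
    (orderOf_eq_one_iff.mp (Nat.eq_one_of_dvd_coprimes (hp.coprime_iff_not_dvd.mpr hreal) hy1 hy2))
  have hne : ClassGroup.extendedHom (𝓞 K) (𝓞 L) x ≠ 1 := fun e => by
    rw [FA.ClassField94.minus_injective (p := p) n (show p ≠ 2 by omega) hminus e, orderOf_one] at hx
    exact hp.ne_one hx.symm
  have hordL : orderOf (ClassGroup.extendedHom (𝓞 K) (𝓞 L) x) = p :=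
    orderOf_eq_prime (by rw [← map_pow, hxp, map_one]) hne
  exact hordL ▸ orderOf_dvd_card

set_option backward.isDefEq.respectTransparency false in
/-- **Every level decides at level one.** -/
theorem dvd_classNumber_primePower_iff (hp5 : 5 ≤ p) (n : ℕ) (K : Type*) [Field K] [NumberField K]
    [IsCyclotomicExtension {p ^ (n + 1)} ℚ K]
    (hreal : ∀ (F : Type) [Field F] [NumberField F] [IsCyclotomicExtension {p} ℚ F],
      ¬ p ∣ classNumber (maximalRealSubfield F)) :
    p ∣ classNumber K ↔ p ∣ classNumber (CyclotomicField p ℚ) := by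
  have hp : p.Prime := Fact.out
  have : NeZero p := ⟨hp.ne_zero⟩
  refine ⟨fun h => by_contra fun hreg => iwasawa_every_regular hreg n K h, fun h => ?_⟩
  have : NeZero (p ^ (n + 1)) := ⟨pow_ne_zero _ hp.ne_zero⟩
  rw [classNumber_cyclotomicField (p ^ (n + 1)) K]
  set L := CyclotomicField (p ^ (n + 1)) ℚ
  have hζp : IsPrimitiveRoot (IsCyclotomicExtension.zeta (p ^ (n + 1)) ℚ L ^ p ^ n) p :=
    (IsCyclotomicExtension.zeta_spec (p ^ (n + 1)) ℚ L).pow (pow_pos hp.pos _) (pow_succ p n)
  set F := IntermediateField.adjoin ℚ {IsCyclotomicExtension.zeta (p ^ (n + 1)) ℚ L ^ p ^ n}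
  have : IsCyclotomicExtension {p} ℚ F := hζp.intermediateField_adjoin_isCyclotomicExtension ℚ
  exact dvd_classNumber_primePower hp5 n L F (hreal F) (by rwa [classNumber_cyclotomicField p F])

set_option backward.isDefEq.respectTransparency false in
/-- **The seven irregular primes below `157`, at every level.** -/
theorem dvd_classNumber_primePower_iff_lt_157 (hp5 : 5 ≤ p) (h157 : p < 157) (n : ℕ) (K : Type*) [Field K]
    [NumberField K] [IsCyclotomicExtension {p ^ (n + 1)} ℚ K] :
    p ∣ classNumber K ↔ p ∈ ({37, 59, 67, 101, 103, 131, 149} : Finset ℕ) := by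
  have : NeZero p := ⟨(Fact.out : p.Prime).ne_zero⟩
  rw [dvd_classNumber_primePower_iff hp5 n K fun F _ _ _ => not_dvd_classNumber_real_lt_157 p F hp5 h157,
    kummer_criterion_iff p (CyclotomicField p ℚ) hp5]
  simp only [Finset.mem_insert, Finset.mem_singleton]
  constructor
  · rintro ⟨k, hev, hk, hkp, hB⟩
    have h := (irregular_pairs_lt_157 p k Fact.out h157 hev hk hkp).mp hB
    simp only [List.mem_cons, Prod.mk.injEq, List.not_mem_nil, or_false] at h
    omega
  · have key : ∀ q k : ℕ, p = q → Even k → 2 ≤ k → k + 3 ≤ q →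
        (q, k) ∈ [(37, 32), (59, 44), (67, 58), (101, 68), (103, 24), (131, 22), (149, 130)] →
        ∃ k, Even k ∧ 2 ≤ k ∧ k ≤ p - 3 ∧ (p : ℤ) ∣ (bernoulli k).num := fun q k hq hev h2 hk hmem =>
      ⟨k, hev, h2, by omega, (irregular_pairs_lt_157 p k Fact.out h157 hev h2 (by omega)).mpr (hq ▸ hmem)⟩
    rintro (h | h | h | h | h | h | h)
    · exact key 37 32 h (by decide) (by norm_num) (by norm_num) (by simp)
    · exact key 59 44 h (by decide) (by norm_num) (by norm_num) (by simp)
    · exact key 67 58 h (by decide) (by norm_num) (by norm_num) (by simp)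
    · exact key 101 68 h (by decide) (by norm_num) (by norm_num) (by simp)
    · exact key 103 24 h (by decide) (by norm_num) (by norm_num) (by simp)
    · exact key 131 22 h (by decide) (by norm_num) (by norm_num) (by simp)
    · exact key 149 130 h (by decide) (by norm_num) (by norm_num) (by simp)

end FA.Summary
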