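import Fermat.Agent.ClassField94.CompositeCapitulation
import Fermat.Agent.ClassField94.RelativeValuation
import Fermat.Agent.Root.SummaryMasleyPrimePower

/-!
# The class numbers of `ℚ(ζ_m)` for the multiples `m` of a prime

* `capitulation_mem_range`, `classNumber_dvd_real_mul`: for every multiple `m` of a prime `p ≥ 5` only classes
  from the real subfield of `ℚ(ζ_p)` become principal in `ℚ(ζ_m)`, so `h(ℚ(ζ_p)) ∣ h(ℚ(ζ_p)⁺) h(ℚ(ζ_m))`.
* `classNumber_multiple_ne_one`, `not_uniqueFactorization_multiple`, `prime_le_nineteen_of_classNumber_eq_one`: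
  if a prime `p ≥ 23` divides `m`, the ring `ℤ[ζ_m]` has no unique factorisation.
* `irregular_dvd_classNumber_multiple`, `dvd_classNumber_primePower_iff_bernoulli`: an irregular `p` divides the
  class number of `ℚ(ζ_m)` for every multiple `m`; so `p ∣ h(ℚ(ζ_(p^(n+1))))` iff `p` is irregular, without any
  hypothesis on `h⁺`.

Classical (Iwasawa, Masley–Montgomery); no class field theory; independent of S01.
-/

set_option autoImplicit false

noncomputable section

open NumberField

namespace FA.Summary

variable {p : ℕ} [Fact p.Prime]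

/-- **Only classes from the real subfield become principal.** -/
theorem capitulation_mem_range (h5 : 5 ≤ p) {K L : Type} [Field K] [NumberField K] [IsCMField K]
    [IsCyclotomicExtension {p} ℚ K] [Field L] [NumberField L] [IsCMField L] (m : ℕ) [NeZero m]
    [IsCyclotomicExtension {m} ℚ L] (hpm : p ∣ m) [Algebra K L] {x : ClassGroup (𝓞 K)}
    (hx : ClassGroup.extendedHom (𝓞 K) (𝓞 L) x = 1) :
    x ∈ (ClassGroup.extendedHom (𝓞 (maximalRealSubfield K)) (𝓞 K)).range :=
  have : IsGalois ℚ L := IsCyclotomicExtension.isGalois {m} ℚ L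
  have : IsGalois K L := IsGalois.tower_top_of_isGalois ℚ K L
  FA.ClassField94.mem_range_of_capitulation (p := p) hpm h5 hx

/-- **The relative class number divides every `h(ℚ(ζ_m))`.** -/
theorem classNumber_dvd_real_mul (h5 : 5 ≤ p) {K L : Type} [Field K] [NumberField K] [IsCMField K]
    [IsCyclotomicExtension {p} ℚ K] [Field L] [NumberField L] [IsCMField L] (m : ℕ) [NeZero m]
    [IsCyclotomicExtension {m} ℚ L] (hpm : p ∣ m) [Algebra K L] :
    classNumber K ∣ classNumber (maximalRealSubfield K) * classNumber L := by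
  set f := ClassGroup.extendedHom (𝓞 K) (𝓞 L)
  set r := ClassGroup.extendedHom (𝓞 (maximalRealSubfield K)) (𝓞 K)
  simp only [classNumber, ← Nat.card_eq_fintype_card]
  rw [← Subgroup.card_mul_index f.ker, Subgroup.index_ker]
  exact mul_dvd_mul ((Subgroup.card_dvd_of_le fun x hx => capitulation_mem_range h5 m hpm hx).trans
    (Subgroup.card_range_dvd r)) (Subgroup.card_subgroup_dvd_card f.range)

set_option backward.isDefEq.respectTransparency false in
/-- The same with the field of level `p` inside. -/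
theorem exists_prime_level (h5 : 5 ≤ p) (m : ℕ) [NeZero m] (hpm : p ∣ m) (L : Type*) [Field L] [NumberField L]
    [IsCyclotomicExtension {m} ℚ L] :
    ∃ (F : Type) (_ : Field F) (_ : NumberField F), IsCyclotomicExtension {p} ℚ F ∧
      classNumber F ∣ classNumber (maximalRealSubfield F) * classNumber L := by
  have hp : p.Prime := Fact.out
  rw [classNumber_cyclotomicField m L]
  set M := CyclotomicField m ℚ
  have hζp : IsPrimitiveRoot (IsCyclotomicExtension.zeta m ℚ M ^ (m / p)) p :=
    (IsCyclotomicExtension.zeta_spec m ℚ M).pow (NeZero.pos m) (Nat.div_mul_cancel hpm).symm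
  set F := IntermediateField.adjoin ℚ {IsCyclotomicExtension.zeta m ℚ M ^ (m / p)}
  have : IsCyclotomicExtension {p} ℚ F := hζp.intermediateField_adjoin_isCyclotomicExtension ℚ
  have : IsCMField F := IsCyclotomicExtension.Rat.isCMField F (S := {p}) ⟨p, rfl, by omega⟩
  have : IsCMField M := IsCyclotomicExtension.Rat.isCMField M (S := {m})
    ⟨_, rfl, lt_of_lt_of_le (by omega : 2 < p) (Nat.le_of_dvd (NeZero.pos m) hpm)⟩
  exact ⟨F, inferInstance, inferInstance, ‹_›, classNumber_dvd_real_mul h5 m hpm⟩

/-- For `p ≥ 23` the class number does not divide `h⁺`. -/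
theorem not_classNumber_dvd_real (h23 : 23 ≤ p) (K : Type*) [Field K] [NumberField K]
    [IsCyclotomicExtension {p} ℚ K] : ¬ classNumber K ∣ classNumber (maximalRealSubfield K) := by
  intro hdvd
  have hodd := (Fact.out : p.Prime).eq_two_or_odd
  rcases Nat.lt_or_ge p 197 with h197 | h197
  · by_cases h37 : p = 37
    · subst h37
      have h1 := (kummer_criterion_lt_hundred_iff 37 K (by norm_num) (by norm_num)).mpr (Or.inl rfl)
      exact not_dvd_classNumber_real_lt_157 37 K (by norm_num) (by norm_num) (h1.trans hdvd)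
    obtain ⟨k, hk⟩ : ∃ k, p = 2 * k + 1 := ⟨(p - 1) / 2, by omega⟩
    have hM := FA.CycloIndex.maillet_classNumber (p := p) K hk (by omega)
    obtain ⟨c, hc⟩ := hdvd
    rw [hc, ← mul_assoc, mul_comm _ (classNumber K), mul_assoc, mul_comm (p ^ (k - 1))] at hM
    exact FA.CycloGrowth.not_dvd_pow_lt_two_hundred hk h23 (by omega) h37 (k - 1)
      (Dvd.intro c (Nat.eq_of_mul_eq_mul_left Fintype.card_pos hM))
  · exact absurd (Nat.le_of_dvd Fintype.card_pos hdvd) (classNumber_real_lt_classNumber p K h197).not_ge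

/-- **Masley and Montgomery for every conductor divisible by a prime `p ≥ 23`.** -/
theorem classNumber_multiple_ne_one (h23 : 23 ≤ p) (m : ℕ) [NeZero m] (hpm : p ∣ m) (L : Type*) [Field L]
    [NumberField L] [IsCyclotomicExtension {m} ℚ L] : classNumber L ≠ 1 := by
  intro h1
  obtain ⟨F, _, _, hF, hdvd⟩ := exists_prime_level (p := p) (by omega) m hpm L
  rw [h1, mul_one] at hdvd
  exact not_classNumber_dvd_real h23 F hdvd

/-- **No unique factorisation.** -/
theorem not_uniqueFactorization_multiple (h23 : 23 ≤ p) (m : ℕ) [NeZero m] (hpm : p ∣ m) (L : Type*) [Field L]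
    [NumberField L] [IsCyclotomicExtension {m} ℚ L] : ¬ UniqueFactorizationMonoid (𝓞 L) := fun h =>
  classNumber_multiple_ne_one h23 m hpm L ((uniqueFactorization_iff_classNumber_eq_one L).mp h)

/-- **No principal ideal ring.** -/
theorem not_isPrincipalIdealRing_multiple (h23 : 23 ≤ p) (m : ℕ) [NeZero m] (hpm : p ∣ m) (L : Type*) [Field L]
    [NumberField L] [IsCyclotomicExtension {m} ℚ L] : ¬ IsPrincipalIdealRing (𝓞 L) := fun h =>
  classNumber_multiple_ne_one h23 m hpm L (classNumber_eq_one_iff.mpr h)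

omit [Fact p.Prime] in
/-- **Class number one forces small primes.** -/
theorem prime_le_nineteen_of_classNumber_eq_one {q : ℕ} (hq : q.Prime) (m : ℕ) [NeZero m] (hqm : q ∣ m)
    (L : Type*) [Field L] [NumberField L] [IsCyclotomicExtension {m} ℚ L] (h : classNumber L = 1) : q ≤ 19 := by
  by_contra! h19
  have : Fact q.Prime := ⟨hq⟩
  refine classNumber_multiple_ne_one (p := q) ?_ m hqm L h
  by_contra! h23
  interval_cases q <;> norm_num at hq

/-- **An irregular prime divides the class number at every multiple.** -/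
theorem irregular_dvd_classNumber_multiple (h5 : 5 ≤ p)
    (hirr : ∃ k, Even k ∧ 2 ≤ k ∧ k ≤ p - 3 ∧ (p : ℤ) ∣ (bernoulli k).num) (m : ℕ) [NeZero m] (hpm : p ∣ m)
    (L : Type*) [Field L] [NumberField L] [IsCyclotomicExtension {m} ℚ L] : p ∣ classNumber L := by
  obtain ⟨F, _, _, hF, hdvd⟩ := exists_prime_level (p := p) h5 m hpm L
  obtain ⟨k, hev, hk, hkp, hB⟩ := hirr
  have : IsCMField F := IsCyclotomicExtension.Rat.isCMField F (S := {p}) ⟨p, rfl, by omega⟩
  have h0 : classNumber (maximalRealSubfield F) ≠ 0 := Fintype.card_ne_zero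
  obtain ⟨e, c, hc, hN⟩ := Nat.exists_eq_pow_mul_and_not_dvd h0 p (Fact.out : p.Prime).ne_one
  have h1 := (FA.ClassField94.pow_succ_dvd_classNumber h5 hev hk hkp hB (hN ▸ dvd_mul_right _ c)).trans hdvd
  rw [hN, pow_succ, mul_assoc] at h1
  exact ((Fact.out : p.Prime).dvd_mul.mp
    (Nat.dvd_of_mul_dvd_mul_left (pow_pos (Fact.out : p.Prime).pos e) h1)).resolve_left hc

set_option backward.isDefEq.respectTransparency false in
/-- **The converse of Iwasawa's theorem, unconditionally.** -/
theorem dvd_classNumber_primePower_iff_bernoulli (h5 : 5 ≤ p) (n : ℕ) (K : Type*) [Field K] [NumberField K]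
    [IsCyclotomicExtension {p ^ (n + 1)} ℚ K] :
    p ∣ classNumber K ↔ ∃ k, Even k ∧ 2 ≤ k ∧ k ≤ p - 3 ∧ (p : ℤ) ∣ (bernoulli k).num := by
  have hp : p.Prime := Fact.out
  have : NeZero p := ⟨hp.ne_zero⟩
  have : NeZero (p ^ (n + 1)) := ⟨pow_ne_zero _ hp.ne_zero⟩
  refine ⟨fun h => (kummer_criterion_iff p (CyclotomicField p ℚ) h5).mp
    (by_contra fun hreg => iwasawa_every_regular hreg n K h), fun h => ?_⟩
  exact irregular_dvd_classNumber_multiple h5 h (p ^ (n + 1)) (dvd_pow_self p n.succ_ne_zero) K

set_option backward.isDefEq.respectTransparency false in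
omit [Fact p.Prime] in
/-- **Infinitely many primes divide the class number at all their multiples.** -/
theorem infinite_dvd_classNumber_multiples :
    {q : ℕ | q.Prime ∧ ∀ (m : ℕ) [NeZero m], q ∣ m → q ∣ classNumber (CyclotomicField m ℚ)}.Infinite := by
  refine (infinite_irregular_primes.sdiff (Set.finite_le_nat 4)).mono fun q hq => ?_
  obtain ⟨⟨hq, hB⟩, h4⟩ := hq
  have : Fact q.Prime := ⟨hq⟩
  exact ⟨hq, fun m _ hqm => irregular_dvd_classNumber_multiple (Nat.lt_of_not_ge h4) hB m hqm _⟩

end FA.Summary
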