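import Fermat.Agent.CyclotomicResultant.Main
import Fermat.Agent.CyclotomicResultant.Touchard

/-!
# Resultants of cyclotomic polynomials and Touchard's congruence
-/

set_option autoImplicit false

open Polynomial

namespace FA.Summary

/-- **E. Lehmer, Apostol**: `res (Φ n, Φ m) = p ^ φ n` when `m = n p ^ k` with `k ≥ 1`. -/
theorem cyclotomic_resultant_prime_power {m n p k : ℕ} (hp : p.Prime) (hk : 0 < k) (hn : 0 < n)
    (hm : m = n * p ^ k) :
    resultant (cyclotomic n ℤ) (cyclotomic m ℤ) = (p : ℤ) ^ n.totient :=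
  CyclotomicResultant.resultant_eq hp hk hn hm

/-- **E. Lehmer, Apostol**: otherwise the resultant of `Φ n` and `Φ m`, `n < m`, is `1`. -/
theorem cyclotomic_resultant_one {m n : ℕ} (hn : 0 < n) (hnm : n < m)
    (h : ∀ p k : ℕ, p.Prime → m ≠ n * p ^ k) :
    resultant (cyclotomic n ℤ) (cyclotomic m ℤ) = 1 :=
  CyclotomicResultant.resultant_eq_one hn hnm h

/-- **Touchard**: `B (n + p) ≡ B n + B (n + 1) (mod p)` for the Bell numbers. -/
theorem touchard_congruence (p : ℕ) [Fact p.Prime] (n : ℕ) :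
    Nat.bell (n + p) ≡ Nat.bell n + Nat.bell (n + 1) [MOD p] :=
  Touchard.touchard p n

end FA.Summary
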