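import Fermat.Agent.CyclotomicSquares.TwoCos
import Fermat.Agent.CyclotomicSquares.Characters
import Mathlib.NumberTheory.NumberField.Cyclotomic.Basic

/-!
# Cassels's mean square, Kronecker's interval theorem, zeros of characters

* `cassels_mean_square`: an algebraic integer `x` of `ℚ(ζ_n)`, neither zero nor a root of unity,
  has `∑ |ψ x| ^ 2 ≥ (3 / 2) φ(n)` over the embeddings (Cassels), from Siegel's trace theorem;
* `cassels_mean_square_abelian`: the same in every abelian number field; `cassels_house`: so some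
  conjugate has absolute value at least `√(3 / 2)`;
* `kronecker_two_cos`: an algebraic integer with all conjugates in `[-2, 2]` is `2 cos (2 π q)`,
  `q` rational (Kronecker);
* `burnside_zero`: an irreducible complex character of degree `> 1` of a finite group has a zero;
* `thompson_zero_or_root`: an irreducible character is zero or a root of unity at more than a third
  of the elements (J. G. Thompson).

Gallagher's version for classes and the classification of small houses are not claimed.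
Independent of S01.
-/

set_option autoImplicit false

noncomputable section

namespace FA.CyclotomicSquares.Summary

open Polynomial Module Finset Real

/-- **Cassels.** -/
theorem cassels_mean_square (n : ℕ) [NeZero n] (K : Type*) [Field K] [NumberField K]
    [IsCyclotomicExtension {n} ℚ K] {x : K} (hx : IsIntegral ℤ x) (hx0 : x ≠ 0)
    (hroot : ∀ m : ℕ, 0 < m → x ^ m ≠ 1) :
    3 / 2 * (n.totient : ℝ) ≤ ∑ ψ : K →ₐ[ℚ] ℂ, ‖ψ x‖ ^ 2 := by
  have : IsAbelianGalois ℚ K := IsCyclotomicExtension.isAbelianGalois {n} ℚ K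
  obtain ⟨c, hc⟩ := exists_conjugation K
  rw [← IsCyclotomicExtension.finrank (n := n) K (cyclotomic.irreducible_rat (NeZero.pos n))]
  exact mean_square c hc hx hx0 hroot

/-- **Cassels in abelian fields.** -/
theorem cassels_mean_square_abelian (K : Type*) [Field K] [NumberField K] [IsAbelianGalois ℚ K]
    {x : K} (hx : IsIntegral ℤ x) (hx0 : x ≠ 0) (hroot : ∀ m : ℕ, 0 < m → x ^ m ≠ 1) :
    3 / 2 * (finrank ℚ K : ℝ) ≤ ∑ ψ : K →ₐ[ℚ] ℂ, ‖ψ x‖ ^ 2 := by
  obtain ⟨c, hc⟩ := exists_conjugation K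
  exact mean_square c hc hx hx0 hroot

/-- **The house.** -/
theorem cassels_house (K : Type*) [Field K] [NumberField K] [IsAbelianGalois ℚ K]
    {x : K} (hx : IsIntegral ℤ x) (hx0 : x ≠ 0) (hroot : ∀ m : ℕ, 0 < m → x ^ m ≠ 1) :
    ∃ ψ : K →ₐ[ℚ] ℂ, √(3 / 2) ≤ ‖ψ x‖ := by
  by_contra! h
  have hne : (Finset.univ : Finset (K →ₐ[ℚ] ℂ)).Nonempty := ⟨IsAlgClosed.lift, mem_univ _⟩
  have h1 : ∑ ψ : K →ₐ[ℚ] ℂ, ‖ψ x‖ ^ 2 < ∑ _ψ : K →ₐ[ℚ] ℂ, (3 / 2 : ℝ) :=
    sum_lt_sum_of_nonempty hne fun ψ _ => by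
      have h2 := pow_lt_pow_left₀ (h ψ) (norm_nonneg _) two_ne_zero
      rwa [Real.sq_sqrt (by norm_num)] at h2
  rw [sum_const, card_univ, AlgHom.card ℚ K ℂ, nsmul_eq_mul] at h1
  linarith [cassels_mean_square_abelian K hx hx0 hroot]

/-- **Kronecker's theorem on `[-2, 2]`.** -/
theorem kronecker_two_cos {x : ℂ} (hx : IsIntegral ℤ x)
    (h : ∀ z ∈ (minpoly ℤ x).aroots ℂ, z.im = 0 ∧ |z.re| ≤ 2) :
    ∃ q : ℚ, x = 2 * Real.cos (2 * π * q) :=
  exists_two_cos (minpoly.monic hx) h
    (mem_aroots.2 ⟨(minpoly.monic hx).ne_zero, minpoly.aeval ℤ x⟩)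

variable {G : Type*} [Group G] [Fintype G] {V : Type*} [AddCommGroup V] [Module ℂ V]
  [FiniteDimensional ℂ V] (ρ : Representation ℂ G V) [Representation.IsIrreducible ρ]

/-- **Burnside: zeros of characters.** -/
theorem burnside_zero (hdim : 1 < finrank ℂ V) : ∃ g, ρ.character g = 0 :=
  exists_zero (FA.CharacterTheory.character_mem_irr ρ) (by
    rw [Representation.char_one, Ne, Nat.cast_eq_one]
    omega)

open scoped Classical in
/-- **Thompson's theorem.** -/
theorem thompson_zero_or_root :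
    Nat.card G <
      3 * #(univ.filter fun g => ρ.character g = 0 ∨ ∃ m : ℕ, 0 < m ∧ ρ.character g ^ m = 1) :=
  card_lt_three_mul (FA.CharacterTheory.character_mem_irr ρ)

end FA.CyclotomicSquares.Summary

end
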