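import Fermat.Agent.Damerell.Curve
import Fermat.Agent.DeuringCM.AllFields

/-!
# Damerell's theorem

* `lattice_sums_torsion_algebraic`: for a lattice with algebraic `g₂` and `g₃`, every `r ≥ 3` and
  every point `x` of finite order modulo the lattice the sum over the `l ≠ x` of the lattice of
  `(l - x) ^ (-r)` is algebraic; in particular every `G_r` is.
* `damerell`: let `K` be imaginary quadratic, `e` an embedding, `k ≥ 3` and `f` a character of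
  infinity type `k` at `e`, so `f ((x)) = e x ^ k` for `x ≡ 1` modulo the conductor and the terms of
  `L (f, k)` on principal ideals are `ē x ^ (-k)` up to a periodic factor. Then `L (f, k)` is an
  algebraic number that is not `0` times `(π Ω) ^ k`, `Ω` the period of Chowla and Selberg, so it is
  transcendental. `hecke_characters_exist`: such `f` exist for every `k`, modulo `3`.
* `damerell_cm_curve`: for a curve over an imaginary quadratic field with multiplication by that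
  field, Deuring's character `f` and every nonzero period `l`, `L (f ^ k, k)` is an algebraic number
  that is not `0` times `l ^ k`; `damerell_gaussian`: in particular for `y² = x³ + a x` over `ℚ(i)`.
-/

set_option autoImplicit false
set_option linter.style.haveILetI false

noncomputable section

open NumberField Module WeierstrassCurve IsDedekindDomain
open FA.AlgHecke (IsAlgChar)
open FA.TraceNF (frobTrace)
open scoped WeierstrassCurve.Affine Real nonZeroDivisors Classical ComplexConjugate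

namespace FA.Root.DamerellSummary

/-- **The Eisenstein sums at the torsion points are algebraic.** -/
theorem lattice_sums_torsion_algebraic (L : PeriodPair) (h₂ : IsAlgebraic ℚ L.g₂)
    (h₃ : IsAlgebraic ℚ L.g₃) {r : ℕ} (hr : 3 ≤ r) :
    IsAlgebraic ℚ (L.G r) ∧ ∀ (x : ℂ) (n : ℕ), n ≠ 0 → (n : ℂ) * x ∈ L.lattice →
      IsAlgebraic ℚ (∑' l : L.lattice, (((l : ℂ) - x) ^ r)⁻¹) :=
  ⟨FA.Damerell.isAlgebraic_G L h₂ h₃ hr,
    fun _ _ hn hx => FA.Damerell.isAlgebraic_sumInvPow L h₂ h₃ hn hx hr⟩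

/-- **Characters of every type exist.** -/
theorem hecke_characters_exist (K : Type*) [Field K] [NumberField K] [IsTotallyComplex K]
    (hK : finrank ℚ K = 2) (e : K →+* ℂ) (k : ℕ) :
    ∃ f : Ideal (𝓞 K) →* ℂ, IsAlgChar (Ideal.span {(3 : 𝓞 K)})
      (fun σ => if σ = e then (k : ℤ) else 0) f :=
  FA.Damerell.exists_char hK e k

/-- **Damerell's theorem.** -/
theorem damerell (K : Type*) [Field K] [NumberField K] [IsTotallyComplex K]
    (hK : finrank ℚ K = 2) :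
    haveI : NeZero (discr K).natAbs := ⟨Int.natAbs_ne_zero.mpr (discr_ne_zero K)⟩
    ∃ χ : DirichletCharacter ℂ (discr K).natAbs, χ.IsPrimitive ∧ χ ^ 2 = 1 ∧ χ.Odd ∧
      (∀ z : ℂ, 1 < z.re →
        dedekindZeta K z = riemannZeta z * DirichletCharacter.LFunction χ z) ∧
      letI Ω : ℂ := (((√π)⁻¹ * ∏ a : ZMod (discr K).natAbs,
        Real.Gamma ((a.val : ℝ) / (discr K).natAbs) ^
          ((Units.torsionOrder K : ℝ) * (χ a).re / (4 * classNumber K)) : ℝ) : ℂ)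
      Transcendental ℚ ((π : ℂ) * Ω) ∧
      ∀ (e : K →+* ℂ) (k : ℕ), 3 ≤ k → ∀ (𝔣 : Ideal (𝓞 K)) (f : Ideal (𝓞 K) →* ℂ),
        IsAlgChar 𝔣 (fun σ => if σ = e then (k : ℤ) else 0) f →
        ∃ A : ℂ, IsAlgebraic ℚ A ∧ A ≠ 0 ∧
          HasSum (fun I : (Ideal (𝓞 K))⁰ => f I.1 * ((Ideal.absNorm I.1 : ℕ) : ℂ) ^ (-(k : ℂ)))
            (A * ((π : ℂ) * Ω) ^ k) ∧
          Transcendental ℚ (A * ((π : ℂ) * Ω) ^ k) := by
  obtain ⟨χ, h1, h2, h3, h4, -, h6⟩ := FA.Summary.chowla_selberg_periods K hK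
  obtain ⟨σ⟩ : Nonempty (K →+* ℂ) := inferInstance
  obtain ⟨τ, -, hτ, -⟩ := FA.Damerell.exists_integer_lattice hK σ
  obtain ⟨hΩ, hmain, -⟩ := h6 σ
  obtain ⟨-, hE4, hE6, -⟩ := hmain τ hτ
  obtain ⟨g₂a, g₃a⟩ := FA.Damerell.isAlgebraic_scaled_invariants hΩ hE4 hE6
  have htr := FA.SchneiderLang.transcendental_period g₂a g₃a
    (FA.JInj.mem_scalePair.2 ⟨1, FA.Mazur.Wp.mem_latPair.2 ⟨0, 1, by simp⟩, mul_one _⟩)
    (mul_ne_zero (Complex.ofReal_ne_zero.2 Real.pi_ne_zero) hΩ)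
  refine ⟨χ, h1, h2, h3, h4, htr, fun e k hk 𝔣 f hf => ?_⟩
  obtain ⟨τ', φ, hτ', hφ⟩ :=
    FA.Damerell.exists_integer_lattice hK (ComplexEmbedding.conjugate e)
  obtain ⟨-, hmain', -⟩ := h6 (ComplexEmbedding.conjugate e)
  obtain ⟨-, hE4', hE6', -⟩ := hmain' τ' hτ'
  obtain ⟨g₂b, g₃b⟩ := FA.Damerell.isAlgebraic_scaled_invariants hΩ hE4' hE6'
  obtain ⟨A, hA, hA0, hS⟩ := FA.Damerell.damerell hK hk hf φ hφ _ g₂b g₃b
  exact ⟨A, hA, hA0, hS.congr_fun fun I => (FA.Damerell.term_eq_cpow f I.1).symm,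
    FA.Damerell.transcendental_mul_pow hA hA0 htr (by omega)⟩

/-- **Damerell's theorem for curves with complex multiplication.** -/
theorem damerell_cm_curve {F : Type} [Field F] [NumberField F] [IsTotallyComplex F]
    (W₀ : WeierstrassCurve (𝓞 F)) [(W₀.map (algebraMap (𝓞 F) F)).IsElliptic]
    (hK : finrank ℚ F = 2) (ψ : F →+* ℂ) {d : ℤ} (hd : Squarefree d) (hd0 : d < 0) {s : F}
    (hs : s ^ 2 = (d : F)) (L : PeriodPair)
    (h₂ : L.g₂ = ψ (W₀.map (algebraMap (𝓞 F) F)).c₄ / 12)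
    (h₃ : L.g₃ = ψ (W₀.map (algebraMap (𝓞 F) F)).c₆ / 216)
    (hcm : ∃ ω : ℂ, (∀ m : ℤ, ω ≠ m) ∧ (∀ l ∈ L.lattice, ω * l ∈ L.lattice) ∧
        ∃ x y : ℚ, (ω - (x : ℂ)) ^ 2 = (d : ℂ) * (y : ℂ) ^ 2) :
    ∃ (𝔣 : Ideal (𝓞 F)) (f : Ideal (𝓞 F) →* ℂ),
      IsAlgChar 𝔣 (fun σ => if σ = ψ then 1 else 0) f ∧
      (∀ v : HeightOneSpectrum (𝓞 F), W₀.Δ ∉ v.asIdeal →
        f v.asIdeal + conj (f v.asIdeal) = frobTrace W₀ v ∧
        f v.asIdeal * conj (f v.asIdeal) = (Ideal.absNorm v.asIdeal : ℂ)) ∧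
      ∀ (k : ℕ), 3 ≤ k → ∀ l ∈ L.lattice, l ≠ 0 → ∃ A : ℂ, IsAlgebraic ℚ A ∧ A ≠ 0 ∧
        HasSum (fun I : (Ideal (𝓞 F))⁰ =>
          f I.1 ^ k * ((Ideal.absNorm I.1 : ℕ) : ℂ) ^ (-(k : ℂ))) (A * l ^ k) ∧
        Transcendental ℚ (A * l ^ k) :=
  FA.Damerell.damerell_curve W₀ hK ψ hd hd0 hs L h₂ h₃ hcm

/-- **The curves `y² = x³ + a x` over `ℚ(i)`.** -/
theorem damerell_gaussian {F : Type} [Field F] [NumberField F] [IsTotallyComplex F]
    (hK : finrank ℚ F = 2) {i : F} (hi : i ^ 2 = -1) {a : 𝓞 F} (ha : a ≠ 0) :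
    ∃ (ψ : F →+* ℂ) (L : PeriodPair) (f : Ideal (𝓞 F) →* ℂ),
      L.g₂ = ψ ((⟨0, 0, 0, a, 0⟩ : WeierstrassCurve (𝓞 F)).map (algebraMap (𝓞 F) F)).c₄ / 12 ∧
      L.g₃ = ψ ((⟨0, 0, 0, a, 0⟩ : WeierstrassCurve (𝓞 F)).map (algebraMap (𝓞 F) F)).c₆ / 216 ∧
      (∀ v : HeightOneSpectrum (𝓞 F),
        (⟨0, 0, 0, a, 0⟩ : WeierstrassCurve (𝓞 F)).Δ ∉ v.asIdeal →
        f v.asIdeal + conj (f v.asIdeal) =
          frobTrace (⟨0, 0, 0, a, 0⟩ : WeierstrassCurve (𝓞 F)) v) ∧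
      ∀ (k : ℕ), 3 ≤ k → ∀ l ∈ L.lattice, l ≠ 0 → ∃ A : ℂ, IsAlgebraic ℚ A ∧ A ≠ 0 ∧
        HasSum (fun I : (Ideal (𝓞 F))⁰ =>
          f I.1 ^ k * ((Ideal.absNorm I.1 : ℕ) : ℂ) ^ (-(k : ℂ))) (A * l ^ k) ∧
        Transcendental ℚ (A * l ^ k) := by
  obtain ⟨hell, ψ, L, h₂, h₃, hω⟩ := FA.DeuringCM.gaussian_cm ha
  haveI := hell
  obtain ⟨-, f, -, hv, hsum⟩ := damerell_cm_curve _ hK ψ (d := -1) (by simp) (by norm_num) (s := i)
    (by rw [hi]; simp) L h₂ h₃ hω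
  exact ⟨ψ, L, f, h₂, h₃, fun v h => (hv v h).1, hsum⟩

end FA.Root.DamerellSummary

end
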