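import Fermat.Agent.Dani.Correspondence
import Fermat.Agent.SchmidtGames.Dimension

/-!
# The Dani correspondence

For `x` in `ℝ ^ d` let `g t u x` be the matrix with rows `(exp (-t), 0, …)` and
`exp (t / d) (x i, e i)`. A set of unimodular lattices is bounded if it lies in a compact set of
matrices of determinant `±1` times `GL (d + 1) ℤ`.
-/

set_option autoImplicit false

noncomputable section

open Matrix Filter

namespace FA.Dani.Summary

variable {d : ℕ}

/-- **Dani's correspondence, bounded trajectories.** -/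
theorem dani_bounded_iff_badly_approximable (hd : 0 < d) (x : Fin d → ℝ) :
    (∃ K : Set (Matrix (Fin (d + 1)) (Fin (d + 1)) ℝ), IsCompact K ∧ (∀ h ∈ K, |h.det| = 1) ∧
      ∀ t : ℝ, 0 ≤ t → ∃ U : GL (Fin (d + 1)) ℤ,
        (of (Fin.cons (Pi.single 0 (Real.exp (-t)))
          fun i => Real.exp (t / d) • (Fin.cons (x i) (Pi.single i 1) : Fin (d + 1) → ℝ)) :
            Matrix (Fin (d + 1)) (Fin (d + 1)) ℝ) *
          (U : Matrix (Fin (d + 1)) (Fin (d + 1)) ℤ).map (fun z : ℤ => (z : ℝ)) ∈ K) ↔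
    ∃ c : ℝ, 0 < c ∧ ∀ q : ℕ, 0 < q → ∀ p : Fin d → ℤ,
      ∃ i, c / (q : ℝ) ^ (1 / (d : ℝ)) ≤ |(q : ℝ) * x i - p i| :=
  isBoundedOrbit_iff_badVectors hd x

/-- **Dani's correspondence, divergent trajectories.** -/
theorem dani_divergent_iff_singular (hd : 0 < d) (x : Fin d → ℝ) :
    (∀ K : Set (Matrix (Fin (d + 1)) (Fin (d + 1)) ℝ), IsCompact K → (∀ h ∈ K, |h.det| = 1) →
      ∀ᶠ t : ℝ in atTop, ∀ U : GL (Fin (d + 1)) ℤ,
        (of (Fin.cons (Pi.single 0 (Real.exp (-t)))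
          fun i => Real.exp (t / d) • (Fin.cons (x i) (Pi.single i 1) : Fin (d + 1) → ℝ)) :
            Matrix (Fin (d + 1)) (Fin (d + 1)) ℝ) *
          (U : Matrix (Fin (d + 1)) (Fin (d + 1)) ℤ).map (fun z : ℤ => (z : ℝ)) ∉ K) ↔
    ∀ ε : ℝ, 0 < ε → ∀ᶠ Q : ℝ in atTop, ∃ q : ℕ, 0 < q ∧ (q : ℝ) ≤ Q ∧
      ∃ p : Fin d → ℤ, ∀ i, |(q : ℝ) * x i - p i| ≤ ε / Q ^ (1 / (d : ℝ)) :=
  isDivergentOrbit_iff_singularVectors hd x

/-- **Bounded trajectories are winning and of full dimension** (Dani, Schmidt). -/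
theorem dimH_bounded_orbits (hd : 0 < d) :
    (∀ α : ℝ, 0 < α → α ≤ 1 / 2 →
      SchmidtGames.IsWinning α {x : Fin d → ℝ | IsBoundedOrbit x}) ∧
    dimH {x : Fin d → ℝ | IsBoundedOrbit x} = d := by
  have e : {x : Fin d → ℝ | IsBoundedOrbit x} = SchmidtGames.badVectors d :=
    Set.ext fun x => isBoundedOrbit_iff_badVectors hd x
  rw [e]
  exact ⟨fun α h1 h2 => SchmidtGames.isWinning_badVectors hd h1 h2,
    SchmidtGames.dimH_of_isWinning_pi hd one_half_pos one_half_lt_one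
      (SchmidtGames.isWinning_badVectors hd one_half_pos le_rfl)⟩

end FA.Dani.Summary
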