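import Fermat.Agent.DavenportEuclidean.Field

/-!
# Davenport's bound for norm-Euclidean real quadratic fields

* `davenport_inhomogeneous`: in every real quadratic field some element is at norm distance at least
  `√discr / 2 ^ 29` from every integer; `davenport_inhomogeneous_form`: likewise for every integral
  form of positive nonsquare discriminant, at a rational point (Davenport has `√D / 128`).
* `norm_euclidean_discr_bound`: a norm-Euclidean quadratic field has discriminant below `2 ^ 58`;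
  `norm_euclidean_finite`: so `ℚ(√d)` is norm-Euclidean for finitely many squarefree `d > 1` only.
* `lacunary_avoid`: frequencies `≥ 1` with at most two in each dyadic range keep `|c β - n|` at
  least `2 ^ (-12)` for some real `β`.
-/

set_option autoImplicit false

noncomputable section

namespace FA.DavenportEuclidean.Summary

open NumberField Module FA.LenstraEuclid

theorem davenport_inhomogeneous (K : Type*) [Field K] [NumberField K] (hK : finrank ℚ K = 2)
    (hd : 0 < discr K) :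
    ∃ z : K, ∀ g : 𝓞 K, Real.sqrt (discr K) / 2 ^ 29 ≤ |((Algebra.norm ℚ (z - g) : ℚ) : ℝ)| :=
  exists_far K hK hd

theorem davenport_inhomogeneous_form (a b c : ℤ) (hpos : 0 < b ^ 2 - 4 * a * c)
    (hsq : ¬ IsSquare (b ^ 2 - 4 * a * c)) :
    ∃ x y : ℚ, ∀ u v : ℤ, Real.sqrt ((b ^ 2 - 4 * a * c : ℤ) : ℝ) / 2 ^ 29 ≤
      |(a : ℝ) * ((x : ℝ) - u) ^ 2 + b * ((x : ℝ) - u) * ((y : ℝ) - v) +
        c * ((y : ℝ) - v) ^ 2| := by
  obtain ⟨x, y, h⟩ := IndefForm.exists_inhomogeneous ⟨a, b, c, hpos, hsq⟩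
  exact ⟨x, y, fun u v => h (u, v)⟩

theorem norm_euclidean_discr_bound (K : Type*) [Field K] [NumberField K] (hK : finrank ℚ K = 2)
    (hE : IsNormEuclideanField K) : discr K < 2 ^ 58 :=
  discr_lt_of_normEuclidean K hK hE

theorem norm_euclidean_squarefree_bound (K : Type*) [Field K] [NumberField K]
    (hK : finrank ℚ K = 2) {d : ℕ} (hd : Squarefree d) (hd1 : 1 < d)
    (hs : ∃ s : K, s ^ 2 = (d : K)) (hE : IsNormEuclideanField K) : d < 2 ^ 58 :=
  sqrt_lt_of_normEuclidean K hK hd hd1 hs hE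

theorem norm_euclidean_finite : {d : ℕ | Squarefree d ∧ 1 < d ∧
    ∃ (K : Type) (_ : Field K) (_ : NumberField K),
      finrank ℚ K = 2 ∧ (∃ s : K, s ^ 2 = (d : K)) ∧ IsNormEuclideanField K}.Finite :=
  (Set.finite_lt_nat (2 ^ 58)).subset fun _ ⟨hd, hd1, K, _, _, hK, hs, hE⟩ =>
    sqrt_lt_of_normEuclidean K hK hd hd1 hs hE

theorem lacunary_avoid (C : Set ℝ) (h1 : ∀ c ∈ C, 1 ≤ c)
    (h2 : ∀ j : ℕ, ∃ x y : ℝ, ∀ c ∈ C, (2 : ℝ) ^ j ≤ c → c < 2 ^ (j + 1) → c = x ∨ c = y) :
    ∃ β : ℝ, ∀ c ∈ C, ∀ n : ℤ, 1 / 4096 ≤ |c * β - n| :=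
  exists_avoid h2 h1

end FA.DavenportEuclidean.Summary
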