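import Fermat.Agent.DavenportHasse.Zeta
import Fermat.Agent.DavenportHasse.Residue
import Fermat.Agent.PowerReciprocity.JacobiHecke

/-!
# The relation of Davenport and Hasse and the zeta functions of the Fermat curves

* `davenportHasse_gaussSum`, `davenportHasse_jacobiSum`: in the extension of degree `s` of a finite field
  `-g(χ ∘ N, ψ ∘ Tr) = (-g(χ, ψ)) ^ s` and `-J(χ ∘ N, φ ∘ N) = (-J(χ, φ)) ^ s`.
* `fermatCurve_extension_count`: for `n ∣ q - 1` the curve `x ^ n + y ^ n = z ^ n` has `q ^ s + 1 - ∑ (-J) ^ s`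
  points over `𝔽_{q ^ s}`, the sum over the `(n - 1) (n - 2)` pairs of characters.
* `fermatZeta_rational`, `fermatZeta_functionalEquation`, `fermatZeta_riemannHypothesis`: the conjectures of Weil
  for these curves: `exp (∑ N_s T ^ s / s) = ∏ (1 + J T) / ((1 - T) (1 - q T))`, the functional equation, and the
  zeros have absolute value `q ^ (-1/2)`.
* `fermatCurve_residue_extensions`: over the extension of degree `s` of the residue field at `P ∤ l` of `ℚ(ζ_l)` the
  curve `x ^ l + y ^ l = z ^ l` has `N P ^ s + 1 - ∑ J_{a,b}(P) ^ s` points: its Euler factor at `P` is the product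
  of the Euler factors of these Größencharaktere.

`fermatPoints` counts the affine points and the roots of `t ^ n = -1`, the points at infinity. Independent of S01.
-/

set_option autoImplicit false

noncomputable section

open scoped Classical

namespace FA.Summary

open FA.DavenportHasse

variable {F : Type*} [Field F] [Fintype F]

/-- **The lifting theorem of Davenport and Hasse.** -/
theorem davenportHasse_gaussSum {R : Type*} [CommRing R] [IsDomain R] (E : Type*) [Field E] [Fintype E] [Algebra F E]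
    {χ : MulChar F R} (hχ : χ ≠ 1) (ψ : AddChar F R) :
    -∑ x : E, χ (Algebra.norm F x) * ψ (Algebra.trace F E x) = (-gaussSum χ ψ) ^ Module.finrank F E :=
  neg_gaussSum_normChar χ ψ hχ

/-- **The lifting theorem for Jacobi sums.** -/
theorem davenportHasse_jacobiSum (E : Type*) [Field E] [Fintype E] [Algebra F E] {χ φ : MulChar F ℂ} (hχ : χ ≠ 1)
    (hφ : φ ≠ 1) :
    -∑ x : E, χ (Algebra.norm F x) * φ (Algebra.norm F (1 - x)) = (-jacobiSum χ φ) ^ Module.finrank F E :=
  neg_jacobiSum_normChar E hχ hφ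

/-- **The points of a Fermat curve over all extensions.** -/
theorem fermatCurve_extension_count {n : ℕ} (hn0 : 0 < n) (hn : n ∣ Fintype.card F - 1) (E : Type*) [Field E]
    [Fintype E] [Algebra F E] :
    (fermatPoints E n : ℂ) = (Fintype.card F : ℂ) ^ Module.finrank F E + 1 -
        ∑ x ∈ fermatPairs F n, (-jacobiSum x.1 x.2) ^ Module.finrank F E ∧
      (fermatPairs F n).card = (n - 1) * (n - 2) :=
  ⟨fermatPoints_extension E hn0 hn, card_fermatPairs hn⟩

open PowerSeries in
/-- **The zeta function of a Fermat curve is rational.** -/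
theorem fermatZeta_rational {n : ℕ} (hn0 : 0 < n) (hn : n ∣ Fintype.card F - 1) (p : ℕ) [Fact p.Prime] [CharP F p] :
    (exp ℂ).subst (mk fun s => match s with
        | 0 => 0
        | m + 1 => (fermatPoints (FiniteField.Extension F p (m + 1)) n : ℂ) / (m + 1)) *
      ((1 - X) * (1 - C (Fintype.card F : ℂ) * X)) =
      ∏ x ∈ fermatPairs F n, (1 + C (jacobiSum x.1 x.2) * X) :=
  exp_fermatPoints hn0 hn p (by simp [← coeff_zero_eq_constantCoeff_apply]) fun m => by rw [coeff_mk]

/-- **The functional equation** of `Z(T) = ∏ (1 + J T) / ((1 - T) (1 - q T))`, `g = (n - 1) (n - 2) / 2`. -/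
theorem fermatZeta_functionalEquation {n : ℕ} (hn : n ∣ Fintype.card F - 1) {z : ℂ} (hz : z ≠ 0) :
    (Fintype.card F : ℂ) ^ ((n - 1) * (n - 2) / 2) * z ^ ((n - 1) * (n - 2)) *
        ((∏ x ∈ fermatPairs F n, (1 + jacobiSum x.1 x.2 * (1 / (Fintype.card F * z)))) /
          ((1 - 1 / (Fintype.card F * z)) * (1 - Fintype.card F * (1 / (Fintype.card F * z))))) =
      Fintype.card F * z ^ 2 * ((∏ x ∈ fermatPairs F n, (1 + jacobiSum x.1 x.2 * z)) /
        ((1 - z) * (1 - Fintype.card F * z))) := by
  have hq : (Fintype.card F : ℂ) ≠ 0 := Nat.cast_ne_zero.mpr Fintype.card_ne_zero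
  have h := zetaNumerator_functional hn hz
  rw [zetaNumerator, zetaNumerator] at h
  rw [← h, show (1 - 1 / ((Fintype.card F : ℂ) * z)) * (1 - Fintype.card F * (1 / (Fintype.card F * z))) =
      (1 - z) * (1 - Fintype.card F * z) / (Fintype.card F * z ^ 2) by field_simp; ring, div_div_eq_mul_div]
  ring

/-- **The Riemann hypothesis**: every zero has absolute value `q ^ (-1/2)`. -/
theorem fermatZeta_riemannHypothesis {n : ℕ} {z : ℂ}
    (hz : ∏ x ∈ fermatPairs F n, (1 + jacobiSum x.1 x.2 * z) = 0) : ‖z‖ = (Real.sqrt (Fintype.card F))⁻¹ :=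
  norm_zero_zetaNumerator hz

open NumberField FA.PowerReciprocity in
/-- **The Euler factors of the Fermat curve are those of Größencharaktere.** -/
theorem fermatCurve_residue_extensions {K : Type*} [Field K] [NumberField K] (l : ℕ) [Fact l.Prime]
    [IsCyclotomicExtension {l} ℚ K] (hl2 : l ≠ 2) {P : Ideal (𝓞 K)} [P.IsMaximal] (hlP : (l : 𝓞 K) ∉ P)
    (E : Type*) [Field E] [Finite E] [Algebra (𝓞 K ⧸ P) E] :
    (fermatPoints E l : 𝓞 K) = (Ideal.absNorm P : 𝓞 K) ^ Module.finrank (𝓞 K ⧸ P) E + 1 -
      ∑ a ∈ Finset.Icc 1 (l - 1), ∑ b ∈ (Finset.Icc 1 (l - 1)).erase (l - a),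
        jacobiIdeal l a b P ^ Module.finrank (𝓞 K ⧸ P) E := by
  have hP : Prime P := Ideal.prime_of_isPrime
    (Ring.ne_bot_of_isMaximal_of_not_isField ‹P.IsMaximal› (RingOfIntegers.not_isField K)) inferInstance
  simp only [jacobiIdeal_prime hP]
  exact fermatPoints_residue hl2 hlP E

end FA.Summary
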