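import Fermat.Agent.Joint.DavenportHeilbronn

/-!
# The Davenport–Heilbronn theorem

For a primitive non-real character `χ` modulo `q`, with `ε` its root number, the Dirichlet series
`F s = ∑ (χ n + ε χ⁻¹ n) n^(-s)` continues to a function whose completion `q^(s/2) γ F` is invariant
under `s ↦ 1 - s`, as for `ζ`, and yet `F` has at least `c T` zeros with `0 < im s ≤ T` in every
strip `1/2 < σ₁ < re s < σ₂ < 1`: a functional equation alone does not give the Riemann hypothesis
(Davenport and Heilbronn, Voronin). Modulo `5` there is such a `χ`.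
-/

set_option autoImplicit false

noncomputable section

namespace FA.Joint.Summary

open Filter Complex
open DirichletCharacter (LFunction completedLFunction gammaFactor rootNumber)

/-- **A functional equation of Riemann's type with zeros off the line.** -/
theorem davenport_heilbronn {q : ℕ} [NeZero q] {χ : DirichletCharacter ℂ q} (hp : χ.IsPrimitive)
    (hχ : χ⁻¹ ≠ χ) :
    ∃ F G : ℂ → ℂ,
      (∀ s, 1 < s.re → F s = LSeries (fun n : ℕ => χ n + rootNumber χ * χ⁻¹ n) s) ∧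
      (∀ s, 0 < s.re → G s = (q : ℂ) ^ (s / 2) * gammaFactor χ s * F s) ∧
      Differentiable ℂ F ∧ (∀ s, G (1 - s) = G s) ∧
      ∀ σ₁ σ₂ : ℝ, 1 / 2 < σ₁ → σ₁ < σ₂ → σ₂ < 1 → ∃ C : ℝ, 0 < C ∧ ∀ᶠ T : ℝ in atTop,
        C * T ≤
          ({s : ℂ | σ₁ < s.re ∧ s.re < σ₂ ∧ 0 < s.im ∧ s.im ≤ T ∧ F s = 0}).ncard := by
  have h1 : χ ≠ 1 := fun h => hχ (by rw [h, inv_one])
  have h1' : χ⁻¹ ≠ 1 := fun h => h1 (inv_eq_one.1 h)
  exact ⟨selfDualComb χ, selfDualCompleted χ, fun s hs => selfDualComb_eq_LSeries χ hs,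
    fun s hs => selfDualCompleted_eq hs,
    (DirichletCharacter.differentiable_LFunction h1).add
      ((DirichletCharacter.differentiable_LFunction h1').const_mul _),
    selfDualCompleted_one_sub hp,
    fun σ₁ σ₂ a b c => exists_selfDualZeros_ge hp hχ a b c⟩

/-- **The combination modulo `5` has infinitely many zeros to the right of the line.** -/
theorem davenport_heilbronn_five :
    ∃ χ : DirichletCharacter ℂ 5, χ.IsPrimitive ∧ χ⁻¹ ≠ χ ∧
      (∀ s, selfDualCompleted χ (1 - s) = selfDualCompleted χ s) ∧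
      {s : ℂ | 1 / 2 < s.re ∧ s.re < 1 ∧
        LFunction χ s + rootNumber χ * LFunction χ⁻¹ s = 0}.Infinite := by
  obtain ⟨χ, hp, hχ⟩ := exists_complex_character_five
  refine ⟨χ, hp, hχ, selfDualCompleted_one_sub hp, fun hfin => ?_⟩
  obtain ⟨C, hC, hev⟩ := exists_selfDualZeros_ge hp hχ (σ₁ := 5 / 8) (σ₂ := 7 / 8) (by norm_num)
    (by norm_num) (by norm_num)
  obtain ⟨S, hS⟩ : ∃ S, S = {s : ℂ | 1 / 2 < s.re ∧ s.re < 1 ∧ selfDualComb χ s = 0} := ⟨_, rfl⟩
  have hSf : S.Finite := hS ▸ hfin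
  obtain ⟨T, hT, hTb⟩ := (hev.and (eventually_gt_atTop ((S.ncard : ℝ) / C))).exists
  rw [div_lt_iff₀ hC, mul_comm] at hTb
  refine absurd (hT.trans (Nat.cast_le.2 (Set.ncard_le_ncard (fun s hs => ?_) hSf))) (not_le.2 hTb)
  obtain ⟨a, b, -, -, e⟩ := hs
  rw [hS]
  exact ⟨by linarith, by linarith, e⟩

end FA.Joint.Summary
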