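import Fermat.Agent.DavenportLewis.Main

/-!
# The theorem of Davenport and Lewis on additive equations

For every prime `p` and every `k ≥ 2` a diagonal equation of degree `k` over `ℚ_p` in more than
`k ^ 2` variables has a nontrivial zero (Davenport and Lewis, 1963: Artin's conjecture for
diagonal forms), and `k ^ 2` do not suffice when `k + 1` is prime. So with more than `k (k + 1)`
variables, the range of the circle method with Vinogradov's mean value theorem, only the signs of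
the coefficients matter for integer zeros.
-/

set_option autoImplicit false

noncomputable section

namespace FA.DavenportLewis.Summary

/-- **The theorem of Davenport and Lewis.** -/
theorem davenport_lewis {p k n : ℕ} [Fact p.Prime] (hk : 2 ≤ k) (hn : k ^ 2 < n)
    (c : Fin n → ℚ_[p]) : ∃ x : Fin n → ℚ_[p], x ≠ 0 ∧ ∑ i, c i * x i ^ k = 0 :=
  exists_padic_zero_diagonal hk c (by rw [Fintype.card_fin, ← sq]; exact hn)

/-- The same as congruences: zeros modulo every power of `p` with a coordinate prime to `p`. -/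
theorem davenport_lewis_congruences {p k n : ℕ} (hp : p.Prime) (hk : 2 ≤ k) (hn : k ^ 2 < n)
    (c : Fin n → ℤ) (j : ℕ) :
    ∃ y : Fin n → ℤ, (∃ i, ¬(p : ℤ) ∣ y i) ∧ (p : ℤ) ^ j ∣ ∑ i, c i * y i ^ k := by
  have : Fact p.Prime := ⟨hp⟩
  obtain ⟨x, hx, h⟩ := davenport_lewis hk hn fun i => (c i : ℚ_[p])
  exact BirchForms.primitiveZeros_of_padic hx h j

/-- **Sharpness**: for `k + 1 = p` prime some indefinite form in `k ^ 2` variables has no
nontrivial zero in `ℚ_p`. -/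
theorem davenport_lewis_sharp {p k : ℕ} [Fact p.Prime] (hk : 2 ≤ k) (hpk : p = k + 1) :
    ∃ c : Fin (k ^ 2) → ℤ, (∀ i, c i ≠ 0) ∧ (∃ i, 0 < c i) ∧ (∃ i, c i < 0) ∧
      ¬ ∃ x : Fin (k ^ 2) → ℚ_[p], x ≠ 0 ∧ ∑ i, (c i : ℚ_[p]) * x i ^ k = 0 := by
  rw [sq]
  exact exists_blocks_no_zero hk hpk

/-- **Additive equations in more than `k (k + 1)` variables**: only the signs matter. -/
theorem diagonal_equation {k n : ℕ} (hk : 2 ≤ k) (hn : k * (k + 1) < n) {c : Fin n → ℤ}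
    (hc : ∀ i, c i ≠ 0) :
    (∃ x : Fin n → ℤ, x ≠ 0 ∧ ∑ i, c i * x i ^ k = 0) ↔
      Odd k ∨ (∃ i, 0 < c i) ∧ ∃ j, c j < 0 :=
  exists_int_zero_iff hk hn hc

/-- Indefinite biquadrates: twenty-one variables always suffice, sixteen do not. -/
theorem twentyOne_biquadrates :
    (∀ c : Fin 21 → ℤ, (∀ i, c i ≠ 0) → (∃ i, 0 < c i) → (∃ j, c j < 0) →
      ∃ x : Fin 21 → ℤ, x ≠ 0 ∧ ∑ i, c i * x i ^ 4 = 0) ∧
    ∃ c : Fin 16 → ℤ, (∀ i, c i ≠ 0) ∧ (∃ i, 0 < c i) ∧ (∃ j, c j < 0) ∧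
      ¬ ∃ x : Fin 16 → ℤ, x ≠ 0 ∧ ∑ i, c i * x i ^ 4 = 0 := by
  refine ⟨fun c hc hp hn => (diagonal_equation (by norm_num) (by norm_num) hc).2
    (Or.inr ⟨hp, hn⟩), ?_⟩
  have : Fact (Nat.Prime 5) := ⟨by norm_num⟩
  obtain ⟨c, hc, hpos, hneg, hno⟩ := davenport_lewis_sharp (p := 5) (k := 4) (by norm_num) rfl
  refine ⟨c, hc, hpos, hneg, fun ⟨x, hx, h⟩ => hno ⟨fun i => (x i : ℚ_[5]),
    fun e => hx (funext fun i => by simpa using congrFun e i), ?_⟩⟩
  dsimp only
  exact_mod_cast h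

end FA.DavenportLewis.Summary
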