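import Fermat.Agent.DavenportMoebius.Corollaries

/-!
# Davenport's theorem on the Möbius function

For every `A` the sum `∑_{n ≤ N} μ n e (n α)` is `O (N / (log N) ^ A)` uniformly in the real `α`
(Davenport, 1937), and the same holds for the Liouville function; on the way, the theorem of Siegel
and Walfisz for `μ`: `∑_{n ≤ N, n ≡ a (q)} μ n = O (N / (log N) ^ A)` for all `q ≤ (log N) ^ B`
and all `a`, prime to `q` or not. Consequently `∑ μ n e (n α) / n` converges for every `α`.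

The constants are INEFFECTIVE (they come from Siegel's lower bound for `L (1, χ)`).
-/

set_option autoImplicit false

noncomputable section

namespace FA.DavenportMoebius.Summary

open Finset Filter
open scoped Real Topology ArithmeticFunction.Moebius

theorem exp_eq (n : ℕ) (α : ℝ) :
    Complex.exp (2 * π * Complex.I * n * α) = FA.ThreePrimes.eAdd (n * α) := by
  rw [FA.ThreePrimes.eAdd]
  push_cast
  ring_nf

/-- **Davenport's theorem.** -/
theorem davenport (A : ℕ) : ∃ C : ℝ, 0 < C ∧ ∀ N : ℕ, 2 ≤ N → ∀ α : ℝ,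
    ‖∑ n ∈ Icc 1 N, (μ n : ℂ) * Complex.exp (2 * π * Complex.I * n * α)‖ ≤
      C * N / Real.log N ^ A := by
  obtain ⟨C, hC, h⟩ := exists_davenport A
  obtain ⟨C', hC', h'⟩ := exists_all_of_eventually A
    (P := fun N s => ∃ α : ℝ, s = ‖∑ n ∈ Icc 1 N, (μ n : ℂ) * ThreePrimes.eAdd (n * α)‖)
    (fun N s ⟨α, e⟩ => e ▸ norm_twisted_sum_le (c := fun n => μ n)
      (fun _ => ArithmeticFunction.abs_moebius_le_one) α N)
    ⟨C, hC, h.mono fun N hN s ⟨α, e⟩ => e ▸ hN α⟩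
  refine ⟨C', hC', fun N hN α => ?_⟩
  simp only [exp_eq]
  exact h' N hN _ ⟨α, rfl⟩

/-- **Davenport's theorem for the Liouville function.** -/
theorem davenport_liouville (A : ℕ) : ∃ C : ℝ, 0 < C ∧ ∀ N : ℕ, 2 ≤ N → ∀ α : ℝ,
    ‖∑ n ∈ Icc 1 N, (ArithmeticFunction.liouville n : ℂ) *
      Complex.exp (2 * π * Complex.I * n * α)‖ ≤ C * N / Real.log N ^ A := by
  obtain ⟨C, hC, h⟩ := exists_davenport_liouville A
  obtain ⟨C', hC', h'⟩ := exists_all_of_eventually A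
    (P := fun N s => ∃ α : ℝ, s =
      ‖∑ n ∈ Icc 1 N, (ArithmeticFunction.liouville n : ℂ) * ThreePrimes.eAdd (n * α)‖)
    (fun N s ⟨α, e⟩ => e ▸ norm_twisted_sum_le abs_liouville_le α N)
    ⟨C, hC, h.mono fun N hN s ⟨α, e⟩ => e ▸ hN α⟩
  refine ⟨C', hC', fun N hN α => ?_⟩
  simp only [exp_eq]
  exact h' N hN _ ⟨α, rfl⟩

/-- **The theorem of Siegel and Walfisz for `μ`.** -/
theorem siegel_walfisz_moebius (A B : ℕ) : ∃ C : ℝ, 0 < C ∧ ∀ N : ℕ, 2 ≤ N →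
    ∀ q a : ℕ, 0 < q → (q : ℝ) ≤ Real.log N ^ B →
      |∑ n ∈ (Icc 1 N).filter (fun n : ℕ => n ≡ a [MOD q]), (μ n : ℝ)| ≤
        C * N / Real.log N ^ A := by
  obtain ⟨C, hC, h⟩ := exists_class_le A B
  obtain ⟨C', hC', h'⟩ := exists_all_of_eventually A
    (P := fun N s => ∃ q a : ℕ, 0 < q ∧ (q : ℝ) ≤ Real.log N ^ B ∧
      s = |∑ n ∈ (Icc 1 N).filter (fun n : ℕ => n ≡ a [MOD q]), (μ n : ℝ)|)
    (fun N s ⟨q, a, _, _, e⟩ => e ▸ abs_class_sum_le N q a)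
    ⟨C, hC, h.mono fun N hN s ⟨q, a, hq, hqB, e⟩ => e ▸ hN q a hq hqB⟩
  exact ⟨C', hC', fun N hN q a hq hqB => h' N hN _ ⟨q, a, hq, hqB, rfl⟩⟩

/-- **Periodic weights.** -/
theorem moebius_periodic_sum_le (A : ℕ) {q : ℕ} (hq : 0 < q) (f : ℕ → ℂ)
    (hf : ∀ n, f (n + q) = f n) : ∃ C : ℝ, 0 ≤ C ∧ ∀ᶠ N : ℕ in atTop,
      ‖∑ n ∈ Icc 1 N, (μ n : ℂ) * f n‖ ≤ C * N / Real.log N ^ A :=
  exists_periodic_le A hq f hf

/-- **`∑ μ n e (n α) / n` converges for every real `α`.** -/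
theorem moebius_series_converges (α : ℝ) : ∃ l : ℂ, Tendsto
    (fun N : ℕ => ∑ n ∈ Icc 1 N, (μ n : ℂ) * Complex.exp (2 * π * Complex.I * n * α) / n)
      atTop (𝓝 l) := by
  simp only [exp_eq]
  exact exists_tendsto_series α

end FA.DavenportMoebius.Summary
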