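import Fermat.Agent.DavenportPolynomial.Main

/-!
# Davenport's theorem

* `davenport_cube_square`: over a field of characteristic `0`, if `f` is not constant and
  `f³ ≠ g²` then `deg (f³ - g²) ≥ deg f / 2 + 1`;
* `davenport_sharp`: equality for `f = X² + 2`, `g = X³ + 3 X`.

Independent of S01.
-/

set_option autoImplicit false

noncomputable section

open Polynomial

namespace FA.DavenportPolynomial.Summary

/-- **Davenport's theorem.** -/
theorem davenport_cube_square {k : Type*} [Field k] [CharZero k] {f g : k[X]}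
    (hf : f.natDegree ≠ 0) (h : f ^ 3 ≠ g ^ 2) :
    f.natDegree + 2 ≤ 2 * (f ^ 3 - g ^ 2).natDegree :=
  davenport hf h

/-- It is sharp. -/
theorem davenport_sharp :
    let f : ℚ[X] := X ^ 2 + C 2
    let g : ℚ[X] := X ^ 3 + C 3 * X
    f ^ 3 ≠ g ^ 2 ∧ f.natDegree + 2 = 2 * (f ^ 3 - g ^ 2).natDegree := by
  intro f g
  have h : f ^ 3 - g ^ 2 = C 3 * X ^ 2 + C 8 := by
    simp only [f, g]
    rw [show (C 3 : ℚ[X]) = 3 from rfl, show (C 8 : ℚ[X]) = 8 from rfl,
      show (C 2 : ℚ[X]) = 2 from rfl]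
    ring
  have hd : (f ^ 3 - g ^ 2).natDegree = 2 := by
    rw [h, natDegree_add_C, natDegree_C_mul_X_pow 2 _ (by norm_num)]
  refine ⟨fun e => ?_, ?_⟩
  · rw [sub_eq_zero.2 e, natDegree_zero] at hd
    exact absurd hd (by norm_num)
  · rw [hd]
    simp [f]

end FA.DavenportPolynomial.Summary

end
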