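import Fermat.Agent.DeBruijn.Cosine
import Fermat.Agent.DeBruijn.Xi
import Fermat.Agent.XiProduct.Criteria

/-!
# De Bruijn's theorem on the heat flow

If `f` is an even real entire function of growth `exp (o |z|²)`, not identically zero, with zeros
in `|im z| ≤ D`, then for `t ≥ 0` the series `∑ (-t)^k / k! f^(2k)` is entire, not identically
zero, with zeros in `(im z)² ≤ max (D² - 2 t) 0` (all real for `2 t ≥ D²`); for a cosine transform
of `φ` this is multiplication of `φ u` by `exp (t u²)`. With no hypothesis, the flow of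
`ξ (1/2 + i z/2) / 8` has only real zeros for `t ≥ 1/2`, and at `t = 0` this is the Riemann
hypothesis (`SummaryDeBruijnNewman` has `t < 0`, `SummaryNewmanConstant` Pólya's integral).
-/

set_option autoImplicit false

noncomputable section

open Complex MeasureTheory
open scoped ComplexConjugate

namespace FA.Summary

private theorem sq_le_of_abs_le {y D : ℝ} (h : |y| ≤ D) : y ^ 2 ≤ D ^ 2 := by
  rw [← sq_abs y]
  exact pow_le_pow_left₀ (abs_nonneg y) h 2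

/-- **De Bruijn's theorem.** -/
theorem de_bruijn_theorem {f : ℂ → ℂ} (hf : Differentiable ℂ f)
    (hgrowth : ∀ η : ℝ, 0 < η → ∃ G : ℝ, ∀ z : ℂ, ‖f z‖ ≤ Real.exp (η * ‖z‖ ^ 2 + G))
    (hreal : ∀ z : ℂ, f (conj z) = conj (f z)) (heven : ∀ z : ℂ, f (-z) = f z)
    (hne : ∃ z : ℂ, f z ≠ 0) {D : ℝ} (hzeros : ∀ z : ℂ, f z = 0 → |z.im| ≤ D) {t : ℝ}
    (ht : 0 ≤ t) :
    (∀ z : ℂ, Summable fun k : ℕ =>
        (((-t) ^ k / k.factorial : ℝ) : ℂ) * iteratedDeriv (2 * k) f z) ∧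
      Differentiable ℂ (fun z : ℂ => ∑' k : ℕ,
        (((-t) ^ k / k.factorial : ℝ) : ℂ) * iteratedDeriv (2 * k) f z) ∧
      (∃ z : ℂ, (∑' k : ℕ,
        (((-t) ^ k / k.factorial : ℝ) : ℂ) * iteratedDeriv (2 * k) f z) ≠ 0) ∧
      ∀ z : ℂ, (∑' k : ℕ, (((-t) ^ k / k.factorial : ℝ) : ℂ) * iteratedDeriv (2 * k) f z) = 0 →
        z.im ^ 2 ≤ max (D ^ 2 - 2 * t) 0 :=
  have h : FA.DeBruijn.StripZeros f (D ^ 2) :=
    ⟨⟨hf, hgrowth⟩, hreal, heven, fun z hz => sq_le_of_abs_le (hzeros z hz), hne⟩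
  ⟨h.toHeatGrowth.summable_heat ht, h.toHeatGrowth.differentiable_heat ht, h.heat_ne_zero ht,
    fun _ hz => h.heat_zeros ht hz⟩

/-- After time `D² / 2` all the zeros are real. -/
theorem de_bruijn_real_zeros {f : ℂ → ℂ} (hf : Differentiable ℂ f)
    (hgrowth : ∀ η : ℝ, 0 < η → ∃ G : ℝ, ∀ z : ℂ, ‖f z‖ ≤ Real.exp (η * ‖z‖ ^ 2 + G))
    (hreal : ∀ z : ℂ, f (conj z) = conj (f z)) (heven : ∀ z : ℂ, f (-z) = f z)
    (hne : ∃ z : ℂ, f z ≠ 0) {D : ℝ} (hzeros : ∀ z : ℂ, f z = 0 → |z.im| ≤ D) {t : ℝ}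
    (hDt : D ^ 2 ≤ 2 * t) {z : ℂ}
    (hz : (∑' k : ℕ, (((-t) ^ k / k.factorial : ℝ) : ℂ) * iteratedDeriv (2 * k) f z) = 0) :
    z.im = 0 := by
  have h := (de_bruijn_theorem hf hgrowth hreal heven hne hzeros
    (by linarith [sq_nonneg D])).2.2.2 z hz
  rw [max_eq_right (by linarith)] at h
  exact sq_eq_zero_iff.1 (le_antisymm h (sq_nonneg _))

/-- **De Bruijn's theorem for cosine transforms**: the universal factors `exp (t u²)`. -/
theorem de_bruijn_cosine_transform {φ : ℝ → ℝ}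
    (hφ : ∀ c : ℝ, Integrable fun u => φ u * Real.exp (c * u ^ 2))
    (hne : ∃ z : ℂ, (∫ u : ℝ, (φ u : ℂ) * Complex.cos (z * u)) ≠ 0) {D : ℝ}
    (hzeros : ∀ z : ℂ, (∫ u : ℝ, (φ u : ℂ) * Complex.cos (z * u)) = 0 → |z.im| ≤ D) {t : ℝ}
    (ht : 0 ≤ t) :
    (∃ z : ℂ, (∫ u : ℝ, ((φ u * Real.exp (t * u ^ 2) : ℝ) : ℂ) * Complex.cos (z * u)) ≠ 0) ∧
      (∀ z : ℂ, (∫ u : ℝ, ((φ u * Real.exp (t * u ^ 2) : ℝ) : ℂ) * Complex.cos (z * u)) = 0 →
        z.im ^ 2 ≤ max (D ^ 2 - 2 * t) 0) ∧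
      (D ^ 2 ≤ 2 * t → ∀ z : ℂ,
        (∫ u : ℝ, ((φ u * Real.exp (t * u ^ 2) : ℝ) : ℂ) * Complex.cos (z * u)) = 0 →
          z.im = 0) := by
  have hφ' : FA.DeBruijn.GaussDecay φ := hφ
  have h := FA.DeBruijn.stripZeros_cosTransform hφ' (D := D ^ 2) hne
    fun z hz => sq_le_of_abs_le (hzeros z hz)
  have h1 := h.heat_ne_zero ht
  have h2 := fun (z : ℂ) => h.heat_zeros ht (z := z)
  simp only [FA.DeBruijn.heatFlow_cosTransform hφ' ht] at h1 h2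
  refine ⟨h1, h2, fun hDt z hz => ?_⟩
  have h3 := h2 z hz
  rw [max_eq_right (by linarith)] at h3
  exact sq_eq_zero_iff.1 (le_antisymm h3 (sq_nonneg _))

/-- **The de Bruijn–Newman constant is at most `1/2`**: the flow of `ξ (1/2 + i z/2) / 8` at
`t ≥ 0` has its zeros in `(im z)² ≤ max (1 - 2 t) 0`, so real for `t ≥ 1/2`. -/
theorem de_bruijn_xi {Ξ : ℂ → ℂ}
    (hΞ : ∀ z : ℂ, Ξ z = ((1 / 2 + I * z / 2) * (1 / 2 + I * z / 2 - 1) *
      completedRiemannZeta₀ (1 / 2 + I * z / 2) + 1) / 2 / 8) {t : ℝ} (ht : 0 ≤ t) :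
    (∀ z : ℂ, Summable fun k : ℕ =>
        (((-t) ^ k / k.factorial : ℝ) : ℂ) * iteratedDeriv (2 * k) Ξ z) ∧
      Differentiable ℂ (fun z : ℂ => ∑' k : ℕ,
        (((-t) ^ k / k.factorial : ℝ) : ℂ) * iteratedDeriv (2 * k) Ξ z) ∧
      (∃ z : ℂ, (∑' k : ℕ,
        (((-t) ^ k / k.factorial : ℝ) : ℂ) * iteratedDeriv (2 * k) Ξ z) ≠ 0) ∧
      (∀ z : ℂ, (∑' k : ℕ, (((-t) ^ k / k.factorial : ℝ) : ℂ) * iteratedDeriv (2 * k) Ξ z) = 0 →
        z.im ^ 2 ≤ max (1 - 2 * t) 0) ∧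
      (1 / 2 ≤ t → ∀ z : ℂ,
        (∑' k : ℕ, (((-t) ^ k / k.factorial : ℝ) : ℂ) * iteratedDeriv (2 * k) Ξ z) = 0 →
          z.im = 0) := by
  obtain rfl : Ξ = FA.DeBruijn.xiWave :=
    funext fun z => by rw [hΞ, FA.DeBruijn.xiWave, FA.RiemannMangoldt.xiFn]
  have h := FA.DeBruijn.stripZeros_xiWave
  refine ⟨h.toHeatGrowth.summable_heat ht, h.toHeatGrowth.differentiable_heat ht,
    h.heat_ne_zero ht, fun z hz => h.heat_zeros ht hz, fun ht2 z hz => ?_⟩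
  have h3 := h.heat_zeros ht hz
  rw [max_eq_right (by linarith)] at h3
  exact sq_eq_zero_iff.1 (le_antisymm h3 (sq_nonneg _))

/-- At time `0` the reality of the zeros is the Riemann hypothesis. -/
theorem de_bruijn_xi_zero_time :
    RiemannHypothesis ↔ ∀ z : ℂ, ((1 / 2 + I * z / 2) * (1 / 2 + I * z / 2 - 1) *
      completedRiemannZeta₀ (1 / 2 + I * z / 2) + 1) / 2 / 8 = 0 → z.im = 0 := by
  constructor
  · intro hRH z hz
    have h0 : FA.RiemannMangoldt.xiFn (1 / 2 + I * z / 2) = 0 := by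
      rw [div_eq_zero_iff, or_iff_left (by norm_num)] at hz
      exact hz
    have h1 := FA.XiProduct.re_eq_half hRH h0
    simpa using h1
  · intro h
    refine FA.OneSided.riemannHypothesis_of_zero_free fun s hs hs1 hz => ?_
    have h0 : FA.RiemannMangoldt.xiFn s = 0 :=
      (FA.RiemannMangoldt.xiFn_eq_zero_iff (by linarith)
        fun e => by rw [e] at hs1; simp at hs1).2 hz
    have he : (1 / 2 + I * (-(2 * I) * (s - 1 / 2)) / 2 : ℂ) = s := by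
      linear_combination (-(s - 1 / 2)) * I_mul_I
    have h1 := h (-(2 * I) * (s - 1 / 2)) (by
      rw [he]
      rw [FA.RiemannMangoldt.xiFn] at h0
      rw [h0, zero_div])
    simp at h1
    linarith

end FA.Summary

end
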