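import Fermat.Agent.DeBruijnNewman.Main
import Fermat.Agent.Root.SummaryDeBruijn

/-!
# Newman's conjecture `Λ ≥ 0` (Rodgers–Tao, Dobner)

`Ξ z` is `ξ (1/2 + i z/2) / 8` and the flow at time `t` is the series
`∑ (-t)^k / k! Ξ^(2k)`; that it is Pólya's integral of `exp (t u²) Φ u cos (z u)` is proved in
`SummaryNewmanConstant`, with the closedness of the set of times below. For `t < 0` the flow has
zeros with arbitrarily large imaginary part; so a time at which all the zeros are real is `≥ 0`,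
and the infimum `Λ` of these times, taken in that sense, lies in
`[0, 1/2]`.
-/

set_option autoImplicit false

noncomputable section

open Complex

namespace FA.Summary

variable {Ξ : ℂ → ℂ}

/-- **Newman's conjecture**: for `t < 0` the flow is entire and has zeros arbitrarily far from the
real axis. -/
theorem newman_conjecture
    (hΞ : ∀ z : ℂ, Ξ z = ((1 / 2 + I * z / 2) * (1 / 2 + I * z / 2 - 1) *
      completedRiemannZeta₀ (1 / 2 + I * z / 2) + 1) / 2 / 8) {t : ℝ} (ht : t < 0) :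
    (∀ z : ℂ, Summable fun k : ℕ =>
        (((-t) ^ k / k.factorial : ℝ) : ℂ) * iteratedDeriv (2 * k) Ξ z) ∧
      Differentiable ℂ (fun z : ℂ => ∑' k : ℕ,
        (((-t) ^ k / k.factorial : ℝ) : ℂ) * iteratedDeriv (2 * k) Ξ z) ∧
      ∀ B : ℝ, ∃ z : ℂ,
        (∑' k : ℕ, (((-t) ^ k / k.factorial : ℝ) : ℂ) * iteratedDeriv (2 * k) Ξ z) = 0 ∧
          B < |z.im| := by
  obtain rfl : Ξ = FA.DeBruijn.xiWave :=
    funext fun z => by rw [hΞ, FA.DeBruijn.xiWave, FA.RiemannMangoldt.xiFn]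
  obtain ⟨c, hc, rfl⟩ : ∃ c : ℝ, 0 < c ∧ t = -c := ⟨-t, neg_pos.2 ht, (neg_neg t).symm⟩
  exact ⟨FA.DeBruijnNewman.summable_heat_neg FA.DeBruijn.heatGrowth_xiWave hc.le,
    FA.DeBruijnNewman.differentiable_heat_neg FA.DeBruijn.heatGrowth_xiWave hc.le,
    FA.DeBruijnNewman.exists_zero_im_gt hc⟩

/-- For `t < 0` the flow has infinitely many zeros that are not real. -/
theorem newman_infinitely_many_nonreal
    (hΞ : ∀ z : ℂ, Ξ z = ((1 / 2 + I * z / 2) * (1 / 2 + I * z / 2 - 1) *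
      completedRiemannZeta₀ (1 / 2 + I * z / 2) + 1) / 2 / 8) {t : ℝ} (ht : t < 0) :
    {z : ℂ | (∑' k : ℕ, (((-t) ^ k / k.factorial : ℝ) : ℂ) * iteratedDeriv (2 * k) Ξ z) = 0 ∧
      z.im ≠ 0}.Infinite := by
  intro hfin
  obtain ⟨B, hB⟩ := (hfin.image fun z : ℂ => |z.im|).bddAbove
  obtain ⟨z, hz, hzB⟩ := (newman_conjecture hΞ ht).2.2 (max B 0)
  have h0 : z.im ≠ 0 := fun h => by
    rw [h, abs_zero] at hzB
    exact absurd hzB (not_lt.2 (le_max_right _ _))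
  exact absurd (hB ⟨z, ⟨hz, h0⟩, rfl⟩) (not_le.2 ((le_max_left _ _).trans_lt hzB))

/-- **`0 ≤ Λ ≤ 1/2`**, `Λ` the infimum of the times at which all the zeros are real. -/
theorem de_bruijn_newman_constant
    (hΞ : ∀ z : ℂ, Ξ z = ((1 / 2 + I * z / 2) * (1 / 2 + I * z / 2 - 1) *
      completedRiemannZeta₀ (1 / 2 + I * z / 2) + 1) / 2 / 8) {S : Set ℝ}
    (hS : S = {t : ℝ | ∀ z : ℂ,
      (∑' k : ℕ, (((-t) ^ k / k.factorial : ℝ) : ℂ) * iteratedDeriv (2 * k) Ξ z) = 0 →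
        z.im = 0}) :
    Set.Ici (1 / 2) ⊆ S ∧ S ⊆ Set.Ici 0 ∧ 0 ≤ sInf S ∧ sInf S ≤ 1 / 2 := by
  have h1 : Set.Ici (1 / 2) ⊆ S := fun t ht => by
    rw [hS]
    exact (de_bruijn_xi hΞ (le_trans (by norm_num) (Set.mem_Ici.1 ht))).2.2.2.2 ht
  have h2 : S ⊆ Set.Ici 0 := fun t ht => by
    rw [hS] at ht
    by_contra hneg
    obtain ⟨z, hz, hz0⟩ := (newman_conjecture hΞ (not_le.1 hneg)).2.2 0
    rw [ht z hz, abs_zero] at hz0
    exact lt_irrefl _ hz0
  have hne : S.Nonempty := ⟨1 / 2, h1 Set.self_mem_Ici⟩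
  exact ⟨h1, h2, le_csInf hne h2, csInf_le ⟨0, h2⟩ (h1 Set.self_mem_Ici)⟩

end FA.Summary

end
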