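import Fermat.Agent.DeFinetti.Consequences

/-!
# De Finetti's theorem

A law `μ` on sequences is `Exchangeable` when permutations of finitely many coordinates preserve
it; `tailField` holds the tail events and `avg f n 0 x` is the mean of `f (x i)` over `i < n`.

* `de_finetti`: for a standard Borel space, `μ` is exchangeable exactly when it is a mixture, over
  a probability on the probability measures, of product measures;
* `de_finetti_tail`: the mixing law is the conditional law of a coordinate given the tail, and
  the averages of bounded functions tend to the means under it in square mean;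
* `de_finetti_binary`: an exchangeable law of bits gives a word with `k` ones among `n` letters the
  probability `∫ p ^ k (1 - p) ^ (n - k) dρ` for one law `ρ` on `[0, 1]`;
* `exchangeable_covariance_nonneg`: exchangeable coordinates are never negatively correlated.

Uniqueness of the mixing measure and finite exchangeable sequences are not treated.
-/

set_option autoImplicit false

noncomputable section

namespace FA.DeFinetti.Summary

open MeasureTheory Filter Finset FA.DeFinetti
open scoped Topology

variable {S : Type*} [MeasurableSpace S] [StandardBorelSpace S] {μ : Measure (ℕ → S)}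
  [IsProbabilityMeasure μ]

/-- **De Finetti's theorem.** -/
theorem de_finetti :
    Exchangeable μ ↔ ∃ π : Measure (ProbabilityMeasure S), IsProbabilityMeasure π ∧
      μ = π.bind fun p => Measure.infinitePi fun _ : ℕ => (p : Measure S) :=
  exchangeable_iff

/-- **Given the tail the sequence is iid.** -/
theorem de_finetti_tail (hμ : Exchangeable μ) :
    ∃ κ : (ℕ → S) → Measure S, Measurable[tailField] κ ∧ (∀ x, IsProbabilityMeasure (κ x)) ∧
      μ = μ.bind (fun x => Measure.infinitePi fun _ : ℕ => κ x) ∧
      ∀ (f : S → ℝ) (C : ℝ), Measurable f → (∀ s, |f s| ≤ C) →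
        Tendsto (fun n : ℕ => ∫ x, (avg f n 0 x - ∫ s, f s ∂κ x) ^ 2 ∂μ) atTop (𝓝 0) :=
  ⟨tailLaw μ, measurable_tailLaw μ, fun _ => inferInstance, eq_mixture hμ,
    fun _ _ hf hC => tendsto_avg hμ hf hC⟩

/-- **De Finetti's theorem for bits.** -/
theorem de_finetti_binary {ν : Measure (ℕ → Bool)} [IsProbabilityMeasure ν]
    (hν : Exchangeable ν) :
    ∃ ρ : Measure ℝ, IsProbabilityMeasure ρ ∧ ρ (Set.Icc 0 1)ᶜ = 0 ∧
      ∀ (n : ℕ) (w : ℕ → Bool), ν.real {x | ∀ i < n, x i = w i} =
        ∫ p, p ^ #{i ∈ range n | w i = true} * (1 - p) ^ #{i ∈ range n | ¬w i = true} ∂ρ :=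
  binary hν

omit [StandardBorelSpace S] in
/-- **Exchangeable coordinates are never negatively correlated.** -/
theorem exchangeable_covariance_nonneg (hμ : Exchangeable μ) {f : S → ℝ} (hf : Measurable f)
    {C : ℝ} (hC : ∀ s, |f s| ≤ C) :
    (∫ x, f (x 0) ∂μ) ^ 2 ≤ ∫ x, f (x 0) * f (x 1) ∂μ :=
  pairMean_ge hμ hf hC (by
    obtain ⟨x⟩ := nonempty_of_isProbabilityMeasure μ
    exact (abs_nonneg _).trans (hC (x 0)))

end FA.DeFinetti.Summary
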