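import Fermat.Agent.DeRhamCohomology.BlochKato

/-!
# The lattice of a de Rham representation, `H¹ (B_dR ⊗ V)` and the criterion of Bloch and Kato

`chiP p m σ` is `χ(σ) ^ m` in `B_dR⁺`, `tB p` is Fontaine's period `t` in `B_dR` and `perT p j` is
the invariant `t ^ (-j)` of the twist by `j` when `j ≤ 0`, and `0` otherwise. The representation of
dimension `d` acts on `B_dR ⊗ V` by `actB ρ σ x = ρ(σ) σ(x)`.
-/

set_option autoImplicit false
set_option linter.unusedSectionVars false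

noncomputable section

open Finset FA.TateSen FA.BDR FA.Sen FA.PadicHodge FA.BDRCoh FA.DRCoh
open scoped Matrix

namespace FA.Summary

variable (p : ℕ) [hp : Fact p.Prime] (d : Type) [Fintype d] [DecidableEq d]

local notation "Cp" => ℂ_[p]
local notation "G" => PadicAlgCl p ≃ₐ[ℚ_[p]] PadicAlgCl p
local notation "ι" => algebraMap (BPlus p) (BField p)

/-- The definitions used below. -/
theorem de_rham_cohomology_defs (ρ : G → Matrix d d ℚ_[p]) :
    (∀ (m : ℤ) (σ : G), chiP p m σ = qpHom p (((chi p σ : ℤ_[p]) : ℚ_[p]) ^ m)) ∧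
    tB p = ι (tPeriod p) ∧
    (∀ (m : ℤ) (x : d → BField p), x ∈ filDR ρ m ↔
      x ∈ dR ρ ∧ ∀ i, ∃ b : BPlus p, x i = ι b * tB p ^ m) ∧
    (∀ f : G → d → BField p, IsDRCocycle p ρ f ↔
      (∃ (M : ℕ) (g : G → d → BPlus p), (∀ i, ContBPlus p fun σ => g σ i) ∧
        ∀ σ, f σ = fun i => ι (g σ i) * tB p ^ (-(M : ℤ))) ∧
      ∀ σ τ, f (σ * τ) = f σ + actB ρ σ (f τ)) ∧
    (∀ c : G → d → ℚ_[p], c ∈ cocyclesOne ρ ↔
      Continuous c ∧ ∀ σ τ, c (σ * τ) = c σ + ρ σ *ᵥ c τ) ∧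
    ∀ (c : G → d → ℚ_[p]) (σ : G),
      extRep ρ c σ = Matrix.fromBlocks (ρ σ) (Matrix.of fun i _ => c σ i) 0 1 :=
  ⟨fun _ _ => rfl, rfl, fun _ _ => Iff.rfl,
    fun _ => ⟨fun h => ⟨h.cont, h.cocycle⟩, fun h => ⟨h.1, h.2⟩⟩, fun _ => Iff.rfl, fun _ _ => rfl⟩

/-- **Fontaine's lattice**: `ρ` is de Rham exactly when `B_dR⁺ ⊗ V` has a basis multiplied by
`χ ^ j` under the action; modulo `t` this is a Hodge–Tate basis, and the `m`-th step of the
filtration on the periods has as dimension the number of weights at most `-m`. -/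
theorem de_rham_lattice (ρ : G → Matrix d d ℚ_[p]) :
    (IsDeRham ρ ↔ ∃ (U : (Matrix d d (BPlus p))ˣ) (j : d → ℤ), ∀ σ : G,
      (ρ σ).map (qpHom p) * (U : Matrix d d (BPlus p)).map (σ • ·) =
        (U : Matrix d d (BPlus p)) * Matrix.diagonal fun k => chiP p (j k) σ) ∧
    ∀ (U : (Matrix d d (BPlus p))ˣ) (j : d → ℤ), (∀ σ : G,
      (ρ σ).map (qpHom p) * (U : Matrix d d (BPlus p)).map (σ • ·) =
        (U : Matrix d d (BPlus p)) * Matrix.diagonal fun k => chiP p (j k) σ) →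
      (∃ P : (Matrix d d Cp)ˣ, (P : Matrix d d Cp) = (U : Matrix d d (BPlus p)).map (thetaPlus p) ∧
        ∀ σ, FA.Sen.conj (cpRep ρ) P σ = Matrix.diagonal fun i => twist p (j i) σ) ∧
      ∀ m : ℤ, FiniteDimensional ℚ_[p] (filDR ρ m) ∧
        Module.finrank ℚ_[p] (filDR ρ m) = (univ.filter fun k => j k ≤ -m).card :=
  ⟨isDeRham_iff_lattice ρ, fun _ _ h => ⟨IsLattice.exists_conj h, finrank_filDR h⟩⟩

/-- **`H¹` of every twist of `B_dR⁺`**: zero for `1 ≤ j`, the line of `log χ t ^ (-j)` otherwise. -/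
theorem bdr_twist_h1 (j : ℤ) :
    (∀ f : G → BPlus p, ContBPlus p f → (∀ σ τ, f (σ * τ) = f σ + chiP p j σ * σ • f τ) →
      ∃ (c : ℚ_[p]) (y : BPlus p), ∀ σ,
        f σ = qpHom p (c * logChi p σ) * perT p j + (chiP p j σ * σ • y - y)) ∧
    (1 ≤ j → perT p j = 0) ∧
    (j ≤ 0 → perT p j = tPeriod p ^ (-j).toNat ∧
      ∀ (c : ℚ_[p]) (y : BPlus p),
        (∀ σ : G, qpHom p (c * logChi p σ) * perT p j = chiP p j σ * σ • y - y) → c = 0) :=
  ⟨fun _ h1 h2 => exists_log_add_twist ⟨h1, h2⟩, perT_of_pos, fun hj =>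
    ⟨if_pos hj, fun _ _ h => qpHom_mul_perT_eq_zero hj (log_coeff_eq_zero h)⟩⟩

/-- **`H¹ (B_dR ⊗ V)` is the space of periods, by the cup product with `log χ`.** -/
theorem de_rham_h1 (ρ : G → Matrix d d ℚ_[p]) (hρ : IsDeRham ρ) :
    (∀ x ∈ dR ρ, IsDRCocycle p ρ fun σ => qpB p (logChi p σ) • x) ∧
    ∀ f : G → d → BField p, IsDRCocycle p ρ f → ∃! x : d → BField p, x ∈ dR ρ ∧
      ∃ y, ∀ σ, f σ = qpB p (logChi p σ) • x + (actB ρ σ y - y) := by
  refine ⟨fun x hx => isDRCocycle_logChi hx, fun f hf => ?_⟩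
  obtain ⟨x, hx, y, hy⟩ := exists_log_add_dR hρ hf
  refine ⟨x, ⟨hx, y, hy⟩, fun x' ⟨hx', y', hy'⟩ =>
    sub_eq_zero.1 (eq_zero_of_coboundary_dR hρ (sub_mem hx' hx) (y := y - y') fun σ => ?_)⟩
  have h1 := (hy' σ).symm.trans (hy σ)
  have h2 : actB ρ σ (y - y') = actB ρ σ y - actB ρ σ y' := by
    rw [eq_sub_iff_add_eq, ← actB_add, sub_add_cancel]
  rw [h2]
  funext i
  have h3 := congrFun h1 i
  simp only [Pi.add_apply, Pi.sub_apply, Pi.smul_apply, smul_eq_mul] at h3 ⊢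
  linear_combination h3

/-- **`H¹ (B_dR⁺ ⊗ V)`**: the invariant can be taken in `B_dR⁺ ⊗ V`, where it is unique. -/
theorem de_rham_plus_h1 (ρ : G → Matrix d d ℚ_[p]) (hρ : IsDeRham ρ) (f : G → d → BPlus p)
    (hc : ∀ i, ContBPlus p fun σ => f σ i)
    (hf : ∀ σ τ : G, f (σ * τ) = f σ + (ρ σ).map (qpHom p) *ᵥ fun i => σ • f τ i) :
    ∃! x : d → BPlus p, (∀ σ : G, ((ρ σ).map (qpHom p) *ᵥ fun i => σ • x i) = x) ∧
      ∃ y : d → BPlus p, ∀ σ, f σ = qpHom p (logChi p σ) • x +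
        (((ρ σ).map (qpHom p) *ᵥ fun i => σ • y i) - y) := by
  obtain ⟨U, j, hU⟩ := exists_lattice hρ
  obtain ⟨x, y, hx, hy⟩ := hU.exists_log_add ⟨hc, hf⟩
  refine ⟨x, ⟨hx, y, hy⟩, fun x' ⟨hx', y', hy'⟩ => sub_eq_zero.1
    (hU.eq_zero_of_coboundary (x := x' - x) (y := y - y') (fun σ => ?_) fun σ => ?_)⟩
  · have e : (fun i => σ • (x' - x) i) = (fun i => σ • x' i) - fun i => σ • x i :=
      funext fun i => smul_sub σ (x' i) (x i)
    rw [actP, e, Matrix.mulVec_sub]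
    exact congrArg₂ (· - ·) (hx' σ) (hx σ)
  · have e : (fun i => σ • (y - y') i) = (fun i => σ • y i) - fun i => σ • y' i :=
      funext fun i => smul_sub σ (y i) (y' i)
    have h1 := (hy' σ).symm.trans (hy σ)
    rw [actP, e, Matrix.mulVec_sub]
    funext i
    have h3 := congrFun h1 i
    simp only [actP, plusRep, Pi.add_apply, Pi.sub_apply, Pi.smul_apply, smul_eq_mul] at h3 ⊢
    linear_combination h3

/-- **`H¹ (ℂ_p ⊗ V)` of a Hodge–Tate representation** is `(ℂ_p ⊗ V) ^ G` by `log χ`. -/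
theorem hodge_tate_h1 (U : G → Matrix d d Cp) (hU : IsHodgeTate U) (f : G → d → Cp)
    (hc : Continuous f) (hf : ∀ σ τ, f (σ * τ) = f σ + U σ *ᵥ fun i => gal σ (f τ i)) :
    ∃! x : d → Cp, x ∈ dHT U 0 ∧ ∃ y : d → Cp, ∀ σ, f σ =
      algebraMap ℚ_[p] Cp (logChi p σ) • x + ((U σ *ᵥ fun i => gal σ (y i)) - y) := by
  obtain ⟨P, j, hP⟩ := hU
  exact existsUnique_log_add_cp hP hc hf

/-- **The criterion of Bloch and Kato**: a linear map sends a cocycle with values in `V` to the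
invariant of its class in `B_dR ⊗ V`; it kills coboundaries, its kernel gives exactly the de Rham
extensions of `ℚ_p` by `V` and has codimension at most the number of weights at most zero. -/
theorem bloch_kato_criterion (ρ : G → Matrix d d ℚ_[p]) (hρ : IsQpRep p d ρ) (hdR : IsDeRham ρ) :
    ∃ Φ : cocyclesOne ρ →ₗ[ℚ_[p]] filDR ρ 0,
      (∀ c : cocyclesOne ρ, ∃ y : d → BField p, ∀ σ,
        (fun i => qpB p ((c : G → d → ℚ_[p]) σ i)) =
        qpB p (logChi p σ) • (Φ c : d → BField p) + (actB ρ σ y - y)) ∧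
      (∀ c : cocyclesOne ρ, IsQpRep p (d ⊕ Unit) (extRep ρ c) ∧ (IsDeRham (extRep ρ c) ↔ Φ c = 0)) ∧
      (∀ c : cocyclesOne ρ, (∃ v : d → ℚ_[p], ∀ σ, (c : G → d → ℚ_[p]) σ = ρ σ *ᵥ v - v) →
        Φ c = 0) ∧
      ∀ (P : (Matrix d d Cp)ˣ) (j : d → ℤ),
        (∀ σ, FA.Sen.conj (cpRep ρ) P σ = Matrix.diagonal fun i => twist p (j i) σ) →
        FiniteDimensional ℚ_[p] (cocyclesOne ρ ⧸ LinearMap.ker Φ) ∧
          Module.finrank ℚ_[p] (cocyclesOne ρ ⧸ LinearMap.ker Φ) ≤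
            (univ.filter fun k => j k ≤ 0).card := by
  classical
  refine ⟨periodMap hdR, periodMap_spec hdR, fun c =>
    ⟨isQpRep_extRep hρ c, isDeRham_extRep_iff hdR c⟩,
    fun c ⟨v, hv⟩ => periodMap_coboundary hdR c hv, fun P j hP => ?_⟩
  obtain ⟨U, k, hU⟩ := exists_lattice hdR
  obtain ⟨Q, -, hQ⟩ := hU.exists_conj
  have h := finrank_quotient_ker_le hdR hU
  have e : (univ.filter fun i => k i ≤ 0).card = (univ.filter fun i => j i ≤ 0).card := by
    rw [card_eq_sum_card_fiberwise (t := univ.image k ∪ univ.image j) (f := k)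
        fun i _ => mem_union_left _ (mem_image_of_mem k (mem_univ i)),
      card_eq_sum_card_fiberwise (t := univ.image k ∪ univ.image j) (f := j)
        fun i _ => mem_union_right _ (mem_image_of_mem j (mem_univ i))]
    refine sum_congr rfl fun v _ => ?_
    rw [filter_filter, filter_filter]
    by_cases hv : v ≤ 0
    · have h1 := (FA.PadicDescent.card_weight_eq hQ v).trans
        (FA.PadicDescent.card_weight_eq hP v).symm
      have hf : ∀ g : d → ℤ, (univ.filter fun a => g a ≤ 0 ∧ g a = v) =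
          univ.filter fun a => g a = v := fun g =>
        filter_congr fun i _ => ⟨fun h => h.2, fun h => ⟨h ▸ hv, h⟩⟩
      rw [hf, hf]
      exact h1
    · have hf : ∀ g : d → ℤ, (univ.filter fun a => g a ≤ 0 ∧ g a = v) = ∅ := fun g =>
        filter_false_of_mem fun i _ h => hv (h.2 ▸ h.1)
      rw [hf, hf]
  rwa [e] at h

end FA.Summary
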