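import Fermat.Agent.Thue.Equation
import Mathlib.RingTheory.Polynomial.Eisenstein.Basic
import Mathlib.RingTheory.Polynomial.RationalRoot
import Mathlib.Analysis.SpecialFunctions.Pow.Real

/-!
# Thue's theorem

A real algebraic number of degree `n` is approximated by rationals to no exponent beyond
`n / 2 + 1`; hence an irreducible binary form of degree at least three takes every value only
finitely often, and for example `x³ - 2 y³ = k` has finitely many integer solutions for every `k`.
-/

set_option autoImplicit false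

noncomputable section

open Polynomial

namespace FA.Summary

/-- **Thue's theorem** on rational approximation. -/
theorem thue_approximation {α : ℝ} (hα : IsAlgebraic ℚ α) (hirr : Irrational α) {κ : ℝ}
    (hκ : ((minpoly ℚ α).natDegree : ℝ) / 2 + 1 < κ) :
    {x : ℚ | |α - x| < (x.den : ℝ) ^ (-κ)}.Finite :=
  FA.Thue.finite_approximations hα hirr hκ

/-- Thue's theorem as a lower bound. -/
theorem thue_lower_bound {α : ℝ} (hα : IsAlgebraic ℚ α) (hirr : Irrational α) {κ : ℝ}
    (hκ : ((minpoly ℚ α).natDegree : ℝ) / 2 + 1 < κ) :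
    ∃ C : ℝ, 0 < C ∧ ∀ x : ℚ, C * (x.den : ℝ) ^ (-κ) ≤ |α - x| := by
  classical
  set s := (thue_approximation hα hirr hκ).toFinset
  have hd : ∀ x : ℚ, (0 : ℝ) < (x.den : ℝ) ^ (-κ) := fun x =>
    Real.rpow_pos_of_pos (by exact_mod_cast x.pos) _
  obtain ⟨C, hC, hCle⟩ : ∃ C : ℝ, 0 < C ∧ ∀ x ∈ s, C ≤ |α - x| / (x.den : ℝ) ^ (-κ) := by
    rcases s.eq_empty_or_nonempty with h | h
    · exact ⟨1, one_pos, by simp [h]⟩
    · obtain ⟨x, hx, hmin⟩ := s.exists_min_image (fun x : ℚ => |α - x| / (x.den : ℝ) ^ (-κ)) h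
      exact ⟨_, div_pos (abs_pos.2 (sub_ne_zero.2 (hirr.ne_rat x))) (hd x), hmin⟩
  refine ⟨min 1 C, lt_min one_pos hC, fun x => ?_⟩
  by_cases hx : x ∈ s
  · have := (min_le_right 1 C).trans (hCle x hx)
    rwa [le_div_iff₀ (hd x)] at this
  · rw [Set.Finite.mem_toFinset] at hx
    exact (mul_le_of_le_one_left (hd x).le (min_le_left _ _)).trans (not_lt.1 hx)

/-- **Thue equations** have finitely many solutions: `f` is irreducible of degree at least three
and its binary form takes the value `c` finitely often. -/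
theorem thue_equation {f : ℤ[X]} (hirr : Irreducible f) (hdeg : 3 ≤ f.natDegree) (c : ℤ) :
    {p : ℤ × ℤ | ∑ i ∈ Finset.range (f.natDegree + 1),
      f.coeff i * p.1 ^ i * p.2 ^ (f.natDegree - i) = c}.Finite :=
  FA.Thue.finite_solutions hirr hdeg c

/-- Binomial Thue equations. -/
theorem thue_binomial {n : ℕ} (hn : 3 ≤ n) {a b : ℤ} (ha : a ≠ 0)
    (hirr : Irreducible (C a * X ^ n + C b : ℤ[X])) (c : ℤ) :
    {p : ℤ × ℤ | a * p.1 ^ n + b * p.2 ^ n = c}.Finite := by
  set f : ℤ[X] := C a * X ^ n + C b with hf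
  have hdeg : f.natDegree = n := by
    rw [hf, natDegree_add_C, natDegree_C_mul_X_pow n a ha]
  have h := thue_equation hirr (by omega) c
  refine h.subset fun p hp => ?_
  rw [Set.mem_ofPred_eq] at hp ⊢
  have hcoef : ∀ i, f.coeff i = (if i = n then a else 0) + (if i = 0 then b else 0) := fun i => by
    rw [hf, coeff_add, coeff_C_mul_X_pow, coeff_C]
  rw [hdeg, Finset.sum_range_succ, Finset.sum_eq_single_of_mem 0 (Finset.mem_range.2 (by omega))]
  · rw [hcoef, hcoef, if_neg (show (0 : ℕ) ≠ n by omega), if_pos rfl, if_pos rfl,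
      if_neg (show n ≠ 0 by omega), zero_add, add_zero, pow_zero, mul_one, Nat.sub_zero,
      Nat.sub_self, pow_zero, mul_one]
    linarith
  · intro i hi hi0
    rw [Finset.mem_range] at hi
    rw [hcoef, if_neg hi.ne, if_neg hi0, add_zero, zero_mul, zero_mul]

/-- `X ^ 3 - 2` is irreducible. -/
theorem irreducible_cube_sub_two : Irreducible (C 1 * X ^ 3 + C (-2) : ℤ[X]) := by
  rw [C_1, one_mul]
  have hmon : (X ^ 3 + C (-2) : ℤ[X]).Monic := monic_X_pow_add_C _ (by norm_num)
  refine Polynomial.IsEisensteinAt.irreducible (𝓟 := Ideal.span {(2 : ℤ)}) ⟨?_, ?_, ?_⟩ ?_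
    hmon.isPrimitive ?_
  · rw [hmon.leadingCoeff, Ideal.mem_span_singleton]; norm_num
  · intro i hi
    rw [natDegree_X_pow_add_C] at hi
    interval_cases i <;> simp [coeff_X_pow]
  · rw [Ideal.span_singleton_pow, Ideal.mem_span_singleton]
    simp [coeff_X_pow]
  · exact (Ideal.span_singleton_prime two_ne_zero).2 Int.prime_two
  · rw [natDegree_X_pow_add_C]; norm_num

/-- **`x³ - 2 y³ = k` has finitely many integer solutions.** -/
theorem cube_sub_two_cube_finite (k : ℤ) :
    {p : ℤ × ℤ | p.1 ^ 3 - 2 * p.2 ^ 3 = k}.Finite := by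
  refine (thue_binomial le_rfl one_ne_zero irreducible_cube_sub_two k).subset fun p hp => ?_
  simp only [Set.mem_ofPred_eq] at hp ⊢
  linarith

end FA.Summary

end
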