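import Fermat.Agent.AsymptoticDirections.Complex
import Fermat.Agent.AsymptoticDirections.Thue
import Fermat.Agent.Root.SummaryThue
import Mathlib.NumberTheory.Pell

/-!
# Siegel's theorem for curves with simple points at infinity

After Corvaja and Zannier, by the subspace theorem and without Riemann–Roch or Jacobians: an
irreducible `f ∈ ℤ[X, Y]` of degree at least three whose top form has distinct linear factors has
finitely many `S`-integral zeros (`siegel_three_directions`); for integer zeros only the real linear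
factors need be simple (`siegel_real_directions`). Without irreducibility the zeros lie on finitely
many conics (`siegel_points_on_conics`). So `F (x, y) = G (x, y)` has finitely many `S`-integral
solutions for an irreducible form `F` of degree at least three and `G` of lower degree
(`thue_lower_degree`), for example `x³ - 2 y³ = x² + x y + 7`.

All hypotheses are needed: `x² - 2 y² = 1` has degree two, `y = x³` a triple direction and
`x (x² - y²) = 0` is reducible.
-/

set_option autoImplicit false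
set_option linter.style.haveILetI false

noncomputable section

namespace FA.Summary

open MvPolynomial AsymptoticDirections

/-- **Siegel's theorem**, `S`-integral, for curves with at least three asymptotic directions. -/
theorem siegel_three_directions {f : MvPolynomial (Fin 2) ℤ}
    (hirr : Irreducible (f.map (Int.castRingHom ℚ))) (hdeg : 3 ≤ f.totalDegree)
    (htop : ∀ v : Fin 2 → ℂ, v ≠ 0 → aeval v (homogeneousComponent f.totalDegree f) = 0 →
      ∃ i, aeval v (pderiv i (homogeneousComponent f.totalDegree f)) ≠ 0)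
    (S : Finset ℕ) (hS : ∀ q ∈ S, q.Prime) :
    {P : ℚ × ℚ | aeval ![P.1, P.2] f = 0 ∧ P.1.den.primeFactors ⊆ S ∧
      P.2.den.primeFactors ⊆ S}.Finite :=
  finite_sIntegralZeros_complex hirr hdeg htop S hS

/-- **Siegel's theorem**: for integer zeros only the real directions matter. -/
theorem siegel_real_directions {f : MvPolynomial (Fin 2) ℤ}
    (hirr : Irreducible (f.map (Int.castRingHom ℚ))) (hdeg : 3 ≤ f.totalDegree)
    (htop : ∀ v : Fin 2 → ℝ, v ≠ 0 → aeval v (homogeneousComponent f.totalDegree f) = 0 →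
      ∃ i, aeval v (pderiv i (homogeneousComponent f.totalDegree f)) ≠ 0) :
    {P : ℤ × ℤ | eval ![P.1, P.2] f = 0}.Finite :=
  finite_integralZeros hirr hdeg htop

/-- **Without irreducibility**: the `S`-integral zeros lie on finitely many conics. -/
theorem siegel_points_on_conics {f : MvPolynomial (Fin 2) ℤ}
    (htop : ∀ v : Fin 2 → ℂ, v ≠ 0 → aeval v (homogeneousComponent f.totalDegree f) = 0 →
      ∃ i, aeval v (pderiv i (homogeneousComponent f.totalDegree f)) ≠ 0)
    (S : Finset ℕ) (hS : ∀ q ∈ S, q.Prime) :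
    ∃ V : Finset (Fin 6 → ℤ), (∀ v ∈ V, v ≠ 0) ∧ ∀ x y : ℚ, aeval ![x, y] f = 0 →
      x.den.primeFactors ⊆ S → y.den.primeFactors ⊆ S → ∃ v ∈ V,
        (v 0 : ℚ) + v 1 * x + v 2 * y + v 3 * x ^ 2 + v 4 * (x * y) + v 5 * y ^ 2 = 0 := by
  obtain ⟨V, hV, h⟩ := exists_conics_zeros le_rfl (simpleZeros_of_complex le_rfl htop ℝ) S hS
    fun q _ _ => simpleZeros_of_complex le_rfl htop ℚ_[q]
  refine ⟨V, hV, fun x y h1 h2 h3 => (h (x, y) ⟨h1, h2, h3⟩).imp fun v hv => ⟨hv.1, ?_⟩⟩
  rw [← hv.2]
  simp [conic, mono, monoFst, monoSnd, Fin.sum_univ_six, sq]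

/-- **Thue equations with a right-hand side of lower degree.** -/
theorem thue_lower_degree {f : Polynomial ℤ} (hf : Irreducible f) (hd : 3 ≤ f.natDegree)
    {G : MvPolynomial (Fin 2) ℤ} (hG : G.totalDegree < f.natDegree) (S : Finset ℕ)
    (hS : ∀ q ∈ S, q.Prime) :
    {P : ℚ × ℚ | (∑ i ∈ Finset.range (f.natDegree + 1),
      (f.coeff i : ℚ) * P.1 ^ i * P.2 ^ (f.natDegree - i)) = aeval ![P.1, P.2] G ∧
        P.1.den.primeFactors ⊆ S ∧ P.2.den.primeFactors ⊆ S}.Finite := by
  refine (finite_thue hf hd hG S hS).1.subset fun P hP => ⟨?_, hP.2⟩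
  rw [map_sub, sub_eq_zero, aeval_formOf]
  simpa using hP.1

/-- The example, in integers and in `ℤ[1/2, 1/3]`. -/
theorem cube_sub_two_cube_eq_conic (S : Finset ℕ) (hS : ∀ q ∈ S, q.Prime) :
    {P : ℚ × ℚ | P.1 ^ 3 - 2 * P.2 ^ 3 = P.1 ^ 2 + P.1 * P.2 + 7 ∧
      P.1.den.primeFactors ⊆ S ∧ P.2.den.primeFactors ⊆ S}.Finite := by
  have hd : (Polynomial.C 1 * Polynomial.X ^ 3 + Polynomial.C (-2) : Polynomial ℤ).natDegree =
      3 := by
    rw [Polynomial.natDegree_add_C, Polynomial.natDegree_C_mul_X_pow 3 (1 : ℤ) one_ne_zero]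
  have hG : (X 0 ^ 2 + X 0 * X 1 + C 7 : MvPolynomial (Fin 2) ℤ).totalDegree < 3 := by
    refine Nat.lt_succ_of_le ((totalDegree_add _ _).trans (max_le ((totalDegree_add _ _).trans
      (max_le ?_ ?_)) ?_))
    · simp [totalDegree_X_pow]
    · exact (totalDegree_mul _ _).trans (by simp [totalDegree_X])
    · exact (totalDegree_C (σ := Fin 2) (7 : ℤ)).le.trans (by norm_num)
  refine (thue_lower_degree irreducible_cube_sub_two hd.ge (hd ▸ hG) S hS).subset
    fun P hP => ⟨?_, hP.2⟩
  rw [hd]
  simp only [Finset.sum_range_succ, Finset.sum_range_zero, Polynomial.coeff_add,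
    Polynomial.coeff_C_mul_X_pow, Polynomial.coeff_C, map_add, map_mul, map_pow, aeval_X, aeval_C]
  norm_num
  linarith [hP.1]

/-- **Sharpness in the degree**: an irreducible conic with simple asymptotic directions and
infinitely many integer points. -/
theorem siegel_degree_sharp :
    {P : ℤ × ℤ | P.1 ^ 2 - 2 * P.2 ^ 2 = 1}.Infinite := by
  have hns : ¬IsSquare (2 : ℤ) := Int.prime_two.not_isSquare
  obtain ⟨a, ha⟩ := Pell.IsFundamental.exists_of_not_isSquare (by norm_num : (0 : ℤ) < 2) hns
  refine Set.infinite_of_injective_forall_mem (f := fun m : ℕ => ((a ^ m).x, (a ^ m).y))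
    (fun m k h => ?_) fun m => (a ^ m).prop
  exact Nat.cast_injective (ha.y_strictMono.injective (by simpa using congrArg Prod.snd h) :
    (m : ℤ) = k)

/-- **Sharpness in the directions**: an irreducible cubic with a triple direction. -/
theorem siegel_directions_sharp :
    Irreducible (X 1 - X 0 ^ 3 : MvPolynomial (Fin 2) ℚ) ∧
      {P : ℤ × ℤ | P.2 - P.1 ^ 3 = 0}.Infinite := by
  refine ⟨?_, Set.infinite_of_injective_forall_mem (f := fun m : ℕ => ((m : ℤ), (m : ℤ) ^ 3))
    (fun m k h => Nat.cast_injective (congrArg Prod.fst h)) fun m => by simp⟩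
  let φ : MvPolynomial (Fin 2) ℚ →ₐ[ℚ] MvPolynomial (Fin 2) ℚ := aeval ![X 0, X 1 - X 0 ^ 3]
  let ψ : MvPolynomial (Fin 2) ℚ →ₐ[ℚ] MvPolynomial (Fin 2) ℚ := aeval ![X 0, X 1 + X 0 ^ 3]
  let e : MvPolynomial (Fin 2) ℚ ≃ₐ[ℚ] MvPolynomial (Fin 2) ℚ := AlgEquiv.ofAlgHom φ ψ
    (algHom_ext fun i => by fin_cases i <;> simp [φ, ψ])
    (algHom_ext fun i => by fin_cases i <;> simp [φ, ψ])
  have h : e (X 1) = X 1 - X 0 ^ 3 := by simp [e, φ]
  rw [← h, MulEquiv.irreducible_iff e]
  exact (MvPolynomial.X_prime (R := ℚ) (i := (1 : Fin 2))).irreducible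

/-- **Sharpness in irreducibility**: three lines. -/
theorem siegel_irreducible_sharp : {P : ℤ × ℤ | P.1 * (P.1 ^ 2 - P.2 ^ 2) = 0}.Infinite :=
  Set.infinite_of_injective_forall_mem (f := fun m : ℕ => ((0 : ℤ), (m : ℤ)))
    (fun m k h => Nat.cast_injective (congrArg Prod.snd h)) fun m => by simp

end FA.Summary

end
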