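import Fermat.Agent.DecomposableForms.Resultant
import Fermat.Agent.Root.SummarySiegelCurves

/-!
# Decomposable form equations: the criterion of Evertse and Győry

For finitely many nonzero linear forms `l i` over a number field `K` the following are equivalent:
* the `l i` have full rank and for every partition into two nonempty parts some `l i` lies in both
  spans;
* for every finite set `S` of primes the points at which all ratios `l i x / l j x` are `S`-units
  are finitely many up to scaling.
If the first fails there is one finite `S` with infinitely many such points, no two proportional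
(`evertse_gyory_infinite`). So for such forms `∏ l i (x) = μ ≠ 0` has finitely many solutions in
`S`-integers, for every `S` (`decomposable_form_equation`); ineffective.

For hyperplanes in general position in `ℙⁿ` this gives finitely many `S`-integral points off
`2 n + 1` or more, infinitely many for some `S` off at most `2 n`, and points in finitely many
hyperplanes off `n + 2`. For the values at distinct points it gives resultant equations: a separable
`f` of degree `> 2 m` has finitely many integral `g` of degree `≤ m` with `Res(f, g) = r ≠ 0`.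
-/

set_option autoImplicit false

noncomputable section

open NumberField IsDedekindDomain

namespace FA.Summary

variable {K : Type*} [Field K] [NumberField K] {ι : Type*} [Fintype ι] [DecidableEq ι] [Nonempty ι]
variable {n : ℕ}

/-- **The criterion of Evertse and Győry.** -/
theorem evertse_gyory_criterion {l : ι → Module.Dual K (Fin n → K)} (h0 : ∀ i, l i ≠ 0) :
    (Submodule.span K (Set.range l) = ⊤ ∧ ∀ T : Finset ι, T.Nonempty → Tᶜ.Nonempty →
      ∃ i, l i ∈ Submodule.span K (l '' T) ⊓ Submodule.span K (l '' ↑Tᶜ)) ↔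
    ∀ S : Finset (HeightOneSpectrum (𝓞 K)), ∃ F : Finset (Fin n → K), ∀ x : Fin n → K,
      (∀ i, l i x ≠ 0) →
      (∀ i j, ∀ v ∉ S, HeightOneSpectrum.adicAbv K v (l i x / l j x) = 1) →
      ∃ y ∈ F, ∃ c : K, c ≠ 0 ∧ x = c • y := by
  refine (DecomposableForms.connected_iff h0).trans ?_
  refine forall_congr' fun S => exists_congr fun F => forall_congr' fun x => ?_
  exact ⟨fun h h1 h2 => h ⟨h1, fun i j => ⟨div_ne_zero (h1 i) (h1 j), h2 i j⟩⟩,
    fun h hx => h hx.1 fun i j => (hx.2 i j).2⟩

/-- **The necessity, exactly**: one `S` with infinitely many pairwise non-proportional points. -/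
theorem evertse_gyory_infinite {l : ι → Module.Dual K (Fin n → K)} (h0 : ∀ i, l i ≠ 0)
    (h : ¬(Submodule.span K (Set.range l) = ⊤ ∧ ∀ T : Finset ι, T.Nonempty → Tᶜ.Nonempty →
      ∃ i, l i ∈ Submodule.span K (l '' T) ⊓ Submodule.span K (l '' ↑Tᶜ))) :
    ∃ (S : Finset (HeightOneSpectrum (𝓞 K))) (x : ℕ → Fin n → K),
      (∀ k, (∀ i, l i (x k) ≠ 0) ∧
        ∀ i j, ∀ v ∉ S, HeightOneSpectrum.adicAbv K v (l i (x k) / l j (x k)) = 1) ∧
      ∀ k k' (c : K), x k = c • x k' → k = k' := by
  obtain ⟨S, x, hx, hinj⟩ := DecomposableForms.exists_infinite_unitPoints h0 h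
  exact ⟨S, x, fun k => ⟨(hx k).1, fun i j => ((hx k).2 i j).2⟩, hinj⟩

/-- **Decomposable form equations** over the `S`-integers of a number field. -/
theorem decomposable_form_equation {l : ι → Module.Dual K (Fin n → K)}
    (hspan : Submodule.span K (Set.range l) = ⊤)
    (hsplit : ∀ T : Finset ι, T.Nonempty → Tᶜ.Nonempty →
      ∃ i, l i ∈ Submodule.span K (l '' T) ⊓ Submodule.span K (l '' ↑Tᶜ))
    (S : Finset (HeightOneSpectrum (𝓞 K))) {μ : K} (hμ : μ ≠ 0) :
    {x : Fin n → K | (∀ j, ∀ v ∉ S, HeightOneSpectrum.adicAbv K v (x j) ≤ 1) ∧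
      ∏ i, l i x = μ}.Finite :=
  DecomposableForms.finite_equation ⟨hspan, hsplit⟩ S hμ

/-- **Decomposable form equations over `ℤ`**, the forms splitting in a number field. -/
theorem decomposable_form_equation_int {l : ι → Module.Dual K (Fin n → K)}
    (hspan : Submodule.span K (Set.range l) = ⊤)
    (hsplit : ∀ T : Finset ι, T.Nonempty → Tᶜ.Nonempty →
      ∃ i, l i ∈ Submodule.span K (l '' T) ⊓ Submodule.span K (l '' ↑Tᶜ))
    {μ : K} (hμ : μ ≠ 0) :
    {x : Fin n → ℤ | ∏ i, l i (fun j => (x j : K)) = μ}.Finite :=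
  DecomposableForms.finite_equation_int ⟨hspan, hsplit⟩ hμ

/-- **Integral points off `2 n + 1` hyperplanes in general position in `ℙⁿ`.** -/
theorem hyperplanes_general_position_finite {l : ι → Module.Dual K (Fin (n + 1) → K)}
    (hgen : ∀ T : Finset ι, T.card ≤ n + 1 → LinearIndependent K fun i : T => l i)
    (hcard : 2 * n + 1 ≤ Fintype.card ι) (S : Finset (HeightOneSpectrum (𝓞 K))) :
    ∃ F : Finset (Fin (n + 1) → K), ∀ x : Fin (n + 1) → K, (∀ i, l i x ≠ 0) →
      (∀ i j, ∀ v ∉ S, HeightOneSpectrum.adicAbv K v (l i x / l j x) = 1) →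
      ∃ y ∈ F, ∃ c : K, c ≠ 0 ∧ x = c • y := by
  have hl : DecomposableForms.InGeneralPosition l := fun T hT =>
    hgen T (by rwa [Module.finrank_fin_fun] at hT)
  obtain ⟨h1, h2⟩ := hl.connected (by rw [Module.finrank_fin_fun]; omega)
    (by rw [Module.finrank_fin_fun]; omega)
  exact (evertse_gyory_criterion (hl.ne_zero (by rw [Module.finrank_fin_fun]; omega))).1
    ⟨h1, h2⟩ S

/-- **`2 n` hyperplanes do not suffice.** -/
theorem hyperplanes_general_position_sharp {l : ι → Module.Dual K (Fin (n + 1) → K)}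
    (hgen : ∀ T : Finset ι, T.card ≤ n + 1 → LinearIndependent K fun i : T => l i)
    (h2 : 2 ≤ Fintype.card ι) (hcard : Fintype.card ι ≤ 2 * n) :
    ∃ (S : Finset (HeightOneSpectrum (𝓞 K))) (x : ℕ → Fin (n + 1) → K),
      (∀ k, (∀ i, l i (x k) ≠ 0) ∧
        ∀ i j, ∀ v ∉ S, HeightOneSpectrum.adicAbv K v (l i (x k) / l j (x k)) = 1) ∧
      ∀ k k' (c : K), x k = c • x k' → k = k' := by
  have hl : DecomposableForms.InGeneralPosition l := fun T hT =>
    hgen T (by rwa [Module.finrank_fin_fun] at hT)
  exact evertse_gyory_infinite (hl.ne_zero (by rw [Module.finrank_fin_fun]; omega))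
    (hl.not_connected h2 (by rw [Module.finrank_fin_fun]; omega))

omit [Nonempty ι] in
/-- **Integral points off `n + 2` hyperplanes lie in finitely many hyperplanes.** -/
theorem hyperplanes_degenerate {l : ι → Module.Dual K (Fin (n + 1) → K)} (hn : 1 ≤ n)
    (hgen : ∀ T : Finset ι, T.card ≤ n + 1 → LinearIndependent K fun i : T => l i)
    (hcard : n + 2 ≤ Fintype.card ι) (S : Finset (HeightOneSpectrum (𝓞 K))) :
    ∃ H : Finset (Module.Dual K (Fin (n + 1) → K)), (∀ φ ∈ H, φ ≠ 0) ∧
      ∀ x : Fin (n + 1) → K, (∀ i, l i x ≠ 0) →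
        (∀ i j, ∀ v ∉ S, HeightOneSpectrum.adicAbv K v (l i x / l j x) = 1) →
        ∃ φ ∈ H, φ x = 0 := by
  have hl : DecomposableForms.InGeneralPosition l := fun T hT =>
    hgen T (by rwa [Module.finrank_fin_fun] at hT)
  obtain ⟨H, h1, h2⟩ := hl.exists_hyperplanes (by rw [Module.finrank_fin_fun]; omega)
    (by rw [Module.finrank_fin_fun]; omega) S
  exact ⟨H, h1, fun x hx hu => h2 x ⟨hx, fun i j => ⟨div_ne_zero (hx i) (hx j), hu i j⟩⟩⟩

/-- **Resultant equations**: finitely many `g` of degree `≤ m` with `Res(f, g) = r`. -/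
theorem resultant_equation {f : Polynomial ℤ}
    (hsep : (f.map (Int.castRingHom ℚ)).Separable) {m : ℕ} (hm : 2 * m < f.natDegree) {r : ℤ}
    (hr : r ≠ 0) :
    {g : Polynomial ℤ | g.natDegree ≤ m ∧ f.resultant g f.natDegree m = r}.Finite :=
  DecomposableForms.finite_resultant hsep hm hr

/-- **Resultant equations, sharpness**: `deg f = 2 m` does not suffice. -/
theorem resultant_equation_sharp :
    {g : Polynomial ℤ | g.natDegree ≤ 1 ∧
      (Polynomial.X ^ 2 - Polynomial.C 2 : Polynomial ℤ).resultant g 2 1 = 1}.Infinite := by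
  refine Set.infinite_of_injOn_mapsTo (s := {P : ℤ × ℤ | P.1 ^ 2 - 2 * P.2 ^ 2 = 1})
    (f := fun P => Polynomial.C P.2 * Polynomial.X + Polynomial.C P.1) ?_ ?_ siegel_degree_sharp
  · intro P _ Q _ h
    exact Prod.ext (by simpa using congrArg (Polynomial.coeff · 0) h)
      (by simpa [Polynomial.coeff_C, -eq_intCast] using congrArg (Polynomial.coeff · 1) h)
  · intro P hP
    exact ⟨Polynomial.natDegree_linear_le, (DecomposableForms.resultant_sq_sub_two _ _).trans hP⟩

end FA.Summary

end
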