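import Fermat.Agent.Neukirch.Decomposition
import Fermat.Agent.ArtinSchreier.Rat
import Fermat.Agent.TW.Frobenius

/-!
# Decomposition groups in the absolute Galois group of `ℚ`

The theorem of F. K. Schmidt: distinct places of `ℚ̄` have decomposition groups meeting trivially,
so each decomposition group is its own normaliser and contains the centraliser of each of its
non-trivial elements; and there is no non-trivial finite normal subgroup.
-/

set_option autoImplicit false
set_option linter.unusedSectionVars false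

noncomputable section

local notation "Qb" => AlgebraicClosure ℚ
local notation "GQ" => AlgebraicClosure ℚ ≃ₐ[ℚ] AlgebraicClosure ℚ

open scoped Pointwise

namespace Fermat.Agent.Neukirch

open FA.GalCoh

theorem exists_decompAt_eq {A : ValuationSubring Qb} {q : ℕ} [hq : Fact q.Prime]
    (hA : A.LiesOverPrime q) :
    ∃ g : GQ, g • padicPlace q = A ∧ A.decompositionSubgroup ℚ = decompAt q g := by
  obtain ⟨g, rfl⟩ := FA.TW.exists_smul_eq_of_liesOver hq.out (A := padicPlace q)
    (liesOverPrime_padicPlace q) hA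
  refine ⟨g, rfl, ?_⟩
  ext σ
  rw [mem_decompAt, range_loc]
  show σ • g • padicPlace q = g • padicPlace q ↔ (g⁻¹ * σ * g) • padicPlace q = padicPlace q
  rw [mul_smul, mul_smul, inv_smul_eq_iff]

end Fermat.Agent.Neukirch

namespace FA.Summary

open FA.GalCoh Fermat.Agent.Neukirch

/-- **F. K. Schmidt**: distinct places of `ℚ̄` have decomposition groups meeting trivially. -/
theorem decompositionGroup_inf_eq_bot {A B : ValuationSubring Qb} {q q' : ℕ} (hq : q.Prime)
    (hq' : q'.Prime) (hA : A.LiesOverPrime q) (hB : B.LiesOverPrime q') (hne : A ≠ B) :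
    A.decompositionSubgroup ℚ ⊓ B.decompositionSubgroup ℚ = ⊥ := by
  have : Fact q.Prime := ⟨hq⟩
  have : Fact q'.Prime := ⟨hq'⟩
  obtain ⟨g, hg, hgA⟩ := exists_decompAt_eq hA
  obtain ⟨g', hg', hgB⟩ := exists_decompAt_eq hB
  rw [hgA, hgB]
  refine decompAt_inf_eq_bot ?_
  by_contra h
  push Not at h
  obtain ⟨rfl, h⟩ := h
  rw [range_loc] at h
  refine hne ?_
  rw [← hg, ← hg', ← inv_smul_eq_iff.1 ((mul_smul _ _ _).symm.trans
    (MulAction.mem_stabilizer_iff.1 h))]

/-- Decomposition groups are their own normalisers. -/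
theorem decompositionGroup_normalizer {A : ValuationSubring Qb} {q : ℕ} (hq : q.Prime)
    (hA : A.LiesOverPrime q) :
    Subgroup.normalizer (A.decompositionSubgroup ℚ : Set GQ) = A.decompositionSubgroup ℚ := by
  have : Fact q.Prime := ⟨hq⟩
  obtain ⟨g, -, hgA⟩ := exists_decompAt_eq hA
  rw [hgA, normalizer_decompAt]

/-- The centraliser of a non-trivial element of a decomposition group lies in it. -/
theorem decompositionGroup_centralizer {A : ValuationSubring Qb} {q : ℕ} (hq : q.Prime)
    (hA : A.LiesOverPrime q) {σ : GQ} (hσ : σ ∈ A.decompositionSubgroup ℚ) (hσ1 : σ ≠ 1) :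
    Subgroup.centralizer {σ} ≤ A.decompositionSubgroup ℚ := fun τ hτ => by
  have : Fact q.Prime := ⟨hq⟩
  obtain ⟨g, -, hgA⟩ := exists_decompAt_eq hA
  rw [hgA] at hσ ⊢
  exact mem_decompAt_of_commute hσ hσ1 (Subgroup.mem_centralizer_singleton_iff.1 hτ)

/-- The absolute Galois group of `ℚ` has no non-trivial finite normal subgroup. -/
theorem absoluteGalois_rat_finite_normal (N : Subgroup GQ) [N.Normal] [Finite N] : N = ⊥ := by
  by_contra hne
  obtain ⟨σ, hσN, hσ1⟩ : ∃ σ ∈ N, σ ≠ 1 := by
    by_contra h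
    push Not at h
    exact hne ((Subgroup.eq_bot_iff_forall N).2 h)
  have hfin : IsOfFinOrder σ := by
    have h := isOfFinOrder_of_finite (⟨σ, hσN⟩ : N)
    exact Submonoid.isOfFinOrder_coe.2 h
  obtain ⟨ι, hι⟩ := FA.ArtinSchreier.exists_embedding_of_isOfFinOrder hfin hσ1
  let φ : GQ →* MulAut N := MulAut.conjNormal
  have hker : ∀ g ∈ φ.ker, g = 1 ∨ g = σ := fun g hg => by
    refine FA.ArtinSchreier.centralizer_conj hι ?_
    have h1 := congrArg Subtype.val (DFunLike.congr_fun (MonoidHom.mem_ker.1 hg) ⟨σ, hσN⟩)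
    rw [MulAut.conjNormal_apply, MulAut.one_apply] at h1
    exact mul_inv_eq_iff_eq_mul.1 h1
  have : Finite (GQ ⧸ φ.ker) := Finite.of_injective _ (QuotientGroup.kerLift_injective φ)
  have : Finite φ.ker := (Set.Finite.subset (Set.toFinite {1, σ}) fun g hg => hker g hg).to_subtype
  have : Finite GQ :=
    Finite.of_equiv _ (Subgroup.groupEquivQuotientProdSubgroup (s := φ.ker)).symm
  have : Fact (Nat.Prime 2) := ⟨Nat.prime_two⟩
  have hinj : Function.Injective fun k : ℕ => loc 2 (frobL 2 ^ k) := fun a b hab => by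
    have h1 := congrArg (frobExp (a + b + 1)) (loc_injective hab)
    rw [frobExp_frobL_pow, frobExp_frobL_pow] at h1
    have h2 := congrArg ZMod.val h1
    rwa [ZMod.val_natCast, ZMod.val_natCast, Nat.mod_eq_of_lt (by omega),
      Nat.mod_eq_of_lt (by omega)] at h2
  have : Finite ℕ := Finite.of_injective _ hinj
  exact not_finite ℕ

end FA.Summary
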