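import Fermat.Agent.JZeroInertia.FrobeniusAll
import Fermat.Agent.CuspClass.Eleven

/-!
# Summary: the decomposition group at `p` on `J₀(p)[M]`, `M` prime to `6 p` only

`p` is a prime, `U = U_p`, `n` the numerator of `(p - 1) / 12`, `g = dim S₂(Γ₀(p))` and `σ` a
Frobenius element at a place over `p`; `M` may share primes with `n`.

* `level_cuspidal`: `U = 1` on the multiples killed by `M` of a rational class of order `n`;
* `frobenius_on_all_fixed`: `σ = p U` on all the classes fixed by inertia, so `σ` is trivial on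
  their quotient by the toric ones (`frobenius_trivial_mod_toric`);
* `eichler_shimura_all`: `σ² y + p y = (p + 1) U σ y` on all of `J₀(p)[M]`;
* `killed_of_frobenius_pow_all`: a class fixed by inertia and by `σ ^ f` is killed by
  `p ^ (2 f) - 1`;
* `torsion_unramified_field_all`, `torsion_unramified_field_card_all`: for a field unramified at the
  place with `σ ^ f` trivial on it the points of order dividing `M` are killed by `p ^ (2 f) - 1`
  and are at most `gcd (M, p ^ (2 f) - 1) ^ g · gcd (M, n)` in number;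
* `torsion_padic_rational_all`: over `ℚ_p` they are killed by `p ^ 2 - 1`;
* `level_eleven_padic_torsion`: over `ℚ₁₁` the points of `J₀(11)` of order prime to `66` are killed
  by `5`, and there are at most `25` of them.

Not proved here: the primes `2`, `3` and the torsion of `p`-power order.
-/

set_option autoImplicit false
set_option linter.style.haveILetI false
set_option linter.unusedSectionVars false
set_option synthInstance.maxHeartbeats 400000
set_option maxHeartbeats 1000000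

noncomputable section

open ModularCurve FA.Mazur FA.JTorsion FA.ModField CongruenceSubgroup
open scoped MatrixGroups

namespace FA.DecompositionJZero.Summary

open FA.JZeroInertia

local notation "Qb" => AlgebraicClosure ℚ
local notation "GQ" => AlgebraicClosure ℚ ≃ₐ[ℚ] AlgebraicClosure ℚ

variable {p : ℕ} [hp : Fact p.Prime] [NeZero p]

/-- **`U_p = 1` on the cuspidal classes of order prime to `6 p`.** -/
theorem level_cuspidal (hp5 : 5 ≤ p) {A : ValuationSubring Qb} (hA : A.LiesOverPrime p) :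
    ∃ c : JZero p, addOrderOf c = eisensteinNumerator p ∧ (∀ σ : GQ, σ • c = c) ∧
      ∀ M : ℕ, M.Coprime (6 * p) → ∀ t : ℕ, M • (t • c) = 0 → upJ p p (t • c) = t • c := by
  obtain ⟨c, hord, hrat, h⟩ := exists_cuspToric hp5 hA
  refine ⟨c, hord, hrat, fun M hM t ht => ?_⟩
  obtain ⟨T, hT⟩ := h _ (Nat.Coprime.pow_left (eisensteinNumerator p + 1) hM)
  exact upJ_cusp_multiple hA hM hord hrat hT ht

/-- **`σ = p U` on all the fixed classes.** -/
theorem frobenius_on_all_fixed {M : ℕ} (hM : M.Coprime (6 * p)) {A : ValuationSubring Qb}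
    (hA : A.LiesOverPrime p) {σ : GQ} (hσ : A.IsFrobeniusAt σ p) (x : JZero p) (hx : M • x = 0)
    (hfix : ∀ τ ∈ A.inertiaSubgroupIn ℚ, τ • x = x) : σ • x = p • upJ p p x :=
  frobenius_fixed_all hA hσ hM (mem_fixI.2 ⟨hx, hfix⟩)

/-- **`σ` is trivial on the fixed classes modulo the toric ones.** -/
theorem frobenius_trivial_mod_toric (hp5 : 5 ≤ p) {M : ℕ} (hM : M.Coprime (6 * p))
    {A : ValuationSubring Qb} (hA : A.LiesOverPrime p) {σ : GQ} (hσ : A.IsFrobeniusAt σ p) :
    ∃ T : AddSubgroup (JZero p),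
      (∀ x ∈ T, M • x = 0 ∧ ∀ τ ∈ A.inertiaSubgroupIn ℚ, τ • x = x) ∧
      (∀ τ ∈ A.inertiaSubgroupIn ℚ, ∀ y : JZero p, M • y = 0 → τ • y - y ∈ T) ∧
      Nat.card T = M ^ Module.finrank ℂ (CuspForm (Gamma0 p) 2) ∧
      ∀ x : JZero p, M • x = 0 → (∀ τ ∈ A.inertiaSubgroupIn ℚ, τ • x = x) → σ • x - x ∈ T := by
  obtain ⟨c, hord, hrat, h⟩ := exists_cuspToric hp5 hA
  obtain ⟨T, hT⟩ := h M hM
  refine ⟨T, fun x hx => mem_fixI.1 (hT.1 hx), hT.2.1, hT.2.2.1, fun x hx hfix => ?_⟩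
  have hxF : x ∈ fixI p M A := mem_fixI.2 ⟨hx, hfix⟩
  have hM0 : M ≠ 0 := ne_zero_of_coprime_six_mul hM
  obtain ⟨t, ht⟩ := hT.2.2.2.2.1 x hxF
  have hn : eisensteinNumerator p • x ∈ T := by
    have h1 := AddSubgroup.nsmul_mem _ ht (eisensteinNumerator p)
    rwa [nsmul_sub, smul_comm _ t, ← hord, addOrderOf_nsmul_eq_zero, nsmul_zero, sub_zero,
      hord] at h1
  obtain ⟨e, he⟩ := numerator_dvd (p := p)
  rw [frobenius_fixed_all hA hσ hM hxF, show p • upJ p p x - x =
    p • (upJ p p x - x) + (p • x - x) by rw [nsmul_sub]; abel]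
  refine add_mem (AddSubgroup.nsmul_mem _ (hT.2.2.2.2.2.1 x hxF) _) ?_
  have h2 : p • x - x = (p - 1) • x := by
    rw [sub_eq_iff_eq_add, ← succ_nsmul, Nat.sub_add_cancel hp.out.one_le]
  rw [h2, he, mul_comm, mul_nsmul']
  exact AddSubgroup.nsmul_mem _ hn _

/-- **Eichler–Shimura at the level.** -/
theorem eichler_shimura_all {M : ℕ} (hM : M.Coprime (6 * p))
    {A : ValuationSubring Qb} (hA : A.LiesOverPrime p) {σ : GQ} (hσ : A.IsFrobeniusAt σ p)
    (y : JZero p) (hy : M • y = 0) :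
    σ • (σ • y) + p • y = (p + 1) • upJ p p (σ • y) := by
  have hpM := not_dvd_of_coprime_six_mul hM
  have hM0 : M ≠ 0 := ne_zero_of_coprime_six_mul hM
  have hw : M • (σ • y - upJ p p y) = 0 := by
    rw [nsmul_sub, nsmul_smul_eq_zero hy, ← map_nsmul, hy, map_zero, sub_zero]
  have h := frobenius_on_all_fixed hM hA hσ _ hw fun τ hτ =>
    FA.FrobeniusJZero.Summary.frobenius_mod_fixed hpM hA hσ y hy hτ
  rw [smul_sub, map_sub, nsmul_sub, show upJ p p (upJ p p y) = y from heckeLvl_sq hM0 hy,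
    ← heckeLvl_smul σ y] at h
  rw [succ_nsmul, sub_eq_iff_eq_add.1 h]
  abel

/-- **A class fixed by inertia and by `σ ^ f` is killed by `p ^ (2 f) - 1`.** -/
theorem killed_of_frobenius_pow_all {M : ℕ} (hM : M.Coprime (6 * p))
    {A : ValuationSubring Qb} (hA : A.LiesOverPrime p) {σ : GQ} (hσ : A.IsFrobeniusAt σ p)
    (x : JZero p) (hx : M • x = 0) (hfix : ∀ τ ∈ A.inertiaSubgroupIn ℚ, τ • x = x) {f : ℕ}
    (hf : σ ^ f • x = x) : (p ^ (2 * f) - 1) • x = 0 := by
  have hM0 : M ≠ 0 := ne_zero_of_coprime_six_mul hM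
  have h1 := frobenius_on_all_fixed hM hA hσ x hx hfix
  have h2 : σ • (σ • x) = (p * p) • x := by
    rw [h1, smul_nsmul_comm, ← heckeLvl_smul, h1, map_nsmul,
      show upJ p p (upJ p p x) = x from heckeLvl_sq hM0 hx, ← mul_nsmul']
  have h3 : ∀ j : ℕ, σ ^ (2 * j) • x = p ^ (2 * j) • x := fun j => by
    induction j with
    | zero => rw [mul_zero, pow_zero, one_smul, pow_zero, one_nsmul]
    | succ j ih =>
      rw [mul_add, mul_one, pow_add, pow_add, mul_smul, pow_two σ, mul_smul, h2, smul_nsmul_comm,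
        ih, ← mul_nsmul', ← pow_two, mul_comm]
  have h4 := h3 f
  rw [two_mul, pow_add, mul_smul, hf, hf, ← two_mul] at h4
  calc (p ^ (2 * f) - 1) • x = (p ^ (2 * f) - 1) • x + x - x := (add_sub_cancel_right _ _).symm
    _ = p ^ (2 * f) • x - x := by
      rw [← succ_nsmul, Nat.sub_add_cancel (Nat.one_le_pow _ _ hp.out.pos)]
    _ = 0 := by rw [← h4, sub_self]

/-- **Points over a field unramified at the place.** -/
theorem torsion_unramified_field_all {M : ℕ} (hM : M.Coprime (6 * p))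
    {A : ValuationSubring Qb} (hA : A.LiesOverPrime p) {σ : GQ} (hσ : A.IsFrobeniusAt σ p) {f : ℕ}
    (L : IntermediateField ℚ Qb) (hunr : ∀ τ ∈ A.inertiaSubgroupIn ℚ, ∀ a ∈ L, τ a = a)
    (hres : ∀ a ∈ L, (σ ^ f) a = a) (x : JZero p) (hx : M • x = 0)
    (hrat : ∀ ρ : GQ, (∀ a ∈ L, ρ a = a) → ρ • x = x) : (p ^ (2 * f) - 1) • x = 0 :=
  killed_of_frobenius_pow_all hM hA hσ x hx (fun τ hτ => hrat τ (hunr τ hτ)) (hrat _ hres)

theorem gcd_numerator_eq (M f : ℕ) :
    Nat.gcd (Nat.gcd M (p ^ (2 * f) - 1)) (eisensteinNumerator p) =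
      Nat.gcd M (eisensteinNumerator p) := by
  rw [Nat.gcd_assoc, Nat.gcd_eq_right ((numerator_dvd (p := p)).trans ?_)]
  simpa using Nat.sub_dvd_pow_sub_pow p 1 (2 * f)

/-- **Their number.** -/
theorem torsion_unramified_field_card_all {M : ℕ} (hM : M.Coprime (6 * p))
    {A : ValuationSubring Qb} (hA : A.LiesOverPrime p) {σ : GQ} (hσ : A.IsFrobeniusAt σ p) {f : ℕ}
    (L : IntermediateField ℚ Qb) (hunr : ∀ τ ∈ A.inertiaSubgroupIn ℚ, ∀ a ∈ L, τ a = a)
    (hres : ∀ a ∈ L, (σ ^ f) a = a) :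
    Nat.card {x : JZero p // M • x = 0 ∧ ∀ ρ : GQ, (∀ a ∈ L, ρ a = a) → ρ • x = x} ≤
      Nat.gcd M (p ^ (2 * f) - 1) ^ Module.finrank ℂ (CuspForm (Gamma0 p) 2) *
        Nat.gcd M (eisensteinNumerator p) := by
  set d := Nat.gcd M (p ^ (2 * f) - 1)
  have hd : d.Coprime (6 * p) := Nat.Coprime.coprime_dvd_left (Nat.gcd_dvd_left _ _) hM
  haveI : NeZero d := ⟨ne_zero_of_coprime_six_mul hd⟩
  haveI := finite_fixI (p := p) (A := A) d
  rw [← gcd_numerator_eq (p := p) M f, ← card_fixI_eq hA d hd]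
  exact Nat.card_le_card_of_injective (fun x => ⟨x.1, mem_fixI.2 ⟨addOrderOf_dvd_iff_nsmul_eq_zero.1
    (Nat.dvd_gcd (addOrderOf_dvd_of_nsmul_eq_zero x.2.1) (addOrderOf_dvd_of_nsmul_eq_zero
      (torsion_unramified_field_all hM hA hσ L hunr hres x.1 x.2.1 x.2.2))),
    fun τ hτ => x.2.2 τ (hunr τ hτ)⟩⟩) fun a b h => Subtype.ext (congrArg Subtype.val h :)

/-- **Over `ℚ_p`.** -/
theorem torsion_padic_rational_all {M : ℕ} (hM : M.Coprime (6 * p))
    {A : ValuationSubring Qb} (hA : A.LiesOverPrime p) (x : JZero p) (hx : M • x = 0)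
    (hrat : ∀ ρ ∈ A.decompositionSubgroup ℚ, ρ • x = x) :
    (p ^ 2 - 1) • x = 0 := by
  obtain ⟨σ, hσ⟩ := FA.Deform.exists_isFrobeniusAt hp.out hA
  exact killed_of_frobenius_pow_all hM hA hσ x hx (f := 1)
    (fun τ hτ => hrat τ (FA.LocalDef.inertia_le_decomposition hτ))
    (by rw [pow_one]; exact hrat σ hσ.mem_decompositionSubgroup)

/-- **Over `ℚ₁₁`**: the points of `J₀(11)` of order prime to `66` are killed by `5`, at most `25`
of them. -/
theorem level_eleven_padic_torsion [Fact (Nat.Prime 11)] [NeZero (11 : ℕ)] {M : ℕ}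
    (hM : M.Coprime 66) {A : ValuationSubring Qb} (hA : A.LiesOverPrime 11) :
    (∀ x : JZero 11, M • x = 0 → (∀ ρ ∈ A.decompositionSubgroup ℚ, ρ • x = x) → 5 • x = 0) ∧
      Nat.card {x : JZero 11 // M • x = 0 ∧ ∀ ρ ∈ A.decompositionSubgroup ℚ, ρ • x = x} ≤ 25 := by
  have h5 : ∀ x : JZero 11, M • x = 0 → (∀ ρ ∈ A.decompositionSubgroup ℚ, ρ • x = x) → 5 • x = 0 :=
    fun x hx hρ => by
      have h1 : 120 • x = 0 := torsion_padic_rational_all (p := 11) hM hA x hx hρ
      refine addOrderOf_dvd_iff_nsmul_eq_zero.1 ?_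
      have h2 : (addOrderOf x).Coprime 24 :=
        Nat.Coprime.coprime_dvd_left (addOrderOf_dvd_of_nsmul_eq_zero hx)
          ((hM.pow_right 3).coprime_dvd_right (by norm_num))
      exact h2.dvd_of_dvd_mul_right (by norm_num; exact addOrderOf_dvd_of_nsmul_eq_zero h1)
  refine ⟨h5, ?_⟩
  have hco : Nat.Coprime 5 (6 * 11) := by norm_num
  have hcard := card_fixI_eq (p := 11) hA 5 hco
  rw [FA.CuspClass.finrank_cuspForm_eleven, show eisensteinNumerator 11 = 5 by decide] at hcard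
  haveI : NeZero (5 : ℕ) := ⟨by norm_num⟩
  haveI := finite_fixI (p := 11) (A := A) 5
  let f : {x : JZero 11 // M • x = 0 ∧ ∀ ρ ∈ A.decompositionSubgroup ℚ, ρ • x = x} →
      fixI 11 5 A := fun x => ⟨x.1, mem_fixI.2 ⟨h5 x.1 x.2.1 x.2.2,
    fun τ hτ => x.2.2 τ (FA.LocalDef.inertia_le_decomposition hτ)⟩⟩
  refine (Nat.card_le_card_of_injective f
    fun a b h => Subtype.ext (congrArg Subtype.val h :)).trans_eq ?_
  rw [hcard]
  norm_num

end FA.DecompositionJZero.Summary
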