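import Fermat.Agent.DedekindConvexity.Main

/-!
# Rademacher's convexity bound for Dedekind zeta functions (1959)

No hypothesis on zeros. Let `E` be the entire continuation of `(s - 1) ζ_K`. For `0 < ε ≤ 1/4` one
`Y` serves all number fields: for `-ε ≤ σ ≤ 1 + ε` and every `t`,
`|E (σ + i t)| ≤ Y ^ n (|t| + 3) (|d| (|t| + 3) ^ n) ^ ((1 + ε - σ)/2)`. So in bounded degree
`ζ_K (1/2 + i t) = O_ε ((|d| (|t| + 3) ^ n) ^ (1/4 + ε))` and the residue is `O_ε (|d| ^ ε)`.
Explicit constants and subconvexity are not claimed.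
-/

set_option autoImplicit false

noncomputable section

universe u

open NumberField Module Filter Topology Set
open FA.FamilyZeroDensity FA.DedekindConvexity
open FA.DedekindZeroCount (cleared eq_cleared cleared_spec differentiable_cleared)
open scoped Real

namespace FA.DedekindConvexity.Summary

/-- **Rademacher's bound in the strip.** -/
theorem rademacher_bound {ε : ℝ} (hε : 0 < ε) (hε1 : ε ≤ 1 / 4) : ∃ Y : ℝ, 1 ≤ Y ∧
    ∀ (K : Type u) [Field K] [NumberField K] (E : ℂ → ℂ), Differentiable ℂ E →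
      (∀ s : ℂ, 1 < s.re → E s = (s - 1) * dedekindZeta K s) →
      ∀ σ t : ℝ, -ε ≤ σ → σ ≤ 1 + ε →
        ‖E (σ + t * Complex.I)‖ ≤ Y ^ finrank ℚ K * (|t| + 3) *
          (((discr K).natAbs : ℝ) * (|t| + 3) ^ finrank ℚ K) ^ ((1 + ε - σ) / 2) := by
  refine ⟨Real.exp (FA.HeckeBS.eulerConst (1 + ε) + 25), Real.one_le_exp
    (add_nonneg (FA.DedekindZF.eulerConst_nonneg _) (by norm_num)),
    fun K _ _ E hE hEL σ t h0 h1 => ?_⟩
  obtain rfl : E = cleared K := eq_cleared K hE hEL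
  exact norm_cleared_convexity K hε hε1 h0 h1 t

/-- **On the critical line, in bounded degree**: the exponent `1/4`. -/
theorem half_line_convexity (n : ℕ) {ε : ℝ} (hε : 0 < ε) : ∃ C : ℝ, 0 < C ∧
    ∀ (K : Type u) [Field K] [NumberField K] (E : ℂ → ℂ), Differentiable ℂ E →
      (∀ s : ℂ, 1 < s.re → E s = (s - 1) * dedekindZeta K s) →
      finrank ℚ K ≤ n → ∀ t : ℝ,
        ‖E (1 / 2 + t * Complex.I)‖ ≤ C * ‖(1 / 2 + t * Complex.I : ℂ) - 1‖ *
          (((discr K).natAbs : ℝ) * (|t| + 3) ^ n) ^ (1 / 4 + ε) := by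
  obtain ⟨η, hη⟩ : ∃ η, η = min ε (1 / 4) := ⟨_, rfl⟩
  have hη0 : 0 < η := hη ▸ lt_min hε (by norm_num)
  have hηε : η ≤ ε := hη ▸ min_le_left _ _
  obtain ⟨Y, hY, h⟩ := rademacher_bound.{u} hη0 (hη ▸ min_le_right _ _)
  refine ⟨7 * Y ^ n, by positivity, fun K _ _ E hE hEL hn t => ?_⟩
  have hb := h K E hE hEL (1 / 2) t (by linarith) (by linarith)
  rw [show ((1 / 2 : ℝ) : ℂ) + t * Complex.I = 1 / 2 + t * Complex.I by push_cast; ring] at hb
  refine hb.trans ?_
  have hd : (1 : ℝ) ≤ ((discr K).natAbs : ℝ) :=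
    Nat.one_le_cast.2 (Int.natAbs_pos.2 (NumberField.discr_ne_zero K))
  have hP : 1 ≤ |t| + 3 := by linarith [abs_nonneg t]
  have hN : |t| + 3 ≤ 7 * ‖(1 / 2 + t * Complex.I : ℂ) - 1‖ := by
    have a1 := Complex.abs_re_le_norm ((1 / 2 + t * Complex.I : ℂ) - 1)
    have a2 := Complex.abs_im_le_norm ((1 / 2 + t * Complex.I : ℂ) - 1)
    norm_num at a1 a2
    linarith
  have hbase : ((discr K).natAbs : ℝ) * (|t| + 3) ^ finrank ℚ K ≤
      ((discr K).natAbs : ℝ) * (|t| + 3) ^ n :=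
    mul_le_mul_of_nonneg_left (pow_le_pow_right₀ hP hn) (by linarith)
  have h1 : 1 ≤ ((discr K).natAbs : ℝ) * (|t| + 3) ^ n :=
    one_le_mul_of_one_le_of_one_le hd (one_le_pow₀ hP)
  refine (mul_le_mul (mul_le_mul (pow_le_pow_right₀ hY hn) hN (by linarith) (by positivity))
    ((Real.rpow_le_rpow (by positivity) hbase (by linarith)).trans
      (Real.rpow_le_rpow_of_exponent_le h1 (show (1 + η - 1 / 2) / 2 ≤ 1 / 4 + ε by linarith)))
    (by positivity) (by positivity)).trans_eq ?_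
  ring

/-- **The residue is `O (|d| ^ ε)` in bounded degree.** -/
theorem residue_le (n : ℕ) {ε : ℝ} (hε : 0 < ε) : ∃ C : ℝ, 0 < C ∧
    ∀ (K : Type u) [Field K] [NumberField K], finrank ℚ K ≤ n →
      dedekindZeta_residue K ≤ C * ((discr K).natAbs : ℝ) ^ ε := by
  obtain ⟨η, hη⟩ : ∃ η, η = min ε (1 / 4) := ⟨_, rfl⟩
  have hη0 : 0 < η := hη ▸ lt_min hε (by norm_num)
  have hηε : η ≤ ε := hη ▸ min_le_left _ _
  obtain ⟨Y, hY, h⟩ := rademacher_bound.{u} hη0 (hη ▸ min_le_right _ _)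
  refine ⟨Y ^ n * 3 * ((3 : ℝ) ^ n) ^ ε, by positivity, fun K _ _ hn => ?_⟩
  have hres : cleared K 1 = (dedekindZeta_residue K : ℂ) := by
    have h1 : Tendsto (fun s : ℝ => cleared K s) (𝓝[>] 1) (𝓝 (cleared K 1)) := by
      have := ((differentiable_cleared K).continuous.comp Complex.continuous_ofReal).tendsto 1
      simpa [Function.comp_def] using this.mono_left nhdsWithin_le_nhds
    refine tendsto_nhds_unique h1 ((tendsto_sub_one_mul_dedekindZeta_nhdsGT K).congr' ?_)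
    filter_upwards [self_mem_nhdsWithin] with s hs
    rw [cleared_spec K (by simpa using hs)]
  have hb := h K (cleared K) (differentiable_cleared K) (fun s hs => cleared_spec K hs) 1 0
    (by linarith) (by linarith)
  rw [show ((1 : ℝ) : ℂ) + ((0 : ℝ) : ℂ) * Complex.I = 1 by simp, hres, Complex.norm_real,
    abs_zero, zero_add] at hb
  refine (le_abs_self _).trans (hb.trans ?_)
  have hd : (1 : ℝ) ≤ ((discr K).natAbs : ℝ) :=
    Nat.one_le_cast.2 (Int.natAbs_pos.2 (NumberField.discr_ne_zero K))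
  have hb1 : ((discr K).natAbs : ℝ) * 3 ^ finrank ℚ K ≤ ((discr K).natAbs : ℝ) * 3 ^ n :=
    mul_le_mul_of_nonneg_left (pow_le_pow_right₀ (by norm_num) hn) (by linarith)
  have h1 : 1 ≤ ((discr K).natAbs : ℝ) * (3 : ℝ) ^ n :=
    one_le_mul_of_one_le_of_one_le hd (one_le_pow₀ (by norm_num))
  refine (mul_le_mul (mul_le_mul_of_nonneg_right (pow_le_pow_right₀ hY hn) (by norm_num))
    ((Real.rpow_le_rpow (by positivity) hb1 (by linarith)).trans
      (Real.rpow_le_rpow_of_exponent_le h1 (show (1 + η - 1) / 2 ≤ ε by linarith)))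
    (by positivity) (by positivity)).trans_eq ?_
  rw [Real.mul_rpow (by positivity) (by positivity)]
  ring

end FA.DedekindConvexity.Summary

end
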