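import Fermat.Agent.DedekindExplicit.Least

/-!
# The explicit formula of `ζ_K` and the prime ideal theorem of Lagarias and Odlyzko

Let `K` have degree `n` and discriminant `d`. The explicit formula for the moment of `Λ_K` has no
hypothesis, and its constants are absolute. The Riemann hypothesis for `ζ_K` is an argument: every
zero `z`, `0 < re z < 1`, of the entire continuation of `(s - 1) ζ_K` has `re z = 1/2`. On it, for
`x ≥ 2`, `ψ_K x` and `θ_K x` are `x + O (√x log x (log |d| + n log x))`, the number of prime ideals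
of norm at most `x` is `li x + O (√x (log |d| + n log x))`, and some unramified prime `p` is the
norm of a prime ideal with `p = O (log² (2 |d|))`, splitting completely if `K` is Galois.
-/

set_option autoImplicit false
set_option linter.style.haveILetI false

noncomputable section

universe u

open NumberField InfinitePlace IsDedekindDomain Module Ideal
open FA.DedekindPIT (mangoldtK momentSum psiK thetaK)
open FA.DedekindHadamard (xiMult)
open scoped Real Classical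

namespace FA.DedekindExplicit.Summary

/-- **The explicit formula**, with no hypothesis. -/
theorem explicit_formula : ∃ A : ℝ, ∀ (K : Type u) [Field K] [NumberField K], ∃ c : ℂ,
    ∀ y : ℝ, 1 ≤ y →
      (Summable fun ρ : ℂ => ‖(xiMult K ρ : ℂ) * ((y : ℂ) ^ (ρ + 1) / (ρ * (ρ + 1)))‖) ∧
      ‖(momentSum (mangoldtK K) y : ℂ) - ((y : ℂ) ^ 2 / 2 + c * y -
          ((nrRealPlaces K : ℂ) + nrComplexPlaces K - 1) * ((y * Real.log y : ℝ) : ℂ) -
            ∑' ρ : ℂ, (xiMult K ρ : ℂ) * ((y : ℂ) ^ (ρ + 1) / (ρ * (ρ + 1))))‖ ≤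
        A * (1 + Real.log ((discr K).natAbs : ℝ) + finrank ℚ K) * √y := by
  obtain ⟨A, -, h⟩ := exists_norm_leftInt.{u}
  refine ⟨A, fun K _ _ => ⟨linCoef K, fun y hy => ⟨summable_rawKer K hy, le_of_eq_of_le ?_
    (h K y (by linarith))⟩⟩⟩
  rw [momentSum_eq K hy]
  simp only [unitCount, rawKer]
  push_cast
  ring_nf

/-- **`ψ_K` on the Riemann hypothesis.** -/
theorem psi_sharp_of_RH : ∃ A : ℝ, ∀ (K : Type u) [Field K] [NumberField K],
    (∀ E : ℂ → ℂ, Differentiable ℂ E → (∀ s : ℂ, 1 < s.re → E s = (s - 1) * dedekindZeta K s) →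
      ∀ z : ℂ, E z = 0 → 0 < z.re → z.re < 1 → z.re = 1 / 2) →
    ∀ x : ℝ, 2 ≤ x → |psiK K x - x| ≤
      A * (√x * Real.log x * (Real.log ((discr K).natAbs : ℝ) + finrank ℚ K * Real.log x)) := by
  obtain ⟨A, -, h⟩ := exists_psiK_sharp.{u}
  refine ⟨A / (1 - 1 / 2), fun K _ _ hRH x hx => ?_⟩
  rw [Real.sqrt_eq_rpow]
  exact h K (1 / 2) le_rfl (by norm_num) (zerosLeftOf_of_RH K hRH) x hx

/-- **`θ_K` on the Riemann hypothesis.** -/
theorem theta_sharp_of_RH : ∃ A : ℝ, ∀ (K : Type u) [Field K] [NumberField K],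
    (∀ E : ℂ → ℂ, Differentiable ℂ E → (∀ s : ℂ, 1 < s.re → E s = (s - 1) * dedekindZeta K s) →
      ∀ z : ℂ, E z = 0 → 0 < z.re → z.re < 1 → z.re = 1 / 2) →
    ∀ x : ℝ, 2 ≤ x → |thetaK K x - x| ≤
      A * (√x * Real.log x * (Real.log ((discr K).natAbs : ℝ) + finrank ℚ K * Real.log x)) := by
  obtain ⟨A, -, h⟩ := exists_thetaK_sharp.{u}
  refine ⟨A / (1 - 1 / 2), fun K _ _ hRH x hx => ?_⟩
  rw [Real.sqrt_eq_rpow]
  exact h K (1 / 2) le_rfl (by norm_num) (zerosLeftOf_of_RH K hRH) x hx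

/-- **The prime ideals of norm at most `x` on the Riemann hypothesis.** -/
theorem count_sharp_of_RH : ∃ A : ℝ, ∀ (K : Type u) [Field K] [NumberField K],
    (∀ E : ℂ → ℂ, Differentiable ℂ E → (∀ s : ℂ, 1 < s.re → E s = (s - 1) * dedekindZeta K s) →
      ∀ z : ℂ, E z = 0 → 0 < z.re → z.re < 1 → z.re = 1 / 2) →
    ∀ x : ℝ, 2 ≤ x →
      |(Nat.card {v : HeightOneSpectrum (𝓞 K) // (absNorm v.asIdeal : ℝ) ≤ x} : ℝ) -
          ∫ t in (2 : ℝ)..x, 1 / Real.log t| ≤
        A * (√x * (Real.log ((discr K).natAbs : ℝ) + finrank ℚ K * Real.log x)) := by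
  obtain ⟨A, -, h⟩ := exists_piK_sharp.{u}
  refine ⟨A / (1 - 1 / 2), fun K _ _ hRH x hx => ?_⟩
  have hc : (Nat.card {v : HeightOneSpectrum (𝓞 K) // (absNorm v.asIdeal : ℝ) ≤ x} : ℝ) =
      FA.DedekindPIT.piK K x := by
    rw [FA.DedekindPIT.piK, Nat.subtype_card (FA.Hecke.primesLE K ⌊x⌋₊) fun v => by
      rw [FA.Hecke.mem_primesLE, Nat.le_floor_iff (by linarith)]]
  rw [hc, Real.sqrt_eq_rpow]
  exact h K (1 / 2) le_rfl (by norm_num) (zerosLeftOf_of_RH K hRH) x hx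

/-- **The least unramified prime of degree one on the Riemann hypothesis.** -/
theorem least_degree_one_prime_of_RH : ∃ A : ℝ, 0 < A ∧
    ∀ (K : Type u) [Field K] [NumberField K],
    (∀ E : ℂ → ℂ, Differentiable ℂ E → (∀ s : ℂ, 1 < s.re → E s = (s - 1) * dedekindZeta K s) →
      ∀ z : ℂ, E z = 0 → 0 < z.re → z.re < 1 → z.re = 1 / 2) →
    ∃ (p : ℕ) (v : HeightOneSpectrum (𝓞 K)), p.Prime ∧ ¬ (p : ℤ) ∣ discr K ∧
      absNorm v.asIdeal = p ∧ (p : ℝ) ≤ A * Real.log (2 * ((discr K).natAbs : ℝ)) ^ 2 := by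
  obtain ⟨A, hA, h⟩ := exists_degree_one_prime.{u}
  exact ⟨A, hA, h⟩

/-- **The least prime splitting completely on the Riemann hypothesis.** -/
theorem least_split_prime_of_RH : ∃ A : ℝ, 0 < A ∧
    ∀ (K : Type u) [Field K] [NumberField K] [IsGalois ℚ K],
    (∀ E : ℂ → ℂ, Differentiable ℂ E → (∀ s : ℂ, 1 < s.re → E s = (s - 1) * dedekindZeta K s) →
      ∀ z : ℂ, E z = 0 → 0 < z.re → z.re < 1 → z.re = 1 / 2) →
    ∃ p : ℕ, p.Prime ∧ ¬ (p : ℤ) ∣ discr K ∧
      ((span {(p : ℤ)}).primesOver (𝓞 K)).ncard = finrank ℚ K ∧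
      (p : ℝ) ≤ A * Real.log (2 * ((discr K).natAbs : ℝ)) ^ 2 := by
  obtain ⟨A, hA, h⟩ := exists_split_prime.{u}
  exact ⟨A, hA, h⟩

end FA.DedekindExplicit.Summary

end
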