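import Fermat.Agent.DedekindHadamard.Criteria

/-!
# Hadamard's product for `ξ_K`, Stark's identity and criteria for the Riemann hypothesis of `ζ_K`

For a number field `K` let `ξ = xiFun K`, entire, `ξ (1 - s) = ξ s`, equal to
`s (s - 1) |d| ^ (s/2) Γℝ ^ r₁ Γℂ ^ r₂ ζ_K s` on `1 < re s`; its zeros `ρ`, with multiplicities
`m`, are those of any continuation `E` of `(s - 1) ζ_K` in `0 < re s < 1`. The product over the
factors `((1 - s/ρ) exp (s/ρ)) ^ m` and the pairs `m (1/(s - ρ) + 1/ρ)` converge absolutely, as do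
the sums of `m re (1/(s - ρ))` and `m re (1/ρ)`; nothing is claimed about `∑ m / ρ` itself.
Stark's identity evaluates the former on `re s > 1`, the constant of Euler and Kronecker the
latter, so that Ihara's lower bound for this constant follows. The Riemann hypothesis for `ζ_K` is
the positivity of `re (ξ'/ξ)` off the zero-free half plane `re s > 1/2`, and the strict growth of
`|ξ|` there.

Li's coefficients for `ζ_K` and bounds uniform in `K` are not claimed.
-/

set_option autoImplicit false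

noncomputable section

universe u

open Complex NumberField InfinitePlace Set Filter Topology FA.DedekindZeroCount FA.DedekindHadamard
open FA.HeckeBS (xiFun)
open Real (eulerMascheroniConstant)
open scoped Real ComplexConjugate

namespace FA.DedekindHadamard.Summary

variable {K : Type u} [Field K] [NumberField K] {E : ℂ → ℂ}

/-- **The function `ξ_K`.** -/
theorem xi_spec (K : Type u) [Field K] [NumberField K] :
    Differentiable ℂ (xiFun K) ∧ (∀ s, xiFun K (1 - s) = xiFun K s) ∧ xiFun K 0 ≠ 0 ∧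
      (∀ s : ℂ, 1 < s.re → xiFun K s = s * (s - 1) * (((discr K).natAbs : ℂ) ^ (s / 2) *
        (Gammaℝ s ^ nrRealPlaces K * Gammaℂ s ^ nrComplexPlaces K) * dedekindZeta K s)) ∧
      ∃ E : ℂ → ℂ, Differentiable ℂ E ∧
        ∀ s : ℂ, 1 < s.re → E s = (s - 1) * dedekindZeta K s :=
  ⟨FA.HeckeBS.differentiable_xiFun K, FA.HeckeBS.xiFun_one_sub K, xiFun_zero_ne K,
    fun _ hs => FA.HeckeBS.xiFun_half K hs,
    cleared K, differentiable_cleared K, fun _ hs => cleared_spec K hs⟩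

/-- The multiplicity is the order of vanishing, supported on the zeros of `E` in the strip. -/
theorem multiplicity_spec (hE : Differentiable ℂ E)
    (hEL : ∀ s : ℂ, 1 < s.re → E s = (s - 1) * dedekindZeta K s) (ρ : ℂ) :
    xiMult K ρ = analyticOrderNatAt (xiFun K) ρ ∧
      (xiMult K ρ ≠ 0 ↔ E ρ = 0 ∧ 0 < ρ.re ∧ ρ.re < 1) ∧
      (0 < ρ.re → xiMult K ρ = analyticOrderNatAt E ρ) := by
  obtain rfl := eq_cleared K hE hEL
  refine ⟨rfl, ?_, fun h => xiMult_eq_order K h⟩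
  rw [xiMult_ne_zero_iff]
  constructor
  · intro h
    obtain ⟨a, b, c, -⟩ := (mem_stripZeros_iff K (T := |ρ.im|)).2 ⟨h, le_rfl⟩
    exact ⟨a, b, c⟩
  · exact fun h => ((mem_stripZeros_iff K (T := |ρ.im|)).1 ⟨h.1, h.2.1, h.2.2, le_rfl⟩).1

/-- **The partial fractions of `ξ'/ξ`.** -/
theorem partial_fractions {s : ℂ} (hs : xiFun K s ≠ 0) :
    (Summable fun ρ : ℂ => ‖(xiMult K ρ : ℂ) * ((s - ρ)⁻¹ + ρ⁻¹)‖) ∧
      HasSum (fun ρ : ℂ => (xiMult K ρ : ℂ) * ((s - ρ)⁻¹ + ρ⁻¹))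
        (deriv (xiFun K) s / xiFun K s - deriv (xiFun K) 0 / xiFun K 0) :=
  ⟨summable_norm_fracPart (FA.HeckeBS.differentiable_xiFun K) (xiFun_zero_ne K) (growC_pos K).le
    (grows_xiFun K) s, hasSum_xiFrac K hs⟩

/-- **Hadamard's product**, with `re B = -∑ m re (1/ρ)`. -/
theorem hadamard_product (K : Type u) [Field K] [NumberField K] (s : ℂ) :
    Multipliable (fun ρ : {ρ : ℂ // xiMult K ρ ≠ 0} =>
        ((1 - s / (ρ : ℂ)) * cexp (s / (ρ : ℂ))) ^ xiMult K (ρ : ℂ)) ∧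
      xiFun K s = xiFun K 0 * cexp (deriv (xiFun K) 0 / xiFun K 0 * s) *
        ∏' ρ : {ρ : ℂ // xiMult K ρ ≠ 0},
          ((1 - s / (ρ : ℂ)) * cexp (s / (ρ : ℂ))) ^ xiMult K (ρ : ℂ) ∧
      HasSum (fun ρ : ℂ => (xiMult K ρ : ℝ) * (ρ⁻¹).re)
        (-(deriv (xiFun K) 0 / xiFun K 0).re) := by
  refine ⟨(hasProd_canFactor (FA.HeckeBS.differentiable_xiFun K) (xiFun_zero_ne K) (growC_pos K)
    (grows_xiFun K) s).multipliable, ?_, ?_⟩
  · have h := eq_canProd (FA.HeckeBS.differentiable_xiFun K) (xiFun_zero_ne K) (growC_pos K)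
      (grows_xiFun K) s
    rwa [logDeriv_apply] at h
  · have h := (summable_re_inv K).hasSum
    rw [tsum_re_inv_eq_neg] at h
    exact h

/-- **`re (ξ'/ξ) s = ∑ m re (1/(s - ρ))`.** -/
theorem re_xi_logDeriv {s : ℂ} (hs : xiFun K s ≠ 0) :
    HasSum (fun ρ : ℂ => (xiMult K ρ : ℝ) * ((s - ρ)⁻¹).re)
      (deriv (xiFun K) s / xiFun K s).re :=
  hasSum_reTerm K hs

/-- **Stark's identity.** -/
theorem stark_sum {s : ℂ} (hs : 1 < s.re) :
    HasSum (fun ρ : ℂ => (xiMult K ρ : ℝ) * ((s - ρ)⁻¹).re)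
      (Real.log ((discr K).natAbs : ℝ) / 2 + (s⁻¹).re + ((s - 1)⁻¹).re +
        ((nrRealPlaces K : ℂ) * ((Complex.digamma (s / 2) - Real.log π) / 2) +
          (nrComplexPlaces K : ℂ) * (Complex.digamma s - Real.log (2 * π))).re +
        (deriv (dedekindZeta K) s / dedekindZeta K s).re) :=
  stark_identity K hs

/-- **`∑ m re (1/ρ)` through the constant of Euler and Kronecker**, and the latter's lower
bound. -/
theorem euler_kronecker (K : Type u) [Field K] [NumberField K] :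
    ∃ γK : ℝ,
      Tendsto (fun σ : ℝ => (deriv (dedekindZeta K) (σ : ℂ) / dedekindZeta K (σ : ℂ)).re +
        (σ - 1)⁻¹) (𝓝[>] 1) (𝓝 γK) ∧
      HasSum (fun ρ : ℂ => (xiMult K ρ : ℝ) * (ρ⁻¹).re)
        (1 + Real.log ((discr K).natAbs : ℝ) / 2 + γK -
          (nrRealPlaces K * (eulerMascheroniConstant + Real.log (4 * π)) / 2 +
            nrComplexPlaces K * (eulerMascheroniConstant + Real.log (2 * π)))) ∧
      (nrRealPlaces K : ℝ) * (eulerMascheroniConstant + Real.log (4 * π)) / 2 +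
          nrComplexPlaces K * (eulerMascheroniConstant + Real.log (2 * π)) - 1 -
        Real.log ((discr K).natAbs : ℝ) / 2 < γK :=
  ⟨ekConst K, tendsto_ekConst K, hasSum_re_inv_closed K, ekConst_gt K⟩

/-- **The Riemann hypothesis for `ζ_K` as a positivity.** -/
theorem rh_iff_re_pos (hE : Differentiable ℂ E)
    (hEL : ∀ s : ℂ, 1 < s.re → E s = (s - 1) * dedekindZeta K s) :
    (∀ ρ : ℂ, E ρ = 0 → 0 < ρ.re → ρ.re < 1 → ρ.re = 1 / 2) ↔
      ∀ s : ℂ, 1 / 2 < s.re →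
        xiFun K s ≠ 0 ∧ 0 < (deriv (xiFun K) s / xiFun K s).re := by
  obtain rfl := eq_cleared K hE hEL
  refine ⟨fun h s hs => ⟨fun h0 => hs.ne' (re_eq_half_of_rh K h h0), re_xiLog_pos_of_rh K h hs⟩,
    fun h => rh_of_increasing K (xiIncreasing_half_of_pos K fun s hs => (h s hs).2)⟩

/-- **The Riemann hypothesis for `ζ_K` as the growth of `|ξ|`**, which excludes zeros there. -/
theorem rh_iff_norm_strictMono (hE : Differentiable ℂ E)
    (hEL : ∀ s : ℂ, 1 < s.re → E s = (s - 1) * dedekindZeta K s) :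
    (∀ ρ : ℂ, E ρ = 0 → 0 < ρ.re → ρ.re < 1 → ρ.re = 1 / 2) ↔
      (∀ t : ℝ, StrictMonoOn (fun σ : ℝ => ‖xiFun K ((σ : ℂ) + t * I)‖) (Ici (1 / 2))) ∧
        ∀ s : ℂ, 1 / 2 < s.re → xiFun K s ≠ 0 := by
  obtain rfl := eq_cleared K hE hEL
  exact ⟨fun h => ⟨xiIncreasing_half_of_pos K fun _ hs => re_xiLog_pos_of_rh K h hs,
    fun s hs h0 => hs.ne' (re_eq_half_of_rh K h h0)⟩, fun h => rh_of_increasing K h.1⟩

/-- **Unconditionally `|ξ|` increases strictly on `re s ≥ 1`**, and the zeros of `ξ'` lie in the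
open strip, on the line under the Riemann hypothesis. -/
theorem norm_xi_strictMono (hE : Differentiable ℂ E)
    (hEL : ∀ s : ℂ, 1 < s.re → E s = (s - 1) * dedekindZeta K s) :
    (∀ t : ℝ, StrictMonoOn (fun σ : ℝ => ‖xiFun K ((σ : ℂ) + t * I)‖) (Ici 1)) ∧
      ∀ s : ℂ, deriv (xiFun K) s = 0 → (0 < s.re ∧ s.re < 1) ∧
        ((∀ ρ : ℂ, E ρ = 0 → 0 < ρ.re → ρ.re < 1 → ρ.re = 1 / 2) → s.re = 1 / 2) := by
  obtain rfl := eq_cleared K hE hEL
  exact ⟨xiIncreasing_one K,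
    fun _ h => ⟨deriv_xi_zero_strip K h, fun hG => deriv_xi_zero_line K hG h⟩⟩

end FA.DedekindHadamard.Summary

end
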