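import Fermat.Agent.DedekindLittlewoodBound.Main

/-!
# Littlewood's bound for Dedekind zeta functions and Lindelöf's hypothesis for the discriminant

Let `E` be the entire continuation of `(s - 1) ζ_K`. The Riemann hypothesis for `E` is an argument
and is never assumed. With `G = log √|d| + n log (|t| + 3) + 3` and one constant for all fields,
`|E s| ≤ |s - 1| exp (C G / log (G/n + 3))` at `s = 1/2 + i t`, and on `σ ≤ 2` the reverse bound
holds once `σ - 1/2 ≥ 32 / log (G/n + 3)`. So in bounded degree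
`ζ_K (1/2 + i t) = O_ε ((|d| (|t| + 3) ^ n) ^ ε)`: the hypothesis of Lindelöf in both aspects.
-/

set_option autoImplicit false

noncomputable section

universe u

open NumberField Module Filter Topology Set
open FA.TsfasmanVladut FA.DedekindHadamard FA.FamilyZeroDensity FA.DedekindLittlewoodBound
open FA.DedekindZeroCount (cleared eq_cleared)
open scoped Real

namespace FA.DedekindLittlewoodBound.Summary

/-- **Littlewood's bound on the critical line.** -/
theorem half_line_bound : ∃ C : ℝ, 0 < C ∧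
    ∀ (K : Type u) [Field K] [NumberField K] (E : ℂ → ℂ), Differentiable ℂ E →
      (∀ s : ℂ, 1 < s.re → E s = (s - 1) * dedekindZeta K s) →
      (∀ z : ℂ, E z = 0 → 0 < z.re → z.re < 1 → z.re = 1 / 2) →
      ∀ t G : ℝ, G = Real.log ((discr K).natAbs : ℝ) / 2 +
        finrank ℚ K * Real.log (|t| + 3) + 3 →
        ‖E (1 / 2 + t * Complex.I)‖ ≤ ‖(1 / 2 + t * Complex.I : ℂ) - 1‖ *
          Real.exp (C * G / Real.log (G / finrank ℚ K + 3)) := by
  obtain ⟨C, hC, h⟩ := exists_log_norm_bounds.{u}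
  refine ⟨C + 6, by linarith, fun K _ _ E hE hEL hRH t G hG => ?_⟩
  obtain rfl : E = cleared K := eq_cleared K hE hEL
  have hb := (h K hRH t G hG).1 (1 / 2) le_rfl (by norm_num)
  rw [show pt (1 / 2) t = 1 / 2 + t * Complex.I by simp [pt]] at hb
  refine hb.trans ?_
  have hp : (1 : ℝ) ≤ finrank ℚ K := Nat.one_le_cast.2 finrank_pos
  have hl : 1 ≤ Real.log (|t| + 3) := by
    rw [Real.le_log_iff_exp_le (by positivity)]
    linarith [Real.exp_one_lt_d9, abs_nonneg t]
  have hG1 : (finrank ℚ K : ℝ) ≤ G := by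
    rw [hG]
    linarith [Real.log_natCast_nonneg (discr K).natAbs,
      mul_le_mul_of_nonneg_left hl (Nat.cast_nonneg (α := ℝ) (finrank ℚ K))]
  obtain ⟨Q, hQ⟩ : ∃ Q, Q = G / (finrank ℚ K : ℝ) := ⟨_, rfl⟩
  rw [← hQ]
  have hQ1 : 1 ≤ Q := by rw [hQ, le_div_iff₀ (by linarith)]; linarith
  have hGQ : G = Q * finrank ℚ K := by rw [hQ, div_mul_cancel₀ _ (by linarith)]
  have hlQ : 0 < Real.log (Q + 3) := Real.log_pos (by linarith)
  have h6 : 2 ≤ 6 * G / Real.log (Q + 3) := by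
    rw [le_div_iff₀ hlQ]
    linarith [Real.log_le_sub_one_of_pos (show 0 < Q + 3 by linarith),
      show Q ≤ G from hGQ ▸ le_mul_of_one_le_right (by linarith) hp]
  have h3 : |t| + 1 ≤ ‖(1 / 2 + t * Complex.I : ℂ) - 1‖ * Real.exp 2 := by
    have a1 := Complex.abs_re_le_norm ((1 / 2 + t * Complex.I : ℂ) - 1)
    have a2 := Complex.abs_im_le_norm ((1 / 2 + t * Complex.I : ℂ) - 1)
    norm_num at a1 a2
    have a3 := mul_le_mul_of_nonneg_left
      (show (3 : ℝ) ≤ Real.exp 2 by linarith [Real.add_one_le_exp 2])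
      (norm_nonneg ((1 / 2 + t * Complex.I : ℂ) - 1))
    linarith
  refine (mul_le_mul_of_nonneg_right h3 (Real.exp_pos _).le).trans ?_
  rw [mul_assoc, ← Real.exp_add]
  refine mul_le_mul_of_nonneg_left (Real.exp_le_exp.2 ?_) (norm_nonneg _)
  rw [add_mul, add_div]
  linarith

/-- **From both sides right of the line.** -/
theorem two_sided_bound : ∃ C : ℝ, 0 < C ∧
    ∀ (K : Type u) [Field K] [NumberField K] (E : ℂ → ℂ), Differentiable ℂ E →
      (∀ s : ℂ, 1 < s.re → E s = (s - 1) * dedekindZeta K s) →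
      (∀ z : ℂ, E z = 0 → 0 < z.re → z.re < 1 → z.re = 1 / 2) →
      ∀ σ t G : ℝ, G = Real.log ((discr K).natAbs : ℝ) / 2 +
        finrank ℚ K * Real.log (|t| + 3) + 3 →
        1 / 2 + 32 / Real.log (G / finrank ℚ K + 3) ≤ σ → σ ≤ 2 →
        (|t| + 1) * Real.exp (-(C * G / Real.log (G / finrank ℚ K + 3))) ≤
            ‖E (σ + t * Complex.I)‖ ∧
          ‖E (σ + t * Complex.I)‖ ≤
            (|t| + 1) * Real.exp (C * G / Real.log (G / finrank ℚ K + 3)) := by
  obtain ⟨C, hC, h⟩ := exists_log_norm_bounds.{u}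
  refine ⟨C, hC, fun K _ _ E hE hEL hRH σ t G hG hσ hσ2 => ?_⟩
  obtain rfl : E = cleared K := eq_cleared K hE hEL
  refine ⟨(h K hRH t G hG).2 σ hσ hσ2, (h K hRH t G hG).1 σ ?_ hσ2⟩
  have hG0 : 0 ≤ G := by
    rw [hG]
    linarith [Real.log_natCast_nonneg (discr K).natAbs, mul_nonneg
      (Nat.cast_nonneg (α := ℝ) (finrank ℚ K))
      (Real.log_nonneg (show 1 ≤ |t| + 3 by linarith [abs_nonneg t]))]
  have : 0 ≤ 32 / Real.log (G / finrank ℚ K + 3) := div_nonneg (by norm_num)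
    (Real.log_nonneg (by linarith [div_nonneg hG0 (Nat.cast_nonneg (α := ℝ) (finrank ℚ K))]))
  linarith

/-- **Lindelöf's hypothesis for the discriminant and the height**, in bounded degree. -/
theorem lindelof_discriminant (n : ℕ) {ε : ℝ} (hε : 0 < ε) : ∃ C : ℝ, 0 < C ∧
    ∀ (K : Type u) [Field K] [NumberField K] (E : ℂ → ℂ), Differentiable ℂ E →
      (∀ s : ℂ, 1 < s.re → E s = (s - 1) * dedekindZeta K s) →
      (∀ z : ℂ, E z = 0 → 0 < z.re → z.re < 1 → z.re = 1 / 2) →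
      finrank ℚ K ≤ n → ∀ t : ℝ,
        ‖E (1 / 2 + t * Complex.I)‖ ≤ C * ‖(1 / 2 + t * Complex.I : ℂ) - 1‖ *
          (((discr K).natAbs : ℝ) * (|t| + 3) ^ n) ^ ε := by
  obtain ⟨C₀, hC₀, h⟩ := half_line_bound.{u}
  refine ⟨Real.exp (ε * 3 + C₀ * (n * Real.exp (C₀ / ε))), Real.exp_pos _,
    fun K _ _ E hE hEL hRH hn t => ?_⟩
  obtain ⟨G, hG⟩ : ∃ G, G = Real.log ((discr K).natAbs : ℝ) / 2 +
    finrank ℚ K * Real.log (|t| + 3) + 3 := ⟨_, rfl⟩
  refine (h K E hE hEL hRH t G hG).trans ?_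
  rw [mul_comm (Real.exp _) ‖_‖, mul_assoc]
  refine mul_le_mul_of_nonneg_left ?_ (norm_nonneg _)
  have ht : 0 < |t| + 3 := by positivity
  have hl : 1 ≤ Real.log (|t| + 3) := by
    rw [Real.le_log_iff_exp_le ht]
    linarith [Real.exp_one_lt_d9, abs_nonneg t]
  have hd : 0 < ((discr K).natAbs : ℝ) :=
    Nat.cast_pos.2 (Int.natAbs_pos.2 (NumberField.discr_ne_zero K))
  have hd0 := Real.log_natCast_nonneg (discr K).natAbs
  rw [Real.rpow_def_of_pos (by positivity), Real.log_mul hd.ne' (by positivity), Real.log_pow,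
    ← Real.exp_add]
  refine Real.exp_le_exp.2 ?_
  obtain ⟨m, hm⟩ : ∃ m : ℝ, m = (finrank ℚ K : ℝ) := ⟨_, rfl⟩
  rw [← hm] at hG ⊢
  have hm1 : 1 ≤ m := hm ▸ Nat.one_le_cast.2 finrank_pos
  have hmn : m ≤ n := hm ▸ Nat.cast_le.2 hn
  have hml := mul_le_mul_of_nonneg_right hmn (show 0 ≤ Real.log (|t| + 3) by linarith)
  have hG0 : 0 ≤ G := by
    rw [hG]
    linarith [mul_nonneg (show 0 ≤ m by linarith) (show 0 ≤ Real.log (|t| + 3) by linarith)]
  have hGu : ε * G ≤ (Real.log ((discr K).natAbs : ℝ) + n * Real.log (|t| + 3)) * ε + ε * 3 := by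
    rw [hG]
    linarith [mul_le_mul_of_nonneg_left hml hε.le, mul_nonneg hε.le hd0]
  have hQ3 : 3 ≤ G / m + 3 := le_add_of_nonneg_left (div_nonneg hG0 (by linarith))
  have hlog : 1 ≤ Real.log (G / m + 3) := by
    rw [Real.le_log_iff_exp_le (by linarith)]
    linarith [Real.exp_one_lt_d9]
  have hlhs : C₀ * G / Real.log (G / m + 3) ≤ ε * G + C₀ * (n * Real.exp (C₀ / ε)) := by
    have hX : 0 ≤ C₀ * (n * Real.exp (C₀ / ε)) := by positivity
    rcases le_total (Real.exp (C₀ / ε)) (G / m + 3) with hb | hb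
    · have hb' : C₀ / ε ≤ Real.log (G / m + 3) := (Real.le_log_iff_exp_le (by linarith)).2 hb
      rw [div_le_iff₀ hε] at hb'
      have : C₀ * G / Real.log (G / m + 3) ≤ ε * G := by
        rw [div_le_iff₀ (by linarith)]
        linarith [mul_le_mul_of_nonneg_right hb' hG0]
      linarith
    · have hGm : G / m ≤ Real.exp (C₀ / ε) := by linarith
      rw [div_le_iff₀ (by linarith)] at hGm
      have h1 := div_le_self (mul_nonneg hC₀.le hG0) hlog
      have h2 := mul_le_mul_of_nonneg_left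
        (hGm.trans (mul_le_mul_of_nonneg_left hmn (Real.exp_pos _).le)) hC₀.le
      linarith [mul_nonneg hε.le hG0]
  linarith

end FA.DedekindLittlewoodBound.Summary

end
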