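import Fermat.Agent.DedekindMultiplicity.Main

/-!
# Zeros of Dedekind zeta functions in short windows and the multiplicity on the line

Let `E` be the entire continuation of `(s - 1) ζ_K`. The Riemann hypothesis for `E` is an argument
and is never assumed. With `G = log √|d| + n log (|t| + 3) + 3` the ordinates in
`[t - 1/log G, t + 1/log G]` number `O (G / log G)`, with one constant for every field of every
degree; so does the order of vanishing at `1/2 + t i`. For `|t| ≤ T` and `|d| ≥ 16` that order is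
`O_T (log |d| / log log |d|)`.
-/

set_option autoImplicit false

noncomputable section

universe u

open NumberField Module Filter Topology Set
open FA.TsfasmanVladut FA.DedekindHadamard FA.DedekindZeroDistribution FA.FamilyZeroDensity
open FA.DedekindMultiplicity
open FA.DedekindZeroCount (cleared mem_stripZeros_iff finite_stripZeros eq_cleared)
open scoped Real

namespace FA.DedekindMultiplicity.Summary

private theorem countIcc_eq (K : Type u) [Field K] [NumberField K] (a b : ℝ) :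
    countIcc K a b =
      ((∑ᶠ ρ ∈ {ρ : ℂ | cleared K ρ = 0 ∧ 0 < ρ.re ∧ ρ.re < 1 ∧ a ≤ ρ.im ∧ ρ.im ≤ b},
        analyticOrderNatAt (cleared K) ρ : ℕ) : ℝ) := by
  obtain ⟨S, hS⟩ :
    ∃ S, S = {ρ : ℂ | cleared K ρ = 0 ∧ 0 < ρ.re ∧ ρ.re < 1 ∧ a ≤ ρ.im ∧ ρ.im ≤ b} := ⟨_, rfl⟩
  rw [← hS]
  have hfin : S.Finite := (finite_stripZeros K (|a| + |b|)).subset fun ρ hρ => by
    rw [hS] at hρ
    obtain ⟨h0, h1, h2, h3, h4⟩ := hρ
    exact ⟨h0, h1, h2, abs_le.2 ⟨by linarith [neg_abs_le a, abs_nonneg b],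
      by linarith [le_abs_self b, abs_nonneg a]⟩⟩
  rw [finsum_mem_eq_finite_toFinset_sum _ hfin, Nat.cast_sum, countIcc, intervalCount,
    tsum_eq_sum (s := hfin.toFinset) fun ρ hρ => ?_]
  · refine Finset.sum_congr rfl fun ρ hρ => ?_
    rw [Set.Finite.mem_toFinset, hS] at hρ
    obtain ⟨-, h1, -, h3⟩ := hρ
    rw [if_pos (abs_sub_mid_le_iff.2 h3), xiMult_eq_order K h1]
  · rw [Set.Finite.mem_toFinset, hS] at hρ
    split_ifs with h
    · rcases eq_or_ne (xiMult K ρ) 0 with hm | hm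
      · rw [hm, Nat.cast_zero]
      · obtain ⟨e0, e1, e2, -⟩ :=
          (mem_stripZeros_iff K).2 ⟨(xiMult_ne_zero_iff K).1 hm, le_refl |ρ.im|⟩
        exact absurd ⟨e0, e1, e2, abs_sub_mid_le_iff.1 h⟩ hρ
    · rfl

private theorem order_le_countIcc (K : Type u) [Field K] [NumberField K] {t w : ℝ} (hw : 0 ≤ w) :
    (analyticOrderNatAt (cleared K) (1 / 2 + t * Complex.I) : ℝ) ≤
      countIcc K (t - w) (t + w) := by
  refine le_trans (le_of_eq ?_) (le_hasSum (hasSum_count K ((t - w + (t + w)) / 2)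
    ((t + w - (t - w)) / 2)) (1 / 2 + t * Complex.I) fun ρ _ => by split_ifs <;> simp)
  rw [xiMult_eq_order K (by simp), if_pos]
  refine abs_sub_mid_le_iff.2 ?_
  simp only [Complex.add_im, Complex.mul_im, Complex.ofReal_re, Complex.ofReal_im, Complex.I_re,
    Complex.I_im, one_div, Complex.inv_im, Complex.im_ofNat, neg_zero, zero_div, mul_one, mul_zero,
    add_zero, zero_add]
  constructor <;> linarith

/-- **The zeros in a window of radius `1/log G`**, uniformly in the field and in the height. -/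
theorem zeros_short_window : ∃ C : ℝ, 0 < C ∧
    ∀ (K : Type u) [Field K] [NumberField K] (E : ℂ → ℂ), Differentiable ℂ E →
      (∀ s : ℂ, 1 < s.re → E s = (s - 1) * dedekindZeta K s) →
      (∀ z : ℂ, E z = 0 → 0 < z.re → z.re < 1 → z.re = 1 / 2) →
      ∀ t G : ℝ, G = Real.log ((discr K).natAbs : ℝ) / 2 +
        finrank ℚ K * Real.log (|t| + 3) + 3 →
        ((∑ᶠ ρ ∈ {ρ : ℂ | E ρ = 0 ∧ 0 < ρ.re ∧ ρ.re < 1 ∧
            t - 1 / Real.log G ≤ ρ.im ∧ ρ.im ≤ t + 1 / Real.log G},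
          analyticOrderNatAt E ρ : ℕ) : ℝ) ≤ C * G / Real.log G := by
  obtain ⟨C, hC, h⟩ := exists_window_bound.{u}
  refine ⟨C, hC, fun K _ _ E hE hEL hRH t G hG => ?_⟩
  obtain rfl : E = cleared K := eq_cleared K hE hEL
  rw [← countIcc_eq, hG]
  exact h K hRH t

/-- **The order of vanishing at a point of the line is `O (G / log G)`.** -/
theorem order_on_line_le : ∃ C : ℝ, 0 < C ∧
    ∀ (K : Type u) [Field K] [NumberField K] (E : ℂ → ℂ), Differentiable ℂ E →
      (∀ s : ℂ, 1 < s.re → E s = (s - 1) * dedekindZeta K s) →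
      (∀ z : ℂ, E z = 0 → 0 < z.re → z.re < 1 → z.re = 1 / 2) →
      ∀ t G : ℝ, G = Real.log ((discr K).natAbs : ℝ) / 2 +
        finrank ℚ K * Real.log (|t| + 3) + 3 →
        (analyticOrderNatAt E (1 / 2 + t * Complex.I) : ℝ) ≤ C * G / Real.log G := by
  obtain ⟨C, hC, h⟩ := exists_window_bound.{u}
  refine ⟨C, hC, fun K _ _ E hE hEL hRH t G hG => ?_⟩
  obtain rfl : E = cleared K := eq_cleared K hE hEL
  have hl : 0 ≤ (finrank ℚ K : ℝ) * Real.log (|t| + 3) :=
    mul_nonneg (Nat.cast_nonneg _) (Real.log_nonneg (by linarith [abs_nonneg t]))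
  have hg := logGenus_nonneg K
  refine (order_le_countIcc K (w := 1 / Real.log G) ?_).trans (hG ▸ h K hRH t)
  refine div_nonneg zero_le_one (Real.log_nonneg ?_)
  rw [hG]
  linarith [Real.log_natCast_nonneg (discr K).natAbs]

/-- **For bounded height the order is `O (log |d| / log log |d|)`.** -/
theorem order_le_log_discr (T : ℝ) : ∃ C : ℝ, 0 < C ∧
    ∀ (K : Type u) [Field K] [NumberField K] (E : ℂ → ℂ), Differentiable ℂ E →
      (∀ s : ℂ, 1 < s.re → E s = (s - 1) * dedekindZeta K s) →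
      (∀ z : ℂ, E z = 0 → 0 < z.re → z.re < 1 → z.re = 1 / 2) →
      16 ≤ (discr K).natAbs → ∀ t : ℝ, |t| ≤ T →
        (analyticOrderNatAt E (1 / 2 + t * Complex.I) : ℝ) ≤
          C * Real.log ((discr K).natAbs : ℝ) /
            Real.log (Real.log ((discr K).natAbs : ℝ)) := by
  obtain ⟨C, hC, h⟩ := order_on_line_le.{u}
  obtain ⟨A, hA, hdeg⟩ := exists_degree_le.{u}
  obtain ⟨ℓ, hℓ⟩ : ∃ ℓ, ℓ = Real.log (|T| + 3) := ⟨_, rfl⟩
  have hℓ0 : 0 ≤ ℓ := hℓ ▸ Real.log_nonneg (by linarith [abs_nonneg T])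
  refine ⟨2 * C * (4 + 2 * A * ℓ), by positivity, fun K _ _ E hE hEL hRH hd t ht => ?_⟩
  obtain ⟨D, hD⟩ : ∃ D, D = Real.log ((discr K).natAbs : ℝ) := ⟨_, rfl⟩
  obtain ⟨G, hG⟩ : ∃ G, G = D / 2 + finrank ℚ K * Real.log (|t| + 3) + 3 := ⟨_, rfl⟩
  rw [← hD]
  have hD1 : 1 < D := by
    rw [hD, Real.lt_log_iff_exp_lt (by positivity)]
    have h16 : (16 : ℝ) ≤ ((discr K).natAbs : ℝ) := by exact_mod_cast hd
    linarith [Real.exp_one_lt_d9]
  have hl0 : 0 ≤ (finrank ℚ K : ℝ) * Real.log (|t| + 3) :=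
    mul_nonneg (Nat.cast_nonneg _) (Real.log_nonneg (by linarith [abs_nonneg t]))
  have hGu : G ≤ (4 + 2 * A * ℓ) * D := by
    have hlog : Real.log (|t| + 3) ≤ ℓ := hℓ ▸
      Real.log_le_log (by positivity) (by linarith [ht.trans (le_abs_self T)])
    have hn : (finrank ℚ K : ℝ) ≤ A * (D / 2 + 1) := by
      have := hdeg K
      rwa [logGenus, ← hD] at this
    have h1 := mul_le_mul hn hlog (Real.log_nonneg (by linarith [abs_nonneg t]))
      (by positivity)
    rw [hG]
    nlinarith [mul_nonneg (mul_nonneg hA.le hℓ0) (show 0 ≤ D - 1 by linarith)]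
  have hlD : 0 < Real.log D := Real.log_pos hD1
  have hlG : Real.log D ≤ 2 * Real.log G := by
    rw [show 2 * Real.log G = Real.log (G ^ 2) by rw [Real.log_pow]; norm_num]
    refine Real.log_le_log (by linarith) ?_
    rw [hG]
    nlinarith
  have hlG0 : 0 < Real.log G := by linarith
  refine (h K E hE hEL hRH t G (by rw [hG, hD])).trans ?_
  rw [div_le_div_iff₀ hlG0 hlD]
  have h1 := mul_le_mul_of_nonneg_left hGu hC.le
  have h2 := mul_le_mul h1 hlG hlD.le (mul_nonneg hC.le (by positivity))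
  linarith

end FA.DedekindMultiplicity.Summary

end
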