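import Fermat.Agent.DedekindOrdinateGaps.Main

/-!
# Littlewood's gap theorem and the least zero for Dedekind zeta functions

Let `E` be the entire continuation of `(s - 1) ζ_K`. The Riemann hypothesis for `E` is an argument
and is never assumed. Put `G = log √|d| + n log (|t| + 3) + 3`. Once `log (G/n)` exceeds an absolute
constant every interval `[t - w, t + w]`, `10^7 / log (G/n) ≤ w ≤ 1`, holds between `w G / 24` and
`4 w G` ordinates, uniformly in the field. In bounded degree the least ordinate is thus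
`O (1 / log log |d|)`, and in one field the gaps at height `T` are `O (1 / log log T)`.
-/

set_option autoImplicit false

noncomputable section

universe u

open NumberField Module Filter Topology Set
open FA.TsfasmanVladut FA.DedekindHadamard FA.DedekindZeroDistribution FA.FamilyZeroDensity
open FA.DedekindOrdinateGaps
open FA.DedekindZeroCount (cleared mem_stripZeros_iff finite_stripZeros eq_cleared)
open scoped Real

namespace FA.DedekindOrdinateGaps.Summary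

private theorem countIcc_eq (K : Type u) [Field K] [NumberField K] (a b : ℝ) :
    countIcc K a b =
      ((∑ᶠ ρ ∈ {ρ : ℂ | cleared K ρ = 0 ∧ 0 < ρ.re ∧ ρ.re < 1 ∧ a ≤ ρ.im ∧ ρ.im ≤ b},
        analyticOrderNatAt (cleared K) ρ : ℕ) : ℝ) := by
  obtain ⟨S, hS⟩ :
    ∃ S, S = {ρ : ℂ | cleared K ρ = 0 ∧ 0 < ρ.re ∧ ρ.re < 1 ∧ a ≤ ρ.im ∧ ρ.im ≤ b} := ⟨_, rfl⟩
  rw [← hS]
  have hfin : S.Finite := (finite_stripZeros K (|a| + |b|)).subset fun ρ hρ => by
    rw [hS] at hρ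
    obtain ⟨h0, h1, h2, h3, h4⟩ := hρ
    exact ⟨h0, h1, h2, abs_le.2 ⟨by linarith [neg_abs_le a, abs_nonneg b],
      by linarith [le_abs_self b, abs_nonneg a]⟩⟩
  rw [finsum_mem_eq_finite_toFinset_sum _ hfin, Nat.cast_sum, countIcc, intervalCount,
    tsum_eq_sum (s := hfin.toFinset) fun ρ hρ => ?_]
  · refine Finset.sum_congr rfl fun ρ hρ => ?_
    rw [Set.Finite.mem_toFinset, hS] at hρ
    obtain ⟨-, h1, -, h3⟩ := hρ
    rw [if_pos (abs_sub_mid_le_iff.2 h3), xiMult_eq_order K h1]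
  · rw [Set.Finite.mem_toFinset, hS] at hρ
    split_ifs with h
    · rcases eq_or_ne (xiMult K ρ) 0 with hm | hm
      · rw [hm, Nat.cast_zero]
      · obtain ⟨e0, e1, e2, -⟩ :=
          (mem_stripZeros_iff K).2 ⟨(xiMult_ne_zero_iff K).1 hm, le_refl |ρ.im|⟩
        exact absurd ⟨e0, e1, e2, abs_sub_mid_le_iff.1 h⟩ hρ
    · rfl

/-- **The ordinates in a short interval, from both sides.** -/
theorem zeros_two_sided (K : Type u) [Field K] [NumberField K] (E : ℂ → ℂ)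
    (hE : Differentiable ℂ E) (hEL : ∀ s : ℂ, 1 < s.re → E s = (s - 1) * dedekindZeta K s)
    (hRH : ∀ z : ℂ, E z = 0 → 0 < z.re → z.re < 1 → z.re = 1 / 2) {t w G : ℝ}
    (hG : G = Real.log ((discr K).natAbs : ℝ) / 2 + finrank ℚ K * Real.log (|t| + 3) + 3)
    (hQ : 10 ^ 7 ≤ G / finrank ℚ K) (hw : 10 ^ 7 / Real.log (G / finrank ℚ K) ≤ w) (hw1 : w ≤ 1) :
    w * G / 24 ≤ ((∑ᶠ ρ ∈ {ρ : ℂ | E ρ = 0 ∧ 0 < ρ.re ∧ ρ.re < 1 ∧ t - w ≤ ρ.im ∧ ρ.im ≤ t + w},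
        analyticOrderNatAt E ρ : ℕ) : ℝ) ∧
      ((∑ᶠ ρ ∈ {ρ : ℂ | E ρ = 0 ∧ 0 < ρ.re ∧ ρ.re < 1 ∧ t - w ≤ ρ.im ∧ ρ.im ≤ t + w},
        analyticOrderNatAt E ρ : ℕ) : ℝ) ≤ 4 * w * G := by
  obtain rfl : E = cleared K := eq_cleared K hE hEL
  rw [← countIcc_eq]
  exact count_two_sided K hRH hG hQ hw hw1

/-- **An ordinate within `10^7 / log (G/n)` of every height.** -/
theorem ordinate_near (K : Type u) [Field K] [NumberField K] (E : ℂ → ℂ)
    (hE : Differentiable ℂ E) (hEL : ∀ s : ℂ, 1 < s.re → E s = (s - 1) * dedekindZeta K s)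
    (hRH : ∀ z : ℂ, E z = 0 → 0 < z.re → z.re < 1 → z.re = 1 / 2) {t G : ℝ}
    (hG : G = Real.log ((discr K).natAbs : ℝ) / 2 + finrank ℚ K * Real.log (|t| + 3) + 3)
    (hQ : 10 ^ 7 ≤ Real.log (G / finrank ℚ K)) :
    ∃ γ : ℝ, |γ - t| ≤ 10 ^ 7 / Real.log (G / finrank ℚ K) ∧
      E (1 / 2 + γ * Complex.I) = 0 := by
  obtain rfl : E = cleared K := eq_cleared K hE hEL
  obtain ⟨w, hw⟩ : ∃ w, w = 10 ^ 7 / Real.log (G / finrank ℚ K) := ⟨_, rfl⟩
  rw [← hw]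
  have hG0 : 0 < G := by
    rw [hG]
    have := mul_nonneg (Nat.cast_nonneg (α := ℝ) (finrank ℚ K))
      (Real.log_nonneg (show 1 ≤ |t| + 3 by linarith [abs_nonneg t]))
    linarith [Real.log_natCast_nonneg (discr K).natAbs]
  have hQ0 : 0 < G / finrank ℚ K := div_pos hG0 (Nat.cast_pos.2 finrank_pos)
  have hQ7 : 10 ^ 7 ≤ G / finrank ℚ K := by linarith [Real.log_le_sub_one_of_pos hQ0]
  have hw1 : w ≤ 1 := hw ▸ (div_le_one (by linarith)).2 hQ
  have hw0 : 0 < w := hw ▸ div_pos (by norm_num) (by linarith)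
  have h := (count_two_sided K hRH hG hQ7 hw.ge hw1).1
  obtain ⟨T, -, hT, hc⟩ := exists_zero_set K (t - w) (t + w)
  rw [hc] at h
  have hpos : 0 < w * G / 24 := by positivity
  obtain ⟨ρ, hρ, hne⟩ := Finset.exists_ne_zero_of_sum_ne_zero (hpos.trans_le h).ne'
  have hx := (xiMult_ne_zero_iff K).1 fun hm => hne (by rw [hm, Nat.cast_zero])
  obtain ⟨e0, e1, e2, -⟩ := (mem_stripZeros_iff K).2 ⟨hx, le_refl |ρ.im|⟩
  obtain ⟨h1, h2⟩ := hT ρ hρ
  refine ⟨ρ.im, abs_le.2 ⟨by linarith, by linarith⟩, ?_⟩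
  rw [show (1 / 2 : ℂ) + ρ.im * Complex.I = ρ from
    Complex.ext (by simp [hRH ρ e0 e1 e2]) (by simp)]
  exact e0

/-- **The least ordinate in bounded degree is `O (1 / log log |d|)`.** -/
theorem least_ordinate (n : ℕ) : ∃ C D₀ : ℝ, 0 < C ∧
    ∀ (K : Type u) [Field K] [NumberField K] (E : ℂ → ℂ), Differentiable ℂ E →
      (∀ s : ℂ, 1 < s.re → E s = (s - 1) * dedekindZeta K s) →
      (∀ z : ℂ, E z = 0 → 0 < z.re → z.re < 1 → z.re = 1 / 2) →
      finrank ℚ K ≤ n → D₀ ≤ Real.log ((discr K).natAbs : ℝ) →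
        ∃ γ : ℝ, |γ| ≤ C / Real.log (Real.log ((discr K).natAbs : ℝ)) ∧
          E (1 / 2 + γ * Complex.I) = 0 := by
  refine ⟨2 * 10 ^ 7, max ((2 * (n : ℝ)) ^ 2) (Real.exp (2 * 10 ^ 7)), by norm_num,
    fun K _ _ E hE hEL hRH hn hd => ?_⟩
  obtain ⟨D, hD⟩ : ∃ D, D = Real.log ((discr K).natAbs : ℝ) := ⟨_, rfl⟩
  obtain ⟨G, hG⟩ : ∃ G, G = D / 2 + finrank ℚ K * Real.log (|(0 : ℝ)| + 3) + 3 := ⟨_, rfl⟩
  rw [← hD] at hd ⊢
  have hD0 : 0 < D := (Real.exp_pos _).trans_le ((le_max_right _ _).trans hd)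
  have hlD : 2 * 10 ^ 7 ≤ Real.log D :=
    (Real.le_log_iff_exp_le hD0).2 ((le_max_right _ _).trans hd)
  have hsq : Real.log D / 2 ≤ Real.log (G / finrank ℚ K) := by
    rw [← Real.log_sqrt hD0.le]
    refine Real.log_le_log (Real.sqrt_pos.2 hD0) ?_
    rw [le_div_iff₀ (Nat.cast_pos.2 finrank_pos)]
    have h1 : 2 * (n : ℝ) ≤ √D :=
      (le_abs_self _).trans ((Real.sqrt_sq_eq_abs _).symm.trans_le
        (Real.sqrt_le_sqrt ((le_max_left _ _).trans hd)))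
    have h2 : (finrank ℚ K : ℝ) ≤ n := Nat.cast_le.2 hn
    have h3 := mul_nonneg (Nat.cast_nonneg (α := ℝ) (finrank ℚ K))
      (Real.log_nonneg (show 1 ≤ |(0 : ℝ)| + 3 by simp))
    rw [hG]
    have h4 := mul_le_mul_of_nonneg_left
      (show (finrank ℚ K : ℝ) ≤ √D / 2 by linarith) (Real.sqrt_nonneg D)
    rw [← mul_div_assoc, Real.mul_self_sqrt hD0.le] at h4
    exact (h4.trans (le_add_of_nonneg_right h3)).trans (le_add_of_nonneg_right (by norm_num))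
  obtain ⟨γ, hγ, h0⟩ := ordinate_near K E hE hEL hRH (t := 0) (hD ▸ hG) (by linarith)
  refine ⟨γ, ?_, h0⟩
  rw [sub_zero] at hγ
  refine hγ.trans ?_
  rw [div_le_div_iff₀ (by linarith) (by linarith)]
  linarith

/-- **Littlewood's gap theorem for `ζ_K`.** -/
theorem ordinate_gaps : ∃ C T₀ : ℝ, 0 < C ∧
    ∀ (K : Type u) [Field K] [NumberField K] (E : ℂ → ℂ), Differentiable ℂ E →
      (∀ s : ℂ, 1 < s.re → E s = (s - 1) * dedekindZeta K s) →
      (∀ z : ℂ, E z = 0 → 0 < z.re → z.re < 1 → z.re = 1 / 2) →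
      ∀ t : ℝ, T₀ ≤ |t| → ∃ γ : ℝ, |γ - t| ≤ C / Real.log (Real.log |t|) ∧
        E (1 / 2 + γ * Complex.I) = 0 := by
  refine ⟨10 ^ 7, Real.exp (Real.exp (10 ^ 7)), by norm_num,
    fun K _ _ E hE hEL hRH t ht => ?_⟩
  obtain ⟨G, hG⟩ : ∃ G, G = Real.log ((discr K).natAbs : ℝ) / 2 +
    finrank ℚ K * Real.log (|t| + 3) + 3 := ⟨_, rfl⟩
  have ht0 : 0 < |t| := (Real.exp_pos _).trans_le ht
  have hl : Real.exp (10 ^ 7) ≤ Real.log |t| := (Real.le_log_iff_exp_le ht0).2 ht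
  have hl0 : 0 < Real.log |t| := (Real.exp_pos _).trans_le hl
  have hll : 10 ^ 7 ≤ Real.log (Real.log |t|) := (Real.le_log_iff_exp_le hl0).2 hl
  have hQ : Real.log (Real.log |t|) ≤ Real.log (G / finrank ℚ K) := by
    refine Real.log_le_log hl0 ?_
    rw [le_div_iff₀ (Nat.cast_pos.2 finrank_pos), hG]
    have := mul_le_mul_of_nonneg_left (Real.log_le_log ht0 (show |t| ≤ |t| + 3 by linarith))
      (Nat.cast_nonneg (α := ℝ) (finrank ℚ K))
    linarith [Real.log_natCast_nonneg (discr K).natAbs]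
  obtain ⟨γ, hγ, h0⟩ := ordinate_near K E hE hEL hRH hG (hll.trans hQ)
  exact ⟨γ, hγ.trans (div_le_div_of_nonneg_left (by norm_num) (by linarith) hQ), h0⟩

end FA.DedekindOrdinateGaps.Summary

end
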