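import Fermat.Agent.DedekindOscillation.Schmidt
import Fermat.Agent.GRHProgressions.Converse

/-!
# The error in the prime ideal theorem and the zeros of `ζ_K`

`E` is the entire continuation of `(s - 1) ζ_K` of a number field `K`, `ψ_K x = ∑_{n ≤ x} Λ_K n`.

* `zero_free_iff_psi`: for `1/2 ≤ θ < 1` there is no zero in `θ < re s` iff
  `ψ_K x - x = O_ε (x ^ (θ + ε))`; `rh_iff_psi_log_sq`, `rh_iff_psi_rpow`: the Riemann hypothesis
  for `ζ_K` is `ψ_K x - x = O (√x log² x)`, or `O_ε (x ^ (1/2 + ε))`;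
* `zero_free_of_one_sided`, `psi_oscillation_of_zero`: Landau's theorem. Without real zeros in
  `(γ, 1)` a one-sided bound `C n ^ γ` leaves no zero right of `γ`, and such a zero makes
  `ψ_K n - n` exceed every `C n ^ γ` on both sides;
* `schmidt_below`: `ψ_K n < n - c √n` infinitely often, with no hypothesis;
* `schmidt_oscillation`: without a real zero in `(1/2, 1)`, `ψ_K n - n + 2 m √n` has both signs
  beyond `c √n`, `m` the order at `1/2`; `schmidt_oscillation_plain`: so `ψ_K n - n = Ω± (√n)` if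
  `ζ_K (1/2) ≠ 0`.
-/

set_option autoImplicit false
set_option linter.style.haveILetI false

noncomputable section

universe u

open NumberField Filter Asymptotics
open FA.DedekindPIT (psiK)
open FA.DedekindZeroCount (cleared eq_cleared cleared_ne_zero_right)
open scoped Real Classical

namespace FA.DedekindOscillation.Summary

variable {K : Type u} [Field K] [NumberField K] {E : ℂ → ℂ}

/-- **No zeros right of `θ` is `ψ_K x - x = O_ε (x ^ (θ + ε))`.** -/
theorem zero_free_iff_psi (hE : Differentiable ℂ E)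
    (hEL : ∀ s : ℂ, 1 < s.re → E s = (s - 1) * dedekindZeta K s) {θ : ℝ} (hθ : 1 / 2 ≤ θ)
    (hθ1 : θ < 1) :
    (∀ ρ : ℂ, θ < ρ.re → E ρ ≠ 0) ↔
      ∀ ε : ℝ, 0 < ε → (fun x : ℝ => psiK K x - x) =O[atTop] fun x : ℝ => x ^ (θ + ε) := by
  rw [eq_cleared K hE hEL]
  exact psiK_iff_zero_free K hθ hθ1

/-- **The Riemann hypothesis for `ζ_K` is `ψ_K x - x = O_ε (x ^ (1/2 + ε))`.** -/
theorem rh_iff_psi_rpow (hE : Differentiable ℂ E)
    (hEL : ∀ s : ℂ, 1 < s.re → E s = (s - 1) * dedekindZeta K s) :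
    (∀ z : ℂ, E z = 0 → 0 < z.re → z.re < 1 → z.re = 1 / 2) ↔
      ∀ ε : ℝ, 0 < ε → (fun x : ℝ => psiK K x - x) =O[atTop] fun x : ℝ => x ^ (1 / 2 + ε) := by
  rw [← zero_free_iff_psi hE hEL le_rfl (by norm_num), eq_cleared K hE hEL]
  constructor
  · intro h ρ hρ h0
    have := h ρ h0 (by linarith) (lt_of_not_ge fun h1 => cleared_ne_zero_right K h1 h0)
    linarith
  · intro h z h0 hz0 hz1
    obtain ⟨g, -, -⟩ := cleared_reflect K h0 hz0 hz1
    refine le_antisymm (not_lt.1 fun hlt => h z hlt h0) (not_lt.1 fun hlt => h (1 - z) ?_ g)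
    rw [Complex.sub_re, Complex.one_re]
    linarith

/-- **The Riemann hypothesis for `ζ_K` is `ψ_K x - x = O (√x log² x)`.** -/
theorem rh_iff_psi_log_sq (hE : Differentiable ℂ E)
    (hEL : ∀ s : ℂ, 1 < s.re → E s = (s - 1) * dedekindZeta K s) :
    (∀ z : ℂ, E z = 0 → 0 < z.re → z.re < 1 → z.re = 1 / 2) ↔
      (fun x : ℝ => psiK K x - x) =O[atTop] fun x : ℝ => √x * Real.log x ^ 2 := by
  refine ⟨fun hRH => ?_, fun h => (rh_iff_psi_rpow hE hEL).2 fun ε hε =>
    h.trans (FA.GRHProgressions.isBigO_sqrt_log_sq hε)⟩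
  obtain ⟨A, hA, hmain⟩ := FA.DedekindExplicit.exists_psiK_sharp.{u}
  have hz := FA.DedekindExplicit.zerosLeftOf_of_RH K fun E' hE' hEL' =>
    (eq_cleared K hE' hEL').trans (eq_cleared K hE hEL).symm ▸ hRH
  obtain ⟨D, hD⟩ : ∃ D : ℝ, D = |FA.DedekindZeroCount.discLog K| + Module.finrank ℚ K := ⟨_, rfl⟩
  refine IsBigO.of_bound (A / (1 - 1 / 2) * D) ?_
  filter_upwards [eventually_ge_atTop 4] with x hx
  refine (le_of_eq (Real.norm_eq_abs _)).trans
    ((hmain K (1 / 2) le_rfl (by norm_num) hz x (by linarith)).trans ?_)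
  have hl : 1 ≤ Real.log x := by
    rw [← Real.log_exp 1]
    exact Real.log_le_log (Real.exp_pos 1) (by linarith [Real.exp_one_lt_d9])
  rw [← Real.sqrt_eq_rpow, Real.norm_of_nonneg (by positivity), mul_assoc (A / (1 - 1 / 2))]
  refine mul_le_mul_of_nonneg_left ?_ (div_nonneg hA (by norm_num))
  refine le_trans (mul_le_mul_of_nonneg_left (show FA.DedekindZeroCount.discLog K +
    Module.finrank ℚ K * Real.log x ≤ D * Real.log x from ?_)
    (mul_nonneg (Real.sqrt_nonneg x) (by linarith))) (le_of_eq (by ring))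
  rw [hD, add_mul]
  linarith [le_mul_of_one_le_right (abs_nonneg (FA.DedekindZeroCount.discLog K)) hl,
    le_abs_self (FA.DedekindZeroCount.discLog K)]

/-- **Landau's theorem**: a one-sided bound and no real zeros in `(γ, 1)`. -/
theorem zero_free_of_one_sided (hE : Differentiable ℂ E)
    (hEL : ∀ s : ℂ, 1 < s.re → E s = (s - 1) * dedekindZeta K s) {γ C e : ℝ} (hγ : 0 ≤ γ)
    (hγ1 : γ < 1) (he : e ≠ 0) (hreal : ∀ x : ℝ, γ < x → x < 1 → E x ≠ 0)
    (h : ∀ᶠ n : ℕ in atTop, e * (psiK K n - n) ≤ C * (n : ℝ) ^ γ) {ρ : ℂ} (hρ : γ < ρ.re) :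
    E ρ ≠ 0 := by
  obtain rfl := eq_cleared K hE hEL
  exact cleared_ne_zero_of_one_sided K hγ hγ1 he hreal h hρ

/-- **A zero right of `γ` makes `ψ_K n - n` exceed every `C n ^ γ` on both sides.** -/
theorem psi_oscillation_of_zero (hE : Differentiable ℂ E)
    (hEL : ∀ s : ℂ, 1 < s.re → E s = (s - 1) * dedekindZeta K s) {γ : ℝ} (hγ : 0 ≤ γ)
    (hreal : ∀ x : ℝ, γ < x → x < 1 → E x ≠ 0) {ρ : ℂ} (hρ : E ρ = 0) (hγρ : γ < ρ.re) (C : ℝ) :
    {n : ℕ | n + C * (n : ℝ) ^ γ < psiK K n}.Infinite ∧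
      {n : ℕ | psiK K n < n - C * (n : ℝ) ^ γ}.Infinite := by
  obtain rfl := eq_cleared K hE hEL
  refine ⟨Nat.frequently_atTop_iff_infinite.1
      ((frequently_of_zero K hγ hreal hρ hγρ C one_ne_zero).mono fun n hn => ?_),
    Nat.frequently_atTop_iff_infinite.1
      ((frequently_of_zero K hγ hreal hρ hγρ C (e := -1) (by norm_num)).mono fun n hn => ?_)⟩ <;>
    rw [psiErr] at hn <;> linarith

/-- **`ψ_K n < n - c √n` infinitely often**, for every number field. -/
theorem schmidt_below (K : Type u) [Field K] [NumberField K] :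
    ∃ c : ℝ, 0 < c ∧ {n : ℕ | psiK K n < n - c * √(n : ℝ)}.Infinite := by
  obtain ⟨c, hc, h⟩ := exists_frequently_below K
  refine ⟨c, hc, Nat.frequently_atTop_iff_infinite.1 (h.mono fun n hn => ?_)⟩
  rw [psiErr] at hn
  linarith

/-- **Schmidt's theorem for number fields.** -/
theorem schmidt_oscillation (hE : Differentiable ℂ E)
    (hEL : ∀ s : ℂ, 1 < s.re → E s = (s - 1) * dedekindZeta K s)
    (hreal : ∀ x : ℝ, 1 / 2 < x → x < 1 → E x ≠ 0) :
    ∃ c : ℝ, 0 < c ∧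
      let m : ℝ := analyticOrderNatAt E ((1 / 2 : ℝ) : ℂ)
      {n : ℕ | n + (c - 2 * m) * √(n : ℝ) < psiK K n}.Infinite ∧
      {n : ℕ | psiK K n < n - (c + 2 * m) * √(n : ℝ)}.Infinite := by
  obtain rfl := eq_cleared K hE hEL
  obtain ⟨c, hc, h⟩ := exists_frequently_centre K hreal
  refine ⟨c, hc, ?_, ?_⟩
  · refine Nat.frequently_atTop_iff_infinite.1 ((h 1 abs_one).mono fun n hn => ?_)
    rw [psiErr] at hn
    linarith
  · refine Nat.frequently_atTop_iff_infinite.1 ((h (-1) (by norm_num)).mono fun n hn => ?_)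
    rw [psiErr] at hn
    linarith

/-- **`ψ_K n - n = Ω± (√n)`** without real zeros in `[1/2, 1)`. -/
theorem schmidt_oscillation_plain (hE : Differentiable ℂ E)
    (hEL : ∀ s : ℂ, 1 < s.re → E s = (s - 1) * dedekindZeta K s)
    (hreal : ∀ x : ℝ, 1 / 2 ≤ x → x < 1 → E x ≠ 0) :
    ∃ c : ℝ, 0 < c ∧ {n : ℕ | n + c * √(n : ℝ) < psiK K n}.Infinite ∧
      {n : ℕ | psiK K n < n - c * √(n : ℝ)}.Infinite := by
  obtain ⟨c, hc, h1, h2⟩ := schmidt_oscillation hE hEL fun x hx => hreal x hx.le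
  have hm : analyticOrderNatAt E ((1 / 2 : ℝ) : ℂ) = 0 := by
    rw [analyticOrderNatAt, analyticOrderAt_eq_zero.2 (Or.inr (hreal _ le_rfl (by norm_num)))]
    rfl
  rw [hm, Nat.cast_zero, mul_zero, sub_zero] at h1
  rw [hm, Nat.cast_zero, mul_zero, add_zero] at h2
  exact ⟨c, hc, h1, h2⟩

end FA.DedekindOscillation.Summary

end
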