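import Fermat.Agent.DedekindSums.Reciprocity
import Fermat.Agent.Eisenstein.PsiInt

/-!
# Dedekind sums

* `dedekind_sum_basic`: `s (h, k)` depends on `h` modulo `k`, is odd in `h`, and takes one value at
  inverse arguments;
* `dedekind_sum_integral`, `dedekind_sum_one`: `6 k s (h, k) ∈ ℤ` for coprime `h`, `k`, and
  `s (1, k) = (k - 1) (k - 2) / (12 k)`;
* `dedekind_reciprocity`: `s (h, k) + s (k, h) = - 1/4 + (h/k + k/h + 1/(h k)) / 12`;
* `dedekind_sum_jacobi`: `12 k s (h, k) ≡ k + 1 - 2 (h | k)` modulo `8` for odd `k`;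
* `dedekind_sum_eq_sDed`: at prime modulus this is the constant `sDed` of the Eisenstein series.
-/

set_option autoImplicit false

noncomputable section

open scoped NumberTheorySymbols
open FA.DedekindSums

namespace FA.Summary

/-- **Periodicity, oddness, inverse arguments.** -/
theorem dedekind_sum_basic {k : ℕ} (hk : 0 < k) (h h' : ℤ) :
    (h ≡ h' [ZMOD k] → dedekindSum h k = dedekindSum h' k) ∧
      dedekindSum (-h) k = -dedekindSum h k ∧
      (h * h' ≡ 1 [ZMOD k] → dedekindSum h' k = dedekindSum h k) := by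
  have : NeZero k := ⟨hk.ne'⟩
  refine ⟨fun e => dedekindSum_congr ((ZMod.intCast_eq_intCast_iff _ _ _).2 e), dedekindSum_neg h,
    fun e => dedekindSum_inverse ?_⟩
  rw [(ZMod.intCast_eq_intCast_iff _ _ _).2 e, Int.cast_one]

/-- **Integrality.** -/
theorem dedekind_sum_integral {k : ℕ} {h : ℤ} (hk : 0 < k) (hco : Int.gcd h k = 1) :
    ∃ n : ℤ, (n : ℚ) = 6 * k * dedekindSum h k :=
  six_mul_integral hk hco

/-- **The value at one.** -/
theorem dedekind_sum_one {k : ℕ} (hk : 0 < k) :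
    dedekindSum 1 k = ((k : ℚ) - 1) * ((k : ℚ) - 2) / (12 * k) :=
  FA.DedekindSums.dedekindSum_one hk

/-- **Dedekind's reciprocity law.** -/
theorem dedekind_reciprocity {h k : ℕ} (hh : 0 < h) (hk : 0 < k) (hco : Nat.Coprime h k) :
    dedekindSum h k + dedekindSum k h =
      -(1 / 4) + ((h : ℚ) / k + (k : ℚ) / h + 1 / ((h : ℚ) * k)) / 12 :=
  reciprocity hh hk hco

/-- **Dedekind sums and the Jacobi symbol.** -/
theorem dedekind_sum_jacobi {k : ℕ} {h : ℤ} (hk : Odd k) (hco : Int.gcd h k = 1) :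
    ∃ n : ℤ, (n : ℚ) = 12 * k * dedekindSum h k ∧
      n ≡ (k : ℤ) + 1 - 2 * J(h | k) [ZMOD 8] := by
  obtain ⟨n, hn, hn8⟩ := jacobi_congr k h hk hco
  refine ⟨n, hn, (ZMod.intCast_eq_intCast_iff _ _ 8).1 ?_⟩
  push_cast
  exact hn8

/-- The constant of the weight two Eisenstein series. -/
theorem dedekind_sum_eq_sDed (q : ℕ) [Fact q.Prime] (h : ℤ) :
    (dedekindSum h q : ℂ) = FA.Eis.sDed q (h : ZMod q) := by
  rw [dedekindSum_eq_zmod, FA.Eis.sDed, Rat.cast_sum]
  have e : ∀ x : ZMod q, ((residueSaw x : ℚ) : ℂ) = FA.Eis.saw q x := fun x => by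
    rcases eq_or_ne x 0 with rfl | hx
    · simp [residueSaw, FA.Eis.saw]
    · rw [residueSaw, FA.Eis.saw, if_neg hx, if_neg hx]
      simp only [Rat.cast_sub, Rat.cast_div, Rat.cast_natCast, Rat.cast_one, Rat.cast_ofNat]
  exact Finset.sum_congr rfl fun x _ => by rw [Rat.cast_mul, e, e]

end FA.Summary

end
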