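import Fermat.Agent.DedekindZeroCount.Main

/-!
# The zeros of a Dedekind zeta function up to a height, uniformly in the field

`ζ_K` is taken through its continuation: any entire `E` with `E s = (s - 1) ζ_K s` on `1 < re s`
(one exists). Let `N (T)` be the number of zeros of `E` with `0 < re s < 1` and `|im s| ≤ T`, with
multiplicity; in the closed strip the only other possible zero is `s = 0`, a trivial one. For `K`
of degree `n` and discriminant `d` one has, with one constant for all number fields,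
`N (T) = T/π log (|d| (T / (2 π e)) ^ n) + O (1 + log |d| + n log (T + 3))` for `T ≥ 2`. So an
absolute height catches a zero of every `ζ_K`, and each has infinitely many.

Explicit constants, the order of the zero at `0` and zeros on the critical line are not claimed.
-/

set_option autoImplicit false

noncomputable section

universe u

open Complex NumberField Module FA.DedekindZeroCount
open scoped Real ComplexConjugate

namespace FA.DedekindZeroCount.Summary

variable {K : Type u} [Field K] [NumberField K] {E : ℂ → ℂ}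

/-- **`N (T)`**: finitely many zeros, summed with their orders. -/
theorem zeroTotal_spec (hE : Differentiable ℂ E)
    (hEL : ∀ s : ℂ, 1 < s.re → E s = (s - 1) * dedekindZeta K s) (T : ℝ) :
    {ρ : ℂ | E ρ = 0 ∧ 0 < ρ.re ∧ ρ.re < 1 ∧ |ρ.im| ≤ T}.Finite ∧
      zeroTotal K T = ∑ᶠ ρ ∈ {ρ : ℂ | E ρ = 0 ∧ 0 < ρ.re ∧ ρ.re < 1 ∧ |ρ.im| ≤ T},
        analyticOrderNatAt E ρ := by
  obtain rfl := eq_cleared K hE hEL
  exact ⟨finite_stripZeros K T, rfl⟩

/-- The closed strip adds at most the zero at `0`; the point `1` is not a zero. -/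
theorem closed_strip (hE : Differentiable ℂ E)
    (hEL : ∀ s : ℂ, 1 < s.re → E s = (s - 1) * dedekindZeta K s) :
    E 1 ≠ 0 ∧ ∀ ρ : ℂ, E ρ = 0 → 0 ≤ ρ.re → ρ ≠ 0 → 0 < ρ.re ∧ ρ.re < 1 := by
  obtain rfl := eq_cleared K hE hEL
  exact ⟨cleared_ne_zero_right K (by simp), fun ρ => closed_strip_zero K⟩

/-- The zeros in the strip are symmetric about the real axis and the critical line. -/
theorem zero_symmetric (hE : Differentiable ℂ E)
    (hEL : ∀ s : ℂ, 1 < s.re → E s = (s - 1) * dedekindZeta K s) {ρ : ℂ} (h : E ρ = 0)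
    (h0 : 0 < ρ.re) (h1 : ρ.re < 1) : E (conj ρ) = 0 ∧ E (1 - ρ) = 0 := by
  obtain rfl := eq_cleared K hE hEL
  have hx := ((mem_stripZeros_iff K (T := |ρ.im|)).1 ⟨h, h0, h1, le_rfl⟩).1
  constructor
  · exact ((mem_stripZeros_iff K (T := |ρ.im|)).2
      ⟨by rw [xi_conj, hx, map_zero], by simp⟩).1
  · exact ((mem_stripZeros_iff K (T := |ρ.im|)).2
      ⟨by rw [FA.HeckeBS.xiFun_one_sub, hx], by simp⟩).1

/-- **The formula of Riemann and von Mangoldt for `ζ_K`**, uniform in the field. -/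
theorem riemann_von_mangoldt : ∃ C : ℝ, ∀ (K : Type u) [Field K] [NumberField K] (E : ℂ → ℂ),
    Differentiable ℂ E → (∀ s : ℂ, 1 < s.re → E s = (s - 1) * dedekindZeta K s) →
      ∀ T : ℝ, 2 ≤ T →
        |((∑ᶠ ρ ∈ {ρ : ℂ | E ρ = 0 ∧ 0 < ρ.re ∧ ρ.re < 1 ∧ |ρ.im| ≤ T},
            analyticOrderNatAt E ρ : ℕ) : ℝ) -
          T / π * Real.log
            (((discr K).natAbs : ℝ) * (T / (2 * π * Real.exp 1)) ^ finrank ℚ K)| ≤
          C * (1 + Real.log ((discr K).natAbs : ℝ) + finrank ℚ K * Real.log (T + 3)) := by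
  obtain ⟨C, -, h⟩ := exists_zeroTotal.{u}
  refine ⟨C, fun K _ _ E hE hEL T hT => ?_⟩
  obtain rfl := eq_cleared K hE hEL
  have := h K T hT
  rwa [zMain_eq_log K (by linarith), FA.DedekindZF.height,
    abs_of_nonneg (show 0 ≤ T by linarith)] at this

/-- **Few zeros in a unit window.** -/
theorem unit_window : ∃ C : ℝ, ∀ (K : Type u) [Field K] [NumberField K] (E : ℂ → ℂ),
    Differentiable ℂ E → (∀ s : ℂ, 1 < s.re → E s = (s - 1) * dedekindZeta K s) →
      ∀ T : ℝ, 0 ≤ T →
        (zeroTotal K (T + 1) : ℝ) - zeroTotal K T ≤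
          C * (1 + Real.log ((discr K).natAbs : ℝ) + finrank ℚ K * Real.log (T + 3)) := by
  obtain ⟨C, -, h⟩ := exists_zeroTotal_window.{u}
  refine ⟨C, fun K _ _ E _ _ T hT => ?_⟩
  have := h K T hT
  rwa [FA.DedekindZF.height, abs_of_nonneg hT] at this

/-- **An absolute height with a zero of every `ζ_K`.** -/
theorem absolute_zero : ∃ T₀ : ℝ, ∀ (K : Type u) [Field K] [NumberField K] (E : ℂ → ℂ),
    Differentiable ℂ E → (∀ s : ℂ, 1 < s.re → E s = (s - 1) * dedekindZeta K s) →
      ∃ ρ : ℂ, E ρ = 0 ∧ 0 < ρ.re ∧ ρ.re < 1 ∧ |ρ.im| ≤ T₀ := by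
  obtain ⟨T₀, h⟩ := exists_absolute_zero.{u}
  refine ⟨T₀, fun K _ _ E hE hEL => ?_⟩
  obtain rfl := eq_cleared K hE hEL
  exact h K

/-- **Infinitely many zeros in the critical strip**, and a continuation exists. -/
theorem infinitely_many_zeros (K : Type u) [Field K] [NumberField K] :
    (∃ E : ℂ → ℂ, Differentiable ℂ E ∧
        ∀ s : ℂ, 1 < s.re → E s = (s - 1) * dedekindZeta K s) ∧
      ∀ E : ℂ → ℂ, Differentiable ℂ E →
        (∀ s : ℂ, 1 < s.re → E s = (s - 1) * dedekindZeta K s) →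
          {ρ : ℂ | E ρ = 0 ∧ 0 < ρ.re ∧ ρ.re < 1}.Infinite := by
  refine ⟨⟨cleared K, differentiable_cleared K, fun s => cleared_spec K⟩, fun E hE hEL => ?_⟩
  obtain rfl := eq_cleared K hE hEL
  exact infinite_stripZeros K

end FA.DedekindZeroCount.Summary

end
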