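import Fermat.Agent.DedekindZeroDistribution.Counting

/-!
# The zeros of Dedekind zeta functions in families with `n / g → 0`

Let `E i` be the entire continuations of `(s - 1) ζ` for number fields `G i` with
`g = log √|d| → ∞` and `n / g → 0`. The Riemann hypothesis for each is an argument and is never
assumed. Then every interval `[a, b]` holds `((b - a)/π + o(1)) g` ordinates of zeros in the strip,
with multiplicity (Tsfasman and Vlăduţ in this case). So it holds one eventually if `a < b`, the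
least ordinate tends to `0`, and the order of vanishing at each `1/2 + t i` is `o (log |d|)`.

The density for families with `n/g` not tending to `0` is not claimed.
-/

set_option autoImplicit false

noncomputable section

universe u

open NumberField Module Filter Topology Set
open FA.TsfasmanVladut FA.DedekindHadamard FA.DedekindZeroDistribution
open FA.DedekindZeroCount (cleared mem_stripZeros_iff finite_stripZeros)
open scoped Real

namespace FA.DedekindZeroDistribution.Summary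

variable {ι : Type*} {l : Filter ι} {G : ι → Type u} [∀ i, Field (G i)] [∀ i, NumberField (G i)]
  {E : ι → ℂ → ℂ}

private theorem eq_clearedFam (hE : ∀ i, Differentiable ℂ (E i))
    (hEL : ∀ i, ∀ s : ℂ, 1 < s.re → E i s = (s - 1) * dedekindZeta (G i) s) :
    E = fun i => cleared (G i) :=
  funext fun i => FA.DedekindZeroCount.eq_cleared (G i) (hE i) (hEL i)

private theorem count_eq (K : Type u) [Field K] [NumberField K] (a b : ℝ) :
    intervalCount K ((a + b) / 2) ((b - a) / 2) =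
      ((∑ᶠ ρ ∈ {ρ : ℂ | cleared K ρ = 0 ∧ 0 < ρ.re ∧ ρ.re < 1 ∧ a ≤ ρ.im ∧ ρ.im ≤ b},
        analyticOrderNatAt (cleared K) ρ : ℕ) : ℝ) := by
  obtain ⟨S, hS⟩ : ∃ S, S = {ρ : ℂ | cleared K ρ = 0 ∧ 0 < ρ.re ∧ ρ.re < 1 ∧ a ≤ ρ.im ∧ ρ.im ≤ b} :=
    ⟨_, rfl⟩
  rw [← hS]
  have hiff : ∀ ρ : ℂ, |ρ.im - (a + b) / 2| ≤ (b - a) / 2 ↔ a ≤ ρ.im ∧ ρ.im ≤ b := fun ρ => by
    rw [abs_le]
    constructor <;> intro h <;> constructor <;> linarith
  have hfin : S.Finite := (finite_stripZeros K (|a| + |b|)).subset fun ρ hρ => by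
    rw [hS] at hρ
    obtain ⟨h0, h1, h2, h3, h4⟩ := hρ
    exact ⟨h0, h1, h2, abs_le.2 ⟨by linarith [neg_abs_le a, abs_nonneg b],
      by linarith [le_abs_self b, abs_nonneg a]⟩⟩
  rw [finsum_mem_eq_finite_toFinset_sum _ hfin, Nat.cast_sum, intervalCount,
    tsum_eq_sum (s := hfin.toFinset) fun ρ hρ => ?_]
  · refine Finset.sum_congr rfl fun ρ hρ => ?_
    rw [Set.Finite.mem_toFinset, hS] at hρ
    obtain ⟨-, h1, -, h3⟩ := hρ
    rw [if_pos ((hiff ρ).2 h3), xiMult_eq_order K h1]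
  · rw [Set.Finite.mem_toFinset, hS] at hρ
    split_ifs with h
    · rcases eq_or_ne (xiMult K ρ) 0 with hm | hm
      · rw [hm, Nat.cast_zero]
      · obtain ⟨e0, e1, e2, -⟩ :=
          (mem_stripZeros_iff K).2 ⟨(xiMult_ne_zero_iff K).1 hm, le_refl |ρ.im|⟩
        exact absurd ⟨e0, e1, e2, (hiff ρ).1 h⟩ hρ
    · rfl

/-- **`((b - a)/π + o(1)) g` ordinates in `[a, b]`.** -/
theorem zeros_in_interval (hE : ∀ i, Differentiable ℂ (E i))
    (hEL : ∀ i, ∀ s : ℂ, 1 < s.re → E i s = (s - 1) * dedekindZeta (G i) s)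
    (hRH : ∀ i, ∀ z : ℂ, E i z = 0 → 0 < z.re → z.re < 1 → z.re = 1 / 2)
    (hg : Tendsto (fun i => logGenus (G i)) l atTop)
    (hn : Tendsto (fun i => (finrank ℚ (G i) : ℝ) / logGenus (G i)) l (𝓝 0))
    {a b : ℝ} (hab : a ≤ b) :
    Tendsto (fun i => ((∑ᶠ ρ ∈ {ρ : ℂ | E i ρ = 0 ∧ 0 < ρ.re ∧ ρ.re < 1 ∧ a ≤ ρ.im ∧ ρ.im ≤ b},
      analyticOrderNatAt (E i) ρ : ℕ) : ℝ) / logGenus (G i)) l (𝓝 ((b - a) / π)) := by
  obtain rfl := eq_clearedFam hE hEL
  have h := tendsto_intervalCount G hRH hg hn ((a + b) / 2) (T := (b - a) / 2) (by linarith)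
  rw [show 2 * ((b - a) / 2) / π = (b - a) / π by ring] at h
  exact h.congr fun i => by rw [count_eq (G i) a b]

/-- **Every interval holds an ordinate eventually.** -/
theorem eventually_ordinate (hE : ∀ i, Differentiable ℂ (E i))
    (hEL : ∀ i, ∀ s : ℂ, 1 < s.re → E i s = (s - 1) * dedekindZeta (G i) s)
    (hRH : ∀ i, ∀ z : ℂ, E i z = 0 → 0 < z.re → z.re < 1 → z.re = 1 / 2)
    (hg : Tendsto (fun i => logGenus (G i)) l atTop)
    (hn : Tendsto (fun i => (finrank ℚ (G i) : ℝ) / logGenus (G i)) l (𝓝 0))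
    {a b : ℝ} (hab : a < b) :
    ∀ᶠ i in l, ∃ t : ℝ, a ≤ t ∧ t ≤ b ∧ E i (1 / 2 + t * Complex.I) = 0 := by
  filter_upwards [(zeros_in_interval hE hEL hRH hg hn hab.le).eventually
    (eventually_gt_nhds (div_pos (sub_pos.2 hab) Real.pi_pos))] with i hi
  by_contra hne
  have hno : ∀ ρ : ℂ, ¬(E i ρ = 0 ∧ 0 < ρ.re ∧ ρ.re < 1 ∧ a ≤ ρ.im ∧ ρ.im ≤ b) :=
    fun ρ hρ => hne ⟨ρ.im, hρ.2.2.2.1, hρ.2.2.2.2, by
      rw [show (1 / 2 : ℂ) + ρ.im * Complex.I = ρ from
        Complex.ext (by simp [hRH i ρ hρ.1 hρ.2.1 hρ.2.2.1]) (by simp)]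
      exact hρ.1⟩
  simp [hno] at hi

/-- **The order of vanishing at a point of the line is `o (log |d|)`.** -/
theorem order_on_line (hE : ∀ i, Differentiable ℂ (E i))
    (hEL : ∀ i, ∀ s : ℂ, 1 < s.re → E i s = (s - 1) * dedekindZeta (G i) s)
    (hRH : ∀ i, ∀ z : ℂ, E i z = 0 → 0 < z.re → z.re < 1 → z.re = 1 / 2)
    (hg : Tendsto (fun i => logGenus (G i)) l atTop)
    (hn : Tendsto (fun i => (finrank ℚ (G i) : ℝ) / logGenus (G i)) l (𝓝 0)) (t : ℝ) :
    Tendsto (fun i => (analyticOrderNatAt (E i) (1 / 2 + t * Complex.I) : ℝ) /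
      Real.log ((discr (G i)).natAbs : ℝ)) l (𝓝 0) := by
  obtain rfl := eq_clearedFam hE hEL
  have h : Tendsto (fun i => intervalCount (G i) t 0 / logGenus (G i) / 2) l (𝓝 0) := by
    have := (tendsto_intervalCount G hRH hg hn t (T := 0) le_rfl).div_const 2
    simpa using this
  refine squeeze_zero' (Eventually.of_forall fun i => div_nonneg (Nat.cast_nonneg _)
    (Real.log_natCast_nonneg _)) ?_ h
  filter_upwards [hg.eventually_gt_atTop 0] with i hg0
  rw [div_div, show logGenus (G i) * 2 = Real.log ((discr (G i)).natAbs : ℝ) by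
    rw [logGenus]; ring]
  refine div_le_div_of_nonneg_right ?_ (Real.log_natCast_nonneg _)
  refine le_trans (le_of_eq ?_) (le_hasSum (hasSum_count (G i) t 0) (1 / 2 + t * Complex.I)
    fun ρ _ => by positivity)
  rw [xiMult_eq_order (G i) (by simp)]
  simp

end FA.DedekindZeroDistribution.Summary

end
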