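import Fermat.Agent.DedekindZeroFree.Main

/-!
# A zero-free region for all Dedekind zeta functions at once

With `L(t) = 1 + log |d| + n log (|t| + 3)` and one absolute constant `c > 0`, for every number
field `K` of degree `n` and discriminant `d`:

* `dedekindZeta_zero_free_region`: the entire continuation of `(s - 1) ζ_K` has at most one zero `s`
  with `re s ≥ 1 - c / L(im s)`, and that one is real and simple;
* `dedekindZeta_at_most_one_real_zero`: at most one zero in `[1 - c / (1 + log |d| + 2 n), 1]`, a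
  simple one.

The continuation exists by `FA.ZetaDivisibility.exists_zeta_cleared`; the value of `c` is
`FA.DedekindZF.zfrC`. Independent of S01.
-/

set_option autoImplicit false
set_option linter.style.haveILetI false

noncomputable section

universe u

open NumberField Module Complex Set
open FA.DedekindZF
open scoped Real Classical

namespace FA.Summary

/-- **The zero-free region.** -/
theorem dedekindZeta_zero_free_region :
    ∃ c : ℝ, 0 < c ∧ ∀ (K : Type u) [Field K] [NumberField K] (E : ℂ → ℂ), Differentiable ℂ E →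
      (∀ s : ℂ, 1 < s.re → E s = (s - 1) * dedekindZeta K s) →
      ∀ ρ : ℂ, E ρ = 0 →
        1 - c / (1 + Real.log ((discr K).natAbs : ℝ) + finrank ℚ K * Real.log (|ρ.im| + 3)) ≤ ρ.re →
        ρ.im = 0 ∧ deriv E ρ ≠ 0 ∧ ∀ ρ' : ℂ, E ρ' = 0 →
          1 - c / (1 + Real.log ((discr K).natAbs : ℝ) + finrank ℚ K * Real.log (|ρ'.im| + 3)) ≤ ρ'.re →
          ρ' = ρ :=
  ⟨zfrC, zfrC_pos, fun _ _ _ _ hE hEL _ h0 hρ => zero_free hE hEL h0 hρ⟩

/-- **On the real axis.** -/
theorem dedekindZeta_at_most_one_real_zero :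
    ∃ c : ℝ, 0 < c ∧ ∀ (K : Type u) [Field K] [NumberField K] (E : ℂ → ℂ), Differentiable ℂ E →
      (∀ s : ℂ, 1 < s.re → E s = (s - 1) * dedekindZeta K s) →
      ∀ β : ℝ, 1 - c / (1 + Real.log ((discr K).natAbs : ℝ) + 2 * finrank ℚ K) ≤ β → E (β : ℂ) = 0 →
        deriv E (β : ℂ) ≠ 0 ∧
        ∀ β' : ℝ, 1 - c / (1 + Real.log ((discr K).natAbs : ℝ) + 2 * finrank ℚ K) ≤ β' →
          E (β' : ℂ) = 0 → β' = β := by
  refine ⟨zfrC, zfrC_pos, fun K _ _ E hE hEL β hβ h0 => ?_⟩
  have key : ∀ x : ℝ, 1 - zfrC / (1 + Real.log ((discr K).natAbs : ℝ) + 2 * finrank ℚ K) ≤ x →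
      1 - zfrC / height K (x : ℂ).im ≤ (x : ℂ).re := fun x hx => by
    rw [ofReal_re]
    refine le_trans (sub_le_sub_left (div_le_div_of_nonneg_left zfrC_pos.le
      (zero_lt_one.trans_le (one_le_height K _)) ?_) 1) hx
    have h3 : Real.log (|(x : ℂ).im| + 3) ≤ 2 := by
      rw [ofReal_im, abs_zero, zero_add]
      linarith [Real.log_le_sub_one_of_pos (show (0 : ℝ) < 3 by norm_num)]
    have := mul_le_mul_of_nonneg_left h3 (Nat.cast_nonneg (finrank ℚ K) : (0 : ℝ) ≤ _)
    rw [height]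
    linarith
  obtain ⟨-, hd, hu⟩ := zero_free hE hEL h0 (key β hβ)
  exact ⟨hd, fun β' hβ' h' => ofReal_injective (hu _ h' (key β' hβ'))⟩

end FA.Summary
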