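import Fermat.Agent.DefectGroups.FirstMain
import Fermat.Agent.DefectGroups.Trace

/-!
# Defect groups and Brauer's first main theorem

`k` is a field of characteristic `p`, `G` a finite group and a block a primitive idempotent of the
centre of `k[G]`; `br P` keeps the coefficients on `C(P)`, `tr D` is the trace from `D` to `G`, and
`IsDefect p D e` says that the `p`-subgroup `D` has `e` in the ideal of the classes with defect
group inside `D` and `br D e ≠ 0`.

* `brauer_hom`: for a `p`-subgroup `P` the map `br P` is a ring homomorphism on the centre;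
* `defect_group_iff_minimal`: the defect groups are the smallest `p`-subgroups `D` with `e` a trace
  from `D`;
* `defect_group_exists`, `defect_group_unique`: every block has a defect group, unique up to
  conjugacy, and `br P e ≠ 0` exactly when `P` is subconjugate to it;
* `defect_contains_pCore`, `defect_sylow_iff`, `principal_block_defect`: normal `p`-subgroups lie in
  every defect group; the Sylow subgroups occur exactly for a class of size prime to `p`, in
  particular for the unique block with nonzero augmentation;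
* `first_main_theorem`: Brauer's first main theorem: `br D` is a bijection from the blocks of `G`
  with defect group `D` onto the blocks of `N(D)` with defect group `D`;
* `first_main_sylow`: so the blocks of full defect correspond to those of `N(S)`;
* `blocks_of_normal_selfcentralizing`: one block if a normal `p`-subgroup contains its centraliser.

Brauer pairs, the extended first main theorem and heights are not claimed.
-/

set_option autoImplicit false
set_option linter.style.haveILetI false

noncomputable section

open scoped Classical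

namespace FA.DefectGroups.Summary

variable {k : Type*} [Field k] {G : Type*} [Group G] [Fintype G]
variable {p : ℕ} [hp : Fact p.Prime] [CharP k p]

/-- **The Brauer homomorphism.** -/
theorem brauer_hom {P : Subgroup G} (hP : IsPGroup p P) {x y : MonoidAlgebra k G}
    (hx : x ∈ Subalgebra.center k (MonoidAlgebra k G))
    (hy : y ∈ Subalgebra.center k (MonoidAlgebra k G)) :
    br P (x * y) = br P x * br P y ∧ br P (x + y) = br P x + br P y ∧
      br P (1 : MonoidAlgebra k G) = 1 :=
  ⟨br_mul hP (fixed_of_class (mem_Z_iff.1 hx) P) (fixed_of_class (mem_Z_iff.1 hy) P),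
    br_add P x y, br_one P⟩

/-- **Defect groups exist.** -/
theorem defect_group_exists {e : MonoidAlgebra k G} (he : IsBlock e) :
    ∃ D : Subgroup G, IsDefect p D e ∧ (∃ b, Fixed D b ∧ tr D b = e) ∧
      ∀ P : Subgroup G, IsPGroup p P →
        (br P e ≠ 0 ↔ ∃ c : G, ∀ u ∈ P, c * u * c⁻¹ ∈ D) := by
  obtain ⟨D, hD⟩ := exists_defect (p := p) he
  exact ⟨D, hD, inI_iff_trace.1 hD.2.1, fun P hP => hD.br_iff he.1 hP⟩

omit [CharP k p] hp in
/-- **Defect groups are conjugate.** -/
theorem defect_group_unique {e : MonoidAlgebra k G} {D E : Subgroup G} (hD : IsDefect p D e)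
    (hE : IsDefect p E e) : ∃ c : G, D.map (MulAut.conj c).toMonoidHom = E :=
  hD.conj hE

/-- **Minimality.** -/
theorem defect_group_iff_minimal {e : MonoidAlgebra k G} (he : IsBlock e) {D : Subgroup G} :
    IsDefect p D e ↔ IsPGroup p D ∧ (∃ b, Fixed D b ∧ tr D b = e) ∧
      ∀ E : Subgroup G, IsPGroup p E → (∃ b, Fixed E b ∧ tr E b = e) →
        Nat.card D ≤ Nat.card E := by
  constructor
  · refine fun hD => ⟨hD.1, inI_iff_trace.1 hD.2.1, fun E _ hEt => ?_⟩
    obtain ⟨c, hc⟩ := (inI_iff_trace.2 hEt).subconj hD.1 hD.2.2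
    rw [Nat.card_congr (D.equivMapOfInjective (MulAut.conj c).toMonoidHom
      (MulAut.conj c).injective).toEquiv]
    refine Subgroup.card_le_of_le ?_
    rintro _ ⟨u, hu, rfl⟩
    exact hc u hu
  · rintro ⟨hDp, hDt, hmin⟩
    have hDI : InI p D e := inI_iff_trace.2 hDt
    obtain ⟨D₀, hD₀⟩ := exists_defect (p := p) he
    obtain ⟨c, hc⟩ := hDI.subconj hD₀.1 hD₀.2.2
    have heq := map_conj_eq hc (hmin D₀ hD₀.1 (inI_iff_trace.1 hD₀.2.1))
    refine ⟨hDp, hDI, (hD₀.br_iff he.1 hDp).2 ⟨c⁻¹, fun u hu => ?_⟩⟩
    rw [← heq] at hu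
    obtain ⟨v, hv, rfl⟩ := hu
    show c⁻¹ * (c * v * c⁻¹) * c⁻¹⁻¹ ∈ D₀
    rwa [show c⁻¹ * (c * v * c⁻¹) * c⁻¹⁻¹ = v by group]

/-- **`O_p(G)` lies in every defect group.** -/
theorem defect_contains_pCore {D : Subgroup G} {e : MonoidAlgebra k G} (he : IsBlock e)
    (hD : IsDefect p D e) {N : Subgroup G} [N.Normal] (hN : IsPGroup p N) : N ≤ D :=
  hD.normal_le he hN

omit [CharP k p] in
/-- **When the defect group is Sylow.** -/
theorem defect_sylow_iff {D : Subgroup G} {e : MonoidAlgebra k G} (hD : IsDefect p D e) :
    (∃ S : Sylow p G, (S : Subgroup G) = D) ↔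
      ∃ g, e.coeff g ≠ 0 ∧ ¬ p ∣ (Subgroup.centralizer ({g} : Set G)).index :=
  hD.sylow_iff

/-- **The principal block.** -/
theorem principal_block_defect :
    ∃ e : MonoidAlgebra k G, IsBlock e ∧ ∑ g, e.coeff g ≠ 0 ∧
      (∀ S : Sylow p G, IsDefect p S e) ∧
      ∀ f : MonoidAlgebra k G, IsBlock f → ∑ g, f.coeff g ≠ 0 → f = e :=
  exists_principal

/-- **Brauer's first main theorem.** -/
theorem first_main_theorem {D : Subgroup G} (hD : IsPGroup p D) :
    Set.BijOn (brN D) {e : MonoidAlgebra k G | IsBlock e ∧ IsDefect p D e}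
      {f : MonoidAlgebra k (Subgroup.normalizer (D : Set G)) |
        IsBlock f ∧ IsDefect p (D.subgroupOf (Subgroup.normalizer (D : Set G))) f} :=
  first_main hD

/-- **Blocks of full defect.** -/
theorem first_main_sylow (S : Sylow p G) :
    Set.BijOn (brN (S : Subgroup G)) {e : MonoidAlgebra k G | IsBlock e ∧ IsDefect p S e}
      {f : MonoidAlgebra k (Subgroup.normalizer ((S : Subgroup G) : Set G)) | IsBlock f} := by
  have h := first_main (k := k) S.2
  have hset : {f : MonoidAlgebra k (Subgroup.normalizer ((S : Subgroup G) : Set G)) |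
      IsBlock f ∧ IsDefect p (Dn (S : Subgroup G)) f} = {f | IsBlock f} := by
    refine Set.ext fun f => ⟨fun hf => hf.1, fun hf => ⟨hf, ?_⟩⟩
    obtain ⟨D, hD⟩ := exists_defect (p := p) hf
    have hle := hD.normal_le hf (N := Dn (S : Subgroup G)) S.2.comap_subtype
    have hDS : D = Dn (S : Subgroup G) := by
      refine (Subgroup.eq_of_le_of_card_ge hle ?_).symm
      rw [Nat.card_congr (Subgroup.subgroupOfEquivOfLe Subgroup.le_normalizer).toEquiv,
        Nat.card_congr (D.equivMapOfInjective _
          (Subgroup.normalizer ((S : Subgroup G) : Set G)).subtype_injective).toEquiv,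
        S.card_eq_multiplicity]
      obtain ⟨T, hT⟩ :=
        (hD.1.map (Subgroup.normalizer ((S : Subgroup G) : Set G)).subtype).exists_le_sylow
      exact (Subgroup.card_le_of_le hT).trans T.card_eq_multiplicity.le
    exact hDS ▸ hD
  rwa [hset] at h

/-- **One block.** -/
theorem blocks_of_normal_selfcentralizing {P : Subgroup G} [P.Normal] (hP : IsPGroup p P)
    (hCP : Subgroup.centralizer (P : Set G) ≤ P) (e : MonoidAlgebra k G) : IsBlock e ↔ e = 1 := by
  refine ⟨fun he => (block_eq_one hP hCP he.1 he.2.1).resolve_left he.2.2.1, ?_⟩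
  rintro rfl
  refine ⟨one_mem _, one_mul 1, fun h => one_ne_zero (α := k) ?_, fun f hf hff _ => ?_⟩
  · simpa [MonoidAlgebra.one_def, MonoidAlgebra.coeff_single] using
      congrArg (fun z : MonoidAlgebra k G => z.coeff 1) h
  · exact block_eq_one hP hCP hf hff

end FA.DefectGroups.Summary

end
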