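import Fermat.Agent.IsogenyDegrees.Composite
import Fermat.Agent.Root.SummaryX0FifteenTwentyOne

/-!
# The degrees `14`, `15` and `21` divide no other degree of a cyclic isogeny

`cyclic_isogeny_composite_genus_one`: a finite cyclic Galois stable subgroup of order divisible by
`14`, `15` or `21` has that order. A further prime is at most `11` by two counts of points over
fields of `l¹²` elements, and one equation of Frobenius without root excludes each of those left.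
-/

set_option autoImplicit false
set_option linter.style.haveILetI false
set_option linter.unusedSectionVars false

noncomputable section

open WeierstrassCurve FA.RT.Tate FA.KerPoly
open FA.Frob (ratCurve)
open FA.HasseBound (pointTrace)
open scoped WeierstrassCurve.Affine

local notation "Qb" => AlgebraicClosure ℚ
local notation "GQ" => AlgebraicClosure ℚ ≃ₐ[ℚ] AlgebraicClosure ℚ

namespace FA.X0Composite

/-- The trace at `l` from the count of points. -/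
abbrev traceAt (W : WeierstrassCurve ℤ) (l : ℕ) [NeZero l] : ℤ :=
  (l : ℤ) - ((FA.Ribet.nsPts (W.a₁ : ZMod l) (W.a₂ : ZMod l) (W.a₃ : ZMod l) (W.a₄ : ZMod l)
    (W.a₆ : ZMod l)).card : ℤ)

/-- The number of points over the field of `l ^ 12` elements. -/
abbrev countTwelve (W : WeierstrassCurve ℤ) (l : ℕ) [NeZero l] : ℕ :=
  ((l : ℤ) ^ 12 + 1 - pointTrace (traceAt W l) l 12).natAbs

/-- A prime of a stable line, away from the bad primes and two good ones, divides both counts. -/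
theorem prime_dvd_countTwelve (W : WeierstrassCurve ℤ) [(ratCurve W).IsElliptic] {q l : ℕ}
    [Fact q.Prime] [Fact l.Prime] (hq2 : q ≠ 2) (hqΔ : ¬ (q : ℤ) ∣ W.Δ)
    (hlΔ : ¬ (l : ℤ) ∣ W.Δ) (hlq : l ≠ q) {v : Pts W} (hv : addOrderOf v = q)
    (hst : ∀ σ : GQ, ∃ c : ℤ, c • v = σ • v) : q ∣ countTwelve W l := by
  classical
  obtain ⟨C, hC⟩ := FA.Root.exists_good_of_not_dvd W q hqΔ
  obtain ⟨-, h⟩ := FA.Summary.isogenyPrime_dvd_twelve (ratCurve W) hq2 ⟨C, Or.inl hC⟩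
    (AddSubgroup.zmultiples v) (by rw [Nat.card_zmultiples]; exact hv) (stable_zmultiples hst) hlq
    (FA.Root.exists_good_of_not_dvd W l hlΔ)
  rw [FA.Root.LFunction_apply_prime (ratCurve W) W ⟨1, one_smul _ _⟩ Fact.out hlΔ,
    apOfModel_eq_card] at h
  exact Int.natCast_dvd.1 h

/-- An equation excludes every further prime. -/
theorem false_of_equation {L : ℕ} (W : WeierstrassCurve ℤ) {a b : ℤ} (ha : a ≠ 0) (hb : b ≠ 0)
    (hab : 4 * a ^ 3 + 27 * b ^ 2 ≠ 0) (hW : W = ⟨0, 0, 0, a, b⟩) {l₁ l₂ : ℕ}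
    [Fact l₁.Prime] [Fact l₂.Prime]
    (hl : ¬ (l₁ : ℤ) ∣ W.Δ ∧ ¬ (l₂ : ℤ) ∣ W.Δ ∧ W.Δ.natAbs ∣ (2 * (3 * (5 * (7 * 11)))) ^ 40 ∧
      Nat.gcd (countTwelve W l₁) (countTwelve W l₂) ∣ (2 * (3 * (5 * (7 * 11)))) ^ 40 ∧
      l₁ ∈ [2, 3, 5, 7, 11] ∧ l₂ ∈ [2, 3, 5, 7, 11])
    (hw : ∀ n ∈ [2, 3, 5, 7, 11], ∃ (l : ℕ) (_ : Fact l.Prime), NoRootAt W (L * n) l)
    (E : WeierstrassCurve ℚ) [E.IsElliptic]
    (hE : E.j = 6912 * (a : ℚ) ^ 3 / (4 * (a : ℚ) ^ 3 + 27 * (b : ℚ) ^ 2))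
    {q : ℕ} (hq : q.Prime) (hL : L ≠ 0) (h : HasStableOrder E (L * q)) : False := by
  classical
  obtain ⟨hl1, hl2, hΔ, hgcd, hm1, hm2⟩ := hl
  have hW0 : W.Δ ≠ 0 := fun h => hl1 (h ▸ dvd_zero _)
  haveI := FA.Frob.ratCurve_isElliptic_of_Δ hW0
  have hWj : (ratCurve W).j = 6912 * (a : ℚ) ^ 3 / (4 * (a : ℚ) ^ 3 + 27 * (b : ℚ) ^ 2) := by
    rw [WeierstrassCurve.j, Units.val_inv_eq_inv_val, coe_Δ', map_Δ, map_c₄, eq_intCast,
      eq_intCast, hW]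
    have hab' : 4 * (a : ℚ) ^ 3 + 27 * (b : ℚ) ^ 2 ≠ 0 := by exact_mod_cast hab
    simp only [WeierstrassCurve.Δ, WeierstrassCurve.c₄, b₂, b₄, b₆, b₈]
    push_cast
    rw [inv_mul_eq_div, div_eq_div_iff (fun h => hab' (by linear_combination h / -16)) hab']
    ring
  obtain ⟨g, hg, hgst⟩ := h
  obtain ⟨v, hv, hst⟩ := exists_stable_point_of_same_j ha hb hab E W hE hWj hgst
  rw [hg] at hv
  by_cases hmem : q ∈ [2, 3, 5, 7, 11]
  · obtain ⟨l, _, hl⟩ := hw q hmem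
    exact false_of_noRoot hl hv hst
  have hsmall : ¬ q ∣ (2 * (3 * (5 * (7 * 11)))) ^ 40 := fun h => by
    have hp : ∀ r : ℕ, r.Prime → q ∣ r → q = r := fun r hr h =>
      (Nat.prime_dvd_prime_iff_eq hq hr).1 h
    simp only [List.mem_cons, List.not_mem_nil, or_false, not_or] at hmem
    rcases hq.dvd_mul.1 (hq.dvd_of_dvd_pow h) with h | h
    · exact hmem.1 (hp _ (by norm_num) h)
    rcases hq.dvd_mul.1 h with h | h
    · exact hmem.2.1 (hp _ (by norm_num) h)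
    rcases hq.dvd_mul.1 h with h | h
    · exact hmem.2.2.1 (hp _ (by norm_num) h)
    rcases hq.dvd_mul.1 h with h | h
    · exact hmem.2.2.2.1 (hp _ (by norm_num) h)
    · exact hmem.2.2.2.2 (hp _ (by norm_num) h)
  haveI := Fact.mk hq
  have hqΔ : ¬ (q : ℤ) ∣ W.Δ := fun h => hsmall ((Int.natCast_dvd.1 h).trans hΔ)
  have hu : addOrderOf (L • v) = q := by
    rw [addOrderOf_nsmul' _ hL, hv, Nat.gcd_eq_right (dvd_mul_right L q),
      Nat.mul_div_cancel_left _ (Nat.pos_of_ne_zero hL)]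
  have hust : ∀ σ : GQ, ∃ c : ℤ, c • (L • v) = σ • (L • v) := fun σ => by
    obtain ⟨c, hc⟩ := hst σ
    exact ⟨c, ((zsmulAddGroupHom c : Pts W →+ Pts W).map_nsmul L v).trans
      ((congrArg (L • ·) hc).trans ((DistribSMul.toAddMonoidHom (Pts W) σ).map_nsmul L v).symm)⟩
  exact hsmall ((Nat.dvd_gcd
    (prime_dvd_countTwelve W (fun e => hmem (by simp [e])) hqΔ hl1 (fun e => hmem (e ▸ hm1)) hu
      hust)
    (prime_dvd_countTwelve W (fun e => hmem (by simp [e])) hqΔ hl2 (fun e => hmem (e ▸ hm2)) hu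
      hust)).trans hgcd)

theorem data_fourteen_0 [Fact (Nat.Prime 3)] [Fact (Nat.Prime 5)] :
    let W : WeierstrassCurve ℤ := ⟨0, 0, 0, -35, -98⟩
    ¬ ((3 : ℕ) : ℤ) ∣ W.Δ ∧ ¬ ((5 : ℕ) : ℤ) ∣ W.Δ ∧
      W.Δ.natAbs ∣ (2 * (3 * (5 * (7 * 11)))) ^ 40 ∧
      Nat.gcd (countTwelve W 3) (countTwelve W 5) ∣ (2 * (3 * (5 * (7 * 11)))) ^ 40 ∧
      3 ∈ [2, 3, 5, 7, 11] ∧ 5 ∈ [2, 3, 5, 7, 11] := by
  decide +kernel

theorem witness_fourteen_0 : ∀ n ∈ [2, 3, 5, 7, 11], ∃ (l : ℕ) (_ : Fact l.Prime),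
    NoRootAt ⟨0, 0, 0, -35, -98⟩ (14 * n) l := by
  intro n hn
  fin_cases hn
  · exact ⟨5, ⟨by norm_num⟩, by decide +kernel⟩
  · exact ⟨11, ⟨by norm_num⟩, by decide +kernel⟩
  · exact ⟨3, ⟨by norm_num⟩, by decide +kernel⟩
  · exact ⟨11, ⟨by norm_num⟩, by decide +kernel⟩
  · exact ⟨3, ⟨by norm_num⟩, by decide +kernel⟩

theorem data_fourteen_1 [Fact (Nat.Prime 3)] [Fact (Nat.Prime 5)] :
    let W : WeierstrassCurve ℤ := ⟨0, 0, 0, -595, -5586⟩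
    ¬ ((3 : ℕ) : ℤ) ∣ W.Δ ∧ ¬ ((5 : ℕ) : ℤ) ∣ W.Δ ∧
      W.Δ.natAbs ∣ (2 * (3 * (5 * (7 * 11)))) ^ 40 ∧
      Nat.gcd (countTwelve W 3) (countTwelve W 5) ∣ (2 * (3 * (5 * (7 * 11)))) ^ 40 ∧
      3 ∈ [2, 3, 5, 7, 11] ∧ 5 ∈ [2, 3, 5, 7, 11] := by
  decide +kernel

theorem witness_fourteen_1 : ∀ n ∈ [2, 3, 5, 7, 11], ∃ (l : ℕ) (_ : Fact l.Prime),
    NoRootAt ⟨0, 0, 0, -595, -5586⟩ (14 * n) l := by
  intro n hn
  fin_cases hn
  · exact ⟨5, ⟨by norm_num⟩, by decide +kernel⟩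
  · exact ⟨11, ⟨by norm_num⟩, by decide +kernel⟩
  · exact ⟨3, ⟨by norm_num⟩, by decide +kernel⟩
  · exact ⟨11, ⟨by norm_num⟩, by decide +kernel⟩
  · exact ⟨3, ⟨by norm_num⟩, by decide +kernel⟩

theorem no_stable_fourteen_mul (E : WeierstrassCurve ℚ) [E.IsElliptic] {q : ℕ} (hq : q.Prime) :
    ¬ HasStableOrder E (14 * q) := fun hS => by
  haveI : Fact (Nat.Prime 3) := ⟨by norm_num⟩
  haveI : Fact (Nat.Prime 5) := ⟨by norm_num⟩
  rcases j_of_stable_fourteen (hasStableOrder_of_dvd hS (mul_ne_zero (by norm_num) hq.ne_zero)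
    (dvd_mul_right 14 q)) with h | h
  · exact false_of_equation ⟨0, 0, 0, -35, -98⟩
      (by norm_num) (by norm_num) (by norm_num) rfl
      data_fourteen_0 witness_fourteen_0 E (h.trans (by norm_num)) hq (by norm_num) hS
  · exact false_of_equation ⟨0, 0, 0, -595, -5586⟩
      (by norm_num) (by norm_num) (by norm_num) rfl
      data_fourteen_1 witness_fourteen_1 E (h.trans (by norm_num)) hq (by norm_num) hS

theorem data_fifteen_0 [Fact (Nat.Prime 7)] [Fact (Nat.Prime 11)] :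
    let W : WeierstrassCurve ℤ := ⟨0, 0, 0, -75, -2950⟩
    ¬ ((7 : ℕ) : ℤ) ∣ W.Δ ∧ ¬ ((11 : ℕ) : ℤ) ∣ W.Δ ∧
      W.Δ.natAbs ∣ (2 * (3 * (5 * (7 * 11)))) ^ 40 ∧
      Nat.gcd (countTwelve W 7) (countTwelve W 11) ∣ (2 * (3 * (5 * (7 * 11)))) ^ 40 ∧
      7 ∈ [2, 3, 5, 7, 11] ∧ 11 ∈ [2, 3, 5, 7, 11] := by
  decide +kernel

theorem witness_fifteen_0 : ∀ n ∈ [2, 3, 5, 7, 11], ∃ (l : ℕ) (_ : Fact l.Prime),
    NoRootAt ⟨0, 0, 0, -75, -2950⟩ (15 * n) l := by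
  intro n hn
  fin_cases hn
  · exact ⟨11, ⟨by norm_num⟩, by decide +kernel⟩
  · exact ⟨7, ⟨by norm_num⟩, by decide +kernel⟩
  · exact ⟨11, ⟨by norm_num⟩, by decide +kernel⟩
  · exact ⟨13, ⟨by norm_num⟩, by decide +kernel⟩
  · exact ⟨13, ⟨by norm_num⟩, by decide +kernel⟩

theorem data_fifteen_1 [Fact (Nat.Prime 7)] [Fact (Nat.Prime 11)] :
    let W : WeierstrassCurve ℤ := ⟨0, 0, 0, -18075, -935350⟩
    ¬ ((7 : ℕ) : ℤ) ∣ W.Δ ∧ ¬ ((11 : ℕ) : ℤ) ∣ W.Δ ∧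
      W.Δ.natAbs ∣ (2 * (3 * (5 * (7 * 11)))) ^ 40 ∧
      Nat.gcd (countTwelve W 7) (countTwelve W 11) ∣ (2 * (3 * (5 * (7 * 11)))) ^ 40 ∧
      7 ∈ [2, 3, 5, 7, 11] ∧ 11 ∈ [2, 3, 5, 7, 11] := by
  decide +kernel

theorem witness_fifteen_1 : ∀ n ∈ [2, 3, 5, 7, 11], ∃ (l : ℕ) (_ : Fact l.Prime),
    NoRootAt ⟨0, 0, 0, -18075, -935350⟩ (15 * n) l := by
  intro n hn
  fin_cases hn
  · exact ⟨11, ⟨by norm_num⟩, by decide +kernel⟩
  · exact ⟨7, ⟨by norm_num⟩, by decide +kernel⟩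
  · exact ⟨11, ⟨by norm_num⟩, by decide +kernel⟩
  · exact ⟨13, ⟨by norm_num⟩, by decide +kernel⟩
  · exact ⟨13, ⟨by norm_num⟩, by decide +kernel⟩

theorem data_fifteen_2 [Fact (Nat.Prime 7)] [Fact (Nat.Prime 11)] :
    let W : WeierstrassCurve ℤ := ⟨0, 0, 0, -435, -4210⟩
    ¬ ((7 : ℕ) : ℤ) ∣ W.Δ ∧ ¬ ((11 : ℕ) : ℤ) ∣ W.Δ ∧
      W.Δ.natAbs ∣ (2 * (3 * (5 * (7 * 11)))) ^ 40 ∧
      Nat.gcd (countTwelve W 7) (countTwelve W 11) ∣ (2 * (3 * (5 * (7 * 11)))) ^ 40 ∧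
      7 ∈ [2, 3, 5, 7, 11] ∧ 11 ∈ [2, 3, 5, 7, 11] := by
  decide +kernel

theorem witness_fifteen_2 : ∀ n ∈ [2, 3, 5, 7, 11], ∃ (l : ℕ) (_ : Fact l.Prime),
    NoRootAt ⟨0, 0, 0, -435, -4210⟩ (15 * n) l := by
  intro n hn
  fin_cases hn
  · exact ⟨11, ⟨by norm_num⟩, by decide +kernel⟩
  · exact ⟨7, ⟨by norm_num⟩, by decide +kernel⟩
  · exact ⟨11, ⟨by norm_num⟩, by decide +kernel⟩
  · exact ⟨13, ⟨by norm_num⟩, by decide +kernel⟩
  · exact ⟨13, ⟨by norm_num⟩, by decide +kernel⟩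

theorem data_fifteen_3 [Fact (Nat.Prime 7)] [Fact (Nat.Prime 11)] :
    let W : WeierstrassCurve ℤ := ⟨0, 0, 0, 3165, 31070⟩
    ¬ ((7 : ℕ) : ℤ) ∣ W.Δ ∧ ¬ ((11 : ℕ) : ℤ) ∣ W.Δ ∧
      W.Δ.natAbs ∣ (2 * (3 * (5 * (7 * 11)))) ^ 40 ∧
      Nat.gcd (countTwelve W 7) (countTwelve W 11) ∣ (2 * (3 * (5 * (7 * 11)))) ^ 40 ∧
      7 ∈ [2, 3, 5, 7, 11] ∧ 11 ∈ [2, 3, 5, 7, 11] := by
  decide +kernel

theorem witness_fifteen_3 : ∀ n ∈ [2, 3, 5, 7, 11], ∃ (l : ℕ) (_ : Fact l.Prime),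
    NoRootAt ⟨0, 0, 0, 3165, 31070⟩ (15 * n) l := by
  intro n hn
  fin_cases hn
  · exact ⟨11, ⟨by norm_num⟩, by decide +kernel⟩
  · exact ⟨7, ⟨by norm_num⟩, by decide +kernel⟩
  · exact ⟨11, ⟨by norm_num⟩, by decide +kernel⟩
  · exact ⟨13, ⟨by norm_num⟩, by decide +kernel⟩
  · exact ⟨13, ⟨by norm_num⟩, by decide +kernel⟩

theorem no_stable_fifteen_mul (E : WeierstrassCurve ℚ) [E.IsElliptic] {q : ℕ} (hq : q.Prime) :
    ¬ HasStableOrder E (15 * q) := fun hS => by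
  haveI : Fact (Nat.Prime 7) := ⟨by norm_num⟩
  haveI : Fact (Nat.Prime 11) := ⟨by norm_num⟩
  rcases j_of_stable_fifteen (hasStableOrder_of_dvd hS (mul_ne_zero (by norm_num) hq.ne_zero)
    (dvd_mul_right 15 q)) with h | h | h | h
  · exact false_of_equation ⟨0, 0, 0, -75, -2950⟩
      (by norm_num) (by norm_num) (by norm_num) rfl
      data_fifteen_0 witness_fifteen_0 E (h.trans (by norm_num)) hq (by norm_num) hS
  · exact false_of_equation ⟨0, 0, 0, -18075, -935350⟩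
      (by norm_num) (by norm_num) (by norm_num) rfl
      data_fifteen_1 witness_fifteen_1 E (h.trans (by norm_num)) hq (by norm_num) hS
  · exact false_of_equation ⟨0, 0, 0, -435, -4210⟩
      (by norm_num) (by norm_num) (by norm_num) rfl
      data_fifteen_2 witness_fifteen_2 E (h.trans (by norm_num)) hq (by norm_num) hS
  · exact false_of_equation ⟨0, 0, 0, 3165, 31070⟩
      (by norm_num) (by norm_num) (by norm_num) rfl
      data_fifteen_3 witness_fifteen_3 E (h.trans (by norm_num)) hq (by norm_num) hS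

theorem data_twentyOne_0 [Fact (Nat.Prime 5)] [Fact (Nat.Prime 11)] :
    let W : WeierstrassCurve ℤ := ⟨0, 0, 0, 45, -18⟩
    ¬ ((5 : ℕ) : ℤ) ∣ W.Δ ∧ ¬ ((11 : ℕ) : ℤ) ∣ W.Δ ∧
      W.Δ.natAbs ∣ (2 * (3 * (5 * (7 * 11)))) ^ 40 ∧
      Nat.gcd (countTwelve W 5) (countTwelve W 11) ∣ (2 * (3 * (5 * (7 * 11)))) ^ 40 ∧
      5 ∈ [2, 3, 5, 7, 11] ∧ 11 ∈ [2, 3, 5, 7, 11] := by
  decide +kernel

theorem witness_twentyOne_0 : ∀ n ∈ [2, 3, 5, 7, 11], ∃ (l : ℕ) (_ : Fact l.Prime),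
    NoRootAt ⟨0, 0, 0, 45, -18⟩ (21 * n) l := by
  intro n hn
  fin_cases hn
  · exact ⟨11, ⟨by norm_num⟩, by decide +kernel⟩
  · exact ⟨13, ⟨by norm_num⟩, by decide +kernel⟩
  · exact ⟨13, ⟨by norm_num⟩, by decide +kernel⟩
  · exact ⟨11, ⟨by norm_num⟩, by decide +kernel⟩
  · exact ⟨5, ⟨by norm_num⟩, by decide +kernel⟩

theorem data_twentyOne_1 [Fact (Nat.Prime 5)] [Fact (Nat.Prime 11)] :
    let W : WeierstrassCurve ℤ := ⟨0, 0, 0, -75, 262⟩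
    ¬ ((5 : ℕ) : ℤ) ∣ W.Δ ∧ ¬ ((11 : ℕ) : ℤ) ∣ W.Δ ∧
      W.Δ.natAbs ∣ (2 * (3 * (5 * (7 * 11)))) ^ 40 ∧
      Nat.gcd (countTwelve W 5) (countTwelve W 11) ∣ (2 * (3 * (5 * (7 * 11)))) ^ 40 ∧
      5 ∈ [2, 3, 5, 7, 11] ∧ 11 ∈ [2, 3, 5, 7, 11] := by
  decide +kernel

theorem witness_twentyOne_1 : ∀ n ∈ [2, 3, 5, 7, 11], ∃ (l : ℕ) (_ : Fact l.Prime),
    NoRootAt ⟨0, 0, 0, -75, 262⟩ (21 * n) l := by
  intro n hn
  fin_cases hn
  · exact ⟨11, ⟨by norm_num⟩, by decide +kernel⟩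
  · exact ⟨13, ⟨by norm_num⟩, by decide +kernel⟩
  · exact ⟨13, ⟨by norm_num⟩, by decide +kernel⟩
  · exact ⟨11, ⟨by norm_num⟩, by decide +kernel⟩
  · exact ⟨5, ⟨by norm_num⟩, by decide +kernel⟩

theorem data_twentyOne_2 [Fact (Nat.Prime 5)] [Fact (Nat.Prime 11)] :
    let W : WeierstrassCurve ℤ := ⟨0, 0, 0, -844515, 298716642⟩
    ¬ ((5 : ℕ) : ℤ) ∣ W.Δ ∧ ¬ ((11 : ℕ) : ℤ) ∣ W.Δ ∧
      W.Δ.natAbs ∣ (2 * (3 * (5 * (7 * 11)))) ^ 40 ∧
      Nat.gcd (countTwelve W 5) (countTwelve W 11) ∣ (2 * (3 * (5 * (7 * 11)))) ^ 40 ∧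
      5 ∈ [2, 3, 5, 7, 11] ∧ 11 ∈ [2, 3, 5, 7, 11] := by
  decide +kernel

theorem witness_twentyOne_2 : ∀ n ∈ [2, 3, 5, 7, 11], ∃ (l : ℕ) (_ : Fact l.Prime),
    NoRootAt ⟨0, 0, 0, -844515, 298716642⟩ (21 * n) l := by
  intro n hn
  fin_cases hn
  · exact ⟨11, ⟨by norm_num⟩, by decide +kernel⟩
  · exact ⟨13, ⟨by norm_num⟩, by decide +kernel⟩
  · exact ⟨13, ⟨by norm_num⟩, by decide +kernel⟩
  · exact ⟨11, ⟨by norm_num⟩, by decide +kernel⟩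
  · exact ⟨5, ⟨by norm_num⟩, by decide +kernel⟩

theorem data_twentyOne_3 [Fact (Nat.Prime 5)] [Fact (Nat.Prime 11)] :
    let W : WeierstrassCurve ℤ := ⟨0, 0, 0, -74235, -15814358⟩
    ¬ ((5 : ℕ) : ℤ) ∣ W.Δ ∧ ¬ ((11 : ℕ) : ℤ) ∣ W.Δ ∧
      W.Δ.natAbs ∣ (2 * (3 * (5 * (7 * 11)))) ^ 40 ∧
      Nat.gcd (countTwelve W 5) (countTwelve W 11) ∣ (2 * (3 * (5 * (7 * 11)))) ^ 40 ∧
      5 ∈ [2, 3, 5, 7, 11] ∧ 11 ∈ [2, 3, 5, 7, 11] := by
  decide +kernel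

theorem witness_twentyOne_3 : ∀ n ∈ [2, 3, 5, 7, 11], ∃ (l : ℕ) (_ : Fact l.Prime),
    NoRootAt ⟨0, 0, 0, -74235, -15814358⟩ (21 * n) l := by
  intro n hn
  fin_cases hn
  · exact ⟨11, ⟨by norm_num⟩, by decide +kernel⟩
  · exact ⟨13, ⟨by norm_num⟩, by decide +kernel⟩
  · exact ⟨13, ⟨by norm_num⟩, by decide +kernel⟩
  · exact ⟨11, ⟨by norm_num⟩, by decide +kernel⟩
  · exact ⟨5, ⟨by norm_num⟩, by decide +kernel⟩

theorem no_stable_twentyOne_mul (E : WeierstrassCurve ℚ) [E.IsElliptic] {q : ℕ} (hq : q.Prime) :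
    ¬ HasStableOrder E (21 * q) := fun hS => by
  haveI : Fact (Nat.Prime 5) := ⟨by norm_num⟩
  haveI : Fact (Nat.Prime 11) := ⟨by norm_num⟩
  rcases j_of_stable_twentyOne (hasStableOrder_of_dvd hS (mul_ne_zero (by norm_num) hq.ne_zero)
    (dvd_mul_right 21 q)) with h | h | h | h
  · exact false_of_equation ⟨0, 0, 0, 45, -18⟩
      (by norm_num) (by norm_num) (by norm_num) rfl
      data_twentyOne_0 witness_twentyOne_0 E (h.trans (by norm_num)) hq (by norm_num) hS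
  · exact false_of_equation ⟨0, 0, 0, -75, 262⟩
      (by norm_num) (by norm_num) (by norm_num) rfl
      data_twentyOne_1 witness_twentyOne_1 E (h.trans (by norm_num)) hq (by norm_num) hS
  · exact false_of_equation ⟨0, 0, 0, -844515, 298716642⟩
      (by norm_num) (by norm_num) (by norm_num) rfl
      data_twentyOne_2 witness_twentyOne_2 E (h.trans (by norm_num)) hq (by norm_num) hS
  · exact false_of_equation ⟨0, 0, 0, -74235, -15814358⟩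
      (by norm_num) (by norm_num) (by norm_num) rfl
      data_twentyOne_3 witness_twentyOne_3 E (h.trans (by norm_num)) hq (by norm_num) hS

end FA.X0Composite

namespace FA.Summary

variable (E : WeierstrassCurve ℚ) [E.IsElliptic] [inst : DecidableEq (AlgebraicClosure ℚ)]

/-- **A finite cyclic stable subgroup of order divisible by `14`, `15` or `21` has that order.** -/
theorem cyclic_isogeny_composite_genus_one {L : ℕ} (hL : L = 14 ∨ L = 15 ∨ L = 21)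
    (G : AddSubgroup (E.toAffine⁄(AlgebraicClosure ℚ)).Point) [hcyc : IsAddCyclic G]
    (hLG : L ∣ Nat.card G) (hG : Nat.card G ≠ 0)
    (hst : ∀ σ : AlgebraicClosure ℚ ≃ₐ[ℚ] AlgebraicClosure ℚ, ∀ P ∈ G,
      Affine.Point.map σ.toAlgHom P ∈ G) : Nat.card G = L := by
  obtain rfl : inst = instDecEqAlgebraicClosureRat := Subsingleton.elim _ _
  obtain ⟨m, hm⟩ := hLG
  by_contra hne
  obtain ⟨q, hq, hqm⟩ := Nat.exists_prime_and_dvd (show m ≠ 1 by rintro rfl; omega)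
  have h : HasStableOrder E (L * q) := FA.X0Composite.hasStableOrder_of_dvd
    (@hasStableOrder_of_subgroup _ _ G _ rfl hcyc hst) hG (hm ▸ mul_dvd_mul_left L hqm)
  rcases hL with rfl | rfl | rfl
  exacts [FA.X0Composite.no_stable_fourteen_mul E hq h, FA.X0Composite.no_stable_fifteen_mul E hq h,
    FA.X0Composite.no_stable_twentyOne_mul E hq h]

end FA.Summary

end
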