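import Fermat.Agent.Root.SummaryMahlerMethod
import Fermat.Agent.Root.SummaryKenkuComposite
import Fermat.Agent.GoodReduction.FrobeniusSemisimple
import Fermat.Agent.Ribet.Asymptotic
import Fermat.Agent.Twists.LocalFactors
import Mathlib.Analysis.Normed.Algebra.Exponential
import Mathlib.NumberTheory.LegendreSymbol.ZModChar

/-!
# Anchors for definitions of the summaries

* `pexp_eq_exp`: the `p`-adic exponential of the transcendence theorems is Mathlib's;
* `twistSign_two_eq`: the sign at `2` is the character `χ₈` when `D ≡ 1 (mod 4)`, and `0` otherwise;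
* `hasSum_thueMorse`, `thueMorseConstant_mem`: the series of the Thue–Morse constant converges, to a
  value in `(0, 1)`;
* `countTwelve_cast`: at a good prime the count of points is positive, so taking the absolute value
  changes nothing.
-/

set_option autoImplicit false

noncomputable section

open scoped Nat

namespace FA.Anchors

/-- The `p`-adic exponential is the exponential of Mathlib. -/
theorem pexp_eq_exp {C : Type*} [NontriviallyNormedField C] [IsUltrametricDist C] [CharZero C]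
    (x : C) : FA.Brumer.pexp x = NormedSpace.exp x := by
  rw [FA.Brumer.pexp, NormedSpace.exp_eq_tsum_div]
  simp only [FA.Brumer.expTerm, div_eq_mul_inv]

/-- At `2` the sign is `χ₈` of `D ≡ 1 (mod 4)`, and `0` otherwise. -/
theorem twistSign_two_eq (D : ℤ) :
    FA.Twists.twistSign D 2 = if D % 4 = 1 then ZMod.χ₈ D else 0 := by
  rw [FA.Twists.twistSign, if_pos rfl, ZMod.χ₈_int_eq_if_mod_eight]
  split_ifs <;> omega

theorem digit_le_one (n : ℕ) : (((Nat.digits 2 n).sum % 2 : ℕ) : ℝ) ≤ 1 := by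
  exact_mod_cast Nat.lt_succ_iff.mp (Nat.mod_lt _ two_pos)

/-- The series of the Thue–Morse constant converges. -/
theorem hasSum_thueMorse {b : ℕ} (hb : 2 ≤ b) :
    HasSum (fun n : ℕ => (((Nat.digits 2 n).sum % 2 : ℕ) : ℝ) / (b : ℝ) ^ (n + 1))
      (FA.Mahler.Summary.thueMorseConstant b) := by
  have hb1 : (1 : ℝ) < b := by exact_mod_cast hb
  refine (Summable.of_nonneg_of_le (fun n => by positivity) (fun n => ?_)
    ((summable_geometric_of_lt_one (inv_nonneg.mpr (by positivity))
      (inv_lt_one_of_one_lt₀ hb1)).mul_left (b : ℝ)⁻¹)).hasSum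
  rw [inv_pow, ← mul_inv, ← pow_succ', div_eq_mul_inv]
  exact mul_le_of_le_one_left (by positivity) (digit_le_one n)

/-- The Thue–Morse constant lies strictly between `0` and `1`. -/
theorem thueMorseConstant_mem {b : ℕ} (hb : 2 ≤ b) :
    0 < FA.Mahler.Summary.thueMorseConstant b ∧ FA.Mahler.Summary.thueMorseConstant b < 1 := by
  have hb1 : (1 : ℝ) < b := by exact_mod_cast hb
  have hb2 : (2 : ℝ) ≤ b := by exact_mod_cast hb
  have h := hasSum_thueMorse hb
  refine ⟨lt_of_lt_of_le ?_ (le_hasSum h 1 fun n _ => by positivity), ?_⟩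
  · norm_num
    positivity
  · have hr0 : (0 : ℝ) ≤ (b : ℝ)⁻¹ := by positivity
    have hr1 : (b : ℝ)⁻¹ < 1 := inv_lt_one_of_one_lt₀ hb1
    have hg := (hasSum_geometric_of_lt_one hr0 hr1).mul_left (b : ℝ)⁻¹
    have hle : (b : ℝ)⁻¹ * (1 - (b : ℝ)⁻¹)⁻¹ ≤ 1 := by
      rw [← div_eq_mul_inv, div_le_one (by linarith)]
      have : (b : ℝ)⁻¹ ≤ 2⁻¹ := inv_anti₀ two_pos hb2
      linarith
    refine lt_of_lt_of_le ?_ hle
    refine hasSum_lt (i := 0) (fun n => ?_) ?_ h hg
    · rw [inv_pow, ← mul_inv, ← pow_succ', div_eq_mul_inv]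
      exact mul_le_of_le_one_left (by positivity) (digit_le_one n)
    · norm_num
      positivity

/-- At a good prime the count over the field of `l ^ 12` elements is positive as it stands. -/
theorem countTwelve_cast (W : WeierstrassCurve ℤ) {l : ℕ} [Fact l.Prime]
    (hl : ¬ (l : ℤ) ∣ W.Δ) :
    (FA.X0Composite.countTwelve W l : ℤ) =
        (l : ℤ) ^ 12 + 1 - FA.HasseBound.pointTrace (W.apOfModel l) l 12 ∧
      0 < FA.X0Composite.countTwelve W l := by
  have hp : l.Prime := Fact.out
  have hred : W.reductionMod l = ⟨(W.a₁ : ZMod l), W.a₂, W.a₃, W.a₄, W.a₆⟩ := by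
    simp [WeierstrassCurve.reductionMod, WeierstrassCurve.map]
  have ht : FA.X0Composite.traceAt W l = W.apOfModel l :=
    (FA.Ribet.apOfModel_eq_nsPts hred).symm
  have hb := FA.GoodReduction.abs_pointTrace_le hp (FA.Ribet.apOfModel_sq_le hp hl) 12
  have hs : Real.sqrt (l : ℝ) ^ 12 = (l : ℝ) ^ 6 := by
    rw [show (12 : ℕ) = 2 * 6 from rfl, pow_mul, Real.sq_sqrt (by positivity)]
  rw [hs] at hb
  have hl2 : (2 : ℝ) ≤ l := by exact_mod_cast hp.two_le
  have h64 : (2 : ℝ) ≤ (l : ℝ) ^ 6 := by nlinarith [pow_le_pow_left₀ two_pos.le hl2 6]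
  have hpos : 0 < (l : ℤ) ^ 12 + 1 - FA.HasseBound.pointTrace (W.apOfModel l) l 12 := by
    have : (0 : ℝ) < (l : ℝ) ^ 12 + 1 -
        (FA.HasseBound.pointTrace (W.apOfModel l) l 12 : ℝ) := by
      nlinarith [le_abs_self (FA.HasseBound.pointTrace (W.apOfModel l) l 12 : ℝ)]
    exact_mod_cast this
  rw [FA.X0Composite.countTwelve, ht]
  exact ⟨Int.natAbs_of_nonneg hpos.le, Int.natAbs_pos.mpr hpos.ne'⟩

end FA.Anchors

end
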