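import Fermat.Agent.DegreeGap.Main

/-!
# R1141: there is no degree between zero and one (Richert, Conrey–Ghosh)

`FA.DegreeGap.HasFunctionalEquation a m E lam mu Q omega` says: `∑ a n n^(-s)` converges absolutely
for `re s > 1`; `(s-1)^m` times it continues to an entire function `E` of finite order; and, with
`γ s = Q^s ∏ Γ (λ_j s + μ_j)` (`Q > 0`, `λ_j > 0`, `re μ_j ≥ 0`, `|ω| = 1`),
`γ s L s = ω conj (γ (1 - conj s) L (1 - conj s))`, asked for only at `re s < 0`. These are the
first three axioms of Selberg's class; neither the Euler product nor the Ramanujan bound is used.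
The degree is `d = 2 ∑ λ_j`.

* `degree_gap`: if `0 < d < 1` every coefficient `a n`, `n ≠ 0`, is zero.
* `degree_zero`, `degree_zero_finite`: if `d = 0` a nonzero `a n` comes with a nonzero `a j` where
  `n * j = Q ^ 2`; so the series is a finite sum over divisors of the natural number `Q ^ 2`.
* `exp_series_entire`: if `d < 1` the series `∑ a n n^m exp (-n z)`, defined for `re z > 0`, is the
  restriction of an entire function with period `2 π i`, and so `a n` decays faster than every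
  exponential.
* `degree_zero_example`: the hypotheses hold for `L = 1`.

Not claimed: degree `1` (Kaczorowski–Perelli) or the classification beyond it.
-/

set_option autoImplicit false

noncomputable section

open Complex
open scoped Real ComplexConjugate

namespace FA.DegreeGapSummary

open FA.DegreeGap

variable {a : ℕ → ℂ} {m : ℕ} {E : ℂ → ℂ} {r : ℕ} {lam : Fin r → ℝ} {mu : Fin r → ℂ} {Q : ℝ}
  {omega : ℂ}

theorem degree_gap (h : HasFunctionalEquation a m E lam mu Q omega) (h0 : 0 < degree lam)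
    (h1 : degree lam < 1) {n : ℕ} (hn : n ≠ 0) : a n = 0 :=
  h.eq_zero_of_degree h0 h1 hn

theorem degree_zero (h : HasFunctionalEquation a m E lam mu Q omega) (h0 : degree lam = 0)
    {n : ℕ} (hn : n ≠ 0) (ha : a n ≠ 0) : ∃ j : ℕ, a j ≠ 0 ∧ ((n * j : ℕ) : ℝ) = Q ^ 2 := by
  have hr : r = 0 := by
    by_contra hne
    have : Nonempty (Fin r) := ⟨⟨0, Nat.pos_of_ne_zero hne⟩⟩
    have : 0 < ∑ j, lam j := Finset.sum_pos (fun j _ => h.lam_pos j) Finset.univ_nonempty
    rw [degree] at h0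
    linarith
  subst hr
  exact exists_partner h hn ha

theorem degree_zero_finite (h : HasFunctionalEquation a m E lam mu Q omega)
    (h0 : degree lam = 0) : {n : ℕ | n ≠ 0 ∧ a n ≠ 0}.Finite ∧
      ∀ n₀ : ℕ, n₀ ≠ 0 → a n₀ ≠ 0 → ∃ N : ℕ, 0 < N ∧ (N : ℝ) = Q ^ 2 ∧
        ∀ n : ℕ, n ≠ 0 → a n ≠ 0 → n ∣ N := by
  have hpos : 0 < Q ^ 2 := pow_pos h.Q_pos 2
  have key : ∀ n₀ : ℕ, n₀ ≠ 0 → a n₀ ≠ 0 → ∃ N : ℕ, 0 < N ∧ (N : ℝ) = Q ^ 2 ∧
      ∀ n : ℕ, n ≠ 0 → a n ≠ 0 → n ∣ N := by
    intro n₀ hn₀ ha₀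
    obtain ⟨j₀, -, hj₀⟩ := degree_zero h h0 hn₀ ha₀
    refine ⟨n₀ * j₀, Nat.pos_of_ne_zero fun e => ?_, hj₀, fun n hn ha => ?_⟩
    · rw [e, Nat.cast_zero] at hj₀
      linarith
    · obtain ⟨j, -, hj⟩ := degree_zero h h0 hn ha
      exact ⟨j, Nat.cast_injective (R := ℝ) (hj₀.trans hj.symm)⟩
  refine ⟨?_, key⟩
  rcases {n : ℕ | n ≠ 0 ∧ a n ≠ 0}.eq_empty_or_nonempty with he | ⟨n₀, hn₀, ha₀⟩
  · rw [he]
    exact Set.finite_empty
  · obtain ⟨N, hN, -, hdvd⟩ := key n₀ hn₀ ha₀
    exact (Set.finite_Iic N).subset fun n hn => Nat.le_of_dvd hN (hdvd n hn.1 hn.2)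

theorem exp_series_entire (h : HasFunctionalEquation a m E lam mu Q omega)
    (h1 : degree lam < 1) : (∃ H : ℂ → ℂ, Differentiable ℂ H ∧
      (∀ z, H (z + 2 * π * I) = H z) ∧ ∀ z : ℂ, 0 < z.re →
        H z = ∑' n : ℕ, if n = 0 then 0 else a n * (n : ℂ) ^ m * cexp (-(n * z))) ∧
      ∀ R : ℝ, ∃ M : ℝ, ∀ n : ℕ, n ≠ 0 → ‖a n‖ ≤ M * Real.exp (-(R * n)) :=
  ⟨⟨periodicSeries a m, h.differentiable_periodicSeries h1, h.periodicSeries_periodic h1,
    fun _ hz => h.periodicSeries_eq h1 hz⟩, h.exists_decay h1⟩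

/-- The constant series `1`. -/
theorem degree_zero_example :
    HasFunctionalEquation LSeries.delta 0 (fun _ => 1) (r := 0) Fin.elim0 Fin.elim0 1 1 where
  summable s _ := summable_of_ne_finset_zero (s := {1}) fun n hn => by
    rw [Finset.mem_singleton] at hn
    simp [LSeries.term, LSeries.delta, hn]
  differentiable := differentiable_const _
  eq_series s _ := by simp [LSeries_delta]
  finite_order := ⟨0, 1, fun s => by simp⟩
  lam_pos j := j.elim0
  mu_re j := j.elim0
  Q_pos := one_pos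
  norm_omega := norm_one
  functional_equation s _ := by simp [LSeries_delta, gammaFactor]

end FA.DegreeGapSummary

end
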