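import Fermat.Agent.DegreeOne.Periodic
import Fermat.Agent.DegreeOne.Zeta

/-!
# R1153: degree one (Kaczorowski–Perelli)

For the class `FA.DegreeGap.HasFunctionalEquation` of `SummaryDegreeGap` (absolute convergence for
`re s > 1`, continuation of finite order, functional equation with Gamma factor
`Q^s ∏ Γ (λ_j s + μ_j)`; no Euler product, no Ramanujan bound) and `d = 2 ∑ λ_j = 1`, with
`θ = 2 ∑ im μ_j`:

* `degree_one_periodic`: unless every `a n` (`n ≠ 0`) is zero, the conductor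
  `2 π Q ^ 2 ∏ λ_j ^ (2 λ_j)` is a positive integer `q`, and `n ↦ a n n^(iθ)` has period `q`.
* `degree_one_LFunction`: then `L s` is the `L`-function of a function on `ℤ / q` at `s + iθ`.
* `degree_one_bounded`: the coefficients are bounded, with no hypothesis beyond the above.
* `degree_one_conductor_one`: if the conductor is `1` then `L s = a 1 ζ (s + iθ)`.
* `degree_one_zeta`: `ζ` satisfies the hypotheses, with conductor `1`.

Not claimed: that a completely multiplicative example comes from a Dirichlet character, nor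
anything above degree one.
-/

set_option autoImplicit false

noncomputable section

open Complex
open scoped Real

namespace FA.DegreeOneSummary

open FA.DegreeGap FA.DegreeOne

variable {a : ℕ → ℂ} {m : ℕ} {E : ℂ → ℂ} {r : ℕ} {lam : Fin r → ℝ} {mu : Fin r → ℂ} {Q : ℝ}
  {omega : ℂ}

theorem degree_one_periodic (h : HasFunctionalEquation a m E lam mu Q omega)
    (hd : degree lam = 1) {n₀ : ℕ} (hn₀ : n₀ ≠ 0) (ha : a n₀ ≠ 0) :
    ∃ q : ℕ, 0 < q ∧ (q : ℝ) = 2 * π * Q ^ 2 * ∏ j, lam j ^ (2 * lam j) ∧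
      ∀ n : ℕ, n ≠ 0 →
        a (n + q) * ((n + q : ℕ) : ℂ) ^ (((2 * ∑ j, (mu j).im : ℝ) : ℂ) * I) =
          a n * (n : ℂ) ^ (((2 * ∑ j, (mu j).im : ℝ) : ℂ) * I) :=
  exists_period h hd hn₀ ha

theorem degree_one_LFunction (h : HasFunctionalEquation a m E lam mu Q omega)
    (hd : degree lam = 1) {n₀ : ℕ} (hn₀ : n₀ ≠ 0) (ha : a n₀ ≠ 0) :
    ∃ (q : ℕ) (_ : NeZero q) (g : ZMod q → ℂ),
      (q : ℝ) = 2 * π * Q ^ 2 * ∏ j, lam j ^ (2 * lam j) ∧
      (∀ n : ℕ, n ≠ 0 → a n * (n : ℂ) ^ (((2 * ∑ j, (mu j).im : ℝ) : ℂ) * I) = g n) ∧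
      ∀ s : ℂ, 1 < s.re →
        LSeries a s = ZMod.LFunction g (s + ((2 * ∑ j, (mu j).im : ℝ) : ℂ) * I) :=
  exists_structure h hd hn₀ ha

theorem degree_one_bounded (h : HasFunctionalEquation a m E lam mu Q omega)
    (hd : degree lam = 1) : ∃ C : ℝ, ∀ n : ℕ, n ≠ 0 → ‖a n‖ ≤ C :=
  exists_bound h hd

theorem degree_one_conductor_one (h : HasFunctionalEquation a m E lam mu Q omega)
    (hd : degree lam = 1) (hq : 2 * π * Q ^ 2 * ∏ j, lam j ^ (2 * lam j) = 1) :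
    (∀ n : ℕ, n ≠ 0 → a n = a 1 * (n : ℂ) ^ (-(((2 * ∑ j, (mu j).im : ℝ) : ℂ) * I))) ∧
      ∀ s : ℂ, 1 < s.re →
        LSeries a s = a 1 * riemannZeta (s + ((2 * ∑ j, (mu j).im : ℝ) : ℂ) * I) :=
  eq_zeta_of_conductor_one h hd hq

theorem degree_one_zeta :
    HasFunctionalEquation 1 1 zetaEntire (fun _ : Fin 1 => (1 / 2 : ℝ)) (fun _ => 0) (√π)⁻¹ 1 ∧
      degree (fun _ : Fin 1 => (1 / 2 : ℝ)) = 1 ∧
      2 * π * ((√π)⁻¹) ^ 2 * ∏ _j : Fin 1, (1 / 2 : ℝ) ^ (2 * (1 / 2 : ℝ)) = 1 :=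
  ⟨zeta_hasFunctionalEquation, zeta_degree, zeta_conductor⟩

end FA.DegreeOneSummary

end
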