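import Fermat.Agent.DegreeSequence.Main

/-!
# Degree sequences: the theorem of Erdős and Gallai
-/

set_option autoImplicit false

noncomputable section

namespace FA.DegreeSequence.Summary

open Finset
open scoped Classical

/-- **Erdős and Gallai**: a non-increasing sequence is the degree sequence of a simple graph iff its
sum is even and, for each `k`, the first `k` terms sum to at most
`k (k - 1) + ∑_{i ≥ k} min (d i, k)`. -/
theorem erdos_gallai {n : ℕ} (d : Fin n → ℕ) (hd : Antitone d) :
    (∃ G : SimpleGraph (Fin n), ∀ v, (G.neighborSet v).ncard = d v) ↔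
      Even (∑ i, d i) ∧ ∀ k ≤ n,
        ∑ i ∈ univ.filter (fun i : Fin n => i.val < k), d i ≤
          k * (k - 1) + ∑ i ∈ univ.filter (fun i : Fin n => k ≤ i.val), min (d i) k := by
  let D : ℕ → ℕ := fun i => if h : i < n then d ⟨i, h⟩ else 0
  have hD : ∀ i : Fin n, D i.val = d i := fun i => dif_pos i.isLt
  have hdeg : ∀ (G : SimpleGraph (Fin n)) v, deg G v = (G.neighborSet v).ncard := fun G v => by
    rw [deg, ← Set.ncard_coe_finset]
    congr 1
    ext w
    simp
  have h1 : ∑ i ∈ range n, D i = ∑ i, d i := by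
    rw [← Fin.sum_univ_eq_sum_range]
    exact sum_congr rfl fun i _ => hD i
  have h2 : ∀ k ≤ n, ∑ i ∈ range k, D i = ∑ i ∈ univ.filter (fun i : Fin n => i.val < k), d i := by
    intro k hk
    rw [sum_filter, ← sum_congr rfl fun (i : Fin n) _ => by rw [← hD i],
      Fin.sum_univ_eq_sum_range fun i => if i < k then D i else 0, ← sum_filter]
    refine sum_congr ?_ fun _ _ => rfl
    ext x
    simp only [mem_filter, mem_range]
    omega
  have h3 : ∀ k, ∑ i ∈ Ico k n, min (D i) k =
      ∑ i ∈ univ.filter (fun i : Fin n => k ≤ i.val), min (d i) k := by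
    intro k
    rw [sum_filter, ← sum_congr rfl fun (i : Fin n) _ => by rw [← hD i],
      Fin.sum_univ_eq_sum_range fun i => if k ≤ i then min (D i) k else 0, ← sum_filter]
    refine sum_congr ?_ fun _ _ => rfl
    ext x
    simp only [mem_filter, mem_range, mem_Ico]
    omega
  constructor
  · rintro ⟨G, hG⟩
    obtain ⟨he, hc⟩ := cond_of_graph G D fun v => by rw [hdeg, hG, hD]
    refine ⟨h1 ▸ he, fun k hk => ?_⟩
    rw [← h2 k hk, ← h3 k]
    exact hc k hk
  · rintro ⟨he, hc⟩
    obtain ⟨G, hG⟩ := realisable (∑ i, d i) D h1 he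
      (fun i j hij hj => by
        simp only [D, dif_pos hj, dif_pos (lt_of_le_of_lt hij hj)]
        exact hd (show (⟨i, _⟩ : Fin n) ≤ ⟨j, hj⟩ from hij))
      (fun k hk => by rw [h2 k hk, h3 k]; exact hc k hk)
    exact ⟨G, fun v => by rw [← hdeg, hG, hD]⟩

end FA.DegreeSequence.Summary
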