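import Fermat.Agent.Halasz.General
import Mathlib.NumberTheory.ArithmeticFunction.Liouville

/-!
# Halász's mean value theorem and Wirsing's theorem

Halász (1968): a multiplicative `f : ℕ → ℂ` with values in the closed unit disc has mean value
zero as soon as `∑ₚ (1 - Re (f p p ^ (-i t))) / p` diverges for every real `t`. Wirsing (1967):
a real multiplicative function with values in `[-1, 1]` has mean value zero as soon as
`∑ₚ (1 - f p) / p` diverges. The Liouville and Möbius functions are examples.

The proof applies Plancherel's theorem to the Dirichlet series of `f n log n` and passes to short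
intervals with the prime number theorem.
-/

set_option autoImplicit false

noncomputable section

namespace FA.Halasz.Summary

open Filter Topology Finset
open scoped ArithmeticFunction.Moebius

/-- **Halász's mean value theorem.** -/
theorem halasz {f : ℕ → ℂ} (h1 : f 1 = 1)
    (hmul : ∀ m n : ℕ, m.Coprime n → f (m * n) = f m * f n) (hf : ∀ n, ‖f n‖ ≤ 1)
    (hD : ∀ t : ℝ, ¬Summable fun p : Nat.Primes =>
      (1 - (f p * ((p : ℕ) : ℂ) ^ (-(t : ℂ) * Complex.I)).re) / (p : ℕ)) :
    Tendsto (fun N : ℕ => (∑ n ∈ Icc 1 N, f n) / N) atTop (𝓝 0) :=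
  FA.Halasz.tendsto_mean_zero h1 hmul hf hD

/-- **Wirsing's theorem**: no condition on the twists is needed for a real function. -/
theorem wirsing {f : ℕ → ℝ} (h1 : f 1 = 1)
    (hmul : ∀ m n : ℕ, m.Coprime n → f (m * n) = f m * f n) (hf : ∀ n, |f n| ≤ 1)
    (hD : ¬Summable fun p : Nat.Primes => (1 - f p) / (p : ℕ)) :
    Tendsto (fun N : ℕ => (∑ n ∈ Icc 1 N, f n) / N) atTop (𝓝 0) :=
  FA.Halasz.tendsto_mean_zero_real h1 hmul hf hD

theorem not_summable_two_div : ¬Summable fun p : Nat.Primes => (2 : ℝ) / (p : ℕ) := fun h =>
  Nat.Primes.not_summable_one_div ((h.mul_left (1 / 2)).congr fun p => by ring)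

/-- The Liouville function has mean value zero. -/
theorem liouville_mean_zero :
    Tendsto (fun N : ℕ => (∑ n ∈ Icc 1 N, (ArithmeticFunction.liouville n : ℝ)) / N) atTop
      (𝓝 0) := by
  refine wirsing (by simp [ArithmeticFunction.liouville_apply_one])
    (fun m n _ => by simp [ArithmeticFunction.liouville_apply_mul]) (fun n => ?_) fun h => ?_
  · rcases eq_or_ne n 0 with rfl | hn
    · simp
    · simp [ArithmeticFunction.liouville_apply hn]
  · refine not_summable_two_div (h.congr fun p => ?_)
    rw [ArithmeticFunction.liouville_apply p.2.ne_zero,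
      ArithmeticFunction.cardFactors_apply_prime p.2]
    norm_num

/-- The Möbius function has mean value zero. -/
theorem moebius_mean_zero :
    Tendsto (fun N : ℕ => (∑ n ∈ Icc 1 N, (μ n : ℝ)) / N) atTop (𝓝 0) := by
  refine wirsing (by simp)
    (fun m n h => by
      rw [ArithmeticFunction.isMultiplicative_moebius.map_mul_of_coprime h, Int.cast_mul])
    (fun n => by exact_mod_cast ArithmeticFunction.abs_moebius_le_one) fun h => ?_
  refine not_summable_two_div (h.congr fun p => ?_)
  rw [ArithmeticFunction.moebius_apply_prime p.2]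
  norm_num

end FA.Halasz.Summary
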