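import Fermat.Agent.Delange.Main
import Fermat.Agent.Root.SummaryHalasz

/-!
# Delange's theorem and the mean values of real multiplicative functions

Delange (1961): a multiplicative `f : ℕ → ℂ` with values in the closed unit disc for which
`∑ₚ (1 - f p) / p` converges has the mean value `∏ₚ (1 - 1/p) ∑ₖ f (p ^ k) / p ^ k`. With Wirsing's
theorem this gives Erdős's conjecture: a real multiplicative function with values in `[-1, 1]`
always has a mean value.
-/

set_option autoImplicit false

noncomputable section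

namespace FA.Delange.Summary

open Filter Topology Finset

/-- **Delange's mean value theorem.** -/
theorem delange {f : ℕ → ℂ} (h1 : f 1 = 1)
    (hmul : ∀ m n : ℕ, m.Coprime n → f (m * n) = f m * f n) (hf : ∀ n, ‖f n‖ ≤ 1)
    (hconv : ∃ L : ℂ, Tendsto (fun N : ℕ => ∑ p ∈ (Icc 1 N).filter Nat.Prime, (1 - f p) / p)
      atTop (𝓝 L)) :
    ∃ M : ℂ, Tendsto (fun N : ℕ => (∑ n ∈ Icc 1 N, f n) / N) atTop (𝓝 M) ∧
      Tendsto (fun N : ℕ => ∏ p ∈ (Icc 1 N).filter Nat.Prime,
        (1 - (p : ℂ)⁻¹) * ∑' k : ℕ, f (p ^ k) / (p : ℂ) ^ k) atTop (𝓝 M) :=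
  FA.Delange.exists_tendsto_mean h1 hmul hf hconv

/-- **Wirsing's solution of Erdős's conjecture**: every real multiplicative function with values
in `[-1, 1]` has a mean value. -/
theorem exists_mean_value {f : ℕ → ℝ} (h1 : f 1 = 1)
    (hmul : ∀ m n : ℕ, m.Coprime n → f (m * n) = f m * f n) (hf : ∀ n, |f n| ≤ 1) :
    ∃ M : ℝ, Tendsto (fun N : ℕ => (∑ n ∈ Icc 1 N, f n) / N) atTop (𝓝 M) := by
  by_cases hS : Summable fun p : Nat.Primes => (1 - f p) / (p : ℕ)
  · have hconv : ∃ L : ℂ, Tendsto
        (fun N : ℕ => ∑ p ∈ (Icc 1 N).filter Nat.Prime, (1 - (f p : ℂ)) / p) atTop (𝓝 L) := by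
      have h2 : Summable (Set.indicator {p | p.Prime} fun n : ℕ => (1 - f n) / n) :=
        (summable_subtype_iff_indicator (f := fun n : ℕ => (1 - f n) / (n : ℝ))).1 hS
      refine ⟨_, ((Complex.continuous_ofReal.tendsto _).comp
        (h2.hasSum.tendsto_sum_nat.comp (tendsto_add_atTop_nat 1))).congr fun N => ?_⟩
      simp only [Function.comp_apply, Complex.ofReal_sum]
      rw [sum_filter, ← sum_subset (s₁ := Icc 1 N) (s₂ := range (N + 1))
        (fun n hn => by rw [mem_Icc] at hn; rw [mem_range]; omega) fun n hn hn' => ?_]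
      · refine sum_congr rfl fun n _ => ?_
        by_cases hp : n.Prime <;> simp [hp]
      · rw [mem_range] at hn
        rw [mem_Icc] at hn'
        have : ¬n.Prime := fun h => hn' ⟨h.one_le, by omega⟩
        simp [this]
    obtain ⟨M, hM, -⟩ := delange (f := fun n => (f n : ℂ)) (by simp [h1])
      (fun m n h => by simp [hmul m n h]) (fun n => by simpa using hf n) hconv
    refine ⟨M.re, (((Complex.continuous_re.tendsto M).comp hM)).congr fun N => ?_⟩
    simp only [Function.comp_apply, Complex.div_natCast_re, Complex.re_sum, Complex.ofReal_re]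
  · exact ⟨0, FA.Halasz.Summary.wirsing h1 hmul hf hS⟩

end FA.Delange.Summary
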