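import Fermat.Agent.DeloneFaddeev.Domain
import Fermat.Agent.DeloneFaddeev.Finite
import Fermat.Agent.DeloneFaddeev.Maximal

/-!
# Cubic rings and binary cubic forms

The parametrisation of Delone and Faddeev, extended by Gan, Gross and Savin to all rings that are
free of rank three over `ℤ`, and the maximality criterion of Davenport and Heilbronn.
-/

set_option autoImplicit false

noncomputable section

open Module
open FA.Thue

namespace FA.DeloneFaddeev.Summary

/-- `g` is a twisted transform of `f`, spelled out on values. -/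
theorem twisted_iff (f g : CubicForm) : Twisted f g ↔ ∃ p q r s : ℤ,
    (p * s - q * r = 1 ∨ p * s - q * r = -1) ∧ ∀ X Y : ℤ,
      g.eval X Y = (p * s - q * r) * f.eval (p * X + q * Y) (r * X + s * Y) := by
  have hs : ∀ (k : ℤ) (h : CubicForm) (X Y : ℤ), (scale k h).eval X Y = k * h.eval X Y := by
    intro k h X Y
    simp only [scale, CubicForm.eval, Int.cast_id]
    ring
  constructor
  · rintro ⟨M, hM, rfl⟩
    refine ⟨M 0 0, M 0 1, M 1 0, M 1 1, ?_, fun X Y => ?_⟩
    · rw [← Matrix.det_fin_two]; exact Int.isUnit_iff.mp hM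
    · rw [hs, actMat, CubicForm.eval_act, Matrix.det_fin_two]; simp
  · rintro ⟨p, q, r, s, hd, h⟩
    have e : (!![p, q; r, s] : Matrix (Fin 2) (Fin 2) ℤ).det = p * s - q * r := by
      simp [Matrix.det_fin_two]
    refine ⟨!![p, q; r, s], by rw [e]; exact Int.isUnit_iff.mpr hd, form_ext fun X Y => ?_⟩
    rw [h, hs, e, actMat, CubicForm.eval_act]
    simp

/-- Every binary cubic form gives a commutative ring with basis `1, ω, θ` subject to
`ω θ = -a d`, `ω² = -a c + b ω - a θ`, `θ² = -b d + d ω - c θ`, and every commutative ring free of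
rank three over `ℤ` arises, degenerate ones included. -/
theorem delone_faddeev_parametrisation :
    (∀ f : CubicForm, ∃ e : Basis (Fin 3) ℤ (CubicOrder f), e 0 = 1 ∧
      e 1 * e 2 = -((f.a * f.d : ℤ) : CubicOrder f) ∧
      e 1 * e 1 = -((f.a * f.c : ℤ) : CubicOrder f) + f.b • e 1 - f.a • e 2 ∧
      e 2 * e 2 = -((f.b * f.d : ℤ) : CubicOrder f) + f.d • e 1 - f.c • e 2) ∧
    (∀ (R : Type*) [CommRing R], Basis (Fin 3) ℤ R →
      ∃ f : CubicForm, Nonempty (CubicOrder f ≃+* R)) ∧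
    ∀ f g : CubicForm, Nonempty (CubicOrder f ≃+* CubicOrder g) ↔ ∃ p q r s : ℤ,
      (p * s - q * r = 1 ∨ p * s - q * r = -1) ∧ ∀ X Y : ℤ,
        f.eval X Y = (p * s - q * r) * g.eval (p * X + q * Y) (r * X + s * Y) := by
  refine ⟨fun f => ⟨CubicOrder.basis f, CubicOrder.basis_zero, ?_, ?_, ?_⟩,
    fun R _ b => CubicOrder.exists_form_of_basis b,
    fun f g => (CubicOrder.nonempty_ringEquiv_iff f g).trans (twisted_iff g f)⟩
  all_goals
    simp only [CubicOrder.basis_one, CubicOrder.basis_two]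
    ext <;> simp [CubicOrder.omega, CubicOrder.theta, sub_eq_add_neg]

/-- The discriminant of a cubic ring is the discriminant of its form. -/
theorem delone_faddeev_discriminant {f : CubicForm} {R : Type*} [CommRing R]
    (b : Basis (Fin 3) ℤ R) (e : CubicOrder f ≃+* R) :
    Algebra.discr ℤ b = f.b ^ 2 * f.c ^ 2 - 4 * f.a * f.c ^ 3 - 4 * f.b ^ 3 * f.d -
      27 * f.a ^ 2 * f.d ^ 2 + 18 * f.a * f.b * f.c * f.d :=
  discr_eq_disc b e

/-- The index form is `-f`: at `x = r + u ω + v θ` the determinant of `1, x, x²` is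
`-f (u, v)`. A cubic ring is monogenic exactly when its form represents `1`, and a domain exactly
when its form has no non-trivial integral zero. -/
theorem delone_faddeev_monogenic_domain {f : CubicForm} {R : Type*} [CommRing R]
    (e : CubicOrder f ≃+* R) :
    (∀ x : CubicOrder f, x.cw * (x * x).ct - x.ct * (x * x).cw = -f.eval x.cw x.ct) ∧
    ((∃ x : R, Algebra.adjoin ℤ ({x} : Set R) = ⊤) ↔ ∃ u v : ℤ, f.eval u v = 1) ∧
    (IsDomain R ↔ ∀ u v : ℤ, f.eval u v = 0 → u = 0 ∧ v = 0) := by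
  refine ⟨CubicOrder.wedge_eq, ?_, ?_⟩
  · rw [← CubicOrder.monogenic_iff]
    let E : CubicOrder f ≃ₐ[ℤ] R := AlgEquiv.ofRingEquiv (f := e) fun n => by simp
    constructor
    · rintro ⟨x, hx⟩
      refine ⟨E.symm x, ?_⟩
      have h := AlgHom.map_adjoin E.symm.toAlgHom ({x} : Set R)
      rw [hx, Algebra.map_top, Set.image_singleton] at h
      exact h.symm.trans (AlgHom.range_eq_top _ |>.mpr E.symm.surjective)
    · rintro ⟨x, hx⟩
      refine ⟨E x, ?_⟩
      have h := AlgHom.map_adjoin E.toAlgHom ({x} : Set (CubicOrder f))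
      rw [hx, Algebra.map_top, Set.image_singleton] at h
      exact h.symm.trans (AlgHom.range_eq_top _ |>.mpr E.surjective)
  · refine Iff.trans ⟨fun _ => e.toMulEquiv.isDomain, fun _ => e.symm.toMulEquiv.isDomain⟩
      (CubicOrder.isDomain_iff f)

/-- There are finitely many cubic rings of a given discriminant `D ≠ 0`. -/
theorem delone_faddeev_finiteness {D : ℤ} (hD : D ≠ 0) :
    ∃ S : Set CubicForm, S.Finite ∧ ∀ (R : Type) [CommRing R] (b : Basis (Fin 3) ℤ R),
      Algebra.discr ℤ b = D → ∃ g ∈ S, Nonempty (CubicOrder g ≃+* R) :=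
  finite_rings hD

/-- **The criterion of Davenport and Heilbronn**: the ring of `f` lies in a cubic ring with
index divisible by the prime `p` exactly when `p` divides `a, b, c, d` or an equivalent form has
`p² ∣ a` and `p ∣ b`. -/
theorem davenport_heilbronn_maximality {p : ℕ} (hp : p.Prime) {f : CubicForm} {R : Type}
    [CommRing R] (e : CubicOrder f ≃+* R) :
    (∃ (R' : Type) (_ : CommRing R') (_ : Basis (Fin 3) ℤ R') (φ : R →+* R'),
        Function.Injective φ ∧ p ∣ φ.toAddMonoidHom.range.index) ↔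
      ((p : ℤ) ∣ f.a ∧ (p : ℤ) ∣ f.b ∧ (p : ℤ) ∣ f.c ∧ (p : ℤ) ∣ f.d) ∨
        ∃ g : CubicForm, (∃ P Q R₁ S : ℤ, (P * S - Q * R₁ = 1 ∨ P * S - Q * R₁ = -1) ∧
          ∀ X Y : ℤ, g.eval X Y = (P * S - Q * R₁) * f.eval (P * X + Q * Y) (R₁ * X + S * Y)) ∧
          (p : ℤ) ^ 2 ∣ g.a ∧ (p : ℤ) ∣ g.b := by
  simp only [← twisted_iff]
  show _ ↔ NonmaximalForm p f
  rw [← inLarger_iff hp]
  constructor
  · rintro ⟨R', _, b, φ, hφ, hd⟩
    obtain ⟨g, ⟨e'⟩⟩ := CubicOrder.exists_form_of_basis b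
    refine ⟨g, e'.symm.toRingHom.comp (φ.comp e.toRingHom),
      e'.symm.injective.comp (hφ.comp e.injective), ?_⟩
    rw [← AddSubgroup.index_map_equiv _ e'.symm.toAddEquiv] at hd
    convert hd using 2
    ext x
    simp only [AddSubgroup.mem_map, AddMonoidHom.mem_range]
    exact ⟨fun ⟨y, hy⟩ => ⟨φ (e y), ⟨e y, rfl⟩, hy⟩,
      fun ⟨_, ⟨y, rfl⟩, hy⟩ => ⟨e.symm y, by simpa using hy⟩⟩
  · rintro ⟨g, φ, hφ, hd⟩
    refine ⟨CubicOrder g, inferInstance, CubicOrder.basis g, φ.comp e.symm.toRingHom,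
      hφ.comp e.symm.injective, ?_⟩
    convert hd using 2
    ext x
    simp only [AddMonoidHom.mem_range]
    exact ⟨fun ⟨y, hy⟩ => ⟨e.symm y, hy⟩, fun ⟨y, hy⟩ => ⟨e y, by simpa using hy⟩⟩

end FA.DeloneFaddeev.Summary
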