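import Fermat.Agent.DeloneNagell.Main

/-!
# The theorem of Delone and Nagell

`A x ^ 3 + B y ^ 3 = 1` has at most one integral solution with `x y ≠ 0`; some consequences.
-/

set_option autoImplicit false

noncomputable section

namespace FA.Summary

/-- **Delone and Nagell**: at most one solution with both coordinates nonzero. -/
theorem delone_nagell_unique {A B : ℤ} (hA : A ≠ 0) (hB : B ≠ 0) :
    {v : ℤ × ℤ | A * v.1 ^ 3 + B * v.2 ^ 3 = 1 ∧ v.1 * v.2 ≠ 0}.Subsingleton := by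
  rintro ⟨x₁, y₁⟩ ⟨h₁, hx₁⟩ ⟨x₂, y₂⟩ ⟨h₂, hx₂⟩
  obtain ⟨rfl, rfl⟩ := DeloneNagell.delone_nagell hA hB h₁ h₂ hx₁ hx₂
  rfl

/-- **Delone**: `x ^ 3 + d y ^ 3 = 1` has at most one solution besides `(1, 0)`. -/
theorem delone_cubic {d : ℤ} (hd : d ≠ 0) :
    {v : ℤ × ℤ | v.1 ^ 3 + d * v.2 ^ 3 = 1 ∧ v ≠ (1, 0)}.Subsingleton := by
  have key : ∀ x y : ℤ, x ^ 3 + d * y ^ 3 = 1 → (x, y) ≠ (1, 0) →
      y ≠ 0 ∧ (x = 0 → d * y ^ 3 = 1) := by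
    intro x y h hne
    refine ⟨?_, fun hx => ?_⟩
    · rintro rfl
      have : x ^ 3 = (1 : ℤ) ^ 3 := by linear_combination h
      exact hne (by rw [(Odd.pow_inj (by decide : Odd 3)).1 this])
    · subst hx
      linear_combination h
  rintro ⟨x₁, y₁⟩ ⟨h₁, hn₁⟩ ⟨x₂, y₂⟩ ⟨h₂, hn₂⟩
  obtain ⟨hy₁, k₁⟩ := key x₁ y₁ h₁ hn₁
  obtain ⟨hy₂, k₂⟩ := key x₂ y₂ h₂ hn₂
  simp only at h₁ h₂
  by_cases hd1 : d = 1 ∨ d = -1
  · have hz : ∀ x y : ℤ, x ^ 3 + d * y ^ 3 = 1 → y ≠ 0 → x = 0 := fun x y h hy =>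
      (mul_eq_zero.1 (DeloneNagell.no_solution_of_cube (A := 1) (B := d) one_ne_zero hd
        (p := d) (q := 1) one_ne_zero (by rcases hd1 with rfl | rfl <;> norm_num)
        (by rw [one_mul]; exact h))).resolve_right hy
    obtain rfl := hz x₁ y₁ h₁ hy₁
    obtain rfl := hz x₂ y₂ h₂ hy₂
    have h5 := (k₁ rfl).trans (k₂ rfl).symm
    rw [(Odd.pow_inj (by decide : Odd 3)).1 (mul_left_cancel₀ hd h5)]
  · have hx : ∀ x y : ℤ, (x = 0 → d * y ^ 3 = 1) → x ≠ 0 := fun x y k hx =>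
      hd1 (Int.eq_one_or_neg_one_of_mul_eq_one (k hx))
    obtain ⟨rfl, rfl⟩ := DeloneNagell.delone_nagell (A := 1) one_ne_zero hd
      (by rw [one_mul]; exact h₁) (by rw [one_mul]; exact h₂) (mul_ne_zero (hx _ _ k₁) hy₁)
      (mul_ne_zero (hx _ _ k₂) hy₂)
    rfl

/-- **Nagell**: when neither coefficient is `±1` there is at most one solution. -/
theorem nagell_cubic {A B : ℤ} (hA : 1 < |A|) (hB : 1 < |B|) :
    {v : ℤ × ℤ | A * v.1 ^ 3 + B * v.2 ^ 3 = 1}.Subsingleton := by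
  intro v hv w hw
  have hne : ∀ u : ℤ × ℤ, A * u.1 ^ 3 + B * u.2 ^ 3 = 1 → u.1 * u.2 ≠ 0 := fun u hu h0 => by
    rcases mul_eq_zero.1 h0 with h | h <;> simp [h] at hu
    · rcases Int.eq_one_or_neg_one_of_mul_eq_one hu with e | e <;> simp [e] at hB
    · rcases Int.eq_one_or_neg_one_of_mul_eq_one hu with e | e <;> simp [e] at hA
  exact delone_nagell_unique (abs_pos.1 (one_pos.trans hA)) (abs_pos.1 (one_pos.trans hB))
    ⟨hv, hne v hv⟩ ⟨hw, hne w hw⟩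

theorem deloneNagell_solutions_eq {d a b : ℤ} (hd : d ≠ 0) (h : a ^ 3 + d * b ^ 3 = 1)
    (hne : (a, b) ≠ (1, 0)) :
    {v : ℤ × ℤ | v.1 ^ 3 + d * v.2 ^ 3 = 1} = {(1, 0), (a, b)} := by
  ext v
  simp only [Set.mem_ofPred_eq, Set.mem_insert_iff, Set.mem_singleton_iff]
  constructor
  · exact fun hv => or_iff_not_imp_left.2 fun h1 => delone_cubic hd ⟨hv, h1⟩ ⟨h, hne⟩
  · rintro (rfl | rfl)
    · simp
    · exact h

/-- `x ^ 3 + 2 y ^ 3 = 1`. -/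
theorem cubic_equation_two :
    {v : ℤ × ℤ | v.1 ^ 3 + 2 * v.2 ^ 3 = 1} = {(1, 0), (-1, 1)} :=
  deloneNagell_solutions_eq (by norm_num) (by norm_num) (by decide)

/-- `x ^ 3 + 9 y ^ 3 = 1`. -/
theorem cubic_equation_nine :
    {v : ℤ × ℤ | v.1 ^ 3 + 9 * v.2 ^ 3 = 1} = {(1, 0), (-2, 1)} :=
  deloneNagell_solutions_eq (by norm_num) (by norm_num) (by decide)

/-- `x ^ 3 + 19 y ^ 3 = 1`. -/
theorem cubic_equation_nineteen :
    {v : ℤ × ℤ | v.1 ^ 3 + 19 * v.2 ^ 3 = 1} = {(1, 0), (-8, 3)} :=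
  deloneNagell_solutions_eq (by norm_num) (by norm_num) (by decide)

/-- `x ^ 3 + 20 y ^ 3 = 1`. -/
theorem cubic_equation_twenty :
    {v : ℤ × ℤ | v.1 ^ 3 + 20 * v.2 ^ 3 = 1} = {(1, 0), (-19, 7)} :=
  deloneNagell_solutions_eq (by norm_num) (by norm_num) (by decide)

end FA.Summary

end
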