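import Fermat.Agent.DeltaFamily.Examples

/-!
# Summary: the Hida family of `Δ` and of the other five lone cusp forms of level one

`k` is one of `12, 16, 18, 20, 22, 26`, `f = cuspInt k` the normalised cusp form, `p ≥ 5` does not
divide its `p`-th coefficient and `c`, the class of `k` modulo `p - 1`, is not `0`. Families and
Hecke algebras are those of `FA.LambdaForms.Summary`, `FA.LambdaHecke.Summary` and
`FA.LambdaEisenstein.Summary`.

* `cusp_form_eigen`, `rank_one`: `f` is an eigenform; the cuspidal rank is `1`, so the cuspidal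
  Hecke algebra is `Λ`;
* `delta_family`, `delta_weight_unique`, `passes_through`: one normalised cuspidal family `F`, an
  eigenseries, congruent to `f` modulo `p`; its value at `s` is the only normalised ordinary
  cuspidal form of weight `(c, s)`, at `k` the stabilisation `f - β V f`;
* `delta_classical`: at every `k' ≥ 2` of the class a combination of forms on `Γ₀(p)`;
* `deep_congruence`: `F` is the Eisenstein family modulo the zeta element, so congruent to
  `σ*_(k'-1)` modulo the `p`-part of `B_k' / 2k'` in every weight;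
* `delta_eleven`: at `p = 11` the weight two value is `η(z)² η(11z)²`, so the family of `Δ` has the
  `L`-series of `y² + y = x³ - x²`;
* `delta_691`: the congruences of Ramanujan's type modulo powers of `691` in the weights
  `k' ≡ 12 (mod 690)`.

Not proved here: Galois representations, newness and complex eigenforms in the weights `k'`, the
non-ordinary case, the class `0` (`p = 13` for `Δ`), other weights.
-/

set_option autoImplicit false
set_option linter.unusedSectionVars false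

noncomputable section

open UpperHalfPlane hiding I
open PowerSeries CongruenceSubgroup
open scoped MatrixGroups ModularForm

namespace FA.DeltaFamily.Summary

open FA.PadicForms FA.OrdinaryProj FA.LambdaForms FA.LambdaHecke FA.LambdaEisenstein

variable {p : ℕ} [Fact p.Prime] {hp2 : p ≠ 2} {c : ZMod (p - 1)} {k : ℕ}

local notation "Λ" => PowerSeries ℤ_[p]

/-- **The lone cusp form is an eigenform.** -/
theorem cusp_form_eigen (hk : k ∈ ({12, 16, 18, 20, 22, 26} : Finset ℕ)) :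
    coeff 0 (cuspInt k) = 0 ∧ coeff 1 (cuspInt k) = 1 ∧
      IsRatForm k ((cuspInt k).map (Int.castRingHom ℚ)) ∧
      (∀ l, l.Prime → ∀ n, coeff (n * l) (cuspInt k) +
        (if l ∣ n then (l : ℤ) ^ (k - 1) * coeff (n / l) (cuspInt k) else 0) =
          coeff l (cuspInt k) * coeff n (cuspInt k)) ∧
      cuspInt 12 = FA.Tau.deltaInt := by
  refine ⟨coeff_cuspInt_zero k, coeff_cuspInt_one k, isRatForm_cuspInt hk, fun l hl n => ?_,
    cuspInt_twelve⟩
  have h := congrArg (coeff n) (cuspInt_hecke hk hl)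
  rwa [coeff_tSer, coeff_C_mul] at h

/-- **Rank one.** -/
theorem rank_one (h5 : 5 ≤ p) (hk : k ∈ sixWeights) (hkc : (k : ZMod (p - 1)) = c)
    (ha : ¬(p : ℤ) ∣ coeff p (cuspInt k)) (hc0 : c ≠ 0) (hev : Even c) :
    Module.finrank Λ ↥(cuspMod hp2 c) = 1 ∧ Module.finrank Λ ↥(lamOrd hp2 c) = 2 ∧
      Function.Bijective (algebraMap Λ ↥(cuspAlg hp2 h5 hc0 hev)) := by
  refine ⟨finrank_cuspMod h5 hk hkc ha, ?_, algebraMap_bijective h5 hk hkc ha hc0 hev⟩
  rw [← (cuspMod_free (hp2 := hp2) h5 hev).2.2, finrank_cuspMod h5 hk hkc ha]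

/-- **The family.** -/
theorem delta_family (h5 : 5 ≤ p) (hk : k ∈ sixWeights) (hkc : (k : ZMod (p - 1)) = c)
    (ha : ¬(p : ℤ) ∣ coeff p (cuspInt k)) :
    deltaFam hp2 h5 hk hkc ha ∈ lamOrd hp2 c ∧
      coeff 0 (deltaFam hp2 h5 hk hkc ha) = 0 ∧ coeff 1 (deltaFam hp2 h5 hk hkc ha) = 1 ∧
      uSer p (deltaFam hp2 h5 hk hkc ha) =
        C (coeff p (deltaFam hp2 h5 hk hkc ha)) * deltaFam hp2 h5 hk hkc ha ∧
      (∀ l, l.Prime → l ≠ p → tSer (thetaLam c l) l (deltaFam hp2 h5 hk hkc ha) =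
        C (coeff l (deltaFam hp2 h5 hk hkc ha)) * deltaFam hp2 h5 hk hkc ha) ∧
      (∀ s, ((deltaFam hp2 h5 hk hkc ha).map (evalLam hp2 s)).map PadicInt.toZMod =
        (cuspInt k).map (Int.castRingHom (ZMod p))) ∧
      ∀ S ∈ lamOrd hp2 c, coeff 0 S = 0 → S = C (coeff 1 S) * deltaFam hp2 h5 hk hkc ha :=
  ⟨deltaFam_mem, deltaFam_zero, deltaFam_one, deltaFam_uSer,
    fun _ hl hlp => deltaFam_tSer hl hlp, redSer_deltaFam,
    fun _ hS h0 => eq_mul_deltaFam h5 hk hkc ha hS h0⟩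

/-- **Each value is the only normalised cuspidal ordinary form of its weight.** -/
theorem delta_weight_unique (h5 : 5 ≤ p) (hk : k ∈ sixWeights) (hkc : (k : ZMod (p - 1)) = c)
    (ha : ¬(p : ℤ) ∣ coeff p (cuspInt k)) {s : ℤ_[p]} {f : PowerSeries ℚ_[p]}
    (hf : IsPadicForm f ((c, s) : Weights p)) (he : ordProj p f = f) (h0 : coeff 0 f = 0)
    (h1 : coeff 1 f = 1) :
    f = toQps p ((deltaFam hp2 h5 hk hkc ha).map (evalLam hp2 s)) := by
  have h := eq_mul_spec (hp2 := hp2) h5 hk hkc ha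
    ((FA.OrdinaryProj.mem_ordPart h5).2 ⟨hf, he⟩) h0
  rwa [h1, map_one, one_mul] at h

/-- **The family passes through the stabilised cusp form.** -/
theorem passes_through (h5 : 5 ≤ p) (hk : k ∈ sixWeights) (hkc : (k : ZMod (p - 1)) = c)
    (ha : ¬(p : ℤ) ∣ coeff p (cuspInt k)) :
    ∃ α β : ℤ_[p], IsUnit α ∧ α + β = ((coeff p (cuspInt k) : ℤ) : ℤ_[p]) ∧
      α * β = (p : ℤ_[p]) ^ (k - 1) ∧
      toQps p ((deltaFam hp2 h5 hk hkc ha).map (evalLam hp2 (k : ℤ_[p]))) =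
        toQps p ((cuspInt k).map (Int.castRingHom ℤ_[p])) -
          C (β : ℚ_[p]) * vSer p (toQps p ((cuspInt k).map (Int.castRingHom ℤ_[p]))) :=
  deltaFam_at_weight h5 hk hkc ha

/-- **Classical eigen combinations in the weights `k' ≥ 2` of the class.** -/
theorem delta_classical (h5 : 5 ≤ p) (hk : k ∈ sixWeights) (hkc : (k : ZMod (p - 1)) = c)
    (ha : ¬(p : ℤ) ∣ coeff p (cuspInt k)) {m : ℕ} (hm : 2 ≤ m) (hmc : (m : ZMod (p - 1)) = c) :
    toQps p ((deltaFam hp2 h5 hk hkc ha).map (evalLam hp2 (m : ℤ_[p]))) ∈ Submodule.span ℚ_[p]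
        {s : PowerSeries ℚ_[p] | ∃ (f : ModularForm (Gamma0 p : Subgroup (GL (Fin 2) ℝ)) (m : ℤ))
          (A : PowerSeries ℚ), qExpansion 1 ⇑f = A.map (Rat.castHom ℂ) ∧ toQp p A = s} ∧
      ∀ l, l.Prime → l ≠ p → ∀ n,
        coeff (n * l) ((deltaFam hp2 h5 hk hkc ha).map (evalLam hp2 (m : ℤ_[p]))) +
          (if l ∣ n then (l : ℤ_[p]) ^ (m - 1) *
            coeff (n / l) ((deltaFam hp2 h5 hk hkc ha).map (evalLam hp2 (m : ℤ_[p]))) else 0) =
        coeff l ((deltaFam hp2 h5 hk hkc ha).map (evalLam hp2 (m : ℤ_[p]))) *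
          coeff n ((deltaFam hp2 h5 hk hkc ha).map (evalLam hp2 (m : ℤ_[p]))) := by
  refine ⟨FA.LambdaForms.Summary.lambda_classical h5 deltaFam_mem hm hmc, fun l hl hlp n => ?_⟩
  have h := congrArg (fun T => coeff n (PowerSeries.map (evalLam hp2 (m : ℤ_[p])) T))
    (deltaFam_tSer (hp2 := hp2) (h5 := h5) (hk := hk) (hkc := hkc) (ha := ha) hl hlp)
  simp only [map_tSer, map_mul, PowerSeries.map_C, coeff_tSer, coeff_C_mul] at h
  rw [evalLam_thetaLam h5 (fun e => hlp ((Nat.prime_dvd_prime_iff_eq Fact.out hl).1 e).symm)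
    (by omega) hmc] at h
  rw [← coeff_map (evalLam hp2 (m : ℤ_[p]))] at h
  exact h

/-- **Congruence with the Eisenstein family modulo the zeta element.** -/
theorem deep_congruence (h5 : 5 ≤ p) (hk : k ∈ sixWeights) (hkc : (k : ZMod (p - 1)) = c)
    (ha : ¬(p : ℤ) ∣ coeff p (cuspInt k)) (hc0 : c ≠ 0) (hev : Even c) :
    (∀ n, zetaLam hp2 h5 hc0 hev ∣ coeff n (deltaFam hp2 h5 hk hkc ha) -
        coeff n (eisFam hp2 h5 hc0 hev : PowerSeries Λ)) ∧
      ∀ m : ℕ, Even m → 2 ≤ m → (m : ZMod (p - 1)) = c → ∀ n, 1 ≤ n →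
        ‖((coeff n ((deltaFam hp2 h5 hk hkc ha).map (evalLam hp2 (m : ℤ_[p]))) : ℤ_[p]) : ℚ_[p]) -
            ((∑ d ∈ n.divisors with ¬p ∣ d, d ^ (m - 1) : ℕ) : ℚ_[p])‖ ≤
          ‖((bernoulli m / (2 * m) : ℚ) : ℚ_[p])‖ := by
  refine ⟨zeta_dvd_sub h5 hk hkc ha hc0 hev, fun m hm2 hm hmc n hn => ?_⟩
  obtain ⟨q, hq⟩ := zeta_dvd_sub (hp2 := hp2) h5 hk hkc ha hc0 hev n
  have h := congrArg (evalLam hp2 (m : ℤ_[p])) hq
  rw [map_sub, map_mul, coeff_eisFam hn, evalLam_starLam h5 (by omega) hmc, ← coeff_map] at h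
  have h' := congrArg (fun x : ℤ_[p] => (x : ℚ_[p])) h
  simp only [PadicInt.coe_sub, PadicInt.coe_mul, PadicInt.coe_natCast] at h'
  rw [show (∑ d ∈ n.divisors with ¬p ∣ d, d ^ (m - 1) : ℕ) = starSum p m n from rfl, h', norm_mul,
    evalLam_zetaLam hm2 hm hmc, ← PadicInt.norm_def]
  refine (mul_le_of_le_one_right (norm_nonneg _) (PadicInt.norm_le_one _)).trans (le_of_eq ?_)
  have h1 : ‖(1 : ℚ_[p]) - (p : ℚ_[p]) ^ (m - 1)‖ = 1 := by
    have hlt : ‖(p : ℚ_[p]) ^ (m - 1)‖ < 1 := by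
      rw [norm_pow]
      exact pow_lt_one₀ (norm_nonneg _) Padic.norm_p_lt_one (by omega)
    rw [sub_eq_add_neg, IsUltrametricDist.norm_add_eq_max_of_norm_ne_norm
      (by rw [norm_neg, norm_one]; exact hlt.ne'), norm_neg, norm_one, max_eq_left hlt.le]
  push_cast
  rw [norm_mul, h1, one_mul, norm_neg]

attribute [local instance] fact_prime_eleven fact_prime_sixNinetyOne

/-- **`Δ` and the elliptic curve of conductor `11` lie on one family.** -/
theorem delta_eleven :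
    ∃ (hk : (12 : ℕ) ∈ sixWeights) (hkc : ((12 : ℕ) : ZMod (11 - 1)) = ((2 : ℕ) : ZMod (11 - 1)))
      (ha : ¬((11 : ℕ) : ℤ) ∣ coeff 11 (cuspInt 12)),
      (deltaFam (p := 11) (by norm_num) (by norm_num) hk hkc ha).map
          (evalLam (p := 11) (by norm_num) ((2 : ℕ) : ℤ_[11])) =
        FA.Tau.elevenInt.map (Int.castRingHom ℤ_[11]) ∧
      ∀ n, (⟨0, -1, 1, 0, 0⟩ : WeierstrassCurve ℚ).LFunction n = coeff n FA.Tau.elevenInt := by
  obtain ⟨hk, hkc, ha, h⟩ := deltaFam_eleven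
  exact ⟨hk, hkc, ha, h, FA.EtaEleven.LFunction_eq_series⟩

/-- **Congruences modulo powers of `691` in every weight `k' ≡ 12`.** -/
theorem delta_691 :
    ∃ (hk : (12 : ℕ) ∈ sixWeights) (hkc : ((12 : ℕ) : ZMod (691 - 1)) = (12 : ZMod (691 - 1)))
      (ha : ¬((691 : ℕ) : ℤ) ∣ coeff 691 (cuspInt 12)),
      ∀ m : ℕ, Even m → 2 ≤ m → (m : ZMod (691 - 1)) = 12 → ∀ n, 1 ≤ n →
        ‖((coeff n ((deltaFam (p := 691) (by norm_num) (by norm_num) hk hkc ha).map
              (evalLam (p := 691) (by norm_num) (m : ℤ_[691]))) : ℤ_[691]) : ℚ_[691]) -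
            ((∑ d ∈ n.divisors with ¬691 ∣ d, d ^ (m - 1) : ℕ) : ℚ_[691])‖ ≤
          ‖((bernoulli m / (2 * m) : ℚ) : ℚ_[691])‖ := by
  have hk : (12 : ℕ) ∈ sixWeights := by decide
  have hkc : ((12 : ℕ) : ZMod (691 - 1)) = (12 : ZMod (691 - 1)) := Nat.cast_ofNat
  exact ⟨hk, hkc, not_dvd_tau_sixNinetyOne,
    (deep_congruence (p := 691) (hp2 := by norm_num) (by norm_num) hk hkc not_dvd_tau_sixNinetyOne
      (by decide) ⟨6, by norm_num⟩).2⟩

end FA.DeltaFamily.Summary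

end
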