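import Fermat.Agent.PeriodPolynomial.Positive

/-!
# The period relations and Manin's periods of `Δ`

The critical values of the completed `L`-function of a cusp form of level one satisfy the relations
of Eichler and Shimura. For `Δ` they are all positive and, with the Hecke relation at `2`, in the
ratios found by Manin: `691 Λ(1) = 1620 Λ(3)`, `9 Λ(3) = 14 Λ(5)`, `5 Λ(2) = 12 Λ(6)`,
`4 Λ(4) = 5 Λ(6)`.
-/

set_option autoImplicit false

noncomputable section

namespace FA.Summary

open Complex Polynomial FA.HeckeConverse FA.PeriodPolynomial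
open scoped Real MatrixGroups

/-- **The relations of Eichler and Shimura**: for a cusp form of even weight `n + 2` with entire
completed series `E` and `per P = ∑ⱼ pⱼ i^(j+1) E(j+1)`, every `P` of degree at most `n` has
`per P + per (P|S) = 0` and `per P + per (P|U) + per (P|U²) = 0`, where `(P|S)(z) = zⁿ P(-1/z)`
and `(P|U)(z) = (z+1)ⁿ P(-1/(z+1))`. -/
theorem period_relations {n : ℕ} (hn : Even n) (f : CuspForm 𝒮ℒ ((n + 2 : ℕ) : ℤ)) {E : ℂ → ℂ}
    (hE : Differentiable ℂ E) {R : ℝ}
    (hR : ∀ s : ℂ, R < s.re → E s = (2 * π : ℂ) ^ (-s) * Complex.Gamma s *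
      LSeries (fun m => (UpperHalfPlane.qExpansion 1 f).coeff m) s)
    {P : ℂ[X]} (hP : P.natDegree ≤ n) :
    ∃ PS PU PUU : ℂ[X], PS.natDegree ≤ n ∧ PU.natDegree ≤ n ∧ PUU.natDegree ≤ n ∧
      (∀ z : ℂ, z ≠ 0 → PS.eval z = z ^ n * P.eval (-1 / z)) ∧
      (∀ z : ℂ, z + 1 ≠ 0 → PU.eval z = (z + 1) ^ n * P.eval (-1 / (z + 1))) ∧
      (∀ z : ℂ, z + 1 ≠ 0 → PUU.eval z = (z + 1) ^ n * PU.eval (-1 / (z + 1))) ∧
      (let per : ℂ[X] → ℂ := fun Q =>
          ∑ j ∈ Finset.range (n + 1), Q.coeff j * I ^ (j + 1) * E (j + 1);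
        per P + per PS = 0 ∧ per P + per PU + per PUU = 0) := by
  let F : ModularForm 𝒮ℒ ((n + 2 : ℕ) : ℤ) :=
    { toFun := f
      slash_action_eq' := f.slash_action_eq'
      holo' := f.holo'
      bdd_at_cusps' := fun hc γ hγ => (f.zero_at_cusps' hc γ hγ).boundedAtFilter }
  obtain ⟨a, ha⟩ : ∃ a : ℕ → ℂ, a = fun m => (UpperHalfPlane.qExpansion 1 f).coeff m := ⟨_, rfl⟩
  obtain ⟨K, hK⟩ : ∃ K, Growth a K (n + 2) := ha ▸ growth_coeff (by omega) F
  have hT : Transforms 1 ((n + 2 : ℕ) : ℝ) (I ^ (n + 2)) a a :=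
    ha ▸ transforms_coeff (by omega) F
  have h0 : a 0 = 0 := by
    rw [ha]
    exact CuspFormClass.qExpansion_coeff_zero f one_pos one_mem_strictPeriods_SL
  have hE' : IsContinuation a E := ⟨hE, R, fun s hs => by
    rw [hR s hs, ha, completed]
    simp⟩
  refine ⟨_, _, _, natDegree_flip_le n P, natDegree_uOp_le n P, natDegree_uOp_le n _,
    fun z hz => eval_flip hP hz, fun z hz => eval_uOp hP hz,
    fun z hz => eval_uOp (natDegree_uOp_le n P) hz, ?_⟩
  have hv : ∀ {Q : ℂ[X]}, Q.natDegree ≤ n →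
      ∑ j ∈ Finset.range (n + 1), Q.coeff j * I ^ (j + 1) * E (j + 1) = -per a n Q := fun hQ => by
    rw [per_eq_values hE' hK h0 hT hQ, neg_neg]
  have h1 := per_flip (a := a) hn hP
  have h2 := per_uOp hn hK h0 (slash_of_transforms hT) hP
  simp only [hv hP, hv (natDegree_flip_le n P), hv (natDegree_uOp_le n P),
    hv (natDegree_uOp_le n _)]
  exact ⟨by linear_combination -h1, by linear_combination -h2⟩

/-- **Manin's periods of `Δ`**: for the entire continuation `E` of `(2π)^(-s) Γ(s) L(τ, s)` the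
critical values of each parity have these ratios. -/
theorem manin_delta_periods {E : ℂ → ℂ} (hE : Differentiable ℂ E) {R : ℝ}
    (hR : ∀ s : ℂ, R < s.re → E s = (2 * π : ℂ) ^ (-s) * Complex.Gamma s *
      LSeries (fun m => (UpperHalfPlane.qExpansion 1 ModularForm.discriminant).coeff m) s) :
    (691 * E 1 = 1620 * E 3 ∧ 9 * E 3 = 14 * E 5) ∧
      (5 * E 2 = 12 * E 6 ∧ 4 * E 4 = 5 * E 6) :=
  delta_values ⟨hE, R, fun s hs => by
    rw [hR s hs, completed, show tauC =
      fun m => (UpperHalfPlane.qExpansion 1 ModularForm.discriminant).coeff m from rfl]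
    simp⟩

/-- **Positivity**: `E s` is real and positive for real `s`, in particular at all critical
points, so none of Manin's relations is vacuous. -/
theorem delta_Lvalue_pos {E : ℂ → ℂ} (hE : Differentiable ℂ E) {R : ℝ}
    (hR : ∀ s : ℂ, R < s.re → E s = (2 * π : ℂ) ^ (-s) * Complex.Gamma s *
      LSeries (fun m => (UpperHalfPlane.qExpansion 1 ModularForm.discriminant).coeff m) s) (s : ℝ) :
    (E s).im = 0 ∧ 0 < (E s).re :=
  continuation_pos ⟨hE, R, fun s hs => by
    rw [hR s hs, completed, show tauC =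
      fun m => (UpperHalfPlane.qExpansion 1 ModularForm.discriminant).coeff m from rfl]
    simp⟩ s

end FA.Summary

end
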