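import Fermat.Agent.Denjoy.Smooth

/-!
# Denjoy's theorem

A circle diffeomorphism of class `C²` with irrational rotation number is topologically conjugate
to a rotation, so all its orbits are dense.
-/

set_option autoImplicit false

noncomputable section

open Function

namespace FA.Summary

open FA.Denjoy

/-- **Denjoy's theorem**: a lift `f` of a `C²` circle diffeomorphism with irrational translation
number `τ` is conjugate to the translation by `τ` by a homeomorphism commuting with `x ↦ x + 1`. -/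
theorem denjoy (f : CircleDeg1Lift) (hf : ContDiff ℝ 2 f) (hpos : ∀ x, 0 < deriv f x)
    (hτ : Irrational f.translationNumber) :
    ∃ e : ℝ ≃ₜ ℝ, StrictMono e ∧ (∀ x, e (x + 1) = e x + 1) ∧
      ∀ x, e (f x) = e x + f.translationNumber :=
  exists_conjugacy_smooth hf hpos f.map_add_one hτ

/-- Denjoy's theorem asking only that `log f'` be Lipschitz. -/
theorem denjoy_lipschitz (f : CircleDeg1Lift) {f' : ℝ → ℝ} {C : ℝ}
    (hf : ∀ x, HasDerivAt f (f' x) x) (hpos : ∀ x, 0 < f' x) (hper : ∀ x, f' (x + 1) = f' x)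
    (hlip : ∀ x y, |Real.log (f' x) - Real.log (f' y)| ≤ C * |x - y|)
    (hτ : Irrational f.translationNumber) :
    ∃ e : ℝ ≃ₜ ℝ, StrictMono e ∧ (∀ x, e (x + 1) = e x + 1) ∧
      ∀ x, e (f x) = e x + f.translationNumber :=
  exists_conjugacy f hf hpos hper hlip hτ

/-- **No wandering intervals**: every forward orbit is dense on the circle. -/
theorem denjoy_dense_orbits (f : CircleDeg1Lift) (hf : ContDiff ℝ 2 f)
    (hpos : ∀ x, 0 < deriv f x) (hτ : Irrational f.translationNumber) (x : ℝ) :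
    Dense {y : ℝ | ∃ (n : ℕ) (m : ℤ), y = f^[n] x + m} := by
  obtain ⟨e, -, h1, hsc⟩ := denjoy f hf hpos hτ
  exact dense_orbit hτ h1 hsc x

/-- The dichotomy: a `C²` circle diffeomorphism has a periodic orbit, or is conjugate to an
irrational rotation. -/
theorem denjoy_dichotomy (f : CircleDeg1Lift) (hf : ContDiff ℝ 2 f)
    (hpos : ∀ x, 0 < deriv f x) :
    (∃ (x : ℝ) (n : ℕ) (m : ℤ), 0 < n ∧ f^[n] x = x + m) ∨
      ∃ (τ : ℝ) (e : ℝ ≃ₜ ℝ), Irrational τ ∧ StrictMono e ∧ (∀ x, e (x + 1) = e x + 1) ∧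
        ∀ x, e (f x) = e x + τ := by
  by_cases hτ : Irrational f.translationNumber
  · obtain ⟨e, h⟩ := denjoy f hf hpos hτ
    exact Or.inr ⟨_, e, hτ, h⟩
  · obtain ⟨q, hq⟩ := not_not.1 hτ
    obtain ⟨x, hx⟩ := (f.translationNumber_eq_rat_iff hf.continuous (m := q.num) q.pos).1
      (by rw [← hq]; exact (Rat.cast_def q))
    exact Or.inl ⟨x, q.den, q.num, q.pos, by rwa [CircleDeg1Lift.coe_pow] at hx⟩

/-- **The hypotheses are met**: for every real `τ` some `x + t + sin (2 π x) / (4 π)`, a `C²`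
diffeomorphism that is no translation, has translation number `τ`. -/
theorem denjoy_family (τ : ℝ) : ∃ (t : ℝ) (f : CircleDeg1Lift),
    (∀ x, f x = x + t + Real.sin (2 * Real.pi * x) / (4 * Real.pi)) ∧ ContDiff ℝ 2 f ∧
      (∀ x, 0 < deriv f x) ∧ (∃ x y, f x - x ≠ f y - y) ∧ f.translationNumber = τ := by
  obtain ⟨t, ht⟩ := exists_wave τ
  exact ⟨t, waveLift t, fun x => rfl, wave_contDiff t, wave_deriv_pos t, wave_not_translation t, ht⟩

end FA.Summary

end
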