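import Fermat.Agent.DenseThreePrimes.Main

/-!
# Three primes from dense sets of primes: the theorem of Li and Pan

If the relative densities of three sets of primes have sum above `2` then every large odd `N` is a
sum `p₀ + p₁ + p₂` with one prime from each, in `≫ N ^ 2 / (log N) ^ 3` ways, uniformly in the sets
(H. Li and H. Pan, 2010), so one set of relative density above `2 / 3` suffices alone.

Proved by Green's transference: the `W`-trick, a restriction estimate for the weighted primes of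
one class, smoothing over Bohr sets and Pollard's theorem. The constants are ineffective (Siegel);
Shao's threshold `5 / 8` for a single set is not claimed. No link with Fermat's last theorem.
-/

set_option autoImplicit false

noncomputable section

namespace FA.DenseThreePrimes.Summary

open Finset Filter
open FA.ThreePrimes (eAdd)
open scoped Real Nat.Prime

/-- **Pollard's theorem.** -/
theorem pollard_theorem {p : ℕ} [Fact p.Prime] (A B : Finset (ZMod p)) {t : ℕ} (hA : t ≤ A.card)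
    (hB : t ≤ B.card) :
    t * min p (A.card + B.card - t) ≤
      ∑ x : ZMod p, min t ((A.filter fun a => x - a ∈ B).card) :=
  pollard A B t hA hB

/-- **The theorem of Li and Pan**, uniform in the sets. -/
theorem li_pan_dense_three_primes {δ : Fin 3 → ℝ} (h : 2 < ∑ i, δ i) :
    ∃ c : ℝ, 0 < c ∧ ∃ N₀ : ℕ, ∀ N : ℕ, N₀ ≤ N → Odd N →
      ∀ A : Fin 3 → Finset ℕ, (∀ i, ∀ p ∈ A i, p.Prime) →
        (∀ i, δ i * (π (2 * N / 3) : ℝ) ≤ ((A i).filter fun p => p ≤ 2 * N / 3).card) →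
          c * ((N : ℝ) ^ 2 / Real.log N ^ 3) ≤
            ((((A 0) ×ˢ (A 1) ×ˢ (A 2)).filter fun z => z.1 + z.2.1 + z.2.2 = N).card : ℝ) :=
  exists_dense_three h

open scoped Classical in
/-- **The version for sets of primes**: relative lower densities of sum above `2`. -/
theorem dense_three_primes (P : Fin 3 → Set ℕ) (hP : ∀ i, ∀ p ∈ P i, p.Prime) {δ : Fin 3 → ℝ}
    (h : 2 < ∑ i, δ i)
    (hδ : ∀ i, ∀ᶠ x : ℕ in atTop, δ i * (π x : ℝ) ≤ ((Icc 1 x).filter (· ∈ P i)).card) :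
    ∀ᶠ N : ℕ in atTop, Odd N → ∃ a ∈ P 0, ∃ b ∈ P 1, ∃ c ∈ P 2, a + b + c = N := by
  obtain ⟨c, hc, N₀, hN₀⟩ := exists_dense_three h
  obtain ⟨x₀, hx₀⟩ := eventually_atTop.1 (eventually_all.2 hδ)
  filter_upwards [eventually_ge_atTop (max N₀ (3 * x₀ + 3))] with N hN hodd
  have h1 := hN₀ N ((le_max_left _ _).trans hN) hodd
    (fun i => (Icc 1 (2 * N / 3)).filter (· ∈ P i)) (fun i p hp => hP i p (mem_filter.1 hp).2)
    fun i => by
      rw [filter_true_of_mem fun p hp => (mem_Icc.1 (mem_filter.1 hp).1).2]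
      exact hx₀ (2 * N / 3) (by have := (le_max_right N₀ (3 * x₀ + 3)).trans hN; omega) i
  have hpos : 0 < c * ((N : ℝ) ^ 2 / Real.log N ^ 3) := by
    have hN1 : 1 < N := by have := (le_max_right N₀ (3 * x₀ + 3)).trans hN; omega
    have := Real.log_pos (Nat.one_lt_cast.2 hN1 : (1 : ℝ) < (N : ℝ))
    have : (0 : ℝ) < N := Nat.cast_pos.2 (by omega)
    positivity
  obtain ⟨z, hz⟩ := card_pos.1 (Nat.cast_pos.1 (hpos.trans_le h1))
  simp only [mem_filter, mem_product] at hz
  exact ⟨_, hz.1.1.2, _, hz.1.2.1.2, _, hz.1.2.2.2, hz.2⟩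

open scoped Classical in
/-- The same with the lower relative densities as lower limits. -/
theorem dense_three_primes_liminf (P : Fin 3 → Set ℕ) (hP : ∀ i, ∀ p ∈ P i, p.Prime)
    (h : 2 < ∑ i, liminf (fun x : ℕ =>
      (((Icc 1 x).filter (· ∈ P i)).card : ℝ) / (π x : ℝ)) atTop) :
    ∀ᶠ N : ℕ in atTop, Odd N → ∃ a ∈ P 0, ∃ b ∈ P 1, ∃ c ∈ P 2, a + b + c = N := by
  obtain ⟨d, hd⟩ : ∃ d : Fin 3 → ℝ, d = fun i => liminf (fun x : ℕ =>
      (((Icc 1 x).filter (· ∈ P i)).card : ℝ) / (π x : ℝ)) atTop := ⟨_, rfl⟩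
  obtain ⟨e, he⟩ : ∃ e, e = (∑ i, d i - 2) / 6 := ⟨_, rfl⟩
  have he0 : 0 < e := by
    rw [he, hd]
    exact div_pos (sub_pos.2 h) (by norm_num)
  refine dense_three_primes P hP (δ := fun i => d i - e) ?_ fun i => ?_
  · rw [Fin.sum_univ_three] at he ⊢
    linarith
  · have hb : IsBoundedUnder (· ≥ ·) atTop (fun x : ℕ =>
        (((Icc 1 x).filter (· ∈ P i)).card : ℝ) / (π x : ℝ)) :=
      isBoundedUnder_of ⟨0, fun x => div_nonneg (Nat.cast_nonneg _) (Nat.cast_nonneg _)⟩
    filter_upwards [eventually_lt_of_lt_liminf (show d i - e < _ from by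
        rw [hd]; exact sub_lt_self _ he0) hb, eventually_ge_atTop 2] with x hx hx2
    have hπ : 0 < π x := Nat.pos_of_ne_zero fun h0 => by
      rw [Nat.primeCounting_eq_zero_iff] at h0
      omega
    rw [lt_div_iff₀ (Nat.cast_pos.2 hπ)] at hx
    exact hx.le

open scoped Classical in
/-- **One set of relative density above `2 / 3`.** -/
theorem dense_set_three_primes (P : Set ℕ) (hP : ∀ p ∈ P, p.Prime) {δ : ℝ} (h : 2 / 3 < δ)
    (hδ : ∀ᶠ x : ℕ in atTop, δ * (π x : ℝ) ≤ ((Icc 1 x).filter (· ∈ P)).card) :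
    ∀ᶠ N : ℕ in atTop, Odd N → ∃ a ∈ P, ∃ b ∈ P, ∃ c ∈ P, a + b + c = N :=
  dense_three_primes (fun _ => P) (fun _ => hP) (δ := fun _ => δ)
    (by rw [Fin.sum_univ_three]; linarith) fun _ => hδ

/-- **Restriction for the weighted primes of one class**, uniform in the modulus `Q`: the weights
are `φ(Q) / Q log (Q n + a)` on the primes `Q n + a`, and `L` is large in terms of `Q`. -/
theorem class_prime_restriction {q : ℝ} (hq : 2 < q) : ∃ C : ℝ, 0 < C ∧
    ∀ Q a : ℕ, a < Q → a.Coprime Q → ∀ᶠ L : ℕ in atTop, ∀ c : ℕ → ℂ, (∀ n, ‖c n‖ ≤ 1) →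
      ∑ h ∈ range L, ‖∑ n ∈ (Icc 1 L).filter (fun n => (Q * n + a).Prime),
          c n * ((Q.totient : ℝ) / Q * Real.log ((Q * n + a : ℕ) : ℝ) : ℝ) *
            eAdd ((n : ℝ) * h / L)‖ ^ q ≤ C * (L : ℝ) ^ q := by
  obtain ⟨A, C, hC, hres⟩ := exists_weighted_restriction hq
  refine ⟨C * 9 ^ (q / 2), by positivity, fun Q a haQ ha => ?_⟩
  filter_upwards [eventually_isTrickMajorant A (Nat.lt_of_le_of_lt (Nat.zero_le a) haQ) haQ ha,
    eventually_ge_atTop 1] with L hw hL c hc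
  obtain ⟨b, hb⟩ : ∃ b : ℕ → ℂ, b = fun n => c n * (√(trickWeight Q a n) : ℝ) := ⟨_, rfl⟩
  have e : ∀ h : ℕ, ∑ n ∈ (Icc 1 L).filter (fun n => (Q * n + a).Prime),
      c n * ((Q.totient : ℝ) / Q * Real.log ((Q * n + a : ℕ) : ℝ) : ℝ) * eAdd ((n : ℝ) * h / L) =
      wRestrict L (trickWeight Q a) b h := fun h => by
    rw [sum_filter, wRestrict]
    refine sum_congr rfl fun n _ => ?_
    rw [hb]
    simp only
    rw [mul_assoc (c n) ((√(trickWeight Q a n) : ℝ) : ℂ), ← Complex.ofReal_mul,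
      Real.mul_self_sqrt (trickWeight_nonneg Q a n), trickWeight]
    split_ifs <;> simp
  have henergy : PrimeRestriction.energy L b ≤ 9 * L := by
    refine (sum_le_sum fun n _ => ?_).trans hw.sum_le
    rw [hb, norm_mul, Complex.norm_real, Real.norm_eq_abs, mul_pow, sq_abs,
      Real.sq_sqrt (trickWeight_nonneg Q a n)]
    exact mul_le_of_le_one_left (trickWeight_nonneg Q a n) (pow_le_one₀ (norm_nonneg _) (hc n))
  simp only [e]
  refine (hres L hL _ hw b).trans ?_
  rw [mul_assoc]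
  refine mul_le_mul_of_nonneg_left ?_ hC.le
  refine (Real.rpow_le_rpow (mul_nonneg (Nat.cast_nonneg L) (PrimeRestriction.energy_nonneg _ _))
    (mul_le_mul_of_nonneg_left henergy (Nat.cast_nonneg L)) (by linarith)).trans (le_of_eq ?_)
  rw [show (L : ℝ) * (9 * L) = 9 * (L : ℝ) ^ (2 : ℝ) by rw [Real.rpow_two]; ring,
    Real.mul_rpow (by norm_num) (by positivity), ← Real.rpow_mul (Nat.cast_nonneg L)]
  congr 2
  ring

end FA.DenseThreePrimes.Summary
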