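import Fermat.Agent.DensityHJ.Main

/-!
# The density Hales–Jewett theorem

* `graham_rothschild_lines`: the Graham–Rothschild theorem for lines: for finitely many colours
  there is `n` such that every colouring of the lines of `α ^ n` has an `m`-dimensional subspace
  all of whose lines have the same colour;
* `density_hales_jewett`: the theorem of Furstenberg and Katznelson: for every finite alphabet and
  `δ > 0`, in all sufficiently high dimensions every set of density at least `δ` contains a
  combinatorial line;
* `density_hales_jewett_subspace`: the same with subspaces of any dimension.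

The proof follows Dodos, Kanellopoulos and Tyros (density increment, induction on the alphabet).
-/

set_option autoImplicit false

open Combinatorics

namespace FA.Summary

universe u v w

/-- **Graham–Rothschild theorem for lines.** `L'` is the image of the line `L` in `V`. -/
theorem graham_rothschild_lines (α : Type u) [Finite α] [Nonempty α] (κ : Type w) [Finite κ]
    (m : ℕ) : ∃ n, ∀ c : Line α (Fin n) → κ, ∃ V : Subspace (Fin m) α (Fin n), ∃ c0,
      ∀ (L : Line α (Fin m)) (L' : Line α (Fin n)),
        (∀ i, L'.idxFun i = (V.idxFun i).elim some L.idxFun) → c L' = c0 :=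
  FA.DensityHJ.exists_mono_line_subspace α κ m

/-- **Density Hales–Jewett theorem.** -/
theorem density_hales_jewett (α : Type u) [Fintype α] {δ : ℝ} (hδ : 0 < δ) :
    ∃ N : ℕ, ∀ (ι : Type v) [Fintype ι], N ≤ Fintype.card ι → ∀ A : Set (ι → α),
      δ * (Fintype.card α : ℝ) ^ Fintype.card ι ≤ A.ncard → ∃ l : Line α ι, ∀ a, l a ∈ A :=
  FA.DensityHJ.exists_line_of_dense α hδ

/-- **Multidimensional density Hales–Jewett theorem.** -/
theorem density_hales_jewett_subspace (α : Type u) [Fintype α] [Nonempty α] (η : Type w)
    [Fintype η] {δ : ℝ} (hδ : 0 < δ) :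
    ∃ N : ℕ, ∀ (ι : Type v) [Fintype ι], N ≤ Fintype.card ι → ∀ A : Set (ι → α),
      δ * (Fintype.card α : ℝ) ^ Fintype.card ι ≤ A.ncard →
        ∃ l : Subspace η α ι, ∀ y, l y ∈ A :=
  FA.DensityHJ.exists_subspace_of_dense α η hδ

end FA.Summary
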