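import Fermat.Agent.Denumerant.Schur
import Fermat.Agent.Denumerant.Kempner

/-!
# Schur's denumerant asymptotic (1926) and Kempner's series (1914)
-/

set_option autoImplicit false

noncomputable section

open Finset Filter Topology

namespace FA.Summary

/-- **Schur**: for coprime positive parts `a 0, …, a m` the number of representations of `n` by
them is asymptotic to `n ^ m / (m! ∏ a i)`. -/
theorem schur_denumerant {m : ℕ} (a : Fin (m + 1) → ℕ) (ha : ∀ i, 0 < a i)
    (hgcd : univ.gcd a = 1) :
    Tendsto (fun n : ℕ => ({x : Fin (m + 1) → ℕ | ∑ i, a i * x i = n}.ncard : ℝ) / (n : ℝ) ^ m)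
      atTop (𝓝 (1 / ((m.factorial : ℝ) * ∏ i, (a i : ℝ)))) :=
  Denumerant.schur a ha hgcd

/-- **Kempner**: the harmonic series over the numbers that avoid one digit converges. -/
theorem kempner_series {b d : ℕ} (hb : 2 ≤ b) (hd : d < b) :
    Summable fun n : ℕ => if d ∈ Nat.digits b n then (0 : ℝ) else 1 / (n : ℝ) :=
  Denumerant.summable_avoid hb hd

end FA.Summary
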