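import Fermat.Agent.DerivZetaZeros.Main

/-!
# The zeros of `ζ'`: Levinson–Montgomery, Speiser and Berndt

The zeros of `ζ'` left of the critical line number as many as those of `ζ` there, up to
`O (log T)` (Levinson–Montgomery 1974); all the zeros of `ζ'` with `0 < im ≤ T` number
`T/2π log (T/4π) - T/2π + O (log T)` (Berndt 1970); under the Riemann hypothesis `ζ'` has, at
great height, no zero left of the line (Speiser 1934). With Levinson's theorem, fewer than a third
of the zeros of `ζ'` lie left of the line.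

Speiser's equivalence at small heights is not claimed; the base height here is `exp 50`.
-/

set_option autoImplicit false

noncomputable section

namespace FA.DerivZetaZeros.Summary

open Complex Filter Set FA.RiemannMangoldt
open scoped Real

/-- The zeros of `ζ'` and the three counts, all with multiplicity. -/
theorem counts_spec (T : ℝ) :
    derivZeros T = {w | deriv riemannZeta w = 0 ∧ 0 < w.im ∧ w.im ≤ T} ∧
    derivZeroCount T =
      ∑ w ∈ (finite_derivZeros T).toFinset, analyticOrderNatAt (deriv riemannZeta) w ∧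
    derivLeftZeros T = ∑ w ∈ (finite_derivZeros T).toFinset.filter (fun w => w.re < 1 / 2),
      analyticOrderNatAt (deriv riemannZeta) w ∧
    zetaLeftZeros T = ∑ ρ ∈ (finite_zetaZeros T).toFinset.filter (fun ρ => ρ.re < 1 / 2),
      analyticOrderNatAt riemannZeta ρ :=
  ⟨rfl, rfl, rfl, rfl⟩

/-- Every zero of `ζ'` counted has positive multiplicity. -/
theorem multiplicity_pos {w : ℂ} (h : deriv riemannZeta w = 0) (hw : 0 < w.im) :
    1 ≤ analyticOrderNatAt (deriv riemannZeta) w :=
  order_pos differentiableOn_derivZeta (by simp) deriv_zeta_ten_ne_zero hw h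

/-- **The theorem of Levinson and Montgomery**: `N₁⁻ (T) = N⁻ (T) + O (log T)`. -/
theorem levinson_montgomery : ∃ C : ℝ, ∀ T : ℝ, 3 ≤ T →
    |(derivLeftZeros T : ℝ) - zetaLeftZeros T| ≤ C * Real.log T :=
  exists_levinson_montgomery

/-- **Berndt's theorem**: `N₁ (T) = T/2π log (T/4π) - T/2π + O (log T)`. -/
theorem berndt : ∃ C : ℝ, ∀ T : ℝ, 3 ≤ T →
    |(derivZeroCount T : ℝ) -
      (T / (2 * π) * Real.log (T / (4 * π)) - T / (2 * π))| ≤ C * Real.log T :=
  exists_berndt

/-- **The zeros of `ζ'` lie in a strip**, and at great height in `0 < re s ≤ 10`. -/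
theorem deriv_zeros_strip : ∃ R t₀ : ℝ, ∀ s : ℂ, deriv riemannZeta s = 0 → 0 < s.im →
    -R ≤ s.re ∧ s.re ≤ 10 ∧ (t₀ ≤ s.im → 0 < s.re) :=
  ⟨dzLeft, dzBase, fun _ => deriv_zero_re⟩

/-- **A zero of `ζ'` on the line is one of `ζ`**, at great height. -/
theorem line_zero : ∃ t₀ : ℝ, ∀ t : ℝ, t₀ ≤ t →
    deriv riemannZeta (1 / 2 + t * I) = 0 → riemannZeta (1 / 2 + t * I) = 0 := by
  refine ⟨dzBase, fun t ht h => ?_⟩
  have e : (1 / 2 : ℂ) + t * I = ((1 / 2 : ℝ) : ℂ) + t * I := by norm_num
  rw [e] at h ⊢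
  exact zeta_eq_zero_of_deriv ht h

/-- **Speiser's theorem, one direction**: under the Riemann hypothesis `ζ'` has, at great height,
no zero left of the critical line. -/
theorem speiser : ∃ t₀ : ℝ, RiemannHypothesis →
    ∀ s : ℂ, s.re < 1 / 2 → t₀ ≤ s.im → deriv riemannZeta s ≠ 0 :=
  ⟨dzBase, fun h _ => deriv_zeta_ne_zero_of_rh h⟩

/-- **The converse up to `O (log T)`**: without zeros of `ζ'` left of the line at great height all
but `O (log T)` zeros of `ζ` are on it, with multiplicity. -/
theorem speiser_converse {t₀ : ℝ}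
    (hne : ∀ s : ℂ, s.re < 1 / 2 → t₀ ≤ s.im → deriv riemannZeta s ≠ 0) :
    ∃ C : ℝ, ∀ T : ℝ, 3 ≤ T →
      ((∑ ρ ∈ (finite_zetaZeros T).toFinset.filter (fun ρ => ρ.re ≠ 1 / 2),
        analyticOrderNatAt riemannZeta ρ : ℕ) : ℝ) ≤ C * Real.log T :=
  exists_offLine_le hne

/-- **Fewer than a third of the zeros of `ζ'` lie left of the critical line**, by Levinson's
theorem. -/
theorem left_lt_third : ∃ T₀ : ℝ, ∀ T : ℝ, T₀ ≤ T → 3 * derivLeftZeros T < derivZeroCount T := by
  obtain ⟨T₀, h⟩ := eventually_atTop.1 eventually_third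
  exact ⟨T₀, fun T hT => by exact_mod_cast h T hT⟩

end FA.DerivZetaZeros.Summary

end
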