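import Fermat.Agent.Monsky.EvenLowerHalf
import Fermat.Agent.Monsky.Classes
import Fermat.Agent.CM.CongruentParity

/-!
# The parity theorem for the two-Selmer rank of congruent number curves (Monsky)

For every squarefree `n` the classes soluble over `ℝ` and every `ℚ_q` number `2 ^ d` with
`rank ≤ d`, and `d` has the parity of the order at `1` of the L-series of `y² = x³ - n² x`.
-/

set_option autoImplicit false
set_option linter.style.haveILetI false

noncomputable section

namespace FA.Monsky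

/-- An odd squarefree number as a product of distinct odd primes. -/
theorem exists_oddPrimes_eq {N : ℕ} (hN : Squarefree N) (ho : Odd N) :
    ∃ (k : ℕ) (P : Fin k → ℕ), OddPrimes P ∧ ∏ i, P i = N := by
  set e := N.primeFactors.equivFin
  refine ⟨_, fun i => ((e.symm i : N.primeFactors) : ℕ), ⟨fun i => ?_, fun i h => ?_, ?_⟩, ?_⟩
  · exact Nat.prime_of_mem_primeFactors (e.symm i).2
  · exact (Nat.not_even_iff_odd.2 ho)
      (even_iff_two_dvd.2 (h ▸ Nat.dvd_of_mem_primeFactors (e.symm i).2))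
  · exact Subtype.val_injective.comp e.symm.injective
  · rw [Equiv.prod_comp e.symm (fun q : N.primeFactors => (q : ℕ)),
      Finset.prod_coe_sort N.primeFactors fun q => q, Nat.prod_primeFactors_of_squarefree hN]

/-- The order at `1` of the L-series has the parity of the sign. -/
theorem exists_order {m : ℕ} (hm : Squarefree m) :
    ∃ g : ℂ → ℂ, Differentiable ℂ g ∧
      (∀ s : ℂ, 3 / 2 < s.re →
        g s = (⟨0, 0, 0, -(m : ℚ) ^ 2, 0⟩ : WeierstrassCurve ℚ).LSeries s) ∧
      ∃ r : ℕ, analyticOrderAt g 1 = r ∧ (Odd r ↔ ¬ (m % 8 = 1 ∨ m % 8 = 2 ∨ m % 8 = 3)) := by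
  obtain ⟨Λ, hΛ, hs, hfe⟩ :=
    FA.Summary.functionalEquation_congruentCurve hm (n := (m : ℚ)) one_ne_zero
      (by rw [one_pow, one_mul])
  have hM : (if Odd m then 32 * m ^ 2 else 16 * m ^ 2) ≠ 0 := by
    have := hm.ne_zero
    split_ifs <;> positivity
  obtain ⟨g, hg, hgs, -, -, r, hord, hε⟩ := FA.Parity.exists_parity _ hM hΛ hs hfe
  refine ⟨g, hg, hgs, r, hord, ?_⟩
  rcases Nat.even_or_odd r with h | h <;> rw [h.neg_one_pow] at hε <;>
    split_ifs at hε with h8 <;> norm_num at hε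
  · exact iff_of_false (Nat.not_odd_iff_even.2 h) (not_not.2 h8)
  · exact iff_of_true h h8

end FA.Monsky

namespace FA.Summary

open FA.Monsky

/-- **Monsky's parity theorem**: for every squarefree `n` the pairs (odd `n`) or triples (even `n`)
of classes of odd primes soluble everywhere locally number `2 ^ d`, the rank is at most `d`, and `d` has the
parity of the order at `1` of the entire continuation of the L-series. -/
theorem selmer_parity_every (n : ℕ) (hn : Squarefree n) :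
    ∃ (k d : ℕ) (P : Fin k → ℕ), (∀ i, (P i).Prime ∧ P i ≠ 2) ∧
      ((n = ∏ i, P i ∧
        Nat.card {x : (Fin k → ZMod 2) × (Fin k → ZMod 2) //
          Soluble ℝ (∏ j, P j : ℕ) (classProd P x.1) (classProd P x.2)
              (classProd P (x.1 + x.2)) ∧
            ∀ (q : ℕ) [Fact q.Prime], Soluble ℚ_[q] (∏ j, P j : ℕ) (classProd P x.1)
              (classProd P x.2) (classProd P (x.1 + x.2))} = 2 ^ d) ∨
      (n = 2 * ∏ i, P i ∧
        Nat.card {x : (Fin k → ZMod 2) × (Fin k → ZMod 2) × ZMod 2 //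
          Soluble ℝ (2 * ∏ j, P j : ℕ) (classProd P x.1) (twoClass x.2.2 * classProd P x.2.1 : ℕ)
              (twoClass x.2.2 * classProd P (x.1 + x.2.1) : ℕ) ∧
            ∀ (q : ℕ) [Fact q.Prime], Soluble ℚ_[q] (2 * ∏ j, P j : ℕ) (classProd P x.1)
              (twoClass x.2.2 * classProd P x.2.1 : ℕ)
              (twoClass x.2.2 * classProd P (x.1 + x.2.1) : ℕ)} = 2 ^ d)) ∧
      Module.finrank ℤ (⟨0, 0, 0, -(n : ℚ) ^ 2, 0⟩ : WeierstrassCurve ℚ).toAffine.Point ≤ d ∧
      ∃ g : ℂ → ℂ, Differentiable ℂ g ∧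
        (∀ s : ℂ, 3 / 2 < s.re →
          g s = (⟨0, 0, 0, -(n : ℚ) ^ 2, 0⟩ : WeierstrassCurve ℚ).LSeries s) ∧
        ∃ r : ℕ, analyticOrderAt g 1 = r ∧ d % 2 = r % 2 := by
  obtain ⟨g, hg, hgs, r, hord, hr⟩ := exists_order hn
  rw [Nat.odd_iff] at hr
  rcases Nat.even_or_odd n with he | ho
  · obtain ⟨m, rfl⟩ := he.two_dvd
    have hmo : Odd m := Nat.not_even_iff_odd.1 fun ⟨c, hc⟩ =>
      Nat.prime_two.not_isUnit (hn 2 ⟨c, by omega⟩)
    obtain ⟨k, P, hP, rfl⟩ := exists_oddPrimes_eq (hn.squarefree_of_dvd (dvd_mul_left _ _)) hmo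
    haveI : ∀ i, NeZero (P i) := fun i => ⟨(hP.prime i).ne_zero⟩
    refine ⟨k, _, P, fun i => ⟨hP.prime i, hP.odd i⟩,
      Or.inr ⟨rfl, natCard_soluble_two hP⟩, finrank_le_two hP, g, hg, hgs,
      r, hord, ?_⟩
    have h := odd_finrank_ker_matrixTwo hP
    rw [Nat.odd_iff] at h
    have := Nat.odd_iff.1 hmo
    omega
  · obtain ⟨k, P, hP, rfl⟩ := exists_oddPrimes_eq hn ho
    haveI : ∀ i, NeZero (P i) := fun i => ⟨(hP.prime i).ne_zero⟩
    refine ⟨k, _, P, fun i => ⟨hP.prime i, hP.odd i⟩,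
      Or.inl ⟨rfl, natCard_soluble hP⟩, finrank_le hP, g, hg, hgs, r,
      hord, ?_⟩
    have h := odd_finrank_ker_matrix hP
    rw [Nat.odd_iff] at h
    have := Nat.odd_iff.1 ho
    omega

end FA.Summary

end
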