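import Fermat.Agent.Monsky.Descent
import Fermat.Agent.ShaPhi.Selmer
import Fermat.Agent.Monsky.SelmerRanks
import Fermat.Agent.Root.SummarySelmerParity

/-!
# The exact descent sequence of a congruent number curve

`0 → E(ℚ)/(2 E(ℚ) + torsion) → ker M → ShaTwo → 0` for odd squarefree `n`. `ShaTwo` is this quotient
of the group of classes soluble everywhere locally by definition; classically it is `Ш(E)[2]`,
which is not defined here. Its dimension is unbounded, is two at Bastien's primes and has with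
the rank the parity of the order of the L-series at `1`.
-/

set_option autoImplicit false
set_option linter.style.haveILetI false

noncomputable section

namespace FA.Summary

open FA.Monsky

/-- **The descent sequence**: a homomorphism on the points with values in the kernel of the matrix
whose kernel is `2 E + torsion`; the dimensions add up. -/
theorem descent_sequence {k : ℕ} (P : Fin k → ℕ) [∀ i, NeZero (P i)] (hP : OddPrimes P) :
    (∀ Q, descentMap hP Q ∈ LinearMap.ker (matrix P).mulVecLin) ∧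
    (∀ Q, descentMap hP Q = 0 ↔ ∃ R, IsOfFinAddOrder (Q - 2 • R)) ∧
      Module.finrank ℤ
          (⟨0, 0, 0, -((∏ i, P i : ℕ) : ℚ) ^ 2, 0⟩ : WeierstrassCurve ℚ).toAffine.Point +
          Module.finrank (ZMod 2) (ShaTwo hP) =
        Module.finrank (ZMod 2) (LinearMap.ker (matrix P).mulVecLin) :=
  ⟨descentMap_mem_ker hP, descentMap_eq_zero_iff hP, finrank_add_shaTwo hP⟩

/-- **`ShaTwo` is unbounded.** -/
theorem shaTwo_unbounded (j : ℕ) :
    ∃ (k : ℕ) (P : Fin k → ℕ) (_ : ∀ i, NeZero (P i)) (hP : OddPrimes P),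
      j ≤ Module.finrank (ZMod 2) (ShaTwo hP) := by
  obtain ⟨P, hP, -⟩ := FA.ShaPhi.exists_primes (2 * 2 ^ j) 0
  haveI : ∀ i, NeZero (P i) := fun i => ⟨(hP.prime i).ne_zero⟩
  refine ⟨_, P, inferInstance, FA.ShaPhi.oddPrimes hP, ?_⟩
  have h1 := FA.ShaPhi.rank_add_le hP
  have h2 := finrank_add_shaTwo (FA.ShaPhi.oddPrimes hP)
  omega

/-- **`ShaTwo ≅ (ℤ/2)²`** for a prime `p ≡ 1 (mod 8)` with `1 + √2` a nonsquare modulo `p`. -/
theorem shaTwo_bastien (p : ℕ) [NeZero p] (h8 : p % 8 = 1)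
    (hB : ∀ s : ZMod p, s ^ 2 = 2 → ¬ IsSquare (1 + s)) (hP : OddPrimes fun _ : Fin 1 => p) :
    Module.finrank (ZMod 2) (ShaTwo hP) = 2 := by
  haveI := Fact.mk (hP.prime 0)
  have h := finrank_add_shaTwo hP
  obtain ⟨m0, d0⟩ := (syms_of_mod_eight hP 0).1 h8
  have hr : Module.finrank ℤ
      (FA.CongruentNumber.congCurve (∏ _i : Fin 1, p)).toAffine.Point = 0 := by
    have e := point_equiv_bastien h8 hB
    rw [show ∏ _i : Fin 1, p = p by simp]
    exact e.elim fun e => finrank_eq_of_equiv (r := 0) (e.trans AddEquiv.prodUnique.symm)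
  rw [hr, zero_add, finrank_ker_of_entry (fun i j h => absurd (Subsingleton.elim i j) h),
    Fin.sum_univ_one, if_pos d0, if_pos m0] at h
  exact h

/-- **Parity**: rank and `ShaTwo` have together the parity of the order at `1`. -/
theorem shaTwo_parity {k : ℕ} (P : Fin k → ℕ) [∀ i, NeZero (P i)] (hP : OddPrimes P) :
    ∃ g : ℂ → ℂ, Differentiable ℂ g ∧
      (∀ s : ℂ, 3 / 2 < s.re → g s =
        (⟨0, 0, 0, -((∏ i, P i : ℕ) : ℚ) ^ 2, 0⟩ : WeierstrassCurve ℚ).LSeries s) ∧
      ∃ r : ℕ, analyticOrderAt g 1 = r ∧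
        (Module.finrank ℤ
            (⟨0, 0, 0, -((∏ i, P i : ℕ) : ℚ) ^ 2, 0⟩ : WeierstrassCurve ℚ).toAffine.Point +
          Module.finrank (ZMod 2) (ShaTwo hP)) % 2 = r % 2 := by
  obtain ⟨g, hg, hgs, r, hord, hr⟩ := exists_order (hP.squarefree_prod Finset.univ)
  refine ⟨g, hg, hgs, r, hord, ?_⟩
  have h := odd_finrank_ker_matrix hP
  rw [Nat.odd_iff] at h hr
  have ho := Nat.odd_iff.1 hP.odd_prod
  show (Module.finrank ℤ (FA.CongruentNumber.congCurve (∏ i, P i)).toAffine.Point +
    Module.finrank (ZMod 2) (ShaTwo hP)) % 2 = r % 2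
  rw [finrank_add_shaTwo hP]
  omega

end FA.Summary

end
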