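import Fermat.Agent.Monsky.DescentEven
import Fermat.Agent.Root.SummaryDescentSequence

/-!
# The exact descent sequence for even `n`, and every squarefree `n`

For `n = 2 N` the classes soluble everywhere locally modulo those of rational points form
`ShaTwoEven`, by definition; classically `Ш(E)[2]`, not defined here. For every squarefree `n` the
rank has the parity of the order of the L-series at `1` exactly when this quotient has even
dimension.
-/

set_option autoImplicit false
set_option linter.style.haveILetI false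

noncomputable section

namespace FA.Summary

open FA.Monsky

/-- **The descent sequence for even `n = 2 ∏ P i`.** -/
theorem descent_sequence_even {k : ℕ} (P : Fin k → ℕ) [∀ i, NeZero (P i)] (hP : OddPrimes P) :
    (∀ Q, descentMapTwo hP Q ∈ LinearMap.ker (matrixTwo P).mulVecLin) ∧
    (∀ Q, descentMapTwo hP Q = 0 ↔ ∃ R, IsOfFinAddOrder (Q - 2 • R)) ∧
      Module.finrank ℤ
          (⟨0, 0, 0, -((2 * ∏ i, P i : ℕ) : ℚ) ^ 2, 0⟩ : WeierstrassCurve ℚ).toAffine.Point +
          Module.finrank (ZMod 2) (ShaTwoEven hP) =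
        Module.finrank (ZMod 2) (LinearMap.ker (matrixTwo P).mulVecLin) :=
  ⟨descentMapTwo_mem_ker hP, descentMapTwo_eq_zero_iff hP, finrank_add_shaTwoEven hP⟩

/-- **`ShaTwoEven ≅ (ℤ/2)²`** for twice a prime `p ≡ 9 (mod 16)`. -/
theorem shaTwo_double_prime (p : ℕ) [NeZero p] (h16 : p % 16 = 9)
    (hP : OddPrimes fun _ : Fin 1 => p) : Module.finrank (ZMod 2) (ShaTwoEven hP) = 2 := by
  haveI := Fact.mk (hP.prime 0)
  have h := finrank_add_shaTwoEven hP
  obtain ⟨m0, d0⟩ := (syms_of_mod_eight hP 0).1 (show p % 8 = 1 by omega)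
  have hr : Module.finrank ℤ
      (FA.CongruentNumber.congCurve (2 * ∏ _i : Fin 1, p)).toAffine.Point = 0 := by
    rw [show ∏ _i : Fin 1, p = p by simp]
    exact (point_equiv_two_prime h16).elim fun e =>
      finrank_eq_of_equiv (r := 0) (e.trans AddEquiv.prodUnique.symm)
  rw [hr, zero_add, finrank_ker_two_of_entry (fun i j h => absurd (Subsingleton.elim i j) h),
    Fin.sum_univ_one, if_pos d0, if_pos m0] at h
  exact h

/-- **Every squarefree `n`**: `n` is `∏ P i` or `2 ∏ P i`, and the rank of `y² = x³ - n² x` has the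
parity of the order of the L-series at `1` iff the descent quotient has even dimension. -/
theorem rank_parity_iff_every (n : ℕ) (hn : Squarefree n) :
    ∃ (k : ℕ) (P : Fin k → ℕ) (_ : ∀ i, NeZero (P i)) (hP : OddPrimes P) (g : ℂ → ℂ) (r : ℕ),
      Differentiable ℂ g ∧
      (∀ s : ℂ, 3 / 2 < s.re →
        g s = (⟨0, 0, 0, -(n : ℚ) ^ 2, 0⟩ : WeierstrassCurve ℚ).LSeries s) ∧
      analyticOrderAt g 1 = r ∧
      ((n = ∏ i, P i ∧
          (Module.finrank ℤ (⟨0, 0, 0, -(n : ℚ) ^ 2, 0⟩ : WeierstrassCurve ℚ).toAffine.Point % 2 =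
            r % 2 ↔ Even (Module.finrank (ZMod 2) (ShaTwo hP)))) ∨
        (n = 2 * ∏ i, P i ∧
          (Module.finrank ℤ (⟨0, 0, 0, -(n : ℚ) ^ 2, 0⟩ : WeierstrassCurve ℚ).toAffine.Point % 2 =
            r % 2 ↔ Even (Module.finrank (ZMod 2) (ShaTwoEven hP))))) := by
  obtain ⟨g, hg, hgs, r, hord, hr⟩ := exists_order hn
  rw [Nat.odd_iff] at hr
  rcases Nat.even_or_odd n with he | ho
  · obtain ⟨m, rfl⟩ := he.two_dvd
    have hmo : Odd m := Nat.not_even_iff_odd.1 fun ⟨c, hc⟩ =>
      Nat.prime_two.not_isUnit (hn 2 ⟨c, by omega⟩)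
    obtain ⟨k, P, hP, rfl⟩ := exists_oddPrimes_eq (hn.squarefree_of_dvd (dvd_mul_left _ _)) hmo
    haveI hne : ∀ i, NeZero (P i) := fun i => ⟨(hP.prime i).ne_zero⟩
    refine ⟨k, P, hne, hP, g, r, hg, hgs, hord, Or.inr ⟨rfl, ?_⟩⟩
    have h := odd_finrank_ker_matrixTwo hP
    rw [← finrank_add_shaTwoEven hP, Nat.odd_iff] at h
    have := Nat.odd_iff.1 hmo
    show Module.finrank ℤ (FA.CongruentNumber.congCurve (2 * ∏ i, P i)).toAffine.Point % 2 =
      r % 2 ↔ _
    rw [Nat.even_iff]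
    omega
  · obtain ⟨k, P, hP, rfl⟩ := exists_oddPrimes_eq hn ho
    haveI hne : ∀ i, NeZero (P i) := fun i => ⟨(hP.prime i).ne_zero⟩
    refine ⟨k, P, hne, hP, g, r, hg, hgs, hord, Or.inl ⟨rfl, ?_⟩⟩
    have h := odd_finrank_ker_matrix hP
    rw [← finrank_add_shaTwo hP, Nat.odd_iff] at h
    have := Nat.odd_iff.1 ho
    show Module.finrank ℤ (FA.CongruentNumber.congCurve (∏ i, P i)).toAffine.Point % 2 =
      r % 2 ↔ _
    rw [Nat.even_iff]
    omega

end FA.Summary

end
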