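import Fermat.Agent.SLnCount.Determinant
import Mathlib.LinearAlgebra.Matrix.Notation
import Mathlib.NumberTheory.ZetaValues

/-!
# Integral matrices of a given determinant

* `integer_matrices_det`: for `n ≥ 2` and `k ≠ 0` the integral matrices with determinant `k` and
  `∑ a i j ^ 2 ≤ T ^ 2` number asymptotically `c_n a_n(|k|) / |k| ^ (n - 1) * T ^ (n ^ 2 - n)`,
  where `a_n(d)` is the number of subgroups of index `d` of `ℤ ^ n` and `c_n` the constant of
  `duke_rudnick_sarnak`;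
* `translate_count`: the count of `γ ∈ SL n ℤ` with `γ h` in a ball does not depend on `h`
  asymptotically;
* `subgroup_count_prime`: `a_n(p) = 1 + p + ⋯ + p ^ (n - 1)` for a prime `p`;
* `quadruples_det`: there are `~ 6 σ(|k|) / |k| * x` integral quadruples with `a d - b c = k` and
  `a ^ 2 + b ^ 2 + c ^ 2 + d ^ 2 ≤ x`.
-/

set_option autoImplicit false

noncomputable section

open Filter Topology FA.SLnLattice FA.SLnVolume FA.SLnCount
open scoped Real

namespace FA.Summary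

/-- **Duke–Rudnick–Sarnak for every determinant.** -/
theorem integer_matrices_det {n : ℕ} (hn : 2 ≤ n) {k : ℤ} (hk : k ≠ 0) :
    Tendsto (fun T : ℝ => (Nat.card {A : Matrix (Fin n) (Fin n) ℤ //
        A.det = k ∧ ∑ i, ∑ j, ((A i j : ℤ) : ℝ) ^ 2 ≤ T ^ 2} : ℝ) / T ^ (n ^ 2 - n)) atTop
      (𝓝 (π ^ ((n : ℝ) ^ 2 / 2) / (Real.Gamma ((n : ℝ) / 2) *
          Real.Gamma (((n : ℝ) ^ 2 - n + 2) / 2) *
            ∏ j ∈ Finset.Icc 2 n, (riemannZeta j).re) *
        (({L : AddSubgroup (Fin n → ℤ) | L.index = k.natAbs}.ncard : ℝ) /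
          (k.natAbs : ℝ) ^ (n - 1)))) := by
  haveI : NeZero n := ⟨by omega⟩
  letI : MeasurableSpace (SLR n) := borel _
  haveI : BorelSpace (SLR n) := ⟨rfl⟩
  have h := (tendsto_detBall hn hk).comp (tendsto_pow_atTop (α := ℝ) two_ne_zero)
  rw [ballConst, div_div, zetaProd] at h
  refine h.congr' ?_
  filter_upwards [eventually_gt_atTop (0 : ℝ)] with T hT
  rw [Function.comp_apply]
  congr 1
  have hle : n ≤ n ^ 2 := Nat.le_self_pow two_ne_zero n
  rw [← Real.rpow_natCast T 2, ← Real.rpow_mul hT.le, ← Real.rpow_natCast T (n ^ 2 - n)]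
  congr 1
  push_cast [Nat.cast_sub hle]
  ring

/-- **Translated balls.** -/
theorem translate_count {n : ℕ} (hn : 2 ≤ n) (h : Matrix.SpecialLinearGroup (Fin n) ℝ) :
    Tendsto (fun T : ℝ => (Nat.card {γ : Matrix.SpecialLinearGroup (Fin n) ℤ //
        ∑ i, ∑ j, ((Matrix.SpecialLinearGroup.map (Int.castRingHom ℝ) γ * h) i j) ^ 2 ≤ T ^ 2} :
          ℝ) / T ^ (n ^ 2 - n)) atTop
      (𝓝 (π ^ ((n : ℝ) ^ 2 / 2) / (Real.Gamma ((n : ℝ) / 2) *
        Real.Gamma (((n : ℝ) ^ 2 - n + 2) / 2) *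
          ∏ k ∈ Finset.Icc 2 n, (riemannZeta k).re))) := by
  haveI : NeZero n := ⟨by omega⟩
  letI : MeasurableSpace (SLR n) := borel _
  haveI : BorelSpace (SLR n) := ⟨rfl⟩
  have h' := (tendsto_intBallAt hn h).comp (tendsto_pow_atTop (α := ℝ) two_ne_zero)
  rw [ballConst, div_div, zetaProd] at h'
  refine h'.congr' ?_
  filter_upwards [eventually_gt_atTop (0 : ℝ)] with T hT
  rw [Function.comp_apply]
  congr 1
  · rw [← Nat.card_coe_set_eq]
    congr 1
    refine Nat.card_congr (Equiv.subtypeEquivRight fun γ => ?_)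
    rw [intBallAt, Set.mem_ofPred_eq, normSqSL_eq]
    rfl
  · have hle : n ≤ n ^ 2 := Nat.le_self_pow two_ne_zero n
    rw [← Real.rpow_natCast T 2, ← Real.rpow_mul hT.le, ← Real.rpow_natCast T (n ^ 2 - n)]
    congr 1
    push_cast [Nat.cast_sub hle]
    ring

/-- **Subgroups of prime index.** -/
theorem subgroup_count_prime {p : ℕ} (hp : p.Prime) (n : ℕ) :
    {L : AddSubgroup (Fin n → ℤ) | L.index = p}.ncard = ∑ i ∈ Finset.range n, p ^ i :=
  idxCount_prime hp n

/-- **Quadruples of a given determinant.** -/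
theorem quadruples_det {k : ℤ} (hk : k ≠ 0) :
    Tendsto (fun x : ℝ => ({p : ℤ × ℤ × ℤ × ℤ | p.1 * p.2.2.2 - p.2.1 * p.2.2.1 = k ∧
        ((p.1 ^ 2 + p.2.1 ^ 2 + p.2.2.1 ^ 2 + p.2.2.2 ^ 2 : ℤ) : ℝ) ≤ x}.ncard : ℝ) / x) atTop
      (𝓝 (6 * (ArithmeticFunction.sigma 1 k.natAbs / (k.natAbs : ℝ)))) := by
  letI : MeasurableSpace (SLR 2) := borel _
  haveI : BorelSpace (SLR 2) := ⟨rfl⟩
  have h := tendsto_detBall (n := 2) le_rfl hk
  have hc : ballConst 2 / zetaProd 2 = 6 := by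
    rw [ballConst, zetaProd, Finset.Icc_self, Finset.prod_singleton, ← tsum_eq_zeta le_rfl,
      hasSum_zeta_two.tsum_eq]
    norm_num [Real.Gamma_two]
  rw [hc, idxCount_two (Int.natAbs_ne_zero.2 hk), show 2 - 1 = 1 from rfl, pow_one] at h
  refine h.congr' ?_
  filter_upwards [eventually_gt_atTop (0 : ℝ)] with x hx
  congr 1
  · congr 1
    refine Set.ncard_congr (fun A _ => (A 0 0, A 0 1, A 1 0, A 1 1)) ?_ ?_ ?_
    · rintro A ⟨hd, hA⟩
      rw [Matrix.det_fin_two] at hd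
      rw [matSq, Fin.sum_univ_two, Fin.sum_univ_two, Fin.sum_univ_two] at hA
      refine ⟨hd, le_of_eq_of_le ?_ hA⟩
      push_cast [Matrix.map_apply]
      ring
    · intro A B _ _ h
      simp only [Prod.mk.injEq] at h
      refine Matrix.ext fun i j => ?_
      fin_cases i <;> fin_cases j
      exacts [h.1, h.2.1, h.2.2.1, h.2.2.2]
    · rintro ⟨a, b, c, d⟩ ⟨hdet, hle⟩
      refine ⟨!![a, b; c, d], ⟨by rw [Matrix.det_fin_two_of]; exact hdet, ?_⟩, by simp⟩
      rw [matSq, Fin.sum_univ_two, Fin.sum_univ_two, Fin.sum_univ_two]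
      refine le_of_eq_of_le ?_ hle
      simp
      ring
  · norm_num

end FA.Summary

end
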