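import Fermat.Agent.Root.SummaryFiniteness
import Fermat.Agent.Root.SummaryMultiplicityOne

/-!
# Finitely many primes determine the L-function

For semistable elliptic curves over `ℚ` with good reduction outside a finite set there are only
finitely many L-functions, and by strong multiplicity one any two of them differ at some prime. So
a finite set of primes tells them apart.
-/

set_option autoImplicit false

noncomputable section

open WeierstrassCurve

namespace FA.Summary

/-- **A finite set of primes determines the L-function**: for a finite set `S` there is a finite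
set `T` of primes such that two semistable elliptic curves over `ℚ` with good reduction outside `S`
and the same coefficients at the primes of `T` have the same L-function. -/
theorem exists_primes_determine_LFunction (S : Finset ℕ) :
    ∃ T : Finset ℕ, (∀ p ∈ T, p.Prime) ∧
      ∀ (E E' : WeierstrassCurve ℚ) [E.IsElliptic] [E'.IsElliptic],
        (∀ p : ℕ, ∀ [Fact p.Prime], ∃ C : VariableChange ℚ_[p],
          HasGoodReduction ℤ_[p] (C • E.map (algebraMap ℚ ℚ_[p])) ∨
            HasMultiplicativeReduction ℤ_[p] (C • E.map (algebraMap ℚ ℚ_[p]))) →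
        (∀ p : ℕ, ∀ [Fact p.Prime], p ∉ S → ∃ C : VariableChange ℚ_[p],
          HasGoodReduction ℤ_[p] (C • E.map (algebraMap ℚ ℚ_[p]))) →
        (∀ p : ℕ, ∀ [Fact p.Prime], ∃ C : VariableChange ℚ_[p],
          HasGoodReduction ℤ_[p] (C • E'.map (algebraMap ℚ ℚ_[p])) ∨
            HasMultiplicativeReduction ℤ_[p] (C • E'.map (algebraMap ℚ ℚ_[p]))) →
        (∀ p : ℕ, ∀ [Fact p.Prime], p ∉ S → ∃ C : VariableChange ℚ_[p],
          HasGoodReduction ℤ_[p] (C • E'.map (algebraMap ℚ ℚ_[p]))) →
        (∀ p ∈ T, E.LFunction p = E'.LFunction p) → E.LFunction = E'.LFunction := by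
  classical
  -- the prime at which two series differ, if there is one
  let pick : ArithmeticFunction ℤ × ArithmeticFunction ℤ → ℕ := fun a =>
    if h : ∃ p : ℕ, p.Prime ∧ a.1 p ≠ a.2 p then h.choose else 2
  have hfin := finite_LFunctions_semistable S
  refine ⟨(hfin.toFinset ×ˢ hfin.toFinset).image pick, fun p hp => ?_,
    fun E E' _ _ h hg h' hg' heq => ?_⟩
  · obtain ⟨a, -, rfl⟩ := Finset.mem_image.mp hp
    simp only [pick]
    split_ifs with ha
    · exact ha.choose_spec.1
    · exact Nat.prime_two
  · by_contra hne
    have hd : ∃ p : ℕ, p.Prime ∧ E.LFunction p ≠ E'.LFunction p := by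
      by_contra hd
      exact hne (strongMultiplicityOne E E' h h' ∅ fun p hp _ =>
        not_not.mp fun e => hd ⟨p, hp, e⟩)
    have hmem : pick (E.LFunction, E'.LFunction) ∈
        (hfin.toFinset ×ˢ hfin.toFinset).image pick :=
      Finset.mem_image_of_mem _ (Finset.mem_product.mpr
        ⟨hfin.mem_toFinset.mpr ⟨E, inferInstance, h, hg, rfl⟩,
          hfin.mem_toFinset.mpr ⟨E', inferInstance, h', hg', rfl⟩⟩)
    have e := heq _ hmem
    simp only [pick, dif_pos hd] at e
    exact hd.choose_spec.2 e

end FA.Summary

end
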