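import Fermat.Agent.ReducedGroups.HasseInvariant
import Fermat.Agent.Root.SummaryTwistClasses

/-!
# Deuring's bound on supersingular curves over `𝔽_q`

The trace is the Hasse invariant modulo `q`; at most `q / 12 + 2` values of `j` are supersingular,
and those classes have `∑ 1 / #Aut ≤ q / 12 + 2` out of `q`.
-/

set_option autoImplicit false
set_option linter.style.haveILetI false

noncomputable section

open Polynomial WeierstrassCurve MulAction
open scoped Classical

namespace FA.Summary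

variable {q : ℕ} [hq : Fact q.Prime]

/-- **The trace of `y² = x³ + a x + b` modulo `q`.** -/
theorem trace_mod_hasse_invariant (h5 : 5 ≤ q) {a b : ZMod q} (h : 4 * a ^ 3 + 27 * b ^ 2 ≠ 0) :
    (((FA.BirchMoment.shortMod a b).traceOfFrobenius : ℤ) : ZMod q) =
      ((X ^ 3 + C a * X + C b : (ZMod q)[X]) ^ (q / 2)).coeff (q - 1) :=
  FA.ReducedGroups.trace_cast_eq_hasseShort h5 h

/-- **At most `q / 12 + 2` supersingular invariants in `𝔽_q`.** -/
theorem supersingular_invariants_le (h5 : 5 ≤ q) :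
    12 * {j : ZMod q | ∃ V : WeierstrassCurve (ZMod q), V.Δ ≠ 0 ∧ V.c₄ ^ 3 / V.Δ = j ∧
      (q : ℤ) ∣ V.traceOfFrobenius}.ncard ≤ q + 23 := by
  refine le_of_eq_of_le ?_ (FA.ReducedGroups.card_supersingularInvariants (q := q) h5)
  rw [← Set.ncard_coe_finset]
  congr 2
  ext j
  simp [FA.ReducedGroups.traceInvariants, ZMod.intCast_zmod_eq_zero_iff_dvd]

/-- A trace prime to `q` modulo `q` occurs on at most `(q + 3) / 2` invariants. -/
theorem trace_invariants_le (h5 : 5 ≤ q) {t : ℤ} (ht : ¬ (q : ℤ) ∣ t) :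
    2 * {j : ZMod q | ∃ V : WeierstrassCurve (ZMod q), V.Δ ≠ 0 ∧ V.c₄ ^ 3 / V.Δ = j ∧
      (q : ℤ) ∣ V.traceOfFrobenius - t}.ncard ≤ q + 3 := by
  refine le_of_eq_of_le ?_ (FA.ReducedGroups.card_traceInvariants (q := q) h5 (t := (t : ZMod q))
    fun e => ht ((ZMod.intCast_zmod_eq_zero_iff_dvd t q).mp e))
  rw [← Set.ncard_coe_finset]
  congr 2
  ext j
  simp [FA.ReducedGroups.traceInvariants, ← ZMod.intCast_zmod_eq_zero_iff_dvd, sub_eq_zero]

/-- **The supersingular classes have mass at most `q / 12 + 2`.** -/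
theorem supersingular_mass_le (h5 : 5 ≤ q) :
    ∑ᶠ c : orbitRel.Quotient (VariableChange (ZMod q)) (FA.ReducedGroups.ellipticEquations q),
      (if (q : ℤ) ∣ c.out.1.traceOfFrobenius then (1 : ℚ) else 0) /
        Nat.card (stabilizer (VariableChange (ZMod q)) c.out) ≤ ((q : ℚ) + 23) / 12 := by
  set G := VariableChange (ZMod q)
  set S := FA.ReducedGroups.ellipticEquations q
  haveI := Fintype.ofFinite (orbitRel.Quotient G S)
  set J := FA.ReducedGroups.traceInvariants (0 : ZMod q)
  have hJ : 12 * (J.card : ℚ) ≤ (q : ℚ) + 23 := by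
    exact_mod_cast FA.ReducedGroups.card_supersingularInvariants (q := q) h5
  rw [finsum_eq_sum_of_fintype]
  calc ∑ c : orbitRel.Quotient G S, (if (q : ℤ) ∣ c.out.1.traceOfFrobenius then (1 : ℚ) else 0) /
        Nat.card (stabilizer G c.out)
      ≤ ∑ c : orbitRel.Quotient G S, ∑ j ∈ J, (if c.out.1.c₄ ^ 3 / c.out.1.Δ = j then (1 : ℚ) else 0) /
          Nat.card (stabilizer G c.out) := Finset.sum_le_sum fun c _ => by
        rw [← Finset.sum_div, Finset.sum_ite_eq]
        refine div_le_div_of_nonneg_right ?_ (Nat.cast_nonneg _)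
        by_cases h : (q : ℤ) ∣ c.out.1.traceOfFrobenius
        · have hmem : c.out.1.c₄ ^ 3 / c.out.1.Δ ∈ J := Finset.mem_filter.mpr ⟨Finset.mem_univ _,
            c.out.1, c.out.2, rfl, (ZMod.intCast_zmod_eq_zero_iff_dvd _ q).mpr h⟩
          rw [if_pos h, if_pos hmem]
        · rw [if_neg h]; split_ifs <;> norm_num
    _ = (J.card : ℚ) := by
        rw [Finset.sum_comm, Finset.sum_congr rfl (g := fun _ => (1 : ℚ)) fun j _ => by
          have h := classes_j_mass (q := q) h5 j
          rw [finsum_eq_sum_of_fintype] at h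
          exact h, Finset.sum_const, nsmul_one]
    _ ≤ ((q : ℚ) + 23) / 12 := by linarith

end FA.Summary

end
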