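import Fermat.Agent.Supersingular.Criterion
import Mathlib.FieldTheory.IsAlgClosed.AlgebraicClosure
import Mathlib.Data.List.TFAE

/-!
# Deuring's criterion and the `q`-power torsion in characteristic `q`

For an elliptic curve over `𝔽_q`, `q ≥ 5`: no point of order `q` over `𝔽̄_q`, `q ∣ a`, `a = 0`,
`#E(𝔽_q) = q + 1` and `π² = -q` are equivalent; otherwise the points killed by `q ^ n` are cyclic of
order `q ^ n`.
-/

set_option autoImplicit false
set_option linter.style.haveILetI false

noncomputable section

open WeierstrassCurve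
open scoped Classical

namespace FA.Summary

variable {q : ℕ} [hq : Fact q.Prime] (W : WeierstrassCurve (ZMod q)) [W.IsElliptic]

/-- **Deuring's criterion.** -/
theorem deuring_criterion (h5 : 5 ≤ q) :
    [∀ P : (W.map (algebraMap (ZMod q) (AlgebraicClosure (ZMod q)))).toAffine.Point,
        q • P = 0 → P = 0,
      (q : ℤ) ∣ W.traceOfFrobenius,
      W.traceOfFrobenius = 0,
      Nat.card W.toAffine.Point = q + 1,
      ∀ P, FA.DeuringCriterion.pi W (algebraMap (ZMod q) (AlgebraicClosure (ZMod q)))
        (FA.DeuringCriterion.pi W (algebraMap (ZMod q) (AlgebraicClosure (ZMod q))) P) =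
          -(q • P)].TFAE := by
  haveI : CharP (AlgebraicClosure (ZMod q)) q :=
    charP_of_injective_algebraMap (algebraMap (ZMod q) (AlgebraicClosure (ZMod q))).injective q
  set f := algebraMap (ZMod q) (AlgebraicClosure (ZMod q))
  have htr : W.traceOfFrobenius = (q : ℤ) + 1 - Nat.card W.toAffine.Point := by
    show (Nat.card (ZMod q) : ℤ) + 1 - (Nat.card W.toAffine.Point : ℤ) = _
    rw [Nat.card_zmod]
  tfae_have 1 → 2 := fun h => by
    by_contra ha
    have hc := (FA.DeuringCriterion.psi_facts W f ha).1
    haveI : Finite (FA.DeuringCriterion.psi W f).ker :=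
      Nat.finite_of_card_ne_zero (by rw [hc]; exact hq.out.ne_zero)
    haveI : Nontrivial (FA.DeuringCriterion.psi W f).ker :=
      Finite.one_lt_card_iff_nontrivial.1 (by rw [hc]; exact hq.out.one_lt)
    obtain ⟨⟨P, hP⟩, hne⟩ := exists_ne (0 : (FA.DeuringCriterion.psi W f).ker)
    refine hne (Subtype.ext (h P ?_))
    rw [FA.DeuringCriterion.nsmul_eq W f, AddMonoidHom.mem_ker.1 hP, map_zero]
  tfae_have 2 → 3 := FA.DeuringCriterion.trace_eq_zero W h5
  tfae_have 3 → 4 := fun h => by rw [htr] at h; omega
  tfae_have 4 → 5 := fun h P => by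
    have h0 : W.traceOfFrobenius = 0 := by rw [htr, h]; push_cast; ring
    have e := FA.DeuringCriterion.pi_quadratic W f P
    rw [h0, zero_zsmul, sub_zero, natCast_zsmul] at e
    exact eq_neg_of_add_eq_zero_left e
  tfae_have 5 → 1 := fun h P hP => by
    have e := h P
    rw [hP, neg_zero, ← map_zero (FA.DeuringCriterion.pi W f)] at e
    have e' := FA.DeuringCriterion.pi_injective W f e
    rw [← map_zero (FA.DeuringCriterion.pi W f)] at e'
    exact FA.DeuringCriterion.pi_injective W f e'
  tfae_finish

/-- **The ordinary case: the `q`-power torsion is `ℤ / q ^ n`.** -/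
theorem ordinary_qPower_torsion (ha : ¬ (q : ℤ) ∣ W.traceOfFrobenius) (n : ℕ) :
    Nonempty (ZMod (q ^ n) ≃+ (nsmulAddMonoidHom
      (α := (W.map (algebraMap (ZMod q) (AlgebraicClosure (ZMod q)))).toAffine.Point)
      (q ^ n)).ker) := by
  haveI : CharP (AlgebraicClosure (ZMod q)) q :=
    charP_of_injective_algebraMap (algebraMap (ZMod q) (AlgebraicClosure (ZMod q))).injective q
  set f := algebraMap (ZMod q) (AlgebraicClosure (ZMod q))
  haveI := FA.DeuringCriterion.isAddCyclic_pow W f ha n
  have h := zmodAddCyclicAddEquiv (G := (nsmulAddMonoidHom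
    (α := (W.map f).toAffine.Point) (q ^ n)).ker) inferInstance
  rw [FA.DeuringCriterion.natCard_pow W f ha n] at h
  exact ⟨h⟩

end FA.Summary

end
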