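import Fermat.Agent.Root.ExceptionalPotSupersingular
import Fermat.Agent.CM.Count

/-!
# Deuring's criterion at every prime and open Cartan images

`W` is a Weierstrass equation over `ℤ` with `a_l = 0` at the good primes `l` at which the squarefree
`d ≠ 1` is no square: the curves with complex multiplication, up to isogeny. Every prime `p` is
allowed, of good or bad reduction, ramified in `ℚ(√d)` or equal to two.
-/

set_option autoImplicit false
set_option linter.unusedSectionVars false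
set_option linter.style.haveILetI false

noncomputable section

open Matrix WeierstrassCurve FA.TateSen FA.CurveDR FA.RT.Tate FA.Frob FA.PotDR
open scoped WeierstrassCurve.Affine Classical

namespace FA.Summary

variable (p : ℕ) [hp : Fact p.Prime] (W : WeierstrassCurve ℤ) [(ratCurve W).IsElliptic]

local notation "G" => PadicAlgCl p ≃ₐ[ℚ_[p]] PadicAlgCl p
local notation "M2" => Matrix (Fin 2) (Fin 2) ℤ_[p]

/-- **Deuring's criterion at every prime**: the reduction of such a curve at `p` is potentially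
supersingular exactly when `p` does not split in `ℚ(√d)`, that is `d` is no square in `ℚ_p`. -/
theorem deuring_every_prime {d : ℤ} (hd : Squarefree d) (hd1 : d ≠ 1)
    (hvan : ∀ l : ℕ, l.Prime → W.IsGoodPrimeFor l → ¬ IsSquare (d : ZMod l) →
      W.apOfModel l = 0) :
    PotSupersingular p W ↔ ¬ IsSquare (d : ℚ_[p]) :=
  FA.FormalCM.potSupersingular_iff ⟨hd, hd1, hvan⟩

/-- **Open in the normaliser of a nonsplit Cartan subgroup**: at the primes which do not split the
images of Galois and of the decomposition group normalise the line of a traceless `Y`, `-det Y` no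
square in `ℚ_p`, contain every invertible matrix congruent to one modulo some `p ^ k` commuting
with `Y`, and contain no congruence subgroup of `GL₂(ℤ_p)`. -/
theorem cm_nonsplit_cartan_image {d : ℤ} (hd : Squarefree d) (hd1 : d ≠ 1)
    (hvan : ∀ l : ℕ, l.Prime → W.IsGoodPrimeFor l → ¬ IsSquare (d : ZMod l) →
      W.apOfModel l = 0) (hns : ¬ IsSquare (d : ℚ_[p])) (B : TateBasis p W) :
    ∃ Y : M2, Y.trace = 0 ∧ ¬ IsSquare (((-Y.det : ℤ_[p])) : ℚ_[p]) ∧
      (∀ σ, B.rep σ * Y = Y * B.rep σ ∨ B.rep σ * Y = -(Y * B.rep σ)) ∧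
      (∃ k : ℕ, ∀ Z : M2, Z * Y = Y * Z → IsUnit (1 + (p : ℤ_[p]) ^ k • Z).det →
        ∃ τ : G, B.rep (localGaloisToGlobal p τ) = 1 + (p : ℤ_[p]) ^ k • Z) ∧
      ¬ ∃ k : ℕ, ∀ Z : M2, IsUnit (1 + (p : ℤ_[p]) ^ k • Z).det →
        ∃ σ, B.rep σ = 1 + (p : ℤ_[p]) ^ k • Z :=
  FA.FormalCM.exceptional_image ⟨hd, hd1, hvan⟩ hns B

/-- **The image of the decomposition group at potentially supersingular reduction**, for every
curve: open in `GL₂(ℤ_p)`, or open in the normaliser of a nonsplit Cartan subgroup. -/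
theorem local_image_open_cartan (h : PotSupersingular p W) (B : TateBasis p W) :
    (∃ k : ℕ, ∀ Y : M2, IsUnit (1 + (p : ℤ_[p]) ^ k • Y).det →
      ∃ τ : G, B.rep (localGaloisToGlobal p τ) = 1 + (p : ℤ_[p]) ^ k • Y) ∨
    ∃ Y : M2, Y.trace = 0 ∧ ¬ IsSquare (((-Y.det : ℤ_[p])) : ℚ_[p]) ∧
      (∀ τ, B.rep (localGaloisToGlobal p τ) * Y = Y * B.rep (localGaloisToGlobal p τ) ∨
        B.rep (localGaloisToGlobal p τ) * Y = -(Y * B.rep (localGaloisToGlobal p τ))) ∧
      ∃ k : ℕ, ∀ Z : M2, Z * Y = Y * Z → IsUnit (1 + (p : ℤ_[p]) ^ k • Z).det →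
        ∃ τ : G, B.rep (localGaloisToGlobal p τ) = 1 + (p : ℤ_[p]) ^ k • Z :=
  FA.FormalCM.local_image_open_or_cartan h B

/-- **Example**: `32a`, with bad reduction at `2`, is potentially supersingular there, as `-1` is
no square in `ℚ_2`, and its `2`-adic image is not open in `GL₂(ℤ_2)`. -/
theorem deuring_every_prime_example [Fact (Nat.Prime 2)] :
    ∃ _ : (ratCurve (FA.CM.curve32 : WeierstrassCurve ℤ)).IsElliptic,
      (2 : ℤ) ∣ (FA.CM.curve32 : WeierstrassCurve ℤ).Δ ∧
      PotSupersingular 2 FA.CM.curve32 ∧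
      ∀ B : TateBasis 2 (FA.CM.curve32 : WeierstrassCurve ℤ),
        ¬ ∃ k : ℕ, ∀ Z : Matrix (Fin 2) (Fin 2) ℤ_[2], IsUnit (1 + (2 : ℤ_[2]) ^ k • Z).det →
          ∃ σ, B.rep σ = 1 + (2 : ℤ_[2]) ^ k • Z := by
  have hΔ : (FA.CM.curve32 : WeierstrassCurve ℤ).Δ ≠ 0 := by rw [FA.CM.curve32_Δ]; norm_num
  have hd : Squarefree (-1 : ℤ) := by
    exact isUnit_one.neg.squarefree
  have hvan : ∀ l : ℕ, l.Prime → (FA.CM.curve32 : WeierstrassCurve ℤ).IsGoodPrimeFor l →
      ¬ IsSquare ((-1 : ℤ) : ZMod l) → (FA.CM.curve32 : WeierstrassCurve ℤ).apOfModel l = 0 :=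
    fun l hl _ hs => by
      haveI := Fact.mk hl
      refine FA.CM.apOfModel_curve32_three ?_
      by_contra h3
      exact hs (by push_cast; exact (ZMod.exists_sq_eq_neg_one_iff (p := l)).2 h3)
  have hns : ¬ IsSquare ((-1 : ℤ) : ℚ_[2]) := by
    rintro ⟨a, ha⟩
    have hna : ‖a‖ ≤ 1 := by
      by_contra h1
      have h2 := congrArg (‖·‖) ha
      push_cast at h2
      rw [norm_neg, norm_one, norm_mul] at h2
      nlinarith
    obtain ⟨z, hz⟩ : ∃ z : ℤ_[2], (z : ℚ_[2]) = a := ⟨⟨a, hna⟩, rfl⟩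
    have hzz : z * z = -1 := Subtype.coe_injective (by
      show ((z * z : ℤ_[2]) : ℚ_[2]) = ((-1 : ℤ_[2]) : ℚ_[2])
      push_cast at ha ⊢
      rw [hz, ← ha])
    have h4 := congrArg (PadicInt.toZModPow 2) hzz
    rw [map_mul, map_neg, map_one] at h4
    revert h4
    generalize PadicInt.toZModPow 2 z = x
    revert x
    decide
  haveI := ratCurve_isElliptic_of_Δ hΔ
  refine ⟨_, by rw [FA.CM.curve32_Δ]; norm_num,
    (deuring_every_prime 2 _ hd (by decide) hvan).2 hns, fun B h => ?_⟩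
  obtain ⟨Y, -, -, -, -, hno⟩ := cm_nonsplit_cartan_image 2 _ hd (by decide) hvan hns B
  exact hno (by simpa using h)

end FA.Summary

end
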