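import Fermat.Agent.DeuringCM.AllFields

/-!
# Deuring's theorem: the L-series of a curve with complex multiplication

Let a curve over a number field `F` with integral model `W₀` have a multiplier in `ℚ(√d)` in the
embedding `ψ`, for a squarefree `d < 0`. The first three results suppose that `F` contains
`s = √d`.

* `deuring_hecke_character`: there is a Hecke character of the type `1` at the embeddings `σ` with
  `σ s = ψ s` and `0` at the others, of conductor prime to every place of good reduction, whose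
  value at such a place has sum `a_v` and product `N v` with its conjugate;
* `deuring_euler_factor`: so `1 - a_v T + N v T² = (1 - f v T) (1 - conj (f v) T)`;
* `hasse_conjecture_cm`: the L-series, completed with a constant `M` to the power `z / 2` and
  `Γℂ (z) ^ [F : ℚ]`, is entire and `Λ (2 - z) = Λ z`;
* `deuring_descended_character`: if `F` does not contain `√d`, the character `f` of `E = F (√d)`
  has `f (τ w) = conj (f w)`, and a place of good reduction either splits with the sum and product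
  of the values equal to `a_v` and `N v`, or is inert with `a_v = 0` and value `- N v`;
* `hasse_conjecture_cm_all`: for every such curve over every `F` the completed L-series is entire
  and `Λ (2 - z) = ε Λ z` with `ε = ±1`;
* `hasse_conjecture_gaussian`: in particular for `y² = x³ + a x` over every number field.

All of these completed series have no zero with `3 / 2 ≤ re z`, the boundary line included.

The factors at the places of bad reduction and the constant `M` exist but are not identified with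
the geometric factors and the conductor of the curve.
-/

set_option autoImplicit false
set_option linter.unusedSectionVars false

noncomputable section

open WeierstrassCurve NumberField IsDedekindDomain
open FA.TraceNF (frobTrace)
open FA.AlgHecke (IsAlgChar IsNormPower)
open scoped WeierstrassCurve.Affine Pointwise Classical ComplexConjugate

namespace FA.Root.DeuringHeckeSummary

variable {F : Type} [Field F] [NumberField F] (W₀ : WeierstrassCurve (𝓞 F))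
  [(W₀.map (algebraMap (𝓞 F) F)).IsElliptic]

local notation "W" => W₀.map (algebraMap (𝓞 F) F)

/-- **Deuring's theorem.** -/
theorem deuring_hecke_character (ψ : F →+* ℂ) {d : ℤ} (hd : Squarefree d) (hd0 : d < 0) {s : F}
    (hs : s ^ 2 = (d : F))
    (hcm : ∃ L : PeriodPair, L.g₂ = ψ (W).c₄ / 12 ∧ L.g₃ = ψ (W).c₆ / 216 ∧
      ∃ ω : ℂ, (∀ m : ℤ, ω ≠ m) ∧ (∀ l ∈ L.lattice, ω * l ∈ L.lattice) ∧
        ∃ x y : ℚ, (ω - (x : ℂ)) ^ 2 = (d : ℂ) * (y : ℂ) ^ 2) :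
    ∃ (𝔣 : Ideal (𝓞 F)) (f : Ideal (𝓞 F) →* ℂ),
      IsAlgChar 𝔣 (fun σ => if σ s = ψ s then 1 else 0) f ∧ ¬ IsNormPower f ∧
      (∀ (𝔪 : Ideal (𝓞 F)) (g : Ideal (𝓞 F) →* ℂ),
        IsAlgChar 𝔪 (fun σ => if σ s = ψ s then 1 else 0) g →
        {v : HeightOneSpectrum (𝓞 F) | g v.asIdeal ≠ f v.asIdeal}.Finite → 𝔣 ∣ 𝔪) ∧
      ∀ v : HeightOneSpectrum (𝓞 F), W₀.Δ ∉ v.asIdeal → v.asIdeal ⊔ 𝔣 = ⊤ ∧
        f v.asIdeal + conj (f v.asIdeal) = frobTrace W₀ v ∧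
        f v.asIdeal * conj (f v.asIdeal) = (Ideal.absNorm v.asIdeal : ℂ) :=
  FA.DeuringCM.exists_hecke_char W₀ ψ hd hd0 hs hcm

/-- **The Euler factors.** -/
theorem deuring_euler_factor (ψ : F →+* ℂ) {d : ℤ} (hd : Squarefree d) (hd0 : d < 0) {s : F}
    (hs : s ^ 2 = (d : F))
    (hcm : ∃ L : PeriodPair, L.g₂ = ψ (W).c₄ / 12 ∧ L.g₃ = ψ (W).c₆ / 216 ∧
      ∃ ω : ℂ, (∀ m : ℤ, ω ≠ m) ∧ (∀ l ∈ L.lattice, ω * l ∈ L.lattice) ∧
        ∃ x y : ℚ, (ω - (x : ℂ)) ^ 2 = (d : ℂ) * (y : ℂ) ^ 2) :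
    ∃ f : Ideal (𝓞 F) →* ℂ, ∀ v : HeightOneSpectrum (𝓞 F), W₀.Δ ∉ v.asIdeal → ∀ T : ℂ,
      1 - (frobTrace W₀ v : ℂ) * T + (Ideal.absNorm v.asIdeal : ℂ) * T ^ 2 =
        (1 - f v.asIdeal * T) * (1 - conj (f v.asIdeal) * T) := by
  obtain ⟨𝔣, f, -, -, -, hf⟩ := FA.DeuringCM.exists_hecke_char W₀ ψ hd hd0 hs hcm
  refine ⟨f, fun v hv T => ?_⟩
  obtain ⟨-, h1, h2⟩ := hf v hv
  rw [← h1, ← h2]
  ring

/-- **Hasse's conjecture for the curves with complex multiplication.** -/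
theorem hasse_conjecture_cm (ψ : F →+* ℂ) {d : ℤ} (hd : Squarefree d) (hd0 : d < 0) {s : F}
    (hs : s ^ 2 = (d : F))
    (hcm : ∃ L : PeriodPair, L.g₂ = ψ (W).c₄ / 12 ∧ L.g₃ = ψ (W).c₆ / 216 ∧
      ∃ ω : ℂ, (∀ m : ℤ, ω ≠ m) ∧ (∀ l ∈ L.lattice, ω * l ∈ L.lattice) ∧
        ∃ x y : ℚ, (ω - (x : ℂ)) ^ 2 = (d : ℂ) * (y : ℂ) ^ 2) :
    ∃ (M : ℕ) (c : HeightOneSpectrum (𝓞 F) → ℂ) (Λ : ℂ → ℂ), 0 < M ∧
      (∀ v : HeightOneSpectrum (𝓞 F), W₀.Δ ∉ v.asIdeal → c v + conj (c v) = frobTrace W₀ v ∧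
        c v * conj (c v) = (Ideal.absNorm v.asIdeal : ℂ)) ∧
      Differentiable ℂ Λ ∧
      (∀ z : ℂ, 3 / 2 < z.re → ∃ L : ℂ,
        HasProd (fun v : HeightOneSpectrum (𝓞 F) =>
          if W₀.Δ ∉ v.asIdeal then
            (1 - (frobTrace W₀ v : ℂ) * ((Ideal.absNorm v.asIdeal : ℕ) : ℂ) ^ (-z) +
              ((Ideal.absNorm v.asIdeal : ℕ) : ℂ) ^ (1 - 2 * z))⁻¹
          else (1 - c v * ((Ideal.absNorm v.asIdeal : ℕ) : ℂ) ^ (-z))⁻¹ *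
            (1 - conj (c v) * ((Ideal.absNorm v.asIdeal : ℕ) : ℂ) ^ (-z))⁻¹) L ∧
        Λ z = (M : ℂ) ^ (z / 2) * Complex.Gammaℂ z ^ Module.finrank ℚ F * L) ∧
      (∀ z : ℂ, Λ (2 - z) = Λ z) ∧ ∀ z : ℂ, 3 / 2 ≤ z.re → Λ z ≠ 0 :=
  FA.DeuringCM.exists_completed_lSeries W₀ ψ hd hd0 hs hcm

/-- **The character of a curve defined without the field of multiplication.** -/
theorem deuring_descended_character (ψ : F →+* ℂ) {d : ℤ} (hd : Squarefree d) (hd0 : d < 0)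
    (hnot : ¬ ∃ s : F, s ^ 2 = (d : F))
    (hcm : ∃ L : PeriodPair, L.g₂ = ψ (W).c₄ / 12 ∧ L.g₃ = ψ (W).c₆ / 216 ∧
      ∃ ω : ℂ, (∀ m : ℤ, ω ≠ m) ∧ (∀ l ∈ L.lattice, ω * l ∈ L.lattice) ∧
        ∃ x y : ℚ, (ω - (x : ℂ)) ^ 2 = (d : ℂ) * (y : ℂ) ^ 2) :
    ∃ (E : IntermediateField F (AlgebraicClosure F)) (_ : NumberField E) (τ : E ≃ₐ[F] E) (s : E)
      (ψ' : E →+* ℂ) (𝔣 : Ideal (𝓞 E)) (f : Ideal (𝓞 E) →* ℂ),
      Module.finrank F E = 2 ∧ IsGalois F E ∧ τ ≠ 1 ∧ s ^ 2 = (d : E) ∧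
      ψ'.comp (algebraMap F E) = ψ ∧
      IsAlgChar 𝔣 (fun σ => if σ s = ψ' s then 1 else 0) f ∧ ¬ IsNormPower f ∧
      (∀ (𝔪 : Ideal (𝓞 E)) (g : Ideal (𝓞 E) →* ℂ),
        IsAlgChar 𝔪 (fun σ => if σ s = ψ' s then 1 else 0) g →
        {w : HeightOneSpectrum (𝓞 E) | g w.asIdeal ≠ f w.asIdeal}.Finite → 𝔣 ∣ 𝔪) ∧
      (∀ w : HeightOneSpectrum (𝓞 E), f (τ • w.asIdeal) = conj (f w.asIdeal)) ∧
      ∀ v : HeightOneSpectrum (𝓞 F), W₀.Δ ∉ v.asIdeal →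
        ∀ w : HeightOneSpectrum (𝓞 E), w.asIdeal.under (𝓞 F) = v.asIdeal →
        w.asIdeal ⊔ 𝔣 = ⊤ ∧
        ((τ • w.asIdeal ≠ w.asIdeal ∧ Ideal.absNorm w.asIdeal = Ideal.absNorm v.asIdeal ∧
            f w.asIdeal + conj (f w.asIdeal) = frobTrace W₀ v ∧
            f w.asIdeal * conj (f w.asIdeal) = (Ideal.absNorm v.asIdeal : ℂ)) ∨
          (τ • w.asIdeal = w.asIdeal ∧
            Ideal.absNorm w.asIdeal = Ideal.absNorm v.asIdeal ^ 2 ∧ frobTrace W₀ v = 0 ∧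
            f w.asIdeal = -(Ideal.absNorm v.asIdeal : ℂ))) :=
  FA.DeuringCM.exists_descended_char W₀ ψ hd hd0 hnot hcm

/-- **Hasse's conjecture for all curves with complex multiplication.** -/
theorem hasse_conjecture_cm_all (ψ : F →+* ℂ) {d : ℤ} (hd : Squarefree d) (hd0 : d < 0)
    (hcm : ∃ L : PeriodPair, L.g₂ = ψ (W).c₄ / 12 ∧ L.g₃ = ψ (W).c₆ / 216 ∧
      ∃ ω : ℂ, (∀ m : ℤ, ω ≠ m) ∧ (∀ l ∈ L.lattice, ω * l ∈ L.lattice) ∧
        ∃ x y : ℚ, (ω - (x : ℂ)) ^ 2 = (d : ℂ) * (y : ℂ) ^ 2) :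
    ∃ (M : ℕ) (ε : ℂ) (c : HeightOneSpectrum (𝓞 F) → ℝ × ℝ) (Λ : ℂ → ℂ), 0 < M ∧
      (ε = 1 ∨ ε = -1) ∧ Differentiable ℂ Λ ∧
      (∀ z : ℂ, 3 / 2 < z.re → ∃ L : ℂ,
        HasProd (fun v : HeightOneSpectrum (𝓞 F) =>
          if W₀.Δ ∉ v.asIdeal then
            (1 - (frobTrace W₀ v : ℂ) * ((Ideal.absNorm v.asIdeal : ℕ) : ℂ) ^ (-z) +
              ((Ideal.absNorm v.asIdeal : ℕ) : ℂ) ^ (1 - 2 * z))⁻¹
          else (1 - ((c v).1 : ℂ) * ((Ideal.absNorm v.asIdeal : ℕ) : ℂ) ^ (-z) +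
            ((c v).2 : ℂ) * (((Ideal.absNorm v.asIdeal : ℕ) : ℂ) ^ (-z)) ^ 2)⁻¹) L ∧
        Λ z = (M : ℂ) ^ (z / 2) * Complex.Gammaℂ z ^ Module.finrank ℚ F * L) ∧
      (∀ z : ℂ, Λ (2 - z) = ε * Λ z) ∧ ∀ z : ℂ, 3 / 2 ≤ z.re → Λ z ≠ 0 :=
  FA.DeuringCM.exists_completed_lSeries_any W₀ ψ hd hd0 hcm

omit [(W₀.map (algebraMap (𝓞 F) F)).IsElliptic] in
/-- **Hasse's conjecture for `y² = x³ + a x`.** -/
theorem hasse_conjecture_gaussian {a : 𝓞 F} (ha : a ≠ 0) :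
    ∃ (M : ℕ) (ε : ℂ) (c : HeightOneSpectrum (𝓞 F) → ℝ × ℝ) (Λ : ℂ → ℂ), 0 < M ∧
      (ε = 1 ∨ ε = -1) ∧ Differentiable ℂ Λ ∧
      (∀ z : ℂ, 3 / 2 < z.re → ∃ L : ℂ,
        HasProd (fun v : HeightOneSpectrum (𝓞 F) =>
          if (⟨0, 0, 0, a, 0⟩ : WeierstrassCurve (𝓞 F)).Δ ∉ v.asIdeal then
            (1 - (frobTrace (⟨0, 0, 0, a, 0⟩ : WeierstrassCurve (𝓞 F)) v : ℂ) *
                ((Ideal.absNorm v.asIdeal : ℕ) : ℂ) ^ (-z) +
              ((Ideal.absNorm v.asIdeal : ℕ) : ℂ) ^ (1 - 2 * z))⁻¹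
          else (1 - ((c v).1 : ℂ) * ((Ideal.absNorm v.asIdeal : ℕ) : ℂ) ^ (-z) +
            ((c v).2 : ℂ) * (((Ideal.absNorm v.asIdeal : ℕ) : ℂ) ^ (-z)) ^ 2)⁻¹) L ∧
        Λ z = (M : ℂ) ^ (z / 2) * Complex.Gammaℂ z ^ Module.finrank ℚ F * L) ∧
      (∀ z : ℂ, Λ (2 - z) = ε * Λ z) ∧ ∀ z : ℂ, 3 / 2 ≤ z.re → Λ z ≠ 0 :=
  FA.DeuringCM.exists_completed_lSeries_gaussian ha

end FA.Root.DeuringHeckeSummary

end
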