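import Fermat.Agent.DeuringHeilbronn.Main
import Fermat.Agent.EffectiveChebotarev.LeastPrime

/-!
# The phenomenon of Deuring and Heilbronn

With an absolute constant `A`, for every number field `K` of degree `n` and discriminant `d`:

* `deuring_heilbronn`: if `β` is a real zero of `ζ_K` in `(0, 1)` and `σ + i t ≠ β` another zero with
  `σ ≥ 0`, then `1 - σ ≥ log (1 / (A H (1 - β))) / (A H)`, `H = 1 + log |d| + n log (|t| + 3)`;
* `real_zero_le_one_sub_discr_rpow`: if `n > 1`, no real zero exceeds `1 - |d| ^ (- A)`. Neither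
  normality nor an exception is involved;
* `effective_chebotarev_lower_bound_any`: for every Galois `L/K`, with no condition over `ℚ`, if
  `log x ≥ A n_L S ^ 2` then at least `|C| / [L : K] exp (- A S) x / (2 log x)` primes of `K` of norm at
  most `x` do not contain `d_L` and have all their Frobenius elements in `C`,
  `S = 1 + log |d_L| + 2 n_L`.

The proof does not use S01.
-/

set_option autoImplicit false
set_option linter.style.haveILetI false

noncomputable section

universe u v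

open NumberField IsDedekindDomain Module
open scoped Real Classical Pointwise

namespace FA.Summary

/-- **Deuring and Heilbronn: an exceptional zero repels all others.** -/
theorem deuring_heilbronn : ∃ A : ℝ, 0 < A ∧ ∀ (K : Type u) [Field K] [NumberField K] (E : ℂ → ℂ),
    Differentiable ℂ E → (∀ s : ℂ, 1 < s.re → E s = (s - 1) * dedekindZeta K s) →
    ∀ β : ℝ, 0 < β → β < 1 → E (β : ℂ) = 0 →
    ∀ ρ : ℂ, E ρ = 0 → ρ ≠ (β : ℂ) → 0 ≤ ρ.re →
      let H := 1 + Real.log ((discr K).natAbs : ℝ) + finrank ℚ K * Real.log (|ρ.im| + 3)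
      Real.log (1 / (A * H * (1 - β))) / (A * H) ≤ 1 - ρ.re := by
  obtain ⟨A, hA, h⟩ := FA.DeuringHeilbronn.exists_repulsion.{u}
  refine ⟨A, by linarith, fun K _ _ E hE hEL β hβ0 hβ1 hβ ρ hρ hne hσ => ?_⟩
  intro H
  have h1 : Real.exp (-(A * H * (1 - ρ.re))) ≤ A * H * (1 - β) := h K E hE hEL β hβ0 hβ ρ hρ hne hσ
  have hH : 0 < H := lt_of_lt_of_le one_pos (FA.DedekindZF.one_le_height K ρ.im)
  have hpos : 0 < A * H * (1 - β) := mul_pos (mul_pos (by linarith) hH) (by linarith)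
  have h2 := Real.log_le_log (Real.exp_pos _) h1
  rw [Real.log_exp] at h2
  rw [div_le_iff₀ (by positivity), one_div, Real.log_inv]
  linarith

/-- **Real zeros keep a power of the discriminant away from `1`.** -/
theorem real_zero_le_one_sub_discr_rpow : ∃ A : ℝ, 0 < A ∧
    ∀ (K : Type u) [Field K] [NumberField K], 1 < finrank ℚ K → ∀ E : ℂ → ℂ, Differentiable ℂ E →
      (∀ s : ℂ, 1 < s.re → E s = (s - 1) * dedekindZeta K s) →
      ∀ β : ℝ, E (β : ℂ) = 0 → β ≤ 1 - ((discr K).natAbs : ℝ) ^ (-A) := by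
  obtain ⟨A, hA, h⟩ := FA.DeuringHeilbronn.exists_exp_neg_height_le.{u}
  refine ⟨8 * A, by linarith, fun K _ _ hn E hE hEL β hβ => ?_⟩
  have h1 := h K E hE hEL β hβ
  have e : ((|discr K| : ℤ) : ℝ) = ((discr K).natAbs : ℝ) := by
    rw [← Int.natCast_natAbs, Int.cast_natCast]
  obtain ⟨d, hd⟩ : ∃ d : ℝ, d = ((discr K).natAbs : ℝ) := ⟨_, rfl⟩
  rw [← hd] at e ⊢
  have h3 : (3 : ℝ) ≤ d := by
    rw [← e]
    exact_mod_cast NumberField.abs_discr_gt_two hn
  have hlog1 : 1 ≤ Real.log d := by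
    rw [Real.le_log_iff_exp_le (by linarith)]
    linarith [Real.exp_one_lt_d9]
  obtain ⟨n, hn'⟩ : ∃ n : ℕ, n = finrank ℚ K := ⟨_, rfl⟩
  rw [← hn'] at hn
  have hdeg : (n : ℝ) ≤ 3 * Real.log d := by
    have hge := NumberField.abs_discr_ge (K := K) (hn' ▸ hn)
    rw [← hn', e] at hge
    have h94 : (9 / 4 : ℝ) ≤ 3 * π / 4 := by linarith [Real.pi_gt_three]
    have hlow : (4 / 9 : ℝ) * (9 / 4) ^ n ≤ d :=
      le_trans (mul_le_mul_of_nonneg_left (pow_le_pow_left₀ (by norm_num) h94 n) (by norm_num)) hge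
    have hl := Real.log_le_log (by positivity) hlow
    rw [Real.log_mul (by norm_num) (by positivity), Real.log_pow, show (4 / 9 : ℝ) = (9 / 4)⁻¹ by norm_num,
      Real.log_inv] at hl
    have h5 : (5 / 9 : ℝ) ≤ Real.log (9 / 4) := le_trans (by norm_num)
      (Real.one_sub_inv_le_log_of_pos (show (0 : ℝ) < 9 / 4 by norm_num))
    have hn2 : (2 : ℝ) ≤ n := by exact_mod_cast hn
    nlinarith
  have hH : FA.DedekindZF.height K 0 ≤ 8 * Real.log d := by
    rw [FA.DedekindZF.height, abs_zero, zero_add, ← hd, ← hn']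
    have hl3 : Real.log 3 ≤ 2 := by
      linarith [Real.log_le_sub_one_of_pos (show (0 : ℝ) < 3 by norm_num)]
    have := mul_le_mul_of_nonneg_left hl3 (Nat.cast_nonneg n : (0 : ℝ) ≤ _)
    linarith
  have h2 : d ^ (-(8 * A)) ≤ Real.exp (-(A * FA.DedekindZF.height K 0)) := by
    rw [Real.rpow_def_of_pos (by linarith), Real.exp_le_exp]
    have := mul_le_mul_of_nonneg_left hH (show 0 ≤ A by linarith)
    linarith
  linarith

/-- **An effective lower bound in Chebotarev's theorem for every Galois extension.** -/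
theorem effective_chebotarev_lower_bound_any : ∃ A : ℝ, 0 < A ∧
    ∀ (K : Type u) (L : Type v) [Field K] [NumberField K] [Field L] [NumberField L] [Algebra K L]
      [IsGalois K L] (C : Set (L ≃ₐ[K] L)), (∀ g ∈ C, ∀ x, x * g * x⁻¹ ∈ C) →
      ∀ x : ℝ, 0 < x →
        let S := 1 + Real.log ((discr L).natAbs : ℝ) + 2 * finrank ℚ L
        A * finrank ℚ L * S ^ 2 ≤ Real.log x →
          (Nat.card C : ℝ) / Nat.card (L ≃ₐ[K] L) * (Real.exp (-(A * S)) * x / (2 * Real.log x)) ≤
            Nat.card {v : HeightOneSpectrum (𝓞 K) // (Ideal.absNorm v.asIdeal : ℝ) ≤ x ∧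
              ((discr L : ℤ) : 𝓞 K) ∉ v.asIdeal ∧ ∀ Q : Ideal (𝓞 L), Q.IsMaximal →
                Q.under (𝓞 K) = v.asIdeal → ∀ τ, IsArithFrobAt (𝓞 K) τ Q → τ ∈ C} := by
  obtain ⟨G, hG, hgap⟩ := FA.DeuringHeilbronn.exists_exp_neg_height_le.{v}
  have hG0 : 0 ≤ G := by linarith
  obtain ⟨A₀, hA₀, h⟩ := FA.EffCheb.exists_count_ge_of_realGap.{u, v} hG0
  refine ⟨max A₀ G, lt_of_lt_of_le (by linarith) (le_max_left _ _), fun K L _ _ _ _ _ _ C hC x hx => ?_⟩
  intro S hr
  have hn : 0 < finrank ℚ L := finrank_pos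
  have hS : 0 < S := lt_of_lt_of_le three_pos (FA.DedekindPIT.three_le_sizeL L)
  have hr' : A₀ * finrank ℚ L * S ^ 2 ≤ Real.log x := le_trans (by gcongr; exact le_max_left _ _) hr
  have hg : FA.EffCheb.RealGap L G := fun E hE hEL β _ h0 => le_trans
    (Real.exp_le_exp.2 (neg_le_neg (mul_le_mul_of_nonneg_left
      (FA.DedekindPIT.height_zero_le_sizeL L) hG0))) (hgap L E hE hEL β h0)
  have h1 := h hg C hC x hx hr'
  have hl : 0 < Real.log x := lt_of_lt_of_le (by positivity) hr'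
  rw [FA.ChebError.share] at h1
  rw [show Real.exp (-(max A₀ G * S)) * x / (2 * Real.log x) =
    Real.exp (-(max A₀ G * S)) * x / 2 / Real.log x by ring, ← mul_div_assoc, div_le_iff₀ hl]
  refine le_trans ?_ (h1.trans (mul_le_mul_of_nonneg_right ?_ hl.le))
  · refine mul_le_mul_of_nonneg_left ?_ (by positivity)
    gcongr
    · exact le_max_right _ _
    · exact le_of_eq rfl
  rw [← FA.NaturalChebotarev.natCard_le_eq_countIn (FA.EffCheb.goodFrobSet C) hx.le, Nat.cast_le]
  haveI : Finite {v : HeightOneSpectrum (𝓞 K) // (Ideal.absNorm v.asIdeal : ℝ) ≤ x ∧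
      ((discr L : ℤ) : 𝓞 K) ∉ v.asIdeal ∧ ∀ Q : Ideal (𝓞 L), Q.IsMaximal →
        Q.under (𝓞 K) = v.asIdeal → ∀ τ, IsArithFrobAt (𝓞 K) τ Q → τ ∈ C} :=
    ((FA.Hecke.primesLE K ⌊x⌋₊).finite_toSet.subset fun v hv =>
      FA.Hecke.mem_primesLE.2 (Nat.le_floor hv.1)).to_subtype
  exact Nat.card_le_card_of_injective
    (Subtype.map id fun v hv => ⟨hv.1, hv.2.2, FA.EffCheb.goodFrobSet_subset_strict hC hv.2⟩)
    (Subtype.map_injective _ Function.injective_id)

end FA.Summary

end
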