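import Fermat.Agent.DiagonalLocal.Count
import Fermat.Agent.Root.SummaryHasseMinkowski

/-!
# Everywhere local solubility of diagonal forms

For every degree `d` and `m ≥ 4` variables a positive proportion of the forms `∑ a i x i ^ d` with
nonzero integer coefficients has nontrivial zeros over `ℝ` and over every `ℚ_p`; by the theorem of
Hasse and Minkowski a positive proportion of the diagonal quadratic forms has a rational zero.

* `locallySoluble_positive_proportion`: `≫ B ^ m` such forms with coefficients up to `B`, and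
  trivially `≤ (2 B) ^ m`;
* `diagonal_cubicSurfaces_positive_proportion`: the case of diagonal cubic surfaces;
* `diagonal_quadrics_rational_zero`: the rational zeros of quadratic forms;
* `three_units_padic_zero`: for `p > d ^ 6` three coefficients prime to `p` give a zero over `ℚ_p`;
* `three_coefficients_finite_field`: the same over a finite field with more than `d ^ 6` elements.

This is the lower bound in the theorem of Poonen and Voloch for diagonal forms, by means of the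
Gauss sums, Hensel's lemma and a sieve for pairwise coprime coefficients. Independent of S01.
-/

set_option autoImplicit false
set_option linter.style.openClassical false

noncomputable section

open scoped Classical

namespace FA.DiagonalLocal.Summary

open FA.DiagonalLocal

theorem ncard_solubleForms (m d B : ℕ) :
    {a : Fin m → ℤ | (∀ i, a i ≠ 0 ∧ |a i| ≤ B) ∧
      (∃ x : Fin m → ℝ, x ≠ 0 ∧ ∑ i, (a i : ℝ) * x i ^ d = 0) ∧
      ∀ (p : ℕ) [Fact p.Prime],
        ∃ x : Fin m → ℚ_[p], x ≠ 0 ∧ ∑ i, (a i : ℚ_[p]) * x i ^ d = 0}.ncard =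
      (solubleForms m d B).card := by
  rw [← Set.ncard_coe_finset]
  congr 1
  ext a
  rw [SetLike.mem_coe, mem_solubleForms]
  rfl

/-- **A positive proportion of the diagonal forms of degree `d` in at least four variables is
soluble everywhere locally.** -/
theorem locallySoluble_positive_proportion (m d : ℕ) (hm : 4 ≤ m) (hd : 0 < d) :
    ∃ c : ℝ, 0 < c ∧ ∃ B₀ : ℕ, ∀ B : ℕ, B₀ ≤ B →
      c * (B : ℝ) ^ m ≤ {a : Fin m → ℤ | (∀ i, a i ≠ 0 ∧ |a i| ≤ B) ∧
        (∃ x : Fin m → ℝ, x ≠ 0 ∧ ∑ i, (a i : ℝ) * x i ^ d = 0) ∧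
        ∀ (p : ℕ) [Fact p.Prime],
          ∃ x : Fin m → ℚ_[p], x ≠ 0 ∧ ∑ i, (a i : ℚ_[p]) * x i ^ d = 0}.ncard ∧
      ({a : Fin m → ℤ | (∀ i, a i ≠ 0 ∧ |a i| ≤ B) ∧
        (∃ x : Fin m → ℝ, x ≠ 0 ∧ ∑ i, (a i : ℝ) * x i ^ d = 0) ∧
        ∀ (p : ℕ) [Fact p.Prime],
          ∃ x : Fin m → ℚ_[p], x ≠ 0 ∧ ∑ i, (a i : ℚ_[p]) * x i ^ d = 0}.ncard : ℝ) ≤
        2 ^ m * (B : ℝ) ^ m := by
  obtain ⟨c, hc, B₀, h⟩ := exists_proportion hm hd
  refine ⟨c, hc, B₀, fun B hB => ?_⟩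
  rw [ncard_solubleForms, ← mul_pow]
  exact ⟨h B hB, by exact_mod_cast card_solubleForms_le m d B⟩

/-- **A positive proportion of the diagonal cubic surfaces is soluble everywhere locally.** -/
theorem diagonal_cubicSurfaces_positive_proportion :
    ∃ c : ℝ, 0 < c ∧ ∃ B₀ : ℕ, ∀ B : ℕ, B₀ ≤ B →
      c * (B : ℝ) ^ 4 ≤ {a : Fin 4 → ℤ | (∀ i, a i ≠ 0 ∧ |a i| ≤ B) ∧
        (∃ x : Fin 4 → ℝ, x ≠ 0 ∧ ∑ i, (a i : ℝ) * x i ^ 3 = 0) ∧
        ∀ (p : ℕ) [Fact p.Prime],
          ∃ x : Fin 4 → ℚ_[p], x ≠ 0 ∧ ∑ i, (a i : ℚ_[p]) * x i ^ 3 = 0}.ncard := by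
  obtain ⟨c, hc, B₀, h⟩ := locallySoluble_positive_proportion 4 3 le_rfl (by norm_num)
  exact ⟨c, hc, B₀, fun B hB => (h B hB).1⟩

/-- **A positive proportion of the diagonal quadratic forms in at least four variables has a
rational zero.** -/
theorem diagonal_quadrics_rational_zero (m : ℕ) (hm : 4 ≤ m) :
    ∃ c : ℝ, 0 < c ∧ ∃ B₀ : ℕ, ∀ B : ℕ, B₀ ≤ B →
      c * (B : ℝ) ^ m ≤ {a : Fin m → ℤ | (∀ i, a i ≠ 0 ∧ |a i| ≤ B) ∧
        ∃ x : Fin m → ℚ, x ≠ 0 ∧ ∑ i, (a i : ℚ) * x i ^ 2 = 0}.ncard := by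
  obtain ⟨c, hc, B₀, h⟩ := locallySoluble_positive_proportion m 2 hm two_pos
  refine ⟨c, hc, B₀, fun B hB => (h B hB).1.trans_eq ?_⟩
  congr 2
  ext a
  have := FA.Summary.hasse_minkowski_diagonal fun i => (a i : ℚ)
  simp only [Rat.cast_intCast] at this
  exact and_congr_right fun _ => this.symm

/-- **Three coefficients prime to `p > d ^ 6` give a nontrivial zero over `ℚ_p`.** -/
theorem three_units_padic_zero {m d : ℕ} (hd : 0 < d) {p : ℕ} [Fact p.Prime] (hp : d ^ 6 < p)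
    (a : Fin m → ℤ) {i j k : Fin m} (hij : i ≠ j) (hik : i ≠ k) (hjk : j ≠ k)
    (hi : ¬ (p : ℤ) ∣ a i) (hj : ¬ (p : ℤ) ∣ a j) (hk : ¬ (p : ℤ) ∣ a k) :
    ∃ x : Fin m → ℚ_[p], x ≠ 0 ∧ ∑ l, (a l : ℚ_[p]) * x l ^ d = 0 := by
  refine hasZero_padic_of_three hd hp (e := ![i, j, k]) ?_ ?_
  · intro x y hxy
    fin_cases x <;> fin_cases y <;> simp_all [eq_comm]
  · intro x
    fin_cases x <;> assumption

/-- Over a finite field with more than `d ^ 6` elements `a x ^ d + b y ^ d + c z ^ d` has a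
nontrivial zero. -/
theorem three_coefficients_finite_field (F : Type*) [Field F] [Fintype F] {d : ℕ} (hd : 0 < d)
    {a : Fin 3 → F} (ha : ∀ i, a i ≠ 0) (hq : d ^ 6 < Fintype.card F) :
    ∃ x : Fin 3 → F, x ≠ 0 ∧ ∑ i, a i * x i ^ d = 0 :=
  exists_zero_three F hd ha hq

end FA.DiagonalLocal.Summary
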