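import Fermat.Agent.DiagonalDensity.Count
import Fermat.Agent.Root.SummaryDavenportLewis
import Fermat.Agent.Root.SummaryDiagonalLocal

/-!
# The density of diagonal forms soluble everywhere locally

For `m ≥ 4` variables and every degree `d` the proportion of the forms `∑ a i x i ^ d`,
`0 < |a i| ≤ B`, with nontrivial zeros over `ℝ` and every `ℚ_p` tends to `σ_∞ ∏ σ_p > 0`, where
`σ_∞` is `1` for odd and `1 - 2 / 2 ^ m` for even `d`, and `σ_p` is the limit of the proportion of
the coefficient classes modulo `p ^ k` having a soluble lift.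

* `localDensity_limit`, `localDensity_positive`: the limit `σ_p` exists and is positive;
* `padic_soluble_density`: it is the proportion of the forms soluble over `ℚ_p`;
* `locallySoluble_density`: the product formula, with convergent positive product;
* `diagonal_cubicSurfaces_density`: the case of diagonal cubic surfaces;
* `diagonal_quadrics_rational_density`: the forms of degree `2` with a rational zero;
* `many_variables_density`: for `m > d ^ 2` all `σ_p = 1` (Davenport and Lewis);
* `meyer_density`: `1 - 2 / 2 ^ m` of the diagonal quadrics in `m ≥ 5` variables have a rational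
  zero.

These are the diagonal cases of the theorems of Poonen and Voloch and of Bright, Browning and
Loughran; no closed form of `σ_p` for `m ≤ d ^ 2` is claimed. Independent of S01.
-/

set_option autoImplicit false
set_option linter.style.openClassical false
set_option linter.style.haveILetI false

noncomputable section

open Filter
open scoped Classical Topology

namespace FA.DiagonalDensity.Summary

open FA.DiagonalDensity

variable {m d : ℕ}

/-- **The local density is a limit.** -/
theorem localDensity_limit (hd : 0 < d) {p : ℕ} [Fact p.Prime] :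
    Tendsto (fun k : ℕ => (Nat.card {c : Fin m → ZMod (p ^ k) // ∃ a : Fin m → ℤ, (∀ i, a i ≠ 0) ∧
        (∀ i, (a i : ZMod (p ^ k)) = c i) ∧
        ∃ x : Fin m → ℚ_[p], x ≠ 0 ∧ ∑ i, (a i : ℚ_[p]) * x i ^ d = 0} : ℝ) /
      (p : ℝ) ^ (k * m)) atTop (𝓝 (localDensity m d p)) := by
  refine (tendsto_classDensity (Fact.out : p.Prime) hd).1.congr fun k => ?_
  rw [classDensity, pow_mul, Nat.cast_pow]
  congr 2
  refine Nat.card_congr (Equiv.subtypeEquivRight fun c => exists_congr fun a => and_congr_right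
    fun _ => and_congr funext_iff ⟨fun h => h inferInstance, fun h _ => h⟩)

theorem localDensity_positive (hm : 4 ≤ m) (hd : 0 < d) {p : ℕ} (hp : p.Prime) :
    0 < localDensity m d p ∧ localDensity m d p ≤ 1 :=
  ⟨localDensity_pos hm hd hp, localDensity_le_one hp⟩

/-- **The forms soluble over one `ℚ_p`**, in each orthant. -/
theorem padic_soluble_density (hd : 0 < d) {p : ℕ} [hp : Fact p.Prime] (s : Fin m → ℤˣ) :
    Tendsto (fun B : ℕ => ({w : Fin m → ℕ | (∀ i, 0 < w i ∧ w i ≤ B) ∧
        ∃ x : Fin m → ℚ_[p], x ≠ 0 ∧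
          ∑ i, (((s i : ℤ) * w i : ℤ) : ℚ_[p]) * x i ^ d = 0}.ncard : ℝ) / (B : ℝ) ^ m)
      atTop (𝓝 (localDensity m d p)) := by
  have h := tendsto_padicSoluble (m := m) hd (T := {p})
    (fun q hq => Finset.mem_singleton.mp hq ▸ hp.out) s
  rw [Finset.prod_singleton] at h
  refine h.congr fun B => ?_
  rw [← Set.ncard_coe_finset]
  congr 3
  ext w
  simp only [SetLike.mem_coe, mem_solubleAt, box, Fintype.mem_piFinset, Finset.mem_Ioc,
    Finset.mem_singleton, forall_eq, Set.mem_ofPred_eq]
  exact and_congr_right fun _ => ⟨fun h => h hp, fun h _ => h⟩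

/-- **The density of the forms soluble everywhere locally.** -/
theorem locallySoluble_density (hm : 4 ≤ m) (hd : 0 < d) :
    Tendsto (fun P : ℕ => ∏ p ∈ (P + 1).primesBelow, localDensity m d p) atTop
      (𝓝 (globalDensity m d)) ∧ 0 < globalDensity m d ∧
    Tendsto (fun B : ℕ => ({a : Fin m → ℤ | (∀ i, a i ≠ 0 ∧ |a i| ≤ B) ∧
        (∃ x : Fin m → ℝ, x ≠ 0 ∧ ∑ i, (a i : ℝ) * x i ^ d = 0) ∧
        ∀ (p : ℕ) [Fact p.Prime],
          ∃ x : Fin m → ℚ_[p], x ≠ 0 ∧ ∑ i, (a i : ℚ_[p]) * x i ^ d = 0}.ncard : ℝ) /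
        (2 * (B : ℝ)) ^ m) atTop
      (𝓝 ((if Odd d then 1 else 1 - 2 / 2 ^ m) * globalDensity m d)) := by
  refine ⟨tendsto_partialProduct m d, globalDensity_pos hm hd, ?_⟩
  refine (tendsto_solubleForms hm hd).congr fun B => ?_
  rw [FA.DiagonalLocal.Summary.ncard_solubleForms]

/-- **The density of the diagonal cubic surfaces soluble everywhere locally.** -/
theorem diagonal_cubicSurfaces_density :
    Tendsto (fun B : ℕ => ({a : Fin 4 → ℤ | (∀ i, a i ≠ 0 ∧ |a i| ≤ B) ∧
        (∃ x : Fin 4 → ℝ, x ≠ 0 ∧ ∑ i, (a i : ℝ) * x i ^ 3 = 0) ∧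
        ∀ (p : ℕ) [Fact p.Prime],
          ∃ x : Fin 4 → ℚ_[p], x ≠ 0 ∧ ∑ i, (a i : ℚ_[p]) * x i ^ 3 = 0}.ncard : ℝ) /
        (2 * (B : ℝ)) ^ 4) atTop (𝓝 (globalDensity 4 3)) := by
  have h := (locallySoluble_density (m := 4) (d := 3) le_rfl (by norm_num)).2.2
  rwa [if_pos (by decide), one_mul] at h

/-- **The density of the diagonal quadratic forms with a rational zero.** -/
theorem diagonal_quadrics_rational_density (hm : 4 ≤ m) :
    Tendsto (fun B : ℕ => ({a : Fin m → ℤ | (∀ i, a i ≠ 0 ∧ |a i| ≤ B) ∧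
        ∃ x : Fin m → ℚ, x ≠ 0 ∧ ∑ i, (a i : ℚ) * x i ^ 2 = 0}.ncard : ℝ) / (2 * (B : ℝ)) ^ m)
      atTop (𝓝 ((1 - 2 / 2 ^ m) * globalDensity m 2)) := by
  have h := (locallySoluble_density (d := 2) hm two_pos).2.2
  rw [if_neg (by decide)] at h
  refine h.congr fun B => ?_
  congr 3
  ext a
  have := FA.Summary.hasse_minkowski_diagonal fun i => (a i : ℚ)
  simp only [Rat.cast_intCast] at this
  exact and_congr_right fun _ => this.symm

/-- **In more than `d ^ 2` variables every `σ_p` is `1`.** -/
theorem many_variables_density (hd : 2 ≤ d) (hm : d ^ 2 < m) :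
    (∀ p : ℕ, p.Prime → localDensity m d p = 1) ∧ globalDensity m d = 1 := by
  have hone : ∀ p : ℕ, p.Prime → localDensity m d p = 1 := fun p hp => by
    haveI : NeZero p := ⟨hp.ne_zero⟩
    refine le_antisymm (localDensity_le_one hp) (le_ciInf fun k => ?_)
    have huniv : upperClasses m d p k = Set.univ := Set.eq_univ_of_forall fun c => by
      refine ⟨fun i => ((c i).val : ℤ) + ((p ^ k : ℕ) : ℤ), fun i => ?_, funext fun i => ?_,
        fun hq => FA.DavenportLewis.Summary.davenport_lewis hd hm _⟩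
      · have h1 : (0 : ℤ) ≤ (c i).val := Int.natCast_nonneg _
        have h2 : (0 : ℤ) < ((p ^ k : ℕ) : ℤ) := Nat.cast_pos.mpr (pow_pos hp.pos k)
        show ((c i).val : ℤ) + ((p ^ k : ℕ) : ℤ) ≠ 0
        omega
      · simp only [reduce, Int.cast_add, Int.cast_natCast, ZMod.natCast_self, add_zero,
          ZMod.natCast_zmod_val]
    rw [huniv, classDensity, le_div_iff₀ (pow_pos (Nat.cast_pos.mpr (pow_pos hp.pos k)) m), one_mul]
    simp [Nat.card_eq_fintype_card]
  refine ⟨hone, tendsto_nhds_unique (tendsto_partialProduct m d) (tendsto_const_nhds.congr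
    fun P => (Finset.prod_eq_one fun p hp => hone p (Nat.prime_of_mem_primesBelow hp)).symm)⟩

/-- **The diagonal quadrics in at least five variables with a rational zero.** -/
theorem meyer_density (hm : 5 ≤ m) :
    Tendsto (fun B : ℕ => ({a : Fin m → ℤ | (∀ i, a i ≠ 0 ∧ |a i| ≤ B) ∧
        ∃ x : Fin m → ℚ, x ≠ 0 ∧ ∑ i, (a i : ℚ) * x i ^ 2 = 0}.ncard : ℝ) / (2 * (B : ℝ)) ^ m)
      atTop (𝓝 (1 - 2 / 2 ^ m)) := by
  have h := diagonal_quadrics_rational_density (m := m) (by omega)
  rwa [(many_variables_density (m := m) le_rfl (by omega)).2, mul_one] at h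

end FA.DiagonalDensity.Summary
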