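import Fermat.Agent.Supersingular.DiagonalFactorization

/-!
# Kronecker's factorisation of the modular equation on the diagonal

For every prime `p`, in `ℤ[X]`, `Φ_p(X, X) = -∏ H_D(X) ^ r(D)` over the discriminants
`-4 p ≤ D < 0`, where `r(D)` counts the `(t, k)` with `k > 0` and `t² - D k² = 4 p`, halved for
`D = -4` and divided by three for `D = -3`. Modulo `p` the product is `(X ^ p - X) ^ 2`, so every
residue is a root modulo `p` of a class polynomial with `4 p = t² - D k²`.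
-/

set_option autoImplicit false
set_option linter.style.haveILetI false

noncomputable section

open Polynomial ModularForm EisensteinSeries
open scoped Classical UpperHalfPlane

namespace FA.Summary

/-- The discriminants `-4 p ≤ D < 0`. -/
theorem modularDiagonal_discs (p : ℕ) (D : ℤ) :
    D ∈ FA.DiagFactor.discs p ↔ -(4 * (p : ℤ)) ≤ D ∧ D < 0 ∧ (D % 4 = 0 ∨ D % 4 = 1) := by
  simp only [FA.DiagFactor.discs, Finset.mem_filter, Finset.mem_Icc]
  omega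

/-- **Kronecker's factorisation of `Φ_p(X, X)`** and its reduction modulo `p`. -/
theorem modularDiagonal_factorization :
    ∃ H : ℤ → ℤ[X],
      (∀ D : ℤ, D < 0 → D % 4 = 0 ∨ D % 4 = 1 → (H D).Monic ∧
        Irreducible ((H D).map (Int.castRingHom ℚ)) ∧
        (H D).natDegree = {t : ℤ × ℤ × ℤ | t.2.1 ^ 2 - 4 * t.1 * t.2.2 = D ∧
          Int.gcd (Int.gcd t.1 t.2.1) t.2.2 = 1 ∧ 0 < t.1 ∧ |t.2.1| ≤ t.1 ∧ t.1 ≤ t.2.2 ∧
          ((|t.2.1| = t.1 ∨ t.1 = t.2.2) → 0 ≤ t.2.1)}.ncard ∧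
        ∀ z : ℂ, aeval z (H D) = 0 ↔ ∃ (a b c : ℤ) (τ : ℍ), 0 < a ∧ b ^ 2 - 4 * a * c = D ∧
          Int.gcd (Int.gcd a b) c = 1 ∧ (a : ℂ) * (τ : ℂ) ^ 2 + b * (τ : ℂ) + c = 0 ∧
          E₄ τ ^ 3 / ModularForm.discriminant τ = z) ∧
      ∀ p : ℕ, p.Prime →
        (∀ Φ : ℤ[X][X], Φ.Monic → Φ.natDegree = p + 1 →
          (∀ τ w : ℍ, (w : ℂ) = (p : ℂ) * (τ : ℂ) →
            Φ.eval₂ (aeval (R := ℤ) (E₄ τ ^ 3 / ModularForm.discriminant τ)).toRingHom
              (E₄ w ^ 3 / ModularForm.discriminant w) = 0) →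
          Φ.eval X = -∏ D ∈ FA.DiagFactor.discs p, H D ^
            (((Finset.Icc (-(4 * (p : ℤ))) (4 * p) ×ˢ Finset.Icc (1 : ℤ) (4 * p)).filter
                fun q => q.1 ^ 2 - D * q.2 ^ 2 = 4 * p).card /
              (if D = -4 then 2 else if D = -3 then 3 else 1))) ∧
        (∏ D ∈ FA.DiagFactor.discs p, H D ^
            (((Finset.Icc (-(4 * (p : ℤ))) (4 * p) ×ˢ Finset.Icc (1 : ℤ) (4 * p)).filter
                fun q => q.1 ^ 2 - D * q.2 ^ 2 = 4 * p).card /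
              (if D = -4 then 2 else if D = -3 then 3 else 1))).map (Int.castRingHom (ZMod p)) =
          ((X : (ZMod p)[X]) ^ p - X) ^ 2 := by
  have hne : ∀ D : ℤ, D < 0 → D % 4 = 0 ∨ D % 4 = 1 → ∃ a b c : ℤ, 0 < a ∧
      b ^ 2 - 4 * a * c = D ∧ Int.gcd (Int.gcd a b) c = 1 := by
    rintro D - (h | h)
    · exact ⟨1, 0, -(D / 4), one_pos, by omega, by simp⟩
    · exact ⟨1, 1, (1 - D) / 4, one_pos, by omega, by simp⟩
  choose H hH using fun D hD h => classPolynomial (D := D) hD (hne D hD h)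
  refine ⟨fun D => if h : D < 0 ∧ (D % 4 = 0 ∨ D % 4 = 1) then H D h.1 h.2 else 1,
    fun D hD h => by simpa only [dif_pos (And.intro hD h)] using hH D hD h, fun p hp => ?_⟩
  haveI := Fact.mk hp
  haveI : NeZero p := ⟨hp.ne_zero⟩
  let _ := Fintype.ofFinite (FA.Dim.Cos p)
  have hfam : ∀ D ∈ FA.DiagFactor.discs p,
      (if h : D < 0 ∧ (D % 4 = 0 ∨ D % 4 = 1) then H D h.1 h.2 else 1).Monic ∧
      (if h : D < 0 ∧ (D % 4 = 0 ∨ D % 4 = 1) then H D h.1 h.2 else 1).natDegree =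
        (FA.Singular.values D).ncard ∧
      ∀ z ∈ FA.Singular.values D,
        aeval z (if h : D < 0 ∧ (D % 4 = 0 ∨ D % 4 = 1) then H D h.1 h.2 else 1) = 0 := by
    intro D hD
    obtain ⟨-, hD0, hD4⟩ := (modularDiagonal_discs p D).1 hD
    obtain ⟨hmon, -, hdeg, hroots⟩ := hH D hD0 hD4
    simp only [dif_pos (And.intro hD0 hD4)]
    refine ⟨hmon, hdeg.trans (FA.Singular.values_ncard hD0).symm, ?_⟩
    rintro z ⟨f, hf, τ, hτ, rfl⟩
    exact (hroots _).2 ⟨f.1, f.2.1, f.2.2, τ, hf.2.2.1, hf.1, hf.2.1, hτ, rfl⟩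
  simp only [← FA.DiagFactor.posPairs_eq]
  refine ⟨fun Φ hm hd hv => ?_, FA.DiagFactor.prod_mod_p p hfam⟩
  rw [FA.ModPoly.eq_phi p hm
    (by rw [hd, FA.Dim.card_cos, FA.ModField.dedekindPsi_prime hp])
    fun z => hv z _ (FA.ModField.coe_scaleH p z)]
  exact FA.DiagFactor.eval_phi_eq p hfam

/-- **Every residue modulo `p` is a singular modulus** of a discriminant `(t² - 4 p) / k²`. -/
theorem classPolynomial_residue (p : ℕ) [Fact p.Prime] (r : ZMod p) :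
    ∃ D t k : ℤ, D < 0 ∧ 0 < k ∧ t ^ 2 - k ^ 2 * D = 4 * (p : ℤ) ∧
      ∀ G : ℤ[X], (∀ (a b c : ℤ) (τ : ℍ), 0 < a → b ^ 2 - 4 * a * c = D →
          Int.gcd (Int.gcd a b) c = 1 → (a : ℂ) * (τ : ℂ) ^ 2 + b * (τ : ℂ) + c = 0 →
          aeval (E₄ τ ^ 3 / ModularForm.discriminant τ) G = 0) →
        (G.map (Int.castRingHom (ZMod p))).IsRoot r := by
  haveI : NeZero p := ⟨(Fact.out : p.Prime).ne_zero⟩
  let _ := Fintype.ofFinite (FA.Dim.Cos p)
  obtain ⟨H, hH, -⟩ := modularDiagonal_factorization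
  have hfam : ∀ D ∈ FA.DiagFactor.discs p, (H D).Monic ∧
      (H D).natDegree = (FA.Singular.values D).ncard ∧
      ∀ z ∈ FA.Singular.values D, aeval z (H D) = 0 := by
    intro D hD
    obtain ⟨-, hD0, hD4⟩ := (modularDiagonal_discs p D).1 hD
    obtain ⟨hmon, -, hdeg, hroots⟩ := hH D hD0 hD4
    refine ⟨hmon, hdeg.trans (FA.Singular.values_ncard hD0).symm, ?_⟩
    rintro z ⟨f, hf, τ, hτ, rfl⟩
    exact (hroots _).2 ⟨f.1, f.2.1, f.2.2, τ, hf.2.2.1, hf.1, hf.2.1, hτ, rfl⟩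
  obtain ⟨D, hD, hne, hr⟩ := FA.DiagFactor.exists_disc_of_residue p hfam r
  obtain ⟨-, hD0, -⟩ := (modularDiagonal_discs p D).1 hD
  obtain ⟨⟨t, k⟩, hq⟩ := hne
  rw [FA.DiagFactor.posPairs, Finset.mem_filter, FA.ClassRelation.mem_fixPairs hD0] at hq
  refine ⟨D, t, k, hD0, hq.2, by linear_combination hq.1, fun G hG => hr G ?_⟩
  rintro z ⟨f, hf, τ, hτ, rfl⟩
  exact hG f.1 f.2.1 f.2.2 τ hf.2.2.1 hf.1 hf.2.1 hτ

end FA.Summary

end
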