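import Fermat.Agent.BirchForms.Diagonal

/-!
# The Hasse principle for diagonal forms

`∑ c i x i ^ k = 0` with nonzero integer coefficients and more than `k (k + 1)` variables has a
nontrivial integer solution exactly when it has one over `ℝ` and over every `ℚ_p`. With at least
`k max (k ^ 2, 4 k)` variables only the signs matter.
-/

set_option autoImplicit false

noncomputable section

namespace FA.BirchForms.Summary

open Finset

theorem real_zero_of_integer_zero {k n : ℕ} {c : Fin n → ℤ} {x : Fin n → ℤ} (hx : x ≠ 0)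
    (h : ∑ i, c i * x i ^ k = 0) :
    ∃ y : Fin n → ℝ, y ≠ 0 ∧ ∑ i, (c i : ℝ) * y i ^ k = 0 := by
  refine ⟨fun i => x i, fun e => hx (funext fun i => by simpa using congrFun e i), ?_⟩
  dsimp only
  exact_mod_cast h

theorem padic_zero_of_integer_zero {k n p : ℕ} [Fact p.Prime] {c : Fin n → ℤ} {x : Fin n → ℤ}
    (hx : x ≠ 0) (h : ∑ i, c i * x i ^ k = 0) :
    ∃ y : Fin n → ℚ_[p], y ≠ 0 ∧ ∑ i, (c i : ℚ_[p]) * y i ^ k = 0 := by
  refine ⟨fun i => x i, fun e => hx (funext fun i => by simpa using congrFun e i), ?_⟩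
  dsimp only
  exact_mod_cast h

/-- **The Hasse principle for diagonal forms.** -/
theorem hasse_principle {k n : ℕ} (hk : 2 ≤ k) (hn : k * (k + 1) < n) {c : Fin n → ℤ}
    (hc : ∀ i, c i ≠ 0) :
    (∃ x : Fin n → ℤ, x ≠ 0 ∧ ∑ i, c i * x i ^ k = 0) ↔
      (∃ x : Fin n → ℝ, x ≠ 0 ∧ ∑ i, (c i : ℝ) * x i ^ k = 0) ∧
        ∀ (p : ℕ) [Fact p.Prime], ∃ x : Fin n → ℚ_[p], x ≠ 0 ∧
          ∑ i, (c i : ℚ_[p]) * x i ^ k = 0 := by
  refine ⟨fun ⟨x, hx, h⟩ => ⟨real_zero_of_integer_zero hx h,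
    fun p _ => padic_zero_of_integer_zero hx h⟩, fun ⟨⟨x, hx, h⟩, hp⟩ => ?_⟩
  refine exists_zero_of_local hk hn hc (odd_or_mixed_of_real hc hx h) fun p hp' => Or.inr ?_
  have : Fact p.Prime := ⟨hp'⟩
  obtain ⟨y, hy, h'⟩ := hp p
  exact primitiveZeros_of_padic hy h'

/-- The same with congruences. -/
theorem hasse_principle_congruences {k n : ℕ} (hk : 2 ≤ k) (hn : k * (k + 1) < n) {c : Fin n → ℤ}
    (hc : ∀ i, c i ≠ 0) :
    (∃ x : Fin n → ℤ, x ≠ 0 ∧ ∑ i, c i * x i ^ k = 0) ↔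
      (∃ x : Fin n → ℝ, x ≠ 0 ∧ ∑ i, (c i : ℝ) * x i ^ k = 0) ∧
        ∀ p : ℕ, p.Prime → ∀ j : ℕ, ∃ y : Fin n → ℤ,
          (∃ i, ¬(p : ℤ) ∣ y i) ∧ (p : ℤ) ^ j ∣ ∑ i, c i * y i ^ k := by
  refine ⟨fun ⟨x, hx, h⟩ => ⟨real_zero_of_integer_zero hx h, fun p hp => ?_⟩,
    fun ⟨⟨x, hx, h⟩, hp⟩ =>
      exists_zero_of_local hk hn hc (odd_or_mixed_of_real hc hx h) fun p hp' => Or.inr (hp p hp')⟩
  have : Fact p.Prime := ⟨hp⟩
  obtain ⟨y, hy, h'⟩ := padic_zero_of_integer_zero (p := p) hx h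
  exact primitiveZeros_of_padic hy h'

/-- **Many variables**: only the signs matter. -/
theorem indefinite_diagonal_equation {k n : ℕ} (hk : 2 ≤ k)
    (hn : k * max (k * k) (4 * k) ≤ n) {c : Fin n → ℤ} (hc : ∀ i, c i ≠ 0) :
    (∃ x : Fin n → ℤ, x ≠ 0 ∧ ∑ i, c i * x i ^ k = 0) ↔
      Odd k ∨ (∃ i, 0 < c i) ∧ ∃ j, c j < 0 := by
  refine ⟨fun ⟨x, hx, h⟩ => ?_, fun hs => ?_⟩
  · obtain ⟨y, hy, h'⟩ := real_zero_of_integer_zero hx h
    exact odd_or_mixed_of_real hc hy h'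
  refine exists_zero_of_local hk ?_ hc hs fun p hp =>
    Or.inr (primitiveZeros_of_many hp hk hc (by rwa [Fintype.card_fin]))
  have h1 : k * (4 * k) ≤ n := le_trans (Nat.mul_le_mul_left k (le_max_right _ _)) hn
  have h2 : k * (k + 1) < k * (4 * k) := Nat.mul_lt_mul_of_pos_left (by omega) (by omega)
  omega

end FA.BirchForms.Summary
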