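import Fermat.Agent.DiagonalHua.Diagonal

/-!
# Diagonal equations in more than `2 ^ k` variables

Let `k ≥ 3`, `n > 2 ^ k` and `c i` nonzero integers.

* `hasse_principle_two_pow`: `∑ c i x i ^ k = 0` has a nontrivial integer solution exactly when it
  has one over `ℝ` and over every `ℚ_p` (a nontrivial zero of such a form is nonsingular);
* `hasse_principle_two_pow_congruences`: the same with primitive solutions of the congruences;
* `odd_degree_zero_two_pow`: for odd `k` there is always one when also `n > k ^ 2`;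
* `diagonal_cubic_ten`, `diagonal_cubic_ten_rat`: so every diagonal cubic form in ten variables
  with integer or rational coefficients has a nontrivial zero.

This improves `SummaryDiagonalHasse`, which needs more than `k (k + 1)` variables, for `k = 3, 4`.
It is the circle method with Hua's inequality; no count of solutions is stated.
-/

set_option autoImplicit false

noncomputable section

namespace FA.DiagonalHua.Summary

open Finset FA.BirchForms

/-- **The Hasse principle in more than `2 ^ k` variables.** -/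
theorem hasse_principle_two_pow {k n : ℕ} (hk : 3 ≤ k) (hn : 2 ^ k < n) {c : Fin n → ℤ}
    (hc : ∀ i, c i ≠ 0) :
    (∃ x : Fin n → ℤ, x ≠ 0 ∧ ∑ i, c i * x i ^ k = 0) ↔
      (∃ x : Fin n → ℝ, x ≠ 0 ∧ ∑ i, (c i : ℝ) * x i ^ k = 0) ∧
        ∀ (p : ℕ) [Fact p.Prime], ∃ x : Fin n → ℚ_[p], x ≠ 0 ∧
          ∑ i, (c i : ℚ_[p]) * x i ^ k = 0 := by
  refine ⟨fun ⟨x, hx, h⟩ => ⟨?_, fun p _ => ?_⟩, fun ⟨⟨x, hx, h⟩, hp⟩ => ?_⟩
  · refine ⟨fun i => x i, fun e => hx (funext fun i => by simpa using congrFun e i), ?_⟩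
    dsimp only
    exact_mod_cast h
  · refine ⟨fun i => x i, fun e => hx (funext fun i => by simpa using congrFun e i), ?_⟩
    dsimp only
    exact_mod_cast h
  · refine exists_zero_of_local hk hn hc (odd_or_mixed_of_real hc hx h) fun p hp' => ?_
    have : Fact p.Prime := ⟨hp'⟩
    obtain ⟨y, hy, h'⟩ := hp p
    exact primitiveZeros_of_padic hy h'

/-- The same with congruences. -/
theorem hasse_principle_two_pow_congruences {k n : ℕ} (hk : 3 ≤ k) (hn : 2 ^ k < n)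
    {c : Fin n → ℤ} (hc : ∀ i, c i ≠ 0) :
    (∃ x : Fin n → ℤ, x ≠ 0 ∧ ∑ i, c i * x i ^ k = 0) ↔
      (∃ x : Fin n → ℝ, x ≠ 0 ∧ ∑ i, (c i : ℝ) * x i ^ k = 0) ∧
        ∀ p : ℕ, p.Prime → ∀ j : ℕ, ∃ y : Fin n → ℤ,
          (∃ i, ¬(p : ℤ) ∣ y i) ∧ (p : ℤ) ^ j ∣ ∑ i, c i * y i ^ k := by
  refine ⟨fun hz => ?_, fun ⟨⟨x, hx, h⟩, hp⟩ =>
    exists_zero_of_local hk hn hc (odd_or_mixed_of_real hc hx h) fun p hp' => hp p hp'⟩
  refine ⟨((hasse_principle_two_pow hk hn hc).1 hz).1, fun p hp => ?_⟩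
  have : Fact p.Prime := ⟨hp⟩
  obtain ⟨y, hy, h'⟩ := ((hasse_principle_two_pow hk hn hc).1 hz).2 p
  exact primitiveZeros_of_padic hy h'

/-- **Odd degree.** -/
theorem odd_degree_zero_two_pow {ι : Type*} [Fintype ι] {k : ℕ} (hk : Odd k) (hk3 : 3 ≤ k)
    (hι : max (2 ^ k) (k * k) < Fintype.card ι) (c : ι → ℤ) :
    ∃ x : ι → ℤ, x ≠ 0 ∧ ∑ i, c i * x i ^ k = 0 :=
  exists_diagonal_zero hk hk3 hι c

/-- **Diagonal cubic forms in ten variables.** -/
theorem diagonal_cubic_ten (c : Fin 10 → ℤ) :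
    ∃ x : Fin 10 → ℤ, x ≠ 0 ∧ ∑ i, c i * x i ^ 3 = 0 :=
  exists_diagonal_zero ⟨1, rfl⟩ le_rfl (by norm_num) c

/-- **Rational coefficients.** -/
theorem diagonal_cubic_ten_rat (c : Fin 10 → ℚ) :
    ∃ x : Fin 10 → ℚ, x ≠ 0 ∧ ∑ i, c i * x i ^ 3 = 0 :=
  exists_diagonal_zero_rat ⟨1, rfl⟩ le_rfl (by norm_num) c

end FA.DiagonalHua.Summary

end
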