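import Fermat.Agent.DiagonalHypersurface.Zeta

/-!
# The Weil conjectures for diagonal hypersurfaces

For a finite field with `q` elements, `n ∣ q - 1` and nonzero `a i`, the hypersurface `∑ a i x i ^ n = 0` in projective
space of dimension `m - 1` (Weil 1949, with `ω = ∏ χ i⁻¹ (a i) (-g(χ i)) / q`):

* `diagonalHypersurface_pointCount`: `N_s = ∑ q ^ (j s) + (-1) ^ m ∑ ω ^ s` over the extension of degree `s`.
* `diagonalHypersurface_omega`: `n` times their number is `(n - 1) ^ m + (-1) ^ m (n - 1)`, `|ω| ^ 2 = q ^ (m - 2)`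
  and inversion of the characters sends `ω` to `q ^ (m - 2) / ω`.
* `diagonalHypersurface_zeta`: `exp (∑ N_s T ^ s / s)` is `∏ (1 - ω T) ^ ((-1) ^ (m + 1)) / ∏ (1 - q ^ j T)`.
* `diagonalHypersurface_functionalEquation`, `diagonalHypersurface_riemannHypothesis`: the functional equation under
  `T ↦ 1 / (q ^ (m - 2) T)` and the absolute value `q ^ (-(m - 2) / 2)` of the zeros of `∏ (1 - ω T)`.
* `diagonalHypersurface_bound`: `|N - (1 + q + ... + q ^ (m - 2))| ≤ B √(q ^ (m - 2))`.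

`ψ` is any primitive additive character, e.g. `AddChar.FiniteField.primitiveChar_to_Complex`. Independent of S01.
-/

set_option autoImplicit false

noncomputable section

open scoped Classical

namespace FA.Summary

open FA.DiagonalHypersurface

variable {F : Type*} [Field F] [Fintype F] {n m : ℕ} {a : Fin m → F} {ψ : AddChar F ℂ}

/-- **The points over every extension.** -/
theorem diagonalHypersurface_pointCount (hn0 : 0 < n) (hn : n ∣ Fintype.card F - 1) (hm : 0 < m)
    (ha : ∀ i, a i ≠ 0) (hψ : ψ.IsPrimitive) (E : Type*) [Field E] [Fintype E] [Algebra F E] :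
    (Nat.card {P : Projectivization E (Fin m → E) // ∑ i, algebraMap F E (a i) * P.rep i ^ n = 0} : ℂ) =
      (∑ j ∈ Finset.range (m - 1), ((Fintype.card F : ℂ) ^ j) ^ Module.finrank F E) +
        (-1) ^ m * ∑ χ ∈ charTuples F n m, omegaValue a ψ χ ^ Module.finrank F E :=
  diagonalPoints_extension E hn0 hn hm ha hψ

/-- **The numbers `ω`**: their number, absolute value and symmetry. -/
theorem diagonalHypersurface_omega (hn0 : 0 < n) (hn : n ∣ Fintype.card F - 1) (hm : 2 ≤ m) (ha : ∀ i, a i ≠ 0)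
    (hψ : ψ.IsPrimitive) :
    (n : ℤ) * (charTuples F n m).card = ((n : ℤ) - 1) ^ m + (-1) ^ m * ((n : ℤ) - 1) ∧
      (∀ χ ∈ charTuples F n m, ‖omegaValue a ψ χ‖ ^ 2 = (Fintype.card F : ℝ) ^ (m - 2)) ∧
      ∀ χ ∈ charTuples F n m, (fun i => (χ i)⁻¹) ∈ charTuples F n m ∧
        omegaValue a ψ χ * omegaValue a ψ (fun i => (χ i)⁻¹) = (Fintype.card F : ℂ) ^ (m - 2) :=
  ⟨card_charTuples hn hn0 m, fun _ h => norm_omega hm ha hψ h,
    fun _ h => ⟨invTuple_mem h, omega_pair hm ha hψ h⟩⟩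

open PowerSeries in
/-- **The zeta function is rational.** -/
theorem diagonalHypersurface_zeta (hn0 : 0 < n) (hn : n ∣ Fintype.card F - 1) (hm : 0 < m) (ha : ∀ i, a i ≠ 0)
    (hψ : ψ.IsPrimitive) (p : ℕ) [Fact p.Prime] [CharP F p] :
    let Z := (exp ℂ).subst (mk fun s => match s with
      | 0 => 0
      | k + 1 => (diagonalPoints (fun i => algebraMap F (FiniteField.Extension F p (k + 1)) (a i)) n : ℂ) / (k + 1))
    (Odd m → Z * (∏ j ∈ Finset.range (m - 1), (1 - C ((Fintype.card F : ℂ) ^ j) * X)) =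
      ∏ χ ∈ charTuples F n m, (1 - C (omegaValue a ψ χ) * X)) ∧
    (Even m → Z * ((∏ j ∈ Finset.range (m - 1), (1 - C ((Fintype.card F : ℂ) ^ j) * X)) *
      ∏ χ ∈ charTuples F n m, (1 - C (omegaValue a ψ χ) * X)) = 1) :=
  exp_diagonalPoints hn0 hn hm ha hψ p (by simp [← coeff_zero_eq_constantCoeff_apply]) fun k => by rw [coeff_mk]

/-- **The functional equation.** -/
theorem diagonalHypersurface_functionalEquation (hm : 2 ≤ m) (ha : ∀ i, a i ≠ 0) (hψ : ψ.IsPrimitive) :
    (∏ χ ∈ charTuples F n m, omegaValue a ψ χ) ^ 2 =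
        (Fintype.card F : ℂ) ^ ((m - 2) * (charTuples F n m).card) ∧
      ∀ z : ℂ, z ≠ 0 → zetaValue a ψ n (1 / ((Fintype.card F : ℂ) ^ (m - 2) * z)) =
        (-z) ^ (m - 1) * (∏ j ∈ Finset.range (m - 1), (Fintype.card F : ℂ) ^ j) *
          ((-z) ^ (charTuples F n m).card * ∏ χ ∈ charTuples F n m, omegaValue a ψ χ) ^ ((-1 : ℤ) ^ m) *
            zetaValue a ψ n z :=
  ⟨prod_omega_sq hm ha hψ, fun _ hz => zetaValue_functional hm ha hψ hz⟩

/-- **The Riemann hypothesis.** -/
theorem diagonalHypersurface_riemannHypothesis (hm : 2 ≤ m) (ha : ∀ i, a i ≠ 0) (hψ : ψ.IsPrimitive) {z : ℂ}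
    (hz : ∏ χ ∈ charTuples F n m, (1 - omegaValue a ψ χ * z) = 0) :
    ‖z‖ = (Real.sqrt ((Fintype.card F : ℝ) ^ (m - 2)))⁻¹ := by
  obtain ⟨χ, hχ, h⟩ := Finset.prod_eq_zero_iff.mp hz
  refine eq_inv_of_mul_eq_one_right ?_
  rw [← norm_omega hm ha hψ hχ, Real.sqrt_sq (norm_nonneg _), ← norm_mul, ← sub_eq_zero.mp h, norm_one]

/-- **The number of points against that of projective space.** -/
theorem diagonalHypersurface_bound (hn0 : 0 < n) (hn : n ∣ Fintype.card F - 1) (hm : 2 ≤ m) (ha : ∀ i, a i ≠ 0) :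
    |(Nat.card {P : Projectivization F (Fin m → F) // ∑ i, a i * P.rep i ^ n = 0} : ℝ) -
        ∑ j ∈ Finset.range (m - 1), (Fintype.card F : ℝ) ^ j| ≤
      (charTuples F n m).card * Real.sqrt ((Fintype.card F : ℝ) ^ (m - 2)) := by
  set ψ := AddChar.FiniteField.primitiveChar_to_Complex F
  have hψ : ψ.IsPrimitive := AddChar.FiniteField.primitiveChar_to_Complex_isPrimitive F
  have h := diagonalHypersurface_pointCount hn0 hn (by omega) ha hψ F
  simp only [Module.finrank_self, pow_one, Algebra.algebraMap_self, RingHom.id_apply] at h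
  rw [← Real.norm_eq_abs, ← Complex.norm_real]
  push_cast
  rw [h, add_sub_cancel_left, norm_mul, norm_pow, norm_neg, norm_one, one_pow, one_mul]
  refine (norm_sum_le _ _).trans ?_
  rw [← nsmul_eq_mul]
  refine Finset.sum_le_card_nsmul _ _ _ fun χ hχ => ?_
  rw [← norm_omega hm ha hψ hχ, Real.sqrt_sq (norm_nonneg _)]

end FA.Summary
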