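import Fermat.Agent.DiagonalRep.Examples

/-!
# Representations by positive diagonal forms in more than `2 ^ k` variables

Let `a 1, …, a s` be positive integers, `k ≥ 3` and `s > 2 ^ k`.

* `diagonal_asymptotic`: the number of solutions of `∑ a i x i ^ k = N` in positive integers is
  `(∏ a i) ^ (-1/k) 𝔖 (N) Γ (1 + 1/k) ^ s / Γ (s/k) N ^ (s/k - 1) + O (N ^ (s/k - 1 - δ))`;
* `diagonal_representation_count`, `diagonal_representation`: so every large `N` with a primitive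
  solution of the congruence modulo one power of each prime dividing `k ∏ a i` is represented, in
  `≫ N ^ (s/k - 1)` ways;
* `six_squares_representation`: the same for `k = 2` and six or more squares;
* `eight_cubes_twice_cube`: for instance every large number is `x₁³ + ⋯ + x₈³ + 2 x₉³`.

This is the circle method with Hua's inequality. Five squares are not covered, and the threshold
for `N` is not computed.
-/

set_option autoImplicit false

noncomputable section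

namespace FA.DiagonalRep.Summary

open Finset FA.DiagonalRep

variable {k s : ℕ}

/-- **The asymptotic formula.** -/
theorem diagonal_asymptotic (hk : 3 ≤ k) (hs : 2 ^ k + 1 ≤ s) {a : Fin s → ℕ}
    (ha : ∀ i, 0 < a i) : ∃ C δ : ℝ, 0 < C ∧ 0 < δ ∧ ∀ N : ℕ, (∀ i, a i ≤ N) →
      |(((Fintype.piFinset fun _ : Fin s => Icc 1 N).filter
            fun x => ∑ i, a i * x i ^ k = N).card : ℝ) -
          (∏ i, (a i : ℝ) ^ (-(1 / (k : ℝ)))) * diagSeries k a N *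
            (Real.Gamma (1 + 1 / (k : ℝ)) ^ s / Real.Gamma ((s : ℝ) / k)) *
            (N : ℝ) ^ ((s : ℝ) / k - 1)| ≤
        C * (N : ℝ) ^ ((s : ℝ) / k - 1 - δ) :=
  exists_rep_asymptotic (by omega) hs (WaringHua.three_mul_le hk hs) ha

theorem count_ge (hk : 2 ≤ k) (hs : 2 ^ k + 1 ≤ s) (h3k : 3 * k ≤ s) {a : Fin s → ℕ}
    (ha : ∀ i, 0 < a i) : ∃ (c : ℝ) (N₀ : ℕ), 0 < c ∧ ∀ N, N₀ ≤ N →
    (∀ p, p.Prime → p ∣ k * ∏ i, a i → ∃ y : Fin s → ℕ, (∃ i, ¬p ∣ y i) ∧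
      ∑ i, a i * y i ^ k ≡ N [MOD p ^ (∑ i, a i + (2 * padicValNat p k + 1))]) →
    c * (N : ℝ) ^ ((s : ℝ) / k - 1) ≤
      (((Fintype.piFinset fun _ : Fin s => Icc 1 N).filter
        fun x => ∑ i, a i * x i ^ k = N).card : ℝ) := by
  obtain ⟨c, N₀, hc, h⟩ := exists_coefReps_ge hk hs h3k ha
  refine ⟨c, N₀, hc, fun N hN hloc => h N hN fun p hp => ?_⟩
  by_cases hd : p ∣ k * ∏ i, a i
  · obtain ⟨y, ⟨i, hi⟩, hy⟩ := hloc p hp hd
    have h' := Nat.modEq_iff_dvd.1 hy.symm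
    push_cast at h'
    exact RepPattern.of_primitive hp ha hi (by push_cast; exact h')
  · refine RepPattern.of_coprime (by omega) ?_ hp (fun h => hd (h.mul_right _)) fun i h =>
      hd ((h.trans (dvd_prod_of_mem a (mem_univ i))).mul_left _)
    have := Nat.lt_two_pow_self (n := k)
    omega

theorem exists_solution {a : Fin s → ℕ} {c : ℝ} (hc : 0 < c) {N : ℕ} (hN : 0 < N) {Y : ℝ}
    (h : c * (N : ℝ) ^ Y ≤ (((Fintype.piFinset fun _ : Fin s => Icc 1 N).filter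
      fun x => ∑ i, a i * x i ^ k = N).card : ℝ)) :
    ∃ x : Fin s → ℕ, (∀ i, 0 < x i) ∧ ∑ i, a i * x i ^ k = N := by
  have hpos : 0 < c * (N : ℝ) ^ Y := mul_pos hc (Real.rpow_pos_of_pos (Nat.cast_pos.2 hN) _)
  obtain ⟨x, hx⟩ := card_pos.1 (Nat.cast_pos.1 (hpos.trans_le h))
  obtain ⟨hmem, hsum⟩ := mem_filter.1 hx
  exact ⟨x, fun i => (mem_Icc.1 (Fintype.mem_piFinset.1 hmem i)).1, hsum⟩

/-- **`≫ N ^ (s/k - 1)` representations** of every large `N` without a local obstruction. -/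
theorem diagonal_representation_count (hk : 3 ≤ k) (hs : 2 ^ k + 1 ≤ s) {a : Fin s → ℕ}
    (ha : ∀ i, 0 < a i) : ∃ (c : ℝ) (N₀ : ℕ), 0 < c ∧ ∀ N, N₀ ≤ N →
    (∀ p, p.Prime → p ∣ k * ∏ i, a i → ∃ y : Fin s → ℕ, (∃ i, ¬p ∣ y i) ∧
      ∑ i, a i * y i ^ k ≡ N [MOD p ^ (∑ i, a i + (2 * padicValNat p k + 1))]) →
    c * (N : ℝ) ^ ((s : ℝ) / k - 1) ≤
      (((Fintype.piFinset fun _ : Fin s => Icc 1 N).filter
        fun x => ∑ i, a i * x i ^ k = N).card : ℝ) :=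
  count_ge (by omega) hs (WaringHua.three_mul_le hk hs) ha

/-- **Every large `N` without a local obstruction is represented.** -/
theorem diagonal_representation (hk : 3 ≤ k) (hs : 2 ^ k + 1 ≤ s) {a : Fin s → ℕ}
    (ha : ∀ i, 0 < a i) : ∃ N₀ : ℕ, ∀ N, N₀ ≤ N →
    (∀ p, p.Prime → p ∣ k * ∏ i, a i → ∃ y : Fin s → ℕ, (∃ i, ¬p ∣ y i) ∧
      ∑ i, a i * y i ^ k ≡ N [MOD p ^ (∑ i, a i + (2 * padicValNat p k + 1))]) →
    ∃ x : Fin s → ℕ, (∀ i, 0 < x i) ∧ ∑ i, a i * x i ^ k = N := by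
  obtain ⟨c, N₀, hc, h⟩ := diagonal_representation_count hk hs ha
  exact ⟨max N₀ 1, fun N hN hloc => exists_solution hc (le_trans (le_max_right _ _) hN)
    (h N (le_trans (le_max_left _ _) hN) hloc)⟩

/-- **Six or more squares.** -/
theorem six_squares_representation (hs : 6 ≤ s) {a : Fin s → ℕ} (ha : ∀ i, 0 < a i) :
    ∃ N₀ : ℕ, ∀ N, N₀ ≤ N →
    (∀ p, p.Prime → p ∣ 2 * ∏ i, a i → ∃ y : Fin s → ℕ, (∃ i, ¬p ∣ y i) ∧
      ∑ i, a i * y i ^ 2 ≡ N [MOD p ^ (∑ i, a i + (2 * padicValNat p 2 + 1))]) →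
    ∃ x : Fin s → ℕ, (∀ i, 0 < x i) ∧ ∑ i, a i * x i ^ 2 = N := by
  obtain ⟨c, N₀, hc, h⟩ := count_ge (k := 2) le_rfl (by norm_num; omega) (by omega) ha
  exact ⟨max N₀ 1, fun N hN hloc => exists_solution hc (le_trans (le_max_right _ _) hN)
    (h N (le_trans (le_max_left _ _) hN) hloc)⟩

/-- **Eight cubes and twice a cube**, in `≫ N ²` ways. -/
theorem eight_cubes_twice_cube : ∃ (c : ℝ) (N₀ : ℕ), 0 < c ∧ ∀ N, N₀ ≤ N → c * (N : ℝ) ^ 2 ≤
    (((Fintype.piFinset fun _ : Fin 9 => Icc 1 N).filter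
      fun x => ∑ i, (![1, 1, 1, 1, 1, 1, 1, 1, 2] : Fin 9 → ℕ) i * x i ^ 3 = N).card : ℝ) := by
  obtain ⟨c, N₀, hc, h⟩ := exists_coefReps_ge (k := 3)
    (a := (![1, 1, 1, 1, 1, 1, 1, 1, 2] : Fin 9 → ℕ)) (by norm_num) (by norm_num) le_rfl
    fun i => by fin_cases i <;> simp
  refine ⟨c, N₀, hc, fun N hN => ?_⟩
  have h' := h N hN fun p hp => pattern_eight_cubes N p hp
  norm_num at h'
  exact h'

end FA.DiagonalRep.Summary

end
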