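import Fermat.Agent.Dickman.Main

/-!
# Summary: Dickman's theorem on smooth numbers

The `n ≤ x` all whose prime factors are at most `x ^ (1/u)` number `∼ ρ(u) x` (Dickman 1930; the
equation and the bound are de Bruijn's, 1951).

* `dickman_function`: `ρ` is continuous, positive, antitone, `1` up to `1`, `1 - log u` up to `2`,
  satisfies `u ρ u = ∫_(u-1)^u ρ` for `u ≥ 1`, and is at most `1 / Γ (u + 1)`;
* `dickman`: the limit for every `u > 0`; `dickman_uniform`: uniformly for bounded `u`;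
* `smooth_half`: the density `1 - log 2` for `u = 2`.

No rate, and nothing for `u` growing with `x`.
-/

set_option autoImplicit false

noncomputable section

namespace FA.Dickman.Summary

open Finset Filter
open scoped Topology Classical

/-- **Dickman's function.** -/
theorem dickman_function :
    Continuous rho ∧ Antitone rho ∧ (∀ u, 0 < rho u) ∧ (∀ u ≤ 1, rho u = 1) ∧
      (∀ u, 1 ≤ u → u ≤ 2 → rho u = 1 - Real.log u) ∧
      (∀ u, 1 ≤ u → u * rho u = ∫ v in (u - 1)..u, rho v) ∧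
      ∀ u, 0 ≤ u → rho u ≤ 1 / Real.Gamma (u + 1) :=
  ⟨continuous_rho, antitone_rho, rho_pos, fun _ => rho_eq_one, fun _ => rho_eq_one_sub_log,
    fun _ => mul_rho_eq, fun _ => rho_le_inv_Gamma⟩

/-- **Dickman's theorem.** -/
theorem dickman {u : ℝ} (hu : 0 < u) :
    Tendsto (fun x : ℝ => (#((Icc 1 ⌊x⌋₊).filter fun n : ℕ =>
      ∀ q : ℕ, q.Prime → q ∣ n → (q : ℝ) ≤ x ^ (1 / u)) : ℝ) / x) atTop (𝓝 (rho u)) :=
  FA.Dickman.tendsto_smoothCount hu

/-- **Uniformly on bounded sets.** -/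
theorem dickman_uniform (U : ℝ) {ε : ℝ} (hε : 0 < ε) :
    ∀ᶠ x : ℝ in atTop, ∀ u : ℝ, 0 < u → u ≤ U → |(#((Icc 1 ⌊x⌋₊).filter fun n : ℕ =>
      ∀ q : ℕ, q.Prime → q ∣ n → (q : ℝ) ≤ x ^ (1 / u)) : ℝ) - rho u * x| ≤ ε * x :=
  FA.Dickman.eventually_abs_smoothCount_sub_le U ε hε

/-- Numbers without prime factor above their root: density `1 - log 2`. -/
theorem smooth_half :
    Tendsto (fun x : ℝ => (#((Icc 1 ⌊x⌋₊).filter fun n : ℕ =>
      ∀ q : ℕ, q.Prime → q ∣ n → (q : ℝ) ≤ √x) : ℝ) / x) atTop (𝓝 (1 - Real.log 2)) := by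
  have h := dickman (u := 2) two_pos
  rw [rho_eq_one_sub_log one_le_two le_rfl] at h
  simpa only [Real.sqrt_eq_rpow] using h

end FA.Dickman.Summary
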