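import Fermat.Agent.DicksonSubgroups.Dickson

/-!
# Dickson's classification of the subgroups of `GL₂(𝔽_p)` and Galois's theorem

* `klein_invertible_order`: over any field a finite subgroup of `GL₂` of order invertible in the
  field has cyclic, dihedral, `A₄`, `S₄` or `A₅` image in `PGL₂`, and is solvable exactly outside
  the last case;
* `dickson_gl2`: a subgroup of `GL₂(𝔽_p)` contains `SL₂(𝔽_p)`, or fixes a line, or has order prime
  to `p` and one of these five images, with cyclic part of order dividing `p ± 1` and `A₅` only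
  for `p ≡ ±1 (mod 5)`;
* `galois_index`: for `p > 11` every proper subgroup of `SL₂(𝔽_p)` or of `PSL₂(𝔽_p)` has index at
  least `p + 1`, and this index occurs;
* `dickson_galois`: the resulting trichotomy for a representation into `GL₂(𝔽_p)`; its image is
  solvable unless it contains `SL₂(𝔽_p)` or is icosahedral.
-/

set_option autoImplicit false

noncomputable section

open Matrix
open scoped MatrixGroups

namespace FA.Summary

/-- **Klein's classification for invertible order.** -/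
theorem klein_invertible_order (F : Type*) [Field F] (G : Subgroup (GL (Fin 2) F)) [Finite G]
    (hG : (Nat.card G : F) ≠ 0) :
    (IsCyclic (G.map ProjGenLinGroup.mk) ∨
      (∃ n, Nonempty (G.map ProjGenLinGroup.mk ≃* DihedralGroup n)) ∨
      Nonempty (G.map ProjGenLinGroup.mk ≃* alternatingGroup (Fin 4)) ∨
      Nonempty (G.map ProjGenLinGroup.mk ≃* Equiv.Perm (Fin 4)) ∨
      Nonempty (G.map ProjGenLinGroup.mk ≃* alternatingGroup (Fin 5))) ∧
    (Group.IsSolvable G ↔
      ¬ Nonempty (G.map ProjGenLinGroup.mk ≃* alternatingGroup (Fin 5))) := by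
  have h₁ := FA.Klein.klein_range_invertible G.subtype hG
  have h₂ := FA.Klein.range_solvable_iff_invertible G.subtype hG
  rw [show (ProjGenLinGroup.mk.comp G.subtype).range = G.map ProjGenLinGroup.mk by
    rw [MonoidHom.range_comp, Subgroup.range_subtype]] at h₁ h₂
  rw [Subgroup.range_subtype] at h₂
  exact ⟨h₁, h₂⟩

variable (p : ℕ) [Fact p.Prime]

/-- **Dickson's classification.** -/
theorem dickson_gl2 (G : Subgroup (GL (Fin 2) (ZMod p))) :
    (Matrix.SpecialLinearGroup.toGL.range ≤ G) ∨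
    (∃ v : Fin 2 → ZMod p, v ≠ 0 ∧
      ∀ A ∈ G, ∃ a : ZMod p, (A : Matrix (Fin 2) (Fin 2) (ZMod p)) *ᵥ v = a • v) ∨
    (¬ p ∣ Nat.card G ∧
      (IsCyclic (G.map ProjGenLinGroup.mk) ∧
          (Nat.card (G.map ProjGenLinGroup.mk) ∣ p - 1 ∨
            Nat.card (G.map ProjGenLinGroup.mk) ∣ p + 1) ∨
        (∃ n, (n ∣ p - 1 ∨ n ∣ p + 1) ∧
          Nonempty (G.map ProjGenLinGroup.mk ≃* DihedralGroup n)) ∨
        Nonempty (G.map ProjGenLinGroup.mk ≃* alternatingGroup (Fin 4)) ∨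
        Nonempty (G.map ProjGenLinGroup.mk ≃* Equiv.Perm (Fin 4)) ∨
        Nonempty (G.map ProjGenLinGroup.mk ≃* alternatingGroup (Fin 5)) ∧
          (p % 5 = 1 ∨ p % 5 = 4))) :=
  FA.DicksonSubgroups.dickson G

/-- **Galois's theorem.** -/
theorem galois_index (h11 : 11 < p) :
    (∀ H : Subgroup SL(2, ZMod p), H ≠ ⊤ → p + 1 ≤ H.index) ∧
    (∀ K : Subgroup (Matrix.ProjectiveSpecialLinearGroup (Fin 2) (ZMod p)),
      K ≠ ⊤ → p + 1 ≤ K.index) ∧
    (∃ H : Subgroup SL(2, ZMod p), H.index = p + 1) ∧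
    (∃ K : Subgroup (Matrix.ProjectiveSpecialLinearGroup (Fin 2) (ZMod p)), K.index = p + 1) :=
  ⟨fun _ h => FA.DicksonSubgroups.galois_sl h11 h,
    fun _ h => FA.DicksonSubgroups.galois_psl h11 h, FA.DicksonSubgroups.exists_index_eq⟩

/-- **The trichotomy for a representation.** -/
theorem dickson_galois {G : Type*} [Group G] (ρ : G →* GL (Fin 2) (ZMod p)) :
    ((∀ B : Matrix (Fin 2) (Fin 2) (ZMod p), B.det = 1 → ∃ g, (ρ g).val = B) ∨
      (∃ v : Fin 2 → ZMod p, v ≠ 0 ∧ ∀ g, ∃ a : ZMod p, (ρ g).val *ᵥ v = a • v) ∨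
      (¬ p ∣ Nat.card ρ.range ∧
        FA.DicksonSubgroups.DicksonImage p (ρ.range.map ProjGenLinGroup.mk))) ∧
    ((∀ B : Matrix (Fin 2) (Fin 2) (ZMod p), B.det = 1 → ∃ g, (ρ g).val = B) ∨
      Group.IsSolvable ρ.range ∨
      Nonempty (ρ.range.map ProjGenLinGroup.mk ≃* alternatingGroup (Fin 5))) := by
  have hsl : Matrix.SpecialLinearGroup.toGL.range ≤ ρ.range →
      ∀ B : Matrix (Fin 2) (Fin 2) (ZMod p), B.det = 1 → ∃ g, (ρ g).val = B := fun h B hB => by
    obtain ⟨g, hg⟩ := h ⟨⟨B, hB⟩, rfl⟩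
    exact ⟨g, congrArg Units.val hg⟩
  refine ⟨(FA.DicksonSubgroups.dickson ρ.range).imp hsl (Or.imp_left ?_),
    (FA.DicksonSubgroups.isSolvable_or_icosahedral ρ.range).imp_left hsl⟩
  rintro ⟨v, hv, h⟩
  exact ⟨v, hv, fun g => h _ ⟨g, rfl⟩⟩

end FA.Summary

end
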