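import Fermat.Agent.DigitProducts.Main
import Fermat.Agent.MultiplicativeKhintchine.Main
import Fermat.Agent.Root.SummaryBorelBernstein

/-!
# The zero-one law of Kleinbock and Wadleigh for products of consecutive partial quotients

For `φ ≥ 2` almost every real has infinitely many `n` with `a_n a_(n+1) ≥ φ n` if and only if
`∑ log (φ n) / φ n` diverges, and only finitely many almost surely otherwise (Kleinbock and
Wadleigh 2018; no monotonicity). So almost surely `a_n a_(n+1)` is at least `n (log n) ^ 2`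
infinitely often and eventually below `n (log n) ^ (2 + ε)`. The translation to the improvability
of Dirichlet's theorem with a general rate is not claimed.
-/

set_option autoImplicit false

noncomputable section

open MeasureTheory Filter Topology Real
open FA.PeriodicFractions

namespace FA.DigitProducts.Summary

/-- **Kleinbock–Wadleigh**, divergence. -/
theorem digit_products_divergence {φ : ℕ → ℝ} (h2 : ∀ i, 2 ≤ φ i)
    (hdiv : ¬Summable fun i => log (φ i) / φ i) :
    ∀ᵐ x : ℝ, ∃ a : ℕ → ℝ, (∀ i, (GenContFract.of x).s.get? i = some ⟨1, a i⟩) ∧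
      {i | φ i ≤ a i * a (i + 1)}.Infinite := by
  filter_upwards [ae_infinite_products h2 hdiv] with x ⟨hx, h⟩
  exact ⟨fun i => (digit x (i + 1) : ℝ), get?_of hx, h⟩

/-- **Kleinbock–Wadleigh**, convergence. -/
theorem digit_products_convergence {φ : ℕ → ℝ} (h2 : ∀ i, 2 ≤ φ i)
    (hs : Summable fun i => log (φ i) / φ i) :
    ∀ᵐ x : ℝ, ∃ a : ℕ → ℝ, (∀ i, (GenContFract.of x).s.get? i = some ⟨1, a i⟩) ∧
      {i | φ i ≤ a i * a (i + 1)}.Finite := by
  filter_upwards [ae_finite_products h2 hs] with x ⟨hx, h⟩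
  exact ⟨fun i => (digit x (i + 1) : ℝ), get?_of hx, h⟩

/-- **Kleinbock–Wadleigh**: the zero-one law. -/
theorem digit_products_zero_one {φ : ℕ → ℝ} (h2 : ∀ i, 2 ≤ φ i) :
    (∀ᵐ x : ℝ, ∃ a : ℕ → ℝ, (∀ i, (GenContFract.of x).s.get? i = some ⟨1, a i⟩) ∧
      {i | φ i ≤ a i * a (i + 1)}.Infinite) ↔ ¬Summable fun i => log (φ i) / φ i := by
  refine ⟨fun h hs => ?_, digit_products_divergence h2⟩
  obtain ⟨x, ⟨a, ha, hinf⟩, ⟨b, hb, hfin⟩⟩ :=
    (h.and (digit_products_convergence h2 hs)).exists
  have e : a = b := funext fun i =>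
    congrArg GenContFract.Pair.b (Option.some.inj ((ha i).symm.trans (hb i)))
  exact hinf (e ▸ hfin)

theorem one_le_log_shift (n : ℕ) : 1 ≤ log ((n : ℝ) + 3) := by
  rw [le_log_iff_exp_le (by positivity)]
  linarith [exp_one_lt_d9, (Nat.cast_nonneg n : (0 : ℝ) ≤ n)]

/-- **The growth of the products of consecutive partial quotients.** -/
theorem digit_products_growth :
    ∀ᵐ x : ℝ, ∃ a : ℕ → ℝ, (∀ i, (GenContFract.of x).s.get? i = some ⟨1, a i⟩) ∧
      (∃ᶠ n : ℕ in atTop, ((n : ℝ) + 3) * log ((n : ℝ) + 3) ^ 2 ≤ a n * a (n + 1)) ∧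
      ∀ ε : ℝ, 0 < ε → ∀ᶠ n : ℕ in atTop,
        a n * a (n + 1) < ((n : ℝ) + 3) * log ((n : ℝ) + 3) ^ (2 + ε) := by
  have hn : ∀ n : ℕ, (3 : ℝ) ≤ (n : ℝ) + 3 := fun n => le_add_of_nonneg_left n.cast_nonneg
  have h1 := digit_products_divergence
    (φ := fun n : ℕ => ((n : ℝ) + 3) * log ((n : ℝ) + 3) ^ 2)
    (fun n => by
      have := one_le_pow₀ (one_le_log_shift n) (n := 2)
      nlinarith [hn n]) (fun hs => BorelBernstein.Summary.not_summable_log_growth (by
      refine Summable.of_nonneg_of_le (fun n => ?_) (fun n => ?_) (hs.mul_left 3)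
      · have := one_le_log_shift n
        positivity
      have hL := one_le_log_shift n
      have hle : log ((n : ℝ) + 3) ≤ log (((n : ℝ) + 3) * log ((n : ℝ) + 3) ^ 2) :=
        log_le_log (by positivity) (le_mul_of_one_le_right (by positivity) (one_le_pow₀ hL))
      refine le_trans ?_ (mul_le_mul_of_nonneg_left
        (div_le_div_of_nonneg_right hle (by positivity)) (by norm_num))
      rw [mul_div_assoc', div_le_div_iff₀ (by positivity) (by positivity)]
      nlinarith [mul_nonneg (sq_nonneg (log ((n : ℝ) + 3))) (Nat.cast_nonneg (α := ℝ) n)]))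
  have h2 := fun m : ℕ => digit_products_convergence
    (φ := fun n : ℕ => ((n : ℝ) + 3) * log ((n : ℝ) + 3) ^ (2 + 1 / ((m : ℝ) + 1)))
    (fun n => by
      have := one_le_rpow (one_le_log_shift n)
        (show (0 : ℝ) ≤ 2 + 1 / ((m : ℝ) + 1) by positivity)
      nlinarith [hn n]) (by
      have hs := (summable_nat_add_iff 3).2 (MultiplicativeKhintchine.summable_log_power
        (show (0 : ℝ) < 1 / ((m : ℝ) + 1) by positivity))
      refine Summable.of_nonneg_of_le (fun n => ?_) (fun n => ?_)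
        (hs.mul_left (3 + 1 / ((m : ℝ) + 1)))
      · have hL := one_le_log_shift n
        have := one_le_rpow hL (show (0 : ℝ) ≤ 2 + 1 / ((m : ℝ) + 1) by positivity)
        exact div_nonneg (log_nonneg (by nlinarith [hn n])) (by positivity)
      have hL := one_le_log_shift n
      have hL0 : 0 < log ((n : ℝ) + 3) := by linarith
      push_cast
      rw [log_mul (by positivity) (rpow_pos_of_pos hL0 _).ne', log_rpow hL0]
      have hll : log (log ((n : ℝ) + 3)) ≤ log ((n : ℝ) + 3) :=
        log_le_self hL0.le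
      calc (log ((n : ℝ) + 3) + (2 + 1 / ((m : ℝ) + 1)) * log (log ((n : ℝ) + 3))) /
            (((n : ℝ) + 3) * log ((n : ℝ) + 3) ^ (2 + 1 / ((m : ℝ) + 1)))
          ≤ (3 + 1 / ((m : ℝ) + 1)) * log ((n : ℝ) + 3) /
            (((n : ℝ) + 3) * log ((n : ℝ) + 3) ^ (2 + 1 / ((m : ℝ) + 1))) := by
            refine div_le_div_of_nonneg_right ?_ (by positivity)
            nlinarith [mul_le_mul_of_nonneg_left hll
              (show (0 : ℝ) ≤ 2 + 1 / ((m : ℝ) + 1) by positivity)]
        _ = _ := by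
            rw [show 2 + 1 / ((m : ℝ) + 1) = 1 + (1 + 1 / ((m : ℝ) + 1)) by ring,
              rpow_add hL0, rpow_one]
            field_simp)
  filter_upwards [h1, ae_all_iff.2 h2] with x ⟨a, ha, hinf⟩ hx
  refine ⟨a, ha, Nat.frequently_atTop_iff_infinite.2 hinf, fun ε hε => ?_⟩
  obtain ⟨m, hm⟩ := exists_nat_one_div_lt hε
  obtain ⟨b, hb, hfin⟩ := hx m
  have e : a = b := funext fun i =>
    congrArg GenContFract.Pair.b (Option.some.inj ((ha i).symm.trans (hb i)))
  subst e
  filter_upwards [Nat.cofinite_eq_atTop ▸ hfin.eventually_cofinite_notMem] with n hn'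
  refine lt_of_lt_of_le (not_le.1 hn') (mul_le_mul_of_nonneg_left
    (rpow_le_rpow_of_exponent_le (one_le_log_shift n) (by linarith)) (by positivity))

end FA.DigitProducts.Summary
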