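import Fermat.Agent.Tau.DihedralEveryField

/-!
# Every imaginary quadratic field carries modular dihedral representations of every order

* `classGroup_cyclic_quotient`: for `n, m ≥ 1` some class group `Cl(n f²)` maps onto `ℤ/m`.
* `weightOne_dihedral_every_field`: for `m ≥ 3` a weight one form with dihedral image of order
  `2 m`, determinant the character of `ℚ(√-n)` and entire partial L-function.
* `dihedral_field_every_imaginary_quadratic`: `ℚ(√-n)` lies in a Galois extension of `ℚ` with group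
  the dihedral group of order `2 m`.
-/

set_option autoImplicit false

noncomputable section

open FA.OrderTheta
open CongruenceSubgroup (Gamma1)
open scoped MatrixGroups

namespace FA.Summary

local notation "Qb" => AlgebraicClosure ℚ
local notation "GQ" => AlgebraicClosure ℚ ≃ₐ[ℚ] AlgebraicClosure ℚ

/-- **The class groups of the orders of an imaginary quadratic field have every cyclic
quotient.** -/
theorem classGroup_cyclic_quotient (n : ℕ) [NeZero n] (m : ℕ) (hm : 0 < m) :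
    ∃ (f : ℕ) (_ : NeZero f) (π : Cl (n * f ^ 2) →* Multiplicative (ZMod m)),
      Function.Surjective π :=
  FA.OrderQuotient.exists_cl_cyclic_quotient n hm

/-- **Every imaginary quadratic field carries modular Artin representations with dihedral image of
every order**: the partial L-functions are entire, and the determinant cuts out `ℚ(√-n)`. -/
theorem weightOne_dihedral_every_field (n : ℕ) [NeZero n] (m : ℕ) (hm : 3 ≤ m) :
    ∃ (N : ℕ) (_ : NeZero N) (f : CuspForm (Gamma1 N) 1) (ρ : GQ →* GL (Fin 2) ℂ),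
      IsOpen (ρ.ker : Set GQ) ∧ Nonempty (ρ.range ≃* DihedralGroup m) ∧
      (∀ v : Fin 2 → ℂ, v ≠ 0 → ∃ σ, ∀ μ : ℂ,
        Matrix.mulVec ((ρ σ : GL (Fin 2) ℂ) : Matrix (Fin 2) (Fin 2) ℂ) v ≠ μ • v) ∧
      ModularFormClass.qCoeff f 1 = 1 ∧
      (∀ p : ℕ, p.Prime → ¬ p ∣ N → ∀ k : ℕ,
        ModularFormClass.qCoeff f (p * k) +
            (jacobiSym (-(n : ℤ)) p : ℂ) *
              (if p ∣ k then ModularFormClass.qCoeff f (k / p) else 0) =
          ModularFormClass.qCoeff f p * ModularFormClass.qCoeff f k) ∧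
      (∀ p : ℕ, p.Prime → ¬ p ∣ N → ∀ A : ValuationSubring Qb, A.LiesOverPrime p →
        (∀ σ ∈ A.inertiaSubgroupIn ℚ, ρ σ = 1) ∧
        ∀ σ : GQ, A.IsFrobeniusAt σ p →
          ((ρ σ : GL (Fin 2) ℂ) : Matrix (Fin 2) (Fin 2) ℂ).trace = ModularFormClass.qCoeff f p ∧
          ((ρ σ : GL (Fin 2) ℂ) : Matrix (Fin 2) (Fin 2) ℂ).det =
            (jacobiSym (-(n : ℤ)) p : ℂ)) ∧
      (∃ d : Qb, d ^ 2 = -(n : Qb) ∧ ∀ σ : GQ,
        ((ρ σ : GL (Fin 2) ℂ) : Matrix (Fin 2) (Fin 2) ℂ).det = 1 ↔ σ d = d) ∧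
      ∃ F : ℂ → ℂ, Differentiable ℂ F ∧ ∀ Fr : Nat.Primes → GQ,
        (∀ p : Nat.Primes, ¬ (p : ℕ) ∣ N → ∃ A : ValuationSubring Qb,
          A.LiesOverPrime (p : ℕ) ∧ A.IsFrobeniusAt (Fr p) (p : ℕ)) →
        ∀ s : ℂ, 1 < s.re → HasProd (fun p : {p : Nat.Primes // ¬ (p : ℕ) ∣ N} =>
          ((1 - ((p.1 : ℕ) : ℂ) ^ (-s) •
            ((ρ (Fr p.1) : GL (Fin 2) ℂ) : Matrix (Fin 2) (Fin 2) ℂ)).det)⁻¹) (F s) :=
  FA.DihedralEveryField.exists_weightOne n m hm

/-- **Every imaginary quadratic field lies in dihedral extensions of `ℚ` of every degree `2 m`.** -/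
theorem dihedral_field_every_imaginary_quadratic (n : ℕ) [NeZero n] (m : ℕ) (hm : 3 ≤ m) :
    ∃ (L : IntermediateField ℚ Qb) (_ : FiniteDimensional ℚ L) (_ : IsGalois ℚ L),
      Nonempty ((L ≃ₐ[ℚ] L) ≃* DihedralGroup m) ∧ ∃ d ∈ L, d ^ 2 = -(n : Qb) :=
  FA.DihedralEveryField.exists_dihedral_field n m hm

end FA.Summary

end
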