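import Fermat.Agent.Tau.DihedralFamily

/-!
# Abelian groups over imaginary quadratic fields and families of dihedral forms

* `classGroup_abelian_quotient`: every finite abelian group is a quotient of some `Cl(n f²)`.
* `generalisedDihedral_every_imaginary_quadratic`: it is the group over `ℚ(√-n)` of a Galois
  extension of `ℚ` in which all other automorphisms are involutions.
* `weightOne_dihedral_infinitely_many`, `dihedral_fields_infinitely_many`: for `m ≥ 3` infinitely
  many modular representations with image of order `2 m` and character `(-n/p)`, and dihedral fields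
  containing `√-n`.
-/

set_option autoImplicit false

noncomputable section

open UpperHalfPlane hiding I
open Module FA.OrderTheta
open CongruenceSubgroup (Gamma1)
open scoped MatrixGroups

namespace FA.Summary

local notation "Qb" => AlgebraicClosure ℚ
local notation "GQ" => AlgebraicClosure ℚ ≃ₐ[ℚ] AlgebraicClosure ℚ

/-- **Class groups of the orders of an imaginary quadratic field: every finite abelian
quotient.** -/
theorem classGroup_abelian_quotient (n : ℕ) [NeZero n] (A : Type*) [CommGroup A] [Finite A] :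
    ∃ (f : ℕ) (_ : NeZero f) (π : Cl (n * f ^ 2) →* A), Function.Surjective π :=
  FA.OrderQuotient.exists_cl_abelian_quotient n A

/-- **Every finite abelian group is a Galois group over every imaginary quadratic field, inverted by
the other automorphisms.** -/
theorem generalisedDihedral_every_imaginary_quadratic (n : ℕ) [NeZero n] (A : Type*)
    [CommGroup A] [Finite A] :
    ∃ (L : IntermediateField ℚ Qb) (_ : FiniteDimensional ℚ L) (_ : IsGalois ℚ L) (z : L),
      z ^ 2 = -(n : L) ∧ finrank ℚ L = 2 * Nat.card A ∧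
      Nonempty (MulAction.stabilizer (L ≃ₐ[ℚ] L) z ≃* A) ∧
      ∀ s : L ≃ₐ[ℚ] L, s z ≠ z → s * s = 1 :=
  FA.DihedralFamily.exists_galois_generalisedDihedral n A

/-- **Infinitely many modular Artin representations of each dihedral type.** -/
theorem weightOne_dihedral_infinitely_many (n : ℕ) [NeZero n] (m : ℕ) (hm : 3 ≤ m) :
    {H : Subgroup GQ | ∃ (N : ℕ) (_ : NeZero N) (f : CuspForm (Gamma1 N) 1)
      (ρ : GQ →* GL (Fin 2) ℂ), ρ.ker = H ∧
      IsOpen (ρ.ker : Set GQ) ∧ Nonempty (ρ.range ≃* DihedralGroup m) ∧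
      (∀ v : Fin 2 → ℂ, v ≠ 0 → ∃ σ, ∀ μ : ℂ,
        Matrix.mulVec ((ρ σ : GL (Fin 2) ℂ) : Matrix (Fin 2) (Fin 2) ℂ) v ≠ μ • v) ∧
      ModularFormClass.qCoeff f 1 = 1 ∧
      (∀ p : ℕ, p.Prime → ¬ p ∣ N → ∀ k : ℕ,
        ModularFormClass.qCoeff f (p * k) +
            (jacobiSym (-(n : ℤ)) p : ℂ) *
              (if p ∣ k then ModularFormClass.qCoeff f (k / p) else 0) =
          ModularFormClass.qCoeff f p * ModularFormClass.qCoeff f k) ∧
      (∀ p : ℕ, p.Prime → ¬ p ∣ N → ∀ A : ValuationSubring Qb, A.LiesOverPrime p →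
        (∀ σ ∈ A.inertiaSubgroupIn ℚ, ρ σ = 1) ∧
        ∀ σ : GQ, A.IsFrobeniusAt σ p →
          ((ρ σ : GL (Fin 2) ℂ) : Matrix (Fin 2) (Fin 2) ℂ).trace = ModularFormClass.qCoeff f p ∧
          ((ρ σ : GL (Fin 2) ℂ) : Matrix (Fin 2) (Fin 2) ℂ).det =
            (jacobiSym (-(n : ℤ)) p : ℂ)) ∧
      ∃ d : Qb, d ^ 2 = -(n : Qb) ∧ ∀ σ : GQ,
        ((ρ σ : GL (Fin 2) ℂ) : Matrix (Fin 2) (Fin 2) ℂ).det = 1 ↔ σ d = d}.Infinite :=
  FA.DihedralFamily.infinite_weightOne_dihedral n m hm

/-- **Infinitely many dihedral fields of degree `2 m` contain `√-n`.** -/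
theorem dihedral_fields_infinitely_many (n : ℕ) [NeZero n] (m : ℕ) (hm : 3 ≤ m) :
    {L : IntermediateField ℚ Qb | FiniteDimensional ℚ L ∧ IsGalois ℚ L ∧
      Nonempty ((L ≃ₐ[ℚ] L) ≃* DihedralGroup m) ∧ ∃ d ∈ L, d ^ 2 = -(n : Qb)}.Infinite :=
  FA.DihedralFamily.infinite_dihedral_fields n m hm

end FA.Summary

end
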