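import Fermat.Agent.Tau.GaussianClassQuotient
import Fermat.Agent.Tau.DihedralFamily
import Mathlib.GroupTheory.SpecificGroups.Dihedral

/-!
# Generalised dihedral groups as Galois groups over `ℚ`

Every finite abelian group `A` is a quotient of the class group of an order `ℤ[f i]`, so the ring
class fields give a Galois extension of `ℚ` containing `i` whose group is `A` extended by an
involution inverting it; in particular every dihedral group is a Galois group over `ℚ`.
-/

set_option autoImplicit false
set_option linter.style.haveILetI false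

noncomputable section

open UpperHalfPlane hiding I
open Module

namespace FA.Summary

local notation "Qb" => AlgebraicClosure ℚ

/-- **Every finite abelian group is a quotient of the class group of some order `ℤ[f i]`.** -/
theorem exists_classGroup_surjection (A : Type*) [CommGroup A] [Finite A] :
    ∃ (f : ℕ) (_ : NeZero (f ^ 2)) (π : FA.OrderTheta.Cl (f ^ 2) →* A), Function.Surjective π := by
  obtain ⟨f, hf, π, hπ⟩ := FA.GaussianClass.exists_cl_surjection A
  exact ⟨f, inferInstance, π, hπ⟩

/-- **Every generalised dihedral group is a Galois group over `ℚ`**: for a finite abelian group `A`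
there is a Galois extension of degree `2 |A|` containing `i`, with group `A` over `ℚ(i)` and
every other automorphism an involution. -/
theorem exists_galois_generalisedDihedral (A : Type*) [CommGroup A] [Finite A] :
    ∃ (L : IntermediateField ℚ Qb) (_ : FiniteDimensional ℚ L) (_ : IsGalois ℚ L) (z : L),
      z ^ 2 = -1 ∧ finrank ℚ L = 2 * Nat.card A ∧
      Nonempty (MulAction.stabilizer (L ≃ₐ[ℚ] L) z ≃* A) ∧
      ∀ s : L ≃ₐ[ℚ] L, s z ≠ z → s * s = 1 := by
  obtain ⟨L, hfin, hgal, z, hz, h⟩ := FA.DihedralFamily.exists_galois_generalisedDihedral 1 A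
  exact ⟨L, hfin, hgal, z, by rw [hz, Nat.cast_one], h⟩

/-- **Every dihedral group is a Galois group over `ℚ`.** -/
theorem exists_galois_dihedralGroup (m : ℕ) [NeZero m] :
    ∃ (L : IntermediateField ℚ Qb) (_ : FiniteDimensional ℚ L) (_ : IsGalois ℚ L),
      Nonempty ((L ≃ₐ[ℚ] L) ≃* DihedralGroup m) := by
  obtain ⟨L, hfin, hgal, z, -, hdeg, ⟨e⟩, hinv⟩ :=
    exists_galois_generalisedDihedral (Multiplicative (ZMod m))
  refine ⟨L, hfin, hgal, ?_⟩
  have hcard : Nat.card (L ≃ₐ[ℚ] L) = 2 * m := by
    rw [IsGalois.card_aut_eq_finrank, hdeg, Nat.card_congr Multiplicative.toAdd, Nat.card_zmod]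
  obtain ⟨t, ht⟩ : ∃ t : L ≃ₐ[ℚ] L, t z ≠ z := by
    by_contra hcon
    push Not at hcon
    have hc : Nat.card (L ≃ₐ[ℚ] L) = Nat.card (MulAction.stabilizer (L ≃ₐ[ℚ] L) z) :=
      Nat.card_congr
        (Equiv.subtypeUnivEquiv fun σ => MulAction.mem_stabilizer_iff.2 (hcon σ)).symm
    rw [hcard, Nat.card_congr e.toEquiv, Nat.card_congr Multiplicative.toAdd, Nat.card_zmod] at hc
    have := NeZero.pos m
    omega
  let x : ZMod m → (L ≃ₐ[ℚ] L) := fun i => (e.symm (Multiplicative.ofAdd i)).1
  have hx : ∀ i j, x i * x j = x (i + j) := fun i j => by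
    simp only [x, ofAdd_add, map_mul, Subgroup.coe_mul]
  have hxz : ∀ i, x i z = z := fun i => (e.symm (Multiplicative.ofAdd i)).2
  have hx0 : x 0 = 1 := by simp [x]
  have htt := hinv t ht
  have hswap : ∀ i, x i * t = t * x (-i) := fun i => by
    have h1 := hinv (t * x (-i)) (by rw [AlgEquiv.mul_apply, hxz]; exact ht)
    calc x i * t = x i * t * (t * x (-i) * (t * x (-i))) := by rw [h1, mul_one]
      _ = x i * (t * t) * x (-i) * (t * x (-i)) := by simp only [mul_assoc]
      _ = t * x (-i) := by rw [htt, mul_one, hx, add_neg_cancel, hx0, one_mul]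
  let φ : DihedralGroup m →* (L ≃ₐ[ℚ] L) :=
    { toFun := fun g => match g with
        | .r i => x i
        | .sr i => t * x i
      map_one' := hx0
      map_mul' := fun a b => by
        rcases a with i | i <;> rcases b with j | j
        · exact (hx i j).symm
        · show t * x (j - i) = x i * (t * x j)
          rw [← mul_assoc, hswap, mul_assoc, hx, neg_add_eq_sub]
        · show t * x (i + j) = t * x i * x j
          rw [mul_assoc, hx]
        · show x (j - i) = t * x i * (t * x j)
          rw [mul_assoc, ← mul_assoc (x i), hswap, mul_assoc, ← mul_assoc t t, htt, one_mul, hx,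
            neg_add_eq_sub] }
  have hxinj : Function.Injective x := fun i j h =>
    Multiplicative.ofAdd.injective (e.symm.injective (Subtype.ext h))
  have hne : ∀ i j, x i ≠ t * x j := fun i j h => ht (by
    have := congrArg (fun g : L ≃ₐ[ℚ] L => g z) h
    simp only [AlgEquiv.mul_apply, hxz] at this
    exact this.symm)
  have hinj : Function.Injective φ := by
    rintro (i | i) (j | j) h
    · exact congrArg _ (hxinj h)
    · exact absurd h (hne i j)
    · exact absurd h.symm (hne j i)
    · exact congrArg _ (hxinj (mul_left_cancel (h : t * x i = t * x j)))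
  exact ⟨(MulEquiv.ofBijective φ ((Nat.bijective_iff_injective_and_card _).2
    ⟨hinj, by rw [DihedralGroup.nat_card, hcard]⟩)).symm⟩

end FA.Summary

end
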