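import Fermat.Agent.Tau.DihedralModular

/-!
# Modular Artin representations with dihedral image of every order

For every `m ≥ 3` some irreducible representation of `G_ℚ` with image the dihedral group of order
`2 m` is attached to a weight one form (`weightOne_dihedral`), and its partial Artin L-function is
entire (`artin_dihedral_every_order`).
-/

set_option autoImplicit false

noncomputable section

open CongruenceSubgroup (Gamma1)
open scoped MatrixGroups

namespace FA.Summary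

local notation "Qb" => AlgebraicClosure ℚ
local notation "GQ" => AlgebraicClosure ℚ ≃ₐ[ℚ] AlgebraicClosure ℚ

/-- **Every dihedral group is the image of the Galois representation of a weight one form**: for
`m ≥ 3` a form of weight one satisfying the Hecke relations with character `(-1/p)` and an
irreducible representation with image of order `2 m`, open kernel, unramified outside the level,
with `tr ρ(Frob_p) = a_p` and `det ρ(Frob_p) = (-1/p)`. -/
theorem weightOne_dihedral (m : ℕ) (hm : 3 ≤ m) :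
    ∃ (N : ℕ) (_ : NeZero N) (f : CuspForm (Gamma1 N) 1) (ρ : GQ →* GL (Fin 2) ℂ),
      IsOpen (ρ.ker : Set GQ) ∧ Nonempty (ρ.range ≃* DihedralGroup m) ∧
      (∀ v : Fin 2 → ℂ, v ≠ 0 → ∃ σ, ∀ μ : ℂ,
        Matrix.mulVec ((ρ σ : GL (Fin 2) ℂ) : Matrix (Fin 2) (Fin 2) ℂ) v ≠ μ • v) ∧
      ModularFormClass.qCoeff f 1 = 1 ∧
      (∀ p : ℕ, p.Prime → ¬ p ∣ N → ∀ k : ℕ,
        ModularFormClass.qCoeff f (p * k) +
            (jacobiSym (-1) p : ℂ) * (if p ∣ k then ModularFormClass.qCoeff f (k / p) else 0) =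
          ModularFormClass.qCoeff f p * ModularFormClass.qCoeff f k) ∧
      ∀ p : ℕ, p.Prime → ¬ p ∣ N → ∀ A : ValuationSubring Qb, A.LiesOverPrime p →
        (∀ σ ∈ A.inertiaSubgroupIn ℚ, ρ σ = 1) ∧
        ∀ σ : GQ, A.IsFrobeniusAt σ p →
          ((ρ σ : GL (Fin 2) ℂ) : Matrix (Fin 2) (Fin 2) ℂ).trace = ModularFormClass.qCoeff f p ∧
          ((ρ σ : GL (Fin 2) ℂ) : Matrix (Fin 2) (Fin 2) ℂ).det = (jacobiSym (-1) p : ℂ) := by
  obtain ⟨N, hN, f, ρ, h1, h2, h3, h4, h5, h6, -⟩ :=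
    FA.DihedralModular.exists_weightOne_dihedral m hm
  exact ⟨N, hN, f, ρ, h1, h2, h3, h4, h5, h6⟩

/-- **Artin's conjecture for a representation with each dihedral image**: for `m ≥ 3` an
irreducible representation of `G_ℚ` with image of order `2 m`, unramified outside `N`, whose partial
L-function over `p ∤ N` continues to an entire function. -/
theorem artin_dihedral_every_order (m : ℕ) (hm : 3 ≤ m) :
    ∃ (N : ℕ) (_ : NeZero N) (ρ : GQ →* GL (Fin 2) ℂ),
      IsOpen (ρ.ker : Set GQ) ∧ Nonempty (ρ.range ≃* DihedralGroup m) ∧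
      (∀ v : Fin 2 → ℂ, v ≠ 0 → ∃ σ, ∀ μ : ℂ,
        Matrix.mulVec ((ρ σ : GL (Fin 2) ℂ) : Matrix (Fin 2) (Fin 2) ℂ) v ≠ μ • v) ∧
      (∀ p : ℕ, p.Prime → ¬ p ∣ N → ∀ A : ValuationSubring Qb, A.LiesOverPrime p →
        ∀ σ ∈ A.inertiaSubgroupIn ℚ, ρ σ = 1) ∧
      ∃ F : ℂ → ℂ, Differentiable ℂ F ∧ ∀ Fr : Nat.Primes → GQ,
        (∀ p : Nat.Primes, ¬ (p : ℕ) ∣ N → ∃ A : ValuationSubring Qb,
          A.LiesOverPrime (p : ℕ) ∧ A.IsFrobeniusAt (Fr p) (p : ℕ)) →
        ∀ s : ℂ, 1 < s.re → HasProd (fun p : {p : Nat.Primes // ¬ (p : ℕ) ∣ N} =>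
          ((1 - ((p.1 : ℕ) : ℂ) ^ (-s) •
            ((ρ (Fr p.1) : GL (Fin 2) ℂ) : Matrix (Fin 2) (Fin 2) ℂ)).det)⁻¹) (F s) := by
  obtain ⟨N, hN, f, ρ, h1, h2, h3, -, -, h6, hF⟩ :=
    FA.DihedralModular.exists_weightOne_dihedral m hm
  exact ⟨N, hN, ρ, h1, h2, h3, fun p hp hpn A hA => (h6 p hp hpn A hA).1, hF⟩

end FA.Summary

end
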