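import Fermat.Agent.Tau.DihedralPrimes

/-!
# The dihedral primes of `τ`

Serre, Swinnerton-Dyer: a prime `p` divides `τ(n)` for every `n` that is not a square modulo `p` if
and only if `p` is `2`, `3`, `7` or `23`.
-/

set_option autoImplicit false

noncomputable section

open UpperHalfPlane

namespace FA.Summary

private theorem isSquare_zmod_two : ∀ x : ZMod 2, IsSquare x := by decide

/-- **The dihedral primes of `τ`**: `p ∣ τ(n)` for all non-squares `n` modulo `p` if and only if
`p ∈ {2, 3, 7, 23}` (vacuously for `p = 2`). -/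
theorem ramanujanTau_dihedral_primes {p : ℕ} (hp : p.Prime) :
    (∀ n : ℕ, ¬IsSquare (n : ZMod p) → ∃ k : ℤ,
        (qExpansion 1 ModularForm.discriminant).coeff n = (((p : ℤ) * k : ℤ) : ℂ)) ↔
      p ∈ ({2, 3, 7, 23} : Finset ℕ) := by
  have : Fact p.Prime := ⟨hp⟩
  simp only [FA.Tau.qExpansion_discriminant, Int.cast_inj, Finset.mem_insert,
    Finset.mem_singleton]
  refine ⟨fun h => FA.SwinnertonDyer.eq_of_dihedral fun n hn =>
    (ZMod.intCast_zmod_eq_zero_iff_dvd _ p).2 (h n hn), fun hmem n hn => ?_⟩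
  refine (ZMod.intCast_zmod_eq_zero_iff_dvd _ p).1 ?_
  rcases hmem with rfl | rfl | rfl | rfl
  · exact absurd (isSquare_zmod_two _) hn
  · exact FA.SwinnertonDyer.coeff_deltaInt_three_eq_zero hn
  · exact FA.Tau.coeff_deltaInt_seven_eq_zero (Or.inr hn)
  · exact FA.SwinnertonDyer.coeff_deltaInt_twentyThree_eq_zero hn

end FA.Summary

end
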