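import Fermat.Agent.DihedralQuartic.Main

/-!
# Quadratic extensions and dihedral quartic fields

* `quadratic_extensions_asymptotic`: over every number field `K` the number of quadratic
  extensions `L` with norm of the relative discriminant at most `Y` is
  `~ 2 ^ (-r₂) * res ζ_K / ζ_K(2) * Y`;
* `quartic_dihedral_asymptotic`: the number of non-Galois quartic fields with a quadratic subfield
  and `|d_L| ≤ X` is `~ C X`, where `C` is half the sum over the quadratic fields `k` of
  `2 ^ (-r₂) * res ζ_k / (d_k ^ 2 * ζ_k(2))`, a convergent sum with positive value;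
* `quartic_galois_negligible`: the Galois ones are `o(X)`;
* `quartic_with_quadratic_subfield_asymptotic`: so all quartic fields with a quadratic subfield
  are `~ C X` as well (the theorem of Cohen, Diaz y Diaz and Olivier).

Fields are counted up to isomorphism (over `K` in the first statement), by means of any system of
representatives; such systems exist (`quadratic_extensions_system_exists`,
`quadratic_fields_system_exists`, `quartic_dihedral_system_exists`,
`quartic_with_quadratic_subfield_system_exists`). The norm of the relative discriminant is written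
as the absolute norm of the relative different. Error terms, signatures and the fields with
groups `S₄`, `A₄` are not claimed. Independent of S01.
-/

set_option autoImplicit false
set_option linter.style.haveILetI false

noncomputable section

open NumberField Module Filter Topology

namespace FA.DihedralQuartic.Summary

/-- The value at two is real and at least one. -/
theorem dedekindZeta_two_real (K : Type) [Field K] [NumberField K] :
    dedekindZeta K 2 = ((dedekindZeta K 2).re : ℂ) ∧ 1 ≤ (dedekindZeta K 2).re :=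
  dedekindZeta_two

/-- **Quadratic extensions of a number field.** -/
theorem quadratic_extensions_asymptotic (K : Type) [Field K] [NumberField K] (I : Type)
    (L : I → Type) [∀ i, Field (L i)] [∀ i, NumberField (L i)] [∀ i, Algebra K (L i)]
    (h2 : ∀ i, finrank K (L i) = 2) (hne : ∀ i j, Nonempty (L i ≃ₐ[K] L j) → i = j)
    (hall : ∀ (M : Type) [Field M] [NumberField M] [Algebra K M], finrank K M = 2 →
      ∃ i, Nonempty (M ≃ₐ[K] L i)) :
    Tendsto (fun Y : ℝ =>
      ({i | (Ideal.absNorm (differentIdeal (𝓞 K) (𝓞 (L i))) : ℝ) ≤ Y}.ncard : ℝ) / Y) atTop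
      (𝓝 (dedekindZeta_residue K /
        (2 ^ InfinitePlace.nrComplexPlaces K * (dedekindZeta K 2).re))) :=
  extensions_asymptotic L h2 hne hall

/-- Representatives of the quadratic extensions. -/
theorem quadratic_extensions_system_exists (K : Type) [Field K] [NumberField K] :
    ∃ (I : Type) (L : I → Type) (_ : ∀ i, Field (L i)) (_ : ∀ i, NumberField (L i))
      (_ : ∀ i, Algebra K (L i)), (∀ i, finrank K (L i) = 2) ∧
      (∀ i j, Nonempty (L i ≃ₐ[K] L j) → i = j) ∧
      ∀ (M : Type) [Field M] [NumberField M] [Algebra K M], finrank K M = 2 →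
        ∃ i, Nonempty (M ≃ₐ[K] L i) :=
  exists_extensions_system K

/-- Representatives of the quadratic fields. -/
theorem quadratic_fields_system_exists :
    ∃ (J : Type) (k : J → Type) (_ : ∀ j, Field (k j)) (_ : ∀ j, NumberField (k j)),
      (∀ j, finrank ℚ (k j) = 2) ∧ (∀ i j, Nonempty (k i ≃+* k j) → i = j) ∧
      ∀ (F : Type) [Field F] [NumberField F], finrank ℚ F = 2 → ∃ j, Nonempty (F ≃+* k j) :=
  exists_system (fun F _ _ => finrank ℚ F = 2)
    fun _ _ _ _ _ _ ⟨e⟩ h => e.toRatAlgEquiv.toLinearEquiv.finrank_eq.symm.trans h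

/-- Representatives of the non-Galois quartic fields with a quadratic subfield. -/
theorem quartic_dihedral_system_exists :
    ∃ (I : Type) (L : I → Type) (_ : ∀ i, Field (L i)) (_ : ∀ i, NumberField (L i)),
      (∀ i, finrank ℚ (L i) = 4 ∧ (∃ R : IntermediateField ℚ (L i), finrank ℚ R = 2) ∧
        ¬ IsGalois ℚ (L i)) ∧
      (∀ i j, Nonempty (L i ≃+* L j) → i = j) ∧
      ∀ (M : Type) [Field M] [NumberField M], finrank ℚ M = 4 ∧
        (∃ R : IntermediateField ℚ M, finrank ℚ R = 2) ∧ ¬ IsGalois ℚ M →
        ∃ i, Nonempty (M ≃+* L i) :=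
  exists_system (fun F _ _ => finrank ℚ F = 4 ∧
      (∃ R : IntermediateField ℚ F, finrank ℚ R = 2) ∧ ¬ IsGalois ℚ F)
    fun _ _ _ _ _ _ ⟨e⟩ h => ⟨e.toRatAlgEquiv.toLinearEquiv.finrank_eq.symm.trans h.1,
      hasQuad_congr e h.2.1, fun hG => h.2.2 (isGalois_congr e.symm hG)⟩

/-- Representatives of the quartic fields with a quadratic subfield. -/
theorem quartic_with_quadratic_subfield_system_exists :
    ∃ (I : Type) (L : I → Type) (_ : ∀ i, Field (L i)) (_ : ∀ i, NumberField (L i)),
      (∀ i, finrank ℚ (L i) = 4 ∧ ∃ R : IntermediateField ℚ (L i), finrank ℚ R = 2) ∧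
      (∀ i j, Nonempty (L i ≃+* L j) → i = j) ∧
      ∀ (M : Type) [Field M] [NumberField M], finrank ℚ M = 4 ∧
        (∃ R : IntermediateField ℚ M, finrank ℚ R = 2) → ∃ i, Nonempty (M ≃+* L i) :=
  exists_system (fun F _ _ => finrank ℚ F = 4 ∧ ∃ R : IntermediateField ℚ F, finrank ℚ R = 2)
    fun _ _ _ _ _ _ ⟨e⟩ h =>
      ⟨e.toRatAlgEquiv.toLinearEquiv.finrank_eq.symm.trans h.1, hasQuad_congr e h.2⟩

section Quartic

variable (J : Type) (k : J → Type) [∀ j, Field (k j)] [∀ j, NumberField (k j)]
  (hk2 : ∀ j, finrank ℚ (k j) = 2) (hkne : ∀ i j, Nonempty (k i ≃+* k j) → i = j)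
  (hkall : ∀ (F : Type) [Field F] [NumberField F], finrank ℚ F = 2 →
    ∃ j, Nonempty (F ≃+* k j))
  (I : Type) (L : I → Type) [∀ i, Field (L i)] [∀ i, NumberField (L i)]
  (h4 : ∀ i, finrank ℚ (L i) = 4)
  (hquad : ∀ i, ∃ R : IntermediateField ℚ (L i), finrank ℚ R = 2)
  (hne : ∀ i j, Nonempty (L i ≃+* L j) → i = j)

theorem term_eq : (fun j => dedekindZeta_residue (k j) /
      (2 ^ InfinitePlace.nrComplexPlaces (k j) * (dedekindZeta (k j) 2).re) /
      (2 * (discr (k j) : ℝ) ^ 2)) =
    fun j => quadDensity (k j) / (2 * ((discr (k j)).natAbs : ℝ) ^ 2) := by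
  funext j
  rw [← abs_discr_eq, sq_abs]
  rfl

include hk2 hkne hkall h4 hquad hne in
/-- **Non-Galois quartic fields with a quadratic subfield.** -/
theorem quartic_dihedral_asymptotic (hng : ∀ i, ¬ IsGalois ℚ (L i))
    (hall : ∀ (M : Type) [Field M] [NumberField M], finrank ℚ M = 4 →
      (∃ R : IntermediateField ℚ M, finrank ℚ R = 2) → ¬ IsGalois ℚ M →
        ∃ i, Nonempty (M ≃+* L i)) :
    Summable (fun j => dedekindZeta_residue (k j) /
        (2 ^ InfinitePlace.nrComplexPlaces (k j) * (dedekindZeta (k j) 2).re) /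
        (2 * (discr (k j) : ℝ) ^ 2)) ∧
      (0 : ℝ) < ∑' j, dedekindZeta_residue (k j) /
        (2 ^ InfinitePlace.nrComplexPlaces (k j) * (dedekindZeta (k j) 2).re) /
        (2 * (discr (k j) : ℝ) ^ 2) ∧
      Tendsto (fun X : ℝ => ({i | |(discr (L i) : ℝ)| ≤ X}.ncard : ℝ) / X) atTop
        (𝓝 (∑' j, dedekindZeta_residue (k j) /
          (2 ^ InfinitePlace.nrComplexPlaces (k j) * (dedekindZeta (k j) 2).re) /
          (2 * (discr (k j) : ℝ) ^ 2))) := by
  rw [term_eq]
  exact quartic_asymptotic k hk2 hkne hkall L h4 hquad hne hng hall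

include h4 hquad hne in
/-- **The Galois ones.** -/
theorem quartic_galois_negligible (hG : ∀ i, IsGalois ℚ (L i)) :
    Tendsto (fun X : ℝ => ({i | |(discr (L i) : ℝ)| ≤ X}.ncard : ℝ) / X) atTop (𝓝 0) :=
  galois_negligible L h4 hquad hne hG

include hk2 hkne hkall h4 hquad hne in
/-- **All quartic fields with a quadratic subfield.** -/
theorem quartic_with_quadratic_subfield_asymptotic
    (hall : ∀ (M : Type) [Field M] [NumberField M], finrank ℚ M = 4 →
      (∃ R : IntermediateField ℚ M, finrank ℚ R = 2) → ∃ i, Nonempty (M ≃+* L i)) :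
    Tendsto (fun X : ℝ => ({i | |(discr (L i) : ℝ)| ≤ X}.ncard : ℝ) / X) atTop
      (𝓝 (∑' j, dedekindZeta_residue (k j) /
        (2 ^ InfinitePlace.nrComplexPlaces (k j) * (dedekindZeta (k j) 2).re) /
        (2 * (discr (k j) : ℝ) ^ 2))) := by
  rw [term_eq]
  exact quartic_all_asymptotic k hk2 hkne hkall L h4 hquad hne hall

end Quartic

end FA.DihedralQuartic.Summary
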