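import Fermat.Agent.DiophantineInequality.Main

/-!
# The theorem of Davenport and Heilbronn on diophantine inequalities

Let `k ≥ 2`, `s ≥ k (k + 1) + 3`, and `l₁, …, l_s` nonzero real numbers with some ratio irrational.

* `davenport_heilbronn`: if two of them differ in sign then, for every `μ` and `η > 0`, at least
  `c P ^ (s - k)` tuples in `[1, P] ^ s` have `|∑ lᵢ xᵢ ^ k - μ| < η`, for all large `P`;
* `davenport_heilbronn_dense`: so the values of the form at positive integers are dense in `ℝ`;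
* `davenport_heilbronn_odd`: for odd `k` the condition on the signs is not needed with nonzero
  integers in place of positive ones;
* `indefinite_quadratic_small`: an indefinite diagonal quadratic form in nine variables, not a
  multiple of a rational one, takes arbitrarily small values at positive integers.

No asymptotic formula for the count is stated, and the number of variables is not the best known
(Davenport and Heilbronn have `2 ^ k + 1`, better for `k ≤ 4`, in particular five squares).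
-/

set_option autoImplicit false

noncomputable section

namespace FA.DiophantineInequality.Summary

open Finset Filter

variable {k s : ℕ}

/-- **The theorem of Davenport and Heilbronn.** -/
theorem davenport_heilbronn (hk : 2 ≤ k) (hs : k * (k + 1) + 3 ≤ s) {l : Fin s → ℝ}
    (hl : ∀ i, l i ≠ 0) (hirr : ∃ i j, Irrational (l i / l j))
    (hsign : ∃ i j, 0 < l i ∧ l j < 0) (μ : ℝ) {η : ℝ} (hη : 0 < η) :
    ∃ c : ℝ, 0 < c ∧ ∀ᶠ P : ℕ in atTop, c * (P : ℝ) ^ (s - k) ≤
      (((Fintype.piFinset fun _ : Fin s => Icc 1 P).filter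
        fun x => |∑ i, l i * (x i : ℝ) ^ k - μ| < η).card : ℝ) :=
  exists_count_ge hk hl hirr hs hsign μ hη

/-- Every number is approached by values at positive integers. -/
theorem davenport_heilbronn_exists (hk : 2 ≤ k) (hs : k * (k + 1) + 3 ≤ s) {l : Fin s → ℝ}
    (hl : ∀ i, l i ≠ 0) (hirr : ∃ i j, Irrational (l i / l j))
    (hsign : ∃ i j, 0 < l i ∧ l j < 0) (μ : ℝ) {η : ℝ} (hη : 0 < η) :
    ∃ x : Fin s → ℕ, (∀ i, 1 ≤ x i) ∧ |∑ i, l i * (x i : ℝ) ^ k - μ| < η := by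
  obtain ⟨c, hc, h⟩ := davenport_heilbronn hk hs hl hirr hsign μ hη
  obtain ⟨P, hP, hP1⟩ := (h.and (eventually_ge_atTop 1)).exists
  have hpos : 0 < c * (P : ℝ) ^ (s - k) :=
    mul_pos hc (pow_pos (Nat.cast_pos.2 hP1) _)
  obtain ⟨x, hx⟩ := card_pos.1 (Nat.cast_pos.1 (hpos.trans_le hP))
  rw [mem_filter, Fintype.mem_piFinset] at hx
  exact ⟨x, fun i => (mem_Icc.1 (hx.1 i)).1, hx.2⟩

/-- **The values are dense.** -/
theorem davenport_heilbronn_dense (hk : 2 ≤ k) (hs : k * (k + 1) + 3 ≤ s) {l : Fin s → ℝ}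
    (hl : ∀ i, l i ≠ 0) (hirr : ∃ i j, Irrational (l i / l j))
    (hsign : ∃ i j, 0 < l i ∧ l j < 0) :
    Dense {v : ℝ | ∃ x : Fin s → ℕ, (∀ i, 1 ≤ x i) ∧ ∑ i, l i * (x i : ℝ) ^ k = v} := by
  refine Metric.dense_iff.2 fun μ η hη => ?_
  obtain ⟨x, hx, h⟩ := davenport_heilbronn_exists hk hs hl hirr hsign μ hη
  exact ⟨_, by rwa [Metric.mem_ball, Real.dist_eq], x, hx, rfl⟩

/-- **Odd exponents**: no condition on the signs. -/
theorem davenport_heilbronn_odd (hk : 2 ≤ k) (hodd : Odd k) (hs : k * (k + 1) + 3 ≤ s)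
    {l : Fin s → ℝ} (hl : ∀ i, l i ≠ 0) (hirr : ∃ i j, Irrational (l i / l j)) (μ : ℝ) {η : ℝ}
    (hη : 0 < η) :
    ∃ x : Fin s → ℤ, (∀ i, x i ≠ 0) ∧ |∑ i, l i * (x i : ℝ) ^ k - μ| < η := by
  obtain ⟨a, ha⟩ : ∃ a : Fin s, (a : ℕ) = 0 := ⟨⟨0, by omega⟩, rfl⟩
  obtain ⟨σ, hσ⟩ : ∃ σ : Fin s → ℤ, σ = fun i =>
      if i = a then (if 0 < l i then 1 else -1) else (if 0 < l i then -1 else 1) := ⟨_, rfl⟩
  have hσ1 : ∀ i, σ i = 1 ∨ σ i = -1 := fun i => by
    simp only [hσ]
    split_ifs <;> simp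
  have hpow : ∀ i, ((σ i : ℝ)) ^ k = (σ i : ℝ) := fun i => by
    rcases hσ1 i with h | h <;> simp [h, hodd.neg_one_pow]
  have hl' : ∀ i, (σ i : ℝ) * l i ≠ 0 := fun i => by
    rcases hσ1 i with h | h <;> simp [h, hl i]
  have hirr' : ∃ i j, Irrational ((σ i : ℝ) * l i / ((σ j : ℝ) * l j)) := by
    obtain ⟨i, j, hij⟩ := hirr
    refine ⟨i, j, ?_⟩
    rcases hσ1 i with h | h <;> rcases hσ1 j with h' | h' <;>
      simp [h, h', neg_div, div_neg, hij, hij.neg]
  have hsign : ∃ i j, 0 < (σ i : ℝ) * l i ∧ (σ j : ℝ) * l j < 0 := by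
    obtain ⟨b, hb⟩ : ∃ b : Fin s, (b : ℕ) = 1 := ⟨⟨1, by omega⟩, rfl⟩
    have hab : b ≠ a := fun h => by rw [h] at hb; omega
    refine ⟨a, b, ?_, ?_⟩
    · rcases lt_or_gt_of_ne (hl a) with h | h
      · simp [hσ, h.le.not_gt, h]
      · simp [hσ, h]
    · rcases lt_or_gt_of_ne (hl b) with h | h
      · simp [hσ, hab, h.le.not_gt, h]
      · simp [hσ, hab, h]
  obtain ⟨x, hx, h⟩ := davenport_heilbronn_exists hk hs hl' hirr' hsign μ hη
  refine ⟨fun i => σ i * x i, fun i => ?_, ?_⟩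
  · refine mul_ne_zero (fun h0 => ?_) (Int.natCast_ne_zero.2 (by have := hx i; omega))
    rcases hσ1 i with h | h <;> omega
  · convert h using 4 with i
    push_cast
    rw [mul_pow, hpow]
    ring

/-- **Indefinite diagonal quadratic forms in nine variables.** -/
theorem indefinite_quadratic_small {l : Fin 9 → ℝ} (hl : ∀ i, l i ≠ 0)
    (hirr : ∃ i j, Irrational (l i / l j)) (hsign : ∃ i j, 0 < l i ∧ l j < 0) {ε : ℝ}
    (hε : 0 < ε) : ∃ x : Fin 9 → ℕ, (∀ i, 1 ≤ x i) ∧ |∑ i, l i * (x i : ℝ) ^ 2| < ε := by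
  obtain ⟨x, hx, h⟩ :=
    davenport_heilbronn_exists le_rfl (by norm_num) hl hirr hsign 0 hε
  exact ⟨x, hx, by rwa [sub_zero] at h⟩

end FA.DiophantineInequality.Summary
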