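import Fermat.Agent.ArtinL.BiquadraticUnits

/-!
# Class numbers of biquadratic fields

* `kuroda_totallyReal`: for a totally real biquadratic field with quadratic subfields `k₁, k₂, k₃`,
  `4 h = Q h₁ h₂ h₃`, `Q ≠ 0` the index of the group generated by their units;
* `dirichlet_totallyComplex`: for a totally complex one with imaginary subfields `k₁, k₂` and
  maximal real subfield of class number `h⁺`, `w₁ w₂ h = w q h⁺ h₁ h₂`, `q ∈ {1, 2}` the index of
  the real units and roots of unity;
* `biquadratic_isCMField`: its hypotheses hold in every totally complex biquadratic field.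

The indices are not evaluated and no particular field is treated.
-/

set_option autoImplicit false
set_option linter.style.haveILetI false
set_option linter.unusedSectionVars false

noncomputable section

open NumberField Module FA.ArtinL

namespace FA.Summary

variable (L : Type*) [Field L] [NumberField L] [IsGalois ℚ L] [IsKleinFour (L ≃ₐ[ℚ] L)]

/-- **Kuroda's formula for a totally real biquadratic field.** -/
theorem kuroda_totallyReal [IsTotallyReal L] {a b : L ≃ₐ[ℚ] L} (ha : a ≠ 1) (hb : b ≠ 1)
    (hab : a ≠ b) :
    (BiquadraticUnits.quadraticUnits a b).index ≠ 0 ∧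
    4 * classNumber L = (BiquadraticUnits.quadraticUnits a b).index *
      (classNumber (IntermediateField.fixedField (Subgroup.zpowers a)) *
        classNumber (IntermediateField.fixedField (Subgroup.zpowers b)) *
        classNumber (IntermediateField.fixedField (Subgroup.zpowers (a * b)))) := by
  obtain ⟨hne, hidx⟩ := BiquadraticUnits.four_mul_regulators ha hb hab
  refine ⟨hne, ?_⟩
  have h := kuroda_rat L ha hb hab
  simp only [BiquadraticUnits.torsionOrder_eq_two] at h
  have hR := Units.regulator_ne_zero L
  rw [← Nat.cast_inj (R := ℝ)]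
  push_cast at h ⊢
  refine mul_right_cancel₀ hR ?_
  field_simp at h
  linear_combination h -
    ((classNumber (IntermediateField.fixedField (Subgroup.zpowers a)) : ℝ) *
      classNumber (IntermediateField.fixedField (Subgroup.zpowers b)) *
      classNumber (IntermediateField.fixedField (Subgroup.zpowers (a * b)))) * hidx

/-- The class numbers of the subfields of a totally real biquadratic field. -/
theorem classNumber_dvd_four_mul [IsTotallyReal L] {a b : L ≃ₐ[ℚ] L} (ha : a ≠ 1) (hb : b ≠ 1)
    (hab : a ≠ b) :
    classNumber (IntermediateField.fixedField (Subgroup.zpowers a)) *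
        classNumber (IntermediateField.fixedField (Subgroup.zpowers b)) *
        classNumber (IntermediateField.fixedField (Subgroup.zpowers (a * b))) ∣
      4 * classNumber L :=
  Dvd.intro_left _ (kuroda_totallyReal L ha hb hab).2.symm

/-- **Dirichlet's formula for a totally complex biquadratic field.** -/
theorem dirichlet_totallyComplex [IsTotallyComplex L] [IsCMField L] {a b : L ≃ₐ[ℚ] L} (ha : a ≠ 1)
    (hb : b ≠ 1) (hab : a ≠ b) (φ : L →+* ℂ)
    (hc : ∀ x, φ ((a * b) x) = (starRingEnd ℂ) (φ x)) :
    (IsCMField.indexRealUnits L = 1 ∨ IsCMField.indexRealUnits L = 2) ∧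
    Units.torsionOrder (IntermediateField.fixedField (Subgroup.zpowers a)) *
        Units.torsionOrder (IntermediateField.fixedField (Subgroup.zpowers b)) * classNumber L =
      Units.torsionOrder L * IsCMField.indexRealUnits L *
        (classNumber (maximalRealSubfield L) *
          classNumber (IntermediateField.fixedField (Subgroup.zpowers a)) *
          classNumber (IntermediateField.fixedField (Subgroup.zpowers b))) := by
  have hq := IsCMField.indexRealUnits_eq_one_or_two L
  refine ⟨hq, ?_⟩
  have h1 : a * b ≠ a := fun h => hb (by simpa using h)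
  have h2 : a * b ≠ b := fun h => ha (by simpa using h)
  have h := kuroda_rat L ha hb hab
  rw [BiquadraticUnits.imaginary_fixedField ha h1 φ hc,
    BiquadraticUnits.imaginary_fixedField hb h2 φ hc,
    BiquadraticUnits.hRwd_real_subfield φ hc] at h
  have hreg := IsCMField.regulator_div_regulator_eq_two_pow_mul_indexRealUnits_inv L
  rw [BiquadraticUnits.rank_eq_one, pow_one] at hreg
  have hq0 : (IsCMField.indexRealUnits L : ℝ) ≠ 0 := by rcases hq with e | e <;> rw [e] <;> norm_num
  have hR := Units.regulator_ne_zero (maximalRealSubfield L)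
  have hw := (Nat.cast_ne_zero (R := ℝ)).2 (Units.torsionOrder_ne_zero L)
  have hwa := (Nat.cast_ne_zero (R := ℝ)).2
    (Units.torsionOrder_ne_zero (IntermediateField.fixedField (Subgroup.zpowers a)))
  have hwb := (Nat.cast_ne_zero (R := ℝ)).2
    (Units.torsionOrder_ne_zero (IntermediateField.fixedField (Subgroup.zpowers b)))
  rw [div_eq_iff hR] at hreg
  rw [hreg] at h
  rw [← Nat.cast_inj (R := ℝ)]
  push_cast
  refine mul_right_cancel₀ hR ?_
  field_simp at h
  linear_combination (Units.regulator (maximalRealSubfield L) / 4) * h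

/-- **A totally complex biquadratic field has the data of `dirichlet_totallyComplex`.** -/
theorem biquadratic_isCMField [IsTotallyComplex L] :
    IsCMField L ∧ ∀ φ : L →+* ℂ, ∃ a b : L ≃ₐ[ℚ] L, a ≠ 1 ∧ b ≠ 1 ∧ a ≠ b ∧
      ∀ x, φ ((a * b) x) = (starRingEnd ℂ) (φ x) := by
  haveI : IsMulCommutative (L ≃ₐ[ℚ] L) := IsKleinFour.isMulCommutative
  haveI : IsAbelianGalois ℚ L := ⟨⟩
  refine ⟨inferInstance, fun φ => ?_⟩
  obtain ⟨c, hc⟩ := exists_aut ℚ L φ ((starRingEnd ℂ).comp φ) (RingHom.ext fun q => by simp)
  have hc1 : c ≠ 1 := fun h => IsTotallyComplex.complexEmbedding_not_isReal φ (by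
    rw [ComplexEmbedding.isReal_iff]
    exact RingHom.ext fun x => (hc x).trans (by rw [h]; rfl))
  classical
  obtain ⟨a, ha, hac⟩ : ∃ a : L ≃ₐ[ℚ] L, a ≠ 1 ∧ a ≠ c := by
    by_contra hcon
    push Not at hcon
    have hle : (Finset.univ : Finset (L ≃ₐ[ℚ] L)) ⊆ {1, c} := fun v _ => by
      by_cases hv : v = 1
      · simp [hv]
      · simp [hcon v hv]
    have := (Finset.card_le_card hle).trans Finset.card_le_two
    rw [Finset.card_univ, ← Nat.card_eq_fintype_card, IsKleinFour.card_four] at this
    omega
  refine ⟨a, a * c, ha, mul_ne_one_klein hac, fun h => hc1 (by simpa using h), fun x => ?_⟩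
  rw [← mul_assoc, IsKleinFour.mul_self, one_mul]
  exact (hc x).symm

end FA.Summary

end
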