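import Fermat.Agent.DirichletHadamard.Product
import Fermat.Agent.DirichletHadamard.Criteria

/-!
# Hadamard's product for Dirichlet L-functions, `re B (χ)` and criteria for its Riemann hypothesis

For primitive `χ ≠ 1` with completed function `Λ (s, χ)`, `ξ (s, χ) = q ^ (s/2) Λ (s, χ)`, and the
zeros `ρ` with multiplicities `m`: `Λ s = Λ 0 · exp (B₀ s) ∏ ((1 - s/ρ) exp (s/ρ)) ^ m`,
`B₀ = Λ'/Λ 0`, with `re B₀ + log q / 2 = -∑ m re (1/ρ)`; `re (ξ'/ξ) s = ∑ m re (1/(s - ρ))`; the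
Riemann hypothesis for `L (s, χ)` is the positivity of this on `re s > 1/2`, and the strict growth
of `|ξ|` there.

Li's coefficients and bounds uniform in `q` are not claimed.
-/

set_option autoImplicit false

noncomputable section

namespace FA.DirichletHadamard.Summary

open Complex Filter Topology FA.DirichletZeroCount FA.DirichletLandau
open DirichletCharacter (LFunction completedLFunction)
open scoped Real

variable {q : ℕ} [NeZero q] {χ : DirichletCharacter ℂ q}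

/-- The multiplicity is the order of vanishing, supported on the nontrivial zeros of `L (s, χ)`. -/
theorem multiplicity_spec (hp : χ.IsPrimitive) (hχ : χ ≠ 1) (ρ : ℂ) :
    (lMult χ ρ = analyticOrderNatAt (completedLFunction χ) ρ) ∧
      (lMult χ ρ ≠ 0 ↔ LFunction χ ρ = 0 ∧ 0 < ρ.re ∧ ρ.re < 1) ∧
      (0 < ρ.re → lMult χ ρ = analyticOrderNatAt (LFunction χ) ρ) ∧
      {ρ : ℂ | lMult χ ρ ≠ 0}.Infinite := by
  have key : ∀ z : ℂ, lMult χ z ≠ 0 ↔ LFunction χ z = 0 ∧ 0 < z.re ∧ z.re < 1 := fun z => by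
    rw [← Nat.pos_iff_ne_zero, lMult_pos_iff hχ]
    constructor
    · intro h
      have h' := (mem_lZeros_iff hp hχ (T := |z.im|)).2 ⟨h, le_rfl⟩
      exact ⟨h'.1, h'.2.1, h'.2.2.1⟩
    · rintro ⟨h, h0, -⟩
      rw [completed_eq_mul hχ h0, h, mul_zero]
  refine ⟨rfl, key ρ, fun h => lMult_eq_order hχ h, ?_⟩
  simp only [key]
  exact infinite_lZeros hp hχ

/-- **The partial fractions of `Λ'/Λ`.** -/
theorem partial_fractions (hp : χ.IsPrimitive) (hχ : χ ≠ 1) {s : ℂ}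
    (hs : completedLFunction χ s ≠ 0) :
    (Summable fun ρ : ℂ => ‖(lMult χ ρ : ℂ) * ((s - ρ)⁻¹ + ρ⁻¹)‖) ∧
      HasSum (fun ρ : ℂ => (lMult χ ρ : ℂ) * ((s - ρ)⁻¹ + ρ⁻¹))
        (deriv (completedLFunction χ) s / completedLFunction χ s -
          deriv (completedLFunction χ) 0 / completedLFunction χ 0) :=
  ⟨summable_norm_pTerm hp hχ s, hasSum_pTerm hp hχ hs⟩

/-- **Hadamard's product.** -/
theorem hadamard_product (hp : χ.IsPrimitive) (hχ : χ ≠ 1) (s : ℂ) :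
    completedLFunction χ 0 ≠ 0 ∧
      Multipliable (fun ρ : {ρ : ℂ // lMult χ ρ ≠ 0} =>
        ((1 - s / (ρ : ℂ)) * cexp (s / (ρ : ℂ))) ^ lMult χ (ρ : ℂ)) ∧
      completedLFunction χ s = completedLFunction χ 0 *
        cexp (deriv (completedLFunction χ) 0 / completedLFunction χ 0 * s) *
          ∏' ρ : {ρ : ℂ // lMult χ ρ ≠ 0},
            ((1 - s / (ρ : ℂ)) * cexp (s / (ρ : ℂ))) ^ lMult χ (ρ : ℂ) :=
  ⟨completed_zero_ne hp hχ, (hasProd_zeroFactor hp hχ s).multipliable,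
    completed_eq_product hp hχ s⟩

/-- **`re B (χ) = -∑ re (1/ρ)`.** -/
theorem re_B (hp : χ.IsPrimitive) (hχ : χ ≠ 1) :
    HasSum (fun ρ : ℂ => (lMult χ ρ : ℝ) * (ρ⁻¹).re)
      (-(Real.log q / 2 + (deriv (completedLFunction χ) 0 / completedLFunction χ 0).re)) := by
  have h := (summable_re_inv hp hχ).hasSum
  rw [tsum_re_inv hp hχ] at h
  exact h

/-- **The closed form**, with `a = 0` for even and `1` for odd characters. -/
theorem sum_re_inv_zeros (hp : χ.IsPrimitive) (hχ : χ ≠ 1) :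
    HasSum (fun ρ : ℂ => (lMult χ ρ : ℝ) * (ρ⁻¹).re)
      (Real.log (q / π) / 2 +
        (deriv Complex.Gamma ((1 + ((if χ (-1) = 1 then 0 else 1 : ℝ) : ℂ)) / 2) /
          Complex.Gamma ((1 + ((if χ (-1) = 1 then 0 else 1 : ℝ) : ℂ)) / 2)).re / 2 +
        (deriv (LFunction χ) 1 / LFunction χ 1).re) := by
  have h := (summable_re_inv hp hχ).hasSum
  rw [tsum_re_inv_closed hp hχ] at h
  exact h

/-- **`re (ξ'/ξ) = ∑ m re (1/(s - ρ))`.** -/
theorem re_xi_logDeriv (hp : χ.IsPrimitive) (hχ : χ ≠ 1) {s : ℂ}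
    (hs : completedLFunction χ s ≠ 0) :
    HasSum (fun ρ : ℂ => (lMult χ ρ : ℝ) * ((s - ρ)⁻¹).re)
      (deriv (fun z : ℂ => (q : ℂ) ^ (z / 2) * completedLFunction χ z) s /
        ((q : ℂ) ^ (s / 2) * completedLFunction χ s)).re :=
  hasSum_xiLLog hp hχ hs

/-- **Unconditionally `|ξ|` increases strictly on `re s ≥ 1`.** -/
theorem norm_xi_strictMono (hp : χ.IsPrimitive) (hχ : χ ≠ 1) (t : ℝ) :
    StrictMonoOn (fun σ : ℝ => ‖(q : ℂ) ^ (((σ : ℂ) + t * I) / 2) *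
      completedLFunction χ ((σ : ℂ) + t * I)‖) (Set.Ici 1) :=
  normIncreasing_one hp hχ t

/-- **The Riemann hypothesis for `L (s, χ)` as a positivity.** -/
theorem grh_iff_re_pos (hp : χ.IsPrimitive) (hχ : χ ≠ 1) :
    (∀ ρ : ℂ, LFunction χ ρ = 0 → 0 < ρ.re → ρ.re < 1 → ρ.re = 1 / 2) ↔
      ∀ s : ℂ, 1 / 2 < s.re → 0 < (deriv (fun z : ℂ => (q : ℂ) ^ (z / 2) *
        completedLFunction χ z) s / ((q : ℂ) ^ (s / 2) * completedLFunction χ s)).re :=
  ⟨rePositive_of_grh hp hχ,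
    fun h => grh_of_normIncreasing hp hχ (normIncreasing_half_of_rePositive hχ h)⟩

/-- **The Riemann hypothesis for `L (s, χ)` as the growth of `|ξ|`.** -/
theorem grh_iff_norm_strictMono (hp : χ.IsPrimitive) (hχ : χ ≠ 1) :
    (∀ ρ : ℂ, LFunction χ ρ = 0 → 0 < ρ.re → ρ.re < 1 → ρ.re = 1 / 2) ↔
      ∀ t : ℝ, StrictMonoOn (fun σ : ℝ => ‖(q : ℂ) ^ (((σ : ℂ) + t * I) / 2) *
        completedLFunction χ ((σ : ℂ) + t * I)‖) (Set.Ici (1 / 2)) :=
  ⟨fun h => normIncreasing_half_of_rePositive hχ (rePositive_of_grh hp hχ h),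
    grh_of_normIncreasing hp hχ⟩

/-- **The zeros of `ξ'`**: in the open strip, and on the line under the Riemann hypothesis. -/
theorem deriv_xi_zeros (hp : χ.IsPrimitive) (hχ : χ ≠ 1) {s : ℂ}
    (h : deriv (fun z : ℂ => (q : ℂ) ^ (z / 2) * completedLFunction χ z) s = 0) :
    (0 < s.re ∧ s.re < 1) ∧
      ((∀ ρ : ℂ, LFunction χ ρ = 0 → 0 < ρ.re → ρ.re < 1 → ρ.re = 1 / 2) → s.re = 1 / 2) :=
  ⟨deriv_xiL_zero_strip hp hχ h, fun hG => deriv_xiL_zero_line hp hχ hG h⟩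

end FA.DirichletHadamard.Summary

end
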