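import Fermat.Agent.EulerFraction.Exponent

/-!
# The continued fraction of `e`

* `euler_e_fraction` (Euler): `e = [2; 1, 2, 1, 1, 4, 1, 1, 6, 1, …]`;
* `euler_e_not_quadratic`: hence `e` is no root of an integral quadratic;
* `euler_e_effective_bound`: `|e - p / q| ≥ 1 / (4 q ² (2 log₂ q + 5))`;
* `euler_e_irrationality_exponent`: the irrationality exponent of `e` is two;
* `badly_approximable_iff_bounded_digits`, and `euler_e_not_badly_approximable`.
-/

set_option autoImplicit false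

noncomputable section

open GenContFract FA.PeriodicFractions FA.EulerFraction

namespace FA.Summary

/-- **Euler's continued fraction of `e`.** -/
theorem euler_e_fraction :
    (GenContFract.of (Real.exp 1)).h = 2 ∧ ∀ m : ℕ,
      (GenContFract.of (Real.exp 1)).s.get? (3 * m) = some ⟨1, 1⟩ ∧
      (GenContFract.of (Real.exp 1)).s.get? (3 * m + 1) = some ⟨1, 2 * ((m : ℝ) + 1)⟩ ∧
      (GenContFract.of (Real.exp 1)).s.get? (3 * m + 2) = some ⟨1, 1⟩ := by
  refine ⟨by rw [digit_zero, digit_exp_one.1, Int.cast_ofNat], fun m => ?_⟩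
  obtain ⟨h1, h2, h3⟩ := digit_exp_one.2 m
  simp [get?_of irrational_exp_one, h1, h2, h3]

/-- **`e` is no quadratic irrational.** -/
theorem euler_e_not_quadratic {a b c : ℤ} (ha : a ≠ 0) :
    (a : ℝ) * Real.exp 1 ^ 2 + b * Real.exp 1 + c ≠ 0 := fun h =>
  not_quadratic_exp_one ⟨irrational_exp_one, a, b, c, ha, h⟩

/-- **An effective bound for the rational approximations of `e`.** -/
theorem euler_e_effective_bound (p : ℤ) {q : ℕ} (hq : 0 < q) :
    1 / (4 * (q : ℝ) ^ 2 * (2 * Nat.log 2 q + 5)) ≤ |Real.exp 1 - p / q| :=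
  exp_one_bound hq p

/-- **The irrationality exponent of `e` is two.** -/
theorem euler_e_irrationality_exponent :
    LiouvilleWith 2 (Real.exp 1) ∧ ∀ r : ℝ, 2 < r → ¬LiouvilleWith r (Real.exp 1) :=
  ⟨liouvilleWith_two irrational_exp_one, fun _ => not_liouvilleWith_exp_one⟩

/-- **Badly approximable numbers.** -/
theorem badly_approximable_iff_bounded_digits {x : ℝ} (hx : Irrational x) :
    (∃ C : ℝ, 0 < C ∧ ∀ (p : ℤ) (q : ℕ), 0 < q → C / (q : ℝ) ^ 2 ≤ |x - p / q|) ↔
      ∃ M : ℝ, ∀ n a, (GenContFract.of x).s.get? n = some a → a.b ≤ M := by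
  simp only [badly_approximable_iff hx, get?_of hx, Option.some.injEq, forall_eq']
  exact ⟨fun ⟨M, h⟩ => ⟨M, fun n => Int.cast_le.2 (h n)⟩,
    fun ⟨M, h⟩ => ⟨⌊M⌋, fun n => Int.le_floor.2 (h n)⟩⟩

/-- **`e` is not badly approximable.** -/
theorem euler_e_not_badly_approximable {C : ℝ} (hC : 0 < C) :
    ∃ (p : ℤ) (q : ℕ), 0 < q ∧ |Real.exp 1 - p / q| < C / (q : ℝ) ^ 2 := by
  by_contra! h
  obtain ⟨M, hM⟩ := (badly_approximable_iff irrational_exp_one).1 ⟨C, hC, h⟩
  have := hM (3 * M.toNat + 1)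
  rw [(digit_exp_one.2 _).2.1] at this
  omega

end FA.Summary

end
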