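import Fermat.Agent.Khintchine.Main
import Mathlib.Analysis.PSeries

/-!
# Metric approximation: Khintchine, Duffin and Schaeffer

For antitone `ψ ≥ 0` almost every real has infinitely many reduced `p / q` with
`|x - p / q| < ψ q / q` if `∑ ψ q` diverges, and only finitely many `p / q` if it converges; the
first half needs no monotonicity when `∑ φ q ψ q / q` is not negligible against `∑ ψ q`.
-/

set_option autoImplicit false

noncomputable section

open MeasureTheory Filter Finset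

namespace FA.Khintchine.Summary

/-- **Khintchine's theorem**, divergence. -/
theorem khintchine_divergence {ψ : ℕ → ℝ} (h0 : ∀ q, 0 ≤ ψ q)
    (hmono : ∀ q r, 1 ≤ q → q ≤ r → ψ r ≤ ψ q) (hdiv : ¬ Summable ψ) :
    ∀ᵐ x : ℝ, {q : ℕ | ∃ p : ℤ, Int.gcd p q = 1 ∧ |x - p / q| < ψ q / q}.Infinite :=
  khintchine_divergence_real h0 hmono hdiv

/-- **Khintchine's theorem**, convergence. -/
theorem khintchine_convergence {ψ : ℕ → ℝ} (h0 : ∀ q, 0 ≤ ψ q) (hs : Summable ψ) :
    ∀ᵐ x : ℝ, {a : ℤ × ℕ | 0 < a.2 ∧ |x - a.1 / a.2| < ψ a.2 / a.2}.Finite :=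
  khintchine_convergence_real h0 hs

/-- **The theorem of Duffin and Schaeffer.** -/
theorem duffin_schaeffer {ψ : ℕ → ℝ} (h0 : ∀ q, 0 ≤ ψ q) (h1 : ∀ q, ψ q ≤ 1 / 2)
    (hdiv : ¬ Summable ψ) {κ : ℝ} (hκ : 0 < κ)
    (hratio : ∃ᶠ N : ℕ in atTop,
      κ * ∑ q ∈ range N, ψ q ≤ ∑ q ∈ range N, (q.totient : ℝ) * ψ q / q) :
    ∀ᵐ x : ℝ, {q : ℕ | ∃ p : ℤ, Int.gcd p q = 1 ∧ |x - p / q| < ψ q / q}.Infinite :=
  duffin_schaeffer_real h0 h1 ((not_summable_iff_tendsto_nat_atTop_of_nonneg h0).1 hdiv) hκ hratio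

/-- **Badly approximable numbers are null.** -/
theorem badly_approximable_null :
    ∀ᵐ x : ℝ, ¬ ∃ c : ℝ, 0 < c ∧
      ∀ (p : ℤ) (q : ℕ), 0 < q → c / (q : ℝ) ^ 2 ≤ |x - p / q| := by
  have h : ∀ k : ℕ, ∀ᵐ x : ℝ,
      {q : ℕ | ∃ p : ℤ, Int.gcd p q = 1 ∧
        |x - p / q| < 1 / ((k + 1 : ℝ) * q) / q}.Infinite := by
    intro k
    refine khintchine_divergence (ψ := fun q : ℕ => 1 / ((k + 1 : ℝ) * q))
      (fun q => by positivity) (fun q r hq hqr => ?_) (fun hs => ?_)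
    · have hq' : (0 : ℝ) < q := by exact_mod_cast hq
      exact one_div_le_one_div_of_le (by positivity)
        (mul_le_mul_of_nonneg_left (by exact_mod_cast hqr) (by positivity))
    · refine Real.not_summable_one_div_natCast ((hs.mul_left (k + 1 : ℝ)).congr fun q => ?_)
      field_simp
  filter_upwards [ae_all_iff.2 h] with x hx ⟨c, hc, hall⟩
  obtain ⟨k, hk⟩ := exists_nat_one_div_lt hc
  obtain ⟨q, hq, hq0⟩ := ((hx k).sdiff (Set.finite_singleton 0)).nonempty
  obtain ⟨p, -, hlt⟩ := hq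
  have hqpos : (0 : ℝ) < q := by exact_mod_cast Nat.pos_of_ne_zero hq0
  have := (hall p q (Nat.pos_of_ne_zero hq0)).trans hlt.le
  rw [div_div, mul_assoc, ← sq, div_le_div_iff₀ (by positivity) (by positivity)] at this
  rw [div_lt_iff₀ (by positivity)] at hk
  nlinarith [pow_pos hqpos 2]

/-- Almost every real has infinitely many approximations within `1 / (q ^ 2 log q)`. -/
theorem infinite_approximations_log :
    ∀ᵐ x : ℝ, {q : ℕ | ∃ p : ℤ, Int.gcd p q = 1 ∧
      |x - p / q| < 1 / ((q : ℝ) ^ 2 * Real.log q)}.Infinite := by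
  obtain ⟨ψ, hψ⟩ : ∃ ψ : ℕ → ℝ,
      ψ = fun q => 1 / (((max q 2 : ℕ) : ℝ) * Real.log (max q 2 : ℕ)) := ⟨_, rfl⟩
  have hpos : ∀ q : ℕ, 0 < ((max q 2 : ℕ) : ℝ) * Real.log (max q 2 : ℕ) := fun q =>
    mul_pos (by exact_mod_cast (show 0 < max q 2 by omega))
      (Real.log_pos (by exact_mod_cast (show 1 < max q 2 by omega)))
  have hmono : ∀ ⦃m n : ℕ⦄, m ≤ n → ψ n ≤ ψ m := fun m n hmn => by
    simp only [hψ]
    have h2 : ((max m 2 : ℕ) : ℝ) ≤ (max n 2 : ℕ) := by exact_mod_cast max_le_max hmn le_rfl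
    exact one_div_le_one_div_of_le (hpos m) (mul_le_mul h2
      (Real.log_le_log (by exact_mod_cast (show 0 < max m 2 by omega)) h2)
      (Real.log_natCast_nonneg _) (Nat.cast_nonneg _))
  have h0 : ∀ q, 0 ≤ ψ q := fun q => by simp only [hψ]; exact (one_div_pos.2 (hpos q)).le
  have hdiv : ¬ Summable ψ := by
    intro hs
    have hc := (summable_nat_add_iff 1).2
      ((summable_condensed_iff_of_nonneg h0 fun m n _ => @hmono m n).2 hs)
    refine Real.not_summable_one_div_natCast ((summable_nat_add_iff 1).1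
      ((hc.mul_left (Real.log 2)).congr fun k => ?_))
    have h2 : max (2 ^ (k + 1)) 2 = 2 ^ (k + 1) := max_eq_left (Nat.le_self_pow (by omega) 2)
    have hl : Real.log 2 ≠ 0 := (Real.log_pos one_lt_two).ne'
    simp only [hψ, h2]
    push_cast
    rw [Real.log_pow]
    push_cast
    field_simp
  filter_upwards [khintchine_divergence h0 (fun q r _ h => hmono h) hdiv] with x hx
  refine (hx.sdiff (Set.finite_Iio 2)).mono fun q hq => ?_
  obtain ⟨⟨p, hp, hlt⟩, hq2⟩ := hq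
  simp only [Set.mem_Iio, not_lt] at hq2
  refine ⟨p, hp, hlt.trans_le (le_of_eq ?_)⟩
  simp only [hψ, max_eq_left hq2]
  rw [div_div]
  ring

/-- Almost every real has finitely many approximations within `1 / (q ^ 2 (log q) ^ 2)`. -/
theorem finite_approximations_log_sq :
    ∀ᵐ x : ℝ, {a : ℤ × ℕ | 2 ≤ a.2 ∧
      |x - a.1 / a.2| < 1 / ((a.2 : ℝ) ^ 2 * Real.log a.2 ^ 2)}.Finite := by
  obtain ⟨ψ, hψ⟩ : ∃ ψ : ℕ → ℝ,
      ψ = fun q => 1 / (((max q 2 : ℕ) : ℝ) * Real.log (max q 2 : ℕ) ^ 2) := ⟨_, rfl⟩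
  have hpos : ∀ q : ℕ, 0 < ((max q 2 : ℕ) : ℝ) * Real.log (max q 2 : ℕ) ^ 2 := fun q =>
    mul_pos (by exact_mod_cast (show 0 < max q 2 by omega))
      (pow_pos (Real.log_pos (by exact_mod_cast (show 1 < max q 2 by omega))) 2)
  have hmono : ∀ ⦃m n : ℕ⦄, 0 < m → m ≤ n → ψ n ≤ ψ m := fun m n _ hmn => by
    simp only [hψ]
    have h2 : ((max m 2 : ℕ) : ℝ) ≤ (max n 2 : ℕ) := by exact_mod_cast max_le_max hmn le_rfl
    exact one_div_le_one_div_of_le (hpos m) (mul_le_mul h2 (pow_le_pow_left₀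
      (Real.log_natCast_nonneg _) (Real.log_le_log
        (by exact_mod_cast (show 0 < max m 2 by omega)) h2) 2)
      (sq_nonneg _) (Nat.cast_nonneg _))
  have h0 : ∀ q, 0 ≤ ψ q := fun q => by simp only [hψ]; exact (one_div_pos.2 (hpos q)).le
  have hs : Summable ψ := by
    rw [← summable_condensed_iff_of_nonneg h0 hmono, ← summable_nat_add_iff 1]
    refine (((summable_nat_add_iff 1).2 (Real.summable_one_div_nat_pow.2 one_lt_two)).mul_left
      (1 / Real.log 2 ^ 2)).congr fun k => ?_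
    have h2 : max (2 ^ (k + 1)) 2 = 2 ^ (k + 1) := max_eq_left (Nat.le_self_pow (by omega) 2)
    have hl : Real.log 2 ≠ 0 := (Real.log_pos one_lt_two).ne'
    simp only [hψ, h2]
    push_cast
    rw [Real.log_pow]
    push_cast
    field_simp
  filter_upwards [khintchine_convergence h0 hs] with x hx
  refine hx.subset fun a ha => ?_
  obtain ⟨hq, hlt⟩ := ha
  refine ⟨by omega, hlt.trans_le (le_of_eq ?_)⟩
  simp only [hψ, max_eq_left hq]
  rw [div_div]
  ring

/-- **Almost no number is very well approximable.** -/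
theorem finite_approximations_rpow {ν : ℝ} (hν : 2 < ν) :
    ∀ᵐ x : ℝ, {a : ℤ × ℕ | 0 < a.2 ∧ |x - a.1 / a.2| < 1 / (a.2 : ℝ) ^ ν}.Finite := by
  filter_upwards [khintchine_convergence (ψ := fun q : ℕ => 1 / (q : ℝ) ^ (ν - 1))
    (fun q => by positivity)
    (Real.summable_one_div_nat_rpow.2 (by linarith))] with x hx
  refine hx.subset fun a ha => ⟨ha.1, ha.2.trans_le (le_of_eq ?_)⟩
  have hq : (0 : ℝ) < a.2 := by exact_mod_cast ha.1
  rw [div_div, ← Real.rpow_add_one hq.ne', sub_add_cancel]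

end FA.Khintchine.Summary
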