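import Fermat.Agent.PeriodicFractions.Lagrange

/-!
# Periodic continued fractions

* `lagrange_periodic_fraction` (Lagrange): the continued fraction of an irrational number is
  periodic from some term on iff the number is a root of an integral quadratic;
* `galois_purely_periodic` (Galois): it is periodic from the first term, the integral part included,
  iff the number exceeds one and its conjugate lies between `-1` and `0`;
* `quadratic_badly_approximable`: then `|x - p / q| ≥ C / q ²` for all `p`, `q`.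
-/

set_option autoImplicit false

noncomputable section

open GenContFract FA.PeriodicFractions

namespace FA.Summary

/-- **Lagrange's theorem.** -/
theorem lagrange_periodic_fraction {x : ℝ} (hx : Irrational x) :
    (∃ N k, 0 < k ∧ ∀ n, N ≤ n →
        (GenContFract.of x).s.get? (n + k) = (GenContFract.of x).s.get? n) ↔
      ∃ a b c : ℤ, a ≠ 0 ∧ (a : ℝ) * x ^ 2 + b * x + c = 0 := by
  have he : ∀ i j, (GenContFract.of x).s.get? i = (GenContFract.of x).s.get? j ↔
      digit x (i + 1) = digit x (j + 1) := fun i j => by simp [get?_of hx]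
  simp only [he]
  refine Iff.trans ?_ ((periodic_iff hx).trans (and_iff_right hx))
  refine ⟨fun ⟨N, k, hk, h⟩ => ⟨N + 1, k, hk, fun n hn => ?_⟩,
    fun ⟨N, k, hk, h⟩ => ⟨N, k, hk, fun n hn => ?_⟩⟩
  · obtain ⟨m, rfl⟩ : ∃ m, n = m + 1 := ⟨n - 1, by omega⟩
    rw [Nat.add_right_comm]
    exact h m (by omega)
  · rw [Nat.add_right_comm]
    exact h (n + 1) (by omega)

/-- **Galois's theorem.** The `n`-th digit: the integral part, then the terms of the fraction. -/
theorem galois_purely_periodic {x : ℝ} (hx : Irrational x) :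
    (∃ k, (GenContFract.of x).s.get? k = some ⟨1, (GenContFract.of x).h⟩ ∧
        ∀ n, (GenContFract.of x).s.get? (n + (k + 1)) = (GenContFract.of x).s.get? n) ↔
      ∃ v : ℝ, (∃ a b c : ℤ, a ≠ 0 ∧ (a : ℝ) * x ^ 2 + b * x + c = 0 ∧
        (a : ℝ) * (x + v) = -b) ∧ 1 < x ∧ -1 < v ∧ v < 0 := by
  refine Iff.trans ?_ (purely_periodic_iff hx)
  simp only [get?_of hx, digit_zero]
  refine ⟨fun ⟨k, h0, h⟩ => ⟨k + 1, k.succ_pos, fun n => ?_⟩, fun ⟨k, hk, h⟩ => ?_⟩
  · rcases n with _ | n
    · simpa using h0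
    · simpa [Nat.add_right_comm] using h n
  · obtain ⟨j, rfl⟩ : ∃ j, k = j + 1 := ⟨k - 1, by omega⟩
    refine ⟨j, by simpa using h 0, fun n => ?_⟩
    rw [Nat.add_right_comm, h (n + 1)]

/-- **Quadratic irrationals are badly approximable.** -/
theorem quadratic_badly_approximable {x : ℝ} (hx : Irrational x) {a b c : ℤ} (ha : a ≠ 0)
    (h : (a : ℝ) * x ^ 2 + b * x + c = 0) :
    ∃ C : ℝ, 0 < C ∧ ∀ (p : ℤ) (q : ℕ), 0 < q → C / (q : ℝ) ^ 2 ≤ |x - p / q| :=
  badly_approximable ⟨hx, a, b, c, ha, h⟩

end FA.Summary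

end
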