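import Fermat.Agent.DirichletImprovable.Main
import Fermat.Agent.Root.SummaryKhintchine
import Fermat.Agent.Root.SummaryEulerFraction
import Fermat.Agent.Root.SummaryPeriodicFractions

/-!
# Davenport and Schmidt on improving Dirichlet's theorem

Dirichlet's theorem is improvable at an irrational `x` (some `c < 1` such that for all large `Q`
some `q ≤ Q` has `‖q x‖ ≤ c / Q`) if and only if `x` is badly approximable, that is, if and only if
its continued fraction digits are bounded (Davenport and Schmidt 1970, one dimension).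
-/

set_option autoImplicit false

noncomputable section

open Filter MeasureTheory

namespace FA.DirichletImprovable.Summary

/-- **The theorem of Davenport and Schmidt.** -/
theorem davenport_schmidt_improvable {x : ℝ} (hx : Irrational x) :
    (∃ c : ℝ, c < 1 ∧ ∀ᶠ Q : ℕ in atTop, ∃ q : ℕ, 0 < q ∧ q ≤ Q ∧
        ∃ p : ℤ, |(q : ℝ) * x - p| ≤ c / Q) ↔
      ∃ C : ℝ, 0 < C ∧ ∀ (p : ℤ) (q : ℕ), 0 < q → C / (q : ℝ) ^ 2 ≤ |x - p / q| := by
  rw [bad_iff_dist₁]
  exact ⟨bad_of_improvable hx, fun ⟨C, hC, h⟩ => improvable_of_bad hx hC h⟩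

/-- **Improvable means bounded digits.** -/
theorem improvable_iff_bounded_digits {x : ℝ} (hx : Irrational x) :
    (∃ c : ℝ, c < 1 ∧ ∀ᶠ Q : ℕ in atTop, ∃ q : ℕ, 0 < q ∧ q ≤ Q ∧
        ∃ p : ℤ, |(q : ℝ) * x - p| ≤ c / Q) ↔
      ∃ M : ℝ, ∀ n a, (GenContFract.of x).s.get? n = some a → a.b ≤ M :=
  (davenport_schmidt_improvable hx).trans (FA.Summary.badly_approximable_iff_bounded_digits hx)

/-- **Dirichlet's theorem is improvable at almost no number.** -/
theorem improvable_almost_never :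
    ∀ᵐ x : ℝ, ¬∃ c : ℝ, c < 1 ∧ ∀ᶠ Q : ℕ in atTop, ∃ q : ℕ, 0 < q ∧ q ≤ Q ∧
      ∃ p : ℤ, |(q : ℝ) * x - p| ≤ c / Q := by
  filter_upwards [Khintchine.Summary.badly_approximable_null,
    (Set.countable_range ((↑) : ℚ → ℝ)).ae_notMem volume] with x hx hrat h
  exact hx ((davenport_schmidt_improvable hrat).1 h)

/-- **Dirichlet's theorem is not improvable at `e`.** -/
theorem exp_one_not_improvable :
    ¬∃ c : ℝ, c < 1 ∧ ∀ᶠ Q : ℕ in atTop, ∃ q : ℕ, 0 < q ∧ q ≤ Q ∧
      ∃ p : ℤ, |(q : ℝ) * Real.exp 1 - p| ≤ c / Q := fun h => by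
  obtain ⟨C, hC, hb⟩ := (davenport_schmidt_improvable FA.EulerFraction.irrational_exp_one).1 h
  obtain ⟨p, q, hq, hlt⟩ := FA.Summary.euler_e_not_badly_approximable hC
  exact absurd (hb p q hq) (not_le.2 hlt)

/-- **Dirichlet's theorem is improvable at every quadratic irrational.** -/
theorem quadratic_improvable {x : ℝ} (hx : Irrational x) {a b c : ℤ} (ha : a ≠ 0)
    (hroot : (a : ℝ) * x ^ 2 + b * x + c = 0) :
    ∃ c' : ℝ, c' < 1 ∧ ∀ᶠ Q : ℕ in atTop, ∃ q : ℕ, 0 < q ∧ q ≤ Q ∧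
      ∃ p : ℤ, |(q : ℝ) * x - p| ≤ c' / Q :=
  (davenport_schmidt_improvable hx).2 (FA.Summary.quadratic_badly_approximable hx ha hroot)

end FA.DirichletImprovable.Summary
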