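import Fermat.Agent.DirichletLandau.Distinct

/-!
# Landau's formula for Dirichlet L-functions; the zeros determine the character

For a primitive character `χ ≠ 1` and `x > 1`, with the zeros `ρ` of `L (s, χ)` in the critical
strip counted with multiplicity, `∑_{|im ρ| ≤ T} x ^ ρ = -(T / π) χ(x) Λ(x) + O (log² T)`. So the
zeros recover `χ n Λ n`; for two different characters the zero multisets up to height `T` differ
by at least `c T`, in at least `c T / log T` points (a weak form of a theorem of Fujii), and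
characters with the same zeros outside a finite set are equal.

Uniformity in `x` or the modulus, and a positive proportion of zeros that are not common, are not
claimed.
-/

set_option autoImplicit false

noncomputable section

namespace FA.DirichletLandau.Summary

open Complex Filter Topology FA.DirichletZeroCount
open DirichletCharacter (LFunction completedLFunction)
open scoped Real ArithmeticFunction.vonMangoldt

variable {q q' : ℕ} [NeZero q] [NeZero q'] {χ : DirichletCharacter ℂ q}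
  {ψ : DirichletCharacter ℂ q'}

/-- The sum over the zeros that the theorems speak of. -/
theorem zeroSum_spec (hχ : χ ≠ 1) (x T : ℝ) :
    {ρ : ℂ | LFunction χ ρ = 0 ∧ 0 < ρ.re ∧ ρ.re < 1 ∧ |ρ.im| ≤ T}.Finite ∧
      zeroSum χ x T = ∑ᶠ ρ ∈ {ρ : ℂ | LFunction χ ρ = 0 ∧ 0 < ρ.re ∧ ρ.re < 1 ∧ |ρ.im| ≤ T},
        (analyticOrderNatAt (LFunction χ) ρ : ℂ) * (x : ℂ) ^ ρ :=
  ⟨finite_lZeros hχ T, rfl⟩

/-- **Landau's formula at an integer `n ≥ 2`.** -/
theorem landau_formula_nat (hp : χ.IsPrimitive) (hχ : χ ≠ 1) {n : ℕ} (hn : 2 ≤ n) :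
    ∃ C : ℝ, ∀ T : ℝ, 2 ≤ T →
      ‖zeroSum χ n T + ((T / π : ℝ) : ℂ) * (χ n * ((Λ n : ℝ) : ℂ))‖ ≤ C * Real.log T ^ 2 := by
  obtain ⟨C, -, h⟩ := exists_landau hp hχ (x := (n : ℝ)) (by exact_mod_cast hn)
  refine ⟨C, fun T hT => ?_⟩
  have h1 := h T hT
  rwa [coefAt_natCast] at h1

/-- **Landau's formula at a real `x > 1` that is no integer.** -/
theorem landau_formula_not_nat (hp : χ.IsPrimitive) (hχ : χ ≠ 1) {x : ℝ} (hx : 1 < x)
    (hne : ∀ n : ℕ, (n : ℝ) ≠ x) :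
    ∃ C : ℝ, ∀ T : ℝ, 2 ≤ T → ‖zeroSum χ x T‖ ≤ C * Real.log T ^ 2 := by
  obtain ⟨C, -, h⟩ := exists_landau hp hχ hx
  refine ⟨C, fun T hT => ?_⟩
  have h1 := h T hT
  rwa [coefAt_of_ne _ hne, mul_zero, add_zero] at h1

/-- **The zeros recover `χ n Λ n`.** -/
theorem zeros_recover (hp : χ.IsPrimitive) (hχ : χ ≠ 1) {n : ℕ} (hn : 2 ≤ n) :
    Tendsto (fun T : ℝ => -((π / T : ℝ) : ℂ) * zeroSum χ n T) atTop
      (𝓝 (χ n * ((Λ n : ℝ) : ℂ))) := by
  obtain ⟨C, h⟩ := landau_formula_nat hp hχ hn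
  rw [tendsto_iff_norm_sub_tendsto_zero]
  have hlim := (Real.tendsto_pow_log_div_mul_add_atTop 1 0 2 one_ne_zero).const_mul (π * C)
  rw [mul_zero] at hlim
  refine squeeze_zero' (Eventually.of_forall fun T => norm_nonneg _) ?_ hlim
  filter_upwards [eventually_ge_atTop 2] with T hT
  obtain ⟨w, hw⟩ : ∃ w : ℂ, w = χ n * ((Λ n : ℝ) : ℂ) := ⟨_, rfl⟩
  have h1 := h T hT
  rw [← hw] at h1 ⊢
  have hT0 : (T : ℂ) ≠ 0 := ofReal_ne_zero.2 (by linarith)
  have hπ : (π : ℂ) ≠ 0 := ofReal_ne_zero.2 Real.pi_ne_zero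
  have e : -((π / T : ℝ) : ℂ) * zeroSum χ n T - w =
      -((π / T : ℝ) : ℂ) * (zeroSum χ n T + ((T / π : ℝ) : ℂ) * w) := by
    push_cast
    field_simp
    ring
  rw [e, norm_mul, norm_neg, Complex.norm_real, Real.norm_of_nonneg (div_nonneg Real.pi_pos.le
    (by linarith)), one_mul, add_zero]
  refine (mul_le_mul_of_nonneg_left h1 (div_nonneg Real.pi_pos.le (by linarith))).trans
    (le_of_eq ?_)
  ring

/-- **The zero multisets of different characters differ by at least `c T`.** -/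
theorem zeros_differ (hp : χ.IsPrimitive) (hχ : χ ≠ 1) (hp' : ψ.IsPrimitive) (hψ : ψ ≠ 1)
    (hne : ∃ n : ℕ, χ n ≠ ψ n) : ∃ c T₀ : ℝ, 0 < c ∧ ∀ T : ℝ, T₀ ≤ T →
      c * T ≤ ∑ᶠ ρ ∈ lZeros χ T ∪ lZeros ψ T,
        |(analyticOrderNatAt (LFunction χ) ρ : ℝ) - analyticOrderNatAt (LFunction ψ) ρ| := by
  classical
  obtain ⟨c, T₀, hc, h⟩ := exists_diff_lower hp hχ hp' hψ hne
  refine ⟨c, T₀, hc, fun T hT => (h T hT).trans (le_of_eq ?_)⟩
  rw [finsum_mem_eq_finite_toFinset_sum _ ((finite_lZeros hχ T).union (finite_lZeros hψ T)),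
    Set.Finite.toFinset_union (finite_lZeros hχ T) (finite_lZeros hψ T)]
  refine Finset.sum_congr rfl fun ρ hρ => ?_
  have h0 : 0 < ρ.re := by
    rcases Finset.mem_union.1 hρ with h | h <;> exact ((Set.Finite.mem_toFinset _).1 h).2.1
  rw [lMult_eq_order hχ h0, lMult_eq_order hψ h0]

/-- **They differ in at least `c T / log T` points of the strip.** -/
theorem zeros_differ_points (hp : χ.IsPrimitive) (hχ : χ ≠ 1) (hp' : ψ.IsPrimitive) (hψ : ψ ≠ 1)
    (hne : ∃ n : ℕ, χ n ≠ ψ n) : ∃ c T₀ : ℝ, 0 < c ∧ ∀ T : ℝ, T₀ ≤ T →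
      {ρ : ℂ | 0 < ρ.re ∧ ρ.re < 1 ∧ |ρ.im| ≤ T ∧
        analyticOrderNatAt (LFunction χ) ρ ≠ analyticOrderNatAt (LFunction ψ) ρ}.Finite ∧
      c * T / Real.log T ≤ {ρ : ℂ | 0 < ρ.re ∧ ρ.re < 1 ∧ |ρ.im| ≤ T ∧
        analyticOrderNatAt (LFunction χ) ρ ≠ analyticOrderNatAt (LFunction ψ) ρ}.ncard := by
  classical
  obtain ⟨c, T₀, hc, h⟩ := exists_diff_points hp hχ hp' hψ hne
  refine ⟨c, T₀, hc, fun T hT => ?_⟩
  have e : {ρ : ℂ | 0 < ρ.re ∧ ρ.re < 1 ∧ |ρ.im| ≤ T ∧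
      analyticOrderNatAt (LFunction χ) ρ ≠ analyticOrderNatAt (LFunction ψ) ρ} =
      ↑((zerosUp χ hχ T ∪ zerosUp ψ hψ T).filter fun ρ => lMult χ ρ ≠ lMult ψ ρ) := by
    ext ρ
    simp only [Set.mem_ofPred_eq, Finset.coe_filter, Finset.mem_union]
    constructor
    · rintro ⟨h0, h1, h2, h3⟩
      rw [← lMult_eq_order hχ h0, ← lMult_eq_order hψ h0] at h3
      refine ⟨?_, h3⟩
      by_contra hn
      push Not at hn
      exact h3 ((lMult_eq_zero_of_notMem hp hχ h2 hn.1).trans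
        (lMult_eq_zero_of_notMem hp' hψ h2 hn.2).symm)
    · rintro ⟨hm, h3⟩
      have h4 : 0 < ρ.re ∧ ρ.re < 1 ∧ |ρ.im| ≤ T := by
        rcases hm with h | h <;> exact ((Set.Finite.mem_toFinset _).1 h).2
      rw [lMult_eq_order hχ h4.1, lMult_eq_order hψ h4.1] at h3
      exact ⟨h4.1, h4.2.1, h4.2.2, h3⟩
  rw [e]
  exact ⟨Finset.finite_toSet _, by rw [Set.ncard_coe_finset]; exact h T hT⟩

/-- **The zeros determine the modulus and the character.** -/
theorem zeros_determine_character (hp : χ.IsPrimitive) (hχ : χ ≠ 1) (hp' : ψ.IsPrimitive)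
    (hψ : ψ ≠ 1) {E : Set ℂ} (hE : E.Finite)
    (h : ∀ ρ ∉ E, 0 < ρ.re → ρ.re < 1 →
      analyticOrderNatAt (LFunction χ) ρ = analyticOrderNatAt (LFunction ψ) ρ) :
    q = q' ∧ ∀ n : ℕ, χ n = ψ n := by
  refine zeros_determine hp hχ hp' hψ hE fun ρ hρ => ?_
  by_cases hs : 0 < ρ.re ∧ ρ.re < 1
  · rw [lMult_eq_order hχ hs.1, lMult_eq_order hψ hs.1, h ρ hρ hs.1 hs.2]
  · rw [lMult_eq_zero hχ fun h0 => hs (completed_zero_strip hp hχ h0),
      lMult_eq_zero hψ fun h0 => hs (completed_zero_strip hp' hψ h0)]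

omit [NeZero q'] in
/-- **The same for two characters of one modulus.** -/
theorem zeros_determine_character_same_modulus {χ' : DirichletCharacter ℂ q} (hp : χ.IsPrimitive)
    (hχ : χ ≠ 1) (hp' : χ'.IsPrimitive) (hχ' : χ' ≠ 1)
    (h : ∀ ρ : ℂ, 0 < ρ.re → ρ.re < 1 →
      analyticOrderNatAt (LFunction χ) ρ = analyticOrderNatAt (LFunction χ') ρ) : χ = χ' := by
  obtain ⟨-, e⟩ := zeros_determine_character hp hχ hp' hχ' Set.finite_empty fun ρ _ => h ρ
  refine MulChar.ext' fun a => ?_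
  rw [← ZMod.natCast_zmod_val a]
  exact e a.val

end FA.DirichletLandau.Summary

end
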