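import Fermat.Agent.DirichletLineZeros.Main

/-!
# Zeros of Dirichlet L-functions on the critical line (Hardy, Landau)

For a primitive character `χ ≠ 1` every interval `[T, T + C T^(3/4)]`, `T` large, has a `t` with
`L (1/2 + it, χ) = 0`. So there are infinitely many such zeros, of arbitrarily large positive and
negative height, and at least `c T^(1/4)` up to height `T`.

The constants depend on `χ`. A positive proportion, or `≫ T` zeros up to `T`, is not claimed.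
-/

set_option autoImplicit false

noncomputable section

namespace FA.DirichletLineZeros.Summary

open Complex Filter Set
open DirichletCharacter (LFunction)

variable {q : ℕ} [NeZero q] {χ : DirichletCharacter ℂ q}

theorem critPt_eq (t : ℝ) : critPt t = 1 / 2 + t * I := by simp [critPt]

/-- **Gaps of size `T^(3/4)`.** -/
theorem line_zero_gaps (hp : χ.IsPrimitive) (hχ : χ ≠ 1) : ∃ C T₀ : ℝ, ∀ T : ℝ, T₀ ≤ T →
    ∃ t : ℝ, T ≤ t ∧ t ≤ T + C * T ^ (3 / 4 : ℝ) ∧ LFunction χ (1 / 2 + t * I) = 0 := by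
  obtain ⟨C, T₀, -, -, h⟩ := exists_line_zero hp hχ
  refine ⟨C, T₀, fun T hT => ?_⟩
  obtain ⟨-, t, ht, h0⟩ := h T hT
  exact ⟨t, ht.1, ht.2, critPt_eq t ▸ h0⟩

/-- **Zeros of arbitrarily large height on the line, in both directions.** -/
theorem line_zero_arbitrarily_high (hp : χ.IsPrimitive) (hχ : χ ≠ 1) (T : ℝ) :
    (∃ t : ℝ, T ≤ t ∧ LFunction χ (1 / 2 + t * I) = 0) ∧
      ∃ t : ℝ, t ≤ T ∧ LFunction χ (1 / 2 + t * I) = 0 := by
  obtain ⟨⟨a, ha, ha0⟩, b, hb, hb0⟩ := exists_line_zero_above hp hχ T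
  exact ⟨⟨a, ha, critPt_eq a ▸ ha0⟩, b, hb, critPt_eq b ▸ hb0⟩

/-- **Infinitely many zeros with real part one half.** -/
theorem infinite_line_zeros (hp : χ.IsPrimitive) (hχ : χ ≠ 1) :
    {s : ℂ | s.re = 1 / 2 ∧ LFunction χ s = 0}.Infinite := by
  refine Set.Infinite.of_image Complex.im (Set.infinite_of_forall_exists_gt fun T => ?_)
  obtain ⟨⟨t, ht, h0⟩, -⟩ := line_zero_arbitrarily_high hp hχ (T + 1)
  exact ⟨t, ⟨1 / 2 + t * I, ⟨by simp, h0⟩, by simp⟩, by linarith⟩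

/-- **At least `c T^(1/4)` distinct zeros on the line up to height `T`.** -/
theorem line_zero_count (hp : χ.IsPrimitive) (hχ : χ ≠ 1) : ∃ c T₀ : ℝ, 0 < c ∧
    ∀ T : ℝ, T₀ ≤ T →
      {t : ℝ | 0 < t ∧ t ≤ T ∧ LFunction χ (1 / 2 + t * I) = 0}.Finite ∧
      c * T ^ (1 / 4 : ℝ) ≤
        {t : ℝ | 0 < t ∧ t ≤ T ∧ LFunction χ (1 / 2 + t * I) = 0}.ncard := by
  simp only [← critPt_eq]
  exact exists_line_count hp hχ

/-- **The series cut at `N`**, for any `χ ≠ 1`. -/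
theorem truncated_series (hχ : χ ≠ 1) {s : ℂ} (hs : 0 < s.re) {N : ℕ} (hN : q ≤ N) :
    ‖LFunction χ s - ∑ n ∈ Finset.Icc 1 N, χ n * (n : ℂ) ^ (-s)‖ ≤
      2 * q * (N : ℝ) ^ (-s.re) +
        4 * (q : ℝ) ^ 2 * (‖s‖ * ‖s + 1‖) * (N : ℝ) ^ (-s.re - 1) :=
  norm_lfunction_sub_sum_le hχ hs hN

/-- **The rotation that makes `L` real on the line up to a constant.** -/
theorem rotation (hp : χ.IsPrimitive) (hχ : χ ≠ 1) (t : ℝ) :
    ‖lineZ χ t‖ = ‖LFunction χ (1 / 2 + t * I)‖ ∧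
      lineZ χ t = χ.rootNumber * (starRingEnd ℂ) (lineZ χ t) :=
  ⟨critPt_eq t ▸ norm_lineZ χ t, lineZ_eq_conj hp hχ t⟩

end FA.DirichletLineZeros.Summary

end
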