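import Fermat.Agent.DirichletOrdinates.LineMoment
import Fermat.Agent.DirichletOrdinates.Equidistribution

/-!
# Mean values and the vertical distribution of the zeros of Dirichlet L-functions

For a character `χ ≠ 1` modulo `q`: the second moment on the critical line is
`(φ q / q) T log T + O (T √(log T))`, on `re s = σ > 1/2` it is `∼ T ∑ ‖χ n‖² n ^ (-2σ)`, and
`N (σ, T, χ) = O (T)` (Bohr–Landau). For primitive `χ` almost all zeros are within `ε` of the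
critical line, and for every `α ≠ 0` the numbers `α γ` over the zeros are equidistributed mod 1
(Rademacher, Elliott, Hlawka).

The constants depend on `χ`; uniformity in `q` and second order terms are not claimed.
-/

set_option autoImplicit false

noncomputable section

namespace FA.DirichletOrdinates.Summary

open Complex Filter Topology FA.DirichletZeroCount
open DirichletCharacter (LFunction)
open scoped Real

variable {q : ℕ} [NeZero q] {χ : DirichletCharacter ℂ q}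

/-- **The partial sums beyond `q t`.** -/
theorem truncation (hχ : χ ≠ 1) {σ t : ℝ} (hσ : 1 / 2 ≤ σ) (hσ4 : σ ≤ 4) (ht : 1 ≤ t) {M : ℕ}
    (hqM : q ≤ M) (hM : q * t ≤ (M : ℝ) + 1) :
    ‖LFunction χ (σ + t * I) - ∑ n ∈ Finset.Icc 1 M, χ n * (n : ℂ) ^ (-((σ : ℂ) + t * I))‖ ≤
      3000 * (q : ℝ) ^ 2 * ((M : ℝ) + 1) ^ (1 / 2 - σ) * (1 + √((M : ℝ) + 1) / t) :=
  norm_charErr_le hχ hσ hσ4 ht hqM hM

/-- **The second moment on the critical line.** -/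
theorem second_moment (hχ : χ ≠ 1) : ∃ C : ℝ, ∀ T : ℝ, 3 ≤ T →
    |(∫ t in (0 : ℝ)..T, ‖LFunction χ (1 / 2 + t * I)‖ ^ 2) -
      (q.totient : ℝ) / q * (T * Real.log T)| ≤ C * (T * √(Real.log T)) := by
  obtain ⟨C, h⟩ := exists_second_moment hχ
  refine ⟨C, fun T hT => ?_⟩
  have h' := h T hT
  push_cast at h'
  exact h'

/-- **The mean square on `re s = σ > 1/2`.** -/
theorem meanSquare_limit (hχ : χ ≠ 1) {σ : ℝ} (hσ : 1 / 2 < σ) (hσ4 : σ ≤ 4) :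
    Tendsto (fun T : ℝ => (∫ t in (2 : ℝ)..T, ‖LFunction χ (σ + t * I)‖ ^ 2) / T) atTop
      (𝓝 (∑' n : ℕ, ‖χ n‖ ^ 2 * (n : ℝ) ^ (-(2 * σ)))) :=
  tendsto_meanSquare hχ hσ hσ4

/-- The mean square is `O (T)` uniformly to the right of `σ₀ > 1/2`. -/
theorem meanSquare_uniform (hχ : χ ≠ 1) {σ₀ : ℝ} (h : 1 / 2 < σ₀) :
    ∃ C : ℝ, ∀ σ T : ℝ, σ₀ ≤ σ → σ ≤ 4 → 2 ≤ T →
      ∫ t in (-T)..T, ‖LFunction χ (σ + t * I)‖ ^ 2 ≤ C * T :=
  (exists_meanSquare_sym hχ h).imp fun _ hC => hC.2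

/-- **Bohr–Landau: `N (σ, T, χ) = O (T)`.** -/
theorem bohr_landau (hχ : χ ≠ 1) {σ : ℝ} (hσ : 1 / 2 < σ) :
    ∃ C : ℝ, ∀ T : ℝ, 1 ≤ T →
      ((∑ᶠ ρ ∈ {ρ : ℂ | LFunction χ ρ = 0 ∧ 0 < ρ.re ∧ ρ.re < 1 ∧ |ρ.im| ≤ T ∧ σ ≤ ρ.re},
        analyticOrderNatAt (LFunction χ) ρ : ℕ) : ℝ) ≤ C * T := by
  obtain ⟨C, -, h⟩ := exists_rightSum_le hχ hσ
  refine ⟨C, fun T hT => ?_⟩
  have h1 := h T hT
  simpa only [rightSum, zeroMult, lZeros, Set.mem_ofPred_eq, and_assoc] using h1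

/-- **Almost all zeros are within `ε` of the critical line.** -/
theorem almost_all_zeros_near_line (hp : χ.IsPrimitive) (hχ : χ ≠ 1) {ε : ℝ} (hε : 0 < ε) :
    Tendsto (fun T : ℝ =>
      ((∑ᶠ ρ ∈ {ρ ∈ lZeros χ T | ε ≤ |ρ.re - 1 / 2|}, analyticOrderNatAt (LFunction χ) ρ : ℕ) : ℝ) /
        lZeroCount χ T) atTop (𝓝 0) :=
  tendsto_offSum hp hχ hε

/-- The sets and the count that the theorems speak of. -/
theorem lZeros_spec (hχ : χ ≠ 1) (T : ℝ) :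
    lZeros χ T = {ρ : ℂ | LFunction χ ρ = 0 ∧ 0 < ρ.re ∧ ρ.re < 1 ∧ |ρ.im| ≤ T} ∧
      (lZeros χ T).Finite ∧
      lZeroCount χ T = ∑ᶠ ρ ∈ lZeros χ T, analyticOrderNatAt (LFunction χ) ρ :=
  ⟨rfl, finite_lZeros hχ T, rfl⟩

/-- **`∑ exp (i a γ) = o (N (T, χ))`.** -/
theorem ordinateSum_isLittleO (hp : χ.IsPrimitive) (hχ : χ ≠ 1) {a : ℝ} (ha : a ≠ 0) :
    Tendsto (fun T : ℝ => (∑ᶠ ρ ∈ lZeros χ T,
        (analyticOrderNatAt (LFunction χ) ρ : ℂ) * Complex.exp (((a * ρ.im : ℝ) : ℂ) * I)) /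
      (lZeroCount χ T : ℂ)) atTop (𝓝 0) :=
  tendsto_ordSum hp hχ ha

/-- **The ordinates are equidistributed mod 1**, dilated by any `α ≠ 0`. -/
theorem ordinates_equidistributed (hp : χ.IsPrimitive) (hχ : χ ≠ 1) {α : ℝ} (hα : α ≠ 0)
    {a b : ℝ} (ha : 0 ≤ a) (hab : a ≤ b) (hb : b ≤ 1) :
    Tendsto (fun T : ℝ =>
      ((∑ᶠ ρ ∈ {ρ ∈ lZeros χ T | Int.fract (α * ρ.im) ∈ Set.Ico a b},
        analyticOrderNatAt (LFunction χ) ρ : ℕ) : ℝ) / lZeroCount χ T) atTop (𝓝 (b - a)) :=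
  tendsto_ordCount hp hχ hα ha hab hb

/-- The normalisation tends to infinity, so the limits above are not vacuous. -/
theorem lZeroCount_unbounded (hp : χ.IsPrimitive) (hχ : χ ≠ 1) :
    Tendsto (fun T : ℝ => (lZeroCount χ T : ℝ)) atTop atTop :=
  tendsto_lZeroCount hp hχ

end FA.DirichletOrdinates.Summary

end
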