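import Fermat.Agent.DirichletZeroCount.Main

/-!
# The zeros of a Dirichlet L-function up to a height, uniformly in the modulus

For a primitive character `χ ≠ 1` modulo `q` let `N (T, χ)` be the number of zeros of `L (s, χ)`
with `0 < re s < 1` and `|im s| ≤ T`, with multiplicity; these are the zeros of the completed
function `Λ (s, χ)`. Then `N (T, χ) = T/π log (q T / (2 π e)) + O (log (q (T + 3)))` for `T ≥ 2`
with an absolute constant. In particular an absolute height catches a zero of each of these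
functions, and each has infinitely many.

Imprimitive characters, explicit constants and Siegel's sharper bounds are not claimed.
-/

set_option autoImplicit false

noncomputable section

namespace FA.DirichletZeroCount.Summary

open Complex Filter FA.DirichletZeroCount
open DirichletCharacter (LFunction completedLFunction)
open scoped Real

variable {q : ℕ} [NeZero q] {χ : DirichletCharacter ℂ q}

omit [NeZero q] in
/-- The main term. -/
theorem mainTerm_spec (q : ℕ) (T : ℝ) :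
    lMain q T = T / π * Real.log (q * T / (2 * π * Real.exp 1)) ∧
      qLog q T = Real.log (q * (|T| + 3)) :=
  ⟨rfl, rfl⟩

/-- **`N (T, χ)`**: finitely many zeros, summed with their orders. -/
theorem lZeroCount_spec (hχ : χ ≠ 1) (T : ℝ) :
    {ρ : ℂ | LFunction χ ρ = 0 ∧ 0 < ρ.re ∧ ρ.re < 1 ∧ |ρ.im| ≤ T}.Finite ∧
      lZeroCount χ T = ∑ᶠ ρ ∈ {ρ : ℂ | LFunction χ ρ = 0 ∧ 0 < ρ.re ∧ ρ.re < 1 ∧ |ρ.im| ≤ T},
        analyticOrderNatAt (LFunction χ) ρ :=
  ⟨finite_lZeros hχ T, rfl⟩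

/-- They are the zeros of `Λ (s, χ)`, with the same orders. -/
theorem zeros_completed (hp : χ.IsPrimitive) (hχ : χ ≠ 1) (ρ : ℂ) :
    (completedLFunction χ ρ = 0 ↔ LFunction χ ρ = 0 ∧ 0 < ρ.re ∧ ρ.re < 1) ∧
      (0 < ρ.re → analyticOrderNatAt (completedLFunction χ) ρ =
        analyticOrderNatAt (LFunction χ) ρ) := by
  refine ⟨⟨fun h => ?_, fun h => ?_⟩, fun h => analyticOrderNatAt_completed hχ h⟩
  · obtain ⟨a, b, c, -⟩ := (mem_lZeros_iff hp hχ (T := |ρ.im|)).2 ⟨h, le_rfl⟩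
    exact ⟨a, b, c⟩
  · exact ((mem_lZeros_iff hp hχ (T := |ρ.im|)).1 ⟨h.1, h.2.1, h.2.2, le_rfl⟩).1

/-- **The formula of Riemann and von Mangoldt for `L (s, χ)`**, uniform in the modulus. -/
theorem riemann_von_mangoldt : ∃ C : ℝ, ∀ (q : ℕ) [NeZero q] (χ : DirichletCharacter ℂ q),
    χ.IsPrimitive → χ ≠ 1 → ∀ T : ℝ, 2 ≤ T →
      |(lZeroCount χ T : ℝ) - T / π * Real.log (q * T / (2 * π * Real.exp 1))| ≤
        C * Real.log (q * (T + 3)) := by
  obtain ⟨C, -, h⟩ := exists_lZeroCount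
  refine ⟨C, fun q _ χ hp hχ T hT => ?_⟩
  have := h q χ hp hχ T hT
  rwa [qLog, abs_of_nonneg (show 0 ≤ T by linarith)] at this

/-- **`O (log (q (T + 3)))` zeros in a unit window.** -/
theorem unit_window : ∃ C : ℝ, ∀ (q : ℕ) [NeZero q] (χ : DirichletCharacter ℂ q),
    χ.IsPrimitive → χ ≠ 1 → ∀ T : ℝ, 0 ≤ T →
      (lZeroCount χ (T + 1) : ℝ) - lZeroCount χ T ≤ C * Real.log (q * (T + 3)) := by
  obtain ⟨C, -, h⟩ := exists_lZeroCount_window
  refine ⟨C, fun q _ χ hp hχ T hT => ?_⟩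
  have := h q χ hp hχ T hT
  rwa [qLog, abs_of_nonneg hT] at this

/-- **An absolute height with a zero of every primitive L-function.** -/
theorem absolute_zero : ∃ T₀ : ℝ, ∀ (q : ℕ) [NeZero q] (χ : DirichletCharacter ℂ q),
    χ.IsPrimitive → χ ≠ 1 →
      ∃ ρ : ℂ, LFunction χ ρ = 0 ∧ 0 < ρ.re ∧ ρ.re < 1 ∧ |ρ.im| ≤ T₀ :=
  exists_absolute_zero

/-- **Infinitely many zeros in the critical strip.** -/
theorem infinitely_many_zeros (hp : χ.IsPrimitive) (hχ : χ ≠ 1) :
    {ρ : ℂ | LFunction χ ρ = 0 ∧ 0 < ρ.re ∧ ρ.re < 1}.Infinite :=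
  infinite_lZeros hp hχ

end FA.DirichletZeroCount.Summary

end
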