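import Fermat.Agent.DisjointCovering.Main

/-!
# Disjoint covering systems

Finitely many residue classes `a i (mod m i)` with each integer in exactly one.
-/

set_option autoImplicit false

namespace FA.Summary

open Finset

variable {ι : Type*} [Fintype ι]

/-- In a disjoint covering system the reciprocals of the moduli sum to `1`. -/
theorem covering_sum_reciprocals (a : ι → ℤ) (m : ι → ℕ) (hm : ∀ i, 0 < m i)
    (hcov : ∀ x : ℤ, ∃! i, (m i : ℤ) ∣ x - a i) : ∑ i, (1 : ℚ) / m i = 1 :=
  DisjointCovering.sum_one_div_eq_one ⟨hm, hcov⟩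

/-- **Newman's theorem**: a modulus `N > 1` properly dividing no other occurs as often as some
natural combination of its prime divisors, so at least as often as the least of them. -/
theorem newman_multiplicity (a : ι → ℤ) (m : ι → ℕ) (hm : ∀ i, 0 < m i)
    (hcov : ∀ x : ℤ, ∃! i, (m i : ℤ) ∣ x - a i) {N : ℕ} (hN : 1 < N) (hmem : ∃ i, m i = N)
    (hmax : ∀ i, N ∣ m i → m i = N) :
    #(univ.filter fun i => m i = N) ∈ AddSubmonoid.closure (N.primeFactors : Set ℕ) ∧
      N.minFac ≤ #(univ.filter fun i => m i = N) := by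
  obtain ⟨i0, hi0⟩ := hmem
  exact ⟨DisjointCovering.card_mem_closure ⟨hm, hcov⟩ hN i0 hi0 hmax,
    DisjointCovering.minFac_le_card ⟨hm, hcov⟩ hN i0 hi0 hmax⟩

/-- **Mirsky, Newman, Davenport and Rado**: a disjoint covering system of two or more classes has
two equal moduli. -/
theorem mirsky_newman (a : ι → ℤ) (m : ι → ℕ) (hm : ∀ i, 0 < m i)
    (hcov : ∀ x : ℤ, ∃! i, (m i : ℤ) ∣ x - a i) (hι : 2 ≤ Fintype.card ι) :
    ∃ i j, i ≠ j ∧ m i = m j :=
  DisjointCovering.exists_equal_moduli ⟨hm, hcov⟩ hι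

end FA.Summary
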