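import Fermat.Agent.DistinctSummands.Graham
import Fermat.Agent.DistinctSummands.Squares
import Fermat.Agent.DistinctSummands.Primes

/-!
# Sums of distinct summands

* `graham_polynomial` (Graham 1964, integral coefficients): for `f : ℤ[X]` of degree at least one
  and positive leading coefficient, every large `n` is a sum of `f x` over distinct natural
  `x ≥ M` (any given `M`) iff no prime divides every value `f x`, `x : ℤ`.
* `graham_constant`: in degree zero, `f = a > 0`, the same holds iff `a = 1`.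
* `sprague_powers`: for `k ≥ 1` every large `n` is a sum of distinct positive `k`-th powers.
* `sprague_squares`: every `n > 128` is a sum of distinct positive squares; `128` is none.
* `richert_primes`: every `n > 6` is a sum of distinct primes; `6` is none.
-/

set_option autoImplicit false

noncomputable section

namespace FA.DistinctSummands.Summary

open Finset Polynomial

theorem graham_polynomial {f : ℤ[X]} (hdeg : 1 ≤ f.natDegree) (hlc : 0 < f.leadingCoeff) :
    (∀ M : ℕ, ∃ N : ℕ, ∀ n, N ≤ n → ∃ s : Finset ℕ, (∀ x ∈ s, M ≤ x) ∧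
      ∑ x ∈ s, f.eval (x : ℤ) = n) ↔ ∀ p : ℕ, p.Prime → ∃ x : ℤ, ¬(p : ℤ) ∣ f.eval x := by
  refine ⟨fun h p hp => ?_, fun h M => exists_distinct_sum hdeg hlc h M⟩
  by_contra hall
  simp only [not_exists, not_not] at hall
  obtain ⟨N, hN⟩ := h 0
  have hle : N ≤ p * N + 1 := by
    have := Nat.le_mul_of_pos_left N hp.pos
    omega
  obtain ⟨s, -, hsum⟩ := hN (p * N + 1) hle
  have hd : (p : ℤ) ∣ ((p * N + 1 : ℕ) : ℤ) := hsum ▸ dvd_sum fun x _ => hall x
  rw [Int.natCast_dvd_natCast, Nat.dvd_add_right (dvd_mul_right p N), Nat.dvd_one] at hd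
  exact hp.ne_one hd

theorem graham_constant {a : ℕ} (ha : 0 < a) :
    (∀ M : ℕ, ∃ N : ℕ, ∀ n, N ≤ n → ∃ s : Finset ℕ, (∀ x ∈ s, M ≤ x) ∧
      ∑ x ∈ s, (C (a : ℤ)).eval (x : ℤ) = n) ↔ a = 1 := by
  constructor
  · intro h
    obtain ⟨N, hN⟩ := h 0
    have hle : N ≤ a * N + 1 := by
      have := Nat.le_mul_of_pos_left N ha
      omega
    obtain ⟨s, -, hsum⟩ := hN (a * N + 1) hle
    have hd : (a : ℤ) ∣ ((a * N + 1 : ℕ) : ℤ) := hsum ▸ dvd_sum fun x _ => by simp
    rwa [Int.natCast_dvd_natCast, Nat.dvd_add_right (dvd_mul_right a N), Nat.dvd_one] at hd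
  · rintro rfl M
    refine ⟨0, fun n _ => ⟨(range n).image fun i => M + i, fun x hx => ?_, ?_⟩⟩
    · obtain ⟨i, -, rfl⟩ := mem_image.1 hx
      omega
    · rw [sum_image fun i _ j _ h => Nat.add_left_cancel h]
      simp

theorem sprague_powers {k : ℕ} (hk : 1 ≤ k) :
    ∃ N : ℕ, ∀ n, N ≤ n → ∃ s : Finset ℕ, (∀ x ∈ s, 0 < x) ∧ ∑ x ∈ s, x ^ k = n := by
  obtain ⟨N, hN⟩ := (graham_polynomial (f := X ^ k) (by rwa [natDegree_X_pow])
    (by rw [(monic_X_pow k).leadingCoeff]; norm_num)).2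
    (fun p hp => ⟨1, by rw [eval_pow, eval_X, one_pow]; exact fun h => hp.ne_one (by
      exact Nat.dvd_one.1 (Int.natCast_dvd_natCast.1 (by simpa using h)))⟩) 1
  refine ⟨N, fun n hn => ?_⟩
  obtain ⟨s, hs, hsum⟩ := hN n hn
  refine ⟨s, fun x hx => hs x hx, ?_⟩
  simp only [eval_pow, eval_X] at hsum
  exact_mod_cast hsum

theorem sprague_squares :
    (∀ n, 128 < n → ∃ s : Finset ℕ, (∀ x ∈ s, 0 < x) ∧ ∑ x ∈ s, x ^ 2 = n) ∧
      ∀ s : Finset ℕ, ∑ x ∈ s, x ^ 2 ≠ 128 :=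
  ⟨exists_distinct_squares, not_distinct_squares⟩

theorem richert_primes :
    (∀ n, 6 < n → ∃ s : Finset ℕ, (∀ p ∈ s, p.Prime) ∧ ∑ p ∈ s, p = n) ∧
      ∀ s : Finset ℕ, (∀ p ∈ s, p.Prime) → ∑ p ∈ s, p ≠ 6 :=
  ⟨exists_distinct_primes, not_distinct_primes_six⟩

end FA.DistinctSummands.Summary
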