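import Fermat.Agent.OrderDensity.Unbounded
import Fermat.Agent.HasseBound.Summary
import Fermat.Agent.Root.SummarySupportProblemAll
import Fermat.Agent.Root.SummaryOpenImageAll

/-!
# The support problem, sharply, at every prime and for every elliptic curve over `ℚ`

For every prime `p`, every `k` and every point of infinite order infinitely many primes `q` have
`p ^ k` dividing the order of the point modulo `q`: an element acting as a scalar (open image), or a
squared Frobenius in the abelian subgroup of index two otherwise, bounds the Kummer defect. So if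
the order of `Q` divides that of `P` modulo almost all primes then `Q = c P` up to torsion with `c`
an integer, and equal orders force `Q = ± P` up to torsion.
-/

set_option autoImplicit false
set_option linter.style.haveILetI false

noncomputable section

open WeierstrassCurve WeierstrassCurve.Affine FA.Frob FA.EC FA.PointDiv
open scoped WeierstrassCurve.Affine

local notation "Qb" => AlgebraicClosure ℚ
local notation "GQ" => AlgebraicClosure ℚ ≃ₐ[ℚ] AlgebraicClosure ℚ

namespace FA.OrderDensity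

open scoped Classical

/-- **An element as in `exists_unbounded_translation`**, for every curve and every prime. -/
theorem exists_commuting_quadratic (W : WeierstrassCurve ℤ) [(ratCurve W).IsElliptic] {p : ℕ}
    [hp : Fact p.Prime] :
    ∃ (H : Subgroup GQ) (a q : ℤ), (H = ⊤ ∨ H.index = 2) ∧ q + 1 - a ≠ 0 ∧
      ∀ N : ℕ, ∃ τ : GQ,
      (∀ σ ∈ H, ∀ y : ((ratCurve W).toAffine⁄Qb).Point, p ^ N • y = 0 → σ • τ • y = τ • σ • y) ∧
      ∀ y : ((ratCurve W).toAffine⁄Qb).Point, p ^ N • y = 0 →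
        τ • τ • y - a • τ • y + q • y = 0 := by
  have hW : W.IsIntegralModelOf (ratCurve W) := ⟨1, one_smul _ _⟩
  by_cases hexc : ∃ d : ℤ, Squarefree d ∧ d ≠ 1 ∧ ∀ l : ℕ, ∀ [Fact l.Prime],
      (∃ C : VariableChange ℚ_[l],
        HasGoodReduction ℤ_[l] (C • (ratCurve W).map (algebraMap ℚ ℚ_[l]))) →
      ¬ IsSquare (d : ZMod l) → (ratCurve W).LFunction l = 0
  · obtain ⟨d, hd, hd1, h⟩ := hexc
    obtain ⟨s, H, hs, hH, hopen, hfix⟩ := FA.OpenImageAll.exists_index_two_of_sqrt hd hd1
    have hE := FA.CMStructure.isExceptional_of_curve (E := ratCurve W) (W := W) hW hd hd1 h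
    obtain ⟨l, hlb, hl⟩ := Nat.exists_infinite_primes (p + W.Δ.natAbs + 1)
    have hgood : W.IsGoodPrimeFor l := fun e => by
      have := Nat.le_of_dvd (Int.natAbs_pos.mpr (Δ_ne_zero_of_model hW)) (Int.natCast_dvd.mp e)
      omega
    haveI := Fact.mk hl
    obtain ⟨A, hA⟩ := FA.Deform.exists_liesOverPrime hl
    obtain ⟨F, hF⟩ := FA.Deform.exists_isFrobeniusAt hl hA
    set a := W.apOfModel l
    have hb : a ^ 2 ≤ 4 * (l : ℤ) := by
      rw [show a = W.apOfModel l from rfl, ← FA.Root.LFunction_apply_prime _ W hW hl hgood]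
      exact FA.Summary.hasse_LFunction _ W 1 (one_smul _ _) hl hgood
    refine ⟨H, a ^ 2 - 2 * l, (l : ℤ) ^ 2, Or.inr hH, ?_, fun N => ⟨F * F, ?_, fun y hy => ?_⟩⟩
    · have h2 : (2 : ℤ) ≤ l := by exact_mod_cast hl.two_le
      nlinarith
    · intro σ hσ y hy
      exact FA.Exceptional.smul_comm_of_fixed hd.ne_zero hs hH hopen hfix hE.vanish hσ
        (Subgroup.mul_self_mem_of_index_two hH F)
        (isOfFinAddOrder_iff_nsmul_eq_zero.mpr ⟨p ^ N, pow_pos hp.out.pos N, hy⟩)
    · have hr := (FA.RT.Tate.frobenius_relations (W := W) (p := p) hl hA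
        (show l ≠ p by omega) hgood hF).1 N
      have h0 : ∀ z : ((ratCurve W).toAffine⁄Qb).Point, p ^ N • z = 0 →
          F • F • z = a • F • z - (l : ℤ) • z := fun z hz => by
        rw [← sub_eq_zero, ← hr z hz]; abel
      have h1 : p ^ N • (F • y) = 0 := by
        rw [← FA.RT.Tate.gal_smul_nsmul, hy]; exact FA.Local.gal_smul_zero _ F
      have h2 : p ^ N • (F • F • y) = 0 := by
        rw [← FA.RT.Tate.gal_smul_nsmul, h1]; exact FA.Local.gal_smul_zero _ F
      rw [mul_smul, mul_smul, h0 _ h2, h0 _ h1, h0 _ hy]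
      generalize F • y = u
      module
  · obtain ⟨m, hm, hmN⟩ := (FA.Summary.serreOpenImage_adelic_iff (ratCurve W)
      (inst := instDecEqAlgebraicClosureRat)).mpr hexc
    set c : ℤ := 1 + (m : ℤ) * p with hc
    refine ⟨⊤, 2 * c, c ^ 2, Or.inl rfl, ?_, fun N => ?_⟩
    · rw [show c ^ 2 + 1 - 2 * c = ((m : ℤ) * p) ^ 2 by rw [hc]; ring]
      exact pow_ne_zero _ (mul_ne_zero (by exact_mod_cast hm.ne')
        (by exact_mod_cast hp.out.ne_zero))
    obtain ⟨u, v, huv⟩ : IsCoprime c ((p : ℤ) ^ N) :=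
      IsCoprime.pow_right ⟨1, -(m : ℤ), by rw [hc]; ring⟩
    set T := Submodule.torsionBy ℤ ((ratCurve W).toAffine⁄Qb).Point ((p ^ N : ℕ) : ℤ)
    have hT : ∀ z : T, ((p : ℤ) ^ N) • z = 0 := fun z => Subtype.ext (by
      rw [← Nat.cast_pow]; exact (Submodule.mem_torsionBy_iff _ _).mp z.2)
    have hcu : ∀ z : T, (u * c) • z = z := fun z => by
      conv_rhs => rw [← one_zsmul z, ← huv, add_zsmul, mul_zsmul _ v, hT, zsmul_zero, add_zero]
    let φ : T ≃+ T :=
      { toFun := fun z => c • z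
        invFun := fun z => u • z
        left_inv := fun z => by show u • c • z = z; rw [← mul_smul, hcu]
        right_inv := fun z => by show c • u • z = z; rw [← mul_smul, mul_comm, hcu]
        map_add' := fun z w => smul_add c z w }
    obtain ⟨τ, hτ⟩ := hmN (p ^ N) (pow_ne_zero _ hp.out.ne_zero) φ fun z hz => Subtype.ext (by
      show c • z.1 = z.1
      rw [hc, add_zsmul, one_zsmul, mul_comm, mul_zsmul, natCast_zsmul z.1 m, hz, zsmul_zero,
        add_zero])
    have hτ' : ∀ y : ((ratCurve W).toAffine⁄Qb).Point, p ^ N • y = 0 → τ • y = c • y :=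
      fun y hy => hτ ⟨y, by rw [Submodule.mem_torsionBy_iff, natCast_zsmul]; exact hy⟩
    refine ⟨τ, fun σ _ y hy => ?_, fun y hy => ?_⟩
    · rw [hτ' y hy, hτ' (σ • y) (by
        rw [← FA.RT.Tate.gal_smul_nsmul, hy]; exact FA.Local.gal_smul_zero _ σ),
        FA.RT.Tate.gal_smul_zsmul]
    · rw [hτ' y hy, FA.RT.Tate.gal_smul_zsmul, hτ' y hy]
      module

/-- The relation between two points holds modulo the good primes. -/
theorem zsmul_eq_mod (W : WeierstrassCurve ℤ) [(ratCurve W).IsElliptic] {x y x' y' : ℚ}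
    {h : (ratCurve W).toAffine.Nonsingular x y} {h' : (ratCurve W).toAffine.Nonsingular x' y'}
    {a b : ℤ} (e : a • Affine.Point.some x' y' h' = b • Affine.Point.some x y h) {q : ℕ}
    [hq : Fact q.Prime] (hnd : ¬ q ∣ W.Δ.natAbs * x.den * y.den * x'.den * y'.den)
    (k : (W.map (Int.castRingHom (ZMod q))).toAffine.Nonsingular (x : ZMod q) y)
    (k' : (W.map (Int.castRingHom (ZMod q))).toAffine.Nonsingular (x' : ZMod q) y') :
    a • Affine.Point.some (x' : ZMod q) (y' : ZMod q) k' =
      b • Affine.Point.some (x : ZMod q) (y : ZMod q) k := by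
  have hgood : W.IsGoodPrimeFor q := fun e' => hnd
    (((((Int.natCast_dvd.mp e')).mul_right _).mul_right _).mul_right _ |>.mul_right _)
  obtain ⟨A, hA⟩ := FA.Deform.exists_liesOverPrime hq.out
  haveI : CharP (Res A) q := residueField_charP A hq.out hA
  haveI := reductionMod_isElliptic W hgood
  haveI := redCurve_isElliptic (intCoeff_ratCurve W A) (valuation_Δ_ratCurve W hq.out hA hgood)
  obtain ⟨_, hP⟩ := redHom_up W hA hgood h
    (fun e' => hnd ((((e'.mul_left _).mul_right _).mul_right _).mul_right _))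
    (fun e' => hnd (((e'.mul_left _).mul_right _).mul_right _))
  obtain ⟨_, hQ⟩ := redHom_up W hA hgood h'
    (fun e' => hnd ((e'.mul_left _).mul_right _)) (fun e' => hnd (e'.mul_left _))
  refine mapHom_injective (ZMod.castHom (dvd_refl q) (Res A)) (map_castHom W (A := A)) ?_
  rw [map_zsmul, map_zsmul, ← hP, ← hQ]
  simp only [← map_zsmul]
  rw [e]

end FA.OrderDensity

namespace FA.Summary

open FA.OrderDensity

/-- **Every prime power divides the order modulo infinitely many primes**: every elliptic curve over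
`ℚ`, every point of infinite order, every prime `p` and every `k`. -/
theorem pow_dvd_order_all (W : WeierstrassCurve ℤ) [(W.map (Int.castRingHom ℚ)).IsElliptic]
    {x y : ℚ} (h : (W.map (Int.castRingHom ℚ)).toAffine.Nonsingular x y)
    (hP : ¬ IsOfFinAddOrder (Affine.Point.some x y h)) {p : ℕ} (hp : p.Prime) (k : ℕ) :
    {q : ℕ | q.Prime ∧ ∃ _ : Fact q.Prime,
      ∃ k' : (W.map (Int.castRingHom (ZMod q))).toAffine.Nonsingular (x : ZMod q) y,
        p ^ k ∣ addOrderOf (Affine.Point.some (x : ZMod q) (y : ZMod q) k')}.Infinite := by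
  classical
  haveI : (ratCurve W).IsElliptic := ‹(W.map (Int.castRingHom ℚ)).IsElliptic›
  haveI := Fact.mk hp
  obtain ⟨H, a, q, hH, hn, hτ⟩ := exists_commuting_quadratic W (p := p)
  obtain ⟨N, hσ⟩ := exists_unbounded_translation (P := .some x y h) hH hn hτ hP k
  refine (infinite_pow_succ_dvd_addOrderOf h hσ).mono ?_
  rintro l ⟨hl, inst', k', hd⟩
  exact ⟨hl, inst', k', (pow_dvd_pow p k.le_succ).trans hd⟩

/-- **The sharp support problem for every elliptic curve over `ℚ`**: if the order of `Q` divides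
that of the point `P` of infinite order modulo almost all primes, then `Q` differs from an integral
multiple of `P` by torsion. -/
theorem supportProblem_sharp_all (W : WeierstrassCurve ℤ)
    [(W.map (Int.castRingHom ℚ)).IsElliptic]
    {x y x' y' : ℚ} (h : (W.map (Int.castRingHom ℚ)).toAffine.Nonsingular x y)
    (h' : (W.map (Int.castRingHom ℚ)).toAffine.Nonsingular x' y')
    (hP : ¬ IsOfFinAddOrder (Affine.Point.some x y h))
    (hmem : {q : ℕ | q.Prime ∧ ¬ ∃ _ : Fact q.Prime,
      ∃ k : (W.map (Int.castRingHom (ZMod q))).toAffine.Nonsingular (x : ZMod q) y,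
      ∃ k' : (W.map (Int.castRingHom (ZMod q))).toAffine.Nonsingular (x' : ZMod q) y',
      addOrderOf (Affine.Point.some (x' : ZMod q) (y' : ZMod q) k') ∣
        addOrderOf (Affine.Point.some (x : ZMod q) (y : ZMod q) k)}.Finite) :
    ∃ c : ℤ, IsOfFinAddOrder (Affine.Point.some x' y' h' - c • Affine.Point.some x y h) := by
  haveI : (ratCurve W).IsElliptic := ‹(W.map (Int.castRingHom ℚ)).IsElliptic›
  obtain ⟨a, b, ha, e⟩ := supportProblem_all W h h' hP hmem
  suffices hab : a ∣ b by
    obtain ⟨c, rfl⟩ := hab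
    refine ⟨c, ?_⟩
    rw [isOfFinAddOrder_iff_zsmul_eq_zero]
    exact ⟨a, ha, by rw [zsmul_sub, e, ← mul_zsmul, sub_self]⟩
  rw [← Int.natAbs_dvd, ← Int.dvd_natAbs, Int.natCast_dvd_natCast,
    Nat.dvd_iff_prime_pow_dvd_dvd]
  intro r i hr hi
  set D := W.Δ.natAbs * x.den * y.den * x'.den * y'.den
  have hD : D ≠ 0 := by
    have hΔ : W.Δ.natAbs ≠ 0 := fun e => (ratCurve W).isUnit_Δ.ne_zero (by
      simp [ratCurve, Int.natAbs_eq_zero.mp e])
    simp [D, hΔ]
  obtain ⟨q, ⟨hq, hF, k, hk⟩, hnot⟩ :=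
    ((pow_dvd_order_all W h hP hr i).sdiff (hmem.union D.divisors.finite_toSet)).nonempty
  simp only [Set.mem_union, not_or, Finset.mem_coe, Nat.mem_divisors] at hnot
  obtain ⟨_, _, k', hd⟩ : ∃ _ : Fact q.Prime, ∃ _ : (W.map (Int.castRingHom
      (ZMod q))).toAffine.Nonsingular (x : ZMod q) y, ∃ k' : (W.map (Int.castRingHom
      (ZMod q))).toAffine.Nonsingular (x' : ZMod q) y',
      addOrderOf (Affine.Point.some (x' : ZMod q) (y' : ZMod q) k') ∣
        addOrderOf (Affine.Point.some (x : ZMod q) (y : ZMod q) k) := by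
    by_contra hcon
    exact hnot.1 ⟨hq, fun ⟨i', a', b', c'⟩ => hcon ⟨i', a', b', c'⟩⟩
  have e' := zsmul_eq_mod W e (fun hq' => hnot.2 ⟨hq', hD⟩) k k'
  exact Int.natCast_dvd.mp (dvd_of_orders e' hd hk (Int.natCast_dvd.mpr hi))

/-- **Equal orders** (Erdős' question): if `P` of infinite order and `Q` have the same order modulo
almost all primes, then `Q` is `P` or `-P` up to torsion. -/
theorem supportProblem_equal_orders_all (W : WeierstrassCurve ℤ)
    [(W.map (Int.castRingHom ℚ)).IsElliptic]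
    {x y x' y' : ℚ} (h : (W.map (Int.castRingHom ℚ)).toAffine.Nonsingular x y)
    (h' : (W.map (Int.castRingHom ℚ)).toAffine.Nonsingular x' y')
    (hP : ¬ IsOfFinAddOrder (Affine.Point.some x y h))
    (hmem : {q : ℕ | q.Prime ∧ ¬ ∃ _ : Fact q.Prime,
      ∃ k : (W.map (Int.castRingHom (ZMod q))).toAffine.Nonsingular (x : ZMod q) y,
      ∃ k' : (W.map (Int.castRingHom (ZMod q))).toAffine.Nonsingular (x' : ZMod q) y',
      addOrderOf (Affine.Point.some (x' : ZMod q) (y' : ZMod q) k') =
        addOrderOf (Affine.Point.some (x : ZMod q) (y : ZMod q) k)}.Finite) :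
    IsOfFinAddOrder (Affine.Point.some x' y' h' - Affine.Point.some x y h) ∨
      IsOfFinAddOrder (Affine.Point.some x' y' h' + Affine.Point.some x y h) := by
  haveI : (ratCurve W).IsElliptic := ‹(W.map (Int.castRingHom ℚ)).IsElliptic›
  obtain ⟨c, hc⟩ := supportProblem_sharp_all W h h' hP (hmem.subset
    fun q ⟨hq, hn⟩ => ⟨hq, fun ⟨i, k, k', e⟩ => hn ⟨i, k, k', e ▸ dvd_rfl⟩⟩)
  obtain ⟨a, ha, hac⟩ := isOfFinAddOrder_iff_zsmul_eq_zero.mp hc
  rw [zsmul_sub, sub_eq_zero, ← mul_zsmul] at hac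
  suffices hdvd : a * c ∣ a by
    have h1 : c.natAbs = 1 := by
      obtain ⟨u, hu⟩ := hdvd
      have h2 : c * u = 1 := mul_left_cancel₀ ha (by linear_combination -hu)
      exact Int.isUnit_iff_natAbs_eq.mp (IsUnit.of_mul_eq_one u h2)
    rcases Int.natAbs_eq c with h2 | h2 <;> rw [h1, Nat.cast_one] at h2 <;> subst h2
    · left; rwa [one_zsmul] at hc
    · right; rwa [neg_one_zsmul, sub_neg_eq_add] at hc
  rw [← Int.natAbs_dvd, ← Int.dvd_natAbs, Int.natCast_dvd_natCast,
    Nat.dvd_iff_prime_pow_dvd_dvd]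
  intro r i hr hi
  set D := W.Δ.natAbs * x.den * y.den * x'.den * y'.den
  have hD : D ≠ 0 := by
    have hΔ : W.Δ.natAbs ≠ 0 := fun e => (ratCurve W).isUnit_Δ.ne_zero (by
      simp [ratCurve, Int.natAbs_eq_zero.mp e])
    simp [D, hΔ]
  obtain ⟨q, ⟨hq, hF, k, hk⟩, hnot⟩ :=
    ((pow_dvd_order_all W h hP hr i).sdiff (hmem.union D.divisors.finite_toSet)).nonempty
  simp only [Set.mem_union, not_or, Finset.mem_coe, Nat.mem_divisors] at hnot
  obtain ⟨_, _, k', hd⟩ : ∃ _ : Fact q.Prime, ∃ _ : (W.map (Int.castRingHom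
      (ZMod q))).toAffine.Nonsingular (x : ZMod q) y, ∃ k' : (W.map (Int.castRingHom
      (ZMod q))).toAffine.Nonsingular (x' : ZMod q) y',
      addOrderOf (Affine.Point.some (x' : ZMod q) (y' : ZMod q) k') =
        addOrderOf (Affine.Point.some (x : ZMod q) (y : ZMod q) k) := by
    by_contra hcon
    exact hnot.1 ⟨hq, fun ⟨i', a', b', c'⟩ => hcon ⟨i', a', b', c'⟩⟩
  have e' := zsmul_eq_mod W hac (fun hq' => hnot.2 ⟨hq', hD⟩) k k'
  exact Int.natCast_dvd.mp (dvd_of_orders e'.symm (hd ▸ dvd_rfl) (hd ▸ hk)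
    (Int.natCast_dvd.mpr hi))

end FA.Summary

end
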