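import Fermat.Agent.OrderDensity.Exact
import Fermat.Agent.Root.SummarySupportProblemSharp

/-!
# Exact detection of linear dependence, for every elliptic curve over `ℚ`

For every prime `p`, every `k` and every point of infinite order there are infinitely many primes
modulo which `p ^ k` divides the order of the point exactly (Pink). With `k = 0` no nonzero torsion
point is a multiple of the point modulo almost all primes, so the sharp support problem becomes
exact: `Q` is a multiple of `P` if and only if it is one modulo almost all primes.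
-/

set_option autoImplicit false
set_option linter.style.haveILetI false

noncomputable section

open WeierstrassCurve WeierstrassCurve.Affine FA.Frob FA.EC FA.PointDiv
open scoped WeierstrassCurve.Affine Classical

local notation "Qb" => AlgebraicClosure ℚ
local notation "GQ" => AlgebraicClosure ℚ ≃ₐ[ℚ] AlgebraicClosure ℚ

namespace FA.OrderDensity

/-- A nonzero rational point reduces to a nonzero point away from its denominators. -/
theorem red_up_ne_zero (W : WeierstrassCurve ℤ) [(ratCurve W).IsElliptic]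
    (T : (ratCurve W).toAffine.Point) (hT : T ≠ 0) :
    ∃ d : ℕ, d ≠ 0 ∧ ∀ {q : ℕ} [Fact q.Prime] {A : ValuationSubring Qb} [CharP (Res A) q]
      [(redCurve A ((ratCurve W)⁄Qb).toAffine (intCoeff_ratCurve W A)).IsElliptic]
      (hA : A.LiesOverPrime q) (hgood : W.IsGoodPrimeFor q), ¬ q ∣ d →
      redHom (intCoeff_ratCurve W A) (valuation_Δ_ratCurve W Fact.out hA hgood) (up W T) ≠ 0 := by
  rcases T with _ | ⟨a, b, hab⟩
  · exact absurd rfl hT
  refine ⟨a.den * b.den, mul_ne_zero a.den_nz b.den_nz, fun {q} _ {A} _ _ hA hgood hq => ?_⟩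
  obtain ⟨k, e⟩ := redHom_up W hA hgood hab (fun e => hq (e.mul_right _))
    (fun e => hq (e.mul_left _))
  rw [e, mapHom_some]
  exact Affine.Point.some_ne_zero _

end FA.OrderDensity

namespace FA.Summary

open FA.OrderDensity

/-- **The Kummer images are large at every prime**: for every elliptic curve over `ℚ`, every point
`P` of infinite order and every prime `p` there is a constant `B` such that every translation of a
`pⁿ`-th part of `P` by a point killed by `p ^ (n - B)` is given by an element of Galois fixing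
`E[pⁿ]` (Bashmakov, Ribet). -/
theorem kummerTranslations_primePow_all (W : WeierstrassCurve ℤ)
    [(W.map (Int.castRingHom ℚ)).IsElliptic] [inst : DecidableEq (AlgebraicClosure ℚ)]
    (P : (W.map (Int.castRingHom ℚ)).toAffine.Point) (hP : ¬ IsOfFinAddOrder P) {p : ℕ}
    (hp : p.Prime) :
    ∃ B : ℕ, ∀ (n : ℕ)
      (Q : ((W.map (Int.castRingHom ℚ)).toAffine⁄(AlgebraicClosure ℚ)).Point),
      p ^ n • Q =
        Affine.Point.map (W' := (W.map (Int.castRingHom ℚ)).toAffine) (Algebra.ofId ℚ Qb) P →
      ∀ t : ((W.map (Int.castRingHom ℚ)).toAffine⁄(AlgebraicClosure ℚ)).Point,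
      p ^ (n - B) • t = 0 →
      ∃ g : GQ, (∀ T : ((W.map (Int.castRingHom ℚ)).toAffine⁄(AlgebraicClosure ℚ)).Point,
          p ^ n • T = 0 → Affine.Point.map g.toAlgHom T = T) ∧
        Affine.Point.map g.toAlgHom Q = Q + t := by
  obtain rfl : inst = instDecEqAlgebraicClosureRat := Subsingleton.elim _ _
  haveI : (ratCurve W).IsElliptic := ‹(W.map (Int.castRingHom ℚ)).IsElliptic›
  haveI := Fact.mk hp
  obtain ⟨B, hB⟩ := exists_bound_translations W (p := p) hP
  exact ⟨B, fun n Q hQ t ht => hB n Q (hQ.trans (by cases P <;> rfl)) t ht⟩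

/-- **Every prime power occurs exactly in the order**: for every elliptic curve over `ℚ`, every
point of infinite order, every prime `p` and every `k` there are infinitely many primes modulo which
the order of the point is divisible by exactly `p ^ k` (Pink). -/
theorem orderPrimePart_exact_all (W : WeierstrassCurve ℤ)
    [(W.map (Int.castRingHom ℚ)).IsElliptic]
    {x y : ℚ} (h : (W.map (Int.castRingHom ℚ)).toAffine.Nonsingular x y)
    (hP : ¬ IsOfFinAddOrder (Affine.Point.some x y h)) {p : ℕ} (hp : p.Prime) (k : ℕ) :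
    {q : ℕ | q.Prime ∧ ∃ _ : Fact q.Prime,
      ∃ k' : (W.map (Int.castRingHom (ZMod q))).toAffine.Nonsingular (x : ZMod q) y,
        p ^ k ∣ addOrderOf (Affine.Point.some (x : ZMod q) (y : ZMod q) k') ∧
          ¬ p ^ (k + 1) ∣
            addOrderOf (Affine.Point.some (x : ZMod q) (y : ZMod q) k')}.Infinite := by
  haveI : (ratCurve W).IsElliptic := ‹(W.map (Int.castRingHom ℚ)).IsElliptic›
  haveI := Fact.mk hp
  obtain ⟨M, σ, hfix, Q, hQ, hu, hmin⟩ :=
    exists_translation_exact W (p := p) (P := .some x y h) hP k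
  exact infinite_exact_addOrderOf W h hfix hQ hu hmin

/-- **Exact detection of linear dependence**: for every elliptic curve over `ℚ`, if a rational point
`Q` is a multiple of the point `P` modulo almost all primes then it is a multiple of `P`. -/
theorem detectLinearDependence_exact (W : WeierstrassCurve ℤ)
    [(W.map (Int.castRingHom ℚ)).IsElliptic]
    {x y x' y' : ℚ} (h : (W.map (Int.castRingHom ℚ)).toAffine.Nonsingular x y)
    (h' : (W.map (Int.castRingHom ℚ)).toAffine.Nonsingular x' y')
    (hmem : {q : ℕ | q.Prime ∧ ¬ ∃ _ : Fact q.Prime,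
      ∃ k : (W.map (Int.castRingHom (ZMod q))).toAffine.Nonsingular (x : ZMod q) y,
      ∃ k' : (W.map (Int.castRingHom (ZMod q))).toAffine.Nonsingular (x' : ZMod q) y',
      Affine.Point.some (x' : ZMod q) (y' : ZMod q) k' ∈
        AddSubgroup.zmultiples (Affine.Point.some (x : ZMod q) (y : ZMod q) k)}.Finite) :
    Affine.Point.some x' y' h' ∈ AddSubgroup.zmultiples (Affine.Point.some x y h) := by
  haveI : (ratCurve W).IsElliptic := ‹(W.map (Int.castRingHom ℚ)).IsElliptic›
  set P := Affine.Point.some x y h with hPdef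
  set Q := Affine.Point.some x' y' h' with hQdef
  set D := W.Δ.natAbs * x.den * y.den * x'.den * y'.den
  have hD : D ≠ 0 := by
    have hΔ : W.Δ.natAbs ≠ 0 := fun e => (ratCurve W).isUnit_Δ.ne_zero (by
      simp [ratCurve, Int.natAbs_eq_zero.mp e])
    simp [D, hΔ]
  -- at a prime outside a finite set the reduction of `Q` is a multiple of that of `P`
  have key : ∀ (s : Set ℕ), s.Infinite → (∀ q ∈ s, q.Prime) → ∀ d : ℕ, d ≠ 0 →
      ∃ q ∈ s, ∃ _ : Fact q.Prime, ∃ A : ValuationSubring Qb, ∃ _ : CharP (Res A) q,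
        ∃ _ : (redCurve A ((ratCurve W)⁄Qb).toAffine (intCoeff_ratCurve W A)).IsElliptic,
        ∃ (hA : A.LiesOverPrime q) (hgood : W.IsGoodPrimeFor q), ¬ q ∣ d ∧
          ∃ (k : (W.map (Int.castRingHom (ZMod q))).toAffine.Nonsingular (x : ZMod q) y) (j : ℤ),
            redHom (intCoeff_ratCurve W A) (valuation_Δ_ratCurve W Fact.out hA hgood) (up W P) =
              mapHom (ZMod.castHom (dvd_refl q) (Res A)) (map_castHom W)
                (Affine.Point.some (x : ZMod q) (y : ZMod q) k) ∧
            redHom (intCoeff_ratCurve W A) (valuation_Δ_ratCurve W Fact.out hA hgood) (up W Q) =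
              j • redHom (intCoeff_ratCurve W A) (valuation_Δ_ratCurve W Fact.out hA hgood)
                (up W P) := by
    intro s hs hsp d hd
    obtain ⟨q, hqs, hnot⟩ :=
      (hs.sdiff (hmem.union (D * d).divisors.finite_toSet)).nonempty
    simp only [Set.mem_union, not_or, Finset.mem_coe, Nat.mem_divisors] at hnot
    have hnd : ∀ {m : ℕ}, m ∣ D * d → ¬ q ∣ m := fun hm e =>
      hnot.2 ⟨e.trans hm, mul_ne_zero hD hd⟩
    haveI := Fact.mk (hsp q hqs)
    obtain ⟨_, k, k', hk⟩ : ∃ _ : Fact q.Prime,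
        ∃ k : (W.map (Int.castRingHom (ZMod q))).toAffine.Nonsingular (x : ZMod q) y,
        ∃ k' : (W.map (Int.castRingHom (ZMod q))).toAffine.Nonsingular (x' : ZMod q) y',
        Affine.Point.some (x' : ZMod q) (y' : ZMod q) k' ∈
          AddSubgroup.zmultiples (Affine.Point.some (x : ZMod q) (y : ZMod q) k) := by
      by_contra hcon
      exact hnot.1 ⟨hsp q hqs, hcon⟩
    obtain ⟨j, hj⟩ := AddSubgroup.mem_zmultiples_iff.mp hk
    have hgood : W.IsGoodPrimeFor q := fun e' => hnd (dvd_mul_right D d)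
      (((((Int.natCast_dvd.mp e')).mul_right _).mul_right _).mul_right _ |>.mul_right _)
    obtain ⟨A, hA⟩ := FA.Deform.exists_liesOverPrime (hsp q hqs)
    haveI := reductionMod_isElliptic W hgood
    haveI : CharP (Res A) q := residueField_charP A (hsp q hqs) hA
    haveI := redCurve_isElliptic (intCoeff_ratCurve W A)
      (valuation_Δ_ratCurve W (hsp q hqs) hA hgood)
    have hdvd : ∀ {m : ℕ}, m ∣ D → ¬ q ∣ m := fun hm => hnd (hm.mul_right d)
    obtain ⟨_, hPq⟩ := redHom_up W hA hgood h
      (hdvd ((((dvd_mul_left _ _).mul_right _).mul_right _).mul_right _))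
      (hdvd (((dvd_mul_left _ _).mul_right _).mul_right _))
    obtain ⟨_, hQq⟩ := redHom_up W hA hgood h'
      (hdvd ((dvd_mul_left _ _).mul_right _)) (hdvd (dvd_mul_left _ _))
    refine ⟨q, hqs, inferInstance, A, inferInstance, inferInstance, hA, hgood,
      hnd (dvd_mul_left d D), k, j, hPq, ?_⟩
    rw [hPdef, hQdef, hQq, hPq, ← map_zsmul, hj]
  by_cases hP : IsOfFinAddOrder P
  · -- the finitely many multiples
    set n := addOrderOf P
    have hn : 0 < n := hP.addOrderOf_pos
    by_contra hne
    choose d hd0 hd using fun i : Fin n => red_up_ne_zero W (Q - (i : ℕ) • P) fun e => hne (by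
      rw [sub_eq_zero.mp e]; exact AddSubgroup.nsmul_mem_zmultiples _ _)
    obtain ⟨q, hq, _, A, _, _, hA, hgood, hnd, k, j, -, hj⟩ :=
      key _ Nat.infinite_setOfPred_prime (fun q hq => hq) (∏ i, d i)
        (Finset.prod_ne_zero_iff.mpr fun i _ => hd0 i)
    obtain ⟨i, hi⟩ : ∃ i : Fin n, j • P = (i : ℕ) • P := by
      refine ⟨⟨(j % n).toNat, ?_⟩, ?_⟩
      · have := Int.emod_lt_of_pos j (show (0 : ℤ) < n by omega)
        have := Int.emod_nonneg j (show (n : ℤ) ≠ 0 by omega)
        omega
      · show j • P = (j % n).toNat • P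
        rw [← natCast_zsmul, Int.toNat_of_nonneg (Int.emod_nonneg j (by omega)),
          ← mod_addOrderOf_zsmul P j]
    refine hd i hA hgood (fun e => hnd (e.trans (Finset.dvd_prod_of_mem _ (Finset.mem_univ i)))) ?_
    rw [← hi, map_sub, map_sub, map_zsmul, map_zsmul, hj, sub_self]
  obtain ⟨c, hc⟩ := supportProblem_sharp_all W h h' hP (hmem.subset
    fun q ⟨hq, hn⟩ => ⟨hq, fun ⟨i, k, k', e⟩ => hn ⟨i, k, k',
      addOrderOf_dvd_of_mem_zmultiples e⟩⟩)
  by_contra hne
  set T := Q - c • P
  have hT : T ≠ 0 := fun e => hne (by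
    rw [sub_eq_zero.mp e]; exact AddSubgroup.zsmul_mem_zmultiples _ _)
  obtain ⟨r, hr, b, hb⟩ := Nat.exists_prime_and_dvd
    (fun e => hT (AddMonoid.addOrderOf_eq_one_iff.mp e))
  have hb0 : b • T ≠ 0 := fun e => by
    have h1 := addOrderOf_dvd_of_nsmul_eq_zero e
    have h2 : 0 < addOrderOf T := hc.addOrderOf_pos
    have h3 : 0 < b := Nat.pos_of_ne_zero fun e0 => by rw [hb, e0, mul_zero] at h2; omega
    rw [hb] at h1
    have := Nat.le_of_dvd h3 h1
    nlinarith [hr.two_le]
  obtain ⟨d, hd0, hd⟩ := red_up_ne_zero W (b • T) hb0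
  obtain ⟨q, ⟨hq, _, k₀, -, hk₀⟩, _, A, _, _, hA, hgood, hnd, k, j, hPq, hj⟩ :=
    key _ (orderPrimePart_exact_all W h hP hr 0) (fun q hq => hq.1) d hd0
  refine hk₀ ?_
  rw [zero_add, pow_one]
  set red := (redHom (intCoeff_ratCurve W A) (valuation_Δ_ratCurve W Fact.out hA hgood)).comp
    (up W) with hred
  have hz : red (b • T) = ((b : ℤ) * (j - c)) • red P := by
    rw [map_nsmul, map_sub, map_zsmul, show red Q = j • red P from hj, ← sub_smul, mul_zsmul,
      natCast_zsmul]
  have hr0 : r • red (b • T) = 0 := by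
    rw [← map_nsmul, ← mul_nsmul', ← hb, addOrderOf_nsmul_eq_zero, map_zero]
  have hord : addOrderOf (red (b • T)) = r :=
    addOrderOf_eq_prime (hp := ⟨hr⟩) hr0 (hd hA hgood hnd)
  have hdvd : r ∣ addOrderOf (red P) := by
    rw [← hord, hz]
    exact addOrderOf_dvd_of_mem_zmultiples (AddSubgroup.zsmul_mem_zmultiples _ _)
  rwa [show red P = _ from hPq, addOrderOf_injective _ (mapHom_injective _ _)] at hdvd

/-- **A multiple if and only if one modulo almost all primes.** -/
theorem detectLinearDependence_iff (W : WeierstrassCurve ℤ)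
    [(W.map (Int.castRingHom ℚ)).IsElliptic]
    {x y x' y' : ℚ} (h : (W.map (Int.castRingHom ℚ)).toAffine.Nonsingular x y)
    (h' : (W.map (Int.castRingHom ℚ)).toAffine.Nonsingular x' y') :
    {q : ℕ | q.Prime ∧ ¬ ∃ _ : Fact q.Prime,
      ∃ k : (W.map (Int.castRingHom (ZMod q))).toAffine.Nonsingular (x : ZMod q) y,
      ∃ k' : (W.map (Int.castRingHom (ZMod q))).toAffine.Nonsingular (x' : ZMod q) y',
      Affine.Point.some (x' : ZMod q) (y' : ZMod q) k' ∈
        AddSubgroup.zmultiples (Affine.Point.some (x : ZMod q) (y : ZMod q) k)}.Finite ↔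
    Affine.Point.some x' y' h' ∈ AddSubgroup.zmultiples (Affine.Point.some x y h) := by
  refine ⟨detectLinearDependence_exact W h h', fun hm => ?_⟩
  haveI : (ratCurve W).IsElliptic := ‹(W.map (Int.castRingHom ℚ)).IsElliptic›
  obtain ⟨c, hc⟩ := AddSubgroup.mem_zmultiples_iff.mp hm
  set D := W.Δ.natAbs * x.den * y.den * x'.den * y'.den
  have hD : D ≠ 0 := by
    have hΔ : W.Δ.natAbs ≠ 0 := fun e => (ratCurve W).isUnit_Δ.ne_zero (by
      simp [ratCurve, Int.natAbs_eq_zero.mp e])
    simp [D, hΔ]
  refine D.divisors.finite_toSet.subset fun q ⟨hq, hn⟩ => ?_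
  by_contra hqD
  simp only [Finset.mem_coe, Nat.mem_divisors, not_and] at hqD
  have hnd : ¬ q ∣ D := fun e => hqD e hD
  haveI := Fact.mk hq
  have hgood : W.IsGoodPrimeFor q := fun e' => hnd
    (((((Int.natCast_dvd.mp e')).mul_right _).mul_right _).mul_right _ |>.mul_right _)
  obtain ⟨A, hA⟩ := FA.Deform.exists_liesOverPrime hq
  haveI : CharP (Res A) q := residueField_charP A hq hA
  haveI := reductionMod_isElliptic W hgood
  haveI := redCurve_isElliptic (intCoeff_ratCurve W A) (valuation_Δ_ratCurve W hq hA hgood)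
  obtain ⟨k, -⟩ := redHom_up W hA hgood h
    (fun e' => hnd ((((e'.mul_left _).mul_right _).mul_right _).mul_right _))
    (fun e' => hnd (((e'.mul_left _).mul_right _).mul_right _))
  obtain ⟨k', -⟩ := redHom_up W hA hgood h'
    (fun e' => hnd ((e'.mul_left _).mul_right _)) (fun e' => hnd (e'.mul_left _))
  have e := zsmul_eq_mod W (a := 1) ((one_zsmul _).trans hc.symm) hnd k k'
  rw [one_zsmul] at e
  exact hn ⟨inferInstance, k, k', AddSubgroup.mem_zmultiples_iff.mpr ⟨c, e.symm⟩⟩

end FA.Summary

end
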