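import Fermat.Agent.SubgroupDetection.Prescribed
import Fermat.Agent.SubgroupDetection.Separate
import Fermat.Agent.Root.SummarySubgroupDetectionAll
import Fermat.Agent.Root.SummaryLinearDependenceExact

/-!
# Membership in a subgroup of rational points is detected exactly modulo primes

For every elliptic curve over `ℚ` and finitely many rational points a point is in the subgroup
which they generate if and only if it is so modulo almost all primes (Jossen). Up to a multiplier
this is known; a point `R ∉ X` with `p R ∈ X` is separated from `X` by a homomorphism to points of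
`p`-power order, and infinitely many primes give the `p`-parts of the reductions of a basis the
prescribed values. Kummer theory of independent families at every prime is the input.
-/

set_option autoImplicit false
set_option linter.style.haveILetI false

noncomputable section

open WeierstrassCurve WeierstrassCurve.Affine FA.Frob FA.EC FA.PointDiv
open scoped WeierstrassCurve.Affine Classical

local notation "Qb" => AlgebraicClosure ℚ
local notation "GQ" => AlgebraicClosure ℚ ≃ₐ[ℚ] AlgebraicClosure ℚ

namespace FA.SubgroupDetection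

/-- Reduction is injective on the points of `p`-power order. -/
theorem red_eq_zero_of_pow {W : WeierstrassCurve ℤ} [(ratCurve W).IsElliptic] {q p : ℕ}
    [Fact q.Prime] (hp : p.Prime) (hqp : q ≠ p) {A : ValuationSubring Qb}
    (hA : A.LiesOverPrime q) (hgood : W.IsGoodPrimeFor q)
    [(redCurve A ((ratCurve W)⁄Qb).toAffine (intCoeff_ratCurve W A)).IsElliptic] {k : ℕ}
    {X : ((ratCurve W).toAffine⁄Qb).Point} (hX : p ^ k • X = 0)
    (h : redHom (intCoeff_ratCurve W A) (valuation_Δ_ratCurve W Fact.out hA hgood) X = 0) :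
    X = 0 := by
  have hq : q.Prime := Fact.out
  have hpv : A.valuation (p : Qb) = 1 := by
    have : A.valuation ((p : ℤ) : Qb) = 1 := valuation_intCast_of_liesOverPrime hq hA
      fun e => hqp ((Nat.prime_dvd_prime_iff_eq hq hp).mp (Int.natCast_dvd_natCast.mp e))
    rwa [Int.cast_natCast] at this
  induction k generalizing X with
  | zero => simpa using hX
  | succ k ih =>
    exact redHom_injOn (intCoeff_ratCurve W A) (valuation_Δ_ratCurve W hq hA hgood) hp hpv
      (ih (by rw [← mul_nsmul', ← pow_succ, hX]) (by rw [map_nsmul, h, nsmul_zero])) h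

/-- A point of exact order `pᵇ`. -/
theorem exists_addOrderOf_pow (W : WeierstrassCurve ℤ) [(ratCurve W).IsElliptic] {p : ℕ}
    (hp : p.Prime) (b : ℕ) : ∃ w : ((ratCurve W).toAffine⁄Qb).Point, addOrderOf w = p ^ b := by
  cases b with
  | zero => exact ⟨0, by rw [addOrderOf_zero, pow_zero]⟩
  | succ b =>
    obtain ⟨⟨s, hs⟩, h1, h2⟩ := FA.OrderDensity.exists_torsion_exact (ratCurve W) hp (le_refl b)
    exact ⟨s, addOrderOf_eq_prime_pow (hp := ⟨hp⟩) (fun e => h2 (Subtype.ext e))
      (congrArg Subtype.val h1)⟩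

end FA.SubgroupDetection

namespace FA.Summary

open FA.SubgroupDetection

/-- **Kummer theory of independent points at every prime**: for every elliptic curve over `ℚ`,
independent points and every prime `p` there is a constant `B` such that every family of
translations of `pⁿ`-th parts by points killed by `p ^ (n - B)` is given by an element of Galois
fixing `E[pⁿ]` (Bashmakov, Ribet). -/
theorem kummerTranslationsFamily_primePow_all (W : WeierstrassCurve ℤ)
    [(W.map (Int.castRingHom ℚ)).IsElliptic] [inst : DecidableEq (AlgebraicClosure ℚ)]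
    {ι : Type*} [Fintype ι] (P : ι → (W.map (Int.castRingHom ℚ)).toAffine.Point)
    (hP : LinearIndependent ℤ P) {p : ℕ} (hp : p.Prime) :
    ∃ B : ℕ, ∀ (n : ℕ)
      (Q : ι → ((W.map (Int.castRingHom ℚ)).toAffine⁄(AlgebraicClosure ℚ)).Point),
      (∀ i, p ^ n • Q i =
        Affine.Point.map (W' := (W.map (Int.castRingHom ℚ)).toAffine) (Algebra.ofId ℚ Qb) (P i)) →
      ∀ t : ι → ((W.map (Int.castRingHom ℚ)).toAffine⁄(AlgebraicClosure ℚ)).Point,
      (∀ i, p ^ (n - B) • t i = 0) →
      ∃ g : GQ, (∀ T : ((W.map (Int.castRingHom ℚ)).toAffine⁄(AlgebraicClosure ℚ)).Point,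
          p ^ n • T = 0 → Affine.Point.map g.toAlgHom T = T) ∧
        ∀ i, Affine.Point.map g.toAlgHom (Q i) = Q i + t i := by
  obtain rfl : inst = instDecEqAlgebraicClosureRat := Subsingleton.elim _ _
  haveI : (ratCurve W).IsElliptic := ‹(W.map (Int.castRingHom ℚ)).IsElliptic›
  haveI := Fact.mk hp
  obtain ⟨B, hB⟩ := exists_bound_translations_indep W (p := p) hP
  exact ⟨B, fun n Q hQ t ht => hB n Q
    (fun i => (hQ i).trans (FA.LinearDependence.up_eq_map (P i)).symm) t ht⟩

/-- **Membership in a subgroup is detected exactly**: for every elliptic curve over `ℚ`, if a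
rational point `R` is in the subgroup generated by the points `P i` modulo almost all primes then
it is in that subgroup. -/
theorem detectSubgroupMembership_exact (W : WeierstrassCurve ℤ)
    [(W.map (Int.castRingHom ℚ)).IsElliptic]
    {ι : Type} [Finite ι] {x y : ι → ℚ} {x' y' : ℚ}
    (h : ∀ i, (W.map (Int.castRingHom ℚ)).toAffine.Nonsingular (x i) (y i))
    (h' : (W.map (Int.castRingHom ℚ)).toAffine.Nonsingular x' y')
    (hmem : {q : ℕ | q.Prime ∧ ¬ ∃ _ : Fact q.Prime,
      ∃ k : ∀ i, (W.map (Int.castRingHom (ZMod q))).toAffine.Nonsingular (x i : ZMod q) (y i),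
      ∃ k' : (W.map (Int.castRingHom (ZMod q))).toAffine.Nonsingular (x' : ZMod q) y',
      Affine.Point.some (x' : ZMod q) (y' : ZMod q) k' ∈ AddSubgroup.closure
        (Set.range fun i => Affine.Point.some (x i : ZMod q) (y i : ZMod q) (k i))}.Finite) :
    Affine.Point.some x' y' h' ∈
      AddSubgroup.closure (Set.range fun i => Affine.Point.some (x i) (y i) (h i)) := by
  haveI : (ratCurve W).IsElliptic := ‹(W.map (Int.castRingHom ℚ)).IsElliptic›
  haveI := FA.MordellWeil.mordell (ratCurve W)
  let _ : Fintype ι := Fintype.ofFinite ι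
  set R : (ratCurve W).toAffine.Point := Affine.Point.some x' y' h' with hRdef
  set P : ι → (ratCurve W).toAffine.Point := fun i => Affine.Point.some (x i) (y i) (h i) with hPdef
  set X := AddSubgroup.closure (Set.range P)
  by_contra hne
  obtain ⟨a, ha, haR⟩ := detectSubgroupMembership_all W h h' hmem
  -- a multiple of `R` outside `X` with `p` times it inside
  have hex : ∃ m : ℕ, 0 < m ∧ m • R ∈ X := ⟨a.natAbs, Int.natAbs_pos.mpr ha, by
    rcases Int.natAbs_eq a with e | e <;> rw [e] at haR
    · rwa [natCast_zsmul] at haR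
    · rwa [neg_zsmul, natCast_zsmul, neg_mem_iff] at haR⟩
  set m := Nat.find hex
  obtain ⟨hm0, hm⟩ := Nat.find_spec hex
  obtain ⟨p, hp, d, hd⟩ := Nat.exists_prime_and_dvd (show m ≠ 1 from fun e => hne (by
    have := hm
    rw [show Nat.find hex = 1 from e, one_nsmul] at this
    exact this))
  replace hd : Nat.find hex = p * d := hd
  have hd0 : 0 < d := Nat.pos_of_ne_zero fun e => by rw [hd, e, mul_zero] at hm0; omega
  have hdR : d • R ∉ X := fun e =>
    Nat.find_min hex (by rw [hd]; exact lt_mul_left hd0 hp.one_lt) ⟨hd0, e⟩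
  have hpR : p • (d • R) ∈ X := by rw [← mul_nsmul', ← hd]; exact hm
  haveI := Fact.mk hp
  obtain ⟨ψ, ⟨b, hψb⟩, hψtor, hψ⟩ := exists_separating_hom (up W)
    (mapHom_injective (algebraMap ℚ Qb) rfl) hp (exists_div W hp.ne_zero)
    (exists_addOrderOf_pow W hp) hdR hpR
  -- a basis of the free part
  obtain ⟨n, ⟨e⟩⟩ := FA.MordellWeil.exists_equiv_torsion_prod (ratCurve W).toAffine.Point
  set G : Fin n → (ratCurve W).toAffine.Point := fun j => e.symm (0, Pi.single j 1) with hG
  have hsum : ∀ c : Fin n → ℤ, ∑ j, c j • G j = e.symm (0, c) := fun c => by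
    simp only [hG, ← map_zsmul, ← map_sum]
    congr 1
    refine Prod.ext ?_ ?_
    · simp [Prod.fst_sum]
    · rw [Prod.snd_sum]
      simp only [Prod.smul_snd]
      exact (pi_eq_sum_univ' c).symm
  have hGind : LinearIndependent ℤ G := Fintype.linearIndependent_iff.mpr fun c hc j => by
    rw [hsum, ← map_zero e.symm] at hc
    exact congrFun (congrArg Prod.snd (e.symm.injective hc)) j
  set D := W.Δ.natAbs * (∏ i, (x i).den * (y i).den) * x'.den * y'.den with hD
  have hD0 : D ≠ 0 := by
    have hΔ : W.Δ.natAbs ≠ 0 := fun e => (ratCurve W).isUnit_Δ.ne_zero (by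
      simp [ratCurve, Int.natAbs_eq_zero.mp e])
    simp [hD, hΔ, Finset.prod_ne_zero_iff]
  obtain ⟨q, _, hqS, hqp, A, _, _, hA, hgood, hq⟩ := exists_prime_prescribed W hGind b
    (U := fun j => ψ (G j)) (fun j => hψb _) (hmem.toFinset ∪ D.divisors)
  simp only [Finset.mem_union, Set.Finite.mem_toFinset, Nat.mem_divisors, not_or, not_and] at hqS
  have hnd : ∀ {k : ℕ}, k ∣ D → ¬ q ∣ k := fun hk e => hqS.2 (e.trans hk) hD0
  haveI := reductionMod_isElliptic W hgood
  set r := redHom (intCoeff_ratCurve W A) (valuation_Δ_ratCurve W Fact.out hA hgood) with hr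
  set red := r.comp (up W) with hred
  set δ := r.comp (up W - ψ) with hδ
  -- the difference with `ψ` has order prime to `p`
  have hall : ∀ z, ∃ k : ℕ, ¬ p ∣ k ∧ k • δ z = 0 := by
    let K : AddSubgroup (ratCurve W).toAffine.Point :=
      { carrier := {z | ∃ k : ℕ, ¬ p ∣ k ∧ k • δ z = 0}
        zero_mem' := ⟨1, hp.not_dvd_one, by rw [map_zero, nsmul_zero]⟩
        add_mem' := fun {z w} ⟨k, hk, hz⟩ ⟨l, hl, hw⟩ => ⟨k * l, hp.not_dvd_mul hk hl, by
          rw [map_add, nsmul_add, mul_nsmul' (δ w), hw, nsmul_zero, mul_comm, mul_nsmul', hz,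
            nsmul_zero, add_zero]⟩
        neg_mem' := fun {z} ⟨k, hk, hz⟩ => ⟨k, hk, by rw [map_neg, neg_nsmul, hz, neg_zero]⟩ }
    intro z
    show z ∈ K
    have hz : z = (z - ∑ j, (e z).2 j • G j) + ∑ j, (e z).2 j • G j := (sub_add_cancel _ _).symm
    rw [hz]
    refine add_mem ?_ (sum_mem fun j _ => zsmul_mem ?_ _)
    · obtain ⟨k, hk, h0⟩ := hψtor (z - ∑ j, (e z).2 j • G j) (by
        obtain ⟨m, hm, hm0⟩ := isOfFinAddOrder_iff_nsmul_eq_zero.mp (e z).1.2
        refine isOfFinAddOrder_iff_nsmul_eq_zero.mpr ⟨m, hm, e.injective ?_⟩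
        rw [map_nsmul, map_sub, hsum, e.apply_symm_apply, map_zero]
        refine Prod.ext (Subtype.ext ?_) ?_
        · simpa using hm0
        · simp)
      exact ⟨k, hk, by rw [hδ, AddMonoidHom.comp_apply, AddMonoidHom.sub_apply, ← map_nsmul, h0,
        map_zero]⟩
    · refine ⟨_, hq j, ?_⟩
      exact addOrderOf_nsmul_eq_zero _
  -- `R` is congruent to an element of `X`
  obtain ⟨_, k, k', hk⟩ : ∃ _ : Fact q.Prime,
      ∃ k : ∀ i, (W.map (Int.castRingHom (ZMod q))).toAffine.Nonsingular (x i : ZMod q) (y i),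
      ∃ k' : (W.map (Int.castRingHom (ZMod q))).toAffine.Nonsingular (x' : ZMod q) y',
      Affine.Point.some (x' : ZMod q) (y' : ZMod q) k' ∈ AddSubgroup.closure
        (Set.range fun i => Affine.Point.some (x i : ZMod q) (y i : ZMod q) (k i)) := by
    by_contra hcon
    exact hqS.1 ⟨Fact.out, hcon⟩
  set mq := mapHom (ZMod.castHom (dvd_refl q) (Res A)) (map_castHom W (A := A))
  have hPq : ∀ i, red (P i) = mq (Affine.Point.some (x i : ZMod q) (y i : ZMod q) (k i)) :=
    fun i => by
      have hi : (x i).den * (y i).den ∣ D := (((Finset.dvd_prod_of_mem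
        (fun i => (x i).den * (y i).den) (Finset.mem_univ i)).mul_left _).mul_right _).mul_right _
      obtain ⟨_, e'⟩ := redHom_up W hA hgood (h i) (hnd ((dvd_mul_right _ _).trans hi))
        (hnd ((dvd_mul_left _ _).trans hi))
      exact e'
  obtain ⟨z, hzX, hz⟩ : red R ∈ X.map red := by
    obtain ⟨_, e'⟩ := redHom_up W hA hgood h' (hnd ((dvd_mul_left _ _).mul_right _))
      (hnd (dvd_mul_left _ _))
    rw [show red R = mq (Affine.Point.some (x' : ZMod q) (y' : ZMod q) k') from e',
      AddMonoidHom.map_closure, ← Set.range_comp,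
      show red ∘ P = mq ∘ fun i => Affine.Point.some (x i : ZMod q) (y i : ZMod q) (k i) from
        funext hPq,
      Set.range_comp mq, ← AddMonoidHom.map_closure]
    exact AddSubgroup.mem_map_of_mem _ hk
  set w := d • R - d • z with hw
  have hrw : red w = 0 := by rw [hw, map_sub, map_nsmul, map_nsmul, hz, sub_self]
  obtain ⟨l, hl, hl0⟩ := hall w
  have hψr : r (ψ w) = 0 := by
    have h1 : l • r (ψ w) = 0 := by
      have : δ w = -r (ψ w) := by
        rw [hδ, AddMonoidHom.comp_apply, AddMonoidHom.sub_apply, map_sub,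
          show r (up W w) = 0 from hrw, zero_sub]
      rwa [this, neg_nsmul, neg_eq_zero] at hl0
    have h2 : p ^ b • r (ψ w) = 0 := by rw [← map_nsmul, hψb, map_zero]
    have h3 := Nat.dvd_gcd (addOrderOf_dvd_of_nsmul_eq_zero h1) (addOrderOf_dvd_of_nsmul_eq_zero h2)
    rw [(((hp.coprime_iff_not_dvd.mpr hl).symm).pow_right b), Nat.dvd_one,
      AddMonoid.addOrderOf_eq_one_iff] at h3
    exact h3
  have hψw := red_eq_zero_of_pow hp hqp hA hgood (hψb w) hψr
  rw [hw, map_sub, sub_eq_zero] at hψw
  exact hψ (d • z) (X.nsmul_mem hzX d) hψw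

/-- **In a subgroup if and only if in it modulo almost all primes** (Jossen). -/
theorem detectSubgroupMembership_iff (W : WeierstrassCurve ℤ)
    [(W.map (Int.castRingHom ℚ)).IsElliptic]
    {ι : Type} [Finite ι] {x y : ι → ℚ} {x' y' : ℚ}
    (h : ∀ i, (W.map (Int.castRingHom ℚ)).toAffine.Nonsingular (x i) (y i))
    (h' : (W.map (Int.castRingHom ℚ)).toAffine.Nonsingular x' y') :
    {q : ℕ | q.Prime ∧ ¬ ∃ _ : Fact q.Prime,
      ∃ k : ∀ i, (W.map (Int.castRingHom (ZMod q))).toAffine.Nonsingular (x i : ZMod q) (y i),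
      ∃ k' : (W.map (Int.castRingHom (ZMod q))).toAffine.Nonsingular (x' : ZMod q) y',
      Affine.Point.some (x' : ZMod q) (y' : ZMod q) k' ∈ AddSubgroup.closure
        (Set.range fun i => Affine.Point.some (x i : ZMod q) (y i : ZMod q) (k i))}.Finite ↔
    Affine.Point.some x' y' h' ∈
      AddSubgroup.closure (Set.range fun i => Affine.Point.some (x i) (y i) (h i)) := by
  refine ⟨detectSubgroupMembership_exact W h h', fun hm => ?_⟩
  haveI : (ratCurve W).IsElliptic := ‹(W.map (Int.castRingHom ℚ)).IsElliptic›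
  let _ : Fintype ι := Fintype.ofFinite ι
  set D := W.Δ.natAbs * (∏ i, (x i).den * (y i).den) * x'.den * y'.den with hD
  have hD0 : D ≠ 0 := by
    have hΔ : W.Δ.natAbs ≠ 0 := fun e => (ratCurve W).isUnit_Δ.ne_zero (by
      simp [ratCurve, Int.natAbs_eq_zero.mp e])
    simp [hD, hΔ, Finset.prod_ne_zero_iff]
  refine D.divisors.finite_toSet.subset fun q ⟨hq, hn⟩ => ?_
  by_contra hqD
  simp only [Finset.mem_coe, Nat.mem_divisors, not_and] at hqD
  have hnd : ∀ {k : ℕ}, k ∣ D → ¬ q ∣ k := fun hk e => hqD (e.trans hk) hD0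
  haveI := Fact.mk hq
  have hgood : W.IsGoodPrimeFor q := fun e' => hnd
    (((dvd_mul_right _ _).mul_right _).mul_right _) (Int.natCast_dvd.mp e')
  obtain ⟨A, hA⟩ := FA.Deform.exists_liesOverPrime hq
  haveI : CharP (Res A) q := residueField_charP A hq hA
  haveI := reductionMod_isElliptic W hgood
  haveI := redCurve_isElliptic (intCoeff_ratCurve W A) (valuation_Δ_ratCurve W hq hA hgood)
  have hi : ∀ i, (x i).den * (y i).den ∣ D := fun i => (((Finset.dvd_prod_of_mem
    (fun i => (x i).den * (y i).den) (Finset.mem_univ i)).mul_left _).mul_right _).mul_right _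
  choose k hk using fun i => redHom_up W hA hgood (h i) (hnd ((dvd_mul_right _ _).trans (hi i)))
    (hnd ((dvd_mul_left _ _).trans (hi i)))
  obtain ⟨k', hk'⟩ := redHom_up W hA hgood h' (hnd ((dvd_mul_left _ _).mul_right _))
    (hnd (dvd_mul_left _ _))
  set mq := mapHom (ZMod.castHom (dvd_refl q) (Res A)) (map_castHom W (A := A))
  set red := (redHom (intCoeff_ratCurve W A) (valuation_Δ_ratCurve W Fact.out hA hgood)).comp
    (up W)
  have h1 : red (.some x' y' h') ∈ (AddSubgroup.closure (Set.range fun i =>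
      (Affine.Point.some (x i) (y i) (h i) : (ratCurve W).toAffine.Point))).map red :=
    AddSubgroup.mem_map_of_mem _ hm
  rw [show red (.some x' y' h') = mq (Affine.Point.some (x' : ZMod q) (y' : ZMod q) k') from hk',
    AddMonoidHom.map_closure, ← Set.range_comp,
    show red ∘ (fun i => (Affine.Point.some (x i) (y i) (h i) : (ratCurve W).toAffine.Point)) =
      mq ∘ fun i => Affine.Point.some (x i : ZMod q) (y i : ZMod q) (k i) from funext hk,
    Set.range_comp mq, ← AddMonoidHom.map_closure,
    AddSubgroup.mem_map_iff_mem (mapHom_injective _ _)] at h1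
  exact hn ⟨inferInstance, k, k', h1⟩

end FA.Summary

end
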