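import Fermat.Agent.SubgroupDetection.PrescribedSet
import Fermat.Agent.Root.SummarySubgroupDetectionExact

/-!
# Prescribed parts of the orders modulo primes at any finite set of primes

For independent rational points on an elliptic curve over `ℚ`, any finite set of primes `p` and any
exponents `k p i` there are infinitely many primes `q` at which `p ^ k p i` divides the order of the
`i`-th point exactly, for all `p` and `i` at once (Pink, Barańczuk). So every positive integer is
an exact divisor of the order of a point of infinite order modulo infinitely many primes.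
-/

set_option autoImplicit false
set_option linter.style.haveILetI false

noncomputable section

open WeierstrassCurve WeierstrassCurve.Affine NumberField IsDedekindDomain FA.Frob FA.EC FA.PointDiv
open scoped WeierstrassCurve.Affine Classical

local notation "Qb" => AlgebraicClosure ℚ

namespace FA.SubgroupDetection

/-- If `X - Y` has order prime to `p` and `Y` order `pᵏ`, then `pᵏ` divides the order of `X`
exactly. -/
theorem pow_dvd_addOrderOf_of_sub {B : Type*} [AddCommGroup B] {p k : ℕ} (hp : p.Prime) {X Y : B}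
    (h : ¬ p ∣ addOrderOf (X - Y)) (hY : addOrderOf Y = p ^ k) :
    p ^ k ∣ addOrderOf X ∧ ¬ p ^ (k + 1) ∣ addOrderOf X := by
  have hm : addOrderOf (X - Y) • X = addOrderOf (X - Y) • Y := by
    rw [← sub_eq_zero, ← nsmul_sub, addOrderOf_nsmul_eq_zero]
  set m := addOrderOf (X - Y)
  have hcop : (p ^ k).Coprime m := (hp.coprime_iff_not_dvd.mpr h).pow_left k
  refine ⟨hcop.dvd_of_dvd_mul_right ?_, fun hd => h ?_⟩
  · rw [← hY]
    refine addOrderOf_dvd_of_nsmul_eq_zero ?_
    rw [mul_nsmul', ← hm, smul_comm, addOrderOf_nsmul_eq_zero, nsmul_zero]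
  · have h1 : addOrderOf X ∣ m * p ^ k := addOrderOf_dvd_of_nsmul_eq_zero (by
      rw [mul_comm, mul_nsmul', hm, smul_comm, ← hY, addOrderOf_nsmul_eq_zero, nsmul_zero])
    rw [pow_succ'] at hd
    exact (Nat.mul_dvd_mul_iff_right (pow_pos hp.pos k)).mp (hd.trans h1)

/-- For independent points, any finite set `S` of primes and any exponents some prime outside a
finite set and a set of density zero has exactly those parts in the orders. -/
theorem exists_orderPrimeParts_avoid (W : WeierstrassCurve ℤ)
    [(W.map (Int.castRingHom ℚ)).IsElliptic]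
    {ι : Type} [Finite ι] {x y : ι → ℚ}
    (h : ∀ i, (W.map (Int.castRingHom ℚ)).toAffine.Nonsingular (x i) (y i))
    (hind : LinearIndependent ℤ fun i => Affine.Point.some (x i) (y i) (h i))
    {S : Finset ℕ} (hS : ∀ p ∈ S, p.Prime) (k : ℕ → ι → ℕ) (B : Finset ℕ)
    {Z : Set (HeightOneSpectrum (𝓞 ℚ))} (hZ : Z.HasDirichletDensity 0) :
    ∃ q, ∃ _ : Fact q.Prime, (∀ v : HeightOneSpectrum (𝓞 ℚ),
      Ideal.absNorm v.asIdeal = q → v ∉ Z) ∧ q ∉ B ∧ ∀ i,
      ∃ k' : (W.map (Int.castRingHom (ZMod q))).toAffine.Nonsingular (x i : ZMod q) (y i),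
        ∀ p ∈ S, p ^ k p i ∣ addOrderOf (Affine.Point.some (x i : ZMod q) (y i : ZMod q) k') ∧
          ¬ p ^ (k p i + 1) ∣
            addOrderOf (Affine.Point.some (x i : ZMod q) (y i : ZMod q) k') := by
  haveI : (ratCurve W).IsElliptic := ‹(W.map (Int.castRingHom ℚ)).IsElliptic›
  let _ : Fintype ι := Fintype.ofFinite ι
  set a := ∑ p ∈ S, ∑ i, k p i
  have hka : ∀ p ∈ S, ∀ i, k p i ≤ a := fun p hp i =>
    (Finset.single_le_sum (f := k p) (fun _ _ => Nat.zero_le _) (Finset.mem_univ i)).trans
      (Finset.single_le_sum (f := fun p => ∑ i, k p i) (fun _ _ => Nat.zero_le _) hp)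
  have hex : ∀ p i, ∃ U : ((ratCurve W).toAffine⁄Qb).Point, p ∈ S → addOrderOf U = p ^ k p i :=
    fun p i => by
      by_cases hp : p ∈ S
      · exact (exists_addOrderOf_pow W (hS p hp) (k p i)).imp fun U hU _ => hU
      · exact ⟨0, fun hh => absurd hh hp⟩
  choose U hU using hex
  have hUa : ∀ p ∈ S, ∀ i, p ^ a • U p i = 0 := fun p hp i =>
    addOrderOf_dvd_iff_nsmul_eq_zero.mp (hU p i hp ▸ pow_dvd_pow p (hka p hp i))
  set D := W.Δ.natAbs * ∏ i, (x i).den * (y i).den with hD
  have hD0 : D ≠ 0 := by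
    have hΔ : W.Δ.natAbs ≠ 0 := fun e => (ratCurve W).isUnit_Δ.ne_zero (by
      simp [ratCurve, Int.natAbs_eq_zero.mp e])
    simp [hD, hΔ, Finset.prod_ne_zero_iff]
  obtain ⟨q, hqf, hqZ, hqS', hqS, A, _, _, hA, hgood, -, hq⟩ :=
    exists_prime_prescribed_set_avoid W hS (P := fun i => Affine.Point.some (x i) (y i) (h i))
      hind a hUa (B ∪ D.divisors) hZ
  simp only [Finset.mem_union, Nat.mem_divisors, not_or, not_and] at hqS'
  have hnd : ∀ {m : ℕ}, m ∣ D → ¬ q ∣ m := fun hm e => hqS'.2 (e.trans hm) hD0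
  haveI := reductionMod_isElliptic W hgood
  have hi : ∀ i, (x i).den * (y i).den ∣ D := fun i => (Finset.dvd_prod_of_mem
    (fun i => (x i).den * (y i).den) (Finset.mem_univ i)).mul_left _
  choose k' hk' using fun i => redHom_up W hA hgood (h i) (hnd ((dvd_mul_right _ _).trans (hi i)))
    (hnd ((dvd_mul_left _ _).trans (hi i)))
  refine ⟨q, hqf, hqZ, hqS'.1, fun i => ⟨k' i, fun p hp => ?_⟩⟩
  set r := redHom (intCoeff_ratCurve W A) (valuation_Δ_ratCurve W Fact.out hA hgood) with hr
  have hqp : q ≠ p := fun e => hqS (e ▸ hp)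
  have hrU : addOrderOf (r (U p i)) = p ^ k p i := by
    refine Nat.dvd_antisymm (hU p i hp ▸ addOrderOf_map_dvd r _) ?_
    rw [← hU p i hp]
    refine addOrderOf_dvd_of_nsmul_eq_zero ?_
    refine red_eq_zero_of_pow (hS p hp) hqp hA hgood (k := a) ?_ ?_
    · rw [smul_comm, hUa p hp i, nsmul_zero]
    · rw [map_nsmul, addOrderOf_nsmul_eq_zero]
  have hsub : ¬ p ∣ addOrderOf (r (up W (Affine.Point.some (x i) (y i) (h i))) - r (U p i)) := by
    rw [← map_sub]; exact hq p hp i
  have := pow_dvd_addOrderOf_of_sub (hS p hp) hsub hrU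
  rwa [hr, hk' i, addOrderOf_injective _ (mapHom_injective _ _)] at this


end FA.SubgroupDetection

namespace FA.Summary

open FA.SubgroupDetection

/-- **Prescribed parts of the orders at any finite set of primes**: for every elliptic curve over
`ℚ`, independent points, any finite set `S` of primes and any exponents, modulo infinitely many
primes `p ^ k p i` divides the order of the `i`-th point exactly for all `p ∈ S` and all `i`. -/
theorem orderPrimeParts_prescribed_finset (W : WeierstrassCurve ℤ)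
    [(W.map (Int.castRingHom ℚ)).IsElliptic]
    {ι : Type} [Finite ι] {x y : ι → ℚ}
    (h : ∀ i, (W.map (Int.castRingHom ℚ)).toAffine.Nonsingular (x i) (y i))
    (hind : LinearIndependent ℤ fun i => Affine.Point.some (x i) (y i) (h i))
    {S : Finset ℕ} (hS : ∀ p ∈ S, p.Prime) (k : ℕ → ι → ℕ) :
    {q : ℕ | q.Prime ∧ ∃ _ : Fact q.Prime, ∀ i,
      ∃ k' : (W.map (Int.castRingHom (ZMod q))).toAffine.Nonsingular (x i : ZMod q) (y i),
        ∀ p ∈ S, p ^ k p i ∣ addOrderOf (Affine.Point.some (x i : ZMod q) (y i : ZMod q) k') ∧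
          ¬ p ^ (k p i + 1) ∣
            addOrderOf (Affine.Point.some (x i : ZMod q) (y i : ZMod q) k')}.Infinite := by
  intro hfin
  obtain ⟨q, hq, -, hqB, hall⟩ := exists_orderPrimeParts_avoid W h hind hS k hfin.toFinset
    (density_zero_of_finite Set.finite_empty)
  exact hqB (hfin.mem_toFinset.mpr ⟨hq.out, hq, hall⟩)

/-- **Every positive integer divides the order exactly**: for every elliptic curve over `ℚ`, every
point of infinite order and every `n ≠ 0`, modulo infinitely many primes the order of the point is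
`n` times a number prime to `n`. -/
theorem exactDivisor_order_all (W : WeierstrassCurve ℤ)
    [(W.map (Int.castRingHom ℚ)).IsElliptic]
    {x y : ℚ} (h : (W.map (Int.castRingHom ℚ)).toAffine.Nonsingular x y)
    (hP : ¬ IsOfFinAddOrder (Affine.Point.some x y h)) {n : ℕ} (hn : n ≠ 0) :
    {q : ℕ | q.Prime ∧ ∃ _ : Fact q.Prime,
      ∃ k' : (W.map (Int.castRingHom (ZMod q))).toAffine.Nonsingular (x : ZMod q) y,
      ∃ m : ℕ, addOrderOf (Affine.Point.some (x : ZMod q) (y : ZMod q) k') = n * m ∧
        n.Coprime m}.Infinite := by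
  haveI : (ratCurve W).IsElliptic := ‹(W.map (Int.castRingHom ℚ)).IsElliptic›
  have hind : LinearIndependent ℤ fun _ : Unit => Affine.Point.some x y h :=
    Fintype.linearIndependent_iff.mpr fun c hc i => by
      by_contra hci
      refine hP ?_
      rw [isOfFinAddOrder_iff_zsmul_eq_zero]
      exact ⟨c i, hci, by simpa using hc⟩
  refine (orderPrimeParts_prescribed_finset W (ι := Unit) (x := fun _ => x) (y := fun _ => y)
    (fun _ => h) hind (S := n.primeFactors) (fun p => Nat.prime_of_mem_primeFactors)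
    fun p _ => n.factorization p).mono ?_
  rintro q ⟨hq, inst', hall⟩
  obtain ⟨k', hk⟩ := hall ()
  set o := addOrderOf (Affine.Point.some (x : ZMod q) (y : ZMod q) k')
  have hdvd : n ∣ o := by
    rw [Nat.dvd_iff_prime_pow_dvd_dvd]
    intro p i hp hi
    rcases Nat.eq_zero_or_pos i with rfl | hi0
    · rw [pow_zero]; exact one_dvd _
    exact (pow_dvd_pow p ((hp.pow_dvd_iff_le_factorization hn).mp hi)).trans
      (hk p (Nat.mem_primeFactors.mpr ⟨hp, (dvd_pow_self p hi0.ne').trans hi, hn⟩)).1
  obtain ⟨m, hm⟩ := hdvd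
  refine ⟨hq, inst', k', m, hm, Nat.coprime_of_dvd fun p hp hpn hpm => ?_⟩
  refine (hk p (Nat.mem_primeFactors.mpr ⟨hp, hpn, hn⟩)).2 ?_
  rw [hm, pow_succ]
  exact mul_dvd_mul (Nat.ordProj_dvd n p) hpm

end FA.Summary

end
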