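import Fermat.Agent.Root.SummaryLinearDependenceExact

/-!
# The support problem, exactly, for every elliptic curve over `ℚ`

If the order of `Q` divides that of a point `P` of infinite order modulo almost all primes, then
`Q = c P + T` with `T` torsion. For a prime `r` dividing the order of `T ≠ 0` there are infinitely
many primes modulo which `r` does not divide the order of `P`, and modulo them a multiple of `T` of
order `r` keeps it: so `T = 0`. Equal orders force `Q = P` or `Q = -P` (Erdős' question).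
-/

set_option autoImplicit false
set_option linter.style.haveILetI false

noncomputable section

open WeierstrassCurve WeierstrassCurve.Affine FA.Frob FA.EC FA.PointDiv
open scoped WeierstrassCurve.Affine Classical

local notation "Qb" => AlgebraicClosure ℚ

namespace FA.Summary

open FA.OrderDensity

/-- **The exact support problem**: for every elliptic curve over `ℚ`, if the order of `Q` divides
that of the point `P` of infinite order modulo almost all primes then `Q` is a multiple of `P`. -/
theorem supportProblem_exact (W : WeierstrassCurve ℤ)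
    [(W.map (Int.castRingHom ℚ)).IsElliptic]
    {x y x' y' : ℚ} (h : (W.map (Int.castRingHom ℚ)).toAffine.Nonsingular x y)
    (h' : (W.map (Int.castRingHom ℚ)).toAffine.Nonsingular x' y')
    (hP : ¬ IsOfFinAddOrder (Affine.Point.some x y h))
    (hmem : {q : ℕ | q.Prime ∧ ¬ ∃ _ : Fact q.Prime,
      ∃ k : (W.map (Int.castRingHom (ZMod q))).toAffine.Nonsingular (x : ZMod q) y,
      ∃ k' : (W.map (Int.castRingHom (ZMod q))).toAffine.Nonsingular (x' : ZMod q) y',
      addOrderOf (Affine.Point.some (x' : ZMod q) (y' : ZMod q) k') ∣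
        addOrderOf (Affine.Point.some (x : ZMod q) (y : ZMod q) k)}.Finite) :
    Affine.Point.some x' y' h' ∈ AddSubgroup.zmultiples (Affine.Point.some x y h) := by
  haveI : (ratCurve W).IsElliptic := ‹(W.map (Int.castRingHom ℚ)).IsElliptic›
  set P : (ratCurve W).toAffine.Point := Affine.Point.some x y h with hPdef
  set Q : (ratCurve W).toAffine.Point := Affine.Point.some x' y' h' with hQdef
  obtain ⟨c, hc⟩ := supportProblem_sharp_all W h h' hP hmem
  replace hc : IsOfFinAddOrder (Q - c • P) := hc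
  by_contra hne
  set T := Q - c • P with hTdef
  have hT : T ≠ 0 := fun e => hne (by
    rw [sub_eq_zero.mp e]; exact AddSubgroup.zsmul_mem_zmultiples _ _)
  obtain ⟨r, hr, b, hb⟩ := Nat.exists_prime_and_dvd
    (fun e => hT (AddMonoid.addOrderOf_eq_one_iff.mp e))
  have hb0 : b • T ≠ 0 := fun e => by
    have h1 := addOrderOf_dvd_of_nsmul_eq_zero e
    have h2 : 0 < addOrderOf T := hc.addOrderOf_pos
    have h3 : 0 < b := Nat.pos_of_ne_zero fun e0 => by rw [hb, e0, mul_zero] at h2; omega
    rw [hb] at h1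
    have := Nat.le_of_dvd h3 h1
    nlinarith [hr.two_le]
  obtain ⟨d, hd0, hd⟩ := red_up_ne_zero W (b • T) hb0
  set D := W.Δ.natAbs * x.den * y.den * x'.den * y'.den
  have hD : D ≠ 0 := by
    have hΔ : W.Δ.natAbs ≠ 0 := fun e => (ratCurve W).isUnit_Δ.ne_zero (by
      simp [ratCurve, Int.natAbs_eq_zero.mp e])
    simp [D, hΔ]
  obtain ⟨q, ⟨hq, hF, k₀, -, hk₀⟩, hnot⟩ :=
    ((orderPrimePart_exact_all W h hP hr 0).sdiff
      (hmem.union (D * d).divisors.finite_toSet)).nonempty
  simp only [Set.mem_union, not_or, Finset.mem_coe, Nat.mem_divisors] at hnot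
  obtain ⟨_, k, k', hk⟩ : ∃ _ : Fact q.Prime,
      ∃ k : (W.map (Int.castRingHom (ZMod q))).toAffine.Nonsingular (x : ZMod q) y,
      ∃ k' : (W.map (Int.castRingHom (ZMod q))).toAffine.Nonsingular (x' : ZMod q) y',
      addOrderOf (Affine.Point.some (x' : ZMod q) (y' : ZMod q) k') ∣
        addOrderOf (Affine.Point.some (x : ZMod q) (y : ZMod q) k) := by
    by_contra hcon
    exact hnot.1 ⟨hq, hcon⟩
  have hnd : ∀ {m : ℕ}, m ∣ D * d → ¬ q ∣ m := fun hm e =>
    hnot.2 ⟨e.trans hm, mul_ne_zero hD hd0⟩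
  have hdvd : ∀ {m : ℕ}, m ∣ D → ¬ q ∣ m := fun hm => hnd (hm.mul_right d)
  have hgood : W.IsGoodPrimeFor q := fun e' => hnd (dvd_mul_right D d)
    (((((Int.natCast_dvd.mp e')).mul_right _).mul_right _).mul_right _ |>.mul_right _)
  obtain ⟨A, hA⟩ := FA.Deform.exists_liesOverPrime hq
  haveI := reductionMod_isElliptic W hgood
  haveI : CharP (Res A) q := residueField_charP A hq hA
  haveI := redCurve_isElliptic (intCoeff_ratCurve W A) (valuation_Δ_ratCurve W hq hA hgood)
  obtain ⟨_, hPq⟩ := redHom_up W hA hgood h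
    (hdvd ((((dvd_mul_left _ _).mul_right _).mul_right _).mul_right _))
    (hdvd (((dvd_mul_left _ _).mul_right _).mul_right _))
  obtain ⟨_, hQq⟩ := redHom_up W hA hgood h'
    (hdvd ((dvd_mul_left _ _).mul_right _)) (hdvd (dvd_mul_left _ _))
  set red := (redHom (intCoeff_ratCurve W A) (valuation_Δ_ratCurve W Fact.out hA hgood)).comp
    (up W) with hred
  refine hk₀ ?_
  rw [zero_add, pow_one]
  set o := addOrderOf (Affine.Point.some (x : ZMod q) (y : ZMod q) k₀)
  have hoP : o • red P = 0 := by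
    rw [show red P = _ from hPq, ← map_nsmul, addOrderOf_nsmul_eq_zero, map_zero]
  have hoQ : o • red Q = 0 := by
    rw [show red Q = _ from hQq, ← map_nsmul,
      addOrderOf_dvd_iff_nsmul_eq_zero.mp (show addOrderOf _ ∣ o from hk), map_zero]
  have hr0 : r • red (b • T) = 0 := by
    rw [← map_nsmul, ← mul_nsmul', ← hb, addOrderOf_nsmul_eq_zero, map_zero]
  have hord : addOrderOf (red (b • T)) = r :=
    addOrderOf_eq_prime (hp := ⟨hr⟩) hr0 (hd hA hgood (hnd (dvd_mul_left d D)))
  rw [← hord]
  refine addOrderOf_dvd_of_nsmul_eq_zero ?_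
  rw [hTdef, map_nsmul, map_sub, map_zsmul, smul_comm, nsmul_sub, hoQ, smul_comm o c, hoP,
    zsmul_zero, sub_zero, nsmul_zero]

/-- **The order of `Q` divides that of `P` modulo almost all primes if and only if `Q` is a multiple
of `P`**. -/
theorem supportProblem_iff (W : WeierstrassCurve ℤ)
    [(W.map (Int.castRingHom ℚ)).IsElliptic]
    {x y x' y' : ℚ} (h : (W.map (Int.castRingHom ℚ)).toAffine.Nonsingular x y)
    (h' : (W.map (Int.castRingHom ℚ)).toAffine.Nonsingular x' y')
    (hP : ¬ IsOfFinAddOrder (Affine.Point.some x y h)) :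
    {q : ℕ | q.Prime ∧ ¬ ∃ _ : Fact q.Prime,
      ∃ k : (W.map (Int.castRingHom (ZMod q))).toAffine.Nonsingular (x : ZMod q) y,
      ∃ k' : (W.map (Int.castRingHom (ZMod q))).toAffine.Nonsingular (x' : ZMod q) y',
      addOrderOf (Affine.Point.some (x' : ZMod q) (y' : ZMod q) k') ∣
        addOrderOf (Affine.Point.some (x : ZMod q) (y : ZMod q) k)}.Finite ↔
    Affine.Point.some x' y' h' ∈ AddSubgroup.zmultiples (Affine.Point.some x y h) :=
  ⟨supportProblem_exact W h h' hP, fun hm => ((detectLinearDependence_iff W h h').mpr hm).subset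
    fun _ ⟨hq, hn⟩ => ⟨hq, fun ⟨i, k, k', e⟩ => hn ⟨i, k, k',
      addOrderOf_dvd_of_mem_zmultiples e⟩⟩⟩

/-- **Erdős' question**: for every elliptic curve over `ℚ`, a point `Q` has the same order as the
point `P` of infinite order modulo almost all primes if and only if `Q = P` or `Q = -P`. -/
theorem equalOrders_iff (W : WeierstrassCurve ℤ)
    [(W.map (Int.castRingHom ℚ)).IsElliptic]
    {x y x' y' : ℚ} (h : (W.map (Int.castRingHom ℚ)).toAffine.Nonsingular x y)
    (h' : (W.map (Int.castRingHom ℚ)).toAffine.Nonsingular x' y')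
    (hP : ¬ IsOfFinAddOrder (Affine.Point.some x y h)) :
    {q : ℕ | q.Prime ∧ ¬ ∃ _ : Fact q.Prime,
      ∃ k : (W.map (Int.castRingHom (ZMod q))).toAffine.Nonsingular (x : ZMod q) y,
      ∃ k' : (W.map (Int.castRingHom (ZMod q))).toAffine.Nonsingular (x' : ZMod q) y',
      addOrderOf (Affine.Point.some (x' : ZMod q) (y' : ZMod q) k') =
        addOrderOf (Affine.Point.some (x : ZMod q) (y : ZMod q) k)}.Finite ↔
    Affine.Point.some x' y' h' = Affine.Point.some x y h ∨
      Affine.Point.some x' y' h' = -Affine.Point.some x y h := by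
  constructor
  · intro hmem
    obtain ⟨c, hc⟩ := AddSubgroup.mem_zmultiples_iff.mp ((supportProblem_iff W h h' hP).mp
      (hmem.subset fun _ ⟨hq, hn⟩ => ⟨hq, fun ⟨i, k, k', e⟩ => hn ⟨i, k, k', e ▸ dvd_rfl⟩⟩))
    have hc0 : c ≠ 0 := fun e => by
      rw [e, zero_zsmul] at hc
      exact Affine.Point.some_ne_zero _ hc.symm
    have hQ : ¬ IsOfFinAddOrder (Affine.Point.some x' y' h') := fun hf => by
      obtain ⟨n, hn, hn0⟩ := isOfFinAddOrder_iff_zsmul_eq_zero.mp hf
      refine hP (isOfFinAddOrder_iff_zsmul_eq_zero.mpr ⟨n * c, mul_ne_zero hn hc0, ?_⟩)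
      rw [mul_zsmul, hc, hn0]
    obtain ⟨d, hd⟩ := AddSubgroup.mem_zmultiples_iff.mp ((supportProblem_iff W h' h hQ).mp
      (hmem.subset fun _ ⟨hq, hn⟩ => ⟨hq, fun ⟨i, k, k', e⟩ => hn ⟨i, k', k, e ▸ dvd_rfl⟩⟩))
    have hdc : d * c = 1 := by
      by_contra hne
      refine hP (isOfFinAddOrder_iff_zsmul_eq_zero.mpr ⟨d * c - 1, sub_ne_zero.mpr hne, ?_⟩)
      rw [sub_smul, one_zsmul, mul_zsmul, hc, hd, sub_self]
    rcases Int.eq_one_or_neg_one_of_mul_eq_one' hdc with ⟨-, rfl⟩ | ⟨-, rfl⟩
    · left; rw [← hc, one_zsmul]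
    · right; rw [← hc, neg_one_zsmul]
  · intro hQ
    have h1 : Affine.Point.some x' y' h' ∈ AddSubgroup.zmultiples (Affine.Point.some x y h) := by
      rcases hQ with e | e <;> rw [e]
      · exact AddSubgroup.mem_zmultiples _
      · exact neg_mem (AddSubgroup.mem_zmultiples _)
    have h2 : Affine.Point.some x y h ∈ AddSubgroup.zmultiples (Affine.Point.some x' y' h') := by
      rcases hQ with e | e
      · rw [e]; exact AddSubgroup.mem_zmultiples _
      · rw [show Affine.Point.some x y h = -Affine.Point.some x' y' h' by rw [e, neg_neg]]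
        exact neg_mem (AddSubgroup.mem_zmultiples _)
    refine (((detectLinearDependence_iff W h h').mpr h1).union
      ((detectLinearDependence_iff W h' h).mpr h2)).subset fun q ⟨hq, hn⟩ => ?_
    by_contra hcon
    rw [Set.mem_union, not_or] at hcon
    obtain ⟨i, k, k', e⟩ := not_not.mp fun hh => hcon.1 ⟨hq, hh⟩
    obtain ⟨_, _, _, e'⟩ := not_not.mp fun hh => hcon.2 ⟨hq, hh⟩
    exact hn ⟨i, k, k', dvd_antisymm (addOrderOf_dvd_of_mem_zmultiples e)
      (addOrderOf_dvd_of_mem_zmultiples e')⟩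

end FA.Summary

end
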