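import Fermat.Agent.EDS.Denominators
import Fermat.Agent.Root.SummarySupportProblemExact
import Fermat.Agent.Root.SummaryOrderPrescribedSet

/-!
# Elliptic divisibility sequences: supports and ranks of apparition

For a point `P` of infinite order the denominators of `x(n P)` form an elliptic divisibility
sequence. Outside finitely many primes every prime dividing the `n`th denominator of `P` divides
that of `Q`, for all `n`, if and only if `Q` is a multiple of `P`; the sequences have the same
supports if and only if `Q = ± P` (Erdős's support problem); and every `m` is the exact divisor of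
the ranks of apparition of infinitely many primes.
-/

set_option autoImplicit false
set_option linter.style.haveILetI false

noncomputable section

open WeierstrassCurve WeierstrassCurve.Affine FA.Frob FA.EC FA.PointDiv FA.EDS
open scoped WeierstrassCurve.Affine Classical

local notation "Qb" => AlgebraicClosure ℚ

namespace FA.EDS

/-- A multiple reduces to zero exactly if the prime divides its denominator. -/
theorem nsmul_eq_zero_iff (W : WeierstrassCurve ℤ) [(ratCurve W).IsElliptic] {x y : ℚ}
    (h : (ratCurve W).toAffine.Nonsingular x y) {q : ℕ} [hq : Fact q.Prime]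
    (hΔ : ¬ q ∣ W.Δ.natAbs) (hx : ¬ q ∣ x.den) (hy : ¬ q ∣ y.den)
    (k : (W.map (Int.castRingHom (ZMod q))).toAffine.Nonsingular (x : ZMod q) y) (n : ℕ) :
    n • Affine.Point.some (x : ZMod q) (y : ZMod q) k = 0 ↔
      DenDvd (n • (.some x y h : (ratCurve W).toAffine.Point)) q := by
  have hgood : W.IsGoodPrimeFor q := fun e => hΔ (Int.natCast_dvd.mp e)
  obtain ⟨A, hA⟩ := FA.Deform.exists_liesOverPrime hq.out
  haveI : CharP (Res A) q := residueField_charP A hq.out hA
  haveI := reductionMod_isElliptic W hgood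
  haveI := redCurve_isElliptic (intCoeff_ratCurve W A) (valuation_Δ_ratCurve W hq.out hA hgood)
  obtain ⟨_, e⟩ := redHom_up W hA hgood h hx hy
  rw [← red_eq_zero_iff hA hgood, map_nsmul, map_nsmul, e, ← map_nsmul,
    map_eq_zero_iff _ (mapHom_injective _ _)]

/-- The primes of the denominators of the multiples follow the orders modulo them. -/
theorem forall_denDvd_iff (W : WeierstrassCurve ℤ) [(ratCurve W).IsElliptic] {x y x' y' : ℚ}
    (h : (ratCurve W).toAffine.Nonsingular x y) (h' : (ratCurve W).toAffine.Nonsingular x' y')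
    {q : ℕ} [hq : Fact q.Prime] (hD : ¬ q ∣ W.Δ.natAbs * x.den * y.den * x'.den * y'.den)
    (k : (W.map (Int.castRingHom (ZMod q))).toAffine.Nonsingular (x : ZMod q) y)
    (k' : (W.map (Int.castRingHom (ZMod q))).toAffine.Nonsingular (x' : ZMod q) y') :
    (∀ n : ℕ, DenDvd (n • (.some x y h : (ratCurve W).toAffine.Point)) q →
        DenDvd (n • (.some x' y' h' : (ratCurve W).toAffine.Point)) q) ↔
      addOrderOf (Affine.Point.some (x' : ZMod q) (y' : ZMod q) k') ∣
        addOrderOf (Affine.Point.some (x : ZMod q) (y : ZMod q) k) := by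
  have e := nsmul_eq_zero_iff W h
    (fun e => hD ((((e.mul_right _).mul_right _).mul_right _).mul_right _))
    (fun e => hD ((((e.mul_left _).mul_right _).mul_right _).mul_right _))
    (fun e => hD (((e.mul_left _).mul_right _).mul_right _)) k
  have e' := nsmul_eq_zero_iff W h'
    (fun e => hD ((((e.mul_right _).mul_right _).mul_right _).mul_right _))
    (fun e => hD ((e.mul_left _).mul_right _)) (fun e => hD (e.mul_left _)) k'
  simp only [← e, ← e']
  exact ⟨fun H => addOrderOf_dvd_of_nsmul_eq_zero (H _ (addOrderOf_nsmul_eq_zero _)),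
    fun hd n hn => addOrderOf_dvd_iff_nsmul_eq_zero.mp
      (hd.trans (addOrderOf_dvd_of_nsmul_eq_zero hn))⟩

/-- Away from finitely many primes both points have reductions. -/
theorem exists_nonsingular_mod (W : WeierstrassCurve ℤ) [(ratCurve W).IsElliptic] {x y : ℚ}
    (h : (ratCurve W).toAffine.Nonsingular x y) {q : ℕ} [hq : Fact q.Prime]
    (hΔ : ¬ q ∣ W.Δ.natAbs) (hx : ¬ q ∣ x.den) (hy : ¬ q ∣ y.den) :
    (W.map (Int.castRingHom (ZMod q))).toAffine.Nonsingular (x : ZMod q) y := by
  have hgood : W.IsGoodPrimeFor q := fun e => hΔ (Int.natCast_dvd.mp e)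
  obtain ⟨A, hA⟩ := FA.Deform.exists_liesOverPrime hq.out
  haveI : CharP (Res A) q := residueField_charP A hq.out hA
  haveI := reductionMod_isElliptic W hgood
  haveI := redCurve_isElliptic (intCoeff_ratCurve W A) (valuation_Δ_ratCurve W hq.out hA hgood)
  exact (redHom_up W hA hgood h hx hy).1

end FA.EDS

namespace FA.Summary

/-- **Erdős's support problem for elliptic divisibility sequences**: for every elliptic curve over
`ℚ` and `P` of infinite order, outside some finite set of primes every prime dividing the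
denominator of `x(n P)` divides that of `x(n Q)`, for all `n`, iff `Q` is a multiple of `P`. -/
theorem supportProblem_denominators (W : WeierstrassCurve ℤ)
    [(W.map (Int.castRingHom ℚ)).IsElliptic]
    {x y x' y' : ℚ} (h : (W.map (Int.castRingHom ℚ)).toAffine.Nonsingular x y)
    (h' : (W.map (Int.castRingHom ℚ)).toAffine.Nonsingular x' y')
    (hP : ¬ IsOfFinAddOrder (Affine.Point.some x y h)) :
    (∃ S : Finset ℕ, ∀ q : ℕ, q.Prime → q ∉ S → ∀ n : ℕ,
      DenDvd (n • Affine.Point.some x y h) q → DenDvd (n • Affine.Point.some x' y' h') q) ↔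
    Affine.Point.some x' y' h' ∈ AddSubgroup.zmultiples (Affine.Point.some x y h) := by
  haveI : (ratCurve W).IsElliptic := ‹(W.map (Int.castRingHom ℚ)).IsElliptic›
  rw [← supportProblem_iff W h h' hP]
  set D := W.Δ.natAbs * x.den * y.den * x'.den * y'.den
  have hD : D ≠ 0 := by
    have hΔ : W.Δ.natAbs ≠ 0 := fun e => (ratCurve W).isUnit_Δ.ne_zero (by
      simp [ratCurve, Int.natAbs_eq_zero.mp e])
    simp [D, hΔ]
  constructor
  · rintro ⟨S, hS⟩
    refine (S ∪ D.divisors).finite_toSet.subset fun q ⟨hq, hn⟩ => ?_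
    by_contra hout
    simp only [Finset.mem_coe, Finset.mem_union, Nat.mem_divisors, not_or, not_and] at hout
    have hqD : ¬ q ∣ D := fun e => hout.2 e hD
    haveI := Fact.mk hq
    have k := exists_nonsingular_mod W h
      (fun e => hqD ((((e.mul_right _).mul_right _).mul_right _).mul_right _))
      (fun e => hqD ((((e.mul_left _).mul_right _).mul_right _).mul_right _))
      (fun e => hqD (((e.mul_left _).mul_right _).mul_right _))
    have k' := exists_nonsingular_mod W h'
      (fun e => hqD ((((e.mul_right _).mul_right _).mul_right _).mul_right _))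
      (fun e => hqD ((e.mul_left _).mul_right _)) (fun e => hqD (e.mul_left _))
    exact hn ⟨inferInstance, k, k', (forall_denDvd_iff W h h' hqD k k').mp (hS q hq hout.1)⟩
  · intro hfin
    refine ⟨hfin.toFinset ∪ D.divisors, fun q hq hout => ?_⟩
    simp only [Finset.mem_union, Set.Finite.mem_toFinset, Nat.mem_divisors, not_or, not_and]
      at hout
    have hqD : ¬ q ∣ D := fun e => hout.2 e hD
    obtain ⟨_, k, k', e⟩ := not_not.mp fun hn => hout.1 ⟨hq, hn⟩
    exact (forall_denDvd_iff W h h' hqD k k').mpr e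

/-- **Equal supports**: outside some finite set of primes the denominators of `x(n P)` and `x(n Q)`
have the same prime divisors, for all `n`, if and only if `Q = P` or `Q = -P`. -/
theorem sameDenominatorPrimes_iff (W : WeierstrassCurve ℤ)
    [(W.map (Int.castRingHom ℚ)).IsElliptic]
    {x y x' y' : ℚ} (h : (W.map (Int.castRingHom ℚ)).toAffine.Nonsingular x y)
    (h' : (W.map (Int.castRingHom ℚ)).toAffine.Nonsingular x' y')
    (hP : ¬ IsOfFinAddOrder (Affine.Point.some x y h)) :
    (∃ S : Finset ℕ, ∀ q : ℕ, q.Prime → q ∉ S → ∀ n : ℕ,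
      (DenDvd (n • Affine.Point.some x y h) q ↔ DenDvd (n • Affine.Point.some x' y' h') q)) ↔
    Affine.Point.some x' y' h' = Affine.Point.some x y h ∨
      Affine.Point.some x' y' h' = -Affine.Point.some x y h := by
  constructor
  · rintro ⟨S, hS⟩
    obtain ⟨c, hc⟩ := AddSubgroup.mem_zmultiples_iff.mp ((supportProblem_denominators W h h' hP).mp
      ⟨S, fun q hq hout n => (hS q hq hout n).mp⟩)
    have hc0 : c ≠ 0 := fun e => by
      rw [e, zero_zsmul] at hc
      exact Affine.Point.some_ne_zero _ hc.symm
    have hQ : ¬ IsOfFinAddOrder (Affine.Point.some x' y' h') := fun hf => by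
      obtain ⟨n, hn, hn0⟩ := isOfFinAddOrder_iff_zsmul_eq_zero.mp hf
      refine hP (isOfFinAddOrder_iff_zsmul_eq_zero.mpr ⟨n * c, mul_ne_zero hn hc0, ?_⟩)
      rw [mul_zsmul, hc, hn0]
    obtain ⟨d, hd⟩ := AddSubgroup.mem_zmultiples_iff.mp ((supportProblem_denominators W h' h hQ).mp
      ⟨S, fun q hq hout n => (hS q hq hout n).mpr⟩)
    have hdc : d * c = 1 := by
      by_contra hne
      refine hP (isOfFinAddOrder_iff_zsmul_eq_zero.mpr ⟨d * c - 1, sub_ne_zero.mpr hne, ?_⟩)
      rw [sub_smul, one_zsmul, mul_zsmul, hc, hd, sub_self]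
    rcases Int.eq_one_or_neg_one_of_mul_eq_one' hdc with ⟨-, rfl⟩ | ⟨-, rfl⟩
    · left; rw [← hc, one_zsmul]
    · right; rw [← hc, neg_one_zsmul]
  · intro hQ
    have hQ' : ¬ IsOfFinAddOrder (Affine.Point.some x' y' h') := by
      rcases hQ with e | e <;> rw [e]
      · exact hP
      · exact fun hf => hP (isOfFinAddOrder_neg_iff.mp hf)
    have h1 : Affine.Point.some x' y' h' ∈ AddSubgroup.zmultiples (Affine.Point.some x y h) := by
      rcases hQ with e | e <;> rw [e]
      · exact AddSubgroup.mem_zmultiples _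
      · exact neg_mem (AddSubgroup.mem_zmultiples _)
    have h2 : Affine.Point.some x y h ∈ AddSubgroup.zmultiples (Affine.Point.some x' y' h') := by
      rcases hQ with e | e
      · rw [e]; exact AddSubgroup.mem_zmultiples _
      · rw [show Affine.Point.some x y h = -Affine.Point.some x' y' h' by rw [e, neg_neg]]
        exact neg_mem (AddSubgroup.mem_zmultiples _)
    obtain ⟨S, hS⟩ := (supportProblem_denominators W h h' hP).mpr h1
    obtain ⟨S', hS'⟩ := (supportProblem_denominators W h' h hQ').mpr h2
    exact ⟨S ∪ S', fun q hq hout n => ⟨hS q hq (fun e => hout (Finset.mem_union_left _ e)) n,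
      hS' q hq (fun e => hout (Finset.mem_union_right _ e)) n⟩⟩

/-- **Ranks of apparition**: for every elliptic curve over `ℚ`, every point `P` of infinite order
and every `m ≠ 0` infinitely many primes first divide the denominator of `x(k P)` for a `k` which is
`m` times a number prime to `m`. -/
theorem rankOfApparition_exactDivisor (W : WeierstrassCurve ℤ)
    [(W.map (Int.castRingHom ℚ)).IsElliptic]
    {x y : ℚ} (h : (W.map (Int.castRingHom ℚ)).toAffine.Nonsingular x y)
    (hP : ¬ IsOfFinAddOrder (Affine.Point.some x y h)) {m : ℕ} (hm : m ≠ 0) :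
    {q : ℕ | q.Prime ∧ ∃ k : ℕ, 0 < k ∧ DenDvd (k • Affine.Point.some x y h) q ∧
      (∀ j : ℕ, 0 < j → j < k → ¬ DenDvd (j • Affine.Point.some x y h) q) ∧
      ∃ c : ℕ, k = m * c ∧ m.Coprime c}.Infinite := by
  haveI : (ratCurve W).IsElliptic := ‹(W.map (Int.castRingHom ℚ)).IsElliptic›
  set D := W.Δ.natAbs * x.den * y.den
  have hD : D ≠ 0 := by
    have hΔ : W.Δ.natAbs ≠ 0 := fun e => (ratCurve W).isUnit_Δ.ne_zero (by
      simp [ratCurve, Int.natAbs_eq_zero.mp e])
    simp [D, hΔ]
  refine ((exactDivisor_order_all W h hP hm).sdiff D.divisors.finite_toSet).mono ?_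
  rintro q ⟨⟨hq, inst', k', c, hc, hmc⟩, hout⟩
  simp only [Finset.mem_coe, Nat.mem_divisors, not_and] at hout
  have hqD : ¬ q ∣ D := fun e => hout e hD
  have hΔ : ¬ q ∣ W.Δ.natAbs := fun e => hqD ((e.mul_right _).mul_right _)
  have hgood : W.IsGoodPrimeFor q := fun e => hΔ (Int.natCast_dvd.mp e)
  haveI := reductionMod_isElliptic W hgood
  have e := FA.EDS.nsmul_eq_zero_iff W h hΔ (fun e => hqD ((e.mul_left _).mul_right _))
    (fun e => hqD (e.mul_left _)) k'
  refine ⟨hq, _, (isOfFinAddOrder_of_finite _).addOrderOf_pos,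
    (e _).mp (addOrderOf_nsmul_eq_zero _), fun j hj hjk hden => ?_, c, hc, hmc⟩
  exact absurd (Nat.le_of_dvd hj (addOrderOf_dvd_of_nsmul_eq_zero ((e j).mpr hden))) (by omega)

end FA.Summary

end
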