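import Fermat.Agent.BashmakovDensity.Family

/-!
# Lang and Trotter: how often a point becomes divisible by a prime

If Galois induces every automorphism of `E[p]`, `p` odd, and `P ∈ E(ℚ)` is not `p` times a rational
point, then the primes `q` modulo which `P` is `p` times a point have Dirichlet density
`((p⁴-2p³-p²+3p)p² + (p³-2p-1)p + 1) / ((p²-1)(p²-p)p²)`, a number strictly between `0` and `1`.
-/

set_option autoImplicit false
set_option linter.style.haveILetI false

noncomputable section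

open WeierstrassCurve WeierstrassCurve.Affine NumberField IsDedekindDomain FA.Frob
open scoped WeierstrassCurve.Affine

local notation "Qb" => AlgebraicClosure ℚ
local notation "GQ" => AlgebraicClosure ℚ ≃ₐ[ℚ] AlgebraicClosure ℚ

namespace FA.Summary

open FA.BashmakovDensity

/-- **The density of the primes modulo which a point is divisible** (Lang–Trotter): for an odd
prime `p` with every automorphism of `E[p]` coming from Galois and a rational point `(x, y)` which
is not `p` times a rational point, the primes `q` modulo which it is `p` times a point have density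
`((p⁴-2p³-p²+3p)p² + (p³-2p-1)p + 1) / ((p²-1)(p²-p)p²)`. -/
theorem divisibleDensity (W : WeierstrassCurve ℤ) (hΔ : W.Δ ≠ 0)
    [inst : DecidableEq (AlgebraicClosure ℚ)] {p : ℕ} (hp : p.Prime) (hp2 : p ≠ 2)
    (hfull : ∀ φ : Submodule.torsionBy ℤ
          ((W.map (Int.castRingHom ℚ)).toAffine⁄(AlgebraicClosure ℚ)).Point (p : ℤ) ≃+
        Submodule.torsionBy ℤ
          ((W.map (Int.castRingHom ℚ)).toAffine⁄(AlgebraicClosure ℚ)).Point (p : ℤ),
      ∃ σ : GQ, ∀ T, Affine.Point.map σ.toAlgHom T.1 = (φ T).1)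
    {x y : ℚ} (h : (W.map (Int.castRingHom ℚ)).toAffine.Nonsingular x y)
    (hP : ∀ R : (W.map (Int.castRingHom ℚ)).toAffine.Point, p • R ≠ Affine.Point.some x y h) :
    Set.HasDirichletDensity {v : HeightOneSpectrum (𝓞 ℚ) |
      ∃ _ : Fact (Ideal.absNorm v.asIdeal).Prime,
      ∃ h : (W.map (Int.castRingHom (ZMod (Ideal.absNorm v.asIdeal)))).toAffine.Nonsingular
        (x : ZMod (Ideal.absNorm v.asIdeal)) y,
      ∃ R, p • R = Affine.Point.some (x : ZMod (Ideal.absNorm v.asIdeal)) _ h}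
      ((((p : ℝ) ^ 4 - 2 * (p : ℝ) ^ 3 - (p : ℝ) ^ 2 + 3 * p) * (p : ℝ) ^ 2 +
          ((p : ℝ) ^ 3 - 2 * p - 1) * p + 1) /
        (((p : ℝ) ^ 2 - 1) * ((p : ℝ) ^ 2 - p) * (p : ℝ) ^ 2)) := by
  obtain rfl : inst = instDecEqAlgebraicClosureRat := Subsingleton.elim _ _
  haveI := FA.Frob.ratCurve_isElliptic_of_Δ hΔ
  haveI := Fact.mk hp
  have hA := affineImageFamily (ι := Unit) hp2 hfull
    (P := fun _ => Affine.Point.some x y h) fun a ⟨i, hi⟩ R hR => by
      obtain ⟨u, v, huv⟩ := Int.isCoprime_iff_gcd_eq_one.mpr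
        (Int.gcd_eq_natAbs.trans (hp.coprime_iff_not_dvd.mpr fun hd => hi
          (Int.natCast_dvd.mpr hd)) : Int.gcd (p : ℤ) (a i) = 1)
      refine hP (u • Affine.Point.some x y h + v • R) ?_
      rw [Fintype.sum_unique] at hR
      rw [nsmul_add, smul_comm p v, hR, smul_comm p u, ← natCast_zsmul (Affine.Point.some x y h) p,
        ← mul_zsmul, ← mul_zsmul, ← add_zsmul]
      convert one_zsmul _ using 2
  have hd := hasDirichletDensity_locSet_family (fun _ : Unit => h) hA
  rw [Fintype.card_unique, fixDensityFamily_one] at hd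
  simpa [fixDensity, FA.PointDiv.LocDiv] using hd

/-- **Divisible infinitely often**: in that situation infinitely many primes `q` make the point `p`
times a point modulo `q` (that infinitely many do not is `infinitely_many_not_divisible`). -/
theorem infinitely_many_divisible (W : WeierstrassCurve ℤ) (hΔ : W.Δ ≠ 0)
    [inst : DecidableEq (AlgebraicClosure ℚ)] {p : ℕ} (hp : p.Prime) (hp2 : p ≠ 2)
    (hfull : ∀ φ : Submodule.torsionBy ℤ
          ((W.map (Int.castRingHom ℚ)).toAffine⁄(AlgebraicClosure ℚ)).Point (p : ℤ) ≃+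
        Submodule.torsionBy ℤ
          ((W.map (Int.castRingHom ℚ)).toAffine⁄(AlgebraicClosure ℚ)).Point (p : ℤ),
      ∃ σ : GQ, ∀ T, Affine.Point.map σ.toAlgHom T.1 = (φ T).1)
    {x y : ℚ} (h : (W.map (Int.castRingHom ℚ)).toAffine.Nonsingular x y)
    (hP : ∀ R : (W.map (Int.castRingHom ℚ)).toAffine.Point, p • R ≠ Affine.Point.some x y h) :
    {q : ℕ | q.Prime ∧ ∃ _ : Fact q.Prime,
      ∃ h : (W.map (Int.castRingHom (ZMod q))).toAffine.Nonsingular (x : ZMod q) y,
      ∃ R, p • R = Affine.Point.some (x : ZMod q) _ h}.Infinite :=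
  FA.TraceDist.infinite_of_density
    (fixDensity_mem (by have := hp.two_le; omega)).1.ne' (divisibleDensity W hΔ hp hp2 hfull h hP)

/-- **All large primes**: if `j` has a pole and `(x, y)` has infinite order, that density holds for
all sufficiently large primes `p`. -/
theorem divisibleDensity_large (W : WeierstrassCurve ℤ) [(W.map (Int.castRingHom ℚ)).IsElliptic]
    (hj : ∃ q : ℕ, q.Prime ∧ padicValRat q (W.map (Int.castRingHom ℚ)).j < 0)
    [inst : DecidableEq (AlgebraicClosure ℚ)]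
    {x y : ℚ} (h : (W.map (Int.castRingHom ℚ)).toAffine.Nonsingular x y)
    (hP : ¬ IsOfFinAddOrder (Affine.Point.some x y h)) :
    ∃ M : ℕ, ∀ p : ℕ, p.Prime → M < p →
    Set.HasDirichletDensity {v : HeightOneSpectrum (𝓞 ℚ) |
      ∃ _ : Fact (Ideal.absNorm v.asIdeal).Prime,
      ∃ h : (W.map (Int.castRingHom (ZMod (Ideal.absNorm v.asIdeal)))).toAffine.Nonsingular
        (x : ZMod (Ideal.absNorm v.asIdeal)) y,
      ∃ R, p • R = Affine.Point.some (x : ZMod (Ideal.absNorm v.asIdeal)) _ h}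
      ((((p : ℝ) ^ 4 - 2 * (p : ℝ) ^ 3 - (p : ℝ) ^ 2 + 3 * p) * (p : ℝ) ^ 2 +
          ((p : ℝ) ^ 3 - 2 * p - 1) * p + 1) /
        (((p : ℝ) ^ 2 - 1) * ((p : ℝ) ^ 2 - p) * (p : ℝ) ^ 2)) := by
  obtain rfl : inst = instDecEqAlgebraicClosureRat := Subsingleton.elim _ _
  have hΔ : W.Δ ≠ 0 := fun h0 => (W.map (Int.castRingHom ℚ)).isUnit_Δ.ne_zero (by simp [h0])
  obtain ⟨M, hM⟩ := galoisSurjectiveTorsion_large (W.map (Int.castRingHom ℚ)) hj
  haveI := FA.MordellWeil.mordell (W.map (Int.castRingHom ℚ))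
  obtain ⟨M', hM'⟩ := FA.Bashmakov.exists_bound_not_mul hP
  exact ⟨M + M' + 2, fun p hp hlt => divisibleDensity W hΔ hp (by omega) (hM p hp (by omega)) h
    (hM' p (by omega))⟩

/-- **`37a1`**: for a generator of `E(ℚ)` and every odd prime `p` that density holds. -/
theorem divisibleDensity_37a1 :
    ∃ (x y : ℚ) (h : ((⟨0, 0, 1, -1, 0⟩ : WeierstrassCurve ℤ).map
        (Int.castRingHom ℚ)).toAffine.Nonsingular x y),
      AddSubgroup.zmultiples (Affine.Point.some x y h) = ⊤ ∧ ∀ p : ℕ, p.Prime → p ≠ 2 →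
      Set.HasDirichletDensity {v : HeightOneSpectrum (𝓞 ℚ) |
        ∃ _ : Fact (Ideal.absNorm v.asIdeal).Prime,
        ∃ h : ((⟨0, 0, 1, -1, 0⟩ : WeierstrassCurve ℤ).map (Int.castRingHom
          (ZMod (Ideal.absNorm v.asIdeal)))).toAffine.Nonsingular
          (x : ZMod (Ideal.absNorm v.asIdeal)) y,
        ∃ R, p • R = Affine.Point.some (x : ZMod (Ideal.absNorm v.asIdeal)) _ h}
        ((((p : ℝ) ^ 4 - 2 * (p : ℝ) ^ 3 - (p : ℝ) ^ 2 + 3 * p) * (p : ℝ) ^ 2 +
            ((p : ℝ) ^ 3 - 2 * p - 1) * p + 1) /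
          (((p : ℝ) ^ 2 - 1) * ((p : ℝ) ^ 2 - p) * (p : ℝ) ^ 2)) := by
  have hΔ : FA.Central.model37.Δ ≠ 0 := by decide
  haveI := ratCurve_isElliptic_of_Δ hΔ
  obtain ⟨e⟩ : Nonempty ((ratCurve FA.Central.model37).toAffine.Point ≃+ ℤ) := by
    rw [FA.Central.ratCurve_model37]; exact point_group_curve37
  have hgen : ∀ R, e R • e.symm 1 = R := fun R =>
    e.injective (by rw [map_zsmul, AddEquiv.apply_symm_apply, smul_eq_mul, mul_one])
  rcases hP : e.symm (1 : ℤ) with _ | ⟨x, y, h⟩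
  · exfalso
    have := congrArg e hP
    rw [AddEquiv.apply_symm_apply] at this
    exact one_ne_zero (this.trans (map_zero e))
  rw [hP] at hgen
  refine ⟨x, y, h, eq_top_iff.mpr fun R _ => AddSubgroup.mem_zmultiples_iff.mpr
    ⟨e R, hgen R⟩, fun p hp hp2 => ?_⟩
  haveI := Fact.mk hp
  refine divisibleDensity FA.Central.model37 hΔ hp hp2 ?_ h fun R hR => ?_
  · have h1 := FA.PadicImage.exists_smul_eq_pow_of_reach
      (FA.Root.Irred.model37_reachAll (p := p)) 1
    rw [pow_one] at h1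
    exact h1
  · have := congrArg e (hR.trans hP.symm)
    rw [map_nsmul, AddEquiv.apply_symm_apply, nsmul_eq_mul] at this
    exact hp.not_dvd_one (Int.natCast_dvd_natCast.mp ⟨e R, this.symm⟩)

end FA.Summary

end
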