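import Fermat.Agent.BashmakovDensity.Family
import Fermat.Agent.Root.SummarySerreDichotomy

/-!
# How often several independent points are all divisible by a prime

If Galois induces every automorphism of `E[p]`, `p` odd, and `r ≥ 1` rational points are independent
modulo `p`, then the primes `q` modulo which all of them are `p` times points have Dirichlet density
`(N₂ p^(2r) + N₁ p^r + 1) / ((p²-1)(p²-p) p^(2r))` with `N₂ = p⁴-2p³-p²+3p`, `N₁ = p³-2p-1`. As
`r` grows it tends to `N₂ / ((p²-1)(p²-p))`.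
-/

set_option autoImplicit false
set_option linter.style.haveILetI false

noncomputable section

open WeierstrassCurve WeierstrassCurve.Affine NumberField IsDedekindDomain FA.Frob
open scoped WeierstrassCurve.Affine

local notation "Qb" => AlgebraicClosure ℚ
local notation "GQ" => AlgebraicClosure ℚ ≃ₐ[ℚ] AlgebraicClosure ℚ

namespace FA.Summary

open FA.BashmakovDensity

/-- **The density of the primes modulo which independent points are all divisible**: for an odd
prime `p` with every automorphism of `E[p]` coming from Galois and `r ≥ 1` rational points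
independent modulo `p`, the primes `q` modulo which each is `p` times a point have the density
stated. -/
theorem divisibleDensityFamily (W : WeierstrassCurve ℤ) (hΔ : W.Δ ≠ 0)
    [inst : DecidableEq (AlgebraicClosure ℚ)] {p : ℕ} (hp : p.Prime) (hp2 : p ≠ 2)
    (hfull : ∀ φ : Submodule.torsionBy ℤ
          ((W.map (Int.castRingHom ℚ)).toAffine⁄(AlgebraicClosure ℚ)).Point (p : ℤ) ≃+
        Submodule.torsionBy ℤ
          ((W.map (Int.castRingHom ℚ)).toAffine⁄(AlgebraicClosure ℚ)).Point (p : ℤ),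
      ∃ σ : GQ, ∀ T, Affine.Point.map σ.toAlgHom T.1 = (φ T).1)
    {ι : Type} [Fintype ι] [Nonempty ι] {x y : ι → ℚ}
    (h : ∀ i, (W.map (Int.castRingHom ℚ)).toAffine.Nonsingular (x i) (y i))
    (hP : ∀ a : ι → ℤ, (∃ i, ¬ (p : ℤ) ∣ a i) →
      ∀ R : (W.map (Int.castRingHom ℚ)).toAffine.Point,
        p • R ≠ ∑ i, a i • Affine.Point.some (x i) (y i) (h i)) :
    Set.HasDirichletDensity {v : HeightOneSpectrum (𝓞 ℚ) | ∀ i,
      ∃ _ : Fact (Ideal.absNorm v.asIdeal).Prime,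
      ∃ h : (W.map (Int.castRingHom (ZMod (Ideal.absNorm v.asIdeal)))).toAffine.Nonsingular
        (x i : ZMod (Ideal.absNorm v.asIdeal)) (y i),
      ∃ R, p • R = Affine.Point.some (x i : ZMod (Ideal.absNorm v.asIdeal)) _ h}
      ((((p : ℝ) ^ 4 - 2 * (p : ℝ) ^ 3 - (p : ℝ) ^ 2 + 3 * p) * ((p : ℝ) ^ 2) ^ Fintype.card ι +
          ((p : ℝ) ^ 3 - 2 * p - 1) * (p : ℝ) ^ Fintype.card ι + 1) /
        (((p : ℝ) ^ 2 - 1) * ((p : ℝ) ^ 2 - p) * ((p : ℝ) ^ 2) ^ Fintype.card ι)) := by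
  obtain rfl : inst = instDecEqAlgebraicClosureRat := Subsingleton.elim _ _
  haveI := FA.Frob.ratCurve_isElliptic_of_Δ hΔ
  haveI := Fact.mk hp
  exact hasDirichletDensity_locSet_family h (affineImageFamily hp2 hfull hP)

/-- **All large primes**: if `j` has a pole and the points are independent, that density holds for
all sufficiently large primes `p`. -/
theorem divisibleDensityFamily_large (W : WeierstrassCurve ℤ)
    [(W.map (Int.castRingHom ℚ)).IsElliptic]
    (hj : ∃ q : ℕ, q.Prime ∧ padicValRat q (W.map (Int.castRingHom ℚ)).j < 0)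
    [inst : DecidableEq (AlgebraicClosure ℚ)]
    {ι : Type} [Fintype ι] [Nonempty ι] {x y : ι → ℚ}
    (h : ∀ i, (W.map (Int.castRingHom ℚ)).toAffine.Nonsingular (x i) (y i))
    (hP : LinearIndependent ℤ fun i => Affine.Point.some (x i) (y i) (h i)) :
    ∃ M : ℕ, ∀ p : ℕ, p.Prime → M < p →
    Set.HasDirichletDensity {v : HeightOneSpectrum (𝓞 ℚ) | ∀ i,
      ∃ _ : Fact (Ideal.absNorm v.asIdeal).Prime,
      ∃ h : (W.map (Int.castRingHom (ZMod (Ideal.absNorm v.asIdeal)))).toAffine.Nonsingular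
        (x i : ZMod (Ideal.absNorm v.asIdeal)) (y i),
      ∃ R, p • R = Affine.Point.some (x i : ZMod (Ideal.absNorm v.asIdeal)) _ h}
      ((((p : ℝ) ^ 4 - 2 * (p : ℝ) ^ 3 - (p : ℝ) ^ 2 + 3 * p) * ((p : ℝ) ^ 2) ^ Fintype.card ι +
          ((p : ℝ) ^ 3 - 2 * p - 1) * (p : ℝ) ^ Fintype.card ι + 1) /
        (((p : ℝ) ^ 2 - 1) * ((p : ℝ) ^ 2 - p) * ((p : ℝ) ^ 2) ^ Fintype.card ι)) := by
  obtain rfl : inst = instDecEqAlgebraicClosureRat := Subsingleton.elim _ _
  have hΔ : W.Δ ≠ 0 := fun h0 => (W.map (Int.castRingHom ℚ)).isUnit_Δ.ne_zero (by simp [h0])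
  obtain ⟨M, hM⟩ := galoisSurjectiveTorsion_large (W.map (Int.castRingHom ℚ)) hj
  haveI := FA.MordellWeil.mordell (W.map (Int.castRingHom ℚ))
  obtain ⟨B, hB⟩ := FA.LinearDependence.exists_bound_independent_family hP
  exact ⟨M + B + 2, fun p hp hlt => divisibleDensityFamily W hΔ hp (by omega)
    (hM p hp (by omega)) h (hB p hp (by omega))⟩

/-- **Whatever the invariant**: the same holds if every quadratic field has an inert prime of good
reduction with nonzero trace. -/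
theorem divisibleDensityFamily_large_of_traces (W : WeierstrassCurve ℤ)
    [(W.map (Int.castRingHom ℚ)).IsElliptic]
    (htr : ∀ d : ℤ, Squarefree d → d ≠ 1 → ∃ (l : ℕ) (_ : Fact l.Prime),
      (∃ C : VariableChange ℚ_[l], HasGoodReduction ℤ_[l]
        (C • (W.map (Int.castRingHom ℚ)).map (algebraMap ℚ ℚ_[l]))) ∧
      ¬ IsSquare (d : ZMod l) ∧ (W.map (Int.castRingHom ℚ)).LFunction l ≠ 0)
    [inst : DecidableEq (AlgebraicClosure ℚ)]
    {ι : Type} [Fintype ι] [Nonempty ι] {x y : ι → ℚ}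
    (h : ∀ i, (W.map (Int.castRingHom ℚ)).toAffine.Nonsingular (x i) (y i))
    (hP : LinearIndependent ℤ fun i => Affine.Point.some (x i) (y i) (h i)) :
    ∃ M : ℕ, ∀ p : ℕ, p.Prime → M < p →
    Set.HasDirichletDensity {v : HeightOneSpectrum (𝓞 ℚ) | ∀ i,
      ∃ _ : Fact (Ideal.absNorm v.asIdeal).Prime,
      ∃ h : (W.map (Int.castRingHom (ZMod (Ideal.absNorm v.asIdeal)))).toAffine.Nonsingular
        (x i : ZMod (Ideal.absNorm v.asIdeal)) (y i),
      ∃ R, p • R = Affine.Point.some (x i : ZMod (Ideal.absNorm v.asIdeal)) _ h}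
      ((((p : ℝ) ^ 4 - 2 * (p : ℝ) ^ 3 - (p : ℝ) ^ 2 + 3 * p) * ((p : ℝ) ^ 2) ^ Fintype.card ι +
          ((p : ℝ) ^ 3 - 2 * p - 1) * (p : ℝ) ^ Fintype.card ι + 1) /
        (((p : ℝ) ^ 2 - 1) * ((p : ℝ) ^ 2 - p) * ((p : ℝ) ^ 2) ^ Fintype.card ι)) := by
  obtain rfl : inst = instDecEqAlgebraicClosureRat := Subsingleton.elim _ _
  have hΔ : W.Δ ≠ 0 := fun h0 => (W.map (Int.castRingHom ℚ)).isUnit_Δ.ne_zero (by simp [h0])
  obtain ⟨M, hM⟩ := galoisSurjectiveTorsion_large_of_traces (W.map (Int.castRingHom ℚ)) htr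
  haveI := FA.MordellWeil.mordell (W.map (Int.castRingHom ℚ))
  obtain ⟨B, hB⟩ := FA.LinearDependence.exists_bound_independent_family hP
  refine ⟨M + B + 2, fun p hp hlt => divisibleDensityFamily W hΔ hp (by omega) ?_ h
    (hB p hp (by omega))⟩
  have h1 := hM p hp (by omega) 1
  rwa [pow_one] at h1

/-- **Many points**: as `r` grows the density tends to `N₂ / ((p²-1)(p²-p))`, the proportion of the
automorphisms of `E[p]` fixing no nonzero point. -/
theorem divisibleDensityFamily_tendsto {p : ℕ} (hp : 2 ≤ p) :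
    Filter.Tendsto (fun r : ℕ =>
      (((p : ℝ) ^ 4 - 2 * (p : ℝ) ^ 3 - (p : ℝ) ^ 2 + 3 * p) * ((p : ℝ) ^ 2) ^ r +
          ((p : ℝ) ^ 3 - 2 * p - 1) * (p : ℝ) ^ r + 1) /
        (((p : ℝ) ^ 2 - 1) * ((p : ℝ) ^ 2 - p) * ((p : ℝ) ^ 2) ^ r))
      Filter.atTop (nhds (((p : ℝ) ^ 4 - 2 * (p : ℝ) ^ 3 - (p : ℝ) ^ 2 + 3 * p) /
        (((p : ℝ) ^ 2 - 1) * ((p : ℝ) ^ 2 - p)))) :=
  tendsto_fixDensityFamily hp

end FA.Summary

end
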