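import Fermat.Agent.Root.SummaryDivisionPolynomial

/-!
# The fields of the parts of a point are disjoint from the torsion field

For every elliptic curve over `ℚ` and every point `P` of infinite order one `C > 0` is such that for
`N` prime to `C` the `N²` parts of `P` are one orbit of the elements of Galois fixing every torsion
point. So an element of the field `ℚ(x_Q, y_Q)` of a part `Q` fixed by those elements is rational:
that field meets `ℚ(E_tors)`, which contains every abelian extension, in `ℚ`.
-/

set_option autoImplicit false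
set_option linter.style.haveILetI false

noncomputable section

open WeierstrassCurve WeierstrassCurve.Affine FA.Frob FA.EC FA.PointDiv
open FA.Local (smul_some)
open scoped WeierstrassCurve.Affine Classical

local notation "Qb" => AlgebraicClosure ℚ
local notation "GQ" => AlgebraicClosure ℚ ≃ₐ[ℚ] AlgebraicClosure ℚ

namespace FA.DivisionDisjoint

/-- Two automorphisms agreeing on a set agree on the field it generates. -/
theorem eq_of_eq_on_adjoin {S : Set Qb} {σ τ : GQ} (hS : ∀ s ∈ S, σ s = τ s) {z : Qb}
    (hz : z ∈ IntermediateField.adjoin ℚ S) : σ z = τ z := by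
  induction hz using IntermediateField.adjoin_induction with
  | mem s hs => exact hS s hs
  | algebraMap r => rw [σ.commutes, τ.commutes]
  | add a b _ _ ha hb => rw [map_add, map_add, ha, hb]
  | inv a _ ha => rw [map_inv₀, map_inv₀, ha]
  | mul a b _ _ ha hb => rw [map_mul, map_mul, ha, hb]

variable (W : WeierstrassCurve ℤ) [(ratCurve W).IsElliptic]

/-- For a level prime to `C` every part is the image of any other under an element fixing all the
torsion. -/
theorem exists_fixing_torsion {P : (ratCurve W).toAffine.Point} {C : ℕ} (hC : 0 < C)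
    (key : ∀ N : ℕ, N ≠ 0 → ∀ Q : Unit → ((ratCurve W).toAffine⁄Qb).Point,
      (∀ i, N • Q i = up W P) →
      ∀ t : Unit → ((ratCurve W).toAffine⁄Qb).Point, (∀ i, N • t i = 0) → ∃ g : GQ,
        (∀ y : ((ratCurve W).toAffine⁄Qb).Point, N • y = 0 → g • y = y) ∧
          ∀ i, g • Q i = Q i + C • t i)
    {N : ℕ} (hN : N ≠ 0) (hcop : N.Coprime C) {Q R : ((ratCurve W).toAffine⁄Qb).Point}
    (hQ : N • Q = up W P) (hR : N • R = up W P) :
    ∃ σ : GQ, (∀ T : ((ratCurve W).toAffine⁄Qb).Point, IsOfFinAddOrder T → σ • T = T) ∧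
      σ • Q = R := by
  obtain ⟨t, htN, htC⟩ := FA.KummerDegree.exists_nsmul_eq W hN hC.ne' (s := R - Q) (by
    rw [hcop, Nat.div_one, nsmul_sub, hR, hQ, sub_self])
  obtain ⟨σ, hσ, hσQ⟩ := FA.KummerTower.exists_lift_fixing_torsion W (P := fun _ : Unit => P)
    key hN (Q := fun _ => Q) (fun _ => hQ) (t := fun _ => t) fun _ => htN
  exact ⟨σ, hσ, by rw [hσQ (), htC, add_sub_cancel]⟩

end FA.DivisionDisjoint

namespace FA.Summary

open FA.DivisionDisjoint

/-- **One orbit over the torsion field**: for every elliptic curve over `ℚ` and every point `P` of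
infinite order one `C > 0` is such that for `N` prime to `C` any two points `Q`, `R` with
`N Q = N R = P` are exchanged by an element of Galois fixing every torsion point. -/
theorem divisionParts_transitive_torsionField (W : WeierstrassCurve ℤ)
    [(W.map (Int.castRingHom ℚ)).IsElliptic] [inst : DecidableEq (AlgebraicClosure ℚ)]
    {P : (W.map (Int.castRingHom ℚ)).toAffine.Point} (hP : ¬ IsOfFinAddOrder P) :
    ∃ C : ℕ, 0 < C ∧ ∀ N : ℕ, N ≠ 0 → N.Coprime C →
      ∀ Q R : ((W.map (Int.castRingHom ℚ)).toAffine⁄(AlgebraicClosure ℚ)).Point,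
      N • Q = Affine.Point.map (W' := (W.map (Int.castRingHom ℚ)).toAffine)
          (Algebra.ofId ℚ Qb) P →
      N • R = Affine.Point.map (W' := (W.map (Int.castRingHom ℚ)).toAffine)
          (Algebra.ofId ℚ Qb) P →
      ∃ σ : GQ, (∀ T : ((W.map (Int.castRingHom ℚ)).toAffine⁄(AlgebraicClosure ℚ)).Point,
          IsOfFinAddOrder T → Affine.Point.map σ.toAlgHom T = T) ∧
        Affine.Point.map σ.toAlgHom Q = R := by
  obtain rfl : inst = instDecEqAlgebraicClosureRat := Subsingleton.elim _ _
  haveI : (ratCurve W).IsElliptic := ‹(W.map (Int.castRingHom ℚ)).IsElliptic›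
  obtain ⟨C, hC, key⟩ := FA.SubgroupDetection.exists_uniform_translations W
    (FA.SupportDensity.linearIndependent_const hP)
  refine ⟨C, hC, fun N hN hcop Q R hQ hR => ?_⟩
  exact exists_fixing_torsion W hC key hN hcop
    (hQ.trans (FA.LinearDependence.up_eq_map P).symm)
    (hR.trans (FA.LinearDependence.up_eq_map P).symm)

/-- **The field of a part meets the torsion field in `ℚ`**: for every elliptic curve over `ℚ` and
every point `P` of infinite order one `C > 0` is such that for `N` prime to `C`, a point `(a, b)`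
with `N (a, b) = P` and every `z` in `ℚ(a, b)` fixed by the elements of Galois fixing all torsion
points, `z` is rational. -/
theorem divisionField_inter_torsionField (W : WeierstrassCurve ℤ)
    [(W.map (Int.castRingHom ℚ)).IsElliptic] [inst : DecidableEq (AlgebraicClosure ℚ)]
    {P : (W.map (Int.castRingHom ℚ)).toAffine.Point} (hP : ¬ IsOfFinAddOrder P) :
    ∃ C : ℕ, 0 < C ∧ ∀ N : ℕ, N ≠ 0 → N.Coprime C → ∀ (a b : AlgebraicClosure ℚ)
      (hab : ((W.map (Int.castRingHom ℚ)).toAffine⁄(AlgebraicClosure ℚ)).Nonsingular a b),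
      N • (Affine.Point.some a b hab :
          ((W.map (Int.castRingHom ℚ)).toAffine⁄(AlgebraicClosure ℚ)).Point) =
        Affine.Point.map (W' := (W.map (Int.castRingHom ℚ)).toAffine) (Algebra.ofId ℚ Qb) P →
      ∀ z ∈ IntermediateField.adjoin ℚ ({a, b} : Set (AlgebraicClosure ℚ)),
      (∀ σ : GQ, (∀ T : ((W.map (Int.castRingHom ℚ)).toAffine⁄(AlgebraicClosure ℚ)).Point,
          IsOfFinAddOrder T → Affine.Point.map σ.toAlgHom T = T) → σ z = z) →
      ∃ r : ℚ, algebraMap ℚ (AlgebraicClosure ℚ) r = z := by
  obtain rfl : inst = instDecEqAlgebraicClosureRat := Subsingleton.elim _ _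
  haveI : (ratCurve W).IsElliptic := ‹(W.map (Int.castRingHom ℚ)).IsElliptic›
  obtain ⟨C, hC, key⟩ := divisionParts_transitive_torsionField W
    (inst := instDecEqAlgebraicClosureRat) hP
  refine ⟨C, hC, fun N hN hcop a b hab hQ z hz hfix => ?_⟩
  replace hQ : N • (Affine.Point.some a b hab : ((ratCurve W).toAffine⁄Qb).Point) = up W P :=
    hQ.trans (FA.LinearDependence.up_eq_map P).symm
  suffices h : ∀ τ : GQ, τ z = z by
    have : z ∈ IntermediateField.fixedField (⊤ : Subgroup GQ) := fun τ => h τ.1
    rwa [InfiniteGalois.fixedField_bot, IntermediateField.mem_bot] at this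
  intro τ
  obtain ⟨σ, hσ, hστ⟩ := key N hN hcop (Affine.Point.some a b hab)
    (τ • (Affine.Point.some a b hab : ((ratCurve W).toAffine⁄Qb).Point))
    (hQ.trans (FA.LinearDependence.up_eq_map P))
    ((show N • (τ • (Affine.Point.some a b hab : ((ratCurve W).toAffine⁄Qb).Point)) = up W P by
      rw [← smul_nat, hQ, smul_up]).trans (FA.LinearDependence.up_eq_map P))
  obtain ⟨_, e₁⟩ := smul_some (σ := σ) (ratCurve W) hab
  obtain ⟨_, e₂⟩ := smul_some (σ := τ) (ratCurve W) hab
  have h3 := (e₁.symm.trans hστ).trans e₂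
  simp only [Affine.Point.some.injEq] at h3
  rw [← eq_of_eq_on_adjoin (fun s hs => ?_) hz, hfix σ hσ]
  rcases hs with rfl | rfl
  exacts [h3.1, h3.2]

end FA.Summary

end
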