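import Fermat.Agent.Root.SummarySerreCurveStructure
import Fermat.Agent.Root.SummaryTraceDistribution
import Fermat.Agent.Root.SummaryTorsionFieldAbelian
import Fermat.Agent.SerreCurve.Conductor
import Fermat.Agent.Independence.AdelicGlue

/-!
# The abelian part of the division fields

If Galois induces every automorphism of `E[N]`, `N` odd, an abelian extension of `ℚ` inside the
field of the `N`-torsion lies in `ℚ(ζ_N)`: in the abelian quotient `D U = U² D` for `D = diag(2, 1)`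
and `U = upMat y` kills `U`, likewise the lower elementary matrices, so all of determinant one, and
the determinant is the action on the roots of unity. For a Serre curve this is so at every odd `N`.
-/

set_option autoImplicit false
set_option linter.style.haveILetI false

noncomputable section

open Matrix WeierstrassCurve WeierstrassCurve.Affine IntermediateField FA.EC FA.Frob FA.RT
open FA.RT.Tate (Pts)
open FA.Independence.Family (upMat lowMat)
open scoped WeierstrassCurve.Affine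

local notation "Qb" => AlgebraicClosure ℚ
local notation "GQ" => AlgebraicClosure ℚ ≃ₐ[ℚ] AlgebraicClosure ℚ

namespace FA.AbelianPart

variable {W : WeierstrassCurve ℤ} [(ratCurve W).IsElliptic]

/-- **An abelian extension inside the `N`-th division field is fixed by what fixes `μ_N`.** -/
theorem fix_of_abelian {N : ℕ} (hN : Odd N)
    (hfull : ∀ ψ : Submodule.torsionBy ℤ ((ratCurve W)⁄Qb).Point (N : ℤ) ≃+
        Submodule.torsionBy ℤ ((ratCurve W)⁄Qb).Point (N : ℤ),
      ∃ σ : GQ, ∀ y, σ • y.1 = (ψ y).1)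
    (K : IntermediateField ℚ Qb) [IsAbelianGalois ℚ K]
    (hK : ∀ σ : GQ, (∀ y : Pts W, N • y = 0 → σ • y = y) → ∀ x ∈ K, σ x = x)
    {σ : GQ} (hσ : ∀ μ : Qb, μ ^ N = 1 → σ μ = μ) : ∀ x ∈ K, σ x = x := by
  haveI : NeZero N := ⟨hN.pos.ne'⟩
  haveI : IsGalois ℚ Qb := FA.EC.isGalois_algebraicClosure
  haveI : Normal ℚ K := IsGalois.to_normal
  obtain ⟨b⟩ := FA.PadicImage.nonempty_torsion_equiv W (N := N)
  let π : GQ →* (K ≃ₐ[ℚ] K) := AlgEquiv.restrictNormalHom K
  have hπ : ∀ τ : GQ, π τ = 1 ↔ ∀ x ∈ K, τ x = x := fun τ => by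
    refine ⟨fun h x hx => ?_, fun h => AlgEquiv.ext fun x => Subtype.ext
      ((AlgEquiv.restrictNormal_commutes τ K x).trans (h x x.2))⟩
    have h2 := AlgEquiv.restrictNormal_commutes τ K ⟨x, hx⟩
    rw [show τ.restrictNormal K = 1 from h] at h2
    exact h2.symm
  let Acts : GQ → Matrix (Fin 2) (Fin 2) (ZMod N) → Prop := fun τ X =>
    ∀ v, τ • (b v).1 = (b (X *ᵥ v)).1
  have hmul : ∀ {τ ρ X Y}, Acts τ X → Acts ρ Y → Acts (τ * ρ) (X * Y) :=
    fun hX hY v => by rw [mul_smul, hY, hX, mulVec_mulVec]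
  -- elements acting alike agree on `K`
  have hker : ∀ {τ ρ X}, Acts τ X → Acts ρ X → π τ = π ρ := fun {τ ρ X} hX hY => by
    refine inv_mul_eq_one.mp ?_
    rw [← map_inv, ← map_mul, hπ]
    refine hK _ fun y hy => ?_
    obtain ⟨v, hv⟩ := b.surjective ⟨y, by rw [Submodule.mem_torsionBy_iff, natCast_zsmul]; exact hy⟩
    rw [mul_smul, inv_smul_eq_iff, show y = (b v).1 by rw [hv], hX, hY]
  have hex : ∀ X : Matrix (Fin 2) (Fin 2) (ZMod N), IsUnit X.det → ∃ τ, Acts τ X := fun X hX => by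
    obtain ⟨φ, hφ⟩ := FA.Independence.Adelic.exists_addEquiv b.symm.toAddEquiv (A := X) hX
    obtain ⟨τ, hτ⟩ := hfull φ
    exact ⟨τ, fun v => by rw [hτ, hφ]; simp⟩
  obtain ⟨u, hu⟩ : IsUnit (2 : ZMod N) := by
    have := (ZMod.isUnit_iff_coprime 2 N).mpr (Nat.coprime_two_left.mpr hN)
    exact_mod_cast this
  have hdiag : ∀ {D U : Matrix (Fin 2) (Fin 2) (ZMod N)}, IsUnit D.det → D * U = U * U * D →
      ∀ τ, Acts τ U → π τ = 1 := fun {D U} hD he τ hτ => by
    obtain ⟨ρ, hρ⟩ := hex D hD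
    have h1 := hker (hmul hρ hτ) (he ▸ hmul (hmul hτ hτ) hρ)
    rw [map_mul, map_mul, map_mul, IsMulCommutative.is_comm.comm (π ρ) (π τ)] at h1
    exact left_eq_mul.mp (mul_right_cancel h1)
  let P : Matrix (Fin 2) (Fin 2) (ZMod N) → Prop := fun X =>
    IsUnit X.det ∧ ∀ τ, Acts τ X → π τ = 1
  have hup : ∀ a, P (upMat (1 * a)) := fun a => ⟨by simp [upMat, det_fin_two_of],
    hdiag (D := !![2, 0; 0, 1]) (by rw [det_fin_two_of]; simp [← hu])
      (by ext i j; fin_cases i <;> fin_cases j <;>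
        simp [upMat, Matrix.mul_apply, Fin.sum_univ_two, two_mul])⟩
  have hlow : ∀ a, P (lowMat (1 * a)) := fun a => ⟨by simp [lowMat, det_fin_two_of],
    hdiag (D := !![1, 0; 0, 2]) (by rw [det_fin_two_of]; simp [← hu])
      (by ext i j; fin_cases i <;> fin_cases j <;>
        simp [lowMat, Matrix.mul_apply, Fin.sum_univ_two, two_mul])⟩
  have hsl : ∀ X : Matrix (Fin 2) (Fin 2) (ZMod N), X.det = 1 → P X := fun X hX => by
    have e : 1 + ((1 : ZMod N) * 1) • (X - 1) = X := by rw [mul_one, one_smul, add_sub_cancel]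
    refine e ▸ FA.Independence.Family.induction_congruence (1 : ZMod N) (P := P)
      (fun A B hA hB => ⟨by rw [det_mul]; exact hA.1.mul hB.1, fun τ hτ => ?_⟩) hup hlow (X - 1)
      (by rw [e, hX])
    obtain ⟨τA, hτA⟩ := hex A hA.1
    obtain ⟨τB, hτB⟩ := hex B hB.1
    rw [hker hτ (hmul hτA hτB), map_mul, hA.2 _ hτA, hB.2 _ hτB, mul_one]
  obtain ⟨A, hA⟩ := FA.SerreCurve.exists_matrix_smul b σ
  refine (hπ σ).mp ((hsl A ?_).2 σ hA)
  haveI : NeZero (N : Qb) := ⟨Nat.cast_ne_zero.mpr (NeZero.ne N)⟩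
  obtain ⟨ζ, hζ⟩ := HasEnoughRootsOfUnity.exists_primitiveRoot Qb N
  have h := (FA.SerreCurve.smul_root_eq_pow_det b hA hζ.pow_eq_one).symm.trans
    (hσ ζ hζ.pow_eq_one)
  refine ZMod.val_injective N ?_
  rw [ZMod.val_one_eq_one_mod]
  exact hζ.pow_inj (ZMod.val_lt _) (Nat.mod_lt _ (NeZero.pos N))
    (by rw [← pow_eq_pow_mod 1 hζ.pow_eq_one, pow_one, h])

/-- The same for a curve and a model. -/
theorem fix_roots_iff {E : WeierstrassCurve ℚ} [E.IsElliptic] {N : ℕ} (hN : Odd N)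
    (hfull : ∀ φ : Submodule.torsionBy ℤ (E.toAffine⁄Qb).Point (N : ℤ) ≃+
        Submodule.torsionBy ℤ (E.toAffine⁄Qb).Point (N : ℤ),
      ∃ σ : GQ, ∀ P, Affine.Point.map σ.toAlgHom P.1 = (φ P).1)
    (K : IntermediateField ℚ Qb) [IsAbelianGalois ℚ K] :
    (∀ σ : GQ, (∀ P : (E.toAffine⁄Qb).Point, N • P = 0 → Affine.Point.map σ.toAlgHom P = P) →
      ∀ x ∈ K, σ x = x) ↔
    ∀ σ : GQ, (∀ μ : Qb, μ ^ N = 1 → σ μ = μ) → ∀ x ∈ K, σ x = x := by
  obtain ⟨W, hW⟩ := FA.Frob.exists_integralModel E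
  haveI := ratCurve_isElliptic_of_Δ (Δ_ne_zero_of_model hW)
  obtain ⟨e, he⟩ := FA.Root.exists_equiv_of_model hW
  refine ⟨fun hK σ hσ => fix_of_abelian hN (FA.TraceDist.surjective_of_curve hW N hfull) K
    (fun τ hτ => hK τ fun P hP => ?_) hσ, fun hK σ hσ => hK σ fun μ hμ => ?_⟩
  · obtain ⟨y, rfl⟩ := e.surjective P
    rw [← he, hτ y (e.injective (by rw [map_nsmul, hP, map_zero]))]
  · refine FA.OpenImage.smul_root_of_fix_torsion (W := W) hN.pos.ne' (fun y hy => e.injective ?_) hμ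
    rw [he]
    exact hσ _ (by rw [← map_nsmul, hy, map_zero])

end FA.AbelianPart

namespace FA.Summary

open FA.SerreCurve

/-- **The abelian part of a division field**: if every automorphism of `E[N]`, `N` odd, comes from
Galois, a finite abelian extension of `ℚ` lies in the field of the `N`-torsion if and only if it
lies in the field of the `N`-th roots of unity. -/
theorem divisionField_abelianPart (E : WeierstrassCurve ℚ) [E.IsElliptic]
    [inst : DecidableEq (AlgebraicClosure ℚ)] {N : ℕ} (hN : Odd N)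
    (hfull : ∀ φ : Submodule.torsionBy ℤ (E.toAffine⁄(AlgebraicClosure ℚ)).Point (N : ℤ) ≃+
        Submodule.torsionBy ℤ (E.toAffine⁄(AlgebraicClosure ℚ)).Point (N : ℤ),
      ∃ σ : GQ, ∀ P, Affine.Point.map σ.toAlgHom P.1 = (φ P).1)
    (K : IntermediateField ℚ (AlgebraicClosure ℚ)) [IsAbelianGalois ℚ K] :
    (∀ σ : GQ, (∀ P : (E.toAffine⁄(AlgebraicClosure ℚ)).Point, N • P = 0 →
        Affine.Point.map σ.toAlgHom P = P) → ∀ x ∈ K, σ x = x) ↔
      K ≤ IntermediateField.adjoin ℚ {μ : AlgebraicClosure ℚ | μ ^ N = 1} := by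
  obtain rfl : inst = instDecEqAlgebraicClosureRat := Subsingleton.elim _ _
  haveI : IsGalois ℚ Qb := FA.EC.isGalois_algebraicClosure
  rw [FA.AbelianPart.fix_roots_iff hN hfull K]
  refine ⟨fun h x hx => ?_, fun h σ hσ x hx => ?_⟩
  · rw [← InfiniteGalois.fixedField_fixingSubgroup
      (IntermediateField.adjoin ℚ {μ : Qb | μ ^ N = 1})]
    exact fun ⟨σ, hσ⟩ => h σ (fun μ hμ => (IntermediateField.mem_fixingSubgroup_iff _ σ).mp hσ μ
      (IntermediateField.subset_adjoin ℚ _ hμ)) x hx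
  · have hx' := h hx
    clear hx
    induction hx' using IntermediateField.adjoin_induction with
    | mem μ hμ => exact hσ μ hμ
    | algebraMap r => exact σ.commutes r
    | add a b _ _ ha hb => rw [map_add, ha, hb]
    | inv a _ ha => rw [map_inv₀, ha]
    | mul a b _ _ ha hb => rw [map_mul, ha, hb]

/-- **The abelian part of the odd division fields of a Serre curve** is cyclotomic. -/
theorem serreCurve_abelianPart (E : WeierstrassCurve ℚ) [E.IsElliptic]
    [inst : DecidableEq (AlgebraicClosure ℚ)]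
    (ρ : GQ →* (AddCommGroup.torsion (E.toAffine⁄(AlgebraicClosure ℚ)).Point ≃ₗ[ℤ]
      AddCommGroup.torsion (E.toAffine⁄(AlgebraicClosure ℚ)).Point))
    (hρ : ∀ σ x, (ρ σ x).1 = Affine.Point.map σ.toAlgHom x.1) (h : ρ.range.index = 2)
    {N : ℕ} (hN : Odd N)
    (K : IntermediateField ℚ (AlgebraicClosure ℚ)) [IsAbelianGalois ℚ K] :
    (∀ σ : GQ, (∀ P : (E.toAffine⁄(AlgebraicClosure ℚ)).Point, N • P = 0 →
        Affine.Point.map σ.toAlgHom P = P) → ∀ x ∈ K, σ x = x) ↔
      K ≤ IntermediateField.adjoin ℚ {μ : AlgebraicClosure ℚ | μ ^ N = 1} :=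
  divisionField_abelianPart E hN (serreCurve_oddTorsion E ρ hρ h hN) K

/-- **The square roots in the odd division fields of a Serre curve**: for squarefree `d` a square
root of `d` lies in the field of the `N`-torsion if and only if the conductor of `ℚ(√d)` divides
`N`. -/
theorem serreCurve_sqrt_mem_divisionField (E : WeierstrassCurve ℚ) [E.IsElliptic]
    [inst : DecidableEq (AlgebraicClosure ℚ)]
    (ρ : GQ →* (AddCommGroup.torsion (E.toAffine⁄(AlgebraicClosure ℚ)).Point ≃ₗ[ℤ]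
      AddCommGroup.torsion (E.toAffine⁄(AlgebraicClosure ℚ)).Point))
    (hρ : ∀ σ x, (ρ σ x).1 = Affine.Point.map σ.toAlgHom x.1) (h : ρ.range.index = 2)
    {N : ℕ} (hN : Odd N) {d : ℤ} (hd : Squarefree d) {x : AlgebraicClosure ℚ}
    (hx : x ^ 2 = (d : AlgebraicClosure ℚ)) :
    (∀ σ : GQ, (∀ P : (E.toAffine⁄(AlgebraicClosure ℚ)).Point, N • P = 0 →
        Affine.Point.map σ.toAlgHom P = P) → σ x = x) ↔
      (if d % 4 = 1 then d.natAbs else 4 * d.natAbs) ∣ N := by
  obtain rfl : inst = instDecEqAlgebraicClosureRat := Subsingleton.elim _ _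
  haveI := FA.TorsionField.isAbelianGalois_adjoin_sqrt hx
  have key := FA.AbelianPart.fix_roots_iff (N := N) hN (serreCurve_oddTorsion E ρ hρ h hN) ℚ⟮x⟯
  have hsub : ∀ σ : GQ, (∀ y ∈ ℚ⟮x⟯, σ y = y) ↔ σ x = x := fun σ => by
    refine ⟨fun h => h x (IntermediateField.mem_adjoin_simple_self ℚ x), fun h y hy => ?_⟩
    induction hy using IntermediateField.adjoin_induction with
    | mem μ hμ => rw [Set.mem_singleton_iff.mp hμ, h]
    | algebraMap r => exact σ.commutes r
    | add a b _ _ ha hb => rw [map_add, ha, hb]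
    | inv a _ ha => rw [map_inv₀, ha]
    | mul a b _ _ ha hb => rw [map_mul, ha, hb]
  simp only [hsub] at key
  rw [key]
  exact isLevel_iff hd hx hN.pos.ne'

end FA.Summary

end
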