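import Fermat.Agent.DivisionLogSquare.Main

/-!
# The conditional theorem of Lagarias, Montgomery and Odlyzko for divisions, with exactly `log²`

Let `L/K` be Galois and `σ` in its group. The Riemann hypothesis for the Dedekind zeta functions of
the fields between the fixed field of `σ` and `L` is an argument of each statement. On it there is a
prime `v` of `K` with `N v = p` prime, `p ∤ d_L` and `p ≤ A log² (2 |d_L|)`, `A` absolute, at which
some `σ ^ k`, `k` prime to the order of `σ`, is a Frobenius element. So a cyclic extension has such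
a prime inert, and `σ` itself is the Frobenius where it is conjugate to these powers, as in `S_n`.
-/

set_option autoImplicit false
set_option linter.style.haveILetI false

noncomputable section

universe u

open NumberField IsDedekindDomain Module Ideal
open scoped Real Classical

namespace FA.DivisionLogSquare.Summary

/-- **The least prime of a division, with exactly `log²`.** -/
theorem least_division_prime_of_RH : ∃ A : ℝ, 0 < A ∧ ∀ {K L : Type u} [Field K] [NumberField K]
    [Field L] [NumberField L] [Algebra K L] [IsGalois K L] (σ : L ≃ₐ[K] L),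
    (∀ M : IntermediateField K L, IntermediateField.fixedField (Subgroup.zpowers σ) ≤ M →
      ∀ Z : ℂ → ℂ, Differentiable ℂ Z → (∀ s : ℂ, 1 < s.re → Z s = (s - 1) * dedekindZeta M s) →
        ∀ z : ℂ, Z z = 0 → 0 < z.re → z.re < 1 → z.re = 1 / 2) →
    ∃ v : HeightOneSpectrum (𝓞 K), (absNorm v.asIdeal).Prime ∧
      ¬ absNorm v.asIdeal ∣ (discr L).natAbs ∧
      (absNorm v.asIdeal : ℝ) ≤ A * Real.log (2 * ((discr L).natAbs : ℝ)) ^ 2 ∧
      ∃ Q ∈ v.asIdeal.primesOver (𝓞 L), ∃ k : ℕ, k.Coprime (orderOf σ) ∧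
        IsArithFrobAt (𝓞 K) (σ ^ k) Q := by
  obtain ⟨A, hA, h⟩ := exists_division_prime.{u}
  exact ⟨A, hA, fun {K L} _ _ _ _ _ _ σ hRH => h σ hRH⟩

/-- **The least inert prime of a cyclic extension, with exactly `log²`.** -/
theorem least_inert_prime_of_RH : ∃ A : ℝ, 0 < A ∧ ∀ {K L : Type u} [Field K] [NumberField K]
    [Field L] [NumberField L] [Algebra K L] [IsGalois K L], IsCyclic (L ≃ₐ[K] L) →
    (∀ M : IntermediateField K L,
      ∀ Z : ℂ → ℂ, Differentiable ℂ Z → (∀ s : ℂ, 1 < s.re → Z s = (s - 1) * dedekindZeta M s) →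
        ∀ z : ℂ, Z z = 0 → 0 < z.re → z.re < 1 → z.re = 1 / 2) →
    ∃ v : HeightOneSpectrum (𝓞 K), (absNorm v.asIdeal).Prime ∧
      ¬ absNorm v.asIdeal ∣ (discr L).natAbs ∧
      (absNorm v.asIdeal : ℝ) ≤ A * Real.log (2 * ((discr L).natAbs : ℝ)) ^ 2 ∧
      (v.asIdeal.primesOver (𝓞 L)).ncard = 1 := by
  obtain ⟨A, hA, h⟩ := exists_inert_prime.{u}
  exact ⟨A, hA, fun {K L} _ _ _ _ _ _ hc hRH => h hc hRH⟩

/-- **The least prime of a class closed under generators, with exactly `log²`.** -/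
theorem least_rational_class_prime_of_RH : ∃ A : ℝ, 0 < A ∧ ∀ {K L : Type u} [Field K]
    [NumberField K] [Field L] [NumberField L] [Algebra K L] [IsGalois K L] (σ : L ≃ₐ[K] L),
    (∀ M : IntermediateField K L, IntermediateField.fixedField (Subgroup.zpowers σ) ≤ M →
      ∀ Z : ℂ → ℂ, Differentiable ℂ Z → (∀ s : ℂ, 1 < s.re → Z s = (s - 1) * dedekindZeta M s) →
        ∀ z : ℂ, Z z = 0 → 0 < z.re → z.re < 1 → z.re = 1 / 2) →
    (∀ k : ℕ, k.Coprime (orderOf σ) → IsConj (σ ^ k) σ) →
    ∃ v : HeightOneSpectrum (𝓞 K), (absNorm v.asIdeal).Prime ∧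
      ¬ absNorm v.asIdeal ∣ (discr L).natAbs ∧
      (absNorm v.asIdeal : ℝ) ≤ A * Real.log (2 * ((discr L).natAbs : ℝ)) ^ 2 ∧
      ∃ Q ∈ v.asIdeal.primesOver (𝓞 L), IsArithFrobAt (𝓞 K) σ Q := by
  obtain ⟨A, hA, h⟩ := exists_rational_class_prime.{u}
  exact ⟨A, hA, fun {K L} _ _ _ _ _ _ σ hRH hc => h σ hRH hc⟩

end FA.DivisionLogSquare.Summary

end
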