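import Fermat.Agent.Root.SummaryAbelianTorsion
import Fermat.Agent.Root.SummaryIsogenyPrimes
import Fermat.Agent.Root.SummaryTateIsogenyAll

/-!
# Finitely many torsion points over the maximal abelian extension of `ℚ`, for every curve

For every elliptic curve over `ℚ`, with complex multiplication or not, only finitely many torsion
points are fixed by all commutators of the absolute Galois group: the image on each Tate module
spans all matrices over `ℚ_p`, on the torsion of large prime order over `𝔽_p`, and the commutators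
of matrices kill no nonzero vector.
-/

set_option autoImplicit false
set_option linter.unusedSectionVars false
set_option linter.style.haveILetI false

noncomputable section

open Matrix WeierstrassCurve WeierstrassCurve.Affine FA.EC FA.Frob FA.RT FA.RT.Tate
open scoped WeierstrassCurve.Affine

local notation "Qb" => AlgebraicClosure ℚ
local notation "GQ" => AlgebraicClosure ℚ ≃ₐ[ℚ] AlgebraicClosure ℚ
local notation "M2" => Matrix (Fin 2) (Fin 2)

namespace FA.TorsionMaxAbelian

/-- A vector killed by all commutators of a spanning set is killed by the squares of the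
multiples of the elementary matrices in the span. -/
theorem eq_zero_of_commutators {R T : Type*} [CommRing R] [CommRing T] (f : R →+* T)
    {s : Set (M2 R)} {w : Fin 2 → R}
    (h : ∀ A ∈ s, ∀ B ∈ s, ∀ i, f (((A * B - B * A) *ᵥ w) i) = 0) {c c' : R}
    (hc : c • !![0, 1; 0, 0] ∈ Submodule.span R s) (hc' : c' • !![0, 0; 1, 0] ∈ Submodule.span R s)
    (i : Fin 2) : f (c * c' * w i) = 0 := by
  have key : ∀ A ∈ Submodule.span R s, ∀ B ∈ Submodule.span R s, ∀ i,
      f (((A * B - B * A) *ᵥ w) i) = 0 := by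
    intro A hA B hB
    induction hA, hB using Submodule.span_induction₂ with
    | mem_mem x y hx hy => exact h x hx y hy
    | zero_left => simp
    | zero_right => simp
    | add_left x y z _ _ _ hx hy =>
      intro i
      rw [show (x + y) * z - z * (x + y) = (x * z - z * x) + (y * z - z * y) by
        rw [add_mul, mul_add]; abel, add_mulVec, Pi.add_apply, map_add, hx, hy, add_zero]
    | add_right x y z _ _ _ hx hy =>
      intro i
      rw [show x * (y + z) - (y + z) * x = (x * y - y * x) + (x * z - z * x) by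
        rw [add_mul, mul_add]; abel, add_mulVec, Pi.add_apply, map_add, hx, hy, add_zero]
    | smul_left a x y _ _ hx =>
      intro i
      rw [smul_mul_assoc, mul_smul_comm, ← smul_sub, smul_mulVec, Pi.smul_apply, smul_eq_mul,
        map_mul, hx, mul_zero]
    | smul_right a x y _ _ hx =>
      intro i
      rw [smul_mul_assoc, mul_smul_comm, ← smul_sub, smul_mulVec, Pi.smul_apply, smul_eq_mul,
        map_mul, hx, mul_zero]
  have h1 := key _ hc _ hc' i
  fin_cases i <;>
    simpa [Matrix.mul_apply, mulVec, dotProduct, Fin.sum_univ_two, mul_comm, mul_assoc,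
      mul_left_comm] using h1

variable {p : ℕ} [hp : Fact p.Prime] {W : WeierstrassCurve ℤ} [(ratCurve W).IsElliptic]

/-- An element of the rational span is, up to a nonzero factor, in the integral one. -/
theorem exists_smul_mem_span {s : Set (M2 ℤ_[p])} {N : M2 ℚ_[p]}
    (hN : N ∈ Submodule.span ℚ_[p] (PadicInt.Coe.ringHom.mapMatrix '' s)) :
    ∃ c : ℤ_[p], c ≠ 0 ∧ ∃ M ∈ Submodule.span ℤ_[p] s,
      PadicInt.Coe.ringHom.mapMatrix M = (c : ℚ_[p]) • N := by
  induction hN using Submodule.span_induction with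
  | mem x hx =>
    obtain ⟨M, hM, rfl⟩ := hx
    exact ⟨1, one_ne_zero, M, Submodule.subset_span hM, by simp⟩
  | zero => exact ⟨1, one_ne_zero, 0, Submodule.zero_mem _, by simp⟩
  | add x y _ _ hx hy =>
    obtain ⟨a, ha, M, hM, hMx⟩ := hx
    obtain ⟨b, hb, M', hM', hMy⟩ := hy
    refine ⟨a * b, mul_ne_zero ha hb, b • M + a • M',
      Submodule.add_mem _ (Submodule.smul_mem _ b hM) (Submodule.smul_mem _ a hM'), ?_⟩
    ext i j
    have h1 := congrFun (congrFun hMx i) j
    have h2 := congrFun (congrFun hMy i) j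
    simp at h1 h2 ⊢
    rw [h1, h2]
    ring
  | smul r x _ hx =>
    obtain ⟨a, ha, M, hM, hMx⟩ := hx
    obtain ⟨⟨u, d⟩, hud⟩ := IsLocalization.surj (nonZeroDivisors ℤ_[p]) r
    refine ⟨a * d, mul_ne_zero ha (nonZeroDivisors.ne_zero d.2), u • M,
      Submodule.smul_mem _ u hM, ?_⟩
    have hud' : r * ((d : ℤ_[p]) : ℚ_[p]) = (u : ℚ_[p]) := hud
    ext i j
    have h1 := congrFun (congrFun hMx i) j
    simp at h1 ⊢
    rw [h1]
    linear_combination -((a : ℚ_[p]) * x i j) * hud'

/-- **At each prime** the points of `p`-power order fixed by all commutators have bounded order. -/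
theorem exists_bound_primePow (B : TateBasis p W) :
    ∃ n : ℕ, ∀ (v : ℕ) (x : Pts W), p ^ v • x = 0 → (∀ σ τ : GQ, σ • τ • x = τ • σ • x) →
      p ^ n • x = 0 := by
  have hmem : ∀ M : M2 ℤ_[p], ∃ c : ℤ_[p], c ≠ 0 ∧
      c • M ∈ Submodule.span ℤ_[p] (Set.range B.rep) := fun M => by
    obtain ⟨c, hc, M', hM', heq⟩ := exists_smul_mem_span (s := Set.range B.rep)
      (N := PadicInt.Coe.ringHom.mapMatrix M) (by
        rw [← Set.range_comp]
        exact FA.TateIsogenyAll.span_rep_eq_top B ▸ Submodule.mem_top)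
    refine ⟨c, hc, ?_⟩
    convert hM' using 1
    ext i j
    have h1 := congrFun (congrFun heq i) j
    simp at h1 ⊢
    exact PadicInt.ext (by push_cast; exact h1.symm)
  obtain ⟨c, hc, hcm⟩ := hmem !![0, 1; 0, 0]
  obtain ⟨c', hc', hcm'⟩ := hmem !![0, 0; 1, 0]
  obtain ⟨n, u, hu⟩ := FA.PadicImage.exists_dvd_prime_pow (mul_ne_zero hc hc')
  refine ⟨n, fun v x hx hfix => ?_⟩
  obtain ⟨w, rfl⟩ := B.surj v x hx
  rw [← map_nsmul, B.ker]
  intro i
  have h := eq_zero_of_commutators (PadicInt.toZModPow v) (s := Set.range B.rep) (w := w)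
    (fun A ⟨σ, hA⟩ A' ⟨τ, hA'⟩ j => by
      subst hA hA'
      have h1 := B.phi_eq_iff.mp (by
        rw [← B.rep_spec, ← B.rep_spec]
        simpa only [← mulVec_mulVec, ← B.rep_spec] using hfix σ τ :
        B.φ v (B.rep σ *ᵥ (B.rep τ *ᵥ w)) = B.φ v (B.rep τ *ᵥ (B.rep σ *ᵥ w))) j
      rw [sub_mulVec, Pi.sub_apply, map_sub, ← mulVec_mulVec, ← mulVec_mulVec, h1, sub_self])
    hcm hcm' i
  rw [Pi.smul_apply, nsmul_eq_mul, Nat.cast_pow, hu, mul_assoc, mul_left_comm, map_mul, h,
    mul_zero]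

/-- **At the large primes** no point of order `p` is fixed by all commutators. -/
theorem eq_zero_of_irreducible (hp2 : p ≠ 2) (hirr : W.ModRepIsIrreducible p) {x : Pts W}
    (hx : p • x = 0) (hfix : ∀ σ τ : GQ, σ • τ • x = τ • σ • x) : x = 0 := by
  obtain ⟨B⟩ := exists_tateBasis (p := p) W
  have h2 : (2 : ZMod p) ≠ 0 := fun h => hp2 ((Nat.prime_dvd_prime_iff_eq hp.out Nat.prime_two).mp
    ((ZMod.natCast_eq_zero_iff 2 p).mp (by exact_mod_cast h)))
  have htop : Submodule.span (ZMod p) (Set.range (curveRep p W)) = ⊤ :=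
    FA.TateIsogenyAll.span_eq_top h2 _ complexConjugation_mul_self
      (det_complexConjugation W hp2) fun v hv => FA.Ribet.exists_moves_line hirr hv
  obtain ⟨w, rfl⟩ := B.surj 1 x (by rwa [pow_one])
  rw [B.ker]
  intro i
  have h := eq_zero_of_commutators (RingHom.id (ZMod p)) (s := Set.range (curveRep p W))
    (w := PadicInt.toZMod ∘ w)
    (fun A ⟨σ, hA⟩ A' ⟨τ, hA'⟩ j => by
      subst hA hA'
      have h1 := B.phi_eq_iff.mp (by
        simpa only [← mulVec_mulVec, ← B.rep_spec] using hfix σ τ :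
        B.φ 1 (B.rep σ *ᵥ (B.rep τ *ᵥ w)) = B.φ 1 (B.rep τ *ᵥ (B.rep σ *ᵥ w))) j
      have h2 : PadicInt.toZMod (((B.rep σ * B.rep τ - B.rep τ * B.rep σ) *ᵥ w) j) = 0 := by
        obtain ⟨z, hz⟩ : (p : ℤ_[p]) ∣ ((B.rep σ * B.rep τ - B.rep τ * B.rep σ) *ᵥ w) j := by
          rw [← Ideal.mem_span_singleton, ← pow_one (p : ℤ_[p]), ← PadicInt.ker_toZModPow,
            RingHom.mem_ker, sub_mulVec, Pi.sub_apply, map_sub, ← mulVec_mulVec, ← mulVec_mulVec,
            h1, sub_self]
        rw [hz, map_mul, map_natCast, ZMod.natCast_self, zero_mul]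
      rw [RingHom.id_apply, ← FA.PadicImage.rep_map_toZMod B σ, ← FA.PadicImage.rep_map_toZMod B τ,
        ← RingHom.mapMatrix_apply, ← RingHom.mapMatrix_apply,
        ← map_mul PadicInt.toZMod.mapMatrix, ← map_mul PadicInt.toZMod.mapMatrix, ← map_sub,
        RingHom.mapMatrix_apply, ← RingHom.map_mulVec]
      exact h2)
    (c := 1) (c' := 1) (htop ▸ Submodule.mem_top) (htop ▸ Submodule.mem_top) i
  rw [RingHom.id_apply, one_mul, one_mul, Function.comp_apply,
    FA.PadicImage.toZMod_eq_zero_iff] at h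
  obtain ⟨z, hz⟩ := h
  rw [hz, map_mul, map_natCast, (ZMod.natCast_eq_zero_iff p (p ^ 1)).mpr (by rw [pow_one]),
    zero_mul]

/-- **One bound for all torsion points fixed by the commutators.** -/
theorem exists_bound {E : WeierstrassCurve ℚ} [E.IsElliptic] (hW : W.IsIntegralModelOf E) :
    ∃ D : ℕ, 0 < D ∧ ∀ x : Pts W, IsOfFinAddOrder x →
      (∀ σ τ : GQ, σ • τ • x = τ • σ • x) → D • x = 0 := by
  classical
  obtain ⟨M, hM⟩ := FA.Summary.noStableSubgroup_large E
  have hb : ∀ l : ℕ, ∃ n : ℕ, l.Prime → ∀ (v : ℕ) (x : Pts W), l ^ v • x = 0 →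
      (∀ σ τ : GQ, σ • τ • x = τ • σ • x) → l ^ n • x = 0 := fun l => by
    by_cases hl : l.Prime
    · have := Fact.mk hl
      obtain ⟨B⟩ := exists_tateBasis (p := l) W
      exact (exists_bound_primePow B).imp fun n hn _ => hn
    · exact ⟨0, fun h => absurd h hl⟩
  choose n hn using hb
  refine ⟨∏ l ∈ Finset.range (M + 3) with l.Prime, l ^ n l,
    Finset.prod_pos fun l hl => pow_pos (Finset.mem_filter.mp hl).2.pos _,
    fun x hx hfix => addOrderOf_dvd_iff_nsmul_eq_zero.mp
      ((Nat.dvd_iff_prime_pow_dvd_dvd _ _).mpr fun l v hl hv => ?_)⟩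
  have := Fact.mk hl
  obtain ⟨d, hd⟩ := hv
  have hd0 : d ≠ 0 := fun e => hx.addOrderOf_pos.ne' (by rw [hd, e, mul_zero])
  have hord : addOrderOf (d • x) = l ^ v := by
    rw [addOrderOf_nsmul' x hd0, hd, Nat.gcd_mul_left_left, Nat.mul_div_cancel _
      (Nat.pos_of_ne_zero hd0)]
  have hfix' : ∀ (e : ℕ) (y : Pts W), (∀ σ τ : GQ, σ • τ • y = τ • σ • y) →
      ∀ σ τ : GQ, σ • τ • e • y = τ • σ • e • y := fun e y hy σ τ => by
    simp only [FA.RT.Tate.gal_smul_nsmul, hy]
  rcases Nat.eq_zero_or_pos v with rfl | hv0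
  · rw [pow_zero]
    exact one_dvd _
  have hlM : l < M + 3 := by
    by_contra hlt
    set y := l ^ (v - 1) • d • x with hy
    have hy0 : y ≠ 0 := fun h => by
      have h1 := addOrderOf_dvd_of_nsmul_eq_zero h
      rw [hord, Nat.pow_dvd_pow_iff_le_right hl.one_lt] at h1
      omega
    refine hy0 (eq_zero_of_irreducible (by omega)
      (FA.Root.Irred.modRepIsIrreducible_of_noStableSubgroup hW (hM l hl (by omega))) ?_
      (hfix' _ _ (hfix' _ _ hfix)))
    rw [hy, ← mul_nsmul', ← pow_succ', Nat.sub_add_cancel hv0, ← hord]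
    exact addOrderOf_nsmul_eq_zero _
  have h1 := addOrderOf_dvd_of_nsmul_eq_zero (hn l hl v _
    (hord ▸ addOrderOf_nsmul_eq_zero (d • x)) (hfix' _ _ hfix))
  rw [hord] at h1
  exact h1.trans (Finset.dvd_prod_of_mem (fun l => l ^ n l)
    (Finset.mem_filter.mpr ⟨Finset.mem_range.mpr hlM, hl⟩))

end FA.TorsionMaxAbelian

namespace FA.Summary

/-- **Finitely many torsion points over the maximal abelian extension of `ℚ`** on every elliptic
curve over `ℚ`: only finitely many torsion points are fixed by all commutators of the absolute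
Galois group. -/
theorem finite_torsion_maxAbelian_all (E : WeierstrassCurve ℚ) [E.IsElliptic]
    [inst : DecidableEq (AlgebraicClosure ℚ)] :
    {P : (E.toAffine⁄(AlgebraicClosure ℚ)).Point | IsOfFinAddOrder P ∧
      ∀ σ τ : AlgebraicClosure ℚ ≃ₐ[ℚ] AlgebraicClosure ℚ,
        Affine.Point.map (σ * τ * σ⁻¹ * τ⁻¹).toAlgHom P = P}.Finite := by
  obtain rfl : inst = instDecEqAlgebraicClosureRat := Subsingleton.elim _ _
  obtain ⟨W, hW⟩ := FA.Frob.exists_integralModel E
  haveI := FA.Frob.ratCurve_isElliptic_of_Δ (FA.Frob.Δ_ne_zero_of_model hW)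
  obtain ⟨D, hD, key⟩ := FA.TorsionMaxAbelian.exists_bound hW
  obtain ⟨e, he⟩ := FA.Root.exists_equiv_of_model hW
  haveI : Finite (Submodule.torsionBy ℤ ((ratCurve W)⁄Qb).Point (D : ℤ)) :=
    FA.EC.finite_torsionBy _ (Nat.cast_ne_zero.mpr hD.ne')
  refine ((Set.finite_range fun Q : Submodule.torsionBy ℤ ((ratCurve W)⁄Qb).Point (D : ℤ) =>
    e Q.1)).subset fun P ⟨hP, hfix⟩ => ?_
  refine ⟨⟨e.symm P, ?_⟩, e.apply_symm_apply P⟩
  rw [Submodule.mem_torsionBy_iff, natCast_zsmul]
  refine key _ (e.symm.toAddMonoidHom.isOfFinAddOrder hP) fun σ τ => ?_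
  obtain ⟨Q, rfl⟩ := e.surjective P
  rw [AddEquiv.symm_apply_apply]
  have h2 : (σ⁻¹ * τ⁻¹ * σ * τ) • Q = Q := e.injective <| by
    rw [he]
    simpa using hfix σ⁻¹ τ⁻¹
  calc σ • τ • Q = (σ * τ) • Q := (mul_smul _ _ _).symm
    _ = (τ * σ * (σ⁻¹ * τ⁻¹ * σ * τ)) • Q := by congr 1; group
    _ = τ • σ • Q := by rw [mul_smul, h2, mul_smul]

/-- **Bounded torsion over all abelian number fields at once**: one `B` bounds the number of
torsion points of `E(K)` for every abelian extension `K` of `ℚ` of finite degree, in particular for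
all cyclotomic fields. -/
theorem boundedTorsion_abelianField (E : WeierstrassCurve ℚ) [E.IsElliptic] :
    ∃ B : ℕ, ∀ (K : Type*) [Field K] [NumberField K] [IsAbelianGalois ℚ K] [DecidableEq K],
      {P : (E.toAffine⁄K).Point | IsOfFinAddOrder P}.Finite ∧
        {P : (E.toAffine⁄K).Point | IsOfFinAddOrder P}.ncard ≤ B := by
  classical
  have hfin := finite_torsion_maxAbelian_all E
  refine ⟨hfin.toFinset.card, fun K _ _ _ _ => ?_⟩
  let f : K →ₐ[ℚ] AlgebraicClosure ℚ := IsAlgClosed.lift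
  have hinj := Affine.Point.map_injective (W' := E.toAffine) f
  have hsub : Affine.Point.map (W' := E.toAffine) f ''
      {P : (E.toAffine⁄K).Point | IsOfFinAddOrder P} ⊆
      {P : (E.toAffine⁄(AlgebraicClosure ℚ)).Point | IsOfFinAddOrder P ∧
        ∀ σ τ : AlgebraicClosure ℚ ≃ₐ[ℚ] AlgebraicClosure ℚ,
          Affine.Point.map (σ * τ * σ⁻¹ * τ⁻¹).toAlgHom P = P} := by
    rintro _ ⟨P, hP, rfl⟩
    refine ⟨(Affine.Point.map (W' := E.toAffine) f).isOfFinAddOrder hP, fun σ τ => ?_⟩
    letI : Algebra K (AlgebraicClosure ℚ) := f.toRingHom.toAlgebra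
    haveI : IsScalarTower ℚ K (AlgebraicClosure ℚ) :=
      IsScalarTower.of_algebraMap_eq fun r => (f.commutes r).symm
    let π : (AlgebraicClosure ℚ ≃ₐ[ℚ] AlgebraicClosure ℚ) →* (K ≃ₐ[ℚ] K) :=
      AlgEquiv.restrictNormalHom K
    have h1 : π (σ * τ * σ⁻¹ * τ⁻¹) = 1 := by
      rw [map_mul, map_mul, map_mul, map_inv, map_inv, IsMulCommutative.is_comm.comm (π σ) (π τ),
        mul_inv_cancel_right, mul_inv_cancel]
    have hcomp : (σ * τ * σ⁻¹ * τ⁻¹).toAlgHom.comp f = f := AlgHom.ext fun x => by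
      have h2 := AlgEquiv.restrictNormal_commutes (σ * τ * σ⁻¹ * τ⁻¹) K x
      rw [show (σ * τ * σ⁻¹ * τ⁻¹).restrictNormal K = 1 from h1] at h2
      exact h2.symm
    rw [Affine.Point.map_map, hcomp]
  refine ⟨Set.Finite.of_finite_image (hfin.subset hsub) hinj.injOn, ?_⟩
  rw [← Set.ncard_image_of_injective _ hinj]
  exact (Set.ncard_le_ncard hsub hfin).trans_eq (Set.ncard_eq_toFinset_card _ hfin)

end FA.Summary

end
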