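import Fermat.Agent.Root.SummaryDivisionPoints
import Fermat.Agent.Root.SummaryTorsionMaxAbelianAll

/-!
# Division points over the maximal abelian extension of `ℚ`

For every elliptic curve over `ℚ` one `D > 0` is such that a point with a positive multiple in
`E(ℚ)` fixed by all commutators of the Galois group has its multiple by `D` in `E(ℚ)`: a Frobenius
`F` and a translation of parts by `t` commute on such a point, so `(F - 1) t` does nothing to it,
and `F - 1` is surjective up to `l + 1 - a_l` on the torsion prime to `l`.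
-/

set_option autoImplicit false
set_option linter.style.haveILetI false

noncomputable section

open WeierstrassCurve WeierstrassCurve.Affine FA.Frob FA.EC FA.PointDiv
open scoped WeierstrassCurve.Affine

local notation "Qb" => AlgebraicClosure ℚ
local notation "GQ" => AlgebraicClosure ℚ ≃ₐ[ℚ] AlgebraicClosure ℚ

namespace FA.DivisionMaxAbelian

variable (W : WeierstrassCurve ℤ) [(ratCurve W).IsElliptic]

/-- Independent points and a positive multiplier sending every rational point to their span. -/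
theorem exists_basis :
    ∃ (r : ℕ) (G : Fin r → (ratCurve W).toAffine.Point) (E : ℕ), LinearIndependent ℤ G ∧
      0 < E ∧ ∀ P : (ratCurve W).toAffine.Point, ∃ c : Fin r → ℤ, E • P = ∑ j, c j • G j := by
  haveI := FA.MordellWeil.mordell (ratCurve W)
  set H := (ratCurve W).toAffine.Point
  haveI : Module.Finite ℤ H := Module.Finite.iff_addGroup_fg.mpr inferInstance
  haveI : Finite (Submodule.torsion ℤ H) :=
    Module.finite_of_fg_torsion _ Submodule.torsion_isTorsion
  obtain ⟨r, ⟨e⟩⟩ := FA.MordellWeil.exists_equiv_torsion_prod H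
  set G : Fin r → H := fun j => e.symm (0, Pi.single j 1) with hG
  have hsum : ∀ c : Fin r → ℤ, ∑ j, c j • G j = e.symm (0, c) := fun c => by
    simp only [hG, ← map_zsmul, ← map_sum]
    congr 1
    refine Prod.ext ?_ ?_
    · simp [Prod.fst_sum]
    · rw [Prod.snd_sum]
      simp only [Prod.smul_snd]
      exact (pi_eq_sum_univ' c).symm
  refine ⟨r, G, Nat.card (Submodule.torsion ℤ H), Fintype.linearIndependent_iff.mpr fun c hc j => by
    rw [hsum, ← map_zero e.symm] at hc
    exact congrFun (congrArg Prod.snd (e.symm.injective hc)) j, Nat.card_pos, fun P => ?_⟩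
  set E := Nat.card (Submodule.torsion ℤ H)
  set c := (e P).2
  refine ⟨fun j => (E : ℤ) * c j, ?_⟩
  have htor : IsOfFinAddOrder (P - ∑ j, c j • G j) := by
    obtain ⟨m, hm, hm0⟩ := isOfFinAddOrder_iff_nsmul_eq_zero.mp (e P).1.2
    refine isOfFinAddOrder_iff_nsmul_eq_zero.mpr ⟨m, hm, e.injective ?_⟩
    rw [map_nsmul, map_sub, hsum, e.apply_symm_apply, map_zero]
    refine Prod.ext (Subtype.ext ?_) ?_
    · simpa using hm0
    · simp [c]
  obtain ⟨m, hm, hm0⟩ := isOfFinAddOrder_iff_nsmul_eq_zero.mp htor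
  have hzT : P - ∑ j, c j • G j ∈ Submodule.torsion ℤ H :=
    ⟨⟨(m : ℤ), mem_nonZeroDivisors_of_ne_zero (by exact_mod_cast hm.ne')⟩, by
      show (m : ℤ) • (P - ∑ j, c j • G j) = 0; rw [natCast_zsmul, hm0]⟩
  have h0 : E • (P - ∑ j, c j • G j) = 0 :=
    congrArg Subtype.val (card_nsmul_eq_zero' (x := (⟨_, hzT⟩ : Submodule.torsion ℤ H)))
  rw [nsmul_sub, sub_eq_zero] at h0
  rw [h0, Finset.smul_sum]
  exact Finset.sum_congr rfl fun j _ => by rw [mul_zsmul, natCast_zsmul]

/-- **A part fixed by the commutators**: at a level `pᵛ` with `p ≠ l` it forces `pᵛ` to divide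
`C (l + 1 - a_l)` times every coefficient. -/
theorem dvd_coeff {r : ℕ} {G : Fin r → (ratCurve W).toAffine.Point} {C E : ℕ}
    (key : ∀ N : ℕ, N ≠ 0 → ∀ Q : Fin r → ((ratCurve W).toAffine⁄Qb).Point,
      (∀ i, N • Q i = up W (G i)) →
      ∀ t : Fin r → ((ratCurve W).toAffine⁄Qb).Point, (∀ i, N • t i = 0) → ∃ g : GQ,
        (∀ y : ((ratCurve W).toAffine⁄Qb).Point, N • y = 0 → g • y = y) ∧
          ∀ i, g • Q i = Q i + C • t i)
    {l p v : ℕ} [hl : Fact l.Prime] [hp : Fact p.Prime] (hlp : l ≠ p) (hgood : W.IsGoodPrimeFor l)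
    {P : (ratCurve W).toAffine.Point} {c : Fin r → ℤ} (hc : E • P = ∑ j, c j • G j)
    {Q : ((ratCurve W).toAffine⁄Qb).Point} (hQ : p ^ v • Q = up W P)
    (hfix : ∀ σ τ : GQ, σ • τ • Q = τ • σ • Q) (i : Fin r) :
    ((p ^ v : ℕ) : ℤ) ∣ (C : ℤ) * ((l : ℤ) + 1 - W.apOfModel l) * c i := by
  have hn : p ^ v ≠ 0 := pow_ne_zero v hp.out.ne_zero
  obtain ⟨A, hA⟩ := FA.Deform.exists_liesOverPrime hl.out
  obtain ⟨F, hF⟩ := FA.Deform.exists_isFrobeniusAt hl.out hA
  set a := W.apOfModel l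
  obtain ⟨w, hw⟩ := FA.SubgroupDetection.exists_addOrderOf_pow W hp.out v
  have hw0 : p ^ v • w = 0 := by rw [← hw, addOrderOf_nsmul_eq_zero]
  have hFw : p ^ v • (F • w) = 0 := by
    rw [← smul_nat, hw0]; exact FA.Local.gal_smul_zero _ F
  have hrel := (FA.RT.Tate.frobenius_relations (W := W) (p := p) hl.out hA hlp hgood hF).1 v w hw0
  set u := F • w + (1 - a) • w with hu
  have hu0 : p ^ v • u = 0 := by rw [hu, nsmul_add, hFw, smul_comm, hw0, zsmul_zero, add_zero]
  choose Qj hQj using fun j => exists_div W hn (up W (G j))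
  obtain ⟨g, hg, hgQ⟩ := key (p ^ v) hn Qj hQj (fun j => if j = i then u else 0) fun j => by
    split
    · exact hu0
    · rw [nsmul_zero]
  let act := FA.Bashmakov.pointAct (ratCurve W)
  have hact : ∀ (h : GQ) x, act h x = h • x := fun _ _ => rfl
  -- what `g` does to the multiple of `Q`
  set s := E • Q - ∑ j, c j • Qj j with hs
  have hs0 : p ^ v • s = 0 := by
    rw [hs, nsmul_sub, smul_comm, hQ, ← map_nsmul, hc, Finset.smul_sum, map_sum, sub_eq_zero]
    exact Finset.sum_congr rfl fun j _ => by rw [map_zsmul, smul_comm, hQj j]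
  set δ := c i • (C • u) with hδ
  have hEQ : act g (E • Q) = E • Q + δ := by
    have hone : ∑ j, c j • (C • if j = i then u else 0) = c i • (C • u) := by
      rw [Finset.sum_eq_single i (fun j _ hj => by rw [if_neg hj, nsmul_zero, zsmul_zero])
        fun hi => absurd (Finset.mem_univ i) hi, if_pos rfl]
    have h1 : act g s = s := hg s hs0
    rw [hs, map_sub, map_sum, Finset.sum_congr rfl fun j _ => show act g (c j • Qj j) =
        c j • Qj j + c j • (C • if j = i then u else 0) by rw [map_zsmul, hact, hgQ, zsmul_add],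
      Finset.sum_add_distrib, hone, sub_eq_iff_eq_add] at h1
    rw [h1, hδ]
    abel
  -- `g` fixes what `F` moves `Q` by
  have hd : act g (act F (E • Q) - E • Q) = act F (E • Q) - E • Q := by
    refine hg _ ?_
    rw [nsmul_sub, ← map_nsmul, smul_comm, hQ, ← map_nsmul, hact, smul_up, sub_self]
  have hcomm : act F (act g (E • Q)) = act g (act F (E • Q)) := by
    simp only [hact, smul_nat, hfix F g]
  rw [map_sub, hEQ, sub_eq_iff_eq_add] at hd
  rw [hEQ, map_add, hd] at hcomm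
  have h0 : act F δ = δ := by
    have := hcomm
    rw [← sub_eq_zero] at this ⊢
    rw [← this]
    abel
  -- and `F - 1` is `-(l + 1 - a)` on `u`
  have hFu : act F u - u = -((l : ℤ) + 1 - a) • w := by
    have h2 : act F (act F w) - a • act F w + (l : ℤ) • w = 0 := by
      rw [hact, hact, ← hrel]
    rw [show act F u = act F (act F w) + (1 - a) • act F w by
      rw [hu, map_add, map_zsmul, ← hact F w], hu, ← hact F w,
      show act F (act F w) = a • act F w - (l : ℤ) • w by rw [← sub_eq_zero, ← h2]; abel]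
    module
  rw [hδ, map_zsmul, map_nsmul, ← sub_eq_zero, ← zsmul_sub, ← nsmul_sub, hFu, ← natCast_zsmul,
    ← mul_zsmul, ← mul_zsmul] at h0
  rw [← dvd_neg]
  rw [← hw]
  refine addOrderOf_dvd_iff_zsmul_eq_zero.mpr ?_
  rw [← h0]
  congr 1
  ring

end FA.DivisionMaxAbelian

namespace FA.Summary

open FA.DivisionMaxAbelian

/-- **Division points over `ℚ^ab`**: for every elliptic curve over `ℚ` one `D > 0` is such that a
point with a positive multiple in `E(ℚ)` fixed by all commutators of the Galois group has its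
multiple by `D` in `E(ℚ)`. -/
theorem divisionPoints_maxAbelian (W : WeierstrassCurve ℤ)
    [(W.map (Int.castRingHom ℚ)).IsElliptic] [inst : DecidableEq (AlgebraicClosure ℚ)] :
    ∃ D : ℕ, 0 < D ∧
      ∀ Q : ((W.map (Int.castRingHom ℚ)).toAffine⁄(AlgebraicClosure ℚ)).Point,
      (∃ n : ℕ, n ≠ 0 ∧ ∃ P : (W.map (Int.castRingHom ℚ)).toAffine.Point, n • Q =
        Affine.Point.map (W' := (W.map (Int.castRingHom ℚ)).toAffine) (Algebra.ofId ℚ Qb) P) →
      (∀ σ τ : GQ, Affine.Point.map (σ * τ * σ⁻¹ * τ⁻¹).toAlgHom Q = Q) →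
      ∃ R : (W.map (Int.castRingHom ℚ)).toAffine.Point, D • Q =
        Affine.Point.map (W' := (W.map (Int.castRingHom ℚ)).toAffine) (Algebra.ofId ℚ Qb) R := by
  obtain rfl : inst = instDecEqAlgebraicClosureRat := Subsingleton.elim _ _
  haveI : (ratCurve W).IsElliptic := ‹(W.map (Int.castRingHom ℚ)).IsElliptic›
  obtain ⟨r, G, E, hG, hE, hspan⟩ := exists_basis W
  obtain ⟨C, hC, key⟩ := FA.SubgroupDetection.exists_uniform_translations W hG
  obtain ⟨D₂, hD₂, key₂⟩ := FA.TorsionMaxAbelian.exists_bound (E := ratCurve W) (W := W)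
    ⟨1, one_smul _ _⟩
  have hΔ : W.Δ ≠ 0 := fun e => (ratCurve W).isUnit_Δ.ne_zero (by simp [ratCurve, e])
  obtain ⟨l, hlb, hl⟩ := Nat.exists_infinite_primes (W.Δ.natAbs + 1)
  obtain ⟨l', hlb', hl'⟩ := Nat.exists_infinite_primes (l + 1)
  haveI := Fact.mk hl
  haveI := Fact.mk hl'
  have hgood : ∀ q : ℕ, W.Δ.natAbs < q → W.IsGoodPrimeFor q := fun q hq e => by
    have := Nat.le_of_dvd (Int.natAbs_pos.mpr hΔ) (Int.natCast_dvd.mp e)
    omega
  have hne : ∀ q : ℕ, ∀ [Fact q.Prime], W.Δ.natAbs < q →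
      (q : ℤ) + 1 - W.apOfModel q ≠ 0 := fun q hq hlt h0 => by
    have hb : W.apOfModel q ^ 2 ≤ 4 * (q : ℤ) := by
      rw [← FA.Root.LFunction_apply_prime (ratCurve W) W ⟨1, one_smul _ _⟩ hq.out (hgood q hlt)]
      exact FA.Summary.hasse_LFunction _ W 1 (one_smul _ _) hq.out (hgood q hlt)
    have h2 : (2 : ℤ) ≤ q := by exact_mod_cast hq.out.two_le
    rw [show W.apOfModel q = q + 1 by omega] at hb
    nlinarith
  set m := ((l : ℤ) + 1 - W.apOfModel l) * ((l' : ℤ) + 1 - W.apOfModel l') with hm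
  refine ⟨D₂ * (m.natAbs * C * E), Nat.mul_pos hD₂ (Nat.mul_pos (Nat.mul_pos
    (Int.natAbs_pos.mpr (mul_ne_zero (hne l (by omega)) (hne l' (by omega)))) hC) hE), ?_⟩
  rintro Q ⟨n, hn, P, hnQ⟩ hfix
  replace hnQ : n • Q = up W P := hnQ.trans (FA.LinearDependence.up_eq_map P).symm
  replace hfix : ∀ σ τ : GQ, σ • τ • Q = τ • σ • Q := fun σ τ => by
    have h : (σ⁻¹ * τ⁻¹ * σ⁻¹⁻¹ * τ⁻¹⁻¹) • Q = Q := hfix σ⁻¹ τ⁻¹
    calc σ • τ • Q = (τ * σ) • ((σ⁻¹ * τ⁻¹ * σ⁻¹⁻¹ * τ⁻¹⁻¹) • Q) := by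
          rw [← mul_smul, ← mul_smul]; congr 1; group
      _ = τ • σ • Q := by rw [h, mul_smul]
  obtain ⟨c, hc⟩ := hspan P
  have hdvd : ∀ i, (n : ℤ) ∣ ((m.natAbs * C : ℕ) : ℤ) * c i := fun i => by
    rw [Int.natCast_dvd]
    refine (Nat.dvd_iff_prime_pow_dvd_dvd _ _).mpr fun p k hp hpk => ?_
    haveI := Fact.mk hp
    obtain ⟨e, he⟩ := hpk
    have hQ' : p ^ k • (e • Q) = up W P := by rw [← mul_nsmul', ← he, hnQ]
    have hfix' : ∀ σ τ : GQ, σ • τ • (e • Q) = τ • σ • (e • Q) := fun σ τ => by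
      rw [smul_nat, smul_nat, smul_nat, smul_nat, hfix σ τ]
    obtain ⟨q, hq, hqp, hqg, hqm⟩ : ∃ (q : ℕ) (_ : Fact q.Prime), q ≠ p ∧ W.IsGoodPrimeFor q ∧
        ((q : ℤ) + 1 - W.apOfModel q) ∣ m := by
      by_cases hlp : l = p
      · exact ⟨l', inferInstance, by omega, hgood l' (by omega), Dvd.intro_left _ rfl⟩
      · exact ⟨l, inferInstance, hlp, hgood l (by omega), Dvd.intro _ rfl⟩
    have h1 := dvd_coeff W key hqp hqg hc hQ' hfix' i
    rw [← Int.natCast_dvd]
    refine h1.trans ?_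
    rw [Nat.cast_mul, mul_comm (C : ℤ)]
    exact mul_dvd_mul_right (mul_dvd_mul_right (hqm.trans Int.dvd_natAbs_self) _) _
  choose d hd using hdvd
  set R₀ : (ratCurve W).toAffine.Point := ∑ j, d j • G j with hR₀
  have hR : n • R₀ = (m.natAbs * C * E) • P := by
    rw [mul_nsmul', hc, hR₀, Finset.smul_sum, Finset.smul_sum]
    exact Finset.sum_congr rfl fun j _ => by
      rw [← natCast_zsmul, ← natCast_zsmul, ← mul_zsmul, ← mul_zsmul, ← hd j]
  set T := (m.natAbs * C * E) • Q - up W R₀ with hT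
  have hTfin : IsOfFinAddOrder T := isOfFinAddOrder_iff_nsmul_eq_zero.mpr
    ⟨n, Nat.pos_of_ne_zero hn, by
      rw [hT, nsmul_sub, smul_comm, hnQ, ← map_nsmul, ← map_nsmul, hR, sub_self]⟩
  have h0 := key₂ T hTfin fun σ τ => by
    simp only [hT, FA.Local.gal_smul_sub (ratCurve W), smul_nat, smul_up, hfix σ τ]
  refine ⟨D₂ • R₀, ?_⟩
  rw [← FA.LinearDependence.up_eq_map, map_nsmul, mul_nsmul', ← sub_eq_zero, ← nsmul_sub]
  exact h0

end FA.Summary

end
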