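import Fermat.Agent.Root.SummaryKummerUniform
import Mathlib.FieldTheory.KrullTopology

/-!
# The open image theorem in the Kummer tower of an elliptic curve over `ℚ`

For independent points `P i` one `C > 0` is such that for every compatible system of parts of the
`P i` and every compatible system `t i` of torsion points one element of Galois fixes all the
torsion and translates the parts by `C t i` at every level at once: the Galois group of all the
parts over the field of all the torsion contains `C T(E)ʳ`, so it is open in `T(E)ʳ` (Ribet,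
Bertrand). The levels give a decreasing sequence of closed sets in a compact group.
-/

set_option autoImplicit false
set_option linter.style.haveILetI false

noncomputable section

open WeierstrassCurve WeierstrassCurve.Affine FA.Frob FA.EC FA.PointDiv
open scoped WeierstrassCurve.Affine Nat

local notation "Qb" => AlgebraicClosure ℚ
local notation "GQ" => AlgebraicClosure ℚ ≃ₐ[ℚ] AlgebraicClosure ℚ

namespace FA.KummerTower

variable (W : WeierstrassCurve ℤ) [(ratCurve W).IsElliptic]

/-- The elements fixing `E[m]` and sending the `m`-th parts `Q i` to given points. -/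
def sols {ι : Type*} (m : ℕ) (Q R : ι → ((ratCurve W).toAffine⁄Qb).Point) : Set GQ :=
  {σ | (∀ y : ((ratCurve W).toAffine⁄Qb).Point, m • y = 0 → σ • y = y) ∧ ∀ i, σ • Q i = R i}

/-- The solutions at one level are closed. -/
theorem isClosed_sols {ι : Type*} [Fintype ι] {m : ℕ} (hm : m ≠ 0)
    {P : ι → (ratCurve W).toAffine.Point} {Q : ι → ((ratCurve W).toAffine⁄Qb).Point}
    (hQ : ∀ i, m • Q i = up W (P i)) (R : ι → ((ratCurve W).toAffine⁄Qb).Point) :
    IsClosed (sols W m Q R) := by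
  rcases (sols W m Q R).eq_empty_or_nonempty with h | ⟨g, hg, hgQ⟩
  · rw [h]; exact isClosed_empty
  let K : Subgroup GQ :=
    { carrier := sols W m Q Q
      one_mem' := ⟨fun y _ => one_smul GQ y, fun i => one_smul GQ (Q i)⟩
      mul_mem' := fun {σ τ} hσ hτ => ⟨fun y hy => by rw [mul_smul, hτ.1 y hy, hσ.1 y hy],
        fun i => by rw [mul_smul, hτ.2 i, hσ.2 i]⟩
      inv_mem' := fun {σ} hσ => ⟨fun y hy => by rw [inv_smul_eq_iff, hσ.1 y hy],
        fun i => by rw [inv_smul_eq_iff, hσ.2 i]⟩ }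
  have := finite_fib W hm 0
  have := fun i => finite_fib W hm (P i)
  have hopen : IsOpen (K : Set GQ) := by
    refine Subgroup.isOpen_mono (H₁ := (fibHom W m 0).ker ⊓ ⨅ i, (fibHom W m (P i)).ker)
      (fun σ hσ => ?_) ?_
    · simp only [Subgroup.mem_inf, Subgroup.mem_iInf] at hσ
      exact ⟨fun y hy => congrArg Subtype.val (Equiv.congr_fun (MonoidHom.mem_ker.mp hσ.1)
          ⟨y, hy.trans (map_zero (up W)).symm⟩),
        fun i => congrArg Subtype.val (Equiv.congr_fun (MonoidHom.mem_ker.mp (hσ.2 i))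
          ⟨Q i, hQ i⟩)⟩
    · rw [Subgroup.coe_inf, Subgroup.coe_iInf]
      exact (isOpen_ker_fibHom W hm _).inter
        (isOpen_iInter_of_finite fun i => isOpen_ker_fibHom W hm _)
  have hS : sols W m Q R = (fun σ => g⁻¹ * σ) ⁻¹' (K : Set GQ) := by
    ext σ
    constructor
    · rintro ⟨hσ, hσQ⟩
      exact ⟨fun y hy => by rw [mul_smul, hσ y hy, inv_smul_eq_iff, hg y hy],
        fun i => by rw [mul_smul, hσQ i, inv_smul_eq_iff, hgQ i]⟩
    · rintro ⟨hσ, hσQ⟩
      refine ⟨fun y hy => ?_, fun i => ?_⟩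
      · have h1 := hσ y hy
        rwa [mul_smul, inv_smul_eq_iff, hg y hy] at h1
      · have h1 := hσQ i
        rwa [mul_smul, inv_smul_eq_iff, hgQ i] at h1
  rw [hS]
  exact (Subgroup.isClosed_of_isOpen K hopen).preimage (continuous_const_mul _)

/-- **A translation at one level lifts to an element fixing all the torsion.** -/
theorem exists_lift_fixing_torsion {ι : Type*} [Fintype ι] {P : ι → (ratCurve W).toAffine.Point}
    {C : ℕ} (key : ∀ N : ℕ, N ≠ 0 → ∀ Q : ι → ((ratCurve W).toAffine⁄Qb).Point,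
      (∀ i, N • Q i = up W (P i)) →
      ∀ t : ι → ((ratCurve W).toAffine⁄Qb).Point, (∀ i, N • t i = 0) → ∃ g : GQ,
        (∀ y : ((ratCurve W).toAffine⁄Qb).Point, N • y = 0 → g • y = y) ∧
          ∀ i, g • Q i = Q i + C • t i)
    {n : ℕ} (hn : n ≠ 0) {Q : ι → ((ratCurve W).toAffine⁄Qb).Point}
    (hQ : ∀ i, n • Q i = up W (P i)) {t : ι → ((ratCurve W).toAffine⁄Qb).Point}
    (ht : ∀ i, n • t i = 0) :
    ∃ g : GQ, (∀ T : ((ratCurve W).toAffine⁄Qb).Point, IsOfFinAddOrder T → g • T = T) ∧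
      ∀ i, g • Q i = Q i + C • t i := by
  have hM : ∀ k, n * k ! ≠ 0 := fun k => mul_ne_zero hn (Nat.factorial_ne_zero k)
  set S : ℕ → Set GQ := fun k => sols W n Q (fun i => Q i + C • t i) ∩
    sols W (ι := Fin 0) (n * k !) 0 0
  have hcl : ∀ k, IsClosed (S k) := fun k => (isClosed_sols W hn hQ _).inter
    (isClosed_sols W (P := (0 : Fin 0 → (ratCurve W).toAffine.Point)) (hM k)
      (fun i => i.elim0) _)
  obtain ⟨σ, hσ⟩ := IsCompact.nonempty_iInter_of_sequence_nonempty_isCompact_isClosed S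
    (fun k σ ⟨h1, h2⟩ => ⟨h1, fun y hy => h2.1 y (by
      rw [Nat.factorial_succ, mul_left_comm, mul_nsmul', hy, nsmul_zero]), fun i => i.elim0⟩)
    (fun k => by
      choose Q' hQ' using fun i => exists_div W (hM k) (up W (P i))
      choose t' ht' using fun i => exists_div W (Nat.factorial_ne_zero k) (t i)
      obtain ⟨g, hg, hgQ⟩ := key (n * k !) (hM k) Q' hQ' t'
        (fun i => by rw [mul_nsmul', ht', ht])
      have hn0 : ∀ y : ((ratCurve W).toAffine⁄Qb).Point, n • y = 0 → g • y = y := fun y hy =>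
        hg y (by rw [mul_comm, mul_nsmul', hy, nsmul_zero])
      refine ⟨g, ⟨hn0, fun i => ?_⟩, hg, fun i => i.elim0⟩
      have hd : n • (k ! • Q' i - Q i) = 0 := by rw [nsmul_sub, ← mul_nsmul', hQ', hQ, sub_self]
      have h1 := hn0 _ hd
      rw [FA.Local.gal_smul_sub (ratCurve W), smul_nat, hgQ, nsmul_add, smul_comm, ht'] at h1
      show g • Q i = Q i + C • t i
      rw [← sub_sub_cancel (k ! • Q' i + C • t i) (g • Q i), h1]
      abel)
    (hcl 0).isCompact hcl
  rw [Set.mem_iInter] at hσ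
  refine ⟨σ, fun T hT => ?_, (hσ 0).1.2⟩
  obtain ⟨m, hm, hmT⟩ := isOfFinAddOrder_iff_nsmul_eq_zero.mp hT
  obtain ⟨c, hc⟩ := Nat.dvd_factorial hm le_rfl
  exact (hσ m).2.1 T (by
    rw [hc, show n * (m * c) = n * c * m by ring, mul_nsmul', hmT, nsmul_zero])

end FA.KummerTower

namespace FA.Summary

open FA.KummerTower

/-- **The open image theorem in the Kummer tower**: for every elliptic curve over `ℚ` and
independent points `P i` one `C > 0` is such that for all compatible systems `Q m i` of parts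
(`m Q m i = P i`) and `t m i` of points of `E[m]` one element of Galois fixes every torsion point
and sends each `Q m i` to `Q m i + C • t m i`. -/
theorem kummerTower_open (W : WeierstrassCurve ℤ)
    [(W.map (Int.castRingHom ℚ)).IsElliptic] [inst : DecidableEq (AlgebraicClosure ℚ)]
    {ι : Type*} [Fintype ι] (P : ι → (W.map (Int.castRingHom ℚ)).toAffine.Point)
    (hP : LinearIndependent ℤ P) :
    ∃ C : ℕ, 0 < C ∧
      ∀ Q t : ℕ → ι → ((W.map (Int.castRingHom ℚ)).toAffine⁄(AlgebraicClosure ℚ)).Point,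
      (∀ m, m ≠ 0 → ∀ i, m • Q m i =
        Affine.Point.map (W' := (W.map (Int.castRingHom ℚ)).toAffine) (Algebra.ofId ℚ Qb) (P i)) →
      (∀ m n, m ≠ 0 → n ≠ 0 → ∀ i, n • Q (m * n) i = Q m i) →
      (∀ m, m ≠ 0 → ∀ i, m • t m i = 0) →
      (∀ m n, m ≠ 0 → n ≠ 0 → ∀ i, n • t (m * n) i = t m i) →
      ∃ σ : GQ, (∀ T : ((W.map (Int.castRingHom ℚ)).toAffine⁄(AlgebraicClosure ℚ)).Point,
          IsOfFinAddOrder T → Affine.Point.map σ.toAlgHom T = T) ∧
        ∀ m, m ≠ 0 → ∀ i, Affine.Point.map σ.toAlgHom (Q m i) = Q m i + C • t m i := by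
  obtain rfl : inst = instDecEqAlgebraicClosureRat := Subsingleton.elim _ _
  haveI : (ratCurve W).IsElliptic := ‹(W.map (Int.castRingHom ℚ)).IsElliptic›
  obtain ⟨C, hC, key⟩ := FA.SubgroupDetection.exists_uniform_translations W hP
  refine ⟨C, hC, fun Q t hQ hQc ht htc => ?_⟩
  replace hQ : ∀ m, m ≠ 0 → ∀ i, m • Q m i = up W (P i) := fun m hm i =>
    (hQ m hm i).trans (FA.LinearDependence.up_eq_map (P i)).symm
  set S : ℕ → Set GQ := fun k => sols W k ! (Q k !) (fun i => Q k ! i + C • t k ! i)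
  have hmono : ∀ {a b : ℕ}, a ≠ 0 → b ≠ 0 → ∀ σ ∈ sols W (a * b) (Q (a * b))
      (fun i => Q (a * b) i + C • t (a * b) i),
      σ ∈ sols W a (Q a) (fun i => Q a i + C • t a i) := by
    rintro a b ha hb σ ⟨hσ, hσQ⟩
    refine ⟨fun y hy => hσ y (by rw [mul_comm, mul_nsmul', hy, nsmul_zero]), fun i => ?_⟩
    rw [← hQc a b ha hb i, smul_nat, hσQ i, nsmul_add, hQc a b ha hb i, smul_comm,
      htc a b ha hb i]
  obtain ⟨σ, hσ⟩ := IsCompact.nonempty_iInter_of_sequence_nonempty_isCompact_isClosed S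
    (fun k σ hσ => by
      have h := hmono (a := k !) (b := k + 1) (Nat.factorial_ne_zero k) (by omega) σ
      rw [show k ! * (k + 1) = (k + 1)! by rw [Nat.factorial_succ, mul_comm]] at h
      exact h hσ)
    (fun k => by
      obtain ⟨g, hg, hgQ⟩ := key k ! (Nat.factorial_ne_zero k) (Q k !)
        (hQ _ (Nat.factorial_ne_zero k)) (t k !) (ht _ (Nat.factorial_ne_zero k))
      exact ⟨g, hg, hgQ⟩)
    (isClosed_sols W (Nat.factorial_ne_zero _) (hQ _ (Nat.factorial_ne_zero _)) _).isCompact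
    (fun k => isClosed_sols W (Nat.factorial_ne_zero _) (hQ _ (Nat.factorial_ne_zero _)) _)
  rw [Set.mem_iInter] at hσ
  have hall : ∀ m, m ≠ 0 → σ ∈ sols W m (Q m) (fun i => Q m i + C • t m i) := fun m hm => by
    obtain ⟨c, hc⟩ := Nat.dvd_factorial (Nat.pos_of_ne_zero hm) le_rfl
    refine hmono (b := c) hm (fun e => Nat.factorial_ne_zero m (by rw [hc, e, mul_zero])) σ ?_
    rw [← hc]
    exact hσ m
  refine ⟨σ, fun T hT => ?_, fun m hm i => (hall m hm).2 i⟩
  obtain ⟨m, hm, hmT⟩ := isOfFinAddOrder_iff_nsmul_eq_zero.mp hT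
  exact (hall m hm.ne').1 T hmT

end FA.Summary

end
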