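import Fermat.Agent.Root.SummaryOrderPrescribedSet
import Fermat.Agent.Root.SummarySupportProblemExact

/-!
# The support problem on a set of primes of density one

Exact parts of the orders of independent points occur outside any set of primes of density zero.
So it is enough that the order of `Q` divides that of the point `P` of infinite order, or that `Q`
is a multiple of `P`, modulo a set of primes of Dirichlet density one to make `Q` a multiple of
`P`; and equal orders at density one force `Q = P` or `Q = -P`.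
-/

set_option autoImplicit false
set_option linter.style.haveILetI false

noncomputable section

open WeierstrassCurve WeierstrassCurve.Affine NumberField IsDedekindDomain FA.Frob FA.EC
  FA.PointDiv
open scoped WeierstrassCurve.Affine Classical

local notation "Qb" => AlgebraicClosure ℚ

namespace FA.SupportDensity

open FA.SubgroupDetection FA.OrderDensity

/-- A set of primes given by a condition on the norm has density one if the condition holds at
almost all primes. -/
theorem density_one_of_finite {φ : ℕ → Prop} (h : {q : ℕ | q.Prime ∧ ¬ φ q}.Finite) :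
    {v : HeightOneSpectrum (𝓞 ℚ) | φ (Ideal.absNorm v.asIdeal)}.HasDirichletDensity 1 :=
  density_one_iff.mpr (density_zero_of_finite
    ((FA.Supersingular.finite_absNorm_mem h.toFinset).subset fun v hv =>
      h.mem_toFinset.mpr ⟨FA.Chebotarev.absNorm_prime v, hv⟩))

/-- A larger set still has density one. -/
theorem density_one_mono {S T : Set (HeightOneSpectrum (𝓞 ℚ))} (hST : S ⊆ T)
    (hS : S.HasDirichletDensity 1) : T.HasDirichletDensity 1 :=
  density_one_iff.mpr
    (FA.PrimeDivisors.density_zero_subset (Set.compl_subset_compl.mpr hST) (density_one_iff.mp hS))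

/-- A set of density one has a member outside any finite set. -/
theorem exists_mem_avoid {S : Set (HeightOneSpectrum (𝓞 ℚ))} (hS : S.HasDirichletDensity 1)
    (B : Finset ℕ) : ∃ v ∈ S, Ideal.absNorm v.asIdeal ∉ B := by
  by_contra hall
  simp only [not_exists, not_and, not_not] at hall
  exact one_ne_zero (tendsto_nhds_unique hS
    (density_zero_of_finite ((FA.Supersingular.finite_absNorm_mem B).subset hall)))

/-- A point of infinite order alone is independent. -/
theorem linearIndependent_const {G : Type*} [AddCommGroup G] {P : G} (hP : ¬ IsOfFinAddOrder P) :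
    LinearIndependent ℤ fun _ : Unit => P :=
  Fintype.linearIndependent_iff.mpr fun c hc i => by
    by_contra hci
    refine hP ?_
    rw [isOfFinAddOrder_iff_zsmul_eq_zero]
    exact ⟨c i, hci, by simpa using hc⟩

/-- Every `n ≠ 0` is an exact divisor of the order outside any finite set and any set of density
zero. -/
theorem exists_exactDivisor_avoid (W : WeierstrassCurve ℤ)
    [(W.map (Int.castRingHom ℚ)).IsElliptic]
    {x y : ℚ} (h : (W.map (Int.castRingHom ℚ)).toAffine.Nonsingular x y)
    (hP : ¬ IsOfFinAddOrder (Affine.Point.some x y h)) {n : ℕ} (hn : n ≠ 0) (B : Finset ℕ)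
    {Z : Set (HeightOneSpectrum (𝓞 ℚ))} (hZ : Z.HasDirichletDensity 0) :
    ∃ q : ℕ, ∃ _ : Fact q.Prime, (∀ v : HeightOneSpectrum (𝓞 ℚ),
      Ideal.absNorm v.asIdeal = q → v ∉ Z) ∧ q ∉ B ∧
      ∃ k : (W.map (Int.castRingHom (ZMod q))).toAffine.Nonsingular (x : ZMod q) y,
      ∃ m : ℕ, addOrderOf (Affine.Point.some (x : ZMod q) (y : ZMod q) k) = n * m ∧
        n.Coprime m := by
  obtain ⟨q, hq, hZq, hB, hall⟩ := exists_orderPrimeParts_avoid W (ι := Unit) (x := fun _ => x)
    (y := fun _ => y) (fun _ => h) (linearIndependent_const hP) (S := n.primeFactors)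
    (fun p => Nat.prime_of_mem_primeFactors) (fun p _ => n.factorization p) B hZ
  obtain ⟨k, hk⟩ := hall ()
  set o := addOrderOf (Affine.Point.some (x : ZMod q) (y : ZMod q) k)
  have hdvd : n ∣ o := by
    rw [Nat.dvd_iff_prime_pow_dvd_dvd]
    intro p i hp hi
    rcases Nat.eq_zero_or_pos i with rfl | hi0
    · rw [pow_zero]; exact one_dvd _
    exact (pow_dvd_pow p ((hp.pow_dvd_iff_le_factorization hn).mp hi)).trans
      (hk p (Nat.mem_primeFactors.mpr ⟨hp, (dvd_pow_self p hi0.ne').trans hi, hn⟩)).1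
  obtain ⟨m, hm⟩ := hdvd
  refine ⟨q, hq, hZq, hB, k, m, hm, Nat.coprime_of_dvd fun p hp hpn hpm => ?_⟩
  refine (hk p (Nat.mem_primeFactors.mpr ⟨hp, hpn, hn⟩)).2 ?_
  rw [hm, pow_succ]
  exact mul_dvd_mul (Nat.ordProj_dvd n p) hpm

/-- The integer whose prime divisors are those of bad reduction and of the denominators. -/
def badProd (W : WeierstrassCurve ℤ) (x y x' y' : ℚ) : ℕ :=
  W.Δ.natAbs * x.den * y.den * x'.den * y'.den

theorem badProd_ne_zero (W : WeierstrassCurve ℤ) [(ratCurve W).IsElliptic] (x y x' y' : ℚ) :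
    badProd W x y x' y' ≠ 0 := by
  have hΔ : W.Δ.natAbs ≠ 0 := fun e => (ratCurve W).isUnit_Δ.ne_zero (by
    simp [ratCurve, Int.natAbs_eq_zero.mp e])
  simp [badProd, hΔ]

/-- Reduction modulo a good prime as a homomorphism of the rational points, with the orders and
the multiples of the two points. -/
theorem exists_red (W : WeierstrassCurve ℤ) [(ratCurve W).IsElliptic] {x y x' y' : ℚ}
    (h : (ratCurve W).toAffine.Nonsingular x y) (h' : (ratCurve W).toAffine.Nonsingular x' y')
    {q : ℕ} [Fact q.Prime] (hq : ¬ q ∣ badProd W x y x' y') :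
    ∃ (k : (W.map (Int.castRingHom (ZMod q))).toAffine.Nonsingular (x : ZMod q) y)
      (k' : (W.map (Int.castRingHom (ZMod q))).toAffine.Nonsingular (x' : ZMod q) y')
      (A : ValuationSubring Qb) (_ : CharP (Res A) q)
      (_ : (redCurve A ((ratCurve W)⁄Qb).toAffine (intCoeff_ratCurve W A)).IsElliptic)
      (hA : A.LiesOverPrime q) (hgood : W.IsGoodPrimeFor q),
      redHom (intCoeff_ratCurve W A) (valuation_Δ_ratCurve W Fact.out hA hgood)
          (up W (.some x y h)) =
        mapHom (ZMod.castHom (dvd_refl q) (Res A)) (map_castHom W)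
          (Affine.Point.some (x : ZMod q) (y : ZMod q) k) ∧
      redHom (intCoeff_ratCurve W A) (valuation_Δ_ratCurve W Fact.out hA hgood)
          (up W (.some x' y' h')) =
        mapHom (ZMod.castHom (dvd_refl q) (Res A)) (map_castHom W)
          (Affine.Point.some (x' : ZMod q) (y' : ZMod q) k') := by
  have hd : ∀ {m : ℕ}, m ∣ badProd W x y x' y' → ¬ q ∣ m := fun hm e => hq (e.trans hm)
  have hgood : W.IsGoodPrimeFor q := fun e' => hd
    ((((dvd_mul_right W.Δ.natAbs x.den).mul_right _).mul_right _).mul_right _)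
    (Int.natCast_dvd.mp e')
  obtain ⟨A, hA⟩ := FA.Deform.exists_liesOverPrime (Fact.out : q.Prime)
  haveI : CharP (Res A) q := residueField_charP A Fact.out hA
  haveI := reductionMod_isElliptic W hgood
  haveI := redCurve_isElliptic (intCoeff_ratCurve W A) (valuation_Δ_ratCurve W Fact.out hA hgood)
  obtain ⟨k, e⟩ := redHom_up W hA hgood h
    (hd ((((dvd_mul_left _ _).mul_right _).mul_right _).mul_right _))
    (hd (((dvd_mul_left _ _).mul_right _).mul_right _))
  obtain ⟨k', e'⟩ := redHom_up W hA hgood h'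
    (hd ((dvd_mul_left _ _).mul_right _)) (hd (dvd_mul_left _ _))
  exact ⟨k, k', A, inferInstance, inferInstance, hA, hgood, e, e'⟩

/-- The primes at which the order of the first point divides that of the second. -/
def ordDvd (W : WeierstrassCurve ℤ) (x y x' y' : ℚ) : Set (HeightOneSpectrum (𝓞 ℚ)) :=
  {v | ∃ _ : Fact (Ideal.absNorm v.asIdeal).Prime,
    ∃ k : (W.map (Int.castRingHom (ZMod (Ideal.absNorm v.asIdeal)))).toAffine.Nonsingular
      (x : ZMod (Ideal.absNorm v.asIdeal)) y,
    ∃ k' : (W.map (Int.castRingHom (ZMod (Ideal.absNorm v.asIdeal)))).toAffine.Nonsingular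
      (x' : ZMod (Ideal.absNorm v.asIdeal)) y',
    addOrderOf (Affine.Point.some (x' : ZMod (Ideal.absNorm v.asIdeal)) _ k') ∣
      addOrderOf (Affine.Point.some (x : ZMod (Ideal.absNorm v.asIdeal)) _ k)}

theorem dvd_of_not_mem {W : WeierstrassCurve ℤ} {x y x' y' : ℚ} {q : ℕ} [Fact q.Prime]
    (hv : ∀ v : HeightOneSpectrum (𝓞 ℚ),
      Ideal.absNorm v.asIdeal = q → v ∉ (ordDvd W x y x' y')ᶜ)
    (k : (W.map (Int.castRingHom (ZMod q))).toAffine.Nonsingular (x : ZMod q) y)
    (k' : (W.map (Int.castRingHom (ZMod q))).toAffine.Nonsingular (x' : ZMod q) y') :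
    addOrderOf (Affine.Point.some (x' : ZMod q) (y' : ZMod q) k') ∣
      addOrderOf (Affine.Point.some (x : ZMod q) (y : ZMod q) k) := by
  obtain ⟨v, rfl⟩ := FA.Chebotarev.exists_absNorm_eq (Fact.out : q.Prime)
  obtain ⟨_, _, _, e⟩ := not_not.mp (hv v rfl)
  exact e

/-- If the order of `Q` divides that of the point `P` of infinite order on a set of density one,
then `Q` is a multiple of `P`. -/
theorem mem_zmultiples_of_density_one (W : WeierstrassCurve ℤ)
    [(W.map (Int.castRingHom ℚ)).IsElliptic]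
    {x y x' y' : ℚ} (h : (W.map (Int.castRingHom ℚ)).toAffine.Nonsingular x y)
    (h' : (W.map (Int.castRingHom ℚ)).toAffine.Nonsingular x' y')
    (hP : ¬ IsOfFinAddOrder (Affine.Point.some x y h))
    (hd : (ordDvd W x y x' y').HasDirichletDensity 1) :
    Affine.Point.some x' y' h' ∈ AddSubgroup.zmultiples (Affine.Point.some x y h) := by
  haveI : (ratCurve W).IsElliptic := ‹(W.map (Int.castRingHom ℚ)).IsElliptic›
  have hZ := density_one_iff.mp hd
  set P : (ratCurve W).toAffine.Point := Affine.Point.some x y h with hPdef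
  set Q : (ratCurve W).toAffine.Point := Affine.Point.some x' y' h' with hQdef
  set D := badProd W x y x' y' with hD
  have hD0 : D ≠ 0 := badProd_ne_zero W x y x' y'
  -- the two points are dependent
  obtain ⟨a, b, hab, ha⟩ : ∃ a b : ℤ, a • Q = b • P ∧ a ≠ 0 := by
    by_contra hne
    simp only [not_exists, not_and, not_not] at hne
    have hind : LinearIndependent ℤ fun i : Bool => (Affine.Point.some (cond i x' x) (cond i y' y)
        (show (ratCurve W).toAffine.Nonsingular (cond i x' x) (cond i y' y) by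
          cases i; exacts [h, h']) : (ratCurve W).toAffine.Point) := by
      refine Fintype.linearIndependent_iff.mpr fun c hc => ?_
      have hc' : c true • Q + c false • P = 0 := by simpa [Fintype.sum_bool] using hc
      have ht : c true = 0 := hne (c true) (-c false)
        (by rw [neg_zsmul]; exact eq_neg_of_add_eq_zero_left hc')
      rw [ht, zero_zsmul, zero_add] at hc'
      intro i
      cases i
      · by_contra hf
        exact hP (isOfFinAddOrder_iff_zsmul_eq_zero.mpr ⟨_, hf, hc'⟩)
      · exact ht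
    obtain ⟨q, _, hv, -, hall⟩ := exists_orderPrimeParts_avoid W (ι := Bool)
      (x := fun i => cond i x' x) (y := fun i => cond i y' y) (fun i => by cases i; exacts [h, h'])
      hind (S := {2}) (by simp [Nat.prime_two]) (fun _ i => cond i 1 0) ∅ hZ
    obtain ⟨k, hk⟩ := hall false
    obtain ⟨k', hk'⟩ := hall true
    exact (hk 2 (Finset.mem_singleton_self 2)).2
      ((hk' 2 (Finset.mem_singleton_self 2)).1.trans (dvd_of_not_mem hv k k'))
  -- reduced relation
  obtain ⟨a', b', hcop, g, hg, rfl, rfl⟩ : ∃ a' b' : ℤ, IsCoprime a' b' ∧ ∃ g : ℤ,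
      g ≠ 0 ∧ a = g * a' ∧ b = g * b' := by
    obtain ⟨g, a', b', hg, hc, e1, e2⟩ := Int.exists_gcd_one' (Int.gcd_pos_of_ne_zero_left b ha)
    exact ⟨a', b', Int.isCoprime_iff_gcd_eq_one.mpr hc, g, by exact_mod_cast hg.ne',
      e1.trans (mul_comm _ _), e2.trans (mul_comm _ _)⟩
  set T := a' • Q - b' • P with hT
  have hTfin : IsOfFinAddOrder T := isOfFinAddOrder_iff_zsmul_eq_zero.mpr
    ⟨g, hg, by rw [hT, zsmul_sub, ← mul_zsmul, ← mul_zsmul, hab, sub_self]⟩
  set t := addOrderOf T with ht
  have ht0 : 0 < t := hTfin.addOrderOf_pos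
  -- the coefficient of `Q` is a unit
  have hunit : a'.natAbs = 1 := by
    by_contra hne
    obtain ⟨r, hr, hra⟩ := Nat.exists_prime_and_dvd hne
    obtain ⟨c, hc⟩ := Int.natCast_dvd.mpr hra
    obtain ⟨w, u, huw⟩ : IsCoprime (r : ℤ) b' := hcop.of_isCoprime_of_dvd_left ⟨c, hc⟩
    set X := (u * c) • Q + w • P with hX
    have hPX : P = (r : ℤ) • X - u • T := by
      rw [hX, hT, hc]
      conv_lhs => rw [← one_zsmul P, ← huw]
      module
    obtain ⟨q, _, hv, hqB, k₀, m, hm, -⟩ := exists_exactDivisor_avoid W h hP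
      (n := r * t) (mul_ne_zero hr.ne_zero ht0.ne') D.divisors hZ
    have hqD : ¬ q ∣ D := fun e => hqB (Nat.mem_divisors.mpr ⟨e, hD0⟩)
    obtain ⟨k, k', A, _, _, hA, hgood, eP, eQ⟩ := exists_red W h h' hqD
    set red := (redHom (intCoeff_ratCurve W A) (valuation_Δ_ratCurve W Fact.out hA hgood)).comp
      (up W) with hred
    have ho : addOrderOf (red P) = r * t * m := by
      rw [show red P = _ from eP, addOrderOf_injective _ (mapHom_injective _ _)]
      exact hm
    have hoQ : (r * t * m) • red Q = 0 := by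
      rw [show red Q = _ from eQ, ← map_nsmul]
      rw [addOrderOf_dvd_iff_nsmul_eq_zero.mp (hm ▸ dvd_of_not_mem hv k k'), map_zero]
    have hoP : (r * t * m) • red P = 0 := ho ▸ addOrderOf_nsmul_eq_zero _
    have hkill : (t * m) • red P = 0 := by
      have hX0 : (r * t * m) • red X = 0 := by
        rw [hX, map_add, map_zsmul, map_zsmul, nsmul_add, smul_comm (r * t * m),
          smul_comm (r * t * m), hoQ, hoP, zsmul_zero, zsmul_zero, add_zero]
      have hT0 : (t * m) • red T = 0 := by
        rw [mul_comm, mul_nsmul', ← map_nsmul, ht, addOrderOf_nsmul_eq_zero, map_zero, nsmul_zero]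
      rw [hPX, map_sub, map_zsmul, map_zsmul, nsmul_sub, natCast_zsmul, ← mul_nsmul',
        mul_comm (t * m) r, ← mul_assoc, hX0, smul_comm (t * m), hT0, zsmul_zero, sub_zero]
    have h1 := addOrderOf_dvd_of_nsmul_eq_zero hkill
    rw [ho] at h1
    have hm0 : 0 < m := Nat.pos_of_ne_zero fun e => by
      rw [e, mul_zero] at ho
      haveI := reductionMod_isElliptic W hgood
      have hpos : 0 < addOrderOf (Affine.Point.some (x : ZMod q) (y : ZMod q) k) := addOrderOf_pos _
      rw [← addOrderOf_injective _ (mapHom_injective (ZMod.castHom (dvd_refl q) (Res A))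
        (map_castHom W)), ← eP] at hpos
      exact hpos.ne' ho
    have := Nat.le_of_dvd (Nat.mul_pos ht0 hm0) h1
    nlinarith [hr.two_le, Nat.mul_pos ht0 hm0]
  -- `Q` is a multiple of `P` up to torsion
  obtain ⟨c, T', hT', hQ⟩ : ∃ (c : ℤ) (T' : (ratCurve W).toAffine.Point),
      IsOfFinAddOrder T' ∧ Q = c • P + T' := by
    rcases Int.natAbs_eq a' with e | e <;> rw [hunit, Nat.cast_one] at e
    · exact ⟨b', T, hTfin, by rw [hT, e, one_zsmul, add_sub_cancel]⟩
    · refine ⟨-b', -T, hTfin.neg, ?_⟩
      rw [hT, e]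
      module
  by_contra hne
  have hT0 : T' ≠ 0 := fun e => hne (by
    rw [hQ, e, add_zero]; exact AddSubgroup.zsmul_mem_zmultiples _ _)
  obtain ⟨r, hr, s, hs⟩ := Nat.exists_prime_and_dvd
    (fun e => hT0 (AddMonoid.addOrderOf_eq_one_iff.mp e))
  have hs0 : s • T' ≠ 0 := fun e => by
    have h1 := addOrderOf_dvd_of_nsmul_eq_zero e
    have h2 : 0 < addOrderOf T' := hT'.addOrderOf_pos
    have h3 : 0 < s := Nat.pos_of_ne_zero fun e0 => by rw [hs, e0, mul_zero] at h2; omega
    rw [hs] at h1
    have := Nat.le_of_dvd h3 h1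
    nlinarith [hr.two_le]
  obtain ⟨d, hd0, hdT⟩ := red_up_ne_zero W (s • T') hs0
  obtain ⟨q, _, hv, hqB, hall⟩ := exists_orderPrimeParts_avoid W (ι := Unit) (x := fun _ => x)
    (y := fun _ => y) (fun _ => h) (linearIndependent_const hP) (S := {r}) (by simp [hr])
    (fun _ _ => 0) (D * d).divisors hZ
  have hqD : ¬ q ∣ D * d := fun e => hqB (Nat.mem_divisors.mpr ⟨e, mul_ne_zero hD0 hd0⟩)
  obtain ⟨k, k', A, _, _, hA, hgood, eP, eQ⟩ := exists_red W h h'
    (fun e => hqD (e.mul_right d))
  set red := (redHom (intCoeff_ratCurve W A) (valuation_Δ_ratCurve W Fact.out hA hgood)).comp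
    (up W) with hred
  obtain ⟨k₀, hk₀⟩ := hall ()
  refine (hk₀ r (Finset.mem_singleton_self r)).2 ?_
  rw [zero_add, pow_one]
  set o := addOrderOf (Affine.Point.some (x : ZMod q) (y : ZMod q) k₀)
  have hoP : o • red P = 0 := by
    rw [show red P = _ from eP, ← map_nsmul, addOrderOf_nsmul_eq_zero, map_zero]
  have hoQ : o • red Q = 0 := by
    rw [show red Q = _ from eQ, ← map_nsmul,
      addOrderOf_dvd_iff_nsmul_eq_zero.mp (dvd_of_not_mem hv k k'), map_zero]
  have hr0 : r • red (s • T') = 0 := by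
    rw [← map_nsmul, ← mul_nsmul', ← hs, addOrderOf_nsmul_eq_zero, map_zero]
  have hord : addOrderOf (red (s • T')) = r :=
    addOrderOf_eq_prime (hp := ⟨hr⟩) hr0 (hdT hA hgood fun e => hqD (e.mul_left D))
  rw [← hord]
  refine addOrderOf_dvd_of_nsmul_eq_zero ?_
  rw [map_nsmul, smul_comm, show red T' = red Q - c • red P by
    rw [hQ, map_add, map_zsmul, add_sub_cancel_left], nsmul_sub, hoQ, smul_comm o c, hoP,
    zsmul_zero, sub_zero, nsmul_zero]

end FA.SupportDensity

namespace FA.Summary

open FA.SupportDensity FA.SubgroupDetection FA.OrderDensity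

/-- **The support problem at density one**: for every elliptic curve over `ℚ`, the order of `Q`
divides that of the point `P` of infinite order modulo a set of primes of Dirichlet density one if
and only if `Q` is a multiple of `P`. -/
theorem supportProblem_density_iff (W : WeierstrassCurve ℤ)
    [(W.map (Int.castRingHom ℚ)).IsElliptic]
    {x y x' y' : ℚ} (h : (W.map (Int.castRingHom ℚ)).toAffine.Nonsingular x y)
    (h' : (W.map (Int.castRingHom ℚ)).toAffine.Nonsingular x' y')
    (hP : ¬ IsOfFinAddOrder (Affine.Point.some x y h)) :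
    Set.HasDirichletDensity {v : HeightOneSpectrum (𝓞 ℚ) |
      ∃ _ : Fact (Ideal.absNorm v.asIdeal).Prime,
      ∃ k : (W.map (Int.castRingHom (ZMod (Ideal.absNorm v.asIdeal)))).toAffine.Nonsingular
        (x : ZMod (Ideal.absNorm v.asIdeal)) y,
      ∃ k' : (W.map (Int.castRingHom (ZMod (Ideal.absNorm v.asIdeal)))).toAffine.Nonsingular
        (x' : ZMod (Ideal.absNorm v.asIdeal)) y',
      addOrderOf (Affine.Point.some (x' : ZMod (Ideal.absNorm v.asIdeal)) _ k') ∣
        addOrderOf (Affine.Point.some (x : ZMod (Ideal.absNorm v.asIdeal)) _ k)} 1 ↔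
    Affine.Point.some x' y' h' ∈ AddSubgroup.zmultiples (Affine.Point.some x y h) :=
  ⟨mem_zmultiples_of_density_one W h h' hP, fun hm =>
    density_one_of_finite (φ := fun q => ∃ _ : Fact q.Prime,
      ∃ k : (W.map (Int.castRingHom (ZMod q))).toAffine.Nonsingular (x : ZMod q) y,
      ∃ k' : (W.map (Int.castRingHom (ZMod q))).toAffine.Nonsingular (x' : ZMod q) y',
      addOrderOf (Affine.Point.some (x' : ZMod q) (y' : ZMod q) k') ∣
        addOrderOf (Affine.Point.some (x : ZMod q) (y : ZMod q) k))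
      ((supportProblem_iff W h h' hP).mpr hm)⟩

/-- **Detection of linear dependence at density one**: for every elliptic curve over `ℚ`, the
point `Q` is a multiple of `P` modulo a set of primes of Dirichlet density one if and only if it is
a multiple of `P`. -/
theorem detectLinearDependence_density_iff (W : WeierstrassCurve ℤ)
    [(W.map (Int.castRingHom ℚ)).IsElliptic]
    {x y x' y' : ℚ} (h : (W.map (Int.castRingHom ℚ)).toAffine.Nonsingular x y)
    (h' : (W.map (Int.castRingHom ℚ)).toAffine.Nonsingular x' y') :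
    Set.HasDirichletDensity {v : HeightOneSpectrum (𝓞 ℚ) |
      ∃ _ : Fact (Ideal.absNorm v.asIdeal).Prime,
      ∃ k : (W.map (Int.castRingHom (ZMod (Ideal.absNorm v.asIdeal)))).toAffine.Nonsingular
        (x : ZMod (Ideal.absNorm v.asIdeal)) y,
      ∃ k' : (W.map (Int.castRingHom (ZMod (Ideal.absNorm v.asIdeal)))).toAffine.Nonsingular
        (x' : ZMod (Ideal.absNorm v.asIdeal)) y',
      Affine.Point.some (x' : ZMod (Ideal.absNorm v.asIdeal)) _ k' ∈ AddSubgroup.zmultiples
        (Affine.Point.some (x : ZMod (Ideal.absNorm v.asIdeal)) _ k)} 1 ↔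
    Affine.Point.some x' y' h' ∈ AddSubgroup.zmultiples (Affine.Point.some x y h) := by
  haveI : (ratCurve W).IsElliptic := ‹(W.map (Int.castRingHom ℚ)).IsElliptic›
  refine ⟨fun hd => ?_, fun hm => density_one_of_finite (φ := fun q => ∃ _ : Fact q.Prime,
      ∃ k : (W.map (Int.castRingHom (ZMod q))).toAffine.Nonsingular (x : ZMod q) y,
      ∃ k' : (W.map (Int.castRingHom (ZMod q))).toAffine.Nonsingular (x' : ZMod q) y',
      Affine.Point.some (x' : ZMod q) (y' : ZMod q) k' ∈
        AddSubgroup.zmultiples (Affine.Point.some (x : ZMod q) (y : ZMod q) k))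
      ((detectLinearDependence_iff W h h').mpr hm)⟩
  by_cases hP : IsOfFinAddOrder (Affine.Point.some x y h)
  · -- the finitely many multiples are separated at a large prime
    set P : (ratCurve W).toAffine.Point := Affine.Point.some x y h with hPdef
    set Q : (ratCurve W).toAffine.Point := Affine.Point.some x' y' h' with hQdef
    by_contra hne
    have hsep : ∀ j : Fin (addOrderOf P), Q - (j : ℕ) • P ≠ 0 := fun j e => hne (by
      rw [sub_eq_zero.mp e, ← natCast_zsmul]; exact AddSubgroup.zsmul_mem_zmultiples _ _)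
    choose d hd0 hdT using fun j => red_up_ne_zero W _ (hsep j)
    have hN : badProd W x y x' y' * ∏ j, d j ≠ 0 :=
      mul_ne_zero (badProd_ne_zero W x y x' y') (Finset.prod_ne_zero_iff.mpr fun j _ => hd0 j)
    obtain ⟨v, hv, hvN⟩ := exists_mem_avoid hd (badProd W x y x' y' * ∏ j, d j).divisors
    obtain ⟨_, k₀, k₀', hmem⟩ := hv
    have hnd : ¬ Ideal.absNorm v.asIdeal ∣ badProd W x y x' y' * ∏ j, d j :=
      fun e => hvN (Nat.mem_divisors.mpr ⟨e, hN⟩)
    obtain ⟨k, k', A, _, _, hA, hgood, eP, eQ⟩ := exists_red W h h'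
      (fun e => hnd (e.mul_right _))
    obtain ⟨z, hz⟩ := AddSubgroup.mem_zmultiples_iff.mp hmem
    set red := (redHom (intCoeff_ratCurve W A) (valuation_Δ_ratCurve W Fact.out hA hgood)).comp
      (up W) with hred
    have hzr : red Q = red ((z % (addOrderOf P : ℤ)).toNat • P) := by
      rw [← natCast_zsmul, Int.toNat_of_nonneg (Int.emod_nonneg _
        (Nat.cast_ne_zero.mpr hP.addOrderOf_pos.ne')), ← addOrderOf_dvd_sub_iff_zsmul_eq_zsmul.mp
        (Int.dvd_self_sub_emod), map_zsmul, show red P = _ from eP, ← map_zsmul,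
        show red Q = _ from eQ]
      exact congrArg _ hz.symm
    have hlt : (z % (addOrderOf P : ℤ)).toNat < addOrderOf P :=
      (Int.toNat_lt (Int.emod_nonneg _ (Nat.cast_ne_zero.mpr hP.addOrderOf_pos.ne'))).mpr
        (Int.emod_lt_of_pos z (Nat.cast_pos.mpr hP.addOrderOf_pos))
    refine hdT ⟨_, hlt⟩ hA hgood
      (fun e => hnd ((e.trans (Finset.dvd_prod_of_mem d (Finset.mem_univ _))).mul_left _)) ?_
    show red (Q - _) = 0
    rw [map_sub, hzr, sub_self]
  · refine (supportProblem_density_iff W h h' hP).mp (density_one_mono ?_ hd)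
    rintro v ⟨i, k, k', e⟩
    exact ⟨i, k, k', addOrderOf_dvd_of_mem_zmultiples e⟩

/-- **Equal orders at density one**: for every elliptic curve over `ℚ`, a point `Q` has the order of
the point `P` of infinite order modulo a set of primes of Dirichlet density one if and only if
`Q = P` or `Q = -P`. -/
theorem equalOrders_density_iff (W : WeierstrassCurve ℤ)
    [(W.map (Int.castRingHom ℚ)).IsElliptic]
    {x y x' y' : ℚ} (h : (W.map (Int.castRingHom ℚ)).toAffine.Nonsingular x y)
    (h' : (W.map (Int.castRingHom ℚ)).toAffine.Nonsingular x' y')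
    (hP : ¬ IsOfFinAddOrder (Affine.Point.some x y h)) :
    Set.HasDirichletDensity {v : HeightOneSpectrum (𝓞 ℚ) |
      ∃ _ : Fact (Ideal.absNorm v.asIdeal).Prime,
      ∃ k : (W.map (Int.castRingHom (ZMod (Ideal.absNorm v.asIdeal)))).toAffine.Nonsingular
        (x : ZMod (Ideal.absNorm v.asIdeal)) y,
      ∃ k' : (W.map (Int.castRingHom (ZMod (Ideal.absNorm v.asIdeal)))).toAffine.Nonsingular
        (x' : ZMod (Ideal.absNorm v.asIdeal)) y',
      addOrderOf (Affine.Point.some (x' : ZMod (Ideal.absNorm v.asIdeal)) _ k') =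
        addOrderOf (Affine.Point.some (x : ZMod (Ideal.absNorm v.asIdeal)) _ k)} 1 ↔
    Affine.Point.some x' y' h' = Affine.Point.some x y h ∨
      Affine.Point.some x' y' h' = -Affine.Point.some x y h := by
  refine ⟨fun hd => ?_, fun hQ => density_one_of_finite (φ := fun q => ∃ _ : Fact q.Prime,
      ∃ k : (W.map (Int.castRingHom (ZMod q))).toAffine.Nonsingular (x : ZMod q) y,
      ∃ k' : (W.map (Int.castRingHom (ZMod q))).toAffine.Nonsingular (x' : ZMod q) y',
      addOrderOf (Affine.Point.some (x' : ZMod q) (y' : ZMod q) k') =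
        addOrderOf (Affine.Point.some (x : ZMod q) (y : ZMod q) k))
      ((equalOrders_iff W h h' hP).mpr hQ)⟩
  obtain ⟨c, hc⟩ := AddSubgroup.mem_zmultiples_iff.mp ((supportProblem_density_iff W h h' hP).mp
    (density_one_mono (by rintro v ⟨i, k, k', e⟩; exact ⟨i, k, k', e ▸ dvd_rfl⟩) hd))
  have hc0 : c ≠ 0 := fun e => by
    rw [e, zero_zsmul] at hc
    exact Affine.Point.some_ne_zero _ hc.symm
  have hQ : ¬ IsOfFinAddOrder (Affine.Point.some x' y' h') := fun hf => by
    obtain ⟨n, hn, hn0⟩ := isOfFinAddOrder_iff_zsmul_eq_zero.mp hf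
    refine hP (isOfFinAddOrder_iff_zsmul_eq_zero.mpr ⟨n * c, mul_ne_zero hn hc0, ?_⟩)
    rw [mul_zsmul, hc, hn0]
  obtain ⟨d, hd'⟩ := AddSubgroup.mem_zmultiples_iff.mp ((supportProblem_density_iff W h' h hQ).mp
    (density_one_mono (by rintro v ⟨i, k, k', e⟩; exact ⟨i, k', k, e ▸ dvd_rfl⟩) hd))
  have hdc : d * c = 1 := by
    by_contra hne
    refine hP (isOfFinAddOrder_iff_zsmul_eq_zero.mpr ⟨d * c - 1, sub_ne_zero.mpr hne, ?_⟩)
    rw [sub_smul, one_zsmul, mul_zsmul, hc, hd', sub_self]
  rcases Int.eq_one_or_neg_one_of_mul_eq_one' hdc with ⟨-, rfl⟩ | ⟨-, rfl⟩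
  · left; rw [← hc, one_zsmul]
  · right; rw [← hc, neg_one_zsmul]

/-- **Exact parts beyond density zero**: for independent points on an elliptic curve over `ℚ`, any
finite set `S` of primes and any exponents, the primes modulo which `p ^ k p i` divides the order
of the `i`-th point exactly for all `p ∈ S` and all `i` do not have Dirichlet density zero. -/
theorem orderPrimeParts_prescribed_density (W : WeierstrassCurve ℤ)
    [(W.map (Int.castRingHom ℚ)).IsElliptic]
    {ι : Type} [Finite ι] {x y : ι → ℚ}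
    (h : ∀ i, (W.map (Int.castRingHom ℚ)).toAffine.Nonsingular (x i) (y i))
    (hind : LinearIndependent ℤ fun i => Affine.Point.some (x i) (y i) (h i))
    {S : Finset ℕ} (hS : ∀ p ∈ S, p.Prime) (k : ℕ → ι → ℕ) :
    ¬ Set.HasDirichletDensity {v : HeightOneSpectrum (𝓞 ℚ) |
      ∃ _ : Fact (Ideal.absNorm v.asIdeal).Prime, ∀ i,
      ∃ k' : (W.map (Int.castRingHom (ZMod (Ideal.absNorm v.asIdeal)))).toAffine.Nonsingular
        (x i : ZMod (Ideal.absNorm v.asIdeal)) (y i), ∀ p ∈ S,
      p ^ k p i ∣ addOrderOf (Affine.Point.some (x i : ZMod (Ideal.absNorm v.asIdeal)) _ k') ∧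
        ¬ p ^ (k p i + 1) ∣
          addOrderOf (Affine.Point.some (x i : ZMod (Ideal.absNorm v.asIdeal)) _ k')} 0 := by
  intro hd
  obtain ⟨q, hq, hv, -, hall⟩ := exists_orderPrimeParts_avoid W h hind hS k ∅ hd
  obtain ⟨v, rfl⟩ := FA.Chebotarev.exists_absNorm_eq (Fact.out : q.Prime)
  exact hv v rfl ⟨hq, hall⟩

end FA.Summary

end
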