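import Fermat.Agent.Root.SummaryKummerDegree
import Fermat.Agent.Root.SummaryKummerTower
import Fermat.Agent.Root.SummarySupportProblemDensity
import Fermat.Agent.Root.SummaryTorsionDegreeAll

/-!
# Division points of bounded degree

For every elliptic curve over `ℚ` and every `d` one `D > 0` is such that an algebraic point `Q` with
a positive multiple in `E(ℚ)` and at most `d` conjugates has `D Q ∈ E(ℚ)`: Galois translates the
`n`-th parts of a basis by a bounded multiple of `E[n]`, so few conjugates leave few parts, and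
torsion points with few conjugates have bounded order. A fixed point of infinite order has `N`-th
parts with at least `(N / gcd(N, C)) ^ 2` conjugates.
-/

set_option autoImplicit false
set_option linter.style.haveILetI false

noncomputable section

open WeierstrassCurve WeierstrassCurve.Affine FA.Frob FA.EC FA.PointDiv
open scoped WeierstrassCurve.Affine Nat

local notation "Qb" => AlgebraicClosure ℚ
local notation "GQ" => AlgebraicClosure ℚ ≃ₐ[ℚ] AlgebraicClosure ℚ

namespace FA.DivisionPoints

variable (W : WeierstrassCurve ℤ) [(ratCurve W).IsElliptic]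

/-- A point with a rational multiple has finitely many conjugates. -/
theorem finite_conjugates {n : ℕ} (hn : n ≠ 0) {P : (ratCurve W).toAffine.Point}
    {Q : ((ratCurve W).toAffine⁄Qb).Point} (hQ : n • Q = up W P) :
    (Set.range fun σ : GQ => σ • Q).Finite := by
  haveI := finite_fib W hn P
  refine (Set.finite_range fun x : Fib W n P => x.1).subset ?_
  rintro _ ⟨σ, rfl⟩
  exact ⟨⟨σ • Q, by rw [← smul_nat, hQ, smul_up]⟩, rfl⟩

/-- A point of exact order `n`. -/
theorem exists_addOrderOf_eq {n : ℕ} (hn : n ≠ 0) :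
    ∃ w : ((ratCurve W).toAffine⁄Qb).Point, addOrderOf w = n := by
  haveI := NeZero.mk hn
  obtain ⟨b⟩ := FA.PadicImage.nonempty_torsion_equiv W (N := n)
  refine ⟨(b (Pi.single 0 1)).1, ?_⟩
  refine (addOrderOf_injective ((Submodule.torsionBy ℤ _ (n : ℤ)).subtype.toAddMonoidHom.comp
    b.toAddMonoidHom) (Subtype.val_injective.comp b.injective) (Pi.single 0 1)).trans ?_
  refine (Nat.dvd_antisymm ?_ ?_ : addOrderOf (Pi.single 0 1 : Fin 2 → ZMod n) = n)
  · refine addOrderOf_dvd_of_nsmul_eq_zero (funext fun i => ?_)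
    rw [Pi.smul_apply, nsmul_eq_mul, ZMod.natCast_self, zero_mul, Pi.zero_apply]
  · have h := congrFun (addOrderOf_nsmul_eq_zero (Pi.single 0 1 : Fin 2 → ZMod n)) 0
    rw [Pi.smul_apply, Pi.single_eq_same, nsmul_eq_mul, mul_one, Pi.zero_apply] at h
    exact (ZMod.natCast_eq_zero_iff _ _).mp h

/-- The conjugates over the field of all torsion points. -/
def torsionConj (Q : ((ratCurve W).toAffine⁄Qb).Point) :
    Set ((ratCurve W).toAffine⁄Qb).Point :=
  {x | ∃ σ : GQ, (∀ T : ((ratCurve W).toAffine⁄Qb).Point, IsOfFinAddOrder T → σ • T = T) ∧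
    σ • Q = x}

omit [(ratCurve W).IsElliptic] in
theorem torsionConj_subset (Q : ((ratCurve W).toAffine⁄Qb).Point) :
    torsionConj W Q ⊆ Set.range fun σ : GQ => σ • Q := fun _ ⟨σ, _, h⟩ => ⟨σ, h⟩

/-- **The parts with few conjugates are parts of bounded multiples only**: `n` divides a bounded
multiple of every point with an `n`-th part of at most `d` conjugates over the torsion field. -/
theorem exists_bound_multiple (d : ℕ) :
    ∃ C : ℕ, 0 < C ∧ ∀ n : ℕ, n ≠ 0 → ∀ (P : (ratCurve W).toAffine.Point)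
      (Q : ((ratCurve W).toAffine⁄Qb).Point), n • Q = up W P →
      (torsionConj W Q).ncard ≤ d →
      ∃ R : (ratCurve W).toAffine.Point, n • R = C • P := by
  haveI := FA.MordellWeil.mordell (ratCurve W)
  set H := (ratCurve W).toAffine.Point
  haveI : Module.Finite ℤ H := Module.Finite.iff_addGroup_fg.mpr inferInstance
  haveI : Finite (Submodule.torsion ℤ H) :=
    Module.finite_of_fg_torsion _ Submodule.torsion_isTorsion
  obtain ⟨r, ⟨e⟩⟩ := FA.MordellWeil.exists_equiv_torsion_prod H
  set G : Fin r → H := fun j => e.symm (0, Pi.single j 1) with hG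
  have hsum : ∀ c : Fin r → ℤ, ∑ j, c j • G j = e.symm (0, c) := fun c => by
    simp only [hG, ← map_zsmul, ← map_sum]
    congr 1
    refine Prod.ext ?_ ?_
    · simp [Prod.fst_sum]
    · rw [Prod.snd_sum]
      simp only [Prod.smul_snd]
      exact (pi_eq_sum_univ' c).symm
  have hGind : LinearIndependent ℤ G := Fintype.linearIndependent_iff.mpr fun c hc j => by
    rw [hsum, ← map_zero e.symm] at hc
    exact congrFun (congrArg Prod.snd (e.symm.injective hc)) j
  obtain ⟨C, hC, key⟩ := FA.SubgroupDetection.exists_uniform_translations W hGind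
  set E := Nat.card (Submodule.torsion ℤ H)
  refine ⟨d ! * (C * E), Nat.mul_pos (Nat.factorial_pos d) (Nat.mul_pos hC Nat.card_pos),
    fun n hn P Q hQ hd => ?_⟩
  -- `E • P` lies in the span of the basis
  set c := (e P).2
  have hEP : E • P = ∑ j, ((E : ℤ) * c j) • G j := by
    have htor : IsOfFinAddOrder (P - ∑ j, c j • G j) := by
      obtain ⟨m, hm, hm0⟩ := isOfFinAddOrder_iff_nsmul_eq_zero.mp (e P).1.2
      refine isOfFinAddOrder_iff_nsmul_eq_zero.mpr ⟨m, hm, e.injective ?_⟩
      rw [map_nsmul, map_sub, hsum, e.apply_symm_apply, map_zero]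
      refine Prod.ext (Subtype.ext ?_) ?_
      · simpa using hm0
      · simp [c]
    obtain ⟨m, hm, hm0⟩ := isOfFinAddOrder_iff_nsmul_eq_zero.mp htor
    have hzT : P - ∑ j, c j • G j ∈ Submodule.torsion ℤ H :=
      ⟨⟨(m : ℤ), mem_nonZeroDivisors_of_ne_zero (by exact_mod_cast hm.ne')⟩, by
        show (m : ℤ) • (P - ∑ j, c j • G j) = 0; rw [natCast_zsmul, hm0]⟩
    have h0 : E • (P - ∑ j, c j • G j) = 0 :=
      congrArg Subtype.val (card_nsmul_eq_zero' (x := (⟨_, hzT⟩ : Submodule.torsion ℤ H)))
    rw [nsmul_sub, sub_eq_zero] at h0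
    rw [h0, Finset.smul_sum]
    exact Finset.sum_congr rfl fun j _ => by rw [mul_zsmul, natCast_zsmul]
  choose Qj hQj using fun j => exists_div W hn (up W (G j))
  obtain ⟨w, hw⟩ := exists_addOrderOf_eq W hn
  have hfin := (finite_conjugates W hn hQ).subset (torsionConj_subset W Q)
  -- each coefficient is divisible
  have hdvd : ∀ j, (n : ℤ) ∣ (d ! : ℤ) * ((C : ℤ) * ((E : ℤ) * c j)) := fun i => by
    set s := E • Q - ∑ j, ((E : ℤ) * c j) • Qj j with hs
    have hs0 : n • s = 0 := by
      rw [hs, nsmul_sub, smul_comm, hQ, ← map_nsmul, hEP, Finset.smul_sum, map_sum, sub_eq_zero]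
      exact Finset.sum_congr rfl fun j _ => by rw [map_zsmul, smul_comm, hQj j]
    set u := ((C : ℤ) * ((E : ℤ) * c i)) • w with hu
    let act := FA.Bashmakov.pointAct (ratCurve W)
    have hact : ∀ g x, act g x = g • x := fun _ _ => rfl
    -- the translates by the multiples of `u` are conjugates of `E • Q`
    have hsub : (fun x => E • Q + x) '' (AddSubgroup.zmultiples u : Set _) ⊆
        (fun x => E • x) '' torsionConj W Q := by
      rintro _ ⟨x, hx, rfl⟩
      obtain ⟨k, rfl⟩ := AddSubgroup.mem_zmultiples_iff.mp hx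
      obtain ⟨g, hgT, hgQ⟩ := FA.KummerTower.exists_lift_fixing_torsion W key hn hQj
          (t := fun j => if j = i then k • w else 0) fun j => by
        split
        · rw [smul_comm, show n • w = 0 by rw [← hw, addOrderOf_nsmul_eq_zero], zsmul_zero]
        · rw [nsmul_zero]
      have hg : ∀ y : ((ratCurve W).toAffine⁄Qb).Point, n • y = 0 → g • y = y := fun y hy =>
        hgT y (isOfFinAddOrder_iff_nsmul_eq_zero.mpr ⟨n, Nat.pos_of_ne_zero hn, hy⟩)
      refine ⟨g • Q, ⟨g, hgT, rfl⟩, ?_⟩
      show E • g • Q = E • Q + k • u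
      have hterm : ∀ j, act g (((E : ℤ) * c j) • Qj j) = ((E : ℤ) * c j) • Qj j +
          ((E : ℤ) * c j) • (C • if j = i then k • w else 0) := fun j => by
        rw [map_zsmul, hact, hgQ, zsmul_add]
      have h1 : act g s = s := hg s hs0
      have hone : ∑ j, ((E : ℤ) * c j) • (C • if j = i then k • w else 0) =
          ((E : ℤ) * c i) • (C • k • w) := by
        rw [Finset.sum_eq_single i (fun j _ hj => by rw [if_neg hj, nsmul_zero, zsmul_zero])
          fun hi => absurd (Finset.mem_univ i) hi, if_pos rfl]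
      rw [hs, map_sub, map_nsmul, map_sum, hact, Finset.sum_congr rfl fun j _ => hterm j,
        Finset.sum_add_distrib, hone, sub_eq_iff_eq_add] at h1
      rw [h1, sub_add, hu]
      module
    have hcard : addOrderOf u ≤ d := by
      rw [← Nat.card_zmultiples]
      refine le_trans (le_of_eq ?_) ((Set.ncard_le_ncard hsub (hfin.image _)).trans
        ((Set.ncard_image_le hfin).trans hd))
      rw [Set.ncard_image_of_injective _ (add_right_injective _)]
      exact Nat.card_coe_set_eq _
    have hu0 : 0 < addOrderOf u := IsOfFinAddOrder.addOrderOf_pos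
      (isOfFinAddOrder_iff_nsmul_eq_zero.mpr ⟨n, Nat.pos_of_ne_zero hn, by
        rw [hu, smul_comm, ← hw, addOrderOf_nsmul_eq_zero, zsmul_zero]⟩)
    have h2 : (d ! : ℤ) • u = 0 := by
      rw [natCast_zsmul]
      exact addOrderOf_dvd_iff_nsmul_eq_zero.mp (Nat.dvd_factorial hu0 hcard)
    rw [hu, ← mul_zsmul] at h2
    rw [← hw]
    exact addOrderOf_dvd_iff_zsmul_eq_zero.mpr h2
  choose m hm using hdvd
  refine ⟨∑ j, m j • G j, ?_⟩
  rw [mul_nsmul' P, mul_nsmul' P C E, hEP, Finset.smul_sum, Finset.smul_sum, Finset.smul_sum]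
  exact Finset.sum_congr rfl fun j _ => by
    rw [← natCast_zsmul, ← natCast_zsmul, ← natCast_zsmul, ← mul_zsmul, ← mul_zsmul, ← mul_zsmul,
      mul_assoc (d ! : ℤ), ← hm j]

end FA.DivisionPoints

namespace FA.Summary

open FA.DivisionPoints

/-- **Division points of bounded degree**: for every elliptic curve over `ℚ` and every `d` one
`D > 0` is such that an algebraic point with a positive multiple in `E(ℚ)` and at most `d`
conjugates has its multiple by `D` in `E(ℚ)`. -/
theorem divisionPoints_boundedDegree (W : WeierstrassCurve ℤ)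
    [(W.map (Int.castRingHom ℚ)).IsElliptic] [inst : DecidableEq (AlgebraicClosure ℚ)] (d : ℕ) :
    ∃ D : ℕ, 0 < D ∧
      ∀ Q : ((W.map (Int.castRingHom ℚ)).toAffine⁄(AlgebraicClosure ℚ)).Point,
      (∃ n : ℕ, n ≠ 0 ∧ ∃ P : (W.map (Int.castRingHom ℚ)).toAffine.Point, n • Q =
        Affine.Point.map (W' := (W.map (Int.castRingHom ℚ)).toAffine) (Algebra.ofId ℚ Qb) P) →
      (Set.range fun σ : GQ => Affine.Point.map σ.toAlgHom Q).ncard ≤ d →
      ∃ R : (W.map (Int.castRingHom ℚ)).toAffine.Point, D • Q =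
        Affine.Point.map (W' := (W.map (Int.castRingHom ℚ)).toAffine) (Algebra.ofId ℚ Qb) R := by
  obtain rfl : inst = instDecEqAlgebraicClosureRat := Subsingleton.elim _ _
  haveI : (ratCurve W).IsElliptic := ‹(W.map (Int.castRingHom ℚ)).IsElliptic›
  obtain ⟨C, hC, key⟩ := exists_bound_multiple W d
  obtain ⟨D, hD, key'⟩ := FA.TorsionDegree.exists_bound_degree (W := W) d
  refine ⟨D * C, Nat.mul_pos hD hC, ?_⟩
  rintro Q ⟨n, hn, P, hnQ⟩ hd
  replace hnQ : n • Q = up W P := hnQ.trans (FA.LinearDependence.up_eq_map P).symm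
  replace hd : (Set.range fun σ : GQ => σ • Q).ncard ≤ d := hd
  obtain ⟨R, hR⟩ := key n hn P Q hnQ ((Set.ncard_le_ncard (torsionConj_subset W Q)
    (finite_conjugates W hn hnQ)).trans hd)
  have hfin := finite_conjugates W hn hnQ
  set T : ((ratCurve W).toAffine⁄Qb).Point := C • Q - up W R with hT
  have hTfin : IsOfFinAddOrder T := isOfFinAddOrder_iff_nsmul_eq_zero.mpr
    ⟨n, Nat.pos_of_ne_zero hn, by
      rw [hT, nsmul_sub, smul_comm, hnQ, ← map_nsmul, ← map_nsmul, hR, sub_self]⟩
  have hTconj : (Set.range fun σ : GQ => σ • T) =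
      (fun x => C • x - up W R) '' Set.range fun σ : GQ => σ • Q := by
    rw [← Set.range_comp]
    congr 1
    funext σ
    show σ • T = C • σ • Q - up W R
    rw [hT, FA.Local.gal_smul_sub (ratCurve W), smul_nat, smul_up]
  have h0 := key' T hTfin fun σ => FA.TorsionDegree.pow_factorial_smul_eq
    (hTconj ▸ hfin.image _) (hTconj ▸ (Set.ncard_image_le hfin).trans hd) σ
  refine ⟨D • R, ?_⟩
  rw [← FA.LinearDependence.up_eq_map, map_nsmul, mul_nsmul', ← sub_eq_zero, ← nsmul_sub]
  exact h0

/-- **The degree of the parts of a point grows quadratically**: for a point of infinite order one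
`C > 0` is such that every `N`-th part has at least `(N / gcd(N, C)) ^ 2` conjugates. -/
theorem divisionPoints_conjugates_lower (W : WeierstrassCurve ℤ)
    [(W.map (Int.castRingHom ℚ)).IsElliptic] [inst : DecidableEq (AlgebraicClosure ℚ)]
    {P : (W.map (Int.castRingHom ℚ)).toAffine.Point} (hP : ¬ IsOfFinAddOrder P) :
    ∃ C : ℕ, 0 < C ∧ ∀ N : ℕ, N ≠ 0 →
      ∀ Q : ((W.map (Int.castRingHom ℚ)).toAffine⁄(AlgebraicClosure ℚ)).Point, N • Q =
        Affine.Point.map (W' := (W.map (Int.castRingHom ℚ)).toAffine) (Algebra.ofId ℚ Qb) P →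
      (N / N.gcd C) ^ 2 ≤
        (Set.range fun σ : GQ => Affine.Point.map σ.toAlgHom Q).ncard := by
  obtain rfl : inst = instDecEqAlgebraicClosureRat := Subsingleton.elim _ _
  haveI : (ratCurve W).IsElliptic := ‹(W.map (Int.castRingHom ℚ)).IsElliptic›
  obtain ⟨C, hC, key⟩ := FA.SubgroupDetection.exists_uniform_translations W
    (FA.SupportDensity.linearIndependent_const hP)
  refine ⟨C, hC, fun N hN Q hQ => ?_⟩
  replace hQ : N • Q = up W P := hQ.trans (FA.LinearDependence.up_eq_map P).symm
  have hN' : N / N.gcd C ≠ 0 :=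
    (Nat.div_pos (Nat.gcd_le_left _ (Nat.pos_of_ne_zero hN))
      (Nat.gcd_pos_of_pos_left _ (Nat.pos_of_ne_zero hN))).ne'
  rw [← FA.KummerDegree.ncard_torsion W hN',
    ← Set.ncard_image_of_injective _ (add_right_injective Q)]
  refine Set.ncard_le_ncard ?_ (finite_conjugates W hN hQ)
  rintro _ ⟨x, hx, rfl⟩
  obtain ⟨t, htN, htC⟩ := FA.KummerDegree.exists_nsmul_eq W hN hC.ne' hx
  obtain ⟨g, -, hgQ⟩ := key N hN (fun _ => Q) (fun _ => hQ) (fun _ => t) fun _ => htN
  exact ⟨g, by show g • Q = Q + x; rw [hgQ (), htC]⟩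

end FA.Summary

end
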