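import Fermat.Agent.Root.SummaryDivisionPoints
import Fermat.Agent.EC.MulFormula

/-!
# Irreducibility of the division polynomials of a point of infinite order

For every elliptic curve over `ℚ` and every point `P` of infinite order one `C > 0` is such that
for `N` prime to `C` the `N²` points `Q` with `N Q = P` are all conjugate and the polynomial
`Φ_N(X) - x(P) Ψ_N(X)²`, whose roots are their `x`-coordinates, is irreducible over `ℚ` of degree
`N²` (Bashmakov, Ribet).
-/

set_option autoImplicit false
set_option linter.style.haveILetI false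

noncomputable section

open WeierstrassCurve WeierstrassCurve.Affine FA.Frob FA.EC FA.PointDiv Polynomial
open FA.Local (smul_some)
open scoped WeierstrassCurve.Affine Classical

local notation "Qb" => AlgebraicClosure ℚ
local notation "GQ" => AlgebraicClosure ℚ ≃ₐ[ℚ] AlgebraicClosure ℚ

namespace FA.DivisionPolynomial

variable (W : WeierstrassCurve ℤ) [(ratCurve W).IsElliptic]

/-- The parts form one orbit when their conjugates are as many as they are. -/
theorem orbit_eq {N : ℕ} (hN : N ≠ 0) {P : (ratCurve W).toAffine.Point}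
    {Q : ((ratCurve W).toAffine⁄Qb).Point} (hQ : N • Q = up W P)
    (hle : N ^ 2 ≤ (Set.range fun σ : GQ => σ • Q).ncard) :
    (Set.range fun σ : GQ => σ • Q) = {R | N • R = up W P} ∧
      (Set.range fun σ : GQ => σ • Q).ncard = N ^ 2 := by
  have hset : {R : ((ratCurve W).toAffine⁄Qb).Point | N • R = up W P} =
      (fun t => Q + t) '' {t | N • t = 0} := by
    ext R
    constructor
    · intro hR
      exact ⟨R - Q, by rw [Set.mem_ofPred_eq, nsmul_sub, hR, hQ, sub_self],
        add_sub_cancel Q R⟩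
    · rintro ⟨t, ht, rfl⟩
      rw [Set.mem_ofPred_eq, nsmul_add, hQ, ht, add_zero]
  have hcard : {R : ((ratCurve W).toAffine⁄Qb).Point | N • R = up W P}.ncard = N ^ 2 := by
    rw [hset, Set.ncard_image_of_injective _ (add_right_injective Q),
      FA.KummerDegree.ncard_torsion W hN]
  have hfin : {R : ((ratCurve W).toAffine⁄Qb).Point | N • R = up W P}.Finite :=
    Set.finite_of_ncard_ne_zero (by rw [hcard]; exact pow_ne_zero 2 hN)
  have hsub : (Set.range fun σ : GQ => σ • Q) ⊆ {R | N • R = up W P} := by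
    rintro _ ⟨σ, rfl⟩
    show N • σ • Q = up W P
    rw [← smul_nat, hQ, smul_up]
  have he := Set.eq_of_subset_of_ncard_le hsub (hcard.le.trans hle) hfin
  exact ⟨he, he ▸ hcard⟩

/-- The polynomial of the parts is irreducible when the parts form one orbit. -/
theorem irreducible_of_transitive {N : ℕ} (hN : N ≠ 0) {x y : ℚ}
    (h : (ratCurve W).toAffine.Nonsingular x y)
    (hP : ¬ IsOfFinAddOrder (Affine.Point.some x y h))
    {Q : ((ratCurve W).toAffine⁄Qb).Point} (hQ : N • Q = up W (.some x y h))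
    (horb : (Set.range fun σ : GQ => σ • Q).ncard = N ^ 2) :
    ((ratCurve W).Φ N - C x * (ratCurve W).ΨSq N).natDegree = N ^ 2 ∧
      Irreducible ((ratCurve W).Φ N - C x * (ratCurve W).ΨSq N) := by
  set f := (ratCurve W).Φ N - C x * (ratCurve W).ΨSq N with hf
  have hdeg : f.natDegree ≤ N ^ 2 := by
    refine (natDegree_sub_le _ _).trans (max_le ?_ ((natDegree_C_mul_le _ _).trans ?_))
    · simpa using (ratCurve W).natDegree_Φ_le (N : ℤ)
    · have := (ratCurve W).natDegree_ΨSq_le (N : ℤ)
      rw [Int.natAbs_natCast] at this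
      omega
  have hcoeff : f.coeff (N ^ 2) = 1 := by
    have h0 : ((ratCurve W).ΨSq (N : ℤ)).coeff (N ^ 2) = 0 := by
      refine coeff_eq_zero_of_natDegree_lt ?_
      have h1 := (ratCurve W).natDegree_ΨSq_le (N : ℤ)
      rw [Int.natAbs_natCast] at h1
      have : 0 < N ^ 2 := by positivity
      omega
    rw [hf, coeff_sub, coeff_C_mul, h0, mul_zero, sub_zero]
    simpa using (ratCurve W).coeff_Φ (N : ℤ)
  have hmonic : f.Monic := monic_of_natDegree_le_of_coeff_eq_one _ hdeg hcoeff
  have hPne : up W (.some x y h) ≠ 0 := Affine.Point.some_ne_zero _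
  rcases Q with _ | ⟨a, b, hab⟩
  · exact absurd ((nsmul_zero N).symm.trans hQ).symm hPne
  -- the first coordinate is a root
  have hroot : aeval a f = 0 := by
    have h1 := phi_eq_xc_mul hab (N : ℤ) (by rw [natCast_zsmul, hQ]; exact hPne)
    rw [natCast_zsmul, hQ] at h1
    replace h1 : (((ratCurve W).map (algebraMap ℚ Qb)).Φ N).eval a =
        algebraMap ℚ Qb x * (((ratCurve W).map (algebraMap ℚ Qb)).ΨSq N).eval a := h1
    rw [map_Φ, map_ΨSq, eval_map_algebraMap, eval_map_algebraMap] at h1
    rw [hf, map_sub, map_mul, aeval_C, h1, sub_self]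
  have hint : IsIntegral ℚ a := ((AlgebraicClosure.isAlgebraic ℚ).isAlgebraic a).isIntegral
  -- distinct parts have distinct coordinates
  have hinj : Set.InjOn (fun R : ((ratCurve W).toAffine⁄Qb).Point => xc R)
      (Set.range fun σ : GQ => σ • (Affine.Point.some a b hab :
        ((ratCurve W).toAffine⁄Qb).Point)) := by
    rintro _ ⟨σ, rfl⟩ _ ⟨τ, rfl⟩ e
    have hN' : ∀ ρ : GQ, N • (ρ • (Affine.Point.some a b hab :
        ((ratCurve W).toAffine⁄Qb).Point)) = up W (.some x y h) := fun ρ => by
      rw [← smul_nat, hQ, smul_up]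
    have hne : ∀ ρ : GQ, ρ • (Affine.Point.some a b hab :
        ((ratCurve W).toAffine⁄Qb).Point) ≠ 0 := fun ρ e0 => hPne (by
      rw [← hN' ρ, e0, nsmul_zero])
    rcases eq_or_eq_neg_of_xc_eq (hne σ) (hne τ) e with h2 | h2
    · exact h2
    · exfalso
      have h3 := hN' σ
      rw [h2, neg_nsmul, hN' τ, ← map_neg] at h3
      refine hP (isOfFinAddOrder_iff_nsmul_eq_zero.mpr ⟨2, two_pos, ?_⟩)
      have h4 := mapHom_injective (algebraMap ℚ Qb) rfl h3
      rw [two_nsmul]
      nth_rw 1 [← h4]
      exact neg_add_cancel _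
  have hsub : (fun R : ((ratCurve W).toAffine⁄Qb).Point => xc R) ''
      (Set.range fun σ : GQ => σ • (Affine.Point.some a b hab :
        ((ratCurve W).toAffine⁄Qb).Point)) ⊆ (minpoly ℚ a).rootSet Qb := by
    rintro _ ⟨_, ⟨σ, rfl⟩, rfl⟩
    obtain ⟨h', e⟩ := smul_some (σ := σ) (ratCurve W) hab
    show xc (σ • Affine.Point.some a b hab : ((ratCurve W).toAffine⁄Qb).Point) ∈ _
    rw [e]
    refine mem_rootSet.mpr ⟨minpoly.ne_zero hint, ?_⟩
    show aeval (σ a) (minpoly ℚ a) = 0
    exact (aeval_algHom_apply σ.toAlgHom a _).trans (by rw [minpoly.aeval, map_zero])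
  have hge : N ^ 2 ≤ (minpoly ℚ a).natDegree := by
    rw [← horb, ← hinj.ncard_image]
    exact (Set.ncard_le_ncard hsub (Set.toFinite _)).trans (ncard_rootSet_le _ _)
  have heq : f = minpoly ℚ a := eq_of_monic_of_dvd_of_natDegree_le (minpoly.monic hint) hmonic
    (minpoly.dvd ℚ a hroot) (hdeg.trans hge)
  exact ⟨le_antisymm hdeg (heq ▸ hge), heq ▸ minpoly.irreducible hint⟩

end FA.DivisionPolynomial

namespace FA.Summary

open FA.DivisionPolynomial

/-- **The parts are conjugate**: for every elliptic curve over `ℚ` and every point `P` of infinite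
order one `C > 0` is such that for `N` prime to `C` Galois permutes the `N²` points `Q` with
`N Q = P` transitively. -/
theorem divisionParts_transitive (W : WeierstrassCurve ℤ)
    [(W.map (Int.castRingHom ℚ)).IsElliptic] [inst : DecidableEq (AlgebraicClosure ℚ)]
    {P : (W.map (Int.castRingHom ℚ)).toAffine.Point} (hP : ¬ IsOfFinAddOrder P) :
    ∃ C : ℕ, 0 < C ∧ ∀ N : ℕ, N ≠ 0 → N.Coprime C →
      ∀ Q : ((W.map (Int.castRingHom ℚ)).toAffine⁄(AlgebraicClosure ℚ)).Point, N • Q =
        Affine.Point.map (W' := (W.map (Int.castRingHom ℚ)).toAffine) (Algebra.ofId ℚ Qb) P →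
      (Set.range fun σ : GQ => Affine.Point.map σ.toAlgHom Q) = {R | N • R =
        Affine.Point.map (W' := (W.map (Int.castRingHom ℚ)).toAffine) (Algebra.ofId ℚ Qb) P} ∧
      (Set.range fun σ : GQ => Affine.Point.map σ.toAlgHom Q).ncard = N ^ 2 := by
  obtain rfl : inst = instDecEqAlgebraicClosureRat := Subsingleton.elim _ _
  haveI : (ratCurve W).IsElliptic := ‹(W.map (Int.castRingHom ℚ)).IsElliptic›
  obtain ⟨C, hC, key⟩ := divisionPoints_conjugates_lower W hP
  refine ⟨C, hC, fun N hN hcop Q hQ => ?_⟩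
  have h1 := key N hN Q hQ
  rw [hcop, Nat.div_one] at h1
  rw [← FA.LinearDependence.up_eq_map] at hQ ⊢
  exact orbit_eq W hN hQ h1

/-- **The division polynomial of a point is irreducible**: for every elliptic curve over `ℚ` and
every point `(x, y)` of infinite order one `C > 0` is such that for `N` prime to `C` the polynomial
`Φ_N(X) - x Ψ_N(X)²` is irreducible over `ℚ` of degree `N²`. -/
theorem divisionPolynomial_irreducible (W : WeierstrassCurve ℤ)
    [(W.map (Int.castRingHom ℚ)).IsElliptic]
    {x y : ℚ} (h : (W.map (Int.castRingHom ℚ)).toAffine.Nonsingular x y)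
    (hP : ¬ IsOfFinAddOrder (Affine.Point.some x y h)) :
    ∃ C : ℕ, 0 < C ∧ ∀ N : ℕ, N ≠ 0 → N.Coprime C →
      ((W.map (Int.castRingHom ℚ)).Φ N -
          Polynomial.C x * (W.map (Int.castRingHom ℚ)).ΨSq N).natDegree = N ^ 2 ∧
      Irreducible ((W.map (Int.castRingHom ℚ)).Φ N -
          Polynomial.C x * (W.map (Int.castRingHom ℚ)).ΨSq N) := by
  haveI : (ratCurve W).IsElliptic := ‹(W.map (Int.castRingHom ℚ)).IsElliptic›
  obtain ⟨C, hC, key⟩ := divisionParts_transitive W (inst := instDecEqAlgebraicClosureRat) hP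
  refine ⟨C, hC, fun N hN hcop => ?_⟩
  obtain ⟨Q, hQ⟩ := exists_div W hN (up W (.some x y h))
  exact irreducible_of_transitive W hN h hP hQ
    (key N hN hcop Q (hQ.trans (FA.LinearDependence.up_eq_map _))).2

end FA.Summary

end
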