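import Fermat.Agent.DivisorArcsine.Law

/-!
# The arcsine law of the divisors

Deshouillers, Dress and Tenenbaum (1979): on the average over `n` a divisor `d` of `n`, chosen at
random, has `log d / log n` distributed by the arcsine law, `(2 / π) arcsin √u`. The rate
`O (1 / √(log x))` of their theorem is not claimed.
-/

set_option autoImplicit false

noncomputable section

open Finset Filter
open scoped Topology Real

namespace FA.Summary

/-- **Deshouillers, Dress and Tenenbaum**: the mean over `n ≤ N` of the share of the divisors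
`d ≤ n ^ u` of `n` tends to `(2 / π) arcsin √u`, for `0 ≤ u ≤ 1`. -/
theorem divisor_arcsine_law {u : ℝ} (hu0 : 0 ≤ u) (hu1 : u ≤ 1) :
    Tendsto (fun N : ℕ => (∑ n ∈ Icc 1 N,
      ((n.divisors.filter fun d : ℕ => (d : ℝ) ≤ (n : ℝ) ^ u).card : ℝ) /
        (n.divisors.card : ℝ)) / N) atTop (𝓝 (2 / π * Real.arcsin (√u))) :=
  FA.DivisorArcsine.tendsto_belowShare hu0 hu1

/-- **The moments**: `(1 / N) ∑_{n ≤ N} τ (n)⁻¹ ∑_{d ∣ n} (log d / log N) ^ k` tends to
`∏_{i < k} (2 i + 1) / (2 i + 2)`. -/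
theorem divisor_arcsine_moments (k : ℕ) :
    Tendsto (fun N : ℕ => (∑ n ∈ Icc 1 N, (∑ d ∈ n.divisors, (Real.log d / Real.log N) ^ k) /
      (n.divisors.card : ℝ)) / N) atTop
      (𝓝 (∏ i ∈ range k, (2 * (i : ℝ) + 1) / (2 * i + 2))) :=
  FA.DivisorArcsine.tendsto_divisorAvg_pow k

end FA.Summary

end
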