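import Fermat.Agent.DivisorInterval.Main

/-!
# Integers with a divisor in `(T, 2 T]`

Erdős (1960) and Tenenbaum (1975): their density `ε T`, which exists, is
`1 / (log T) ^ (δ + o (1))`, `δ = 1 - (1 + log log 2) / log 2 = 0.086…`; here with
`≪ 1 / (log T) ^ δ` above. The order of magnitude, found by Ford, is not claimed.
-/

set_option autoImplicit false

noncomputable section

open Finset Filter
open scoped Topology

namespace FA.Summary

open scoped Classical in
theorem divisor_interval_count_eq (T : ℕ) :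
    (fun N : ℕ => (((Icc 1 N).filter fun n => ∃ d ∈ Ioc T (2 * T), d ∣ n).card : ℝ) / N) =
      fun N : ℕ => (FA.SetsOfMultiples.countUpTo
        (FA.SetsOfMultiples.multiplesOf ↑(Ioc T (2 * T))) N : ℝ) / N := by
  ext N
  simp only [FA.SetsOfMultiples.countUpTo, FA.SetsOfMultiples.multiplesOf, Set.mem_ofPred_eq,
    mem_coe]
  congr! 4

open scoped Classical in
/-- **Erdős, Tenenbaum**: the integers with a divisor in `(T, 2 T]` have a density `ε T`, and
`log (1 / ε T) / log log T → δ`. -/
theorem divisor_interval_exponent : ∃ ε : ℕ → ℝ,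
    (∀ T, Tendsto (fun N : ℕ => (((Icc 1 N).filter fun n => ∃ d ∈ Ioc T (2 * T), d ∣ n).card : ℝ) /
      N) atTop (𝓝 (ε T))) ∧
    Tendsto (fun T : ℕ => Real.log (1 / ε T) / Real.log (Real.log T)) atTop
      (𝓝 (1 - (1 + Real.log (Real.log 2)) / Real.log 2)) :=
  ⟨FA.DivisorInterval.intervalDensity, fun T => divisor_interval_count_eq T ▸
    FA.DivisorInterval.tendsto_countUpTo_div T, FA.DivisorInterval.tendsto_intervalExponent⟩

open scoped Classical in
/-- **The upper bound** `ε T ≪ 1 / (log T) ^ δ`. -/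
theorem divisor_interval_upper : ∃ C : ℝ, 0 < C ∧ ∀ᶠ T : ℕ in atTop, ∀ e : ℝ,
    Tendsto (fun N : ℕ => (((Icc 1 N).filter fun n => ∃ d ∈ Ioc T (2 * T), d ∣ n).card : ℝ) / N)
      atTop (𝓝 e) → e ≤ C / Real.log T ^ (1 - (1 + Real.log (Real.log 2)) / Real.log 2) := by
  obtain ⟨C, hC, h⟩ := FA.DivisorInterval.exists_intervalDensity_le
  refine ⟨C, hC, ?_⟩
  filter_upwards [h, eventually_ge_atTop 2] with T hT h2 e he
  rw [divisor_interval_count_eq] at he
  rw [tendsto_nhds_unique he (FA.DivisorInterval.tendsto_countUpTo_div T)]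
  refine hT.trans ?_
  have hl : 0 < Real.log T := Real.log_pos (Nat.one_lt_cast.2 (by omega))
  rw [div_eq_mul_inv, ← Real.rpow_neg hl.le, Real.rpow_def_of_pos hl]
  refine mul_le_mul_of_nonneg_left (Real.exp_le_exp.2 ?_) hC.le
  have h1 := mul_le_mul_of_nonneg_left (FA.DivisorInterval.loglog_two_mul_bounds h2).1
    FA.MultTableExponent.tableExponent_pos.le
  rw [FA.ErdosKac.loglog] at h1
  show -FA.MultTableExponent.tableExponent * _ ≤ Real.log (Real.log T) *
    -FA.MultTableExponent.tableExponent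
  linarith

open scoped Classical in
/-- **The lower bound** `ε T ≥ 1 / (log T) ^ (δ + η)`. -/
theorem divisor_interval_lower {η : ℝ} (hη : 0 < η) : ∀ᶠ T : ℕ in atTop, ∀ e : ℝ,
    Tendsto (fun N : ℕ => (((Icc 1 N).filter fun n => ∃ d ∈ Ioc T (2 * T), d ∣ n).card : ℝ) / N)
      atTop (𝓝 e) → 1 / Real.log T ^ (1 - (1 + Real.log (Real.log 2)) / Real.log 2 + η) ≤ e := by
  filter_upwards [FA.DivisorInterval.eventually_le_intervalDensity (half_pos hη),
    FA.ErdosKac.tendsto_loglog.eventually_ge_atTop ((1 + η) / (η / 2)), eventually_ge_atTop 2]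
    with T hT hL h2 e he
  rw [divisor_interval_count_eq] at he
  rw [tendsto_nhds_unique he (FA.DivisorInterval.tendsto_countUpTo_div T)]
  refine le_trans ?_ hT
  have hl : 0 < Real.log T := Real.log_pos (Nat.one_lt_cast.2 (by omega))
  rw [one_div, ← Real.rpow_neg hl.le, Real.rpow_def_of_pos hl]
  refine Real.exp_le_exp.2 ?_
  have h1 := mul_le_mul_of_nonneg_left (FA.DivisorInterval.loglog_two_mul_bounds h2).2
    (show 0 ≤ FA.MultTableExponent.tableExponent + η / 2 by
      linarith [FA.MultTableExponent.tableExponent_pos])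
  rw [div_le_iff₀ (half_pos hη)] at hL
  simp only [FA.ErdosKac.loglog] at h1 hL ⊢
  show Real.log (Real.log T) * -(FA.MultTableExponent.tableExponent + η) ≤ _
  linarith [FA.MultTableExponent.tableExponent_lt]

end FA.Summary

end
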