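import Fermat.Agent.DivisorLevel.Main

/-!
# The divisor function in progressions to level `2/3`

For an odd prime `p` and `p ∤ a` (Selberg, Hooley, Linnik):

* `divisor_progression`: `∑_{n ≤ x, n ≡ a (p)} d n` is its mean over the classes prime to `p` up to
  `300 (√x p ^ (-1/4) + √p) (1 + log p) ^ 2 (1 + log x)`;
* `divisor_progression_level`: so for `p ≤ x ^ (2/3 - δ)` it is `(1 - 1/p) x log x / p` up to
  `η x log x / p`, uniformly, for every `η > 0` and large `x`.

Only prime moduli; the input is Weil's bound for Kloosterman sums.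
-/

set_option autoImplicit false

noncomputable section

open Finset Filter
open scoped Topology

namespace FA.Summary

/-- **The divisor function in a progression**, against its mean over the classes prime to `p`. -/
theorem divisor_progression {p a x : ℕ} (hp : p.Prime) (hp2 : p ≠ 2) (ha : ¬ p ∣ a) (hx : 1 ≤ x) :
    |(∑ n ∈ (Icc 1 x).filter (fun n => n % p = a % p), (n.divisors.card : ℝ)) -
      (∑ n ∈ (Icc 1 x).filter (fun n => ¬ p ∣ n), (n.divisors.card : ℝ)) / ((p : ℝ) - 1)| ≤
      300 * (Real.sqrt x * (p : ℝ) ^ (-(1 / 4) : ℝ) + Real.sqrt p) *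
        (1 + Real.log p) ^ 2 * (1 + Real.log x) := by
  have := Fact.mk hp
  have hc : (a : ZMod p) ≠ 0 := fun h => ha ((ZMod.natCast_eq_zero_iff a p).1 h)
  have h := FA.DivisorLevel.abs_classCount_sub_le hp2 hc hx
  rw [FA.DivisorLevel.classCount_eq, FA.DivisorLevel.coprimeSum,
    filter_congr fun n (_ : n ∈ Icc 1 x) => ZMod.natCast_eq_natCast_iff' n a p] at h
  exact_mod_cast h

/-- **Level of distribution `2/3`.** -/
theorem divisor_progression_level {δ η : ℝ} (hδ : 0 < δ) (hη : 0 < η) :
    ∀ᶠ x : ℕ in atTop, ∀ p : ℕ, p.Prime → p ≠ 2 → (p : ℝ) ≤ (x : ℝ) ^ (2 / 3 - δ) →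
      ∀ a : ℕ, ¬ p ∣ a →
        |(∑ n ∈ (Icc 1 x).filter (fun n => n % p = a % p), (n.divisors.card : ℝ)) -
          (1 - 1 / (p : ℝ)) * ((x : ℝ) * Real.log x / p)| ≤
          η * ((x : ℝ) * Real.log x / p) := by
  filter_upwards [FA.DivisorLevel.eventually_class_asymptotic hδ hη] with x hx
  intro p hp hp2 hpx a ha
  have := Fact.mk hp
  have hc : (a : ZMod p) ≠ 0 := fun h => ha ((ZMod.natCast_eq_zero_iff a p).1 h)
  have h := hx p hp hp2 hpx _ hc
  rw [FA.DivisorLevel.classCount_eq,
    filter_congr fun n (_ : n ∈ Icc 1 x) => ZMod.natCast_eq_natCast_iff' n a p, Nat.cast_sum] at h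
  exact h

end FA.Summary

end
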