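import Fermat.Agent.DoeblinLenstra.Main
import Fermat.Agent.PeriodicFractions.SquareRoot

/-!
# The Doeblin–Lenstra law

For almost every real `x` the coefficients `θ_n = q_n |q_n x - p_n|` of the convergents have the
limit law `z / log 2` on `[0, 1 / 2]`, `(1 - z + log (2 z)) / log 2` on `[1 / 2, 1]` and the mean
`1 / (4 log 2)` (conjectured by Doeblin and by Lenstra, proved by Bosma, Jager and Wiedijk in
1983). The pairs `(T ^ n x, q_(n-1) / q_n)` are equidistributed for the invariant measure
`dx dy / (log 2 (1 + x y) ^ 2)` of the natural extension. Its ergodicity is not claimed.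
-/

set_option autoImplicit false

noncomputable section

open MeasureTheory Filter Topology Set Real
open FA.PeriodicFractions FA.PointwiseErgodic

namespace FA.DoeblinLenstra.Summary

theorem theta_orbit_of {x : ℝ} (hx : Irrational x) (n : ℕ) :
    theta (natExt^[n] (Int.fract x, 0)) = (GenContFract.of x).dens n *
      |(GenContFract.of x).dens n * x - (GenContFract.of x).nums n| := by
  rw [orbit_theta hx, (nums_dens hx n).1, (nums_dens hx n).2, mul_comm x]

/-- **The Doeblin–Lenstra law.** -/
theorem doeblin_lenstra : ∀ᵐ x : ℝ, ∀ z ∈ Icc (0 : ℝ) 1,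
    Tendsto (fun N : ℕ => (((Finset.range N).filter fun n => (GenContFract.of x).dens n *
      |(GenContFract.of x).dens n * x - (GenContFract.of x).nums n| ≤ z).card : ℝ) / N) atTop
      (𝓝 (if z ≤ 1 / 2 then z / log 2 else (1 - z + log (2 * z)) / log 2)) := by
  filter_upwards [ae_real_equidistributed] with x ⟨hx, _, h⟩ z hz
  have e : law (max 0 (min z 1)) =
      if z ≤ 1 / 2 then z / log 2 else (1 - z + log (2 * z)) / log 2 := by
    rw [min_eq_left hz.2, max_eq_right hz.1, law]
    split_ifs with hh
    · rw [min_eq_left hh, max_eq_right hh]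
      norm_num
    · rw [min_eq_right (not_le.1 hh).le, max_eq_left (not_le.1 hh).le]
      norm_num
  rw [← e]
  simpa only [theta_orbit_of hx] using h z

/-- **The mean of the approximation coefficients.** -/
theorem doeblin_lenstra_mean : ∀ᵐ x : ℝ,
    Tendsto (fun N : ℕ => (∑ n ∈ Finset.range N, (GenContFract.of x).dens n *
      |(GenContFract.of x).dens n * x - (GenContFract.of x).nums n|) / N) atTop
      (𝓝 (1 / (4 * log 2))) := by
  filter_upwards [ae_real_equidistributed] with x ⟨hx, h, _⟩
  have := h theta continuous_theta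
  rw [integral_theta] at this
  simpa only [theta_orbit_of hx] using this

theorem integral_extMeasure {F : ℝ × ℝ → ℝ} (hF : Continuous F) :
    ∫ p, F p ∂extMeasure = ∫ u in Ioo (0 : ℝ) 1, ∫ v in Ioo (0 : ℝ) 1,
      F (u, v) / (log 2 * (1 + u * v) ^ 2) := by
  have htop : ∀ᵐ p ∂unitVol.prod unitVol, weight p < ⊤ := ae_of_all _ fun p => ENNReal.ofReal_lt_top
  have hi : Integrable F extMeasure := integrable_comp hF 0
  rw [extMeasure, integral_withDensity_eq_integral_toReal_smul measurable_weight htop,
    integral_prod _ ((integrable_withDensity_iff_integrable_smul' measurable_weight htop).1 hi)]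
  refine setIntegral_congr_fun measurableSet_Ioo fun u hu =>
    setIntegral_congr_fun measurableSet_Ioo fun v hv => ?_
  have hl := log_pos one_lt_two
  have := hu.1
  have := hv.1
  rw [weight, ENNReal.toReal_ofReal (by positivity), smul_eq_mul]
  ring

/-- **The natural extension preserves `dx dy / (log 2 (1 + x y) ^ 2)`.** -/
theorem natural_extension_invariant :
    MeasurePreserving (fun p : ℝ × ℝ => (Int.fract p.1⁻¹, 1 / ((⌊p.1⁻¹⌋ : ℝ) + p.2)))
      (((volume.restrict (Ioo (0 : ℝ) 1)).prod (volume.restrict (Ioo (0 : ℝ) 1))).withDensity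
        fun p => ENNReal.ofReal (1 / (log 2 * (1 + p.1 * p.2) ^ 2)))
      (((volume.restrict (Ioo (0 : ℝ) 1)).prod (volume.restrict (Ioo (0 : ℝ) 1))).withDensity
        fun p => ENNReal.ofReal (1 / (log 2 * (1 + p.1 * p.2) ^ 2))) :=
  measurePreserving_natExt

/-- **The joint distribution of `T ^ n x` and `q_(n-1) / q_n`.** -/
theorem natural_extension_equidistribution : ∀ᵐ x : ℝ, ∀ F : ℝ × ℝ → ℝ, Continuous F →
    Tendsto (fun N : ℕ => (∑ n ∈ Finset.range N,
      F ((fun y : ℝ => Int.fract y⁻¹)^[n] (Int.fract x), if n = 0 then 0 else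
        (GenContFract.of x).dens (n - 1) / (GenContFract.of x).dens n)) / N) atTop
      (𝓝 (∫ u in Ioo (0 : ℝ) 1, ∫ v in Ioo (0 : ℝ) 1,
        F (u, v) / (log 2 * (1 + u * v) ^ 2))) := by
  filter_upwards [ae_real_equidistributed] with x ⟨hx, h, _⟩ F hF
  rw [← integral_extMeasure hF]
  refine (h F hF).congr fun N => ?_
  congr 1
  refine Finset.sum_congr rfl fun n _ => ?_
  rw [orbit_ratio hx]
  congr 2
  rcases n with _ | m
  · simp [contin]
  · rw [if_neg m.succ_ne_zero, Nat.add_sub_cancel, (nums_dens hx m).2, (nums_dens hx (m + 1)).2]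
    rfl

end FA.DoeblinLenstra.Summary
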