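import Fermat.Agent.Doignon.LatticeFree

/-!
# Doignon's theorem and lattice-free bodies

In `ℝ ^ n`, with `FA.Perfect.castVec` the inclusion of `ℤ ^ n`:

* `doignon`, `doignon_compact`: convex sets (finitely many, or compact) of which every `2 ^ n` share
  an integral point all share one; `doignon_sharp`: fewer do not suffice;
* `bell_scarf`: a linear system without integral solutions has one of at most `2 ^ n` inequalities;
* `lovasz_lattice_free`: a convex body free of interior integral points lies in an intersection of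
  at most `2 ^ n` halfspaces that is free of them; `lovasz_maximal_lattice_free`: a maximal one is
  such an intersection.
-/

set_option autoImplicit false

noncomputable section

open Matrix FA.Perfect FA.Doignon

namespace FA.Summary

variable {n : ℕ}

/-- **Doignon's theorem.** -/
theorem doignon {ι : Type*} (F : ι → Set (Fin n → ℝ)) (hF : ∀ i, Convex ℝ (F i)) (s : Finset ι)
    (h : ∀ I ⊆ s, I.card ≤ 2 ^ n → ∃ v, ∀ i ∈ I, castVec v ∈ F i) :
    ∃ v, ∀ i ∈ s, castVec v ∈ F i :=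
  exists_common F hF s h

/-- **Doignon's theorem** for arbitrary families of compact sets. -/
theorem doignon_compact {ι : Type*} (F : ι → Set (Fin n → ℝ)) (hF : ∀ i, Convex ℝ (F i))
    (hc : ∀ i, IsCompact (F i))
    (h : ∀ I : Finset ι, I.card ≤ 2 ^ n → ∃ v, ∀ i ∈ I, castVec v ∈ F i) :
    ∃ v, ∀ i, castVec v ∈ F i :=
  exists_common_compact F hF hc h

/-- **The number `2 ^ n` is best.** -/
theorem doignon_sharp (n : ℕ) :
    ∃ F : (Fin n → Bool) → Set (Fin n → ℝ), (∀ c, Convex ℝ (F c)) ∧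
      (∀ I : Finset (Fin n → Bool), I.card < 2 ^ n → ∃ v, ∀ c ∈ I, castVec v ∈ F c) ∧
      ¬∃ v, ∀ c, castVec v ∈ F c :=
  exists_sharp n

/-- **The theorem of Bell and Scarf.** -/
theorem bell_scarf {ι : Type*} (a : ι → Fin n → ℝ) (b : ι → ℝ) (s : Finset ι)
    (h : ∀ v, ∃ i ∈ s, b i < a i ⬝ᵥ castVec v) :
    ∃ I ⊆ s, I.card ≤ 2 ^ n ∧ ∀ v, ∃ i ∈ I, b i < a i ⬝ᵥ castVec v :=
  exists_infeasible_subsystem a b s h

/-- **Lovász's bound.** -/
theorem lovasz_lattice_free {K : Set (Fin n → ℝ)} (hK : Convex ℝ K) (hb : Bornology.IsBounded K)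
    (hne : (interior K).Nonempty) (hfree : ∀ v, castVec v ∉ interior K) :
    ∃ I : Finset ((Fin n → ℝ) × ℝ), I.card ≤ 2 ^ n ∧ (∀ h ∈ I, ∀ x ∈ K, h.1 ⬝ᵥ x ≤ h.2) ∧
      ∀ v, castVec v ∉ interior {x | ∀ h ∈ I, h.1 ⬝ᵥ x ≤ h.2} :=
  exists_few_halfspaces hK hb hne hfree

/-- **Maximal bodies free of integral points are polyhedra with at most `2 ^ n` facets.** -/
theorem lovasz_maximal_lattice_free {K : Set (Fin n → ℝ)} (hK : Convex ℝ K)
    (hb : Bornology.IsBounded K) (hne : (interior K).Nonempty)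
    (hfree : ∀ v, castVec v ∉ interior K)
    (hmax : ∀ P, Convex ℝ P → K ⊆ P → (∀ v, castVec v ∉ interior P) → P = K) :
    ∃ I : Finset ((Fin n → ℝ) × ℝ), I.card ≤ 2 ^ n ∧ K = {x | ∀ h ∈ I, h.1 ⬝ᵥ x ≤ h.2} := by
  obtain ⟨I, hI, hsub, hint⟩ := exists_few_halfspaces hK hb hne hfree
  refine ⟨I, hI, (hmax _ ?_ (fun x hx h hh => hsub h hh x hx) hint).symm⟩
  intro x hx y hy a b ha hb' hab h hh
  exact convex_dot_le h.1 h.2 (hx h hh) (hy h hh) ha hb' hab

end FA.Summary

end
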