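import Fermat.Agent.Donsker.WalkMax
import Fermat.Agent.Donsker.QuadVar

/-!
# Donsker's invariance principle and the reflection principle

For a sequence `X`, `walkPath X n` is the polygon on `[0, 1]` through the points
`(k / n, (X 0 + ⋯ + X (k - 1)) / √n)`.

* `donsker`: for independent identically distributed steps with mean `0` and variance `1`,
  `walkPath X n` converges in distribution in `C([0, 1], ℝ)` to the restriction of any Brownian
  motion, for the Borel σ-algebra of the uniform topology;
* `walk_path_vertex`: the vertices of that polygon are the rescaled partial sums;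
* `reflection_principle`: the probability that a Brownian motion reaches `a > 0` by time `t` is
  twice the probability that it is at least `a` at time `t`;
* `walk_max_limit`: the theorem of Erdős and Kac, `max_{k ≤ n} S k / √n` tends in law to `|N|`;
* `quadratic_variation`: the sums of squared increments over `L` equal cells of `[0, t]` tend to
  `t` in square mean.

The strong Markov property, the embedding of Skorokhod and the arcsine laws are not treated.
-/

set_option autoImplicit false

noncomputable section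

namespace FA.Donsker.Summary

open MeasureTheory ProbabilityTheory Filter Finset FA.Donsker
open scoped unitInterval NNReal ENNReal Topology

variable {Ω Ω' : Type*} {mΩ : MeasurableSpace Ω} {mΩ' : MeasurableSpace Ω'} {P : Measure Ω}
  {Q : Measure Ω'} {X : ℕ → Ω → ℝ} {B : ℝ≥0 → Ω' → ℝ}

/-- **Donsker's invariance principle.** -/
theorem donsker [MeasurableSpace C(I, ℝ)] [BorelSpace C(I, ℝ)] [IsProbabilityMeasure P]
    [IsProbabilityMeasure Q] (hI : iIndepFun X P) (hid : ∀ i, IdentDistrib (X i) (X 0) P P)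
    (h0 : ∫ ω, X 0 ω ∂P = 0) (h1 : ∫ ω, X 0 ω ^ 2 ∂P = 1) (hB : IsBrownianReal B Q) :
    ∃ W : Ω' → C(I, ℝ), (∀ᵐ ω ∂Q, ∀ t : I, W ω t = B ⟨t, t.2.1⟩ ω) ∧
      TendstoInDistribution (fun n => walkPath X n) atTop W (fun _ => P) Q :=
  ⟨bmPath B, bmPath_apply_ae hB,
    donsker_ae hI hid h0 h1 hB.toIsPreBrownianReal (bmPath_apply_ae hB)⟩

/-- **The vertices of the path.** -/
theorem walk_path_vertex {n k : ℕ} (hn : 0 < n) (hk : k ≤ n) (ω : Ω) {t : I}
    (ht : (n : ℝ) * t = k) : walkPath X n ω t = (∑ i ∈ range k, X i ω) / √n := by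
  rw [walkPath, polyLine_vertex hk hn _ ht]
  simp [psum]

/-- **The reflection principle.** -/
theorem reflection_principle (hB : IsBrownianReal B Q) (t : ℝ≥0) {a : ℝ} (ha : 0 < a) :
    Q {ω | ∃ s ≤ t, a ≤ B s ω} = 2 * Q {ω | a ≤ B t ω} := by
  rw [reflection hB t ha, ← (hB.hasLaw_eval t).map_eq,
    Measure.map_apply_of_aemeasurable (hB.aemeasurable t) measurableSet_Ici]
  rfl

/-- **The maximum of partial sums.** -/
theorem walk_max_limit [IsProbabilityMeasure P] (hI : iIndepFun X P)
    (hid : ∀ i, IdentDistrib (X i) (X 0) P P) (h0 : ∫ ω, X 0 ω ∂P = 0)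
    (h1 : ∫ ω, X 0 ω ^ 2 ∂P = 1) {a : ℝ} (ha : 0 < a) :
    Tendsto (fun n => P {ω | ∀ k ≤ n, ∑ i ∈ range k, X i ω ≤ a * √n}) atTop
      (𝓝 (gaussianReal 0 1 (Set.Icc (-a) a))) :=
  tendsto_max hI hid h0 h1 ha

/-- **The quadratic variation.** -/
theorem quadratic_variation [IsProbabilityMeasure Q] (hB : IsPreBrownianReal B Q) (t : ℝ≥0) :
    Tendsto (fun L : ℕ => ∫ ω, (∑ k ∈ range L,
      (B (t * ((k + 1 : ℕ) : ℝ≥0) / L) ω - B (t * (k : ℝ≥0) / L) ω) ^ 2 - (t : ℝ)) ^ 2 ∂Q)
      atTop (𝓝 0) :=
  tendsto_quadVar hB t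

end FA.Donsker.Summary
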