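import Fermat.Agent.DoublyMetric.Main

/-!
# The doubly metric inhomogeneous Khintchine theorem

For every `ψ ≥ 0`, with no monotonicity, almost every pair `(x, γ)` of vectors in `ℝ ^ d` has
infinitely or finitely many `q` with `‖q x i - γ i‖ < ψ q` for all `i` according as `∑ ψ q ^ d`
diverges or converges (Cassels); if moreover `ψ ≤ 1 / 2` the number of such `q ≤ N` is
asymptotic to `∑ (2 ψ q) ^ d` in the divergent case.
-/

set_option autoImplicit false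

noncomputable section

open Finset MeasureTheory Filter
open scoped Topology

namespace FA.DoublyMetric.Summary

variable {d : ℕ}

/-- **The strong law.** -/
theorem doubly_metric_strong_law {ψ : ℕ → ℝ} (h0 : ∀ q, 0 ≤ ψ q) (h1 : ∀ q, ψ q ≤ 1 / 2)
    (hdiv : ¬Summable fun q => ψ q ^ d) :
    ∀ᵐ z : (Fin d → ℝ) × (Fin d → ℝ), Tendsto (fun N : ℕ =>
      ((Set.Icc 1 N ∩ {q : ℕ | ∃ p : Fin d → ℤ,
        ∀ i, |(q : ℝ) * z.1 i - p i - z.2 i| < ψ q}).ncard : ℝ) /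
        ∑ q ∈ Icc 1 N, (2 * ψ q) ^ d) atTop (𝓝 1) :=
  ae_tendsto_count h0 h1 hdiv

/-- **Cassels**, divergence. -/
theorem doubly_metric_divergence {ψ : ℕ → ℝ} (h0 : ∀ q, 0 ≤ ψ q)
    (hdiv : ¬Summable fun q => ψ q ^ d) :
    ∀ᵐ z : (Fin d → ℝ) × (Fin d → ℝ),
      {q : ℕ | ∃ p : Fin d → ℤ, ∀ i, |(q : ℝ) * z.1 i - p i - z.2 i| < ψ q}.Infinite :=
  ae_infinite h0 hdiv

/-- **Cassels**, convergence. -/
theorem doubly_metric_convergence {ψ : ℕ → ℝ} (h0 : ∀ q, 0 ≤ ψ q)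
    (hs : Summable fun q => ψ q ^ d) :
    ∀ᵐ z : (Fin d → ℝ) × (Fin d → ℝ),
      {q : ℕ | ∃ p : Fin d → ℤ, ∀ i, |(q : ℝ) * z.1 i - p i - z.2 i| < ψ q}.Finite :=
  ae_finite h0 hs

end FA.DoublyMetric.Summary
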