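import Fermat.Agent.DuBoisReymond.Main

/-!
# Divergent Fourier series

* `du_bois_reymond_residual`: for every point the continuous periodic functions whose Fourier
  partial sums there are unbounded form a residual set;
* `du_bois_reymond`: so there is one, and in particular a continuous function whose Fourier series
  is not absolutely convergent.

Independent of S01.
-/

set_option autoImplicit false

noncomputable section

open MeasureTheory Finset Filter Topology AddCircle

namespace FA.DuBoisReymond.Summary

/-- **Banach, Steinhaus.** -/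
theorem du_bois_reymond_residual (x₀ : UnitAddCircle) :
    {f : C(UnitAddCircle, ℂ) | ¬BddAbove (Set.range fun N : ℕ =>
      ‖∑ k ∈ Icc (-(N : ℤ)) N, fourierCoeff f k * fourier k x₀‖)} ∈
        residual C(UnitAddCircle, ℂ) :=
  residual_unbounded_partialSums x₀

/-- **du Bois-Reymond.** -/
theorem du_bois_reymond (x₀ : UnitAddCircle) :
    ∃ f : UnitAddCircle → ℂ, Continuous f ∧
      ¬BddAbove (Set.range fun N : ℕ =>
        ‖∑ k ∈ Icc (-(N : ℤ)) N, fourierCoeff f k * fourier k x₀‖) ∧
      ¬Summable fun k => ‖fourierCoeff f k‖ := by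
  obtain ⟨f, hf⟩ := (dense_of_mem_residual (residual_unbounded_partialSums x₀)).nonempty
  refine ⟨f, f.continuous, hf, fun hs => hf ⟨∑' k, ‖fourierCoeff f k‖, ?_⟩⟩
  rintro _ ⟨N, rfl⟩
  refine (norm_sum_le_of_le _ (n := fun k => ‖fourierCoeff f k‖) fun k _ => ?_).trans
    (hs.sum_le_tsum _ fun _ _ => norm_nonneg _)
  rw [norm_mul, fourier_apply, Circle.norm_coe, mul_one]

end FA.DuBoisReymond.Summary

end
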