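import Fermat.Agent.DubickasGap.Main

/-!
# The gap theorem of Dubickas

* `dubickas_gap`: if `θ > 1` is a root of `G ∈ ℤ[X]` of length `L` (the sum of the absolute values
  of the coefficients) and `λ ≠ 0`, then the fractional parts of `λ θ ^ n` oscillate by at least
  `1 / L`, unless `θ` is a Pisot or Salem number (an algebraic integer whose other conjugates lie
  in the closed unit disc) and `λ ∈ ℚ(θ)`;
* `bounded_pisot_criterion`: integers which satisfy a linear recurrence and stay at bounded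
  distance from `λ θ ^ n` force that exceptional case.

Complements `SummaryFLP` and `SummaryPisotLimitPoints`; independent of S01.
-/

set_option autoImplicit false

noncomputable section

open Finset Polynomial Filter Topology
open scoped IntermediateField

namespace FA.DubickasGap.Summary

/-- **The gap theorem of Dubickas.** -/
theorem dubickas_gap {θ lam : ℝ} (hθ : 1 < θ) (hlam : lam ≠ 0) {G : ℤ[X]} (hG0 : G ≠ 0)
    (hG : aeval θ G = 0)
    (hexc : ¬(IsIntegral ℤ θ ∧ (∀ z : ℂ, aeval z (minpoly ℤ θ) = 0 → z ≠ (θ : ℂ) → ‖z‖ ≤ 1) ∧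
      lam ∈ ℚ⟮θ⟯)) :
    1 / ∑ j ∈ range (G.natDegree + 1), |(G.coeff j : ℝ)| ≤
      limsup (fun n : ℕ => Int.fract (lam * θ ^ n)) atTop -
        liminf (fun n : ℕ => Int.fract (lam * θ ^ n)) atTop :=
  not_lt.1 fun h => hexc (FA.DubickasGap.pisot_or_salem_of_small_gap hθ hlam hG0 hG h)

/-- **Pisot's criterion with bounded errors.** -/
theorem bounded_pisot_criterion {θ lam B : ℝ} {a : ℕ → ℤ} (hθ : 1 < θ) (hlam : lam ≠ 0)
    (hB : ∀ n, |lam * θ ^ n - a n| ≤ B) {R : ℚ[X]} (hR : R.Monic)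
    (h : ∀ᶠ n in atTop, ∑ j ∈ range (R.natDegree + 1), R.coeff j * (a (n + j) : ℚ) = 0) :
    IsIntegral ℤ θ ∧ (∀ z : ℂ, aeval z (minpoly ℤ θ) = 0 → z ≠ (θ : ℂ) → ‖z‖ ≤ 1) ∧
      lam ∈ ℚ⟮θ⟯ :=
  FA.DubickasGap.pisot_or_salem_of_bounded hθ hlam hB hR
    (h.mono fun n hn => by rw [FA.PisotCriterion.shiftOp_apply]; exact hn)

end FA.DubickasGap.Summary

end
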