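import Fermat.Agent.DuffinSchaeffer.Main

/-!
# The Duffin–Schaeffer conjecture (the theorem of Koukoulopoulos and Maynard)

For any `ψ : ℕ → ℝ` with nonnegative values, almost every real `x` has infinitely many reduced
fractions `p / q` with `|x - p / q| < ψ q / q` if `∑ ψ q φ q / q` diverges, and almost no `x` if it
converges (conjectured by Duffin and Schaeffer in 1941, proved by Koukoulopoulos and Maynard).

The combinatorial heart is the bound on weighted pairs with large gcd, proved by induction on the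
primes in the bilinear form of Hauke, Vazquez and Walker with the exponent `3/4`; the asymptotic
formula of Aistleitner, Borda and Hauke for the number of solutions is not claimed.
-/

set_option autoImplicit false

noncomputable section

namespace FA.DuffinSchaeffer.Summary

open Finset MeasureTheory

open Classical in
/-- **Weighted pairs with large gcd** (Koukoulopoulos–Maynard). -/
theorem weighted_gcd_pairs : ∃ C : ℝ, 0 ≤ C ∧ ∀ (t : ℕ), 1 ≤ t → ∀ (ψ : ℕ → ℝ),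
    (∀ v, 0 ≤ ψ v) → ∀ (y s : ℝ), 0 < y → ∀ V : Finset ℕ, (∀ v ∈ V, 0 < v) →
      ∑ v ∈ V, ∑ w ∈ V, (if ψ v * w ≤ y * (Nat.gcd v w : ℕ) ∧ ψ w * v ≤ y * (Nat.gcd v w : ℕ) ∧
          s ≤ ∑ p ∈ ((v.primeFactors ∪ w.primeFactors).filter
            fun p => v.factorization p ≠ w.factorization p).filter (t ≤ ·), (1 : ℝ) / p
        then (ψ v * ((v.totient : ℝ) / v)) * (ψ w * ((w.totient : ℝ) / w)) else 0) ≤
        C * Real.sqrt y * Real.exp (-(t * s)) *
          ((∑ v ∈ V, ψ v * ((v.totient : ℝ) / v)) *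
            Real.sqrt (∑ v ∈ V, ψ v * ((v.totient : ℝ) / v))) := by
  obtain ⟨C, hC, h⟩ := exists_gcd_pairs_bound
  refine ⟨C, hC, fun t ht ψ hψ y s hy V hV => ?_⟩
  have := h t ht ψ hψ y s hy V V hV hV
  rw [pw_sq_eq (mass_nonneg hψ V)] at this
  exact this

/-- **The mean of `n / φ n` over the numbers coprime to `N`.** -/
theorem mean_totient_ratio_coprime : ∃ C : ℝ, 0 ≤ C ∧ ∀ N X : ℕ, N ≠ 0 →
    ∑ n ∈ (Icc 1 X).filter (fun n => n.Coprime N), (n : ℝ) / n.totient ≤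
      C * X * ∏ p ∈ N.primeFactors.filter (· ≤ X), (1 - (p : ℝ)⁻¹) := by
  obtain ⟨C, hC, h⟩ := exists_mean_value
  refine ⟨C, hC, fun N X hN => le_of_eq_of_le ?_ (h N X hN)⟩
  rw [sum_filter]
  exact sum_congr rfl fun n _ => rfl

theorem mu_eq (ψ : ℕ → ℝ) : mu ψ = fun q => (q.totient : ℝ) * ψ q / q := by
  funext q
  rw [mu]
  ring

/-- **The Duffin–Schaeffer conjecture.** -/
theorem duffin_schaeffer_conjecture {ψ : ℕ → ℝ} (h0 : ∀ q, 0 ≤ ψ q)
    (hdiv : ¬Summable fun q : ℕ => (q.totient : ℝ) * ψ q / q) :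
    ∀ᵐ x : ℝ, {q : ℕ | ∃ p : ℤ, Int.gcd p q = 1 ∧ |x - p / q| < ψ q / q}.Infinite :=
  ae_infinite_of_not_summable h0 (by rwa [mu_eq])

/-- **The converse** (the lemma of Borel and Cantelli). -/
theorem duffin_schaeffer_converse {ψ : ℕ → ℝ} (h0 : ∀ q, 0 ≤ ψ q)
    (hs : Summable fun q : ℕ => (q.totient : ℝ) * ψ q / q) :
    ∀ᵐ x : ℝ, {q : ℕ | ∃ p : ℤ, Int.gcd p q = 1 ∧ |x - p / q| < ψ q / q}.Finite :=
  ae_finite_of_summable h0 (by rwa [mu_eq])

/-- **The dichotomy.** -/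
theorem duffin_schaeffer_iff {ψ : ℕ → ℝ} (h0 : ∀ q, 0 ≤ ψ q) :
    (∀ᵐ x : ℝ, {q : ℕ | ∃ p : ℤ, Int.gcd p q = 1 ∧ |x - p / q| < ψ q / q}.Infinite) ↔
      ¬Summable fun q : ℕ => (q.totient : ℝ) * ψ q / q := by
  refine ⟨fun h hs => ?_, duffin_schaeffer_conjecture h0⟩
  obtain ⟨x, hx, hx'⟩ := (h.and (duffin_schaeffer_converse h0 hs)).exists
  exact hx hx'

end FA.DuffinSchaeffer.Summary
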