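import Fermat.Agent.Dvoretzky.Infinite

/-!
# Dvoretzky's theorem

* `dvoretzky`: for `ε > 0` there is `c > 0` such that every real normed space of dimension `n` has,
  for every `k ≤ c log n`, a `k`-dimensional subspace within `1 + ε` of Euclidean space.
* `dvoretzky_explicit`: one may take `c = (ε / (4 + 3 ε)) ^ 3 / 1000`.
* `dvoretzky_large_dimension`, `dvoretzky_infinite_dimension`: so every space of large enough
  dimension, and every infinite-dimensional space, has such a subspace of dimension `k`.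
* `dvoretzky_rogers_lemma`: an `n`-dimensional space receives a contraction of a Euclidean space of
  dimension `⌈n / 2⌉` that maps an orthonormal basis to vectors of norm at least `1 / 2`.
* `dvoretzky_rogers`: in an infinite-dimensional Banach space some unconditionally convergent series
  is not absolutely convergent.
* `gaussian_concentration`: concentration at a median for functions which are `1`-Lipschitz for
  the Euclidean length, after Maurey, with the rate `exp (-t² / 4)`.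

Not claimed: the best dependence of `c` on `ε`, the converse for `ℓ^∞`, the best constant in the
exponent of the concentration inequality.
-/

set_option autoImplicit false

noncomputable section

namespace FA.Dvoretzky.Summary

open MeasureTheory ProbabilityTheory Real Finset Module

universe u

/-- **Dvoretzky's theorem.** -/
theorem dvoretzky {ε : ℝ} (hε : 0 < ε) :
    ∃ c, 0 < c ∧ ∀ (X : Type u) [NormedAddCommGroup X] [NormedSpace ℝ X] [FiniteDimensional ℝ X]
      (k : ℕ), (k : ℝ) ≤ c * log (finrank ℝ X) →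
        ∃ T : EuclideanSpace ℝ (Fin k) →ₗ[ℝ] X,
          ∀ x, ‖x‖ ≤ ‖T x‖ ∧ ‖T x‖ ≤ (1 + ε) * ‖x‖ :=
  FA.Dvoretzky.dvoretzky hε

/-- The explicit constant. -/
theorem dvoretzky_explicit (X : Type u) [NormedAddCommGroup X] [NormedSpace ℝ X]
    [FiniteDimensional ℝ X] {ε : ℝ} (hε : 0 < ε) {k : ℕ}
    (hk : (k : ℝ) ≤ (ε / (4 + 3 * ε)) ^ 3 / 1000 * log (finrank ℝ X)) :
    ∃ T : EuclideanSpace ℝ (Fin k) →ₗ[ℝ] X,
      ∀ x, ‖x‖ ≤ ‖T x‖ ∧ ‖T x‖ ≤ (1 + ε) * ‖x‖ :=
  exists_almost_euclidean X hε hk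

/-- **Dvoretzky's theorem** in all large dimensions. -/
theorem dvoretzky_large_dimension {ε : ℝ} (hε : 0 < ε) (k : ℕ) :
    ∃ N : ℕ, ∀ (X : Type u) [NormedAddCommGroup X] [NormedSpace ℝ X] [FiniteDimensional ℝ X],
      N ≤ finrank ℝ X → ∃ T : EuclideanSpace ℝ (Fin k) →ₗ[ℝ] X,
        ∀ x, ‖x‖ ≤ ‖T x‖ ∧ ‖T x‖ ≤ (1 + ε) * ‖x‖ :=
  dvoretzky_finite hε k

/-- **Dvoretzky's theorem** in infinite dimension. -/
theorem dvoretzky_infinite_dimension {X : Type u} [NormedAddCommGroup X] [NormedSpace ℝ X]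
    (hX : ¬ FiniteDimensional ℝ X) {ε : ℝ} (hε : 0 < ε) (k : ℕ) :
    ∃ T : EuclideanSpace ℝ (Fin k) →ₗ[ℝ] X, ∀ x, ‖x‖ ≤ ‖T x‖ ∧ ‖T x‖ ≤ (1 + ε) * ‖x‖ :=
  dvoretzky_infinite hX hε k

/-- **The lemma of Dvoretzky and Rogers.** -/
theorem dvoretzky_rogers_lemma (X : Type u) [NormedAddCommGroup X] [NormedSpace ℝ X]
    [FiniteDimensional ℝ X] :
    ∃ L : (Fin ((finrank ℝ X + 1) / 2) → ℝ) →ₗ[ℝ] X,
      (∀ x, ‖L x‖ ≤ √(∑ i, x i ^ 2)) ∧ ∀ i, 1 / 2 ≤ ‖L (Pi.single i 1)‖ := by
  obtain ⟨L, h1, h2⟩ := FA.Dvoretzky.dvoretzky_rogers X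
  exact ⟨L, fun x => (h1 x).trans_eq (by simp [len, dotProduct, sq]), h2⟩

/-- **The theorem of Dvoretzky and Rogers.** -/
theorem dvoretzky_rogers {X : Type u} [NormedAddCommGroup X] [NormedSpace ℝ X] [CompleteSpace X]
    (hX : ¬ FiniteDimensional ℝ X) : ∃ f : ℕ → X, Summable f ∧ ¬ Summable fun i => ‖f i‖ :=
  dvoretzky_rogers_series hX

/-- **Gaussian concentration.** -/
theorem gaussian_concentration {n : ℕ} {F : (Fin n → ℝ) → ℝ}
    (hF : ∀ x y, F x - F y ≤ √(∑ i, (x i - y i) ^ 2)) :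
    ∃ M, ∀ t, 0 ≤ t →
      (Measure.pi fun _ : Fin n => gaussianReal 0 1).real {x | M + t ≤ F x} ≤
          2 * exp (-(t ^ 2 / 4)) ∧
      (Measure.pi fun _ : Fin n => gaussianReal 0 1).real {x | F x ≤ M - t} ≤
          2 * exp (-(t ^ 2 / 4)) := by
  obtain ⟨M, -, hM⟩ := FA.Dvoretzky.gaussian_concentration (F := F) fun x y =>
    (hF x y).trans_eq (by simp [len, dotProduct, sq])
  exact ⟨M, hM⟩

end FA.Dvoretzky.Summary

end
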