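import Fermat.Agent.Dye.Main
import Fermat.Agent.Ornstein.Bernoulli

/-!
# Dye's theorem

`iter T k x` is the `k`-th power of the automorphism `T` at `x`, for an integer `k`, and `shift B`
sends `x` to `i ↦ x (i + 1)`. A measure has no atoms if every point has measure zero.

* `dye_theorem` (Dye): ergodic automorphisms of standard probability spaces without atoms are orbit
  equivalent: an isomorphism of the measures between invariant conull sets carries orbits exactly
  onto orbits;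
* `dye_eventual_agreement`: in particular each is orbit equivalent to eventual agreement of
  sequences of fair coins;
* `hopf_equivalence` (Hopf): sets of equal measure are carried onto each other, up to null sets,
  by powers of the automorphism chosen measurably point by point;
* `dye_bernoulli`: all nondegenerate Bernoulli shifts are orbit equivalent, whatever their entropy.
-/

set_option autoImplicit false

noncomputable section

open MeasureTheory Set Filter
open FA.BorelCombinatorics (iter)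
open FA.KolmogorovSinai (shift)

namespace FA.Summary

variable {X Y : Type*} [MeasurableSpace X] [StandardBorelSpace X] [MeasurableSpace Y]
  [StandardBorelSpace Y] {μ : Measure X} [IsProbabilityMeasure μ] {ν : Measure Y}
  [IsProbabilityMeasure ν] {T : X ≃ᵐ X} {S : Y ≃ᵐ Y}

/-- **Dye's theorem.** -/
theorem dye_theorem (h : Ergodic T μ) (hna : ∀ x, μ {x} = 0) (h' : Ergodic S ν)
    (hna' : ∀ y, ν {y} = 0) :
    ∃ (X₀ : Set X) (Y₀ : Set Y) (Φ : X → Y) (Ψ : Y → X),
      MeasurableSet X₀ ∧ MeasurableSet Y₀ ∧ μ X₀ᶜ = 0 ∧ ν Y₀ᶜ = 0 ∧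
      (∀ k, ∀ x ∈ X₀, iter T k x ∈ X₀) ∧ (∀ k, ∀ y ∈ Y₀, iter S k y ∈ Y₀) ∧
      MeasurePreserving Φ μ ν ∧ MeasurePreserving Ψ ν μ ∧ MapsTo Φ X₀ Y₀ ∧ MapsTo Ψ Y₀ X₀ ∧
      (∀ x ∈ X₀, Ψ (Φ x) = x) ∧ (∀ y ∈ Y₀, Φ (Ψ y) = y) ∧
      ∀ x ∈ X₀, ∀ x' ∈ X₀, (∃ k, iter T k x = x') ↔ ∃ k, iter S k (Φ x) = Φ x' :=
  Dye.isOrbitEquivalent h hna h' hna'

omit [StandardBorelSpace Y] [IsProbabilityMeasure ν] in
/-- **Orbits as classes of eventual agreement.** -/
theorem dye_eventual_agreement (h : Ergodic T μ) (hna : ∀ x, μ {x} = 0) :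
    ∃ (X₀ : Set X) (Y₀ : Set (ℕ → Bool)) (Φ : X → ℕ → Bool) (Ψ : (ℕ → Bool) → X),
      MeasurableSet X₀ ∧ MeasurableSet Y₀ ∧ μ X₀ᶜ = 0 ∧
      (Measure.infinitePi fun _ : ℕ => (PMF.uniformOfFintype Bool).toMeasure) Y₀ᶜ = 0 ∧
      (∀ k, ∀ x ∈ X₀, iter T k x ∈ X₀) ∧
      (∀ y ∈ Y₀, ∀ y' : ℕ → Bool, (∀ᶠ i in atTop, y i = y' i) → y' ∈ Y₀) ∧
      MeasurePreserving Φ μ (Measure.infinitePi fun _ : ℕ =>
        (PMF.uniformOfFintype Bool).toMeasure) ∧
      MeasurePreserving Ψ (Measure.infinitePi fun _ : ℕ =>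
        (PMF.uniformOfFintype Bool).toMeasure) μ ∧
      MapsTo Φ X₀ Y₀ ∧ MapsTo Ψ Y₀ X₀ ∧
      (∀ x ∈ X₀, Ψ (Φ x) = x) ∧ (∀ y ∈ Y₀, Φ (Ψ y) = y) ∧
      ∀ x ∈ X₀, ∀ x' ∈ X₀, (∃ k, iter T k x = x') ↔ ∀ᶠ i in atTop, Φ x i = Φ x' i := by
  obtain ⟨m⟩ := Dye.exists_model h hna
  refine ⟨m.G, m.Φ '' m.G, m.Φ, m.Ψ, m.measurableSet_G, m.measurableSet_image, m.measure_compl_G,
    m.measure_compl_image, fun k x hx => m.iter_mem k hx, ?_, m.mp_Φ, m.mp_Ψ,
    mapsTo_image _ _, ?_, m.left_inv, ?_, m.orbit_iff⟩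
  · rintro _ ⟨x, hx, rfl⟩ y' hy'
    exact m.saturated x hx y' hy'
  · rintro _ ⟨x, hx, rfl⟩
    rwa [m.left_inv x hx]
  · rintro _ ⟨x, hx, rfl⟩
    rw [m.left_inv x hx]

omit [StandardBorelSpace X] [StandardBorelSpace Y] [IsProbabilityMeasure ν] in
/-- **Hopf's equivalence lemma.** -/
theorem hopf_equivalence (h : Ergodic T μ) {A B : Set X} (hA : MeasurableSet A)
    (hB : MeasurableSet B) (hAB : μ A = μ B) :
    ∃ p q : X → ℤ, Measurable p ∧ Measurable q ∧
      (∀ᵐ x ∂μ, x ∈ A → iter T (p x) x ∈ B ∧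
        iter T (q (iter T (p x) x)) (iter T (p x) x) = x) ∧
      ∀ᵐ x ∂μ, x ∈ B → iter T (q x) x ∈ A ∧
        iter T (p (iter T (q x) x)) (iter T (q x) x) = x := by
  obtain ⟨e⟩ := Dye.exists_piso h hA hB hAB
  exact ⟨e.fwd, e.bwd, e.fwd_meas, e.bwd_meas, e.spec.mono fun _ hx => hx.1,
    e.spec.mono fun _ hx => hx.2⟩

/-- A nondegenerate Bernoulli measure has no atoms. -/
theorem bernoulli_measure_singleton {C : Type*} [Fintype C] [MeasurableSpace C]
    [MeasurableSingletonClass C] (r : Measure C) [IsProbabilityMeasure r] (hr : ∀ c, r {c} < 1)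
    (x : ℤ → C) : (Measure.infinitePi fun _ : ℤ => r) {x} = 0 := by
  have : Nonempty C := nonempty_of_isProbabilityMeasure r
  obtain ⟨c, -, hc⟩ := Finset.exists_max_image Finset.univ (fun c => r.real {c})
    Finset.univ_nonempty
  have hlt : r.real {c} < 1 := ENNReal.toReal_lt_of_lt_ofReal (by simpa using hr c)
  refine (measureReal_eq_zero_iff).1 (le_antisymm (ge_of_tendsto
    (tendsto_pow_atTop_nhds_zero_of_lt_one measureReal_nonneg hlt)
    (Eventually.of_forall fun n => ?_)) measureReal_nonneg)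
  calc (Measure.infinitePi fun _ : ℤ => r).real {x}
      ≤ (Ornstein.bern r).real (Ornstein.blk n ⁻¹' {Ornstein.blk n x}) :=
        measureReal_mono (singleton_subset_iff.2 rfl)
    _ = ∏ j, r.real {Ornstein.blk n x j} := Ornstein.bern_blk r n _
    _ ≤ ∏ _j : Fin n, r.real {c} := Finset.prod_le_prod (fun _ _ => measureReal_nonneg)
        fun j _ => hc _ (Finset.mem_univ _)
    _ = r.real {c} ^ n := by simp

/-- **All nondegenerate Bernoulli shifts are orbit equivalent.** -/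
theorem dye_bernoulli {A B : Type*} [Fintype A] [MeasurableSpace A] [MeasurableSingletonClass A]
    [Fintype B] [MeasurableSpace B] [MeasurableSingletonClass B] (p : Measure A)
    [IsProbabilityMeasure p] (q : Measure B) [IsProbabilityMeasure q]
    (hp : ∀ a, p {a} < 1) (hq : ∀ b, q {b} < 1) :
    Dye.IsOrbitEquivalent (shift A) (Measure.infinitePi fun _ : ℤ => p) (shift B)
      (Measure.infinitePi fun _ : ℤ => q) := by
  exact Dye.isOrbitEquivalent (Ornstein.ergodic_bern p) (bernoulli_measure_singleton p hp)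
    (Ornstein.ergodic_bern q) (bernoulli_measure_singleton q hq)

end FA.Summary

end
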