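import Fermat.Agent.DynamicalMordellLang.Main
import Fermat.Agent.DynamicalMordellLang.Sharpness

/-!
# The dynamical Mordell–Lang theorem for étale endomorphisms of affine space

After Bell, Ghioca and Tucker: over a field of characteristic zero let `f` be a polynomial map of
affine space with Jacobian determinant a nonzero constant, for example an automorphism. For every
point and every algebraic set the times at which the orbit lies in the set are periodic from some
point on (`dynamical_mordell_lang`): a finite set and finitely many progressions. Without a whole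
progression the orbit meets the set finitely often (`dynamical_mordell_lang_finite`). It fails in
characteristic `p` already for a linear map (`dynamical_mordell_lang_sharp`).
-/

set_option autoImplicit false

noncomputable section

open MvPolynomial

namespace FA.Summary

variable {σ : Type*} [Fintype σ] [DecidableEq σ] {K : Type*} [Field K] [CharZero K]

/-- **The dynamical Mordell–Lang theorem.** -/
theorem dynamical_mordell_lang {f : σ → MvPolynomial σ K} {c : K} (hc : c ≠ 0)
    (hdet : (Matrix.of fun i l => pderiv l (f i)).det = C c) (x : σ → K)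
    (V : Set (MvPolynomial σ K)) :
    ∃ N M : ℕ, 0 < N ∧ ∀ n, M ≤ n →
      ((∀ F ∈ V, eval ((fun y i => eval y (f i))^[n] x) F = 0) ↔
        ∀ F ∈ V, eval ((fun y i => eval y (f i))^[n + N] x) F = 0) :=
  DynamicalMordellLang.eventually_periodic hc hdet x V

/-- **Without a progression** the orbit meets the algebraic set finitely often. -/
theorem dynamical_mordell_lang_finite {f : σ → MvPolynomial σ K} {c : K} (hc : c ≠ 0)
    (hdet : (Matrix.of fun i l => pderiv l (f i)).det = C c) (x : σ → K)
    (V : Set (MvPolynomial σ K))
    (hV : ∀ a N, 0 < N → ∃ m, ∃ F ∈ V, eval ((fun y i => eval y (f i))^[a + N * m] x) F ≠ 0) :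
    {n | ∀ F ∈ V, eval ((fun y i => eval y (f i))^[n] x) F = 0}.Finite := by
  obtain ⟨N, M, hN, h⟩ := dynamical_mordell_lang hc hdet x V
  refine (Set.finite_Iio M).subset fun n hn => Set.mem_Iio.2 (lt_of_not_ge fun hMn => ?_)
  obtain ⟨m, F, hF, hne⟩ := hV n N hN
  refine hne ((?_ : ∀ F ∈ V, eval ((fun y i => eval y (f i))^[n + N * m] x) F = 0) F hF)
  clear hne
  induction m with
  | zero => simpa using hn
  | succ m ih => rw [Nat.mul_succ, ← add_assoc]; exact (h _ (by omega)).1 ih

/-- **Characteristic `p`**: over `𝔽₂(t)` a linear automorphism meets a line along the powers of two,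
which are not periodic. -/
theorem dynamical_mordell_lang_sharp :
    ∃ (f : Fin 2 → MvPolynomial (Fin 2) (RatFunc (ZMod 2))) (c : RatFunc (ZMod 2))
      (x : Fin 2 → RatFunc (ZMod 2)) (F : MvPolynomial (Fin 2) (RatFunc (ZMod 2))),
      c ≠ 0 ∧ (Matrix.of fun i l => pderiv l (f i)).det = C c ∧
      {n | eval ((fun y i => eval y (f i))^[n] x) F = 0} = Set.range (fun k : ℕ => 2 ^ k) ∧
      ∀ N M : ℕ, 0 < N → ∃ n, M ≤ n ∧ ¬(eval ((fun y i => eval y (f i))^[n] x) F = 0 ↔
        eval ((fun y i => eval y (f i))^[n + N] x) F = 0) := by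
  refine ⟨DynamicalMordellLang.charTwoMap, _, 1, X 0 + X 1 - 1, ?_,
    DynamicalMordellLang.det_charTwoMap, ?_, DynamicalMordellLang.not_eventually_periodic⟩
  · refine mul_ne_zero (fun h => ?_) ?_
    · have : (1 + Polynomial.X : Polynomial (ZMod 2)) = 0 :=
        IsFractionRing.injective (Polynomial (ZMod 2)) (RatFunc (ZMod 2)) (by simpa using h)
      simpa [Polynomial.coeff_one] using congrArg (Polynomial.coeff · 1) this
    · simp [DynamicalMordellLang.paramT]
  · ext n
    exact (DynamicalMordellLang.mem_line_iff n).trans
      ⟨fun ⟨k, hk⟩ => ⟨k, hk.symm⟩, fun ⟨k, hk⟩ => ⟨k, hk.symm⟩⟩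

end FA.Summary

end
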