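import Fermat.Agent.Dynkin.Main

/-!
# The A–G classification of root systems and of simple Lie algebras

Connected symmetrisable positive definite Cartan matrices, irreducible root systems, and simple Lie
algebras over an algebraically closed field of characteristic zero are each indexed by the types
`Aₙ` (`n ≥ 1`), `Bₙ` (`n ≥ 2`), `Cₙ` (`n ≥ 3`), `Dₙ` (`n ≥ 4`), `E₆`, `E₇`, `E₈`, `F₄`, `G₂`, with
Mathlib's matrices `CartanMatrix.A`, …, `CartanMatrix.G₂`.

Convention: `Matrix.ToLieAlgebra` presents the transpose of `RootPairing.Base.cartanMatrix`, so the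
algebra with root system of type `Bₙ` is `Matrix.ToLieAlgebra K (CartanMatrix.C n)`.
-/

set_option autoImplicit false

noncomputable section

namespace FA.Dynkin.Summary

open Module FA.Dynkin

/-- The meaning of a type and of matching a type. -/
theorem types_def :
    (∀ n, (DynkinType.A n).matrix = CartanMatrix.A n ∧ (DynkinType.B n).matrix = CartanMatrix.B n ∧
      (DynkinType.C n).matrix = CartanMatrix.C n ∧ (DynkinType.D n).matrix = CartanMatrix.D n) ∧
    DynkinType.E6.matrix = CartanMatrix.E₆ ∧ DynkinType.E7.matrix = CartanMatrix.E₇ ∧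
    DynkinType.E8.matrix = CartanMatrix.E₈ ∧ DynkinType.F4.matrix = CartanMatrix.F₄ ∧
    DynkinType.G2.matrix = CartanMatrix.G₂ ∧
    (∀ t : DynkinType, t.Valid ↔
      (∃ n, 1 ≤ n ∧ t = .A n) ∨ (∃ n, 2 ≤ n ∧ t = .B n) ∨ (∃ n, 3 ≤ n ∧ t = .C n) ∨
      (∃ n, 4 ≤ n ∧ t = .D n) ∨ t = .E6 ∨ t = .E7 ∨ t = .E8 ∨ t = .F4 ∨ t = .G2) := by
  refine ⟨fun n => ⟨rfl, rfl, rfl, rfl⟩, rfl, rfl, rfl, rfl, rfl, fun t => ?_⟩
  cases t <;> simp [DynkinType.Valid]

/-- **Classification of connected Cartan matrices of finite type**: a connected generalised Cartan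
matrix is symmetrisable and positive definite exactly when it is, up to reindexing, one of the
listed matrices. -/
theorem cartanMatrix_classification {ι : Type*} [Fintype ι] (C : Matrix ι ι ℤ) (h : IsGCM C)
    (hconn : (graph C).Connected) :
    (∃ d : ι → ℤ, (∀ i, 0 < d i) ∧ (∀ i j, C i j * d j = C j i * d i) ∧
      ∀ x : ι → ℚ, x ≠ 0 → 0 < ∑ i, ∑ j, x i * (C i j : ℚ) * (d j : ℚ) * x j) ↔
      ∃! t : DynkinType, t.Valid ∧ Matches t C := by
  constructor
  · rintro ⟨d, hd, hs, hp⟩
    obtain ⟨t, ht, hm⟩ := exists_type_of_connected C (isFiniteType_of_pos h d hd hs hp) hconn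
    exact ⟨t, ⟨ht, hm⟩, fun t' h' => Matches.unique h'.1 ht h'.2 hm⟩
  · rintro ⟨t, ⟨ht, σ, hσ⟩, -⟩
    refine ⟨t.symmetriser ∘ σ.symm, fun i => t.symmetriser_pos _, fun i j => ?_, fun x hx => ?_⟩
    · have := t.symmetriser_symm ht (σ.symm i) (σ.symm j)
      simpa [← hσ] using this
    · have := t.posDef ht (x ∘ σ) fun h0 => hx (funext fun i => by
        simpa using congrFun h0 (σ.symm i))
      refine this.trans_eq ?_
      refine Fintype.sum_equiv σ _ _ fun i => Fintype.sum_equiv σ _ _ fun j => ?_
      simp [← hσ]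

/-- A connected generalised Cartan matrix without null vectors is one of the types; this is the
combinatorial core. -/
theorem finiteType_classification {ι : Type*} [Fintype ι] (C : Matrix ι ι ℤ) (h : IsFiniteType C)
    (hconn : (graph C).Connected) : ∃! t : DynkinType, t.Valid ∧ Matches t C := by
  obtain ⟨t, ht, hm⟩ := exists_type_of_connected C h hconn
  exact ⟨t, ⟨ht, hm⟩, fun t' h' => Matches.unique h'.1 ht h'.2 hm⟩

/-- **Classification of irreducible root systems**: the Cartan matrix of an irreducible reduced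
crystallographic root system is, for any base, exactly one of the types A–G. -/
theorem rootSystem_classification {ι R M N : Type*} [Finite ι] [Field R] [CharZero R]
    [AddCommGroup M] [Module R M] [AddCommGroup N] [Module R N] {P : RootPairing ι R M N}
    [P.IsCrystallographic] [P.IsRootSystem] [P.IsReduced] [P.IsIrreducible] (b : P.Base) :
    ∃! t : DynkinType, t.Valid ∧ Matches t b.cartanMatrix :=
  existsUnique_type b

/-- **Existence**: each of the types is the Cartan matrix of an irreducible reduced
crystallographic root system. -/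
theorem exists_rootSystem (K : Type*) [Field K] [CharZero K] (t : DynkinType) (ht : t.Valid) :
    ∃ (Φ : Type) (_ : Finite Φ) (P : RootPairing Φ K (Fin t.rank → K) (Fin t.rank → K))
      (_ : P.IsRootSystem) (_ : P.IsCrystallographic) (_ : P.IsReduced) (_ : P.IsIrreducible)
      (b : P.Base), Matches t b.cartanMatrix :=
  exists_rootSystem_of_type K t ht

/-- **Classification of simple Lie algebras**: over an algebraically closed field of characteristic
zero every finite-dimensional simple Lie algebra is presented by the Cartan matrix of exactly one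
type, and each of these algebras is finite-dimensional and simple. -/
theorem simple_lie_algebras_classification (K : Type*) [Field K] [CharZero K] [IsAlgClosed K] :
    (∀ t : DynkinType, t.Valid → FiniteDimensional K (Matrix.ToLieAlgebra K t.matrix) ∧
      LieAlgebra.IsSimple K (Matrix.ToLieAlgebra K t.matrix)) ∧
    (∀ t t' : DynkinType, t.Valid → t'.Valid →
      Nonempty (Matrix.ToLieAlgebra K t.matrix ≃ₗ⁅K⁆ Matrix.ToLieAlgebra K t'.matrix) → t = t') ∧
    ∀ (L : Type*) [LieRing L] [LieAlgebra K L] [FiniteDimensional K L] [LieAlgebra.IsSimple K L],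
      ∃! t : DynkinType, t.Valid ∧ Nonempty (L ≃ₗ⁅K⁆ Matrix.ToLieAlgebra K t.matrix) :=
  ⟨finiteDimensional_isSimple K, fun _ _ ht ht' ⟨φ⟩ => eq_of_lieEquiv K ht ht' φ,
    fun L _ _ _ _ => existsUnique_type_of_isSimple K L⟩

/-- The exceptional algebras are simple. -/
theorem exceptional_isSimple (K : Type*) [Field K] [CharZero K] [IsAlgClosed K] :
    LieAlgebra.IsSimple K (Matrix.ToLieAlgebra K CartanMatrix.E₆) ∧
      LieAlgebra.IsSimple K (Matrix.ToLieAlgebra K CartanMatrix.E₇) ∧
      LieAlgebra.IsSimple K (Matrix.ToLieAlgebra K CartanMatrix.E₈) ∧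
      LieAlgebra.IsSimple K (Matrix.ToLieAlgebra K CartanMatrix.F₄) ∧
      LieAlgebra.IsSimple K (Matrix.ToLieAlgebra K CartanMatrix.G₂) :=
  ⟨(finiteDimensional_isSimple K .E6 trivial).2, (finiteDimensional_isSimple K .E7 trivial).2,
    (finiteDimensional_isSimple K .E8 trivial).2, (finiteDimensional_isSimple K .F4 trivial).2,
    (finiteDimensional_isSimple K .G2 trivial).2⟩

end FA.Dynkin.Summary
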