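import Fermat.Agent.DysonConstantTerm.Dixon
import Fermat.Agent.DysonConstantTerm.Circle

/-!
# Dyson's constant term theorem

The constant term of `∏_{i ≠ j} (1 - x i / x j) ^ a i` is `(∑ a i)! / ∏ (a i)!` (conjectured by
Dyson in 1962, proved by Gunson and by Wilson; the proof is Good's of 1970). As
`(1 - x i / x j) x j = x j - x i` it is a coefficient of a polynomial.

* `dyson_constant_term`: the theorem, for every finite index type;
* `dyson_equal_exponents`: for equal exponents the coefficient of `(x 1 ⋯ x n) ^ (k (n - 1))` in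
  `∏_{i < j} (x i - x j) ^ (2 k)` is `(-1) ^ (k C(n, 2)) (n k)! / (k!) ^ n`;
* `dixon_identity`: Dixon's identity, the sum over `|t| ≤ min (a, b, c)` of
  `(-1) ^ t C(a + b, a + t) C(b + c, b + t) C(c + a, c + t)` is `(a + b + c)! / (a! b! c!)`
  (with `t = j - min`), and the sum of the signed cubes of `C(2 n, j)`;
* `dyson_circle_integral`: the mean over the torus of
  `∏_{i < j} |exp (i θ i) - exp (i θ j)| ^ (2 k)` is `(n k)! / (k!) ^ n`.

Selberg's integral and real `β` are not claimed.
-/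

set_option autoImplicit false

noncomputable section

namespace FA.DysonConstantTerm.Summary

open Finset MeasureTheory
open scoped Nat Real

/-- **Dyson's constant term theorem.** -/
theorem dyson_constant_term {ι : Type*} [Fintype ι] [DecidableEq ι] (a : ι → ℕ) :
    (∏ i, ((a i)! : ℤ)) * MvPolynomial.coeff
        (Finsupp.equivFunOnFinite.symm fun j => ∑ i ∈ univ.erase j, a i)
        (∏ i, ∏ j ∈ univ.erase i, (MvPolynomial.X j - MvPolynomial.X i) ^ a i :
          MvPolynomial ι ℤ) =
      ((∑ i, a i)! : ℤ) := by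
  rw [show (Finsupp.equivFunOnFinite.symm fun j => ∑ i ∈ univ.erase j, a i) = dysonExp univ a from
    Finsupp.ext fun j => by simp [dysonExp_apply]]
  rw [← dysonPoly, coeff_dysonPoly]
  exact_mod_cast Nat.multinomial_spec (s := univ) (f := a)

/-- **Equal exponents.** -/
theorem dyson_equal_exponents (n k : ℕ) :
    (k ! : ℤ) ^ n * MvPolynomial.coeff (Finsupp.equivFunOnFinite.symm fun _ => k * (n - 1))
        (∏ i : Fin n, ∏ j ∈ Ioi i, (MvPolynomial.X i - MvPolynomial.X j) ^ (2 * k) :
          MvPolynomial (Fin n) ℤ) =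
      (-1) ^ (k * n.choose 2) * ((n * k)! : ℤ) := by
  rw [show (Finsupp.equivFunOnFinite.symm fun _ => k * (n - 1)) =
      dysonExp (univ : Finset (Fin n)) (fun _ => k) from
    Finsupp.ext fun j => by simp [dysonExp_const, mul_comm]]
  have hP : (∏ i : Fin n, ∏ j ∈ Ioi i, (MvPolynomial.X i - MvPolynomial.X j) ^ (2 * k) :
      MvPolynomial (Fin n) ℤ) =
      MvPolynomial.C ((-1 : ℤ) ^ (k * n.choose 2)) * dysonPoly univ fun _ => k := by
    rw [dysonPoly_const, mul_pow, ← pow_mul, mul_comm (n.choose 2) k, ← mul_assoc, map_pow,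
      map_neg, map_one, ← mul_pow]
    simp [pow_mul, prod_pow]
  rw [hP, MvPolynomial.coeff_C_mul, ← coeff_dysonPoly_const n k]
  ring

/-- **Dixon's identity.** -/
theorem dixon_identity :
    (∀ a b c : ℕ, ((a ! * b ! * c ! : ℕ) : ℤ) * ∑ j ∈ range (2 * min a (min b c) + 1),
      (-1) ^ (j + min a (min b c)) * ((a + b).choose (a + j - min a (min b c)) : ℤ) *
        ((b + c).choose (b + j - min a (min b c)) : ℤ) *
        ((c + a).choose (c + j - min a (min b c)) : ℤ) = ((a + b + c)! : ℤ)) ∧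
    ∀ n : ℕ, ((n ! ^ 3 : ℕ) : ℤ) * ∑ j ∈ range (2 * n + 1),
      (-1) ^ j * ((2 * n).choose j : ℤ) ^ 3 = (-1) ^ n * ((3 * n)! : ℤ) :=
  ⟨dixon, dixon_cube⟩

/-- **Dyson's circular ensembles at even `β`.** -/
theorem dyson_circle_integral (n k : ℕ) :
    ((2 * π) ^ n)⁻¹ * ∫ θ in Set.univ.pi fun _ : Fin n => Set.Icc (0 : ℝ) (2 * π),
        ∏ i : Fin n, ∏ j ∈ Ioi i,
          ‖Complex.exp (Complex.I * (θ i)) - Complex.exp (Complex.I * (θ j))‖ ^ (2 * k) =
      ((n * k)! : ℝ) / (k ! : ℝ) ^ n := by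
  have h := integral_torus_dyson n k
  simp only [circleExp] at h
  rw [eq_div_iff (by positivity), mul_assoc, mul_comm _ ((k ! : ℝ) ^ n), h, mul_comm,
    mul_assoc, mul_inv_cancel₀ (by positivity), mul_one]

end FA.DysonConstantTerm.Summary

end
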