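import Fermat.Agent.ReducedGroups.PrimalityProof

/-!
# Lenstra's elliptic curve method

On an equation modulo `n`, a multiple `M` that kills the point modulo one prime of `n` and not
modulo another splits `n`; it kills every point modulo `p` once `#E(𝔽_p) ∣ M`, in particular when
`#E(𝔽_p)` is smooth and `M` contains the small prime powers.
-/

set_option autoImplicit false
set_option linter.style.haveILetI false
set_option linter.unusedSectionVars false

noncomputable section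

open WeierstrassCurve Polynomial FA.Frob FA.EC
open scoped WeierstrassCurve.Affine Classical Polynomial.Bivariate

namespace FA.Summary

variable (W : WeierstrassCurve ℤ) {p : ℕ} [Fact p.Prime]

/-- A multiple of the group order kills the point modulo `p`. -/
theorem dvd_ΨSq_of_card_dvd (hp : ¬ (p : ℤ) ∣ W.Δ) {x y : ℤ}
    (hE : (p : ℤ) ∣ W.toAffine.polynomial.evalEval x y) {M : ℕ}
    (hM : Nat.card (W.map (Int.castRingHom (ZMod p))).toAffine.Point ∣ M) :
    (p : ℤ) ∣ (W.ΨSq M).eval x := by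
  haveI := FA.ReducedGroups.isElliptic_map_of_not_dvd W hp
  have hns : (W.map (Int.castRingHom (ZMod p))).toAffine.Nonsingular (x : ZMod p) y :=
    Affine.equation_iff_nonsingular.mp ((FA.ReducedGroups.equation_map_iff W x y).mpr hE)
  exact (FA.ReducedGroups.eval_ΨSq_map_iff W x M).mp ((FA.EC.nsmul_eq_zero_iff hns M).mp
    (addOrderOf_dvd_iff_nsmul_eq_zero.mp ((addOrderOf_dvd_natCard _).trans hM)))

/-- **Lenstra's method**: if `#E(𝔽_p) ∣ M` and the point survives `M` modulo another prime `r` of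
`n`, the gcd of `n` and `ΨSq_M(x)` is a proper divisor. -/
theorem ecm_factor {n r : ℕ} [Fact r.Prime] (hn : 0 < n) (hpn : p ∣ n) (hrn : r ∣ n)
    (hΔ : Int.gcd W.Δ n = 1) {x y : ℤ} (hE : (n : ℤ) ∣ W.toAffine.polynomial.evalEval x y) {M : ℕ}
    (hM : Nat.card (W.map (Int.castRingHom (ZMod p))).toAffine.Point ∣ M)
    (hr : ∀ h : (W.map (Int.castRingHom (ZMod r))).toAffine.Nonsingular (x : ZMod r) y,
      M • Affine.Point.some _ _ h ≠ 0) :
    Int.gcd ((W.ΨSq M).eval x) n ∣ n ∧ 1 < Int.gcd ((W.ΨSq M).eval x) n ∧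
      Int.gcd ((W.ΨSq M).eval x) n < n := by
  have hgood : ∀ s : ℕ, s.Prime → s ∣ n → ¬ (s : ℤ) ∣ W.Δ := fun s hs hsn h => by
    have h1 := Int.dvd_coe_gcd h (Int.natCast_dvd_natCast.mpr hsn)
    rw [hΔ] at h1
    exact hs.ne_one (Nat.dvd_one.mp (Int.natCast_dvd_natCast.mp h1))
  have hdn : Int.gcd ((W.ΨSq M).eval x) n ∣ n :=
    Int.natCast_dvd_natCast.mp (Int.gcd_dvd_right _ _)
  have hp : p.Prime := Fact.out
  have h1 : p ∣ Int.gcd ((W.ΨSq M).eval x) n := Int.natCast_dvd_natCast.mp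
    (Int.dvd_coe_gcd (dvd_ΨSq_of_card_dvd W (hgood p hp hpn)
      ((Int.natCast_dvd_natCast.mpr hpn).trans hE) hM) (Int.natCast_dvd_natCast.mpr hpn))
  have hne : Int.gcd ((W.ΨSq M).eval x) n ≠ n := fun e => by
    haveI := FA.ReducedGroups.isElliptic_map_of_not_dvd W (hgood r Fact.out hrn)
    have hns : (W.map (Int.castRingHom (ZMod r))).toAffine.Nonsingular (x : ZMod r) y :=
      Affine.equation_iff_nonsingular.mp ((FA.ReducedGroups.equation_map_iff W x y).mpr
        ((Int.natCast_dvd_natCast.mpr hrn).trans hE))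
    refine hr hns ((FA.EC.nsmul_eq_zero_iff hns M).mpr
      ((FA.ReducedGroups.eval_ΨSq_map_iff W x M).mpr ?_))
    have h2 : (n : ℤ) ∣ (W.ΨSq M).eval x := by
      conv_lhs => rw [← e]
      exact Int.gcd_dvd_left _ _
    exact (Int.natCast_dvd_natCast.mpr hrn).trans h2
  exact ⟨hdn, lt_of_lt_of_le hp.one_lt (Nat.le_of_dvd (Nat.pos_of_dvd_of_pos hdn hn) h1),
    lt_of_le_of_ne (Nat.le_of_dvd hn hdn) hne⟩

/-- **Smooth orders**: if the primes of `#E(𝔽_p)` are at most `B` and every power at most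
`(√p + 1)²` of such a prime divides `M`, then `#E(𝔽_p) ∣ M`. -/
theorem ecm_card_dvd_of_smooth (hp : ¬ (p : ℤ) ∣ W.Δ) {B M : ℕ}
    (hB : ∀ s ∈ (Nat.card (W.map (Int.castRingHom (ZMod p))).toAffine.Point).primeFactors, s ≤ B)
    (hM : ∀ s i : ℕ, s.Prime → s ≤ B → ((s ^ i : ℕ) : ℝ) ≤ (Real.sqrt p + 1) ^ 2 → s ^ i ∣ M) :
    Nat.card (W.map (Int.castRingHom (ZMod p))).toAffine.Point ∣ M := by
  haveI := FA.ReducedGroups.isElliptic_map_of_not_dvd W hp
  set V := W.map (Int.castRingHom (ZMod p))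
  refine (Nat.dvd_iff_prime_pow_dvd_dvd _ _).mpr fun s i hs hd => ?_
  rcases Nat.eq_zero_or_pos i with rfl | hi
  · rw [pow_zero]; exact one_dvd M
  refine hM s i hs (hB s (Nat.mem_primeFactors.mpr
    ⟨hs, (dvd_pow_self s hi.ne').trans hd, Nat.card_pos.ne'⟩)) ?_
  have hH := (abs_le.mp (FA.HasseBound.hasse V)).1
  have hs2 := Real.sq_sqrt (Nat.cast_nonneg p : (0 : ℝ) ≤ p)
  calc ((s ^ i : ℕ) : ℝ) ≤ Nat.card V.toAffine.Point := by
        exact_mod_cast Nat.le_of_dvd Nat.card_pos hd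
    _ ≤ _ := by nlinarith

/-- A single multiplier serving every equation at `p`. -/
theorem ecm_card_dvd_factorial (hp : ¬ (p : ℤ) ∣ W.Δ) :
    Nat.card (W.map (Int.castRingHom (ZMod p))).toAffine.Point ∣
      ⌊(Real.sqrt p + 1) ^ 2⌋₊.factorial := by
  haveI := FA.ReducedGroups.isElliptic_map_of_not_dvd W hp
  refine Nat.dvd_factorial Nat.card_pos (Nat.le_floor ?_)
  have hH := (abs_le.mp (FA.HasseBound.hasse (W.map (Int.castRingHom (ZMod p))))).1
  have hs2 := Real.sq_sqrt (Nat.cast_nonneg p : (0 : ℝ) ≤ p)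
  nlinarith

end FA.Summary

end
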