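import Fermat.Agent.ReducedGroups.PrimalityProof

/-!
# Elliptic curve primality proving

The criterion of Goldwasser and Kilian behind the test of Atkin and Morain, in a form testable by
arithmetic modulo `n` alone, and the existence of such certificates for every prime with a suitable
curve.
-/

set_option autoImplicit false
set_option linter.style.haveILetI false
set_option linter.unusedSectionVars false

noncomputable section

open WeierstrassCurve Polynomial FA.Frob FA.EC
open scoped WeierstrassCurve.Affine Classical Polynomial.Bivariate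

namespace FA.Summary

/-- **Goldwasser and Kilian's criterion**: a point `(x, y)` on an equation modulo `n` whose
multiple by `m` is zero and by `m / s` nowhere zero, `s` a prime factor of `m` above
`(n^{1/4} + 1)²`, proves `n` prime. -/
theorem ecpp_prime (W : WeierstrassCurve ℤ) {n : ℕ} (hn : 1 < n) (hΔ : Int.gcd W.Δ n = 1)
    {x y : ℤ} (hE : (n : ℤ) ∣ W.toAffine.polynomial.evalEval x y) {m s : ℕ} (hs : s.Prime)
    (hsm : s ∣ m) (hbig : (Real.sqrt (Real.sqrt n) + 1) ^ 2 < s)
    (hm : (n : ℤ) ∣ (W.ΨSq m).eval x)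
    (hu : Int.gcd ((W.ΨSq ((m / s : ℕ) : ℤ)).eval x) n = 1) : n.Prime := by
  by_contra hnp
  set p := n.minFac
  haveI := Fact.mk (Nat.minFac_prime hn.ne')
  have hpn : (p : ℤ) ∣ n := Int.natCast_dvd_natCast.mpr n.minFac_dvd
  have hnot : ∀ z : ℤ, Int.gcd z n = 1 → ¬ (p : ℤ) ∣ z := fun z hz h => by
    have := Int.dvd_coe_gcd h hpn
    rw [hz] at this
    exact (Fact.out : p.Prime).ne_one (Nat.dvd_one.mp (Int.natCast_dvd_natCast.mp this))
  refine (FA.ReducedGroups.le_hasse_of_certificate W (hnot _ hΔ) (hpn.trans hE) hs hsm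
    (hpn.trans hm) (hnot _ hu)).not_gt (lt_of_le_of_lt ?_ hbig)
  refine pow_le_pow_left₀ (by positivity) (add_le_add (Real.sqrt_le_sqrt ?_) le_rfl) 2
  refine Real.le_sqrt_of_sq_le ?_
  exact_mod_cast Nat.minFac_sq_le_self (by omega) hnp

/-- **Certificates exist**: if the number of points modulo a prime `q` has a prime factor above
`(q^{1/4} + 1)²`, some integers meet the hypotheses of the criterion with `n = q`. -/
theorem ecpp_certificate_exists (W : WeierstrassCurve ℤ) {q : ℕ} [hq : Fact q.Prime]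
    (hgood : W.IsGoodPrimeFor q) {s : ℕ} (hs : s.Prime)
    (hsm : s ∣ Nat.card (W.map (Int.castRingHom (ZMod q))).toAffine.Point)
    (hbig : (Real.sqrt (Real.sqrt q) + 1) ^ 2 < s) :
    Int.gcd W.Δ q = 1 ∧ ∃ x y : ℤ, (q : ℤ) ∣ W.toAffine.polynomial.evalEval x y ∧
      (q : ℤ) ∣ (W.ΨSq (Nat.card (W.map (Int.castRingHom (ZMod q))).toAffine.Point)).eval x ∧
      Int.gcd ((W.ΨSq (((Nat.card (W.map (Int.castRingHom (ZMod q))).toAffine.Point) / s : ℕ) :
        ℤ)).eval x) q = 1 := by
  have hcop : ∀ z : ℤ, ¬ (q : ℤ) ∣ z → Int.gcd z q = 1 := fun z hz => by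
    rcases (Nat.dvd_prime hq.out).mp (Int.natCast_dvd_natCast.mp (Int.gcd_dvd_right z q)) with h | h
    · exact h
    · exact absurd (h ▸ Int.gcd_dvd_left z q) hz
  haveI := FA.ReducedGroups.isElliptic_map_of_not_dvd W hgood
  set V := W.map (Int.castRingHom (ZMod q))
  haveI := Fact.mk hs
  refine ⟨hcop _ hgood, ?_⟩
  have hnd : ¬ s ∣ Nat.card V.toAffine.Point / s := fun h => by
    have h2 : s * s ∣ Nat.card V.toAffine.Point := by
      have := Nat.mul_dvd_mul_left s h
      rwa [Nat.mul_div_cancel' hsm] at this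
    have hle : (s : ℝ) * s ≤ Nat.card V.toAffine.Point := by
      exact_mod_cast Nat.le_of_dvd Nat.card_pos h2
    have hH := (abs_le.mp (FA.HasseBound.hasse V)).1
    have hs2 := Real.sq_sqrt (Nat.cast_nonneg q : (0 : ℝ) ≤ q)
    have hs4 := Real.sq_sqrt (Real.sqrt_nonneg (q : ℝ))
    have h4 := Real.sqrt_nonneg (Real.sqrt (q : ℝ))
    have h5 : Real.sqrt q + 1 < s := by nlinarith
    nlinarith [Real.sqrt_nonneg (q : ℝ)]
  obtain ⟨P, hP⟩ := exists_prime_addOrderOf_dvd_card' s hsm
  cases P with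
  | zero =>
    rw [show (Affine.Point.zero : V.toAffine.Point) = 0 from rfl, addOrderOf_zero] at hP
    exact absurd hP.symm hs.ne_one
  | some u v h =>
    obtain ⟨x, rfl⟩ := ZMod.intCast_surjective u
    obtain ⟨y, rfl⟩ := ZMod.intCast_surjective v
    refine ⟨x, y, (FA.ReducedGroups.equation_map_iff W x y).mp h.1,
      (FA.ReducedGroups.eval_ΨSq_map_iff W x _).mp ((FA.EC.nsmul_eq_zero_iff h _).mp
        (addOrderOf_dvd_iff_nsmul_eq_zero.mp (hP ▸ hsm))), hcop _ fun e => hnd ?_⟩
    refine hP ▸ addOrderOf_dvd_iff_nsmul_eq_zero.mpr ?_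
    exact (FA.EC.nsmul_eq_zero_iff h _).mpr ((FA.ReducedGroups.eval_ΨSq_map_iff W x _).mpr
      (by rwa [hP]))

end FA.Summary

end
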