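import Fermat.Agent.Frostman.Subring

/-!
# The theorem of Edgar and Miller

A subring of `ℝ` containing a compact set of positive Hausdorff dimension is `ℝ`; so a proper
`σ`-compact subring has dimension `0` (Edgar and Miller 2003, a problem of Erdős and Volkmann).
-/

set_option autoImplicit false

noncomputable section

open MeasureTheory

namespace FA.Frostman.Summary

/-- **The theorem of Edgar and Miller.** -/
theorem edgar_miller {R : Subring ℝ} {F : Set ℝ} (hF : IsCompact F) (hd : 0 < dimH F)
    (hFR : F ⊆ R) : R = ⊤ :=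
  subring_eq_top_of_dimH_pos hF hd hFR

/-- A proper `σ`-compact subring of `ℝ` has dimension `0`. -/
theorem edgar_miller_dimension {R : Subring ℝ} (hR : IsSigmaCompact (R : Set ℝ)) (hne : R ≠ ⊤) :
    dimH (R : Set ℝ) = 0 :=
  dimH_eq_zero_of_isSigmaCompact hR hne

/-- A compact subset of a proper subfield of `ℝ` has dimension `0`. -/
theorem edgar_miller_subfield {K : Subfield ℝ} (hK : K ≠ ⊤) {F : Set ℝ} (hF : IsCompact F)
    (hFK : F ⊆ K) : dimH F = 0 := by
  by_contra h
  refine hK (SetLike.ext fun x => ⟨fun _ => Subfield.mem_top x, fun _ => ?_⟩)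
  have := subring_eq_top_of_dimH_pos hF (pos_iff_ne_zero.2 h) (R := K.toSubring) hFK
  exact (this ▸ Subring.mem_top x : x ∈ K.toSubring)

end FA.Frostman.Summary

end
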