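import Fermat.Agent.BakerExplicit.PointSearch
import Mathlib.Computability.Halting

/-!
# The effective theorems as algorithms

* `bounds_primrec`: the bounds `sUnitBound`, `thueMahlerBound`, `sIntegralBound`,
  `shafarevichBound`, `abscissaBound` are primitive recursive functions.
* `integral_points_algorithm`: the function `integralPoints`, from five coefficients to a list, is
  computable, and for `Δ ≠ 0` its value is exactly the list of integral points, without repetition.
* `integral_point_decidable`: so "`Δ ≠ 0` and there is an integral point" is a computable predicate.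
* `sIntegral_points_algorithm`: `sIntegralPointList`, from the coefficients and `g`, is computable
  and lists exactly the rational points, as reduced fractions, with no prime above `2 ^ g` in the
  denominator of `x`.
* `shafarevich_algorithm`: `shafarevichModels` is computable; `shafarevichModels g` contains, up to
  isomorphism over `ℚ`, every elliptic curve with good reduction above `2 ^ g`.

The list functions are the defined ones: a search in a box of primitive recursive size.

Not claimed: practical running times; that the models listed for `g` all have good reduction.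
-/

set_option autoImplicit false

noncomputable section

namespace FA.BakerExplicit.Decidability

open WeierstrassCurve Algorithms

/-- **The bounds are primitive recursive.** -/
theorem bounds_primrec :
    Primrec (fun t : ℕ × ℕ × ℕ => EffectiveSUnits.sUnitBound t.1 t.2.1 t.2.2) ∧
    Primrec (fun t : ℕ × ℕ × ℕ => EffectiveThueMahler.thueMahlerBound t.1 t.2.1 t.2.2) ∧
    Primrec (fun t : ℕ × ℕ => SIntegralPoints.sIntegralBound t.1 t.2) ∧
    Primrec SIntegralPoints.shafarevichBound ∧
    Primrec (fun t : ℕ × ℕ × ℕ × ℕ =>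
      SIntegralSuperelliptic.abscissaBound t.1 t.2.1 t.2.2.1 t.2.2.2) :=
  have a1 := Primrec.fst
  ⟨PrimrecBounds.sUnitBound a1 (Primrec.fst.comp Primrec.snd) (Primrec.snd.comp Primrec.snd),
    PrimrecBounds.thueMahlerBound Primrec.fst (Primrec.fst.comp Primrec.snd)
      (Primrec.snd.comp Primrec.snd),
    PrimrecBounds.sIntegralBound Primrec.fst Primrec.snd,
    PrimrecBounds.shafarevichBound Primrec.id,
    PrimrecBounds.abscissaBound Primrec.fst (Primrec.fst.comp Primrec.snd)
      (Primrec.fst.comp (Primrec.snd.comp Primrec.snd))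
      (Primrec.snd.comp (Primrec.snd.comp Primrec.snd))⟩

/-- **An algorithm for the integral points of elliptic equations (Baker).** -/
theorem integral_points_algorithm :
    Computable integralPoints ∧ ∀ a₁ a₂ a₃ a₄ a₆ : ℤ,
      (⟨a₁, a₂, a₃, a₄, a₆⟩ : WeierstrassCurve ℤ).Δ ≠ 0 →
        (integralPoints (a₁, a₂, a₃, a₄, a₆)).Nodup ∧
        ∀ x y : ℤ, (x, y) ∈ integralPoints (a₁, a₂, a₃, a₄, a₆) ↔
          y ^ 2 + a₁ * x * y + a₃ * y = x ^ 3 + a₂ * x ^ 2 + a₄ * x + a₆ := by
  refine ⟨primrec_integralPoints.to_comp, fun a₁ a₂ a₃ a₄ a₆ h => ⟨?_, fun x y =>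
    mem_integralPoints (c := (a₁, a₂, a₃, a₄, a₆)) h (x, y)⟩⟩
  refine List.Nodup.filter _ (List.Nodup.map ?_ List.nodup_range)
  exact (Denumerable.eqv (ℤ × ℤ)).symm.injective

theorem discriminant_rec : IntRec fun c : Coeffs => (curve c).Δ := by
  have a1 := IntRec.of_primrec (u := fun c : Coeffs => c.1) Primrec.fst
  have h2 : Primrec fun c : Coeffs => c.2 := Primrec.snd
  have h3 := Primrec.snd.comp h2
  have h4 := Primrec.snd.comp h3
  have a2 := IntRec.of_primrec (Primrec.fst.comp h2)
  have a3 := IntRec.of_primrec (Primrec.fst.comp h3)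
  have a4 := IntRec.of_primrec (Primrec.fst.comp h4)
  have a6 := IntRec.of_primrec (Primrec.snd.comp h4)
  have c := fun z : ℤ => IntRec.const (α := Coeffs) z
  have b2 := a1.sq.add ((c 4).mul a2)
  have b4 := ((c 2).mul a4).add (a1.mul a3)
  have b6 := a3.sq.add ((c 4).mul a6)
  have b8 := ((((a1.sq.mul a6).add (((c 4).mul a2).mul a6)).add
    ((c (-1)).mul ((a1.mul a3).mul a4))).add (a2.mul a3.sq)).add ((c (-1)).mul a4.sq)
  obtain ⟨A, B, hA, hB, h⟩ := ((((c (-1)).mul (b2.sq.mul b8)).add
    ((c (-8)).mul b4.cube)).add ((c (-27)).mul b6.sq)).add ((((c 9).mul b2).mul b4).mul b6)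
  refine ⟨A, B, hA, hB, fun z => ?_⟩
  rw [← h z]
  simp only [WeierstrassCurve.Δ, WeierstrassCurve.b₂, WeierstrassCurve.b₄, WeierstrassCurve.b₆,
    WeierstrassCurve.b₈, curve]
  ring

/-- **The existence of an integral point is decidable.** -/
theorem integral_point_decidable :
    ComputablePred fun c : ℤ × ℤ × ℤ × ℤ × ℤ =>
      (⟨c.1, c.2.1, c.2.2.1, c.2.2.2.1, c.2.2.2.2⟩ : WeierstrassCurve ℤ).Δ ≠ 0 ∧
        ∃ x y : ℤ, y ^ 2 + c.1 * x * y + c.2.2.1 * y =
          x ^ 3 + c.2.1 * x ^ 2 + c.2.2.2.1 * x + c.2.2.2.2 := by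
  obtain ⟨inst, hp⟩ : PrimrecPred fun c : Coeffs =>
      ¬((curve c).Δ = 0) ∧ ¬((integralPoints c).length = 0) :=
    (discriminant_rec.eq_pred (IntRec.const 0)).not.and
      (Primrec.eq.comp (Primrec.list_length.comp primrec_integralPoints) (Primrec.const 0)).not
  refine ComputablePred.of_eq ⟨inst, hp.to_comp⟩ fun c => ?_
  refine and_congr_right fun hΔ => ?_
  rw [List.length_eq_zero_iff]
  constructor
  · intro h
    obtain ⟨p, hp⟩ := List.exists_mem_of_ne_nil _ h
    exact ⟨p.1, p.2, (mem_integralPoints hΔ p).1 hp⟩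
  · rintro ⟨x, y, h⟩
    exact List.ne_nil_of_mem ((mem_integralPoints hΔ (x, y)).2 h)

/-- **An algorithm for `S`-integral points.** -/
theorem sIntegral_points_algorithm :
    Computable sIntegralPointList ∧ ∀ (a₁ a₂ a₃ a₄ a₆ : ℤ) (g : ℕ),
      (⟨a₁, a₂, a₃, a₄, a₆⟩ : WeierstrassCurve ℤ).Δ ≠ 0 → ∀ p : (ℤ × ℕ) × (ℤ × ℕ),
        p ∈ sIntegralPointList ((a₁, a₂, a₃, a₄, a₆), g) ↔
          ∃ x y : ℚ, p = ((x.num, x.den), (y.num, y.den)) ∧
            (∀ q : ℕ, q.Prime → q ∣ x.den → q ≤ 2 ^ g) ∧
            y ^ 2 + a₁ * x * y + a₃ * y = x ^ 3 + a₂ * x ^ 2 + a₄ * x + a₆ :=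
  ⟨primrec_sIntegralPointList.to_comp, fun a₁ a₂ a₃ a₄ a₆ g h p =>
    mem_sIntegralPointList (t := ((a₁, a₂, a₃, a₄, a₆), g)) h p⟩

/-- **An algorithm for Shafarevich's theorem.** -/
theorem shafarevich_algorithm :
    Computable shafarevichModels ∧ ∀ (g : ℕ) (E : WeierstrassCurve ℚ) [E.IsElliptic],
      (∀ p : ℕ, ∀ [Fact p.Prime], 2 ^ g < p → ∃ C : VariableChange ℚ_[p],
        HasGoodReduction ℤ_[p] (C • E.map (algebraMap ℚ ℚ_[p]))) →
      ∃ p ∈ shafarevichModels g, ∃ C : VariableChange ℚ,
        C • E = ⟨0, 0, 0, (p.1 : ℚ), (p.2 : ℚ)⟩ :=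
  ⟨primrec_shafarevichModels.to_comp, fun _ E _ hE => exists_mem_shafarevichModels E hE⟩

end FA.BakerExplicit.Decidability

end
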