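import Fermat.Agent.EffectiveBinaryForms.Main

/-!
# The effective theorem of Birch and Merriman (Evertse–Győry)

Binary forms of degree `n` are the homogenisations of polynomials of degree at most `n`;
`formDiscr n f` is their discriminant, roots at infinity included. `formBound n e` is a closed
expression in `n` and `e`.

* `birch_merriman_effective`: a form with `0 < |D| ≤ 2 ^ e` is equivalent under `SL₂(ℤ)` to one
  with all coefficients at most `2 ^ formBound n e`.
* `birch_merriman_class_count`: so there are at most `(2 ^ (B + 1) + 1) ^ (n + 1)` classes,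
  `B = formBound n e`.
* `form_discriminant_invariant`: equivalent forms have the same discriminant, sign included.
* `form_discriminant_iff_bounded`: whether `D ≠ 0` is a discriminant of a form of degree `n` is
  decided by a finite search.
* `form_splitting_field_discr`: the field of all roots of a form, monic or not, has degree at most
  `n!` and discriminant at most `(n! |D|) ^ n!`.
* `form_cross_ratio_le`: all cross ratios of the linear factors are at most `2 ^ crossExp n e`.

Not claimed: `GL₂` over `S`-integers, good exponents, a bound for the degree.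
-/

set_option autoImplicit false

noncomputable section

namespace FA.EffectiveBinaryForms.Summary

open Polynomial Module NumberField BirchMerriman

/-- **The effective theorem of Birch and Merriman.** -/
theorem birch_merriman_effective {n e : ℕ} (hn : 2 ≤ n) {f : ℤ[X]} (h0 : formDiscr n f ≠ 0)
    (he : (formDiscr n f).natAbs ≤ 2 ^ e) :
    ∃ g : ℤ[X], g.natDegree ≤ n ∧ (∀ i, (g.coeff i).natAbs ≤ 2 ^ formBound n e) ∧
      ∃ a b c d : ℤ, a * d - b * c = 1 ∧ g.homogenize n = MvPolynomial.aeval
        ![MvPolynomial.C a * MvPolynomial.X 0 + MvPolynomial.C b * MvPolynomial.X 1,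
          MvPolynomial.C c * MvPolynomial.X 0 + MvPolynomial.C d * MvPolynomial.X 1]
        (f.homogenize n) :=
  let ⟨g, hg, he', hB⟩ := exists_small_equiv hn h0 he
  ⟨g, hg, hB, he'⟩

/-- **The number of classes.** -/
theorem birch_merriman_class_count {n e : ℕ} (hn : 2 ≤ n) :
    ∃ P : Finset ℤ[X], P.card ≤ (2 ^ (formBound n e + 1) + 1) ^ (n + 1) ∧
      ∀ f : ℤ[X], formDiscr n f ≠ 0 → (formDiscr n f).natAbs ≤ 2 ^ e →
        ∃ g ∈ P, SLEquiv n f g :=
  card_classes_le hn

/-- **The discriminant is an invariant.** -/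
theorem form_discriminant_invariant {n : ℕ} {f g : ℤ[X]} (hn : 2 ≤ n) (h0 : formDiscr n f ≠ 0)
    (hg : g.natDegree ≤ n) (hfg : SLEquiv n f g) : formDiscr n g = formDiscr n f :=
  formDiscr_eq_of_equiv hn h0 hg hfg

/-- **Discriminants of forms are decided by a finite search.** -/
theorem form_discriminant_iff_bounded {n e : ℕ} (hn : 2 ≤ n) {D : ℤ} (hD : D ≠ 0)
    (he : D.natAbs ≤ 2 ^ e) :
    (∃ f : ℤ[X], formDiscr n f = D) ↔ ∃ g : ℤ[X], g.natDegree ≤ n ∧
      (∀ i, (g.coeff i).natAbs ≤ 2 ^ formBound n e) ∧ formDiscr n g = D :=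
  discriminant_iff_bounded hn hD he

/-- **The field of all roots of a form.** -/
theorem form_splitting_field_discr {n : ℕ} {g : ℤ[X]} (hd : g.natDegree = n) (hn : 0 < n)
    (h0 : g.discr ≠ 0) :
    ∃ (M : Type) (_ : Field M) (_ : NumberField M) (l : Fin n → M × M),
      g.map (Int.castRingHom M) = ∏ i, (C (l i).1 * X + C (l i).2) ∧
      finrank ℚ M ≤ n.factorial ∧
      (discr M).natAbs ≤ (n.factorial * g.discr.natAbs) ^ n.factorial :=
  exists_splitting_field hd hn h0

/-- **The cross ratios are effectively bounded.** -/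
theorem form_cross_ratio_le {n : ℕ} {g : ℤ[X]} (hd : g.natDegree = n) (hn : 0 < n)
    (h0 : g.discr ≠ 0) {e : ℕ} (he : g.discr.natAbs ≤ 2 ^ e) :
    ∃ l : Fin n → ℂ × ℂ, Splitting g l ∧ ∀ i j k m : Fin n,
      i ≠ j → i ≠ k → i ≠ m → j ≠ k → j ≠ m → k ≠ m →
      ‖cross (l i) (l j)‖ * ‖cross (l k) (l m)‖ ≤
        (2 : ℝ) ^ crossExp n e * (‖cross (l i) (l k)‖ * ‖cross (l j) (l m)‖) :=
  exists_crossBounded_effective hd hn h0 he

end FA.EffectiveBinaryForms.Summary

end
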