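import Fermat.Agent.BakerExplicit.ShafarevichList
import Fermat.Agent.BakerExplicit.FormSearch
import Fermat.Agent.Root.SummaryEffectiveAlgorithms

/-!
# Classification and Diophantine equations by algorithms

* `good_reduction_decidable`: `GoodAbove` is a computable relation; for `g ≥ 2` it means that
  `y² = x³ + A x + B` is elliptic with good reduction at every `p > 2 ^ g`.
* `isomorphism_decidable`: `Isomorphic` is computable and means isomorphism over `ℚ`.
* `shafarevich_classification`: `shafarevichRepresentatives` is computable; for `g ≥ 2` it lists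
  exactly one model of each class of elliptic curves over `ℚ` with good reduction above `2 ^ g`.
* `shafarevich_count`: the number of classes is a computable function of `g`, positive for `g ≥ 2`.
* `thue_mahler_algorithm`, `thue_algorithm`, `superelliptic_algorithm`: from the list of
  coefficients, exactly the solutions; `thue_example` is the case `x³ - 2 y³ = m`.

A list `L` gives the form `∑ L i x ^ i y ^ (L.length - 1 - i)`. `ThreeFactors` and separability are
hypotheses on the input; the functions are total.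

Not claimed: practical running times; the test of good reduction at `p = 2, 3`, so the values of the
count at `g = 0, 1` are constants of the program and are not given.
-/

set_option autoImplicit false

noncomputable section

namespace FA.BakerExplicit.Decidability

open WeierstrassCurve Algorithms Polynomial

/-- **Good reduction is decidable.** -/
theorem good_reduction_decidable :
    ComputablePred (fun p : (ℤ × ℤ) × ℕ => GoodAbove p.1 p.2) ∧
      ∀ (g : ℕ), 2 ≤ g → ∀ A B : ℤ, GoodAbove (A, B) g ↔ 4 * A ^ 3 + 27 * B ^ 2 ≠ 0 ∧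
        ∀ p : ℕ, ∀ [Fact p.Prime], 2 ^ g < p → ∃ C : VariableChange ℚ_[p],
          HasGoodReduction ℤ_[p]
            (C • (⟨0, 0, 0, (A : ℚ), (B : ℚ)⟩ : WeierstrassCurve ℚ).map (algebraMap ℚ ℚ_[p])) := by
  obtain ⟨inst, h⟩ := goodAbove_rel
  exact ⟨⟨inst, h.to_comp⟩, fun g hg A B => goodAbove_iff hg (A, B)⟩

/-- **Isomorphism over `ℚ` is decidable.** -/
theorem isomorphism_decidable :
    ComputablePred (fun p : (ℤ × ℤ) × (ℤ × ℤ) => Isomorphic p.1 p.2) ∧
      ∀ A B A' B' : ℤ, 4 * A' ^ 3 + 27 * B' ^ 2 ≠ 0 →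
        (Isomorphic (A, B) (A', B') ↔ ∃ C : VariableChange ℚ,
          C • (⟨0, 0, 0, (A : ℚ), (B : ℚ)⟩ : WeierstrassCurve ℚ) =
            ⟨0, 0, 0, (A' : ℚ), (B' : ℚ)⟩) := by
  obtain ⟨inst, h⟩ := isomorphic_rel
  exact ⟨⟨inst, h.to_comp⟩, fun A B A' B' hs => isomorphic_iff (t := (A, B)) (s := (A', B')) hs⟩

/-- **Shafarevich's classification by an algorithm.** -/
theorem shafarevich_classification :
    Computable shafarevichRepresentatives ∧ ∀ g : ℕ, 2 ≤ g →
      (shafarevichRepresentatives g).Nodup ∧
      (∀ t ∈ shafarevichRepresentatives g,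
        (shortCurve t).IsElliptic ∧ GoodReductionAbove (shortCurve t) g) ∧
      ∀ (E : WeierstrassCurve ℚ) [E.IsElliptic],
        (∀ p : ℕ, ∀ [Fact p.Prime], 2 ^ g < p → ∃ C : VariableChange ℚ_[p],
          HasGoodReduction ℤ_[p] (C • E.map (algebraMap ℚ ℚ_[p]))) →
        ∃! t : ℤ × ℤ, t ∈ shafarevichRepresentatives g ∧
          ∃ C : VariableChange ℚ, C • E = ⟨0, 0, 0, (t.1 : ℚ), (t.2 : ℚ)⟩ :=
  ⟨primrec_shafarevichRepresentatives.to_comp, fun g hg => ⟨nodup_representatives g,
    fun _ ht => representative_good hg ht, fun E _ hE => existsUnique_representative hg E hE⟩⟩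

/-- **The number of classes is computable.** -/
theorem shafarevich_count :
    Computable shafarevichClassCount ∧ ∀ g : ℕ, 2 ≤ g →
      shafarevichClassCount g = (shafarevichRepresentatives g).length ∧
        0 < shafarevichClassCount g := by
  refine ⟨primrec_shafarevichClassCount.to_comp, fun g hg => ⟨classCount_eq_length hg, ?_⟩⟩
  have : (shortCurve (0, 1)).IsElliptic := isElliptic_shortCurve (by decide)
  have hgood : GoodReductionAbove (shortCurve (0, 1)) g := fun p _ hp => by
    have h4 : 4 ≤ 2 ^ g := (Nat.pow_le_pow_right two_pos hg).trans_eq' rfl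
    refine good_of_scaled (k := 0) (by omega) ⟨by simp, by simp, by simp, fun h => ?_⟩
    have h' : p ∣ 3 ^ 3 := by simpa [shortDisc] using h
    have := Nat.le_of_dvd (by norm_num) ((Fact.out : p.Prime).dvd_of_dvd_pow h')
    omega
  obtain ⟨t, ⟨ht, -⟩, -⟩ := existsUnique_representative hg (shortCurve (0, 1)) hgood
  rw [classCount_eq_length hg]
  exact List.length_pos_of_mem ht

/-- **An algorithm for Thue–Mahler equations.** -/
theorem thue_mahler_algorithm :
    Computable thueMahlerSolutions ∧ ∀ L : List ℤ, ThreeFactors L → ∀ (g : ℕ) (x y : ℤ),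
      (x, y) ∈ thueMahlerSolutions (L, g) ↔ IsCoprime x y ∧ formValue L (x, y) ≠ 0 ∧
        ∀ q : ℕ, q.Prime → q ∣ (formValue L (x, y)).natAbs → q ≤ 2 ^ g :=
  ⟨primrec_thueMahlerSolutions.to_comp, fun _ hL _ x y => mem_thueMahlerSolutions hL x y⟩

/-- **An algorithm for Thue equations.** -/
theorem thue_algorithm :
    Computable thueSolutions ∧ ∀ L : List ℤ, ThreeFactors L → ∀ m : ℤ, m ≠ 0 → ∀ x y : ℤ,
      (x, y) ∈ thueSolutions (L, m) ↔
        ∑ i ∈ Finset.range L.length, L.getD i 0 * x ^ i * y ^ (L.length - 1 - i) = m :=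
  ⟨primrec_thueSolutions.to_comp, fun L hL m hm x y => by
    rw [mem_thueSolutions hL hm, formValue, formPair_eq]⟩

/-- **An algorithm for `S`-integral points of superelliptic equations.** -/
theorem superelliptic_algorithm :
    Computable superellipticPoints ∧ ∀ (L : List ℤ) (b : ℤ) (m g : ℕ),
      3 ≤ (formPoly L).natDegree → ((formPoly L).map (Int.castRingHom ℚ)).Separable →
      2 ≤ m → b ≠ 0 → ∀ p : (ℤ × ℕ) × (ℤ × ℕ),
        p ∈ superellipticPoints (L, b, m, g) ↔
          ∃ x y : ℚ, p = ((x.num, x.den), (y.num, y.den)) ∧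
            (∀ q : ℕ, q.Prime → q ∣ x.den → q ≤ 2 ^ g) ∧
            (b : ℚ) * y ^ m = aeval x (formPoly L) :=
  ⟨primrec_superellipticPoints.to_comp, fun _ _ _ _ h3 hsep hm hb p =>
    mem_superellipticPoints h3 hsep hm hb p⟩

/-- **The equation `x³ - 2 y³ = m`.** -/
theorem thue_example (m : ℤ) (hm : m ≠ 0) (x y : ℤ) :
    (x, y) ∈ thueSolutions ([-2, 0, 0, 1], m) ↔ x ^ 3 - 2 * y ^ 3 = m := by
  have e : formPoly [-2, 0, 0, 1] = X ^ 3 - C 2 := by
    simp [formPoly]; ring
  have hL : ThreeFactors [-2, 0, 0, 1] := by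
    refine threeFactors_of_separable ?_ ?_
    · rw [e, Polynomial.map_sub, Polynomial.map_pow, map_X, map_C]
      exact separable_X_pow_sub_C _ (by norm_num) (by norm_num)
    · rw [e, natDegree_X_pow_sub_C]
      exact Nat.le_add_right _ _
  rw [mem_thueSolutions hL hm]
  simp [formValue, formPair]
  ring_nf

end FA.BakerExplicit.Decidability

end
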