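import Fermat.Agent.EffectiveCompleteness.Models
import Fermat.Agent.Root.SummaryArithmeticTruth

/-!
# Gödel's completeness theorem in effective form, and incompleteness

For a language with finitely many symbols, the consequences of a theory with recursively enumerable
axioms are recursively enumerable, in particular the valid sentences are, and such a theory is
decidable if it is complete. So no such theory true in `ℕ` decides every sentence of arithmetic.

Consequence is Mathlib's `⊨ᵇ` and codes are the standard encodings of its lists of symbols. The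
certificate is an unsatisfiable finite set of propositional clauses. Not claimed: a deductive
calculus, Gödel's second theorem.
-/

set_option autoImplicit false

namespace FA.EffectiveCompleteness

open FirstOrder Language

variable {L : Language.{0, 0}} [Encodable (Σ i, L.Functions i)] [Encodable (Σ i, L.Relations i)]

/-- The code of a sentence: Mathlib's list of symbols, with the standard encoding. -/
def code (φ : L.Sentence) : ℕ :=
  Encodable.encode (BoundedFormula.listEncode φ)

theorem encode_formWord (φ : L.Sentence) : Encodable.encode (formWord φ) = code φ :=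
  encode_map_encode _

theorem code_injective : Function.Injective (code (L := L)) := fun φ ψ h => by
  rw [← encode_formWord, ← encode_formWord] at h
  exact formWord_injective (Encodable.encode_injective h)

theorem ofNat_code (φ : L.Sentence) : Denumerable.ofNat (List ℕ) (code φ) = formWord φ := by
  rw [← encode_formWord, Denumerable.ofNat_encode]

theorem rePred_exists_nat {c : ℕ → ℕ → Bool} (hc : Computable₂ c) :
    REPred fun k => ∃ N, c k N = true :=
  (Partrec.rfind hc.partrec₂).dom_re.of_eq fun k => by simp [Nat.rfind_dom]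

variable [Finite (Σ i, L.Functions i)] [Finite (Σ i, L.Relations i)]

variable (L) in
/-- The decision whether a number is the code of a sentence. -/
noncomputable def sentenceB (k : ℕ) : Bool :=
  (formList L (k + 1)).any fun p => decide (p = (0, Denumerable.ofNat (List ℕ) k))

theorem sentenceB_iff (k : ℕ) : sentenceB L k = true ↔ ∃ φ : L.Sentence, k = code φ := by
  simp only [sentenceB, List.any_eq_true, decide_eq_true_eq, exists_eq_right]
  refine ⟨fun h => ?_, ?_⟩
  · obtain ⟨φ, hφ⟩ : ∃ φ : L.Sentence, Denumerable.ofNat (List ℕ) k = formWord φ :=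
      formList_sound h
    exact ⟨φ, by rw [← encode_formWord, ← hφ, Denumerable.encode_ofNat]⟩
  · rintro ⟨φ, rfl⟩
    rw [ofNat_code]
    exact formList_complete φ (by rw [encode_formWord]; omega)

theorem computable_sentenceB : Computable (sentenceB L) :=
  (primrec_any (primrec_formList.comp Primrec.succ) (Primrec.eq.comp Primrec.snd (Primrec.pair
    (Primrec.const 0) ((Primrec.ofNat (List ℕ)).comp Primrec.fst))).decide.to₂).to_comp

omit [Finite (Σ i, L.Functions i)] [Finite (Σ i, L.Relations i)] in
/-- Primitive recursive stages of the axioms of a recursively enumerable theory. -/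
theorem exists_stages {T : L.Theory} (hT : REPred fun k => ∃ ψ ∈ T, k = code ψ) :
    ∃ ax : ℕ → List (List ℕ), Primrec ax ∧
      (∀ N, ∀ w ∈ ax N, ∃ ψ ∈ T, formWord ψ = w) ∧ ∀ ψ ∈ T, ∃ N, formWord ψ ∈ ax N := by
  obtain ⟨c, hc⟩ := Nat.Partrec.Code.exists_code.1 (Partrec.nat_iff.1 (hT.map
    ((Computable.const 0).to₂ : Computable₂ fun (_ : ℕ) (_ : Unit) => 0)))
  have hdom : ∀ k, (c.eval k).Dom ↔ ∃ ψ ∈ T, k = code ψ := fun k => by
    rw [hc]
    exact ⟨fun h => h.1, fun h => ⟨h, trivial⟩⟩
  refine ⟨fun N => (List.range N).filterMap fun k =>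
    (Nat.Partrec.Code.evaln N c k).map fun _ => Denumerable.ofNat (List ℕ) k, ?_, ?_, ?_⟩
  · exact Primrec.listFilterMap Primrec.list_range (Primrec.option_map
      (Nat.Partrec.Code.primrec_evaln.comp
        (Primrec.pair (Primrec.pair Primrec.fst (Primrec.const c)) Primrec.snd))
      ((Primrec.ofNat (List ℕ)).comp (Primrec.snd.comp Primrec.fst)).to₂).to₂
  · intro N w hw
    obtain ⟨k, -, hk⟩ := List.mem_filterMap.1 hw
    obtain ⟨v, hv, rfl⟩ := Option.map_eq_some_iff.1 hk
    obtain ⟨ψ, hψ, rfl⟩ := (hdom k).1 (Part.dom_iff_mem.2 ⟨v, Nat.Partrec.Code.evaln_sound hv⟩)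
    exact ⟨ψ, hψ, (ofNat_code ψ).symm⟩
  · intro ψ hψ
    obtain ⟨v, hv⟩ := Part.dom_iff_mem.1 ((hdom (code ψ)).2 ⟨ψ, hψ, rfl⟩)
    obtain ⟨N, hN⟩ := Nat.Partrec.Code.evaln_complete.1 hv
    refine ⟨N + code ψ + 1, List.mem_filterMap.2 ⟨code ψ, List.mem_range.2 (by omega), ?_⟩⟩
    rw [Option.mem_def.1 (Nat.Partrec.Code.evaln_mono (by omega) hN), Option.map_some, ofNat_code]

/-- The check of a stage is primitive recursive. -/
theorem computable_check {ax : ℕ → List (List ℕ)} (hax : Primrec ax) {word : ℕ → List ℕ}
    (hword : Primrec word) : Computable₂ fun k N =>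
      !satB (theoryClauses L ax N ++ [ [(formAtom (word k) [], false)] ]) :=
  (Primrec.not.comp (primrec_satB.comp (Primrec.list_append.comp
    ((primrec_theoryClauses hax).comp Primrec.snd)
    (Primrec.list_cons.comp (Primrec.list_cons.comp (Primrec.pair
      (primrec_formAtom.comp (hword.comp Primrec.fst) (Primrec.const []))
      (Primrec.const false)) (Primrec.const [])) (Primrec.const []))))).to_comp.to₂

/-- **Gödel's completeness theorem, effective form.** The consequences of a theory with recursively
enumerable axioms are recursively enumerable. -/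
theorem consequences_rePred {T : L.Theory} (hT : REPred fun k => ∃ ψ ∈ T, k = code ψ) :
    REPred fun k => ∃ φ : L.Sentence, k = code φ ∧ T ⊨ᵇ φ := by
  obtain ⟨ax, hax, hsound, hcomplete⟩ := exists_stages hT
  refine (rePred_exists_nat (c := fun k N => sentenceB L k && !satB (theoryClauses L ax N ++
    [ [(formAtom (Denumerable.ofNat (List ℕ) k) [], false)] ]))
    (Primrec.and.to_comp.comp₂ (computable_sentenceB.comp Computable.fst).to₂
      (computable_check hax (Primrec.ofNat (List ℕ))))).of_eq fun k => ?_
  simp only [Bool.and_eq_true, Bool.not_eq_true']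
  refine ⟨fun ⟨N, hk, hN⟩ => ?_, ?_⟩
  · obtain ⟨φ, rfl⟩ := (sentenceB_iff k).1 hk
    rw [ofNat_code] at hN
    exact ⟨φ, rfl, (models_iff_exists_unsat T hsound hcomplete φ).2 ⟨N, hN⟩⟩
  · rintro ⟨φ, rfl, h⟩
    obtain ⟨N, hN⟩ := (models_iff_exists_unsat T hsound hcomplete φ).1 h
    exact ⟨N, (sentenceB_iff _).2 ⟨φ, rfl⟩, by rwa [ofNat_code]⟩

/-- **The valid sentences are recursively enumerable.** -/
theorem validity_rePred :
    REPred fun k => ∃ φ : L.Sentence, k = code φ ∧ (∅ : L.Theory) ⊨ᵇ φ :=
  consequences_rePred ((ComputablePred.to_re (ComputablePred.computable_iff.2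
    ⟨fun _ : ℕ => false, Computable.const false, rfl⟩)).of_eq fun k => by simp)

/-- **A complete theory with recursively enumerable axioms is decidable.** -/
theorem complete_theory_decidable {T : L.Theory} (hT : REPred fun k => ∃ ψ ∈ T, k = code ψ)
    (hc : T.IsComplete) : ComputablePred fun k => ∃ φ : L.Sentence, k = code φ ∧ T ⊨ᵇ φ := by
  classical
  refine ComputablePred.computable_iff_re_compl_re'.2 ⟨consequences_rePred hT, ?_⟩
  obtain ⟨ax, hax, hsound, hcomplete⟩ := exists_stages hT
  refine (rePred_exists_nat (c := fun k N => !sentenceB L k || !satB (theoryClauses L ax N ++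
    [ [(formAtom (natSym 0 :: (Denumerable.ofNat (List ℕ) k ++ [natSym 2])) [], false)] ]))
    (Primrec.or.to_comp.comp₂
      ((Primrec.not.to_comp.comp (computable_sentenceB.comp Computable.fst)).to₂)
      (computable_check hax (Primrec.list_cons.comp (Primrec.const (natSym 0))
        (Primrec.list_append.comp (Primrec.ofNat (List ℕ))
          (Primrec.const [natSym 2])))))).of_eq fun k => ?_
  simp only [Bool.or_eq_true, Bool.not_eq_true']
  have hneg : ∀ φ : L.Sentence, natSym 0 :: (formWord φ ++ [natSym 2]) = formWord φ.not := fun φ =>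
    ((formWord_imp φ ⊥).trans (congrArg (fun w => natSym 0 :: (formWord φ ++ w))
      formWord_falsum)).symm
  constructor
  · rintro ⟨N, hk | hN⟩ ⟨φ, rfl, h⟩
    · simp [(sentenceB_iff (code φ)).2 ⟨φ, rfl⟩] at hk
    · rw [ofNat_code, hneg] at hN
      exact (hc.models_not_iff φ).1 ((models_iff_exists_unsat T hsound hcomplete _).2 ⟨N, hN⟩) h
  · intro h
    by_cases hk : sentenceB L k = true
    · obtain ⟨φ, rfl⟩ := (sentenceB_iff k).1 hk
      obtain ⟨N, hN⟩ := (models_iff_exists_unsat T hsound hcomplete _).1
        ((hc.models_not_iff φ).2 fun h' => h ⟨φ, rfl, h'⟩)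
      exact ⟨N, .inr (by rwa [ofNat_code, hneg])⟩
    · exact ⟨0, .inl (eq_false_of_ne_true hk)⟩

section Arithmetic

open ArithmeticTruth

instance instFiniteArithFunctions : Finite (Σ i, arithLanguage.Functions i) :=
  Finite.of_surjective (Sum.elim (fun i : Fin 2 => (⟨0, i⟩ : Σ i, arithLanguage.Functions i))
    fun i : Fin 2 => ⟨2, i⟩) fun
    | ⟨0, i⟩ => ⟨.inl i, rfl⟩
    | ⟨1, i⟩ => Empty.elim i
    | ⟨2, i⟩ => ⟨.inr i, rfl⟩
    | ⟨_ + 3, i⟩ => Empty.elim i

instance instFiniteArithRelations : Finite (Σ i, arithLanguage.Relations i) :=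
  have : IsEmpty (Σ i, arithLanguage.Relations i) := ⟨fun x => Empty.elim x.2⟩
  inferInstance

/-- **Gödel's first incompleteness theorem.** A theory of arithmetic with recursively enumerable
axioms, all true in `ℕ`, has a true sentence which it neither proves nor refutes. -/
theorem godel_first_incompleteness (T : arithLanguage.Theory) [ℕ ⊨ T]
    (hT : REPred fun k => ∃ ψ ∈ T, k = code ψ) :
    ∃ φ : arithLanguage.Sentence, ℕ ⊨ φ ∧ ¬T ⊨ᵇ φ ∧ ¬T ⊨ᵇ φ.not := by
  obtain ⟨-, β, hβ, a, b, h⟩ := godel_incompleteness
  have hsub : {k | ∃ φ : arithLanguage.Sentence, k = code φ ∧ T ⊨ᵇ φ} ⊆ truth := by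
    rintro k ⟨φ, rfl, hφ⟩
    exact ⟨φ, rfl, hφ.realize_sentence ℕ⟩
  obtain ⟨n, htrue, hmiss⟩ := h _ (consequences_rePred hT) hsub
  exact ⟨_, htrue, fun hp => hmiss ⟨_, rfl, hp⟩,
    fun hn => (Sentence.realize_not (M := ℕ)).1 (hn.realize_sentence ℕ) htrue⟩

end Arithmetic

end FA.EffectiveCompleteness
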