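import Fermat.Agent.EffectiveIsogeny.Bound

/-!
# Serre's effective isogeny theorem, on the Riemann hypothesis

On the Riemann hypothesis for all number fields, with an absolute constant `B` and
`L = 1 + log |Δ Δ'|` for two integral equations `W`, `W'` of elliptic curves over `ℚ` (Serre 1981,
théorème 21, up to powers of `log L`):

* `effective_isogeny_of_GRH`: if `a_p ≠ a'_p` at some prime of good reduction for both, then so at
  one with `p ≤ B L ^ 2 (1 + log L) ^ 28`;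
* `effective_isogeny_criterion_of_GRH`: so equal traces at the good primes up to that bound give
  equal traces at all of them.

No hypothesis on the images of Galois is needed. The hypothesis is an argument and is never assumed.
-/

set_option autoImplicit false

noncomputable section

open NumberField WeierstrassCurve FA.EffIsogeny

namespace FA.Summary

/-- **Serre's effective isogeny theorem**, on the Riemann hypothesis. -/
theorem effective_isogeny_of_GRH : ∃ B : ℝ, ∀ W W' : WeierstrassCurve ℤ,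
    W.Δ ≠ 0 → W'.Δ ≠ 0 →
    (∀ (K : Type) [Field K] [NumberField K] (E : ℂ → ℂ), Differentiable ℂ E →
      (∀ s : ℂ, 1 < s.re → E s = (s - 1) * dedekindZeta K s) →
      ∀ z : ℂ, E z = 0 → 0 < z.re → z.re < 1 → z.re = 1 / 2) →
    (∃ p : ℕ, p.Prime ∧ ¬ (p : ℤ) ∣ W.Δ ∧ ¬ (p : ℤ) ∣ W'.Δ ∧ W.apOfModel p ≠ W'.apOfModel p) →
    ∃ p : ℕ, p.Prime ∧ ¬ (p : ℤ) ∣ W.Δ ∧ ¬ (p : ℤ) ∣ W'.Δ ∧ W.apOfModel p ≠ W'.apOfModel p ∧
      let L := 1 + Real.log ((W.Δ * W'.Δ).natAbs : ℝ)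
      (p : ℝ) ≤ B * (L ^ 2 * (1 + Real.log L) ^ 28) :=
  exists_differ_le

/-- **The criterion**: traces equal up to the bound are equal everywhere. -/
theorem effective_isogeny_criterion_of_GRH : ∃ B : ℝ, ∀ W W' : WeierstrassCurve ℤ,
    W.Δ ≠ 0 → W'.Δ ≠ 0 →
    (∀ (K : Type) [Field K] [NumberField K] (E : ℂ → ℂ), Differentiable ℂ E →
      (∀ s : ℂ, 1 < s.re → E s = (s - 1) * dedekindZeta K s) →
      ∀ z : ℂ, E z = 0 → 0 < z.re → z.re < 1 → z.re = 1 / 2) →
    let L := 1 + Real.log ((W.Δ * W'.Δ).natAbs : ℝ)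
    (∀ p : ℕ, p.Prime → ¬ (p : ℤ) ∣ W.Δ → ¬ (p : ℤ) ∣ W'.Δ →
      (p : ℝ) ≤ B * (L ^ 2 * (1 + Real.log L) ^ 28) → W.apOfModel p = W'.apOfModel p) →
    ∀ p : ℕ, p.Prime → ¬ (p : ℤ) ∣ W.Δ → ¬ (p : ℤ) ∣ W'.Δ →
      W.apOfModel p = W'.apOfModel p := by
  obtain ⟨B, hB⟩ := effective_isogeny_of_GRH
  refine ⟨B, fun W W' hΔ hΔ' hGRH => ?_⟩
  intro L h p hp h1 h2
  by_contra hne
  obtain ⟨q, hq, g1, g2, gne, hle⟩ := hB W W' hΔ hΔ' hGRH ⟨p, hp, h1, h2, hne⟩
  exact gne (h q hq g1 g2 hle)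

end FA.Summary

end
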