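import Fermat.Agent.EffectiveChebotarev.LeastPrime
import Fermat.Agent.Root.SummaryFrobenius

/-!
# The least prime in a Frobenius class, effectively

For `L` Galois over `ℚ`, `S = 1 + log |d_L| + 2 n_L` and an absolute constant `A`:

* `effective_chebotarev_lower_bound`: for every subfield `K` and every set `C` of automorphisms of
  `L/K` stable under conjugation, if `log x ≥ A n_L S ^ 2` then at least
  `|C| / [L : K] exp (- 9 S) x / (2 log x)` primes of `K` of norm at most `x` do not contain `d_L`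
  and have all their Frobenius elements in `C`;
* `least_prime_frobenius_class`: every nonempty such `C` for `L/ℚ` contains a Frobenius element at an
  unramified prime `p ≤ exp (A n_L S ^ 2)`.

Nothing ineffective enters. The proof does not use S01.
-/

set_option autoImplicit false
set_option linter.style.haveILetI false

noncomputable section

universe u v

open NumberField IsDedekindDomain Module
open scoped Real Classical Pointwise

namespace FA.Summary

open FA.EffCheb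

/-- **An effective lower bound in Chebotarev's theorem.** -/
theorem effective_chebotarev_lower_bound : ∃ A : ℝ, 0 < A ∧
    ∀ (K : Type u) (L : Type v) [Field K] [NumberField K] [Field L] [NumberField L] [Algebra K L]
      [IsGalois K L] [IsGalois ℚ L] (C : Set (L ≃ₐ[K] L)), (∀ g ∈ C, ∀ x, x * g * x⁻¹ ∈ C) →
      ∀ x : ℝ, 0 < x →
        let S := 1 + Real.log ((discr L).natAbs : ℝ) + 2 * finrank ℚ L
        A * finrank ℚ L * S ^ 2 ≤ Real.log x →
          (Nat.card C : ℝ) / Nat.card (L ≃ₐ[K] L) * (Real.exp (-(9 * S)) * x / (2 * Real.log x)) ≤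
            Nat.card {v : HeightOneSpectrum (𝓞 K) // (Ideal.absNorm v.asIdeal : ℝ) ≤ x ∧
              ((discr L : ℤ) : 𝓞 K) ∉ v.asIdeal ∧ ∀ Q : Ideal (𝓞 L), Q.IsMaximal →
                Q.under (𝓞 K) = v.asIdeal → ∀ τ, IsArithFrobAt (𝓞 K) τ Q → τ ∈ C} := by
  obtain ⟨A, hA, h⟩ := exists_good_count_ge.{u, v}
  refine ⟨A, by linarith, fun K L _ _ _ _ _ _ _ C hC x hx => ?_⟩
  intro S hr
  have h1 := h C hC x hx hr
  have hl : 0 < Real.log x := by
    refine lt_of_lt_of_le ?_ hr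
    have hn : 0 < finrank ℚ L := finrank_pos
    have hS : 0 < S := lt_of_lt_of_le three_pos (FA.DedekindPIT.three_le_sizeL L)
    positivity
  rw [FA.ChebError.share] at h1
  rw [show Real.exp (-(9 * S)) * x / (2 * Real.log x) = Real.exp (-(9 * S)) * x / 2 / Real.log x by
    ring, ← mul_div_assoc, div_le_iff₀ hl]
  refine h1.trans (mul_le_mul_of_nonneg_right ?_ hl.le)
  rw [← FA.NaturalChebotarev.natCard_le_eq_countIn (goodFrobSet C) hx.le, Nat.cast_le]
  haveI : Finite {v : HeightOneSpectrum (𝓞 K) // (Ideal.absNorm v.asIdeal : ℝ) ≤ x ∧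
      ((discr L : ℤ) : 𝓞 K) ∉ v.asIdeal ∧ ∀ Q : Ideal (𝓞 L), Q.IsMaximal →
        Q.under (𝓞 K) = v.asIdeal → ∀ τ, IsArithFrobAt (𝓞 K) τ Q → τ ∈ C} :=
    ((FA.Hecke.primesLE K ⌊x⌋₊).finite_toSet.subset fun v hv =>
      FA.Hecke.mem_primesLE.2 (Nat.le_floor hv.1)).to_subtype
  exact Nat.card_le_card_of_injective
    (Subtype.map id fun v hv => ⟨hv.1, hv.2.2, goodFrobSet_subset_strict hC hv.2⟩)
    (Subtype.map_injective _ Function.injective_id)

/-- **The least prime in a Frobenius class.** -/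
theorem least_prime_frobenius_class : ∃ A : ℝ, 0 < A ∧
    ∀ (L : Type v) [Field L] [NumberField L] [IsGalois ℚ L] (C : Set (L ≃ₐ[ℚ] L)),
      (∀ g ∈ C, ∀ x, x * g * x⁻¹ ∈ C) → C.Nonempty →
      ∃ p : ℕ, p.Prime ∧ ¬ (p : ℤ) ∣ discr L ∧
        (p : ℝ) ≤ Real.exp (A * finrank ℚ L *
          (1 + Real.log ((discr L).natAbs : ℝ) + 2 * finrank ℚ L) ^ 2) ∧
        ∃ Q : Ideal (𝓞 L), Q.IsMaximal ∧ (p : 𝓞 L) ∈ Q ∧ ∃ τ ∈ C, IsArithFrobAt ℤ τ Q := by
  obtain ⟨A, hA, h⟩ := exists_good_prime_le.{0, v}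
  refine ⟨A, hA, fun L _ _ _ C hC hne => ?_⟩
  obtain ⟨v, ⟨⟨Q, hQ, hQv, τ, hτC, hτ⟩, hd⟩, hle⟩ := h C hC hne
  obtain ⟨q, hq, hqv⟩ := FA.Ext.exists_rat_prime_mem v
  have hN : Ideal.absNorm v.asIdeal = q := by
    have h1 : Ideal.absNorm v.asIdeal ∣ q := by
      have := map_dvd Ideal.absNorm (Ideal.dvd_span_singleton.2 hqv)
      rwa [Ideal.absNorm_span_singleton, show Algebra.norm ℤ ((q : ℕ) : 𝓞 ℚ) = (q : ℤ) by
        rw [← map_natCast (algebraMap ℤ (𝓞 ℚ)), Algebra.norm_algebraMap,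
          NumberField.RingOfIntegers.rank, Module.finrank_self, pow_one],
        Int.natAbs_natCast] at this
    rcases (Nat.dvd_prime hq).1 h1 with h2 | h2
    · have := FA.Ext.two_le_absNorm v
      omega
    · exact h2
  have hqQ : (q : 𝓞 L) ∈ Q := by
    rw [← hQv, Ideal.mem_comap, map_natCast] at hqv
    exact hqv
  refine ⟨q, hq, fun hdvd => hd ?_, hN ▸ hle, Q, hQ, hqQ, τ, hτC, fun y => ?_⟩
  · obtain ⟨c, hc⟩ := hdvd
    show ((discr L : ℤ) : 𝓞 ℚ) ∈ v.asIdeal
    rw [hc, Int.cast_mul, Int.cast_natCast]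
    exact v.asIdeal.mul_mem_right _ hqv
  · have h1 : Nat.card (ℤ ⧸ Q.under ℤ) = Nat.card (𝓞 ℚ ⧸ Q.under (𝓞 ℚ)) := by
      rw [FA.FrobeniusDensity.card_quotient_under hq hQ.ne_top hqQ, hQv, ← hN,
        Ideal.absNorm_apply, Submodule.cardQuot_apply]
    rw [h1]
    exact hτ y

end FA.Summary

end
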