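import Fermat.Agent.EffectiveTorusCurves.Bridge

/-!
# Lang's theorem for plane curves in the torus, effectively

`f ∈ ℤ[X, Y]` has degree at most `n` and coefficients at most `2 ^ k`; `SmoothRat g x`: `x ≠ 0` is
rational and no prime of its numerator or denominator is above `2 ^ g`; `Exceptional f x y`: a
translate of a one-dimensional subtorus through `(x, y)` lies on `f = 0`.

* `curve_points_effective` (Bombieri–Gubler; Bérczes, Evertse and Győry over number fields): a
  point of `f = 0` with both coordinates `SmoothRat g` is exceptional or has all four numerators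
  and denominators at most `2 ^ curveBound n k g`, a closed expression.
* `curve_points_finite`: if there is no translate on the curve, these points lie in a known box.
* `curve_points_infinite_iff`: for `g ≥ 1` they are infinitely many exactly when the box contains
  an exceptional one.
* `coordinates_large_prime`: so on a curve without translates a point outside the box has a prime
  above `2 ^ g` in a coordinate.
* `line_no_translate`, `hyperbola_exceptional`: both cases occur.

The proof is by the `p`-adic theorem of Baker at the primes up to `2 ^ g`, without Puiseux series.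

Not claimed: number fields other than `ℚ`, groups of finite rank not finitely generated, good
constants.
-/

set_option autoImplicit false

noncomputable section

namespace FA.EffectiveTorusCurves.Summary

open MvPolynomial BakerExplicit.EffectiveSUnits

/-- A non-zero rational composed of primes up to `2 ^ g`. -/
def SmoothRat (g : ℕ) (x : ℚ) : Prop := x ≠ 0 ∧ Smooth g x.num.natAbs ∧ Smooth g x.den

/-- The four numbers are at most `2 ^ B`. -/
def InBox (B : ℕ) (x y : ℚ) : Prop :=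
  x.num.natAbs ≤ 2 ^ B ∧ x.den ≤ 2 ^ B ∧ y.num.natAbs ≤ 2 ^ B ∧ y.den ≤ 2 ^ B

/-- A translate of a one-dimensional subtorus through the point lies on the curve. -/
def Exceptional (f : MvPolynomial (Fin 2) ℤ) (x y : ℚ) : Prop :=
  ∃ a b : ℤ, IsCoprime a b ∧ ∀ s : ℚ, s ≠ 0 → aeval ![x * s ^ b, y * s ^ (-a)] f = 0

theorem exceptional_iff {f : MvPolynomial (Fin 2) ℤ} {x y : ℚ} :
    Exceptional f x y ↔ OnTranslate (exponentPairs f) (pairCoeff f) x y := by
  simp only [Exceptional, OnTranslate, aeval_eq_curveValue]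

variable {f : MvPolynomial (Fin 2) ℤ} {n k g : ℕ}

/-- The dichotomy, with the representative of the translate. -/
theorem curve_points_representative (hn : f.totalDegree ≤ n)
    (hk : ∀ m, (f.coeff m).natAbs ≤ 2 ^ k) {x y : ℚ} (hx : SmoothRat g x) (hy : SmoothRat g y)
    (hf : aeval ![x, y] f = 0) :
    InBox (curveBound n k g) x y ∨ Exceptional f x y ∧ ∃ x₀ y₀, SmoothRat g x₀ ∧
      SmoothRat g y₀ ∧ InBox (curveBound n k g) x₀ y₀ ∧ Exceptional f x₀ y₀ := by
  obtain ⟨E, hE⟩ := exists_sbox hx.1 hx.2.1 hx.2.2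
  obtain ⟨E', hE'⟩ := exists_sbox hy.1 hy.2.1 hy.2.2
  rw [aeval_eq_curveValue] at hf
  rcases points_dichotomy (sized_pairs hn hk) (hE.mono (Nat.le_add_right E E'))
    (hE'.mono (Nat.le_add_left E' E)) hf with ⟨h1, h2⟩ | ⟨h, x₀, y₀, h1, h2, h3⟩
  · exact Or.inl ⟨h1.height_le.2.2.1, h1.height_le.2.2.2, h2.height_le.2.2.1, h2.height_le.2.2.2⟩
  · exact Or.inr ⟨exceptional_iff.2 h, x₀, y₀, ⟨h1.1, h1.height_le.1, h1.height_le.2.1⟩,
      ⟨h2.1, h2.height_le.1, h2.height_le.2.1⟩,
      ⟨h1.height_le.2.2.1, h1.height_le.2.2.2, h2.height_le.2.2.1, h2.height_le.2.2.2⟩,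
      exceptional_iff.2 h3⟩

/-- **The effective theorem of Lang for curves in the plane torus.** -/
theorem curve_points_effective (hn : f.totalDegree ≤ n)
    (hk : ∀ m, (f.coeff m).natAbs ≤ 2 ^ k) {x y : ℚ} (hx : SmoothRat g x) (hy : SmoothRat g y)
    (hf : aeval ![x, y] f = 0) :
    InBox (curveBound n k g) x y ∨ Exceptional f x y :=
  (curve_points_representative hn hk hx hy hf).imp_right And.left

/-- Boxes are finite. -/
theorem box_finite (B : ℕ) : {z : ℚ × ℚ | InBox B z.1 z.2}.Finite := by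
  have h1 : {z : ℚ | z.num.natAbs ≤ 2 ^ B ∧ z.den ≤ 2 ^ B}.Finite := by
    refine (((Set.finite_Icc (-((2 : ℤ) ^ B)) (2 ^ B)).prod (Set.finite_Iic (2 ^ B))).preimage
      (f := fun z : ℚ => (z.num, z.den)) fun z _ z' _ h => ?_).subset fun z hz => ?_
    · simp only [Prod.mk.injEq] at h
      exact Rat.ext h.1 h.2
    · refine ⟨?_, hz.2⟩
      have h := Int.ofNat_le.2 hz.1
      push_cast at h
      exact abs_le.1 h
  exact (h1.prod h1).subset fun z hz => ⟨⟨hz.1, hz.2.1⟩, hz.2.2.1, hz.2.2.2⟩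

/-- **Finitely many points, in a known box**, if no translate lies on the curve. -/
theorem curve_points_finite (hn : f.totalDegree ≤ n) (hk : ∀ m, (f.coeff m).natAbs ≤ 2 ^ k)
    (hno : ∀ x y : ℚ, x ≠ 0 → y ≠ 0 → ¬ Exceptional f x y) :
    {z : ℚ × ℚ | SmoothRat g z.1 ∧ SmoothRat g z.2 ∧ aeval ![z.1, z.2] f = 0} ⊆
      {z | InBox (curveBound n k g) z.1 z.2} ∧
    {z : ℚ × ℚ | SmoothRat g z.1 ∧ SmoothRat g z.2 ∧ aeval ![z.1, z.2] f = 0}.Finite := by
  have hsub : {z : ℚ × ℚ | SmoothRat g z.1 ∧ SmoothRat g z.2 ∧ aeval ![z.1, z.2] f = 0} ⊆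
      {z | InBox (curveBound n k g) z.1 z.2} := fun z hz =>
    (curve_points_effective hn hk hz.1 hz.2.1 hz.2.2).resolve_right (hno _ _ hz.1.1 hz.2.1.1)
  exact ⟨hsub, (box_finite _).subset hsub⟩

/-- **The effective criterion for infinitely many points.** -/
theorem curve_points_infinite_iff (hn : f.totalDegree ≤ n)
    (hk : ∀ m, (f.coeff m).natAbs ≤ 2 ^ k) (hg : 1 ≤ g) :
    {z : ℚ × ℚ | SmoothRat g z.1 ∧ SmoothRat g z.2 ∧ aeval ![z.1, z.2] f = 0}.Infinite ↔
      ∃ x y, SmoothRat g x ∧ SmoothRat g y ∧ InBox (curveBound n k g) x y ∧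
        Exceptional f x y := by
  constructor
  · intro hinf
    obtain ⟨z, ⟨hx, hy, hf⟩, hz⟩ := hinf.exists_notMem_finite (box_finite (curveBound n k g))
    obtain ⟨-, x₀, y₀, h⟩ := (curve_points_representative hn hk hx hy hf).resolve_left hz
    exact ⟨x₀, y₀, h⟩
  · rintro ⟨x, y, hx, hy, -, hex⟩
    obtain ⟨E, hE⟩ := exists_sbox hx.1 hx.2.1 hx.2.2
    obtain ⟨E', hE'⟩ := exists_sbox hy.1 hy.2.1 hy.2.2
    refine (infinite_of_translate hg (hE.mono (Nat.le_add_right E E'))
      (hE'.mono (Nat.le_add_left E' E)) (exceptional_iff.1 hex)).mono fun z hz => ?_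
    obtain ⟨⟨e, h1, h2⟩, h⟩ := hz
    exact ⟨⟨h1.1, h1.height_le.1, h1.height_le.2.1⟩, ⟨h2.1, h2.height_le.1, h2.height_le.2.1⟩,
      (aeval_eq_curveValue f z.1 z.2).trans h⟩

/-- **A large prime in a coordinate.** -/
theorem coordinates_large_prime (hn : f.totalDegree ≤ n)
    (hk : ∀ m, (f.coeff m).natAbs ≤ 2 ^ k)
    (hno : ∀ x y : ℚ, x ≠ 0 → y ≠ 0 → ¬ Exceptional f x y) {x y : ℚ} (hx : x ≠ 0) (hy : y ≠ 0)
    (hf : aeval ![x, y] f = 0) (hbig : ¬ InBox (curveBound n k g) x y) :
    ∃ p : ℕ, p.Prime ∧ 2 ^ g < p ∧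
      (p ∣ x.num.natAbs ∨ p ∣ x.den ∨ p ∣ y.num.natAbs ∨ p ∣ y.den) := by
  by_contra hc
  push Not at hc
  have hs : ∀ {z : ℕ}, (∀ p : ℕ, p.Prime → 2 ^ g < p → ¬p ∣ z) → Smooth g z := fun h p hp hd =>
    not_lt.1 fun hlt => h p hp hlt hd
  exact hno x y hx hy ((curve_points_effective hn hk
    ⟨hx, hs fun p hp h => (hc p hp h).1, hs fun p hp h => (hc p hp h).2.1⟩
    ⟨hy, hs fun p hp h => (hc p hp h).2.2.1, hs fun p hp h => (hc p hp h).2.2.2⟩ hf).resolve_left
      hbig)

/-- **No translate lies on the line** `x + y = 1`. -/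
theorem line_no_translate {x y : ℚ} (hx : x ≠ 0) (hy : y ≠ 0) :
    ¬ Exceptional (X 0 + X 1 - 1 : MvPolynomial (Fin 2) ℤ) x y := by
  rintro ⟨a, b, hab, h⟩
  have h1 := h 1 one_ne_zero
  have h2 := h 2 two_ne_zero
  have h4 := h (2 ^ 2) (by norm_num)
  simp only [map_sub, map_add, aeval_X, map_one, Matrix.cons_val_zero, Matrix.cons_val_one,
    one_zpow, mul_one, ← zpow_natCast (2 : ℚ) 2, ← zpow_mul, Nat.cast_ofNat,
    mul_comm (2 : ℤ)] at h1 h2 h4
  rw [zpow_mul, zpow_mul, zpow_ofNat, zpow_ofNat] at h4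
  have h0 : ∀ e : ℤ, (2 : ℚ) ^ e = 1 → e = 0 := fun e he =>
    zpow_right_injective₀ (by norm_num : (0 : ℚ) < 2) (by norm_num) (he.trans (zpow_zero _).symm)
  generalize hB : (2 : ℚ) ^ b = B at h2 h4
  generalize hA : (2 : ℚ) ^ (-a) = A at h2 h4
  have hkey : (B - 1) * x * (B - A) = 0 := by linear_combination h4 - (A + 1) * h2 + A * h1
  have hB1 : B = 1 := by
    rcases mul_eq_zero.1 hkey with h' | h'
    · exact sub_eq_zero.1 ((mul_eq_zero.1 h').resolve_right hx)
    · rw [← sub_eq_zero.1 h'] at h2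
      linear_combination h2 - B * h1
  have hA1 : A = 1 := mul_left_cancel₀ hy (by linear_combination h2 - h1 - x * hB1)
  have ha := h0 (-a) (hA.trans hA1)
  rw [h0 b (hB.trans hB1), neg_eq_zero.1 ha] at hab
  exact not_isCoprime_zero_zero hab

/-- **The hyperbola** `x y = 1` is a subtorus. -/
theorem hyperbola_exceptional :
    Exceptional (X 0 * X 1 - 1 : MvPolynomial (Fin 2) ℤ) 1 1 :=
  ⟨1, 1, isCoprime_one_left, fun s hs => by simp [hs]⟩

end FA.EffectiveTorusCurves.Summary

end
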