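import Fermat.Agent.EgyptianFractions.Main

/-!
# Egyptian fractions

The greedy expansion of Fibonacci and Sylvester, and Kellogg's conjecture proved by Curtiss (1922):
Sylvester's sequence `2, 3, 7, 43, …` approximates `1` best from below.
-/

set_option autoImplicit false

noncomputable section

namespace FA.Summary

open EgyptianFractions

/-- **Fibonacci–Sylvester**: `p / q < 1` is a sum of at most `p` distinct unit fractions. -/
theorem fibonacci_sylvester_expansion (p q : ℕ) (hp : 0 < p) (hpq : p < q) :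
    ∃ D : Finset ℕ, D.card ≤ p ∧ (∀ d ∈ D, 2 ≤ d) ∧ ∑ d ∈ D, (1 : ℝ) / d = (p : ℝ) / q :=
  EgyptianFractions.fibonacci_sylvester p q hp hpq

/-- **Curtiss's theorem**: `n` unit fractions of sum below `1` have sum at most
`1 - 1 / (s_n - 1)`, with equality only for the first `n` terms of Sylvester's sequence. -/
theorem curtiss_theorem (n : ℕ) (a : Fin n → ℕ) (ha : ∀ i, 0 < a i)
    (h : ∑ i, (1 : ℝ) / a i < 1) :
    ∑ i, (1 : ℝ) / a i ≤ 1 - 1 / (sylvester n - 1 : ℕ) ∧
      (∑ i, (1 : ℝ) / a i = 1 - 1 / (sylvester n - 1 : ℕ) ↔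
        ∃ σ : Equiv.Perm (Fin n), ∀ i : Fin n, a (σ i) = sylvester i) :=
  sum_le_sylvester a ha h

/-- **Kellogg's conjecture**: in `∑ 1 / x_i = 1` with `n + 1` terms every `x_i ≤ s_n - 1`, a bound
attained by `2, 3, 7, …, s_{n-1}, s_n - 1`; so there are finitely many solutions. -/
theorem kellogg_bound (n : ℕ) :
    (∀ (a : Fin (n + 1) → ℕ), (∀ i, 0 < a i) → ∑ i, (1 : ℝ) / a i = 1 →
        ∀ i, a i ≤ sylvester n - 1) ∧
      ∑ i ∈ Finset.range n, (1 : ℝ) / sylvester i + 1 / (sylvester n - 1 : ℕ) = 1 ∧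
      {a : Fin n → ℕ | (∀ i, 0 < a i) ∧ ∑ i, (1 : ℝ) / a i = 1}.Finite :=
  ⟨fun a ha h => le_sylvester_of_sum_eq_one a ha h, sylvester_sum_eq_one n, finite_sum_eq_one n⟩

end FA.Summary
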