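import Fermat.Agent.Ehrhart.Counting

/-!
# Ehrhart polynomials

For a finite `V ⊆ ℤ ^ n` whose hull `P = FA.LatticePolytopes.poly V` has interior points:

* `ehrhart_polynomial`: some polynomial counts the integral points of `t P` for every natural `t`,
  and it has value `1` at `0`;
* `ehrhart_leading`: it has degree `n` and leading coefficient the volume of `P`;
* `ehrhart_reciprocity`: at `-t` it is `(-1) ^ n` times the number of interior integral points of
  `t P` (Macdonald);
* `stanley_nonnegativity`: the count is `∑ h j * choose (t + n - j) n` with natural `h j`, `j ≤ n`.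
-/

set_option autoImplicit false

noncomputable section

open MeasureTheory Polynomial FA.Perfect FA.LatticePolytopes FA.Ehrhart
open scoped Pointwise

namespace FA.Summary

variable {n : ℕ} {V : Finset (Fin n → ℤ)}

theorem exists_hull_eq (V : Finset (Fin n → ℤ)) :
    ∃ v : Fin V.card → Fin n → ℤ, poly V = hull v := by
  refine ⟨fun i => (V.equivFin.symm i : Fin n → ℤ), ?_⟩
  rw [poly, hull]
  congr 1
  ext x
  constructor
  · rintro ⟨z, hz, rfl⟩
    exact ⟨V.equivFin ⟨z, hz⟩, by simp⟩
  · rintro ⟨i, rfl⟩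
    exact ⟨_, (V.equivFin.symm i).2, rfl⟩

/-- **Ehrhart's theorem.** -/
theorem ehrhart_polynomial (hV : (interior (poly V)).Nonempty) :
    ∃ p : ℝ[X],
      (∀ t : ℕ, p.eval (t : ℝ) = ({z | castVec z ∈ (t : ℝ) • poly V}.ncard : ℝ)) ∧
        p.eval 0 = 1 := by
  obtain ⟨v, hv⟩ := exists_hull_eq V
  rw [hv] at hV ⊢
  obtain ⟨p, h, -, hp, -, -⟩ := exists_ehrhart hV
  refine ⟨p, hp, ?_⟩
  have h0 := hp 0
  rw [Nat.cast_zero, Set.zero_smul_set (hV.mono interior_subset)] at h0
  rw [h0]
  have e : {z : Fin n → ℤ | castVec z ∈ (0 : Set (Fin n → ℝ))} = {0} := by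
    ext z
    simp only [Set.mem_zero, Set.mem_ofPred_eq, Set.mem_singleton_iff]
    constructor
    · intro hz
      funext i
      simpa [castVec] using congrFun hz i
    · rintro rfl
      funext i
      simp [castVec]
  rw [e, Set.ncard_singleton, Nat.cast_one]

/-- **Degree and leading coefficient.** -/
theorem ehrhart_leading (hV : (interior (poly V)).Nonempty) {p : ℝ[X]}
    (hp : ∀ t : ℕ, p.eval (t : ℝ) = ({z | castVec z ∈ (t : ℝ) • poly V}.ncard : ℝ)) :
    p.natDegree = n ∧ p.leadingCoeff = volume.real (poly V) := by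
  obtain ⟨v, hv⟩ := exists_hull_eq V
  rw [hv] at hV hp ⊢
  obtain ⟨q, h, hdeg, hq, -, -⟩ := exists_ehrhart hV
  have hpq : p = q := eq_of_infinite_eval_eq p q (Set.infinite_of_injective_forall_mem
    (f := fun t : ℕ => (t : ℝ)) Nat.cast_injective fun t => (hp t).trans (hq t).symm)
  subst hpq
  have hc : p.coeff n = volume.real (hull v) :=
    coeff_eq_of_tendsto hdeg ((tendsto_count v).congr fun t => by rw [hp])
  have hpos : 0 < volume.real (hull v) := ENNReal.toReal_pos
    ((isOpen_interior.measure_pos volume hV).trans_le (measure_mono interior_subset)).ne'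
    (isCompact_hull v).measure_ne_top
  have hd : p.natDegree = n :=
    le_antisymm hdeg (le_natDegree_of_ne_zero (by rw [hc]; exact hpos.ne'))
  exact ⟨hd, by rw [leadingCoeff, hd, hc]⟩

/-- **Reciprocity.** -/
theorem ehrhart_reciprocity (hV : (interior (poly V)).Nonempty) {p : ℝ[X]}
    (hp : ∀ t : ℕ, p.eval (t : ℝ) = ({z | castVec z ∈ (t : ℝ) • poly V}.ncard : ℝ))
    (t : ℕ) (ht : 1 ≤ t) :
    (-1) ^ n * p.eval (-(t : ℝ)) =
      ({z | castVec z ∈ interior ((t : ℝ) • poly V)}.ncard : ℝ) := by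
  obtain ⟨v, hv⟩ := exists_hull_eq V
  rw [hv] at hV hp ⊢
  obtain ⟨q, h, -, hq, hrec, -⟩ := exists_ehrhart hV
  have hpq : p = q := eq_of_infinite_eval_eq p q (Set.infinite_of_injective_forall_mem
    (f := fun t : ℕ => (t : ℝ)) Nat.cast_injective fun t => (hp t).trans (hq t).symm)
  subst hpq
  exact hrec t ht

/-- **Stanley's nonnegativity theorem.** -/
theorem stanley_nonnegativity (hV : (interior (poly V)).Nonempty) :
    ∃ h : ℕ → ℕ, ∀ t : ℕ, {z | castVec z ∈ (t : ℝ) • poly V}.ncard =
      ∑ j ∈ Finset.range (n + 1), h j * (t + n - j).choose n := by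
  obtain ⟨v, hv⟩ := exists_hull_eq V
  rw [hv] at hV ⊢
  obtain ⟨p, h, -, -, -, hh⟩ := exists_ehrhart hV
  exact ⟨h, hh⟩

end FA.Summary

end
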