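import Fermat.Agent.Regular.EichlerFirstCase
import Fermat.Agent.Root.SummaryFirstCaseBelowTenThousand

/-!
# Eichler's theorem on the first case

With `i(p) = #{k even, 2 ≤ k ≤ p - 3, p ∣ num B_k}`:

* `eichler_cofactor_not_pow`: for `(i + 1) (i + 2) + 3 ≤ p`, `(x^p + y^p) / (x + y)` is no `p`-th power
  for coprime `x`, `y` with `p ∤ x y (x² - y²)`.
* `eichler_first_case`: then the first case of Fermat's equation holds at `p`.
* `eichler_first_case_sqrt`: in particular for `i ≤ √p - 2`.
* `first_case_failure_many_irregular`: a prime at which the first case fails has at least `99` irregular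
  indices.

Classical (Eichler 1965); independent of S01.
-/

set_option autoImplicit false

noncomputable section

open scoped Classical

namespace FA.Summary

variable (p : ℕ) [Fact p.Prime]

omit [Fact p.Prime] in
/-- The number of irregular indices of `p`, as used in Eichler's theorem. -/
theorem irregularIndexCount_eq :
    FA.Regular.irregularIndexCount p =
      ((Finset.Icc 2 (p - 3)).filter fun k => Even k ∧ (p : ℤ) ∣ (bernoulli k).num).card := rfl

/-- **Eichler**: the cofactor is no `p`-th power. -/
theorem eichler_cofactor_not_pow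
    (h : (FA.Regular.irregularIndexCount p + 1) * (FA.Regular.irregularIndexCount p + 2) + 3 ≤ p) (x y w : ℤ)
    (hxy : IsCoprime x y) (hdvd : ¬ (p : ℤ) ∣ x * y * (x + y) * (x - y)) :
    x ^ p + y ^ p ≠ (x + y) * w ^ p :=
  FA.Regular.cofactor_ne_pow_of_count h hxy
    (fun e => hdvd (((e.mul_right y).mul_right (x + y)).mul_right (x - y)))
    (fun e => hdvd (((e.mul_left x).mul_right (x + y)).mul_right (x - y)))
    (fun e => hdvd ((e.mul_left (x * y)).mul_right (x - y)))
    (fun e => hdvd (e.mul_left (x * y * (x + y))))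

/-- **Eichler**: the first case of Fermat's equation for few irregular indices. -/
theorem eichler_first_case
    (h : (FA.Regular.irregularIndexCount p + 1) * (FA.Regular.irregularIndexCount p + 2) + 3 ≤ p) (a b c : ℤ)
    (habc : ¬ (p : ℤ) ∣ a * b * c) : a ^ p + b ^ p ≠ c ^ p := by
  intro heq
  have hp : p.Prime := Fact.out
  have h2 : 2 ≤ (FA.Regular.irregularIndexCount p + 1) * (FA.Regular.irregularIndexCount p + 2) :=
    (show 2 ≤ 1 * (FA.Regular.irregularIndexCount p + 2) by omega).trans (Nat.mul_le_mul_right _ (by omega))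
  have ha0 : a ≠ 0 := fun e => habc (by simp [e])
  obtain ⟨g, a', b', hg, hab, rfl, rfl⟩ :=
    Int.exists_gcd_one' (Int.gcd_pos_of_ne_zero_left b ha0)
  have hgc : (g : ℤ) ∣ c := (Int.pow_dvd_pow_iff hp.ne_zero).mp
    (heq ▸ dvd_add (pow_dvd_pow_of_dvd (dvd_mul_left _ _) p) (pow_dvd_pow_of_dvd (dvd_mul_left _ _) p))
  obtain ⟨c', rfl⟩ := hgc
  have heq' : a' ^ p + b' ^ p = c' ^ p := by
    refine mul_left_cancel₀ (pow_ne_zero p (Int.natCast_ne_zero.mpr hg.ne')) ?_
    linear_combination heq
  rw [← Int.isCoprime_iff_gcd_eq_one] at hab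
  have hcop : ∀ {u v : ℤ}, u ^ p + v ^ p = c' ^ p → IsCoprime u v → IsCoprime u c' := by
    intro u v huv hc
    refine (IsCoprime.pow_iff hp.pos hp.pos).mp ?_
    rw [← huv, add_comm]
    simpa using (hc.pow (m := p) (n := p)).add_mul_left_right 1
  have hodd : Odd p := hp.odd_of_ne_two (by omega)
  refine FA.Regular.first_case_of_count h
    ((hcop (by linear_combination heq') hab.symm).neg_right) (hcop heq' hab).symm.neg_left
    (fun e => habc (((e.mul_right _).mul_right _).mul_right _))
    (fun e => habc (((e.mul_right _).mul_left _).mul_right _))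
    (fun e => habc ((dvd_neg.mp e |>.mul_left _).mul_left _)) ?_
  rw [hodd.neg_pow]
  linear_combination heq'

/-- **Eichler's theorem**: the first case holds if the index of irregularity is at most `√p - 2`. -/
theorem eichler_first_case_sqrt
    (h : (FA.Regular.irregularIndexCount p : ℝ) ≤ Real.sqrt p - 2) (a b c : ℤ)
    (habc : ¬ (p : ℤ) ∣ a * b * c) : a ^ p + b ^ p ≠ c ^ p := by
  refine eichler_first_case p ?_ a b c habc
  have hsq : ((FA.Regular.irregularIndexCount p + 2) ^ 2 : ℝ) ≤ (p : ℝ) := by
    rw [← Real.sq_sqrt (Nat.cast_nonneg (α := ℝ) p)]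
    exact pow_le_pow_left₀ (by positivity) (by linarith) 2
  have hsq' : (FA.Regular.irregularIndexCount p + 2) ^ 2 ≤ p := by exact_mod_cast hsq
  rcases Nat.eq_zero_or_pos (FA.Regular.irregularIndexCount p) with e | e
  · rw [e] at hsq' ⊢
    have h4 : p ≠ 4 := fun e4 => absurd (e4 ▸ (Fact.out : p.Prime)) (by norm_num)
    omega
  · linarith

/-- **A counterexample to the first case needs at least `99` irregular indices.** -/
theorem first_case_failure_many_irregular (a b c : ℤ) (habc : ¬ (p : ℤ) ∣ a * b * c)
    (heq : a ^ p + b ^ p = c ^ p) : 10000 ≤ p ∧ 99 ≤ FA.Regular.irregularIndexCount p := by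
  have h1 : 10000 ≤ p := by
    by_contra h
    exact fermat_first_case_lt_10000 p Fact.out (by omega) a b c habc heq
  refine ⟨h1, ?_⟩
  by_contra h
  refine eichler_first_case p ?_ a b c habc heq
  exact (Nat.add_le_add_right (Nat.mul_le_mul (show FA.Regular.irregularIndexCount p + 1 ≤ 99 by omega)
    (show FA.Regular.irregularIndexCount p + 2 ≤ 100 by omega)) 3).trans (by omega)

end FA.Summary
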