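import Fermat.Agent.Tau.EisensteinPrime
import Fermat.Agent.Eisenstein.Lower
import Fermat.Agent.Eisenstein.Upper
import Fermat.Agent.Mazur.EisPrime

/-!
# Mazur: congruences with the Eisenstein series at prime level

For a prime `p` let `n = eisensteinNumerator p`, the numerator of `(p - 1) / 12`. The quotient of
the Hecke algebra of `S₂(Γ₀(p))` by the Eisenstein ideal is cyclic of order `n`; integral forms, and
eigenforms modulo a prime, congruent to the Eisenstein series exist exactly for the divisors of `n`.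
-/

set_option autoImplicit false
set_option linter.style.haveILetI false

noncomputable section

open CongruenceSubgroup UpperHalfPlane ModularCurve CuspForm
open scoped Classical

namespace FA.Summary

variable {p : ℕ} [Fact p.Prime]

/-- **Mazur**: the Hecke algebra modulo the Eisenstein ideal is `ℤ / n`. -/
theorem eisensteinIdeal_quotient :
    Nonempty ((↥(heckeLatticeAlgebra p ∅) ⧸ Ideal.map (FA.Eis.latEval p) (eisensteinIdeal p)) ≃+*
      ZMod (eisensteinNumerator p)) :=
  FA.EisensteinPrime.quotient_equiv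

/-- **Congruent forms**: an integral cusp form with `a_m ≡ ∑ (d ∣ m, p ∤ d) d (mod M)`, `m ≥ 1`,
exists exactly for `M ∣ n`. -/
theorem eisenstein_congruence_form (M : ℕ) :
    (∃ (F : CuspForm (Gamma0 p) 2) (A : PowerSeries ℤ),
      qExpansion 1 ⇑F = A.map (Int.castRingHom ℂ) ∧
      ∀ m, 1 ≤ m → (M : ℤ) ∣
        PowerSeries.coeff m A - ∑ d ∈ m.divisors with ¬p ∣ d, (d : ℤ)) ↔
      M ∣ eisensteinNumerator p := by
  constructor
  · rintro ⟨F, A, hA, hcong⟩
    refine FA.Eis.dvd_numerator_of_congr F A ?_ hcong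
    have h := (FA.Eis.isLv_of_cuspForm F).hasQ
    rwa [show FA.Eis.qe ⇑F = FA.Eis.toC A from hA] at h
  · intro hM
    obtain ⟨F, A, hA, hcong⟩ := FA.Eis.exists_lower p
    exact ⟨F, A, hA.qExpansion_eq one_pos,
      fun m hm => (Int.natCast_dvd_natCast.2 hM).trans (hcong m hm)⟩

/-- **Congruent eigenforms**: a normalised eigenform with `a_p ≡ 1` and `a_q ≡ 1 + q` (`q ≠ p`)
modulo a prime over `l` exists exactly for `l ∣ n`. -/
theorem eisenstein_congruence_eigenform (l : ℕ) [Fact l.Prime] :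
    (∃ g : CuspForm (Gamma0 p) 2, g.IsNormalizedEigenform ∧
      ∃ m : Ideal (integralClosure ℤ ℂ), m.IsMaximal ∧ (l : integralClosure ℤ ℂ) ∈ m ∧
        ∀ q : ℕ, q.Prime → ∃ c : integralClosure ℤ ℂ, (c : ℂ) = ModularFormClass.qCoeff g q ∧
          c - ((if q = p then 1 else 1 + q : ℕ) : integralClosure ℤ ℂ) ∈ m) ↔
      l ∣ eisensteinNumerator p := by
  have e : ∀ q : ℕ, ((if q = p then 1 else 1 + q : ℕ) : integralClosure ℤ ℂ) =
      (FA.EisensteinPrime.eisValue p q : integralClosure ℤ ℂ) := fun q => by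
    unfold FA.EisensteinPrime.eisValue
    split_ifs <;> simp
  constructor
  · rintro ⟨g, hg, m, hm, hl, hc⟩
    refine FA.EisensteinPrime.dvd_of_congruent_eigenform hg hm hl fun q hq => ?_
    simpa only [e] using hc q hq
  · intro hn
    obtain ⟨g, hg, m, hm, hl, hc⟩ := FA.EisensteinPrime.exists_congruent_eigenform hn
    exact ⟨g, hg, m, hm, hl, fun q hq => by simpa only [e] using hc q hq⟩

/-- **For `p ≥ 11`, `p ≠ 13`, such a congruence exists**, at a prime `l ≠ p`. -/
theorem exists_eisenstein_congruence (h11 : 11 ≤ p) (h13 : p ≠ 13) :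
    ∃ l : ℕ, l.Prime ∧ l ≠ p ∧ ∃ g : CuspForm (Gamma0 p) 2, g.IsNormalizedEigenform ∧
      ∃ m : Ideal (integralClosure ℤ ℂ), m.IsMaximal ∧ (l : integralClosure ℤ ℂ) ∈ m ∧
        ∀ q : ℕ, q.Prime → ∃ c : integralClosure ℤ ℂ, (c : ℂ) = ModularFormClass.qCoeff g q ∧
          c - ((if q = p then 1 else 1 + q : ℕ) : integralClosure ℤ ℂ) ∈ m := by
  obtain ⟨l, hl, hdvd, hne, -⟩ :=
    FA.Mazur.exists_prime_dvd_eisensteinNumerator (Fact.out : p.Prime) h11 h13
  have := Fact.mk hl
  exact ⟨l, hl, hne, (eisenstein_congruence_eigenform l).2 hdvd⟩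

/-- **Level 11**: the congruences are those modulo `5`. -/
theorem eisenstein_congruence_eleven [Fact (Nat.Prime 11)] (l : ℕ) [Fact l.Prime] :
    (∃ g : CuspForm (Gamma0 11) 2, g.IsNormalizedEigenform ∧
      ∃ m : Ideal (integralClosure ℤ ℂ), m.IsMaximal ∧ (l : integralClosure ℤ ℂ) ∈ m ∧
        ∀ q : ℕ, q.Prime → ∃ c : integralClosure ℤ ℂ, (c : ℂ) = ModularFormClass.qCoeff g q ∧
          c - ((if q = 11 then 1 else 1 + q : ℕ) : integralClosure ℤ ℂ) ∈ m) ↔ l = 5 := by
  rw [eisenstein_congruence_eigenform l, show eisensteinNumerator 11 = 5 by decide]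
  exact Nat.prime_dvd_prime_iff_eq Fact.out (by norm_num)

end FA.Summary

end
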