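import Fermat.Agent.Tau.EigenDegree
import Fermat.Agent.Root.SummaryEisensteinPrime
import Mathlib.NumberTheory.LSeries.PrimesInAP

/-!
# Eigenforms of prime level with coefficient fields of large degree

An eigenform congruent to the Eisenstein series modulo a prime over `l` has `l < 6 ^ d`, `d` the
degree of `a₂`: Mazur's congruences and Dirichlet's theorem make `d` arbitrarily large, and
eigenforms with integer coefficients are only congruent at `l ≤ 5`.
-/

set_option autoImplicit false
set_option linter.style.haveILetI false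

noncomputable section

open CongruenceSubgroup ModularCurve
open scoped Classical

namespace FA.Summary

/-- **Eisenstein congruences bound the degree**: `l < 6 ^ d`. -/
theorem eisenstein_congruence_degree {p : ℕ} [Fact p.Prime] (hp2 : p ≠ 2) {l : ℕ} [Fact l.Prime]
    {g : CuspForm (Gamma0 p) 2} (hg : g.IsNormalizedEigenform)
    {m : Ideal (integralClosure ℤ ℂ)} (hm : m.IsMaximal) (hl : (l : integralClosure ℤ ℂ) ∈ m)
    {c : integralClosure ℤ ℂ} (hc : (c : ℂ) = ModularFormClass.qCoeff g 2) (hcm : c - 3 ∈ m) :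
    l < 6 ^ (minpoly ℚ (ModularFormClass.qCoeff g 2)).natDegree :=
  FA.EigenDegree.lt_six_pow hp2 hg hm hl hc hcm

/-- **Integer eigenvalue at `2`**: only `l = 2, 3, 5` occur. -/
theorem eisenstein_congruence_rational {p : ℕ} [Fact p.Prime] (hp2 : p ≠ 2) {l : ℕ} [Fact l.Prime]
    {g : CuspForm (Gamma0 p) 2} (hg : g.IsNormalizedEigenform) {z : ℤ}
    (hz : ModularFormClass.qCoeff g 2 = z)
    {m : Ideal (integralClosure ℤ ℂ)} (hm : m.IsMaximal) (hl : (l : integralClosure ℤ ℂ) ∈ m)
    (hcm : (z : integralClosure ℤ ℂ) - 3 ∈ m) : l ≤ 5 := by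
  have h := eisenstein_congruence_degree hp2 hg hm hl (c := (z : integralClosure ℤ ℂ))
    (by rw [hz]; rfl) hcm
  rw [hz, show (z : ℂ) = algebraMap ℚ ℂ (z : ℚ) from (map_intCast _ z).symm,
    minpoly.eq_X_sub_C, Polynomial.natDegree_X_sub_C, pow_one] at h
  omega

/-- **Eigenforms of prime level with coefficient fields of arbitrarily large degree**: for every `d`
infinitely many primes `p` have one with `a₂` of degree above `d`. -/
theorem exists_eigenform_large_degree (d B : ℕ) :
    ∃ p : ℕ, p.Prime ∧ B < p ∧ ∃ g : CuspForm (Gamma0 p) 2, g.IsNormalizedEigenform ∧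
      d < (minpoly ℚ (ModularFormClass.qCoeff g 2)).natDegree := by
  obtain ⟨l, hdl, hl⟩ := Nat.exists_infinite_primes (6 ^ d + 4)
  haveI := Fact.mk hl
  haveI : NeZero (12 * l) := ⟨by have := hl.pos; omega⟩
  obtain ⟨p, hpB, hp, hmod⟩ := Nat.forall_exists_prime_gt_and_eq_mod
    (q := 12 * l) (a := 1) isUnit_one (B + 2)
  haveI := Fact.mk hp
  have hdvd : 12 * l ∣ p - 1 := (Nat.modEq_iff_dvd' hp.one_le).1
    ((ZMod.natCast_eq_natCast_iff _ _ _).1 (by rw [Nat.cast_one, hmod]))
  have hn : l ∣ eisensteinNumerator p := by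
    obtain ⟨k, hk⟩ := hdvd
    have hg : Nat.gcd (p - 1) 12 = 12 := by
      rw [hk, mul_assoc]
      exact Nat.gcd_eq_right (dvd_mul_right 12 _)
    exact ⟨k, by rw [eisensteinNumerator, hg, hk, mul_assoc, Nat.mul_div_cancel_left _ (by omega)]⟩
  obtain ⟨g, hg, m, hm, hlm, hcong⟩ := (eisenstein_congruence_eigenform l).2 hn
  obtain ⟨c, hc, hcm⟩ := hcong 2 Nat.prime_two
  rw [if_neg (show (2 : ℕ) ≠ p by omega)] at hcm
  have h := eisenstein_congruence_degree (by omega) hg hm hlm hc (by
    have e : ((1 + 2 : ℕ) : integralClosure ℤ ℂ) = 3 := by norm_num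
    rwa [e] at hcm)
  refine ⟨p, hp, by omega, g, hg, ?_⟩
  by_contra hd
  have := Nat.pow_le_pow_right (show 0 < 6 by norm_num) (not_lt.1 hd)
  omega

end FA.Summary

end
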