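import Fermat.Agent.Root.SummaryEigenSystems
import Fermat.Agent.Tau.EigenLiftModP

/-!
# Deligne–Serre lifting in level one

Every system of eigenvalues modulo `p` of level one and weight `k ≥ 1` is the reduction, modulo a
maximal ideal over `p`, of the system of an eigenform of weight `k` with algebraic integer
eigenvalues; with `eigensystems_finite`, there are only finitely many such reductions.
-/

set_option autoImplicit false

noncomputable section

open UpperHalfPlane hiding I
open scoped MatrixGroups

namespace FA.Summary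

variable {p : ℕ} [Fact p.Prime]

/-- **Deligne–Serre lifting**: a system `a` of weight `k ≥ 1` modulo `p` is congruent, at the primes
`l ≠ p`, to the eigenvalues `c` of a non-zero eigenform `F` of weight `k` in characteristic zero. -/
theorem eigensystem_lift (h5 : 5 ≤ p) {k : ℕ} (hk : 1 ≤ k) {a : ℕ → ZMod p}
    {f : PowerSeries (ZMod p)} (hf : IsEigenformModP p k a f) :
    ∃ (F : ModularForm 𝒮ℒ (k : ℤ)) (𝔪 : Ideal (integralClosure ℤ ℂ)), 𝔪.IsMaximal ∧
      (p : integralClosure ℤ ℂ) ∈ 𝔪 ∧ F ≠ 0 ∧
      ∀ l : ℕ, l.Prime → ∃ c : integralClosure ℤ ℂ,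
        (l ≠ p → c - ((a l).val : integralClosure ℤ ℂ) ∈ 𝔪) ∧
        ∀ n, (qExpansion 1 F).coeff (n * l) +
            (if l ∣ n then (l : ℂ) ^ (k - 1) * (qExpansion 1 F).coeff (n / l) else 0) =
          (c : ℂ) * (qExpansion 1 F).coeff n :=
  FA.SwinnertonDyer.exists_eigen_lift h5 hk (isEigenformModP_iff.1 hf)

end FA.Summary

end
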