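import Fermat.Agent.EigenPrimes.Combination
import Fermat.Agent.EigenPrimes.SignChanges
import Fermat.Agent.Tau.Mordell
import Fermat.Agent.Poincare.LevelOne

/-!
# Orthogonality of eigenforms at the primes

For normalised eigenforms `f`, `g` of level one and one weight `k`, with coefficients `a n`, `b n`:

* `eigenform_pair_ne_zero`: for `f ≠ g`, `ζ(2w) ∑ a n b n n^(-(w+k-1))` continues to an entire
  function without zeros for `re w ≥ 1`;
* `eigenform_orthogonality_primes`: `∑_{p ≤ x} a p b p p^(1-k) log p` is `δ_{fg} x + o(x)`;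
* `cuspForm_prime_mean_square`: for any cusp form `F = ∑ c_f f`, `∑_{p ≤ x} |a_p|² p^(1-k) log p`
  is asymptotic to `∑ |c_f|² x`; `cuspForm_prime_nonvanishing`: for `F ≠ 0` at least
  `c x^(2/5) / log x` primes `p ≤ x` have `a_p ≠ 0`;
* `cuspForm_multiplicity_one`, `cuspForm_multiplicity_one_finite`: forms differing at `O(x^(1/3))`
  primes, in particular at finitely many, are equal;
* `eigenform_prime_negative`: `a p < 0` for infinitely many primes; `eigenform_prime_positive`:
  `a p > 0` for infinitely many if `Λ(f, x) ≠ 0` for real `x > k/2`;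
* `ramanujanTau_prime_signs`: `τ(p)` takes both signs infinitely often.

Different weights or levels, error terms, Deligne's bound and Sato–Tate are not claimed.
-/

set_option autoImplicit false

noncomputable section

namespace FA.Summary

open UpperHalfPlane hiding I
open Complex CongruenceSubgroup Filter
open scoped MatrixGroups Real Topology ComplexConjugate
open KohnenNonvanishing (centralLambda IsEigenformOne)

variable {k : ℕ}

/-- **The convolution of two eigenforms has no zeros on the edge.** -/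
theorem eigenform_pair_ne_zero (hk : 1 ≤ k) {f g : CuspForm (Gamma0 1) (k : ℤ)}
    (hf : IsEigenformOne f) (hg : IsEigenformOne g) (hne : f ≠ g) :
    ∃ E : ℂ → ℂ, Differentiable ℂ E ∧ (∀ w : ℂ, 1 < w.re → E w = riemannZeta (2 * w) *
        LSeries (fun n => (qExpansion 1 f).coeff n * (qExpansion 1 g).coeff n) (w + k - 1)) ∧
      ∀ w : ℂ, 1 ≤ w.re → E w ≠ 0 := by
  refine ⟨EigenPrimes.crossHat f g, EigenPrimes.differentiable_crossHat f g, fun w hw => ?_,
    fun w hw => EigenPrimes.crossHat_ne_zero hf hg hk hne hw⟩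
  rw [EigenPrimes.crossHat_eq hf hg hk hne hw, EigenPrimes.crossCoeff,
    EigenPrimes.lSeries_mul (EigenPrimes.summable_sqInd hw)
      (EigenPrimes.summable_pmul_eig hf hg hw), EigenPrimes.lSeries_sqInd hw]
  congr 1
  refine tsum_congr fun n => ?_
  rcases eq_or_ne n 0 with rfl | hn
  · simp
  rw [LSeries.term_of_ne_zero hn, LSeries.term_of_ne_zero hn, EigenPrimes.cast',
    ArithmeticFunction.pmul_apply, EigenPrimes.eig_mul_eig, ofReal_div, ofReal_mul,
    EigenPrimes.ofReal_re_coef hf, EigenPrimes.ofReal_re_coef hg,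
    ofReal_cpow (Nat.cast_nonneg n), div_div, ofReal_natCast,
    ← cpow_add _ _ (Nat.cast_ne_zero.2 hn)]
  push_cast
  ring_nf

/-- **Orthogonality at the primes.** -/
theorem eigenform_orthogonality_primes (hk : 3 ≤ k) {f g : CuspForm (Gamma0 1) (k : ℤ)}
    (hf : IsEigenformOne f) (hg : IsEigenformOne g) [Decidable (f = g)] :
    Tendsto (fun x : ℝ => (∑ p ∈ (Finset.Icc 1 ⌊x⌋₊).filter Nat.Prime,
        (qExpansion 1 f).coeff p * (qExpansion 1 g).coeff p / (p : ℂ) ^ (k - 1) *
          (Real.log p : ℂ)) / (x : ℂ)) atTop (𝓝 (if f = g then 1 else 0)) := by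
  have h := (continuous_ofReal.tendsto _).comp (EigenPrimes.tendsto_prime_product hk hf hg)
  rw [apply_ite (Complex.ofReal : ℝ → ℂ), ofReal_one, ofReal_zero] at h
  refine h.congr fun x => ?_
  simp only [Function.comp_apply, EigenPrimes.upToPrime, ofReal_div, ofReal_sum]
  congr 1
  refine Finset.sum_congr rfl fun p _ => ?_
  rw [EigenPrimes.eig_mul_eig, ofReal_mul, ofReal_div, ofReal_mul, EigenPrimes.ofReal_re_coef hf,
    EigenPrimes.ofReal_re_coef hg, ← Nat.cast_pred (by omega : 0 < k), Real.rpow_natCast]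
  push_cast
  rfl

/-- **The mean square at the primes of any cusp form.** -/
theorem cuspForm_prime_mean_square (hk : 3 ≤ k) (F : CuspForm (Gamma0 1) (k : ℤ)) :
    ∃ (s : Finset (CuspForm (Gamma0 1) (k : ℤ))) (c : CuspForm (Gamma0 1) (k : ℤ) → ℂ),
      (∀ f ∈ s, IsEigenformOne f) ∧ F = ∑ f ∈ s, c f • f ∧
      Tendsto (fun x : ℝ => (∑ p ∈ (Finset.Icc 1 ⌊x⌋₊).filter Nat.Prime,
        ‖(qExpansion 1 F).coeff p‖ ^ 2 / (p : ℝ) ^ (k - 1) * Real.log p) / x) atTop
        (𝓝 (∑ f ∈ s, ‖c f‖ ^ 2)) := by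
  obtain ⟨s, c, hs, hF, hlim⟩ := EigenPrimes.exists_mean_square hk F
  refine ⟨s, c, hs, hF, hlim.congr fun x => ?_⟩
  simp only [EigenPrimes.upToPrime, EigenPrimes.norm_normCoeff_sq,
    ← Nat.cast_pred (by omega : 0 < k), Real.rpow_natCast]

/-- **A non-zero cusp form has many non-zero coefficients at primes.** -/
theorem cuspForm_prime_nonvanishing (hk : 3 ≤ k) {F : CuspForm (Gamma0 1) (k : ℤ)} (hF : F ≠ 0) :
    ∃ c : ℝ, 0 < c ∧ ∀ᶠ x : ℝ in atTop, c * x ^ (2 / 5 : ℝ) / Real.log x ≤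
      ((((Finset.Icc 1 ⌊x⌋₊).filter Nat.Prime).filter
        fun p => (qExpansion 1 F).coeff p ≠ 0).card : ℝ) :=
  EigenPrimes.exists_count_lower hk hF

/-- **Multiplicity one**, a thin set of primes excepted. -/
theorem cuspForm_multiplicity_one (hk : 3 ≤ k) {F G : CuspForm (Gamma0 1) (k : ℤ)}
    (h : ∃ C : ℝ, ∀ᶠ x : ℝ in atTop,
      ((((Finset.Icc 1 ⌊x⌋₊).filter Nat.Prime).filter
        fun p => (qExpansion 1 F).coeff p ≠ (qExpansion 1 G).coeff p).card : ℝ) ≤
        C * x ^ (1 / 3 : ℝ)) : F = G :=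
  EigenPrimes.eq_of_few_exceptions hk h

/-- **Multiplicity one**, finitely many primes excepted. -/
theorem cuspForm_multiplicity_one_finite (hk : 3 ≤ k) {F G : CuspForm (Gamma0 1) (k : ℤ)}
    (h : {p : ℕ | p.Prime ∧ (qExpansion 1 F).coeff p ≠ (qExpansion 1 G).coeff p}.Finite) :
    F = G := by
  refine cuspForm_multiplicity_one hk ⟨(h.toFinset.card : ℝ), ?_⟩
  filter_upwards [eventually_ge_atTop (1 : ℝ)] with x hx
  refine le_trans ?_
    (le_mul_of_one_le_right (Nat.cast_nonneg _) (Real.one_le_rpow hx (by norm_num)))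
  refine Nat.cast_le.2 (Finset.card_le_card fun p hp => ?_)
  simp only [Finset.mem_filter] at hp
  exact h.mem_toFinset.2 ⟨hp.1.2, hp.2⟩

private theorem re_coef_sign {f : CuspForm (Gamma0 1) (k : ℤ)} {p : ℕ} (hp : p.Prime) {ε : ℝ}
    (h : ε * EigenPrimes.eigLift f p < 0) : ε * ((qExpansion 1 f).coeff p).re < 0 := by
  rw [EigenPrimes.eigLift, EigenPrimes.primeLift_prime _ hp, EigenPrimes.powerSum,
    EigenPrimes.eig_apply] at h
  by_contra h0
  refine absurd h (not_lt.2 ?_)
  have h1 : 0 ≤ ε * ((qExpansion 1 f).coeff p).re / (p : ℝ) ^ (((k : ℝ) - 1) / 2) *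
      Real.log p :=
    mul_nonneg (div_nonneg (not_lt.1 h0) (Real.rpow_nonneg (Nat.cast_nonneg p) _))
      (Real.log_natCast_nonneg p)
  exact h1.trans_eq (by rw [EigenPrimes.coef]; ring)

/-- **Infinitely many negative coefficients at primes.** -/
theorem eigenform_prime_negative (hk : 3 ≤ k) {f : CuspForm (Gamma0 1) (k : ℤ)}
    (hf : IsEigenformOne f) :
    {p : ℕ | p.Prime ∧ ((qExpansion 1 f).coeff p).re < 0}.Infinite := by
  refine Set.Infinite.mono ?_ (EigenPrimes.infinite_signSet_one hk hf)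
  rintro p ⟨hp, h⟩
  exact ⟨hp, by simpa using re_coef_sign hp h⟩

/-- Infinitely many positive ones, without real zeros right of the centre. -/
theorem eigenform_prime_positive (hk : 3 ≤ k) {f : CuspForm (Gamma0 1) (k : ℤ)}
    (hf : IsEigenformOne f) (hz : ∀ x : ℝ, (k : ℝ) / 2 < x → centralLambda f x ≠ 0) :
    {p : ℕ | p.Prime ∧ 0 < ((qExpansion 1 f).coeff p).re}.Infinite := by
  refine Set.Infinite.mono ?_
    (EigenPrimes.infinite_signSet_of_no_zero hk hf hz (ε := -1) (by simp))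
  rintro p ⟨hp, h⟩
  exact ⟨hp, by simpa using re_coef_sign hp h⟩

/-- **The signs of `τ(p)`.** -/
theorem ramanujanTau_prime_signs :
    {p : ℕ | p.Prime ∧ PowerSeries.coeff p FA.Tau.deltaInt < 0}.Infinite ∧
      {p : ℕ | p.Prime ∧ 0 < PowerSeries.coeff p FA.Tau.deltaInt}.Infinite := by
  set f : CuspForm (Gamma0 1) ((12 : ℕ) : ℤ) := FA.Tau.deltaForm
  have hτ : ∀ n, (qExpansion 1 f).coeff n = ((PowerSeries.coeff n FA.Tau.deltaInt : ℤ) : ℂ) :=
    fun n => FA.Tau.qCoeff_deltaForm n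
  have hf : IsEigenformOne f := ⟨by rw [hτ, FA.Tau.coeff_deltaInt_one, Int.cast_one],
    fun l hl => Poincare.exists_eq_smul_deltaOne _⟩
  have hre : ∀ n,
      ((qExpansion 1 f).coeff n).re = ((PowerSeries.coeff n FA.Tau.deltaInt : ℤ) : ℝ) :=
    fun n => by rw [hτ, intCast_re]
  refine ⟨Set.Infinite.mono ?_ (eigenform_prime_negative (by norm_num) hf),
    Set.Infinite.mono ?_ (eigenform_prime_positive (by norm_num) hf
      fun x _ => EigenPrimes.deltaForm_no_zero x)⟩
  · rintro p ⟨hp, h⟩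
    rw [hre] at h
    exact ⟨hp, by exact_mod_cast h⟩
  · rintro p ⟨hp, h⟩
    rw [hre] at h
    exact ⟨hp, by exact_mod_cast h⟩

end FA.Summary

end
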