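import Fermat.Agent.EigenPrimes.Sums
import Fermat.Agent.Tau.Mordell
import Fermat.Agent.Poincare.LevelOne

/-!
# The prime number theorem for Hecke eigenforms of level one

Let `f` be a normalised eigenform of all `T_l` of level one and weight `k`, with coefficients `a n`
and `λ n = a n / n^((k-1)/2)`.

* `eigenform_multiplicative`: `a` is real and multiplicative, with Hecke's recursion at a prime;
* `eigenform_LFunction_ne_zero`: `Λ(f, s) ≠ 0` outside the open critical strip, edges included;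
* `eigenform_LSeries_continuation`, `eigenform_rankinSelberg_ne_zero`: `∑ a n n^(-s)` for
  `re s ≥ (k+1)/2` and `(w-1) ζ(2w) ∑ |a n|² n^(-(w+k-1))` for `re w ≥ 1` continue without zeros;
* `eigenform_prime_number_theorem`: `∑_{p ≤ x} λ p log p = o(x)`, so
  `∑_{p ≤ x} a p log p = o(x^((k+1)/2))`;
* `eigenform_prime_mean_square`: `∑_{p ≤ x} |λ p|² log p ~ x`;
* `ramanujanTau_primes`: `∑_{p ≤ x} τ(p) log p = o(x^(13/2))`, `∑_{p ≤ x} τ(p)²/p¹¹ log p ~ x`.

Error terms, higher levels, Sato–Tate and Deligne's bound are not claimed.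
-/

set_option autoImplicit false

noncomputable section

namespace FA.Summary

open UpperHalfPlane hiding I
open Complex CongruenceSubgroup Filter
open scoped MatrixGroups Real Topology ComplexConjugate
open KohnenNonvanishing (centralLambda IsEigenformOne)

variable {k : ℕ}

/-- **Hecke**: the coefficients of a normalised eigenform are real and multiplicative. -/
theorem eigenform_multiplicative {f : CuspForm (Gamma0 1) (k : ℤ)} (hf : IsEigenformOne f) :
    let a := fun n => (qExpansion 1 f).coeff n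
    (∀ m n : ℕ, m.Coprime n → a (m * n) = a m * a n) ∧
      (∀ p r : ℕ, p.Prime →
        a (p ^ (r + 2)) = a p * a (p ^ (r + 1)) - (p : ℂ) ^ ((k : ℤ) - 1) * a (p ^ r)) ∧
      ∀ n, conj (a n) = a n :=
  ⟨fun _ _ h => EigenPrimes.coef_mul hf h, fun _ r hp => EigenPrimes.coef_prime_pow hf hp r,
    EigenPrimes.conj_coef hf⟩

/-- **No zeros outside the open critical strip, its edges included.** -/
theorem eigenform_LFunction_ne_zero (hk : 1 ≤ k) {f : CuspForm (Gamma0 1) (k : ℤ)}
    (hf : IsEigenformOne f) {s : ℂ}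
    (hs : ((k : ℝ) + 1) / 2 ≤ s.re ∨ s.re ≤ ((k : ℝ) - 1) / 2) : centralLambda f s ≠ 0 := by
  have key : ∀ s : ℂ, ((k : ℝ) + 1) / 2 ≤ s.re → centralLambda f s ≠ 0 := fun s hs h => by
    refine EigenPrimes.lHat_ne_zero hf hk (w := s - EigenPrimes.shift k) ?_ ?_
    · rw [sub_re, EigenPrimes.shift_re]
      linarith
    · simp [EigenPrimes.lHat, h]
  rcases hs with h | h
  · exact key s h
  · intro h0
    refine key ((k : ℂ) - s) ?_ ?_
    · simp only [sub_re, natCast_re]
      linarith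
    · rw [KohnenNonvanishing.centralLambda_sub (by omega) f, h0, mul_zero]

/-- The L-series converges for `re s > (k+1)/2` and continues without zeros to the edge. -/
theorem eigenform_LSeries_continuation (hk : 1 ≤ k) {f : CuspForm (Gamma0 1) (k : ℤ)}
    (hf : IsEigenformOne f) :
    ∃ E : ℂ → ℂ, Differentiable ℂ E ∧
      (∀ s : ℂ, ((k : ℝ) + 1) / 2 < s.re →
        LSeriesSummable (fun n => (qExpansion 1 f).coeff n) s ∧
          E s = LSeries (fun n => (qExpansion 1 f).coeff n) s) ∧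
      ∀ s : ℂ, ((k : ℝ) + 1) / 2 ≤ s.re → E s ≠ 0 := by
  have hre : ∀ s : ℂ, (s - EigenPrimes.shift k).re = s.re - ((k : ℝ) - 1) / 2 := fun s => by
    rw [sub_re, EigenPrimes.shift_re]
  refine ⟨fun s => EigenPrimes.lHat f (s - EigenPrimes.shift k),
    (EigenPrimes.differentiable_lHat (by omega) f).comp (differentiable_id.sub_const _),
    fun s hs => ?_, fun s hs => EigenPrimes.lHat_ne_zero hf hk (by rw [hre]; linarith)⟩
  have h1 : 1 < (s - EigenPrimes.shift k).re := by rw [hre]; linarith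
  have e : ∀ n, LSeries.term (fun n => (qExpansion 1 f).coeff n) s n =
      LSeries.term (EigenPrimes.cast' (EigenPrimes.eig f)) (s - EigenPrimes.shift k) n :=
    fun n => by rw [← EigenPrimes.lSeries_term_eig hf, sub_add_cancel]
  exact ⟨(EigenPrimes.summable_eig hf h1).congr fun n => (e n).symm,
    (EigenPrimes.lHat_eq hf hk h1).trans (tsum_congr fun n => (e n).symm)⟩

/-- The Rankin–Selberg series continues without zeros to `re w ≥ 1`. -/
theorem eigenform_rankinSelberg_ne_zero (hk : 1 ≤ k) {f : CuspForm (Gamma0 1) (k : ℤ)}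
    (hf : IsEigenformOne f) :
    ∃ E : ℂ → ℂ, Differentiable ℂ E ∧ (∀ w : ℂ, 1 < w.re → E w = (w - 1) *
        (riemannZeta (2 * w) *
          LSeries (fun n => (‖(qExpansion 1 f).coeff n‖ ^ 2 : ℝ)) (w + k - 1))) ∧
      ∀ w : ℂ, 1 ≤ w.re → E w ≠ 0 :=
  ⟨EigenPrimes.rHat f, EigenPrimes.differentiable_rHat f,
    fun _ hw => EigenPrimes.rHat_eq_series hk f hw,
    fun _ hw => EigenPrimes.rHat_ne_zero hf hk hw⟩

private theorem eigLift_prime {f : CuspForm (Gamma0 1) (k : ℤ)} {p : ℕ} (hp : p.Prime) :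
    EigenPrimes.eigLift f p = EigenPrimes.eig f p * Real.log p := by
  rw [EigenPrimes.eigLift, EigenPrimes.primeLift_prime _ hp, EigenPrimes.powerSum, mul_comm]

/-- **The prime number theorem for an eigenform.** -/
theorem eigenform_prime_number_theorem (hk : 3 ≤ k) {f : CuspForm (Gamma0 1) (k : ℤ)}
    (hf : IsEigenformOne f) :
    Tendsto (fun x : ℝ => (∑ p ∈ (Finset.Icc 1 ⌊x⌋₊).filter Nat.Prime,
        (qExpansion 1 f).coeff p / (((p : ℝ) ^ (((k : ℝ) - 1) / 2) : ℝ) : ℂ) *
          (Real.log p : ℂ)) / (x : ℂ)) atTop (𝓝 0) ∧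
      Tendsto (fun x : ℝ => (∑ p ∈ (Finset.Icc 1 ⌊x⌋₊).filter Nat.Prime,
        (qExpansion 1 f).coeff p * (Real.log p : ℂ)) /
          ((x ^ (((k : ℝ) + 1) / 2) : ℝ) : ℂ)) atTop (𝓝 0) := by
  have hkr : (3 : ℝ) ≤ k := by exact_mod_cast hk
  set u : ℕ → ℝ := fun n => if n.Prime then EigenPrimes.eigLift f n else 0
  have hu : Tendsto (fun x => EigenPrimes.upTo u x / x) atTop (𝓝 0) := by
    simpa only [EigenPrimes.upTo, EigenPrimes.upToPrime, u, ← Finset.sum_filter] using
      EigenPrimes.tendsto_prime_eig hk hf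
  refine ⟨?_, ?_⟩
  · rw [← ofReal_zero]
    refine ((continuous_ofReal.tendsto 0).comp hu).congr fun x => ?_
    simp only [Function.comp_apply, EigenPrimes.upTo, u, ← Finset.sum_filter, ofReal_div,
      ofReal_sum]
    congr 1
    refine Finset.sum_congr rfl fun p hp => ?_
    rw [eigLift_prime (Finset.mem_filter.1 hp).2, EigenPrimes.eig_apply, ofReal_mul, ofReal_div,
      EigenPrimes.ofReal_re_coef hf]
  · rw [← ofReal_zero]
    refine ((continuous_ofReal.tendsto 0).comp (EigenPrimes.tendsto_weighted hu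
      (a := ((k : ℝ) - 1) / 2) (by linarith))).congr fun x => ?_
    simp only [Function.comp_apply, EigenPrimes.upTo, u, mul_ite, mul_zero, ← Finset.sum_filter,
      ofReal_div, ofReal_sum]
    rw [show ((k : ℝ) - 1) / 2 + 1 = ((k : ℝ) + 1) / 2 by ring]
    congr 1
    refine Finset.sum_congr rfl fun p hp => ?_
    have hp' := (Finset.mem_filter.1 hp).2
    have hne : ((p : ℝ) ^ (((k : ℝ) - 1) / 2)) ≠ 0 :=
      (Real.rpow_pos_of_pos (Nat.cast_pos.2 hp'.pos) _).ne'
    rw [eigLift_prime hp', EigenPrimes.eig_apply, ← mul_assoc, mul_div_cancel₀ _ hne, ofReal_mul,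
      EigenPrimes.ofReal_re_coef hf]

/-- **The mean square at the primes.** -/
theorem eigenform_prime_mean_square (hk : 3 ≤ k) {f : CuspForm (Gamma0 1) (k : ℤ)}
    (hf : IsEigenformOne f) :
    Tendsto (fun x : ℝ => (∑ p ∈ (Finset.Icc 1 ⌊x⌋₊).filter Nat.Prime,
      ‖(qExpansion 1 f).coeff p‖ ^ 2 / (p : ℝ) ^ (k - 1) * Real.log p) / x) atTop (𝓝 1) := by
  refine (EigenPrimes.tendsto_prime_rankin hk hf).congr fun x => ?_
  simp only [EigenPrimes.upToPrime]
  congr 1
  refine Finset.sum_congr rfl fun p hp => ?_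
  rw [EigenPrimes.rankinLift, EigenPrimes.primeLift_prime _ (Finset.mem_filter.1 hp).2,
    EigenPrimes.powerSum, mul_comm, sq (EigenPrimes.eig f p)]
  have h := EigenPrimes.eigSq_eq hf p
  rw [EigenPrimes.eigSq, ArithmeticFunction.pmul_apply, RankinSelberg.coeffSq] at h
  rw [h, ← Nat.cast_pred (by omega : 0 < k), Real.rpow_natCast]

/-- **Ramanujan's `τ` at the primes.** -/
theorem ramanujanTau_primes :
    Tendsto (fun x : ℝ => (∑ p ∈ (Finset.Icc 1 ⌊x⌋₊).filter Nat.Prime,
        ((PowerSeries.coeff p FA.Tau.deltaInt : ℤ) : ℝ) * Real.log p) / x ^ (13 / 2 : ℝ))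
        atTop (𝓝 0) ∧
      Tendsto (fun x : ℝ => (∑ p ∈ (Finset.Icc 1 ⌊x⌋₊).filter Nat.Prime,
        ((PowerSeries.coeff p FA.Tau.deltaInt : ℤ) : ℝ) ^ 2 / (p : ℝ) ^ 11 * Real.log p) / x)
        atTop (𝓝 1) := by
  set f : CuspForm (Gamma0 1) ((12 : ℕ) : ℤ) := FA.Tau.deltaForm with hfdef
  have hτ : ∀ n, (qExpansion 1 f).coeff n = ((PowerSeries.coeff n FA.Tau.deltaInt : ℤ) : ℂ) :=
    fun n => FA.Tau.qCoeff_deltaForm n
  have hf : IsEigenformOne f := ⟨by rw [hτ, FA.Tau.coeff_deltaInt_one, Int.cast_one],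
    fun l hl => Poincare.exists_eq_smul_deltaOne _⟩
  refine ⟨?_, ?_⟩
  · have h := (Complex.continuous_re.tendsto _).comp
      (eigenform_prime_number_theorem (by norm_num) hf).2
    rw [Complex.zero_re, show (((12 : ℕ) : ℝ) + 1) / 2 = 13 / 2 by norm_num] at h
    refine h.congr fun x => ?_
    simp only [Function.comp_apply, div_ofReal_re, re_sum, hτ, ← ofReal_intCast, ← ofReal_mul,
      ofReal_re]
  · refine (eigenform_prime_mean_square (by norm_num) hf).congr fun x => ?_
    simp only [hτ, Complex.norm_intCast, sq_abs]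

end FA.Summary

end
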