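import Fermat.Agent.Faltings.Curves

/-!
# Hermite–Minkowski, Faltings' lemma and finitely many L-functions

There are only finitely many Galois extensions of `ℚ` of bounded degree unramified outside a finite
set. With Chebotarev's theorem this gives Faltings' lemma: finitely many primes determine the
traces of the Galois representations of given dimension unramified outside a finite set. So for
every finite set `S` finitely many primes determine the `a_q` of all elliptic curves over `ℚ` with
good reduction outside `S`, and these curves have only finitely many L-functions; nothing is asked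
of the reduction at the primes of `S`.
-/

set_option autoImplicit false
set_option linter.unusedSectionVars false
set_option linter.style.haveILetI false

noncomputable section

open WeierstrassCurve Matrix NumberField

local notation "Qb" => AlgebraicClosure ℚ
local notation "GQ" => AlgebraicClosure ℚ ≃ₐ[ℚ] AlgebraicClosure ℚ

namespace FA.Summary

/-- **Hermite and Minkowski**: for a finite set `S` and a bound `n` there are only finitely many
Galois extensions of `ℚ` of degree at most `n` in `ℚ̄` which are unramified outside `S`. -/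
theorem hermite_minkowski_galois (S : Finset ℕ) (n : ℕ) :
    {K : IntermediateField ℚ Qb | IsGalois ℚ K ∧ FiniteDimensional ℚ K ∧
      Module.finrank ℚ K ≤ n ∧ ∀ (q : ℕ) (P : Ideal (𝓞 K)) [P.IsMaximal], q.Prime → q ∉ S →
        (q : 𝓞 K) ∈ P → Algebra.IsUnramifiedAt ℤ P}.Finite := by
  classical
  set B : ℕ := (n * ∏ p ∈ S.filter Nat.Prime, p) ^ n
  refine ((NumberField.finite_of_discr_bdd Qb B).image Subtype.val).subset ?_
  rintro K ⟨hgal, hfd, hdeg, hun⟩
  have : NumberField K := { }
  refine ⟨⟨K, hfd⟩, ?_, rfl⟩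
  have h := FA.Faltings.natAbs_discr_le (K := K) (S := S.filter Nat.Prime)
    (fun p hp => (Finset.mem_filter.mp hp).2) fun q P _ hq hqS hqP =>
      hun q P hq (fun h => hqS (Finset.mem_filter.mpr ⟨h, hq⟩)) hqP
  show |discr K| ≤ (B : ℤ)
  rw [Int.abs_eq_natAbs]
  refine Int.ofNat_le.mpr (h.trans ((Nat.pow_le_pow_left (Nat.mul_le_mul_right _ hdeg) _).trans
    (Nat.pow_le_pow_right (Nat.mul_pos (Module.finrank_pos.trans_le hdeg) ?_) hdeg)))
  exact Finset.prod_pos fun p hp => (Finset.mem_filter.mp hp).2.pos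

/-- **Faltings' finiteness lemma**: for a finite set `S` containing the prime `l` and a dimension
`d` there is a finite set `T` of primes outside `S` such that two representations of `G_ℚ` modulo
any power of `l`, trivial on an open subgroup and on the inertia groups outside `S`, have equal
traces as soon as they do at the Frobenius elements of the primes of `T`. -/
theorem faltings_trace_lemma (S : Finset ℕ) {l : ℕ} (hl : l.Prime) (d : ℕ) :
    ∃ T : Finset ℕ, (∀ q ∈ T, q.Prime ∧ q ∉ S) ∧
      ∀ (k : ℕ) (ρ ρ' : GQ →* Matrix (Fin d) (Fin d) (ZMod (l ^ k))),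
        IsOpen (ρ.ker : Set GQ) → IsOpen (ρ'.ker : Set GQ) →
        (∀ q : ℕ, q.Prime → q ∉ S → ∀ A : ValuationSubring Qb, A.LiesOverPrime q →
          ∀ σ ∈ A.inertiaSubgroupIn ℚ, ρ σ = 1 ∧ ρ' σ = 1) →
        (∀ q ∈ T, ∀ A : ValuationSubring Qb, A.LiesOverPrime q → ∀ σ : GQ,
          A.IsFrobeniusAt σ q → (ρ σ).trace = (ρ' σ).trace) →
        ∀ σ, (ρ σ).trace = (ρ' σ).trace := by
  obtain ⟨T, hT, key⟩ := FA.Faltings.exists_finset_trace_eq (ι := Fin d) S hl
  exact ⟨T, hT, fun k ρ ρ' ho ho' hi => key k ρ ρ' ho ho'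
    (fun q hq hqS A hA σ hσ => (hi q hq hqS A hA σ hσ).1)
    fun q hq hqS A hA σ hσ => (hi q hq hqS A hA σ hσ).2⟩

/-- **Faltings' lemma over `ℤ_l`**: the same for continuous representations in `ℤ_l`. -/
theorem faltings_trace_lemma_padic (S : Finset ℕ) (l : ℕ) [hl : Fact l.Prime] (d : ℕ) :
    ∃ T : Finset ℕ, (∀ q ∈ T, q.Prime ∧ q ∉ S) ∧
      ∀ ρ ρ' : GQ →* Matrix (Fin d) (Fin d) ℤ_[l],
        (∀ i j, Continuous fun σ => ρ σ i j) → (∀ i j, Continuous fun σ => ρ' σ i j) →
        (∀ q : ℕ, q.Prime → q ∉ S → ∀ A : ValuationSubring Qb, A.LiesOverPrime q →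
          ∀ σ ∈ A.inertiaSubgroupIn ℚ, ρ σ = 1 ∧ ρ' σ = 1) →
        (∀ q ∈ T, ∀ A : ValuationSubring Qb, A.LiesOverPrime q → ∀ σ : GQ,
          A.IsFrobeniusAt σ q → (ρ σ).trace = (ρ' σ).trace) →
        ∀ σ, (ρ σ).trace = (ρ' σ).trace := by
  obtain ⟨T, hT, key⟩ := faltings_trace_lemma S hl.out d
  refine ⟨T, hT, fun ρ ρ' hc hc' hi htr σ => PadicInt.ext_of_toZModPow.mp fun n => ?_⟩
  let red : Matrix (Fin d) (Fin d) ℤ_[l] →* Matrix (Fin d) (Fin d) (ZMod (l ^ n)) :=
    (PadicInt.toZModPow n).mapMatrix.toMonoidHom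
  have hred : ∀ r : GQ →* Matrix (Fin d) (Fin d) ℤ_[l], (∀ i j, Continuous fun σ => r σ i j) →
      IsOpen ((red.comp r).ker : Set GQ) := fun r hr => by
    have hU : IsOpen ((RingHom.ker (PadicInt.toZModPow n : ℤ_[l] →+* ZMod (l ^ n)) :
        Ideal ℤ_[l]) : Set ℤ_[l]) := by
      rw [PadicInt.ker_toZModPow]
      have : ((Ideal.span {(l : ℤ_[l]) ^ n} : Ideal ℤ_[l]) : Set ℤ_[l]) =
          Metric.ball 0 ((l : ℝ) ^ (-(n : ℤ) + 1)) := by
        ext x
        rw [SetLike.mem_coe, ← PadicInt.norm_le_pow_iff_mem_span_pow,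
          PadicInt.norm_le_pow_iff_norm_lt_pow_add_one, Metric.mem_ball, dist_zero_right]
      rw [this]
      exact Metric.isOpen_ball
    have : ((red.comp r).ker : Set GQ) = ⋂ i, ⋂ j, (fun σ => r σ i j - (1 : Matrix _ _ ℤ_[l]) i j)
        ⁻¹' ((RingHom.ker (PadicInt.toZModPow n : ℤ_[l] →+* ZMod (l ^ n)) : Ideal ℤ_[l]) :
          Set ℤ_[l]) := by
      ext τ
      simp only [SetLike.mem_coe, MonoidHom.mem_ker, Set.mem_iInter, Set.mem_preimage,
        RingHom.mem_ker, map_sub, sub_eq_zero]
      rw [← Matrix.ext_iff, show (1 : Matrix (Fin d) (Fin d) (ZMod (l ^ n))) = red 1 from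
        (map_one red).symm]
      rfl
    rw [this]
    exact isOpen_iInter_of_finite fun i => isOpen_iInter_of_finite fun j =>
      ((hr i j).sub continuous_const).isOpen_preimage _ hU
  have h := key n (red.comp ρ) (red.comp ρ') (hred ρ hc) (hred ρ' hc')
    (fun q hq hqS A hA τ hτ => by
      rw [MonoidHom.comp_apply, MonoidHom.comp_apply, (hi q hq hqS A hA τ hτ).1,
        (hi q hq hqS A hA τ hτ).2, map_one]
      exact ⟨rfl, rfl⟩)
    (fun q hq A hA τ hτ => by
      simpa [red, AddMonoidHom.map_trace] using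
        congrArg (PadicInt.toZModPow n) (htr q hq A hA τ hτ)) σ
  simpa [red, AddMonoidHom.map_trace] using h

/-- **Finitely many primes determine the traces**: for a finite set `S` there is a finite set `T`
of primes such that two elliptic curves over `ℚ` with good reduction outside `S` and equal `a_q` at
the primes of `T` have equal `a_q` at every prime outside `S`. -/
theorem exists_primes_determine_traces (S : Finset ℕ) :
    ∃ T : Finset ℕ, (∀ q ∈ T, q.Prime ∧ q ∉ S) ∧
      ∀ (E E' : WeierstrassCurve ℚ) [E.IsElliptic] [E'.IsElliptic],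
        (∀ p : ℕ, ∀ [Fact p.Prime], p ∉ S → ∃ C : VariableChange ℚ_[p],
          HasGoodReduction ℤ_[p] (C • E.map (algebraMap ℚ ℚ_[p]))) →
        (∀ p : ℕ, ∀ [Fact p.Prime], p ∉ S → ∃ C : VariableChange ℚ_[p],
          HasGoodReduction ℤ_[p] (C • E'.map (algebraMap ℚ ℚ_[p]))) →
        (∀ q ∈ T, E.LFunction q = E'.LFunction q) →
        ∀ q : ℕ, q.Prime → q ∉ S → E.LFunction q = E'.LFunction q :=
  FA.Faltings.exists_finset_LFunction_eq S

/-- **Shafarevich's finiteness for L-functions**: for a finite set `S` the L-functions of all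
elliptic curves over `ℚ` with good reduction outside `S` form a finite set. -/
theorem finite_LFunctions (S : Finset ℕ) :
    {L : ArithmeticFunction ℤ | ∃ (E : WeierstrassCurve ℚ) (_ : E.IsElliptic),
      (∀ p : ℕ, ∀ [Fact p.Prime], p ∉ S → ∃ C : VariableChange ℚ_[p],
        HasGoodReduction ℤ_[p] (C • E.map (algebraMap ℚ ℚ_[p]))) ∧
      E.LFunction = L}.Finite :=
  FA.Faltings.finite_LFunction_set S

end FA.Summary

end
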