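import Fermat.Agent.GoodReduction.Criterion
import Fermat.Agent.Root.SummaryFaltings
import Fermat.Agent.Root.SummaryTateModules

/-!
# The criterion of Néron, Ogg and Shafarevich, and equal traces give the same bad primes

At every prime `q`, also `2` and `3`, an elliptic curve over `ℚ` has good reduction exactly when
inertia fixes its `p`-power torsion, `p ≠ q`, with nothing assumed on the reduction. So two curves
with the same `a_l` at almost all primes, whose rational Tate modules are isomorphic, have good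
reduction at the same primes and the same `a_q` there, and for every finite `S` the curves with
Tate module unramified outside `S` have finitely many L-functions.
-/

set_option autoImplicit false
set_option linter.unusedSectionVars false
set_option linter.style.haveILetI false

noncomputable section

open WeierstrassCurve WeierstrassCurve.Affine FA.EC FA.Frob FA.RT
open scoped WeierstrassCurve.Affine

local notation "Qb" => AlgebraicClosure ℚ
local notation "GQ" => AlgebraicClosure ℚ ≃ₐ[ℚ] AlgebraicClosure ℚ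

namespace FA.GoodReduction

/-- An equivariant surjection carries trivial inertia over. -/
theorem fixed_of_hom {E E' : WeierstrassCurve ℚ} [E.IsElliptic] [E'.IsElliptic] {p : ℕ}
    {f : AddCommGroup.primaryComponent (E.toAffine⁄Qb).Point p →+
      AddCommGroup.primaryComponent (E'.toAffine⁄Qb).Point p}
    (hfs : Function.Surjective f)
    (hf : ∀ (σ : GQ) P Q, Affine.Point.map σ.toAlgHom P.1 = Q.1 →
      Affine.Point.map σ.toAlgHom (f P).1 = (f Q).1) {σ : GQ}
    (h : ∀ (n : ℕ) (P : (E.toAffine⁄Qb).Point), (p ^ n : ℕ) • P = 0 →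
      Affine.Point.map σ.toAlgHom P = P)
    (n : ℕ) (P : (E'.toAffine⁄Qb).Point) (hP : (p ^ n : ℕ) • P = 0) :
    Affine.Point.map σ.toAlgHom P = P := by
  obtain ⟨x, hxP⟩ := hfs ⟨P, AddCommGroup.mem_primaryComponent.mpr ⟨n, hP⟩⟩
  obtain ⟨m, hm⟩ := AddCommGroup.mem_primaryComponent.mp x.2
  have := hf σ x x (h m x.1 hm)
  rwa [hxP] at this

end FA.GoodReduction

namespace FA.Summary

open FA.GoodReduction

/-- **The criterion of Néron, Ogg and Shafarevich**, at every prime `q` and with no hypothesis on
the reduction: an elliptic curve over `ℚ` has good reduction at `q` exactly when inertia at every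
place above `q` fixes its points of `p`-power order, for one prime `p ≠ q`. -/
theorem neronOggShafarevich_all (E : WeierstrassCurve ℚ) [E.IsElliptic]
    [inst : DecidableEq (AlgebraicClosure ℚ)] {q : ℕ} [Fact q.Prime]
    {p : ℕ} (hp : p.Prime) (hpq : p ≠ q) :
    (∃ C : VariableChange ℚ_[q], HasGoodReduction ℤ_[q] (C • E.map (algebraMap ℚ ℚ_[q]))) ↔
      ∀ A : ValuationSubring (AlgebraicClosure ℚ), A.LiesOverPrime q →
        ∀ σ ∈ A.inertiaSubgroupIn ℚ, ∀ (n : ℕ) (P : (E.toAffine⁄(AlgebraicClosure ℚ)).Point),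
          (p ^ n : ℕ) • P = 0 → Affine.Point.map σ.toAlgHom P = P := by
  obtain rfl : inst = instDecEqAlgebraicClosureRat := Subsingleton.elim _ _
  refine ⟨fun h A hA σ hσ n P hP => inertia_fixes_torsion_of_good E h hp hpq hA hσ P hP,
    fun h => ?_⟩
  have := Fact.mk hp
  obtain ⟨A, hA⟩ := FA.Deform.exists_liesOverPrime (Fact.out : q.Prime)
  obtain ⟨W, hW⟩ := FA.Frob.exists_integralModel E
  haveI := FA.Frob.ratCurve_isElliptic_of_Δ (FA.Frob.Δ_ne_zero_of_model hW)
  obtain ⟨e, he⟩ := FA.Root.exists_equiv_of_model hW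
  have hj : 0 ≤ padicValRat q E.j := (potentiallyGood_iff E hp hpq hA).mpr
    ⟨⊥, inferInstance, fun σ hσ _ => h A hA σ hσ⟩
  obtain ⟨Z, ⟨C₁, hC₁⟩, hZ⟩ := exists_integralModel_of_fixed (p := p) (W := W) hA hpq.symm
    (by rw [FA.OggShafarevich.j_ratCurve hW]; exact hj) fun σ hσ n x hx => e.injective (by
      rw [he]
      exact h A hA σ hσ n _ (by rw [← map_nsmul, hx, map_zero]))
  obtain ⟨C₀, hC₀⟩ := hW
  exact FA.Root.exists_good_of_model (W := Z) ⟨C₁ * C₀, by rw [mul_smul, hC₀]; exact hC₁⟩ q hZ

/-- **Equal traces give the same bad primes**: two elliptic curves over `ℚ` with the same `a_l` at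
almost all primes have good reduction at the same primes. -/
theorem good_iff_of_traces (E E' : WeierstrassCurve ℚ) [E.IsElliptic] [E'.IsElliptic]
    (S : Finset ℕ) (heq : ∀ l : ℕ, l.Prime → l ∉ S → E.LFunction l = E'.LFunction l)
    {q : ℕ} [Fact q.Prime] :
    (∃ C : VariableChange ℚ_[q], HasGoodReduction ℤ_[q] (C • E.map (algebraMap ℚ ℚ_[q]))) ↔
      ∃ C : VariableChange ℚ_[q], HasGoodReduction ℤ_[q] (C • E'.map (algebraMap ℚ ℚ_[q])) := by
  obtain ⟨p, hpq, hp⟩ := Nat.exists_infinite_primes (q + 1)
  obtain ⟨f, hfs, -, hf⟩ := tateIsogeny_of_traces_all E E' S heq hp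
  obtain ⟨g, hgs, -, hg⟩ := tateIsogeny_of_traces_all E' E S
    (fun l hl hlS => (heq l hl hlS).symm) hp
  rw [neronOggShafarevich_all E hp (by omega : p ≠ q),
    neronOggShafarevich_all E' hp (by omega : p ≠ q)]
  exact ⟨fun h A hA σ hσ => fixed_of_hom hfs hf (h A hA σ hσ),
    fun h A hA σ hσ => fixed_of_hom hgs hg (h A hA σ hσ)⟩

/-- **Equal traces at almost all primes are equal wherever one curve is good.** -/
theorem traces_eq_of_good (E E' : WeierstrassCurve ℚ) [E.IsElliptic] [E'.IsElliptic]
    (S : Finset ℕ) (heq : ∀ l : ℕ, l.Prime → l ∉ S → E.LFunction l = E'.LFunction l)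
    {q : ℕ} [Fact q.Prime]
    (h : ∃ C : VariableChange ℚ_[q], HasGoodReduction ℤ_[q] (C • E.map (algebraMap ℚ ℚ_[q]))) :
    E.LFunction q = E'.LFunction q :=
  traces_eq_of_almost_all E E' S heq h ((good_iff_of_traces E E' S heq).mp h)

/-- **Finitely many L-functions with given ramification**: for a finite set `S` and a prime `p` the
elliptic curves over `ℚ` whose `p`-power torsion is unramified outside `S` and `p` have only
finitely many L-functions. -/
theorem finite_LFunctions_of_unramified (S : Finset ℕ) {p : ℕ} (hp : p.Prime)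
    [inst : DecidableEq (AlgebraicClosure ℚ)] :
    {L : ArithmeticFunction ℤ | ∃ (E : WeierstrassCurve ℚ) (_ : E.IsElliptic),
      (∀ q : ℕ, q.Prime → q ∉ S → q ≠ p → ∀ A : ValuationSubring (AlgebraicClosure ℚ),
        A.LiesOverPrime q → ∀ σ ∈ A.inertiaSubgroupIn ℚ,
          ∀ (n : ℕ) (P : (E.toAffine⁄(AlgebraicClosure ℚ)).Point),
            (p ^ n : ℕ) • P = 0 → Affine.Point.map σ.toAlgHom P = P) ∧
      E.LFunction = L}.Finite := by
  obtain rfl : inst = instDecEqAlgebraicClosureRat := Subsingleton.elim _ _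
  refine (finite_LFunctions (insert p S)).subset ?_
  rintro L ⟨E, hE, h, rfl⟩
  refine ⟨E, hE, fun q _ hqS => ?_, rfl⟩
  rw [Finset.mem_insert, not_or] at hqS
  exact (neronOggShafarevich_all E hp (Ne.symm hqS.1)).mpr (h q Fact.out hqS.2 hqS.1)

end FA.Summary

end
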