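import Fermat.Agent.GoodThree.Models
import Fermat.Agent.Root.SummaryGoodReductionTraces

/-!
# The eight curves with good reduction outside three

`FA.GoodThree.threeModel` lists eight equations: `y² + y = x³ + k` for
`k ∈ {0, -1, 2, -7, 20, -61}`, then `y² + y = x³ - 30 x + 63` and `y² + y = x³ - 270 x - 1708`.

* `good_outside_three_iff`: an elliptic curve over `ℚ` has good reduction at every prime other
  than `3` exactly when it is isomorphic over `ℚ` to one of these;
* `good_outside_three_unique`: that one is unique, so there are exactly eight;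
* `heavenly_three` (Rasmussen–Tamagawa at `p = 3`): the same as all points of `3`-power order
  being unramified outside `3`.
-/

set_option autoImplicit false
set_option linter.unusedSectionVars false
set_option linter.style.haveILetI false

noncomputable section

open WeierstrassCurve FA.GoodThree
open scoped WeierstrassCurve.Affine

namespace FA.Summary

/-- **The eight curves with good reduction outside three.** -/
theorem good_outside_three_iff (E : WeierstrassCurve ℚ) [E.IsElliptic] :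
    (∀ q : ℕ, [Fact q.Prime] → q ≠ 3 →
      ∃ C : VariableChange ℚ_[q], HasGoodReduction ℤ_[q] (C • E.map (algebraMap ℚ ℚ_[q]))) ↔
      ∃ i, (threeModel i).IsIntegralModelOf E := by
  refine ⟨fun hgood => ?_, fun ⟨i, hi⟩ q _ hq => ?_⟩
  · obtain ⟨W, ⟨C₀, hC₀⟩, hd⟩ := FA.SerreLarge.exists_goodModel E
    have hΔ0 : W.Δ ≠ 0 := FA.Frob.Δ_ne_zero_of_model (E := E) ⟨C₀, hC₀⟩
    have hn := Nat.eq_prime_pow_of_unique_prime_dvd (p := 3) (Int.natAbs_ne_zero.2 hΔ0)
      fun {d} hd' hdvd => by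
        by_contra hne
        have := Fact.mk hd'
        exact hd d (hgood d hne) (Int.natCast_dvd.2 hdvd)
    generalize W.Δ.natAbs.primeFactorsList.length = k at hn
    obtain ⟨s, hs, hΔ⟩ : ∃ s : ℤ, (s = 1 ∨ s = -1) ∧ W.Δ = s * 3 ^ k := by
      rcases Int.natAbs_eq W.Δ with e | e
      · exact ⟨1, Or.inl rfl, by rw [e, hn]; push_cast; ring⟩
      · exact ⟨-1, Or.inr rfl, by rw [e, hn]; push_cast; ring⟩
    obtain ⟨i, C', hC'⟩ := exists_threeModel W hs hΔ
    exact ⟨i, C' * C₀, by rw [mul_smul, hC₀, hC']⟩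
  · refine FA.Root.exists_good_of_model hi q fun h => hq ?_
    rw [threeModel_invariants.1 i, dvd_neg] at h
    have h' := Int.natCast_dvd.1 h
    rw [Int.natAbs_pow] at h'
    exact (Nat.prime_dvd_prime_iff_eq Fact.out Nat.prime_three).1
      ((Fact.out : q.Prime).dvd_of_dvd_pow h')

/-- **Exactly eight**: the models are pairwise non-isomorphic. -/
theorem good_outside_three_unique (E : WeierstrassCurve ℚ) [E.IsElliptic]
    (hgood : ∀ q : ℕ, [Fact q.Prime] → q ≠ 3 →
      ∃ C : VariableChange ℚ_[q], HasGoodReduction ℤ_[q] (C • E.map (algebraMap ℚ ℚ_[q]))) :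
    ∃! i, (threeModel i).IsIntegralModelOf E := by
  obtain ⟨i, hM⟩ := (good_outside_three_iff E).1 hgood
  refine ⟨i, hM, fun j ⟨C', hC'⟩ => ?_⟩
  obtain ⟨C, hC⟩ := hM
  exact eq_of_isomorphic_three (C := C * C'⁻¹)
    (by rw [mul_smul, ← hC', inv_smul_smul, hC])

/-- **Each of the eight is an elliptic curve, good outside three.** -/
theorem threeModel_good (i : Fin 8) :
    ∃ (E : WeierstrassCurve ℚ) (_ : E.IsElliptic), (threeModel i).IsIntegralModelOf E ∧
      ∀ q : ℕ, [Fact q.Prime] → q ≠ 3 →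
        ∃ C : VariableChange ℚ_[q], HasGoodReduction ℤ_[q] (C • E.map (algebraMap ℚ ℚ_[q])) := by
  have := FA.Frob.ratCurve_isElliptic_of_Δ (Δ_threeModel_ne_zero i)
  exact ⟨_, this, ⟨1, one_smul _ _⟩, (good_outside_three_iff _).2 ⟨i, ⟨1, one_smul _ _⟩⟩⟩

/-- **Heavenly at three = good outside three = the eight.** -/
theorem heavenly_three (E : WeierstrassCurve ℚ) [E.IsElliptic]
    [inst : DecidableEq (AlgebraicClosure ℚ)] :
    ((∀ q : ℕ, [Fact q.Prime] → q ≠ 3 →
        ∃ C : VariableChange ℚ_[q], HasGoodReduction ℤ_[q] (C • E.map (algebraMap ℚ ℚ_[q]))) ↔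
      ∀ q : ℕ, q.Prime → q ≠ 3 → ∀ A : ValuationSubring (AlgebraicClosure ℚ), A.LiesOverPrime q →
        ∀ σ ∈ A.inertiaSubgroupIn ℚ, ∀ (n : ℕ) (P : (E.toAffine⁄(AlgebraicClosure ℚ)).Point),
          (3 ^ n : ℕ) • P = 0 → Affine.Point.map σ.toAlgHom P = P) ∧
    ((∀ q : ℕ, q.Prime → q ≠ 3 → ∀ A : ValuationSubring (AlgebraicClosure ℚ), A.LiesOverPrime q →
        ∀ σ ∈ A.inertiaSubgroupIn ℚ, ∀ (n : ℕ) (P : (E.toAffine⁄(AlgebraicClosure ℚ)).Point),
          (3 ^ n : ℕ) • P = 0 → Affine.Point.map σ.toAlgHom P = P) ↔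
      ∃ i, (threeModel i).IsIntegralModelOf E) := by
  obtain rfl : inst = instDecEqAlgebraicClosureRat := Subsingleton.elim _ _
  have key : (∀ q : ℕ, [Fact q.Prime] → q ≠ 3 →
      ∃ C : VariableChange ℚ_[q], HasGoodReduction ℤ_[q] (C • E.map (algebraMap ℚ ℚ_[q]))) ↔
      ∀ q : ℕ, q.Prime → q ≠ 3 → ∀ A : ValuationSubring (AlgebraicClosure ℚ), A.LiesOverPrime q →
        ∀ σ ∈ A.inertiaSubgroupIn ℚ, ∀ (n : ℕ) (P : (E.toAffine⁄(AlgebraicClosure ℚ)).Point),
          (3 ^ n : ℕ) • P = 0 → Affine.Point.map σ.toAlgHom P = P := by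
    refine ⟨fun h q hq hq3 => ?_, fun h q hq hq3 => ?_⟩
    · have := Fact.mk hq
      exact (neronOggShafarevich_all E Nat.prime_three hq3.symm).1 (h q hq3)
    · exact (neronOggShafarevich_all E Nat.prime_three hq3.symm).2 (h q hq.out hq3)
  exact ⟨key, key.symm.trans (good_outside_three_iff E)⟩

end FA.Summary

end
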