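import Fermat.Agent.PowerReciprocity.Cubic

/-!
# The reciprocity laws of Eisenstein and of cubic residues

For an odd prime `l` and `K = ℚ(ζ_l)`, `FA.PowerReciprocity.symbol l I x` is the power residue symbol `(x / I)`.

* `powerResidueSymbol_spec`, `powerResidueSymbol_mul`, `powerResidueSymbol_equivariant`: at a prime `P ∤ l` it is the
  `l`-th root of unity congruent to `x ^ ((N P - 1) / l)`, and `1` exactly at the `l`-th powers; it is multiplicative
  in both arguments and commutes with Galois.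
* `gaussSum_pow_factorisation`: `(-g(χ_P⁻¹)) ^ l` lies in `ℤ[ζ_l]`, is `1` modulo `l` and generates `∏ (σ⁻¹ P) ^ a(σ)`.
* `eisenstein_reciprocity`: `(α / a) = (a / α)` for semi-primary `α` and `a : ℤ` prime to `l`, coprime to each other;
  `eisenstein_reciprocity_general`: `(α ^ γ / B) = (α / N B) = (N B / α)`.
* `cubic_reciprocity_law`: `(α / β) = (β / α)` for coprime semi-primary `α`, `β` of `ℤ[ω]`;
  `cubic_reciprocity_primes`: in particular for non-associated primes `≡ 2 (mod 3)`.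

Independent of S01.
-/

set_option autoImplicit false

noncomputable section

open NumberField IsDedekindDomain
open scoped Classical

namespace FA.Summary

open FA.PowerReciprocity

variable (l : ℕ) [hl : Fact l.Prime] {K : Type*} [Field K] [NumberField K] [IsCyclotomicExtension {l} ℚ K]

/-- **The symbol at a prime**: the defining congruence and the `l`-th power criterion. -/
theorem powerResidueSymbol_spec (P : Ideal (𝓞 K)) [P.IsMaximal] (hlP : (l : 𝓞 K) ∉ P) {x : 𝓞 K} (hx : x ∉ P) :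
    symbol l P x ^ l = 1 ∧ x ^ ((Ideal.absNorm P - 1) / l) - symbol l P x ∈ P ∧
      (symbol l P x = 1 ↔ ∃ y, x - y ^ l ∈ P) := by
  have hP : Prime P := Ideal.prime_of_isPrime
    (Ring.ne_bot_of_isMaximal_of_not_isField ‹P.IsMaximal› (RingOfIntegers.not_isField K)) inferInstance
  rw [symbol_prime hP]
  obtain ⟨h1, h2⟩ := symbolPrime_spec hlP hx
  exact ⟨h1, by rw [← Ideal.Quotient.eq, map_pow, h2], symbolPrime_eq_one_iff hlP hx⟩

/-- **The symbol is multiplicative**. -/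
theorem powerResidueSymbol_mul {I J : Ideal (𝓞 K)} (hI : I ≠ 0) (hJ : J ≠ 0) (hlI : l.Coprime (Ideal.absNorm I))
    (x y : 𝓞 K) : symbol l (I * J) x = symbol l I x * symbol l J x ∧
      symbol l I (x * y) = symbol l I x * symbol l I y :=
  ⟨symbol_mul_left hI hJ x, symbol_mul_right hlI x y⟩

/-- **The symbol commutes with Galois**. -/
theorem powerResidueSymbol_equivariant {I : Ideal (𝓞 K)} (hI : I ≠ 0) (hlI : l.Coprime (Ideal.absNorm I))
    (σ : K ≃ₐ[ℚ] K) (x : 𝓞 K) :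
    symbol l (I.map (RingOfIntegers.mapRingEquiv σ.toRingEquiv : 𝓞 K →+* 𝓞 K))
        (RingOfIntegers.mapRingEquiv σ.toRingEquiv x) =
      RingOfIntegers.mapRingEquiv σ.toRingEquiv (symbol l I x) :=
  symbol_map hlI hI _ x

/-- **The `l`-th power of a Gauss sum**. -/
theorem gaussSum_pow_factorisation [NeZero l] (hl2 : l ≠ 2) {q : ℕ} (hq : q.Prime) (hql : q ≠ l)
    (v : HeightOneSpectrum (𝓞 K)) (hqv : (q : 𝓞 K) ∈ v.asIdeal) [Fintype (𝓞 K ⧸ v.asIdeal)] :
    ∃ (Φ : 𝓞 K) (χ : MulChar (𝓞 K ⧸ v.asIdeal) (𝓞 K)),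
      (∀ x, χ (Ideal.Quotient.mk v.asIdeal x) = symbol l v.asIdeal x) ∧
      (∀ (φ : K →+* ℂ) (ψ : AddChar (𝓞 K ⧸ v.asIdeal) ℂ), ψ.IsPrimitive →
        φ (Φ : K) = (-gaussSum (χ⁻¹.ringHomComp (φ.comp (algebraMap (𝓞 K) K))) ψ) ^ l) ∧
      (l : 𝓞 K) ∣ Φ - 1 ∧
      ∏ σ : K ≃ₐ[ℚ] K, v.asIdeal.map (RingOfIntegers.mapRingEquiv (σ⁻¹).toRingEquiv : 𝓞 K →+* 𝓞 K) ^
        ((IsCyclotomicExtension.Rat.galEquivZMod l K σ : (ZMod l)ˣ) : ZMod l).val = Ideal.span {Φ} := by
  have := Fact.mk hq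
  obtain ⟨Φ, h1, h2, -, -, h5⟩ := exists_phi_prime hl2 hqv fun h =>
    hql ((Nat.prime_dvd_prime_iff_eq hq hl.out).mp h)
  obtain ⟨χ, hχ, hg⟩ := h5
  exact ⟨Φ, χ, fun x => by rw [hχ, symbol_prime (Ideal.prime_of_isPrime v.ne_bot v.isPrime)], hg, h2, h1⟩

/-- **Eisenstein's reciprocity law.** -/
theorem eisenstein_reciprocity (hl2 : l ≠ 2) {α : 𝓞 K} (hα : IsSemiPrimary l α) {a : ℤ} (ha : ¬ (l : ℤ) ∣ a)
    (hco : IsCoprime (Ideal.span {α}) (Ideal.span {(a : 𝓞 K)})) :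
    symbol l (Ideal.span {(a : 𝓞 K)}) α = symbol l (Ideal.span {α}) (a : 𝓞 K) :=
  eisenstein_int hl2 hα ha (coprime_natAbs_absNorm hα.ne_zero hco)

/-- **The general reciprocity law of Eisenstein**: `(α ^ γ / B) = (α / N B) = (N B / α)`. -/
theorem eisenstein_reciprocity_general (hl2 : l ≠ 2) {α : 𝓞 K} (hα : IsSemiPrimary l α) {B : Ideal (𝓞 K)}
    (hB : B ≠ 0) (hlB : l.Coprime (Ideal.absNorm B))
    (hco : (Ideal.absNorm (Ideal.span {α})).Coprime (Ideal.absNorm B)) :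
    symbol l B (stickPow l α) = symbol l (Ideal.span {α}) ((Ideal.absNorm B : ℕ) : 𝓞 K) ∧
      symbol l (Ideal.span {((Ideal.absNorm B : ℕ) : 𝓞 K)}) α =
        symbol l (Ideal.span {α}) ((Ideal.absNorm B : ℕ) : 𝓞 K) :=
  symbol_absNorm_eq hl2 hα hB hlB hco

section cubic

variable {F : Type*} [Field F] [NumberField F] [IsCyclotomicExtension {3} ℚ F]

/-- **The law of cubic reciprocity.** -/
theorem cubic_reciprocity_law {α β : 𝓞 F} (hα : IsSemiPrimary 3 α) (hβ : IsSemiPrimary 3 β)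
    (hco : IsCoprime (Ideal.span {α}) (Ideal.span {β})) :
    symbol 3 (Ideal.span {β}) α = symbol 3 (Ideal.span {α}) β :=
  cubic_reciprocity hα hβ hco

/-- **Cubic reciprocity for primary primes**, those `≡ 2 (mod 3)`. -/
theorem cubic_reciprocity_primes {π π' : 𝓞 F} (hπ : Prime π) (hπ' : Prime π') (h : (3 : 𝓞 F) ∣ π - 2)
    (h' : (3 : 𝓞 F) ∣ π' - 2) (hna : ¬ Associated π π') :
    symbol 3 (Ideal.span {π'}) π = symbol 3 (Ideal.span {π}) π' := by
  have key : ∀ {x : 𝓞 F}, (3 : 𝓞 F) ∣ x - 2 → IsSemiPrimary 3 x := fun hx =>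
    isSemiPrimary_iff.mpr ⟨2, by norm_num, by
      rw [Int.cast_ofNat]
      exact ((lambda_sq_dvd_natCast (l := 3) (K := F) (by norm_num)).trans (by norm_num)).trans hx⟩
  refine cubic_reciprocity (key h) (key h') (Ideal.isCoprime_iff_sup_eq.mpr ?_)
  have hmax := ((Ideal.span_singleton_prime hπ.ne_zero).mpr hπ).isMaximal (by simpa using hπ.ne_zero)
  refine hmax.1.2 _ (lt_of_le_of_ne le_sup_left fun e => hna ?_)
  have h1 : Ideal.span {π'} ≤ Ideal.span {π} := e ▸ le_sup_right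
  exact hπ.associated_of_dvd hπ' (Ideal.span_singleton_le_span_singleton.mp h1)

end cubic

end FA.Summary
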