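import Fermat.Agent.EisensteinTheorem.Basic

/-!
# Eisenstein's theorem on algebraic power series

* `eisenstein_algebraic_series`: if a power series with rational coefficients `aₙ` is algebraic
  over the polynomials, some positive integer `N` makes every `aₙ * N ^ (n + 1)` an integer;
* `algebraic_series_finite_primes`: only finitely many primes divide the denominators;
* `exp_series_transcendental`, `log_series_transcendental`: so the series of `exp x` and
  `log (1 + x)` are transcendental over the rational functions.
-/

set_option autoImplicit false

noncomputable section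

open Polynomial

namespace FA.Summary

/-- **Eisenstein's theorem.** -/
theorem eisenstein_algebraic_series (f : PowerSeries ℚ) (hf : IsAlgebraic ℚ[X] f) :
    ∃ N : ℕ, 0 < N ∧ ∀ n, ∃ z : ℤ, PowerSeries.coeff n f * (N : ℚ) ^ (n + 1) = z := by
  obtain ⟨N, hN, h⟩ := FA.EisensteinTheorem.exists_denominator f hf
  exact ⟨N, hN, fun n => (h n).imp fun z hz => hz.symm⟩

/-- **Finitely many primes in the denominators.** -/
theorem algebraic_series_finite_primes (f : PowerSeries ℚ) (hf : IsAlgebraic ℚ[X] f) :
    {p : ℕ | p.Prime ∧ ∃ n, p ∣ (PowerSeries.coeff n f).den}.Finite :=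
  FA.EisensteinTheorem.finite_primes f hf

/-- **The exponential series is transcendental.** -/
theorem exp_series_transcendental : Transcendental ℚ[X] (PowerSeries.exp ℚ) :=
  FA.EisensteinTheorem.exp_not_algebraic

/-- **The logarithmic series is transcendental.** -/
theorem log_series_transcendental :
    Transcendental ℚ[X] (PowerSeries.mk fun n : ℕ => (-1 : ℚ) ^ (n + 1) / n) :=
  FA.EisensteinTheorem.log_not_algebraic

end FA.Summary

end
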