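import Fermat.Agent.Tau.EisensteinZeros

/-!
# The zeros of Eisenstein series

The theorem of Rankin and Swinnerton-Dyer: the zeros of `E_k` in the fundamental domain all lie on
the circle `|τ| = 1`, and their invariants are real numbers between `0` and `1728`.
-/

set_option autoImplicit false

noncomputable section

open UpperHalfPlane ModularGroup FA.ModField
open scoped MatrixGroups Modular

namespace FA.Summary

/-- **Every zero of `E_k` is equivalent to a point of the arc from `ρ` to `i`.** -/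
theorem eisenstein_zero_on_arc {k : ℕ} (hk : 3 ≤ k) (hev : Even k) {τ : ℍ}
    (hτ : ModularForm.E hk τ = 0) :
    ∃ g : SL(2, ℤ), ‖((g • τ : ℍ) : ℂ)‖ = 1 ∧ -(1 / 2) ≤ (g • τ).re ∧ (g • τ).re ≤ 0 :=
  FA.EisArc.zero_on_arc hk hev hτ

/-- **The zeros in the fundamental domain have absolute value `1`.** -/
theorem eisenstein_zero_norm {k : ℕ} (hk : 3 ≤ k) (hev : Even k) {τ : ℍ} (hfd : τ ∈ 𝒟)
    (hτ : ModularForm.E hk τ = 0) : ‖(τ : ℂ)‖ = 1 := by
  obtain ⟨g, hg⟩ := FA.EisArc.zero_on_arc hk hev hτ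
  exact FA.EisArc.norm_eq_one_of_equiv hfd hg rfl

/-- **Their invariants are real and lie in `[0, 1728]`.** -/
theorem eisenstein_zero_jInvariant_real {k : ℕ} (hk : 3 ≤ k) (hev : Even k) {τ : ℍ}
    (hτ : ModularForm.E hk τ = 0) :
    (jfun τ).im = 0 ∧ (jfun τ).re ∈ Set.Icc (0 : ℝ) 1728 := by
  obtain ⟨g, hg⟩ := FA.EisArc.zero_on_arc hk hev hτ
  have h := FA.EisArc.jfun_arc hg
  rwa [jfun_smul] at h

/-- **`⌊k/12⌋` zeros on the open arc, one fewer if `k ≡ 2 (mod 12)`.** -/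
theorem eisenstein_arc_zeros {k : ℕ} (hk : 3 ≤ k) (hev : Even k) :
    ∃ s : Finset ℍ, s.card = (if k % 12 = 2 then k / 12 - 1 else k / 12) ∧ Set.InjOn jfun s ∧
      ∀ τ ∈ s, ModularForm.E hk τ = 0 ∧ ‖(τ : ℂ)‖ = 1 ∧ -(1 / 2) < τ.re ∧ τ.re < 0 := by
  obtain ⟨s, hcard, h⟩ := FA.EisArc.exists_arc_zeros hk hev
  refine ⟨s, hcard.trans ?_, h⟩
  obtain ⟨m, rfl⟩ := hev
  split_ifs <;> omega

end FA.Summary

end
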