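import Fermat.Agent.Ekedahl.Density
import Mathlib.NumberTheory.EulerProduct.DirichletLSeries
import Mathlib.NumberTheory.LSeries.HurwitzZetaValues

/-!
# The sieve of Ekedahl and the density of coprime values

For two integral polynomials in `n` variables without a common factor over `ℚ` the points with a
prime `p > M` dividing both values number `O (B ^ n / M + B ^ (n - 1))` in the box `[-B, B] ^ n`,
so the values are coprime with density `∏ (1 - N_p / p ^ n)`, `N_p` the common zeros modulo `p`.

* `ekedahl_bound`: the bound, uniform in `M` and `B`;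
* `coprime_values_density`: the density and the convergence of the product;
* `coprime_values_density_pos_iff`: it is positive iff no prime divides all the values;
* `coprime_pairs_density`: the case of `x` and `y`, `6 / π ^ 2`.

This is Lemma 5.1 of Poonen's paper on squarefree values (after Ekedahl) and its first
consequence; nothing on squarefree values is claimed. Independent of S01.
-/

set_option autoImplicit false
set_option linter.style.openClassical false
set_option linter.style.haveILetI false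

noncomputable section

open Filter MvPolynomial
open scoped Classical Topology

namespace FA.Ekedahl.Summary

open FA.Ekedahl FA.ThinSets

variable {n : ℕ} {f g : MvPolynomial (Fin n) ℤ}

/-- **Ekedahl's bound.** -/
theorem ekedahl_bound
    (hfg : IsRelPrime (f.map (Int.castRingHom ℚ)) (g.map (Int.castRingHom ℚ))) :
    ∃ K : ℝ, 0 ≤ K ∧ ∀ M B : ℕ, 1 ≤ M → 1 ≤ B →
      ({x : Fin n → ℤ | (∀ i, |x i| ≤ (B : ℤ)) ∧
        ∃ p : ℕ, p.Prime ∧ M < p ∧ (p : ℤ) ∣ eval x f ∧ (p : ℤ) ∣ eval x g}.ncard : ℝ) ≤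
      K * ((B : ℝ) ^ n / M + (B : ℝ) ^ (n - 1)) := by
  obtain ⟨K, hK, h⟩ := exists_bound f g hfg
  refine ⟨K, hK, fun M B hM hB => le_of_eq_of_le ?_ (h M B hM hB)⟩
  rw [← Set.ncard_coe_finset]
  congr 2
  ext x
  simp [badPoints, mem_intBox]

/-- **The density of coprime values.** -/
theorem coprime_values_density (hn : 0 < n)
    (hfg : IsRelPrime (f.map (Int.castRingHom ℚ)) (g.map (Int.castRingHom ℚ))) :
    Tendsto (fun P : ℕ => ∏ p ∈ (P + 1).primesBelow,
      (1 - (Nat.card {c : Fin n → ZMod p // eval c (f.map (Int.castRingHom (ZMod p))) = 0 ∧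
        eval c (g.map (Int.castRingHom (ZMod p))) = 0} : ℝ) / (p : ℝ) ^ n)) atTop
      (𝓝 (coprimeDensity f g)) ∧
    Tendsto (fun B : ℕ => ({x : Fin n → ℤ | (∀ i, |x i| ≤ (B : ℤ)) ∧
        Int.gcd (eval x f) (eval x g) = 1}.ncard : ℝ) / (2 * (B : ℝ) + 1) ^ n) atTop
      (𝓝 (coprimeDensity f g)) := by
  refine ⟨tendsto_partialProduct, (tendsto_coprimePoints hn hfg).congr fun B => ?_⟩
  rw [← Set.ncard_coe_finset]
  congr 3
  ext x
  simp [coprimePoints, mem_intBox]

/-- **The density is positive iff no prime divides all the values.** -/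
theorem coprime_values_density_pos_iff (hn : 0 < n)
    (hfg : IsRelPrime (f.map (Int.castRingHom ℚ)) (g.map (Int.castRingHom ℚ))) :
    0 < coprimeDensity f g ↔
      ∀ p : ℕ, p.Prime → ∃ x : Fin n → ℤ, ¬((p : ℤ) ∣ eval x f ∧ (p : ℤ) ∣ eval x g) := by
  refine ⟨fun h p hp => ?_, coprimeDensity_pos hn hfg⟩
  by_contra hall
  push Not at hall
  exact h.ne' (coprimeDensity_eq_zero hp hall)

theorem isRelPrime_X_zero_X_one :
    IsRelPrime ((X 0 : MvPolynomial (Fin 2) ℤ).map (Int.castRingHom ℚ))
      ((X 1 : MvPolynomial (Fin 2) ℤ).map (Int.castRingHom ℚ)) := by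
  rw [map_X, map_X]
  refine ((X_prime (R := ℚ) (i := (0 : Fin 2))).irreducible.isRelPrime_iff_not_dvd).mpr
    fun ⟨q, hq⟩ => ?_
  have := congrArg (eval ![0, 1]) hq
  simp at this

theorem coprimeDensity_X_zero_X_one :
    coprimeDensity (X 0 : MvPolynomial (Fin 2) ℤ) (X 1) = 6 / Real.pi ^ 2 := by
  have hloc : ∀ p : ℕ, localFactor (X 0 : MvPolynomial (Fin 2) ℤ) (X 1) p = 1 - 1 / (p : ℝ) ^ 2 :=
    fun p => by
      have : Nat.card {c : Fin 2 → ZMod p //
          eval c ((X 0 : MvPolynomial (Fin 2) ℤ).map (Int.castRingHom (ZMod p))) = 0 ∧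
          eval c ((X 1 : MvPolynomial (Fin 2) ℤ).map (Int.castRingHom (ZMod p))) = 0} = 1 := by
        rw [Nat.card_eq_one_iff_unique]
        refine ⟨⟨fun a b => Subtype.ext (funext fun i => ?_)⟩, ⟨⟨0, by simp⟩⟩⟩
        have ha := a.2
        have hb := b.2
        simp only [map_X, eval_X] at ha hb
        fin_cases i
        exacts [ha.1.trans hb.1.symm, ha.2.trans hb.2.symm]
      rw [localFactor, commonZeros, this, Nat.cast_one]
  have h1 := (Complex.continuous_ofReal.tendsto _).comp
    (tendsto_partialProduct (f := (X 0 : MvPolynomial (Fin 2) ℤ)) (g := X 1))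
  have h2 : Tendsto (fun P : ℕ => ∏ p ∈ (P + 1).primesBelow, (1 - (p : ℂ) ^ (-(2 : ℂ)))⁻¹) atTop
      (𝓝 (riemannZeta 2)) :=
    (riemannZeta_eulerProduct (by norm_num)).comp (tendsto_add_atTop_nat 1)
  have h3 := h2.inv₀ (riemannZeta_ne_zero_of_one_lt_re (by norm_num))
  have h4 := tendsto_nhds_unique h1 (h3.congr fun P => by
    simp only [Function.comp_apply, partialProduct, hloc]
    rw [← Finset.prod_inv_distrib, Complex.ofReal_prod]
    refine Finset.prod_congr rfl fun p _ => ?_
    rw [inv_inv, Complex.cpow_neg, Complex.cpow_ofNat]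
    simp)
  rw [riemannZeta_two, inv_div] at h4
  exact_mod_cast h4

/-- **Coprime pairs have density `6 / π ^ 2`.** -/
theorem coprime_pairs_density :
    Tendsto (fun B : ℕ => ({x : Fin 2 → ℤ | (∀ i, |x i| ≤ (B : ℤ)) ∧
        Int.gcd (x 0) (x 1) = 1}.ncard : ℝ) / (2 * (B : ℝ) + 1) ^ 2) atTop
      (𝓝 (6 / Real.pi ^ 2)) := by
  have h := (coprime_values_density two_pos isRelPrime_X_zero_X_one).2
  rw [coprimeDensity_X_zero_X_one] at h
  simpa using h

end FA.Ekedahl.Summary
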