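import Fermat.Agent.AbelianQuartic.Means
import Fermat.Agent.ElementaryAbelianCount.CyclicMain
import Fermat.Agent.ElementaryAbelianCount.MultiMain
import Fermat.Agent.Root.SummaryAbelianQuartic
import Mathlib.LinearAlgebra.Dimension.Free

/-!
# Two families of abelian fields by discriminant (Malle's conjecture, Wright's theorem over `ℚ`)

* `cyclic_prime_degree_asymptotic`: for an odd prime `ℓ` the Galois fields of degree `ℓ` with
  `|d| ≤ X` number `~ c X ^ (1 / (ℓ - 1))`, where `c` is the residue of the zeta function of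
  `ℚ(μ_ℓ)` over `ℓ - 1` times an absolutely convergent Euler product, given explicitly, and `0 < c`;
* `multiquadratic_asymptotic`: for every `r ≥ 1`, with `q = 2 ^ r - 1` and `K = 2 ^ (r - 1)`, the
  fields with group `(ℤ/2) ^ r` number `~ c X ^ (1 / K) (log X) ^ (q - 1)` with
  `c = S / ((q - 1)! K ^ (q - 1) ∏_{i < r} (2 ^ r - 2 ^ i)) > 0`,
  `S = (1 + q (q + 7) / 16) / (1 + q / 2) ∏_p (1 - 1/p) ^ q (1 + q/p)`;
* `quadratic_asymptotic`, `biquadratic_constant`: for `r = 1` this is `6/π² X`, for `r = 2` the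
  constant is Baily's `23/960 ∏_p (1 - 1/p) ^ 3 (1 + 3/p)`;
* `elementary_abelian_finite`, `cyclic_prime_degree_finite`, `galois_eq_of_iso`: fields are counted
  as subfields of `ℂ`, finitely many, and isomorphic Galois ones are equal, so the counts are up to
  isomorphism.

These are the exponents `a`, `b` of Malle's conjecture for these groups. General abelian groups,
`(ℤ/ℓ) ^ r` for odd `ℓ` and `r ≥ 2`, error terms and signatures are not claimed. Independent of S01.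
-/

set_option autoImplicit false
set_option linter.style.haveILetI false

noncomputable section

open NumberField Module Filter Topology
open scoped Real Nat

namespace FA.ElementaryAbelianCount.Summary

theorem nonempty_pow_two_iff {G : Type*} [Group G] {r : ℕ} :
    Nonempty (G ≃* Multiplicative (Fin r → ZMod 2)) ↔
      Nat.card G = 2 ^ r ∧ ∀ g : G, g ^ 2 = 1 := by
  constructor
  · rintro ⟨e⟩
    refine ⟨?_, fun g => e.injective ?_⟩
    · rw [Nat.card_congr e.toEquiv, Nat.card_congr Multiplicative.toAdd]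
      simp
    · rw [map_pow, map_one]
      generalize e g = x
      refine Multiplicative.toAdd.injective (funext fun i => ?_)
      rw [toAdd_pow, toAdd_one, Pi.smul_apply, Pi.zero_apply, two_nsmul]
      exact CharTwo.add_self_eq_zero _
  · rintro ⟨hc, h2⟩
    haveI : Finite G := Nat.finite_of_card_ne_zero (hc ▸ (Nat.two_pow_pos r).ne')
    have hinv : ∀ g : G, g⁻¹ = g := fun g => inv_eq_of_mul_eq_one_right (by rw [← pow_two, h2])
    letI : CommGroup G :=
      { ‹Group G› with mul_comm := fun a b => by rw [← hinv (a * b), mul_inv_rev, hinv, hinv] }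
    haveI : Fact (Nat.Prime 2) := ⟨Nat.prime_two⟩
    letI : Module (ZMod 2) (Additive G) := AddCommGroup.zmodModule fun x => h2 x.toMul
    have hn : finrank (ZMod 2) (Additive G) = r := by
      have h := Module.natCard_eq_pow_finrank (K := ZMod 2) (V := Additive G)
      rw [show Nat.card (Additive G) = Nat.card G from Nat.card_congr Additive.toMul, hc,
        Nat.card_zmod] at h
      exact (Nat.pow_right_injective le_rfl h).symm
    exact ⟨AddEquiv.toMultiplicativeRight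
      (Module.finBasisOfFinrankEq (ZMod 2) (Additive G) hn).equivFun.toAddEquiv⟩

theorem multiFields_eq (r X : ℕ) :
    {F : IntermediateField ℚ ℂ | IsGalois ℚ F ∧
      Nonempty (Gal(F/ℚ) ≃* Multiplicative (Fin r → ZMod 2)) ∧
      ∃ _ : NumberField F, (discr F).natAbs ≤ X} = multiFields r X := by
  ext F
  simp only [Set.mem_ofPred_eq, multiFields, abelianFields, nonempty_pow_two_iff]
  constructor
  · rintro ⟨hg, ⟨hc, h2⟩, hn, hd⟩
    haveI : FiniteDimensional ℚ F := hn.to_finiteDimensional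
    haveI : IsMulCommutative Gal(F/ℚ) := ⟨⟨fun a b => by
      have hinv : ∀ g : Gal(F/ℚ), g⁻¹ = g := fun g =>
        inv_eq_of_mul_eq_one_right (by rw [← pow_two, h2])
      rw [← hinv (a * b), mul_inv_rev, hinv, hinv]⟩⟩
    exact ⟨⟨(IsGalois.card_aut_eq_finrank ℚ F).symm.trans hc, ⟨⟩, hn, hd⟩, h2⟩
  · rintro ⟨⟨hr, hab, hn, hd⟩, h2⟩
    haveI : FiniteDimensional ℚ F := hn.to_finiteDimensional
    exact ⟨inferInstance, ⟨(IsGalois.card_aut_eq_finrank ℚ F).trans hr, h2⟩, hn, hd⟩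

/-- **Cyclic fields of odd prime degree.** -/
theorem cyclic_prime_degree_asymptotic (l : ℕ) [hl : Fact l.Prime] (hl2 : l ≠ 2) :
    Tendsto (fun X : ℕ => ({F : IntermediateField ℚ ℂ | IsGalois ℚ F ∧ finrank ℚ F = l ∧
        ∃ _ : NumberField F, (discr F).natAbs ≤ X}.ncard : ℝ) / (X : ℝ) ^ (1 / ((l : ℝ) - 1)))
      atTop (𝓝 (dedekindZeta_residue (CyclotomicField l ℚ) * (∏' p : Nat.Primes,
        if (p : ℕ) = l then (1 - (l : ℝ)⁻¹) * (1 + ((l : ℝ) - 1) * ((l : ℝ)⁻¹) ^ 2)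
        else (1 - ((p : ℝ)⁻¹) ^ orderOf ((p : ℕ) : ZMod l)) ^
            ((l - 1) / orderOf ((p : ℕ) : ZMod l)) *
          (1 + if (p : ℕ) % l = 1 then ((l : ℝ) - 1) * (p : ℝ)⁻¹ else 0)) / ((l : ℝ) - 1))) ∧
    0 < dedekindZeta_residue (CyclotomicField l ℚ) * (∏' p : Nat.Primes,
        if (p : ℕ) = l then (1 - (l : ℝ)⁻¹) * (1 + ((l : ℝ) - 1) * ((l : ℝ)⁻¹) ^ 2)
        else (1 - ((p : ℝ)⁻¹) ^ orderOf ((p : ℕ) : ZMod l)) ^
            ((l - 1) / orderOf ((p : ℕ) : ZMod l)) *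
          (1 + if (p : ℕ) % l = 1 then ((l : ℝ) - 1) * (p : ℝ)⁻¹ else 0)) / ((l : ℝ) - 1) := by
  haveI : IsCyclotomicExtension {l} ℚ (CyclotomicField l ℚ) :=
    CyclotomicField.isCyclotomicExtension l ℚ
  refine ⟨tendsto_cyclicFields l hl2 (CyclotomicField l ℚ),
    div_pos (mul_pos (dedekindZeta_residue_pos _) (cycProd_pos l hl2)) ?_⟩
  exact sub_pos.mpr (Nat.one_lt_cast.mpr hl.out.one_lt)

/-- **Fields with group `(ℤ/2) ^ r`.** -/
theorem multiquadratic_asymptotic {r : ℕ} (hr : 1 ≤ r) :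
    Tendsto (fun X : ℕ => ({F : IntermediateField ℚ ℂ | IsGalois ℚ F ∧
        Nonempty (Gal(F/ℚ) ≃* Multiplicative (Fin r → ZMod 2)) ∧
        ∃ _ : NumberField F, (discr F).natAbs ≤ X}.ncard : ℝ) /
          ((X : ℝ) ^ (((2 ^ (r - 1) : ℕ) : ℝ)⁻¹) * Real.log X ^ (2 ^ r - 1 - 1))) atTop
      (𝓝 ((1 + ((2 ^ r - 1 : ℕ) : ℝ) * (((2 ^ r - 1 : ℕ) : ℝ) + 7) / 16) /
          (1 + ((2 ^ r - 1 : ℕ) : ℝ) / 2) *
          (∏' p : Nat.Primes,
            (1 - (p : ℝ)⁻¹) ^ (2 ^ r - 1) * (1 + ((2 ^ r - 1 : ℕ) : ℝ) * (p : ℝ)⁻¹)) /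
        ((2 ^ r - 1 - 1)! * ((2 ^ (r - 1) : ℕ) : ℝ) ^ (2 ^ r - 1 - 1) *
          (∏ i : Fin r, (2 ^ r - 2 ^ (i : ℕ)) : ℕ)))) ∧
    0 < (1 + ((2 ^ r - 1 : ℕ) : ℝ) * (((2 ^ r - 1 : ℕ) : ℝ) + 7) / 16) /
          (1 + ((2 ^ r - 1 : ℕ) : ℝ) / 2) *
          (∏' p : Nat.Primes,
            (1 - (p : ℝ)⁻¹) ^ (2 ^ r - 1) * (1 + ((2 ^ r - 1 : ℕ) : ℝ) * (p : ℝ)⁻¹)) /
        ((2 ^ r - 1 - 1)! * ((2 ^ (r - 1) : ℕ) : ℝ) ^ (2 ^ r - 1 - 1) *
          (∏ i : Fin r, (2 ^ r - 2 ^ (i : ℕ)) : ℕ)) := by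
  simp only [multiFields_eq]
  exact ⟨tendsto_multiFields hr, div_pos (multiSeries_pos hr) (mul_pos (mul_pos
    (Nat.cast_pos.mpr (Nat.factorial_pos _)) (pow_pos (Nat.cast_pos.mpr (tameExp_pos r)) _))
    (Nat.cast_pos.mpr (baseCount_pos r)))⟩

/-- **Quadratic fields**: the case `r = 1`. -/
theorem quadratic_asymptotic :
    Tendsto (fun X : ℕ => ({F : IntermediateField ℚ ℂ | IsGalois ℚ F ∧
        Nonempty (Gal(F/ℚ) ≃* Multiplicative (Fin 1 → ZMod 2)) ∧
        ∃ _ : NumberField F, (discr F).natAbs ≤ X}.ncard : ℝ) / X) atTop (𝓝 (6 / π ^ 2)) := by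
  have h := (multiquadratic_asymptotic le_rfl).1
  norm_num at h
  have hP : (∏' p : Nat.Primes, (1 - (p : ℝ)⁻¹) * (1 + (p : ℝ)⁻¹)) = 6 / π ^ 2 := by
    have h1 := FA.CubicCount.hasProd_zeta_two.inv₀ (by positivity)
    rw [inv_div] at h1
    rw [← h1.tprod_eq]
    refine tprod_congr fun p => ?_
    rw [inv_inv, ← inv_pow]
    ring
  rw [hP] at h
  exact h

/-- The constant for `r = 2` is Baily's. -/
theorem biquadratic_constant :
    multiSeries 2 / ((subCount 2 - 1)! * (tameExp 2 : ℝ) ^ (subCount 2 - 1) * baseCount 2) =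
      23 / 960 * ∏' p : Nat.Primes, (1 - (p : ℝ)⁻¹) ^ 3 * (1 + 3 * (p : ℝ)⁻¹) := by
  norm_num [multiSeries, multiProduct, subCount, tameExp, baseCount, Fin.prod_univ_two,
    Nat.factorial]
  ring

/-- Finitely many below each bound. -/
theorem elementary_abelian_finite (r X : ℕ) :
    {F : IntermediateField ℚ ℂ | IsGalois ℚ F ∧
      Nonempty (Gal(F/ℚ) ≃* Multiplicative (Fin r → ZMod 2)) ∧
      ∃ _ : NumberField F, (discr F).natAbs ≤ X}.Finite := by
  rw [multiFields_eq]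
  exact (finite_abelianFields _ _).subset fun _ h => h.1

/-- Finitely many below each bound. -/
theorem cyclic_prime_degree_finite (l X : ℕ) [Fact l.Prime] :
    {F : IntermediateField ℚ ℂ | IsGalois ℚ F ∧ finrank ℚ F = l ∧
      ∃ _ : NumberField F, (discr F).natAbs ≤ X}.Finite := by
  show (cyclicFields l X).Finite
  rw [cyclicFields_eq]
  exact finite_abelianFields _ _

/-- Isomorphic Galois subfields of `ℂ` are equal. -/
theorem galois_eq_of_iso (F G : IntermediateField ℚ ℂ) [IsGalois ℚ F] (e : F ≃ₐ[ℚ] G) : F = G :=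
  FA.AbelianQuartic.Summary.eq_of_algEquiv F G ‹_› e

end FA.ElementaryAbelianCount.Summary
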