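import Fermat.Agent.ElementaryIntegration.Exponential

/-!
# Liouville's theorem on integration in finite terms
-/

set_option autoImplicit false

universe u

open Differential
open scoped Differential

namespace FA.ElementaryIntegration.Summary

open Fermat.Agent.ElementaryIntegration

/-- **Liouville**: if `a ∈ F` has an antiderivative in an elementary extension `K` of `F` without
new constants, then `a = ∑ cᵢ uᵢ′ / uᵢ + v′` with `cᵢ` constants and `uᵢ, v` in `F`.
Here `K` is generated over `F` by finitely many elements, each of which is algebraic over the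
previous ones, or a logarithm, or an exponential of an element of the field they generate. -/
theorem liouville_theorem {F K : Type*} [Field F] [Differential F] [Field K] [Differential K]
    [Algebra F K] [DifferentialAlgebra F K] [CharZero F] [Differential.ContainConstants F K]
    {N : ℕ} (s : Fin N → K) (hs : IntermediateField.adjoin F (Set.range s) = ⊤)
    (hstep : ∀ j, IsAlgebraic (IntermediateField.adjoin F (s '' Set.Iio j)) (s j) ∨
      (∃ u ∈ IntermediateField.adjoin F (s '' Set.Iio j), u ≠ 0 ∧ (s j)′ = u′ / u) ∨
        ∃ u ∈ IntermediateField.adjoin F (s '' Set.Iio j), s j ≠ 0 ∧ (s j)′ = s j * u′)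
    (a : F) (w : K) (hw : w′ = algebraMap F K a) :
    ∃ (ι : Type) (_ : Fintype ι) (c : ι → F) (_ : ∀ i, (c i)′ = 0) (u : ι → F) (v : F),
      a = ∑ i, c i * Differential.logDeriv (u i) + v′ :=
  (isLiouville_of_isElementaryExtension F K ⟨N, s, hs, hstep⟩).isLiouville a PEmpty PEmpty.elim
    (fun e => e.elim) PEmpty.elim w (by
      simp only [Finset.univ_eq_empty, Finset.sum_empty, zero_add]
      exact hw.symm)

/-- **`e^(x²)` has no elementary antiderivative**: over `F = C(x)` with `x′ = 1`, no elementary
extension without new constants contains both `θ` with `θ′ = 2xθ` and an antiderivative of `θ`. -/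
theorem exp_square_not_elementary {C F K : Type*} [Field C] [CharZero C] [Field F] [Differential F]
    [Field K] [Differential K] [Algebra C F] [Algebra F K] [DifferentialAlgebra F K] [Algebra C K]
    [IsScalarTower C F K] (hCc : ∀ c : C, (algebraMap C F c)′ = 0) {x : F} (hx : x′ = 1)
    (hgen : IntermediateField.adjoin C {x} = ⊤) (hK : IsElementaryExtension F K)
    (hconst : ∀ a : K, a′ = 0 → a ∈ Set.range (algebraMap C K)) {θ : K} (hθ : θ ≠ 0)
    (hd : θ′ = algebraMap F K (2 * x) * θ) (w : K) : w′ ≠ θ :=
  not_deriv_eq_exp_square hCc hx hgen hK hconst hθ hd w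

/-- The hypotheses are satisfied by `C(t) ⊆ C(t, exp (t²))` inside the Laurent series. -/
theorem exp_square_witness (C : Type u) [Field C] [CharZero C] :
    ∃ (F K : Type u) (_ : Field F) (_ : Differential F) (_ : Field K) (_ : Differential K)
      (_ : Algebra C F) (_ : Algebra F K) (_ : Algebra C K) (_ : IsScalarTower C F K)
      (_ : DifferentialAlgebra F K) (x : F) (θ : K),
      (∀ c : C, (algebraMap C F c)′ = 0) ∧ x′ = 1 ∧ IntermediateField.adjoin C {x} = ⊤ ∧
        IsElementaryExtension F K ∧ (∀ a : K, a′ = 0 → a ∈ Set.range (algebraMap C K)) ∧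
          θ ≠ 0 ∧ θ′ = algebraMap F K (2 * x) * θ ∧ ∀ w : K, w′ ≠ θ :=
  exists_exp_square C

end FA.ElementaryIntegration.Summary
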