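import Fermat.Agent.Supersingular.ElkiesPrimes

/-!
# Elkies' theorem on supersingular primes

Every elliptic curve over `ℚ` has infinitely many good supersingular primes: primes `p` at which
the coefficient `a_p` of its L-function vanishes.
-/

set_option autoImplicit false

noncomputable section

open WeierstrassCurve

namespace FA.Summary

/-- **Elkies: an integral model has supersingular primes of good reduction beyond any bound.** -/
theorem elkies_supersingular_model (E : WeierstrassCurve ℚ) [E.IsElliptic]
    (W : WeierstrassCurve ℤ) (hW : W.IsIntegralModelOf E) (M : ℕ) :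
    ∃ p : ℕ, M < p ∧ p.Prime ∧ ¬ (p : ℤ) ∣ W.Δ ∧ E.LFunction p = 0 ∧ W.apOfModel p = 0 := by
  have hΔ : W.Δ ≠ 0 := fun h => by
    obtain ⟨C, hC⟩ := hW
    have h' := (C • E).isUnit_Δ.ne_zero
    rw [hC, WeierstrassCurve.map_Δ, h, map_zero] at h'
    exact h' rfl
  obtain ⟨p, hM, hp, hgood, hap⟩ := FA.Elkies.exists_supersingular_prime E W hW hΔ M
  exact ⟨p, hM, hp, hgood, hap, (FA.Root.LFunction_apply_prime E W hW hp hgood).symm.trans hap⟩

/-- **Elkies: every elliptic curve over `ℚ` has infinitely many supersingular primes.** -/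
theorem elkies_supersingular_infinite (E : WeierstrassCurve ℚ) [E.IsElliptic] :
    {p : ℕ | p.Prime ∧ E.LFunction p = 0}.Infinite := by
  obtain ⟨W, hW⟩ := FA.Frob.exists_integralModel E
  refine Set.infinite_of_forall_exists_gt fun M => ?_
  obtain ⟨p, hM, hp, -, hap, -⟩ := elkies_supersingular_model E W hW M
  exact ⟨p, ⟨hp, hap⟩, hM⟩

/-- The supersingular primes of good reduction of a model are infinitely many. -/
theorem elkies_supersingular_model_infinite (E : WeierstrassCurve ℚ) [E.IsElliptic]
    (W : WeierstrassCurve ℤ) (hW : W.IsIntegralModelOf E) :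
    {p : ℕ | p.Prime ∧ W.IsGoodPrimeFor p ∧ W.apOfModel p = 0}.Infinite := by
  refine Set.infinite_of_forall_exists_gt fun M => ?_
  obtain ⟨p, hM, hp, hgood, -, hap⟩ := elkies_supersingular_model E W hW M
  exact ⟨p, ⟨hp, hgood, hap⟩, hM⟩

end FA.Summary

end
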