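import Fermat.Agent.Supersingular.ElkiesOddDegree

/-!
# Elkies' theorem in odd degree

An algebraic number of odd degree reduces to a supersingular invariant at places over primes beyond
any bound; so an elliptic curve over a number field of odd degree has supersingular reduction at
places over infinitely many primes.
-/

set_option autoImplicit false
set_option linter.style.haveILetI false

noncomputable section

open WeierstrassCurve
open scoped Classical

namespace FA.Summary

open FA.Frob FA.Local

local notation "Qb" => AlgebraicClosure ℚ

/-- **Elkies, odd degree: supersingular invariants among the reductions.** -/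
theorem elkies_odd_degree (x : Qb) (hodd : Odd (minpoly ℚ x).natDegree) (M : ℕ) :
    ∃ p : ℕ, M < p ∧ p.Prime ∧
      ∃ (A : ValuationSubring Qb) (_ : A.LiesOverPrime p) (hx : x ∈ A),
        (∀ (W : WeierstrassCurve (IsLocalRing.ResidueField A)) [W.IsElliptic],
          W.j = IsLocalRing.residue A ⟨x, hx⟩ → ∀ P : W.toAffine.Point, p • P = 0 → P = 0) ∧
        IsLocalRing.residue A ⟨x, hx⟩ ^ p ^ 2 = IsLocalRing.residue A ⟨x, hx⟩ := by
  obtain ⟨p, hp, hM, h⟩ := FA.Elkies.exists_supersingular_place x hodd M
  exact ⟨p, hM, hp.out, h⟩

/-- **Elkies, odd degree: curves have supersingular reduction over infinitely many primes.** -/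
theorem elkies_odd_degree_curve (K : IntermediateField ℚ Qb) [FiniteDimensional ℚ K]
    (hK : Odd (Module.finrank ℚ K)) (E : WeierstrassCurve K) [E.IsElliptic] :
    {p : ℕ | p.Prime ∧ ∃ (A : ValuationSubring Qb) (_ : A.LiesOverPrime p)
        (hI : IntCoeff A.valuation (E.map K.val.toRingHom).toAffine),
        A.valuation (E.map K.val.toRingHom).toAffine.Δ = 1 ∧
          ∀ P : (redCurve A (E.map K.val.toRingHom).toAffine hI).toAffine.Point,
            p • P = 0 → P = 0}.Infinite := by
  refine Set.infinite_of_forall_exists_gt fun M => ?_
  obtain ⟨p, hp, hM, h⟩ := FA.Elkies.exists_supersingular_reduction K hK E M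
  exact ⟨p, ⟨hp.out, h⟩, hM⟩

end FA.Summary

end
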