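import Fermat.Agent.Root.SummaryDiagonalFactorization
import Fermat.Agent.Supersingular.ElkiesSquare

/-!
# Elkies's lemma in full

For every prime `p ≥ 5`, in `𝔽_p[X]`, with `S` the product of `X - r` over the supersingular
`r` in `𝔽_p`: `H_{-4p} = S²` for `p ≡ 1 (mod 4)`, `H_{-p} H_{-4p} = S²` for `p ≡ 3 (mod 4)`. So
these class polynomials split completely over `𝔽_p`, and the values of the product are squares.
-/

set_option autoImplicit false
set_option linter.style.haveILetI false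

noncomputable section

open Polynomial ModularForm EisensteinSeries
open scoped Classical UpperHalfPlane

namespace FA.Summary

/-- What `S` runs over: the invariants of the equations of trace zero. -/
theorem elkies_ssInv_iff (p : ℕ) [Fact p.Prime] (r : ZMod p) :
    r ∈ FA.ElkiesSquare.ssInv p ↔ ∃ A B : ZMod p, 4 * A ^ 3 + 27 * B ^ 2 ≠ 0 ∧
      1728 * (4 * A ^ 3) = r * (4 * A ^ 3 + 27 * B ^ 2) ∧
      (⟨0, 0, 0, A, B⟩ : WeierstrassCurve (ZMod p)).traceOfFrobenius = 0 := by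
  simp only [FA.ElkiesSquare.ssInv, Finset.mem_filter, Finset.mem_univ, true_and, Prod.exists,
    FA.ClassTrace.mem_jFibre_iff, and_assoc]
  rfl

/-- **Elkies's lemma for every prime `p ≥ 5`.** -/
theorem elkies_classPolynomial_square :
    ∃ H : ℤ → ℤ[X],
      (∀ D : ℤ, D < 0 → D % 4 = 0 ∨ D % 4 = 1 → (H D).Monic ∧
        Irreducible ((H D).map (Int.castRingHom ℚ)) ∧
        ∀ z : ℂ, aeval z (H D) = 0 ↔ ∃ (a b c : ℤ) (τ : ℍ), 0 < a ∧ b ^ 2 - 4 * a * c = D ∧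
          Int.gcd (Int.gcd a b) c = 1 ∧ (a : ℂ) * (τ : ℂ) ^ 2 + b * (τ : ℂ) + c = 0 ∧
          E₄ τ ^ 3 / ModularForm.discriminant τ = z) ∧
      ∀ (p : ℕ) [Fact p.Prime], 5 ≤ p →
        (p % 4 = 1 → (H (-(4 * (p : ℤ)))).map (Int.castRingHom (ZMod p)) =
          (∏ r ∈ FA.ElkiesSquare.ssInv p, (X - C r)) ^ 2) ∧
        (p % 4 = 3 → (H (-(p : ℤ)) * H (-(4 * (p : ℤ)))).map (Int.castRingHom (ZMod p)) =
          (∏ r ∈ FA.ElkiesSquare.ssInv p, (X - C r)) ^ 2) ∧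
        ((H (-(4 * (p : ℤ)))).map (Int.castRingHom (ZMod p))).Splits ∧
        (p % 4 = 3 → ((H (-(p : ℤ))).map (Int.castRingHom (ZMod p))).Splits) ∧
        ∀ a : ℤ, IsSquare ((∏ D ∈ FA.ElkiesSquare.zeroDiscs p, (H D).eval a : ℤ) : ZMod p) := by
  obtain ⟨H, hH, -⟩ := modularDiagonal_factorization
  refine ⟨H, fun D hD h => ⟨(hH D hD h).1, (hH D hD h).2.1, (hH D hD h).2.2.2⟩, fun p hp h5 => ?_⟩
  haveI : NeZero p := ⟨hp.out.ne_zero⟩
  let _ := Fintype.ofFinite (FA.Dim.Cos p)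
  have hfam : ∀ D ∈ FA.DiagFactor.discs p, (H D).Monic ∧
      (H D).natDegree = (FA.Singular.values D).ncard ∧
      ∀ z ∈ FA.Singular.values D, aeval z (H D) = 0 := by
    intro D hD
    obtain ⟨-, hD0, hD4⟩ := (modularDiagonal_discs p D).1 hD
    obtain ⟨hmon, -, hdeg, hroots⟩ := hH D hD0 hD4
    refine ⟨hmon, hdeg.trans (FA.Singular.values_ncard hD0).symm, ?_⟩
    rintro z ⟨f, hf, τ, hτ, rfl⟩
    exact (hroots _).2 ⟨f.1, f.2.1, f.2.2, τ, hf.2.2.1, hf.1, hf.2.1, hτ, rfl⟩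
  have key := FA.ElkiesSquare.prod_zeroDiscs p hfam h5
  have h3 : p % 4 = 3 → (H (-(p : ℤ)) * H (-(4 * (p : ℤ)))).map (Int.castRingHom (ZMod p)) =
      (∏ r ∈ FA.ElkiesSquare.ssInv p, (X - C r)) ^ 2 := fun h => by
    rw [FA.ElkiesSquare.zeroDiscs, if_pos h, Finset.prod_pair (by omega)] at key
    exact key
  have h1 : p % 4 = 1 → (H (-(4 * (p : ℤ)))).map (Int.castRingHom (ZMod p)) =
      (∏ r ∈ FA.ElkiesSquare.ssInv p, (X - C r)) ^ 2 := fun h => by
    rw [FA.ElkiesSquare.zeroDiscs, if_neg (by omega), Finset.prod_singleton] at key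
    exact key
  have hsplit : ∀ D ∈ FA.ElkiesSquare.zeroDiscs p,
      ((H D).map (Int.castRingHom (ZMod p))).Splits := fun D hD =>
    ((Splits.prod fun r _ => Splits.X_sub_C r).pow 2).of_dvd
      (pow_ne_zero 2 (monic_prod_X_sub_C _ _).ne_zero)
      (key ▸ Polynomial.map_dvd _ (Finset.dvd_prod_of_mem H hD))
  refine ⟨h1, h3, hsplit _ ?_, fun h => hsplit _ ?_, fun a => ?_⟩
  · rw [FA.ElkiesSquare.zeroDiscs]
    split_ifs <;> simp
  · rw [FA.ElkiesSquare.zeroDiscs, if_pos h]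
    simp
  · refine ⟨(∏ r ∈ FA.ElkiesSquare.ssInv p, (X - C r)).eval (a : ZMod p), ?_⟩
    have h := congrArg (Polynomial.eval (a : ZMod p)) key
    rw [eval_pow, eval_intCast_map, eval_prod, pow_two] at h
    simpa using h

end FA.Summary

end
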