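import Fermat.Agent.EllenbergVenkatesh.GRH

/-!
# Ellenberg and Venkatesh: the `l`-torsion of class groups

For a number field `K` of degree `n ≥ 2` and discriminant `D`, every `l ≥ 1` and `ε > 0`,
imprimitive fields included:

* `generator_discriminant_bound`: if `δ, δ' ∈ A` and `δ / δ'` generates `K` then
  `|D| N A ^ (2 (n - 1)) ≤ (n!) ² ∏ max (|φ δ|, |φ δ'|) ^ (2 (n - 1))`;
* `small_split_primes`: `M` primes of degree one, unramified over `ℚ`, of norm at most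
  `c |D| ^ (1 / (2 l (n - 1)))` force `#Cl(K)[l] · M ≤ C |D| ^ (1/2 + ε)`;
* `torsion_bound_of_RH`: if `ζ_K` satisfies the Riemann hypothesis then
  `#Cl(K)[l] ≤ C |D| ^ (1/2 - 1 / (2 l (n - 1)) + ε)`;
* `quadratic_three_torsion_of_RH`: so `#Cl(K)[3] ≤ C |D| ^ (1/3 + ε)` for quadratic fields.

The constants depend on `n`, `l` and `ε` only; the hypothesis is an argument and is never assumed.
The unconditional bounds of Pierce and of Helfgott and Venkatesh for `l = 3`, averages over families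
and narrow class groups are not claimed. Independent of S01.
-/

set_option autoImplicit false

noncomputable section

namespace FA.EllenbergVenkatesh.Summary

open NumberField Module

/-- **Silverman's inequality for a quotient of integers in an ideal.** -/
theorem generator_discriminant_bound (K : Type) [Field K] [NumberField K] (δ δ' : 𝓞 K)
    (A : Ideal (𝓞 K)) (hA : δ ∈ A) (hA' : δ' ∈ A) (hδ' : δ' ≠ 0)
    (hgen : IntermediateField.adjoin ℚ {(δ : K) / (δ' : K)} = ⊤) :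
    |(discr K : ℝ)| * (Ideal.absNorm A : ℝ) ^ (2 * (finrank ℚ K - 1)) ≤
      ((finrank ℚ K).factorial : ℝ) ^ 2 *
        (∏ φ : K →+* ℂ, max ‖φ (δ : K)‖ ‖φ (δ' : K)‖) ^ (2 * (finrank ℚ K - 1)) :=
  discr_mul_absNorm_le δ δ' hgen hδ' A hA hA'

/-- **The lemma of Ellenberg and Venkatesh.** -/
theorem small_split_primes (n l : ℕ) (hn : 2 ≤ n) (hl : 1 ≤ l) :
    ∃ c : ℝ, 0 < c ∧ ∀ ε : ℝ, 0 < ε → ∃ C : ℝ,
      ∀ (K : Type) [Field K] [NumberField K], finrank ℚ K = n →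
      ∀ S : Finset (Ideal (𝓞 K)),
        (∀ P ∈ S, (Ideal.absNorm P).Prime ∧
          ¬ P ^ 2 ∣ Ideal.span {(Ideal.absNorm P : 𝓞 K)} ∧
          (Ideal.absNorm P : ℝ) ≤
            c * |(discr K : ℝ)| ^ ((1 : ℝ) / (2 * l * ((n : ℝ) - 1)))) →
        (Nat.card {x : ClassGroup (𝓞 K) // x ^ l = 1} : ℝ) * S.card ≤
          C * |(discr K : ℝ)| ^ ((1 : ℝ) / 2 + ε) := by
  obtain ⟨c, hc, -, h⟩ := exists_small_split_bound n l hn hl
  refine ⟨c, hc, fun ε hε => ?_⟩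
  obtain ⟨C, -, hC⟩ := h ε hε
  refine ⟨C, fun K _ _ hK S hS => hC K hK S fun P hP => ⟨⟨(hS P hP).1, (hS P hP).2.1⟩, ?_⟩⟩
  rw [Nat.cast_mul, Nat.cast_mul, Nat.cast_two, Nat.cast_sub (by omega), Nat.cast_one]
  exact (hS P hP).2.2

/-- **The theorem of Ellenberg and Venkatesh on the Riemann hypothesis.** -/
theorem torsion_bound_of_RH (n l : ℕ) (hn : 2 ≤ n) (hl : 1 ≤ l) (ε : ℝ) (hε : 0 < ε) :
    ∃ C : ℝ, ∀ (K : Type) [Field K] [NumberField K],
      (∀ E : ℂ → ℂ, Differentiable ℂ E → (∀ s : ℂ, 1 < s.re → E s = (s - 1) * dedekindZeta K s) →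
        ∀ z : ℂ, E z = 0 → 0 < z.re → z.re < 1 → z.re = 1 / 2) →
      finrank ℚ K = n →
      (Nat.card {x : ClassGroup (𝓞 K) // x ^ l = 1} : ℝ) ≤
        C * |(discr K : ℝ)| ^ ((1 : ℝ) / 2 - 1 / (2 * l * ((n : ℝ) - 1)) + ε) := by
  obtain ⟨C, hC⟩ := exists_torsion_bound_of_RH n l hn hl hε
  refine ⟨C, fun K _ _ hRH hK => (hC K hRH hK).trans_eq ?_⟩
  rw [Nat.cast_mul, Nat.cast_mul, Nat.cast_two, Nat.cast_sub (by omega), Nat.cast_one]

/-- **The `3`-torsion of quadratic fields.** -/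
theorem quadratic_three_torsion_of_RH (ε : ℝ) (hε : 0 < ε) :
    ∃ C : ℝ, ∀ (K : Type) [Field K] [NumberField K],
      (∀ E : ℂ → ℂ, Differentiable ℂ E → (∀ s : ℂ, 1 < s.re → E s = (s - 1) * dedekindZeta K s) →
        ∀ z : ℂ, E z = 0 → 0 < z.re → z.re < 1 → z.re = 1 / 2) →
      finrank ℚ K = 2 →
      (Nat.card {x : ClassGroup (𝓞 K) // x ^ 3 = 1} : ℝ) ≤
        C * |(discr K : ℝ)| ^ ((1 : ℝ) / 3 + ε) := by
  obtain ⟨C, hC⟩ := torsion_bound_of_RH 2 3 le_rfl (by norm_num) ε hε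
  refine ⟨C, fun K _ _ hRH hK => (hC K hRH hK).trans_eq ?_⟩
  norm_num

end FA.EllenbergVenkatesh.Summary

end
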