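import Fermat.Agent.Ellentuck.Partitions
import Mathlib.MeasureTheory.Constructions.Polish.Basic

/-!
# The theorems of Galvin-Prikry and Ellentuck

Borel and, more generally, analytic sets of infinite sets of natural numbers are Ramsey
(Galvin-Prikry 1973, Silver 1970). In the topology of the cubes `[s, A]` the completely Ramsey
sets are exactly those with the property of Baire (Ellentuck 1974).
-/

set_option autoImplicit false

namespace FA.Ellentuck

open Set Topology MeasureTheory

/-- **Ellentuck's theorem.** -/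
theorem ellentuck (X : Set Pts) : IsCR X ↔ BaireMeasurableSet X :=
  ⟨baireMeasurableSet_of_isCR, isCR_of_baireMeasurableSet⟩

/-- **Ellentuck's theorem on category.** Meagre, nowhere dense and Ramsey null agree. -/
theorem ellentuck_null (X : Set Pts) :
    (IsMeagre X ↔ IsRamseyNull X) ∧ (IsNowhereDense X ↔ IsRamseyNull X) :=
  ⟨⟨isRamseyNull_of_isMeagre, isMeagre_of_isRamseyNull⟩,
    isRamseyNull_of_isNowhereDense, isNowhereDense_of_isRamseyNull⟩

/-- **Silver's theorem.** Analytic sets are completely Ramsey. -/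
theorem analytic_completely_ramsey {X : Set (ℕ → Bool)} (hX : AnalyticSet X) :
    IsCR (toCantor ⁻¹' X) :=
  isCR_of_baireMeasurableSet (baireMeasurable_analytic_toCantor hX)

/-- **Silver's theorem in plain terms.** For an analytic `X` there is an infinite set whose
infinite subsets all lie in `X` or all lie outside. -/
theorem analytic_ramsey {X : Set (ℕ → Bool)} (hX : AnalyticSet X) {A : Set ℕ} (hA : A.Infinite) :
    ∃ H ⊆ A, H.Infinite ∧ ((∀ C ⊆ H, C.Infinite → C.boolIndicator ∈ X) ∨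
      ∀ C ⊆ H, C.Infinite → C.boolIndicator ∉ X) := by
  obtain ⟨H, hHA, hH, h⟩ := analytic_completely_ramsey hX ∅ A hA
  have hmem : ∀ C (hC : C ⊆ H) (hCi : C.Infinite), (⟨C, hCi⟩ : Pts) ∈ cube ∅ H :=
    fun C hC hCi => ⟨by simp, by simpa [above_empty] using hC⟩
  refine ⟨H, hHA, hH, ?_⟩
  rcases h with h | h
  exacts [.inl fun C hC hCi => h (hmem C hC hCi),
    .inr fun C hC hCi => Set.disjoint_left.1 h (hmem C hC hCi)]

/-- **The theorem of Galvin and Prikry.** Every Borel set of infinite sets is Ramsey. -/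
theorem galvin_prikry {X : Set (ℕ → Bool)} (hX : MeasurableSet X) :
    ∃ H : Set ℕ, H.Infinite ∧ ((∀ C ⊆ H, C.Infinite → C.boolIndicator ∈ X) ∨
      ∀ C ⊆ H, C.Infinite → C.boolIndicator ∉ X) := by
  have : PolishSpace (ℕ → Bool) := ⟨⟩
  obtain ⟨H, -, h⟩ := analytic_ramsey hX.analyticSet infinite_univ
  exact ⟨H, h⟩

/-- **Galvin and Prikry, finitely many colours.** -/
theorem galvin_prikry_colours {ι : Type*} [Finite ι] [Nonempty ι] [MeasurableSpace ι]
    [MeasurableSingletonClass ι] {c : (ℕ → Bool) → ι} (hc : Measurable c) :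
    ∃ H : Set ℕ, H.Infinite ∧ ∃ i, ∀ C ⊆ H, C.Infinite → c C.boolIndicator = i := by
  classical
  have : Fintype ι := Fintype.ofFinite ι
  have : PolishSpace (ℕ → Bool) := ⟨⟩
  have hall : ∀ L : Finset ι, ∃ H : Set ℕ, H.Infinite ∧ ∀ i ∈ L,
      (∀ C ⊆ H, C.Infinite → c C.boolIndicator = i) ∨
        ∀ C ⊆ H, C.Infinite → c C.boolIndicator ≠ i := by
    intro L
    induction L using Finset.induction_on with
    | empty => exact ⟨univ, infinite_univ, fun i hi => absurd hi (Finset.notMem_empty i)⟩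
    | insert i L _ ih =>
      obtain ⟨H, hH, hL⟩ := ih
      obtain ⟨H', hH'H, hH', h⟩ :=
        analytic_ramsey (hc (measurableSet_singleton i)).analyticSet hH
      refine ⟨H', hH', fun j hj => ?_⟩
      rcases Finset.mem_insert.1 hj with rfl | hj
      exacts [h, (hL j hj).imp (fun h C hC => h C (hC.trans hH'H))
        fun h C hC => h C (hC.trans hH'H)]
  obtain ⟨H, hH, h⟩ := hall Finset.univ
  exact ⟨H, hH, c H.boolIndicator, (h _ (Finset.mem_univ _)).resolve_right
    fun h => h H subset_rfl hH rfl⟩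

/-- **Nash-Williams' theorem.** -/
theorem nash_williams {ι : Type*} [Finite ι] [Nonempty ι] {F : Set (Finset ℕ)} (hF : IsThin F)
    (c : Finset ℕ → ι) : ∃ H : Set ℕ, H.Infinite ∧ ∃ i, ∀ t ∈ F, ↑t ⊆ H → c t = i := by
  obtain ⟨H, -, h⟩ := exists_monochromatic_thin hF c infinite_univ
  exact ⟨H, h⟩

/-- **Ramsey's theorem** for `k`-element sets. -/
theorem ramsey_infinite {ι : Type*} [Finite ι] [Nonempty ι] (k : ℕ) (c : Finset ℕ → ι) :
    ∃ H : Set ℕ, H.Infinite ∧ ∃ i, ∀ t : Finset ℕ, t.card = k → ↑t ⊆ H → c t = i :=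
  nash_williams (F := {t | t.card = k}) (fun _ ht _ ht' h =>
    Finset.eq_of_subset_of_card_le (by simpa using h.1) (le_of_eq (ht'.trans ht.symm))) c

/-- **The definability hypothesis cannot be dropped.** -/
theorem ramsey_needs_definability :
    ∃ X : Set (Set ℕ), ∀ H : Set ℕ, H.Infinite →
      ¬((∀ C ⊆ H, C.Infinite → C ∈ X) ∨ ∀ C ⊆ H, C.Infinite → C ∉ X) := by
  obtain ⟨X, hX⟩ := exists_not_ramsey
  refine ⟨X, fun H hH h => ?_⟩
  obtain ⟨⟨C, hC, hCi, hCX⟩, D, hD, hDi, hDX⟩ := hX H hH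
  rcases h with h | h
  exacts [hDX (h D hD hDi), h C hC hCi hCX]

end FA.Ellentuck
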