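import Fermat.Agent.EllipseArc.Main

/-!
# The perimeter of the ellipse

Let `K = ∫₀^{π/2} dt / √(1 - m sin² t)` and `E = ∫₀^{π/2} √(1 - m sin² t) dt`, `m < 1`, `m ≠ 0`
algebraic.

* `transcendental_elliptic_combination`: `a K + b E` is transcendental for algebraic `a, b`, not
  both zero (Schneider, 1937);
* `transcendental_elliptic_E`, `transcendental_elliptic_ratio`: so are `E` and `E / K`;
* `transcendental_ellipse_perimeter`: the perimeter of an ellipse (or circle) with algebraic
  semiaxes is transcendental.

Independent of S01.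
-/

set_option autoImplicit false

noncomputable section

open scoped Real

namespace FA.EllipseArc.Summary

variable {m : ℝ} (hm : m < 1) (hm0 : m ≠ 0) (hma : IsAlgebraic ℚ m)

include hm hm0 hma

/-- **Schneider, 1937**: combinations of complete integrals of the first and second kind. -/
theorem transcendental_elliptic_combination {a b : ℝ} (ha : IsAlgebraic ℚ a)
    (hb : IsAlgebraic ℚ b) (hab : a ≠ 0 ∨ b ≠ 0) :
    Transcendental ℚ (a * (∫ t in (0 : ℝ)..π / 2, (√(1 - m * Real.sin t ^ 2))⁻¹) +
      b * ∫ t in (0 : ℝ)..π / 2, √(1 - m * Real.sin t ^ 2)) :=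
  FA.EllipseArc.transcendental_combination hm hm0 hma ha hb hab

/-- The complete integral of the second kind. -/
theorem transcendental_elliptic_E :
    Transcendental ℚ (∫ t in (0 : ℝ)..π / 2, √(1 - m * Real.sin t ^ 2)) :=
  FA.EllipseArc.transcendental_completeE hm hm0 hma

/-- The quotient `E / K`. -/
theorem transcendental_elliptic_ratio :
    Transcendental ℚ ((∫ t in (0 : ℝ)..π / 2, √(1 - m * Real.sin t ^ 2)) /
      ∫ t in (0 : ℝ)..π / 2, (√(1 - m * Real.sin t ^ 2))⁻¹) :=
  FA.EllipseArc.transcendental_ratio hm hm0 hma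

omit hm hm0 hma

/-- **The perimeter of an ellipse with algebraic semiaxes is transcendental.** -/
theorem transcendental_ellipse_perimeter {a b : ℝ} (ha : 0 < a) (hb : 0 < b)
    (ha' : IsAlgebraic ℚ a) (hb' : IsAlgebraic ℚ b) :
    Transcendental ℚ
      (∫ t in (0 : ℝ)..2 * π, √((a * Real.sin t) ^ 2 + (b * Real.cos t) ^ 2)) :=
  FA.EllipseArc.transcendental_perimeter ha hb ha' hb'

end FA.EllipseArc.Summary

end
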