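import Fermat.Agent.EllipseArc.Chudnovsky

/-!
# Chudnovsky's theorem for the complete elliptic integrals

For algebraic `m < 1`, `m ≠ 0`, with `K`, `E` the complete integrals of modulus `k² = m`:

* `chudnovsky_elliptic_integrals`: `K / π` and `E / π` are algebraically independent over `ℚ`;
* `chudnovsky_agm`: so are `agm (1, √(1 - m))` and `E / π`;
* `transcendental_elliptic_E_div_pi`, `transcendental_perimeter_div_pi`: `E / π` and, for an
  ellipse with distinct algebraic semiaxes, perimeter over `π` are transcendental;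
* `transcendental_quasiPeriod_div_pi`: `η / π` is transcendental for algebraic invariants.

Independent of S01.
-/

set_option autoImplicit false

noncomputable section

open scoped Real PeriodPair

namespace FA.EllipseArc.Summary

/-- **Chudnovsky.** -/
theorem chudnovsky_elliptic_integrals {m : ℝ} (hm : m < 1) (hm0 : m ≠ 0) (hma : IsAlgebraic ℚ m) :
    AlgebraicIndependent ℚ ![(∫ t in (0 : ℝ)..π / 2, (√(1 - m * Real.sin t ^ 2))⁻¹) / π,
      (∫ t in (0 : ℝ)..π / 2, √(1 - m * Real.sin t ^ 2)) / π] :=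
  FA.EllipseArc.algebraicIndependent_div_pi hm hm0 hma

/-- The same with the arithmetic-geometric mean. -/
theorem chudnovsky_agm {m : ℝ} (hm : m < 1) (hm0 : m ≠ 0) (hma : IsAlgebraic ℚ m) :
    AlgebraicIndependent ℚ ![(NNReal.agm 1 (√(1 - m)).toNNReal : ℝ),
      (∫ t in (0 : ℝ)..π / 2, √(1 - m * Real.sin t ^ 2)) / π] :=
  FA.EllipseArc.algebraicIndependent_agm hm hm0 hma

/-- `E / π` is transcendental. -/
theorem transcendental_elliptic_E_div_pi {m : ℝ} (hm : m < 1) (hm0 : m ≠ 0)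
    (hma : IsAlgebraic ℚ m) :
    Transcendental ℚ ((∫ t in (0 : ℝ)..π / 2, √(1 - m * Real.sin t ^ 2)) / π) :=
  FA.EllipseArc.transcendental_completeE_div_pi hm hm0 hma

/-- **The perimeter of an ellipse over `π`.** -/
theorem transcendental_perimeter_div_pi {a b : ℝ} (ha : 0 < a) (hb : 0 < b) (hab : a ≠ b)
    (ha' : IsAlgebraic ℚ a) (hb' : IsAlgebraic ℚ b) :
    Transcendental ℚ
      ((∫ t in (0 : ℝ)..2 * π, √((a * Real.sin t) ^ 2 + (b * Real.cos t) ^ 2)) / π) :=
  FA.EllipseArc.transcendental_perimeter_div_pi ha hb hab ha' hb'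

/-- Quasi-periods over `π`. -/
theorem transcendental_quasiPeriod_div_pi {L : PeriodPair} (h₂ : IsAlgebraic ℚ L.g₂)
    (h₃ : IsAlgebraic ℚ L.g₃) {ζ : ℂ → ℂ}
    (hζ : ∀ z ∉ L.lattice, HasDerivAt ζ (-℘[L] z) z) {ω η : ℂ} (hω : ω ∈ L.lattice)
    (hω0 : ω ≠ 0) (hη : ∀ z ∉ L.lattice, ζ (z + ω) = ζ z + η) :
    Transcendental ℚ (η / (π : ℂ)) :=
  FA.EllipseArc.transcendental_quasiPeriod_div_pi h₂ h₃ hζ hω hω0 hη

end FA.EllipseArc.Summary

end
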