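import Fermat.Agent.BakerExplicit.DiscriminantBound

/-!
# Baker's theorem on integral points of elliptic equations

* `integral_points_effective`: a Weierstrass equation over `ℤ` with `Δ ≠ 0` and coefficients at
  most `2 ^ H` has all its integer points below `2 ^ integralPointBound H`.
* `cubic_square_effective`: Baker's equation `y² = a x³ + b x² + c x + d`, with bound
  `integralPointBound (3 H)`.
* `integral_points_box`: so the integer points are in a box known from the coefficients.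
* `discriminant_effective`: an equation of discriminant `|Δ| ≤ 2 ^ K` has, after a change of
  variables with `u = 1`, coefficients at most `2 ^ weierstrassBound K`, and then its integer points
  are below `2 ^ integralPointBound (weierstrassBound K)`.

All bounds are closed expressions in their arguments.

Not claimed: `S`-integral points, hyperelliptic equations, single exponential bounds.
-/

set_option autoImplicit false

noncomputable section

namespace FA.BakerExplicit.Elliptic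

open EllipticEffective

/-- **Integral points on elliptic equations, effectively.** -/
theorem integral_points_effective {W : WeierstrassCurve ℤ} (hW : W.Δ ≠ 0) {H : ℕ}
    (h₁ : |W.a₁| ≤ 2 ^ H) (h₂ : |W.a₂| ≤ 2 ^ H) (h₃ : |W.a₃| ≤ 2 ^ H) (h₄ : |W.a₄| ≤ 2 ^ H)
    (h₆ : |W.a₆| ≤ 2 ^ H) {x y : ℤ}
    (hxy : y ^ 2 + W.a₁ * x * y + W.a₃ * y = x ^ 3 + W.a₂ * x ^ 2 + W.a₄ * x + W.a₆) :
    x.natAbs < 2 ^ integralPointBound H ∧ y.natAbs < 2 ^ integralPointBound H :=
  weierstrass_bound hW h₁ h₂ h₃ h₄ h₆ hxy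

/-- **Baker's theorem on `y ^ 2 = a x ^ 3 + b x ^ 2 + c x + d`**, the cubic without double root. -/
theorem cubic_square_effective {a b c d : ℤ} (ha : a ≠ 0)
    (hdisc : b ^ 2 * c ^ 2 - 4 * a * c ^ 3 - 4 * b ^ 3 * d - 27 * a ^ 2 * d ^ 2 +
      18 * a * b * c * d ≠ 0) {H : ℕ} (hA : |a| ≤ 2 ^ H) (hB : |b| ≤ 2 ^ H) (hC : |c| ≤ 2 ^ H)
    (hD : |d| ≤ 2 ^ H) {x y : ℤ} (hxy : y ^ 2 = a * x ^ 3 + b * x ^ 2 + c * x + d) :
    x.natAbs < 2 ^ integralPointBound (3 * H) ∧ y.natAbs < 2 ^ integralPointBound (3 * H) := by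
  set W : WeierstrassCurve ℤ := ⟨0, b, 0, a * c, a ^ 2 * d⟩ with hW
  have hΔ : W.Δ = 16 * a ^ 2 * (b ^ 2 * c ^ 2 - 4 * a * c ^ 3 - 4 * b ^ 3 * d -
      27 * a ^ 2 * d ^ 2 + 18 * a * b * c * d) := by
    simp only [hW, WeierstrassCurve.Δ, WeierstrassCurve.b₂, WeierstrassCurve.b₄,
      WeierstrassCurve.b₆, WeierstrassCurve.b₈]
    ring
  have hne : W.Δ ≠ 0 := hΔ ▸ mul_ne_zero (mul_ne_zero (by norm_num) (pow_ne_zero 2 ha)) hdisc
  have h3 : ∀ {i : ℕ}, i ≤ 3 * H → (2 : ℤ) ^ i ≤ 2 ^ (3 * H) := QuarticValues.two_pow_le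
  obtain ⟨hx, hy⟩ := weierstrass_bound hne (H := 3 * H) (x := a * x) (y := a * y)
    (by simp [hW]) (hB.trans (h3 (by omega))) (by simp [hW])
    ((abs_mul_le_two_pow hA hC).trans (h3 (by omega)))
    ((abs_mul_le_two_pow (by rw [sq]; exact abs_mul_le_two_pow hA hA) hD).trans (h3 (by omega)))
    (by simp only [hW]; linear_combination a ^ 2 * hxy)
  have hle : ∀ z : ℤ, z.natAbs ≤ (a * z).natAbs := fun z => by
    rw [Int.natAbs_mul]
    exact Nat.le_mul_of_pos_left _ (Int.natAbs_pos.2 ha)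
  exact ⟨lt_of_le_of_lt (hle x) hx, lt_of_le_of_lt (hle y) hy⟩

/-- **The box**, from the coefficients alone. -/
theorem integral_points_box {W : WeierstrassCurve ℤ} (hW : W.Δ ≠ 0) {x y : ℤ}
    (hxy : y ^ 2 + W.a₁ * x * y + W.a₃ * y = x ^ 3 + W.a₂ * x ^ 2 + W.a₄ * x + W.a₆) :
    let H := W.a₁.natAbs + W.a₂.natAbs + W.a₃.natAbs + W.a₄.natAbs + W.a₆.natAbs
    x.natAbs < 2 ^ integralPointBound H ∧ y.natAbs < 2 ^ integralPointBound H := by
  intro H
  have h : ∀ {z : ℤ}, z.natAbs ≤ H → |z| ≤ 2 ^ H := fun hz => by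
    rw [← QuarticValues.two_pow_cast, Int.abs_eq_natAbs]
    exact_mod_cast (hz.trans_lt Nat.lt_two_pow_self).le
  exact weierstrass_bound hW (h (by omega)) (h (by omega)) (h (by omega)) (h (by omega))
    (h (by omega)) hxy

/-- **Equations of given discriminant, effectively**, together with their integer points. -/
theorem discriminant_effective {W : WeierstrassCurve ℤ} (hW : W.Δ ≠ 0) {K : ℕ}
    (hK : W.Δ.natAbs ≤ 2 ^ K) :
    ∃ C : WeierstrassCurve.VariableChange ℤ, C.u = 1 ∧ (C • W).Δ = W.Δ ∧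
      |(C • W).a₁| ≤ 2 ^ weierstrassBound K ∧ |(C • W).a₂| ≤ 2 ^ weierstrassBound K ∧
      |(C • W).a₃| ≤ 2 ^ weierstrassBound K ∧ |(C • W).a₄| ≤ 2 ^ weierstrassBound K ∧
      |(C • W).a₆| ≤ 2 ^ weierstrassBound K ∧
      ∀ x y : ℤ, y ^ 2 + (C • W).a₁ * x * y + (C • W).a₃ * y =
          x ^ 3 + (C • W).a₂ * x ^ 2 + (C • W).a₄ * x + (C • W).a₆ →
        x.natAbs < 2 ^ integralPointBound (weierstrassBound K) ∧
          y.natAbs < 2 ^ integralPointBound (weierstrassBound K) := by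
  obtain ⟨C, hu, hΔ, h₁, h₂, h₃, h₄, h₆⟩ := discriminant_bound hW hK
  exact ⟨C, hu, hΔ, h₁, h₂, h₃, h₄, h₆, fun x y hxy =>
    weierstrass_bound (hΔ ▸ hW) h₁ h₂ h₃ h₄ h₆ hxy⟩

end FA.BakerExplicit.Elliptic

end
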