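import Fermat.Agent.Tau.SingularModuli

/-!
# Singular moduli

If `τ` is a root of a primitive form of discriminant `D < 0`, then `j(τ)` is algebraic, its
conjugates are values of `j` at roots of reduced primitive forms of discriminant `D`, and its
degree is at most the number `h(D)` of these forms.
-/

set_option autoImplicit false

noncomputable section

open UpperHalfPlane hiding I
open ModularForm EisensteinSeries

namespace FA.Summary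

/-- **The conjugates of a singular modulus are singular moduli of the same discriminant.** -/
theorem singularModulus_conjugate {a b c : ℤ} (hprim : Int.gcd (Int.gcd a b) c = 1)
    (hD : b ^ 2 - 4 * a * c < 0) {τ : ℍ}
    (hτ : (a : ℂ) * (τ : ℂ) ^ 2 + b * (τ : ℂ) + c = 0) (σ : ℂ ≃+* ℂ) :
    ∃ (a' b' c' : ℤ) (τ' : ℍ), b' ^ 2 - 4 * a' * c' = b ^ 2 - 4 * a * c ∧
      Int.gcd (Int.gcd a' b') c' = 1 ∧ |b'| ≤ a' ∧ a' ≤ c' ∧
      (a' : ℂ) * (τ' : ℂ) ^ 2 + b' * (τ' : ℂ) + c' = 0 ∧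
      σ (E₄ τ ^ 3 / ModularForm.discriminant τ) = E₄ τ' ^ 3 / ModularForm.discriminant τ' := by
  obtain ⟨⟨a', b', c'⟩, ⟨h1, h2, -, h3, h4, -⟩, τ', hr, he⟩ :=
    FA.Singular.exists_conjugate hprim hD hτ σ
  exact ⟨a', b', c', τ', h1, h2, h3, h4, hr, he⟩

/-- **Every singular modulus is algebraic, of degree at most `h(D)`.** -/
theorem singularModulus_isAlgebraic {a b c : ℤ} (hprim : Int.gcd (Int.gcd a b) c = 1)
    (hD : b ^ 2 - 4 * a * c < 0) {τ : ℍ}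
    (hτ : (a : ℂ) * (τ : ℂ) ^ 2 + b * (τ : ℂ) + c = 0) :
    IsAlgebraic ℚ (E₄ τ ^ 3 / ModularForm.discriminant τ) ∧
      (minpoly ℚ (E₄ τ ^ 3 / ModularForm.discriminant τ)).natDegree ≤
        {t : ℤ × ℤ × ℤ | t.2.1 ^ 2 - 4 * t.1 * t.2.2 = b ^ 2 - 4 * a * c ∧
          Int.gcd (Int.gcd t.1 t.2.1) t.2.2 = 1 ∧ 0 < t.1 ∧ |t.2.1| ≤ t.1 ∧ t.1 ≤ t.2.2 ∧
          ((|t.2.1| = t.1 ∨ t.1 = t.2.2) → 0 ≤ t.2.1)}.ncard :=
  FA.Singular.isAlgebraic_natDegree_le hprim hD hτ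

/-- **The class number is finite.** -/
theorem reducedPrimitiveForms_finite (D : ℤ) :
    {t : ℤ × ℤ × ℤ | t.2.1 ^ 2 - 4 * t.1 * t.2.2 = D ∧
      Int.gcd (Int.gcd t.1 t.2.1) t.2.2 = 1 ∧ 0 < t.1 ∧ |t.2.1| ≤ t.1 ∧ t.1 ≤ t.2.2 ∧
      ((|t.2.1| = t.1 ∨ t.1 = t.2.2) → 0 ≤ t.2.1)}.Finite :=
  FA.Singular.red_finite D

end FA.Summary

end
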