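import Fermat.Agent.ThetaAGM.Mean
import Fermat.Agent.Root.SummaryRealPeriod

/-!
# Gauss: theta constants and the arithmetic-geometric mean

With `θ₂ = ∑ q^((n + 1/2)²)`, `θ₃ = ∑ q^(n²)`, `θ₄ = ∑ (-1)^n q^(n²)` for `q = e^(-π t)`:
`θ₃⁴ = θ₂⁴ + θ₄⁴`, `agm(θ₃², θ₄²) = 1`, the complete elliptic integral of modulus `θ₂²/θ₃²` is
`π θ₃² / 2`, and every pair is proportional to exactly one `(θ₃², θ₄²)`.
-/

set_option autoImplicit false

noncomputable section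

open MeasureTheory Set
open FA.ThetaAGM (thetaTwo thetaThree thetaFour)
open scoped Real NNReal

namespace FA.Summary

/-- **Jacobi's quartic identity**, and the duplication formulae. -/
theorem theta_constants_identities {t : ℝ} (ht : 0 < t) :
    thetaTwo t ^ 4 + thetaFour t ^ 4 = thetaThree t ^ 4 ∧
      thetaThree t ^ 2 + thetaFour t ^ 2 = 2 * thetaThree (2 * t) ^ 2 ∧
      thetaThree t ^ 2 - thetaFour t ^ 2 = 2 * thetaTwo (2 * t) ^ 2 ∧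
      thetaThree t * thetaFour t = thetaFour (2 * t) ^ 2 :=
  ⟨FA.ThetaAGM.quartic ht, FA.ThetaAGM.sq_add_sq ht, FA.ThetaAGM.sq_sub_sq ht,
    FA.ThetaAGM.mul_eq_sq ht⟩

/-- **Gauss**: `agm(θ₃², θ₄²) = 1` and `agm(θ₃², θ₂²) = 1 / t`. -/
theorem theta_agm {t : ℝ} (ht : 0 < t) :
    (NNReal.agm (thetaThree t ^ 2).toNNReal (thetaFour t ^ 2).toNNReal : ℝ) = 1 ∧
      (NNReal.agm (thetaThree t ^ 2).toNNReal (thetaTwo t ^ 2).toNNReal : ℝ) = t⁻¹ :=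
  ⟨FA.ThetaAGM.agm_thetaThree_thetaFour ht, FA.ThetaAGM.agm_thetaThree_thetaTwo ht⟩

/-- **The complete elliptic integral** of complementary modulus `θ₄² / θ₃²` is `π θ₃² / 2`. -/
theorem theta_completeIntegral {t : ℝ} (ht : 0 < t) :
    ∫ x in Ioi (0 : ℝ),
        (√((x ^ 2 + 1) * (x ^ 2 + (thetaFour t ^ 2 / thetaThree t ^ 2) ^ 2)))⁻¹ =
      π * thetaThree t ^ 2 / 2 := by
  have h3 := pow_pos (FA.ThetaAGM.thetaThree_pos ht) 2
  have hq : 0 < thetaFour t ^ 2 / thetaThree t ^ 2 :=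
    div_pos (pow_pos (FA.ThetaAGM.thetaFour_pos ht) 2) h3
  have h := (FA.ThetaAGM.param_unique (a := 1)
    (b := thetaFour t ^ 2 / thetaThree t ^ 2) one_pos ht (div_one _).symm).1
  rw [Real.toNNReal_one] at h
  have g := gauss_agm (a := 1) one_pos (Real.toNNReal_pos.mpr hq)
  rw [NNReal.coe_one, one_pow, h, Real.coe_toNNReal _ hq.le] at g
  rw [g]
  field_simp

/-- **Gauss's inversion**: for `0 < b < a` exactly one `t > 0` gives `θ₄²/θ₃² = b/a`; it is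
`agm(a, b) / agm(a, √(a² - b²))`, and then `agm(a, b) = a / θ₃(t)²`. -/
theorem theta_inversion {a b : ℝ} (ha : 0 < a) (hb : 0 < b) (hab : b < a) :
    ∃ t : ℝ, 0 < t ∧ (∀ s : ℝ, 0 < s →
        (thetaFour s ^ 2 / thetaThree s ^ 2 = b / a ↔ s = t)) ∧
      t = (NNReal.agm a.toNNReal b.toNNReal : ℝ) /
        (NNReal.agm a.toNNReal (√(a ^ 2 - b ^ 2)).toNNReal : ℝ) ∧
      (NNReal.agm a.toNNReal b.toNNReal : ℝ) = a / thetaThree t ^ 2 := by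
  obtain ⟨t, ht, h⟩ := FA.ThetaAGM.exists_param (div_pos hb ha) ((div_lt_one ha).mpr hab)
  have he : thetaFour t ^ 2 / thetaThree t ^ 2 = b / a :=
    (div_eq_iff (pow_ne_zero 2 (FA.ThetaAGM.thetaThree_pos ht).ne')).mpr h
  obtain ⟨h1, h2⟩ := FA.ThetaAGM.param_unique ha ht he
  refine ⟨t, ht, fun s hs => ⟨fun e => ?_, fun e => e ▸ he⟩, h2, h1⟩
  rw [h2]
  exact (FA.ThetaAGM.param_unique ha hs e).2

/-- **Periods as theta values**: with three real roots the least positive real period is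
`π θ₃(t)² / √(e₃ - e₁)`, where `θ₄(t)² / θ₃(t)² = √(e₃ - e₂) / √(e₃ - e₁)`. -/
theorem realPeriod_theta (L : PeriodPair) {e₁ e₂ e₃ : ℝ} (h12 : e₁ < e₂) (h23 : e₂ < e₃)
    (h0 : e₁ + e₂ + e₃ = 0) (h₂ : L.g₂ = ((-4 * (e₁ * e₂ + e₁ * e₃ + e₂ * e₃) : ℝ) : ℂ))
    (h₃ : L.g₃ = ((4 * (e₁ * e₂ * e₃) : ℝ) : ℂ)) :
    ∃ t : ℝ, 0 < t ∧ thetaFour t ^ 2 / thetaThree t ^ 2 = √(e₃ - e₂) / √(e₃ - e₁) ∧
      ∀ s : ℝ, (s : ℂ) ∈ L.lattice ↔
        ∃ m : ℤ, s = m * (π * thetaThree t ^ 2 / √(e₃ - e₁)) := by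
  obtain ⟨t, ht, hu, -, hM⟩ := theta_inversion (a := √(e₃ - e₁)) (b := √(e₃ - e₂))
    (Real.sqrt_pos.mpr (by linarith)) (Real.sqrt_pos.mpr (by linarith))
    (Real.sqrt_lt_sqrt (by linarith) (by linarith))
  obtain ⟨ω, -, hper, hω⟩ := realPeriod_agm L h12 h23 h0 h₂ h₃
  rw [hM] at hω
  refine ⟨t, ht, (hu t ht).mpr rfl, fun s => ?_⟩
  rw [hper s, hω, div_div_eq_mul_div]

end FA.Summary

end
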