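import Fermat.Agent.ThetaAGM.Jacobi
import Fermat.Agent.Root.SummarySingularModuli
import Fermat.Agent.Root.SummaryThetaAGM

/-!
# Rectangular lattices and the singular values of the elliptic modulus

With three real roots both periods are `π / agm`; `E₄`, `E₆`, `Δ`, `j` on the imaginary axis in
theta constants; the modulus `k = θ₂²/θ₃²` is algebraic where `t²` is rational.
-/

set_option autoImplicit false
set_option linter.style.haveILetI false

noncomputable section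

open Polynomial
open FA.ThetaAGM (thetaTwo thetaThree thetaFour)
open scoped Real NNReal

namespace FA.Summary

/-- **Both periods by the arithmetic-geometric mean**: with three real roots the lattice is
`ω ℤ + i ω' ℤ`, `ω = π / agm(√(e₃-e₁), √(e₃-e₂))`, `ω' = π / agm(√(e₃-e₁), √(e₂-e₁))`. -/
theorem rectangular_lattice_agm (L : PeriodPair) {e₁ e₂ e₃ : ℝ} (h12 : e₁ < e₂) (h23 : e₂ < e₃)
    (h0 : e₁ + e₂ + e₃ = 0) (h₂ : L.g₂ = ((-4 * (e₁ * e₂ + e₁ * e₃ + e₂ * e₃) : ℝ) : ℂ))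
    (h₃ : L.g₃ = ((4 * (e₁ * e₂ * e₃) : ℝ) : ℂ)) (z : ℂ) :
    z ∈ L.lattice ↔ ∃ p : ℤ × ℤ, z =
      (p.1 : ℂ) * ((π / (NNReal.agm (√(e₃ - e₁)).toNNReal (√(e₃ - e₂)).toNNReal : ℝ) : ℝ) : ℂ) +
      (p.2 : ℂ) * (((π / (NNReal.agm (√(e₃ - e₁)).toNNReal (√(e₂ - e₁)).toNNReal : ℝ) : ℝ) : ℂ) *
        Complex.I) := by
  obtain ⟨ω, hω, hper, rfl⟩ := realPeriod_agm L h12 h23 h0 h₂ h₃
  obtain ⟨ω', hω', hper', hv'⟩ := realPeriod_agm (FA.JInj.scalePair L Complex.I Complex.I_ne_zero)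
    (e₁ := -e₃) (e₂ := -e₂) (e₃ := -e₁) (by linarith) (by linarith) (by linarith)
    (by rw [FA.JInj.g₂_scalePair, Complex.I_pow_four, inv_one, one_mul, h₂]; push_cast; ring)
    (by rw [FA.JInj.g₃_scalePair, show Complex.I ^ 6 = (Complex.I ^ 2) ^ 3 by ring, Complex.I_sq,
      h₃]; push_cast; ring)
  rw [neg_sub_neg, neg_sub_neg] at hv'
  rw [← hv']
  exact FA.RealPoints.mem_lattice_rectangular L h12 h23 h0 h₂ h₃ hω hper hω' hper' z

/-- **Jacobi**: `E₄`, `E₆`, `Δ` and `j` in theta constants at `τ = i t`. -/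
theorem jacobi_theta_invariants {t : ℝ} (ht : 0 < t) {τ : UpperHalfPlane}
    (hτ : (τ : ℂ) = (t : ℂ) * Complex.I) :
    ModularForm.E₄ τ =
      (((thetaTwo t ^ 8 + thetaThree t ^ 8 + thetaFour t ^ 8) / 2 : ℝ) : ℂ) ∧
    ModularForm.E₆ τ =
      (((thetaTwo t ^ 4 + thetaThree t ^ 4) * (thetaThree t ^ 4 + thetaFour t ^ 4) *
        (thetaFour t ^ 4 - thetaTwo t ^ 4) / 2 : ℝ) : ℂ) ∧
    ModularForm.discriminant τ =
      (((thetaTwo t * thetaThree t * thetaFour t) ^ 8 / 256 : ℝ) : ℂ) ∧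
    ∀ l : ℝ, l = thetaTwo t ^ 4 / thetaThree t ^ 4 →
      ModularForm.E₄ τ ^ 3 / ModularForm.discriminant τ =
        ((256 * (1 - l + l ^ 2) ^ 3 / (l ^ 2 * (1 - l) ^ 2) : ℝ) : ℂ) := by
  obtain rfl : τ = FA.ThetaAGM.imPt t ht := UpperHalfPlane.ext hτ
  exact ⟨(FA.ThetaAGM.invariants_imPt ht).1, (FA.ThetaAGM.invariants_imPt ht).2,
    FA.ThetaAGM.discriminant_imPt ht, fun l hl => FA.ThetaAGM.jfun_imPt ht hl⟩

/-- **Singular values of the modulus**: `θ₂(t)²/θ₃(t)²` is algebraic whenever `t²` is rational. -/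
theorem singular_modulus_k_isAlgebraic {t : ℝ} (ht : 0 < t) {r : ℚ} (hr : t ^ 2 = r) :
    IsAlgebraic ℚ ((thetaTwo t ^ 2 / thetaThree t ^ 2 : ℝ) : ℂ) := by
  set τ := FA.ThetaAGM.imPt t ht
  have hrpos : (0 : ℚ) < r := by exact_mod_cast hr ▸ pow_pos ht 2
  have hnum : 0 < r.num := Rat.num_pos.mpr hrpos
  have hj : IsAlgebraic ℚ (ModularForm.E₄ τ ^ 3 / ModularForm.discriminant τ) := by
    refine (singularModulus_isAlgebraic (a := r.den) (b := 0) (c := r.num) ?_ ?_ ?_).1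
    · rw [Int.gcd_zero_right, Int.natAbs_natCast]
      simpa [Int.gcd] using r.reduced.symm
    · have : (0 : ℤ) < r.den := by exact_mod_cast r.pos
      nlinarith
    · have h : (t : ℂ) ^ 2 * (r.den : ℂ) = (r.num : ℂ) := by
        rw [← Complex.ofReal_pow, hr]
        exact_mod_cast Rat.mul_den_eq_num r
      show ((r.den : ℤ) : ℂ) * ((t : ℂ) * Complex.I) ^ 2 + ((0 : ℤ) : ℂ) * _ + (r.num : ℂ) = 0
      push_cast
      linear_combination (r.den : ℂ) * (t : ℂ) ^ 2 * Complex.I_sq - h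
  set K := algebraicClosure ℚ ℂ
  set l : ℝ := thetaTwo t ^ 4 / thetaThree t ^ 4 with hl
  have hjl := FA.ThetaAGM.jfun_imPt ht hl
  have h2 := FA.ThetaAGM.thetaTwo_pos ht
  have h3 := FA.ThetaAGM.thetaThree_pos ht
  have h4 := FA.ThetaAGM.thetaFour_pos ht
  have hl0 : 0 < l := by positivity
  have hl1 : l < 1 := (div_lt_one (by positivity)).mpr
    (by linarith [FA.ThetaAGM.quartic ht, pow_pos h4 4])
  set j : K := ⟨_, mem_algebraicClosure_iff.mpr hj⟩ with hjdef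
  have halg : IsAlgebraic K (l : ℂ) := by
    refine ⟨C (256 : K) * (1 - X + X ^ 2) ^ 3 - C j * (X ^ 2 * (1 - X) ^ 2), fun h => ?_, ?_⟩
    · have := congrArg (Polynomial.eval (0 : K)) h
      simp at this
    · simp only [map_sub, map_mul, map_pow, map_add, map_one, aeval_X, aeval_C, map_ofNat]
      rw [show algebraMap K ℂ j = ((256 * (1 - l + l ^ 2) ^ 3 / (l ^ 2 * (1 - l) ^ 2) : ℝ) : ℂ)
        from hjl]
      have hne : (l : ℂ) ^ 2 * (1 - (l : ℂ)) ^ 2 ≠ 0 := by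
        exact_mod_cast mul_ne_zero (pow_ne_zero 2 hl0.ne') (pow_ne_zero 2 (sub_pos.mpr hl1).ne')
      push_cast
      rw [div_mul_cancel₀ _ hne, sub_self]
  refine IsAlgebraic.of_pow (n := 2) two_pos ?_
  rw [← Complex.ofReal_pow, div_pow, ← pow_mul, ← pow_mul]
  haveI : Algebra.IsAlgebraic ℚ K := algebraicClosure.isAlgebraic ℚ ℂ
  exact IsAlgebraic.restrictScalars ℚ halg

/-- **Landen's transformation**: `k(2t) = (1 - k'(t)) / (1 + k'(t))`. -/
theorem landen_modulus {t : ℝ} (ht : 0 < t) :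
    thetaTwo (2 * t) ^ 2 / thetaThree (2 * t) ^ 2 =
      (1 - thetaFour t ^ 2 / thetaThree t ^ 2) / (1 + thetaFour t ^ 2 / thetaThree t ^ 2) := by
  have h3 := FA.ThetaAGM.thetaThree_pos ht
  have h3' := FA.ThetaAGM.thetaThree_pos (mul_pos two_pos ht)
  have ha := FA.ThetaAGM.sq_add_sq ht
  have hs := FA.ThetaAGM.sq_sub_sq ht
  have h4 : 0 ≤ thetaFour t ^ 2 := sq_nonneg _
  rw [one_sub_div (by positivity), one_add_div (by positivity),
    div_div_div_cancel_right₀ (by positivity), ha, hs]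
  field_simp

/-- `k(√2) = √2 - 1` and `k(2) = 3 - 2 √2`. -/
theorem modulus_sqrt_two_and_two :
    thetaTwo (√2) ^ 2 / thetaThree (√2) ^ 2 = √2 - 1 ∧
      thetaTwo 2 ^ 2 / thetaThree 2 ^ 2 = 3 - 2 * √2 := by
  have hs : √(2 : ℝ) ^ 2 = 2 := Real.sq_sqrt zero_le_two
  have hs0 : 0 < √(2 : ℝ) := Real.sqrt_pos.mpr two_pos
  have hinv : ∀ {s : ℝ}, 0 < s → thetaFour s⁻¹ ^ 2 / thetaThree s⁻¹ ^ 2 =
      thetaTwo s ^ 2 / thetaThree s ^ 2 := fun {s} hs' => by
    rw [FA.ThetaAGM.sq_thetaFour_inv hs', FA.ThetaAGM.sq_thetaThree_inv hs',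
      mul_div_mul_left _ _ hs'.ne']
  constructor
  · have h := landen_modulus (inv_pos.mpr hs0)
    rw [hinv hs0, show 2 * (√(2 : ℝ))⁻¹ = √2 by field_simp; linarith] at h
    have hk : 0 ≤ thetaTwo (√2) ^ 2 / thetaThree (√2) ^ 2 := by positivity
    generalize thetaTwo (√2) ^ 2 / thetaThree (√2) ^ 2 = k at h hk ⊢
    rw [eq_div_iff (by linarith)] at h
    have : (k + 1) ^ 2 = √2 ^ 2 := by linear_combination h - hs
    linarith [(pow_left_inj₀ (by linarith) hs0.le two_ne_zero).mp this]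
  · have h := landen_modulus one_pos
    have h1 := hinv one_pos
    rw [inv_one] at h1
    rw [mul_one, h1] at h
    have hq := FA.ThetaAGM.quartic one_pos
    have hsq : thetaFour 1 ^ 2 = thetaTwo 1 ^ 2 := by
      simpa using FA.ThetaAGM.sq_thetaFour_inv one_pos
    have hk : thetaTwo 1 ^ 2 / thetaThree 1 ^ 2 = (√2)⁻¹ := by
      have h3 := FA.ThetaAGM.thetaThree_pos one_pos
      refine (pow_left_inj₀ (by positivity) (by positivity) two_ne_zero).mp ?_
      rw [inv_pow, hs, div_pow, div_eq_iff (by positivity)]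
      linear_combination (1 / 2 : ℝ) * hq -
        (1 / 2 : ℝ) * (thetaFour 1 ^ 2 + thetaTwo 1 ^ 2) * hsq
    rw [h, hk]
    field_simp
    linear_combination 2 * hs

end FA.Summary

end
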