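import Fermat.Agent.EllipticSecondKind.Main

/-!
# Schneider's theorem on elliptic integrals of the second kind

`ζ` denotes any primitive of `-℘` off the lattice; it grows by a constant `η` along each period
(`exists_quasiPeriod`).

* `legendre_relation`: `η₁ ω₂ - η₂ ω₁ = ± 2 π i`;
* `schneider_second_kind`: for algebraic invariants, a non-zero period `ω` and algebraic `a, b`,
  not both zero, `a ω + b η` is transcendental;
* `transcendental_quasiPeriod`, `transcendental_quasiPeriod_div`: so are `η` and `η / ω`.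

Independent of S01.
-/

set_option autoImplicit false

noncomputable section

open Complex
open scoped Real PeriodPair

namespace FA.EllipticSecondKind.Summary

/-- A primitive of `-℘` and its quasi-periods. -/
theorem exists_quasiPeriod (L : PeriodPair) :
    ∃ ζ : ℂ → ℂ, (∀ z ∉ L.lattice, HasDerivAt ζ (-℘[L] z) z) ∧
      ∀ ω ∈ L.lattice, ∃ η : ℂ, ∀ z ∉ L.lattice, ζ (z + ω) = ζ z + η :=
  FA.EllipticSecondKind.exists_primitive L

variable {L : PeriodPair} {ζ : ℂ → ℂ}

/-- **Legendre's relation.** -/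
theorem legendre_relation (hζ : ∀ z ∉ L.lattice, HasDerivAt ζ (-℘[L] z) z) {η₁ η₂ : ℂ}
    (h₁ : ∀ z ∉ L.lattice, ζ (z + L.ω₁) = ζ z + η₁)
    (h₂ : ∀ z ∉ L.lattice, ζ (z + L.ω₂) = ζ z + η₂) :
    (0 < (L.ω₂ / L.ω₁).im → η₁ * L.ω₂ - η₂ * L.ω₁ = 2 * π * I) ∧
      ((L.ω₂ / L.ω₁).im < 0 → η₁ * L.ω₂ - η₂ * L.ω₁ = -(2 * π * I)) :=
  FA.EllipticSecondKind.legendre_relation hζ h₁ h₂

variable (h₂ : IsAlgebraic ℚ L.g₂) (h₃ : IsAlgebraic ℚ L.g₃)
  (hζ : ∀ z ∉ L.lattice, HasDerivAt ζ (-℘[L] z) z)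
  {ω η : ℂ} (hω : ω ∈ L.lattice) (hω0 : ω ≠ 0) (hη : ∀ z ∉ L.lattice, ζ (z + ω) = ζ z + η)

include h₂ h₃ hζ hω hω0 hη

/-- **Schneider**: periods of integrals of the first and second kind. -/
theorem schneider_second_kind {a b : ℂ} (ha : IsAlgebraic ℚ a) (hb : IsAlgebraic ℚ b)
    (hab : a ≠ 0 ∨ b ≠ 0) : Transcendental ℚ (a * ω + b * η) :=
  FA.EllipticSecondKind.transcendental_second_kind h₂ h₃ hζ hω hω0 hη ha hb hab

/-- **Schneider**: quasi-periods are transcendental. -/
theorem transcendental_quasiPeriod : Transcendental ℚ η :=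
  FA.EllipticSecondKind.transcendental_quasiPeriod h₂ h₃ hζ hω hω0 hη

/-- **Schneider**: the quotient of quasi-period and period is transcendental. -/
theorem transcendental_quasiPeriod_div : Transcendental ℚ (η / ω) :=
  FA.EllipticSecondKind.transcendental_quasiPeriod_div h₂ h₃ hζ hω hω0 hη

end FA.EllipticSecondKind.Summary

end
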