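import Fermat.Agent.EllipticUnits.Chain
import Fermat.Agent.Root.SummaryClassLValues
import Fermat.Agent.Root.SummaryPrimeIdealTheorem

/-!
# Elliptic units

`elliptic_units`: for an imaginary quadratic field let `H C = √y |η τ|²` be as in
`kronecker_class_limit`. Then
* every `(H C / H C')²⁴` is a unit of the algebraic integers (Siegel, Novikov, Deuring);
* it is `exp (-(6 w √|D| / π) (F C⁻¹ - F C'⁻¹))` for the constant terms `F` of the partial zeta
  functions at `s = 1`;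
* the units of the conjugate vectors are independent: the rank is `h - 1`.

`stark_units`: hence the difference of the constant terms of two partial zeta functions at `s = 1`
is the logarithm of an algebraic unit (the unit half of Stark's conjecture in rank one).
-/

set_option autoImplicit false
set_option linter.style.haveILetI false

noncomputable section

open NumberField Module IsDedekindDomain
open scoped Real UpperHalfPlane nonZeroDivisors Classical

namespace FA.EllipticUnits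

open FA.FieldClassBound FA.ChowlaSelberg

variable {K : Type*} [Field K] [NumberField K]

theorem exists_prime_mem (P : Ideal (𝓞 K)) [P.IsPrime] :
    ∀ n : ℕ, n ≠ 0 → (n : 𝓞 K) ∈ P → ∃ p : ℕ, p.Prime ∧ (p : 𝓞 K) ∈ P := by
  intro n
  induction n using Nat.recOnMul with
  | zero => simp
  | one =>
    intro _ h
    rw [Nat.cast_one] at h
    exact absurd ((Ideal.eq_top_iff_one P).2 h) (Ideal.IsPrime.ne_top inferInstance)
  | prime q hq => exact fun _ h => ⟨q, hq, h⟩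
  | mul a b ha hb =>
    intro h0 h
    rw [Nat.cast_mul] at h
    rcases Ideal.IsPrime.mem_or_mem inferInstance h with h' | h'
    · exact ha (left_ne_zero_of_mul h0) h'
    · exact hb (right_ne_zero_of_mul h0) h'

/-- A nontrivial class contains a prime of degree one not over `D`. -/
theorem exists_split_prime {d : ℤ} {s : K} {e : K →+* ℂ} (hK : finrank ℚ K = 2) (hd0 : d < 0)
    (hs : s ^ 2 = (d : K)) (he : e s = Complex.I * (Real.sqrt (-(d : ℝ)) : ℂ))
    {C : ClassGroup (𝓞 K)} (hC : C ≠ 1) :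
    ∃ (P : (Ideal (𝓞 K))⁰) (p : ℕ), P.1.IsPrime ∧ p.Prime ∧ Ideal.absNorm P.1 = p ∧
      ¬(p : ℤ) ∣ discK d ∧ ClassGroup.mk0 P = C := by
  have hD : Ideal.span {((discK d : ℤ) : 𝓞 K)} ≠ 0 := by
    simpa [Ideal.span_singleton_eq_bot] using (discK_neg hd0).ne
  obtain ⟨v, hvC, hvD⟩ :=
    ((FA.Summary.infinite_primes_in_class K C).sdiff (Ideal.finite_factors hD)).nonempty
  set P : Ideal (𝓞 K) := v.asIdeal
  haveI := v.isPrime
  obtain ⟨p, hp, hpP⟩ := exists_prime_mem P _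
    (Ideal.absNorm_eq_zero_iff.not.2 v.ne_bot) (Ideal.absNorm_mem P)
  have hle : Ideal.span {(p : 𝓞 K)} ≤ P := (Ideal.span_singleton_le_iff_mem _).2 hpP
  have hdvd := Ideal.absNorm_dvd_absNorm_of_le hle
  rw [absNorm_span_natCast hK hd0 hs he] at hdvd
  obtain ⟨i, hi, hN⟩ := (Nat.dvd_prime_pow hp).1 hdvd
  have hi1 : i = 1 := by
    rcases i with - | - | i
    · rw [pow_zero, Ideal.absNorm_eq_one_iff] at hN
      exact absurd hN (Ideal.IsPrime.ne_top inferInstance)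
    · rfl
    · obtain rfl : i = 0 := by omega
      obtain ⟨J, hJ⟩ := Ideal.dvd_iff_le.2 hle
      have h := congrArg Ideal.absNorm hJ
      rw [absNorm_span_natCast hK hd0 hs he, map_mul, hN] at h
      have hJ1 : Ideal.absNorm J = 1 := by
        refine (mul_eq_left₀ (pow_ne_zero 2 hp.ne_zero)).1 ?_
        simpa using h.symm
      rw [Ideal.absNorm_eq_one_iff.1 hJ1, Ideal.mul_top] at hJ
      refine absurd ?_ hC
      rw [← hvC]
      refine (ClassGroup.mk0_eq_one_iff _).2 ⟨⟨(p : 𝓞 K), ?_⟩⟩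
      exact hJ.symm
  rw [hi1, pow_one] at hN
  refine ⟨⟨P, mem_nonZeroDivisors_iff_ne_zero.2 v.ne_bot⟩, p, v.isPrime, hp, hN,
    fun h => hvD ?_, hvC⟩
  show P ∣ _
  rw [Ideal.dvd_iff_le, Ideal.span_singleton_le_iff_mem]
  exact (intCast_mem_iff_dvd hp hN _).2 h

end FA.EllipticUnits

namespace FA.Summary

/-- **Elliptic units.** -/
theorem elliptic_units (K : Type*) [Field K] [NumberField K] [IsTotallyComplex K]
    (hK : finrank ℚ K = 2) :
    letI N : ℝ := ((discr K).natAbs : ℝ)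
    letI w : ℝ := (Units.torsionOrder K : ℝ)
    ∃ (e : K →+* ℂ) (H : ClassGroup (𝓞 K) → ℝ),
      (∀ C, 0 < H C ∧ ∃ (a b c : ℤ) (α : 𝓞 K) (τ : ℍ)
          (hJ : Ideal.span {(a : 𝓞 K), α} ∈ (Ideal (𝓞 K))⁰),
        b ^ 2 - 4 * a * c = discr K ∧ 0 < a ∧ |b| ≤ a ∧ a ≤ c ∧
          (a : ℂ) * (τ : ℂ) ^ 2 + b * (τ : ℂ) + c = 0 ∧ e (α : K) = (a : ℂ) * τ ∧
          ClassGroup.mk0 ⟨_, hJ⟩ = C ∧ H C = √τ.im * ‖ModularForm.eta τ‖ ^ 2) ∧
      (∀ C C', IsIntegral ℤ (((H C / H C') ^ 24 : ℝ) : ℂ) ∧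
        IsIntegral ℤ ((((H C / H C') ^ 24)⁻¹ : ℝ) : ℂ)) ∧
      (∀ (C C' : ClassGroup (𝓞 K)) (F F' : ℂ → ℂ), Differentiable ℂ F → Differentiable ℂ F' →
        (∀ s : ℂ, 1 < s.re → ∑' I : {I : (Ideal (𝓞 K))⁰ // ClassGroup.mk0 I = C},
          ((Ideal.absNorm I.1.1 : ℕ) : ℂ) ^ (-s) =
            ((2 * π / (w * √N) : ℝ) : ℂ) / (s - 1) + F s) →
        (∀ s : ℂ, 1 < s.re → ∑' I : {I : (Ideal (𝓞 K))⁰ // ClassGroup.mk0 I = C'},
          ((Ideal.absNorm I.1.1 : ℕ) : ℂ) ^ (-s) =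
            ((2 * π / (w * √N) : ℝ) : ℂ) / (s - 1) + F' s) →
        Complex.exp (-((6 * w * √N / π : ℝ) : ℂ) * (F 1 - F' 1)) =
          (((H C⁻¹ / H C'⁻¹) ^ 24 : ℝ) : ℂ)) ∧
      ∀ n : {C : ClassGroup (𝓞 K) // C ≠ 1} → ℤ,
        (∀ A : {C : ClassGroup (𝓞 K) // C ≠ 1},
          ∏ B, ((H (A.1 * B.1) / H A.1) ^ 24) ^ n B = 1) → n = 0 := by
  obtain ⟨e, H, hH, hF, -, hdet⟩ := kronecker_class_limit K hK
  obtain ⟨d, hd, hd0, s, hs⟩ := FA.ChowlaSelberg.exists_sq_eq_intCast_neg K hK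
  obtain ⟨e', he'⟩ := FA.FieldClassBound.exists_emb hd0 hs
  obtain ⟨f, T, A, hsys⟩ := FA.EllipticUnits.exists_system hK hd hd0 hs he'
  have huniq : ∀ {κ : ℂ} {C : ClassGroup (𝓞 K)} {F G : ℂ → ℂ}, Differentiable ℂ F →
      Differentiable ℂ G →
      (∀ z : ℂ, 1 < z.re → ∑' I : {I : (Ideal (𝓞 K))⁰ // ClassGroup.mk0 I = C},
          ((Ideal.absNorm I.1.1 : ℕ) : ℂ) ^ (-z) = κ / (z - 1) + F z) →
      (∀ z : ℂ, 1 < z.re → ∑' I : {I : (Ideal (𝓞 K))⁰ // ClassGroup.mk0 I = C},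
          ((Ideal.absNorm I.1.1 : ℕ) : ℂ) ^ (-z) = κ / (z - 1) + G z) → F 1 = G 1 := by
    intro κ C F G hF hG h1 h2
    have hev : (fun z : ℝ => F z) =ᶠ[nhdsWithin 1 (Set.Ioi 1)] fun z : ℝ => G z := by
      filter_upwards [self_mem_nhdsWithin] with z hz
      exact add_left_cancel ((h1 z (by simpa using hz)).symm.trans (h2 z (by simpa using hz)))
    refine tendsto_nhds_unique (l := nhdsWithin (1 : ℝ) (Set.Ioi 1)) ?_
      ((Filter.Tendsto.mono_left ?_ nhdsWithin_le_nhds).congr' hev.symm)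
    · simpa [Function.comp_def] using ((hF.continuous.comp Complex.continuous_ofReal).tendsto 1
        ).mono_left nhdsWithin_le_nhds
    · simpa [Function.comp_def] using (hG.continuous.comp Complex.continuous_ofReal).tendsto 1
  have hN : 0 < √((discr K).natAbs : ℝ) :=
    Real.sqrt_pos.2 (Nat.cast_pos.2 (Int.natAbs_pos.2 (discr_ne_zero K)))
  have hw : (0 : ℝ) < (Units.torsionOrder K : ℝ) :=
    Nat.cast_pos.2 (Nat.pos_of_ne_zero (Units.torsionOrder_ne_zero K))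
  have hHT : ∀ C, H C = FA.ChowlaSelberg.height (T C) := by
    intro C
    obtain ⟨hf, hg, hfC⟩ := hsys C
    obtain ⟨F, hFd, hFs, hF1⟩ := hF C⁻¹
    obtain ⟨G, hGd, hGs, hG1⟩ := FA.ChowlaSelberg.classZeta_at_one hK hd hd0 hs he' hf hg
      (C := C⁻¹) (by rw [hfC])
    have h := huniq hFd hGd hFs hGs
    rw [hF1, hG1, inv_inv, Complex.ofReal_inj, sub_left_inj] at h
    have h' := mul_left_cancel₀ (by positivity) h
    exact Real.log_injOn_pos (hH C).1 (FA.ChowlaSelberg.height_pos _) (by linarith)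
  have hone : ∀ C, IsIntegral ℤ (((H C / H 1) ^ 24 : ℝ) : ℂ) ∧
      IsIntegral ℤ (((H 1 / H C) ^ 24 : ℝ) : ℂ) := by
    intro C
    rcases eq_or_ne C 1 with rfl | hC
    · simp [div_self (hH (1 : ClassGroup (𝓞 K))).1.ne', isIntegral_one]
    obtain ⟨P, p, hPp, hp, hP, hpD, rfl⟩ :=
      FA.EllipticUnits.exists_split_prime hK hd0 hs he' hC
    rw [hHT, hHT]
    exact FA.EllipticUnits.isIntegral_ratio hK hd hd0 hs he' hsys hPp hp hP hpD
  have hall : ∀ C C', IsIntegral ℤ (((H C / H C') ^ 24 : ℝ) : ℂ) := fun C C' => by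
    have := (hH (1 : ClassGroup (𝓞 K))).1.ne'
    rw [show (H C / H C') ^ 24 = (H C / H 1) ^ 24 * (H 1 / H C') ^ 24 by
      rw [← mul_pow]; field_simp, Complex.ofReal_mul]
    exact (hone C).1.mul (hone C').2
  refine ⟨e, H, hH, fun C C' => ⟨hall C C', by rw [← inv_pow, inv_div]; exact hall C' C⟩,
    fun C C' F F' hFd hFd' hFs hFs' => ?_, fun n hn => ?_⟩
  · obtain ⟨G, hGd, hGs, hG1⟩ := hF C
    obtain ⟨G', hGd', hGs', hG1'⟩ := hF C'
    rw [huniq hFd hGd hFs hGs, huniq hFd' hGd' hFs' hGs', hG1, hG1', ← Complex.ofReal_sub,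
      ← Complex.ofReal_neg, ← Complex.ofReal_mul, ← Complex.ofReal_exp, Complex.ofReal_inj]
    have h1 := (hH C⁻¹).1
    have h2 := (hH C'⁻¹).1
    rw [← Real.exp_log (show (0 : ℝ) < (H C⁻¹ / H C'⁻¹) ^ 24 by positivity), Real.log_pow,
      Real.log_div h1.ne' h2.ne']
    congr 1
    have hπ := Real.pi_pos
    field_simp
    push_cast
    ring
  · have hlog : Matrix.mulVec (Matrix.of fun A B : {C : ClassGroup (𝓞 K) // C ≠ 1} =>
        Real.log (H (A.1 * B.1)) - Real.log (H A.1)) (fun B => (n B : ℝ)) = 0 := by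
      funext A
      have h := congrArg Real.log (hn A)
      rw [Real.log_one, Real.log_prod (fun B _ => zpow_ne_zero _ (pow_ne_zero _
        (div_ne_zero (hH _).1.ne' (hH _).1.ne')))] at h
      simp only [Real.log_zpow, Real.log_pow, Real.log_div (hH _).1.ne' (hH _).1.ne'] at h
      simp only [Matrix.mulVec, dotProduct, Matrix.of_apply, Pi.zero_apply]
      rw [← mul_right_inj' (show (24 : ℝ) ≠ 0 by norm_num), mul_zero, Finset.mul_sum]
      rw [← h]
      exact Finset.sum_congr rfl fun B _ => by push_cast; ring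
    funext B
    have := congrFun (Matrix.eq_zero_of_mulVec_eq_zero hdet hlog) B
    simpa using this

/-- **The unit half of Stark's conjecture for class fields of imaginary quadratic fields.** -/
theorem stark_units (K : Type*) [Field K] [NumberField K] [IsTotallyComplex K]
    (hK : finrank ℚ K = 2) (C C' : ClassGroup (𝓞 K)) :
    letI N : ℝ := ((discr K).natAbs : ℝ)
    letI w : ℝ := (Units.torsionOrder K : ℝ)
    ∃ F F' : ℂ → ℂ, Differentiable ℂ F ∧ Differentiable ℂ F' ∧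
      (∀ s : ℂ, 1 < s.re → ∑' I : {I : (Ideal (𝓞 K))⁰ // ClassGroup.mk0 I = C},
        ((Ideal.absNorm I.1.1 : ℕ) : ℂ) ^ (-s) =
          ((2 * π / (w * √N) : ℝ) : ℂ) / (s - 1) + F s) ∧
      (∀ s : ℂ, 1 < s.re → ∑' I : {I : (Ideal (𝓞 K))⁰ // ClassGroup.mk0 I = C'},
        ((Ideal.absNorm I.1.1 : ℕ) : ℂ) ^ (-s) =
          ((2 * π / (w * √N) : ℝ) : ℂ) / (s - 1) + F' s) ∧
      IsIntegral ℤ (Complex.exp (-((6 * w * √N / π : ℝ) : ℂ) * (F 1 - F' 1))) ∧
      IsIntegral ℤ (Complex.exp (((6 * w * √N / π : ℝ) : ℂ) * (F 1 - F' 1))) := by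
  obtain ⟨e, H, hH, hint, hexp, -⟩ := elliptic_units K hK
  obtain ⟨e', H', -, hF, -⟩ := kronecker_class_limit K hK
  obtain ⟨F, hFd, hFs, -⟩ := hF C
  obtain ⟨F', hFd', hFs', -⟩ := hF C'
  refine ⟨F, F', hFd, hFd', hFs, hFs', ?_, ?_⟩
  · rw [hexp C C' F F' hFd hFd' hFs hFs']
    exact (hint _ _).1
  · rw [show ∀ x y : ℂ, x * y = -(-x * y) from fun x y => by ring, Complex.exp_neg,
      hexp C C' F F' hFd hFd' hFs hFs', ← Complex.ofReal_inv]
    exact (hint _ _).2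

end FA.Summary

end
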