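import Fermat.Agent.EngelSeries.Main

/-!
# Engel and Lüroth series

Every `x ∈ (0, 1]` has a unique Engel series `∑ 1 / (a 0 ⋯ a k)`, `2 ≤ a 0 ≤ a 1 ≤ ⋯`, rational
exactly when the `a k` are eventually constant (Engel 1913), and a unique Lüroth series
`∑ 1 / (a 0 (a 0 - 1) ⋯ a (k - 1) (a (k - 1) - 1) a k)`, `2 ≤ a k`, rational exactly when the
`a k` are eventually periodic (Lüroth 1883). So `e - 2 = ∑ 1 / (k + 2)!` is irrational.
-/

set_option autoImplicit false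

noncomputable section

open Finset

namespace FA.EngelSeries.Summary

/-- **Engel's expansion.** -/
theorem engel_expansion {x : ℝ} (h0 : 0 < x) (h1 : x ≤ 1) :
    ∃! a : ℕ → ℕ, ((∀ k, 2 ≤ a k) ∧ Monotone a) ∧
      HasSum (fun k => 1 / ∏ i ∈ range (k + 1), (a i : ℝ)) x := by
  simp only [← term_engelW]
  obtain ⟨h2, hm, hs⟩ := engel_exists h0 h1
  exact ⟨_, ⟨⟨h2, hm⟩, hs⟩, fun b hb =>
    engel_unique hb.1.1 h2 hb.1.2 hm (hb.2.tsum_eq.trans hs.tsum_eq.symm)⟩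

/-- **Engel's criterion of rationality.** -/
theorem engel_rational_iff {a : ℕ → ℕ} {x : ℝ} (ha : ∀ k, 2 ≤ a k) (hma : Monotone a)
    (hx : HasSum (fun k => 1 / ∏ i ∈ range (k + 1), (a i : ℝ)) x) :
    ¬Irrational x ↔ ∃ N, ∀ n ≥ N, a n = a N := by
  simp only [← term_engelW] at hx
  rw [← engel_rat_iff ha hma, hx.tsum_eq, Irrational, not_not, Set.mem_range]

/-- **Engel's expansion of `e - 2`**, whence its irrationality. -/
theorem engel_exp_one :
    HasSum (fun k => 1 / ∏ i ∈ range (k + 1), ((i + 2 : ℕ) : ℝ)) (Real.exp 1 - 2) ∧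
      Irrational (Real.exp 1 - 2) := by
  have h : HasSum (fun k => 1 / ∏ i ∈ range (k + 1), ((i + 2 : ℕ) : ℝ)) (Real.exp 1 - 2) := by
    exact hasSum_engel_exp.congr_fun fun k => (term_engelW _ k).symm
  refine ⟨h, by_contra fun hne => ?_⟩
  obtain ⟨N, hN⟩ := (engel_rational_iff (fun k => Nat.le_add_left 2 k)
    (fun i j hij => Nat.add_le_add_right hij 2) h).1 hne
  have := hN (N + 1) (by omega)
  omega

/-- **Lüroth's expansion.** -/
theorem luroth_expansion {x : ℝ} (h0 : 0 < x) (h1 : x ≤ 1) :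
    ∃! a : ℕ → ℕ, (∀ k, 2 ≤ a k) ∧
      HasSum (fun k => (∏ i ∈ range k, 1 / ((a i : ℝ) * ((a i : ℝ) - 1))) / a k) x := by
  obtain ⟨h2, hs⟩ := luroth_exists h0 h1
  exact ⟨_, ⟨h2, hs⟩, fun b hb => luroth_unique hb.1 h2 (hb.2.tsum_eq.trans hs.tsum_eq.symm)⟩

/-- **Lüroth's criterion of rationality.** -/
theorem luroth_rational_iff {a : ℕ → ℕ} {x : ℝ} (ha : ∀ k, 2 ≤ a k)
    (hx : HasSum (fun k => (∏ i ∈ range k, 1 / ((a i : ℝ) * ((a i : ℝ) - 1))) / a k) x) :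
    ¬Irrational x ↔ ∃ N L, 0 < L ∧ ∀ n ≥ N, a (n + L) = a n := by
  rw [← luroth_rat_iff ha, show ∑' k, term lurothW a k = x from hx.tsum_eq, Irrational, not_not,
    Set.mem_range]

end FA.EngelSeries.Summary

end
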