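import Fermat.Agent.Undecidability.UnaryLogic

/-!
# Church's theorem: the Entscheidungsproblem

`unaryLanguage m` has `m` unary function symbols and nothing else, apart from equality.
`sentenceCode` is Mathlib's list of symbols of a sentence with the standard encoding of lists; it
is injective.

* `church_entscheidungsproblem` (Church, Turing, 1936): for some `m` it is undecidable whether a
  number is the code of a valid sentence of this language.
* `finite_theory_undecidable`: some theory with finitely many axioms (universal equations) has an
  undecidable set of consequences, even among the universal equations.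

No hypothesis is assumed. Not claimed: the least such language (one binary relation suffices).
-/

set_option autoImplicit false

namespace FA.Undecidability

open FirstOrder Language

/-- **Church.** Validity in first-order logic is undecidable. -/
theorem church_entscheidungsproblem :
    ∃ m : ℕ, Function.Injective (sentenceCode (m := m)) ∧
      ¬ComputablePred fun k : ℕ => ∃ φ : (unaryLanguage m).Sentence,
        sentenceCode φ = k ∧ (∅ : (unaryLanguage m).Theory) ⊨ᵇ φ := by
  obtain ⟨m, R, t, h, -⟩ := exists_hard_presentation
  refine ⟨m, sentenceCode_injective, fun hC => h (ComputablePred.computable_of_manyOneReducible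
    ⟨fun w => sentenceCode (derivationSentence R w t), (primrec_derivationCode R t).to_comp,
      fun w => ?_⟩ hC)⟩
  refine (presented_eq_iff R w t).trans ((valid_iff R w t).1.symm.trans ?_)
  refine ⟨fun h => ⟨_, rfl, h⟩, ?_⟩
  rintro ⟨φ, e, hφ⟩
  exact sentenceCode_injective e ▸ hφ

/-- **A finitely axiomatised theory with undecidable consequences.** -/
theorem finite_theory_undecidable :
    ∃ (m : ℕ) (T : (unaryLanguage m).Theory), T.Finite ∧
      ¬ComputablePred fun k : ℕ => ∃ φ : (unaryLanguage m).Sentence,
        sentenceCode φ = k ∧ T ⊨ᵇ φ := by
  obtain ⟨m, R, t, h, -⟩ := exists_hard_presentation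
  refine ⟨m, ruleEquations R, ruleEquations_finite R, fun hC => h
    (ComputablePred.computable_of_manyOneReducible ⟨fun w => sentenceCode (wordEquation w t),
      (primrec_wordEquationCode t).to_comp, fun w => ?_⟩ hC)⟩
  refine (presented_eq_iff R w t).trans ((valid_iff R w t).2.symm.trans ?_)
  refine ⟨fun h => ⟨_, rfl, h⟩, ?_⟩
  rintro ⟨φ, e, hφ⟩
  exact sentenceCode_injective e ▸ hφ

end FA.Undecidability
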