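import Fermat.Agent.EqualDivisorsUpper.Main

/-!
# Equal values at consecutive integers are rare

Erdős, Pomerance and Sárközy, *On locally repeated values of certain arithmetic functions II*
(1987): at most `C x / √(log log x)` numbers `n ≤ x` have `d (n) = d (n + 1)`, and the same for `ω`
and `Ω`. Proved here for every additive `f` with `f p = 1` and `|f (p ^ e)| ≤ e`, and for every
fixed difference `f n - f (n + 1) = h`, with one constant for all `f` and `h`.
-/

set_option autoImplicit false

noncomputable section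

open Finset Filter
open scoped Topology

namespace FA.Summary

/-- **Erdős–Pomerance–Sárközy for additive functions**: no value of `f n - f (n + 1)` is taken by
more than `C x / √(log log x)` numbers `n ≤ x`. -/
theorem additive_difference_rare : ∃ C : ℝ, 0 < C ∧ ∀ f : ℕ → ℤ,
    (∀ a b : ℕ, 0 < a → 0 < b → a.Coprime b → f (a * b) = f a + f b) →
    (∀ p : ℕ, p.Prime → f p = 1) → (∀ p e : ℕ, p.Prime → |f (p ^ e)| ≤ e) →
    ∀ (h : ℤ) (x : ℕ), 3 ≤ x →
    (((Icc 1 x).filter fun n => f n = f (n + 1) + h).card : ℝ) ≤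
      C * x / Real.sqrt (Real.log (Real.log x)) :=
  FA.EqualDivisorsUpper.exists_card_shift_le

/-- **Erdős–Pomerance–Sárközy**: `d (n) = d (n + 1)` for at most `C x / √(log log x)` numbers
`n ≤ x`. -/
theorem erdos_pomerance_sarkozy_divisors : ∃ C : ℝ, 0 < C ∧ ∀ x : ℕ, 3 ≤ x →
    (((Icc 1 x).filter fun n => n.divisors.card = (n + 1).divisors.card).card : ℝ) ≤
      C * x / Real.sqrt (Real.log (Real.log x)) := by
  obtain ⟨C, hC, h⟩ := FA.EqualDivisorsUpper.exists_three_upper
  exact ⟨C, hC, fun x hx => (h x hx).1⟩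

/-- The same for the number of distinct prime factors. -/
theorem erdos_pomerance_sarkozy_omega : ∃ C : ℝ, 0 < C ∧ ∀ x : ℕ, 3 ≤ x →
    (((Icc 1 x).filter fun n => n.primeFactors.card = (n + 1).primeFactors.card).card : ℝ) ≤
      C * x / Real.sqrt (Real.log (Real.log x)) := by
  obtain ⟨C, hC, h⟩ := FA.EqualDivisorsUpper.exists_three_upper
  exact ⟨C, hC, fun x hx => (h x hx).2.1⟩

/-- The same for the number of prime factors with multiplicity. -/
theorem erdos_pomerance_sarkozy_bigOmega : ∃ C : ℝ, 0 < C ∧ ∀ x : ℕ, 3 ≤ x →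
    (((Icc 1 x).filter fun n =>
      ArithmeticFunction.cardFactors n = ArithmeticFunction.cardFactors (n + 1)).card : ℝ) ≤
      C * x / Real.sqrt (Real.log (Real.log x)) := by
  obtain ⟨C, hC, h⟩ := FA.EqualDivisorsUpper.exists_three_upper
  exact ⟨C, hC, fun x hx => (h x hx).2.2⟩

/-- The `n` with `d (n) = d (n + 1)` have density zero. -/
theorem equal_divisors_density_zero :
    Tendsto (fun x : ℕ => (((Icc 1 x).filter fun n =>
      n.divisors.card = (n + 1).divisors.card).card : ℝ) / x) atTop (𝓝 0) :=
  FA.EqualDivisorsUpper.three_density_zero.1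

/-- The `n` with `ω (n) = ω (n + 1)` have density zero. -/
theorem equal_omega_density_zero :
    Tendsto (fun x : ℕ => (((Icc 1 x).filter fun n =>
      n.primeFactors.card = (n + 1).primeFactors.card).card : ℝ) / x) atTop (𝓝 0) :=
  FA.EqualDivisorsUpper.three_density_zero.2.1

/-- The `n` with `Ω (n) = Ω (n + 1)` have density zero. -/
theorem equal_bigOmega_density_zero :
    Tendsto (fun x : ℕ => (((Icc 1 x).filter fun n =>
      ArithmeticFunction.cardFactors n = ArithmeticFunction.cardFactors (n + 1)).card : ℝ) / x)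
      atTop (𝓝 0) :=
  FA.EqualDivisorsUpper.three_density_zero.2.2

end FA.Summary

end
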