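import Fermat.Agent.Ribet.SerreLarge

/-!
# Variants of the Fermat equation in Mathlib's language

The equations of Ribet and Serre for every exponent with a prime factor `p ≥ 11` other than `13`.
-/

set_option autoImplicit false

namespace FA.Summary

/-- **Ribet's equation** for an exponent divisible by a prime `p ≥ 11`, `p ≠ 13`: there are no
nonzero `b`, `c` and odd `a` prime to `b` with `a ^ n + 2 ^ α * b ^ n + c ^ n = 0` and
`16 ∣ 2 ^ α * b ^ n`. -/
theorem ribetEquation {n p : ℕ} (hp : p.Prime) (h11 : 11 ≤ p) (h13 : p ≠ 13) (hpn : p ∣ n) {α : ℕ}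
    {a b c : ℤ} (hb : b ≠ 0) (hc : c ≠ 0) (ha : Odd a) (hab : IsCoprime a b)
    (hα : (16 : ℤ) ∣ 2 ^ α * b ^ n) : a ^ n + 2 ^ α * b ^ n + c ^ n ≠ 0 := by
  obtain ⟨k, rfl⟩ := hpn
  rw [mul_comm p k, pow_mul, pow_mul, pow_mul]
  have : Fact (Nat.Prime 2) := ⟨Nat.prime_two⟩
  have hb' : b ^ k ≠ 0 := pow_ne_zero _ hb
  refine FA.Ribet.pow_add_two_pow_mul_pow_add_pow_ne_zero_of_eleven_le hp h11 h13 hb'
    (pow_ne_zero _ hc) ha.pow hab.pow ?_
  have hval : padicValInt 2 (2 ^ α * b ^ (p * k)) = α + p * padicValInt 2 (b ^ k) := by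
    rw [mul_comm p k, pow_mul, padicValInt, Int.natAbs_mul, Int.natAbs_pow, Int.natAbs_pow,
      padicValNat.mul (pow_ne_zero _ (by norm_num))
        (pow_ne_zero _ (Int.natAbs_ne_zero.mpr hb')), padicValNat.pow _ _, padicValNat.pow _ _,
      show (2 : ℤ).natAbs = 2 from rfl, padicValNat.self one_lt_two, mul_one, padicValInt]
  have h16 : ((2 : ℕ) : ℤ) ^ 4 ∣ 2 ^ α * b ^ (p * k) := by simpa using hα
  rcases (padicValInt_dvd_iff _ _).mp h16 with h | h
  · exact absurd h (mul_ne_zero (pow_ne_zero _ two_ne_zero) (pow_ne_zero _ hb))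
  · omega

/-- **Serre's equation** for an exponent divisible by a prime `p ≥ 11` other than `13` and `q`. -/
theorem serreEquation {n p : ℕ} (hp : p.Prime) (h11 : 11 ≤ p) (h13 : p ≠ 13) (hpn : p ∣ n) {q : ℕ}
    (hq : q.Prime) (hq2 : q ≠ 2) (hq19 : q ≤ 19) (hqp : q ≠ p) {α : ℕ} {a b c : ℤ} (ha : a ≠ 0)
    (hb : b ≠ 0) (hc : c ≠ 0) (hab : IsCoprime a b) :
    a ^ n + b ^ n + (q : ℤ) ^ α * c ^ n ≠ 0 := by
  obtain ⟨k, rfl⟩ := hpn
  rw [mul_comm p k, pow_mul, pow_mul, pow_mul]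
  exact FA.Ribet.serre_equation_le_nineteen_of_eleven_le hp h11 h13 hq hq2 hq19 hqp
    (pow_ne_zero _ ha) (pow_ne_zero _ hb) (pow_ne_zero _ hc) hab.pow

end FA.Summary
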