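import Fermat.Agent.EquiangularLines.Bounds
import Fermat.Agent.EquiangularLines.Parity

/-!
# Equiangular lines and two-distance sets

* `gerzon_equiangular` (Gerzon): at most `d (d + 1) / 2` equiangular lines in `ℝ ^ d`;
* `neumann_equiangular` (Neumann; Lemmens and Seidel): for more than `2 d` of them the inverse
  of the cosine is an odd integer;
* `blokhuis_two_distance` (Larman, Rogers and Seidel; Blokhuis): at most `C(d + 2, 2)` points of
  `ℝ ^ d` with two distances, and `two_distance_example`: `C(d + 1, 2)` are possible.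
-/

set_option autoImplicit false

noncomputable section

open scoped RealInnerProductSpace

namespace FA.Summary

variable {d : ℕ} {ι : Type*} [Fintype ι]

/-- **Gerzon's bound.** -/
theorem gerzon_equiangular (x : ι → EuclideanSpace ℝ (Fin d)) {α : ℝ} (hα : α ^ 2 < 1)
    (h1 : ∀ i, ‖x i‖ = 1) (h2 : ∀ i j, i ≠ j → |⟪x i, x j⟫| = α) :
    Fintype.card ι ≤ (d + 1).choose 2 :=
  FA.EquiangularLines.gerzon x hα h1 h2

/-- **Neumann's theorem.** -/
theorem neumann_equiangular (x : ι → EuclideanSpace ℝ (Fin d)) {α : ℝ} (h1 : ∀ i, ‖x i‖ = 1)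
    (h2 : ∀ i j, i ≠ j → |⟪x i, x j⟫| = α) (hn : 2 * d < Fintype.card ι) :
    ∃ z : ℤ, Odd z ∧ (z : ℝ) * α = 1 := by
  classical
  exact FA.EquiangularLines.neumann x h1 h2 hn

/-- **Blokhuis's bound for two-distance sets.** -/
theorem blokhuis_two_distance (S : Finset (EuclideanSpace ℝ (Fin d))) {a b : ℝ} (ha : 0 < a)
    (hb : 0 < b) (h : ∀ P ∈ S, ∀ Q ∈ S, P ≠ Q → dist P Q = a ∨ dist P Q = b) :
    S.card ≤ (d + 2).choose 2 := by
  classical
  rw [← Fintype.card_coe]
  refine FA.EquiangularLines.blokhuis (fun P : S => (P : EuclideanSpace ℝ (Fin d)))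
    (pow_ne_zero 2 ha.ne') (pow_ne_zero 2 hb.ne') fun P Q hne => ?_
  rw [← dist_eq_norm]
  exact (h P.1 P.2 Q.1 Q.2 fun e => hne (Subtype.ext e)).imp (fun e => by rw [e])
    (fun e => by rw [e])

/-- **A two-distance set of size `C(d + 1, 2)`.** -/
theorem two_distance_example (hd : 1 ≤ d) :
    ∃ S : Finset (EuclideanSpace ℝ (Fin d)), S.card = (d + 1).choose 2 ∧
      ∀ P ∈ S, ∀ Q ∈ S, P ≠ Q → dist P Q = Real.sqrt 2 ∨ dist P Q = 2 := by
  obtain ⟨S, hS, h⟩ := FA.EquiangularLines.exists_two_distance hd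
  refine ⟨S, hS, fun P hP Q hQ hne => ?_⟩
  rw [dist_eq_norm, ← Real.sqrt_sq (norm_nonneg (P - Q))]
  rcases h P hP Q hQ hne with e | e <;> rw [e]
  · exact Or.inl rfl
  · exact Or.inr (by rw [show (4 : ℝ) = 2 ^ 2 by norm_num, Real.sqrt_sq zero_le_two])

end FA.Summary

end
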