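import Fermat.Agent.Equidissection.Theorem

/-!
# The equidissection theorem of Monsky

No square is dissected into an odd number of triangles of equal area. The dissections are
arbitrary: a vertex may lie inside the side of another triangle.
-/

set_option autoImplicit false

namespace FA.Equidissection.Summary

/-- **Monsky's theorem**: if `n` triangles, `n` odd, have union the unit square and disjoint
interiors, their areas `|(x₁ - x₀)(y₂ - y₀) - (y₁ - y₀)(x₂ - x₀)| / 2` are not all equal. -/
theorem monsky_equidissection {n : ℕ} (hn : Odd n) (T : Fin n → Fin 3 → ℝ × ℝ)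
    (hnd : ∀ i, ((T i 1).1 - (T i 0).1) * ((T i 2).2 - (T i 0).2) -
      ((T i 1).2 - (T i 0).2) * ((T i 2).1 - (T i 0).1) ≠ 0)
    (hunion : ⋃ i, convexHull ℝ (Set.range (T i)) = Set.Icc (0, 0) (1, 1))
    (hdisj : Pairwise fun i j => Disjoint (interior (convexHull ℝ (Set.range (T i))))
      (interior (convexHull ℝ (Set.range (T j)))))
    (harea : ∀ i j, |((T i 1).1 - (T i 0).1) * ((T i 2).2 - (T i 0).2) -
        ((T i 1).2 - (T i 0).2) * ((T i 2).1 - (T i 0).1)| =
      |((T j 1).1 - (T j 0).1) * ((T j 2).2 - (T j 0).2) -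
        ((T j 1).2 - (T j 0).2) * ((T j 2).1 - (T j 0).1)|) : False :=
  Fermat.Agent.Equidissection.not_odd_equidissection hn T hnd hunion hdisj harea

/-- For two triangles such a dissection exists. -/
theorem equidissection_two :
    ∃ T : Fin 2 → Fin 3 → ℝ × ℝ, (∀ i, ((T i 1).1 - (T i 0).1) * ((T i 2).2 - (T i 0).2) -
        ((T i 1).2 - (T i 0).2) * ((T i 2).1 - (T i 0).1) = 1) ∧
      ⋃ i, convexHull ℝ (Set.range (T i)) = Set.Icc (0, 0) (1, 1) ∧
      Pairwise fun i j => Disjoint (interior (convexHull ℝ (Set.range (T i))))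
        (interior (convexHull ℝ (Set.range (T j)))) :=
  Fermat.Agent.Equidissection.exists_equidissection_two

end FA.Equidissection.Summary
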