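import Fermat.Agent.Equidistribution.Primes

/-!
# Equidistribution modulo one: Weyl and Vinogradov

* `weyl_criterion`: the fractional parts of a sequence fall into every interval in proportion to
  its length iff all its exponential means tend to zero;
* `equidistribution_continuous`: then the mean of a continuous periodic function is its integral;
* `weyl_polynomial`: Weyl's theorem, `P n` is equidistributed for a real polynomial with an
  irrational coefficient other than the constant one;
* `vinogradov_primes_mod_one`: Vinogradov's theorem, `α p` is equidistributed over the primes for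
  irrational `α`;
* `beatty_primes`: for irrational `α > 1` a proportion `1 / α` of the primes has the form
  `⌊α n + β⌋`.
-/

set_option autoImplicit false

noncomputable section

namespace FA.Summary

open Filter Topology Finset FA.Equidist
open scoped Nat.Prime Classical

/-- **Weyl's criterion.** -/
theorem weyl_criterion (x : ℕ → ℝ) :
    (∀ a b : ℝ, 0 ≤ a → a ≤ b → b ≤ 1 → Tendsto (fun N : ℕ =>
        (#((range N).filter fun n => Int.fract (x n) ∈ Set.Ico a b) : ℝ) / N) atTop (𝓝 (b - a))) ↔
      ∀ h : ℤ, h ≠ 0 → Tendsto (fun N : ℕ =>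
        (∑ n ∈ range N, Complex.exp ((2 * Real.pi * (h * x n) : ℝ) * Complex.I)) / (N : ℂ))
          atTop (𝓝 0) := by
  constructor
  · intro h
    have h' : IntervalMean range x := fun a b ha hab hb => by
      simpa [card_range] using h a b ha hab hb
    intro k hk
    simpa [avg, FA.ThreePrimes.eAdd] using h'.expMeanZero k hk
  · intro h a b ha hab hb
    have h' : ExpMeanZero range x := fun k hk => by
      simpa [avg, FA.ThreePrimes.eAdd] using h k hk
    simpa [card_range] using
      h'.intervalMean (by simp only [card_range]; exact tendsto_id) a b ha hab hb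

/-- **The mean of a continuous periodic function** over an equidistributed sequence. -/
theorem equidistribution_continuous (x : ℕ → ℝ)
    (h : ∀ a b : ℝ, 0 ≤ a → a ≤ b → b ≤ 1 → Tendsto (fun N : ℕ =>
        (#((range N).filter fun n => Int.fract (x n) ∈ Set.Ico a b) : ℝ) / N) atTop (𝓝 (b - a)))
    (f : C(UnitAddCircle, ℂ)) :
    Tendsto (fun N : ℕ => (∑ n ∈ range N, f (x n : UnitAddCircle)) / (N : ℂ)) atTop
      (𝓝 (∫ θ : UnitAddCircle, f θ)) := by
  have h' : IntervalMean range x := fun a b ha hab hb => by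
    simpa [card_range] using h a b ha hab hb
  have := tendsto_avg_circle (by simp only [card_range]; exact tendsto_id) h'.expMeanZero f
  rw [circMean, AddCircle.integral_haarAddCircle, inv_one, one_smul] at this
  simp only [avg, card_range] at this
  exact this

/-- **Weyl's theorem**: a polynomial with an irrational coefficient other than the constant one is
equidistributed modulo one. -/
theorem weyl_polynomial (P : Polynomial ℝ) (hP : ∃ j, 1 ≤ j ∧ Irrational (P.coeff j)) {a b : ℝ}
    (ha : 0 ≤ a) (hab : a ≤ b) (hb : b ≤ 1) :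
    Tendsto (fun N : ℕ =>
      (#((range N).filter fun n : ℕ => Int.fract (P.eval (n : ℝ)) ∈ Set.Ico a b) : ℝ) / N) atTop
      (𝓝 (b - a)) := by
  simpa [card_range] using (expMeanZero_poly P hP).intervalMean
    (by simp only [card_range]; exact tendsto_id) a b ha hab hb

/-- **Vinogradov's theorem**: `α p` is equidistributed modulo one over the primes. -/
theorem vinogradov_primes_mod_one {α : ℝ} (hα : Irrational α) (β : ℝ) {a b : ℝ} (ha : 0 ≤ a)
    (hab : a ≤ b) (hb : b ≤ 1) :
    Tendsto (fun N : ℕ => (#((range (N + 1)).filter fun p : ℕ =>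
      p.Prime ∧ Int.fract (α * p + β) ∈ Set.Ico a b) : ℝ) / π N) atTop (𝓝 (b - a)) := by
  have h := (expMeanZero_prime hα β).intervalMean tendsto_card_primeSet a b ha hab hb
  simp only [card_primeSet] at h
  simp only [primeSet, filter_filter] at h
  exact h

/-- **Primes in a Beatty sequence**: a proportion `1 / α` of the primes has the form
`⌊α n + β⌋` for irrational `α > 1`. -/
theorem beatty_primes {α : ℝ} (hα : Irrational α) (h1 : 1 < α) (β : ℝ) :
    Tendsto (fun N : ℕ => (#((range (N + 1)).filter fun p : ℕ =>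
      p.Prime ∧ ∃ n : ℕ, ⌊α * n + β⌋ = (p : ℤ)) : ℝ) / π N) atTop (𝓝 (1 / α)) := by
  have hα0 : 0 < α := by linarith
  have hγ : Irrational α⁻¹ := hα.inv
  set c : ℝ := 1 - α⁻¹ with hc
  have hc0 : 0 ≤ c := by rw [hc, sub_nonneg]; exact inv_le_one_of_one_le₀ h1.le
  have hc1 : c ≤ 1 := by rw [hc]; linarith [inv_pos.2 hα0]
  have hlim := (expMeanZero_prime hγ (-(β / α))).intervalMean tendsto_card_primeSet c 1 hc0 hc1
    le_rfl
  rw [show 1 - c = 1 / α by rw [hc, sub_sub_cancel, one_div]] at hlim
  set t : ℕ → ℝ := fun p => α⁻¹ * p + -(β / α) with ht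
  let bad : Set ℕ := {p : ℕ | (p : ℝ) ≤ β} ∪ ({p | Int.fract (t p) = 0} ∪ {p | Int.fract (t p) = c})
  have hsub : ∀ d : ℝ, {p : ℕ | Int.fract (t p) = d}.Subsingleton := fun d p hp q hq => by
    by_contra hne
    have e : α⁻¹ * (((p : ℤ) - q : ℤ) : ℝ) = ((⌊t p⌋ - ⌊t q⌋ : ℤ) : ℝ) := by
      have h2 : Int.fract (t p) = Int.fract (t q) := hp.trans hq.symm
      rw [Int.fract, Int.fract] at h2
      simp only [ht] at h2 ⊢
      push_cast
      linarith
    exact (hγ.mul_intCast (sub_ne_zero.2 (by exact_mod_cast hne))).ne_int _ e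
  have hbad : bad.Finite := ((Set.finite_le_nat ⌈β⌉₊).subset fun p hp =>
    (Nat.cast_le.1 ((le_of_le_of_eq hp rfl).trans (Nat.le_ceil β)))).union
      ((hsub 0).finite.union (hsub c).finite)
  have hiff : ∀ p : ℕ, p ∉ bad →
      ((∃ n : ℕ, ⌊α * n + β⌋ = (p : ℤ)) ↔ Int.fract (t p) ∈ Set.Ico c 1) := by
    intro p hp
    simp only [bad, Set.mem_union, Set.mem_ofPred_eq, not_or, not_le] at hp
    obtain ⟨hpβ, hp0, hpc⟩ := hp
    have htp : α * t p = (p : ℝ) - β := by simp only [ht]; field_simp; ring
    have hfl := Int.floor_add_fract (t p)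
    have hf0 := Int.fract_nonneg (t p)
    have hf1 := Int.fract_lt_one (t p)
    have hαinv : α * α⁻¹ = 1 := mul_inv_cancel₀ hα0.ne'
    constructor
    · rintro ⟨n, hn⟩
      rw [Int.floor_eq_iff] at hn
      push_cast at hn
      have hlo : t p ≤ n := le_of_mul_le_mul_left (by linarith [hn.1]) hα0
      have hhi : (n : ℝ) < t p + α⁻¹ :=
        lt_of_mul_lt_mul_left (by rw [mul_add, hαinv]; linarith [hn.2]) hα0.le
      have hne : t p ≠ n := fun e => hp0 (by rw [e, Int.fract_natCast])
      have hlt : t p < n := lt_of_le_of_ne hlo hne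
      have hf : ⌊t p⌋ = (n : ℤ) - 1 := Int.floor_eq_iff.2
        ⟨by push_cast; linarith [inv_lt_one_of_one_lt₀ h1], by push_cast; linarith⟩
      refine ⟨?_, hf1⟩
      rw [hf] at hfl
      push_cast at hfl
      linarith
    · rintro ⟨hcl, -⟩
      have hcl' : c < Int.fract (t p) := lt_of_le_of_ne hcl (Ne.symm hpc)
      have htpos : 0 < t p := pos_of_mul_pos_right (by rw [htp]; linarith) hα0.le
      obtain ⟨n, hn⟩ : ∃ n : ℕ, (n : ℤ) = ⌊t p⌋ + 1 :=
        ⟨(⌊t p⌋ + 1).toNat, Int.toNat_of_nonneg (by linarith [Int.floor_nonneg.2 htpos.le])⟩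
      refine ⟨n, Int.floor_eq_iff.2 ?_⟩
      have hn' : (n : ℝ) = (⌊t p⌋ : ℝ) + 1 := by exact_mod_cast hn
      have hlo : t p < n := by linarith
      have hhi : (n : ℝ) < t p + α⁻¹ := by linarith
      have h3 := mul_lt_mul_of_pos_left hlo hα0
      have h4 := mul_lt_mul_of_pos_left hhi hα0
      rw [mul_add, hαinv] at h4
      push_cast
      constructor <;> linarith
  have hdiff : Tendsto (fun N : ℕ =>
      (#((range (N + 1)).filter fun p : ℕ => p.Prime ∧ ∃ n : ℕ, ⌊α * n + β⌋ = (p : ℤ)) : ℝ) / π N -
        (#((primeSet N).filter fun p => Int.fract (t p) ∈ Set.Ico c 1) : ℝ) / #(primeSet N))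
      atTop (𝓝 0) := by
    have hπ : Tendsto (fun N : ℕ => (hbad.toFinset.card : ℝ) / π N) atTop (𝓝 0) :=
      (tendsto_natCast_atTop_atTop.comp Nat.tendsto_primeCounting).const_div_atTop _
    refine squeeze_zero_norm (fun N => ?_) hπ
    rw [card_primeSet, ← sub_div, Real.norm_eq_abs, abs_div, Nat.abs_cast]
    refine div_le_div_of_nonneg_right ?_ (Nat.cast_nonneg _)
    have key : ∀ A B : Finset ℕ, (∀ p ∈ A, p ∉ bad → p ∈ B) →
        (#A : ℝ) ≤ #B + hbad.toFinset.card := fun A B hAB => by
      rw [← Nat.cast_add, Nat.cast_le]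
      refine (card_le_card fun p hp => ?_).trans (card_union_le _ _)
      by_cases hb : p ∈ bad
      · exact mem_union_right _ (hbad.mem_toFinset.2 hb)
      · exact mem_union_left _ (hAB p hp hb)
    rw [abs_sub_le_iff]
    constructor <;> rw [sub_le_iff_le_add'] <;> refine key _ _ fun p hp hb => ?_
    · simp only [mem_filter, primeSet] at hp ⊢
      exact ⟨⟨hp.1, hp.2.1⟩, (hiff p hb).1 hp.2.2⟩
    · simp only [mem_filter, primeSet] at hp ⊢
      exact ⟨hp.1.1, hp.1.2, (hiff p hb).2 hp.2⟩
  have := hdiff.add hlim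
  rw [zero_add] at this
  refine this.congr fun N => ?_
  simp only [ht]
  ring

end FA.Summary

end
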