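import Fermat.Agent.ErdosAnning.Main

/-!
# The theorem of Erdős and Anning (1945)
-/

set_option autoImplicit false

namespace FA.Summary

/-- **Erdős and Anning**: an infinite plane set with all distances integers lies on a line. -/
theorem erdos_anning {S : Set ℂ} (hS : S.Infinite)
    (hd : ∀ p ∈ S, ∀ q ∈ S, ∃ n : ℕ, dist p q = n) : Collinear ℝ S :=
  ErdosAnning.collinear_of_infinite hS hd

end FA.Summary
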