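import Fermat.Agent.ErdosLambert.Main

/-!
# Erdős on Lambert series

* `erdos_lambert_irrational`: for every integer `t ≥ 2` the number
  `∑_{n ≥ 1} 1 / (t ^ n - 1) = ∑ d (n) t ^ (-n)` is irrational (Erdős 1948);
* `erdos_borwein_irrational`: in particular the Erdős–Borwein constant `∑ 1 / (2 ^ n - 1)`.

Independent of S01.
-/

set_option autoImplicit false

noncomputable section

namespace FA.Summary

/-- **Erdős's theorem on Lambert series.** -/
theorem erdos_lambert_irrational {t : ℕ} (ht : 2 ≤ t) :
    Irrational (∑' n : ℕ, 1 / ((t : ℝ) ^ (n + 1) - 1)) ∧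
      Irrational (∑' n : ℕ, (n.divisors.card : ℝ) * ((t : ℝ)⁻¹) ^ n) :=
  ⟨FA.ErdosLambert.irrational_lambert ht, FA.ErdosLambert.irrational_divisorSeries ht⟩

/-- **The Erdős–Borwein constant is irrational.** -/
theorem erdos_borwein_irrational : Irrational (∑' n : ℕ, 1 / ((2 : ℝ) ^ (n + 1) - 1)) := by
  simpa using FA.ErdosLambert.irrational_lambert (t := 2) le_rfl

end FA.Summary

end
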