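import Fermat.Agent.ErdosDiscrepancy.Endgame

/-!
# Completely multiplicative functions with bounded partial sums

A completely multiplicative function of modulus one that pretends to be a character times
`n ^ (it)` has unbounded partial sums.
-/

set_option autoImplicit false

noncomputable section

namespace FA.ErdosDisc.Summary

open Finset

/-- **Pretentious completely multiplicative functions of modulus one have unbounded partial
sums.** -/
theorem pretentious_partialSums_unbounded {f : ℕ → ℂ} (hmul : ∀ m n, f (m * n) = f m * f n)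
    (hf : ∀ n, n ≠ 0 → ‖f n‖ = 1) {q : ℕ} [NeZero q] (χ : DirichletCharacter ℂ q) (t : ℝ)
    (hS : Summable fun p : Nat.Primes =>
      (1 - (f p * χ (p : ℕ) * ((p : ℕ) : ℂ) ^ (-(t : ℂ) * Complex.I)).re) / (p : ℕ)) (B : ℝ) :
    ∃ N : ℕ, B < ‖∑ n ∈ Icc 1 N, f n‖ := by
  have h1 : f 1 = 1 := by
    have h := hmul 1 1
    rw [mul_one] at h
    exact mul_left_cancel₀ (norm_pos_iff.1 (by rw [hf 1 one_ne_zero]; exact one_pos))
      (by rw [mul_one]; exact h.symm)
  obtain ⟨g, hg⟩ : ∃ g : ℕ →*₀ ℂ, ∀ n, n ≠ 0 → g n = f n := ⟨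
    { toFun := fun n => if n = 0 then 0 else f n
      map_zero' := rfl
      map_one' := by simp [h1]
      map_mul' := fun m n => by
        rcases eq_or_ne m 0 with rfl | hm
        · simp
        rcases eq_or_ne n 0 with rfl | hn
        · simp
        simp [hm, hn, hmul] }, fun n hn => if_neg hn⟩
  obtain ⟨N, hN⟩ := unbounded_partialSums_of_pretentious (g := g)
    (fun n hn => by rw [hg n hn, hf n hn]) χ t
    (hS.congr fun p => by rw [hg p p.2.ne_zero]) B
  exact ⟨N, hN.trans_eq (congrArg _ (sum_congr rfl fun n hn => hg n (by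
    rw [mem_Icc] at hn; omega)))⟩

end FA.ErdosDisc.Summary

end
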