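import Fermat.Agent.ErdosDivisor.Lower

/-!
# Erdős's theorem on `∑ τ (f n)`

For `f ∈ ℤ[X]` irreducible of positive degree the sum of the numbers of divisors of `|f n|` over
`n ≤ x` has the order `x log x` (Erdős, 1952). The upper bound is by the sieve with uniform bounds
for the roots modulo prime powers, Rankin's trick and Mertens's theorem for the roots; the lower
bound uses the divisors up to `x / 2`.

The constants depend on `f` and are not explicit, and no asymptotic formula is given; no link with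
Fermat's last theorem.
-/

set_option autoImplicit false

noncomputable section

namespace FA.Summary

open Polynomial Finset Filter
open scoped Polynomial

/-- **Erdős's theorem**: `∑_{n ≤ x} τ |f n| ≍ x log x` for irreducible `f`. -/
theorem erdos_divisor_sum_polynomial (f : ℤ[X]) (hirr : Irreducible f) (hd : 0 < f.natDegree) :
    ∃ c C : ℝ, 0 < c ∧ 0 < C ∧ ∀ᶠ x : ℕ in atTop,
      c * x * Real.log x ≤ ∑ n ∈ Icc 1 x, ((f.eval (n : ℤ)).natAbs.divisors.card : ℝ) ∧
      ∑ n ∈ Icc 1 x, ((f.eval (n : ℤ)).natAbs.divisors.card : ℝ) ≤ C * x * Real.log x := by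
  obtain ⟨c, hc, hlow⟩ := ErdosDivisor.exists_lower hirr hd
  obtain ⟨C, hup⟩ := ErdosDivisor.exists_upper hirr hd
  obtain ⟨A, hA⟩ : ∃ A : ℝ, A = ((f.eval ((0 : ℕ) : ℤ)).natAbs.divisors.card : ℝ) := ⟨_, rfl⟩
  refine ⟨c / 2, 4 * |C| + 1, by positivity, by positivity, ?_⟩
  filter_upwards [(tendsto_add_atTop_nat 1).eventually hlow, eventually_ge_atTop 2,
    (Real.tendsto_log_atTop.comp tendsto_natCast_atTop_atTop).eventually_ge_atTop (2 * A / c)]
    with x hlx hx2 hlog
  simp only [Function.comp_apply] at hlog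
  have hsum : ∑ n ∈ range (x + 1), ((f.eval (n : ℤ)).natAbs.divisors.card : ℝ) =
      A + ∑ n ∈ Icc 1 x, ((f.eval (n : ℤ)).natAbs.divisors.card : ℝ) := by
    rw [hA, range_eq_Ico, sum_eq_sum_Ico_succ_bot (Nat.succ_pos x), zero_add]
    rfl
  have hA0 : 0 ≤ A := hA ▸ Nat.cast_nonneg _
  have hX : (2 : ℝ) ≤ x := Nat.ofNat_le_cast.2 hx2
  have hl0 : 0 ≤ Real.log x := Real.log_natCast_nonneg x
  have h1 : Real.log x ≤ Real.log ((x : ℝ) + 1) := Real.log_le_log (by linarith) (by linarith)
  have h2 : Real.log ((x : ℝ) + 1) ≤ 2 * Real.log x := by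
    rw [show 2 * Real.log x = Real.log ((x : ℝ) ^ 2) by rw [Real.log_pow]; norm_num]
    exact Real.log_le_log (by linarith) (by nlinarith)
  have hlo : c * ((x + 1 : ℕ) : ℝ) * Real.log ((x + 1 : ℕ) : ℝ) ≤
      A + ∑ n ∈ Icc 1 x, ((f.eval (n : ℤ)).natAbs.divisors.card : ℝ) := hsum ▸ hlx
  have hhi : A + ∑ n ∈ Icc 1 x, ((f.eval (n : ℤ)).natAbs.divisors.card : ℝ) ≤
      C * ((x + 1 : ℕ) : ℝ) * Real.log ((x + 1 : ℕ) : ℝ) := hsum ▸ hup (x + 1) (by omega)
  push_cast at hlo hhi
  constructor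
  · have h3 : 2 * A ≤ c * Real.log x := by
      rw [div_le_iff₀ hc] at hlog
      linarith
    have h4 : c * x * Real.log x ≤ c * ((x : ℝ) + 1) * Real.log ((x : ℝ) + 1) := by
      gcongr
      linarith
    nlinarith
  · have h4 : C * ((x : ℝ) + 1) * Real.log ((x : ℝ) + 1) ≤ |C| * (2 * x) * (2 * Real.log x) := by
      have h0 : 0 ≤ Real.log ((x : ℝ) + 1) := hl0.trans h1
      calc C * ((x : ℝ) + 1) * Real.log ((x : ℝ) + 1)
          ≤ |C| * ((x : ℝ) + 1) * Real.log ((x : ℝ) + 1) := by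
            gcongr
            exact le_abs_self C
        _ ≤ _ := by
            gcongr
            linarith
    have h5 : 0 ≤ (x : ℝ) * Real.log x := by positivity
    linarith

end FA.Summary
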