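import Fermat.Agent.ErdosFuchs.Circle

/-!
# The theorem of Erdős and Fuchs and the circle problem

* `erdos_fuchs`: for multiplicities `a` on `ℕ` and `c > 0` the weighted number of `(i, j)` with
  `i + j ≤ N` differs from `c N` by more than some `δ N ^ (1/4) / √(log N)` infinitely often;
  `erdos_fuchs_set`: for a set it is never `c N + O (N ^ θ)` with `θ < 1/4`.
* `gauss_circle_lower_bound`, `gauss_circle_not_isBigO`: so the number of lattice points with
  `x² + y² ≤ N` differs from `π N` by more than `δ N ^ (1/4) / √(log N)` infinitely often.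
-/

set_option autoImplicit false

noncomputable section

open Finset Filter Asymptotics
open scoped Real

namespace FA.Summary

open FA.ErdosFuchs

/-- **The theorem of Erdős and Fuchs.** -/
theorem erdos_fuchs (a : ℕ → ℕ) (c : ℝ) (hc : 0 < c) :
    ∃ δ : ℝ, 0 < δ ∧ {N : ℕ | δ * (N : ℝ) ^ (1 / 4 : ℝ) / √(Real.log N) <
      |((∑ n ∈ range (N + 1), ∑ p ∈ antidiagonal n, a p.1 * a p.2 : ℕ) : ℝ) - c * N|}.Infinite := by
  obtain ⟨δ, hδ, h⟩ := frequently_repError_gt a hc
  exact ⟨δ, hδ, Nat.frequently_atTop_iff_infinite.1 h⟩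

/-- **The theorem of Erdős and Fuchs for sets.** -/
theorem erdos_fuchs_set (A : Set ℕ) [DecidablePred (· ∈ A)] (c : ℝ) (hc : 0 < c) (θ : ℝ)
    (hθ : θ < 1 / 4) :
    ¬ (fun N : ℕ =>
        ((∑ n ∈ range (N + 1), #((antidiagonal n).filter fun p => p.1 ∈ A ∧ p.2 ∈ A) : ℕ) : ℝ) -
          c * N) =O[atTop] fun N : ℕ => (N : ℝ) ^ θ := by
  simpa [repError, repTotal_indicator A] using
    not_isBigO_repError (fun n => if n ∈ A then 1 else 0) hc hθ

/-- **The lower bound in Gauss's circle problem.** -/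
theorem gauss_circle_lower_bound :
    ∃ δ : ℝ, 0 < δ ∧ {N : ℕ | δ * (N : ℝ) ^ (1 / 4 : ℝ) / √(Real.log N) <
      |({v : ℤ × ℤ | v.1 ^ 2 + v.2 ^ 2 ≤ (N : ℤ)}.ncard : ℝ) - π * N|}.Infinite := by
  obtain ⟨δ, hδ, h⟩ := frequently_repError_gt rootCount Real.pi_pos
  refine ⟨δ, hδ, Nat.frequently_atTop_iff_infinite.1 (h.mono fun N hN => ?_)⟩
  rw [repError, repTotal_rootCount] at hN
  rwa [show {v : ℤ × ℤ | v.1 ^ 2 + v.2 ^ 2 ≤ (N : ℤ)} = discPoints N from
    Set.ext fun v => mem_discPoints.symm, Set.ncard_coe_finset]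

/-- The error term in the circle problem is no `O (N ^ θ)` with `θ < 1/4`. -/
theorem gauss_circle_not_isBigO (θ : ℝ) (hθ : θ < 1 / 4) :
    ¬ (fun N : ℕ => ({v : ℤ × ℤ | v.1 ^ 2 + v.2 ^ 2 ≤ (N : ℤ)}.ncard : ℝ) - π * N) =O[atTop]
      fun N : ℕ => (N : ℝ) ^ θ := by
  have h := not_isBigO_repError rootCount Real.pi_pos hθ
  refine fun h' => h (h'.congr_left fun N => ?_)
  rw [repError, repTotal_rootCount, show {v : ℤ × ℤ | v.1 ^ 2 + v.2 ^ 2 ≤ (N : ℤ)} = discPoints N
    from Set.ext fun v => mem_discPoints.symm, Set.ncard_coe_finset]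

end FA.Summary

end
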