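import Fermat.Agent.BernoulliConvolution.SmoothDensity

/-!
# The theorem of Erdős and Kahane and Erdős's theorem near `1`

For almost every `θ > 1` the transform of the Bernoulli convolution decays like a negative power
(Erdős 1940, Kahane 1971). For every `k` there is `η > 0` such that for almost every
`θ ∈ (1, 1 + η)` the Bernoulli convolution has a density of class `C^k` (Erdős 1940).
-/

set_option autoImplicit false

noncomputable section

open MeasureTheory

namespace FA.BernoulliConvolution.Summary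

/-- **The theorem of Erdős and Kahane.** -/
theorem erdos_kahane : ∀ᵐ θ ∂(volume : Measure ℝ), 1 < θ →
    ∃ γ : ℝ, 0 < γ ∧ ∃ C : ℝ, ∀ t : ℝ, t ≠ 0 →
      ‖charFun (bernoulliConvolution θ) t‖ ≤ C * |t| ^ (-γ) :=
  ae_exists_rpow_decay

/-- **Erdős and Kahane**, with an exponent uniform on a compact interval. -/
theorem erdos_kahane_uniform {a b : ℝ} (ha : 1 < a) (hab : a ≤ b) :
    ∃ γ : ℝ, 0 < γ ∧ ∀ᵐ θ ∂(volume : Measure ℝ), θ ∈ Set.Icc a b →
      ∃ C : ℝ, ∀ t : ℝ, t ≠ 0 → ‖charFun (bernoulliConvolution θ) t‖ ≤ C * |t| ^ (-γ) :=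
  ae_rpow_decay ha hab

/-- **Erdős 1940**: decay of any order for almost every base near `1`. -/
theorem erdos_decay_near_one (m : ℕ) :
    ∃ η : ℝ, 0 < η ∧ ∀ᵐ θ ∂(volume : Measure ℝ), θ ∈ Set.Ioo 1 (1 + η) →
      ∃ C : ℝ, ∀ t : ℝ, 1 ≤ |t| →
        ‖charFun (bernoulliConvolution θ) t‖ ≤ C * |t| ^ (-(m : ℝ)) :=
  ae_decay_near_one m

/-- **Erdős 1940**: smooth densities for almost every base near `1`. -/
theorem erdos_smooth_near_one (k : ℕ) :
    ∃ η : ℝ, 0 < η ∧ ∀ᵐ θ ∂(volume : Measure ℝ), θ ∈ Set.Ioo 1 (1 + η) →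
      ∃ g : ℝ → ℝ, ContDiff ℝ k g ∧ (∀ x, 0 ≤ g x) ∧
        bernoulliConvolution θ = volume.withDensity fun x => ENNReal.ofReal (g x) :=
  ae_contDiff_density_near_one k

end FA.BernoulliConvolution.Summary

end
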