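import Fermat.Agent.ErdosMahler.Main

/-!
# The theorem of Erdős and Mahler on the integers represented by a binary form

An irreducible binary form of degree `k ≥ 3` represents `≍ N ^ (2 / k)` integers of absolute value
at most `N`, as many in order as there are pairs `(x, y)` with `|F (x, y)| ≤ N`.
-/

set_option autoImplicit false

noncomputable section

open Polynomial Filter

namespace FA.ErdosMahler.Summary

/-- **Erdős and Mahler (1938)**: a positive multiple of `N ^ (2 / k)` integers are represented. -/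
theorem represented_lower {f : ℤ[X]} (hirr : Irreducible f) (hdeg : 3 ≤ f.natDegree) :
    ∃ c : ℝ, 0 < c ∧ ∀ᶠ N : ℝ in atTop, c * N ^ ((2 : ℝ) / f.natDegree) ≤
      ({m : ℤ | |(m : ℝ)| ≤ N ∧ ∃ x y : ℤ, Thue.form f x y = m}.ncard : ℝ) :=
  represented_ge hirr hdeg

/-- The exact order of magnitude. -/
theorem represented_order {f : ℤ[X]} (hirr : Irreducible f) (hdeg : 3 ≤ f.natDegree) :
    ∃ c C : ℝ, 0 < c ∧ ∀ᶠ N : ℝ in atTop,
      c * N ^ ((2 : ℝ) / f.natDegree) ≤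
        ({m : ℤ | |(m : ℝ)| ≤ N ∧ ∃ x y : ℤ, Thue.form f x y = m}.ncard : ℝ) ∧
      ({m : ℤ | |(m : ℝ)| ≤ N ∧ ∃ x y : ℤ, Thue.form f x y = m}.ncard : ℝ) ≤
        C * N ^ ((2 : ℝ) / f.natDegree) := by
  obtain ⟨c, hc, hlo⟩ := represented_lower hirr hdeg
  obtain ⟨hsep, hroot⟩ := separable_of_irreducible hirr hdeg
  obtain ⟨-, hlim⟩ := MahlerArea.area_and_count hsep hroot hdeg
  set A := MeasureTheory.volume.real {v : Fin 2 → ℝ | |MahlerArea.realForm f v| ≤ 1}
  refine ⟨c, A + 1, hc, ?_⟩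
  filter_upwards [hlo, hlim.eventually (eventually_le_nhds (lt_add_one A)), eventually_gt_atTop 0]
    with N h1 h2 hN
  refine ⟨h1, le_trans ?_ ((div_le_iff₀ (Real.rpow_pos_of_pos hN _)).1 h2)⟩
  refine Nat.cast_le.2 ?_
  have hfin : {p : ℤ × ℤ | |(Thue.form f p.1 p.2 : ℝ)| ≤ N}.Finite :=
    (Roth.finite_small_values hsep hroot (C := N) (e := 0)
      (by have : (3 : ℝ) ≤ f.natDegree := Nat.ofNat_le_cast.2 hdeg; linarith) hdeg).subset
      fun p hp => by
        show |(Thue.form f p.1 p.2 : ℝ)| ≤ N * _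
        rwa [Real.rpow_zero, mul_one]
  refine le_trans (Set.ncard_le_ncard ?_ (hfin.image fun p => Thue.form f p.1 p.2))
    (Set.ncard_image_le hfin)
  rintro m ⟨hm, x, y, rfl⟩
  exact ⟨(x, y), hm, rfl⟩

/-- **Few representations**: for large `n` a positive proportion of the pairs up to `n` take their
values boundedly often. -/
theorem few_representations {f : ℤ[X]} (hirr : Irreducible f) (hdeg : 3 ≤ f.natDegree) :
    ∃ L C : ℕ, ∀ᶠ n : ℕ in atTop, ∃ S : Finset (ℕ × ℕ),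
      (∀ w ∈ S, w.1 ≤ n ∧ w.2 ≤ L * n ∧ w.1.Coprime w.2) ∧
      (n : ℝ) ^ 2 / 20 ≤ (S.card : ℝ) ∧
      ∀ m : ℤ, (S.filter fun w => Thue.form f w.1 w.2 = m).card ≤ C := by
  obtain ⟨δ, hδ, hgood⟩ := eventually_goodSet_card hirr hdeg
  obtain ⟨C, -, hfib⟩ := eventually_goodSet_fibre hirr hdeg hδ
  refine ⟨f.leadingCoeff.natAbs + 1, C, ?_⟩
  filter_upwards [hgood, hfib] with n hn hn'
  refine ⟨goodSet f δ n, fun w hw => ?_, hn, fun m => le_trans (Finset.card_le_card ?_)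
    (hn' m.natAbs)⟩
  · obtain ⟨-, h2, -, h4, h5, -⟩ := mem_pairs (Finset.mem_filter.1 hw).1
    exact ⟨h2, h4, h5⟩
  · intro w hw
    obtain ⟨h1, h2⟩ := Finset.mem_filter.1 hw
    exact Finset.mem_filter.2 ⟨h1, by rw [value, h2]⟩

end FA.ErdosMahler.Summary

end
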