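import Fermat.Agent.ErdosMoser.Bound

/-!
# The Erdős–Moser equation

* `moser_congruences` (Moser 1953): if `1 ^ k + ⋯ + (m - 1) ^ k = m ^ k` with `k, m ≥ 2`, then `k`
  is even and each `(n, a)` among `(m - 1, 1)`, `secondPair m` (`(m + 1, 2)`, or `((m + 1) / 2, 1)`
  for odd `m`), `(2 m - 1, 2)`, `(2 m + 1, 4)` has `n` squarefree and every prime `p ∣ n` satisfies
  `p - 1 ∣ k` and `p ∣ n / p + a`.
* `moser_lower_bound`: such an `m` exceeds `10 ^ 6000` (Moser's `10 ^ 10 ^ 6` uses primes up to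
  `10 ^ 7`; only those below `10 ^ 4` are summed here).
-/

set_option autoImplicit false

namespace FA.ErdosMoser.Summary

open Finset

theorem powerSum_eq_Ico {k : ℕ} (hk : k ≠ 0) (m : ℕ) : powerSum k m = ∑ j ∈ Ico 1 m, j ^ k := by
  rcases m with _ | m
  · simp [powerSum]
  · rw [powerSum, range_eq_Ico, sum_eq_sum_Ico_succ_bot (Nat.succ_pos m), zero_pow hk, zero_add]

theorem moser_congruences {k m : ℕ} (hk : 2 ≤ k) (hm : 2 ≤ m)
    (h : ∑ j ∈ Ico 1 m, j ^ k = m ^ k) :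
    Even k ∧ ∀ na ∈ [(m - 1, 1), secondPair m, (2 * m - 1, 2), (2 * m + 1, 4)],
      Squarefree na.1 ∧ ∀ p : ℕ, p.Prime → p ∣ na.1 → p - 1 ∣ k ∧ p ∣ na.1 / p + na.2 := by
  rw [← powerSum_eq_Ico (by omega)] at h
  obtain ⟨he, h1, h2, h3, h4⟩ := moser_pairs hk hm h
  refine ⟨he, fun na hna => ?_⟩
  simp only [List.mem_cons, List.not_mem_nil, or_false] at hna
  rcases hna with rfl | rfl | rfl | rfl
  · exact ⟨h1.squarefree, fun p hp hd => ⟨(h1 p hp hd).1, (h1 p hp hd).2.1⟩⟩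
  · exact ⟨h2.squarefree, fun p hp hd => ⟨(h2 p hp hd).1, (h2 p hp hd).2.1⟩⟩
  · exact ⟨h3.squarefree, fun p hp hd => ⟨(h3 p hp hd).1, (h3 p hp hd).2.1⟩⟩
  · exact ⟨h4.squarefree, fun p hp hd => ⟨(h4 p hp hd).1, (h4 p hp hd).2.1⟩⟩

theorem moser_lower_bound {k m : ℕ} (hk : 2 ≤ k) (hm : 2 ≤ m)
    (h : ∑ j ∈ Ico 1 m, j ^ k = m ^ k) : Even k ∧ 10 ^ 6000 < m := by
  rw [← powerSum_eq_Ico (by omega)] at h
  exact ⟨(moser_pairs hk hm h).1, moser_bound hk hm h⟩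

end FA.ErdosMoser.Summary
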