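import Fermat.Agent.ErdosMurtyGRH.Index
import Fermat.Agent.Root.SummaryPrimeNumberTheorem

/-!
# The order of an integer modulo almost all primes, on the Riemann hypothesis

Erdős and Murty: let `|a| ≥ 2` and suppose the Riemann hypothesis for the fields
`ℚ(ζ_q, a ^ (1/q))`, `q` prime (an argument, never assumed). Then

* `index_bounded_almost_all_of_RH`: for every `ε > 0` there is an `f` such that all but `ε π(N)` of
  the primes `p ≤ N`, `N` large, have `(p - 1) / ord_p a ≤ f`;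
* `order_almost_all_of_RH`: for every `ψ → ∞` almost all primes have `ord_p a ≥ p / ψ p`.
-/

set_option autoImplicit false
set_option linter.style.haveILetI false

noncomputable section

open Finset Filter NumberField Polynomial
open scoped Classical Topology

namespace FA.ErdosMurty.Summary

/-- **The index is bounded at almost all primes.** -/
theorem index_bounded_almost_all_of_RH {a : ℤ} (ha : 2 ≤ a.natAbs)
    (hRH : ∀ q : ℕ, q.Prime → ∀ E : ℂ → ℂ, Differentiable ℂ E →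
      (∀ s : ℂ, 1 < s.re → E s = (s - 1) *
        dedekindZeta ((X ^ q - 1) * (X ^ q - C (a : ℚ)) : ℚ[X]).SplittingField s) →
      ∀ z : ℂ, E z = 0 → 0 < z.re → z.re < 1 → z.re = 1 / 2) {ε : ℝ} (hε : 0 < ε) :
    ∃ f : ℕ, ∀ᶠ N : ℕ in atTop,
      ((((Icc 1 N).filter fun p : ℕ => p.Prime ∧ ¬ (p : ℤ) ∣ a ∧
        f < (p - 1) / orderOf (a : ZMod p)).card : ℕ) : ℝ) ≤ ε * Nat.primeCounting N := by
  obtain ⟨f, hf⟩ := FA.ErdosMurty.exists_index_bound ha hRH (half_pos hε)
  refine ⟨f, ?_⟩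
  have hpnt := PNT.Summary.prime_number_theorem.comp (tendsto_natCast_atTop_atTop (R := ℝ))
  filter_upwards [hf, hpnt.eventually (Ici_mem_nhds (show (1 / 2 : ℝ) < 1 by norm_num)),
    eventually_ge_atTop 2] with N h1 h2 hN
  simp only [Function.comp_apply, Nat.floor_natCast] at h2
  have hN0 : (0 : ℝ) < N := Nat.cast_pos.2 (by omega)
  have hl : 0 < Real.log N := Real.log_pos (by exact_mod_cast (show 1 < N by omega))
  rw [le_div_iff₀ hN0] at h2
  refine h1.trans ?_
  rw [← mul_div_assoc, div_le_iff₀ hl]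
  nlinarith

/-- **The order is almost never below `p / ψ p`.** -/
theorem order_almost_all_of_RH {a : ℤ} (ha : 2 ≤ a.natAbs)
    (hRH : ∀ q : ℕ, q.Prime → ∀ E : ℂ → ℂ, Differentiable ℂ E →
      (∀ s : ℂ, 1 < s.re → E s = (s - 1) *
        dedekindZeta ((X ^ q - 1) * (X ^ q - C (a : ℚ)) : ℚ[X]).SplittingField s) →
      ∀ z : ℂ, E z = 0 → 0 < z.re → z.re < 1 → z.re = 1 / 2)
    {ψ : ℕ → ℝ} (hψ : Tendsto ψ atTop atTop) :
    Tendsto (fun N : ℕ => ((((Icc 1 N).filter fun p : ℕ => p.Prime ∧ ¬ (p : ℤ) ∣ a ∧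
        (orderOf (a : ZMod p) : ℝ) * ψ p < p).card : ℕ) : ℝ) / Nat.primeCounting N)
      atTop (𝓝 0) := by
  rw [Metric.tendsto_nhds]
  intro ε hε
  obtain ⟨f, hf⟩ := index_bounded_almost_all_of_RH ha hRH (show 0 < ε / 3 by linarith)
  obtain ⟨P₀, hP₀⟩ := eventually_atTop.1 (hψ.eventually_ge_atTop ((f : ℝ) + 2))
  have hπ : Tendsto (fun N : ℕ => (Nat.primeCounting N : ℝ)) atTop atTop :=
    tendsto_natCast_atTop_atTop.comp Nat.tendsto_primeCounting
  filter_upwards [hf, hπ.eventually_gt_atTop 0, hπ.eventually_ge_atTop (3 * (P₀ + 1) / ε)]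
    with N h1 h2 h3
  rw [Real.dist_eq, sub_zero, abs_of_nonneg (by positivity), div_lt_iff₀ h2]
  have hsub : ((Icc 1 N).filter fun p : ℕ => p.Prime ∧ ¬ (p : ℤ) ∣ a ∧
      (orderOf (a : ZMod p) : ℝ) * ψ p < p) ⊆
      ((Icc 1 N).filter fun p : ℕ => p.Prime ∧ ¬ (p : ℤ) ∣ a ∧
        f < (p - 1) / orderOf (a : ZMod p)) ∪ range P₀ := fun p hp => by
    obtain ⟨hpN, hp, hpa, hlt⟩ := mem_filter.1 hp
    by_cases hP : p < P₀
    · exact mem_union_right _ (Finset.mem_range.2 hP)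
    refine mem_union_left _ (mem_filter.2 ⟨hpN, hp, hpa, ?_⟩)
    have hspec := FA.ErdosMurty.primeIndex_spec hp hpa
    show f < FA.ErdosMurty.primeIndex a p
    by_contra hle
    push Not at hle
    obtain ⟨d, hd⟩ : ∃ d, d = orderOf (a : ZMod p) := ⟨_, rfl⟩
    rw [← hd] at hspec hlt
    have hd1 : 1 ≤ d := Nat.one_le_iff_ne_zero.2 fun h => by
      rw [h, zero_mul] at hspec
      have := hp.two_le
      omega
    have h4 : p ≤ d * (f + 2) := by
      have := Nat.mul_le_mul_left d hle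
      nlinarith [hp.one_le, Nat.sub_add_cancel hp.one_le]
    have h5 : (p : ℝ) ≤ (d : ℝ) * ((f : ℝ) + 2) := by exact_mod_cast h4
    nlinarith [mul_le_mul_of_nonneg_left (hP₀ p (not_lt.1 hP)) (Nat.cast_nonneg (α := ℝ) d)]
  have h6 := (Nat.cast_le (α := ℝ)).2 ((card_le_card hsub).trans (card_union_le _ _))
  rw [card_range] at h6
  push_cast at h6
  rw [div_le_iff₀ hε] at h3
  have hε2 := mul_pos hε h2
  have hP0 : (0 : ℝ) ≤ P₀ := Nat.cast_nonneg _
  linarith

end FA.ErdosMurty.Summary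

end
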