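import Fermat.Agent.HasseEvenOrder.Main
import Mathlib.NumberTheory.PrimeCounting

/-!
# Hasse's densities for the orders modulo primes

The order of `2` modulo `p` is even, equivalently `p` divides some `2 ^ n + 1`, for `17 / 24` of
the primes `p`; for an odd prime `q` and an integer `a` that is no `q`th power, `q` divides the
order of `a` modulo `p` for `q / (q ^ 2 - 1)` of the primes.
-/

set_option autoImplicit false

noncomputable section

open Filter Topology FA.HasseEvenOrder
open scoped Classical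

namespace FA.Summary

/-- A natural density among the primes, as a proportion of `π`. -/
theorem hasPrimeDensity_proportion {P : ℕ → Prop} {δ : ℝ} (h : HasPrimeDensity P δ) :
    Tendsto (fun N : ℕ => (Nat.card {p : ℕ // p ≤ N ∧ p.Prime ∧ P p} : ℝ) / Nat.primeCounting N)
      atTop (𝓝 δ) := by
  have key : ∀ (Q : ℕ → Prop) (N : ℕ),
      Nat.card {p : ℕ // p ≤ N ∧ p.Prime ∧ Q p} = primeCount Q N := fun Q N => by
    rw [primeCount, ← Nat.card_eq_finsetCard]
    exact Nat.card_congr (Equiv.subtypeEquivRight fun p => by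
      rw [Finset.mem_filter, Finset.mem_Icc]
      exact ⟨fun h => ⟨⟨h.2.1.one_le, h.1⟩, h.2⟩, fun h => ⟨h.1.2, h.2⟩⟩)
  have hpi : ∀ N : ℕ, Nat.primeCounting N = primeCount (fun _ => True) N := fun N => by
    rw [Nat.primeCounting, Nat.primeCounting', Nat.count_eq_card_filter_range, primeCount]
    congr 1
    ext p
    simp only [Finset.mem_filter, Finset.mem_range, Finset.mem_Icc, and_true]
    exact ⟨fun h => ⟨⟨h.2.one_le, by omega⟩, h.2⟩, fun h => ⟨by omega, h.2⟩⟩
  exact (tendsto_ratio h).congr fun N => by rw [key, hpi]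

/-- **Hasse (1966)**: the order of `2` modulo `p` is even for `17 / 24` of the primes. -/
theorem hasse_even_order_two :
    Tendsto (fun N : ℕ => (Nat.card {p : ℕ // p ≤ N ∧ p.Prime ∧ p ≠ 2 ∧
      Even (orderOf (2 : ZMod p))} : ℝ) / Nat.primeCounting N) atTop (𝓝 (17 / 24)) :=
  hasPrimeDensity_proportion (hasPrimeDensity_two.congr fun p hp => by
    rw [Int.cast_ofNat, even_iff_two_dvd]
    refine and_congr_left' ⟨fun h e => h (by subst e; exact dvd_rfl), fun h e => h ?_⟩
    exact (Nat.prime_dvd_prime_iff_eq hp Nat.prime_two).1 (by exact_mod_cast e))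

/-- **Hasse**: the primes dividing some `2 ^ n + 1` are `17 / 24` of all primes. -/
theorem hasse_dvd_two_pow_add_one :
    Tendsto (fun N : ℕ => (Nat.card {p : ℕ // p ≤ N ∧ p.Prime ∧ ∃ n : ℕ, p ∣ 2 ^ n + 1} : ℝ) /
      Nat.primeCounting N) atTop (𝓝 (17 / 24)) :=
  hasPrimeDensity_proportion hasPrimeDensity_dvd_two_pow_add_one

/-- **Hasse (1965)**: for an odd prime `q` and an integer `a` that is no `q`th power, `q` divides
the order of `a` modulo `p` for `q / (q ^ 2 - 1)` of the primes. -/
theorem hasse_prime_dvd_order {q : ℕ} (hq : q.Prime) (hq2 : q ≠ 2) {a : ℤ}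
    (ha : ∀ c : ℤ, c ^ q ≠ a) :
    Tendsto (fun N : ℕ => (Nat.card {p : ℕ // p ≤ N ∧ p.Prime ∧ ¬ (p : ℤ) ∣ a ∧
      q ∣ orderOf (a : ZMod p)} : ℝ) / Nat.primeCounting N) atTop
      (𝓝 ((q : ℝ) / ((q : ℝ) ^ 2 - 1))) :=
  hasPrimeDensity_proportion (hasPrimeDensity_odd hq hq2 ha)

end FA.Summary

end
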