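import Fermat.Agent.ErdosNonresidueMean.Main
import Fermat.Agent.Root.SummaryHasseOrderDensity

/-!
# Erdős' theorem on the average least quadratic non-residue

The mean over the primes of the least non-residue is `∑ q_k / 2 ^ (k + 1) = 3.67…`, `q_k` the
`k`th prime from `q_0 = 2`; for each `k` a proportion `2 ^ (-(k + 1))` of the primes have least
non-residue `q_k`. All statements are unconditional.
-/

set_option autoImplicit false

noncomputable section

open Filter Topology FA.HasseEvenOrder FA.ErdosNonresidueMean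
open scoped Classical

namespace FA.Summary

/-- **Erdős (1961)**: the average least quadratic non-residue (`sInf ∅ = 0` at `p = 2`). -/
theorem erdos_least_nonresidue_mean :
    Tendsto (fun N : ℕ => (∑ p ∈ (Finset.Icc 1 N).filter Nat.Prime,
        ((sInf {m : ℕ | ¬ IsSquare (m : ZMod p)} : ℕ) : ℝ)) / Nat.primeCounting N) atTop
      (𝓝 (∑' k : ℕ, (Nat.nth Nat.Prime k : ℝ) / 2 ^ (k + 1))) :=
  tendsto_mean

/-- The series converges. -/
theorem erdos_nonresidue_series_summable :
    Summable fun k : ℕ => (Nat.nth Nat.Prime k : ℝ) / 2 ^ (k + 1) :=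
  summable_meanTerm

/-- The constant exceeds three. -/
theorem erdos_nonresidue_series_gt_three :
    3 < ∑' k : ℕ, (Nat.nth Nat.Prime k : ℝ) / 2 ^ (k + 1) := by
  have h := summable_meanTerm.sum_le_tsum (Finset.range 5) fun k _ => meanTerm_nonneg k
  refine lt_of_lt_of_le ?_ h
  simp only [Finset.sum_range_succ, Finset.sum_range_zero, meanTerm, qp,
    Nat.nth_prime_zero_eq_two, Nat.nth_prime_one_eq_three, Nat.nth_prime_two_eq_five,
    Nat.nth_prime_three_eq_seven, Nat.nth_prime_four_eq_eleven]
  norm_num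

/-- **The distribution**: the `k`th prime is the least non-residue for `2 ^ (-(k + 1))` of the
primes. -/
theorem erdos_least_nonresidue_density (k : ℕ) :
    Tendsto (fun N : ℕ => (Nat.card {p : ℕ // p ≤ N ∧ p.Prime ∧
        sInf {m : ℕ | ¬ IsSquare (m : ZMod p)} = Nat.nth Nat.Prime k} : ℝ) / Nat.primeCounting N)
      atTop (𝓝 ((1 / 2) ^ (k + 1))) :=
  hasPrimeDensity_proportion (hasPrimeDensity_eq_qp k)

/-- Every prime is the least non-residue of infinitely many primes, and for an odd prime the
least non-residue is a prime at most `√p + 1`. -/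
theorem erdos_least_nonresidue_values :
    (∀ q : ℕ, q.Prime →
      {p : ℕ | p.Prime ∧ sInf {m : ℕ | ¬ IsSquare (m : ZMod p)} = q}.Infinite) ∧
      ∀ p : ℕ, p.Prime → p ≠ 2 → (sInf {m : ℕ | ¬ IsSquare (m : ZMod p)}).Prime ∧
        (sInf {m : ℕ | ¬ IsSquare (m : ZMod p)} - 1) ^ 2 ≤ p := by
  refine ⟨fun q hq hfin => ?_, fun p hp hp2 =>
    ⟨prime_leastNonSquare hp hp2, sq_pred_le hp hp2⟩⟩
  obtain ⟨k, rfl⟩ := exists_qp_eq hq
  exact absurd (tendsto_nhds_unique (hasPrimeDensity_eq_qp k) (HasPrimeDensity.of_finite hfin))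
    (by positivity)

end FA.Summary

end
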