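import Fermat.Agent.OmegaPhi.Main

/-!
# The theorem of Erdős and Pomerance on the prime factors of `φ n`

Erdős and Pomerance (1985): over the `n ≤ N` the number of prime factors of `φ n`, with or without
multiplicity, is asymptotically normal with the mean `(log log N) ^ 2 / 2` and the variance
`(log log N) ^ 3 / 3`; so `ω (φ n)` has the normal order `(log log n) ^ 2 / 2`. The counts of the
`p - 1` come from the theorem of Bombieri and Vinogradov; no rate is stated.
-/

set_option autoImplicit false

noncomputable section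

open Finset Filter
open scoped Topology ArithmeticFunction.Omega

namespace FA.Summary

/-- **Erdős and Pomerance**: `(ω (φ n) - ½ (log log N) ^ 2) / √((log log N) ^ 3 / 3)` over `n ≤ N`
tends in distribution to the standard Gaussian. -/
theorem totient_omega_gaussian (y : ℝ) :
    Tendsto (fun N : ℕ => (((Icc 1 N).filter fun n : ℕ =>
      (n.totient.primeFactors.card : ℝ) - Real.log (Real.log N) ^ 2 / 2 ≤
        y * Real.sqrt (Real.log (Real.log N) ^ 3 / 3)).card : ℝ) / N) atTop
      (𝓝 ((ProbabilityTheory.gaussianReal 0 1).real (Set.Iic y))) := by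
  obtain ⟨C, hC, h⟩ := FA.OmegaPhi.exists_totient_dev
  exact FA.OmegaPhi.tendsto_of_near_factorOmega (F := fun n => (n.totient.primeFactors.card : ℝ))
    ⟨C, hC, h.mono fun N hN => hN.1⟩ y

/-- The same with multiplicity, for `Ω (φ n)`. -/
theorem totient_cardFactors_gaussian (y : ℝ) :
    Tendsto (fun N : ℕ => (((Icc 1 N).filter fun n : ℕ =>
      (Ω n.totient : ℝ) - Real.log (Real.log N) ^ 2 / 2 ≤
        y * Real.sqrt (Real.log (Real.log N) ^ 3 / 3)).card : ℝ) / N) atTop
      (𝓝 ((ProbabilityTheory.gaussianReal 0 1).real (Set.Iic y))) := by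
  obtain ⟨C, hC, h⟩ := FA.OmegaPhi.exists_totient_dev
  exact FA.OmegaPhi.tendsto_of_near_factorOmega (F := fun n => (Ω n.totient : ℝ))
    ⟨C, hC, h.mono fun N hN => hN.2⟩ y

/-- **`ω (φ n)` has the normal order `(log log n) ^ 2 / 2`**: for every `ε > 0` almost all `n` have
`|ω (φ n) - ½ (log log n) ^ 2| ≤ ε (log log n) ^ 2`. -/
theorem totient_omega_normal_order {ε : ℝ} (hε : 0 < ε) :
    Tendsto (fun N : ℕ => (((Icc 1 N).filter fun n : ℕ =>
      ε * Real.log (Real.log n) ^ 2 <
        |(n.totient.primeFactors.card : ℝ) - Real.log (Real.log n) ^ 2 / 2|).card : ℝ) / N)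
      atTop (𝓝 0) := by
  obtain ⟨C, hC, h⟩ := FA.OmegaPhi.exists_totient_dev
  exact FA.OmegaPhi.tendsto_abnormal_of_near (F := fun n => (n.totient.primeFactors.card : ℝ))
    ⟨C, hC, h.mono fun N hN => hN.1⟩ hε

end FA.Summary

end
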