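import Fermat.Agent.Erdos.ConsecutiveSquare
import Fermat.Agent.Root.SummaryConsecutive
import Fermat.Agent.Root.SummaryCatalanEven

/-!
# The theorem of Erdős and Rigge

No product of `k ≥ 2` consecutive positive integers is a square; so no quotient `n ! / m !` with
`m + 2 ≤ n` is one. Four consecutive positive integers never multiply to a perfect power.
-/

set_option autoImplicit false

noncomputable section

namespace FA.Summary

open Nat

/-- **Four consecutive integers**: their product is no perfect power, every exponent `n ≥ 2`. -/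
theorem four_consecutive_not_perfect_power {n x y : ℕ} (hn : 2 ≤ n) (hx : 0 < x) :
    x * (x + 1) * (x + 2) * (x + 3) ≠ y ^ n := fun h => by
  have hy : 0 < y := Nat.pos_of_ne_zero fun e => by
    rw [e, zero_pow (by omega)] at h
    simp at h
    omega
  obtain ⟨h1, -⟩ := (sq_eq_pow_add_one_iff hn (x := x * (x + 3) + 1) (by omega) hy).1
    (by rw [← h]; ring)
  have : 4 ≤ x * (x + 3) := Nat.mul_le_mul (show 1 ≤ x from hx) (show 4 ≤ x + 3 by omega)
  omega

/-- **Erdős–Rigge**: no product of `k ≥ 2` consecutive positive integers is a square. -/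
theorem erdos_rigge {n k : ℕ} (hk : 2 ≤ k) (hkn : k ≤ n) : ¬ IsSquare (n.descFactorial k) := by
  rintro ⟨m, hm⟩
  rw [← sq] at hm
  by_cases h5 : 5 ≤ k
  · exact FA.Erdos.descFactorial_ne_sq h5 hkn hm
  obtain ⟨j, rfl⟩ : ∃ j, n = j + k := ⟨n - k, by omega⟩
  interval_cases k
  · simp [descFactorial_succ] at hm
    rcases Nat.lt_or_ge m (j + 2) with hlt | hge
    · have := Nat.pow_le_pow_left (Nat.le_of_lt_succ hlt) 2
      nlinarith
    · have := Nat.pow_le_pow_left hge 2
      nlinarith
  · simp [descFactorial_succ] at hm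
    refine three_consecutive_ne_pow (n := 2) le_rfl (x := (j + 1 : ℤ)) (y := (m : ℤ)) ?_ ?_
    · intro e
      rw [Int.natCast_eq_zero.1 e, zero_pow two_ne_zero] at hm
      simp at hm
    · have : ((j + 1) * (j + 2) * (j + 3) : ℤ) = (m : ℤ) ^ 2 := by
        exact_mod_cast (show (j + 1) * (j + 2) * (j + 3) = m ^ 2 by linarith)
      linear_combination this
  · simp [descFactorial_succ] at hm
    exact four_consecutive_not_perfect_power le_rfl (x := j + 1) (y := m) (by omega)
      (by linarith)

/-- **Erdős–Rigge**, as a product: `a (a + 1) ⋯ (a + k - 1)` is no square for `a ≥ 1`, `k ≥ 2`. -/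
theorem erdos_rigge_prod {a k : ℕ} (ha : 0 < a) (hk : 2 ≤ k) :
    ¬ IsSquare (∏ i ∈ Finset.range k, (a + i)) := by
  rw [← ascFactorial_eq_prod_range, ← add_descFactorial_eq_ascFactorial']
  exact erdos_rigge hk (by omega)

/-- No quotient of factorials `n ! / m !` with `m + 2 ≤ n` is a square. -/
theorem factorial_div_not_square {m n : ℕ} (h : m + 2 ≤ n) : ¬ IsSquare (n ! / m !) := by
  have e := descFactorial_eq_div (n := n) (k := n - m) (Nat.sub_le n m)
  rw [show n - (n - m) = m by omega] at e
  rw [← e]
  exact erdos_rigge (by omega) (Nat.sub_le n m)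

end FA.Summary

end
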