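import Fermat.Agent.Ribet.Progressions

/-!
# Products of terms of arithmetic progressions are not perfect powers

For `gcd (x, d) = 1`, a difference `d` with at most two primes `2`, `q` and an exponent with a
prime factor `p ≥ 11`: `x (x + d)`, `x (x + d) (x + 2 d)`, the products of four and, for `q = 3`
and `p ≥ 5`, of five consecutive terms are not `y ^ n`, `y ≠ 0`, under a condition on the power
of two in `d`. Integers of both signs are allowed.
-/

set_option autoImplicit false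

noncomputable section

namespace FA.Summary

/-- **Two terms**: `x (x + d) ≠ y ^ n` when the primes of `d` are among `2` and `q`,
`q = 3, 5, 11, 13, 19`, and `d` is odd or divisible by `16`. -/
theorem progression_two_ne_pow {n p : ℕ} (hp : p.Prime) (h11 : 11 ≤ p) (hpn : p ∣ n) {q : ℕ}
    (hq : q = 3 ∨ q = 5 ∨ q = 11 ∨ q = 13 ∨ q = 19) {x d y : ℤ} (hd0 : d ≠ 0)
    (hs : ∀ r : ℕ, r.Prime → (r : ℤ) ∣ d → r = 2 ∨ r = q) (hd : Odd d ∨ (16 : ℤ) ∣ d)
    (hcop : IsCoprime x d) (hy : y ≠ 0) : x * (x + d) ≠ y ^ n := by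
  obtain ⟨m, rfl⟩ := hpn
  rw [mul_comm p, pow_mul]
  exact FA.Progressions.mul_ne_pow_two hp h11 hq hd0 (fun r hr h => by
    rcases hs r hr h with rfl | rfl
    exacts [dvd_mul_right _ _, dvd_mul_left _ _]) hd hcop (pow_ne_zero _ hy)

/-- **Three terms, primes of `d` among `2, 3` or `2, 5`**: no `n`-th power as soon as `n` has a
prime factor `p ≥ 5`, for odd `d` and `4 ∣ d`. -/
theorem progression_three_ne_pow_five {n p : ℕ} (hp : p.Prime) (h5 : 5 ≤ p) (hpn : p ∣ n)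
    {q : ℕ} (hq : q = 3 ∨ q = 5) {x d y : ℤ} (hd0 : d ≠ 0)
    (hs : ∀ r : ℕ, r.Prime → (r : ℤ) ∣ d → r = 2 ∨ r = q) (hd : Odd d ∨ (4 : ℤ) ∣ d)
    (hcop : IsCoprime x d) (hy : y ≠ 0) : x * (x + d) * (x + 2 * d) ≠ y ^ n := by
  obtain ⟨m, rfl⟩ := hpn
  rw [mul_comm p, pow_mul]
  intro h
  obtain ⟨A, B, C, a, b, c, hne, habc, hsu, hco, h16, -, heq⟩ :=
    FA.Progressions.exists_fermat_of_three (hp.odd_of_ne_two (by omega)) h5 hd0 hs hd hcop
      (pow_ne_zero _ hy) h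
  exact twoPrimeFermat_three_five hp h5 dvd_rfl hq hne habc hsu hco h16 heq

/-- **Three terms, every odd prime `q ≤ 19`**: no `n`-th power when `n` has a prime factor
`p ≥ 11` other than `q`, for odd `d` and `4 ∣ d`, `8 ∣ d` for `q = 17, 19`. -/
theorem progression_three_ne_pow {n p : ℕ} (hp : p.Prime) (h11 : 11 ≤ p) (hpn : p ∣ n) {q : ℕ}
    (hq : q.Prime) (hq2 : q ≠ 2) (hq19 : q ≤ 19) (hqp : q ≠ p) {x d y : ℤ} (hd0 : d ≠ 0)
    (hs : ∀ r : ℕ, r.Prime → (r : ℤ) ∣ d → r = 2 ∨ r = q) (hd : Odd d ∨ (4 : ℤ) ∣ d)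
    (hd8 : q = 17 ∨ q = 19 → Odd d ∨ (8 : ℤ) ∣ d) (hcop : IsCoprime x d) (hy : y ≠ 0) :
    x * (x + d) * (x + 2 * d) ≠ y ^ n := by
  obtain ⟨m, rfl⟩ := hpn
  rw [mul_comm p, pow_mul]
  intro h
  obtain ⟨A, B, C, a, b, c, hne, habc, hsu, hco, h16, h32, heq⟩ :=
    FA.Progressions.exists_fermat_of_three (hp.odd_of_ne_two (by omega)) (by omega) hd0 hs hd
      hcop (pow_ne_zero _ hy) h
  have hmem : (q = 3 ∨ q = 5) ∨ (q = 7 ∨ q = 11 ∨ q = 13) ∨ (q = 17 ∨ q = 19) := by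
    have := hq.two_le
    interval_cases q <;> first | omega | norm_num at hq
  rcases hmem with h' | h' | h'
  · exact twoPrimeFermat_three_five hp (by omega) dvd_rfl h' hne habc hsu hco h16 heq
  · exact twoPrimeFermat_seven_thirteen hp h11 dvd_rfl h' hqp hne habc hsu hco h16 heq
  · exact twoPrimeFermat_seventeen_nineteen hp h11 dvd_rfl h' hqp hne habc hsu hco
      (h32 (hd8 h')) heq

/-- **Four terms**: `x (x + d) (x + 2 d) (x + 3 d) ≠ y ^ n` when the primes of `d` are among `2`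
and `q`, `q = 3, 5, 11, 13, 19`, and `d` is odd or divisible by `4`. -/
theorem progression_four_ne_pow {n p : ℕ} (hp : p.Prime) (h11 : 11 ≤ p) (hpn : p ∣ n) {q : ℕ}
    (hq : q = 3 ∨ q = 5 ∨ q = 11 ∨ q = 13 ∨ q = 19) {x d y : ℤ} (hd0 : d ≠ 0)
    (hs : ∀ r : ℕ, r.Prime → (r : ℤ) ∣ d → r = 2 ∨ r = q) (hd : Odd d ∨ (4 : ℤ) ∣ d)
    (hcop : IsCoprime x d) (hy : y ≠ 0) :
    x * (x + d) * (x + 2 * d) * (x + 3 * d) ≠ y ^ n := by
  obtain ⟨m, rfl⟩ := hpn
  rw [mul_comm p, pow_mul]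
  exact FA.Progressions.mul_ne_pow_four hp h11 hq hd0 (fun r hr h => by
    rcases hs r hr h with rfl | rfl
    exacts [dvd_mul_right _ _, dvd_mul_left _ _]) hd hcop (pow_ne_zero _ hy)

/-- **Five terms**: `x (x + d) ⋯ (x + 4 d) ≠ y ^ n` when the primes of `d` are among `2` and `3`,
`d` is odd or divisible by `4` and `n` has a prime factor `p ≥ 5`. -/
theorem progression_five_ne_pow {n p : ℕ} (hp : p.Prime) (h5 : 5 ≤ p) (hpn : p ∣ n) {x d y : ℤ}
    (hd0 : d ≠ 0) (hs : ∀ r : ℕ, r.Prime → (r : ℤ) ∣ d → r = 2 ∨ r = 3)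
    (hd : Odd d ∨ (4 : ℤ) ∣ d) (hcop : IsCoprime x d) (hy : y ≠ 0) :
    x * (x + d) * (x + 2 * d) * (x + 3 * d) * (x + 4 * d) ≠ y ^ n := by
  obtain ⟨m, rfl⟩ := hpn
  rw [mul_comm p, pow_mul]
  intro h
  refine FA.Progressions.mul_ne_pow_five hp h5 (x := x + 2 * d) hd0 hs hd ?_ (pow_ne_zero m hy)
    (by linear_combination h)
  rw [show x + 2 * d = x + d * 2 by ring]
  exact hcop.add_mul_left_left 2

end FA.Summary

end
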