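import Fermat.Agent.Ribet.TwoPrimes

/-!
# Fermat's equation with coefficients supported on two primes `{2, q}`

`A x ^ n + B y ^ n + C z ^ n = 0` has no solution in nonzero integers with `A x ^ n`, `B y ^ n`
coprime, the primes of `A B C` among `2` and `q` and a power of two dividing `C z ^ n`: for
`q = 3, 5`, `16` and `n` with a prime factor `p ≥ 5`; for `q = 7, 11, 13`, `16` and for
`q = 17, 19`, `32`, with `p ≥ 11` other than `q`. The exponent `0` solves the `S`-unit equation.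
-/

set_option autoImplicit false
set_option linter.unusedSectionVars false

noncomputable section

namespace FA.Summary

/-- **Coefficients supported on `{2, 3}` or `{2, 5}`**, from the exponent `5` on. -/
theorem twoPrimeFermat_three_five {n p : ℕ} (hp : p.Prime) (h5 : 5 ≤ p) (hpn : p ∣ n) {q : ℕ}
    (hq : q = 3 ∨ q = 5) {A B C x y z : ℤ} (hne : A * B * C ≠ 0) (hxyz : x * y * z ≠ 0)
    (hs : ∀ r : ℕ, r.Prime → (r : ℤ) ∣ A * B * C → r = 2 ∨ r = q)
    (hcop : IsCoprime (A * x ^ n) (B * y ^ n)) (h16 : (16 : ℤ) ∣ C * z ^ n) :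
    A * x ^ n + B * y ^ n + C * z ^ n ≠ 0 := fun heq => by
  obtain ⟨A', B', s, u, h1, h2, -, h4, h5', h6, h7⟩ :=
    FA.Ribet.exists_frey_of_solution hpn hne hxyz hs hcop h16 heq
  exact FA.Ribet.false_of_twoPrimes_three_five hp h5 hq h1 h2 h4 h5' h6 h7

/-- **Coefficients supported on `{2, q}`, `q = 7, 11, 13`**, from the exponent `11` on. -/
theorem twoPrimeFermat_seven_thirteen {n p : ℕ} (hp : p.Prime) (h11 : 11 ≤ p) (hpn : p ∣ n)
    {q : ℕ} (hq : q = 7 ∨ q = 11 ∨ q = 13) (hqp : q ≠ p) {A B C x y z : ℤ}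
    (hne : A * B * C ≠ 0) (hxyz : x * y * z ≠ 0)
    (hs : ∀ r : ℕ, r.Prime → (r : ℤ) ∣ A * B * C → r = 2 ∨ r = q)
    (hcop : IsCoprime (A * x ^ n) (B * y ^ n)) (h16 : (16 : ℤ) ∣ C * z ^ n) :
    A * x ^ n + B * y ^ n + C * z ^ n ≠ 0 := fun heq => by
  obtain ⟨A', B', s, u, h1, h2, -, h4, h5, h6, h7⟩ :=
    FA.Ribet.exists_frey_of_solution hpn hne hxyz hs hcop h16 heq
  exact FA.Ribet.false_of_twoPrimes_seven hp h11 hq hqp h1 h2 h4 h5 h6 h7

/-- **Coefficients supported on `{2, 17}` or `{2, 19}`**; at `17` the power `32` cannot be lowered,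
as `1 + 16 = 17`. -/
theorem twoPrimeFermat_seventeen_nineteen {n p : ℕ} (hp : p.Prime) (h11 : 11 ≤ p) (hpn : p ∣ n)
    {q : ℕ} (hq : q = 17 ∨ q = 19) (hqp : q ≠ p) {A B C x y z : ℤ}
    (hne : A * B * C ≠ 0) (hxyz : x * y * z ≠ 0)
    (hs : ∀ r : ℕ, r.Prime → (r : ℤ) ∣ A * B * C → r = 2 ∨ r = q)
    (hcop : IsCoprime (A * x ^ n) (B * y ^ n)) (h32 : (32 : ℤ) ∣ C * z ^ n) :
    A * x ^ n + B * y ^ n + C * z ^ n ≠ 0 := fun heq => by
  obtain ⟨A', B', s, u, h1, -, h3, h4, h5, h6, h7⟩ := FA.Ribet.exists_frey_of_solution hpn hne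
    hxyz hs hcop ((show (16 : ℤ) ∣ 32 by norm_num).trans h32) heq
  exact FA.Ribet.false_of_twoPrimes_seventeen hp h11 hq hqp h1 (h3 h32) h4 h5 h6 h7

/-- **Serre's equation for `q = 3, 5` from the exponent `5` on**: `a ^ n + b ^ n + q ^ α c ^ n`
does not vanish when `n` has a prime factor `p ≥ 5`, `p = q` allowed. -/
theorem serreEquation_five {n p : ℕ} (hp : p.Prime) (h5 : 5 ≤ p) (hpn : p ∣ n) {q : ℕ}
    (hq : q = 3 ∨ q = 5) {α : ℕ} {a b c : ℤ} (ha : a ≠ 0) (hb : b ≠ 0) (hc : c ≠ 0)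
    (hab : IsCoprime a b) : a ^ n + b ^ n + (q : ℤ) ^ α * c ^ n ≠ 0 := by
  intro heq
  rcases eq_or_ne n 0 with rfl | hn
  · simp only [pow_zero, mul_one] at heq
    have : (0 : ℤ) < (q : ℤ) ^ α := pow_pos (by rcases hq with rfl | rfl <;> norm_num) α
    omega
  have h5n : 5 ≤ n := h5.trans (Nat.le_of_dvd (Nat.pos_of_ne_zero hn) hpn)
  have hcn : IsCoprime (a ^ n) (b ^ n) := hab.pow
  have key : ∀ x : ℤ, Even x → (16 : ℤ) ∣ x ^ n := fun x hx =>
    (show (16 : ℤ) ∣ 2 ^ n from pow_dvd_pow 2 (show 4 ≤ n by omega)).trans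
      (pow_dvd_pow_of_dvd hx.two_dvd n)
  have hs : ∀ r : ℕ, r.Prime → (r : ℤ) ∣ (q : ℤ) ^ α → r = 2 ∨ r = q := fun r hr hd => by
    have hd' : r ∣ q ^ α := by exact_mod_cast hd
    exact Or.inr ((Nat.prime_dvd_prime_iff_eq hr (by rcases hq with rfl | rfl <;> norm_num)).mp
      (hr.dvd_of_dvd_pow hd'))
  have hq0 : (q : ℤ) ^ α ≠ 0 := pow_ne_zero _ (by rcases hq with rfl | rfl <;> norm_num)
  have hqodd : Odd ((q : ℤ) ^ α) := Odd.pow (by rcases hq with rfl | rfl <;> decide)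
  rcases Int.even_or_odd c with hce | hco
  · exact twoPrimeFermat_three_five hp h5 hpn hq (A := 1) (B := 1) (C := (q : ℤ) ^ α) (x := a)
      (y := b) (z := c) (by simpa using hq0) (mul_ne_zero (mul_ne_zero ha hb) hc)
      (by simpa using hs) (by simpa using hcn) ((key c hce).mul_left _) (by linear_combination heq)
  have hqc : Odd ((q : ℤ) ^ α * c ^ n) := hqodd.mul hco.pow
  rcases Int.even_or_odd a with hae | hao
  · refine twoPrimeFermat_three_five hp h5 hpn hq (A := (q : ℤ) ^ α) (B := 1) (C := 1) (x := c)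
      (y := b) (z := a) (by simpa using hq0) (mul_ne_zero (mul_ne_zero hc hb) ha)
      (by simpa using hs) ?_ (by simpa using key a hae) (by linear_combination heq)
    rw [one_mul, show (q : ℤ) ^ α * c ^ n = -(a ^ n) + b ^ n * (-1) by linear_combination heq]
    exact hcn.neg_left.add_mul_left_left (-1)
  have hbe : Even b := by
    rw [← Int.not_odd_iff_even]
    intro hbo
    have h := (hao.pow (n := n)).add_odd (hbo.pow (n := n))
    rw [← Int.not_odd_iff_even] at h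
    exact h (by rw [show a ^ n + b ^ n = -((q : ℤ) ^ α * c ^ n) by linear_combination heq]
                exact hqc.neg)
  refine twoPrimeFermat_three_five hp h5 hpn hq (A := 1) (B := (q : ℤ) ^ α) (C := 1) (x := a)
    (y := c) (z := b) (by simpa using hq0) (mul_ne_zero (mul_ne_zero ha hc) hb)
    (by simpa using hs) ?_ (by simpa using key b hbe) (by linear_combination heq)
  rw [one_mul, show (q : ℤ) ^ α * c ^ n = -(b ^ n) + a ^ n * (-1) by linear_combination heq]
  exact hcn.neg_right.add_mul_left_right (-1)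

/-- **The `S`-unit case**: for an odd prime `q ≤ 19` and `a ≥ 5` neither `2 ^ a + 1` nor
`2 ^ a - 1` is a power of `q`, and nor is either for `a = 4` and `q ≤ 13`. -/
theorem two_pow_add_one_ne {q : ℕ} (hq : q.Prime) (hq2 : q ≠ 2) (hq19 : q ≤ 19) {a b : ℕ}
    (ha : 5 ≤ a ∨ (a = 4 ∧ q ≤ 13)) :
    (2 : ℤ) ^ a + 1 ≠ (q : ℤ) ^ b ∧ (2 : ℤ) ^ a ≠ (q : ℤ) ^ b + 1 := by
  suffices key : ∀ e : ℤ, (e = 1 ∨ e = -1) → (q : ℤ) ^ b + e + -(2 : ℤ) ^ a ≠ 0 from
    ⟨fun h => key (-1) (Or.inr rfl) (by linear_combination -h),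
      fun h => key 1 (Or.inl rfl) (by linear_combination -h)⟩
  intro e he
  have he0 : e ≠ 0 := by rcases he with rfl | rfl <;> norm_num
  have hne : (q : ℤ) ^ b * e * -(2 : ℤ) ^ a ≠ 0 :=
    mul_ne_zero (mul_ne_zero (pow_ne_zero _ (by exact_mod_cast hq.ne_zero)) he0)
      (neg_ne_zero.mpr (pow_ne_zero _ two_ne_zero))
  have hs : ∀ r : ℕ, r.Prime → (r : ℤ) ∣ (q : ℤ) ^ b * e * -(2 : ℤ) ^ a → r = 2 ∨ r = q := by
    intro r hr hd
    have hd' : r ∣ q ^ b * 2 ^ a := by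
      have h := Int.natCast_dvd.mp hd
      simpa [Int.natAbs_mul, Int.natAbs_pow,
        show e.natAbs = 1 by rcases he with rfl | rfl <;> rfl] using h
    rcases (Nat.Prime.dvd_mul hr).mp hd' with h | h
    · exact Or.inr ((Nat.prime_dvd_prime_iff_eq hr hq).mp (hr.dvd_of_dvd_pow h))
    · exact Or.inl ((Nat.prime_dvd_prime_iff_eq hr Nat.prime_two).mp (hr.dvd_of_dvd_pow h))
  have hcop : IsCoprime ((q : ℤ) ^ b) e := by
    rcases he with rfl | rfl
    exacts [isCoprime_one_right, isCoprime_one_right.neg_right]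
  have hmem : (q = 3 ∨ q = 5) ∨ (q = 7 ∨ q = 11 ∨ q = 13) ∨ (q = 17 ∨ q = 19) := by
    have := hq.two_le
    interval_cases q <;> first | omega | norm_num at hq
  have h16 : (16 : ℤ) ∣ -(2 : ℤ) ^ a :=
    Dvd.dvd.neg_right ((show (16 : ℤ) = 2 ^ 4 by norm_num) ▸ pow_dvd_pow 2 (by omega))
  rcases hmem with h | h | h
  · simpa using twoPrimeFermat_three_five (n := 0) (p := 5) (by norm_num) le_rfl (dvd_zero _) h
      (x := 1) (y := 1) (z := 1) hne (by norm_num) hs (by simpa using hcop) (by simpa using h16)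
  · simpa using twoPrimeFermat_seven_thirteen (n := 0) (p := 23) (by norm_num) (by norm_num)
      (dvd_zero _) h (by omega) (x := 1) (y := 1) (z := 1) hne (by norm_num) hs
      (by simpa using hcop) (by simpa using h16)
  · have h32 : (32 : ℤ) ∣ -(2 : ℤ) ^ a :=
      Dvd.dvd.neg_right ((show (32 : ℤ) = 2 ^ 5 by norm_num) ▸ pow_dvd_pow 2 (by omega))
    simpa using twoPrimeFermat_seventeen_nineteen (n := 0) (p := 23) (by norm_num) (by norm_num)
      (dvd_zero _) h (by omega) (x := 1) (y := 1) (z := 1) hne (by norm_num) hs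
      (by simpa using hcop) (by simpa using h32)

end FA.Summary

end
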