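import Fermat.Agent.Root.SummaryErdosRigge
import Fermat.Agent.Root.SummaryProgressions
import Fermat.Agent.Root.SummaryTwoPrimeFermat
import Fermat.Agent.MordellCurve.Sylvester

/-!
# Perfect powers among short products

The product of at most five consecutive positive integers is no perfect power (Erdős and Selfridge
for `k ≤ 5`): Frey curves for a prime exponent `p ≥ 5`, Rigge for squares, Euler's cubic equations
for cubes. Frey curves also settle three consecutive cubes, square pyramidal numbers and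
`2 ^ a q ^ b ± 1` when the power of two is large.
-/

set_option autoImplicit false

noncomputable section

namespace FA.PowerProducts

theorem pow_factor {p : ℕ} (hp : Odd p) {a b c : ℤ} (hab : IsCoprime a b) (h : a * b = c ^ p) :
    ∃ w : ℤ, a = w ^ p := by
  obtain ⟨d, hd⟩ := exists_associated_pow_of_mul_eq_pow' hab h
  rcases Int.associated_iff.1 hd with e | e
  · exact ⟨d, e.symm⟩
  · exact ⟨-d, by rw [hp.neg_pow, e, neg_neg]⟩

theorem coprime_of_comb {a b : ℤ} (r s : ℤ) (h : r * a + s * b = 1) : IsCoprime a b := ⟨r, s, h⟩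

theorem odd_coprime_two {a : ℤ} (h : a % 2 = 1) : IsCoprime a 2 :=
  ⟨1, -(a / 2), by omega⟩

theorem coprime_three_of_emod {a : ℤ} (h : a % 3 ≠ 0) : IsCoprime a 3 :=
  ((Int.prime_three.coprime_iff_not_dvd).2 (by omega)).symm

/-- `w ³ + 1 = 2 s ³` and `w ³ + 1 = 4 t ³`. -/
theorem euler_cubes {w s : ℤ} {k : ℕ} (hk : k = 1 ∨ k = 2) (h : w ^ 3 + 1 = 2 ^ k * s ^ 3) :
    s = 0 ∨ k = 1 ∧ w = 1 := by
  rcases hk with rfl | rfl
  · rcases FA.Sylvester.no_solution (p := 2) (k := 1) (hp := ⟨Nat.prime_two⟩) (by norm_num)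
      one_ne_zero (by norm_num) _ w 1 s rfl isCoprime_one_right (by linear_combination h) with
      e | ⟨-, e⟩
    · exact Or.inl e
    · exact Or.inr ⟨rfl, e⟩
  · rcases FA.Sylvester.no_solution (p := 2) (k := 2) (hp := ⟨Nat.prime_two⟩) (by norm_num)
      two_ne_zero (by norm_num) _ w 1 s rfl isCoprime_one_right (by linear_combination h) with
      e | ⟨e, -⟩
    · exact Or.inl e
    · norm_num at e

/-- The residue `0` modulo `6`: `x (x + 2) (x + 3) (x + 4)` is no nonzero cube. -/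
theorem false_of_cube {x c : ℤ} (h6 : x % 6 = 0) (hc : c ≠ 0)
    (h : x * (x + 2) * (x + 3) * (x + 4) = c ^ 3) : False := by
  have h3 : Odd 3 := by decide
  have hx : x ≠ 0 ∧ x + 2 ≠ 0 ∧ x + 4 ≠ 0 := by
    refine ⟨fun e => ?_, fun e => ?_, fun e => ?_⟩ <;>
      exact pow_ne_zero 3 hc (by rw [← h, e]; ring)
  have even_root : ∀ {e K : ℤ}, 2 * K = e ^ 3 → ∃ e', e = 2 * e' := fun {e K} he =>
    Int.prime_two.dvd_of_dvd_pow (n := 3) ⟨K, he.symm⟩
  rcases show x % 12 = 6 ∨ x % 24 = 0 ∨ x % 24 = 12 by omega with hm | hm | hm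
  · obtain ⟨j, rfl⟩ : ∃ j, x = 12 * j + 6 := ⟨x / 12, by omega⟩
    obtain ⟨c, rfl⟩ := even_root (e := c) (K := 36 * ((2 * j + 1) * (6 * j + 4) * (4 * j + 3) *
      (6 * j + 5))) (by linear_combination h)
    have hRS : IsCoprime (6 * j + 4) (6 * j + 5) := coprime_of_comb (-1) 1 (by ring)
    obtain ⟨w, hw⟩ := pow_factor h3 (a := 6 * j + 4) (c := c)
      (b := 9 * ((2 * j + 1) * (4 * j + 3) * (6 * j + 5))) (by
        refine IsCoprime.mul_right ?_ ((IsCoprime.mul_right (coprime_of_comb 1 (-3) (by ring))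
          (coprime_of_comb (-2) 3 (by ring))).mul_right hRS)
        rw [show (9 : ℤ) = 3 ^ 2 by norm_num]
        exact (coprime_three_of_emod (by omega)).pow_right)
      (mul_left_cancel₀ (show (8 : ℤ) ≠ 0 by norm_num) (by linear_combination h))
    obtain ⟨s, hs⟩ := pow_factor h3 (a := 6 * j + 5) (c := c)
      (b := 9 * ((2 * j + 1) * (4 * j + 3) * (6 * j + 4))) (by
        refine IsCoprime.mul_right ?_ ((IsCoprime.mul_right ?_ ?_).mul_right hRS.symm)
        · rw [show (9 : ℤ) = 3 ^ 2 by norm_num]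
          exact (coprime_three_of_emod (by omega)).pow_right
        · have h2 : IsCoprime (2 * j + 1) 2 := odd_coprime_two (by omega)
          have := h2.symm.add_mul_right_left 3
          rwa [show 2 + 3 * (2 * j + 1) = 6 * j + 5 by ring] at this
        · exact coprime_of_comb 2 (-3) (by ring))
      (mul_left_cancel₀ (show (8 : ℤ) ≠ 0 by norm_num) (by linear_combination h))
    have e : s ^ 3 = w ^ 3 + 1 := by rw [← hw, ← hs]; ring
    have hs0 : s ≠ 0 := fun e0 => by rw [e0] at hs; omega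
    have hw0 : w ≠ 0 := fun e0 => by rw [e0] at hw; omega
    exact fermatLastTheoremFor_iff_int.1 fermatLastTheoremThree w 1 s hw0 one_ne_zero hs0
      (by linear_combination -e)
  · obtain ⟨j, rfl⟩ : ∃ j, x = 24 * j := ⟨x / 24, by omega⟩
    have hPR : IsCoprime (6 * j + 1) (12 * j + 1) := coprime_of_comb 2 (-1) (by ring)
    obtain ⟨s, hs⟩ := pow_factor h3 (a := 6 * j + 1) (c := c)
      (b := 576 * (j * (8 * j + 1) * (12 * j + 1))) (by
        refine IsCoprime.mul_right ?_ (((coprime_of_comb 1 (-6) (by ring)).mul_right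
          (coprime_of_comb 4 (-3) (by ring))).mul_right hPR)
        rw [show (576 : ℤ) = 6 ^ 2 * 2 ^ 4 by norm_num]
        exact (coprime_of_comb 1 (-j) (by ring)).pow_right.mul_right
          (odd_coprime_two (by omega)).pow_right)
      (by linear_combination h)
    obtain ⟨w, hw⟩ := pow_factor h3 (a := 12 * j + 1) (c := c)
      (b := 576 * (j * (8 * j + 1) * (6 * j + 1))) (by
        refine IsCoprime.mul_right ?_ (((coprime_of_comb 1 (-12) (by ring)).mul_right
          (coprime_of_comb (-2) 3 (by ring))).mul_right hPR.symm)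
        rw [show (576 : ℤ) = 6 ^ 2 * 2 ^ 4 by norm_num]
        exact (coprime_of_comb 1 (-(2 * j)) (by ring)).pow_right.mul_right
          (odd_coprime_two (by omega)).pow_right)
      (by linear_combination h)
    rcases euler_cubes (w := w) (s := s) (Or.inl rfl)
      (by rw [← hw, ← hs]; ring) with e | ⟨-, e⟩
    · rw [e] at hs; omega
    · rw [e] at hw; omega
  · obtain ⟨j, rfl⟩ : ∃ j, x = 24 * j + 12 := ⟨x / 24, by omega⟩
    obtain ⟨c, rfl⟩ := even_root (e := c) (K := 288 * ((2 * j + 1) * (12 * j + 7) * (8 * j + 5) *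
      (3 * j + 2))) (by linear_combination h)
    obtain ⟨c, rfl⟩ := even_root (e := c) (K := 36 * ((2 * j + 1) * (12 * j + 7) * (8 * j + 5) *
      (3 * j + 2))) (mul_left_cancel₀ (show (8 : ℤ) ≠ 0 by norm_num) (by linear_combination h))
    have hPR : IsCoprime (3 * j + 2) (12 * j + 7) := coprime_of_comb 4 (-1) (by ring)
    obtain ⟨t, ht⟩ := pow_factor h3 (a := 3 * j + 2) (c := c)
      (b := 9 * ((2 * j + 1) * (8 * j + 5) * (12 * j + 7))) (by
        refine IsCoprime.mul_right ?_ (((coprime_of_comb 2 (-3) (by ring)).mul_right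
          (coprime_of_comb 8 (-3) (by ring))).mul_right hPR)
        rw [show (9 : ℤ) = 3 ^ 2 by norm_num]
        exact (coprime_three_of_emod (by omega)).pow_right)
      (mul_left_cancel₀ (show (64 : ℤ) ≠ 0 by norm_num) (by linear_combination h))
    obtain ⟨w, hw⟩ := pow_factor h3 (a := 12 * j + 7) (c := c)
      (b := 9 * ((2 * j + 1) * (8 * j + 5) * (3 * j + 2))) (by
        refine IsCoprime.mul_right ?_ (((coprime_of_comb 1 (-6) (by ring)).mul_right
          (coprime_of_comb (-2) 3 (by ring))).mul_right hPR.symm)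
        rw [show (9 : ℤ) = 3 ^ 2 by norm_num]
        exact (coprime_three_of_emod (by omega)).pow_right)
      (mul_left_cancel₀ (show (64 : ℤ) ≠ 0 by norm_num) (by linear_combination h))
    rcases euler_cubes (w := w) (s := t) (Or.inr rfl)
      (by rw [← hw, ← ht]; ring) with e | ⟨e, -⟩
    · rw [e] at ht; omega
    · norm_num at e

/-- Five consecutive integers never multiply to a nonzero cube. -/
theorem five_ne_cube {x c : ℕ} (hx : 0 < x) :
    x * (x + 1) * (x + 2) * (x + 3) * (x + 4) ≠ c ^ 3 := fun h => by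
  have hc : c ≠ 0 := fun e => by rw [e] at h; simp at h; omega
  have dvd_diff : ∀ {p u v : ℕ}, p ∣ u → p ∣ v → u ≤ v → p ∣ v - u :=
    fun hu hv _ => Nat.dvd_sub hv hu
  -- a term prime to `6` has nothing in common with the others
  have cop : ∀ i j, i ≤ 4 → j ≤ 4 → i ≠ j → (x + i) % 2 = 1 → (x + i) % 3 ≠ 0 →
      Nat.Coprime (x + i) (x + j) := fun i j hi hj hij h2 h3 => by
    refine Nat.coprime_of_dvd fun p hp hpi hpj => ?_
    have h4 : p ≤ 4 := by
      rcases Nat.lt_or_ge i j with e | e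
      · exact (Nat.le_of_dvd (by omega) (dvd_diff hpi hpj (by omega))).trans (by omega)
      · exact (Nat.le_of_dvd (by omega) (dvd_diff hpj hpi (by omega))).trans (by omega)
    have := hp.two_le
    interval_cases p
    · omega
    · omega
    · norm_num at hp
  have split : ∀ {a K : ℕ}, a.Coprime K → a * K = c ^ 3 → ∃ d, K = d ^ 3 := fun {a K} ha e => by
    obtain ⟨d, hd⟩ := exists_associated_pow_of_mul_eq_pow
      (Nat.isUnit_iff.2 ha.symm) (show K * a = c ^ 3 by rw [mul_comm]; exact e)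
    exact ⟨d, (associated_iff_eq.1 hd).symm⟩
  have right_end : (x + 4) % 2 = 1 → (x + 4) % 3 ≠ 0 → False := fun h2 h3 => by
    obtain ⟨d, hd⟩ := split (a := x + 4) (K := (x + 0) * (x + 1) * (x + 2) * (x + 3))
      (Nat.Coprime.mul_right (Nat.Coprime.mul_right (Nat.Coprime.mul_right
        (cop 4 0 le_rfl (by omega) (by omega) h2 h3) (cop 4 1 le_rfl (by omega) (by omega) h2 h3))
        (cop 4 2 le_rfl (by omega) (by omega) h2 h3)) (cop 4 3 le_rfl (by omega) (by omega) h2 h3))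
      (by linarith)
    rw [add_zero] at hd
    exact FA.Summary.four_consecutive_not_perfect_power (n := 3) (by norm_num) hx hd
  have left_end : (x + 0) % 2 = 1 → (x + 0) % 3 ≠ 0 → False := fun h2 h3 => by
    obtain ⟨d, hd⟩ := split (a := x + 0) (K := (x + 1) * (x + 2) * (x + 3) * (x + 4))
      (Nat.Coprime.mul_right (Nat.Coprime.mul_right (Nat.Coprime.mul_right
        (cop 0 1 (by omega) (by omega) (by omega) h2 h3)
        (cop 0 2 (by omega) (by omega) (by omega) h2 h3))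
        (cop 0 3 (by omega) (by omega) (by omega) h2 h3))
        (cop 0 4 (by omega) le_rfl (by omega) h2 h3))
      (by linarith)
    exact FA.Summary.four_consecutive_not_perfect_power (n := 3) (x := x + 1) (by norm_num)
      (by omega) (by rw [← hd])
  rcases show x % 6 = 0 ∨ x % 6 = 1 ∨ x % 6 = 2 ∨ x % 6 = 3 ∨ x % 6 = 4 ∨ x % 6 = 5 by omega with
    h6 | h6 | h6 | h6 | h6 | h6
  · obtain ⟨d, hd⟩ := split (a := x + 1) (K := (x + 0) * (x + 2) * (x + 3) * (x + 4))
      (Nat.Coprime.mul_right (Nat.Coprime.mul_right (Nat.Coprime.mul_right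
        (cop 1 0 (by omega) (by omega) (by omega) (by omega) (by omega))
        (cop 1 2 (by omega) (by omega) (by omega) (by omega) (by omega)))
        (cop 1 3 (by omega) (by omega) (by omega) (by omega) (by omega)))
        (cop 1 4 (by omega) le_rfl (by omega) (by omega) (by omega))) (by linarith)
    rw [add_zero] at hd
    refine false_of_cube (x := (x : ℤ)) (c := (d : ℤ)) (by omega) (fun e => ?_)
      (by exact_mod_cast hd)
    rw [Int.natCast_eq_zero.1 e] at hd
    simp at hd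
    omega
  · exact left_end (by omega) (by omega)
  · obtain ⟨d, hd⟩ := split (a := x + 3) (K := (x + 0) * (x + 1) * (x + 2) * (x + 4))
      (Nat.Coprime.mul_right (Nat.Coprime.mul_right (Nat.Coprime.mul_right
        (cop 3 0 (by omega) (by omega) (by omega) (by omega) (by omega))
        (cop 3 1 (by omega) (by omega) (by omega) (by omega) (by omega)))
        (cop 3 2 (by omega) (by omega) (by omega) (by omega) (by omega)))
        (cop 3 4 (by omega) le_rfl (by omega) (by omega) (by omega))) (by linarith)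
    rw [add_zero] at hd
    refine false_of_cube (x := -(x : ℤ) - 4) (c := (d : ℤ)) (by omega) (fun e => ?_) ?_
    · rw [Int.natCast_eq_zero.1 e] at hd
      simp at hd
      omega
    · have : (x : ℤ) * (x + 1) * (x + 2) * (x + 4) = (d : ℤ) ^ 3 := by exact_mod_cast hd
      linear_combination this
  · exact right_end (by omega) (by omega)
  · obtain ⟨d, hd⟩ := split (a := (x + 1) * (x + 3)) (K := (x + 0) * (x + 2) * (x + 4))
      (Nat.Coprime.mul_left
        (Nat.Coprime.mul_right (Nat.Coprime.mul_right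
          (cop 1 0 (by omega) (by omega) (by omega) (by omega) (by omega))
          (cop 1 2 (by omega) (by omega) (by omega) (by omega) (by omega)))
          (cop 1 4 (by omega) le_rfl (by omega) (by omega) (by omega)))
        (Nat.Coprime.mul_right (Nat.Coprime.mul_right
          (cop 3 0 (by omega) (by omega) (by omega) (by omega) (by omega))
          (cop 3 2 (by omega) (by omega) (by omega) (by omega) (by omega)))
          (cop 3 4 (by omega) le_rfl (by omega) (by omega) (by omega)))) (by linarith)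
    rw [add_zero] at hd
    obtain ⟨m, rfl⟩ : ∃ m, x = 2 * m := ⟨x / 2, by omega⟩
    obtain ⟨d', rfl⟩ : 2 ∣ d :=
      Nat.prime_two.dvd_of_dvd_pow (n := 3) (hd ▸ ((dvd_mul_right 2 m).mul_right _).mul_right _)
    refine FA.Summary.three_consecutive_ne_pow (n := 3) (by norm_num) (x := (m : ℤ))
      (y := (d' : ℤ)) (fun e => ?_) ?_
    · rw [Int.natCast_eq_zero.1 e] at hd
      simp at hd
      omega
    · have : m * (m + 1) * (m + 2) = d' ^ 3 := by linarith
      exact_mod_cast this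
  · exact left_end (by omega) (by omega)

/-- `A X ^ p ± 1 ≠ C v ^ p` for `16 ∣ A X ^ p` and the primes of `A C` among `2`, `q`. -/
theorem ternary {p q : ℕ} (hp : p.Prime) (h5 : 5 ≤ p) (hq : q = 3 ∨ q = 5) {A C ε X v : ℤ}
    (hA : ∀ r : ℕ, r.Prime → (r : ℤ) ∣ A → r = 2 ∨ r = q) (hA0 : A ≠ 0)
    (hC : ∀ r : ℕ, r.Prime → (r : ℤ) ∣ C → r = 2 ∨ r = q) (hC0 : C ≠ 0) (hX : X ≠ 0) (hv : v ≠ 0)
    (hε : ε = 1 ∨ ε = -1) (h16 : (16 : ℤ) ∣ A * X ^ p) : A * X ^ p + ε ≠ C * v ^ p := fun h => by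
  have hε0 : ε ≠ 0 := by rcases hε with rfl | rfl <;> norm_num
  refine FA.Summary.twoPrimeFermat_three_five hp h5 dvd_rfl hq (A := -C) (B := ε) (C := A)
    (x := v) (y := 1) (z := X) (by simp [hA0, hC0, hε0]) (by simp [hX, hv]) (fun r hr hd => ?_)
    ?_ h16 (by linear_combination h)
  · rcases (Nat.prime_iff_prime_int.1 hr).dvd_or_dvd hd with hd | hd
    · rcases (Nat.prime_iff_prime_int.1 hr).dvd_or_dvd hd with hd | hd
      · exact hC r hr (dvd_neg.1 hd)
      · exact absurd (Int.natCast_dvd_natCast.1 (show (r : ℤ) ∣ ((1 : ℕ) : ℤ) by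
          rcases hε with rfl | rfl <;> simpa using hd)) hr.not_dvd_one
    · exact hA r hr hd
  · rw [one_pow, mul_one]
    rcases hε with rfl | rfl
    · exact isCoprime_one_right
    · exact isCoprime_one_right.neg_right

theorem support_two_pow_mul {q : ℕ} (hq : q = 3 ∨ q = 5) (e f r : ℕ) (hr : r.Prime)
    (hd : (r : ℤ) ∣ 2 ^ e * (q : ℤ) ^ f) : r = 2 ∨ r = q := by
  have hq' : q.Prime := by rcases hq with rfl | rfl <;> norm_num
  have hd' : r ∣ 2 ^ e * q ^ f := by exact_mod_cast hd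
  rcases hr.dvd_mul.1 hd' with h | h
  · exact Or.inl ((Nat.prime_dvd_prime_iff_eq hr Nat.prime_two).1 (hr.dvd_of_dvd_pow h))
  · exact Or.inr ((Nat.prime_dvd_prime_iff_eq hr hq').1 (hr.dvd_of_dvd_pow h))

/-- Three consecutive cubes. -/
theorem cubes_prime {p : ℕ} (hp : p.Prime) (h5 : 5 ≤ p) {x y : ℤ} (hxe : Even x) (hx : x ≠ 0) :
    3 * x * (x ^ 2 + 2) ≠ y ^ p := fun h => by
  have hodd := hp.odd_of_ne_two (by omega)
  obtain ⟨X, rfl⟩ := hxe.two_dvd
  have hX : X ≠ 0 := right_ne_zero_of_mul hx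
  have hR0 : 2 * X ^ 2 + 1 ≠ 0 := by positivity
  have hRX : IsCoprime (2 * X ^ 2 + 1) X := ⟨1, -(2 * X), by ring⟩
  have hR2 : IsCoprime (2 * X ^ 2 + 1) 2 := ⟨1, -(X ^ 2), by ring⟩
  have h16 : ∀ (e f : ℕ) (u : ℤ), 4 ≤ e → (16 : ℤ) ∣ 2 ^ e * 3 ^ f * u ^ p := fun e f u he =>
    ((show (16 : ℤ) ∣ 2 ^ e from pow_dvd_pow 2 he).mul_right _).mul_right _
  by_cases h3 : (3 : ℤ) ∣ 2 * X ^ 2 + 1
  · have hX3 : IsCoprime X 3 := hRX.symm.of_isCoprime_of_dvd_right h3
    obtain ⟨u, hu⟩ := pow_factor hodd (a := 4 * X) (b := 3 * (2 * X ^ 2 + 1)) (c := y) (by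
      refine IsCoprime.mul_left ?_ (hX3.mul_right hRX.symm)
      rw [show (4 : ℤ) = 2 ^ 2 by norm_num]
      exact ((coprime_of_comb (-1) 1 (by ring) : IsCoprime (2 : ℤ) 3).mul_right hR2.symm).pow_left)
      (by linear_combination h)
    obtain ⟨v, hv⟩ := pow_factor hodd (a := 3 * (2 * X ^ 2 + 1)) (b := 4 * X) (c := y) (by
      refine (IsCoprime.mul_left ?_ (hX3.mul_right hRX.symm)).symm
      rw [show (4 : ℤ) = 2 ^ 2 by norm_num]
      exact ((coprime_of_comb (-1) 1 (by ring) : IsCoprime (2 : ℤ) 3).mul_right hR2.symm).pow_left)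
      (by linear_combination h)
    obtain ⟨u', rfl⟩ : (2 : ℤ) ∣ u :=
      Int.prime_two.dvd_of_dvd_pow (n := p) ⟨2 * X, by rw [← hu]; ring⟩
    obtain ⟨v', rfl⟩ : (3 : ℤ) ∣ v :=
      Int.prime_three.dvd_of_dvd_pow (n := p) ⟨2 * X ^ 2 + 1, hv.symm⟩
    obtain ⟨d, rfl⟩ : ∃ d, p = d + 5 := ⟨p - 5, by omega⟩
    have eX : X = 2 ^ (d + 3) * u' ^ (d + 5) := by
      refine mul_left_cancel₀ (show (4 : ℤ) ≠ 0 by norm_num) ?_
      rw [hu, mul_pow]; ring
    have eR : 2 * X ^ 2 + 1 = 3 ^ (d + 4) * v' ^ (d + 5) := by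
      refine mul_left_cancel₀ (show (3 : ℤ) ≠ 0 by norm_num) ?_
      rw [hv, mul_pow]; ring
    refine ternary hp h5 (q := 3) (Or.inl rfl) (A := 2 ^ (2 * d + 7) * 3 ^ 0)
      (C := 2 ^ 0 * 3 ^ (d + 4))
      (ε := 1) (X := u' ^ 2) (v := v') (fun r hr hd => support_two_pow_mul (Or.inl rfl) _ _ r hr hd)
      (by positivity) (fun r hr hd => support_two_pow_mul (Or.inl rfl) _ _ r hr hd) (by positivity)
      (pow_ne_zero 2 fun e => by rw [e, zero_pow (by omega), mul_zero] at eX; exact hX eX)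
      (fun e => by rw [e, zero_pow (by omega), mul_zero] at eR; exact hR0 eR) (Or.inl rfl)
      (h16 _ _ _ (by omega)) ?_
    rw [eX] at eR
    linear_combination eR
  · have hcop : IsCoprime (12 * X) (2 * X ^ 2 + 1) := by
      refine IsCoprime.mul_left ?_ hRX.symm
      rw [show (12 : ℤ) = 2 ^ 2 * 3 by norm_num]
      exact hR2.symm.pow_left.mul_left ((Int.prime_three.coprime_iff_not_dvd).2 h3)
    obtain ⟨u, hu⟩ := pow_factor hodd hcop (c := y) (by linear_combination h)
    obtain ⟨v, hv⟩ := pow_factor hodd hcop.symm (c := y) (by linear_combination h)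
    obtain ⟨u1, rfl⟩ : (2 : ℤ) ∣ u :=
      Int.prime_two.dvd_of_dvd_pow (n := p) ⟨6 * X, by rw [← hu]; ring⟩
    obtain ⟨u', rfl⟩ : (3 : ℤ) ∣ u1 := by
      have : (3 : ℤ) ∣ 2 * u1 :=
        Int.prime_three.dvd_of_dvd_pow (n := p) ⟨4 * X, by rw [← hu]; ring⟩
      omega
    obtain ⟨d, rfl⟩ : ∃ d, p = d + 5 := ⟨p - 5, by omega⟩
    have eX : X = 2 ^ (d + 3) * 3 ^ (d + 4) * u' ^ (d + 5) := by
      refine mul_left_cancel₀ (show (12 : ℤ) ≠ 0 by norm_num) ?_
      rw [hu, mul_pow, mul_pow]; ring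
    refine ternary hp h5 (q := 3) (Or.inl rfl) (A := 2 ^ (2 * d + 7) * 3 ^ (2 * d + 8))
      (C := 2 ^ 0 * 3 ^ 0) (ε := 1) (X := u' ^ 2) (v := v)
      (fun r hr hd => support_two_pow_mul (Or.inl rfl) _ _ r hr hd) (by positivity)
      (fun r hr hd => support_two_pow_mul (Or.inl rfl) _ _ r hr hd) (by positivity)
      (pow_ne_zero 2 fun e => by rw [e, zero_pow (by omega), mul_zero] at eX; exact hX eX)
      (fun e => by rw [e, zero_pow (by omega)] at hv; exact hR0 hv) (Or.inl rfl)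
      (h16 _ _ _ (by omega)) ?_
    rw [eX] at hv
    linear_combination hv

/-- Square pyramidal numbers, the even variable first. -/
theorem pyramidal_even {p : ℕ} (hp : p.Prime) (h5 : 5 ≤ p) {X y : ℤ} (hy : Even y) (hy0 : y ≠ 0) :
    X * (2 * X + 1) * (4 * X + 1) ≠ 3 * y ^ p := fun h => by
  have hodd := hp.odd_of_ne_two (by omega)
  have h12 : IsCoprime X (2 * X + 1) := ⟨-2, 1, by ring⟩
  have h13 : IsCoprime X (4 * X + 1) := ⟨-4, 1, by ring⟩
  have h23 : IsCoprime (2 * X + 1) (4 * X + 1) := ⟨2, -1, by ring⟩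
  have hyp : y ^ p ≠ 0 := pow_ne_zero p hy0
  have hXe : Even X := by
    have : Even (X * (2 * X + 1) * (4 * X + 1)) :=
      h ▸ ((Int.even_pow.2 ⟨hy, hp.ne_zero⟩).mul_left 3)
    by_contra hX
    rw [Int.not_even_iff_odd] at hX
    exact Int.not_even_iff_odd.2 ((hX.mul ⟨X, rfl⟩).mul ⟨2 * X, by ring⟩) this
  have h16 : ∀ {u : ℤ} (c : ℤ), Even u → (16 : ℤ) ∣ c * u ^ p := fun c hu =>
    ((show (16 : ℤ) ∣ 2 ^ p from pow_dvd_pow 2 (show 4 ≤ p by omega)).trans
      (pow_dvd_pow_of_dvd hu.two_dvd p)).mul_left c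
  have sup := fun (e f : ℕ) (r : ℕ) (hr : r.Prime) hd =>
    support_two_pow_mul (q := 3) (Or.inl rfl) e f r hr hd
  by_cases hT : (3 : ℤ) ∣ 2 * X + 1
  · obtain ⟨B, hB⟩ := hT
    have e : X * (4 * X + 1) * B = y ^ p :=
      mul_left_cancel₀ (show (3 : ℤ) ≠ 0 by norm_num)
        (by linear_combination h - X * (4 * X + 1) * hB)
    have hcXB : IsCoprime X B := h12.of_isCoprime_of_dvd_right ⟨3, by linear_combination hB⟩
    have hc4B : IsCoprime (4 * X + 1) B :=
      h23.symm.of_isCoprime_of_dvd_right ⟨3, by linear_combination hB⟩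
    obtain ⟨u, hu⟩ := pow_factor hodd (h13.mul_right hcXB) (c := y) (by linear_combination e)
    obtain ⟨v, hv⟩ := pow_factor hodd (h13.symm.mul_right hc4B) (c := y) (by linear_combination e)
    have hu0 : u ≠ 0 := fun e0 => hyp (by rw [← e, hu, e0, zero_pow hp.ne_zero]; ring)
    have hv0 : v ≠ 0 := fun e0 => hyp (by rw [← e, hv, e0, zero_pow hp.ne_zero]; ring)
    have hue : Even u := (Int.even_pow.1 (hu ▸ hXe)).1
    refine ternary hp h5 (q := 3) (Or.inl rfl) (A := 2 ^ 2 * 3 ^ 0) (C := 2 ^ 0 * 3 ^ 0) (ε := 1)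
      (sup _ _) (by norm_num) (sup _ _) (by norm_num) hu0 hv0 (Or.inl rfl) (h16 _ hue) ?_
    rw [← hu, ← hv]; ring
  · have hB3 : IsCoprime (2 * X + 1) 3 := ((Int.prime_three.coprime_iff_not_dvd).2 hT).symm
    obtain ⟨i, X', hi, e⟩ : ∃ (i : ℕ) (X' : ℤ), X = 3 ^ i * X' ∧
        ∃ K : ℤ, IsCoprime X' K ∧ X' * K = y ^ p := by
      by_cases hX3 : (3 : ℤ) ∣ X
      · obtain ⟨X', hX'⟩ := hX3
        refine ⟨1, X', by rw [pow_one, hX'], (2 * X + 1) * (4 * X + 1),
          (h12.mul_right h13).of_isCoprime_of_dvd_left ⟨3, by linear_combination hX'⟩, ?_⟩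
        exact mul_left_cancel₀ (show (3 : ℤ) ≠ 0 by norm_num)
          (by linear_combination h - (2 * X + 1) * (4 * X + 1) * hX')
      · obtain ⟨A, hA⟩ : (3 : ℤ) ∣ 4 * X + 1 := by
          rcases show X % 3 = 0 ∨ X % 3 = 1 ∨ X % 3 = 2 by omega with e | e | e <;> omega
        refine ⟨0, X, by rw [pow_zero, one_mul], (2 * X + 1) * A,
          h12.mul_right (h13.of_isCoprime_of_dvd_right ⟨3, by linear_combination hA⟩), ?_⟩
        exact mul_left_cancel₀ (show (3 : ℤ) ≠ 0 by norm_num)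
          (by linear_combination h - X * (2 * X + 1) * hA)
    obtain ⟨K, hK, eK⟩ := e
    obtain ⟨u, hu⟩ := pow_factor hodd hK eK
    obtain ⟨v, hv⟩ := pow_factor hodd (a := 2 * X + 1) (b := 3 ^ (p - 1) * (X * (4 * X + 1)))
      (c := 3 * y) (hB3.pow_right.mul_right (h12.symm.mul_right h23)) (by
        rw [mul_pow, show (3 : ℤ) ^ p = 3 ^ (p - 1) * 3 by rw [← pow_succ]; congr 1; omega]
        linear_combination (3 : ℤ) ^ (p - 1) * h)
    have hu0 : u ≠ 0 := fun e0 => hyp (by rw [← eK, hu, e0, zero_pow hp.ne_zero, zero_mul])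
    have hv0 : v ≠ 0 := fun e0 => by
      rw [e0, zero_pow hp.ne_zero] at hv; omega
    have hue : Even u := by
      have h' : Even (3 ^ i * X') := hi ▸ hXe
      rcases Int.even_mul.1 h' with he | he
      · exact absurd (Int.even_pow.1 he).1 (by decide)
      · exact (Int.even_pow.1 (hu ▸ he)).1
    refine ternary hp h5 (q := 3) (Or.inl rfl) (A := 2 ^ 1 * 3 ^ i) (C := 2 ^ 0 * 3 ^ 0) (ε := 1)
      (sup _ _) (by positivity) (sup _ _) (by norm_num) hu0 hv0 (Or.inl rfl) (h16 _ hue) ?_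
    rw [← hu, ← hv, hi]; ring

end FA.PowerProducts

namespace FA.Summary

open Finset

/-- **Five consecutive integers**: their product is no perfect power, every exponent `n ≥ 2`. -/
theorem five_consecutive_not_perfect_power {n x y : ℕ} (hn : 2 ≤ n) (hx : 0 < x) :
    x * (x + 1) * (x + 2) * (x + 3) * (x + 4) ≠ y ^ n := fun h => by
  obtain ⟨p, hp, m, rfl⟩ : ∃ p, p.Prime ∧ p ∣ n :=
    ⟨n.minFac, Nat.minFac_prime (by omega), n.minFac_dvd⟩
  rcases show p = 2 ∨ p = 3 ∨ 5 ≤ p by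
    have := hp.two_le
    rcases eq_or_ne p 4 with rfl | h4
    · norm_num at hp
    · omega with rfl | rfl | h5
  · refine erdos_rigge_prod hx (show 2 ≤ 5 by norm_num) ⟨y ^ m, ?_⟩
    rw [← sq, ← pow_mul, mul_comm m 2, ← h]
    simp [prod_range_succ]
  · exact FA.PowerProducts.five_ne_cube hx (c := y ^ m) (by rw [← pow_mul, mul_comm m 3, h])
  · have hy : (y : ℤ) ≠ 0 := Int.natCast_ne_zero.2 fun e => by
      rw [e, zero_pow (by omega)] at h
      simp at h
      omega
    have h' : (x : ℤ) * (x + 1) * (x + 2) * (x + 3) * (x + 4) = (y : ℤ) ^ (p * m) := by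
      exact_mod_cast h
    exact progression_five_ne_pow hp h5 (dvd_mul_right p m) (x := (x : ℤ)) (d := 1) one_ne_zero
      (fun r hr hd => absurd (Int.natCast_dvd_natCast.1 (show (r : ℤ) ∣ ((1 : ℕ) : ℤ) from hd))
        hr.not_dvd_one) (Or.inl odd_one) isCoprime_one_right hy (by linear_combination h')

/-- **Erdős–Selfridge for `k ≤ 5`**: no product of `2`, `3`, `4` or `5` consecutive positive
integers is a perfect power. -/
theorem erdos_selfridge_le_five {n a k y : ℕ} (hn : 2 ≤ n) (ha : 0 < a) (hk : 2 ≤ k) (hk5 : k ≤ 5) :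
    ∏ i ∈ range k, (a + i) ≠ y ^ n := fun h => by
  interval_cases k <;> simp [prod_range_succ] at h
  · have hcop : Nat.Coprime a (a + 1) := Nat.coprime_self_add_right.2 (Nat.coprime_one_right a)
    obtain ⟨u, hu⟩ := exists_associated_pow_of_mul_eq_pow (Nat.isUnit_iff.2 hcop) h
    obtain ⟨v, hv⟩ := exists_associated_pow_of_mul_eq_pow (Nat.isUnit_iff.2 hcop.symm)
      (by rw [mul_comm]; exact h)
    rw [associated_iff_eq] at hu hv
    have huv : u < v := lt_of_pow_lt_pow_left' n (by omega)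
    have h1 := Nat.pow_le_pow_left (show u + 1 ≤ v from huv) n
    have h2 : u ^ n + 1 < (u + 1) ^ n := by
      have hu0 : 0 < u := Nat.pos_of_ne_zero fun e => by rw [e, zero_pow (by omega)] at hu; omega
      obtain ⟨j, rfl⟩ : ∃ j, n = j + 2 := ⟨n - 2, by omega⟩
      have := FA.Erdos.pow_add_mul_le u (j + 1)
      have : 1 < (j + 1 + 1) * u ^ (j + 1) := by
        have := Nat.one_le_pow (j + 1) u hu0
        nlinarith
      rw [show j + 2 = j + 1 + 1 from rfl]
      omega
    omega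
  · refine three_consecutive_ne_pow hn (x := (a : ℤ)) (y := (y : ℤ)) ?_ (by exact_mod_cast h)
    intro e
    rw [Int.natCast_eq_zero.1 e, zero_pow (by omega)] at h
    simp at h
    omega
  · exact four_consecutive_not_perfect_power hn ha h
  · exact five_consecutive_not_perfect_power hn ha h

/-- **Three consecutive cubes**: `(x - 1) ³ + x ³ + (x + 1) ³` with `x` even is no `n`-th power,
for `n` with a prime factor `p ≥ 5`. -/
theorem three_cubes_sum_ne_pow {n p : ℕ} (hp : p.Prime) (h5 : 5 ≤ p) (hpn : p ∣ n) {x : ℤ}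
    (hxe : Even x) (hx : x ≠ 0) (y : ℤ) : (x - 1) ^ 3 + x ^ 3 + (x + 1) ^ 3 ≠ y ^ n := by
  obtain ⟨m, rfl⟩ := hpn
  rw [mul_comm p m, pow_mul, show (x - 1) ^ 3 + x ^ 3 + (x + 1) ^ 3 = 3 * x * (x ^ 2 + 2) by ring]
  exact FA.PowerProducts.cubes_prime hp h5 hxe hx

/-- **Square pyramidal numbers**: `1² + ⋯ + x² = x (x + 1) (2 x + 1) / 6` is no `n`-th power of
an even number, for `n` with a prime factor `p ≥ 5`. -/
theorem pyramidal_ne_even_pow {n p : ℕ} (hp : p.Prime) (h5 : 5 ≤ p) (hpn : p ∣ n) (hn : n ≠ 0)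
    {x y : ℤ} (hy : Even y) (hy0 : y ≠ 0) : x * (x + 1) * (2 * x + 1) ≠ 6 * y ^ n := fun h => by
  obtain ⟨m, rfl⟩ := hpn
  have hm : m ≠ 0 := right_ne_zero_of_mul hn
  rw [mul_comm p m, pow_mul] at h
  have hye : Even (y ^ m) := Int.even_pow.2 ⟨hy, hm⟩
  rcases Int.even_or_odd x with he | ho
  · obtain ⟨X, rfl⟩ := he.two_dvd
    exact FA.PowerProducts.pyramidal_even hp h5 (X := X) hye (pow_ne_zero m hy0) (by linarith)
  · obtain ⟨X, hX⟩ := (ho.add_odd odd_one).neg.two_dvd
    obtain rfl : x = -2 * X - 1 := by linarith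
    refine FA.PowerProducts.pyramidal_even hp h5 (X := X) hye.neg
      (neg_ne_zero.2 (pow_ne_zero m hy0)) ?_
    rw [(hp.odd_of_ne_two (by omega)).neg_pow]
    linarith

/-- **`2 ^ a q ^ b ± 1`**, `q = 3` or `5` and `a ≥ 4`, is no `n`-th power for `n` with a prime
factor `p ≥ 5`. -/
theorem two_pow_mul_pow_add_unit_ne_pow {n p : ℕ} (hp : p.Prime) (h5 : 5 ≤ p) (hpn : p ∣ n)
    (hn : n ≠ 0) {q a b : ℕ} (hq : q = 3 ∨ q = 5) (ha : 4 ≤ a) {ε : ℤ} (hε : ε = 1 ∨ ε = -1)
    (y : ℤ) : (2 : ℤ) ^ a * (q : ℤ) ^ b + ε ≠ y ^ n := fun h => by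
  obtain ⟨m, rfl⟩ := hpn
  rw [mul_comm p m, pow_mul] at h
  have h16 : (16 : ℤ) ∣ 2 ^ a * (q : ℤ) ^ b :=
    (show (16 : ℤ) ∣ 2 ^ a from pow_dvd_pow 2 ha).mul_right _
  have hq0 : (q : ℤ) ≠ 0 := by rcases hq with rfl | rfl <;> norm_num
  have hy : y ^ m ≠ 0 := fun e => by
    rw [e, zero_pow hp.ne_zero] at h; omega
  exact FA.PowerProducts.ternary hp h5 hq (A := 2 ^ a * (q : ℤ) ^ b) (C := 1) (X := 1) (v := y ^ m)
    (fun r hr hd => FA.PowerProducts.support_two_pow_mul hq a b r hr hd)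
    (mul_ne_zero (pow_ne_zero _ two_ne_zero) (pow_ne_zero _ hq0))
    (fun r hr hd => absurd (Int.natCast_dvd_natCast.1 (show (r : ℤ) ∣ ((1 : ℕ) : ℤ) from hd))
      hr.not_dvd_one) one_ne_zero one_ne_zero hy hε (by rwa [one_pow, mul_one])
    (by rw [one_pow, mul_one, one_mul]; exact h)

end FA.Summary

end
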