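import Fermat.Agent.Erdos.Selfridge.Counting
import Fermat.Agent.Root.SummaryPowerProducts

/-!
# The theorem of Erdős and Selfridge

The product of two or more consecutive positive integers is never a perfect power (1975). Squares
are the theorem of Erdős and Rigge and `k ≤ 5` was known here; for `k ≥ 6` and an odd prime
exponent `l` the proof is elementary: pigeonholes on the `l`-th power free parts below `200000`,
beyond it their product against `(k - 1)!` with Chebyshev's bound for the primes.
-/

set_option autoImplicit false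

noncomputable section

namespace FA.Summary

open Finset Nat

/-- **Erdős–Selfridge** for an odd exponent and at least six terms. -/
theorem erdos_selfridge_descFactorial {n k m l : ℕ} (hl : 3 ≤ l) (hodd : Odd l) (hk : 6 ≤ k)
    (hkn : k ≤ n) : n.descFactorial k ≠ m ^ l := fun h => by
  rcases Nat.lt_or_ge k 200000 with hK | hK
  · exact FA.Selfridge.false_of_small hl hodd hk hK hkn h
  · exact FA.Selfridge.false_of_large hl hK hkn h

/-- **The theorem of Erdős and Selfridge**: for `k ≥ 2`, `a ≥ 1` and `l ≥ 2` the product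
`a (a + 1) ⋯ (a + k - 1)` is no `l`-th power. -/
theorem erdos_selfridge {a k l y : ℕ} (ha : 0 < a) (hk : 2 ≤ k) (hl : 2 ≤ l) :
    ∏ i ∈ range k, (a + i) ≠ y ^ l := fun h => by
  by_cases hk5 : k ≤ 5
  · exact erdos_selfridge_le_five hl ha hk hk5 h
  obtain ⟨p, hp, j, rfl⟩ : ∃ p, p.Prime ∧ p ∣ l :=
    ⟨l.minFac, Nat.minFac_prime (by omega), l.minFac_dvd⟩
  rw [mul_comm p j, pow_mul] at h
  rcases hp.eq_two_or_odd' with rfl | hodd
  · exact erdos_rigge_prod ha hk ⟨y ^ j, by rw [h, sq]⟩
  · rw [← ascFactorial_eq_prod_range, ← add_descFactorial_eq_ascFactorial'] at h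
    refine erdos_selfridge_descFactorial ?_ hodd (by omega) (by omega) h
    have := hp.two_le
    rw [Nat.odd_iff] at hodd
    omega

/-- No quotient of factorials `n ! / m !` with `m + 2 ≤ n` is a perfect power. -/
theorem factorial_div_not_perfect_power {m n l y : ℕ} (h : m + 2 ≤ n) (hl : 2 ≤ l) :
    n ! / m ! ≠ y ^ l := fun e => by
  obtain ⟨d, rfl⟩ : ∃ d, n = m + d := ⟨n - m, by omega⟩
  refine erdos_selfridge (a := m + 1) (k := d) (y := y) (Nat.succ_pos _) (by omega) hl ?_
  rw [← ascFactorial_eq_prod_range, ← e]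
  exact (Nat.div_eq_of_eq_mul_left (factorial_pos m)
    (by rw [mul_comm, factorial_mul_ascFactorial])).symm

/-- The same over the integers: `k` consecutive positive integers, `y` any integer. -/
theorem erdos_selfridge_int {a : ℤ} {k l : ℕ} (ha : 0 < a) (hk : 2 ≤ k) (hl : 2 ≤ l) (y : ℤ) :
    ∏ i ∈ range k, (a + i) ≠ y ^ l := fun h => by
  lift a to ℕ using ha.le
  have e := congrArg Int.natAbs h
  rw [Int.natAbs_pow] at e
  refine erdos_selfridge (a := a) (k := k) (y := y.natAbs) (by exact_mod_cast ha) hk hl ?_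
  rw [← e, show (∏ i ∈ range k, ((a : ℤ) + i)) = ((∏ i ∈ range k, (a + i) : ℕ) : ℤ) by
    push_cast; rfl, Int.natAbs_natCast]

end FA.Summary

end
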