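import Fermat.Agent.ErdosStraus.AlmostAll

/-!
# Summary: the conjecture of Erdős and Straus for almost all `n`

`k / n` is a sum of two unit fractions iff `k` divides the sum of two divisors of `n`
(`two_terms_iff`), and, for `k` prime to `n`, of two coprime ones (`two_terms_iff_coprime`).  So for
every `k > 0` this fails only for `n` of density zero (`almost_all_two_terms`), and
`4 / n = 1 / x + 1 / y + 1 / z` holds for almost all `n` (`erdos_straus_almost_all`).  An exception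
`n > 1` has all its prime factors in `1, 121, 169, 289, 361, 529 (mod 840)` (`mordell_classes`,
Mordell), and none is `≤ 2000` (`erdos_straus_below`).

Not claimed: the conjecture, or a rate for the exceptional set.
-/

set_option autoImplicit false

open Filter Topology

namespace FA.ErdosStraus.Summary

/-- **Two unit fractions.** -/
theorem two_terms_iff {k n : ℕ} (hn : 0 < n) :
    (∃ x y : ℕ, 0 < x ∧ 0 < y ∧ (k : ℚ) / n = 1 / x + 1 / y) ↔
      ∃ a b, a ∣ n ∧ b ∣ n ∧ k ∣ a + b :=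
  twoTerms_iff hn

/-- **With coprime divisors when `k / n` is in lowest terms.** -/
theorem two_terms_iff_coprime {k n : ℕ} (hn : 0 < n) (hkn : Nat.Coprime k n) :
    (∃ x y : ℕ, 0 < x ∧ 0 < y ∧ (k : ℚ) / n = 1 / x + 1 / y) ↔
      ∃ a b, a ∣ n ∧ b ∣ n ∧ Nat.Coprime a b ∧ k ∣ a + b := by
  refine (twoTerms_iff hn).trans ⟨?_, fun ⟨a, b, ha, hb, _, h⟩ => ⟨a, b, ha, hb, h⟩⟩
  rintro ⟨a, b, ha, hb, h⟩
  obtain ⟨a', b', hco, ha', hb'⟩ := Nat.exists_coprime a b
  refine ⟨a', b', (Dvd.intro _ ha'.symm).trans ha, (Dvd.intro _ hb'.symm).trans hb, hco, ?_⟩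
  refine (hkn.coprime_dvd_right ((Nat.gcd_dvd_left a b).trans ha)).dvd_of_dvd_mul_right ?_
  rwa [add_mul, ← ha', ← hb']

/-- **For almost every `n`, whatever `k`.** -/
theorem almost_all_two_terms {k : ℕ} (hk : 0 < k) :
    Tendsto (fun N : ℕ => (Nat.card {n : ℕ // n < N ∧
      ¬∃ x y : ℕ, 0 < x ∧ 0 < y ∧ (k : ℚ) / n = 1 / x + 1 / y} : ℝ) / N) atTop (𝓝 0) :=
  almost_all_twoTerms hk

/-- **Erdős–Straus for almost every `n`.** -/
theorem erdos_straus_almost_all :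
    Tendsto (fun N : ℕ => (Nat.card {n : ℕ // n < N ∧ ¬∃ x y z : ℕ, 0 < x ∧ 0 < y ∧ 0 < z ∧
      (4 : ℚ) / n = 1 / x + 1 / y + 1 / z} : ℝ) / N) atTop (𝓝 0) :=
  almost_all_threeTerms

/-- **Mordell's classes.** -/
theorem mordell_classes {n : ℕ} (hn : 0 < n)
    (h : ¬∃ x y z : ℕ, 0 < x ∧ 0 < y ∧ 0 < z ∧ (4 : ℚ) / n = 1 / x + 1 / y + 1 / z)
    {p : ℕ} (hp : p.Prime) (hd : p ∣ n) :
    p % 840 = 1 ∨ p % 840 = 121 ∨ p % 840 = 169 ∨ p % 840 = 289 ∨ p % 840 = 361 ∨ p % 840 = 529 :=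
  prime_classes hn h hp hd

/-- **No exception up to `2000`.** -/
theorem erdos_straus_below {n : ℕ} (h2 : 2 ≤ n) (hn : n ≤ 2000) :
    ∃ x y z : ℕ, 0 < x ∧ 0 < y ∧ 0 < z ∧ (4 : ℚ) / n = 1 / x + 1 / y + 1 / z :=
  threeTerms_le_two_thousand h2 hn

end FA.ErdosStraus.Summary
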