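import Fermat.Agent.ErdosTetali.Main
import Mathlib.Data.Set.Card

/-!
# Thin additive bases: the Erdős–Tetali theorem

For every `h ≥ 2` there is a set `A` of natural numbers such that, for large `n`, the number of
`a : Fin h → ℕ` with entries in `A` and sum `n` lies between `c₁ log n` and `c₂ log n`; the lower
bound already holds for distinct entries. Thus `A` is an asymptotic basis of order `h` with
`A (N) ≍ (N log N) ^ (1 / h)`. The case `h = 2` is Erdős's theorem answering Sidon's question.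

The set is random, `a` being chosen with probability `≍ (log a) ^ (1 / h) a ^ (1 / h - 1)`: the
lower bound is Janson's inequality, the upper bound the disjointness lemma for the equations in
fewer variables.
-/

set_option autoImplicit false

noncomputable section

namespace FA.ErdosTetali.Summary

open Filter

theorem repCount_eq_ncard (A : Set ℕ) (h n : ℕ) :
    repCount A h n = {a : Fin h → ℕ | (∀ i, a i ∈ A) ∧ ∑ i, a i = n}.ncard := by
  classical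
  rw [repCount, ← Set.ncard_coe_finset]
  congr 1
  ext a
  simp only [Finset.coe_filter, Fintype.mem_piFinset, Finset.mem_range, Set.mem_ofPred_eq]
  exact ⟨fun ha => ha.2, fun ha => ⟨fun i => Nat.lt_succ_of_le
    (ha.2 ▸ Finset.single_le_sum (fun j _ => Nat.zero_le _) (Finset.mem_univ i)), ha⟩⟩

theorem repDistinct_eq_ncard (A : Set ℕ) (h n : ℕ) :
    repDistinct A h n =
      {a : Fin h → ℕ | (∀ i, a i ∈ A) ∧ Function.Injective a ∧ ∑ i, a i = n}.ncard := by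
  classical
  rw [repDistinct, ← Set.ncard_coe_finset]
  congr 1
  ext a
  simp only [Finset.coe_filter, Fintype.mem_piFinset, Finset.mem_range, Set.mem_ofPred_eq]
  exact ⟨fun ha => ha.2, fun ha => ⟨fun i => Nat.lt_succ_of_le
    (ha.2.2 ▸ Finset.single_le_sum (fun j _ => Nat.zero_le _) (Finset.mem_univ i)), ha⟩⟩

theorem countUpTo_eq_ncard (A : Set ℕ) (N : ℕ) :
    countUpTo A N = {a | a ∈ A ∧ a ≤ N}.ncard := by
  classical
  rw [countUpTo, ← Set.ncard_coe_finset]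
  congr 1
  ext a
  simp [and_comm]

/-- **The Erdős–Tetali theorem**, with the counting function of the basis. -/
theorem erdos_tetali (h : ℕ) (hh : 2 ≤ h) : ∃ (A : Set ℕ) (c₁ c₂ d₁ d₂ : ℝ),
    0 < c₁ ∧ 0 < c₂ ∧ 0 < d₁ ∧ 0 < d₂ ∧
    (∀ᶠ n : ℕ in atTop,
      c₁ * Real.log n ≤
          {a : Fin h → ℕ | (∀ i, a i ∈ A) ∧ Function.Injective a ∧ ∑ i, a i = n}.ncard ∧
        ({a : Fin h → ℕ | (∀ i, a i ∈ A) ∧ ∑ i, a i = n}.ncard : ℝ) ≤ c₂ * Real.log n) ∧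
    ∀ᶠ N : ℕ in atTop,
      d₁ * ((N : ℝ) * Real.log N) ^ (1 / (h : ℝ)) ≤ {a | a ∈ A ∧ a ≤ N}.ncard ∧
        ({a | a ∈ A ∧ a ≤ N}.ncard : ℝ) ≤ d₂ * ((N : ℝ) * Real.log N) ^ (1 / (h : ℝ)) := by
  simpa only [repCount_eq_ncard, repDistinct_eq_ncard, countUpTo_eq_ncard] using
    ErdosTetali.erdos_tetali hh

/-- **Every large number is a sum of `h` distinct elements of a thin set.** -/
theorem thin_basis (h : ℕ) (hh : 2 ≤ h) : ∃ (A : Set ℕ) (c : ℝ),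
    (∀ᶠ n : ℕ in atTop, ∃ a : Fin h → ℕ, (∀ i, a i ∈ A) ∧ Function.Injective a ∧ ∑ i, a i = n) ∧
    ∀ᶠ N : ℕ in atTop,
      ({a | a ∈ A ∧ a ≤ N}.ncard : ℝ) ≤ c * ((N : ℝ) * Real.log N) ^ (1 / (h : ℝ)) := by
  obtain ⟨A, c₁, c₂, d₁, d₂, hc₁, -, -, -, hr, hN⟩ := erdos_tetali h hh
  refine ⟨A, d₂, ?_, hN.mono fun N hN => hN.2⟩
  filter_upwards [hr, eventually_gt_atTop 1] with n hn hn1
  have hpos : 0 < c₁ * Real.log n := mul_pos hc₁ (Real.log_pos (Nat.one_lt_cast.2 hn1))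
  have hcard := Nat.cast_pos.1 (hpos.trans_le hn.1)
  exact Set.nonempty_of_ncard_ne_zero hcard.ne'

/-- **Erdős's theorem**: `c₁ log n ≤ #{a ≤ n | a, n - a ∈ A} ≤ c₂ log n` for large `n`. -/
theorem erdos_sidon : ∃ (A : Set ℕ) (c₁ c₂ : ℝ), 0 < c₁ ∧ 0 < c₂ ∧ ∀ᶠ n : ℕ in atTop,
    c₁ * Real.log n ≤ {a | a ≤ n ∧ a ∈ A ∧ n - a ∈ A}.ncard ∧
      ({a | a ≤ n ∧ a ∈ A ∧ n - a ∈ A}.ncard : ℝ) ≤ c₂ * Real.log n := by
  obtain ⟨A, c₁, c₂, d₁, d₂, hc₁, hc₂, -, -, hr, -⟩ := erdos_tetali 2 le_rfl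
  refine ⟨A, c₁, c₂, hc₁, hc₂, hr.mono fun n hn => ?_⟩
  have e : {a | a ≤ n ∧ a ∈ A ∧ n - a ∈ A}.ncard =
      {a : Fin 2 → ℕ | (∀ i, a i ∈ A) ∧ ∑ i, a i = n}.ncard := by
    rw [← Set.ncard_image_of_injective {a | a ≤ n ∧ a ∈ A ∧ n - a ∈ A}
      (f := fun a => (![a, n - a] : Fin 2 → ℕ)) fun x y hxy => congrFun hxy 0]
    congr 1
    ext a
    simp only [Set.mem_image, Set.mem_ofPred_eq, Fin.forall_fin_two, Fin.sum_univ_two]
    constructor
    · rintro ⟨x, ⟨h1, h2, h3⟩, rfl⟩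
      simp [h2, h3, h1]
    · rintro ⟨⟨h0, h1⟩, hsum⟩
      refine ⟨a 0, ⟨by omega, h0, by rwa [show n - a 0 = a 1 by omega]⟩, ?_⟩
      funext i
      fin_cases i <;> simp; omega
  have hsub : {a : Fin 2 → ℕ | (∀ i, a i ∈ A) ∧ Function.Injective a ∧ ∑ i, a i = n}.ncard ≤
      {a : Fin 2 → ℕ | (∀ i, a i ∈ A) ∧ ∑ i, a i = n}.ncard := by
    rw [← repDistinct_eq_ncard, ← repCount_eq_ncard]
    exact repDistinct_le A 2 n
  rw [e]
  exact ⟨hn.1.trans (Nat.cast_le.2 hsub), hn.2⟩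

end FA.ErdosTetali.Summary
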