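import Fermat.Agent.ErdosDiscrepancy.Main

/-!
# Tao's theorem on the discrepancy problem of Erdős

Every sequence of signs, indeed of unit vectors, has unbounded discrepancy on homogeneous
arithmetic progressions; in particular a completely multiplicative function of modulus one has
unbounded partial sums.
-/

set_option autoImplicit false

noncomputable section

namespace FA.ErdosDisc.Summary

open Finset

/-- **Tao's theorem** (the discrepancy problem of Erdős): for every `f : ℕ → ℤ` with values `±1`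
and every `C` some `|f d + f (2 d) + ⋯ + f (n d)|` exceeds `C`. -/
theorem erdos_discrepancy {f : ℕ → ℤ} (hf : ∀ n, n ≠ 0 → f n = 1 ∨ f n = -1) (C : ℤ) :
    ∃ d n : ℕ, 1 ≤ d ∧ C < |∑ j ∈ Icc 1 n, f (j * d)| :=
  exists_sign_discrepancy_gt hf C

/-- The same for unit vectors of any complex inner product space. -/
theorem erdos_discrepancy_sphere {E : Type*} [NormedAddCommGroup E] [InnerProductSpace ℂ E]
    {f : ℕ → E} (hf : ∀ n, n ≠ 0 → ‖f n‖ = 1) (C : ℝ) :
    ∃ d n : ℕ, 1 ≤ d ∧ C < ‖∑ j ∈ Icc 1 n, f (j * d)‖ :=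
  exists_discrepancy_gt hf C

/-- A completely multiplicative function of modulus one has unbounded partial sums. -/
theorem unimodular_partialSums_unbounded {g : ℕ →*₀ ℂ} (hg : ∀ n, n ≠ 0 → ‖g n‖ = 1) (C : ℝ) :
    ∃ n : ℕ, C < ‖∑ j ∈ Icc 1 n, g j‖ := by
  obtain ⟨d, n, hd, h⟩ := exists_discrepancy_gt hg C
  refine ⟨n, h.trans_le (le_of_eq ?_)⟩
  simp only [map_mul, ← sum_mul, norm_mul, hg d (by omega), mul_one]

end FA.ErdosDisc.Summary

end
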