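import Fermat.Agent.ErdosWintner.Measure

/-!
# Summary: the Erdős-Wintner theorem

A real additive function has a limiting distribution if and only if the three series over primes
`∑_{|g p| > 1} 1 / p`, `∑_{|g p| ≤ 1} g p / p` and `∑_{|g p| ≤ 1} g p ² / p` converge.
-/

set_option autoImplicit false

noncomputable section

namespace FA.ErdosWintner.Summary

open Finset Filter Topology MeasureTheory
open scoped BoundedContinuousFunction

/-- **The Erdős-Wintner theorem.** -/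
theorem erdos_wintner (g : ℕ → ℝ) (hg : ∀ m n : ℕ, m.Coprime n → g (m * n) = g m + g n) :
    (∃ μ : ProbabilityMeasure ℝ, ∀ F : ℝ →ᵇ ℝ,
      Tendsto (fun N : ℕ => (∑ n ∈ Icc 1 N, F (g n)) / N) atTop
        (𝓝 (∫ x, F x ∂(μ : Measure ℝ)))) ↔
    (Summable fun p : Nat.Primes => if 1 < |g p| then 1 / ((p : ℕ) : ℝ) else 0) ∧
    (∃ L : ℝ, Tendsto (fun N : ℕ => ∑ p ∈ (Icc 1 N).filter Nat.Prime,
      if |g p| ≤ 1 then g p / (p : ℝ) else 0) atTop (𝓝 L)) ∧
    (Summable fun p : Nat.Primes => if |g p| ≤ 1 then g p ^ 2 / ((p : ℕ) : ℝ) else 0) := by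
  simp_rw [← tendsto_empirical_iff]
  rw [exists_limitLaw_iff hg, summable_weight_iff]
  exact ⟨fun h => ⟨h.1.1, h.2, h.1.2⟩, fun h => ⟨⟨h.1, h.2.2⟩, h.2.1⟩⟩

end FA.ErdosWintner.Summary
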