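import Fermat.Agent.ErezLattice.NormalBasis
import Fermat.Agent.Root.SummaryThreeSquares
import Mathlib.NumberTheory.SumFourSquares

/-!
# Erez's square root of the inverse different

* `erez_different_square`: the different of a Galois extension of odd degree of number fields is
  the square of exactly one ideal `A`, and `A` is stable under the group;
* `different_exponent_even_iff`: at odd residue characteristic the exponent is even iff `e` is odd;
* `erez_discriminant_square`: a Galois number field of odd degree is totally real and its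
  discriminant is the square of the norm of `A`;
* `erez_unimodular_lattice`: the trace form makes `A⁻¹` a positive definite unimodular lattice,
  stable under the group;
* `erez_self_dual_normal_basis`: in degrees `3` and `5`, ramified wildly or not, `A⁻¹` has a
  self-dual normal basis;
* `erez_trace_values`: in those degrees `Tr (x ^ 2)` takes on `A⁻¹` the sums of that many squares;
* `erez_trace_values_quintic`, `erez_trace_values_cubic`: so `Tr (x ^ 2)` takes on `A⁻¹` every
  natural number in degree `5`, and exactly those not of the form `4 ^ a (8 b + 7)` in degree `3`.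

Degrees beyond five, Ullom's criterion and the Galois module class of `A` are not claimed.
-/

set_option autoImplicit false
set_option linter.style.haveILetI false

noncomputable section

open NumberField Module Finset
open scoped nonZeroDivisors Pointwise

namespace FA.Summary

/-- **The square root of the different.** -/
theorem erez_different_square (K L : Type*) [Field K] [NumberField K] [Field L] [NumberField L]
    [Algebra K L] [IsGalois K L] (hodd : Odd (finrank K L)) :
    (∃! A : Ideal (𝓞 L), A ^ 2 = differentIdeal (𝓞 K) (𝓞 L)) ∧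
      ∀ A : Ideal (𝓞 L), A ^ 2 = differentIdeal (𝓞 K) (𝓞 L) → ∀ g : L ≃ₐ[K] L, g • A = A := by
  have h : Odd (Nat.card (L ≃ₐ[K] L)) := by rwa [IsGalois.card_aut_eq_finrank K L]
  exact ⟨FA.ErezLattice.exists_sqrt K L h, fun A hA g => FA.ErezLattice.smul_sqrt K L h hA g⟩

/-- The parity of the exponent. -/
theorem different_exponent_even_iff (K L : Type*) [Field K] [NumberField K] [Field L]
    [NumberField L] [Algebra K L] [IsGalois K L] (P : Ideal (𝓞 L)) [P.IsMaximal]
    (h2 : (2 : 𝓞 L ⧸ P) ≠ 0) :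
    (∃ k : ℕ, emultiplicity P (differentIdeal (𝓞 K) (𝓞 L)) = ((2 * k : ℕ) : ℕ∞)) ↔
      Odd (Nat.card (P.inertia (L ≃ₐ[K] L))) :=
  FA.ErezLattice.exponent_even_iff K L P h2

variable (L : Type*) [Field L] [NumberField L] [IsGalois ℚ L]

/-- **The discriminant of a field of odd degree.** -/
theorem erez_discriminant_square (hodd : Odd (finrank ℚ L)) :
    IsTotallyReal L ∧ ∃ A : Ideal (𝓞 L),
      A ^ 2 = differentIdeal ℤ (𝓞 L) ∧ discr L = (Ideal.absNorm A : ℤ) ^ 2 := by
  obtain ⟨A, hA, -⟩ := (erez_different_square ℚ L hodd).1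
  exact ⟨FA.ErezLattice.isTotallyReal_of_odd L hodd, A,
    by rw [hA, FA.ErezLattice.differentIdeal_int_eq], FA.ErezLattice.discr_eq_sq hA hodd⟩

variable {L}

/-- **The lattice of Erez.** -/
theorem erez_unimodular_lattice (hodd : Odd (finrank ℚ L)) {A : Ideal (𝓞 L)}
    (hA : A ^ 2 = differentIdeal ℤ (𝓞 L)) :
    (∀ (g : L ≃ₐ[ℚ] L) (x : L), x ∈ (A : FractionalIdeal (𝓞 L)⁰ L)⁻¹ →
        g x ∈ (A : FractionalIdeal (𝓞 L)⁰ L)⁻¹) ∧
      (∀ x : L, x ≠ 0 → 0 < Algebra.trace ℚ L (x * x)) ∧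
      ∃ (b : Basis (Fin (finrank ℚ L)) ℚ L)
        (Q : Matrix (Fin (finrank ℚ L)) (Fin (finrank ℚ L)) ℤ),
        (∀ x, x ∈ Submodule.span ℤ (Set.range b) ↔ x ∈ (A : FractionalIdeal (𝓞 L)⁰ L)⁻¹) ∧
        (∀ i j, Algebra.trace ℚ L (b i * b j) = (Q i j : ℚ)) ∧
        (Q.map fun z : ℤ => (z : ℝ)).PosDef ∧ Q.det = 1 := by
  rw [← FA.ErezLattice.differentIdeal_int_eq] at hA
  exact ⟨fun g _ hx => FA.ErezLattice.apply_mem_invSqrt hA hodd g hx,
    fun _ hx => FA.ErezLattice.trace_sq_pos L hodd hx, FA.ErezLattice.exists_gram hA hodd⟩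

open scoped Classical in
/-- **Self-dual normal bases in degrees three and five.** -/
theorem erez_self_dual_normal_basis (hn : finrank ℚ L = 3 ∨ finrank ℚ L = 5) {A : Ideal (𝓞 L)}
    (hA : A ^ 2 = differentIdeal ℤ (𝓞 L)) :
    ∃ e ∈ (A : FractionalIdeal (𝓞 L)⁰ L)⁻¹,
      (∀ g h : L ≃ₐ[ℚ] L, Algebra.trace ℚ L (g e * h e) = if g = h then 1 else 0) ∧
      ∀ x ∈ (A : FractionalIdeal (𝓞 L)⁰ L)⁻¹,
        ∃! c : (L ≃ₐ[ℚ] L) → ℤ, x = ∑ g, c g • g e := by
  rw [← FA.ErezLattice.differentIdeal_int_eq] at hA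
  exact FA.ErezLattice.exists_normal_basis hA hn

/-- The values of the trace form are the sums of as many squares as the degree. -/
theorem erez_trace_values (hn : finrank ℚ L = 3 ∨ finrank ℚ L = 5) {A : Ideal (𝓞 L)}
    (hA : A ^ 2 = differentIdeal ℤ (𝓞 L)) {n : ℕ} (hL : finrank ℚ L = n) (m : ℤ) :
    (∃ x ∈ (A : FractionalIdeal (𝓞 L)⁰ L)⁻¹, Algebra.trace ℚ L (x * x) = m) ↔
      ∃ y : Fin n → ℤ, m = ∑ i, y i ^ 2 := by
  classical
  obtain ⟨e, he, hort, hspan⟩ := erez_self_dual_normal_basis hn hA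
  let σ : (L ≃ₐ[ℚ] L) ≃ Fin n := Fintype.equivFinOfCardEq (by
    rw [← Nat.card_eq_fintype_card, IsGalois.card_aut_eq_finrank, hL])
  constructor
  · rintro ⟨x, hx, hm⟩
    obtain ⟨c, hc, -⟩ := hspan x hx
    rw [hc, FA.ErezLattice.trace_sq_eq_sum hort, Int.cast_inj] at hm
    exact ⟨c ∘ σ.symm, hm ▸ (σ.symm.sum_comp fun g => c g ^ 2).symm⟩
  · rintro ⟨y, hy⟩
    rw [← FA.ErezLattice.differentIdeal_int_eq] at hA
    refine ⟨∑ g, (y ∘ σ) g • g e, ?_, ?_⟩
    · rw [← FractionalIdeal.mem_coe]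
      exact Submodule.sum_mem _ fun g _ =>
        Submodule.smul_of_tower_mem _ _ (FA.ErezLattice.apply_mem_invSqrt hA
          (by rcases hn with h | h <;> rw [h] <;> decide) g he)
    · rw [FA.ErezLattice.trace_sq_eq_sum hort, Int.cast_inj, hy]
      exact σ.sum_comp fun i => y i ^ 2

/-- **Every natural number in degree five.** -/
theorem erez_trace_values_quintic (hn : finrank ℚ L = 5) {A : Ideal (𝓞 L)}
    (hA : A ^ 2 = differentIdeal ℤ (𝓞 L)) (m : ℕ) :
    ∃ x ∈ (A : FractionalIdeal (𝓞 L)⁰ L)⁻¹, Algebra.trace ℚ L (x * x) = m := by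
  obtain ⟨a, b, c, d, h⟩ := Nat.sum_four_squares m
  simpa using (erez_trace_values (Or.inr hn) hA hn (m : ℤ)).2
    ⟨![(a : ℤ), b, c, d, 0], by rw [← h]; simp [Fin.sum_univ_five]⟩

/-- **The values in degree three.** -/
theorem erez_trace_values_cubic (hn : finrank ℚ L = 3) {A : Ideal (𝓞 L)}
    (hA : A ^ 2 = differentIdeal ℤ (𝓞 L)) (m : ℕ) :
    (∃ x ∈ (A : FractionalIdeal (𝓞 L)⁰ L)⁻¹, Algebra.trace ℚ L (x * x) = m) ↔
      ¬ ∃ a b : ℕ, m = 4 ^ a * (8 * b + 7) := by
  rw [← three_squares m]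
  have h := erez_trace_values (Or.inl hn) hA hn (m : ℤ)
  rw [Int.cast_natCast] at h
  refine h.trans
    ⟨fun ⟨y, hy⟩ => ⟨y 0, y 1, y 2, by rw [hy, Fin.sum_univ_three]⟩,
      fun ⟨x, y, z, h⟩ => ⟨![x, y, z], by simp [h, Fin.sum_univ_three]⟩⟩

end FA.Summary

end
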