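import Fermat.Agent.EstermannBoundary.Examples

/-!
# R1289: Estermann's natural boundary theorem (1928)

For `W ∈ ℤ[X]` with `W 0 = 1` the Euler product `∏_p W (p ^ (-s))` converges absolutely on
`1 < re s`.

* `estermann_convergence`, `estermann_continuation`: it converges there and extends meromorphically
  to `0 < re s`.
* `estermann_cyclotomic`: if every root of `W` is a root of unity, it extends meromorphically to
  the whole plane.
* `estermann_natural_boundary`: otherwise the continuation agrees with no meromorphic function on a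
  disc around a point of the imaginary axis; `estermann_domain`: a connected domain of meromorphy
  meeting `1 < re s` lies in `0 < re s`.
* `estermann_iff`: it extends to the whole plane iff every root is a root of unity.
* `one_add_two_boundary`: the case `∏ (1 + 2 p ^ (-s))`.
* `card_divisors_sq_extends`, `dThree_sq_boundary`: `∑ d n ^ 2 n^(-s)` extends to the whole plane,
  while `∑ d₃ n ^ 2 n^(-s)` has the imaginary axis as natural boundary.

Not claimed: coefficients that are not integers, products over subsets of the primes, several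
variables.
-/

set_option autoImplicit false

noncomputable section

namespace FA.EstermannSummary

open Polynomial Filter Topology FA.Estermann
open Complex (I)

variable {W : ℤ[X]}

/-- The product converges absolutely. -/
theorem estermann_convergence (hW : W.coeff 0 = 1) {s : ℂ} (hs : 1 < s.re) :
    Summable (fun p : Nat.Primes => ‖aeval ((p : ℂ) ^ (-s)) W - 1‖) ∧
      Multipliable fun p : Nat.Primes => aeval ((p : ℂ) ^ (-s)) W := by
  refine ⟨?_, multipliable_eulerW hW hs⟩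
  have h : X ^ 1 ∣ W * polL [] - polL [] := by simp [polL_nil, X_dvd_iff, hW]
  simpa [corr, polL_nil] using
    summable_corr (s := s) (List.forall_mem_nil _) h (by simpa using hs)

/-- **The continuation to `0 < re s`.** -/
theorem estermann_continuation (hW : W.coeff 0 = 1) :
    ∃ f : ℂ → ℂ, MeromorphicOn f {s | 0 < s.re} ∧
      ∀ s : ℂ, 1 < s.re → f s = ∏' p : Nat.Primes, aeval ((p : ℂ) ^ (-s)) W :=
  ⟨contW W, meromorphicOn_contW hW, fun _ hs => contW_eq_eulerW hW hs⟩

/-- **The roots of unity case.** -/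
theorem estermann_cyclotomic (hW : W.coeff 0 = 1)
    (hu : ∀ z : ℂ, aeval z W = 0 → ∃ n : ℕ, 0 < n ∧ z ^ n = 1) :
    ∃ f : ℂ → ℂ, MeromorphicOn f Set.univ ∧
      ∀ s : ℂ, 1 < s.re → f s = ∏' p : Nat.Primes, aeval ((p : ℂ) ^ (-s)) W :=
  exists_meromorphic_univ hW hu

/-- **Estermann's theorem.** -/
theorem estermann_natural_boundary (hW : W.coeff 0 = 1)
    (hu : ∃ z : ℂ, aeval z W = 0 ∧ ∀ n : ℕ, 0 < n → z ^ n ≠ 1) {f : ℂ → ℂ}
    (hf : MeromorphicOn f {s | 0 < s.re})
    (hfW : ∀ s : ℂ, 1 < s.re → f s = ∏' p : Nat.Primes, aeval ((p : ℂ) ^ (-s)) W)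
    (t : ℝ) {r : ℝ} (hr : 0 < r) :
    ¬ ∃ g : ℂ → ℂ, MeromorphicOn g (Metric.ball (t * I) r) ∧
      ∀ s ∈ Metric.ball (t * I : ℂ) r, 0 < s.re → g =ᶠ[𝓝[≠] s] f := by
  rintro ⟨g, hg, hgf⟩
  refine not_agreeW_near_axis hW hu hr (hg _ (Metric.mem_ball_self hr)) fun z hz hz0 => ?_
  refine (hgf z hz hz0).trans (agreeW_of_isPreconnected hW (V := {s : ℂ | 0 < s.re})
    (convex_halfSpace_re_gt 0).isPreconnected (fun _ h => h) hf ⟨2, by simp, ?_⟩ hz0)
  refine mem_agreeW_of_eq hW (by norm_num) ?_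
  filter_upwards [(isOpen_lt continuous_const Complex.continuous_re).mem_nhds
    (show (1 : ℝ) < (2 : ℂ).re by simp)] with s hs using hfW s hs

/-- **A connected domain of meromorphy lies in `0 < re s`.** -/
theorem estermann_domain (hW : W.coeff 0 = 1)
    (hu : ∃ z : ℂ, aeval z W = 0 ∧ ∀ n : ℕ, 0 < n → z ^ n ≠ 1) {U : Set ℂ} (hU : IsOpen U)
    (hU' : IsPreconnected U) {h : ℂ → ℂ} (hh : MeromorphicOn h U) (hne : ∃ s ∈ U, 1 < s.re)
    (heq : ∀ s ∈ U, 1 < s.re → h s = ∏' p : Nat.Primes, aeval ((p : ℂ) ^ (-s)) W) :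
    U ⊆ {s | 0 < s.re} :=
  subset_re_pos hW hu hU hU' hh hne heq

/-- **The dichotomy.** -/
theorem estermann_iff (hW : W.coeff 0 = 1) :
    (∃ f : ℂ → ℂ, MeromorphicOn f Set.univ ∧
        ∀ s : ℂ, 1 < s.re → f s = ∏' p : Nat.Primes, aeval ((p : ℂ) ^ (-s)) W) ↔
      ∀ z : ℂ, aeval z W = 0 → ∃ n : ℕ, 0 < n ∧ z ^ n = 1 := by
  refine ⟨fun ⟨f, hf, hfW⟩ z hz => ?_, estermann_cyclotomic hW⟩
  by_contra hcon
  push Not at hcon
  have h := estermann_domain hW ⟨z, hz, hcon⟩ isOpen_univ isPreconnected_univ hf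
    ⟨2, trivial, by norm_num⟩ (fun s _ => hfW s) (Set.mem_univ (0 : ℂ))
  simp at h

/-- `∏ (1 + 2 p ^ (-s))`. -/
theorem one_add_two_boundary {U : Set ℂ} (hU : IsOpen U) (hU' : IsPreconnected U) {h : ℂ → ℂ}
    (hh : MeromorphicOn h U) (hne : ∃ s ∈ U, 1 < s.re)
    (heq : ∀ s ∈ U, 1 < s.re → h s = ∏' p : Nat.Primes, (1 + 2 * (p : ℂ) ^ (-s))) :
    U ⊆ {s | 0 < s.re} := by
  refine estermann_domain (W := 1 + 2 * X) (by simp [coeff_zero_eq_eval_zero])
    ⟨-1 / 2, by simp [map_ofNat]; norm_num, fun n hn e => ?_⟩ hU hU' hh hne fun s hs h1 => by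
      simp [heq s hs h1, map_ofNat]
  have := congrArg norm e
  rw [norm_pow, norm_one] at this
  exact (pow_lt_one₀ (norm_nonneg _) (show ‖(-1 / 2 : ℂ)‖ < 1 by norm_num) hn.ne').ne this

/-- `∑ d n ^ 2 n^(-s) = ζ s ^ 4 / ζ (2 s)` extends to the whole plane. -/
theorem card_divisors_sq_extends :
    ∃ f : ℂ → ℂ, MeromorphicOn f Set.univ ∧
      ∀ s : ℂ, 1 < s.re → f s = LSeries (fun n => (n.divisors.card : ℂ) ^ 2) s :=
  ⟨fun s => riemannZeta s ^ 4 / riemannZeta (2 * s), fun s _ =>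
    ((FA.PrimeZeta.meromorphicAt_riemannZeta s).pow 4).div
      ((FA.PrimeZeta.meromorphicAt_riemannZeta _).comp_analyticAt
        (analyticAt_const.mul analyticAt_id)), fun _ hs => (lseries_card_divisors_sq hs).symm⟩

/-- `∑ d₃ n ^ 2 n^(-s)` extends to `0 < re s` and not beyond; `d₃ n = ∑_{d ∣ n} d (d)`. -/
theorem dThree_sq_boundary :
    (∃ f : ℂ → ℂ, MeromorphicOn f {s | 0 < s.re} ∧ ∀ s : ℂ, 1 < s.re →
        f s = LSeries (fun n => ((∑ d ∈ n.divisors, d.divisors.card : ℕ) : ℂ) ^ 2) s) ∧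
      ∀ (U : Set ℂ) (h : ℂ → ℂ), IsOpen U → IsPreconnected U → MeromorphicOn h U →
        (∃ s ∈ U, 1 < s.re) → (∀ s ∈ U, 1 < s.re →
          h s = LSeries (fun n => ((∑ d ∈ n.divisors, d.divisors.card : ℕ) : ℂ) ^ 2) s) →
        U ⊆ {s | 0 < s.re} := by
  have hz : ∀ s : ℂ, MeromorphicAt (fun z => riemannZeta z ^ 9) s := fun s =>
    (FA.PrimeZeta.meromorphicAt_riemannZeta s).pow 9
  refine ⟨⟨fun s => riemannZeta s ^ 9 * contW wThree s,
    fun s hs => (hz s).mul (meromorphicOn_contW wThree_coeff_zero s hs), fun s hs => ?_⟩,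
    fun U h hU hU' hh hne heq => ?_⟩
  · simp only [contW_eq_eulerW wThree_coeff_zero hs]
    exact (lseries_dThree_sq hs).symm
  · refine estermann_domain (W := wThree) (h := fun s => h s / riemannZeta s ^ 9) wThree_coeff_zero
      exists_root_wThree hU hU' (fun s hs => (hh s hs).div (hz s)) hne fun s hs h1 => ?_
    have hne' : riemannZeta s ^ 9 ≠ 0 := pow_ne_zero _ (riemannZeta_ne_zero_of_one_lt_re h1)
    rw [heq s hs h1, div_eq_iff hne', mul_comm]
    exact lseries_dThree_sq h1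

end FA.EstermannSummary

end
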