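import Fermat.Agent.Root.EtaFourLevels

/-!
# The eta products of levels `14` and `15`

`η(z) η(2z) η(7z) η(14z)` is the newform of `y² + xy + y = x³ + 4x - 6` (`14a1`) and
`η(z) η(3z) η(5z) η(15z)` that of `y² + xy + y = x³ + x²` (`15a8`), so both products count points
modulo every prime not dividing the level, and give the L-function of every semistable curve of the
level.
-/

set_option autoImplicit false

noncomputable section

open WeierstrassCurve

namespace FA.EtaFour

open FA.EtaEleven (coeff_mul_congr)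

/-- The series is a finite product up to any given exponent. -/
theorem coeff_series_eq_prod {N a b : ℕ} [NeZero N] [NeZero a] [NeZero b] (n m : ℕ)
    (h : n ≤ m + 1) : PowerSeries.coeff n (series N a b) =
    PowerSeries.coeff n (PowerSeries.X *
      ((∏ k ∈ Finset.range m, (1 - PowerSeries.X ^ (k + 1) : PowerSeries ℤ)) *
        (∏ k ∈ Finset.range m, (1 - PowerSeries.X ^ (a * (k + 1)))) *
        (∏ k ∈ Finset.range m, (1 - PowerSeries.X ^ (b * (k + 1)))) *
        (∏ k ∈ Finset.range m, (1 - PowerSeries.X ^ (N * (k + 1)))))) := by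
  set P : PowerSeries ℤ := ∏ k ∈ Finset.range m, (1 - PowerSeries.X ^ (k + 1)) with hP
  have e : ∀ (d : ℕ) [NeZero d],
      (∏ k ∈ Finset.range m, (1 - PowerSeries.X ^ (d * (k + 1))) : PowerSeries ℤ) =
      PowerSeries.expand d (NeZero.ne d) P := fun d _ => by
    rw [hP, map_prod]
    exact Finset.prod_congr rfl fun k _ => by
      rw [map_sub, map_one, map_pow, PowerSeries.expand_X, pow_mul]
  rw [e a, e b, e N, series]
  rcases n with _ | n
  · simp
  rw [PowerSeries.coeff_succ_X_mul, PowerSeries.coeff_succ_X_mul]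
  have h0 : ∀ i ≤ n, PowerSeries.coeff i ModularCurve.etaProd = PowerSeries.coeff i P :=
    fun i hi => FA.EtaEleven.coeff_etaProd (by omega)
  have hd : ∀ (d : ℕ) [NeZero d], ∀ i ≤ n,
      PowerSeries.coeff i (PowerSeries.expand d (NeZero.ne d) ModularCurve.etaProd) =
        PowerSeries.coeff i (PowerSeries.expand d (NeZero.ne d) P) := fun d _ i hi => by
    rw [PowerSeries.coeff_expand, PowerSeries.coeff_expand]
    split_ifs
    · exact h0 _ ((Nat.div_le_self _ _).trans hi)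
    · rfl
  exact coeff_mul_congr (fun i hi => coeff_mul_congr (fun j hj => coeff_mul_congr
    (fun k hk => h0 k (by omega)) (fun k hk => hd a k (by omega)))
    (fun j hj => hd b j (by omega))) (hd N)

end FA.EtaFour

namespace FA.Summary

/-- **`η(z) η(2z) η(7z) η(14z)` is the newform of `y² + xy + y = x³ + 4x - 6`**: a normalised
eigenform of weight two and level `14` with the coefficients of the L-function. -/
theorem eta_product_levelFourteen : ∃ f : CuspForm (CongruenceSubgroup.Gamma0 14) 2,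
    f.IsNormalizedEigenform ∧
    (∀ z : UpperHalfPlane, f z = ModularForm.eta (z : ℂ) * ModularForm.eta (2 * (z : ℂ)) *
      ModularForm.eta (7 * (z : ℂ)) * ModularForm.eta (14 * (z : ℂ))) ∧
    ∀ n : ℕ, (UpperHalfPlane.qExpansion 1 f).coeff n =
      ((⟨1, 0, 1, 4, -6⟩ : WeierstrassCurve ℚ).LFunction n : ℂ) := by
  rw [show (⟨1, 0, 1, 4, -6⟩ : WeierstrassCurve ℚ) = FA.Ribet.curve14.map (Int.castRingHom ℚ) by
    ext <;> simp [FA.Ribet.curve14]]
  obtain ⟨f, hf, hfun, hn, -⟩ := FA.EtaFour.exists_form_fourteen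
  refine ⟨f, hf, fun z => ?_, hn⟩
  simp [hfun z, FA.EtaFour.etaFour, FA.ModField.coe_scaleH]

/-- **`η(z) η(3z) η(5z) η(15z)` is the newform of `y² + xy + y = x³ + x²`**: a normalised eigenform
of weight two and level `15` with the coefficients of the L-function. -/
theorem eta_product_levelFifteen : ∃ f : CuspForm (CongruenceSubgroup.Gamma0 15) 2,
    f.IsNormalizedEigenform ∧
    (∀ z : UpperHalfPlane, f z = ModularForm.eta (z : ℂ) * ModularForm.eta (3 * (z : ℂ)) *
      ModularForm.eta (5 * (z : ℂ)) * ModularForm.eta (15 * (z : ℂ))) ∧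
    ∀ n : ℕ, (UpperHalfPlane.qExpansion 1 f).coeff n =
      ((⟨1, 1, 1, 0, 0⟩ : WeierstrassCurve ℚ).LFunction n : ℂ) := by
  rw [show (⟨1, 1, 1, 0, 0⟩ : WeierstrassCurve ℚ) = FA.Root.curve15.map (Int.castRingHom ℚ) by
    ext <;> simp [FA.Root.curve15]]
  obtain ⟨f, hf, hfun, hn, -⟩ := FA.EtaFour.exists_form_fifteen
  refine ⟨f, hf, fun z => ?_, hn⟩
  simp [hfun z, FA.EtaFour.etaFour, FA.ModField.coe_scaleH]

/-- **The L-function of `y² + xy + y = x³ + 4x - 6` as a product**: its `n`-th coefficient is that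
of `X ∏ (1 - Xᵏ) (1 - X²ᵏ) (1 - X⁷ᵏ) (1 - X¹⁴ᵏ)`, the product over any range reaching `n - 1`. -/
theorem lFunction_14a1_eq_coeff (n m : ℕ) (h : n ≤ m + 1) :
    (⟨1, 0, 1, 4, -6⟩ : WeierstrassCurve ℚ).LFunction n = PowerSeries.coeff n (PowerSeries.X *
      ((∏ k ∈ Finset.range m, (1 - PowerSeries.X ^ (k + 1) : PowerSeries ℤ)) *
        (∏ k ∈ Finset.range m, (1 - PowerSeries.X ^ (2 * (k + 1)))) *
        (∏ k ∈ Finset.range m, (1 - PowerSeries.X ^ (7 * (k + 1)))) *
        (∏ k ∈ Finset.range m, (1 - PowerSeries.X ^ (14 * (k + 1)))))) := by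
  rw [show (⟨1, 0, 1, 4, -6⟩ : WeierstrassCurve ℚ) = FA.Ribet.curve14.map (Int.castRingHom ℚ) by
    ext <;> simp [FA.Ribet.curve14]]
  obtain ⟨-, -, -, -, hs⟩ := FA.EtaFour.exists_form_fourteen
  rw [hs, FA.EtaFour.coeff_series_eq_prod n m h]

/-- **The L-function of `y² + xy + y = x³ + x²` as a product**: its `n`-th coefficient is that of
`X ∏ (1 - Xᵏ) (1 - X³ᵏ) (1 - X⁵ᵏ) (1 - X¹⁵ᵏ)`, the product over any range reaching `n - 1`. -/
theorem lFunction_15a8_eq_coeff (n m : ℕ) (h : n ≤ m + 1) :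
    (⟨1, 1, 1, 0, 0⟩ : WeierstrassCurve ℚ).LFunction n = PowerSeries.coeff n (PowerSeries.X *
      ((∏ k ∈ Finset.range m, (1 - PowerSeries.X ^ (k + 1) : PowerSeries ℤ)) *
        (∏ k ∈ Finset.range m, (1 - PowerSeries.X ^ (3 * (k + 1)))) *
        (∏ k ∈ Finset.range m, (1 - PowerSeries.X ^ (5 * (k + 1)))) *
        (∏ k ∈ Finset.range m, (1 - PowerSeries.X ^ (15 * (k + 1)))))) := by
  rw [show (⟨1, 1, 1, 0, 0⟩ : WeierstrassCurve ℚ) = FA.Root.curve15.map (Int.castRingHom ℚ) by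
    ext <;> simp [FA.Root.curve15]]
  obtain ⟨-, -, -, -, hs⟩ := FA.EtaFour.exists_form_fifteen
  rw [hs, FA.EtaFour.coeff_series_eq_prod n m h]

/-- The coefficient at a prime `p ∤ 14` counts the points of `y² + xy + y = x³ + 4x - 6`
modulo `p`. -/
theorem pointCount_14a1 {p : ℕ} (hp : p.Prime) (h2 : p ≠ 2) (h7 : p ≠ 7) :
    (Nat.card ((⟨1, 0, 1, 4, -6⟩ : WeierstrassCurve ℤ).map
      (Int.castRingHom (ZMod p))).toAffine.Point : ℤ) =
      p + 1 - (⟨1, 0, 1, 4, -6⟩ : WeierstrassCurve ℚ).LFunction p := by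
  have hgood := FA.EtaFour.curve14_good hp h2 h7
  rw [show (⟨1, 0, 1, 4, -6⟩ : WeierstrassCurve ℚ) =
      FA.Ribet.curve14.map (Int.castRingHom ℚ) by ext <;> simp [FA.Ribet.curve14],
    FA.Root.LFunction_apply_prime _ FA.Ribet.curve14 ⟨1, one_smul _ _⟩ hp hgood, apOfModel,
    traceOfFrobenius, Nat.card_zmod, WeierstrassCurve.card, reductionMod, FA.Ribet.curve14]
  ring

/-- The coefficient at a prime `p ∤ 15` counts the points of `y² + xy + y = x³ + x²` modulo `p`. -/
theorem pointCount_15a8 {p : ℕ} (hp : p.Prime) (h3 : p ≠ 3) (h5 : p ≠ 5) :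
    (Nat.card ((⟨1, 1, 1, 0, 0⟩ : WeierstrassCurve ℤ).map
      (Int.castRingHom (ZMod p))).toAffine.Point : ℤ) =
      p + 1 - (⟨1, 1, 1, 0, 0⟩ : WeierstrassCurve ℚ).LFunction p := by
  have hgood := FA.EtaFour.curve15_good hp h3 h5
  rw [show (⟨1, 1, 1, 0, 0⟩ : WeierstrassCurve ℚ) =
      FA.Root.curve15.map (Int.castRingHom ℚ) by ext <;> simp [FA.Root.curve15],
    FA.Root.LFunction_apply_prime _ FA.Root.curve15 ⟨1, one_smul _ _⟩ hp hgood, apOfModel,
    traceOfFrobenius, Nat.card_zmod, WeierstrassCurve.card, reductionMod, FA.Root.curve15]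
  ring

/-- The same coefficients for every semistable curve with good reduction outside `2` and `7`. -/
theorem lFunction_levelFourteen_eq_coeff (E : WeierstrassCurve ℚ) [E.IsElliptic]
    (h : ∀ p : ℕ, ∀ [Fact p.Prime], ∃ C : VariableChange ℚ_[p],
      HasGoodReduction ℤ_[p] (C • E.map (algebraMap ℚ ℚ_[p])) ∨
        HasMultiplicativeReduction ℤ_[p] (C • E.map (algebraMap ℚ ℚ_[p])))
    (hgood : ∀ p : ℕ, ∀ [Fact p.Prime], p ≠ 2 → p ≠ 7 → ∃ C : VariableChange ℚ_[p],
      HasGoodReduction ℤ_[p] (C • E.map (algebraMap ℚ ℚ_[p]))) (n m : ℕ) (hn : n ≤ m + 1) :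
    E.LFunction n = PowerSeries.coeff n (PowerSeries.X *
      ((∏ k ∈ Finset.range m, (1 - PowerSeries.X ^ (k + 1) : PowerSeries ℤ)) *
        (∏ k ∈ Finset.range m, (1 - PowerSeries.X ^ (2 * (k + 1)))) *
        (∏ k ∈ Finset.range m, (1 - PowerSeries.X ^ (7 * (k + 1)))) *
        (∏ k ∈ Finset.range m, (1 - PowerSeries.X ^ (14 * (k + 1)))))) := by
  rw [uniqueLevelFourteen (E := E) h hgood]
  exact lFunction_14a1_eq_coeff n m hn

/-- The same coefficients for every semistable curve with good reduction outside `3` and `5`. -/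
theorem lFunction_levelFifteen_eq_coeff (E : WeierstrassCurve ℚ) [E.IsElliptic]
    (h : ∀ p : ℕ, ∀ [Fact p.Prime], ∃ C : VariableChange ℚ_[p],
      HasGoodReduction ℤ_[p] (C • E.map (algebraMap ℚ ℚ_[p])) ∨
        HasMultiplicativeReduction ℤ_[p] (C • E.map (algebraMap ℚ ℚ_[p])))
    (hgood : ∀ p : ℕ, ∀ [Fact p.Prime], p ≠ 3 → p ≠ 5 → ∃ C : VariableChange ℚ_[p],
      HasGoodReduction ℤ_[p] (C • E.map (algebraMap ℚ ℚ_[p]))) (n m : ℕ) (hn : n ≤ m + 1) :
    E.LFunction n = PowerSeries.coeff n (PowerSeries.X *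
      ((∏ k ∈ Finset.range m, (1 - PowerSeries.X ^ (k + 1) : PowerSeries ℤ)) *
        (∏ k ∈ Finset.range m, (1 - PowerSeries.X ^ (3 * (k + 1)))) *
        (∏ k ∈ Finset.range m, (1 - PowerSeries.X ^ (5 * (k + 1)))) *
        (∏ k ∈ Finset.range m, (1 - PowerSeries.X ^ (15 * (k + 1)))))) := by
  rw [uniqueLevelFifteen (E := E) h hgood]
  exact lFunction_15a8_eq_coeff n m hn

end FA.Summary

end
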