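import Fermat.Agent.Root.SummaryShimuraReciprocity
import Fermat.Agent.Root.SummaryChebotarevTraces

/-!
# The residues of the coefficients of `q ∏ (1 - qᵏ)² (1 - q¹¹ᵏ)²`

For a prime `l ≠ 5` the pairs `(c_p, p)` take every value `(t, d)` with `d ≠ 0` modulo `l`
infinitely often, by the theorem of Chebotarev; modulo `2` the coefficients are decided by the roots
of `4 x³ - 4 x² + 1`.
-/

set_option autoImplicit false
set_option linter.style.haveILetI false

noncomputable section

open WeierstrassCurve Matrix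
open IsLocalRing (ResidueField)

local notation "Qb" => AlgebraicClosure ℚ
local notation "GQ" => AlgebraicClosure ℚ ≃ₐ[ℚ] AlgebraicClosure ℚ

namespace FA.Shimura

/-- A Weierstrass curve over a finite field of odd characteristic has evenly many points iff some
point is its own negative. -/
theorem two_dvd_natCard_iff {F : Type*} [Field F] [Finite F] [DecidableEq F]
    (W : WeierstrassCurve F) [W.IsElliptic] :
    2 ∣ Nat.card W.toAffine.Point ↔
      ∃ x y, W.toAffine.Equation x y ∧ y = W.toAffine.negY x y := by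
  haveI : Finite W.toAffine.Point :=
    Finite.of_injective (β := Option (F × F))
      (fun | .zero => none | .some x y _ => Option.some (x, y))
      (fun P Q h => by cases P <;> cases Q <;> simp_all)
  constructor
  · intro h
    haveI := Fact.mk Nat.prime_two
    obtain ⟨P, hP⟩ := exists_prime_addOrderOf_dvd_card' 2 h
    have h2 : P + P = 0 := by
      rw [← two_nsmul, ← hP, addOrderOf_nsmul_eq_zero]
    match P, hP, h2 with
    | .zero, hP, _ => exact absurd hP (by rw [← Affine.Point.zero_def, addOrderOf_zero]; norm_num)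
    | .some x y hxy, _, h2 =>
      have h3 := eq_neg_of_add_eq_zero_left h2
      rw [Affine.Point.neg_some, Affine.Point.some.injEq] at h3
      exact ⟨x, y, hxy.left, h3.2⟩
  · rintro ⟨x, y, hxy, hy⟩
    have hns := W.toAffine.equation_iff_nonsingular.mp hxy
    have h2 : addOrderOf (Affine.Point.some x y hns) = 2 :=
      addOrderOf_eq_prime (hp := ⟨Nat.prime_two⟩)
        (by rw [two_nsmul, Affine.Point.add_self_of_Y_eq hy]) (Affine.Point.some_ne_zero _)
    exact h2 ▸ addOrderOf_dvd_natCard _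

/-- Modulo an odd good prime the point counts of `y² + y = x³ - x²` are even iff the cubic has a
root. -/
theorem two_dvd_card_curve11_iff {p : ℕ} (hp : p.Prime) (h2 : p ≠ 2) (h11 : p ≠ 11) :
    2 ∣ Nat.card ((⟨0, -1, 1, 0, 0⟩ : WeierstrassCurve ℤ).map
      (Int.castRingHom (ZMod p))).toAffine.Point ↔
      ∃ x : ZMod p, 4 * x ^ 3 - 4 * x ^ 2 + 1 = 0 := by
  haveI := Fact.mk hp
  have hΔ : ((⟨0, -1, 1, 0, 0⟩ : WeierstrassCurve ℤ).map (Int.castRingHom (ZMod p))).IsElliptic := by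
    refine ⟨isUnit_iff_ne_zero.mpr ?_⟩
    rw [WeierstrassCurve.map_Δ, eq_intCast, Ne, ZMod.intCast_zmod_eq_zero_iff_dvd]
    exact FA.Tau.curve11_good hp h11
  have h2' : (2 : ZMod p) ≠ 0 := by
    rw [show (2 : ZMod p) = ((2 : ℕ) : ZMod p) by norm_num, Ne, CharP.cast_eq_zero_iff (ZMod p) p]
    exact fun hd => h2 ((Nat.prime_dvd_prime_iff_eq hp Nat.prime_two).mp hd)
  rw [two_dvd_natCard_iff]
  simp only [Affine.equation_iff, Affine.negY, WeierstrassCurve.map_a₁, WeierstrassCurve.map_a₂,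
    WeierstrassCurve.map_a₃, WeierstrassCurve.map_a₄, WeierstrassCurve.map_a₆, map_zero, map_one,
    map_neg, zero_mul, sub_zero, add_zero]
  constructor
  · rintro ⟨x, y, he, hy⟩
    exact ⟨x, by linear_combination (-4) * he + (2 * y + 1) * hy⟩
  · rintro ⟨x, hx⟩
    have hy : 2 * (-1 / 2 : ZMod p) = -1 := mul_div_cancel₀ _ h2'
    refine ⟨x, -1 / 2, ?_, by linear_combination hy⟩
    refine mul_left_cancel₀ (mul_ne_zero h2' h2') ?_
    linear_combination (2 * (-1 / 2 : ZMod p) + 1) * hy - hx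

end FA.Shimura

namespace FA.Summary

/-- **The residues**: for a prime `l ≠ 5`, any `t` and any `d ≠ 0` modulo `l` infinitely many
primes `p` have `c_p ≡ t` and `p ≡ d` modulo `l`, where `c_p` is the coefficient of `Xᵖ` in
`X ∏ (1 - Xᵏ)² (1 - X¹¹ᵏ)²`. -/
theorem etaProduct_residues {l : ℕ} [hl : Fact l.Prime] (h5 : l ≠ 5) (t : ZMod l) {d : ZMod l}
    (hd : d ≠ 0) :
    {p : ℕ | p.Prime ∧ (p : ZMod l) = d ∧ ((PowerSeries.coeff p (PowerSeries.X *
      ((∏ k ∈ Finset.range p, (1 - PowerSeries.X ^ (k + 1) : PowerSeries ℤ)) ^ 2 *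
        (∏ k ∈ Finset.range p, (1 - PowerSeries.X ^ (11 * (k + 1)))) ^ 2)) : ℤ) : ZMod l) =
      t}.Infinite := by
  classical
  intro hfin
  obtain ⟨ρ, hopen, hsurj, h⟩ := shimuraReciprocity hl.out h5
  obtain ⟨htr, hdet⟩ := FA.Chebotarev.mkTraceDet t d
  obtain ⟨p, hp, hpS, hFr⟩ := FA.Chebotarev.exists_frobenius_mem ρ hsurj hopen
    (X := {g | g.val.trace = t ∧ g.val.det = d})
    (fun g hg x => by
      show _ ∧ _
      rw [Units.val_mul, Units.val_mul, Matrix.trace_units_conj, Matrix.det_units_conj]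
      exact hg)
    ⟨Matrix.GeneralLinearGroup.mkOfDetNeZero !![0, -d; 1, t] (by rw [hdet]; exact hd), htr, hdet⟩
    (hfin.toFinset ∪ {11, l})
  simp only [Finset.mem_union, Finset.mem_insert, Finset.mem_singleton, not_or,
    Set.Finite.mem_toFinset] at hpS
  obtain ⟨hpS, hp11, hpl⟩ := hpS
  obtain ⟨A, hA⟩ := FA.Deform.exists_liesOverPrime hp
  obtain ⟨σ, hσ⟩ := FA.Deform.exists_isFrobeniusAt hp hA
  obtain ⟨ht, hdt⟩ := (h p hp hp11 hpl A hA).2 ⟨σ, hσ.1⟩ hσ.2
  obtain ⟨e₁, e₂⟩ := hFr A hA σ hσ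
  exact hpS ⟨hp, hdt.symm.trans e₂, ht.symm.trans e₁⟩

/-- **Every residue is taken**: for a prime `l ≠ 5` and every `t` infinitely many primes
`p ≡ 1 (mod l)` have `c_p ≡ t (mod l)`; so for `l = 2` both parities occur infinitely often. -/
theorem etaProduct_residues_one {l : ℕ} [hl : Fact l.Prime] (h5 : l ≠ 5) (t : ZMod l) :
    {p : ℕ | p.Prime ∧ (p : ZMod l) = 1 ∧ ((PowerSeries.coeff p (PowerSeries.X *
      ((∏ k ∈ Finset.range p, (1 - PowerSeries.X ^ (k + 1) : PowerSeries ℤ)) ^ 2 *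
        (∏ k ∈ Finset.range p, (1 - PowerSeries.X ^ (11 * (k + 1)))) ^ 2)) : ℤ) : ZMod l) =
      t}.Infinite :=
  etaProduct_residues h5 t one_ne_zero

/-- **The parity law**: at a prime `p ≠ 2, 11` the coefficient `c_p` is even iff
`4 x³ - 4 x² + 1` has a root modulo `p`. -/
theorem etaProduct_parity {p : ℕ} (hp : p.Prime) (h2 : p ≠ 2) (h11 : p ≠ 11) :
    (2 : ℤ) ∣ PowerSeries.coeff p (PowerSeries.X *
      ((∏ k ∈ Finset.range p, (1 - PowerSeries.X ^ (k + 1) : PowerSeries ℤ)) ^ 2 *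
        (∏ k ∈ Finset.range p, (1 - PowerSeries.X ^ (11 * (k + 1)))) ^ 2)) ↔
      ∃ x : ZMod p, 4 * x ^ 3 - 4 * x ^ 2 + 1 = 0 := by
  obtain ⟨j, hj⟩ := hp.odd_of_ne_two h2
  rw [← lFunction_11a3_eq_coeff p p p.le_succ, ← FA.Shimura.two_dvd_card_curve11_iff hp h2 h11,
    ← Int.natCast_dvd_natCast, pointCount_11a3 hp h11]
  omega

end FA.Summary

end
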