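import Fermat.Agent.EtaQuotient.Forms

/-!
# The theorem of Newman and Ligozat on eta quotients

Let `F(z) = ∏_{δ ∣ N} η(δz)^(2 e δ)` and `k = ∑ e δ`, and suppose that `12` divides `∑ δ e δ` and
`∑ (N / δ) e δ`. Then `F` has weight `k` and the character `d ↦ (-1)^(k (d - 1) / 2)` on `Γ₀(N)`.
Its order at the cusps of denominator `c` is `(1 / 12) ∑ e δ gcd(c, δ)² / δ`.
-/

set_option autoImplicit false

noncomputable section

open UpperHalfPlane hiding I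
open ModularForm CongruenceSubgroup Filter Topology
open scoped MatrixGroups Real ModularForm

namespace FA.Summary

variable {N : ℕ} {e : ℕ → ℤ} {k : ℤ} {F : ℍ → ℂ}

/-- **The transformation law**: weight `k` and character `d ↦ (-1)^(k (d - 1) / 2)`. -/
theorem etaQuotient_slash (hF : ∀ z : ℍ, F z = ∏ δ ∈ N.divisors, η ((δ : ℂ) * z) ^ (2 * e δ))
    (hk : ∑ δ ∈ N.divisors, e δ = k) (h1 : (12 : ℤ) ∣ ∑ δ ∈ N.divisors, (δ : ℤ) * e δ)
    (h2 : (12 : ℤ) ∣ ∑ δ ∈ N.divisors, ((N / δ : ℕ) : ℤ) * e δ) {g : SL(2, ℤ)}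
    (hg : g ∈ Gamma0 N) : F ∣[k] g = ((-1 : ℂ) ^ (k * ((g 1 1 - 1) / 2))) • F := by
  rw [show F = EtaQuotient.quot N e from funext hF, ← hk]
  exact EtaQuotient.quot_slash ⟨h1, h2⟩ hg

/-- **The order at the cusp `γ ∞`**, for every `γ` and with no congruence on the exponents. -/
theorem etaQuotient_order (hF : ∀ z : ℍ, F z = ∏ δ ∈ N.divisors, η ((δ : ℂ) * z) ^ (2 * e δ))
    (hk : ∑ δ ∈ N.divisors, e δ = k) (γ : SL(2, ℤ)) :
    ∃ L : ℝ, 0 < L ∧ Tendsto (fun z => ‖(F ∣[k] γ) z‖ * Real.exp (2 * π *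
      ((∑ δ ∈ N.divisors, (e δ : ℝ) * ((Int.gcd (γ 1 0) δ : ℝ) ^ 2 / δ)) / 12) * z.im))
      atImInfty (𝓝 L) := by
  rw [show F = EtaQuotient.quot N e from funext hF, ← hk]
  exact EtaQuotient.tendsto_norm_slash γ

/-- **Ligozat's criterion for modular forms**, in even weight. -/
theorem etaQuotient_modularForm [NeZero N]
    (hF : ∀ z : ℍ, F z = ∏ δ ∈ N.divisors, η ((δ : ℂ) * z) ^ (2 * e δ))
    (hk : ∑ δ ∈ N.divisors, e δ = k) (h1 : (12 : ℤ) ∣ ∑ δ ∈ N.divisors, (δ : ℤ) * e δ)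
    (h2 : (12 : ℤ) ∣ ∑ δ ∈ N.divisors, ((N / δ : ℕ) : ℤ) * e δ) (heven : Even k) :
    (∃ f : ModularForm (Gamma0 N) k, ⇑f = F) ↔ ∀ c ∈ N.divisors,
      (0 : ℝ) ≤ ∑ δ ∈ N.divisors, (e δ : ℝ) * ((Nat.gcd c δ : ℝ) ^ 2 / δ) := by
  subst hk
  rw [show F = EtaQuotient.quot N e from funext hF]
  refine (EtaQuotient.exists_modularForm_iff ⟨h1, h2⟩ heven).trans
    (forall₂_congr fun c _ => ?_)
  rw [EtaQuotient.order, le_div_iff₀ (by norm_num : (0 : ℝ) < 12), zero_mul]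
  rfl

/-- **Ligozat's criterion for cusp forms**, in even weight. -/
theorem etaQuotient_cuspForm [NeZero N]
    (hF : ∀ z : ℍ, F z = ∏ δ ∈ N.divisors, η ((δ : ℂ) * z) ^ (2 * e δ))
    (hk : ∑ δ ∈ N.divisors, e δ = k) (h1 : (12 : ℤ) ∣ ∑ δ ∈ N.divisors, (δ : ℤ) * e δ)
    (h2 : (12 : ℤ) ∣ ∑ δ ∈ N.divisors, ((N / δ : ℕ) : ℤ) * e δ) (heven : Even k) :
    (∃ f : CuspForm (Gamma0 N) k, ⇑f = F) ↔ ∀ c ∈ N.divisors,
      (0 : ℝ) < ∑ δ ∈ N.divisors, (e δ : ℝ) * ((Nat.gcd c δ : ℝ) ^ 2 / δ) := by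
  subst hk
  rw [show F = EtaQuotient.quot N e from funext hF]
  refine (EtaQuotient.exists_cuspForm_iff ⟨h1, h2⟩ heven).trans
    (forall₂_congr fun c _ => ?_)
  rw [EtaQuotient.order, lt_div_iff₀ (by norm_num : (0 : ℝ) < 12), zero_mul]
  rfl

/-- **Arbitrary exponents** `r` with `∑ r δ = 2 k` and the same congruences: the product is
invariant up to sign. -/
theorem etaQuotient_odd_exponents {r : ℕ → ℤ}
    (hF : ∀ z : ℍ, F z = ∏ δ ∈ N.divisors, η ((δ : ℂ) * z) ^ r δ)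
    (hk : ∑ δ ∈ N.divisors, r δ = 2 * k) (h1 : (12 : ℤ) ∣ ∑ δ ∈ N.divisors, (δ : ℤ) * r δ)
    (h2 : (12 : ℤ) ∣ ∑ δ ∈ N.divisors, ((N / δ : ℕ) : ℤ) * r δ) {g : SL(2, ℤ)}
    (hg : g ∈ Gamma0 N) : F ∣[k] g = F ∨ F ∣[k] g = -F := by
  rw [show F = EtaQuotient.quotAny N r from funext hF]
  exact EtaQuotient.quotAny_slash hk ⟨h1, h2⟩ hg

/-- An example: `η(2z)^12` is a cusp form of weight six and level four. -/
theorem etaQuotient_levelFour :
    ∃ f : CuspForm (Gamma0 4) 6, ∀ z : ℍ, f z = η (2 * (z : ℂ)) ^ 12 := by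
  obtain ⟨f, hf⟩ := (etaQuotient_cuspForm (N := 4) (k := 6)
    (e := fun δ => if δ = 2 then 6 else 0) (F := fun z => η (2 * (z : ℂ)) ^ 12)
    (fun z => by simp [show Nat.divisors 4 = {1, 2, 4} by decide])
    (by decide) (by decide) (by decide) (by decide)).2 fun c hc => by
      rw [show Nat.divisors 4 = {1, 2, 4} by decide] at hc
      simp only [Finset.mem_insert, Finset.mem_singleton] at hc
      rcases hc with rfl | rfl | rfl <;>
        simp [show Nat.divisors 4 = {1, 2, 4} by decide]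
  exact ⟨f, congrFun hf⟩

end FA.Summary

end
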