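import Fermat.Agent.Tau.EuclideanFields
import Fermat.Agent.Tau.NagellClass
import Fermat.Agent.Root.SummaryClassNumberOne

/-!
# Euclidean imaginary quadratic fields

* `euclidean_imaginary_iff` (Motzkin): `ℤ`-integers of `ℚ(√d)`, `d < 0` squarefree, have a division
  algorithm, for any well-founded relation whatsoever, iff `d` is `-1`, `-2`, `-3`, `-7` or `-11`.
* `euclidean_norm_five`: then the norm is one.
* `pid_not_euclidean_iff`, `exists_pid_not_euclidean`: the principal ideal domains among them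
  without a division algorithm are `d = -19, -43, -67, -163`.
-/

set_option autoImplicit false
set_option linter.style.haveILetI false

noncomputable section

open NumberField Module
open scoped IntermediateField

namespace FA.Summary

/-- **The norm is Euclidean for five fields.** -/
theorem euclidean_norm_five (K : Type*) [Field K] [NumberField K] (hK : finrank ℚ K = 2) {d : ℤ}
    (hd0 : d < 0) (hs : ∃ s : K, s ^ 2 = (d : K))
    (hmem : d ∈ ({-1, -2, -3, -7, -11} : Finset ℤ)) (a b : 𝓞 K) (hb : b ≠ 0) :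
    ∃ q r : 𝓞 K, a = b * q + r ∧ (Algebra.norm ℤ r).natAbs < (Algebra.norm ℤ b).natAbs := by
  obtain ⟨s, hs⟩ := hs
  obtain ⟨q, hq⟩ := FA.Euclidean.norm_division hK hd0 hs hmem a b hb
  exact ⟨q, a - b * q, by ring, hq⟩

/-- **Motzkin's theorem.** -/
theorem euclidean_imaginary_iff (K : Type*) [Field K] [NumberField K] (hK : finrank ℚ K = 2)
    {d : ℤ} (hd : Squarefree d) (hd0 : d < 0) (hs : ∃ s : K, s ^ 2 = (d : K)) :
    (∃ r : 𝓞 K → 𝓞 K → Prop, WellFounded r ∧
        ∀ a b : 𝓞 K, b ≠ 0 → ∃ q, a = b * q ∨ r (a - b * q) b) ↔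
      d ∈ ({-1, -2, -3, -7, -11} : Finset ℤ) := by
  obtain ⟨s, hs⟩ := hs
  refine ⟨fun ⟨r, hwf, hdiv⟩ => FA.Euclidean.mem_five_of_division hK hd hd0 hs hwf hdiv,
    fun hmem => ⟨InvImage (· < ·) fun x : 𝓞 K => (Algebra.norm ℤ x).natAbs,
      InvImage.wf _ Nat.lt_wfRel.wf, fun a b hb => ?_⟩⟩
  obtain ⟨q, hq⟩ := FA.Euclidean.norm_division hK hd0 hs hmem a b hb
  exact ⟨q, Or.inr hq⟩

/-- **Principal but not Euclidean.** -/
theorem pid_not_euclidean_iff (K : Type*) [Field K] [NumberField K] (hK : finrank ℚ K = 2)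
    {d : ℤ} (hd : Squarefree d) (hd0 : d < 0) (hs : ∃ s : K, s ^ 2 = (d : K)) :
    (IsPrincipalIdealRing (𝓞 K) ∧ ¬ ∃ r : 𝓞 K → 𝓞 K → Prop, WellFounded r ∧
        ∀ a b : 𝓞 K, b ≠ 0 → ∃ q, a = b * q ∨ r (a - b * q) b) ↔
      d ∈ ({-19, -43, -67, -163} : Finset ℤ) := by
  rw [euclidean_imaginary_iff K hK hd hd0 hs, ← NumberField.classNumber_eq_one_iff,
    classNumber_one_iff_nine K hK hd hd0 hs]
  simp only [Finset.mem_insert, Finset.mem_singleton]
  omega

/-- **A principal ideal domain without a Euclidean structure**: the integers of `ℚ(√-19)`. -/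
theorem exists_pid_not_euclidean :
    ∃ (K : IntermediateField ℚ ℂ) (_ : NumberField K),
      finrank ℚ K = 2 ∧ (∃ s : K, s ^ 2 = (-19 : K)) ∧ IsPrincipalIdealRing (𝓞 K) ∧
        ∀ E : EuclideanDomain (𝓞 K), E.toCommRing ≠ (inferInstance : CommRing (𝓞 K)) := by
  obtain ⟨K, hnf, hK, s, hs⟩ := FA.Nagell.exists_field (d := -19) (by norm_num)
  have hsq : Squarefree (-19 : ℤ) :=
    Int.squarefree_natAbs.1 (show Nat.Prime 19 by norm_num).squarefree
  obtain ⟨hpid, hno⟩ := (pid_not_euclidean_iff K hK hsq (by norm_num) ⟨s, hs⟩).2 (by simp)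
  exact ⟨K, hnf, hK, ⟨s, by rw [hs]; push_cast; rfl⟩, hpid,
    fun E h => hno (FA.Euclidean.division_of_euclideanDomain E h)⟩

end FA.Summary

end
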