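import Fermat.Agent.EuclideanMinimum.BarnesSwinnertonDyer

/-!
# Euclidean minima; the theorem of Barnes and Swinnerton-Dyer in unit rank one

`m z = fieldMin z` is the infimum of `|N(z - g)|` over the integers `g`, `realMin x` the same for a
point of the mixed space, `euclideanMinimum` the supremum of `m` over the field.

* `min_attained`: the infimum is attained at every element of the field, so it is rational;
  `norm_euclidean_iff`: the field is norm-Euclidean iff every `m z < 1`;
  `minimum_bounded`: `realMin` is bounded on every field.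
* `barnes_swinnerton_dyer`: with two infinite places, for a real point `x` and `μ < realMin x` some
  `z` in the field has `μ ≤ m z`, so `inhomogeneous_eq_euclidean`: the two suprema agree.
* `euclidean_minimum_bounds`: `√|d| / 2 ^ 153 ≤ M`, `M < 1` gives norm-Euclidean, which gives
  `realMin x ≤ 1` at every real point.
-/

set_option autoImplicit false
set_option linter.style.haveILetI false

noncomputable section

namespace FA.EuclideanMinimum.Summary

open NumberField Module FA.LenstraEuclid

theorem min_attained (K : Type*) [Field K] [NumberField K] (z : K) :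
    ∃ (g : 𝓞 K) (q : ℚ), fieldMin z = |((Algebra.norm ℚ (z - g) : ℚ) : ℝ)| ∧ fieldMin z = q := by
  obtain ⟨g, hg⟩ := exists_fieldMin_eq z
  exact ⟨g, |Algebra.norm ℚ (z - g)|, hg, hg.trans (Rat.cast_abs _).symm⟩

theorem norm_euclidean_iff (K : Type*) [Field K] [NumberField K] :
    IsNormEuclideanField K ↔ ∀ z : K, fieldMin z < 1 :=
  isNormEuclidean_iff

theorem minimum_bounded (K : Type*) [Field K] [NumberField K] :
    ∃ B : ℝ, ∀ x : mixedEmbedding.mixedSpace K, realMin x ≤ B :=
  exists_realMin_le K

theorem barnes_swinnerton_dyer (K : Type*) [Field K] [NumberField K]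
    (h : Fintype.card (InfinitePlace K) = 2) (x : mixedEmbedding.mixedSpace K) {μ : ℝ}
    (hμ : μ < realMin x) : ∃ z : K, μ ≤ fieldMin z := by
  obtain ⟨z, hz⟩ :=
    exists_field_point (FA.UnitRankOneEuclidean.exists_twoPlaces K h).some hμ (realMin_le x)
  exact ⟨z, le_fieldMin hz⟩

theorem inhomogeneous_eq_euclidean (K : Type*) [Field K] [NumberField K]
    (h : Fintype.card (InfinitePlace K) = 2) :
    euclideanMinimum K = ⨆ x : mixedEmbedding.mixedSpace K, realMin x :=
  euclideanMinimum_eq h

theorem euclidean_minimum_bounds (K : Type*) [Field K] [NumberField K]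
    (h : Fintype.card (InfinitePlace K) = 2) :
    Real.sqrt |(discr K : ℝ)| / 2 ^ 153 ≤ euclideanMinimum K ∧
      (euclideanMinimum K < 1 → IsNormEuclideanField K) ∧
      (IsNormEuclideanField K → ∀ x : mixedEmbedding.mixedSpace K, realMin x ≤ 1) :=
  ⟨le_euclideanMinimum h, isNormEuclidean_of_lt_one, realMin_le_one h⟩

end FA.EuclideanMinimum.Summary
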