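import Fermat.Agent.EuclideanSteps.Average

/-!
# The Euclidean algorithm: Lamé, Heilbronn and Dixon

`steps a b` is the number of divisions in the Euclidean algorithm for `gcd (b, a)`. It is at most
five times the number of decimal digits of `a < b` (Lamé 1844), and on average over the pairs
`0 < a < b ≤ N` it is `(12 log 2 / π ^ 2) log N + O (1)` (Heilbronn 1969, Dixon 1970).
-/

set_option autoImplicit false

noncomputable section

open Finset

namespace FA.EuclideanSteps.Summary

/-- The algorithm. -/
theorem steps_rec : (∀ b, steps 0 b = 0) ∧ ∀ a b, 0 < a → steps a b = steps (b % a) a + 1 :=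
  ⟨steps_zero, fun _ b ha => steps_pos ha b⟩

/-- **Lamé**: `n` divisions need the Fibonacci numbers. -/
theorem lame_fibonacci {n a b : ℕ} (ha : 0 < a) (hab : a < b) (h : n ≤ steps a b) :
    Nat.fib (n + 1) ≤ a ∧ Nat.fib (n + 2) ≤ b :=
  lame n ha hab h

/-- **Lamé**: at most five divisions for each decimal digit. -/
theorem lame_five_digits {a b k : ℕ} (ha : 0 < a) (hab : a < b) (hk : a < 10 ^ k) :
    steps a b ≤ 5 * k :=
  steps_le_five_mul ha hab hk

/-- **The quadruples of Heilbronn.** -/
theorem heilbronn_quadruples (N : ℕ) :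
    (coprimeQuads N).card = ∑ z ∈ halfPairs N, (steps z.1 z.2 - 1) :=
  card_coprimeQuads N

/-- **Heilbronn–Dixon**: the average number of divisions. -/
theorem euclid_average_steps :
    ∃ C : ℝ, ∀ N : ℕ, 2 ≤ N →
      |((∑ z ∈ (range (N + 1) ×ˢ range (N + 1)).filter (fun z => 0 < z.1 ∧ z.1 < z.2),
          steps z.1 z.2 : ℕ) : ℝ) /
        (((range (N + 1) ×ˢ range (N + 1)).filter (fun z => 0 < z.1 ∧ z.1 < z.2)).card : ℝ) -
        12 * Real.log 2 / Real.pi ^ 2 * Real.log N| ≤ C :=
  exists_abs_average_sub_le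

end FA.EuclideanSteps.Summary

end
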