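import Fermat.Agent.EulerCubes.Integers

/-!
# Summary: Euler's complete solution of `x³ + y³ = u³ + v³`

Over a field with `2, 3 ≠ 0` in which `-3` is no square, such as `ℚ` and `ℝ`, every solution is
`(u, v) = (x, y)`, or has `x + y = 0 = u + v`, or is given by Euler's quartic forms in `(a, b)` with
a factor `l` (`euler_complete`), unique with `b, l ≠ 0` off these two (`euler_birational`): the
Fermat cubic surface is birational to the plane, the inverse being `eulerParam`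
(`euler_inverse`).  Integer solutions come from integers `p, q, r` (`euler_integers`), and there are
infinitely many primitive ones in positive integers, no permutations (`taxicab_infinite`).

Not claimed: a parametrisation of the primitive integer solutions without the factor, other fields.
-/

set_option autoImplicit false

noncomputable section

namespace FA.EulerCubes.Summary

variable {K : Type*} [Field K] (h2 : (2 : K) ≠ 0) (h3 : (3 : K) ≠ 0) (hsq : ∀ w : K, w ^ 2 ≠ -3)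

include h2 h3 hsq in
/-- **The complete solution.** -/
theorem euler_complete (x y u v : K) :
    x ^ 3 + y ^ 3 = u ^ 3 + v ^ 3 ↔ (u = x ∧ v = y) ∨ (x + y = 0 ∧ u + v = 0) ∨ ∃ a b l : K,
      x = l * (1 - (a - 3 * b) * (a ^ 2 + 3 * b ^ 2)) ∧
      y = l * ((a + 3 * b) * (a ^ 2 + 3 * b ^ 2) - 1) ∧
      u = l * (a + 3 * b - (a ^ 2 + 3 * b ^ 2) ^ 2) ∧
      v = l * ((a ^ 2 + 3 * b ^ 2) ^ 2 - (a - 3 * b)) := by
  refine (complete h2 h3 hsq x y u v).trans (or_congr_right (or_congr_right ?_))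
  simp only [eulerPoint, normAB, Prod.exists, Prod.mk.injEq, eq_comm]

include h2 h3 hsq in
/-- **Birational**: off the trivial solutions the parameters are unique. -/
theorem euler_birational {x y u v : K} (h : x ^ 3 + y ^ 3 = u ^ 3 + v ^ 3) (h₁ : x + y ≠ 0)
    (h₂ : ¬(u = x ∧ v = y)) :
    ∃! q : K × K × K, q.2.1 ≠ 0 ∧ q.2.2 ≠ 0 ∧
      q.2.2 * (1 - (q.1 - 3 * q.2.1) * (q.1 ^ 2 + 3 * q.2.1 ^ 2)) = x ∧
      q.2.2 * ((q.1 + 3 * q.2.1) * (q.1 ^ 2 + 3 * q.2.1 ^ 2) - 1) = y ∧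
      q.2.2 * (q.1 + 3 * q.2.1 - (q.1 ^ 2 + 3 * q.2.1 ^ 2) ^ 2) = u ∧
      q.2.2 * ((q.1 ^ 2 + 3 * q.2.1 ^ 2) ^ 2 - (q.1 - 3 * q.2.1)) = v := by
  obtain ⟨hb, hl, e⟩ := param_spec h2 h3 hsq (P := (x, y, u, v)) h ⟨h₁, h₂⟩
  simp only [eulerPoint, normAB, Prod.mk.injEq] at e
  refine ⟨_, ⟨hb, hl, e⟩, fun q hq => ?_⟩
  rw [← eulerParam_eulerPoint h2 h3 hsq hq.1 hq.2.1, show eulerPoint q = (x, y, u, v) by
    simpa only [eulerPoint, normAB, Prod.mk.injEq] using hq.2.2]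

include h2 h3 hsq in
/-- **The inverse map.** -/
theorem euler_inverse {q : K × K × K} (hb : q.2.1 ≠ 0) (hl : q.2.2 ≠ 0) :
    eulerParam (eulerPoint q) = q :=
  eulerParam_eulerPoint h2 h3 hsq hb hl

/-- **Integer solutions.** -/
theorem euler_integers {x y u v : ℤ} (h : x ^ 3 + y ^ 3 = u ^ 3 + v ^ 3) (h₁ : x + y ≠ 0)
    (h₂ : ¬(u = x ∧ v = y)) :
    ∃ (p q r : ℤ) (k : ℚ), r ≠ 0 ∧
      (x : ℚ) = k * ((r * (r ^ 3 - (p - 3 * q) * (p ^ 2 + 3 * q ^ 2)) : ℤ) : ℚ) ∧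
      (y : ℚ) = k * ((r * ((p + 3 * q) * (p ^ 2 + 3 * q ^ 2) - r ^ 3) : ℤ) : ℚ) ∧
      (u : ℚ) = k * (((p + 3 * q) * r ^ 3 - (p ^ 2 + 3 * q ^ 2) ^ 2 : ℤ) : ℚ) ∧
      (v : ℚ) = k * (((p ^ 2 + 3 * q ^ 2) ^ 2 - (p - 3 * q) * r ^ 3 : ℤ) : ℚ) :=
  integer_solution h h₁ h₂

/-- **Infinitely many numbers are sums of two cubes in two ways, primitively.** -/
theorem taxicab_infinite :
    {q : ℕ × ℕ × ℕ × ℕ | (0 < q.1 ∧ 0 < q.2.1 ∧ 0 < q.2.2.1 ∧ 0 < q.2.2.2) ∧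
      q.1 ^ 3 + q.2.1 ^ 3 = q.2.2.1 ^ 3 + q.2.2.2 ^ 3 ∧
      ({q.1, q.2.1} : Set ℕ) ≠ {q.2.2.1, q.2.2.2} ∧
      Nat.gcd (Nat.gcd q.1 q.2.1) (Nat.gcd q.2.2.1 q.2.2.2) = 1}.Infinite :=
  infinite_primitive

end FA.EulerCubes.Summary
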