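import Fermat.Agent.EulerDivergent.Main

/-!
# Euler's divergent series over the `p`-adic numbers

`E_p z = ∑ k! z ^ k` converges in `ℤ_[p]` for every integer `z` and every prime `p`; it is the
`p`-adic companion of the integral of `SummaryGompertz` (Matala-aho and Zudilin, 2018).

* `euler_series_pade`: Euler's approximants, `Q n t * ∑ k! t ^ k - P n t` with coefficients `0`
  below `2 n` and `(n + r)! ^ 2 / r!` at `2 n + r` (stated without the division), with
  `Q (n + 1) P n - Q n P (n + 1) = -n! ^ 2 t ^ (2 n)`;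
* `euler_series_padic_criterion`: if `∑ log p / (p - 1) ≤ θ log x + C`, `θ < 1/2`, over the
  `p ≤ x` of a set `S`, then for an integer `z ≠ 0` and a rational `r` some prime `p` outside `S`
  has `E_p z ≠ r`;
* `euler_series_infinitely_many`: so infinitely many primes have `E_p z ≠ r` (with summability);
* `euler_series_thin_sets`: and their sum of `log p / p` up to `x` is not `≤ θ log x + C`;
* `factorial_series_contrast`: while `∑ k k! = -1` in every `ℤ_[p]`.

Not claimed: the irrationality of `E_p z` for any single prime.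
-/

set_option autoImplicit false

noncomputable section

namespace FA.EulerDivergent.Summary

open Finset
open scoped Nat

open Classical

/-- **Euler's Padé approximants.** -/
theorem euler_series_pade : ∃ P Q : ℕ → Polynomial ℤ, ∀ n : ℕ,
    Q n = ∑ i ∈ range (n + 1), Polynomial.C ((-1) ^ i * (n.choose i : ℤ) ^ 2 * i !) *
      Polynomial.X ^ i ∧
    (P n).natDegree ≤ n - 1 ∧
    (∀ k < 2 * n, PowerSeries.coeff k
      ((Q n : PowerSeries ℤ) * PowerSeries.mk (fun j => (j ! : ℤ)) - (P n : PowerSeries ℤ)) = 0) ∧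
    (∀ r, PowerSeries.coeff (2 * n + r)
      ((Q n : PowerSeries ℤ) * PowerSeries.mk (fun j => (j ! : ℤ)) - (P n : PowerSeries ℤ)) * r ! =
        ((n + r)! : ℤ) ^ 2) ∧
    Q (n + 1) * P n - Q n * P (n + 1) =
      -(Polynomial.C ((n ! : ℤ) ^ 2) * Polynomial.X ^ (2 * n)) := by
  refine ⟨padeNum, padeDen, fun n => ⟨rfl, natDegree_padeNum_le n, fun k hk => ?_, fun r => ?_,
    padeDen_mul_padeNum_sub n⟩⟩
  · exact (coeff_remainder n k).trans (if_pos hk)
  · rw [show PowerSeries.mk (fun j => (j ! : ℤ)) = eulerSeries from rfl, coeff_remainder,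
      if_neg (by omega), prodCoeff_two_mul_add]

/-- **The criterion.** -/
theorem euler_series_padic_criterion {S : Set ℕ} {θ C : ℝ} (hθ : θ < 1 / 2)
    (hS : ∀ x : ℕ, 1 ≤ x → ∑ p ∈ (range (x + 1)).filter (fun p => p.Prime ∧ p ∈ S),
      Real.log p / ((p : ℝ) - 1) ≤ θ * Real.log x + C) {z : ℤ} (hz : z ≠ 0) (r : ℚ) :
    ∃ p : ℕ, ∃ _ : Fact p.Prime, p ∉ S ∧
      ((∑' k : ℕ, (k ! : ℤ_[p]) * (z : ℤ_[p]) ^ k : ℤ_[p]) : ℚ_[p]) ≠ (r : ℚ_[p]) :=
  exists_prime_eulerValue_ne hθ (fun x hx => le_of_eq_of_le (by rw [exceptSum]) (hS x hx))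
    hz r

/-- **Infinitely many primes avoid each rational.** -/
theorem euler_series_infinitely_many {z : ℤ} (hz : z ≠ 0) (r : ℚ) :
    (∀ (p : ℕ) [Fact p.Prime], Summable fun k : ℕ => (k ! : ℤ_[p]) * (z : ℤ_[p]) ^ k) ∧
    {p : ℕ | ∃ _ : Fact p.Prime,
      ((∑' k : ℕ, (k ! : ℤ_[p]) * (z : ℤ_[p]) ^ k : ℤ_[p]) : ℚ_[p]) ≠ (r : ℚ_[p])}.Infinite :=
  ⟨fun _ _ => summable_euler z, infinite_eulerValue_ne hz r⟩

/-- **They do not form a thin set.** -/
theorem euler_series_thin_sets {z : ℤ} (hz : z ≠ 0) (r : ℚ) {θ : ℝ} (hθ : θ < 1 / 2) (C : ℝ) :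
    ∃ x : ℕ, 1 ≤ x ∧ θ * Real.log x + C <
      ∑ p ∈ (range (x + 1)).filter (fun p => p.Prime ∧ ∃ _ : Fact p.Prime,
        ((∑' k : ℕ, (k ! : ℤ_[p]) * (z : ℤ_[p]) ^ k : ℤ_[p]) : ℚ_[p]) ≠ (r : ℚ_[p])),
        Real.log p / p := by
  obtain ⟨x, hx, h⟩ := eulerValue_ne_not_thin hz r hθ C
  exact ⟨x, hx, lt_of_lt_of_eq h (by congr!)⟩

/-- **`∑ k k! = -1` everywhere.** -/
theorem factorial_series_contrast (p : ℕ) [Fact p.Prime] :
    HasSum (fun k : ℕ => (k : ℤ_[p]) * (k ! : ℤ_[p])) (-1) :=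
  hasSum_mul_factorial

end FA.EulerDivergent.Summary

end
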