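import Fermat.Agent.EulerKroneckerFamilies.Limit
import Fermat.Agent.EulerKroneckerFamilies.Ihara

/-!
# Euler–Kronecker constants in families and Ihara's bound

The constant `γ` of `K` is the limit at `1+` of `re ζ_K'/ζ_K σ + 1/(σ - 1)`, given here by that
`Tendsto`. The Riemann hypothesis for `ζ_K` is an argument and is never assumed: every zero `z`,
`0 < re z < 1`, of the entire continuation of `(s - 1) ζ_K` has `re z = 1/2`. Write `g = log √|d|`
and `N_q` for the number of places of norm `q`. On the hypothesis: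

* `γ ≤ 2 log (g + 1) + C` with `C` independent of `K` (Ihara);
* `γ` is `-∑_{q ≤ Q} N_q log q / (q - 1)` up to `ε g + C`;
* along fields with `g → ∞`, `N_q/g → φ q`, `r₁/g → φR`, `r₂/g → φC` one has
  `γ/g → -∑ φ q log q / (q - 1)`, and `∑ m re (1/ρ) / g` tends to the deficiency of Tsfasman and
  Vlăduţ, which is nonnegative; `γ/g → 0` if `n/g → 0`.

With no hypothesis `γ/g` is eventually at least `φR rR + φC rC - 1 - ε`.
-/

set_option autoImplicit false

noncomputable section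

universe u

open NumberField InfinitePlace Module Filter Topology Set
open FA.TsfasmanVladut FA.DedekindHadamard FA.EulerKroneckerFamilies
open Real (eulerMascheroniConstant)
open scoped Real

namespace FA.EulerKroneckerFamilies.Summary

private theorem rhFor_of {K : Type u} [Field K] [NumberField K]
    (h : ∀ E : ℂ → ℂ, Differentiable ℂ E →
      (∀ s : ℂ, 1 < s.re → E s = (s - 1) * dedekindZeta K s) →
        ∀ z : ℂ, E z = 0 → 0 < z.re → z.re < 1 → z.re = 1 / 2) :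
    RHFor K :=
  h _ (FA.DedekindZeroCount.differentiable_cleared K)
    fun _ hs => FA.DedekindZeroCount.cleared_spec K hs

private theorem eq_ekConst {K : Type u} [Field K] [NumberField K] {γ : ℝ}
    (h : Tendsto (fun σ : ℝ => (deriv (dedekindZeta K) (σ : ℂ) / dedekindZeta K (σ : ℂ)).re +
      (σ - 1)⁻¹) (𝓝[>] 1) (𝓝 γ)) : γ = ekConst K :=
  tendsto_nhds_unique h (tendsto_ekConst K)

private theorem weight_eq (q : ℕ) :
    placeWeight 1 q = Real.log q / ((q : ℝ) - 1) := by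
  rw [placeWeight, Real.rpow_one]

/-- **Ihara's upper bound.** -/
theorem ihara_upper_bound : ∃ C : ℝ, ∀ (K : Type u) [Field K] [NumberField K] (γ : ℝ),
    (∀ E : ℂ → ℂ, Differentiable ℂ E →
      (∀ s : ℂ, 1 < s.re → E s = (s - 1) * dedekindZeta K s) →
        ∀ z : ℂ, E z = 0 → 0 < z.re → z.re < 1 → z.re = 1 / 2) →
    Tendsto (fun σ : ℝ => (deriv (dedekindZeta K) (σ : ℂ) / dedekindZeta K (σ : ℂ)).re +
      (σ - 1)⁻¹) (𝓝[>] 1) (𝓝 γ) →
    γ ≤ 2 * Real.log (Real.log ((discr K).natAbs : ℝ) / 2 + 1) + C := by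
  obtain ⟨C, hC⟩ := exists_ekConst_le_log.{u}
  exact ⟨C, fun K _ _ γ hRH hγ => eq_ekConst hγ ▸ hC K (rhFor_of hRH)⟩

/-- **The constant against the places of small norm, from above.** -/
theorem uniform_upper (S : Finset ℕ) {ε : ℝ} (hε : 0 < ε) : ∃ C : ℝ,
    ∀ (K : Type u) [Field K] [NumberField K] (γ : ℝ),
      (∀ E : ℂ → ℂ, Differentiable ℂ E →
        (∀ s : ℂ, 1 < s.re → E s = (s - 1) * dedekindZeta K s) →
          ∀ z : ℂ, E z = 0 → 0 < z.re → z.re < 1 → z.re = 1 / 2) →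
      Tendsto (fun σ : ℝ => (deriv (dedekindZeta K) (σ : ℂ) / dedekindZeta K (σ : ℂ)).re +
        (σ - 1)⁻¹) (𝓝[>] 1) (𝓝 γ) →
      γ ≤ -(∑ q ∈ S, (placeCount K q : ℝ) * (Real.log q / ((q : ℝ) - 1))) +
        ε * logGenus K + C := by
  obtain ⟨C, -, hC⟩ := exists_ekConst_le.{u} S hε
  refine ⟨C, fun K _ _ γ hRH hγ => ?_⟩
  simpa only [eq_ekConst hγ, weight_eq] using hC K (rhFor_of hRH)

/-- **The constant against the places of small norm, from below.** -/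
theorem uniform_lower {ε : ℝ} (hε : 0 < ε) : ∃ (Q : ℕ) (C : ℝ),
    ∀ (K : Type u) [Field K] [NumberField K] (γ : ℝ),
      (∀ E : ℂ → ℂ, Differentiable ℂ E →
        (∀ s : ℂ, 1 < s.re → E s = (s - 1) * dedekindZeta K s) →
          ∀ z : ℂ, E z = 0 → 0 < z.re → z.re < 1 → z.re = 1 / 2) →
      Tendsto (fun σ : ℝ => (deriv (dedekindZeta K) (σ : ℂ) / dedekindZeta K (σ : ℂ)).re +
        (σ - 1)⁻¹) (𝓝[>] 1) (𝓝 γ) →
      -(∑ q ∈ Finset.Icc 2 Q, (placeCount K q : ℝ) * (Real.log q / ((q : ℝ) - 1))) -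
        ε * logGenus K - C ≤ γ := by
  obtain ⟨Q, C, -, hC⟩ := exists_ekConst_ge.{u} hε
  refine ⟨Q, C, fun K _ _ γ hRH hγ => ?_⟩
  simpa only [eq_ekConst hγ, weight_eq] using hC K (rhFor_of hRH)

/-- **`γ/g` along a family.** -/
theorem family_limit (F : ℕ → Type u) [∀ i, Field (F i)] [∀ i, NumberField (F i)]
    (hRH : ∀ i, ∀ E : ℂ → ℂ, Differentiable ℂ E →
      (∀ s : ℂ, 1 < s.re → E s = (s - 1) * dedekindZeta (F i) s) →
        ∀ z : ℂ, E z = 0 → 0 < z.re → z.re < 1 → z.re = 1 / 2)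
    {γ : ℕ → ℝ} (hγ : ∀ i, Tendsto (fun σ : ℝ => (deriv (dedekindZeta (F i)) (σ : ℂ) /
      dedekindZeta (F i) (σ : ℂ)).re + (σ - 1)⁻¹) (𝓝[>] 1) (𝓝 (γ i)))
    {φ : ℕ → ℝ} {φR φC : ℝ} (hg : Tendsto (fun i => logGenus (F i)) atTop atTop)
    (hφ : ∀ q, Tendsto (fun i => (placeCount (F i) q : ℝ) / logGenus (F i)) atTop (𝓝 (φ q)))
    (hR : Tendsto (fun i => (nrRealPlaces (F i) : ℝ) / logGenus (F i)) atTop (𝓝 φR))
    (hC : Tendsto (fun i => (nrComplexPlaces (F i) : ℝ) / logGenus (F i)) atTop (𝓝 φC)) :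
    Summable (fun q : ℕ => φ q * (Real.log q / ((q : ℝ) - 1))) ∧
      Tendsto (fun i => γ i / logGenus (F i)) atTop
        (𝓝 (-∑' q : ℕ, φ q * (Real.log q / ((q : ℝ) - 1)))) := by
  have h : RatiosTend F φ φR φC := ⟨hφ, hR, hC⟩
  simp only [← weight_eq, fun i => eq_ekConst (hγ i)]
  exact ⟨(h.basic_inequality hg).1, tendsto_ekConst_div h hg fun i => rhFor_of (hRH i)⟩

/-- **`∑ m re (1/ρ) / g` tends to the deficiency.** -/
theorem zero_sum_limit (F : ℕ → Type u) [∀ i, Field (F i)] [∀ i, NumberField (F i)]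
    (hRH : ∀ i, ∀ E : ℂ → ℂ, Differentiable ℂ E →
      (∀ s : ℂ, 1 < s.re → E s = (s - 1) * dedekindZeta (F i) s) →
        ∀ z : ℂ, E z = 0 → 0 < z.re → z.re < 1 → z.re = 1 / 2)
    {φ : ℕ → ℝ} {φR φC : ℝ} (hg : Tendsto (fun i => logGenus (F i)) atTop atTop)
    (hφ : ∀ q, Tendsto (fun i => (placeCount (F i) q : ℝ) / logGenus (F i)) atTop (𝓝 (φ q)))
    (hR : Tendsto (fun i => (nrRealPlaces (F i) : ℝ) / logGenus (F i)) atTop (𝓝 φR))
    (hC : Tendsto (fun i => (nrComplexPlaces (F i) : ℝ) / logGenus (F i)) atTop (𝓝 φC)) :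
    ∃ δ : ℝ, δ = 1 - (∑' q : ℕ, φ q * (Real.log q / ((q : ℝ) - 1))) -
        (φR * (Real.log (2 * √π) + eulerMascheroniConstant / 2) +
          φC * (Real.log (2 * π) + eulerMascheroniConstant)) ∧ 0 ≤ δ ∧
      Tendsto (fun i => (∑' ρ : ℂ, (xiMult (F i) ρ : ℝ) * (ρ⁻¹).re) / logGenus (F i)) atTop
        (𝓝 δ) := by
  have h : RatiosTend F φ φR φC := ⟨hφ, hR, hC⟩
  simp only [← weight_eq, ← realRate_one, ← complexRate_one]
  exact ⟨_, rfl, by linarith [(h.basic_inequality hg).2],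
    tendsto_zeroSum_div h hg fun i => rhFor_of (hRH i)⟩

/-- **With no hypothesis: from below along a family.** -/
theorem family_lower (F : ℕ → Type u) [∀ i, Field (F i)] [∀ i, NumberField (F i)]
    {γ : ℕ → ℝ} (hγ : ∀ i, Tendsto (fun σ : ℝ => (deriv (dedekindZeta (F i)) (σ : ℂ) /
      dedekindZeta (F i) (σ : ℂ)).re + (σ - 1)⁻¹) (𝓝[>] 1) (𝓝 (γ i)))
    {φ : ℕ → ℝ} {φR φC : ℝ} (hg : Tendsto (fun i => logGenus (F i)) atTop atTop)
    (hφ : ∀ q, Tendsto (fun i => (placeCount (F i) q : ℝ) / logGenus (F i)) atTop (𝓝 (φ q)))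
    (hR : Tendsto (fun i => (nrRealPlaces (F i) : ℝ) / logGenus (F i)) atTop (𝓝 φR))
    (hC : Tendsto (fun i => (nrComplexPlaces (F i) : ℝ) / logGenus (F i)) atTop (𝓝 φC))
    {ε : ℝ} (hε : 0 < ε) :
    ∀ᶠ i in atTop, (φR * (Real.log (2 * √π) + eulerMascheroniConstant / 2) +
      φC * (Real.log (2 * π) + eulerMascheroniConstant) - 1 - ε) * logGenus (F i) < γ i := by
  simp only [← realRate_one, ← complexRate_one, fun i => eq_ekConst (hγ i)]
  exact eventually_ekConst_gt ⟨hφ, hR, hC⟩ hg hε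

/-- **`n/g → 0`: then `γ/g → 0`.** -/
theorem family_limit_zero {ι : Type*} {l : Filter ι} (G : ι → Type u) [∀ i, Field (G i)]
    [∀ i, NumberField (G i)]
    (hRH : ∀ i, ∀ E : ℂ → ℂ, Differentiable ℂ E →
      (∀ s : ℂ, 1 < s.re → E s = (s - 1) * dedekindZeta (G i) s) →
        ∀ z : ℂ, E z = 0 → 0 < z.re → z.re < 1 → z.re = 1 / 2)
    {γ : ι → ℝ} (hγ : ∀ i, Tendsto (fun σ : ℝ => (deriv (dedekindZeta (G i)) (σ : ℂ) /
      dedekindZeta (G i) (σ : ℂ)).re + (σ - 1)⁻¹) (𝓝[>] 1) (𝓝 (γ i)))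
    (hg : Tendsto (fun i => logGenus (G i)) l atTop)
    (hn : Tendsto (fun i => (finrank ℚ (G i) : ℝ) / logGenus (G i)) l (𝓝 0)) :
    Tendsto (fun i => γ i / logGenus (G i)) l (𝓝 0) := by
  simp only [fun i => eq_ekConst (hγ i)]
  exact tendsto_ekConst_zero G hg hn fun i => rhFor_of (hRH i)

end FA.EulerKroneckerFamilies.Summary

end
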