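import Fermat.Agent.Elkies.Curve

/-!
# Euler's conjecture fails for fourth powers

Euler's generalisation of Fermat's Last Theorem said that a fourth power is never the sum of three
positive fourth powers.  Frye's solution refutes it, and, by Elkies' theorem, so do infinitely
many primitive ones.
-/

set_option autoImplicit false

noncomputable section

namespace FA.Summary

/-- **Frye's counterexample.** -/
theorem euler_counterexample_frye : (95800 : ℕ) ^ 4 + 217519 ^ 4 + 414560 ^ 4 = 422481 ^ 4 := by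
  norm_num

/-- **The surface `r⁴ + s⁴ + t⁴ = 1` has infinitely many positive rational points.** -/
theorem elkies_rational :
    {p : ℚ × ℚ × ℚ | (0 < p.1 ∧ 0 < p.2.1 ∧ 0 < p.2.2) ∧
      p.1 ^ 4 + p.2.1 ^ 4 + p.2.2 ^ 4 = 1}.Infinite :=
  FA.Elkies.infinite_positive

/-- **Elkies' theorem**: infinitely many primitive solutions of `a⁴ + b⁴ + c⁴ = d⁴` in positive
integers. -/
theorem elkies_infinite :
    {q : ℕ × ℕ × ℕ × ℕ | (0 < q.1 ∧ 0 < q.2.1 ∧ 0 < q.2.2.1 ∧ 0 < q.2.2.2) ∧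
      Nat.gcd (Nat.gcd q.1 q.2.1) (Nat.gcd q.2.2.1 q.2.2.2) = 1 ∧
      q.1 ^ 4 + q.2.1 ^ 4 + q.2.2.1 ^ 4 = q.2.2.2 ^ 4}.Infinite := by
  intro hfin
  let f : ℕ × ℕ × ℕ × ℕ → ℚ × ℚ × ℚ := fun q =>
    ((q.1 : ℚ) / q.2.2.2, (q.2.1 : ℚ) / q.2.2.2, (q.2.2.1 : ℚ) / q.2.2.2)
  refine elkies_rational ((hfin.image f).subset ?_)
  rintro ⟨r, s, t⟩ ⟨⟨hr, hs, ht⟩, h⟩
  simp only at hr hs ht h
  -- a common denominator
  set D := r.den * s.den * t.den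
  have hnum : ∀ u : ℚ, 0 < u → u.den ∣ D → ∃ A : ℕ, 0 < A ∧ (A : ℚ) = u * D := by
    intro u hu ⟨c, hc⟩
    obtain ⟨n, hn⟩ : ∃ n : ℕ, u.num = n := ⟨u.num.toNat, (Int.toNat_of_nonneg
      (Rat.num_nonneg.mpr hu.le)).symm⟩
    have hn0 : 0 < n := by
      have := Rat.num_pos.mpr hu
      omega
    have hc0 : 0 < c := Nat.pos_of_ne_zero fun e => by
      rw [e, mul_zero] at hc
      exact (mul_ne_zero (mul_ne_zero r.den_ne_zero s.den_ne_zero) t.den_ne_zero) hc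
    refine ⟨n * c, Nat.mul_pos hn0 hc0, ?_⟩
    have e := Rat.mul_den_eq_num u
    rw [hn] at e
    rw [hc]
    push_cast at e ⊢
    rw [← e]
    ring
  obtain ⟨A, hA0, hA⟩ := hnum r hr ⟨s.den * t.den, by simp [D, mul_assoc]⟩
  obtain ⟨B, hB0, hB⟩ := hnum s hs ⟨r.den * t.den, by simp [D]; ring⟩
  obtain ⟨C, hC0, hC⟩ := hnum t ht ⟨r.den * s.den, by simp [D]; ring⟩
  have hD : 0 < D := Nat.mul_pos (Nat.mul_pos r.den_pos s.den_pos) t.den_pos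
  set g := Nat.gcd (Nat.gcd A B) (Nat.gcd C D)
  have hg : 0 < g := Nat.gcd_pos_of_pos_left _ (Nat.gcd_pos_of_pos_left _ hA0)
  obtain ⟨A', eA⟩ : g ∣ A := (Nat.gcd_dvd_left _ _).trans (Nat.gcd_dvd_left _ _)
  obtain ⟨B', eB⟩ : g ∣ B := (Nat.gcd_dvd_left _ _).trans (Nat.gcd_dvd_right _ _)
  obtain ⟨C', eC⟩ : g ∣ C := (Nat.gcd_dvd_right _ _).trans (Nat.gcd_dvd_left _ _)
  obtain ⟨D', eD⟩ : g ∣ D := (Nat.gcd_dvd_right _ _).trans (Nat.gcd_dvd_right _ _)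
  have hsol : (A : ℚ) ^ 4 + (B : ℚ) ^ 4 + (C : ℚ) ^ 4 = (D : ℚ) ^ 4 := by
    rw [hA, hB, hC]
    linear_combination (D : ℚ) ^ 4 * h
  have hsol' : A' ^ 4 + B' ^ 4 + C' ^ 4 = D' ^ 4 := by
    have e : A ^ 4 + B ^ 4 + C ^ 4 = D ^ 4 := by exact_mod_cast hsol
    rw [eA, eB, eC, eD, mul_pow, mul_pow, mul_pow, mul_pow, ← mul_add, ← mul_add] at e
    exact Nat.eq_of_mul_eq_mul_left (pow_pos hg 4) e
  have hgcd : Nat.gcd (Nat.gcd A' B') (Nat.gcd C' D') = 1 := by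
    have e : g = g * Nat.gcd (Nat.gcd A' B') (Nat.gcd C' D') := by
      conv_lhs => rw [show g = Nat.gcd (Nat.gcd A B) (Nat.gcd C D) from rfl, eA, eB, eC, eD]
      rw [Nat.gcd_mul_left, Nat.gcd_mul_left, Nat.gcd_mul_left]
    exact (Nat.mul_eq_left hg.ne').mp e.symm
  have hpos : ∀ {X X' : ℕ}, 0 < X → X = g * X' → 0 < X' := fun hX e =>
    Nat.pos_of_ne_zero fun e' => by rw [e', mul_zero] at e; omega
  refine ⟨(A', B', C', D'), ⟨⟨hpos hA0 eA, hpos hB0 eB, hpos hC0 eC, hpos hD eD⟩, hgcd, hsol'⟩,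
    ?_⟩
  have hgq : (g : ℚ) ≠ 0 := Nat.cast_ne_zero.mpr hg.ne'
  have hD' : (D' : ℚ) ≠ 0 := Nat.cast_ne_zero.mpr (hpos hD eD).ne'
  rw [eA, eD] at hA
  rw [eB, eD] at hB
  rw [eC, eD] at hC
  push_cast at hA hB hC
  simp only [f, Prod.mk.injEq]
  refine ⟨?_, ?_, ?_⟩ <;> rw [div_eq_iff hD'] <;> apply mul_left_cancel₀ hgq <;> linarith

/-- **Euler's conjecture is false** with solutions of every size. -/
theorem euler_conjecture_false (N : ℕ) : ∃ a b c d : ℕ, N < d ∧ 0 < a ∧ 0 < b ∧ 0 < c ∧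
    Nat.gcd (Nat.gcd a b) (Nat.gcd c d) = 1 ∧ a ^ 4 + b ^ 4 + c ^ 4 = d ^ 4 := by
  by_contra h
  refine elkies_infinite (Set.Finite.subset
    ((Finset.range (N + 1) ×ˢ Finset.range (N + 1) ×ˢ Finset.range (N + 1) ×ˢ
      Finset.range (N + 1)).finite_toSet) ?_)
  rintro ⟨a, b, c, d⟩ ⟨⟨ha, hb, hc, hd⟩, hg, he⟩
  simp only at ha hb hc hd hg he
  have hdN : d ≤ N := by
    by_contra hlt
    exact h ⟨a, b, c, d, by omega, ha, hb, hc, hg, he⟩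
  have hle : ∀ x, x ^ 4 ≤ d ^ 4 → x < N + 1 := fun x hx =>
    Nat.lt_succ_iff.mpr (((Nat.pow_le_pow_iff_left (by norm_num)).mp hx).trans hdN)
  simp only [Finset.coe_product, Finset.coe_range, Set.mem_prod, Set.mem_Iio]
  exact ⟨hle a (by omega), hle b (by omega), hle c (by omega), by omega⟩

end FA.Summary

end
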