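import Fermat.Agent.EulerSeries.HarmonicSum
import Fermat.Agent.EulerSeries.GoldbachEuler

/-!
# Series of Euler and Goldbach
-/

set_option autoImplicit false

noncomputable section

namespace FA.Summary

/-- **Euler**: `∑ H n / n ^ 2 = 2 ∑ 1 / n ^ 3`. -/
theorem euler_harmonic_sum :
    HasSum (fun n : ℕ => (harmonic (n + 1) : ℝ) / ((n : ℝ) + 1) ^ 2)
      (2 * ∑' n : ℕ, 1 / ((n : ℝ) + 1) ^ 3) :=
  EulerSeries.euler_sum

/-- **Euler**: `∑ H n / n ^ 2 = 2 ζ 3`. -/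
theorem euler_harmonic_zeta :
    ((∑' n : ℕ, (harmonic (n + 1) : ℝ) / ((n : ℝ) + 1) ^ 2 : ℝ) : ℂ) = 2 * riemannZeta 3 :=
  EulerSeries.euler_sum_zeta

/-- **Goldbach and Euler**: `∑ 1 / (x - 1) = 1` over the perfect powers `x`, each taken once. -/
theorem goldbach_euler_perfect_powers :
    HasSum (fun x : {x : ℕ // ∃ a k, 2 ≤ a ∧ 2 ≤ k ∧ x = a ^ k} => 1 / ((x : ℝ) - 1)) 1 :=
  EulerSeries.goldbach_euler

end FA.Summary
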