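import Fermat.Agent.BeukersSchlickewei.ThueMahler
import Mathlib.RingTheory.DedekindDomain.SInteger

/-!
# Evertse's uniform bounds for the `S`-unit and the Thue–Mahler equation

In a number field `a x + b y = 1` has a number of solutions in `S`-units bounded by the number of
places alone (`evertse_sunit_equation`). An integral binary form of degree `n` with three distinct
linear factors over `ℂ` takes values composed of `t` given primes at no more than
`1110 * 5 ^ (19 (2 n! (t + 1) + 1))` coprime pairs, whatever its coefficients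
(`evertse_thue_mahler`; Evertse 1984); so `F (x, y) = m` has a number of coprime solutions bounded
by the degree and the number of primes of `m` alone (`evertse_thue_equation`).
-/

set_option autoImplicit false

noncomputable section

open NumberField FA.BeukersSchlickewei Finset IsDedekindDomain

namespace FA.Summary

/-- **Evertse's bound for the `S`-unit equation**, by the number of places alone. -/
theorem evertse_sunit_equation {K : Type*} [Field K] [NumberField K]
    (S : Finset (HeightOneSpectrum (𝓞 K))) {a b : K} (ha : a ≠ 0) (hb : b ≠ 0) :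
    {u : Kˣ × Kˣ | u.1 ∈ (S : Set (HeightOneSpectrum (𝓞 K))).unit K ∧
        u.2 ∈ (S : Set (HeightOneSpectrum (𝓞 K))).unit K ∧ a * u.1 + b * u.2 = 1}.Finite ∧
      {u : Kˣ × Kˣ | u.1 ∈ (S : Set (HeightOneSpectrum (𝓞 K))).unit K ∧
        u.2 ∈ (S : Set (HeightOneSpectrum (𝓞 K))).unit K ∧ a * u.1 + b * u.2 = 1}.ncard ≤
        555 * 5 ^ (19 * (2 * (Fintype.card (InfinitePlace K) + S.card) + 1)) := by
  classical
  set U := {u : Kˣ × Kˣ | u.1 ∈ (S : Set (HeightOneSpectrum (𝓞 K))).unit K ∧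
    u.2 ∈ (S : Set (HeightOneSpectrum (𝓞 K))).unit K ∧ a * u.1 + b * u.2 = 1}
  have h : ∀ W : Finset (Kˣ × Kˣ), (W : Set (Kˣ × Kˣ)) ⊆ U →
      W.card ≤ solutionBound (2 * (Fintype.card (InfinitePlace K) + S.card) + 1) := by
    intro W hW
    refine (card_line_solutions_le ha hb (S.image FinitePlace.mk) W (fun u hu v hv => ?_)
      fun u hu => (hW hu).2.2).trans ?_
    · have hv' : v.maximalIdeal ∉ (S : Set (HeightOneSpectrum (𝓞 K))) := fun h =>
        hv (mem_image.2 ⟨_, h, FinitePlace.mk_maximalIdeal v⟩)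
      rw [← FinitePlace.mk_maximalIdeal v, mk_eq_one_iff, mk_eq_one_iff]
      exact ⟨(hW hu).1 _ hv', (hW hu).2.1 _ hv'⟩
    · unfold solutionBound
      have := card_image_le (s := S) (f := FinitePlace.mk)
      exact Nat.mul_le_mul_left _ (Nat.pow_le_pow_right (by norm_num) (by omega))
  have hfin : U.Finite := by
    by_contra hinf
    obtain ⟨W, hW, hcard⟩ := Set.Infinite.exists_subset_card_eq hinf
      (solutionBound (2 * (Fintype.card (InfinitePlace K) + S.card) + 1) + 1)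
    have := h W hW
    omega
  refine ⟨hfin, ?_⟩
  rw [Set.ncard_eq_toFinset_card _ hfin]
  exact h _ hfin.coe_toFinset.subset

/-- **Evertse**: the Thue–Mahler equation has boundedly many solutions, uniformly in the form. -/
theorem evertse_thue_mahler {n : ℕ} {F : MvPolynomial (Fin 2) ℤ} (hF : F.IsHomogeneous n)
    (h3 : ∃ P : Fin 3 → Fin 2 → ℂ, (∀ i, MvPolynomial.aeval (P i) F = 0) ∧
      ∀ i j, i ≠ j → P i 0 * P j 1 ≠ P j 0 * P i 1)
    (T : Finset ℕ) :
    {z : Fin 2 → ℤ | IsCoprime (z 0) (z 1) ∧ MvPolynomial.aeval z F ≠ 0 ∧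
        ∀ p : ℕ, p.Prime → (p : ℤ) ∣ MvPolynomial.aeval z F → p ∈ T}.Finite ∧
      {z : Fin 2 → ℤ | IsCoprime (z 0) (z 1) ∧ MvPolynomial.aeval z F ≠ 0 ∧
        ∀ p : ℕ, p.Prime → (p : ℤ) ∣ MvPolynomial.aeval z F → p ∈ T}.ncard ≤
        1110 * 5 ^ (19 * (2 * (n.factorial * (T.card + 1)) + 1)) := by
  set U := {z : Fin 2 → ℤ | IsCoprime (z 0) (z 1) ∧ MvPolynomial.aeval z F ≠ 0 ∧
    ∀ p : ℕ, p.Prime → (p : ℤ) ∣ MvPolynomial.aeval z F → p ∈ T}
  have h : ∀ Z : Finset (Fin 2 → ℤ), (Z : Set (Fin 2 → ℤ)) ⊆ U →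
      Z.card ≤ 1110 * 5 ^ (19 * (2 * (n.factorial * (T.card + 1)) + 1)) := fun Z hZ =>
    (card_thue_mahler_le hF h3 T Z fun z hz => hZ hz).trans_eq (by
      unfold thueMahlerBound solutionBound; ring)
  have hfin : U.Finite := by
    by_contra hinf
    obtain ⟨Z, hZ, hcard⟩ := Set.Infinite.exists_subset_card_eq hinf
      (1110 * 5 ^ (19 * (2 * (n.factorial * (T.card + 1)) + 1)) + 1)
    have := h Z hZ
    omega
  refine ⟨hfin, ?_⟩
  rw [Set.ncard_eq_toFinset_card _ hfin]
  exact h _ hfin.coe_toFinset.subset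

/-- **The Thue equation**: boundedly many coprime solutions, by the degree and `ω(m)` alone. -/
theorem evertse_thue_equation {n : ℕ} {F : MvPolynomial (Fin 2) ℤ} (hF : F.IsHomogeneous n)
    (h3 : ∃ P : Fin 3 → Fin 2 → ℂ, (∀ i, MvPolynomial.aeval (P i) F = 0) ∧
      ∀ i j, i ≠ j → P i 0 * P j 1 ≠ P j 0 * P i 1)
    {m : ℤ} (hm : m ≠ 0) :
    {z : Fin 2 → ℤ | IsCoprime (z 0) (z 1) ∧ MvPolynomial.aeval z F = m}.Finite ∧
      {z : Fin 2 → ℤ | IsCoprime (z 0) (z 1) ∧ MvPolynomial.aeval z F = m}.ncard ≤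
        1110 * 5 ^ (19 * (2 * (n.factorial * (m.natAbs.primeFactors.card + 1)) + 1)) := by
  obtain ⟨hfin, hcard⟩ := evertse_thue_mahler hF h3 m.natAbs.primeFactors
  have hsub : {z : Fin 2 → ℤ | IsCoprime (z 0) (z 1) ∧ MvPolynomial.aeval z F = m} ⊆
      {z : Fin 2 → ℤ | IsCoprime (z 0) (z 1) ∧ MvPolynomial.aeval z F ≠ 0 ∧
        ∀ p : ℕ, p.Prime → (p : ℤ) ∣ MvPolynomial.aeval z F → p ∈ m.natAbs.primeFactors} := by
    rintro z ⟨hco, hz⟩
    refine ⟨hco, by rw [hz]; exact hm, fun p hp hd => ?_⟩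
    rw [hz] at hd
    exact Nat.mem_primeFactors.2 ⟨hp, Int.natCast_dvd.1 hd, Int.natAbs_ne_zero.2 hm⟩
  exact ⟨hfin.subset hsub, (Set.ncard_le_ncard hsub hfin).trans hcard⟩

end FA.Summary

end
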