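import Fermat.Agent.EveryDeRham.Main
import Fermat.Agent.CM.Count
import Fermat.Agent.Ribet.ThirtyThree

/-!
# Every elliptic curve over `ℚ` is de Rham at every prime

`W` is a Weierstrass equation over `ℤ` with any reduction at `p`, `B` a basis of the `p`-adic Tate
module and `curveAtP B` the representation on `ℚ_p ^ 2` of the Galois group of `ℚ_p`. Every `p` is
allowed, `p = 2` included, and every kind of reduction: a pole of `j`, potentially ordinary and
potentially supersingular. The weights are signed as in `SummaryPadicHodge`: `χ` has weight `1`.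
Crystalline and semistable periods are not treated, nor curves over other number fields.
-/

set_option autoImplicit false
set_option linter.unusedSectionVars false

noncomputable section

open Finset Matrix WeierstrassCurve FA.TateSen FA.BDR FA.Sen FA.PadicHodge FA.PadicDescent
  FA.DRCoh FA.CurveDR FA.RT.Tate FA.Frob FA.EDR
open scoped Classical

namespace FA.Summary

variable (p : ℕ) [hp : Fact p.Prime] (W : WeierstrassCurve ℤ) [(ratCurve W).IsElliptic]

local notation "Cp" => ℂ_[p]

/-- **Every elliptic curve over `ℚ` is de Rham at every prime**, with Hodge–Tate weights `1` and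
`0`: the periods have dimension two and their zeroth step dimension one. Dual and tensor square
are de Rham as well. -/
theorem every_curve_de_rham (B : TateBasis p W) :
    IsDeRham (curveAtP B) ∧
    (∃ P : (Matrix (Fin 2) (Fin 2) Cp)ˣ, ∀ τ, FA.Sen.conj (cpRep (curveAtP B)) P τ =
      Matrix.diagonal fun i => twist p (![1, 0] i) τ) ∧
    Module.finrank ℚ_[p] (dR (curveAtP B)) = 2 ∧
    (Module.finrank ℚ_[p] (filDR (curveAtP B) 0) = 1 ∧
      Module.finrank ℚ_[p] (filDR (curveAtP B) (-1)) = 2 ∧
      Module.finrank ℚ_[p] (filDR (curveAtP B) 1) = 0) ∧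
    IsDeRham (dualRep (curveAtP B)) ∧ IsDeRham (tensRep (curveAtP B) (curveAtP B)) := by
  obtain ⟨h, P, hP⟩ := isDeRham_curveAtP_any B
  refine ⟨h, ⟨P, hP⟩, (isDeRham_iff_finrank _).1 h, ⟨?_, ?_, ?_⟩,
    isDeRham_dual (isQpRep_curveAtP B) h, isDeRham_tens h h⟩ <;>
    rw [finrank_filDR_weights h hP] <;> decide

/-- **The same for a curve given over `ℚ`**, through an integral equation of it; bases of the Tate
module exist. -/
theorem every_rational_curve_de_rham (E : WeierstrassCurve ℚ) [E.IsElliptic] :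
    ∃ (W : WeierstrassCurve ℤ) (_ : W.IsIntegralModelOf E) (_ : (ratCurve W).IsElliptic),
      Nonempty (TateBasis p W) ∧ ∀ B : TateBasis p W, IsDeRham (curveAtP B) ∧
        ∃ P : (Matrix (Fin 2) (Fin 2) Cp)ˣ, ∀ τ, FA.Sen.conj (cpRep (curveAtP B)) P τ =
          Matrix.diagonal fun i => twist p (![1, 0] i) τ := by
  obtain ⟨W, hW⟩ := FA.Frob.exists_integralModel E
  have := ratCurve_isElliptic_of_Δ (Δ_ne_zero_of_model hW)
  exact ⟨W, hW, this, exists_tateBasis W, fun B => isDeRham_curveAtP_any B⟩

/-- **Examples at `2`**: `y² = x³ - x`, additive there with `j = 1728`, and `34a`, multiplicative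
there. -/
theorem de_rham_at_two_examples [Fact (Nat.Prime 2)] :
    (∃ _ : (ratCurve (FA.CM.curve32 : WeierstrassCurve ℤ)).IsElliptic,
      (2 : ℤ) ∣ (FA.CM.curve32 : WeierstrassCurve ℤ).Δ ∧
      (2 : ℤ) ∣ (FA.CM.curve32 : WeierstrassCurve ℤ).c₄ ∧
      Nonempty (TateBasis 2 (FA.CM.curve32 : WeierstrassCurve ℤ)) ∧
        ∀ B : TateBasis 2 (FA.CM.curve32 : WeierstrassCurve ℤ), IsDeRham (curveAtP B)) ∧
    ∃ _ : (ratCurve FA.Ribet.curve34).IsElliptic, (2 : ℤ) ∣ FA.Ribet.curve34.Δ ∧
      ¬ (2 : ℤ) ∣ FA.Ribet.curve34.c₄ ∧ Nonempty (TateBasis 2 FA.Ribet.curve34) ∧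
        ∀ B : TateBasis 2 FA.Ribet.curve34, IsDeRham (curveAtP B) := by
  have h32 : (FA.CM.curve32 : WeierstrassCurve ℤ).Δ ≠ 0 := by decide
  have h34 : FA.Ribet.curve34.Δ ≠ 0 := by decide
  have := ratCurve_isElliptic_of_Δ h32
  have := ratCurve_isElliptic_of_Δ h34
  exact ⟨⟨_, by decide, by decide, exists_tateBasis _, fun B => (isDeRham_curveAtP_any B).1⟩,
    _, by decide, by decide, exists_tateBasis _, fun B => (isDeRham_curveAtP_any B).1⟩

end FA.Summary
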