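import Fermat.Agent.JZeroInertia.ExactCount

/-!
# Summary: the classes fixed by inertia modulo the toric ones are cuspidal

`p` is a prime, `n` the numerator of `(p - 1) / 12`, `g = dim S₂(Γ₀(p))` and `M` is prime to `6 p`.

* `fixed_card_exact`: inertia at `p` fixes exactly `M ^ g · gcd (M, n)` classes of `J₀(p)[M]`;
* `displaced_card_exact`: one element `s` of inertia generates its image on `J₀(p)[M]`, and its
  displaced classes `s • y - y`, times `gcd (M, n)`, are `M ^ g` in number;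
* `toric_cusp_decomposition`: for a rational class `c` of order `n` and every `M` there are `M ^ g`
  fixed classes forming a group `T` which holds every `τ • y - y`, meets the multiples of `c` in `0`
  and spans the fixed classes with them; the fixed classes modulo `T` are Eisenstein:
  `U_p = 1` and `T_r = r + 1`;
* `level_eleven_fixed_card_exact`: at level `11` inertia fixes `M · gcd (M, 5)` classes of
  `J₀(11)[M]`, `M` prime to `66`.

So, away from `2`, `3` and `p`, the component group read on inertia is cyclic of order `n`,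
generated by the cuspidal class. Not proved here: the primes `2`, `3` and the torsion of `p`-power
order.
-/

set_option autoImplicit false
set_option linter.style.haveILetI false
set_option linter.unusedSectionVars false
set_option synthInstance.maxHeartbeats 400000
set_option maxHeartbeats 1000000

noncomputable section

open ModularCurve FA.Mazur FA.JTorsion FA.ModField CongruenceSubgroup
open scoped MatrixGroups

namespace FA.ExactComponentJZero.Summary

open FA.JZeroInertia

local notation "Qb" => AlgebraicClosure ℚ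
local notation "GQ" => AlgebraicClosure ℚ ≃ₐ[ℚ] AlgebraicClosure ℚ

variable {p : ℕ} [hp : Fact p.Prime]

/-- **Exactly `M ^ g · gcd (M, n)` fixed classes.** -/
theorem fixed_card_exact {M : ℕ} (hM : M.Coprime (6 * p)) {A : ValuationSubring Qb}
    (hA : A.LiesOverPrime p) :
    Nat.card {x : JZero p // M • x = 0 ∧ ∀ τ ∈ A.inertiaSubgroupIn ℚ, τ • x = x} =
      M ^ Module.finrank ℂ (CuspForm (Gamma0 p) 2) * Nat.gcd M (eisensteinNumerator p) := by
  haveI : NeZero p := ⟨hp.out.ne_zero⟩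
  rw [card_fixI, card_fixI_eq hA M hM]

/-- **The classes displaced by a generator of inertia.** -/
theorem displaced_card_exact {M : ℕ} (hM : M.Coprime (6 * p)) {A : ValuationSubring Qb}
    (hA : A.LiesOverPrime p) :
    ∃ s ∈ A.inertiaSubgroupIn ℚ,
      (∀ τ ∈ A.inertiaSubgroupIn ℚ, ∃ i : ℕ, ∀ y : JZero p, M • y = 0 → τ • y = s ^ i • y) ∧
      Nat.card {x : JZero p // ∃ y : JZero p, M • y = 0 ∧ x = s • y - y} *
          Nat.gcd M (eisensteinNumerator p) =
        M ^ Module.finrank ℂ (CuspForm (Gamma0 p) 2) := by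
  haveI : NeZero p := ⟨hp.out.ne_zero⟩
  have hM0 : M ≠ 0 := fun h0 => by
    rw [h0, Nat.coprime_zero_left] at hM
    omega
  haveI : NeZero M := ⟨hM0⟩
  obtain ⟨alg⟩ := exists_algebra_qbar
  letI := alg
  obtain ⟨s, hs, hgen⟩ := exists_inertia_gen hA M hM
  refine ⟨s, hs, hgen, ?_⟩
  obtain ⟨hfinT, hcardT⟩ := card_torsSub (p := p) M
  haveI := hfinT
  set g := Module.finrank ℂ (CuspForm (Gamma0 p) 2)
  let D : torsSub p M →+ JZero p := (subOne p s).comp (torsSub p M).subtype
  have hfix : ∀ y : JZero p, M • y = 0 → (s • y = y ↔ y ∈ fixI p M A) := fun y hy => by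
    rw [mem_fixI]
    refine ⟨fun h => ⟨hy, fun τ hτ => ?_⟩, fun h => h.2 s hs⟩
    obtain ⟨i, hi⟩ := hgen τ hτ
    rw [hi y hy]
    clear hi
    induction i with
    | zero => rw [pow_zero, one_smul]
    | succ i ih => rw [pow_succ, mul_smul, h, ih]
  have hker : Nat.card D.ker = Nat.card (fixI p M A) :=
    Nat.card_congr
      { toFun := fun y => ⟨y.1.1, (hfix _ (mem_torsSub.1 y.1.2)).1 (sub_eq_zero.1 y.2)⟩
        invFun := fun x => ⟨⟨x.1, (mem_fixI.1 x.2).1⟩,
          sub_eq_zero.2 ((hfix _ (mem_fixI.1 x.2).1).2 x.2)⟩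
        left_inv := fun _ => rfl
        right_inv := fun _ => rfl }
  have hrange : Nat.card {x : JZero p // ∃ y : JZero p, M • y = 0 ∧ x = s • y - y} =
      Nat.card D.range :=
    Nat.card_congr (Equiv.subtypeEquivRight fun x =>
      ⟨fun ⟨y, hy, hx⟩ => ⟨⟨y, hy⟩, hx.symm⟩, fun ⟨y, hy⟩ => ⟨y.1, y.2, hy.symm⟩⟩)
  have hmul : Nat.card D.range * (M ^ g * Nat.gcd M (eisensteinNumerator p)) = M ^ g * M ^ g := by
    rw [← card_fixI_eq hA M hM, ← hker,
      ← Nat.card_congr (QuotientAddGroup.quotientKerEquivRange D).toEquiv,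
      ← AddSubgroup.card_eq_card_quotient_mul_card_addSubgroup, hcardT, two_mul, pow_add]
  rw [hrange]
  exact Nat.eq_of_mul_eq_mul_left (Nat.pos_of_ne_zero (pow_ne_zero g hM0))
    ((mul_left_comm _ _ _).trans hmul)

/-- **Toric and cuspidal classes.** -/
theorem toric_cusp_decomposition [NeZero p] (hp5 : 5 ≤ p) {A : ValuationSubring Qb}
    (hA : A.LiesOverPrime p) :
    ∃ c : JZero p, addOrderOf c = eisensteinNumerator p ∧ (∀ σ : GQ, σ • c = c) ∧
      ∀ M : ℕ, M.Coprime (6 * p) → ∃ T : AddSubgroup (JZero p),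
        (∀ x ∈ T, M • x = 0 ∧ ∀ τ ∈ A.inertiaSubgroupIn ℚ, τ • x = x) ∧
        (∀ τ ∈ A.inertiaSubgroupIn ℚ, ∀ y : JZero p, M • y = 0 → τ • y - y ∈ T) ∧
        Nat.card T = M ^ Module.finrank ℂ (CuspForm (Gamma0 p) 2) ∧
        (∀ t : ℕ, t • c ∈ T → t • c = 0) ∧
        ∀ x : JZero p, M • x = 0 → (∀ τ ∈ A.inertiaSubgroupIn ℚ, τ • x = x) →
          (∃ t : ℕ, x - t • c ∈ T) ∧ upJ p p x - x ∈ T ∧
          ∀ (r : ℕ) [NeZero r], r.Prime → r ≠ p → upJ p r x - (r + 1) • x ∈ T := by
  obtain ⟨c, hord, hrat, h⟩ := exists_cuspToric hp5 hA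
  refine ⟨c, hord, hrat, fun M hM => ?_⟩
  obtain ⟨T, hTF, hTd, hTc, hT0, hTx, hTU, hTr⟩ := h M hM
  exact ⟨T, fun x hx => mem_fixI.1 (hTF hx), hTd, hTc, hT0, fun x hx hτ =>
    ⟨hTx x (mem_fixI.2 ⟨hx, hτ⟩), hTU x (mem_fixI.2 ⟨hx, hτ⟩),
      fun r _ hr hrp => hTr x (mem_fixI.2 ⟨hx, hτ⟩) r hr hrp⟩⟩

/-- **At level `11`**: `M · gcd (M, 5)` fixed classes in `J₀(11)[M]`. -/
theorem level_eleven_fixed_card_exact [Fact (Nat.Prime 11)] {M : ℕ} (hM : M.Coprime 66)
    {A : ValuationSubring Qb} (hA : A.LiesOverPrime 11) :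
    Nat.card {x : JZero 11 // M • x = 0 ∧ ∀ τ ∈ A.inertiaSubgroupIn ℚ, τ • x = x} =
      M * Nat.gcd M 5 := by
  have h5 : eisensteinNumerator 11 = 5 := by decide
  rw [fixed_card_exact (p := 11) hM hA, FA.CuspClass.finrank_cuspForm_eleven, pow_one, h5]

end FA.ExactComponentJZero.Summary
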