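import Fermat.Agent.Monsky.Families

/-!
# Non-congruent numbers with any number of prime factors in each class

For each class `s = 1, 2, 3 (mod 8)` and every `k ≥ 2` (`k ≥ 1` for `s = 2, 3`) infinitely many
squarefree `n ≡ s` with exactly `k` odd prime factors are not congruent: the group of
`y² = x³ - n² x` is `ℤ/2 × ℤ/2`.
-/

set_option autoImplicit false

noncomputable section

namespace FA.Summary

open FA.Monsky

/-- **Non-congruent numbers with `k` odd prime factors in each class `1, 2, 3 (mod 8)`**, all primes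
above any bound, with point group `ℤ/2 × ℤ/2`. -/
theorem not_congruent_families (s k B : ℕ)
    (hs : s = 1 ∧ 2 ≤ k ∨ s = 2 ∧ 1 ≤ k ∨ s = 3 ∧ 1 ≤ k) :
    ∃ (n : ℕ) (P : Fin k → ℕ), (∀ i, (P i).Prime ∧ P i ≠ 2 ∧ B < P i) ∧ Function.Injective P ∧
      n = (if s = 2 then 2 else 1) * ∏ i, P i ∧ n % 8 = s ∧
      (¬ ∃ a b c : ℚ, 0 < a ∧ 0 < b ∧ 0 < c ∧ a ^ 2 + b ^ 2 = c ^ 2 ∧ a * b / 2 = (n : ℚ)) ∧
      Nonempty ((⟨0, 0, 0, -(n : ℚ) ^ 2, 0⟩ : WeierstrassCurve ℚ).toAffine.Point ≃+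
        ZMod 2 × ZMod 2) := by
  obtain ⟨n, P, hP, hinj, hn, h8, he⟩ := exists_family s k B hs
  exact ⟨n, P, hP, hinj, hn, h8,
    not_congruent_of_equiv (by rintro rfl; simp at h8; omega) he, he⟩

/-- **Infinitely many for each class and each number of odd primes.** -/
theorem not_congruent_families_infinite (s k : ℕ)
    (hs : s = 1 ∧ 2 ≤ k ∨ s = 2 ∧ 1 ≤ k ∨ s = 3 ∧ 1 ≤ k) :
    {n : ℕ | Squarefree n ∧ n % 8 = s ∧ (n.primeFactors.erase 2).card = k ∧
      ¬ ∃ a b c : ℚ, 0 < a ∧ 0 < b ∧ 0 < c ∧ a ^ 2 + b ^ 2 = c ^ 2 ∧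
        a * b / 2 = (n : ℚ)}.Infinite := by
  refine Set.infinite_of_forall_exists_gt fun B => ?_
  obtain ⟨n, P, hP, hinj, hn, h8, hc, -⟩ := not_congruent_families s k B hs
  have hO : OddPrimes P := ⟨fun i => (hP i).1, fun i => (hP i).2.1, hinj⟩
  have hpr : ∀ q ∈ Finset.univ.image P, q.Prime := fun q hq => by
    obtain ⟨i, -, rfl⟩ := Finset.mem_image.1 hq
    exact (hP i).1
  have hpf : (∏ i, P i).primeFactors = Finset.univ.image P := by
    conv_lhs => rw [← Finset.prod_image (f := fun q => q) (g := P) hinj.injOn]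
    exact Nat.primeFactors_prod hpr
  have h2 : 2 ∉ Finset.univ.image P := fun h => by
    obtain ⟨i, -, hi⟩ := Finset.mem_image.1 h
    exact (hP i).2.1 hi
  have hsf := hO.squarefree_prod Finset.univ
  have hk : 0 < k := by omega
  have hB : B < ∏ i, P i := (hP ⟨0, hk⟩).2.2.trans_le
    (Nat.le_of_dvd hO.odd_prod.pos (Finset.dvd_prod_of_mem P (Finset.mem_univ _)))
  refine ⟨n, ⟨?_, h8, ?_, hc⟩, ?_⟩
  · rw [hn]
    split_ifs
    · exact Nat.squarefree_mul_iff.2 ⟨Nat.prime_two.coprime_iff_not_dvd.2 fun h =>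
        (Nat.not_even_iff_odd.2 hO.odd_prod) (even_iff_two_dvd.2 h),
          Nat.prime_two.squarefree, hsf⟩
    · rwa [one_mul]
  · rw [hn]
    split_ifs
    · rw [Nat.primeFactors_mul two_ne_zero hO.odd_prod.pos.ne', Nat.prime_two.primeFactors,
        Finset.erase_union_distrib, Finset.erase_singleton, Finset.empty_union, hpf,
        Finset.erase_eq_of_notMem h2, Finset.card_image_of_injective _ hinj, Finset.card_univ,
        Fintype.card_fin]
    · rw [one_mul, hpf, Finset.erase_eq_of_notMem h2, Finset.card_image_of_injective _ hinj,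
        Finset.card_univ, Fintype.card_fin]
  · rw [hn]
    split_ifs <;> omega

end FA.Summary

end
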