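import Fermat.Agent.Monsky.ExactFamily
import Fermat.Agent.Root.SummaryNonCongruentFamilies

/-!
# An exact descent group in an infinite family, and squares in progression

For infinitely many `n = 2 p` the curve `y² = x³ - n² x` has rank zero, exactly four triples of
classes are soluble over `ℝ` and every `ℚ_q` and exactly one of them over `ℚ`: the quotient, which
is `Ш[2]` (not defined here), has order four. For `k` primes in each class `1, 2, 3 (mod 8)`
infinitely many `n` are no common difference, up to squares, of three squares in progression.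
-/

set_option autoImplicit false

noncomputable section

namespace FA.Summary

open FA.Monsky

/-- **The descent quotient has order exactly four infinitely often.** -/
theorem descent_quotient_exact_infinite :
    {p : ℕ | p.Prime ∧
      Module.finrank ℤ
        (⟨0, 0, 0, -((2 * p : ℕ) : ℚ) ^ 2, 0⟩ : WeierstrassCurve ℚ).toAffine.Point = 0 ∧
      Nat.card {x : (Fin 1 → ZMod 2) × (Fin 1 → ZMod 2) × ZMod 2 //
        Soluble ℝ (2 * p : ℕ) (classProd (fun _ => p) x.1)
            (twoClass x.2.2 * classProd (fun _ => p) x.2.1 : ℕ)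
            (twoClass x.2.2 * classProd (fun _ => p) (x.1 + x.2.1) : ℕ) ∧
          ∀ (q : ℕ) [Fact q.Prime], Soluble ℚ_[q] (2 * p : ℕ) (classProd (fun _ => p) x.1)
            (twoClass x.2.2 * classProd (fun _ => p) x.2.1 : ℕ)
            (twoClass x.2.2 * classProd (fun _ => p) (x.1 + x.2.1) : ℕ)} = 4 ∧
      Nat.card {x : (Fin 1 → ZMod 2) × (Fin 1 → ZMod 2) × ZMod 2 //
        (Soluble ℝ (2 * p : ℕ) (classProd (fun _ => p) x.1)
            (twoClass x.2.2 * classProd (fun _ => p) x.2.1 : ℕ)
            (twoClass x.2.2 * classProd (fun _ => p) (x.1 + x.2.1) : ℕ) ∧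
          ∀ (q : ℕ) [Fact q.Prime], Soluble ℚ_[q] (2 * p : ℕ) (classProd (fun _ => p) x.1)
            (twoClass x.2.2 * classProd (fun _ => p) x.2.1 : ℕ)
            (twoClass x.2.2 * classProd (fun _ => p) (x.1 + x.2.1) : ℕ)) ∧
          Soluble ℚ (2 * p : ℕ) (classProd (fun _ => p) x.1)
            (twoClass x.2.2 * classProd (fun _ => p) x.2.1 : ℕ)
            (twoClass x.2.2 * classProd (fun _ => p) (x.1 + x.2.1) : ℕ)} = 1}.Infinite := by
  refine Set.infinite_of_forall_exists_gt fun B => ?_
  obtain ⟨p, hB, hp, h16⟩ := Nat.forall_exists_prime_gt_and_modEq B (q := 16) (a := 9)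
    (by norm_num) (by norm_num)
  have := Fact.mk hp
  exact ⟨p, ⟨hp, exact_descent h16⟩, hB⟩

/-- **No three squares in progression**: for infinitely many squarefree `n` in each class `1, 2, 3`
with exactly `k` odd primes, `x² - n y²` and `x² + n y²` are both squares only for `y = 0`, and
`x⁴ - n² y⁴ = z²` only for `y = 0`. -/
theorem no_squares_in_progression_infinite (s k : ℕ)
    (hs : s = 1 ∧ 2 ≤ k ∨ s = 2 ∧ 1 ≤ k ∨ s = 3 ∧ 1 ≤ k) :
    {n : ℕ | Squarefree n ∧ n % 8 = s ∧ (n.primeFactors.erase 2).card = k ∧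
      (∀ x y : ℚ, IsSquare (x ^ 2 - n * y ^ 2) → IsSquare (x ^ 2 + n * y ^ 2) → y = 0) ∧
      ∀ x y z : ℚ, x ^ 4 - (n : ℚ) ^ 2 * y ^ 4 = z ^ 2 → y = 0}.Infinite := by
  refine ((not_congruent_families_infinite s k hs).sdiff (Set.finite_singleton 1)).mono ?_
  rintro n ⟨⟨hsf, h8, hk, hc⟩, hn1⟩
  have hns : ¬ IsSquare n := fun ⟨r, hr⟩ => by
    obtain rfl : r = 1 := Nat.isUnit_iff.1 (hsf r (by rw [hr]))
    exact hn1 (by rw [hr]; rfl)
  have he := FA.CongruentNumber.point_equiv_of_not_congruent hsf.ne_zero hc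
  refine ⟨hsf, h8, hk, ?_, fun x y z h => quartic_trivial hsf.ne_zero hns he h⟩
  rintro x y ⟨r, hr⟩ ⟨t, ht⟩
  exact quartic_trivial (z := r * t) hsf.ne_zero hns he
    (x := x) (by linear_combination (x ^ 2 + n * y ^ 2) * hr + r * r * ht)

end FA.Summary

end
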