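import Fermat.Agent.GaussKolyvagin.Equality

/-!
# The exact orders of the odd eigenspaces of `Cl(ℚ(ζ_p))`

`p ≥ 5` is a prime, `K = ℚ(ζ_p)`, `σ ζ = ζ ^ a(σ)`. Weight `ω ^ i` means
`σ x = x ^ (a(σ) ^ (i p ^ k))` on the classes killed by `p ^ (k + 1)`: the Teichmüller character
modulo `p ^ (k + 1)`.

* `mazur_wiles_eigen_orders`: for odd `i`, `3 ≤ i ≤ p - 2`, there is `v` such that for all `k > v`
  the sum `∑_{t < p} t ^ (1 + (p - 1 - i) p ^ k)`, congruent to `p B_{1,ω^-i}` modulo `p ^ (k + 1)`,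
  has valuation exactly `v + 1`, and there are exactly `p ^ v` classes of weight `ω ^ i`.
* `weight_one_eigen_trivial`: no class but the trivial one has weight `ω`.
* `gauss_sum_component_bound`: the upper bound, for a component of the classes modulo `p ^ k₀`.
* `relative_class_number_exponent`: the exponent of `p` in `h / h⁺` is the sum of the exponents.

Classical (Mazur–Wiles; here by Kolyvagin's Euler system of Gauss sums, after Rubin, with the
relative class number formula); independent of S01.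
-/

set_option autoImplicit false
set_option linter.unusedSectionVars false

noncomputable section

open NumberField FA.Kolyvagin
open scoped Classical
open MonoidAlgebra (single)
open FA.HerbrandRibet (charEval teich)

namespace FA.Summary

variable (p : ℕ) [Fact p.Prime] (K : Type*) [Field K] [NumberField K]
  [IsCyclotomicExtension {p} ℚ K]

/-- The classes of weight `ω ^ i`, modulo `p ^ (k + 1)`, in the two notations. -/
theorem eigen_classes_iff (i k : ℕ) (x : ClassGroup (𝓞 K)) :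
    (∀ σ : K ≃ₐ[ℚ] K, ClassGroup.mulEquiv (RingOfIntegers.mapRingEquiv σ.toRingEquiv) x =
      x ^ (((IsCyclotomicExtension.Rat.galEquivZMod p K σ : (ZMod p)ˣ) : ZMod p).val ^ (i * p ^ k)))
    ↔ ∀ d : (ZMod p)ˣ, FA.Ext.sigmaCl p K d x = x ^ ((d : ZMod p).val ^ (i * p ^ k)) := by
  refine ⟨fun h d => ?_, fun h σ => ?_⟩
  · have h1 := h (FA.Ext.sigmaK p K d)
    rwa [show IsCyclotomicExtension.Rat.galEquivZMod p K (FA.Ext.sigmaK p K d) = d from
      MulEquiv.apply_symm_apply _ d] at h1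
  · obtain ⟨d, rfl⟩ := (IsCyclotomicExtension.Rat.galEquivZMod p K).symm.surjective σ
    rw [MulEquiv.apply_symm_apply]
    exact h d

/-- **The exact orders of the odd eigenspaces** (Mazur–Wiles). -/
theorem mazur_wiles_eigen_orders (hp5 : 5 ≤ p) (i : ℕ) (hi : Odd i) (hi3 : 3 ≤ i)
    (hip : i ≤ p - 2) :
    ∃ v, ∀ k, v < k →
      padicValNat p (∑ t ∈ Finset.range p, t ^ (1 + (p - 1 - i) * p ^ k)) = v + 1 ∧
      Nat.card {x : ClassGroup (𝓞 K) // x ^ p ^ (k + 1) = 1 ∧
        ∀ σ : K ≃ₐ[ℚ] K, ClassGroup.mulEquiv (RingOfIntegers.mapRingEquiv σ.toRingEquiv) x =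
          x ^ (((IsCyclotomicExtension.Rat.galEquivZMod p K σ : (ZMod p)ˣ) : ZMod p).val ^
            (i * p ^ k))} = p ^ v := by
  refine ⟨FA.GaussKolyvagin.bexp p i, fun k hk =>
    ⟨FA.GaussKolyvagin.padicValNat_sum hp5 hi hi3 (by omega) hk, ?_⟩⟩
  rw [← FA.GaussKolyvagin.card_eigen K hp5 hi hi3 (by omega) hk]
  exact Nat.card_congr (Equiv.subtypeEquivRight fun x => and_congr_right fun _ =>
    eigen_classes_iff p K i k x)

/-- **The weight `ω` is trivial.** -/
theorem weight_one_eigen_trivial (hp5 : 5 ≤ p) (k : ℕ) (x : ClassGroup (𝓞 K))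
    (hx : x ^ p ^ (k + 1) = 1)
    (heig : ∀ σ : K ≃ₐ[ℚ] K, ClassGroup.mulEquiv (RingOfIntegers.mapRingEquiv σ.toRingEquiv) x =
      x ^ (((IsCyclotomicExtension.Rat.galEquivZMod p K σ : (ZMod p)ˣ) : ZMod p).val ^ p ^ k)) :
    x = 1 :=
  FA.GaussKolyvagin.eq_one_of_weight_one K hp5 hx fun d => by
    have h := (eigen_classes_iff p K 1 k x).1 (fun σ => by rw [one_mul]; exact heig σ) d
    rwa [one_mul] at h

/-- **The bound by Kolyvagin's system of Gauss sums.** -/
theorem gauss_sum_component_bound (hp5 : 5 ≤ p) (i : ℕ) (hi : Odd i) (hi3 : 3 ≤ i)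
    (hip : i ≤ p - 2) {k k₀ v : ℕ} (hk : 0 < k) (hk₀ : k₀ ≤ k) (hvk : v < k) (hkv : k₀ + v ≤ k)
    {e : MonoidAlgebra (ZMod (p ^ k)) (ZMod p)ˣ}
    (hmul : ∀ x, x * e = single 1 (charEval (teich hk ^ i) x) * e)
    (heval : charEval (teich hk ^ i) e = 1)
    (hS : padicValNat p (∑ t ∈ Finset.range p, t ^ (1 + (p - 1 - i) * p ^ k)) = v + 1) :
    Nat.card (act (phiA (FA.Ext.sigmaK p K)) (pow_dvd_pow p hk₀) e :
      Aq K (p ^ k₀) →+ Aq K (p ^ k₀)).range ≤ p ^ v :=
  FA.GaussKolyvagin.card_range_le K hp5 hi hi3 (by omega) hk hk₀ hvk hkv hmul heval hS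

/-- **The exponent of `p` in the relative class number.** -/
theorem relative_class_number_exponent (hp5 : 5 ≤ p) :
    ∃ v : ℕ → ℕ,
      (∀ i, Odd i → 3 ≤ i → i ≤ p - 2 → ∀ k, v i < k →
        padicValNat p (∑ t ∈ Finset.range p, t ^ (1 + (p - 1 - i) * p ^ k)) = v i + 1) ∧
      padicValNat p (classNumber K) = padicValNat p (classNumber (maximalRealSubfield K)) +
        ∑ i ∈ ((Finset.range (p - 1)).filter Odd).erase 1, v i :=
  ⟨FA.GaussKolyvagin.bexp p, fun _ hi hi3 hip _ hk =>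
    FA.GaussKolyvagin.padicValNat_sum hp5 hi hi3 (by omega) hk,
    FA.GaussKolyvagin.sum_bexp hp5 K⟩

end FA.Summary
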