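import Fermat.Agent.JZeroInertia.ExactOrder
import Fermat.Agent.CuspClass.Eleven

/-!
# Summary: inertia at `p` on `J₀(p)[M]`, `M` prime to `6 p` only

`p` is a prime, `n` the numerator of `(p - 1) / 12`, `g = dim S₂(Γ₀(p))`; `M` may share primes
with `n`.

* `toric_free`: the `M ^ g` toric classes have `e ^ g` elements killed by `e ∣ M`, and for
  `a b = M` those killed by `a` are the multiples by `b`: they are free of rank `g` over `ℤ / M`;
* `inertia_trivial_iff`: inertia fixes all of `J₀(p)[M]` exactly when `M ^ g = gcd (M, n)`;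
* `inertia_order_exact`, `inertia_order_genus_one`: the image of inertia has order `M` for `g ≥ 2`
  and `M / gcd (M, n)` for `g = 1`;
* `not_potentially_unramified_all`: for `g > 0` and every prime `l ≥ 5`, `l ≠ p`, no open subgroup
  lets its inertia at `p` fix all the `l`-power torsion;
* `fixed_mod_displaced_eisenstein`: `(U_p - 1)²` and `(T_r - r - 1)²` send every fixed class to
  some `s y - y`, so both halves of the fixed classes modulo the displaced ones are Eisenstein;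
* `invariant_functional_vanishes`: hence an inertia invariant additive function on `J₀(p)[M]` with
  values in a domain kills the fixed classes as soon as on them some `T_r` acts by another scalar
  than `r + 1` or `U_p` by another than `1`;
* `level_eleven_inertia_order_exact`: at level `11` inertia acts on `J₀(11)[M]`, `M` prime to `66`,
  through a group of order `M / gcd (M, 5)`.

Not proved here: the primes `2`, `3` and the torsion of `p`-power order.
-/

set_option autoImplicit false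
set_option linter.style.haveILetI false
set_option linter.unusedSectionVars false
set_option synthInstance.maxHeartbeats 400000
set_option maxHeartbeats 1000000

noncomputable section

open ModularCurve FA.Mazur FA.JTorsion FA.ModField CongruenceSubgroup
open scoped MatrixGroups

namespace FA.ExactOrderJZero.Summary

open FA.JZeroInertia

local notation "Qb" => AlgebraicClosure ℚ
local notation "GQ" => AlgebraicClosure ℚ ≃ₐ[ℚ] AlgebraicClosure ℚ

variable {p : ℕ} [hp : Fact p.Prime]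

/-- **The toric classes are free of rank `g` over `ℤ / M`.** -/
theorem toric_free [NeZero p] (hp5 : 5 ≤ p) {A : ValuationSubring Qb} (hA : A.LiesOverPrime p)
    {M : ℕ} (hM : M.Coprime (6 * p)) :
    ∃ T : AddSubgroup (JZero p),
      (∀ x ∈ T, M • x = 0 ∧ ∀ τ ∈ A.inertiaSubgroupIn ℚ, τ • x = x) ∧
      (∀ τ ∈ A.inertiaSubgroupIn ℚ, ∀ y : JZero p, M • y = 0 → τ • y - y ∈ T) ∧
      Nat.card T = M ^ Module.finrank ℂ (CuspForm (Gamma0 p) 2) ∧
      (∀ e : ℕ, e ∣ M → Nat.card {x : JZero p // x ∈ T ∧ e • x = 0} =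
        e ^ Module.finrank ℂ (CuspForm (Gamma0 p) 2)) ∧
      ∀ a b : ℕ, a * b = M → ∀ x ∈ T, a • x = 0 → ∃ z ∈ T, b • z = x := by
  obtain ⟨c, hord, hrat, h⟩ := exists_cuspToric hp5 hA
  obtain ⟨T, hT⟩ := h M hM
  refine ⟨T, fun x hx => mem_fixI.1 (hT.1 hx), hT.2.1, hT.2.2.1, fun e he => ?_,
    fun a b hab x hx hax => ?_⟩
  · rw [← card_toric_tors hA hM hord hrat hT he]
    exact Nat.card_congr (Equiv.subtypeEquivRight fun _ => Iff.rfl)
  · subst hab
    exact exists_nsmul_eq_of_toric hA hM hord hrat hT hx hax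

/-- **When inertia fixes all of `J₀(p)[M]`.** -/
theorem inertia_trivial_iff {M : ℕ} (hM : M.Coprime (6 * p)) {A : ValuationSubring Qb}
    (hA : A.LiesOverPrime p) :
    (∀ τ ∈ A.inertiaSubgroupIn ℚ, ∀ y : JZero p, M • y = 0 → τ • y = y) ↔
      M ^ Module.finrank ℂ (CuspForm (Gamma0 p) 2) = Nat.gcd M (eisensteinNumerator p) := by
  haveI : NeZero p := ⟨hp.out.ne_zero⟩
  exact fixes_all_iff hA hM

theorem dvd_mul_of_pow_fixes (hg : 0 < Module.finrank ℂ (CuspForm (Gamma0 p) 2)) {M : ℕ}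
    (hM : M.Coprime (6 * p)) {A : ValuationSubring Qb} (hA : A.LiesOverPrime p) {s : GQ}
    (hs : s ∈ A.inertiaSubgroupIn ℚ)
    (hgen : ∀ τ ∈ A.inertiaSubgroupIn ℚ, ∃ i : ℕ, ∀ y : JZero p, M • y = 0 → τ • y = s ^ i • y)
    {j : ℕ} (hj : ∀ y : JZero p, M • y = 0 → s ^ j • y = y) : M ∣ j * eisensteinNumerator p := by
  haveI : NeZero p := ⟨hp.out.ne_zero⟩
  have h := (pow_fixes_all_iff hA hM hs hgen j).1 hj
  have hM0 : 0 < M := Nat.pos_of_ne_zero (ne_zero_of_coprime_six_mul hM)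
  have hd : Nat.gcd M j ∣ M := Nat.gcd_dvd_left _ _
  set m := M / Nat.gcd M j
  have hm : 0 < m := Nat.div_pos (Nat.le_of_dvd hM0 hd) (Nat.gcd_pos_of_pos_left _ hM0)
  have hle : Nat.gcd m (eisensteinNumerator p) = m :=
    le_antisymm (Nat.le_of_dvd hm (Nat.gcd_dvd_left _ _)) (h ▸ Nat.le_self_pow hg.ne' m)
  have hmn : m ∣ eisensteinNumerator p :=
    (dvd_of_eq hle.symm).trans (Nat.gcd_dvd_right _ _)
  exact (dvd_of_eq (Nat.mul_div_cancel' hd).symm).trans
    (Nat.mul_dvd_mul (Nat.gcd_dvd_right M j) hmn)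

/-- **Order exactly `M` for `g ≥ 2`.** -/
theorem inertia_order_exact (hg : 2 ≤ Module.finrank ℂ (CuspForm (Gamma0 p) 2)) {M : ℕ}
    (hM : M.Coprime (6 * p)) {A : ValuationSubring Qb} (hA : A.LiesOverPrime p) :
    ∃ s ∈ A.inertiaSubgroupIn ℚ,
      (∀ τ ∈ A.inertiaSubgroupIn ℚ, ∃ i : ℕ, ∀ y : JZero p, M • y = 0 → τ • y = s ^ i • y) ∧
      ∀ j : ℕ, (∀ y : JZero p, M • y = 0 → s ^ j • y = y) ↔ M ∣ j := by
  haveI : NeZero p := ⟨hp.out.ne_zero⟩
  obtain ⟨s, hs, hgen⟩ := exists_inertia_gen hA M hM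
  refine ⟨s, hs, hgen, fun j => ⟨fun hj => ?_,
    fun hj y hy => inertia_pow_eq_self hA (not_dvd_of_coprime_six_mul hM) hs hy hj⟩⟩
  have h := (pow_fixes_all_iff hA hM hs hgen j).1 hj
  have hM0 : 0 < M := Nat.pos_of_ne_zero (ne_zero_of_coprime_six_mul hM)
  set m := M / Nat.gcd M j with hm
  have hm0 : 0 < m := Nat.div_pos (Nat.le_of_dvd hM0 (Nat.gcd_dvd_left _ _))
    (Nat.gcd_pos_of_pos_left _ hM0)
  have h1 : m ^ 2 ≤ m := (Nat.pow_le_pow_right hm0 hg).trans
    (h.le.trans (Nat.le_of_dvd hm0 (Nat.gcd_dvd_left _ _)))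
  have hm1 : m = 1 := by
    rw [pow_two] at h1
    have := Nat.le_of_mul_le_mul_left (h1.trans_eq (mul_one m).symm) hm0
    omega
  have h2 := Nat.div_mul_cancel (Nat.gcd_dvd_left M j)
  rw [← hm, hm1, one_mul] at h2
  exact h2 ▸ Nat.gcd_dvd_right M j

/-- **Order exactly `M / gcd (M, n)` for `g = 1`.** -/
theorem inertia_order_genus_one (hg : Module.finrank ℂ (CuspForm (Gamma0 p) 2) = 1) {M : ℕ}
    (hM : M.Coprime (6 * p)) {A : ValuationSubring Qb} (hA : A.LiesOverPrime p) :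
    ∃ s ∈ A.inertiaSubgroupIn ℚ,
      (∀ τ ∈ A.inertiaSubgroupIn ℚ, ∃ i : ℕ, ∀ y : JZero p, M • y = 0 → τ • y = s ^ i • y) ∧
      ∀ j : ℕ, (∀ y : JZero p, M • y = 0 → s ^ j • y = y) ↔ M ∣ j * eisensteinNumerator p := by
  haveI : NeZero p := ⟨hp.out.ne_zero⟩
  obtain ⟨s, hs, hgen⟩ := exists_inertia_gen hA M hM
  refine ⟨s, hs, hgen, fun j =>
    ⟨dvd_mul_of_pow_fixes (by omega) hM hA hs hgen, fun hj => ?_⟩⟩
  refine (pow_fixes_all_iff hA hM hs hgen j).2 ?_
  rw [hg, pow_one, eq_comm]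
  refine Nat.gcd_eq_left ?_
  have hM0 : 0 < M := Nat.pos_of_ne_zero (ne_zero_of_coprime_six_mul hM)
  refine (Nat.mul_dvd_mul_iff_left (Nat.gcd_pos_of_pos_left j hM0)).1 ?_
  rw [Nat.mul_div_cancel' (Nat.gcd_dvd_left M j), ← Nat.gcd_mul_right]
  exact Nat.dvd_gcd (dvd_mul_right M _) hj

/-- **No open subgroup lets inertia fix the `l`-power torsion**, for every `l ≥ 5`, `l ≠ p`. -/
theorem not_potentially_unramified_all (hg : 0 < Module.finrank ℂ (CuspForm (Gamma0 p) 2)) {l : ℕ}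
    (hl : l.Prime) (h5 : 5 ≤ l) (hlp : l ≠ p) {A : ValuationSubring Qb} (hA : A.LiesOverPrime p)
    (U : Subgroup GQ) (hU : IsOpen (U : Set GQ)) :
    ∃ (k : ℕ) (x : JZero p), l ^ k • x = 0 ∧
      ∃ σ ∈ A.inertiaSubgroupIn ℚ, σ ∈ U ∧ σ • x ≠ x := by
  haveI : NeZero p := ⟨hp.out.ne_zero⟩
  haveI : Finite (GQ ⧸ U) := Subgroup.quotient_finite_of_isOpen U hU
  have hidx : U.index ≠ 0 := Subgroup.index_ne_zero_of_finite
  have hc6 : l.Coprime 6 := hl.coprime_iff_not_dvd.2 fun h => by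
    have := Nat.le_of_dvd (by norm_num) h
    interval_cases l <;> simp_all (config := {decide := true})
  set k := U.index * eisensteinNumerator p with hk
  have hco : (l ^ k).Coprime (6 * p) :=
    Nat.Coprime.pow_left _ (Nat.Coprime.mul_right hc6 ((Nat.coprime_primes hl hp.out).2 hlp))
  obtain ⟨s, hs, hgen⟩ := exists_inertia_gen hA (l ^ k) hco
  obtain ⟨a, ha0, hai, haU⟩ := Subgroup.exists_pow_mem_of_index_ne_zero hidx s
  by_contra hall
  push Not at hall
  have hdvd := dvd_mul_of_pow_fixes hg hco hA hs hgen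
    fun y hy => hall _ y hy (s ^ a) (pow_mem hs a) haU
  have h1 := Nat.le_of_dvd (Nat.mul_pos ha0 (Nat.pos_of_ne_zero numerator_ne_zero)) hdvd
  have h2 := Nat.lt_pow_self (n := k) hl.one_lt
  have h3 : a * eisensteinNumerator p ≤ k := Nat.mul_le_mul_right _ hai
  omega

/-- **The fixed classes modulo the displaced ones are Eisenstein.** -/
theorem fixed_mod_displaced_eisenstein [NeZero p] (hp5 : 5 ≤ p) {A : ValuationSubring Qb}
    (hA : A.LiesOverPrime p) {M : ℕ} (hM : M.Coprime (6 * p)) :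
    ∃ s ∈ A.inertiaSubgroupIn ℚ,
      (∀ τ ∈ A.inertiaSubgroupIn ℚ, ∃ i : ℕ, ∀ y : JZero p, M • y = 0 → τ • y = s ^ i • y) ∧
      ∀ x : JZero p, M • x = 0 → (∀ τ ∈ A.inertiaSubgroupIn ℚ, τ • x = x) →
        (∃ y : JZero p, M • y = 0 ∧
          upJ p p (upJ p p x - x) - (upJ p p x - x) = s • y - y) ∧
        ∀ (r : ℕ) [NeZero r], r.Prime → r ≠ p → ∃ y : JZero p, M • y = 0 ∧
          upJ p r (upJ p r x - (r + 1) • x) - (r + 1) • (upJ p r x - (r + 1) • x) = s • y - y := by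
  obtain ⟨c, hord, hrat, h⟩ := exists_cuspToric hp5 hA
  have hK := Nat.Coprime.pow_left (eisensteinNumerator p + 1) hM
  obtain ⟨T, hT⟩ := h _ hK
  obtain ⟨s, hs, hgen⟩ := exists_inertia_gen hA _ hK
  refine ⟨s, hs, fun τ hτ => ?_, fun x hx hfx => ⟨?_, fun r _ hr hrp => ?_⟩⟩
  · obtain ⟨i, hi⟩ := hgen τ hτ
    exact ⟨i, fun y hy => hi y (by rw [pow_succ', mul_nsmul, hy, nsmul_zero])⟩
  · let t : JZero p →+ JZero p := AddMonoidHom.mk' (fun x => upJ p p x - x) fun a b => by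
      rw [map_add]; abel
    exact exists_sq_displaced hA hM hord hrat hT hs hgen t
      (fun y => show upJ p p (s • y) - s • y = s • (upJ p p y - y) by rw [upJ_galois, smul_sub])
      hT.2.2.2.2.2.1 (mem_fixI.2 ⟨hx, hfx⟩)
  · let t : JZero p →+ JZero p := AddMonoidHom.mk' (fun x => upJ p r x - (r + 1) • x) fun a b => by
      rw [map_add, nsmul_add]; abel
    exact exists_sq_displaced hA hM hord hrat hT hs hgen t
      (fun y => show upJ p r (s • y) - (r + 1) • (s • y) = s • (upJ p r y - (r + 1) • y) by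
        rw [upJ_galois, smul_sub, smul_nsmul_comm])
      (fun z hz => hT.2.2.2.2.2.2 z hz r hr hrp) (mem_fixI.2 ⟨hx, hfx⟩)

/-- **An invariant function of a system which is not Eisenstein kills the fixed classes.** -/
theorem invariant_functional_vanishes [NeZero p] (hp5 : 5 ≤ p) {A : ValuationSubring Qb}
    (hA : A.LiesOverPrime p) {M : ℕ} (hM : M.Coprime (6 * p)) {R : Type*} [CommRing R] [IsDomain R]
    (φ : torsSub p M →+ R)
    (hφI : ∀ τ ∈ A.inertiaSubgroupIn ℚ, ∀ x y : torsSub p M, (y : JZero p) = τ • (x : JZero p) →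
      φ y = φ x)
    (r : ℕ) [NeZero r] (hr : r.Prime) (a : R)
    (ha : a ≠ if r = p then 1 else ((r + 1 : ℕ) : R))
    (hφr : ∀ x y : torsSub p M, (∀ τ ∈ A.inertiaSubgroupIn ℚ, τ • (x : JZero p) = x) →
      (y : JZero p) = upJ p r (x : JZero p) → φ y = a * φ x)
    (x : torsSub p M) (hx : ∀ τ ∈ A.inertiaSubgroupIn ℚ, τ • (x : JZero p) = x) : φ x = 0 := by
  obtain ⟨s, hs, -, h⟩ := fixed_mod_displaced_eisenstein hp5 hA hM
  obtain ⟨b, hab, hb⟩ : ∃ b : ℕ, a ≠ (b : R) ∧ ∃ y : JZero p, M • y = 0 ∧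
      upJ p r (upJ p r x.1 - b • x.1) - b • (upJ p r x.1 - b • x.1) = s • y - y := by
    split_ifs at ha with hrp
    · subst hrp
      exact ⟨1, by rw [Nat.cast_one]; exact ha, by
        simpa only [one_nsmul] using (h x.1 (mem_torsSub.1 x.2) hx).1⟩
    · exact ⟨r + 1, ha, (h x.1 (mem_torsSub.1 x.2) hx).2 r hr hrp⟩
  obtain ⟨y, hy, he⟩ := hb
  let u : torsSub p M := ⟨upJ p r x.1, by
    show M • upJ p r x.1 = 0
    rw [← map_nsmul, mem_torsSub.1 x.2, map_zero]⟩
  let z : torsSub p M := u - b • x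
  have hz : ∀ τ ∈ A.inertiaSubgroupIn ℚ, τ • (z : JZero p) = z := fun τ hτ => by
    show τ • (upJ p r x.1 - b • x.1) = upJ p r x.1 - b • x.1
    rw [smul_sub, smul_nsmul_comm, hx τ hτ, ← upJ_galois, hx τ hτ]
  let v : torsSub p M := ⟨upJ p r z.1, by
    show M • upJ p r z.1 = 0
    rw [← map_nsmul, mem_torsSub.1 z.2, map_zero]⟩
  let y' : torsSub p M := ⟨s • y, mem_torsSub.2 (nsmul_smul_eq_zero hy s)⟩
  have h0 : φ (v - b • z) = 0 := by
    rw [show v - b • z = y' - ⟨y, mem_torsSub.2 hy⟩ from Subtype.ext he, map_sub,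
      hφI s hs ⟨y, mem_torsSub.2 hy⟩ y' rfl, sub_self]
  rw [map_sub, map_nsmul, hφr z v hz rfl, show φ z = φ u - b • φ x from by rw [map_sub, map_nsmul],
    hφr x u hx rfl, nsmul_eq_mul, nsmul_eq_mul] at h0
  have h1 : (a - b) * ((a - b) * φ x) = 0 := by linear_combination h0
  rcases mul_eq_zero.1 h1 with h2 | h2
  · exact absurd (sub_eq_zero.1 h2) hab
  rcases mul_eq_zero.1 h2 with h3 | h3
  · exact absurd (sub_eq_zero.1 h3) hab
  · exact h3

/-- **At level `11`**: order exactly `M / gcd (M, 5)` (so trivial exactly for `M ∣ 5`, `j = 1`). -/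
theorem level_eleven_inertia_order_exact [Fact (Nat.Prime 11)] {M : ℕ} (hM : M.Coprime 66)
    {A : ValuationSubring Qb} (hA : A.LiesOverPrime 11) :
    ∃ s ∈ A.inertiaSubgroupIn ℚ,
      (∀ τ ∈ A.inertiaSubgroupIn ℚ, ∃ i : ℕ, ∀ y : JZero 11, M • y = 0 → τ • y = s ^ i • y) ∧
      ∀ j : ℕ, (∀ y : JZero 11, M • y = 0 → s ^ j • y = y) ↔ M ∣ j * 5 := by
  have h5 : eisensteinNumerator 11 = 5 := by decide
  rw [← h5]
  exact inertia_order_genus_one (p := 11) FA.CuspClass.finrank_cuspForm_eleven hM hA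

end FA.ExactOrderJZero.Summary
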