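import Fermat.Agent.OpenImageAll.NormalForm
import Fermat.Agent.Root.SummaryExceptionalField
import Fermat.Agent.Root.SummaryExceptionalStructure

/-!
# The explicit traces of an exceptional curve

An elliptic curve over `ℚ` with `a_q = 0` at the good primes inert in `ℚ(√-p)`, `p > 3`, has
`a_q = 0` at the good odd `q` that are no squares modulo `p`, and `a_q = (e / q) a` at those that
are, `a` the integer with `4 q = a² + p b²` and `(2 a / p) = 1`, for one squarefree `e`: Deuring's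
formula, with no table of curves.
-/

set_option autoImplicit false
set_option linter.style.haveILetI false

noncomputable section

open WeierstrassCurve FA.EC FA.Frob FA.RT
open scoped WeierstrassCurve.Affine NumberTheorySymbols

local notation "Qb" => AlgebraicClosure ℚ

namespace FA.Summary

/-- **Deuring's formula for every exceptional curve.** -/
theorem exceptional_traceFormula (E : WeierstrassCurve ℚ) [E.IsElliptic] {p : ℕ} (hp : p.Prime)
    (hp3 : 3 < p)
    (h : ∀ l : ℕ, ∀ [Fact l.Prime],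
      (∃ C : VariableChange ℚ_[l],
        HasGoodReduction ℤ_[l] (C • E.map (algebraMap ℚ ℚ_[l]))) →
      ¬ IsSquare ((-(p : ℤ) : ℤ) : ZMod l) → E.LFunction l = 0) :
    ∃ e : ℤ, Squarefree e ∧ ∀ q : ℕ, ∀ [Fact q.Prime], q ≠ 2 → q ≠ p → ¬ (q : ℤ) ∣ e →
      (∃ C : VariableChange ℚ_[q], HasGoodReduction ℤ_[q] (C • E.map (algebraMap ℚ ℚ_[q]))) →
      (¬ IsSquare (q : ZMod p) → E.LFunction q = 0) ∧
      (IsSquare (q : ZMod p) → ∃ a b : ℤ, 4 * (q : ℤ) = a ^ 2 + p * b ^ 2 ∧
        jacobiSym (2 * a) p = 1 ∧ E.LFunction q = jacobiSym e q * a ∧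
        ∀ a' b' : ℤ, 4 * (q : ℤ) = a' ^ 2 + p * b' ^ 2 → jacobiSym (2 * a') p = 1 → a' = a) := by
  haveI := Fact.mk hp
  have hd : Squarefree (-(p : ℤ)) := by
    rw [← Int.squarefree_natAbs, Int.natAbs_neg, Int.natAbs_natCast]
    exact hp.squarefree
  have hp4 : p % 4 = 3 := by
    rcases exceptional_field_shape E hd (by omega) h with e | e | ⟨p', -, h4, e⟩
    · omega
    · omega
    · obtain rfl : p = p' := by omega
      exact h4
  obtain ⟨W, hW, hWgood⟩ := FA.SerreLarge.exists_goodModel E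
  haveI := ratCurve_isElliptic_of_Δ (Δ_ne_zero_of_model hW)
  obtain ⟨e, he, hsym⟩ := FA.NormalForm.exists_twist_symbol (p := p)
    (FA.CMStructure.isExceptional_of_curve hW hd (by omega) h) (dvd_neg.mpr dvd_rfl) (by omega)
  refine ⟨e, he, fun q hq hq2 hqp hqe hgood => ⟨fun hns => h q hgood fun hsq =>
    hns ((FA.NormalForm.isSquare_neg_iff hp4 hq2 hqp).mp hsq), fun hsq => ?_⟩⟩
  obtain ⟨hzero, -, hnorm⟩ := exceptional_deuring E hd (by omega) h q hq2 hgood
  have hsq' := (FA.NormalForm.isSquare_neg_iff hp4 hq2 hqp).mpr hsq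
  obtain ⟨b, -, hb⟩ := hnorm hsq'
  rw [abs_neg, Nat.abs_cast] at hb
  have hL := FA.Root.LFunction_apply_prime E W hW hq.out (hWgood q hgood)
  have ha : E.LFunction q ≠ 0 := fun h0 => hzero.mp h0 hsq'
  have hj := hsym q hq.out hq2 hqp hqe (hWgood q hgood) (hL ▸ ha)
  rw [← hL] at hj
  have hs : J(e | q) = 1 ∨ J(e | q) = -1 := jacobiSym.eq_one_or_neg_one (by
    rw [Int.gcd, Int.natAbs_natCast]
    exact (hq.out.coprime_iff_not_dvd.mpr fun h' => hqe (Int.natCast_dvd.mpr h')).symm)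
  have hneg : J((-1 : ℤ) | p) = -1 := by
    rw [jacobiSym.at_neg_one (Nat.odd_iff.mpr (by omega)), ZMod.χ₄_nat_three_mod_four hp4]
  have hsq1 : (J(e | q)) ^ 2 = 1 := by rcases hs with h' | h' <;> rw [h'] <;> norm_num
  have hone : J(2 * (J(e | q) * E.LFunction q) | p) = 1 := by
    rcases hs with h' | h' <;> rw [h'] at hj ⊢
    · rwa [one_mul]
    · rw [show 2 * (-1 * E.LFunction q) = -1 * (2 * E.LFunction q) by ring, jacobiSym.mul_left,
        hneg, hj]
      norm_num
  refine ⟨J(e | q) * E.LFunction q, b, by rw [mul_pow, hsq1, one_mul]; exact hb, hone,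
    by rw [← mul_assoc, ← sq, hsq1, one_mul], fun a' b' h' hj' => ?_⟩
  have hsame : a' ^ 2 = (J(e | q) * E.LFunction q) ^ 2 := by
    rw [mul_pow, hsq1, one_mul]
    exact FA.SameField.sq_eq_of_norm (D := (p : ℤ)) hq.out hq2 (by omega)
      ((Int.odd_coe_nat p).mpr (Nat.odd_iff.mpr (by omega))) h'.symm hb.symm
  refine (sq_eq_sq_iff_eq_or_eq_neg.mp hsame).resolve_right fun hc => ?_
  rw [hc, show 2 * -(J(e | q) * E.LFunction q) = -1 * (2 * (J(e | q) * E.LFunction q)) by ring,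
    jacobiSym.mul_left, hneg, hone] at hj'
  norm_num at hj'

/-- **Conversely** such a formula forces an image that is not open: if `a_q = 0` at almost all `q`
that are no squares modulo a prime `p ≡ 3 mod 4`, the adelic image is not open. -/
theorem not_openImage_of_traceFormula (E : WeierstrassCurve ℚ) [E.IsElliptic]
    [inst : DecidableEq (AlgebraicClosure ℚ)] {p : ℕ} (hp : p.Prime) (hp4 : p % 4 = 3)
    (h : {q : ℕ | q.Prime ∧ ¬ IsSquare (q : ZMod p) ∧ E.LFunction q ≠ 0}.Finite) :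
    ¬ ∃ m : ℕ, 0 < m ∧ ∀ (N : ℕ), N ≠ 0 →
      ∀ φ : Submodule.torsionBy ℤ (E.toAffine⁄(AlgebraicClosure ℚ)).Point (N : ℤ) ≃+
        Submodule.torsionBy ℤ (E.toAffine⁄(AlgebraicClosure ℚ)).Point (N : ℤ),
      (∀ P, m • P.1 = 0 → φ P = P) →
        ∃ σ : AlgebraicClosure ℚ ≃ₐ[ℚ] AlgebraicClosure ℚ, ∀ P,
          Affine.Point.map σ.toAlgHom P.1 = (φ P).1 := by
  obtain rfl : inst = instDecEqAlgebraicClosureRat := Subsingleton.elim _ _
  rintro ⟨m, hm, key⟩
  haveI := Fact.mk hp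
  have hd : Squarefree (-(p : ℤ)) := by
    rw [← Int.squarefree_natAbs, Int.natAbs_neg, Int.natAbs_natCast]
    exact hp.squarefree
  obtain ⟨W, hW⟩ := exists_integralModel E
  haveI := ratCurve_isElliptic_of_Δ (Δ_ne_zero_of_model hW)
  obtain ⟨s, H, hs, hH, hopen, hfix⟩ :=
    FA.OpenImageAll.exists_index_two_of_sqrt hd (by have := hp.pos; omega)
  obtain ⟨q, hq, hqS, hgood, hne, hF⟩ := FA.OpenImageAll.exists_frobenius_trace_ne
    (FA.OpenImageAll.surjectiveLarge_of_torsion hW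
      (FA.OpenImageAll.torsion_surjective_of_adelic hm key)) hH hopen ({2, p} ∪ h.toFinset)
  simp only [Finset.mem_union, Finset.mem_insert, Finset.mem_singleton, Set.Finite.mem_toFinset,
    Set.mem_ofPred_eq, not_or] at hqS
  obtain ⟨⟨hq2, hqp⟩, hqmem⟩ := hqS
  haveI := Fact.mk hq
  obtain ⟨A, hA⟩ := FA.Deform.exists_liesOverPrime hq
  obtain ⟨F, hFr⟩ := FA.Deform.exists_isFrobeniusAt hq hA
  have hns := FA.OpenImageAll.not_isSquare_of_frobenius_apply_ne hq hq2
    (fun hdvd => hqp ((Nat.prime_dvd_prime_iff_eq hq hp).mp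
      (Int.natCast_dvd_natCast.mp (dvd_neg.mp hdvd))))
    hA hFr hs fun e => hF A hA F hFr ((hfix F).mpr e)
  exact hqmem ⟨hq, fun hsq => hns ((FA.NormalForm.isSquare_neg_iff hp4 hq2 hqp).mpr hsq),
    by rw [FA.Root.LFunction_apply_prime E W hW hq hgood]; exact hne⟩

end FA.Summary

end
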