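import Fermat.Agent.OpenImageAll.NormalForm
import Fermat.Agent.Root.SummaryDeuring
import Fermat.Agent.Root.SummaryExceptionalField
import Fermat.Agent.Torsion.ReductionDvd

/-!
# Olson's theorem for the exceptional curves

At an inert good prime `q` of an exceptional curve `a_q = 0`, so the order of the rational torsion
divides `q + 1`. Dirichlet's theorem gives such `q` with `q + 1` prime to any given number apart
from a bounded factor: the torsion of `E(ℚ)` has order dividing `4` for `ℚ(i)`, `6` for `ℚ(√-3)`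
and `2` for every other field.
-/

set_option autoImplicit false
set_option linter.style.haveILetI false

noncomputable section

open WeierstrassCurve FA.EC FA.Frob FA.RT
open scoped WeierstrassCurve.Affine

local notation "Qb" => AlgebraicClosure ℚ

namespace FA.ExceptionalTorsion

/-- A class of inert primes bounds the torsion. -/
theorem torsion_dvd_of_class (E : WeierstrassCurve ℚ) [E.IsElliptic] {d : ℤ}
    (h : ∀ l : ℕ, ∀ [Fact l.Prime],
      (∃ C : VariableChange ℚ_[l],
        HasGoodReduction ℤ_[l] (C • E.map (algebraMap ℚ ℚ_[l]))) →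
      ¬ IsSquare (d : ZMod l) → E.LFunction l = 0)
    {N a B : ℕ} (hN0 : 0 < N) (hN : 2 ∣ N) (ha : a.Coprime N)
    (hinert : ∀ q : ℕ, ∀ [Fact q.Prime], N < q → q ≡ a [MOD N] → ¬ IsSquare (d : ZMod q))
    (hB : ∀ x : ℕ, x ≡ a + 1 [MOD N] → ∃ u, x = B * u ∧ u.Coprime N) :
    Nat.card (AddCommGroup.torsion E.toAffine.Point) ∣ B := by
  classical
  obtain ⟨W, hW⟩ := exists_integralModel E
  have hΔ := Δ_ne_zero_of_model hW
  set T := Nat.card (AddCommGroup.torsion E.toAffine.Point)
  -- the primes of the torsion outside `N`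
  set m : ℕ := ∏ r ∈ T.primeFactors.filter (fun r => ¬ r ∣ N), r
  have hm : m.Coprime N := Nat.Coprime.prod_left fun r hr => by
    obtain ⟨hr1, hr2⟩ := Finset.mem_filter.mp hr
    exact (Nat.prime_of_mem_primeFactors hr1).coprime_iff_not_dvd.mpr hr2
  have hm0 : m ≠ 0 := Finset.prod_ne_zero_iff.mpr fun r hr =>
    (Nat.prime_of_mem_primeFactors (Finset.mem_filter.mp hr).1).ne_zero
  obtain ⟨c, hca, hc1⟩ := Nat.chineseRemainder hm.symm a 1
  have hc : c.Coprime (N * m) := Nat.Coprime.mul_right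
    (by rw [Nat.Coprime, hca.gcd_eq]; exact ha)
    (by rw [Nat.Coprime, hc1.gcd_eq]; exact Nat.gcd_one_left m)
  obtain ⟨q, hqgt, hq, hqc⟩ := Nat.forall_exists_prime_gt_and_modEq
    (max (max N W.Δ.natAbs) 3) (Nat.mul_ne_zero hN0.ne' hm0) hc
  haveI := Fact.mk hq
  have hgood : ¬ (q : ℤ) ∣ W.Δ := fun hd => by
    have := Nat.le_of_dvd (Int.natAbs_pos.mpr hΔ) (Int.natCast_dvd.mp hd)
    omega
  have hqa : q ≡ a [MOD N] := (hqc.of_mul_right m).trans hca
  have h0 := h q (FA.Exceptional.exists_good_reduction hW q hgood) (hinert q (by omega) hqa)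
  rw [FA.Root.LFunction_apply_prime E W hW hq hgood] at h0
  obtain ⟨C, hC⟩ := hW
  have hcard : Nat.card (W.map (Int.castRingHom (ZMod q))).toAffine.Point = q + 1 := by
    have := FA.CM.Deuring.card_eq_of_apOfModel W (p := q)
    rw [h0, sub_zero] at this
    exact_mod_cast this
  have hdvd : T ∣ q + 1 :=
    hcard ▸ FA.Summary.torsion_card_dvd_pointCount E W C hC hq (by omega) hgood
  obtain ⟨u, hu, huN⟩ := hB (q + 1) (hqa.add_right 1)
  refine Nat.Coprime.dvd_of_dvd_mul_right ?_ (hu ▸ hdvd)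
  refine Nat.coprime_of_dvd fun r hr hrT hru => ?_
  have hrN : ¬ r ∣ N := fun h => hr.ne_one (Nat.eq_one_of_dvd_coprimes huN hru h)
  have hrm : r ∣ m := Finset.dvd_prod_of_mem (fun r : ℕ => r)
    (Finset.mem_filter.mpr ⟨Nat.mem_primeFactors.mpr ⟨hr, hrT, fun e => by
      rw [e] at hdvd
      have := Nat.eq_zero_of_zero_dvd hdvd
      omega⟩, hrN⟩)
  have hq1 : q + 1 ≡ 1 + 1 [MOD r] :=
    (((hqc.of_mul_left N).trans hc1).of_dvd hrm).add_right 1
  have h2 : r ∣ 2 := hq1.dvd_iff dvd_rfl |>.mp (hu ▸ dvd_mul_of_dvd_right hru B)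
  exact hrN (((Nat.prime_dvd_prime_iff_eq hr Nat.prime_two).mp h2).symm ▸ hN)

end FA.ExceptionalTorsion

namespace FA.Summary

open FA.ExceptionalTorsion

/-- **Olson's theorem for an exceptional curve**, by the field. -/
theorem exceptional_torsion (E : WeierstrassCurve ℚ) [E.IsElliptic] {d : ℤ}
    (hd : Squarefree d) (hd1 : d ≠ 1)
    (h : ∀ l : ℕ, ∀ [Fact l.Prime],
      (∃ C : VariableChange ℚ_[l],
        HasGoodReduction ℤ_[l] (C • E.map (algebraMap ℚ ℚ_[l]))) →
      ¬ IsSquare (d : ZMod l) → E.LFunction l = 0) :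
    (d = -1 → Nat.card (AddCommGroup.torsion E.toAffine.Point) ∣ 4) ∧
    (d = -3 → Nat.card (AddCommGroup.torsion E.toAffine.Point) ∣ 6) ∧
    (d ≠ -1 → d ≠ -3 → Nat.card (AddCommGroup.torsion E.toAffine.Point) ∣ 2) := by
  refine ⟨?_, ?_, fun h1 h3 => ?_⟩
  · rintro rfl
    refine torsion_dvd_of_class E h (N := 8) (a := 3) (by norm_num) (by norm_num) (by decide)
      (fun q _ _ hqa hsq => ?_) fun x hx => ?_
    · rw [Int.cast_neg, Int.cast_one, ZMod.exists_sq_eq_neg_one_iff] at hsq
      exact hsq (by rw [Nat.ModEq] at hqa; omega)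
    · rw [Nat.ModEq] at hx
      exact ⟨x / 4, by omega, Nat.Coprime.pow_right 3
        (Nat.coprime_two_right.mpr (Nat.odd_iff.mpr (by omega)))⟩
  · rintro rfl
    haveI : Fact (Nat.Prime 3) := ⟨Nat.prime_three⟩
    refine torsion_dvd_of_class E h (N := 36) (a := 5) (by norm_num) (by norm_num) (by decide)
      (fun q _ hq hqa hsq => ?_) fun x hx => ?_
    · rw [Nat.ModEq] at hqa
      have h2 := (FA.NormalForm.isSquare_neg_iff (p := 3) (by norm_num) (q := q)
        (by omega) (by omega)).mp hsq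
      rw [← ZMod.natCast_mod, show q % 3 = 2 by omega] at h2
      rw [Nat.cast_ofNat, ZMod.exists_sq_eq_two_iff (p := 3) (by norm_num)] at h2
      omega
    · rw [Nat.ModEq] at hx
      refine ⟨x / 6, by omega, ?_⟩
      rw [show (36 : ℕ) = 2 * 2 * (3 * 3) by norm_num]
      exact Nat.Coprime.mul_right
        (Nat.Coprime.mul_right (Nat.coprime_two_right.mpr (Nat.odd_iff.mpr (by omega)))
          (Nat.coprime_two_right.mpr (Nat.odd_iff.mpr (by omega))))
        (Nat.Coprime.mul_right
          ((Nat.prime_three.coprime_iff_not_dvd.mpr (by omega)).symm)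
          ((Nat.prime_three.coprime_iff_not_dvd.mpr (by omega)).symm))
  · rcases exceptional_field_shape E hd hd1 h with rfl | rfl | ⟨p, hp, hp4, rfl⟩
    · exact absurd rfl h1
    · refine torsion_dvd_of_class E h (N := 8) (a := 5) (by norm_num) (by norm_num) (by decide)
        (fun q _ hq hqa hsq => ?_) fun x hx => ?_
      · rw [Int.cast_neg, Int.cast_ofNat, ZMod.exists_sq_eq_neg_two_iff (by omega)] at hsq
        rw [Nat.ModEq] at hqa
        omega
      · rw [Nat.ModEq] at hx
        exact ⟨x / 2, by omega, Nat.Coprime.pow_right 3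
          (Nat.coprime_two_right.mpr (Nat.odd_iff.mpr (by omega)))⟩
    · haveI := Fact.mk hp
      have hp7 : 7 ≤ p := by
        have : p ≠ 3 := fun e => h3 (by rw [e]; norm_num)
        omega
      have hcop : Nat.Coprime 4 p := Nat.Coprime.pow_left 2
        (Nat.coprime_two_left.mpr (Nat.odd_iff.mpr (by omega)))
      obtain ⟨a, ha4, hap⟩ := Nat.chineseRemainder hcop 1 (p - 4)
      refine torsion_dvd_of_class E h (N := 4 * p) (a := a) (by positivity)
        (dvd_mul_of_dvd_left (by norm_num) p) ?_ (fun q _ hq hqa hsq => ?_) fun x hx => ?_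
      · refine Nat.Coprime.mul_right (by rw [Nat.Coprime, ha4.gcd_eq]; exact Nat.gcd_one_left 4) ?_
        rw [Nat.Coprime, hap.gcd_eq, ← Nat.coprime_iff_gcd_eq_one, Nat.coprime_comm,
          hp.coprime_iff_not_dvd]
        exact fun hd => by have := Nat.le_of_dvd (by omega) hd; omega
      · have h2 := (FA.NormalForm.isSquare_neg_iff hp4 (q := q) (by omega) (by omega)).mp hsq
        rw [show (q : ZMod p) = -4 by
          rw [(ZMod.natCast_eq_natCast_iff q (p - 4) p).mpr ((hqa.of_mul_left 4).trans hap),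
            Nat.cast_sub (by omega), ZMod.natCast_self, zero_sub, Nat.cast_ofNat]] at h2
        obtain ⟨y, hy⟩ := h2
        have h20 : (2 : ZMod p) ≠ 0 := fun e => by
          have := Nat.le_of_dvd two_pos ((ZMod.natCast_eq_zero_iff 2 p).mp (by exact_mod_cast e))
          omega
        refine (ZMod.exists_sq_eq_neg_one_iff (p := p)).mp ⟨y / 2, ?_⟩ hp4
        field_simp
        linear_combination hy
      · have hx4 : x % 4 = 2 := by
          have := ((hx.of_mul_right p).trans (ha4.add_right 1))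
          rw [Nat.ModEq] at this
          omega
        have hxp : ¬ p ∣ x := fun hd => by
          have h3' : p ∣ (p - 4 + 1) := (((hx.of_mul_left 4).trans (hap.add_right 1)).dvd_iff
            dvd_rfl).mp hd
          obtain ⟨k, hk⟩ := h3'
          rcases k with _ | k
          · omega
          · rw [Nat.mul_succ] at hk
            omega
        refine ⟨x / 2, by omega, Nat.Coprime.mul_right (Nat.Coprime.pow_right 2
          (Nat.coprime_two_right.mpr (Nat.odd_iff.mpr (by omega)))) ?_⟩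
        exact (hp.coprime_iff_not_dvd.mpr fun hd => hxp
          (hd.trans ⟨2, by omega⟩)).symm

/-- **Olson's theorem without endomorphisms**: if the adelic image is not open the rational torsion
has order dividing `4` or `6`, so at most `6` and never `5`. -/
theorem torsion_of_not_openImage (E : WeierstrassCurve ℚ) [E.IsElliptic]
    [inst : DecidableEq (AlgebraicClosure ℚ)]
    (hno : ¬ ∃ m : ℕ, 0 < m ∧ ∀ (N : ℕ), N ≠ 0 →
      ∀ φ : Submodule.torsionBy ℤ (E.toAffine⁄(AlgebraicClosure ℚ)).Point (N : ℤ) ≃+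
        Submodule.torsionBy ℤ (E.toAffine⁄(AlgebraicClosure ℚ)).Point (N : ℤ),
      (∀ P, m • P.1 = 0 → φ P = P) →
        ∃ σ : AlgebraicClosure ℚ ≃ₐ[ℚ] AlgebraicClosure ℚ, ∀ P,
          Affine.Point.map σ.toAlgHom P.1 = (φ P).1) :
    Nat.card (AddCommGroup.torsion E.toAffine.Point) ∣ 4 ∨
      Nat.card (AddCommGroup.torsion E.toAffine.Point) ∣ 6 := by
  rw [serreOpenImage_adelic_iff_genus E, not_not] at hno
  obtain ⟨d, hshape, -, h⟩ := hno
  obtain ⟨hd, hneg⟩ := FA.Genus.squarefree_and_neg hshape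
  obtain ⟨h4, h6, h2⟩ := exceptional_torsion E hd (by omega) h
  by_cases h1 : d = -1
  · exact Or.inl (h4 h1)
  by_cases h3 : d = -3
  · exact Or.inr (h6 h3)
  exact Or.inr ((h2 h1 h3).trans (by norm_num))

/-- **A rational torsion point of order not dividing `4` or `6` forces an open image.** -/
theorem openImage_of_torsionPoint (E : WeierstrassCurve ℚ) [E.IsElliptic]
    [inst : DecidableEq (AlgebraicClosure ℚ)] (P : E.toAffine.Point) (hP : IsOfFinAddOrder P)
    (h4 : ¬ addOrderOf P ∣ 4) (h6 : ¬ addOrderOf P ∣ 6) :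
    ∃ m : ℕ, 0 < m ∧ ∀ (N : ℕ), N ≠ 0 →
      ∀ φ : Submodule.torsionBy ℤ (E.toAffine⁄(AlgebraicClosure ℚ)).Point (N : ℤ) ≃+
        Submodule.torsionBy ℤ (E.toAffine⁄(AlgebraicClosure ℚ)).Point (N : ℤ),
      (∀ P, m • P.1 = 0 → φ P = P) →
        ∃ σ : AlgebraicClosure ℚ ≃ₐ[ℚ] AlgebraicClosure ℚ, ∀ P,
          Affine.Point.map σ.toAlgHom P.1 = (φ P).1 := by
  by_contra hno
  have hdvd : addOrderOf P ∣ Nat.card (AddCommGroup.torsion E.toAffine.Point) := by
    have := addOrderOf_dvd_natCard (⟨P, hP⟩ : AddCommGroup.torsion E.toAffine.Point)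
    rwa [← AddSubgroup.addOrderOf_coe] at this
  rcases torsion_of_not_openImage E hno with h | h
  exacts [h4 (hdvd.trans h), h6 (hdvd.trans h)]

end FA.Summary

end
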