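import Fermat.Agent.Independence.Joint
import Fermat.Agent.Independence.Discriminant
import Fermat.Agent.Root.SummaryTwistRigidity

/-!
# Frobenius fields determine the coefficients up to a quadratic character

For two curves over `ℚ` with non-integral invariants the Frobenius fields `ℚ(√(a_q² - 4q))` and
`ℚ(√(a'_q² - 4q))` are equal only on a set of primes of density zero, unless `a'_q = χ(q) a_q` at
almost all primes for a quadratic Dirichlet character `χ` (Kulkarni, Patankar and Rajan): both
discriminants are negative, so the fields are equal iff their product is a square, and modulo each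
of many independent primes at most fifteen sixteenths of the pairs allow this.
-/

set_option autoImplicit false
set_option linter.style.haveILetI false

noncomputable section

open NumberField IsDedekindDomain WeierstrassCurve FA.Frob FA.RT

local notation "GQ" => AlgebraicClosure ℚ ≃ₐ[ℚ] AlgebraicClosure ℚ

namespace FA.Independence

/-- Conjugation keeps the discriminant. -/
theorem disc_conj {l : ℕ} [Fact l.Prime] (X P : GL (Fin 2) (ZMod l)) :
    disc (P * X * P⁻¹) = disc X := by
  unfold disc
  rw [trace_conj, Units.val_mul, Units.val_mul, Matrix.det_units_conj]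

/-- The primes with one Frobenius field for two independent curves have density zero. -/
theorem density_sameField_zero (E E' : WeierstrassCurve ℚ) [E.IsElliptic] [E'.IsElliptic]
    {W W' : WeierstrassCurve ℤ} [(ratCurve W).IsElliptic] [(ratCurve W').IsElliptic]
    (hs : FA.OpenImageAll.SurjectiveLarge W) (hs' : FA.OpenImageAll.SurjectiveLarge W')
    (hW : W.IsIntegralModelOf E) (hW' : W'.IsIntegralModelOf E') {q : ℕ} (hq : q.Prime)
    (hgood : ¬ (q : ℤ) ∣ W.Δ) (hgood' : ¬ (q : ℤ) ∣ W'.Δ)
    (hne : E.LFunction q ^ 2 ≠ E'.LFunction q ^ 2) :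
    {v : HeightOneSpectrum (𝓞 ℚ) | IsSquare
      ((E.LFunction (Ideal.absNorm v.asIdeal) ^ 2 - 4 * (Ideal.absNorm v.asIdeal : ℤ)) *
        (E'.LFunction (Ideal.absNorm v.asIdeal) ^ 2 -
          4 * (Ideal.absNorm v.asIdeal : ℤ)))}.HasDirichletDensity 0 := by
  classical
  obtain ⟨M, hM⟩ := exists_bound E E' hs hs' hW hW' hq hgood hgood' hne
  refine FA.Supersingular.density_zero_of_approx fun ε hε => ?_
  obtain ⟨k, hk⟩ := exists_pow_lt_of_lt_one hε (show (15 / 16 : ℝ) < 1 by norm_num)
  obtain ⟨l, hl, hsep⟩ := exists_separated_primes M k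
  haveI : ∀ i, Fact (l i).Prime := fun i => ⟨(hl i).1⟩
  have h7 : ∀ i, 7 ≤ l i := fun i => (hl i).2.2
  have hinj : Function.Injective l := StrictMono.injective fun i j hij => by
    have := (hsep i j hij).1
    omega
  have hjoint := exists_joint (W := W) (W' := W') l h7 hinj (coprime_of_separated l h7 hsep)
    fun i A B h => hM (l i) (hl i).2.1 A B h
  set π := (jointRep W W' l).rangeRestrict
  let _ : Fintype (jointRep W W' l).range := Fintype.ofFinite _
  have hker : IsOpen (π.ker : Set GQ) := by
    rw [MonoidHom.ker_rangeRestrict]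
    exact isOpen_ker_jointRep W W' l
  let X : Set (jointRep W W' l).range := {g | ∀ i, IsSquare (disc (g.1 i).1 * disc (g.1 i).2)}
  have hdet : ∀ (g : (jointRep W W' l).range) (i : Fin k),
      ((g.1 i).1 : Matrix (Fin 2) (Fin 2) (ZMod (l i))).det =
        ((g.1 i).2 : Matrix (Fin 2) (Fin 2) (ZMod (l i))).det := fun ⟨_, σ, hσ⟩ i => by
    subst hσ
    exact det_eq W W' σ
  refine ⟨FA.Chebotarev.frobSet π X,
    {v | Ideal.absNorm v.asIdeal ∈ Finset.univ.image l ∪ (W.Δ * W'.Δ).natAbs.primeFactors}, _,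
    FA.Chebotarev.hasDirichletDensity_frobSet π (MonoidHom.rangeRestrict_surjective _) hker
      (X := X) (fun g hg x i => by
        have e : (x * g * x⁻¹).1 i = x.1 i * g.1 i * (x.1 i)⁻¹ := rfl
        rw [e]
        simp only [Prod.fst_mul, Prod.snd_mul, Prod.fst_inv, Prod.snd_inv, disc_conj]
        exact hg i), ?_, FA.Supersingular.finite_absNorm_mem _, fun v hv => ?_⟩
  · refine lt_of_le_of_lt ?_ hk
    rw [← Nat.card_eq_fintype_card, div_le_iff₀ (by exact_mod_cast Nat.card_pos)]
    have hX : Nat.card X ≤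
        ∏ i, Nat.card {p : FibrePair (l i) // IsSquare (disc p.1.1 * disc p.1.2)} := by
      rw [← Nat.card_pi]
      exact Nat.card_le_card_of_injective (fun g i => ⟨⟨g.1.1 i, hdet g.1 i⟩, g.2 i⟩) fun g r e =>
        Subtype.ext (Subtype.ext (funext fun i => congrArg (fun p => p.1.1) (congrFun e i)))
    have hR : ∏ i, Nat.card (FibrePair (l i)) ≤ Nat.card (jointRep W W' l).range := by
      rw [← Nat.card_pi]
      exact Nat.card_le_card_of_injective
        (fun f => (⟨fun i => (f i).1, hjoint _ fun i => (f i).2⟩ : (jointRep W W' l).range))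
        fun f r e => funext fun i => Subtype.ext (congrFun (congrArg Subtype.val e) i)
    have hX' := (Nat.cast_le (α := ℝ)).mpr hX
    have hR' := (Nat.cast_le (α := ℝ)).mpr hR
    push_cast at hX' hR'
    refine hX'.trans ((Finset.prod_le_prod (fun i _ => Nat.cast_nonneg _)
      fun i _ => card_sameClass_le (h7 i)).trans ?_)
    rw [Finset.prod_mul_distrib, Finset.prod_const, Finset.card_univ, Fintype.card_fin]
    exact mul_le_mul_of_nonneg_left hR' (by positivity)
  · refine or_iff_not_imp_right.mpr fun hvF A hA σ hσ i => ?_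
    simp only [Set.mem_ofPred_eq, Finset.mem_union, Finset.mem_image, Finset.mem_univ, true_and,
      not_or, not_exists] at hvF
    have hn := FA.Chebotarev.absNorm_prime v
    obtain ⟨g1, g2⟩ := good_of_not_mem hn hvF.2
    have hsq := (show IsSquare _ from hv).map (Int.castRingHom (ZMod (l i)))
    obtain ⟨e1, e2⟩ := FA.Ribet.curveRep_frobenius (p := l i) hn (Ne.symm (hvF.1 i)) g1 hA hσ
    obtain ⟨e1', e2'⟩ := FA.Ribet.curveRep_frobenius (p := l i) hn (Ne.symm (hvF.1 i)) g2 hA hσ
    show IsSquare (((curveRep (l i) W σ).trace ^ 2 - 4 * (curveRep (l i) W σ).det) *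
      ((curveRep (l i) W' σ).trace ^ 2 - 4 * (curveRep (l i) W' σ).det))
    rw [e1, e2, e1', e2', ← FA.Root.LFunction_apply_prime E W hW hn g1,
      ← FA.Root.LFunction_apply_prime E' W' hW' hn g2]
    simpa using hsq

/-- Equal Frobenius fields are rare, on models with full images at the large primes. -/
theorem traceSquares_finite_or_frobeniusFields_density_zero_of_surjective
    (E E' : WeierstrassCurve ℚ) [E.IsElliptic] [E'.IsElliptic]
    {W W' : WeierstrassCurve ℤ} [(ratCurve W).IsElliptic] [(ratCurve W').IsElliptic]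
    (hW : W.IsIntegralModelOf E) (hW' : W'.IsIntegralModelOf E')
    (hs : FA.OpenImageAll.SurjectiveLarge W) (hs' : FA.OpenImageAll.SurjectiveLarge W') :
    {q : ℕ | q.Prime ∧ E'.LFunction q ^ 2 ≠ E.LFunction q ^ 2}.Finite ∨
      {v : HeightOneSpectrum (𝓞 ℚ) | IsSquare
        ((E.LFunction (Ideal.absNorm v.asIdeal) ^ 2 - 4 * (Ideal.absNorm v.asIdeal : ℤ)) *
          (E'.LFunction (Ideal.absNorm v.asIdeal) ^ 2 -
            4 * (Ideal.absNorm v.asIdeal : ℤ)))}.HasDirichletDensity 0 := by
  refine or_iff_not_imp_left.mpr fun hinf => ?_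
  obtain ⟨q, ⟨hq, hne⟩, hqΔ⟩ :=
    (Set.Infinite.sdiff hinf (W.Δ * W'.Δ).natAbs.primeFactors.finite_toSet).nonempty
  obtain ⟨g1, g2⟩ := good_of_not_mem hq hqΔ
  exact density_sameField_zero E E' hs hs' hW hW' hq g1 g2 (Ne.symm hne)

/-- Equal Frobenius fields on positive density force a twist, on such models. -/
theorem quadraticTwist_of_frobeniusFields_of_surjective
    (E E' : WeierstrassCurve ℚ) [E.IsElliptic] [E'.IsElliptic]
    {W W' : WeierstrassCurve ℤ} [(ratCurve W).IsElliptic] [(ratCurve W').IsElliptic]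
    (hW : W.IsIntegralModelOf E) (hW' : W'.IsIntegralModelOf E')
    (hs : FA.OpenImageAll.SurjectiveLarge W) (hs' : FA.OpenImageAll.SurjectiveLarge W')
    {S : Set (HeightOneSpectrum (𝓞 ℚ))} {δ : ℝ} (hS : S.HasDirichletDensity δ) (hδ : 0 < δ)
    (h : ∀ v ∈ S, IsSquare
      ((E.LFunction (Ideal.absNorm v.asIdeal) ^ 2 - 4 * (Ideal.absNorm v.asIdeal : ℤ)) *
        (E'.LFunction (Ideal.absNorm v.asIdeal) ^ 2 - 4 * (Ideal.absNorm v.asIdeal : ℤ)))) :
    ∃ N : ℕ, 0 < N ∧ ∃ χ : DirichletCharacter ℤ N, χ.IsQuadratic ∧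
      {q : ℕ | q.Prime ∧ E'.LFunction q ≠ χ q * E.LFunction q}.Finite := by
  rcases traceSquares_finite_or_frobeniusFields_density_zero_of_surjective E E' hW hW' hs hs'
    with hfin | h0
  · exact (traceSquares_iff_quadraticTwist_of_surjective E E' hW hW' hs hs').mp hfin
  · have := density_le_add hS h0 Set.hasDirichletDensity_empty Set.finite_empty
      fun v hv => Or.inl (Or.inl (h v hv))
    linarith

end FA.Independence

namespace FA.Summary

open FA.Independence

/-- **Equal Frobenius fields are rare**: for curves over `ℚ` with non-integral invariants, either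
`a_q² = a'_q²` at almost all primes, or the primes at which `(a_q² - 4q)(a'_q² - 4q)` is a square,
that is the primes with one Frobenius field, have Dirichlet density zero. -/
theorem traceSquares_finite_or_frobeniusFields_density_zero (E E' : WeierstrassCurve ℚ)
    [E.IsElliptic] [E'.IsElliptic] (hj : ∃ p : ℕ, p.Prime ∧ padicValRat p E.j < 0)
    (hj' : ∃ p : ℕ, p.Prime ∧ padicValRat p E'.j < 0) :
    {q : ℕ | q.Prime ∧ E'.LFunction q ^ 2 ≠ E.LFunction q ^ 2}.Finite ∨
      {v : HeightOneSpectrum (𝓞 ℚ) | IsSquare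
        ((E.LFunction (Ideal.absNorm v.asIdeal) ^ 2 - 4 * (Ideal.absNorm v.asIdeal : ℤ)) *
          (E'.LFunction (Ideal.absNorm v.asIdeal) ^ 2 -
            4 * (Ideal.absNorm v.asIdeal : ℤ)))}.HasDirichletDensity 0 := by
  obtain ⟨W, hW⟩ := exists_integralModel E
  obtain ⟨W', hW'⟩ := exists_integralModel E'
  haveI := ratCurve_isElliptic_of_Δ (Δ_ne_zero_of_model hW)
  haveI := ratCurve_isElliptic_of_Δ (Δ_ne_zero_of_model hW')
  exact traceSquares_finite_or_frobeniusFields_density_zero_of_surjective E E' hW hW'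
    (surjectiveLarge_of_pole hj hW) (surjectiveLarge_of_pole hj' hW')

/-- **Frobenius fields determine the coefficients up to a quadratic character**: equal Frobenius fields on a set of primes
of positive density give a quadratic Dirichlet character `χ` with `a'_q = χ(q) a_q` at almost all
primes. -/
theorem quadraticTwist_of_frobeniusFields (E E' : WeierstrassCurve ℚ) [E.IsElliptic]
    [E'.IsElliptic] (hj : ∃ p : ℕ, p.Prime ∧ padicValRat p E.j < 0)
    (hj' : ∃ p : ℕ, p.Prime ∧ padicValRat p E'.j < 0)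
    {S : Set (HeightOneSpectrum (𝓞 ℚ))} {δ : ℝ} (hS : S.HasDirichletDensity δ) (hδ : 0 < δ)
    (h : ∀ v ∈ S, IsSquare
      ((E.LFunction (Ideal.absNorm v.asIdeal) ^ 2 - 4 * (Ideal.absNorm v.asIdeal : ℤ)) *
        (E'.LFunction (Ideal.absNorm v.asIdeal) ^ 2 - 4 * (Ideal.absNorm v.asIdeal : ℤ)))) :
    ∃ N : ℕ, 0 < N ∧ ∃ χ : DirichletCharacter ℤ N, χ.IsQuadratic ∧
      {q : ℕ | q.Prime ∧ E'.LFunction q ≠ χ q * E.LFunction q}.Finite := by
  obtain ⟨W, hW⟩ := exists_integralModel E
  obtain ⟨W', hW'⟩ := exists_integralModel E'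
  haveI := ratCurve_isElliptic_of_Δ (Δ_ne_zero_of_model hW)
  haveI := ratCurve_isElliptic_of_Δ (Δ_ne_zero_of_model hW')
  exact quadraticTwist_of_frobeniusFields_of_surjective E E' hW hW'
    (surjectiveLarge_of_pole hj hW) (surjectiveLarge_of_pole hj' hW') hS hδ h

end FA.Summary

end
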