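import Fermat.Agent.Independence.TwistCurve
import Fermat.Agent.Root.SummaryCMImage
import Fermat.Agent.Root.SummaryFrobeniusFieldsPair
import Fermat.Agent.Root.SummaryOpenImageAllApplications
import Fermat.Agent.Root.SummaryTateModules

/-!
# Quadratic twists in Galois form: self-twists and rigidity

An elliptic curve over `ℚ` has no open adelic image exactly when, for some squarefree `d ≠ 1`, its
`p`-divisible groups map onto those of its twist by `d` by Galois equivariant maps with finite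
kernel. For two curves with open image equal squares of `a_q` at almost all primes mean such maps
from one to a twist of the other; so do, for non-integral invariants, equal Frobenius fields on a
set of primes of positive density.
-/

set_option autoImplicit false
set_option linter.style.haveILetI false

noncomputable section

open NumberField IsDedekindDomain WeierstrassCurve FA.Frob
open scoped WeierstrassCurve.Affine

local notation "Qb" => AlgebraicClosure ℚ
local notation "GQ" => AlgebraicClosure ℚ ≃ₐ[ℚ] AlgebraicClosure ℚ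

namespace FA.TwistCurve

open FA.Twists (quadTwist)

/-- The maps to a twist from agreement with it at almost all primes. -/
theorem isogeny_of_eq (E E' : WeierstrassCurve ℚ) [E.IsElliptic] [E'.IsElliptic]
    [inst : DecidableEq (AlgebraicClosure ℚ)] {d : ℤ} (hd : d ≠ 0)
    (h : ∃ S : Finset ℕ, ∀ q : ℕ, q.Prime → q ∉ S →
      E'.LFunction q = (quadTwist E (d : ℚ)).LFunction q) {p : ℕ} (hp : p.Prime) :
    ∃ f : AddCommGroup.primaryComponent (E'.toAffine⁄(AlgebraicClosure ℚ)).Point p →+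
        AddCommGroup.primaryComponent
          ((quadTwist E (d : ℚ)).toAffine⁄(AlgebraicClosure ℚ)).Point p,
      Function.Surjective f ∧ Finite f.ker ∧
        ∀ (σ : AlgebraicClosure ℚ ≃ₐ[ℚ] AlgebraicClosure ℚ) P Q,
          Affine.Point.map σ.toAlgHom P.1 = Q.1 →
            Affine.Point.map σ.toAlgHom (f P).1 = (f Q).1 := by
  haveI := FA.Root.quadTwist_isElliptic E (d := (d : ℚ)) (Int.cast_ne_zero.mpr hd)
  obtain ⟨S, hS⟩ := h
  exact FA.Summary.tateIsogeny_of_traces_all E' _ S hS hp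

/-- The maps to a twist give equal squares at almost all primes. -/
theorem sq_finite_of_isogeny (E E' : WeierstrassCurve ℚ) [E.IsElliptic] [E'.IsElliptic]
    [inst : DecidableEq (AlgebraicClosure ℚ)] {d : ℤ} (hd : d ≠ 0) {p : ℕ} (hp : p.Prime)
    (h : ∃ f : AddCommGroup.primaryComponent (E'.toAffine⁄(AlgebraicClosure ℚ)).Point p →+
          AddCommGroup.primaryComponent
            ((quadTwist E (d : ℚ)).toAffine⁄(AlgebraicClosure ℚ)).Point p,
        Function.Surjective f ∧ Finite f.ker ∧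
          ∀ (σ : AlgebraicClosure ℚ ≃ₐ[ℚ] AlgebraicClosure ℚ) P Q,
            Affine.Point.map σ.toAlgHom P.1 = Q.1 →
              Affine.Point.map σ.toAlgHom (f P).1 = (f Q).1) :
    {q : ℕ | q.Prime ∧ E'.LFunction q ^ 2 ≠ E.LFunction q ^ 2}.Finite := by
  haveI := FA.Root.quadTwist_isElliptic E (d := (d : ℚ)) (Int.cast_ne_zero.mpr hd)
  have hq := (FA.Summary.tateIsogeny_iff_traces E' _ hp).mp h
  obtain ⟨W, hW⟩ := exists_integralModel E
  obtain ⟨W', hW'⟩ := exists_integralModel E'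
  haveI := ratCurve_isElliptic_of_Δ (Δ_ne_zero_of_model hW)
  haveI := ratCurve_isElliptic_of_Δ (Δ_ne_zero_of_model hW')
  refine ({2} ∪ d.natAbs.primeFactors ∪ (W.Δ * W'.Δ).natAbs.primeFactors).finite_toSet.subset
    fun q hqm => ?_
  obtain ⟨hqp, hne⟩ := hqm
  by_contra hn
  simp only [Finset.coe_union, Set.mem_union, Finset.mem_coe, Finset.mem_singleton, not_or] at hn
  obtain ⟨⟨hq2, hqd⟩, hqΔ⟩ := hn
  obtain ⟨g, g'⟩ := FA.Independence.good_of_not_mem hqp hqΔ
  haveI := Fact.mk hqp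
  have hqd' : ¬ (q : ℤ) ∣ d := fun e => hqd (Nat.mem_primeFactors.mpr
    ⟨hqp, Int.natCast_dvd.mp e, Int.natAbs_ne_zero.mpr hd⟩)
  obtain ⟨ht, hL⟩ := LFunction_quadTwist (d := d) hW hq2 hqd' g
  refine hne ?_
  rw [hq q (FA.Root.exists_good_of_model hW' q g') ht, hL, mul_pow]
  rw [jacobiSym.sq_one, one_mul]
  rw [Int.gcd, Int.natAbs_natCast]
  exact (hqp.coprime_iff_not_dvd.mpr fun e => hqd' (Int.natCast_dvd.mpr e)).symm

/-- Twist rigidity with a twist, on models with full images at the large primes. -/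
theorem traceSquares_iff_twistIsogeny_of_surjective (E E' : WeierstrassCurve ℚ)
    [E.IsElliptic] [E'.IsElliptic] [inst : DecidableEq (AlgebraicClosure ℚ)]
    {W W' : WeierstrassCurve ℤ} [(ratCurve W).IsElliptic] [(ratCurve W').IsElliptic]
    (hW : W.IsIntegralModelOf E) (hW' : W'.IsIntegralModelOf E')
    (hs : FA.OpenImageAll.SurjectiveLarge W) (hs' : FA.OpenImageAll.SurjectiveLarge W') :
    {q : ℕ | q.Prime ∧ E'.LFunction q ^ 2 ≠ E.LFunction q ^ 2}.Finite ↔
      ∃ d : ℤ, Squarefree d ∧ ∀ p : ℕ, p.Prime →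
      ∃ f : AddCommGroup.primaryComponent (E'.toAffine⁄(AlgebraicClosure ℚ)).Point p →+
          AddCommGroup.primaryComponent ((⟨0, 0, 0, -27 * ((d : ℚ) ^ 2 * E.c₄),
            -54 * ((d : ℚ) ^ 3 * E.c₆)⟩ : WeierstrassCurve ℚ).toAffine⁄
              (AlgebraicClosure ℚ)).Point p,
        Function.Surjective f ∧ Finite f.ker ∧
          ∀ (σ : AlgebraicClosure ℚ ≃ₐ[ℚ] AlgebraicClosure ℚ) P Q,
            Affine.Point.map σ.toAlgHom P.1 = Q.1 →
              Affine.Point.map σ.toAlgHom (f P).1 = (f Q).1 := by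
  refine ⟨fun h => ?_, fun ⟨d, hd, h⟩ =>
    sq_finite_of_isogeny E E' hd.ne_zero Nat.prime_two (h 2 Nat.prime_two)⟩
  obtain ⟨d, hd, hS⟩ := exists_twist_of_sq hW hW' hs hs' h
  exact ⟨d, hd, fun p hp => isogeny_of_eq E E' hd.ne_zero hS hp⟩

end FA.TwistCurve

namespace FA.Summary

open FA.TwistCurve
open FA.Twists (quadTwist)

/-- **Self-twists**: for an integer `d ≠ 0` and any prime `p`, all traces at the good primes inert
in `ℚ(√d)` vanish iff Galois maps the `p`-divisible group equivariantly onto that of the twist by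
`d`, with finite kernel. -/
theorem selfTwist_iff (E : WeierstrassCurve ℚ) [E.IsElliptic]
    [inst : DecidableEq (AlgebraicClosure ℚ)] {d : ℤ} (hd : d ≠ 0) {p : ℕ} (hp : p.Prime) :
    (∀ l : ℕ, ∀ [Fact l.Prime],
      (∃ C : VariableChange ℚ_[l],
        HasGoodReduction ℤ_[l] (C • E.map (algebraMap ℚ ℚ_[l]))) →
      ¬ IsSquare (d : ZMod l) → E.LFunction l = 0) ↔
      ∃ f : AddCommGroup.primaryComponent (E.toAffine⁄(AlgebraicClosure ℚ)).Point p →+
          AddCommGroup.primaryComponent ((⟨0, 0, 0, -27 * ((d : ℚ) ^ 2 * E.c₄),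
            -54 * ((d : ℚ) ^ 3 * E.c₆)⟩ : WeierstrassCurve ℚ).toAffine⁄
              (AlgebraicClosure ℚ)).Point p,
        Function.Surjective f ∧ Finite f.ker ∧
          ∀ (σ : AlgebraicClosure ℚ ≃ₐ[ℚ] AlgebraicClosure ℚ) P Q,
            Affine.Point.map σ.toAlgHom P.1 = Q.1 →
              Affine.Point.map σ.toAlgHom (f P).1 = (f Q).1 := by
  haveI := FA.Root.quadTwist_isElliptic E (d := (d : ℚ)) (Int.cast_ne_zero.mpr hd)
  obtain ⟨W, hW⟩ := exists_integralModel E
  constructor
  · intro h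
    refine isogeny_of_eq E E hd ⟨{2} ∪ d.natAbs.primeFactors ∪ W.Δ.natAbs.primeFactors,
      fun q hq hqS => ?_⟩ hp
    simp only [Finset.mem_union, Finset.mem_singleton, not_or] at hqS
    haveI := Fact.mk hq
    have hqd : ¬ (q : ℤ) ∣ d := fun e => hqS.1.2 (Nat.mem_primeFactors.mpr
      ⟨hq, Int.natCast_dvd.mp e, Int.natAbs_ne_zero.mpr hd⟩)
    have g : ¬ (q : ℤ) ∣ W.Δ := fun e => hqS.2 (Nat.mem_primeFactors.mpr
      ⟨hq, Int.natCast_dvd.mp e, Int.natAbs_ne_zero.mpr (Δ_ne_zero_of_model hW)⟩)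
    have hd0 : (d : ZMod q) ≠ 0 := fun e => hqd ((ZMod.intCast_zmod_eq_zero_iff_dvd _ _).mp e)
    rw [(LFunction_quadTwist hW hqS.1.1 hqd g).2, ← jacobiSym.legendreSym.to_jacobiSym]
    by_cases hsq : IsSquare (d : ZMod q)
    · rw [(legendreSym.eq_one_iff q hd0).mpr hsq, one_mul]
    · rw [h q (FA.Root.exists_good_of_model hW q g) hsq, mul_zero]
  · intro h l _ hgood hsq
    have hl2 : l ≠ 2 := by
      rintro rfl
      exact hsq (FiniteField.isSquare_of_char_two (ZMod.ringChar_zmod_n 2) _)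
    have hld : ¬ (l : ℤ) ∣ d := fun e =>
      hsq ((ZMod.intCast_zmod_eq_zero_iff_dvd _ _).mpr e ▸ IsSquare.zero)
    obtain ⟨ht, hL⟩ := LFunction_quadTwist_of_good E hl2 hld hgood
    have e := ((tateIsogeny_iff_traces E (quadTwist E (d : ℚ)) hp).mp h l hgood ht).trans hL
    rw [← jacobiSym.legendreSym.to_jacobiSym, (legendreSym.eq_neg_one_iff l).mpr hsq] at e
    linarith

/-- **Exceptional means isogenous, in Galois form, to a twist of itself**: the adelic image is not
open iff for some squarefree `d ≠ 1` Galois maps every `p`-divisible group equivariantly onto that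
of the twist by `d`, with finite kernel. -/
theorem exceptional_iff_selfTwist (E : WeierstrassCurve ℚ) [E.IsElliptic]
    [inst : DecidableEq (AlgebraicClosure ℚ)] :
    (¬ ∃ m : ℕ, 0 < m ∧ ∀ (N : ℕ), N ≠ 0 →
      ∀ φ : Submodule.torsionBy ℤ (E.toAffine⁄(AlgebraicClosure ℚ)).Point (N : ℤ) ≃+
        Submodule.torsionBy ℤ (E.toAffine⁄(AlgebraicClosure ℚ)).Point (N : ℤ),
      (∀ P, m • P.1 = 0 → φ P = P) →
        ∃ σ : AlgebraicClosure ℚ ≃ₐ[ℚ] AlgebraicClosure ℚ, ∀ P,
          Affine.Point.map σ.toAlgHom P.1 = (φ P).1) ↔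
    ∃ d : ℤ, Squarefree d ∧ d ≠ 1 ∧ ∀ p : ℕ, p.Prime →
      ∃ f : AddCommGroup.primaryComponent (E.toAffine⁄(AlgebraicClosure ℚ)).Point p →+
          AddCommGroup.primaryComponent ((⟨0, 0, 0, -27 * ((d : ℚ) ^ 2 * E.c₄),
            -54 * ((d : ℚ) ^ 3 * E.c₆)⟩ : WeierstrassCurve ℚ).toAffine⁄
              (AlgebraicClosure ℚ)).Point p,
        Function.Surjective f ∧ Finite f.ker ∧
          ∀ (σ : AlgebraicClosure ℚ ≃ₐ[ℚ] AlgebraicClosure ℚ) P Q,
            Affine.Point.map σ.toAlgHom P.1 = Q.1 →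
              Affine.Point.map σ.toAlgHom (f P).1 = (f Q).1 := by
  rw [serreOpenImage_adelic_iff E, not_not]
  exact exists_congr fun d => and_congr_right fun hd => and_congr_right fun _ =>
    ⟨fun h p hp => (selfTwist_iff E hd.ne_zero hp).mp h,
      fun h => (selfTwist_iff E hd.ne_zero Nat.prime_two).mpr (h 2 Nat.prime_two)⟩

/-- **The thirteen CM invariants give self-twists.** -/
theorem selfTwist_of_cm_all (E : WeierstrassCurve ℚ) [E.IsElliptic]
    [inst : DecidableEq (AlgebraicClosure ℚ)]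
    (hj : E.j ∈ ({0, 54000, -12288000, 1728, 287496, -3375, 16581375, 8000, -32768, -884736,
      -884736000, -147197952000, -262537412640768000} : Finset ℚ)) :
    ∃ d : ℤ, Squarefree d ∧ d ≠ 1 ∧ ∀ p : ℕ, p.Prime →
      ∃ f : AddCommGroup.primaryComponent (E.toAffine⁄(AlgebraicClosure ℚ)).Point p →+
          AddCommGroup.primaryComponent ((⟨0, 0, 0, -27 * ((d : ℚ) ^ 2 * E.c₄),
            -54 * ((d : ℚ) ^ 3 * E.c₆)⟩ : WeierstrassCurve ℚ).toAffine⁄
              (AlgebraicClosure ℚ)).Point p,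
        Function.Surjective f ∧ Finite f.ker ∧
          ∀ (σ : AlgebraicClosure ℚ ≃ₐ[ℚ] AlgebraicClosure ℚ) P Q,
            Affine.Point.map σ.toAlgHom P.1 = Q.1 →
              Affine.Point.map σ.toAlgHom (f P).1 = (f Q).1 :=
  (exceptional_iff_selfTwist E).mp (not_serreOpenImage_adelic_of_cm_all E hj)

/-- **Rigidity of twists, with the twist**: two curves with non-integral invariants have
`a'_q² = a_q²` at almost all primes iff Galois maps every `p`-divisible group of the second
equivariantly onto that of one quadratic twist of the first, with finite kernel. -/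
theorem traceSquares_iff_twistIsogeny (E E' : WeierstrassCurve ℚ) [E.IsElliptic] [E'.IsElliptic]
    [inst : DecidableEq (AlgebraicClosure ℚ)]
    (hj : ∃ p : ℕ, p.Prime ∧ padicValRat p E.j < 0)
    (hj' : ∃ p : ℕ, p.Prime ∧ padicValRat p E'.j < 0) :
    {q : ℕ | q.Prime ∧ E'.LFunction q ^ 2 ≠ E.LFunction q ^ 2}.Finite ↔
      ∃ d : ℤ, Squarefree d ∧ ∀ p : ℕ, p.Prime →
      ∃ f : AddCommGroup.primaryComponent (E'.toAffine⁄(AlgebraicClosure ℚ)).Point p →+
          AddCommGroup.primaryComponent ((⟨0, 0, 0, -27 * ((d : ℚ) ^ 2 * E.c₄),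
            -54 * ((d : ℚ) ^ 3 * E.c₆)⟩ : WeierstrassCurve ℚ).toAffine⁄
              (AlgebraicClosure ℚ)).Point p,
        Function.Surjective f ∧ Finite f.ker ∧
          ∀ (σ : AlgebraicClosure ℚ ≃ₐ[ℚ] AlgebraicClosure ℚ) P Q,
            Affine.Point.map σ.toAlgHom P.1 = Q.1 →
              Affine.Point.map σ.toAlgHom (f P).1 = (f Q).1 := by
  obtain ⟨W, hW⟩ := exists_integralModel E
  obtain ⟨W', hW'⟩ := exists_integralModel E'
  haveI := ratCurve_isElliptic_of_Δ (Δ_ne_zero_of_model hW)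
  haveI := ratCurve_isElliptic_of_Δ (Δ_ne_zero_of_model hW')
  exact traceSquares_iff_twistIsogeny_of_surjective E E' hW hW'
    (FA.Independence.surjectiveLarge_of_pole hj hW)
    (FA.Independence.surjectiveLarge_of_pole hj' hW')

/-- The same for two curves each with a nonzero trace at an inert good prime of every quadratic
field. -/
theorem traceSquares_iff_twistIsogeny_of_traces (E E' : WeierstrassCurve ℚ) [E.IsElliptic]
    [E'.IsElliptic] [inst : DecidableEq (AlgebraicClosure ℚ)]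
    (h : ∀ d : ℤ, Squarefree d → d ≠ 1 → ∃ (l : ℕ) (_ : Fact l.Prime),
      (∃ C : VariableChange ℚ_[l],
        HasGoodReduction ℤ_[l] (C • E.map (algebraMap ℚ ℚ_[l]))) ∧
      ¬ IsSquare (d : ZMod l) ∧ E.LFunction l ≠ 0)
    (h' : ∀ d : ℤ, Squarefree d → d ≠ 1 → ∃ (l : ℕ) (_ : Fact l.Prime),
      (∃ C : VariableChange ℚ_[l],
        HasGoodReduction ℤ_[l] (C • E'.map (algebraMap ℚ ℚ_[l]))) ∧
      ¬ IsSquare (d : ZMod l) ∧ E'.LFunction l ≠ 0) :
    {q : ℕ | q.Prime ∧ E'.LFunction q ^ 2 ≠ E.LFunction q ^ 2}.Finite ↔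
      ∃ d : ℤ, Squarefree d ∧ ∀ p : ℕ, p.Prime →
      ∃ f : AddCommGroup.primaryComponent (E'.toAffine⁄(AlgebraicClosure ℚ)).Point p →+
          AddCommGroup.primaryComponent ((⟨0, 0, 0, -27 * ((d : ℚ) ^ 2 * E.c₄),
            -54 * ((d : ℚ) ^ 3 * E.c₆)⟩ : WeierstrassCurve ℚ).toAffine⁄
              (AlgebraicClosure ℚ)).Point p,
        Function.Surjective f ∧ Finite f.ker ∧
          ∀ (σ : AlgebraicClosure ℚ ≃ₐ[ℚ] AlgebraicClosure ℚ) P Q,
            Affine.Point.map σ.toAlgHom P.1 = Q.1 →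
              Affine.Point.map σ.toAlgHom (f P).1 = (f Q).1 := by
  obtain ⟨W, hW⟩ := exists_integralModel E
  obtain ⟨W', hW'⟩ := exists_integralModel E'
  haveI := ratCurve_isElliptic_of_Δ (Δ_ne_zero_of_model hW)
  haveI := ratCurve_isElliptic_of_Δ (Δ_ne_zero_of_model hW')
  exact traceSquares_iff_twistIsogeny_of_surjective E E' hW hW'
    (FA.OpenImageAll.surjectiveLarge_of_traces h hW)
    (FA.OpenImageAll.surjectiveLarge_of_traces h' hW')

/-- **Frobenius fields determine the curve up to twist and isogeny, in Galois form**: two curves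
with non-integral invariants and one Frobenius field on a set of primes of positive density have
equivariant maps with finite kernel from the `p`-divisible groups of the second onto those of a
quadratic twist of the first, for every `p`. -/
theorem twistIsogeny_of_frobeniusFields (E E' : WeierstrassCurve ℚ) [E.IsElliptic] [E'.IsElliptic]
    [inst : DecidableEq (AlgebraicClosure ℚ)]
    (hj : ∃ p : ℕ, p.Prime ∧ padicValRat p E.j < 0)
    (hj' : ∃ p : ℕ, p.Prime ∧ padicValRat p E'.j < 0)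
    {S : Set (HeightOneSpectrum (𝓞 ℚ))} {δ : ℝ} (hS : S.HasDirichletDensity δ) (hδ : 0 < δ)
    (h : ∀ v ∈ S, IsSquare
      ((E.LFunction (Ideal.absNorm v.asIdeal) ^ 2 - 4 * (Ideal.absNorm v.asIdeal : ℤ)) *
        (E'.LFunction (Ideal.absNorm v.asIdeal) ^ 2 - 4 * (Ideal.absNorm v.asIdeal : ℤ)))) :
    ∃ d : ℤ, Squarefree d ∧ ∀ p : ℕ, p.Prime →
      ∃ f : AddCommGroup.primaryComponent (E'.toAffine⁄(AlgebraicClosure ℚ)).Point p →+
          AddCommGroup.primaryComponent ((⟨0, 0, 0, -27 * ((d : ℚ) ^ 2 * E.c₄),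
            -54 * ((d : ℚ) ^ 3 * E.c₆)⟩ : WeierstrassCurve ℚ).toAffine⁄
              (AlgebraicClosure ℚ)).Point p,
        Function.Surjective f ∧ Finite f.ker ∧
          ∀ (σ : AlgebraicClosure ℚ ≃ₐ[ℚ] AlgebraicClosure ℚ) P Q,
            Affine.Point.map σ.toAlgHom P.1 = Q.1 →
              Affine.Point.map σ.toAlgHom (f P).1 = (f Q).1 :=
  (traceSquares_iff_twistIsogeny E E' hj hj').mp ((traceSquares_iff_quadraticTwist E E' hj hj').mpr
    (quadraticTwist_of_frobeniusFields E E' hj hj' hS hδ h))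

end FA.Summary

end
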