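import Fermat.Agent.OpenImageAll.SameField
import Fermat.Agent.Root.SummaryExceptionalStructure
import Fermat.Agent.Root.SummarySelfTwist
import Fermat.Agent.Root.SummarySupersingular

/-!
# Exceptional curves with one field are twists of each other, in Galois form

For a prime `p > 3` two elliptic curves over `ℚ` with `a_q = 0` at the good primes inert in
`ℚ(√-p)` have `a'_q = (e / q) a_q` at almost all primes for one squarefree `e`, so Galois maps
every `l`-divisible group of the second equivariantly onto that of the twist by `e` of the first,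
with finite kernel. In particular this holds against the curves with complex multiplication by
`ℚ(√-p)`. (Isogeny in the sense of algebraic geometry is not formalised.)
-/

set_option autoImplicit false
set_option linter.style.haveILetI false

noncomputable section

open WeierstrassCurve FA.EC FA.Frob FA.RT
open scoped WeierstrassCurve.Affine

local notation "Qb" => AlgebraicClosure ℚ

namespace FA.Summary

open FA.Twists (quadTwist)

/-- **Exceptional curves with one field differ by a quadratic twist**, in Galois form. -/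
theorem exceptional_twist (E E' : WeierstrassCurve ℚ) [E.IsElliptic] [E'.IsElliptic]
    [inst : DecidableEq (AlgebraicClosure ℚ)] {p : ℕ} (hp : p.Prime) (hp3 : 3 < p)
    (h : ∀ l : ℕ, ∀ [Fact l.Prime],
      (∃ C : VariableChange ℚ_[l],
        HasGoodReduction ℤ_[l] (C • E.map (algebraMap ℚ ℚ_[l]))) →
      ¬ IsSquare ((-(p : ℤ) : ℤ) : ZMod l) → E.LFunction l = 0)
    (h' : ∀ l : ℕ, ∀ [Fact l.Prime],
      (∃ C : VariableChange ℚ_[l],
        HasGoodReduction ℤ_[l] (C • E'.map (algebraMap ℚ ℚ_[l]))) →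
      ¬ IsSquare ((-(p : ℤ) : ℤ) : ZMod l) → E'.LFunction l = 0) :
    ∃ e : ℤ, Squarefree e ∧
      {q : ℕ | q.Prime ∧ E'.LFunction q ≠ jacobiSym e q * E.LFunction q}.Finite ∧
      ∀ l : ℕ, l.Prime →
        ∃ f : AddCommGroup.primaryComponent (E'.toAffine⁄(AlgebraicClosure ℚ)).Point l →+
            AddCommGroup.primaryComponent ((⟨0, 0, 0, -27 * ((e : ℚ) ^ 2 * E.c₄),
              -54 * ((e : ℚ) ^ 3 * E.c₆)⟩ : WeierstrassCurve ℚ).toAffine⁄
                (AlgebraicClosure ℚ)).Point l,
          Function.Surjective f ∧ Finite f.ker ∧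
            ∀ (σ : AlgebraicClosure ℚ ≃ₐ[ℚ] AlgebraicClosure ℚ) P Q,
              Affine.Point.map σ.toAlgHom P.1 = Q.1 →
                Affine.Point.map σ.toAlgHom (f P).1 = (f Q).1 := by
  haveI := Fact.mk hp
  obtain ⟨W, hW⟩ := exists_integralModel E
  obtain ⟨W', hW'⟩ := exists_integralModel E'
  haveI := ratCurve_isElliptic_of_Δ (Δ_ne_zero_of_model hW)
  haveI := ratCurve_isElliptic_of_Δ (Δ_ne_zero_of_model hW')
  have hd : Squarefree (-(p : ℤ)) := by
    rw [← Int.squarefree_natAbs, Int.natAbs_neg, Int.natAbs_natCast]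
    exact hp.squarefree
  obtain ⟨ε, S, hε, hS⟩ := FA.SameField.exists_signChar (p := p) (W := W) (W' := W')
    (FA.CMStructure.isExceptional_of_curve hW hd (by omega) h)
    (FA.CMStructure.isExceptional_of_curve hW' hd (by omega) h') rfl hp3
  obtain ⟨e, he, hsym⟩ := FA.TwistCurve.exists_sign_eq_jacobiSym ε hε
  set T : Finset ℕ := S ∪ {2} ∪ e.natAbs.primeFactors
  have hT : ∀ q : ℕ, q.Prime → q ∉ T →
      E'.LFunction q = jacobiSym e q * E.LFunction q ∧
      E'.LFunction q = (quadTwist E (e : ℚ)).LFunction q := fun q hq hqT => by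
    simp only [T, Finset.mem_union, Finset.mem_singleton, not_or] at hqT
    obtain ⟨⟨hqS, hq2⟩, hqe⟩ := hqT
    obtain ⟨g, g', hσ⟩ := hS q hq hqS
    haveI := Fact.mk hq
    have hqe' : ¬ (q : ℤ) ∣ e := fun h => hqe (Nat.mem_primeFactors.mpr
      ⟨hq, Int.natCast_dvd.mp h, Int.natAbs_ne_zero.mpr he.ne_zero⟩)
    obtain ⟨A, hA⟩ := FA.Deform.exists_liesOverPrime hq
    obtain ⟨σ, hF⟩ := FA.Deform.exists_isFrobeniusAt hq hA
    have h1 : E'.LFunction q = jacobiSym e q * E.LFunction q := by
      rw [FA.Root.LFunction_apply_prime E W hW hq g, FA.Root.LFunction_apply_prime E' W' hW' hq g',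
        hσ A hA σ hF, hsym q hq hq2 hqe' A hA σ hF]
    exact ⟨h1, h1.trans (FA.TwistCurve.LFunction_quadTwist hW hq2 hqe' g).2.symm⟩
  exact ⟨e, he, T.finite_toSet.subset fun q ⟨hq, hne⟩ => by_contra fun hn => hne (hT q hq hn).1,
    fun l hl => FA.TwistCurve.isogeny_of_eq E E' he.ne_zero
      ⟨T, fun q hq hqT => (hT q hq hqT).2⟩ hl⟩

/-- **An exceptional curve for `ℚ(√-p)`, `p` one of `7, 11, 19, 43, 67, 163`, against one with
complex multiplication by that field**: it is a quadratic twist of it, in Galois form. -/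
theorem exceptional_twist_of_cm (E E' : WeierstrassCurve ℚ) [E.IsElliptic] [E'.IsElliptic]
    [inst : DecidableEq (AlgebraicClosure ℚ)] {p : ℕ}
    (hj : (E.j, p) ∈ ({(-3375, 7), (16581375, 7), (-32768, 11), (-884736, 19), (-884736000, 43),
      (-147197952000, 67), (-262537412640768000, 163)} : Finset (ℚ × ℕ)))
    (h' : ∀ l : ℕ, ∀ [Fact l.Prime],
      (∃ C : VariableChange ℚ_[l],
        HasGoodReduction ℤ_[l] (C • E'.map (algebraMap ℚ ℚ_[l]))) →
      ¬ IsSquare ((-(p : ℤ) : ℤ) : ZMod l) → E'.LFunction l = 0) :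
    ∃ e : ℤ, Squarefree e ∧
      {q : ℕ | q.Prime ∧ E'.LFunction q ≠ jacobiSym e q * E.LFunction q}.Finite ∧
      ∀ l : ℕ, l.Prime →
        ∃ f : AddCommGroup.primaryComponent (E'.toAffine⁄(AlgebraicClosure ℚ)).Point l →+
            AddCommGroup.primaryComponent ((⟨0, 0, 0, -27 * ((e : ℚ) ^ 2 * E.c₄),
              -54 * ((e : ℚ) ^ 3 * E.c₆)⟩ : WeierstrassCurve ℚ).toAffine⁄
                (AlgebraicClosure ℚ)).Point l,
          Function.Surjective f ∧ Finite f.ker ∧
            ∀ (σ : AlgebraicClosure ℚ ≃ₐ[ℚ] AlgebraicClosure ℚ) P Q,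
              Affine.Point.map σ.toAlgHom P.1 = Q.1 →
                Affine.Point.map σ.toAlgHom (f P).1 = (f Q).1 := by
  obtain ⟨hp, hp3, hpair⟩ : p.Prime ∧ 3 < p ∧ (E.j, -(p : ℤ)) ∈ ({(0, -3), (54000, -3),
      (-12288000, -3), (1728, -4), (287496, -4), (-3375, -7), (16581375, -7), (8000, -8),
      (-32768, -11), (-884736, -19), (-884736000, -43), (-147197952000, -67),
      (-262537412640768000, -163)} : Finset (ℚ × ℤ)) := by
    simp only [Finset.mem_insert, Finset.mem_singleton, Prod.mk.injEq] at hj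
    rcases hj with ⟨hj, rfl⟩ | ⟨hj, rfl⟩ | ⟨hj, rfl⟩ | ⟨hj, rfl⟩ | ⟨hj, rfl⟩ | ⟨hj, rfl⟩ |
      ⟨hj, rfl⟩ <;> exact ⟨by norm_num, by norm_num, by simp [hj]⟩
  exact exceptional_twist E E' hp hp3
    (fun l hl _ hns => lFunction_eq_zero_of_inert E hpair hl.out hns) h'

end FA.Summary

end
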