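import Fermat.Agent.ExceptionalValues.Main

/-!
# Exceptional values of E-functions

E-functions are those in the strict sense with rational coefficients, as in
`SummarySiegelShidlovskii`, here with a linear differential equation over `ℚ[z]`.

* `efunction_exceptional_set_finite` (Shidlovskii; Beukers; Adamczewski and Rivoal): unless `f` is
  a polynomial, only finitely many algebraic `α` have `f α` algebraic;
* `efunction_derivatives_independent`: if `m` is the order of the least inhomogeneous equation,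
  `1, f α, …, f^(m-1) α` are linearly independent over `ℚ̄` at almost all algebraic `α`;
* `efunction_integer_values_transcendental`: `f n` is transcendental, so irrational, for almost all
  integers `n`;
* `efunction_algebraic_zeros_finite`: finitely many zeros are algebraic, so an infinite set of
  zeros contains infinitely many transcendental ones;
* `efunction_polynomial_iff`: `f` is a polynomial iff infinitely many algebraic points have
  algebraic values;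
* `efunction_exceptional_example`: for `(z - 1) exp z` the exceptional set is `{0, 1}`, so it
  cannot be omitted.

E-functions with algebraic coefficients or in the broad sense are not treated.
-/

set_option autoImplicit false

noncomputable section

namespace FA.ExceptionalValues.Summary

open Finset
open scoped Nat Polynomial

/-- **The exceptional set of an E-function is finite.** -/
theorem efunction_exceptional_set_finite {f : PowerSeries ℚ}
    (hE : ∃ C : ℕ, (∀ k, |(k ! : ℚ) * PowerSeries.coeff k f| ≤ (C : ℚ) ^ (k + 1)) ∧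
      ∀ N, ∃ d : ℕ, 0 < d ∧ d ≤ C ^ (N + 1) ∧
        ∀ k ≤ N, ∃ z : ℤ, (z : ℚ) = (d : ℚ) * ((k ! : ℚ) * PowerSeries.coeff k f))
    {N : ℕ} {e : ℕ → ℚ[X]} (he : ∃ j ≤ N, e j ≠ 0)
    (hf : ∑ j ∈ range (N + 1), (e j : PowerSeries ℚ) * (PowerSeries.derivative ℚ)^[j] f = 0)
    (hpol : ∀ p : ℚ[X], f ≠ (p : PowerSeries ℚ)) :
    {α : ℂ | IsAlgebraic ℚ α ∧
      IsAlgebraic ℚ (∑' k, ((PowerSeries.coeff k f : ℚ) : ℂ) * α ^ k)}.Finite :=
  exceptional_finite hE he hf hpol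

/-- **The values of the derivatives are independent over the algebraic numbers.** -/
theorem efunction_derivatives_independent {f : PowerSeries ℚ}
    (hE : ∃ C : ℕ, (∀ k, |(k ! : ℚ) * PowerSeries.coeff k f| ≤ (C : ℚ) ^ (k + 1)) ∧
      ∀ N, ∃ d : ℕ, 0 < d ∧ d ≤ C ^ (N + 1) ∧
        ∀ k ≤ N, ∃ z : ℤ, (z : ℚ) = (d : ℚ) * ((k ! : ℚ) * PowerSeries.coeff k f))
    {N : ℕ} {e : ℕ → ℚ[X]} (he : ∃ j ≤ N, e j ≠ 0)
    (hf : ∑ j ∈ range (N + 1), (e j : PowerSeries ℚ) * (PowerSeries.derivative ℚ)^[j] f = 0)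
    (hpol : ∀ p : ℚ[X], f ≠ (p : PowerSeries ℚ)) :
    ∃ m, 0 < m ∧
      (∃ (q : ℚ[X]) (A : ℕ → ℚ[X]), A m ≠ 0 ∧ (q : PowerSeries ℚ) +
        ∑ j ∈ range (m + 1), (A j : PowerSeries ℚ) * (PowerSeries.derivative ℚ)^[j] f = 0) ∧
      (∀ (A₀ : ℚ[X]) (A : Fin m → ℚ[X]), (A₀ : PowerSeries ℚ) +
        ∑ i : Fin m, (A i : PowerSeries ℚ) * (PowerSeries.derivative ℚ)^[i] f = 0 →
          A₀ = 0 ∧ A = 0) ∧
      ∃ S : Finset ℂ, ∀ α : ℂ, IsAlgebraic ℚ α → α ∉ S → ∀ (b₀ : ℂ) (b : Fin m → ℂ),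
        IsAlgebraic ℚ b₀ → (∀ i, IsAlgebraic ℚ (b i)) →
          b₀ + ∑ i : Fin m, b i *
            iteratedDeriv i (fun z : ℂ => ∑' k, ((PowerSeries.coeff k f : ℚ) : ℂ) * z ^ k) α = 0 →
          b₀ = 0 ∧ b = 0 :=
  exists_independent_values hE he hf hpol

/-- **Transcendence of the values at integers.** -/
theorem efunction_integer_values_transcendental {f : PowerSeries ℚ}
    (hE : ∃ C : ℕ, (∀ k, |(k ! : ℚ) * PowerSeries.coeff k f| ≤ (C : ℚ) ^ (k + 1)) ∧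
      ∀ N, ∃ d : ℕ, 0 < d ∧ d ≤ C ^ (N + 1) ∧
        ∀ k ≤ N, ∃ z : ℤ, (z : ℚ) = (d : ℚ) * ((k ! : ℚ) * PowerSeries.coeff k f))
    {N : ℕ} {e : ℕ → ℚ[X]} (he : ∃ j ≤ N, e j ≠ 0)
    (hf : ∑ j ∈ range (N + 1), (e j : PowerSeries ℚ) * (PowerSeries.derivative ℚ)^[j] f = 0)
    (hpol : ∀ p : ℚ[X], f ≠ (p : PowerSeries ℚ)) :
    {n : ℤ | ¬Transcendental ℚ (∑' k, ((PowerSeries.coeff k f : ℚ) : ℂ) * (n : ℂ) ^ k)}.Finite ∧
      {n : ℤ | ¬Irrational (∑' k, ((PowerSeries.coeff k f : ℚ) : ℝ) * (n : ℝ) ^ k)}.Finite :=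
  ⟨integer_values_finite hE he hf hpol, irrational_values_finite hE he hf hpol⟩

/-- **Algebraic zeros of E-functions.** -/
theorem efunction_algebraic_zeros_finite {f : PowerSeries ℚ}
    (hE : ∃ C : ℕ, (∀ k, |(k ! : ℚ) * PowerSeries.coeff k f| ≤ (C : ℚ) ^ (k + 1)) ∧
      ∀ N, ∃ d : ℕ, 0 < d ∧ d ≤ C ^ (N + 1) ∧
        ∀ k ≤ N, ∃ z : ℤ, (z : ℚ) = (d : ℚ) * ((k ! : ℚ) * PowerSeries.coeff k f))
    {N : ℕ} {e : ℕ → ℚ[X]} (he : ∃ j ≤ N, e j ≠ 0)
    (hf : ∑ j ∈ range (N + 1), (e j : PowerSeries ℚ) * (PowerSeries.derivative ℚ)^[j] f = 0)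
    (hpol : ∀ p : ℚ[X], f ≠ (p : PowerSeries ℚ)) :
    {z : ℂ | IsAlgebraic ℚ z ∧ ∑' k, ((PowerSeries.coeff k f : ℚ) : ℂ) * z ^ k = 0}.Finite ∧
      ({z : ℂ | ∑' k, ((PowerSeries.coeff k f : ℚ) : ℂ) * z ^ k = 0}.Infinite →
        {z : ℂ | Transcendental ℚ z ∧
          ∑' k, ((PowerSeries.coeff k f : ℚ) : ℂ) * z ^ k = 0}.Infinite) :=
  ⟨algebraic_zeros_finite hE he hf hpol, transcendental_zeros_infinite hE he hf hpol⟩

/-- **Polynomials among the E-functions.** -/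
theorem efunction_polynomial_iff {f : PowerSeries ℚ}
    (hE : ∃ C : ℕ, (∀ k, |(k ! : ℚ) * PowerSeries.coeff k f| ≤ (C : ℚ) ^ (k + 1)) ∧
      ∀ N, ∃ d : ℕ, 0 < d ∧ d ≤ C ^ (N + 1) ∧
        ∀ k ≤ N, ∃ z : ℤ, (z : ℚ) = (d : ℚ) * ((k ! : ℚ) * PowerSeries.coeff k f))
    {N : ℕ} {e : ℕ → ℚ[X]} (he : ∃ j ≤ N, e j ≠ 0)
    (hf : ∑ j ∈ range (N + 1), (e j : PowerSeries ℚ) * (PowerSeries.derivative ℚ)^[j] f = 0) :
    (∃ p : ℚ[X], f = (p : PowerSeries ℚ)) ↔
      {α : ℂ | IsAlgebraic ℚ α ∧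
        IsAlgebraic ℚ (∑' k, ((PowerSeries.coeff k f : ℚ) : ℂ) * α ^ k)}.Infinite :=
  polynomial_iff hE he hf

/-- **An exceptional set**: `(z - 1) exp z` is an E-function with a differential equation, no
polynomial, and has algebraic values exactly at `0` and `1` among the algebraic points. -/
theorem efunction_exceptional_example :
    ∃ (f : PowerSeries ℚ) (e : ℕ → ℚ[X]),
      (∃ C : ℕ, (∀ k, |(k ! : ℚ) * PowerSeries.coeff k f| ≤ (C : ℚ) ^ (k + 1)) ∧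
        ∀ N, ∃ d : ℕ, 0 < d ∧ d ≤ C ^ (N + 1) ∧
          ∀ k ≤ N, ∃ z : ℤ, (z : ℚ) = (d : ℚ) * ((k ! : ℚ) * PowerSeries.coeff k f)) ∧
      e 1 ≠ 0 ∧
      ∑ j ∈ range 2, (e j : PowerSeries ℚ) * (PowerSeries.derivative ℚ)^[j] f = 0 ∧
      (∀ p : ℚ[X], f ≠ (p : PowerSeries ℚ)) ∧
      (∀ z : ℂ, ∑' k, ((PowerSeries.coeff k f : ℚ) : ℂ) * z ^ k = (z - 1) * Complex.exp z) ∧
      {α : ℂ | IsAlgebraic ℚ α ∧
        IsAlgebraic ℚ (∑' k, ((PowerSeries.coeff k f : ℚ) : ℂ) * α ^ k)} = {0, 1} := by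
  obtain ⟨hE, hpol, heq, hval⟩ := example_hypotheses
  refine ⟨_, fun j => if j = 0 then -Polynomial.X else Polynomial.X - 1, hE, ?_, ?_, hpol, hval, ?_⟩
  · simpa using Polynomial.X_sub_C_ne_zero (1 : ℚ)
  · rw [Finset.sum_range_succ, Finset.sum_range_one, Function.iterate_zero_apply,
      Function.iterate_one]
    simpa using heq
  · rw [← exceptional_example]
    simp only [show ∀ α : ℂ, ∑' k, ((PowerSeries.coeff k
      (((Polynomial.X - 1 : ℚ[X]) : PowerSeries ℚ) * PowerSeries.exp ℚ) : ℚ) : ℂ) * α ^ k =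
        (α - 1) * Complex.exp α from hval]

end FA.ExceptionalValues.Summary

end
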