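import Fermat.Agent.PadicL.Interpolation
import Fermat.Agent.Root.LFunctionAll

/-!
# Summary: the p-adic L-function of Mazur and Swinnerton-Dyer

* `pAdicLFunction`: for a normalised eigenform with integral coefficients and a good ordinary prime
  `p` the modular symbols `x⁺(r) = s(r)/M` give a continuous functional on `C(ℤ_p, ℚ_p)`, pinned by
  its values on the classes modulo `pᵐ`; on `ℤ_pˣ` its mass is `(1 - 1/α)² L(f,1)/Ω⁺` and at an
  even quadratic character `ψ` modulo `p` it is `τ(ψ) L(f ⊗ ψ, 1) / (α Ω⁺)`.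
* `pAdicLFunction_semistable`: the same for semistable curves.
-/

set_option autoImplicit false

noncomputable section

namespace FA.Summary

open UpperHalfPlane hiding I
open Complex CongruenceSubgroup Filter WeierstrassCurve
open scoped Real MatrixGroups Topology

/-- The functions pinning the functional exist: indicators of classes modulo `pᵐ` are continuous. -/
theorem exists_classIndicator (p : ℕ) [Fact p.Prime] (m b : ℕ) :
    ∃ φ : C(ℤ_[p], ℚ_[p]),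
      ∀ x : ℤ_[p], φ x = if ‖x - b‖ ≤ (p : ℝ) ^ (-(m : ℤ)) then 1 else 0 := by
  classical
  have hr : (p : ℝ) ^ (-(m : ℤ)) ≠ 0 :=
    zpow_ne_zero _ (Nat.cast_ne_zero.mpr (Fact.out : p.Prime).ne_zero)
  let U : TopologicalSpace.Clopens ℤ_[p] :=
    ⟨Metric.closedBall (b : ℤ_[p]) _, IsUltrametricDist.isClopen_closedBall _ hr⟩
  refine ⟨⟨_, ((LocallyConstant.charFn ℚ_[p] U.isClopen)).continuous⟩, fun x => ?_⟩
  show LocallyConstant.charFn ℚ_[p] U.isClopen x = _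
  rw [LocallyConstant.coe_charFn, Set.indicator_apply, Pi.one_apply]
  simp only [U, TopologicalSpace.Clopens.coe_mk, Metric.mem_closedBall, dist_eq_norm]

/-- **The p-adic L-function** of an eigenform at a good ordinary prime. -/
theorem pAdicLFunction {N : ℕ} [NeZero N] {f : CuspForm (Gamma0 N) 2}
    (hf : f.IsNormalizedEigenform) {a : ℕ → ℤ}
    (ha : ∀ n, ModularFormClass.qCoeff f n = (a n : ℂ)) :
    ∃ (Ω : ℝ) (M : ℕ) (s : ℚ → ℤ),
      IsLeast {x : ℝ | 0 < x ∧ ∃ γ, 2 * (π : ℂ) * I * ModularCurve.periodMap N f γ = x} Ω ∧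
      0 < M ∧
      (∀ (F : ℍ → ℂ), (∀ τ : ℍ, HasDerivAt (F ∘ ofComplex) (f τ) (τ : ℂ)) →
        Tendsto F atImInfty (𝓝 0) → ∀ r : ℚ,
          Tendsto (fun t : ℝ => (M : ℝ) *
            (2 * (π : ℂ) * I * F (ofComplex ((r : ℂ) + I * (t : ℂ)))).re)
            (𝓝[>] 0) (𝓝 ((s r : ℝ) * Ω))) ∧
      ∀ (p : ℕ) [Fact p.Prime], ¬ p ∣ N → ¬ (p : ℤ) ∣ a p →
        ∃ (α β : ℤ_[p]) (L : C(ℤ_[p], ℚ_[p]) →L[ℚ_[p]] ℚ_[p]),
          α ^ 2 - (a p : ℤ_[p]) * α + p = 0 ∧ α * β = 1 ∧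
          (∀ (m b : ℕ), b < p ^ m → ∀ φ : C(ℤ_[p], ℚ_[p]),
            (∀ x : ℤ_[p], φ x = if ‖x - b‖ ≤ (p : ℝ) ^ (-(m : ℤ)) then 1 else 0) →
            L φ = ((β : ℚ_[p]) ^ m * (s ((b : ℚ) / (p : ℚ) ^ m) : ℚ_[p]) -
              (β : ℚ_[p]) ^ (m + 1) * (s ((b : ℚ) * p / (p : ℚ) ^ m) : ℚ_[p])) / M) ∧
          (∀ φ : C(ℤ_[p], ℚ_[p]), (∀ x, φ x = if PadicInt.toZMod x = 0 then 0 else 1) →
            ∀ G : ℂ → ℂ, Differentiable ℂ G →
              (∀ z : ℂ, 2 < z.re → G z = LSeries (ModularFormClass.qCoeff f) z) →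
              ∃ r : ℚ, G 1 = r * Ω ∧ L φ = (1 - (β : ℚ_[p])) ^ 2 * (r : ℚ_[p])) ∧
          (∀ (ψ : DirichletCharacter ℂ p) (e : ZMod p → ℤ), (∀ j, ψ j = (e j : ℂ)) →
            (∀ u : (ZMod p)ˣ, ψ u * ψ u = 1) → ψ ≠ 1 → ψ (-1) = 1 →
            ∀ φ : C(ℤ_[p], ℚ_[p]), (∀ x, φ x = (e (PadicInt.toZMod x) : ℚ_[p])) →
              ∀ G : ℂ → ℂ, Differentiable ℂ G →
                (∀ z : ℂ, 2 < z.re →
                  G z = LSeries (fun n : ℕ => ψ (n : ZMod p) * (a n : ℂ)) z) →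
                ∃ r : ℚ, (∑ j : ZMod p, ψ j * ZMod.stdAddChar j) * G 1 = r * Ω ∧
                  L φ = (β : ℚ_[p]) * (r : ℚ_[p])) := by
  obtain ⟨Ω, hΩ⟩ := FA.PeriodLattice.exists_isLeast_realPeriod hf ha
  obtain ⟨M, s, hM, hs⟩ := FA.PadicL.exists_intSymbol ha hΩ
  refine ⟨Ω, M, s, ?_, hM, fun F hF hF0 r => ?_, fun p _ hpN hord => ?_⟩
  · convert hΩ using 1
    ext x
    simp only [Set.mem_ofPred_eq, FA.PeriodLattice.mem_realPeriods]
    exact and_comm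
  · rw [hs r, FA.ManinDrinfeld.primitive_unique hF (FA.ManinDrinfeld.isPrimitive_prim f) hF0
      (FA.ManinDrinfeld.tendsto_prim f)]
    exact ((Complex.continuous_re.tendsto _).comp
      ((FA.PadicL.tendsto_vlim f r).const_mul _)).const_mul _
  have hp : p.Prime := Fact.out
  have hΩ0 : Ω ≠ 0 := hΩ.1.2.ne'
  have hper : ∀ r, s (r + 1) = s r := fun r => by
    have h : (s (r + 1) : ℝ) * Ω = (s r : ℝ) * Ω := by
      rw [hs, hs, FA.PadicL.vlim_add_one]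
    exact_mod_cast mul_right_cancel₀ hΩ0 h
  have hrel : ∀ r : ℚ, a p * s r = s (p * r) + ∑ j ∈ Finset.range p, s ((r + j) / p) := fun r => by
    have h := congrArg (fun z : ℂ => (2 * (π : ℂ) * I * z).re)
      (FA.PadicL.vlim_hecke hf ha hp hpN r)
    simp only [mul_add, Finset.mul_sum, Complex.add_re, Complex.re_sum] at h
    rw [show 2 * (π : ℂ) * I * ((a p : ℂ) * FA.PadicL.vlim f r) =
      ((a p : ℝ) : ℂ) * (2 * (π : ℂ) * I * FA.PadicL.vlim f r) by push_cast; ring,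
      Complex.re_ofReal_mul] at h
    have h2 : (((a p * s r : ℤ) : ℝ)) * Ω =
        ((s (p * r) + ∑ j ∈ Finset.range p, s ((r + j) / p) : ℤ) : ℝ) * Ω := by
      push_cast
      rw [add_mul, Finset.sum_mul, mul_assoc, hs]
      simp only [hs, ← Finset.mul_sum, ← mul_add, ← h]
      ring
    exact_mod_cast mul_right_cancel₀ hΩ0 h2
  obtain ⟨α, hα, hu⟩ := FA.PadicL.exists_unit_root hord
  obtain ⟨u, rfl⟩ := hu
  have hab : (u : ℤ_[p]) * (↑u⁻¹ : ℤ_[p]) = 1 := u.mul_inv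
  set β : ℤ_[p] := ↑u⁻¹
  have hβ : (a p : ℤ_[p]) * β - p * β ^ 2 = 1 := by
    linear_combination (-β ^ 2) * hα + ((u : ℤ_[p]) * β - (a p : ℤ_[p]) * β + 1) * hab
  obtain ⟨Λ, hΛ⟩ := FA.PadicL.exists_integral (FA.PadicL.sum_muValue hper hrel hβ)
  refine ⟨u, β, (M : ℚ_[p])⁻¹ • Λ, hα, hab, fun m b hb φ hφ => ?_, fun φ hφ G hG hGs => ?_,
    fun ψ e he hψ hne heven φ hφ G hG hGs => ?_⟩
  · rw [smul_apply, smul_eq_mul,
      FA.PadicL.eq_value_of_indicator (FA.PadicL.sum_muValue hper hrel hβ) hΛ φ m b hb hφ, inv_mul_eq_div,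
      FA.PadicL.muValue]
    push_cast
    rfl
  · refine ⟨(s 0 : ℚ) / M, FA.PadicL.centralValue_eq_symbol ha hM hs hG hGs, ?_⟩
    rw [smul_apply, smul_eq_mul, FA.PadicL.eq_units hper hrel hβ hΛ φ hφ]
    push_cast
    ring
  · refine ⟨((∑ j : ZMod p, e j * s ((j.val : ℚ) / p) : ℤ) : ℚ) / M,
      FA.PadicL.twist_eq_symbol hf ha hM hs he hψ hne heven hG hGs, ?_⟩
    have hsum : ∑ j, e j = 0 := by
      have h := MulChar.sum_eq_zero_of_ne_one hne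
      simp only [he] at h
      exact_mod_cast h
    rw [smul_apply, smul_eq_mul,
      FA.PadicL.eq_character hper hrel hβ hΛ φ e hsum hφ]
    push_cast
    ring

/-- **The p-adic L-function of a semistable elliptic curve**: its newform satisfies the hypotheses
of `pAdicLFunction`, and ordinary primes are those with `p ∤ #Ẽ(𝔽_p) - 1`. -/
theorem pAdicLFunction_semistable (E : WeierstrassCurve ℚ) [E.IsElliptic]
    (h : ∀ p : ℕ, ∀ [Fact p.Prime], ∃ C : VariableChange ℚ_[p],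
      HasGoodReduction ℤ_[p] (C • E.map (algebraMap ℚ ℚ_[p])) ∨
        HasMultiplicativeReduction ℤ_[p] (C • E.map (algebraMap ℚ ℚ_[p]))) :
    ∃ (W : WeierstrassCurve ℤ) (N : ℕ) (f : CuspForm (Gamma0 N) 2) (Ω : ℝ) (M : ℕ) (s : ℚ → ℤ),
      W.IsIntegralModelOf E ∧ f.IsNewform ∧
      (∀ n : ℕ, ModularFormClass.qCoeff f n = (E.LFunction n : ℂ)) ∧
      IsLeast {x : ℝ | 0 < x ∧ ∃ γ, 2 * (π : ℂ) * I * ModularCurve.periodMap N f γ = x} Ω ∧
      0 < M ∧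
      (∀ (F : ℍ → ℂ), (∀ τ : ℍ, HasDerivAt (F ∘ ofComplex) (f τ) (τ : ℂ)) →
        Tendsto F atImInfty (𝓝 0) → ∀ r : ℚ,
          Tendsto (fun t : ℝ => (M : ℝ) *
            (2 * (π : ℂ) * I * F (ofComplex ((r : ℂ) + I * (t : ℂ)))).re)
            (𝓝[>] 0) (𝓝 ((s r : ℝ) * Ω))) ∧
      ∀ (p : ℕ) [Fact p.Prime], ¬ (p : ℤ) ∣ W.Δ → ¬ (p : ℤ) ∣ W.apOfModel p →
        ∃ (α β : ℤ_[p]) (L : C(ℤ_[p], ℚ_[p]) →L[ℚ_[p]] ℚ_[p]),
          α ^ 2 - (W.apOfModel p : ℤ_[p]) * α + p = 0 ∧ α * β = 1 ∧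
          (∀ (m b : ℕ), b < p ^ m → ∀ φ : C(ℤ_[p], ℚ_[p]),
            (∀ x : ℤ_[p], φ x = if ‖x - b‖ ≤ (p : ℝ) ^ (-(m : ℤ)) then 1 else 0) →
            L φ = ((β : ℚ_[p]) ^ m * (s ((b : ℚ) / (p : ℚ) ^ m) : ℚ_[p]) -
              (β : ℚ_[p]) ^ (m + 1) * (s ((b : ℚ) * p / (p : ℚ) ^ m) : ℚ_[p])) / M) ∧
          (∀ φ : C(ℤ_[p], ℚ_[p]), (∀ x, φ x = if PadicInt.toZMod x = 0 then 0 else 1) →
            ∀ G : ℂ → ℂ, Differentiable ℂ G → (∀ z : ℂ, 2 < z.re → G z = E.LSeries z) →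
              ∃ r : ℚ, G 1 = r * Ω ∧ L φ = (1 - (β : ℚ_[p])) ^ 2 * (r : ℚ_[p])) := by
  obtain ⟨W, N, f, hW, -, hsq, hN, hf, hn⟩ := FA.Root.exists_newform_LFunction E h
  have : NeZero N := ⟨hsq.ne_zero⟩
  obtain ⟨Ω, M, s, hΩ, hM, hs, hp⟩ := pAdicLFunction hf.isNormalizedEigenform
    (a := fun n => E.LFunction n) hn
  refine ⟨W, N, f, Ω, M, s, hW, hf, hn, hΩ, hM, hs, fun p _ hgood hord => ?_⟩
  have hap := FA.Root.LFunction_apply_prime E W hW (Fact.out : p.Prime) hgood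
  obtain ⟨α, β, L, hα, hαβ, hval, hone, -⟩ := hp p
    (fun hd => hgood ((hN p Fact.out).mp hd)) (by simpa only [hap] using hord)
  refine ⟨α, β, L, by simpa only [hap] using hα, hαβ, hval, fun φ hφ G hG hGs => ?_⟩
  refine hone φ hφ G hG fun z hz => ?_
  rw [hGs z hz, WeierstrassCurve.LSeries]
  exact congrArg (LSeries · z) (funext fun n => (hn n).symm)

end FA.Summary

end
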