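import Fermat.Agent.PadicL.Multiplicative
import Fermat.Agent.PadicL.Unique
import Fermat.Agent.Root.SummaryPadicLFunction

/-!
# Summary: multiplicative primes and the exceptional zero

* `pAdicLFunction_multiplicative`: at a prime `p ∣ N` with `a_p = ±1` the modular symbols give a
  functional whose mass on `ℤ_pˣ` is `(1 - 1/a_p) L(f, 1) / Ω`.
* `exceptional_zero`: at a split multiplicative prime of a semistable curve this mass is zero
  (Mazur, Tate and Teitelbaum).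
* `pAdicLFunction_unique`: the values on the classes modulo `pᵐ` determine the functional.
-/

set_option autoImplicit false

noncomputable section

namespace FA.Summary

open UpperHalfPlane hiding I
open Complex CongruenceSubgroup Filter WeierstrassCurve
open scoped Real MatrixGroups Topology

/-- **Uniqueness of the p-adic L-function**. -/
theorem pAdicLFunction_unique {p : ℕ} [Fact p.Prime]
    {L L' : C(ℤ_[p], ℚ_[p]) →L[ℚ_[p]] ℚ_[p]}
    (h : ∀ (m b : ℕ), b < p ^ m → ∀ φ : C(ℤ_[p], ℚ_[p]),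
      (∀ x : ℤ_[p], φ x = if ‖x - b‖ ≤ (p : ℝ) ^ (-(m : ℤ)) then 1 else 0) → L φ = L' φ) :
    L = L' :=
  FA.PadicL.functional_ext fun m b hb => h m b hb _ fun _ => rfl

/-- **The p-adic L-function at a prime of the level** with `a_p = ±1`. -/
theorem pAdicLFunction_multiplicative {N : ℕ} [NeZero N] {f : CuspForm (Gamma0 N) 2}
    (hf : f.IsNormalizedEigenform) {a : ℕ → ℤ}
    (ha : ∀ n, ModularFormClass.qCoeff f n = (a n : ℂ)) :
    ∃ (Ω : ℝ) (M : ℕ) (s : ℚ → ℤ),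
      IsLeast {x : ℝ | 0 < x ∧ ∃ γ, 2 * (π : ℂ) * I * ModularCurve.periodMap N f γ = x} Ω ∧
      0 < M ∧
      (∀ (F : ℍ → ℂ), (∀ τ : ℍ, HasDerivAt (F ∘ ofComplex) (f τ) (τ : ℂ)) →
        Tendsto F atImInfty (𝓝 0) → ∀ r : ℚ,
          Tendsto (fun t : ℝ => (M : ℝ) *
            (2 * (π : ℂ) * I * F (ofComplex ((r : ℂ) + I * (t : ℂ)))).re)
            (𝓝[>] 0) (𝓝 ((s r : ℝ) * Ω))) ∧
      ∀ (p : ℕ) [Fact p.Prime], p ∣ N → a p ^ 2 = 1 →
        ∃ L : C(ℤ_[p], ℚ_[p]) →L[ℚ_[p]] ℚ_[p],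
          (∀ (m b : ℕ), b < p ^ m → ∀ φ : C(ℤ_[p], ℚ_[p]),
            (∀ x : ℤ_[p], φ x = if ‖x - b‖ ≤ (p : ℝ) ^ (-(m : ℤ)) then 1 else 0) →
            L φ = (a p : ℚ_[p]) ^ m * (s ((b : ℚ) / (p : ℚ) ^ m) : ℚ_[p]) / M) ∧
          (∀ φ : C(ℤ_[p], ℚ_[p]), (∀ x, φ x = if PadicInt.toZMod x = 0 then 0 else 1) →
            (a p = 1 → L φ = 0) ∧
            ∀ G : ℂ → ℂ, Differentiable ℂ G →
              (∀ z : ℂ, 2 < z.re → G z = LSeries (ModularFormClass.qCoeff f) z) →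
              ∃ r : ℚ, G 1 = r * Ω ∧ L φ = (1 - (a p : ℚ_[p])) * (r : ℚ_[p])) := by
  obtain ⟨Ω, hΩ⟩ := FA.PeriodLattice.exists_isLeast_realPeriod hf ha
  obtain ⟨M, s, hM, hs⟩ := FA.PadicL.exists_intSymbol ha hΩ
  refine ⟨Ω, M, s, ?_, hM, fun F hF hF0 r => ?_, fun p _ hpN hap => ?_⟩
  · convert hΩ using 1
    ext x
    simp only [Set.mem_ofPred_eq, FA.PeriodLattice.mem_realPeriods]
    exact and_comm
  · rw [hs r, FA.ManinDrinfeld.primitive_unique hF (FA.ManinDrinfeld.isPrimitive_prim f) hF0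
      (FA.ManinDrinfeld.tendsto_prim f)]
    exact ((Complex.continuous_re.tendsto _).comp
      ((FA.PadicL.tendsto_vlim f r).const_mul _)).const_mul _
  have hp : p.Prime := Fact.out
  have hΩ0 : Ω ≠ 0 := hΩ.1.2.ne'
  have hrel : ∀ r : ℚ, a p * s r = ∑ j ∈ Finset.range p, s ((r + j) / p) := fun r => by
    have h := congrArg (fun z : ℂ => (2 * (π : ℂ) * I * z).re)
      (FA.PadicL.vlim_heckeU hf ha hp hpN r)
    simp only [Finset.mul_sum, Complex.re_sum] at h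
    rw [show 2 * (π : ℂ) * I * ((a p : ℂ) * FA.PadicL.vlim f r) =
      ((a p : ℝ) : ℂ) * (2 * (π : ℂ) * I * FA.PadicL.vlim f r) by push_cast; ring,
      Complex.re_ofReal_mul] at h
    have h2 : (((a p * s r : ℤ) : ℝ)) * Ω =
        ((∑ j ∈ Finset.range p, s ((r + j) / p) : ℤ) : ℝ) * Ω := by
      push_cast
      rw [Finset.sum_mul, mul_assoc, hs]
      simp only [hs, ← Finset.mul_sum, ← h]
      ring
    exact_mod_cast mul_right_cancel₀ hΩ0 h2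
  have hβ : (a p : ℤ_[p]) * (a p : ℤ_[p]) = 1 := by
    rw [← Int.cast_mul, ← sq, hap, Int.cast_one]
  obtain ⟨Λ, hΛ⟩ := FA.PadicL.exists_integral (FA.PadicL.sum_multValue hrel hβ)
  have hunits : ∀ φ : C(ℤ_[p], ℚ_[p]), (∀ x, φ x = if PadicInt.toZMod x = 0 then 0 else 1) →
      ((M : ℚ_[p])⁻¹ • Λ) φ = (1 - (a p : ℚ_[p])) * ((((s 0 : ℚ) / M : ℚ)) : ℚ_[p]) :=
    fun φ hφ => by
    rw [smul_apply, smul_eq_mul, FA.PadicL.eq_units_mult hrel hβ hΛ φ hφ]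
    push_cast
    ring
  refine ⟨(M : ℚ_[p])⁻¹ • Λ, fun m b hb φ hφ => ?_, fun φ hφ => ⟨fun h1 => ?_,
    fun G hG hGs => ⟨(s 0 : ℚ) / M, FA.PadicL.centralValue_eq_symbol ha hM hs hG hGs,
      hunits φ hφ⟩⟩⟩
  · rw [smul_apply, smul_eq_mul, FA.PadicL.eq_value_of_indicator
      (FA.PadicL.sum_multValue hrel hβ) hΛ φ m b hb hφ, inv_mul_eq_div, FA.PadicL.multValue]
    push_cast
    rfl
  · rw [hunits φ hφ, h1, Int.cast_one, sub_self, zero_mul]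

/-- **The exceptional zero** of a semistable curve at a split multiplicative prime. -/
theorem exceptional_zero (E : WeierstrassCurve ℚ) [E.IsElliptic]
    (h : ∀ p : ℕ, ∀ [Fact p.Prime], ∃ C : VariableChange ℚ_[p],
      HasGoodReduction ℤ_[p] (C • E.map (algebraMap ℚ ℚ_[p])) ∨
        HasMultiplicativeReduction ℤ_[p] (C • E.map (algebraMap ℚ ℚ_[p]))) :
    ∃ (W : WeierstrassCurve ℤ) (N : ℕ) (f : CuspForm (Gamma0 N) 2) (Ω : ℝ) (M : ℕ) (s : ℚ → ℤ),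
      W.IsIntegralModelOf E ∧ f.IsNewform ∧
      (∀ n : ℕ, ModularFormClass.qCoeff f n = (E.LFunction n : ℂ)) ∧
      IsLeast {x : ℝ | 0 < x ∧ ∃ γ, 2 * (π : ℂ) * I * ModularCurve.periodMap N f γ = x} Ω ∧
      0 < M ∧
      (∀ (F : ℍ → ℂ), (∀ τ : ℍ, HasDerivAt (F ∘ ofComplex) (f τ) (τ : ℂ)) →
        Tendsto F atImInfty (𝓝 0) → ∀ r : ℚ,
          Tendsto (fun t : ℝ => (M : ℝ) *
            (2 * (π : ℂ) * I * F (ofComplex ((r : ℂ) + I * (t : ℂ)))).re)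
            (𝓝[>] 0) (𝓝 ((s r : ℝ) * Ω))) ∧
      ∀ (p : ℕ) [Fact p.Prime], (p : ℤ) ∣ W.Δ →
        ∃ L : C(ℤ_[p], ℚ_[p]) →L[ℚ_[p]] ℚ_[p],
          (∀ (m b : ℕ), b < p ^ m → ∀ φ : C(ℤ_[p], ℚ_[p]),
            (∀ x : ℤ_[p], φ x = if ‖x - b‖ ≤ (p : ℝ) ^ (-(m : ℤ)) then 1 else 0) →
            L φ = (FA.Root.splitSign W p : ℚ_[p]) ^ m *
              (s ((b : ℚ) / (p : ℚ) ^ m) : ℚ_[p]) / M) ∧
          (∀ φ : C(ℤ_[p], ℚ_[p]), (∀ x, φ x = if PadicInt.toZMod x = 0 then 0 else 1) →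
            (FA.Root.SplitModel W p → L φ = 0) ∧
            (¬ FA.Root.SplitModel W p →
              ∀ G : ℂ → ℂ, Differentiable ℂ G → (∀ z : ℂ, 2 < z.re → G z = E.LSeries z) →
                ∃ r : ℚ, G 1 = r * Ω ∧ L φ = 2 * (r : ℚ_[p]))) := by
  obtain ⟨W, N, f, hW, hsm, hsq, hN, hf, hn⟩ := FA.Root.exists_newform_LFunction E h
  have : NeZero N := ⟨hsq.ne_zero⟩
  obtain ⟨Ω, M, s, hΩ, hM, hs, hp⟩ := pAdicLFunction_multiplicative hf.isNormalizedEigenform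
    (a := fun n => E.LFunction n) hn
  refine ⟨W, N, f, Ω, M, s, hW, hf, hn, hΩ, hM, hs, fun p _ hbad => ?_⟩
  have hΔ : W.Δ ≠ 0 := FA.Frob.Δ_ne_zero_of_model hW
  have hap := FA.Root.LFunction_apply_prime_pow_mult E W hW (Fact.out : p.Prime) hbad hΔ
    (hsm p Fact.out hbad) 1
  rw [pow_one, pow_one] at hap
  obtain ⟨L, hval, hunits⟩ := hp p ((hN p Fact.out).mpr hbad)
    (show E.LFunction p ^ 2 = 1 by rw [hap, FA.Root.splitSign]; split_ifs <;> norm_num)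
  simp only [hap] at hval hunits
  refine ⟨L, hval, fun φ hφ => ⟨fun hsp => (hunits φ hφ).1 (if_pos hsp), fun hns G hG hGs => ?_⟩⟩
  obtain ⟨r, hr, hL⟩ := (hunits φ hφ).2 G hG fun z hz => by
    rw [hGs z hz, WeierstrassCurve.LSeries]
    exact congrArg (LSeries · z) (funext fun n => (hn n).symm)
  refine ⟨r, hr, ?_⟩
  rw [hL, FA.Root.splitSign, if_neg hns]
  push_cast
  ring

end FA.Summary

end
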