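import Fermat.Agent.ExpMeasure.Simultaneous

/-!
# Linear forms and simultaneous approximation in rational powers of `e`

For distinct rationals `r 0, …, r n` and `ε > 0`, `|∑ a j e ^ (r j)| ≥ c max |a j| ^ (-n - ε)`
(Mahler; Baker 1965 in a sharper form). So for distinct nonzero rationals the numbers `e ^ (r i)`
are simultaneously approximable only to the exponent `1 / n`.
-/

set_option autoImplicit false

noncomputable section

namespace FA.ExpMeasure.Summary

/-- **Linear independence measure.** -/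
theorem exp_rat_linear_forms {n : ℕ} (r : Fin (n + 1) → ℚ) (hr : Function.Injective r) {ε : ℝ}
    (hε : 0 < ε) :
    ∃ c : ℝ, 0 < c ∧ ∀ a : Fin (n + 1) → ℤ, a ≠ 0 →
      c * ‖a‖ ^ (-((n : ℝ) + ε)) ≤ |∑ j, (a j : ℝ) * Real.exp (r j)| :=
  exists_measure_forms r hr hε

/-- **Rational powers of `e` are not very well approximable.** -/
theorem exp_rat_simultaneous {d : ℕ} (hd : 0 < d) {r : Fin d → ℚ} (hr : Function.Injective r)
    (h0 : ∀ i, r i ≠ 0) {ε : ℝ} (hε : 0 < ε) :
    {q : ℕ | 0 < q ∧ ∃ p : Fin d → ℤ,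
      ∀ i, |(q : ℝ) * Real.exp (r i) - p i| ≤ (q : ℝ) ^ (-(1 / (d : ℝ) + ε))}.Finite :=
  finite_simultaneous hd hr h0 (lt_add_of_pos_right _ hε)

end FA.ExpMeasure.Summary
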