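import Fermat.Agent.ExpMeasure.Powers

/-!
# `e` and the Liouville numbers

Every `e ^ r`, `r ≠ 0` rational, is an `S`-number, so it is algebraically independent of every
`U`-number, in particular of every Liouville number (Mahler 1932).
-/

set_option autoImplicit false

noncomputable section

open FA.MahlerClass

namespace FA.ExpMeasure.Summary

/-- **Mahler: the rational powers of `e` are `S`-numbers.** -/
theorem exp_rat_s_number {r : ℚ} (hr : r ≠ 0) : IsS (Real.exp r) := isS_exp_rat hr

/-- **No rational power `≠ 1` of `e` is a Liouville number.** -/
theorem exp_rat_not_liouville {r : ℚ} (hr : r ≠ 0) : ¬Liouville (Real.exp r) := fun h =>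
  not_isU_of_isS (isS_exp_rat hr) (liouville_isU h)

/-- **`e ^ r` is algebraically independent of every `U`-number.** -/
theorem exp_rat_independent_u_number {r : ℚ} (hr : r ≠ 0) {y : ℝ} (hy : IsU y) :
    AlgebraicIndependent ℤ ![Real.exp r, y] :=
  algebraicIndependent_of_isS_of_isU (transcendental_exp_rat hr) (isS_exp_rat hr) hy

/-- **`e` and a Liouville number are algebraically independent**; their sum and product are
transcendental. -/
theorem exp_one_independent_liouville {y : ℝ} (hy : Liouville y) :
    AlgebraicIndependent ℤ ![Real.exp 1, y] ∧ Transcendental ℤ (Real.exp 1 + y) ∧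
      Transcendental ℤ (Real.exp 1 * y) := by
  have h := algebraicIndependent_of_isS_of_isU transcendental_exp_one isS_exp_one (liouville_isU hy)
  exact ⟨h, transcendental_add_mul h⟩

/-- **`e` and Liouville's constant.** -/
theorem exp_one_independent_liouvilleNumber {m : ℕ} (hm : 2 ≤ m) :
    AlgebraicIndependent ℤ ![Real.exp 1, liouvilleNumber m] :=
  (exp_one_independent_liouville (liouville_liouvilleNumber hm)).1

end FA.ExpMeasure.Summary
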