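import Fermat.Agent.ExpMeasure.Main

/-!
# The transcendence measure of `e`

For every `n` and `ε > 0` a nonzero integer polynomial `P` of degree `≤ n` and height `H` has
`|P(e)| ≥ c H ^ (-n - ε)` (Popken 1929). So `w n = w* n = n` at `e` for every `n ≥ 1`, and `e` is
an `S`-number (Mahler 1932).
-/

set_option autoImplicit false

noncomputable section

open FA.MahlerClass FA.KoksmaClass

namespace FA.ExpMeasure.Summary

/-- **Popken's transcendence measure of `e`.** -/
theorem popken_measure (n : ℕ) {ε : ℝ} (hε : 0 < ε) :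
    ∃ c : ℝ, 0 < c ∧ ∀ p : Fin (n + 1) → ℤ, p ≠ 0 →
      c * ‖p‖ ^ (-((n : ℝ) + ε)) ≤ |∑ j, (p j : ℝ) * Real.exp 1 ^ (j : ℕ)| :=
  exists_measure n hε

/-- **The exponents of `e`**: `w n = w* n = n`. -/
theorem exp_one_exponents {n : ℕ} (hn : 0 < n) :
    mahlerExp n (Real.exp 1) = ((n : ℝ) : EReal) ∧
      koksmaExp n (Real.exp 1) = ((n : ℝ) : EReal) :=
  ⟨mahlerExp_exp_one hn, koksmaExp_exp_one hn⟩

/-- **Mahler: `e` is an `S`-number**, and an `S*`-number. -/
theorem exp_one_s_number : IsS (Real.exp 1) ∧ IsSStar (Real.exp 1) :=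
  ⟨isS_exp_one, isSStar_iff.2 isS_exp_one⟩

end FA.ExpMeasure.Summary
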