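import Fermat.Agent.ExplicitFormula.Psi
import Fermat.Agent.Root.SummaryVonKoch

/-!
# The explicit formula and von Koch's sharp bounds

`ψ₁ x = ∑_{n ≤ x} Λ n (x - n) = x²/2 - ∑ x ^ (ρ + 1) / (ρ (ρ + 1)) - x log 2π + O (√x)`, the sum
over the nontrivial zeros with multiplicity converging absolutely (von Mangoldt 1895, de la Vallée
Poussin 1896). Hence the Riemann hypothesis is equivalent to `ψ x - x = O (√x log² x)` and to
`π x - li x = O (√x log x)`, and gives a prime in `(x, x + C √x log² x]` (von Koch 1901).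
-/

set_option autoImplicit false

noncomputable section

namespace FA.ExplicitFormula.Summary

open Real
open scoped Chebyshev ArithmeticFunction.vonMangoldt

variable {β : ℝ}

private theorem mem_strip_iff {ρ : ℂ} :
    riemannZeta ρ = 0 ∧ 0 < ρ.re ∧ ρ.re < 1 ↔ FA.RiemannMangoldt.xiFn ρ = 0 := by
  constructor
  · rintro ⟨h, h0, h1⟩
    exact (FA.RiemannMangoldt.xiFn_eq_zero_iff h0 fun h' => by
      rw [h'] at h1; simp at h1).2 h
  · intro h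
    obtain ⟨h0, h1⟩ := FA.RiemannMangoldt.xiFn_zero_strip h
    exact ⟨(FA.RiemannMangoldt.xiFn_eq_zero_iff h0 fun h' => by
      rw [h'] at h1; simp at h1).1 h, h0, h1⟩

private theorem zeroWeight_eq {ρ : ℂ} (h0 : 0 < ρ.re) (h1 : ρ.re < 1) :
    zeroWeight ρ = analyticOrderNatAt riemannZeta ρ :=
  FA.RiemannMangoldt.analyticOrderNatAt_xiFn h0 fun h' => by rw [h'] at h1; simp at h1

private theorem logDeriv_zero :
    deriv riemannZeta 0 / riemannZeta 0 = ((log (2 * π) : ℝ) : ℂ) := by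
  rw [deriv_riemannZeta_zero, riemannZeta_zero, Complex.ofReal_log (by positivity)]
  push_cast
  ring

/-- **The explicit formula.** -/
theorem explicit_formula : ∃ C : ℝ, ∀ x : ℝ, 0 < x →
    Summable (fun ρ : {ρ : ℂ // riemannZeta ρ = 0 ∧ 0 < ρ.re ∧ ρ.re < 1} =>
      ‖(analyticOrderNatAt riemannZeta (ρ : ℂ) : ℂ) *
        ((x : ℂ) ^ ((ρ : ℂ) + 1) / ((ρ : ℂ) * ((ρ : ℂ) + 1)))‖) ∧
    ‖((∑ n ∈ Finset.Icc 1 ⌊x⌋₊, Λ n * (x - n) : ℝ) : ℂ) - ((x : ℂ) ^ 2 / 2 -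
      (∑' ρ : {ρ : ℂ // riemannZeta ρ = 0 ∧ 0 < ρ.re ∧ ρ.re < 1},
        (analyticOrderNatAt riemannZeta (ρ : ℂ) : ℂ) *
          ((x : ℂ) ^ ((ρ : ℂ) + 1) / ((ρ : ℂ) * ((ρ : ℂ) + 1)))) -
      (x : ℂ) * (log (2 * π) : ℝ))‖ ≤ C * √x := by
  obtain ⟨C, -, h⟩ := exists_explicit
  refine ⟨C, fun x hx => ?_⟩
  have he : ∀ ρ : {ρ : ℂ // riemannZeta ρ = 0 ∧ 0 < ρ.re ∧ ρ.re < 1},
      (analyticOrderNatAt riemannZeta (ρ : ℂ) : ℂ) *
        ((x : ℂ) ^ ((ρ : ℂ) + 1) / ((ρ : ℂ) * ((ρ : ℂ) + 1))) = zeroTerm x ρ := fun ρ => by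
    rw [zeroTerm, zeroWeight_eq ρ.2.2.1 ρ.2.2.2]
  simp only [he]
  refine ⟨(summable_norm_zeroTerm hx).subtype _, ?_⟩
  have hsupp : Function.support (zeroTerm x) ⊆
      {ρ | riemannZeta ρ = 0 ∧ 0 < ρ.re ∧ ρ.re < 1} := fun ρ hρ => by
    refine mem_strip_iff.2 ?_
    by_contra h'
    exact hρ (zeroTerm_eq_zero x h')
  have e : (∑' ρ : {ρ : ℂ // riemannZeta ρ = 0 ∧ 0 < ρ.re ∧ ρ.re < 1}, zeroTerm x ρ) =
      ∑' ρ, zeroTerm x ρ := tsum_subtype_eq_of_support_subset hsupp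
  rw [e, ← logDeriv_zero]
  exact h x hx

/-- **`∑ 1 / |ρ|²` converges** over the nontrivial zeros, with multiplicity. -/
theorem summable_inv_norm_sq :
    Summable fun ρ : {ρ : ℂ // riemannZeta ρ = 0 ∧ 0 < ρ.re ∧ ρ.re < 1} =>
      (analyticOrderNatAt riemannZeta (ρ : ℂ) : ℝ) * (1 / ‖(ρ : ℂ)‖ ^ 2) := by
  obtain ⟨c, hc, hinv⟩ := exists_inv_im_le
  obtain ⟨C, -, hsum⟩ := exists_sq_sum
  refine summable_of_sum_le (c := c ^ 2 * C) (fun ρ => by positivity) fun S => ?_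
  refine le_trans (b := ∑ ρ ∈ S, c ^ 2 *
    (zeroWeight (ρ : ℂ) * (1 / (1 + |(ρ : ℂ).im|) ^ 2))) (Finset.sum_le_sum fun ρ _ => ?_) ?_
  · obtain ⟨hz, h0, h1⟩ := ρ.2
    have hρ := mem_strip_iff.1 ⟨hz, h0, h1⟩
    rw [← zeroWeight_eq h0 h1, mul_left_comm]
    refine mul_le_mul_of_nonneg_left ?_ (Nat.cast_nonneg _)
    refine (one_div_le_one_div_of_le (pow_pos (abs_pos.2 (im_ne_zero_of_zero hρ)) 2)
      (pow_le_pow_left₀ (abs_nonneg _) (Complex.abs_im_le_norm _) 2)).trans ?_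
    rw [← one_div_pow, ← one_div_pow, ← mul_pow]
    exact pow_le_pow_left₀ (by positivity) (hinv _ hρ) 2
  · rw [← Finset.mul_sum]
    refine mul_le_mul_of_nonneg_left ?_ (sq_nonneg c)
    exact (Finset.sum_map S (Function.Embedding.subtype _)
      fun z => (zeroWeight z : ℝ) * (1 / (1 + |z.im|) ^ 2)).ge.trans (hsum _)

private theorem re_le_of_zeroFree (H : ∀ s : ℂ, β < s.re → s ≠ 1 → riemannZeta s ≠ 0) {ρ : ℂ}
    (hρ : FA.RiemannMangoldt.xiFn ρ = 0) : ρ.re ≤ β := by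
  obtain ⟨hz, -, h1⟩ := mem_strip_iff.2 hρ
  refine not_lt.1 fun h => H ρ h (fun h' => ?_) hz
  rw [h'] at h1
  simp at h1

/-- A logarithm costs less than any power. -/
private theorem log_pow_le {x δ : ℝ} (hx : 1 ≤ x) (hδ : 0 < δ) (k : ℕ) :
    log x ^ k ≤ (1 / δ) ^ k * x ^ (k * δ) := by
  rw [mul_comm (k : ℝ), rpow_mul (by linarith), rpow_natCast, ← mul_pow]
  refine pow_le_pow_left₀ (log_nonneg hx) ?_ k
  rw [one_div_mul_eq_div]
  exact log_le_rpow_div (by linarith) hδ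

/-- **`ψ x = x + O (x ^ β log² x)` says that no zero has `re s > β`.** -/
theorem zeroFree_iff_psi_sharp (hβ : 1 / 2 ≤ β) (hβ1 : β < 1) :
    (∀ s : ℂ, β < s.re → s ≠ 1 → riemannZeta s ≠ 0) ↔
      ∃ C : ℝ, ∀ x : ℝ, 2 ≤ x → |ψ x - x| ≤ C * (x ^ β * log x ^ 2) := by
  refine ⟨fun H => ?_, fun ⟨C, hC⟩ => (FA.VonKoch.Summary.zeroFree_iff_psi hβ hβ1).2
    fun ε hε => ⟨|C| * (1 / (ε / 2)) ^ 2, fun x hx => (hC x hx).trans ?_⟩⟩
  · obtain ⟨C, -, hC⟩ := exists_psi_bound hβ hβ1.le fun ρ hρ => re_le_of_zeroFree H hρ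
    exact ⟨C, hC⟩
  have h := log_pow_le (show 1 ≤ x by linarith) (half_pos hε) 2
  rw [show ((2 : ℕ) : ℝ) * (ε / 2) = ε by push_cast; ring] at h
  rw [rpow_add (by linarith)]
  calc C * (x ^ β * log x ^ 2) ≤ |C| * (x ^ β * ((1 / (ε / 2)) ^ 2 * x ^ ε)) :=
        mul_le_mul (le_abs_self C) (mul_le_mul_of_nonneg_left h (rpow_nonneg (by linarith) _))
          (by positivity) (abs_nonneg C)
    _ = _ := by ring

/-- The same for `π x - li x`, with one logarithm. -/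
theorem zeroFree_iff_primeCounting_sharp (hβ : 1 / 2 ≤ β) (hβ1 : β < 1) :
    (∀ s : ℂ, β < s.re → s ≠ 1 → riemannZeta s ≠ 0) ↔
      ∃ C : ℝ, ∀ x : ℝ, 2 ≤ x →
        |(Nat.primeCounting ⌊x⌋₊ : ℝ) - ∫ t in (2 : ℝ)..x, 1 / log t| ≤
          C * (x ^ β * log x) := by
  refine ⟨fun H => ?_, fun ⟨C, hC⟩ => (FA.VonKoch.Summary.zeroFree_iff_primeCounting hβ hβ1).2
    fun ε hε => ⟨|C| * (1 / ε), fun x hx => (hC x hx).trans ?_⟩⟩
  · obtain ⟨C, -, hC⟩ := exists_primeCount_bound hβ hβ1.le fun ρ hρ => re_le_of_zeroFree H hρ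
    exact ⟨C, hC⟩
  have h := log_pow_le (show 1 ≤ x by linarith) hε 1
  rw [pow_one, pow_one, Nat.cast_one, one_mul] at h
  have hl : 0 ≤ log x := log_nonneg (by linarith)
  rw [rpow_add (by linarith)]
  calc C * (x ^ β * log x) ≤ |C| * (x ^ β * (1 / ε * x ^ ε)) :=
        mul_le_mul (le_abs_self C) (mul_le_mul_of_nonneg_left h (rpow_nonneg (by linarith) _))
          (by positivity) (abs_nonneg C)
    _ = _ := by ring

private theorem zeros_of_riemannHypothesis (h : RiemannHypothesis) {ρ : ℂ}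
    (hρ : FA.RiemannMangoldt.xiFn ρ = 0) : ρ.re ≤ 1 / 2 := by
  obtain ⟨hz, h0, h1⟩ := mem_strip_iff.2 hρ
  refine (h ρ hz ?_ fun h' => by rw [h'] at h1; simp at h1).le
  rintro ⟨n, rfl⟩
  simp at h0
  linarith [(Nat.cast_nonneg n : (0 : ℝ) ≤ n)]

/-- **The Riemann hypothesis says `ψ x = x + O (√x log² x)`.** -/
theorem riemannHypothesis_iff_psi_sharp : RiemannHypothesis ↔
    ∃ C : ℝ, ∀ x : ℝ, 2 ≤ x → |ψ x - x| ≤ C * (√x * log x ^ 2) := by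
  simp only [sqrt_eq_rpow]
  refine ⟨fun h => ?_, fun ⟨C, hC⟩ => FA.VonKoch.Summary.riemannHypothesis_iff_psi.2
    ((FA.VonKoch.Summary.zeroFree_iff_psi le_rfl (by norm_num)).1
      ((zeroFree_iff_psi_sharp le_rfl (by norm_num)).2 ⟨C, hC⟩))⟩
  obtain ⟨C, -, hC⟩ := exists_psi_bound le_rfl (by norm_num) fun ρ hρ =>
    zeros_of_riemannHypothesis h hρ
  exact ⟨C, hC⟩

/-- **The Riemann hypothesis says `π x = li x + O (√x log x)`.** -/
theorem riemannHypothesis_iff_primeCounting_sharp : RiemannHypothesis ↔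
    ∃ C : ℝ, ∀ x : ℝ, 2 ≤ x →
      |(Nat.primeCounting ⌊x⌋₊ : ℝ) - ∫ t in (2 : ℝ)..x, 1 / log t| ≤ C * (√x * log x) := by
  simp only [sqrt_eq_rpow]
  refine ⟨fun h => ?_, fun ⟨C, hC⟩ => FA.VonKoch.Summary.riemannHypothesis_iff_primeCounting.2
    ((FA.VonKoch.Summary.zeroFree_iff_primeCounting le_rfl (by norm_num)).1
      ((zeroFree_iff_primeCounting_sharp le_rfl (by norm_num)).2 ⟨C, hC⟩))⟩
  obtain ⟨C, -, hC⟩ := exists_primeCount_bound le_rfl (by norm_num) fun ρ hρ =>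
    zeros_of_riemannHypothesis h hρ
  exact ⟨C, hC⟩

/-- **The Riemann hypothesis puts a prime in `(x, x + C √x log² x]`.** -/
theorem prime_gap_of_riemannHypothesis (h : RiemannHypothesis) :
    ∃ C : ℝ, ∀ x : ℝ, 2 ≤ x → ∃ p : ℕ, p.Prime ∧ x < p ∧
      (p : ℝ) ≤ x + C * (√x * log x ^ 2) := by
  simp only [sqrt_eq_rpow]
  obtain ⟨C, -, hC⟩ := exists_prime_between le_rfl (by norm_num) fun ρ hρ =>
    zeros_of_riemannHypothesis h hρ
  exact ⟨C, hC⟩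

end FA.ExplicitFormula.Summary

end
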