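import Fermat.Agent.ExplicitReciprocity.Derivative

/-!
# The explicit reciprocity law for `p ^ m`-th Hilbert symbols, deep above `p`

`K = ℚ(ζ)`, `ζ` of order `p ^ m` (`m = n + 1`), `v` the prime above `p`. The conventions are those
of `FA.HilbertN.hilbertSymbol`: `(a, b) = θ_v(a) β / β` with `β ^ (p ^ m) = b` and `θ_v` the norm
residue symbol that sends a uniformizer to the arithmetic Frobenius element where nothing ramifies,
so that over `ℚ_p` a unit `a` raises roots of unity of `p`-power order to the power `1 / a`.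

* `explicit_symbol_zeta`: `(a, ζ) = ζ ^ t` if `N a * (1 + p ^ m t) ≡ 1` modulo `p ^ (2 m)`, the
  norm being written as a fraction `N / D` of integers prime to `p`;
* `explicit_symbol_deep`: for `ε ≡ 0` modulo `p ^ k`, `m + 2 ≤ 2 k`, and every polynomial `h` with
  integral coefficients, `(1 + ε h(ζ), h(ζ)) = ζ ^ t` with
  `t p ^ m ≡ - Tr (ε ζ h'(ζ))` modulo `p ^ (2 m)`. As `log (1 + ε h(ζ)) ≡ ε h(ζ)` and
  `ζ h'(ζ) / h(ζ) = (D log g)(ζ - 1)` for `g = h(1 + X)`, `D = (1 + X) d/dX`, this reads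
  `(x, b) = ζ ^ (- (1 / p ^ m) Tr (log x · (D log g)(ζ - 1)))`;
* `explicit_symbol_exponent`: such an exponent always exists;
* `explicit_symbol_check_three`, `explicit_symbol_check_two`: the signs checked at `p = 3`, `m = 1`,
  `(4, ζ) = ζ` (here `-(2 / 3) log 4 ≡ 1` modulo `3`), and at `p = 2`, `m = 1`, `(3, -1) = -1`.
-/

set_option autoImplicit false
set_option linter.unusedSectionVars false

noncomputable section

open NumberField IsDedekindDomain Polynomial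
open FA.HilbertN

namespace FA.ExplicitLaw.Summary

variable {p : ℕ} [hp : Fact p.Prime] {n : ℕ} {K : Type*} [Field K] [NumberField K]
  [hcyc : IsCyclotomicExtension {p ^ (n + 1)} ℚ K] [HasEnoughRootsOfUnity K (p ^ (n + 1))]
  {v : HeightOneSpectrum (𝓞 K)} (hv : (p : 𝓞 K) ∈ v.asIdeal) {ζ : K}
  (hζ : IsPrimitiveRoot ζ (p ^ (n + 1)))
include hv hcyc hζ

/-- **The symbol with `ζ`.** -/
theorem explicit_symbol_zeta (a b : Kˣ) (hb : (b : K) = ζ) {N D t : ℤ} (hN : ¬ (p : ℤ) ∣ N)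
    (hD : ¬ (p : ℤ) ∣ D) (hna : Algebra.norm ℚ (a : K) * D = N)
    (ht : (p : ℤ) ^ (2 * (n + 1)) ∣ N * (1 + (p : ℤ) ^ (n + 1) * t) - D) :
    ((hilbertSymbol (p ^ (n + 1)) v a b : Kˣ) : K) = ζ ^ t := by
  rw [← pairing_units, hb]
  exact pairing_zeta_of_norm hv hζ hN hD hna ht

/-- **The explicit law deep above `p`.** -/
theorem explicit_symbol_deep {k : ℕ} (hk : n + 3 ≤ 2 * k) (h : ℤ[X]) (a b : Kˣ) {ε : K}
    (hε : v.valuation K ε ≤ v.valuation K (p : K) ^ k) (hb : (b : K) = aeval ζ h)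
    (ha : (a : K) = 1 + ε * b) {t : ℤ}
    (ht : ‖(((t : ℚ) * (p : ℚ) ^ (n + 1) +
      Algebra.trace ℚ K (ε * (ζ * aeval ζ (derivative h))) : ℚ) : ℚ_[p])‖ ≤
        (p : ℝ) ^ (-((2 * (n + 1) : ℕ) : ℤ))) :
    ((hilbertSymbol (p ^ (n + 1)) v a b : Kˣ) : K) = ζ ^ t := by
  rw [← pairing_units, ha, hb]
  exact pairing_aeval_of_trace hv hζ hk h (hb ▸ b.ne_zero) hε ht

/-- **The exponent exists.** -/
theorem explicit_symbol_exponent {k : ℕ} (hk : n + 3 ≤ 2 * k) (h : ℤ[X]) {ε : K}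
    (hε : v.valuation K ε ≤ v.valuation K (p : K) ^ k) :
    ∃ t : ℤ, ‖(((t : ℚ) * (p : ℚ) ^ (n + 1) +
      Algebra.trace ℚ K (ε * (ζ * aeval ζ (derivative h))) : ℚ) : ℚ_[p])‖ ≤
        (p : ℝ) ^ (-((2 * (n + 1) : ℕ) : ℤ)) :=
  exists_trace_exponent hv hζ hk
    ((show Deep v p k ε from hε).mul_right
      ((deep_zeta hv hζ).mul_left (deep_aeval (deep_zeta hv hζ) _)))

end FA.ExplicitLaw.Summary

namespace FA.ExplicitLaw.Summary

variable {K : Type*} [Field K] [NumberField K]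

/-- **`p = 3`**: `(4, ζ) = ζ`. -/
theorem explicit_symbol_check_three [Fact (Nat.Prime 3)] [IsCyclotomicExtension {3 ^ (0 + 1)} ℚ K]
    [HasEnoughRootsOfUnity K (3 ^ (0 + 1))] {v : HeightOneSpectrum (𝓞 K)}
    (hv : ((3 : ℕ) : 𝓞 K) ∈ v.asIdeal) {ζ : K} (hζ : IsPrimitiveRoot ζ (3 ^ (0 + 1))) (a b : Kˣ)
    (ha : (a : K) = 4) (hb : (b : K) = ζ) :
    ((hilbertSymbol (3 ^ (0 + 1)) v a b : Kˣ) : K) = ζ := by
  have hfin : Module.finrank ℚ K = 2 := by
    rw [IsCyclotomicExtension.finrank (n := 3 ^ (0 + 1)) K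
      (cyclotomic.irreducible_rat (by norm_num))]
    decide
  rw [explicit_symbol_zeta hv hζ a b hb (N := 16) (D := 1) (t := 1) (by norm_num) (by norm_num)
    ?_ (by norm_num), zpow_one]
  rw [ha, show (4 : K) = algebraMap ℚ K 4 by simp [map_ofNat], Algebra.norm_algebraMap, hfin]
  norm_num

/-- **`p = 2`**: `(3, -1) = -1`. -/
theorem explicit_symbol_check_two [Fact (Nat.Prime 2)] [IsCyclotomicExtension {2 ^ (0 + 1)} ℚ K]
    [HasEnoughRootsOfUnity K (2 ^ (0 + 1))] {v : HeightOneSpectrum (𝓞 K)}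
    (hv : ((2 : ℕ) : 𝓞 K) ∈ v.asIdeal) (hζ : IsPrimitiveRoot (-1 : K) (2 ^ (0 + 1))) (a b : Kˣ)
    (ha : (a : K) = 3) (hb : (b : K) = -1) :
    ((hilbertSymbol (2 ^ (0 + 1)) v a b : Kˣ) : K) = -1 := by
  have hfin : Module.finrank ℚ K = 1 := by
    rw [IsCyclotomicExtension.finrank (n := 2 ^ (0 + 1)) K
      (cyclotomic.irreducible_rat (by norm_num))]
    decide
  rw [explicit_symbol_zeta hv hζ a b hb (N := 3) (D := 1) (t := 1) (by norm_num) (by norm_num)
    ?_ (by norm_num), zpow_one]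
  rw [ha, show (3 : K) = algebraMap ℚ K 3 by simp [map_ofNat], Algebra.norm_algebraMap, hfin]
  norm_num

end FA.ExplicitLaw.Summary
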