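import Fermat.Agent.ExplicitReciprocity.Corollaries
import Mathlib.NumberTheory.Padics.Complex

/-!
# The explicit reciprocity law of Artin–Hasse, Iwasawa and Wiles

`K = ℚ (ζ)`, `ζ` of order `q = p ^ (n + 1)`, `v` the prime above `p`, `C` a complete algebraically
closed ultrametric field over `ℚ_p` such as `ℂ_p`, `logOne z = z - z ^ 2 / 2 + ⋯ = log (1 + z)`,
`seriesValue z g = g z`, `dlogValue g z = (1 + z) g' z / g z`. The conventions for the symbol are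
those of `SummaryExplicitReciprocityDeep`. A sum over the embeddings `σ : K →+* C` is the trace
from the completion at `v` to `ℚ_p`, and `‖t + S / q‖ ≤ 1 / q` reads `t ≡ - S / q` modulo `q`.

* `explicit_reciprocity_law`, `explicit_reciprocity_law_padic_complex`: for a series `g` with
  `normSeries g = g`, `b` close to `g (ζ - 1)` and `x ≡ 1` at `v`,
  `(x, b) = ζ ^ (- (1 / q) ∑ log (σ x) (D log g) (σ ζ - 1))`;
* `explicit_reciprocity_class`: every exponent in this class gives the symbol;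
* `explicit_law_artin_hasse`: `(x, (-1) ^ (p - 1) ζ) = ζ ^ (- (1 / q) Tr log x)` and
  `(x, (-1) ^ (p - 1) (ζ - 1)) = ζ ^ (- (1 / q) Tr (log x · ζ / (ζ - 1)))`; the signs are needed at
  `p = 2` and are `1` otherwise;
* `explicit_law_cyclotomic_units`: the symbol with `(ζ ^ a - 1) / (ζ - 1)`;
* `explicit_law_norm_units`: the symbol with the levels of a norm compatible system of units, `g`
  its series of Coleman;
* `explicit_law_logarithm`: `log (1 + z) = lim ((1 + z) ^ (p ^ d) - 1) / p ^ d`.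
-/

set_option autoImplicit false
set_option linter.unusedSectionVars false

noncomputable section

open NumberField IsDedekindDomain Filter
open FA.HilbertN
open Fermat.Agent.LubinTate
open scoped Topology

namespace FA.ExplicitLaw.Summary

variable {p : ℕ} [hp : Fact p.Prime] {n : ℕ} {K : Type*} [Field K] [NumberField K]
  [hcyc : IsCyclotomicExtension {p ^ (n + 1)} ℚ K] [HasEnoughRootsOfUnity K (p ^ (n + 1))]
  {v : HeightOneSpectrum (𝓞 K)} (hv : (p : 𝓞 K) ∈ v.asIdeal) {ζ : K}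
  (hζ : IsPrimitiveRoot ζ (p ^ (n + 1)))
  {C : Type*} [NontriviallyNormedField C] [CompleteSpace C] [IsUltrametricDist C]
  [NormedAlgebra ℚ_[p] C] [CharZero C] [IsAlgClosed C] (ι : K →+* C)
include hv hcyc hζ

/-- **The explicit reciprocity law.** -/
theorem explicit_reciprocity_law {g : PowerSeries ℤ_[p]} (hg : normSeries p g = g) (x b : Kˣ)
    (hx : v.valuation K ((x : K) - 1) < 1) (hgne : seriesValue (ι ζ - 1) g ≠ 0)
    (hb : ‖ι (b : K) - seriesValue (ι ζ - 1) g‖ ≤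
      ((p : ℝ)⁻¹) ^ (n + 3) * ‖seriesValue (ι ζ - 1) g‖) :
    ∃ t : ℤ, ‖(t : C) + (∑ σ : K →+* C, logOne (σ (x : K) - 1) * dlogValue g (σ ζ - 1)) /
        (p : C) ^ (n + 1)‖ ≤ ((p : ℝ)⁻¹) ^ (n + 1) ∧
      ((hilbertSymbol (p ^ (n + 1)) v x b : Kˣ) : K) = ζ ^ t :=
  exists_explicit_exponent hv hζ ι hg x b hx hgne hb

/-- **Every exponent in the class.** -/
theorem explicit_reciprocity_class {g : PowerSeries ℤ_[p]} (hg : normSeries p g = g) (x b : Kˣ)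
    (hx : v.valuation K ((x : K) - 1) < 1) (hgne : seriesValue (ι ζ - 1) g ≠ 0)
    (hb : ‖ι (b : K) - seriesValue (ι ζ - 1) g‖ ≤
      ((p : ℝ)⁻¹) ^ (n + 3) * ‖seriesValue (ι ζ - 1) g‖) {t : ℤ}
    (ht : ‖(t : C) + (∑ σ : K →+* C, logOne (σ (x : K) - 1) * dlogValue g (σ ζ - 1)) /
      (p : C) ^ (n + 1)‖ ≤ ((p : ℝ)⁻¹) ^ (n + 1)) :
    ((hilbertSymbol (p ^ (n + 1)) v x b : Kˣ) : K) = ζ ^ t :=
  hilbertSymbol_eq_zeta_zpow hv hζ ι hg x b hx hgne hb ht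

/-- **The laws of Artin and Hasse.** -/
theorem explicit_law_artin_hasse (x : Kˣ) (hx : v.valuation K ((x : K) - 1) < 1) :
    (∀ b : Kˣ, (b : K) = (-1) ^ (p - 1) * ζ → ∃ t : ℤ,
      ‖(t : C) + (∑ σ : K →+* C, logOne (σ (x : K) - 1)) / (p : C) ^ (n + 1)‖ ≤
          ((p : ℝ)⁻¹) ^ (n + 1) ∧
        ((hilbertSymbol (p ^ (n + 1)) v x b : Kˣ) : K) = ζ ^ t) ∧
    ∀ b : Kˣ, (b : K) = (-1) ^ (p - 1) * (ζ - 1) → ∃ t : ℤ,
      ‖(t : C) + (∑ σ : K →+* C, logOne (σ (x : K) - 1) * σ (ζ / (ζ - 1))) /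
          (p : C) ^ (n + 1)‖ ≤ ((p : ℝ)⁻¹) ^ (n + 1) ∧
        ((hilbertSymbol (p ^ (n + 1)) v x b : Kˣ) : K) = ζ ^ t :=
  ⟨fun b hb => exists_exponent_root hv hζ x b hx hb,
    fun b hb => exists_exponent_uniformizer hv hζ x b hx hb⟩

/-- **The cyclotomic units.** -/
theorem explicit_law_cyclotomic_units {a : ℕ} (ha : ¬ p ∣ a) (x b : Kˣ)
    (hx : v.valuation K ((x : K) - 1) < 1) (hb : (b : K) = (ζ ^ a - 1) / (ζ - 1)) :
    ∃ t : ℤ, ‖(t : C) + (∑ σ : K →+* C, logOne (σ (x : K) - 1) *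
          σ ((a : K) * ζ ^ a / (ζ ^ a - 1) - ζ / (ζ - 1))) / (p : C) ^ (n + 1)‖ ≤
        ((p : ℝ)⁻¹) ^ (n + 1) ∧
      ((hilbertSymbol (p ^ (n + 1)) v x b : Kˣ) : K) = ζ ^ t :=
  exists_exponent_cyclotomic hv hζ ha x b hx hb

/-- **Norm compatible units.** -/
theorem explicit_law_norm_units [Algebra ℤ_[p] C] [IsScalarTower ℤ_[p] ℚ_[p] C] {lam : ℕ → C}
    (hlam : IsTorsionTower (p : ℤ_[p]) lam) (hι : ι ζ = cycloZeta hlam n)
    (u : normUnits ℚ_[p] hlam) {g : PowerSeries ℤ_[p]} (hg : normSeries p g = g)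
    (hgu : ∀ k, torsionValue hlam k (cycloSubst p g) =
      ((((u : ∀ k, (lev ℚ_[p] lam k)ˣ) k : (lev ℚ_[p] lam k)ˣ) : lev ℚ_[p] lam k) : C))
    (x b : Kˣ) (hx : v.valuation K ((x : K) - 1) < 1)
    (hb : ‖ι (b : K) - ((((u : ∀ k, (lev ℚ_[p] lam k)ˣ) n : (lev ℚ_[p] lam n)ˣ) :
      lev ℚ_[p] lam n) : C)‖ ≤ ((p : ℝ)⁻¹) ^ (n + 3)) :
    ∃ t : ℤ, ‖(t : C) + (∑ σ : K →+* C, logOne (σ (x : K) - 1) * dlogValue g (σ ζ - 1)) /
        (p : C) ^ (n + 1)‖ ≤ ((p : ℝ)⁻¹) ^ (n + 1) ∧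
      ((hilbertSymbol (p ^ (n + 1)) v x b : Kˣ) : K) = ζ ^ t :=
  exists_exponent_units hv hζ ι hlam hι u hg hgu x b hx hb

omit hv hcyc hζ in
/-- **The logarithm.** -/
theorem explicit_law_logarithm {z : C} (hz : ‖z‖ < 1) :
    Tendsto (fun d => ((1 + z) ^ p ^ d - 1) / (p : C) ^ d) atTop (𝓝 (logOne z)) :=
  tendsto_pow_sub_one_div hz

/-- **The law in `ℂ_p`.** -/
theorem explicit_reciprocity_law_padic_complex (ι : K →+* ℂ_[p]) {g : PowerSeries ℤ_[p]}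
    (hg : normSeries p g = g) (x b : Kˣ) (hx : v.valuation K ((x : K) - 1) < 1)
    (hb : ι (b : K) = seriesValue (ι ζ - 1) g) :
    ∃ t : ℤ, ‖(t : ℂ_[p]) + (∑ σ : K →+* ℂ_[p], logOne (σ (x : K) - 1) *
        dlogValue g (σ ζ - 1)) / (p : ℂ_[p]) ^ (n + 1)‖ ≤ ((p : ℝ)⁻¹) ^ (n + 1) ∧
      ((hilbertSymbol (p ^ (n + 1)) v x b : Kˣ) : K) = ζ ^ t :=
  explicit_reciprocity_law hv hζ ι hg x b hx (hb ▸ (_root_.map_ne_zero ι).2 b.ne_zero)
    (by rw [hb, sub_self, norm_zero]; positivity)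

end FA.ExplicitLaw.Summary
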