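import Fermat.Agent.ReducedGroups.ExponentCM
import Fermat.Agent.Root.SummaryExponents
import Fermat.Agent.Root.SummaryFrobeniusFieldCM

/-!
# Exponents of the reductions of curves with complex multiplication

For an exceptional curve, as for the thirteen invariants with complex multiplication, the good
primes `q` at which `E(𝔽_q)` has exponent below `q / (log q)²` have convergent sum of reciprocals
(Duke, without any hypothesis): almost every reduction is almost cyclic. At a supersingular prime
the order is at most twice the exponent, for every curve.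
-/

set_option autoImplicit false
set_option linter.style.haveILetI false
set_option linter.unusedSectionVars false

noncomputable section

open NumberField IsDedekindDomain WeierstrassCurve FA.Frob Filter
open scoped WeierstrassCurve.Affine Classical

namespace FA.Summary

/-- **At a prime with `a_q = 0` the order is at most twice the exponent.** -/
theorem card_le_two_mul_exponent_of_trace_zero (W : WeierstrassCurve ℤ) (hΔ : W.Δ ≠ 0) {q : ℕ}
    [hq : Fact q.Prime] (h3 : 3 ≤ q) (hgood : W.IsGoodPrimeFor q) (ha : W.apOfModel q = 0) :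
    Nat.card (W.map (Int.castRingHom (ZMod q))).toAffine.Point ≤
      2 * AddMonoid.exponent (W.map (Int.castRingHom (ZMod q))).toAffine.Point := by
  obtain ⟨d, hd, -, -, -, h2⟩ := reduced_group_structure W hΔ h3 hgood
  rw [ha, zero_sub, dvd_neg] at h2
  rw [← hd]
  exact Nat.mul_le_mul_right _ (Nat.le_of_dvd two_pos (Int.natCast_dvd_natCast.mp h2))

variable (E : WeierstrassCurve ℚ) [E.IsElliptic] {W : WeierstrassCurve ℤ}
  (hW : W.IsIntegralModelOf E) {D : ℤ} (hD : Squarefree D) (hD1 : D ≠ 1)
  (h : ∀ l : ℕ, ∀ [Fact l.Prime],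
    (∃ C : VariableChange ℚ_[l],
      HasGoodReduction ℤ_[l] (C • E.map (algebraMap ℚ ℚ_[l]))) →
    ¬ IsSquare (D : ZMod l) → E.LFunction l = 0)

include hW hD hD1 h

/-- **Duke's theorem for complex multiplication**: the primes with exponent below `q / (log q)²`
have convergent sum of reciprocals. -/
theorem exponent_cm_summable :
    Summable ({q : ℕ | ∃ _ : Fact q.Prime, W.IsGoodPrimeFor q ∧
      (AddMonoid.exponent (W.map (Int.castRingHom (ZMod q))).toAffine.Point : ℝ) <
        (q : ℝ) / Real.log q ^ 2}.indicator fun n : ℕ => (1 : ℝ) / n) := by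
  haveI := ratCurve_isElliptic_of_Δ (FA.Frob.Δ_ne_zero_of_model hW)
  refine FA.ReducedGroups.summable_of_dyadic (by norm_num : (0 : ℝ) ≤ 7300)
    (fun k hk => FA.ReducedGroups.card_candidatesCM_le D hk) fun q hq h4 => ?_
  obtain ⟨_, hgood, he⟩ := hq
  exact FA.ReducedGroups.mem_candidatesCM hD hD1
    (fun l hl => FA.Exceptional.apOfModel_eq_zero hW h hl) h4 hgood he

/-- **Almost every reduction is almost cyclic.** -/
theorem exponent_cm_density :
    {v : HeightOneSpectrum (𝓞 ℚ) | ∃ _ : Fact (Ideal.absNorm v.asIdeal).Prime,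
      W.IsGoodPrimeFor (Ideal.absNorm v.asIdeal) ∧
      (AddMonoid.exponent
        (W.map (Int.castRingHom (ZMod (Ideal.absNorm v.asIdeal)))).toAffine.Point : ℝ) <
        (Ideal.absNorm v.asIdeal : ℝ) /
          Real.log (Ideal.absNorm v.asIdeal : ℝ) ^ 2}.HasDirichletDensity 0 :=
  by
  have h' := FA.PrimeDivisors.density_zero_of_summable (exponent_cm_summable E hW hD hD1 h)
  exact h'

/-- **The exponent exceeds every smaller power of `q`** on a set of density one. -/
theorem exponent_cm_le_rpow_density_zero {ε : ℝ} (hε : 0 < ε) :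
    {v : HeightOneSpectrum (𝓞 ℚ) | ∃ _ : Fact (Ideal.absNorm v.asIdeal).Prime,
      W.IsGoodPrimeFor (Ideal.absNorm v.asIdeal) ∧
      (AddMonoid.exponent
        (W.map (Int.castRingHom (ZMod (Ideal.absNorm v.asIdeal)))).toAffine.Point : ℝ) ≤
        (Ideal.absNorm v.asIdeal : ℝ) ^ (1 - ε)}.HasDirichletDensity 0 := by
  obtain ⟨M, hM⟩ := eventually_atTop.mp (((isLittleO_log_rpow_rpow_atTop (2 : ℝ) hε).bound
    (show (0 : ℝ) < 1 / 2 by norm_num)).and (eventually_gt_atTop (1 : ℝ)))
  refine FA.Supersingular.density_zero_of_approx fun δ hδ => ⟨_,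
    {v : HeightOneSpectrum (𝓞 ℚ) | Ideal.absNorm v.asIdeal ∈ Finset.range ⌈M⌉₊}, 0,
    exponent_cm_density E hW hD hD1 h, hδ, FA.Supersingular.finite_absNorm_mem _, fun v hv => ?_⟩
  refine or_iff_not_imp_right.mpr fun hvF => ?_
  obtain ⟨hp, hgood, he⟩ := hv
  refine ⟨hp, hgood, he.trans_lt ?_⟩
  rw [Set.mem_ofPred_eq, Finset.mem_range, not_lt, Nat.ceil_le] at hvF
  obtain ⟨hb, h1⟩ := hM _ hvF
  set q := (Ideal.absNorm v.asIdeal : ℝ)
  have hL : 0 < Real.log q := Real.log_pos h1
  have hq0 : 0 < q := one_pos.trans h1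
  rw [Real.rpow_two, Real.norm_eq_abs, Real.norm_eq_abs, abs_of_pos (pow_pos hL 2),
    abs_of_pos (Real.rpow_pos_of_pos hq0 _)] at hb
  rw [lt_div_iff₀ (pow_pos hL 2)]
  have ht : q ^ (1 - ε) * q ^ ε = q := by
    rw [← Real.rpow_add hq0, sub_add_cancel, Real.rpow_one]
  have h2 := Real.rpow_pos_of_pos hq0 (1 - ε)
  nlinarith [mul_le_mul_of_nonneg_left hb h2.le, Real.rpow_pos_of_pos hq0 ε]

end FA.Summary

end
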