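import Fermat.Agent.PrimeDivisors.Squares
import Fermat.Agent.Root.SummaryPrimePointCount
import Fermat.Agent.Root.SummarySupersingularDichotomy
import Fermat.Agent.OpenImageAll.FrobeniusField

/-!
# Frobenius fields and square values have density zero

For an elliptic curve over `ℚ` with open adelic image every quadratic field is the Frobenius field
`ℚ(√(a_q² - 4 q))` only on a set of primes of density zero (Lang and Trotter's second question,
without a rate), and `a_q`, and `#E(𝔽_q)`, are a fixed multiple of a square only on such a set. An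
exceptional curve has its field on density one half and every other one at finitely many primes.
-/

set_option autoImplicit false
set_option linter.style.haveILetI false
set_option linter.unusedSectionVars false

noncomputable section

open NumberField IsDedekindDomain WeierstrassCurve WeierstrassCurve.Affine FA.EC FA.Frob FA.RT
open scoped WeierstrassCurve.Affine

namespace FA.Summary

open FA.PrimeDivisors

/-- A density zero statement on the equation passes to the L-function. -/
theorem density_zero_of_model {E : WeierstrassCurve ℚ} [E.IsElliptic] {W : WeierstrassCurve ℤ}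
    (hW : W.IsIntegralModelOf E) (F : ℤ → ℤ → Prop)
    (h : Set.HasDirichletDensity {v : HeightOneSpectrum (𝓞 ℚ) |
      F (W.apOfModel (Ideal.absNorm v.asIdeal)) (Ideal.absNorm v.asIdeal : ℤ)} 0) :
    Set.HasDirichletDensity {v : HeightOneSpectrum (𝓞 ℚ) |
      F (E.LFunction (Ideal.absNorm v.asIdeal)) (Ideal.absNorm v.asIdeal : ℤ)} 0 := by
  have hΔ := FA.Frob.Δ_ne_zero_of_model hW
  refine FA.TraceDist.hasDirichletDensity_congr h
    (FA.Supersingular.finite_absNorm_mem W.Δ.natAbs.primeFactors) fun v hv => ?_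
  have hq := FA.Chebotarev.absNorm_prime v
  rw [Set.mem_ofPred_eq, Set.mem_ofPred_eq, FA.Root.LFunction_apply_prime E W hW hq fun hd =>
    hv (Nat.mem_primeFactors.mpr ⟨hq, Int.natCast_dvd.mp hd, Int.natAbs_ne_zero.mpr hΔ⟩)]

/-- **Each Frobenius field has density zero** for a curve with open adelic image: the primes `q`
with `D (a_q² - 4 q)` a square. -/
theorem frobeniusField_density_zero (E : WeierstrassCurve ℚ) [E.IsElliptic]
    (h : ∀ d : ℤ, Squarefree d → d ≠ 1 → ∃ (l : ℕ) (_ : Fact l.Prime),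
      (∃ C : VariableChange ℚ_[l],
        HasGoodReduction ℤ_[l] (C • E.map (algebraMap ℚ ℚ_[l]))) ∧
      ¬ IsSquare (d : ZMod l) ∧ E.LFunction l ≠ 0)
    {D : ℤ} (hD : D ≠ 0) :
    Set.HasDirichletDensity {v : HeightOneSpectrum (𝓞 ℚ) |
      IsSquare (D * (E.LFunction (Ideal.absNorm v.asIdeal) ^ 2 -
        4 * (Ideal.absNorm v.asIdeal : ℤ)))} 0 := by
  obtain ⟨W, hW⟩ := FA.Frob.exists_integralModel E
  haveI := FA.Frob.ratCurve_isElliptic_of_Δ (FA.Frob.Δ_ne_zero_of_model hW)
  obtain ⟨m, hm, hsurj⟩ := exists_surjective_coprime h hW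
  refine density_zero_of_model hW (fun a b => IsSquare (D * (a ^ 2 - 4 * b)))
    (density_zero_square (fun a b => D * (a ^ 2 - 4 * b))
      (fun l t d => ¬ IsSquare ((D : ZMod l) * (t ^ 2 - 4 * d))) (max 4 D.natAbs)
      (fun l _ hl => ?_) (fun l a b hR => by push_cast; exact hR) hm hsurj)
  have h5 : 5 ≤ l := by omega
  have h2 : (2 : ZMod l) ≠ 0 := fun e => by
    have := Nat.le_of_dvd two_pos
      ((ZMod.natCast_eq_zero_iff 2 l).mp (by exact_mod_cast e))
    omega
  have h4 : (4 : ZMod l) ≠ 0 := by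
    rw [show (4 : ZMod l) = 2 * 2 by norm_num]
    exact mul_ne_zero h2 h2
  have hD' : (D : ZMod l) ≠ 0 := fun e => by
    have := Nat.le_of_dvd (Int.natAbs_pos.mpr hD)
      (Int.natCast_dvd.mp ((ZMod.intCast_zmod_eq_zero_iff_dvd D l).mp e))
    omega
  choose n hn hne using fun t : ZMod l => exists_nonsquare_ne h5 ((D : ZMod l) * t ^ 2)
  refine ⟨fun t => (t, (t ^ 2 - n t / D) / 4), fun a b e => congrArg Prod.fst e,
    fun t => ⟨div_ne_zero (sub_ne_zero.mpr fun e => hne t ?_) h4, ?_⟩⟩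
  · rw [e, mul_div_cancel₀ _ hD']
  · rw [mul_div_cancel₀ _ h4, sub_sub_cancel, mul_div_cancel₀ _ hD']
    exact hn t

/-- **The trace is a given multiple of a square only on density zero.** -/
theorem trace_square_density_zero (E : WeierstrassCurve ℚ) [E.IsElliptic]
    (h : ∀ d : ℤ, Squarefree d → d ≠ 1 → ∃ (l : ℕ) (_ : Fact l.Prime),
      (∃ C : VariableChange ℚ_[l],
        HasGoodReduction ℤ_[l] (C • E.map (algebraMap ℚ ℚ_[l]))) ∧
      ¬ IsSquare (d : ZMod l) ∧ E.LFunction l ≠ 0)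
    {c : ℤ} (hc : c ≠ 0) :
    Set.HasDirichletDensity {v : HeightOneSpectrum (𝓞 ℚ) |
      ∃ x : ℤ, E.LFunction (Ideal.absNorm v.asIdeal) = c * x ^ 2} 0 := by
  obtain ⟨W, hW⟩ := FA.Frob.exists_integralModel E
  haveI := FA.Frob.ratCurve_isElliptic_of_Δ (FA.Frob.Δ_ne_zero_of_model hW)
  obtain ⟨m, hm, hsurj⟩ := exists_surjective_coprime h hW
  refine density_zero_subset ?_ (density_zero_of_model hW (fun a _ => IsSquare (c * a))
    (density_zero_square (fun a _ => c * a) (fun l t _ => ¬ IsSquare ((c : ZMod l) * t))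
      (max 4 c.natAbs) (fun l _ hl => ?_) (fun l a b hR => by push_cast; exact hR) hm hsurj))
  · rintro v ⟨x, hx⟩
    exact ⟨c * x, by rw [hx]; ring⟩
  classical
  have h5 : 5 ≤ l := by omega
  have hc' : (c : ZMod l) ≠ 0 := fun e => by
    have := Nat.le_of_dvd (Int.natAbs_pos.mpr hc)
      (Int.natCast_dvd.mp ((ZMod.intCast_zmod_eq_zero_iff_dvd c l).mp e))
    omega
  obtain ⟨n₁, hn₁, -⟩ := exists_nonsquare_ne h5 (0 : ZMod l)
  obtain ⟨n₂, hn₂, h12⟩ := exists_nonsquare_ne h5 n₁
  refine ⟨fun i => if i = 0 then (n₂ / c, 1) else (n₁ / c, i), fun a b e => ?_, fun i => ?_⟩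
  · dsimp only at e
    have hne : n₂ / (c : ZMod l) ≠ n₁ / c := fun e => h12 ((div_left_inj' hc').mp e)
    by_cases ha : a = 0 <;> by_cases hb : b = 0
    · rw [ha, hb]
    · rw [if_pos ha, if_neg hb] at e
      exact absurd (congrArg Prod.fst e) hne
    · rw [if_neg ha, if_pos hb] at e
      exact absurd (congrArg Prod.fst e).symm hne
    · rw [if_neg ha, if_neg hb] at e
      exact congrArg Prod.snd e
  · by_cases hi : i = 0
    · simp only [if_pos hi, mul_div_cancel₀ _ hc']
      exact ⟨one_ne_zero, hn₂⟩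
    · simp only [if_neg hi, mul_div_cancel₀ _ hc']
      exact ⟨hi, hn₁⟩

/-- **The point count is a given multiple of a square only on density zero.** -/
theorem pointCount_square_density_zero (E : WeierstrassCurve ℚ) [E.IsElliptic]
    (h : ∀ d : ℤ, Squarefree d → d ≠ 1 → ∃ (l : ℕ) (_ : Fact l.Prime),
      (∃ C : VariableChange ℚ_[l],
        HasGoodReduction ℤ_[l] (C • E.map (algebraMap ℚ ℚ_[l]))) ∧
      ¬ IsSquare (d : ZMod l) ∧ E.LFunction l ≠ 0)
    (W : WeierstrassCurve ℤ) (C : VariableChange ℚ) (hW : C • E = W.map (Int.castRingHom ℚ))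
    {c : ℕ} (hc : c ≠ 0) :
    Set.HasDirichletDensity {v : HeightOneSpectrum (𝓞 ℚ) | ∃ x : ℕ, Nat.card
      (W.map (Int.castRingHom (ZMod (Ideal.absNorm v.asIdeal)))).toAffine.Point = c * x ^ 2} 0 := by
  haveI := FA.Frob.ratCurve_isElliptic_of_Δ (FA.Frob.Δ_ne_zero_of_model (E := E) ⟨C, hW⟩)
  obtain ⟨m, hm, hsurj⟩ := exists_surjective_coprime h (W := W) ⟨C, hW⟩
  refine density_zero_subset ?_ (density_zero_square (W := W) (fun a b => (c : ℤ) * (b + 1 - a))
    (fun l t d => ¬ IsSquare ((c : ZMod l) * (d + 1 - t))) (max 4 c) (fun l _ hl => ?_)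
    (fun l a b hR => by push_cast; exact hR) hm hsurj)
  · rintro v ⟨x, hx⟩
    haveI := Fact.mk (FA.Chebotarev.absNorm_prime v)
    refine ⟨(c : ℤ) * x, ?_⟩
    have e : (Ideal.absNorm v.asIdeal : ℤ) + 1 - W.apOfModel (Ideal.absNorm v.asIdeal) =
        (Nat.card (W.map (Int.castRingHom
          (ZMod (Ideal.absNorm v.asIdeal)))).toAffine.Point : ℤ) := by
      simp [apOfModel, traceOfFrobenius, WeierstrassCurve.card, reductionMod]
    rw [e, hx]
    push_cast
    ring
  have h5 : 5 ≤ l := by omega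
  have hc' : (c : ZMod l) ≠ 0 := fun e => by
    have := Nat.le_of_dvd (Nat.pos_of_ne_zero hc) ((ZMod.natCast_eq_zero_iff c l).mp e)
    omega
  choose n hn hne using fun t : ZMod l => exists_nonsquare_ne h5 ((c : ZMod l) * (1 - t))
  refine ⟨fun t => (t, n t / c + t - 1), fun a b e => congrArg Prod.fst e,
    fun t => ⟨fun e => hne t ?_, ?_⟩⟩
  · have e1 : n t / (c : ZMod l) = 1 - t := by linear_combination e
    rw [← e1, mul_div_cancel₀ _ hc']
  · rw [show n t / (c : ZMod l) + t - 1 + 1 - t = n t / c by ring, mul_div_cancel₀ _ hc']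
    exact hn t

/-- **The dichotomy**: every Frobenius field has density zero, or the curve is exceptional for some
`d` and `ℚ(√d)` has density one half, any other field finitely many primes. -/
theorem frobeniusField_density_dichotomy (E : WeierstrassCurve ℚ) [E.IsElliptic] :
    (∀ D : ℤ, D ≠ 0 → Set.HasDirichletDensity {v : HeightOneSpectrum (𝓞 ℚ) |
      IsSquare (D * (E.LFunction (Ideal.absNorm v.asIdeal) ^ 2 -
        4 * (Ideal.absNorm v.asIdeal : ℤ)))} 0) ∨
    ∃ d : ℤ, Squarefree d ∧ d ≠ 1 ∧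
      ∀ D : ℤ, D ≠ 0 →
        (IsSquare (d * D) → Set.HasDirichletDensity {v : HeightOneSpectrum (𝓞 ℚ) |
          IsSquare (D * (E.LFunction (Ideal.absNorm v.asIdeal) ^ 2 -
            4 * (Ideal.absNorm v.asIdeal : ℤ)))} (1 / 2)) ∧
        (¬ IsSquare (d * D) → {v : HeightOneSpectrum (𝓞 ℚ) |
          IsSquare (D * (E.LFunction (Ideal.absNorm v.asIdeal) ^ 2 -
            4 * (Ideal.absNorm v.asIdeal : ℤ)))}.Finite) := by
  by_cases h : ∀ d : ℤ, Squarefree d → d ≠ 1 → ∃ (l : ℕ) (_ : Fact l.Prime),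
      (∃ C : VariableChange ℚ_[l],
        HasGoodReduction ℤ_[l] (C • E.map (algebraMap ℚ ℚ_[l]))) ∧
      ¬ IsSquare (d : ZMod l) ∧ E.LFunction l ≠ 0
  · exact Or.inl fun D hD => frobeniusField_density_zero E h hD
  push Not at h
  obtain ⟨d, hd, hd1, hd0⟩ := h
  obtain ⟨W, hW⟩ := FA.Frob.exists_integralModel E
  have hΔ := FA.Frob.Δ_ne_zero_of_model hW
  haveI := FA.Frob.ratCurve_isElliptic_of_Δ hΔ
  have h0 := FA.Supersingular.inertVanish_of_curve hW (d := d)
    (fun l hl hC hns => hd0 l hl hC hns)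
  refine Or.inr ⟨d, hd, hd1, fun D hD => ?_⟩
  -- at the good primes prime to `2 d D`
  have key : ∀ v : HeightOneSpectrum (𝓞 ℚ),
      Ideal.absNorm v.asIdeal ∉
        ({2} : Finset ℕ) ∪ D.natAbs.primeFactors ∪ W.Δ.natAbs.primeFactors →
      (IsSquare (D * (E.LFunction (Ideal.absNorm v.asIdeal) ^ 2 -
        4 * (Ideal.absNorm v.asIdeal : ℤ))) ↔
      W.apOfModel (Ideal.absNorm v.asIdeal) ≠ 0 ∧ IsSquare (d * D)) := fun v hv => by
    have hq := FA.Chebotarev.absNorm_prime v
    simp only [Finset.mem_union, Finset.mem_singleton, not_or] at hv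
    obtain ⟨⟨hq2, hqD⟩, hqΔ⟩ := hv
    have hgood : W.IsGoodPrimeFor (Ideal.absNorm v.asIdeal) := fun hd' => hqΔ
      (Nat.mem_primeFactors.mpr ⟨hq, Int.natCast_dvd.mp hd', Int.natAbs_ne_zero.mpr hΔ⟩)
    rw [FA.Root.LFunction_apply_prime E W hW hq hgood]
    set q := Ideal.absNorm v.asIdeal
    by_cases ha : W.apOfModel q = 0
    · refine iff_of_false (fun ⟨y, hy⟩ => ?_) fun h => h.1 ha
      rw [ha, zero_pow two_ne_zero, zero_sub] at hy
      have hqp := Nat.prime_iff_prime_int.mp hq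
      obtain ⟨z, rfl⟩ : (q : ℤ) ∣ y := hqp.dvd_of_dvd_pow (n := 2) ⟨D * -4, by
        rw [sq]; linear_combination -hy⟩
      have h1 : (q : ℤ) ∣ 4 * D := ⟨-(z * z), mul_left_cancel₀ hqp.ne_zero (by
        linear_combination -hy)⟩
      rcases hqp.dvd_mul.mp h1 with h | h
      · refine hq2 ((Nat.prime_dvd_prime_iff_eq hq Nat.prime_two).mp ?_)
        exact hq.dvd_of_dvd_pow (n := 2) (Int.natCast_dvd_natCast.mp h : q ∣ 2 ^ 2)
      · exact hqD (Nat.mem_primeFactors.mpr
          ⟨hq, Int.natCast_dvd.mp h, Int.natAbs_ne_zero.mpr hD⟩)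
    · obtain ⟨b, hb⟩ := FA.Exceptional.exists_disc_eq hd hd1 h0 hq hgood ha
      have hb0 : b ≠ 0 := fun e => by
        have := FA.Exceptional.disc_neg (W := W) hq hgood
        rw [hb, e] at this
        simp at this
      rw [hb]
      refine ⟨fun ⟨y, hy⟩ => ⟨ha, ?_⟩,
        fun ⟨_, x, hx⟩ => ⟨x * b, by linear_combination b ^ 2 * hx⟩⟩
      obtain ⟨z, rfl⟩ : b ∣ y :=
        (Int.pow_dvd_pow_iff (n := 2) two_ne_zero).mp ⟨D * d, by linear_combination -hy⟩
      exact ⟨z, mul_left_cancel₀ (pow_ne_zero 2 hb0) (by linear_combination hy)⟩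
  have hfin := FA.Supersingular.finite_absNorm_mem
    (({2} : Finset ℕ) ∪ D.natAbs.primeFactors ∪ W.Δ.natAbs.primeFactors)
  constructor
  · intro hsq
    have h1 := FA.Supersingular.hasDirichletDensity_compl
      (FA.Supersingular.density_half_of_inertVanish hd hd1 h0)
    rw [sub_half] at h1
    exact FA.TraceDist.hasDirichletDensity_congr h1 hfin fun v hv =>
      ⟨fun ha => (key v hv).mpr ⟨ha, hsq⟩, fun hs => ((key v hv).mp hs).1⟩
  · exact fun hns => hfin.subset fun v hv => by_contra fun hn => hns ((key v hn).mp hv).2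

/-- For a non-integral invariant each Frobenius field has density zero. -/
theorem frobeniusField_density_zero_of_pole (E : WeierstrassCurve ℚ) [E.IsElliptic]
    (hj : ∃ q : ℕ, q.Prime ∧ padicValRat q E.j < 0) {D : ℤ} (hD : D ≠ 0) :
    Set.HasDirichletDensity {v : HeightOneSpectrum (𝓞 ℚ) |
      IsSquare (D * (E.LFunction (Ideal.absNorm v.asIdeal) ^ 2 -
        4 * (Ideal.absNorm v.asIdeal : ℤ)))} 0 :=
  frobeniusField_density_zero E (fun d hd hd1 => by
    obtain ⟨M, hM⟩ := galoisSurjectiveTorsion_large E hj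
    exact exists_inert_trace_ne_zero E ⟨M, fun p hp hlt φ => hM p hp hlt φ⟩ hd hd1) hD

end FA.Summary

end
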