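import Fermat.Agent.Root.SummaryExceptionalStructure
import Fermat.Agent.Root.SummaryFrobeniusFieldDensity
import Fermat.Agent.Root.SummaryOpenImageAllApplications
import Fermat.Agent.Root.SummaryLFunctionInvariance
import Fermat.Agent.Independence.TwistCurve
import Fermat.Agent.OpenImageAll.Deuring
import Fermat.Agent.SerreLarge.Field

/-!
# Strong multiplicity one with the sharp density, for every pair of curves

Two elliptic curves over `ℚ`, with complex multiplication or without, whose traces `a_q` agree on a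
set of primes of Dirichlet density above `3/4` agree at almost all primes, so have one L-function;
above `1/2` suffices unless both are exceptional for the same field `ℚ(√d)`. In that case, modulo a
large prime split in the field, agreement on the subgroup fixing `√d` puts an element in one of two
proper subgroups, of which one has large index as the projective image grows.
-/

set_option autoImplicit false
set_option linter.style.haveILetI false

noncomputable section

open NumberField IsDedekindDomain Matrix WeierstrassCurve FA.EC FA.Frob FA.RT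
open scoped WeierstrassCurve.Affine

local notation "Qb" => AlgebraicClosure ℚ
local notation "GQ" => AlgebraicClosure ℚ ≃ₐ[ℚ] AlgebraicClosure ℚ
local notation "M2" => Matrix (Fin 2) (Fin 2)

namespace FA.MultOne

section Algebra

variable {k : Type*} [Field k] {K : Type*} [Group K]

/-- **The two characters** of a representation commuting with a matrix with distinct rational
eigenvalues `± u`. -/
theorem exists_eigenChars (r : K →* M2 k) {Y : M2 k} {u : k} (hu : u ≠ 0) (h2 : (2 : k) ≠ 0)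
    (hYY : Y * Y = (u * u) • 1) (hY : ∀ a : k, Y ≠ a • 1) (hc : ∀ g, r g * Y = Y * r g) :
    ∃ χ χ' : K →* k, ∀ g, (r g).trace = χ g + χ' g ∧ (r g).det = χ g * χ' g ∧
      (χ g = χ' g → ∃ c : k, r g = c • 1) := by
  choose t c hg using fun g => FA.Exceptional.exists_eq_add_of_commute hY (hc g)
  have huniq : ∀ a b a' b' : k, a • Y + b • 1 = a' • Y + b' • 1 → a = a' ∧ b = b' := by
    intro a b a' b' e
    have e' : (a - a') • Y = (b' - b) • (1 : M2 k) := by
      linear_combination (norm := module) e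
    have ha : a = a' := by
      by_contra ha
      refine hY ((a - a')⁻¹ * (b' - b)) ?_
      rw [mul_smul, ← e', smul_smul, inv_mul_cancel₀ (sub_ne_zero.mpr ha), one_smul]
    subst ha
    rw [sub_self, zero_smul, eq_comm, smul_eq_zero, or_iff_left one_ne_zero, sub_eq_zero] at e'
    exact ⟨rfl, e'.symm⟩
  have htr : Y.trace = 0 := by
    by_contra htr
    refine hY (Y.trace⁻¹ * (u * u + Y.det)) ?_
    have e : Y.trace • Y = (u * u + Y.det) • (1 : M2 k) := by
      rw [add_smul, ← hYY, FA.LocalDef.mul_self_two]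
      module
    rw [mul_smul, ← e, smul_smul, inv_mul_cancel₀ htr, one_smul]
  have hdet : Y.det = -(u * u) := by
    have h := congrFun (congrFun hYY 0) 0
    rw [trace_fin_two] at htr
    simp [Matrix.mul_apply, Fin.sum_univ_two] at h
    rw [det_fin_two]
    linear_combination (Y 0 0) * htr - h
  have key : ∀ w : k, w * w = u * u → ∃ χ : K →* k, ∀ g, χ g = c g + t g * w := fun w hw =>
    ⟨{ toFun := fun g => c g + t g * w
       map_one' := by
         obtain ⟨h1, h2⟩ := huniq (t 1) (c 1) 0 1 (by rw [← hg, map_one, zero_smul, zero_add,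
           one_smul])
         rw [h1, h2, zero_mul, add_zero]
       map_mul' := fun g h => by
         obtain ⟨h1, h2⟩ := huniq (t (g * h)) (c (g * h)) (t g * c h + c g * t h)
           (c g * c h + t g * t h * (u * u)) (by
             rw [← hg, map_mul, hg g, hg h]
             simp only [add_mul, mul_add, smul_mul_smul_comm, one_mul, mul_one, hYY, smul_smul]
             module)
         rw [h1, h2, ← hw]
         ring }, fun _ => rfl⟩
  obtain ⟨χ, hχ⟩ := key u rfl
  obtain ⟨χ', hχ'⟩ := key (-u) (neg_mul_neg u u)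
  refine ⟨χ, χ', fun g => ⟨?_, ?_, fun e => ⟨c g, ?_⟩⟩⟩
  · rw [hχ, hχ', hg g, trace_add, trace_smul, trace_smul, htr, trace_one, Fintype.card_fin]
    simp
    ring
  · rw [hχ, hχ', hg g]
    rw [trace_fin_two] at htr
    rw [det_fin_two] at hdet
    simp [det_fin_two]
    linear_combination (t g) ^ 2 * hdet + t g * c g * htr
  · rw [hχ, hχ'] at e
    have h : 2 * u * t g = 0 := by linear_combination e
    rw [hg g, (mul_eq_zero.mp h).resolve_left (mul_ne_zero h2 hu), zero_smul, zero_add]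

/-- Two proper subgroups, whose intersection has index at least `N²`, cover little more than half
of a finite group. -/
theorem two_mul_card_union_le [Finite K] {A B : Subgroup K} (hA : A ≠ ⊤) (hB : B ≠ ⊤) {N : ℕ}
    (h : N * N ≤ (A ⊓ B).index) :
    2 * N * ((A : Set K) ∪ B).ncard ≤ (N + 2) * Nat.card K := by
  have hidx : ∀ C : Subgroup K, C ≠ ⊤ → 2 ≤ C.index := fun C hC => by
    have h0 := C.index_ne_zero_of_finite
    have h1 : C.index ≠ 1 := fun e => hC (Subgroup.index_eq_one.mp e)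
    omega
  have hN : N ≤ A.index ∨ N ≤ B.index := by
    by_contra! hcon
    exact absurd (h.trans Subgroup.index_inf_le) (not_le.mpr (Nat.mul_lt_mul'' hcon.1 hcon.2))
  have hc : ∀ (C : Subgroup K) (n : ℕ), n ≤ C.index → n * (C : Set K).ncard ≤ Nat.card K :=
    fun C n hn => by
      rw [← C.index_mul_card, ← Nat.card_coe_set_eq]
      exact Nat.mul_le_mul_right _ hn
  have hle := Set.ncard_union_le (A : Set K) B
  rcases hN with hN | hN
  · have h1 := hc A N hN
    have h2 := hc B 2 (hidx B hB)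
    nlinarith
  · have h1 := hc B N hN
    have h2 := hc A 2 (hidx A hA)
    nlinarith

end Algebra

open FA.CMStructure (IsExceptional)

variable {W W' : WeierstrassCurve ℤ} [(ratCurve W).IsElliptic] [(ratCurve W').IsElliptic] {d : ℤ}

omit [(ratCurve W).IsElliptic] [(ratCurve W').IsElliptic] in
/-- Some automorphism fixes one of two independent square roots and moves the other. -/
theorem exists_fix_move {e : ℤ} (hd : Squarefree d) (he : Squarefree e) (he1 : e ≠ 1)
    (hde : d ≠ e) {s t : Qb} (hs : s ^ 2 = (d : Qb)) (ht : t ^ 2 = (e : Qb)) :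
    ∃ σ : GQ, σ s = s ∧ σ t ≠ t := by
  by_contra! hfix
  have hpm : ∀ {c : ℤ} {z : Qb}, z ^ 2 = (c : Qb) → ∀ σ : GQ, σ z = z ∨ σ z = -z :=
    fun hz σ => sq_eq_sq_iff_eq_or_eq_neg.mp (by rw [← map_pow, hz, map_intCast])
  obtain ⟨τ, hτ⟩ : ∃ τ : GQ, τ t ≠ t := by
    obtain ⟨z, H, hz, hH, -, hfixH⟩ := FA.OpenImageAll.exists_index_two_of_sqrt he he1
    obtain ⟨σ, hσ⟩ := SetLike.exists_not_mem_of_ne_top H (fun h => by simp [h] at hH) rfl
    refine ⟨σ, fun e => hσ ((hfixH σ).mpr ?_)⟩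
    rcases sq_eq_sq_iff_eq_or_eq_neg.mp (hz.trans ht.symm) with h | h <;> simp [h, e]
  have hfixed : ∀ σ : GQ, σ (s * t) = s * t := fun σ => by
    rw [map_mul]
    rcases hpm hs σ with h | h
    · rw [h, hfix σ h]
    · rcases hpm ht σ with h' | h'
      · -- then `σ * τ` fixes `s` and moves `t`
        have hs' : τ s = -s := (hpm hs τ).resolve_left fun e => hτ (hfix τ e)
        have h2 := hfix (σ * τ) (by
          rw [show (σ * τ) s = σ (τ s) from rfl, hs', map_neg, h, neg_neg])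
        rw [show (σ * τ) t = σ (τ t) from rfl, (hpm ht τ).resolve_left hτ, map_neg, h'] at h2
        exact absurd ((hpm ht τ).resolve_left hτ |>.trans h2) hτ
      · rw [h, h', neg_mul_neg]
  obtain ⟨r, hr⟩ := FA.Local.exists_ratCast_of_fixed (s * t) hfixed
  have hsq : IsSquare ((d * e : ℤ) : ℚ) := ⟨r, by
    have h1 : (((d * e : ℤ) : ℚ) : Qb) = ((r * r : ℚ) : Qb) := by
      push_cast
      rw [← hs, ← ht, hr]
      ring
    exact_mod_cast h1⟩
  exact hde (FA.Supersingular.eq_of_isSquare_mul hd he (Rat.isSquare_intCast_iff.mp hsq))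

/-- The primes with `a ≠ 0` are infinite and have `d` for a square residue. -/
theorem exists_split_prime (hE : IsExceptional W d) (M : ℕ) :
    ∃ p : ℕ, p.Prime ∧ M < p ∧ IsSquare (d : ZMod p) := by
  have hΔ : W.Δ ≠ 0 := fun h => (ratCurve W).isUnit_Δ.ne_zero (by simp [ratCurve, h])
  have h := FA.Supersingular.hasDirichletDensity_compl
    (FA.Supersingular.density_half_of_inertVanish hE.sqfree hE.ne_one hE.vanish)
  rw [sub_half] at h
  have hinf := FA.TraceDist.infinite_of_density (P := fun q => W.apOfModel q ≠ 0) (by norm_num) h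
  obtain ⟨p, ⟨hp, ha⟩, hn⟩ := (hinf.sdiff (Finset.range (M + 1) ∪
    W.Δ.natAbs.primeFactors).finite_toSet).nonempty
  simp only [Finset.coe_union, Set.mem_union, Finset.mem_coe, Finset.mem_range, not_or] at hn
  exact ⟨p, hp, by omega, by_contra fun hns => ha (hE.vanish p hp (fun hdvd => hn.2
    (Nat.mem_primeFactors.mpr ⟨hp, Int.natCast_dvd.mp hdvd, Int.natAbs_ne_zero.mpr hΔ⟩)) hns)⟩

/-- **One field**: with one disagreement at a good prime prime to `2 d`, the traces of two curves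
exceptional for `ℚ(√d)` agree only on sets of primes of density at most `3/4`. -/
theorem density_le_of_same_field (hE : IsExceptional W d) (hE' : IsExceptional W' d) {M : ℕ}
    (hirr : ∀ p : ℕ, p.Prime → M < p → W.ModRepIsIrreducible p ∧ W'.ModRepIsIrreducible p)
    {q : ℕ} (hq : q.Prime) (hq2 : q ≠ 2) (hqd : ¬ (q : ℤ) ∣ d) (hg : W.IsGoodPrimeFor q)
    (hg' : W'.IsGoodPrimeFor q) (hne : W.apOfModel q ≠ W'.apOfModel q)
    {S : Set (HeightOneSpectrum (𝓞 ℚ))} {δ : ℝ} (hS : S.HasDirichletDensity δ)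
    (h : ∀ v ∈ S, W.apOfModel (Ideal.absNorm v.asIdeal) = W'.apOfModel (Ideal.absNorm v.asIdeal)) :
    δ ≤ 3 / 4 := by
  classical
  by_contra! hδ
  obtain ⟨N, hN⟩ := exists_nat_gt (1 / (2 * (δ - 3 / 4)))
  have hN0 : 0 < N := by
    rcases N.eq_zero_or_pos with rfl | hN0
    · rw [Nat.cast_zero] at hN
      have : (0 : ℝ) < 1 / (2 * (δ - 3 / 4)) := by
        have : (0 : ℝ) < δ - 3 / 4 := by linarith
        positivity
      linarith
    · exact hN0
  have hΔ : ∀ {V : WeierstrassCurve ℤ} [(ratCurve V).IsElliptic], V.Δ ≠ 0 := fun {V} _ e =>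
    (ratCurve V).isUnit_Δ.ne_zero (by simp [ratCurve, e])
  obtain ⟨p, hp, hlt, u, hu⟩ := exists_split_prime hE (M + q + W.Δ.natAbs + d.natAbs +
    (W.apOfModel q - W'.apOfModel q).natAbs + 2 * (N * N) + 9)
  haveI := Fact.mk hp
  have h2 : (2 : ZMod p) ≠ 0 := fun e => by
    have := Nat.le_of_dvd two_pos ((ZMod.natCast_eq_zero_iff 2 p).mp (by exact_mod_cast e))
    omega
  have hd0 : (d : ZMod p) ≠ 0 := fun e => by
    have := Nat.le_of_dvd (Int.natAbs_pos.mpr hE.sqfree.ne_zero)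
      (Int.natCast_dvd.mp ((ZMod.intCast_zmod_eq_zero_iff_dvd d p).mp e))
    omega
  have hu0 : u ≠ 0 := fun e => hd0 (by rw [hu, e, mul_zero])
  obtain ⟨s, H, hs, hH, hopen, hfix⟩ :=
    FA.OpenImageAll.exists_index_two_of_sqrt hE.sqfree hE.ne_one
  haveI : H.Normal := Subgroup.normal_of_index_eq_two hH
  haveI : H.FiniteIndex := ⟨by omega⟩
  obtain ⟨x, hx⟩ := SetLike.exists_not_mem_of_ne_top H (fun h => by simp [h] at hH) rfl
  obtain ⟨Y, hYY, hY⟩ := FA.CMStructure.exists_cartan hE (hirr p hp (by omega)).1 hs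
  obtain ⟨Y', hYY', hY'⟩ := FA.CMStructure.exists_cartan hE' (hirr p hp (by omega)).2 hs
  -- the finite group
  set f : GQ →* ((M2 (ZMod p))ˣ × (M2 (ZMod p))ˣ) × (GQ ⧸ H) :=
    ((curveRep p W).toHomUnits.prod (curveRep p W').toHomUnits).prod (QuotientGroup.mk' H)
  have hker : IsOpen (f.ker : Set GQ) := by
    rw [show f.ker = (curveRep p W).toHomUnits.ker ⊓ (curveRep p W').toHomUnits.ker ⊓ H by
      rw [MonoidHom.ker_prod, MonoidHom.ker_prod, QuotientGroup.ker_mk'], Subgroup.coe_inf,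
      Subgroup.coe_inf]
    exact ((FA.OpenImageAll.isOpen_ker_toHomUnits p).inter
      (FA.OpenImageAll.isOpen_ker_toHomUnits p)).inter hopen
  haveI : Fintype f.range := Fintype.ofFinite _
  let φ : f.range →* GQ ⧸ H := (MonoidHom.snd _ _).comp f.range.subtype
  let r : f.range →* M2 (ZMod p) :=
    (Units.coeHom _).comp ((MonoidHom.fst _ _).comp ((MonoidHom.fst _ _).comp f.range.subtype))
  let r' : f.range →* M2 (ZMod p) :=
    (Units.coeHom _).comp ((MonoidHom.snd _ _).comp ((MonoidHom.fst _ _).comp f.range.subtype))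
  have hrf : ∀ σ, r (f.rangeRestrict σ) = curveRep p W σ ∧
      r' (f.rangeRestrict σ) = curveRep p W' σ ∧
      (f.rangeRestrict σ ∈ φ.ker ↔ σ ∈ H) := fun σ => ⟨rfl, rfl, QuotientGroup.eq_one_iff σ⟩
  have hcomm : ∀ g : φ.ker, r g * Y = Y * r g ∧ r' g * Y' = Y' * r' g := by
    rintro ⟨g, hg⟩
    obtain ⟨σ, rfl⟩ := f.rangeRestrict_surjective g
    obtain ⟨e, e', em⟩ := hrf σ
    have hσ := (hfix σ).mp (em.mp hg)
    exact ⟨by rw [e]; exact (hY σ).1 hσ, by rw [e']; exact (hY' σ).1 hσ⟩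
  have hnsc : ∀ {V : WeierstrassCurve ℤ} [(ratCurve V).IsElliptic] {Z : M2 (ZMod p)},
      Z * Z = (d : ZMod p) • 1 → curveRep p V x * Z = -(Z * curveRep p V x) →
      ∀ a : ZMod p, Z ≠ a • 1 := fun {V} _ Z hZZ hZ a e => by
    rw [e, mul_smul_comm, smul_mul_assoc, mul_one, one_mul, eq_neg_iff_add_eq_zero, ← add_smul,
      smul_eq_zero, ← two_mul, mul_eq_zero, or_iff_right h2,
      or_iff_left ((Group.isUnit x).map (curveRep p V)).ne_zero] at hZ
    rw [e, hZ, zero_smul, zero_mul, eq_comm, smul_eq_zero] at hZZ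
    exact hd0 (hZZ.resolve_right one_ne_zero)
  have hxs : x s ≠ s := fun e => hx ((hfix x).mpr e)
  obtain ⟨ψ, ψb, hψ⟩ := exists_eigenChars (r.comp φ.ker.subtype) hu0 h2 (hu ▸ hYY)
    (hnsc hYY ((hY x).2 hxs)) fun g => (hcomm g).1
  obtain ⟨ψ', ψb', hψ'⟩ := exists_eigenChars (r'.comp φ.ker.subtype) hu0 h2 (hu ▸ hYY')
    (hnsc hYY' ((hY' x).2 hxs)) fun g => (hcomm g).2
  set A : Subgroup φ.ker := ψ'.eqLocus ψ
  set B : Subgroup φ.ker := ψ'.eqLocus ψb
  -- Frobenius at `q` lies in neither subgroup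
  obtain ⟨C, hC⟩ := FA.Deform.exists_liesOverPrime hq
  obtain ⟨F, hF⟩ := FA.Deform.exists_isFrobeniusAt hq hC
  have hFH : F ∈ H := (hfix F).mpr (by
    by_contra hFs
    have hns := FA.OpenImageAll.not_isSquare_of_frobenius_apply_ne hq hq2 hqd hC hF hs hFs
    exact hne ((hE.vanish q hq hg hns).trans (hE'.vanish q hq hg' hns).symm))
  set F₀ : φ.ker := ⟨f.rangeRestrict F, (hrf F).2.2.mpr hFH⟩
  obtain ⟨tF, dF⟩ := FA.Ribet.curveRep_frobenius (p := p) hq (by omega) hg hC hF
  obtain ⟨tF', dF'⟩ := FA.Ribet.curveRep_frobenius (p := p) hq (by omega) hg' hC hF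
  have hF₀ : F₀ ∉ A ∧ F₀ ∉ B := by
    have hqp : (q : ZMod p) ≠ 0 := fun e => by
      have := Nat.le_of_dvd hq.pos ((ZMod.natCast_eq_zero_iff q p).mp e)
      omega
    have hap : (W.apOfModel q : ZMod p) ≠ W'.apOfModel q := fun e => by
      have h1 := Nat.le_of_dvd (Int.natAbs_pos.mpr (sub_ne_zero.mpr hne))
        (Int.natCast_dvd.mp ((ZMod.intCast_zmod_eq_zero_iff_dvd _ p).mp
          (show ((W.apOfModel q - W'.apOfModel q : ℤ) : ZMod p) = 0 by
            rw [Int.cast_sub, e, sub_self])))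
      omega
    obtain ⟨t1, d1, -⟩ := hψ F₀
    obtain ⟨t2, d2, -⟩ := hψ' F₀
    replace t1 := tF.symm.trans t1
    replace d1 := dF.symm.trans d1
    replace t2 := tF'.symm.trans t2
    replace d2 := dF'.symm.trans d2
    refine ⟨fun e => hap ?_, fun e => hap ?_⟩ <;> rw [show ψ' F₀ = _ from e] at t2 d2
    · have h0 : ψb' F₀ = ψb F₀ := mul_left_cancel₀
        (fun e0 => hqp (by rw [d1, e0, zero_mul])) (d2.symm.trans d1)
      rw [t1, t2, h0]
    · have h0 : ψb' F₀ = ψ F₀ := mul_left_cancel₀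
        (fun e0 => hqp (by rw [d1, e0, mul_zero])) (d2.symm.trans (d1.trans (mul_comm _ _)))
      rw [t1, t2, h0, add_comm]
  -- the index of the intersection
  obtain ⟨τ, hτ⟩ := FA.Supersingular.exists_sq_pow_not_scalar W (p := p) (by omega) fun hdvd => by
    have := Nat.le_of_dvd (Int.natAbs_pos.mpr hΔ) (Int.natCast_dvd.mp hdvd)
    omega
  set g₀ : φ.ker := ⟨f.rangeRestrict (τ * τ),
    (hrf (τ * τ)).2.2.mpr (Subgroup.mul_self_mem_of_index_two hH τ)⟩
  have hidx : N * N ≤ (A ⊓ B).index := by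
    refine le_trans ?_ (show Nat.card (Fin ((p - 1) / 2)) ≤ (A ⊓ B).index from ?_)
    · rw [Nat.card_fin]; omega
    refine Nat.card_le_card_of_injective (fun i : Fin ((p - 1) / 2) =>
      (QuotientGroup.mk (g₀ ^ (i : ℕ)) : φ.ker ⧸ (A ⊓ B))) fun i j hij => ?_
    by_contra hij'
    obtain ⟨m, hm0, hmlt, hmem⟩ : ∃ m, 0 < m ∧ m < (p - 1) / 2 ∧ g₀ ^ m ∈ A ⊓ B := by
      rcases Nat.lt_or_gt_of_ne (Fin.val_injective.ne hij') with hlt' | hlt'
      · refine ⟨j - i, by omega, by omega, ?_⟩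
        rw [pow_sub _ hlt'.le, ((Commute.refl g₀).pow_pow _ _).inv_right.eq]
        exact QuotientGroup.eq.mp hij
      · refine ⟨i - j, by omega, by omega, ?_⟩
        rw [pow_sub _ hlt'.le, ((Commute.refl g₀).pow_pow _ _).inv_right.eq]
        exact QuotientGroup.eq.mp hij.symm
    obtain ⟨c, hc⟩ := (hψ _).2.2 ((show ψ' (g₀ ^ m) = ψ _ from hmem.1).symm.trans hmem.2)
    refine hτ m hm0 hmlt c ?_
    rw [map_pow] at hc ⊢
    exact hc
  have hcount := two_mul_card_union_le (fun e => hF₀.1 (by rw [e]; trivial))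
    (fun e => hF₀.2 (by rw [e]; trivial)) hidx
  -- the count
  let X : Set f.range := {g | (r g).trace = (r' g).trace ∧ (r g).det = (r' g).det}
  have hX : ∀ g ∈ X, ∀ y, y * g * y⁻¹ ∈ X := fun g hg y => by
    simp only [X, r, r', Set.mem_ofPred_eq, MonoidHom.comp_apply, map_mul, map_inv,
      Units.coeHom_apply, Units.val_mul, Matrix.trace_units_conj, Matrix.det_units_conj] at hg ⊢
    exact hg
  have hdens := FA.Chebotarev.hasDirichletDensity_frobSet f.rangeRestrict
    f.rangeRestrict_surjective (by rwa [MonoidHom.ker_rangeRestrict]) hX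
  have hle := FA.Independence.density_le_add hS hdens Set.hasDirichletDensity_empty
    (FA.Supersingular.finite_absNorm_mem (insert p (W.Δ * W'.Δ).natAbs.primeFactors))
    fun v hv => ?_
  · have hidx2 : φ.ker.index = 2 := by
      rw [Subgroup.index_ker, MonoidHom.range_eq_top.mpr (fun g => by
        obtain ⟨σ, rfl⟩ := QuotientGroup.mk'_surjective H g
        exact ⟨f.rangeRestrict σ, rfl⟩), Subgroup.card_top, ← Subgroup.index_eq_card, hH]
    have hG : Nat.card φ.ker * 2 = Nat.card f.range := by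
      simpa only [hidx2] using φ.ker.card_mul_index
    have hXle : Nat.card X ≤ Nat.card φ.ker + ((A : Set φ.ker) ∪ B).ncard := by
      refine (Nat.card_mono (Set.toFinite _) (show X ⊆ (φ.ker : Set f.range)ᶜ ∪
        Subtype.val '' ((A : Set φ.ker) ∪ B) from fun g hg =>
          (em (g ∈ φ.ker)).symm.imp id fun hgk => ⟨⟨g, hgk⟩, ?_, rfl⟩)).trans ?_
      · obtain ⟨t1, d1, -⟩ := hψ ⟨g, hgk⟩
        obtain ⟨t2, d2, -⟩ := hψ' ⟨g, hgk⟩
        simp only [MonoidHom.comp_apply, Subgroup.coe_subtype] at t1 d1 t2 d2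
        rw [hg.1, t2] at t1
        rw [hg.2, d2] at d1
        have hprod : (ψ' ⟨g, hgk⟩ - ψ ⟨g, hgk⟩) * (ψ' ⟨g, hgk⟩ - ψb ⟨g, hgk⟩) = 0 := by
          linear_combination (ψ' ⟨g, hgk⟩) * t1 - d1
        exact (mul_eq_zero.mp hprod).imp sub_eq_zero.mp sub_eq_zero.mp
      rw [Nat.card_coe_set_eq]
      refine (Set.ncard_union_le _ _).trans (add_le_add (le_of_eq ?_)
        (le_of_eq (Set.ncard_image_of_injective _ Subtype.val_injective)))
      rw [Set.ncard_compl _ (Set.toFinite _), ← hG, ← Nat.card_coe_set_eq]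
      show Nat.card φ.ker * 2 - Nat.card φ.ker = _
      omega
    rw [← Nat.card_eq_fintype_card, ← hG] at hle
    have hK : (0 : ℝ) < Nat.card φ.ker := by exact_mod_cast Nat.card_pos
    have hNR : (0 : ℝ) < N := by exact_mod_cast hN0
    have hXR : (Nat.card X : ℝ) ≤ Nat.card φ.ker + ((A : Set φ.ker) ∪ B).ncard := by
      exact_mod_cast hXle
    have hcR : 2 * (N : ℝ) * ((A : Set φ.ker) ∪ B).ncard ≤ ((N : ℝ) + 2) * Nat.card φ.ker := by
      exact_mod_cast hcount
    rw [div_lt_iff₀ (by linarith)] at hN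
    push_cast at hle
    rw [add_zero, le_div_iff₀ (by positivity)] at hle
    nlinarith [mul_lt_mul_of_pos_right hN hK]
  · refine or_iff_not_imp_right.mpr fun hvF => Or.inl fun C hC σ hσ => ?_
    simp only [Set.mem_ofPred_eq, Finset.mem_insert, not_or] at hvF
    have hl := FA.Chebotarev.absNorm_prime v
    obtain ⟨g1, g2⟩ := FA.Independence.good_of_not_mem hl hvF.2
    obtain ⟨e1, e2⟩ := FA.Ribet.curveRep_frobenius (p := p) hl hvF.1 g1 hC hσ
    obtain ⟨e3, e4⟩ := FA.Ribet.curveRep_frobenius (p := p) hl hvF.1 g2 hC hσ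
    exact ⟨(e1.trans (by rw [h v hv])).trans e3.symm, e2.trans e4.symm⟩

end FA.MultOne

namespace FA.Summary

open FA.MultOne

/-- **Strong multiplicity one above one half, outside one case**: agreement of the traces on a set
of primes of density above `1/2` is agreement at almost all primes, unless both curves are
exceptional for one field. -/
theorem coefficients_eq_of_density_gt_half_all (E E' : WeierstrassCurve ℚ) [E.IsElliptic]
    [E'.IsElliptic]
    (hfield : ¬ ∃ d : ℤ, Squarefree d ∧ d ≠ 1 ∧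
      (∀ l : ℕ, ∀ [Fact l.Prime],
        (∃ C : VariableChange ℚ_[l],
          HasGoodReduction ℤ_[l] (C • E.map (algebraMap ℚ ℚ_[l]))) →
        ¬ IsSquare (d : ZMod l) → E.LFunction l = 0) ∧
      ∀ l : ℕ, ∀ [Fact l.Prime],
        (∃ C : VariableChange ℚ_[l],
          HasGoodReduction ℤ_[l] (C • E'.map (algebraMap ℚ ℚ_[l]))) →
        ¬ IsSquare (d : ZMod l) → E'.LFunction l = 0)
    {S : Set (HeightOneSpectrum (𝓞 ℚ))} {δ : ℝ} (hS : S.HasDirichletDensity δ) (hδ : 1 / 2 < δ)
    (h : ∀ v ∈ S, E.LFunction (Ideal.absNorm v.asIdeal) = E'.LFunction (Ideal.absNorm v.asIdeal)) :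
    {q : ℕ | q.Prime ∧ E.LFunction q ≠ E'.LFunction q}.Finite := by
  -- exactly one exceptional curve is impossible
  have mixed : ∀ (F F' : WeierstrassCurve ℚ) [F.IsElliptic] [F'.IsElliptic] (d : ℤ),
      Squarefree d → d ≠ 1 →
      (∀ l : ℕ, ∀ [Fact l.Prime],
        (∃ C : VariableChange ℚ_[l],
          HasGoodReduction ℤ_[l] (C • F.map (algebraMap ℚ ℚ_[l]))) →
        ¬ IsSquare (d : ZMod l) → F.LFunction l = 0) →
      (∀ v ∈ S, F.LFunction (Ideal.absNorm v.asIdeal) = F'.LFunction (Ideal.absNorm v.asIdeal)) →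
      ∃ d' : ℤ, Squarefree d' ∧ d' ≠ 1 ∧ ∀ l : ℕ, ∀ [Fact l.Prime],
        (∃ C : VariableChange ℚ_[l],
          HasGoodReduction ℤ_[l] (C • F'.map (algebraMap ℚ ℚ_[l]))) →
        ¬ IsSquare (d' : ZMod l) → F'.LFunction l = 0 := by
    intro F F' _ _ d hd hd1 hF hFF'
    rcases traceFrobenius_density_dichotomy F' with h0 | ⟨h0, -⟩
    swap
    · exact h0.exists
    exfalso
    have h1 := FA.Supersingular.hasDirichletDensity_compl
      (FA.Supersingular.trace_zero_density_half F hd hd1 hF)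
    have := FA.Independence.density_le_add hS h1 (h0 0) Set.finite_empty fun v hv =>
      Or.inl ((em (F.LFunction (Ideal.absNorm v.asIdeal) = 0)).symm.imp id fun e =>
        (hFF' v hv).symm.trans e)
    linarith
  by_cases hE : ∀ d : ℤ, Squarefree d → d ≠ 1 → ∃ (l : ℕ) (_ : Fact l.Prime),
      (∃ C : VariableChange ℚ_[l],
        HasGoodReduction ℤ_[l] (C • E.map (algebraMap ℚ ℚ_[l]))) ∧
      ¬ IsSquare (d : ZMod l) ∧ E.LFunction l ≠ 0
  · refine coefficients_eq_of_density_gt_half_of_traces E E' hE (fun d hd hd1 => ?_) hS hδ h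
    by_contra! hd0
    obtain ⟨d₁, hd₁, hd₁1, h₁⟩ := mixed E' E d hd hd1 (fun l hl hC hns => hd0 l hl hC hns)
      fun v hv => (h v hv).symm
    obtain ⟨l, hl, hgood, hns, hne⟩ := hE d₁ hd₁ hd₁1
    exact hne (h₁ l hgood hns)
  push Not at hE
  obtain ⟨d, hd, hd1, hd0⟩ := hE
  obtain ⟨d', hd', hd1', h'⟩ := mixed E E' d hd hd1 (fun l hl hC hns => hd0 l hl hC hns) h
  obtain ⟨W, hW⟩ := exists_integralModel E
  obtain ⟨W', hW'⟩ := exists_integralModel E'
  haveI := ratCurve_isElliptic_of_Δ (Δ_ne_zero_of_model hW)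
  haveI := ratCurve_isElliptic_of_Δ (Δ_ne_zero_of_model hW')
  have hX := FA.CMStructure.isExceptional_of_curve hW hd hd1 fun l hl hC hns => hd0 l hl hC hns
  have hX' := FA.CMStructure.isExceptional_of_curve hW' hd' hd1' h'
  exfalso
  have hle := FA.Independence.density_le_add hS
    (FA.Supersingular.trace_zero_density_half E hd hd1 fun l hl hC hns => hd0 l hl hC hns)
    Set.hasDirichletDensity_empty
    (FA.Supersingular.finite_absNorm_mem (W.Δ * W'.Δ).natAbs.primeFactors) fun v hv => ?_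
  · linarith
  refine or_iff_not_imp_right.mpr fun hvF => Or.inl (by_contra fun ha => ?_)
  have hl := FA.Chebotarev.absNorm_prime v
  obtain ⟨g1, g2⟩ := FA.Independence.good_of_not_mem hl hvF
  have e := h v hv
  simp only [Set.mem_ofPred_eq, FA.Root.LFunction_apply_prime E W hW hl g1,
    FA.Root.LFunction_apply_prime E' W' hW' hl g2] at ha e
  obtain ⟨b, hb⟩ := FA.Exceptional.exists_disc_eq hd hd1 hX.vanish hl g1 ha
  obtain ⟨b', hb'⟩ := FA.Exceptional.exists_disc_eq hd' hd1' hX'.vanish hl g2 (e ▸ ha)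
  rw [← e, hb] at hb'
  have hb0 : b' ≠ 0 := fun e0 => by
    have := FA.Exceptional.disc_neg (W := W) hl g1
    rw [hb, hb', e0, zero_pow two_ne_zero, mul_zero] at this
    exact lt_irrefl _ this
  obtain ⟨m, hm⟩ : b' ∣ d * b := by
    refine (Int.pow_dvd_pow_iff (n := 2) two_ne_zero).mp ⟨d * d', ?_⟩
    linear_combination d * hb'
  have hdd : d = d' := FA.Supersingular.eq_of_isSquare_mul hd hd' ⟨m, mul_right_cancel₀
    (pow_ne_zero 2 hb0) (by linear_combination (-d) * hb' + (d * b + b' * m) * hm)⟩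
  exact hfield ⟨d, hd, hd1, fun l hl hC hns => hd0 l hl hC hns, hdd ▸ h'⟩

/-- **Strong multiplicity one with the sharp density, for every pair of curves**: agreement of
the traces on a set of primes of density above `3/4` is agreement at almost all primes. -/
theorem coefficients_eq_of_density_gt_three_quarters (E E' : WeierstrassCurve ℚ) [E.IsElliptic]
    [E'.IsElliptic] {S : Set (HeightOneSpectrum (𝓞 ℚ))} {δ : ℝ} (hS : S.HasDirichletDensity δ)
    (hδ : 3 / 4 < δ)
    (h : ∀ v ∈ S, E.LFunction (Ideal.absNorm v.asIdeal) = E'.LFunction (Ideal.absNorm v.asIdeal)) :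
    {q : ℕ | q.Prime ∧ E.LFunction q ≠ E'.LFunction q}.Finite := by
  classical
  by_cases hfield : ∃ d : ℤ, Squarefree d ∧ d ≠ 1 ∧
      (∀ l : ℕ, ∀ [Fact l.Prime],
        (∃ C : VariableChange ℚ_[l],
          HasGoodReduction ℤ_[l] (C • E.map (algebraMap ℚ ℚ_[l]))) →
        ¬ IsSquare (d : ZMod l) → E.LFunction l = 0) ∧
      ∀ l : ℕ, ∀ [Fact l.Prime],
        (∃ C : VariableChange ℚ_[l],
          HasGoodReduction ℤ_[l] (C • E'.map (algebraMap ℚ ℚ_[l]))) →
        ¬ IsSquare (d : ZMod l) → E'.LFunction l = 0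
  swap
  · exact coefficients_eq_of_density_gt_half_all E E' hfield hS (by linarith) h
  obtain ⟨d, hd, hd1, hd0, hd0'⟩ := hfield
  obtain ⟨W, hW⟩ := exists_integralModel E
  obtain ⟨W', hW'⟩ := exists_integralModel E'
  haveI := ratCurve_isElliptic_of_Δ (Δ_ne_zero_of_model hW)
  haveI := ratCurve_isElliptic_of_Δ (Δ_ne_zero_of_model hW')
  by_contra hinf
  obtain ⟨q, ⟨hq, hne⟩, hqn⟩ := (Set.Infinite.sdiff hinf
    ({2} ∪ d.natAbs.primeFactors ∪ (W.Δ * W'.Δ).natAbs.primeFactors).finite_toSet).nonempty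
  simp only [Finset.coe_union, Set.mem_union, Finset.mem_coe, Finset.mem_singleton, not_or] at hqn
  obtain ⟨⟨hq2, hqd⟩, hqΔ⟩ := hqn
  obtain ⟨g1, g2⟩ := FA.Independence.good_of_not_mem hq hqΔ
  rw [FA.Root.LFunction_apply_prime E W hW hq g1, FA.Root.LFunction_apply_prime E' W' hW' hq g2]
    at hne
  obtain ⟨M, hM⟩ := noStableSubgroup_large E
  obtain ⟨M', hM'⟩ := noStableSubgroup_large E'
  set F := {v : HeightOneSpectrum (𝓞 ℚ) |
    Ideal.absNorm v.asIdeal ∈ (W.Δ * W'.Δ).natAbs.primeFactors}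
  have hfin : F.Finite := FA.Supersingular.finite_absNorm_mem _
  have hle := density_le_of_same_field (FA.CMStructure.isExceptional_of_curve hW hd hd1 hd0)
    (FA.CMStructure.isExceptional_of_curve hW' hd hd1 hd0') (M := max M M')
    (fun p hp hlt => by
      haveI := Fact.mk hp
      exact ⟨FA.Root.Irred.modRepIsIrreducible_of_noStableSubgroup hW
        (hM p hp ((le_max_left _ _).trans_lt hlt)),
      FA.Root.Irred.modRepIsIrreducible_of_noStableSubgroup hW'
        (hM' p hp ((le_max_right _ _).trans_lt hlt))⟩)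
    hq hq2 (fun e => hqd (Nat.mem_primeFactors.mpr
      ⟨hq, Int.natCast_dvd.mp e, Int.natAbs_ne_zero.mpr hd.ne_zero⟩)) g1 g2 hne
    (S := S \ F) (δ := δ)
    (FA.TraceDist.hasDirichletDensity_congr hS hfin fun v hv => by simp [hv]) fun v hv => by
      have hl := FA.Chebotarev.absNorm_prime v
      obtain ⟨f1, f2⟩ := FA.Independence.good_of_not_mem hl hv.2
      rw [← FA.Root.LFunction_apply_prime E W hW hl f1,
        ← FA.Root.LFunction_apply_prime E' W' hW' hl f2]
      exact h v hv.1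
  linarith

/-- **Agreement on more than three quarters of the primes gives one L-function.** -/
theorem LFunction_eq_of_density_gt_three_quarters (E E' : WeierstrassCurve ℚ) [E.IsElliptic]
    [E'.IsElliptic] {S : Set (HeightOneSpectrum (𝓞 ℚ))} {δ : ℝ} (hS : S.HasDirichletDensity δ)
    (hδ : 3 / 4 < δ)
    (h : ∀ v ∈ S, E.LFunction (Ideal.absNorm v.asIdeal) = E'.LFunction (Ideal.absNorm v.asIdeal)) :
    E.LFunction = E'.LFunction :=
  have hfin := coefficients_eq_of_density_gt_three_quarters E E' hS hδ h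
  LFunction_eq_of_traces E E' hfin.toFinset fun _ hl hlS =>
    by_contra fun e => hlS (hfin.mem_toFinset.mpr ⟨hl, e⟩)

/-- **Three quarters is sharp**: an exceptional curve for `ℚ(√d)` and its twist by a squarefree
`e ≠ 1, d` agree exactly on a set of primes of density `3/4`, so differ at infinitely many. -/
theorem twist_agreement_density_three_quarters (E : WeierstrassCurve ℚ) [E.IsElliptic] {d : ℤ}
    (hd : Squarefree d) (hd1 : d ≠ 1)
    (h : ∀ l : ℕ, ∀ [Fact l.Prime],
      (∃ C : VariableChange ℚ_[l],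
        HasGoodReduction ℤ_[l] (C • E.map (algebraMap ℚ ℚ_[l]))) →
      ¬ IsSquare (d : ZMod l) → E.LFunction l = 0)
    {e : ℤ} (he : Squarefree e) (he1 : e ≠ 1) (hde : d ≠ e) :
    {v : HeightOneSpectrum (𝓞 ℚ) | E.LFunction (Ideal.absNorm v.asIdeal) =
      (⟨0, 0, 0, -27 * ((e : ℚ) ^ 2 * E.c₄), -54 * ((e : ℚ) ^ 3 * E.c₆)⟩ :
        WeierstrassCurve ℚ).LFunction (Ideal.absNorm v.asIdeal)}.HasDirichletDensity (3 / 4) ∧
    {q : ℕ | q.Prime ∧ E.LFunction q ≠
      (⟨0, 0, 0, -27 * ((e : ℚ) ^ 2 * E.c₄), -54 * ((e : ℚ) ^ 3 * E.c₆)⟩ :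
        WeierstrassCurve ℚ).LFunction q}.Infinite := by
  classical
  suffices hD : {v : HeightOneSpectrum (𝓞 ℚ) | E.LFunction (Ideal.absNorm v.asIdeal) =
      (⟨0, 0, 0, -27 * ((e : ℚ) ^ 2 * E.c₄), -54 * ((e : ℚ) ^ 3 * E.c₆)⟩ :
        WeierstrassCurve ℚ).LFunction (Ideal.absNorm v.asIdeal)}.HasDirichletDensity (3 / 4) from
    ⟨hD, FA.TraceDist.infinite_of_density (δ := 1 - 3 / 4) (by norm_num)
      (FA.Supersingular.hasDirichletDensity_compl hD)⟩
  obtain ⟨W, hW⟩ := exists_integralModel E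
  haveI := ratCurve_isElliptic_of_Δ (Δ_ne_zero_of_model hW)
  have hX := FA.CMStructure.isExceptional_of_curve hW hd hd1 h
  obtain ⟨s, H, hs, hH, hopen, hfix⟩ := FA.OpenImageAll.exists_index_two_of_sqrt hd hd1
  obtain ⟨t, H', ht, hH', hopen', hfix'⟩ := FA.OpenImageAll.exists_index_two_of_sqrt he he1
  haveI : H.Normal := Subgroup.normal_of_index_eq_two hH
  haveI : H'.Normal := Subgroup.normal_of_index_eq_two hH'
  haveI : H.FiniteIndex := ⟨by omega⟩
  haveI : H'.FiniteIndex := ⟨by omega⟩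
  haveI : Fintype ((GQ ⧸ H) × (GQ ⧸ H')) := Fintype.ofFinite _
  obtain ⟨σ₁, h11, h12⟩ := exists_fix_move hd he he1 hde hs ht
  obtain ⟨σ₂, h22, h21⟩ := exists_fix_move he hd hd1 hde.symm ht hs
  set f : GQ →* (GQ ⧸ H) × (GQ ⧸ H') := (QuotientGroup.mk' H).prod (QuotientGroup.mk' H')
  have h1 : ∀ σ, (f σ).1 = 1 ↔ σ s = s := fun σ => (QuotientGroup.eq_one_iff σ).trans (hfix σ)
  have h2 : ∀ σ, (f σ).2 = 1 ↔ σ t = t := fun σ => (QuotientGroup.eq_one_iff σ).trans (hfix' σ)
  have two : ∀ {G : Type} [Group G], Nat.card G = 2 → ∀ a b : G, a ≠ 1 → b ≠ 1 → a = b :=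
    fun hG a b ha hb => ((Nat.card_eq_two_iff' 1).mp hG).unique ha hb
  have c1 : Nat.card (GQ ⧸ H) = 2 := by rw [← Subgroup.index_eq_card, hH]
  have c2 : Nat.card (GQ ⧸ H') = 2 := by rw [← Subgroup.index_eq_card, hH']
  have a1 : (f σ₂).1 ≠ 1 := fun e => h21 ((h1 _).mp e)
  have a2 : (f σ₁).2 ≠ 1 := fun e => h12 ((h2 _).mp e)
  have hsurj : Function.Surjective f := fun g => by
    rcases eq_or_ne g.1 1 with e1 | e1 <;> rcases eq_or_ne g.2 1 with e2 | e2
    · exact ⟨1, by rw [map_one]; exact (Prod.ext e1 e2).symm⟩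
    · exact ⟨σ₁, Prod.ext (((h1 _).mpr h11).trans e1.symm) (two c2 _ _ a2 e2)⟩
    · exact ⟨σ₂, Prod.ext (two c1 _ _ a1 e1) (((h2 _).mpr h22).trans e2.symm)⟩
    · exact ⟨σ₂ * σ₁, Prod.ext
        (by rw [map_mul, Prod.fst_mul, (h1 _).mpr h11, mul_one]; exact two c1 _ _ a1 e1)
        (by rw [map_mul, Prod.snd_mul, (h2 _).mpr h22, one_mul]; exact two c2 _ _ a2 e2)⟩
  let X : Set ((GQ ⧸ H) × (GQ ⧸ H')) := {g | g.1 ≠ 1 ∨ g.2 = 1}
  have hdens := FA.Chebotarev.hasDirichletDensity_frobSet f hsurj (by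
    rw [show f.ker = H ⊓ H' by simp only [f, MonoidHom.ker_prod, QuotientGroup.ker_mk'],
      Subgroup.coe_inf]
    exact hopen.inter hopen') (X := X) fun g hg x => by
      rcases hg with hg | hg
      · exact Or.inl fun e => hg (conj_eq_one_iff.mp e)
      · exact Or.inr (conj_eq_one_iff.mpr hg)
  have hcard : Nat.card X = 3 ∧ Fintype.card ((GQ ⧸ H) × (GQ ⧸ H')) = 4 := by
    have h4 : Nat.card ((GQ ⧸ H) × (GQ ⧸ H')) = 4 := by rw [Nat.card_prod, c1, c2]
    have hXc : Xᶜ = {(1, (f σ₁).2)} := by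
      ext g
      simp only [X, Set.mem_compl_iff, Set.mem_ofPred_eq, not_or, not_not, Set.mem_singleton_iff]
      exact ⟨fun hg => Prod.ext hg.1 (two c2 _ _ hg.2 a2), fun hg => by rw [hg]; exact ⟨rfl, a2⟩⟩
    have := Set.ncard_add_ncard_compl X
    rw [hXc, Set.ncard_singleton, h4] at this
    exact ⟨by rw [Nat.card_coe_set_eq]; omega, by rw [← Nat.card_eq_fintype_card, h4]⟩
  rw [hcard.1, hcard.2] at hdens
  norm_num at hdens
  refine FA.TraceDist.hasDirichletDensity_congr hdens (FA.Supersingular.finite_absNorm_mem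
    ({2} ∪ d.natAbs.primeFactors ∪ e.natAbs.primeFactors ∪ W.Δ.natAbs.primeFactors)) fun v hv => ?_
  have hq := FA.Chebotarev.absNorm_prime v
  haveI := Fact.mk hq
  set q := Ideal.absNorm v.asIdeal with hqdef
  simp only [Set.mem_ofPred_eq, Finset.mem_union, Finset.mem_singleton, not_or,
    Nat.mem_primeFactors, not_and, not_not, Int.natAbs_ne_zero, ← Int.natCast_dvd, ← hqdef] at hv
  obtain ⟨⟨⟨hq2, hqd⟩, hqe⟩, hqΔ⟩ := hv
  have hdd : ¬ (q : ℤ) ∣ d := fun e => hd.ne_zero (hqd hq e)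
  have hee : ¬ (q : ℤ) ∣ e := fun e' => he.ne_zero (hqe hq e')
  have hg : W.IsGoodPrimeFor q := fun e => Δ_ne_zero_of_model hW (hqΔ hq e)
  have he0 : (e : ZMod q) ≠ 0 := fun h => hee ((ZMod.intCast_zmod_eq_zero_iff_dvd _ _).mp h)
  simp only [Set.mem_ofPred_eq, ← hqdef]
  rw [show (⟨0, 0, 0, -27 * ((e : ℚ) ^ 2 * E.c₄), -54 * ((e : ℚ) ^ 3 * E.c₆)⟩ :
      WeierstrassCurve ℚ).LFunction q = jacobiSym e q * E.LFunction q from
      (FA.TwistCurve.LFunction_quadTwist hW hq2 hee hg).2,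
    FA.Root.LFunction_apply_prime E W hW hq hg, ← jacobiSym.legendreSym.to_jacobiSym]
  have key : ∀ A : ValuationSubring Qb, A.LiesOverPrime q → ∀ σ : GQ, A.IsFrobeniusAt σ q →
      (f σ ∈ X ↔ W.apOfModel q = legendreSym q e * W.apOfModel q) := fun A hA σ hσ => by
    have hd' : σ s ≠ s ↔ W.apOfModel q = 0 := by
      refine ⟨fun hne => hX.vanish q hq hg
          (FA.OpenImageAll.not_isSquare_of_frobenius_apply_ne hq hq2 hdd hA hσ hs hne),
        fun ha => FA.SerreLarge.frobenius_apply_ne hq (fun hsq =>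
          FA.Exceptional.apOfModel_ne_zero_of_split hd hd1 hX.vanish hq hg hq2 hdd hsq ha) hA hσ hs⟩
    have he' : σ t = t ↔ legendreSym q e = 1 := by
      rw [legendreSym.eq_one_iff q he0]
      exact ⟨fun heq => by_contra fun hns => FA.SerreLarge.frobenius_apply_ne hq hns hA hσ ht heq,
        fun hsq => by_contra fun hne =>
          FA.OpenImageAll.not_isSquare_of_frobenius_apply_ne hq hq2 hee hA hσ ht hne hsq⟩
    refine (or_congr ((not_congr (h1 σ)).trans hd') ((h2 σ).trans he')).trans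
      ⟨fun h => ?_, fun h => ?_⟩
    · rcases h with h | h <;> simp [h]
    · refine or_iff_not_imp_left.mpr fun ha => mul_right_cancel₀ ha ?_
      rw [← h, one_mul]
  constructor
  · intro hv
    obtain ⟨A, hA⟩ := FA.Deform.exists_liesOverPrime hq
    obtain ⟨σ, hσ⟩ := FA.Deform.exists_isFrobeniusAt hq hA
    exact (key A hA σ hσ).mp (hv A hA σ hσ)
  · exact fun hv A hA σ hσ => (key A hA σ hσ).mpr hv

end FA.Summary

end
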