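import Fermat.Agent.ReducedGroups.ExponentRigidity
import Fermat.Agent.Root.SummaryExponents
import Fermat.Agent.Root.SummaryLFunctionInvariance
import Fermat.Agent.Root.SummaryMultiplicityOneDensity

/-!
# The exponents of the reductions determine the L-function

For integral equations and positive `a`, `b` the good primes with `a e = b e'` for the exponents of
the two reduced groups but `a_q ≠ a'_q` have convergent sum of reciprocals. So proportional
exponents on a set of density one give equal L-functions, for every two elliptic curves over `ℚ`;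
for open image more than one half suffices, and any positive density gives quadratic twists.
-/

set_option autoImplicit false
set_option linter.style.haveILetI false
set_option linter.unusedSectionVars false

noncomputable section

open NumberField IsDedekindDomain WeierstrassCurve FA.Frob Filter Topology
open scoped WeierstrassCurve.Affine Classical

namespace FA.Summary

variable {W W' : WeierstrassCurve ℤ}

/-- **Proportional exponents and different traces** occur at primes with convergent sum of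
reciprocals. -/
theorem exponent_trace_summable (hΔ : W.Δ ≠ 0) (hΔ' : W'.Δ ≠ 0) {a b : ℕ} (ha : 0 < a)
    (hb : 0 < b) :
    Summable ({q : ℕ | ∃ _ : Fact q.Prime, W.IsGoodPrimeFor q ∧ W'.IsGoodPrimeFor q ∧
      a * AddMonoid.exponent (W.map (Int.castRingHom (ZMod q))).toAffine.Point =
        b * AddMonoid.exponent (W'.map (Int.castRingHom (ZMod q))).toAffine.Point ∧
      W.apOfModel q ≠ W'.apOfModel q}.indicator fun n : ℕ => (1 : ℝ) / n) := by
  haveI := ratCurve_isElliptic_of_Δ hΔ
  haveI := ratCurve_isElliptic_of_Δ hΔ'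
  obtain ⟨M, hM⟩ := FA.ReducedGroups.exists_bound_trace_eq (W := W) (W' := W') a b ha hb
  have h1 := exponent_duke_summable W hΔ
  have h2 := exponent_duke_summable W' hΔ'
  have h3 : Summable ((Finset.range M : Set ℕ).indicator fun n : ℕ => (1 : ℝ) / n) :=
    summable_of_ne_finset_zero (s := Finset.range M) fun n hn =>
      Set.indicator_of_notMem (by rwa [Finset.mem_coe]) _
  have hsum := (h1.add h2).add h3
  refine hsum.of_nonneg_of_le
    (fun n => Set.indicator_nonneg (fun _ _ => by positivity) n) fun n => ?_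
  have hnn : ∀ (A : Set ℕ), 0 ≤ A.indicator (fun n : ℕ => (1 : ℝ) / n) n := fun A =>
    Set.indicator_nonneg (fun _ _ => by positivity) n
  refine Set.indicator_apply_le' (fun hn => ?_)
    (fun _ => add_nonneg (add_nonneg (hnn _) (hnn _)) (hnn _))
  obtain ⟨hq, hg, hg', he, hne⟩ := hn
  by_cases hM' : M ≤ n
  · rcases lt_or_ge (FA.ReducedGroups.exponentAt W n : ℝ) ((n : ℝ) ^ (3 / 4 : ℝ) / Real.log n)
      with h | h
    · refine le_add_of_le_of_nonneg (le_add_of_le_of_nonneg ?_ (hnn _)) (hnn _)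
      rw [Set.indicator_of_mem]
      exact ⟨hq, hg, h⟩
    rcases lt_or_ge (FA.ReducedGroups.exponentAt W' n : ℝ) ((n : ℝ) ^ (3 / 4 : ℝ) / Real.log n)
      with h' | h'
    · refine le_add_of_le_of_nonneg (le_add_of_nonneg_of_le (hnn _) ?_) (hnn _)
      rw [Set.indicator_of_mem]
      exact ⟨hq, hg', h'⟩
    exact absurd (hM n hM' hg hg' h h' he) hne
  · exact le_add_of_nonneg_of_le (add_nonneg (hnn _) (hnn _))
      (Set.indicator_of_mem (Finset.mem_coe.mpr (Finset.mem_range.mpr (not_le.mp hM')))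
        fun k : ℕ => (1 : ℝ) / k).ge

/-- Off a set of density zero, proportional exponents give equal traces. -/
theorem exists_exceptions_proportional (hΔ : W.Δ ≠ 0) (hΔ' : W'.Δ ≠ 0) {a b : ℕ} (ha : 0 < a)
    (hb : 0 < b) :
    ∃ Z : Set (HeightOneSpectrum (𝓞 ℚ)), Z.HasDirichletDensity 0 ∧ ∀ v ∉ Z,
      W.IsGoodPrimeFor (Ideal.absNorm v.asIdeal) → W'.IsGoodPrimeFor (Ideal.absNorm v.asIdeal) →
      (∀ [Fact (Ideal.absNorm v.asIdeal).Prime],
        a * AddMonoid.exponent
            (W.map (Int.castRingHom (ZMod (Ideal.absNorm v.asIdeal)))).toAffine.Point =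
          b * AddMonoid.exponent
            (W'.map (Int.castRingHom (ZMod (Ideal.absNorm v.asIdeal)))).toAffine.Point) →
      W.apOfModel (Ideal.absNorm v.asIdeal) = W'.apOfModel (Ideal.absNorm v.asIdeal) := by
  refine ⟨_, FA.PrimeDivisors.density_zero_of_summable (exponent_trace_summable hΔ hΔ' ha hb),
    fun v hv hg hg' he => ?_⟩
  haveI := Fact.mk (FA.Chebotarev.absNorm_prime v)
  by_contra hne
  exact hv ⟨this, hg, hg', he, hne⟩

/-- **Proportional exponents on density one give equal traces at every good prime.** -/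
theorem apOfModel_eq_of_proportional_exponents (hΔ : W.Δ ≠ 0) (hΔ' : W'.Δ ≠ 0) {a b : ℕ}
    (ha : 0 < a) (hb : 0 < b) {S : Set (HeightOneSpectrum (𝓞 ℚ))}
    (hS : S.HasDirichletDensity 1)
    (h : ∀ v ∈ S, ∀ [Fact (Ideal.absNorm v.asIdeal).Prime],
      a * AddMonoid.exponent
          (W.map (Int.castRingHom (ZMod (Ideal.absNorm v.asIdeal)))).toAffine.Point =
        b * AddMonoid.exponent
          (W'.map (Int.castRingHom (ZMod (Ideal.absNorm v.asIdeal)))).toAffine.Point)
    {q : ℕ} (hq : q.Prime) (hg : W.IsGoodPrimeFor q) (hg' : W'.IsGoodPrimeFor q) :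
    W.apOfModel q = W'.apOfModel q := by
  haveI := ratCurve_isElliptic_of_Δ hΔ
  haveI := ratCurve_isElliptic_of_Δ hΔ'
  obtain ⟨Z, hZ, hZ'⟩ := exists_exceptions_proportional hΔ hΔ' ha hb
  have h1 := FA.Supersingular.hasDirichletDensity_compl (FA.ReducedGroups.density_sdiff_zero hS hZ)
  rw [sub_self] at h1
  refine FA.ReducedGroups.apOfModel_eq_of_density_zero hΔ hΔ' h1 (fun v hv hgv hgv' => ?_) hq hg hg'
  obtain ⟨hvS, hvZ⟩ := Set.notMem_compl_iff.mp hv
  exact hZ' v hvZ hgv hgv' (h v hvS)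

/-- **The exponents determine the L-function**: for every two elliptic curves over `ℚ`,
exponents proportional by a fixed factor on a set of density one give equal L-functions. -/
theorem LFunction_eq_of_proportional_exponents (E E' : WeierstrassCurve ℚ) [E.IsElliptic]
    [E'.IsElliptic] (hW : W.IsIntegralModelOf E) (hW' : W'.IsIntegralModelOf E') {a b : ℕ}
    (ha : 0 < a) (hb : 0 < b) {S : Set (HeightOneSpectrum (𝓞 ℚ))}
    (hS : S.HasDirichletDensity 1)
    (h : ∀ v ∈ S, ∀ [Fact (Ideal.absNorm v.asIdeal).Prime],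
      a * AddMonoid.exponent
          (W.map (Int.castRingHom (ZMod (Ideal.absNorm v.asIdeal)))).toAffine.Point =
        b * AddMonoid.exponent
          (W'.map (Int.castRingHom (ZMod (Ideal.absNorm v.asIdeal)))).toAffine.Point) :
    E.LFunction = E'.LFunction := by
  have hΔ := FA.Frob.Δ_ne_zero_of_model hW
  have hΔ' := FA.Frob.Δ_ne_zero_of_model hW'
  refine LFunction_eq_of_traces E E' (W.Δ * W'.Δ).natAbs.primeFactors fun l hl hlS => ?_
  have hbad : ∀ c : ℤ, c ∣ W.Δ * W'.Δ → ¬ (l : ℤ) ∣ c := fun c hc e => hlS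
    (Nat.mem_primeFactors.mpr ⟨hl, Int.natCast_dvd.mp (e.trans hc),
      Int.natAbs_ne_zero.mpr (mul_ne_zero hΔ hΔ')⟩)
  have hg : W.IsGoodPrimeFor l := hbad _ (dvd_mul_right _ _)
  have hg' : W'.IsGoodPrimeFor l := hbad _ (dvd_mul_left _ _)
  rw [FA.Root.LFunction_apply_prime E W hW hl hg, FA.Root.LFunction_apply_prime E' W' hW' hl hg']
  exact apOfModel_eq_of_proportional_exponents hΔ hΔ' ha hb hS h hl hg hg'

/-- Proportional exponents give equal coefficients on a subset of the same density. -/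
theorem exists_agree_of_proportional (E E' : WeierstrassCurve ℚ) [E.IsElliptic] [E'.IsElliptic]
    (hW : W.IsIntegralModelOf E) (hW' : W'.IsIntegralModelOf E') {a b : ℕ}
    (ha : 0 < a) (hb : 0 < b) {S : Set (HeightOneSpectrum (𝓞 ℚ))} {δ : ℝ}
    (hS : S.HasDirichletDensity δ)
    (h : ∀ v ∈ S, ∀ [Fact (Ideal.absNorm v.asIdeal).Prime],
      a * AddMonoid.exponent
          (W.map (Int.castRingHom (ZMod (Ideal.absNorm v.asIdeal)))).toAffine.Point =
        b * AddMonoid.exponent
          (W'.map (Int.castRingHom (ZMod (Ideal.absNorm v.asIdeal)))).toAffine.Point) :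
    ∃ T : Set (HeightOneSpectrum (𝓞 ℚ)), T ⊆ S ∧ T.HasDirichletDensity δ ∧
      ∀ v ∈ T, E.LFunction (Ideal.absNorm v.asIdeal) = E'.LFunction (Ideal.absNorm v.asIdeal) := by
  have hΔ := FA.Frob.Δ_ne_zero_of_model hW
  have hΔ' := FA.Frob.Δ_ne_zero_of_model hW'
  obtain ⟨Z, hZ, hZ'⟩ := exists_exceptions_proportional hΔ hΔ' ha hb
  set F : Set (HeightOneSpectrum (𝓞 ℚ)) :=
    {v | Ideal.absNorm v.asIdeal ∈ (W.Δ * W'.Δ).natAbs.primeFactors}
  have h1 : ((S \ Z) \ F).HasDirichletDensity δ :=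
    FA.ReducedGroups.density_sdiff_zero (FA.ReducedGroups.density_sdiff_zero hS hZ)
      (FA.TraceDist.hasDirichletDensity_congr NumberField.Set.hasDirichletDensity_empty
        (FA.Supersingular.finite_absNorm_mem _)
        fun v hv => iff_of_false (Set.notMem_empty v) hv)
  refine ⟨_, fun v hv => hv.1.1, h1, fun v hv => ?_⟩
  have hl := FA.Chebotarev.absNorm_prime v
  have hbad : ∀ c : ℤ, c ∣ W.Δ * W'.Δ → ¬ (Ideal.absNorm v.asIdeal : ℤ) ∣ c := fun c hc e =>
    hv.2 (Nat.mem_primeFactors.mpr ⟨hl, Int.natCast_dvd.mp (e.trans hc),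
      Int.natAbs_ne_zero.mpr (mul_ne_zero hΔ hΔ')⟩)
  have hg : W.IsGoodPrimeFor (Ideal.absNorm v.asIdeal) := hbad _ (dvd_mul_right _ _)
  have hg' : W'.IsGoodPrimeFor (Ideal.absNorm v.asIdeal) := hbad _ (dvd_mul_left _ _)
  rw [FA.Root.LFunction_apply_prime E W hW hl hg, FA.Root.LFunction_apply_prime E' W' hW' hl hg']
  exact hZ' v hv.1.2 hg hg' (h v hv.1.1)

/-- **More than half the primes suffice** for two curves with open image. -/
theorem LFunction_eq_of_proportional_exponents_gt_half (E E' : WeierstrassCurve ℚ) [E.IsElliptic]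
    [E'.IsElliptic]
    (hE : ∀ d : ℤ, Squarefree d → d ≠ 1 → ∃ (l : ℕ) (_ : Fact l.Prime),
      (∃ C : VariableChange ℚ_[l],
        HasGoodReduction ℤ_[l] (C • E.map (algebraMap ℚ ℚ_[l]))) ∧
      ¬ IsSquare (d : ZMod l) ∧ E.LFunction l ≠ 0)
    (hE' : ∀ d : ℤ, Squarefree d → d ≠ 1 → ∃ (l : ℕ) (_ : Fact l.Prime),
      (∃ C : VariableChange ℚ_[l],
        HasGoodReduction ℤ_[l] (C • E'.map (algebraMap ℚ ℚ_[l]))) ∧
      ¬ IsSquare (d : ZMod l) ∧ E'.LFunction l ≠ 0)
    (hW : W.IsIntegralModelOf E) (hW' : W'.IsIntegralModelOf E') {a b : ℕ}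
    (ha : 0 < a) (hb : 0 < b) {S : Set (HeightOneSpectrum (𝓞 ℚ))} {δ : ℝ}
    (hS : S.HasDirichletDensity δ) (hδ : 1 / 2 < δ)
    (h : ∀ v ∈ S, ∀ [Fact (Ideal.absNorm v.asIdeal).Prime],
      a * AddMonoid.exponent
          (W.map (Int.castRingHom (ZMod (Ideal.absNorm v.asIdeal)))).toAffine.Point =
        b * AddMonoid.exponent
          (W'.map (Int.castRingHom (ZMod (Ideal.absNorm v.asIdeal)))).toAffine.Point) :
    E.LFunction = E'.LFunction := by
  obtain ⟨T, -, hT, hagree⟩ := exists_agree_of_proportional E E' hW hW' ha hb hS h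
  have hfin := coefficients_eq_of_density_gt_half_of_traces E E' hE hE' hT hδ hagree
  exact LFunction_eq_of_traces E E' hfin.toFinset fun l hl hlS => by
    by_contra hne
    exact hlS (hfin.mem_toFinset.mpr ⟨hl, hne⟩)

/-- **More than three quarters suffice** for every two elliptic curves over `ℚ`. -/
theorem LFunction_eq_of_proportional_exponents_gt_three_quarters (E E' : WeierstrassCurve ℚ)
    [E.IsElliptic] [E'.IsElliptic]
    (hW : W.IsIntegralModelOf E) (hW' : W'.IsIntegralModelOf E') {a b : ℕ}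
    (ha : 0 < a) (hb : 0 < b) {S : Set (HeightOneSpectrum (𝓞 ℚ))} {δ : ℝ}
    (hS : S.HasDirichletDensity δ) (hδ : 3 / 4 < δ)
    (h : ∀ v ∈ S, ∀ [Fact (Ideal.absNorm v.asIdeal).Prime],
      a * AddMonoid.exponent
          (W.map (Int.castRingHom (ZMod (Ideal.absNorm v.asIdeal)))).toAffine.Point =
        b * AddMonoid.exponent
          (W'.map (Int.castRingHom (ZMod (Ideal.absNorm v.asIdeal)))).toAffine.Point) :
    E.LFunction = E'.LFunction := by
  obtain ⟨T, -, hT, hagree⟩ := exists_agree_of_proportional E E' hW hW' ha hb hS h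
  have hfin := coefficients_eq_of_density_gt_three_quarters E E' hT hδ hagree
  exact LFunction_eq_of_traces E E' hfin.toFinset fun l hl hlS => by
    by_contra hne
    exact hlS (hfin.mem_toFinset.mpr ⟨hl, hne⟩)

/-- **Positive density gives quadratic twists** for two curves with open image. -/
theorem quadraticTwist_of_proportional_exponents (E E' : WeierstrassCurve ℚ) [E.IsElliptic]
    [E'.IsElliptic]
    (hE : ∀ d : ℤ, Squarefree d → d ≠ 1 → ∃ (l : ℕ) (_ : Fact l.Prime),
      (∃ C : VariableChange ℚ_[l],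
        HasGoodReduction ℤ_[l] (C • E.map (algebraMap ℚ ℚ_[l]))) ∧
      ¬ IsSquare (d : ZMod l) ∧ E.LFunction l ≠ 0)
    (hE' : ∀ d : ℤ, Squarefree d → d ≠ 1 → ∃ (l : ℕ) (_ : Fact l.Prime),
      (∃ C : VariableChange ℚ_[l],
        HasGoodReduction ℤ_[l] (C • E'.map (algebraMap ℚ ℚ_[l]))) ∧
      ¬ IsSquare (d : ZMod l) ∧ E'.LFunction l ≠ 0)
    (hW : W.IsIntegralModelOf E) (hW' : W'.IsIntegralModelOf E') {a b : ℕ}
    (ha : 0 < a) (hb : 0 < b) {S : Set (HeightOneSpectrum (𝓞 ℚ))} {δ : ℝ}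
    (hS : S.HasDirichletDensity δ) (hδ : δ ≠ 0)
    (h : ∀ v ∈ S, ∀ [Fact (Ideal.absNorm v.asIdeal).Prime],
      a * AddMonoid.exponent
          (W.map (Int.castRingHom (ZMod (Ideal.absNorm v.asIdeal)))).toAffine.Point =
        b * AddMonoid.exponent
          (W'.map (Int.castRingHom (ZMod (Ideal.absNorm v.asIdeal)))).toAffine.Point) :
    ∃ N : ℕ, 0 < N ∧ ∃ χ : DirichletCharacter ℤ N, χ.IsQuadratic ∧
      {q : ℕ | q.Prime ∧ E'.LFunction q ≠ χ q * E.LFunction q}.Finite := by
  refine (traceSquares_iff_quadraticTwist_of_traces E E' hE hE').mp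
    ((traceSquares_finite_or_density_zero_of_traces E E' hE hE').resolve_right fun h0 => ?_)
  have hΔ := FA.Frob.Δ_ne_zero_of_model hW
  have hΔ' := FA.Frob.Δ_ne_zero_of_model hW'
  obtain ⟨Z, hZ, hZ'⟩ := exists_exceptions_proportional hΔ hΔ' ha hb
  refine hδ (tendsto_nhds_unique (FA.ReducedGroups.density_sdiff_zero hS hZ)
    (FA.PrimeDivisors.density_zero_of_approx_union fun ε hε => ⟨_, _,
      {v | Ideal.absNorm v.asIdeal ∈ (W.Δ * W'.Δ).natAbs.primeFactors}, 0, h0, hε,
      NumberField.Set.hasDirichletDensity_empty, FA.Supersingular.finite_absNorm_mem _,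
      fun v hv => ?_⟩))
  refine or_iff_not_imp_right.mpr fun hvF => Or.inl (Or.inl ?_)
  have hl := FA.Chebotarev.absNorm_prime v
  have hbad : ∀ c : ℤ, c ∣ W.Δ * W'.Δ → ¬ (Ideal.absNorm v.asIdeal : ℤ) ∣ c := fun c hc e =>
    hvF (Nat.mem_primeFactors.mpr ⟨hl, Int.natCast_dvd.mp (e.trans hc),
      Int.natAbs_ne_zero.mpr (mul_ne_zero hΔ hΔ')⟩)
  have hg : W.IsGoodPrimeFor (Ideal.absNorm v.asIdeal) := hbad _ (dvd_mul_right _ _)
  have hg' : W'.IsGoodPrimeFor (Ideal.absNorm v.asIdeal) := hbad _ (dvd_mul_left _ _)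
  show E.LFunction _ = E'.LFunction _
  rw [FA.Root.LFunction_apply_prime E W hW hl hg, FA.Root.LFunction_apply_prime E' W' hW' hl hg']
  exact hZ' v hv.2 hg hg' (h v hv.1)

end FA.Summary

end
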