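import Fermat.Agent.Ribet.CurveCriterion.SUnitCriterion
import Fermat.Agent.Root.SummarySerreMazur

/-!
# Fermat's equation with coefficients supported on any number of primes

The `S`-unit criterion of Kraus and of Freitas and Siksek over `ℚ`: if a finite set `S` of odd
primes carries no coprime `x + y + z = 0` with `16 ∣ z`, then `A x ^ n + B y ^ n + C z ^ n` with
coefficients supported on `S ∪ {2}` has no solution of the usual shape for `n` with a large prime
factor. This is so for every finite set of primes `≡ 1, 19 (mod 24)`.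
-/

set_option autoImplicit false

noncomputable section

open WeierstrassCurve FA.CurveCriterion

namespace FA.Summary

/-- **The `S`-unit criterion**: without a triple `x + y + z = 0` supported on `S ∪ {2}`, `x, y` odd
and coprime, `16 ∣ z`, there is no solution of `A x ^ n + B y ^ n + C z ^ n = 0` with coefficients
supported there, `A x ^ n` prime to `B y ^ n`, `16 ∣ C z ^ n` and `n` with a large prime factor. -/
theorem fermat_sUnit_criterion {S : Finset ℕ} (hS : ∀ q ∈ S, q.Prime)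
    (hrel : ∀ x y z : ℤ, x * y * z ≠ 0 → x + y + z = 0 → Odd x → Odd y → IsCoprime x y →
      (16 : ℤ) ∣ z → (∀ r : ℕ, r.Prime → (r : ℤ) ∣ x * y * z → r = 2 ∨ r ∈ S) → False) :
    ∃ C₀ : ℕ, ∀ n p : ℕ, p.Prime → C₀ < p → p ∣ n → ∀ A B C x y z : ℤ,
      A * B * C ≠ 0 → x * y * z ≠ 0 →
      (∀ r : ℕ, r.Prime → (r : ℤ) ∣ A * B * C → r = 2 ∨ r ∈ S) →
      IsCoprime (A * x ^ n) (B * y ^ n) → (16 : ℤ) ∣ C * z ^ n →
      A * x ^ n + B * y ^ n + C * z ^ n ≠ 0 := by
  obtain ⟨C₀, hC⟩ := fermatEquation_asymptotic_curve (M := 2 * ∏ q ∈ S, q)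
    (mul_ne_zero two_ne_zero (Finset.prod_ne_zero_iff.mpr fun q hq => (hS q hq).ne_zero))
    (dvd_mul_right 2 _) fun V hΔ hV hgood => by
      by_contra h
      exact not_four_dvd_traces_of_noTriple hS hrel hΔ hV hgood fun l hl hlM =>
        by_contra fun h4 => h ⟨l, hl, hlM, h4⟩
  refine ⟨C₀, fun n p hp hpC hpn A B C x y z hne hxyz hs => ?_⟩
  refine hC n p hp hpC hpn A B C x y z hne hxyz fun r hr hd => ?_
  rcases hs r hr hd with rfl | hrS
  exacts [dvd_mul_right 2 _, (Finset.dvd_prod_of_mem _ hrS).mul_left 2]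

/-- Removing the common part of `x`, `y` and putting the even term last. -/
theorem fermat_pure_of_coprime {S : Finset ℕ} (h2 : 2 ∉ S)
    (hcrit : ∃ C₀ : ℕ, ∀ n p : ℕ, p.Prime → C₀ < p → p ∣ n → ∀ A B C x y z : ℤ,
      A * B * C ≠ 0 → x * y * z ≠ 0 →
      (∀ r : ℕ, r.Prime → (r : ℤ) ∣ A * B * C → r = 2 ∨ r ∈ S) →
      IsCoprime (A * x ^ n) (B * y ^ n) → (32 : ℤ) ∣ C * z ^ n →
      A * x ^ n + B * y ^ n + C * z ^ n ≠ 0) :
    ∃ C₀ : ℕ, ∀ n p : ℕ, p.Prime → C₀ < p → p ∣ n → ∀ L x y z : ℤ,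
      L * x * y * z ≠ 0 → (∀ r : ℕ, r.Prime → (r : ℤ) ∣ L → r ∈ S) →
      x ^ n + y ^ n + L * z ^ n ≠ 0 := by
  obtain ⟨C₀, hC⟩ := hcrit
  refine ⟨max C₀ 5, fun n p hp hpC hpn L x y z hne hL heq => ?_⟩
  simp only [max_lt_iff] at hpC
  simp only [mul_ne_zero_iff] at hne
  obtain ⟨⟨⟨hL0, hx0⟩, hy0⟩, hz0⟩ := hne
  have h2S : ∀ {M : ℤ}, M ∣ L → Odd M := fun {M} hM => Int.not_even_iff_odd.mp fun he =>
    h2 (hL 2 Nat.prime_two ((even_iff_two_dvd.mp he).trans hM))
  rcases eq_or_ne n 0 with rfl | hn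
  · simp only [pow_zero, mul_one] at heq
    have := Int.odd_iff.mp (h2S dvd_rfl)
    omega
  have h5 : 5 ≤ n := le_trans (le_of_lt hpC.2) (Nat.le_of_dvd (by omega) hpn)
  have h16 : ∀ {C t : ℤ}, Even t → (32 : ℤ) ∣ C * t ^ n := fun ht =>
    (((show (32 : ℤ) = 2 ^ 5 by norm_num) ▸ pow_dvd_pow 2 h5).trans
      (pow_dvd_pow_of_dvd (even_iff_two_dvd.mp ht) n)).mul_left _
  -- remove the common part of `x` and `y`
  obtain ⟨x', y', hco, hxg, hyg⟩ :=
    Int.exists_gcd_one (m := x) (n := y) (Int.gcd_pos_of_ne_zero_left _ hx0)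
  generalize (Int.gcd x y : ℤ) = G at hxg hyg
  obtain ⟨z', g', hco', hzh, hgh⟩ :=
    Int.exists_gcd_one (m := z) (n := G) (Int.gcd_pos_of_ne_zero_left _ hz0)
  generalize (Int.gcd z G : ℤ) = k at hzh hgh
  have hk : k ≠ 0 := fun e => hz0 (by rw [hzh, e, mul_zero])
  rw [← Int.isCoprime_iff_gcd_eq_one] at hco hco'
  have e : g' ^ n * (x' ^ n + y' ^ n) + L * z' ^ n = 0 := mul_left_cancel₀ (pow_ne_zero n hk) (by
    rw [hxg, hyg, hgh, hzh] at heq
    rw [mul_zero]
    linear_combination heq)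
  obtain ⟨L', rfl⟩ : g' ^ n ∣ L := (hco'.symm.pow (m := n) (n := n)).dvd_of_dvd_mul_right
    ⟨-(x' ^ n + y' ^ n), by linear_combination e⟩
  have hg' : g' ≠ 0 := fun e0 => hL0 (by rw [e0, zero_pow hn, zero_mul])
  have h : x' ^ n + y' ^ n + L' * z' ^ n = 0 := mul_left_cancel₀ (pow_ne_zero n hg')
    (by linear_combination e)
  have hne' : x' * y' * z' ≠ 0 := mul_ne_zero (mul_ne_zero
    (fun e0 => hx0 (by rw [hxg, e0, zero_mul])) fun e0 => hy0 (by rw [hyg, e0, zero_mul]))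
    fun e0 => hz0 (by rw [hzh, e0, zero_mul])
  have hL' : L' ≠ 0 := right_ne_zero_of_mul hL0
  have hsupp : ∀ r : ℕ, r.Prime → (r : ℤ) ∣ L' → r = 2 ∨ r ∈ S := fun r hr hd =>
    Or.inr (hL r hr (hd.mul_left _))
  rcases Int.even_or_odd z' with hz | hz
  · exact hC n p hp hpC.1 hpn 1 1 L' x' y' z' (by simpa using hL') hne'
      (by simpa using hsupp) (by simpa using hco.pow) (h16 hz) (by linear_combination h)
  rcases Int.even_or_odd x' with hx | hx
  · exact hC n p hp hpC.1 hpn L' 1 1 z' y' x' (by simpa using hL')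
      (by rwa [show z' * y' * x' = x' * y' * z' by ring]) (by simpa using hsupp)
      (by
        rw [show L' * z' ^ n = -(x' ^ n + y' ^ n * 1) by linear_combination h, one_mul]
        exact (hco.pow.add_mul_left_left 1).neg_left)
      (h16 hx) (by linear_combination h)
  rcases Int.even_or_odd y' with hy | hy
  · exact hC n p hp hpC.1 hpn L' 1 1 z' x' y' (by simpa using hL')
      (by rwa [show z' * x' * y' = x' * y' * z' by ring]) (by simpa using hsupp)
      (by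
        rw [show L' * z' ^ n = -(y' ^ n + x' ^ n * 1) by linear_combination h, one_mul]
        exact (hco.symm.pow.add_mul_left_left 1).neg_left)
      (h16 hy) (by linear_combination h)
  have := ((hx.pow (n := n)).add_odd (hy.pow (n := n))).add_odd
    ((h2S (dvd_mul_left L' _)).mul (hz.pow (n := n)))
  rw [h] at this
  exact absurd this (by decide)

/-- **`x ^ n + y ^ n + L z ^ n` under the criterion**: for odd primes `S` without a triple it is
not zero for nonzero `x, y, z` and `L` with all prime divisors in `S`, when `n` has a prime factor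
beyond a bound depending on `S`. -/
theorem fermat_sUnit_pure {S : Finset ℕ} (hS : ∀ q ∈ S, q.Prime) (h2 : 2 ∉ S)
    (hrel : ∀ x y z : ℤ, x * y * z ≠ 0 → x + y + z = 0 → Odd x → Odd y → IsCoprime x y →
      (16 : ℤ) ∣ z → (∀ r : ℕ, r.Prime → (r : ℤ) ∣ x * y * z → r = 2 ∨ r ∈ S) → False) :
    ∃ C₀ : ℕ, ∀ n p : ℕ, p.Prime → C₀ < p → p ∣ n → ∀ L x y z : ℤ,
      L * x * y * z ≠ 0 → (∀ r : ℕ, r.Prime → (r : ℤ) ∣ L → r ∈ S) →
      x ^ n + y ^ n + L * z ^ n ≠ 0 := by
  obtain ⟨C₀, hC⟩ := fermat_sUnit_criterion hS hrel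
  exact fermat_pure_of_coprime h2 ⟨C₀, fun n p hp hpC hpn A B C x y z h1 h3 h4 h5 h6 =>
    hC n p hp hpC hpn A B C x y z h1 h3 h4 h5 ((show (16 : ℤ) ∣ 32 by norm_num).trans h6)⟩

/-- **`x ^ n + y ^ n + L z ^ n` for any number of primes**: for a finite set `S` of primes
`≡ 1, 19 (mod 24)`, nonzero `x, y, z` and `L` with all prime divisors in `S` it is not zero when
`n` has a prime factor beyond a bound depending on `S`. -/
theorem fermat_manyPrimes {S : Finset ℕ} (hS : ∀ q ∈ S, q.Prime)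
    (h24 : ∀ q ∈ S, q % 24 = 1 ∨ q % 24 = 19) :
    ∃ C₀ : ℕ, ∀ n p : ℕ, p.Prime → C₀ < p → p ∣ n → ∀ L x y z : ℤ,
      L * x * y * z ≠ 0 → (∀ r : ℕ, r.Prime → (r : ℤ) ∣ L → r ∈ S) →
      x ^ n + y ^ n + L * z ^ n ≠ 0 :=
  fermat_sUnit_pure hS (fun h => by have := h24 2 h; omega) (noSUnitTriple_twentyFour h24)

/-- There are such sets of every size in either class. -/
theorem fermat_manyPrimes_sets (k : ℕ) :
    (∃ S : Finset ℕ, S.card = k ∧ ∀ q ∈ S, q.Prime ∧ q % 24 = 1) ∧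
      ∃ S : Finset ℕ, S.card = k ∧ ∀ q ∈ S, q.Prime ∧ q % 24 = 19 := by
  constructor
  · obtain ⟨S, hS, hk⟩ := (Nat.infinite_setOfPred_prime_and_eq_mod (q := 24) (a := 1)
      (by decide)).exists_subset_card_eq k
    exact ⟨S, hk, fun q hq => ⟨(hS hq).1, (ZMod.natCast_eq_natCast_iff' q 1 24).mp
      (by exact_mod_cast (hS hq).2)⟩⟩
  · obtain ⟨S, hS, hk⟩ := (Nat.infinite_setOfPred_prime_and_eq_mod (q := 24) (a := 19)
      (by decide)).exists_subset_card_eq k
    exact ⟨S, hk, fun q hq => ⟨(hS hq).1, (ZMod.natCast_eq_natCast_iff' q 19 24).mp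
      (by exact_mod_cast (hS hq).2)⟩⟩

/-- An instance with five primes: `x ^ n + y ^ n ± 19 ^ a 43 ^ b 67 ^ c 73 ^ d 97 ^ e z ^ n`. -/
theorem fermat_fivePrimes :
    ∃ C₀ : ℕ, ∀ n p : ℕ, p.Prime → C₀ < p → p ∣ n → ∀ L x y z : ℤ,
      L * x * y * z ≠ 0 →
      (∀ r : ℕ, r.Prime → (r : ℤ) ∣ L → r ∈ ({19, 43, 67, 73, 97} : Finset ℕ)) →
      x ^ n + y ^ n + L * z ^ n ≠ 0 :=
  fermat_manyPrimes (by simp only [Finset.mem_insert, Finset.mem_singleton]
                        rintro q (rfl | rfl | rfl | rfl | rfl) <;> norm_num)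
    (by simp only [Finset.mem_insert, Finset.mem_singleton]
        rintro q (rfl | rfl | rfl | rfl | rfl) <;> norm_num)

end FA.Summary

end
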