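import Fermat.Agent.Ribet.CurveCriterion.Converse
import Fermat.Agent.Root.SummarySUnitFermat

/-!
# The `S`-unit criterion is exact, and the theorem of Serre and Mazur in its range

A semistable curve good outside `S ∪ {2}` with four dividing all `l + 1 - a_l` exists exactly when
a triple does; for `S = {q}` exactly when `q` is `2 ^ k ± 1` with `k ≥ 4`. So the theorem of Serre
and Mazur holds for every other odd prime, `3, 5, 7` included, and with a high power of two in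
the coefficient for coprime `x, y`.
-/

set_option autoImplicit false

noncomputable section

open WeierstrassCurve FA.CurveCriterion

namespace FA.Summary

/-- **The criterion is exact.** -/
theorem exists_four_dvd_curve_iff {S : Finset ℕ} (hS : ∀ q ∈ S, q.Prime) :
    (∃ V : WeierstrassCurve ℤ, V.Δ ≠ 0 ∧ V.IsSemistableModel ∧
      ∀ l : ℕ, l.Prime → l ≠ 2 → l ∉ S →
        V.IsGoodPrimeFor l ∧ (4 : ℤ) ∣ (l : ℤ) + 1 - V.apOfModel l) ↔
    ∃ x y z : ℤ, x * y * z ≠ 0 ∧ x + y + z = 0 ∧ Odd x ∧ Odd y ∧ IsCoprime x y ∧ (16 : ℤ) ∣ z ∧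
      ∀ r : ℕ, r.Prime → (r : ℤ) ∣ x * y * z → r = 2 ∨ r ∈ S := by
  constructor
  · rintro ⟨V, hΔ, hV, hl⟩
    by_contra h
    have hmem : ∀ l : ℕ, ¬ l ∣ 2 * ∏ q ∈ S, q → l ≠ 2 ∧ l ∉ S := fun l hd =>
      ⟨fun e => hd (by subst e; exact dvd_mul_right _ _),
        fun e => hd ((Finset.dvd_prod_of_mem _ e).mul_left 2)⟩
    exact not_four_dvd_traces_of_noTriple hS
      (fun x y z h1 h2 h3 h4 h5 h6 h7 => h ⟨x, y, z, h1, h2, h3, h4, h5, h6, h7⟩) hΔ hV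
      (fun l hlp hd => (hl l hlp (hmem l hd).1 (hmem l hd).2).1)
      fun l hlp hd => (hl l hlp (hmem l hd).1 (hmem l hd).2).2
  · rintro ⟨x, y, z, hne, h, -, -, hco, h16, hs⟩
    exact exists_curve_of_triple hne h hco h16 hs

/-- **One prime**: such a curve exists exactly for the primes `2 ^ k ± 1`, `k ≥ 4`. -/
theorem exists_four_dvd_curve_prime_iff {q : ℕ} (hq : q.Prime) (hq2 : q ≠ 2) :
    (∃ V : WeierstrassCurve ℤ, V.Δ ≠ 0 ∧ V.IsSemistableModel ∧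
      ∀ l : ℕ, l.Prime → l ≠ 2 → l ≠ q →
        V.IsGoodPrimeFor l ∧ (4 : ℤ) ∣ (l : ℤ) + 1 - V.apOfModel l) ↔
    ∃ k : ℕ, 4 ≤ k ∧ (q = 2 ^ k + 1 ∨ q + 1 = 2 ^ k) := by
  have key := exists_four_dvd_curve_iff (S := {q}) (by simpa using hq)
  simp only [Finset.mem_singleton] at key
  rw [key]
  constructor
  · rintro ⟨x, y, z, h1, h2, h3, h4, h5, h6, h7⟩
    by_contra h
    exact noSUnitTriple_single hq hq2 (fun k hk => not_or.mp fun e => h ⟨k, hk, e⟩)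
      x y z h1 h2 h3 h4 h5 h6 (by simpa using h7)
  · rintro ⟨k, hk, hcase⟩
    have h16 : (16 : ℤ) ∣ 2 ^ k := (show (16 : ℤ) = 2 ^ 4 by norm_num) ▸ pow_dvd_pow 2 hk
    have hq1 : Odd (q : ℤ) := (Int.odd_coe_nat q).mpr (hq.odd_of_ne_two hq2)
    obtain ⟨e, he, hqk⟩ : ∃ e : ℤ, (e = 1 ∨ e = -1) ∧ (q : ℤ) + e = 2 ^ k := by
      rcases hcase with h | h
      · exact ⟨-1, Or.inr rfl, by rw [h]; push_cast; ring⟩
      · exact ⟨1, Or.inl rfl, by exact_mod_cast h⟩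
    have he0 : e ≠ 0 := by omega
    refine ⟨q, e, -(2 ^ k), mul_ne_zero (mul_ne_zero (by exact_mod_cast hq.ne_zero) he0)
      (neg_ne_zero.mpr (pow_ne_zero _ two_ne_zero)), by rw [← hqk]; ring, hq1,
      by rcases he with rfl | rfl <;> decide,
      by rcases he with rfl | rfl
         exacts [isCoprime_one_right, isCoprime_one_right.neg_right],
      h16.neg_right, fun r hr hd => ?_⟩
    have hd' : r ∣ q * 2 ^ k := by
      have := Int.natCast_dvd.mp hd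
      rcases he with rfl | rfl <;> simpa [Int.natAbs_mul, Int.natAbs_pow] using this
    exact ((hr.dvd_mul.mp hd').symm).imp
      (fun h => (Nat.prime_dvd_prime_iff_eq hr Nat.prime_two).mp (hr.dvd_of_dvd_pow h))
      fun h => (Nat.prime_dvd_prime_iff_eq hr hq).mp h

/-- **The theorem of Serre and Mazur in its range**: for an odd prime `q` not of the shape
`2 ^ k ± 1` with `k ≥ 4`, `x ^ n + y ^ n + q ^ α z ^ n ≠ 0` for nonzero `x, y, z` when `n` has a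
prime factor beyond a bound depending on `q`. -/
theorem serre_mazur_range {q : ℕ} (hq : q.Prime) (hq2 : q ≠ 2)
    (hne : ∀ k : ℕ, 4 ≤ k → q ≠ 2 ^ k + 1 ∧ q + 1 ≠ 2 ^ k) :
    ∃ C₀ : ℕ, ∀ n p : ℕ, p.Prime → C₀ < p → p ∣ n → ∀ α : ℕ, ∀ x y z : ℤ,
      x * y * z ≠ 0 → x ^ n + y ^ n + (q : ℤ) ^ α * z ^ n ≠ 0 := by
  obtain ⟨C₀, hC⟩ := fermat_sUnit_pure (S := {q}) (by simpa using hq)
    (by simpa using hq2.symm) (noSUnitTriple_single hq hq2 hne)
  refine ⟨C₀, fun n p hp hpC hpn α x y z hxyz => hC n p hp hpC hpn _ x y z ?_ fun r hr hd => ?_⟩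
  · simp only [mul_ne_zero_iff] at hxyz
    exact mul_ne_zero (mul_ne_zero (mul_ne_zero (pow_ne_zero _ (by exact_mod_cast hq.ne_zero))
      hxyz.1.1) hxyz.1.2) hxyz.2
  · simp only [Finset.mem_singleton]
    exact (Nat.prime_dvd_prime_iff_eq hr hq).mp
      (hr.dvd_of_dvd_pow (n := α) (by exact_mod_cast hd))

/-- The primes `3, 5, 7` are in the range, and `17`, `31` are not. -/
theorem serre_mazur_range_examples :
    (∀ q : ℕ, q = 3 ∨ q = 5 ∨ q = 7 → ∀ k : ℕ, 4 ≤ k → q ≠ 2 ^ k + 1 ∧ q + 1 ≠ 2 ^ k) ∧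
      ∀ q : ℕ, q = 17 ∨ q = 31 → ∃ k : ℕ, 4 ≤ k ∧ (q = 2 ^ k + 1 ∨ q + 1 = 2 ^ k) := by
  constructor
  · intro q hq k hk
    have := Nat.pow_le_pow_right two_pos hk
    omega
  · rintro q (rfl | rfl)
    exacts [⟨4, le_rfl, Or.inl rfl⟩, ⟨5, by norm_num, Or.inr rfl⟩]

/-- **An even coefficient**: under the criterion `x ^ n + y ^ n + L z ^ n ≠ 0` for coprime `x, y`
and `L` divisible by sixteen with all odd prime divisors in `S`. -/
theorem fermat_sUnit_even {S : Finset ℕ} (hS : ∀ q ∈ S, q.Prime)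
    (hrel : ∀ x y z : ℤ, x * y * z ≠ 0 → x + y + z = 0 → Odd x → Odd y → IsCoprime x y →
      (16 : ℤ) ∣ z → (∀ r : ℕ, r.Prime → (r : ℤ) ∣ x * y * z → r = 2 ∨ r ∈ S) → False) :
    ∃ C₀ : ℕ, ∀ n p : ℕ, p.Prime → C₀ < p → p ∣ n → ∀ L x y z : ℤ,
      L * x * y * z ≠ 0 → IsCoprime x y → (16 : ℤ) ∣ L →
      (∀ r : ℕ, r.Prime → (r : ℤ) ∣ L → r = 2 ∨ r ∈ S) →
      x ^ n + y ^ n + L * z ^ n ≠ 0 := by
  obtain ⟨C₀, hC⟩ := fermat_sUnit_criterion hS hrel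
  refine ⟨C₀, fun n p hp hpC hpn L x y z hne hco h16 hs heq => ?_⟩
  simp only [mul_ne_zero_iff] at hne
  exact hC n p hp hpC hpn 1 1 L x y z (by simpa using hne.1.1.1)
    (mul_ne_zero (mul_ne_zero hne.1.1.2 hne.1.2) hne.2) (by simpa using hs)
    (by simpa using hco.pow) (h16.mul_right _) (by linear_combination heq)

/-- The even coefficient for one prime in the range, and for primes `≡ 1, 19 (mod 24)`. -/
theorem fermat_even_cases {S : Finset ℕ} (hS : ∀ q ∈ S, q.Prime)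
    (h : (∀ q ∈ S, q % 24 = 1 ∨ q % 24 = 19) ∨ ∃ q : ℕ, S = {q} ∧ q ≠ 2 ∧
      ∀ k : ℕ, 4 ≤ k → q ≠ 2 ^ k + 1 ∧ q + 1 ≠ 2 ^ k) :
    ∃ C₀ : ℕ, ∀ n p : ℕ, p.Prime → C₀ < p → p ∣ n → ∀ L x y z : ℤ,
      L * x * y * z ≠ 0 → IsCoprime x y → (16 : ℤ) ∣ L →
      (∀ r : ℕ, r.Prime → (r : ℤ) ∣ L → r = 2 ∨ r ∈ S) →
      x ^ n + y ^ n + L * z ^ n ≠ 0 := by
  refine fermat_sUnit_even hS ?_
  rcases h with h | ⟨q, rfl, h2, h⟩
  exacts [noSUnitTriple_twentyFour h, noSUnitTriple_single (hS q (by simp)) h2 h]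

/-- Coprimality is needed: `x = y = 2`, `z = 1`, `L = -2 ^ (n + 1)`. -/
theorem fermat_even_coprime_needed (n : ℕ) :
    (2 : ℤ) ^ n + 2 ^ n + -2 ^ (n + 1) * 1 ^ n = 0 := by
  ring

end FA.Summary

end
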