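import Fermat.Agent.Ribet.CurveCriterion.ExactPrimes
import Fermat.Agent.Root.SummarySerreMazurSharp

/-!
# The exact bad primes of a solution: the prime `17`, and small prime factors

For large exponents the curve of a solution of `A x ^ n + B y ^ n + C z ^ n = 0` is congruent to
one with the same bad primes up to any bound. With `32 ∣ C z ^ n` that curve is bad at two, which
settles `x ^ n + y ^ n + 17 ^ a z ^ n = 0`; and in every case no small prime outside the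
coefficients divides `x y z`.
-/

set_option autoImplicit false

noncomputable section

open WeierstrassCurve FA.CurveCriterion

namespace FA.Summary

/-- **The criterion with exact bad primes**: beyond a bound depending on `M`, `T` and `B` the curve
of the criterion has at each prime up to `B` good reduction exactly when the original one has. -/
theorem asymptotic_lowering_curve_exact {M : ℕ} (hM : M ≠ 0) (T : ℕ → Set ℤ) (B : ℕ) :
    ∃ C : ℕ, ∀ p : ℕ, p.Prime → C < p → ∀ W : WeierstrassCurve ℤ, W.Δ ≠ 0 → W.IsSemistableModel →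
      (∀ r : ℕ, r.Prime → (r : ℤ) ∣ W.Δ → ¬ r ∣ M → p ∣ padicValInt r W.Δ) →
      (∀ l : ℕ, l.Prime → ¬ l ∣ M → W.IsGoodPrimeFor l → W.apOfModel l ∈ T l) →
      ∃ V : WeierstrassCurve ℤ, V.Δ ≠ 0 ∧ V.IsSemistableModel ∧
        (∀ l : ℕ, l.Prime → ¬ l ∣ M → V.IsGoodPrimeFor l ∧ V.apOfModel l ∈ T l) ∧
        ∀ l : ℕ, l.Prime → l ≤ B → (V.IsGoodPrimeFor l ↔ W.IsGoodPrimeFor l) :=
  exists_bound_curve_exact hM T B

/-- **The criterion with `32 ∣ C z ^ n`**: only triples with `32 ∣ z` are an obstruction. -/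
theorem fermat_sUnit_criterion_two {S : Finset ℕ} (hS : ∀ q ∈ S, q.Prime)
    (hrel : ∀ x y z : ℤ, x * y * z ≠ 0 → x + y + z = 0 → Odd x → Odd y → IsCoprime x y →
      (32 : ℤ) ∣ z → (∀ r : ℕ, r.Prime → (r : ℤ) ∣ x * y * z → r = 2 ∨ r ∈ S) → False) :
    ∃ C₀ : ℕ, ∀ n p : ℕ, p.Prime → C₀ < p → p ∣ n → ∀ A B C x y z : ℤ,
      A * B * C ≠ 0 → x * y * z ≠ 0 →
      (∀ r : ℕ, r.Prime → (r : ℤ) ∣ A * B * C → r = 2 ∨ r ∈ S) →
      IsCoprime (A * x ^ n) (B * y ^ n) → (32 : ℤ) ∣ C * z ^ n →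
      A * x ^ n + B * y ^ n + C * z ^ n ≠ 0 := by
  have hM : 2 * ∏ q ∈ S, q ≠ 0 :=
    mul_ne_zero two_ne_zero (Finset.prod_ne_zero_iff.mpr fun q hq => (hS q hq).ne_zero)
  obtain ⟨C₀, hC⟩ := exists_bound_curve_exact hM (fun l => {t : ℤ | (4 : ℤ) ∣ (l : ℤ) + 1 - t}) 2
  refine ⟨C₀, fun n p hp hpC hpn A B C x y z hne hxyz hs hcop h32 heq => ?_⟩
  have hsM : ∀ r : ℕ, r.Prime → (r : ℤ) ∣ A * B * C → r ∣ 2 * ∏ q ∈ S, q := fun r hr hd => by
    rcases hs r hr hd with rfl | h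
    exacts [dvd_mul_right 2 _, (Finset.dvd_prod_of_mem _ h).mul_left 2]
  obtain ⟨W, hΔ, hW, hd, hdiv, hT⟩ := exists_fermatCurve_discr hp hpn (dvd_mul_right 2 _) hne hxyz
    hsM hcop ((show (16 : ℤ) ∣ 32 by norm_num).trans h32) heq
  obtain ⟨V, hVΔ, hV, hl, hB⟩ := hC p hp hpC W hΔ hW hdiv hT
  have hW2 : (2 : ℤ) ∣ W.Δ := by
    obtain ⟨c, hc⟩ := h32.mul_left (A * x ^ n * (B * y ^ n))
    have e : 256 * W.Δ = 1024 * c ^ 2 := by
      rw [hd, show A * B * C * (x * y * z) ^ n = A * x ^ n * (B * y ^ n) * (C * z ^ n) by ring, hc]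
      ring
    exact ⟨2 * c ^ 2, by linarith⟩
  have hV2 : (2 : ℤ) ∣ V.Δ := by
    by_contra h
    exact ((hB 2 Nat.prime_two le_rfl).mp h) hW2
  exact not_four_dvd_traces_of_noTriple_two hS hrel hVΔ hV hV2
    (fun l h1 h2 => (hl l h1 h2).1) fun l h1 h2 => (hl l h1 h2).2

/-- **The theorem of Serre and Mazur for `q ≠ 2 ^ k ± 1`, `k ≥ 5`**, so for `17` as well. -/
theorem serre_mazur_range_five {q : ℕ} (hq : q.Prime) (hq2 : q ≠ 2)
    (hne : ∀ k : ℕ, 5 ≤ k → q ≠ 2 ^ k + 1 ∧ q + 1 ≠ 2 ^ k) :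
    ∃ C₀ : ℕ, ∀ n p : ℕ, p.Prime → C₀ < p → p ∣ n → ∀ α : ℕ, ∀ x y z : ℤ,
      x * y * z ≠ 0 → x ^ n + y ^ n + (q : ℤ) ^ α * z ^ n ≠ 0 := by
  obtain ⟨C₀, hC⟩ := fermat_pure_of_coprime (S := {q}) (by simpa using hq2.symm)
    (fermat_sUnit_criterion_two (by simpa using hq) fun x y z h1 h2 h3 h4 h5 h6 h7 =>
      noTriple_single_pow hq hq2 (j := 5) (by norm_num) hne h1 h2 h3 h4 h5 (by simpa using h6) h7)
  refine ⟨C₀, fun n p hp hpC hpn α x y z hxyz => hC n p hp hpC hpn _ x y z ?_ fun r hr hd => ?_⟩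
  · simp only [mul_ne_zero_iff] at hxyz
    exact mul_ne_zero (mul_ne_zero (mul_ne_zero (pow_ne_zero _ (by exact_mod_cast hq.ne_zero))
      hxyz.1.1) hxyz.1.2) hxyz.2
  · simp only [Finset.mem_singleton]
    exact (Nat.prime_dvd_prime_iff_eq hr hq).mp
      (hr.dvd_of_dvd_pow (n := α) (by exact_mod_cast hd))

/-- **The prime `17`**, where curves with four dividing all `l + 1 - a_l` exist. -/
theorem serre_mazur_seventeen :
    ∃ C₀ : ℕ, ∀ n p : ℕ, p.Prime → C₀ < p → p ∣ n → ∀ α : ℕ, ∀ x y z : ℤ,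
      x * y * z ≠ 0 → x ^ n + y ^ n + (17 : ℤ) ^ α * z ^ n ≠ 0 := by
  obtain ⟨C, hC⟩ := serre_mazur_range_five (q := 17) (by norm_num) (by norm_num) fun k hk => by
    have := Nat.pow_le_pow_right two_pos hk
    omega
  exact ⟨C, fun n p hp hpC hpn α x y z h => by exact_mod_cast hC n p hp hpC hpn α x y z h⟩

/-- **No small prime factors**: for every finite set `S` of primes and every `B`, in a solution of
`A x ^ n + B y ^ n + C z ^ n = 0` with coefficients supported on `S ∪ {2}`, coprime terms,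
`16 ∣ C z ^ n` and `n ≠ 0` with a large prime factor, no prime `≤ B` outside `S ∪ {2}` divides
`x y z`. -/
theorem fermat_no_small_factor {S : Finset ℕ} (hS : ∀ q ∈ S, q.Prime) (N : ℕ) :
    ∃ C₀ : ℕ, ∀ n p : ℕ, p.Prime → C₀ < p → p ∣ n → n ≠ 0 → ∀ A B C x y z : ℤ,
      A * B * C ≠ 0 → x * y * z ≠ 0 →
      (∀ r : ℕ, r.Prime → (r : ℤ) ∣ A * B * C → r = 2 ∨ r ∈ S) →
      IsCoprime (A * x ^ n) (B * y ^ n) → (16 : ℤ) ∣ C * z ^ n →
      A * x ^ n + B * y ^ n + C * z ^ n = 0 →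
      ∀ l : ℕ, l.Prime → l ≤ N → l ≠ 2 → l ∉ S → ¬ (l : ℤ) ∣ x * y * z := by
  have hM : 2 * ∏ q ∈ S, q ≠ 0 :=
    mul_ne_zero two_ne_zero (Finset.prod_ne_zero_iff.mpr fun q hq => (hS q hq).ne_zero)
  obtain ⟨C₀, hC⟩ := exists_bound_curve_exact hM (fun l => {t : ℤ | (4 : ℤ) ∣ (l : ℤ) + 1 - t}) N
  refine ⟨C₀, fun n p hp hpC hpn hn A B C x y z hne hxyz hs hcop h16 heq l hl hlN hl2 hlS hlx => ?_⟩
  have hsM : ∀ r : ℕ, r.Prime → (r : ℤ) ∣ A * B * C → r ∣ 2 * ∏ q ∈ S, q := fun r hr hd => by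
    rcases hs r hr hd with rfl | h
    exacts [dvd_mul_right 2 _, (Finset.dvd_prod_of_mem _ h).mul_left 2]
  obtain ⟨W, hΔ, hW, hd, hdiv, hT⟩ :=
    exists_fermatCurve_discr hp hpn (dvd_mul_right 2 _) hne hxyz hsM hcop h16 heq
  obtain ⟨V, -, -, hV, hB⟩ := hC p hp hpC W hΔ hW hdiv hT
  have hlM : ¬ l ∣ 2 * ∏ q ∈ S, q := fun h => by
    rcases hl.dvd_mul.mp h with h' | h'
    · exact hl2 ((Nat.prime_dvd_prime_iff_eq hl Nat.prime_two).mp h')
    · obtain ⟨q, hq, hlq⟩ := hl.prime.exists_mem_finset_dvd h'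
      exact hlS ((Nat.prime_dvd_prime_iff_eq hl (hS q hq)).mp hlq ▸ hq)
  refine (hB l hl hlN).mp (hV l hl hlM).1 ?_
  have hdvd : (l : ℤ) ∣ 256 * W.Δ := by
    rw [hd]
    exact dvd_pow ((dvd_pow hlx hn).mul_left _) two_ne_zero
  refine ((Nat.prime_iff_prime_int.mp hl).dvd_or_dvd hdvd).resolve_left fun h => hl2 ?_
  exact (Nat.prime_dvd_prime_iff_eq hl Nat.prime_two).mp
    (hl.dvd_of_dvd_pow (n := 8) (by exact_mod_cast h))

end FA.Summary

end
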