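import Fermat.Agent.Ribet.CurveCriterion.AuxiliaryPrime
import Fermat.Agent.Ribet.CurveCriterion.OddCoefficients
import Fermat.Agent.Root.SummarySeventeen

/-!
# Auxiliary primes: Fermat's equation with any odd coefficients

For all odd `A, B, C` and a prime factor of `n` that is large, no small prime outside `A B C`
divides `x y z` in a primitive solution of `A x ^ n + B y ^ n + C z ^ n = 0`. With a prime `l` not
dividing `A B C (A + B + C)` this leaves no solution at all when `l - 1 ∣ n`; and none when the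
large prime factor `p` has `2 p + 1` prime. No hypothesis on the coefficients beyond oddness.
-/

set_option autoImplicit false

noncomputable section

open FA.CurveCriterion

namespace FA.Summary

/-- A solution gives one without common prime factor. -/
theorem exists_primitive_solution {n : ℕ} {A B C x y z : ℤ} (hxyz : x * y * z ≠ 0)
    (h : A * x ^ n + B * y ^ n + C * z ^ n = 0) :
    ∃ x' y' z' : ℤ, x' * y' * z' ≠ 0 ∧ A * x' ^ n + B * y' ^ n + C * z' ^ n = 0 ∧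
      ∀ r : ℕ, r.Prime → ¬ ((r : ℤ) ∣ x' ∧ (r : ℤ) ∣ y' ∧ (r : ℤ) ∣ z') := by
  induction hN : x.natAbs using Nat.strong_induction_on generalizing x y z with
  | _ N ih =>
    by_cases hc : ∃ r : ℕ, r.Prime ∧ (r : ℤ) ∣ x ∧ (r : ℤ) ∣ y ∧ (r : ℤ) ∣ z
    · obtain ⟨r, hr, ⟨x₁, rfl⟩, ⟨y₁, rfl⟩, ⟨z₁, rfl⟩⟩ := hc
      simp only [mul_ne_zero_iff] at hxyz
      refine ih x₁.natAbs ?_ (mul_ne_zero (mul_ne_zero hxyz.1.1.2 hxyz.1.2.2) hxyz.2.2) ?_ rfl
      · rw [← hN, Int.natAbs_mul, Int.natAbs_natCast]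
        exact lt_mul_of_one_lt_left (Int.natAbs_pos.mpr hxyz.1.1.2) hr.one_lt
      · exact (mul_eq_zero.mp (show (r : ℤ) ^ n * (A * x₁ ^ n + B * y₁ ^ n + C * z₁ ^ n) = 0 by
          linear_combination h)).resolve_left (pow_ne_zero _ (by exact_mod_cast hr.ne_zero))
    · exact ⟨x, y, z, hxyz, h, fun r hr hh => hc ⟨r, hr, hh⟩⟩

/-- The reduced equation of a primitive solution still has the prime `l`. -/
theorem exists_reduced_with_prime {A B C x y z : ℤ} {n l : ℕ} (h5 : 5 ≤ n) (hA : Odd A)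
    (hB : Odd B) (hC : Odd C) (hl : l.Prime) (hl2 : l ≠ 2) (hlABC : ¬ (l : ℤ) ∣ A * B * C)
    (hxyz : x * y * z ≠ 0) (heq : A * x ^ n + B * y ^ n + C * z ^ n = 0)
    (hprim : ∀ r : ℕ, r.Prime → ¬ ((r : ℤ) ∣ x ∧ (r : ℤ) ∣ y ∧ (r : ℤ) ∣ z))
    (hlx : (l : ℤ) ∣ x * y * z) :
    ∃ A' B' C' x' y' z' : ℤ, A' * B' * C' ≠ 0 ∧ x' * y' * z' ≠ 0 ∧
      (∀ r : ℕ, r.Prime → (r : ℤ) ∣ A' * B' * C' → r = 2 ∨ r ∈ (A * B * C).natAbs.primeFactors) ∧
      IsCoprime (A' * x' ^ n) (B' * y' ^ n) ∧ (16 : ℤ) ∣ C' * z' ^ n ∧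
      A' * x' ^ n + B' * y' ^ n + C' * z' ^ n = 0 ∧ (l : ℤ) ∣ x' * y' * z' := by
  have hodd : Odd (A * B * C) := (hA.mul hB).mul hC
  have h0 : A * B * C ≠ 0 := fun e => by rw [e] at hodd; exact absurd hodd (by decide)
  have h2 : 2 ∉ (A * B * C).natAbs.primeFactors := fun h =>
    Int.not_even_iff_odd.mpr hodd (even_iff_two_dvd.mpr
      (Int.natCast_dvd.mpr (Nat.dvd_of_mem_primeFactors h)))
  have hterm : ∀ {M w : ℤ}, M ∣ A * B * C → Odd M →
      IsOddSTerm (A * B * C).natAbs.primeFactors n (M * w ^ n) := fun hd ho =>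
    ⟨_, _, rfl, ho, fun r hr h => Nat.mem_primeFactors.mpr
      ⟨hr, Int.natCast_dvd.mp (h.trans hd), Int.natAbs_ne_zero.mpr h0⟩⟩
  simp only [mul_ne_zero_iff] at hxyz h0
  have hne : A * x ^ n * (B * y ^ n) * (C * z ^ n) ≠ 0 :=
    mul_ne_zero (mul_ne_zero (mul_ne_zero h0.1.1 (pow_ne_zero n hxyz.1.1))
      (mul_ne_zero h0.1.2 (pow_ne_zero n hxyz.1.2))) (mul_ne_zero h0.2 (pow_ne_zero n hxyz.2))
  obtain ⟨A', B', C', x', y', z', k, a1, a2, a3, a4, a5, a6, a7, hk1, hk2⟩ :=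
    exists_coprime_oddSTerms h2 h5 (hterm ((dvd_mul_right A B).mul_right C) hA (w := x))
      (hterm ((dvd_mul_left B A).mul_right C) hB (w := y))
      (hterm (dvd_mul_left C (A * B)) hC (w := z)) hne heq
  refine ⟨A', B', C', x', y', z', a1, a2, a3, a4, (show (16 : ℤ) ∣ 32 by norm_num).trans a5, a6, ?_⟩
  have hp := Nat.prime_iff_prime_int.mp hl
  have hn : n ≠ 0 := by omega
  have hk : ¬ (l : ℤ) ∣ k := fun h => by
    have hx : (l : ℤ) ∣ x := hp.dvd_of_dvd_pow ((hp.dvd_or_dvd (h.trans hk1)).resolve_left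
      fun e => hlABC ((e.mul_right B).mul_right C))
    have hy : (l : ℤ) ∣ y := hp.dvd_of_dvd_pow ((hp.dvd_or_dvd (h.trans hk2)).resolve_left
      fun e => hlABC ((e.mul_left A).mul_right C))
    refine hprim l hl ⟨hx, hy, hp.dvd_of_dvd_pow ((hp.dvd_or_dvd (a := C) (b := z ^ n) ?_)
      |>.resolve_left fun e => hlABC (e.mul_left _))⟩
    rw [show C * z ^ n = -(A * x ^ n + B * y ^ n) by linarith]
    exact (((dvd_pow hx hn).mul_left A).add ((dvd_pow hy hn).mul_left B)).neg_right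
  have hd : (l : ℤ) ∣ A * x ^ n * (B * y ^ n) * (C * z ^ n) := by
    rw [show A * x ^ n * (B * y ^ n) * (C * z ^ n) = A * B * C * (x * y * z) ^ n by ring]
    exact (dvd_pow hlx hn).mul_left _
  rw [← a7] at hd
  have hd' : (l : ℤ) ∣ A' * B' * C' * (x' * y' * z') ^ n := by
    rw [show A' * B' * C' * (x' * y' * z') ^ n = A' * x' ^ n * (B' * y' ^ n) * (C' * z' ^ n) by
        ring]
    exact (hp.dvd_or_dvd hd).resolve_left fun e => hk (hp.dvd_of_dvd_pow e)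
  refine hp.dvd_of_dvd_pow ((hp.dvd_or_dvd hd').resolve_left fun e => ?_)
  rcases a3 l hl e with h | h
  · exact hl2 h
  · exact hlABC (Int.natCast_dvd.mpr (Nat.dvd_of_mem_primeFactors h))

/-- **No small prime factors, for any odd coefficients and any common factors among them.** -/
theorem fermat_odd_no_small_factor {A B C : ℤ} (hA : Odd A) (hB : Odd B) (hC : Odd C) (N : ℕ) :
    ∃ C₀ : ℕ, ∀ n p : ℕ, p.Prime → C₀ < p → p ∣ n → n ≠ 0 → ∀ x y z : ℤ,
      x * y * z ≠ 0 → A * x ^ n + B * y ^ n + C * z ^ n = 0 →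
      (∀ r : ℕ, r.Prime → ¬ ((r : ℤ) ∣ x ∧ (r : ℤ) ∣ y ∧ (r : ℤ) ∣ z)) →
      ∀ l : ℕ, l.Prime → l ≤ N → l ≠ 2 → ¬ (l : ℤ) ∣ A * B * C → ¬ (l : ℤ) ∣ x * y * z := by
  obtain ⟨C₀, hC₀⟩ := fermat_no_small_factor (S := (A * B * C).natAbs.primeFactors)
    (fun q hq => Nat.prime_of_mem_primeFactors hq) N
  refine ⟨max C₀ 5, fun n p hp hpC hpn hn x y z hxyz heq hprim l hl hlN hl2 hlABC hlx => ?_⟩
  simp only [max_lt_iff] at hpC
  have h5 : 5 ≤ n := le_trans (le_of_lt hpC.2) (Nat.le_of_dvd (by omega) hpn)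
  obtain ⟨A', B', C', x', y', z', a1, a2, a3, a4, a5, a6, a7⟩ :=
    exists_reduced_with_prime h5 hA hB hC hl hl2 hlABC hxyz heq hprim hlx
  exact hC₀ n p hp hpC.1 hpn hn A' B' C' x' y' z' a1 a2 a3 a4 a5 a6 l hl hlN hl2
    (fun h => hlABC (Int.natCast_dvd.mpr (Nat.dvd_of_mem_primeFactors h))) a7

/-- **Exponents divisible by `l - 1`**: with an odd prime `l` not dividing `A B C (A + B + C)` there
is no solution in nonzero integers when `l - 1 ∣ n` and `n` has a large prime factor. -/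
theorem fermat_odd_auxiliary {A B C : ℤ} (hA : Odd A) (hB : Odd B) (hC : Odd C) {l : ℕ}
    (hl : l.Prime) (hl2 : l ≠ 2) (hlABC : ¬ (l : ℤ) ∣ A * B * C * (A + B + C)) :
    ∃ C₀ : ℕ, ∀ n p : ℕ, p.Prime → C₀ < p → p ∣ n → l - 1 ∣ n → ∀ x y z : ℤ,
      x * y * z ≠ 0 → A * x ^ n + B * y ^ n + C * z ^ n ≠ 0 := by
  obtain ⟨C₀, hC₀⟩ := fermat_odd_no_small_factor hA hB hC l
  refine ⟨C₀, fun n p hp hpC hpn hln x y z hxyz heq => ?_⟩
  have hsum : Odd (A + B + C) := (hA.add_odd hB).add_odd hC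
  rcases eq_or_ne n 0 with rfl | hn
  · simp only [pow_zero, mul_one] at heq
    rw [heq] at hsum
    exact absurd hsum (by decide)
  obtain ⟨x', y', z', hne, h, hprim⟩ := exists_primitive_solution hxyz heq
  have hnd := hC₀ n p hp hpC hpn hn x' y' z' hne h hprim l hl le_rfl hl2
    fun e => hlABC (e.mul_right _)
  have := Fact.mk hl
  have hone : ∀ t : ℤ, t ∣ x' * y' * z' → (t : ZMod l) ^ n = 1 := fun t ht => by
    obtain ⟨m, rfl⟩ := hln
    rw [pow_mul, ZMod.pow_card_sub_one_eq_one fun e =>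
      hnd (((ZMod.intCast_zmod_eq_zero_iff_dvd t l).mp e).trans ht), one_pow]
  refine hlABC (Dvd.dvd.mul_left ?_ _)
  rw [← ZMod.intCast_zmod_eq_zero_iff_dvd]
  have e := congrArg (Int.cast : ℤ → ZMod l) h
  push_cast at e ⊢
  rw [hone x' ((dvd_mul_right x' y').mul_right z'), hone y' ((dvd_mul_left y' x').mul_right z'),
    hone z' (dvd_mul_left z' _), mul_one, mul_one, mul_one] at e
  exact e

/-- **Exponents `2 p`** when `3 ∤ A B C (A + B + C)`. -/
theorem fermat_odd_two_mul_prime {A B C : ℤ} (hA : Odd A) (hB : Odd B) (hC : Odd C)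
    (h3 : ¬ (3 : ℤ) ∣ A * B * C * (A + B + C)) :
    ∃ C₀ : ℕ, ∀ p : ℕ, p.Prime → C₀ < p → ∀ x y z : ℤ,
      x * y * z ≠ 0 → A * x ^ (2 * p) + B * y ^ (2 * p) + C * z ^ (2 * p) ≠ 0 := by
  obtain ⟨C₀, h⟩ := fermat_odd_auxiliary hA hB hC Nat.prime_three (by norm_num)
    (by exact_mod_cast h3)
  exact ⟨C₀, fun p hp hpC => h (2 * p) p hp hpC (dvd_mul_left p 2) (dvd_mul_right 2 p)⟩

/-- **Every triple of odd coefficients has such exponents.** -/
theorem fermat_odd_exists_multiplier {A B C : ℤ} (hA : Odd A) (hB : Odd B) (hC : Odd C) :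
    ∃ m C₀ : ℕ, m ≠ 0 ∧ ∀ n p : ℕ, p.Prime → C₀ < p → p ∣ n → m ∣ n → ∀ x y z : ℤ,
      x * y * z ≠ 0 → A * x ^ n + B * y ^ n + C * z ^ n ≠ 0 := by
  obtain ⟨l, hle, hl⟩ :=
    Nat.exists_infinite_primes ((A * B * C * (A + B + C)).natAbs + 3)
  have hd : ¬ (l : ℤ) ∣ A * B * C * (A + B + C) := fun h => by
    have hodd : Odd (A * B * C * (A + B + C)) :=
      ((hA.mul hB).mul hC).mul ((hA.add_odd hB).add_odd hC)
    have := Int.odd_iff.mp hodd
    have := Nat.le_of_dvd (by omega) (Int.natCast_dvd.mp h)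
    omega
  obtain ⟨C₀, h⟩ := fermat_odd_auxiliary hA hB hC hl (by omega) hd
  exact ⟨l - 1, C₀, by omega, fun n p hp hpC hpn hln => h n p hp hpC hpn hln⟩

/-- So some exponent `d` and all its multiples leave no rational point with `X Y Z ≠ 0`. -/
theorem fermat_odd_exists_exponent {A B C : ℤ} (hA : Odd A) (hB : Odd B) (hC : Odd C) :
    ∃ d : ℕ, d ≠ 0 ∧ ∀ n : ℕ, d ∣ n → ∀ x y z : ℤ,
      x * y * z ≠ 0 → A * x ^ n + B * y ^ n + C * z ^ n ≠ 0 := by
  obtain ⟨m, C₀, hm, h⟩ := fermat_odd_exists_multiplier hA hB hC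
  obtain ⟨p, hle, hp⟩ := Nat.exists_infinite_primes (C₀ + 1)
  exact ⟨m * p, mul_ne_zero hm hp.ne_zero, fun n hn => h n p hp hle
    ((dvd_mul_left p m).trans hn) ((dvd_mul_right m p).trans hn)⟩

/-- **Sophie Germain exponents**: for all odd `A, B, C` and every large prime `p` with `2 p + 1`
prime there is no solution in nonzero integers for exponents divisible by `p`. -/
theorem fermat_odd_germain {A B C : ℤ} (hA : Odd A) (hB : Odd B) (hC : Odd C) :
    ∃ C₀ : ℕ, ∀ n p : ℕ, p.Prime → C₀ < p → (2 * p + 1).Prime → p ∣ n → ∀ x y z : ℤ,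
      x * y * z ≠ 0 → A * x ^ n + B * y ^ n + C * z ^ n ≠ 0 := by
  obtain ⟨C₀, hC₀⟩ := exists_bound_germain (S := (A * B * C).natAbs.primeFactors)
    (fun q hq => Nat.prime_of_mem_primeFactors hq)
  refine ⟨max C₀ (max 5 ((A * B * C).natAbs + A.natAbs + B.natAbs + C.natAbs)),
    fun n p hp hpC hl hpn x y z hxyz heq => ?_⟩
  simp only [max_lt_iff] at hpC
  have hsum : ∀ {a b c : ℤ}, (a = 1 ∨ a = -1) → (b = 1 ∨ b = -1) → (c = 1 ∨ c = -1) →
      ¬ ((2 * p + 1 : ℕ) : ℤ) ∣ A * a + B * b + C * c := by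
    intro a b c ha hb hc h
    have h0 : A * a + B * b + C * c ≠ 0 := by
      have := Int.odd_iff.mp hA
      have := Int.odd_iff.mp hB
      have := Int.odd_iff.mp hC
      rcases ha with rfl | rfl <;> rcases hb with rfl | rfl <;> rcases hc with rfl | rfl <;> omega
    have := Nat.le_of_dvd (Int.natAbs_pos.mpr h0) (Int.natCast_dvd.mp h)
    rcases ha with rfl | rfl <;> rcases hb with rfl | rfl <;> rcases hc with rfl | rfl <;> omega
  rcases eq_or_ne n 0 with rfl | hn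
  · simp only [pow_zero, mul_one] at heq
    exact hsum (Or.inl rfl) (Or.inl rfl) (Or.inl rfl) (by simp [heq])
  obtain ⟨x', y', z', hne, h, hprim⟩ := exists_primitive_solution hxyz heq
  have hodd : Odd (A * B * C) := (hA.mul hB).mul hC
  have hlABC : ¬ ((2 * p + 1 : ℕ) : ℤ) ∣ A * B * C := fun e => by
    have := Int.odd_iff.mp hodd
    have := Nat.le_of_dvd (by omega) (Int.natCast_dvd.mp e)
    omega
  have hnd : ¬ ((2 * p + 1 : ℕ) : ℤ) ∣ x' * y' * z' := fun hlx => by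
    have h5 : 5 ≤ n := le_trans (le_of_lt hpC.2.1) (Nat.le_of_dvd (by omega) hpn)
    obtain ⟨A', B', C', X, Y, Z, a1, a2, a3, a4, a5, a6, a7⟩ :=
      exists_reduced_with_prime h5 hA hB hC hl (by omega) hlABC hne h hprim hlx
    exact hC₀ n p hp hpC.1 hl hpn hn A' B' C' X Y Z a1 a2 a3 a4 a5 a6 a7
  have := Fact.mk hl
  have hone : ∀ t : ℤ, t ∣ x' * y' * z' →
      ∃ a : ℤ, (a = 1 ∨ a = -1) ∧ (t : ZMod (2 * p + 1)) ^ n = (a : ZMod (2 * p + 1)) := by
    intro t ht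
    have h1 := ZMod.pow_card_sub_one_eq_one (p := 2 * p + 1) (a := (t : ZMod (2 * p + 1))) fun e =>
      hnd (((ZMod.intCast_zmod_eq_zero_iff_dvd t _).mp e).trans ht)
    rw [show 2 * p + 1 - 1 = p * 2 by omega, pow_mul] at h1
    obtain ⟨k, rfl⟩ := hpn
    rcases sq_eq_one_iff.mp h1 with e | e <;> rw [pow_mul, e]
    · exact ⟨1, Or.inl rfl, by simp⟩
    · rcases neg_one_pow_eq_or (ZMod (2 * p + 1)) k with e' | e' <;> rw [e']
      exacts [⟨1, Or.inl rfl, by simp⟩, ⟨-1, Or.inr rfl, by simp⟩]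
  obtain ⟨a, ha, ea⟩ := hone x' ((dvd_mul_right x' y').mul_right z')
  obtain ⟨b, hb, eb⟩ := hone y' ((dvd_mul_left y' x').mul_right z')
  obtain ⟨c, hc, ec⟩ := hone z' (dvd_mul_left z' _)
  refine hsum ha hb hc ?_
  rw [← ZMod.intCast_zmod_eq_zero_iff_dvd]
  have e := congrArg (Int.cast : ℤ → ZMod (2 * p + 1)) h
  push_cast at e ⊢
  rw [ea, eb, ec] at e
  exact e

end FA.Summary

end
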