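import Fermat.Agent.Ribet.CurveCriterion.AllCoefficients
import Fermat.Agent.Root.SummaryFermatAuxiliaryPrime

/-!
# Fermat's equation with arbitrary coefficients: the exact criterion

For nonzero integers `A, B, C` some exponent `n ≥ 1` makes `A x ^ n + B y ^ n + C z ^ n = 0`
insoluble in nonzero integers exactly when `A + B + C ≠ 0`, and then all exponents divisible by one
number do. A solution with an even variable has no auxiliary prime `l` in `x y z`, so
`l ∣ A + B + C` when `l - 1 ∣ n`; with all variables odd a high power of two divides the sum.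
-/

set_option autoImplicit false

noncomputable section

open FA.CurveCriterion

namespace FA.Summary

/-- **No small prime factors with an even variable**, for all coefficients. -/
theorem fermat_even_variable_no_small_factor {A B C : ℤ} (hne : A * B * C ≠ 0) (N : ℕ) :
    ∃ C₀ : ℕ, ∀ n p : ℕ, p.Prime → C₀ < p → p ∣ n → n ≠ 0 → ∀ x y z : ℤ,
      x * y * z ≠ 0 → A * x ^ n + B * y ^ n + C * z ^ n = 0 →
      (∀ r : ℕ, r.Prime → ¬ ((r : ℤ) ∣ x ∧ (r : ℤ) ∣ y ∧ (r : ℤ) ∣ z)) →
      Even x ∨ Even y ∨ Even z →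
      ∀ l : ℕ, l.Prime → l ≤ N → l ≠ 2 → ¬ (l : ℤ) ∣ A * B * C → ¬ (l : ℤ) ∣ x * y * z := by
  obtain ⟨C₀, hC₀⟩ := fermat_no_small_factor (S := (A * B * C).natAbs.primeFactors)
    (fun q hq => Nat.prime_of_mem_primeFactors hq) N
  refine ⟨max C₀ (A.natAbs + B.natAbs + C.natAbs + 4),
    fun n p hp hpC hpn hn x y z hxyz heq hprim hev l hl hlN hl2 hlABC => ?_⟩
  simp only [max_lt_iff] at hpC
  have hpn' : p ≤ n := Nat.le_of_dvd (by omega) hpn
  have hlS : l ∉ (A * B * C).natAbs.primeFactors := fun h =>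
    hlABC (Int.natCast_dvd.mpr (Nat.dvd_of_mem_primeFactors h))
  have hsupp : ∀ r : ℕ, r.Prime → (r : ℤ) ∣ A * B * C → r ∈ (A * B * C).natAbs.primeFactors :=
    fun r hr h => Nat.mem_primeFactors.mpr ⟨hr, Int.natCast_dvd.mp h, Int.natAbs_ne_zero.mpr hne⟩
  have hbase := fun A' B' C' x' y' z' a1 a2 a3 a4 a5 a6 =>
    hC₀ n p hp hpC.1 hpn hn A' B' C' x' y' z' a1 a2 a3 a4 a5 a6 l hl hlN hl2 hlS
  rcases hev with hx | hy | hz
  · rw [show x * y * z = y * z * x by ring] at hxyz ⊢
    exact not_dvd_of_even_var hl hl2 hlS (A := B) (B := C) (C := A) (n := n) (by omega)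
      (by rwa [show B * C * A = A * B * C by ring]) (by rwa [show B * C * A = A * B * C by ring])
      hxyz (by linear_combination heq) (fun r hr h => hprim r hr ⟨h.2.2, h.1, h.2.1⟩) hx hbase
  · rw [show x * y * z = z * x * y by ring] at hxyz ⊢
    exact not_dvd_of_even_var hl hl2 hlS (A := C) (B := A) (C := B) (n := n) (by omega)
      (by rwa [show C * A * B = A * B * C by ring]) (by rwa [show C * A * B = A * B * C by ring])
      hxyz (by linear_combination heq) (fun r hr h => hprim r hr ⟨h.2.1, h.2.2, h.1⟩) hy hbase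
  · exact not_dvd_of_even_var hl hl2 hlS (n := n) (by omega) hsupp hne hxyz heq hprim hz hbase

/-- **All coefficients with nonzero sum**: no solution when `m p ∣ n`, for one `m` and every large
prime `p`. -/
theorem fermat_all_coefficients {A B C : ℤ} (hne : A * B * C ≠ 0) (hsum : A + B + C ≠ 0) :
    ∃ m C₀ : ℕ, m ≠ 0 ∧ ∀ n p : ℕ, p.Prime → C₀ < p → p ∣ n → m ∣ n → ∀ x y z : ℤ,
      x * y * z ≠ 0 → A * x ^ n + B * y ^ n + C * z ^ n ≠ 0 := by
  obtain ⟨l, hle, hl⟩ := Nat.exists_infinite_primes ((A * B * C * (A + B + C)).natAbs + 3)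
  have hd : ¬ (l : ℤ) ∣ A * B * C * (A + B + C) := fun h => by
    have := Nat.le_of_dvd (Int.natAbs_pos.mpr (mul_ne_zero hne hsum)) (Int.natCast_dvd.mp h)
    omega
  obtain ⟨C₀, hC₀⟩ := fermat_even_variable_no_small_factor hne l
  set N := (A + B + C).natAbs
  refine ⟨(l - 1) * 2 ^ N, C₀, mul_ne_zero (by omega) (by positivity),
    fun n p hp hpC hpn hmn x y z hxyz heq => ?_⟩
  rcases eq_or_ne n 0 with rfl | hn
  · simp only [pow_zero, mul_one] at heq
    exact hsum heq
  obtain ⟨x', y', z', hne', h, hprim⟩ := exists_primitive_solution hxyz heq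
  by_cases hev : Even x' ∨ Even y' ∨ Even z'
  · have hnd := hC₀ n p hp hpC hpn hn x' y' z' hne' h hprim hev l hl le_rfl (by omega)
      fun e => hd (e.mul_right _)
    have := Fact.mk hl
    have hone : ∀ t : ℤ, t ∣ x' * y' * z' → (t : ZMod l) ^ n = 1 := fun t ht => by
      obtain ⟨m, rfl⟩ := (dvd_mul_right (l - 1) (2 ^ N)).trans hmn
      rw [pow_mul, ZMod.pow_card_sub_one_eq_one fun e =>
        hnd (((ZMod.intCast_zmod_eq_zero_iff_dvd t l).mp e).trans ht), one_pow]
    refine hd (Dvd.dvd.mul_left ?_ _)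
    rw [← ZMod.intCast_zmod_eq_zero_iff_dvd]
    have e := congrArg (Int.cast : ℤ → ZMod l) h
    push_cast at e ⊢
    rw [hone x' ((dvd_mul_right x' y').mul_right z'), hone y' ((dvd_mul_left y' x').mul_right z'),
      hone z' (dvd_mul_left z' _), mul_one, mul_one, mul_one] at e
    exact e
  · simp only [not_or, Int.not_even_iff_odd] at hev
    have h2 := (dvd_mul_left (2 ^ N) (l - 1)).trans hmn
    have hd2 : (2 : ℤ) ^ (N + 1) ∣ A + B + C := by
      rw [show A + B + C = -(A * (x' ^ n - 1) + B * (y' ^ n - 1) + C * (z' ^ n - 1)) by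
        linear_combination h]
      exact ((((two_pow_dvd_odd_pow_sub_one hev.1 h2).mul_left A).add
        ((two_pow_dvd_odd_pow_sub_one hev.2.1 h2).mul_left B)).add
        ((two_pow_dvd_odd_pow_sub_one hev.2.2 h2).mul_left C)).neg_right
    have := Nat.le_of_dvd (Int.natAbs_pos.mpr hsum) (Int.natAbs_dvd_natAbs.mpr hd2)
    rw [Int.natAbs_pow] at this
    have hlt : N < 2 ^ (N + 1) := (N.lt_succ_self).trans (N + 1).lt_two_pow_self
    exact absurd (lt_of_le_of_lt this hlt) (lt_irrefl _)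

/-- **One exponent and all its multiples.** -/
theorem fermat_all_exists_exponent {A B C : ℤ} (hne : A * B * C ≠ 0) (hsum : A + B + C ≠ 0) :
    ∃ d : ℕ, d ≠ 0 ∧ ∀ n : ℕ, d ∣ n → ∀ x y z : ℤ,
      x * y * z ≠ 0 → A * x ^ n + B * y ^ n + C * z ^ n ≠ 0 := by
  obtain ⟨m, C₀, hm, h⟩ := fermat_all_coefficients hne hsum
  obtain ⟨p, hle, hp⟩ := Nat.exists_infinite_primes (C₀ + 1)
  exact ⟨m * p, mul_ne_zero hm hp.ne_zero, fun n hn => h n p hp hle
    ((dvd_mul_left p m).trans hn) ((dvd_mul_right m p).trans hn)⟩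

/-- **The exact criterion**: `A x ^ n + B y ^ n + C z ^ n = 0` is insoluble in nonzero integers for
some exponent `n ≥ 1` exactly when `A + B + C ≠ 0`. -/
theorem fermat_exists_exponent_iff {A B C : ℤ} (hne : A * B * C ≠ 0) :
    (∃ n : ℕ, 1 ≤ n ∧ ∀ x y z : ℤ, x * y * z ≠ 0 → A * x ^ n + B * y ^ n + C * z ^ n ≠ 0) ↔
      A + B + C ≠ 0 := by
  constructor
  · rintro ⟨n, -, h⟩ h0
    exact h 1 1 1 (by norm_num) (by simp [h0])
  · intro hsum
    obtain ⟨d, hd, h⟩ := fermat_all_exists_exponent hne hsum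
    exact ⟨d, Nat.one_le_iff_ne_zero.mpr hd, h d dvd_rfl⟩

/-- **Over `ℚ`**: some curve `a X ^ n + b Y ^ n = 1`, `n ≥ 1`, has no rational point with
`X Y ≠ 0` exactly when `a + b ≠ 1`. -/
theorem fermat_rational_exponent_iff {a b : ℚ} (ha : a ≠ 0) (hb : b ≠ 0) :
    (∃ n : ℕ, 1 ≤ n ∧ ∀ X Y : ℚ, X ≠ 0 → Y ≠ 0 → a * X ^ n + b * Y ^ n ≠ 1) ↔ a + b ≠ 1 := by
  constructor
  · rintro ⟨n, -, h⟩ h0
    exact h 1 1 one_ne_zero one_ne_zero (by simpa using h0)
  · intro hab
    have hd : ∀ q : ℚ, (q.den : ℤ) ≠ 0 := fun q => by exact_mod_cast q.den_nz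
    have hsum : a.num * b.den + b.num * a.den + -((a.den : ℤ) * b.den) ≠ 0 := fun h => hab (by
      rw [← Rat.num_div_den a, ← Rat.num_div_den b]
      have e : ((a.num * b.den + b.num * a.den + -((a.den : ℤ) * b.den) : ℤ) : ℚ) = 0 := by
        rw [h]; norm_num
      push_cast at e
      have := a.den_nz
      have := b.den_nz
      field_simp
      linear_combination e)
    obtain ⟨n, hn, h⟩ := (fermat_exists_exponent_iff (mul_ne_zero (mul_ne_zero
      (mul_ne_zero (Rat.num_ne_zero.mpr ha) (hd b)) (mul_ne_zero (Rat.num_ne_zero.mpr hb) (hd a)))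
      (neg_ne_zero.mpr (mul_ne_zero (hd a) (hd b))))).mpr hsum
    refine ⟨n, hn, fun X Y hX hY heq => h (X.num * Y.den) (Y.num * X.den) (X.den * Y.den) ?_ ?_⟩
    · exact mul_ne_zero (mul_ne_zero (mul_ne_zero (Rat.num_ne_zero.mpr hX) (hd Y))
        (mul_ne_zero (Rat.num_ne_zero.mpr hY) (hd X))) (mul_ne_zero (hd X) (hd Y))
    · rw [← Rat.num_div_den a, ← Rat.num_div_den b, ← Rat.num_div_den X,
        ← Rat.num_div_den Y] at heq
      have h0 : ((a.num * b.den * (X.num * Y.den) ^ n + b.num * a.den * (Y.num * X.den) ^ n +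
          -(a.den * b.den) * (X.den * Y.den) ^ n : ℤ) : ℚ) = 0 := by
        have := a.den_nz
        have := b.den_nz
        have := X.den_nz
        have := Y.den_nz
        push_cast
        simp only [div_pow] at heq
        field_simp at heq
        simp only [mul_pow]
        linear_combination heq
      exact_mod_cast h0

/-- An instance: `3 x ^ n + 4 y ^ n = 5 z ^ n`. -/
theorem fermat_three_four_five :
    ∃ d : ℕ, d ≠ 0 ∧ ∀ n : ℕ, d ∣ n → ∀ x y z : ℤ,
      x * y * z ≠ 0 → 3 * x ^ n + 4 * y ^ n ≠ 5 * z ^ n := by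
  obtain ⟨d, hd, h⟩ := fermat_all_exists_exponent (A := 3) (B := 4) (C := -5) (by norm_num)
    (by norm_num)
  exact ⟨d, hd, fun n hn x y z hne e => h n hn x y z hne (by linear_combination e)⟩

end FA.Summary

end
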