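import Fermat.Agent.Ribet.CurveCriterion.BinaryPowers
import Fermat.Agent.Root.SummaryFermatAllCoefficients

/-!
# Rational points at one exponent for all small coefficients

For every `H` one exponent `d` and all its multiples leave `A x ^ n + B y ^ n + C z ^ n = 0` with
`|A|, |B|, |C| ≤ H`, `A + B + C ≠ 0` only the solutions with a zero coordinate coming from
`A + B = 0` and the like. So some exponent leaves a diagonal curve no rational point exactly when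
none of `A + B + C`, `A + B`, `B + C`, `C + A` vanishes, and the small integers that are sums of two
rational `n`-th powers are `0, 1, 2`.
-/

set_option autoImplicit false

noncomputable section

open FA.CurveCriterion

namespace FA.Summary

/-- **One exponent for all coefficients up to `H`.** -/
theorem fermat_uniform_exponent (H : ℕ) :
    ∃ d : ℕ, d ≠ 0 ∧ 2 ∣ d ∧ H < d ∧ ∀ n : ℕ, d ∣ n → ∀ A B C : ℤ, |A| ≤ H → |B| ≤ H → |C| ≤ H →
      A * B * C ≠ 0 → A + B + C ≠ 0 → ∀ x y z : ℤ,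
      x * y * z ≠ 0 → A * x ^ n + B * y ^ n + C * z ^ n ≠ 0 := by
  classical
  have key : ∀ t : ℤ × ℤ × ℤ, ∃ d : ℕ, d ≠ 0 ∧
      (t.1 * t.2.1 * t.2.2 ≠ 0 → t.1 + t.2.1 + t.2.2 ≠ 0 → ∀ n : ℕ, d ∣ n → ∀ x y z : ℤ,
        x * y * z ≠ 0 → t.1 * x ^ n + t.2.1 * y ^ n + t.2.2 * z ^ n ≠ 0) := fun t => by
    by_cases h : t.1 * t.2.1 * t.2.2 ≠ 0 ∧ t.1 + t.2.1 + t.2.2 ≠ 0
    · obtain ⟨d, hd, hn⟩ := fermat_all_exists_exponent h.1 h.2
      exact ⟨d, hd, fun _ _ => hn⟩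
    · exact ⟨1, one_ne_zero, fun h1 h2 => absurd ⟨h1, h2⟩ h⟩
  choose d hd hsol using key
  set I := Finset.Icc (-(H : ℤ)) H
  set P := ∏ t ∈ I ×ˢ I ×ˢ I, d t
  have hP : 0 < P := Finset.prod_pos fun t _ => Nat.pos_of_ne_zero (hd t)
  refine ⟨2 * (H + 1) * P, by positivity, ⟨(H + 1) * P, by ring⟩,
    lt_of_lt_of_le (show H < 2 * (H + 1) by omega) (Nat.le_mul_of_pos_right _ hP),
    fun n hn A B C hA hB hC hne hsum x y z hxyz => ?_⟩
  have hmem : (A, B, C) ∈ I ×ˢ I ×ˢ I := by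
    simp only [I, Finset.mem_product, Finset.mem_Icc]
    exact ⟨abs_le.mp hA, abs_le.mp hB, abs_le.mp hC⟩
  exact hsol (A, B, C) hne hsum n
    (((Finset.dvd_prod_of_mem d hmem).trans (dvd_mul_left P _)).trans hn) x y z hxyz

/-- **The rational points**: for every multiple of one exponent they all have a zero coordinate and
come from two coefficients with sum zero. -/
theorem fermat_uniform_points (H : ℕ) :
    ∃ d : ℕ, d ≠ 0 ∧ ∀ n : ℕ, d ∣ n → n ≠ 0 → ∀ A B C : ℤ, |A| ≤ H → |B| ≤ H → |C| ≤ H →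
      A * B * C ≠ 0 → A + B + C ≠ 0 → ∀ x y z : ℤ, (x ≠ 0 ∨ y ≠ 0 ∨ z ≠ 0) →
      A * x ^ n + B * y ^ n + C * z ^ n = 0 →
      (x = 0 ∧ B + C = 0 ∧ y.natAbs = z.natAbs) ∨ (y = 0 ∧ C + A = 0 ∧ z.natAbs = x.natAbs) ∨
        (z = 0 ∧ A + B = 0 ∧ x.natAbs = y.natAbs) := by
  obtain ⟨d, hd, h2, hHd, h⟩ := fermat_uniform_exponent H
  refine ⟨d, hd, fun n hn hn0 A B C hA hB hC hne hsum x y z hxyz heq => ?_⟩
  have he : Even n := even_iff_two_dvd.mpr (h2.trans hn)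
  have hlt : ∀ {M : ℤ}, |M| ≤ H → M.natAbs < 2 ^ n := fun {M} hM => by
    have h1 := Nat.le_of_dvd (Nat.pos_of_ne_zero hn0) hn
    have h3 := n.lt_two_pow_self
    have : (M.natAbs : ℤ) ≤ H := by rwa [← Int.abs_eq_natAbs]
    omega
  simp only [mul_ne_zero_iff] at hne
  obtain ⟨⟨hA0, hB0⟩, hC0⟩ := hne
  rcases eq_or_ne x 0 with rfl | hx
  · rw [zero_pow hn0, mul_zero, zero_add] at heq
    obtain ⟨e, -, e'⟩ := binary_powers he hB0 hC0 (hlt hB) (hlt hC) (by simpa using hxyz) heq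
    exact Or.inl ⟨rfl, e, e'⟩
  rcases eq_or_ne y 0 with rfl | hy
  · rw [zero_pow hn0, mul_zero, add_zero] at heq
    obtain ⟨e, -, e'⟩ := binary_powers he hA0 hC0 (hlt hA) (hlt hC) (Or.inl hx) heq
    exact Or.inr (Or.inl ⟨rfl, by rwa [add_comm], e'.symm⟩)
  rcases eq_or_ne z 0 with rfl | hz
  · rw [zero_pow hn0, mul_zero, add_zero] at heq
    obtain ⟨e, -, e'⟩ := binary_powers he hA0 hB0 (hlt hA) (hlt hB) (Or.inl hx) heq
    exact Or.inr (Or.inr ⟨rfl, e, e'⟩)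
  exact absurd heq (h n hn A B C hA hB hC (mul_ne_zero (mul_ne_zero hA0 hB0) hC0) hsum x y z
    (mul_ne_zero (mul_ne_zero hx hy) hz))

/-- **Diagonal curves without rational points**: some exponent leaves `A X ^ n + B Y ^ n + C Z ^ n`
no rational point exactly when none of `A + B + C`, `A + B`, `B + C`, `C + A` is zero. -/
theorem fermat_noPoints_iff {A B C : ℤ} (hne : A * B * C ≠ 0) :
    (∃ n : ℕ, 1 ≤ n ∧ ∀ x y z : ℚ, (x ≠ 0 ∨ y ≠ 0 ∨ z ≠ 0) →
      (A : ℚ) * x ^ n + B * y ^ n + C * z ^ n ≠ 0) ↔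
    A + B + C ≠ 0 ∧ A + B ≠ 0 ∧ B + C ≠ 0 ∧ C + A ≠ 0 := by
  constructor
  · rintro ⟨n, hn, h⟩
    have hn0 : n ≠ 0 := by omega
    refine ⟨fun e => ?_, fun e => ?_, fun e => ?_, fun e => ?_⟩
    · refine h 1 1 1 (Or.inl one_ne_zero) ?_
      simp only [one_pow, mul_one]
      exact_mod_cast e
    · refine h 1 1 0 (Or.inl one_ne_zero) ?_
      simp only [one_pow, mul_one, zero_pow hn0, mul_zero, add_zero]
      exact_mod_cast e
    · refine h 0 1 1 (Or.inr (Or.inl one_ne_zero)) ?_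
      simp only [one_pow, mul_one, zero_pow hn0, mul_zero, zero_add]
      exact_mod_cast e
    · refine h 1 0 1 (Or.inl one_ne_zero) ?_
      simp only [one_pow, mul_one, zero_pow hn0, mul_zero, add_zero]
      rw [add_comm]
      exact_mod_cast e
  · rintro ⟨h0, h1, h2, h3⟩
    obtain ⟨d, hd, h⟩ := fermat_uniform_points (max A.natAbs (max B.natAbs C.natAbs))
    refine ⟨d, Nat.one_le_iff_ne_zero.mpr hd, fun x y z hxyz heq => ?_⟩
    set m : ℤ := x.den * y.den * z.den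
    have hm : m ≠ 0 := by simp [m]
    obtain ⟨a, ha⟩ : ∃ a : ℤ, (a : ℚ) = m * x := ⟨x.num * y.den * z.den, by
      simp only [m]; push_cast; rw [← Rat.mul_den_eq_num x]; ring⟩
    obtain ⟨b, hb⟩ : ∃ b : ℤ, (b : ℚ) = m * y := ⟨y.num * x.den * z.den, by
      simp only [m]; push_cast; rw [← Rat.mul_den_eq_num y]; ring⟩
    obtain ⟨c, hc⟩ : ∃ c : ℤ, (c : ℚ) = m * z := ⟨z.num * x.den * y.den, by
      simp only [m]; push_cast; rw [← Rat.mul_den_eq_num z]; ring⟩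
    have hq : ∀ {t : ℚ} {u : ℤ}, t ≠ 0 → (u : ℚ) = m * t → u ≠ 0 := fun ht hu e => by
      rw [e, Int.cast_zero] at hu
      exact mul_ne_zero (Int.cast_ne_zero.mpr hm) ht hu.symm
    have e : A * a ^ d + B * b ^ d + C * c ^ d = 0 := by
      have : ((A * a ^ d + B * b ^ d + C * c ^ d : ℤ) : ℚ) = 0 := by
        push_cast
        rw [ha, hb, hc]
        linear_combination (m : ℚ) ^ d * heq
      exact_mod_cast this
    have hb' : ∀ M : ℤ, M.natAbs ≤ max A.natAbs (max B.natAbs C.natAbs) →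
        |M| ≤ ((max A.natAbs (max B.natAbs C.natAbs) : ℕ) : ℤ) := fun M hM => by
      rw [Int.abs_eq_natAbs]
      exact_mod_cast hM
    rcases h d dvd_rfl hd A B C (hb' A (by omega)) (hb' B (by omega)) (hb' C (by omega)) hne h0
      a b c (hxyz.imp (hq · ha) (Or.imp (hq · hb) (hq · hc))) e with ⟨-, e', -⟩ | ⟨-, e', -⟩ |
        ⟨-, e', -⟩
    exacts [h2 e', h3 e', h1 e']

/-- **Sums and differences of two powers**: for every `H` some exponent and all its multiples `n`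
leave as the integers up to `H` that are sums of two rational `n`-th powers exactly `0, 1, 2`,
and as differences exactly `0, ±1`. -/
theorem sum_two_powers_small (H : ℕ) :
    ∃ d : ℕ, d ≠ 0 ∧ ∀ n : ℕ, d ∣ n → n ≠ 0 → ∀ L : ℤ, |L| ≤ H →
      ((∃ X Y : ℚ, X ^ n + Y ^ n = L) ↔ L = 0 ∨ L = 1 ∨ L = 2) ∧
        ((∃ X Y : ℚ, X ^ n - Y ^ n = L) ↔ L = 0 ∨ L = 1 ∨ L = -1) := by
  obtain ⟨d, hd, h⟩ := fermat_uniform_points (H + 1)
  refine ⟨d, hd, fun n hn hn0 L hL => ?_⟩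
  have key : ∀ e : ℤ, e = 1 ∨ e = -1 → ∀ X Y : ℚ, X ^ n + e * Y ^ n = L →
      L = 0 ∨ L = 1 ∨ L = e ∨ L = 1 + e := by
    intro e he X Y hXY
    by_contra hL'
    simp only [not_or] at hL'
    obtain ⟨l0, l1, le', ls⟩ := hL'
    have hint : (1 : ℤ) * (X.num * Y.den) ^ n + e * (Y.num * X.den) ^ n +
        -L * (X.den * Y.den) ^ n = 0 := by
      have : (((1 : ℤ) * (X.num * Y.den) ^ n + e * (Y.num * X.den) ^ n +
          -L * (X.den * Y.den) ^ n : ℤ) : ℚ) = 0 := by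
        have := X.den_nz
        have := Y.den_nz
        push_cast
        rw [← Rat.mul_den_eq_num X, ← Rat.mul_den_eq_num Y, ← hXY]
        ring
      exact_mod_cast this
    have hb : |(1 : ℤ)| ≤ ((H + 1 : ℕ) : ℤ) ∧ |e| ≤ ((H + 1 : ℕ) : ℤ) ∧
        |-L| ≤ ((H + 1 : ℕ) : ℤ) := by
      rw [abs_neg]
      push_cast
      exact ⟨by simp, by rcases he with rfl | rfl <;> simp, by omega⟩
    rcases h n hn hn0 1 e (-L) hb.1 hb.2.1 hb.2.2
      (mul_ne_zero (mul_ne_zero one_ne_zero (by omega)) (neg_ne_zero.mpr l0)) (by omega) _ _ _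
      (Or.inr (Or.inr (mul_ne_zero (by exact_mod_cast X.den_nz) (by exact_mod_cast Y.den_nz))))
      hint with ⟨-, e', -⟩ | ⟨-, e', -⟩ | ⟨e', -⟩
    · exact le' (by omega)
    · exact l1 (by omega)
    · exact absurd e' (mul_ne_zero (by exact_mod_cast X.den_nz) (by exact_mod_cast Y.den_nz))
  refine ⟨⟨fun ⟨X, Y, hXY⟩ => ?_, ?_⟩, ⟨fun ⟨X, Y, hXY⟩ => ?_, ?_⟩⟩
  · have := key 1 (Or.inl rfl) X Y (by simpa using hXY)
    omega
  · rintro (rfl | rfl | rfl)
    exacts [⟨0, 0, by simp [hn0]⟩, ⟨1, 0, by simp [hn0]⟩, ⟨1, 1, by norm_num⟩]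
  · have := key (-1) (Or.inr rfl) X Y (by simpa [← sub_eq_add_neg] using hXY)
    omega
  · rintro (rfl | rfl | rfl)
    exacts [⟨0, 0, by simp⟩, ⟨1, 0, by simp [hn0]⟩, ⟨0, 1, by simp [hn0]⟩]

end FA.Summary

end
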