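import Fermat.Agent.ExponentialIntegral.Values

/-!
# The exponential integral and its iterates

`E_k z = ∑ z ^ n / (n! n ^ k)` over `n ≥ 1`, so that `E_1 z = ∫₀ᶻ (exp t - 1) / t dt`.

* `expIntegral_efunctions`: the `E_k` are E-functions in the strict sense with
  `z E_(k+1)' = E_k`, `E_0 = exp - 1`;
* `expIntegral_functions_independent`: `exp, E_1, …, E_s` are algebraically independent over
  `ℚ(z)`;
* `expIntegral_values_independent` (Shidlovskii): `exp α, E_1 α, …, E_s α` are algebraically
  independent over `ℚ` for every algebraic `α ≠ 0`, so each is transcendental;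
* `exponential_integral_transcendental`: `∫₀ᵅ (exp t - 1) / t dt` is algebraically independent of
  `exp α` and `Ein α = ∫₀ᵅ (1 - exp (-t)) / t dt` is transcendental at real algebraic `α ≠ 0`.

Completes `SummaryIncompleteGamma`, where the parameter is no integer.
-/

set_option autoImplicit false

noncomputable section

namespace FA.ExponentialIntegral.Summary

open Finset
open scoped Nat Polynomial

/-- **The iterated exponential integrals are E-functions.** -/
theorem expIntegral_efunctions {E : ℕ → PowerSeries ℚ}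
    (hE : ∀ k n, PowerSeries.coeff n (E k) =
      if n = 0 then 0 else ((n ! : ℚ) * (n : ℚ) ^ k)⁻¹) (k : ℕ) :
    (∃ C : ℕ, (∀ n, |(n ! : ℚ) * PowerSeries.coeff n (E k)| ≤ (C : ℚ) ^ (n + 1)) ∧
      ∀ N, ∃ d : ℕ, 0 < d ∧ d ≤ C ^ (N + 1) ∧
        ∀ n ≤ N, ∃ z : ℤ, (z : ℚ) = (d : ℚ) * ((n ! : ℚ) * PowerSeries.coeff n (E k))) ∧
      PowerSeries.X * PowerSeries.derivative ℚ (E (k + 1)) = E k ∧
      E 0 = PowerSeries.exp ℚ - 1 := by
  obtain rfl : E = eiSeries := funext fun k => PowerSeries.ext fun n => by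
    rw [hE, eiSeries, PowerSeries.coeff_mk]
  exact ⟨isEFunction_eiSeries k, X_mul_derivative_eiSeries k, eiSeries_zero⟩

/-- **`exp, E_1, …, E_s` are algebraically independent.** -/
theorem expIntegral_functions_independent {s : ℕ} {E : Fin s → PowerSeries ℚ}
    (hE : ∀ (i : Fin s) n, PowerSeries.coeff n (E i) =
      if n = 0 then 0 else ((n ! : ℚ) * (n : ℚ) ^ ((i : ℕ) + 1))⁻¹)
    {p : MvPolynomial (Fin (s + 1)) ℚ[X]}
    (hp : MvPolynomial.eval₂ Polynomial.coeToPowerSeries.ringHom
      (Fin.cons (PowerSeries.exp ℚ) E) p = 0) : p = 0 := by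
  obtain rfl : E = fun i : Fin s => eiSeries ((i : ℕ) + 1) :=
    funext fun i => PowerSeries.ext fun n => by rw [hE, eiSeries, PowerSeries.coeff_mk]
  exact eiSeries_independent hp

/-- **The values of the iterated exponential integrals.** -/
theorem expIntegral_values_independent {α : ℂ} (hα : IsAlgebraic ℚ α) (hα0 : α ≠ 0) (s : ℕ) :
    AlgebraicIndependent ℚ (Fin.cons (Complex.exp α) fun i : Fin s =>
        ∑' n : ℕ, α ^ (n + 1) / (((n + 1)! : ℂ) * ((n + 1 : ℕ) : ℂ) ^ ((i : ℕ) + 1))) ∧
      ∀ k : ℕ, Transcendental ℚ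
        (∑' n : ℕ, α ^ (n + 1) / (((n + 1)! : ℂ) * ((n + 1 : ℕ) : ℂ) ^ (k + 1))) := by
  refine ⟨?_, fun k => cval_eiSeries (k + 1) α ▸ transcendental_eiValue hα hα0 k⟩
  simpa only [cval_eiSeries] using algebraicIndependent_eiValues hα hα0 s

/-- **The exponential integral is transcendental.** -/
theorem exponential_integral_transcendental {x : ℝ} (hx : IsAlgebraic ℚ x) (hx0 : x ≠ 0) :
    AlgebraicIndependent ℚ ![Real.exp x, ∫ t in (0 : ℝ)..x, (Real.exp t - 1) / t] ∧
      Transcendental ℚ (∫ t in (0 : ℝ)..x, (1 - Real.exp (-t)) / t) :=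
  ⟨algebraicIndependent_integral hx hx0, transcendental_ein hx hx0⟩

end FA.ExponentialIntegral.Summary

end
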