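import Fermat.Agent.Nondivergence.Smooth
import Mathlib.Analysis.SpecialFunctions.Trigonometric.Deriv

/-!
# Extremality of nondegenerate curves
-/

set_option autoImplicit false

noncomputable section

open MeasureTheory

namespace FA.Nondivergence.Summary

open FA.Transference

variable {d : ℕ}

/-- **Kleinbock–Margulis (1998) for curves.** At almost every parameter `x` near which the curve
is `C ^ N` and at which its first `N` derivatives span `ℝ ^ d`, the point `f x` is not very well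
approximable, as a linear form and simultaneously. No other hypothesis is made on `f`. -/
theorem nondegenerate_curves_extremal (hd : 0 < d) (f : ℝ → Fin d → ℝ) :
    ∀ᵐ x : ℝ, (∃ N : ℕ, ContDiffAt ℝ N f x ∧
        Submodule.span ℝ (Set.range fun k : Fin N => iteratedDeriv (k + 1) f x) = ⊤) →
      (∀ w : ℝ, (d : ℝ) < w → {m : Fin d → ℤ | m ≠ 0 ∧ ∃ n : ℤ,
        |∑ i, (m i : ℝ) * f x i + n| ≤ ‖m‖ ^ (-w)}.Finite) ∧
      ∀ w : ℝ, 1 / (d : ℝ) < w → {q : ℕ | 0 < q ∧ ∃ p : Fin d → ℤ,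
        ∀ i, |(q : ℝ) * f x i - p i| ≤ (q : ℝ) ^ (-w)}.Finite := by
  filter_upwards [ae_of_nondegenerate hd f] with x hx hnd
  exact ⟨hx hnd, fun w hw => simSet_finite_of_formSet hd (hx hnd) hw⟩

/-- **Analytic curves in no affine hyperplane are extremal.** -/
theorem analytic_curves_extremal (hd : 0 < d) {f : ℝ → Fin d → ℝ} {U : Set ℝ}
    (hU : IsPreconnected U) (hf : AnalyticOnNhd ℝ f U)
    (hind : ∀ (c : Fin d → ℝ) (z : ℝ), (∀ x ∈ U, ∑ i, c i * f x i = z) → c = 0) :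
    ∀ᵐ x : ℝ, x ∈ U →
      (∀ w : ℝ, (d : ℝ) < w → {m : Fin d → ℤ | m ≠ 0 ∧ ∃ n : ℤ,
        |∑ i, (m i : ℝ) * f x i + n| ≤ ‖m‖ ^ (-w)}.Finite) ∧
      ∀ w : ℝ, 1 / (d : ℝ) < w → {q : ℕ | 0 < q ∧ ∃ p : Fin d → ℤ,
        ∀ i, |(q : ℝ) * f x i - p i| ≤ (q : ℝ) ^ (-w)}.Finite := by
  filter_upwards [nondegenerate_curves_extremal hd f] with x hx hxU
  exact hx (isNondegenerateAt_of_analytic hU hf hind hxU)

/-- **The circle is extremal.** For almost every `θ` and every `w > 1 / 2` only finitely many `q`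
bring both `q cos θ` and `q sin θ` within `q ^ (-w)` of an integer. -/
theorem circle_extremal :
    ∀ᵐ θ : ℝ, ∀ w : ℝ, 1 / 2 < w → {q : ℕ | 0 < q ∧ ∃ p₁ p₂ : ℤ,
      |(q : ℝ) * Real.cos θ - p₁| ≤ (q : ℝ) ^ (-w) ∧
      |(q : ℝ) * Real.sin θ - p₂| ≤ (q : ℝ) ^ (-w)}.Finite := by
  have hf : AnalyticOnNhd ℝ (fun θ : ℝ => (![Real.cos θ, Real.sin θ] : Fin 2 → ℝ)) Set.univ := by
    refine fun x _ => analyticAt_pi_iff.2 fun i => ?_
    fin_cases i
    · exact Real.analyticAt_cos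
    · exact Real.analyticAt_sin
  have hind : ∀ (c : Fin 2 → ℝ) (z : ℝ),
      (∀ θ ∈ Set.univ, ∑ i, c i * ![Real.cos θ, Real.sin θ] i = z) → c = 0 := by
    intro c z h
    have h0 := h 0 trivial
    have h1 := h Real.pi trivial
    have h2 := h (Real.pi / 2) trivial
    simp [Fin.sum_univ_two] at h0 h1 h2
    funext i
    fin_cases i <;> simp <;> linarith
  filter_upwards [analytic_curves_extremal two_pos isPreconnected_univ hf hind] with θ hθ w hw
  refine ((hθ trivial).2 w (by exact_mod_cast hw)).subset ?_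
  rintro q ⟨hq, p₁, p₂, h₁, h₂⟩
  exact ⟨hq, ![p₁, p₂], fun i => by fin_cases i <;> simpa⟩

end FA.Nondivergence.Summary
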