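import Fermat.Agent.ExtremalFF.Main
import Fermat.Agent.Root.SummaryArtinClassNumber

/-!
# Extremal quadratic L-functions over `F_q[t]`

Let `k` have `q = (2 g + 1) ^ 2` elements, `q` odd, and `D = X ^ (2 g + 1) + c ^ (2 g) X`, of degree
`2 g + 1`. With `e = ±1` the quadratic character of `c` the L-function is `(1 + e √q u) ^ (2 g)`. So
`h(D) = (√q ± 1) ^ (2 g)` attains both bounds and, for `e = -1`, the central value vanishes to order
`2 g`: the analogue of Chowla's non-vanishing conjecture fails for these fields.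

Not claimed: non-square `q`, or other genera.
-/

set_option autoImplicit false
set_option linter.style.openClassical false
set_option linter.style.haveILetI false
set_option linter.unusedSectionVars false

noncomputable section

open scoped Classical
open Polynomial
open FA.QuadraticLFF.Summary (lCoeff lFunction lCoeff_eq lFunction_eq)
open FA.ArtinClassNumber.Summary (classNumber class_number_formula)

namespace FA.ExtremalFF.Summary

variable {k : Type*} [Field k] [Fintype k] {g : ℕ} (hq : Fintype.card k = (2 * g + 1) ^ 2)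
include hq

/-- **The extremal L-functions.** -/
theorem extremal_lfunction {c : k} (hc : c ≠ 0) :
    let D : k[X] := X ^ (2 * g + 1) + C (c ^ (2 * g)) * X
    1 ≤ g ∧ D.Monic ∧ Squarefree D ∧ D.natDegree = 2 * g + 1 ∧
    (∀ n, lCoeff D n = (2 * g).choose n * (quadraticChar k c * (2 * g + 1 : ℕ)) ^ n) ∧
    (∀ u : ℝ, lFunction D u = (1 + quadraticChar k c * (2 * g + 1 : ℕ) * u) ^ (2 * g)) ∧
    (classNumber D g : ℝ) = ((2 * g + 1 : ℕ) + quadraticChar k c : ℝ) ^ (2 * g) := by
  intro D
  have hk := ringChar_ne_two hq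
  have hD : D.Monic := monic_extPoly hq c
  have hsq : Squarefree D := squarefree_extPoly hq hc
  have hdeg : D.natDegree = 2 * g + 1 := natDegree_extPoly hq c
  have hns := QuadraticLFF.not_sq_of_odd (k := k) (D := D) (hdeg ▸ odd_two_mul_add_one g)
  have hL : ∀ u : ℝ, lFunction D u =
      (1 + quadraticChar k c * (2 * g + 1 : ℕ) * u) ^ (2 * g) := fun u => by
    rw [lFunction_eq, QuadraticLFF.lvalue_eq_sum hk hD hns, hdeg, add_comm (1 : ℝ), add_pow]
    refine Finset.sum_congr rfl fun n hn => ?_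
    have h : QuadraticLFF.coeffL D n = _ :=
      coeffL_extPoly hq hc (Nat.lt_succ_iff.mp (Finset.mem_range.mp hn))
    rw [h]
    push_cast
    rw [one_pow, mul_one, mul_pow _ u]
    ring
  refine ⟨one_le_genus hq, hD, hsq, hdeg, fun n => ?_, hL, ?_⟩
  · rw [lCoeff_eq]
    rcases le_or_gt n (2 * g) with hn | hn
    · exact coeffL_extPoly hq hc hn
    · rw [QuadraticLFF.coeffL_eq_zero hk hD hns (by omega), Nat.choose_eq_zero_of_lt hn,
        Nat.cast_zero, zero_mul]
  · rw [class_number_formula hk hD hsq hdeg, hL, mul_one]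
    rcases quadraticChar_dichotomy hc with e | e <;> rw [e] <;> push_cast
    · ring
    · rw [← (even_two_mul g).neg_pow]
      ring

/-- **Both bounds for the class number are attained.** -/
theorem bounds_attained :
    ∃ D D' : k[X], (D.Monic ∧ Squarefree D ∧ D.natDegree = 2 * g + 1) ∧
      (D'.Monic ∧ Squarefree D' ∧ D'.natDegree = 2 * g + 1) ∧
      (classNumber D g : ℝ) = (Real.sqrt (Fintype.card k) + 1) ^ (2 * g) ∧
      (classNumber D' g : ℝ) = (Real.sqrt (Fintype.card k) - 1) ^ (2 * g) := by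
  obtain ⟨c, hc⟩ := FiniteField.exists_nonsquare (ringChar_ne_two hq)
  have hc0 : c ≠ 0 := fun h => hc (h ▸ IsSquare.zero)
  obtain ⟨-, h1, h2, h3, -, -, h4⟩ := extremal_lfunction hq (one_ne_zero (α := k))
  obtain ⟨-, h1', h2', h3', -, -, h4'⟩ := extremal_lfunction hq hc0
  refine ⟨_, _, ⟨h1, h2, h3⟩, ⟨h1', h2', h3'⟩, ?_, ?_⟩
  · rw [h4, hq, Nat.cast_pow, Real.sqrt_sq (Nat.cast_nonneg _), quadraticChar_apply,
      quadraticCharFun_one, Int.cast_one]
  · rw [h4', hq, Nat.cast_pow, Real.sqrt_sq (Nat.cast_nonneg _),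
      quadraticChar_neg_one_iff_not_isSquare.mpr hc]
    push_cast
    ring

/-- **The central value vanishes** to order `2 g`. -/
theorem central_vanishing :
    ∃ D : k[X], D.Monic ∧ Squarefree D ∧ D.natDegree = 2 * g + 1 ∧
      lFunction D (Real.sqrt (Fintype.card k))⁻¹ = 0 ∧
      ∀ u : ℝ, lFunction D u = (1 - Real.sqrt (Fintype.card k) * u) ^ (2 * g) := by
  obtain ⟨c, hc⟩ := FiniteField.exists_nonsquare (ringChar_ne_two hq)
  have hc0 : c ≠ 0 := fun h => hc (h ▸ IsSquare.zero)
  obtain ⟨hg, h1, h2, h3, -, hL, -⟩ := extremal_lfunction hq hc0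
  have hs : Real.sqrt (Fintype.card k) = ((2 * g + 1 : ℕ) : ℝ) := by
    rw [hq, Nat.cast_pow, Real.sqrt_sq (Nat.cast_nonneg _)]
  have h : ∀ u : ℝ, lFunction (X ^ (2 * g + 1) + C (c ^ (2 * g)) * X : k[X]) u =
      (1 - Real.sqrt (Fintype.card k) * u) ^ (2 * g) := fun u => by
    rw [hL, hs, quadraticChar_neg_one_iff_not_isSquare.mpr hc]
    push_cast
    ring
  refine ⟨_, h1, h2, h3, ?_, h⟩
  rw [h, mul_inv_cancel₀ (by rw [hs]; positivity), sub_self, zero_pow (by omega)]

end FA.ExtremalFF.Summary
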