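import Fermat.Agent.UniformSquare.Cubic
import Mathlib.RingTheory.Algebraic.Basic
import Mathlib.RingTheory.IntegralClosure.IsIntegral.Basic

/-!
# Davenport and Schmidt on approximation to a real number and its square

If `ξ` is neither rational nor quadratic then for some `c > 0` and arbitrarily large `X` no nonzero
`(x0, x1, x2)` has `|x0| ≤ X` and `|x0 ξ - x1|`, `|x0 ξ ^ 2 - x2|` at most `c X ^ (-1 / γ)`, with
`γ` the golden ratio (Davenport and Schmidt 1969), so `(ξ, ξ ^ 2)` has uniform exponent at most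
`(√5 - 1) / 2`; and some infinitely many roots `α ≠ ξ` of monic integral cubics with coefficients
at most `H` satisfy `|ξ - α| ≪ H ^ (-γ ^ 2)`. The height is that of the cubic.
-/

set_option autoImplicit false

noncomputable section

open Filter Topology

namespace FA.UniformSquare.Summary

/-- **The theorem of Davenport and Schmidt.** -/
theorem davenport_schmidt_uniform {ξ : ℝ}
    (hξ : ∀ a b c : ℤ, (a : ℝ) + b * ξ + c * ξ ^ 2 = 0 → a = 0 ∧ b = 0 ∧ c = 0) :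
    ∃ c : ℝ, 0 < c ∧ ∀ X0 : ℝ, ∃ X : ℝ, X0 ≤ X ∧ ∀ x0 x1 x2 : ℤ,
      (x0 ≠ 0 ∨ x1 ≠ 0 ∨ x2 ≠ 0) → |(x0 : ℝ)| ≤ X →
      c * X ^ (-((Real.sqrt 5 - 1) / 2)) <
        max |(x0 : ℝ) * ξ - x1| |(x0 : ℝ) * ξ ^ 2 - x2| := by
  refine ⟨1 / (10 * (|ξ| + 1)), by positivity, fun X0 => ?_⟩
  have h := not_uniform hξ (c := 1 / (10 * (|ξ| + 1))) (X0 := X0) (by positivity)
    (le_of_eq (by field_simp))
  simp only [Uniform, not_forall, not_exists, not_and, not_le] at h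
  obtain ⟨X, hX, hno⟩ := h
  exact ⟨X, hX, hno⟩

/-- **The uniform exponent of `(ξ, ξ ^ 2)` is at most `1 / γ`.** -/
theorem uniform_exponent_le {ξ : ℝ}
    (hξ : ∀ a b c : ℤ, (a : ℝ) + b * ξ + c * ξ ^ 2 = 0 → a = 0 ∧ b = 0 ∧ c = 0) {μ : ℝ}
    (hμ : (Real.sqrt 5 - 1) / 2 < μ) :
    ¬∀ᶠ X : ℝ in atTop, ∃ x0 x1 x2 : ℤ, (x0 ≠ 0 ∨ x1 ≠ 0 ∨ x2 ≠ 0) ∧ |(x0 : ℝ)| ≤ X ∧
      max |(x0 : ℝ) * ξ - x1| |(x0 : ℝ) * ξ ^ 2 - x2| ≤ X ^ (-μ) := fun h => by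
  obtain ⟨c, hc, hX⟩ := davenport_schmidt_uniform hξ
  have hsmall : ∀ᶠ X : ℝ in atTop, X ^ (-(μ - (Real.sqrt 5 - 1) / 2)) < c :=
    (tendsto_rpow_neg_atTop (sub_pos.2 hμ)).eventually_lt_const hc
  obtain ⟨X1, hX1⟩ := eventually_atTop.1 (h.and (hsmall.and (eventually_gt_atTop (0 : ℝ))))
  obtain ⟨X, hXge, hno⟩ := hX X1
  obtain ⟨⟨x0, x1, x2, hne, hle, hmax⟩, hs, hpos⟩ := hX1 X hXge
  refine absurd (hmax.trans ?_) (hno x0 x1 x2 hne hle).not_ge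
  calc X ^ (-μ) = X ^ (-(μ - (Real.sqrt 5 - 1) / 2)) * X ^ (-((Real.sqrt 5 - 1) / 2)) := by
        rw [← Real.rpow_add hpos]
        congr 1
        ring
    _ ≤ c * X ^ (-((Real.sqrt 5 - 1) / 2)) :=
        mul_le_mul_of_nonneg_right hs.le (Real.rpow_nonneg hpos.le _)

/-- **Approximation by algebraic integers of degree at most three.** -/
theorem davenport_schmidt_cubic_integers {ξ : ℝ}
    (hξ : ∀ a b c : ℤ, (a : ℝ) + b * ξ + c * ξ ^ 2 = 0 → a = 0 ∧ b = 0 ∧ c = 0) :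
    ∃ C : ℝ, 0 < C ∧ {α : ℝ | IsIntegral ℤ α ∧ ∃ a b d : ℤ,
      α ^ 3 + a * α ^ 2 + b * α + d = 0 ∧ |ξ - α| ≤
        C * (max 1 (max |(a : ℝ)| (max |(b : ℝ)| |(d : ℝ)|))) ^
          (-((3 + Real.sqrt 5) / 2))}.Infinite := by
  obtain ⟨C, hC, h⟩ := exists_cubic_approx hξ
  refine ⟨C, hC, fun hfin => ?_⟩
  obtain ⟨ε, hε, hsep⟩ : ∃ ε > 0, ∀ α ∈ hfin.toFinset.erase ξ, ε ≤ |ξ - α| := by
    rcases (hfin.toFinset.erase ξ).eq_empty_or_nonempty with h0 | h0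
    · exact ⟨1, one_pos, fun α hα => by simp [h0] at hα⟩
    · obtain ⟨α, hα, hmin⟩ := (hfin.toFinset.erase ξ).exists_min_image (fun α => |ξ - α|) h0
      exact ⟨|ξ - α|, abs_pos.2 (sub_ne_zero.2 (Finset.ne_of_mem_erase hα).symm), hmin⟩
  obtain ⟨a, b, d, α, hroot, hne, hlt, hle⟩ := h ε hε
  have hint : IsIntegral ℤ α := by
    refine ⟨Polynomial.X ^ 3 + Polynomial.C a * Polynomial.X ^ 2 + Polynomial.C b * Polynomial.X +
      Polynomial.C d, by monicity!, ?_⟩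
    rw [← Polynomial.aeval_def]
    simpa using hroot
  have hmem : α ∈ hfin.toFinset.erase ξ :=
    Finset.mem_erase.2 ⟨hne, hfin.mem_toFinset.2 ⟨hint, a, b, d, hroot, hle⟩⟩
  linarith [hsep α hmem]

/-- **For transcendental numbers.** -/
theorem davenport_schmidt_transcendental {ξ : ℝ} (hξ : Transcendental ℤ ξ) :
    ∃ c : ℝ, 0 < c ∧ ∀ X0 : ℝ, ∃ X : ℝ, X0 ≤ X ∧ ∀ x0 x1 x2 : ℤ,
      (x0 ≠ 0 ∨ x1 ≠ 0 ∨ x2 ≠ 0) → |(x0 : ℝ)| ≤ X →
      c * X ^ (-((Real.sqrt 5 - 1) / 2)) <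
        max |(x0 : ℝ) * ξ - x1| |(x0 : ℝ) * ξ ^ 2 - x2| := by
  refine davenport_schmidt_uniform fun a b c h => ?_
  by_contra hne
  refine hξ ⟨Polynomial.C a + Polynomial.C b * Polynomial.X + Polynomial.C c * Polynomial.X ^ 2,
    fun h0 => hne ?_, by simpa using h⟩
  have e0 := congrArg (fun p => Polynomial.coeff p 0) h0
  have e1 := congrArg (fun p => Polynomial.coeff p 1) h0
  have e2 := congrArg (fun p => Polynomial.coeff p 2) h0
  simp only [Polynomial.coeff_add, Polynomial.coeff_C_mul, Polynomial.coeff_C, Polynomial.coeff_X,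
    Polynomial.coeff_X_pow, Polynomial.coeff_zero] at e0 e1 e2
  norm_num at e0 e1 e2
  exact ⟨e0, e1, e2⟩

end FA.UniformSquare.Summary
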