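import Fermat.Agent.JarnikIdentity.Main
import Fermat.Agent.Root.SummaryUniformSquare
import Mathlib.Data.ENNReal.Inv

/-!
# Jarník's identity

For `1, θ1, θ2` linearly independent over `ℚ` the uniform exponents `λ` of the simultaneous
approximations and `ω` of the linear form are bound by `λ = 1 - 1 / ω` (Jarník 1938); hence, by the
theorem of Davenport and Schmidt, the linear form of `(ξ, ξ ^ 2)` has `ω ≤ (3 + √5) / 2`.
-/

set_option autoImplicit false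

noncomputable section

open Filter Topology ENNReal

namespace FA.JarnikIdentity.Summary

/-- `l` is a uniform exponent of simultaneous approximation. -/
def SimulExp (θ1 θ2 l : ℝ) : Prop :=
  ∀ᶠ X : ℝ in atTop, ∃ q : ℕ, 1 ≤ q ∧ (q : ℝ) ≤ X ∧ ∃ p1 p2 : ℤ,
    |(q : ℝ) * θ1 - p1| ≤ X ^ (-l) ∧ |(q : ℝ) * θ2 - p2| ≤ X ^ (-l)

/-- `w` is a uniform exponent of the linear form. -/
def LinearExp (θ1 θ2 w : ℝ) : Prop :=
  ∀ᶠ X : ℝ in atTop, ∃ a b c : ℤ, (b ≠ 0 ∨ c ≠ 0) ∧ |(b : ℝ)| ≤ X ∧ |(c : ℝ)| ≤ X ∧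
    |(a : ℝ) + b * θ1 + c * θ2| ≤ X ^ (-w)

theorem simulExp_iff {θ1 θ2 l : ℝ} : SimulExp θ1 θ2 l ↔ Expo (serr θ1 θ2) l :=
  eventually_congr (Eventually.of_forall fun _ => exists_congr fun _ =>
    and_congr_right fun _ => and_congr_right fun _ =>
      ⟨fun ⟨p1, p2, h1, h2⟩ => max_le ((round_le _ p1).trans h1) ((round_le _ p2).trans h2),
        fun h => ⟨_, _, (le_max_left _ _).trans h, (le_max_right _ _).trans h⟩⟩)

theorem linearExp_iff {θ1 θ2 w : ℝ} : LinearExp θ1 θ2 w ↔ Expo (ferr θ1 θ2) w :=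
  eventually_congr (Eventually.of_forall fun X => ⟨
    fun ⟨a, b, c, hne, hb, hc, h⟩ =>
      ⟨height b c, one_le_height hne, height_le hb hc, (ferr_le θ1 θ2 a b c).trans h⟩,
    fun ⟨M, hM, hMX, h⟩ => by
      obtain ⟨a, b, c, hh, he⟩ := exists_ferr_eq θ1 θ2 M
      subst hh
      refine ⟨a, b, c, ?_, (abs_le_height b c).1.trans hMX, (abs_le_height b c).2.trans hMX,
        le_of_eq_of_le he h⟩
      by_contra! h0
      simp [height, h0.1, h0.2] at hM⟩)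

variable {θ1 θ2 : ℝ}

/-- **Jarník: from the linear form to simultaneous approximations.** -/
theorem jarnik_linear_to_simultaneous
    (hθ : ∀ a b c : ℤ, (a : ℝ) + b * θ1 + c * θ2 = 0 → a = 0 ∧ b = 0 ∧ c = 0) {w : ℝ}
    (hw : 2 ≤ w) (h : LinearExp θ1 θ2 w) {l : ℝ} (hl : l < 1 - 1 / w) : SimulExp θ1 θ2 l :=
  simulExp_iff.2 (expo_serr_of_expo_ferr hθ hw (linearExp_iff.1 h) hl)

/-- **Jarník: from simultaneous approximations to the linear form.** -/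
theorem jarnik_simultaneous_to_linear
    (hθ : ∀ a b c : ℤ, (a : ℝ) + b * θ1 + c * θ2 = 0 → a = 0 ∧ b = 0 ∧ c = 0) {l : ℝ}
    (hl : 1 / 2 ≤ l) (hl1 : l < 1) (h : SimulExp θ1 θ2 l) {w : ℝ} (hw : w < 1 / (1 - l)) :
    LinearExp θ1 θ2 w :=
  linearExp_iff.2 (expo_ferr_of_expo_serr hθ hl hl1 (simulExp_iff.1 h) hw)

/-- No simultaneous exponent exceeds `1`. -/
theorem simultaneous_exponent_le_one
    (hθ : ∀ a b c : ℤ, (a : ℝ) + b * θ1 + c * θ2 = 0 → a = 0 ∧ b = 0 ∧ c = 0) {l : ℝ}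
    (h : SimulExp θ1 θ2 l) : l ≤ 1 :=
  le_one_of_expo_serr hθ (simulExp_iff.1 h)

/-- **Jarník's identity**, without suprema. -/
theorem jarnik_identity
    (hθ : ∀ a b c : ℤ, (a : ℝ) + b * θ1 + c * θ2 = 0 → a = 0 ∧ b = 0 ∧ c = 0) {l : ℝ}
    (hl : 1 / 2 ≤ l) (hl1 : l < 1) :
    (∃ l', l < l' ∧ SimulExp θ1 θ2 l') ↔ ∃ w, 1 / (1 - l) < w ∧ LinearExp θ1 θ2 w := by
  constructor
  · rintro ⟨l', hll, h⟩
    obtain ⟨m, hm, hm'⟩ := exists_between (lt_min hll hl1)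
    obtain ⟨hml, hm1⟩ := lt_min_iff.1 hm'
    obtain ⟨w, hw, hw'⟩ := exists_between (one_div_lt_one_div_of_lt (by linarith : 0 < 1 - m)
      (by linarith : 1 - m < 1 - l))
    exact ⟨w, hw, jarnik_simultaneous_to_linear hθ (by linarith) hm1
      (simulExp_iff.2 ((simulExp_iff.1 h).mono hml.le)) hw'⟩
  · rintro ⟨w, hw, h⟩
    have hs : 0 < 1 - l := by linarith
    have hw2 : 2 ≤ w := le_trans (by rw [le_div_iff₀ hs]; linarith) hw.le
    have hlw : l < 1 - 1 / w := by linarith [(one_div_lt hs (by linarith)).1 hw]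
    obtain ⟨m, hm, hm'⟩ := exists_between hlw
    exact ⟨m, hm, jarnik_linear_to_simultaneous hθ hw2 h hm'⟩

/-- **Jarník's identity.** -/
theorem jarnik_identity_iSup
    (hθ : ∀ a b c : ℤ, (a : ℝ) + b * θ1 + c * θ2 = 0 → a = 0 ∧ b = 0 ∧ c = 0) :
    (⨆ (l : ℝ) (_ : SimulExp θ1 θ2 l), ENNReal.ofReal l) =
      1 - (⨆ (w : ℝ) (_ : LinearExp θ1 θ2 w), ENNReal.ofReal w)⁻¹ := by
  set W := ⨆ (w : ℝ) (_ : LinearExp θ1 θ2 w), ENNReal.ofReal w with hW
  have hstep : ∀ t : ℝ, 0 ≤ t → t < 1 → (∀ w, w < 1 / (1 - t) → LinearExp θ1 θ2 w) →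
      ENNReal.ofReal t ≤ 1 - W⁻¹ := fun t ht0 ht1 h => by
    have hle : ENNReal.ofReal (1 / (1 - t)) ≤ W := ENNReal.le_of_forall_nnreal_lt fun r hr => by
      rw [← ENNReal.ofReal_coe_nnreal]
      exact le_iSup₂ (f := fun (w : ℝ) (_ : LinearExp θ1 θ2 w) => ENNReal.ofReal w) (r : ℝ)
        (h r (by rwa [← ENNReal.ofReal_coe_nnreal,
          ENNReal.ofReal_lt_ofReal_iff_of_nonneg r.coe_nonneg] at hr))
    have hinv := ENNReal.inv_le_inv.2 hle
    rw [one_div, ← ENNReal.ofReal_inv_of_pos (inv_pos.2 (by linarith)), inv_inv] at hinv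
    calc ENNReal.ofReal t = 1 - ENNReal.ofReal (1 - t) := by
          rw [← ENNReal.ofReal_one, ← ENNReal.ofReal_sub _ (by linarith), _root_.sub_sub_cancel]
      _ ≤ 1 - W⁻¹ := tsub_le_tsub_left hinv 1
  apply le_antisymm
  · refine iSup₂_le fun l h => ENNReal.le_of_forall_nnreal_lt fun r hr => ?_
    rw [← ENNReal.ofReal_coe_nnreal]
    rw [← ENNReal.ofReal_coe_nnreal, ENNReal.ofReal_lt_ofReal_iff_of_nonneg r.coe_nonneg] at hr
    rcases lt_or_ge (r : ℝ) (1 / 2) with h2 | h2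
    · refine (ENNReal.ofReal_le_ofReal h2.le).trans (hstep (1 / 2) (by norm_num) (by norm_num) ?_)
      exact fun w hw => linearExp_iff.2 (expo_ferr θ1 θ2 (by norm_num at hw; exact hw))
    · have hr1 : (r : ℝ) < 1 := hr.trans_le (simultaneous_exponent_le_one hθ h)
      exact hstep r r.coe_nonneg hr1 fun w hw => jarnik_simultaneous_to_linear hθ h2 hr1
        (simulExp_iff.2 ((simulExp_iff.1 h).mono hr.le)) hw
  · refine ENNReal.le_of_forall_nnreal_lt fun r hr => ?_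
    rw [← ENNReal.ofReal_coe_nnreal] at hr ⊢
    refine le_iSup₂ (f := fun (l : ℝ) (_ : SimulExp θ1 θ2 l) => ENNReal.ofReal l) (r : ℝ) ?_
    rcases lt_or_ge (r : ℝ) (1 / 2) with h2 | h2
    · exact simulExp_iff.2 (expo_serr θ1 θ2 h2)
    have hr1 : (r : ℝ) < 1 := by
      have := hr.trans_le tsub_le_self
      rwa [← ENNReal.ofReal_one, ENNReal.ofReal_lt_ofReal_iff one_pos] at this
    have hinv : W⁻¹ < ENNReal.ofReal (1 - (r : ℝ)) := by
      rw [ENNReal.ofReal_sub _ r.coe_nonneg, ENNReal.ofReal_one]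
      exact lt_tsub_iff_right.2 (by rw [add_comm]; exact lt_tsub_iff_right.1 hr)
    rw [ENNReal.inv_lt_iff_inv_lt, ← ENNReal.ofReal_inv_of_pos (by linarith), hW] at hinv
    obtain ⟨w, hw⟩ := lt_iSup_iff.1 hinv
    obtain ⟨h, hw⟩ := lt_iSup_iff.1 hw
    obtain ⟨hw, -⟩ := ENNReal.ofReal_lt_ofReal_iff'.1 hw
    rw [← one_div] at hw
    have hw2 : 2 ≤ w := le_trans (by rw [le_div_iff₀ (by linarith)]; linarith) hw.le
    exact jarnik_linear_to_simultaneous hθ hw2 h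
      (by linarith [(one_div_lt (by linarith) (by linarith)).1 hw])

/-- **The linear form of a number and its square.** -/
theorem linear_exponent_square_le {ξ : ℝ}
    (hξ : ∀ a b c : ℤ, (a : ℝ) + b * ξ + c * ξ ^ 2 = 0 → a = 0 ∧ b = 0 ∧ c = 0) {w : ℝ}
    (h : LinearExp ξ (ξ ^ 2) w) : w ≤ (3 + Real.sqrt 5) / 2 := by
  by_contra! hw
  have h5 := Real.sq_sqrt (show (0 : ℝ) ≤ 5 by norm_num)
  have hw2 : 2 ≤ w := by nlinarith [Real.sqrt_nonneg 5]
  have hlt : (Real.sqrt 5 - 1) / 2 < 1 - 1 / w := by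
    rw [lt_sub_iff_add_lt, ← lt_sub_iff_add_lt', div_lt_iff₀ (by linarith)]
    nlinarith [Real.sqrt_nonneg 5]
  obtain ⟨m, hm, hm'⟩ := exists_between hlt
  refine UniformSquare.Summary.uniform_exponent_le hξ hm ?_
  filter_upwards [jarnik_linear_to_simultaneous hξ hw2 h hm'] with X hX
  obtain ⟨q, hq, hqX, p1, p2, h1, h2⟩ := hX
  exact ⟨q, p1, p2, Or.inl (by omega), by simpa using hqX, by simpa using ⟨h1, h2⟩⟩

end FA.JarnikIdentity.Summary
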