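import Fermat.Agent.ExtremalReals.Main
import Fermat.Agent.Root.SummaryJarnikIdentity

/-!
# Roy's extremal numbers

The bound of Davenport and Schmidt is sharp (Roy 2003): a transcendental `ξ` has `(ξ, ξ ^ 2)`
uniformly approximated within `≪ X ^ (-1 / γ)`, `γ` the golden ratio. So the exponents are exactly
`(√5 - 1) / 2` and, by Jarník's identity, `(3 + √5) / 2`.
-/

set_option autoImplicit false

noncomputable section

open Filter Topology ENNReal

namespace FA.ExtremalReals.Summary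

open FA.JarnikIdentity.Summary (SimulExp LinearExp)

theorem transcendental_int : Transcendental ℤ extremal := fun h =>
  transcendental_extremal ((IsFractionRing.isAlgebraic_iff ℤ ℚ ℝ).1 h)

/-- **Roy's theorem**: extremal numbers exist. -/
theorem roy_extremal_number : ∃ ξ : ℝ, Transcendental ℤ ξ ∧ ∃ C X0 : ℝ, 0 < C ∧
    ∀ X : ℝ, X0 ≤ X → ∃ x0 x1 x2 : ℤ, 1 ≤ x0 ∧ (x0 : ℝ) ≤ X ∧
      max |(x0 : ℝ) * ξ - x1| |(x0 : ℝ) * ξ ^ 2 - x2| ≤ C * X ^ (-((Real.sqrt 5 - 1) / 2)) := by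
  obtain ⟨C, hC, h⟩ := uniform_extremal
  exact ⟨extremal, transcendental_int, C, _, hC, h⟩

theorem simulExp_extremal {l : ℝ} (hl : l < (Real.sqrt 5 - 1) / 2) :
    SimulExp extremal (extremal ^ 2) l := by
  obtain ⟨C, -, h⟩ := uniform_extremal
  refine JarnikIdentity.Summary.simulExp_iff.2
    (JarnikIdentity.Expo.of_bound (C := C) (D := 1) one_pos hl ?_)
  filter_upwards [eventually_ge_atTop (den 0 : ℝ)] with X hX
  obtain ⟨x0, x1, x2, h1, hle, hmax⟩ := h X hX
  refine ⟨x0.natAbs, by omega, ?_, (JarnikIdentity.serr_le_max _ _ x0 x1 x2).trans hmax⟩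
  have h0 : (0 : ℝ) ≤ x0 := by exact_mod_cast (by omega : 0 ≤ x0)
  rw [one_mul, Nat.cast_natAbs, Int.cast_abs, abs_of_nonneg h0]
  exact hle

theorem linearExp_extremal {w : ℝ} (hw : w < (3 + Real.sqrt 5) / 2) :
    LinearExp extremal (extremal ^ 2) w := by
  have h5 := Real.sq_sqrt (show (0 : ℝ) ≤ 5 by norm_num)
  have h0 := Real.sqrt_nonneg 5
  have hgt : (2 : ℝ) < (3 + Real.sqrt 5) / 2 := by nlinarith
  obtain ⟨v, hv, hv'⟩ := exists_between (max_lt hw hgt)
  obtain ⟨hwv, hv2⟩ := max_lt_iff.1 hv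
  have hlt : 1 - 1 / v < (Real.sqrt 5 - 1) / 2 := by
    rw [sub_lt_iff_lt_add, ← sub_lt_iff_lt_add', lt_div_iff₀ (by linarith)]
    nlinarith
  obtain ⟨l, hl, hl'⟩ := exists_between hlt
  have hl2 : 1 / 2 ≤ l := by
    have := one_div_lt_one_div_of_lt two_pos hv2
    linarith
  have hl1 : l < 1 := by nlinarith
  refine JarnikIdentity.Summary.jarnik_simultaneous_to_linear notQuadratic hl2 hl1
    (simulExp_extremal hl') (hwv.trans ?_)
  rw [lt_div_iff₀ (by linarith)]
  have hv1 : v * (1 / v) = 1 := by field_simp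
  nlinarith [mul_lt_mul_of_pos_left hl (by linarith : 0 < v)]

/-- **The exponents of Davenport and Schmidt are attained.** -/
theorem davenport_schmidt_sharp : ∃ ξ : ℝ, Transcendental ℤ ξ ∧
    (⨆ (l : ℝ) (_ : SimulExp ξ (ξ ^ 2) l), ENNReal.ofReal l) =
      ENNReal.ofReal ((Real.sqrt 5 - 1) / 2) ∧
    (⨆ (w : ℝ) (_ : LinearExp ξ (ξ ^ 2) w), ENNReal.ofReal w) =
      ENNReal.ofReal ((3 + Real.sqrt 5) / 2) := by
  refine ⟨extremal, transcendental_int,
    le_antisymm (iSup₂_le fun l hl => ENNReal.ofReal_le_ofReal ?_) ?_,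
    le_antisymm (iSup₂_le fun w hw => ENNReal.ofReal_le_ofReal
      (JarnikIdentity.Summary.linear_exponent_square_le notQuadratic hw)) ?_⟩
  · by_contra! hlt
    refine UniformSquare.Summary.uniform_exponent_le notQuadratic hlt ?_
    filter_upwards [hl] with X hX
    obtain ⟨q, hq, hqX, p1, p2, h1, h2⟩ := hX
    exact ⟨q, p1, p2, Or.inl (by omega), by simpa using hqX, by simpa using ⟨h1, h2⟩⟩
  · refine ENNReal.le_of_forall_nnreal_lt fun r hr => ?_
    rw [← ENNReal.ofReal_coe_nnreal] at hr ⊢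
    exact le_iSup₂ (f := fun (l : ℝ) (_ : SimulExp extremal (extremal ^ 2) l) => ENNReal.ofReal l)
      (r : ℝ) (simulExp_extremal ((ENNReal.ofReal_lt_ofReal_iff_of_nonneg r.coe_nonneg).1 hr))
  · refine ENNReal.le_of_forall_nnreal_lt fun r hr => ?_
    rw [← ENNReal.ofReal_coe_nnreal] at hr ⊢
    exact le_iSup₂ (f := fun (w : ℝ) (_ : LinearExp extremal (extremal ^ 2) w) => ENNReal.ofReal w)
      (r : ℝ) (linearExp_extremal ((ENNReal.ofReal_lt_ofReal_iff_of_nonneg r.coe_nonneg).1 hr))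

end FA.ExtremalReals.Summary
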