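import Fermat.Agent.FlattoLagariasPollington.Main

/-!
# Flatto–Lagarias–Pollington and Morse–Hedlund

* `flatto_lagarias_pollington`: for a rational `a / b > 1` in lowest terms, `b ≥ 2`, and `ξ ≠ 0`
  the fractional parts of `ξ (a / b) ^ n` oscillate by at least `1 / a` for large `n`;
* `morse_hedlund`: a sequence with at most `m` different blocks of length `m`, for some `m`, is
  eventually periodic.

Complements `SummaryRationalPowers`; independent of S01.
-/

set_option autoImplicit false

noncomputable section

open Filter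

namespace FA.Summary

/-- **The theorem of Flatto, Lagarias and Pollington.** -/
theorem flatto_lagarias_pollington {q : ℚ} (hq : 1 < q) (hden : q.den ≠ 1) {ξ : ℝ} (hξ : ξ ≠ 0) :
    1 / (q.num : ℝ) ≤ limsup (fun n : ℕ => Int.fract (ξ * (q : ℝ) ^ n)) atTop -
      liminf (fun n : ℕ => Int.fract (ξ * (q : ℝ) ^ n)) atTop :=
  FA.FLP.oscillation_ge hq hden hξ

/-- **The theorem of Morse and Hedlund.** -/
theorem morse_hedlund {β : Type*} (x : ℕ → β) {m : ℕ}
    (hfin : (Set.range fun i (j : Fin m) => x (i + j)).Finite)
    (hcard : (Set.range fun i (j : Fin m) => x (i + j)).ncard ≤ m) :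
    ∃ T N, 0 < T ∧ ∀ n, N ≤ n → x (n + T) = x n :=
  FA.FLP.periodic_of_complexity x hfin hcard

end FA.Summary

end
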