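import Fermat.Agent.Fabry.Main

/-!
# Fabry's gap theorem

* `FA.Summary.fabry_gap`: a power series with radius of convergence `1` whose nonzero coefficients
  have density zero has the unit circle as natural boundary (Fabry 1896, Pólya).
* `FA.Summary.fabry_gap_exponents`: in particular `∑ c k z ^ e k` with `e k / k → ∞`.
* `FA.Summary.squares_natural_boundary`: for example `∑ z ^ (k ^ 2)`, to which Hadamard's theorem
  does not apply.
* `FA.Summary.turan_lemma`: Turán's lemma, the tool of the proof.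
-/

set_option autoImplicit false

noncomputable section

open Filter Topology Metric Finset

namespace FA.Summary

/-- **Fabry's gap theorem.** -/
theorem fabry_gap {a : ℕ → ℂ}
    (hconv : ∀ r : ℝ, 0 ≤ r → r < 1 → Summable fun n => ‖a n‖ * r ^ n)
    (hdiv : ∀ r : ℝ, 1 < r → ¬Summable fun n => ‖a n‖ * r ^ n)
    (hgap : Tendsto (fun N : ℕ => (#((range N).filter fun n => a n ≠ 0) : ℝ) / N) atTop (𝓝 0))
    {ζ : ℂ} (hζ : ‖ζ‖ = 1) {ρ : ℝ} (hρ : 0 < ρ) :
    ¬∃ g : ℂ → ℂ, DifferentiableOn ℂ g (ball ζ ρ) ∧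
      ∀ z ∈ ball ζ ρ, ‖z‖ < 1 → g z = ∑' n, a n * z ^ n :=
  fun ⟨_, hg, heq⟩ => FA.Fabry.no_continuation hconv hdiv hgap hζ hρ hg heq

/-- **Fabry's gap theorem**, for exponents growing faster than linearly. -/
theorem fabry_gap_exponents {e : ℕ → ℕ} {c : ℕ → ℂ} (he : StrictMono e)
    (hlim : Tendsto (fun k : ℕ => (e k : ℝ) / k) atTop atTop)
    (hconv : ∀ r : ℝ, 0 ≤ r → r < 1 → Summable fun k => ‖c k‖ * r ^ e k)
    (hdiv : ∀ r : ℝ, 1 < r → ¬Summable fun k => ‖c k‖ * r ^ e k)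
    {ζ : ℂ} (hζ : ‖ζ‖ = 1) {ρ : ℝ} (hρ : 0 < ρ) :
    ¬∃ g : ℂ → ℂ, DifferentiableOn ℂ g (ball ζ ρ) ∧
      ∀ z ∈ ball ζ ρ, ‖z‖ < 1 → g z = ∑' k, c k * z ^ e k := by
  obtain ⟨a, ha⟩ : ∃ a : ℕ → ℂ, a = Function.extend e c 0 := ⟨_, rfl⟩
  have hval : ∀ k, a (e k) = c k := fun k => by rw [ha, he.injective.extend_apply]
  have hout : ∀ n, n ∉ Set.range e → a n = 0 := fun n hn => by
    rw [ha, Function.extend_apply' _ _ _ hn, Pi.zero_apply]
  have hsum : ∀ r : ℝ, (Summable fun n => ‖a n‖ * r ^ n) ↔ Summable fun k => ‖c k‖ * r ^ e k :=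
    fun r => by
      rw [← he.injective.summable_iff (f := fun n => ‖a n‖ * r ^ n) fun n hn => by
        simp [hout n hn]]
      simp [Function.comp_def, hval]
  rintro ⟨g, hg, heq⟩
  refine fabry_gap (a := a) (fun r h0 h1 => (hsum r).2 (hconv r h0 h1))
    (fun r hr => (hsum r).not.2 (hdiv r hr))
    (FA.Fabry.tendsto_count_of_gap (fun n hn => not_not.1 fun h => hn (hout n h)) hlim) hζ hρ
    ⟨g, hg, fun z hz hz1 => ?_⟩
  rw [heq z hz hz1, ← he.injective.tsum_eq (f := fun n => a n * z ^ n) fun n hn => ?_]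
  · simp [hval]
  · by_contra h
    simp [hout n h] at hn

/-- **`∑ z ^ (k ^ 2)` has the unit circle as natural boundary.** -/
theorem squares_natural_boundary {ζ : ℂ} (hζ : ‖ζ‖ = 1) {ρ : ℝ} (hρ : 0 < ρ) :
    ¬∃ g : ℂ → ℂ, DifferentiableOn ℂ g (ball ζ ρ) ∧
      ∀ z ∈ ball ζ ρ, ‖z‖ < 1 → g z = ∑' k : ℕ, z ^ k ^ 2 := by
  have h := fabry_gap_exponents (e := fun k => k ^ 2) (c := fun _ => 1)
    (fun a b hab => Nat.pow_lt_pow_left hab two_ne_zero)
    (tendsto_natCast_atTop_atTop.congr fun k => by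
      rcases eq_or_ne k 0 with rfl | hk
      · simp
      · rw [Nat.cast_pow, sq, mul_div_assoc, div_self (Nat.cast_ne_zero.2 hk), mul_one])
    (fun r h0 h1 => by
      simp only [norm_one, one_mul]
      exact (summable_geometric_of_lt_one h0 h1).of_nonneg_of_le (fun k => by positivity)
        fun k => pow_le_pow_of_le_one h0 h1.le (Nat.le_self_pow two_ne_zero k))
    (fun r hr hs => by
      simp only [norm_one, one_mul] at hs
      obtain ⟨k, hk⟩ := (hs.tendsto_atTop_zero.eventually_lt_const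
        (show (0 : ℝ) < 1 from one_pos)).exists
      exact absurd hk (not_lt.2 (one_le_pow₀ hr.le)))
    hζ hρ
  simpa using h

/-- **Turán's lemma** on exponential sums with `n` terms. -/
theorem turan_lemma {ι : Type*} (T : Finset ι) (c : ι → ℂ) (φ : ι → ℕ) {α B : ℝ} (hα : 0 < α)
    (hB : ∀ t : ℝ, |t| ≤ α → ‖∑ i ∈ T, c i * Complex.exp (Complex.I * ((φ i : ℝ) * t : ℝ))‖ ≤ B)
    (t : ℝ) :
    ‖∑ i ∈ T, c i * Complex.exp (Complex.I * ((φ i : ℝ) * t : ℝ))‖ ≤
      (Real.exp 2 * (2 * Real.pi / α + 1)) ^ #T * B :=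
  FA.Fabry.norm_expSum_le T c φ hα hB t

end FA.Summary
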