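import Fermat.Agent.Factorisation.Lengths
import Fermat.Agent.Root.SummaryPrimeIdealTheorem

/-!
# The arithmetic meaning of the class number: Carlitz and Valenza

For a number field `K` let `D` be the Davenport constant of the class group, the largest size of a minimal
product-one multiset.

* `carlitz_halfFactorial`: all factorisations of each nonzero integer of `K` into irreducibles have equal length iff
  `h ≤ 2`.
* `valenza_elasticity`: for `h ≥ 2` two lengths of one element satisfy `2 m ≤ D n`, and lengths `2` and `D` occur for
  one element, so the elasticity is `D / 2`; `davenport_classGroup`: `D ≤ h`, with equality for a cyclic class group.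
* `irreducible_classes`: an integer is irreducible iff the classes of its primes form a minimal product-one multiset,
  and every such multiset occurs.
* `lengths_unbounded`: for `h ≥ 3` the spread of the lengths of one element is unbounded.

Independent of S01.
-/

set_option autoImplicit false
set_option linter.unusedSectionVars false

noncomputable section

open NumberField FA.Factorisation
open scoped Classical nonZeroDivisors

namespace FA.Summary

variable (K : Type*) [Field K] [NumberField K]

theorem exists_prime_in_class (g : ClassGroup (𝓞 K)) :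
    ∃ P : Ideal (𝓞 K), P.IsPrime ∧ P ≠ ⊥ ∧ idealClass P = g := by
  obtain ⟨v, hv⟩ := (infinite_primes_in_class K g).nonempty
  exact ⟨v.asIdeal, v.isPrime, v.ne_bot, by
    rw [idealClass, dif_pos (mem_nonZeroDivisors_iff_ne_zero.mpr v.ne_bot)]
    exact hv⟩

/-- Factorisations into irreducibles exist. -/
theorem exists_factorisation {a : 𝓞 K} (ha : a ≠ 0) : ∃ s, IsFactorisation a s :=
  WfDvdMonoid.exists_factors a ha

/-- **The dictionary.** -/
theorem irreducible_classes :
    (∀ a : 𝓞 K, a ≠ 0 → (Irreducible a ↔ IsMinimalProdOne (classes a))) ∧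
      ∀ s : Multiset (ClassGroup (𝓞 K)), IsMinimalProdOne s → ∃ a : 𝓞 K, Irreducible a ∧ classes a = s := by
  refine ⟨fun a ha => irreducible_iff_classes ha, fun s hs => ?_⟩
  choose P hP using exists_prime_in_class K
  obtain ⟨a, ha, -, hc⟩ := exists_span_eq_prod hP hs.prod_eq
  exact ⟨a, (irreducible_iff_classes ha).mpr (hc ▸ hs), hc⟩

/-- **Carlitz's theorem.** -/
theorem carlitz_halfFactorial :
    (∀ (a : 𝓞 K) (s t : Multiset (𝓞 K)), a ≠ 0 → IsFactorisation a s → IsFactorisation a t →
      Multiset.card s = Multiset.card t) ↔ classNumber K ≤ 2 := by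
  rw [carlitz_iff (exists_prime_in_class K), classNumber, Nat.card_eq_fintype_card]

/-- **Valenza's theorem.** -/
theorem valenza_elasticity (hh : 2 ≤ classNumber K) :
    (∀ (a : 𝓞 K) (s t : Multiset (𝓞 K)), IsFactorisation a s → IsFactorisation a t →
        2 * Multiset.card s ≤ davenport (ClassGroup (𝓞 K)) * Multiset.card t) ∧
      ∃ (a : 𝓞 K) (s t : Multiset (𝓞 K)), a ≠ 0 ∧ IsFactorisation a s ∧ IsFactorisation a t ∧
        Multiset.card s = 2 ∧ Multiset.card t = davenport (ClassGroup (𝓞 K)) := by
  rw [classNumber, ← Nat.card_eq_fintype_card] at hh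
  refine ⟨fun a s t hs ht => ?_, exists_lengths (exists_prime_in_class K) hh⟩
  have := length_le hs ht
  rwa [max_eq_left (two_le_davenport hh)] at this

/-- **The Davenport constant of the class group.** -/
theorem davenport_classGroup :
    davenport (ClassGroup (𝓞 K)) ≤ classNumber K ∧
      (IsCyclic (ClassGroup (𝓞 K)) → davenport (ClassGroup (𝓞 K)) = classNumber K) := by
  rw [classNumber, ← Nat.card_eq_fintype_card]
  exact ⟨davenport_le_card, fun _ => davenport_eq_card⟩

/-- **Unbounded spread.** -/
theorem lengths_unbounded (hh : 3 ≤ classNumber K) (N : ℕ) :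
    ∃ (a : 𝓞 K) (s t : Multiset (𝓞 K)), a ≠ 0 ∧ IsFactorisation a s ∧ IsFactorisation a t ∧
      Multiset.card s + N ≤ Multiset.card t := by
  rw [classNumber, ← Nat.card_eq_fintype_card] at hh
  obtain ⟨a, s, t, ha, hs, ht, hs2, htD⟩ := exists_lengths (exists_prime_in_class K) (show 2 ≤ Nat.card _ by omega)
  have hD := three_le_davenport hh
  refine ⟨a ^ N, N • s, N • t, pow_ne_zero N ha, hs.nsmul N, ht.nsmul N, ?_⟩
  rw [Multiset.card_nsmul, Multiset.card_nsmul, hs2, htD]
  nlinarith

end FA.Summary
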