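import Fermat.Agent.Frostman.Falconer

/-!
# Falconer's distance set theorem

A compact plane set of dimension above `3 / 2` spans distances of positive length (Falconer 1985).
The proof rests on the decay `O((t ‖ξ‖) ^ (-1/2))` of the Fourier transform of the circle.
-/

set_option autoImplicit false

noncomputable section

open MeasureTheory
open scoped ENNReal Real

namespace FA.Frostman.Summary

/-- **Falconer's distance set theorem.** -/
theorem falconer_distance_set {K : Set ℂ} (hK : IsCompact K) (hd : 3 / 2 < dimH K) :
    0 < volume (Set.image2 dist K K) :=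
  volume_distanceSet_pos hK hd

/-- **Falconer**, quantitatively: some probability measure on the set makes the distance of two
random points almost surely nonzero, with bounded density on each `[a, b]` with `a > 0`. -/
theorem falconer_bounded_density {K : Set ℂ} (hK : IsCompact K) (hd : 3 / 2 < dimH K) :
    ∃ μ : Measure ℂ, IsProbabilityMeasure μ ∧ μ Kᶜ = 0 ∧ μ.prod μ {p | p.1 = p.2} = 0 ∧
      ∀ a b : ℝ, 0 < a → ∃ D : ℝ,
        ((μ.prod μ).map fun p => dist p.1 p.2).restrict (Set.Icc a b) ≤
          ENNReal.ofReal D • volume :=
  exists_bounded_distance_density hK hd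

/-- The decay of the Fourier transform of the circle of radius `t`. -/
theorem circle_fourier_decay {t : ℝ} (ht : 0 < t) {ξ : ℂ} (hξ : ξ ≠ 0) :
    |∫ θ in -(2 * π)..2 * π, Real.cos (inner ℝ ((t : ℂ) * Complex.exp (θ * Complex.I)) ξ)| ≤
      8 * (1 + π) / √(t * ‖ξ‖) := by
  simp only [inner_circle]
  exact abs_integral_cos_planeProj_le ht hξ

end FA.Frostman.Summary

end
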