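import Fermat.Agent.FamilyZeroDensity.Positivity

/-!
# The zeros of Dedekind zeta functions in families: the theorem of Tsfasman and Vlăduţ

Let `E i` be the entire continuations of `(s - 1) ζ` for number fields `F i` with
`g = log √|d| → ∞`. The Riemann hypothesis for each is an argument and is never assumed.
If `N_q/g → φ q`, `r₁/g → φR`, `r₂/g → φC` then an interval `[a, b]` holds `(π⁻¹ ∫_a^b M + o(1)) g`
ordinates of zeros, where `M`, given in closed form, is continuous, nonnegative and positive for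
`t ≠ 0`. With no condition on degrees or ratios every interval of positive length holds an ordinate
eventually, so the least one tends to `0`, and the order of vanishing at each `1/2 + t i` is
`o (log |d|)`.
-/

set_option autoImplicit false

noncomputable section

universe u

open NumberField InfinitePlace Module Filter Topology Set
open FA.TsfasmanVladut FA.DedekindHadamard FA.DedekindZeroDistribution FA.FamilyZeroDensity
open FA.DedekindZeroCount (cleared mem_stripZeros_iff finite_stripZeros)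
open scoped Real

namespace FA.FamilyZeroDensity.Summary

variable {F : ℕ → Type u} [∀ i, Field (F i)] [∀ i, NumberField (F i)] {E : ℕ → ℂ → ℂ}

private theorem eq_clearedSeq (hE : ∀ i, Differentiable ℂ (E i))
    (hEL : ∀ i, ∀ s : ℂ, 1 < s.re → E i s = (s - 1) * dedekindZeta (F i) s) :
    E = fun i => cleared (F i) :=
  funext fun i => FA.DedekindZeroCount.eq_cleared (F i) (hE i) (hEL i)

private theorem countIcc_eq (K : Type u) [Field K] [NumberField K] (a b : ℝ) :
    countIcc K a b =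
      ((∑ᶠ ρ ∈ {ρ : ℂ | cleared K ρ = 0 ∧ 0 < ρ.re ∧ ρ.re < 1 ∧ a ≤ ρ.im ∧ ρ.im ≤ b},
        analyticOrderNatAt (cleared K) ρ : ℕ) : ℝ) := by
  obtain ⟨S, hS⟩ :
    ∃ S, S = {ρ : ℂ | cleared K ρ = 0 ∧ 0 < ρ.re ∧ ρ.re < 1 ∧ a ≤ ρ.im ∧ ρ.im ≤ b} := ⟨_, rfl⟩
  rw [← hS]
  have hfin : S.Finite := (finite_stripZeros K (|a| + |b|)).subset fun ρ hρ => by
    rw [hS] at hρ
    obtain ⟨h0, h1, h2, h3, h4⟩ := hρ
    exact ⟨h0, h1, h2, abs_le.2 ⟨by linarith [neg_abs_le a, abs_nonneg b],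
      by linarith [le_abs_self b, abs_nonneg a]⟩⟩
  rw [finsum_mem_eq_finite_toFinset_sum _ hfin, Nat.cast_sum, countIcc, intervalCount,
    tsum_eq_sum (s := hfin.toFinset) fun ρ hρ => ?_]
  · refine Finset.sum_congr rfl fun ρ hρ => ?_
    rw [Set.Finite.mem_toFinset, hS] at hρ
    obtain ⟨-, h1, -, h3⟩ := hρ
    rw [if_pos (abs_sub_mid_le_iff.2 h3), xiMult_eq_order K h1]
  · rw [Set.Finite.mem_toFinset, hS] at hρ
    split_ifs with h
    · rcases eq_or_ne (xiMult K ρ) 0 with hm | hm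
      · rw [hm, Nat.cast_zero]
      · obtain ⟨e0, e1, e2, -⟩ :=
          (mem_stripZeros_iff K).2 ⟨(xiMult_ne_zero_iff K).1 hm, le_refl |ρ.im|⟩
        exact absurd ⟨e0, e1, e2, abs_sub_mid_le_iff.1 h⟩ hρ
    · rfl

/-- **The distribution of the zeros in a family with converging ratios.** -/
theorem zeros_distribution (hE : ∀ i, Differentiable ℂ (E i))
    (hEL : ∀ i, ∀ s : ℂ, 1 < s.re → E i s = (s - 1) * dedekindZeta (F i) s)
    (hRH : ∀ i, ∀ z : ℂ, E i z = 0 → 0 < z.re → z.re < 1 → z.re = 1 / 2)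
    {φ : ℕ → ℝ} {φR φC : ℝ} (hg : Tendsto (fun i => logGenus (F i)) atTop atTop)
    (hφ : ∀ q, Tendsto (fun i => (placeCount (F i) q : ℝ) / logGenus (F i)) atTop (𝓝 (φ q)))
    (hR : Tendsto (fun i => (nrRealPlaces (F i) : ℝ) / logGenus (F i)) atTop (𝓝 φR))
    (hC : Tendsto (fun i => (nrComplexPlaces (F i) : ℝ) / logGenus (F i)) atTop (𝓝 φC)) :
    ∃ M : ℝ → ℝ, (∀ t : ℝ, M t =
        1 - (∑' q : ℕ, φ q *
          ((Real.log q : ℂ) / ((q : ℂ) ^ ((1 / 2 : ℂ) + t * Complex.I) - 1)).re) -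
          (φR * ((Real.log π - (Complex.digamma (((1 / 2 : ℂ) + t * Complex.I) / 2)).re) / 2) +
            φC * (Real.log (2 * π) - (Complex.digamma ((1 / 2 : ℂ) + t * Complex.I)).re))) ∧
      Continuous M ∧ (∀ t, 0 ≤ M t) ∧ (∀ t, t ≠ 0 → 0 < M t) ∧
      ∀ a b : ℝ, a ≤ b → Tendsto (fun i =>
        ((∑ᶠ ρ ∈ {ρ : ℂ | E i ρ = 0 ∧ 0 < ρ.re ∧ ρ.re < 1 ∧ a ≤ ρ.im ∧ ρ.im ≤ b},
          analyticOrderNatAt (E i) ρ : ℕ) : ℝ) / logGenus (F i)) atTop
        (𝓝 (π⁻¹ * ∫ t in a..b, M t)) := by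
  obtain rfl := eq_clearedSeq hE hEL
  have h : RatiosTend F φ φR φC := ⟨hφ, hR, hC⟩
  refine ⟨zeroDensity φ φR φC, fun t => ?_, continuous_zeroDensity h hRH hg,
    zeroDensity_nonneg h hRH hg, fun t ht => zeroDensity_pos h hRH hg ht, fun a b hab =>
      (tendsto_countIcc h hRH hg hab).congr fun i => by rw [countIcc_eq (F i) a b]⟩
  simp only [zeroDensity, limRe, weightRe, realRateAt, complexRateAt, pt, Complex.ofReal_div,
    Complex.ofReal_one, Complex.ofReal_ofNat]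

/-- **Every interval holds an ordinate eventually.** -/
theorem eventually_ordinate (hE : ∀ i, Differentiable ℂ (E i))
    (hEL : ∀ i, ∀ s : ℂ, 1 < s.re → E i s = (s - 1) * dedekindZeta (F i) s)
    (hRH : ∀ i, ∀ z : ℂ, E i z = 0 → 0 < z.re → z.re < 1 → z.re = 1 / 2)
    (hg : Tendsto (fun i => logGenus (F i)) atTop atTop) {a b : ℝ} (hab : a < b) :
    ∀ᶠ i in atTop, ∃ t : ℝ, a ≤ t ∧ t ≤ b ∧ E i (1 / 2 + t * Complex.I) = 0 := by
  obtain rfl := eq_clearedSeq hE hEL
  filter_upwards [eventually_countIcc_pos F hRH hg hab] with i hi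
  obtain ⟨T, -, hT, hc⟩ := exists_zero_set (F i) a b
  rw [hc] at hi
  obtain ⟨ρ, hρ, hne⟩ := Finset.exists_ne_zero_of_sum_ne_zero hi.ne'
  have hx := (xiMult_ne_zero_iff (F i)).1 fun hm => hne (by rw [hm, Nat.cast_zero])
  obtain ⟨e0, e1, e2, -⟩ := (mem_stripZeros_iff (F i)).2 ⟨hx, le_refl |ρ.im|⟩
  refine ⟨ρ.im, (hT ρ hρ).1, (hT ρ hρ).2, ?_⟩
  rw [show (1 / 2 : ℂ) + ρ.im * Complex.I = ρ from
    Complex.ext (by simp [hRH i ρ e0 e1 e2]) (by simp)]
  exact e0

/-- **The order of vanishing at a point of the line is `o (log |d|)`.** -/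
theorem order_on_line (hE : ∀ i, Differentiable ℂ (E i))
    (hEL : ∀ i, ∀ s : ℂ, 1 < s.re → E i s = (s - 1) * dedekindZeta (F i) s)
    (hRH : ∀ i, ∀ z : ℂ, E i z = 0 → 0 < z.re → z.re < 1 → z.re = 1 / 2)
    (hg : Tendsto (fun i => logGenus (F i)) atTop atTop) (t : ℝ) :
    Tendsto (fun i => (analyticOrderNatAt (E i) (1 / 2 + t * Complex.I) : ℝ) /
      Real.log ((discr (F i)).natAbs : ℝ)) atTop (𝓝 0) := by
  obtain rfl := eq_clearedSeq hE hEL
  have h : Tendsto (fun i => countIcc (F i) t t / logGenus (F i) / 2) atTop (𝓝 0) := by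
    simpa using (tendsto_countIcc_point F hRH hg t).div_const 2
  refine squeeze_zero' (Eventually.of_forall fun i => div_nonneg (Nat.cast_nonneg _)
    (Real.log_natCast_nonneg _)) ?_ h
  filter_upwards [hg.eventually_gt_atTop 0] with i hg0
  rw [div_div, show logGenus (F i) * 2 = Real.log ((discr (F i)).natAbs : ℝ) by
    rw [logGenus]; ring]
  refine div_le_div_of_nonneg_right ?_ (Real.log_natCast_nonneg _)
  refine le_trans (le_of_eq ?_) (le_hasSum (hasSum_count (F i) ((t + t) / 2) ((t - t) / 2))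
    (1 / 2 + t * Complex.I) fun ρ _ => by split_ifs <;> simp)
  rw [xiMult_eq_order (F i) (by simp)]
  simp

end FA.FamilyZeroDensity.Summary

end
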