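import Fermat.Agent.CNGroups.Counting
import Fermat.Agent.CNGroups.Reduction
import Mathlib.FieldTheory.Galois.Basic

/-!
# The Feit–Hall–Thompson theorem on CN-groups of odd order

* `feit_hall_thompson`: a finite group of odd order in which the centraliser of every nontrivial
  element is nilpotent is solvable (Feit, M. Hall and Thompson, 1960);
* `feit_hall_thompson_not_simple`: no non-abelian simple group of odd order is a CN-group;
* `feit_hall_thompson_galois`: a Galois extension of odd degree with such a group is solvable.

A minimal counterexample is simple with solvable proper subgroups, so its maximal nilpotent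
subgroups are TI Hall subgroups partitioning it (`Root/SummaryCNStructure`).  The characters of that
configuration are treated with the linear characters of these subgroups alone: their exceptional
characters, the column bound, parity and congruences of the values.  The Feit–Thompson theorem on
all groups of odd order is not claimed.
-/

set_option autoImplicit false
set_option linter.style.haveILetI false

noncomputable section

universe u

namespace FA.CNGroups.Summary

open Subgroup

/-- **The Feit–Hall–Thompson theorem.** -/
theorem feit_hall_thompson {G : Type u} [Group G] [Finite G] (hodd : Odd (Nat.card G))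
    (hCN : ∀ x : G, x ≠ 1 → Group.IsNilpotent (centralizer ({x} : Set G))) :
    Group.IsSolvable G := by
  refine isSolvable_of_simple_case (fun K _ _ hs hoddK hK hprop => ?_) G hodd hCN
  by_contra hns
  haveI := hs
  haveI := Fintype.ofFinite K
  obtain ⟨R, hR, hcov⟩ := exists_frames hoddK hK hns hprop
  exact false_of_frames hoddK hR hcov

/-- **No simple groups.** -/
theorem feit_hall_thompson_not_simple {G : Type u} [Group G] [Finite G] (hodd : Odd (Nat.card G))
    (hCN : ∀ x : G, x ≠ 1 → Group.IsNilpotent (centralizer ({x} : Set G)))
    (hab : ∃ a b : G, a * b ≠ b * a) : ¬ IsSimpleGroup G := fun hs => by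
  haveI := hs
  obtain ⟨a, b, hne⟩ := hab
  exact hne (IsSimpleGroup.comm_iff_isSolvable.2 (feit_hall_thompson hodd hCN) a b)

/-- **Galois form.** -/
theorem feit_hall_thompson_galois (F L : Type u) [Field F] [Field L] [Algebra F L]
    [FiniteDimensional F L] [IsGalois F L] (hodd : Odd (Module.finrank F L))
    (hCN : ∀ x : L ≃ₐ[F] L, x ≠ 1 →
      Group.IsNilpotent (centralizer ({x} : Set (L ≃ₐ[F] L)))) :
    Group.IsSolvable (L ≃ₐ[F] L) :=
  feit_hall_thompson (by rwa [IsGalois.card_aut_eq_finrank]) hCN

end FA.CNGroups.Summary
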