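import Fermat.Agent.Fekete.Intervals

/-!
# Fekete's theorem on algebraic integers in small sets

* `fekete_diameter_decreasing`: the diameters `d_m` of a set in `ℂ` decrease;
* `fekete`: a bounded set with some `d_m < 1` contains only finitely many complete sets of
  conjugate algebraic integers;
* `fekete_interval`, `fekete_disc`: intervals of length below `4` and discs of radius below `1`;
* `infinite_interval_four`: every interval `[m, m + 4]`, `m ∈ ℤ`, contains infinitely many.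
-/

set_option autoImplicit false

noncomputable section

namespace FA.Summary

open Finset Polynomial

/-- **Fekete's lemma.** -/
theorem fekete_diameter_decreasing {S : Set ℂ} {δ : ℝ} (hδ : 0 ≤ δ) {m n : ℕ} (hm : 2 ≤ m)
    (hmn : m ≤ n)
    (hS : ∀ s : Finset ℂ, (↑s : Set ℂ) ⊆ S → s.card = m →
      ∏ q ∈ s.offDiag, ‖q.1 - q.2‖ ≤ δ ^ (m * (m - 1))) :
    ∀ s : Finset ℂ, (↑s : Set ℂ) ⊆ S → s.card = n →
      ∏ q ∈ s.offDiag, ‖q.1 - q.2‖ ≤ δ ^ (n * (n - 1)) :=
  FA.Fekete.pairProd_le_of_le hδ hm hS hmn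

/-- **Fekete's theorem.** -/
theorem fekete {S : Set ℂ} (hbdd : Bornology.IsBounded S) {δ : ℝ} (hδ0 : 0 ≤ δ) (hδ : δ < 1)
    {m : ℕ} (hm : 2 ≤ m)
    (hS : ∀ s : Finset ℂ, (↑s : Set ℂ) ⊆ S → s.card = m →
      ∏ q ∈ s.offDiag, ‖q.1 - q.2‖ ≤ δ ^ (m * (m - 1))) :
    {x : ℂ | IsIntegral ℤ x ∧ ∀ z ∈ (minpoly ℤ x).aroots ℂ, z ∈ S}.Finite := by
  obtain ⟨R, hR⟩ := isBounded_iff_forall_norm_le.1 hbdd
  exact FA.Fekete.finite_of_diameter_lt_one hR hδ0 hδ hm hS

/-- **Intervals of length below four (Schur, Pólya, Fekete).** -/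
theorem fekete_interval {a b : ℝ} (hab : b - a < 4) :
    {x : ℂ | IsIntegral ℤ x ∧ ∀ z ∈ (minpoly ℤ x).aroots ℂ,
      z.im = 0 ∧ a ≤ z.re ∧ z.re ≤ b}.Finite :=
  FA.Fekete.finite_interval hab

/-- **Discs of radius below one.** -/
theorem fekete_disc (c : ℂ) {r : ℝ} (hr : r < 1) :
    {x : ℂ | IsIntegral ℤ x ∧
      ∀ z ∈ (minpoly ℤ x).aroots ℂ, z ∈ Metric.closedBall c r}.Finite :=
  FA.Fekete.finite_closedBall c hr

/-- **Intervals of length four with integral ends contain infinitely many conjugate sets.** -/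
theorem infinite_interval_four (m : ℤ) :
    {x : ℂ | IsIntegral ℤ x ∧ ∀ z ∈ (minpoly ℤ x).aroots ℂ,
      z.im = 0 ∧ (m : ℝ) ≤ z.re ∧ z.re ≤ (m + 4 : ℝ)}.Infinite := by
  refine Set.infinite_of_injective_forall_mem
    (f := fun k : ℕ => ((m + 2 + 2 * Real.cos (2 * Real.pi / (k + 2 : ℕ)) : ℝ) : ℂ))
    (fun i j h => ?_) fun k => FA.Fekete.cos_mem m (by omega)
  have hmem : ∀ k : ℕ, 2 * Real.pi / (k + 2 : ℕ) ∈ Set.Icc 0 Real.pi := fun k => by
    refine ⟨by positivity, (div_le_iff₀ (by positivity)).2 ?_⟩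
    push_cast
    nlinarith [Real.pi_pos, (Nat.cast_nonneg k : (0 : ℝ) ≤ (k : ℝ))]
  have h' := Real.injOn_cos (hmem i) (hmem j) (by
    have := Complex.ofReal_injective h
    linarith)
  rw [div_eq_div_iff (by positivity) (by positivity)] at h'
  have h'' : ((j + 2 : ℕ) : ℝ) = ((i + 2 : ℕ) : ℝ) :=
    mul_left_cancel₀ (mul_ne_zero two_ne_zero Real.pi_ne_zero) h'
  have := Nat.cast_injective h''
  omega

end FA.Summary

end
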