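import Fermat.Agent.FeketeSzego.Main
import Fermat.Agent.FeketeSzego.Robinson

/-!
# The theorems of Fekete and Szegő and of Robinson

For a compact set `K` in the plane, stable under conjugation, every neighbourhood of `K` contains
infinitely many complete sets of conjugate algebraic integers if and only if the Chebyshev constant
of `K` is at least one, that is every monic polynomial somewhere on `K` has modulus at least one.
An interval of length above four contains infinitely many such sets; shorter ones only finitely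
many (`SummaryFekete`). Equilibrium measures and Rumely's versions over number fields are not
treated.
-/

set_option autoImplicit false

noncomputable section

namespace FA.FeketeSzego.Summary

open Polynomial
open scoped ComplexConjugate

/-- **The theorem of Fekete and Szegő.** -/
theorem fekete_szego {K U : Set ℂ} (hK : IsCompact K) (hsymm : ∀ z ∈ K, conj z ∈ K)
    (hbig : ∀ p : ℂ[X], p.Monic → 0 < p.natDegree → ∃ z ∈ K, 1 ≤ ‖p.eval z‖)
    (hU : IsOpen U) (hKU : K ⊆ U) :
    {x : ℂ | IsIntegral ℤ x ∧ ∀ z ∈ (minpoly ℤ x).aroots ℂ, z ∈ U}.Infinite :=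
  infinite_conjugate_sets hK hsymm hbig hU hKU

/-- **The converse (Fekete).** -/
theorem fekete_szego_converse {K : Set ℂ} (hK : IsCompact K) {p : ℂ[X]} (hp : p.Monic)
    (hd : 0 < p.natDegree) (hsmall : ∀ z ∈ K, ‖p.eval z‖ < 1) :
    ∃ U : Set ℂ, IsOpen U ∧ K ⊆ U ∧
      {x : ℂ | IsIntegral ℤ x ∧ ∀ z ∈ (minpoly ℤ x).aroots ℂ, z ∈ U}.Finite :=
  exists_finite_nhds hK hp hd hsmall

/-- **The dichotomy.** -/
theorem fekete_szego_iff {K : Set ℂ} (hK : IsCompact K) (hsymm : ∀ z ∈ K, conj z ∈ K) :
    (∀ U : Set ℂ, IsOpen U → K ⊆ U →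
      {x : ℂ | IsIntegral ℤ x ∧ ∀ z ∈ (minpoly ℤ x).aroots ℂ, z ∈ U}.Infinite) ↔
    ∀ p : ℂ[X], p.Monic → 0 < p.natDegree → ∃ z ∈ K, 1 ≤ ‖p.eval z‖ :=
  infinite_iff_bigOn hK hsymm

/-- **Robinson's theorem.** -/
theorem robinson {a b : ℝ} (hab : 4 < b - a) :
    {x : ℂ | IsIntegral ℤ x ∧ ∀ z ∈ (minpoly ℤ x).aroots ℂ,
      z.im = 0 ∧ a ≤ z.re ∧ z.re ≤ b}.Infinite :=
  infinite_interval hab

/-- **Circles of radius at least one.** -/
theorem fekete_szego_circle (c : ℝ) {r : ℝ} (hr : 1 ≤ r) {U : Set ℂ} (hU : IsOpen U)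
    (hKU : Metric.sphere (c : ℂ) r ⊆ U) :
    {x : ℂ | IsIntegral ℤ x ∧ ∀ z ∈ (minpoly ℤ x).aroots ℂ, z ∈ U}.Infinite := by
  refine fekete_szego (isCompact_sphere _ _) (fun z hz => ?_) (fun p hp _ => ?_) hU hKU
  · rw [mem_sphere_iff_norm] at hz ⊢
    rwa [← Complex.conj_ofReal c, ← map_sub, RCLike.norm_conj]
  obtain ⟨z, hz, hmax⟩ := (isCompact_sphere (c : ℂ) r).exists_isMaxOn
    (NormedSpace.sphere_nonempty.2 (by linarith)) (p.continuous.norm.continuousOn)
  refine ⟨z, hz, ?_⟩
  obtain ⟨h, hh⟩ : ∃ h : ℂ → ℂ,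
      h = fun v => (p.roots.map fun a => (r : ℂ) - (a - c) * v).prod := ⟨_, rfl⟩
  have heval : ∀ v : ℂ, ‖v‖ = 1 → ‖h v‖ = ‖p.eval ((c : ℂ) + r / v)‖ := fun v hv => by
    have hv0 : v ≠ 0 := norm_pos_iff.1 (by rw [hv]; exact one_pos)
    conv_rhs => rw [(IsAlgClosed.splits p).eq_prod_roots_of_monic hp]
    rw [hh, eval_multiset_prod, Multiset.map_map]
    simp only [Function.comp_def, eval_sub, eval_X, eval_C]
    rw [show (p.roots.map fun a => (r : ℂ) - (a - c) * v) =
        p.roots.map fun a => v * ((c : ℂ) + r / v - a) from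
        Multiset.map_congr rfl fun a _ => by field_simp; ring,
      Multiset.prod_map_mul, norm_mul, Multiset.map_const', Multiset.prod_replicate, norm_pow, hv,
      one_pow, one_mul]
  have hdiff : Differentiable ℂ h := by
    rw [hh]
    induction p.roots using Multiset.induction_on with
    | empty => simp
    | cons a s ih =>
      simp only [Multiset.map_cons, Multiset.prod_cons]
      exact (show Differentiable ℂ fun v : ℂ => (r : ℂ) - (a - c) * v by fun_prop).mul ih
  have h0 : ‖h 0‖ ≤ ‖p.eval z‖ := by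
    refine Complex.norm_le_of_forall_mem_frontier_norm_le (U := Metric.ball (0 : ℂ) 1)
      Metric.isBounded_ball hdiff.diffContOnCl (fun v hv => ?_)
      (subset_closure (Metric.mem_ball_self one_pos))
    rw [frontier_ball (0 : ℂ) one_ne_zero, mem_sphere_zero_iff_norm] at hv
    rw [heval v hv]
    refine hmax ?_
    rw [mem_sphere_iff_norm, add_sub_cancel_left, norm_div, hv, div_one, Complex.norm_real,
      Real.norm_of_nonneg (by linarith)]
  refine le_trans ?_ h0
  rw [hh]
  simp only [mul_zero, sub_zero, Multiset.map_const', Multiset.prod_replicate, norm_pow,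
    Complex.norm_real, Real.norm_of_nonneg (show 0 ≤ r by linarith)]
  exact one_le_pow₀ hr

end FA.FeketeSzego.Summary
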