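import Fermat.Agent.Feldman.Main

/-!
# Feldman's theorem (1971)

* `thue_polynomial_bound`: for `f ∈ ℤ[X]` irreducible of degree at least three every solution of
  `F (x, y) = m ≠ 0` has `|x|, |y| ≤ C |m| ^ T`: polynomial in `m`, where Baker's first theorem
  (`SummaryThueEffective`) gives only an exponential bound.
* `feldman`: for every real algebraic `α` of degree `d ≥ 3` there are `c > 0` and `η > 0` with
  `|α - p / q| ≥ c / q ^ (d - η)` for all rationals: a power saving over Liouville.

The proof is Baker's method, through the sharpened theorem `baker_last_height_ratio`; Thue, Siegel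
and Roth are not used. The effectiveness lives in the proof and not in these statements, which
only assert that `C`, `T`, `c` and `η` exist (the units enter through Dirichlet's theorem).
-/

set_option autoImplicit false

noncomputable section

namespace FA.Feldman.Summary

open Polynomial

/-- **Thue equations with a polynomial bound.** -/
theorem thue_polynomial_bound {f : ℤ[X]} (hirr : Irreducible f) (hn : 3 ≤ f.natDegree) :
    ∃ C T : ℕ, ∀ x y m : ℤ, m ≠ 0 → FA.Thue.form f x y = m →
      x.natAbs ≤ C * m.natAbs ^ T ∧ y.natAbs ≤ C * m.natAbs ^ T :=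
  thue_form_bound hirr hn

/-- **Feldman's improvement of Liouville's theorem.** -/
theorem feldman {α : ℝ} (hα : IsAlgebraic ℚ α) (hd : 3 ≤ (minpoly ℚ α).natDegree) :
    ∃ c η : ℝ, 0 < c ∧ 0 < η ∧ ∀ x : ℚ,
      c / (x.den : ℝ) ^ (((minpoly ℚ α).natDegree : ℝ) - η) ≤ |α - x| := by
  obtain ⟨c, η, hc, hη, -, h⟩ := approximation_bound hα hd
  refine ⟨c, η, hc, hη, fun x => ?_⟩
  have h1 := h x.num x.den x.pos
  rwa [← Rat.cast_def] at h1

end FA.Feldman.Summary

end
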