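import Fermat.Agent.DigitRepetitions.Fibonacci

/-!
# The transcendence criterion of Ferenczi and Mauduit

* `ferenczi_mauduit`: let `α = ∑ a n b ^ (-(n + 1))` with digits `a n < b`. If for some `w > 2`
  and `c` there are arbitrarily large `s` and `r ≤ c s` such that the digits in `[r, r + w s)`
  have period `s`, then `α` is rational or transcendental;
* `fibonacci_word_transcendental`: the number with digits the Fibonacci word
  `⌊(n + 2) g⌋ - ⌊(n + 1) g⌋`, `g = (3 - √5) / 2`, is transcendental in every base: arbitrarily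
  long prefixes are powers of exponent `9 / 4` and more, and it is not eventually periodic. Every
  irrational slope is treated in `SummarySturmianNumbers`.

The proof is by Ridout's theorem (`SummaryRidout`); independent of S01.
-/

set_option autoImplicit false

noncomputable section

namespace FA.Summary

/-- **The criterion of Ferenczi and Mauduit.** -/
theorem ferenczi_mauduit {b : ℕ} (hb : 2 ≤ b) {a : ℕ → ℕ} (ha : ∀ n, a n < b) {w c : ℝ}
    (hw : 2 < w)
    (hrep : ∀ T : ℕ, ∃ r s : ℕ, T ≤ s ∧ (r : ℝ) ≤ c * s ∧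
      ∀ j, r ≤ j → ((j + s : ℕ) : ℝ) < r + w * s → a (j + s) = a j)
    (hirr : Irrational (∑' n : ℕ, (a n : ℝ) / (b : ℝ) ^ (n + 1))) :
    Transcendental ℚ (∑' n : ℕ, (a n : ℝ) / (b : ℝ) ^ (n + 1)) := by
  have e : ∑' n : ℕ, (a n : ℝ) / (b : ℝ) ^ (n + 1) =
      Real.ofDigits fun n => (⟨a n, ha n⟩ : Fin b) :=
    tsum_congr fun n => div_eq_mul_inv _ _
  rw [e] at hirr ⊢
  refine FA.DigitRepetitions.transcendental_of_repetitions (c := c) hb hw (fun T => ?_) hirr
  obtain ⟨r, s, hs, hr, hp⟩ := hrep T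
  exact ⟨r, s, hs, hr, fun j h1 h2 => Fin.ext (hp j h1 h2)⟩

/-- **The Fibonacci word gives transcendental numbers.** -/
theorem fibonacci_word_transcendental {b : ℕ} (hb : 2 ≤ b) :
    Transcendental ℚ (∑' n : ℕ, ((⌊((n : ℝ) + 2) * ((3 - Real.sqrt 5) / 2)⌋ : ℝ) -
      ⌊((n : ℝ) + 1) * ((3 - Real.sqrt 5) / 2)⌋) / (b : ℝ) ^ (n + 1)) := by
  have hg : (3 - Real.sqrt 5) / 2 = FA.DigitRepetitions.slope := by
    rw [FA.DigitRepetitions.slope, Real.goldenConj]
    ring
  convert FA.DigitRepetitions.transcendental_fibNumber hb using 1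
  refine tsum_congr fun n => ?_
  rw [Real.ofDigitsTerm, hg, div_eq_mul_inv]
  congr 1
  have h := FA.DigitRepetitions.fibLetter_cast n
  push_cast at h
  show _ = ((FA.DigitRepetitions.fibLetter n : ℕ) : ℝ)
  exact_mod_cast h.symm

end FA.Summary

end
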