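import Fermat.Agent.Regular.KummerTableBelow233
import Fermat.Agent.Regular.VandiverCertificate157
import Fermat.Agent.Regular.VandiverTwoIndices
import Fermat.Agent.Root.SummaryFermatBelow157

/-!
# Fermat's Last Theorem for exponents below `233`, classically

`157` is the least prime with two irregular indices, `62` and `110`; the primes from `163` to `229` are
regular.

* `irregular_pairs_lt_233`: the irregular pairs below `233`.
* `vandiver_lt_233`: the conjecture of Kummer and Vandiver for the primes below `233`.
* `fermat_classical_lt_233`: Fermat's Last Theorem for every exponent `3 ≤ n < 233`.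
* `fermat_classical_of_dvd_lt_233`: and for every `n` divisible by `4` or by an odd prime below `233`.

At `157` Vandiver's descent uses three roots modulo `1571`, whose residues kill both cyclotomic units.  No
elliptic curves or modularity, and independent of S01.
-/

set_option autoImplicit false

noncomputable section

open NumberField
open scoped nonZeroDivisors

namespace FA.Summary

/-- The irregular pairs below `233`. -/
theorem irregular_pairs_lt_233 (p k : ℕ) (hp : p.Prime) (h233 : p < 233) (hev : Even k) (hk : 2 ≤ k)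
    (hkp : k ≤ p - 3) :
    (p : ℤ) ∣ (bernoulli k).num ↔
      (p, k) ∈ [(37, 32), (59, 44), (67, 58), (101, 68), (103, 24), (131, 22), (149, 130), (157, 62),
        (157, 110)] := by
  rw [show [(37, 32), (59, 44), (67, 58), (101, 68), (103, 24), (131, 22), (149, 130), (157, 62), (157, 110)] =
    [(37, 32), (59, 44), (67, 58), (101, 68), (103, 24), (131, 22), (149, 130)] ++ [(157, 62), (157, 110)]
    from rfl, List.mem_append]
  by_cases h : p < 157
  · rw [irregular_pairs_lt_157 p k hp h hev hk hkp, or_iff_left]
    intro hm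
    simp only [List.mem_cons, Prod.mk.injEq, List.not_mem_nil, or_false] at hm
    omega
  · rw [FA.OrderTheta.irregular_pairs_next p k hp (by omega) h233 hev hk hkp, or_iff_right]
    exact fun hm => h ((show ∀ x ∈ [(37, 32), (59, 44), (67, 58), (101, 68), (103, 24), (131, 22),
      (149, 130)], x.1 < 157 by decide) (p, k) hm)

theorem twoIndexData_oneHundredFiftySeven :
    FA.Regular.TwoIndexData 157 62 110 1571 2 (1024 : ZMod 1571) 77 100 31 where
  eight_le := by norm_num
  even₁ := by decide
  two_le₁ := by norm_num
  le₁ := by norm_num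
  even₂ := by decide
  two_le₂ := by norm_num
  le₂ := by norm_num
  distinct := by norm_num
  regular i hev h2 hi h1 h1' hd := by
    have h := (irregular_pairs_lt_233 157 i (by norm_num) (by norm_num) hev h2 hi).mp hd
    simp at h; omega
  base := by decide
  ne := by norm_num
  dvd := by norm_num
  root := FA.Regular.root_oneHundredFiftySeven
  symbol₁ := by rw [FA.Regular.residueSymbol_157_62.1]; decide +kernel
  symbol₂ := by rw [FA.Regular.residueSymbol_157_110.1]; decide +kernel
  killed₁ := by
    obtain ⟨a, b, c⟩ := FA.Regular.residueSymbol_157_62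
    rw [a, b, c]; decide +kernel
  killed₂ := by
    obtain ⟨a, b, c⟩ := FA.Regular.residueSymbol_157_110
    rw [a, b, c]; decide +kernel
  indep₁₂ := by
    obtain ⟨a, b, -⟩ := FA.Regular.residueSymbol_157_62
    obtain ⟨a', b', -⟩ := FA.Regular.residueSymbol_157_110
    rw [FA.Regular.SymbolsIndependent, pow_one, a, b, a', b']
    exact ⟨by decide +kernel, 148, 86, by decide +kernel, by decide +kernel⟩
  indep₁₃ := by
    obtain ⟨a, -, c⟩ := FA.Regular.residueSymbol_157_62
    obtain ⟨a', -, c'⟩ := FA.Regular.residueSymbol_157_110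
    rw [FA.Regular.SymbolsIndependent, pow_one, a, c, a', c']
    exact ⟨by decide +kernel, 35, 86, by decide +kernel, by decide +kernel⟩
  indep₂₃ := by
    obtain ⟨-, b, c⟩ := FA.Regular.residueSymbol_157_62
    obtain ⟨-, b', c'⟩ := FA.Regular.residueSymbol_157_110
    rw [FA.Regular.SymbolsIndependent, b, c, b', c']
    exact ⟨by decide +kernel, 35, 9, by decide +kernel, by decide +kernel⟩
  single c j hc0 hc hj0 hj := by
    have : Fact (Nat.Prime 157) := ⟨by norm_num⟩
    have : Fact (Nat.Prime 1571) := ⟨by norm_num⟩
    exact FA.Regular.exists_single_of_half (b := 1024) (by norm_num) (by norm_num) (by norm_num)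
      (FA.Regular.isPrimitiveRoot_residue 157 (by norm_num) FA.Regular.root_oneHundredFiftySeven).pow_eq_one
      FA.Regular.certSingleHalf_157 hc0 hc hj0 hj
  triple j₁ j₂ j₃ h₁ h₂ h₃ h12 h13 h23 := by
    have : Fact (Nat.Prime 157) := ⟨by norm_num⟩
    have : Fact (Nat.Prime 1571) := ⟨by norm_num⟩
    exact FA.Regular.exists_triple_of_cert (b := 1024) (w := [77, 100, 31]) (by norm_num) (by norm_num)
      (by norm_num) (FA.Regular.isPrimitiveRoot_residue 157 (by norm_num)
        FA.Regular.root_oneHundredFiftySeven)
      (by decide) FA.Regular.certLog_157 FA.Regular.certInverse_157 FA.Regular.certTriple_157 h₁ h₂ h₃ h12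
      h13 h23

/-- Above `157` a prime below `233` is regular. -/
theorem regular_lt_233 (p : ℕ) (hp : p.Prime) (h157 : 157 < p) (h233 : p < 233) (k : ℕ) (hev : Even k)
    (hk : 2 ≤ k) (hkp : k ≤ p - 3) : ¬ (p : ℤ) ∣ (bernoulli k).num := fun hd => by
  have h := (irregular_pairs_lt_233 p k hp h233 hev hk hkp).mp hd
  simp only [List.mem_cons, Prod.mk.injEq, List.not_mem_nil, or_false] at h
  omega

/-- **The conjecture of Kummer and Vandiver below `233`.** -/
theorem vandiver_lt_233 (p : ℕ) [Fact p.Prime] (K : Type*) [Field K] [NumberField K]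
    [IsCyclotomicExtension {p} ℚ K] (hp5 : 5 ≤ p) (h233 : p < 233) (c : K ≃ₐ[ℚ] K)
    (hc : IsCyclotomicExtension.Rat.galEquivZMod p K c = -1) (x : ClassGroup (𝓞 K)) (hx : x ^ p = 1)
    (hfix : ClassGroup.mulEquiv (RingOfIntegers.mapRingEquiv c.toRingEquiv) x = x) : x = 1 := by
  by_cases h : p < 157
  · exact vandiver_lt_157 p K hp5 h c hc x hx hfix
  have hconj : FA.Ext.sigmaCl p K (-1) x = x := by
    have e : FA.Ext.sigmaK p K (-1) = c := by
      rw [← hc]; exact MulEquiv.symm_apply_apply _ c
    conv_rhs => rw [← hfix, ← e]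
    rfl
  rcases (show p = 157 ∨ 157 < p by omega) with rfl | h1
  · have : Fact (Nat.Prime 1571) := ⟨by norm_num⟩
    exact FA.Regular.vandiver_of_twoIndexData K twoIndexData_oneHundredFiftySeven x hx hconj
  · exact FA.Regular.torsion_trivial_of_regular p K hp5 (regular_lt_233 p Fact.out h1 h233) hx

/-- **Fermat's Last Theorem for every odd prime exponent below `233`.** -/
theorem fermat_prime_lt_233 (p : ℕ) (hp : p.Prime) (h3 : 3 ≤ p) (h233 : p < 233) :
    FermatLastTheoremFor p := by
  by_cases h : p < 157
  · exact fermat_prime_lt_157 p hp h3 h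
  have : Fact p.Prime := ⟨hp⟩
  rcases (show p = 157 ∨ 157 < p by omega) with rfl | h1
  · have : Fact (Nat.Prime 1571) := ⟨by norm_num⟩
    exact FA.Regular.fermat_of_twoIndexData twoIndexData_oneHundredFiftySeven
      FA.Regular.auxPowers_oneHundredFiftySeven
  · exact fermatLastTheoremFor_iff_int.mpr fun a b c =>
      kummer_fermat p (by omega) (regular_lt_233 p hp h1 h233) a b c

/-- Fermat's Last Theorem for every exponent divisible by `4` or by an odd prime below `233`. -/
theorem fermat_classical_of_dvd_lt_233 (n : ℕ)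
    (h : 4 ∣ n ∨ ∃ p, p.Prime ∧ 3 ≤ p ∧ p < 233 ∧ p ∣ n) : FermatLastTheoremFor n := by
  rcases h with h | ⟨p, hp, h3, h233, h⟩
  · exact FermatLastTheoremFor.mono h fermatLastTheoremFour
  · exact FermatLastTheoremFor.mono h (fermat_prime_lt_233 p hp h3 h233)

/-- **Fermat's Last Theorem for all exponents `3 ≤ n < 233`**, classically. -/
theorem fermat_classical_lt_233 (n : ℕ) (h3 : 3 ≤ n) (h233 : n < 233) : FermatLastTheoremFor n := by
  refine fermat_classical_of_dvd_lt_233 n ?_
  rcases Nat.four_dvd_or_exists_odd_prime_and_dvd_of_two_lt (show 2 < n by omega) with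
    h | ⟨p, hp, hpn, hodd⟩
  · exact Or.inl h
  · refine Or.inr ⟨p, hp, ?_, ?_, hpn⟩
    · have := hp.two_le
      rw [Nat.odd_iff] at hodd
      omega
    · have := Nat.le_of_dvd (by omega) hpn
      omega

end FA.Summary
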