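import Fermat.Agent.Hurwitz.Covers
import Fermat.Agent.CongruentNumber.One

/-!
# Rational points on cyclic quotients of the Fermat curves

`y ^ n = x ^ a (1 - x) ^ b` has over `ℚ` only the points with `x ∈ {0, 1}` as soon as
`gcd (n / (a, n), n / (b, n), n / (a + b, n)) ≥ 3`; for a prime `p` these are all the quotients of
the Fermat curve of degree `p` studied by Faddeev. In particular two rationals differing by one
never multiply to a nonzero `n`-th power for `n ≥ 3`, and `Y² = 4 X ^ n + 1` has only `X = 0`.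
-/

set_option autoImplicit false

noncomputable section

namespace FA.Summary

/-- **Cyclic quotients of the Fermat curves**: the rational points. -/
theorem fermatCover_points {n a b : ℕ}
    (he : 3 ≤ Nat.gcd (Nat.gcd (n / Nat.gcd a n) (n / Nat.gcd b n)) (n / Nat.gcd (a + b) n))
    {x y : ℚ} : y ^ n = x ^ a * (1 - x) ^ b ↔ (x = 0 ∨ x = 1) ∧ y = 0 := by
  have hn : n ≠ 0 := fun e => by subst e; simp at he
  have hne : ∀ c : ℕ, 3 ≤ n / Nat.gcd c n → c ≠ 0 := fun c h e => by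
    subst e
    rw [Nat.gcd_zero_left, Nat.div_self (Nat.pos_of_ne_zero hn)] at h
    omega
  have hpos : ∀ c, n / Nat.gcd c n ≠ 0 := fun c =>
    (Nat.div_pos (Nat.gcd_le_right _ (Nat.pos_of_ne_zero hn))
      (Nat.gcd_pos_of_pos_right _ (Nat.pos_of_ne_zero hn))).ne'
  have ha : a ≠ 0 := hne a (he.trans (Nat.le_of_dvd (Nat.pos_of_ne_zero (hpos a))
    ((Nat.gcd_dvd_left _ _).trans (Nat.gcd_dvd_left _ _))))
  have hb : b ≠ 0 := hne b (he.trans (Nat.le_of_dvd (Nat.pos_of_ne_zero (hpos b))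
    ((Nat.gcd_dvd_left _ _).trans (Nat.gcd_dvd_right _ _))))
  refine ⟨fun h => ?_, ?_⟩
  · have hx := FA.Hurwitz.cover_points he ((Nat.gcd_dvd_left _ _).trans (Nat.gcd_dvd_left _ _))
      ((Nat.gcd_dvd_left _ _).trans (Nat.gcd_dvd_right _ _)) (Nat.gcd_dvd_right _ _) hn
      (x := x) (y := y) (by rw [← h, abs_pow])
    refine ⟨hx, (pow_eq_zero_iff hn).1 ?_⟩
    rcases hx with rfl | rfl <;> simp [h, ha, hb]
  · rintro ⟨rfl | rfl, rfl⟩ <;> simp [hn, ha, hb]

/-- **Faddeev's quotients** of the Fermat curve of prime degree. -/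
theorem fermatCover_prime {p : ℕ} (hp : p.Prime) (h3 : 3 ≤ p) {a b : ℕ} (ha : ¬ p ∣ a)
    (hb : ¬ p ∣ b) (hab : ¬ p ∣ a + b) {x y : ℚ} :
    y ^ p = x ^ a * (1 - x) ^ b ↔ (x = 0 ∨ x = 1) ∧ y = 0 := by
  have h : ∀ c, ¬ p ∣ c → p / Nat.gcd c p = p := fun c hc => by
    rw [((Nat.Prime.coprime_iff_not_dvd hp).2 hc).symm.gcd_eq_one, Nat.div_one]
  exact fermatCover_points (by rw [h a ha, h b hb, h _ hab, Nat.gcd_self, Nat.gcd_self]; exact h3)

/-- **Two rationals differing by one never multiply to a nonzero `n`-th power**, `n ≥ 3`. -/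
theorem rat_mul_succ_ne_pow {n : ℕ} (hn : 3 ≤ n) {x y : ℚ} (hy : y ≠ 0) :
    x * (x + 1) ≠ y ^ n := fun h => by
  have hn0 : n ≠ 0 := by omega
  by_cases h4 : n = 4
  · subst h4
    -- `(2 x + 1)² = 4 y⁴ + 1` gives `t⁴ = 1 + w²`
    have h0 := FA.CongruentNumber.eq_zero_of_pow_four_eq (t := (2 * x + 1) / (2 * y))
      (w := (4 * y ^ 4 - 1) / (4 * y ^ 2)) (by
        field_simp
        linear_combination 64 * ((2 * x + 1) ^ 2 + 4 * y ^ 4 + 1) * h)
    rw [div_eq_zero_iff] at h0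
    rcases h0 with h0 | h0
    · obtain ⟨m, hm⟩ := FA.CongruentNumber.exists_int_of_sq
        (show (2 * y ^ 2) ^ 2 = ((1 : ℤ) : ℚ) by push_cast; linear_combination h0)
      obtain ⟨l, hl⟩ := FA.CongruentNumber.exists_int_of_sq
        (show (2 * y) ^ 2 = ((2 * m : ℤ) : ℚ) by push_cast; linear_combination 2 * hm)
      have h4' : m * m = 1 := by
        have : ((m : ℚ)) * m = 1 := by rw [← hm]; linear_combination h0
        exact_mod_cast this
      have h5 : l * l = 2 * m := by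
        have : ((l : ℚ)) * l = 2 * m := by rw [← hl, ← hm]; ring
        exact_mod_cast this
      have : -1 ≤ m := by nlinarith
      have : m ≤ 1 := by nlinarith
      have : l ≤ 1 := by nlinarith
      have : -1 ≤ l := by nlinarith
      interval_cases m <;> interval_cases l <;> omega
    · exact hy (by simpa using h0)
  have he : ∃ e, 3 ≤ e ∧ e ∣ n / Nat.gcd 1 n ∧ e ∣ n / Nat.gcd (1 + 1) n := by
    rw [Nat.gcd_one_left, Nat.div_one]
    rcases Nat.even_or_odd n with ⟨k, rfl⟩ | ho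
    · refine ⟨k, by omega, ⟨2, by omega⟩, ?_⟩
      rw [Nat.gcd_eq_left (show 1 + 1 ∣ k + k from ⟨k, by ring⟩)]
      exact ⟨1, by omega⟩
    · refine ⟨n, hn, dvd_rfl, ?_⟩
      rw [(Nat.coprime_two_left.2 ho).gcd_eq_one, Nat.div_one]
  obtain ⟨e, h3, h1, h2⟩ := he
  rcases FA.Hurwitz.cover_points h3 h1 h1 h2 hn0 (x := -x) (y := y)
    (by rw [← abs_pow, ← h, show (-x) ^ 1 * (1 - -x) ^ 1 = -(x * (x + 1)) by ring, abs_neg])
    with h0 | h0
  · rw [neg_eq_zero] at h0
    subst h0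
    exact pow_ne_zero n hy (by linear_combination -h)
  · rw [neg_eq_iff_eq_neg] at h0
    subst h0
    exact pow_ne_zero n hy (by linear_combination -h)

/-- **The hyperelliptic curves** `Y² = 4 X ^ n + 1`, `n ≥ 3`: only `X = 0`. -/
theorem hyperelliptic_four_pow_add_one {n : ℕ} (hn : 3 ≤ n) {X Y : ℚ} :
    Y ^ 2 = 4 * X ^ n + 1 ↔ X = 0 ∧ (Y = 1 ∨ Y = -1) := by
  refine ⟨fun h => ?_, ?_⟩
  · have hX : X = 0 := by
      by_contra hX
      exact rat_mul_succ_ne_pow hn hX (x := (Y - 1) / 2) (by linear_combination h / 4)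
    subst hX
    rw [zero_pow (by omega)] at h
    exact ⟨rfl, sq_eq_one_iff.1 (by linear_combination h)⟩
  · rintro ⟨rfl, rfl | rfl⟩ <;> rw [zero_pow (by omega)] <;> norm_num

end FA.Summary

end
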