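import Fermat.Agent.MordellCurve.QuadraticCubic
import Mathlib.NumberTheory.FLT.Basic

/-!
# Fermat's equation of exponent `3` over quadratic fields, and three powers in progression

Over a quadratic field `ℚ(√d)` the equation `x³ + y³ = z³` has a solution in nonzero numbers
exactly when `Y² = X³ - 432 d³` has a rational point with `X ≠ 0`; so for `d = 2` it has, for
`d = -3` it has not. Three `n`-th powers are never in progression for `n` divisible by `3` or `4`,
apart from the trivial cases.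
-/

set_option autoImplicit false

noncomputable section

namespace FA.Summary

variable {K : Type*} [Field K] [CharZero K]

/-- **The criterion for the exponent `3`** over a quadratic field `ℚ(√d)`. -/
theorem fermatThree_quadratic_iff (hK : Module.finrank ℚ K = 2) {d : ℚ} (hd : ¬ IsSquare d)
    {r : K} (hr : r ^ 2 = d) :
    FermatLastTheoremWith K 3 ↔ ¬ ∃ X Y : ℚ, X ≠ 0 ∧ Y ^ 2 = X ^ 3 - 432 * d ^ 3 := by
  constructor
  · rintro hflt ⟨X, Y, hX, hXY⟩
    obtain ⟨x, y, hx, hy, h⟩ := FA.QuadraticCubic.exists_solution hd hr hX hXY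
    exact hflt x y 1 hx hy one_ne_zero (by rw [h, one_pow])
  · intro hno a b c ha hb hc h
    refine hno (FA.QuadraticCubic.exists_twist_point hK hd hr (div_ne_zero ha hc)
      (div_ne_zero hb hc) ?_)
    rw [div_pow, div_pow, ← add_div, h, div_self (pow_ne_zero 3 hc)]

/-- **Every exponent divisible by `3`** over `ℚ(√d)` when the twist has no such point. -/
theorem fermat_quadratic_three_dvd (hK : Module.finrank ℚ K = 2) {d : ℚ} (hd : ¬ IsSquare d)
    {r : K} (hr : r ^ 2 = d) (h : ¬ ∃ X Y : ℚ, X ≠ 0 ∧ Y ^ 2 = X ^ 3 - 432 * d ^ 3) {n : ℕ}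
    (hn : 3 ∣ n) : FermatLastTheoremWith K n :=
  FermatLastTheoremWith.mono hn ((fermatThree_quadratic_iff hK hd hr).2 h)

/-- `ℚ(√2)`: `(18 + 17 √2)³ + (18 - 17 √2)³ = 42³`. -/
theorem not_fermatThree_sqrt_two {s : K} (hs : s ^ 2 = 2) : ¬ FermatLastTheoremWith K 3 := by
  intro hflt
  have hne : ∀ e : K, e ^ 2 = 1 → 18 + e * 17 * s ≠ 0 := fun e he h => by
    have h0 : (254 : K) = 0 := by
      linear_combination (e * 17 * s - 18) * h - 17 ^ 2 * s ^ 2 * he - 17 ^ 2 * hs
    norm_num at h0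
  refine hflt (18 + 17 * s) (18 - 17 * s) 42 ?_ ?_ (by norm_num) ?_
  · simpa using hne 1 (one_pow 2)
  · simpa [sub_eq_add_neg] using hne (-1) (by ring)
  · linear_combination 31212 * hs

/-- `ℚ(√-3)`: no solution, for every exponent divisible by `3` (Euler). -/
theorem fermat_sqrt_neg_three (hK : Module.finrank ℚ K = 2) {s : K} (hs : s ^ 2 = -3) {n : ℕ}
    (hn : 3 ∣ n) : FermatLastTheoremWith K n := by
  refine fermat_quadratic_three_dvd hK (d := -3) (fun ⟨a, ha⟩ => by nlinarith [mul_self_nonneg a])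
    (r := s) (by push_cast; exact hs) (fun ⟨X, Y, hX, h⟩ => hX ?_) hn
  have := (rational_points_curve27_dual (x := X / 9) (y := Y / 27)
    (by linear_combination h / 729)).1
  linarith

/-- **Three powers in progression**: for `n` divisible by `3` or by `4` and `y ≠ 0`,
`x ^ n + z ^ n = 2 y ^ n` forces `|x| = |y| = |z|`. -/
theorem pow_three_AP {n : ℕ} (hn0 : n ≠ 0) (hn : 3 ∣ n ∨ 4 ∣ n) {x y z : ℤ} (hy : y ≠ 0)
    (h : x ^ n + z ^ n = 2 * y ^ n) : |x| = |y| ∧ |z| = |y| := by
  suffices key : x ^ n = y ^ n ∧ z ^ n = y ^ n by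
    have e : ∀ a : ℤ, a ^ n = y ^ n → |a| = |y| := fun a ha =>
      (pow_left_inj₀ (abs_nonneg a) (abs_nonneg y) hn0).1 (by rw [← abs_pow, ← abs_pow, ha])
    exact ⟨e x key.1, e z key.2⟩
  rcases hn with ⟨k, rfl⟩ | ⟨k, rfl⟩
  · simp only [mul_comm 3 k, pow_mul] at h ⊢
    obtain ⟨e1, e2⟩ := FA.QuadraticCubic.three_cubes_AP (pow_ne_zero k hy) h
    exact ⟨by rw [e1], by rw [e2]⟩
  · simp only [mul_comm 4 k, pow_mul] at h ⊢
    obtain ⟨e1, e2⟩ := FA.QuadraticCubic.three_fourth_powers_AP (x := ((x ^ k : ℤ) : ℚ))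
      (y := ((y ^ k : ℤ) : ℚ)) (z := ((z ^ k : ℤ) : ℚ)) (mod_cast pow_ne_zero k hy)
      (by exact_mod_cast h)
    exact ⟨by exact_mod_cast e1, by exact_mod_cast e2⟩

end FA.Summary

end
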