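import Fermat.Agent.Iskra.MultiquadraticPrimes
import Mathlib.NumberTheory.FLT.Basic

/-!
# Fermat's Last Theorem for the exponent `4` over real fields of infinite degree

* `fermatFour_of_not_congruent`: when no product of finitely many of the odd primes `p₀, p₁, …` is
  congruent, Fermat's equation of every exponent divisible by `4` has only trivial solutions in
  `ℚ(√p₀, √p₁, …)`.
* `fermatFour_multiquadratic`: such primes exist above every bound, the first `k` square roots
  generating a field of degree exactly `2 ^ k`.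
* `fermatFour_infinite_field`: so there is a real field of infinite degree over `ℚ` over which these
  exponents are settled, where `y² = x³ - x` has no affine points beyond `(0, 0)` and `(± 1, 0)`.
-/

set_option autoImplicit false
set_option linter.style.haveILetI false

noncomputable section

namespace FA.IskraField

/-- Points of `y² = x³ - x` settle the exponents divisible by `4`. -/
theorem fermat_four_dvd {P : ℕ → ℕ} (hP : PrimeSeq P) (hN : NoRationalPoint P)
    (F : IntermediateField ℚ ℝ) (hF : F ≤ sqrtFieldAll P) {n : ℕ} (hn : 4 ∣ n) :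
    FermatLastTheoremWith F n := by
  refine FermatLastTheoremWith.mono hn ?_
  intro a b c ha hb hc h
  have h' : (a : ℝ) ^ 4 + (b : ℝ) ^ 4 = (c : ℝ) ^ 4 := by exact_mod_cast h
  have ha' : (a : ℝ) ≠ 0 := by exact_mod_cast ha
  have hb' : (b : ℝ) ≠ 0 := by exact_mod_cast hb
  have hc' : (c : ℝ) ≠ 0 := by exact_mod_cast hc
  refine div_ne_zero (mul_ne_zero hc' (pow_ne_zero 2 ha')) (pow_ne_zero 3 hb')
    (y_eq_zero_all hP hN (x := (c : ℝ) ^ 2 / (b : ℝ) ^ 2)
      (y := (c : ℝ) * (a : ℝ) ^ 2 / (b : ℝ) ^ 3)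
      (div_mem (pow_mem (hF c.2) 2) (pow_mem (hF b.2) 2))
      (div_mem (mul_mem (hF c.2) (pow_mem (hF a.2) 2)) (pow_mem (hF b.2) 3)) ?_)
  field_simp
  linear_combination h'

end FA.IskraField

namespace FA.Summary

open FA.IskraField

/-- **The criterion**: distinct odd primes with no congruent product. -/
theorem fermatFour_of_not_congruent (P : ℕ → ℕ) (hp : ∀ i, (P i).Prime) (ho : ∀ i, Odd (P i))
    (hinj : Function.Injective P)
    (hc : ∀ S : Finset ℕ, ¬ ∃ a b c : ℚ, 0 < a ∧ 0 < b ∧ 0 < c ∧ a ^ 2 + b ^ 2 = c ^ 2 ∧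
      a * b / 2 = ((∏ i ∈ S, P i : ℕ) : ℚ))
    {n : ℕ} (hn : 4 ∣ n) :
    FermatLastTheoremWith (IntermediateField.adjoin ℚ (Set.range fun i => Real.sqrt (P i))) n :=
  fermat_four_dvd ⟨hp, ho, hinj⟩ (fun S _ _ h => by_contra fun hy =>
    hc S (congruent_of_point (Finset.prod_pos fun i _ => (hp i).pos) h hy))
    (sqrtFieldAll P) le_rfl hn

/-- **Exponents divisible by `4` over real fields of every degree `2 ^ k`**, generated by square
roots of primes above any bound. -/
theorem fermatFour_multiquadratic (M : ℕ) :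
    ∃ P : ℕ → ℕ, Function.Injective P ∧ (∀ i, (P i).Prime ∧ P i % 8 = 3 ∧ M < P i) ∧
      ∀ k : ℕ,
        Module.finrank ℚ (IntermediateField.adjoin ℚ
          ((fun i => Real.sqrt (P i)) '' Set.Iio k)) = 2 ^ k ∧
        ∀ n : ℕ, 4 ∣ n → FermatLastTheoremWith (IntermediateField.adjoin ℚ
          ((fun i => Real.sqrt (P i)) '' Set.Iio k)) n := by
  obtain ⟨P, hP, h8, hsq⟩ := exists_primeSeq M
  exact ⟨P, hP.injective, fun i => ⟨hP.prime i, h8 i⟩, fun k => ⟨finrank_sqrtField hP k,
    fun n hn => fermat_four_dvd hP (noRationalPoint hP (fun i => (h8 i).1) hsq)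
      (sqrtField P k) (sqrtField_le_all P k) hn⟩⟩

/-- **A real field of infinite degree** over which Fermat's Last Theorem holds for every exponent
divisible by `4` and the points of `y² = x³ - x` are the rational ones. -/
theorem fermatFour_infinite_field :
    ∃ K : IntermediateField ℚ ℝ, ¬ FiniteDimensional ℚ K ∧
      (∀ n : ℕ, 4 ∣ n → FermatLastTheoremWith K n) ∧
      ∀ x y : K, y ^ 2 = x ^ 3 - x → y = 0 ∧ (x = 0 ∨ x = 1 ∨ x = -1) := by
  obtain ⟨P, hP, h8, hsq⟩ := exists_primeSeq 0
  refine ⟨sqrtFieldAll P, fun hfin => ?_, fun n hn => ?_, fun x y h => ?_⟩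
  · haveI := hfin
    set d := Module.finrank ℚ (sqrtFieldAll P)
    have h1 := IntermediateField.finrank_le_of_le_right (sqrtField_le_all P (d + 1))
    rw [finrank_sqrtField hP] at h1
    exact absurd h1 (not_le.2 ((Nat.lt_succ_self d).trans Nat.lt_two_pow_self))
  · exact fermat_four_dvd hP (noRationalPoint hP (fun i => (h8 i).1) hsq) _ le_rfl hn
  · have h' : (y : ℝ) ^ 2 = (x : ℝ) ^ 3 - x := by exact_mod_cast h
    have hy : y = 0 :=
      Subtype.ext (y_eq_zero_all hP (noRationalPoint hP (fun i => (h8 i).1) hsq) x.2 y.2 h' :)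
    refine ⟨hy, ?_⟩
    have hz : x * ((x - 1) * (x + 1)) = 0 := by
      rw [hy] at h
      linear_combination -h
    rcases mul_eq_zero.1 hz with h1 | h1
    · exact Or.inl h1
    rcases mul_eq_zero.1 h1 with h2 | h2
    · exact Or.inr (Or.inl (sub_eq_zero.1 h2))
    · exact Or.inr (Or.inr (eq_neg_of_add_eq_zero_left h2))

end FA.Summary

end
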