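import Fermat.Agent.Root.Summary
import Mathlib.Algebra.MvPolynomial.Funext
import Mathlib.Algebra.Polynomial.Roots
import Mathlib.FieldTheory.RatFunc.Basic
import Mathlib.RingTheory.LaurentSeries
import Mathlib.RingTheory.PowerSeries.Binomial
import Mathlib.RingTheory.PowerSeries.Expand

/-!
# Fermat's Last Theorem over function fields of rational varieties

A solution in the fraction field of a domain with enough `ℚ`-points gives, at a point where
nothing vanishes, one over `ℚ`. So Fermat's Last Theorem holds over every field of rational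
functions over `ℚ`, in any number of variables. It fails in `ℚ⟦X⟧` and `ℚ((X))` for every exponent,
as `1 + X ^ n` is an `n`th power there.
-/

set_option autoImplicit false

noncomputable section

open scoped LaurentSeries

namespace FA.Summary

/-- **Fermat's Last Theorem over a fraction field with enough rational points**: if for every
`r ≠ 0` some homomorphism to `ℚ` does not kill `r`, there is no nontrivial solution. -/
theorem fermat_fractionRing {R K : Type*} [CommRing R] [IsDomain R] [Field K] [Algebra R K]
    [IsFractionRing R K] (hR : ∀ r : R, r ≠ 0 → ∃ φ : R →+* ℚ, φ r ≠ 0) {n : ℕ} (hn : 3 ≤ n) :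
    FermatLastTheoremWith K n := by
  classical
  intro a b c ha hb hc h
  obtain ⟨⟨d, hd⟩, hint⟩ :=
    IsLocalization.exist_integer_multiples_of_finset (nonZeroDivisors R) ({a, b, c} : Finset K)
  have hd0 : algebraMap R K d ≠ 0 := IsFractionRing.to_map_ne_zero_of_mem_nonZeroDivisors hd
  have get : ∀ x ∈ ({a, b, c} : Finset K), x ≠ 0 → ∃ r : R, r ≠ 0 ∧
      algebraMap R K r = algebraMap R K d * x := fun x hx hx0 => by
    obtain ⟨r, hr⟩ := hint x hx
    have hr' : algebraMap R K r = algebraMap R K d * x := by rw [hr, Algebra.smul_def]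
    refine ⟨r, fun h0 => mul_ne_zero hd0 hx0 ?_, hr'⟩
    rw [← hr', h0, map_zero]
  obtain ⟨A, hA, eA⟩ := get a (by simp) ha
  obtain ⟨B, hB, eB⟩ := get b (by simp) hb
  obtain ⟨C, hC, eC⟩ := get c (by simp) hc
  obtain ⟨φ, hφ⟩ := hR (A * B * C) (mul_ne_zero (mul_ne_zero hA hB) hC)
  simp only [map_mul, mul_ne_zero_iff] at hφ
  refine fermatLastTheoremFor_iff_rat.mp (fermat n hn) (φ A) (φ B) (φ C) hφ.1.1 hφ.1.2 hφ.2 ?_
  have key : A ^ n + B ^ n = C ^ n := IsFractionRing.injective R K (by
    rw [map_add, map_pow, map_pow, map_pow, eA, eB, eC, mul_pow, mul_pow, mul_pow, ← mul_add, h])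
  rw [← map_pow, ← map_pow, ← map_pow, ← map_add, key]

/-- **Fermat's Last Theorem over `ℚ(Xᵢ)`**, in any number of variables. -/
theorem fermat_mvRatFunc (ι : Type*) {n : ℕ} (hn : 3 ≤ n) :
    FermatLastTheoremWith (FractionRing (MvPolynomial ι ℚ)) n := by
  refine fermat_fractionRing (R := MvPolynomial ι ℚ) (fun r hr => ?_) hn
  by_contra hne
  push Not at hne
  exact hr (MvPolynomial.funext fun x => by simpa using hne (MvPolynomial.eval x))

/-- **Fermat's Last Theorem over `ℚ(X)`**. -/
theorem fermat_ratFunc {n : ℕ} (hn : 3 ≤ n) : FermatLastTheoremWith (RatFunc ℚ) n := by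
  refine fermat_fractionRing (R := Polynomial ℚ) (fun r hr => ?_) hn
  by_contra hne
  push Not at hne
  exact hr (Polynomial.funext fun x => by simpa using hne (Polynomial.evalRingHom x))

/-- **It fails for formal power series**: `1 + X ^ n` is an `n`th power in `ℚ⟦X⟧`. -/
theorem fermat_powerSeries_fails {n : ℕ} (hn : 0 < n) :
    ¬ FermatLastTheoremWith (PowerSeries ℚ) n := by
  intro h
  set s := PowerSeries.binomialSeries ℚ ((n : ℚ)⁻¹)
  have hs : ∀ k : ℕ, s ^ k = PowerSeries.binomialSeries ℚ ((k : ℚ) * (n : ℚ)⁻¹) := fun k => by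
    induction k with
    | zero => simp
    | succ k ih =>
      rw [pow_succ, ih, ← PowerSeries.binomialSeries_add, Nat.cast_succ, add_one_mul]
  have h1 : s ^ n = 1 + PowerSeries.X := by
    rw [hs, mul_inv_cancel₀ (Nat.cast_ne_zero.mpr hn.ne'),
      show (1 : ℚ) = ((1 : ℕ) : ℚ) from Nat.cast_one.symm, PowerSeries.binomialSeries_nat, pow_one]
  refine h 1 PowerSeries.X (PowerSeries.expand n hn.ne' s) one_ne_zero PowerSeries.X_ne_zero
    (fun h0 => ?_) ?_
  · have h2 := congrArg (fun f => f ^ n) h0
    simp only [← map_pow, h1, map_add, map_one, PowerSeries.expand_X, zero_pow hn.ne'] at h2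
    simpa [hn.ne'] using congrArg PowerSeries.constantCoeff h2
  · rw [one_pow, ← map_pow, h1, map_add, map_one, PowerSeries.expand_X]

/-- **It fails for formal Laurent series**, a field with the same constants. -/
theorem fermat_laurentSeries_fails {n : ℕ} (hn : 0 < n) :
    ¬ FermatLastTheoremWith ℚ⸨X⸩ n := fun h =>
  fermat_powerSeries_fails hn fun a b c ha hb hc e => by
    let f := HahnSeries.ofPowerSeries ℤ ℚ
    have hf : Function.Injective f := HahnSeries.ofPowerSeries_injective
    exact h (f a) (f b) (f c) ((map_ne_zero_iff f hf).mpr ha) ((map_ne_zero_iff f hf).mpr hb)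
      ((map_ne_zero_iff f hf).mpr hc)
      (by rw [← map_pow, ← map_pow, ← map_pow, ← map_add, e])

end FA.Summary

end
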