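import Fermat.Agent.FermatHasseWeil.Main
import Mathlib.Analysis.SpecialFunctions.Gamma.Beta

/-!
# Hasse's conjecture for the Fermat curves (Weil, 1952)

Let `l` be an odd prime, `K = ℚ(ζ_l)`, `g = (l - 1) (l - 2) / 2` and, for a prime `P ∤ l` of norm `q`,
let `α_{P,i}`, `i < 2 g`, be the numbers such that the reduction of `x ^ l + y ^ l = z ^ l` at `P` has
`q ^ d + 1 - ∑ i, α_{P,i} ^ d` points in the projective plane over every extension of degree `d` of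
`𝓞 / P`.  They have absolute value `√q`, and for `3 / 2 < re s` the Hasse-Weil product
`L (C, s) = ∏_{P ∤ l} ∏ i (1 - α_{P,i} q ^ (-s))⁻¹` converges.  With the factor
`∏ i (1 - c_i l ^ (-s))⁻¹` at the prime over `l`, `A = |d_K| ^ (2 g) l ^ N`, `N ≤ 4 g`, the function
`A ^ (s / 2) Γℂ (s) ^ (g [K : ℚ]) L` extends to an entire `Λ` with `Λ s = ± Λ (2 - s)`; so
`L (C, s)` extends to an entire function.
-/

set_option autoImplicit false
set_option linter.unusedSectionVars false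

noncomputable section

open NumberField IsDedekindDomain
open scoped Classical LinearAlgebra.Projectivization

namespace FA.Root.FermatHasseWeilSummary

universe u

variable {K : Type u} [Field K] [NumberField K] (l : ℕ) [hl : Fact l.Prime]
  [IsCyclotomicExtension {l} ℚ K]

/-- **Hasse's conjecture for `x ^ l + y ^ l = z ^ l` over `ℚ(ζ_l)`.** -/
theorem fermatCurve_hasseWeil_functional_equation (hl2 : l ≠ 2) :
    ∃ (α : HeightOneSpectrum (𝓞 K) → Fin ((l - 1) * (l - 2)) → ℂ)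
      (c : Fin ((l - 1) * (l - 2)) → ℂ) (N : ℕ) (W : ℂ) (Λ : ℂ → ℂ),
      (∀ v : HeightOneSpectrum (𝓞 K), (l : 𝓞 K) ∉ v.asIdeal →
        (∀ i, ‖α v i‖ ^ 2 = ((Ideal.absNorm v.asIdeal : ℕ) : ℝ)) ∧
        ∀ (E : Type u) [Field E] [Finite E] [Algebra (𝓞 K ⧸ v.asIdeal) E],
          (Nat.card {P : ℙ E (Fin 3 → E) // P.rep 0 ^ l + P.rep 1 ^ l = P.rep 2 ^ l} : ℂ) =
            ((Ideal.absNorm v.asIdeal : ℕ) : ℂ) ^ Module.finrank (𝓞 K ⧸ v.asIdeal) E + 1 -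
              ∑ i, α v i ^ Module.finrank (𝓞 K ⧸ v.asIdeal) E) ∧
      (∀ i, c i = 0 ∨ ‖c i‖ ^ 2 = (l : ℝ)) ∧ N ≤ 2 * ((l - 1) * (l - 2)) ∧
      (W = 1 ∨ W = -1) ∧ Differentiable ℂ Λ ∧
      (∀ s : ℂ, 3 / 2 < s.re → ∃ L : ℂ, L ≠ 0 ∧
        HasProd (fun v : {v : HeightOneSpectrum (𝓞 K) // (l : 𝓞 K) ∉ v.asIdeal} =>
          (∏ i, (1 - α v.1 i * ((Ideal.absNorm v.1.asIdeal : ℕ) : ℂ) ^ (-s)))⁻¹) L ∧
        (∏ i, (1 - c i * (l : ℂ) ^ (-s))) ≠ 0 ∧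
        Λ s = ((|((discr K : ℤ) : ℝ)| ^ ((l - 1) * (l - 2)) * (l : ℝ) ^ N : ℝ) : ℂ) ^ (s / 2) *
          Complex.Gammaℂ s ^ ((l - 1) * ((l - 1) * (l - 2) / 2)) *
          ((∏ i, (1 - c i * (l : ℂ) ^ (-s)))⁻¹ * L)) ∧
      ∀ s : ℂ, Λ s = W * Λ (2 - s) :=
  FA.FermatHW.exists_hasseWeil hl2

/-- **The Hasse-Weil L-function of the Fermat curve is entire.** -/
theorem fermatCurve_hasseWeil_entire (hl2 : l ≠ 2) :
    ∃ (α : HeightOneSpectrum (𝓞 K) → Fin ((l - 1) * (l - 2)) → ℂ) (E : ℂ → ℂ),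
      (∀ v : HeightOneSpectrum (𝓞 K), (l : 𝓞 K) ∉ v.asIdeal →
        ∀ (F : Type u) [Field F] [Finite F] [Algebra (𝓞 K ⧸ v.asIdeal) F],
          (Nat.card {P : ℙ F (Fin 3 → F) // P.rep 0 ^ l + P.rep 1 ^ l = P.rep 2 ^ l} : ℂ) =
            ((Ideal.absNorm v.asIdeal : ℕ) : ℂ) ^ Module.finrank (𝓞 K ⧸ v.asIdeal) F + 1 -
              ∑ i, α v i ^ Module.finrank (𝓞 K ⧸ v.asIdeal) F) ∧
      Differentiable ℂ E ∧ ∀ s : ℂ, 3 / 2 < s.re →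
        HasProd (fun v : {v : HeightOneSpectrum (𝓞 K) // (l : 𝓞 K) ∉ v.asIdeal} =>
          (∏ i, (1 - α v.1 i * ((Ideal.absNorm v.1.asIdeal : ℕ) : ℂ) ^ (-s)))⁻¹) (E s) := by
  obtain ⟨α, c, N, W, Λ, h1, -, -, -, hΛ, hL, -⟩ :=
    fermatCurve_hasseWeil_functional_equation (K := K) l hl2
  set A : ℝ := |((discr K : ℤ) : ℝ)| ^ ((l - 1) * (l - 2)) * (l : ℝ) ^ N
  set e := (l - 1) * ((l - 1) * (l - 2) / 2)
  have hA : (A : ℂ) ≠ 0 := Complex.ofReal_ne_zero.2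
    (mul_ne_zero (pow_ne_zero _ (abs_ne_zero.2 (Int.cast_ne_zero.2 (discr_ne_zero K))))
      (pow_ne_zero _ (Nat.cast_ne_zero.2 hl.out.ne_zero)))
  refine ⟨α, fun s => Λ s * (A : ℂ) ^ (-(s / 2)) *
    ((2 * (Real.pi : ℂ)) ^ s / 2 * (Complex.Gamma s)⁻¹) ^ e * ∏ i, (1 - c i * (l : ℂ) ^ (-s)),
    fun v hv F _ _ _ => (h1 v hv).2 F, ?_, fun s hs => ?_⟩
  · refine ((hΛ.mul ((differentiable_id.div_const 2).neg.const_cpow (Or.inl hA))).mul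
      (((((differentiable_id).const_cpow (Or.inl (by simp [Real.pi_ne_zero]))).div_const 2).mul
        Complex.differentiable_one_div_Gamma).pow _)).mul
      (Differentiable.fun_finsetProd fun i _ => ((differentiable_id.neg.const_cpow
        (Or.inl (Nat.cast_ne_zero.2 hl.out.ne_zero))).const_mul _).const_sub _)
  · obtain ⟨L, -, hp, hc, he⟩ := hL s hs
    convert hp using 1
    beta_reduce
    rw [he, Complex.Gammaℂ_def]
    simp only [Complex.cpow_neg] at hc ⊢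
    have hg : Complex.Gamma s ≠ 0 := Complex.Gamma_ne_zero_of_re_pos (by linarith)
    have h2 : (2 * (Real.pi : ℂ)) ^ s ≠ 0 :=
      Complex.cpow_ne_zero_iff.2 (Or.inl (by simp [Real.pi_ne_zero]))
    have hAs : (A : ℂ) ^ (s / 2) ≠ 0 := Complex.cpow_ne_zero_iff.2 (Or.inl hA)
    have hu : (2 * ((2 * (Real.pi : ℂ)) ^ s)⁻¹ * Complex.Gamma s) ^ e *
        ((2 * (Real.pi : ℂ)) ^ s / 2 * (Complex.Gamma s)⁻¹) ^ e = 1 := by
      rw [← mul_pow]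
      field_simp
      simp
    calc (A : ℂ) ^ (s / 2) * (2 * ((2 * (Real.pi : ℂ)) ^ s)⁻¹ * Complex.Gamma s) ^ e *
          ((∏ i, (1 - c i * ((l : ℂ) ^ s)⁻¹))⁻¹ * L) * ((A : ℂ) ^ (s / 2))⁻¹ *
          ((2 * (Real.pi : ℂ)) ^ s / 2 * (Complex.Gamma s)⁻¹) ^ e *
          ∏ i, (1 - c i * ((l : ℂ) ^ s)⁻¹)
        = ((A : ℂ) ^ (s / 2) * ((A : ℂ) ^ (s / 2))⁻¹) *
          ((2 * ((2 * (Real.pi : ℂ)) ^ s)⁻¹ * Complex.Gamma s) ^ e *
            ((2 * (Real.pi : ℂ)) ^ s / 2 * (Complex.Gamma s)⁻¹) ^ e) *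
          ((∏ i, (1 - c i * ((l : ℂ) ^ s)⁻¹))⁻¹ * (∏ i, (1 - c i * ((l : ℂ) ^ s)⁻¹))) * L := by ring
      _ = L := by
        rw [hu, mul_inv_cancel₀ hAs, inv_mul_cancel₀ hc, one_mul, one_mul, one_mul]

end FA.Root.FermatHasseWeilSummary

end
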