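import Fermat.Agent.FermatHasseWeilQ.Main

/-!
# Hasse's conjecture for the Fermat curves over `ℚ` (Weil, 1952)

Let `l` be an odd prime, `g = (l - 1) (l - 2) / 2` and, for a prime `p ≠ l`, let `α_{p,i}`, `i < 2 g`,
be the numbers such that `x ^ l + y ^ l = z ^ l` has `p ^ d + 1 - ∑ i, α_{p,i} ^ d` points in the
projective plane over every field with `p ^ d` elements.  They have absolute value `√p`, and for
`3 / 2 < re s` the Hasse-Weil product `L (C, s) = ∏_{p ≠ l} ∏ i (1 - α_{p,i} p ^ (-s))⁻¹` converges.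
With the factor `∏ b (1 - c_b l ^ (-s))⁻¹` at `l` and `N ≤ l (l - 2)`, the function
`l ^ (N s / 2) Γℂ (s) ^ g L` extends to an entire `Λ` with `Λ s = ± Λ (2 - s)`, without zeros on
`3 / 2 ≤ re s`; so `L (C, s)` extends to an entire function without zeros there.
-/

set_option autoImplicit false
set_option linter.unusedSectionVars false

noncomputable section

open NumberField
open scoped Classical LinearAlgebra.Projectivization

namespace FA.Root.FermatHasseWeilRatSummary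

universe w

variable (l : ℕ) [hl : Fact l.Prime]

/-- **Hasse's conjecture for `x ^ l + y ^ l = z ^ l` over `ℚ`.** -/
theorem fermatCurve_rat_hasseWeil_functional_equation (hl2 : l ≠ 2) :
    ∃ (α : Nat.Primes → Fin ((l - 1) * (l - 2)) → ℂ) (c : Fin (l - 2) → ℂ) (N : ℕ) (W : ℂ)
      (Λ : ℂ → ℂ),
      (∀ p : Nat.Primes, (p : ℕ) ≠ l → (∀ i, ‖α p i‖ ^ 2 = (p : ℝ)) ∧
        ∀ (E : Type w) [Field E] [Finite E] (d : ℕ), Nat.card E = (p : ℕ) ^ d →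
          (Nat.card {P : ℙ E (Fin 3 → E) // P.rep 0 ^ l + P.rep 1 ^ l = P.rep 2 ^ l} : ℂ) =
            (p : ℂ) ^ d + 1 - ∑ i, α p i ^ d) ∧
      (∀ i, c i = 0 ∨ ‖c i‖ ^ 2 = (l : ℝ)) ∧ N ≤ l * (l - 2) ∧ (W = 1 ∨ W = -1) ∧
      Differentiable ℂ Λ ∧
      (∀ s : ℂ, 3 / 2 < s.re → ∃ L : ℂ, L ≠ 0 ∧
        HasProd (fun p : {p : Nat.Primes // (p : ℕ) ≠ l} =>
          (∏ i, (1 - α p.1 i * (p.1 : ℂ) ^ (-s)))⁻¹) L ∧
        Λ s = ((l : ℝ) ^ N : ℝ) ^ (s / 2) * Complex.Gammaℂ s ^ ((l - 1) * (l - 2) / 2) *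
          ((∏ i, (1 - c i * (l : ℂ) ^ (-s)))⁻¹ * L)) ∧
      (∀ s : ℂ, 3 / 2 ≤ s.re → Λ s ≠ 0) ∧ ∀ s : ℂ, Λ s = W * Λ (2 - s) := by
  have : NeZero l := ⟨hl.out.ne_zero⟩
  let K := CyclotomicField l ℚ
  have : IsCyclotomicExtension {l} ℚ K := CyclotomicField.isCyclotomicExtension l ℚ
  have : NumberField K := IsCyclotomicExtension.numberField {l} ℚ K
  obtain ⟨φ⟩ : Nonempty (K →+* ℂ) := inferInstance
  exact FA.FermatHW.exists_hasseWeilRat.{0, w} hl2 φ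

/-- **The Hasse-Weil L-function over `ℚ` is entire and has no zero on `3 / 2 ≤ re s`.** -/
theorem fermatCurve_rat_hasseWeil_entire (hl2 : l ≠ 2) :
    ∃ (α : Nat.Primes → Fin ((l - 1) * (l - 2)) → ℂ) (E : ℂ → ℂ),
      (∀ p : Nat.Primes, (p : ℕ) ≠ l →
        ∀ (F : Type w) [Field F] [Finite F] (d : ℕ), Nat.card F = (p : ℕ) ^ d →
          (Nat.card {P : ℙ F (Fin 3 → F) // P.rep 0 ^ l + P.rep 1 ^ l = P.rep 2 ^ l} : ℂ) =
            (p : ℂ) ^ d + 1 - ∑ i, α p i ^ d) ∧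
      Differentiable ℂ E ∧
      (∀ s : ℂ, 3 / 2 < s.re → HasProd (fun p : {p : Nat.Primes // (p : ℕ) ≠ l} =>
        (∏ i, (1 - α p.1 i * (p.1 : ℂ) ^ (-s)))⁻¹) (E s)) ∧
      ∀ s : ℂ, 3 / 2 ≤ s.re → E s ≠ 0 := by
  obtain ⟨α, c, N, W, Λ, h1, hc, -, -, hΛ, hL, hnz, -⟩ :=
    fermatCurve_rat_hasseWeil_functional_equation.{w} l hl2
  set A : ℝ := (l : ℝ) ^ N
  set e := (l - 1) * (l - 2) / 2
  have hl1 : (1 : ℝ) < l := Nat.one_lt_cast.2 hl.out.one_lt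
  have hA : (A : ℂ) ≠ 0 :=
    Complex.ofReal_ne_zero.2 (pow_ne_zero _ (Nat.cast_ne_zero.2 hl.out.ne_zero))
  have hfac : ∀ s : ℂ, 3 / 2 ≤ s.re → ∀ i, 1 - c i * (l : ℂ) ^ (-s) ≠ 0 := fun s hs i h => by
    have h1 : ‖c i * (l : ℂ) ^ (-s)‖ = 1 := by rw [← sub_eq_zero.1 h, norm_one]
    rcases hc i with h2 | h2
    · rw [h2, zero_mul, norm_zero] at h1
      exact zero_ne_one h1
    · rw [norm_mul, Complex.norm_natCast_cpow_of_pos hl.out.pos, Complex.neg_re,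
        Real.rpow_neg (Nat.cast_nonneg _), ← Real.sqrt_sq (norm_nonneg (c i)), h2,
        Real.sqrt_eq_rpow, ← div_eq_mul_inv, ← Real.rpow_sub (by linarith)] at h1
      exact (Real.rpow_lt_one_of_one_lt_of_neg hl1 (by linarith)).ne h1
  refine ⟨α, fun s => Λ s * (A : ℂ) ^ (-(s / 2)) *
    ((2 * (Real.pi : ℂ)) ^ s / 2 * (Complex.Gamma s)⁻¹) ^ e * ∏ i, (1 - c i * (l : ℂ) ^ (-s)),
    fun p hp F _ _ => (h1 p hp).2 F, ?_, fun s hs => ?_, fun s hs => ?_⟩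
  · refine ((hΛ.mul ((differentiable_id.div_const 2).neg.const_cpow (Or.inl hA))).mul
      (((((differentiable_id).const_cpow (Or.inl (by simp [Real.pi_ne_zero]))).div_const 2).mul
        Complex.differentiable_one_div_Gamma).pow _)).mul
      (Differentiable.fun_finsetProd fun i _ => ((differentiable_id.neg.const_cpow
        (Or.inl (Nat.cast_ne_zero.2 hl.out.ne_zero))).const_mul _).const_sub _)
  · obtain ⟨L, -, hp, he⟩ := hL s hs
    convert hp using 1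
    beta_reduce
    rw [he, Complex.Gammaℂ_def]
    have hX : (∏ i, (1 - c i * (l : ℂ) ^ (-s))) ≠ 0 :=
      Finset.prod_ne_zero_iff.2 fun i _ => hfac s hs.le i
    simp only [Complex.cpow_neg] at hX ⊢
    have hg : Complex.Gamma s ≠ 0 := Complex.Gamma_ne_zero_of_re_pos (by linarith)
    have h2 : (2 * (Real.pi : ℂ)) ^ s ≠ 0 :=
      Complex.cpow_ne_zero_iff.2 (Or.inl (by simp [Real.pi_ne_zero]))
    have hAs : (A : ℂ) ^ (s / 2) ≠ 0 := Complex.cpow_ne_zero_iff.2 (Or.inl hA)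
    have hu : (2 * ((2 * (Real.pi : ℂ)) ^ s)⁻¹ * Complex.Gamma s) ^ e *
        ((2 * (Real.pi : ℂ)) ^ s / 2 * (Complex.Gamma s)⁻¹) ^ e = 1 := by
      rw [← mul_pow]
      field_simp
      simp
    linear_combination
      (L * ((A : ℂ) ^ (s / 2) * ((A : ℂ) ^ (s / 2))⁻¹) *
        ((∏ i, (1 - c i * ((l : ℂ) ^ s)⁻¹))⁻¹ * ∏ i, (1 - c i * ((l : ℂ) ^ s)⁻¹))) * hu +
      (L * ((∏ i, (1 - c i * ((l : ℂ) ^ s)⁻¹))⁻¹ * ∏ i, (1 - c i * ((l : ℂ) ^ s)⁻¹))) *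
        mul_inv_cancel₀ hAs + L * inv_mul_cancel₀ hX
  · refine mul_ne_zero (mul_ne_zero (mul_ne_zero (hnz s hs)
      (Complex.cpow_ne_zero_iff.2 (Or.inl hA))) (pow_ne_zero _ (mul_ne_zero (div_ne_zero
        (Complex.cpow_ne_zero_iff.2 (Or.inl (by simp [Real.pi_ne_zero]))) two_ne_zero)
        (inv_ne_zero (Complex.Gamma_ne_zero_of_re_pos (by linarith))))))
      (Finset.prod_ne_zero_iff.2 fun i _ => hfac s hs i)

end FA.Root.FermatHasseWeilRatSummary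

end
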