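import Fermat.Agent.Hurwitz.RightTriangle

/-!
# Perfect powers in right triangles

For every `n ≥ 2`: no right triangle with rational sides has both legs `n`-th powers
(`x ^ (2 n) + y ^ (2 n)` is no square), none primitive has the even leg and the hypotenuse `n`-th
powers, and neither the area nor the product of the sides of a primitive one is an `n`-th power.
The proofs reduce to Fermat's equation and to Ribet's `a ^ n + 2 ^ α b ^ n + c ^ n = 0`.
-/

set_option autoImplicit false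

noncomputable section

namespace FA.Summary

/-- **`x ^ (2 n) + y ^ (2 n)` is no square**, nonzero integers, `n ≥ 2`. -/
theorem pow_two_mul_add_ne_sq {n : ℕ} (hn : 2 ≤ n) {x y : ℤ} (hx : x ≠ 0) (hy : y ≠ 0) (z : ℤ) :
    x ^ (2 * n) + y ^ (2 * n) ≠ z ^ 2 := fun h => by
  obtain ⟨x', y', hg, ex, ey⟩ := Int.exists_gcd_one (Int.gcd_pos_of_ne_zero_left y hx)
  generalize (Int.gcd x y : ℤ) = g at ex ey
  subst ex ey
  have hd : (g ^ n) ^ 2 ∣ z ^ 2 := ⟨x' ^ (2 * n) + y' ^ (2 * n), by rw [← h]; ring⟩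
  obtain ⟨w, rfl⟩ := (Int.pow_dvd_pow_iff two_ne_zero).1 hd
  exact FA.RightTriangle.legs_ne_sq hn (left_ne_zero_of_mul hx) (left_ne_zero_of_mul hy)
    (Int.isCoprime_iff_gcd_eq_one.2 hg) (mul_left_cancel₀
      (pow_ne_zero (2 * n) (right_ne_zero_of_mul hx)) (by linear_combination h) :
      x' ^ (2 * n) + y' ^ (2 * n) = w ^ 2)

/-- The same in rationals. -/
theorem pow_two_mul_add_ne_sq_rat {n : ℕ} (hn : 2 ≤ n) {x y : ℚ} (hx : x ≠ 0) (hy : y ≠ 0)
    (z : ℚ) : x ^ (2 * n) + y ^ (2 * n) ≠ z ^ 2 := fun h => by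
  have e : (z * ((x.den : ℚ) * y.den) ^ n) ^ 2 =
      (((x.num * y.den) ^ (2 * n) + (y.num * x.den) ^ (2 * n) : ℤ) : ℚ) := by
    push_cast
    rw [← Rat.mul_den_eq_num x, ← Rat.mul_den_eq_num y]
    linear_combination -((x.den : ℚ) * y.den) ^ (2 * n) * h
  obtain ⟨m, hm⟩ := FA.CongruentNumber.exists_int_of_sq e
  rw [hm] at e
  exact pow_two_mul_add_ne_sq hn (mul_ne_zero (Rat.num_ne_zero.2 hx) (mod_cast y.den_ne_zero))
    (mul_ne_zero (Rat.num_ne_zero.2 hy) (mod_cast x.den_ne_zero)) m (mod_cast e.symm)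

/-- **`x ^ (2 n) - y ^ (2 n)` is no square** for coprime `x`, `y` with `y` even and nonzero: no
primitive triangle with hypotenuse and even leg `n`-th powers, `n ≥ 2`. -/
theorem pow_two_mul_sub_ne_sq {n : ℕ} (hn : 2 ≤ n) {x y : ℤ} (hxy : IsCoprime x y) (hy : y ≠ 0)
    (hye : Even y) (z : ℤ) : x ^ (2 * n) - y ^ (2 * n) ≠ z ^ 2 :=
  FA.RightTriangle.hypotenuse_ne_sq hn hy hye hxy

/-- **`m k (m² - k²)` is no nonzero `n`-th power** for coprime `m`, `k` and `n ≥ 2`. -/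
theorem mul_sq_sub_sq_ne_pow {n : ℕ} (hn : 2 ≤ n) {m k y : ℤ} (hmk : IsCoprime m k) (hy : y ≠ 0) :
    m * k * (m ^ 2 - k ^ 2) ≠ y ^ n := by
  simpa using FA.RightTriangle.area_ne_pow hn hmk hy (Or.inl rfl)

/-- **The area of a primitive right triangle is no `n`-th power**, `n ≥ 2`. -/
theorem triangle_area_ne_pow {n : ℕ} (hn : 2 ≤ n) {a b c : ℤ} (habc : a ^ 2 + b ^ 2 = c ^ 2)
    (hcop : IsCoprime a b) (hab : a * b ≠ 0) (y : ℤ) : a * b ≠ 2 * y ^ n := fun h => by
  have hy : y ≠ 0 := fun e => hab (by rw [h, e, zero_pow (by omega), mul_zero])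
  obtain ⟨m, k, hmk, -, hg, -⟩ := PythagoreanTriple.coprime_classification.1
    ⟨show PythagoreanTriple a b c by
      unfold PythagoreanTriple; linear_combination habc, Int.isCoprime_iff_gcd_eq_one.1 hcop⟩
  refine FA.RightTriangle.area_ne_pow hn (Int.isCoprime_iff_gcd_eq_one.2 hg) hy (Or.inl rfl) ?_
  rcases hmk with ⟨rfl, rfl⟩ | ⟨rfl, rfl⟩ <;>
    exact mul_left_cancel₀ two_ne_zero (by linear_combination h)

/-- **No right triangle with integer sides has a square area**, primitive or not. -/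
theorem triangle_area_ne_sq {a b c Y : ℤ} (habc : a ^ 2 + b ^ 2 = c ^ 2) (hY : Y ≠ 0) :
    |a * b| ≠ 2 * Y ^ 2 :=
  FA.RightTriangle.area_ne_sq habc hY

/-- **The product of the sides of a primitive right triangle is no `n`-th power**, `n ≥ 2`. -/
theorem triangle_product_ne_pow {n : ℕ} (hn : 2 ≤ n) {a b c : ℤ}
    (habc : a ^ 2 + b ^ 2 = c ^ 2) (hcop : IsCoprime a b) (hne : a * b * c ≠ 0) (y : ℤ) :
    a * b * c ≠ y ^ n := fun h => by
  have hy : y ≠ 0 := fun e => hne (by rw [h, e, zero_pow (by omega)])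
  obtain ⟨m, k, hmk, hz, hg, hpar⟩ := PythagoreanTriple.coprime_classification.1
    ⟨show PythagoreanTriple a b c by
      unfold PythagoreanTriple; linear_combination habc, Int.isCoprime_iff_gcd_eq_one.1 hcop⟩
  have hc : IsCoprime m k := Int.isCoprime_iff_gcd_eq_one.2 hg
  obtain ⟨ε, hε, e⟩ : ∃ ε : ℤ, (ε = 1 ∨ ε = -1) ∧ 2 * m * k * (m ^ 4 - k ^ 4) = ε * y ^ n := by
    rcases hmk with ⟨rfl, rfl⟩ | ⟨rfl, rfl⟩ <;> rcases hz with rfl | rfl
    all_goals first
      | exact ⟨1, Or.inl rfl, by linear_combination h⟩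
      | exact ⟨-1, Or.inr rfl, by linear_combination -h⟩
  rcases hpar with ⟨hm, hk⟩ | ⟨hm, hk⟩
  · exact FA.RightTriangle.product_ne_pow hn (Int.even_iff.2 hm) (Int.odd_iff.2 hk) hc hy hε e
  · exact FA.RightTriangle.product_ne_pow hn (Int.even_iff.2 hk) (Int.odd_iff.2 hm) hc.symm hy
      (ε := -ε) (hε.symm.imp (fun e => by omega) (fun e => by omega))
      (by linear_combination -e)

end FA.Summary

end
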