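import Fermat.Agent.Root.SummaryFermatCurve
import Fermat.Agent.Root.SummaryRightTriangles
import Fermat.Agent.Root.SummaryFermatCubicQuadratic
import Mathlib.RingTheory.Norm.Basic
import Mathlib.RingTheory.AdjoinRoot
import Mathlib.RingTheory.Polynomial.UniqueFactorization
import Mathlib.Algebra.Order.Ring.Rat
import Mathlib.FieldTheory.KummerPolynomial

/-!
# Two rational unknowns: `X ^ n - (x ^ n + y ^ n)` is irreducible

For `n ≥ 3` and nonzero rationals `x`, `y` an `n`-th root of `x ^ n + y ^ n ≠ 0` has degree `n`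
over `ℚ`: its norm would otherwise make `x ^ n + y ^ n` a power with exponent `n / gcd (n, d) ≥ 2`.
Over `ℚ(√-3)` Fermat's equation of odd exponent `n` is soluble exactly when `3 ∤ n`.
-/

set_option autoImplicit false

noncomputable section

open Polynomial

namespace FA.FermatIrreducible

/-- `|a|` is an `m`-th power when `|a| ^ e` is one and `e` is prime to `m`. -/
theorem exists_abs_eq_pow {a N : ℚ} (ha : a ≠ 0) {e m : ℕ} (hem : Nat.Coprime e m)
    (h : |a| ^ e = |N| ^ m) : ∃ c : ℚ, |a| = c ^ m := by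
  have h1 : (e : ℤ) * Nat.gcdA e m + m * Nat.gcdB e m = 1 := by
    have := Nat.gcd_eq_gcd_ab e m
    rw [hem.gcd_eq_one] at this
    exact_mod_cast this.symm
  refine ⟨|N| ^ Nat.gcdA e m * |a| ^ Nat.gcdB e m, ?_⟩
  rw [mul_pow, ← zpow_natCast, ← zpow_mul, mul_comm (Nat.gcdA e m), zpow_mul, zpow_natCast, ← h,
    ← zpow_natCast, ← zpow_mul, ← zpow_natCast (|a| ^ Nat.gcdB e m), ← zpow_mul,
    ← zpow_add₀ (abs_ne_zero.2 ha), mul_comm (Nat.gcdB e m), h1, zpow_one]

/-- The arithmetic. -/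
theorem false_of_norm {n d : ℕ} (hn : 3 ≤ n) (hd : ¬ n ∣ d) {x y N : ℚ} (hx : x ≠ 0)
    (hy : y ≠ 0) (ha : x ^ n + y ^ n ≠ 0) (h : N ^ n = (x ^ n + y ^ n) ^ d) : False := by
  have hd0 : d ≠ 0 := fun e => hd (e ▸ dvd_zero n)
  obtain ⟨e, m, hem, he, hm⟩ := Nat.exists_coprime d n
  generalize hg : Nat.gcd d n = g at he hm
  have hg0 : g ≠ 0 := fun e0 => by rw [e0, mul_zero] at hm; omega
  have hm1 : m ≠ 1 := fun e1 => hd (by rw [hm, e1, one_mul, ← hg]; exact Nat.gcd_dvd_left d n)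
  have habs : |x ^ n + y ^ n| ^ e = |N| ^ m := by
    refine (pow_left_inj₀ (by positivity) (by positivity) hg0).1 ?_
    rw [← pow_mul, ← pow_mul, ← he, ← hm, ← abs_pow, ← abs_pow, h]
  obtain ⟨c, hc⟩ := exists_abs_eq_pow ha hem habs
  obtain ⟨c', hc'⟩ : ∃ c', x ^ n + y ^ n = c' ^ m := by
    rcases Nat.even_or_odd m with hme | hmo
    · have hne : Even n := hm ▸ hme.mul_right g
      exact ⟨c, by rw [← hc, abs_of_pos (add_pos (hne.pow_pos hx) (hne.pow_pos hy))]⟩
    · rcases abs_choice (x ^ n + y ^ n) with e' | e' <;> rw [e'] at hc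
      · exact ⟨c, hc⟩
      · exact ⟨-c, by rw [hmo.neg_pow, ← hc, neg_neg]⟩
  have hm2 : m = 2 ∨ 3 ≤ m := by
    rcases Nat.eq_zero_or_pos m with e0 | e0
    · rw [e0, zero_mul] at hm; omega
    · omega
  rcases hm2 with rfl | h3
  · refine FA.Summary.pow_two_mul_add_ne_sq_rat (n := g) (by omega) hx hy c' ?_
    rw [← hm]; exact hc'
  · rw [hm, mul_comm m g, pow_mul, pow_mul] at hc'
    have := FA.Summary.fermat_rat_mul_eq_zero h3 hc'
    rw [hm, mul_comm m g, pow_mul, pow_mul, hc'] at ha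
    simp [hx, hy] at this
    rw [this, zero_pow (by omega)] at ha
    exact ha rfl

/-- No `n`-th root in an algebra of degree not divisible by `n`. -/
theorem no_root {L : Type*} [Field L] [Algebra ℚ L] {n : ℕ} (hn : 3 ≤ n)
    (hd : ¬ n ∣ Module.finrank ℚ L) {x y : ℚ} (hx : x ≠ 0) (hy : y ≠ 0) (ha : x ^ n + y ^ n ≠ 0)
    (z : L) : z ^ n ≠ algebraMap ℚ L (x ^ n + y ^ n) := fun h =>
  false_of_norm hn hd hx hy ha (N := Algebra.norm ℚ z)
    (by rw [← map_pow, h, Algebra.norm_algebraMap])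

end FA.FermatIrreducible

namespace FA.Summary

/-- **Irreducibility**: an `n`-th root of a nonzero sum of two `n`-th powers of nonzero rationals
has degree `n`, `n ≥ 3`. -/
theorem fermat_irreducible {n : ℕ} (hn : 3 ≤ n) {x y : ℚ} (hx : x ≠ 0) (hy : y ≠ 0)
    (ha : x ^ n + y ^ n ≠ 0) : Irreducible (X ^ n - C (x ^ n + y ^ n) : ℚ[X]) := by
  have hdeg : (X ^ n - C (x ^ n + y ^ n) : ℚ[X]).natDegree = n := natDegree_X_pow_sub_C
  obtain ⟨f, hf, hdvd⟩ := exists_irreducible_of_natDegree_pos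
    (show 0 < (X ^ n - C (x ^ n + y ^ n) : ℚ[X]).natDegree by omega)
  have hfd : Module.finrank ℚ (AdjoinRoot f) = f.natDegree := by
    rw [(AdjoinRoot.powerBasis hf.ne_zero).finrank, AdjoinRoot.powerBasis_dim]
  have hroot : (AdjoinRoot.root f) ^ n = algebraMap ℚ (AdjoinRoot f) (x ^ n + y ^ n) := by
    obtain ⟨q, hq⟩ := hdvd
    have := congrArg (aeval (AdjoinRoot.root f)) hq
    rw [map_mul, AdjoinRoot.aeval_eq f, AdjoinRoot.mk_self, zero_mul, map_sub, map_pow, aeval_X,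
      aeval_C] at this
    exact sub_eq_zero.1 this
  have := Fact.mk hf
  have hnd : n ∣ f.natDegree := by
    by_contra hnd
    exact FA.FermatIrreducible.no_root hn (by rwa [hfd]) hx hy ha _ hroot
  have hne : (X ^ n - C (x ^ n + y ^ n) : ℚ[X]) ≠ 0 := fun e => by
    rw [e, natDegree_zero] at hdeg; omega
  have hle := natDegree_le_of_dvd hdvd hne
  have hpos := hf.natDegree_pos
  have hfn : f.natDegree = n := le_antisymm (hdeg ▸ hle) (Nat.le_of_dvd hpos hnd)
  exact (associated_of_dvd_of_natDegree_le hdvd hne (by omega)).irreducible hf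

/-- **Two rational unknowns**: no number field of degree not divisible by `n ≥ 3` holds a solution
of `x ^ n + y ^ n = z ^ n` with `x`, `y` rational and all nonzero. -/
theorem fermat_two_rational {K : Type*} [Field K] [CharZero K] {n : ℕ} (hn : 3 ≤ n)
    (hd : ¬ n ∣ Module.finrank ℚ K) {x y : ℚ} (hx : x ≠ 0) (hy : y ≠ 0) {z : K} (hz : z ≠ 0) :
    (x : K) ^ n + (y : K) ^ n ≠ z ^ n := fun h => by
  have hz' : z ^ n = algebraMap ℚ K (x ^ n + y ^ n) := by
    rw [← h, eq_ratCast]; push_cast; rfl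
  refine FA.FermatIrreducible.no_root hn hd hx hy (fun e => ?_) z hz'
  rw [e, map_zero] at hz'
  exact pow_ne_zero n hz hz'

/-- **Odd exponents over `ℚ(√-3)`**: exactly the multiples of `3`. -/
theorem fermat_sqrt_neg_three_iff {K : Type*} [Field K] [CharZero K]
    (hK : Module.finrank ℚ K = 2) {s : K} (hs : s ^ 2 = -3) {n : ℕ} (hn : Odd n) :
    FermatLastTheoremWith K n ↔ 3 ∣ n := by
  refine ⟨fun hflt => ?_, fermat_sqrt_neg_three hK hs⟩
  by_contra h3
  obtain ⟨w, hw⟩ : ∃ w : K, w = (-1 + s) / 2 := ⟨_, rfl⟩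
  have hw2 : w ^ 2 + w + 1 = 0 := by rw [hw]; field_simp; linear_combination hs
  have hw3 : w ^ 3 = 1 := by linear_combination (w - 1) * hw2
  have hw0 : w ≠ 0 := fun e => by simp [e] at hw2
  have key : w ^ n + (w ^ 2) ^ n = -1 := by
    rw [← pow_mul, ← Nat.div_add_mod n 3, mul_add, pow_add, pow_add, pow_mul, hw3, one_pow,
      show 2 * (3 * (n / 3)) = 3 * (2 * (n / 3)) by ring, pow_mul w 3, hw3, one_pow, one_mul,
      one_mul]
    rcases show n % 3 = 1 ∨ n % 3 = 2 by omega with e | e <;> rw [e]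
    · linear_combination hw2
    · linear_combination hw2 + w * hw3
  exact hflt w (w ^ 2) (-1) hw0 (pow_ne_zero 2 hw0) (by simp) (by rw [key, hn.neg_one_pow])

end FA.Summary

end
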