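import Fermat.Agent.FermatLines.Count
import Mathlib.Data.Real.Basic

/-!
# Summary: the lines on Fermat surfaces

For `d ≥ 3` in characteristic zero the lines on `x₀^d + x₁^d + x₂^d + x₃^d = 0` are the planes
through the origin `x₀ = a x_j`, `x_k = b x_l` with `a^d = b^d = -1`, one family for each pairing
(`lines_classification`), so `3 (#{a | a^d = -1})²` of them (`lines_card`): `3 d²` over an
algebraically closed field, each meeting `4 d - 2` others (`lines_meet`), so the `27` lines of the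
cubic, each meeting ten (`twenty_seven_lines`); over `ℚ` and `ℝ` three for odd `d`, none for even
`d` (`real_lines`).

Not claimed: lines on other surfaces, configurations beyond these meetings, positive characteristic.
-/

set_option autoImplicit false

noncomputable section

namespace FA.FermatLines.Summary

variable {K : Type*} [Field K] [CharZero K] {d : ℕ}

/-- **The lines are the standard ones.** -/
theorem lines_classification (hd : 3 ≤ d) (W : Submodule K (Fin 4 → K)) :
    (Module.finrank K W = 2 ∧ ∀ v ∈ W, ∑ i, v i ^ d = 0) ↔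
      ∃ (i : Fin 3) (a b : K), a ^ d = -1 ∧ b ^ d = -1 ∧ ∀ v, v ∈ W ↔
        v 0 = a * v (![1, 2, 3] i) ∧ v (![2, 1, 1] i) = b * v (![3, 3, 2] i) := by
  constructor
  · intro hW
    obtain ⟨p, a, b, ha, hb, rfl⟩ := classification hd hW
    exact ⟨p, a, b, ha, hb, fun v => mem_stdLine⟩
  · rintro ⟨p, a, b, ha, hb, h⟩
    obtain rfl : W = stdLine p a b := Submodule.ext h
    exact isLine_stdLine p ha hb

/-- **Their number.** -/
theorem lines_card (hd : 3 ≤ d) :
    {W : Submodule K (Fin 4 → K) | Module.finrank K W = 2 ∧ ∀ v ∈ W, ∑ i, v i ^ d = 0}.ncard =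
      3 * {a : K | a ^ d = -1}.ncard ^ 2 :=
  card_lines hd

/-- **`3 d²` lines over an algebraically closed field.** -/
theorem lines_card_closed [IsAlgClosed K] (hd : 3 ≤ d) :
    {W : Submodule K (Fin 4 → K) | Module.finrank K W = 2 ∧ ∀ v ∈ W, ∑ i, v i ^ d = 0}.ncard =
      3 * d ^ 2 :=
  (card_lines hd).trans (by rw [ncard_negRoots (by omega)])

/-- **Each line meets `4 d - 2` others.** -/
theorem lines_meet [IsAlgClosed K] (hd : 3 ≤ d) {W : Submodule K (Fin 4 → K)}
    (hW : Module.finrank K W = 2 ∧ ∀ v ∈ W, ∑ i, v i ^ d = 0) :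
    {W' : Submodule K (Fin 4 → K) | (Module.finrank K W' = 2 ∧ ∀ v ∈ W', ∑ i, v i ^ d = 0) ∧
      W' ≠ W ∧ W ⊓ W' ≠ ⊥}.ncard = 4 * d - 2 :=
  card_meeting hd hW

/-- **The twenty-seven lines.** -/
theorem twenty_seven_lines [IsAlgClosed K] :
    {W : Submodule K (Fin 4 → K) | Module.finrank K W = 2 ∧ ∀ v ∈ W, ∑ i, v i ^ 3 = 0}.ncard = 27 ∧
    ∀ W : Submodule K (Fin 4 → K), (Module.finrank K W = 2 ∧ ∀ v ∈ W, ∑ i, v i ^ 3 = 0) →
      {W' : Submodule K (Fin 4 → K) | (Module.finrank K W' = 2 ∧ ∀ v ∈ W', ∑ i, v i ^ 3 = 0) ∧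
        W' ≠ W ∧ W ⊓ W' ≠ ⊥}.ncard = 10 :=
  ⟨lines_card_closed le_rfl, fun _ hW => lines_meet le_rfl hW⟩

/-- **Rational and real lines.** -/
theorem real_lines (hd : 3 ≤ d) :
    {W : Submodule ℝ (Fin 4 → ℝ) | Module.finrank ℝ W = 2 ∧ ∀ v ∈ W, ∑ i, v i ^ d = 0}.ncard =
      (if Odd d then 3 else 0) ∧
    {W : Submodule ℚ (Fin 4 → ℚ) | Module.finrank ℚ W = 2 ∧ ∀ v ∈ W, ∑ i, v i ^ d = 0}.ncard =
      (if Odd d then 3 else 0) := by
  refine ⟨(card_lines hd).trans ?_, (card_lines hd).trans ?_⟩ <;> rw [negRoots_ordered] <;>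
    split_ifs <;> simp

end FA.FermatLines.Summary
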