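import Fermat.Agent.Schur.Basic
import Fermat.Agent.Root.SummaryFermatCurve
import Mathlib.Analysis.SpecialFunctions.Pow.Real
import Mathlib.FieldTheory.Finite.Basic
import Mathlib.GroupTheory.SpecificGroups.Cyclic
import Mathlib.NumberTheory.Padics.Hensel
import Mathlib.RingTheory.IntegralDomain

/-!
# Fermat's equation has solutions everywhere locally

Schur: for `p > 3 n!` there are nonzero solutions of `x ^ n + y ^ n = z ^ n` modulo `p`, so Fermat's
Last Theorem has no proof by congruences; there are nonzero ones in every `ℤ_p` and in `ℝ`, but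
none in `ℚ` for `n ≥ 3`.
-/

set_option autoImplicit false
set_option linter.style.haveILetI false

noncomputable section

open Polynomial

namespace FA.Summary

/-- **Schur 1916**: nonzero solutions of Fermat's equation modulo every prime `p > 3 n!`. -/
theorem fermat_mod_prime {n : ℕ} (hn : 0 < n) {p : ℕ} [Fact p.Prime]
    (hp : 3 * n.factorial < p) :
    ∃ x y z : ZMod p, x ≠ 0 ∧ y ≠ 0 ∧ z ≠ 0 ∧ x ^ n + y ^ n = z ^ n := by
  classical
  let H : Subgroup (ZMod p)ˣ := (powMonoidHom n).range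
  haveI : Fintype ((ZMod p)ˣ ⧸ H) := Fintype.ofFinite _
  have hcard : Fintype.card ((ZMod p)ˣ ⧸ H) ≤ n := by
    rw [← Nat.card_eq_fintype_card, ← Subgroup.index_eq_card, IsCyclic.index_powMonoidHom_range]
    exact Nat.gcd_le_right _ hn
  let c : ℕ → (ZMod p)ˣ ⧸ H := fun x =>
    if h : (x : ZMod p) = 0 then 1 else QuotientGroup.mk (Units.mk0 (x : ZMod p) h)
  obtain ⟨x, y, hx, hy, hxy, h1, h2⟩ :=
    FA.Schur.exists_monochromatic c (N := p - 1) hcard (by omega)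
  have hne : ∀ z : ℕ, 0 < z → z ≤ p - 1 → (z : ZMod p) ≠ 0 := fun z hz hz' h => by
    rw [ZMod.natCast_eq_zero_iff] at h
    have := Nat.le_of_dvd hz h
    omega
  have hx0 := hne x hx (by omega)
  have hy0 := hne y hy (by omega)
  have hz0 := hne (x + y) (by omega) hxy
  have hc : ∀ (z : ℕ) (h : (z : ZMod p) ≠ 0), c z = QuotientGroup.mk (Units.mk0 (z : ZMod p) h) :=
    fun z h => dif_neg h
  rw [hc _ hx0, hc _ hz0, QuotientGroup.eq] at h1
  rw [hc _ hy0, hc _ hz0, ← hc _ hz0] at h2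
  obtain ⟨w, hw⟩ := h1
  have h3 : c x = c (x + y) := by
    rw [hc _ hx0, hc _ hz0, QuotientGroup.eq]
    exact ⟨w, hw⟩
  rw [← h3, hc _ hx0, QuotientGroup.eq] at h2
  obtain ⟨u, hu⟩ := h2
  simp only [powMonoidHom_apply] at hw hu
  have hw' : (w : ZMod p) ^ n * x = ((x + y : ℕ) : ZMod p) := by
    rw [← Units.val_pow_eq_pow_val, hw, Units.val_mul, Units.val_inv_eq_inv_val, Units.val_mk0,
      Units.val_mk0, mul_right_comm, inv_mul_cancel₀ hx0, one_mul]
  have hu' : (u : ZMod p) ^ n * y = (x : ZMod p) := by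
    rw [← Units.val_pow_eq_pow_val, hu, Units.val_mul, Units.val_inv_eq_inv_val, Units.val_mk0,
      Units.val_mk0, mul_right_comm, inv_mul_cancel₀ hy0, one_mul]
  refine ⟨(u : ZMod p), 1, (u : ZMod p) * w, u.ne_zero, one_ne_zero,
    mul_ne_zero u.ne_zero w.ne_zero, mul_right_cancel₀ hy0 ?_⟩
  push_cast at hw'
  rw [one_pow, add_mul, one_mul, mul_pow, hu', mul_right_comm, hu', mul_comm, hw']

/-- For `p` prime to `n` a solution modulo `p` lifts to `p`-adic units. -/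
theorem fermat_padic_units {n : ℕ} (hn : 0 < n) {p : ℕ} [Fact p.Prime] (hpn : ¬ p ∣ n)
    (hp : 3 * n.factorial < p) :
    ∃ x y z : ℤ_[p], IsUnit x ∧ IsUnit y ∧ IsUnit z ∧ x ^ n + y ^ n = z ^ n := by
  obtain ⟨x, y, z, hx, hy, hz, h⟩ := fermat_mod_prime hn hp
  have hunit : ∀ w : ℤ_[p], PadicInt.toZMod w ≠ 0 → ‖w‖ = 1 := fun w hw => by
    refine le_antisymm (PadicInt.norm_le_one w) (not_lt.mp fun hlt => hw ?_)
    rw [← RingHom.mem_ker, PadicInt.ker_toZMod, IsLocalRing.mem_maximalIdeal, mem_nonunits_iff,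
      PadicInt.isUnit_iff]
    exact hlt.ne
  have hzero : ∀ w : ℤ_[p], PadicInt.toZMod w = 0 → ‖w‖ < 1 := fun w hw => by
    rw [← RingHom.mem_ker, PadicInt.ker_toZMod, IsLocalRing.mem_maximalIdeal,
      mem_nonunits_iff, PadicInt.isUnit_iff] at hw
    exact lt_of_le_of_ne (PadicInt.norm_le_one w) hw
  have hlift : ∀ w : ZMod p, PadicInt.toZMod ((w.val : ℤ_[p])) = w := fun w => by
    rw [map_natCast, ZMod.natCast_zmod_val]
  set X₀ : ℤ_[p] := (x.val : ℤ_[p])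
  set Y₀ : ℤ_[p] := (y.val : ℤ_[p])
  set F : ℤ_[p][X] := X ^ n - C (X₀ ^ n + Y₀ ^ n)
  have hd : ‖aeval (z.val : ℤ_[p]) (derivative F)‖ = 1 := hunit _ (by
    simp only [F, derivative_sub, derivative_X_pow, derivative_C, sub_zero, map_mul, map_pow,
      aeval_X, map_natCast, hlift]
    exact mul_ne_zero (by rw [ne_eq, ZMod.natCast_eq_zero_iff]; exact hpn) (pow_ne_zero _ hz))
  have hnorm : ‖aeval (z.val : ℤ_[p]) F‖ < ‖aeval (z.val : ℤ_[p]) (derivative F)‖ ^ 2 := by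
    rw [hd, one_pow]
    refine hzero _ ?_
    simp only [F, map_sub, map_pow, aeval_X, map_add, X₀, Y₀, map_natCast, ZMod.natCast_zmod_val]
    rw [h, sub_self]
  obtain ⟨Z, hZ, hclose, -, -⟩ := hensels_lemma hnorm
  rw [hd] at hclose
  refine ⟨X₀, Y₀, Z, PadicInt.isUnit_iff.mpr (hunit _ (by rwa [hlift])),
    PadicInt.isUnit_iff.mpr (hunit _ (by rwa [hlift])),
    PadicInt.isUnit_iff.mpr (hunit _ fun hZ0 => ?_), ?_⟩
  · have : PadicInt.toZMod (Z - (z.val : ℤ_[p])) = 0 := by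
      rw [← RingHom.mem_ker, PadicInt.ker_toZMod, IsLocalRing.mem_maximalIdeal, mem_nonunits_iff,
        PadicInt.isUnit_iff]
      exact hclose.ne
    rw [map_sub, hZ0, hlift, zero_sub, neg_eq_zero] at this
    exact hz this
  · simp only [F, map_sub, map_pow, aeval_X, aeval_C, Algebra.algebraMap_self, RingHom.id_apply,
      sub_eq_zero] at hZ
    exact hZ.symm

/-- **Nonzero solutions in every `ℤ_p`.** -/
theorem fermat_padic {n : ℕ} (hn : 0 < n) (p : ℕ) [hp : Fact p.Prime] :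
    ∃ x y z : ℤ_[p], x ≠ 0 ∧ y ≠ 0 ∧ z ≠ 0 ∧ x ^ n + y ^ n = z ^ n := by
  set v := padicValNat p n
  set k := 2 * v + 1
  set y : ℤ_[p] := (p : ℤ_[p]) ^ k
  set F : ℤ_[p][X] := X ^ n - C (1 + y ^ n)
  have hp0 : (p : ℤ_[p]) ≠ 0 := Nat.cast_ne_zero.mpr hp.out.ne_zero
  have hp1 : (1 : ℝ) < p := by exact_mod_cast hp.out.one_lt
  have hnorm : ‖aeval (1 : ℤ_[p]) F‖ < ‖aeval (1 : ℤ_[p]) (derivative F)‖ ^ 2 := by
    simp only [F, derivative_X_pow, derivative_C, sub_zero, map_sub, map_pow,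
      map_mul, aeval_X, aeval_C, Algebra.algebraMap_self, RingHom.id_apply, one_pow, mul_one,
      sub_add_cancel_left, norm_neg, map_natCast, y, ← pow_mul, PadicInt.norm_p_pow]
    obtain ⟨m, hm, hnm⟩ : ∃ m, ¬ p ∣ m ∧ n = p ^ v * m :=
      ⟨n / p ^ v, by
        rw [show v = n.factorization p from (Nat.factorization_def n hp.out).symm]
        exact Nat.not_dvd_ordCompl hp.out hn.ne', by
        rw [show v = n.factorization p from (Nat.factorization_def n hp.out).symm,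
          Nat.ordProj_mul_ordCompl_eq_self]⟩
    have hm1 : ‖(m : ℤ_[p])‖ = 1 := le_antisymm (PadicInt.norm_le_one _)
      (not_lt.mp fun h => hm (PadicInt.norm_natCast_lt_one_iff.mp h))
    have hN : ‖(n : ℤ_[p])‖ = (p : ℝ) ^ (-v : ℤ) := by
      rw [hnm, Nat.cast_mul, Nat.cast_pow, norm_mul, hm1, mul_one, PadicInt.norm_p_pow]
    rw [hN, ← zpow_natCast, ← zpow_mul]
    refine zpow_lt_zpow_right₀ hp1 ?_
    have : k ≤ k * n := Nat.le_mul_of_pos_right k hn
    push_cast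
    have h2 : (2 * v + 1 : ℤ) ≤ (k : ℤ) * n := by exact_mod_cast this
    linarith
  obtain ⟨z, hz, -⟩ := hensels_lemma hnorm
  simp only [F, map_sub, map_pow, aeval_X, aeval_C, Algebra.algebraMap_self, RingHom.id_apply,
    sub_eq_zero] at hz
  refine ⟨1, y, z, one_ne_zero, pow_ne_zero _ hp0, fun h0 => ?_, by rw [one_pow, hz]⟩
  rw [h0, zero_pow hn.ne', eq_comm] at hz
  have h1 : ‖y ^ n‖ < 1 := by
    have hy : y ^ n = (p : ℤ_[p]) ^ (k * n) := (pow_mul _ k n).symm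
    rw [hy, PadicInt.norm_p_pow]
    exact zpow_lt_one_of_neg₀ hp1
      (neg_neg_of_pos (by exact_mod_cast Nat.mul_pos (by omega : 0 < k) hn))
  rw [show y ^ n = -1 from eq_neg_of_add_eq_zero_right hz, norm_neg, norm_one] at h1
  exact lt_irrefl _ h1

/-- **Fermat's equation of exponent `n ≥ 3` fails the local-global principle** for nonzero
solutions. -/
theorem fermat_local_not_global {n : ℕ} (hn : 3 ≤ n) :
    (∀ (p : ℕ) [Fact p.Prime],
      ∃ x y z : ℤ_[p], x ≠ 0 ∧ y ≠ 0 ∧ z ≠ 0 ∧ x ^ n + y ^ n = z ^ n) ∧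
    (∃ x y z : ℝ, x ≠ 0 ∧ y ≠ 0 ∧ z ≠ 0 ∧ x ^ n + y ^ n = z ^ n) ∧
    ¬ ∃ x y z : ℚ, x ≠ 0 ∧ y ≠ 0 ∧ z ≠ 0 ∧ x ^ n + y ^ n = z ^ n := by
  have hn0 : 0 < n := by omega
  refine ⟨fun p _ => fermat_padic hn0 p, ⟨1, 1, (2 : ℝ) ^ (n⁻¹ : ℝ), one_ne_zero, one_ne_zero,
    (Real.rpow_pos_of_pos two_pos _).ne', ?_⟩, ?_⟩
  · rw [Real.rpow_inv_natCast_pow two_pos.le hn0.ne', one_pow]
    norm_num
  · rintro ⟨x, y, z, hx, hy, hz, h⟩
    have := fermat_rat_mul_eq_zero hn h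
    simp [hx, hy, hz] at this

end FA.Summary

end
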