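import Mathlib.LinearAlgebra.Matrix.GeneralLinearGroup.Defs
import Mathlib.LinearAlgebra.Matrix.SpecialLinearGroup
import Mathlib.LinearAlgebra.Matrix.Determinant.Basic
import Mathlib.Data.ZMod.Basic
import Mathlib.Algebra.Ring.Parity
import Mathlib.Tactic.LinearCombination

/-!
# Fermat's equation in `SL(2, ℤ)` and `GL(2, ℤ)` (Khazanov)

`X ^ n + Y ^ n = Z ^ n` is soluble in `SL(2, ℤ)` exactly when `3 ∤ n` and `4 ∤ n`, and in
`GL(2, ℤ)` exactly when `4 ∤ n` and `6 ∤ n`. The obstructions live modulo `4` and `2`; for cubes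
`det (A + B) + det (A - B) = 2 det A + 2 det B` forces `det (A - B) = 3`, while `A ≡ B` modulo `3`.
-/

set_option autoImplicit false

noncomputable section

open Matrix

namespace FA.FermatMatrices

/-- The parallelogram law of `det`. -/
theorem det_add_add_det_sub {R : Type*} [CommRing R] (A B : Matrix (Fin 2) (Fin 2) R) :
    (A + B).det + (A - B).det = 2 * (A.det + B.det) := by
  simp only [det_fin_two, Matrix.add_apply, Matrix.sub_apply]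
  ring

/-- Reduction modulo `M` is multiplicative in the determinant. -/
theorem det_cast (M : ℕ) (A : Matrix (Fin 2) (Fin 2) ℤ) :
    ((Int.castRingHom (ZMod M)).mapMatrix A).det = (A.det : ZMod M) :=
  ((Int.castRingHom (ZMod M)).map_det A).symm

theorem det_pow_eq_one {A : Matrix (Fin 2) (Fin 2) ℤ} (h : A.det = 1) (k : ℕ) :
    (A ^ k).det = 1 := by
  rw [det_pow, h, one_pow]

/-- The cubes of `SL(2, 𝔽₃)`. -/
theorem cube_mem (a b c d : ZMod 3) (h : a * d - b * c = 1) :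
    (!![a, b; c, d] : Matrix (Fin 2) (Fin 2) (ZMod 3)) ^ 3 ∈
      ([!![0, 1; 2, 0], !![0, 2; 1, 0], !![1, 0; 0, 1], !![1, 1; 1, 2], !![1, 2; 2, 2],
        !![2, 0; 0, 2], !![2, 1; 1, 1], !![2, 2; 2, 1]] :
        List (Matrix (Fin 2) (Fin 2) (ZMod 3))) := by
  revert h; revert a b c d
  decide +kernel

theorem cube_sum :
    ∀ A ∈ ([!![0, 1; 2, 0], !![0, 2; 1, 0], !![1, 0; 0, 1], !![1, 1; 1, 2], !![1, 2; 2, 2],
        !![2, 0; 0, 2], !![2, 1; 1, 1], !![2, 2; 2, 1]] :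
        List (Matrix (Fin 2) (Fin 2) (ZMod 3))),
      ∀ B ∈ ([!![0, 1; 2, 0], !![0, 2; 1, 0], !![1, 0; 0, 1], !![1, 1; 1, 2], !![1, 2; 2, 2],
        !![2, 0; 0, 2], !![2, 1; 1, 1], !![2, 2; 2, 1]] :
        List (Matrix (Fin 2) (Fin 2) (ZMod 3))),
      A + B ∈ ([!![0, 1; 2, 0], !![0, 2; 1, 0], !![1, 0; 0, 1], !![1, 1; 1, 2], !![1, 2; 2, 2],
        !![2, 0; 0, 2], !![2, 1; 1, 1], !![2, 2; 2, 1]] :
        List (Matrix (Fin 2) (Fin 2) (ZMod 3))) → A = B := by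
  decide +kernel

/-- No sum of two cubes of `SL(2, ℤ)` is a cube. -/
theorem sl_cube {A B C : Matrix (Fin 2) (Fin 2) ℤ} (hA : A.det = 1) (hB : B.det = 1)
    (hC : C.det = 1) : A ^ 3 + B ^ 3 ≠ C ^ 3 := fun h => by
  have mem : ∀ {W : Matrix (Fin 2) (Fin 2) ℤ}, W.det = 1 →
      ((Int.castRingHom (ZMod 3)).mapMatrix W).det = 1 := fun {W} hW => by
    rw [det_cast, hW, Int.cast_one]
  have key : (Int.castRingHom (ZMod 3)).mapMatrix (A ^ 3) =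
      (Int.castRingHom (ZMod 3)).mapMatrix (B ^ 3) := by
    have cm : ∀ V : Matrix (Fin 2) (Fin 2) (ZMod 3), V.det = 1 → V ^ 3 ∈ _ := fun V hV => by
      rw [eta_fin_two V]; exact cube_mem _ _ _ _ (det_fin_two V ▸ hV)
    have hs : (Int.castRingHom (ZMod 3)).mapMatrix (A ^ 3) +
        (Int.castRingHom (ZMod 3)).mapMatrix (B ^ 3) =
        (Int.castRingHom (ZMod 3)).mapMatrix C ^ 3 := by rw [← map_add, h, map_pow]
    refine cube_sum _ ?_ _ ?_ (hs ▸ cm _ (mem hC)) <;> rw [map_pow]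
    exacts [cm _ (mem hA), cm _ (mem hB)]
  have hdet : (A ^ 3 - B ^ 3).det = 3 := by
    have := det_add_add_det_sub (A ^ 3) (B ^ 3)
    rw [h, det_pow_eq_one hA, det_pow_eq_one hB, det_pow_eq_one hC] at this
    linarith
  have hdvd : ∀ i j, (3 : ℤ) ∣ (A ^ 3 - B ^ 3) i j := fun i j => by
    refine (ZMod.intCast_zmod_eq_zero_iff_dvd _ 3).1 ?_
    have := congrFun₂ key i j
    simp only [RingHom.mapMatrix_apply, Matrix.map_apply, eq_intCast] at this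
    rw [Matrix.sub_apply, Int.cast_sub, this, sub_self]
  rw [det_fin_two] at hdet
  obtain ⟨p, hp⟩ := hdvd 0 0; obtain ⟨q, hq⟩ := hdvd 1 1
  obtain ⟨r, hr⟩ := hdvd 0 1; obtain ⟨s, hs⟩ := hdvd 1 0
  rw [hp, hq, hr, hs] at hdet
  have : 3 * (p * q - r * s) = 1 := by linarith
  omega

/-- The fourth powers of matrices of determinant `±1` modulo `4`. -/
theorem fourth_mem (a b c d : ZMod 4) (h : a * d - b * c = 1 ∨ a * d - b * c = -1) :
    (!![a, b; c, d] : Matrix (Fin 2) (Fin 2) (ZMod 4)) ^ 4 ∈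
      ([!![0, 1; 3, 3], !![0, 3; 1, 3], !![1, 0; 0, 1], !![1, 1; 1, 2], !![1, 3; 3, 2],
        !![2, 1; 1, 1], !![2, 3; 3, 1], !![3, 1; 3, 0], !![3, 3; 1, 0]] :
        List (Matrix (Fin 2) (Fin 2) (ZMod 4))) := by
  revert h; revert a b c d
  decide +kernel

theorem fourth_sum :
    ∀ A ∈ ([!![0, 1; 3, 3], !![0, 3; 1, 3], !![1, 0; 0, 1], !![1, 1; 1, 2], !![1, 3; 3, 2],
        !![2, 1; 1, 1], !![2, 3; 3, 1], !![3, 1; 3, 0], !![3, 3; 1, 0]] :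
        List (Matrix (Fin 2) (Fin 2) (ZMod 4))),
      ∀ B ∈ ([!![0, 1; 3, 3], !![0, 3; 1, 3], !![1, 0; 0, 1], !![1, 1; 1, 2], !![1, 3; 3, 2],
        !![2, 1; 1, 1], !![2, 3; 3, 1], !![3, 1; 3, 0], !![3, 3; 1, 0]] :
        List (Matrix (Fin 2) (Fin 2) (ZMod 4))),
      A + B ∉ ([!![0, 1; 3, 3], !![0, 3; 1, 3], !![1, 0; 0, 1], !![1, 1; 1, 2], !![1, 3; 3, 2],
        !![2, 1; 1, 1], !![2, 3; 3, 1], !![3, 1; 3, 0], !![3, 3; 1, 0]] :
        List (Matrix (Fin 2) (Fin 2) (ZMod 4))) := by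
  decide +kernel

/-- No sum of two fourth powers of `GL(2, ℤ)` is a fourth power. -/
theorem gl_fourth {A B C : Matrix (Fin 2) (Fin 2) ℤ} (hA : IsUnit A.det) (hB : IsUnit B.det)
    (hC : IsUnit C.det) : A ^ 4 + B ^ 4 ≠ C ^ 4 := fun h => by
  have cm : ∀ W : Matrix (Fin 2) (Fin 2) ℤ, IsUnit W.det →
      (Int.castRingHom (ZMod 4)).mapMatrix W ^ 4 ∈ _ := fun W hW => by
    rw [eta_fin_two ((Int.castRingHom (ZMod 4)).mapMatrix W)]
    refine fourth_mem _ _ _ _ ?_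
    rw [← det_fin_two, det_cast]
    rcases Int.isUnit_iff.1 hW with e | e <;> simp [e]
  refine fourth_sum _ (cm A hA) _ (cm B hB) ?_
  rw [← map_pow, ← map_pow, ← map_add, h, map_pow]
  exact cm C hC

/-- Sixth powers of invertible matrices modulo `2`. -/
theorem sixth_eq (a b c d : ZMod 2) (h : a * d - b * c ≠ 0) :
    (!![a, b; c, d] : Matrix (Fin 2) (Fin 2) (ZMod 2)) ^ 6 = !![1, 0; 0, 1] := by
  revert h; revert a b c d
  decide +kernel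

/-- No sum of two sixth powers of `GL(2, ℤ)` is a sixth power. -/
theorem gl_sixth {A B C : Matrix (Fin 2) (Fin 2) ℤ} (hA : IsUnit A.det) (hB : IsUnit B.det)
    (hC : IsUnit C.det) : A ^ 6 + B ^ 6 ≠ C ^ 6 := fun h => by
  have cm : ∀ W : Matrix (Fin 2) (Fin 2) ℤ, IsUnit W.det →
      (Int.castRingHom (ZMod 2)).mapMatrix W ^ 6 = !![1, 0; 0, 1] := fun W hW => by
    rw [eta_fin_two ((Int.castRingHom (ZMod 2)).mapMatrix W)]
    refine sixth_eq _ _ _ _ ?_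
    rw [← det_fin_two, det_cast]
    rcases Int.isUnit_iff.1 hW with e | e <;> simp [e]
  have := congrArg (Int.castRingHom (ZMod 2)).mapMatrix h
  rw [map_add, map_pow, map_pow, map_pow, cm A hA, cm B hB, cm C hC] at this
  exact absurd this (by decide)

/-- A matrix solution outside the obstructions, in `SL(2, ℤ)`. -/
theorem sl_exists {n : ℕ} (h3 : ¬ 3 ∣ n) (h4 : ¬ 4 ∣ n) :
    ∃ X Y Z : Matrix (Fin 2) (Fin 2) ℤ, X.det = 1 ∧ Y.det = 1 ∧ Z.det = 1 ∧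
      X ^ n + Y ^ n = Z ^ n := by
  obtain ⟨w, hw⟩ : ∃ w : Matrix (Fin 2) (Fin 2) ℤ, w = !![1, -1; 1, 0] := ⟨_, rfl⟩
  have hdet : w.det = 1 := by rw [hw, det_fin_two_of]; norm_num
  have h6 : w ^ 6 = 1 := by rw [hw]; decide
  have red : ∀ k, w ^ k = w ^ (k % 6) := fun k => pow_eq_pow_mod k h6
  rcases Nat.even_or_odd n with he | ho
  · obtain ⟨z, hz⟩ : ∃ z : Matrix (Fin 2) (Fin 2) ℤ, z = !![0, -1; 1, 0] := ⟨_, rfl⟩
    refine ⟨w, w ^ 5, z, hdet, det_pow_eq_one hdet 5, by rw [hz, det_fin_two_of]; norm_num, ?_⟩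
    have h4' : z ^ 4 = 1 := by rw [hz]; decide
    obtain ⟨k, hk⟩ := he
    rw [← pow_mul, red n, red (5 * n), pow_eq_pow_mod n h4', show n % 4 = 2 by omega, hz, hw]
    rw [show 5 * n % 6 = 5 * (n % 6) % 6 by omega]
    rcases show n % 6 = 2 ∨ n % 6 = 4 by omega with e | e <;> rw [e] <;> decide
  · refine ⟨w, w ^ 5, 1, hdet, det_pow_eq_one hdet 5, det_one, ?_⟩
    obtain ⟨k, hk⟩ := ho
    rw [← pow_mul, red n, red (5 * n), one_pow, hw]
    rw [show 5 * n % 6 = 5 * (n % 6) % 6 by omega]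
    rcases show n % 6 = 1 ∨ n % 6 = 5 by omega with e | e <;> rw [e] <;> decide

/-- A solution in involutions of determinant `-1` for odd exponents. -/
theorem gl_exists_odd {n : ℕ} (hn : Odd n) :
    ∃ X Y Z : Matrix (Fin 2) (Fin 2) ℤ, IsUnit X.det ∧ IsUnit Y.det ∧ IsUnit Z.det ∧
      X ^ n + Y ^ n = Z ^ n := by
  obtain ⟨k, rfl⟩ := hn
  refine ⟨!![-2, -3; 1, 2], !![1, 0; -1, -1], !![-1, -3; 0, 1], by simp [det_fin_two_of],
    by simp [det_fin_two_of], by simp [det_fin_two_of], ?_⟩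
  have inv : ∀ W : Matrix (Fin 2) (Fin 2) ℤ, W ^ 2 = 1 → W ^ (2 * k + 1) = W := fun W hW => by
    rw [pow_succ, pow_mul, hW, one_pow, one_mul]
  rw [inv _ (by decide), inv _ (by decide), inv _ (by decide)]
  decide

end FA.FermatMatrices

namespace FA.Summary

open FA.FermatMatrices

/-- **Khazanov's theorem for `SL(2, ℤ)`**: `X ^ n + Y ^ n = Z ^ n` is soluble iff `3 ∤ n` and
`4 ∤ n`. -/
theorem fermat_SL_two_int_iff (n : ℕ) :
    (∃ X Y Z : SpecialLinearGroup (Fin 2) ℤ, (X : Matrix (Fin 2) (Fin 2) ℤ) ^ n +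
      (Y : Matrix (Fin 2) (Fin 2) ℤ) ^ n = (Z : Matrix (Fin 2) (Fin 2) ℤ) ^ n) ↔
      ¬ 3 ∣ n ∧ ¬ 4 ∣ n := by
  constructor
  · rintro ⟨⟨X, hX⟩, ⟨Y, hY⟩, ⟨Z, hZ⟩, h⟩
    refine ⟨?_, ?_⟩ <;> rintro ⟨k, rfl⟩ <;>
      simp only [mul_comm _ k, pow_mul] at h
    · exact sl_cube (det_pow_eq_one hX k) (det_pow_eq_one hY k) (det_pow_eq_one hZ k) h
    · exact gl_fourth (det_pow_eq_one hX k ▸ isUnit_one) (det_pow_eq_one hY k ▸ isUnit_one)
        (det_pow_eq_one hZ k ▸ isUnit_one) h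
  · rintro ⟨h3, h4⟩
    obtain ⟨X, Y, Z, hX, hY, hZ, h⟩ := sl_exists h3 h4
    exact ⟨⟨X, hX⟩, ⟨Y, hY⟩, ⟨Z, hZ⟩, h⟩

/-- **Khazanov's theorem for `GL(2, ℤ)`**: `X ^ n + Y ^ n = Z ^ n` is soluble iff `4 ∤ n` and
`6 ∤ n`. -/
theorem fermat_GL_two_int_iff (n : ℕ) :
    (∃ X Y Z : GL (Fin 2) ℤ, (X : Matrix (Fin 2) (Fin 2) ℤ) ^ n +
      (Y : Matrix (Fin 2) (Fin 2) ℤ) ^ n = (Z : Matrix (Fin 2) (Fin 2) ℤ) ^ n) ↔
      ¬ 4 ∣ n ∧ ¬ 6 ∣ n := by
  constructor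
  · rintro ⟨X, Y, Z, h⟩
    have hu : ∀ (W : GL (Fin 2) ℤ) (k : ℕ),
        IsUnit ((W : Matrix (Fin 2) (Fin 2) ℤ) ^ k).det :=
      fun W k => (isUnit_iff_isUnit_det _).1 (W.isUnit.pow k)
    refine ⟨?_, ?_⟩ <;> rintro ⟨k, rfl⟩ <;> simp only [mul_comm _ k, pow_mul] at h
    · exact gl_fourth (hu X k) (hu Y k) (hu Z k) h
    · exact gl_sixth (hu X k) (hu Y k) (hu Z k) h
  · rintro ⟨h4, h6⟩
    obtain ⟨X, Y, Z, hX, hY, hZ, h⟩ : ∃ X Y Z : Matrix (Fin 2) (Fin 2) ℤ,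
        IsUnit X.det ∧ IsUnit Y.det ∧ IsUnit Z.det ∧ X ^ n + Y ^ n = Z ^ n := by
      rcases Nat.even_or_odd n with ⟨m, hm⟩ | ho
      · obtain ⟨X, Y, Z, hX, hY, hZ, h⟩ := sl_exists (n := n) (by omega) h4
        exact ⟨X, Y, Z, hX ▸ isUnit_one, hY ▸ isUnit_one, hZ ▸ isUnit_one, h⟩
      · exact gl_exists_odd ho
    exact ⟨((isUnit_iff_isUnit_det X).2 hX).unit, ((isUnit_iff_isUnit_det Y).2 hY).unit,
      ((isUnit_iff_isUnit_det Z).2 hZ).unit, h⟩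

end FA.Summary

end
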