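import Fermat.Agent.Ribet.CurveCriterion.Congruences
import Fermat.Agent.Root.SummarySerreMazurSharp

/-!
# Primes `≡ 1 (mod 12)`: Fermat's equation and torsion

For a finite set `S` of primes that are `1` modulo one odd prime and have classes modulo sixteen
in a group without `-1`, as all sets of primes `≡ 1 (mod 12)` are, there is no `S`-unit triple. So
Fermat's equation with coefficient supported on `S` has no solution for large prime exponents, and
no semistable curve with bad primes in `S ∪ {2}` has rational torsion of order divisible by four.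
-/

set_option autoImplicit false

noncomputable section

open WeierstrassCurve FA.CurveCriterion

namespace FA.Summary

/-- **Fermat's equation for the congruence families**. -/
theorem fermat_congruence_primes {S : Finset ℕ} (hS : ∀ q ∈ S, q.Prime) {ℓ : ℕ} (hℓ : ℓ.Prime)
    (hℓ2 : ℓ ≠ 2) (h1 : ∀ q ∈ S, q % ℓ = 1)
    (h16 : (∀ q ∈ S, q % 4 = 1) ∨ (∀ q ∈ S, q % 8 = 1 ∨ q % 8 = 3) ∨
      ∀ q ∈ S, q % 16 = 1 ∨ q % 16 = 7) :
    ∃ C₀ : ℕ, ∀ n p : ℕ, p.Prime → C₀ < p → p ∣ n → ∀ L x y z : ℤ, L * x * y * z ≠ 0 →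
      ((∀ r : ℕ, r.Prime → (r : ℤ) ∣ L → r ∈ S) ∨ IsCoprime x y ∧ (16 : ℤ) ∣ L ∧
        ∀ r : ℕ, r.Prime → (r : ℤ) ∣ L → r = 2 ∨ r ∈ S) →
      x ^ n + y ^ n + L * z ^ n ≠ 0 := by
  have hrel := noSUnitTriple_congruences hℓ hℓ2 h1 h16
  have h2 : 2 ∉ S := fun h => by
    rcases h16 with h' | h' | h' <;> have := h' 2 h <;> omega
  obtain ⟨C, hC⟩ := fermat_sUnit_pure hS h2 hrel
  obtain ⟨D, hD⟩ := fermat_sUnit_even hS hrel
  refine ⟨max C D, fun n p hp hpC hpn L x y z hne h => ?_⟩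
  simp only [max_lt_iff] at hpC
  rcases h with h | ⟨hco, hL, h⟩
  exacts [hC n p hp hpC.1 hpn L x y z hne h, hD n p hp hpC.2 hpn L x y z hne hco hL h]

/-- **Any number of primes `≡ 1 (mod 12)`**: `x ^ n + y ^ n + L z ^ n ≠ 0` for nonzero `x, y, z` and
`L` with prime divisors in `S`, when `n` has a prime factor beyond a bound depending on `S`. -/
theorem fermat_one_mod_twelve {S : Finset ℕ} (hS : ∀ q ∈ S, q.Prime ∧ q % 12 = 1) :
    ∃ C₀ : ℕ, ∀ n p : ℕ, p.Prime → C₀ < p → p ∣ n → ∀ L x y z : ℤ,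
      L * x * y * z ≠ 0 → (∀ r : ℕ, r.Prime → (r : ℤ) ∣ L → r ∈ S) →
      x ^ n + y ^ n + L * z ^ n ≠ 0 := by
  obtain ⟨C, hC⟩ := fermat_congruence_primes (fun q hq => (hS q hq).1) Nat.prime_three (by norm_num)
    (fun q hq => by have := (hS q hq).2; omega)
    (Or.inl fun q hq => by have := (hS q hq).2; omega)
  exact ⟨C, fun n p hp hpC hpn L x y z hne h => hC n p hp hpC hpn L x y z hne (Or.inl h)⟩

/-- **Torsion**: a semistable curve with bad primes among `2` and any number of primes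
`≡ 1 (mod 12)` has rational torsion of order not divisible by four. -/
theorem torsion_one_mod_twelve {S : Finset ℕ} (hS : ∀ q ∈ S, q.Prime ∧ q % 12 = 1)
    {V : WeierstrassCurve ℤ} (hΔ : V.Δ ≠ 0) (hV : V.IsSemistableModel)
    (hgood : ∀ l : ℕ, l.Prime → l ≠ 2 → l ∉ S → V.IsGoodPrimeFor l) :
    ¬ 4 ∣ Nat.card (AddCommGroup.torsion (V.map (Int.castRingHom ℚ)).toAffine.Point) :=
  not_four_dvd_torsion (fun q hq => (hS q hq).1)
    (noSUnitTriple_congruences Nat.prime_three (by norm_num)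
      (fun q hq => by have := (hS q hq).2; omega)
      (Or.inl fun q hq => by have := (hS q hq).2; omega)) hΔ hV hgood

/-- The same for every congruence family. -/
theorem torsion_congruence_primes {S : Finset ℕ} (hS : ∀ q ∈ S, q.Prime) {ℓ : ℕ} (hℓ : ℓ.Prime)
    (hℓ2 : ℓ ≠ 2) (h1 : ∀ q ∈ S, q % ℓ = 1)
    (h16 : (∀ q ∈ S, q % 4 = 1) ∨ (∀ q ∈ S, q % 8 = 1 ∨ q % 8 = 3) ∨
      ∀ q ∈ S, q % 16 = 1 ∨ q % 16 = 7)
    {V : WeierstrassCurve ℤ} (hΔ : V.Δ ≠ 0) (hV : V.IsSemistableModel)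
    (hgood : ∀ l : ℕ, l.Prime → l ≠ 2 → l ∉ S → V.IsGoodPrimeFor l) :
    ¬ 4 ∣ Nat.card (AddCommGroup.torsion (V.map (Int.castRingHom ℚ)).toAffine.Point) :=
  not_four_dvd_torsion hS (noSUnitTriple_congruences hℓ hℓ2 h1 h16) hΔ hV hgood

/-- An instance with six primes, and sets of every size in the class. -/
theorem fermat_one_mod_twelve_sets :
    (∀ q ∈ ({13, 37, 61, 73, 97, 109} : Finset ℕ), q.Prime ∧ q % 12 = 1) ∧
      ∀ k : ℕ, ∃ S : Finset ℕ, S.card = k ∧ ∀ q ∈ S, q.Prime ∧ q % 12 = 1 := by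
  constructor
  · simp only [Finset.mem_insert, Finset.mem_singleton]
    rintro q (rfl | rfl | rfl | rfl | rfl | rfl) <;> norm_num
  · intro k
    obtain ⟨S, hS, hk⟩ := (Nat.infinite_setOfPred_prime_and_eq_mod (q := 12) (a := 1)
      (by decide)).exists_subset_card_eq k
    exact ⟨S, hk, fun q hq => ⟨(hS hq).1, (ZMod.natCast_eq_natCast_iff' q 1 12).mp
      (by exact_mod_cast (hS hq).2)⟩⟩

/-- Some restriction is needed: `65 - 1 = 64` is a triple for `5, 13`, both `1` modulo four. -/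
theorem congruence_family_needed :
    ∃ V : WeierstrassCurve ℤ, V.Δ ≠ 0 ∧ V.IsSemistableModel ∧
      ∀ l : ℕ, l.Prime → l ≠ 2 → l ∉ ({5, 13} : Finset ℕ) →
        V.IsGoodPrimeFor l ∧ (4 : ℤ) ∣ (l : ℤ) + 1 - V.apOfModel l := by
  refine exists_curve_of_triple (S := {5, 13}) (x := 65) (y := -1) (z := -64) (by norm_num)
    (by norm_num) isCoprime_one_right.neg_right (by norm_num) fun r hr hd => ?_
  have h : r ∣ 2 ^ 6 * (5 * 13) := by
    have := Int.natCast_dvd.mp hd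
    norm_num at this ⊢
    exact this
  simp only [Finset.mem_insert, Finset.mem_singleton]
  rcases hr.dvd_mul.mp h with h' | h'
  · exact Or.inl ((Nat.prime_dvd_prime_iff_eq hr Nat.prime_two).mp (hr.dvd_of_dvd_pow h'))
  · rcases hr.dvd_mul.mp h' with h'' | h''
    · exact Or.inr (Or.inl ((Nat.prime_dvd_prime_iff_eq hr (by norm_num)).mp h''))
    · exact Or.inr (Or.inr ((Nat.prime_dvd_prime_iff_eq hr (by norm_num)).mp h''))

end FA.Summary

end
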