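import Fermat.Agent.CongruentNumber.Aigner
import Mathlib.NumberTheory.FLT.Basic

/-!
# Fermat's Last Theorem for the exponent `4` over quadratic fields

Aigner's theorem (1934): over a quadratic field `x⁴ + y⁴ = z⁴` has a solution in nonzero numbers
exactly when the field is `ℚ(√-7)`; so every exponent divisible by `4` is settled over every other
quadratic field.
-/

set_option autoImplicit false

noncomputable section

namespace FA.Summary

variable {K : Type*} [Field K] [CharZero K]

/-- **Aigner's theorem**: in a field of degree two over `ℚ` Fermat's equation of exponent `4` has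
only trivial solutions exactly when `-7` is no square. -/
theorem fermatFour_quadratic_iff (hK : Module.finrank ℚ K = 2) :
    FermatLastTheoremWith K 4 ↔ ¬ ∃ s : K, s ^ 2 = -7 := by
  constructor
  · rintro hflt ⟨s, hs⟩
    have hne : ∀ e : K, e ^ 2 = 1 → 1 + e * s ≠ 0 := fun e he h => by
      have h8 : (8 : K) = 0 := by linear_combination (-e * s + 1) * h + (s ^ 2) * he + hs
      norm_num at h8
    refine hflt ((1 + s) / 2) ((1 - s) / 2) 1 (div_ne_zero ?_ two_ne_zero)
      (div_ne_zero ?_ two_ne_zero) one_ne_zero ?_
    · simpa using hne 1 (one_pow 2)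
    · simpa [sub_eq_add_neg] using hne (-1) (by ring)
    · field_simp
      linear_combination (2 * (s ^ 2 - 7) + 12) * hs
  · intro hns a b c ha hb hc h
    refine hns (FA.Aigner.exists_sq_eq_neg_seven hK (div_ne_zero ha hc) (div_ne_zero hb hc) ?_)
    rw [div_pow, div_pow, ← add_div, h, div_self (pow_ne_zero 4 hc)]

/-- **Fermat's Last Theorem for every exponent divisible by `4`** over every quadratic field other
than `ℚ(√-7)`. -/
theorem fermat_quadratic_four_dvd (hK : Module.finrank ℚ K = 2) (h7 : ¬ ∃ s : K, s ^ 2 = -7)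
    {n : ℕ} (hn : 4 ∣ n) : FermatLastTheoremWith K n :=
  FermatLastTheoremWith.mono hn ((fermatFour_quadratic_iff hK).2 h7)

/-- The rational points of `Z² = 2 X (1 + X²)`. -/
theorem rational_points_curve_two_cubic {X Z : ℚ} (h : Z ^ 2 = 2 * X * (1 + X ^ 2)) :
    X = 0 ∨ X = 1 :=
  FA.Aigner.eq_zero_or_one h

/-- The rational points of `W² = 1 - X⁴`. -/
theorem rational_points_lemniscate {X W : ℚ} (h : W ^ 2 = 1 - X ^ 4) : X = 0 ∨ X = 1 ∨ X = -1 :=
  FA.Aigner.eq_zero_or_pm_one h

end FA.Summary

end
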