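import Fermat.Agent.Root.SummaryFermatQuadraticNine
import Fermat.Agent.Root.MathlibForm
import Mathlib.LinearAlgebra.Matrix.Charpoly.Coeff
import Mathlib.LinearAlgebra.Matrix.GeneralLinearGroup.Defs
import Mathlib.RingTheory.AdjoinRoot
import Mathlib.RingTheory.Ideal.Quotient.Operations
import Mathlib.RingTheory.Polynomial.UniqueFactorization

/-!
# Fermat's Last Theorem in quadratic algebras and for commuting rational matrices

A unit solution in a commutative `ℚ`-algebra of dimension at most `2` descends to a residue field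
of degree `1` or `2`. Commuting `2 × 2` matrices are polynomials in one of them. So for `n`
divisible by `4` or `6` only `n = 4` admits commuting invertible rational solutions.
-/

set_option autoImplicit false

noncomputable section

open Polynomial

namespace FA.QuadraticAlgebras

universe u

/-- Fermat's Last Theorem for `n` over every field of degree at most `2`. -/
theorem with_of_finrank_le_two {n : ℕ} (hQ : FermatLastTheoremWith ℚ n)
    (h : ∀ (K : Type u) [Field K] [CharZero K], Module.finrank ℚ K = 2 →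
      FermatLastTheoremWith K n)
    (L : Type u) [Field L] [CharZero L] [hA : Algebra ℚ L] [FiniteDimensional ℚ L]
    (hL : Module.finrank ℚ L ≤ 2) : FermatLastTheoremWith L n := by
  obtain rfl : hA = DivisionRing.toRatAlgebra := Subsingleton.elim _ _
  rcases Nat.lt_or_ge (Module.finrank ℚ L) 2 with h1 | h2
  · have h1' : Module.finrank ℚ L = 1 := by
      have := Module.finrank_pos (R := ℚ) (M := L)
      omega
    have hs : ∀ v : L, ∃ c : ℚ, (c : L) = v := fun v => by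
      obtain ⟨c, hc⟩ := (finrank_eq_one_iff_of_nonzero' (1 : L) one_ne_zero).1 h1' v
      exact ⟨c, by rw [← hc, Rat.smul_one_eq_cast]⟩
    intro a b c ha hb hc e
    obtain ⟨a', rfl⟩ := hs a; obtain ⟨b', rfl⟩ := hs b; obtain ⟨c', rfl⟩ := hs c
    exact hQ a' b' c' (Rat.cast_ne_zero.1 ha) (Rat.cast_ne_zero.1 hb) (Rat.cast_ne_zero.1 hc)
      (by exact_mod_cast e)
  · exact h L (le_antisymm hL h2)

/-- No unit solution in a commutative algebra of dimension at most `2`. -/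
theorem units_ne {n : ℕ} (hQ : FermatLastTheoremWith ℚ n)
    (h : ∀ (K : Type u) [Field K] [CharZero K], Module.finrank ℚ K = 2 →
      FermatLastTheoremWith K n)
    (R : Type u) [CommRing R] [Nontrivial R] [Algebra ℚ R] [FiniteDimensional ℚ R]
    (hR : Module.finrank ℚ R ≤ 2) {x y z : R} (hx : IsUnit x) (hy : IsUnit y) (hz : IsUnit z) :
    x ^ n + y ^ n ≠ z ^ n := fun e => by
  obtain ⟨m, hm⟩ := Ideal.exists_maximal R
  have hsurj : Function.Surjective (Ideal.Quotient.mkₐ ℚ m).toLinearMap :=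
    Ideal.Quotient.mk_surjective
  have hfin : Module.Finite ℚ (R ⧸ m) := Module.Finite.of_surjective _ hsurj
  have hle : Module.finrank ℚ (R ⧸ m) ≤ 2 :=
    (LinearMap.finrank_le_finrank_of_surjective hsurj).trans hR
  let := Ideal.Quotient.field m
  have : CharZero (R ⧸ m) :=
    charZero_of_injective_ringHom ((Ideal.Quotient.mk m).comp (algebraMap ℚ R)).injective
  exact @with_of_finrank_le_two n hQ h (R ⧸ m) _ _ (Ideal.Quotient.algebra ℚ) hfin hle _ _ _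
    (hx.map (Ideal.Quotient.mk m)).ne_zero
    (hy.map (Ideal.Quotient.mk m)).ne_zero (hz.map (Ideal.Quotient.mk m)).ne_zero
    (by rw [← map_pow, ← map_pow, ← map_pow, ← map_add, e])

/-- The centraliser of a matrix which is not scalar. -/
theorem eq_aeval_of_commute {W : Matrix (Fin 2) (Fin 2) ℚ}
    (hW : W 0 1 ≠ 0 ∨ W 1 0 ≠ 0 ∨ W 0 0 ≠ W 1 1) {V : Matrix (Fin 2) (Fin 2) ℚ}
    (h : Commute V W) : ∃ p : ℚ[X], aeval W p = V := by
  suffices ∃ s t : ℚ, ∀ i j, V i j = (s • (1 : Matrix (Fin 2) (Fin 2) ℚ) + t • W) i j by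
    obtain ⟨s, t, hst⟩ := this
    refine ⟨C s + C t * X, Matrix.ext fun i j => ?_⟩
    rw [hst i j, map_add, map_mul, aeval_C, aeval_C, aeval_X, Algebra.algebraMap_eq_smul_one,
      Algebra.algebraMap_eq_smul_one, smul_mul_assoc, one_mul]
  have e : ∀ i j, (V * W) i j = (W * V) i j := fun i j => by rw [h.eq]
  have e00 := e 0 0; have e01 := e 0 1; have e10 := e 1 0
  simp only [Matrix.mul_apply, Fin.sum_univ_two] at e00 e01 e10
  rcases hW with hb | hc | had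
  · refine ⟨V 0 0 - V 0 1 / W 0 1 * W 0 0, V 0 1 / W 0 1, ?_⟩
    simp only [Fin.forall_fin_two, Matrix.add_apply, Matrix.smul_apply, smul_eq_mul,
      Matrix.one_apply_eq, Matrix.one_apply_ne, ne_eq, zero_ne_one, one_ne_zero, not_false_eq_true]
    refine ⟨⟨by ring, by field_simp; ring⟩, ?_, ?_⟩
    · field_simp; linarith
    · field_simp; linarith
  · refine ⟨V 0 0 - V 1 0 / W 1 0 * W 0 0, V 1 0 / W 1 0, ?_⟩
    simp only [Fin.forall_fin_two, Matrix.add_apply, Matrix.smul_apply, smul_eq_mul,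
      Matrix.one_apply_eq, Matrix.one_apply_ne, ne_eq, zero_ne_one, one_ne_zero, not_false_eq_true]
    refine ⟨⟨by ring, ?_⟩, by field_simp; ring, ?_⟩
    · field_simp; linarith
    · field_simp; linarith
  · have hd : W 0 0 - W 1 1 ≠ 0 := sub_ne_zero.2 had
    obtain ⟨t, ht⟩ : ∃ t : ℚ, t = (V 0 0 - V 1 1) / (W 0 0 - W 1 1) := ⟨_, rfl⟩
    refine ⟨V 0 0 - t * W 0 0, t, ?_⟩
    subst ht
    simp only [Fin.forall_fin_two, Matrix.add_apply, Matrix.smul_apply, smul_eq_mul,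
      Matrix.one_apply_eq, Matrix.one_apply_ne, ne_eq, zero_ne_one, one_ne_zero, not_false_eq_true]
    refine ⟨⟨by ring, ?_⟩, ?_, ?_⟩
    · field_simp; linarith
    · field_simp; linarith
    · field_simp; ring

/-- No commuting invertible solution. -/
theorem commuting_ne {n : ℕ} (hQ : FermatLastTheoremWith ℚ n)
    (h : ∀ (K : Type) [Field K] [CharZero K], Module.finrank ℚ K = 2 →
      FermatLastTheoremWith K n)
    {X Y Z : GL (Fin 2) ℚ} (hXY : Commute X Y) (hXZ : Commute X Z) (hYZ : Commute Y Z) :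
    (X : Matrix (Fin 2) (Fin 2) ℚ) ^ n + (Y : Matrix (Fin 2) (Fin 2) ℚ) ^ n ≠
      (Z : Matrix (Fin 2) (Fin 2) ℚ) ^ n := fun e => by
  let S : Set (GL (Fin 2) ℚ) := {X, Y, Z}
  have hcomm : ∀ U ∈ S, ∀ V ∈ S, Commute U V := by
    simp only [S, Set.mem_insert_iff, Set.mem_singleton_iff, forall_eq_or_imp, forall_eq]
    exact ⟨⟨Commute.refl _, hXY, hXZ⟩, ⟨hXY.symm, Commute.refl _, hYZ⟩,
      ⟨hXZ.symm, hYZ.symm, Commute.refl _⟩⟩
  obtain ⟨W, key⟩ : ∃ W : Matrix (Fin 2) (Fin 2) ℚ, ∀ U ∈ S,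
      ∃ p q : ℚ[X], aeval W p = (U : Matrix (Fin 2) (Fin 2) ℚ) ∧
        aeval W q = ((U⁻¹ : GL (Fin 2) ℚ) : Matrix (Fin 2) (Fin 2) ℚ) := by
    by_cases hW : ∃ U ∈ S, (U : Matrix (Fin 2) (Fin 2) ℚ) 0 1 ≠ 0 ∨
        (U : Matrix (Fin 2) (Fin 2) ℚ) 1 0 ≠ 0 ∨
        (U : Matrix (Fin 2) (Fin 2) ℚ) 0 0 ≠ (U : Matrix (Fin 2) (Fin 2) ℚ) 1 1
    · obtain ⟨W, hWS, hW⟩ := hW
      refine ⟨W, fun U hU => ?_⟩
      obtain ⟨p, hp⟩ := eq_aeval_of_commute hW ((hcomm U hU W hWS).map (Units.coeHom _))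
      obtain ⟨q, hq⟩ :=
        eq_aeval_of_commute hW ((hcomm U hU W hWS).inv_left.map (Units.coeHom _))
      exact ⟨p, q, hp, hq⟩
    · push Not at hW
      obtain ⟨W, hW'⟩ : ∃ W : Matrix (Fin 2) (Fin 2) ℚ, W = !![0, 1; 0, 0] := ⟨_, rfl⟩
      refine ⟨W, fun U hU => ?_⟩
      obtain ⟨h1, h2, h3⟩ := hW U hU
      have hU' : (U : Matrix (Fin 2) (Fin 2) ℚ) = algebraMap ℚ _
          ((U : Matrix (Fin 2) (Fin 2) ℚ) 0 0) := by
        ext i j; fin_cases i <;> fin_cases j <;> simp [Matrix.algebraMap_matrix_apply, h1, h2, h3]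
      have hc : Commute (U : Matrix (Fin 2) (Fin 2) ℚ) W :=
        hU' ▸ Algebra.commute_algebraMap_left _ W
      have hW1 : W 0 1 ≠ 0 ∨ W 1 0 ≠ 0 ∨ W 0 0 ≠ W 1 1 := by simp [hW']
      obtain ⟨p, hp⟩ := eq_aeval_of_commute hW1 hc
      obtain ⟨q, hq⟩ := eq_aeval_of_commute hW1 hc.units_inv_left
      exact ⟨p, q, hp, hq⟩
  obtain ⟨p, p', hp, hp'⟩ := key X (by simp [S])
  obtain ⟨q, q', hq, hq'⟩ := key Y (by simp [S])
  obtain ⟨r, r', hr, hr'⟩ := key Z (by simp [S])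
  let φ : ℚ[X] →ₐ[ℚ] Matrix (Fin 2) (Fin 2) ℚ := aeval W
  let I : Ideal ℚ[X] := RingHom.ker φ.toRingHom
  have hI : W.charpoly ∈ I := Matrix.aeval_self_charpoly W
  let π : AdjoinRoot W.charpoly →ₐ[ℚ] ℚ[X] ⧸ I :=
    AdjoinRoot.liftAlgHom W.charpoly (Algebra.ofId ℚ _) (Ideal.Quotient.mk I Polynomial.X) (by
      rw [← Ideal.Quotient.eq_zero_iff_mem] at hI
      rw [← hI]
      exact (aeval_algHom_apply (Ideal.Quotient.mkₐ ℚ I) Polynomial.X W.charpoly).trans (by simp))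
  have hsurj : Function.Surjective π := fun v => by
    obtain ⟨g, rfl⟩ := Ideal.Quotient.mk_surjective v
    refine ⟨AdjoinRoot.mk _ g, ?_⟩
    rw [AdjoinRoot.liftAlgHom_mk]
    exact (aeval_algHom_apply (Ideal.Quotient.mkₐ ℚ I) Polynomial.X g).trans (by simp)
  have hne : W.charpoly ≠ 0 := W.charpoly_monic.ne_zero
  have := (AdjoinRoot.powerBasis hne).finite
  have := Module.Finite.of_surjective π.toLinearMap hsurj
  have : Nontrivial (ℚ[X] ⧸ I) := Ideal.Quotient.nontrivial_iff.2 (fun h1 => by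
    have : (1 : ℚ[X]) ∈ I := by rw [h1]; trivial
    simp [I] at this)
  have hle : Module.finrank ℚ (ℚ[X] ⧸ I) ≤ 2 := by
    refine (LinearMap.finrank_le_finrank_of_surjective (f := π.toLinearMap) hsurj).trans ?_
    rw [(AdjoinRoot.powerBasis hne).finrank, AdjoinRoot.powerBasis_dim,
      Matrix.charpoly_natDegree_eq_dim, Fintype.card_fin]
  have unit : ∀ {U : GL (Fin 2) ℚ} {a b : ℚ[X]}, φ a = (U : Matrix (Fin 2) (Fin 2) ℚ) →
      φ b = ((U⁻¹ : GL (Fin 2) ℚ) : Matrix (Fin 2) (Fin 2) ℚ) → IsUnit (Ideal.Quotient.mk I a) :=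
    fun {U a b} ha hb => IsUnit.of_mul_eq_one (Ideal.Quotient.mk I b) (by
      rw [← map_mul, ← map_one (Ideal.Quotient.mk I), Ideal.Quotient.eq, RingHom.mem_ker]
      simp [ha, hb])
  refine units_ne hQ h (ℚ[X] ⧸ I) hle (unit hp hp') (unit hq hq') (unit hr hr') ?_
  rw [← map_pow, ← map_pow, ← map_pow, ← map_add, Ideal.Quotient.eq, RingHom.mem_ker]
  simp [φ, hp, hq, hr, e]

end FA.QuadraticAlgebras

namespace FA.Summary

/-- **Quadratic algebras**: no unit of a commutative `ℚ`-algebra of dimension at most `2` solves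
Fermat's equation of exponent divisible by `4` or `6`, other than `4`. -/
theorem fermat_quadraticAlgebra {R : Type*} [CommRing R] [Nontrivial R] [Algebra ℚ R]
    [FiniteDimensional ℚ R] (hR : Module.finrank ℚ R ≤ 2) {n : ℕ} (hn : 4 ∣ n ∨ 6 ∣ n)
    (h4 : n ≠ 4) {x y z : R} (hx : IsUnit x) (hy : IsUnit y) (hz : IsUnit z) :
    x ^ n + y ^ n ≠ z ^ n := by
  refine FA.QuadraticAlgebras.units_ne ?_ (fun K _ _ hK => hn.elim
    (fun h => fermat_quadratic_four_dvd_ne_four hK h h4) (fermat_quadratic_six_dvd hK)) R hR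
    hx hy hz
  rcases Nat.eq_zero_or_pos n with rfl | h0
  · intro a b c _ _ _ h; simp at h
  · exact FA.Root.fermatLastTheorem_rat_closed (by omega)

/-- **Quadratic algebras**, exponents `2 ^ a 3 ^ b ≥ 5`. -/
theorem fermat_quadraticAlgebra_smooth {R : Type*} [CommRing R] [Nontrivial R] [Algebra ℚ R]
    [FiniteDimensional ℚ R] (hR : Module.finrank ℚ R ≤ 2) {n : ℕ} (h5 : 5 ≤ n)
    (hs : ∀ p : ℕ, p.Prime → p ∣ n → p = 2 ∨ p = 3) {x y z : R} (hx : IsUnit x) (hy : IsUnit y)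
    (hz : IsUnit z) : x ^ n + y ^ n ≠ z ^ n :=
  FA.QuadraticAlgebras.units_ne (FA.Root.fermatLastTheorem_rat_closed (by omega))
    (fun _ _ _ hK => fermat_quadratic_smooth hK h5 hs) R hR hx hy hz

/-- **Commuting matrices**: for `n` divisible by `4` or `6`, commuting invertible rational
`2 × 2` matrices solve Fermat's equation exactly for `n = 4`. -/
theorem fermat_GL_two_rat_commuting_iff {n : ℕ} (hn : 4 ∣ n ∨ 6 ∣ n) :
    (∃ X Y Z : GL (Fin 2) ℚ, Commute X Y ∧ Commute X Z ∧ Commute Y Z ∧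
      (X : Matrix (Fin 2) (Fin 2) ℚ) ^ n + (Y : Matrix (Fin 2) (Fin 2) ℚ) ^ n =
        (Z : Matrix (Fin 2) (Fin 2) ℚ) ^ n) ↔ n = 4 := by
  constructor
  · rintro ⟨X, Y, Z, h1, h2, h3, h⟩
    by_contra h4
    refine FA.QuadraticAlgebras.commuting_ne ?_ (fun K _ _ hK => hn.elim
      (fun h => fermat_quadratic_four_dvd_ne_four hK h h4) (fermat_quadratic_six_dvd hK)) h1 h2 h3 h
    rcases Nat.eq_zero_or_pos n with rfl | h0
    · intro a b c _ _ _ e; simp at e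
    · exact FA.Root.fermatLastTheorem_rat_closed (by omega)
  · rintro rfl
    obtain ⟨x, hx⟩ : ∃ x : GL (Fin 2) ℚ, (x : Matrix (Fin 2) (Fin 2) ℚ) = !![1, -7; 1, 1] :=
      ⟨.mkOfDetNeZero !![1, -7; 1, 1] (by norm_num [Matrix.det_fin_two]), rfl⟩
    obtain ⟨y, hy⟩ : ∃ y : GL (Fin 2) ℚ, (y : Matrix (Fin 2) (Fin 2) ℚ) = !![1, 7; -1, 1] :=
      ⟨.mkOfDetNeZero !![1, 7; -1, 1] (by norm_num [Matrix.det_fin_two]), rfl⟩
    obtain ⟨z, hz⟩ : ∃ z : GL (Fin 2) ℚ, (z : Matrix (Fin 2) (Fin 2) ℚ) = !![2, 0; 0, 2] :=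
      ⟨.mkOfDetNeZero !![2, 0; 0, 2] (by norm_num [Matrix.det_fin_two]), rfl⟩
    refine ⟨x, y, z, Units.ext ?_, Units.ext ?_, Units.ext ?_, ?_⟩ <;>
      simp [hx, hy, hz, pow_succ] <;> norm_num

/-- **Commuting matrices**, exponents `2 ^ a 3 ^ b ≥ 5`: no solution. -/
theorem fermat_GL_two_rat_commuting {n : ℕ} (h5 : 5 ≤ n)
    (hs : ∀ p : ℕ, p.Prime → p ∣ n → p = 2 ∨ p = 3) {X Y Z : GL (Fin 2) ℚ} (hXY : Commute X Y)
    (hXZ : Commute X Z) (hYZ : Commute Y Z) :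
    (X : Matrix (Fin 2) (Fin 2) ℚ) ^ n + (Y : Matrix (Fin 2) (Fin 2) ℚ) ^ n ≠
      (Z : Matrix (Fin 2) (Fin 2) ℚ) ^ n :=
  FA.QuadraticAlgebras.commuting_ne (FA.Root.fermatLastTheorem_rat_closed (by omega))
    (fun _ _ _ hK => fermat_quadratic_smooth hK h5 hs) hXY hXZ hYZ

/-- **Commuting matrices**, exponents prime to `6`: a solution. -/
theorem fermat_GL_two_rat_commuting_exists {n : ℕ} (h2 : ¬ 2 ∣ n) (h3 : ¬ 3 ∣ n) :
    ∃ X Y Z : GL (Fin 2) ℚ, Commute X Y ∧ Commute X Z ∧ Commute Y Z ∧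
      (X : Matrix (Fin 2) (Fin 2) ℚ) ^ n + (Y : Matrix (Fin 2) (Fin 2) ℚ) ^ n =
        (Z : Matrix (Fin 2) (Fin 2) ℚ) ^ n := by
  obtain ⟨w, hw⟩ : ∃ w : GL (Fin 2) ℚ, (w : Matrix (Fin 2) (Fin 2) ℚ) = !![1, -1; 1, 0] :=
    ⟨.mkOfDetNeZero !![1, -1; 1, 0] (by norm_num [Matrix.det_fin_two]), rfl⟩
  have h6 : (w : Matrix (Fin 2) (Fin 2) ℚ) ^ 6 = 1 := by
    simp [hw, pow_succ, Matrix.one_fin_two]
  refine ⟨w, w ^ 5, 1, (Commute.refl w).pow_right 5, Commute.one_right _, Commute.one_right _, ?_⟩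
  rw [Units.val_pow_eq_pow_val, Units.val_one, one_pow, ← pow_mul, pow_eq_pow_mod n h6,
    pow_eq_pow_mod (5 * n) h6, show 5 * n % 6 = 5 * (n % 6) % 6 by omega]
  rcases show n % 6 = 1 ∨ n % 6 = 5 by omega with e | e <;> rw [e] <;>
    simp [hw, pow_succ, Matrix.one_fin_two]

end FA.Summary

end
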