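import Fermat.Agent.MordellCurve.SexticQuadratic
import Mathlib.NumberTheory.FLT.Basic

/-!
# Fermat's Last Theorem over every quadratic field for `6 ∣ n` and for `4 ∣ n`, `n ≠ 4`

Aigner's theorems of 1957: unlike the exponents `3` and `4`, these have no exceptional field.
-/

set_option autoImplicit false

noncomputable section

namespace FA.Summary

variable {K : Type*} [Field K] [CharZero K]

/-- **Exponents divisible by `6`**: every quadratic field. -/
theorem fermat_quadratic_six_dvd (hK : Module.finrank ℚ K = 2) {n : ℕ} (hn : 6 ∣ n) :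
    FermatLastTheoremWith K n := by
  refine FermatLastTheoremWith.mono hn fun a b c ha hb hc h => ?_
  refine FA.SexticQuadratic.not_sum_sixth hK (div_ne_zero ha hc) (div_ne_zero hb hc) ?_
  rw [div_pow, div_pow, ← add_div, h, div_self (pow_ne_zero 6 hc)]

/-- **Exponents divisible by `4` other than `4`**: every quadratic field. -/
theorem fermat_quadratic_four_dvd_ne_four (hK : Module.finrank ℚ K = 2) {n : ℕ} (hn : 4 ∣ n)
    (h4 : n ≠ 4) : FermatLastTheoremWith K n := by
  obtain ⟨k, rfl⟩ := hn
  intro a b c ha hb hc h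
  rcases Nat.eq_zero_or_pos k with rfl | hk
  · simp at h
  refine FA.SexticQuadratic.not_sum_four_mul hK (show 2 ≤ k by omega) (div_ne_zero ha hc)
    (div_ne_zero hb hc) ?_
  rw [div_pow, div_pow, ← add_div, h, div_self (pow_ne_zero _ hc)]

/-- The rational points of `y² = x³ + 27`. -/
theorem rational_points_curve144 {x y : ℚ} :
    y ^ 2 = x ^ 3 + 27 ↔ x = -3 ∧ y = 0 :=
  ⟨FA.Curve144.rational_points, by rintro ⟨rfl, rfl⟩; norm_num⟩

end FA.Summary

end
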