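import Fermat.Agent.MordellCurve.NinthQuadratic
import Fermat.Agent.Root.SummaryFermatQuadraticAll

/-!
# Fermat's Last Theorem over every quadratic field for exponents `2 ^ a 3 ^ b ≥ 5`

Aigner's exponent `9`, and with `6` and `4 k` the complete statement for exponents without prime
factors beyond `3`; `n = 3` and `n = 4` are genuine exceptions (`ℚ(√2)`, `ℚ(√-7)`).
-/

set_option autoImplicit false

noncomputable section

namespace FA.Summary

/-- **`3` is not a sum of two rational cubes.** -/
theorem three_not_sum_two_cubes (a b : ℚ) : a ^ 3 + b ^ 3 ≠ 3 :=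
  FA.ThreeCubes.three_not_sum a b

/-- `y² = x³ - 3888` has no rational solution. -/
theorem no_rational_solution_curve243 (x y : ℚ) : y ^ 2 ≠ x ^ 3 - 3888 := fun h => by
  have hx : x ≠ 0 := fun e => by rw [e] at h; nlinarith [sq_nonneg y]
  refine three_not_sum_two_cubes ((108 + y) / (6 * x)) ((108 - y) / (6 * x)) ?_
  field_simp
  linear_combination 648 * h

variable {K : Type*} [Field K] [CharZero K]

/-- **Exponents divisible by `9`**: every quadratic field. -/
theorem fermat_quadratic_nine_dvd (hK : Module.finrank ℚ K = 2) {n : ℕ} (hn : 9 ∣ n) :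
    FermatLastTheoremWith K n := by
  refine FermatLastTheoremWith.mono hn fun a b c ha hb hc h => ?_
  refine FA.NinthQuadratic.not_sum_ninth hK (div_ne_zero ha hc) (div_ne_zero hb hc) ?_
  rw [div_pow, div_pow, ← add_div, h, div_self (pow_ne_zero 9 hc)]

/-- **Fermat's Last Theorem over every quadratic field** for every `n ≥ 5` with no prime factor
beyond `3`. -/
theorem fermat_quadratic_smooth (hK : Module.finrank ℚ K = 2) {n : ℕ} (h5 : 5 ≤ n)
    (hs : ∀ p : ℕ, p.Prime → p ∣ n → p = 2 ∨ p = 3) : FermatLastTheoremWith K n := by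
  have key : ∀ m : ℕ, m ≠ 1 → m ∣ n → 2 ∣ m ∨ 3 ∣ m := fun m hm hd => by
    rcases hs _ (Nat.minFac_prime hm) ((Nat.minFac_dvd m).trans hd) with e | e
    · exact Or.inl (e ▸ Nat.minFac_dvd m)
    · exact Or.inr (e ▸ Nat.minFac_dvd m)
  by_cases h2 : 2 ∣ n
  · obtain ⟨m, rfl⟩ := h2
    rcases key m (by omega) (dvd_mul_left m 2) with h | h
    · exact fermat_quadratic_four_dvd_ne_four hK (Nat.mul_dvd_mul_left 2 h) (by omega)
    · exact fermat_quadratic_six_dvd hK (Nat.mul_dvd_mul_left 2 h)
  · obtain ⟨m, rfl⟩ := (key n (by omega) dvd_rfl).resolve_left h2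
    rcases key m (by omega) (dvd_mul_left m 3) with h | h
    · exact absurd (h.mul_left 3) h2
    · exact fermat_quadratic_nine_dvd hK (Nat.mul_dvd_mul_left 3 h)

end FA.Summary

end
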