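import Fermat.Agent.FermatQuartic.Quartic

/-!
# Summary: the rational points are dense on `x⁴ + y⁴ = z⁴ + w⁴`

Euler's surface carries the pencil of plane cubics cut by `x - z = L (w - y)`. With `s = x + z` and
`q = w + y` on `w - y = 1` the cubic is `L s (s² + L²) = q (q² + 1)` (`pencil_identity`), birational
to `Y² = X³ - 3 L⁴ X - L² (L⁸ + 1)`, which has the point `(1 + L² + L⁴, 1 + L² + L⁴ + L⁶)`
(`section_on_curve`), of infinite order over `ℚ(L)` (`section_infinite_order_generic`) and at all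
but finitely many rational `L` (`section_infinite_order_almost_all`). So all but finitely many members
of the pencil have infinitely many rational points (`infinite_points_almost_all`), and every
homogeneous polynomial vanishing at the rational points of the surface vanishes at all of its
complex points (`quartic_dense`); in the chart it is a multiple of the equation (`chart_dense`).

Not claimed: density for the real topology, the rank of the fibration, other diagonal quartics.
-/

set_option autoImplicit false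
set_option linter.style.haveILetI false

noncomputable section

open Polynomial WeierstrassCurve
open FA.NeronSpecialisation (genW fibreW specW)
open scoped Classical

attribute [local instance 2000] FA.MestreRank.ratDecEq

namespace FA.FermatQuartic.Summary

/-- **The pencil**: the surface in the coordinates `L, s, q`. -/
theorem pencil_identity {K : Type*} [Field K] [CharZero K] (L s q : K) :
    ((s + L) / 2) ^ 4 + ((q - 1) / 2) ^ 4 - ((s - L) / 2) ^ 4 - ((q + 1) / 2) ^ 4 =
      (L * s * (s ^ 2 + L ^ 2) - q * (q ^ 2 + 1)) / 2 := by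
  ring

/-- **The section.** -/
theorem section_on_curve {R : Type*} [CommRing R] (L : R) :
    (1 + L ^ 2 + L ^ 4 + L ^ 6) ^ 2 =
      (1 + L ^ 2 + L ^ 4) ^ 3 + -3 * L ^ 4 * (1 + L ^ 2 + L ^ 4) + -L ^ 2 * (L ^ 8 + 1) :=
  sec_equation L

/-- **The section has infinite order over `ℚ(L)`.** -/
theorem section_infinite_order_generic :
    ∃ h : (WeierstrassCurve.map
        (⟨0, 0, 0, -3 * X ^ 4, -X ^ 2 * (X ^ 8 + 1)⟩ : WeierstrassCurve ℚ[X])
        (algebraMap ℚ[X] (RatFunc ℚ))).toAffine.Nonsingular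
        (algebraMap ℚ[X] (RatFunc ℚ) (1 + X ^ 2 + X ^ 4))
        (algebraMap ℚ[X] (RatFunc ℚ) (1 + X ^ 2 + X ^ 4 + X ^ 6)),
      ∀ n : ℤ, n • Affine.Point.some _ _ h = 0 → n = 0 := by
  refine ⟨gen_nonsingular, fun n hn => ?_⟩
  exact Fintype.linearIndependent_iff.1 section_independent (fun _ => n)
    (by rw [Fin.sum_univ_one]; exact hn) 0

/-- **The section has infinite order at all but finitely many rational parameters.** -/
theorem section_infinite_order_almost_all :
    {t : ℚ | ¬∃ h : (⟨0, 0, 0, -3 * t ^ 4, -t ^ 2 * (t ^ 8 + 1)⟩ :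
        WeierstrassCurve ℚ).toAffine.Nonsingular (1 + t ^ 2 + t ^ 4) (1 + t ^ 2 + t ^ 4 + t ^ 6),
      ∀ n : ℤ, n • Affine.Point.some _ _ h = 0 → n = 0}.Finite := by
  refine (FA.LangNeron.finite_bad_parameters (K := ℚ) pencilFamily_Δ).subset ?_
  intro t ht hgood
  obtain ⟨h0, hinj⟩ := hgood
  obtain ⟨h, e⟩ := specW_genSection h0
  have hli : LinearIndependent ℤ fun _ : Fin 1 => specW pencilFamily h0 genSection :=
    section_independent.map' (specW pencilFamily h0).toIntLinearMap (LinearMap.ker_eq_bot.2 hinj)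
  have key : ∀ (W : WeierstrassCurve ℚ), W = pencilCurve t → ∀ (P : W.toAffine.Point)
      (h : W.toAffine.Nonsingular (secX t) (secY t)), P = .some _ _ h →
      LinearIndependent ℤ (fun _ : Fin 1 => P) →
      ∃ h : (pencilCurve t).toAffine.Nonsingular (secX t) (secY t),
        ∀ n : ℤ, n • Affine.Point.some _ _ h = 0 → n = 0 := by
    rintro W rfl P h rfl hP
    exact ⟨h, fun n hn => Fintype.linearIndependent_iff.1 hP (fun _ => n)
      (by rw [Fin.sum_univ_one]; exact hn) 0⟩
  exact ht (key _ (fibreW_pencilFamily t) _ h e hli)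

/-- **All but finitely many members of the pencil have infinitely many rational points.** -/
theorem infinite_points_almost_all :
    {L : ℚ | {v : Fin 4 → ℚ | v 0 ^ 4 + v 1 ^ 4 = v 2 ^ 4 + v 3 ^ 4 ∧ v 3 - v 1 = 1 ∧
      v 0 - v 2 = L}.Finite}.Finite := by
  have hfin : ({t : ℚ | t = 0} ∪ {t | t ^ 8 = 1} ∪ goodParametersᶜ).Finite := by
    refine ((Set.finite_singleton 0).union ?_).union finite_not_good
    refine (finite_setOfPred_isRoot (p := (X : ℚ[X]) ^ 8 - C 1)
      (X_pow_sub_C_ne_zero (by norm_num) 1)).subset fun t ht => ?_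
    show IsRoot _ t
    simp only [Set.mem_ofPred_eq] at ht
    simp [ht]
  refine hfin.subset fun t ht => ?_
  by_contra hbad
  simp only [Set.mem_union, Set.mem_ofPred_eq, Set.mem_compl_iff, not_or, not_not] at hbad
  refine infinite_chart_points hbad.1.1 hbad.1.2 hbad.2 ((ht.image fun v =>
    (v 0 + v 2, v 3 + v 1)).subset ?_)
  rintro ⟨s, q⟩ hP
  simp only [Set.mem_ofPred_eq, OnChart] at hP
  refine ⟨![(s + t) / 2, (q - 1) / 2, (s - t) / 2, (q + 1) / 2], ⟨?_, ?_, ?_⟩, ?_⟩
  · simp; linear_combination (1 / 2 : ℚ) * hP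
  · simp; ring
  · simp; ring
  · simp; constructor <;> ring

/-- **Density in the chart**: a polynomial vanishing at the rational solutions of
`L s (s² + L²) = q (q² + 1)` is a multiple of the equation. -/
theorem chart_dense {G : ℚ[X][X][X]}
    (hG : ∀ L s q : ℚ, L * s * (s ^ 2 + L ^ 2) = q * (q ^ 2 + 1) →
      eval q ((G.map (mapRingHom (evalRingHom L))).map (evalRingHom s)) = 0) :
    X ^ 3 + X - C (C (X : ℚ[X]) * X ^ 3 + C ((X : ℚ[X]) ^ 3) * X) ∣ G :=
  chartPoly_dvd hG

/-- **Density on the affine piece `w - y = 1`.** -/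
theorem affine_dense (F : MvPolynomial (Fin 4) ℚ)
    (hF : ∀ v : Fin 4 → ℚ, v 0 ^ 4 + v 1 ^ 4 = v 2 ^ 4 + v 3 ^ 4 → MvPolynomial.eval v F = 0)
    (v : Fin 4 → ℂ) (hv : v 0 ^ 4 + v 1 ^ 4 = v 2 ^ 4 + v 3 ^ 4) (h1 : v 3 - v 1 = 1) :
    MvPolynomial.aeval v F = 0 :=
  vanish_on_chart F hF v hv h1

/-- **The rational points are Zariski dense on `x⁴ + y⁴ = z⁴ + w⁴`.** -/
theorem quartic_dense {F : MvPolynomial (Fin 4) ℚ} {d : ℕ} (hF : F.IsHomogeneous d)
    (hvan : ∀ v : Fin 4 → ℚ, v 0 ^ 4 + v 1 ^ 4 = v 2 ^ 4 + v 3 ^ 4 → MvPolynomial.eval v F = 0)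
    (v : Fin 4 → ℂ) (hv : v 0 ^ 4 + v 1 ^ 4 = v 2 ^ 4 + v 3 ^ 4) :
    MvPolynomial.aeval v F = 0 :=
  quartic_vanish hF hvan v hv

end FA.FermatQuartic.Summary
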