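import Fermat.Agent.FermatQuarticReal.Surface

/-!
# Summary: rational points are dense on the real surface `x⁴ + y⁴ = z⁴ + w⁴`

The members of the pencil have positive `4 a³ + 27 b²` (`fibre_discriminant_pos`), so one real
component each, and all but finitely many have infinitely many rational points. So rational points
are dense on the real chart `L s (s² + L²) = q (q² + 1)` (`chart_real_dense`) and on the real
quartic (`quartic_real_dense`): every real solution is a limit of rational solutions, every positive one of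
positive ones (`positive_dense`), after Swinnerton-Dyer.

Not claimed: other diagonal quartics, approximation at finite places.
-/

set_option autoImplicit false

noncomputable section

namespace FA.FermatQuarticReal.Summary

/-- **The discriminant of the pencil is positive.** -/
theorem fibre_discriminant_pos {t : ℚ} (h0 : t ≠ 0) (h1 : t ^ 8 ≠ 1) :
    0 < 4 * (-3 * t ^ 4) ^ 3 + 27 * (-t ^ 2 * (t ^ 8 + 1)) ^ 2 :=
  disc_pos h0 h1

/-- **Density on the real chart.** -/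
theorem chart_real_dense {L s q : ℝ} (h : L * s * (s ^ 2 + L ^ 2) = q * (q ^ 2 + 1)) {ε : ℝ}
    (hε : 0 < ε) :
    {P : ℚ × ℚ × ℚ | P.1 * P.2.1 * (P.2.1 ^ 2 + P.1 ^ 2) = P.2.2 * (P.2.2 ^ 2 + 1) ∧
      |(P.1 : ℝ) - L| < ε ∧ |(P.2.1 : ℝ) - s| < ε ∧ |(P.2.2 : ℝ) - q| < ε}.Infinite :=
  chart_dense h hε

/-- **Rational points are dense on the real quartic.** -/
theorem quartic_real_dense {v : Fin 4 → ℝ} (hv : v 0 ^ 4 + v 1 ^ 4 = v 2 ^ 4 + v 3 ^ 4) {ε : ℝ}
    (hε : 0 < ε) :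
    {w : Fin 4 → ℚ | w 0 ^ 4 + w 1 ^ 4 = w 2 ^ 4 + w 3 ^ 4 ∧
      ∀ i, |(w i : ℝ) - v i| < ε}.Infinite :=
  infinite_near hv hε

/-- **Positive solutions near any positive real one.** -/
theorem positive_dense {x y z w : ℝ} (hx : 0 < x) (hy : 0 < y) (hz : 0 < z) (hw : 0 < w)
    (h : x ^ 4 + y ^ 4 = z ^ 4 + w ^ 4) {ε : ℝ} (hε : 0 < ε) :
    {v : Fin 4 → ℚ | v 0 ^ 4 + v 1 ^ 4 = v 2 ^ 4 + v 3 ^ 4 ∧ (∀ i, 0 < v i) ∧
      ∀ i, |(v i : ℝ) - ![x, y, z, w] i| < ε}.Infinite := by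
  refine (infinite_near (v := ![x, y, z, w]) h
    (lt_min hε (lt_min hx (lt_min hy (lt_min hz hw))))).mono ?_
  rintro v ⟨hv, hnear⟩
  refine ⟨hv, fun i => ?_, fun i => (lt_min_iff.1 (hnear i)).1⟩
  have hi := (lt_min_iff.1 (hnear i)).2
  simp only [lt_min_iff] at hi
  have : (0 : ℝ) < v i := by
    obtain ⟨b₀, b₁, b₂, b₃⟩ := hi
    fin_cases i
    · simp at b₀; show (0 : ℝ) < (v 0 : ℝ); linarith [(abs_lt.1 b₀).1]
    · simp at b₁; show (0 : ℝ) < (v 1 : ℝ); linarith [(abs_lt.1 b₁).1]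
    · simp at b₂; show (0 : ℝ) < (v 2 : ℝ); linarith [(abs_lt.1 b₂).1]
    · simp at b₃; show (0 : ℝ) < (v 3 : ℝ); linarith [(abs_lt.1 b₃).1]
  exact_mod_cast this

end FA.FermatQuarticReal.Summary
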