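import Fermat.Agent.Root.SummaryIrregularBelowHundred
import Mathlib.NumberTheory.Harmonic.Defs
import Mathlib.NumberTheory.Wilson

/-!
# Fermat quotients and the Wilson quotient

For an odd prime `p`, with `q(a) = (a^(p-1) - 1)/p` and `w = ((p-1)! + 1)/p`:

* `lerch_congruence`: `∑_{a<p} q(a) ≡ w (mod p)`.
* `glaisher_wilson`, `wilson_prime_iff`: `w ≡ B_{p-1} + 1/p - 1 (mod p)`, so `p` is a Wilson prime iff
  `p` divides the numerator of `B_{p-1} + 1/p - 1`.
* `eisenstein_congruence`, `wieferich_iff`: `2 q(2) ≡ -H_{(p-1)/2} (mod p)`, so `2^(p-1) ≡ 1 (mod p²)` iff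
  `p` divides the numerator of `H_{(p-1)/2}`.
-/

set_option autoImplicit false

noncomputable section

open Finset
open scoped Nat

namespace FA.OrderTheta

/-- The Fermat quotient `(a^(p-1) - 1)/p`. -/
def fermatQuot (p a : ℕ) : ℕ := (a ^ (p - 1) - 1) / p

/-- The Wilson quotient `((p-1)! + 1)/p`. -/
def wilsonQuot (p : ℕ) : ℕ := ((p - 1)! + 1) / p

variable {p : ℕ} [hp : Fact p.Prime]

theorem fermatQuot_spec {a : ℕ} (ha : ¬ p ∣ a) : a ^ (p - 1) = 1 + p * fermatQuot p a := by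
  have h := Nat.ModEq.pow_totient ((hp.out.coprime_iff_not_dvd.mpr ha).symm)
  rw [Nat.totient_prime hp.out] at h
  have h1 : 1 ≤ a ^ (p - 1) := Nat.one_le_pow _ _ (Nat.pos_of_ne_zero fun e => ha (e ▸ dvd_zero p))
  rw [fermatQuot, Nat.mul_div_cancel' ((Nat.modEq_iff_dvd' h1).mp h.symm)]
  omega

theorem wilsonQuot_spec : (p - 1)! + 1 = p * wilsonQuot p := by
  have h : (((p - 1)! + 1 : ℕ) : ZMod p) = 0 := by
    rw [Nat.cast_add, ZMod.wilsons_lemma, Nat.cast_one, neg_add_cancel]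
  rw [wilsonQuot, Nat.mul_div_cancel' ((ZMod.natCast_eq_zero_iff _ p).mp h)]

omit hp in
theorem prod_one_add_mul_sq {ι : Type*} (s : Finset ι) (f : ι → ℕ) :
    ∏ i ∈ s, (1 + (p : ZMod (p ^ 2)) * (f i : ZMod (p ^ 2))) =
      1 + (p : ZMod (p ^ 2)) * ((∑ i ∈ s, f i : ℕ) : ZMod (p ^ 2)) := by
  have hpp : (p : ZMod (p ^ 2)) * (p : ZMod (p ^ 2)) = 0 := by
    rw [← Nat.cast_mul, ← pow_two, ZMod.natCast_self]
  classical
  induction s using Finset.induction_on with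
  | empty => simp
  | insert i s hi ih =>
    rw [prod_insert hi, sum_insert hi, ih, Nat.cast_add]
    linear_combination (f i : ZMod (p ^ 2)) * ((∑ j ∈ s, f j : ℕ) : ZMod (p ^ 2)) * hpp

theorem sum_fermatQuot_modEq (h2 : p ≠ 2) :
    ∑ i ∈ range (p - 1), fermatQuot p (i + 1) ≡ wilsonQuot p [MOD p] := by
  have hodd := hp.out.eq_two_or_odd.resolve_left h2
  obtain ⟨k, hk⟩ : ∃ k, p - 1 = k + 1 := ⟨p - 2, by have := hp.out.two_le; omega⟩
  have hpp : (p : ZMod (p ^ 2)) * (p : ZMod (p ^ 2)) = 0 := by rw [← Nat.cast_mul, ← pow_two, ZMod.natCast_self]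
  have h1 : ((((p - 1)! : ℕ) : ZMod (p ^ 2))) ^ (p - 1) =
      ∏ i ∈ range (p - 1), (1 + (p : ZMod (p ^ 2)) * (fermatQuot p (i + 1) : ZMod (p ^ 2))) := by
    rw [← Finset.prod_range_add_one_eq_factorial, Nat.cast_prod, ← Finset.prod_pow]
    refine Finset.prod_congr rfl fun i hi => ?_
    rw [mem_range] at hi
    rw [← Nat.cast_pow, fermatQuot_spec fun hd => absurd (Nat.le_of_dvd (Nat.succ_pos i) hd) (by omega)]
    push_cast
    ring
  have h2' : (((p - 1)! : ℕ) : ZMod (p ^ 2)) = -1 + (p : ZMod (p ^ 2)) * (wilsonQuot p : ZMod (p ^ 2)) := by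
    have := congrArg (Nat.cast : ℕ → ZMod (p ^ 2)) (wilsonQuot_spec (p := p))
    push_cast at this
    linear_combination this
  have hev : Even (k + 1) := Nat.even_iff.mpr (by omega)
  have hkR : ((k + 1 : ℕ) : ZMod (p ^ 2)) = (p : ZMod (p ^ 2)) - 1 := by
    rw [← hk, Nat.cast_sub (by have := hp.out.two_le; omega), Nat.cast_one]
  rw [prod_one_add_mul_sq, h2', hk, add_pow_of_sq_zero _ _
    (by linear_combination ((wilsonQuot p : ZMod (p ^ 2)) * (wilsonQuot p : ZMod (p ^ 2))) * hpp), hev.neg_one_pow,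
    (Nat.even_add_one.mp hev |> Nat.not_even_iff_odd.mp).neg_one_pow, hkR] at h1
  rw [hk]
  have h3 : ((p * ∑ i ∈ range (k + 1), fermatQuot p (i + 1) : ℕ) : ZMod (p ^ 2)) =
      ((p * wilsonQuot p : ℕ) : ZMod (p ^ 2)) := by
    push_cast at h1 ⊢
    linear_combination -h1 - (wilsonQuot p : ZMod (p ^ 2)) * hpp
  have h4 := (ZMod.natCast_eq_natCast_iff _ _ _).mp h3
  rw [pow_two] at h4
  exact Nat.ModEq.mul_left_cancel' hp.out.ne_zero h4

theorem wilsonQuot_cong (hp5 : 5 ≤ p) : ∃ t : ℚ, PIntegral p t ∧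
    (wilsonQuot p : ℚ) = bernoulli (p - 1) + (p : ℚ)⁻¹ - 1 + (p : ℚ) * t := by
  obtain ⟨c, hc⟩ := Nat.modEq_iff_dvd.mp (sum_fermatQuot_modEq (p := p) (by omega))
  obtain ⟨T, hT, hS⟩ := powerSum_remainder hp5 (show 2 ≤ p - 1 by omega)
    (Nat.even_iff.mpr (by have := hp.out.eq_two_or_odd; omega))
  have hsum : ∑ r ∈ range p, (r : ℚ) ^ (p - 1) =
      ((p - 1 : ℕ) : ℚ) + (p : ℚ) * ((∑ i ∈ range (p - 1), fermatQuot p (i + 1) : ℕ) : ℚ) := by
    obtain ⟨k, hk⟩ : ∃ k, p = k + 1 := ⟨p - 1, by omega⟩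
    rw [show range p = range (k + 1) by rw [hk], Finset.sum_range_succ', Nat.cast_zero,
      zero_pow (by omega), add_zero, show p - 1 = k by omega, Nat.cast_sum, Finset.mul_sum]
    rw [Finset.sum_congr rfl fun i hi => show ((i + 1 : ℕ) : ℚ) ^ k =
      1 + (p : ℚ) * (fermatQuot p (i + 1) : ℚ) by
        rw [mem_range] at hi
        rw [show k = p - 1 by omega, ← Nat.cast_pow,
          fermatQuot_spec fun hd => absurd (Nat.le_of_dvd (Nat.succ_pos i) hd) (by omega)]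
        push_cast; ring, Finset.sum_add_distrib]
    simp
  have hp0 : (p : ℚ) ≠ 0 := Nat.cast_ne_zero.mpr hp.out.ne_zero
  have hc' : (wilsonQuot p : ℚ) - ((∑ i ∈ range (p - 1), fermatQuot p (i + 1) : ℕ) : ℚ) =
      (p : ℚ) * (c : ℚ) := by exact_mod_cast hc
  refine ⟨((p - 1 : ℕ) : ℚ) * T + c, ((PIntegral.natCast _).mul hT).add (PIntegral.intCast c), ?_⟩
  rw [hS, Nat.cast_sub (show 1 ≤ p by omega), Nat.cast_one] at hsum
  rw [Nat.cast_sub (show 1 ≤ p by omega), Nat.cast_one]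
  field_simp
  linear_combination (p : ℚ) * hc' - hsum

theorem choose_pred_cast : ∀ i < p, (((p - 1).choose i : ℕ) : ZMod p) = (-1) ^ i := by
  intro i
  induction i with
  | zero => simp
  | succ i ih =>
    intro hi
    have h : (((p - 1 + 1).choose (i + 1) : ℕ) : ZMod p) = 0 := by
      rw [Nat.sub_add_cancel hp.out.one_le, ZMod.natCast_eq_zero_iff]
      exact hp.out.dvd_choose_self (Nat.succ_ne_zero i) hi
    rw [Nat.choose_succ_succ, Nat.cast_add, ih (by omega)] at h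
    rw [pow_succ]
    linear_combination h

omit hp in
theorem alternating_inv_sum {K : Type*} [Field K] (h2 : (2 : K) ≠ 0) (h : ℕ) :
    ∑ i ∈ range (2 * h), (-1 : K) ^ i * ((i + 1 : ℕ) : K)⁻¹ =
      ∑ i ∈ range (2 * h), ((i + 1 : ℕ) : K)⁻¹ - ∑ j ∈ range h, ((j + 1 : ℕ) : K)⁻¹ := by
  induction h with
  | zero => simp
  | succ h ih =>
    rw [show 2 * (h + 1) = 2 * h + 1 + 1 by ring, sum_range_succ, sum_range_succ, sum_range_succ,
      sum_range_succ, sum_range_succ (fun j => ((j + 1 : ℕ) : K)⁻¹) h, ih,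
      show 2 * h + 1 + 1 = 2 * (h + 1) by ring, Nat.cast_mul 2 (h + 1), Nat.cast_ofNat, mul_inv,
      pow_succ, pow_mul, neg_one_sq, one_pow]
    field_simp
    ring

theorem two_mul_fermatQuot_two (h2 : p ≠ 2) :
    2 * (fermatQuot p 2 : ZMod p) = -∑ j ∈ range (p / 2), ((j + 1 : ℕ) : ZMod p)⁻¹ := by
  have hodd := hp.out.eq_two_or_odd.resolve_left h2
  have hp2 := hp.out.two_le
  have hnd : ¬ p ∣ 2 := fun h => h2 ((Nat.prime_dvd_prime_iff_eq hp.out Nat.prime_two).mp h)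
  have h2K : (2 : ZMod p) ≠ 0 := by
    have : ((2 : ℕ) : ZMod p) ≠ 0 := fun h => hnd ((ZMod.natCast_eq_zero_iff _ _).mp h)
    exact_mod_cast this
  have hd : ∀ i ∈ range (p - 1), p * (p.choose (i + 1) / p) = p.choose (i + 1) := fun i hi =>
    Nat.mul_div_cancel' (hp.out.dvd_choose_self (Nat.succ_ne_zero i) (by rw [mem_range] at hi; omega))
  have hval : ∀ i ∈ range (p - 1),
      ((p.choose (i + 1) / p : ℕ) : ZMod p) = (-1) ^ i * ((i + 1 : ℕ) : ZMod p)⁻¹ := by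
    intro i hi
    have hi' : i + 1 < p := by rw [mem_range] at hi; omega
    have h := Nat.add_one_mul_choose_eq (p - 1) i
    rw [Nat.sub_add_cancel hp.out.one_le, ← hd i hi, mul_assoc] at h
    have h' := congrArg (Nat.cast : ℕ → ZMod p) (mul_left_cancel₀ hp.out.ne_zero h)
    rw [choose_pred_cast i (by omega), Nat.cast_mul] at h'
    rw [h', mul_inv_cancel_right₀]
    exact fun e => absurd (Nat.le_of_dvd (Nat.succ_pos i) ((ZMod.natCast_eq_zero_iff _ _).mp e)) (by omega)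
  have htotal : 2 * fermatQuot p 2 = ∑ i ∈ range (p - 1), p.choose (i + 1) / p := by
    refine mul_left_cancel₀ hp.out.ne_zero ?_
    rw [Finset.mul_sum, Finset.sum_congr rfl hd]
    have hs := Nat.sum_range_choose p
    rw [Finset.sum_range_succ, Nat.choose_self, show range p = range (p - 1 + 1) by
      rw [Nat.sub_add_cancel hp.out.one_le], Finset.sum_range_succ', Nat.choose_zero_right] at hs
    rw [show (2 : ℕ) ^ p = 2 * 2 ^ (p - 1) by rw [← pow_succ', Nat.sub_add_cancel hp.out.one_le],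
      fermatQuot_spec hnd] at hs
    linarith
  have hh : p - 1 = 2 * (p / 2) := by omega
  have hzero : ∑ i ∈ range (p - 1), ((i + 1 : ℕ) : ZMod p)⁻¹ = 0 := by
    have e : ∑ i ∈ range (p - 1), ((i + 1 : ℕ) : ZMod p)⁻¹ =
        -∑ i ∈ range (p - 1), ((i + 1 : ℕ) : ZMod p)⁻¹ := by
      conv_lhs => rw [← Finset.sum_range_reflect]
      rw [← Finset.sum_neg_distrib]
      refine Finset.sum_congr rfl fun i hi => ?_
      rw [mem_range] at hi
      rw [show p - 1 - 1 - i + 1 = p - (i + 1) by omega, Nat.cast_sub (by omega), ZMod.natCast_self,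
        zero_sub, inv_neg]
    exact (mul_eq_zero.mp (show (2 : ZMod p) * _ = 0 by rw [two_mul]; exact eq_neg_iff_add_eq_zero.mp e)).resolve_left h2K
  have := congrArg (Nat.cast : ℕ → ZMod p) htotal
  rw [Nat.cast_mul, Nat.cast_sum, Finset.sum_congr rfl hval, hh, alternating_inv_sum h2K, ← hh,
    hzero, zero_sub] at this
  exact_mod_cast this

theorem cast_harmonic_zmod : ∀ n < p, PIntegral p (harmonic n) ∧
    ((harmonic n : ℚ) : ZMod p) = ∑ j ∈ range n, ((j + 1 : ℕ) : ZMod p)⁻¹ := by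
  intro n
  induction n with
  | zero => exact fun _ => ⟨by rw [harmonic_zero]; exact_mod_cast PIntegral.intCast 0, by simp⟩
  | succ n ih =>
    intro hn
    obtain ⟨h1, h2⟩ := ih (by omega)
    have h3 : PIntegral p (((n + 1 : ℕ) : ℚ)⁻¹) :=
      PIntegral.inv_natCast fun hd => absurd (Nat.le_of_dvd (Nat.succ_pos n) hd) (by omega)
    rw [harmonic_succ]
    refine ⟨h1.add h3, ?_⟩
    rw [Rat.cast_add_of_ne_zero (fun e => h1 ((ZMod.natCast_eq_zero_iff _ _).mp e))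
      (fun e => h3 ((ZMod.natCast_eq_zero_iff _ _).mp e)), h2, Rat.cast_inv_nat,
      Finset.sum_range_succ]

theorem dvd_quot_iff_sq_dvd (n : ℕ) : p ^ 2 ∣ p * n ↔ p ∣ n := by
  rw [pow_two]; exact Nat.mul_dvd_mul_iff_left hp.out.pos

end FA.OrderTheta

namespace FA.Summary

open FA.OrderTheta

/-- **Lerch's congruence.** -/
theorem lerch_congruence (p : ℕ) [Fact p.Prime] (h2 : p ≠ 2) :
    ∑ a ∈ range (p - 1), ((a + 1) ^ (p - 1) - 1) / p ≡ ((p - 1)! + 1) / p [MOD p] :=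
  sum_fermatQuot_modEq h2

/-- **Glaisher's congruence for the Wilson quotient.** -/
theorem glaisher_wilson (p : ℕ) [Fact p.Prime] (hp5 : 5 ≤ p) :
    ∃ t : ℚ, ¬ p ∣ t.den ∧ ((((p - 1)! + 1) / p : ℕ) : ℚ) =
      bernoulli (p - 1) + (p : ℚ)⁻¹ - 1 + (p : ℚ) * t :=
  wilsonQuot_cong hp5

/-- **Wilson primes.** -/
theorem wilson_prime_iff (p : ℕ) [Fact p.Prime] (hp5 : 5 ≤ p) :
    p ^ 2 ∣ (p - 1)! + 1 ↔ (p : ℤ) ∣ (bernoulli (p - 1) + (p : ℚ)⁻¹ - 1).num := by
  obtain ⟨t, ht, e⟩ := wilsonQuot_cong (p := p) hp5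
  set x := bernoulli (p - 1) + (p : ℚ)⁻¹ - 1
  have hx : PIntegral p x := by
    rw [show x = (wilsonQuot p : ℚ) + ((-1 : ℤ) : ℚ) * ((p : ℚ) * t) by rw [e]; push_cast; ring]
    exact (PIntegral.natCast _).add ((PIntegral.intCast _).mul ((PIntegral.natCast p).mul ht))
  rw [wilsonQuot_spec, dvd_quot_iff_sq_dvd]
  constructor
  · intro h
    have h0 := ratCong_zero_of_dvd_num (PIntegral.natCast (p := p) (wilsonQuot p))
      (by rw [Rat.num_natCast]; exact_mod_cast h)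
    exact (RatCong.zero_of_cong ⟨t, ht, e⟩ h0).num_dvd
  · intro h
    have := (RatCong.zero_of_cong' ⟨t, ht, e⟩ (ratCong_zero_of_dvd_num hx h)).num_dvd
    rw [Rat.num_natCast] at this
    exact_mod_cast this

/-- **Eisenstein's congruence.** -/
theorem eisenstein_congruence (p : ℕ) [Fact p.Prime] (h2 : p ≠ 2) :
    2 * (((2 ^ (p - 1) - 1) / p : ℕ) : ZMod p) = -∑ j ∈ range (p / 2), ((j + 1 : ℕ) : ZMod p)⁻¹ :=
  two_mul_fermatQuot_two h2

/-- **Wieferich primes.** -/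
theorem wieferich_iff (p : ℕ) [hp : Fact p.Prime] (h2 : p ≠ 2) :
    2 ^ (p - 1) ≡ 1 [MOD p ^ 2] ↔ (p : ℤ) ∣ (harmonic (p / 2)).num := by
  have hnd : ¬ p ∣ 2 := fun h => h2 ((Nat.prime_dvd_prime_iff_eq hp.out Nat.prime_two).mp h)
  have h2K : ((2 : ℕ) : ZMod p) ≠ 0 := fun h => hnd ((ZMod.natCast_eq_zero_iff _ _).mp h)
  obtain ⟨hint, hcast⟩ := cast_harmonic_zmod (p := p) (p / 2) (Nat.div_lt_self hp.out.pos one_lt_two)
  have hden : ((harmonic (p / 2)).den : ZMod p) ≠ 0 := fun e => hint ((ZMod.natCast_eq_zero_iff _ _).mp e)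
  have e := two_mul_fermatQuot_two (p := p) h2
  rw [← hcast, Rat.cast_def, ← neg_div, eq_div_iff hden] at e
  rw [Nat.ModEq.comm, Nat.modEq_iff_dvd' (Nat.one_le_pow _ _ two_pos), fermatQuot_spec hnd,
    Nat.add_sub_cancel_left, dvd_quot_iff_sq_dvd, ← ZMod.natCast_eq_zero_iff,
    ← ZMod.intCast_zmod_eq_zero_iff_dvd, ← neg_eq_zero (a := ((_ : ℤ) : ZMod p)), ← e]
  simp only [mul_eq_zero, hden, or_false]
  push_cast at h2K
  simp [h2K]

end FA.Summary
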