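import Fermat.Agent.RationalExponent.Complex
import Mathlib.RingTheory.RootsOfUnity.Complex

/-!
# Fermat's Last Theorem on the rational multiples of roots of unity

For `n ≥ 3` nonzero rational multiples `x`, `y`, `z` of roots of unity with `x ^ n + y ^ n = z ^ n`
have equal absolute values, and `(x/z) ^ n`, `(y/z) ^ n` are the primitive sixth roots of unity.
So the Fermat curve has exactly `2 n ^ 2 + 2 n` such points.
-/

set_option autoImplicit false

noncomputable section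

open FA.RationalExponent

namespace FA.Summary

/-- The rational multiples of roots of unity of all orders. -/
def ratRootsOfUnity : Set ℂ := {x | ∃ (r : ℚ) (ζ : ℂ), IsOfFinOrder ζ ∧ x = r * ζ}

theorem mem_ratRootsOfUnity_of_pow {x : ℂ} {k : ℕ} (hk : 0 < k) (h : x ^ k = 1) :
    x ∈ ratRootsOfUnity :=
  ⟨1, x, isOfFinOrder_iff_pow_eq_one.mpr ⟨k, hk, h⟩, by rw [Rat.cast_one, one_mul]⟩

theorem zero_mem_ratRootsOfUnity : (0 : ℂ) ∈ ratRootsOfUnity :=
  ⟨0, 1, IsOfFinOrder.one, by rw [Rat.cast_zero, zero_mul]⟩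

/-- A quotient of two such numbers, to the `n`th power. -/
theorem exists_pow_quotient {x z : ℂ} (hx : x ∈ ratRootsOfUnity) (hz : z ∈ ratRootsOfUnity)
    (hx0 : x ≠ 0) (hz0 : z ≠ 0) (n : ℕ) :
    ∃ (u : ℚ) (M : ℕ), u ≠ 0 ∧ 0 < M ∧ ((x / z) ^ n) ^ M = (((u ^ n) ^ M : ℚ) : ℂ) ∧
      Complex.normSq ((x / z) ^ n) = (((u ^ 2) ^ n : ℚ) : ℝ) := by
  obtain ⟨r, ζ, hζ, rfl⟩ := hx
  obtain ⟨s, η, hη, rfl⟩ := hz
  obtain ⟨k, hk, hζk⟩ := isOfFinOrder_iff_pow_eq_one.mp hζ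
  obtain ⟨l, hl, hηl⟩ := isOfFinOrder_iff_pow_eq_one.mp hη
  have hr : r ≠ 0 := fun h => hx0 (by rw [h, Rat.cast_zero, zero_mul])
  have hs : s ≠ 0 := fun h => hz0 (by rw [h, Rat.cast_zero, zero_mul])
  refine ⟨r / s, k * l, div_ne_zero hr hs, Nat.mul_pos hk hl, ?_, ?_⟩
  · have hq : (ζ / η) ^ (k * l) = 1 := by
      rw [div_pow, pow_mul, hζk, one_pow, mul_comm k, pow_mul, hηl, one_pow, div_one]
    rw [mul_div_mul_comm, mul_pow, mul_pow, pow_right_comm (ζ / η), hq, one_pow, mul_one]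
    push_cast
    rfl
  · have h1 : Complex.normSq ζ = 1 := by
      rw [Complex.normSq_eq_norm_sq, Complex.norm_eq_one_of_pow_eq_one hζk hk.ne', one_pow]
    have h2 : Complex.normSq η = 1 := by
      rw [Complex.normSq_eq_norm_sq, Complex.norm_eq_one_of_pow_eq_one hηl hl.ne', one_pow]
    rw [map_pow, map_div₀, map_mul, map_mul, h1, h2, mul_one, mul_one, ← Complex.ofReal_ratCast,
      ← Complex.ofReal_ratCast, Complex.normSq_ofReal, Complex.normSq_ofReal]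
    push_cast
    rw [← pow_two, ← pow_two, div_pow, div_pow, div_pow]

/-- **Fermat's Last Theorem on the rational multiples of roots of unity.** -/
theorem fermat_ratRootsOfUnity {n : ℕ} (hn : 3 ≤ n) {x y z : ℂ} (hx : x ∈ ratRootsOfUnity)
    (hy : y ∈ ratRootsOfUnity) (hz : z ∈ ratRootsOfUnity) (hx0 : x ≠ 0) (hy0 : y ≠ 0) (hz0 : z ≠ 0)
    (h : x ^ n + y ^ n = z ^ n) :
    ‖x‖ = ‖z‖ ∧ ‖y‖ = ‖z‖ ∧ IsPrimitiveRoot ((x / z) ^ n) 6 ∧
      IsPrimitiveRoot ((y / z) ^ n) 6 := by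
  obtain ⟨u, M, hu, hM, hX, hA⟩ := exists_pow_quotient hx hz hx0 hz0 n
  obtain ⟨v, M', hv, hM', hY, hB⟩ := exists_pow_quotient hy hz hy0 hz0 n
  have hsub : 1 - (x / z) ^ n = (y / z) ^ n := by
    rw [div_pow, div_pow]
    field_simp
    linear_combination -h
  rw [← hsub] at hY hB
  set α := (x / z) ^ n with hα
  have hX' : α ^ (M * M') = ((((u ^ n) ^ M) ^ M' : ℚ) : ℂ) := by
    rw [pow_mul, hX]; norm_num
  have hY' : (1 - α) ^ (M * M') = ((((v ^ n) ^ M') ^ M : ℚ) : ℂ) := by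
    rw [mul_comm M, pow_mul, hY]; norm_num
  have hMM : M * M' ≠ 0 := (Nat.mul_pos hM hM').ne'
  have him : α.im ≠ 0 := fun him => by
    obtain ⟨r, hr⟩ | ⟨h', -⟩ := rational_or_quadratic hMM hX' hY'
    · have key : ∀ w w' : ℚ, Complex.normSq (w' : ℂ) = (((w ^ 2) ^ n : ℚ) : ℝ) →
          |w'| = |w| ^ n := fun w w' h => by
        rw [← Complex.ofReal_ratCast, Complex.normSq_ofReal] at h
        have h' : w' * w' = (w ^ 2) ^ n := by exact_mod_cast h
        refine (pow_left_inj₀ (abs_nonneg _) (by positivity) two_ne_zero).mp ?_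
        rw [sq_abs, ← pow_mul, mul_comm n, pow_mul, sq_abs, ← h', sq]
      refine false_of_rational hn (abs_ne_zero.mpr hu) (abs_ne_zero.mpr hv) (r := r)
        (key u r (by rw [← hr]; exact hA)) (key v (1 - r) ?_)
      push_cast
      rw [← hr]
      exact_mod_cast hB
    · exact h' him
  have hquad := quadratic_eq_zero hn hMM hX' hY' him (sq_pos_of_ne_zero hu)
    (sq_pos_of_ne_zero hv) hA hB
  have h6 := isPrimitiveRoot_of_quadratic hquad
  have h6' := isPrimitiveRoot_of_quadratic (z := 1 - α) (by linear_combination hquad)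
  rw [hsub] at h6'
  have hnorm : ∀ w : ℂ, IsPrimitiveRoot ((w / z) ^ n) 6 → ‖w‖ = ‖z‖ := fun w hw => by
    have h1 := Complex.norm_eq_one_of_pow_eq_one hw.pow_eq_one (by norm_num)
    rw [norm_pow, pow_eq_one_iff_of_nonneg (norm_nonneg _) (by omega), norm_div,
      div_eq_one_iff_eq (norm_ne_zero_iff.mpr hz0)] at h1
    exact h1
  exact ⟨hnorm x h6, hnorm y h6', h6, h6'⟩

/-- There are `n` roots of order `n` of a nonzero complex number. -/
theorem ncard_pow_eq {n : ℕ} (hn : 0 < n) {a : ℂ} (ha : a ≠ 0) :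
    {x : ℂ | x ^ n = a}.Finite ∧ {x : ℂ | x ^ n = a}.ncard = n := by
  classical
  have hζ := Complex.isPrimitiveRoot_exp n hn.ne'
  have hset : {x : ℂ | x ^ n = a} = ↑(Polynomial.nthRoots n a).toFinset := by
    ext x
    simp [Polynomial.mem_nthRoots hn]
  rw [hset, Set.ncard_coe_finset, Multiset.toFinset_card_of_nodup (hζ.nthRoots_nodup ha),
    hζ.card_nthRoots, if_pos (IsAlgClosed.exists_pow_nat_eq a hn)]
  exact ⟨Finset.finite_toSet _, rfl⟩

/-- **The points of the Fermat curve in rational multiples of roots of unity** number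
`2 n ^ 2 + 2 n`. -/
theorem fermatCurve_ratRootsOfUnity_ncard {n : ℕ} (hn : 3 ≤ n) :
    {P : ℂ × ℂ | P.1 ∈ ratRootsOfUnity ∧ P.2 ∈ ratRootsOfUnity ∧
      P.1 ^ n + P.2 ^ n = 1}.ncard = 2 * n ^ 2 + 2 * n := by
  have hn0 : 0 < n := by omega
  obtain ⟨r, hr⟩ := IsAlgClosed.exists_pow_nat_eq (-3 : ℂ) two_pos
  have hw : ((1 + r) / 2) ^ 2 - (1 + r) / 2 + 1 = 0 := by linear_combination (1 / 4 : ℂ) * hr
  have hw' : ((1 - r) / 2) ^ 2 - (1 - r) / 2 + 1 = 0 := by linear_combination (1 / 4 : ℂ) * hr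
  set ω := (1 + r) / 2 with hωdef
  set ω' := (1 - r) / 2 with hω'def
  have hsum : ω + ω' = 1 := by rw [hωdef, hω'def]; ring
  have h0 : ω ≠ 0 := fun e => by rw [e] at hw; norm_num at hw
  have h0' : ω' ≠ 0 := fun e => by rw [e] at hw'; norm_num at hw'
  have hne : ω ≠ ω' := fun e => by
    have h2 : r = 0 := by rw [hωdef, hω'def] at e; linear_combination e
    rw [h2] at hr
    norm_num at hr
  let R : ℂ → Set ℂ := fun a => {x : ℂ | x ^ n = a}
  have hR : ∀ a, a ≠ 0 → (R a).Finite ∧ (R a).ncard = n := fun a ha => ncard_pow_eq hn0 ha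
  have hS : {P : ℂ × ℂ | P.1 ∈ ratRootsOfUnity ∧ P.2 ∈ ratRootsOfUnity ∧ P.1 ^ n + P.2 ^ n = 1} =
      (R 1 ×ˢ ({0} : Set ℂ) ∪ ({0} : Set ℂ) ×ˢ R 1) ∪ (R ω ×ˢ R ω' ∪ R ω' ×ˢ R ω) := by
    have hz : (0 : ℂ) ^ n = 0 := zero_pow hn0.ne'
    have hsix : ∀ c x : ℂ, c ^ 2 - c + 1 = 0 → x ^ n = c → x ∈ ratRootsOfUnity := fun c x hc hx =>
      mem_ratRootsOfUnity_of_pow (Nat.mul_pos hn0 (show 0 < 6 by norm_num))
        (by rw [pow_mul, hx, (isPrimitiveRoot_of_quadratic hc).pow_eq_one])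
    ext ⟨x, y⟩
    simp only [R, Set.mem_ofPred_eq, Set.mem_union, Set.mem_prod, Set.mem_singleton_iff]
    constructor
    · rintro ⟨hx, hy, h⟩
      rcases eq_or_ne x 0 with rfl | hx0
      · rw [hz, zero_add] at h
        exact Or.inl (Or.inr ⟨rfl, h⟩)
      rcases eq_or_ne y 0 with rfl | hy0
      · rw [hz, add_zero] at h
        exact Or.inl (Or.inl ⟨h, rfl⟩)
      obtain ⟨-, -, hX, -⟩ := fermat_ratRootsOfUnity hn hx hy
        (mem_ratRootsOfUnity_of_pow one_pos (pow_one 1)) hx0 hy0 one_ne_zero (by rw [one_pow, h])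
      rw [div_one] at hX
      have h3 : (x ^ n) ^ 3 = -1 := by
        have h6 := hX.pow_eq_one
        have h3 : (x ^ n) ^ 3 ≠ 1 := hX.pow_ne_one_of_pos_of_lt (by norm_num) (by norm_num)
        rcases mul_eq_zero.mp (show ((x ^ n) ^ 3 - 1) * ((x ^ n) ^ 3 + 1) = 0 by
          linear_combination h6) with e | e
        · exact absurd (sub_eq_zero.mp e) h3
        · exact eq_neg_of_add_eq_zero_left e
      have h2 : (x ^ n) ^ 2 ≠ 1 := hX.pow_ne_one_of_pos_of_lt (by norm_num) (by norm_num)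
      have hq : (x ^ n) ^ 2 - x ^ n + 1 = 0 := by
        rcases mul_eq_zero.mp (show (x ^ n + 1) * ((x ^ n) ^ 2 - x ^ n + 1) = 0 by
          linear_combination h3) with e | e
        · exact absurd (by rw [eq_neg_of_add_eq_zero_left e]; norm_num) h2
        · exact e
      rcases mul_eq_zero.mp (show (x ^ n - ω) * (x ^ n - ω') = 0 by
        have hprod : ω * ω' = 1 := by rw [hωdef, hω'def]; linear_combination (-1 / 4 : ℂ) * hr
        linear_combination hq + hprod - x ^ n * hsum) with e | e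
      · exact Or.inr (Or.inl ⟨sub_eq_zero.mp e, by linear_combination h - e - hsum⟩)
      · exact Or.inr (Or.inr ⟨sub_eq_zero.mp e, by linear_combination h - e - hsum⟩)
    · rintro ((⟨hx, rfl⟩ | ⟨rfl, hy⟩) | (⟨hx, hy⟩ | ⟨hx, hy⟩))
      · exact ⟨mem_ratRootsOfUnity_of_pow hn0 hx, zero_mem_ratRootsOfUnity,
          by rw [hx, hz, add_zero]⟩
      · exact ⟨zero_mem_ratRootsOfUnity, mem_ratRootsOfUnity_of_pow hn0 hy,
          by rw [hy, hz, zero_add]⟩
      · exact ⟨hsix ω x hw hx, hsix ω' y hw' hy, by rw [hx, hy, hsum]⟩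
      · exact ⟨hsix ω' x hw' hx, hsix ω y hw hy, by rw [hx, hy, add_comm, hsum]⟩
  have hfin1 := (hR 1 one_ne_zero).1
  have hfinω := (hR ω h0).1
  have hfinω' := (hR ω' h0').1
  have hd1 : Disjoint (R 1 ×ˢ ({0} : Set ℂ)) (({0} : Set ℂ) ×ˢ R 1) := by
    rw [Set.disjoint_left]
    rintro ⟨x, y⟩ ⟨hx, -⟩ ⟨(rfl : x = 0), -⟩
    simp [R, zero_pow hn0.ne'] at hx
  have hd2 : Disjoint (R ω ×ˢ R ω') (R ω' ×ˢ R ω) := by
    rw [Set.disjoint_left]
    rintro ⟨x, y⟩ ⟨hx, -⟩ ⟨hx', -⟩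
    exact hne (hx.symm.trans hx')
  have hd3 : Disjoint (R 1 ×ˢ ({0} : Set ℂ) ∪ ({0} : Set ℂ) ×ˢ R 1)
      (R ω ×ˢ R ω' ∪ R ω' ×ˢ R ω) := by
    have hR0 : ∀ c : ℂ, c ≠ 0 → (0 : ℂ) ∉ R c := fun c hc hmem => by
      simp [R, zero_pow hn0.ne', Ne.symm hc] at hmem
    rw [Set.disjoint_left]
    rintro ⟨x, y⟩ (⟨-, (rfl : y = 0)⟩ | ⟨(rfl : x = 0), -⟩) (⟨hx, hy⟩ | ⟨hx, hy⟩)
    exacts [hR0 _ h0' hy, hR0 _ h0 hy, hR0 _ h0 hx, hR0 _ h0' hx]
  rw [hS, Set.ncard_union_eq hd3 ((hfin1.prod (Set.finite_singleton 0)).union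
      ((Set.finite_singleton 0).prod hfin1)) ((hfinω.prod hfinω').union (hfinω'.prod hfinω)),
    Set.ncard_union_eq hd1 (hfin1.prod (Set.finite_singleton 0))
      ((Set.finite_singleton 0).prod hfin1),
    Set.ncard_union_eq hd2 (hfinω.prod hfinω') (hfinω'.prod hfinω), Set.ncard_prod, Set.ncard_prod,
    Set.ncard_prod, Set.ncard_prod, Set.ncard_singleton, (hR 1 one_ne_zero).2, (hR ω h0).2,
    (hR ω' h0').2]
  ring

end FA.Summary

end
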