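import Fermat.Agent.Root.SummaryTwoPrimeFermat
import Fermat.Agent.Root.SummaryEquationsSeven
import Fermat.Agent.Root.SummaryFermatCurve
import Mathlib.NumberTheory.Zsqrtd.GaussianInt
import Mathlib.RingTheory.PrincipalIdealDomain
import Mathlib.RingTheory.Int.Basic

/-!
# The generalised Fermat equations `(2 n, 2 n, 3)` and `(2 n, 2 n, 5)`

`x ^ (2 n) + y ^ (2 n) = z ^ 3` has no coprime solution for `n ≥ 2`: the Gaussian cube root leads
to Serre's equation with `q = 3` for a prime `p ≥ 5`, to exponent `3`, and for even `n` to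
`W ^ 4 - 27 U ^ 4 = t ^ 2`, which is impossible by descent. For the exponent `5` the fifth root
leads to the signature `(p, p, 2)` with the primes `2`, `5` in the coefficients.
-/

set_option autoImplicit false

noncomputable section

namespace FA.Signatures

theorem int_pow {p : ℕ} (hp : Odd p) {a b c : ℤ} (hab : IsCoprime a b) (h : a * b = c ^ p) :
    ∃ w : ℤ, a = w ^ p := by
  obtain ⟨d, hd⟩ := exists_associated_pow_of_mul_eq_pow' hab h
  rcases Int.associated_iff.1 hd with e | e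
  · exact ⟨d, e.symm⟩
  · exact ⟨-d, by rw [hp.neg_pow, e, neg_neg]⟩

theorem int_fourth {a b c : ℤ} (ha : 0 < a) (hab : IsCoprime a b) (h : a * b = c ^ 4) :
    ∃ w : ℤ, a = w ^ 4 := by
  obtain ⟨d, hd⟩ := exists_associated_pow_of_mul_eq_pow' hab h
  refine ⟨d, ?_⟩
  rcases Int.associated_iff.1 hd with e | e
  · exact e.symm
  · nlinarith [sq_nonneg (d ^ 2)]

/-- Coprime squares sum to a power only with a Gaussian root, for odd exponents. -/
theorem gauss_root {k : ℕ} (hk : Odd k) (h2 : 2 ≤ k) {x y z : ℤ} (hxy : IsCoprime x y)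
    (h : x ^ 2 + y ^ 2 = z ^ k) : ∃ g : GaussianInt, (⟨x, y⟩ : GaussianInt) = g ^ k := by
  obtain ⟨l, hl⟩ : Odd (x ^ 2 + y ^ 2) := by
    by_contra hc
    rw [Int.not_odd_iff_even] at hc
    have hz : Even z := ((Int.even_pow (n := k)).1 (h ▸ hc)).1
    have h4 : (4 : ℤ) ∣ x ^ 2 + y ^ 2 := h ▸
      (show (4 : ℤ) ∣ 2 ^ k from pow_dvd_pow 2 h2).trans (pow_dvd_pow_of_dvd hz.two_dvd k)
    have hodd : ∀ u v : ZMod 4, u ^ 2 + v ^ 2 = 0 → u.val % 2 = 0 ∧ v.val % 2 = 0 := by decide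
    have h0 : (x : ZMod 4) ^ 2 + (y : ZMod 4) ^ 2 = 0 := by
      exact_mod_cast (ZMod.intCast_zmod_eq_zero_iff_dvd _ 4).2 h4
    obtain ⟨h1, h2'⟩ := hodd _ _ h0
    have e : ∀ u : ℤ, (u : ZMod 4).val % 2 = 0 → (2 : ℤ) ∣ u := fun u hu => by
      have hv : ((u : ZMod 4).val : ℤ) = u % 4 := ZMod.val_intCast u
      omega
    exact Int.prime_two.not_isUnit (hxy.isUnit_of_dvd' (e x h1) (e y h2'))
  obtain ⟨u, v, huv⟩ := hxy
  have hcop : IsCoprime (⟨x, y⟩ : GaussianInt) ⟨x, -y⟩ := by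
    refine ⟨⟨x, -y⟩ - (l : GaussianInt) * ⟨u, -v⟩, -((l : GaussianInt) * ⟨u, v⟩), ?_⟩
    refine Zsqrtd.ext ?_ ?_ <;> simp
    · linear_combination hl - 2 * l * huv
    · ring
  have hprod : (⟨x, y⟩ : GaussianInt) * ⟨x, -y⟩ = (z : GaussianInt) ^ k := by
    rw [← Int.cast_pow, ← h, show x ^ 2 + y ^ 2 = x * x + y * y by ring]
    refine Zsqrtd.ext ?_ ?_ <;> simp <;> ring
  obtain ⟨d, ⟨w, hw⟩⟩ := exists_associated_pow_of_mul_eq_pow' hcop hprod
  have hw4 : (w : GaussianInt) ^ 4 = 1 := by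
    have h1 := (Zsqrtd.norm_eq_one_iff' (by norm_num) (w : GaussianInt)).2 w.isUnit
    rw [Zsqrtd.norm_def] at h1
    generalize (w : GaussianInt) = t at h1
    obtain ⟨a, b⟩ := t
    simp only at h1
    have ha : -1 ≤ a ∧ a ≤ 1 := by
      constructor <;>
        nlinarith [mul_self_nonneg b, mul_self_nonneg (a - 1), mul_self_nonneg (a + 1)]
    have hb : -1 ≤ b ∧ b ≤ 1 := by
      constructor <;>
        nlinarith [mul_self_nonneg a, mul_self_nonneg (b - 1), mul_self_nonneg (b + 1)]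
    obtain ⟨ha1, ha2⟩ := ha; obtain ⟨hb1, hb2⟩ := hb
    interval_cases a <;> interval_cases b <;> first | decide | (exfalso; omega)
  have hwk : (w : GaussianInt) = ((w : GaussianInt) ^ k) ^ k := by
    rw [← pow_mul, pow_eq_pow_mod (k * k) hw4]
    obtain ⟨j, rfl⟩ := hk
    rw [show (2 * j + 1) * (2 * j + 1) % 4 = 1 by
      rw [show (2 * j + 1) * (2 * j + 1) = 4 * (j * j + j) + 1 by ring]; omega, pow_one]
  exact ⟨d * (w : GaussianInt) ^ k, by rw [mul_pow, ← hwk, hw]⟩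

theorem cube_root {x y z : ℤ} (hxy : IsCoprime x y) (h : x ^ 2 + y ^ 2 = z ^ 3) :
    ∃ a b : ℤ, IsCoprime a b ∧ x = a * (a ^ 2 - 3 * b ^ 2) ∧ y = b * (3 * a ^ 2 - b ^ 2) := by
  obtain ⟨⟨a, b⟩, hg⟩ := gauss_root (by decide) (by norm_num) hxy h
  have hr := congrArg Zsqrtd.re hg
  have hi := congrArg Zsqrtd.im hg
  simp only [pow_succ, pow_zero, one_mul, Zsqrtd.re_mul, Zsqrtd.im_mul] at hr hi
  have ex : x = a * (a ^ 2 - 3 * b ^ 2) := by linear_combination hr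
  have ey : y = b * (3 * a ^ 2 - b ^ 2) := by linear_combination hi
  exact ⟨a, b, hxy.of_isCoprime_of_dvd_left (ex ▸ dvd_mul_right a _)
    |>.of_isCoprime_of_dvd_right (ey ▸ dvd_mul_right b _), ex, ey⟩

theorem fifth_root {x y z : ℤ} (hxy : IsCoprime x y) (h : x ^ 2 + y ^ 2 = z ^ 5) :
    ∃ a b : ℤ, IsCoprime a b ∧ x = a * (a ^ 4 - 10 * a ^ 2 * b ^ 2 + 5 * b ^ 4) ∧
      y = b * (b ^ 4 - 10 * b ^ 2 * a ^ 2 + 5 * a ^ 4) := by
  obtain ⟨⟨a, b⟩, hg⟩ := gauss_root (by decide) (by norm_num) hxy h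
  have hr := congrArg Zsqrtd.re hg
  have hi := congrArg Zsqrtd.im hg
  simp only [pow_succ, pow_zero, one_mul, Zsqrtd.re_mul, Zsqrtd.im_mul] at hr hi
  have ex : x = a * (a ^ 4 - 10 * a ^ 2 * b ^ 2 + 5 * b ^ 4) := by linear_combination hr
  have ey : y = b * (b ^ 4 - 10 * b ^ 2 * a ^ 2 + 5 * a ^ 4) := by linear_combination hi
  exact ⟨a, b, hxy.of_isCoprime_of_dvd_left (ex ▸ dvd_mul_right a _)
    |>.of_isCoprime_of_dvd_right (ey ▸ dvd_mul_right b _), ex, ey⟩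

theorem three_dvd_of_sq_add_sq {a b : ℤ} (h : (3 : ℤ) ∣ a ^ 2 + b ^ 2) : (3 : ℤ) ∣ b := by
  have key : ∀ u v : ZMod 3, u ^ 2 + v ^ 2 = 0 → v = 0 := by decide
  exact (ZMod.intCast_zmod_eq_zero_iff_dvd _ 3).1 (key (a : ZMod 3) b
    (by exact_mod_cast (ZMod.intCast_zmod_eq_zero_iff_dvd _ 3).2 h))

theorem coprime_three {b : ℤ} (hb : ¬ (3 : ℤ) ∣ b) : IsCoprime b 3 :=
  ((Int.prime_three.coprime_iff_not_dvd).2 hb).symm

/-- `b` is prime to `3 a ² - b ²`. -/
theorem coprime_im {a b : ℤ} (hab : IsCoprime a b) (hb : ¬ (3 : ℤ) ∣ b) :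
    IsCoprime b (3 * a ^ 2 - b ^ 2) := by
  have := ((coprime_three hb).mul_right (hab.symm.pow_right (n := 2))).add_mul_left_right (-b)
  rwa [show 3 * a ^ 2 + b * -b = 3 * a ^ 2 - b ^ 2 by ring] at this

/-- The step for a prime exponent `p ≥ 5`. -/
theorem prime_step {p : ℕ} (hp : p.Prime) (h5 : 5 ≤ p) {a b x y : ℤ} (hab : IsCoprime a b)
    (hb3 : ¬ (3 : ℤ) ∣ b) (hx : x ≠ 0) (hy : y ≠ 0) (ex : x ^ p = a * (a ^ 2 - 3 * b ^ 2))
    (ey : y ^ p = b * (3 * a ^ 2 - b ^ 2)) : False := by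
  have hodd := hp.odd_of_ne_two (by omega)
  have hp0 : 0 < p := hp.pos
  obtain ⟨w, hw⟩ := int_pow hodd (coprime_im hab hb3) ey.symm
  have hw0 : w ≠ 0 := fun e => by
    rw [hw, e, zero_pow hp.ne_zero, zero_mul] at ey; exact pow_ne_zero p hy ey
  by_cases ha3 : (3 : ℤ) ∣ a
  · obtain ⟨c, rfl⟩ := ha3
    have hcb : IsCoprime c b := hab.of_mul_left_right
    have e : 9 * c * (3 * c ^ 2 - b ^ 2) = x ^ p := by linear_combination -ex
    have hcop : IsCoprime (9 * c) (3 * c ^ 2 - b ^ 2) := by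
      refine IsCoprime.mul_left ?_ ?_
      · rw [show (9 : ℤ) = 3 ^ 2 by norm_num]
        refine IsCoprime.pow_left ?_
        have := ((coprime_three hb3).symm.pow_right (n := 2)).neg_right.add_mul_left_right (c ^ 2)
        rwa [show -b ^ 2 + 3 * c ^ 2 = 3 * c ^ 2 - b ^ 2 by ring] at this
      · have := (hcb.pow_right (n := 2)).neg_right.add_mul_left_right (3 * c)
        rwa [show -b ^ 2 + c * (3 * c) = 3 * c ^ 2 - b ^ 2 by ring] at this
    obtain ⟨u, hu⟩ := int_pow hodd hcop e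
    obtain ⟨v, hv⟩ := int_pow hodd hcop.symm (c := x) (by linear_combination e)
    obtain ⟨u', rfl⟩ : (3 : ℤ) ∣ u :=
      Int.prime_three.dvd_of_dvd_pow (n := p) (hu ▸ (⟨3 * c, by ring⟩ : (3 : ℤ) ∣ 9 * c))
    have hc : c = 3 ^ (p - 2) * u' ^ p := by
      refine mul_left_cancel₀ (show (9 : ℤ) ≠ 0 by norm_num) ?_
      rw [hu, mul_pow, ← mul_assoc, show (9 : ℤ) = 3 ^ 2 by norm_num, ← pow_add,
        show 2 + (p - 2) = p by omega]
    have hu0 : u' ≠ 0 := fun e0 => by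
      rw [hu, e0, mul_zero, zero_pow hp.ne_zero, zero_mul] at e; exact pow_ne_zero p hx e.symm
    have hv0 : v ≠ 0 := fun e0 => by
      rw [hv, e0, zero_pow hp.ne_zero, mul_zero] at e; exact pow_ne_zero p hx e.symm
    have hwv : IsCoprime w v := by
      refine (IsCoprime.pow_iff hp0 hp0).1 ?_
      rw [← hw, ← hv]
      have := ((coprime_three hb3).mul_right (hcb.symm.pow_right (n := 2))).add_mul_left_right (-b)
      rwa [show 3 * c ^ 2 + b * -b = 3 * c ^ 2 - b ^ 2 by ring] at this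
    refine FA.Summary.serreEquation_five hp h5 dvd_rfl (Or.inl rfl) (α := 2 * (p - 2) + 1)
      (a := -w ^ 2) (b := -v) (c := u' ^ 2) (neg_ne_zero.2 (pow_ne_zero 2 hw0))
      (neg_ne_zero.2 hv0) (pow_ne_zero 2 hu0) hwv.pow_left.neg_neg ?_
    rw [hodd.neg_pow, hodd.neg_pow, ← hv, ← pow_mul, mul_comm 2 p, pow_mul, ← hw, ← pow_mul,
      mul_comm 2 p, pow_mul, hc]
    push_cast
    ring
  · have hcop : IsCoprime a (a ^ 2 - 3 * b ^ 2) := by
      have := ((coprime_three ha3).mul_right (hab.pow_right (n := 2))).neg_right.add_mul_left_right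
        a
      rwa [show -(3 * b ^ 2) + a * a = a ^ 2 - 3 * b ^ 2 by ring] at this
    obtain ⟨u, hu⟩ := int_pow hodd hcop ex.symm
    obtain ⟨v, hv⟩ := int_pow hodd hcop.symm (c := x) (by linear_combination -ex)
    have hu0 : u ≠ 0 := fun e0 => by
      rw [hu, e0, zero_pow hp.ne_zero, zero_mul] at ex; exact pow_ne_zero p hx ex
    have hv0 : v ≠ 0 := fun e0 => by
      rw [hv, e0, zero_pow hp.ne_zero, mul_zero] at ex; exact pow_ne_zero p hx ex
    have huv : IsCoprime u v := (IsCoprime.pow_iff hp0 hp0).1 (hu ▸ hv ▸ hcop)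
    refine FA.Summary.serreEquation_five hp h5 dvd_rfl (Or.inl rfl) (α := 1) (a := u ^ 2)
      (b := -v) (c := -w ^ 2) (pow_ne_zero 2 hu0) (neg_ne_zero.2 hv0)
      (neg_ne_zero.2 (pow_ne_zero 2 hw0)) huv.pow_left.neg_right ?_
    rw [hodd.neg_pow, hodd.neg_pow, ← hv, ← pow_mul, mul_comm 2 p, pow_mul, ← hu, ← pow_mul,
      mul_comm 2 p, pow_mul, ← hw]
    push_cast
    ring

theorem three_prime {p : ℕ} (hp : p.Prime) (h5 : 5 ≤ p) {x y : ℤ} (hx : x ≠ 0) (hy : y ≠ 0)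
    (hxy : IsCoprime x y) (z : ℤ) : x ^ (2 * p) + y ^ (2 * p) ≠ z ^ 3 := fun h => by
  rw [mul_comm 2 p, pow_mul, pow_mul] at h
  obtain ⟨a, b, hab, ex, ey⟩ := cube_root hxy.pow h
  by_cases hb : (3 : ℤ) ∣ b
  · have hodd := hp.odd_of_ne_two (by omega)
    have ha : ¬ (3 : ℤ) ∣ a := fun h' => Int.prime_three.not_isUnit (hab.isUnit_of_dvd' h' hb)
    refine prime_step hp h5 hab.symm ha (neg_ne_zero.2 hy) (neg_ne_zero.2 hx) ?_ ?_ <;>
      rw [hodd.neg_pow]
    · rw [ey]; ring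
    · rw [ex]; ring
  · exact prime_step hp h5 hab hb hx hy ex ey

/-- Coprime positive factors of `27 k ⁴`. -/
theorem split_twentySeven {A B k : ℤ} (hA : 0 < A) (hB : 0 < B) (hAB : IsCoprime A B)
    (h : A * B = 27 * k ^ 4) : (∃ r s, A = 27 * r ^ 4 ∧ B = s ^ 4) ∨
      ∃ r s, A = r ^ 4 ∧ B = 27 * s ^ 4 := by
  have h27 : ∀ {u : ℤ}, ¬ (3 : ℤ) ∣ u → IsCoprime (27 : ℤ) u := fun hu => by
    rw [show (27 : ℤ) = 3 ^ 3 by norm_num]
    exact (coprime_three hu).symm.pow_left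
  by_cases h3 : (3 : ℤ) ∣ B
  · have hA3 : ¬ (3 : ℤ) ∣ A := fun h' => Int.prime_three.not_isUnit (hAB.isUnit_of_dvd' h' h3)
    obtain ⟨C, rfl⟩ : (27 : ℤ) ∣ B := (h27 hA3).dvd_of_dvd_mul_left ⟨k ^ 4, h⟩
    have e : A * C = k ^ 4 := mul_left_cancel₀ (show (27 : ℤ) ≠ 0 by norm_num)
      (by linear_combination h)
    obtain ⟨r, hr⟩ := int_fourth hA hAB.of_mul_right_right e
    obtain ⟨s, hs⟩ := int_fourth (show 0 < C by linarith) hAB.of_mul_right_right.symm
      (c := k) (by linear_combination e)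
    exact Or.inr ⟨r, s, hr, by rw [hs]⟩
  · obtain ⟨C, rfl⟩ : (27 : ℤ) ∣ A :=
      (h27 h3).dvd_of_dvd_mul_right ⟨k ^ 4, h⟩
    have e : C * B = k ^ 4 := mul_left_cancel₀ (show (27 : ℤ) ≠ 0 by norm_num)
      (by linear_combination h)
    obtain ⟨r, hr⟩ := int_fourth (show 0 < C by linarith) hAB.of_mul_left_right e
    obtain ⟨s, hs⟩ := int_fourth hB hAB.of_mul_left_right.symm (c := k) (by linear_combination e)
    exact Or.inl ⟨r, s, by rw [hr], hs⟩

theorem natAbs_le_of_mul_pow_four {r s k : ℤ} (h : (r * s) ^ 4 = k ^ 4) (hk : k ≠ 0) :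
    r.natAbs ≤ k.natAbs := by
  have e := congrArg Int.natAbs h
  rw [Int.natAbs_pow, Int.natAbs_pow, Int.natAbs_mul] at e
  exact Nat.le_of_dvd (Int.natAbs_pos.2 hk) ⟨s.natAbs,
    (Nat.pow_left_injective (by norm_num) e).symm⟩

/-- **Descent**: `W ⁴ - 27 U ⁴` is no square. -/
theorem not_quartic : ∀ N : ℕ, ∀ W U t : ℤ, U.natAbs = N → IsCoprime W U → U ≠ 0 →
    W ^ 4 ≠ 27 * U ^ 4 + t ^ 2 := by
  intro N
  induction N using Nat.strongRecOn with
  | _ N ih =>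
  intro W U t hN hWU hU h
  have hUe : Even U := by
    rcases Int.even_or_odd U with he | ⟨j, rfl⟩
    · exact he
    · have key : ∀ w i s : ZMod 8, w ^ 4 ≠ 27 * (2 * i + 1) ^ 4 + s ^ 2 := by decide
      exact absurd (by exact_mod_cast congrArg (Int.cast : ℤ → ZMod 8) h) (key W j t)
  obtain ⟨k, rfl⟩ := hUe.two_dvd
  have hWk : IsCoprime W k := hWU.of_mul_right_right
  have hk : k ≠ 0 := right_ne_zero_of_mul hU
  have hW2 : ¬ (2 : ℤ) ∣ W := fun h' =>
    Int.prime_two.not_isUnit (hWU.isUnit_of_dvd' h' (dvd_mul_right 2 k))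
  have hW3 : ¬ (3 : ℤ) ∣ W := fun ⟨j, hj⟩ => by
    subst hj
    obtain ⟨s, rfl⟩ : (3 : ℤ) ∣ t := Int.prime_three.dvd_of_dvd_pow (n := 2)
      ⟨27 * j ^ 4 - 144 * k ^ 4, by linear_combination -h⟩
    obtain ⟨s', rfl⟩ : (3 : ℤ) ∣ s := Int.prime_three.dvd_of_dvd_pow (n := 2)
      ⟨3 * j ^ 4 - 16 * k ^ 4, mul_left_cancel₀ (show (9 : ℤ) ≠ 0 by norm_num)
        (by linear_combination -h)⟩
    have h3k : (3 : ℤ) ∣ k := Int.prime_three.dvd_of_dvd_pow (n := 4)
      (((Int.prime_three.coprime_iff_not_dvd).2 (show ¬ (3 : ℤ) ∣ 16 by norm_num))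
        |>.dvd_of_dvd_mul_left
        ⟨j ^ 4 - s' ^ 2, mul_left_cancel₀ (show (27 : ℤ) ≠ 0 by norm_num)
          (by linear_combination -h)⟩)
    exact Int.prime_three.not_isUnit (hWk.isUnit_of_dvd' (dvd_mul_right 3 j) h3k)
  have hWodd : Odd W := by rwa [← Int.not_even_iff_odd, even_iff_two_dvd]
  have htodd : Odd t := by
    have : Odd (t ^ 2) := by
      rw [show t ^ 2 = W ^ 4 - 2 * (216 * k ^ 4) by linear_combination -h]
      exact hWodd.pow.sub_even (even_two_mul _)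
    exact (Int.odd_pow.1 this).resolve_right (by norm_num)
  obtain ⟨A, hA⟩ := (hWodd.pow (n := 2)).sub_odd htodd
  obtain ⟨B, hB⟩ := (hWodd.pow (n := 2)).add_odd htodd
  have hprod : A * B = 108 * k ^ 4 := by
    refine mul_left_cancel₀ (show (4 : ℤ) ≠ 0 by norm_num) ?_
    linear_combination (W ^ 2 + t) * (-1) * hA - 2 * A * hB + h
  have hsum : A + B = W ^ 2 := by linarith
  have hc108 : IsCoprime W (108 * k ^ 4) := by
    refine IsCoprime.mul_right ?_ hWk.pow_right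
    rw [show (108 : ℤ) = 2 ^ 2 * 3 ^ 3 by norm_num]
    exact IsCoprime.mul_right ((Int.prime_two.coprime_iff_not_dvd).2 hW2).symm.pow_right
      (coprime_three hW3).pow_right
  have hAB : IsCoprime A B := by
    have h1 : IsCoprime (W ^ 2) A := (hc108.pow_left).of_isCoprime_of_dvd_right ⟨B, hprod.symm⟩
    have := h1.symm.add_mul_left_right (-1)
    rwa [show W ^ 2 + A * -1 = B by linarith] at this
  have hk4 : 0 < k ^ 4 := by positivity
  have hpos : 0 < A ∧ 0 < B := by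
    have h1 : 0 < A * B := by rw [hprod]; positivity
    rcases mul_pos_iff.1 h1 with hh | hh
    · exact hh
    · nlinarith [sq_nonneg W]
  have hodd : Odd (A + B) := hsum ▸ hWodd.pow
  wlog hAe : Even A generalizing A B t
  · refine this (-t) (by rwa [neg_sq]) htodd.neg B (by linarith) A (by linarith)
      (by linarith) (by linarith) hAB.symm ⟨hpos.2, hpos.1⟩ (by rwa [add_comm]) ?_
    rw [Int.odd_add] at hodd
    exact hodd.1 (Int.not_even_iff_odd.1 hAe)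
  have hB2 : ¬ (2 : ℤ) ∣ B := fun h' =>
    Int.prime_two.not_isUnit (hAB.isUnit_of_dvd' hAe.two_dvd h')
  obtain ⟨A', rfl⟩ : (4 : ℤ) ∣ A := by
    have h4 : (4 : ℤ) ∣ A * B := ⟨27 * k ^ 4, by linear_combination hprod⟩
    refine IsCoprime.dvd_of_dvd_mul_right ?_ h4
    rw [show (4 : ℤ) = 2 ^ 2 by norm_num]
    exact ((Int.prime_two.coprime_iff_not_dvd).2 hB2).pow_left
  have hAB' : IsCoprime A' B := hAB.of_mul_left_right
  have hprod' : A' * B = 27 * k ^ 4 := by linarith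
  rcases split_twentySeven (by linarith) hpos.2 hAB' hprod' with ⟨P, Q, rfl, rfl⟩ | ⟨P, Q, rfl, rfl⟩
  swap
  · have hQ : Odd Q := by
      rw [← Int.not_even_iff_odd, even_iff_two_dvd]
      exact fun h' => hB2 ((dvd_pow h' four_ne_zero).mul_left 27)
    obtain ⟨j, rfl⟩ := hQ
    obtain ⟨i, rfl⟩ := hWodd
    have key : ∀ a b : ZMod 4, 27 * (2 * a + 1) ^ 4 ≠ (2 * b + 1) ^ 2 := by decide
    refine key j i ?_
    have := congrArg (Int.cast : ℤ → ZMod 4) hsum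
    push_cast at this
    rw [← this, show (4 : ZMod 4) = 0 by decide, zero_mul, zero_add]
  have hPQ : (P * Q) ^ 4 = k ^ 4 := by linarith [mul_pow P Q 4]
  have hQodd : Odd Q := by
    rw [← Int.not_even_iff_odd, even_iff_two_dvd]
    exact fun h' => hB2 (dvd_pow h' four_ne_zero)
  have hP0 : P ≠ 0 := fun e => by
    rw [e] at hprod'; simp [hk] at hprod'
  -- the second splitting, of `W ^ 2 - Q ^ 4`
  obtain ⟨V, hV, hVW⟩ : ∃ V : ℤ, 0 ≤ V ∧ V ^ 2 = W ^ 2 := ⟨|W|, abs_nonneg W, sq_abs W⟩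
  have hVodd : Odd V := by
    have : Odd (V ^ 2) := hVW ▸ hWodd.pow
    exact (Int.odd_pow.1 this).resolve_right (by norm_num)
  obtain ⟨C, hC⟩ := hVodd.sub_odd (hQodd.pow (n := 2))
  obtain ⟨D, hD⟩ := hVodd.add_odd (hQodd.pow (n := 2))
  have hCD : C * D = 27 * P ^ 4 := by
    refine mul_left_cancel₀ (show (4 : ℤ) ≠ 0 by norm_num) ?_
    linear_combination (V + Q ^ 2) * (-1) * hC - 2 * C * hD + hVW - hsum
  have hQ3 : IsCoprime Q (27 * P ^ 4) := by
    have := hAB'.symm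
    exact (IsCoprime.pow_left_iff (m := 4) (by norm_num)).1 this
  have hCDc : IsCoprime C D := by
    have h1 : IsCoprime C (Q ^ 2) :=
      (hQ3.symm.of_isCoprime_of_dvd_left ⟨D, hCD.symm⟩).pow_right
    have := h1.add_mul_left_right 1
    rwa [show Q ^ 2 + C * 1 = D by linarith] at this
  have hP4 : 0 < P ^ 4 := by positivity
  have hpos' : 0 < C ∧ 0 < D := by
    have h1 : 0 < C * D := by rw [hCD]; positivity
    rcases mul_pos_iff.1 h1 with hh | hh
    · exact hh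
    · nlinarith [sq_nonneg Q]
  rcases split_twentySeven hpos'.1 hpos'.2 hCDc hCD with ⟨r, s, rfl, rfl⟩ | ⟨r, s, rfl, rfl⟩
  · have hrs : (r * s) ^ 4 = P ^ 4 := by linarith [mul_pow r s 4]
    have hr0 : r ≠ 0 := fun e => by rw [e] at hpos'; simp at hpos'
    have hcop : IsCoprime s r :=
      ((IsCoprime.pow_iff (m := 4) (n := 4) (by norm_num) (by norm_num)).1
        hCDc.of_mul_left_right).symm
    refine ih r.natAbs ?_ s r Q rfl hcop hr0 (by linarith)
    have h1 := natAbs_le_of_mul_pow_four hrs hP0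
    have h2 := natAbs_le_of_mul_pow_four hPQ hk
    have h3 : 0 < k.natAbs := Int.natAbs_pos.2 hk
    rw [Int.natAbs_mul, show (2 : ℤ).natAbs = 2 from rfl] at hN
    omega
  · have h3 : (3 : ℤ) ∣ (r ^ 2) ^ 2 + Q ^ 2 := ⟨9 * s ^ 4, by linarith [pow_mul r 2 2]⟩
    have h3Q := three_dvd_of_sq_add_sq h3
    exact Int.prime_three.not_isUnit (hQ3.isUnit_of_dvd' h3Q ⟨9 * P ^ 4, by ring⟩)

theorem quartic_step {a b x y : ℤ} (hab : IsCoprime a b) (hb3 : ¬ (3 : ℤ) ∣ b) (hx : x ≠ 0)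
    (hy : y ≠ 0) (ex : x ^ 2 = a * (a ^ 2 - 3 * b ^ 2)) (ey : y ^ 2 = b * (3 * a ^ 2 - b ^ 2)) :
    False := by
  have hcy := coprime_im hab hb3
  obtain ⟨w, hw⟩ := Int.sq_of_isCoprime hcy ey.symm
  obtain ⟨t, ht⟩ := Int.sq_of_isCoprime hcy.symm (c := y) (by linear_combination -ey)
  have hb0 : b ≠ 0 := fun e => by rw [e, zero_mul] at ey; exact pow_ne_zero 2 hy ey
  have hy2 : 0 < y ^ 2 := by positivity
  have ht' : b ^ 2 - 3 * a ^ 2 = t ^ 2 := by
    rcases ht with e | e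
    · exact absurd (three_dvd_of_sq_add_sq (a := t) (b := b) ⟨a ^ 2, by linarith⟩) hb3
    · linarith
  have ht0 : t ≠ 0 := fun e => by
    rw [show 3 * a ^ 2 - b ^ 2 = 0 by rw [e] at ht'; linarith, mul_zero] at ey
    exact pow_ne_zero 2 hy ey
  have hbneg : b < 0 := by
    rw [show 3 * a ^ 2 - b ^ 2 = -t ^ 2 by linarith] at ey
    have : 0 < t ^ 2 := by positivity
    nlinarith
  have hbw : b = -w ^ 2 := hw.resolve_left fun e => by linarith [sq_nonneg w]
  by_cases ha3 : (3 : ℤ) ∣ a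
  · obtain ⟨c, rfl⟩ := ha3
    obtain ⟨x', rfl⟩ : (3 : ℤ) ∣ x := Int.prime_three.dvd_of_dvd_pow (n := 2)
      ⟨c * ((3 * c) ^ 2 - 3 * b ^ 2), by linear_combination ex⟩
    have e : c * (3 * c ^ 2 - b ^ 2) = x' ^ 2 :=
      mul_left_cancel₀ (show (9 : ℤ) ≠ 0 by norm_num) (by linear_combination -ex)
    have hcb : IsCoprime c b := hab.of_mul_left_right
    have hcc : IsCoprime c (3 * c ^ 2 - b ^ 2) := by
      have := (hcb.pow_right (n := 2)).neg_right.add_mul_left_right (3 * c)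
      rwa [show -b ^ 2 + c * (3 * c) = 3 * c ^ 2 - b ^ 2 by ring] at this
    obtain ⟨u, hu⟩ := Int.sq_of_isCoprime hcc e
    have hc2 : c ^ 2 = u ^ 4 := by rcases hu with rfl | rfl <;> ring
    have hu0 : u ≠ 0 := by
      rintro rfl
      have hc0 : c = 0 := pow_eq_zero_iff (two_ne_zero) |>.1 (by rw [hc2]; norm_num)
      rw [hc0, zero_mul] at e
      exact right_ne_zero_of_mul hx (pow_eq_zero_iff two_ne_zero |>.1 e.symm)
    have hwu : IsCoprime w u := by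
      refine (IsCoprime.pow_iff (m := 4) (n := 4) (by norm_num) (by norm_num)).1 ?_
      rw [← hc2, show w ^ 4 = b ^ 2 by rw [hbw]; ring]
      exact hcb.symm.pow
    refine not_quartic u.natAbs w u t rfl hwu hu0 ?_
    rw [show w ^ 4 = b ^ 2 by rw [hbw]; ring, ← hc2]
    linarith
  · have hcx : IsCoprime a (a ^ 2 - 3 * b ^ 2) := by
      have := ((coprime_three ha3).mul_right (hab.pow_right (n := 2))).neg_right.add_mul_left_right
        a
      rwa [show -(3 * b ^ 2) + a * a = a ^ 2 - 3 * b ^ 2 by ring] at this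
    obtain ⟨v, hv⟩ := Int.sq_of_isCoprime hcx.symm (c := x) (by linear_combination -ex)
    rcases hv with e | e
    · nlinarith [sq_nonneg v, sq_nonneg t, sq_pos_of_ne_zero hb0]
    · exact ha3 (three_dvd_of_sq_add_sq (a := v) (b := a) ⟨b ^ 2, by linarith⟩)

theorem four_three {x y : ℤ} (hx : x ≠ 0) (hy : y ≠ 0) (hxy : IsCoprime x y) (z : ℤ) :
    x ^ 4 + y ^ 4 ≠ z ^ 3 := fun h => by
  obtain ⟨a, b, hab, ex, ey⟩ :=
    cube_root (hxy.pow (m := 2) (n := 2)) (z := z) (by rw [← h]; ring)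
  by_cases hb : (3 : ℤ) ∣ b
  · have ha : ¬ (3 : ℤ) ∣ a := fun h' => Int.prime_three.not_isUnit (hab.isUnit_of_dvd' h' hb)
    -- `y ^ 2`, `x ^ 2` take the places of `x ^ 2`, `y ^ 2` with `(-b, -a)`
    refine quartic_step (a := -b) (b := -a) hab.symm.neg_neg (by rwa [dvd_neg]) hy hx ?_ ?_
    · rw [ey]; ring
    · rw [ex]; ring
  · exact quartic_step hab hb hx hy ex ey

/-- The step for `(2 p, 2 p, 5)`, with the even variable first. -/
theorem five_step {p : ℕ} (hp : p.Prime) (h7 : 7 ≤ p) {a b x y : ℤ} (hab : IsCoprime a b)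
    (hae : Even a) (hb5 : ¬ (5 : ℤ) ∣ b) (hx : x ≠ 0) (hy : y ≠ 0)
    (ex : x ^ p = a * (a ^ 4 - 10 * a ^ 2 * b ^ 2 + 5 * b ^ 4))
    (ey : y ^ p = b * (b ^ 4 - 10 * b ^ 2 * a ^ 2 + 5 * a ^ 4)) : False := by
  have hodd := hp.odd_of_ne_two (by omega)
  have h5 : Prime (5 : ℤ) := Int.prime_iff_natAbs_prime.2 (by norm_num)
  have hb2 : ¬ (2 : ℤ) ∣ b := fun h =>
    Int.prime_two.not_isUnit (hab.isUnit_of_dvd' hae.two_dvd h)
  have hc5 : IsCoprime b 5 := ((h5.coprime_iff_not_dvd).2 hb5).symm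
  have hcy : IsCoprime b (b ^ 4 - 10 * b ^ 2 * a ^ 2 + 5 * a ^ 4) := by
    have := (hc5.mul_right (hab.symm.pow_right (n := 4))).add_mul_left_right
      (b ^ 3 - 10 * b * a ^ 2)
    rwa [show 5 * a ^ 4 + b * (b ^ 3 - 10 * b * a ^ 2) =
      b ^ 4 - 10 * b ^ 2 * a ^ 2 + 5 * a ^ 4 by ring] at this
  obtain ⟨t, ht⟩ := int_pow hodd hcy.symm (c := y) (by linear_combination -ey)
  have ha0 : a ≠ 0 := fun e => by rw [e, zero_mul] at ex; exact pow_ne_zero p hx ex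
  have ht0 : t ≠ 0 := fun e => by
    rw [ht, e, zero_pow hp.ne_zero, mul_zero] at ey; exact pow_ne_zero p hy ey
  obtain ⟨j, u, hju⟩ : ∃ (j : ℕ) (u : ℤ), a = 5 ^ j * u ^ p := by
    by_cases ha5 : (5 : ℤ) ∣ a
    · obtain ⟨c, rfl⟩ := ha5
      have e : 25 * c * (125 * c ^ 4 - 50 * c ^ 2 * b ^ 2 + b ^ 4) = x ^ p := by
        linear_combination -ex
      have hcop : IsCoprime (25 * c) (125 * c ^ 4 - 50 * c ^ 2 * b ^ 2 + b ^ 4) := by
        refine IsCoprime.mul_left ?_ ?_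
        · have := ((hc5.symm.pow (m := 2) (n := 4))).add_mul_left_right
            (5 * c ^ 4 - 2 * c ^ 2 * b ^ 2)
          rwa [show b ^ 4 + 5 ^ 2 * (5 * c ^ 4 - 2 * c ^ 2 * b ^ 2) =
            125 * c ^ 4 - 50 * c ^ 2 * b ^ 2 + b ^ 4 by ring, show (5 : ℤ) ^ 2 = 25 by norm_num]
            at this
        · have := (hab.of_mul_left_right.pow_right (n := 4)).add_mul_left_right
            (125 * c ^ 3 - 50 * c * b ^ 2)
          rwa [show b ^ 4 + c * (125 * c ^ 3 - 50 * c * b ^ 2) =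
            125 * c ^ 4 - 50 * c ^ 2 * b ^ 2 + b ^ 4 by ring] at this
      obtain ⟨u, hu⟩ := int_pow hodd hcop e
      obtain ⟨u', rfl⟩ : (5 : ℤ) ∣ u :=
        h5.dvd_of_dvd_pow (n := p) (hu ▸ (⟨5 * c, by ring⟩ : (5 : ℤ) ∣ 25 * c))
      refine ⟨p - 1, u', mul_left_cancel₀ (show (5 : ℤ) ≠ 0 by norm_num) ?_⟩
      rw [← mul_assoc, show (5 : ℤ) * 5 = 25 by norm_num, hu, mul_pow, ← mul_assoc, ← pow_succ',
        show p - 1 + 1 = p by omega]
    · have hca : IsCoprime a (a ^ 4 - 10 * a ^ 2 * b ^ 2 + 5 * b ^ 4) := by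
        have := (((h5.coprime_iff_not_dvd).2 ha5).symm.mul_right
          (hab.pow_right (n := 4))).add_mul_left_right (a ^ 3 - 10 * a * b ^ 2)
        rwa [show 5 * b ^ 4 + a * (a ^ 3 - 10 * a * b ^ 2) =
          a ^ 4 - 10 * a ^ 2 * b ^ 2 + 5 * b ^ 4 by ring] at this
      obtain ⟨u, hu⟩ := int_pow hodd hca ex.symm
      exact ⟨0, u, by rw [hu, pow_zero, one_mul]⟩
  have hu0 : u ≠ 0 := fun e => by
    rw [e, zero_pow hp.ne_zero, mul_zero] at hju; exact ha0 hju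
  have hue : Even u := by
    rw [hju, Int.even_mul, Int.even_pow, Int.even_pow] at hae
    exact (hae.resolve_left fun h => absurd h.1 (by decide)).1
  have hBz : 20 * (5 : ℤ) ^ (4 * j) * (u ^ 4) ^ p = 20 * a ^ 4 := by rw [hju]; ring
  refine FA.Summary.squareEquation_seven hp h7 dvd_rfl (Or.inr rfl) (A := 1)
    (B := 20 * 5 ^ (4 * j)) (y := t) (z := u ^ 4) (x := b ^ 2 - 5 * a ^ 2) one_ne_zero
    (by positivity) ht0 (pow_ne_zero 4 hu0) (fun q hq h => ?_) (fun q hq h => ?_) ?_ ?_ ?_ ?_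
  · exact absurd (Int.natCast_dvd_natCast.1 (by exact_mod_cast h : (q : ℤ) ∣ ((1 : ℕ) : ℤ)))
      hq.not_dvd_one
  · have h' : q ∣ 2 ^ 2 * 5 * 5 ^ (4 * j) := by exact_mod_cast h
    rcases (Nat.Prime.dvd_mul hq).1 h' with h1 | h1
    · rcases (Nat.Prime.dvd_mul hq).1 h1 with h2 | h2
      · exact (hq.dvd_of_dvd_pow h2).trans (by norm_num)
      · exact h2.trans (by norm_num)
    · exact (hq.dvd_of_dvd_pow h1).trans (by norm_num)
  · rw [← Int.not_even_iff_odd, Int.even_sub, Int.even_pow, Int.even_mul, Int.even_pow]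
    simp [hae, even_iff_two_dvd, hb2]
  · rw [hBz]
    have h20 : IsCoprime (b ^ 2 - 5 * a ^ 2) 5 := by
      have := (hc5.pow_left (m := 2)).add_mul_right_left (-a ^ 2)
      rwa [show b ^ 2 + -a ^ 2 * 5 = b ^ 2 - 5 * a ^ 2 by ring] at this
    have h2' : IsCoprime (b ^ 2 - 5 * a ^ 2) a := by
      have := (hab.symm.pow_left (m := 2)).add_mul_right_left (-5 * a)
      rwa [show b ^ 2 + -5 * a * a = b ^ 2 - 5 * a ^ 2 by ring] at this
    rw [show 20 * a ^ 4 = 2 ^ 2 * 5 * a ^ 4 by norm_num]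
    exact ((IsCoprime.of_isCoprime_of_dvd_right h2' hae.two_dvd).pow_right.mul_right h20).mul_right
      h2'.pow_right
  · exact ((show (64 : ℤ) ∣ 2 ^ (4 * p) from pow_dvd_pow 2 (show 6 ≤ 4 * p by omega)).trans
      (pow_mul u 4 p ▸ pow_dvd_pow_of_dvd hue.two_dvd (4 * p))).mul_left _
  · rw [hBz, one_mul, ← ht]; ring

end FA.Signatures

namespace FA.Summary

/-- **Signature `(2 n, 2 n, 3)`**: `x ^ (2 n) + y ^ (2 n) ≠ z ^ 3` for `n ≥ 2` and coprime nonzero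
`x`, `y`. -/
theorem pow_two_mul_add_ne_cube {n : ℕ} (hn : 2 ≤ n) {x y : ℤ} (hx : x ≠ 0) (hy : y ≠ 0)
    (hxy : IsCoprime x y) (z : ℤ) : x ^ (2 * n) + y ^ (2 * n) ≠ z ^ 3 := by
  rcases Nat.even_or_odd n with ⟨m, rfl⟩ | hodd
  · rw [show 2 * (m + m) = m * 4 by ring, pow_mul, pow_mul]
    exact FA.Signatures.four_three (pow_ne_zero m hx) (pow_ne_zero m hy) hxy.pow z
  · obtain ⟨p, hp, m, rfl⟩ : ∃ p, p.Prime ∧ p ∣ n :=
      ⟨n.minFac, Nat.minFac_prime (by omega), n.minFac_dvd⟩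
    have hp2 : p ≠ 2 := fun e => by
      rw [e, Nat.odd_mul] at hodd; exact absurd hodd.1 (by decide)
    rw [show 2 * (p * m) = m * (2 * p) by ring, pow_mul x m (2 * p), pow_mul y m (2 * p)]
    rcases show p = 3 ∨ 5 ≤ p by
      have := hp.two_le
      rcases show p = 3 ∨ p = 4 ∨ 5 ≤ p by omega with e | e | e
      · exact Or.inl e
      · exact absurd (e ▸ hp) (by norm_num)
      · exact Or.inr e with rfl | h5
    · intro h
      simp only [pow_mul] at h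
      have h' := fermatLastTheoremFor_iff_int.1 fermatLastTheoremThree
        ((x ^ m) ^ 2) ((y ^ m) ^ 2) z (pow_ne_zero 2 (pow_ne_zero m hx))
        (pow_ne_zero 2 (pow_ne_zero m hy))
      refine h' (fun hz => ?_) h
      have : 0 < ((x ^ m) ^ 2) ^ 3 + ((y ^ m) ^ 2) ^ 3 := by positivity
      rw [hz] at h; omega
    · exact FA.Signatures.three_prime hp h5 (pow_ne_zero m hx) (pow_ne_zero m hy) hxy.pow z

/-- **Signature `(2 n, 2 n, 5)`** for `n` with a prime factor `p ≥ 7`, when `5` does not divide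
the odd one of `x`, `y`. -/
theorem pow_two_mul_add_ne_fifth {n p : ℕ} (hp : p.Prime) (h7 : 7 ≤ p) (hpn : p ∣ n) (hn : n ≠ 0)
    {x y : ℤ} (hx : x ≠ 0) (hy : y ≠ 0) (hxy : IsCoprime x y) (hx5 : (5 : ℤ) ∣ x → Even x)
    (hy5 : (5 : ℤ) ∣ y → Even y) (z : ℤ) : x ^ (2 * n) + y ^ (2 * n) ≠ z ^ 5 := fun h => by
  obtain ⟨m, rfl⟩ := hpn
  have hm : m ≠ 0 := right_ne_zero_of_mul hn
  rw [show 2 * (p * m) = m * p * 2 by ring, pow_mul x (m * p) 2, pow_mul y (m * p) 2] at h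
  obtain ⟨a, b, hab, ex, ey⟩ := FA.Signatures.fifth_root (hxy.pow (m := m * p) (n := m * p)) h
  rw [pow_mul] at ex ey
  have h5 : Prime (5 : ℤ) := Int.prime_iff_natAbs_prime.2 (by norm_num)
  have hdvd : ∀ {u c d : ℤ}, (u ^ m) ^ p = c * d → (5 : ℤ) ∣ c → (5 : ℤ) ∣ u :=
    fun {u c d} e hc => h5.dvd_of_dvd_pow (h5.dvd_of_dvd_pow (e ▸ hc.mul_right d))
  rcases Int.even_or_odd a with hae | hao
  · refine FA.Signatures.five_step hp h7 hab hae (fun hb => ?_) (pow_ne_zero m hx)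
      (pow_ne_zero m hy) ex ey
    have h2x : Even x := by
      have : Even ((x ^ m) ^ p) := ex ▸ hae.mul_right _
      exact (Int.even_pow.1 (Int.even_pow.1 this).1).1
    exact Int.prime_two.not_isUnit
      (hxy.isUnit_of_dvd' h2x.two_dvd (hy5 (hdvd ey hb)).two_dvd)
  · have hbe : Even b := by
      by_contra hb
      rw [Int.not_even_iff_odd] at hb
      have e1 : Even ((x ^ m) ^ p) := by
        rw [ex]; refine Even.mul_left ?_ a
        simp [parity_simps, Int.not_even_iff_odd.2 hao, Int.not_even_iff_odd.2 hb,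
          show ¬ Odd (10 : ℤ) by decide, show ¬ Even (5 : ℤ) by decide]
      have e2 : Even ((y ^ m) ^ p) := by
        rw [ey]; refine Even.mul_left ?_ b
        simp [parity_simps, Int.not_even_iff_odd.2 hao, Int.not_even_iff_odd.2 hb,
          show ¬ Odd (10 : ℤ) by decide, show ¬ Even (5 : ℤ) by decide]
      exact Int.prime_two.not_isUnit (hxy.isUnit_of_dvd'
        (Int.even_pow.1 (Int.even_pow.1 e1).1).1.two_dvd
        (Int.even_pow.1 (Int.even_pow.1 e2).1).1.two_dvd)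
    refine FA.Signatures.five_step hp h7 hab.symm hbe (fun ha => ?_) (pow_ne_zero m hy)
      (pow_ne_zero m hx) ey ex
    have h2y : Even y := by
      have : Even ((y ^ m) ^ p) := ey ▸ hbe.mul_right _
      exact (Int.even_pow.1 (Int.even_pow.1 this).1).1
    exact Int.prime_two.not_isUnit
      (hxy.isUnit_of_dvd' (hx5 (hdvd ex ha)).two_dvd h2y.two_dvd)

end FA.Summary

end
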