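import Fermat.Agent.Root.SummaryRibetAll
import Fermat.Agent.Root.SummaryEquationsSeven
import Fermat.Agent.Root.SummaryCubeEquationFive
import Fermat.Agent.Root.SummaryRightTriangles
import Fermat.Agent.Root.SummaryFermatCubicQuadratic

/-!
# The signatures `(3, 3, n)`, `(6, 2, n)` and `(n, 2 n, 2)`

Factoring a coprime solution leads to the Frey curves of the signatures `(p, p, 2)` and
`(p, p, 3)` or to Ribet's equation. The exceptions `2 ³ + 1 ⁶ = 3 ²` and `(-1) ⁿ + 1 = 0` are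
outside the hypotheses.
-/

set_option autoImplicit false

noncomputable section

namespace FA.SignaturesTwo

theorem pow_factor {p : ℕ} (hp : Odd p) {a b c : ℤ} (hab : IsCoprime a b) (h : a * b = c ^ p) :
    ∃ w : ℤ, a = w ^ p := by
  obtain ⟨d, hd⟩ := exists_associated_pow_of_mul_eq_pow' hab h
  rcases Int.associated_iff.1 hd with e | e
  · exact ⟨d, e.symm⟩
  · exact ⟨-d, by rw [hp.neg_pow, e, neg_neg]⟩

/-- The halves of the sum and difference of two coprime odd numbers. -/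
theorem halves {a b : ℤ} (ha : Odd a) (hb : Odd b) (hab : IsCoprime a b) :
    ∃ A B : ℤ, a - b = 2 * A ∧ a + b = 2 * B ∧ IsCoprime A B := by
  obtain ⟨A, hA⟩ := (ha.sub_odd hb).two_dvd
  obtain ⟨B, hB⟩ := (ha.add_odd hb).two_dvd
  obtain ⟨r, s, hrs⟩ := hab
  refine ⟨A, B, hA, hB, r - s, r + s, mul_left_cancel₀ (show (2 : ℤ) ≠ 0 by norm_num) ?_⟩
  linear_combination (r - s) * (-hA) + (r + s) * (-hB) + 2 * hrs

/-- `4 A B = c ^ p` with `A` even, `B` prime to `A`, `p` odd. -/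
theorem split_two {p : ℕ} (hp : Odd p) (hp2 : 2 ≤ p) {A B c : ℤ} (hA : Even A) (hAB : IsCoprime A B)
    (h : 4 * (A * B) = c ^ p) :
    ∃ u v : ℤ, A = 2 ^ (p - 2) * u ^ p ∧ B = v ^ p ∧ c = 2 * (u * v) := by
  have hB2 : IsCoprime (2 : ℤ) B := hAB.of_isCoprime_of_dvd_left hA.two_dvd
  have h4 : IsCoprime (4 : ℤ) B := by
    rw [show (4 : ℤ) = 2 ^ 2 by norm_num]
    exact hB2.pow_left
  obtain ⟨v, hv⟩ := pow_factor hp (h4.mul_left hAB).symm (c := c) (by linear_combination h)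
  obtain ⟨w, hw⟩ := pow_factor hp (h4.mul_left hAB) (c := c) (by linear_combination h)
  obtain ⟨u, rfl⟩ : (2 : ℤ) ∣ w :=
    Int.prime_two.dvd_of_dvd_pow (n := p) ⟨2 * A, by rw [← hw]; ring⟩
  have hA' : A = 2 ^ (p - 2) * u ^ p := by
    refine mul_left_cancel₀ (show (4 : ℤ) ≠ 0 by norm_num) ?_
    rw [hw, mul_pow, ← mul_assoc, show (4 : ℤ) = 2 ^ 2 by norm_num, ← pow_add,
      show 2 + (p - 2) = p by omega]
  refine ⟨u, v, hA', hv, hp.pow_injective ?_⟩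
  show c ^ p = (2 * (u * v)) ^ p
  rw [← h, mul_pow, mul_pow, hA', hv, show (4 : ℤ) = 2 ^ 2 by norm_num,
    show (2 : ℤ) ^ p = 2 ^ 2 * 2 ^ (p - 2) by rw [← pow_add]; congr 1; omega]
  ring

theorem two_or_three {e f r : ℕ} (hr : r.Prime) (hd : (r : ℤ) ∣ 2 ^ e * 3 ^ f) : r ∣ 6 := by
  have hd' : r ∣ 2 ^ e * 3 ^ f := by exact_mod_cast hd
  rcases hr.dvd_mul.1 hd' with h | h
  · exact (hr.dvd_of_dvd_pow h).trans (by norm_num)
  · exact (hr.dvd_of_dvd_pow h).trans (by norm_num)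

/-- `(3, 3, p)`. -/
theorem cubes {p : ℕ} (hp : p.Prime) (h7 : 7 ≤ p) {x y z : ℤ} (hxy : IsCoprime x y) (hz : z ≠ 0)
    (h6 : (6 : ℤ) ∣ z) : x ^ 3 + y ^ 3 ≠ z ^ p := fun h => by
  have hodd := hp.odd_of_ne_two (by omega)
  have h2z : (2 : ℤ) ∣ z := (show (2 : ℤ) ∣ 6 by norm_num).trans h6
  have h3z : (3 : ℤ) ∣ z := (show (3 : ℤ) ∣ 6 by norm_num).trans h6
  have hzp : z ^ p ≠ 0 := pow_ne_zero p hz
  have h8 : (8 : ℤ) ∣ z ^ p :=
    (show (8 : ℤ) ∣ 2 ^ p from pow_dvd_pow 2 (show 3 ≤ p by omega)).trans (pow_dvd_pow_of_dvd h2z p)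
  have hsum : Even (x ^ 3 + y ^ 3) := by
    rw [h]; exact Int.even_pow.2 ⟨even_iff_two_dvd.2 h2z, hp.ne_zero⟩
  have hodd' : Odd x ∧ Odd y := by
    by_contra hc
    have hiff : Even x ↔ Even y := by simpa [parity_simps] using hsum
    have hx : Even x := by
      by_contra hx
      exact hc ⟨Int.not_even_iff_odd.1 hx, Int.not_even_iff_odd.1 fun hy => hx (hiff.2 hy)⟩
    exact Int.prime_two.not_isUnit (hxy.isUnit_of_dvd' hx.two_dvd (hiff.1 hx).two_dvd)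
  obtain ⟨hxo, hyo⟩ := hodd'
  obtain ⟨X, S, hX, hS, hXS⟩ := halves hxo hyo hxy
  -- `Q = x² - x y + y² = S² + 3 X²`
  have hfac : 2 * S * (S ^ 2 + 3 * X ^ 2) = z ^ p := by
    rw [← h, show x = S + X by linarith, show y = S - X by linarith]; ring
  have hX3 : ¬ (3 : ℤ) ∣ X := fun h3 => by
    have h3S : (3 : ℤ) ∣ S := by
      have h3' : (3 : ℤ) ∣ 2 * S * (S ^ 2 + 3 * X ^ 2) := hfac ▸ dvd_pow h3z hp.ne_zero
      rcases Int.prime_three.dvd_or_dvd h3' with h' | h'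
      · omega
      · exact Int.prime_three.dvd_of_dvd_pow ((dvd_add_left (dvd_mul_right 3 _)).1 h')
    exact Int.prime_three.not_isUnit (hXS.isUnit_of_dvd' h3 h3S)
  obtain ⟨S', hS'⟩ : (3 : ℤ) ∣ S := by
    have h3' : (3 : ℤ) ∣ 2 * S * (S ^ 2 + 3 * X ^ 2) := hfac ▸ dvd_pow h3z hp.ne_zero
    rcases Int.prime_three.dvd_or_dvd h3' with h' | h'
    · omega
    · exact Int.prime_three.dvd_of_dvd_pow ((dvd_add_left (dvd_mul_right 3 _)).1 h')
  subst hS'
  have hXo : Odd X := by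
    rw [← Int.not_even_iff_odd]
    intro hXe
    have h4 : Odd (3 * S') := by
      rcases Int.even_or_odd (3 * S') with h' | h'
      · exact absurd (hXS.isUnit_of_dvd' hXe.two_dvd h'.two_dvd) Int.prime_two.not_isUnit
      · exact h'
    have h5 : Odd ((3 * S') ^ 2 + 3 * X ^ 2) :=
      h4.pow.add_even ((hXe.pow_of_ne_zero two_ne_zero).mul_left 3)
    obtain ⟨i, hi⟩ := h4.mul h5
    obtain ⟨l, hl⟩ := h8
    rw [← hfac, mul_assoc, hi] at hl
    omega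
  have hS'X : IsCoprime S' X := hXS.symm.of_mul_left_right
  have hX3' : IsCoprime X 3 := ((Int.prime_three.coprime_iff_not_dvd).2 hX3).symm
  -- the factors `18 S'` and `3 S' ² + X ²`
  have h2Q : IsCoprime (2 : ℤ) (3 * S' ^ 2 + X ^ 2) := by
    refine (Int.prime_two.coprime_iff_not_dvd).2 fun h2 => ?_
    have hSe : Odd S' := by
      rw [← Int.not_even_iff_odd]
      intro hSe
      have : Odd (3 * S' ^ 2 + X ^ 2) :=
        ((hSe.pow_of_ne_zero two_ne_zero).mul_left 3).add_odd hXo.pow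
      exact Int.not_even_iff_odd.2 this (even_iff_two_dvd.2 h2)
    obtain ⟨l, hl⟩ := h8
    obtain ⟨i, rfl⟩ := hSe
    obtain ⟨j, rfl⟩ := hXo
    have e : z ^ p = 18 * (2 * i + 1) * (4 * (3 * i ^ 2 + 3 * i + j ^ 2 + j) + 4) := by
      rw [← hfac]; ring
    have : Even (3 * i ^ 2 + 3 * i + (j ^ 2 + j)) := by
      have h1 := (Int.even_mul_succ_self i).mul_left 3
      have h2 := Int.even_mul_succ_self j
      rw [show 3 * i ^ 2 + 3 * i + (j ^ 2 + j) = 3 * (i * (i + 1)) + j * (j + 1) by ring]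
      exact h1.add h2
    obtain ⟨r, hr⟩ := this
    rw [add_assoc (3 * i ^ 2 + 3 * i), hr] at e
    have h16 : (16 : ℤ) ∣ z ^ p :=
      (show (16 : ℤ) ∣ 2 ^ p from pow_dvd_pow 2 (show 4 ≤ p by omega)).trans
        (pow_dvd_pow_of_dvd h2z p)
    obtain ⟨l', hl'⟩ := h16
    have : (2 * i + 1) * (2 * r + 1) * 9 = 2 * l' := by linarith
    obtain ⟨t, ht⟩ := ((odd_two_mul_add_one i).mul (odd_two_mul_add_one r)).mul
      (show Odd (9 : ℤ) by decide)
    omega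
  have hcop : IsCoprime (18 * S') (3 * S' ^ 2 + X ^ 2) := by
    refine IsCoprime.mul_left ?_ ?_
    · rw [show (18 : ℤ) = 2 * 3 ^ 2 by norm_num]
      refine h2Q.mul_left (IsCoprime.pow_left ?_)
      have := (hX3'.pow_left (m := 2)).symm.add_mul_left_right (S' ^ 2)
      rwa [add_comm] at this
    · have := (hS'X.pow_right (n := 2)).add_mul_left_right (3 * S')
      rwa [show X ^ 2 + S' * (3 * S') = 3 * S' ^ 2 + X ^ 2 by ring] at this
  obtain ⟨w, hw⟩ := pow_factor hodd hcop (c := z) (by rw [← hfac]; ring)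
  obtain ⟨v, hv⟩ := pow_factor hodd hcop.symm (c := z) (by rw [← hfac]; ring)
  obtain ⟨w1, rfl⟩ : (2 : ℤ) ∣ w :=
    Int.prime_two.dvd_of_dvd_pow (n := p) ⟨9 * S', by rw [← hw]; ring⟩
  obtain ⟨u, rfl⟩ : (3 : ℤ) ∣ w1 := by
    have : (3 : ℤ) ∣ 2 * w1 :=
      Int.prime_three.dvd_of_dvd_pow (n := p) ⟨6 * S', by rw [← hw]; ring⟩
    omega
  obtain ⟨d, rfl⟩ : ∃ d, p = d + 7 := ⟨p - 7, by omega⟩
  have eS : S' = 2 ^ (d + 6) * 3 ^ (d + 5) * u ^ (d + 7) := by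
    refine mul_left_cancel₀ (show (18 : ℤ) ≠ 0 by norm_num) ?_
    rw [hw, mul_pow, mul_pow]; ring
  have hS0 : S' ≠ 0 := fun e => hzp (by rw [← hfac, e]; ring)
  have hu0 : u ≠ 0 := fun e => hS0 (by rw [eS, e, zero_pow (by omega), mul_zero])
  have hv0 : v ≠ 0 := fun e => by
    rw [e, zero_pow (by omega)] at hv
    exact hzp (by rw [← hfac, show (3 * S') ^ 2 + 3 * X ^ 2 = 3 * (3 * S' ^ 2 + X ^ 2) by ring, hv]
                  ring)
  have eB : -(2 ^ (2 * d + 12) * 3 ^ (2 * d + 11)) * (u ^ 2) ^ (d + 7) = -(3 * S' ^ 2) := by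
    rw [eS]; ring
  refine FA.Summary.squareEquation_seven hp h7 dvd_rfl (Or.inl rfl) (A := 1)
    (B := -(2 ^ (2 * d + 12) * 3 ^ (2 * d + 11))) (x := X) (y := v) (z := u ^ 2) one_ne_zero
    (by simp) hv0 (pow_ne_zero 2 hu0) (fun q hq hd => ?_) (fun q hq hd => ?_) hXo ?_ ?_ ?_
  · exact absurd (Int.natCast_dvd_natCast.1 (show (q : ℤ) ∣ ((1 : ℕ) : ℤ) from hd)) hq.not_dvd_one
  · exact two_or_three hq (dvd_neg.1 hd)
  · rw [eB]
    exact (hX3'.mul_right hS'X.symm.pow_right).neg_right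
  · exact (((show (64 : ℤ) ∣ 2 ^ (2 * d + 12) from pow_dvd_pow 2 (show 6 ≤ 2 * d + 12 by omega)
      ).mul_right _).neg_right).mul_right _
  · rw [eB, one_mul, ← hv]; ring

/-- `(6, 2, p)`. -/
theorem sixth {p : ℕ} (hp : p.Prime) (h5 : 5 ≤ p) {x y z : ℤ} (hxz : IsCoprime x z) (hz : z ≠ 0)
    (h6 : (6 : ℤ) ∣ z) : x ^ 6 - y ^ 2 ≠ z ^ p := fun h => by
  have hodd := hp.odd_of_ne_two (by omega)
  have h2z : (2 : ℤ) ∣ z := (show (2 : ℤ) ∣ 6 by norm_num).trans h6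
  have hxy : IsCoprime (x ^ 3) y := by
    have h1 : IsCoprime (x ^ 3) (y ^ 2) := by
      have := ((hxz.pow_left (m := 3)).pow_right (n := p)).neg_right.add_mul_left_right (x ^ 3)
      rwa [show -z ^ p + x ^ 3 * x ^ 3 = y ^ 2 by linear_combination h] at this
    exact (IsCoprime.pow_right_iff (by norm_num)).1 h1
  have hxo : Odd x := by
    rw [← Int.not_even_iff_odd, even_iff_two_dvd]
    exact fun h2 => Int.prime_two.not_isUnit (hxz.isUnit_of_dvd' h2 h2z)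
  have hyo : Odd y := by
    have : Odd (y ^ 2) := by
      rw [show y ^ 2 = x ^ 6 - z ^ p by linear_combination -h]
      exact hxo.pow.sub_even (Int.even_pow.2 ⟨even_iff_two_dvd.2 h2z, hp.ne_zero⟩)
    exact (Int.odd_pow.1 this).resolve_right (by norm_num)
  obtain ⟨A, B, hA, hB, hAB⟩ := halves hxo.pow hyo hxy
  have h4 : 4 * (A * B) = z ^ p := by
    linear_combination -(x ^ 3 + y) * hA - 2 * A * hB + h
  wlog hAe : Even A generalizing A B y
  · have hBe : Even B := by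
      by_contra hBe
      have ho : Odd (A * B) := (Int.not_even_iff_odd.1 hAe).mul (Int.not_even_iff_odd.1 hBe)
      have h8 : (8 : ℤ) ∣ z ^ p := (show (8 : ℤ) ∣ 2 ^ p from pow_dvd_pow 2 (show 3 ≤ p by omega)
        ).trans (pow_dvd_pow_of_dvd h2z p)
      rw [Int.odd_iff] at ho
      omega
    exact this (y := -y) (by rwa [neg_sq]) hxy.neg_right hyo.neg B A (by linarith) (by linarith)
      hAB.symm (by linarith) hBe
  obtain ⟨u, v, hu, hv, e⟩ := split_two hodd (by omega) hAe hAB h4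
  have hne : u ≠ 0 ∧ v ≠ 0 := by
    refine ⟨fun e0 => ?_, fun e0 => ?_⟩ <;> · rw [e, e0] at hz; simp at hz
  have hsum : x ^ 3 = 2 ^ (p - 2) * u ^ p + v ^ p := by rw [← hu, ← hv]; linarith
  have h3 : (3 : ℤ) ∣ u ∨ (3 : ℤ) ∣ v := by
    have h3' : (3 : ℤ) ∣ 2 * (u * v) := e ▸ (show (3 : ℤ) ∣ 6 by norm_num).trans h6
    rcases Int.prime_three.dvd_or_dvd h3' with h' | h'
    · norm_num at h'
    · exact Int.prime_three.dvd_or_dvd h'
  have h27 : ∀ {w : ℤ}, (3 : ℤ) ∣ w → (27 : ℤ) ∣ w ^ p := fun hw =>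
    (show (27 : ℤ) ∣ 3 ^ p from pow_dvd_pow 3 (show 3 ≤ p by omega)).trans (pow_dvd_pow_of_dvd hw p)
  have hs1 : ∀ q : ℕ, q.Prime → (q : ℤ) ∣ 1 → q ∣ 6 := fun q hq hd =>
    absurd (Int.natCast_dvd_natCast.1 (show (q : ℤ) ∣ ((1 : ℕ) : ℤ) from hd)) hq.not_dvd_one
  have hs2 : ∀ q : ℕ, q.Prime → (q : ℤ) ∣ 2 ^ (p - 2) → q ∣ 6 := fun q hq hd =>
    two_or_three (e := p - 2) (f := 0) hq (by rwa [pow_zero, mul_one])
  have hc : IsCoprime (2 ^ (p - 2) * u ^ p) (v ^ p) := hu ▸ hv ▸ hAB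
  have hne2 : (2 : ℤ) ^ (p - 2) ≠ 0 := pow_ne_zero _ two_ne_zero
  have hcl : IsCoprime x (2 ^ (p - 2) * u ^ p) := by
    refine (IsCoprime.pow_left_iff (m := 3) (by norm_num)).1 ?_
    have := hc.add_mul_left_right 1
    rw [show v ^ p + 2 ^ (p - 2) * u ^ p * 1 = x ^ 3 by linear_combination -hsum] at this
    exact this.symm
  have hcr : IsCoprime x (v ^ p) := by
    refine (IsCoprime.pow_left_iff (m := 3) (by norm_num)).1 ?_
    have := hc.symm.add_mul_left_right 1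
    rw [show 2 ^ (p - 2) * u ^ p + v ^ p * 1 = x ^ 3 by linear_combination -hsum] at this
    exact this.symm
  rcases h3 with h3 | h3
  · exact FA.Summary.cubeEquation_five hp h5 dvd_rfl (A := 1) (B := 2 ^ (p - 2)) (x := x) (y := v)
      (z := u) one_ne_zero hne2 hne.2 hne.1 hs1 hs2 hcl ((h27 h3).mul_left _)
      (by linear_combination hsum)
  · exact FA.Summary.cubeEquation_five hp h5 dvd_rfl (A := 2 ^ (p - 2)) (B := 1) (x := x) (y := u)
      (z := v) hne2 one_ne_zero hne.1 hne.2 hs2 hs1 (by rwa [one_mul]) ((h27 h3).mul_left _)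
      (by linear_combination hsum)

/-- `(n, 2 n, 2)` for odd `n` and even `x`. -/
theorem left_even {n : ℕ} (hn : Odd n) (h6 : 6 ≤ n) {x y z : ℤ} (hx : x ≠ 0) (hy : y ≠ 0)
    (hxy : IsCoprime x y) (hxe : Even x) : x ^ n + y ^ (2 * n) ≠ z ^ 2 := fun h => by
  have hyo : Odd y := by
    rw [← Int.not_even_iff_odd, even_iff_two_dvd]
    exact fun h2 => Int.prime_two.not_isUnit (hxy.isUnit_of_dvd' hxe.two_dvd h2)
  have hxn : Even (x ^ n) := Int.even_pow.2 ⟨hxe, by omega⟩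
  have hzo : Odd z := by
    have : Odd (z ^ 2) := h ▸ hxn.add_odd hyo.pow
    exact (Int.odd_pow.1 this).resolve_right (by norm_num)
  have hzy : IsCoprime z (y ^ n) := by
    refine IsCoprime.pow_right ((IsCoprime.pow_left_iff (m := 2) (by norm_num)).1 ?_)
    have := (hxy.symm.pow_right (n := n)).add_mul_left_right (y ^ (2 * n - 1))
    rw [← pow_succ', show 2 * n - 1 + 1 = 2 * n by omega, h] at this
    exact this.symm
  obtain ⟨A, B, hA, hB, hAB⟩ := halves hzo hyo.pow hzy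
  have h4 : 4 * (A * B) = x ^ n := by
    rw [mul_comm 2 n, pow_mul] at h
    linear_combination -(z + y ^ n) * hA - 2 * A * hB - h
  wlog hAe : Even A generalizing A B z
  · have hBe : Even B := by
      by_contra hBe
      have ho : Odd (A * B) := (Int.not_even_iff_odd.1 hAe).mul (Int.not_even_iff_odd.1 hBe)
      have h8 : (8 : ℤ) ∣ x ^ n := (show (8 : ℤ) ∣ 2 ^ n from pow_dvd_pow 2 (show 3 ≤ n by omega)
        ).trans (pow_dvd_pow_of_dvd hxe.two_dvd n)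
      rw [Int.odd_iff] at ho
      omega
    exact this (z := -z) (by rwa [neg_sq]) hzo.neg hzy.neg_left (-B) (-A) (by linarith)
      (by linarith)
      hAB.symm.neg_neg (by linarith) hBe.neg
  obtain ⟨u, v, hu, hv, e⟩ := split_two hn (by omega) hAe hAB h4
  have hne : u ≠ 0 ∧ v ≠ 0 := by
    refine ⟨fun e0 => ?_, fun e0 => ?_⟩ <;> · rw [e, e0] at hx; simp at hx
  have hBo : Odd B := by
    rw [← Int.not_even_iff_odd, even_iff_two_dvd]
    exact fun h2 => Int.prime_two.not_isUnit (hAB.isUnit_of_dvd' hAe.two_dvd h2)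
  have hvo : Odd v := (Int.odd_pow.1 (hv ▸ hBo)).resolve_right (by omega)
  have hvu : IsCoprime v (-u) := by
    have := hu ▸ hv ▸ hAB
    exact ((IsCoprime.pow_iff (by omega) (by omega)).1 this.of_mul_left_right).symm.neg_right
  refine FA.Summary.ribetEquation_three_le (n := n) (by omega) (α := n - 2) (a := v) (b := -u)
    (c := -y) (neg_ne_zero.2 hne.1) (neg_ne_zero.2 hy) hvo hvu
    ((show (16 : ℤ) ∣ 2 ^ (n - 2) from pow_dvd_pow 2 (show 4 ≤ n - 2 by omega)).mul_right _) ?_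
  rw [hn.neg_pow, hn.neg_pow, mul_neg, ← hu, ← hv]
  linarith

/-- `(n, 2 n, 2)` for odd `n` and odd `x`: both factors are powers. -/
theorem right_split {n : ℕ} (hn : Odd n) (hn3 : 3 ≤ n) {x y z : ℤ} (hxy : IsCoprime x y)
    (hxo : Odd x) (h : x ^ n + y ^ (2 * n) = z ^ 2) :
    ∃ u v : ℤ, u ^ n + 2 * y ^ n = v ^ n ∧ 2 * z = u ^ n + v ^ n ∧ x ^ n = u ^ n * v ^ n ∧
      IsCoprime u y ∧ IsCoprime v y ∧ Odd u := by
  have hxn : (z - y ^ n) * (z + y ^ n) = x ^ n := by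
    rw [mul_comm 2 n, pow_mul] at h
    linear_combination -h
  have hodd : Odd ((z - y ^ n) * (z + y ^ n)) := hxn ▸ hxo.pow
  obtain ⟨k, hk⟩ := (Int.odd_mul.1 hodd).1
  have hy1 : IsCoprime (z - y ^ n) y :=
    (hxy.pow_left (m := n)).of_isCoprime_of_dvd_left ⟨_, hxn.symm⟩
  have hy2 : IsCoprime (z + y ^ n) y :=
    (hxy.pow_left (m := n)).of_isCoprime_of_dvd_left ⟨z - y ^ n, by linear_combination -hxn⟩
  have hcop : IsCoprime (z - y ^ n) (z + y ^ n) := by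
    have h2 : IsCoprime (z - y ^ n) 2 := ⟨1, -k, by rw [hk]; ring⟩
    have := (h2.mul_right (hy1.pow_right (n := n))).add_mul_left_right 1
    rwa [show 2 * y ^ n + (z - y ^ n) * 1 = z + y ^ n by ring] at this
  obtain ⟨u, hu⟩ := pow_factor hn hcop hxn
  obtain ⟨v, hv⟩ := pow_factor hn hcop.symm (c := x) (by linear_combination hxn)
  refine ⟨u, v, by rw [← hu, ← hv]; ring, by rw [← hu, ← hv]; ring, by rw [← hu, ← hv, hxn], ?_,
    ?_, ?_⟩
  · exact (IsCoprime.pow_left_iff (by omega)).1 (hu ▸ hy1)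
  · exact (IsCoprime.pow_left_iff (by omega)).1 (hv ▸ hy2)
  · exact (Int.odd_pow.1 (hu ▸ (Int.odd_mul.1 hodd).1)).resolve_right (by omega)

end FA.SignaturesTwo

namespace FA.Summary

/-- **Signature `(3, 3, n)`**: no coprime `x ³ + y ³ = z ⁿ` with `6 ∣ z ≠ 0`, for `n` with a prime
factor `p ≥ 7`. -/
theorem cube_add_cube_ne_pow {n p : ℕ} (hp : p.Prime) (h7 : 7 ≤ p) (hpn : p ∣ n) (hn : n ≠ 0)
    {x y z : ℤ} (hxy : IsCoprime x y) (hz : z ≠ 0) (h6 : (6 : ℤ) ∣ z) :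
    x ^ 3 + y ^ 3 ≠ z ^ n := by
  obtain ⟨m, rfl⟩ := hpn
  rw [mul_comm p m, pow_mul]
  exact FA.SignaturesTwo.cubes hp h7 hxy (pow_ne_zero m hz) (dvd_pow h6 (right_ne_zero_of_mul hn))

/-- **Signature `(6, 2, n)`**: no `x ⁶ - y ² = ± z ⁿ` with `x` prime to `z` and `6 ∣ z ≠ 0`, for
`n` with a prime factor `p ≥ 5`. -/
theorem sixth_sub_sq_ne_pow {n p : ℕ} (hp : p.Prime) (h5 : 5 ≤ p) (hpn : p ∣ n) (hn : n ≠ 0)
    {x y z : ℤ} (hxz : IsCoprime x z) (hz : z ≠ 0) (h6 : (6 : ℤ) ∣ z) :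
    x ^ 6 - y ^ 2 ≠ z ^ n ∧ y ^ 2 - x ^ 6 ≠ z ^ n := by
  obtain ⟨m, rfl⟩ := hpn
  rw [mul_comm p m, pow_mul]
  refine ⟨FA.SignaturesTwo.sixth hp h5 hxz.pow_right (pow_ne_zero m hz)
    (dvd_pow h6 (right_ne_zero_of_mul hn)), fun h => ?_⟩
  refine FA.SignaturesTwo.sixth hp h5 (y := y) hxz.pow_right.neg_right
    (neg_ne_zero.2 (pow_ne_zero m hz)) (dvd_pow h6 (right_ne_zero_of_mul hn)).neg_right ?_
  rw [(hp.odd_of_ne_two (by omega)).neg_pow]
  linarith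

/-- **Signature `(n, 2 n, 2)`**: no coprime `x ⁿ + y ^ (2 n) = z ²`, `n ≥ 3`, when `n` is even, or
`y` is even, or `x` is even and `n ≥ 6`, or `3 ∣ n`, `z ≠ 0` and `x` is odd. -/
theorem pow_add_pow_two_mul_ne_sq {n : ℕ} (hn : 3 ≤ n) {x y z : ℤ} (hx : x ≠ 0) (hy : y ≠ 0)
    (hxy : IsCoprime x y)
    (hc : Even n ∨ Even y ∨ (Even x ∧ 6 ≤ n) ∨ (3 ∣ n ∧ z ≠ 0 ∧ Odd x)) :
    x ^ n + y ^ (2 * n) ≠ z ^ 2 := fun h => by
  rcases Nat.even_or_odd n with ⟨k, rfl⟩ | hno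
  · refine pow_two_mul_add_ne_sq (n := k) (by omega) hx (pow_ne_zero 2 hy) z ?_
    rw [← h]; ring
  have xodd : Even y → Odd x := fun hye => by
    rw [← Int.not_even_iff_odd, even_iff_two_dvd]
    exact fun h2 => Int.prime_two.not_isUnit (hxy.isUnit_of_dvd' h2 hye.two_dvd)
  rcases hc with he | hye | ⟨hxe, h6⟩ | ⟨h3, hz, hxo⟩
  · exact absurd he (Nat.not_even_iff_odd.2 hno)
  · obtain ⟨u, v, e, -, e3, huy, -, huo⟩ := FA.SignaturesTwo.right_split hno hn hxy (xodd hye) h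
    have hv0 : v ≠ 0 := fun e0 => by
      rw [e0, zero_pow (by omega), mul_zero] at e3
      exact pow_ne_zero n hx e3
    refine ribetEquation_three_le hn (α := 1) (a := u) (b := y) (c := -v) hy (neg_ne_zero.2 hv0)
      huo huy ?_ ?_
    · have := mul_dvd_mul (dvd_refl ((2 : ℤ) ^ 1)) (pow_dvd_pow_of_dvd hye.two_dvd n)
      rw [← pow_add] at this
      exact (show (16 : ℤ) ∣ 2 ^ (1 + n) from pow_dvd_pow 2 (show 4 ≤ 1 + n by omega)).trans this
    · rw [hno.neg_pow, pow_one]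
      linear_combination e
  · exact FA.SignaturesTwo.left_even hno h6 hx hy hxy hxe h
  · obtain ⟨u, v, e, e2, -, huy, hvy, -⟩ := FA.SignaturesTwo.right_split hno hn hxy hxo h
    obtain ⟨hv1, hu1⟩ := pow_three_AP (n := n) (by omega) (Or.inl h3) (x := v) (y := y) (z := -u) hy
      (by rw [hno.neg_pow]; linear_combination -e)
    have hy1 : y = 1 ∨ y = -1 := by
      have hdv : y ∣ v := (abs_dvd_abs _ _).1 (hv1 ▸ dvd_rfl)
      exact Int.isUnit_iff.1 (hvy.isUnit_of_dvd' hdv dvd_rfl)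
    have hu2 : u = 1 ∨ u = -1 := by
      rw [abs_neg] at hu1
      rcases abs_eq_abs.1 hu1 with r | r <;> rcases hy1 with s | s <;> omega
    have hv2 : v = 1 ∨ v = -1 := by
      rcases abs_eq_abs.1 hv1 with r | r <;> rcases hy1 with s | s <;> omega
    rcases hy1 with rfl | rfl <;> rcases hu2 with rfl | rfl <;> rcases hv2 with rfl | rfl <;>
      simp [hno.neg_one_pow] at e e2 <;> omega

end FA.Summary

end
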