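import Fermat.Agent.ImagQuadAngles.CMCases
import Fermat.Agent.PrimeNumberTheorem.Progression
import Fermat.Agent.Root.SummaryPrimeNumberTheorem

/-!
# The Sato–Tate law of the elliptic curves over `ℚ` with complex multiplication

`cmPairs` lists the thirteen values of `j` of complex multiplication with the discriminant `d` of
the field. For a curve `E` over `ℚ` with one of these invariants and `-1 ≤ t ≤ 1`:

* `satoTate_cm_inert`: `a_p = 0` at every prime modulo which `d` is no square;
* `satoTate_cm_density_split`: the primes modulo which `d` is a square have density `1 / 2`;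
* `satoTate_cm_split`: of these the proportion with `a_p ≤ 2 t √p` tends to `1 - arccos t / π`,
  the arcsine law (the law of the cosine of a uniform angle);
* `satoTate_cm`: of all primes it tends to `(1 - arccos t / π) / 2`, plus `1 / 2` for `0 ≤ t`:
  half a point mass at `0`, half the arcsine law (Hecke, Deuring).

`exists_curve_of_mem_cmPairs` shows that each of the thirteen cases occurs. The case without complex
multiplication is not addressed.
-/

set_option autoImplicit false

noncomputable section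

open Filter Topology
open scoped Classical

namespace FA.Summary

/-- The thirteen invariants of complex multiplication with the discriminants of the fields. -/
def cmPairs : Finset (ℚ × ℤ) := {(0, -3), (54000, -3), (-12288000, -3), (1728, -4), (287496, -4),
  (-3375, -7), (16581375, -7), (8000, -8), (-32768, -11), (-884736, -19), (-884736000, -43),
  (-147197952000, -67), (-262537412640768000, -163)}

theorem hasArcsine_of_mem_cmPairs (E : WeierstrassCurve ℚ) [E.IsElliptic] {d : ℤ}
    (hd : (E.j, d) ∈ cmPairs) : FA.ImagQuad.HasArcsine d fun p => (E.LFunction p : ℝ) := by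
  simp only [cmPairs, Finset.mem_insert, Finset.mem_singleton, Prod.mk.injEq] at hd
  rcases hd with ⟨hj, rfl⟩ | ⟨hj, rfl⟩ | ⟨hj, rfl⟩ | ⟨hj, rfl⟩ | ⟨hj, rfl⟩ | ⟨hj, rfl⟩ |
    ⟨hj, rfl⟩ | ⟨hj, rfl⟩ | ⟨hj, rfl⟩ | ⟨hj, rfl⟩ | ⟨hj, rfl⟩ | ⟨hj, rfl⟩ | ⟨hj, rfl⟩
  · exact FA.ImagQuad.hasArcsine_zero E (E.j_eq_zero_iff.mp hj)
  · exact FA.ImagQuad.hasArcsine_54000 E hj
  · exact FA.ImagQuad.hasArcsine_neg_12288000 E hj
  · exact FA.ImagQuad.hasArcsine_1728 E hj
  · exact FA.ImagQuad.hasArcsine_287496 E hj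
  · exact FA.ImagQuad.hasArcsine_seven E (Or.inl hj)
  · exact FA.ImagQuad.hasArcsine_seven E (Or.inr hj)
  · exact FA.ImagQuad.hasArcsine_eight E hj
  · exact FA.ImagQuad.hasArcsine_eleven E hj
  · exact FA.ImagQuad.hasArcsine_nineteen E hj
  · exact FA.ImagQuad.hasArcsine_fortyThree E hj
  · exact FA.ImagQuad.hasArcsine_sixtySeven E hj
  · exact FA.ImagQuad.hasArcsine_oneSixtyThree E hj

/-- Each case occurs. -/
theorem exists_curve_of_mem_cmPairs {j : ℚ} {d : ℤ} (h : (j, d) ∈ cmPairs) :
    ∃ (E : WeierstrassCurve ℚ) (_ : E.IsElliptic), (E.j, d) ∈ cmPairs :=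
  ⟨WeierstrassCurve.ofJ j, inferInstance, by rwa [WeierstrassCurve.ofJ_j]⟩

/-- **Inert primes.** -/
theorem satoTate_cm_inert (E : WeierstrassCurve ℚ) [E.IsElliptic] {d : ℤ}
    (hd : (E.j, d) ∈ cmPairs) {p : ℕ} (hp : p.Prime) (h : ¬IsSquare (d : ZMod p)) :
    E.LFunction p = 0 :=
  lFunction_eq_zero_of_inert E (by simpa [cmPairs] using hd) hp h

theorem tendsto_log_card_primes :
    Tendsto (fun N : ℕ => Real.log N / N * (((Finset.range (N + 1)).filter Nat.Prime).card : ℝ))
      atTop (𝓝 1) := by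
  refine (FA.PNT.Summary.prime_number_theorem.comp tendsto_natCast_atTop_atTop).congr fun N => ?_
  rw [Function.comp_apply, Nat.floor_natCast, Nat.primeCounting, Nat.primeCounting',
    Nat.count_eq_card_filter_range]
  ring

/-- A quotient of two counts normalised by `log N / N`. -/
theorem tendsto_card_div_card {S T : ℕ → Finset ℕ} {a b : ℝ} (hb : b ≠ 0)
    (hS : Tendsto (fun N : ℕ => Real.log N / N * ((S N).card : ℝ)) atTop (𝓝 a))
    (hT : Tendsto (fun N : ℕ => Real.log N / N * ((T N).card : ℝ)) atTop (𝓝 b)) :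
    Tendsto (fun N : ℕ => ((S N).card : ℝ) / (T N).card) atTop (𝓝 (a / b)) := by
  refine (hS.div hT hb).congr' ?_
  filter_upwards [eventually_gt_atTop 1] with N hN
  have hl : Real.log N / N ≠ 0 :=
    (div_pos (Real.log_pos (by exact_mod_cast hN))
      (by exact_mod_cast (zero_lt_one.trans hN))).ne'
  rw [Pi.div_apply, mul_div_mul_left _ _ hl]

/-- **The split primes have density `1 / 2`.** -/
theorem satoTate_cm_density_split (E : WeierstrassCurve ℚ) [E.IsElliptic] {d : ℤ}
    (hd : (E.j, d) ∈ cmPairs) :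
    Tendsto (fun N : ℕ =>
      ((((Finset.range (N + 1)).filter Nat.Prime).filter fun p : ℕ =>
        IsSquare (d : ZMod p)).card : ℝ) / ((Finset.range (N + 1)).filter Nat.Prime).card)
      atTop (𝓝 (1 / 2)) := by
  simpa [FA.ImagQuad.splitPrimes] using tendsto_card_div_card one_ne_zero
    (hasArcsine_of_mem_cmPairs E hd).1 tendsto_log_card_primes

/-- **Sato–Tate at the split primes.** -/
theorem satoTate_cm_split (E : WeierstrassCurve ℚ) [E.IsElliptic] {d : ℤ}
    (hd : (E.j, d) ∈ cmPairs) {t : ℝ} (ht : -1 ≤ t) (ht' : t ≤ 1) :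
    Tendsto (fun N : ℕ =>
      (((((Finset.range (N + 1)).filter Nat.Prime).filter fun p : ℕ => IsSquare (d : ZMod p)).filter
        fun p : ℕ => (E.LFunction p : ℝ) ≤ 2 * t * Real.sqrt p).card : ℝ) /
      (((Finset.range (N + 1)).filter Nat.Prime).filter fun p : ℕ => IsSquare (d : ZMod p)).card)
      atTop (𝓝 (1 - Real.arccos t / Real.pi)) := by
  obtain ⟨h1, h2⟩ := hasArcsine_of_mem_cmPairs E hd
  have h := tendsto_card_div_card (by norm_num) (h2 t ht ht') h1
  rw [show (1 - Real.arccos t / Real.pi) / 2 / (1 / 2) = 1 - Real.arccos t / Real.pi by ring] at h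
  exact h

/-- **Sato–Tate for complex multiplication, at all primes.** -/
theorem satoTate_cm (E : WeierstrassCurve ℚ) [E.IsElliptic] {d : ℤ}
    (hd : (E.j, d) ∈ cmPairs) {t : ℝ} (ht : -1 ≤ t) (ht' : t ≤ 1) :
    Tendsto (fun N : ℕ => ((((Finset.range (N + 1)).filter Nat.Prime).filter
      fun p : ℕ => (E.LFunction p : ℝ) ≤ 2 * t * Real.sqrt p).card : ℝ) /
        ((Finset.range (N + 1)).filter Nat.Prime).card) atTop
      (𝓝 ((1 - Real.arccos t / Real.pi) / 2 + if 0 ≤ t then 1 / 2 else 0)) := by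
  obtain ⟨h1, h2⟩ := hasArcsine_of_mem_cmPairs E hd
  have h : Tendsto (fun N : ℕ => Real.log N / N *
      ((((Finset.range (N + 1)).filter Nat.Prime).filter
        fun p : ℕ => (E.LFunction p : ℝ) ≤ 2 * t * Real.sqrt p).card : ℝ)) atTop
      (𝓝 ((1 - Real.arccos t / Real.pi) / 2 + if 0 ≤ t then 1 / 2 else 0)) := by
    have h3 := (tendsto_log_card_primes.sub h1).const_mul (if 0 ≤ t then (1 : ℝ) else 0)
    rw [show (if 0 ≤ t then (1 : ℝ) else 0) * (1 - 1 / 2) = if 0 ≤ t then 1 / 2 else 0 by
      split_ifs <;> norm_num] at h3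
    refine ((h2 t ht ht').add h3).congr fun N => ?_
    obtain ⟨P, hP⟩ : ∃ P, P = (Finset.range (N + 1)).filter Nat.Prime := ⟨_, rfl⟩
    simp only [FA.ImagQuad.splitPrimes, ← hP]
    have hbad : ∀ p ∈ P, ¬IsSquare (d : ZMod p) →
        ((E.LFunction p : ℝ) ≤ 2 * t * Real.sqrt p ↔ 0 ≤ t) := fun p hp h => by
      have hp' : p.Prime := by rw [hP] at hp; exact (Finset.mem_filter.mp hp).2
      rw [satoTate_cm_inert E hd hp' h, Int.cast_zero]
      have := Real.sqrt_pos.mpr (Nat.cast_pos (α := ℝ).mpr hp'.pos)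
      exact ⟨fun h => by nlinarith, fun h => by positivity⟩
    have e1 := Finset.card_filter_add_card_filter_not
      (s := P.filter fun p : ℕ => (E.LFunction p : ℝ) ≤ 2 * t * Real.sqrt p)
      (fun p : ℕ => IsSquare (d : ZMod p))
    rw [Finset.filter_comm] at e1
    have e2 := Finset.card_filter_add_card_filter_not (s := P)
      (fun p : ℕ => IsSquare (d : ZMod p))
    rw [← e1]
    nth_rewrite 1 [← e2]
    push_cast
    split_ifs with h0
    · rw [show (P.filter fun p : ℕ => (E.LFunction p : ℝ) ≤ 2 * t * Real.sqrt p).filter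
          (fun p : ℕ => ¬IsSquare (d : ZMod p)) = P.filter fun p : ℕ => ¬IsSquare (d : ZMod p) by
        rw [Finset.filter_filter]
        exact Finset.filter_congr fun p hp =>
          ⟨fun h => h.2, fun h => ⟨(hbad p hp h).mpr h0, h⟩⟩]
      ring
    · rw [show (P.filter fun p : ℕ => (E.LFunction p : ℝ) ≤ 2 * t * Real.sqrt p).filter
          (fun p : ℕ => ¬IsSquare (d : ZMod p)) = ∅ by
        rw [Finset.filter_filter, Finset.filter_eq_empty_iff]
        exact fun p hp h => h0 ((hbad p hp h.2).mp h.1)]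
      simp
  simpa using tendsto_card_div_card one_ne_zero h tendsto_log_card_primes

end FA.Summary

end
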