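import Fermat.Agent.JacobiSatoTate.Primes
import Fermat.Agent.Root.SummarySatoTateCM

/-!
# The Sato–Tate law of `y² = x ^ l + c`

For an odd prime `l` write `m = (l - 1) / 2`, the genus of the curve `y² = x ^ l + c`.

* `halfInterval_charSum_ne_zero`, `jacobi_cm_type_nondegenerate`: `∑_{1 ≤ r ≤ m} χ r ≠ 0` for odd
  `χ` modulo `l`, so the `m` conjugates of the type of `J_{1,1}` are independent.
* `jacobiSum_angles_equidistributed`, `jacobiSum_independent`: the angles of the `m` numbers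
  `(d / N v) χ_v (u) ^ t J_{t,t} (v) / √ N v` are equidistributed in the whole torus `(S¹) ^ m`; no
  monomial in them has bounded order at almost all primes.
* `hyperelliptic_points_of_ne_one`, `hyperelliptic_points`: the points of the curve modulo `p`.
* `satoTate_hyperelliptic_split`, `satoTate_hyperelliptic`: `(p - #) / √p` has at `p ≡ 1` modulo `l`
  the law of `∑ 2 cos (2 π θ i)`, `θ` uniform in the cube, and is `0` at the other primes.
* `hyperelliptic_weil_bound`, `hyperelliptic_weil_bound_sharp`: `|p - #| ≤ 2 m √p`, and both bounds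
  are asymptotically attained.

Monodromy and Mumford–Tate groups are not discussed, and `l` is prime.
-/

set_option autoImplicit false
set_option linter.unusedSectionVars false

noncomputable section

open NumberField IsDedekindDomain MeasureTheory Filter Topology
open FA.PowerReciprocity (symbolPrime jacobiPrime)
open scoped Classical Real

namespace FA.Summary

universe u

variable {l : ℕ} [hl : Fact l.Prime]

/-- **The half sum of an odd character.** -/
theorem halfInterval_charSum_ne_zero (hl2 : l ≠ 2) {χ : DirichletCharacter ℂ l} (hχ : χ.Odd) :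
    ∑ r ∈ Finset.Icc 1 (l / 2), χ (r : ZMod l) ≠ 0 := by
  have : NeZero l := ⟨hl.out.ne_zero⟩
  intro h
  refine FA.JacobiST.sum_halfSign_ne_zero hl2 hχ ?_
  have h0 : ∑ x : ZMod l, χ x * (FA.JacobiST.halfSign x : ℂ) =
      2 * ∑ x ∈ Finset.univ.filter (fun x : ZMod l => 2 * x.val < l), χ x - ∑ x : ZMod l, χ x := by
    rw [Finset.sum_filter, Finset.mul_sum, ← Finset.sum_sub_distrib]
    refine Finset.sum_congr rfl fun x _ => ?_
    rw [FA.JacobiST.halfSign]
    split_ifs <;> push_cast <;> ring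
  have hne : χ ≠ 1 := fun e => by
    have h' : χ (-1) = -1 := hχ
    rw [e, MulChar.one_apply isUnit_one.neg] at h'
    norm_num at h'
  have h1 : ∑ x ∈ Finset.univ.filter (fun x : ZMod l => 2 * x.val < l), χ x =
      ∑ r ∈ Finset.range (l / 2 + 1), χ (r : ZMod l) := by
    have hodd := Nat.odd_iff.1 (hl.out.odd_of_ne_two hl2)
    refine Finset.sum_nbij' (fun x => x.val) (fun r => (r : ZMod l)) (fun x hx => ?_) (fun r hr => ?_)
      (fun x _ => ZMod.natCast_zmod_val x) (fun r hr => ?_) fun x _ => by rw [ZMod.natCast_zmod_val]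
    · simp only [Finset.mem_filter] at hx ⊢
      rw [Finset.mem_range]; omega
    · rw [Finset.mem_range] at hr
      rw [Finset.mem_filter, ZMod.val_natCast_of_lt (by omega)]
      exact ⟨Finset.mem_univ _, by omega⟩
    · rw [Finset.mem_range] at hr
      exact ZMod.val_natCast_of_lt (by omega)
  rw [h0, h1, Finset.range_eq_Ico, Finset.sum_eq_sum_Ico_succ_bot (by omega), Nat.cast_zero,
    MulChar.map_zero, zero_add, zero_add, Finset.Ico_add_one_right_eq_Icc, h,
    MulChar.sum_eq_zero_of_ne_one hne, mul_zero, sub_zero]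

/-- **The type of `J_{1,1}` is not degenerate.** -/
theorem jacobi_cm_type_nondegenerate (hl2 : l ≠ 2) {E : Fin (l / 2) → ℤ}
    (h : ∀ s : ℕ, ¬ l ∣ s →
      ∑ i, E i * (if 2 * (((i : ℕ) + 1) * s % l) < l then 1 else -1) = 0) : E = 0 := by
  refine funext fun i => FA.JacobiST.eq_zero_of_halfSign hl2 (fun s hs => ?_) i
  have : NeZero l := ⟨hl.out.ne_zero⟩
  refine (Finset.sum_congr rfl fun i _ => ?_).trans (h s.val fun e => hs
    ((ZMod.val_eq_zero s).1 (Nat.eq_zero_of_dvd_of_lt e (ZMod.val_lt s))))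
  rw [FA.JacobiST.halfSign, ZMod.val_mul, ZMod.val_natCast, Nat.mod_mul_mod]

variable {K : Type u} [Field K] [NumberField K] [IsCyclotomicExtension {l} ℚ K]

/-- **The angles of the conjugate Jacobi sums fill the torus.** -/
theorem jacobiSum_angles_equidistributed (hl2 : l ≠ 2) (φ : K →+* ℂ) {u d : ℤ} (hu : u ≠ 0)
    (hd : d ≠ 0) (F : C(UnitAddTorus (Fin (l / 2)), ℂ)) :
    Tendsto (fun j : ℕ => ((Real.log j / j : ℝ) : ℂ) *
      ∑' v : {v : HeightOneSpectrum (𝓞 K) // Ideal.absNorm v.asIdeal ≤ j},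
        F fun i => FA.PrimeEquidist.circlePoint
          ((jacobiSym d (Ideal.absNorm v.1.asIdeal) : ℂ) *
            φ ((symbolPrime l v.1.asIdeal (u : 𝓞 K) ^ ((i : ℕ) + 1) *
              jacobiPrime l ((i : ℕ) + 1) ((i : ℕ) + 1) v.1.asIdeal : 𝓞 K) : K) /
            (Real.sqrt (Ideal.absNorm v.1.asIdeal : ℕ) : ℂ))) atTop (𝓝 (∫ θ, F θ)) := by
  have h : FA.Hecke.HasMean (fun v : HeightOneSpectrum (𝓞 K) =>
      F fun i => FA.PrimeEquidist.circlePoint ((jacobiSym d (Ideal.absNorm v.asIdeal) : ℂ) *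
        φ ((symbolPrime l v.asIdeal (u : 𝓞 K) ^ ((i : ℕ) + 1) *
          jacobiPrime l ((i : ℕ) + 1) ((i : ℕ) + 1) v.asIdeal : 𝓞 K) : K) /
        (Real.sqrt (Ideal.absNorm v.asIdeal : ℕ) : ℂ))) (∫ θ, F θ) := by
    refine FA.Hecke.hasMean_congr _ (FA.JacobiST.finite_not_isGood (K := K) (l := l) hu hd)
      (B := ‖F‖ + ‖F‖) (fun v => ?_) (fun v hv _ => ?_)
      (FA.JacobiST.equidistributed_anglePoint hl2 φ hu hd F)
    · exact (norm_sub_le _ _).trans (add_le_add (F.norm_coe_le_norm _) (F.norm_coe_le_norm _))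
    · have hv' : FA.JacobiST.IsGood l u d v := not_not.1 hv
      have := v.isMaximal
      refine congrArg F (funext fun i => ?_)
      show _ = FA.PrimeEquidist.circlePoint (FA.JacobiST.angleVal φ l u d v (FA.JacobiST.tIdx i))
      rw [FA.JacobiST.angleVal, FA.FermatTwist.twistValue,
        FA.PowerReciprocity.symbolPrime_one hv'.1, one_pow, mul_one]
      rfl
  refine (h.comp tendsto_natCast_atTop_atTop).congr fun j => ?_
  rw [Function.comp_apply, FA.Hecke.wSum, Nat.floor_natCast, Complex.real_smul]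
  congr 1
  rw [← Finset.tsum_subtype]
  exact (Equiv.subtypeEquivRight fun v => FA.Hecke.mem_primesLE).tsum_eq
    (fun v : {v : HeightOneSpectrum (𝓞 K) // Ideal.absNorm v.asIdeal ≤ j} =>
      F fun i => FA.PrimeEquidist.circlePoint ((jacobiSym d (Ideal.absNorm v.1.asIdeal) : ℂ) *
        φ ((symbolPrime l v.1.asIdeal (u : 𝓞 K) ^ ((i : ℕ) + 1) *
          jacobiPrime l ((i : ℕ) + 1) ((i : ℕ) + 1) v.1.asIdeal : 𝓞 K) : K) /
        (Real.sqrt (Ideal.absNorm v.1.asIdeal : ℕ) : ℂ)))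

/-- **Multiplicative independence.** -/
theorem jacobiSum_independent (hl2 : l ≠ 2) (φ : K →+* ℂ) {u d : ℤ} (hu : u ≠ 0) (hd : d ≠ 0)
    {e : Fin (l / 2) → ℤ} (he : e ≠ 0) {N : ℕ} (hN : N ≠ 0) :
    {v : HeightOneSpectrum (𝓞 K) |
      (∏ i : Fin (l / 2), ((jacobiSym d (Ideal.absNorm v.asIdeal) : ℂ) *
        φ ((symbolPrime l v.asIdeal (u : 𝓞 K) ^ ((i : ℕ) + 1) *
          jacobiPrime l ((i : ℕ) + 1) ((i : ℕ) + 1) v.asIdeal : 𝓞 K) : K) /
        (Real.sqrt (Ideal.absNorm v.asIdeal : ℕ) : ℂ)) ^ e i) ^ N ≠ 1}.Infinite := by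
  intro hfin
  have he' : (fun i => (N : ℤ) * e i) ≠ 0 := fun h0 => he (funext fun i =>
    (mul_eq_zero.1 (congrFun h0 i)).resolve_left (Int.natCast_ne_zero.2 hN))
  have h0 := FA.JacobiST.hasMean_monomial hl2 φ hu hd he'
  have h1 : FA.Hecke.HasMean (fun _ : HeightOneSpectrum (𝓞 K) => (1 : ℂ)) 0 := by
    refine FA.Hecke.hasMean_congr _ ((FA.JacobiST.finite_not_isGood (K := K) (l := l) hu hd).union
      hfin) (B := 2) (fun v => ?_) (fun v hv _ => ?_) h0
    · refine (norm_sub_le _ _).trans ?_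
      rw [norm_one]
      linarith [FA.JacobiST.norm_monomialChar_le hl2 φ hu hd he' v]
    · rw [Set.mem_union, not_or] at hv
      have hv' : FA.JacobiST.IsGood l u d v := not_not.1 hv.1
      have := v.isMaximal
      rw [FA.JacobiST.monomialChar_normalised hl2 φ _ hv']
      refine (not_not.1 hv.2).symm.trans ?_
      rw [← Finset.prod_pow]
      refine Finset.prod_congr rfl fun i _ => ?_
      rw [← zpow_natCast, ← zpow_mul, mul_comm (e i), FA.JacobiST.angleVal,
        FA.FermatTwist.twistValue, FA.PowerReciprocity.symbolPrime_one hv'.1, one_pow, mul_one]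
      rfl
  have h2 : FA.Hecke.HasMean (fun _ : HeightOneSpectrum (𝓞 K) => (1 : ℂ)) 1 := by
    simpa using (FA.Hecke.hasMean_one K).map Complex.ofRealCLM
  exact one_ne_zero (tendsto_nhds_unique h2 h1)

omit [NumberField K] [IsCyclotomicExtension {l} ℚ K] in
/-- **The points at `p ≢ 1`.** -/
theorem hyperelliptic_points_of_ne_one {p : ℕ} (hp : p.Prime) (hp1 : p % l ≠ 1) (c : ℤ) :
    Nat.card {z : ZMod p × ZMod p // z.2 ^ 2 = z.1 ^ l + (c : ZMod p)} = p := by
  have := Fact.mk hp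
  exact FA.JacobiST.hyperCount_zmod_of_ne_one p hp1 c

theorem hyperelliptic_normTrace_eq_card (c : ℤ) {p : ℕ} (hp : p.Prime) : FA.JacobiST.normTrace l c p =
    ((p : ℝ) - Nat.card {z : ZMod p × ZMod p // z.2 ^ 2 = z.1 ^ l + (c : ZMod p)}) / Real.sqrt p := by
  rw [FA.JacobiST.normTrace, dif_pos hp]
  rfl

/-- **The points at `p ≡ 1` by Jacobi sums.** -/
theorem hyperelliptic_points (hl2 : l ≠ 2) (φ : K →+* ℂ) {c : ℤ} (hc : c ≠ 0) {p : ℕ}
    (hp : p.Prime) (hp1 : p % l = 1) (hpc : ¬ p ∣ 2 * c.natAbs) {v : HeightOneSpectrum (𝓞 K)}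
    (hv : (p : 𝓞 K) ∈ v.asIdeal) :
    (Nat.card {z : ZMod p × ZMod p // z.2 ^ 2 = z.1 ^ l + (c : ZMod p)} : ℂ) =
      (p : ℂ) - (jacobiSym c p : ℂ) * ∑ t ∈ Finset.Icc 1 (l - 1),
        φ ((symbolPrime l v.asIdeal ((4 * c : ℤ) : 𝓞 K) ^ t * jacobiPrime l t t v.asIdeal : 𝓞 K) : K) := by
  have := Fact.mk hp
  have : NeZero l := ⟨hl.out.ne_zero⟩
  have hql : p ≠ l := fun e => by rw [e, Nat.mod_self] at hp1; exact zero_ne_one hp1
  have hN : Ideal.absNorm v.asIdeal = p := by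
    rw [FA.GaussValuation.absNorm_eq (m := l) hv fun e => hql ((Nat.prime_dvd_prime_iff_eq hp hl.out).1 e),
      orderOf_eq_one_iff.2 (show (p : ZMod l) = 1 by rw [← ZMod.natCast_mod, hp1, Nat.cast_one]),
      pow_one]
  subst hN
  have hgood := FA.JacobiST.isGood_of_goodPrime hc (v := v) ⟨hp, hp1, hpc⟩
  have := v.isMaximal
  have h := FA.JacobiST.normTrace_eq_angles hl2 φ hgood hp
  rw [hyperelliptic_normTrace_eq_card c hp, Complex.ofReal_div, Complex.ofReal_sub, Complex.ofReal_natCast,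
    Complex.ofReal_natCast] at h
  simp only [FA.JacobiST.angleVal, FA.FermatTwist.twistValue,
    FA.PowerReciprocity.symbolPrime_one hgood.1, one_pow, mul_one] at h
  rw [← Finset.sum_div, ← Finset.mul_sum, div_left_inj'] at h
  · rw [← h, sub_sub_cancel]
  · exact Complex.ofReal_ne_zero.2 (Real.sqrt_ne_zero'.2 (Nat.cast_pos.2 hp.pos))

/-- The primes `p ≡ 1` have density `1 / (l - 1)`. -/
theorem tendsto_log_card_primesOne (hl2 : l ≠ 2) :
    Tendsto (fun N : ℕ => Real.log N / N * ((FA.JacobiST.primesOne l N).card : ℝ)) atTop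
      (𝓝 (1 / (l - 1 : ℝ))) := by
  have := FA.BiluTorus.isProbability_torus (ι := Fin (l / 2))
  have h := FA.JacobiST.tendsto_sum_primesOne hl2 (c := 1) one_ne_zero (ContinuousMap.const ℝ 1)
  simpa using h

theorem jacobiSatoTate_cube_integral (F : C(ℝ, ℝ)) :
    ∫ θ, F (FA.JacobiST.torusTrace l θ) = ∫ x in Set.univ.pi fun _ : Fin (l / 2) => Set.Ioc (0 : ℝ) 1,
      F (∑ i, 2 * Real.cos (2 * π * x i)) := by
  rw [show (fun θ => F (FA.JacobiST.torusTrace l θ)) = ⇑(F.comp (FA.JacobiST.torusTrace l)) from rfl,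
    FA.JacobiST.integral_torus]
  simp only [ContinuousMap.comp_apply, FA.JacobiST.torusTrace_coe]

/-- **Sato–Tate at `p ≡ 1`.** -/
theorem satoTate_hyperelliptic_split (hl2 : l ≠ 2) {c : ℤ} (hc : c ≠ 0) (F : C(ℝ, ℝ)) :
    Tendsto (fun N : ℕ =>
      (∑ p ∈ ((Finset.range (N + 1)).filter Nat.Prime).filter (fun p => p % l = 1),
        F (((p : ℝ) - Nat.card {z : ZMod p × ZMod p // z.2 ^ 2 = z.1 ^ l + (c : ZMod p)}) /
          Real.sqrt p)) /
        (((Finset.range (N + 1)).filter Nat.Prime).filter fun p => p % l = 1).card) atTop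
      (𝓝 (∫ x in Set.univ.pi fun _ : Fin (l / 2) => Set.Ioc (0 : ℝ) 1,
        F (∑ i, 2 * Real.cos (2 * π * x i)))) := by
  rw [← jacobiSatoTate_cube_integral]
  have hl1 : (l - 1 : ℝ) ≠ 0 := sub_ne_zero.2 (by exact_mod_cast hl.out.one_lt.ne')
  have h := (FA.JacobiST.tendsto_sum_primesOne hl2 hc F).div (tendsto_log_card_primesOne hl2)
    (one_div_ne_zero hl1)
  rw [div_div_div_cancel_right₀ hl1, div_one] at h
  refine h.congr' ?_
  filter_upwards [eventually_gt_atTop 1] with N hN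
  have hlog : Real.log N / N ≠ 0 :=
    (div_pos (Real.log_pos (by exact_mod_cast hN)) (by exact_mod_cast (zero_lt_one.trans hN))).ne'
  rw [Pi.div_apply, mul_div_mul_left _ _ hlog, FA.JacobiST.primesOne]
  congr 1
  exact Finset.sum_congr rfl fun p hp => by
    rw [hyperelliptic_normTrace_eq_card c (Finset.mem_filter.1 (Finset.mem_filter.1 hp).1).2]

/-- **Sato–Tate for `y² = x ^ l + c`, at all primes.** -/
theorem satoTate_hyperelliptic (hl2 : l ≠ 2) {c : ℤ} (hc : c ≠ 0) (F : C(ℝ, ℝ)) :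
    Tendsto (fun N : ℕ =>
      (∑ p ∈ (Finset.range (N + 1)).filter Nat.Prime,
        F (((p : ℝ) - Nat.card {z : ZMod p × ZMod p // z.2 ^ 2 = z.1 ^ l + (c : ZMod p)}) /
          Real.sqrt p)) / ((Finset.range (N + 1)).filter Nat.Prime).card) atTop
      (𝓝 ((1 - 1 / (l - 1 : ℝ)) * F 0 + 1 / (l - 1 : ℝ) *
        ∫ x in Set.univ.pi fun _ : Fin (l / 2) => Set.Ioc (0 : ℝ) 1,
          F (∑ i, 2 * Real.cos (2 * π * x i)))) := by
  rw [← jacobiSatoTate_cube_integral]
  have h1 := FA.JacobiST.tendsto_sum_primesOne hl2 hc F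
  have h2 := ((tendsto_log_card_primes.sub (tendsto_log_card_primesOne hl2)).mul_const (F 0)).add h1
  have h3 : Tendsto (fun N : ℕ => Real.log N / N * ∑ p ∈ (Finset.range (N + 1)).filter Nat.Prime,
      F (FA.JacobiST.normTrace l c p)) atTop
      (𝓝 ((1 - 1 / (l - 1 : ℝ)) * F 0 + 1 / (l - 1 : ℝ) * ∫ θ, F (FA.JacobiST.torusTrace l θ))) := by
    rw [one_div_mul_eq_div]
    refine h2.congr fun N => ?_
    rw [← mul_sub, mul_assoc, ← mul_add]
    congr 1
    rw [← Finset.sum_filter_add_sum_filter_not ((Finset.range (N + 1)).filter Nat.Prime)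
      (fun p => p % l = 1) (fun p => F (FA.JacobiST.normTrace l c p)),
      Finset.sum_congr rfl (fun p hp => by
        rw [FA.JacobiST.normTrace_eq_zero c (Finset.mem_filter.1 hp).2] :
        ∀ p ∈ ((Finset.range (N + 1)).filter Nat.Prime).filter (fun p => ¬ p % l = 1),
          F (FA.JacobiST.normTrace l c p) = F 0),
      Finset.sum_const, nsmul_eq_mul, add_comm]
    have e := Finset.card_filter_add_card_filter_not (s := (Finset.range (N + 1)).filter Nat.Prime)
      (fun p => p % l = 1)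
    rw [← e, FA.JacobiST.primesOne, Nat.cast_add]
    ring
  have h := h3.div tendsto_log_card_primes one_ne_zero
  rw [div_one] at h
  refine h.congr' ?_
  filter_upwards [eventually_gt_atTop 1] with N hN
  have hlog : Real.log N / N ≠ 0 :=
    (div_pos (Real.log_pos (by exact_mod_cast hN)) (by exact_mod_cast (zero_lt_one.trans hN))).ne'
  rw [Pi.div_apply, mul_div_mul_left _ _ hlog]
  congr 1
  exact Finset.sum_congr rfl fun p hp => by rw [hyperelliptic_normTrace_eq_card c (Finset.mem_filter.1 hp).2]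

/-- **Weil's bound.** -/
theorem hyperelliptic_weil_bound (hl2 : l ≠ 2) {c : ℤ} (hc : c ≠ 0) {p : ℕ} (hp : p.Prime)
    (hpc : ¬ p ∣ 2 * c.natAbs) :
    |(p : ℝ) - Nat.card {z : ZMod p × ZMod p // z.2 ^ 2 = z.1 ^ l + (c : ZMod p)}| ≤
      (l - 1 : ℝ) * Real.sqrt p := by
  have hs : 0 < Real.sqrt p := Real.sqrt_pos.2 (Nat.cast_pos.2 hp.pos)
  rw [← div_le_iff₀ hs]
  rw [← abs_of_pos hs, ← abs_div, ← hyperelliptic_normTrace_eq_card c hp]
  have hl1 : (0 : ℝ) ≤ (l - 1 : ℝ) := sub_nonneg.2 (by exact_mod_cast hl.out.one_le)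
  by_cases hp1 : p % l = 1
  swap
  · rwa [FA.JacobiST.normTrace_eq_zero c hp1, abs_zero]
  let L := CyclotomicField l ℚ
  have : NeZero l := ⟨hl.out.ne_zero⟩
  have : IsCyclotomicExtension {l} ℚ L := CyclotomicField.isCyclotomicExtension l ℚ
  obtain ⟨φ⟩ : Nonempty (L →+* ℂ) := inferInstance
  have := Fact.mk hp
  obtain ⟨v, hv⟩ := FA.FermatHW.exists_prime_over (K := L) p
  have hN : Ideal.absNorm v.asIdeal = p := by
    rw [FA.GaussValuation.absNorm_eq (m := l) hv fun e => by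
        rw [(Nat.prime_dvd_prime_iff_eq hp hl.out).1 e, Nat.mod_self] at hp1; exact zero_ne_one hp1,
      orderOf_eq_one_iff.2 (show (p : ZMod l) = 1 by rw [← ZMod.natCast_mod, hp1, Nat.cast_one]),
      pow_one]
  subst hN
  have hgood := FA.JacobiST.isGood_of_goodPrime hc (v := v) ⟨hp, hp1, hpc⟩
  rw [FA.JacobiST.normTrace_eq_torusTrace hl2 φ hgood hp, FA.JacobiST.torusTrace_apply]
  refine (Finset.abs_sum_le_sum_abs _ _).trans ((Finset.sum_le_sum (g := fun _ => (2 : ℝ))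
    fun i _ => ?_).trans (le_of_eq ?_))
  · rw [abs_mul, abs_two]
    refine mul_le_of_le_one_right zero_le_two ((Complex.abs_re_le_norm _).trans (le_of_eq ?_))
    rw [fourier_apply, Circle.norm_coe]
  · rw [Finset.sum_const, Finset.card_univ, Fintype.card_fin, nsmul_eq_mul]
    have hodd := Nat.odd_iff.1 (hl.out.odd_of_ne_two hl2)
    have e : (((2 * (l / 2) + 1 : ℕ)) : ℝ) = (l : ℝ) := by congr 1; omega
    push_cast at e
    linarith

/-- **Weil's bound is asymptotically attained.** -/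
theorem hyperelliptic_weil_bound_sharp (hl2 : l ≠ 2) {c : ℤ} (hc : c ≠ 0) {ε : ℝ} (hε : 0 < ε) :
    {p : ℕ | p.Prime ∧ (p : ℝ) + (l - 1 - ε) * Real.sqrt p <
      Nat.card {z : ZMod p × ZMod p // z.2 ^ 2 = z.1 ^ l + (c : ZMod p)}}.Infinite ∧
    {p : ℕ | p.Prime ∧ (Nat.card {z : ZMod p × ZMod p // z.2 ^ 2 = z.1 ^ l + (c : ZMod p)} : ℝ) <
      (p : ℝ) - (l - 1 - ε) * Real.sqrt p}.Infinite := by
  have hodd := Nat.odd_iff.1 (hl.out.odd_of_ne_two hl2)
  have e : (((2 * (l / 2) + 1 : ℕ)) : ℝ) = (l : ℝ) := by congr 1; omega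
  push_cast at e
  refine ⟨(FA.JacobiST.infinite_primes_trace hl2 hc (isOpen_Iio (a := -((l : ℝ) - 1 - ε)))
    ⟨fun _ => ((1 / 2 : ℝ) : AddCircle (1 : ℝ)), ?_⟩).mono ?_,
    (FA.JacobiST.infinite_primes_trace hl2 hc (isOpen_Ioi (a := (l : ℝ) - 1 - ε))
    ⟨fun _ => ((0 : ℝ) : AddCircle (1 : ℝ)), ?_⟩).mono ?_⟩
  · rw [Set.mem_Iio, FA.JacobiST.torusTrace_coe fun _ => (1 / 2 : ℝ),
      show 2 * π * (1 / 2 : ℝ) = π by ring, Real.cos_pi, Finset.sum_const, Finset.card_univ,
      Fintype.card_fin, nsmul_eq_mul]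
    linarith
  · rintro p ⟨hp, -, hlt⟩
    rw [Set.mem_Iio, hyperelliptic_normTrace_eq_card c hp, div_lt_iff₀ (Real.sqrt_pos.2 (Nat.cast_pos.2 hp.pos))]
      at hlt
    exact ⟨hp, by linarith⟩
  · rw [Set.mem_Ioi, FA.JacobiST.torusTrace_coe fun _ => (0 : ℝ), mul_zero, Real.cos_zero,
      Finset.sum_const, Finset.card_univ, Fintype.card_fin, nsmul_eq_mul]
    linarith
  · rintro p ⟨hp, -, hlt⟩
    rw [Set.mem_Ioi, hyperelliptic_normTrace_eq_card c hp, lt_div_iff₀ (Real.sqrt_pos.2 (Nat.cast_pos.2 hp.pos))]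
      at hlt
    exact ⟨hp, by linarith⟩

end FA.Summary

end
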