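import Fermat.Agent.FermatTate.LFunction
import Fermat.Agent.FermatTate.Surface
import Fermat.Agent.Root.SummaryJacobiSatoTate

/-!
# Tate's conjecture, analytic form, for the Fermat varieties of prime degree

Let `l` be an odd prime, `K = ℚ(ζ_l)` and `X` the variety `∑ x i ^ l = 0` in `2 d + 2` homogeneous
unknowns, of dimension `2 d`.  Its tuples are the `a : Fin (2 d + 2) → ℤ / l` with nonzero entries
and sum `0` (`FA.FermatTate.tuples`); a tuple is paired if it takes each value as often as the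
opposite one.  `ω_a v` (`FA.FermatTate.omega`) is the product of the `- g (χ_v ^ a i)` over `N v`.

* `hodge_tuple_iff`: all residue sums `∑ (a i s mod l)` are `m l / 2` exactly for the paired tuples.
* `fermatVariety_character`, `fermatVariety_paired`: `N v ω_a v` is an algebraic Hecke character of
  weight `2 d + 2` with known exponents, and `ω_a v = N v ^ d` for paired `a`.
* `fermatVariety_points`: `#X (k_v) = ∑_{j ≤ 2 d} N v ^ j + ∑_a ω_a v` off `l`; the number on the left
  is by definition `FA.FermatTate.varietyPoints l (2 * d + 2) v`.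
* `fermatVariety_mean`: `(#X (k_v) - ∑_{j ≤ 2 d} N v ^ j) / N v ^ d` has over the primes the number
  of paired tuples as mean.
* `fermatVariety_tate`: `∏_v ∏_a (1 - ω_a v N v ^ (-s))⁻¹` continues to a meromorphic function with
  a pole of exactly that order at `d + 1`, no other pole and no zero on `d + 1 ≤ re s`.
* `fermatSurface_rho`: for surfaces that order is `3 (l - 1) (l - 2)`.

Algebraic cycles, cohomology, other coefficients and composite degrees are not discussed, nor is a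
functional equation.
-/

set_option autoImplicit false
set_option linter.unusedSectionVars false

noncomputable section

open NumberField IsDedekindDomain Filter Topology
open FA.FermatTate (tuples omega varietyPoints)
open scoped Classical

namespace FA.Summary

universe u

variable {l : ℕ} [hl : Fact l.Prime]

/-- **Parry, Shioda.** -/
theorem hodge_tuple_iff (hl2 : l ≠ 2) {m : ℕ} {a : Fin m → ZMod l} (ha : ∀ i, a i ≠ 0) :
    (∀ s : ZMod l, s ≠ 0 → 2 * ∑ i, (a i * s).val = m * l) ↔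
      ∀ x : ZMod l, (Finset.univ.filter fun i => a i = x).card =
        (Finset.univ.filter fun i => a i = -x).card :=
  FA.FermatTate.isHodge_iff_isPaired hl2 ha

theorem fermatTate_rho_eq (d : ℕ) : FA.FermatTate.rho l d = ((tuples l (2 * d + 2)).filter fun a =>
    ∀ x : ZMod l, (Finset.univ.filter fun i => a i = x).card =
      (Finset.univ.filter fun i => a i = -x).card).card := by
  rw [FA.FermatTate.rho]
  congr 1
  ext a
  simp [FA.FermatTate.IsPaired]

/-- **The paired tuples of a surface.** -/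
theorem fermatSurface_rho (hl2 : l ≠ 2) : ((tuples l 4).filter fun a =>
    ∀ x : ZMod l, (Finset.univ.filter fun i => a i = x).card =
      (Finset.univ.filter fun i => a i = -x).card).card = 3 * (l - 1) * (l - 2) :=
  (fermatTate_rho_eq 1).symm.trans (FA.FermatTate.rho_one hl2)

variable {K : Type u} [Field K] [NumberField K] [IsCyclotomicExtension {l} ℚ K]

theorem fermatTate_sOf_eq (φ : K →+* ℂ) {z : K} (hz : IsPrimitiveRoot z l) (σ : K →+* ℂ) {r : ℕ}
    (hr : φ z = σ z ^ r) : (r : ZMod l) = FA.FermatTate.sOf φ l σ := by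
  have : NeZero l := ⟨hl.out.ne_zero⟩
  obtain ⟨g, rfl⟩ := (FA.FermatHW.embEquiv φ l).surjective σ
  rw [FA.FermatHW.embEquiv_apply, ← map_pow, ← map_pow] at hr
  have h1 : g z = z ^ r := (congrArg g (φ.injective hr)).trans (g.apply_symm_apply _)
  rw [IsCyclotomicExtension.Rat.galEquivZMod_apply_of_pow_eq l K g hz.pow_eq_one,
    (isOfFinOrder_iff_pow_eq_one.2 ⟨l, hl.out.pos, hz.pow_eq_one⟩).pow_eq_pow_iff_modEq,
    ← hz.eq_orderOf] at h1
  rw [FA.FermatTate.sOf, Equiv.symm_apply_apply, ZMod.natCast_eq_natCast_iff]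
  exact h1.symm

/-- **The characters of the tuples.** -/
theorem fermatVariety_character (hl2 : l ≠ 2) (φ : K →+* ℂ) {z : K} (hz : IsPrimitiveRoot z l)
    {d : ℕ} {a : Fin (2 * d + 2) → ZMod l} (ha : a ∈ tuples l (2 * d + 2)) :
    ∃ (𝔪 : Ideal (𝓞 K)) (n : (K →+* ℂ) → ℤ) (f : Ideal (𝓞 K) →* ℂ),
      FA.AlgHecke.IsAlgChar 𝔪 n f ∧ FA.AlgHecke.IsPure n (2 * d + 2) ∧
      (∀ (σ : K →+* ℂ) (r : ℕ), φ z = σ z ^ r →
        (l : ℤ) * n σ = (2 * d + 2) * l - ((∑ i, (a i * (r : ZMod l)).val : ℕ) : ℤ)) ∧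
      (∀ v : HeightOneSpectrum (𝓞 K),
        f v.asIdeal = ((Ideal.absNorm v.asIdeal : ℕ) : ℂ) * omega φ l a v) ∧
      ∀ v : HeightOneSpectrum (𝓞 K), (l : 𝓞 K) ∈ v.asIdeal → omega φ l a v = 0 := by
  obtain ⟨ha0, ha1⟩ := FA.FermatTate.mem_tuples.1 ha
  refine ⟨_, _, _, FA.FermatTate.isAlgChar_tupleChar hl2 φ ha0, ?_, fun σ r hr => ?_, fun v => ?_,
    fun v hv => ?_⟩
  · exact_mod_cast FA.FermatTate.tupleType_pure φ ha0 ha1
  · rw [fermatTate_sOf_eq φ hz σ hr, FA.FermatTate.mul_tupleType φ ha0 ha1]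
    rw [FA.FermatTate.residueSum]
    push_cast
    rfl
  · rw [omega, mul_div_cancel₀ _ (Nat.cast_ne_zero.2 (Ideal.absNorm_eq_zero_iff.not.2 v.ne_bot))]
  · rw [omega, FA.FermatTate.tupleChar_apply, FA.FermatTate.oneChar_apply,
      if_neg fun hc => FA.PowerReciprocity.natCast_notMem v.isPrime.ne_top hc hv, zero_mul, zero_div]

/-- **The paired tuples give `N v ^ d`.** -/
theorem fermatVariety_paired (hl2 : l ≠ 2) (φ : K →+* ℂ) {d : ℕ} {a : Fin (2 * d + 2) → ZMod l}
    (ha : a ∈ tuples l (2 * d + 2))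
    (hp : ∀ x : ZMod l, (Finset.univ.filter fun i => a i = x).card =
      (Finset.univ.filter fun i => a i = -x).card)
    {v : HeightOneSpectrum (𝓞 K)} (hv : (l : 𝓞 K) ∉ v.asIdeal) :
    omega φ l a v = ((Ideal.absNorm v.asIdeal : ℕ) : ℂ) ^ d := by
  rw [omega, (FA.FermatTate.exists_tupleChar_prime hl2 φ hv).1 _ a ha hp,
    show (2 * d + 2) / 2 = d + 1 by omega, pow_succ,
    mul_div_cancel_right₀ _ (Nat.cast_ne_zero.2 (Ideal.absNorm_eq_zero_iff.not.2 v.ne_bot))]

/-- **The points.** -/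
theorem fermatVariety_points (hl2 : l ≠ 2) (φ : K →+* ℂ) (d : ℕ) {v : HeightOneSpectrum (𝓞 K)}
    (hv : (l : 𝓞 K) ∉ v.asIdeal) :
    haveI := v.isMaximal
    letI := Ideal.Quotient.field v.asIdeal
    (Nat.card {p : Projectivization (𝓞 K ⧸ v.asIdeal) (Fin (2 * d + 2) → 𝓞 K ⧸ v.asIdeal) //
        ∑ i, p.rep i ^ l = 0} : ℂ) =
      ∑ j ∈ Finset.range (2 * d + 1), ((Ideal.absNorm v.asIdeal : ℕ) : ℂ) ^ j +
        ∑ a ∈ tuples l (2 * d + 2), omega φ l a v := by
  have h := (FA.FermatTate.exists_tupleChar_prime hl2 φ hv).2 (2 * d + 2) (by omega)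
  rw [show 2 * d + 2 - 1 = 2 * d + 1 by omega, Even.neg_one_pow ⟨d + 1, by ring⟩, one_mul,
    Finset.sum_div] at h
  exact h

/-- **The mean of the traces.** -/
theorem fermatVariety_mean (hl2 : l ≠ 2) (φ : K →+* ℂ) (d : ℕ) :
    Tendsto (fun N : ℕ => ((Real.log N / N : ℝ) : ℂ) *
      ∑' v : {v : HeightOneSpectrum (𝓞 K) // Ideal.absNorm v.asIdeal ≤ N},
        ((varietyPoints l (2 * d + 2) v.1 : ℂ) -
          ∑ j ∈ Finset.range (2 * d + 1), ((Ideal.absNorm v.1.asIdeal : ℕ) : ℂ) ^ j) /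
          ((Ideal.absNorm v.1.asIdeal : ℕ) : ℂ) ^ d) atTop
      (𝓝 ((((tuples l (2 * d + 2)).filter fun a => ∀ x : ZMod l,
        (Finset.univ.filter fun i => a i = x).card =
          (Finset.univ.filter fun i => a i = -x).card).card : ℕ) : ℂ)) := by
  rw [← fermatTate_rho_eq]
  have h : FA.Hecke.HasMean (fun v : HeightOneSpectrum (𝓞 K) =>
      FA.FermatTate.normalisedTrace l d v) (FA.FermatTate.rho l d : ℂ) :=
    FA.FermatTate.hasMean_normalisedTrace hl2 φ
  refine (h.comp tendsto_natCast_atTop_atTop).congr fun N => ?_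
  rw [Function.comp_apply, FA.Hecke.wSum, Nat.floor_natCast, Complex.real_smul]
  congr 1
  rw [← Finset.tsum_subtype]
  exact (Equiv.subtypeEquivRight fun v => FA.Hecke.mem_primesLE).tsum_eq
    (fun v : {v : HeightOneSpectrum (𝓞 K) // Ideal.absNorm v.asIdeal ≤ N} =>
      FA.FermatTate.normalisedTrace l d v.1)

/-- **Tate's conjecture, analytic form.** -/
theorem fermatVariety_tate (hl2 : l ≠ 2) (φ : K →+* ℂ) (d : ℕ) :
    ∃ L : ℂ → ℂ,
      (∀ s : ℂ, (d : ℝ) + 1 < s.re → HasProd (fun v : HeightOneSpectrum (𝓞 K) =>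
        ∏ a ∈ tuples l (2 * d + 2),
          (1 - omega φ l a v * ((Ideal.absNorm v.asIdeal : ℕ) : ℂ) ^ (-s))⁻¹) (L s)) ∧
      MeromorphicOn L Set.univ ∧
      meromorphicOrderAt L ((d : ℂ) + 1) =
        ((-((((tuples l (2 * d + 2)).filter fun a => ∀ x : ZMod l,
          (Finset.univ.filter fun i => a i = x).card =
            (Finset.univ.filter fun i => a i = -x).card).card : ℕ) : ℤ) : ℤ) : WithTop ℤ) ∧
      (∀ s : ℂ, s ≠ (d : ℂ) + 1 → AnalyticAt ℂ L s) ∧
      ∀ s : ℂ, (d : ℝ) + 1 ≤ s.re → s ≠ (d : ℂ) + 1 → L s ≠ 0 := by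
  rw [← fermatTate_rho_eq]
  exact FA.FermatTate.exists_lFunction hl2 φ d

end FA.Summary

end
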