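import Fermat.Agent.FermatTwist.Main

/-!
# Hasse's conjecture for the twisted Fermat curves over `ℚ` (Weil, 1952)

Let `l` be an odd prime, `a`, `b`, `c` non-zero integers, `g = (l - 1) (l - 2) / 2` and, for a prime
`p ∤ l a b c`, let `α_{p,i}`, `i < 2 g`, be the numbers such that `a x ^ l + b y ^ l = c z ^ l` has
`p ^ d + 1 - ∑ i, α_{p,i} ^ d` points in the projective plane over every field with `p ^ d` elements.
They have absolute value `√p`.  With finitely many factors `(1 - e n ^ (-s))⁻¹`, `n` supported on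
the primes dividing `l a b c`, and `A` supported on the same primes, `A ^ (s / 2) Γℂ (s) ^ g L`
extends to an entire `Λ` with `Λ s = ± Λ (2 - s)`, without zeros on `3 / 2 ≤ re s`; so `L (C, s)`
extends to an entire function without zeros there.  For `3 x ^ 3 + 4 y ^ 3 + 5 z ^ 3 = 0` this is
the L-function of Selmer's curve.
-/

set_option autoImplicit false
set_option linter.unusedSectionVars false

noncomputable section

open NumberField
open scoped Classical LinearAlgebra.Projectivization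

namespace FA.Root.FermatTwistSummary

universe w

variable (l : ℕ) [hl : Fact l.Prime]

/-- **Hasse's conjecture for `a x ^ l + b y ^ l = c z ^ l` over `ℚ`.** -/
theorem fermatTwist_hasseWeil_functional_equation (hl2 : l ≠ 2) {a b c : ℤ} (ha : a ≠ 0)
    (hb : b ≠ 0) (hc : c ≠ 0) :
    ∃ (α : Nat.Primes → Fin ((l - 1) * (l - 2)) → ℂ) (r : ℕ) (e : Fin r → ℂ) (n : Fin r → ℕ)
      (A : ℕ) (W : ℂ) (Λ : ℂ → ℂ),
      (∀ p : Nat.Primes, ¬ ((p : ℕ) : ℤ) ∣ l * a * b * c → (∀ i, ‖α p i‖ ^ 2 = (p : ℝ)) ∧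
        ∀ (E : Type w) [Field E] [Finite E] (d : ℕ), Nat.card E = (p : ℕ) ^ d →
          (Nat.card {P : ℙ E (Fin 3 → E) //
              (a : E) * P.rep 0 ^ l + (b : E) * P.rep 1 ^ l = (c : E) * P.rep 2 ^ l} : ℂ) =
            (p : ℂ) ^ d + 1 - ∑ i, α p i ^ d) ∧
      (∀ i, 1 < n i ∧ (∀ q : ℕ, q.Prime → q ∣ n i → (q : ℤ) ∣ l * a * b * c) ∧
        (e i = 0 ∨ ‖e i‖ ^ 2 = (n i : ℝ))) ∧
      0 < A ∧ (∀ q : ℕ, q.Prime → q ∣ A → (q : ℤ) ∣ l * a * b * c) ∧ (W = 1 ∨ W = -1) ∧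
      Differentiable ℂ Λ ∧
      (∀ s : ℂ, 3 / 2 < s.re → ∃ L : ℂ, L ≠ 0 ∧
        HasProd (fun p : {p : Nat.Primes // ¬ ((p : ℕ) : ℤ) ∣ l * a * b * c} =>
          (∏ i, (1 - α p.1 i * (p.1 : ℂ) ^ (-s)))⁻¹) L ∧
        Λ s = ((A : ℝ) : ℂ) ^ (s / 2) * Complex.Gammaℂ s ^ ((l - 1) * (l - 2) / 2) *
          ((∏ i, (1 - e i * (n i : ℂ) ^ (-s)))⁻¹ * L)) ∧
      (∀ s : ℂ, 3 / 2 ≤ s.re → Λ s ≠ 0) ∧ ∀ s : ℂ, Λ s = W * Λ (2 - s) := by
  have : NeZero l := ⟨hl.out.ne_zero⟩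
  let K := CyclotomicField l ℚ
  have : IsCyclotomicExtension {l} ℚ K := CyclotomicField.isCyclotomicExtension l ℚ
  have : NumberField K := IsCyclotomicExtension.numberField {l} ℚ K
  obtain ⟨φ⟩ : Nonempty (K →+* ℂ) := inferInstance
  exact FA.FermatTwist.exists_hasseWeilTwist.{0, w} hl2 φ ha hb hc

/-- **The Hasse-Weil L-function of a twisted Fermat curve is entire, without zeros on
`3 / 2 ≤ re s`.** -/
theorem fermatTwist_hasseWeil_entire (hl2 : l ≠ 2) {a b c : ℤ} (ha : a ≠ 0) (hb : b ≠ 0)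
    (hc : c ≠ 0) :
    ∃ (α : Nat.Primes → Fin ((l - 1) * (l - 2)) → ℂ) (E : ℂ → ℂ),
      (∀ p : Nat.Primes, ¬ ((p : ℕ) : ℤ) ∣ l * a * b * c →
        ∀ (F : Type w) [Field F] [Finite F] (d : ℕ), Nat.card F = (p : ℕ) ^ d →
          (Nat.card {P : ℙ F (Fin 3 → F) //
              (a : F) * P.rep 0 ^ l + (b : F) * P.rep 1 ^ l = (c : F) * P.rep 2 ^ l} : ℂ) =
            (p : ℂ) ^ d + 1 - ∑ i, α p i ^ d) ∧
      Differentiable ℂ E ∧
      (∀ s : ℂ, 3 / 2 < s.re →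
        HasProd (fun p : {p : Nat.Primes // ¬ ((p : ℕ) : ℤ) ∣ l * a * b * c} =>
          (∏ i, (1 - α p.1 i * (p.1 : ℂ) ^ (-s)))⁻¹) (E s)) ∧
      ∀ s : ℂ, 3 / 2 ≤ s.re → E s ≠ 0 := by
  obtain ⟨α, r, e, n, A, W, Λ, h1, hn, hA0, -, -, hΛ, hL, hnz, -⟩ :=
    fermatTwist_hasseWeil_functional_equation.{w} l hl2 ha hb hc
  set g := (l - 1) * (l - 2) / 2
  have hA : ((A : ℝ) : ℂ) ≠ 0 := Complex.ofReal_ne_zero.2 (Nat.cast_ne_zero.2 hA0.ne')
  have hfac : ∀ s : ℂ, 3 / 2 ≤ s.re → ∀ i, 1 - e i * (n i : ℂ) ^ (-s) ≠ 0 := fun s hs i h => by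
    obtain ⟨hn1, -, h2⟩ := hn i
    have hn1' : (1 : ℝ) < n i := Nat.one_lt_cast.2 hn1
    have h3 : ‖e i * (n i : ℂ) ^ (-s)‖ = 1 := by rw [← sub_eq_zero.1 h, norm_one]
    rcases h2 with h2 | h2
    · rw [h2, zero_mul, norm_zero] at h3
      exact zero_ne_one h3
    · rw [norm_mul, Complex.norm_natCast_cpow_of_pos (by omega), Complex.neg_re,
        Real.rpow_neg (Nat.cast_nonneg _), ← Real.sqrt_sq (norm_nonneg (e i)), h2,
        Real.sqrt_eq_rpow, ← div_eq_mul_inv, ← Real.rpow_sub (by linarith)] at h3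
      exact (Real.rpow_lt_one_of_one_lt_of_neg hn1' (by linarith)).ne h3
  refine ⟨α, fun s => Λ s * ((A : ℝ) : ℂ) ^ (-(s / 2)) *
    ((2 * (Real.pi : ℂ)) ^ s / 2 * (Complex.Gamma s)⁻¹) ^ g * ∏ i, (1 - e i * (n i : ℂ) ^ (-s)),
    fun p hp F _ _ => (h1 p hp).2 F, ?_, fun s hs => ?_, fun s hs => ?_⟩
  · refine ((hΛ.mul ((differentiable_id.div_const 2).neg.const_cpow (Or.inl hA))).mul
      (((((differentiable_id).const_cpow (Or.inl (by simp [Real.pi_ne_zero]))).div_const 2).mul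
        Complex.differentiable_one_div_Gamma).pow _)).mul
      (Differentiable.fun_finsetProd fun i _ => ((differentiable_id.neg.const_cpow
        (Or.inl (Nat.cast_ne_zero.2 (by have := (hn i).1; omega)))).const_mul _).const_sub _)
  · obtain ⟨L, -, hp, he⟩ := hL s hs
    convert hp using 1
    beta_reduce
    rw [he, Complex.Gammaℂ_def]
    have hX : (∏ i, (1 - e i * (n i : ℂ) ^ (-s))) ≠ 0 :=
      Finset.prod_ne_zero_iff.2 fun i _ => hfac s hs.le i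
    simp only [Complex.cpow_neg] at hX ⊢
    have hg : Complex.Gamma s ≠ 0 := Complex.Gamma_ne_zero_of_re_pos (by linarith)
    have h2 : (2 * (Real.pi : ℂ)) ^ s ≠ 0 :=
      Complex.cpow_ne_zero_iff.2 (Or.inl (by simp [Real.pi_ne_zero]))
    have hAs : ((A : ℝ) : ℂ) ^ (s / 2) ≠ 0 := Complex.cpow_ne_zero_iff.2 (Or.inl hA)
    have hu : (2 * ((2 * (Real.pi : ℂ)) ^ s)⁻¹ * Complex.Gamma s) ^ g *
        ((2 * (Real.pi : ℂ)) ^ s / 2 * (Complex.Gamma s)⁻¹) ^ g = 1 := by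
      rw [← mul_pow]
      field_simp
      simp
    linear_combination
      (L * (((A : ℝ) : ℂ) ^ (s / 2) * (((A : ℝ) : ℂ) ^ (s / 2))⁻¹) *
        ((∏ i, (1 - e i * ((n i : ℂ) ^ s)⁻¹))⁻¹ * ∏ i, (1 - e i * ((n i : ℂ) ^ s)⁻¹))) * hu +
      (L * ((∏ i, (1 - e i * ((n i : ℂ) ^ s)⁻¹))⁻¹ * ∏ i, (1 - e i * ((n i : ℂ) ^ s)⁻¹))) *
        mul_inv_cancel₀ hAs + L * inv_mul_cancel₀ hX
  · exact mul_ne_zero (mul_ne_zero (mul_ne_zero (hnz s hs)
      (Complex.cpow_ne_zero_iff.2 (Or.inl hA))) (pow_ne_zero _ (mul_ne_zero (div_ne_zero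
        (Complex.cpow_ne_zero_iff.2 (Or.inl (by simp [Real.pi_ne_zero]))) two_ne_zero)
        (inv_ne_zero (Complex.Gamma_ne_zero_of_re_pos (by linarith))))))
      (Finset.prod_ne_zero_iff.2 fun i _ => hfac s hs i)

/-- **Selmer's curve `3 x ^ 3 + 4 y ^ 3 + 5 z ^ 3 = 0`.** -/
theorem selmerCurve_hasseWeil_entire :
    ∃ (α : Nat.Primes → Fin 2 → ℂ) (E : ℂ → ℂ),
      (∀ p : Nat.Primes, 5 < (p : ℕ) →
        ∀ (F : Type w) [Field F] [Finite F] (d : ℕ), Nat.card F = (p : ℕ) ^ d →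
          (Nat.card {P : ℙ F (Fin 3 → F) //
              3 * P.rep 0 ^ 3 + 4 * P.rep 1 ^ 3 + 5 * P.rep 2 ^ 3 = 0} : ℂ) =
            (p : ℂ) ^ d + 1 - ∑ i, α p i ^ d) ∧
      Differentiable ℂ E ∧
      (∀ s : ℂ, 3 / 2 < s.re →
        HasProd (fun p : {p : Nat.Primes // 5 < (p : ℕ)} =>
          (∏ i, (1 - α p.1 i * (p.1 : ℂ) ^ (-s)))⁻¹) (E s)) ∧
      ∀ s : ℂ, 3 / 2 ≤ s.re → E s ≠ 0 := by
  have : Fact (Nat.Prime 3) := ⟨Nat.prime_three⟩
  obtain ⟨α, E, h1, h2, h3, h4⟩ := fermatTwist_hasseWeil_entire.{w} 3 (by norm_num)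
    (a := 3) (b := 4) (c := -5) (by norm_num) (by norm_num) (by norm_num)
  have hiff : ∀ p : Nat.Primes,
      (¬ ((p : ℕ) : ℤ) ∣ ((3 : ℕ) : ℤ) * 3 * 4 * -5) ↔ 5 < (p : ℕ) := fun p => by
    rw [show ((3 : ℕ) : ℤ) * 3 * 4 * -5 = -((180 : ℕ) : ℤ) by norm_num, dvd_neg, Int.natCast_dvd_natCast]
    refine ⟨fun h => ?_, fun h e => ?_⟩
    · by_contra hle
      have h2 := p.2.two_le
      have : (p : ℕ) = 2 ∨ (p : ℕ) = 3 ∨ (p : ℕ) = 4 ∨ (p : ℕ) = 5 := by omega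
      rcases this with e | e | e | e
      · exact h (by rw [e]; norm_num)
      · exact h (by rw [e]; norm_num)
      · exact absurd (e ▸ p.2) (by norm_num)
      · exact h (by rw [e]; norm_num)
    · have h3 : (p : ℕ) ∣ 2 ^ 2 * 3 ^ 2 * 5 := by norm_num; exact e
      rcases (Nat.Prime.dvd_mul p.2).1 h3 with e | e
      · rcases (Nat.Prime.dvd_mul p.2).1 e with e | e
        · have := Nat.le_of_dvd two_pos (p.2.dvd_of_dvd_pow e); omega
        · have := Nat.le_of_dvd three_pos (p.2.dvd_of_dvd_pow e); omega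
      · have := Nat.le_of_dvd (by norm_num) e; omega
  refine ⟨α, E, fun p hp F _ _ d hd => ?_, h2, fun s hs => ?_, h4⟩
  · rw [← h1 p ((hiff p).2 hp) F d hd]
    exact congrArg (Nat.cast : ℕ → ℂ) (Nat.card_congr (Equiv.subtypeEquivRight fun P => by
      push_cast
      constructor <;> intro h <;> linear_combination h))
  · exact ((Equiv.subtypeEquivRight hiff).symm.hasProd_iff).2 (h3 s hs)

end FA.Root.FermatTwistSummary

end
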