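import Fermat.Agent.FermatCount.Basic

/-!
# The Riemann hypothesis for Fermat curves over finite fields

Over a field with `q` elements, `d = gcd (n, q - 1)`, the curve `X ^ n + Y ^ n = Z ^ n` has `q + 1`
points up to `(d - 1)(d - 2) √q`, Weil's bound with the genus. So Fermat's equation has nonzero
solutions in every finite field with `q > n ^ 4`, `q ≥ 3` elements.
-/

set_option autoImplicit false
set_option linter.style.haveILetI false

noncomputable section

open Finset FA.FermatCount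

namespace FA.Summary

variable (F : Type*) [Field F] [Fintype F] [DecidableEq F] {n : ℕ}

/-- **Weil's bound for the Fermat curve**: its affine points and its points at infinity, the roots
of `t ^ n = -1`, number `q + 1` up to `(d - 1)(d - 2) √q`. -/
theorem fermatCurve_pointCount (hn : 0 < n) :
    |((#{P : F × F | P.1 ^ n + P.2 ^ n = 1} : ℕ) : ℝ) + (#{t : F | t ^ n = -1} : ℕ) -
        ((Fintype.card F : ℝ) + 1)| ≤
      (((Nat.gcd n (Fintype.card F - 1) - 1) * (Nat.gcd n (Fintype.card F - 1) - 2) : ℕ) : ℝ) *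
        Real.sqrt (Fintype.card F) := by
  classical
  have h := card_points (F := F) hn
  change |((#(affinePoints F n) : ℕ) : ℝ) + (#(roots F n (-1)) : ℕ) -
    ((Fintype.card F : ℝ) + 1)| ≤ _
  set s := ∑ χ ∈ (killed F n).erase 1, ∑ ψ ∈ ((killed F n).erase 1).erase χ⁻¹, jacobiSum χ ψ
  have hs : (((#(affinePoints F n) : ℕ) : ℝ) + (#(roots F n (-1)) : ℕ) -
      ((Fintype.card F : ℝ) + 1) : ℂ) = s := by
    push_cast
    linear_combination h
  rw [← Real.norm_eq_abs, ← Complex.norm_real]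
  push_cast at hs ⊢
  rw [hs]
  refine (norm_sum_le _ _).trans ?_
  have hbound : ∀ χ ∈ (killed F n).erase 1,
      ‖∑ ψ ∈ ((killed F n).erase 1).erase χ⁻¹, jacobiSum χ ψ‖ ≤
        ((Nat.gcd n (Fintype.card F - 1) - 2 : ℕ) : ℝ) * Real.sqrt (Fintype.card F) := by
    intro χ hχ
    refine (norm_sum_le _ _).trans ?_
    have hinv : χ⁻¹ ∈ (killed F n).erase 1 := by
      rw [Finset.mem_erase] at hχ ⊢
      exact ⟨inv_ne_one.mpr hχ.1, mem_killed.mpr (by rw [inv_pow, mem_killed.mp hχ.2, inv_one])⟩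
    rw [Finset.sum_congr rfl fun ψ hψ => norm_jacobiSum (Finset.mem_erase.mp hχ).1
      (Finset.mem_erase.mp (Finset.mem_erase.mp hψ).2).1
      (fun e => (Finset.mem_erase.mp hψ).1 (eq_inv_of_mul_eq_one_right e)),
      Finset.sum_const, nsmul_eq_mul, Finset.card_erase_of_mem hinv,
      Finset.card_erase_of_mem one_mem_killed, card_killed, Nat.sub_sub]
  refine (Finset.sum_le_sum hbound).trans (le_of_eq ?_)
  rw [Finset.sum_const, nsmul_eq_mul, Finset.card_erase_of_mem one_mem_killed, card_killed,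
    mul_assoc]

/-- **Nonzero solutions of Fermat's equation in large finite fields.** -/
theorem fermat_finiteField (hn : 0 < n) (hq : 3 ≤ Fintype.card F)
    (h4 : n ^ 4 < Fintype.card F) :
    ∃ x y z : F, x ≠ 0 ∧ y ≠ 0 ∧ z ≠ 0 ∧ x ^ n + y ^ n = z ^ n := by
  classical
  by_contra hno
  simp only [not_exists, not_and] at hno
  set d := Nat.gcd n (Fintype.card F - 1) with hd
  have hd1 : 1 ≤ d := Nat.gcd_pos_of_pos_left _ hn
  have hdn : d ≤ n := Nat.gcd_le_left _ hn
  have hroots : ∀ a : F, a ≠ 0 → #(roots F n a) ≤ d := fun a ha => by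
    rcases (roots F n a).eq_empty_or_nonempty with h | ⟨x, hx⟩
    · simp [h]
    · rw [hd, ← card_roots_one hn]
      refine Finset.card_le_card_of_injOn (fun y => y / x) (fun y hy => ?_) fun y _ z _ e => ?_
      · simp only [Finset.mem_coe, mem_roots] at hy hx ⊢
        rw [div_pow, hy, hx, div_self ha]
      · refine (div_left_inj' fun h0 => ha ?_).mp e
        rw [← mem_roots.mp hx, h0, zero_pow hn.ne']
  have haff : #{P : F × F | P.1 ^ n + P.2 ^ n = 1} ≤ d + d := by
    refine le_trans (Finset.card_le_card (t := roots F n 1 ×ˢ {0} ∪ {0} ×ˢ roots F n 1)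
      fun P hP => ?_) ((Finset.card_union_le _ _).trans ?_)
    · rw [Finset.mem_filter] at hP
      obtain ⟨x, y⟩ := P
      simp only [Finset.mem_union, Finset.mem_product, mem_roots, Finset.mem_singleton]
      rcases eq_or_ne x 0 with rfl | hx
      · exact Or.inr ⟨rfl, by simpa [zero_pow hn.ne'] using hP.2⟩
      rcases eq_or_ne y 0 with rfl | hy
      · exact Or.inl ⟨by simpa [zero_pow hn.ne'] using hP.2, rfl⟩
      exact absurd (by rw [one_pow]; exact hP.2) (hno x y 1 hx hy one_ne_zero)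
    · rw [Finset.card_product, Finset.card_product, Finset.card_singleton, mul_one, one_mul,
        card_roots_one hn]
  have hinf : #{t : F | t ^ n = -1} ≤ d := hroots _ (neg_ne_zero.mpr one_ne_zero)
  have h := (abs_le.mp (fermatCurve_pointCount F hn)).1
  rw [← hd] at h
  have ha : ((#{P : F × F | P.1 ^ n + P.2 ^ n = 1} : ℕ) : ℝ) ≤ d + d := by exact_mod_cast haff
  have hb : ((#{t : F | t ^ n = -1} : ℕ) : ℝ) ≤ d := by exact_mod_cast hinf
  have hqR : (3 : ℝ) ≤ Fintype.card F := by exact_mod_cast hq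
  set r := Real.sqrt (Fintype.card F) with hr
  have hr2 : r ^ 2 = Fintype.card F := Real.sq_sqrt (Nat.cast_nonneg _)
  have hr0 : 0 ≤ r := Real.sqrt_nonneg _
  rcases Nat.lt_or_ge d 2 with h2 | h2
  · obtain hd' : d = 1 := by omega
    rw [hd'] at h ha hb
    norm_num at h
    push_cast at ha hb
    linarith
  · have hnr : (n : ℝ) ^ 2 ≤ r := by
      rw [hr, ← Real.sqrt_sq (by positivity : (0 : ℝ) ≤ (n : ℝ) ^ 2)]
      refine Real.sqrt_le_sqrt ?_
      rw [← pow_mul]
      exact_mod_cast h4.le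
    have hdr : (d : ℝ) ^ 2 ≤ r := le_trans (by exact_mod_cast Nat.pow_le_pow_left hdn 2) hnr
    have h2R : (2 : ℝ) ≤ d := by exact_mod_cast h2
    rw [Nat.cast_mul, Nat.cast_sub hd1, Nat.cast_sub h2] at h
    push_cast at h
    nlinarith [mul_nonneg hr0 (by linarith : (0 : ℝ) ≤ r - (d : ℝ) ^ 2),
      mul_nonneg hr0 (by linarith : (0 : ℝ) ≤ (d : ℝ) - 2), pow_le_pow_left₀ (by norm_num) h2R 2]

/-- Nonzero solutions modulo every prime `p > n ^ 4`, `p` odd. -/
theorem fermat_mod_prime_fourth_power (hn : 0 < n) {p : ℕ} [Fact p.Prime] (hp : 3 ≤ p)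
    (h4 : n ^ 4 < p) : ∃ x y z : ZMod p, x ≠ 0 ∧ y ≠ 0 ∧ z ≠ 0 ∧ x ^ n + y ^ n = z ^ n :=
  fermat_finiteField (ZMod p) hn (by rwa [ZMod.card]) (by rwa [ZMod.card])

end FA.Summary

end
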