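import Fermat.Agent.FerreroAbelian.Main

/-!
# The theorem of Ferrero and Washington for abelian fields, `p` odd

`p` is an odd prime and `cycOver K p m = K(ζ_{p^(m+1)})`. A `ℤ_p`-extension of `K` all whose
levels lie in such fields is the cyclotomic one (`IsCyclotomicTower`); one exists for every number
field (`cyclotomic_zpExtension_exists`).

* `ferreroWashington_abelian`: for every abelian field `K` the classes killed by `p` along the
  cyclotomic `ℤ_p`-extension are bounded in number and `v_p h(K n) = λ n + ν` for large `n`: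
  `μ = 0`; `ferreroWashington_quadratic` is the case of a quadratic field.
* `ferreroWashington_relative`: for `p ∤ f` and `F = ℚ(ζ_{f p^(n+1)})`,
  `v_p h(F) ≤ v_p h(F⁺) + a n + b`.
* `ferreroWashington_twisted`: for every odd pair of a character modulo `d`, `p ∤ d`, and a power
  of the Teichmüller character the Stickelberger system has a coefficient of absolute value `1`.

The twisted systems replace `p`-adic normal numbers by one crossing point on the torus; the class
groups are reached by reflection, Iwasawa's criterion and the theorem of Kronecker and Weber.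
Ferrero–Washington (1979). The prime `2` is not treated: the reflection and the splitting into
plus and minus parts used here need `p` odd. Independent of S01.
-/

set_option autoImplicit false
set_option linter.style.haveILetI false

noncomputable section

open NumberField
open FA.IwasawaGrowth FA.FerreroAbelian

namespace FA.Summary

attribute [local instance] numberField_sub ZpTower.finite_level

variable {p : ℕ} [hp : Fact p.Prime]

/-- **The cyclotomic `ℤ_p`-extension exists.** -/
theorem cyclotomic_zpExtension_exists (hp2 : p ≠ 2) (K : Type) [Field K] [NumberField K] :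
    ∃ T : ZpTower p K, ∀ j, ∃ m, T.field j ≤ FA.MuExtensions.cycOver K p m :=
  exists_cyclotomicTower hp2

/-- **The theorem of Ferrero and Washington for abelian fields.** -/
theorem ferreroWashington_abelian (hp2 : p ≠ 2) (K : Type) [Field K] [NumberField K]
    [IsAbelianGalois ℚ K] (T : ZpTower p K)
    (hT : ∀ j, ∃ m, T.field j ≤ FA.MuExtensions.cycOver K p m) :
    ∃ (lam : ℕ) (nu : ℤ) (n₀ C : ℕ), ∀ n,
      (n₀ ≤ n → (padicValNat p (classNumber (T.field n)) : ℤ) = lam * n + nu) ∧
        Nat.card (powMonoidHom p :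
          ClassGroup (𝓞 (T.field n)) →* ClassGroup (𝓞 (T.field n))).ker ≤ C :=
  exists_muZero_abelian hp2 K T hT

/-- **The case of a quadratic field.** -/
theorem ferreroWashington_quadratic (hp2 : p ≠ 2) (K : Type) [Field K] [NumberField K]
    (hK : Module.finrank ℚ K = 2) :
    ∃ T : ZpTower p K, (∀ j, ∃ m, T.field j ≤ FA.MuExtensions.cycOver K p m) ∧
      ∃ (lam : ℕ) (nu : ℤ) (n₀ : ℕ), ∀ n, n₀ ≤ n →
        (padicValNat p (classNumber (T.field n)) : ℤ) = lam * n + nu := by
  haveI : Algebra.IsQuadraticExtension ℚ K := ⟨hK⟩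
  haveI : IsGalois ℚ K := ⟨⟩
  haveI : Fact (Nat.Prime 2) := ⟨Nat.prime_two⟩
  haveI : IsCyclic (K ≃ₐ[ℚ] K) := isCyclic_of_prime_card (p := 2)
    ((IsGalois.card_aut_eq_finrank ℚ K).trans hK)
  haveI : IsMulCommutative (K ≃ₐ[ℚ] K) := IsCyclic.isMulCommutative
  haveI : IsAbelianGalois ℚ K := ⟨⟩
  obtain ⟨T, hT⟩ := cyclotomic_zpExtension_exists hp2 K
  obtain ⟨lam, nu, n₀, C, h⟩ := ferreroWashington_abelian hp2 K T hT
  exact ⟨T, hT, lam, nu, n₀, fun n hn => (h n).1 hn⟩

/-- **The relative class number grows at most linearly.** -/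
theorem ferreroWashington_relative (hp2 : p ≠ 2) {f : ℕ} [NeZero f] (hf : ¬ p ∣ f) :
    ∃ a b n₀ : ℕ, ∀ n, n₀ ≤ n →
      ∀ (F : Type) [Field F] [NumberField F] [IsCyclotomicExtension {f * p ^ (n + 1)} ℚ F]
        [IsCMField F], padicValNat p (classNumber F) ≤
          padicValNat p (classNumber (maximalRealSubfield F)) + (a * n + b) :=
  exists_minus_le hp2 hf

/-- **`μ = 0` on every twisted odd branch.** -/
theorem ferreroWashington_twisted (hp2 : p ≠ 2) {g d : ℕ} [NeZero d]
    (hg : FA.IwasawaMinus.IsGen p g) (hd : d.Coprime p) (χ : ZMod d → intR p) (h1 : χ 1 = 1)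
    (hmul : ∀ a b, χ (a * b) = χ a * χ b) (u : (ZMod p)ˣ)
    (hodd : thetaO u ^ ((p - 1) / 2) * χ (-1) = -1) :
    ∃ n j, j < p ^ n ∧ ‖((sysO χ g u n).coeff j : PadicAlgCl p)‖ = 1 :=
  exists_unit_coeff hp2 hg hd χ h1 hmul u hodd

end FA.Summary
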