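import Fermat.Agent.FibonacciPrimitive.Main

/-!
# Carmichael's theorem on primitive divisors of the Fibonacci numbers

For `n ∉ {1, 2, 6, 12}` some prime divides `F n` and no earlier Fibonacci number (1913).
-/

set_option autoImplicit false

namespace FA.Summary

/-- **Carmichael's theorem**: for `n ≠ 1, 2, 6, 12` some prime divides `F n` and no `F j` with
`0 < j < n`; apart from `n = 5` it is `≡ ± 1` modulo `n`. -/
theorem carmichael_fibonacci (n : ℕ) (hn : 3 ≤ n) (h6 : n ≠ 6) (h12 : n ≠ 12) :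
    ∃ p, p.Prime ∧ p ∣ n.fib ∧ (∀ j, 0 < j → j < n → ¬p ∣ j.fib) ∧
      (n ≠ 5 → n ∣ p - 1 ∨ n ∣ p + 1) :=
  FibonacciPrimitive.exists_primitive_prime hn h6 h12

/-- Carmichael's theorem as an equivalence: the exceptions are exactly `1, 2, 6, 12`. -/
theorem carmichael_fibonacci_iff (n : ℕ) (hn : 0 < n) :
    (∃ p, p.Prime ∧ p ∣ n.fib ∧ ∀ j, 0 < j → j < n → ¬p ∣ j.fib) ↔
      n ≠ 1 ∧ n ≠ 2 ∧ n ≠ 6 ∧ n ≠ 12 := by
  constructor
  · rintro ⟨p, hp, hd, hj⟩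
    by_contra h
    obtain ⟨j, h0, h1, h2⟩ := FibonacciPrimitive.no_primitive_prime p hp
      (show n = 1 ∨ n = 2 ∨ n = 6 ∨ n = 12 by omega) hd
    exact hj j h0 h1 h2
  · rintro ⟨h1, h2, h6, h12⟩
    obtain ⟨p, hp, hd, hj, -⟩ := carmichael_fibonacci n (by omega) h6 h12
    exact ⟨p, hp, hd, hj⟩

/-- A prime other than `5` divides `F (p - 1)` or `F (p + 1)`. -/
theorem prime_dvd_fibonacci (p : ℕ) (hp : p.Prime) (h5 : p ≠ 5) :
    p ∣ (p - 1).fib ∨ p ∣ (p + 1).fib :=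
  PisanoPeriod.prime_dvd_fib_pred_or_succ hp h5

end FA.Summary
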