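import Fermat.Agent.Tau.FieldGenus
import Mathlib.GroupTheory.Perm.Cycle.Type
import Mathlib.RingTheory.Polynomial.RationalRoot
import Mathlib.FieldTheory.IntermediateField.Adjoin.Basic

/-!
# Gauss's genus theory for imaginary quadratic fields

`K` is a number field of degree two containing `√d`, `d < 0` squarefree, and `t` is the number of
primes dividing its discriminant `D` (`d`, or `4 d` when `d ≢ 1 (mod 4)`).

* `fieldClassGroup_two_torsion`, `fieldClassGroup_index_squares`: `2 ^ (t - 1)` classes are their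
  own inverses, and the squares have index `2 ^ (t - 1)`.
* `fieldClassNumber_two_pow_dvd`, `fieldClassNumber_odd_iff`: `2 ^ (t - 1)` divides `h_K`, which is
  odd iff `d` is `-1`, `-2` or `-p` with `p ≡ 3 (mod 4)`.
* `fieldClassNumber_exponentTwo`: a class group of exponent two has order `2 ^ (t - 1)`.
* `fieldClassNumber_two_power_unbounded`: for every `k` some `h_K` is a multiple of `2 ^ k`.
-/

set_option autoImplicit false
set_option linter.style.haveILetI false

noncomputable section

open NumberField Module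
open scoped IntermediateField

namespace FA.Summary

/-- **Gauss's count of ambiguous classes.** -/
theorem fieldClassGroup_two_torsion (K : Type*) [Field K] [NumberField K]
    (hK : finrank ℚ K = 2) {d : ℤ} (hd : Squarefree d) (hd0 : d < 0)
    (hs : ∃ s : K, s ^ 2 = (d : K)) :
    Nat.card {x : ClassGroup (𝓞 K) // x * x = 1} =
      2 ^ ((if d % 4 = 1 then d else 4 * d).natAbs.primeFactors.card - 1) := by
  obtain ⟨s, hs⟩ := hs
  exact FA.FieldClassBound.card_two_torsion_eq hK hd hd0 hs

/-- **The genera**: the squares have index `2 ^ (t - 1)`. -/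
theorem fieldClassGroup_index_squares (K : Type*) [Field K] [NumberField K]
    (hK : finrank ℚ K = 2) {d : ℤ} (hd : Squarefree d) (hd0 : d < 0)
    (hs : ∃ s : K, s ^ 2 = (d : K)) :
    (powMonoidHom (α := ClassGroup (𝓞 K)) 2).range.index =
      2 ^ ((if d % 4 = 1 then d else 4 * d).natAbs.primeFactors.card - 1) := by
  rw [← fieldClassGroup_two_torsion K hK hd hd0 hs,
    ← mul_right_inj' (Nat.card_pos (α := (powMonoidHom (α := ClassGroup (𝓞 K)) 2).range)).ne',
    Subgroup.card_mul_index,
    Subgroup.card_eq_card_quotient_mul_card_subgroup (powMonoidHom (α := ClassGroup (𝓞 K)) 2).ker,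
    Nat.card_congr (QuotientGroup.quotientKerEquivRange _).toEquiv]
  congr 1
  exact Nat.card_congr (Equiv.subtypeEquivRight fun c => by
    rw [MonoidHom.mem_ker, powMonoidHom_apply, pow_two])

/-- `2 ^ (t - 1)` divides the class number. -/
theorem fieldClassNumber_two_pow_dvd (K : Type*) [Field K] [NumberField K]
    (hK : finrank ℚ K = 2) {d : ℤ} (hd : Squarefree d) (hd0 : d < 0)
    (hs : ∃ s : K, s ^ 2 = (d : K)) :
    2 ^ ((if d % 4 = 1 then d else 4 * d).natAbs.primeFactors.card - 1) ∣ classNumber K := by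
  rw [← fieldClassGroup_index_squares K hK hd hd0 hs, classNumber, ← Nat.card_eq_fintype_card]
  exact Subgroup.index_dvd_card _

/-- **Exponent two**: the class number is then `2 ^ (t - 1)`. -/
theorem fieldClassNumber_exponentTwo (K : Type*) [Field K] [NumberField K]
    (hK : finrank ℚ K = 2) {d : ℤ} (hd : Squarefree d) (hd0 : d < 0)
    (hs : ∃ s : K, s ^ 2 = (d : K)) (h2 : ∀ x : ClassGroup (𝓞 K), x * x = 1) :
    classNumber K = 2 ^ ((if d % 4 = 1 then d else 4 * d).natAbs.primeFactors.card - 1) := by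
  rw [← fieldClassGroup_two_torsion K hK hd hd0 hs, classNumber, ← Nat.card_eq_fintype_card]
  exact (Nat.card_congr (Equiv.subtypeUnivEquiv h2)).symm

/-- **The parity of the class number.** -/
theorem fieldClassNumber_odd_iff (K : Type*) [Field K] [NumberField K]
    (hK : finrank ℚ K = 2) {d : ℤ} (hd : Squarefree d) (hd0 : d < 0)
    (hs : ∃ s : K, s ^ 2 = (d : K)) :
    Odd (classNumber K) ↔
      d = -1 ∨ d = -2 ∨ ∃ p : ℕ, p.Prime ∧ p % 4 = 3 ∧ d = -(p : ℤ) := by
  set D := if d % 4 = 1 then d else 4 * d with hD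
  have key : Odd (classNumber K) ↔ D.natAbs.primeFactors.card ≤ 1 := by
    constructor
    · intro hodd
      by_contra hlt
      have h := hodd.of_dvd_nat (fieldClassNumber_two_pow_dvd K hK hd hd0 hs)
      rw [← hD, Nat.odd_pow_iff (Nat.sub_ne_zero_of_lt (not_le.1 hlt))] at h
      exact absurd h (by decide)
    · intro hle
      rw [← Nat.not_even_iff_odd]
      intro heven
      haveI : Fact (Nat.Prime 2) := ⟨Nat.prime_two⟩
      obtain ⟨x, hx⟩ := exists_prime_orderOf_dvd_card' (G := ClassGroup (𝓞 K)) 2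
        (by rw [Nat.card_eq_fintype_card]; exact heven.two_dvd)
      have h1 := fieldClassGroup_two_torsion K hK hd hd0 hs
      rw [Nat.sub_eq_zero_of_le hle, pow_zero, Nat.card_eq_one_iff_exists] at h1
      obtain ⟨u, hu⟩ := h1
      have hx2 : x * x = 1 := by rw [← pow_two, ← hx, pow_orderOf_eq_one]
      have : x = 1 := congrArg Subtype.val ((hu ⟨x, hx2⟩).trans (hu ⟨1, one_mul 1⟩).symm)
      rw [this, orderOf_one] at hx
      norm_num at hx
  rw [key]
  set n := d.natAbs with hn
  have hsq : Squarefree n := Int.squarefree_natAbs.2 hd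
  have h4 : n % 4 ≠ 0 := fun h => by
    have := Nat.isUnit_iff.1 (hsq 2 (by omega))
    omega
  constructor
  · intro hle
    by_cases h1 : d % 4 = 1
    · rw [hD, if_pos h1, ← hn] at hle
      obtain ⟨p, hp⟩ : ∃ p, n.primeFactors = {p} := Finset.card_eq_one.1
        (le_antisymm hle (Finset.card_pos.2 (Nat.nonempty_primeFactors.2 (by omega))))
      have he := Nat.prod_primeFactors_of_squarefree hsq
      rw [hp, Finset.prod_singleton] at he
      exact Or.inr (Or.inr ⟨p, Nat.prime_of_mem_primeFactors (hp ▸ Finset.mem_singleton_self p),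
        by omega, by omega⟩)
    · rw [hD, if_neg h1, Int.natAbs_mul, ← hn, show (4 : ℤ).natAbs = 4 from rfl] at hle
      have h2 : (2 : ℕ) ∈ (4 * n).primeFactors :=
        Nat.mem_primeFactors.2 ⟨Nat.prime_two, dvd_mul_of_dvd_left (by norm_num) n,
          by simp [hsq.ne_zero]⟩
      have hall : ∀ p ∈ n.primeFactors, p = 2 := fun p hp =>
        Finset.card_le_one.1 hle p (Nat.primeFactors_mono (dvd_mul_left n 4)
          (by simp [hsq.ne_zero]) hp) 2 h2
      have he := Nat.prod_primeFactors_of_squarefree hsq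
      rcases n.primeFactors.eq_empty_or_nonempty with hemp | ⟨p, hp⟩
      · rw [hemp, Finset.prod_empty] at he; omega
      · obtain rfl := hall p hp
        rw [show n.primeFactors = {2} from Finset.eq_singleton_iff_unique_mem.2 ⟨hp, hall⟩,
          Finset.prod_singleton] at he
        omega
  · rintro (rfl | rfl | ⟨p, hp, hp4, rfl⟩)
    · rw [hD, if_neg (by norm_num), show ((4 : ℤ) * -1).natAbs = 2 ^ 2 from rfl,
        Nat.primeFactors_prime_pow two_ne_zero Nat.prime_two, Finset.card_singleton]
    · rw [hD, if_neg (by norm_num), show ((4 : ℤ) * -2).natAbs = 2 ^ 3 from rfl,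
        Nat.primeFactors_prime_pow three_ne_zero Nat.prime_two, Finset.card_singleton]
    · rw [hD, if_pos (by omega), Int.natAbs_neg, Int.natAbs_natCast, hp.primeFactors,
        Finset.card_singleton]

/-- **Class numbers divisible by any power of two.** -/
theorem fieldClassNumber_two_power_unbounded (k : ℕ) :
    ∃ (K : IntermediateField ℚ ℂ) (_ : NumberField K) (d : ℤ),
      finrank ℚ K = 2 ∧ Squarefree d ∧ d < 0 ∧ (∃ s : K, s ^ 2 = (d : K)) ∧
        2 ^ k ∣ classNumber K := by
  obtain ⟨S, hS, hcard⟩ := Nat.infinite_setOfPred_prime.exists_subset_card_eq (k + 1)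
  set n := ∏ p ∈ S, p with hn
  have hp : ∀ p ∈ S, p.Prime := fun p hp => hS hp
  have hn0 : 0 < n := Finset.prod_pos fun p h => (hp p h).pos
  have hsq : Squarefree n := Finset.squarefree_prod_of_pairwise_isCoprime
    (fun p h q h' hpq =>
      Nat.coprime_iff_isRelPrime.1 ((Nat.coprime_primes (hp p h) (hp q h')).2 hpq))
    fun p h => (hp p h).squarefree
  set d : ℤ := -(n : ℤ) with hd
  have hd0 : d < 0 := by omega
  have hdsq : Squarefree d :=
    Int.squarefree_natAbs.1 (by rwa [hd, Int.natAbs_neg, Int.natAbs_natCast])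
  set x : ℂ := Complex.I * (Real.sqrt (n : ℝ) : ℂ) with hx
  have hx2 : x ^ 2 = (d : ℂ) := by
    rw [hx, mul_pow, Complex.I_sq, ← Complex.ofReal_pow, Real.sq_sqrt (Nat.cast_nonneg n), hd]
    push_cast; ring
  have hmonic : (Polynomial.X ^ 2 - Polynomial.C (d : ℚ)).Monic :=
    Polynomial.monic_X_pow_sub_C _ two_ne_zero
  have hroot : Polynomial.aeval x (Polynomial.X ^ 2 - Polynomial.C (d : ℚ)) = 0 := by simp [hx2]
  have hint : IsIntegral ℚ x := ⟨_, hmonic, hroot⟩
  haveI : FiniteDimensional ℚ (IntermediateField.adjoin ℚ {x}) :=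
    IntermediateField.adjoin.finiteDimensional hint
  haveI : NumberField (IntermediateField.adjoin ℚ {x}) := { }
  have hdeg : finrank ℚ (IntermediateField.adjoin ℚ {x}) = 2 := by
    rw [IntermediateField.adjoin.finrank hint]
    refine le_antisymm
      ((Polynomial.natDegree_le_of_dvd (minpoly.dvd ℚ x hroot) hmonic.ne_zero).trans
      (le_of_eq Polynomial.natDegree_X_pow_sub_C)) ?_
    by_contra hlt
    obtain ⟨q, hq⟩ := minpoly.natDegree_eq_one_iff.1
      (le_antisymm (by omega) (minpoly.natDegree_pos hint))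
    have h2 := congrArg (fun z : ℂ => z ^ 2) hq
    simp only [eq_ratCast, hx2] at h2
    have h3 : q ^ 2 = (d : ℚ) := by exact_mod_cast h2
    have : (d : ℚ) < 0 := Int.cast_lt_zero.2 hd0
    nlinarith [sq_nonneg q]
  have hs : ∃ s : IntermediateField.adjoin ℚ {x}, s ^ 2 = (d : IntermediateField.adjoin ℚ {x}) :=
    ⟨⟨x, IntermediateField.mem_adjoin_simple_self ℚ x⟩, Subtype.ext (by simpa using hx2)⟩
  refine ⟨_, inferInstance, d, hdeg, hdsq, hd0, hs,
    dvd_trans (pow_dvd_pow 2 ?_) (fieldClassNumber_two_pow_dvd _ hdeg hdsq hd0 hs)⟩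
  have hpf : n.primeFactors = S := Nat.primeFactors_prod hp
  have hdvd : n ∣ (if d % 4 = 1 then d else 4 * d).natAbs := by
    split_ifs
    · simp [hd]
    · rw [Int.natAbs_mul, hd, Int.natAbs_neg, Int.natAbs_natCast]; exact dvd_mul_left _ _
  have := Finset.card_le_card (Nat.primeFactors_mono hdvd (by split_ifs <;> omega))
  rw [hpf, hcard] at this
  omega

end FA.Summary

end
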