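import Fermat.Agent.Tsen.Forms
import Mathlib.Algebra.Polynomial.Degree.Lemmas
import Mathlib.FieldTheory.RatFunc.AsPolynomial

/-!
# Tsen's theorem

* `exists_common_zero_ne_zero`: over an algebraically closed field fewer polynomials without
  constant term than variables have a nontrivial common zero.
* `tsen_lang`: over a finite extension of `K(t)`, `K` algebraically closed, every system without
  constant terms whose degrees sum to less than the number of variables has a nontrivial zero.
* `tsen_form`, `tsen_diagonal`, `tsen_quadraticForm`, `tsen_binary_universal`: consequences.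
* `tsen_sharp`: `∑ t ^ i x_i ^ d`, `i < d`, has only the zero solution over `K(t)`.
-/

set_option autoImplicit false

noncomputable section

namespace FA.Summary

open MvPolynomial

/-- **Fewer equations than variables** over an algebraically closed field. -/
theorem exists_common_zero_ne_zero {K σ ι : Type*} [Field K] [IsAlgClosed K] [Fintype σ]
    [Fintype ι] (f : ι → MvPolynomial σ K) (h0 : ∀ i, constantCoeff (f i) = 0)
    (hcard : Fintype.card ι < Fintype.card σ) : ∃ x : σ → K, x ≠ 0 ∧ ∀ i, eval x (f i) = 0 :=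
  FA.Tsen.exists_ne_zero_common_zero f h0 hcard

section finiteExtension

variable (K : Type*) [Field K] [IsAlgClosed K] {L : Type*} [Field L] [Algebra (RatFunc K) L]
  [FiniteDimensional (RatFunc K) L]

include K

/-- **The theorem of Tsen and Lang** for finite extensions of `K(t)`. -/
theorem tsen_lang {σ ι : Type*} [Fintype σ] [Fintype ι] (f : ι → MvPolynomial σ L)
    (h0 : ∀ i, constantCoeff (f i) = 0) (hd : ∑ i, (f i).totalDegree < Fintype.card σ) :
    ∃ x : σ → L, x ≠ 0 ∧ ∀ i, eval x (f i) = 0 :=
  (FA.Tsen.isC_zero K).ratFunc.finite_extension.exists_zero f h0 (by simpa using hd)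

/-- **Tsen's theorem**: a form of degree `d` in more than `d` variables is isotropic. -/
theorem tsen_form {σ : Type*} [Fintype σ] {d : ℕ} (hd0 : d ≠ 0) (f : MvPolynomial σ L)
    (hf : f.IsHomogeneous d) (hd : d < Fintype.card σ) : ∃ x : σ → L, x ≠ 0 ∧ eval x f = 0 :=
  (FA.Tsen.isC_zero K).ratFunc.finite_extension.form hd0 f hf (by simpa using hd)

/-- **Diagonal forms** of degree `d` in more than `d` variables are isotropic. -/
theorem tsen_diagonal {σ : Type*} [Fintype σ] {d : ℕ} (hd0 : d ≠ 0) (a : σ → L)
    (hd : d < Fintype.card σ) : ∃ x : σ → L, x ≠ 0 ∧ ∑ i, a i * x i ^ d = 0 := by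
  obtain ⟨x, hx, hx'⟩ := tsen_form K hd0 (∑ i, C (a i) * X i ^ d)
    (IsHomogeneous.sum _ _ _ fun i _ => isHomogeneous_C_mul_X_pow (a i) i d) hd
  exact ⟨x, hx, by simpa using hx'⟩

/-- **Every quadratic form in at least three variables is isotropic.** -/
theorem tsen_quadraticForm {V : Type*} [AddCommGroup V] [Module L V] [FiniteDimensional L V]
    (hV : 3 ≤ Module.finrank L V) (Q : QuadraticForm L V) : ∃ v : V, v ≠ 0 ∧ Q v = 0 :=
  (FA.Tsen.isC_zero K).ratFunc.finite_extension.quadraticForm (by norm_num; omega) Q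

/-- **Conics**: every binary form `a x² + b y²`, `a b ≠ 0`, takes every value. -/
theorem tsen_binary_universal [Invertible (2 : L)] {a b : L} (ha : a ≠ 0) (hb : b ≠ 0) (c : L) :
    ∃ x y : L, a * x ^ 2 + b * y ^ 2 = c := by
  obtain ⟨x, hx, hx'⟩ := tsen_diagonal K two_ne_zero ![a, b, -c] (by simp)
  simp only [Fin.sum_univ_three, Matrix.cons_val_zero, Matrix.cons_val_one, Matrix.cons_val] at hx'
  rcases eq_or_ne (x 2) 0 with h2 | h2
  · have hx0 : x 0 ≠ 0 := fun h0 => hx (funext fun i => by
      have h1 : x 1 = 0 := by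
        simpa [h0, h2, hb] using hx'
      fin_cases i <;> assumption)
    have h20 : (2 : L) ≠ 0 := (isUnit_of_invertible (2 : L)).ne_zero
    set s := x 1 / x 0 with hs
    have hab : a = -b * s ^ 2 := by
      rw [h2] at hx'
      rw [hs]; field_simp; linear_combination hx'
    have hs0 : s ≠ 0 := fun e => ha (by rw [hab, e]; ring)
    -- the form is `b (y² - (s x)²)`
    refine ⟨(c / b - 1) / 2 / s, (c / b + 1) / 2, ?_⟩
    rw [hab]
    field_simp
    ring
  · refine ⟨x 0 / x 2, x 1 / x 2, ?_⟩
    field_simp
    linear_combination hx'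

end finiteExtension

/-- **The bound is sharp**: `∑ t ^ i x_i ^ d`, `i < d`, has only the zero solution over `K(t)`. -/
theorem tsen_sharp {K : Type*} [Field K] {d : ℕ} (x : Fin d → RatFunc K)
    (h : ∑ i : Fin d, (RatFunc.X : RatFunc K) ^ (i : ℕ) * x i ^ d = 0) : x = 0 := by
  classical
  obtain ⟨b, hb⟩ := IsLocalization.exist_integer_multiples_of_finite
    (nonZeroDivisors (Polynomial K)) x
  choose p hp using hb
  simp only [Algebra.smul_def] at hp
  have hb0 : algebraMap (Polynomial K) (RatFunc K) b ≠ 0 := fun e =>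
    nonZeroDivisors.coe_ne_zero b
      (IsFractionRing.injective (Polynomial K) (RatFunc K) (e.trans (map_zero _).symm))
  set f : Fin d → Polynomial K := fun i => Polynomial.X ^ (i : ℕ) * p i ^ d with hf
  have hsum : ∑ i, f i = 0 := IsFractionRing.injective (Polynomial K) (RatFunc K) (by
    simp only [hf, map_sum, map_mul, map_pow, hp, RatFunc.algebraMap_X, map_zero, mul_pow]
    refine Eq.trans ?_ (mul_eq_zero_of_right (algebraMap (Polynomial K) (RatFunc K) b ^ d) h)
    rw [Finset.mul_sum]
    exact Finset.sum_congr rfl fun i _ => by ring)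
  have hdeg : ∀ i : Fin d, f i ≠ 0 → (f i).natDegree % d = i := by
    intro i hi
    simp only [hf, ne_eq, mul_eq_zero, not_or] at hi
    simp only [hf]
    rw [Polynomial.natDegree_mul hi.1 hi.2, Polynomial.natDegree_X_pow, Polynomial.natDegree_pow,
      Nat.add_mul_mod_self_left]
    exact Nat.mod_eq_of_lt i.isLt
  have hds := Polynomial.degree_sum_eq_of_disjoint f Finset.univ (by
    rintro i ⟨-, hi⟩ j ⟨-, hj⟩ hij e
    exact hij (Fin.ext ((hdeg i hi).symm.trans ((congrArg (· % d)
      (Polynomial.natDegree_eq_of_degree_eq e)).trans (hdeg j hj)))))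
  rw [hsum, Polynomial.degree_zero, eq_comm, Finset.sup_eq_bot_iff] at hds
  funext i
  have hi : f i = 0 := Polynomial.degree_eq_bot.1 (hds i (Finset.mem_univ i))
  simp only [hf, mul_eq_zero, pow_eq_zero_iff', Polynomial.X_ne_zero, false_and, false_or] at hi
  have := hp i
  rw [hi.1, map_zero, eq_comm, mul_eq_zero] at this
  exact this.resolve_left hb0

end FA.Summary

end
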