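import Fermat.Agent.Tsen.Tower
import Fermat.Agent.Root.SummaryTsen
import Mathlib.Algebra.BigOperators.Field

/-!
# Lang's theorem on `C_i` fields

* `lang_step`: a finite extension of `K(t)` is `C_(i+1)` if `K` is `C_i`.
* `lang_ci_algClosed`, `lang_form_algClosed`: function fields in `r` variables over an algebraically
  closed field are `C_r`: a form of degree `d` in more than `d ^ r` variables is isotropic.
* `lang_ci_finiteField`: over a finite field they are `C_(r+1)`.
* `functionField_form`, `functionField_quadraticForm`, `functionField_quaternary_universal`: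
  function fields of curves over finite fields.
-/

set_option autoImplicit false

noncomputable section

namespace FA.Summary

open MvPolynomial

/-- **The step**: finite extensions of `K(t)` are `C_(i+1)` if `K` is `C_i`. -/
theorem lang_step {K L : Type*} [Field K] [Field L] [Algebra (RatFunc K) L]
    [FiniteDimensional (RatFunc K) L] {i : ℕ} (hK : FA.Tsen.IsC i K) : FA.Tsen.IsC (i + 1) L :=
  hK.ratFunc.finite_extension

section several

variable {K L : Type*} [Field K] [Field L] [Algebra K L] {r : ℕ} {x : Fin r → L}
  (hx : AlgebraicIndependent K x)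
  [FiniteDimensional (IntermediateField.adjoin K (Set.range x)) L]
  {σ ι : Type*} [Fintype σ] [Fintype ι]
include hx

/-- **Function fields in `r` variables over an algebraically closed field are `C_r`.** -/
theorem lang_ci_algClosed [IsAlgClosed K] (f : ι → MvPolynomial σ L)
    (h0 : ∀ k, constantCoeff (f k) = 0) (hd : ∑ k, (f k).totalDegree ^ r < Fintype.card σ) :
    ∃ v : σ → L, v ≠ 0 ∧ ∀ k, eval v (f k) = 0 :=
  (FA.Tsen.isC_of_finite_adjoin (FA.Tsen.isC_zero K) hx).exists_zero f h0 (by simpa using hd)

/-- **Forms of degree `d` in more than `d ^ r` variables are isotropic.** -/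
theorem lang_form_algClosed [IsAlgClosed K] {d : ℕ} (hd0 : d ≠ 0) (f : MvPolynomial σ L)
    (hf : f.IsHomogeneous d) (hd : d ^ r < Fintype.card σ) :
    ∃ v : σ → L, v ≠ 0 ∧ eval v f = 0 :=
  (FA.Tsen.isC_of_finite_adjoin (FA.Tsen.isC_zero K) hx).form hd0 f hf (by simpa using hd)

/-- **Function fields in `r` variables over a finite field are `C_(r+1)`.** -/
theorem lang_ci_finiteField [Finite K] (f : ι → MvPolynomial σ L)
    (h0 : ∀ k, constantCoeff (f k) = 0)
    (hd : ∑ k, (f k).totalDegree ^ (r + 1) < Fintype.card σ) :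
    ∃ v : σ → L, v ≠ 0 ∧ ∀ k, eval v (f k) = 0 :=
  (FA.Tsen.isC_of_finite_adjoin (FA.Tsen.isC_one K) hx).exists_zero f h0
    (by rwa [add_comm] at hd)

end several

section curve

variable (K : Type*) [Field K] [Finite K] {L : Type*} [Field L] [Algebra (RatFunc K) L]
  [FiniteDimensional (RatFunc K) L]

include K

/-- **Function fields of curves over finite fields are `C_2`.** -/
theorem functionField_form {σ : Type*} [Fintype σ] {d : ℕ} (hd0 : d ≠ 0) (f : MvPolynomial σ L)
    (hf : f.IsHomogeneous d) (hd : d ^ 2 < Fintype.card σ) :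
    ∃ v : σ → L, v ≠ 0 ∧ eval v f = 0 :=
  (lang_step (L := L) (FA.Tsen.isC_one K)).form hd0 f hf hd

/-- **Every quadratic form in at least five variables over such a field is isotropic.** -/
theorem functionField_quadraticForm {V : Type*} [AddCommGroup V] [Module L V]
    [FiniteDimensional L V] (hV : 5 ≤ Module.finrank L V) (Q : QuadraticForm L V) :
    ∃ v : V, v ≠ 0 ∧ Q v = 0 :=
  (lang_step (L := L) (FA.Tsen.isC_one K)).quadraticForm
    (by rw [show 2 ^ (1 + 1) = 4 by rfl]; omega) Q

/-- **Every nondegenerate quaternary diagonal form over such a field takes every value.** -/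
theorem functionField_quaternary_universal [Invertible (2 : L)] {a : Fin 4 → L}
    (ha : ∀ j, a j ≠ 0) (c : L) : ∃ y : Fin 4 → L, ∑ j, a j * y j ^ 2 = c := by
  obtain ⟨x, hx, hx'⟩ := functionField_form K two_ne_zero
    (∑ j : Fin 5, MvPolynomial.C ((Fin.snoc a (-c) : Fin 5 → L) j) * MvPolynomial.X j ^ 2)
    (IsHomogeneous.sum _ _ _ fun j _ => isHomogeneous_C_mul_X_pow _ j 2) (by simp)
  rw [map_sum, Fin.sum_univ_castSucc] at hx'
  simp only [map_mul, map_pow, eval_C, eval_X, Fin.snoc_castSucc, Fin.snoc_last] at hx'
  have h2 : (2 : L) ≠ 0 := (isUnit_of_invertible (2 : L)).ne_zero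
  rcases eq_or_ne (x (Fin.last 4)) 0 with h4 | h4
  · refine FA.Tsen.diagonal_universal h2 ha (x := fun j => x j.castSucc) (fun h0 => hx ?_) ?_ c
    · funext j
      refine Fin.lastCases h4 (fun k => congrFun h0 k) j
    · rw [h4] at hx'
      linear_combination hx'
  · refine ⟨fun j => x j.castSucc / x (Fin.last 4), ?_⟩
    simp only [div_pow, mul_div, ← Finset.sum_div]
    rw [div_eq_iff (pow_ne_zero 2 h4)]
    linear_combination hx'

end curve

end FA.Summary

end
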