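import Fermat.Agent.Pfister.TwoSquares
import Fermat.Agent.Root.SummaryLangCi
import Mathlib.FieldTheory.Finite.Basic
import Mathlib.NumberTheory.LegendreSymbol.Basic

/-!
# Pfister's theorems on sums of squares

* `pfister_values_mul`, `sumSquares_two_pow_mul`, `sumSquares_two_pow_inv`: the values of a Pfister
  form, in particular the sums of `2 ^ n` squares, are closed under products and inverses.
* `pfister_level`: the level is a power of two; `level_zmod`: it is `2` for `p ≡ 3 (mod 4)`.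
* `sumSquares_ci`, `functionField_four_squares`, `surface_four_squares`: `C_i` fields.
* `realCurve_two_squares`, `realRatFunc_two_squares`: over function fields of real curves every
  sum of squares is a sum of two squares.
-/

set_option autoImplicit false

noncomputable section

namespace FA.Summary

open FA.Pfister

/-- **Pfister forms are multiplicative.** -/
theorem pfister_values_mul {F : Type*} [Field F] {n : ℕ} (a : Fin n → F)
    (x y : (Fin n → Bool) → F) :
    ∃ z : (Fin n → Bool) → F, ∑ s, (∏ j, if s j then a j else 1) * z s ^ 2 =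
      (∑ s, (∏ j, if s j then a j else 1) * x s ^ 2) *
        ∑ s, (∏ j, if s j then a j else 1) * y s ^ 2 := by
  obtain ⟨z, hz⟩ := (isRound_pfister a).mul_value x y
  exact ⟨z, by simpa [diagForm_apply, pfisterCoeff, sq] using hz⟩

/-- **Products of sums of `2 ^ n` squares** are sums of `2 ^ n` squares. -/
theorem sumSquares_two_pow_mul {F : Type*} [Field F] {n : ℕ} {a b : F}
    (ha : ∃ x : Fin (2 ^ n) → F, ∑ j, x j ^ 2 = a) (hb : ∃ x : Fin (2 ^ n) → F, ∑ j, x j ^ 2 = b) :
    ∃ x : Fin (2 ^ n) → F, ∑ j, x j ^ 2 = a * b :=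
  IsSqSum.mul ha hb

/-- **Inverses of sums of `2 ^ n` squares** are sums of `2 ^ n` squares. -/
theorem sumSquares_two_pow_inv {F : Type*} [Field F] {n : ℕ} {a : F}
    (ha : ∃ x : Fin (2 ^ n) → F, ∑ j, x j ^ 2 = a) :
    ∃ x : Fin (2 ^ n) → F, ∑ j, x j ^ 2 = a⁻¹ := by
  have h := IsSqSum.mul_sq ha a⁻¹
  rwa [show a * a⁻¹ ^ 2 = a⁻¹ by rcases eq_or_ne a 0 with rfl | h0 <;> [simp; field_simp]] at h

/-- **Pfister's level theorem**: if `-1` is a sum of squares, the least number of squares is a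
power of two. -/
theorem pfister_level {F : Type*} [Field F] {m : ℕ}
    (h : ∃ x : Fin m → F, ∑ j, x j ^ 2 = -1) :
    ∃ n, ∀ s, (∃ x : Fin s → F, ∑ j, x j ^ 2 = -1) ↔ 2 ^ n ≤ s :=
  level_eq_two_pow h

/-- The level of `ℤ/p`, `p ≡ 3 (mod 4)`, is `2`. -/
theorem level_zmod {p : ℕ} [Fact p.Prime] (hp : p % 4 = 3) (s : ℕ) :
    (∃ x : Fin s → ZMod p, ∑ j, x j ^ 2 = -1) ↔ 2 ≤ s := by
  obtain ⟨a, b, hab⟩ := ZMod.sq_add_sq p (-1)
  obtain ⟨n, hn⟩ := pfister_level (F := ZMod p) (m := 2)
    ⟨![a, b], by simpa [Fin.sum_univ_two] using hab⟩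
  have h2 : 2 ^ n ≤ 2 := (hn 2).1 ⟨![a, b], by simpa [Fin.sum_univ_two] using hab⟩
  have h1 : ¬ 2 ^ n ≤ 1 := fun h => by
    obtain ⟨x, hx⟩ := (hn 1).2 h
    rw [Fin.sum_univ_one] at hx
    exact ZMod.mod_four_ne_three_of_sq_eq_neg_one hx hp
  rw [hn s]
  omega

/-- **In a `C_i` field with `2 ≠ 0` every element is a sum of `2 ^ i` squares.** -/
theorem sumSquares_ci {F : Type*} [Field F] {i : ℕ} (hF : FA.Tsen.IsC i F) (h2 : (2 : F) ≠ 0)
    (c : F) : ∃ x : Fin (2 ^ i) → F, ∑ j, x j ^ 2 = c :=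
  isSqSum_of_isC hF h2 c

/-- **Function fields of curves over finite fields**: four squares suffice. -/
theorem functionField_four_squares (K : Type*) [Field K] [Finite K] {L : Type*} [Field L]
    [Algebra (RatFunc K) L] [FiniteDimensional (RatFunc K) L] (h2 : (2 : L) ≠ 0) (c : L) :
    ∃ x : Fin 4 → L, ∑ j, x j ^ 2 = c :=
  sumSquares_ci (lang_step (FA.Tsen.isC_one K)) h2 c

/-- **Function fields of surfaces over algebraically closed fields**: four squares suffice. -/
theorem surface_four_squares {K L : Type*} [Field K] [IsAlgClosed K] [Field L] [Algebra K L]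
    {t : Fin 2 → L} (ht : AlgebraicIndependent K t)
    [FiniteDimensional (IntermediateField.adjoin K (Set.range t)) L] (h2 : (2 : L) ≠ 0) (c : L) :
    ∃ x : Fin 4 → L, ∑ j, x j ^ 2 = c :=
  sumSquares_ci (FA.Tsen.isC_of_finite_adjoin (FA.Tsen.isC_zero K) ht) h2 c

/-- **Function fields of real curves**: every sum of squares is a sum of two squares. -/
theorem realCurve_two_squares {L : Type*} [Field L] [Algebra (RatFunc ℝ) L]
    [FiniteDimensional (RatFunc ℝ) L] {s : L} (hs : IsSumSq s) : ∃ x y : L, x ^ 2 + y ^ 2 = s := by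
  have : CharZero L :=
    charZero_of_injective_ringHom
      ((algebraMap (RatFunc ℝ) L).comp (algebraMap ℝ (RatFunc ℝ))).injective
  by_cases h : IsSquare (-1 : L)
  · obtain ⟨i, hi⟩ := h
    refine ⟨(s + 1) / 2, i * ((s - 1) / 2), ?_⟩
    field_simp
    linear_combination -(s - 1) ^ 2 * hi
  · obtain ⟨x, hx⟩ := isSqSum_two_of_isSumSq h (isC_gauss_extension
      not_isSquare_neg_one_ratFunc_real h
      (isC_gauss_ratFunc_real not_isSquare_neg_one_ratFunc_real)) hs
    exact ⟨x 0, x 1, by simpa [Fin.sum_univ_two] using hx⟩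

/-- **`ℝ(t)`**: every sum of squares is a sum of two squares. -/
theorem realRatFunc_two_squares {s : RatFunc ℝ} (hs : IsSumSq s) :
    ∃ x y : RatFunc ℝ, x ^ 2 + y ^ 2 = s :=
  realCurve_two_squares hs

end FA.Summary

end
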