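import Fermat.Agent.Pfister.Springer
import Fermat.Agent.Pfister.Levels
import Fermat.Agent.Root.SummaryPfister

/-!
# Cassels–Pfister, Springer, and fields of every level

* `cassels_pfister_representation`: a polynomial represented over `K(t)` is represented over
  `K[t]`.
* `cassels_sq_add`, `pythagoras_unbounded`: for every `n` a formally real field has a sum of `n + 1`
  squares that is no sum of `n`.
* `level_values_iff`: the levels of fields are exactly the powers of two (Pfister).
* `springer_anisotropic`, `springer_level`: extensions of odd degree.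
-/

set_option autoImplicit false

noncomputable section

namespace FA.Summary

open FA.Pfister Polynomial

/-- **The theorem of Cassels and Pfister.** -/
theorem cassels_pfister_representation {K ι : Type*} [Field K] [Fintype ι] (h2 : (2 : K) ≠ 0)
    {a : ι → K} (ha : ∀ j, a j ≠ 0) (f : K[X]) :
    (∃ x : ι → RatFunc K, ∑ j, RatFunc.C (a j) * x j ^ 2 = algebraMap K[X] (RatFunc K) f) ↔
      ∃ v : ι → K[X], ∑ j, C (a j) * v j ^ 2 = f := by
  refine ⟨fun ⟨x, hx⟩ => cassels_pfister h2 ha hx,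
    fun ⟨v, hv⟩ => ⟨fun j => algebraMap _ _ (v j), ?_⟩⟩
  rw [← hv, map_sum]
  simp [RatFunc.algebraMap_C]

/-- **Cassels**: `t² + d` is a sum of `m + 1` squares in `K(t)` iff `d` is one of `m` in `K`,
`K` formally real. -/
theorem cassels_sq_add {K : Type*} [Field K] [CharZero K] (hR : ¬ IsSumSq (-1 : K)) (d : K)
    (m : ℕ) :
    (∃ x : Fin (m + 1) → RatFunc K, ∑ j, x j ^ 2 = RatFunc.X ^ 2 + RatFunc.C d) ↔
      ∃ x : Fin m → K, ∑ j, x j ^ 2 = d := by
  refine ⟨fun h => isSqSum_of_sq_add ?_ h, fun ⟨x, hx⟩ => ?_⟩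
  · rintro k ⟨x, hx⟩
    refine hR ?_
    rw [← hx]
    simp only [sq]
    exact IsSumSq.sum fun j _ => IsSumSq.mul_self (x j)
  · exact ⟨Fin.cons RatFunc.X fun j => RatFunc.C (x j), by simp [Fin.sum_univ_succ, ← hx]⟩

/-- **Pythagoras numbers of formally real fields are unbounded.** -/
theorem pythagoras_unbounded (n : ℕ) :
    ∃ (K : Type) (_ : Field K) (d : K), (∀ m, ¬ ∃ x : Fin m → K, ∑ j, x j ^ 2 = -1) ∧
      (∃ x : Fin (n + 1) → K, ∑ j, x j ^ 2 = d) ∧ ¬ ∃ x : Fin n → K, ∑ j, x j ^ 2 = d := by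
  obtain ⟨K, _, _, d, h⟩ := exists_not_isSqSum n
  exact ⟨K, inferInstance, d, h⟩

/-- **Pfister: the levels of fields are exactly the powers of two.** -/
theorem level_values_iff (s : ℕ) :
    (∃ (L : Type) (_ : Field L), ∀ k, (∃ x : Fin k → L, ∑ j, x j ^ 2 = -1) ↔ s ≤ k) ↔
      ∃ n, s = 2 ^ n := by
  refine ⟨fun ⟨L, _, h⟩ => ?_, ?_⟩
  · obtain ⟨n, hn⟩ := pfister_level ((h s).2 le_rfl)
    exact ⟨n, le_antisymm ((h _).1 ((hn _).2 le_rfl)) ((hn s).1 ((h s).2 le_rfl))⟩
  · rintro ⟨n, rfl⟩
    exact exists_level n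

/-- **Springer's theorem.** -/
theorem springer_anisotropic {K L ι : Type*} [Field K] [Field L] [Algebra K L]
    [FiniteDimensional K L] [Fintype ι] (hodd : Odd (Module.finrank K L)) (a : ι → K) :
    (∀ x : ι → L, ∑ j, algebraMap K L (a j) * x j ^ 2 = 0 → x = 0) ↔
      ∀ x : ι → K, ∑ j, a j * x j ^ 2 = 0 → x = 0 := by
  refine ⟨fun h x hx => ?_, fun h => Anisotropic.of_odd_finrank h hodd⟩
  have := h (fun j => algebraMap K L (x j)) (by
    simp only [← map_mul, ← map_pow, ← map_sum, hx, map_zero])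
  exact funext fun j => (algebraMap K L).injective (by simpa using congrFun this j)

/-- **Springer**: formally real fields stay formally real in extensions of odd degree. -/
theorem springer_level {K L : Type*} [Field K] [Field L] [Algebra K L] [FiniteDimensional K L]
    (hR : ∀ m, ¬ ∃ x : Fin m → K, ∑ j, x j ^ 2 = -1) (hodd : Odd (Module.finrank K L)) (m : ℕ) :
    ¬ ∃ x : Fin m → L, ∑ j, x j ^ 2 = -1 :=
  not_isSqSum_of_odd_finrank hR hodd m

end FA.Summary

end
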