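import Fermat.Agent.Tau.FiltrationModP

/-!
# Filtration and theta operator on modular forms modulo `p`

For `p ≥ 5` the operator `θ = q d/dq` raises the weight of a form modulo `p` by `p + 1`, and the
least weight (the filtration) by exactly `p + 1` if and only if `p` does not divide it (Serre).
-/

set_option autoImplicit false

noncomputable section

open UpperHalfPlane
open scoped MatrixGroups

namespace FA.Summary

variable {p : ℕ} [Fact p.Prime]

/-- **The theta operator**: `q d/dq` of a form of weight `k` with integral expansion is congruent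
modulo `p` to a form of weight `k + p + 1`. -/
theorem theta_modular_mod_p (h5 : 5 ≤ p) {k : ℕ} (F : ModularForm 𝒮ℒ (k : ℤ))
    {S : PowerSeries ℤ} (hS : qExpansion 1 ⇑F = S.map (Int.castRingHom ℂ)) :
    ∃ (G : ModularForm 𝒮ℒ ((k + p + 1 : ℕ) : ℤ)) (T : PowerSeries ℤ),
      qExpansion 1 ⇑G = T.map (Int.castRingHom ℂ) ∧ T.map (Int.castRingHom (ZMod p)) =
        PowerSeries.X * PowerSeries.derivative (ZMod p) (S.map (Int.castRingHom (ZMod p))) :=
  FA.SwinnertonDyer.IsFormModP.theta h5 ⟨F, S, hS, rfl⟩

/-- **The filtration of `θ f`**: if `k` is the least weight of a non-zero form `f` modulo `p`, then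
`k + p + 1` is the least weight of `θ f` if and only if `p` does not divide `k`. -/
theorem filtration_theta (h5 : 5 ≤ p) {k : ℕ} {f : PowerSeries (ZMod p)} (hf : f ≠ 0) :
    let W : PowerSeries (ZMod p) → Set ℕ := fun g => {n | ∃ (G : ModularForm 𝒮ℒ (n : ℤ))
      (T : PowerSeries ℤ), qExpansion 1 ⇑G = T.map (Int.castRingHom ℂ) ∧
        T.map (Int.castRingHom (ZMod p)) = g}
    IsLeast (W f) k →
      (IsLeast (W (PowerSeries.X * PowerSeries.derivative (ZMod p) f)) (k + p + 1) ↔ ¬p ∣ k) :=
  fun hk => FA.SwinnertonDyer.filtration_theta h5 hf hk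

/-- **The filtration of a power** is the same multiple of the filtration. -/
theorem filtration_pow (h5 : 5 ≤ p) {k : ℕ} {f : PowerSeries (ZMod p)} (hf : f ≠ 0) (i : ℕ) :
    let W : PowerSeries (ZMod p) → Set ℕ := fun g => {n | ∃ (G : ModularForm 𝒮ℒ (n : ℤ))
      (T : PowerSeries ℤ), qExpansion 1 ⇑G = T.map (Int.castRingHom ℂ) ∧
        T.map (Int.castRingHom (ZMod p)) = g}
    IsLeast (W f) k → IsLeast (W (f ^ i)) (i * k) :=
  fun hk => FA.SwinnertonDyer.filtration_pow h5 hf hk i

end FA.Summary

end
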