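import Fermat.Agent.FiniteFieldGroup.Points

/-!
# The groups of points over every finite field

Let `E` be an elliptic curve over a finite field `F` with `q = l ^ n` elements, `l = 2, 3` included,
and `a = q + 1 - #E(F)`.

* `deuring_dichotomy_finite`: over the algebraic closure there is no point of order `l` if `l ∣ a`,
  and otherwise the points killed by `l ^ j` form a cyclic group of order `l ^ j`.
* `group_structure_finite`: `E(F) ≅ ℤ/d × ℤ/e` with `e` the exponent, `d ∣ e`, `l ∤ d`, `d ∣ q - 1`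
  and `d ∣ a - 2`.
* `full_torsion_finite`: `(ℤ/N)² ⊆ E(F)` gives `l ∤ N`, `N ∣ a - 2` and a primitive `N`-th root of
  unity in `F`, so `N ∣ q - 1`.
* `frobenius_scalar_finite`: Frobenius a scalar `c` on the points killed by `N`, `l ∤ N`, gives
  `a ≡ 2 c` and `q ≡ c²` modulo `N`.
* `group_cyclic_finite`, `exponent_sq_ge_finite`, `supersingular_no_point_finite`: `E(F)` is cyclic
  if `q - 1` and `a - 2` are coprime; the exponent is at least `√q - 1`; if `l ∣ a` then
  `l ∤ #E(F)`.
-/

set_option autoImplicit false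
set_option linter.unusedSectionVars false

noncomputable section

open WeierstrassCurve FA.FiniteFieldGroup FA.Frob FA.HasseBound FA.IsogenyNF
open scoped Classical

namespace FA.Summary

universe u

variable {F : Type u} [Field F] [Fintype F] (E : WeierstrassCurve F) [E.IsElliptic]

/-- **Deuring's dichotomy over every finite field.** -/
theorem deuring_dichotomy_finite (l : ℕ) [CharP F l] :
    ((l : ℤ) ∣ (Fintype.card F : ℤ) + 1 - Nat.card E.toAffine.Point →
      ∀ P : (E.map (algebraMap F (AlgebraicClosure F))).toAffine.Point, l • P = 0 → P = 0) ∧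
    (¬ (l : ℤ) ∣ (Fintype.card F : ℤ) + 1 - Nat.card E.toAffine.Point →
      ∀ j : ℕ, Nonempty (ZMod (l ^ j) ≃+ (nsmulAddMonoidHom
        (α := (E.map (algebraMap F (AlgebraicClosure F))).toAffine.Point) (l ^ j)).ker)) := by
  obtain ⟨hl, hk, n, hn, -, hW, htr, -, -⟩ := exists_data E l
  show ((l : ℤ) ∣ trace E → _) ∧ (¬ (l : ℤ) ∣ trace E → _)
  rw [← htr]
  refine ⟨fun h P hP => eq_zero_of_dvd _ hW hn h hP, fun h j => ?_⟩
  set K := (nsmulAddMonoidHom
    (α := (E.map (algebraMap F (AlgebraicClosure F))).toAffine.Point) (l ^ j)).ker with hK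
  have hc : Nat.card K = l ^ j := natCard_pow _ hW hn h j
  have : Finite K := Nat.finite_of_card_ne_zero (by rw [hc]; exact pow_ne_zero _ hl.out.ne_zero)
  have : IsAddCyclic K := by
    rcases j with _ | m
    · have : Subsingleton K := (Nat.card_eq_one_iff_unique.1 (by rw [hc, pow_zero])).1
      infer_instance
    by_contra hcyc
    -- all points would be killed by `l ^ m`
    have hall : ∀ P : K, l ^ m • P.1 = 0 := fun P => by
      by_contra hP
      refine hcyc (isAddCyclic_of_addOrderOf_eq_card P ?_)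
      rw [← AddSubgroup.addOrderOf_coe, hc]
      exact addOrderOf_eq_prime_pow (x := P.1) (n := m) (p := l) hP P.2
    have hc' := natCard_pow (E.map (algebraMap F (AlgebraicClosure F))) hW hn h m
    have : Finite (nsmulAddMonoidHom
        (α := (E.map (algebraMap F (AlgebraicClosure F))).toAffine.Point) (l ^ m)).ker :=
      Nat.finite_of_card_ne_zero (by rw [hc']; exact pow_ne_zero _ hl.out.ne_zero)
    have hle := Nat.card_le_card_of_injective
      (fun P : K => (⟨P.1, hall P⟩ : (nsmulAddMonoidHom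
        (α := (E.map (algebraMap F (AlgebraicClosure F))).toAffine.Point) (l ^ m)).ker))
      fun P Q e => Subtype.ext (congrArg Subtype.val e :)
    rw [hc, hc'] at hle
    exact absurd hle (not_le.2 (Nat.pow_lt_pow_succ hl.out.one_lt))
  have e := zmodAddCyclicAddEquiv (G := K) inferInstance
  rw [hc] at e
  exact ⟨e⟩

/-- **The group of points over a finite field.** -/
theorem group_structure_finite (l : ℕ) [CharP F l] :
    ∃ d e : ℕ, 0 < d ∧ d ∣ e ∧ e = AddMonoid.exponent E.toAffine.Point ∧ ¬ l ∣ d ∧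
      d ∣ Fintype.card F - 1 ∧
      (d : ℤ) ∣ (Fintype.card F : ℤ) + 1 - Nat.card E.toAffine.Point - 2 ∧
      Nonempty (E.toAffine.Point ≃+ ZMod d × ZMod e) := by
  obtain ⟨d, e, hd, hde, -, he, h0, h1, h2, h3⟩ := FA.FiniteFieldGroup.exists_structure E l
  exact ⟨d, e, hd, hde, he, h0, h1, h2, h3⟩

/-- **Full level over a finite field.** -/
theorem full_torsion_finite (l : ℕ) [CharP F l] {N : ℕ} [NeZero N]
    (φ : ZMod N × ZMod N →+ E.toAffine.Point) (hφ : Function.Injective φ) :
    ¬ l ∣ N ∧ N ∣ Fintype.card F - 1 ∧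
      (N : ℤ) ∣ (Fintype.card F : ℤ) + 1 - Nat.card E.toAffine.Point - 2 ∧
      ∃ ζ : F, IsPrimitiveRoot ζ N := by
  obtain ⟨h0, h1, h2⟩ := full_level E l φ hφ
  refine ⟨h0, h1, h2, ?_⟩
  obtain ⟨g, hg⟩ := IsCyclic.exists_ofOrder_eq_natCard (α := Fˣ)
  rw [Nat.card_units, Nat.card_eq_fintype_card] at hg
  obtain ⟨c, hc⟩ := h1
  have hc0 : c ≠ 0 := fun e => by
    have := Fintype.one_lt_card (α := F)
    rw [e, mul_zero] at hc
    omega
  refine ⟨((g ^ c : Fˣ) : F), IsPrimitiveRoot.coe_units_iff.2 ?_⟩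
  rw [IsPrimitiveRoot.iff_orderOf, orderOf_pow' _ hc0, hg, hc, Nat.gcd_mul_left_left,
    Nat.mul_div_cancel _ (Nat.pos_of_ne_zero hc0)]

/-- **A scalar Frobenius.** -/
theorem frobenius_scalar_finite (l : ℕ) [CharP F l] {N : ℕ} (hN : ¬ l ∣ N) {c : ℤ}
    (h : ∀ x y h, N • (Affine.Point.some x y h :
        (E.map (algebraMap F (AlgebraicClosure F))).toAffine.Point) = 0 →
      ∀ h', (Affine.Point.some (x ^ Fintype.card F) (y ^ Fintype.card F) h' :
        (E.map (algebraMap F (AlgebraicClosure F))).toAffine.Point) =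
          c • Affine.Point.some x y h) :
    (N : ℤ) ∣ (Fintype.card F : ℤ) + 1 - Nat.card E.toAffine.Point - 2 * c ∧
      (N : ℤ) ∣ (Fintype.card F : ℤ) - c ^ 2 := by
  obtain ⟨hl, hk, n, hn, hcard, hW, htr, -, hπ⟩ := exists_data E l
  obtain ⟨h1, h2⟩ := congr_of_scalar (E.map (algebraMap F (AlgebraicClosure F))) hW hn
    (N := N) (fun e => hN ((CharP.cast_eq_zero_iff _ l N).1 e)) (c := c) fun P hP => by
      rcases P with _ | ⟨x, y, hxy⟩
      · exact (map_zero _).trans (zsmul_zero c).symm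
      obtain ⟨h', e⟩ := hπ x y hxy
      exact e.trans (h x y hxy hP h')
  exact ⟨by rwa [htr] at h1, by rwa [← Nat.cast_pow, ← hcard] at h2⟩

/-- **Cyclic groups.** -/
theorem group_cyclic_finite (h : Int.gcd ((Fintype.card F : ℤ) - 1)
    ((Fintype.card F : ℤ) + 1 - Nat.card E.toAffine.Point - 2) = 1) :
    IsAddCyclic E.toAffine.Point := by
  obtain ⟨l, hchar⟩ := CharP.exists F
  obtain ⟨d, e, -, -, -, -, h1, h2, ⟨f⟩⟩ := group_structure_finite E l
  have h1' : (d : ℤ) ∣ (Fintype.card F : ℤ) - 1 := by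
    rw [← Nat.cast_one, ← Nat.cast_sub Fintype.card_pos]
    exact Int.natCast_dvd_natCast.2 h1
  have hd : d = 1 := Nat.dvd_one.1 (h ▸ Int.dvd_gcd h1' h2)
  subst hd
  exact isAddCyclic_of_surjective (f.trans AddEquiv.uniqueProd).symm
    (AddEquiv.surjective _)

/-- **The exponent is at least `√q - 1`.** -/
theorem exponent_sq_ge_finite :
    Nat.card E.toAffine.Point ≤ AddMonoid.exponent E.toAffine.Point ^ 2 ∧
      Real.sqrt (Fintype.card F) - 1 ≤ (AddMonoid.exponent E.toAffine.Point : ℝ) := by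
  obtain ⟨l, hchar⟩ := CharP.exists F
  obtain ⟨d, e, -, hde, hcard, he, -⟩ := FA.FiniteFieldGroup.exists_structure E l
  subst he
  have hle : Nat.card E.toAffine.Point ≤ AddMonoid.exponent E.toAffine.Point ^ 2 := by
    rw [← hcard, sq]
    exact Nat.mul_le_mul_right _ (Nat.le_of_dvd
      (Nat.pos_of_ne_zero AddMonoid.exponent_ne_zero_of_finite) hde)
  refine ⟨hle, ?_⟩
  set e := AddMonoid.exponent E.toAffine.Point
  have hle' : (Nat.card E.toAffine.Point : ℝ) ≤ (e : ℝ) ^ 2 := by exact_mod_cast hle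
  have hH : ((Fintype.card F : ℝ) + 1 - Nat.card E.toAffine.Point) ^ 2 ≤
      4 * (Fintype.card F : ℝ) := by
    exact_mod_cast FA.HasseBound.sq_le_of_finite E
  have hs := Real.sq_sqrt (Nat.cast_nonneg (α := ℝ) (Fintype.card F))
  have hs0 := Real.sqrt_nonneg (Fintype.card F : ℝ)
  have he0 : (0 : ℝ) ≤ e := Nat.cast_nonneg _
  by_contra hlt
  push Not at hlt
  nlinarith [mul_pos (sub_pos.2 hlt) (add_pos_of_pos_of_nonneg
    (lt_of_le_of_lt he0 hlt) he0)]

/-- **A supersingular curve has no point of order `l`.** -/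
theorem supersingular_no_point_finite (l : ℕ) [CharP F l]
    (h : (l : ℤ) ∣ (Fintype.card F : ℤ) + 1 - Nat.card E.toAffine.Point) :
    ¬ l ∣ Nat.card E.toAffine.Point := by
  obtain ⟨hl, -⟩ := exists_data E l
  intro hd
  obtain ⟨P, hP⟩ := exists_prime_addOrderOf_dvd_card' l hd
  have h0 : up E P = 0 := (deuring_dichotomy_finite E l).1 h _ (by
    rw [← map_nsmul, ← hP, addOrderOf_nsmul_eq_zero, map_zero])
  rw [← map_zero (up E)] at h0
  rw [up_injective E h0, addOrderOf_zero] at hP
  exact hl.out.ne_one hP.symm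

end FA.Summary

end
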