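import Fermat.Agent.FiniteKakeya.Basic
import Mathlib.Data.Nat.Choose.Bounds

/-!
# Kakeya and Nikodym sets over finite fields

* `finite_field_kakeya` (Dvir): a subset of `F ^ n` containing a line in every direction has at
  least `C(q + n - 1, n)` elements, `q` being the size of `F`;
* `finite_field_kakeya_pow`: hence at least `q ^ n / n!`;
* `finite_field_nikodym`: a set containing, through every point, a line without that point has at
  least `C(q + n - 2, n)` elements.
-/

set_option autoImplicit false

noncomputable section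

namespace FA.Summary

variable {F : Type*} [Field F] [Fintype F] {n : ℕ}

/-- **Dvir's theorem on finite field Kakeya sets.** -/
theorem finite_field_kakeya (hn : 1 ≤ n) (K : Finset (Fin n → F))
    (hK : ∀ v : Fin n → F, v ≠ 0 → ∃ a, ∀ t : F, a + t • v ∈ K) :
    (Fintype.card F + n - 1).choose n ≤ K.card :=
  FA.FiniteKakeya.kakeya hn K hK

/-- **The lower bound `q ^ n / n!`.** -/
theorem finite_field_kakeya_pow (hn : 1 ≤ n) (K : Finset (Fin n → F))
    (hK : ∀ v : Fin n → F, v ≠ 0 → ∃ a, ∀ t : F, a + t • v ∈ K) :
    Fintype.card F ^ n ≤ n.factorial * K.card := by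
  obtain ⟨q, hq⟩ : ∃ q, Fintype.card F = q + 1 :=
    ⟨Fintype.card F - 1, (Nat.sub_add_cancel Fintype.card_pos).symm⟩
  refine le_trans ?_ (Nat.mul_le_mul_left _ (FA.FiniteKakeya.kakeya hn K hK))
  rw [hq, show q + 1 + n - 1 = q + n by omega, ← Nat.ascFactorial_eq_factorial_mul_choose]
  exact Nat.pow_succ_le_ascFactorial _ _

/-- **Nikodym sets over finite fields.** -/
theorem finite_field_nikodym (N : Finset (Fin n → F))
    (hN : ∀ x : Fin n → F, ∃ v, ∀ t : F, t ≠ 0 → x + t • v ∈ N) :
    (Fintype.card F + n - 2).choose n ≤ N.card :=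
  FA.FiniteKakeya.nikodym N hN

end FA.Summary

end
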