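import Fermat.Agent.Schur.FirstCase

/-!
# When congruences decide the first case of Fermat's Last Theorem

For an odd prime `p` the first case is soluble modulo `p²` iff modulo every power of `p` iff in
`p`-adic units iff `(a + 1) ^ p ≡ a ^ p + 1 (mod p²)` for some `1 ≤ a ≤ p - 2`: always for
`p ≡ 1 (mod 3)`, and below `100` besides these only for `59` and `83`.
-/

set_option autoImplicit false
set_option linter.style.haveILetI false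

noncomputable section

namespace FA.Summary

variable {p : ℕ} [hp : Fact p.Prime]

/-- **The first case at `p`, locally**: the four conditions are equivalent. -/
theorem firstCase_local_tfae (hodd : p ≠ 2) : List.TFAE
    [∃ a : ℕ, 0 < a ∧ a ≤ p - 2 ∧ (p : ℤ) ^ 2 ∣ ((a : ℤ) + 1) ^ p - (a : ℤ) ^ p - 1,
      ∃ x y z : ℤ_[p], IsUnit x ∧ IsUnit y ∧ IsUnit z ∧ x ^ p + y ^ p = z ^ p,
      ∀ k : ℕ, ∃ x y z : ℤ, ¬ (p : ℤ) ∣ x ∧ ¬ (p : ℤ) ∣ y ∧ ¬ (p : ℤ) ∣ z ∧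
        (p : ℤ) ^ k ∣ x ^ p + y ^ p - z ^ p,
      ∃ x y z : ℤ, ¬ (p : ℤ) ∣ x ∧ ¬ (p : ℤ) ∣ y ∧ ¬ (p : ℤ) ∣ z ∧
        (p : ℤ) ^ 2 ∣ x ^ p + y ^ p - z ^ p] := by
  tfae_have 1 → 2 := fun ⟨a, h0, h1, h⟩ => FA.Schur.exists_units hodd h0 h1 h
  tfae_have 2 → 3 := by
    rintro ⟨x, y, z, hx, hy, hz, h⟩ k
    have key : ∀ w : ℤ_[p], IsUnit w → ∀ K : ℕ, 0 < K →
        ¬ (p : ℤ) ∣ ((PadicInt.toZModPow K w).val : ℤ) := by
      intro w hw K hK hd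
      rw [Int.natCast_dvd_natCast] at hd
      haveI : NeZero (p ^ K) := ⟨pow_ne_zero _ hp.out.ne_zero⟩
      have hu : IsUnit (PadicInt.toZModPow K w) := hw.map _
      rw [← ZMod.natCast_zmod_val (PadicInt.toZModPow K w), ZMod.isUnit_iff_coprime] at hu
      exact hp.out.ne_one (Nat.dvd_one.mp (hu.gcd_eq_one ▸
        Nat.dvd_gcd hd (dvd_pow_self p hK.ne')))
    refine ⟨(PadicInt.toZModPow (k + 1) x).val, (PadicInt.toZModPow (k + 1) y).val,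
      (PadicInt.toZModPow (k + 1) z).val, key x hx _ k.succ_pos, key y hy _ k.succ_pos,
      key z hz _ k.succ_pos, (pow_dvd_pow (p : ℤ) k.le_succ).trans ?_⟩
    haveI : NeZero (p ^ (k + 1)) := ⟨pow_ne_zero _ hp.out.ne_zero⟩
    rw [show ((p : ℤ) ^ (k + 1)) = ((p ^ (k + 1) : ℕ) : ℤ) by push_cast; rfl,
      ← ZMod.intCast_zmod_eq_zero_iff_dvd]
    push_cast
    rw [ZMod.natCast_zmod_val, ZMod.natCast_zmod_val, ZMod.natCast_zmod_val, ← map_pow, ← map_pow,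
      ← map_pow, ← map_add, h, sub_self]
  tfae_have 3 → 4 := fun h => h 2
  tfae_have 4 → 1 := fun ⟨_, _, _, hx, hy, hz, h⟩ => FA.Schur.exists_criterion hx hy hz h
  tfae_finish

/-- **For `p ≡ 1 (mod 3)` no congruence at `p` proves the first case.** -/
theorem firstCase_soluble_of_one_mod_three (h3 : p % 3 = 1) (k : ℕ) :
    ∃ x y z : ℤ, ¬ (p : ℤ) ∣ x ∧ ¬ (p : ℤ) ∣ y ∧ ¬ (p : ℤ) ∣ z ∧
      (p : ℤ) ^ k ∣ x ^ p + y ^ p - z ^ p := by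
  have hodd : p ≠ 2 := by omega
  have h : (∃ a : ℕ, 0 < a ∧ a ≤ p - 2 ∧ (p : ℤ) ^ 2 ∣ ((a : ℤ) + 1) ^ p - (a : ℤ) ^ p - 1) ↔
      ∀ k : ℕ, ∃ x y z : ℤ, ¬ (p : ℤ) ∣ x ∧ ¬ (p : ℤ) ∣ y ∧ ¬ (p : ℤ) ∣ z ∧
        (p : ℤ) ^ k ∣ x ^ p + y ^ p - z ^ p := (firstCase_local_tfae hodd).out 0 2
  exact h.mp (FA.Schur.criterion_of_one_mod_three h3) k

/-- **The primes below `100`**: modulo `p²` the first case has solutions exactly for these. -/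
theorem firstCase_below_hundred (hodd : p ≠ 2) (h100 : p < 100) :
    (∃ x y z : ℤ, ¬ (p : ℤ) ∣ x ∧ ¬ (p : ℤ) ∣ y ∧ ¬ (p : ℤ) ∣ z ∧
      (p : ℤ) ^ 2 ∣ x ^ p + y ^ p - z ^ p) ↔
      p ∈ ({7, 13, 19, 31, 37, 43, 59, 61, 67, 73, 79, 83, 97} : Finset ℕ) := by
  have h : (∃ x y z : ℤ, ¬ (p : ℤ) ∣ x ∧ ¬ (p : ℤ) ∣ y ∧ ¬ (p : ℤ) ∣ z ∧
      (p : ℤ) ^ 2 ∣ x ^ p + y ^ p - z ^ p) ↔
      ∃ a : ℕ, 0 < a ∧ a ≤ p - 2 ∧ (p : ℤ) ^ 2 ∣ ((a : ℤ) + 1) ^ p - (a : ℤ) ^ p - 1 :=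
    (firstCase_local_tfae hodd).out 3 0
  rw [h]
  have hiff : (∃ a : ℕ, 0 < a ∧ a ≤ p - 2 ∧
      (p : ℤ) ^ 2 ∣ ((a : ℤ) + 1) ^ p - (a : ℤ) ^ p - 1) ↔
      ∃ a ∈ Finset.range (p - 1), 0 < a ∧ (a + 1) ^ p % p ^ 2 = (a ^ p + 1) % p ^ 2 := by
    constructor
    · rintro ⟨a, h0, h1, h⟩
      refine ⟨a, Finset.mem_range.mpr (by omega), h0, (Nat.modEq_iff_dvd.mpr ?_).symm⟩
      push_cast
      rwa [← sub_sub]
    · rintro ⟨a, h1, h0, h⟩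
      rw [Finset.mem_range] at h1
      refine ⟨a, h0, by omega, ?_⟩
      have := Nat.modEq_iff_dvd.mp (Nat.ModEq.symm h)
      push_cast at this
      rwa [← sub_sub] at this
  rw [hiff]
  have table : ∀ q ∈ Finset.range 100, q.Prime → q ≠ 2 →
      ((∃ a ∈ Finset.range (q - 1), 0 < a ∧ (a + 1) ^ q % q ^ 2 = (a ^ q + 1) % q ^ 2) ↔
        q ∈ ({7, 13, 19, 31, 37, 43, 59, 61, 67, 73, 79, 83, 97} : Finset ℕ)) := by
    decide +kernel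
  exact table p (Finset.mem_range.mpr h100) hp.out hodd

end FA.Summary

end
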