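import Fermat.Agent.FirstInvariant.Average
import Fermat.Agent.Root.SummaryReducedGroups

/-!
# The first invariant and the average exponent, on the Riemann hypothesis

For an integral equation with `Δ ≠ 0`, with or without complex multiplication, write `n_m` for the
number of maps Galois induces on the points killed by `m`. On the Riemann hypothesis for all number
fields:

* `first_invariant_distribution_of_GRH`: the primes with `#E(𝔽_p) = d · exponent` have density
  `δ_d = ∑_k μ k / n_{d k}` among the primes, and `∑_d δ_d = 1` (`d = 1`: Serre's cyclicity);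
* `exponent_average_of_GRH`: `exponent / p` has mean `∑_d δ_d / d > 0` (Freiberg, Kurlberg).

The hypothesis is an argument and is never assumed.
-/

set_option autoImplicit false
set_option linter.style.haveILetI false

noncomputable section

open Finset Filter NumberField WeierstrassCurve WeierstrassCurve.Affine FA.Frob FA.EC
  FA.CyclicRed FA.ReducedGroups
open scoped WeierstrassCurve.Affine Classical Topology

local notation "Qb" => AlgebraicClosure ℚ
local notation "GQ" => AlgebraicClosure ℚ ≃ₐ[ℚ] AlgebraicClosure ℚ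
local notation "μR" k => ((ArithmeticFunction.moebius k : ℤ) : ℝ)

namespace FA.FirstInvariant

theorem natCard_action_eq (W : WeierstrassCurve ℤ) [(ratCurve W).IsElliptic] {n : ℕ} (hn : 0 < n) :
    Nat.card (Set.range fun (σ : GQ)
        (x : Submodule.torsionBy ℤ ((W.map (Int.castRingHom ℚ)).toAffine⁄Qb).Point (n : ℤ)) =>
      Affine.Point.map σ.toAlgHom x.1) = degree W n := by
  haveI : NeZero n := ⟨hn.ne'⟩
  show Nat.card (Set.range fun (σ : GQ)
      (x : Submodule.torsionBy ℤ ((ratCurve W).toAffine⁄Qb).Point (n : ℤ)) =>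
    Affine.Point.map σ.toAlgHom x.1) = _
  rw [natCard_range_congr (b := fun σ => FA.TraceDist.glLevel W n σ) (glLevel_eq_iff W n),
    degree_eq]
  rfl

theorem invDensity_eq {W : WeierstrassCurve ℤ} [(ratCurve W).IsElliptic] (hΔ : W.Δ ≠ 0)
    (hGRH : AllFieldsRH) {d : ℕ} (hd : 0 < d) :
    invDensity W d = ∑' k : ℕ, (μR (k + 1)) / Nat.card (Set.range fun (σ : GQ)
        (x : Submodule.torsionBy ℤ ((W.map (Int.castRingHom ℚ)).toAffine⁄Qb).Point
          ((d * (k + 1) : ℕ) : ℤ)) => Affine.Point.map σ.toAlgHom x.1) := by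
  rw [invDensity, (summable_invDensity hΔ hGRH hd).tsum_eq_zero_add]
  simp only [ArithmeticFunction.map_zero, Int.cast_zero, zero_div, zero_add]
  exact tsum_congr fun k => by rw [natCard_action_eq W (Nat.mul_pos hd k.succ_pos)]

/-- A count differing by finitely many has the same ratio. -/
theorem tendsto_ratio_of_near {A B : ℕ → ℝ} {l K : ℝ}
    (hB : Tendsto (fun N : ℕ => B N / Nat.primeCounting N) atTop (𝓝 l))
    (h : ∀ N, |A N - B N| ≤ K) :
    Tendsto (fun N : ℕ => A N / Nat.primeCounting N) atTop (𝓝 l) := by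
  refine hB.congr_dist (squeeze_zero (fun N => dist_nonneg) (fun N => ?_)
    ((tendsto_natCast_atTop_atTop.comp Nat.tendsto_primeCounting).const_div_atTop K))
  rw [dist_comm, Real.dist_eq, ← sub_div, abs_div, Nat.abs_cast]
  exact div_le_div_of_nonneg_right (h N) (Nat.cast_nonneg _)

end FA.FirstInvariant

namespace FA.Summary

open FA.FirstInvariant

/-- **The distribution of the first invariant**, on the Riemann hypothesis. -/
theorem first_invariant_distribution_of_GRH (W : WeierstrassCurve ℤ) (hΔ : W.Δ ≠ 0)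
    (hGRH : ∀ (K : Type) [Field K] [NumberField K] (E : ℂ → ℂ), Differentiable ℂ E →
      (∀ s : ℂ, 1 < s.re → E s = (s - 1) * dedekindZeta K s) →
      ∀ z : ℂ, E z = 0 → 0 < z.re → z.re < 1 → z.re = 1 / 2) :
    let deg : ℕ → ℕ := fun n => Nat.card (Set.range fun (σ : GQ)
        (x : Submodule.torsionBy ℤ ((W.map (Int.castRingHom ℚ)).toAffine⁄Qb).Point (n : ℤ)) =>
      Affine.Point.map σ.toAlgHom x.1)
    let δ : ℕ → ℝ := fun d => ∑' k : ℕ, (μR (k + 1)) / deg (d * (k + 1))
    (∀ d : ℕ, 0 < d → Summable (fun k : ℕ => (μR (k + 1)) / deg (d * (k + 1))) ∧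
      Tendsto (fun N : ℕ => (((Icc 1 N).filter fun p : ℕ => ∃ _ : Fact p.Prime,
        ¬ (p : ℤ) ∣ W.Δ ∧ Nat.card (W.map (Int.castRingHom (ZMod p))).toAffine.Point =
          d * AddMonoid.exponent (W.map (Int.castRingHom (ZMod p))).toAffine.Point).card : ℝ) /
          Nat.primeCounting N) atTop (𝓝 (δ d))) ∧
    HasSum (fun d : ℕ => δ (d + 1)) 1 := by
  intro deg δ
  haveI := ratCurve_isElliptic_of_Δ hΔ
  have hδ : ∀ d, 0 < d → δ d = invDensity W d := fun d hd => (invDensity_eq hΔ hGRH hd).symm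
  refine ⟨fun d hd => ⟨?_, ?_⟩,
    by simpa only [hδ _ (Nat.succ_pos _)] using hasSum_invDensity hΔ hGRH⟩
  · refine ((summable_nat_add_iff 1).2 (summable_invDensity hΔ hGRH hd)).congr fun k => ?_
    rw [← natCard_action_eq W (Nat.mul_pos hd k.succ_pos)]
  rw [hδ d hd]
  refine tendsto_ratio_of_near (K := (FA.CyclicRed.badPrimes W).card)
    (tendsto_div_primeCounting hΔ hGRH (tendsto_invSet hΔ hGRH hd)) fun N => ?_
  obtain ⟨A, hA⟩ : ∃ A : Finset ℕ, A = (Icc 1 N).filter fun p : ℕ => ∃ _ : Fact p.Prime,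
      ¬ (p : ℤ) ∣ W.Δ ∧ Nat.card (W.map (Int.castRingHom (ZMod p))).toAffine.Point =
        d * AddMonoid.exponent (W.map (Int.castRingHom (ZMod p))).toAffine.Point := ⟨_, rfl⟩
  have h1 : A ⊆ invSet W d N ∪ FA.CyclicRed.badPrimes W := fun p hp => by
    rw [hA, mem_filter] at hp
    obtain ⟨hpI, hpf, -, h⟩ := hp
    rw [mem_union]
    by_cases hbad : p ∈ FA.CyclicRed.badPrimes W
    exacts [Or.inr hbad, Or.inl (mem_filter.2 ⟨hpI, hpf.out, hbad, hpf, h⟩)]
  have h2 : invSet W d N ⊆ A := fun p hp => by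
    rw [invSet, mem_filter] at hp
    obtain ⟨hpI, hpp, hbad, hpf, h⟩ := hp
    rw [hA, mem_filter]
    exact ⟨hpI, hpf, (good_of_not_mem hΔ hpp hbad).2, h⟩
  rw [← hA, abs_le]
  have e1 : (A.card : ℝ) ≤ (invSet W d N).card + (FA.CyclicRed.badPrimes W).card := by
    exact_mod_cast (card_le_card h1).trans (card_union_le _ _)
  have e2 : ((invSet W d N).card : ℝ) ≤ A.card := Nat.cast_le.2 (card_le_card h2)
  constructor <;> linarith [Nat.cast_nonneg (α := ℝ) (FA.CyclicRed.badPrimes W).card]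

/-- **Freiberg–Kurlberg: the average exponent**, on the Riemann hypothesis. -/
theorem exponent_average_of_GRH (W : WeierstrassCurve ℤ) (hΔ : W.Δ ≠ 0)
    (hGRH : ∀ (K : Type) [Field K] [NumberField K] (E : ℂ → ℂ), Differentiable ℂ E →
      (∀ s : ℂ, 1 < s.re → E s = (s - 1) * dedekindZeta K s) →
      ∀ z : ℂ, E z = 0 → 0 < z.re → z.re < 1 → z.re = 1 / 2) :
    let deg : ℕ → ℕ := fun n => Nat.card (Set.range fun (σ : GQ)
        (x : Submodule.torsionBy ℤ ((W.map (Int.castRingHom ℚ)).toAffine⁄Qb).Point (n : ℤ)) =>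
      Affine.Point.map σ.toAlgHom x.1)
    let c : ℝ := ∑' d : ℕ, (∑' k : ℕ, (μR (k + 1)) / deg ((d + 1) * (k + 1))) / (d + 1 : ℕ)
    0 < c ∧ Tendsto (fun N : ℕ => (∑ p ∈ Icc 1 N,
      if h : p.Prime ∧ ¬ (p : ℤ) ∣ W.Δ then
        haveI := Fact.mk h.1
        (AddMonoid.exponent (W.map (Int.castRingHom (ZMod p))).toAffine.Point : ℝ) / p
      else 0) / Nat.primeCounting N) atTop (𝓝 c) := by
  intro deg c
  haveI := ratCurve_isElliptic_of_Δ hΔ
  have hc : c = ∑' d : ℕ, invDensity W (d + 1) / (d + 1 : ℕ) :=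
    tsum_congr fun d => by rw [invDensity_eq hΔ hGRH d.succ_pos]
  rw [hc]
  refine ⟨average_pos hΔ hGRH, ?_⟩
  refine tendsto_ratio_of_near (K := ∑ p ∈ FA.CyclicRed.badPrimes W, |expRatio W p|)
    (tendsto_average hΔ hGRH) fun N => ?_
  obtain ⟨S, hS⟩ : ∃ S : Finset ℕ, S = (Icc 1 N).filter fun p : ℕ => p.Prime ∧ ¬ (p : ℤ) ∣ W.Δ :=
    ⟨_, rfl⟩
  have hval : (∑ p ∈ Icc 1 N, if h : p.Prime ∧ ¬ (p : ℤ) ∣ W.Δ then
      haveI := Fact.mk h.1
      (AddMonoid.exponent (W.map (Int.castRingHom (ZMod p))).toAffine.Point : ℝ) / p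
      else 0) = ∑ p ∈ S, expRatio W p := by
    rw [hS, sum_filter]
    refine sum_congr rfl fun p _ => ?_
    by_cases h : p.Prime ∧ ¬ (p : ℤ) ∣ W.Δ
    · rw [dif_pos h, if_pos h, expRatio, dif_pos h.1]
    · rw [dif_neg h, if_neg h]
  have hsub : fullCount W 1 N ⊆ S := fun p hp => by
    rw [fullCount, mem_filter] at hp
    rw [hS, mem_filter]
    exact ⟨hp.1, hp.2.1, (good_of_not_mem hΔ hp.2.1 hp.2.2.1).2⟩
  have hrest : S \ fullCount W 1 N ⊆ FA.CyclicRed.badPrimes W := fun p hp => by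
    rw [Finset.mem_sdiff, hS, mem_filter] at hp
    by_contra hbad
    obtain ⟨c, -, -, -, hiff⟩ := exists_invariant hΔ hp.1.2.1 hbad
    exact hp.2 (mem_filter.2 ⟨hp.1.1, hp.1.2.1, hbad, (hiff 1 one_pos).2 (one_dvd c)⟩)
  rw [hval, ← sum_sdiff hsub, add_sub_cancel_right]
  exact (abs_sum_le_sum_abs _ _).trans
    (sum_le_sum_of_subset_of_nonneg hrest fun _ _ _ => abs_nonneg _)

end FA.Summary

end
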