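import Fermat.Agent.FirstOrderZeroOne.Count

/-!
# The zero-one law of first-order logic

For a finite relational language without nullary symbols the proportion of the structures on `N`
labelled points which satisfy a given sentence tends to `0` or to `1`, exponentially fast
(Glebskii, Kogan, Liogonkii and Talanov 1969; Fagin 1976). With a nullary symbol this fails.

Not claimed: the decidability of the sentences of limit `1`, or the law for unlabelled structures.
-/

set_option autoImplicit false

universe u v

namespace FA.FirstOrderZeroOne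

open FirstOrder Language Structure Filter Topology Asymptotics

variable {L : Language.{u, v}} [L.IsRelational] [Fintype (Σ r, L.Relations r)]

omit [Fintype (Σ r, L.Relations r)] in
/-- **What is counted.** The structures on `N` labelled points correspond to the tables. -/
theorem labelled_structures (N : ℕ) (S : L.Structure (Fin N)) :
    ∃! f : Table L N, structureOf f = S :=
  existsUnique_table S

/-- **Almost all structures have the extension properties.** -/
theorem almost_all_hasExtension (K : ℕ) :
    ∃ ρ : ℝ, 0 < ρ ∧ ρ < 1 ∧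
      (fun N : ℕ => fraction fun f : Table L N =>
        ∃ k < K, ¬@HasExtension L k (Fin N) (structureOf f)) =O[atTop] fun N => ρ ^ N := by
  choose ρ h0 h1 hO using exists_isBigO_fraction_not_hasExtension (L := L)
  let r : ℝ := ((Finset.range K).sup fun k => ⟨ρ k, (h0 k).le⟩ : NNReal) ⊔ (1 / 2)
  have hr : 0 < r ∧ r < 1 := by
    refine ⟨lt_sup_of_lt_right (by norm_num), sup_lt_iff.2 ⟨?_, by norm_num⟩⟩
    exact_mod_cast (Finset.sup_lt_iff (by simp : (⊥ : NNReal) < 1)).2 fun k _ => h1 k
  refine ⟨r, hr.1, hr.2, (IsBigO.of_bound 1 ?_).trans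
    (IsBigO.sum (s := Finset.range K) fun k hk => (hO k).trans ?_)⟩
  · refine .of_forall fun N => ?_
    rw [one_mul, Finset.sum_apply, Real.norm_of_nonneg (fraction_nonneg _),
      Real.norm_of_nonneg (Finset.sum_nonneg fun k _ => fraction_nonneg _),
      ← Finset.sum_coe_sort (Finset.range K)]
    refine (fraction_mono fun f hf => ?_).trans (fraction_exists_le _)
    obtain ⟨k, hk, h⟩ := hf
    exact ⟨⟨k, Finset.mem_range.2 hk⟩, h⟩
  · refine IsBigO.of_bound 1 (.of_forall fun N => ?_)
    rw [one_mul, norm_pow, norm_pow, Real.norm_of_nonneg (h0 k).le, Real.norm_of_nonneg hr.1.le]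
    refine pow_le_pow_left₀ (h0 k).le (le_sup_of_le_left ?_) N
    exact_mod_cast Finset.le_sup (f := fun k => (⟨ρ k, (h0 k).le⟩ : NNReal)) hk

/-- **The zero-one law, with a rate.** -/
theorem zero_one_law_exponential [IsEmpty (L.Relations 0)] (σ : L.Sentence) :
    ∃ d : ℝ, (d = 0 ∨ d = 1) ∧ ∃ ρ : ℝ, 0 < ρ ∧ ρ < 1 ∧
      (fun N => sentenceFraction σ N - d) =O[atTop] fun N => ρ ^ N := by
  obtain ⟨K, hK⟩ := exists_bound.{_, _, 0} σ
  obtain ⟨ρ, hρ, hρ1, hO⟩ := almost_all_hasExtension (L := L) K
  have agree : ∀ {M N : ℕ} (f : Table L M) (g : Table L N),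
      (∀ k < K, @HasExtension L k _ (structureOf f)) →
      (∀ k < K, @HasExtension L k _ (structureOf g)) →
      (@Sentence.Realize L _ (structureOf f) σ ↔ @Sentence.Realize L _ (structureOf g) σ) := by
    intro M N f g hf hg
    let := structureOf f
    let := structureOf g
    exact hK (Fin M) (Fin N) hf hg default default (sameDiagram_zero _ _) default default
  by_cases hyes : ∃ (M : ℕ) (f : Table L M), (∀ k < K, @HasExtension L k _ (structureOf f)) ∧
      @Sentence.Realize L _ (structureOf f) σ
  · obtain ⟨M, f, hf, hσ⟩ := hyes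
    refine ⟨1, .inr rfl, ρ, hρ, hρ1, (IsBigO.of_bound 1 (.of_forall fun N => ?_)).trans hO⟩
    rw [one_mul, Real.norm_eq_abs, abs_sub_comm, sentenceFraction, ← fraction_not,
      abs_of_nonneg (fraction_nonneg _), Real.norm_of_nonneg (fraction_nonneg _)]
    refine fraction_mono fun g hg => ?_
    by_contra! hall
    exact hg ((agree f g hf hall).1 hσ)
  · refine ⟨0, .inl rfl, ρ, hρ, hρ1, (IsBigO.of_bound 1 (.of_forall fun N => ?_)).trans hO⟩
    rw [one_mul, sub_zero, sentenceFraction, Real.norm_of_nonneg (fraction_nonneg _),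
      Real.norm_of_nonneg (fraction_nonneg _)]
    refine fraction_mono fun g hg => ?_
    by_contra! hall
    exact hyes ⟨N, g, hall, hg⟩

/-- **The zero-one law.** -/
theorem zero_one_law [IsEmpty (L.Relations 0)] (σ : L.Sentence) :
    Tendsto (sentenceFraction σ) atTop (𝓝 0) ∨ Tendsto (sentenceFraction σ) atTop (𝓝 1) := by
  obtain ⟨d, hd, ρ, hρ, hρ1, hO⟩ := zero_one_law_exponential σ
  have h := hO.trans_tendsto (tendsto_pow_atTop_nhds_zero_of_lt_one hρ.le hρ1)
  rcases hd with rfl | rfl
  · exact .inl (by simpa using h)
  · exact .inr (tendsto_sub_nhds_zero_iff.1 h)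

/-- **A nullary symbol spoils the law**: it is true in exactly half of the structures. -/
theorem nullary_half (R : L.Relations 0) (N : ℕ) :
    sentenceFraction (Relations.formula R ![] : L.Sentence) N = 1 / 2 := by
  classical
  let g : Unit → TableEntry L N := fun _ => ⟨⟨0, R⟩, ![]⟩
  have hP : ∀ f : Table L N,
      @Sentence.Realize L _ (structureOf f) (Relations.formula R ![] : L.Sentence) ↔
        (f ∘ g) () = true := fun f => by
    let := structureOf f
    rw [Sentence.Realize, Formula.realize_rel]
    exact iff_of_eq (congrArg (RelMap R) (Subsingleton.elim _ ![]))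
  simp only [sentenceFraction, fraction, hP]
  rw [card_comp_injective (Function.injective_of_subsingleton g) fun h => h () = true]
  have h1 : Nat.card {h : Unit → Bool // h () = true} = 1 :=
    Nat.card_eq_one_iff_exists.2 ⟨⟨fun _ => true, rfl⟩, fun h => Subtype.ext (funext fun _ => h.2)⟩
  rw [h1]
  simp

end FA.FirstOrderZeroOne
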