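import Fermat.Agent.FivePrimeCubes.Density

/-!
# Hua: five cubes of primes for almost all numbers

The theorem of Hua: all but `O (X / (log X) ^ A)` of the odd `N ≤ X` with `N ≢ 0, ±2` modulo `9`
and `7 ∤ N` are sums of five cubes of primes, with the asymptotic formula for the weighted count.
The congruences are necessary for primes above `7`, so the sums of five cubes of such primes have
density `2/7`.

The constants are ineffective through Siegel and Walfisz. No density is claimed for five cubes of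
arbitrary primes: with a prime `≤ 7` other classes occur.
-/

set_option autoImplicit false

noncomputable section

namespace FA.FivePrimeCubes.Summary

open Finset Filter Topology
open FA.WaringGoldbach (primeRep primeSeries repConst)

/-- **Hua's theorem.** -/
theorem five_prime_cubes_almost_all (A : ℕ) : ∃ C : ℝ, 0 < C ∧ ∀ X : ℕ, 2 ≤ X →
    ∃ T : Finset ℕ, (T.card : ℝ) ≤ C * (X / Real.log X ^ A) ∧ ∀ N ∈ Icc 1 X, N ∉ T →
      N % 2 = 1 → N % 7 ≠ 0 → N % 9 ≠ 0 → N % 9 ≠ 2 → N % 9 ≠ 7 →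
      ∃ p q r s t : ℕ, (p.Prime ∧ q.Prime ∧ r.Prime ∧ s.Prime ∧ t.Prime) ∧
        p ^ 3 + q ^ 3 + r ^ 3 + s ^ 3 + t ^ 3 = N := by
  classical
  obtain ⟨c, hc, h⟩ := exists_few_representations
  obtain ⟨C, hC, hex⟩ := h A
  refine ⟨C, hC, fun X hX => ⟨_, hex X hX, fun N hN hT h2 h7 h0 h02 h07 => ?_⟩⟩
  by_contra hno
  refine hT (mem_filter.2 ⟨hN, ⟨h2, h7, h0, h02, h07⟩, ?_⟩)
  rw [card_eq_zero.2 (filter_eq_empty_iff.2 fun z _ hz => hno
    ⟨z 0, z 1, z 2, z 3, z 4, ⟨(hz.1 0).1, (hz.1 1).1, (hz.1 2).1, (hz.1 3).1, (hz.1 4).1⟩,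
      (Fin.sum_univ_five fun i => z i ^ 3).symm.trans hz.2⟩), Nat.cast_zero, zero_mul]
  exact mul_pos hc (Real.rpow_pos_of_pos (Nat.cast_pos.2 (mem_Icc.1 hN).1) _)

/-- **The number of representations** by primes above `7`. -/
theorem five_prime_cubes_count : ∃ c : ℝ, 0 < c ∧ ∀ A : ℕ, ∃ C : ℝ, 0 < C ∧ ∀ X : ℕ, 2 ≤ X →
    (((Icc 1 X).filter fun N : ℕ => (N % 2 = 1 ∧ N % 7 ≠ 0 ∧ N % 9 ≠ 0 ∧ N % 9 ≠ 2 ∧ N % 9 ≠ 7) ∧
      (((Fintype.piFinset fun _ : Fin 5 => Icc 1 N).filter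
        fun z => (∀ i, (z i).Prime ∧ 7 < z i) ∧ ∑ i, z i ^ 3 = N).card : ℝ) * Real.log N ^ 5 <
          c * (N : ℝ) ^ (2 / 3 : ℝ)).card : ℝ) ≤ C * (X / Real.log X ^ A) :=
  exists_few_representations

/-- **The asymptotic formula** for the weighted count. -/
theorem five_prime_cubes_asymptotic (A : ℕ) {η : ℝ} (hη : 0 < η) : ∃ C : ℝ, 0 < C ∧
    ∀ X : ℕ, 2 ≤ X → (((Icc 1 X).filter fun N : ℕ => η * (N : ℝ) ^ (2 / 3 : ℝ) <
      |primeRep 3 5 bigPrimes N -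
        primeSeries 3 5 N * repConst 3 5 * (N : ℝ) ^ (2 / 3 : ℝ)|).card : ℝ) ≤
      C * (X / Real.log X ^ A) :=
  exists_relative_exceptions A hη

/-- **The singular series is bounded below** on the admissible numbers. -/
theorem five_cubes_singular_series_pos : ∃ c : ℝ, 0 < c ∧ ∀ N : ℕ,
    N % 2 = 1 → N % 7 ≠ 0 → N % 9 ≠ 0 → N % 9 ≠ 2 → N % 9 ≠ 7 → c ≤ primeSeries 3 5 N := by
  obtain ⟨c, hc, h⟩ := exists_series_pos
  exact ⟨c, hc, fun N h2 h7 h0 h02 h07 => h N ⟨h2, h7, h0, h02, h07⟩⟩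

/-- **The congruences are necessary** for primes above `7`. -/
theorem congruences_necessary {p q r s t N : ℕ}
    (hp : p.Prime ∧ q.Prime ∧ r.Prime ∧ s.Prime ∧ t.Prime)
    (h7 : 7 < p ∧ 7 < q ∧ 7 < r ∧ 7 < s ∧ 7 < t)
    (h : p ^ 3 + q ^ 3 + r ^ 3 + s ^ 3 + t ^ 3 = N) :
    N % 2 = 1 ∧ N % 7 ≠ 0 ∧ N % 9 ≠ 0 ∧ N % 9 ≠ 2 ∧ N % 9 ≠ 7 := by
  refine isAdmissible_of_five_prime_cubes ⟨![p, q, r, s, t], fun i => ?_, ?_⟩
  · fin_cases i <;> simp [hp, h7]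
  · simpa [Fin.sum_univ_five] using h

/-- **The density**: the sums of five cubes of primes above `7` have density `2/7`. -/
theorem five_prime_cubes_density : Tendsto (fun X : ℕ =>
    ({N : ℕ | 1 ≤ N ∧ N ≤ X ∧ ∃ z : Fin 5 → ℕ,
      (∀ i, (z i).Prime ∧ 7 < z i) ∧ ∑ i, z i ^ 3 = N}.ncard : ℝ) / X) atTop (𝓝 (2 / 7)) := by
  classical
  refine tendsto_five_prime_cubes_density.congr fun X => ?_
  rw [show {N : ℕ | 1 ≤ N ∧ N ≤ X ∧ ∃ z : Fin 5 → ℕ,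
      (∀ i, (z i).Prime ∧ 7 < z i) ∧ ∑ i, z i ^ 3 = N} =
      ↑((Ioc 0 X).filter fun N => IsFivePrimeCubes N) by
    ext N; simp [IsFivePrimeCubes, Nat.lt_iff_add_one_le, and_assoc], Set.ncard_coe_finset]

end FA.FivePrimeCubes.Summary
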