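import Fermat.Agent.Bieberbach.Holonomy
import Fermat.Agent.Bieberbach.Restriction

/-!
# Flat manifolds and the crystallographic restriction

For crystallographic groups (`FA.Bieberbach.IsCrystallographic`):

* `auslander_kuranishi`: every finite group is isomorphic to the group of linear parts of a
  torsion-free one, acting freely, hence is the holonomy group of a compact flat manifold;
* `torsionFree_iff_free`: such a group is torsion-free iff it acts freely;
* `no_fivefold_symmetry`: the order of a linear part satisfies the totient criterion, so it is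
  `1`, `2`, `3`, `4` or `6` in dimensions two and three;
* `flat_classes_finite`: in each dimension there are finitely many torsion-free ones up to affine
  conjugation.
-/

set_option autoImplicit false

noncomputable section

open Module FA.Bieberbach

namespace FA.Summary

/-- **The theorem of Auslander and Kuranishi.** -/
theorem auslander_kuranishi (G : Type*) [Group G] [Finite G] :
    ∃ (N : ℕ) (Γ : Subgroup (EuclideanSpace ℝ (Fin N) ≃ᵃⁱ[ℝ] EuclideanSpace ℝ (Fin N))),
      IsCrystallographic Γ ∧ (∀ γ ∈ Γ, ∀ k : ℕ, 0 < k → γ ^ k = 1 → γ = 1) ∧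
        (∀ γ ∈ Γ, ∀ x, γ x = x → γ = 1) ∧
          Nonempty (G ≃* Γ.map (rotHom (EuclideanSpace ℝ (Fin N)))) :=
  exists_flat G

variable {n : ℕ}

/-- The euclidean space. -/
local notation "E" => EuclideanSpace ℝ (Fin n)

/-- **Torsion and fixed points.** -/
theorem torsionFree_iff_free {G : Subgroup (E ≃ᵃⁱ[ℝ] E)} (hG : IsCrystallographic G) :
    (∀ γ ∈ G, ∀ k : ℕ, 0 < k → γ ^ k = 1 → γ = 1) ↔ ∀ γ ∈ G, ∀ x : E, γ x = x → γ = 1 :=
  ⟨free_of_torsionFree hG, torsionFree_of_free⟩

/-- **The crystallographic restriction.** -/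
theorem no_fivefold_symmetry {G : Subgroup (E ≃ᵃⁱ[ℝ] E)} (hG : IsCrystallographic G)
    {γ : E ≃ᵃⁱ[ℝ] E} (hγ : γ ∈ G) :
    (∑ p ∈ (orderOf (rotHom E γ)).primeFactors,
      if p ^ (orderOf (rotHom E γ)).factorization p = 2 then 0
      else Nat.totient (p ^ (orderOf (rotHom E γ)).factorization p)) ≤ n ∧
    (n = 2 ∨ n = 3 → orderOf (rotHom E γ) ∈ ({1, 2, 3, 4, 6} : Finset ℕ)) := by
  obtain ⟨hpos, h⟩ := exists_integral_of_order hG (finrank_euclideanSpace_fin (𝕜 := ℝ)) hγ
  refine ⟨?_, ?_⟩
  · rcases Nat.eq_zero_or_pos n with rfl | hn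
    · rw [show rotHom _ γ = 1 from LinearIsometryEquiv.ext fun x => Subsingleton.elim _ _]
      simp
    · exact (crystallographic_restriction hn hpos).1 h
  · rintro (rfl | rfl)
    · exact (crystallographic_two hpos).1 h
    · exact (crystallographic_three hpos).1 h

variable (n) in
/-- **Finitely many flat manifolds per dimension.** -/
theorem flat_classes_finite :
    ∃ F : Set (Subgroup (E ≃ᵃⁱ[ℝ] E)), F.Finite ∧
      (∀ G ∈ F, IsCrystallographic (V := E) G ∧ IsTorsionFreeGroup (V := E) G) ∧
      ∀ G : Subgroup (E ≃ᵃⁱ[ℝ] E), IsCrystallographic G → IsTorsionFreeGroup G →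
        ∃ G' ∈ F, ∃ f : E ≃ᵃ[ℝ] E, ∀ δ, δ ∈ G' ↔ ∃ γ ∈ G, ∀ x, δ (f x) = f (γ x) :=
  exists_flat_classes (finrank_euclideanSpace_fin (𝕜 := ℝ))

end FA.Summary

end
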