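import Fermat.Agent.FlowPolynomial.Count
import Fermat.Agent.FlowPolynomial.Lift

/-!
# Tutte's flow theorems (1950, 1954)

A finite multigraph is given by the two maps `tail head : E → V`; loops and parallel edges are
allowed. A flow has, at each vertex, the same total on the edges out as on the edges in.

* `flow_polynomial`: the number of nowhere-zero flows with values in a finite abelian group is one
  integer polynomial evaluated at the order of the group;
* `flow_count_order`: so it depends only on the order;
* `tutte_flow`: a nowhere-zero flow in a group of order `k` exists exactly when an integer flow with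
  `0 < |f e| < k` on every edge exists.
-/

set_option autoImplicit false

noncomputable section

namespace FA.FlowPolynomial.Summary

open Finset
open Classical

universe u v w

variable {V : Type v} {E : Type u} [Fintype E] (tail head : E → V)

theorem flow_polynomial :
    ∃ P : Polynomial ℤ, ∀ (A : Type w) [AddCommGroup A] [Fintype A],
      (#(univ.filter fun f : E → A =>
        (∀ x, ∑ e ∈ univ.filter (fun e => tail e = x), f e =
          ∑ e ∈ univ.filter (fun e => head e = x), f e) ∧ ∀ e, f e ≠ 0) : ℤ) =
        P.eval (Fintype.card A : ℤ) := by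
  obtain ⟨P, hP⟩ := exists_flowPoly _ E tail head rfl
  refine ⟨P, fun A _ _ => ?_⟩
  simp only [← isFlow_iff]
  exact hP A

theorem flow_count_order (A B : Type w) [AddCommGroup A] [Fintype A] [AddCommGroup B] [Fintype B]
    (hcard : Fintype.card A = Fintype.card B) :
    #(nzFlows (A := A) tail head) = #(nzFlows (A := B) tail head) := by
  obtain ⟨P, hP⟩ := exists_flowPoly.{u, v, w} _ E tail head rfl
  exact Nat.cast_injective (R := ℤ) (by rw [hP A, hP B, hcard])

theorem tutte_flow [Fintype V] (A : Type w) [AddCommGroup A] [Fintype A] :
    (∃ f : E → A, (∀ x, ∑ e ∈ univ.filter (fun e => tail e = x), f e =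
        ∑ e ∈ univ.filter (fun e => head e = x), f e) ∧ ∀ e, f e ≠ 0) ↔
      ∃ f : E → ℤ, (∀ x, ∑ e ∈ univ.filter (fun e => tail e = x), f e =
        ∑ e ∈ univ.filter (fun e => head e = x), f e) ∧
          ∀ e, 0 < |f e| ∧ |f e| < Fintype.card A := by
  simp only [← isFlow_iff]
  have : NeZero (Fintype.card A) := ⟨Fintype.card_ne_zero⟩
  let up : ZMod (Fintype.card A) ≃+ ULift.{w} (ZMod (Fintype.card A)) := AddEquiv.ulift.symm
  have hiff : (∃ f : E → A, IsFlow tail head f ∧ ∀ e, f e ≠ 0) ↔
      ∃ g : E → ULift.{w} (ZMod (Fintype.card A)), IsFlow tail head g ∧ ∀ e, g e ≠ 0 := by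
    have h := flow_count_order tail head A (ULift.{w} (ZMod (Fintype.card A))) (by simp)
    simp only [← mem_nzFlows]
    exact card_pos.symm.trans ((iff_of_eq (by rw [h])).trans card_pos)
  rw [hiff]
  constructor
  · rintro ⟨g, hg, hg0⟩
    refine exists_lift tail head Fintype.card_pos (fun e => up.symm (g e)) (fun x => ?_)
      fun e => up.symm.map_ne_zero_iff.2 (hg0 e)
    have h := excess_map up.symm.toAddMonoidHom tail head g x
    rw [hg x, map_zero] at h
    exact h
  · rintro ⟨f, hf, hb⟩
    obtain ⟨g, hg, hg0⟩ := exists_mod_flow tail head hf hb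
    refine ⟨fun e => up (g e), fun x => ?_, fun e => up.map_ne_zero_iff.2 (hg0 e)⟩
    have h := excess_map up.toAddMonoidHom tail head g x
    rw [hg x, map_zero] at h
    exact h

end FA.FlowPolynomial.Summary
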