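import Fermat.Agent.Amenable.Folner
import Fermat.Agent.Amenable.Main

/-!
# Følner's criterion and Tarski's alternative

A group has an invariant mean exactly when it has Følner sets (Følner 1955), exactly when it has no
paradoxical decomposition (Tarski 1938). So groups of subexponential growth are amenable, and
amenability passes to extensions and directed unions (Day 1957).
-/

set_option autoImplicit false

noncomputable section

open Filter Function
open scoped Topology Pointwise

namespace FA.Summary

open FA.Amenable

/-- **Følner's criterion.** -/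
theorem amenable_iff_folner {G : Type*} [Group G] [DecidableEq G] :
    IsAmenable G ↔ ∀ (S : Finset G) (ε : ℝ), 0 < ε → ∃ F : Finset G, F.Nonempty ∧
      ∀ s ∈ S, (((F.image (s * ·)) \ F).card : ℝ) ≤ ε * F.card :=
  isAmenable_iff_isFolner

/-- **Tarski's alternative.** -/
theorem not_amenable_iff_paradoxical {G : Type*} [Group G] :
    ¬ IsAmenable G ↔ ∃ (k l : ℕ) (A : Fin k → Set G) (B : Fin l → Set G) (a : Fin k → G)
      (b : Fin l → G), Pairwise (Disjoint on A) ∧ (⋃ i, A i) = Set.univ ∧
      Pairwise (Disjoint on B) ∧ (⋃ j, B j) = Set.univ ∧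
      Pairwise (Disjoint on Sum.elim (fun i => (a i * ·) '' A i) (fun j => (b j * ·) '' B j)) :=
  not_isAmenable_iff_isParadoxical

/-- **Groups of subexponential growth are amenable.** -/
theorem amenable_of_subexponential_growth {G : Type*} [Group G] [DecidableEq G]
    (h : ∀ (S : Finset G) (c : ℝ), 1 < c → ∀ᶠ n in atTop, ((S ^ n).card : ℝ) ≤ c ^ n) :
    IsAmenable G :=
  (isFolner_of_subexponential h).hasMean.isAmenable

/-- **An extension of amenable groups is amenable.** -/
theorem amenable_extension {G : Type*} [Group G] (N : Subgroup G) [N.Normal] (hN : IsAmenable N)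
    (hQ : IsAmenable (G ⧸ N)) : IsAmenable G :=
  (hasMean_of_extension N hN.hasMean hQ.hasMean).isAmenable

/-- **A group is amenable when its finitely generated subgroups are.** -/
theorem amenable_iff_fg_subgroups {G : Type*} [Group G] :
    IsAmenable G ↔ ∀ H : Subgroup G, H.FG → IsAmenable H :=
  ⟨fun h H _ => h.of_injective H.subtype H.subtype_injective,
    fun h => (hasMean_of_fg fun H hH => (h H hH).hasMean).isAmenable⟩

/-- **Quotients of amenable groups are amenable.** -/
theorem amenable_quotient {G : Type*} [Group G] (N : Subgroup G) [N.Normal] (h : IsAmenable G) :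
    IsAmenable (G ⧸ N) :=
  h.of_surjective _ (QuotientGroup.mk'_surjective N)

/-- **A linear group in characteristic zero has Følner sets iff it has no free subgroup of rank
two.** -/
theorem linear_folner_iff_no_free {K : Type*} [Field K] [CharZero K] {n : ℕ}
    (G : Subgroup (Matrix.GeneralLinearGroup (Fin n) K)) [DecidableEq G] :
    (∀ (S : Finset G) (ε : ℝ), 0 < ε → ∃ F : Finset G, F.Nonempty ∧
      ∀ s ∈ S, (((F.image (s * ·)) \ F).card : ℝ) ≤ ε * F.card) ↔
      ¬ ∃ f : FreeGroup (Fin 2) →* G, Function.Injective f :=
  amenable_iff_folner.symm.trans (isAmenable_iff_no_free G)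

/-- **Both cases occur**: the integers are amenable, the free group of rank two is paradoxical. -/
theorem folner_tarski_both_occur :
    IsFolner (Multiplicative ℤ) ∧ ¬ IsParadoxical (Multiplicative ℤ) ∧
      IsParadoxical (FreeGroup (Fin 2)) ∧ ¬ IsFolner (FreeGroup (Fin 2)) :=
  have h : IsAmenable (Multiplicative ℤ) := hasMean_of_comm.isAmenable
  ⟨isAmenable_iff_isFolner.1 h, fun hp => not_isAmenable_of_isParadoxical hp h,
    not_isAmenable_iff_isParadoxical.1 not_isAmenable_freeGroup,
    fun hf => not_isAmenable_freeGroup hf.hasMean.isAmenable⟩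

end FA.Summary

end
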