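import Fermat.Agent.FontaineWintenberger.Transfer

/-!
# The tilt of `ℂ_p` and the theorem of Fontaine and Wintenberger

`Flat p` is the field of the sequences of `ℂ_p` compatible for the `p`-th power, with the absolute
value of the first term.
-/

set_option autoImplicit false
set_option linter.unusedSectionVars false

noncomputable section

open FA.TateSen FA.FontaineWintenberger

namespace FA.Summary

variable (p : ℕ) [Fact p.Prime]

local notation "Ω" => PadicAlgCl p

/-- An element of the tilt is a sequence compatible for the `p`-th power; the product is termwise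
and the absolute value is that of the first term. -/
theorem tilt_def :
    (∀ f : ℕ → ℂ_[p], (∀ n, f (n + 1) ^ p = f n) → ∃ x : Flat p, x.seq = f) ∧
      ∀ (x y : Flat p) (n : ℕ), x.seq (n + 1) ^ p = x.seq n ∧
        (x * y).seq n = x.seq n * y.seq n ∧ ‖x‖ = ‖x.seq 0‖ :=
  ⟨fun f hf => ⟨⟨f, hf⟩, rfl⟩, fun x y n => ⟨seq_pow x n, seq_mul x y n, norm_flat_def x⟩⟩

/-- **The tilt of `ℂ_p`** is a complete nonarchimedean algebraically closed field of
characteristic `p`. -/
theorem tilt_facts : CharP (Flat p) p ∧ IsUltrametricDist (Flat p) ∧ CompleteSpace (Flat p) ∧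
    IsAlgClosed (Flat p) :=
  ⟨inferInstance, inferInstance, inferInstance, inferInstance⟩

/-- The Laurent series embed in the tilt as a closed subfield with dense algebraic closure, `t`
going to `(ζ_{p^n})_n - 1`. -/
theorem tilt_laurent : ∃ e : LaurentSeries (ZMod p) →+* Flat p,
    e (algebraMap (PowerSeries (ZMod p)) _ PowerSeries.X) = eps p - 1 ∧
      (∀ n, ∃ z : Ω, IsPrimitiveRoot z (p ^ n) ∧ (eps p).seq n = (z : ℂ_[p])) ∧
        IsClosed (Set.range e) ∧ Dense (algebraicClosure e.fieldRange (Flat p) : Set (Flat p)) := by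
  refine ⟨laurentHom p, by rw [laurentHom_algebraMap, powerHom_X]; rfl,
    fun n => ⟨_, zetaSeq_primitive n, eps_seq n⟩, ?_, fun x => mem_closure_algField x⟩
  rw [← RingHom.coe_fieldRange]
  exact isClosed_baseField

/-- **Fontaine–Wintenberger**: the absolute Galois groups of `ℚ_p(μ_{p^∞})` and `𝔽_p((t))` are
isomorphic as topological groups. -/
theorem fontaine_wintenberger_field_of_norms : Nonempty (Field.absoluteGaloisGroup
    (IntermediateField.adjoin ℚ_[p] {z : Ω | ∃ n : ℕ, z ^ p ^ n = 1}) ≃ₜ*
      Field.absoluteGaloisGroup (LaurentSeries (ZMod p))) :=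
  fontaine_wintenberger p

end FA.Summary
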