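import Fermat.Agent.FormClassFormula.Main

/-!
# Dirichlet's class number formula for every negative discriminant, and the conductor formula

`D < 0` is any discriminant, fundamental or not, `h(D)` the number of classes of primitive positive
forms under proper equivalence, `autCount D` is `6`, `4` or `2` and `kronecker D` the symbol of
`SummaryFormCount`.

* `class_number_formula`: the character `χ` modulo `|D|` with `χ(m) = (D / m)` for `m` prime to `D`
  has `L(1, χ) = 2 π h(D) / (w √|D|)`;
* `conductor_formula`: `h(D f²) w(D) ∏ p = h(D) w(D f²) f ∏ (p - (D / p))` over the primes `p ∣ f`;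
* `class_number_dvd`: `h(D) ∣ h(D f²)`;
* `card_formClass_minus_twelve`, `…_twenty_seven`, `…_twenty_eight`: `h = 1` for `-12, -27, -28`.
-/

set_option autoImplicit false

noncomputable section

open scoped Real

namespace FA.FormClassFormula.Summary

open FA.GaussComposition FA.FormCount

variable {D : ℤ}

/-- **The class number formula.** -/
theorem class_number_formula (hneg : D < 0) (hD4 : D % 4 = 0 ∨ D % 4 = 1)
    [NeZero D.natAbs] :
    ∃ χ : DirichletCharacter ℂ D.natAbs,
      (∀ m : ℕ, IsCoprime (m : ℤ) D → χ (m : ZMod D.natAbs) = (kronecker D m : ℂ)) ∧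
      DirichletCharacter.LFunction χ 1 =
        ((2 * π * Nat.card (FormClass D) / (autCount D * Real.sqrt D.natAbs) : ℝ) : ℂ) :=
  ⟨chi hneg.ne hD4, fun _ hm => chi_natCast _ _ hm, lFunction_one_eq hneg hD4⟩

/-- **The conductor formula.** -/
theorem conductor_formula (hneg : D < 0) (hD4 : D % 4 = 0 ∨ D % 4 = 1) {f : ℕ} (hf : f ≠ 0) :
    (Nat.card (FormClass (D * (f : ℤ) ^ 2)) : ℤ) * autCount D * ∏ p ∈ f.primeFactors, (p : ℤ) =
      Nat.card (FormClass D) * autCount (D * (f : ℤ) ^ 2) * f *
        ∏ p ∈ f.primeFactors, ((p : ℤ) - kronecker D p) := by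
  have h := card_formClass_mul_sq hneg hD4 hf
  have hp : ∀ p ∈ f.primeFactors, (p : ℝ) ≠ 0 := fun p hp =>
    Nat.cast_ne_zero.2 (Nat.prime_of_mem_primeFactors hp).ne_zero
  rw [Finset.prod_congr rfl fun p hp' => one_sub_div (hp p hp'), Finset.prod_div_distrib] at h
  have hP : ∏ p ∈ f.primeFactors, (p : ℝ) ≠ 0 := Finset.prod_ne_zero_iff.2 hp
  have hw : (autCount D : ℝ) ≠ 0 := by exact_mod_cast autCount_pos.ne'
  have hw' : (autCount (D * (f : ℤ) ^ 2) : ℝ) ≠ 0 := by exact_mod_cast autCount_pos.ne'
  field_simp at h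
  refine Int.cast_injective (α := ℝ) ?_
  push_cast
  linear_combination h

theorem card_formClass_small (hneg : D < 0) (h12 : -12 < D) (hD4 : D % 4 = 0 ∨ D % 4 = 1) :
    Nat.card (FormClass D) = 1 := by
  obtain ⟨e, he⟩ := exists_principal_form hD4
  rw [card_formClass hneg (R := {e}) fun g => ⟨e, ⟨Finset.mem_singleton_self e,
    FormCount.Summary.equivalent_of_small hneg h12 e g he⟩,
      fun k hk => Finset.mem_singleton.1 hk.1⟩,
    Finset.card_singleton]

/-- **Divisibility.** -/
theorem class_number_dvd (hneg : D < 0) (hD4 : D % 4 = 0 ∨ D % 4 = 1) {f : ℕ} (hf : f ≠ 0) :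
    Nat.card (FormClass D) ∣ Nat.card (FormClass (D * (f : ℤ) ^ 2)) := by
  by_cases hs : D = -3 ∨ D = -4
  · rw [card_formClass_small hneg (by omega) hD4]
    exact one_dvd _
  have hle : D * (f : ℤ) ^ 2 ≤ D := by
    have : (1 : ℤ) ≤ (f : ℤ) ^ 2 :=
      one_le_pow₀ (by exact_mod_cast Nat.one_le_iff_ne_zero.2 hf)
    nlinarith
  have h := conductor_formula hneg hD4 hf
  rw [show autCount D = 2 by rw [autCount, if_neg (by omega), if_neg (by omega)],
    show autCount (D * (f : ℤ) ^ 2) = 2 by rw [autCount, if_neg (by omega), if_neg (by omega)]] at h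
  obtain ⟨q, hq⟩ : (∏ p ∈ f.primeFactors, (p : ℤ)) ∣ (f : ℤ) := by
    rw [← Nat.cast_prod]
    exact Int.natCast_dvd_natCast.2 (Nat.prod_primeFactors_dvd f)
  refine Int.natCast_dvd_natCast.1 ⟨q * ∏ p ∈ f.primeFactors, ((p : ℤ) - kronecker D p), ?_⟩
  have hP : (0 : ℤ) < ∏ p ∈ f.primeFactors, (p : ℤ) :=
    Finset.prod_pos fun p hp => by exact_mod_cast (Nat.prime_of_mem_primeFactors hp).pos
  refine mul_left_cancel₀ (mul_ne_zero two_ne_zero hP.ne') ?_
  push_cast at h ⊢
  linear_combination h + 2 * (Nat.card (FormClass D) : ℤ) *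
    (∏ p ∈ f.primeFactors, ((p : ℤ) - kronecker D p)) * hq

/-- `h(-12) = 1`. -/
theorem card_formClass_minus_twelve : Nat.card (FormClass (-12)) = 1 := by
  have h := conductor_formula (D := -3) (by norm_num) (by norm_num) (f := 2) two_ne_zero
  rw [card_formClass_small (D := -3) (by norm_num) (by norm_num) (by norm_num),
    Nat.prime_two.primeFactors, Finset.prod_singleton, Finset.prod_singleton] at h
  norm_num [autCount, kronecker, Int.odd_iff, jacobiSym.at_two, ZMod.χ₈_nat_eq_if_mod_eight] at h
  omega

/-- `h(-27) = 1`. -/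
theorem card_formClass_minus_twenty_seven : Nat.card (FormClass (-27)) = 1 := by
  have h := conductor_formula (D := -3) (by norm_num) (by norm_num) (f := 3) three_ne_zero
  rw [card_formClass_small (D := -3) (by norm_num) (by norm_num) (by norm_num),
    Nat.prime_three.primeFactors, Finset.prod_singleton, Finset.prod_singleton,
    kronecker_eq_zero Nat.prime_three (by norm_num)] at h
  norm_num [autCount] at h
  omega

/-- `h(-28) = 1`. -/
theorem card_formClass_minus_twenty_eight : Nat.card (FormClass (-28)) = 1 := by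
  have h := conductor_formula (D := -7) (by norm_num) (by norm_num) (f := 2) two_ne_zero
  rw [card_formClass_small (D := -7) (by norm_num) (by norm_num) (by norm_num),
    Nat.prime_two.primeFactors, Finset.prod_singleton, Finset.prod_singleton] at h
  norm_num [autCount, kronecker, Int.odd_iff, jacobiSym.at_two, ZMod.χ₈_nat_eq_if_mod_eight] at h
  omega

end FA.FormClassFormula.Summary
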