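import Fermat.Agent.FormSquares.Sharp

/-!
# Summary: forms as sums of squares of linear forms

Waring's problem for positive classical quadratic forms, after Mordell and Ko: `n + 3` squares of
linear forms suffice for `n ≤ 5` and are needed; over the rationals they suffice for every `n`,
and from six variables on some forms are no sums of squares. The numbers for representable forms
in six or more variables and forms with odd mixed coefficients are not treated.
-/

set_option autoImplicit false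

noncomputable section

namespace FA.FormSquares.Summary

open Matrix
open CharacteristicVectors (PosUnimodular)

/-- The notions used, spelt out. -/
theorem formSquares_def {n r : ℕ} (A : Matrix (Fin n) (Fin n) ℤ)
    (P : Matrix (Fin r) (Fin n) ℤ) :
    (PositiveForm A ↔ A.transpose = A ∧ ∀ x : Fin n → ℤ, x ≠ 0 → 0 < x ⬝ᵥ (A *ᵥ x)) ∧
    (A = Pᵀ * P → ∀ x : Fin n → ℤ, x ⬝ᵥ (A *ᵥ x) = ∑ i, (P *ᵥ x) i ^ 2) := by
  refine ⟨Iff.rfl, fun h x => ?_⟩
  rw [h, ← Matrix.mulVec_mulVec, dotProduct_transpose_mulVec]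
  simp [dotProduct, sq]

/-- **Over the rationals** a positive form is a sum of `n + 3` squares. -/
theorem mordell_rational {n : ℕ} {A : Matrix (Fin n) (Fin n) ℤ} (hA : PositiveForm A) :
    ∃ T : Matrix (Fin (n + 3)) (Fin n) ℚ, A.map (fun z : ℤ => (z : ℚ)) = Tᵀ * T := by
  obtain ⟨T, -, -, hT, -⟩ := exists_rational_rep hA
  exact ⟨T, hT⟩

/-- **A positive lattice of rank `n` lies in an odd unimodular one of rank `n + 3`.** -/
theorem exists_unimodular_overlattice {n : ℕ} {A : Matrix (Fin n) (Fin n) ℤ}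
    (hA : PositiveForm A) :
    ∃ (G : Matrix (Fin (n + 3)) (Fin (n + 3)) ℤ) (P : Matrix (Fin (n + 3)) (Fin n) ℤ),
      PosUnimodular G ∧ (∃ v, ¬ 2 ∣ v ⬝ᵥ (G *ᵥ v)) ∧ Pᵀ * G * P = A := by
  obtain ⟨G, P, hG, hodd, hGP⟩ := exists_overlattice hA
  refine ⟨G, P, hG, ?_, hGP⟩
  by_contra h
  push Not at h
  exact hodd fun x => even_iff_two_dvd.2 (h x)

/-- **The theorem of Mordell and Ko.** -/
theorem mordell_ko {n : ℕ} (hn : n ≤ 5) {A : Matrix (Fin n) (Fin n) ℤ} (hA : PositiveForm A) :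
    ∃ P : Matrix (Fin (n + 3)) (Fin n) ℤ, A = Pᵀ * P :=
  exists_squares hn hA

/-- **No fewer squares do**: units and a seven. -/
theorem mordell_ko_sharp (k : ℕ) :
    PositiveForm (diagonal (Fin.snoc (fun _ : Fin k => (1 : ℤ)) 7)) ∧
      ∀ r ≤ k + 3, ∀ P : Matrix (Fin r) (Fin (k + 1)) ℤ,
        diagonal (Fin.snoc (fun _ : Fin k => (1 : ℤ)) 7) ≠ Pᵀ * P := by
  refine ⟨positiveForm_seven k, fun r hr P h => ?_⟩
  obtain ⟨d, hd⟩ := Nat.exists_eq_add_of_le hr
  refine seven_ne_squares k ((Matrix.fromRows P (0 : Matrix (Fin d) (Fin (k + 1)) ℤ)).submatrix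
    ((finCongr hd).trans finSumFinEquiv.symm) id) ?_
  rw [sevenForm, h, transpose_submatrix, submatrix_mul_equiv, transpose_fromRows,
    fromCols_mul_fromRows]
  simp

/-- **The number of squares needed** in `n` variables is `n + 3` for `1 ≤ n ≤ 5`. -/
theorem squares_needed {k : ℕ} (hk : k ≤ 4) :
    IsLeast {r : ℕ | ∀ A : Matrix (Fin (k + 1)) (Fin (k + 1)) ℤ, PositiveForm A →
      ∃ P : Matrix (Fin r) (Fin (k + 1)) ℤ, A = Pᵀ * P} (k + 4) := by
  refine ⟨fun A hA => exists_squares (by omega) hA, fun r hr => ?_⟩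
  by_contra hlt
  obtain ⟨hpos, hne⟩ := mordell_ko_sharp k
  obtain ⟨P, hP⟩ := hr _ hpos
  exact hne r (by omega) P hP

/-- **From six variables on some positive forms are no sums of squares**: in six variables `E₆`. -/
theorem e6_not_sum_of_squares :
    (PositiveForm e6Gram ∧ ∀ (r : ℕ) (P : Matrix (Fin r) (Fin 6) ℤ), e6Gram ≠ Pᵀ * P) ∧
    ∀ n, 6 ≤ n → ∃ A : Matrix (Fin n) (Fin n) ℤ, PositiveForm A ∧
      ∀ (r : ℕ) (P : Matrix (Fin r) (Fin n) ℤ), A ≠ Pᵀ * P :=
  ⟨⟨positiveForm_e6, fun _ P => e6_ne_squares P⟩, fun _ hn => exists_ne_squares hn⟩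

end FA.FormSquares.Summary

end
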