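import Fermat.Agent.FormSystems.Single
import Fermat.Agent.FormSystems.Vandermonde

/-!
# Systems of forms in many variables

Birch's theorem (1962) for `r` forms of one degree `d = m + 2` with integral coefficients, the
locus where the Jacobian has rank less than `r` of dimension at most `s`, and
`n - s > r (r + 1) (d - 1) 2 ^ (d - 1)`: Weyl's dichotomy, the absolute convergence of the singular
series and of the singular integral, and the asymptotic formula
`N (P; ν) = 𝔖 (ν) J (ν / P ^ d) P ^ (n - r d) + O (P ^ (n - r d - δ))` for the common solutions of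
`F i x = ν i`, uniformly for `|ν i| ≤ B P ^ d`. For `r = 1` it gives back the theorem on one form.

For `ν = 0` the main term is positive if the forms have nonsingular common zeros over `ℝ` and every
`ℚ_p`: the Hasse principle, with nontrivial zeros sufficing if the Jacobian has rank `r` at every
complex common zero but the origin. Diagonal systems with Vandermonde coefficients are instances,
some with no hypothesis left.
-/

set_option autoImplicit false

noncomputable section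

namespace FA.FormSystems.Summary

open MvPolynomial

variable {n r m s : ℕ}

/-- **Birch's dichotomy for systems.** -/
theorem weyl_dichotomy_system (F : Fin r → MvPolynomial (Fin n) ℤ) (hr : 0 < r)
    (hF : ∀ i, (F i).IsHomogeneous (m + 2))
    (hs : ∃ ℓ : Fin s → Fin n → ℤ, ∀ z : Fin n → ℂ,
      ¬ LinearIndependent ℂ (fun i j => aeval z (pderiv j (F i))) →
        (∀ a, ∑ l, (ℓ a l : ℂ) * z l = 0) → z = 0) :
    ∃ C : ℝ, 0 < C ∧ ∀ (P H : ℕ) (α : Fin r → ℝ), 1 ≤ H → H ≤ P →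
      ‖sysSum F P α‖ ^ 2 ^ (m + 1) * (H : ℝ) ^ n ≤
          C * ((P : ℝ) ^ n) ^ 2 ^ (m + 1) * (1 + Real.log P) ^ n * (H : ℝ) ^ s ∨
        ∃ (q : ℕ) (a : Fin r → ℤ), 1 ≤ q ∧ (q : ℝ) ≤ C * (H : ℝ) ^ (r * (m + 1)) ∧
          ∀ i, |(q : ℝ) * α i - a i| ≤ C * (H : ℝ) ^ (r * (m + 1)) / (P : ℝ) ^ (m + 2) :=
  exists_sys_dichotomy F hr hF hs

/-- **The singular series** converges absolutely and uniformly. -/
theorem system_series_bound (F : Fin r → MvPolynomial (Fin n) ℤ) (hr : 0 < r)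
    (hF : ∀ i, (F i).IsHomogeneous (m + 2)) (hs : SystemSingularDimLE F s)
    (hn : s + r * (r + 1) * (m + 1) * 2 ^ (m + 1) < n) :
    ∃ C : ℝ, 0 < C ∧ ∀ ν : Fin r → ℤ,
      Summable (fun q => ‖sysRepTerm F ν q‖) ∧ ∑' q, ‖sysRepTerm F ν q‖ ≤ C := by
  obtain ⟨C, hC, h⟩ := exists_sysRepTerm_tail F hr hF hs hn
  exact ⟨C, hC, fun ν => ⟨(h ν).1, (h ν).2.1⟩⟩

/-- **The singular integral** converges absolutely. -/
theorem system_integral_bound (F : Fin r → MvPolynomial (Fin n) ℤ) (hr : 0 < r)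
    (hF : ∀ i, (F i).IsHomogeneous (m + 2)) (hs : SystemSingularDimLE F s)
    (hn : s + r * (r + 1) * (m + 1) * 2 ^ (m + 1) < n) :
    MeasureTheory.Integrable (sysFormIntegral F) ∧
      ∃ C : ℝ, 0 < C ∧ ∀ γ, ‖sysFormIntegral F γ‖ * (1 + ‖γ‖) ^ (r + 1) ≤ C :=
  ⟨integrable_sysFormIntegral F hr hF hs hn, exists_sysFormIntegral_le F hr hF hs hn⟩

/-- **Birch's theorem on systems of forms**: the asymptotic formula. -/
theorem birch_systems_asymptotic (F : Fin r → MvPolynomial (Fin n) ℤ) (hr : 0 < r)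
    (hF : ∀ i, (F i).IsHomogeneous (m + 2)) (hs : SystemSingularDimLE F s)
    (hn : s + r * (r + 1) * (m + 1) * 2 ^ (m + 1) < n) (B : ℕ) :
    ∃ δ C : ℝ, 0 < δ ∧ 0 < C ∧ ∀ (P : ℕ) (ν : Fin r → ℤ), 1 ≤ P →
      (∀ i, |ν i| ≤ (B * P ^ (m + 2) : ℕ)) →
        |((((Fintype.piFinset fun _ : Fin n => Finset.Icc (-(P : ℤ)) P).filter
            fun x => ∀ i, eval x (F i) = ν i).card : ℕ) : ℝ) -
          (∑' q, sysRepTerm F ν q).re *
            (∫ γ : Fin r → ℝ, (∫ y in Set.Icc (fun _ : Fin n => (-1 : ℝ)) fun _ => 1,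
              ThreePrimes.eAdd (∑ i, γ i * aeval y (F i))) *
                ThreePrimes.eAdd (-∑ i, γ i * ((ν i : ℝ) / (P : ℝ) ^ (m + 2)))).re *
            (P : ℝ) ^ (n - r * (m + 2))| ≤
          C * (P : ℝ) ^ (((n - r * (m + 2) : ℕ) : ℝ) - δ) :=
  exists_sys_rep_asymptotic F hr hF hs hn B

/-- The terms of the singular series. -/
theorem system_series_term_eq (F : Fin r → MvPolynomial (Fin n) ℤ) (ν : Fin r → ℤ) (q : ℕ) :
    sysRepTerm F ν q =
      ∑ a ∈ (Fintype.piFinset fun _ : Fin r => Finset.range q).filter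
          (fun a => Nat.Coprime q (Finset.univ.gcd a)),
        (∑ x ∈ Fintype.piFinset fun _ : Fin n => Finset.range q,
          ThreePrimes.eAdd (((∑ i, (a i : ℤ) * eval (fun l => (x l : ℤ)) (F i) : ℤ) : ℝ) / q)) /
            (q : ℂ) ^ n * ThreePrimes.eAdd (-((∑ i, (a i : ℝ) * ν i) / q)) :=
  rfl

/-- **`r = 1`**: the same locus, threshold, count and main term. -/
theorem systems_single_form_consistency (G : MvPolynomial (Fin n) ℤ) :
    (∀ s, SystemSingularDimLE (singleSystem G) s ↔ FormsManyVariables.SingularDimLE G s) ∧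
    (∀ m, 1 * (1 + 1) * (m + 1) * 2 ^ (m + 1) = (m + 1) * 2 ^ (m + 2)) ∧
    (∀ N P, countSysReps (singleSystem G) (fun _ => N) P = FormsManyVariables.countReps G N P) ∧
    (∀ N, sysRepSeries (singleSystem G) (fun _ => N) = FormsManyVariables.repSeries G N) ∧
    ∀ c, sysRepIntegral (singleSystem G) (fun _ => c) = FormsManyVariables.repIntegral G c :=
  ⟨systemSingularDimLE_single_iff G, threshold_single, countSysReps_single G,
    sysRepSeries_single G, sysRepIntegral_single G⟩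

/-- **Positivity**: nonsingular local zeros give `c P ^ (n - r d)` common zeros with `c > 0`. -/
theorem birch_systems_positive (F : Fin r → MvPolynomial (Fin n) ℤ) (hr : 0 < r)
    (hF : ∀ i, (F i).IsHomogeneous (m + 2)) (hs : SystemSingularDimLE F s)
    (hn : s + r * (r + 1) * (m + 1) * 2 ^ (m + 1) < n)
    (hreal : ∃ z : Fin n → ℝ, (∀ i, aeval z (F i) = 0) ∧
      LinearIndependent ℝ fun i j => aeval z (pderiv j (F i)))
    (hpadic : ∀ (p : ℕ) [Fact p.Prime], ∃ z : Fin n → ℚ_[p], (∀ i, aeval z (F i) = 0) ∧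
      LinearIndependent ℚ_[p] fun i j => aeval z (pderiv j (F i))) :
    (∃ c δ C : ℝ, 0 < c ∧ 0 < δ ∧ ∀ P : ℕ, 1 ≤ P →
      |((((Fintype.piFinset fun _ : Fin n => Finset.Icc (-(P : ℤ)) P).filter
          fun x => ∀ i, eval x (F i) = 0).card : ℕ) : ℝ) - c * (P : ℝ) ^ (n - r * (m + 2))| ≤
        C * (P : ℝ) ^ (((n - r * (m + 2) : ℕ) : ℝ) - δ)) ∧
      ∃ x : Fin n → ℤ, x ≠ 0 ∧ ∀ i, eval x (F i) = 0 :=
  ⟨exists_sys_asymptotic_pos F hr hF hs hn hreal hpadic,
    exists_sys_common_zero F hr hF hs hn hreal hpadic⟩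

/-- **The Hasse principle for systems of forms.** -/
theorem birch_systems_hasse (F : Fin r → MvPolynomial (Fin n) ℤ) (hr : 0 < r)
    (hF : ∀ i, (F i).IsHomogeneous (m + 2)) (hs : SystemSingularDimLE F s)
    (hsm : ∀ z : Fin n → ℂ, (∀ i, aeval z (F i) = 0) → z ≠ 0 →
      LinearIndependent ℂ fun i j => aeval z (pderiv j (F i)))
    (hn : s + r * (r + 1) * (m + 1) * 2 ^ (m + 1) < n) :
    (∃ x : Fin n → ℤ, x ≠ 0 ∧ ∀ i, eval x (F i) = 0) ↔
      (∃ z : Fin n → ℝ, z ≠ 0 ∧ ∀ i, aeval z (F i) = 0) ∧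
        ∀ (p : ℕ) [Fact p.Prime], ∃ z : Fin n → ℚ_[p], z ≠ 0 ∧ ∀ i, aeval z (F i) = 0 :=
  hasse_principle_systems F hr hF hs hsm hn

/-- **Quadrics**: the Hasse principle for `r` quadrics in more than `s + 2 r (r + 1)` variables. -/
theorem birch_quadrics_hasse (F : Fin r → MvPolynomial (Fin n) ℤ) (hr : 0 < r)
    (hF : ∀ i, (F i).IsHomogeneous 2) (hs : SystemSingularDimLE F s)
    (hsm : ∀ z : Fin n → ℂ, (∀ i, aeval z (F i) = 0) → z ≠ 0 →
      LinearIndependent ℂ fun i j => aeval z (pderiv j (F i)))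
    (hn : s + 2 * r * (r + 1) < n) :
    (∃ x : Fin n → ℤ, x ≠ 0 ∧ ∀ i, eval x (F i) = 0) ↔
      (∃ z : Fin n → ℝ, z ≠ 0 ∧ ∀ i, aeval z (F i) = 0) ∧
        ∀ (p : ℕ) [Fact p.Prime], ∃ z : Fin n → ℚ_[p], z ≠ 0 ∧ ∀ i, aeval z (F i) = 0 :=
  hasse_principle_quadrics F hr hF hs hsm hn

/-- The diagonal system `∑ j, a j * j ^ i * x j ^ d = 0`, `i < r`, obeys the Hasse principle in more
than `r - 1 + r (r + 1) (d - 1) 2 ^ (d - 1)` variables. -/
theorem diagonal_systems_hasse (a : Fin n → ℤ) (ha : ∀ j, a j ≠ 0) (hr : 0 < r)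
    (hn : r - 1 + r * (r + 1) * (m + 1) * 2 ^ (m + 1) < n) :
    (∃ x : Fin n → ℤ, x ≠ 0 ∧
      ∀ i : Fin r, ∑ j, a j * ((j : ℕ) : ℤ) ^ (i : ℕ) * x j ^ (m + 2) = 0) ↔
      (∃ z : Fin n → ℝ, z ≠ 0 ∧
        ∀ i : Fin r, ∑ j, (a j : ℝ) * ((j : ℕ) : ℝ) ^ (i : ℕ) * z j ^ (m + 2) = 0) ∧
        ∀ (p : ℕ) [Fact p.Prime], ∃ z : Fin n → ℚ_[p], z ≠ 0 ∧
          ∀ i : Fin r, ∑ j, (a j : ℚ_[p]) * ((j : ℕ) : ℚ_[p]) ^ (i : ℕ) * z j ^ (m + 2) = 0 := by
  simpa [vandermondeSystem, FormsManyVariables.diagonalForm] using vandermonde_hasse ha hr hn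

/-- **An instance with no hypothesis**: two explicit quadrics in fourteen variables have
`≫ P ^ 10` common zeros of size `P`. -/
theorem two_quadrics_fourteen :
    ∃ c δ C : ℝ, 0 < c ∧ 0 < δ ∧ ∀ P : ℕ, 1 ≤ P →
      |((((Fintype.piFinset fun _ : Fin 14 => Finset.Icc (-(P : ℤ)) P).filter
          fun x => ∀ i, eval x (vandermondeSystem (n := 14) (binomialWeight 2) 2 2 i) = 0).card
            : ℕ) : ℝ) - c * (P : ℝ) ^ (10 : ℕ)| ≤ C * (P : ℝ) ^ (((10 : ℕ) : ℝ) - δ) :=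
  vandermonde_asymptotic_pos (n := 14) (r := 2) (m := 0) (by norm_num) (by norm_num)

end FA.FormSystems.Summary
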