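import Fermat.Agent.FormsManyVariables.Asymptotic
import Fermat.Agent.FormsManyVariables.Examples
import Fermat.Agent.FormsManyVariables.Hasse
import Fermat.Agent.FormsManyVariables.Pointwise

/-!
# Forms in many variables

Birch's method for a single form `F` of degree `d = m + 2` with integral coefficients, the singular
locus of dimension at most `s`: Weyl's dichotomy for the exponential sum over a box, and the bound
at one fraction when `n - s > (d - 1) 2 ^ d`, and then the asymptotic formula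
`N (P) = 𝔖 J P ^ (n - d) + O (P ^ (n - d - δ))` for the zeros in the box of size `P`. Nonsingular
forms have `s = 0`; the diagonal forms with nonzero coefficients are nonsingular. So the Hasse
principle holds for nonsingular forms in more than `(d - 1) 2 ^ d` variables, and nonsingular cubic
forms in at least seventeen variables have `c P ^ (n - 3)` zeros of size `P`, `c > 0`.
-/

set_option autoImplicit false

noncomputable section

namespace FA.FormsManyVariables.Summary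

open MvPolynomial

/-- **Birch's dichotomy.** -/
theorem weyl_dichotomy {n m s : ℕ} (F : MvPolynomial (Fin n) ℤ) (hF : F.IsHomogeneous (m + 2))
    (hs : ∃ ℓ : Fin s → Fin n → ℤ, ∀ z : Fin n → ℂ, (∀ j, aeval z (pderiv j F) = 0) →
      (∀ a, ∑ l, (ℓ a l : ℂ) * z l = 0) → z = 0) :
    ∃ C : ℝ, 0 < C ∧ ∀ (P R : ℕ) (α : ℝ), 1 ≤ R → R ≤ P →
      ‖formSum F P α‖ ^ 2 ^ (m + 1) * (R : ℝ) ^ n ≤
          C * ((P : ℝ) ^ n) ^ 2 ^ (m + 1) * (1 + Real.log P) ^ n * (R : ℝ) ^ s ∨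
        ∃ (q : ℕ) (a : ℤ), 1 ≤ q ∧ (q : ℝ) ≤ C * (R : ℝ) ^ (m + 1) ∧
          |(q : ℝ) * α - a| ≤ (R : ℝ) ^ (m + 1) / (P : ℝ) ^ (m + 2) :=
  exists_dichotomy F hF hs

/-- **The bound at one fraction.** -/
theorem weyl_at_fraction {n m s : ℕ} (F : MvPolynomial (Fin n) ℤ) (hF : F.IsHomogeneous (m + 2))
    (hs : SingularDimLE F s) (hn : s + (m + 1) * 2 ^ (m + 2) < n) :
    ∃ C : ℝ, 0 < C ∧ ∀ (P q : ℕ) (a : ℤ) (β Φ : ℝ), 1 ≤ P → 1 ≤ q → IsCoprime a (q : ℤ) →
      Φ = max (q : ℝ) ((q : ℝ) * (P : ℝ) ^ (m + 2) * |β|) → Φ ^ 2 ≤ (P : ℝ) ^ (m + 2) →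
        ‖formSum F P ((a : ℝ) / q + β)‖ * Φ ^ (2 + savingExp m) ≤
          C * (1 + Real.log P) ^ n * (P : ℝ) ^ n :=
  exists_pointwise F hF hs hn

/-- **Birch's theorem**: the asymptotic formula. -/
theorem birch_asymptotic {n m s : ℕ} (F : MvPolynomial (Fin n) ℤ) (hF : F.IsHomogeneous (m + 2))
    (hs : SingularDimLE F s) (hn : s + (m + 1) * 2 ^ (m + 2) < n) :
    ∃ δ C : ℝ, 0 < δ ∧ 0 < C ∧ ∀ P : ℕ, 1 ≤ P →
      |((((Fintype.piFinset fun _ : Fin n => Finset.Icc (-(P : ℤ)) P).filter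
          fun x => eval x F = 0).card : ℕ) : ℝ) -
        (∑' q, formTerm F q).re *
          (∫ γ : ℝ, ∫ y in Set.Icc (fun _ : Fin n => (-1 : ℝ)) fun _ => 1,
            ThreePrimes.eAdd (γ * aeval y F)).re * (P : ℝ) ^ (n - (m + 2))| ≤
        C * (P : ℝ) ^ (((n - (m + 2) : ℕ) : ℝ) - δ) :=
  exists_asymptotic F hF hs hn

/-- The terms of the singular series. -/
theorem series_term_eq {n : ℕ} (F : MvPolynomial (Fin n) ℤ) (q : ℕ) :
    formTerm F q = ∑ a ∈ ThreePrimes.unitResidues q,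
      (∑ r ∈ Fintype.piFinset fun _ : Fin n => Finset.range q,
        ThreePrimes.eAdd ((((a : ℤ) * eval (fun i => (r i : ℤ)) F : ℤ) : ℝ) / q)) / (q : ℂ) ^ n :=
  rfl

/-- Nonsingular forms have `s = 0`. -/
theorem nonsingular_singularDim {n : ℕ} (F : MvPolynomial (Fin n) ℤ)
    (h : ∀ z : Fin n → ℂ, (∀ j, aeval z (pderiv j F) = 0) → z = 0) : SingularDimLE F 0 :=
  (singularDimLE_zero_iff F).2 h

/-- The diagonal forms are nonsingular. -/
theorem diagonal_singularDim {n d : ℕ} (c : Fin n → ℤ) (hc : ∀ i, c i ≠ 0) (hd : 2 ≤ d) :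
    SingularDimLE (∑ i, C (c i) * X i ^ d) 0 :=
  (singularDimLE_zero_iff _).2 (diagonalForm_isNonsingular hc hd)

/-- **The constant is positive** when there are zeros over `ℝ` and every `ℚ_p`. -/
theorem birch_asymptotic_pos {n m : ℕ} (F : MvPolynomial (Fin n) ℤ) (hF : F.IsHomogeneous (m + 2))
    (hns : ∀ z : Fin n → ℂ, (∀ j, aeval z (pderiv j F) = 0) → z = 0)
    (hn : (m + 1) * 2 ^ (m + 2) < n) (hreal : ∃ z : Fin n → ℝ, z ≠ 0 ∧ aeval z F = 0)
    (hpadic : ∀ (p : ℕ) [Fact p.Prime], ∃ z : Fin n → ℚ_[p], z ≠ 0 ∧ aeval z F = 0) :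
    ∃ c δ C : ℝ, 0 < c ∧ 0 < δ ∧ ∀ P : ℕ, 1 ≤ P →
      |(countZeros F P : ℝ) - c * (P : ℝ) ^ (n - (m + 2))| ≤
        C * (P : ℝ) ^ (((n - (m + 2) : ℕ) : ℝ) - δ) :=
  exists_asymptotic_pos F hF hns hn hreal hpadic

/-- **The Hasse principle** for nonsingular forms in many variables. -/
theorem birch_hasse_principle {n m : ℕ} (F : MvPolynomial (Fin n) ℤ) (hF : F.IsHomogeneous (m + 2))
    (hns : ∀ z : Fin n → ℂ, (∀ j, aeval z (pderiv j F) = 0) → z = 0)
    (hn : (m + 1) * 2 ^ (m + 2) < n) :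
    (∃ x : Fin n → ℤ, x ≠ 0 ∧ eval x F = 0) ↔
      (∃ z : Fin n → ℝ, z ≠ 0 ∧ aeval z F = 0) ∧
        ∀ (p : ℕ) [Fact p.Prime], ∃ z : Fin n → ℚ_[p], z ≠ 0 ∧ aeval z F = 0 :=
  hasse_principle_forms F hF hns hn

/-- Forms of odd degree have real zeros. -/
theorem odd_degree_real_zero {n d : ℕ} (hd : Odd d) (F : MvPolynomial (Fin n) ℤ)
    (hF : F.IsHomogeneous d) (hn : 2 ≤ n) : ∃ z : Fin n → ℝ, z ≠ 0 ∧ aeval z F = 0 :=
  exists_real_zero_odd F hd hF hn

/-- **Nonsingular cubic forms in at least seventeen variables.** -/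
theorem cubic_asymptotic {n : ℕ} (F : MvPolynomial (Fin n) ℤ) (hF : F.IsHomogeneous 3)
    (hns : ∀ z : Fin n → ℂ, (∀ j, aeval z (pderiv j F) = 0) → z = 0) (hn : 17 ≤ n) :
    ∃ c δ C : ℝ, 0 < c ∧ 0 < δ ∧ ∀ P : ℕ, 1 ≤ P →
      |((((Fintype.piFinset fun _ : Fin n => Finset.Icc (-(P : ℤ)) P).filter
          fun x => eval x F = 0).card : ℕ) : ℝ) - c * (P : ℝ) ^ (n - 3)| ≤
        C * (P : ℝ) ^ (((n - 3 : ℕ) : ℝ) - δ) :=
  exists_cubic_asymptotic F hF hns hn

/-- An instance of every degree: diagonal forms with two opposite coefficients. -/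
theorem diagonal_asymptotic {n m : ℕ} (hn : (m + 1) * 2 ^ (m + 2) < n) (c : Fin n → ℤ)
    (hc : ∀ i, c i ≠ 0) {i j : Fin n} (hij : i ≠ j) (hopp : c i + c j = 0) :
    ∃ a δ C : ℝ, 0 < a ∧ 0 < δ ∧ ∀ P : ℕ, 1 ≤ P →
      |(countZeros (diagonalForm c (m + 2)) P : ℝ) - a * (P : ℝ) ^ (n - (m + 2))| ≤
        C * (P : ℝ) ^ (((n - (m + 2) : ℕ) : ℝ) - δ) := by
  classical
  obtain ⟨hreal, hpadic⟩ := (hasse_principle_forms (diagonalForm c (m + 2))
    (diagonalForm_isHomogeneous c _) (diagonalForm_isNonsingular hc (Nat.le_add_left 2 m)) hn).1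
      ⟨Pi.single i 1 + Pi.single j 1, fun h => by simpa [hij] using congrFun h i, by
        simp only [diagonalForm, map_sum, map_mul, map_pow, eval_C, eval_X]
        rw [Finset.sum_eq_add_of_mem i j (Finset.mem_univ i) (Finset.mem_univ j) hij
          fun l _ hl => by simp [hl.1, hl.2]]
        simp [hij, hij.symm, hopp]⟩
  exact exists_asymptotic_pos _ (diagonalForm_isHomogeneous c _)
    (diagonalForm_isNonsingular hc (Nat.le_add_left 2 m)) hn hreal hpadic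

end FA.FormsManyVariables.Summary
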