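import Fermat.Agent.HasseInvariant.Existence

/-!
# Quadratic forms with given invariants over number fields

* `exists_form_prescribed`: for `n ≥ 3`, a discriminant `d`, a finite set `S` of primes and counts
  `s φ ≤ n` with `φ d > 0` iff `n - s φ` is even and with `#S + ∑ φ, C(n - s φ, 2)` even, there is a
  form of rank `n` with discriminant `d`, Hasse invariant odd exactly on `S` and `s φ` positive
  coefficients at each real embedding `φ`;
* `invariants_iff`: these conditions are necessary, so exactly these data occur (with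
  `FA.HasseInvariant.Summary.equivalent_iff_invariants` the form is unique up to equivalence).

The extra condition in two variables is not claimed.
-/

set_option autoImplicit false

noncomputable section

universe u

open NumberField IsDedekindDomain
open Fermat.Agent.HasseInvariant
open Fermat.Agent.QuadraticHauptsatz (mapUnits coe_mapUnits)

namespace FA.HasseInvariant.Summary

variable {K : Type u} [Field K] [NumberField K]

theorem hasse_prime_odd_iff (P : HeightOneSpectrum (𝓞 K)) {n : ℕ} (w : Fin n → Kˣ) :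
    Nat.card {p : Fin n × Fin n // p.1 < p.2 ∧
        ¬ ∃ x y : P.adicCompletion K, algebraMap K (P.adicCompletion K) (w p.1 : K) * x ^ 2 +
          algebraMap K (P.adicCompletion K) (w p.2 : K) * y ^ 2 = 1} % 2 = 1 ↔
      hasseP P w = 1 := by
  rw [hasseP, hasse_eq_card, ← Nat.odd_iff, ← ZMod.natCast_eq_one_iff_odd]
  rfl

/-- **Exactly these invariants occur.** -/
theorem invariants_iff {n : ℕ} (hn : 3 ≤ n) (d : Kˣ) (S : Finset (HeightOneSpectrum (𝓞 K)))
    (s : (K →+* ℝ) → ℕ) :
    (∃ w : Fin n → Kˣ, (∃ c : K, c ≠ 0 ∧ ∏ i, (w i : K) = (d : K) * c ^ 2) ∧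
      (∀ P : HeightOneSpectrum (𝓞 K),
        Nat.card {p : Fin n × Fin n // p.1 < p.2 ∧
            ¬ ∃ x y : P.adicCompletion K, algebraMap K (P.adicCompletion K) (w p.1 : K) * x ^ 2 +
              algebraMap K (P.adicCompletion K) (w p.2 : K) * y ^ 2 = 1} % 2 = 1 ↔ P ∈ S) ∧
      ∀ φ : K →+* ℝ, (Finset.univ.filter fun i => 0 < φ (w i : K)).card = s φ) ↔
    (∀ φ : K →+* ℝ, s φ ≤ n ∧ (0 < φ (d : K) ↔ Even (n - s φ))) ∧
      Even (S.card + ∑ φ : K →+* ℝ, (n - s φ).choose 2) := by
  classical
  let E : HeightOneSpectrum (𝓞 K) → ZMod 2 := fun P => if P ∈ S then 1 else 0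
  have hsup : Function.support E = (S : Set (HeightOneSpectrum (𝓞 K))) := by
    ext P
    simp [E]
  have hEsum : ∑ᶠ P, E P + ∑ φ : K →+* ℝ, (((n - s φ).choose 2 : ℕ) : ZMod 2) =
      ((S.card + ∑ φ : K →+* ℝ, (n - s φ).choose 2 : ℕ) : ZMod 2) := by
    rw [finsum_eq_sum_of_support_subset (s := S) E hsup.subset, Nat.cast_add, Nat.cast_sum]
    simp [E]
  simp only [hasse_prime_odd_iff]
  constructor
  · rintro ⟨w, ⟨c, hc0, hc⟩, hh, hpos⟩
    have hneg : ∀ φ : K →+* ℝ, s φ ≤ n ∧ negCount (fun i => mapUnits φ (w i)) = n - s φ :=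
      fun φ => by
        have h := posCount_add_negCount fun i => mapUnits φ (w i)
        rw [show FA.WeakHasseMinkowski.posCount (fun i => mapUnits φ (w i)) = s φ from hpos φ] at h
        omega
    refine ⟨fun φ => ⟨(hneg φ).1, ?_⟩, ?_⟩
    · rw [← Nat.not_odd_iff_even, ← (hneg φ).2, ← neg_iff_odd φ w hc, not_lt]
      exact ⟨le_of_lt, fun h => lt_of_le_of_ne h ((map_ne_zero φ).2 d.ne_zero).symm⟩
    · rw [← ZMod.natCast_eq_zero_iff_even, ← hEsum]
      have hE : ∀ P, hasseP P w = E P := fun P => by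
        have h := hh P
        simp only [E]
        split_ifs with hP
        · exact h.2 hP
        · have h' := mt h.1 hP
          generalize hasseP P w = t at h' ⊢
          revert t
          decide
      have h := sum_hasseP w
      simp only [hE, fun φ => (hneg φ).2] at h
      exact h
  · rintro ⟨hs, heven⟩
    obtain ⟨w, ⟨c, hc⟩, hh, hneg⟩ := exists_form n hn d E (fun φ => n - s φ)
      (fun φ => Nat.sub_le _ _) (fun φ => by
        rw [← Nat.not_even_iff_odd, ← (hs φ).2, not_lt]
        exact ⟨le_of_lt, fun h => lt_of_le_of_ne h ((map_ne_zero φ).2 d.ne_zero)⟩)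
      (hsup ▸ S.finite_toSet) (by rw [hEsum]; exact (ZMod.natCast_eq_zero_iff_even).2 heven)
    refine ⟨w, ⟨c, c.ne_zero, by simpa using congrArg Units.val hc⟩, fun P => ?_, fun φ => ?_⟩
    · rw [hh P]
      simp [E]
    · have h := posCount_add_negCount fun i => mapUnits φ (w i)
      rw [hneg φ] at h
      have := (hs φ).1
      show FA.WeakHasseMinkowski.posCount (fun i => mapUnits φ (w i)) = s φ
      omega

/-- **Forms with prescribed invariants exist.** -/
theorem exists_form_prescribed {n : ℕ} (hn : 3 ≤ n) (d : Kˣ)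
    (S : Finset (HeightOneSpectrum (𝓞 K))) (s : (K →+* ℝ) → ℕ)
    (hs : ∀ φ : K →+* ℝ, s φ ≤ n ∧ (0 < φ (d : K) ↔ Even (n - s φ)))
    (heven : Even (S.card + ∑ φ : K →+* ℝ, (n - s φ).choose 2)) :
    ∃ w : Fin n → Kˣ, (∃ c : K, c ≠ 0 ∧ ∏ i, (w i : K) = (d : K) * c ^ 2) ∧
      (∀ P : HeightOneSpectrum (𝓞 K),
        Nat.card {p : Fin n × Fin n // p.1 < p.2 ∧
            ¬ ∃ x y : P.adicCompletion K, algebraMap K (P.adicCompletion K) (w p.1 : K) * x ^ 2 +
              algebraMap K (P.adicCompletion K) (w p.2 : K) * y ^ 2 = 1} % 2 = 1 ↔ P ∈ S) ∧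
      ∀ φ : K →+* ℝ, (Finset.univ.filter fun i => 0 < φ (w i : K)).card = s φ :=
  (invariants_iff hn d S s).2 ⟨hs, heven⟩

end FA.HasseInvariant.Summary

end
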