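import Fermat.Agent.FourCubes.Main

/-!
# Davenport: almost all numbers are sums of four cubes

`G₁ (3) = 4` (Davenport, 1939): the numbers up to `N` that are no sums of four positive cubes are
`o (N)`, while at least `N / 9` are no sums of three cubes, zeros allowed. With it the mixed sixth
moment `O (P ^ (13/5 + ε))`, the exponent `2/3` for the complete cubic sums, and a power saving in
the mean square of the deviation from the expected number.

No rate for the exceptional set, no asymptotic formula for almost all numbers; no link with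
Fermat's last theorem.
-/

set_option autoImplicit false

noncomputable section

namespace FA.FourCubes.Summary

open Finset Filter Topology

open Classical in
/-- The numbers up to `N` that are no sums of four positive cubes. -/
def exceptional (N : ℕ) : Finset ℕ := (Ioc 0 N).filter fun n => ¬IsFourCubes n

/-- **Davenport.** -/
theorem davenport_four_cubes {ε : ℝ} (hε : 0 < ε) :
    ∀ᶠ N : ℕ in atTop, ((exceptional N).card : ℝ) ≤ ε * N :=
  eventually_almost_all hε

/-- **The exceptions have density zero.** -/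
theorem exceptional_density_zero :
    Tendsto (fun N : ℕ => ((exceptional N).card : ℝ) / N) atTop (𝓝 0) := by
  rw [Metric.tendsto_nhds]
  intro ε hε
  filter_upwards [davenport_four_cubes (half_pos hε), eventually_ge_atTop 1] with N hN hN1
  have hN0 : (0 : ℝ) < N := Nat.cast_pos.2 hN1
  rw [Real.dist_eq, sub_zero, abs_of_nonneg (by positivity), div_lt_iff₀ hN0]
  have : 0 < ε / 2 * N := by positivity
  linarith

/-- **Almost all numbers are sums of four positive cubes**, spelt out. -/
theorem almost_all_sum_four_cubes {ε : ℝ} (hε : 0 < ε) :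
    ∀ᶠ N : ℕ in atTop, ∃ T : Finset ℕ, (T.card : ℝ) ≤ ε * N ∧ ∀ n ∈ Ioc 0 N, n ∉ T →
      ∃ a b c d : ℕ, 0 < a ∧ 0 < b ∧ 0 < c ∧ 0 < d ∧ a ^ 3 + b ^ 3 + c ^ 3 + d ^ 3 = n := by
  filter_upwards [davenport_four_cubes hε] with N hN
  refine ⟨exceptional N, hN, fun n hn hT => ?_⟩
  classical
  by_contra h
  exact hT (mem_filter.2 ⟨hn, h⟩)

theorem cube_mod_nine (a : ℕ) : a ^ 3 % 9 = 0 ∨ a ^ 3 % 9 = 1 ∨ a ^ 3 % 9 = 8 := by
  rw [Nat.pow_mod]
  have : a % 9 < 9 := Nat.mod_lt _ (by norm_num)
  interval_cases a % 9 <;> simp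

open Classical in
/-- **Three cubes do not suffice.** -/
theorem three_cubes_insufficient (N : ℕ) : N / 9 ≤
    ((Ioc 0 N).filter fun n => ¬∃ a b c : ℕ, a ^ 3 + b ^ 3 + c ^ 3 = n).card := by
  refine le_trans (le_of_eq (card_range (N / 9)).symm) (card_le_card_of_injOn (fun m => 9 * m + 4)
    (fun m hm => ?_) fun m _ k _ e => by simpa using e)
  rw [mem_coe, mem_range] at hm
  rw [mem_coe, mem_filter, mem_Ioc]
  simp only
  refine ⟨by omega, ?_⟩
  rintro ⟨a, b, c, h⟩
  have := cube_mod_nine a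
  have := cube_mod_nine b
  have := cube_mod_nine c
  omega

/-- **The mixed sixth moment.** -/
theorem davenport_sixth_moment {ε : ℝ} (hε : 0 < ε) : ∃ C : ℝ, 0 < C ∧ ∀ P Q : ℕ, 1 ≤ P →
    (Q : ℝ) ≤ (P : ℝ) ^ (4 / 5 : ℝ) →
      (sixthMoment P Q : ℝ) ≤ C * (P : ℝ) ^ (13 / 5 + ε) :=
  exists_sixthMoment_le hε

/-- **The exponent `2/3`.** -/
theorem complete_cubic_sum_le : ∃ C : ℝ, 1 ≤ C ∧ ∀ (q : ℕ) (a : ℤ), 0 < q → IsUnit (a : ZMod q) →
    ‖WaringAsymptotic.completeSum 3 q a‖ ≤ C * (q : ℝ) ^ (2 / 3 : ℝ) :=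
  exists_completeSum_three_le

/-- **The power saving.** -/
theorem deviation_mean_square : ∃ C : ℝ, 0 < C ∧ ∀ P : ℕ, 2 ≤ P →
    ∑ n ∈ Ioc (4 * P ^ 3) (8 * P ^ 3),
        ‖(fourReps P (shortLength P) n : ℂ) - expected P (shortLength P) (arcHeight P) n‖ ^ 2 ≤
      C * (P : ℝ) ^ (4199 / 1000 : ℝ) :=
  exists_deviation_le

end FA.FourCubes.Summary
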