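import Fermat.Agent.FourPrimeSquares.Density

/-!
# Hua: four squares of primes for almost all numbers

The theorem of Hua with a saving of every power of the logarithm: all but `O (X / (log X) ^ A)` of
the `N ≤ X` with `N ≡ 4 (mod 24)` are sums of four squares of primes, with the number of
representations of the order `N / (log N) ^ 4` and the asymptotic formula
`𝔖 (N) π ^ 2 / 16 * N` for the weighted count on average. The congruence is necessary for primes
above `3`, so the sums of four squares of such primes have density `1/24`, and together with the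
sums that use `2` or `3` the sums of four squares of primes have density `13/120`.

The constants are ineffective through Siegel and Walfisz. Nothing is said about every large `N`.
-/

set_option autoImplicit false

noncomputable section

namespace FA.FourPrimeSquares.Summary

open Finset Filter Topology
open FA.WaringGoldbach (primeRep primeSeries)
open scoped Real

/-- **Hua's theorem.** -/
theorem four_prime_squares_almost_all (A : ℕ) : ∃ C : ℝ, 0 < C ∧ ∀ X : ℕ, 2 ≤ X →
    ∃ T : Finset ℕ, (T.card : ℝ) ≤ C * (X / Real.log X ^ A) ∧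
      ∀ N ∈ Icc 1 X, N ∉ T → N % 24 = 4 →
        ∃ p q r s : ℕ, (p.Prime ∧ q.Prime ∧ r.Prime ∧ s.Prime) ∧
          p ^ 2 + q ^ 2 + r ^ 2 + s ^ 2 = N := by
  classical
  obtain ⟨c, hc, h⟩ := exists_few_representations
  obtain ⟨C, hC, hex⟩ := h A
  refine ⟨C, hC, fun X hX => ⟨_, hex X hX, fun N hN hT hmod => ?_⟩⟩
  by_contra hno
  refine hT (mem_filter.2 ⟨hN, hmod, ?_⟩)
  rw [card_eq_zero.2 (filter_eq_empty_iff.2 fun z _ hz => hno
    ⟨z 0, z 1, z 2, z 3, ⟨(hz.1 0).1, (hz.1 1).1, (hz.1 2).1, (hz.1 3).1⟩,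
      (Fin.sum_univ_four fun i => z i ^ 2).symm.trans hz.2⟩), Nat.cast_zero, zero_mul]
  exact mul_pos hc (Nat.cast_pos.2 (mem_Icc.1 hN).1)

/-- **The number of representations** by primes above `3`. -/
theorem four_prime_squares_count : ∃ c : ℝ, 0 < c ∧ ∀ A : ℕ, ∃ C : ℝ, 0 < C ∧ ∀ X : ℕ, 2 ≤ X →
    (((Icc 1 X).filter fun N : ℕ => N % 24 = 4 ∧
      (((Fintype.piFinset fun _ : Fin 4 => Icc 1 N).filter
        fun z => (∀ i, (z i).Prime ∧ 3 < z i) ∧ ∑ i, z i ^ 2 = N).card : ℝ) * Real.log N ^ 4 <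
          c * N).card : ℝ) ≤ C * (X / Real.log X ^ A) :=
  exists_few_representations

/-- **The asymptotic formula on average** for the weighted count. -/
theorem four_prime_squares_mean_asymptotic (A : ℕ) : ∃ C : ℝ, 0 < C ∧ ∀ X : ℕ, 2 ≤ X →
    ∑ N ∈ Icc 1 X, |primeRep 2 4 bigPrimes N - primeSeries 2 4 N * (π ^ 2 / 16) * N| ≤
      C * ((X : ℝ) ^ 2 / Real.log X ^ A) :=
  exists_mean_deviation A

/-- **The singular series is bounded below** on the class `4` modulo `24`. -/
theorem four_squares_singular_series_pos :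
    ∃ c : ℝ, 0 < c ∧ ∀ N : ℕ, N % 24 = 4 → c ≤ primeSeries 2 4 N :=
  exists_series_pos

/-- **The congruence is necessary** for primes above `3`. -/
theorem congruence_necessary {p q r s N : ℕ} (hp : p.Prime ∧ q.Prime ∧ r.Prime ∧ s.Prime)
    (h3 : 3 < p ∧ 3 < q ∧ 3 < r ∧ 3 < s) (h : p ^ 2 + q ^ 2 + r ^ 2 + s ^ 2 = N) :
    N % 24 = 4 := by
  refine mod_eq_of_four_prime_squares ⟨![p, q, r, s], fun i => ?_, ?_⟩
  · fin_cases i <;> simp [hp, h3]
  · simpa [Fin.sum_univ_four] using h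

/-- **The density for primes above `3`**: `1/24`. -/
theorem four_big_prime_squares_density : Tendsto (fun X : ℕ =>
    ({N : ℕ | 1 ≤ N ∧ N ≤ X ∧ ∃ z : Fin 4 → ℕ,
      (∀ i, (z i).Prime ∧ 3 < z i) ∧ ∑ i, z i ^ 2 = N}.ncard : ℝ) / X) atTop (𝓝 (1 / 24)) := by
  classical
  refine tendsto_four_big_prime_squares_density.congr fun X => ?_
  rw [show {N : ℕ | 1 ≤ N ∧ N ≤ X ∧ ∃ z : Fin 4 → ℕ,
      (∀ i, (z i).Prime ∧ 3 < z i) ∧ ∑ i, z i ^ 2 = N} =
      ↑((Ioc 0 X).filter IsFourBigPrimeSquares) by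
    ext N; simp [IsFourBigPrimeSquares, Nat.lt_iff_add_one_le, and_assoc], Set.ncard_coe_finset]

/-- **The density of the sums of four squares of primes**: `13/120`. -/
theorem four_prime_squares_density : Tendsto (fun X : ℕ =>
    ({N : ℕ | 1 ≤ N ∧ N ≤ X ∧ ∃ p q r s : ℕ, p.Prime ∧ q.Prime ∧ r.Prime ∧ s.Prime ∧
      p ^ 2 + q ^ 2 + r ^ 2 + s ^ 2 = N}.ncard : ℝ) / X) atTop (𝓝 (13 / 120)) := by
  classical
  refine tendsto_four_prime_squares_density.congr fun X => ?_
  rw [show {N : ℕ | 1 ≤ N ∧ N ≤ X ∧ ∃ p q r s : ℕ, p.Prime ∧ q.Prime ∧ r.Prime ∧ s.Prime ∧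
      p ^ 2 + q ^ 2 + r ^ 2 + s ^ 2 = N} =
      ↑((Ioc 0 X).filter IsFourPrimeSquares) by
    ext N; simp [IsFourPrimeSquares, Nat.lt_iff_add_one_le, and_assoc], Set.ncard_coe_finset]

end FA.FourPrimeSquares.Summary
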