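import Fermat.Agent.IsogenyDegrees.DescentTwentyFour

/-!
# Four terms in arithmetic progression

Fermat and Euler: the product of four distinct positive integers in progression is no square; four
squares in progression are equal; three distinct ones occur infinitely often.
-/

set_option autoImplicit false

namespace FA.FourTermProgression.Summary

/-- The product of four rational terms in progression is a square exactly when the progression is
constant, has a zero term, or is a multiple of `-3, -1, 1, 3`. -/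
theorem product_square_iff (a d : ℚ) :
    IsSquare (a * (a + d) * (a + 2 * d) * (a + 3 * d)) ↔
      d = 0 ∨ a = 0 ∨ a + d = 0 ∨ a + 2 * d = 0 ∨ a + 3 * d = 0 ∨ 2 * a + 3 * d = 0 := by
  constructor
  · rintro ⟨r, hr⟩
    refine or_iff_not_imp_left.2 fun hd => ?_
    have hw : (4 * r / d ^ 2) ^ 2 =
        (((2 * a + 3 * d) / d) ^ 2 - 1) * (((2 * a + 3 * d) / d) ^ 2 - 9) := by
      field_simp
      linear_combination -16 * hr
    rcases FA.X0Composite.quartic_four_terms hw with h | h | h
    · simp only [div_eq_zero_iff, hd, or_false] at h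
      exact Or.inr (Or.inr (Or.inr (Or.inr h)))
    · rcases mul_eq_zero.1 (show (a + d) * (a + 2 * d) = 0 by
        field_simp at h; linear_combination h / 4) with h1 | h1
      · exact Or.inr (Or.inl h1)
      · exact Or.inr (Or.inr (Or.inl h1))
    · rcases mul_eq_zero.1 (show a * (a + 3 * d) = 0 by
        field_simp at h; linear_combination h / 4) with h1 | h1
      · exact Or.inl h1
      · exact Or.inr (Or.inr (Or.inr (Or.inl h1)))
  · rintro (h | h | h | h | h | h)
    · exact ⟨a ^ 2, by rw [h]; ring⟩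
    all_goals first
      | exact ⟨0, by rw [h]; ring⟩
      | exact ⟨9 * (d / 2) ^ 2 / 3, by obtain rfl : a = -(3 * d / 2) := by linarith
                                       ring⟩

/-- **Euler**: the product of four positive integers in progression is not a square. -/
theorem euler_product {a d : ℤ} (ha : 0 < a) (ha' : 0 < a + 3 * d) (hd : d ≠ 0) :
    ¬IsSquare (a * (a + d) * (a + 2 * d) * (a + 3 * d)) := by
  rintro ⟨r, hr⟩
  have h : IsSquare ((a : ℚ) * (a + d) * (a + 2 * d) * (a + 3 * d)) :=
    ⟨r, by exact_mod_cast hr⟩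
  rcases (product_square_iff _ _).1 h with h | h | h | h | h | h
  all_goals norm_cast at h
  all_goals omega

/-- **Fermat**: four rational squares in arithmetic progression are equal. -/
theorem no_four_squares {a b c e : ℚ} (h1 : b ^ 2 - a ^ 2 = c ^ 2 - b ^ 2)
    (h2 : c ^ 2 - b ^ 2 = e ^ 2 - c ^ 2) : a ^ 2 = b ^ 2 ∧ b ^ 2 = c ^ 2 ∧ c ^ 2 = e ^ 2 := by
  suffices hd : b ^ 2 - a ^ 2 = 0 by exact ⟨by linarith, by linarith, by linarith⟩
  have h : IsSquare (a ^ 2 * (a ^ 2 + (b ^ 2 - a ^ 2)) * (a ^ 2 + 2 * (b ^ 2 - a ^ 2)) *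
      (a ^ 2 + 3 * (b ^ 2 - a ^ 2))) := by
    rw [show a ^ 2 + 2 * (b ^ 2 - a ^ 2) = c ^ 2 by linarith,
      show a ^ 2 + 3 * (b ^ 2 - a ^ 2) = e ^ 2 by linarith]
    exact ⟨a * b * c * e, by ring⟩
  -- a zero term `x` leaves squares `t` and `2 t`
  have h2t : ∀ p q : ℚ, p ^ 2 = 2 * q ^ 2 → q = 0 := fun p q hpq => by
    by_contra hq
    have : IsSquare (2 : ℚ) := ⟨p / q, by field_simp; linear_combination -hpq⟩
    rw [Rat.isSquare_ofNat_iff] at this
    exact Nat.prime_two.prime.not_isSquare this
  rcases (product_square_iff _ _).1 h with h | h | h | h | h | h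
  · exact h
  · have := h2t c b (by linarith); rw [this] at h1 ⊢; linarith
  · have := h2t e c (by linarith); rw [this] at h1 h2; linarith
  · have := h2t a b (by linarith); rw [this] at h h1 ⊢; linarith
  · have := h2t b c (by linarith); rw [this] at h1 h2; linarith
  · linarith [sq_nonneg a, sq_nonneg b, sq_nonneg c, sq_nonneg e]

/-- There are infinitely many coprime triples of distinct squares in progression. -/
theorem three_squares : {p : ℕ × ℕ × ℕ | p.1 < p.2.1 ∧ p.2.1 < p.2.2 ∧ p.1.Coprime p.2.1 ∧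
    p.2.1 ^ 2 - p.1 ^ 2 = p.2.2 ^ 2 - p.2.1 ^ 2}.Infinite := by
  refine Set.infinite_of_injective_forall_mem
    (f := fun k : ℕ => (4 * k ^ 2 + 12 * k + 7, 4 * k ^ 2 + 16 * k + 17, 4 * k ^ 2 + 20 * k + 23))
    (fun i j h => ?_) fun k => ⟨by dsimp; omega, by dsimp; omega, ?_, ?_⟩
  · simp only [Prod.mk.injEq] at h; omega
  · rw [← Nat.isCoprime_iff_coprime]
    refine ⟨-(((k : ℤ) + 2) ^ 2 * (2 * k + 3)),
      1 - 2 * ((k : ℤ) + 2) ^ 2 + ((k : ℤ) + 2) ^ 2 * (2 * k + 3), ?_⟩
    push_cast; ring
  · dsimp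
    rw [Nat.sub_eq_iff_eq_add (Nat.pow_le_pow_left (by omega) 2), ← Nat.sub_add_comm
      (Nat.pow_le_pow_left (by omega) 2), eq_comm, Nat.sub_eq_iff_eq_add
      (le_add_right (Nat.pow_le_pow_left (by omega) 2))]
    ring

end FA.FourTermProgression.Summary
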