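import Fermat.Agent.Frostman.FourierDimension

/-!
# The Fourier dimension

The Fourier dimension of a set in a Euclidean space is at most its Hausdorff dimension. A segment
in a space of dimension at least `2` has Fourier dimension `0` and Hausdorff dimension `1`, so the
inequality can be strict. The circle attains equality.
-/

set_option autoImplicit false

noncomputable section

open MeasureTheory Metric
open scoped ENNReal

namespace FA.Frostman.Summary

variable {E : Type*} [NormedAddCommGroup E] [InnerProductSpace ℝ E] [FiniteDimensional ℝ E]
  [MeasurableSpace E] [BorelSpace E]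

/-- **The Fourier dimension is at most the Hausdorff dimension.** -/
theorem fourier_dimension_le {K : Set E} (hK : MeasurableSet K) : fourierDim K ≤ dimH K :=
  fourierDim_le_dimH hK

omit [BorelSpace E] in
/-- The inequality is strict for a segment in dimension at least `2`. -/
theorem fourier_dimension_segment (hd : 2 ≤ Module.finrank ℝ E) {x y : E} (h : x ≠ y) :
    fourierDim (segment ℝ x y) = 0 ∧ dimH (segment ℝ x y) = 1 :=
  ⟨fourierDim_segment hd x y, Real.dimH_segment h⟩

/-- The circle has Fourier and Hausdorff dimension `1`. -/
theorem fourier_dimension_circle :
    fourierDim (sphere (0 : ℂ) 1) = 1 ∧ dimH (sphere (0 : ℂ) 1) = 1 :=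
  ⟨fourierDim_circle, dimH_circle_le.antisymm
    (fourierDim_circle.symm.trans_le (fourierDim_le_dimH isClosed_sphere.measurableSet))⟩

end FA.Frostman.Summary

end
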