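import Fermat.Agent.FourthMoment.Main

/-!
# The fourth moment of `ζ` on the critical line (Ingham)

* `zeta_fourth_moment`: `∫_0^T ‖ζ (1/2 + it)‖⁴ = T (log T)⁴ / (2 π²) + O (T (log T) ^ (7/2))`.
* `zeta_fourth_moment_isEquivalent`: hence `∼ T (log T)⁴ / (2 π²)`.
* `zeta_fourth_moment_le`: `∫_0^T ‖ζ (1/2 + it)‖⁴ = O (T log (T + 2)⁴)` for all `T ≥ 0`.
* `sum_divisor_sq_div`: `∑_{n ≤ N} d (n)² / n = (log N)⁴ / (4 π²) + O ((1 + log N)³)` (Ramanujan).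
* `zeta_sq_mean_approximation`: `ζ (1/2 + it)²` is, in mean square over `[T, 2T]`, two sums of
  length `cT` up to `O (T (1 + log T)³)`.
-/

set_option autoImplicit false

noncomputable section

namespace FA.FourthMoment.Summary

open Filter Asymptotics MeasureTheory
open scoped Topology Real ComplexConjugate

/-- **The fourth moment of `ζ` on the critical line.** -/
theorem zeta_fourth_moment : ∃ C : ℝ, ∀ T : ℝ, 3 ≤ T →
    |(∫ t in (0 : ℝ)..T, ‖riemannZeta (1 / 2 + t * Complex.I)‖ ^ 4) -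
        T * Real.log T ^ 4 / (2 * π ^ 2)| ≤ C * (T * Real.log T ^ (7 / 2 : ℝ)) :=
  fourth_moment

/-- **`∫_0^T ‖ζ (1/2 + it)‖⁴ ∼ T (log T)⁴ / (2 π²)`.** -/
theorem zeta_fourth_moment_isEquivalent :
    (fun T : ℝ => ∫ t in (0 : ℝ)..T, ‖riemannZeta (1 / 2 + t * Complex.I)‖ ^ 4) ~[atTop]
      fun T => T * Real.log T ^ 4 / (2 * π ^ 2) :=
  fourth_moment_isEquivalent

/-- **The fourth moment, uniformly.** -/
theorem zeta_fourth_moment_le : ∃ C : ℝ, 0 ≤ C ∧ ∀ T : ℝ, 0 ≤ T →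
    (∫ t in (0 : ℝ)..T, ‖riemannZeta (1 / 2 + t * Complex.I)‖ ^ 4) ≤
      C * (T * Real.log (T + 2) ^ 4) :=
  fourth_moment_le

/-- **Ramanujan's asymptotic for `∑ d (n)² / n`.** -/
theorem sum_divisor_sq_div : ∃ C : ℝ, ∀ N : ℕ, 0 < N →
    |∑ n ∈ Finset.Icc 1 N, (n.divisors.card : ℝ) ^ 2 / n - Real.log N ^ 4 / (4 * π ^ 2)| ≤
      C * (1 + Real.log N) ^ 3 := by
  obtain ⟨C, -, hC⟩ := exists_divisorSq
  exact ⟨C, hC⟩

/-- **An approximate functional equation for `ζ²` in mean square.** -/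
theorem zeta_sq_mean_approximation {c : ℝ} (hc0 : 0 < c) (hc : c ≤ 1 / 2) :
    ∃ C : ℝ, ∀ T : ℝ, 2 / c ≤ T →
      ∫ t in T..2 * T, ‖riemannZeta (1 / 2 + t * Complex.I) ^ 2 -
          (shortPoly ⌊c * T⌋₊ t + chiLine t * conj (shortPoly ⌊c * T⌋₊ t))‖ ^ 2 ≤
        C * (T * (1 + Real.log T) ^ 3) := by
  obtain ⟨C, -, hC⟩ := exists_square_remainder hc0 hc
  exact ⟨C, hC⟩

end FA.FourthMoment.Summary

end
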