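import Fermat.Agent.FranelLandau.Main

/-!
# The theorem of Franel and Landau

With the Farey fractions `r` of order `N` in `(0, 1]` (`mem_farey`), `Φ` their number and
`δ r = r - #{s ≤ r} / Φ`, the Riemann hypothesis is equivalent to `∑ (δ r)² = O (N ^ (-1 + ε))`
(Franel) and to `∑ |δ r| = O (N ^ (1/2 + ε))` (Landau), both in 1924.
-/

set_option autoImplicit false

noncomputable section

open Finset
open scoped ArithmeticFunction.Moebius

namespace FA.Summary

open FA.FranelLandau (farey)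

/-- **Franel's theorem.** -/
theorem franel : RiemannHypothesis ↔
    ∀ ε : ℝ, 0 < ε → ∃ C : ℝ, ∀ N : ℕ, 1 ≤ N →
      ∑ r ∈ farey N, ((r : ℝ) - ((farey N).filter (· ≤ r)).card / (farey N).card) ^ 2 ≤
        C * (N : ℝ) ^ (-1 + ε) :=
  ⟨fun h _ hε => FranelLandau.franel_of_rh h hε, fun h =>
    FranelLandau.rh_of_landau fun ε hε => FranelLandau.landau_of_franel hε (h ε hε)⟩

/-- **Landau's theorem.** -/
theorem landau_farey : RiemannHypothesis ↔
    ∀ ε : ℝ, 0 < ε → ∃ C : ℝ, ∀ N : ℕ, 1 ≤ N →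
      ∑ r ∈ farey N, |(r : ℝ) - ((farey N).filter (· ≤ r)).card / (farey N).card| ≤
        C * (N : ℝ) ^ (1 / 2 + ε) :=
  ⟨fun h _ hε => FranelLandau.landau_of_franel hε (FranelLandau.franel_of_rh h hε),
    FranelLandau.rh_of_landau⟩

/-- **Franel's identity**, with the Mertens function at `N / a`. -/
theorem franel_identity {N : ℕ} (hN : 1 ≤ N) :
    12 * ((farey N).card : ℝ) *
        ∑ r ∈ farey N, ((r : ℝ) - ((farey N).filter (· ≤ r)).card / (farey N).card) ^ 2 =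
      (∑ a ∈ Icc 1 N, ∑ b ∈ Icc 1 N, (∑ d ∈ Icc 1 (N / a), (μ d : ℝ)) *
        (∑ d ∈ Icc 1 (N / b), (μ d : ℝ)) * (Nat.gcd a b : ℝ) ^ 2 / ((a : ℝ) * b)) - 1 :=
  FranelLandau.franel_identity hN

/-- The exponential sum over the Farey fractions is the Mertens function. -/
theorem farey_exp_sum (N : ℕ) :
    ∑ r ∈ farey N, Complex.exp (2 * Real.pi * Complex.I * (r : ℂ)) =
      ((∑ d ∈ Icc 1 N, (μ d : ℝ) : ℝ) : ℂ) :=
  FranelLandau.sum_exp N

/-- The meaning of `farey N`. -/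
theorem farey_mem {N : ℕ} {r : ℚ} : r ∈ farey N ↔ 0 < r ∧ r ≤ 1 ∧ r.den ≤ N :=
  FranelLandau.mem_farey

end FA.Summary
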