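import Fermat.Agent.FranklWilson.Basic

/-!
# The intersection theorems of Frankl and Wilson

* `frankl_wilson_intersection`: sets with sizes outside and mutual intersections inside `L` modulo
  `p` number at most `∑ i ≤ |L|, C(n, i)`;
* `ray_chaudhuri_wilson_intersection`: the same bound if all intersections lie in `L ⊆ ℕ`;
* `oddtown_theorem`: odd sets with even intersections are at most `n`;
* `frankl_wilson_ramsey`: explicit graphs without cliques and independent sets of size `m` on more
  than `m ^ k` vertices, for every `k`.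
-/

set_option autoImplicit false

noncomputable section

open Finset

namespace FA.Summary

variable {α : Type*} [Fintype α] [DecidableEq α]

/-- **The theorem of Frankl and Wilson.** -/
theorem frankl_wilson_intersection {p : ℕ} [Fact p.Prime] (F : Finset (Finset α))
    (L : Finset (ZMod p)) (hsize : ∀ A ∈ F, (A.card : ZMod p) ∉ L)
    (hint : ∀ A ∈ F, ∀ B ∈ F, A ≠ B → ((A ∩ B).card : ZMod p) ∈ L) :
    F.card ≤ ∑ i ∈ range (L.card + 1), (Fintype.card α).choose i :=
  FA.FranklWilson.frankl_wilson F L hsize hint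

/-- **The theorem of Ray-Chaudhuri and Wilson.** -/
theorem ray_chaudhuri_wilson_intersection (F : Finset (Finset α)) (L : Finset ℕ)
    (hint : ∀ A ∈ F, ∀ B ∈ F, A ≠ B → (A ∩ B).card ∈ L) :
    F.card ≤ ∑ i ∈ range (L.card + 1), (Fintype.card α).choose i :=
  FA.FranklWilson.ray_chaudhuri_wilson F L hint

/-- **The oddtown theorem.** -/
theorem oddtown_theorem (F : Finset (Finset α)) (hodd : ∀ A ∈ F, Odd A.card)
    (hint : ∀ A ∈ F, ∀ B ∈ F, A ≠ B → Even (A ∩ B).card) : F.card ≤ Fintype.card α :=
  FA.FranklWilson.oddtown F hodd hint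

/-- **Explicit Ramsey graphs**: larger than every power of their clique numbers. -/
theorem frankl_wilson_ramsey (k N : ℕ) : ∃ p m : ℕ, p.Prime ∧ N ≤ m ∧
    (FA.FranklWilson.ramseyGraph (Fin (p ^ 3)) p).CliqueFree m ∧
    (FA.FranklWilson.ramseyGraph (Fin (p ^ 3)) p)ᶜ.CliqueFree m ∧
    m ^ k < Fintype.card {A : Finset (Fin (p ^ 3)) // A.card = p ^ 2 - 1} := by
  obtain ⟨p, hp, hpp⟩ := Nat.exists_infinite_primes (3 * k + 1 + N + 2)
  have := Fact.mk hpp
  obtain ⟨h1, h2⟩ := FA.FranklWilson.ramseyGraph_cliques (α := Fin (p ^ 3)) (p := p)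
  rw [Fintype.card_fin] at h1 h2
  refine ⟨p, _, hpp, ?_, h1, h2, ?_⟩
  · have h3 : (p ^ 3).choose 1 ≤ ∑ i ∈ range p, (p ^ 3).choose i :=
      single_le_sum (f := fun i => (p ^ 3).choose i) (fun _ _ => Nat.zero_le _)
        (mem_range.2 hpp.one_lt)
    rw [Nat.choose_one_right] at h3
    have := Nat.le_self_pow (show 3 ≠ 0 by norm_num) p
    omega
  · rw [Fintype.card_finset_len, Fintype.card_fin]
    exact FA.FranklWilson.ramseyGraph_large hpp.two_le (by omega)

end FA.Summary

end
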