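import Fermat.Agent.FreeGroupTheorems.Finite
import Fermat.Agent.FreeGroupTheorems.Magnus

/-!
# Theorems of M. Hall, Howson, Malcev and Magnus on free groups

* `marshall_hall_separable`: a finitely generated subgroup of a free group is the intersection of
  the subgroups of finite index containing it;
* `free_residuallyFinite`, `malcev_hopfian`, `free_hopfian`: free groups are residually finite,
  finitely generated residually finite groups are Hopfian, so finitely generated free groups are;
* `howson`: two finitely generated subgroups of a free group meet in a finitely generated one;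
* `magnus`, `free_residually_pGroup`: free groups are residually nilpotent, indeed residually
  finite `p`-groups for every prime `p`.

Hanna Neumann's bound and M. Hall's free factor refinement are not claimed.
-/

set_option autoImplicit false
set_option linter.style.haveILetI false

noncomputable section

namespace FA.FreeGroupTheorems.Summary

variable {α : Type*}

/-- **M. Hall's theorem** (1949). -/
theorem marshall_hall_separable {H : Subgroup (FreeGroup α)} (hfg : H.FG) :
    H = ⨅ (K : Subgroup (FreeGroup α)) (_ : K.FiniteIndex ∧ H ≤ K), K := by
  refine le_antisymm (le_iInf₂ fun K hK => hK.2) fun g hg => ?_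
  by_contra hgH
  obtain ⟨K, hK, hHK, hgK⟩ := exists_finiteIndex hfg hgH
  exact hgK (Subgroup.mem_iInf.1 (Subgroup.mem_iInf.1 hg K) ⟨hK, hHK⟩)

/-- **Free groups are residually finite.** -/
theorem free_residuallyFinite : Group.ResiduallyFinite (FreeGroup α) := residuallyFinite_free α

/-- **Malcev's theorem** (1940). -/
theorem malcev_hopfian {G : Type*} [Group G] [Group.FG G] [Group.ResiduallyFinite G] {f : G →* G}
    (hf : Function.Surjective f) : Function.Bijective f :=
  bijective_of_surjective hf

/-- **Free groups of finite rank are Hopfian.** -/
theorem free_hopfian [Finite α] {f : FreeGroup α →* FreeGroup α} (hf : Function.Surjective f) :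
    Function.Bijective f :=
  haveI := residuallyFinite_free α
  haveI : Group.FG (FreeGroup α) := Group.fg_iff.2
    ⟨Set.range FreeGroup.of, FreeGroup.closure_range_of α, Set.finite_range _⟩
  bijective_of_surjective hf

/-- **Howson's theorem** (1954). -/
theorem howson {H K : Subgroup (FreeGroup α)} (hH : H.FG) (hK : K.FG) : (H ⊓ K).FG :=
  fg_inf hH hK

/-- **Magnus's theorem** (1935). -/
theorem magnus : ⨅ n, (⊤ : Subgroup (FreeGroup α)).lowerCentralSeries n = ⊥ :=
  iInf_lowerCentralSeries_eq_bot α

/-- **Free groups are residually finite `p`-groups.** -/
theorem free_residually_pGroup (p : ℕ) [Fact p.Prime] {g : FreeGroup α} (hg : g ≠ 1) :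
    ∃ N : Subgroup (FreeGroup α), ∃ _ : N.Normal, N.FiniteIndex ∧
      IsPGroup p (FreeGroup α ⧸ N) ∧ g ∉ N :=
  exists_pGroup_quotient p hg

end FA.FreeGroupTheorems.Summary

end
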