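import Fermat.Agent.Root.SummaryTorsionCompositum

/-!
# Torsion in extensions of bounded exponent

A Frobenius element raised to the power `e` fixes only boundedly many torsion points of order
prime to `q` where `j` is integral. So only finitely many torsion points are fixed by all `e`-th
powers in the Galois group, and the exponent of the division field group of level `N` grows at
least like `log N`, uniformly in the curves with `j` integral at `2` and `3`.
-/

set_option autoImplicit false
set_option linter.style.haveILetI false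
set_option linter.unusedSectionVars false

noncomputable section

open WeierstrassCurve WeierstrassCurve.Affine
open scoped WeierstrassCurve.Affine

local notation "Qb" => AlgebraicClosure ℚ
local notation "GQ" => AlgebraicClosure ℚ ≃ₐ[ℚ] AlgebraicClosure ℚ

namespace FA.GoodReduction

variable (E : WeierstrassCurve ℚ) [DecidableEq (AlgebraicClosure ℚ)]

/-- The points fixed by all `e`-th powers. -/
def exponentPoints (e : ℕ) : AddSubgroup (E.toAffine⁄(AlgebraicClosure ℚ)).Point where
  carrier := {P | ∀ g : GQ, Affine.Point.map (g ^ e).toAlgHom P = P}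
  zero_mem' := fun g => map_zero _
  add_mem' := fun {P Q} hP hQ g => by rw [map_add, hP g, hQ g]
  neg_mem' := fun {P} hP g => by rw [map_neg, hP g]

variable [E.IsElliptic]

/-- Their part prime to `q`, `j` integral at `q`. -/
theorem exponentPoints_primeTo {e q : ℕ} (he : 0 < e) [Fact q.Prime]
    (hj : 0 ≤ padicValRat q E.j) :
    {P : exponentPoints E e | ∃ N : ℕ, ¬ q ∣ N ∧ N • P = 0}.Finite ∧
      (Nat.card {P : exponentPoints E e | ∃ N : ℕ, ¬ q ∣ N ∧ N • P = 0} : ℝ) ≤
        (Real.sqrt q ^ e + 1) ^ 2 := by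
  obtain ⟨A, hA⟩ := FA.Deform.exists_liesOverPrime (Fact.out : q.Prime)
  obtain ⟨σ, hσ⟩ := FA.Deform.exists_isFrobeniusAt (Fact.out : q.Prime) hA
  obtain ⟨a, -, -, h⟩ := FA.Summary.frobenius_pow_fixedTorsion E hA hσ hj
  obtain ⟨hfin, hcard, hle⟩ := h e he
  let f := (exponentPoints E e).subtype
  have hmaps : Set.MapsTo f {P | ∃ N : ℕ, ¬ q ∣ N ∧ N • P = 0}
      {P | Affine.Point.map (σ ^ e).toAlgHom P = P ∧ ∃ N : ℕ, ¬ q ∣ N ∧ N • P = 0} :=
    fun P ⟨N, hN, hP⟩ => ⟨P.2 σ, N, hN, by rw [← map_nsmul, hP, map_zero]⟩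
  haveI := hfin.to_subtype
  have hinj : Function.Injective (hmaps.restrict f _ _) :=
    hmaps.restrict_inj.mpr Subtype.val_injective.injOn
  refine ⟨Set.finite_coe_iff.mp (Finite.of_injective _ hinj),
    (Nat.cast_le.mpr (Nat.card_le_card_of_injective _ hinj)).trans ?_⟩
  rw [hcard]
  exact (Nat.cast_le.mpr (Nat.div_le_self _ _)).trans hle

/-- A level fixed by all `e`-th powers is bounded by their torsion. -/
theorem sq_le_card_of_level {e N : ℕ} (hN : N ≠ 0)
    (hfin : {P : exponentPoints E e | IsOfFinAddOrder P}.Finite)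
    (h : ∀ (g : GQ) (P : (E.toAffine⁄(AlgebraicClosure ℚ)).Point), N • P = 0 →
      Affine.Point.map (g ^ e).toAlgHom P = P) :
    N ^ 2 ≤ Nat.card {P : exponentPoints E e | IsOfFinAddOrder P} := by
  obtain rfl : (inferInstance : DecidableEq (AlgebraicClosure ℚ)) =
      instDecEqAlgebraicClosureRat := Subsingleton.elim _ _
  rw [← FA.EC.natCard_torsion E hN]
  haveI := hfin.to_subtype
  have hz : ∀ x : Submodule.torsionBy ℤ (E⁄Qb).Point (N : ℤ), N • x.1 = 0 := fun x => by
    have := (Submodule.mem_torsionBy_iff _ _).mp x.2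
    rwa [natCast_zsmul] at this
  refine Nat.card_le_card_of_injective (fun x => ⟨⟨x.1, fun g => h g x.1 (hz x)⟩,
    isOfFinAddOrder_iff_nsmul_eq_zero.mpr ⟨N, Nat.pos_of_ne_zero hN, Subtype.ext (hz x)⟩⟩)
    fun x y hxy => Subtype.ext (congrArg (fun z => z.1.1) hxy)

end FA.GoodReduction

namespace FA.Summary

variable (E : WeierstrassCurve ℚ) [E.IsElliptic] [DecidableEq (AlgebraicClosure ℚ)]

/-- **Extensions of bounded exponent**: only finitely many torsion points of any elliptic curve
over `ℚ` are fixed by all `e`-th powers in the Galois group. -/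
theorem torsion_exponentField_finite {e : ℕ} (he : 0 < e) :
    {P : (E.toAffine⁄(AlgebraicClosure ℚ)).Point | IsOfFinAddOrder P ∧
      ∀ g : AlgebraicClosure ℚ ≃ₐ[ℚ] AlgebraicClosure ℚ,
        Affine.Point.map (g ^ e).toAlgHom P = P}.Finite := by
  obtain ⟨q, hq, hqp⟩ := Nat.exists_infinite_primes (E.j.den + 1)
  obtain ⟨q', hq', hqp'⟩ := Nat.exists_infinite_primes (q + 1)
  haveI := Fact.mk hqp
  haveI := Fact.mk hqp'
  have hj : ∀ l : ℕ, E.j.den < l → 0 ≤ padicValRat l E.j := fun l hlt => by
    rw [padicValRat_def, padicValNat.eq_zero_of_not_dvd (n := E.j.den)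
      fun h => absurd (Nat.le_of_dvd E.j.den_pos h) (not_le.mpr hlt)]
    simp
  have h := (FA.GoodReduction.torsion_card_le_of_two hqp hqp' (by omega)
    (FA.GoodReduction.exponentPoints_primeTo E he (hj q hq)).1
    (FA.GoodReduction.exponentPoints_primeTo E he (hj q' (by omega))).1).1
  refine (h.image Subtype.val).subset ?_
  rintro P ⟨hP, hfix⟩
  obtain ⟨n, hn, hnP⟩ := isOfFinAddOrder_iff_nsmul_eq_zero.mp hP
  exact ⟨⟨P, hfix⟩, isOfFinAddOrder_iff_nsmul_eq_zero.mpr ⟨n, hn, Subtype.ext hnP⟩, rfl⟩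

/-- **The exponent of the division fields grows uniformly**: with `j` integral at `2` and `3`, if
all `e`-th powers in the Galois group act trivially on `E[N]` then
`N ≤ (√2 ^ e + 1) (√3 ^ e + 1)`. -/
theorem divisionField_exponent_lower (h2 : 0 ≤ padicValRat 2 E.j) (h3 : 0 ≤ padicValRat 3 E.j)
    {e N : ℕ} (he : 0 < e) (hN : N ≠ 0)
    (h : ∀ (g : AlgebraicClosure ℚ ≃ₐ[ℚ] AlgebraicClosure ℚ)
      (P : (E.toAffine⁄(AlgebraicClosure ℚ)).Point), N • P = 0 →
        Affine.Point.map (g ^ e).toAlgHom P = P) :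
    (N : ℝ) ≤ (Real.sqrt 2 ^ e + 1) * (Real.sqrt 3 ^ e + 1) := by
  haveI := Fact.mk Nat.prime_two
  haveI := Fact.mk Nat.prime_three
  obtain ⟨f2, c2⟩ := FA.GoodReduction.exponentPoints_primeTo E (q := 2) he h2
  obtain ⟨f3, c3⟩ := FA.GoodReduction.exponentPoints_primeTo E (q := 3) he h3
  obtain ⟨hfin, hle⟩ :=
    FA.GoodReduction.torsion_card_le_of_two Nat.prime_two Nat.prime_three (by norm_num) f2 f3
  have h' := (FA.GoodReduction.sq_le_card_of_level E hN hfin h).trans hle
  refine (pow_le_pow_iff_left₀ (Nat.cast_nonneg N) (by positivity) two_ne_zero).mp ?_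
  rw [mul_pow]
  have h'' := (Nat.cast_le (α := ℝ)).mpr h'
  rw [Nat.cast_pow, Nat.cast_mul] at h''
  refine h''.trans (mul_le_mul ?_ ?_ (Nat.cast_nonneg _) (sq_nonneg _))
  · exact_mod_cast c2
  · exact_mod_cast c3

/-- **The exponent of the division fields tends to infinity**, for every elliptic curve over `ℚ`:
for each `e` only finitely many levels have it dividing `e`. -/
theorem divisionField_exponent_tendsto {e : ℕ} (he : 0 < e) :
    {N : ℕ | N ≠ 0 ∧ ∀ (g : AlgebraicClosure ℚ ≃ₐ[ℚ] AlgebraicClosure ℚ)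
      (P : (E.toAffine⁄(AlgebraicClosure ℚ)).Point), N • P = 0 →
        Affine.Point.map (g ^ e).toAlgHom P = P}.Finite := by
  have hfin : {P : FA.GoodReduction.exponentPoints E e | IsOfFinAddOrder P}.Finite := by
    refine Set.Finite.of_finite_image ((torsion_exponentField_finite E he).subset ?_)
      Subtype.val_injective.injOn
    rintro _ ⟨P, hP, rfl⟩
    exact ⟨(FA.GoodReduction.exponentPoints E e).subtype.isOfFinAddOrder hP, P.2⟩
  refine (Set.finite_Iic (Nat.card {P : FA.GoodReduction.exponentPoints E e |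
    IsOfFinAddOrder P})).subset fun N hN => ?_
  exact (Nat.le_self_pow two_ne_zero N).trans
    (FA.GoodReduction.sq_le_card_of_level E hN.1 hfin hN.2)

end FA.Summary

end
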