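import Fermat.Agent.Root.SummaryMaxAbelianStructure
import Fermat.Agent.Root.SummaryTorsionExponent

/-!
# Free Mordell–Weil groups over infinite fields, and growth of the rank

A Galois extension of `ℚ`, finite or not, over which an elliptic curve has finitely many torsion
points gives a group of points which is finite times free; so over the fields of bounded exponent.
The rank over number fields is unbounded and it grows in infinitely many quadratic fields.
-/

set_option autoImplicit false
set_option linter.style.haveILetI false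

noncomputable section

open WeierstrassCurve WeierstrassCurve.Affine FA.MordellWeilNF FA.MaxAbelianStructure
open scoped WeierstrassCurve.Affine

local notation "Qb" => AlgebraicClosure ℚ
local notation "GQ" => AlgebraicClosure ℚ ≃ₐ[ℚ] AlgebraicClosure ℚ

namespace FA.FreeMordellWeil

variable (E : WeierstrassCurve ℚ) [E.IsElliptic]

/-- Independent points fixed by `K` bound the rank over `K` from below. -/
theorem card_le_finrank (K : IntermediateField ℚ Qb) [FiniteDimensional ℚ K] {ι : Type*}
    [Fintype ι] {P : ι → (E⁄Qb).Point} (hP : LinearIndependent ℤ P)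
    (hfix : ∀ i, P i ∈ fixedPts E K.fixingSubgroup) [inst : DecidableEq K] :
    Fintype.card ι ≤ Module.finrank ℤ (E⁄K).Point := by
  obtain rfl : inst = fun a b => a.instDecidableEq b := Subsingleton.elim _ _
  haveI : AddGroup.FG (E⁄K).Point := FA.Summary.mordellWeil_numberField E K
  haveI : Module.Finite ℤ (E⁄K).Point := Module.Finite.iff_addGroup_fg.mpr inferInstance
  obtain ⟨e, he⟩ := exists_pointEquiv E K
  refine LinearIndependent.fintype_card_le_finrank (b := fun i => e.symm ⟨P i, hfix i⟩)
    (LinearIndependent.of_comp (Affine.Point.map (W' := E.toAffine) K.val).toIntLinearMap ?_)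
  convert hP using 1
  funext i
  show Affine.Point.map (W' := E.toAffine) K.val (e.symm ⟨P i, hfix i⟩) = P i
  rw [← he, AddEquiv.apply_symm_apply]

/-- A number field contains only finitely many points of an infinite independent family. -/
theorem not_forall_fixed (K : IntermediateField ℚ Qb) [FiniteDimensional ℚ K]
    {P : ℕ → (E⁄Qb).Point} (hP : LinearIndependent ℤ P) :
    ∃ k, P k ∉ fixedPts E K.fixingSubgroup := by
  classical
  by_contra h
  push Not at h
  have h' := card_le_finrank E K (hP.comp (fun i : Fin (Module.finrank ℤ (E⁄K).Point + 1) => i.1)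
    Fin.val_injective) fun i => h i.1
  rw [Fintype.card_fin] at h'
  omega

end FA.FreeMordellWeil

namespace FA.Summary

open FA.FreeMordellWeil

/-- **Free Mordell–Weil groups over infinite fields**: when a normal subgroup `N` of the Galois
group fixes only finitely many torsion points, the points it fixes form a finite group times a free
abelian group of countable rank. -/
theorem mordellWeil_free_of_finite_torsion (E : WeierstrassCurve ℚ) [E.IsElliptic]
    [inst : DecidableEq (AlgebraicClosure ℚ)] (N : Subgroup GQ) [N.Normal]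
    (hT : {P : (E.toAffine⁄(AlgebraicClosure ℚ)).Point | IsOfFinAddOrder P ∧
      ∀ σ ∈ N, Affine.Point.map σ.toAlgHom P = P}.Finite) :
    ∃ A : AddSubgroup (E.toAffine⁄(AlgebraicClosure ℚ)).Point,
      (∀ P, P ∈ A ↔ ∀ σ ∈ N, Affine.Point.map σ.toAlgHom P = P) ∧
      ∃ T : AddSubgroup A, Finite T ∧
        ∃ ι : Type, Countable ι ∧ Nonempty (A ≃+ T × (ι →₀ ℤ)) := by
  obtain rfl : inst = instDecEqAlgebraicClosureRat := Subsingleton.elim _ _
  obtain ⟨T, hT, ι, hι, he, -⟩ := exists_decomposition E N hT
  exact ⟨fixedPts E N, fun P => Iff.rfl, T, hT, ι, hι, he⟩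

/-- **The fields of exponent `e`**: the points fixed by all `e`th powers in the Galois group are a
finite group times a free abelian group, of countably infinite rank for even `e`. -/
theorem exponentField_structure (E : WeierstrassCurve ℚ) [E.IsElliptic]
    [inst : DecidableEq (AlgebraicClosure ℚ)] {e : ℕ} (he : 0 < e) :
    ∃ A : AddSubgroup (E.toAffine⁄(AlgebraicClosure ℚ)).Point,
      (∀ P, P ∈ A ↔ ∀ σ : GQ, Affine.Point.map (σ ^ e).toAlgHom P = P) ∧
      ∃ T : AddSubgroup A, Finite T ∧ ∃ ι : Type, Countable ι ∧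
        Nonempty (A ≃+ T × (ι →₀ ℤ)) ∧ (Even e → Infinite ι) := by
  obtain rfl : inst = instDecEqAlgebraicClosureRat := Subsingleton.elim _ _
  set N : Subgroup GQ := Subgroup.normalClosure (Set.range fun σ : GQ => σ ^ e)
  have hmem : ∀ P, P ∈ fixedPts E N ↔ ∀ σ : GQ, (σ ^ e) • P = P := fun P => by
    refine ⟨fun h σ => h _ (Subgroup.subset_normalClosure ⟨σ, rfl⟩), fun h c hc => ?_⟩
    have hle : N ≤ MulAction.stabilizer GQ P := by
      rw [show N = Subgroup.closure _ from rfl, Subgroup.closure_le]
      intro x hx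
      obtain ⟨_, ⟨σ, rfl⟩, hx⟩ := Group.mem_conjugatesOfSet_iff.mp hx
      obtain ⟨g, hg⟩ := isConj_iff.mp hx
      rw [SetLike.mem_coe, MulAction.mem_stabilizer_iff, ← hg, ← conj_pow]
      exact h _
    exact hle hc
  obtain ⟨T, hT, ι, hι, hequiv, hinf⟩ := exists_decomposition E N
    ((torsion_exponentField_finite E he).subset fun P hP => ⟨hP.1, (hmem P).mp hP.2⟩)
  refine ⟨fixedPts E N, hmem, T, hT, ι, hι, hequiv, fun ⟨m, hm⟩ => ?_⟩
  obtain ⟨P, hP, hP'⟩ := maxAbelian_rank_infinite E
  refine hinf (fun k => ⟨P k, (hmem _).mpr fun σ => ?_⟩) hP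
  have h2 : σ ^ 2 • P k = P k := by
    rw [pow_two, mul_smul]
    rcases (hP' k).1 σ with h | h
    · exact (congrArg (σ • ·) h).trans h
    · exact ((congrArg (σ • ·) h).trans (smul_neg σ _)).trans ((congrArg _ h).trans (neg_neg _))
  rw [hm, ← two_mul, pow_mul]
  exact MulAction.mem_stabilizer_iff.mp
    (pow_mem (MulAction.mem_stabilizer_iff.mpr h2 : σ ^ 2 ∈ MulAction.stabilizer GQ (P k)) m)

/-- **The rank over number fields is unbounded**: for every elliptic curve over `ℚ` and every `n`
some number field `K` on which every square of the Galois group is trivial (a compositum of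
quadratic fields) has rank at least `n`, a finite number by Mordell–Weil. -/
theorem rank_unbounded_numberField (E : WeierstrassCurve ℚ) [E.IsElliptic] (n : ℕ) :
    ∃ K : IntermediateField ℚ (AlgebraicClosure ℚ), FiniteDimensional ℚ K ∧
      (∀ σ : GQ, σ ^ 2 ∈ K.fixingSubgroup) ∧
      ∀ [DecidableEq K], n ≤ Module.finrank ℤ (E.toAffine⁄K).Point := by
  obtain ⟨P, hP, hP'⟩ := maxAbelian_rank_infinite E
  set H : Subgroup GQ := ⨅ k ∈ Finset.range n, MulAction.stabilizer GQ (P k)
  have hH : IsOpen (H : Set GQ) := by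
    simp only [H, Subgroup.coe_iInf]
    exact isOpen_biInter_finset fun k _ => isOpen_stabilizer E _
  have hHK : (IntermediateField.fixedField H).fixingSubgroup = H :=
    InfiniteGalois.fixingSubgroup_fixedField ⟨H, Subgroup.isClosed_of_isOpen H hH⟩
  have hfd : FiniteDimensional ℚ (IntermediateField.fixedField H) :=
    (InfiniteGalois.isOpen_iff_finite _).mp (by rw [hHK]; exact hH)
  refine ⟨IntermediateField.fixedField H, hfd, fun σ => ?_, fun {_} => ?_⟩
  · rw [hHK]
    refine Subgroup.mem_iInf.mpr fun k => Subgroup.mem_iInf.mpr fun _ => ?_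
    rw [MulAction.mem_stabilizer_iff, pow_two, mul_smul]
    rcases (hP' k).1 σ with h | h
    · exact (congrArg (σ • ·) h).trans h
    · exact ((congrArg (σ • ·) h).trans (smul_neg σ _)).trans ((congrArg _ h).trans (neg_neg _))
  · have h := card_le_finrank E (IntermediateField.fixedField H)
      (hP.comp (fun i : Fin n => i.1) Fin.val_injective) fun i σ hσ => by
        rw [hHK] at hσ
        exact Subgroup.mem_iInf.mp (Subgroup.mem_iInf.mp hσ i.1) (Finset.mem_range.mpr i.2)
    simpa using h

/-- **Growth of the rank**: for every elliptic curve over `ℚ` infinitely many quadratic fields `K`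
have rank over `K` larger than over `ℚ`. -/
theorem rank_growth_quadratic (E : WeierstrassCurve ℚ) [E.IsElliptic] :
    {K : IntermediateField ℚ (AlgebraicClosure ℚ) | Module.finrank ℚ K = 2 ∧
      ∀ [DecidableEq K], Module.finrank ℤ E.toAffine.Point <
        Module.finrank ℤ (E.toAffine⁄K).Point}.Infinite := by
  classical
  obtain ⟨P, d, w, hP, hd, hPw⟩ := FA.InfiniteRank.exists_points E
  intro hfin
  set S := {K : IntermediateField ℚ Qb | Module.finrank ℚ K = 2 ∧
      ∀ [DecidableEq K], Module.finrank ℤ E.toAffine.Point <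
        Module.finrank ℤ (E.toAffine⁄K).Point}
  haveI : Finite S := hfin.to_subtype
  haveI : ∀ K : S, FiniteDimensional ℚ K.1 := fun K =>
    Module.finite_of_finrank_pos (by rw [K.2.1]; norm_num)
  set L : IntermediateField ℚ Qb := ⨆ K : S, K.1
  haveI : FiniteDimensional ℚ L := IntermediateField.finiteDimensional_iSup_of_finite
  obtain ⟨k₀, hk₀⟩ : ∃ k₀, ∀ k, k₀ ≤ k → d k ≠ 1 := by
    by_cases h : ∃ k, d k = 1
    · obtain ⟨k₀, hk₀⟩ := h
      exact ⟨k₀ + 1, fun k hk e => absurd (hd (e.trans hk₀.symm)) (by omega)⟩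
    · exact ⟨0, fun k _ e => h ⟨k, e⟩⟩
  obtain ⟨j, hj⟩ := not_forall_fixed E L (P := fun j => P (j + k₀))
    (hP.comp _ fun a b e => by simpa using e)
  set k := j + k₀
  obtain ⟨hsf, hw2, htors, hact⟩ := hPw k
  have hw2' : w k ^ 2 = algebraMap ℚ Qb (d k) := by rw [hw2, map_intCast]
  have hint : IsIntegral ℚ (w k) := (AlgebraicClosure.isAlgebraic ℚ).isAlgebraic _ |>.isIntegral
  have hw : w k ∉ (algebraMap ℚ Qb).range := fun ⟨q, hq⟩ => by
    have h1 : IsSquare ((d k : ℤ) : ℚ) :=
      ⟨q, (algebraMap ℚ Qb).injective (by rw [map_mul, hq, ← hw2', pow_two])⟩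
    obtain ⟨n, hn⟩ := Rat.isSquare_intCast_iff.mp h1
    refine hk₀ k (Nat.le_add_left k₀ j) ?_
    rcases Int.isUnit_iff.mp (hsf n ⟨1, by rw [hn, mul_one]⟩) with e | e <;> simp [hn, e]
  have h2 : Module.finrank ℚ (IntermediateField.adjoin ℚ {w k}) = 2 := by
    rw [IntermediateField.adjoin.finrank hint]
    refine le_antisymm ?_ ((minpoly.two_le_natDegree_iff hint).mpr hw)
    refine (Polynomial.natDegree_le_of_dvd (minpoly.dvd ℚ (w k) ?_)
      (Polynomial.X_pow_sub_C_ne_zero two_pos (d k : ℚ))).trans_eq
      Polynomial.natDegree_X_pow_sub_C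
    rw [map_sub, map_pow, Polynomial.aeval_X, Polynomial.aeval_C, hw2', sub_self]
  haveI : FiniteDimensional ℚ (IntermediateField.adjoin ℚ {w k}) :=
    IntermediateField.adjoin.finiteDimensional hint
  set K := IntermediateField.adjoin ℚ {w k} with hK
  have hPK : P k ∈ fixedPts E K.fixingSubgroup := fun σ hσ => (hact σ).1
    ((IntermediateField.mem_fixingSubgroup_iff _ _).1 hσ _
      (IntermediateField.mem_adjoin_simple_self ℚ _))
  by_cases hKS : K ∈ S
  · exact hj fun σ hσ => (hact σ).1 ((IntermediateField.mem_fixingSubgroup_iff _ _).1 hσ _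
      (le_iSup (fun K : S => K.1) ⟨K, hKS⟩ (IntermediateField.mem_adjoin_simple_self ℚ _)))
  refine hKS ⟨h2, fun {_} => ?_⟩
  obtain ⟨σ, hσ⟩ : ∃ σ : GQ, σ (w k) ≠ w k := by
    by_contra h
    push Not at h
    exact hw ((InfiniteGalois.mem_range_algebraMap_iff_fixed _).mpr h)
  have hσw : σ (w k) = -w k := (sq_eq_sq_iff_eq_or_eq_neg.mp (by
    rw [← map_pow, hw2, map_intCast])).resolve_left hσ
  haveI := FA.MordellWeil.mordell E
  haveI : Module.Finite ℤ E.toAffine.Point := Module.Finite.iff_addGroup_fg.mpr inferInstance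
  obtain ⟨G, hG⟩ := exists_linearIndependent_of_le_finrank
    (le_refl (Module.finrank ℤ E.toAffine.Point))
  set ι := (Affine.Point.map (W' := E.toAffine) (S := ℚ) (Algebra.ofId ℚ Qb))
  have hfixG : ∀ (τ : GQ) i, τ • ι (G i) = ι (G i) := fun τ i =>
    FA.MordellWeil.smul_incl E τ (G i)
  let f : Option (Fin (Module.finrank ℤ E.toAffine.Point)) → (E⁄Qb).Point :=
    fun o => o.elim (P k) fun i => ι (G i)
  have hind : LinearIndependent ℤ f := by
    rw [Fintype.linearIndependent_iff]
    intro c hc
    rw [Fintype.sum_option] at hc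
    have h1 := congrArg (Affine.Point.map (W' := E.toAffine) σ.toAlgHom) hc
    simp only [map_add, map_sum, map_zsmul, map_zero] at h1
    have e1 : Affine.Point.map (W' := E.toAffine) σ.toAlgHom (f none) = -f none :=
      (hact σ).2 hσw
    have e2 : ∀ i, Affine.Point.map (W' := E.toAffine) σ.toAlgHom (f (some i)) = f (some i) :=
      fun i => hfixG σ i
    simp only [e1, e2, zsmul_neg] at h1
    have h0 : c none = 0 := by
      by_contra h0
      refine htors (isOfFinAddOrder_iff_zsmul_eq_zero.mpr ⟨c none + c none, by omega, ?_⟩)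
      show (c none + c none) • f none = 0
      calc (c none + c none) • f none = (c none • f none + ∑ i, c (some i) • f (some i)) -
            (-(c none • f none) + ∑ i, c (some i) • f (some i)) := by rw [add_zsmul]; abel
        _ = 0 := by rw [hc, h1, sub_zero]
    rw [h0, zero_smul, zero_add] at hc
    rintro (_ | i)
    · exact h0
    exact Fintype.linearIndependent_iff.mp (hG.map' ι.toIntLinearMap (LinearMap.ker_eq_bot.mpr
      (Affine.Point.map_injective (W' := E.toAffine) (Algebra.ofId ℚ Qb)))) _ hc i
  have h := card_le_finrank E K hind (by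
    rintro (_ | i)
    · exact hPK
    · exact fun τ _ => hfixG τ i)
  rw [Fintype.card_option, Fintype.card_fin] at h
  exact h

end FA.Summary

end
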