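import Fermat.Agent.Kneser.Freiman
import Fermat.Agent.Kneser.Vosper

/-!
# Freiman's `3k - 4` theorem and Vosper's theorem

Freiman (1959): a set of `k` integers with `|A + A| ≤ 3k - 4` lies in an arithmetic progression
with `|A + A| - k + 1` terms. Vosper (1956): in `ℤ / p` a pair attaining the Cauchy-Davenport
bound consists of two progressions with the same difference, apart from the trivial cases.
-/

set_option autoImplicit false

noncomputable section

namespace FA.Kneser.FreimanSummary

open scoped Pointwise

/-- **Freiman's `3k - 4` theorem.** -/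
theorem freiman {A : Finset ℤ} (h : (A + A).card + 4 ≤ 3 * A.card) :
    ∃ a d : ℤ, A ⊆
      (Finset.range ((A + A).card + 1 - A.card)).image fun i : ℕ => a + (i : ℤ) * d :=
  FA.Kneser.freiman_three_k h

/-- **Vosper's theorem.** -/
theorem vosper {p : ℕ} (hp : p.Prime) {A B : Finset (ZMod p)} (hA : 2 ≤ A.card)
    (hB : 2 ≤ B.card) (h : (A + B).card + 1 ≤ A.card + B.card) (h2 : (A + B).card + 2 ≤ p) :
    ∃ d a b : ZMod p, d ≠ 0 ∧ A = (Finset.range A.card).image (fun i => a + i • d) ∧
      B = (Finset.range B.card).image (fun i => b + i • d) :=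
  haveI : Fact p.Prime := ⟨hp⟩
  FA.Kneser.vosper_prog hA hB h h2

end FA.Kneser.FreimanSummary
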