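import Fermat.Agent.SchurBGroup.Fried
import Fermat.Agent.SchurBGroup.Descent
import Fermat.Agent.SchurBGroup.Permutation
import Mathlib.FieldTheory.IsAlgClosed.AlgebraicClosure

/-!
# Schur's theorem on cyclic B-groups and Fried's theorem

* `schur_cyclic_bGroup`: a primitive permutation group of composite degree `n` containing an
  `n`-cycle is doubly transitive;
* `fried_irreducible`: if `f` over a field of characteristic `0` is indecomposable of composite
  degree then `(f(X) - f(Y)) / (X - Y)` is irreducible over every extension field;
* `fried_iff`: in composite degree `f` is indecomposable iff that quotient is absolutely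
  irreducible;
* `indecomposable_baseChange`: indecomposable polynomials stay indecomposable over extensions.

The classification of the prime degree case (cyclic and Chebyshev polynomials) and exceptional
polynomials are not claimed.
-/

set_option autoImplicit false
set_option linter.style.haveILetI false

noncomputable section

namespace FA.SchurBGroup.Summary

open Polynomial MulAction

/-- **Schur's theorem** (1933). -/
theorem schur_cyclic_bGroup {α : Type*} [Fintype α] [DecidableEq α]
    (G : Subgroup (Equiv.Perm α)) [IsPreprimitive G α] {g : Equiv.Perm α} (hg : g ∈ G)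
    (hc : g.IsCycle) (hs : g.support = Finset.univ) (hn : ¬ (Fintype.card α).Prime) :
    IsMultiplyPretransitive G α 2 :=
  isMultiplyPretransitive_two G hg hc hs hn

variable {K : Type*} [Field K] [CharZero K] {f : K[X]}

/-- **Indecomposability survives every extension of the field.** -/
theorem indecomposable_baseChange (h2 : 2 ≤ f.natDegree)
    (hf : ∀ g h : K[X], f = g.comp h → g.natDegree = 1 ∨ h.natDegree = 1)
    (M : Type*) [Field M] [Algebra K M] :
    ∀ g h : M[X], f.map (algebraMap K M) = g.comp h → g.natDegree = 1 ∨ h.natDegree = 1 :=
  (indecomposable_map ⟨h2, hf⟩).2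

/-- **Fried's theorem** (1970). -/
theorem fried_irreducible (h2 : 2 ≤ f.natDegree) (hnp : ¬ f.natDegree.Prime)
    (hf : ∀ g h : K[X], f = g.comp h → g.natDegree = 1 ∨ h.natDegree = 1) {Q : K[X][X]}
    (hQ : (X - C X) * Q = f.map C - C f) (M : Type*) [Field M] [Algebra K M] :
    Irreducible (Q.map (mapRingHom (algebraMap K M))) := by
  haveI := charZero_of_injective_algebraMap (algebraMap K M).injective
  have hcomp : (mapRingHom (algebraMap K M)).comp C = C.comp (algebraMap K M) :=
    RingHom.ext fun a => by simp
  have h := congrArg (Polynomial.map (mapRingHom (algebraMap K M))) hQ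
  rw [Polynomial.map_mul, Polynomial.map_sub, Polynomial.map_sub, map_X, map_C, map_C, map_map,
    hcomp, ← map_map, coe_mapRingHom, map_X] at h
  exact irreducible_of_indecomposable (indecomposable_map ⟨h2, hf⟩)
    (by rwa [natDegree_map]) h

/-- **The criterion**: indecomposable iff absolutely irreducible. -/
theorem fried_iff (h2 : 2 ≤ f.natDegree) (hnp : ¬ f.natDegree.Prime) :
    (∀ g h : K[X], f = g.comp h → g.natDegree = 1 ∨ h.natDegree = 1) ↔
      ∃ Q : K[X][X], (X - C X) * Q = f.map C - C f ∧
        Irreducible (Q.map (mapRingHom (algebraMap K (AlgebraicClosure K)))) := by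
  constructor
  · intro hf
    obtain ⟨Q, hQ⟩ : (X - C X : K[X][X]) ∣ f.map C - C f := by
      rw [dvd_iff_isRoot, IsRoot, eval_sub, eval_C, eval_map, eval₂_C_X, sub_self]
    exact ⟨Q, hQ.symm, fried_irreducible h2 hnp hf hQ.symm _⟩
  · rintro ⟨Q, hQ, hirr⟩ g h e
    set ψ := algebraMap K (AlgebraicClosure K)
    haveI := charZero_of_injective_algebraMap ψ.injective
    have hcomp : (mapRingHom ψ).comp C = C.comp ψ := RingHom.ext fun a => by simp
    have hQ' := congrArg (Polynomial.map (mapRingHom ψ)) hQ
    rw [Polynomial.map_mul, Polynomial.map_sub, Polynomial.map_sub, map_X, map_C, map_C, map_map,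
      hcomp, ← map_map, coe_mapRingHom, map_X] at hQ'
    have := (indecomposable_of_irreducible (f := f.map ψ) (by rwa [natDegree_map]) hQ' hirr).2
      (g.map ψ) (h.map ψ) (by rw [e, map_comp])
    rwa [natDegree_map, natDegree_map] at this

end FA.SchurBGroup.Summary

end
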