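import Fermat.Agent.FriedKollar.Group
import Fermat.Agent.FriedKollar.Field
import Fermat.Agent.Root.SummaryNeukirchUchida

/-!
# The theorem of Fried and Kollár

* `friedKollar`: every finite group is the automorphism group of a number field;
* `friedKollar_degree`: of number fields of arbitrarily large degree;
* `friedKollar_outer`: every finite group is the group of outer continuous automorphisms of the
  absolute Galois group of a number field.

Classical (Fried, Kollár 1978); by abelian embedding problems over symmetric groups and the theorem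
of Neukirch and Uchida.
-/

set_option autoImplicit false

noncomputable section

local notation "Qb" => AlgebraicClosure ℚ

namespace FA.Summary

open Fermat.Agent Fermat.Agent.Neukirch

/-- **Fried–Kollár, with large degree**: every finite group is the automorphism group of number
fields of arbitrarily large degree. -/
theorem friedKollar_degree (G : Type*) [Group G] [Finite G] (D : ℕ) :
    ∃ F : IntermediateField ℚ Qb, FiniteDimensional ℚ F ∧ D ≤ Module.finrank ℚ F ∧
      Nonempty ((F ≃ₐ[ℚ] F) ≃* G) := by
  obtain ⟨Γ, _, H, ⟨ρ, hρ, hopen⟩, hD, π, hπ, hker⟩ :=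
    FriedKollar.exists_realised_normalizer G D
  obtain ⟨F, hF, hdeg, e⟩ := FriedKollar.exists_field_of_normalizer ρ hρ hopen H π hπ hker
  exact ⟨F, hF, hdeg.symm ▸ hD, e⟩

/-- **Fried–Kollár**: every finite group is the automorphism group of a number field. -/
theorem friedKollar (G : Type*) [Group G] [Finite G] :
    ∃ (K : Type) (_ : Field K) (_ : NumberField K), Nonempty (RingAut K ≃* G) := by
  obtain ⟨F, hF, -, ⟨e⟩⟩ := friedKollar_degree G 0
  let toRing : RingAut F ≃* (F ≃ₐ[ℚ] F) :=
    { toFun := fun f => AlgEquiv.ofRingEquiv (f := f) fun q =>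
        RingHom.congr_fun (Subsingleton.elim ((f : F →+* F).comp (algebraMap ℚ F))
          (algebraMap ℚ F)) q
      invFun := fun f => f.toRingEquiv
      left_inv := fun _ => RingEquiv.ext fun _ => rfl
      right_inv := fun _ => AlgEquiv.ext fun _ => rfl
      map_mul' := fun _ _ => AlgEquiv.ext fun _ => rfl }
  exact ⟨F, inferInstance, NumberField.of_module_finite ℚ F, ⟨toRing.trans e⟩⟩

/-- **Every finite group is an outer automorphism group of the absolute Galois group of a number
field.** -/
theorem friedKollar_outer (G : Type*) [Group G] [Finite G] :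
    ∃ (F : IntermediateField ℚ Qb) (_ : FiniteDimensional ℚ F) (Θ : contAut F →* G),
      Function.Surjective Θ ∧ ∀ e, e ∈ Θ.ker ↔
        ∃ h : F.fixingSubgroup, (e : MulAut F.fixingSubgroup) = MulAut.conj h := by
  obtain ⟨F, hF, -, ⟨ε⟩⟩ := friedKollar_degree G 0
  obtain ⟨Θ, hΘ, hker⟩ := neukirchUchida_out F
  refine ⟨F, hF, ε.toMonoidHom.comp Θ, ε.surjective.comp hΘ, fun e => ?_⟩
  rw [← hker, MonoidHom.mem_ker, MonoidHom.mem_ker, MonoidHom.comp_apply,
    MulEquiv.coe_toMonoidHom, map_eq_one_iff _ ε.injective]

end FA.Summary
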