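import Fermat.Agent.FriedbergMuchnik.Theorem

/-!
# The theorem of Friedberg and Muchnik and Post's problem

There are recursively enumerable sets which are incomparable for Turing reducibility. Hence there
is one whose degree is strictly between the computable degree and that of the halting set (Post's
problem). Reducibility is Mathlib's, between characteristic functions.
-/

set_option autoImplicit false

namespace FA.FriedbergMuchnik

open scoped Computability

/-- The programs with a value at zero, by number. -/
def haltingSet : Set ℕ :=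
  {n | (Nat.Partrec.Code.eval (Denumerable.ofNat Nat.Partrec.Code n) 0).Dom}

/-- **Friedberg and Muchnik.** There are recursively enumerable sets neither of which is Turing
reducible to the other. -/
theorem friedberg_muchnik : ∃ A B : Set ℕ,
    REPred (fun x => x ∈ A) ∧ REPred (fun x => x ∈ B) ∧
      ¬(chi A : ℕ →. ℕ) ≤ᵀ (chi B : ℕ →. ℕ) ∧ ¬(chi B : ℕ →. ℕ) ≤ᵀ (chi A : ℕ →. ℕ) :=
  ⟨setMine 0, setMine 1, rePred_setMine 0, rePred_setMine 1, not_reducible 0 Nat.two_pos,
    not_reducible 1 Nat.one_lt_two⟩

/-- The halting set is recursively enumerable and every such set reduces to it. -/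
theorem haltingSet_complete :
    REPred (fun n => n ∈ haltingSet) ∧ ∀ A : Set ℕ, REPred (fun x => x ∈ A) →
      (chi A : ℕ →. ℕ) ≤ᵀ (chi haltingSet : ℕ →. ℕ) := by
  refine ⟨(Nat.Partrec.Code.eval_part.comp (Computable.ofNat _) (Computable.const 0)).dom_re,
    fun A hA => ?_⟩
  obtain ⟨c, hc⟩ := Nat.Partrec.Code.exists_code.1 (Partrec.nat_iff.1 (hA.map
    ((Computable.const 0).to₂ : Computable₂ fun (_ : ℕ) (_ : Unit) => 0)))
  let d : ℕ → ℕ := fun x => Encodable.encode (c.comp (Nat.Partrec.Code.const x))
  have hd : Primrec d := Primrec.encode.comp (Nat.Partrec.Code.primrec₂_comp.comp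
    (Primrec.const c) Nat.Partrec.Code.primrec_const)
  have key : ∀ x, chi haltingSet (d x) = chi A x := by
    intro x
    classical
    refine if_congr ?_ rfl rfl
    simp [haltingSet, d, Nat.Partrec.Code.eval, Nat.Partrec.Code.eval_const, hc]
    exact ⟨fun ⟨h, _⟩ => h, fun h => ⟨h, trivial⟩⟩
  refine RecursiveIn.iff_nat.2 ?_
  refine ((Nat.RecursiveIn.oracle _ (Set.mem_singleton _)).comp
    (Primrec.nat_iff.1 hd).recursiveIn).of_eq fun x => ?_
  exact (Part.bind_some (d x) _).trans (congrArg Part.some (key x))

/-- **Post's problem.** A recursively enumerable set is neither computable nor Turing complete. -/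
theorem post_problem : ∃ A : Set ℕ,
    REPred (fun x => x ∈ A) ∧ ¬ComputablePred (fun x => x ∈ A) ∧
      (chi A : ℕ →. ℕ) ≤ᵀ (chi haltingSet : ℕ →. ℕ) ∧
      ¬(chi haltingSet : ℕ →. ℕ) ≤ᵀ (chi A : ℕ →. ℕ) := by
  obtain ⟨A, B, hA, hB, hAB, hBA⟩ := friedberg_muchnik
  refine ⟨A, hA, fun hc => hAB ?_, haltingSet_complete.2 A hA,
    fun h => hBA ((haltingSet_complete.2 B hB).trans h)⟩
  obtain ⟨f, hf, e⟩ := ComputablePred.computable_iff.1 hc
  have h : Computable (chi A) :=
    (Computable.cond hf (Computable.const 1) (Computable.const 0)).of_eq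
    fun x => by
      have hx : x ∈ A ↔ f x = true := iff_of_eq (congrFun e x)
      cases h : f x <;> simp [chi, hx, h]
  exact h.partrec.turingReducible

end FA.FriedbergMuchnik
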