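import Fermat.Agent.MarkovShift.Main

/-!
# The theorem of Friedman and Ornstein: mixing Markov shifts are Bernoulli

`shift A` sends `x` to `i ↦ x (i + 1)` and `rate μ T P` is the entropy rate of the labelling `P`
under `T`. `P` is a row-stochastic matrix on a finite alphabet and `p` a stationary law, both as
`MarkovShift.IsChain P p`; `MarkovShift.IsMarkov P p μ` says that `μ` is an invariant probability
measure in which a path `w` has probability `p (w 0) * ∏ P (w j) (w (j + 1))`. The chain is mixing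
if some power of `P` has positive entries. Logarithms are natural.

* `markov_shift_exists`: the Markov measure exists and is unique;
* `markov_entropy`: its entropy is `∑ a, p a * ∑ b, negMulLog (P a b)`;
* `markov_shift_ergodic`: a mixing Markov shift is ergodic;
* `markov_finitely_determined` (Friedman–Ornstein): it is finitely determined, that is, a stationary
  process close to it in the law of blocks of some length and in entropy rate has an invariant
  joining with it in which the letters at `0` seldom differ;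
* `ornstein_finitely_determined` (Ornstein): ergodic finitely determined processes of the same
  positive entropy rate are isomorphic;
* `friedman_ornstein`: a mixing Markov shift is isomorphic to every Bernoulli shift of its entropy;
* `friedman_ornstein_exists`: such a Bernoulli shift exists on the same alphabet;
* `markov_iso_iff`: mixing Markov shifts are isomorphic if and only if their entropies are equal.
-/

set_option autoImplicit false

noncomputable section

open MeasureTheory Filter Topology Real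
open FA.KolmogorovSinai (shift rate ksEntropy)

namespace FA.Summary

variable {A : Type*} [Fintype A] [DecidableEq A] [MeasurableSpace A] [MeasurableSingletonClass A]
  {B : Type*} [Fintype B] [MeasurableSpace B] [MeasurableSingletonClass B]
  {P : Matrix A A ℝ} {p : A → ℝ} {μ : Measure (ℤ → A)}

omit [DecidableEq A] in
/-- **The Markov measure exists and is unique.** -/
theorem markov_shift_exists (hnn : ∀ a b, 0 ≤ P a b) (hrow : ∀ a, ∑ b, P a b = 1)
    (hp : ∀ a, 0 ≤ p a) (hsum : ∑ a, p a = 1) (hst : ∀ b, ∑ a, p a * P a b = p b) :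
    ∃! μ : Measure (ℤ → A), IsProbabilityMeasure μ ∧ MeasurePreserving (shift A) μ μ ∧
      ∀ (n : ℕ) (w : Fin (n + 1) → A), μ.real {x | ∀ j : Fin (n + 1), x (j : ℤ) = w j} =
        p (w 0) * ∏ j : Fin n, P (w j.castSucc) (w j.succ) := by
  obtain ⟨μ, hμ⟩ := MarkovShift.exists_isMarkov ⟨hnn, hrow, hp, hsum, hst⟩
  have e : ∀ (n : ℕ) (w : Fin (n + 1) → A),
      {x : ℤ → A | ∀ j : Fin (n + 1), x (j : ℤ) = w j} = Ornstein.blk (n + 1) ⁻¹' {w} :=
    fun n w => by
      ext x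
      simp [Ornstein.blk, funext_iff]
  refine ⟨μ, ⟨hμ.isProb, hμ.mp, fun n w => by rw [e, hμ.blk_eq]; rfl⟩, fun ν ⟨hν, hν', hw⟩ => ?_⟩
  have := hμ.isProb
  refine Ornstein.ext_of_blk hν' hμ.mp fun n w => ?_
  cases n with
  | zero =>
    simp [Set.eq_univ_of_forall (s := Ornstein.blk 0 ⁻¹' {w})
      fun x => show Ornstein.blk 0 x ∈ ({w} : Set (Fin 0 → A)) from Subsingleton.elim _ _]
  | succ n => rw [← e, hw, e, hμ.blk_eq]; rfl

omit [DecidableEq A] in
/-- **The entropy of a Markov shift.** -/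
theorem markov_entropy (hc : MarkovShift.IsChain P p) (hM : MarkovShift.IsMarkov P p μ) :
    rate μ (shift A) (fun x => x 0) = ∑ a, p a * ∑ b, negMulLog (P a b) ∧
      ksEntropy μ (shift A) = ENNReal.ofReal (∑ a, p a * ∑ b, negMulLog (P a b)) := by
  have := hM.isProb
  exact ⟨hM.rate_eq hc, by rw [MarkovShift.ksEntropy_shift μ hM.mp, hM.rate_eq hc]⟩

/-- **A mixing Markov shift is ergodic.** -/
theorem markov_shift_ergodic (hc : MarkovShift.IsChain P p) (hM : MarkovShift.IsMarkov P p μ)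
    (hN : ∃ N : ℕ, ∀ a b, 0 < (P ^ N) a b) : Ergodic (shift A) μ :=
  hN.elim fun _ h => hM.ergodic hc h

/-- **A mixing Markov shift is finitely determined.** -/
theorem markov_finitely_determined (hc : MarkovShift.IsChain P p)
    (hM : MarkovShift.IsMarkov P p μ) (hN : ∃ N : ℕ, ∀ a b, 0 < (P ^ N) a b) {ε : ℝ}
    (hε : 0 < ε) :
    ∃ (k : ℕ) (η : ℝ), 0 < η ∧ ∀ ρ : Measure (ℤ → A), IsProbabilityMeasure ρ →
      MeasurePreserving (shift A) ρ ρ →
      (∀ u : Fin k → A, |ρ.real {x | (fun j : Fin k => x (j : ℤ)) = u} -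
        μ.real {x | (fun j : Fin k => x (j : ℤ)) = u}| ≤ η) →
      rate μ (shift A) (fun x => x 0) - η ≤ rate ρ (shift A) (fun x => x 0) →
      ∃ L : Measure (ℤ → A × A), MeasurePreserving (shift (A × A)) L L ∧
        L.map (fun z i => (z i).1) = ρ ∧ L.map (fun z i => (z i).2) = μ ∧
        L.real {z | (z 0).1 ≠ (z 0).2} ≤ ε := by
  obtain ⟨N, hN⟩ := hN
  obtain ⟨k, η, hη, h⟩ := hM.finiteDet hc hN ε hε
  refine ⟨k, η, hη, fun ρ hρ hinv hblk hr => ?_⟩
  obtain ⟨L, hL, hD⟩ := h ρ hρ hinv hblk hr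
  exact ⟨L, hL.mp, hL.fst, hL.snd, hD⟩

omit [DecidableEq A] in
/-- **Finitely determined processes of equal positive entropy are isomorphic.** -/
theorem ornstein_finitely_determined [IsProbabilityMeasure μ] (hμ : Ergodic (shift A) μ)
    (hμd : Ornstein.FiniteDet μ) {ν : Measure (ℤ → B)} [IsProbabilityMeasure ν]
    (hν : Ergodic (shift B) ν) (hνd : Ornstein.FiniteDet ν)
    (hpos : 0 < rate μ (shift A) fun x => x 0)
    (h : rate μ (shift A) (fun x => x 0) = rate ν (shift B) fun y => y 0) :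
    ∃ (Φ : (ℤ → A) → ℤ → B) (Ψ : (ℤ → B) → ℤ → A),
      MeasurePreserving Φ μ ν ∧ MeasurePreserving Ψ ν μ ∧
      Φ ∘ shift A = shift B ∘ Φ ∧ Ψ ∘ shift B = shift A ∘ Ψ ∧
      Ψ ∘ Φ =ᵐ[μ] id ∧ Φ ∘ Ψ =ᵐ[ν] id := by
  obtain ⟨φ, ψ, hφ, hψ, h1, h2, h3, h4⟩ :=
    Ornstein.exists_iso_finiteDet hμ hμd hν hνd hpos h
  exact ⟨Ornstein.code φ, Ornstein.code ψ, ⟨Ornstein.measurable_code hφ, h1⟩,
    ⟨Ornstein.measurable_code hψ, h2⟩, funext fun x => Ornstein.code_tr φ 1 x,
    funext fun y => Ornstein.code_tr ψ 1 y, h3, h4⟩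

/-- **The theorem of Friedman and Ornstein.** -/
theorem friedman_ornstein (hc : MarkovShift.IsChain P p) (hM : MarkovShift.IsMarkov P p μ)
    (hN : ∃ N : ℕ, ∀ a b, 0 < (P ^ N) a b) (q : Measure B) [IsProbabilityMeasure q]
    (h : ∑ b, negMulLog (q.real {b}) = ∑ a, p a * ∑ b, negMulLog (P a b)) :
    ∃ (Φ : (ℤ → A) → ℤ → B) (Ψ : (ℤ → B) → ℤ → A),
      MeasurePreserving Φ μ (Measure.infinitePi fun _ : ℤ => q) ∧
      MeasurePreserving Ψ (Measure.infinitePi fun _ : ℤ => q) μ ∧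
      Φ ∘ shift A = shift B ∘ Φ ∧ Ψ ∘ shift B = shift A ∘ Ψ ∧
      Ψ ∘ Φ =ᵐ[μ] id ∧ Φ ∘ Ψ =ᵐ[Measure.infinitePi fun _ : ℤ => q] id := by
  obtain ⟨N, hN⟩ := hN
  obtain ⟨φ, ψ, hφ, hψ, h1, h2, h3, h4⟩ := hM.exists_iso_bern hc hN q h
  exact ⟨Ornstein.code φ, Ornstein.code ψ, ⟨Ornstein.measurable_code hφ, h1⟩,
    ⟨Ornstein.measurable_code hψ, h2⟩, funext fun x => Ornstein.code_tr φ 1 x,
    funext fun y => Ornstein.code_tr ψ 1 y, h3, h4⟩

/-- **A mixing Markov shift is isomorphic to a Bernoulli shift on the same alphabet.** -/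
theorem friedman_ornstein_exists (hc : MarkovShift.IsChain P p) (hM : MarkovShift.IsMarkov P p μ)
    (hN : ∃ N : ℕ, ∀ a b, 0 < (P ^ N) a b) :
    ∃ q : Measure A, IsProbabilityMeasure q ∧ ∃ (Φ Ψ : (ℤ → A) → ℤ → A),
      MeasurePreserving Φ μ (Measure.infinitePi fun _ : ℤ => q) ∧
      MeasurePreserving Ψ (Measure.infinitePi fun _ : ℤ => q) μ ∧
      Φ ∘ shift A = shift A ∘ Φ ∧ Ψ ∘ shift A = shift A ∘ Ψ ∧
      Ψ ∘ Φ =ᵐ[μ] id ∧ Φ ∘ Ψ =ᵐ[Measure.infinitePi fun _ : ℤ => q] id := by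
  have := hM.isProb
  have := hc.nonempty
  obtain ⟨q, hq, he⟩ := MarkovShift.exists_law
    (e := rate μ (shift A) fun x => x 0)
    (KolmogorovSinai.rate_nonneg hM.mp (measurable_pi_apply 0))
    (MarkovShift.rate_le_log_card μ hM.mp)
  exact ⟨q, hq, friedman_ornstein hc hM hN q (he.trans (hM.rate_eq hc))⟩

variable {C : Type*} [Fintype C] [DecidableEq C] [MeasurableSpace C] [MeasurableSingletonClass C]
  {Q : Matrix C C ℝ} {r : C → ℝ} {ν : Measure (ℤ → C)}

/-- **Mixing Markov shifts are isomorphic if and only if their entropies are equal.** -/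
theorem markov_iso_iff (hc : MarkovShift.IsChain P p) (hM : MarkovShift.IsMarkov P p μ)
    (hN : ∃ N : ℕ, ∀ a b, 0 < (P ^ N) a b) (hc' : MarkovShift.IsChain Q r)
    (hM' : MarkovShift.IsMarkov Q r ν) (hN' : ∃ N : ℕ, ∀ a b, 0 < (Q ^ N) a b) :
    (∃ (Φ : (ℤ → A) → ℤ → C) (Ψ : (ℤ → C) → ℤ → A),
      MeasurePreserving Φ μ ν ∧ MeasurePreserving Ψ ν μ ∧
      Φ ∘ shift A =ᵐ[μ] shift C ∘ Φ ∧ Ψ ∘ shift C =ᵐ[ν] shift A ∘ Ψ ∧
      Ψ ∘ Φ =ᵐ[μ] id ∧ Φ ∘ Ψ =ᵐ[ν] id) ↔
    ∑ a, p a * ∑ b, negMulLog (P a b) = ∑ a, r a * ∑ b, negMulLog (Q a b) := by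
  have := hM.isProb
  have := hM'.isProb
  obtain ⟨N, hN⟩ := hN
  obtain ⟨N', hN'⟩ := hN'
  rw [← hM.rate_eq hc, ← hM'.rate_eq hc']
  refine ⟨fun ⟨Φ, Ψ, hΦ, hΨ, hcomm, hcomm', _, _⟩ => ?_, fun h => ?_⟩
  · have h1 := KolmogorovSinai.ksEntropy_factor_le hM.mp hΦ hM'.mp hcomm
    have h2 := KolmogorovSinai.ksEntropy_factor_le hM'.mp hΨ hM.mp hcomm'
    rw [MarkovShift.ksEntropy_shift _ hM.mp, MarkovShift.ksEntropy_shift _ hM'.mp] at h1 h2
    exact (ENNReal.ofReal_eq_ofReal_iff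
      (KolmogorovSinai.rate_nonneg hM.mp (measurable_pi_apply 0))
      (KolmogorovSinai.rate_nonneg hM'.mp (measurable_pi_apply 0))).1 (le_antisymm h2 h1)
  · obtain ⟨φ, ψ, hφ, hψ, h1, h2, h3, h4⟩ := hM.exists_iso hc hN (hM'.ergodic hc' hN')
      (hM'.finiteDet hc' hN') (hM'.eq_dirac hc' hN') h
    exact ⟨Ornstein.code φ, Ornstein.code ψ, ⟨Ornstein.measurable_code hφ, h1⟩,
      ⟨Ornstein.measurable_code hψ, h2⟩,
      EventuallyEq.of_eq (funext fun x => Ornstein.code_tr φ 1 x),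
      EventuallyEq.of_eq (funext fun y => Ornstein.code_tr ψ 1 y), h3, h4⟩

end FA.Summary

end
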