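import Fermat.Agent.Frieze.Glide

/-!
# Summary: the theorem of Conway and Coxeter on integral friezes

An integral frieze of width `n` is an array `F i j` that vanishes outside `i < j < i + n + 3`, has
`1` on both boundary lines, is positive inside and has all diamonds `ad - bc = 1`.  Its first
diagonal determines it (`frieze_of_diagonal`); the sequences of `n` positive integers in which each
divides the sum of its neighbours, between `1` and `0`, are those of binary trees with `n` nodes,
`catalan n` in number (`diagonal_count`, `diagonal_trees`).  So there are `catalan (n + 1)` friezes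
(`conway_coxeter_count`); each has a glide symmetry (`frieze_glide`), period `n + 3`
(`frieze_periodic`) and a `1` in its quiddity row (`frieze_has_one`).

Not claimed: triangulated polygons as geometric objects, other friezes.
-/

set_option autoImplicit false

namespace FA.Frieze.Summary

/-- **The diagonal sequences.** -/
theorem diagonal_count (n : ℕ) :
    {w : List ℕ | w.length = n ∧ ∀ k < w.length, 0 < (1 :: (w ++ [0])).getD (k + 1) 0 ∧
      (1 :: (w ++ [0])).getD (k + 1) 0 ∣
        (1 :: (w ++ [0])).getD k 0 + (1 :: (w ++ [0])).getD (k + 2) 0}.ncard = catalan n := by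
  simpa only [diagonals, ← divChain_iff_getD] using card_diagonals n

/-- **They are those of binary trees**, one for each tree. -/
theorem diagonal_trees (n : ℕ) :
    Set.BijOn (fun t => insertSums t 1 0) (BinaryTree.treesOfNumNodesEq n : Set (BinaryTree Unit))
      (diagonals n) := by
  refine ⟨fun t ht => ?_, fun t _ t' _ h => insertSums_injective one_pos h,
    fun w hw => by rwa [diagonals_eq] at hw⟩
  rw [diagonals_eq]
  exact ⟨t, ht, rfl⟩

/-- **A frieze is determined by its first diagonal**, and every such sequence occurs. -/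
theorem frieze_of_diagonal (n : ℕ) :
    ∃ e : {F : ℤ → ℤ → ℤ // IsFrieze n F} ≃ diagonals (n + 1),
      ∀ F, (e F : List ℕ) = List.ofFn fun k : Fin (n + 1) => (F.1 0 (k + 2)).toNat := by
  refine ⟨(friezeEquiv n).trans (rowEquiv n), fun F => ?_⟩
  refine List.ext_getElem (by simp [rowEquiv, toList]) fun k h₁ h₂ => ?_
  simp only [Equiv.trans_apply, rowEquiv, Equiv.coe_fn_mk, getElem_toList, List.getElem_ofFn,
    friezeEquiv, rowOf, zero_add]
  push_cast
  rfl

/-- **There are `catalan (n + 1)` integral friezes of width `n`.** -/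
theorem conway_coxeter_count (n : ℕ) :
    Nat.card {F : ℤ → ℤ → ℤ //
      (∀ i j : ℤ, j ≤ i ∨ i + n + 3 ≤ j → F i j = 0) ∧
      (∀ i : ℤ, F i (i + 1) = 1) ∧ (∀ i : ℤ, F i (i + n + 2) = 1) ∧
      (∀ i j : ℤ, i < j → j < i + n + 3 → 0 < F i j) ∧
      ∀ i j : ℤ, i < j → j < i + n + 3 →
        F i j * F (i + 1) (j + 1) - F (i + 1) j * F i (j + 1) = 1} = catalan (n + 1) := by
  rw [← card_friezes n]
  exact Nat.card_congr (Equiv.subtypeEquivRight fun F =>
    ⟨fun ⟨a, b, c, d, e⟩ => ⟨a, b, c, d, e⟩, fun h => ⟨h.out, h.bottom, h.top, h.pos, h.diamond⟩⟩)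

variable {n : ℕ} {F : ℤ → ℤ → ℤ}

/-- **Glide symmetry.** -/
theorem frieze_glide (hF : IsFrieze n F) {i j : ℤ} (h₁ : i ≤ j) (h₂ : j ≤ i + n + 3) :
    F i j = F j (i + n + 3) :=
  entry_glide hF h₁ h₂

/-- **Periodicity.** -/
theorem frieze_periodic (hF : IsFrieze n F) (i j : ℤ) :
    F (i + (n + 3)) (j + (n + 3)) = F i j :=
  periodic hF i j

/-- **The quiddity row contains a `1`.** -/
theorem frieze_has_one (hF : IsFrieze n F) : ∃ i, F i (i + 2) = 1 :=
  exists_one hF

end FA.Frieze.Summary
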