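import Fermat.Agent.FrobeniusCounting.Solutions
import Fermat.Agent.FrobeniusCounting.Indicator

/-!
# Frobenius' counting theorems

* `frobenius_pow_eq_one`: for `n ∣ |G|` the solutions of `xⁿ = 1` are a multiple of `n`;
* `frobenius_schur`: the mean of `χ(x²)` for an irreducible character is `1` or `-1` if `χ` is
  real-valued, and `0` otherwise;
* `frobenius_schur_count`: the square roots of `g` number `∑ ν(χ) χ(g)`;
* `card_real_irreducible`: as many real-valued irreducible characters as real classes;
* `involutions_sq_le`: `#{x | x² = 1}² ≤ r |G|` for `r` real classes.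
-/

set_option autoImplicit false
set_option linter.style.haveILetI false

noncomputable section

open Finset FA.CharacterTheory FA.FrobeniusCounting
open scoped ComplexConjugate

namespace FA.Summary

variable (G : Type*) [Group G] [Fintype G]

/-- **Frobenius' theorem** on the solutions of `xⁿ = 1`. -/
theorem frobenius_pow_eq_one {n : ℕ} (hn : n ∣ Nat.card G) :
    n ∣ Nat.card {x : G // x ^ n = 1} :=
  dvd_card_pow_eq_one G hn

/-- **The Frobenius–Schur theorem.** -/
theorem frobenius_schur (V : Type*) [AddCommGroup V] [Module ℂ V] [FiniteDimensional ℂ V]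
    (ρ : Representation ℂ G V) [Representation.IsIrreducible ρ] :
    ((∀ x, conj (ρ.character x) = ρ.character x) ∧
      ((Nat.card G : ℂ)⁻¹ * ∑ x, ρ.character (x * x) = 1 ∨
        (Nat.card G : ℂ)⁻¹ * ∑ x, ρ.character (x * x) = -1)) ∨
      ((¬∀ x, conj (ρ.character x) = ρ.character x) ∧
        (Nat.card G : ℂ)⁻¹ * ∑ x, ρ.character (x * x) = 0) :=
  indicator_irr (character_mem_irr ρ)

open scoped Classical in
/-- **The number of square roots.** -/
theorem frobenius_schur_count (g : G) :
    (Nat.card {x : G // x ^ 2 = g} : ℂ) =
      ∑ χ ∈ irr G, ((Nat.card G : ℂ)⁻¹ * ∑ x, χ (x * x)) * χ g := by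
  rw [Nat.card_eq_fintype_card, Fintype.card_subtype]
  simp only [sq]
  exact card_sqrt g

open scoped Classical in
/-- **Real-valued characters and real classes.** -/
theorem card_real_irreducible :
    #((irr G).filter fun χ => ∀ x, conj (χ x) = χ x) =
      Nat.card {c : ConjClasses G // ∀ x, ConjClasses.mk x = c → IsConj x⁻¹ x} :=
  card_real_irr

open scoped Classical in
/-- **Involutions and real classes.** -/
theorem involutions_sq_le :
    Nat.card {x : G // x ^ 2 = 1} ^ 2 ≤
      Nat.card {c : ConjClasses G // ∀ x, ConjClasses.mk x = c → IsConj x⁻¹ x} * Nat.card G := by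
  rw [Nat.card_eq_fintype_card, Fintype.card_subtype]
  simp only [sq (M := G)]
  exact sq_card_involutions_le

end FA.Summary

end
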