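import Fermat.Agent.KatzNF.Katz

/-!
# Frobenius modulo every level and Katz's theorem over every number field

Let `W₀` be a Weierstrass equation with coefficients in the integers of a number field `K` and
nonzero discriminant (every elliptic curve over `K` has one), with no condition on its invariant,
and `a_v = N v + 1 - #W₀(k_v)`.

* `frobenius_matrix_numberField`: at every good `v` prime to `N` a Frobenius element acts on the
  points killed by `N` with trace `a_v` and determinant `N v` modulo `N`;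
* `trace_det_density_numberField`: the places with `(a_v, N v)` in a set of pairs modulo `N` have
  natural density the proportion of the image of Galois with trace and determinant in that set;
* `infinite_dvd_pointCount_numberField`: so for every `m` there are infinitely many `v` with
  `N v ≡ 1` modulo `m` and `m ∣ #W₀(k_v)`;
* `katz_prime_numberField`, `katz_prime_density_numberField` (Katz): a prime `p` divides `#W₀(k_v)`
  for almost all `v`, or for a set of natural density one, iff there is a point of order `p` over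
  `K` or a stable subgroup of order `p` with trivial action on the quotient.
-/

set_option autoImplicit false
set_option linter.unusedSectionVars false

noncomputable section

open WeierstrassCurve NumberField IsDedekindDomain Matrix Filter Topology FA.IsogenyNF FA.TraceNF
  FA.KatzNF FA.Hecke FA.NaturalChebotarev
open scoped WeierstrassCurve.Affine Classical

namespace FA.Summary

universe u v

variable {K : Type u} [Field K] [NumberField K] (W₀ : WeierstrassCurve (𝓞 K))
  [(W₀.map (algebraMap (𝓞 K) K)).IsElliptic]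

local notation "W" => W₀.map (algebraMap (𝓞 K) K)
local notation "Kc" => AlgebraicClosure K

/-- **A Frobenius element modulo every `N`**, for every curve. -/
theorem frobenius_matrix_numberField {N : ℕ} (hN : N ≠ 0) {P₁ P₂ : ((W).toAffine⁄Kc).Point}
    (hgen : TorGen (W) N P₁ P₂) {v : HeightOneSpectrum (𝓞 K)} (hΔ : W₀.Δ ∉ v.asIdeal)
    (hNv : (N : 𝓞 K) ∉ v.asIdeal) {L : IntermediateField K Kc} [NumberField L] [IsGalois K L]
    (hL : frobSet (Kb := Kc) (W) N ⊆ L) {Q : Ideal (𝓞 L)} (hQ : Q.IsMaximal)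
    (hQv : Q.under (𝓞 K) = v.asIdeal) {τ : L ≃ₐ[K] L} (hFrob : IsArithFrobAt (𝓞 K) τ Q)
    {σ : Kc ≃ₐ[K] Kc} (hτ : AlgEquiv.restrictNormalHom (F := K) L σ = τ) :
    (hgen.rep hN σ).trace = (frobTrace W₀ v : ZMod N) ∧
      (hgen.rep hN σ).det = (Ideal.absNorm v.asIdeal : ZMod N) :=
  FA.KatzNF.frob_matrix W₀ hN hgen hΔ hNv hL hQ hQv hFrob hτ

/-- **The density of the places with `(a_v, N v)` in `S` modulo `N`**, for every curve. -/
theorem trace_det_density_numberField {N : ℕ} (hN : N ≠ 0) {P Q : ((W).toAffine⁄Kc).Point}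
    (h : TorGen (W) N P Q) (S : Set (ZMod N × ZMod N)) :
    Tendsto (fun x : ℝ => (Nat.card {v : HeightOneSpectrum (𝓞 K) //
        (Ideal.absNorm v.asIdeal : ℝ) ≤ x ∧
          ((frobTrace W₀ v : ZMod N), (Ideal.absNorm v.asIdeal : ZMod N)) ∈ S} : ℝ) /
        Nat.card {v : HeightOneSpectrum (𝓞 K) // (Ideal.absNorm v.asIdeal : ℝ) ≤ x})
      atTop (𝓝 ((Nat.card {g : (h.rep hN).toHomUnits.range //
        (g.1.val.trace, g.1.val.det) ∈ S} : ℝ) / Nat.card (h.rep hN).toHomUnits.range)) :=
  tendsto_ratio_dec _ (hasMean_image W₀ hN h S)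

/-- **Every `m` divides infinitely many point counts**, at places of norm `1` modulo `m`. -/
theorem infinite_dvd_pointCount_numberField {m : ℕ} (hm : m ≠ 0) :
    {v : HeightOneSpectrum (𝓞 K) | (Ideal.absNorm v.asIdeal : ZMod m) = 1 ∧
      m ∣ Nat.card (W₀.map (Ideal.Quotient.mk v.asIdeal)).toAffine.Point}.Infinite := by
  have : NeZero m := ⟨hm⟩
  obtain ⟨P, Q, h⟩ := exists_torGen_level (E := W) (Kb := Kc) hm
  set S : Set (ZMod m × ZMod m) := {p | p.2 = 1 ∧ p.2 + 1 - p.1 = 0}
  intro hfin
  have hmean := hasMean_image W₀ hm h S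
  have h0 : HasMean (fun v : HeightOneSpectrum (𝓞 K) =>
      if ((frobTrace W₀ v : ZMod m), (Ideal.absNorm v.asIdeal : ZMod m)) ∈ S then (1 : ℝ) else 0)
      0 := by
    refine hasMean_congr _ hfin (B := 1) (fun v => by split_ifs <;> norm_num) (fun v hv _ => ?_)
      (b := fun _ => (0 : ℝ)) ?_
    · exact if_neg fun hS => hv ⟨hS.1, (dvd_natCard_iff W₀ v).2 hS.2⟩
    · simp [HasMean, wSum]
  have e := tendsto_nhds_unique hmean (show Tendsto _ atTop (𝓝 (0 : ℝ)) by
    unfold HasMean at h0
    convert h0)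
  rw [div_eq_zero_iff, or_iff_left (Nat.cast_ne_zero.2 Nat.card_pos.ne'), Nat.cast_eq_zero] at e
  have : Nonempty {g : (h.rep hm).toHomUnits.range // (g.1.val.trace, g.1.val.det) ∈ S} :=
    ⟨⟨1, by simp [S]; norm_num⟩⟩
  exact Nat.card_pos.ne' e

/-- **Katz's theorem at a prime over a number field.** -/
theorem katz_prime_numberField {p : ℕ} [Fact p.Prime] :
    {v : HeightOneSpectrum (𝓞 K) |
      ¬ p ∣ Nat.card (W₀.map (Ideal.Quotient.mk v.asIdeal)).toAffine.Point}.Finite ↔
    (∃ P : (W).toAffine.Point, addOrderOf P = p) ∨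
      ∃ G : AddSubgroup ((W).toAffine⁄Kc).Point, Nat.card G = p ∧ (∀ R ∈ G, p • R = 0) ∧
        ∀ σ : Kc ≃ₐ[K] Kc, ∀ R, p • R = 0 → σ • R - R ∈ G := by
  have hp : p ≠ 0 := (Fact.out : p.Prime).ne_zero
  obtain ⟨P, Q, h⟩ := exists_torGen_level (E := W) (Kb := Kc) hp
  rw [exists_point_of_fixed (W)]
  exact ⟨fun hfin => exists_fixed_or_line W₀ hp h
      (det_eq_zero_of_tendsto_one W₀ hp h (tendsto_one_of_finite W₀ hfin)),
    fun hG => finite_of_det_eq_zero W₀ hp h (det_eq_zero_of_fixed_or_line W₀ hp h hG)⟩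

/-- **Katz's theorem with natural density one** in place of almost all places. -/
theorem katz_prime_density_numberField {p : ℕ} [Fact p.Prime] :
    Tendsto (fun x : ℝ => (Nat.card {v : HeightOneSpectrum (𝓞 K) //
        (Ideal.absNorm v.asIdeal : ℝ) ≤ x ∧
          p ∣ Nat.card (W₀.map (Ideal.Quotient.mk v.asIdeal)).toAffine.Point} : ℝ) /
        Nat.card {v : HeightOneSpectrum (𝓞 K) // (Ideal.absNorm v.asIdeal : ℝ) ≤ x})
      atTop (𝓝 1) ↔
    {v : HeightOneSpectrum (𝓞 K) |
      ¬ p ∣ Nat.card (W₀.map (Ideal.Quotient.mk v.asIdeal)).toAffine.Point}.Finite := by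
  have hp : p ≠ 0 := (Fact.out : p.Prime).ne_zero
  obtain ⟨P, Q, h⟩ := exists_torGen_level (E := W) (Kb := Kc) hp
  exact ⟨fun h1 => finite_of_det_eq_zero W₀ hp h (det_eq_zero_of_tendsto_one W₀ hp h h1),
    tendsto_one_of_finite W₀⟩

end FA.Summary

end
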