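import Fermat.Agent.TracePairNF.Traces
import Fermat.Agent.Root.SummaryKatzNumberField

/-!
# The traces of two curves over a number field

Let `W₀`, `W₀'` be Weierstrass equations with coefficients in the integers of a number field `K`,
with nonzero discriminants and no condition on their invariants, and `a_v = N v + 1 - #W₀(k_v)`,
`a'_v` likewise.

* `joint_trace_density_numberField`: the places with `(a_v, a'_v, N v)` in a set of triples modulo
  `N` have natural density its proportion in the joint image of Galois on `E[N]` and `E'[N]`;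
* `trace_congruence_iff_numberField`: `a_v ≡ a'_v` modulo `N` for a set of natural density one iff
  every automorphism has the same trace on `E[N]` and `E'[N]`, iff at every good place prime to `N`;
* `traces_eq_of_density_one_numberField` (strong multiplicity one): equal `a_v` on a set of natural
  density one gives equal `a_v` and equal point counts at every common good place;
* `traces_eq_of_hom_numberField`, `katz_of_hom_numberField`: so does a Galois equivariant
  homomorphism of the geometric points with finite kernel; then a point of order `p` on `E` over `K`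
  gives `E'` such a point or a stable line with trivial action on the quotient.
-/

set_option autoImplicit false
set_option linter.unusedSectionVars false

noncomputable section

open WeierstrassCurve NumberField IsDedekindDomain Matrix Filter Topology FA.IsogenyNF FA.TraceNF
  FA.TracePairNF
open scoped WeierstrassCurve.Affine Classical

namespace FA.Summary

universe u

variable {K : Type u} [Field K] [NumberField K] (W₀ W₀' : WeierstrassCurve (𝓞 K))
  [(W₀.map (algebraMap (𝓞 K) K)).IsElliptic] [(W₀'.map (algebraMap (𝓞 K) K)).IsElliptic]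

local notation "W" => W₀.map (algebraMap (𝓞 K) K)
local notation "W'" => W₀'.map (algebraMap (𝓞 K) K)
local notation "Kc" => AlgebraicClosure K

/-- **The joint distribution of two traces and the norm.** -/
theorem joint_trace_density_numberField {N : ℕ} (hN : N ≠ 0) {P Q : ((W).toAffine⁄Kc).Point}
    {P' Q' : ((W').toAffine⁄Kc).Point} (h : TorGen (W) N P Q) (h' : TorGen (W') N P' Q')
    (T : Set (ZMod N × ZMod N × ZMod N)) :
    Tendsto (fun x : ℝ => (Nat.card {v : HeightOneSpectrum (𝓞 K) //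
        (Ideal.absNorm v.asIdeal : ℝ) ≤ x ∧ ((frobTrace W₀ v : ZMod N),
          (frobTrace W₀' v : ZMod N), (Ideal.absNorm v.asIdeal : ZMod N)) ∈ T} : ℝ) /
        Nat.card {v : HeightOneSpectrum (𝓞 K) // (Ideal.absNorm v.asIdeal : ℝ) ≤ x})
      atTop (𝓝 ((Nat.card {g : ((h.rep hN).toHomUnits.prod (h'.rep hN).toHomUnits).range //
          (g.1.1.val.trace, g.1.2.val.trace, g.1.1.val.det) ∈ T} : ℝ) /
        Nat.card ((h.rep hN).toHomUnits.prod (h'.rep hN).toHomUnits).range)) :=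
  tendsto_pair W₀ W₀' hN h h' T

/-- **Congruence of traces at almost all places.** -/
theorem trace_congruence_iff_numberField {N : ℕ} (hN : N ≠ 0) {P Q : ((W).toAffine⁄Kc).Point}
    {P' Q' : ((W').toAffine⁄Kc).Point} (h : TorGen (W) N P Q) (h' : TorGen (W') N P' Q') :
    (Tendsto (fun x : ℝ => (Nat.card {v : HeightOneSpectrum (𝓞 K) //
        (Ideal.absNorm v.asIdeal : ℝ) ≤ x ∧
          (frobTrace W₀ v : ZMod N) = frobTrace W₀' v} : ℝ) /
        Nat.card {v : HeightOneSpectrum (𝓞 K) // (Ideal.absNorm v.asIdeal : ℝ) ≤ x})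
      atTop (𝓝 1) ↔ ∀ σ : Kc ≃ₐ[K] Kc, (h.rep hN σ).trace = (h'.rep hN σ).trace) ∧
    ((∀ σ : Kc ≃ₐ[K] Kc, (h.rep hN σ).trace = (h'.rep hN σ).trace) ↔
      ∀ v : HeightOneSpectrum (𝓞 K), W₀.Δ ∉ v.asIdeal → W₀'.Δ ∉ v.asIdeal →
        (N : 𝓞 K) ∉ v.asIdeal → (frobTrace W₀ v : ZMod N) = frobTrace W₀' v) := by
  have hgood : (∀ σ : Kc ≃ₐ[K] Kc, (h.rep hN σ).trace = (h'.rep hN σ).trace) →
      ∀ v : HeightOneSpectrum (𝓞 K), W₀.Δ ∉ v.asIdeal → W₀'.Δ ∉ v.asIdeal →
        (N : 𝓞 K) ∉ v.asIdeal → (frobTrace W₀ v : ZMod N) = frobTrace W₀' v :=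
    fun heq v h1 h2 h3 =>
      congr_of_trace_eq W₀ W₀' hN h h' heq ((not_mem_badSet W₀ W₀').2 ⟨h1, h2, h3⟩)
  have hone : (∀ v : HeightOneSpectrum (𝓞 K), W₀.Δ ∉ v.asIdeal → W₀'.Δ ∉ v.asIdeal →
      (N : 𝓞 K) ∉ v.asIdeal → (frobTrace W₀ v : ZMod N) = frobTrace W₀' v) →
      Tendsto (placeRatio fun v : HeightOneSpectrum (𝓞 K) =>
        (frobTrace W₀ v : ZMod N) = frobTrace W₀' v) atTop (𝓝 1) := fun hall =>
    tendsto_one_of_finite ((finite_badSet W₀ W₀' hN).subset fun v hv => by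
      by_contra hnb
      obtain ⟨h1, h2, h3⟩ := (not_mem_badSet W₀ W₀').1 hnb
      exact hv (hall v h1 h2 h3))
  exact ⟨⟨trace_eq_of_tendsto_one W₀ W₀' hN h h', fun heq => hone (hgood heq)⟩,
    ⟨hgood, fun hall => trace_eq_of_tendsto_one W₀ W₀' hN h h' (hone hall)⟩⟩

/-- **Strong multiplicity one**: equal traces on a set of natural density one are equal at every
common good place. -/
theorem traces_eq_of_density_one_numberField
    (h1 : Tendsto (fun x : ℝ => (Nat.card {v : HeightOneSpectrum (𝓞 K) //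
        (Ideal.absNorm v.asIdeal : ℝ) ≤ x ∧ frobTrace W₀ v = frobTrace W₀' v} : ℝ) /
        Nat.card {v : HeightOneSpectrum (𝓞 K) // (Ideal.absNorm v.asIdeal : ℝ) ≤ x})
      atTop (𝓝 1))
    {v : HeightOneSpectrum (𝓞 K)} (hΔ : W₀.Δ ∉ v.asIdeal) (hΔ' : W₀'.Δ ∉ v.asIdeal) :
    frobTrace W₀ v = frobTrace W₀' v ∧
      Nat.card (W₀.map (Ideal.Quotient.mk v.asIdeal)).toAffine.Point =
        Nat.card (W₀'.map (Ideal.Quotient.mk v.asIdeal)).toAffine.Point := by
  obtain ⟨l, hlt, hl⟩ := Nat.exists_infinite_primes (4 * Ideal.absNorm v.asIdeal + 1)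
  obtain ⟨P, Q, h⟩ := exists_torGen_level (E := W) (Kb := Kc) hl.ne_zero
  obtain ⟨P', Q', h'⟩ := exists_torGen_level (E := W') (Kb := Kc) hl.ne_zero
  have h1l : Tendsto (placeRatio fun v : HeightOneSpectrum (𝓞 K) =>
      (frobTrace W₀ v : ZMod l) = frobTrace W₀' v) atTop (𝓝 1) :=
    tendsto_one_mono (fun v hv => by rw [hv]) h1
  have e := eq_of_congr_large W₀ W₀' hΔ hΔ' (by omega) (congr_of_trace_eq W₀ W₀' hl.ne_zero h h'
    (trace_eq_of_tendsto_one W₀ W₀' hl.ne_zero h h' h1l)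
    ((not_mem_badSet W₀ W₀').2 ⟨hΔ, hΔ', not_mem_of_large hl (by omega)⟩))
  refine ⟨e, ?_⟩
  have := FA.KatzNF.natCard_eq W₀ v
  rw [e, ← FA.KatzNF.natCard_eq W₀' v] at this
  exact_mod_cast this

/-- **An equivariant homomorphism with finite kernel keeps the traces.** -/
theorem traces_eq_of_hom_numberField (f : ((W).toAffine⁄Kc).Point →+ ((W').toAffine⁄Kc).Point)
    [Finite f.ker]
    (hf : ∀ (σ : Kc ≃ₐ[K] Kc) (R : ((W).toAffine⁄Kc).Point), f (σ • R) = σ • f R)
    {v : HeightOneSpectrum (𝓞 K)} (hΔ : W₀.Δ ∉ v.asIdeal) (hΔ' : W₀'.Δ ∉ v.asIdeal) :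
    frobTrace W₀ v = frobTrace W₀' v ∧
      Nat.card (W₀.map (Ideal.Quotient.mk v.asIdeal)).toAffine.Point =
        Nat.card (W₀'.map (Ideal.Quotient.mk v.asIdeal)).toAffine.Point := by
  obtain ⟨l, hlt, hl⟩ := Nat.exists_infinite_primes
    (4 * Ideal.absNorm v.asIdeal + Nat.card f.ker + 1)
  obtain ⟨P, Q, P', Q', h, h', hrep⟩ := exists_equal_reps W₀ W₀' f hf hl (by omega)
  have e := eq_of_congr_large W₀ W₀' hΔ hΔ' (by omega) (congr_of_trace_eq W₀ W₀' hl.ne_zero h h'
    (fun σ => by rw [hrep σ]) ((not_mem_badSet W₀ W₀').2 ⟨hΔ, hΔ', not_mem_of_large hl (by omega)⟩))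
  refine ⟨e, ?_⟩
  have := FA.KatzNF.natCard_eq W₀ v
  rw [e, ← FA.KatzNF.natCard_eq W₀' v] at this
  exact_mod_cast this

/-- **A point of order `p` is seen on the isogenous curve.** -/
theorem katz_of_hom_numberField (f : ((W).toAffine⁄Kc).Point →+ ((W').toAffine⁄Kc).Point)
    [Finite f.ker]
    (hf : ∀ (σ : Kc ≃ₐ[K] Kc) (R : ((W).toAffine⁄Kc).Point), f (σ • R) = σ • f R)
    {p : ℕ} [Fact p.Prime] {P₀ : (W).toAffine.Point} (hP : addOrderOf P₀ = p) :
    (∃ P : (W').toAffine.Point, addOrderOf P = p) ∨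
      ∃ G : AddSubgroup ((W').toAffine⁄Kc).Point, Nat.card G = p ∧ (∀ R ∈ G, p • R = 0) ∧
        ∀ σ : Kc ≃ₐ[K] Kc, ∀ R, p • R = 0 → σ • R - R ∈ G := by
  refine (katz_prime_numberField W₀').1
    ((((katz_prime_numberField W₀ (p := p)).2 (Or.inl ⟨P₀, hP⟩)).union
      ((finite_mem (Δ_ne_zero W₀)).union (finite_mem (Δ_ne_zero W₀')))).subset fun v hv => ?_)
  by_contra hnb
  simp only [Set.mem_union, Set.mem_ofPred_eq, not_or, not_not] at hnb
  rw [Set.mem_ofPred_eq, ← (traces_eq_of_hom_numberField W₀ W₀' f hf hnb.2.1 hnb.2.2).2] at hv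
  exact hv hnb.1

end FA.Summary

end
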