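import Fermat.Agent.TorsionIsoNF.Modules
import Fermat.Agent.Root.SummaryTracePairsNumberField

/-!
# Torsion modules from traces over a number field

Let `W₀`, `W₀'` be Weierstrass equations with coefficients in the integers of a number field `K`,
with nonzero discriminants, `E`, `E'` the curves they define, `a_v = N v + 1 - #W₀(k_v)`, `a'_v`
likewise. `TorsionIso E E' N` says that the points killed by `N` are isomorphic as Galois modules,
`AbsIrreducible Kb E p` that Galois has no common eigenvector on `E[p]` over the algebraic closure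
of `𝔽_p`.

* `congruence_of_torsionIso_numberField`: isomorphic modules at `N` give `a_v ≡ a'_v` modulo `N` at
  every common good place prime to `N`;
* `torsionIso_iff_congruence_numberField` (Brauer–Nesbitt): if `E[p]` is absolutely irreducible,
  the modules at `p ^ (k + 1)` are isomorphic iff `a_v ≡ a'_v` modulo `p ^ (k + 1)` for a set of
  places of natural density one;
* `torsionIso_of_equal_traces_real_numberField`: with a real place, `p` odd and no stable subgroup
  of order `p`, equal traces on a set of natural density one give isomorphic modules at every power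
  of `p`;
* `torsionIso_of_hom_numberField`: so does a Galois equivariant homomorphism with finite kernel,
  whatever its degree.
-/

set_option autoImplicit false
set_option linter.unusedSectionVars false

noncomputable section

open WeierstrassCurve NumberField IsDedekindDomain Matrix Filter Topology FA.IsogenyNF FA.TraceNF
  FA.TracePairNF FA.TorsionIsoNF
open scoped WeierstrassCurve.Affine Classical

namespace FA.Summary

universe u

variable {K : Type u} [Field K] [NumberField K] (W₀ W₀' : WeierstrassCurve (𝓞 K))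
  [(W₀.map (algebraMap (𝓞 K) K)).IsElliptic] [(W₀'.map (algebraMap (𝓞 K) K)).IsElliptic]

local notation "W" => W₀.map (algebraMap (𝓞 K) K)
local notation "W'" => W₀'.map (algebraMap (𝓞 K) K)
local notation "Kc" => AlgebraicClosure K

/-- **Isomorphic torsion modules have congruent traces.** -/
theorem congruence_of_torsionIso_numberField {N : ℕ} (hN : N ≠ 0)
    (hiso : TorsionIso (Kb := Kc) (W) (W') N) {v : HeightOneSpectrum (𝓞 K)}
    (hΔ : W₀.Δ ∉ v.asIdeal) (hΔ' : W₀'.Δ ∉ v.asIdeal) (hv : (N : 𝓞 K) ∉ v.asIdeal) :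
    (frobTrace W₀ v : ZMod N) = frobTrace W₀' v := by
  obtain ⟨P, Q, h⟩ := exists_torGen_level (E := W) (Kb := Kc) hN
  obtain ⟨P', Q', h', hrep⟩ := exists_equal_rep hN hiso h
  exact congr_of_trace_eq W₀ W₀' hN h h' (fun σ => by rw [hrep σ])
    ((not_mem_badSet W₀ W₀').2 ⟨hΔ, hΔ', hv⟩)

/-- **Brauer–Nesbitt at a prime power.** -/
theorem torsionIso_iff_congruence_numberField {p : ℕ} [Fact p.Prime]
    (hirr : AbsIrreducible Kc (W) p) (k : ℕ) :
    TorsionIso (Kb := Kc) (W) (W') (p ^ (k + 1)) ↔
      Tendsto (fun x : ℝ => (Nat.card {v : HeightOneSpectrum (𝓞 K) //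
          (Ideal.absNorm v.asIdeal : ℝ) ≤ x ∧
            (frobTrace W₀ v : ZMod (p ^ (k + 1))) = frobTrace W₀' v} : ℝ) /
          Nat.card {v : HeightOneSpectrum (𝓞 K) // (Ideal.absNorm v.asIdeal : ℝ) ≤ x})
        atTop (𝓝 1) := by
  have hp : p ≠ 0 := (Fact.out : p.Prime).ne_zero
  have hn : p ^ (k + 1) ≠ 0 := pow_ne_zero _ hp
  refine ⟨fun hiso => tendsto_one_of_finite ((finite_badSet W₀ W₀' hn).subset fun v hv => ?_),
    fun h1 => ?_⟩
  · by_contra hnb
    obtain ⟨a, b, c⟩ := (not_mem_badSet W₀ W₀').1 hnb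
    exact hv (congruence_of_torsionIso_numberField W₀ W₀' hn hiso a b c)
  · obtain ⟨P, Q, h⟩ := exists_torGen_level (E := W) (Kb := Kc) hn
    obtain ⟨P', Q', h'⟩ := exists_torGen_level (E := W') (Kb := Kc) hn
    have hred : ((redP (p := p) k).mapMatrix : Matrix (Fin 2) (Fin 2) _ →+* _).toMonoidHom.comp
        (h.rep hn) = (h.toPrime hp).rep hp :=
      MonoidHom.ext fun σ => (rep_redP hp hn h σ).symm
    obtain ⟨M, hM, hcomm⟩ := exists_conj (h.rep hn) (h'.rep hn)
      (by rw [hred]; exact hirr _ _ (h.toPrime hp)) (trace_eq_of_tendsto_one W₀ W₀' hn h h' h1)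
    exact torsionIso_of_conj hn h h' hM hcomm

/-- **Equal traces give isomorphic torsion modules with a real place.** -/
theorem torsionIso_of_equal_traces_real_numberField (ι : K →+* ℝ) {p : ℕ} [Fact p.Prime]
    (hp2 : p ≠ 2) (hirr : ∀ G : AddSubgroup ((W).toAffine⁄Kc).Point, Nat.card G = p →
      ¬ ∀ σ : Kc ≃ₐ[K] Kc, ∀ R ∈ G, σ • R ∈ G)
    (h1 : Tendsto (fun x : ℝ => (Nat.card {v : HeightOneSpectrum (𝓞 K) //
        (Ideal.absNorm v.asIdeal : ℝ) ≤ x ∧ frobTrace W₀ v = frobTrace W₀' v} : ℝ) /
        Nat.card {v : HeightOneSpectrum (𝓞 K) // (Ideal.absNorm v.asIdeal : ℝ) ≤ x})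
      atTop (𝓝 1)) (k : ℕ) :
    TorsionIso (Kb := Kc) (W) (W') (p ^ (k + 1)) := by
  let _ : Algebra K ℂ := (Complex.ofRealHom.comp ι).toAlgebra
  let φ : Kc →+* ℂ := (IsAlgClosed.lift : Kc →ₐ[K] ℂ).toRingHom
  have hφ : ∀ x : K, φ (algebraMap K Kc x) = (ι x : ℂ) := fun x =>
    (IsAlgClosed.lift : Kc →ₐ[K] ℂ).commutes x
  refine (torsionIso_iff_congruence_numberField W₀ W₀'
    (absIrreducible_of_real hp2 φ (fun x => by rw [hφ]; exact Complex.conj_ofReal _) hirr) k).2 ?_
  exact tendsto_one_mono (fun v hv => by rw [hv]) h1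

/-- **A homomorphism with finite kernel gives isomorphic torsion modules** where `E[p]` is
absolutely irreducible. -/
theorem torsionIso_of_hom_numberField (f : ((W).toAffine⁄Kc).Point →+ ((W').toAffine⁄Kc).Point)
    [Finite f.ker]
    (hf : ∀ (σ : Kc ≃ₐ[K] Kc) (R : ((W).toAffine⁄Kc).Point), f (σ • R) = σ • f R)
    {p : ℕ} [Fact p.Prime] (hirr : AbsIrreducible Kc (W) p) (k : ℕ) :
    TorsionIso (Kb := Kc) (W) (W') (p ^ (k + 1)) :=
  (torsionIso_iff_congruence_numberField W₀ W₀' hirr k).2 (tendsto_one_of_finite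
    (((finite_mem (Δ_ne_zero W₀)).union (finite_mem (Δ_ne_zero W₀'))).subset fun v hv => by
      by_contra hnb
      simp only [Set.mem_union, Set.mem_ofPred_eq, not_or] at hnb
      exact hv (by rw [(traces_eq_of_hom_numberField W₀ W₀' f hf hnb.1 hnb.2).1])))

end FA.Summary

end
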