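import Fermat.Agent.FrobCriterion.Places
import Fermat.Agent.Root.SummaryTorsionIsoNumberField

/-!
# The image modulo `p` from three traces of Frobenius

Let `W₀` be a Weierstrass equation with coefficients in the integers of a number field `K` and
nonzero discriminant, with no condition on its invariant, `a_v = N v + 1 - #W₀(k_v)` and `p ≥ 5` a
prime. Modulo `p` let, at three good places prime to `p`, `t = a_v` and `d = N v` satisfy in turn:
`t ≠ 0` and `t² - 4 d` a nonzero square; `t ≠ 0` and `t² - 4 d` no square; `t² / d` none of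
`0, 1, 2, 4` and no root of `u² - 3 u + 1` (`ThreePlaces`, the hypotheses below spelled out; Serre
1972, proposition 19).

* `sl_image_of_three_traces_numberField`: then every matrix of determinant one comes from Galois on
  `E[p]`;
* `gl_image_iff_three_traces_numberField`: for `p` prime to the discriminant of `K`, such places
  exist iff every invertible matrix comes from Galois, and then each kind occurs infinitely often;
* `absIrreducible_of_three_traces_numberField`: then `E[p]` is absolutely irreducible;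
* `torsionIso_iff_congruence_of_three_traces_numberField`: so for every `n = k + 1` a second curve
  has isomorphic `pⁿ`-torsion iff its traces are congruent modulo `pⁿ` on a set of density one.
-/

set_option autoImplicit false
set_option linter.unusedSectionVars false

noncomputable section

open WeierstrassCurve NumberField IsDedekindDomain Matrix Filter Topology FA.IsogenyNF FA.TraceNF
  FA.TorsionIsoNF FA.FrobCriterion
open scoped WeierstrassCurve.Affine Classical

namespace FA.Summary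

universe u

variable {K : Type u} [Field K] [NumberField K] (W₀ W₀' : WeierstrassCurve (𝓞 K))
  [(W₀.map (algebraMap (𝓞 K) K)).IsElliptic] [(W₀'.map (algebraMap (𝓞 K) K)).IsElliptic]
  {p : ℕ} [hp : Fact p.Prime]

local notation "W" => W₀.map (algebraMap (𝓞 K) K)
local notation "W'" => W₀'.map (algebraMap (𝓞 K) K)
local notation "Kc" => AlgebraicClosure K

/-- **Serre's criterion over a number field.** -/
theorem sl_image_of_three_traces_numberField {P Q : ((W).toAffine⁄Kc).Point}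
    (h : TorGen (W) p P Q) {v₁ v₂ v₃ : HeightOneSpectrum (𝓞 K)}
    (hgood : ∀ v ∈ [v₁, v₂, v₃], W₀.Δ ∉ v.asIdeal ∧ (p : 𝓞 K) ∉ v.asIdeal)
    {t₁ t₂ t₃ d₁ d₂ d₃ : ZMod p} (ht₁ : (frobTrace W₀ v₁ : ZMod p) = t₁)
    (hd₁ : (Ideal.absNorm v₁.asIdeal : ZMod p) = d₁)
    (ht₂ : (frobTrace W₀ v₂ : ZMod p) = t₂) (hd₂ : (Ideal.absNorm v₂.asIdeal : ZMod p) = d₂)
    (ht₃ : (frobTrace W₀ v₃ : ZMod p) = t₃) (hd₃ : (Ideal.absNorm v₃.asIdeal : ZMod p) = d₃)
    (h₁ : t₁ ≠ 0 ∧ t₁ ^ 2 - 4 * d₁ ≠ 0 ∧ IsSquare (t₁ ^ 2 - 4 * d₁))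
    (h₂ : t₂ ≠ 0 ∧ ¬ IsSquare (t₂ ^ 2 - 4 * d₂))
    (h₃ : t₃ ≠ 0 ∧ t₃ ^ 2 ≠ d₃ ∧ t₃ ^ 2 ≠ 2 * d₃ ∧ t₃ ^ 2 ≠ 4 * d₃ ∧
      t₃ ^ 4 - 3 * d₃ * t₃ ^ 2 + d₃ ^ 2 ≠ 0)
    {M : Matrix (Fin 2) (Fin 2) (ZMod p)} (hM : M.det = 1) :
    ∃ σ : Kc ≃ₐ[K] Kc, h.rep hp.out.ne_zero σ = M := by
  subst ht₁ hd₁ ht₂ hd₂ ht₃ hd₃
  refine sl_image W₀ h (fun C hC => ?_) hM
  simp only [List.mem_cons, List.not_mem_nil, or_false] at hC
  rcases hC with rfl | rfl | rfl
  exacts [⟨v₁, (hgood _ (by simp)).1, (hgood _ (by simp)).2, h₁⟩,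
    ⟨v₂, (hgood _ (by simp)).1, (hgood _ (by simp)).2, h₂⟩,
    ⟨v₃, (hgood _ (by simp)).1, (hgood _ (by simp)).2, h₃⟩]

/-- **The criterion is exact**, and its places recur. -/
theorem gl_image_iff_three_traces_numberField (h5 : 5 ≤ p) (hd : ¬ (p : ℤ) ∣ NumberField.discr K)
    {P Q : ((W).toAffine⁄Kc).Point} (h : TorGen (W) p P Q) :
    ((∀ M : Matrix (Fin 2) (Fin 2) (ZMod p), M.det ≠ 0 →
        ∃ σ : Kc ≃ₐ[K] Kc, h.rep hp.out.ne_zero σ = M) ↔ ThreePlaces W₀ p) ∧
      (ThreePlaces W₀ p → ∀ t d : ZMod p, d ≠ 0 → {v : HeightOneSpectrum (𝓞 K) |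
        (frobTrace W₀ v : ZMod p) = t ∧
          (Ideal.absNorm v.asIdeal : ZMod p) = d}.Infinite) := by
  refine ⟨⟨threePlaces_of_image W₀ h h5, fun h3 _ hM => gl_image W₀ h hd h3 hM⟩,
    fun h3 t d hd0 => ?_⟩
  obtain ⟨σ, hσ⟩ := gl_image W₀ h hd h3 (M := !![0, -d; 1, t]) (by simp [det_fin_two, hd0])
  exact infinite_places W₀ hp.out.ne_zero h (σ := σ) (S := {x | x.1 = t ∧ x.2 = d})
    (by simp [hσ, trace_fin_two, det_fin_two])

/-- **Three traces give absolute irreducibility.** -/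
theorem absIrreducible_of_three_traces_numberField (h3 : ThreePlaces W₀ p) :
    AbsIrreducible Kc (W) p :=
  fun _ _ h => noEigenvector_of_sl _ fun _ hM => sl_image W₀ h h3 hM

/-- **Torsion at every power of `p` is decided by congruences.** -/
theorem torsionIso_iff_congruence_of_three_traces_numberField (h3 : ThreePlaces W₀ p) (k : ℕ) :
    TorsionIso (Kb := Kc) (W) (W') (p ^ (k + 1)) ↔
      Tendsto (fun x : ℝ => (Nat.card {v : HeightOneSpectrum (𝓞 K) //
          (Ideal.absNorm v.asIdeal : ℝ) ≤ x ∧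
            (frobTrace W₀ v : ZMod (p ^ (k + 1))) = frobTrace W₀' v} : ℝ) /
          Nat.card {v : HeightOneSpectrum (𝓞 K) // (Ideal.absNorm v.asIdeal : ℝ) ≤ x})
        atTop (𝓝 1) :=
  torsionIso_iff_congruence_numberField W₀ W₀'
    (absIrreducible_of_three_traces_numberField W₀ h3) k

end FA.Summary

end
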