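import Fermat.Agent.FrobCriterion.Level
import Fermat.Agent.Root.SummaryFrobeniusCriterionNumberField
import Fermat.Agent.Root.SummaryKatzNumberField
import Fermat.Agent.TraceDistribution.Counts

/-!
# The image at every level from traces of Frobenius

For a Weierstrass equation `W₀` over the integers of a number field `K`, with no condition on its
invariant, let every prime `p ∣ N` be at least `5` and have three places as in Serre's criterion
(`ThreePlaces`, see `SummaryFrobeniusCriterionNumberField`).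

* `sl_level_of_three_traces_numberField`: every matrix of determinant one modulo `N` comes from
  Galois on the points killed by `N`;
* `gl_level_of_three_traces_numberField`, `torsion_field_degree_of_three_traces_numberField`: for
  `N` prime to the discriminant of `K` every invertible one does, and the field of these points has
  degree `# GL₂(ℤ / N)` over `K`;
* `trace_det_density_of_three_traces_numberField`: so `(a_v, N v)` modulo `N` has the distribution
  of trace and determinant on `GL₂(ℤ / N)`;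
* `dvd_pointCount_density_of_three_traces_numberField`: for a prime `N = l` it divides `#W₀(k_v)`
  for a proportion `(l² - 2) / ((l - 1) (l² - 1))` of the places.
-/

set_option autoImplicit false
set_option linter.unusedSectionVars false

noncomputable section

open WeierstrassCurve NumberField IsDedekindDomain Matrix Filter Topology FA.IsogenyNF FA.TraceNF
  FA.FrobCriterion
open FA.ClassNumberOne (xP yP)
open scoped WeierstrassCurve.Affine Classical

namespace FA.Summary

universe u

variable {K : Type u} [Field K] [NumberField K] (W₀ : WeierstrassCurve (𝓞 K))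
  [(W₀.map (algebraMap (𝓞 K) K)).IsElliptic] {N : ℕ}

local notation "W" => W₀.map (algebraMap (𝓞 K) K)
local notation "Kc" => AlgebraicClosure K

/-- Serre's three places at every prime of `N`, all at least `5`. -/
def ThreePlacesAt (W₀ : WeierstrassCurve (𝓞 K)) (N : ℕ) : Prop :=
  ∀ p ∈ N.primeFactors, 5 ≤ p ∧ ∀ [Fact p.Prime], ThreePlaces W₀ p

theorem fullSL_of_threePlacesAt (h3 : ThreePlacesAt W₀ N) :
    ∀ p ∈ N.primeFactors, FullSL Kc (W) p := fun p hp P Q h _ A hA => by
  have := Fact.mk (Nat.prime_of_mem_primeFactors hp)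
  exact sl_image W₀ h (h3 p hp).2 hA

/-- **`SL₂(ℤ / N)` from traces.** -/
theorem sl_level_of_three_traces_numberField (hN : N ≠ 0) (h3 : ThreePlacesAt W₀ N)
    {P Q : ((W).toAffine⁄Kc).Point} (h : TorGen (W) N P Q)
    {M : Matrix (Fin 2) (Fin 2) (ZMod N)} (hM : M.det = 1) :
    ∃ σ : Kc ≃ₐ[K] Kc, h.rep hN σ = M :=
  sl_level hN (fun p hp => (h3 p hp).1) (fullSL_of_threePlacesAt W₀ h3) h hM

/-- **`GL₂(ℤ / N)` from traces.** -/
theorem gl_level_of_three_traces_numberField (hN : N ≠ 0)
    (hd : ∀ p ∈ N.primeFactors, ¬ (p : ℤ) ∣ NumberField.discr K) (h3 : ThreePlacesAt W₀ N)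
    {P Q : ((W).toAffine⁄Kc).Point} (h : TorGen (W) N P Q)
    {M : Matrix (Fin 2) (Fin 2) (ZMod N)} (hM : IsUnit M.det) :
    ∃ σ : Kc ≃ₐ[K] Kc, h.rep hN σ = M :=
  gl_level hN (fun p hp => (h3 p hp).1) hd (fullSL_of_threePlacesAt W₀ h3) h hM

/-- **The degree of the field of `E[N]`.** -/
theorem torsion_field_degree_of_three_traces_numberField (hN : N ≠ 0)
    (hd : ∀ p ∈ N.primeFactors, ¬ (p : ℤ) ∣ NumberField.discr K) (h3 : ThreePlacesAt W₀ N) :
    Module.finrank K (IntermediateField.adjoin K
        (xP '' {P : ((W).toAffine⁄Kc).Point | N • P = 0} ∪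
          yP '' {P : ((W).toAffine⁄Kc).Point | N • P = 0})) =
      Nat.card (GL (Fin 2) (ZMod N)) := by
  obtain ⟨P, Q, h⟩ := exists_torGen_level (E := W) (Kb := Kc) hN
  exact finrank_torField hN h fun M hM =>
    gl_level_of_three_traces_numberField W₀ hN hd h3 h hM

/-- **The distribution of `(a_v, N v)` modulo `N`.** -/
theorem trace_det_density_of_three_traces_numberField (hN : N ≠ 0)
    (hd : ∀ p ∈ N.primeFactors, ¬ (p : ℤ) ∣ NumberField.discr K) (h3 : ThreePlacesAt W₀ N)
    (S : Set (ZMod N × ZMod N)) :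
    Tendsto (fun x : ℝ => (Nat.card {v : HeightOneSpectrum (𝓞 K) //
        (Ideal.absNorm v.asIdeal : ℝ) ≤ x ∧
          ((frobTrace W₀ v : ZMod N), (Ideal.absNorm v.asIdeal : ZMod N)) ∈ S} : ℝ) /
        Nat.card {v : HeightOneSpectrum (𝓞 K) // (Ideal.absNorm v.asIdeal : ℝ) ≤ x})
      atTop (𝓝 ((Nat.card {M : GL (Fin 2) (ZMod N) // (M.val.trace, M.val.det) ∈ S} : ℝ) /
        Nat.card (GL (Fin 2) (ZMod N)))) := by
  obtain ⟨P, Q, h⟩ := exists_torGen_level (E := W) (Kb := Kc) hN
  have htop := FA.FrobCriterion.range_eq_top hN h fun M hM =>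
    gl_level_of_three_traces_numberField W₀ hN hd h3 h hM
  let e : (h.rep hN).toHomUnits.range ≃ GL (Fin 2) (ZMod N) :=
    Equiv.subtypeUnivEquiv fun x => htop ▸ Subgroup.mem_top x
  have hmean := trace_det_density_numberField W₀ hN h S
  rw [Nat.card_congr e, Nat.card_congr (e.subtypeEquiv (p := fun g => (g.1.val.trace,
    g.1.val.det) ∈ S) (q := fun M => (M.val.trace, M.val.det) ∈ S) fun _ => Iff.rfl)] at hmean
  exact hmean

/-- **How often `l` divides the number of points.** -/
theorem dvd_pointCount_density_of_three_traces_numberField {l : ℕ} [Fact l.Prime] (h5 : 5 ≤ l)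
    (hd : ¬ (l : ℤ) ∣ NumberField.discr K) (h3 : ThreePlaces W₀ l) :
    Tendsto (fun x : ℝ => (Nat.card {v : HeightOneSpectrum (𝓞 K) //
        (Ideal.absNorm v.asIdeal : ℝ) ≤ x ∧
          l ∣ Nat.card (W₀.map (Ideal.Quotient.mk v.asIdeal)).toAffine.Point} : ℝ) /
        Nat.card {v : HeightOneSpectrum (𝓞 K) // (Ideal.absNorm v.asIdeal : ℝ) ≤ x})
      atTop (𝓝 (((l : ℝ) ^ 2 - 2) / (((l : ℝ) - 1) * ((l : ℝ) ^ 2 - 1)))) := by
  have hl : l.Prime := Fact.out
  have hl' : ∀ p ∈ l.primeFactors, p = l := fun p hp => by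
    rwa [hl.primeFactors, Finset.mem_singleton] at hp
  have h := trace_det_density_of_three_traces_numberField W₀ hl.ne_zero
    (fun p hp => hl' p hp ▸ hd) (fun p hp => by
      obtain rfl := hl' p hp
      exact ⟨h5, by intro; exact h3⟩)
    {p | p.2 + 1 - p.1 = 0}
  simp only [Set.mem_ofPred_eq] at h
  have hc := FA.TraceDist.card_fixing (k := ZMod l)
  rw [ZMod.card] at hc
  have he : Nat.card {M : GL (Fin 2) (ZMod l) // M.val.det + 1 - M.val.trace = 0} =
      Nat.card {M : GL (Fin 2) (ZMod l) // M.val.trace = M.val.det + 1} :=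
    Nat.card_congr (Equiv.subtypeEquivRight fun M => by rw [sub_eq_zero, eq_comm])
  rw [he, FA.TraceDist.card_gl2, ZMod.card] at h
  have e : (Nat.card {M : GL (Fin 2) (ZMod l) // M.val.trace = M.val.det + 1} : ℝ) =
      (l : ℝ) ^ 3 - 2 * l := by
    rw [eq_sub_iff_add_eq]
    exact_mod_cast hc
  have h1l : (1 : ℕ) ≤ l ^ 2 := Nat.one_le_pow _ _ hl.pos
  have hll : l ≤ l ^ 2 := Nat.le_self_pow two_ne_zero l
  rw [e, Nat.cast_mul, Nat.cast_sub h1l, Nat.cast_sub hll, Nat.cast_pow, Nat.cast_one] at h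
  simp only [FA.KatzNF.dvd_natCard_iff]
  convert h using 2
  · rfl
  · have h2' : (5 : ℝ) ≤ l := by exact_mod_cast h5
    have a1 : (l : ℝ) - 1 ≠ 0 := by linarith
    have a2 : (l : ℝ) ^ 2 - 1 ≠ 0 := by nlinarith
    have a3 : (l : ℝ) ^ 2 - l ≠ 0 := by nlinarith
    field_simp

end FA.Summary

end
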