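import Fermat.Agent.FrobCriterion.Degree
import Fermat.Agent.Root.SummaryFrobeniusCriterionLevel

/-!
# Torsion over extensions from traces of Frobenius

For a Weierstrass equation over the integers of a number field `K`, with no condition on its
invariant, and `N` whose primes `p ≥ 5` all meet Serre's criterion (`ThreePlacesAt`, see
`SummaryFrobeniusCriterionLevel`); `orderCount N = N ^ 2 ∏ (1 - 1 / p ^ 2)`.

* `torsion_conjugate_of_three_traces_numberField`: the points of exact order `N` are conjugate;
* `torsion_order_degree_of_three_traces_numberField`,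
  `torsion_degree_le_of_three_traces_numberField`: each generates a field of degree `orderCount N`,
  so a field containing one has at least that degree;
* `no_torsion_of_three_traces_numberField`: there is none over `K` for `N ≠ 1`;
* `isogeny_degree_of_three_traces_numberField`: a subgroup of prime order `l` stable over an
  extension of degree `d` gives `l + 1 ≤ d`.
-/

set_option autoImplicit false
set_option linter.unusedSectionVars false

noncomputable section

open WeierstrassCurve NumberField Matrix FA.IsogenyNF FA.TraceNF FA.FrobCriterion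
open scoped WeierstrassCurve.Affine Classical

namespace FA.Summary

universe u

variable {K : Type u} [Field K] [NumberField K] (W₀ : WeierstrassCurve (𝓞 K))
  [(W₀.map (algebraMap (𝓞 K) K)).IsElliptic] {N : ℕ}

local notation "W" => W₀.map (algebraMap (𝓞 K) K)
local notation "Kc" => AlgebraicClosure K

/-- **The points of exact order `N` are conjugate.** -/
theorem torsion_conjugate_of_three_traces_numberField (hN : N ≠ 0) (h3 : ThreePlacesAt W₀ N)
    {P Q : ((W).toAffine⁄Kc).Point} (hP : addOrderOf P = N) (hQ : addOrderOf Q = N) :
    ∃ σ : Kc ≃ₐ[K] Kc, σ • P = Q := by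
  obtain ⟨P₀, Q₀, h⟩ := exists_torGen_level (E := W) (Kb := Kc) hN
  exact transitive_of_sl hN h (fun M hM => sl_level_of_three_traces_numberField W₀ hN h3 h hM)
    hP hQ

/-- **The degree of a point of exact order `N`.** -/
theorem torsion_order_degree_of_three_traces_numberField (hN : N ≠ 0) (h3 : ThreePlacesAt W₀ N)
    (x y : Kc) (h : ((W).toAffine⁄Kc).Nonsingular x y)
    (hord : addOrderOf (WeierstrassCurve.Affine.Point.some x y h :
      ((W).toAffine⁄Kc).Point) = N) :
    Module.finrank K (IntermediateField.adjoin K {x, y}) = orderCount N :=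
  finrank_point_of_transitive (E := W) hN
    (fun _ _ hP hQ => torsion_conjugate_of_three_traces_numberField W₀ hN h3 hP hQ) h hord

/-- **Torsion over extensions needs a large degree.** -/
theorem torsion_degree_le_of_three_traces_numberField (hN : N ≠ 0) (h3 : ThreePlacesAt W₀ N)
    (F : IntermediateField K Kc) [FiniteDimensional K F] (x y : Kc)
    (h : ((W).toAffine⁄Kc).Nonsingular x y) (hx : x ∈ F) (hy : y ∈ F)
    (hord : addOrderOf (WeierstrassCurve.Affine.Point.some x y h :
      ((W).toAffine⁄Kc).Point) = N) :
    orderCount N ≤ Module.finrank K F := by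
  rw [← torsion_order_degree_of_three_traces_numberField W₀ hN h3 x y h hord]
  exact IntermediateField.finrank_le_of_le_right
    (IntermediateField.adjoin_le_iff.2 (by rintro z (rfl | rfl) <;> assumption))

/-- **No point of order `N` over `K`.** -/
theorem no_torsion_of_three_traces_numberField (hN : N ≠ 0) (hN1 : N ≠ 1)
    (h3 : ThreePlacesAt W₀ N) (P : (W).toAffine.Point) : addOrderOf P ≠ N := by
  intro hord
  set φ := FA.WeilNF.upK (W)
  have hfix : ∀ σ : Kc ≃ₐ[K] Kc, σ • φ P = φ P := fun σ => FA.WeilNF.smul_upK (W) σ P
  have hφ : addOrderOf (φ P) = N :=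
    (addOrderOf_injective φ (FA.WeilNF.upK_injective (W)) P).trans hord
  have huniq : ∀ Q : ((W).toAffine⁄Kc).Point, addOrderOf Q = N → Q = φ P := fun Q hQ => by
    obtain ⟨σ, rfl⟩ := torsion_conjugate_of_three_traces_numberField W₀ hN h3 hφ hQ
    exact hfix σ
  -- at most one point of exact order `N`
  have h1 : orderCount N ≤ 1 := by
    rw [← ncard_order_eq (Kb := Kc) (W) hN]
    refine (Set.ncard_le_ncard (t := {φ P}) (fun Q hQ => huniq Q hQ)).trans ?_
    simp
  have h2 := FA.TraceNF.sq_le_two_mul_orderCount hN
  have : 2 ≤ N := by omega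
  nlinarith

/-- **Isogenies of degree `l` need a degree above `l`.** -/
theorem isogeny_degree_of_three_traces_numberField {l : ℕ} [Fact l.Prime]
    (h3 : ThreePlaces W₀ l) (F : IntermediateField K Kc) [FiniteDimensional K F]
    (G : AddSubgroup ((W).toAffine⁄Kc).Point) (hcard : Nat.card G = l)
    (hG : ∀ σ ∈ F.fixingSubgroup, ∀ R ∈ G, σ • R ∈ G) : l + 1 ≤ Module.finrank K F := by
  obtain ⟨P₀, Q₀, h⟩ := exists_torGen_level (E := W) (Kb := Kc) (Fact.out : l.Prime).ne_zero
  exact succ_le_of_subgroup h (fun M hM => sl_image W₀ h h3 hM) F G hcard hG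

end FA.Summary

end
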