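import Fermat.Agent.GoodReduction.FrobeniusEverywhere

/-!
# Frobenius elements at every prime

For every elliptic curve over `ℚ` and every prime `q`, good or bad, every Frobenius element over
`q` has one integral trace on all Tate modules away from `q`: the rational Tate modules are
compatible on the decomposition groups at all places.
-/

set_option autoImplicit false
set_option linter.style.haveILetI false
set_option linter.unusedSectionVars false

noncomputable section

open WeierstrassCurve WeierstrassCurve.Affine FA.EC FA.Frob FA.RT FA.RT.Tate FA.GoodReduction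
open scoped WeierstrassCurve.Affine

local notation "Qb" => AlgebraicClosure ℚ
local notation "GQ" => AlgebraicClosure ℚ ≃ₐ[ℚ] AlgebraicClosure ℚ

namespace FA.Summary

variable (E : WeierstrassCurve ℚ) [E.IsElliptic] [DecidableEq (AlgebraicClosure ℚ)]
  {q : ℕ} [Fact q.Prime] {A : ValuationSubring (AlgebraicClosure ℚ)} (hA : A.LiesOverPrime q)
  {σ : AlgebraicClosure ℚ ≃ₐ[ℚ] AlgebraicClosure ℚ} (hσ : A.IsFrobeniusAt σ q)

include hA hσ

/-- **Compatibility at every place**: at every prime `q` every Frobenius element `σ` has one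
integer `a`, `|a| ≤ q + 1`, with `σ² - a σ + q = 0` on all torsion prime to `q`, `a² ≤ 4 q` if `j`
is integral at `q` and `a = ± (q + 1)` at a pole; on the Tate module at each `p ≠ q` the trace
of `σ^n` is the `n`th term of the recurrence of `a` and `q`, so `a` itself for `n = 1`. -/
theorem frobenius_trace_independent :
    ∃ a : ℤ, |a| ≤ q + 1 ∧ (0 ≤ padicValRat q E.j → a ^ 2 ≤ 4 * q) ∧
      (padicValRat q E.j < 0 → a = (q : ℤ) + 1 ∨ a = -((q : ℤ) + 1)) ∧
      (∀ N : ℕ, ¬ q ∣ N → ∀ P : (E.toAffine⁄(AlgebraicClosure ℚ)).Point, N • P = 0 →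
        Affine.Point.map σ.toAlgHom (Affine.Point.map σ.toAlgHom P) + (q : ℤ) • P =
          a • Affine.Point.map σ.toAlgHom P) ∧
      ∀ (W : WeierstrassCurve ℤ) [(ratCurve W).IsElliptic], W.IsIntegralModelOf E →
        ∀ (p : ℕ) [Fact p.Prime], q ≠ p → ∀ B : TateBasis p W,
          (B.rep σ).det = (q : ℤ_[p]) ∧
            ∀ n, (B.rep (σ ^ n)).trace = (FA.HasseBound.pointTrace a q n : ℤ_[p]) := by
  obtain rfl : (inferInstance : DecidableEq (AlgebraicClosure ℚ)) =
      instDecEqAlgebraicClosureRat := Subsingleton.elim _ _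
  have hq : q.Prime := Fact.out
  obtain ⟨W, hW⟩ := FA.Frob.exists_integralModel E
  haveI := FA.Frob.ratCurve_isElliptic_of_Δ (FA.Frob.Δ_ne_zero_of_model hW)
  obtain ⟨a, ha, ha', hquad, -⟩ := exists_frobenius_data (W := W) hA hσ
  rw [FA.OggShafarevich.j_ratCurve hW] at ha ha'
  refine ⟨a, ?_, ha, ha', ?_, ?_⟩
  · by_cases hj : 0 ≤ padicValRat q E.j
    · exact abs_le.mpr ⟨by nlinarith [ha hj], by nlinarith [ha hj]⟩
    · rcases ha' (not_le.mp hj) with rfl | rfl
      · rw [abs_of_nonneg (by positivity)]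
      · rw [abs_neg, abs_of_nonneg (by positivity)]
  · obtain ⟨e, he⟩ := FA.Root.exists_equiv_of_model hW
    intro N hN P hP
    obtain ⟨x, rfl⟩ := e.surjective P
    rw [← he, ← he, ← map_zsmul, ← map_zsmul, ← map_add]
    congr 1
    let μ : Pts W →+ Pts W := DistribSMul.toAddMonoidHom (Pts W) σ
    exact sub_eq_zero.mp (hom_eq_zero_of_prime_pow
      (μ.comp μ + (q : ℤ) • AddMonoidHom.id _ - a • μ)
      (fun p hp hpq n y hy => sub_eq_zero.mpr (hquad p hp hpq n y hy)) N hN x
      (e.injective (by rw [map_nsmul, hP, map_zero])))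
  · intro V _ hV p _ hqp B
    have hd := det_rep_frobenius B hq hA hqp hσ
    refine ⟨hd, fun n => ?_⟩
    obtain ⟨e, he⟩ := FA.Root.exists_equiv_of_model hW
    obtain ⟨e', he'⟩ := FA.Root.exists_equiv_of_model hV
    have h : ∀ (k : ℕ) (y : Pts V), p ^ k • y = 0 → σ • σ • y + (q : ℤ) • y = a • σ • y := by
      intro k y hy
      obtain ⟨x, hx⟩ := e.surjective (e' y)
      have hx0 : p ^ k • x = 0 := e.injective (by
        rw [map_nsmul, hx, ← map_nsmul, hy, map_zero, map_zero])
      refine e'.injective ?_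
      rw [map_add, map_zsmul, map_zsmul, he', he', ← hx, ← he, ← he, ← map_zsmul, ← map_zsmul,
        ← map_add, hquad p Fact.out (Ne.symm hqp) k x hx0]
    rw [map_pow]
    exact trace_pow_eq_pointTrace _ (trace_of_equation_det B hq.ne_zero hd h)
      (by rw [hd, Int.cast_natCast]) n

/-- **Congruent curves have congruent Frobenius traces at every prime**: an injective map of
`E[m]` into the points of `E'` commuting with `σ`, `m` prime to `q`, makes the traces congruent
modulo `m`, at additive primes as well. -/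
theorem frobenius_congruence_of_torsion (E' : WeierstrassCurve ℚ) [E'.IsElliptic] {m : ℕ}
    (hm : ¬ q ∣ m)
    (f : Submodule.torsionBy ℤ (E.toAffine⁄(AlgebraicClosure ℚ)).Point (m : ℤ) →+
      (E'.toAffine⁄(AlgebraicClosure ℚ)).Point) (hf : Function.Injective f)
    (hfσ : ∀ P Q, Affine.Point.map σ.toAlgHom P.1 = Q.1 →
      Affine.Point.map σ.toAlgHom (f P) = f Q) :
    ∃ a a' : ℤ, (m : ℤ) ∣ a - a' ∧
      (∀ N : ℕ, ¬ q ∣ N → ∀ P : (E.toAffine⁄(AlgebraicClosure ℚ)).Point, N • P = 0 →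
        Affine.Point.map σ.toAlgHom (Affine.Point.map σ.toAlgHom P) + (q : ℤ) • P =
          a • Affine.Point.map σ.toAlgHom P) ∧
      ∀ N : ℕ, ¬ q ∣ N → ∀ P : (E'.toAffine⁄(AlgebraicClosure ℚ)).Point, N • P = 0 →
        Affine.Point.map σ.toAlgHom (Affine.Point.map σ.toAlgHom P) + (q : ℤ) • P =
          a' • Affine.Point.map σ.toAlgHom P := by
  obtain ⟨a, -, -, -, ha, -⟩ := frobenius_trace_independent E hA hσ
  obtain ⟨a', -, -, -, ha', -⟩ := frobenius_trace_independent E' hA hσ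
  refine ⟨a, a', ?_, ha, ha'⟩
  obtain rfl : (inferInstance : DecidableEq (AlgebraicClosure ℚ)) =
      instDecEqAlgebraicClosureRat := Subsingleton.elim _ _
  let M := Submodule.torsionBy ℤ (E.toAffine⁄Qb).Point (m : ℤ)
  have hmem : ∀ P : M, m • P.1 = 0 := fun P => by
    rw [← natCast_zsmul]
    exact (Submodule.mem_torsionBy_iff _ _).mp P.2
  let μ : M → M := fun P => ⟨Affine.Point.map σ.toAlgHom P.1, (Submodule.mem_torsionBy_iff _ _).mpr
    (by rw [natCast_zsmul, ← map_nsmul, hmem, map_zero])⟩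
  have hkill : ∀ Q : (E.toAffine⁄Qb).Point, m • Q = 0 → (a - a') • Q = 0 := by
    intro Q hQ
    obtain ⟨P, rfl⟩ : ∃ P, Affine.Point.map σ.toAlgHom P = Q :=
      ⟨Affine.Point.map σ⁻¹.toAlgHom Q, smul_inv_smul σ Q⟩
    have hP : m • P = 0 := Affine.Point.map_injective σ.toAlgHom (by
      rw [map_nsmul, hQ, map_zero])
    set R : M := ⟨P, (Submodule.mem_torsionBy_iff _ _).mpr (by rw [natCast_zsmul]; exact hP)⟩
    have hfP : m • f R = 0 := by
      rw [← map_nsmul, show m • R = 0 from Subtype.ext hP, map_zero]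
    have h1 : μ (μ R) + (q : ℤ) • R = a • μ R := Subtype.ext (ha m hm P hP)
    have h2 := ha' m hm (f R) hfP
    rw [hfσ R (μ R) rfl, hfσ (μ R) (μ (μ R)) rfl, ← map_zsmul, ← map_zsmul, ← map_add] at h2
    have h3 : (a - a') • μ R = 0 := by
      rw [sub_smul, sub_eq_zero, ← h1]
      exact hf h2
    exact congrArg Subtype.val h3
  have hm0 : m ≠ 0 := fun h => hm (h ▸ dvd_zero q)
  set g := Nat.gcd (a - a').natAbs m with hg
  have hgdvd : g ∣ m := Nat.gcd_dvd_right _ _
  have hg0 : g ≠ 0 := fun h => hm0 (Nat.eq_zero_of_zero_dvd (h ▸ hgdvd))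
  have hgQ : ∀ Q : (E.toAffine⁄Qb).Point, m • Q = 0 → g • Q = 0 := fun Q hQ => by
    refine addOrderOf_dvd_iff_nsmul_eq_zero.mp (Nat.dvd_gcd ?_ ?_)
    · exact Int.natCast_dvd.mp (addOrderOf_dvd_iff_zsmul_eq_zero.mpr (hkill Q hQ))
    · exact addOrderOf_dvd_of_nsmul_eq_zero hQ
  haveI : (E⁄Qb).IsElliptic := inferInstanceAs (E.map (algebraMap ℚ Qb)).IsElliptic
  have hgm : g = m := by
    have hc := FA.EC.natCard_nsmul_eq_zero (E⁄Qb) (n := m) (Nat.cast_ne_zero.mpr hm0)
    have hc' := FA.EC.natCard_nsmul_eq_zero (E⁄Qb) (n := g) (Nat.cast_ne_zero.mpr hg0)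
    haveI : Finite {P : (E⁄Qb).toAffine.Point // g • P = 0} :=
      Nat.finite_of_card_ne_zero (by rw [hc']; exact pow_ne_zero 2 hg0)
    have hle : m ^ 2 ≤ g ^ 2 := by
      rw [← hc, ← hc']
      exact Nat.card_le_card_of_injective (fun P => ⟨P.1, hgQ P.1 P.2⟩)
        fun P Q h => Subtype.ext (congrArg Subtype.val h :)
    exact le_antisymm (Nat.le_of_dvd (Nat.pos_of_ne_zero hm0) hgdvd)
      ((Nat.pow_le_pow_iff_left two_ne_zero).mp hle)
  exact Int.natCast_dvd.mpr (hgm ▸ Nat.gcd_dvd_left _ _)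

end FA.Summary

end
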