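import Fermat.Agent.Root.SummaryFrobeniusFieldCM
import Fermat.Agent.Root.SummaryFrobeniusFields

/-!
# Finitely many Frobenius fields exactly for the exceptional curves

An elliptic curve over `ℚ` with open adelic image has infinitely many fields `ℚ(√(a_q² - 4 q))` at
ordinary primes `q`, and one with image that is not open has one.
-/

set_option autoImplicit false
set_option linter.style.haveILetI false

noncomputable section

open WeierstrassCurve WeierstrassCurve.Affine FA.EC FA.Frob FA.RT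
open scoped WeierstrassCurve.Affine

local notation "Qb" => AlgebraicClosure ℚ
local notation "GQ" => AlgebraicClosure ℚ ≃ₐ[ℚ] AlgebraicClosure ℚ

namespace FA.FrobeniusFields

/-- The adelic open image of level `m` is full prime to `m`. -/
theorem fullImage_of_adelic {E : WeierstrassCurve ℚ} [E.IsElliptic] {m : ℕ} (hm : 0 < m)
    (key : ∀ N : ℕ, N ≠ 0 →
      ∀ φ : Submodule.torsionBy ℤ (E.toAffine⁄Qb).Point (N : ℤ) ≃+
        Submodule.torsionBy ℤ (E.toAffine⁄Qb).Point (N : ℤ),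
      (∀ P, m • P.1 = 0 → φ P = P) →
        ∃ σ : GQ, ∀ P, Affine.Point.map σ.toAlgHom P.1 = (φ P).1) :
    FullImage E (2 * m) := fun N hN φ => by
  have hN0 : N ≠ 0 := by
    rintro rfl
    simp at hN
  refine key N hN0 φ fun P hP => ?_
  have hN' : N • P.1 = 0 := by
    rw [← natCast_zsmul]; exact (Submodule.mem_torsionBy_iff _ _).mp P.2
  obtain rfl : P = 0 := Subtype.ext (AddMonoid.addOrderOf_eq_one_iff.mp
    (Nat.eq_one_of_dvd_coprimes hN.coprime_mul_left_right
      (addOrderOf_dvd_iff_nsmul_eq_zero.mpr hN') (addOrderOf_dvd_iff_nsmul_eq_zero.mpr hP)))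
  exact map_zero φ

end FA.FrobeniusFields

namespace FA.Summary

/-- **Infinitely many Frobenius fields for every curve with open image**: for any finite set of
negative `D`, at infinitely many ordinary primes `q` of good reduction `ℚ(√(a_q² - 4 q))` is none
of the `ℚ(√D)`. The converse holds: the other curves have one Frobenius field. -/
theorem openImage_iff_infinitely_many_frobeniusFields (E : WeierstrassCurve ℚ) [E.IsElliptic]
    [inst : DecidableEq (AlgebraicClosure ℚ)] :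
    (∃ m : ℕ, 0 < m ∧ ∀ (N : ℕ), N ≠ 0 →
      ∀ φ : Submodule.torsionBy ℤ (E.toAffine⁄(AlgebraicClosure ℚ)).Point (N : ℤ) ≃+
        Submodule.torsionBy ℤ (E.toAffine⁄(AlgebraicClosure ℚ)).Point (N : ℤ),
      (∀ P, m • P.1 = 0 → φ P = P) →
        ∃ σ : AlgebraicClosure ℚ ≃ₐ[ℚ] AlgebraicClosure ℚ, ∀ P,
          Affine.Point.map σ.toAlgHom P.1 = (φ P).1) ↔
    ∀ S : Finset ℤ, (∀ D ∈ S, D < 0) →
      {q : ℕ | ∃ _ : Fact q.Prime,
        (∃ C : VariableChange ℚ_[q], HasGoodReduction ℤ_[q] (C • E.map (algebraMap ℚ ℚ_[q]))) ∧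
        ¬ (q : ℤ) ∣ E.LFunction q ∧
        ∀ D ∈ S, ∀ b : ℤ, E.LFunction q ^ 2 - 4 * q ≠ D * b ^ 2}.Infinite := by
  obtain rfl : inst = instDecEqAlgebraicClosureRat := Subsingleton.elim _ _
  constructor
  · rintro ⟨m, hm, key⟩ S hS
    exact FA.FrobeniusFields.infinite_of_fullImage E (by omega)
      (FA.FrobeniusFields.fullImage_of_adelic hm key) S hS
  · intro h
    by_contra hno
    obtain ⟨d, -, hneg, hall⟩ := (not_openImage_iff_frobeniusField_constant E).mp hno
    obtain ⟨q, hq, hgood, hord, hne⟩ :=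
      (h {d} fun D hD => (Finset.mem_singleton.mp hD).symm ▸ hneg).nonempty
    obtain ⟨b, hb⟩ := hall q hgood fun h0 => hord (h0 ▸ dvd_zero _)
    exact hne d (Finset.mem_singleton_self d) b hb

/-- **An exceptional curve is exactly one with finitely many Frobenius fields**: the adelic image
fails to be open iff finitely many `ℚ(√D)` contain all the roots of Frobenius at the good primes
with `a_q ≠ 0`. -/
theorem not_openImage_iff_finitely_many_frobeniusFields (E : WeierstrassCurve ℚ) [E.IsElliptic]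
    [inst : DecidableEq (AlgebraicClosure ℚ)] :
    (¬ ∃ m : ℕ, 0 < m ∧ ∀ (N : ℕ), N ≠ 0 →
      ∀ φ : Submodule.torsionBy ℤ (E.toAffine⁄(AlgebraicClosure ℚ)).Point (N : ℤ) ≃+
        Submodule.torsionBy ℤ (E.toAffine⁄(AlgebraicClosure ℚ)).Point (N : ℤ),
      (∀ P, m • P.1 = 0 → φ P = P) →
        ∃ σ : AlgebraicClosure ℚ ≃ₐ[ℚ] AlgebraicClosure ℚ, ∀ P,
          Affine.Point.map σ.toAlgHom P.1 = (φ P).1) ↔
    ∃ S : Finset ℤ, (∀ D ∈ S, D < 0) ∧ ∀ q : ℕ, ∀ [Fact q.Prime],
      (∃ C : VariableChange ℚ_[q], HasGoodReduction ℤ_[q] (C • E.map (algebraMap ℚ ℚ_[q]))) →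
      E.LFunction q ≠ 0 → ∃ D ∈ S, ∃ b : ℤ, E.LFunction q ^ 2 - 4 * q = D * b ^ 2 := by
  obtain rfl : inst = instDecEqAlgebraicClosureRat := Subsingleton.elim _ _
  refine ⟨fun hno => ?_, fun ⟨S, hS, hall⟩ hopen => ?_⟩
  · obtain ⟨d, -, hneg, hall⟩ := (not_openImage_iff_frobeniusField_constant E).mp hno
    exact ⟨{d}, fun D hD => (Finset.mem_singleton.mp hD).symm ▸ hneg,
      fun q _ hgood ha => ⟨d, Finset.mem_singleton_self d, hall q hgood ha⟩⟩
  · obtain ⟨q, hq, hgood, hord, hne⟩ :=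
      ((openImage_iff_infinitely_many_frobeniusFields E).mp hopen S hS).nonempty
    obtain ⟨D, hD, b, hb⟩ := hall q hgood fun h0 => hord (h0 ▸ dvd_zero _)
    exact hne D hD b hb

/-- **A curve with open image shares its L-function with no exceptional curve**: the coefficients
differ at infinitely many primes. -/
theorem infinite_LFunction_ne_exceptional (E E' : WeierstrassCurve ℚ) [E.IsElliptic]
    [E'.IsElliptic] [inst : DecidableEq (AlgebraicClosure ℚ)]
    (hopen : ∃ m : ℕ, 0 < m ∧ ∀ (N : ℕ), N ≠ 0 →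
      ∀ φ : Submodule.torsionBy ℤ (E.toAffine⁄(AlgebraicClosure ℚ)).Point (N : ℤ) ≃+
        Submodule.torsionBy ℤ (E.toAffine⁄(AlgebraicClosure ℚ)).Point (N : ℤ),
      (∀ P, m • P.1 = 0 → φ P = P) →
        ∃ σ : AlgebraicClosure ℚ ≃ₐ[ℚ] AlgebraicClosure ℚ, ∀ P,
          Affine.Point.map σ.toAlgHom P.1 = (φ P).1)
    (hno : ¬ ∃ m : ℕ, 0 < m ∧ ∀ (N : ℕ), N ≠ 0 →
      ∀ φ : Submodule.torsionBy ℤ (E'.toAffine⁄(AlgebraicClosure ℚ)).Point (N : ℤ) ≃+
        Submodule.torsionBy ℤ (E'.toAffine⁄(AlgebraicClosure ℚ)).Point (N : ℤ),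
      (∀ P, m • P.1 = 0 → φ P = P) →
        ∃ σ : AlgebraicClosure ℚ ≃ₐ[ℚ] AlgebraicClosure ℚ, ∀ P,
          Affine.Point.map σ.toAlgHom P.1 = (φ P).1) :
    {q : ℕ | q.Prime ∧ E.LFunction q ≠ E'.LFunction q}.Infinite := by
  obtain rfl : inst = instDecEqAlgebraicClosureRat := Subsingleton.elim _ _
  obtain ⟨d, -, hneg, hall⟩ := (not_openImage_iff_frobeniusField_constant E').mp hno
  obtain ⟨W, hW⟩ := exists_integralModel E'
  have hΔ := Δ_ne_zero_of_model hW
  refine (((openImage_iff_infinitely_many_frobeniusFields E).mp hopen {d}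
    fun D hD => (Finset.mem_singleton.mp hD).symm ▸ hneg).sdiff
      W.Δ.natAbs.divisors.finite_toSet).mono ?_
  rintro q ⟨⟨hq, -, hord, hne⟩, hqS⟩
  refine ⟨hq.out, fun heq => ?_⟩
  rw [heq] at hord
  obtain ⟨b, hb⟩ := hall q (FA.Exceptional.exists_good_reduction hW q fun hd => hqS
      (Nat.mem_divisors.mpr ⟨Int.natCast_dvd.mp hd, Int.natAbs_ne_zero.mpr hΔ⟩))
    fun h0 => hord (h0 ▸ dvd_zero _)
  exact hne d (Finset.mem_singleton_self d) b (by rw [heq]; exact hb)

end FA.Summary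

end
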