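import Fermat.Agent.GoodReduction.FixedTorsion
import Fermat.Agent.Root.SummaryFrobeniusEverywhere

/-!
# The torsion fixed by a Frobenius element

At every prime `q` a Frobenius element `σ` with trace `a` fixes exactly as many torsion points of
order prime to `q` as the prime-to-`q` part of `|q + 1 - a|`, infinitely many when `a = q + 1`. So
for `j` integral at `q` an algebraic field fixed by `σ` has at most `(√q + 1)²` of them.
-/

set_option autoImplicit false
set_option linter.style.haveILetI false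
set_option linter.unusedSectionVars false

noncomputable section

open WeierstrassCurve WeierstrassCurve.Affine Matrix FA.EC FA.Frob FA.RT FA.RT.Tate FA.GoodReduction
open scoped WeierstrassCurve.Affine

local notation "Qb" => AlgebraicClosure ℚ
local notation "GQ" => AlgebraicClosure ℚ ≃ₐ[ℚ] AlgebraicClosure ℚ

namespace FA.GoodReduction

variable {W : WeierstrassCurve ℤ} [(ratCurve W).IsElliptic]

/-- The fixed points killed by `d`, for `d` containing with each prime its whole part of `k`. -/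
theorem card_fixedTorsion_of_det {σ : GQ} {q : ℕ} {k : ℤ} (hk : k ≠ 0)
    (hdet : ∀ (p : ℕ) [Fact p.Prime], q ≠ p → ∀ B : TateBasis p W,
      (B.rep σ - 1).det = (k : ℤ_[p])) :
    ∀ d : ℕ, ¬ q ∣ d → (∀ p : ℕ, p.Prime → p ∣ d → d.factorization p = k.natAbs.factorization p) →
      d ≠ 0 → Nat.card (fixedTorsion W σ d) = d := by
  intro d
  induction d using Nat.recOnPosPrimePosCoprime with
  | zero => exact fun _ _ h => absurd rfl h
  | one =>
    intro _ _ _
    refine AddSubgroup.card_eq_one.mpr (eq_bot_iff.mpr fun x hx => ?_)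
    rw [AddSubgroup.mem_bot, ← one_nsmul x]
    exact (mem_fixedTorsion.mp hx).2
  | prime_pow p n hp hn =>
    intro hqd hfac _
    haveI := Fact.mk hp
    have hqp : q ≠ p := fun e => hqd (e ▸ dvd_pow_self p hn.ne')
    obtain ⟨B⟩ := exists_tateBasis (p := p) W
    obtain ⟨u, hu⟩ := exists_unit_mul_pow (p := p) hk
    have hn' : n = k.natAbs.factorization p := by
      rw [← hfac p hp (dvd_pow_self p hn.ne'), hp.factorization_pow, Finsupp.single_eq_same]
    rw [hn']
    exact (card_fixedTorsion_pow B ((hdet p hqp B).trans hu)).2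
  | coprime a b ha hb hab iha ihb =>
    intro hqd hfac _
    have key : ∀ c p : ℕ, p.Prime → p ∣ c → Nat.Coprime c (a * b / c) → c ∣ a * b →
        (a * b).factorization p = c.factorization p := fun c p hp hpc hco hc => by
      obtain ⟨e, he⟩ := hc
      have hc0 : 0 < c := Nat.pos_of_ne_zero fun h => by
        rw [h, zero_mul, mul_eq_zero] at he
        omega
      rw [he, Nat.mul_div_cancel_left _ hc0] at hco
      rw [he, Nat.factorization_mul hc0.ne' (fun h => by
        rw [h, mul_zero, mul_eq_zero] at he; omega), Finsupp.add_apply,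
        Nat.factorization_eq_zero_of_not_dvd fun hpe => hp.ne_one
          (Nat.dvd_one.mp (hco.gcd_eq_one ▸ Nat.dvd_gcd hpc hpe)), add_zero]
    rw [card_fixedTorsion_mul σ hab, iha (fun h => hqd (h.mul_right b)) (fun p hp hpa => ?_)
      (by omega), ihb (fun h => hqd (h.mul_left a)) (fun p hp hpb => ?_) (by omega)]
    · rw [← key b p hp hpb (by rw [Nat.mul_div_cancel a (by omega)]; exact hab.symm)
        (dvd_mul_left b a)]
      exact hfac p hp (hpb.mul_left a)
    · rw [← key a p hp hpa (by rw [Nat.mul_div_cancel_left b (by omega)]; exact hab)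
        (dvd_mul_right a b)]
      exact hfac p hp (hpa.mul_right b)

/-- All fixed torsion prime to `q` is killed by the prime-to-`q` part of `k`. -/
theorem exists_fixed_iff {σ : GQ} {q : ℕ} (hq : q.Prime) {k : ℤ} (hk : k ≠ 0)
    (hkill : ∀ N : ℕ, ¬ q ∣ N → ∀ x : Pts W, σ • x = x → N • x = 0 → k • x = 0) (x : Pts W) :
    (σ • x = x ∧ ∃ N : ℕ, ¬ q ∣ N ∧ N • x = 0) ↔
      x ∈ fixedTorsion W σ (k.natAbs / q ^ k.natAbs.factorization q) := by
  have hn := Int.natAbs_ne_zero.mpr hk
  rw [mem_fixedTorsion]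
  refine and_congr_right fun hfix => ⟨?_, fun h => ⟨_, Nat.not_dvd_ordCompl hq hn, h⟩⟩
  rintro ⟨N, hN, hx⟩
  have hco : Nat.Coprime (addOrderOf x) q := (hq.coprime_iff_not_dvd.mpr
    fun h => hN (h.trans (addOrderOf_dvd_of_nsmul_eq_zero hx))).symm
  refine addOrderOf_dvd_iff_nsmul_eq_zero.mp
    ((hco.pow_right (k.natAbs.factorization q)).dvd_of_dvd_mul_left ?_)
  rw [Nat.ordProj_mul_ordCompl_eq_self]
  exact Int.natCast_dvd.mp (addOrderOf_dvd_iff_zsmul_eq_zero.mpr (hkill N hN x hfix hx))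

end FA.GoodReduction

namespace FA.Summary

variable (E : WeierstrassCurve ℚ) [E.IsElliptic] [DecidableEq (AlgebraicClosure ℚ)]
  {q : ℕ} [Fact q.Prime] {A : ValuationSubring (AlgebraicClosure ℚ)} (hA : A.LiesOverPrime q)
  {σ : AlgebraicClosure ℚ ≃ₐ[ℚ] AlgebraicClosure ℚ} (hσ : A.IsFrobeniusAt σ q)

include hA hσ

/-- **The torsion fixed by a Frobenius element** at any prime `q`, with trace `a`: the points of
order prime to `q` fixed by it form a finite group exactly when `a ≠ q + 1`, and then their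
number is the prime-to-`q` part of `|q + 1 - a|`. -/
theorem frobenius_fixedTorsion :
    ∃ a : ℤ, (0 ≤ padicValRat q E.j → a ^ 2 ≤ 4 * q) ∧
      (padicValRat q E.j < 0 → a = (q : ℤ) + 1 ∨ a = -((q : ℤ) + 1)) ∧
      (∀ N : ℕ, ¬ q ∣ N → ∀ P : (E.toAffine⁄(AlgebraicClosure ℚ)).Point, N • P = 0 →
        Affine.Point.map σ.toAlgHom (Affine.Point.map σ.toAlgHom P) + (q : ℤ) • P =
          a • Affine.Point.map σ.toAlgHom P) ∧
      ({P : (E.toAffine⁄(AlgebraicClosure ℚ)).Point | Affine.Point.map σ.toAlgHom P = P ∧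
          ∃ N : ℕ, ¬ q ∣ N ∧ N • P = 0}.Finite ↔ a ≠ (q : ℤ) + 1) ∧
      (a ≠ (q : ℤ) + 1 →
        Nat.card {P : (E.toAffine⁄(AlgebraicClosure ℚ)).Point |
            Affine.Point.map σ.toAlgHom P = P ∧ ∃ N : ℕ, ¬ q ∣ N ∧ N • P = 0} =
          ((q : ℤ) + 1 - a).natAbs / q ^ ((q : ℤ) + 1 - a).natAbs.factorization q) := by
  obtain ⟨a, -, hint, hpole, hquad, htr⟩ := frobenius_trace_independent E hA hσ
  refine ⟨a, hint, hpole, hquad, ?_⟩
  obtain rfl : (inferInstance : DecidableEq (AlgebraicClosure ℚ)) =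
      instDecEqAlgebraicClosureRat := Subsingleton.elim _ _
  have hq : q.Prime := Fact.out
  obtain ⟨W, hW⟩ := FA.Frob.exists_integralModel E
  haveI := FA.Frob.ratCurve_isElliptic_of_Δ (FA.Frob.Δ_ne_zero_of_model hW)
  obtain ⟨e, he⟩ := FA.Root.exists_equiv_of_model hW
  have hdet : ∀ (p : ℕ) [Fact p.Prime], q ≠ p → ∀ B : TateBasis p W,
      (B.rep σ - 1).det = (((q : ℤ) + 1 - a : ℤ) : ℤ_[p]) := by
    intro p _ hqp B
    obtain ⟨hd, ht⟩ := htr W hW p hqp B
    have ht1 := ht 1
    rw [pow_one, FA.HasseBound.pointTrace, trace_fin_two] at ht1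
    rw [det_fin_two] at hd
    rw [det_fin_two]
    simp only [Matrix.sub_apply, one_apply_eq, one_apply_ne zero_ne_one, one_apply_ne one_ne_zero,
      sub_zero]
    push_cast
    linear_combination hd - ht1
  set S := {P : (E.toAffine⁄Qb).Point | Affine.Point.map σ.toAlgHom P = P ∧
    ∃ N : ℕ, ¬ q ∣ N ∧ N • P = 0}
  have hS : S = e '' {x : Pts W | σ • x = x ∧ ∃ N : ℕ, ¬ q ∣ N ∧ N • x = 0} := by
    ext P
    obtain ⟨x, rfl⟩ := e.surjective P
    rw [e.injective.mem_set_image]
    simp only [S, Set.mem_ofPred_eq, ← he, e.injective.eq_iff, ← map_nsmul,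
      AddEquiv.map_eq_zero_iff]
  have hne : a ≠ (q : ℤ) + 1 → S.Finite ∧
      Nat.card S = ((q : ℤ) + 1 - a).natAbs / q ^ ((q : ℤ) + 1 - a).natAbs.factorization q := by
    intro ha
    set k := (q : ℤ) + 1 - a with hkdef
    have hk : k ≠ 0 := sub_ne_zero.mpr (Ne.symm ha)
    have hkill : ∀ N : ℕ, ¬ q ∣ N → ∀ x : Pts W, σ • x = x → N • x = 0 → k • x = 0 := by
      intro N hN x hfix hx
      have h := hquad N hN (e x) (by rw [← map_nsmul, hx, map_zero])
      rw [← he, hfix, ← he, hfix, ← map_zsmul, ← map_zsmul, ← map_add, e.injective.eq_iff] at h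
      rw [hkdef, sub_zsmul, ← h, add_zsmul, one_zsmul]
      abel
    have hset : {x : Pts W | σ • x = x ∧ ∃ N : ℕ, ¬ q ∣ N ∧ N • x = 0} =
        (fixedTorsion W σ (k.natAbs / q ^ k.natAbs.factorization q) : Set (Pts W)) :=
      Set.ext fun x => exists_fixed_iff hq hk hkill x
    set k' := k.natAbs / q ^ k.natAbs.factorization q with hk'
    have hk'0 : k' ≠ 0 := (Nat.ordCompl_pos q (Int.natAbs_ne_zero.mpr hk)).ne'
    have hcard : Nat.card (fixedTorsion W σ k') = k' := by
      refine card_fixedTorsion_of_det hk hdet k' (Nat.not_dvd_ordCompl hq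
        (Int.natAbs_ne_zero.mpr hk)) (fun p hp hpd => ?_) hk'0
      have hpq : p ≠ q := by
        rintro rfl
        exact Nat.not_dvd_ordCompl hp (Int.natAbs_ne_zero.mpr hk) hpd
      rw [hk', Nat.factorization_ordCompl, Finsupp.erase_ne hpq]
    rw [hS, hset]
    haveI : Finite (fixedTorsion W σ k') := Nat.finite_of_card_ne_zero (by rw [hcard]; exact hk'0)
    refine ⟨(Set.toFinite _).image e, ?_⟩
    rw [Nat.card_image_of_injective e.injective]
    exact hcard
  refine ⟨⟨fun hfin ha => ?_, fun ha => (hne ha).1⟩, fun ha => (hne ha).2⟩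
  -- a fixed line on every Tate module at `p ≠ q`
  obtain ⟨p, hp, hpq⟩ : ∃ p, p.Prime ∧ p ≠ q := by
    rcases eq_or_ne q 2 with rfl | h
    exacts [⟨3, Nat.prime_three, by norm_num⟩, ⟨2, Nat.prime_two, h.symm⟩]
  haveI := Fact.mk hp
  obtain ⟨B⟩ := exists_tateBasis (p := p) W
  have h0 : (B.rep σ - 1).det = 0 := by rw [hdet p (Ne.symm hpq) B, ha, sub_self, Int.cast_zero]
  refine infinite_fixed_of_det B h0 ((hfin.preimage e.injective.injOn).subset fun x hx => ?_)
  obtain ⟨hfix, n, hn⟩ := hx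
  rw [Set.mem_preimage, hS, e.injective.mem_set_image]
  exact ⟨hfix, p ^ n, fun h => hpq ((Nat.prime_dvd_prime_iff_eq hq hp).mp
    (hq.dvd_of_dvd_pow h)).symm, hn⟩

/-- **Torsion over a field fixed by a Frobenius element**: if `j` is integral at `q` the points of
order prime to `q` over such a field number at most `(√q + 1)²`, also over an infinite extension
and at a prime of bad reduction. -/
theorem torsion_card_le_of_frobenius_fixed (hj : 0 ≤ padicValRat q E.j)
    (K : IntermediateField ℚ (AlgebraicClosure ℚ)) (hK : ∀ x ∈ K, σ x = x) :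
    {P : (E.toAffine⁄K).Point | ∃ N : ℕ, ¬ q ∣ N ∧ N • P = 0}.Finite ∧
      (Nat.card {P : (E.toAffine⁄K).Point | ∃ N : ℕ, ¬ q ∣ N ∧ N • P = 0} : ℝ) ≤
        (Real.sqrt q + 1) ^ 2 := by
  obtain ⟨a, hint, -, -, hfin, hcard⟩ := frobenius_fixedTorsion E hA hσ
  have ha2 := hint hj
  have hq : (2 : ℤ) ≤ q := by exact_mod_cast (Fact.out : q.Prime).two_le
  have ha : a ≠ (q : ℤ) + 1 := fun h => by
    subst h
    nlinarith
  have hle : a ≤ (q : ℤ) + 1 := by nlinarith
  let f := Affine.Point.map (W' := E.toAffine) (S := ℚ) K.val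
  have hmaps : Set.MapsTo f {P | ∃ N : ℕ, ¬ q ∣ N ∧ N • P = 0}
      {P | Affine.Point.map σ.toAlgHom P = P ∧ ∃ N : ℕ, ¬ q ∣ N ∧ N • P = 0} := by
    rintro P ⟨N, hN, hP⟩
    refine ⟨?_, N, hN, by rw [← map_nsmul, hP, map_zero]⟩
    rw [Affine.Point.map_map, show σ.toAlgHom.comp K.val = K.val from
      AlgHom.ext fun x => hK x x.2]
  have hf : Function.Injective f := Affine.Point.map_injective _
  haveI := (hfin.mpr ha).to_subtype
  have hinj : Function.Injective (hmaps.restrict f _ _) := hmaps.restrict_inj.mpr hf.injOn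
  refine ⟨Set.finite_coe_iff.mp (Finite.of_injective _ hinj),
    (Nat.cast_le.mpr (Nat.card_le_card_of_injective _ hinj)).trans ?_⟩
  rw [hcard ha]
  refine (Nat.cast_le.mpr (Nat.div_le_self _ _)).trans ?_
  rw [Nat.cast_natAbs, Int.cast_abs, abs_le]
  have h1 : |(a : ℝ)| ≤ 2 * Real.sqrt q := by
    rw [show (2 : ℝ) * Real.sqrt q = Real.sqrt (4 * q) by
      rw [Real.sqrt_mul (by norm_num), show (4 : ℝ) = 2 ^ 2 by norm_num,
        Real.sqrt_sq (by norm_num)]]
    exact Real.abs_le_sqrt (by exact_mod_cast ha2)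
  obtain ⟨h2, h3⟩ := abs_le.mp h1
  have h4 := Real.sq_sqrt (Nat.cast_nonneg q : (0 : ℝ) ≤ q)
  push_cast
  constructor <;> nlinarith

end FA.Summary

end
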