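import Fermat.Agent.FrobeniusProblem.Covering
import Fermat.Agent.FrobeniusProblem.Count
import Fermat.Agent.FrobeniusProblem.Davison
import Fermat.Agent.FrobeniusProblem.ErdosGraham
import Fermat.Agent.FrobeniusProblem.Roberts

/-!
# The Frobenius problem

The largest integer that is no natural combination of coprime numbers: Kannan's covering-radius
identity, lower bounds (Davison's sharp one for three numbers), the bound of Erdős and Graham,
Roberts's formula, Johnson's reduction and Selmer's count of the gaps.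
-/

set_option autoImplicit false

noncomputable section

open Finset FA.FrobeniusProblem
open scoped Pointwise

namespace FA.Summary

theorem frobeniusProblem_set_eq {n : ℕ} (a : Fin n → ℕ) (m : ℕ) :
    {k : ℤ | ¬ ∃ (w : Fin n → ℕ) (j : ℕ), (∑ i, (a i : ℤ) * w i) + m * j = k} =
      {k : ℤ | ¬ Rep a m k} := by
  simp [Rep, lin]

variable {n : ℕ} {a : Fin n → ℕ} {m : ℕ}

/-- **The Frobenius number exists**; it is at least `-1`. -/
theorem frobeniusNumber_exists_of_gcd (hm : 0 < m) (hg : Nat.gcd (univ.gcd a) m = 1) :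
    ∃ g : ℤ, IsGreatest
      {k : ℤ | ¬ ∃ (w : Fin n → ℕ) (j : ℕ), (∑ i, (a i : ℤ) * w i) + m * j = k} g ∧ -1 ≤ g := by
  have : NeZero m := ⟨hm.ne'⟩
  rw [frobeniusProblem_set_eq]
  refine ⟨_, isGreatest_frobenius hg, ?_⟩
  refine (isGreatest_frobenius hg).2 fun ⟨w, j, h⟩ => ?_
  have : (0 : ℤ) ≤ (lin a w : ℤ) + m * j := by positivity
  omega

/-- **Kannan's theorem**: `g + a₁ + … + a_n + m` is the covering radius of the simplex
`x ≥ 0, a ⬝ x ≤ 1` with respect to the lattice `a ⬝ z ≡ 0 (mod m)`. -/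
theorem kannan_covering_radius (ha : ∀ i, 0 < a i) (hm : 0 < m)
    (hg : Nat.gcd (univ.gcd a) m = 1) {g : ℤ} (hfrob : IsGreatest
      {k : ℤ | ¬ ∃ (w : Fin n → ℕ) (j : ℕ), (∑ i, (a i : ℤ) * w i) + m * j = k} g) :
    IsLeast {σ : ℝ | 0 ≤ σ ∧ σ • {x : Fin n → ℝ | (∀ i, 0 ≤ x i) ∧ ∑ i, (a i : ℝ) * x i ≤ 1} +
        {x : Fin n → ℝ | ∃ l : Fin n → ℤ, (m : ℤ) ∣ ∑ i, (a i : ℤ) * l i ∧
          x = fun i => (l i : ℝ)} = Set.univ}
      ((g : ℝ) + ∑ i, (a i : ℝ) + m) := by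
  have : NeZero m := ⟨hm.ne'⟩
  rw [frobeniusProblem_set_eq] at hfrob
  rw [eq_top_of_isGreatest hg hfrob]
  convert isLeast_covering ha hg using 1
  · simp only [simplex, lattice]
  · push_cast
    ring

/-- **The lower bound** `n! m a₁ ⋯ a_n ≤ (g + a₁ + … + a_n + m) ^ n`. -/
theorem frobenius_lower_bound (ha : ∀ i, 0 < a i) (hm : 0 < m)
    (hg : Nat.gcd (univ.gcd a) m = 1) {g : ℤ} (hfrob : IsGreatest
      {k : ℤ | ¬ ∃ (w : Fin n → ℕ) (j : ℕ), (∑ i, (a i : ℤ) * w i) + m * j = k} g) :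
    (n.factorial : ℤ) * m * ∏ i, (a i : ℤ) ≤ (g + ∑ i, (a i : ℤ) + m) ^ n := by
  have : NeZero m := ⟨hm.ne'⟩
  rw [frobeniusProblem_set_eq] at hfrob
  rw [eq_top_of_isGreatest hg hfrob, sub_add_eq_add_sub, sub_add_cancel]
  exact_mod_cast le_top_pow ha hg

/-- **Selmer's count of the gaps**, through the least representatives of the residues. -/
theorem selmer_gaps (hm : 0 < m) (hg : Nat.gcd (univ.gcd a) m = 1) :
    ∃ t : ZMod m → ℕ,
      (∀ r, IsLeast {v : ℕ | ∃ w : Fin n → ℕ, (∑ i, a i * w i) = v ∧ (v : ZMod m) = r} (t r)) ∧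
      2 * m * {k : ℕ | ¬ ∃ (w : Fin n → ℕ) (j : ℕ), (∑ i, a i * w i) + m * j = k}.ncard +
        m * (m - 1) = ∑ r ∈ Finset.range m, 2 * t r := by
  have : NeZero m := ⟨hm.ne'⟩
  refine ⟨minRes a m, fun r => ⟨minRes_spec hg r, fun v hv => Nat.sInf_le hv⟩, ?_⟩
  rw [show {k : ℕ | ¬ ∃ (w : Fin n → ℕ) (j : ℕ), (∑ i, a i * w i) + m * j = k} =
    {k : ℕ | ¬ Rep a m (k : ℤ)} from ?_, two_mul_card_gaps hg, mul_sum]
  · refine Finset.sum_nbij' (fun r => r.val) (fun i => (i : ZMod m)) (fun r _ => ?_)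
      (fun i _ => mem_univ _) (fun r _ => ZMod.natCast_zmod_val r) (fun i hi => ?_) (fun r _ => ?_)
    · exact Finset.mem_range.2 (ZMod.val_lt r)
    · exact ZMod.val_natCast_of_lt (Finset.mem_range.1 hi)
    · rw [ZMod.natCast_zmod_val]
  · ext k
    refine not_congr (exists_congr fun w => exists_congr fun j => ?_)
    rw [← Int.natCast_inj]
    simp [lin]

/-- **Johnson's reduction**: `g (d a, m) = d g (a, m) + (d - 1) m` for `d` prime to `m`. -/
theorem johnson_reduction (hm : 0 < m) (hg : Nat.gcd (univ.gcd a) m = 1) {d : ℕ}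
    (hd : d.Coprime m) {g : ℤ} (hfrob : IsGreatest
      {k : ℤ | ¬ ∃ (w : Fin n → ℕ) (j : ℕ), (∑ i, (a i : ℤ) * w i) + m * j = k} g) :
    IsGreatest {k : ℤ | ¬ ∃ (w : Fin n → ℕ) (j : ℕ),
      (∑ i, ((d * a i : ℕ) : ℤ) * w i) + m * j = k} ((d : ℤ) * g + ((d : ℤ) - 1) * m) := by
  have : NeZero m := ⟨hm.ne'⟩
  rw [frobeniusProblem_set_eq] at hfrob
  rw [frobeniusProblem_set_eq (fun i => d * a i) m, eq_top_of_isGreatest hg hfrob]
  convert isGreatest_frobenius (gcd_mul_left hg hd) using 1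
  rw [top_mul_left hg hd]
  push_cast
  ring

/-- **Davison's theorem**: for three coprime numbers `g + a + b + c ≥ √(3 a b c)`. -/
theorem davison_frobenius {a b c : ℕ} (hb : 0 < b) (hc : 0 < c)
    (hg : Nat.gcd (Nat.gcd a b) c = 1) {g : ℤ} (hfrob : IsGreatest
      {k : ℤ | ¬ ∃ x y z : ℕ, (a : ℤ) * x + b * y + c * z = k} g) :
    (3 * a * b * c : ℤ) ≤ (g + a + b + c) ^ 2 ∧
      Real.sqrt (3 * a * b * c) ≤ (g : ℝ) + a + b + c := by
  have : NeZero c := ⟨hc.ne'⟩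
  have hset : {k : ℤ | ¬ ∃ x y z : ℕ, (a : ℤ) * x + b * y + c * z = k} =
      {k : ℤ | ¬ Rep ![a, b] c k} := by
    ext k
    refine not_congr ⟨?_, ?_⟩
    · rintro ⟨x, y, z, h⟩
      exact ⟨![x, y], z, by simpa [lin_two, val2] using h⟩
    · rintro ⟨w, j, h⟩
      exact ⟨w 0, w 1, j, by simpa [lin_two, val2] using h⟩
  have hg' : Nat.gcd (univ.gcd ![a, b]) c = 1 := by
    refine Nat.dvd_one.1 ((Nat.dvd_gcd (Nat.dvd_gcd ?_ ?_) (Nat.gcd_dvd_right _ _)).trans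
      (dvd_of_eq hg))
    · exact (Nat.gcd_dvd_left _ _).trans (Finset.gcd_dvd (f := ![a, b]) (mem_univ 0))
    · exact (Nat.gcd_dvd_left _ _).trans (Finset.gcd_dvd (f := ![a, b]) (mem_univ 1))
  rw [hset] at hfrob
  rw [eq_top_of_isGreatest hg' hfrob]
  have h := davison (a := a) hb hg'
  refine ⟨by linarith, Real.sqrt_le_iff.2 ⟨?_, ?_⟩⟩
  · push_cast
    linarith [(Nat.cast_nonneg (top ![a, b] c) : (0 : ℝ) ≤ _), (Nat.cast_nonneg a : (0 : ℝ) ≤ a),
      (Nat.cast_nonneg b : (0 : ℝ) ≤ b)]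
  · push_cast
    have h' : ((3 * a * b * c : ℤ) : ℝ) ≤ ((((top ![a, b] c : ℤ) + a + b) ^ 2 : ℤ) : ℝ) :=
      Int.cast_le.2 h
    push_cast at h'
    linarith

/-- **The theorem of Erdős and Graham**: for `0 < a₀ < … < a_(n+1)` with gcd `1`,
`g ≤ 2 a_n ⌊a_(n+1) / (n + 2)⌋ - a_(n+1)`. -/
theorem erdos_graham_frobenius {n : ℕ} {a : Fin (n + 2) → ℕ} (hmono : StrictMono a)
    (hpos : 0 < a 0) (hgcd : univ.gcd a = 1) {g : ℤ}
    (hfrob : IsGreatest {k : ℤ | ¬ ∃ w : Fin (n + 2) → ℕ, (∑ i, (a i : ℤ) * w i) = k} g) :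
    g ≤ 2 * (a (Fin.last n).castSucc : ℤ) * ((a (Fin.last (n + 1)) / (n + 2) : ℕ) : ℤ) -
      a (Fin.last (n + 1)) := by
  have hall : ∀ i, 0 < a i := fun i => hpos.trans_le (hmono.monotone (Fin.zero_le i))
  have : NeZero (a (Fin.last (n + 1))) := ⟨(hall _).ne'⟩
  have hg := gcd_castSucc hgcd
  rw [show {k : ℤ | ¬ ∃ w : Fin (n + 2) → ℕ, (∑ i, (a i : ℤ) * w i) = k} =
    {k : ℤ | ¬ Rep (a ∘ Fin.castSucc) (a (Fin.last (n + 1))) k} from
      Set.ext fun k => not_congr (rep_iff_exists_snoc k).symm] at hfrob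
  rw [eq_top_of_isGreatest hg hfrob]
  refine sub_le_sub_right ?_ _
  rw [mul_right_comm]
  exact_mod_cast top_le_erdos_graham hg (hmono.injective.comp (Fin.castSucc_injective _))
    (fun i => hall _) (fun i => hmono (Fin.castSucc_lt_last i))
    fun i => hmono.monotone (Fin.castSucc_le_castSucc_iff.2 (Fin.le_last i))

/-- **Roberts's formula** for an arithmetic progression. -/
theorem roberts_frobenius {a d s : ℕ} (ha : 2 ≤ a) (hs : 1 ≤ s) (hd : d.Coprime a) :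
    IsGreatest {k : ℤ | ¬ ∃ w : Fin (s + 1) → ℕ,
        ∑ i : Fin (s + 1), ((a : ℤ) + (i : ℕ) * d) * (w i : ℤ) = k}
      ((((a - 2) / s + 1 : ℕ) : ℤ) * a + ((d : ℤ) - 1) * ((a : ℤ) - 1) - 1) :=
  roberts ha hs hd

end FA.Summary

end
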