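import Fermat.Agent.Frucht.Basic

/-!
# Frucht's theorem (1938)

* `frucht`: every finite group is the group of automorphisms of a finite simple graph.
* `frucht_fintype`: the same with the vertex type in the universe of the group.
-/

set_option autoImplicit false

noncomputable section

namespace FA.Frucht.Summary

universe u

variable (G : Type u) [Group G] [Finite G]

theorem frucht : ∃ (n : ℕ) (Γ : SimpleGraph (Fin n)), Nonempty (G ≃* (Γ ≃g Γ)) :=
  exists_graph_fin

theorem frucht_fintype : ∃ (V : Type u) (_ : Fintype V) (Γ : SimpleGraph V),
    Nonempty (G ≃* (Γ ≃g Γ)) :=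
  exists_graph

end FA.Frucht.Summary
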