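import Fermat.Agent.FueterPolya.Main

/-!
# The theorem of Fueter and Pólya

`fueter_polya`: a polynomial of degree at most two with real coefficients maps `ℕ × ℕ` bijectively
to `ℕ` exactly when it is one of the two pairing polynomials of Cantor,
`(x + y) (x + y + 1) / 2 + x` or the same with `y` in place of the last `x`.

The proof compares `∑ exp (-s P x y)` with a geometric series, which gives the area condition on
the leading form, and excludes non-zero discriminants by Lindemann's theorem
(`SummaryTranscendence`). Independent of S01.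
-/

set_option autoImplicit false

noncomputable section

namespace FA.Summary

/-- **Fueter–Pólya.** -/
theorem fueter_polya (a b c d e f : ℝ) :
    (∃ g : ℕ × ℕ → ℕ, Function.Bijective g ∧ ∀ x y : ℕ,
      (g (x, y) : ℝ) = a * (x : ℝ) ^ 2 + b * x * y + c * (y : ℝ) ^ 2 + d * x + e * y + f) ↔
    (a = 1 / 2 ∧ b = 1 ∧ c = 1 / 2 ∧ f = 0 ∧
      ((d = 3 / 2 ∧ e = 1 / 2) ∨ (d = 1 / 2 ∧ e = 3 / 2))) := by
  rw [← FA.FueterPolya.isPairing_iff]
  exact ⟨fun ⟨g, hg, h⟩ => ⟨g, hg, fun p => h p.1 p.2⟩,
    fun ⟨g, hg, h⟩ => ⟨g, hg, fun x y => h (x, y)⟩⟩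

end FA.Summary

end
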