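import Fermat.Agent.Curve26.Main
import Fermat.Agent.IsogenyDegrees.ParamThirteen
import Fermat.Agent.Root.SummaryX0FifteenTwentyOne

/-!
# No cyclic isogeny of degree `26` over `ℚ`

* `isogeny_thirteen_j_param`: a stable subgroup of order `13` puts `j` in the family
  `(t² + 5t + 13) (t⁴ + 7t³ + 20t² + 19t + 1)³ / t` of `X₀(13)`.
* `no_cyclic_isogeny_twentySix`: `26` divides the order of no finite Galois stable cyclic subgroup.
* `sextic_twentySix_points`: `y² = x⁶ - 8x⁵ + 8x⁴ - 18x³ + 8x² - 8x + 1`, a model of `X₀(26)`, has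
  no rational point with `x ≠ 0`.

The parameter `t` and a rational root of the cubic of `2`-torsion give a rational `x` with
`x² t² - (x³ - 4x² - 4x + 1) t + 13 x = 0`; then `(-52 x / (x + 1)², 52 y / (x + 1)³)` lies on
`W² = X³ + 49 X² + 728 X + 2704`, whose only abscissa is `0`.
-/

set_option autoImplicit false
set_option linter.style.haveILetI false
set_option linter.unusedSectionVars false

noncomputable section

open WeierstrassCurve FA.KerPoly
open FA.X0Composite (exists_model exists_root_two)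
open scoped WeierstrassCurve.Affine

namespace FA.X0Thirteen

/-- **The rational points of the sextic**: only those over `x = 0`. -/
theorem sextic_twentySix_eq_zero {x y : ℚ}
    (h : y ^ 2 = x ^ 6 - 8 * x ^ 5 + 8 * x ^ 4 - 18 * x ^ 3 + 8 * x ^ 2 - 8 * x + 1) : x = 0 := by
  have h1 : x + 1 ≠ 0 := fun h0 => by
    rw [show x = -1 by linarith] at h
    norm_num at h
    have h52 : IsSquare ((52 : ℕ) : ℚ) := ⟨y, by push_cast; linear_combination -h⟩
    rw [Rat.isSquare_natCast_iff] at h52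
    revert h52
    decide +kernel
  have hc : (52 * y / (x + 1) ^ 3) ^ 2 = (-52 * x / (x + 1) ^ 2) ^ 3 +
      49 * (-52 * x / (x + 1) ^ 2) ^ 2 + 728 * (-52 * x / (x + 1) ^ 2) + 2704 := by
    field_simp
    linear_combination 2704 * h
  have := FA.Curve26.abscissa_eq_zero hc
  simpa [h1] using this

/-- A rational root of a monic integral polynomial with constant `± 1` is `± 1`. -/
theorem eq_one_or_neg_one_of_root {x : ℚ} (p : Polynomial ℤ) (hp : p.Monic)
    (h0 : p.coeff 0 = 1 ∨ p.coeff 0 = -1) (hx : Polynomial.aeval x p = 0) : x = 1 ∨ x = -1 := by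
  obtain ⟨n, rfl⟩ := IsIntegrallyClosed.isIntegral_iff.1 ⟨p, hp, hx⟩
  rw [Polynomial.aeval_algebraMap_apply, map_eq_zero_iff _ (algebraMap ℤ ℚ).injective_int] at hx
  have hd : n ∣ p.coeff 0 := by
    rw [Polynomial.coeff_zero_eq_eval_zero]
    rw [Polynomial.aeval_def, Polynomial.eval₂_eq_eval_map, Algebra.algebraMap_self,
      Polynomial.map_id] at hx
    have := Polynomial.sub_dvd_eval_sub n 0 p
    rwa [sub_zero, hx, zero_sub, dvd_neg] at this
  have hu : IsUnit n := isUnit_of_dvd_unit hd (by rcases h0 with e | e <;> simp [e])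
  rcases Int.isUnit_iff.1 hu with rfl | rfl <;> simp

open Polynomial in
theorem quarticThirteen_ne_zero (t : ℚ) : quarticThirteen t ≠ 0 := fun h => by
  rcases eq_one_or_neg_one_of_root (x := t) (X ^ 4 + 7 * X ^ 3 + 20 * X ^ 2 + 19 * X + 1)
    (by monicity!) (by simp) (by simpa [quarticThirteen, map_ofNat] using h) with rfl | rfl <;>
    norm_num [quarticThirteen] at h

/-- The sextic factor of `j - 1728`. -/
def sexticThirteen (t : ℚ) : ℚ :=
  t ^ 6 + 10 * t ^ 5 + 46 * t ^ 4 + 108 * t ^ 3 + 122 * t ^ 2 + 38 * t - 1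

open Polynomial in
theorem sexticThirteen_ne_zero (t : ℚ) : sexticThirteen t ≠ 0 := fun h => by
  rcases eq_one_or_neg_one_of_root (x := t)
    (X ^ 6 + 10 * X ^ 5 + 46 * X ^ 4 + 108 * X ^ 3 + 122 * X ^ 2 + 38 * X - 1)
    (by monicity!) (by simp) (by simpa [sexticThirteen, map_ofNat] using h) with rfl | rfl <;>
    norm_num [sexticThirteen] at h

variable {E : WeierstrassCurve ℚ} [E.IsElliptic]

/-- The scaling to the model with the invariants of the parameter. -/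
theorem exists_scale {W : WeierstrassCurve ℤ} (hΔ : (W.Δ : ℚ) ≠ 0)
    (hjW : E.j = (W.c₄ : ℚ) ^ 3 / W.Δ) {t : ℚ} (ht : t ≠ 0)
    (hj : E.j * t = (t ^ 2 + 5 * t + 13) * quarticThirteen t ^ 3) :
    ∃ r : ℚ, r ^ 2 * W.c₄ = (t ^ 2 + 5 * t + 13) * (t ^ 2 + 6 * t + 13) * quarticThirteen t ∧
      r ^ 3 * W.c₆ = (t ^ 2 + 5 * t + 13) * (t ^ 2 + 6 * t + 13) ^ 2 * sexticThirteen t := by
  set c4 := (W.c₄ : ℚ) with hc4
  set c6 := (W.c₆ : ℚ) with hc6
  have hrel : c4 ^ 3 - c6 ^ 2 = 1728 * (W.Δ : ℚ) := by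
    rw [hc4, hc6]; exact_mod_cast W.c_relation.symm
  set A := t ^ 2 + 5 * t + 13 with hA
  set B := t ^ 2 + 6 * t + 13 with hB
  set P := quarticThirteen t with hP
  set Q := sexticThirteen t with hQ
  have hA0 : A ≠ 0 := fun h0 => by nlinarith [sq_nonneg (2 * t + 5)]
  have hB0 : B ≠ 0 := fun h0 => by nlinarith [sq_nonneg (t + 3)]
  have hP0 : P ≠ 0 := quarticThirteen_ne_zero t
  have hQ0 : Q ≠ 0 := sexticThirteen_ne_zero t
  have hBQ : A * P ^ 3 - 1728 * t = B * Q ^ 2 := by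
    rw [hA, hB, hP, hQ, quarticThirteen, sexticThirteen]; ring
  have heq : A * P ^ 3 * (W.Δ : ℚ) = c4 ^ 3 * t := by
    rw [← hj, hjW]; field_simp
  have h6 : A * P ^ 3 * c6 ^ 2 = B * Q ^ 2 * c4 ^ 3 := by
    linear_combination -(A * P ^ 3) * hrel - 1728 * heq + c4 ^ 3 * hBQ
  have hc40 : c4 ≠ 0 := fun h0 => by
    rw [h0] at heq
    simp [hA0, hP0, hΔ] at heq
  have hc60 : c6 ≠ 0 := fun h0 => by
    rw [h0] at h6
    simp [hB0, hQ0, hc40] at h6
  set r := B * Q * c4 / (P * c6) with hr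
  have hrP : r * (P * c6) = B * Q * c4 := by
    rw [hr, div_mul_cancel₀ _ (mul_ne_zero hP0 hc60)]
  have hr2 : r ^ 2 * c4 = A * B * P := by
    refine mul_right_cancel₀ (pow_ne_zero 2 (mul_ne_zero hP0 hc60)) ?_
    linear_combination c4 * (r * (P * c6) + B * Q * c4) * hrP - B * h6
  have hr3 : r ^ 3 * c6 = A * B ^ 2 * Q := by
    refine mul_right_cancel₀ (mul_ne_zero hP0 hc40) ?_
    linear_combination r * (P * c6) * hr2 + A * B * P * hrP
  exact ⟨r, hr2, hr3⟩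

/-- A root of the cubic of `2`-torsion on the model with the invariants of the parameter. -/
theorem exists_root_of_param (h2 : HasStableOrder E 2) {t : ℚ} (ht : t ≠ 0)
    (hj : E.j * t = (t ^ 2 + 5 * t + 13) * quarticThirteen t ^ 3) :
    ∃ v : ℚ, v ^ 3 - 3 * ((t ^ 2 + 5 * t + 13) * (t ^ 2 + 6 * t + 13) * quarticThirteen t) * v -
      2 * ((t ^ 2 + 5 * t + 13) * (t ^ 2 + 6 * t + 13) ^ 2 * sexticThirteen t) = 0 := by
  obtain ⟨W, _, hW, hΔ, hjW⟩ := exists_model E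
  obtain ⟨e₀, he₀⟩ := exists_root_two hW h2
  obtain ⟨r, hr2, hr3⟩ := exists_scale hΔ hjW ht hj
  set e := 12 * e₀ + (W.b₂ : ℚ) with hedef
  have hroot : e ^ 3 - 3 * (W.c₄ : ℚ) * e - 2 * (W.c₆ : ℚ) = 0 := by
    rw [hedef]; simp only [c₄, c₆]; push_cast; linear_combination 432 * he₀
  exact ⟨r * e, by linear_combination r ^ 3 * hroot + 3 * r * e * hr2 + 2 * hr3⟩

/-- **No stable cyclic subgroup of order `26`.** -/
theorem false_of_twentySix (h : HasStableOrder E 26) : False := by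
  obtain ⟨t, ht, hj⟩ := exists_param_thirteen
    (FA.X0Composite.hasStableOrder_of_dvd h (by norm_num) (show 13 ∣ 26 by norm_num))
  obtain ⟨v, hv⟩ := exists_root_of_param
    (FA.X0Composite.hasStableOrder_of_dvd h (by norm_num) (show 2 ∣ 26 by norm_num)) ht hj
  simp only [quarticThirteen, sexticThirteen] at hv
  set B := -936 * t - 432 * t ^ 2 - 72 * t ^ 3 with hBdef
  have hB0 : B ≠ 0 := by
    rw [show B = -72 * t * (t ^ 2 + 6 * t + 13) by rw [hBdef]; ring]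
    exact mul_ne_zero (mul_ne_zero (by norm_num) ht) fun h0 => by nlinarith [sq_nonneg (t + 3)]
  set N := -(-338 - 5798 * t - 18126 * t ^ 2 - 22302 * t ^ 3 - 15212 * t ^ 4 - 6548 * t ^ 5 -
    1854 * t ^ 6 - 342 * t ^ 7 - 38 * t ^ 8 - 2 * t ^ 9 +
    (13 - 98 * t - 99 * t ^ 2 - 45 * t ^ 3 - 10 * t ^ 4 - t ^ 5) * v + (1 + t) * v ^ 2) with hN
  obtain ⟨x, hx⟩ : ∃ x, N = B * x := ⟨N / B, (mul_div_cancel₀ N hB0).symm⟩
  have key : B ^ 3 * (x ^ 2 * t ^ 2 - (x ^ 3 - 4 * x ^ 2 - 4 * x + 1) * t + 13 * x) = 0 := by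
    have e : B ^ 3 * (x ^ 2 * t ^ 2 - (x ^ 3 - 4 * x ^ 2 - 4 * x + 1) * t + 13 * x) =
        (B * x) ^ 2 * t ^ 2 * B - t * ((B * x) ^ 3 - 4 * (B * x) ^ 2 * B - 4 * (B * x) * B ^ 2 +
          B ^ 3) + 13 * (B * x) * B ^ 2 := by ring
    rw [e, ← hx, hN, hBdef]
    linear_combination (
      (t ^ 4 + 3 * t ^ 3 + 3 * t ^ 2 + t) * v ^ 3 +
      (-3 * t ^ 8 - 36 * t ^ 7 - 198 * t ^ 6 - 597 * t ^ 5 - 1023 * t ^ 4 - 846 * t ^ 3 - 216
        * t ^ 2 + 39 * t) * v ^ 2 +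
      (-144 * t ^ 7 - 1728 * t ^ 6 - 9216 * t ^ 5 - 25632 * t ^ 4 - 36720 * t ^ 3 - 18720
        * t ^ 2) * v +
      (4 * t ^ 16 + 120 * t ^ 15 + 1740 * t ^ 14 + 15988 * t ^ 13 + 103236 * t ^ 12 + 492372
        * t ^ 11 + 1777680 * t ^ 10 + 4903332 * t ^ 9 + 10306092 * t ^ 8 + 16282656 * t ^ 7 +
        18832428 * t ^ 6 + 15249180 * t ^ 5 + 7972268 * t ^ 4 + 2173236 * t ^ 3 + 4056 * t ^ 2 -
        8788 * t)) * hv
  have hrel := (mul_eq_zero.mp key).resolve_left (pow_ne_zero 3 hB0)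
  have hx0 := sextic_twentySix_eq_zero (x := x)
    (y := 2 * x ^ 2 * t - (x ^ 3 - 4 * x ^ 2 - 4 * x + 1)) (by linear_combination 4 * x ^ 2 * hrel)
  rw [hx0] at hrel
  exact ht (by linear_combination -hrel)

end FA.X0Thirteen

namespace FA.Summary

/-- **The rational points of the sextic model of `X₀(26)`**: none has `x ≠ 0`. -/
theorem sextic_twentySix_points (x y : ℚ)
    (h : y ^ 2 = x ^ 6 - 8 * x ^ 5 + 8 * x ^ 4 - 18 * x ^ 3 + 8 * x ^ 2 - 8 * x + 1) : x = 0 :=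
  FA.X0Thirteen.sextic_twentySix_eq_zero h

variable (E : WeierstrassCurve ℚ) [E.IsElliptic] [inst : DecidableEq (AlgebraicClosure ℚ)]

/-- **The parameter of `X₀(13)`.** -/
theorem isogeny_thirteen_j_param
    (G : AddSubgroup (E.toAffine⁄(AlgebraicClosure ℚ)).Point) (hG : Nat.card G = 13)
    (hst : ∀ σ : AlgebraicClosure ℚ ≃ₐ[ℚ] AlgebraicClosure ℚ, ∀ P ∈ G,
      Affine.Point.map σ.toAlgHom P ∈ G) :
    ∃ t : ℚ, t ≠ 0 ∧
      E.j = (t ^ 2 + 5 * t + 13) * (t ^ 4 + 7 * t ^ 3 + 20 * t ^ 2 + 19 * t + 1) ^ 3 / t := by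
  obtain rfl : inst = instDecEqAlgebraicClosureRat := Subsingleton.elim _ _
  haveI : Fact (Nat.Prime 13) := ⟨by norm_num⟩
  obtain ⟨t, ht, hj⟩ := FA.X0Thirteen.exists_param_thirteen
    (@hasStableOrder_of_subgroup _ _ G _ hG (isAddCyclic_of_prime_card hG) hst)
  exact ⟨t, ht, (eq_div_iff ht).2 hj⟩

/-- **No cyclic isogeny of degree divisible by `26`.** -/
theorem no_cyclic_isogeny_twentySix
    (G : AddSubgroup (E.toAffine⁄(AlgebraicClosure ℚ)).Point) [hcyc : IsAddCyclic G]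
    (hG : Nat.card G ≠ 0)
    (hst : ∀ σ : AlgebraicClosure ℚ ≃ₐ[ℚ] AlgebraicClosure ℚ, ∀ P ∈ G,
      Affine.Point.map σ.toAlgHom P ∈ G) : ¬ 26 ∣ Nat.card G := fun h26 => by
  obtain rfl : inst = instDecEqAlgebraicClosureRat := Subsingleton.elim _ _
  exact FA.X0Thirteen.false_of_twentySix (FA.X0Composite.hasStableOrder_of_dvd
    (@hasStableOrder_of_subgroup _ _ G _ rfl hcyc hst) hG h26)

end FA.Summary

end
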