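import Fermat.Agent.Root.SummarySemistableIsogenies
import Fermat.Agent.Root.SummaryX0TwentySix

/-!
# The cyclic isogenies of curves with full rational `2`-torsion

* `full_two_torsion_cyclic_isogeny_degree`: for an elliptic curve over `ℚ` whose three points of
  order two are rational a finite Galois stable cyclic subgroup with primes up to `19` has order
  `1, 2, 3, 4, 6` or `8`.
* `frey_shape_cyclic_isogeny_degree_iff`: for semistable curves of this kind (the shape of Frey's
  curves) these are exactly the orders, with no condition on the primes;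
  `frey_shape_no_stable_subgroup`: so none has a stable subgroup of prime order `p ≥ 5`.

A line of order two independent of the subgroup lengthens it by a factor `2` on a quotient curve.
-/

set_option autoImplicit false
set_option linter.style.haveILetI false
set_option linter.unusedSectionVars false

noncomputable section

open WeierstrassCurve FA.KerPoly FA.ClassBound
open FA.X0Composite (hasStableOrder_of_dvd)
open FA.SemistableIsogeny (IsSst)
open scoped WeierstrassCurve.Affine
open FA.Frob (ratCurve)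

local notation "Qb" => AlgebraicClosure ℚ
local notation "GQ" => AlgebraicClosure ℚ ≃ₐ[ℚ] AlgebraicClosure ℚ

namespace FA.FullTwo

/-- All points killed by two are rational. -/
def HasFullTwo (E : WeierstrassCurve ℚ) [E.IsElliptic] : Prop :=
  ∀ (σ : GQ) (P : (E.toAffine⁄Qb).Point), 2 • P = 0 → Affine.Point.map σ.toAlgHom P = P

variable {E : WeierstrassCurve ℚ} [E.IsElliptic]

theorem stab_of_two (h2 : HasFullTwo E) {P : (E.toAffine⁄Qb).Point} (hP : addOrderOf P = 2) :
    Stab P := fun σ => ⟨1, by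
  rw [one_zsmul, h2 σ P (by rw [← hP, addOrderOf_nsmul_eq_zero])]⟩

/-- A second line shortens the chain at `2`. -/
theorem exponent_lt (h2 : HasFullTwo E) {d m : ℕ} (hco : Nat.Coprime 2 m) (hbad : Bad 2 d m)
    (hm : HasStableOrder E m) {g : (E.toAffine⁄Qb).Point} {a : ℕ} (hg : addOrderOf g = 2 ^ a)
    (hst : Stab g) (hd : 1 ≤ d) : a < d := by
  by_contra hlt
  obtain ⟨Q, hQ, hQg⟩ := exists_off Nat.prime_two hg
  refine false_of_independent Nat.prime_two hco hbad hm (by omega) hg hst
    (B := 1) (by rwa [pow_one]) (stab_of_two h2 hQ) ?_ (by omega)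
  simpa using hQg

/-- No stable line of order `5, 7, 11, 13, 17, 19`. -/
theorem not_line (h2 : HasFullTwo E) {m : ℕ} (hm : m ∈ ({5, 7, 9, 11, 13, 17, 19} : Finset ℕ)) :
    ¬ HasStableOrder E m := fun h => by
  obtain ⟨Q, hQ, -⟩ := exists_off Nat.prime_two (E := E) (l := 0) (A := 0) (by simp)
  have hst := stab_of_two h2 hQ
  by_cases h13 : m = 13
  · subst h13
    exact FA.X0Thirteen.false_of_twentySix
      (HasStableOrder.mul (m := 2) (n := 13) (by norm_num) ⟨Q, hQ, hst⟩ h)
  have hbad : Bad 2 1 m := by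
    simp only [Finset.mem_insert, Finset.mem_singleton] at hm
    rcases hm with rfl | rfl | rfl | rfl | rfl | rfl | rfl <;>
      first | omega | exact bad_of (by decide) (by decide) (by decide)
  have hco : Nat.Coprime 2 m := by
    simp only [Finset.mem_insert, Finset.mem_singleton] at hm
    rcases hm with rfl | rfl | rfl | rfl | rfl | rfl | rfl <;> norm_num
  have := exponent_lt h2 hco hbad h (a := 1) (by rwa [pow_one]) hst le_rfl
  omega

/-- The degrees. -/
theorem degree_mem (h2 : HasFullTwo E) {n : ℕ} (h : HasStableOrder E n) (hn : n ≠ 0)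
    (hp : ∀ p, p.Prime → p ∣ n → p ≤ 19) : n ∈ ({1, 2, 3, 4, 6, 8} : Finset ℕ) := by
  have hno : ∀ m ∈ ({5, 7, 9, 11, 13, 17, 19} : Finset ℕ), ¬ m ∣ n := fun m hm hd =>
    not_line h2 hm (hasStableOrder_of_dvd h hn hd)
  have hlist : n ∈ degreeList := mem_degreeList h hn fun p hp' hd => by
    have := hp p hp' hd
    have h13 : p ≠ 13 := fun e => hno 13 (by decide) (e ▸ hd)
    interval_cases p <;> first | decide | (norm_num at hp'; done) | omega
  have h16 : ¬ 16 ∣ n := fun hd => by
    obtain ⟨g, hg, hst⟩ := hasStableOrder_of_dvd h hn hd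
    have := exponent_lt h2 (m := 1) (by norm_num) (d := 4)
      (bad_of (by decide) (by decide) (by decide)) hasStableOrder_one (a := 4) hg hst (by norm_num)
    omega
  have h12 : ¬ 12 ∣ n := fun hd => by
    obtain ⟨g, hg, hst⟩ := hasStableOrder_of_dvd h hn ((show 4 ∣ 12 by norm_num).trans hd)
    have := exponent_lt h2 (m := 3) (by norm_num) (d := 2)
      (bad_of (by decide) (by decide) (by decide))
      (hasStableOrder_of_dvd h hn ((show 3 ∣ 12 by norm_num).trans hd)) (a := 2) hg hst
      (by norm_num)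
    omega
  simp only [degreeList, Finset.mem_insert, Finset.mem_singleton] at hlist
  simp only [Finset.mem_insert, Finset.mem_singleton, forall_eq_or_imp, forall_eq] at hno ⊢
  omega

/-- A semistable example with full rational two-torsion. -/
theorem exists_semistable_full (W : WeierstrassCurve ℤ) (hΔ : W.Δ ≠ 0)
    (hgcd : Int.gcd W.Δ W.c₄ = 1) {n d : ℕ} (hn : n ≠ 0) (hdn : d ∣ n)
    (T S P : (ratCurve W).toAffine.Point) (hT : 2 • T = 0) (hS : 2 • S = 0) (hP : n • P = 0)
    (hTS : ∀ i : Fin 2, ∀ j : Fin 2, (i : ℕ) • T + (j : ℕ) • S = 0 →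
      (i : ℕ) = 0 ∧ (j : ℕ) = 0)
    (hk : ∀ k : Fin n, (k : ℕ) • P = 0 → (k : ℕ) = 0) :
    ∃ (E : WeierstrassCurve ℚ) (_ : E.IsElliptic),
      IsSst E ∧ HasFullTwo E ∧ HasStableOrder E d := by
  haveI := FA.Frob.ratCurve_isElliptic_of_Δ hΔ
  haveI : (W.map (Int.castRingHom ℚ)).IsElliptic := this
  refine ⟨ratCurve W, inferInstance, fun q _ => FA.Central.reduction_of_coprime_c₄ W hgcd q,
    fun σ X hX => ?_, hasStableOrder_of_dvd (E := ratCurve W)
      ⟨FA.Torsion.toQb (ratCurve W) P, ?_, fun σ => ⟨1, ?_⟩⟩ hn hdn⟩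
  · set φ := (FA.Torsion.toQb (ratCurve W)).comp (FA.Torsion.twoHom T S hT hS) with hφ
    have hφinj : Function.Injective φ :=
      (FA.Torsion.toQb_injective _).comp (FA.Torsion.twoHom_injective hT hS hTS)
    set A := Submodule.torsionBy ℤ ((ratCurve W).toAffine⁄Qb).Point ((2 : ℕ) : ℤ)
    haveI : Finite A := Nat.finite_of_card_ne_zero (by
      rw [natCard_torsion 2 two_ne_zero]; norm_num)
    let f : ZMod 2 × ZMod 2 → A := fun w => ⟨φ w, mem_torsion.2 (by
      rw [← map_nsmul, (by decide : ∀ v : ZMod 2 × ZMod 2, (2 : ℕ) • v = 0) w, map_zero])⟩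
    obtain ⟨w, hw⟩ := ((Nat.bijective_iff_injective_and_card f).2
      ⟨fun a b hab => hφinj (congrArg Subtype.val hab), by
        rw [natCard_torsion 2 two_ne_zero, Nat.card_prod, Nat.card_zmod]; norm_num⟩).2
      ⟨X, mem_torsion.2 hX⟩
    rw [show X = φ w from (congrArg Subtype.val hw).symm, hφ, AddMonoidHom.comp_apply]
    exact FA.Torsion.toQb_fixed _ σ _
  · rw [addOrderOf_injective _ (FA.Torsion.toQb_injective _),
      addOrderOf_eq_iff (Nat.pos_of_ne_zero hn)]
    exact ⟨hP, fun m hm hm0 h => hm0.ne' (hk ⟨m, hm⟩ h)⟩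
  · rw [one_zsmul]
    exact (FA.Torsion.toQb_fixed _ σ P).symm

/-- Each of the six degrees occurs. -/
theorem exists_example {n : ℕ} (hn : n ∈ ({1, 2, 3, 4, 6, 8} : Finset ℕ)) :
    ∃ (E : WeierstrassCurve ℚ) (_ : E.IsElliptic),
      IsSst E ∧ HasFullTwo E ∧ HasStableOrder E n := by
  have h8 : ∀ d, d ∣ 8 → ∃ (E : WeierstrassCurve ℚ) (_ : E.IsElliptic),
      IsSst E ∧ HasFullTwo E ∧ HasStableOrder E d := fun d hd =>
    exists_semistable_full ⟨1, 0, 0, -1070, 7812⟩ (by decide +kernel) (by decide +kernel) (n := 8)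
      (by norm_num) hd (FA.Torsion.intPoint _ (by decide +kernel) (-36) 18 (by decide +kernel))
      (4 • FA.Torsion.intPoint _ (by decide +kernel) 4 58 (by decide +kernel))
      (FA.Torsion.intPoint _ (by decide +kernel) 4 58 (by decide +kernel)) (by decide +kernel)
      (by decide +kernel) (by decide +kernel) (by decide +kernel) (by decide +kernel)
  have h6 : ∀ d, d ∣ 6 → ∃ (E : WeierstrassCurve ℚ) (_ : E.IsElliptic),
      IsSst E ∧ HasFullTwo E ∧ HasStableOrder E d := fun d hd =>
    exists_semistable_full ⟨1, 0, 1, -19, 26⟩ (by decide +kernel) (by decide +kernel) (n := 6)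
      (by norm_num) hd (FA.Torsion.intPoint _ (by decide +kernel) 3 (-2) (by decide +kernel))
      (3 • FA.Torsion.intPoint _ (by decide +kernel) 1 2 (by decide +kernel))
      (FA.Torsion.intPoint _ (by decide +kernel) 1 2 (by decide +kernel)) (by decide +kernel)
      (by decide +kernel) (by decide +kernel) (by decide +kernel) (by decide +kernel)
  fin_cases hn
  exacts [h8 1 (by norm_num), h8 2 (by norm_num), h6 3 (by norm_num), h8 4 (by norm_num),
    h6 6 (by norm_num), h8 8 (by norm_num)]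

/-- Without a condition on the primes for semistable curves. -/
theorem degree_mem_semistable (h2 : HasFullTwo E) (hss : IsSst E) {n : ℕ}
    (h : HasStableOrder E n) (hn : n ≠ 0) : n ∈ ({1, 2, 3, 4, 6, 8} : Finset ℕ) :=
  degree_mem h2 h hn fun p hp hd => by
    have := FA.SemistableIsogeny.mem_small hss hp (hasStableOrder_of_dvd h hn hd)
    simp only [Finset.mem_insert, Finset.mem_singleton] at this
    omega

end FA.FullTwo

namespace FA.Summary

open FA.FullTwo

variable (E : WeierstrassCurve ℚ) [E.IsElliptic] [inst : DecidableEq (AlgebraicClosure ℚ)]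

/-- **Cyclic isogenies of curves with full rational `2`-torsion.** -/
theorem full_two_torsion_cyclic_isogeny_degree
    (h2 : ∀ (σ : AlgebraicClosure ℚ ≃ₐ[ℚ] AlgebraicClosure ℚ)
      (P : (E.toAffine⁄(AlgebraicClosure ℚ)).Point), 2 • P = 0 →
        Affine.Point.map σ.toAlgHom P = P)
    (G : AddSubgroup (E.toAffine⁄(AlgebraicClosure ℚ)).Point) [hcyc : IsAddCyclic G]
    (hG : Nat.card G ≠ 0) (hp : ∀ p, p.Prime → p ∣ Nat.card G → p ≤ 19)
    (hst : ∀ σ : AlgebraicClosure ℚ ≃ₐ[ℚ] AlgebraicClosure ℚ, ∀ P ∈ G,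
      Affine.Point.map σ.toAlgHom P ∈ G) :
    Nat.card G ∈ ({1, 2, 3, 4, 6, 8} : Finset ℕ) := by
  obtain rfl : inst = instDecEqAlgebraicClosureRat := Subsingleton.elim _ _
  exact degree_mem h2 (@hasStableOrder_of_subgroup _ _ G _ rfl hcyc hst) hG hp

omit E in
/-- **Semistable curves with full rational `2`-torsion**: the degrees of cyclic isogenies are
exactly `1, 2, 3, 4, 6, 8`. -/
theorem frey_shape_cyclic_isogeny_degree_iff {N : ℕ} (hN : N ≠ 0) :
    (∃ (E : WeierstrassCurve ℚ) (_ : E.IsElliptic),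
      (∀ p : ℕ, ∀ [Fact p.Prime], ∃ C : VariableChange ℚ_[p],
        HasGoodReduction ℤ_[p] (C • E.map (algebraMap ℚ ℚ_[p])) ∨
          HasMultiplicativeReduction ℤ_[p] (C • E.map (algebraMap ℚ ℚ_[p]))) ∧
      (∀ (σ : AlgebraicClosure ℚ ≃ₐ[ℚ] AlgebraicClosure ℚ)
        (P : (E.toAffine⁄(AlgebraicClosure ℚ)).Point), 2 • P = 0 →
          Affine.Point.map σ.toAlgHom P = P) ∧
      ∃ G : AddSubgroup (E.toAffine⁄(AlgebraicClosure ℚ)).Point, Nat.card G = N ∧ IsAddCyclic G ∧
        ∀ σ : AlgebraicClosure ℚ ≃ₐ[ℚ] AlgebraicClosure ℚ, ∀ Q ∈ G,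
          Affine.Point.map σ.toAlgHom Q ∈ G) ↔
      N ∈ ({1, 2, 3, 4, 6, 8} : Finset ℕ) := by
  obtain rfl : inst = instDecEqAlgebraicClosureRat := Subsingleton.elim _ _
  refine ⟨fun ⟨E, _, hss, h2, G, hG, hcyc, hst⟩ => ?_, fun h => ?_⟩
  · subst hG
    exact degree_mem_semistable h2 @hss (@hasStableOrder_of_subgroup _ _ G _ rfl hcyc hst) hN
  · obtain ⟨E, hE, hss, h2, hord⟩ := exists_example h
    exact ⟨E, hE, @hss, h2, hord.exists_subgroup⟩

/-- **Irreducibility for the shape of Frey's curves**: no stable subgroup of prime order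
`p ≥ 5`. -/
theorem frey_shape_no_stable_subgroup
    (h : ∀ p : ℕ, ∀ [Fact p.Prime], ∃ C : VariableChange ℚ_[p],
      HasGoodReduction ℤ_[p] (C • E.map (algebraMap ℚ ℚ_[p])) ∨
        HasMultiplicativeReduction ℤ_[p] (C • E.map (algebraMap ℚ ℚ_[p])))
    (h2 : ∀ (σ : AlgebraicClosure ℚ ≃ₐ[ℚ] AlgebraicClosure ℚ)
      (P : (E.toAffine⁄(AlgebraicClosure ℚ)).Point), 2 • P = 0 →
        Affine.Point.map σ.toAlgHom P = P)
    {p : ℕ} (hp : p.Prime) (h5 : 5 ≤ p)
    (G : AddSubgroup (E.toAffine⁄(AlgebraicClosure ℚ)).Point) (hG : Nat.card G = p) :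
    ¬ ∀ σ : AlgebraicClosure ℚ ≃ₐ[ℚ] AlgebraicClosure ℚ, ∀ P ∈ G,
      Affine.Point.map σ.toAlgHom P ∈ G := fun hst => by
  obtain rfl : inst = instDecEqAlgebraicClosureRat := Subsingleton.elim _ _
  haveI := Fact.mk hp
  have := degree_mem_semistable h2 @h
    (@hasStableOrder_of_subgroup _ _ G _ hG (isAddCyclic_of_prime_card hG) hst) hp.ne_zero
  simp only [Finset.mem_insert, Finset.mem_singleton] at this
  rcases this with rfl | rfl | rfl | rfl | rfl | rfl <;> first | omega | norm_num at hp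

end FA.Summary

end
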