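import Fermat.Agent.FullTwoTorsionRank.Example
import Mathlib.RingTheory.RootsOfUnity.AlgebraicallyClosed

/-!
# Summary: the geometric rank bound for elliptic curves with full two-torsion over `k(T)`

Let `k` be algebraically closed with `2 ≠ 0` and `e₀, e₁, e₂ ∈ k[T]` distinct, with differences of
degree at most `2 m`, `0 < m`. Let `N` be the number of places of the line, infinity included (where
`eᵢ - eⱼ` is read as a form of degree `2 m`), at which exactly two roots meet plus twice the number
at which all three do (`conductor_eq`); for a minimal model this is the degree of the conductor of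
`y² = (x - e₀) (x - e₁) (x - e₂)`. Minimality is not needed for any of the bounds.

The doubles have index at most `2 ^ (N - 2)` in every characteristic but two (`index_doubles_le`),
so finitely generated points have rank at most `N - 4` (`rank_le_of_fg`). In characteristic zero
the points are finitely generated unless the curve is constant, twists of constant curves included,
so then the rank is at most `N - 4 ≤ 6 m - 4` (`rank_le_conductor`, `rank_le_of_j`,
`rank_le_level`): at most two for a rational elliptic surface with full two-torsion.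

The bound is attained for unbounded `N`: in characteristic `p` the curve
`y² = x (x - 1) (x - 1 + T ^ d)`, `d = p ^ f + 1`, has `N = d + 2`, doubles of index exactly
`2 ^ (N - 2)` and `N - 4` independent points (`ulmer_sharp`, Ulmer's points); in characteristic
zero its rank is at most `d - 2` (`legendre_char_zero`).

Not claimed: curves without full two-torsion, Shioda's bound by the Hodge numbers, bases of higher
genus, finite generation in positive characteristic.
-/

set_option autoImplicit false
set_option linter.unusedSectionVars false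
set_option linter.style.haveILetI false

noncomputable section

open WeierstrassCurve Polynomial
open FA.FunctionFieldMW FA.FunctionFieldRank FA.NeronSpecialisation FA.FullTwoTorsionRank
open scoped Classical

namespace FA.FullTwoTorsionRank.Summary

variable {k : Type*} [Field k] {e : Fin 3 → k[X]} {m : ℕ}

/-- **The conductor degree, spelt out.** -/
theorem conductor_eq (e : Fin 3 → k[X]) (m : ℕ) :
    conductorTwo e m =
      (∑ t ∈ ((e 0 - e 1) * (e 0 - e 2) * (e 1 - e 2)).roots.toFinset,
        if (e 0 - e 1).eval t = 0 ∧ (e 0 - e 2).eval t = 0 then 2 else 1) +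
      if (e 0 - e 1).natDegree < 2 * m ∨ (e 0 - e 2).natDegree < 2 * m ∨
          (e 1 - e 2).natDegree < 2 * m then
        (if (e 0 - e 1).natDegree < 2 * m ∧ (e 0 - e 2).natDegree < 2 * m then 2 else 1) else 0 := by
  have hdisj : Disjoint
      (((e 0 - e 1) * (e 0 - e 2) * (e 1 - e 2)).roots.toFinset.map Function.Embedding.some)
      (if Vanish e m none 0 1 ∨ Vanish e m none 0 2 ∨ Vanish e m none 1 2
        then {none} else (∅ : Finset (Option k))) := by
    split_ifs <;> simp
  rw [conductorTwo, badSet, Finset.sum_union hdisj, Finset.sum_map]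
  congr 1
  simp only [Vanish]
  split_ifs <;> simp [placeCount, Vanish, *]

variable [IsAlgClosed k]

/-- **The doubles have index at most `2 ^ (N - 2)`.** -/
theorem index_doubles_le (he : Function.Injective e)
    (hdeg : ∀ i j, (e i - e j).natDegree ≤ 2 * m) (hm : 0 < m) (h2 : (2 : k) ≠ 0) :
    2 ≤ conductorTwo e m ∧
      (nsmulAddMonoidHom (α := (rootCurve (genRoots e)).toAffine.Point) 2).range.index ≠ 0 ∧
      (nsmulAddMonoidHom (α := (rootCurve (genRoots e)).toAffine.Point) 2).range.index ≤
        2 ^ (conductorTwo e m - 2) :=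
  FA.FullTwoTorsionRank.index_doubles_le he hdeg hm h2

/-- **Finitely generated points have rank at most `N - 4`.** -/
theorem rank_le_of_fg (he : Function.Injective e)
    (hdeg : ∀ i j, (e i - e j).natDegree ≤ 2 * m) (hm : 0 < m) (h2 : (2 : k) ≠ 0)
    (hfg : AddGroup.FG (rootCurve (genRoots e)).toAffine.Point) :
    Module.finrank ℤ (rootCurve (genRoots e)).toAffine.Point + 4 ≤ conductorTwo e m :=
  haveI := hfg
  FA.FullTwoTorsionRank.rank_le he hdeg hm h2

/-- **The rank bound in characteristic zero** for every curve that is not constant. -/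
theorem rank_le_conductor [CharZero k] (he : Function.Injective e)
    (hdeg : ∀ i j, (e i - e j).natDegree ≤ 2 * m) (hm : 0 < m)
    (hE : ¬∃ (E₀ : WeierstrassCurve k) (C₀ : VariableChange (RatFunc k)),
      C₀ • rootCurve (genRoots e) = E₀.map (algebraMap k (RatFunc k))) :
    AddGroup.FG (rootCurve (genRoots e)).toAffine.Point ∧
      Module.finrank ℤ (rootCurve (genRoots e)).toAffine.Point + 4 ≤ conductorTwo e m := by
  haveI := (rootData (genRoots_injective he)).isElliptic
    (FA.NeronSpecialisation.two_ne_zero_ratFunc (two_ne_zero (α := k)))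
  have hfg := FA.LangNeron.fg_point_ratFunc (rootCurve (genRoots e)) hE
  exact ⟨hfg, rank_le_of_fg he hdeg hm two_ne_zero hfg⟩

/-- The same for non-constant invariant. -/
theorem rank_le_of_j [CharZero k] (he : Function.Injective e)
    (hdeg : ∀ i j, (e i - e j).natDegree ≤ 2 * m) (hm : 0 < m)
    [(rootCurve (genRoots e)).IsElliptic]
    (hj : ∀ c : k, (rootCurve (genRoots e)).j ≠ algebraMap k (RatFunc k) c) :
    Module.finrank ℤ (rootCurve (genRoots e)).toAffine.Point + 4 ≤ conductorTwo e m :=
  (rank_le_conductor he hdeg hm (FA.LangNeron.not_constant_of_j _ hj)).2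

/-- **At level `m` the rank is at most `6 m - 4`.** -/
theorem rank_le_level [CharZero k] (he : Function.Injective e)
    (hdeg : ∀ i j, (e i - e j).natDegree ≤ 2 * m) (hm : 0 < m)
    (hE : ¬∃ (E₀ : WeierstrassCurve k) (C₀ : VariableChange (RatFunc k)),
      C₀ • rootCurve (genRoots e) = E₀.map (algebraMap k (RatFunc k))) :
    conductorTwo e m ≤ 6 * m ∧
      Module.finrank ℤ (rootCurve (genRoots e)).toAffine.Point ≤ 6 * m - 4 := by
  have h := (rank_le_conductor he hdeg hm hE).2
  have h' := FA.FullTwoTorsionRank.conductorTwo_le he hdeg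
  exact ⟨h', by omega⟩

/-- **The bound is sharp in characteristic `p`**, for unbounded conductor. -/
theorem ulmer_sharp {p f : ℕ} [Fact p.Prime] [CharP k p] (hp2 : p ≠ 2) (hf : f ≠ 0) :
    ∃ (e : Fin 3 → k[X]) (m : ℕ), Function.Injective e ∧
      (∀ i j, (e i - e j).natDegree ≤ 2 * m) ∧ 0 < m ∧
      conductorTwo e m = p ^ f + 3 ∧
      (nsmulAddMonoidHom (α := (rootCurve (genRoots e)).toAffine.Point) 2).range.index =
        2 ^ (conductorTwo e m - 2) ∧
      ∃ Q : Fin (conductorTwo e m - 4) → (rootCurve (genRoots e)).toAffine.Point,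
        LinearIndependent ℤ Q := by
  obtain ⟨j, hj⟩ := even_d (f := f) hp2
  rw [← two_mul] at hj
  have hd : 0 < 2 * j := by omega
  have hne : ((2 * j : ℕ) : k) ≠ 0 := hj ▸ natCast_d_ne_zero hf
  have h2 : (2 : k) ≠ 0 := fun e => hp2 ((Nat.prime_dvd_prime_iff_eq Fact.out Nat.prime_two).1
    ((CharP.cast_eq_zero_iff k p 2).1 (by exact_mod_cast e)))
  haveI : NeZero ((p ^ f + 1 : ℕ) : k) := ⟨natCast_d_ne_zero hf⟩
  obtain ⟨ζ, hζ⟩ := HasEnoughRootsOfUnity.exists_primitiveRoot k (p ^ f + 1)
  have hN := conductorTwo_legendreRoots (k := k) (by omega : 0 < j) hne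
  have hcurve : rootCurve (genRoots (legendreRoots k (2 * j))) =
      ulmerCurve (tParam p f : RatFunc k) := by
    rw [rootCurve_legendreRoots, tParam, ← hj]
  obtain ⟨-, hi0, hi⟩ := index_doubles_le (legendreRoots_injective hd) legendreRoots_degree
    (by omega : 0 < j) h2
  refine ⟨legendreRoots k (2 * j), j, legendreRoots_injective hd, legendreRoots_degree, by omega,
    by omega, ?_, ?_⟩
  · refine le_antisymm hi ?_
    rw [hN, Nat.add_sub_cancel, hcurve, ← hj]
    exact le_index_doubles hp2 hζ (hcurve ▸ hi0)
  · rw [hN, show 2 * j + 2 - 4 = p ^ f - 1 by omega, hcurve]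
    exact exists_independent_points hp2 hζ

/-- **The same curves in characteristic zero**: rank at most `d - 2`. -/
theorem legendre_char_zero [CharZero k] {j : ℕ} (hj : 0 < j) :
    Module.finrank ℤ (ulmerCurve (algebraMap k[X] (RatFunc k) (X ^ (2 * j)))).toAffine.Point ≤
      2 * j - 2 := by
  set t := algebraMap k[X] (RatFunc k) (X ^ (2 * j)) with ht
  have hd : 0 < 2 * j := by omega
  have hE : ¬∃ (E₀ : WeierstrassCurve k) (C₀ : VariableChange (RatFunc k)),
      C₀ • ulmerCurve t = E₀.map (algebraMap k (RatFunc k)) := by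
    have h0 : t ≠ 0 := RatFunc.algebraMap_ne_zero (pow_ne_zero _ X_ne_zero)
    have h1 : t ≠ 1 := fun e => by
      rw [ht, ← map_one (algebraMap k[X] (RatFunc k))] at e
      have := congrArg (eval 0) (RatFunc.algebraMap_injective k e)
      simp [hj.ne'] at this
    haveI := isElliptic_ulmerCurve (t := t)
      (FA.NeronSpecialisation.two_ne_zero_ratFunc (two_ne_zero (α := k))) h0 h1
    refine FA.LangNeron.not_constant_of_j _ fun c e => ?_
    have h : (ulmerCurve t).c₄ ^ 3 = (ulmerCurve t).Δ * algebraMap k (RatFunc k) c := by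
      rw [← e, WeierstrassCurve.j, ← WeierstrassCurve.coe_Δ', ← mul_assoc, Units.mul_inv, one_mul]
    rw [ulmerCurve_Δ, ulmerCurve_c₄, ht,
      IsScalarTower.algebraMap_apply k k[X] (RatFunc k), Polynomial.algebraMap_eq] at h
    have h' : (2 ^ 4 * ((X ^ (2 * j)) ^ 2 - X ^ (2 * j) + 1)) ^ 3 =
        2 ^ 4 * (X ^ (2 * j)) ^ 2 * (1 - X ^ (2 * j)) ^ 2 * Polynomial.C c := by
      apply RatFunc.algebraMap_injective k
      simpa [map_ofNat] using h
    have h0' := congrArg (eval 0) h'
    simp [hj.ne'] at h0'
  have hcurve := rootCurve_legendreRoots (k := k) (2 * j)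
  have h := (rank_le_conductor (legendreRoots_injective hd) legendreRoots_degree hj
    (by rw [hcurve]; exact hE)).2
  rw [conductorTwo_legendreRoots hj (Nat.cast_ne_zero.2 hd.ne'), hcurve] at h
  change Module.finrank ℤ (ulmerCurve t).toAffine.Point + 4 ≤ 2 * j + 2 at h
  omega

end FA.FullTwoTorsionRank.Summary
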