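import Fermat.Agent.FunctionFieldRank.Exact

/-!
# Mordell–Weil over `F_q(u)` and the exact rank of the Legendre curves

For a finite field `F` of odd characteristic `p` with a primitive `d`-th root of unity,
`d = p ^ f + 1`, the points over `F(u)` of `y² = x (x + 1) (x + u ^ d)` (written in `X = x + 1`)
form a finitely generated group of rank exactly `p ^ f - 1 = d - 2`, and their doubles have index
`2 ^ d` (`legendre_exact_rank`). Such curves with a given `p` exist for every `f ≥ 1`
(`exact_rank_unbounded`). The descent rests on a height theory on `F(u)` (`heightData`, not a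
global instance) and holds for every elliptic curve (`mordellWeil_of_finite_quotient`).

Not claimed: the torsion subgroup, generators, `p = 2`, the group over an infinite constant field,
or weak Mordell–Weil for other curves.
-/

set_option autoImplicit false
set_option linter.style.haveILetI false

noncomputable section

open WeierstrassCurve
open scoped Classical

namespace FA.FunctionFieldRank.Summary

/-- **The descent for every elliptic curve over `F(u)`.** -/
theorem mordellWeil_of_finite_quotient {F : Type*} [Field F] [Finite F]
    (E : WeierstrassCurve (RatFunc F)) [E.IsElliptic]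
    (h : (nsmulAddMonoidHom (α := E.toAffine.Point) 2).range.FiniteIndex) :
    AddGroup.FG E.toAffine.Point :=
  fg_of_finiteIndex_two h

/-- **Finitely generated of rank exactly `d - 2`**, with `E / 2 E` of order `2 ^ d`. -/
theorem legendre_exact_rank {p f : ℕ} [Fact p.Prime] (hp2 : p ≠ 2) (hf : f ≠ 0) {F : Type*}
    [Field F] [Finite F] [CharP F p] {ζ : F} (hζ : IsPrimitiveRoot ζ (p ^ f + 1)) :
    ∃ t : RatFunc F, t = RatFunc.X ^ (p ^ f + 1) ∧
      AddGroup.FG (ulmerCurve t).toAffine.Point ∧
      Module.finrank ℤ (ulmerCurve t).toAffine.Point = p ^ f - 1 ∧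
      (nsmulAddMonoidHom (α := (ulmerCurve t).toAffine.Point) 2).range.index = 2 ^ (p ^ f + 1) :=
  ⟨tParam p f, by rw [tParam, map_pow, RatFunc.algebraMap_X], fg_points hp2 hf hζ,
    finrank_points hp2 hf hζ, index_doubles hp2 hf hζ⟩

/-- **Exact ranks `p ^ f - 1`** over the field with `p ^ (2 f)` constants. -/
theorem exact_rank_unbounded {p f : ℕ} [Fact p.Prime] (hp2 : p ≠ 2) (hf : f ≠ 0) :
    ∃ E : WeierstrassCurve (RatFunc (GaloisField p (2 * f))), ∃ _ : E.IsElliptic,
      (∀ c, E.j ≠ RatFunc.C c) ∧ AddGroup.FG E.toAffine.Point ∧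
      Module.finrank ℤ E.toAffine.Point = p ^ f - 1 := by
  obtain ⟨ζ, hζ⟩ := exists_primitiveRoot_galoisField (p := p) hf
  haveI := isElliptic_tParam (F := GaloisField p (2 * f)) p f hp2
  exact ⟨ulmerCurve (tParam p f), inferInstance, j_tParam_ne p f hp2, fg_points hp2 hf hζ,
    finrank_points hp2 hf hζ⟩

end FA.FunctionFieldRank.Summary
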