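import Fermat.Agent.FunctionFieldBSD.TraceSum
import Fermat.Agent.FunctionFieldBSD.Series
import Fermat.Agent.Root.SummaryFunctionFieldRankExact

/-!
# The rank part of Birch and Swinnerton-Dyer for Ulmer's curves

`E : y² = x (x + 1) (x + u ^ d)` over `F_q(u)`, `q = p ^ (2 f)`, `d = p ^ f + 1`, in `X = x + 1`.
The trace of the fibre at `u` of a finite field `k` is `a = - ∑ χ ((X - 1) X (X - 1 + u ^ d))`, so
the fibre has `#k - a` affine points (`card_fibre`); the fibre at infinity is that at `0` of the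
same family (`fibre_inv`). Over `k` with `q ^ n` elements the traces add up to `-(d - 2) q ^ n`
(`total_trace`), so with `L = exp (∑ Aₙ T ^ n / n)` one has `L = (1 - q T) ^ (d - 2)`
(`lFunction_eq`) and its order of vanishing at `T = 1 / q` is the rank (`bsd_rank`; Ulmer 2002).

Not claimed: the equality of this `L` with the Euler product, the leading coefficient, or `Ш`.
-/

set_option autoImplicit false
set_option linter.style.haveILetI false
set_option linter.unusedSectionVars false

noncomputable section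

open WeierstrassCurve Finset
open FA.FunctionFieldRank (ulmerCurve ulmerCurve_equation)
open scoped Classical

namespace FA.FunctionFieldBSD.Summary

variable {k : Type*} [Field k] [Fintype k]

/-- The trace of the fibre at `u`. -/
def fibreTrace (d : ℕ) (u : k) : ℤ :=
  -∑ x : k, quadraticChar k ((x - 1) * x * (x - 1 + u ^ d))

/-- The sum of the traces over the projective line, infinity carrying the fibre at `0`. -/
def totalTrace (k : Type*) [Field k] [Fintype k] (d : ℕ) : ℤ :=
  ∑ u : k, fibreTrace d u + fibreTrace d (0 : k)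

/-- **The trace counts points.** -/
theorem card_fibre (hk : ringChar k ≠ 2) (d : ℕ) (u : k) :
    (#(Finset.univ.filter fun P : k × k => (ulmerCurve (u ^ d)).toAffine.Equation P.1 P.2) : ℤ) =
      Fintype.card k - fibreTrace d u := by
  rw [Finset.card_eq_sum_card_fiberwise (f := fun P : k × k => P.1) (t := Finset.univ)
    fun _ _ => Finset.mem_univ _, Nat.cast_sum, fibreTrace, sub_neg_eq_add,
    show (Fintype.card k : ℤ) = ∑ _x : k, (1 : ℤ) by simp, ← Finset.sum_add_distrib]
  refine Finset.sum_congr rfl fun x _ => ?_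
  have h := quadraticChar_card_sqrts hk ((x - 1) * x * (x - 1 + u ^ d))
  rw [Finset.filter_filter, add_comm, ← h]
  refine congrArg _ (Finset.card_bij (fun P _ => P.2) (fun P hP => ?_) (fun P hP Q hQ e => ?_)
    fun y hy => ⟨(x, y), ?_, rfl⟩)
  · obtain ⟨h1, rfl⟩ := (Finset.mem_filter.1 hP).2
    simpa [ulmerCurve_equation] using h1
  · obtain ⟨-, h1⟩ := (Finset.mem_filter.1 hP).2
    obtain ⟨-, h2⟩ := (Finset.mem_filter.1 hQ).2
    exact Prod.ext (h1.trans h2.symm) e
  · simp only [Set.mem_toFinset, Set.mem_ofPred_eq] at hy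
    simp [ulmerCurve_equation, hy]

/-- **The fibre at infinity**: the family is unchanged by `u ↦ 1 / u`. -/
theorem fibre_inv {d : ℕ} (hd : Even d) {u : k} (hu : u ≠ 0) :
    fibreTrace d u⁻¹ = fibreTrace d u := by
  obtain ⟨j, rfl⟩ := hd
  simp only [fibreTrace, neg_inj]
  have ht : u ^ (j + j) ≠ 0 := pow_ne_zero _ hu
  let e : k ≃ k := (Equiv.subRight (1 : k)).trans
    ((Equiv.mulLeft₀ _ ht).trans (Equiv.addRight 1))
  conv_rhs => rw [← e.sum_comp]
  refine Finset.sum_congr rfl fun y _ => ?_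
  have he : e y = u ^ (j + j) * (y - 1) + 1 := rfl
  rw [he, inv_pow,
    show (u ^ (j + j) * (y - 1) + 1 - 1) * (u ^ (j + j) * (y - 1) + 1) *
        (u ^ (j + j) * (y - 1) + 1 - 1 + u ^ (j + j)) =
      (u ^ (3 * j)) ^ 2 * ((y - 1) * y * (y - 1 + (u ^ (j + j))⁻¹)) by field_simp; ring,
    map_mul _ ((u ^ (3 * j)) ^ 2), quadraticChar_sq_one' (pow_ne_zero _ hu), one_mul]

/-- **The traces add up to `-(d - 2) #k`.** -/
theorem total_trace {p f : ℕ} [Fact p.Prime] (hp2 : p ≠ 2) [CharP k p]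
    (hdvd : p ^ f + 1 ∣ Fintype.card k - 1) :
    totalTrace k (p ^ f + 1) = -(((p ^ f - 1) * Fintype.card k : ℕ) : ℤ) := by
  have hk : ringChar k ≠ 2 := by rwa [ringChar.eq k p]
  have hs : ∀ u : k, (fibreTrace (p ^ f + 1) u : ℂ) =
      -∑ x : k, quadC k x * quadC k (x + 1) * quadC k (x + u ^ (p ^ f + 1)) := fun u => by
    rw [fibreTrace, Int.cast_neg, Int.cast_sum, neg_inj, ← Equiv.sum_comp (Equiv.addRight (1 : k))]
    refine Finset.sum_congr rfl fun x _ => ?_
    rw [← quadC_apply, Equiv.coe_addRight, add_sub_cancel_right, map_mul, map_mul]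
  have h0 := fibre_zero (k := k) hk
  have key : (totalTrace k (p ^ f + 1) : ℂ) =
      ((-(((p ^ f - 1) * Fintype.card k : ℕ) : ℤ) : ℤ) : ℂ) := by
    rw [totalTrace, Int.cast_add, Int.cast_sum, Finset.sum_congr rfl fun u _ => hs u, hs 0,
      Finset.sum_neg_distrib, zero_pow (Nat.succ_ne_zero _), h0]
    have h := affineSum_eq (k := k) hk (p := p) (f := f) hp2 hdvd
    simp only [affineSum] at h
    rw [h]
    push_cast
    ring
  exact_mod_cast key

variable (p f : ℕ) [Fact p.Prime]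

local instance (n : ℕ) : Fintype (GaloisField p n) := Fintype.ofFinite _

/-- `Aₙ`. -/
def traceSeq (n : ℕ) : ℤ := totalTrace (GaloisField p (2 * f * n)) (p ^ f + 1)

/-- `L = exp (∑ Aₙ T ^ n / n)`. -/
def lFunction : PowerSeries ℚ :=
  (PowerSeries.exp ℚ).subst (PowerSeries.mk fun n => (traceSeq p f n : ℚ) / n)

variable {p f}

theorem traceSeq_eq (hp2 : p ≠ 2) (hf : f ≠ 0) {n : ℕ} (hn : n ≠ 0) :
    traceSeq p f n = -(((p ^ f - 1) * (p ^ (2 * f)) ^ n : ℕ) : ℤ) := by
  have hc : Fintype.card (GaloisField p (2 * f * n)) = (p ^ (2 * f)) ^ n := by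
    rw [← Nat.card_eq_fintype_card, GaloisField.card p _ (by simp [hf, hn]), ← pow_mul]
  rw [traceSeq, total_trace hp2 (f := f) ?_, hc]
  rw [hc, show p ^ (2 * f) = (p ^ f) ^ 2 by rw [← pow_mul, mul_comm]]
  refine Dvd.dvd.trans ?_ (Nat.sub_one_dvd_pow_sub_one ((p ^ f) ^ 2) n)
  exact ⟨p ^ f - 1, by rw [← Nat.sq_sub_sq, one_pow]⟩

/-- **`L = (1 - q T) ^ (d - 2)`.** -/
theorem lFunction_eq (hp2 : p ≠ 2) (hf : f ≠ 0) :
    lFunction p f =
      (1 - PowerSeries.C ((p : ℚ) ^ (2 * f)) * PowerSeries.X) ^ (p ^ f - 1) := by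
  refine exp_subst_eq_pow _ _ ?_ ?_
  · rw [← PowerSeries.coeff_zero_eq_constantCoeff, PowerSeries.coeff_mk, Nat.cast_zero, div_zero]
  · ext n
    rw [PowerSeries.coeff_derivative, PowerSeries.coeff_mk, PowerSeries.coeff_mk,
      traceSeq_eq hp2 hf (Nat.succ_ne_zero n)]
    push_cast
    field_simp

/-- **Birch and Swinnerton-Dyer, rank part**: the order of vanishing at `1 / q` is the rank. -/
theorem bsd_rank (hp2 : p ≠ 2) (hf : f ≠ 0) :
    ∃ P : Polynomial ℚ, (P : PowerSeries ℚ) = lFunction p f ∧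
      P.rootMultiplicity ((p : ℚ) ^ (2 * f))⁻¹ = Module.finrank ℤ
        (ulmerCurve (FA.FunctionFieldRank.tParam p f :
          RatFunc (GaloisField p (2 * f)))).toAffine.Point := by
  obtain ⟨ζ, hζ⟩ := FA.FunctionFieldRank.exists_primitiveRoot_galoisField (p := p) hf
  set q : ℚ := (p : ℚ) ^ (2 * f)
  have hq : q ≠ 0 := pow_ne_zero _ (Nat.cast_ne_zero.2 (Fact.out : p.Prime).ne_zero)
  refine ⟨(1 - Polynomial.C q * Polynomial.X) ^ (p ^ f - 1), ?_, ?_⟩
  · rw [lFunction_eq hp2 hf, Polynomial.coe_pow, Polynomial.coe_sub, Polynomial.coe_one,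
      Polynomial.coe_mul, Polynomial.coe_C, Polynomial.coe_X]
  · rw [FA.FunctionFieldRank.finrank_points hp2 hf hζ,
      show (1 - Polynomial.C q * Polynomial.X) =
        Polynomial.C (-q) * (Polynomial.X - Polynomial.C q⁻¹) by
          rw [mul_sub, ← Polynomial.C_mul, neg_mul, mul_inv_cancel₀ hq, map_neg, map_neg, map_one]
          ring,
      mul_pow, ← Polynomial.C_pow, Polynomial.rootMultiplicity_mul
        (mul_ne_zero (Polynomial.C_ne_zero.2 (pow_ne_zero _ (neg_ne_zero.2 hq)))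
          (pow_ne_zero _ (Polynomial.X_sub_C_ne_zero _))),
      Polynomial.rootMultiplicity_C, Polynomial.rootMultiplicity_X_sub_C_pow, zero_add]

end FA.FunctionFieldBSD.Summary
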