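import Fermat.Agent.FunctionFieldMilnor.Weil
import Fermat.Agent.FunctionFieldMilnor.Witt

/-!
# `K₂` of a rational function field and Weil reciprocity

Milnor's split exact sequence `0 → K₂ k → K₂ k(t) → ⨁_P (k[t]/P)ˣ → 0` for every field `k`, Weil
reciprocity, quadratic reciprocity for polynomials over a finite field, and Milnor's split exact
sequence `0 → W k → W k(t) → ⨁_P W (k[t]/P) → 0` of Witt groups.
-/

set_option autoImplicit false

noncomputable section

namespace FA.Summary

open Polynomial
open Fermat.Agent.K2Rat (K2 univSymbol)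
open Fermat.Agent.FunctionFieldMilnor (Place TameTarget placeData infData cu normUnit tameSum)
open scoped DirectSum

universe u

variable {k : Type u} [Field k]

/-- **Milnor's theorem**: `K₂ k(t) ≅ K₂ k ⊕ ⨁_P (k[t]/P)ˣ`, `P` running over the monic irreducible
polynomials, by the specialisation at infinity `{a, b} ↦ {lead a, lead b}` and the tame symbols. -/
theorem milnor_k2_ratFunc : ∃ e : K2 (RatFunc k) ≃+ K2 k × TameTarget k,
    ∀ a b : (RatFunc k)ˣ,
      (e (univSymbol (RatFunc k) a b)).1 = univSymbol k ((infData k).r a) ((infData k).r b) ∧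
        ∀ P : Place k, (e (univSymbol (RatFunc k) a b)).2 P = (placeData P).tame a b :=
  ⟨Fermat.Agent.FunctionFieldMilnor.k2RatFuncEquiv k, fun a b => by
    rw [Fermat.Agent.FunctionFieldMilnor.k2RatFuncEquiv_apply]
    exact ⟨rfl, Fermat.Agent.FunctionFieldMilnor.tameSum_apply a b⟩⟩

/-- **`K₂` of `𝔽_q(t)`** is the sum of the multiplicative groups of the residue fields. -/
theorem milnor_k2_ratFunc_finite [Finite k] : ∃ e : K2 (RatFunc k) ≃+ TameTarget k,
    ∀ a b : (RatFunc k)ˣ, ∀ P : Place k,
      e (univSymbol (RatFunc k) a b) P = (placeData P).tame a b :=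
  ⟨Fermat.Agent.FunctionFieldMilnor.k2RatFuncFiniteEquiv k, fun a b P => by
    show (Fermat.Agent.FunctionFieldMilnor.k2RatFuncEquiv k _).2 P = _
    rw [Fermat.Agent.FunctionFieldMilnor.k2RatFuncEquiv_apply]
    exact Fermat.Agent.FunctionFieldMilnor.tameSum_apply a b P⟩

/-- **The tame symbol is canonical**: the residue of `u = (-1) ^ (i j) a ^ j / b ^ i`, an element
of valuation `0`, whose residue is `f mod P` over `g mod P` for any way of writing it as `f / g`. -/
theorem tame_symbol_canonical (P : Place k) (a b : (RatFunc k)ˣ) :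
    ∃ u : (RatFunc k)ˣ,
      u = (-1) ^ ((placeData P).v a * (placeData P).v b) * a ^ (placeData P).v b /
        b ^ (placeData P).v a ∧ (placeData P).v u = 0 ∧
      (placeData P).tame a b = Additive.ofMul ((placeData P).r u) ∧
      ∀ f g : k[X], ¬ P.1 ∣ g →
        (u : RatFunc k) = algebraMap k[X] (RatFunc k) f / algebraMap k[X] (RatFunc k) g →
          (((placeData P).r u : (AdjoinRoot P.1)ˣ) : AdjoinRoot P.1) =
            AdjoinRoot.mk P.1 f / AdjoinRoot.mk P.1 g := by
  obtain ⟨h1, h2⟩ := (placeData P).tame_eq_residue a b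
  refine ⟨_, rfl, h1, h2, fun f g hg hu => ?_⟩
  have hself := Fermat.Agent.FunctionFieldMilnor.hasRes_self P
    ((-1) ^ ((placeData P).v a * (placeData P).v b) * a ^ (placeData P).v b /
      b ^ (placeData P).v a)
  rw [show Fermat.Agent.FunctionFieldMilnor.vP P _ = 0 from h1, hu] at hself
  exact hself.unique (Fermat.Agent.FunctionFieldMilnor.hasRes_of_not_dvd P hg)

/-- **Weil reciprocity**: the product of the norms to `k` of the tame symbols at all places of
`k(t)`, the place at infinity included, is `1`. -/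
theorem weil_reciprocity_ratFunc (a b : (RatFunc k)ˣ) :
    (∏ᶠ P : Place k, normUnit P ((placeData P).tame a b).toMul) *
      ((infData k).tame a b).toMul = 1 :=
  Fermat.Agent.FunctionFieldMilnor.weil_reciprocity a b

/-- **Reciprocity of norms**: `N(Q mod P) = (-1) ^ (deg P deg Q) N(P mod Q)`. -/
theorem polynomial_norm_reciprocity (P Q : Place k) :
    Algebra.norm k (AdjoinRoot.mk P.1 Q.1) =
      (-1) ^ (P.1.natDegree * Q.1.natDegree) * Algebra.norm k (AdjoinRoot.mk Q.1 P.1) :=
  Fermat.Agent.FunctionFieldMilnor.norm_mk_swap P Q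

/-- **Quadratic reciprocity for polynomials** (Dedekind): for distinct monic irreducible `P`, `Q`
over a finite field of odd characteristic, `Q` is a square mod `P` exactly when `P` is one mod `Q`,
unless `-1` is no square and both degrees are odd. -/
theorem polynomial_quadratic_reciprocity [Finite k] (h2 : (2 : k) ≠ 0) {P Q : Place k}
    (h : P ≠ Q) : (IsSquare (AdjoinRoot.mk P.1 Q.1) ↔ IsSquare (AdjoinRoot.mk Q.1 P.1)) ↔
      (IsSquare (-1 : k) ∨ Even (P.1.natDegree * Q.1.natDegree)) :=
  Fermat.Agent.FunctionFieldMilnor.quadratic_reciprocity h2 h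

open Fermat.Agent.FunctionFieldMilnor in
/-- A symbol that does not come from constants: the tame symbol of `{2, t}` at `t` is `2`. -/
theorem k2_ratFunc_example :
    ∃ P : Place ℚ, P.1 = X ∧
      ((placeData P).tame (cu (Units.mk0 2 two_ne_zero)) P.unit).toMul ≠ 1 ∧
        univSymbol (RatFunc ℚ) (cu (Units.mk0 2 two_ne_zero)) P.unit ∉
          (k2Const (k := ℚ)).range := by
  obtain ⟨P, hP⟩ : ∃ P : Place ℚ, P.1 = X := ⟨⟨X, monic_X, irreducible_X⟩, rfl⟩
  have hne : (placeData P).tame (cu (Units.mk0 (2 : ℚ) two_ne_zero)) P.unit ≠ 0 := by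
    rw [PlaceData.tame_of_v_zero _ (placeData_cu _).1, placeData_self.1, zpow_one,
      (placeData_cu _).2, Ne, ofMul_eq_zero]
    intro h
    have h' : AdjoinRoot.of P.1 (2 : ℚ) = AdjoinRoot.of P.1 1 :=
      (congrArg Units.val h).trans (map_one _).symm
    exact absurd ((AdjoinRoot.of P.1).injective h') (by norm_num)
  refine ⟨P, hP, fun h => hne h, ?_⟩
  rintro ⟨z, hz⟩
  refine hne ?_
  rw [← Fermat.Agent.K2Rat.lift_univSymbol (placeData P).tame, ← hz]
  exact tame_k2Const P z

open Fermat.Agent.FunctionFieldMilnor in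
/-- Weil reciprocity for `t` and `t - 1`: the symbols are `-1` at `t`, `1` at `t - 1`, `-1` at
infinity. -/
theorem weil_reciprocity_example : ∃ P Q : Place ℚ, P.1 = X ∧ Q.1 = X - C 1 ∧
    ((normUnit P ((placeData P).tame P.unit Q.unit).toMul : ℚˣ) : ℚ) = -1 ∧
      normUnit Q ((placeData Q).tame P.unit Q.unit).toMul = 1 ∧
        ((infData ℚ).tame P.unit Q.unit).toMul = -1 := by
  obtain ⟨P, hP⟩ : ∃ P : Place ℚ, P.1 = X := ⟨⟨X, monic_X, irreducible_X⟩, rfl⟩
  obtain ⟨Q, hQ⟩ : ∃ Q : Place ℚ, Q.1 = X - C 1 :=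
    ⟨⟨X - C 1, monic_X_sub_C 1, irreducible_X_sub_C 1⟩, rfl⟩
  have hPQ : P ≠ Q := fun e => by
    subst e
    have := congrArg (Polynomial.eval 0) (hP.symm.trans hQ)
    simp at this
  have hQP : ((placeData Q).r P.unit : Res Q) = AdjoinRoot.of Q.1 1 := by
    refine ((placeData_pu P.ne_zero (Place.not_dvd_of_ne hPQ.symm)).2).trans ?_
    rw [← AdjoinRoot.mk_C, AdjoinRoot.mk_eq_mk, hP, hQ]
  have hPQ' : ((placeData P).r Q.unit : Res P) = AdjoinRoot.of P.1 (-1) := by
    refine ((placeData_pu Q.ne_zero (Place.not_dvd_of_ne hPQ)).2).trans ?_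
    rw [← AdjoinRoot.mk_C, AdjoinRoot.mk_eq_mk, hP, hQ]
    exact ⟨1, by simp⟩
  have hfP : Module.finrank ℚ (Res P) = 1 :=
    (finrank_res P).trans (by rw [hP, natDegree_X])
  refine ⟨P, Q, hP, hQ, ?_, ?_, ?_⟩
  · rw [Fermat.Agent.FunctionFieldMilnor.coe_normUnit, PlaceData.tame_apply, placeData_self.1,
      placeData_unit_ne hPQ, placeData_self.2]
    simp only [mul_zero, zpow_zero, zpow_one, mul_one, toMul_ofMul, one_div,
      Units.val_inv_eq_inv_val, hPQ']
    rw [← map_inv₀, show AdjoinRoot.of P.1 ((-1 : ℚ))⁻¹ = algebraMap ℚ (Res P) (-1) by simp]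
    refine (Algebra.norm_algebraMap (S := Res P) (-1 : ℚ)).trans ?_
    rw [hfP, pow_one]
  · rw [PlaceData.tame_apply, placeData_self.1, placeData_unit_ne hPQ.symm, placeData_self.2]
    rw [show (placeData Q).r P.unit = 1 from Units.ext (by rw [hQP, map_one]; rfl)]
    simp
  · rw [PlaceData.tame_apply, (infData_unit P).1, (infData_unit Q).1, (infData_unit P).2,
      (infData_unit Q).2, hP, hQ, natDegree_X, natDegree_X_sub_C]
    simp

open Fermat.Agent.WittRat (W wittClass cls) in
open Fermat.Agent.FunctionFieldMilnor (firstRes secondRes constW WittTarget) in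
/-- **Milnor's theorem on `W k(t)`**: the second residues for the uniformisers `P` themselves and
the first residue at infinity give `W k(t) ≅ W k ⊕ ⨁_P W (k[t]/P)`, and constants go to `W k`. -/
theorem milnor_witt_ratFunc : ∃ e : W (RatFunc k) ≃+ W k × WittTarget k,
    (∀ z, (e z).1 = firstRes z) ∧ (∀ z (P : Place k), (e z).2 P = secondRes P z) ∧
      ∀ y, e (constW y) = (y, 0) :=
  ⟨Fermat.Agent.FunctionFieldMilnor.wittRatFuncEquiv k,
    Fermat.Agent.FunctionFieldMilnor.allResidues_fst,
    fun z P => Fermat.Agent.FunctionFieldMilnor.allResidues_snd P z, fun y =>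
      Prod.ext ((Fermat.Agent.FunctionFieldMilnor.allResidues_fst _).trans
          (Fermat.Agent.FunctionFieldMilnor.firstRes_constW y))
        (DirectSum.ext fun P => (Fermat.Agent.FunctionFieldMilnor.allResidues_snd P _).trans
          (Fermat.Agent.FunctionFieldMilnor.secondRes_constW P y))⟩

open Fermat.Agent.WittRat (W wittClass) in
open Fermat.Agent.FunctionFieldMilnor (secondRes) in
/-- The second residue at `P`: `⟨P ^ i u⟩` goes to `⟨u mod P⟩` for odd `i` and to `0` for even. -/
theorem witt_second_residue (P : Place k) (a : (RatFunc k)ˣ) :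
    secondRes P (wittClass (RatFunc k) a) =
      if Odd ((placeData P).v a) then wittClass (AdjoinRoot P.1) ((placeData P).r a) else 0 := by
  split_ifs with h
  · exact Fermat.Agent.FunctionFieldMilnor.secondRes_of_odd h
  · exact Fermat.Agent.FunctionFieldMilnor.secondRes_of_even (Int.not_odd_iff_even.1 h)

open Fermat.Agent.WittRat (cls) in
open Fermat.Agent.FunctionFieldMilnor (firstRes secondRes) in
/-- **Quadratic forms over `k(t)`**, `2 ≠ 0`: diagonal forms of one rank are isometric exactly when
their first residues at infinity and all their second residues agree. -/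
theorem ratFunc_forms_classification (h2 : (2 : k) ≠ 0) {n : ℕ} (w v : Fin n → (RatFunc k)ˣ) :
    QuadraticMap.Equivalent
        (QuadraticMap.weightedSumSquares (RatFunc k) fun i => (w i : RatFunc k))
        (QuadraticMap.weightedSumSquares (RatFunc k) fun i => (v i : RatFunc k)) ↔
      firstRes (cls w) = firstRes (cls v) ∧
        ∀ P : Place k, secondRes P (cls w) = secondRes P (cls v) :=
  Fermat.Agent.FunctionFieldMilnor.equivalent_iff_residues h2 w v

open Fermat.Agent.WittRat (W wittClass) in
open Fermat.Agent.FunctionFieldMilnor in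
/-- A class that does not come from constants: `⟨P⟩`. -/
theorem witt_ratFunc_example (P : Place k) :
    wittClass (RatFunc k) P.unit ∉ (constW (k := k)).range := by
  rintro ⟨z, hz⟩
  have h := secondRes_constW P z
  rw [hz, secondRes_of_odd (by rw [placeData_self.1]; exact odd_one), placeData_self.2] at h
  have h1 := congrArg (Fermat.Agent.WittRat.lift
    ({ toFun := fun _ => (1 : ZMod 2)
       mul_sq := fun _ _ => rfl
       add_neg := fun _ => rfl
       binary := fun _ _ _ _ => rfl } :
      Fermat.Agent.WittRat.WittMap (Res P) (ZMod 2))) h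
  rw [Fermat.Agent.WittRat.lift_wittClass, map_zero] at h1
  exact absurd h1 (one_ne_zero : (1 : ZMod 2) ≠ 0)

end FA.Summary
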