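import Fermat.Agent.FunctionFieldMW.Main

/-!
# The Mordell–Weil theorem over rational function fields with finite constants

For a finite field `F` of characteristic `≠ 2` every elliptic curve over `F(u)` has a finitely
generated group of points (`mordellWeil_function_field`), so `ℤ^r` times a finite group
(`function_field_group_structure`). On the way: in a finite separable extension `L` of `F(u)` the
classes modulo squares with even orders outside a finite set of primes are finitely many, and the
units outside a finite set are finitely generated (`sUnits_fg`, `even_classes_finite`).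

Not claimed: characteristic `2`, larger constant fields, curves over other function fields,
or any bound on the rank.
-/

set_option autoImplicit false
set_option linter.style.haveILetI false

noncomputable section

open WeierstrassCurve Polynomial IsDedekindDomain FunctionField
open scoped Classical

namespace FA.FunctionFieldMW.Summary

/-- **The theorem of Mordell and Weil over `F(u)`.** -/
theorem mordellWeil_function_field {F : Type*} [Field F] [Finite F] (h2 : (2 : F) ≠ 0)
    (E : WeierstrassCurve (RatFunc F)) [E.IsElliptic] : AddGroup.FG E.toAffine.Point :=
  fg_point h2 E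

/-- `E (F(u)) ≅ ℤ ^ r × (finite)`. -/
theorem function_field_group_structure {F : Type*} [Field F] [Finite F] (h2 : (2 : F) ≠ 0)
    (E : WeierstrassCurve (RatFunc F)) [E.IsElliptic] :
    Finite (AddCommGroup.torsion E.toAffine.Point) ∧ ∃ r : ℕ, Nonempty
      (E.toAffine.Point ≃+ AddCommGroup.torsion E.toAffine.Point × (Fin r → ℤ)) := by
  haveI := fg_point h2 E
  obtain ⟨r, ⟨e⟩⟩ := FA.MordellWeil.exists_equiv_torsion_prod E.toAffine.Point
  haveI : AddGroup.FG (AddCommGroup.torsion E.toAffine.Point) :=
    AddGroup.fg_of_surjective (f := (AddMonoidHom.fst _ _).comp e.toAddMonoidHom)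
      (Prod.fst_surjective.comp e.surjective)
  exact ⟨AddCommGroup.finite_of_fg_isAddTorsion _ fun x =>
    AddSubmonoid.isOfFinAddOrder_coe.1 ((AddCommGroup.mem_torsion _).1 x.2), r, ⟨e⟩⟩

variable {F : Type*} [Field F] [Finite F] {L : Type*} [Field L] [Algebra F[X] L]
  [Algebra (RatFunc F) L] [IsScalarTower F[X] (RatFunc F) L] [FiniteDimensional (RatFunc F) L]
  [Algebra.IsSeparable (RatFunc F) L] (S : Finset (HeightOneSpectrum (ringOfIntegers F L)))

/-- **The units outside a finite set of primes are finitely generated.** -/
theorem sUnits_fg : (tUnits S).FG := fg_tUnits S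

/-- **Finitely many classes with even orders outside a finite set.** -/
theorem even_classes_finite :
    {c : SqClass L | ∃ x : Lˣ, (x : SqClass L) = c ∧
      ∀ v, v ∉ S → Even (negOrd v x)}.Finite :=
  finite_evenClasses S

end FA.FunctionFieldMW.Summary
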