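import Fermat.Agent.FunctionFieldRank.Descent

/-!
# The rank of elliptic curves over rational function fields is unbounded

With `d = p ^ f + 1` the curve `y² = x (x + 1) (x + u ^ d)` (here written in `X = x + 1` as
`y² = (X - 1) X (X - 1 + u ^ d)`) has `p ^ f - 1 = d - 2` independent points over `F(u)` when `F`
has a primitive `d`-th root of unity (`legendre_rank`, `legendre_rank_finite_field` with `F` of
`p ^ (2 f)` elements), and at least `(p ^ f + 1) / (2 f) - 2` over `F_p(u)`. The invariant is no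
constant. So for every odd prime `p` the rank of non-isotrivial elliptic curves over `F_p(u)` is
unbounded (`rank_unbounded_prime_field`; Shafarevich and Tate, Ulmer's points).

Not claimed: the upper bounds (so the exact rank `d - 2`), `p = 2`, or anything on `Ш`.
-/

set_option autoImplicit false
set_option linter.style.haveILetI false

noncomputable section

open WeierstrassCurve
open scoped Classical

namespace FA.FunctionFieldRank.Summary

/-- **`p ^ f - 1` independent points over `F(u)`.** -/
theorem legendre_rank {p f : ℕ} [Fact p.Prime] (hp2 : p ≠ 2) {F : Type*} [Field F] [CharP F p]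
    {ζ : F} (hζ : IsPrimitiveRoot ζ (p ^ f + 1)) :
    ∃ t : RatFunc F, t = RatFunc.X ^ (p ^ f + 1) ∧ ∃ _ : (ulmerCurve t).IsElliptic,
      (∀ x y : RatFunc F, (ulmerCurve t).toAffine.Equation x y ↔
        y ^ 2 = (x - 1) * x * (x - 1 + t)) ∧
      (∀ c : F, (ulmerCurve t).j ≠ RatFunc.C c) ∧
      ∃ Q : Fin (p ^ f - 1) → (ulmerCurve t).toAffine.Point, LinearIndependent ℤ Q := by
  haveI := isElliptic_tParam (F := F) p f hp2
  exact ⟨tParam p f, by rw [tParam, map_pow, RatFunc.algebraMap_X], inferInstance,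
    fun x y => ulmerCurve_equation, j_tParam_ne p f hp2,
    exists_independent_points hp2 hζ⟩

/-- The finite field with `p ^ (2 f)` elements has the roots of unity. -/
theorem legendre_rank_finite_field {p f : ℕ} [Fact p.Prime] (hp2 : p ≠ 2) (hf : f ≠ 0) :
    ∃ E : WeierstrassCurve (RatFunc (GaloisField p (2 * f))), ∃ _ : E.IsElliptic,
      (∀ c, E.j ≠ RatFunc.C c) ∧
      ∃ Q : Fin (p ^ f - 1) → E.toAffine.Point, LinearIndependent ℤ Q := by
  obtain ⟨ζ, hζ⟩ := exists_primitiveRoot_galoisField (p := p) hf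
  obtain ⟨t, -, hE, -, hj, hQ⟩ := legendre_rank hp2 hζ
  exact ⟨_, hE, hj, hQ⟩

/-- **The rank of elliptic curves over `F_p(u)` is unbounded**, for every odd prime `p`. -/
theorem rank_unbounded_prime_field (p : ℕ) [Fact p.Prime] (hp2 : p ≠ 2) (r : ℕ) :
    ∃ E : WeierstrassCurve (RatFunc (ZMod p)), ∃ _ : E.IsElliptic,
      (∀ c, E.j ≠ RatFunc.C c) ∧
      ∃ Q : Fin r → E.toAffine.Point, LinearIndependent ℤ Q := by
  set m := 4 * (r + 2) with hm
  obtain ⟨ζ, hζ⟩ := exists_primitiveRoot_galoisField (p := p) (f := 2 * m) (by omega)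
  have hn : (r + 2) * (2 * (2 * m)) ≤ p ^ (2 * m) + 1 := by
    have h1 : m + 1 ≤ p ^ m := Nat.lt_pow_self (Fact.out : p.Prime).one_lt
    have h2 : (r + 2) * (2 * (2 * m)) ≤ (m + 1) * (m + 1) := by
      rw [hm]; nlinarith
    calc _ ≤ (m + 1) * (m + 1) := h2
      _ ≤ p ^ m * p ^ m := Nat.mul_le_mul h1 h1
      _ ≤ p ^ (2 * m) + 1 := by rw [two_mul, pow_add]; exact Nat.le_succ _
  haveI := isElliptic_tParam (F := ZMod p) p (2 * m) hp2
  exact ⟨ulmerCurve (tParam p (2 * m)), inferInstance, j_tParam_ne p (2 * m) hp2,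
    exists_independent_descended hp2 (by omega) hζ hn⟩

end FA.FunctionFieldRank.Summary
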