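import Fermat.Agent.Root.SummaryFurstenbergLyapunov
import Fermat.Agent.FurstenbergKifer.Vector

/-!
# The growth of every vector and Furstenberg's formula

For independent operators of determinant `±1` of a Euclidean space with a common law `μ` which is
strongly irreducible, has unbounded products and has `log ‖A‖` integrable, with `γ > 0` the
exponent of `furstenberg_positive`:

* `vector_growth`: `log ‖Q n v‖ / n` tends almost surely to `γ` for every vector `v ≠ 0`;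
* `vector_growth_uniform`: its mean tends to `γ` uniformly on the sphere;
* `stationary_exists`, `furstenberg_formula`: there is a stationary probability measure `ν` on the
  sphere and every one has `∫∫ log ‖A v‖ dμ dν = γ`;
* `stationary_nonatomic`: it gives no mass to a proper subspace.

Uniqueness of the stationary measure on projective space and the simplicity of the exponent are
not treated.
-/

set_option autoImplicit false

noncomputable section

namespace FA.FurstenbergKifer.Summary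

open MeasureTheory ProbabilityTheory Filter Topology Module Metric
open FA.FurstenbergLyapunov FA.FurstenbergLyapunov.Summary

variable {E : Type*} [NormedAddCommGroup E] [InnerProductSpace ℝ E] [FiniteDimensional ℝ E]
  [MeasurableSpace E] [BorelSpace E] [Nontrivial E]
  {μ : Measure (E →L[ℝ] E)}

/-- **Stationary measures exist.** -/
theorem stationary_exists [IsProbabilityMeasure μ] (hdet : ∀ᵐ A ∂μ, |A.det| = 1) :
    ∃ ν : Measure (sphere (0 : E) 1), IsProbabilityMeasure ν ∧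
      (μ.prod ν).map (fun p => act p.1 p.2) = ν := by
  obtain ⟨ν, hν⟩ := exists_stationary μ hdet
  exact ⟨ν, inferInstance, hν⟩

/-- **A stationary measure charges no proper subspace.** -/
theorem stationary_nonatomic [IsProbabilityMeasure μ] (hdet : ∀ᵐ A ∂μ, |A.det| = 1)
    (hirr : ¬ ∃ F : Finset (Submodule ℝ E), F.Nonempty ∧ (∀ W ∈ F, W ≠ ⊥ ∧ W ≠ ⊤) ∧
      ∀ A ∈ μ.support, ∀ W ∈ F, W.map (A : E →ₗ[ℝ] E) ∈ F)
    (ν : Measure (sphere (0 : E) 1)) [IsProbabilityMeasure ν]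
    (hν : (μ.prod ν).map (fun p => act p.1 p.2) = ν) {W : Submodule ℝ E} (hW : W ≠ ⊤) :
    ν {v | (v : E) ∈ W} = 0 :=
  stationary_mass_eq_zero μ hdet hirr ν hν hW

variable {Ω : Type*} [MeasurableSpace Ω] {P : Measure Ω} [IsProbabilityMeasure P]
  {X : ℕ → Ω → E →L[ℝ] E} {Q : ℕ → Ω → E →L[ℝ] E}

/-- **The growth of every vector, uniformity in the mean and Furstenberg's formula**, all with
one exponent `γ > 0`. -/
theorem vector_growth (hX : ∀ i, Measurable (X i)) (hind : iIndepFun X P)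
    (hlaw : ∀ i, P.map (X i) = μ) (hdet : ∀ᵐ A ∂μ, |A.det| = 1)
    (hun : ∀ M : ℝ, ∃ A ∈ Submonoid.closure μ.support, M < ‖A‖)
    (hirr : ¬ ∃ F : Finset (Submodule ℝ E), F.Nonempty ∧ (∀ W ∈ F, W ≠ ⊥ ∧ W ≠ ⊤) ∧
      ∀ A ∈ μ.support, ∀ W ∈ F, W.map (A : E →ₗ[ℝ] E) ∈ F)
    (hint : Integrable (fun A => Real.log ‖A‖) μ)
    (hQ0 : ∀ ω, Q 0 ω = 1) (hQ : ∀ n ω, Q (n + 1) ω = X n ω * Q n ω) :
    ∃ γ : ℝ, 0 < γ ∧
      (∀ᵐ ω ∂P, Tendsto (fun n : ℕ => Real.log ‖Q n ω‖ / n) atTop (𝓝 γ)) ∧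
      (∀ v : E, v ≠ 0 →
        ∀ᵐ ω ∂P, Tendsto (fun n : ℕ => Real.log ‖Q n ω v‖ / n) atTop (𝓝 γ)) ∧
      (∀ ε > 0, ∀ᶠ n : ℕ in atTop, ∀ v : E, ‖v‖ = 1 →
        |(∫ ω, Real.log ‖Q n ω v‖ ∂P) / n - γ| ≤ ε) ∧
      ∀ ν : Measure (sphere (0 : E) 1), IsProbabilityMeasure ν →
        (μ.prod ν).map (fun p => act p.1 p.2) = ν →
        ∫ v, ∫ A, Real.log ‖A (v : E)‖ ∂μ ∂ν = γ := by
  have : IsProbabilityMeasure μ :=
    hlaw 0 ▸ Measure.isProbabilityMeasure_map (hX 0).aemeasurable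
  have hseq := map_seq hX hind hlaw
  have hm : Measurable fun ω i => X i ω := measurable_pi_iff.2 hX
  obtain ⟨γ, hγ, hlim, -⟩ := exists_exponent μ hdet hun hirr hint
  refine ⟨γ, hγ, ?_, fun v hv => ?_, fun ε hε => ?_, fun ν _ hν => ?_⟩
  · have h := hlim
    rw [← hseq] at h
    filter_upwards [ae_of_ae_map hm.aemeasurable h] with ω hω
    simpa only [prod_eq hQ0 hQ] using hω
  · have h := tendsto_log_apply μ hdet hirr hint hlim hv
    rw [← hseq] at h
    filter_upwards [ae_of_ae_map hm.aemeasurable h] with ω hω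
    simpa only [prod_eq hQ0 hQ] using hω
  · filter_upwards [uniform_mean_growth μ hdet hirr hint hlim hε] with n hn v hv
    refine le_trans (le_of_eq ?_) (hn ⟨v, mem_sphere_zero_iff_norm.2 hv⟩)
    have hf : Measurable fun x : ℕ → E →L[ℝ] E => Real.log ‖randProd n x v‖ :=
      measurable_log_apply (measurable_randProd n) measurable_const
    rw [← hseq, integral_map hm.aemeasurable hf.aestronglyMeasurable]
    simp only [prod_eq hQ0 hQ]
  · exact stationary_formula μ hdet hirr hint hlim ν hν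

/-- **Uniform growth in the mean**, for the positive exponent. -/
theorem vector_growth_uniform (hX : ∀ i, Measurable (X i)) (hind : iIndepFun X P)
    (hlaw : ∀ i, P.map (X i) = μ) (hdet : ∀ᵐ A ∂μ, |A.det| = 1)
    (hun : ∀ M : ℝ, ∃ A ∈ Submonoid.closure μ.support, M < ‖A‖)
    (hirr : ¬ ∃ F : Finset (Submodule ℝ E), F.Nonempty ∧ (∀ W ∈ F, W ≠ ⊥ ∧ W ≠ ⊤) ∧
      ∀ A ∈ μ.support, ∀ W ∈ F, W.map (A : E →ₗ[ℝ] E) ∈ F)
    (hint : Integrable (fun A => Real.log ‖A‖) μ)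
    (hQ0 : ∀ ω, Q 0 ω = 1) (hQ : ∀ n ω, Q (n + 1) ω = X n ω * Q n ω) :
    ∃ γ : ℝ, 0 < γ ∧ ∀ ε > 0, ∀ᶠ n : ℕ in atTop, ∀ v : E, ‖v‖ = 1 →
      |(∫ ω, Real.log ‖Q n ω v‖ ∂P) / n - γ| ≤ ε := by
  obtain ⟨γ, h0, -, -, h, -⟩ := vector_growth hX hind hlaw hdet hun hirr hint hQ0 hQ
  exact ⟨γ, h0, h⟩

/-- **Furstenberg's formula.** -/
theorem furstenberg_formula [IsProbabilityMeasure μ] (hdet : ∀ᵐ A ∂μ, |A.det| = 1)
    (hun : ∀ M : ℝ, ∃ A ∈ Submonoid.closure μ.support, M < ‖A‖)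
    (hirr : ¬ ∃ F : Finset (Submodule ℝ E), F.Nonempty ∧ (∀ W ∈ F, W ≠ ⊥ ∧ W ≠ ⊤) ∧
      ∀ A ∈ μ.support, ∀ W ∈ F, W.map (A : E →ₗ[ℝ] E) ∈ F)
    (hint : Integrable (fun A => Real.log ‖A‖) μ) :
    ∃ γ : ℝ, 0 < γ ∧
      (∀ᵐ x ∂(Measure.infinitePi fun _ : ℕ => μ),
        Tendsto (fun n : ℕ => Real.log ‖randProd n x‖ / n) atTop (𝓝 γ)) ∧
      ∀ ν : Measure (sphere (0 : E) 1), IsProbabilityMeasure ν →
        (μ.prod ν).map (fun p => act p.1 p.2) = ν →
        ∫ v, ∫ A, Real.log ‖A (v : E)‖ ∂μ ∂ν = γ := by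
  obtain ⟨γ, hγ, hlim, -⟩ := exists_exponent μ hdet hun hirr hint
  exact ⟨γ, hγ, hlim, fun ν _ hν => stationary_formula μ hdet hirr hint hlim ν hν⟩

end FA.FurstenbergKifer.Summary
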