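import Fermat.Agent.FurstenbergLyapunov.Example
import Fermat.Agent.FurstenbergLyapunov.Monoid

/-!
# Furstenberg's theorem on products of random matrices

Let `X 0, X 1, ...` be independent operators of a Euclidean space with common law `μ`, almost
surely of determinant `±1`, such that the products of the operators in the support of `μ` are
unbounded and no finite nonempty family of proper nonzero subspaces is kept by all of them.

* `furstenberg_growth`: with no moment hypothesis, `E (‖Q n‖ ^ d)⁻¹ ≤ C r ^ n` with `r < 1` for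
  `Q n = X (n - 1) * ... * X 0`, and almost surely `‖Q n‖ ≥ exp (c n)` for large `n`, `c > 0`;
* `furstenberg_positive`: if `log ‖X 0‖` is integrable, `log ‖Q n‖ / n` tends almost surely, and
  its mean tends, to a constant `γ > 0`;
* `furstenberg_lemma`: a probability measure on the sphere preserved by an unbounded set of
  operators of determinant `±1` gives them a finite invariant family of subspaces;
* `group_unbounded`: it suffices that the group generated by the support is unbounded;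
* `shear_example`: the fair choice between two shears of the plane is an example.

Simplicity of the exponent, the growth of the single vectors and uniqueness of the stationary
measure are not treated.
-/

set_option autoImplicit false

noncomputable section

namespace FA.FurstenbergLyapunov.Summary

open MeasureTheory ProbabilityTheory Filter Topology Module FA.FurstenbergLyapunov

variable {E : Type*} [NormedAddCommGroup E] [InnerProductSpace ℝ E] [FiniteDimensional ℝ E]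
  [MeasurableSpace E] [BorelSpace E] [Nontrivial E]

variable {Ω : Type*} [MeasurableSpace Ω] {P : Measure Ω} [IsProbabilityMeasure P]
  {μ : Measure (E →L[ℝ] E)} {X : ℕ → Ω → E →L[ℝ] E} {Q : ℕ → Ω → E →L[ℝ] E}

omit [FiniteDimensional ℝ E] [MeasurableSpace E] [BorelSpace E] [Nontrivial E] in
theorem map_seq (hX : ∀ i, Measurable (X i)) (hind : iIndepFun X P)
    (hlaw : ∀ i, P.map (X i) = μ) :
    P.map (fun ω i => X i ω) = Measure.infinitePi fun _ : ℕ => μ := by
  rw [(iIndepFun_iff_map_fun_eq_infinitePi_map hX).1 hind]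
  simp only [hlaw]

omit [FiniteDimensional ℝ E] [MeasurableSpace E] [BorelSpace E] [Nontrivial E]
  [MeasurableSpace Ω] in
theorem prod_eq (hQ0 : ∀ ω, Q 0 ω = 1) (hQ : ∀ n ω, Q (n + 1) ω = X n ω * Q n ω) (n : ℕ)
    (ω : Ω) : Q n ω = randProd n (fun i => X i ω) := by
  induction n with
  | zero => exact hQ0 ω
  | succ n ih => rw [hQ, ih, randProd_succ']

/-- **Furstenberg's theorem, growth**: no moment hypothesis is needed. -/
theorem furstenberg_growth (hX : ∀ i, Measurable (X i)) (hind : iIndepFun X P)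
    (hlaw : ∀ i, P.map (X i) = μ) (hdet : ∀ᵐ A ∂μ, |A.det| = 1)
    (hun : ∀ M : ℝ, ∃ A ∈ Submonoid.closure μ.support, M < ‖A‖)
    (hirr : ¬ ∃ F : Finset (Submodule ℝ E), F.Nonempty ∧ (∀ W ∈ F, W ≠ ⊥ ∧ W ≠ ⊤) ∧
      ∀ A ∈ μ.support, ∀ W ∈ F, W.map (A : E →ₗ[ℝ] E) ∈ F)
    (hQ0 : ∀ ω, Q 0 ω = 1) (hQ : ∀ n ω, Q (n + 1) ω = X n ω * Q n ω) :
    ∃ c C r : ℝ, 0 < c ∧ 0 < r ∧ r < 1 ∧
      (∀ n : ℕ, ∫⁻ ω, ENNReal.ofReal (‖Q n ω‖ ^ finrank ℝ E)⁻¹ ∂P ≤ ENNReal.ofReal (C * r ^ n)) ∧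
      ∀ᵐ ω ∂P, ∀ᶠ n : ℕ in atTop, Real.exp (c * n) ≤ ‖Q n ω‖ := by
  have : IsProbabilityMeasure μ :=
    hlaw 0 ▸ Measure.isProbabilityMeasure_map (hX 0).aemeasurable
  have hseq := map_seq hX hind hlaw
  have hm : Measurable fun ω i => X i ω := measurable_pi_iff.2 hX
  obtain ⟨c, C, r, hc, hr0, hr1, hdec, hae⟩ := exists_growth μ hdet hun hirr
  refine ⟨c, C, r, hc, hr0, hr1, fun n => ?_, ?_⟩
  · refine le_trans (le_of_eq ?_) (hdec n)
    have hf : Measurable fun x : ℕ → E →L[ℝ] E =>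
        ENNReal.ofReal (‖randProd n x‖ ^ finrank ℝ E)⁻¹ :=
      (((continuous_norm.measurable.comp (measurable_randProd n)).pow_const _).inv).ennreal_ofReal
    rw [← hseq, lintegral_map hf hm]
    exact lintegral_congr fun ω => by rw [prod_eq hQ0 hQ n ω]
  · rw [← hseq] at hae
    filter_upwards [ae_of_ae_map hm.aemeasurable hae] with ω hω
    simpa only [prod_eq hQ0 hQ] using hω

/-- **Furstenberg's theorem**: the top Lyapunov exponent is positive. -/
theorem furstenberg_positive (hX : ∀ i, Measurable (X i)) (hind : iIndepFun X P)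
    (hlaw : ∀ i, P.map (X i) = μ) (hdet : ∀ᵐ A ∂μ, |A.det| = 1)
    (hun : ∀ M : ℝ, ∃ A ∈ Submonoid.closure μ.support, M < ‖A‖)
    (hirr : ¬ ∃ F : Finset (Submodule ℝ E), F.Nonempty ∧ (∀ W ∈ F, W ≠ ⊥ ∧ W ≠ ⊤) ∧
      ∀ A ∈ μ.support, ∀ W ∈ F, W.map (A : E →ₗ[ℝ] E) ∈ F)
    (hint : Integrable (fun A => Real.log ‖A‖) μ)
    (hQ0 : ∀ ω, Q 0 ω = 1) (hQ : ∀ n ω, Q (n + 1) ω = X n ω * Q n ω) :
    ∃ γ : ℝ, 0 < γ ∧
      (∀ᵐ ω ∂P, Tendsto (fun n : ℕ => Real.log ‖Q n ω‖ / n) atTop (𝓝 γ)) ∧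
      Tendsto (fun n : ℕ => (∫ ω, Real.log ‖Q n ω‖ ∂P) / n) atTop (𝓝 γ) := by
  have : IsProbabilityMeasure μ :=
    hlaw 0 ▸ Measure.isProbabilityMeasure_map (hX 0).aemeasurable
  have hseq := map_seq hX hind hlaw
  have hm : Measurable fun ω i => X i ω := measurable_pi_iff.2 hX
  obtain ⟨γ, hγ, hae, hmean⟩ := exists_exponent μ hdet hun hirr hint
  refine ⟨γ, hγ, ?_, hmean.congr fun n => ?_⟩
  · rw [← hseq] at hae
    filter_upwards [ae_of_ae_map hm.aemeasurable hae] with ω hω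
    simpa only [prod_eq hQ0 hQ] using hω
  · have hf : Measurable fun x : ℕ → E →L[ℝ] E => Real.log ‖randProd n x‖ :=
      Real.measurable_log.comp (continuous_norm.measurable.comp (measurable_randProd n))
    rw [← hseq, integral_map hm.aemeasurable hf.aestronglyMeasurable]
    simp only [prod_eq hQ0 hQ]

/-- **Furstenberg's lemma** on invariant measures. -/
theorem furstenberg_lemma (ν : Measure (Metric.sphere (0 : E) 1)) [IsProbabilityMeasure ν]
    (hun : ∀ M : ℝ, ∃ A : E →L[ℝ] E, |A.det| = 1 ∧ ν.map (act A) = ν ∧ M < ‖A‖) :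
    ∃ F : Finset (Submodule ℝ E), F.Nonempty ∧ (∀ W ∈ F, W ≠ ⊥ ∧ W ≠ ⊤) ∧
      ∀ A : E →L[ℝ] E, |A.det| = 1 → ν.map (act A) = ν →
        ∀ W ∈ F, W.map (A : E →ₗ[ℝ] E) ∈ F := by
  obtain ⟨F, h1, h2, h3⟩ := exists_invariant_family ν fun M =>
    (hun M).imp fun A h => ⟨⟨h.1, h.2.1⟩, h.2.2⟩
  exact ⟨F, h1, h2, fun A hA hA' => h3 A ⟨hA, hA'⟩⟩

omit [MeasurableSpace E] [BorelSpace E] [Nontrivial E] in
/-- **An unbounded group gives an unbounded monoid.** -/
theorem group_unbounded {S : Set (E →L[ℝ] E)ˣ} (hS : ∀ A ∈ S, |(A : E →L[ℝ] E).det| = 1)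
    (h : ∀ M : ℝ, ∃ A ∈ Subgroup.closure S, M < ‖(A : E →L[ℝ] E)‖) :
    ∀ M : ℝ, ∃ A ∈ Submonoid.closure (Units.val '' S), M < ‖A‖ :=
  monoid_unbounded_of_group_unbounded hS h

/-- **Example**: the fair choice between `(1 1; 0 1)` and `(1 0; 1 1)`. -/
theorem shear_example :
    ∃ μ : Measure (Plane →L[ℝ] Plane), IsProbabilityMeasure μ ∧ (∀ᵐ A ∂μ, |A.det| = 1) ∧
      (∀ M : ℝ, ∃ A ∈ Submonoid.closure μ.support, M < ‖A‖) ∧
      (¬ ∃ F : Finset (Submodule ℝ Plane), F.Nonempty ∧ (∀ W ∈ F, W ≠ ⊥ ∧ W ≠ ⊤) ∧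
        ∀ A ∈ μ.support, ∀ W ∈ F, W.map (A : Plane →ₗ[ℝ] Plane) ∈ F) ∧
      ∃ γ : ℝ, 0 < γ ∧ ∀ᵐ x ∂(Measure.infinitePi fun _ : ℕ => μ),
        Tendsto (fun n : ℕ => Real.log ‖randProd n x‖ / n) atTop (𝓝 γ) :=
  ⟨shearLaw, inferInstance, shearLaw_ae, shearLaw_unbounded, shearLaw_irreducible,
    shearLaw_exponent⟩

end FA.FurstenbergLyapunov.Summary
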