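import Fermat.Agent.FurstenbergSarkozy.Main

/-!
# The theorem of Furstenberg and Sárközy

A subset of `[1, N]` of positive proportion has two elements differing by a value `P m ≠ 0` of a
given integer polynomial with `P 0 = 0`, in particular by a square or a `k`-th power, once `N` is
large (Lovász's conjecture; Furstenberg 1977, Sárközy 1978).

Proved by an extremal density and van der Corput differencing. No rate, no intersective polynomials
and no Bergelson–Leibman theorem are claimed; there is no link with Fermat's last theorem.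
-/

set_option autoImplicit false

noncomputable section

namespace FA.FurstenbergSarkozy.Summary

open Finset Filter Polynomial

/-- **Furstenberg and Sárközy**, for a polynomial without constant term. -/
theorem furstenberg_sarkozy {P : ℤ[X]} (hP : P ≠ 0) (hP0 : P.eval 0 = 0) {δ : ℝ} (hδ : 0 < δ) :
    ∃ N₀ : ℕ, ∀ N : ℕ, N₀ ≤ N → ∀ A : Finset ℤ, A ⊆ Icc (1 : ℤ) N → δ * N ≤ A.card →
      ∃ a ∈ A, ∃ b ∈ A, ∃ m : ℕ, 1 ≤ m ∧ P.eval (m : ℤ) ≠ 0 ∧ a - b = P.eval (m : ℤ) := by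
  obtain ⟨N₀, h⟩ := exists_difference hP hP0 hδ
  refine ⟨N₀, fun N hN A hA hc => ?_⟩
  obtain ⟨a, ha, b, hb, hne, m, hm, e⟩ := h N hN A hA hc
  exact ⟨a, ha, b, hb, m, hm, e ▸ sub_ne_zero.2 hne, e⟩

/-- **Power differences**: a set of naturals up to `N` with a positive proportion of them has two
elements that differ by a positive `k`-th power. -/
theorem sarkozy_power {k : ℕ} (hk : 1 ≤ k) {δ : ℝ} (hδ : 0 < δ) :
    ∃ N₀ : ℕ, ∀ N : ℕ, N₀ ≤ N → ∀ A : Finset ℕ, A ⊆ Icc 1 N → δ * N ≤ A.card →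
      ∃ a ∈ A, ∃ b ∈ A, ∃ m : ℕ, 1 ≤ m ∧ a = b + m ^ k := by
  obtain ⟨N₀, h⟩ := furstenberg_sarkozy (P := X ^ k) (pow_ne_zero _ X_ne_zero)
    (by simp [zero_pow (Nat.one_le_iff_ne_zero.1 hk)]) hδ
  refine ⟨N₀, fun N hN A hA hc => ?_⟩
  obtain ⟨a, ha, b, hb, m, hm, -, e⟩ := h N hN (A.image Nat.cast) (fun x hx => by
    obtain ⟨n, hn, rfl⟩ := mem_image.1 hx
    have := mem_Icc.1 (hA hn)
    exact mem_Icc.2 ⟨by omega, by omega⟩)
    (by rwa [card_image_of_injective _ Nat.cast_injective])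
  obtain ⟨a', ha', rfl⟩ := mem_image.1 ha
  obtain ⟨b', hb', rfl⟩ := mem_image.1 hb
  rw [eval_pow, eval_X, sub_eq_iff_eq_add'] at e
  exact ⟨a', ha', b', hb', m, hm, by exact_mod_cast e⟩

/-- Squares: a subset of `[1, N]` without square differences has `o (N)` elements. -/
theorem sarkozy_square {δ : ℝ} (hδ : 0 < δ) :
    ∃ N₀ : ℕ, ∀ N : ℕ, N₀ ≤ N → ∀ A : Finset ℕ, A ⊆ Icc 1 N →
      (∀ a ∈ A, ∀ b ∈ A, ∀ m : ℕ, 1 ≤ m → a ≠ b + m ^ 2) → (A.card : ℝ) < δ * N := by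
  obtain ⟨N₀, h⟩ := sarkozy_power one_le_two hδ
  refine ⟨N₀, fun N hN A hA hfree => lt_of_not_ge fun hc => ?_⟩
  obtain ⟨a, ha, b, hb, m, hm, e⟩ := h N hN A hA hc
  exact hfree a ha b hb m hm e

open scoped Classical in
/-- A set of positive upper density has two elements differing by a positive `k`-th power. -/
theorem upper_density_power_difference {k : ℕ} (hk : 1 ≤ k) (A : Set ℕ) {δ : ℝ} (hδ : 0 < δ)
    (hA : ∃ᶠ N : ℕ in atTop, δ * N ≤ ((Icc 1 N).filter (· ∈ A)).card) :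
    ∃ a ∈ A, ∃ b ∈ A, ∃ m : ℕ, 1 ≤ m ∧ a = b + m ^ k := by
  obtain ⟨N₀, h⟩ := sarkozy_power hk hδ
  obtain ⟨N, hc, hN⟩ := (hA.and_eventually (eventually_ge_atTop N₀)).exists
  obtain ⟨a, ha, b, hb, hab⟩ := h N hN _ (filter_subset _ _) hc
  exact ⟨a, (mem_filter.1 ha).2, b, (mem_filter.1 hb).2, hab⟩

/-- In every finite colouring some colour has two numbers differing by a positive `k`-th power. -/
theorem colouring_power_difference {k : ℕ} (hk : 1 ≤ k) {ι : Type*} [Finite ι] (c : ℕ → ι) :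
    ∃ a b m : ℕ, c a = c b ∧ 1 ≤ m ∧ a = b + m ^ k := by
  classical
  have := Fintype.ofFinite ι
  have : Nonempty ι := ⟨c 0⟩
  have hι : (0 : ℝ) < Fintype.card ι := Nat.cast_pos.2 Fintype.card_pos
  obtain ⟨N, h⟩ := sarkozy_power hk (inv_pos.2 hι)
  obtain ⟨i, -, hi⟩ := exists_le_of_sum_le (s := (univ : Finset ι)) univ_nonempty
    (f := fun _ => (Fintype.card ι : ℝ)⁻¹ * N)
    (g := fun i => (((Icc 1 N).filter fun n => c n = i).card : ℝ)) (by
      rw [sum_const, card_univ, nsmul_eq_mul, ← mul_assoc, mul_inv_cancel₀ hι.ne', one_mul,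
        ← Nat.cast_sum, ← card_eq_sum_card_fiberwise fun n _ => mem_univ (c n)]
      simp)
  obtain ⟨a, ha, b, hb, m, hm, e⟩ := h N le_rfl _ (filter_subset _ _) hi
  exact ⟨a, b, m, (mem_filter.1 ha).2.trans (mem_filter.1 hb).2.symm, hm, e⟩

end FA.FurstenbergSarkozy.Summary
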