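import Fermat.Agent.GFunctionValues.Log

/-!
# Values of G-functions: the theorems of Siegel, Bombieri and Chudnovsky

If G-functions, independent over `ℚ[X]`, solve `T f' = A f` then their values at a rational point
`a / b ≠ 0` with `q₀ |a| ^ (m + 1) ≤ b` are linearly independent over `ℚ`, and at `1 / q`, `q`
large, a form of height `H` in these values is at least `c H ^ -(m - 1 + ε)`. The values are the
real sums of the series; algebraic or `p`-adic points, global relations and explicit bounds for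
`q₀` are not treated.
-/

set_option autoImplicit false

noncomputable section

namespace FA.GFunctionValues.Summary

open Polynomial Finset
open FA.GFunctions (IsGFunction)

variable {m : ℕ} {T : ℤ[X]} {A : Matrix (Fin m) (Fin m) ℤ[X]} {f : Fin m → PowerSeries ℚ}

/-- **Siegel, Bombieri, Chudnovsky**: the values of independent G-functions at a rational point
close to the origin are linearly independent. -/
theorem gfunction_values_independent (hT : T ≠ 0) (hG : ∀ j, IsGFunction (f j))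
    (hind : ∀ P : Fin m → ℚ[X], ∑ j, (P j : PowerSeries ℚ) * f j = 0 → P = 0)
    (hf : ∀ i, ((T.map (Int.castRingHom ℚ) : ℚ[X]) : PowerSeries ℚ) *
        PowerSeries.derivative ℚ (f i) =
      ∑ j, (((A i j).map (Int.castRingHom ℚ) : ℚ[X]) : PowerSeries ℚ) * f j) :
    ∃ q₀ : ℕ, ∀ a b : ℤ, a ≠ 0 → 0 < b → (q₀ : ℤ) * |a| ^ (m + 1) ≤ b →
      ∃ y : Fin m → ℝ,
        (∀ j, HasSum (fun k => ((PowerSeries.coeff k (f j) : ℚ) : ℝ) * ((a : ℝ) / b) ^ k) (y j)) ∧
        LinearIndependent ℚ y := by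
  obtain ⟨q₀, h⟩ := exists_values_independent hT hG hind hf
  exact ⟨q₀, fun a b ha hb hab => ⟨_, (h a b ha hb hab).1, (h a b ha hb hab).2⟩⟩

/-- **The measure of linear independence** of the values at `1 / q`. -/
theorem gfunction_linear_form_measure (hm : 0 < m) (hT : T ≠ 0) (hG : ∀ j, IsGFunction (f j))
    (hind : ∀ P : Fin m → ℚ[X], ∑ j, (P j : PowerSeries ℚ) * f j = 0 → P = 0)
    (hf : ∀ i, ((T.map (Int.castRingHom ℚ) : ℚ[X]) : PowerSeries ℚ) *
        PowerSeries.derivative ℚ (f i) =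
      ∑ j, (((A i j).map (Int.castRingHom ℚ) : ℚ[X]) : PowerSeries ℚ) * f j)
    {ε : ℝ} (hε : 0 < ε) :
    ∃ q₀ : ℕ, ∀ q : ℕ, q₀ ≤ q → ∃ y : Fin m → ℝ,
      (∀ j, HasSum (fun k => ((PowerSeries.coeff k (f j) : ℚ) : ℝ) * (1 / q : ℝ) ^ k) (y j)) ∧
      ∃ c : ℝ, 0 < c ∧ ∀ h : Fin m → ℤ, h ≠ 0 → ∀ H : ℝ, (∀ j, |(h j : ℝ)| ≤ H) →
        c * H ^ (-((m : ℝ) - 1 + ε)) ≤ |∑ j, (h j : ℝ) * y j| := by
  obtain ⟨q₀, h⟩ := exists_linear_form_measure hT hG hind hf hm hε
  exact ⟨q₀, fun q hq => ⟨_, (h q hq).1, (h q hq).2⟩⟩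

/-- `log (1 + a / b)` is irrational when `b` is large compared with `|a| ^ 3`. -/
theorem log_irrational : ∃ q₀ : ℕ, ∀ a b : ℤ, a ≠ 0 → 0 < b → (q₀ : ℤ) * |a| ^ 3 ≤ b →
    Irrational (Real.log (1 + (a : ℝ) / b)) := by
  have hG : ∀ j : Fin 2, IsGFunction (![1, logSeries] j) := fun j => by
    fin_cases j
    · exact isGFunction_one
    · exact isGFunction_logSeries
  obtain ⟨q₀, h⟩ := exists_values_independent (T := (1 + X : ℤ[X]))
    (fun h => by simpa using congrArg (Polynomial.eval 0) h)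
    hG logSeries_independent isSolution_logSeries
  refine ⟨q₀ + 2, fun a b ha hb hab => ?_⟩
  obtain ⟨hval, hli⟩ := h a b ha hb (le_trans (mul_le_mul_of_nonneg_right (by push_cast; omega)
    (by positivity)) hab)
  have hx : |(a : ℝ) / b| < 1 := by
    rw [abs_div, abs_of_pos (Int.cast_pos.2 hb), div_lt_one (Int.cast_pos.2 hb)]
    have h1 : |a| * 2 ≤ b := by
      refine le_trans ?_ hab
      rw [mul_comm |a| 2]
      exact mul_le_mul (by push_cast; omega) (le_self_pow₀ (Int.one_le_abs ha) (by norm_num))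
        (abs_nonneg a) (by positivity)
    have h2 : |a| < b := by have := Int.one_le_abs ha; omega
    exact_mod_cast h2
  rintro ⟨r, hr⟩
  have h1 := Fintype.linearIndependent_iff.1 hli ![-r, 1] ?_ 1
  · simp at h1
  rw [Fin.sum_univ_two]
  simp only [Matrix.cons_val_zero, Matrix.cons_val_one, one_smul, Rat.smul_def, neg_smul]
  rw [(hasVal_logSeries hx).val_eq, ← hr, SiegelShidlovskii.HasVal.val_eq
    (g := (1 : PowerSeries ℚ)) (v := 1) ?_]
  · ring
  refine (hasSum_ite_eq 0 (1 : ℝ)).congr_fun fun k => ?_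
  rw [PowerSeries.coeff_one]
  split_ifs with h <;> simp [h]

/-- **The irrationality exponent of `log (1 + 1 / q)`** is at most `2 + ε` for large `q`. -/
theorem log_irrationality_measure {ε : ℝ} (hε : 0 < ε) :
    ∃ q₀ : ℕ, ∀ q : ℕ, q₀ ≤ q → ∃ c : ℝ, 0 < c ∧ ∀ p r : ℤ, 0 < r →
      c * (r : ℝ) ^ (-(2 + ε)) ≤ |Real.log (1 + 1 / q) - p / r| :=
  exists_log_measure hε

end FA.GFunctionValues.Summary
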