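import Fermat.Agent.GFunctions.Main

/-!
# G-functions: the theorems of Chudnovsky, André and Katz

A G-function over `ℚ` is a power series whose coefficients and whose common denominators of the
first coefficients grow at most geometrically. If G-functions, independent over `ℚ[X]`, solve
`T f' = A f` then the system satisfies Galochkin's condition, its `p`-curvatures are nilpotent
outside a set of primes with `∑ log p / p` finite, and so the minimal equation of a G-function has
only regular singularities and rational exponents. Other coefficient fields, the converse and the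
values of G-functions are not treated.
-/

set_option autoImplicit false

noncomputable section

namespace FA.GFunctions.Summary

open Polynomial
open scoped Nat
open FA.GlobalNilpotence (companion connMat indicialPoly)

/-- G-functions. -/
theorem gfunction_iff (f : PowerSeries ℚ) :
    IsGFunction f ↔ ∃ C : ℕ, (∀ k, |PowerSeries.coeff k f| ≤ (C : ℚ) ^ (k + 1)) ∧
      ∀ N, ∃ d : ℕ, 0 < d ∧ d ≤ C ^ (N + 1) ∧
        ∀ k ≤ N, ∃ z : ℤ, (z : ℚ) = (d : ℚ) * PowerSeries.coeff k f :=
  Iff.rfl

/-- The numerators `A_s` of `y⁽ˢ⁾ = (A_s / T ^ s) y` on the solutions of `T y' = A y`. -/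
theorem solution_derivative_recursion {n : ℕ} (T : ℤ[X]) (A : Matrix (Fin n) (Fin n) ℤ[X]) :
    solIter T A 0 = 1 ∧ ∀ s, solIter T A (s + 1) = T • (solIter T A s).map derivative -
      ((s : ℤ[X]) * derivative T) • solIter T A s + solIter T A s * A :=
  ⟨rfl, fun _ => rfl⟩

/-- Galochkin's condition. -/
theorem galochkin_iff {n : ℕ} (T : ℤ[X]) (A : Matrix (Fin n) (Fin n) ℤ[X]) :
    Galochkin T A ↔ ∃ C : ℕ, ∀ s : ℕ, ∃ D : ℕ, 0 < D ∧ D ≤ C ^ (s + 1) ∧
      ∀ t ≤ s, ∀ (i j : Fin n) (e : ℕ), (t ! : ℤ) ∣ (D : ℤ) * (solIter T A t i j).coeff e :=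
  Iff.rfl

/-- **Chudnovsky**: G-functions independent over `ℚ[X]` force Galochkin's condition on their
system. -/
theorem chudnovsky_galochkin {n : ℕ} {T : ℤ[X]} (hT : T ≠ 0)
    {A : Matrix (Fin n) (Fin n) ℤ[X]} {f : Fin n → PowerSeries ℚ}
    (hG : ∀ j, IsGFunction (f j))
    (hind : ∀ P : Fin n → ℚ[X], ∑ j, (P j : PowerSeries ℚ) * f j = 0 → P = 0)
    (hf : ∀ i, ((T.map (Int.castRingHom ℚ) : ℚ[X]) : PowerSeries ℚ) *
        PowerSeries.derivative ℚ (f i) =
      ∑ j, (((A i j).map (Int.castRingHom ℚ) : ℚ[X]) : PowerSeries ℚ) * f j) :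
    Galochkin T A :=
  galochkin_of_gfunctions hT hG hind hf

/-- The numerators of the `p`-curvature of a system. -/
theorem system_pcurvature_recursion {R : Type*} [CommRing R] {n : ℕ} (T : R[X])
    (A : Matrix (Fin n) (Fin n) R[X]) :
    sysMat T A 0 = 1 ∧ ∀ i, sysMat T A (i + 1) = T • (sysMat T A i).map derivative -
      ((i : R[X]) * derivative T) • sysMat T A i - A * sysMat T A i :=
  ⟨rfl, fun _ => rfl⟩

/-- **Galochkin's condition gives global nilpotence** up to primes with `∑ log p / p` finite. -/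
theorem galochkin_global_nilpotence {n : ℕ} {T : ℤ[X]} {A : Matrix (Fin n) (Fin n) ℤ[X]}
    (h : Galochkin T A) :
    Summable ({p : ℕ | p.Prime ∧ ¬IsNilpotent (sysMat (T.map (Int.castRingHom (ZMod p)))
      (A.map (Polynomial.map (Int.castRingHom (ZMod p)))) p)}.indicator
        fun p : ℕ => Real.log p / p) :=
  summable_badPrimes h

/-- **Katz with a density**: it is enough that the primes with non-nilpotent `p`-curvature have a
convergent sum of reciprocals. -/
theorem katz_density {a : ℕ → ℤ[X]} {n : ℕ} (ha : a n ≠ 0)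
    (h : Summable ({p : ℕ | p.Prime ∧ ¬IsNilpotent (connMat
      (fun j => (a j).map (Int.castRingHom (ZMod p))) n p)}.indicator fun p : ℕ => (1 : ℝ) / p)) :
    (∀ l ≤ n, a l ≠ 0 → (∀ r : ℂ, ((a n).map (Int.castRingHom ℂ)).rootMultiplicity r ≤
        ((a l).map (Int.castRingHom ℂ)).rootMultiplicity r + (n - l)) ∧
      (a l).natDegree + (n - l) ≤ (a n).natDegree) ∧
    (∀ r ρ : ℂ, (indicialPoly (fun j => ((a j).map (Int.castRingHom ℂ)).comp (X + C r)) n
        (((a n).map (Int.castRingHom ℂ)).rootMultiplicity r)).IsRoot ρ →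
      ∃ q : ℚ, ρ = (q : ℂ)) ∧
    ∀ ρ : ℂ, (indicialPoly (fun j => (a j).map (Int.castRingHom ℂ)) n (a n).natDegree).IsRoot ρ →
      ∃ q : ℚ, ρ = (q : ℂ) := by
  have he : badPrimes (a n) (companion a n) = {p : ℕ | p.Prime ∧ ¬IsNilpotent (connMat
      (fun j => (a j).map (Int.castRingHom (ZMod p))) n p)} := by
    ext p
    simp only [badPrimes, Set.mem_ofPred_eq, connMat_mod_eq]
  have hgn := nilpotentEnough_of_summable (he ▸ h)
  exact ⟨fun l hl hal => ⟨fun r => FA.GlobalNilpotence.rootMultiplicity_le hgn ha r hl hal,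
      FA.GlobalNilpotence.natDegree_add_le hgn ha hl hal⟩,
    fun r _ hρ => FA.GlobalNilpotence.exponent_rational hgn ha r hρ,
    fun _ hρ => FA.GlobalNilpotence.exponent_rational_infinity hgn ha hρ⟩

/-- Minimal equations. -/
theorem minimal_equation_iff (a : ℕ → ℤ[X]) (n : ℕ) (f : PowerSeries ℚ) :
    IsMinimalEquation a n f ↔ a n ≠ 0 ∧
      ∑ j ∈ Finset.range (n + 1), ((a j).map (Int.castRingHom ℚ) : PowerSeries ℚ) *
        (PowerSeries.derivative ℚ)^[j] f = 0 ∧
      ∀ b : ℕ → ℤ[X], ∑ j ∈ Finset.range n, ((b j).map (Int.castRingHom ℚ) : PowerSeries ℚ) *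
        (PowerSeries.derivative ℚ)^[j] f = 0 → ∀ j < n, b j = 0 :=
  Iff.rfl

/-- A series satisfying a linear differential equation has a minimal one. -/
theorem minimal_equation_exists {f : PowerSeries ℚ} {a : ℕ → ℤ[X]} {n : ℕ}
    (ha : ∃ j ≤ n, a j ≠ 0)
    (h : ∑ j ∈ Finset.range (n + 1), ((a j).map (Int.castRingHom ℚ) : PowerSeries ℚ) *
      (PowerSeries.derivative ℚ)^[j] f = 0) :
    ∃ (m : ℕ) (b : ℕ → ℤ[X]), m ≤ n ∧ IsMinimalEquation b m f :=
  exists_minimalEquation ha h

/-- **André, Chudnovsky, Katz**: the minimal equation of a G-function satisfies Galochkin's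
condition, has nilpotent `p`-curvature outside primes with `∑ log p / p` finite, only regular
singularities and only rational exponents. -/
theorem gfunction_minimal_operator {f : PowerSeries ℚ} (hf : IsGFunction f) {a : ℕ → ℤ[X]} {n : ℕ}
    (h : IsMinimalEquation a n f) :
    Galochkin (a n) (companion a n) ∧
    Summable ({p : ℕ | p.Prime ∧ ¬IsNilpotent (connMat
      (fun j => (a j).map (Int.castRingHom (ZMod p))) n p)}.indicator
        fun p : ℕ => Real.log p / p) ∧
    (∀ l ≤ n, a l ≠ 0 → (∀ r : ℂ, ((a n).map (Int.castRingHom ℂ)).rootMultiplicity r ≤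
        ((a l).map (Int.castRingHom ℂ)).rootMultiplicity r + (n - l)) ∧
      (a l).natDegree + (n - l) ≤ (a n).natDegree) ∧
    (∀ r ρ : ℂ, (indicialPoly (fun j => ((a j).map (Int.castRingHom ℂ)).comp (X + C r)) n
        (((a n).map (Int.castRingHom ℂ)).rootMultiplicity r)).IsRoot ρ →
      ∃ q : ℚ, ρ = (q : ℂ)) ∧
    ∀ ρ : ℂ, (indicialPoly (fun j => (a j).map (Int.castRingHom ℂ)) n (a n).natDegree).IsRoot ρ →
      ∃ q : ℚ, ρ = (q : ℂ) := by
  have he : badPrimes (a n) (companion a n) = {p : ℕ | p.Prime ∧ ¬IsNilpotent (connMat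
      (fun j => (a j).map (Int.castRingHom (ZMod p))) n p)} := by
    ext p
    simp only [badPrimes, Set.mem_ofPred_eq, connMat_mod_eq]
  have hg := h.galochkin hf
  exact ⟨hg, he ▸ summable_badPrimes hg, katz_density h.1 (he ▸ summable_one_div_badPrimes hg)⟩

/-- The geometric series is a G-function. -/
theorem gfunction_geometric : IsGFunction (PowerSeries.mk fun _ => 1) :=
  ⟨1, fun k => by simp, fun _ => ⟨1, one_pos, by simp, fun k _ => ⟨1, by simp⟩⟩⟩

/-- The exponential series is not a G-function. -/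
theorem exp_not_gfunction : ¬IsGFunction (PowerSeries.exp ℚ) :=
  not_isGFunction_exp

/-- No nonzero solution of `y'' = x y` is a G-function. -/
theorem airy_not_gfunction {f : PowerSeries ℚ} (hf0 : f ≠ 0)
    (hf : (PowerSeries.derivative ℚ)^[2] f = PowerSeries.X * f) : ¬IsGFunction f :=
  not_isGFunction_airy hf0 hf

end FA.GFunctions.Summary
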