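import Fermat.Agent.IsogenyNF.GLTwo

/-!
# Serre's theorem modulo `p` over number fields: the whole of `GL₂`

Over every number field `K` the determinant on the `p`-torsion is the mod `p` cyclotomic
character, which is onto for `p` prime to the discriminant of `K`; so if the invariant is not an
algebraic integer, then for all but finitely many primes the image is all of `GL₂(𝔽_p)`.
-/

set_option autoImplicit false
set_option linter.unusedSectionVars false

noncomputable section

namespace FA.Summary

open WeierstrassCurve FA.IsogenyNF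
open scoped WeierstrassCurve.Affine

universe u

variable {K : Type u} [Field K] [NumberField K]

local notation "Kc" => AlgebraicClosure K

/-- **The cyclotomic polynomial is irreducible over `K`** for `p` prime to the discriminant. -/
theorem cyclotomic_irreducible_numberField {p : ℕ} (hp : p.Prime)
    (hd : ¬ (p : ℤ) ∣ NumberField.discr K) : Irreducible (Polynomial.cyclotomic p K) :=
  irreducible_cyclotomic_of_not_dvd_discr hp hd

variable [DecidableEq (AlgebraicClosure K)] (E : WeierstrassCurve K) [E.IsElliptic]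

/-- **The determinant on the `p`-torsion is the mod `p` cyclotomic character** over `K`. -/
theorem det_eq_cyclotomic_numberField {p : ℕ} (hp : p.Prime) (σ : Kc ≃ₐ[K] Kc) {a : ℕ}
    (ha : ∀ μ : Kc, μ ^ p = 1 → σ μ = μ ^ a) :
    LinearMap.det ((DistribSMul.toAddMonoidHom
      (Submodule.torsionBy ℤ (E.toAffine⁄Kc).Point (p : ℤ)) σ).toZModLinearMap p) = (a : ZMod p) :=
  det_torRep E hp σ ha

/-- **The image is `GL₂(𝔽_p)`** for all large `p`, for `j` not an algebraic integer. -/
theorem serre_gl2_numberField (hj : ¬ IsIntegral ℤ E.j) :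
    ∃ B : ℕ, ∀ p : ℕ, p.Prime → B < p →
      ∀ f : Submodule.torsionBy ℤ (E.toAffine⁄Kc).Point (p : ℤ) ≃ₗ[ZMod p]
          Submodule.torsionBy ℤ (E.toAffine⁄Kc).Point (p : ℤ),
        ∃ σ : Kc ≃ₐ[K] Kc, ∀ x, f x = σ • x :=
  exists_bound_gl_two E hj

/-- The same in a basis: every invertible matrix comes from Galois. -/
theorem serre_gl2_matrix_numberField (hj : ¬ IsIntegral ℤ E.j) :
    ∃ B : ℕ, ∀ p : ℕ, p.Prime → B < p →
      ∀ b : Module.Basis (Fin 2) (ZMod p) (Submodule.torsionBy ℤ (E.toAffine⁄Kc).Point (p : ℤ)),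
        ∀ M : Matrix (Fin 2) (Fin 2) (ZMod p), IsUnit M.det →
          ∃ σ : Kc ≃ₐ[K] Kc, ∀ i, σ • b i = ∑ j, M j i • b j := by
  obtain ⟨B, hB⟩ := exists_bound_gl_two (Kb := Kc) E hj
  refine ⟨B, fun p hp hlt b M hM => ?_⟩
  have : Fact p.Prime := ⟨hp⟩
  have : FiniteDimensional (ZMod p) (Tor Kc E p) := Module.Finite.of_basis b
  have hu : IsUnit (LinearMap.det (Matrix.toLin b b M)) := by rwa [LinearMap.det_toLin]
  obtain ⟨σ, hσ⟩ := hB p hp hlt (LinearMap.equivOfDetNeZero _ hu.ne_zero)
  exact ⟨σ, fun i => by rw [← hσ, LinearMap.equivOfDetNeZero]; exact Matrix.toLin_self b b M i⟩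

end FA.Summary

end
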