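import Fermat.Agent.JensenPolynomials.GORZ

/-!
# Jensen polynomials of large shift (Griffin, Ono, Rolen, Zagier 2019)

`g t k = k! / (2k)! ∫_0^∞ exp (t u²) Φ u u^(2k) du`, `Φ` Pólya's kernel, and
`J_{d,n} = ∑_{j ≤ d} C (d, j) g t (n + j) X^j`. For each real `t` and each `d`, `J_{d,n}` has `d`
distinct real zeros for all large `n`: with centres `4π a e^(4a) = 2n + 9a + 2t a²`, `b = n + 1/2`,
`X = -4 (b + y √b) / a²`, `√b^d J_{d,n} X / g t n` tends to `(-1)^d He_d y`. At `t = 0` this is the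
theorem of Griffin, Ono, Rolen and Zagier for Riemann's `ξ`, and gives the Turán inequalities for
all large `n` with no hypothesis. No explicit threshold in `n` is given, and nothing here implies
the Riemann hypothesis. See `SummaryPartitionJensen` for sequences, `SummaryXiTuran` for `d = 2`.
-/

set_option autoImplicit false

noncomputable section

open MeasureTheory Filter Topology
open scoped Real Nat

namespace FA.Summary

variable {Φ : ℝ → ℝ} {g : ℝ → ℕ → ℝ}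

private theorem xiTaylor_of_hyp
    (hΦ : ∀ u, Φ u = ∑' n : ℕ, (2 * π ^ 2 * ((n : ℝ) + 1) ^ 4 * Real.exp (9 * u) -
      3 * π * ((n : ℝ) + 1) ^ 2 * Real.exp (5 * u)) *
        Real.exp (-(π * ((n : ℝ) + 1) ^ 2 * Real.exp (4 * u))))
    (hg : ∀ t k, g t k = (k ! : ℝ) / (2 * k)! *
      ∫ u in Set.Ioi (0 : ℝ), Real.exp (t * u ^ 2) * Φ u * u ^ (2 * k)) :
    g = FA.JensenPolynomials.xiTaylor := by
  have e : Φ = FA.DeBruijnNewman.polyaPhi := funext fun u => by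
    rw [hΦ, FA.DeBruijnNewman.polyaPhi]
    refine tsum_congr fun n => ?_
    rw [FA.DeBruijnNewman.polyaTerm, FA.DeBruijnNewman.polyaCoef]
    ring
  refine funext fun t => funext fun k => ?_
  rw [hg, e, FA.JensenPolynomials.xiTaylor, FA.JensenPolynomials.momCoef]
  ring

/-- **Griffin, Ono, Rolen and Zagier**: for every `d`, eventually `d` distinct real zeros and no
others. -/
theorem griffin_ono_rolen_zagier
    (hΦ : ∀ u, Φ u = ∑' n : ℕ, (2 * π ^ 2 * ((n : ℝ) + 1) ^ 4 * Real.exp (9 * u) -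
      3 * π * ((n : ℝ) + 1) ^ 2 * Real.exp (5 * u)) *
        Real.exp (-(π * ((n : ℝ) + 1) ^ 2 * Real.exp (4 * u))))
    (hg : ∀ t k, g t k = (k ! : ℝ) / (2 * k)! *
      ∫ u in Set.Ioi (0 : ℝ), Real.exp (t * u ^ 2) * Φ u * u ^ (2 * k)) (t : ℝ) (d : ℕ) :
    ∃ N : ℕ, ∀ n, N ≤ n →
      (∃ S : Finset ℝ, S.card = d ∧
        ∀ x ∈ S, ∑ j ∈ Finset.range (d + 1), (d.choose j : ℝ) * g t (n + j) * x ^ j = 0) ∧
      ∀ z : ℂ,
        ∑ j ∈ Finset.range (d + 1), (d.choose j : ℂ) * (g t (n + j) : ℂ) * z ^ j = 0 →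
          z.im = 0 := by
  rw [xiTaylor_of_hyp hΦ hg]
  exact eventually_atTop.1 (FA.JensenPolynomials.eventually_hyperbolic t d)

/-- **The Hermite limit.** -/
theorem jensen_hermite_limit
    (hΦ : ∀ u, Φ u = ∑' n : ℕ, (2 * π ^ 2 * ((n : ℝ) + 1) ^ 4 * Real.exp (9 * u) -
      3 * π * ((n : ℝ) + 1) ^ 2 * Real.exp (5 * u)) *
        Real.exp (-(π * ((n : ℝ) + 1) ^ 2 * Real.exp (4 * u))))
    (hg : ∀ t k, g t k = (k ! : ℝ) / (2 * k)! *
      ∫ u in Set.Ioi (0 : ℝ), Real.exp (t * u ^ 2) * Φ u * u ^ (2 * k)) (t : ℝ) :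
    ∃ a : ℕ → ℝ, (∀ n, 0 < a n) ∧ Tendsto a atTop atTop ∧
      (∀ᶠ n : ℕ in atTop,
        4 * π * a n * Real.exp (4 * a n) = 2 * n + 9 * a n + 2 * t * a n ^ 2) ∧
      ∀ (d : ℕ) (y : ℝ), Tendsto (fun n : ℕ => √((n : ℝ) + 1 / 2) ^ d *
        ((∑ j ∈ Finset.range (d + 1), (d.choose j : ℝ) * g t (n + j) *
          (-4 * ((n : ℝ) + 1 / 2 + y * √((n : ℝ) + 1 / 2)) / a n ^ 2) ^ j) / g t n))
        atTop (𝓝 ((-1) ^ d * Polynomial.aeval y (Polynomial.hermite d))) := by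
  rw [xiTaylor_of_hyp hΦ hg]
  obtain ⟨a, h0, ht, hc⟩ := FA.JensenPolynomials.exists_centres t
  refine ⟨a, h0, ht, hc.mono fun n hn => hn.2.1, fun d y => ?_⟩
  rw [Polynomial.aeval_def, ← Polynomial.eval_map]
  exact FA.JensenPolynomials.tendsto_jensen_hermite t ht hc d y

/-- **The Turán inequalities for all large `n`**, with no hypothesis. -/
theorem turan_inequalities_eventually
    (hΦ : ∀ u, Φ u = ∑' n : ℕ, (2 * π ^ 2 * ((n : ℝ) + 1) ^ 4 * Real.exp (9 * u) -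
      3 * π * ((n : ℝ) + 1) ^ 2 * Real.exp (5 * u)) *
        Real.exp (-(π * ((n : ℝ) + 1) ^ 2 * Real.exp (4 * u))))
    (hg : ∀ t k, g t k = (k ! : ℝ) / (2 * k)! *
      ∫ u in Set.Ioi (0 : ℝ), Real.exp (t * u ^ 2) * Φ u * u ^ (2 * k)) (t : ℝ) :
    ∃ N : ℕ, ∀ n, N ≤ n → g t n * g t (n + 2) < g t (n + 1) ^ 2 := by
  rw [xiTaylor_of_hyp hΦ hg]
  exact eventually_atTop.1 (FA.JensenPolynomials.eventually_turan t)

end FA.Summary

end
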