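import Fermat.Agent.GRHBasicInequality.Consequences

/-!
# The basic inequality and discriminant bounds on the Riemann hypothesis

The Riemann hypothesis for `ζ_K` is an argument and is never assumed: every zero `z`,
`0 < re z < 1`, of the entire continuation of `(s - 1) ζ_K` has `re z = 1/2`. With `g = log √|d|`,
`N_q` places of norm `q` and `γ` Euler's constant:

* `∑_{q ∈ S} N_q log q / (√q - 1) + r₁ (log √(8π) + π/4 + γ/2) + r₂ (log 8π + γ) ≤ (1 + ε) g + C`
  for every such field (the basic inequality of Tsfasman and Vlăduţ), so `≤ 1` in families;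
* the root discriminant is at least `(8π e^(γ+π/2))^(r₁/n) (8π e^γ)^(2r₂/n) - ε` for large `n`
  (Odlyzko, Serre): above `215` for totally real and `44.7` for totally complex fields; primes
  that split completely raise it by `2 log p / (√p - 1)` each, on a logarithmic scale;
* below that bound unramified Galois extensions on the hypothesis have bounded degree.
-/

set_option autoImplicit false

noncomputable section

universe u

open NumberField InfinitePlace Module Filter Topology Set
open FA.TsfasmanVladut FA.GRHBasicInequality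
open FA.DedekindHadamard (RHFor)
open Real (eulerMascheroniConstant)
open scoped Real

namespace FA.GRHBasicInequality.Summary

private theorem rhFor_of {K : Type u} [Field K] [NumberField K]
    (h : ∀ E : ℂ → ℂ, Differentiable ℂ E →
      (∀ s : ℂ, 1 < s.re → E s = (s - 1) * dedekindZeta K s) →
        ∀ z : ℂ, E z = 0 → 0 < z.re → z.re < 1 → z.re = 1 / 2) :
    RHFor K :=
  h _ (FA.DedekindZeroCount.differentiable_cleared K)
    fun _ hs => FA.DedekindZeroCount.cleared_spec K hs

private theorem weight_half (q : ℕ) : placeWeight (1 / 2) q = Real.log q / (√q - 1) := by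
  rw [placeWeight, Real.sqrt_eq_rpow]

/-- **The inequality, uniformly in the field.** -/
theorem uniform_inequality (S : Finset ℕ) {ε : ℝ} (hε : 0 < ε) : ∃ C : ℝ,
    ∀ (K : Type u) [Field K] [NumberField K],
      (∀ E : ℂ → ℂ, Differentiable ℂ E →
        (∀ s : ℂ, 1 < s.re → E s = (s - 1) * dedekindZeta K s) →
          ∀ z : ℂ, E z = 0 → 0 < z.re → z.re < 1 → z.re = 1 / 2) →
      (∑ q ∈ S, (placeCount K q : ℝ) * (Real.log q / (√q - 1))) +
          (nrRealPlaces K * (Real.log √(8 * π) + π / 4 + eulerMascheroniConstant / 2) +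
            nrComplexPlaces K * (Real.log (8 * π) + eulerMascheroniConstant)) ≤
        (1 + ε) * (Real.log ((discr K).natAbs : ℝ) / 2) + C := by
  obtain ⟨C, -, hC⟩ := exists_lhs_half_le.{u} S hε
  refine ⟨C, fun K _ _ hRH => ?_⟩
  simpa only [lhsAt, weight_half, realRate_half, complexRate_half, logGenus] using
    hC K (rhFor_of hRH)

/-- **The inequality in families.** -/
theorem basic_inequality (F : ℕ → Type u) [∀ i, Field (F i)] [∀ i, NumberField (F i)]
    (hRH : ∀ i, ∀ E : ℂ → ℂ, Differentiable ℂ E →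
      (∀ s : ℂ, 1 < s.re → E s = (s - 1) * dedekindZeta (F i) s) →
        ∀ z : ℂ, E z = 0 → 0 < z.re → z.re < 1 → z.re = 1 / 2)
    {φ : ℕ → ℝ} {φR φC : ℝ} (hg : Tendsto (fun i => logGenus (F i)) atTop atTop)
    (hφ : ∀ q, Tendsto (fun i => (placeCount (F i) q : ℝ) / logGenus (F i)) atTop (𝓝 (φ q)))
    (hR : Tendsto (fun i => (nrRealPlaces (F i) : ℝ) / logGenus (F i)) atTop (𝓝 φR))
    (hC : Tendsto (fun i => (nrComplexPlaces (F i) : ℝ) / logGenus (F i)) atTop (𝓝 φC)) :
    Summable (fun q : ℕ => φ q * (Real.log q / (√q - 1))) ∧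
      (∑' q : ℕ, φ q * (Real.log q / (√q - 1))) +
        (φR * (Real.log √(8 * π) + π / 4 + eulerMascheroniConstant / 2) +
          φC * (Real.log (8 * π) + eulerMascheroniConstant)) ≤ 1 := by
  simpa only [weight_half, realRate_half, complexRate_half] using
    basic_inequality_half ⟨hφ, hR, hC⟩ (fun i => rhFor_of (hRH i)) hg

/-- **The bound for the root discriminant.** -/
theorem rootDiscriminant_bound {ε : ℝ} (hε : 0 < ε) :
    ∃ N : ℕ, ∀ (K : Type u) [Field K] [NumberField K],
      (∀ E : ℂ → ℂ, Differentiable ℂ E →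
        (∀ s : ℂ, 1 < s.re → E s = (s - 1) * dedekindZeta K s) →
          ∀ z : ℂ, E z = 0 → 0 < z.re → z.re < 1 → z.re = 1 / 2) →
      N ≤ finrank ℚ K →
      (8 * π * Real.exp (eulerMascheroniConstant + π / 2)) ^
            ((nrRealPlaces K : ℝ) / finrank ℚ K) *
          (8 * π * Real.exp eulerMascheroniConstant) ^
            (2 * (nrComplexPlaces K : ℝ) / finrank ℚ K) - ε ≤
        |((discr K : ℤ) : ℝ)| ^ ((finrank ℚ K : ℝ)⁻¹) := by
  obtain ⟨N, hN⟩ := exists_rootDiscr_half.{u} hε
  exact ⟨N, fun K _ _ hRH hn => hN K (rhFor_of hRH) hn⟩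

/-- **Totally real fields: above `215`.** -/
theorem totally_real : ∃ N : ℕ, ∀ (K : Type u) [Field K] [NumberField K] [IsTotallyReal K],
    (∀ E : ℂ → ℂ, Differentiable ℂ E →
      (∀ s : ℂ, 1 < s.re → E s = (s - 1) * dedekindZeta K s) →
        ∀ z : ℂ, E z = 0 → 0 < z.re → z.re < 1 → z.re = 1 / 2) →
    N ≤ finrank ℚ K → 215 < |((discr K : ℤ) : ℝ)| ^ ((finrank ℚ K : ℝ)⁻¹) := by
  obtain ⟨N, hN⟩ := exists_rootDiscr_half.{u} (half_pos (sub_pos.2 numeric_grh.1))
  refine ⟨N, fun K _ _ _ hRH hn => ?_⟩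
  have h := hN K (rhFor_of hRH) hn
  rw [grhConst_real] at h
  linarith [numeric_grh.1]

/-- **Totally complex fields: above `44.7`.** -/
theorem totally_complex : ∃ N : ℕ, ∀ (K : Type u) [Field K] [NumberField K] [IsTotallyComplex K],
    (∀ E : ℂ → ℂ, Differentiable ℂ E →
      (∀ s : ℂ, 1 < s.re → E s = (s - 1) * dedekindZeta K s) →
        ∀ z : ℂ, E z = 0 → 0 < z.re → z.re < 1 → z.re = 1 / 2) →
    N ≤ finrank ℚ K → 44.7 < |((discr K : ℤ) : ℝ)| ^ ((finrank ℚ K : ℝ)⁻¹) := by
  obtain ⟨N, hN⟩ := exists_rootDiscr_half.{u} (half_pos (sub_pos.2 numeric_grh.2))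
  refine ⟨N, fun K _ _ _ hRH hn => ?_⟩
  have h := hN K (rhFor_of hRH) hn
  rw [grhConst_complex] at h
  linarith [numeric_grh.2]

/-- **Primes that split completely.** -/
theorem rootDiscriminant_split (S : Finset ℕ) {ε : ℝ} (hε : 0 < ε) :
    ∃ N : ℕ, ∀ (K : Type u) [Field K] [NumberField K],
      (∀ E : ℂ → ℂ, Differentiable ℂ E →
        (∀ s : ℂ, 1 < s.re → E s = (s - 1) * dedekindZeta K s) →
          ∀ z : ℂ, E z = 0 → 0 < z.re → z.re < 1 → z.re = 1 / 2) →
      N ≤ finrank ℚ K → (∀ p ∈ S, placeCount K p = finrank ℚ K) →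
      2 * (∑ p ∈ S, Real.log p / (√p - 1)) +
          ((nrRealPlaces K : ℝ) * (Real.log (8 * π) + π / 2 + eulerMascheroniConstant) +
            2 * nrComplexPlaces K * (Real.log (8 * π) + eulerMascheroniConstant)) / finrank ℚ K -
          ε ≤ Real.log ((discr K).natAbs : ℝ) / finrank ℚ K := by
  obtain ⟨N, hN⟩ := exists_log_rootDiscr_half.{u} S hε
  refine ⟨N, fun K _ _ hRH hn hsp => le_trans (le_of_eq ?_) (hN K (rhFor_of hRH) hn)⟩
  have hn0 : (finrank ℚ K : ℝ) ≠ 0 := Nat.cast_ne_zero.2 finrank_pos.ne'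
  congr 1
  congr 1
  · congr 1
    refine Finset.sum_congr rfl fun p hp => ?_
    rw [hsp p hp, div_self hn0, one_mul, weight_half]
  · rw [log_grhConst, realRate_half, complexRate_half, Real.log_sqrt (by positivity)]
    ring

/-- **No unramified tower below the bound.** -/
theorem unramified_extensions_bounded (K : Type u) [Field K] [NumberField K]
    (h : |((discr K : ℤ) : ℝ)| ^ ((finrank ℚ K : ℝ)⁻¹) <
      (8 * π * Real.exp (eulerMascheroniConstant + π / 2)) ^
          ((nrRealPlaces K : ℝ) / finrank ℚ K) *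
        (8 * π * Real.exp eulerMascheroniConstant) ^
          (2 * (nrComplexPlaces K : ℝ) / finrank ℚ K)) :
    ∃ B : ℕ, ∀ (L : Type u) [Field L] [NumberField L] [Algebra K L] [IsGalois K L]
      [Algebra.Unramified (𝓞 K) (𝓞 L)] [IsUnramifiedAtInfinitePlaces K L],
      (∀ E : ℂ → ℂ, Differentiable ℂ E →
        (∀ s : ℂ, 1 < s.re → E s = (s - 1) * dedekindZeta L s) →
          ∀ z : ℂ, E z = 0 → 0 < z.re → z.re < 1 → z.re = 1 / 2) →
      finrank K L ≤ B := by
  obtain ⟨B, hB⟩ := exists_unramified_bound_half K h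
  exact ⟨B, fun L _ _ _ _ _ _ hRH => hB L (rhFor_of hRH)⟩

end FA.GRHBasicInequality.Summary

end
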