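import Fermat.Agent.GRHClasses.Criterion
import Fermat.Agent.GRHClasses.PrimeCount
import Fermat.Agent.GRHClasses.Exponential
import Fermat.Agent.Root.SummaryGRHProgressions

/-!
# Primes in progressions on the Riemann hypothesis, II

The hypothesis for all characters mod `q` is equivalent to
`ψ (x; q, a) - x / φ q = O_ε (x ^ (1/2 + ε))` for every class, and gives
`π (x; q, a) = li x / φ q + O (√x log² (q x) / log x)`, the variance `O (x log⁴ (q x))` over the
classes, Turán's theorem on the classes without small primes, and the formula of Hardy and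
Littlewood for `∑ Λ n e (α n)` near `a / q`. All constants are absolute.
-/

set_option autoImplicit false

noncomputable section

namespace FA.GRHClasses.Summary

open Finset Filter Asymptotics
open FA.GRHProgressions.Summary (AllGRH)
open scoped Real Classical ArithmeticFunction.vonMangoldt ArithmeticFunction.Moebius

variable {q : ℕ}

private theorem psiClass_eq (a : ZMod q) (x : ℝ) : PNT.psiClass a x =
    ∑ n ∈ (Icc 1 ⌊x⌋₊).filter (fun n : ℕ => (n : ZMod q) = a), Λ n := by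
  rw [PNT.psiClass, Finset.sum_filter]
  refine Finset.sum_congr rfl fun n _ => ?_
  simp [ArithmeticFunction.vonMangoldt.residueClass, Set.indicator_apply]

/-- **GRH mod `q` is `ψ (x; q, a) = x / φ q + O_ε (x ^ (1/2 + ε))` for every class.** -/
theorem grh_iff_psi_progression (q : ℕ) [NeZero q] : AllGRH q ↔
    ∀ a : ZMod q, IsUnit a → ∀ ε : ℝ, 0 < ε →
      (fun x : ℝ => (∑ n ∈ (Icc 1 ⌊x⌋₊).filter (fun n : ℕ => (n : ZMod q) = a), Λ n) -
        x / q.totient) =O[atTop] fun x : ℝ => x ^ (1 / 2 + ε) := by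
  simp only [← psiClass_eq]
  exact ⟨classBound_of_grhMod, grhMod_of_classBound⟩

/-- **GRH mod `q` is `ψ (x; q, a) = x / φ q + O (√x log² x)` for every class.** -/
theorem grh_iff_psi_progression_sharp (q : ℕ) [NeZero q] : AllGRH q ↔
    ∀ a : ZMod q, IsUnit a →
      (fun x : ℝ => (∑ n ∈ (Icc 1 ⌊x⌋₊).filter (fun n : ℕ => (n : ZMod q) = a), Λ n) -
        x / q.totient) =O[atTop] fun x : ℝ => √x * Real.log x ^ 2 := by
  simp only [← psiClass_eq]
  exact ⟨fun h _ ha => isBigO_classes h ha, fun h => grhMod_of_classBound fun a ha _ hε =>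
    (h a ha).trans (GRHProgressions.isBigO_sqrt_log_sq hε)⟩

/-- **`π (x; q, a)` on GRH.** -/
theorem prime_count_progression : ∃ C : ℝ, 0 ≤ C ∧ ∀ (q : ℕ) [NeZero q], AllGRH q →
    ∀ a : ZMod q, IsUnit a → ∀ x : ℝ, 2 ≤ x →
      |(((Icc 1 ⌊x⌋₊).filter (fun p : ℕ => p.Prime ∧ (p : ZMod q) = a)).card : ℝ) -
        (∫ t in (2 : ℝ)..x, 1 / Real.log t) / q.totient| ≤
          C * √x * Real.log (q * x) ^ 2 / Real.log x := by
  obtain ⟨C, hC, h⟩ := exists_piClass
  refine ⟨C, hC, fun q _ hG a ha x hx => le_trans (le_of_eq ?_) (h q hG a ha x hx)⟩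
  rw [PNT.piClass]

/-- **`π (x; q, a) = li x / φ q + O (√x log x)` for `q ≤ x` on GRH.** -/
theorem prime_count_progression_uniform : ∃ C : ℝ, 0 ≤ C ∧ ∀ (q : ℕ) [NeZero q], AllGRH q →
    ∀ a : ZMod q, IsUnit a → ∀ x : ℝ, 2 ≤ x → (q : ℝ) ≤ x →
      |(((Icc 1 ⌊x⌋₊).filter (fun p : ℕ => p.Prime ∧ (p : ZMod q) = a)).card : ℝ) -
        (∫ t in (2 : ℝ)..x, 1 / Real.log t) / q.totient| ≤ C * √x * Real.log x := by
  obtain ⟨C, hC, h⟩ := prime_count_progression
  refine ⟨4 * C, by positivity, fun q _ hG a ha x hx hqx => (h q hG a ha x hx).trans ?_⟩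
  have hq : (1 : ℝ) ≤ q := Nat.one_le_cast.2 NeZero.one_le
  have hlx : 0 < Real.log x := Real.log_pos (by linarith)
  rw [div_le_iff₀ hlx]
  have hl : Real.log (q * x) ≤ 2 * Real.log x := by
    rw [Real.log_mul (by positivity) (by positivity)]
    linarith [Real.log_le_log (by linarith) hqx]
  calc C * √x * Real.log (q * x) ^ 2 ≤ C * √x * (2 * Real.log x) ^ 2 := by
        gcongr
        exact Real.log_nonneg (by nlinarith)
    _ = _ := by ring

/-- **The variance over the classes on GRH.** -/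
theorem psi_variance : ∃ C : ℝ, 0 ≤ C ∧ ∀ (q : ℕ) [NeZero q], AllGRH q → ∀ x : ℝ, 2 ≤ x →
    ∑ a ∈ (univ : Finset (ZMod q)).filter (fun a => IsUnit a),
      ((∑ n ∈ (Icc 1 ⌊x⌋₊).filter (fun n : ℕ => (n : ZMod q) = a), Λ n) - x / q.totient) ^ 2 ≤
        C * x * Real.log (q * x) ^ 4 := by
  obtain ⟨C, hC, h⟩ := exists_psi_variance
  refine ⟨C, hC, fun q _ hG x hx => ?_⟩
  simp only [← psiClass_eq]
  exact h q hG x hx

/-- The same for `θ`. -/
theorem theta_variance : ∃ C : ℝ, 0 ≤ C ∧ ∀ (q : ℕ) [NeZero q], AllGRH q → ∀ x : ℝ, 2 ≤ x →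
    ∑ a ∈ (univ : Finset (ZMod q)).filter (fun a => IsUnit a),
      (PNT.thetaClass a x - x / q.totient) ^ 2 ≤ C * x * Real.log (q * x) ^ 4 :=
  exists_theta_variance

/-- **Turán: few classes are without a prime up to `x`.** -/
theorem turan_empty_classes : ∃ C : ℝ, 0 ≤ C ∧ ∀ (q : ℕ) [NeZero q], AllGRH q → ∀ x : ℝ, 2 ≤ x →
    ((((univ : Finset (ZMod q)).filter (fun a => IsUnit a)).filter
      fun a => ∀ p : ℕ, p.Prime → (p : ZMod q) = a → x < p).card : ℝ) ≤
        C * (q.totient : ℝ) ^ 2 * Real.log (q * x) ^ 4 / x :=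
  exists_card_empty

/-- **Turán: all but `O (φ q / K)` classes have a prime up to `K φ q log⁴ (2 q K)`.** -/
theorem turan_almost_all_classes : ∃ C : ℝ, 0 ≤ C ∧ ∀ (q : ℕ) [NeZero q], AllGRH q →
    ∀ K : ℝ, 1 ≤ K → ((((univ : Finset (ZMod q)).filter (fun a => IsUnit a)).filter
      fun a => ∀ p : ℕ, p.Prime → (p : ZMod q) = a →
        K * q.totient * Real.log (2 * q * K) ^ 4 < p).card : ℝ) ≤ C * q.totient / K :=
  exists_turan

/-- **Exponential sums at rationals on GRH.** -/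
theorem exponential_sum_rational : ∃ C : ℝ, 0 ≤ C ∧ ∀ (q : ℕ) [NeZero q], AllGRH q →
    ∀ a : ℤ, IsUnit (a : ZMod q) → ∀ x : ℝ, 2 ≤ x →
      ‖(∑ n ∈ Ioc 0 ⌊x⌋₊, (Λ n : ℂ) *
          Complex.exp ((2 * π * ((a : ℝ) * n / q) : ℝ) * Complex.I)) -
        (((μ q : ℝ) / q.totient * x : ℝ) : ℂ)‖ ≤ C * √(q * x) * Real.log (q * x) ^ 2 :=
  exists_rational_sum

/-- **Hardy and Littlewood: exponential sums near rationals on GRH.** -/
theorem exponential_sum_near_rational : ∃ C : ℝ, 0 ≤ C ∧ ∀ (q : ℕ) [NeZero q], AllGRH q →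
    ∀ a : ℤ, IsUnit (a : ZMod q) → ∀ (β : ℝ) (N : ℕ), 2 ≤ N →
      ‖(∑ n ∈ Ioc 0 N, (Λ n : ℂ) *
          Complex.exp ((2 * π * (n * ((a : ℝ) / q + β)) : ℝ) * Complex.I)) -
        (((μ q : ℝ) / q.totient : ℝ) : ℂ) *
          ∑ n ∈ Ioc 0 N, Complex.exp ((2 * π * (n * β) : ℝ) * Complex.I)‖ ≤
        C * √(q * N) * Real.log (q * N) ^ 2 * (1 + 2 * π * |β| * N) :=
  exists_near_rational

end FA.GRHClasses.Summary

end
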