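import Fermat.Agent.GRHGoldbach.Main
import Fermat.Agent.Root.SummaryGRHProgressions

/-!
# Hardy and Littlewood: Goldbach's problem for almost all numbers on the Riemann hypothesis

The hypothesis for the moduli `q ≤ X` is an argument of each statement. It gives the formula of
Hardy and Littlewood in mean square with the error `X ^ (8/3) log⁷ X`, and all but
`O (X ^ (2/3) log⁷ X)` even numbers up to `X` are then sums of two primes (1924, where the
exponent is `1/2 + ε`). This is not Goldbach's conjecture, also on the hypothesis. The constants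
are absolute.
-/

set_option autoImplicit false

noncomputable section

namespace FA.GRHGoldbach.Summary

open Finset
open FA.GRHProgressions.Summary (AllGRH)
open scoped Real ArithmeticFunction.vonMangoldt

/-- **The mean square on GRH.** -/
theorem goldbach_mean_square_grh : ∃ C : ℝ, 0 ≤ C ∧ ∀ X : ℕ, 2 ≤ X →
    (∀ (q : ℕ) [NeZero q], q ≤ X → AllGRH q) →
    ∑ n ∈ Icc 1 X, ((∑ i ∈ Icc 1 (n - 1), Λ i * Λ (n - i)) -
        FA.AlmostGoldbach.pairSeries n * n) ^ 2 ≤
      C * ((X : ℝ) ^ (8 / 3 : ℝ) * Real.log X ^ 7) :=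
  exists_mean_square

/-- **Few even numbers with few representations, on GRH.** -/
theorem goldbach_exceptional_count_grh : ∃ C : ℝ, 0 ≤ C ∧ ∀ X : ℕ, 2 ≤ X →
    (∀ (q : ℕ) [NeZero q], q ≤ X → AllGRH q) →
    ({n : ℕ | 1 ≤ n ∧ n ≤ X ∧ Even n ∧
      (((Icc 1 n).filter fun p => p.Prime ∧ (n - p).Prime).card : ℝ) * Real.log n ^ 2 <
        n / 8}.ncard : ℝ) ≤ C * ((X : ℝ) ^ (2 / 3 : ℝ) * Real.log X ^ 7) := by
  obtain ⟨C, hC, h⟩ := exists_card_fewPairs
  obtain ⟨K, hK, hb⟩ := exists_exceptBound_le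
  refine ⟨C * K, by positivity, fun X hX hG => le_of_eq_of_le ?_ ((h X hG).trans
    ((mul_le_mul_of_nonneg_left (hb X hX) hC).trans_eq (mul_assoc _ _ _).symm))⟩
  rw [← Set.ncard_coe_finset]
  congr 2
  ext n
  simp [FA.AlmostGoldbach.fewPairs, FA.AlmostGoldbach.goldbachCount, and_assoc]

/-- **All but `O (X ^ (2/3) log⁷ X)` even numbers are sums of two distinct primes, on GRH.** -/
theorem goldbach_exceptional_grh : ∃ C : ℝ, 0 ≤ C ∧ ∀ X : ℕ, 2 ≤ X →
    (∀ (q : ℕ) [NeZero q], q ≤ X → AllGRH q) →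
    ({n : ℕ | 1 ≤ n ∧ n ≤ X ∧ Even n ∧
      ¬ ∃ p q : ℕ, p.Prime ∧ q.Prime ∧ p < q ∧ p + q = n}.ncard : ℝ) ≤
        C * ((X : ℝ) ^ (2 / 3 : ℝ) * Real.log X ^ 7) := by
  obtain ⟨C, hC, h⟩ := exists_card_exceptions
  refine ⟨C, hC, fun X hX hG => le_of_eq_of_le ?_ (h X hX hG)⟩
  rw [← Set.ncard_coe_finset]
  congr 2
  ext n
  simp [FA.AlmostGoldbach.goldbachExceptions, and_assoc]

end FA.GRHGoldbach.Summary

end
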