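import Fermat.Agent.GRHThreePrimes.Main
import Fermat.Agent.Root.SummaryGRHProgressions

/-!
# Hardy and Littlewood: three primes on the Riemann hypothesis

The hypothesis for the moduli `q ≤ N` is an argument of each statement. It gives
`∑_{n ≤ N} Λ n e (α n)` on the whole circle up to `O (N ^ (5/6) log² N)`, and the asymptotic
formula of Hardy and Littlewood (1923) for three primes with the error `O (N ^ (11/6) log³ N)`.
The singular series is `FA.ThreePrimes.singularSeries` (`singularSeries_eq`,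
`singularSeries_bounds`: at least `1/2` for odd `N`). The constants are absolute.
-/

set_option autoImplicit false

noncomputable section

namespace FA.GRHThreePrimes.Summary

open Finset
open FA.GRHProgressions.Summary (AllGRH)
open scoped Real ArithmeticFunction.vonMangoldt ArithmeticFunction.Moebius

private theorem sixth_four (N : ℕ) : sixth N ^ 4 = (N : ℝ) ^ (2 / 3 : ℝ) := by
  rw [sixth, ← Real.rpow_natCast, ← Real.rpow_mul (Nat.cast_nonneg N)]
  norm_num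

private theorem sixth_five (N : ℕ) : sixth N ^ 5 = (N : ℝ) ^ (5 / 6 : ℝ) := by
  rw [sixth, ← Real.rpow_natCast, ← Real.rpow_mul (Nat.cast_nonneg N)]
  norm_num

/-- **The exponential sum over primes on the whole circle, on GRH.** -/
theorem exponential_sum_circle : ∃ C : ℝ, 0 ≤ C ∧ ∀ N : ℕ, 2 ≤ N →
    (∀ (q : ℕ) [NeZero q], q ≤ N → AllGRH q) → ∀ α : ℝ,
      ∃ (q : ℕ) (a : ℤ), 0 < q ∧ (q : ℝ) ≤ (N : ℝ) ^ (2 / 3 : ℝ) ∧ IsCoprime a (q : ℤ) ∧
        |α - a / q| ≤ 1 / (q * (N : ℝ) ^ (2 / 3 : ℝ)) ∧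
        ‖(∑ n ∈ Ioc 0 N, (Λ n : ℂ) * Complex.exp ((2 * π * (n * α) : ℝ) * Complex.I)) -
            (((μ q : ℝ) / q.totient : ℝ) : ℂ) *
              ∑ n ∈ Ioc 0 N, Complex.exp ((2 * π * (n * (α - a / q)) : ℝ) * Complex.I)‖ ≤
          C * ((N : ℝ) ^ (5 / 6 : ℝ) * Real.log N ^ 2) := by
  obtain ⟨C, hC, h⟩ := exists_uniform_approx
  refine ⟨C, hC, fun N hN hG α => ?_⟩
  obtain ⟨q, a, hq, hqt, ha, hβ, happ⟩ := h N hN hG α
  rw [sixth_four] at hqt hβ
  rw [sixth_five] at happ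
  refine ⟨q, a, hq, hqt, ?_, hβ, ?_⟩
  · rwa [ZMod.coe_int_isUnit_iff_isCoprime, isCoprime_comm] at ha
  · simpa [ThreePrimes.twist, ThreePrimes.geomSum, ThreePrimes.eAdd, weight,
      ThreePrimes.moebiusR] using happ

/-- **Hardy and Littlewood's asymptotic formula.** -/
theorem hardy_littlewood_three_primes : ∃ C : ℝ, 0 ≤ C ∧ ∀ N : ℕ, 2 ≤ N →
    (∀ (q : ℕ) [NeZero q], q ≤ N → AllGRH q) →
    |(∑ x ∈ (Icc 1 N ×ˢ Icc 1 N ×ˢ Icc 1 N).filter (fun x => x.1 + x.2.1 + x.2.2 = N),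
        Λ x.1 * Λ x.2.1 * Λ x.2.2) - FA.ThreePrimes.singularSeries N * ((N : ℝ) ^ 2 / 2)| ≤
      C * ((N : ℝ) ^ (11 / 6 : ℝ) * Real.log N ^ 3) := by
  obtain ⟨C, hC, h⟩ := exists_asymptotic
  refine ⟨C, hC, fun N hN hG => ?_⟩
  have := h N hN hG
  rw [errorTerm_eq] at this
  rwa [sum_filter, sum_product, sum_congr rfl fun i _ => sum_product _ _ _]

/-- **The formula over primes only.** -/
theorem hardy_littlewood_three_primes_log : ∃ C : ℝ, 0 ≤ C ∧ ∀ N : ℕ, 2 ≤ N →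
    (∀ (q : ℕ) [NeZero q], q ≤ N → AllGRH q) →
    |(∑ x ∈ (Icc 1 N ×ˢ Icc 1 N ×ˢ Icc 1 N).filter (fun x =>
        x.1.Prime ∧ x.2.1.Prime ∧ x.2.2.Prime ∧ x.1 + x.2.1 + x.2.2 = N),
        Real.log x.1 * Real.log x.2.1 * Real.log x.2.2) -
          FA.ThreePrimes.singularSeries N * ((N : ℝ) ^ 2 / 2)| ≤
      C * ((N : ℝ) ^ (11 / 6 : ℝ) * Real.log N ^ 3) := by
  obtain ⟨C, hC, h⟩ := exists_asymptotic_primes
  refine ⟨C, hC, fun N hN hG => ?_⟩
  have := h N hN hG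
  rw [errorTerm_eq] at this
  refine le_of_eq_of_le (congrArg (fun T => |T - _|) ?_) this
  simp only [FA.ThreePrimes.triple, sum_filter, sum_product]
  refine sum_congr rfl fun i _ => sum_congr rfl fun j _ => sum_congr rfl fun k _ => ?_
  simp only [primeLog]
  split_ifs <;> simp_all

end FA.GRHThreePrimes.Summary

end
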