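import Fermat.Agent.Gaboriau.Main

/-!
# Gaboriau's theorem on free group actions

The pieces are partial translations `x ↦ g j • x`, `x ∈ A j`; two points are connected if they lie
in one class of the equivalence relation these generate. An action is free if every element other
than `1` moves almost every point. `Gaboriau.groupShift g x` is `h ↦ x (g⁻¹ * h)`.

* `gaboriau_cost` (Gaboriau): for a free measure-preserving action of a free group on `n`
  generators, pieces connecting almost every orbit have total measure at least `n`;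
* `gaboriau_cost_attained`: the generators themselves have total measure `n`;
* `gaboriau_orbit_equivalence`: orbit equivalent free actions of free groups have equally many
  generators;
* `free_bernoulli_action`: the shift of a free group on fair coins is measure preserving and free;
* `gaboriau_bernoulli`: these shifts are orbit equivalent only for equally many generators.
-/

set_option autoImplicit false

noncomputable section

open MeasureTheory Set
open scoped ENNReal

namespace FA.Summary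

variable {α β X Y ι : Type*} [Fintype α] [Fintype β] [MeasurableSpace X] [MeasurableSpace Y]
  [MulAction (FreeGroup α) X] [MulAction (FreeGroup β) Y] {μ : Measure X} [IsProbabilityMeasure μ]
  {ν : Measure Y} [IsProbabilityMeasure ν]

/-- **Gaboriau's theorem: the cost of a free action of a free group.** -/
theorem gaboriau_cost [Countable ι]
    (hpres : ∀ g : FreeGroup α, MeasurePreserving (fun x : X => g • x) μ μ)
    (hfree : ∀ g : FreeGroup α, g ≠ 1 → ∀ᵐ x ∂μ, g • x ≠ x) {A : ι → Set X}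
    (hA : ∀ j, MeasurableSet (A j)) (g : ι → FreeGroup α)
    (hconn : ∀ᵐ x ∂μ, ∀ a : α, Relation.EqvGen (fun u v => ∃ j, u ∈ A j ∧ g j • u = v) x
      (FreeGroup.of a • x)) :
    (Fintype.card α : ℝ≥0∞) ≤ ∑' j, μ (A j) :=
  Gaboriau.card_le_tsum hpres hfree hA hconn

/-- **The generators attain the cost.** -/
theorem gaboriau_cost_attained :
    (∀ x : X, ∀ a : α, Relation.EqvGen (fun u v => ∃ b : α, u ∈ (univ : Set X) ∧
      FreeGroup.of b • u = v) x (FreeGroup.of a • x)) ∧
      ∑' _a : α, μ (univ : Set X) = Fintype.card α :=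
  ⟨fun _ a => Relation.EqvGen.rel _ _ ⟨a, mem_univ _, rfl⟩, by simp⟩

variable [StandardBorelSpace X] [StandardBorelSpace Y]

/-- **Orbit equivalence remembers the number of generators.** -/
theorem gaboriau_orbit_equivalence
    (hpres : ∀ g : FreeGroup α, MeasurePreserving (fun x : X => g • x) μ μ)
    (hfree : ∀ g : FreeGroup α, g ≠ 1 → ∀ᵐ x ∂μ, g • x ≠ x)
    (hpres' : ∀ h : FreeGroup β, MeasurePreserving (fun y : Y => h • y) ν ν)
    (hfree' : ∀ h : FreeGroup β, h ≠ 1 → ∀ᵐ y ∂ν, h • y ≠ y)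
    {X₀ : Set X} {Y₀ : Set Y} {Φ : X → Y} {Ψ : Y → X} (hX : MeasurableSet X₀)
    (hY : MeasurableSet Y₀) (hX0 : μ X₀ᶜ = 0) (hY0 : ν Y₀ᶜ = 0)
    (hXi : ∀ g : FreeGroup α, ∀ x ∈ X₀, g • x ∈ X₀)
    (hYi : ∀ h : FreeGroup β, ∀ y ∈ Y₀, h • y ∈ Y₀)
    (hΦ : MeasurePreserving Φ μ ν) (hΨ : MeasurePreserving Ψ ν μ)
    (hΦY : MapsTo Φ X₀ Y₀) (hΨX : MapsTo Ψ Y₀ X₀)
    (hl : ∀ x ∈ X₀, Ψ (Φ x) = x) (hr : ∀ y ∈ Y₀, Φ (Ψ y) = y)
    (horb : ∀ x ∈ X₀, ∀ x' ∈ X₀,
      (∃ g : FreeGroup α, g • x = x') ↔ ∃ h : FreeGroup β, h • Φ x = Φ x') :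
    Fintype.card α = Fintype.card β := by
  refine le_antisymm (Gaboriau.card_le_of_orbit_map hpres hfree (fun h => (hpres' h).measurable)
    hX hX0 hXi hYi hΦ.measurable hΦY hΨX hl hr horb)
    (Gaboriau.card_le_of_orbit_map hpres' hfree' (fun g => (hpres g).measurable) hY hY0 hYi hXi
      hΨ.measurable hΨX hΦY hr hl fun y hy y' hy' => ?_)
  have := horb _ (hΨX hy) _ (hΨX hy')
  rw [hr y hy, hr y' hy'] at this
  exact this.symm

omit [Fintype α] in
/-- **The Bernoulli action of a free group.** -/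
theorem free_bernoulli_action (g : FreeGroup α) :
    MeasurePreserving (Gaboriau.groupShift g)
        (Measure.infinitePi fun _ : FreeGroup α => (PMF.uniformOfFintype Bool).toMeasure)
        (Measure.infinitePi fun _ : FreeGroup α => (PMF.uniformOfFintype Bool).toMeasure) ∧
      (g ≠ 1 → ∀ᵐ x ∂(Measure.infinitePi fun _ : FreeGroup α =>
        (PMF.uniformOfFintype Bool).toMeasure), Gaboriau.groupShift g x ≠ x) :=
  ⟨Gaboriau.measurePreserving_shift g, Gaboriau.ae_shift_ne⟩

/-- **Bernoulli actions of different free groups are not orbit equivalent.** -/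
theorem gaboriau_bernoulli {m n : ℕ} (hmn : m ≠ n) :
    ¬∃ (X₀ : Set (FreeGroup (Fin m) → Bool)) (Y₀ : Set (FreeGroup (Fin n) → Bool))
      (Φ : (FreeGroup (Fin m) → Bool) → FreeGroup (Fin n) → Bool)
      (Ψ : (FreeGroup (Fin n) → Bool) → FreeGroup (Fin m) → Bool),
      MeasurableSet X₀ ∧ MeasurableSet Y₀ ∧
      (Measure.infinitePi fun _ => (PMF.uniformOfFintype Bool).toMeasure) X₀ᶜ = 0 ∧
      (Measure.infinitePi fun _ => (PMF.uniformOfFintype Bool).toMeasure) Y₀ᶜ = 0 ∧
      (∀ g, ∀ x ∈ X₀, Gaboriau.groupShift g x ∈ X₀) ∧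
      (∀ h, ∀ y ∈ Y₀, Gaboriau.groupShift h y ∈ Y₀) ∧
      MeasurePreserving Φ (Measure.infinitePi fun _ => (PMF.uniformOfFintype Bool).toMeasure)
        (Measure.infinitePi fun _ => (PMF.uniformOfFintype Bool).toMeasure) ∧
      MeasurePreserving Ψ (Measure.infinitePi fun _ => (PMF.uniformOfFintype Bool).toMeasure)
        (Measure.infinitePi fun _ => (PMF.uniformOfFintype Bool).toMeasure) ∧
      MapsTo Φ X₀ Y₀ ∧ MapsTo Ψ Y₀ X₀ ∧ (∀ x ∈ X₀, Ψ (Φ x) = x) ∧ (∀ y ∈ Y₀, Φ (Ψ y) = y) ∧
      ∀ x ∈ X₀, ∀ x' ∈ X₀, (∃ g, Gaboriau.groupShift g x = x') ↔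
        ∃ h, Gaboriau.groupShift h (Φ x) = Φ x' := by
  rintro ⟨X₀, Y₀, Φ, Ψ, hX, hY, hX0, hY0, hXi, hYi, hΦ, hΨ, hΦY, hΨX, hl, hr, horb⟩
  let _ := Gaboriau.shiftAction (FreeGroup (Fin m)) Bool
  let _ := Gaboriau.shiftAction (FreeGroup (Fin n)) Bool
  refine hmn ?_
  simpa using gaboriau_orbit_equivalence (α := Fin m) (β := Fin n)
    (fun g => (free_bernoulli_action g).1) (fun g => (free_bernoulli_action g).2)
    (fun g => (free_bernoulli_action g).1) (fun g => (free_bernoulli_action g).2)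
    hX hY hX0 hY0 hXi hYi hΦ hΨ hΦY hΨX hl hr horb

end FA.Summary

end
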