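import Fermat.Agent.Gallagher.Repulsion

/-!
# Summary: Gallagher's log-free density theorem, Page, Deuring–Heilbronn across moduli

A point of `Σ n, DirichletCharacter ℂ (n + 1) × ℂ` is a character modulo `n + 1` and a complex number.
All constants are absolute.
-/

set_option autoImplicit false
set_option linter.unusedSectionVars false

noncomputable section

open Complex Finset
open DirichletCharacter (LFunction)
open FA.LinnikPrime (clear differentiable_clear clear_ne_zero clear_one_eq clear_of_ne_one lg)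
open scoped Real Topology Classical

namespace FA.Gallagher.Summary

open FA.Gallagher

/-- A character of modulus at most `Q` and a zero of its L-function with `|im| ≤ T`. -/
def IsFamilyZero (Q : ℕ) (T : ℝ) (x : Σ n : ℕ, DirichletCharacter ℂ (n + 1) × ℂ) : Prop :=
  x.1 < Q ∧ x.2.1.IsPrimitive ∧ LFunction x.2.1 x.2.2 = 0 ∧ |x.2.2.im| ≤ T

variable {q : ℕ} [NeZero q] {χ : DirichletCharacter ℂ q}

theorem ne_one_of_zero (hp : χ.IsPrimitive) {s : ℂ} (h : LFunction χ s = 0) : s ≠ 1 := fun hs => by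
  subst hs
  by_cases hχ : χ = 1
  · subst hχ
    have hq : q = 1 := by
      rw [← hp]
      exact DirichletCharacter.conductor_one
    subst hq
    rw [DirichletCharacter.LFunction_modOne_eq] at h
    exact riemannZeta_one_ne_zero h
  · exact DirichletCharacter.LFunction_apply_one_ne_zero hχ h

theorem order_eq {s : ℂ} (hs : s ≠ 1) :
    analyticOrderNatAt (clear χ) s = analyticOrderNatAt (LFunction χ) s := by
  by_cases hχ : χ = 1
  · subst hχ
    have hev : clear (1 : DirichletCharacter ℂ q) =ᶠ[𝓝 s]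
        (fun z => z - 1) * LFunction (1 : DirichletCharacter ℂ q) := by
      filter_upwards [isOpen_ne.mem_nhds hs] with z hz
      exact clear_one_eq hz
    have hL : AnalyticAt ℂ (LFunction (1 : DirichletCharacter ℂ q)) s :=
      DifferentiableOn.analyticAt (s := {z | z ≠ 1})
        (fun z hz => (DirichletCharacter.differentiableAt_LFunction _ z (Or.inl hz)).differentiableWithinAt)
        (isOpen_ne.mem_nhds hs)
    have h1 : AnalyticAt ℂ (fun z : ℂ => z - 1) s := analyticAt_id.sub analyticAt_const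
    rw [analyticOrderNatAt, analyticOrderNatAt, analyticOrderAt_congr hev, analyticOrderAt_mul h1 hL,
      h1.analyticOrderAt_eq_zero.2 (sub_ne_zero.2 hs), zero_add]
  · rw [clear_of_ne_one hχ]

theorem one_le_order {s : ℂ} (h : clear χ s = 0) : 1 ≤ analyticOrderNatAt (clear χ) s := by
  have hA := (differentiable_clear χ).analyticAt s
  have htop : analyticOrderAt (clear χ) s ≠ ⊤ := by
    refine AnalyticOnNhd.analyticOrderAt_ne_top_of_isPreconnected (U := Set.univ) (x := (2 : ℂ))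
      (fun z _ => (differentiable_clear χ).analyticAt z) isPreconnected_univ trivial trivial ?_
    rw [((differentiable_clear χ).analyticAt 2).analyticOrderAt_eq_zero.2 (clear_ne_zero χ (by norm_num))]
    simp
  have h0 : analyticOrderAt (clear χ) s ≠ 0 := fun h0 => hA.analyticOrderAt_eq_zero.1 h0 h
  rw [← Nat.cast_le (α := ℕ∞), Nat.cast_analyticOrderNatAt htop]
  exact Order.one_le_iff_pos.2 (pos_iff_ne_zero.2 h0)

/-- The character as a member of a family. -/
def member (x : Σ n : ℕ, DirichletCharacter ℂ (n + 1) × ℂ) : Σ q : ℕ, DirichletCharacter ℂ q :=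
  ⟨x.1 + 1, x.2.1⟩

theorem member_mem {Q : ℕ} {T : ℝ} {x : Σ n : ℕ, DirichletCharacter ℂ (n + 1) × ℂ}
    (h : IsFamilyZero Q T x) : member x ∈ family Q :=
  mem_family.2 ⟨Nat.le_add_left 1 x.1, h.1, h.2.1⟩

theorem lfun_member (x : Σ n : ℕ, DirichletCharacter ℂ (n + 1) × ℂ) :
    lfun (member x) = clear x.2.1 := by
  have : NeZero (member x).1 := ⟨Nat.succ_ne_zero x.1⟩
  rw [lfun_eq]
  rfl

theorem lfun_member_eq_zero {Q : ℕ} {T : ℝ} {x : Σ n : ℕ, DirichletCharacter ℂ (n + 1) × ℂ}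
    (h : IsFamilyZero Q T x) : lfun (member x) x.2.2 = 0 := by
  rw [lfun_member, clear_eq_zero_iff (ne_one_of_zero h.2.1 h.2.2.1)]
  exact h.2.2.1

theorem famL_le {Q : ℕ} (hQ : 1 ≤ Q) {T : ℝ} (hT : 0 ≤ T) :
    0 < Real.log ((Q : ℝ) * (T + 2)) ∧ famL Q T ≤ Real.log ((Q : ℝ) * (T + 2)) + 6 ∧
      famL Q T ≤ 10 * Real.log ((Q : ℝ) * (T + 2)) := by
  have hQ' : (1 : ℝ) ≤ Q := Nat.one_le_cast.2 hQ
  have h2 : Real.log 2 ≤ Real.log ((Q : ℝ) * (T + 2)) := Real.log_le_log two_pos (by nlinarith)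
  have hl2 := Real.log_two_gt_d9
  have hle : famL Q T ≤ Real.log ((Q : ℝ) * (T + 2)) + 6 := by
    have h1 : Real.log (T + 5) ≤ Real.log 4 + Real.log (T + 2) := by
      rw [← Real.log_mul (by norm_num) (by linarith)]
      exact Real.log_le_log (by linarith) (by linarith)
    have h4 : Real.log 4 ≤ 2 := by
      rw [show (4 : ℝ) = 2 * 2 by norm_num, Real.log_mul two_ne_zero two_ne_zero]
      linarith [Real.log_two_lt_d9]
    rw [famL, lg, abs_of_nonneg hT, Real.log_mul (by linarith) (by linarith)]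
    linarith
  exact ⟨by linarith, hle, by linarith⟩

/-- **Gallagher's log-free density theorem.** Any finite set of zeros with `re ≥ σ ≥ 1 / 2`, `|im| ≤ T`, of
L-functions of primitive characters of modulus `≤ Q`, `ζ` among them, has, counted with multiplicity, at
most `C (Q (T + 2)) ^ (C (1 - σ))` members. -/
theorem exists_log_free_density : ∃ C : ℝ, 0 < C ∧ ∀ (Q : ℕ) (T σ : ℝ), 0 ≤ T → 1 / 2 ≤ σ →
    ∀ F : Finset (Σ n : ℕ, DirichletCharacter ℂ (n + 1) × ℂ),
      (∀ x ∈ F, IsFamilyZero Q T x ∧ σ ≤ x.2.2.re) →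
        ∑ x ∈ F, (analyticOrderNatAt (LFunction x.2.1) x.2.2 : ℝ) ≤
            C * ((Q : ℝ) * (T + 2)) ^ (C * (1 - σ)) ∧
          (F.card : ℝ) ≤ C * ((Q : ℝ) * (T + 2)) ^ (C * (1 - σ)) := by
  obtain ⟨C₀, hC₀, hdens⟩ := exists_density
  refine ⟨Real.exp (4 * C₀), Real.exp_pos _, fun Q T σ hT hσ F hF => ?_⟩
  have hord : ∀ x ∈ F, lord (member x) x.2.2 = (analyticOrderNatAt (LFunction x.2.1) x.2.2 : ℝ) ∧
      (1 : ℝ) ≤ analyticOrderNatAt (LFunction x.2.1) x.2.2 := fun x hx => by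
    obtain ⟨hz, -⟩ := hF x hx
    have h1 := ne_one_of_zero hz.2.1 hz.2.2.1
    refine ⟨by rw [lord, lfun_member, order_eq h1], ?_⟩
    rw [← order_eq h1, Nat.one_le_cast]
    refine one_le_order ?_
    have := lfun_member_eq_zero hz
    rwa [lfun_member] at this
  have hcard : (F.card : ℝ) ≤ ∑ x ∈ F, (analyticOrderNatAt (LFunction x.2.1) x.2.2 : ℝ) := by
    have := Finset.card_nsmul_le_sum F _ (1 : ℝ) fun x hx => (hord x hx).2
    rwa [nsmul_eq_mul, mul_one] at this
  suffices h : ∑ x ∈ F, (analyticOrderNatAt (LFunction x.2.1) x.2.2 : ℝ) ≤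
      Real.exp (4 * C₀) * ((Q : ℝ) * (T + 2)) ^ (Real.exp (4 * C₀) * (1 - σ)) from ⟨h, hcard.trans h⟩
  rcases F.eq_empty_or_nonempty with rfl | ⟨x₀, hx₀⟩
  · rw [Finset.sum_empty]
    positivity
  have hQ : 1 ≤ Q := Nat.one_le_iff_ne_zero.2 fun h => by
    have := (hF x₀ hx₀).1.1
    omega
  have hσ1 : σ ≤ 1 := by
    have h1 := (hF x₀ hx₀).2
    have h2 := lfun_member_eq_zero (hF x₀ hx₀).1
    rw [lfun_member] at h2
    linarith [FA.LinnikPrime.re_lt_one_of_clear h2]
  have hsum : ∑ x ∈ F, lord (member x) x.2.2 =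
      ∑ u ∈ family Q, ∑ ρ ∈ (F.filter fun x => member x = u).image (fun x => x.2.2), lord u ρ := by
    rw [← Finset.sum_fiberwise_of_maps_to (fun x hx => member_mem (hF x hx).1) fun x => lord (member x) x.2.2]
    refine Finset.sum_congr rfl fun u _ => ?_
    rw [Finset.sum_image]
    · exact Finset.sum_congr rfl fun x hx => by rw [(Finset.mem_filter.1 hx).2]
    · rintro ⟨a, χ, ρ⟩ ha ⟨b, ψ, σ'⟩ hb h
      simp only [Finset.coe_filter, Set.mem_ofPred_eq, member] at ha hb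
      obtain ⟨h1, h2⟩ := Sigma.mk.inj_iff.1 (ha.2.trans hb.2.symm)
      obtain rfl : a = b := by omega
      obtain rfl := eq_of_heq h2
      obtain rfl : ρ = σ' := h
      rfl
  rw [← Finset.sum_congr rfl fun x hx => (hord x hx).1, hsum]
  refine (hdens Q T σ hσ _ fun u _ ρ hρ => ?_).trans ?_
  · obtain ⟨x, hx, rfl⟩ := Finset.mem_image.1 hρ
    obtain ⟨hxF, rfl⟩ := Finset.mem_filter.1 hx
    exact ⟨lfun_member_eq_zero (hF x hxF).1, (hF x hxF).2, (hF x hxF).1.2.2.2⟩
  obtain ⟨hl0, hl, -⟩ := famL_le hQ hT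
  obtain ⟨l, hldef⟩ : ∃ l, l = Real.log ((Q : ℝ) * (T + 2)) := ⟨_, rfl⟩
  rw [← hldef] at hl0 hl
  rw [Real.rpow_def_of_pos (mul_pos (Nat.cast_pos.2 hQ) (by linarith)), ← hldef, ← Real.exp_add,
    Real.exp_le_exp]
  have h1 := mul_le_mul_of_nonneg_left hl (show 0 ≤ C₀ * (1 - σ) from mul_nonneg (by linarith) (by linarith))
  have h2 : C₀ * (1 - σ) * 6 ≤ 3 * C₀ := by nlinarith
  have h3 : C₀ * ((1 - σ) * l) ≤ Real.exp (4 * C₀) * ((1 - σ) * l) :=
    mul_le_mul_of_nonneg_right (by linarith [Real.add_one_le_exp (4 * C₀)])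
      (mul_nonneg (by linarith) hl0.le)
  linarith

/-- **Page's theorem at every height.** Among those zeros at most one, with multiplicity, has
`1 - re < c / log (Q (T + 2))`, and then its character is real and not principal and it is real. -/
theorem exists_page : ∃ c : ℝ, 0 < c ∧ ∀ (Q : ℕ) (T : ℝ), 0 ≤ T →
    ∀ x y : Σ n : ℕ, DirichletCharacter ℂ (n + 1) × ℂ, IsFamilyZero Q T x → IsFamilyZero Q T y →
      1 - x.2.2.re < c / Real.log ((Q : ℝ) * (T + 2)) →
      1 - y.2.2.re < c / Real.log ((Q : ℝ) * (T + 2)) →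
        x = y ∧ x.2.1 ≠ 1 ∧ x.2.1 ^ 2 = 1 ∧ x.2.2.im = 0 ∧
          analyticOrderNatAt (LFunction x.2.1) x.2.2 = 1 := by
  refine ⟨zoneG / 10, by linarith [zoneG_pos], fun Q T hT x y hx hy hxd hyd => ?_⟩
  obtain ⟨hl0, -, hl⟩ := famL_le (Q := Q) (Nat.one_le_iff_ne_zero.2 fun h => by have := hx.1; omega) hT
  have hz : zoneG / 10 / Real.log ((Q : ℝ) * (T + 2)) ≤ zoneG / famL Q T := by
    rw [div_div]
    exact div_le_div_of_nonneg_left zoneG_pos.le (famL_pos Q T) hl
  have hx0 := lfun_member_eq_zero hx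
  obtain ⟨h1, h2, h3⟩ := zone_unique (member_mem hx) (member_mem hy) hx0 hx.2.2.2 (hxd.trans_le hz)
    (lfun_member_eq_zero hy) hy.2.2.2 (hyd.trans_le hz)
  rw [lfun_member] at hx0
  obtain ⟨h4, h5, h6⟩ := zone (Q := Q) (T := T) hx.1 hx0 hx.2.2.2 (hxd.trans_le hz)
  refine ⟨?_, h4, h5, h6, ?_⟩
  · obtain ⟨a, χ, ρ⟩ := x
    obtain ⟨b, ψ, σ⟩ := y
    obtain ⟨e1, e2⟩ := Sigma.mk.inj_iff.1 h1
    obtain rfl : a = b := Nat.succ_injective e1
    obtain rfl := eq_of_heq e2
    obtain rfl : ρ = σ := h2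
    rfl
  · rw [lord, lfun_member, order_eq (ne_one_of_zero hx.2.1 hx.2.2.1)] at h3
    exact_mod_cast h3

/-- **Deuring and Heilbronn across moduli.** A real zero `β` of a real character drives every other zero
to the left: `c ≤ (1 - β) log (Q (T + 2)) (Q (T + 2)) ^ (C (1 - re ρ))`. -/
theorem exists_deuring_heilbronn : ∃ C c : ℝ, 0 < C ∧ 0 < c ∧ ∀ (Q : ℕ) (T : ℝ), 0 ≤ T →
    ∀ x y : Σ n : ℕ, DirichletCharacter ℂ (n + 1) × ℂ, IsFamilyZero Q T x → IsFamilyZero Q T y →
      x.2.1 ≠ 1 → x.2.1 ^ 2 = 1 → x.2.2.im = 0 → y ≠ x →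
        c ≤ (1 - x.2.2.re) * Real.log ((Q : ℝ) * (T + 2)) *
          ((Q : ℝ) * (T + 2)) ^ (C * (1 - y.2.2.re)) := by
  obtain ⟨C, c, hC, hc, hrep⟩ := exists_repulsion
  refine ⟨10 * C, c / 10, by linarith, by linarith, fun Q T hT x y hx hy h₁ h₁2 him hne => ?_⟩
  have hQ : 1 ≤ Q := Nat.one_le_iff_ne_zero.2 fun h => by have := hx.1; omega
  obtain ⟨hl0, -, hl⟩ := famL_le hQ hT
  have hβ : lfun (member x) (x.2.2.re : ℂ) = 0 := by
    rw [show (x.2.2.re : ℂ) = x.2.2 from Complex.ext (by simp) (by simp [him])]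
    exact lfun_member_eq_zero hx
  have hne' : member y ≠ member x ∨ y.2.2 ≠ (x.2.2.re : ℂ) := by
    obtain ⟨a, χ, ρ⟩ := x
    obtain ⟨b, ψ, σ⟩ := y
    by_contra h
    simp only [not_or, not_not] at h
    obtain ⟨e1, e2⟩ := Sigma.mk.inj_iff.1 h.1
    obtain rfl : b = a := Nat.succ_injective e1
    obtain rfl := eq_of_heq e2
    have : σ = ρ := h.2.trans (Complex.ext (by simp) (by simpa using him.symm))
    exact hne (by rw [this])
  have h := hrep Q T (member x) (member_mem hx) h₁ h₁2 _ hβ (member y) (member_mem hy) y.2.2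
    (lfun_member_eq_zero hy) hy.2.2.2 hne'
  obtain ⟨l, hldef⟩ : ∃ l, l = Real.log ((Q : ℝ) * (T + 2)) := ⟨_, rfl⟩
  rw [← hldef] at hl0 hl
  rw [Real.rpow_def_of_pos (mul_pos (Nat.cast_pos.2 hQ) (by linarith)), ← hldef]
  have hz := lfun_member_eq_zero hx
  rw [lfun_member] at hz
  have hδ : 0 ≤ 1 - x.2.2.re := by linarith [FA.LinnikPrime.re_lt_one_of_clear hz]
  have hy' := lfun_member_eq_zero hy
  rw [lfun_member] at hy'
  have hx' : 0 ≤ 1 - y.2.2.re := by linarith [FA.LinnikPrime.re_lt_one_of_clear hy']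
  have h1 : Real.exp (C * ((1 - y.2.2.re) * famL Q T)) ≤ Real.exp (l * (10 * C * (1 - y.2.2.re))) := by
    rw [Real.exp_le_exp]
    have := mul_le_mul_of_nonneg_left hl (mul_nonneg (show 0 ≤ C by linarith) hx')
    linarith
  have h2 := h.trans (mul_le_mul (mul_le_mul_of_nonneg_left hl hδ) h1 (Real.exp_pos _).le
    (mul_nonneg hδ (by linarith)))
  linarith

end FA.Gallagher.Summary

end
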