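import Fermat.Agent.Gallagher.Progressions

/-!
# Summary: Gallagher's prime number theorem and primes in progressions with a count

A point of `Σ n, DirichletCharacter ℂ (n + 1)` is a character modulo `n + 1`. All constants are absolute.

* `exists_gallagher_pnt`: for `Q ^ M ≤ x`, `log x ≤ (log Q) ^ 2`, `x / Q ≤ h ≤ x` and any set of primitive
  characters of modulus `≤ Q`, the sum of `|∑_{x < n ≤ x + h} χ(n) Λ(n) - main term|` is at most
  `C h exp (- c log x / log Q)`; otherwise one real character has a real zero `β` near `1`, and with its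
  term taken out the sum is smaller by the factor `(1 - β) log Q`.
* `exists_psi_progression_ge`, `exists_pi_progression_ge`: for every `x ≥ C q ^ L` the classes prime to `q`
  hold at least `c x / (q ^ A φ(q))` of `ψ(x)` and `c x / (q ^ A φ(q) log x)` primes: Linnik's theorem with
  a count.
-/

set_option autoImplicit false

noncomputable section

open Finset
open DirichletCharacter (LFunction)
open FA.LinnikPrime (clear_of_ne_one re_lt_one_of_clear)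
open scoped Real Classical ArithmeticFunction.vonMangoldt

namespace FA.Gallagher.SummaryPNT

open FA.Gallagher

/-- A character as a member of the family. -/
def asMember (u : Σ n : ℕ, DirichletCharacter ℂ (n + 1)) : Σ q : ℕ, DirichletCharacter ℂ q :=
  ⟨u.1 + 1, u.2⟩

theorem asMember_injective : Function.Injective asMember := fun u v h => by
  obtain ⟨a, χ⟩ := u
  obtain ⟨b, ψ⟩ := v
  obtain ⟨h1, h2⟩ := Sigma.mk.inj_iff.1 h
  obtain rfl : a = b := Nat.succ_injective h1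
  obtain rfl := eq_of_heq h2
  rfl

theorem sum_le_sum_family {Q : ℕ} {F : Finset (Σ n : ℕ, DirichletCharacter ℂ (n + 1))}
    (hF : ∀ u ∈ F, u.1 < Q ∧ u.2.IsPrimitive) (f : (Σ q : ℕ, DirichletCharacter ℂ q) → ℂ) :
    ∑ u ∈ F, ‖f (asMember u)‖ ≤ ∑ u ∈ family Q, ‖f u‖ := by
  rw [← Finset.sum_image (f := fun u => ‖f u‖) fun u _ v _ h => asMember_injective h]
  refine Finset.sum_le_sum_of_subset_of_nonneg ?_ fun _ _ _ => norm_nonneg _
  exact Finset.image_subset_iff.2 fun u hu =>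
    mem_family.2 ⟨Nat.le_add_left 1 u.1, (hF u hu).1, (hF u hu).2⟩

theorem sub_mainTerm_eq (u : Σ n : ℕ, DirichletCharacter ℂ (n + 1)) (x h : ℝ) :
    psiInt (asMember u) x h - mainTerm (asMember u) h =
      ∑ n ∈ Ioc ⌊x⌋₊ ⌊x + h⌋₊, u.2 (n : ZMod (u.1 + 1)) * (Λ n : ℂ) - (if u.2 = 1 then (h : ℂ) else 0) := by
  by_cases hu : u.2 = 1
  · rw [mainTerm, if_pos (show (asMember u).2 = 1 from hu), if_pos hu]
    rfl
  · rw [mainTerm, if_neg (show ¬(asMember u).2 = 1 from hu), if_neg hu]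
    rfl

/-- **Gallagher's prime number theorem**, effective. -/
theorem exists_gallagher_pnt : ∃ C c : ℝ, ∃ M : ℕ, 0 < C ∧ 0 < c ∧ ∀ Q : ℕ, 2 ≤ Q → ∀ x h : ℝ,
    (Q : ℝ) ^ M ≤ x → Real.log x ≤ Real.log Q ^ 2 → x / Q ≤ h → h ≤ x →
      (∀ F : Finset (Σ n : ℕ, DirichletCharacter ℂ (n + 1)), (∀ u ∈ F, u.1 < Q ∧ u.2.IsPrimitive) →
        ∑ u ∈ F, ‖∑ n ∈ Ioc ⌊x⌋₊ ⌊x + h⌋₊, u.2 (n : ZMod (u.1 + 1)) * (Λ n : ℂ) -
            (if u.2 = 1 then (h : ℂ) else 0)‖ ≤ C * h * Real.exp (-(c * (Real.log x / Real.log Q)))) ∨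
      ∃ u₁ : Σ n : ℕ, DirichletCharacter ℂ (n + 1), u₁.1 < Q ∧ u₁.2.IsPrimitive ∧ u₁.2 ≠ 1 ∧
        u₁.2 ^ 2 = 1 ∧ ∃ β : ℝ, LFunction u₁.2 β = 0 ∧ 1 / 2 < β ∧ β < 1 ∧ (1 - β) * Real.log Q ≤ 1 ∧
          ∀ F : Finset (Σ n : ℕ, DirichletCharacter ℂ (n + 1)), (∀ u ∈ F, u.1 < Q ∧ u.2.IsPrimitive) →
            ∑ u ∈ F, ‖∑ n ∈ Ioc ⌊x⌋₊ ⌊x + h⌋₊, u.2 (n : ZMod (u.1 + 1)) * (Λ n : ℂ) -
                (if u.2 = 1 then (h : ℂ) else 0) +
                (if u = u₁ then ((((x + h) ^ β - x ^ β) / β : ℝ) : ℂ) else 0)‖ ≤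
              C * ((1 - β) * Real.log Q) * h * Real.exp (-(c * (Real.log x / Real.log Q))) := by
  obtain ⟨C, c, M, hC, hc, hmain⟩ := exists_gallagher
  refine ⟨C, c, M, by linarith, hc, fun Q hQ x h hx hlx hh hhx => ?_⟩
  rcases hmain Q hQ x h hx hlx hh hhx with h1 | ⟨u₁, hu₁, hne, hsq, β, hβ, hβ2, hβQ, h1⟩
  · refine Or.inl fun F hF => le_trans ?_ h1
    simp only [← sub_mainTerm_eq]
    exact sum_le_sum_family hF fun u => psiInt u x h - mainTerm u h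
  · obtain ⟨q, χ⟩ := u₁
    obtain ⟨hq1, hqQ, hp⟩ := mem_family.1 hu₁
    obtain ⟨n, rfl⟩ : ∃ n, q = n + 1 := ⟨q - 1, (Nat.sub_add_cancel hq1).symm⟩
    have : NeZero (Sigma.fst (⟨n + 1, χ⟩ : Σ q : ℕ, DirichletCharacter ℂ q)) := ⟨Nat.succ_ne_zero n⟩
    rw [lfun_eq] at hβ
    refine Or.inr ⟨⟨n, χ⟩, hqQ, hp, hne, hsq, β, by rw [← clear_of_ne_one hne]; exact hβ, hβ2,
      by simpa using re_lt_one_of_clear hβ, hβQ, fun F hF => le_trans (le_of_eq_of_le ?_ (sum_le_sum_family hF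
        fun u => psiInt u x h - mainTerm u h +
          (if u = ⟨n + 1, χ⟩ then (excG x h β : ℂ) else 0))) h1⟩
    refine Finset.sum_congr rfl fun u _ => ?_
    have e : asMember u = ⟨n + 1, χ⟩ ↔ u = ⟨n, χ⟩ := asMember_injective.eq_iff (b := ⟨n, χ⟩)
    rw [← sub_mainTerm_eq]
    simp only [e, excG]

/-- **`ψ(x; q, a) ≥ c x / (q ^ A φ(q))` for all `x ≥ C q ^ L`.** -/
theorem exists_psi_progression_ge : ∃ c : ℝ, ∃ A L C : ℕ, 0 < c ∧ ∀ q : ℕ, 0 < q → ∀ a : ℕ, a.Coprime q →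
    ∀ x : ℝ, (C : ℝ) * (q : ℝ) ^ L ≤ x →
      c * x / ((q : ℝ) ^ A * q.totient) ≤
        ∑ n ∈ (Icc 1 ⌊x⌋₊).filter (fun n => n ≡ a [MOD q]), Λ n :=
  exists_psi_class_ge

/-- **`π(x; q, a) ≥ c x / (q ^ A φ(q) log x)` for all `x ≥ C q ^ L`.** -/
theorem exists_pi_progression_ge : ∃ c : ℝ, ∃ A L C : ℕ, 0 < c ∧ ∀ q : ℕ, 0 < q → ∀ a : ℕ, a.Coprime q →
    ∀ x : ℝ, (C : ℝ) * (q : ℝ) ^ L ≤ x →
      c * x / ((q : ℝ) ^ A * q.totient * Real.log x) ≤
        (((Icc 1 ⌊x⌋₊).filter fun p => p.Prime ∧ p ≡ a [MOD q]).card : ℝ) :=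
  exists_pi_class_ge

/-- For instance: with `K` given, some `C q ^ L` has more than `K` primes of the class below it. -/
example (K : ℕ) : ∃ L C : ℕ, ∀ q : ℕ, 0 < q → ∀ a : ℕ, a.Coprime q →
    ∀ N : ℕ, C * q ^ L ≤ N → K < ((Icc 1 N).filter fun p => p.Prime ∧ p ≡ a [MOD q]).card := by
  obtain ⟨c, A, L, C, hc, h⟩ := exists_pi_progression_ge
  obtain ⟨D, hD⟩ : ∃ D : ℕ, D = C + ⌈(2 * ((K : ℝ) + 1) / c) ^ 2⌉₊ + 3 := ⟨_, rfl⟩
  refine ⟨L + 2 * (A + 1), D, fun q hq a ha N hN => ?_⟩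
  have hq1 : (1 : ℝ) ≤ q := Nat.one_le_cast.2 hq
  have hb : ∀ (d : ℝ) (j : ℕ), d ≤ D → j ≤ L + 2 * (A + 1) → d * (q : ℝ) ^ j ≤ N := fun d j h1 h2 =>
    (mul_le_mul h1 (pow_le_pow_right₀ hq1 h2) (by positivity) (Nat.cast_nonneg D)).trans
      (by exact_mod_cast hN)
  have h2 := h q hq a ha N (hb C L (Nat.cast_le.2 (by omega)) (Nat.le_add_right _ _))
  rw [Nat.floor_natCast] at h2
  have hN3 : (3 : ℝ) ≤ N := by simpa using hb 3 0 (by exact_mod_cast (show 3 ≤ D by omega)) (Nat.zero_le _)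
  have hlog : Real.log N ≤ 2 * Real.sqrt N := by
    have := Real.log_le_rpow_div (show (0 : ℝ) ≤ N by linarith) (show (0 : ℝ) < 1 / 2 by norm_num)
    rw [← Real.sqrt_eq_rpow] at this
    linarith
  have h3 := hb ((2 * ((K : ℝ) + 1) / c) ^ 2) (2 * (A + 1))
    ((Nat.le_ceil _).trans (Nat.cast_le.2 (by omega))) (Nat.le_add_left _ _)
  rw [pow_mul', ← mul_pow] at h3
  have h4 := mul_le_mul_of_nonneg_right (Real.le_sqrt_of_sq_le h3) (Real.sqrt_nonneg (N : ℝ))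
  rw [Real.mul_self_sqrt (Nat.cast_nonneg N), div_mul_eq_mul_div, div_mul_eq_mul_div, div_le_iff₀ hc] at h4
  have h5 : ((K : ℝ) + 1) * ((q : ℝ) ^ A * q.totient * Real.log N) ≤ c * N := by
    refine (mul_le_mul_of_nonneg_left (mul_le_mul (mul_le_mul_of_nonneg_left
      (Nat.cast_le.2 (Nat.totient_le q)) (by positivity)) hlog (Real.log_nonneg (by linarith))
      (by positivity)) (by positivity)).trans ?_
    rw [pow_succ] at h4
    linarith
  have h6 : (K : ℝ) + 1 ≤ c * N / ((q : ℝ) ^ A * q.totient * Real.log N) :=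
    (le_div_iff₀ (mul_pos (mul_pos (by positivity) (Nat.cast_pos.2 (Nat.totient_pos.2 hq)))
      (Real.log_pos (by linarith)))).2 h5
  have h7 : ((K + 1 : ℕ) : ℝ) ≤ (((Icc 1 N).filter fun p => p.Prime ∧ p ≡ a [MOD q]).card : ℝ) := by
    push_cast
    exact h6.trans h2
  exact Nat.cast_le.1 h7

end FA.Gallagher.SummaryPNT

end
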