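import Fermat.Agent.Root.SummaryKroneckerWeber
import Fermat.Agent.Root.SummaryZpExtensions
import Fermat.Agent.Root.SummaryAbelianInverseGalois
import Mathlib.FieldTheory.AbsoluteGaloisGroup

/-!
# The abelianised Galois group of `ℚ` is `∏ ℤ_p^×`

The Kronecker-Weber theorem in Galois form: the cyclotomic characters identify the topological
abelianisation of the absolute Galois group of `ℚ` with the product of the groups `ℤ_p^×`.
Also: a continuous `p`-adic character has a weight, the ratio of the logarithms.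
-/

set_option autoImplicit false

noncomputable section

local notation "Qb" => AlgebraicClosure ℚ
local notation "GQ" => AlgebraicClosure ℚ ≃ₐ[ℚ] AlgebraicClosure ℚ

namespace FA.GaloisAbelianisation

open FA.JTorsion (cycP)
open FA.GalCoh (fact_prime_natPrimes)

/-- All cyclotomic characters. -/
def allCyc : GQ →* ∀ p : Nat.Primes, ℤ_[(p : ℕ)]ˣ :=
  MonoidHom.pi fun p => cycP (p : ℕ)

theorem continuous_cycP (p : ℕ) [Fact p.Prime] : Continuous (cycP p) := by
  have hval : Continuous fun s : GQ => (cycP p s : ℤ_[p]) := by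
    refine continuous_iff_continuousAt.2 fun s => Metric.nhds_basis_ball.tendsto_right_iff.2
      fun ε hε => ?_
    obtain ⟨n, hn⟩ := exists_pow_lt_of_lt_one hε
      (show ((p : ℝ))⁻¹ < 1 from inv_lt_one_of_one_lt₀ (by
        exact_mod_cast (Fact.out : p.Prime).one_lt))
    obtain ⟨L, hL, hLn⟩ := FA.JTorsion.exists_field_cycP p n
    refine Filter.eventually_of_mem
      (((IntermediateField.fixingSubgroup_isOpen L).preimage (continuous_const_mul s⁻¹)).mem_nhds
        (show s⁻¹ * s ∈ L.fixingSubgroup by rw [inv_mul_cancel]; exact one_mem _)) fun t ht => ?_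
    rw [Metric.mem_ball, dist_eq_norm]
    refine lt_of_le_of_lt ?_ hn
    rw [inv_pow, ← zpow_natCast, ← zpow_neg, PadicInt.norm_le_pow_iff_mem_span_pow,
      Ideal.mem_span_singleton]
    have h1 : PadicInt.toZModPow n ((cycP p (s⁻¹ * t) : ℤ_[p]) - 1) = 0 := by
      rw [map_sub, hLn _ ((IntermediateField.mem_fixingSubgroup_iff _ _).1 ht), map_one, sub_self]
    obtain ⟨c, hc⟩ := FA.ZpHom.dvd_iff_toZModPow.2 h1
    refine ⟨(cycP p s : ℤ_[p]) * c, ?_⟩
    have e : (cycP p t : ℤ_[p]) = (cycP p s : ℤ_[p]) * (cycP p (s⁻¹ * t) : ℤ_[p]) := by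
      rw [← Units.val_mul, ← map_mul, mul_inv_cancel_left]
    linear_combination e + (cycP p s : ℤ_[p]) * hc
  refine Units.continuous_iff.2 ⟨hval, ?_⟩
  simp only [← map_inv]
  exact hval.comp continuous_inv

theorem continuous_allCyc : Continuous allCyc := continuous_pi fun p => continuous_cycP (p : ℕ)

/-- The characters together are surjective. -/
theorem allCyc_surjective : Function.Surjective allCyc := fun x => by
  let C : ℕ → Set GQ := fun N => ⋂ p : {p : Nat.Primes // (p : ℕ) ≤ N},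
    {s | PadicInt.toZModPow N (cycP (p.1 : ℕ) s : ℤ_[(p.1 : ℕ)]) =
      PadicInt.toZModPow N (x p.1 : ℤ_[(p.1 : ℕ)])}
  have hclosed : ∀ N, IsClosed (C N) := fun N => isClosed_iInter fun p => by
    have hc : Continuous fun s : GQ =>
        (cycP (p.1 : ℕ) s : ℤ_[(p.1 : ℕ)]) - (x p.1 : ℤ_[(p.1 : ℕ)]) :=
      (Units.continuous_val.comp (continuous_cycP (p.1 : ℕ))).sub continuous_const
    have hset : {s | PadicInt.toZModPow N (cycP (p.1 : ℕ) s : ℤ_[(p.1 : ℕ)]) =
        PadicInt.toZModPow N (x p.1 : ℤ_[(p.1 : ℕ)])} = (fun s : GQ =>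
          (cycP (p.1 : ℕ) s : ℤ_[(p.1 : ℕ)]) - (x p.1 : ℤ_[(p.1 : ℕ)])) ⁻¹'
        Metric.closedBall 0 (((p.1 : ℕ) : ℝ) ^ (-(N : ℤ))) := Set.ext fun s => by
      rw [Set.mem_preimage, Metric.mem_closedBall, dist_zero_right,
        PadicInt.norm_le_pow_iff_mem_span_pow, Ideal.mem_span_singleton,
        FA.ZpHom.dvd_iff_toZModPow, map_sub, sub_eq_zero]
      exact Iff.rfl
    rw [hset]
    exact Metric.isClosed_closedBall.preimage hc
  have hanti : ∀ N, C (N + 1) ⊆ C N := fun N s hs => by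
    refine Set.mem_iInter.2 fun p => ?_
    have h : PadicInt.toZModPow (N + 1) (cycP (p.1 : ℕ) s : ℤ_[(p.1 : ℕ)]) =
        PadicInt.toZModPow (N + 1) (x p.1 : ℤ_[(p.1 : ℕ)]) :=
      Set.mem_iInter.1 hs ⟨p.1, p.2.trans (Nat.le_succ N)⟩
    rw [← sub_eq_zero, ← map_sub, ← FA.ZpHom.dvd_iff_toZModPow] at h
    show PadicInt.toZModPow N _ = PadicInt.toZModPow N _
    rw [← sub_eq_zero, ← map_sub, ← FA.ZpHom.dvd_iff_toZModPow]
    exact (pow_dvd_pow _ (Nat.le_succ N)).trans h
  have hne : ∀ N, (C N).Nonempty := fun N => by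
    classical
    have : Finite {p : Nat.Primes // (p : ℕ) ≤ N} :=
      Finite.of_injective (fun p => (⟨p.1.1, Nat.lt_succ_of_le p.2⟩ : Fin (N + 1)))
        fun a b h => Subtype.ext (Subtype.ext (congrArg Fin.val h :))
    let _ : Fintype {p : Nat.Primes // (p : ℕ) ≤ N} := Fintype.ofFinite _
    have hnz : ∀ p : {p : Nat.Primes // (p : ℕ) ≤ N}, (p.1 : ℕ) ^ N ≠ 0 := fun p =>
      pow_ne_zero _ p.1.2.ne_zero
    let b : {p : Nat.Primes // (p : ℕ) ≤ N} → ℕ := fun p =>
      (PadicInt.toZModPow N (x p.1 : ℤ_[(p.1 : ℕ)])).val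
    obtain ⟨a, ha⟩ := Nat.chineseRemainderOfFinset b (fun p => (p.1 : ℕ) ^ N) Finset.univ
      (fun p _ => hnz p) fun p _ q _ hpq => Nat.Coprime.pow _ _
        ((Nat.coprime_primes p.1.2 q.1.2).2 fun h => hpq (Subtype.ext (Subtype.ext h)))
    set M := ∏ p : {p : Nat.Primes // (p : ℕ) ≤ N}, (p.1 : ℕ) ^ N
    have hMpos : 0 < M := Finset.prod_pos fun p _ => Nat.pos_of_ne_zero (hnz p)
    have : NeZero M := ⟨hMpos.ne'⟩
    have hcast : ∀ p : {p : Nat.Primes // (p : ℕ) ≤ N},
        (a : ZMod ((p.1 : ℕ) ^ N)) = PadicInt.toZModPow N (x p.1 : ℤ_[(p.1 : ℕ)]) := fun p => by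
      have : NeZero ((p.1 : ℕ) ^ N) := ⟨hnz p⟩
      rw [(ZMod.natCast_eq_natCast_iff _ _ _).2 (ha p (Finset.mem_univ p)), ZMod.natCast_zmod_val]
    have hcop : a.Coprime M := Nat.Coprime.prod_right fun p _ =>
      (ZMod.isUnit_iff_coprime a ((p.1 : ℕ) ^ N)).1
        (hcast p ▸ (x p.1).isUnit.map (PadicInt.toZModPow N))
    obtain ⟨s, hs⟩ := FA.AbelianInverseGalois.cycM_surjective M (ZMod.unitOfCoprime a hcop)
    obtain ⟨ζ, hζ⟩ := HasEnoughRootsOfUnity.exists_primitiveRoot Qb M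
    have hsζ : s ζ = ζ ^ a := by
      have hspec := modularCyclotomicCharacter.spec Qb
        (HasEnoughRootsOfUnity.natCard_rootsOfUnity Qb M) (s : Qb ≃+* Qb)
        (t := ((hζ.isUnit hMpos.ne').unit)) (by
          rw [mem_rootsOfUnity]; exact Units.ext (by simpa using hζ.pow_eq_one))
      have h1 : ((FA.Weight1.cycM M s : (ZMod M)ˣ) : ZMod M) = (a : ZMod M) := by
        rw [hs]; rfl
      change s ζ = ζ ^ ((FA.Weight1.cycM M s : (ZMod M)ˣ) : ZMod M).val at hspec
      rw [hspec, h1, ZMod.val_natCast, ← pow_eq_pow_mod a hζ.pow_eq_one]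
    refine ⟨s, Set.mem_iInter.2 fun p => ?_⟩
    show PadicInt.toZModPow N _ = _
    rw [← hcast p]
    refine FA.RT.Tate.cycP_eq_natCast fun μ hμ => ?_
    obtain ⟨c, hc⟩ : (p.1 : ℕ) ^ N ∣ M :=
      Finset.dvd_prod_of_mem (fun p : {p : Nat.Primes // (p : ℕ) ≤ N} => (p.1 : ℕ) ^ N)
        (Finset.mem_univ p)
    obtain ⟨i, -, rfl⟩ := hζ.eq_pow_of_pow_eq_one
      (show μ ^ M = 1 by rw [hc, pow_mul, hμ, one_pow])
    rw [map_pow, hsζ, ← pow_mul, ← pow_mul, mul_comm]
  obtain ⟨s, hs⟩ := IsCompact.nonempty_iInter_of_sequence_nonempty_isCompact_isClosed C hanti hne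
    (hclosed 0).isCompact hclosed
  refine ⟨s, funext fun p => Units.ext (PadicInt.ext_of_toZModPow.mp fun n => ?_)⟩
  have h : PadicInt.toZModPow (max (p : ℕ) n) (cycP (p : ℕ) s : ℤ_[(p : ℕ)]) =
      PadicInt.toZModPow (max (p : ℕ) n) (x p : ℤ_[(p : ℕ)]) :=
    Set.mem_iInter.1 (Set.mem_iInter.1 hs (max (p : ℕ) n)) ⟨p, le_max_left _ _⟩
  rw [← sub_eq_zero, ← map_sub, ← FA.ZpHom.dvd_iff_toZModPow] at h
  show PadicInt.toZModPow n _ = _
  rw [← sub_eq_zero, ← map_sub, ← FA.ZpHom.dvd_iff_toZModPow]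
  exact (pow_dvd_pow _ (le_max_right _ _)).trans h

/-- The kernel fixes every root of unity. -/
theorem fix_rootsOfUnity {s : GQ} (hs : allCyc s = 1) :
    ∀ μ : Qb, ∀ n : ℕ, 0 < n → μ ^ n = 1 → s μ = μ := fun μ n => by
  induction n using Nat.recOnPosPrimePosCoprime generalizing μ with
  | prime_pow l k hl hk =>
    intro _ hμ
    have := Fact.mk hl
    obtain ⟨a, -, ha⟩ := FA.PadicImage.exists_exponent_roots s hl k
    have h1 : (a : ZMod (l ^ k)) = ((1 : ℕ) : ZMod (l ^ k)) := by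
      rw [← FA.RT.Tate.cycP_eq_natCast ha,
        show cycP l s = 1 from congrFun hs ⟨l, hl⟩, Units.val_one, map_one, Nat.cast_one]
    rw [ha μ hμ, pow_eq_pow_mod a hμ, (ZMod.natCast_eq_natCast_iff _ _ _).mp h1,
      ← pow_eq_pow_mod 1 hμ, pow_one]
  | zero => exact fun h => absurd h (lt_irrefl 0)
  | one => intro _ hμ; rw [pow_one] at hμ; rw [hμ, map_one]
  | coprime a b ha hb hab iha ihb =>
    intro _ hμ
    have h1 : s (μ ^ b) = μ ^ b := iha _ (by omega) (by rw [← pow_mul, mul_comm, hμ])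
    have h2 : s (μ ^ a) = μ ^ a := ihb _ (by omega) (by rw [← pow_mul, hμ])
    have hμ0 : μ ≠ 0 := fun h => by
      rw [h, zero_pow (mul_ne_zero (by omega) (by omega))] at hμ
      exact zero_ne_one hμ
    obtain ⟨u, v, huv⟩ := Int.isCoprime_iff_nat_coprime.mpr
      (show Nat.Coprime (a : ℤ).natAbs (b : ℤ).natAbs by simpa using hab)
    have e : μ = (μ ^ a) ^ u * (μ ^ b) ^ v := by
      rw [← zpow_natCast μ a, ← zpow_natCast μ b, ← zpow_mul, ← zpow_mul, ← zpow_add₀ hμ0,
        mul_comm (a : ℤ), mul_comm (b : ℤ), huv, zpow_one]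
    conv_lhs => rw [e]
    rw [map_mul, map_zpow₀, map_zpow₀, h1, h2, ← e]

/-- **The kernel is the closure of the commutator subgroup.** -/
theorem ker_allCyc : allCyc.ker = (commutator GQ).topologicalClosure := by
  refine le_antisymm (fun s hs => ?_) ?_
  · have hfix := fix_rootsOfUnity (MonoidHom.mem_ker.1 hs)
    show s ∈ closure ((commutator GQ : Subgroup GQ) : Set GQ)
    refine mem_closure_iff.2 fun V hV hsV => ?_
    have hW : IsOpen ((fun u : GQ => u⁻¹ * s) ⁻¹' V) :=
      hV.preimage (continuous_inv.mul continuous_const)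
    obtain ⟨U, hU⟩ := ProfiniteGrp.exist_openNormalSubgroup_sub_open_nhds_of_one hW
      (show (1 : GQ)⁻¹ * s ∈ V by rwa [inv_one, one_mul])
    let H : Subgroup GQ := U.toSubgroup ⊔ commutator GQ
    have : U.toSubgroup.Normal := U.isNormal'
    have : H.Normal := Subgroup.sup_normal _ _
    have hopen : IsOpen (H : Set GQ) := Subgroup.isOpen_mono le_sup_left U.isOpen'
    let _ : CommGroup (GQ ⧸ H) :=
      { (inferInstance : Group (GQ ⧸ H)) with
        mul_comm := fun a b => by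
          obtain ⟨a, rfl⟩ := QuotientGroup.mk_surjective a
          obtain ⟨b, rfl⟩ := QuotientGroup.mk_surjective b
          rw [← QuotientGroup.mk_mul, ← QuotientGroup.mk_mul, QuotientGroup.eq]
          refine (le_sup_right : commutator GQ ≤ H) ?_
          rw [show (a * b)⁻¹ * (b * a) = b⁻¹ * a⁻¹ * b⁻¹⁻¹ * a⁻¹⁻¹ by group]
          exact Subgroup.commutator_mem_commutator (Subgroup.mem_top b⁻¹) (Subgroup.mem_top a⁻¹) }
    have : Finite (GQ ⧸ H) := Subgroup.quotient_finite_of_isOpen H hopen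
    have h1 := FA.KroneckerWeber.eq_one_of_fix_rootsOfUnity (QuotientGroup.mk' H)
      (by rw [QuotientGroup.ker_mk']; exact hopen) (σ := s) hfix
    obtain ⟨u, hu, c, hc, rfl⟩ := Subgroup.mem_sup_of_normal_left.1
      ((QuotientGroup.eq_one_iff _).1 h1 : s ∈ H)
    refine ⟨c, ?_, hc⟩
    have h2 : u⁻¹ * (u * c) ∈ V := hU hu
    rwa [inv_mul_cancel_left] at h2
  · refine Subgroup.topologicalClosure_minimal _ ?_
      (IsClosed.preimage continuous_allCyc isClosed_singleton)
    rw [commutator_def, Subgroup.commutator_le]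
    intro a _ b _
    rw [MonoidHom.mem_ker, commutatorElement_def]
    simp only [map_mul, map_inv]
    rw [mul_comm (allCyc a), mul_inv_cancel_right, mul_inv_cancel]

end FA.GaloisAbelianisation

namespace FA.Summary

open FA.GaloisAbelianisation FA.GalCoh

/-- The cyclotomic characters together are surjective, with kernel the closure of the commutator
subgroup. -/
theorem galoisCyclotomic_surjective_ker :
    Function.Surjective allCyc ∧ allCyc.ker = (commutator GQ).topologicalClosure :=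
  ⟨allCyc_surjective, ker_allCyc⟩

/-- **The abelianised absolute Galois group of `ℚ` is `∏ ℤ_p^×`**, by the cyclotomic characters,
as topological groups. -/
theorem galoisAbelianisation :
    ∃ e : TopologicalAbelianization GQ ≃ₜ* (∀ p : Nat.Primes, ℤ_[(p : ℕ)]ˣ),
      ∀ (σ : GQ) (p : Nat.Primes), e (QuotientGroup.mk σ) p = FA.JTorsion.cycP (p : ℕ) σ := by
  let f : TopologicalAbelianization GQ →* (∀ p : Nat.Primes, ℤ_[(p : ℕ)]ˣ) :=
    QuotientGroup.lift _ allCyc ker_allCyc.ge
  have hb : Function.Bijective f :=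
    ⟨(injective_iff_map_eq_one f).2 fun x hx => by
      obtain ⟨s, rfl⟩ := QuotientGroup.mk_surjective x
      exact (QuotientGroup.eq_one_iff _).2 (ker_allCyc ▸ MonoidHom.mem_ker.2 hx),
      fun y => (allCyc_surjective y).elim fun s hs => ⟨QuotientGroup.mk s, hs⟩⟩
  have hc : Continuous f :=
    QuotientGroup.isQuotientMap_mk _ |>.continuous_iff.2 continuous_allCyc
  let e : TopologicalAbelianization GQ ≃* (∀ p : Nat.Primes, ℤ_[(p : ℕ)]ˣ) :=
    MulEquiv.ofBijective f hb
  exact ⟨{ e with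
    continuous_toFun := hc
    continuous_invFun :=
      Continuous.continuous_symm_of_equiv_compact_to_t2 (f := e.toEquiv) hc }, fun σ p => rfl⟩

/-- The same for Mathlib's absolute Galois group. -/
theorem absoluteGaloisGroupAbelianisation_rat :
    Nonempty (Field.absoluteGaloisGroupAbelianization ℚ ≃ₜ*
      (∀ p : Nat.Primes, ℤ_[(p : ℕ)]ˣ)) :=
  galoisAbelianisation.elim fun e _ => ⟨e⟩

variable {p : ℕ} [Fact p.Prime]

/-- **Weights of `p`-adic characters**: the logarithm of a continuous character is a unique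
multiple of that of the cyclotomic character. -/
theorem padicCharacter_weight (χ : GQ →* ℤ_[p]ˣ) (hc : Continuous χ) :
    ∃! s : ℤ_[p], ∀ σ,
      FA.ZpHom.logU p (χ σ) = s * FA.ZpHom.logU p (FA.JTorsion.cycP p σ) := by
  obtain ⟨s, hs⟩ := FA.ZpHom.exists_eq_mul_logU (η := fun σ => FA.ZpHom.logU p (χ σ))
    (fun a b => by rw [map_mul, FA.ZpHom.logU_mul]) (FA.ZpHom.lev_logU_comp fun n =>
      FA.ZpHom.lev_of_continuous ((Units.continuous_val.comp hc).sub continuous_const)
        (by simp only [map_one, Pi.sub_apply, Function.comp_apply, Units.val_one, sub_self]) n)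
  refine ⟨s, hs, fun t ht => ?_⟩
  obtain ⟨g, hg, -⟩ := FA.ZpHom.exists_generator (p := p)
  exact mul_right_cancel₀ (b := FA.ZpHom.logU p (FA.JTorsion.cycP p g))
    (fun h => hg (by rw [h]; exact dvd_zero _)) ((ht g).symm.trans (hs g))

end FA.Summary

end
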