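import Fermat.Agent.CMFiniteness.Main
import Mathlib.NumberTheory.NumberField.Discriminant.Basic

/-!
# Finiteness of Galois CM fields with bounded relative class number

* `galois_cm_relativeClassNumber_discr_bounded`: for fixed `n` and `B` the Galois CM fields of degree
  at most `n` with `h ≤ B h⁺` have bounded discriminant.
* `galois_cm_relativeClassNumber_finite`, `galois_cm_classNumber_finite`: so there are finitely many
  of them inside `ℂ`, in particular finitely many with `h ≤ B`.

This is Gauss's conjecture for the Galois CM fields of each degree (Brauer, Heilbronn); ineffective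
through the theorem of Brauer and Siegel; independent of S01.
-/

set_option autoImplicit false
set_option linter.style.haveILetI false

noncomputable section

universe u

open NumberField Module
open scoped Classical

namespace FA.Summary

/-- **The discriminant is bounded.** -/
theorem galois_cm_relativeClassNumber_discr_bounded (n B : ℕ) :
    ∃ D : ℕ, ∀ (F : Type u) [Field F] [NumberField F] [IsGalois ℚ F] [IsCMField F],
      finrank ℚ F ≤ n → classNumber F ≤ B * classNumber (maximalRealSubfield F) →
      (discr F).natAbs ≤ D :=
  FA.CMFinite.exists_discr_bound_le n B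

/-- **Bounded relative class number**: finitely many fields. -/
theorem galois_cm_relativeClassNumber_finite (n B : ℕ) :
    {F : IntermediateField ℚ ℂ | FiniteDimensional ℚ F ∧ IsGalois ℚ F ∧ finrank ℚ F ≤ n ∧
      ∀ [NumberField F], IsCMField F ∧
        classNumber F ≤ B * classNumber (maximalRealSubfield F)}.Finite := by
  obtain ⟨D, hD⟩ := galois_cm_relativeClassNumber_discr_bounded.{0} n B
  refine ((finite_of_discr_bdd ℂ D).image Subtype.val).subset ?_
  rintro F ⟨hfin, hgal, hn, hB⟩
  haveI : NumberField F := @NumberField.mk _ _ inferInstance hfin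
  obtain ⟨hcm, hh⟩ := @hB this
  haveI := hcm
  haveI := hgal
  refine ⟨⟨F, hfin⟩, ?_, rfl⟩
  show |discr F| ≤ (D : ℤ)
  rw [← Int.natCast_natAbs]
  exact_mod_cast hD F hn hh

/-- **Bounded class number**: finitely many fields. -/
theorem galois_cm_classNumber_finite (n B : ℕ) :
    {F : IntermediateField ℚ ℂ | FiniteDimensional ℚ F ∧ IsGalois ℚ F ∧ finrank ℚ F ≤ n ∧
      ∀ [NumberField F], IsCMField F ∧ classNumber F ≤ B}.Finite :=
  (galois_cm_relativeClassNumber_finite n B).subset fun _ ⟨hfin, hgal, hn, hB⟩ =>
    ⟨hfin, hgal, hn, fun {_} => ⟨hB.1, hB.2.trans (Nat.le_mul_of_pos_right B (classNumber_pos _))⟩⟩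

end FA.Summary
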