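import Fermat.Agent.Root.SummaryGaloisGL2Unramified

/-!
# Infinitely many `GL₂(ℤ/N)` extensions of `ℚ`

For `N ≥ 2` and any `M` there is a `GL₂(ℤ/N)` extension unramified at the primes dividing `M` and
not `N` and ramified at some further prime, so there are infinitely many.
-/

set_option autoImplicit false
set_option linter.style.haveILetI false

noncomputable section

open WeierstrassCurve Matrix FA.Frob
open scoped WeierstrassCurve.Affine

local notation "Qb" => AlgebraicClosure ℚ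
local notation "GQ" => AlgebraicClosure ℚ ≃ₐ[ℚ] AlgebraicClosure ℚ

namespace FA.GaloisRamification

open FA.Root.Irred

/-- A `GL₂(ℤ/N)` extension unramified at the primes of `M` outside `N`, ramified at a further
prime. -/
theorem exists_galois_gl2_ramified {N M : ℕ} (hN : 2 ≤ N) (hM : M ≠ 0) :
    ∃ K : IntermediateField ℚ Qb, ∃ q : ℕ, FiniteDimensional ℚ K ∧ IsGalois ℚ K ∧
      Nonempty ((K ≃ₐ[ℚ] K) ≃* GL (Fin 2) (ZMod N)) ∧
      (∀ l : ℕ, l.Prime → l ∣ M → ¬ l ∣ N →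
        ∀ A : ValuationSubring Qb, (l : Qb) ∈ A.nonunits →
          ∀ σ ∈ A.inertiaSubgroup ℚ, ∀ x ∈ K, (σ : GQ) x = x) ∧
      q.Prime ∧ ¬ q ∣ N * M ∧ ∃ A : ValuationSubring Qb, (q : Qb) ∈ A.nonunits ∧
        ∃ σ ∈ A.inertiaSubgroup ℚ, ∃ x ∈ K, (σ : GQ) x ≠ x := by
  have hN0 : N ≠ 0 := by omega
  haveI : NeZero N := ⟨hN0⟩
  obtain ⟨k, hk6, hgood⟩ := exists_shift_good (mul_ne_zero hN0 hM)
  have hΔ := model37Shift_Δ_ne_zero hk6
  haveI := FA.Frob.ratCurve_isElliptic_of_Δ hΔ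
  obtain ⟨K, hfin, hgal, he, hfix, hunr⟩ := exists_galois_gl2_unramified (model37Shift k) (N := N)
    (exists_smul_eq_shift hk6 hN0 fun q hq hqN => hgood q hq (hqN.mul_right M))
  obtain ⟨p, hp, hpN⟩ := Nat.exists_prime_and_dvd (show N ≠ 1 by omega)
  haveI := Fact.mk hp
  obtain ⟨q, hq, hd, hv⟩ := model37Shift_exponent hk6 hp
  have hqNM : ¬ q ∣ N * M := fun h => hgood q hq h hd
  obtain ⟨A, hA⟩ := FA.Deform.exists_liesOverPrime hq
  obtain ⟨σ, hσ, hne⟩ := FA.PadicImage.exists_inertia_curveRep_ne_one (p := p)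
    (⟨hΔ, hq, hd, model37Shift_semistable hk6 q hq hd, hA⟩ : MultAt (model37Shift k) q A) hv
  obtain ⟨σ', hσ', rfl⟩ := Subgroup.mem_map.mp hσ
  refine ⟨K, q, hfin, hgal, he, fun l hl hlM hlN => hunr l hl hlN (hgood l hl (hlM.mul_left N)), hq,
    hqNM, A, hA, σ', hσ', ?_⟩
  by_contra hall
  push Not at hall
  refine hne ((FA.RT.curveRep_eq_one_iff _ _).mpr fun x => Subtype.ext (hfix _ hall x.1 ?_))
  obtain ⟨c, rfl⟩ := hpN
  rw [mul_comm, mul_nsmul', nsmul_torsion x, nsmul_zero]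

end FA.GaloisRamification

namespace FA.Summary

/-- **Infinitely many Galois extensions of `ℚ` have group `GL₂(ℤ/N)`** for every `N ≥ 2`. -/
theorem infinite_galois_gl2_zmod {N : ℕ} (hN : 2 ≤ N) :
    {K : IntermediateField ℚ (AlgebraicClosure ℚ) | FiniteDimensional ℚ K ∧ IsGalois ℚ K ∧
      Nonempty ((K ≃ₐ[ℚ] K) ≃* GL (Fin 2) (ZMod N))}.Infinite := by
  choose K q hfin hgal he hunr hq hqNM A hA σ hσ x hx hmove using
    fun M : {M : ℕ // M ≠ 0} => FA.GaloisRamification.exists_galois_gl2_ramified hN M.2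
  let Ms : ℕ → {M : ℕ // M ≠ 0} := fun i =>
    Nat.rec ⟨1, one_ne_zero⟩ (fun _ M => ⟨M.1 * q M, mul_ne_zero M.2 (hq M).ne_zero⟩) i
  have hdvd : ∀ i j, i ≤ j → (Ms i).1 ∣ (Ms j).1 := fun i j hij => by
    induction hij with
    | refl => exact dvd_rfl
    | step _ ih => exact ih.trans (dvd_mul_right _ _)
  have hlt : ∀ i j, i < j → K (Ms i) ≠ K (Ms j) := fun i j hij e => by
    refine hmove (Ms i) (hunr (Ms j) (q (Ms i)) (hq _) ?_ (fun h => hqNM _ (h.mul_right _))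
      (A (Ms i)) (hA _) (σ (Ms i)) (hσ _) (x (Ms i)) (e ▸ hx _))
    exact (dvd_mul_left _ _).trans (hdvd (i + 1) j hij)
  refine Set.infinite_of_injective_forall_mem (f := fun i => K (Ms i)) (fun i j e => ?_)
    fun i => ⟨hfin _, hgal _, he _⟩
  rcases lt_trichotomy i j with h | h | h
  · exact absurd e (hlt i j h)
  · exact h
  · exact absurd e.symm (hlt j i h)

end FA.Summary

end
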