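import Fermat.Agent.Root.SummaryGaloisGL2Padic

/-!
# `∏_{l ≠ 2} GL₂(ℤ_l)` as a Galois group over `ℚ`

The `l`-adic representations of `37a1` for all odd primes `l` together are a continuous surjection
of the absolute Galois group of `ℚ` onto the product of the groups `GL₂(ℤ_l)`, that is onto `GL₂`
of the product of the rings `ℤ_l`: the image is closed and meets every open set, since finitely
many congruences glue.
-/

set_option autoImplicit false
set_option linter.unusedSectionVars false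
set_option linter.style.haveILetI false

noncomputable section

open Matrix WeierstrassCurve FA.EC FA.Frob FA.RT FA.RT.Tate
open FA.Central (model37)
open scoped WeierstrassCurve.Affine Topology

local notation "Qb" => AlgebraicClosure ℚ
local notation "GQ" => AlgebraicClosure ℚ ≃ₐ[ℚ] AlgebraicClosure ℚ
local notation "OddPrimes" => {l : Nat.Primes // (l : ℕ) ≠ 2}

local instance (l : {l : Nat.Primes // (l : ℕ) ≠ 2}) : Fact (l.1 : ℕ).Prime := ⟨l.1.2⟩

namespace FA.PadicImage

variable {W : WeierstrassCurve ℤ} [(ratCurve W).IsElliptic]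

/-- Finitely many odd primes are independent modulo any power. -/
theorem exists_rep_congr_odd (hreach : ∀ (l : ℕ) [Fact l.Prime], l ≠ 2 → ReachAll l W)
    (B : ∀ l : OddPrimes, TateBasis (l.1 : ℕ) W)
    (g : ∀ l : OddPrimes, GL (Fin 2) ℤ_[(l.1 : ℕ)]) (F : Finset OddPrimes) (n : ℕ) :
    ∃ σ : GQ, ∀ l ∈ F, ∃ Y : Matrix (Fin 2) (Fin 2) ℤ_[(l.1 : ℕ)],
      (B l).rep σ = (g l).val + ((l.1 : ℕ) : ℤ_[(l.1 : ℕ)]) ^ n • Y := by
  classical
  obtain ⟨T, hT⟩ : ∃ T, F.image (fun l : OddPrimes => (l.1 : ℕ)) = T := ⟨_, rfl⟩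
  have hTp : ∀ l ∈ T, l.Prime ∧ l ≠ 2 := fun l hl => by
    obtain ⟨j, -, rfl⟩ := Finset.mem_image.mp (hT ▸ hl)
    exact ⟨j.1.2, j.2⟩
  have hloc : ∀ l : OddPrimes, ∃ σ : GQ, ∀ v, σ • (B l).φ n v = (B l).φ n ((g l).val *ᵥ v) :=
    fun l => exists_acts (hreach _ l.2) ((Matrix.isUnit_iff_isUnit_det _).mp (g l).isUnit)
  choose h₀ hh₀ using hloc
  let h : ℕ → GQ := fun l => if hl : l.Prime ∧ l ≠ 2 then h₀ ⟨⟨l, hl.1⟩, hl.2⟩ else 1
  obtain ⟨σ₀, hagree⟩ := exists_cyclotomic_common (fun _ => n) (fun l hl => (hTp l hl).1) h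
  obtain ⟨τ, hτ⟩ := exists_glue (W := W) (fun _ => n) hTp
    (fun l hl _ => hreach l (hTp l hl).2) (fun l => σ₀⁻¹ * h l) hagree
  refine ⟨σ₀ * τ, fun l hl => ?_⟩
  have hlT : (l.1 : ℕ) ∈ T := hT ▸ Finset.mem_image_of_mem _ hl
  have hact : Acts (B l) n (σ₀ * τ) (g l).val := fun v => by
    rw [mul_smul, hτ _ hlT _ ((B l).nsmul_phi n v), mul_smul, smul_inv_smul]
    show h (l.1 : ℕ) • _ = _
    simp only [h, dif_pos (hTp _ hlT)]
    exact hh₀ l v
  choose Y hY using fun i j => (toZModPow_eq_iff (n := n) (x := (B l).rep (σ₀ * τ) i j)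
    (y := (g l).val i j)).mp (by
      have e := (B l).phi_eq_iff.mp
        (((B l).rep_spec (σ₀ * τ) n (Pi.single j 1)).symm.trans (hact _)) i
      rw [mulVec_single_one, mulVec_single_one] at e
      exact e)
  exact ⟨Matrix.of Y, Matrix.ext fun i j => by
    rw [hY, Matrix.add_apply, Matrix.smul_apply, smul_eq_mul]; rfl⟩

/-- With full image at every odd prime the representations together are onto. -/
theorem exists_continuous_surjective_odd
    (hreach : ∀ (l : ℕ) [Fact l.Prime], l ≠ 2 → ReachAll l W) :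
    ∃ ρ : GQ →* (∀ l : OddPrimes, GL (Fin 2) ℤ_[(l.1 : ℕ)]),
      Continuous ρ ∧ Function.Surjective ρ := by
  classical
  haveI : Algebra.IsAlgebraic ℚ Qb := AlgebraicClosure.isAlgebraic ℚ
  haveI : IsGalois ℚ Qb := FA.EC.isGalois_algebraicClosure
  let B : ∀ l : OddPrimes, TateBasis (l.1 : ℕ) W :=
    fun l => (exists_tateBasis (p := (l.1 : ℕ)) W).some
  refine ⟨MonoidHom.pi fun l => (B l).rep.toHomUnits, continuous_pi fun l => ?_, fun g => ?_⟩
  · exact continuous_toHomUnits (continuous_rep (B l))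
  · choose σ hσ using fun i : Finset OddPrimes × ℕ => exists_rep_congr_odd hreach B g i.1 i.2
    -- a limit of the approximations in the compact Galois group
    obtain ⟨σ', hσ'⟩ := exists_clusterPt_of_compactSpace (Filter.map σ Filter.atTop)
    refine ⟨σ', funext fun l => Units.ext ?_⟩
    show (B l).rep σ' = (g l).val
    ext i j
    refine sub_eq_zero.mp (norm_le_zero_iff.mp (le_of_forall_gt fun ε hε => ?_))
    obtain ⟨k, hk⟩ := PadicInt.exists_pow_neg_lt (l.1 : ℕ) hε
    have hcont : Continuous fun τ : GQ => (B l).rep τ i j :=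
      (continuous_rep (B l)).matrix_elem i j
    have hclosed : IsClosed {τ : GQ | ‖(B l).rep τ i j - (g l).val i j‖ ≤
        ((l.1 : ℕ) : ℝ) ^ (-(k : ℤ))} :=
      isClosed_le ((hcont.sub continuous_const).norm) continuous_const
    have hev : ∀ᶠ x in Filter.atTop, σ x ∈ {τ : GQ | ‖(B l).rep τ i j - (g l).val i j‖ ≤
        ((l.1 : ℕ) : ℝ) ^ (-(k : ℤ))} := by
      refine Filter.eventually_atTop.mpr ⟨({l}, k), fun x hx => ?_⟩
      obtain ⟨Y, hY⟩ := hσ x l (Finset.singleton_subset_iff.mp hx.1)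
      show ‖_‖ ≤ _
      rw [hY, Matrix.add_apply, add_sub_cancel_left, Matrix.smul_apply, smul_eq_mul,
        PadicInt.norm_le_pow_iff_mem_span_pow, Ideal.mem_span_singleton]
      exact (pow_dvd_pow _ hx.2).mul_right _
    exact lt_of_le_of_lt (hclosed.mem_of_mapClusterPt hσ' hev) hk

/-- `GL₂` of a product of rings is the product of the `GL₂`. -/
def glPiEquiv {ι : Type*} (R : ι → Type*) [∀ i, CommRing (R i)] :
    GL (Fin 2) (∀ i, R i) ≃* ∀ i, GL (Fin 2) (R i) :=
  (Units.mapEquiv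
    ({ toFun := fun M i => M.map fun x => x i
       invFun := fun M => Matrix.of fun a b i => M i a b
       left_inv := fun _ => rfl
       right_inv := fun _ => rfl
       map_mul' := fun M N => by
        funext i; ext a b
        simp [Matrix.mul_apply] } :
      Matrix (Fin 2) (Fin 2) (∀ i, R i) ≃* ∀ i, Matrix (Fin 2) (Fin 2) (R i))).trans
    MulEquiv.piUnits

end FA.PadicImage

namespace FA.Summary

/-- **All odd primes at once**: a continuous surjection of the absolute Galois group of `ℚ` onto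
the product of the groups `GL₂(ℤ_l)` over all odd primes `l`. -/
theorem exists_continuous_surjective_gl2_odd_adic :
    ∃ ρ : GQ →* (∀ l : OddPrimes, GL (Fin 2) ℤ_[(l.1 : ℕ)]),
      Continuous ρ ∧ Function.Surjective ρ := by
  haveI := FA.Root.Irred.isElliptic_model37
  exact FA.PadicImage.exists_continuous_surjective_odd (W := model37)
    fun _ _ _ => FA.Root.Irred.model37_reachAll

/-- **`∏_{l ≠ 2} GL₂(ℤ_l)` is a Galois group over `ℚ`**. -/
theorem exists_galois_gl2_odd_adic_pi :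
    ∃ K : IntermediateField ℚ (AlgebraicClosure ℚ), IsGalois ℚ K ∧
      Nonempty ((K ≃ₐ[ℚ] K) ≃* ∀ l : OddPrimes, GL (Fin 2) ℤ_[(l.1 : ℕ)]) := by
  obtain ⟨ρ, hc, hs⟩ := exists_continuous_surjective_gl2_odd_adic
  haveI : IsGalois ℚ Qb := FA.EC.isGalois_algebraicClosure
  let H : ClosedSubgroup GQ := ⟨ρ.ker, isClosed_singleton.preimage hc⟩
  haveI : H.Normal := ρ.normal_ker
  refine ⟨IntermediateField.fixedField H.1, (InfiniteGalois.normal_iff_isGalois _).mp ?_,
    ⟨(InfiniteGalois.normalAutEquivQuotient H).symm.trans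
      (QuotientGroup.quotientKerEquivOfSurjective ρ hs)⟩⟩
  rw [InfiniteGalois.fixingSubgroup_fixedField H]
  exact ρ.normal_ker

/-- **`GL₂(∏_{l ≠ 2} ℤ_l)` is a Galois group over `ℚ`**. -/
theorem exists_galois_gl2_odd_adic :
    ∃ K : IntermediateField ℚ (AlgebraicClosure ℚ), IsGalois ℚ K ∧
      Nonempty ((K ≃ₐ[ℚ] K) ≃* GL (Fin 2) (∀ l : OddPrimes, ℤ_[(l.1 : ℕ)])) := by
  obtain ⟨K, hK, ⟨e⟩⟩ := exists_galois_gl2_odd_adic_pi
  exact ⟨K, hK, ⟨e.trans (FA.PadicImage.glPiEquiv _).symm⟩⟩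

end FA.Summary

end
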