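import Fermat.Agent.Root.SummaryGaloisGL2Full
import Mathlib.LinearAlgebra.Matrix.GeneralLinearGroup.Projective
import Mathlib.FieldTheory.Galois.Basic

/-!
# Quotients of `GL₂(ℤ/N)` as Galois groups over `ℚ`

Every quotient of `GL₂(ℤ/N)` is a Galois group over `ℚ`; in particular `PGL₂(𝔽_p)`, and the
automorphism group of a two dimensional vector space over `𝔽_p`.
-/

set_option autoImplicit false

noncomputable section

namespace FA.Summary

/-- **Every image of `GL₂(ℤ/N)` is a Galois group over `ℚ`.** -/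
theorem exists_galois_of_gl2_surjective {N : ℕ} (hN : N ≠ 0) {G : Type*} [Group G]
    (f : GL (Fin 2) (ZMod N) →* G) (hf : Function.Surjective f) :
    ∃ K : IntermediateField ℚ (AlgebraicClosure ℚ), FiniteDimensional ℚ K ∧ IsGalois ℚ K ∧
      Nonempty ((K ≃ₐ[ℚ] K) ≃* G) := by
  obtain ⟨K, hfin, hgal, ⟨e⟩⟩ := exists_galois_gl2_zmod_all hN
  let g : (K ≃ₐ[ℚ] K) →* G := f.comp e.toMonoidHom
  have hg : Function.Surjective g := hf.comp e.surjective
  let F : IntermediateField ℚ K := IntermediateField.fixedField g.ker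
  have : IsGalois ℚ F := IsGalois.of_fixedField_normal_subgroup g.ker
  let a : F ≃ₐ[ℚ] IntermediateField.lift F := IntermediateField.liftAlgEquiv F
  exact ⟨IntermediateField.lift F, Module.Finite.equiv a.toLinearEquiv, IsGalois.of_algEquiv a,
    ⟨(a.autCongr.symm.trans (IsGalois.normalAutEquivQuotient g.ker).symm).trans
      (QuotientGroup.quotientKerEquivOfSurjective g hg)⟩⟩

/-- **Every quotient of `GL₂(ℤ/N)` is a Galois group over `ℚ`.** -/
theorem exists_galois_gl2_quotient {N : ℕ} (hN : N ≠ 0) (H : Subgroup (GL (Fin 2) (ZMod N)))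
    [H.Normal] :
    ∃ K : IntermediateField ℚ (AlgebraicClosure ℚ), FiniteDimensional ℚ K ∧ IsGalois ℚ K ∧
      Nonempty ((K ≃ₐ[ℚ] K) ≃* GL (Fin 2) (ZMod N) ⧸ H) :=
  exists_galois_of_gl2_surjective hN (QuotientGroup.mk' H) (QuotientGroup.mk'_surjective H)

/-- **`PGL₂(𝔽_p)` is a Galois group over `ℚ`** for every prime `p`. -/
theorem exists_galois_pgl2_prime {p : ℕ} (hp : p.Prime) :
    ∃ K : IntermediateField ℚ (AlgebraicClosure ℚ), FiniteDimensional ℚ K ∧ IsGalois ℚ K ∧
      Nonempty ((K ≃ₐ[ℚ] K) ≃* Matrix.ProjGenLinGroup (Fin 2) (ZMod p)) :=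
  exists_galois_of_gl2_surjective hp.ne_zero Matrix.ProjGenLinGroup.mk
    Matrix.ProjGenLinGroup.mk_surjective

/-- **`GL(V)` is a Galois group over `ℚ`** for every two dimensional `V` over `𝔽_p`. -/
theorem exists_galois_generalLinearGroup {p : ℕ} [Fact p.Prime] (V : Type*) [AddCommGroup V]
    [Module (ZMod p) V] (hV : Module.finrank (ZMod p) V = 2) :
    ∃ K : IntermediateField ℚ (AlgebraicClosure ℚ), FiniteDimensional ℚ K ∧ IsGalois ℚ K ∧
      Nonempty ((K ≃ₐ[ℚ] K) ≃* LinearMap.GeneralLinearGroup (ZMod p) V) := by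
  have : FiniteDimensional (ZMod p) V := Module.finite_of_finrank_eq_succ hV
  let e := Matrix.GeneralLinearGroup.toLin' (Module.finBasisOfFinrankEq (ZMod p) V hV)
  exact exists_galois_of_gl2_surjective (Fact.out : p.Prime).ne_zero e.toMonoidHom e.surjective

end FA.Summary

end
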