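import Fermat.Agent.Root.SummaryGaloisGL2Full

/-!
# `GL₂(ℤ/N)` as a Galois group over `ℚ` with controlled ramification

An extension is unramified at `l` when the inertia group of every place of `ℚ̄` above `l` fixes it.
By Néron–Ogg–Shafarevich the division fields of `37a1` are unramified outside `37` and the level,
so `GL₂(ℤ/pⁿ)` is the group of an extension unramified outside `p` and `37`, and `GL₂(ℤ/N)`, `N`
odd, of one unramified outside `37 N`. For any `N` one may prescribe finitely many primes not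
dividing `N` at which the extension is unramified.
-/

set_option autoImplicit false
set_option linter.unusedSectionVars false
set_option linter.style.haveILetI false

noncomputable section

open WeierstrassCurve Matrix FA.Frob
open FA.Central (model37)
open scoped WeierstrassCurve.Affine

local notation "Qb" => AlgebraicClosure ℚ
local notation "GQ" => AlgebraicClosure ℚ ≃ₐ[ℚ] AlgebraicClosure ℚ

namespace FA.GaloisRamification

/-- The only bad prime of `37a1` is `37`. -/
theorem model37_good {l : ℕ} (hl : l.Prime) (h37 : l ≠ 37) : model37.IsGoodPrimeFor l :=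
  fun hd => h37 (by
    rw [show model37.Δ = 37 by decide] at hd
    exact (Nat.prime_dvd_prime_iff_eq hl (by norm_num)).mp (by exact_mod_cast hd))

end FA.GaloisRamification

namespace FA.Summary

open FA.Root.Irred FA.GaloisRamification

/-- **`GL₂(𝔽_p)` is the Galois group of an extension of `ℚ` unramified outside `p` and `37`.** -/
theorem exists_galois_gl2_prime_unramified {p : ℕ} (hp : p.Prime) :
    ∃ K : IntermediateField ℚ (AlgebraicClosure ℚ), FiniteDimensional ℚ K ∧ IsGalois ℚ K ∧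
      Nonempty ((K ≃ₐ[ℚ] K) ≃* GL (Fin 2) (ZMod p)) ∧
      ∀ l : ℕ, l.Prime → l ≠ p → l ≠ 37 →
        ∀ A : ValuationSubring (AlgebraicClosure ℚ), (l : AlgebraicClosure ℚ) ∈ A.nonunits →
          ∀ σ ∈ A.inertiaSubgroup ℚ, ∀ x ∈ K,
            (σ : AlgebraicClosure ℚ ≃ₐ[ℚ] AlgebraicClosure ℚ) x = x := by
  haveI := isElliptic_model37
  haveI := Fact.mk hp
  haveI : NeZero p := ⟨hp.ne_zero⟩
  obtain ⟨K, hfin, hgal, he, -, hunr⟩ := exists_galois_gl2_unramified model37 (N := p)
    (exists_smul_eq_of_irreducible (by decide) model37_semistable (model37_irreducible hp))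
  exact ⟨K, hfin, hgal, he, fun l hl hlp h37 => hunr l hl
    (fun h => hlp ((Nat.prime_dvd_prime_iff_eq hl hp).mp h)) (model37_good hl h37)⟩

/-- **`GL₂(ℤ/pⁿ)` is the Galois group of an extension of `ℚ` unramified outside `p` and `37`.** -/
theorem exists_galois_gl2_prime_pow_unramified {p : ℕ} (hp : p.Prime) (n : ℕ) :
    ∃ K : IntermediateField ℚ (AlgebraicClosure ℚ), FiniteDimensional ℚ K ∧ IsGalois ℚ K ∧
      Nonempty ((K ≃ₐ[ℚ] K) ≃* GL (Fin 2) (ZMod (p ^ n))) ∧
      ∀ l : ℕ, l.Prime → l ≠ p → l ≠ 37 →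
        ∀ A : ValuationSubring (AlgebraicClosure ℚ), (l : AlgebraicClosure ℚ) ∈ A.nonunits →
          ∀ σ ∈ A.inertiaSubgroup ℚ, ∀ x ∈ K,
            (σ : AlgebraicClosure ℚ ≃ₐ[ℚ] AlgebraicClosure ℚ) x = x := by
  haveI := isElliptic_model37
  haveI := Fact.mk hp
  haveI : NeZero (p ^ n) := ⟨pow_ne_zero _ hp.ne_zero⟩
  obtain ⟨K, hfin, hgal, he, -, hunr⟩ := exists_galois_gl2_unramified model37 (N := p ^ n)
    (by rw [Nat.cast_pow]; exact FA.PadicImage.exists_smul_eq_pow_of_reach model37_reachAll n)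
  exact ⟨K, hfin, hgal, he, fun l hl hlp h37 => hunr l hl
    (fun h => hlp ((Nat.prime_dvd_prime_iff_eq hl hp).mp (hl.dvd_of_dvd_pow h)))
    (model37_good hl h37)⟩

/-- **`GL₂(ℤ/N)`, `N` odd, is the Galois group of an extension of `ℚ` unramified outside
`37 N`.** -/
theorem exists_galois_gl2_zmod_odd_unramified {N : ℕ} (hN : Odd N) :
    ∃ K : IntermediateField ℚ (AlgebraicClosure ℚ), FiniteDimensional ℚ K ∧ IsGalois ℚ K ∧
      Nonempty ((K ≃ₐ[ℚ] K) ≃* GL (Fin 2) (ZMod N)) ∧
      ∀ l : ℕ, l.Prime → ¬ l ∣ 37 * N →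
        ∀ A : ValuationSubring (AlgebraicClosure ℚ), (l : AlgebraicClosure ℚ) ∈ A.nonunits →
          ∀ σ ∈ A.inertiaSubgroup ℚ, ∀ x ∈ K,
            (σ : AlgebraicClosure ℚ ≃ₐ[ℚ] AlgebraicClosure ℚ) x = x := by
  haveI := isElliptic_model37
  haveI : NeZero N := ⟨hN.pos.ne'⟩
  obtain ⟨K, hfin, hgal, he, -, hunr⟩ := exists_galois_gl2_unramified model37 (N := N)
    (FA.PadicImage.exists_smul_eq_adelic_of_reach (NeZero.ne N) (fun l hl hl2 => by
      subst hl2
      exact Nat.not_even_iff_odd.mpr hN (even_iff_two_dvd.mpr (Nat.dvd_of_mem_primeFactors hl)))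
      fun _ _ _ => model37_reachAll)
  exact ⟨K, hfin, hgal, he, fun l hl hlN => hunr l hl (fun h => hlN (h.mul_left 37))
    (model37_good hl fun h => hlN (h ▸ dvd_mul_right 37 N))⟩

/-- **`GL₂(ℤ/N)` with prescribed unramified primes**: for `N, M ≥ 1` it is the Galois group of an
extension of `ℚ` unramified at every prime which divides `M` and not `N`. -/
theorem exists_galois_gl2_zmod_unramified_at {N M : ℕ} (hN : N ≠ 0) (hM : M ≠ 0) :
    ∃ K : IntermediateField ℚ (AlgebraicClosure ℚ), FiniteDimensional ℚ K ∧ IsGalois ℚ K ∧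
      Nonempty ((K ≃ₐ[ℚ] K) ≃* GL (Fin 2) (ZMod N)) ∧
      ∀ l : ℕ, l.Prime → l ∣ M → ¬ l ∣ N →
        ∀ A : ValuationSubring (AlgebraicClosure ℚ), (l : AlgebraicClosure ℚ) ∈ A.nonunits →
          ∀ σ ∈ A.inertiaSubgroup ℚ, ∀ x ∈ K,
            (σ : AlgebraicClosure ℚ ≃ₐ[ℚ] AlgebraicClosure ℚ) x = x := by
  haveI : NeZero N := ⟨hN⟩
  obtain ⟨k, hk6, hgood⟩ := exists_shift_good (mul_ne_zero hN hM)
  haveI := FA.Frob.ratCurve_isElliptic_of_Δ (model37Shift_Δ_ne_zero hk6)
  obtain ⟨K, hfin, hgal, he, -, hunr⟩ := exists_galois_gl2_unramified (model37Shift k) (N := N)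
    (exists_smul_eq_shift hk6 hN fun q hq hqN => hgood q hq (hqN.mul_right M))
  exact ⟨K, hfin, hgal, he, fun l hl hlM hlN => hunr l hl hlN (hgood l hl (hlM.mul_left N))⟩

end FA.Summary

end
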