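import Fermat.Agent.Faltings.Small
import Fermat.Agent.Root.SummaryFaltings
import Fermat.Agent.Root.SummaryTorsion
import Fermat.Agent.Root.SummaryGaloisGL2

/-!
# The Galois group of `ℚ` unramified outside a finite set is small

For a finite set `S` there are finitely many open subgroups of bounded index of `G_ℚ` containing
inertia outside `S`, finitely many number fields of bounded degree unramified outside `S`, and
finitely many continuous homomorphisms from each such subgroup to a finite group (Mazur's condition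
`Φ_p`). So a finite module has finitely many cocycles unramified outside `S`, and the elliptic
curves with good reduction outside `S` give finitely many Galois modules `E[N]` for every `N`.
-/

set_option autoImplicit false
set_option linter.unusedSectionVars false
set_option linter.style.haveILetI false

noncomputable section

open WeierstrassCurve NumberField FA.Faltings
open scoped WeierstrassCurve.Affine

local notation "Qb" => AlgebraicClosure ℚ
local notation "GQ" => AlgebraicClosure ℚ ≃ₐ[ℚ] AlgebraicClosure ℚ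

namespace FA.Summary

/-- **Finitely many open subgroups of index at most `n`** contain the inertia groups at all places
above the primes outside `S`. -/
theorem finite_openSubgroups_unramified (S : Finset ℕ) (n : ℕ) :
    {H : Subgroup GQ | IsOpen (H : Set GQ) ∧ H.index ≤ n ∧
      ∀ q : ℕ, q.Prime → q ∉ S → ∀ A : ValuationSubring Qb, A.LiesOverPrime q →
        A.inertiaSubgroupIn ℚ ≤ H}.Finite :=
  FA.Faltings.finite_openSubgroups S n

/-- **Hermite and Minkowski for all fields**: finitely many number fields in `ℚ̄` of degree at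
most `n`, Galois or not, are unramified outside `S`. -/
theorem hermite_minkowski (S : Finset ℕ) (n : ℕ) :
    {K : IntermediateField ℚ Qb | FiniteDimensional ℚ K ∧ Module.finrank ℚ K ≤ n ∧
      ∀ (q : ℕ) (P : Ideal (𝓞 K)) [P.IsMaximal], q.Prime → q ∉ S →
        (q : 𝓞 K) ∈ P → Algebra.IsUnramifiedAt ℤ P}.Finite :=
  FA.Faltings.finite_fields S n

/-- **Finitely many homomorphisms** of `G_ℚ` to a finite group, in particular finitely many
representations of given dimension over a finite ring, are unramified outside `S`. -/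
theorem finite_galoisHoms (S : Finset ℕ) (G : Type*) [Group G] [Finite G] :
    {f : GQ →* G | IsOpen (f.ker : Set GQ) ∧
      ∀ q : ℕ, q.Prime → q ∉ S → ∀ A : ValuationSubring Qb, A.LiesOverPrime q →
        ∀ σ ∈ A.inertiaSubgroupIn ℚ, f σ = 1}.Finite :=
  FA.Faltings.finite_homs_top S

/-- **Mazur's finiteness condition** `Φ_p`: an open subgroup `H` which contains inertia outside `S`
has only finitely many continuous homomorphisms to a given finite group, for example `ℤ/p`, which
are unramified outside `S`. -/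
theorem mazur_finiteness (S : Finset ℕ) (H : Subgroup GQ) (hH : IsOpen (H : Set GQ))
    (hS : ∀ q : ℕ, q.Prime → q ∉ S → ∀ A : ValuationSubring Qb, A.LiesOverPrime q →
      A.inertiaSubgroupIn ℚ ≤ H) (G : Type*) [Group G] [Finite G] :
    {f : H →* G | IsOpen (f.ker : Set H) ∧
      ∀ q : ℕ, q.Prime → q ∉ S → ∀ A : ValuationSubring Qb, A.LiesOverPrime q →
        ∀ σ : H, (σ : GQ) ∈ A.inertiaSubgroupIn ℚ → f σ = 1}.Finite :=
  (FA.Faltings.finite_homs S H hH).subset fun f ⟨ho, hi⟩ =>
    ⟨by rw [Subgroup.coe_map]; exact hH.isOpenMap_subtype_val _ ho,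
      fun q hq hqS A hA σ hσ =>
        ⟨⟨σ, hS q hq hqS A hA hσ⟩, hi q hq hqS A hA _ hσ, rfl⟩⟩

/-- **`H¹(G_{ℚ,S}, M)` is finite**: a finite module, on which an open subgroup and inertia outside
`S` act trivially, has finitely many continuous cocycles which vanish on inertia outside `S`. -/
theorem finite_cocycles (S : Finset ℕ) {M : Type*} [AddCommGroup M] [Finite M]
    [DistribMulAction GQ M] (ho : ∃ U : Subgroup GQ, IsOpen (U : Set GQ) ∧
      ∀ σ ∈ U, ∀ m : M, σ • m = m)
    (hi : ∀ q : ℕ, q.Prime → q ∉ S → ∀ A : ValuationSubring Qb, A.LiesOverPrime q →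
      ∀ σ ∈ A.inertiaSubgroupIn ℚ, ∀ m : M, σ • m = m) :
    {c : GQ → M | (∀ σ τ, c (σ * τ) = c σ + σ • c τ) ∧
      (∃ U : Subgroup GQ, IsOpen (U : Set GQ) ∧ ∀ σ ∈ U, c σ = 0) ∧
      ∀ q : ℕ, q.Prime → q ∉ S → ∀ A : ValuationSubring Qb, A.LiesOverPrime q →
        ∀ σ ∈ A.inertiaSubgroupIn ℚ, c σ = 0}.Finite :=
  FA.Faltings.finite_cocycles S
    (let ⟨_, hU, h⟩ := ho
     Subgroup.isOpen_mono (fun σ hσ => mem_actionKer.mpr (h σ hσ)) hU)
    fun q hq hqS A hA σ hσ => mem_actionKer.mpr (hi q hq hqS A hA σ hσ)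

/-- **Finitely many Galois modules `E[N]`**: for a finite set `S` and `N ≠ 0` there are finitely
many elliptic curves with good reduction outside `S` such that the `N`-torsion of every such curve
is, as a Galois module, that of one of them. -/
theorem finite_torsionModules (S : Finset ℕ) {N : ℕ} (hN : N ≠ 0)
    [inst : DecidableEq (AlgebraicClosure ℚ)] :
    ∃ ℰ : Set (WeierstrassCurve ℚ), ℰ.Finite ∧
      ∀ (E : WeierstrassCurve ℚ) [E.IsElliptic],
        (∀ p : ℕ, ∀ [Fact p.Prime], p ∉ S → ∃ C : VariableChange ℚ_[p],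
          HasGoodReduction ℤ_[p] (C • E.map (algebraMap ℚ ℚ_[p]))) →
        ∃ E' ∈ ℰ, E'.IsElliptic ∧
          (∀ p : ℕ, ∀ [Fact p.Prime], p ∉ S → ∃ C : VariableChange ℚ_[p],
            HasGoodReduction ℤ_[p] (C • E'.map (algebraMap ℚ ℚ_[p]))) ∧
          ∃ e : Submodule.torsionBy ℤ (E.toAffine⁄(AlgebraicClosure ℚ)).Point (N : ℤ) ≃+
              Submodule.torsionBy ℤ (E'.toAffine⁄(AlgebraicClosure ℚ)).Point (N : ℤ),
            ∀ (σ : GQ) P, e (σ • P) = σ • e P := by
  classical
  obtain rfl : inst = instDecEqAlgebraicClosureRat := Subsingleton.elim _ _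
  have : NeZero N := ⟨hN⟩
  let X := {E : WeierstrassCurve ℚ // E.IsElliptic ∧ ∀ p : ℕ, ∀ [Fact p.Prime], p ∉ S →
    ∃ C : VariableChange ℚ_[p], HasGoodReduction ℤ_[p] (C • E.map (algebraMap ℚ ℚ_[p]))}
  have hrep : ∀ E : X, ∃ (ρ : GQ →* Equiv.Perm (Fin 2 → ZMod N))
      (φ : (Fin 2 → ZMod N) ≃+
        Submodule.torsionBy ℤ (E.1.toAffine⁄(AlgebraicClosure ℚ)).Point (N : ℤ)),
      (IsOpen (ρ.ker : Set GQ) ∧ InertiaOutside (S ∪ N.primeFactors) ρ.ker) ∧
        ∀ σ v, φ (ρ σ v) = σ • φ v := by
    rintro ⟨E, hE, hgood⟩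
    obtain ⟨W, hW, hg⟩ := FA.Faltings.exists_model_good E S hgood
    haveI := FA.Frob.ratCurve_isElliptic_of_Δ (FA.Frob.Δ_ne_zero_of_model hW)
    obtain ⟨e, he⟩ := FA.Root.exists_equiv_of_model hW
    obtain ⟨b⟩ := FA.PadicImage.nonempty_torsion_equiv W (N := N)
    let T := Submodule.torsionBy ℤ (E.toAffine⁄(AlgebraicClosure ℚ)).Point (N : ℤ)
    have hmem : ∀ {x : (E.toAffine⁄(AlgebraicClosure ℚ)).Point}, x ∈ T ↔
        e.symm x ∈ Submodule.torsionBy ℤ
          ((FA.Frob.ratCurve W)⁄(AlgebraicClosure ℚ)).Point (N : ℤ) := fun {x} => by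
      rw [Submodule.mem_torsionBy_iff, Submodule.mem_torsionBy_iff, ← map_zsmul,
        EmbeddingLike.map_eq_zero_iff]
    let φ : (Fin 2 → ZMod N) ≃+ T :=
      b.toAddEquiv.trans
        { toFun := fun x => ⟨e x.1, hmem.mpr (by rw [e.symm_apply_apply]; exact x.2)⟩
          invFun := fun x => ⟨e.symm x.1, hmem.mp x.2⟩
          left_inv := fun x => Subtype.ext (e.symm_apply_apply _)
          right_inv := fun x => Subtype.ext (e.apply_symm_apply _)
          map_add' := fun x y => Subtype.ext (map_add e x.1 y.1) }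
    let ρ : GQ →* Equiv.Perm (Fin 2 → ZMod N) :=
      { toFun := fun σ => (φ.toEquiv.trans (MulAction.toPerm σ)).trans φ.toEquiv.symm
        map_one' := Equiv.ext fun v => by simp
        map_mul' := fun σ τ => Equiv.ext fun v => by simp [mul_smul] }
    have hker : ∀ {σ : GQ}, (∀ P : T, σ • P = P) → σ ∈ ρ.ker := fun {σ} h =>
      MonoidHom.mem_ker.mpr (Equiv.ext fun v => by simp [ρ, h])
    refine ⟨ρ, φ, ⟨?_, ?_⟩, fun σ v => by simp [ρ]⟩
    · obtain ⟨L, hL, hLh⟩ := FA.EC.galoisFactorsThroughFiniteLevel E hN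
      exact Subgroup.isOpen_mono (H₁ := L.fixingSubgroup) (fun σ hσ => hker fun P =>
        LinearMap.congr_fun (hLh σ ((IntermediateField.mem_fixingSubgroup_iff _ _).mp hσ)) P)
        (IntermediateField.fixingSubgroup_isOpen L)
    · intro q hq hqS A hA σ hσ
      rw [Finset.mem_union, not_or] at hqS
      refine hker fun P => Subtype.ext ?_
      show σ • P.1 = P.1
      obtain ⟨x, hx⟩ := e.surjective P.1
      rw [← hx, Affine.Point.algEquiv_smul_def, ← he]
      congr 1
      refine FA.GaloisRamification.smul_eq_of_good W hq (hg q hq hqS.1) hA hσ N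
        (fun hd => hqS.2 (Nat.mem_primeFactors.mpr ⟨hq, hd, hN⟩)) x (e.injective ?_)
      rw [map_nsmul, hx, map_zero, ← natCast_zsmul]
      exact (Submodule.mem_torsionBy_iff _ _).mp P.2
  choose ρ φ hρ hφ using hrep
  have hfin : (Set.range ρ).Finite :=
    (FA.Faltings.finite_homs_top (S ∪ N.primeFactors) (F := Equiv.Perm (Fin 2 → ZMod N))).subset
      (Set.range_subset_iff.mpr hρ)
  have := hfin.to_subtype
  let rep : Set.range ρ → WeierstrassCurve ℚ := fun r => (r.2.choose).1
  refine ⟨Set.range rep, Set.finite_range _, fun E hE hgood => ?_⟩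
  set X₀ : X := ⟨E, hE, hgood⟩
  set r : Set.range ρ := ⟨ρ X₀, X₀, rfl⟩
  refine ⟨_, ⟨r, rfl⟩, r.2.choose.2.1, r.2.choose.2.2,
    (φ X₀).symm.trans (φ r.2.choose), fun σ P => ?_⟩
  obtain ⟨v, rfl⟩ := (φ X₀).surjective P
  rw [AddEquiv.trans_apply, AddEquiv.trans_apply, ← hφ, AddEquiv.symm_apply_apply,
    AddEquiv.symm_apply_apply, ← hφ, r.2.choose_spec]

end FA.Summary

end
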