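import Fermat.Agent.GammaHolder.Forms

/-!
# Hölder's theorem on the Gamma function

No non-zero polynomial vanishes at `(z, Γ z, Γ' z, …, Γ⁽ⁿ⁾ z)` on a set accumulating at a point
which is not a pole, in particular on a non-empty open subset of `ℂ` or a real interval: the Gamma
function satisfies no algebraic differential equation (Hölder 1887).  The same holds for the
digamma function.
-/

set_option autoImplicit false

noncomputable section

namespace FA.GammaHolder.Summary

open MvPolynomial Filter Topology
open Fermat.Agent.GammaHolder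

/-- **Hölder's theorem**: on a non-empty open set. -/
theorem gamma_no_algebraic_ode (n : ℕ) (P : MvPolynomial (Fin (n + 2)) ℂ) (hP : P ≠ 0)
    (U : Set ℂ) (hU : IsOpen U) (hne : U.Nonempty) :
    ∃ z ∈ U, eval (Fin.cases z fun k : Fin (n + 1) => iteratedDeriv k Complex.Gamma z) P ≠ 0 := by
  by_contra h
  push Not at h
  obtain ⟨z, hzU, hz⟩ := exists_mem_gammaDomain hU hne
  exact hP (eq_zero_of_frequently n hz (frequently_of_mem_open hU hzU h))

/-- **Hölder's theorem**, accumulation form. -/
theorem gamma_no_algebraic_ode_accumulation (n : ℕ) (P : MvPolynomial (Fin (n + 2)) ℂ)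
    (z₀ : ℂ) (hz₀ : ∀ m : ℕ, z₀ ≠ -m)
    (h : ∃ᶠ z in 𝓝[≠] z₀,
      eval (Fin.cases z fun k : Fin (n + 1) => iteratedDeriv k Complex.Gamma z) P = 0) : P = 0 :=
  eq_zero_of_frequently n hz₀ h

/-- **Hölder's theorem** for the real Gamma function on an interval. -/
theorem gamma_no_algebraic_ode_real (n : ℕ) (P : MvPolynomial (Fin (n + 2)) ℝ) (hP : P ≠ 0)
    (a b : ℝ) (hab : a < b) :
    ∃ t ∈ Set.Ioo a b,
      eval (Fin.cases t fun k : Fin (n + 1) => iteratedDeriv k Real.Gamma t) P ≠ 0 := by
  by_contra h
  push Not at h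
  exact hP (eq_zero_of_real_interval n hab h)

/-- **Hölder's theorem** for the digamma function. -/
theorem digamma_no_algebraic_ode (n : ℕ) (P : MvPolynomial (Fin (n + 2)) ℂ) (hP : P ≠ 0)
    (U : Set ℂ) (hU : IsOpen U) (hne : U.Nonempty) :
    ∃ z ∈ U, eval (Fin.cases z fun k : Fin (n + 1) => iteratedDeriv k Complex.digamma z) P ≠ 0 := by
  by_contra h
  push Not at h
  obtain ⟨z, hzU, hz⟩ := exists_mem_gammaDomain hU hne
  exact hP (eq_zero_of_frequently_digamma n hz (frequently_of_mem_open hU hzU h))

end FA.GammaHolder.Summary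

end
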