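import Fermat.Agent.BernoulliConvolution.Garsia

/-!
# Garsia's theorem on Bernoulli convolutions

If `θ > 1` is an algebraic integer of norm `± 2` with all conjugates outside the unit circle, the
law of `∑ ± θ ^ (-n)` is absolutely continuous with bounded density (Garsia 1962). So it is at
every root `2 ^ (1 / m)`, in contrast with the Pisot numbers other than `2`.
-/

set_option autoImplicit false

noncomputable section

open MeasureTheory Polynomial
open scoped ENNReal

namespace FA.BernoulliConvolution.Summary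

/-- **Garsia's theorem**: bounded density. -/
theorem garsia_bounded_density {θ : ℝ} (hθ : 1 < θ) (hint : IsIntegral ℤ θ)
    (h2 : |(minpoly ℤ θ).coeff 0| = 2)
    (hconj : ∀ z : ℂ, aeval z (minpoly ℤ θ) = 0 → 1 < ‖z‖) :
    ∃ C : ℝ, 0 < C ∧ bernoulliConvolution θ ≤ ENNReal.ofReal C • volume :=
  le_smul_volume_of_garsia hθ hint h2 hconj

/-- **Garsia's theorem**: absolute continuity. -/
theorem garsia_absolutely_continuous {θ : ℝ} (hθ : 1 < θ) (hint : IsIntegral ℤ θ)
    (h2 : |(minpoly ℤ θ).coeff 0| = 2)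
    (hconj : ∀ z : ℂ, aeval z (minpoly ℤ θ) = 0 → 1 < ‖z‖) :
    bernoulliConvolution θ ≪ volume :=
  absolutelyContinuous_of_garsia hθ hint h2 hconj

/-- **Garsia's separation**: the `2 ^ n` partial sums are `c / 2 ^ n` apart. -/
theorem garsia_separation {θ : ℝ} (hθ : 1 < θ) (hint : IsIntegral ℤ θ)
    (h2 : |(minpoly ℤ θ).coeff 0| = 2)
    (hconj : ∀ z : ℂ, aeval z (minpoly ℤ θ) = 0 → 1 < ‖z‖) :
    ∃ c : ℝ, 0 < c ∧ ∀ (n : ℕ) (w w' : Fin n → Bool), w ≠ w' →
      c / 2 ^ n ≤ |∑ k : Fin n, coinSign (w k) / θ ^ (k : ℕ) -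
        ∑ k : Fin n, coinSign (w' k) / θ ^ (k : ℕ)| :=
  exists_le_abs_wordSum_sub hθ hint h2 hconj

/-- Bounded density at the roots of `2`. -/
theorem garsia_root_two {m : ℕ} (hm : 0 < m) :
    ∃ C : ℝ, 0 < C ∧
      bernoulliConvolution ((2 : ℝ) ^ ((m : ℝ)⁻¹)) ≤ ENNReal.ofReal C • volume :=
  le_smul_volume_root_two hm

end FA.BernoulliConvolution.Summary

end
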