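import Fermat.Agent.GaschuetzTheorems.Lifting

/-!
# Gaschütz's theorems on finite groups

* `gaschuetz_complement`: an abelian normal `A ≤ H` with `[G : H]` prime to `|A|` is complemented
  in `G` iff in `H`;
* `gaschuetz_sylow`: an abelian normal `A` is complemented iff `A ∩ P` is complemented in `P` for
  every Sylow subgroup `P`; for a `p`-group one Sylow subgroup suffices;
* `gaschuetz_lifting`: if `n` elements generate `G`, every generating `n`-tuple of `G ⧸ N` lifts to
  one of `G`, and the number of lifts is independent of the tuple;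
* `eulerian_function`: so the generating tuples of `G` number those of `G ⧸ N` times that number;
* `frattini_complement`: an abelian normal `A` with `A ∩ Φ G = 1` is complemented, and a minimal
  one is complemented iff it is not inside `Φ G`.

The cohomological formulation and profinite groups are not claimed.
-/

set_option autoImplicit false

noncomputable section

open Subgroup
open FA.GaschuetzTheorems

namespace FA.Summary.Gaschuetz

variable {G : Type*} [Group G] [Finite G]

/-- **Gaschütz's complement theorem.** -/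
theorem gaschuetz_complement {A H : Subgroup G} [A.Normal] [IsMulCommutative A] (hAH : A ≤ H)
    (hco : H.index.Coprime (Nat.card A)) :
    (∃ K : Subgroup G, K ⊓ A = ⊥ ∧ K ⊔ A = ⊤) ↔
      ∃ T ≤ H, T ⊓ A = ⊥ ∧ T ⊔ A = H :=
  complemented_iff_complementedIn hAH hco

/-- **Complements are a Sylow question.** -/
theorem gaschuetz_sylow {A : Subgroup G} [A.Normal] [IsMulCommutative A] :
    ((∃ K : Subgroup G, K ⊓ A = ⊥ ∧ K ⊔ A = ⊤) ↔
      ∀ (p : ℕ) [Fact p.Prime] (P : Sylow p G),
        ∃ T ≤ (P : Subgroup G), T ⊓ (A ⊓ P) = ⊥ ∧ T ⊔ (A ⊓ P) = (P : Subgroup G)) ∧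
    ∀ (p : ℕ) [Fact p.Prime], IsPGroup p A → ∀ P : Sylow p G,
      ((∃ K : Subgroup G, K ⊓ A = ⊥ ∧ K ⊔ A = ⊤) ↔
        ∃ T ≤ (P : Subgroup G), T ⊓ A = ⊥ ∧ T ⊔ A = (P : Subgroup G)) :=
  ⟨complemented_iff_sylow, fun _ _ hA P => complemented_iff_complementedIn_sylow hA P⟩

variable (N : Subgroup G) [N.Normal] {n : ℕ}

/-- **Gaschütz's lifting lemma.** -/
theorem gaschuetz_lifting {x x' : Fin n → G ⧸ N} (hx : closure (Set.range x) = ⊤)
    (hx' : closure (Set.range x') = ⊤) :
    ((∃ g : Fin n → G, closure (Set.range g) = ⊤) →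
      ∃ y : Fin n → G, (∀ i, (y i : G ⧸ N) = x i) ∧ closure (Set.range y) = ⊤) ∧
    Nat.card {y : Fin n → G // (∀ i, (y i : G ⧸ N) = x i) ∧ closure (Set.range y) = ⊤} =
      Nat.card {y : Fin n → G // (∀ i, (y i : G ⧸ N) = x' i) ∧ closure (Set.range y) = ⊤} :=
  ⟨fun ⟨_, hg⟩ => exists_generating_lift N hg hx,
    ((Nat.card_congr (Equiv.subtypeSubtypeEquivSubtypeInter _
      fun y : Fin n → G => closure (Set.range y) = ⊤)).symm.trans
        (card_genLifts_eq N hx hx' ⊤)).trans (Nat.card_congr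
      (Equiv.subtypeSubtypeEquivSubtypeInter _ fun y : Fin n → G => closure (Set.range y) = ⊤))⟩

/-- **The Eulerian function.** -/
theorem eulerian_function {x : Fin n → G ⧸ N} (hx : closure (Set.range x) = ⊤) :
    Nat.card {y : Fin n → G // closure (Set.range y) = ⊤} =
      Nat.card {z : Fin n → G ⧸ N // closure (Set.range z) = ⊤} *
        Nat.card {y : Fin n → G // (∀ i, (y i : G ⧸ N) = x i) ∧
          closure (Set.range y) = ⊤} :=
  card_generating_tuples N hx

/-- **The Frattini subgroup and complements.** -/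
theorem frattini_complement {A : Subgroup G} [A.Normal] [IsMulCommutative A] :
    (A ⊓ frattini G = ⊥ → ∃ K : Subgroup G, K ⊓ A = ⊥ ∧ K ⊔ A = ⊤) ∧
    (A ≠ ⊥ → (∀ B : Subgroup G, B.Normal → B ≤ A → B = ⊥ ∨ B = A) →
      ((∃ K : Subgroup G, K ⊓ A = ⊥ ∧ K ⊔ A = ⊤) ↔ ¬ A ≤ frattini G)) :=
  ⟨complemented_of_inf_frattini, complemented_iff_not_le_frattini⟩

end FA.Summary.Gaschuetz

end
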