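import Fermat.Agent.GaussComposition.Group

/-!
# Gauss's composition of binary quadratic forms

`D` is no square and `≡ 0, 1 (mod 4)`, of either sign. `Form D` is the type of primitive forms
`(a, b, c)` with `b² - 4ac = D`, positive definite for `D < 0`; `FormClass D` is its quotient by
proper equivalence (substitution by a matrix in `SL₂(ℤ)`), two classes being equal exactly for
equivalent forms (`cl_eq_iff`).

* `gauss_composition`: the classes form an abelian group with the forms `(1, *, *)` as `1`,
  `(a, -b, c)` inverse to `(a, b, c)`, `[a₁, B, a₂ C] [a₂, B, a₁ C] = [a₁ a₂, B, C]` for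
  `gcd(a₁, a₂, B) = 1`, and the composite of forms representing `m` and `n` representing `m n`.
* `composition_unique`: the rule for united forms alone determines the operation, as any two
  classes have united representatives (`united_representatives`).
* `finite_classes`: the group is finite.
-/

set_option autoImplicit false

namespace FA.GaussComposition.Summary

variable {D : ℤ}

/-- Classes are equal exactly for properly equivalent forms. -/
theorem cl_eq_iff (hD : ¬IsSquare D) (f g : Form D) :
    f.cl = g.cl ↔ ∃ p q r s : ℤ, p * s - q * r = 1 ∧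
      g.a = f.a * p ^ 2 + f.b * p * r + f.c * r ^ 2 ∧
      g.b = 2 * f.a * p * q + f.b * (p * s + q * r) + 2 * f.c * r * s ∧
      g.c = f.a * q ^ 2 + f.b * q * s + f.c * s ^ 2 :=
  FA.GaussComposition.cl_eq_iff hD

/-- **Gauss's composition of forms.** -/
theorem gauss_composition (hD : ¬IsSquare D) (hD4 : D % 4 = 0 ∨ D % 4 = 1) :
    ∃ _ : CommGroup (FormClass D), (∀ f : Form D, f.a = 1 → f.cl = 1) ∧
      (∀ f g : Form D, g.a = f.a → g.b = -f.b → g.c = f.c → g.cl = f.cl⁻¹) ∧
      (∀ (f g h : Form D) (a₁ a₂ B C : ℤ), f.a = a₁ → f.b = B → f.c = a₂ * C → g.a = a₂ →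
        g.b = B → g.c = a₁ * C → h.a = a₁ * a₂ → h.b = B → h.c = C →
        (∃ u v w : ℤ, u * a₁ + v * a₂ + w * B = 1) → f.cl * g.cl = h.cl) ∧
      ∀ (f g h : Form D) (m n : ℤ), h.cl = f.cl * g.cl →
        (∃ x y : ℤ, f.a * x ^ 2 + f.b * x * y + f.c * y ^ 2 = m) →
        (∃ x y : ℤ, g.a * x ^ 2 + g.b * x * y + g.c * y ^ 2 = n) →
        ∃ x y : ℤ, h.a * x ^ 2 + h.b * x * y + h.c * y ^ 2 = m * n :=
  exists_group hD hD4

/-- Any two classes contain united forms with coprime first coefficients. -/
theorem united_representatives (hD : ¬IsSquare D) (f g : Form D) :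
    ∃ (f' g' : Form D) (C : ℤ), f'.cl = f.cl ∧ g'.cl = g.cl ∧ IsCoprime f'.a g'.a ∧
      f'.b = g'.b ∧ f'.c = g'.a * C ∧ g'.c = f'.a * C := by
  obtain ⟨f', g', C, hf, hg, h⟩ := exists_united hD f g
  exact ⟨f', g', C, (Quot.sound hf).symm, (Quot.sound hg).symm, h⟩

/-- **The rule for united forms determines the operation.** -/
theorem composition_unique (hD : ¬IsSquare D) {μ ν : FormClass D → FormClass D → FormClass D}
    (hμ : IsComposition μ) (hν : IsComposition ν) : μ = ν :=
  FA.GaussComposition.composition_unique hD hμ hν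

/-- **The number of classes is finite.** -/
theorem finite_classes (hD : ¬IsSquare D) : Finite (FormClass D) := finite_formClass hD

end FA.GaussComposition.Summary
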