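import Fermat.Agent.GaussCycles.Main

/-!
# Gauss's cycles of reduced indefinite forms

`D > 0` is no square and forms are those of `SummaryGaussComposition`; a form is reduced when
`a c < 0` and `|a + c| < b`, which is Gauss's condition (`reduced_iff`), and a neighbour of
`(a, b, c)` is `(c, b', c')` with `b' ≡ -b (mod 2 c)`.

* `reduced_finite`, `exists_reduced_form`: finitely many are reduced, and some in every class;
* `neighbour_exists_unique`: a reduced form has exactly one reduced neighbour;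
* `gauss_cycles`: passing to it permutes the reduced forms, two of them are properly equivalent
  exactly when they are in one cycle, and the class number is the number of cycles;
* `automorphs`: the automorphs are the solutions of `t² - D u² = 4`;
* `class_number_five`, `class_number_twelve`: one class for `D = 5`, two for `D = 12`.
-/

set_option autoImplicit false

noncomputable section

namespace FA.GaussCycles.Summary

open FA.GaussComposition

variable {D : ℤ}

/-- Gauss's condition. -/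
theorem reduced_iff (hpos : 0 < D) (f : Form D) :
    Reduced f ↔ (0 < f.b ∧ (f.b : ℝ) < √D) ∧
      √D - f.b < 2 * |(f.a : ℝ)| ∧ 2 * |(f.a : ℝ)| < √D + f.b := by
  have hsq : (√D) ^ 2 = (D : ℝ) := Real.sq_sqrt (by exact_mod_cast hpos.le)
  have hd : (f.b : ℝ) ^ 2 - 4 * f.a * f.c = D := by exact_mod_cast f.disc
  have h0 := Real.sqrt_nonneg (D : ℝ)
  constructor
  · rintro ⟨hac, hb⟩
    have hbr : |(f.a : ℝ) + f.c| < f.b := by exact_mod_cast hb
    have hacr : (f.a : ℝ) * f.c < 0 := by exact_mod_cast hac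
    have hb0 : 0 < f.b := lt_of_le_of_lt (abs_nonneg _) hb
    have hbs : (f.b : ℝ) < √D := by nlinarith
    refine ⟨⟨hb0, hbs⟩, ?_⟩
    have h1 := sq_lt_sq' (abs_lt.1 hbr).1 (abs_lt.1 hbr).2
    have h2 : (2 * |(f.a : ℝ)| - √D) ^ 2 < (f.b : ℝ) ^ 2 := by
      have h3 : |(f.a : ℝ)| + |(f.c : ℝ)| < √D := by
        nlinarith [abs_mul (f.a : ℝ) f.c, abs_of_neg hacr, abs_nonneg (f.a : ℝ),
          abs_nonneg (f.c : ℝ), sq_abs (f.a : ℝ), sq_abs (f.c : ℝ)]
      have ha : 0 < |(f.a : ℝ)| := abs_pos.2 fun e => by simp [e] at hacr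
      nlinarith [abs_mul (f.a : ℝ) f.c, abs_of_neg hacr, mul_lt_mul_of_pos_left h3 ha,
        sq_abs (f.a : ℝ)]
    obtain ⟨h4, h5⟩ := abs_lt.1 (abs_lt_of_sq_lt_sq h2 (by positivity))
    exact ⟨by linarith, by linarith⟩
  · rintro ⟨⟨hb0, hbs⟩, h1, h2⟩
    have hac : (f.a : ℝ) * f.c < 0 := by
      nlinarith [show (0 : ℝ) < f.b by exact_mod_cast hb0]
    refine ⟨by exact_mod_cast hac, ?_⟩
    have ha : 0 < |(f.a : ℝ)| := abs_pos.2 fun e => by simp [e] at hac
    have h3 : (2 * |(f.a : ℝ)| - √D) ^ 2 < (f.b : ℝ) ^ 2 :=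
      sq_lt_sq' (by linarith) (by linarith)
    have h4 : |(f.a : ℝ)| + |(f.c : ℝ)| < √D := by
      refine lt_of_mul_lt_mul_left ?_ ha.le
      nlinarith [abs_mul (f.a : ℝ) f.c, abs_of_neg hac, sq_abs (f.a : ℝ)]
    have h5 : ((f.a : ℝ) + f.c) ^ 2 < (f.b : ℝ) ^ 2 := by
      have := pow_lt_pow_left₀ h4 (by positivity) two_ne_zero
      nlinarith [abs_mul (f.a : ℝ) f.c, abs_of_neg hac, sq_abs (f.a : ℝ), sq_abs (f.c : ℝ)]
    have := abs_lt_of_sq_lt_sq h5 (by exact_mod_cast hb0.le)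
    exact_mod_cast this

/-- There are finitely many reduced forms. -/
theorem reduced_finite :
    {f : Form D | f.a * f.c < 0 ∧ |f.a + f.c| < f.b}.Finite :=
  finite_reduced

/-- Some in every class. -/
theorem exists_reduced_form (hns : ¬IsSquare D) (hpos : 0 < D) (f : Form D) :
    ∃ g : Form D, Reduced g ∧ f.Equivalent g := by
  obtain ⟨g, hg, e⟩ := FA.GaussCycles.exists_reduced_form hpos hns f
  exact ⟨g, hg, (cl_eq_iff hns).1 e⟩

/-- The neighbour. -/
theorem neighbour_exists_unique (hns : ¬IsSquare D) (hpos : 0 < D) {f : Form D} (hf : Reduced f) :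
    ∃! g : Form D, Reduced g ∧ g.a = f.c ∧ 2 * f.c ∣ f.b + g.b := by
  obtain ⟨g, hg, hn, -⟩ := exists_neighbour hpos hns hf
  exact ⟨g, ⟨hg, hn⟩, fun g' hg' => neighbour_unique hg'.1 hg hg'.2 hn⟩

/-- **Gauss's theorem.** -/
theorem gauss_cycles (hns : ¬IsSquare D) (hpos : 0 < D) :
    ∃ ρ : Equiv.Perm {f : Form D // Reduced f},
      (∀ f, (ρ f).1.a = f.1.c ∧ 2 * f.1.c ∣ f.1.b + (ρ f).1.b) ∧
      (∀ f g, f.1.Equivalent g.1 ↔ ∃ n : ℕ, (ρ ^ n) f = g) ∧
      Nat.card (FormClass D) = Nat.card (Quotient (Equiv.Perm.SameCycle.setoid ρ)) := by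
  obtain ⟨ρ, h⟩ := exists_rho hns hpos
  have : Finite {f : Form D // Reduced f} := finite_reduced.to_subtype
  refine ⟨ρ, fun f => (h f).1, fun f g => ?_,
    card_cycles hns hpos (fun f => (h f).1) fun f => (h f).2⟩
  rw [← cl_eq_iff hns, cl_eq_iff_sameCycle hns hpos (fun f => (h f).1) fun f => (h f).2]
  exact ⟨fun hc => hc.exists_nat_pow_eq, fun ⟨n, hn⟩ => ⟨n, by rw [zpow_natCast]; exact hn⟩⟩

/-- **The automorphs.** -/
theorem automorphs (hns : ¬IsSquare D) (f : Form D) (p q r s : ℤ) :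
    (p * s - q * r = 1 ∧ ∀ x y, f.eval (p * x + q * y) (r * x + s * y) = f.eval x y) ↔
      ∃ t u : ℤ, t ^ 2 - D * u ^ 2 = 4 ∧
        2 * p = t - f.b * u ∧ q = -f.c * u ∧ r = f.a * u ∧ 2 * s = t + f.b * u := by
  refine Iff.trans (and_congr_right fun _ => ?_) (automorph_iff hns f p q r s)
  simp only [Moved, Form.eval]
  constructor
  · intro h
    have h1 := h 1 0
    have h2 := h 0 1
    have h3 := h 1 1
    refine ⟨?_, ?_, ?_⟩ <;> linarith
  · rintro ⟨h1, h2, h3⟩ x y
    linear_combination -x ^ 2 * h1 - x * y * h2 - y ^ 2 * h3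

/-- `D = 5`. -/
theorem class_number_five : Nat.card (FormClass 5) = 1 := by
  have hns : ¬IsSquare (5 : ℤ) := by decide +kernel
  let e : Form 5 := ⟨1, 1, -1, by norm_num,
    fun l hl h _ _ => hl.one_lt.ne' (Nat.dvd_one.1 (Int.natCast_dvd_natCast.1 h)),
    fun h => by norm_num at h⟩
  have hall : ∀ f : Form 5, f.cl = e.cl := by
    intro f
    obtain ⟨g, ⟨hac, hb⟩, hg⟩ := FA.GaussCycles.exists_reduced_form (by norm_num) hns f
    rw [hg]
    have hd := g.disc
    obtain ⟨hb1, hb2⟩ := abs_lt.1 hb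
    have hb0 : 0 ≤ g.b := le_trans (abs_nonneg _) hb.le
    have hb3 : g.b ≤ 2 := by nlinarith
    have hd' : g.b ^ 2 = 5 + 4 * (g.a * g.c) := by linarith
    have hb4 : g.b = 1 := by
      interval_cases hgb : g.b <;> norm_num at hd' ⊢ <;> omega
    have hac' : g.a * g.c = -1 := by rw [hb4] at hd; linarith
    rcases Int.eq_one_or_neg_one_of_mul_eq_neg_one' hac' with ⟨h1, h2⟩ | ⟨h1, h2⟩
    · rw [show g = e from Form.ext h1 hb4 h2]
    · exact (cl_eq_iff hns).2 ⟨0, -1, 1, 1, by norm_num, by simp [Form.eval, e, h2],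
        by simp [e, hb4, h2], by simp [Form.eval, e, h1, hb4, h2]⟩
  refine Nat.card_eq_one_iff_unique.2 ⟨⟨fun x y => ?_⟩, ⟨e.cl⟩⟩
  obtain ⟨f, rfl⟩ := Quot.exists_rep x
  obtain ⟨g, rfl⟩ := Quot.exists_rep y
  exact (hall f).trans (hall g).symm

/-- `D = 12`. -/
theorem class_number_twelve : Nat.card (FormClass 12) = 2 := by
  have hns : ¬IsSquare (12 : ℤ) := by decide +kernel
  let A : Form 12 := ⟨1, 2, -2, by norm_num,
    fun l hl h _ _ => hl.one_lt.ne' (Nat.dvd_one.1 (Int.natCast_dvd_natCast.1 h)),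
    fun h => by norm_num at h⟩
  let C : Form 12 := ⟨-1, 2, 2, by norm_num,
    fun l hl h _ _ => hl.one_lt.ne' (Nat.dvd_one.1 (Int.natCast_dvd_natCast.1 (dvd_neg.1 h))),
    fun h => by norm_num at h⟩
  have hall : ∀ f : Form 12, f.cl = A.cl ∨ f.cl = C.cl := by
    intro f
    obtain ⟨g, ⟨hac, hb⟩, hg⟩ := FA.GaussCycles.exists_reduced_form (by norm_num) hns f
    rw [hg]
    have hd := g.disc
    obtain ⟨hb1, hb2⟩ := abs_lt.1 hb
    have hb0 : 0 ≤ g.b := le_trans (abs_nonneg _) hb.le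
    have hb3 : g.b ≤ 3 := by nlinarith
    have hd' : g.b ^ 2 = 12 + 4 * (g.a * g.c) := by linarith
    have hb4 : g.b = 2 := by
      interval_cases hgb : g.b <;> norm_num at hd' ⊢ <;> omega
    have hac' : g.a * g.c = -2 := by rw [hb4] at hd; linarith
    have ha : g.a ∣ 2 := ⟨-g.c, by linarith⟩
    have h1 := Int.le_of_dvd two_pos ha
    have h2 : -2 ≤ g.a := by
      have := Int.le_of_dvd two_pos (neg_dvd.2 ha)
      linarith
    interval_cases hga : g.a
    · exact Or.inl ((cl_eq_iff hns).2 ⟨0, -1, 1, 2, by norm_num,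
        by simp [Form.eval, A, show g.c = 1 by omega],
        by simp [A, hb4, show g.c = 1 by omega],
        by simp [Form.eval, A, hga, hb4, show g.c = 1 by omega]⟩)
    · exact Or.inr (congrArg Form.cl (Form.ext hga hb4 (show g.c = 2 by omega)))
    · omega
    · exact Or.inl (congrArg Form.cl (Form.ext hga hb4 (show g.c = -2 by omega)))
    · exact Or.inr ((cl_eq_iff hns).2 ⟨0, -1, 1, -2, by norm_num,
        by simp [Form.eval, C, show g.c = -1 by omega],
        by simp [C, hb4, show g.c = -1 by omega],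
        by simp [Form.eval, C, hga, hb4, show g.c = -1 by omega]⟩)
  have hne : A.cl ≠ C.cl := fun h => by
    obtain ⟨p, q, r, s, -, ha, -, -⟩ := (cl_eq_iff hns).1 h
    simp only [Form.eval, A, C] at ha
    have key : ∀ x y : ZMod 3, x ^ 2 + 2 * x * y - 2 * y ^ 2 ≠ -1 := by decide
    have h3 := congrArg (Int.cast : ℤ → ZMod 3) ha
    push_cast at h3
    exact key (p : ZMod 3) (r : ZMod 3) (by linear_combination -h3)
  refine Nat.card_eq_two_iff.2 ⟨A.cl, C.cl, hne, Set.eq_univ_of_forall fun x => ?_⟩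
  obtain ⟨f, rfl⟩ := Quot.exists_rep x
  exact hall f

end FA.GaussCycles.Summary
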