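import Fermat.Agent.GaussDigamma.Main

/-!
# Gauss's theorem on the digamma function at rational points (1813)
-/

set_option autoImplicit false

noncomputable section

open Finset
open scoped Real

namespace FA.Summary

/-- **Gauss's digamma theorem.** -/
theorem gauss_digamma {p q : ℕ} (hp : 0 < p) (hpq : p < q) :
    Complex.digamma ((p : ℂ) / q) = ((-Real.eulerMascheroniConstant - Real.log (2 * q) -
      π / 2 * Real.cot (π * p / q) + ∑ k ∈ Ico 1 q,
        Real.cos (2 * π * k * p / q) * Real.log (Real.sin (π * k / q)) : ℝ) : ℂ) :=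
  GaussDigamma.gauss_digamma hp hpq

/-- `ψ (1/4) = -γ - π/2 - 3 log 2`. -/
theorem digamma_one_quarter :
    Complex.digamma (1 / 4) =
      ((-Real.eulerMascheroniConstant - π / 2 - 3 * Real.log 2 : ℝ) : ℂ) :=
  GaussDigamma.digamma_one_quarter

/-- `ψ (1/3) = -γ - π √3 / 6 - (3/2) log 3`. -/
theorem digamma_one_third :
    Complex.digamma (1 / 3) =
      ((-Real.eulerMascheroniConstant - π * Real.sqrt 3 / 6 - 3 / 2 * Real.log 3 : ℝ) : ℂ) :=
  GaussDigamma.digamma_one_third

end FA.Summary
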