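import Fermat.Agent.GaussDuplication.Main

/-!
# Gauss's duplication theorem

`D` is no square, `Form D` and `FormClass D` are as in `SummaryGaussComposition`, `μ` is any
operation satisfying the rule for united forms (there is exactly one, the group law; one exists by
`gauss_composition`). Two forms are of the same genus when they take values prime to `D` that
agree modulo `D`. No genus characters are chosen, so nothing special is needed at `2`.

* `duplication`: a class is a square exactly when the form has a value `≡ 1 (mod D)`;
* `duplication_principal`: exactly when it is in the genus of the principal form;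
* `duplication_square_value`: exactly when it represents a square prime to `D`;
* `sameGenus_iff_square`: two forms are of one genus exactly when they differ by a square;
* `card_genera`: there are as many genera as classes of order at most two.

The formula `2 ^ (μ - 1)` for that number is not claimed.
-/

set_option autoImplicit false

noncomputable section

namespace FA.GaussDuplication.Summary

open FA.GaussComposition

variable {D : ℤ} {μ : FormClass D → FormClass D → FormClass D}

/-- **Gauss's duplication theorem.** -/
theorem duplication (hD : ¬IsSquare D) (hμ : IsComposition μ) (f : Form D) :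
    (∃ g : Form D, μ g.cl g.cl = f.cl) ↔
      ∃ x y : ℤ, f.a * x ^ 2 + f.b * x * y + f.c * y ^ 2 ≡ 1 [ZMOD D] :=
  FA.GaussDuplication.duplication hD hμ f

/-- The squares are the principal genus. -/
theorem duplication_principal (hD : ¬IsSquare D) (hμ : IsComposition μ) (e f : Form D)
    (he : e.a = 1) : (∃ g : Form D, μ g.cl g.cl = f.cl) ↔
      ∃ x y u v : ℤ, IsCoprime (e.eval x y) D ∧ e.eval x y ≡ f.eval u v [ZMOD D] :=
  FA.GaussDuplication.duplication_principal hD hμ e f he

/-- The squares are the forms representing a square prime to `D`. -/
theorem duplication_square_value (hD : ¬IsSquare D) (hμ : IsComposition μ) (f : Form D) :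
    (∃ g : Form D, μ g.cl g.cl = f.cl) ↔
      ∃ x y z : ℤ, z ≠ 0 ∧ IsCoprime z D ∧ f.a * x ^ 2 + f.b * x * y + f.c * y ^ 2 = z ^ 2 :=
  ⟨fun h => represents_coprime_sq hD f ((FA.GaussDuplication.duplication hD hμ f).1 h),
    fun ⟨_, _, _, h0, h1, h2⟩ => exists_sqrt hD hμ f h0 h1 h2⟩

/-- **Genera are the cosets of the squares.** -/
theorem sameGenus_iff_square (hD : ¬IsSquare D) (hμ : IsComposition μ) (f g : Form D) :
    (∃ x y u v : ℤ, IsCoprime (f.eval x y) D ∧ f.eval x y ≡ g.eval u v [ZMOD D]) ↔
      ∃ k : Form D, μ f.cl (μ k.cl k.cl) = g.cl :=
  sameGenus_iff hD hμ f g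

/-- **The number of genera.** -/
theorem card_genera (hD : ¬IsSquare D) (hμ : IsComposition μ) (e : Form D) (he : e.a = 1) :
    Equivalence (SameGenus (D := D)) ∧
      Nat.card (Quot (SameGenus (D := D))) = Nat.card {x : FormClass D // μ x x = e.cl} :=
  ⟨sameGenus_equivalence hD hμ, FA.GaussDuplication.card_genera hD hμ e he⟩

end FA.GaussDuplication.Summary
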