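import Fermat.Agent.GaussKuzmin.Main

/-!
# The theorem of Gauss, Kuzmin and Lévy

The probability that `T ^ n x` lies in `A`, for `x` uniform in `(0, 1)` or in any cylinder, tends
to the Gauss measure of `A` at the geometric rate `(11 / 12) ^ n`, uniformly in `A` (Gauss's
problem, solved by Kuzmin and by Lévy; the optimal constant of Wirsing is not claimed); hence the
Gauss map is strongly mixing and the `n`-th partial quotient is `k` with asymptotic probability
`log (1 + 1 / (k (k + 2))) / log 2`.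
-/

set_option autoImplicit false

noncomputable section

open MeasureTheory Filter Topology Set Real
open FA.PeriodicFractions FA.PointwiseErgodic

namespace FA.GaussKuzmin.Summary

/-- **The theorem of Gauss, Kuzmin and Lévy.** -/
theorem gauss_kuzmin_levy {A : Set ℝ} (hA : MeasurableSet A) (n : ℕ) :
    |volume.real {x | x ∈ Ioo (0 : ℝ) 1 ∧ (fun y : ℝ => Int.fract y⁻¹)^[n] x ∈ A} -
      ((volume.restrict (Ioo (0 : ℝ) 1)).withDensity
        fun x => ENNReal.ofReal (log 2 * (1 + x))⁻¹).real A| ≤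
      (11 / 12) ^ n * log 2 * ((volume.restrict (Ioo (0 : ℝ) 1)).withDensity
        fun x => ENNReal.ofReal (log 2 * (1 + x))⁻¹).real A :=
  abs_volume_iterate_sub_le hA n

/-- **Gauss's problem.** -/
theorem gauss_problem {z : ℝ} (hz : z ∈ Icc (0 : ℝ) 1) (n : ℕ) :
    |volume.real {x | x ∈ Ioo (0 : ℝ) 1 ∧ (fun y : ℝ => Int.fract y⁻¹)^[n] x ≤ z} -
      log (1 + z) / log 2| ≤ (11 / 12) ^ n := by
  have hl := log_pos one_lt_two
  have e : gaussMeasure.real (Iic z) = log (1 + z) / log 2 := by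
    have h2 : gaussMeasure.real (Iic z) = gaussMeasure.real (Icc 0 z) := by
      refine measureReal_congr ?_
      filter_upwards [ae_gaussMeasure_mem] with x hx
      exact propext ⟨fun h => ⟨hx.1.le, h⟩, fun h => h.2⟩
    rw [h2, measureReal_def, gaussMeasure_Icc le_rfl hz.1 hz.2, ENNReal.toReal_ofReal, add_zero,
      log_one, sub_zero]
    rw [add_zero, log_one, sub_zero]
    exact div_nonneg (log_nonneg (by linarith [hz.1])) hl.le
  have h := abs_volume_iterate_sub_le (measurableSet_Iic (a := z)) n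
  rw [e] at h
  refine h.trans ?_
  rw [mul_assoc, mul_div_cancel₀ _ hl.ne']
  refine mul_le_of_le_one_right (by positivity) ?_
  exact (log_le_log (by linarith [hz.1]) (by linarith [hz.2] : 1 + z ≤ 2)).trans
    ((log_le_sub_one_of_pos two_pos).trans (by norm_num))

/-- **Gauss's problem**, the limit. -/
theorem gauss_problem_limit {z : ℝ} (hz : z ∈ Icc (0 : ℝ) 1) :
    Tendsto (fun n : ℕ => volume.real {x | x ∈ Ioo (0 : ℝ) 1 ∧
      (fun y : ℝ => Int.fract y⁻¹)^[n] x ≤ z}) atTop (𝓝 (log (1 + z) / log 2)) := by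
  rw [tendsto_iff_norm_sub_tendsto_zero]
  exact squeeze_zero (fun n => norm_nonneg _) (fun n => gauss_problem hz n)
    (tendsto_pow_atTop_nhds_zero_of_lt_one (by norm_num) (by norm_num))

/-- **The asymptotic law of the `n`-th partial quotient.** -/
theorem partial_quotient_law {k : ℕ} (hk : 0 < k) :
    Tendsto (fun n : ℕ => volume.real {x | x ∈ Ioo (0 : ℝ) 1 ∧
      (GenContFract.of x).s.get? n = some ⟨1, (k : ℝ)⟩}) atTop
      (𝓝 (log (1 + 1 / ((k : ℝ) * ((k : ℝ) + 2))) / log 2)) := by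
  obtain ⟨j, rfl⟩ : ∃ j, k = j + 1 := ⟨k - 1, by omega⟩
  have e : ((j + 1 : ℕ) : ℝ) * (((j + 1 : ℕ) : ℝ) + 2) = ((j : ℝ) + 1) * ((j : ℝ) + 3) := by
    push_cast
    ring
  rw [e]
  have hset : ∀ n, volume.real {x | x ∈ Ioo (0 : ℝ) 1 ∧
      (GenContFract.of x).s.get? n = some ⟨1, ((j + 1 : ℕ) : ℝ)⟩} =
      volume.real (Ioo 0 1 ∩ gaussMap^[n] ⁻¹' digitSet j) := fun n => by
    refine measureReal_congr ?_
    filter_upwards [countable_not_irrational.ae_notMem volume] with x hx
    refine propext (and_congr_right fun h01 => ?_)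
    have hmem : x ∈ unitIrr := ⟨h01, not_not.1 hx⟩
    simp only [get?_of hmem.2, Option.some.injEq, GenContFract.Pair.mk.injEq, true_and,
      mem_preimage, digitSet, Set.mem_ofPred_eq, digit, cq_succ_eq hmem]
    rw [← Int.cast_natCast (j + 1), Int.cast_inj]
    rfl
  simp only [hset]
  change Tendsto _ _ (𝓝 (gaussProb j))
  rw [← gaussMeasureReal_digitSet, tendsto_iff_norm_sub_tendsto_zero]
  refine squeeze_zero (fun n => norm_nonneg _)
    (fun n => abs_volume_iterate_sub_le (measurableSet_digitSet j) n) ?_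
  simpa using ((tendsto_pow_atTop_nhds_zero_of_lt_one (by norm_num)
    (by norm_num : (11 / 12 : ℝ) < 1)).mul_const (log 2)).mul_const (gaussMeasure.real (digitSet j))

/-- **Exponential mixing with the cylinders.** -/
theorem cylinder_mixing {x : ℝ} (hx : x ∈ Ioo (0 : ℝ) 1) (hirr : Irrational x) (m : ℕ)
    {A : Set ℝ} (hA : MeasurableSet A) (n : ℕ) :
    |volume.real {y | y ∈ Ioo (0 : ℝ) 1 ∧ Irrational y ∧
        (∀ i < m, (GenContFract.of y).s.get? i = (GenContFract.of x).s.get? i) ∧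
        (fun t : ℝ => Int.fract t⁻¹)^[n + m] y ∈ A} -
      ((volume.restrict (Ioo (0 : ℝ) 1)).withDensity
          fun t => ENNReal.ofReal (log 2 * (1 + t))⁻¹).real A *
        volume.real {y | y ∈ Ioo (0 : ℝ) 1 ∧ Irrational y ∧
          ∀ i < m, (GenContFract.of y).s.get? i = (GenContFract.of x).s.get? i}| ≤
      36 * log 2 * (11 / 12) ^ n * ((volume.restrict (Ioo (0 : ℝ) 1)).withDensity
          fun t => ENNReal.ofReal (log 2 * (1 + t))⁻¹).real A *
        volume.real {y | y ∈ Ioo (0 : ℝ) 1 ∧ Irrational y ∧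
          ∀ i < m, (GenContFract.of y).s.get? i = (GenContFract.of x).s.get? i} := by
  have e : {y | y ∈ Ioo (0 : ℝ) 1 ∧ Irrational y ∧
      ∀ i < m, (GenContFract.of y).s.get? i = (GenContFract.of x).s.get? i} =
      gaussCylinder x m := by
    ext y
    refine ⟨fun ⟨h01, hy, h⟩ => ⟨⟨h01, hy⟩, fun i hi => ?_⟩,
      fun ⟨⟨h01, hy⟩, h⟩ => ⟨h01, hy, fun i hi => ?_⟩⟩
    · rcases i with _ | i
      · rw [digit_unitIrr_zero ⟨h01, hy⟩, digit_unitIrr_zero ⟨hx, hirr⟩]
      · have := h i hi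
        simp only [get?_of hy, get?_of hirr, Option.some.injEq, GenContFract.Pair.mk.injEq,
          true_and, Int.cast_inj] at this
        exact this
    · rw [get?_of hy, get?_of hirr, h (i + 1) hi]
  have e' : {y | y ∈ Ioo (0 : ℝ) 1 ∧ Irrational y ∧
      (∀ i < m, (GenContFract.of y).s.get? i = (GenContFract.of x).s.get? i) ∧
      (fun t : ℝ => Int.fract t⁻¹)^[n + m] y ∈ A} =
      gaussCylinder x m ∩ gaussMap^[n + m] ⁻¹' A := by
    rw [← e]
    ext y
    exact ⟨fun ⟨a, b, c, d⟩ => ⟨⟨a, b, c⟩, d⟩, fun ⟨⟨a, b, c⟩, d⟩ => ⟨a, b, c, d⟩⟩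
  rw [e, e']
  exact abs_cylinder_sub_le ⟨hx, hirr⟩ m hA n

/-- **The Gauss map is strongly mixing.** -/
theorem gauss_map_mixing {A B : Set ℝ} (hA : MeasurableSet A) (hB : MeasurableSet B) :
    Tendsto (fun n : ℕ => ((volume.restrict (Ioo (0 : ℝ) 1)).withDensity
        fun x => ENNReal.ofReal (log 2 * (1 + x))⁻¹).real
          (A ∩ (fun y : ℝ => Int.fract y⁻¹)^[n] ⁻¹' B)) atTop
      (𝓝 (((volume.restrict (Ioo (0 : ℝ) 1)).withDensity
          fun x => ENNReal.ofReal (log 2 * (1 + x))⁻¹).real A *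
        ((volume.restrict (Ioo (0 : ℝ) 1)).withDensity
          fun x => ENNReal.ofReal (log 2 * (1 + x))⁻¹).real B)) :=
  tendsto_gauss_inter hA hB

end FA.GaussKuzmin.Summary
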