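import Fermat.Agent.GaussLegendre.Telescope
import Fermat.Agent.Root.SummaryThetaAGM

/-!
# The formula of Gauss, Salamin and Brent for `π`

With `a₀ = 1`, `b₀ = 1/√2`, `a_(n+1) = (a_n + b_n)/2`, `b_(n+1) = √(a_n b_n)`:
`π = 4 agm(1, 1/√2)² / (1 - ∑_(j ≥ 1) 2^(j+1) (a_j² - b_j²))`.
-/

set_option autoImplicit false

noncomputable section

open Filter Topology
open FA.ThetaAGM (thetaTwo thetaThree thetaFour)
open scoped Real NNReal

namespace FA.GaussLegendre

/-- The iteration from `(1, 1/√2)`. -/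
def meanSeq : ℕ → ℝ × ℝ
  | 0 => (1, (√2)⁻¹)
  | n + 1 => (((meanSeq n).1 + (meanSeq n).2) / 2, √((meanSeq n).1 * (meanSeq n).2))

theorem sq_thetaFour_one : thetaFour 1 ^ 2 = (√2)⁻¹ * thetaThree 1 ^ 2 := by
  refine (pow_left_inj₀ (sq_nonneg _) (by positivity) two_ne_zero).mp ?_
  rw [← pow_mul, thetaTwo_one.2, mul_pow, inv_pow, Real.sq_sqrt zero_le_two, ← pow_mul]
  ring

theorem meanSeq_eq (n : ℕ) :
    meanSeq n = (thetaThree (2 ^ n) ^ 2 / thetaThree 1 ^ 2,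
      thetaFour (2 ^ n) ^ 2 / thetaThree 1 ^ 2) := by
  have h3 := pow_pos (FA.ThetaAGM.thetaThree_pos one_pos) 2
  induction n with
  | zero =>
    rw [meanSeq, pow_zero, div_self h3.ne', sq_thetaFour_one, mul_div_assoc, div_self h3.ne',
      mul_one]
  | succ n ih =>
    have ht : (0 : ℝ) < 2 ^ n := by positivity
    rw [meanSeq, ih, show (2 : ℝ) ^ (n + 1) = 2 * 2 ^ n from pow_succ' 2 n, Prod.mk.injEq]
    constructor
    · rw [← add_div, FA.ThetaAGM.sq_add_sq ht]; ring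
    · rw [div_mul_div_comm, ← mul_pow, ← sq (thetaThree 1 ^ 2),
        Real.sqrt_div (sq_nonneg _), Real.sqrt_sq h3.le,
        Real.sqrt_sq (mul_pos (FA.ThetaAGM.thetaThree_pos ht) (FA.ThetaAGM.thetaFour_pos ht)).le,
        FA.ThetaAGM.mul_eq_sq ht]

theorem hasSum_meanSeq :
    HasSum (fun j : ℕ => 2 ^ (j + 2) * ((meanSeq (j + 1)).1 ^ 2 - (meanSeq (j + 1)).2 ^ 2))
      (1 - 4 / (π * thetaThree 1 ^ 4)) := by
  have h3 := pow_pos (FA.ThetaAGM.thetaThree_pos one_pos) 4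
  have h := ((hasSum_nat_add_iff' 1).mpr hasSum_weight).mul_left (2 / thetaThree 1 ^ 4)
  have hf : (fun j : ℕ => (2 : ℝ) ^ (j + 2) * ((meanSeq (j + 1)).1 ^ 2 - (meanSeq (j + 1)).2 ^ 2)) =
      fun i => 2 / thetaThree 1 ^ 4 * weight (i + 1) := by
    funext j
    have hq := FA.ThetaAGM.quartic (show (0 : ℝ) < 2 ^ (j + 1) by positivity)
    have hθ := (FA.ThetaAGM.thetaThree_pos one_pos).ne'
    rw [meanSeq_eq, weight]
    field_simp
    linear_combination (-((2 : ℝ) ^ (j + 2))) * hq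
  rw [hf, show 1 - 4 / (π * thetaThree 1 ^ 4) = 2 / thetaThree 1 ^ 4 *
      (thetaThree 1 ^ 4 - 2 / π - ∑ i ∈ Finset.range 1, weight i) by
    rw [Finset.sum_range_one, weight, pow_zero, one_mul, thetaTwo_one.1]
    have hθ := (FA.ThetaAGM.thetaThree_pos one_pos).ne'
    field_simp
    ring]
  exact h

end FA.GaussLegendre

namespace FA.Summary

open FA.GaussLegendre

/-- **The formula of Gauss, Salamin and Brent.** -/
theorem gauss_legendre_pi :
    π = 4 * (NNReal.agm 1 (√2)⁻¹.toNNReal : ℝ) ^ 2 /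
      (1 - ∑' j : ℕ, 2 ^ (j + 2) * ((meanSeq (j + 1)).1 ^ 2 - (meanSeq (j + 1)).2 ^ 2)) := by
  have hθ := (FA.ThetaAGM.thetaThree_pos one_pos).ne'
  have h := (FA.ThetaAGM.param_unique (a := 1) (b := (√2)⁻¹) one_pos one_pos
    (by rw [sq_thetaFour_one]; field_simp)).1
  rw [Real.toNNReal_one] at h
  rw [h, hasSum_meanSeq.tsum_eq]
  have := Real.pi_pos
  field_simp
  ring

/-- **The algorithm converges to `π`.** -/
theorem gauss_legendre_algorithm :
    Tendsto (fun n : ℕ => 4 * (meanSeq (n + 1)).1 ^ 2 /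
      (1 - ∑ j ∈ Finset.range n, 2 ^ (j + 2) * ((meanSeq (j + 1)).1 ^ 2 - (meanSeq (j + 1)).2 ^ 2)))
      atTop (𝓝 π) := by
  have h3 := FA.ThetaAGM.thetaThree_pos one_pos
  have hθ := h3.ne'
  have hπ := Real.pi_pos
  have ha : Tendsto (fun n => (meanSeq (n + 1)).1) atTop (𝓝 (1 / thetaThree 1 ^ 2)) := by
    simp only [meanSeq_eq]
    have := ((FA.ThetaAGM.tendsto_thetaThree.comp ((FA.ThetaAGM.tendsto_two_pow one_pos).comp
      (tendsto_add_atTop_nat 1))).pow 2).div_const (thetaThree 1 ^ 2)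
    simpa [Function.comp_def] using this
  have h := ((ha.pow 2).const_mul 4).div (tendsto_const_nhds.sub
    hasSum_meanSeq.tendsto_sum_nat) (b := 1 - (1 - 4 / (π * thetaThree 1 ^ 4)))
    (by rw [sub_sub_cancel]; positivity)
  rwa [show 4 * (1 / thetaThree 1 ^ 2) ^ 2 / (1 - (1 - 4 / (π * thetaThree 1 ^ 4))) = π by
    rw [sub_sub_cancel]; field_simp] at h

end FA.Summary

end
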