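import Fermat.Agent.Tau.GaussMertensSieve

/-!
# The theorem of Gauss and Mertens on class numbers of binary quadratic forms

`h(n)` is `Nat.card (FA.OrderTheta.Cl n)`, the number of properly primitive reduced forms of
determinant `n` (`classNumber_reduced_forms`).

* `gauss_mertens`: `∑_{n ≤ X} h(n) ~ 4π/(21 ζ(3)) X^(3/2)`.
* `reducedTriples_asymptotic`: the integer triples `(a, b, c)` with `2|b| ≤ a ≤ c` and
  `a c - b² ≤ X` number asymptotically `2π/9 X^(3/2)`.
* `classNumber_gt_sqrt_infinitely_often`: `h(n) > c √n` infinitely often for `c < 2π/(7 ζ(3))`.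
-/

set_option autoImplicit false

noncomputable section

open Filter Topology
open FA.OrderTheta (Cl)

namespace FA.GaussMertens

theorem rpow_three_halves {x : ℝ} (hx : 0 ≤ x) : x ^ (3 / 2 : ℝ) = x * √x := by
  rcases hx.eq_or_lt with rfl | hx
  · simp [Real.zero_rpow (by norm_num : (3 / 2 : ℝ) ≠ 0)]
  · rw [show (3 / 2 : ℝ) = 1 + 1 / 2 by norm_num, Real.rpow_add hx, Real.rpow_one,
      Real.sqrt_eq_rpow]

theorem sum_sqrt_le (X : ℕ) :
    ∑ n ∈ Finset.range X, √((n + 1 : ℕ) : ℝ) ≤ 2 / 3 * (X * √(X : ℝ)) + √(X : ℝ) := by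
  induction X with
  | zero => simp
  | succ k ih =>
    rw [Finset.sum_range_succ]
    have ha : √(k : ℝ) ^ 2 = k := Real.sq_sqrt (Nat.cast_nonneg k)
    have hb : √((k + 1 : ℕ) : ℝ) ^ 2 = k + 1 := by
      rw [Real.sq_sqrt (Nat.cast_nonneg _)]; push_cast; ring
    set a := √(k : ℝ)
    set b := √((k + 1 : ℕ) : ℝ)
    have ha0 : 0 ≤ a := Real.sqrt_nonneg _
    have hb0 : 0 ≤ b := Real.sqrt_nonneg _
    have key : 2 * a ^ 3 + 3 * a ≤ 2 * b ^ 3 := by
      refine (abs_le_of_sq_le_sq' ?_ (by positivity)).2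
      rw [show (2 * b ^ 3) ^ 2 = 4 * (b ^ 2) ^ 3 by ring, hb, ← ha]
      nlinarith [sq_nonneg a]
    have h3 : (k : ℝ) * a = a ^ 3 := by rw [← ha]; ring
    push_cast at ih ⊢
    rw [← hb]
    nlinarith

end FA.GaussMertens

namespace FA.Summary

open FA.GaussMertens (rpow_three_halves sum_sqrt_le)

/-- **Gauss and Mertens**: the class numbers of determinants up to `X` have the sum
`4π/(21 ζ(3)) X^(3/2)` asymptotically (Disquisitiones, art. 302). -/
theorem gauss_mertens :
    Tendsto (fun X : ℕ => (∑ n ∈ Finset.range X, (Nat.card (Cl (n + 1)) : ℝ)) /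
      (X : ℝ) ^ (3 / 2 : ℝ)) atTop (𝓝 (4 * Real.pi / (21 * (riemannZeta 3).re))) :=
  FA.GaussMertens.tendsto_sum_classNumber.congr fun X => by
    rw [rpow_three_halves (Nat.cast_nonneg X)]

/-- **The number of reduced integer triples**: the volume of the fundamental domain is `2π/9`. -/
theorem reducedTriples_asymptotic :
    Tendsto (fun X : ℝ => (({p : ℤ × ℤ × ℤ | 0 < p.1 ∧ 2 * |p.2.1| ≤ p.1 ∧ p.1 ≤ p.2.2 ∧
      ((p.1 * p.2.2 - p.2.1 ^ 2 : ℤ) : ℝ) ≤ X}.ncard : ℕ) : ℝ) / X ^ (3 / 2 : ℝ)) atTop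
      (𝓝 (2 * Real.pi / 9)) := by
  have h := FA.GaussMertens.tendsto_tri_volume (e := 1) one_pos
  rw [Nat.cast_one, one_pow, div_one] at h
  refine h.congr' ?_
  filter_upwards [eventually_ge_atTop 0] with X hX
  rw [rpow_three_halves hX]
  congr 3
  ext p
  simp [FA.GaussMertens.tri]

/-- **`h(n) > c √n` infinitely often** for every `c` below the average `2π/(7 ζ(3))`. -/
theorem classNumber_gt_sqrt_infinitely_often {c : ℝ}
    (hc : c < 2 * Real.pi / (7 * (riemannZeta 3).re)) :
    {n : ℕ | c * √((n + 1 : ℕ) : ℝ) < (Nat.card (Cl (n + 1)) : ℝ)}.Infinite := by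
  intro hfin
  set S := hfin.toFinset
  set C := ∑ n ∈ S, (Nat.card (Cl (n + 1)) : ℝ) with hC
  set c' := max c 0
  have hle : ∀ X : ℕ, ∑ n ∈ Finset.range X, (Nat.card (Cl (n + 1)) : ℝ) ≤
      C + c' * (2 / 3 * (X * √(X : ℝ)) + √(X : ℝ)) := fun X => by
    refine le_trans ?_ (add_le_add_right (mul_le_mul_of_nonneg_left (sum_sqrt_le X)
      (le_max_right c 0)) C)
    rw [Finset.mul_sum, hC]
    calc ∑ n ∈ Finset.range X, (Nat.card (Cl (n + 1)) : ℝ)
        ≤ ∑ n ∈ Finset.range X, ((if n ∈ S then (Nat.card (Cl (n + 1)) : ℝ) else 0) +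
            c' * √((n + 1 : ℕ) : ℝ)) := Finset.sum_le_sum fun n _ => by
          split
          · exact le_add_of_nonneg_right (mul_nonneg (le_max_right c 0) (Real.sqrt_nonneg _))
          · rw [zero_add]
            rename_i hn
            exact le_trans (not_lt.1 fun h => hn (hfin.mem_toFinset.2 h))
              (mul_le_mul_of_nonneg_right (le_max_left c 0) (Real.sqrt_nonneg _))
      _ ≤ _ := by
          rw [Finset.sum_add_distrib, ← Finset.sum_filter]
          gcongr
          exact fun n hn => (Finset.mem_filter.1 hn).2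
  have hlim : Tendsto (fun X : ℕ => (C + c' * (2 / 3 * (X * √(X : ℝ)) + √(X : ℝ))) /
      ((X : ℝ) * √X)) atTop (𝓝 (c' * (2 / 3))) := by
    have h1 : Tendsto (fun X : ℕ => ((X : ℝ) * √X)⁻¹) atTop (𝓝 0) :=
      tendsto_inv_atTop_zero.comp (tendsto_natCast_atTop_atTop.atTop_mul_atTop₀
        (Real.tendsto_sqrt_atTop.comp tendsto_natCast_atTop_atTop))
    have h2 : Tendsto (fun X : ℕ => ((X : ℝ))⁻¹) atTop (𝓝 0) :=
      tendsto_inv_atTop_zero.comp tendsto_natCast_atTop_atTop
    have h3 := ((h1.const_mul C).add (h2.const_mul c')).add_const (c' * (2 / 3))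
    simp only [mul_zero, zero_add] at h3
    refine h3.congr' ?_
    filter_upwards [eventually_gt_atTop 0] with X hX
    have : (0 : ℝ) < X := by exact_mod_cast hX
    field_simp
    ring
  have hK := le_of_tendsto_of_tendsto' FA.GaussMertens.tendsto_sum_classNumber hlim fun X =>
    div_le_div_of_nonneg_right (hle X) (by positivity)
  have hz : 0 < (riemannZeta 3).re := by
    rw [show riemannZeta 3 = riemannZeta ((3 : ℕ) : ℂ) by norm_num,
      zeta_nat_eq_tsum_of_gt_one (by norm_num : 1 < 3)]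
    rw [show (∑' n : ℕ, 1 / (n : ℂ) ^ 3) = ((∑' n : ℕ, 1 / (n : ℝ) ^ 3 : ℝ) : ℂ) by
      rw [Complex.ofReal_tsum]; push_cast; rfl, Complex.ofReal_re]
    exact (Real.summable_one_div_nat_pow.2 (by norm_num)).tsum_pos
      (fun n => by positivity) 1 (by norm_num)
  have hpos : 0 < 4 * Real.pi / (21 * (riemannZeta 3).re) := by positivity
  rcases le_total c 0 with h | h
  · rw [show c' = 0 from max_eq_right h, zero_mul] at hK
    linarith
  · rw [show c' = c from max_eq_left h] at hK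
    have e : 4 * Real.pi / (21 * (riemannZeta 3).re) =
        2 * Real.pi / (7 * (riemannZeta 3).re) * (2 / 3) := by ring
    rw [e] at hK
    linarith

end FA.Summary

end
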