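import Fermat.Agent.GaussProduct.Transfer

/-!
# The product relation of Davenport and Hasse and the multiplication formula for `Γ_p`

`F` is a finite field, `R` a field of characteristic `0`, `η` a multiplicative character of order
`m` (so `m` divides `q - 1`), `χ` any multiplicative and `ψ` any nontrivial additive character of
`F` with values in `R`, `g` the Gauss sum.

* `gauss_product_relation` (Davenport and Hasse 1934):
  `χ (m) ^ m ∏ g (χ η ^ j) = g (χ ^ m) ∏ g (η ^ j)`, `j < m` on the left, `1 ≤ j < m` on the right;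
* `gauss_product_relation_two`: for the quadratic character,
  `χ 4 g (χ) g (χ η) = g (χ ^ 2) g (η)`;
* `padicGamma_multiplication`: for `p ∤ m`, `d < p` and `x = p z - d`,
  `∏ Γ_p ((x + l) / m) = m ^ d E (z) Γ_p (x) ∏ Γ_p (l / m)` over `l < m`, where `E` is continuous
  with `E (n) = m ^ (-(p - 1) n)`.

The proof is by the formula of Gross and Koblitz, not the one by Jacobi sums.
-/

set_option autoImplicit false

noncomputable section

open Finset FA.DworkRationality FA.GrossKoblitz

namespace FA.GaussProduct.Summary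

variable {F : Type*} [Field F] [Fintype F] {R : Type*} [Field R] [CharZero R]

/-- **The product relation of Davenport and Hasse.** -/
theorem gauss_product_relation {m : ℕ} (χ η : MulChar F R) (hη : orderOf η = m) {ψ : AddChar F R}
    (hψ : ψ ≠ 1) :
    χ (m : F) ^ m * ∏ j ∈ range m, gaussSum (χ * η ^ j) ψ =
      gaussSum (χ ^ m) ψ * ∏ j ∈ Ico 1 m, gaussSum (η ^ j) ψ := by
  subst hη
  exact Fermat.Agent.GaussProduct.gaussSum_product χ η hψ

/-- **The case of the quadratic character.** -/
theorem gauss_product_relation_two (χ η : MulChar F R) (hη : orderOf η = 2) {ψ : AddChar F R}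
    (hψ : ψ ≠ 1) :
    χ 4 * gaussSum χ ψ * gaussSum (χ * η) ψ = gaussSum (χ ^ 2) ψ * gaussSum η ψ := by
  have h := gauss_product_relation χ η hη hψ
  rw [prod_range_succ, prod_range_one, Nat.Ico_succ_singleton, prod_singleton, pow_zero, mul_one,
    pow_one] at h
  rw [← h, ← map_pow, mul_assoc]
  norm_num

variable {p : ℕ} [hp : Fact p.Prime]

/-- **Gauss's multiplication formula for Morita's Gamma function.** -/
theorem padicGamma_multiplication {m : ℕ} (hm : ¬ p ∣ m) :
    ∃ E : ℤ_[p] → ℤ_[p], Continuous E ∧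
      (∀ n : ℕ, E n * ((m : ℤ_[p]) ^ (p - 1)) ^ n = 1) ∧
      ∀ (z : ℤ_[p]) (d : ℕ), d < p →
        ∏ l ∈ range m, padicGamma p
            ((((p : ℤ_[p]) * z - d) + l) * Ring.inverse (m : ℤ_[p])) =
          (m : ℂ_[p]) ^ d * toCp p (E z) * padicGamma p ((p : ℤ_[p]) * z - d) *
            ∏ l ∈ range m, padicGamma p ((l : ℤ_[p]) * Ring.inverse (m : ℤ_[p])) := by
  refine ⟨fun z => Fermat.Agent.GaussProduct.stepChar hm z,
    Fermat.Agent.GaussProduct.continuous_stepChar hm,
    Fermat.Agent.GaussProduct.stepChar_natCast hm, fun z d hd => ?_⟩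
  have h := Fermat.Agent.GaussProduct.gammaProd_eq hm ((p : ℤ_[p]) * z - d)
  rw [Fermat.Agent.GaussProduct.gammaFactor_mul_sub hm hd] at h
  simpa only [Fermat.Agent.GaussProduct.gammaProd, Fermat.Agent.GaussProduct.shiftDiv,
    zero_add] using h

end FA.GaussProduct.Summary

end
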