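import Fermat.Agent.GaussianAngles.SatoTate
import Fermat.Agent.GaussianAngles.Sectors

/-!
# Hecke's angular equidistribution and the Sato–Tate law for `j = 1728`

Primary means `≡ 1` modulo `(1 + i) ^ 3`: `b` even and `a + b ≡ 1` modulo `4` for `a + b i`.

* `gaussian_hecke_LSeries`: for `k ≠ 0` and `χ` periodic, multiplicative and bounded by `1` on the
  primary elements, `∑ χ (α) (α / |α|) ^ k N α ^ (-s)` continues to `1 / 2 < re s` and has no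
  zero on `1 ≤ re s`;
* `gaussian_hecke_prime_mean`: `χ (π) (π / |π|) ^ k` has mean `0` over the primary primes of prime
  norm;
* `gaussian_prime_angles` (Hecke, 1920): their arguments are equidistributed on the circle;
* `sum_two_squares_sectors`: the primes `p = a² + b²` with `|b| < t |a|` have proportion
  `4 arctan t / π` among those `≡ 1` modulo `4`; `exists_prime_near_axis`: `|b| < ε √p` infinitely
  often;
* `satoTate_split_of_j_eq_1728`, `satoTate_of_j_eq_1728`, `satoTate_quartic_twist`: for an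
  elliptic curve over `ℚ` with `j = 1728` the proportion with `a_p ≤ 2 t √p` is
  `1 - arccos t / π` among the `p ≡ 1` modulo `4`; the others have `a_p = 0`.

No continuation beyond `1 / 2 < re s`, functional equation or error term is proved.
-/

set_option autoImplicit false

noncomputable section

open Filter Topology
open FA.GaussAngle
open scoped Classical

namespace FA.Summary

local notation "ℤ[i]" => GaussianInt

/-- **Hecke L-series of infinite order of `ℚ(i)`.** -/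
theorem gaussian_hecke_LSeries {M : ℕ} (hM : M ≠ 0) (χ : ℤ[i] → ℂ)
    (hper : ∀ v x : ℤ[i], χ (v + (M : ℤ[i]) * x) = χ v) (h1 : χ 1 = 1)
    (hmul : ∀ α β : ℤ[i], α.im % 2 = 0 ∧ (α.re + α.im) % 4 = 1 →
      β.im % 2 = 0 ∧ (β.re + β.im) % 4 = 1 → χ (α * β) = χ α * χ β)
    (hle : ∀ α : ℤ[i], α.im % 2 = 0 ∧ (α.re + α.im) % 4 = 1 → ‖χ α‖ ≤ 1) {k : ℤ} (hk : k ≠ 0) :
    ∃ E : ℂ → ℂ, DifferentiableOn ℂ E {s : ℂ | 1 / 2 < s.re} ∧
      (∀ s : ℂ, 1 < s.re →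
        ∑' α : {α : ℤ[i] // α.im % 2 = 0 ∧ (α.re + α.im) % 4 = 1},
          χ α * (((α : ℤ[i]) : ℂ) / (‖((α : ℤ[i]) : ℂ)‖ : ℂ)) ^ k *
            (((α : ℤ[i]).norm.natAbs : ℕ) : ℂ) ^ (-s) = E s) ∧
      ∀ s : ℂ, 1 ≤ s.re → E s ≠ 0 := by
  have h : IsChar M χ := ⟨hM, hper, h1, hmul, hle⟩
  obtain ⟨E, hE, hE'⟩ := h.exists_ext hk
  refine ⟨E, hE, fun s hs => ?_, fun s hs => h.ext_ne_zero hk hE hE' hs⟩
  rw [← hE' s hs]
  refine tsum_congr fun α => ?_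
  have hne : ((α : ℤ[i]) : ℂ) ≠ 0 := by simpa using FA.CM.Quartic.IsPrimary.ne_zero α.2
  rw [term_eq _ _ _ (FA.CM.Quartic.IsPrimary.ne_zero α.2), Complex.cpow_neg, term, g_of_ne hne,
    dir, nrm]
  simp [div_eq_mul_inv]

theorem setOf_primary_prime_norm (N : ℕ) :
    {α : ℤ[i] | (α.im % 2 = 0 ∧ (α.re + α.im) % 4 = 1) ∧ α.norm.natAbs.Prime ∧
      α.norm.natAbs ≤ N} = (angleSet N : Set ℤ[i]) := by
  ext α
  rw [Finset.mem_coe, angleSet, Finset.mem_biUnion]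
  constructor
  · rintro ⟨h1, h2, h3⟩
    exact ⟨_, mem_primeSet.mpr ⟨h3, h2⟩, mem_primarySet_iff.mpr ⟨h1, rfl⟩⟩
  · rintro ⟨p, hp, hα⟩
    obtain ⟨h1, h2⟩ := mem_primarySet_iff.mp hα
    obtain ⟨h3, h4⟩ := mem_primeSet.mp hp
    exact ⟨h1, by rw [show α.norm.natAbs = p from h2]; exact ⟨h4, h3⟩⟩

/-- **An angular character has mean zero over the Gaussian primes.** -/
theorem gaussian_hecke_prime_mean {M : ℕ} (hM : M ≠ 0) (χ : ℤ[i] → ℂ)
    (hper : ∀ v x : ℤ[i], χ (v + (M : ℤ[i]) * x) = χ v) (h1 : χ 1 = 1)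
    (hmul : ∀ α β : ℤ[i], α.im % 2 = 0 ∧ (α.re + α.im) % 4 = 1 →
      β.im % 2 = 0 ∧ (β.re + β.im) % 4 = 1 → χ (α * β) = χ α * χ β)
    (hle : ∀ α : ℤ[i], α.im % 2 = 0 ∧ (α.re + α.im) % 4 = 1 → ‖χ α‖ ≤ 1) {k : ℤ} (hk : k ≠ 0) :
    Tendsto (fun N : ℕ =>
      (∑ᶠ α ∈ {α : ℤ[i] | (α.im % 2 = 0 ∧ (α.re + α.im) % 4 = 1) ∧ α.norm.natAbs.Prime ∧
        α.norm.natAbs ≤ N}, χ α * ((α : ℂ) / (‖(α : ℂ)‖ : ℂ)) ^ k) /
      ({α : ℤ[i] | (α.im % 2 = 0 ∧ (α.re + α.im) % 4 = 1) ∧ α.norm.natAbs.Prime ∧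
        α.norm.natAbs ≤ N}.ncard : ℂ)) atTop (𝓝 0) := by
  refine ((⟨hM, hper, h1, hmul, hle⟩ : IsChar M χ).tendsto_mean hk).congr fun N => ?_
  rw [setOf_primary_prime_norm, Set.ncard_coe_finset, finsum_mem_coe_finset]
  refine congrArg (· / _) (Finset.sum_congr rfl fun α hα => ?_)
  obtain ⟨p, -, hp⟩ := Finset.mem_biUnion.mp hα
  have hne : (α : ℂ) ≠ 0 := by simpa using (FA.CM.Quartic.mem_primarySet.mp hp).1.ne_zero
  simp [term, g_of_ne hne, dir]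

/-- **Hecke's theorem**: the arguments of the primary Gaussian primes are equidistributed. -/
theorem gaussian_prime_angles {θ₁ θ₂ : ℝ} (h₁ : -Real.pi ≤ θ₁) (h₁₂ : θ₁ ≤ θ₂)
    (h₂ : θ₂ ≤ Real.pi) :
    Tendsto (fun N : ℕ =>
      ({α : ℤ[i] | ((α.im % 2 = 0 ∧ (α.re + α.im) % 4 = 1) ∧ α.norm.natAbs.Prime ∧
        α.norm.natAbs ≤ N) ∧ Complex.arg (α : ℂ) ∈ Set.Icc θ₁ θ₂}.ncard : ℝ) /
      {α : ℤ[i] | (α.im % 2 = 0 ∧ (α.re + α.im) % 4 = 1) ∧ α.norm.natAbs.Prime ∧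
        α.norm.natAbs ≤ N}.ncard) atTop (𝓝 ((θ₂ - θ₁) / (2 * Real.pi))) := by
  refine (isChar_one.tendsto_arg (N₀ := 0) (fun _ _ _ _ _ => norm_one) h₁ h₁₂ h₂).congr fun N => ?_
  rw [setOf_primary_prime_norm, Set.ncard_coe_finset, ← Set.ncard_coe_finset]
  congr 3
  ext α
  rw [Finset.mem_coe, Finset.mem_filter, Set.mem_ofPred_eq, one_mul,
    ← Finset.mem_coe (s := angleSet N), ← setOf_primary_prime_norm, Set.mem_ofPred_eq]
  refine and_congr_right fun hα => ?_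
  have hne : (α : ℂ) ≠ 0 := by simpa using FA.CM.Quartic.IsPrimary.ne_zero hα.1
  rw [dir, div_eq_inv_mul, ← Complex.ofReal_inv,
    Complex.arg_real_mul _ (inv_pos.mpr (norm_pos_iff.mpr hne))]

theorem splitSet_eq_range (N : ℕ) :
    splitSet N = (Finset.range (N + 1)).filter fun p => p.Prime ∧ p % 4 = 1 := by
  rw [splitSet_eq, FA.Equidist.primeSet, Finset.filter_filter]

/-- **Primes `a² + b²` in a sector.** -/
theorem sum_two_squares_sectors {t : ℝ} (ht : 0 ≤ t) (ht' : t ≤ 1) :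
    Tendsto (fun N : ℕ => (((Finset.range (N + 1)).filter fun p : ℕ => (p.Prime ∧ p % 4 = 1) ∧
      ∃ a b : ℤ, a ^ 2 + b ^ 2 = (p : ℤ) ∧ |(b : ℝ)| < t * |(a : ℝ)|).card : ℝ) /
      ((Finset.range (N + 1)).filter fun p : ℕ => p.Prime ∧ p % 4 = 1).card) atTop
      (𝓝 (4 * Real.arctan t / Real.pi)) := by
  refine (tendsto_sector ht ht').congr fun N => ?_
  rw [splitSet_eq_range, Finset.filter_filter]
  rfl

/-- **Primes `a² + b²` with `|b| < ε √p`.** -/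
theorem exists_prime_near_axis {ε : ℝ} (hε : 0 < ε) (N₀ : ℕ) :
    ∃ (p : ℕ) (a b : ℤ), p.Prime ∧ N₀ < p ∧ a ^ 2 + b ^ 2 = (p : ℤ) ∧
      |(b : ℝ)| < ε * Real.sqrt p :=
  exists_prime_narrow hε N₀

/-- **Sato–Tate for `j = 1728`** at the primes `≡ 1` modulo `4`. -/
theorem satoTate_split_of_j_eq_1728 (E : WeierstrassCurve ℚ) [E.IsElliptic] (hj : E.j = 1728)
    {t : ℝ} (ht : -1 ≤ t) (ht' : t ≤ 1) :
    Tendsto (fun N : ℕ => (((Finset.range (N + 1)).filter fun p : ℕ => (p.Prime ∧ p % 4 = 1) ∧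
      (E.LFunction p : ℝ) ≤ 2 * t * Real.sqrt p).card : ℝ) /
      ((Finset.range (N + 1)).filter fun p : ℕ => p.Prime ∧ p % 4 = 1).card) atTop
      (𝓝 (1 - Real.arccos t / Real.pi)) := by
  refine (satoTate_split E hj ht ht').congr fun N => ?_
  rw [splitSet_eq_range, Finset.filter_filter]

/-- **Sato–Tate for `j = 1728`**: half an atom at `0`, half the arcsine law. -/
theorem satoTate_of_j_eq_1728 (E : WeierstrassCurve ℚ) [E.IsElliptic] (hj : E.j = 1728)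
    {t : ℝ} (ht : -1 ≤ t) (ht' : t ≤ 1) :
    (∀ p : ℕ, p.Prime → p % 4 ≠ 1 → E.LFunction p = 0) ∧
      Tendsto (fun N : ℕ => (((Finset.range (N + 1)).filter fun p : ℕ => p.Prime ∧
        (E.LFunction p : ℝ) ≤ 2 * t * Real.sqrt p).card : ℝ) /
        ((Finset.range (N + 1)).filter Nat.Prime).card) atTop
        (𝓝 ((1 - Real.arccos t / Real.pi) / 2 + if 0 ≤ t then 1 / 2 else 0)) := by
  refine ⟨fun p hp h => LFunction_eq_zero_of_not_split E hj hp h,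
    (satoTate_all E hj ht ht').congr fun N => ?_⟩
  rw [FA.Equidist.primeSet, Finset.filter_filter]

/-- **Sato–Tate for `y² = x³ - D x`.** -/
theorem satoTate_quartic_twist (D : ℚ) (hD : D ≠ 0) {t : ℝ} (ht : -1 ≤ t) (ht' : t ≤ 1) :
    Tendsto (fun N : ℕ => (((Finset.range (N + 1)).filter fun p : ℕ => (p.Prime ∧ p % 4 = 1) ∧
      ((⟨0, 0, 0, -D, 0⟩ : WeierstrassCurve ℚ).LFunction p : ℝ) ≤ 2 * t * Real.sqrt p).card : ℝ) /
      ((Finset.range (N + 1)).filter fun p : ℕ => p.Prime ∧ p % 4 = 1).card) atTop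
      (𝓝 (1 - Real.arccos t / Real.pi)) := by
  have hΔ : (⟨0, 0, 0, -D, 0⟩ : WeierstrassCurve ℚ).Δ = 64 * D ^ 3 := by
    simp only [WeierstrassCurve.Δ, WeierstrassCurve.b₂, WeierstrassCurve.b₄, WeierstrassCurve.b₆,
      WeierstrassCurve.b₈]
    ring
  have : (⟨0, 0, 0, -D, 0⟩ : WeierstrassCurve ℚ).IsElliptic :=
    ⟨isUnit_iff_ne_zero.mpr (by rw [hΔ]; exact mul_ne_zero (by norm_num) (pow_ne_zero 3 hD))⟩
  refine satoTate_split_of_j_eq_1728 _ ?_ ht ht'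
  rw [WeierstrassCurve.j, Units.val_inv_eq_inv_val, WeierstrassCurve.coe_Δ', hΔ]
  simp only [WeierstrassCurve.c₄, WeierstrassCurve.b₂, WeierstrassCurve.b₄]
  field_simp
  ring

end FA.Summary

end
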