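import Fermat.Agent.GaussianCorrelation.Main

/-!
# The Gaussian correlation inequality

* `gaussian_correlation`: for a centred Gaussian measure on a finite-dimensional real inner product
  space, degenerate or not, and measurable symmetric convex sets `K`, `L`, the product of the
  measures of `K` and `L` is at most the measure of `K ∩ L` (Royen, after Latała and Matlak).
* `gaussian_correlation_standard`: for the standard Gaussian measure with no measurability
  hypothesis.
* `gaussian_correlation_multivariate`: for the Gaussian measure with covariance matrix `S`.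
* `gaussian_correlation_strips`: for a Gaussian vector and two groups of its coordinates.
* `khatri_sidak`: the measure of an intersection of strips is at least the product of the measures.
* `laplace_squares`: the Laplace transform of the squares of a Gaussian vector.

Not claimed: the cases of equality, infinite-dimensional spaces.
-/

set_option autoImplicit false

noncomputable section

namespace FA.GaussianCorrelation.Summary

open MeasureTheory ProbabilityTheory Real Finset
open scoped Matrix RealInnerProductSpace

variable {E : Type*} [NormedAddCommGroup E] [InnerProductSpace ℝ E] [FiniteDimensional ℝ E]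
  [MeasurableSpace E] [BorelSpace E]

/-- **The Gaussian correlation inequality.** -/
theorem gaussian_correlation (μ : Measure E) [IsGaussian μ] (hμ : μ[id] = 0) {K L : Set E}
    (hK : Convex ℝ K) (hL : Convex ℝ L) (hKs : ∀ x ∈ K, -x ∈ K) (hLs : ∀ x ∈ L, -x ∈ L)
    (hKm : MeasurableSet K) (hLm : MeasurableSet L) : μ K * μ L ≤ μ (K ∩ L) :=
  FA.GaussianCorrelation.gaussian_correlation μ hμ hK hL hKs hLs hKm hLm

/-- The standard Gaussian measure. -/
theorem gaussian_correlation_standard {K L : Set E} (hK : Convex ℝ K) (hL : Convex ℝ L)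
    (hKs : ∀ x ∈ K, -x ∈ K) (hLs : ∀ x ∈ L, -x ∈ L) :
    stdGaussian E K * stdGaussian E L ≤ stdGaussian E (K ∩ L) :=
  stdGaussian_correlation hK hL hKs hLs

/-- The Gaussian measure with a given covariance matrix. -/
theorem gaussian_correlation_multivariate {ι : Type*} [Fintype ι] [DecidableEq ι]
    (S : Matrix ι ι ℝ) {K L : Set (EuclideanSpace ℝ ι)} (hK : Convex ℝ K) (hL : Convex ℝ L)
    (hKs : ∀ x ∈ K, -x ∈ K) (hLs : ∀ x ∈ L, -x ∈ L) (hKm : MeasurableSet K)
    (hLm : MeasurableSet L) :
    multivariateGaussian 0 S K * multivariateGaussian 0 S L ≤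
      multivariateGaussian 0 S (K ∩ L) :=
  FA.GaussianCorrelation.gaussian_correlation _ integral_id_multivariateGaussian hK hL hKs hLs
    hKm hLm

/-- Two groups of coordinates of a Gaussian vector. -/
theorem gaussian_correlation_strips {ι κ : Type*} [Fintype ι] [Fintype κ] (A : Matrix ι κ ℝ)
    (s : ι → Bool) (t : ι → ℝ) :
    (Measure.pi fun _ : κ => gaussianReal 0 1).real {g | ∀ i, s i → |(A *ᵥ g) i| ≤ t i} *
      (Measure.pi fun _ : κ => gaussianReal 0 1).real {g | ∀ i, ¬ s i → |(A *ᵥ g) i| ≤ t i} ≤
      (Measure.pi fun _ : κ => gaussianReal 0 1).real {g | ∀ i, |(A *ᵥ g) i| ≤ t i} := by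
  classical
  exact strip_correlation A s t

/-- **The inequality of Khatri and Šidák.** -/
theorem khatri_sidak (μ : Measure E) [IsGaussian μ] (hμ : μ[id] = 0) {ι : Type*} [Fintype ι]
    (a : ι → E) (t : ι → ℝ) :
    ∏ i, μ {x | |⟪a i, x⟫| ≤ t i} ≤ μ {x | ∀ i, |⟪a i, x⟫| ≤ t i} :=
  FA.GaussianCorrelation.khatri_sidak μ hμ a t

/-- The Laplace transform of the squares. -/
theorem laplace_squares {ι κ : Type*} [Fintype ι] [DecidableEq ι] [Fintype κ]
    (A : Matrix ι κ ℝ) {l : ι → ℝ} (hl : ∀ i, 0 ≤ l i) :
    ∫ g, exp (-∑ i, l i * (A *ᵥ g) i ^ 2) ∂(Measure.pi fun _ : κ => gaussianReal 0 1) =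
      (√((1 + Matrix.diagonal (2 • l) * (A * Aᵀ)).det))⁻¹ := by
  classical
  exact FA.GaussianCorrelation.laplace_squares A hl

end FA.GaussianCorrelation.Summary

end
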