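import Fermat.Agent.GelfandPairs.Cartan
import Fermat.Agent.Root.SummaryCompactQuotient

/-!
# Gelfand pairs and spherical vectors

Let `K` be a compact subgroup of a topological group `G` with a continuous involutive
anti-automorphism `θ` that preserves `K` and every double coset `KgK` (`IsGelfandInvolution`).

* `gelfand_trick`: in a strongly continuous unitary representation the translations compressed to
  the `K`-fixed vectors commute;
* `spherical_multiplicity_one`: in an irreducible one the fixed vectors form at most a line;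
* `spherical_functional_equation`: the coefficient `φ` of a fixed unit vector is bi-invariant,
  bounded by `1`, equal to `1` at `1`, and `∫ φ (g k h) dk = φ g * φ h`;
* `cartan_padic`, `cartan_real`: the decompositions `K A K` of `GL_n (ℚ_p)` and `GL_n (ℝ)`;
* `gelfand_pair_padic`, `gelfand_pair_real`: so transposition works for `(GL_n (ℚ_p), GL_n (ℤ_p))`
  and `(GL_n (ℝ), O(n))`, and irreducible unitary representations have at most one line of fixed
  vectors;
* `compact_quotient_spherical`: an irreducible summand of `L²(G ⧸ Γ)`, `Γ` discrete cocompact, has at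
  most one line of fixed vectors.

Uniqueness of the exponents in the Cartan decomposition and the Satake isomorphism are not claimed.
-/

set_option autoImplicit false
set_option linter.unusedSectionVars false
set_option linter.style.haveILetI false

noncomputable section

open MeasureTheory MeasureTheory.Measure Topology
open scoped InnerProductSpace ComplexConjugate

namespace FA.GelfandPairs.Summary

theorem exists_probability_haar (K : Type*) [Group K] [TopologicalSpace K] [IsTopologicalGroup K]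
    [CompactSpace K] [MeasurableSpace K] [BorelSpace K] :
    ∃ ν : Measure K, IsProbabilityMeasure ν ∧ ν.IsMulLeftInvariant :=
  ⟨haarMeasure ⟨⟨Set.univ, isCompact_univ⟩, by simp⟩,
    ⟨haarMeasure_self⟩, inferInstance⟩

variable {G : Type*} [Group G] [TopologicalSpace G] [IsTopologicalGroup G] [T2Space G]
  {H : Type*} [NormedAddCommGroup H] [InnerProductSpace ℂ H] [CompleteSpace H]
  {K : Subgroup G} {θ : G → G} {U : G →* (H →L[ℂ] H)}

/-- **Gelfand's trick.** -/
theorem gelfand_trick (hK : IsCompact (K : Set G)) (hθ : IsGelfandInvolution K θ)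
    (hu : ∀ g, U g ∈ unitary (H →L[ℂ] H)) (hc : ∀ v, Continuous fun g => U g v) (g h : G) :
    let P := (fixedSpace K U).starProjection
    P * U g * P * (U h * P) = P * U h * P * (U g * P) := by
  haveI : CompactSpace K := isCompact_iff_compactSpace.1 hK
  letI : MeasurableSpace K := borel K
  haveI : BorelSpace K := ⟨rfl⟩
  obtain ⟨ν, _, _⟩ := exists_probability_haar K
  intro P
  ext v
  have hmem : P v ∈ fixedSpace K U := Submodule.starProjection_apply_mem _ v
  have e := congrArg (fun T => ((T ⟨P v, hmem⟩ : fixedSpace K U) : H))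
    (compression_comm hu ν hc hθ g h).eq
  simp only [mul_apply_eq_comp, coe_compression] at e ⊢
  exact e

/-- **Multiplicity one for spherical vectors.** -/
theorem spherical_multiplicity_one (hK : IsCompact (K : Set G)) (hθ : IsGelfandInvolution K θ)
    (hu : ∀ g, U g ∈ unitary (H →L[ℂ] H)) (hc : ∀ v, Continuous fun g => U g v)
    (hi : ∀ W : Submodule ℂ H, IsClosed (W : Set H) → (∀ g, ∀ w ∈ W, U g w ∈ W) → W = ⊥ ∨ W = ⊤) :
    FiniteDimensional ℂ (fixedSpace K U) ∧ Module.finrank ℂ (fixedSpace K U) ≤ 1 := by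
  haveI : CompactSpace K := isCompact_iff_compactSpace.1 hK
  letI : MeasurableSpace K := borel K
  haveI : BorelSpace K := ⟨rfl⟩
  obtain ⟨ν, _, _⟩ := exists_probability_haar K
  exact finrank_fixedSpace_le_one hu ν hc hθ hi

/-- **Spherical functions.** -/
theorem spherical_functional_equation [CompactSpace K] [MeasurableSpace K] [BorelSpace K]
    (ν : Measure K) [IsProbabilityMeasure ν] [ν.IsMulLeftInvariant] (hθ : IsGelfandInvolution K θ)
    (hu : ∀ g, U g ∈ unitary (H →L[ℂ] H)) (hc : ∀ v, Continuous fun g => U g v)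
    (hi : ∀ W : Submodule ℂ H, IsClosed (W : Set H) → (∀ g, ∀ w ∈ W, U g w ∈ W) → W = ⊥ ∨ W = ⊤)
    {v : H} (hv : v ∈ fixedSpace K U) (hv1 : ‖v‖ = 1) :
    ⟪v, U 1 v⟫_ℂ = 1 ∧ (∀ g, ‖⟪v, U g v⟫_ℂ‖ ≤ 1) ∧
      (∀ g, ∀ a ∈ K, ∀ b ∈ K, ⟪v, U (a * g * b) v⟫_ℂ = ⟪v, U g v⟫_ℂ) ∧
      ∀ g h, ∫ k : K, ⟪v, U (g * k * h) v⟫_ℂ ∂ν = ⟪v, U g v⟫_ℂ * ⟪v, U h v⟫_ℂ := by
  refine ⟨?_, fun g => ?_, fun g a ha b hb => ?_, spherical_equation hu ν hc hθ hi hv hv1⟩
  · rw [map_one, one_apply_eq_self, inner_self_eq_norm_sq_to_K, hv1]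
    simp
  · refine (norm_inner_le_norm _ _).trans ?_
    rw [FA.GelfandRaikov.norm_of_mem_unitary (hu g), hv1, one_mul]
  · rw [map_mul, map_mul, mul_apply_eq_comp, mul_apply_eq_comp, hv b hb,
      ← inner_conj_symm v, inner_translation hu, hv a⁻¹ (K.inv_mem ha), inner_conj_symm]

section examples

variable (p : ℕ) [Fact p.Prime] (n : ℕ)

/-- **The Cartan decomposition over `ℚ_p`.** -/
theorem cartan_padic :
    IsCompact (integralGL p n : Set (Matrix.GeneralLinearGroup (Fin n) ℚ_[p])) ∧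
      ∀ g : Matrix.GeneralLinearGroup (Fin n) ℚ_[p],
        ∃ a ∈ integralGL p n, ∃ b ∈ integralGL p n, ∃ e : Fin n → ℤ,
          (g : Matrix (Fin n) (Fin n) ℚ_[p]) = (a : Matrix (Fin n) (Fin n) ℚ_[p]) *
            Matrix.diagonal (fun i => (p : ℚ_[p]) ^ e i) * (b : Matrix (Fin n) (Fin n) ℚ_[p]) :=
  ⟨isCompact_integralGL p n, cartan_decomposition_padic p n⟩

/-- **The Cartan decomposition over `ℝ`.** -/
theorem cartan_real :
    IsCompact (orthogonalGL n : Set (Matrix.GeneralLinearGroup (Fin n) ℝ)) ∧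
      ∀ g : Matrix.GeneralLinearGroup (Fin n) ℝ,
        ∃ a ∈ orthogonalGL n, ∃ b ∈ orthogonalGL n, ∃ d : Fin n → ℝ, (∀ i, 0 < d i) ∧
          (g : Matrix (Fin n) (Fin n) ℝ) = (a : Matrix (Fin n) (Fin n) ℝ) * Matrix.diagonal d *
            (b : Matrix (Fin n) (Fin n) ℝ) :=
  ⟨isCompact_orthogonalGL n, cartan_decomposition_real n⟩

/-- **Unramified vectors of `GL_n (ℚ_p)`.** -/
theorem gelfand_pair_padic (U : Matrix.GeneralLinearGroup (Fin n) ℚ_[p] →* (H →L[ℂ] H))
    (hu : ∀ g, U g ∈ unitary (H →L[ℂ] H)) (hc : ∀ v, Continuous fun g => U g v)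
    (hi : ∀ W : Submodule ℂ H, IsClosed (W : Set H) → (∀ g, ∀ w ∈ W, U g w ∈ W) → W = ⊥ ∨ W = ⊤) :
    IsGelfandInvolution (integralGL p n) glTranspose ∧
      FiniteDimensional ℂ (fixedSpace (integralGL p n) U) ∧
      Module.finrank ℂ (fixedSpace (integralGL p n) U) ≤ 1 :=
  ⟨isGelfandInvolution_padic p n,
    spherical_multiplicity_one (isCompact_integralGL p n) (isGelfandInvolution_padic p n) hu hc hi⟩

/-- **Spherical vectors of `GL_n (ℝ)`.** -/
theorem gelfand_pair_real (U : Matrix.GeneralLinearGroup (Fin n) ℝ →* (H →L[ℂ] H))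
    (hu : ∀ g, U g ∈ unitary (H →L[ℂ] H)) (hc : ∀ v, Continuous fun g => U g v)
    (hi : ∀ W : Submodule ℂ H, IsClosed (W : Set H) → (∀ g, ∀ w ∈ W, U g w ∈ W) → W = ⊥ ∨ W = ⊤) :
    IsGelfandInvolution (orthogonalGL n) glTranspose ∧
      FiniteDimensional ℂ (fixedSpace (orthogonalGL n) U) ∧
      Module.finrank ℂ (fixedSpace (orthogonalGL n) U) ≤ 1 :=
  ⟨isGelfandInvolution_real n,
    spherical_multiplicity_one (isCompact_orthogonalGL n) (isGelfandInvolution_real n) hu hc hi⟩

/-- The bound is attained: the trivial representation of `GL₂ (ℚ_p)`, a noncommutative group, has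
a line of unramified vectors. -/
theorem unramified_line_exists :
    (∃ g h : Matrix.GeneralLinearGroup (Fin 2) ℚ_[p], g * h ≠ h * g) ∧
      ∃ U : Matrix.GeneralLinearGroup (Fin 2) ℚ_[p] →* (ℂ →L[ℂ] ℂ),
        (∀ g, U g ∈ unitary (ℂ →L[ℂ] ℂ)) ∧ (∀ v, Continuous fun g => U g v) ∧
        (∀ W : Submodule ℂ ℂ, IsClosed (W : Set ℂ) → (∀ g, ∀ w ∈ W, U g w ∈ W) → W = ⊥ ∨ W = ⊤) ∧
        Module.finrank ℂ (fixedSpace (integralGL p 2) U) = 1 := by
  refine ⟨⟨⟨!![1, 1; 0, 1], !![1, -1; 0, 1], by simp [Matrix.one_fin_two],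
      by simp [Matrix.one_fin_two]⟩,
    ⟨!![1, 0; 1, 1], !![1, 0; -1, 1], by simp [Matrix.one_fin_two],
      by simp [Matrix.one_fin_two]⟩, fun h => ?_⟩, 1, fun _ => (unitary _).one_mem,
    fun v => continuous_const, fun W _ _ => eq_bot_or_eq_top W, ?_⟩
  · have h' := congrArg (fun u : Matrix.GeneralLinearGroup (Fin 2) ℚ_[p] =>
      (u : Matrix (Fin 2) (Fin 2) ℚ_[p]) 0 0) h
    simp at h'
  · rw [show fixedSpace (integralGL p 2) (1 : _ →* (ℂ →L[ℂ] ℂ)) = ⊤ from
      eq_top_iff.2 fun v _ k _ => rfl, finrank_top, Module.finrank_self]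

end examples

/-- **Spherical vectors in compact quotients.** An irreducible summand of `L²(G ⧸ Γ)` has at most
one line of fixed vectors. -/
theorem compact_quotient_spherical [LocallyCompactSpace G] [MeasurableSpace G] [BorelSpace G]
    (Γ : Subgroup G) [DiscreteTopology Γ] [CompactSpace (G ⧸ Γ)] [Countable Γ]
    (hK : IsCompact (K : Set G)) (hθ : IsGelfandInvolution K θ)
    {W : Submodule ℂ (FA.CompactQuotient.QuotL2 Γ)}
    (hW : FA.CompactQuotient.IsIrreducibleSubspace (FA.CompactQuotient.quasiRegular Γ) W)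
    {v w : FA.CompactQuotient.QuotL2 Γ}
    (hv : v ∈ W ⊓ fixedSpace K (FA.CompactQuotient.quasiRegular Γ))
    (hw : w ∈ W ⊓ fixedSpace K (FA.CompactQuotient.quasiRegular Γ)) (hv0 : v ≠ 0) :
    ∃ c : ℂ, c • v = w := by
  haveI : CompleteSpace W := hW.1.completeSpace_coe
  set R := FA.CompactQuotient.quasiRegular Γ with hR
  let U : G →* (W →L[ℂ] W) :=
    { toFun := fun g => (R g).restrict (hW.2.1 g)
      map_one' := ContinuousLinearMap.ext fun w => Subtype.ext (by
        show R 1 (w : FA.CompactQuotient.QuotL2 Γ) = w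
        rw [map_one, one_apply_eq_self])
      map_mul' := fun g h => ContinuousLinearMap.ext fun w => Subtype.ext (by
        show R (g * h) (w : FA.CompactQuotient.QuotL2 Γ) = R g (R h w)
        rw [map_mul, mul_apply_eq_comp]) }
  have hUn : ∀ g u, ‖U g u‖ = ‖u‖ := fun g u => FA.CompactQuotient.norm_quasiRegular Γ g u
  have hu : ∀ g, U g ∈ unitary (W →L[ℂ] W) := fun g => by
    rw [Unitary.mem_iff, FA.GelfandRaikov.star_eq_inv U hUn, ← map_mul, ← map_mul, inv_mul_cancel,
      mul_inv_cancel, map_one]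
    exact ⟨rfl, rfl⟩
  have hc : ∀ u, Continuous fun g => U g u := fun u =>
    (FA.CompactQuotient.continuous_quasiRegular Γ (u : FA.CompactQuotient.QuotL2 Γ)).subtype_mk
      fun g => hW.2.1 g _ u.2
  have hi : ∀ V : Submodule ℂ W, IsClosed (V : Set W) → (∀ g, ∀ u ∈ V, U g u ∈ V) →
      V = ⊥ ∨ V = ⊤ := fun V hV hVi => by
    rcases hW.2.2.2 (V.map W.subtype) (Submodule.map_subtype_le W V) (by
      rw [Submodule.map_coe]
      exact hW.1.isClosedEmbedding_subtypeVal.isClosedMap _ hV) (by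
      rintro g _ ⟨u, hu, rfl⟩
      exact ⟨U g u, hVi g u hu, rfl⟩) with h | h
    · exact Or.inl (Submodule.map_injective_of_injective W.injective_subtype
        (h.trans (Submodule.map_bot _).symm))
    · exact Or.inr (Submodule.map_injective_of_injective W.injective_subtype
        (h.trans (Submodule.map_subtype_top W).symm))
  obtain ⟨hfin, hle⟩ := spherical_multiplicity_one (U := U) hK hθ hu hc hi
  let a : fixedSpace K U := ⟨⟨v, hv.1⟩, fun k hk => Subtype.ext (hv.2 k hk)⟩
  let b : fixedSpace K U := ⟨⟨w, hw.1⟩, fun k hk => Subtype.ext (hw.2 k hk)⟩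
  have ha : a ≠ 0 := fun e => hv0
    (congrArg (fun z : fixedSpace K U => ((z : W) : FA.CompactQuotient.QuotL2 Γ)) e)
  haveI : Nontrivial (fixedSpace K U) := nontrivial_of_ne a 0 ha
  obtain ⟨c, hcb⟩ := exists_smul_eq_of_finrank_eq_one
    (le_antisymm hle (Module.finrank_pos (R := ℂ) (M := fixedSpace K U))) ha b
  exact ⟨c, congrArg (fun z : fixedSpace K U => ((z : W) : FA.CompactQuotient.QuotL2 Γ)) hcb⟩

end FA.GelfandPairs.Summary

end
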