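import Fermat.Agent.GelfandRaikov.Corollaries
import Mathlib.LinearAlgebra.Matrix.GeneralLinearGroup.Defs
import Mathlib.Topology.Instances.Matrix

/-!
# The Gelfand-Raikov theorem

For a locally compact Hausdorff group `G`:

* `regular_representation`: left translation on `L²` of the Haar measure is a faithful strongly
  continuous unitary representation;
* `gelfand_raikov`: irreducible strongly continuous unitary representations on nonzero Hilbert
  spaces separate the points of `G`; irreducible means that the only closed invariant subspaces are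
  `⊥` and `⊤`;
* `gelfand_raikov_compact`: for compact `G` they are finite-dimensional;
* `characters_separate`: for abelian `G` they are one-dimensional (`abelian_one_dimensional`), so
  continuous characters separate points;
* `exists_pure_state_norming`, `irreducible_of_pure_state`: in a unital C⋆-algebra every element is
  normed by a pure state, and pure states give irreducible cyclic representations.

The statements apply to `GL₂(ℝ)` (`gelfand_raikov_GL2`) and to any discrete group
(`gelfand_raikov_discrete`).  No Plancherel decomposition is claimed.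
-/

set_option autoImplicit false
set_option linter.unusedSectionVars false
set_option linter.style.haveILetI false

noncomputable section

open MeasureTheory Topology FA.KadisonSinger
open scoped InnerProductSpace

universe u

namespace FA.GelfandRaikov.Summary

variable {G : Type u} [Group G] [TopologicalSpace G] [IsTopologicalGroup G] [LocallyCompactSpace G]
  [T2Space G]

/-- **The regular representation** is unitary, strongly continuous and faithful. -/
theorem regular_representation [MeasurableSpace G] [BorelSpace G] :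
    ∃ U : G →* (HaarL2 G →L[ℂ] HaarL2 G),
      (∀ g (v : HaarL2 G), U g v =ᵐ[Measure.haar] fun x => v (g⁻¹ * x)) ∧
      (∀ g, U g ∈ unitary (HaarL2 G →L[ℂ] HaarL2 G)) ∧ (∀ v, Continuous fun g => U g v) ∧
      Function.Injective U := by
  refine ⟨leftTranslation, leftTranslation_coe, fun g => ?_, continuous_leftTranslation,
    (injective_iff_map_eq_one _).2 fun g hg => ?_⟩
  · rw [Unitary.mem_iff, star_eq_inv _ norm_leftTranslation, ← map_mul, ← map_mul, inv_mul_cancel,
      mul_inv_cancel, map_one]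
    exact ⟨rfl, rfl⟩
  · by_contra hne
    obtain ⟨v, hv⟩ := exists_leftTranslation_ne hne
    exact hv (by rw [hg]; rfl)

/-- **The Gelfand-Raikov theorem.** -/
theorem gelfand_raikov {x y : G} (hxy : x ≠ y) :
    ∃ (H : Type u) (_ : NormedAddCommGroup H) (_ : InnerProductSpace ℂ H) (_ : CompleteSpace H)
      (U : G →* (H →L[ℂ] H)), Nontrivial H ∧ (∀ g, U g ∈ unitary (H →L[ℂ] H)) ∧
      (∀ v, Continuous fun g => U g v) ∧
      (∀ W : Submodule ℂ H, IsClosed (W : Set H) → (∀ g, ∀ w ∈ W, U g w ∈ W) → W = ⊥ ∨ W = ⊤) ∧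
      U x ≠ U y := by
  letI : MeasurableSpace G := borel G
  haveI : BorelSpace G := ⟨rfl⟩
  have hne : y⁻¹ * x ≠ 1 := fun e => hxy (inv_mul_eq_one.1 e).symm
  obtain ⟨H, _, _, _, U, hU, hUne⟩ := exists_irreducible_ne_one hne
  refine ⟨H, inferInstance, inferInstance, inferInstance, U, hU.nontrivial, hU.mem_unitary,
    hU.continuous_apply, hU.no_invariant, fun e => hUne ?_⟩
  rw [map_mul, e, ← map_mul, inv_mul_cancel, map_one]

/-- For compact groups, finite-dimensional irreducible representations separate points. -/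
theorem gelfand_raikov_compact [CompactSpace G] {x y : G} (hxy : x ≠ y) :
    ∃ (H : Type u) (_ : NormedAddCommGroup H) (_ : InnerProductSpace ℂ H) (_ : CompleteSpace H)
      (U : G →* (H →L[ℂ] H)), Nontrivial H ∧ FiniteDimensional ℂ H ∧
      (∀ g, U g ∈ unitary (H →L[ℂ] H)) ∧ (∀ v, Continuous fun g => U g v) ∧
      (∀ W : Submodule ℂ H, IsClosed (W : Set H) → (∀ g, ∀ w ∈ W, U g w ∈ W) → W = ⊥ ∨ W = ⊤) ∧
      U x ≠ U y := by
  obtain ⟨H, _, _, _, U, hn, hu, hc, hi, hne⟩ := gelfand_raikov hxy
  exact ⟨H, inferInstance, inferInstance, inferInstance, U, hn,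
    IsIrreducibleUnitary.finiteDimensional ⟨hn, hu, hc, hi⟩, hu, hc, hi, hne⟩

/-- Irreducible unitary representations of abelian groups are one-dimensional. -/
theorem abelian_one_dimensional {A : Type u} [CommGroup A] [TopologicalSpace A] {H : Type*}
    [NormedAddCommGroup H] [InnerProductSpace ℂ H] [CompleteSpace H] [Nontrivial H]
    (U : A →* (H →L[ℂ] H)) (hu : ∀ g, U g ∈ unitary (H →L[ℂ] H))
    (hc : ∀ v, Continuous fun g => U g v)
    (hi : ∀ W : Submodule ℂ H, IsClosed (W : Set H) → (∀ g, ∀ w ∈ W, U g w ∈ W) → W = ⊥ ∨ W = ⊤) :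
    Module.finrank ℂ H = 1 :=
  IsIrreducibleUnitary.finrank_eq_one ⟨‹_›, hu, hc, hi⟩ mul_comm

/-- **Continuous characters separate the points of a locally compact abelian group.** -/
theorem characters_separate {A : Type u} [CommGroup A] [TopologicalSpace A] [IsTopologicalGroup A]
    [LocallyCompactSpace A] [T2Space A] {x y : A} (hxy : x ≠ y) :
    ∃ χ : A →ₜ* Circle, χ x ≠ χ y := by
  obtain ⟨χ, hχ⟩ := exists_character_ne_one mul_comm (x := y⁻¹ * x)
    fun e => hxy (inv_mul_eq_one.1 e).symm
  exact ⟨χ, fun e => hχ (by rw [map_mul, e, ← map_mul, inv_mul_cancel, map_one])⟩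

section CStar

open scoped ComplexOrder

variable {A : Type u} [CStarAlgebra A] [Nontrivial A]

/-- **Every element is normed by a pure state.** -/
theorem exists_pure_state_norming (b : A) :
    ∃ φ : A →ₗ[ℂ] ℂ, IsPureState φ ∧ φ (star b * b) = ((‖b‖ ^ 2 : ℝ) : ℂ) :=
  exists_pure_state b

/-- **Pure states give irreducible representations.** -/
theorem irreducible_of_pure_state {φ : A →ₗ[ℂ] ℂ} (hφ : IsPureState φ) :
    ∃ (H : Type u) (_ : NormedAddCommGroup H) (_ : InnerProductSpace ℂ H) (_ : CompleteSpace H)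
      (π : A →⋆ₐ[ℂ] (H →L[ℂ] H)) (Ω : H), (∀ a b, ⟪π a Ω, π b Ω⟫_ℂ = φ (star a * b)) ∧
      DenseRange (fun a => π a Ω) ∧
      ∀ W : Submodule ℂ H, IsClosed (W : Set H) → (∀ a, ∀ w ∈ W, π a w ∈ W) → W = ⊥ ∨ W = ⊤ :=
  exists_irreducible_of_pure_state hφ

end CStar

/-- `GL₂(ℝ)` is locally compact, so the theorem applies to it. -/
theorem gelfand_raikov_GL2 {x y : Matrix.GeneralLinearGroup (Fin 2) ℝ} (hxy : x ≠ y) :
    ∃ (H : Type) (_ : NormedAddCommGroup H) (_ : InnerProductSpace ℂ H) (_ : CompleteSpace H)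
      (U : Matrix.GeneralLinearGroup (Fin 2) ℝ →* (H →L[ℂ] H)),
      (∀ W : Submodule ℂ H, IsClosed (W : Set H) → (∀ g, ∀ w ∈ W, U g w ∈ W) → W = ⊥ ∨ W = ⊤) ∧
      U x ≠ U y := by
  haveI : LocallyCompactSpace (Matrix (Fin 2) (Fin 2) ℝ) :=
    inferInstanceAs (LocallyCompactSpace (Fin 2 → Fin 2 → ℝ))
  haveI : T2Space (Matrix (Fin 2) (Fin 2) ℝ) := inferInstanceAs (T2Space (Fin 2 → Fin 2 → ℝ))
  haveI : LocallyCompactSpace (Matrix.GeneralLinearGroup (Fin 2) ℝ) :=
    Units.isClosedEmbedding_embedProduct.locallyCompactSpace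
  obtain ⟨H, i₁, i₂, i₃, U, -, -, -, hi, hne⟩ := gelfand_raikov hxy
  exact ⟨H, i₁, i₂, i₃, U, hi, hne⟩

/-- Discrete groups are locally compact, so the theorem applies to them. -/
theorem gelfand_raikov_discrete {Γ : Type u} [Group Γ] {x y : Γ} (hxy : x ≠ y) :
    ∃ (H : Type u) (_ : NormedAddCommGroup H) (_ : InnerProductSpace ℂ H) (_ : CompleteSpace H)
      (U : Γ →* (H →L[ℂ] H)), Nontrivial H ∧ (∀ g, U g ∈ unitary (H →L[ℂ] H)) ∧
      (∀ W : Submodule ℂ H, IsClosed (W : Set H) → (∀ g, ∀ w ∈ W, U g w ∈ W) → W = ⊥ ∨ W = ⊤) ∧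
      U x ≠ U y := by
  letI : TopologicalSpace Γ := ⊥
  haveI : DiscreteTopology Γ := ⟨rfl⟩
  haveI : IsTopologicalGroup Γ :=
    { continuous_mul := continuous_of_discreteTopology
      continuous_inv := continuous_of_discreteTopology }
  obtain ⟨H, i₁, i₂, i₃, U, hn, hu, -, hi, hne⟩ := gelfand_raikov hxy
  exact ⟨H, i₁, i₂, i₃, U, hn, hu, hi, hne⟩

end FA.GelfandRaikov.Summary

end
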