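import Fermat.Agent.GelfondCubic.Main
import Mathlib.Analysis.SpecialFunctions.Pow.Complex
import Mathlib.Algebra.Polynomial.SpecificDegree
import Mathlib.RingTheory.Polynomial.RationalRoot

/-!
# Gelfond's theorem on algebraic independence

* `gelfond_cubic`: `α ≠ 0, 1` algebraic, `β` of degree `3`: `α ^ β` and `α ^ (β ^ 2)` are
  algebraically independent over `ℚ` (Gelfond, 1949), the power of any branch
  (`gelfond_cubic_exp`);
* `gelfond_two_cbrt_two`: for instance `2 ^ ∛2` and `2 ^ ∛4`;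
* `gelfond_criterion`: Gelfond's criterion for a transcendental number;
* `exponential_polynomial_zero_estimate`: zeros of an exponential polynomial in a disc.

Independent of S01.
-/

set_option autoImplicit false

noncomputable section

open Polynomial

namespace FA.GelfondCubic.Summary

/-- **Gelfond, 1949**, for any logarithm. -/
theorem gelfond_cubic_exp {L β : ℂ} (hL : L ≠ 0) (hα : IsAlgebraic ℚ (Complex.exp L))
    (hβ : (minpoly ℚ β).natDegree = 3) :
    AlgebraicIndependent ℚ ![Complex.exp (β * L), Complex.exp (β ^ 2 * L)] :=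
  FA.GelfondCubic.gelfond_cubic hL hα hβ

/-- **Gelfond, 1949.** -/
theorem gelfond_cubic {α β : ℂ} (hα : IsAlgebraic ℚ α) (hα0 : α ≠ 0) (hα1 : α ≠ 1)
    (hβ : (minpoly ℚ β).natDegree = 3) :
    AlgebraicIndependent ℚ ![α ^ β, α ^ (β ^ 2)] := by
  have hL : Complex.log α ≠ 0 := fun h => hα1 (by rw [← Complex.exp_log hα0, h, Complex.exp_zero])
  have h := gelfond_cubic_exp hL (by rwa [Complex.exp_log hα0]) hβ
  rwa [mul_comm β, mul_comm (β ^ 2), ← Complex.cpow_def_of_ne_zero hα0,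
    ← Complex.cpow_def_of_ne_zero hα0] at h

/-- `2 ^ ∛2` and `2 ^ ∛4`. -/
theorem gelfond_two_cbrt_two {β : ℂ} (hβ : β ^ 3 = 2) :
    AlgebraicIndependent ℚ ![(2 : ℂ) ^ β, (2 : ℂ) ^ (β ^ 2)] := by
  have h2 : IsAlgebraic ℚ (2 : ℂ) := by simpa using isAlgebraic_natCast (R := ℚ) (A := ℂ) 2
  refine gelfond_cubic h2 two_ne_zero (by norm_num) ?_
  have hmon : (X ^ 3 - C (2 : ℚ)).Monic := monic_X_pow_sub_C 2 (by norm_num)
  have hirr : Irreducible (X ^ 3 - C (2 : ℚ)) := by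
    refine (irreducible_iff_roots_eq_zero_of_degree_le_three
      (by rw [natDegree_X_pow_sub_C]; norm_num) (by rw [natDegree_X_pow_sub_C])).2 ?_
    refine Multiset.eq_zero_of_forall_notMem fun q hq => ?_
    rw [mem_roots hmon.ne_zero, IsRoot.def, eval_sub, eval_pow, eval_X, eval_C, sub_eq_zero] at hq
    obtain ⟨r, hr⟩ := isInteger_of_is_root_of_monic (A := ℤ) (K := ℚ)
      (p := X ^ 3 - C (2 : ℤ)) (r := q) (monic_X_pow_sub_C 2 (by norm_num))
      (by simp [hq, map_ofNat])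
    have hr' : r ^ 3 = 2 := by
      rw [← hr] at hq
      simpa using (Int.cast_inj (α := ℚ)).1 (by simpa using hq)
    have h1 : -2 < r := by nlinarith [sq_nonneg (r + 1), sq_nonneg r]
    have h3 : r < 2 := by nlinarith [sq_nonneg (r - 1), sq_nonneg r]
    interval_cases r <;> norm_num at hr'
  rw [← minpoly.eq_of_irreducible_of_monic hirr (by simp [hβ]) hmon, natDegree_X_pow_sub_C]

/-- **Gelfond's criterion.** -/
theorem gelfond_criterion {θ : ℂ} (hθ : Transcendental ℚ θ) {a : ℝ} (ha : 0 ≤ a) :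
    ∃ C : ℝ, ∀ D T : ℕ → ℝ,
      (∀ᶠ N in Filter.atTop, 1 ≤ D N ∧ D N ≤ T N ∧ D N ≤ a * D (N + 1) ∧ T N ≤ a * T (N + 1) ∧
        D (N + 1) ≤ a * D N ∧ T (N + 1) ≤ a * T N) →
      Filter.Tendsto T Filter.atTop Filter.atTop →
      ∀ P : ℕ → ℤ[X], (∀ᶠ N in Filter.atTop, P N ≠ 0 ∧ ((P N).natDegree : ℝ) ≤ D N ∧
        (P N).natDegree + Real.log (∑ i ∈ (P N).support, |((P N).coeff i : ℝ)|) ≤ T N ∧
        ‖aeval θ (P N)‖ ≤ Real.exp (-(C * (D N * T N)))) → False :=
  FA.GelfondCubic.gelfond_criterion hθ ha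

/-- **The zero estimate**: `n` exponentials with frequencies in `|w| ≤ Δ` have at most
`(n log 9 + log n + 18 R Δ) / log 4` zeros, with multiplicity `m` each, in `|z| ≤ R`. -/
theorem exponential_polynomial_zero_estimate {ι : Type*} [Fintype ι] (a w : ι → ℂ)
    (hw : Function.Injective w) (ha : a ≠ 0) {Δ R : ℝ} (hΔ : 0 ≤ Δ) (hwb : ∀ i, ‖w i‖ ≤ Δ)
    (hR : 0 < R) (Z : Finset ℂ) (hZ : ∀ z ∈ Z, ‖z‖ ≤ R) {m : ℕ}
    (hzero : ∀ z ∈ Z, ∀ k < m,
      iteratedDeriv k (fun z => ∑ i, a i * Complex.exp (w i * z)) z = 0) :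
    (4 : ℝ) ^ (m * Z.card) ≤
      Fintype.card ι * 9 ^ Fintype.card ι * Real.exp (18 * R * Δ) :=
  zero_estimate a w hw ha hΔ hwb hR Z hZ hzero

end FA.GelfondCubic.Summary

end
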