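import Fermat.Agent.DigitSums.Main

/-!
# Gelfond's theorem on sums of digits

* `gelfond_digit_sums`: for `m` prime to `q - 1` the sums of digits in base `q` are equally
  distributed modulo `m` on every arithmetic progression, with error `O(N ^ δ)`, `δ < 1`, where
  `δ` depends only on `q` and `m`;
* `gelfond_digit_density`: the corresponding densities;
* `thue_morse_balanced`: binary digit sums are even and odd equally often on every progression.
-/

set_option autoImplicit false

noncomputable section

open Filter

namespace FA.Summary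

/-- **Gelfond's theorem.** -/
theorem gelfond_digit_sums {q m : ℕ} (hq : 2 ≤ q) (hm : 0 < m) (hcop : Nat.Coprime m (q - 1)) :
    ∃ δ : ℝ, 0 < δ ∧ δ < 1 ∧ ∀ r : ℕ, 0 < r → ∀ a b : ℕ, ∃ C : ℝ, ∀ N : ℕ,
      |(((Finset.range N).filter fun n => n % r = a % r ∧
          (Nat.digits q n).sum % m = b % m).card : ℝ) - (N : ℝ) / ((r : ℝ) * m)| ≤
        C * (N : ℝ) ^ δ :=
  FA.DigitSums.gelfond hq hm hcop

/-- **The densities.** -/
theorem gelfond_digit_density {q m : ℕ} (hq : 2 ≤ q) (hm : 0 < m) (hcop : Nat.Coprime m (q - 1))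
    {r : ℕ} (hr : 0 < r) (a b : ℕ) :
    Tendsto (fun N : ℕ => (((Finset.range N).filter fun n => n % r = a % r ∧
        (Nat.digits q n).sum % m = b % m).card : ℝ) / N) atTop (nhds (1 / ((r : ℝ) * m))) :=
  FA.DigitSums.tendsto_density hq hm hcop hr a b

/-- **The Thue–Morse sequence is balanced on every progression.** -/
theorem thue_morse_balanced {r : ℕ} (hr : 0 < r) (a : ℕ) :
    Tendsto (fun N : ℕ => (((Finset.range N).filter fun n => n % r = a % r ∧
        Even (Nat.digits 2 n).sum).card : ℝ) / N) atTop (nhds (1 / (2 * (r : ℝ)))) := by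
  have h := gelfond_digit_density (q := 2) (m := 2) le_rfl two_pos (by norm_num) hr a 0
  simpa [Nat.even_iff, mul_comm] using h

end FA.Summary

end
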