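import Fermat.Agent.GelfondGauss.Main

/-!
# Gelfond's theorem on Gaussian integers (1929)

* `gelfond_gaussian`: for some `a > 0` every entire `f` with `‖f z‖ ≤ C exp (a ‖z‖²)` and Gaussian
  integer values at all Gaussian integers is a polynomial;
* `gelfond_gaussian_exponential`: so is every such `f` of exponential type, whatever the type;
* `gelfond_gaussian_uniqueness`: with zeros at all Gaussian integers it is `0`.

The constant is not the best possible. Independent of S01.
-/

set_option autoImplicit false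

noncomputable section

namespace FA.GelfondGauss.Summary

/-- **Gelfond's theorem.** -/
theorem gelfond_gaussian : ∃ a : ℝ, 0 < a ∧ ∀ (f : ℂ → ℂ) (C : ℝ), Differentiable ℂ f →
    (∀ z, ‖f z‖ ≤ C * Real.exp (a * ‖z‖ ^ 2)) →
    (∀ u : GaussianInt, ∃ v : GaussianInt, f (u : ℂ) = (v : ℂ)) →
    ∃ P : Polynomial ℂ, ∀ z, f z = P.eval z :=
  ⟨gelfondType, gelfondType_pos, fun _ _ hf hC hint => isPolynomial hf hC hint⟩

/-- Every exponential type is allowed. -/
theorem gelfond_gaussian_exponential {f : ℂ → ℂ} {C b : ℝ} (hf : Differentiable ℂ f)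
    (hC : ∀ z, ‖f z‖ ≤ C * Real.exp (b * ‖z‖))
    (hint : ∀ u : GaussianInt, ∃ v : GaussianInt, f (u : ℂ) = (v : ℂ)) :
    ∃ P : Polynomial ℂ, ∀ z, f z = P.eval z := by
  have hC0 : 0 ≤ C := by
    have := (norm_nonneg _).trans (hC 0)
    simpa using this
  refine isPolynomial (C := C * Real.exp (b ^ 2 / (4 * gelfondType))) hf (fun z => ?_) hint
  rw [mul_assoc, ← Real.exp_add]
  refine (hC z).trans (mul_le_mul_of_nonneg_left (Real.exp_le_exp.2 ?_) hC0)
  have ha := gelfondType_pos
  rw [div_add' _ _ _ (by positivity), le_div_iff₀ (by positivity)]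
  nlinarith [sq_nonneg (2 * gelfondType * ‖z‖ - b)]

/-- Uniqueness. -/
theorem gelfond_gaussian_uniqueness : ∃ a : ℝ, 0 < a ∧ ∀ (g : ℂ → ℂ) (C : ℝ), Differentiable ℂ g →
    (∀ z, ‖g z‖ ≤ C * Real.exp (a * ‖z‖ ^ 2)) → (∀ u : GaussianInt, g (u : ℂ) = 0) → g = 0 :=
  ⟨2 * gelfondType, mul_pos two_pos gelfondType_pos,
    fun _ _ hg hC h0 => funext (eq_zero_of_zeros hg hC h0)⟩

end FA.GelfondGauss.Summary

end
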