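import Fermat.Agent.Transcendence.GelfondSchneider
import Mathlib.Analysis.SpecialFunctions.Complex.Log
import Mathlib.Analysis.SpecialFunctions.Pow.Real
import Mathlib.NumberTheory.Real.Irrational

/-!
# The Gelfond–Schneider theorem (Hilbert's seventh problem)

* `gelfond_schneider`: `a ^ β` is transcendental for algebraic `a ≠ 0, 1` and algebraic irrational
  `β`; `gelfond_schneider_exp`: for any determination of the logarithm.
* `transcendental_two_rpow_sqrt_two`, `transcendental_exp_pi`, `transcendental_exp_pi_sqrt`: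
  `2 ^ √2`, `e ^ π` and all `e ^ (π √n)`, so Ramanujan's constant `e ^ (π √163)`
  (`transcendental_exp_pi_sqrt_163`).
* `transcendental_q_parameter`: `exp (2 π i τ)` at an algebraic irrational `τ`, in particular
  (`transcendental_q_imaginary_quadratic`) at every imaginary quadratic point.
* `log_div_log_rational_or_transcendental`: `log a / log b` is rational or transcendental.
-/

set_option autoImplicit false
set_option linter.style.haveILetI false

noncomputable section

open scoped Real

namespace FA.Summary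

/-- **Gelfond–Schneider**, for any logarithm. -/
theorem gelfond_schneider_exp {L β : ℂ} (hL : L ≠ 0) (hβ : IsAlgebraic ℚ β)
    (hirr : ∀ r : ℚ, β ≠ r) (ha : IsAlgebraic ℚ (Complex.exp L)) :
    Transcendental ℚ (Complex.exp (β * L)) :=
  FA.GelfondSchneider.transcendental_exp_mul hL hβ hirr ha

/-- **Gelfond–Schneider**: the solution of Hilbert's seventh problem. -/
theorem gelfond_schneider {a β : ℂ} (ha0 : a ≠ 0) (ha1 : a ≠ 1) (ha : IsAlgebraic ℚ a)
    (hβ : IsAlgebraic ℚ β) (hirr : ∀ r : ℚ, β ≠ r) : Transcendental ℚ (a ^ β) := by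
  rw [Complex.cpow_def_of_ne_zero ha0, mul_comm]
  exact gelfond_schneider_exp (fun h => ha1 (by rw [← Complex.exp_log ha0, h, Complex.exp_zero]))
    hβ hirr (by rwa [Complex.exp_log ha0])

/-- The Gelfond–Schneider constant. -/
theorem transcendental_two_rpow_sqrt_two : Transcendental ℚ ((2 : ℝ) ^ √(2 : ℝ)) := by
  intro h
  have hs : IsAlgebraic ℚ ((√(2 : ℝ) : ℝ) : ℂ) := (IsIntegral.of_pow two_pos (by
    rw [← Complex.ofReal_pow, Real.sq_sqrt two_pos.le]
    exact_mod_cast (isIntegral_algebraMap (R := ℚ) (A := ℂ) (x := (2 : ℚ))))).isAlgebraic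
  have h2 : IsAlgebraic ℚ (((2 : ℝ) ^ √(2 : ℝ) : ℝ) : ℂ) := h.algebraMap (A := ℂ)
  rw [Complex.ofReal_cpow two_pos.le, Complex.ofReal_ofNat] at h2
  exact gelfond_schneider two_ne_zero (by norm_num)
    (by exact_mod_cast isAlgebraic_algebraMap (R := ℚ) (A := ℂ) (2 : ℚ)) hs
    (fun r e => irrational_sqrt_two ⟨r, by exact_mod_cast e.symm⟩) h2

/-- `e ^ (π √n)` is transcendental. -/
theorem transcendental_exp_pi_sqrt {n : ℕ} (hn : 0 < n) :
    Transcendental ℚ (Real.exp (π * √(n : ℝ))) := by
  intro h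
  have hI : IsAlgebraic ℚ Complex.I :=
    (IsIntegral.of_pow two_pos (by rw [Complex.I_sq]; exact isIntegral_one.neg)).isAlgebraic
  have hs : IsAlgebraic ℚ ((√(n : ℝ) : ℝ) : ℂ) := (IsIntegral.of_pow two_pos (by
    rw [← Complex.ofReal_pow, Real.sq_sqrt (Nat.cast_nonneg n)]
    exact_mod_cast (isIntegral_algebraMap (R := ℚ) (A := ℂ) (x := (n : ℚ))))).isAlgebraic
  refine gelfond_schneider_exp (L := (π : ℂ) * Complex.I)
    (mul_ne_zero (Complex.ofReal_ne_zero.2 Real.pi_ne_zero) Complex.I_ne_zero)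
    (hI.neg.mul hs) (fun r e => ?_) (by rw [Complex.exp_pi_mul_I]; exact isAlgebraic_one.neg) ?_
  · have him := congrArg Complex.im e
    simp at him
    omega
  · rw [show -Complex.I * ((√(n : ℝ) : ℝ) : ℂ) * ((π : ℂ) * Complex.I) =
      ((π * √(n : ℝ) : ℝ) : ℂ) by
        push_cast; linear_combination -((π : ℂ) * ((√(n : ℝ) : ℝ) : ℂ)) * Complex.I_sq,
      ← Complex.ofReal_exp]
    exact h.algebraMap (A := ℂ)

/-- **Gelfond**: `e ^ π` is transcendental. -/
theorem transcendental_exp_pi : Transcendental ℚ (Real.exp π) := by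
  simpa using transcendental_exp_pi_sqrt one_pos

/-- Ramanujan's constant is transcendental. -/
theorem transcendental_exp_pi_sqrt_163 : Transcendental ℚ (Real.exp (π * √(163 : ℝ))) := by
  simpa using transcendental_exp_pi_sqrt (n := 163) (by norm_num)

/-- **The nome at an algebraic irrational point.** -/
theorem transcendental_q_parameter {τ : ℂ} (hτ : IsAlgebraic ℚ τ) (hirr : ∀ r : ℚ, τ ≠ r) :
    Transcendental ℚ (Complex.exp (2 * (π : ℂ) * Complex.I * τ)) := by
  rw [mul_comm _ τ]
  exact gelfond_schneider_exp (by simp) hτ hirr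
    (by rw [Complex.exp_two_pi_mul_I]; exact isAlgebraic_one)

/-- **The nome at an imaginary quadratic point.** -/
theorem transcendental_q_imaginary_quadratic {τ : ℂ} (him : τ.im ≠ 0) {a b c : ℤ} (ha : a ≠ 0)
    (h : (a : ℂ) * τ ^ 2 + b * τ + c = 0) :
    Transcendental ℚ (Complex.exp (2 * (π : ℂ) * Complex.I * τ)) := by
  refine transcendental_q_parameter ⟨Polynomial.C (a : ℚ) * Polynomial.X ^ 2 +
    Polynomial.C (b : ℚ) * Polynomial.X + Polynomial.C (c : ℚ), fun h0 => ?_, by simpa using h⟩
    fun r e => him (by simp [e])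
  have h2 := congrArg (fun p => Polynomial.coeff p 2) h0
  simp only [Polynomial.coeff_add, Polynomial.coeff_C_mul_X_pow, Polynomial.coeff_C_mul_X,
    Polynomial.coeff_C, Polynomial.coeff_zero] at h2
  simp at h2
  exact ha h2

/-- **Ratios of logarithms.** -/
theorem log_div_log_rational_or_transcendental {a b : ℝ} (ha : 0 < a) (hb : 0 < b) (hb1 : b ≠ 1)
    (haalg : IsAlgebraic ℚ a) (hbalg : IsAlgebraic ℚ b) :
    (∃ r : ℚ, Real.log a / Real.log b = r) ∨ Transcendental ℚ (Real.log a / Real.log b) := by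
  refine or_iff_not_imp_left.2 fun hne h => ?_
  push Not at hne
  have hlb : Real.log b ≠ 0 := Real.log_ne_zero_of_pos_of_ne_one hb hb1
  refine gelfond_schneider_exp (L := ((Real.log b : ℝ) : ℂ)) (Complex.ofReal_ne_zero.2 hlb)
    (h.algebraMap (A := ℂ)) (fun r e => hne r ?_) ?_ ?_
  · rw [Complex.coe_algebraMap, ← Complex.ofReal_ratCast] at e
    exact Complex.ofReal_injective e
  · rw [← Complex.ofReal_exp, Real.exp_log hb]
    exact hbalg.algebraMap (A := ℂ)
  · rw [show ((algebraMap ℝ ℂ) (Real.log a / Real.log b)) * ((Real.log b : ℝ) : ℂ) =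
      ((Real.log a / Real.log b * Real.log b : ℝ) : ℂ) by simp, div_mul_cancel₀ _ hlb,
      ← Complex.ofReal_exp, Real.exp_log ha]
    exact haalg.algebraMap (A := ℂ)

end FA.Summary

end
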