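import Fermat.Agent.TsfasmanVladut.Splitting

/-!
# The basic inequality of Tsfasman and Vlăduţ

For a number field let `g = log √|d|`, `r₁`, `r₂` its numbers of real and complex places and `N_q`
the number of its prime ideals of norm `q` (`placeCount`; `N_p = n` says that `p` splits
completely). For every `σ > 1` and finite set of `q`
`∑ N_q log q / (q^σ - 1) + r₁ (log π - ψ(σ/2))/2 + r₂ (log 2π - ψ σ) ≤ g + 1/σ + 1/(σ - 1)`;
along a sequence with `g → ∞` and `N_q/g → φ q`, `r₁/g → φR`, `r₂/g → φC` one gets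
`∑ φ q log q / (q - 1) + φR (log 2√π + γ/2) + φC (log 2π + γ) ≤ 1`, the series converging. Every
sequence with `g → ∞` has such a subsequence, and there is one with `φR > 0`. So split primes
raise Odlyzko's bound for root discriminants.

The inequality on the Riemann hypothesis, with `log q / (√q - 1)`, is not claimed.
-/

set_option autoImplicit false

noncomputable section

universe u

open NumberField InfinitePlace Module Filter Topology IsDedekindDomain Ideal FA.TsfasmanVladut
open Real (eulerMascheroniConstant)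
open scoped Real

namespace FA.TsfasmanVladut.Summary

/-- The quantities: places of norm `q`, at most `n` of them, and `g`. -/
theorem quantities_spec (K : Type u) [Field K] [NumberField K] (q : ℕ) :
    {v : HeightOneSpectrum (𝓞 K) | absNorm v.asIdeal = q}.Finite ∧
      placeCount K q = {v : HeightOneSpectrum (𝓞 K) | absNorm v.asIdeal = q}.ncard ∧
      placeCount K q ≤ finrank ℚ K ∧
      logGenus K = Real.log ((discr K).natAbs : ℝ) / 2 :=
  ⟨finite_places_norm K q, rfl, placeCount_le K q, rfl⟩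

/-- **The inequality for one field.** -/
theorem finite_inequality (K : Type u) [Field K] [NumberField K] {σ : ℝ} (hσ : 1 < σ)
    (S : Finset ℕ) :
    (∑ q ∈ S, (placeCount K q : ℝ) * (Real.log q / ((q : ℝ) ^ σ - 1))) +
      (nrRealPlaces K * ((Real.log π - (Complex.digamma ((σ : ℂ) / 2)).re) / 2) +
        nrComplexPlaces K * (Real.log (2 * π) - (Complex.digamma (σ : ℂ)).re)) ≤
      Real.log ((discr K).natAbs : ℝ) / 2 + 1 / σ + 1 / (σ - 1) :=
  lhsAt_le K hσ S

/-- **The basic inequality**, for finitely many norms and as a convergent series. -/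
theorem basic_inequality (F : ℕ → Type u) [∀ i, Field (F i)] [∀ i, NumberField (F i)]
    {φ : ℕ → ℝ} {φR φC : ℝ} (hg : Tendsto (fun i => logGenus (F i)) atTop atTop)
    (hφ : ∀ q, Tendsto (fun i => (placeCount (F i) q : ℝ) / logGenus (F i)) atTop (𝓝 (φ q)))
    (hR : Tendsto (fun i => (nrRealPlaces (F i) : ℝ) / logGenus (F i)) atTop (𝓝 φR))
    (hC : Tendsto (fun i => (nrComplexPlaces (F i) : ℝ) / logGenus (F i)) atTop (𝓝 φC)) :
    (∀ S : Finset ℕ, (∑ q ∈ S, φ q * (Real.log q / ((q : ℝ) - 1))) +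
        (φR * (Real.log (2 * √π) + eulerMascheroniConstant / 2) +
          φC * (Real.log (2 * π) + eulerMascheroniConstant)) ≤ 1) ∧
      Summable (fun q : ℕ => φ q * (Real.log q / ((q : ℝ) - 1))) ∧
      (∑' q : ℕ, φ q * (Real.log q / ((q : ℝ) - 1))) +
        (φR * (Real.log (2 * √π) + eulerMascheroniConstant / 2) +
          φC * (Real.log (2 * π) + eulerMascheroniConstant)) ≤ 1 := by
  have h : RatiosTend F φ φR φC := ⟨hφ, hR, hC⟩
  have e : ∀ q : ℕ, placeWeight 1 q = Real.log q / ((q : ℝ) - 1) := fun q => by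
    rw [placeWeight, Real.rpow_one]
  have h1 := h.sum_le hg
  obtain ⟨h2, h3⟩ := h.basic_inequality hg
  simp only [e, realRate_one, complexRate_one] at h1 h2 h3
  exact ⟨h1, h2, h3⟩

/-- Degrees tending to infinity suffice for `g → ∞`. -/
theorem genus_tendsto (F : ℕ → Type u) [∀ i, Field (F i)] [∀ i, NumberField (F i)]
    (h : Tendsto (fun i => finrank ℚ (F i)) atTop atTop) :
    Tendsto (fun i => logGenus (F i)) atTop atTop :=
  tendsto_logGenus_of_degree F h

/-- **Every sequence with `g → ∞` has a subsequence whose ratios converge.** -/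
theorem exists_subsequence (F : ℕ → Type u) [∀ i, Field (F i)] [∀ i, NumberField (F i)]
    (hg : Tendsto (fun i => logGenus (F i)) atTop atTop) :
    ∃ (ψ : ℕ → ℕ) (φ : ℕ → ℝ) (φR φC : ℝ), StrictMono ψ ∧
      (∀ q, Tendsto (fun i => (placeCount (F (ψ i)) q : ℝ) / logGenus (F (ψ i))) atTop
        (𝓝 (φ q))) ∧
      Tendsto (fun i => (nrRealPlaces (F (ψ i)) : ℝ) / logGenus (F (ψ i))) atTop (𝓝 φR) ∧
      Tendsto (fun i => (nrComplexPlaces (F (ψ i)) : ℝ) / logGenus (F (ψ i))) atTop (𝓝 φC) := by
  obtain ⟨ψ, φ, φR, φC, hψ, h⟩ := exists_subseq_ratios hg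
  exact ⟨ψ, φ, φR, φC, hψ, h.finite, h.real, h.complex⟩

/-- **An asymptotically good sequence exists**: all limits exist and `φR > 0`. -/
theorem exists_asymptotically_good :
    ∃ (L : ℕ → IntermediateField ℚ (AlgebraicClosure ℚ)) (_ : ∀ i, NumberField (L i))
      (φ : ℕ → ℝ) (φR φC : ℝ), Tendsto (fun i => logGenus (L i)) atTop atTop ∧
        (∀ q, Tendsto (fun i => (placeCount (L i) q : ℝ) / logGenus (L i)) atTop (𝓝 (φ q))) ∧
        Tendsto (fun i => (nrRealPlaces (L i) : ℝ) / logGenus (L i)) atTop (𝓝 φR) ∧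
        Tendsto (fun i => (nrComplexPlaces (L i) : ℝ) / logGenus (L i)) atTop (𝓝 φC) ∧ 0 < φR := by
  obtain ⟨L, hL, φ, φR, φC, hg, h, hpos⟩ := exists_good_sequence
  exact ⟨L, hL, φ, φR, φC, hg, h.finite, h.real, h.complex, hpos⟩

/-- **Odlyzko's bound raised by the primes that split completely.** -/
theorem rootDiscriminant_split (S : Finset ℕ) {ε : ℝ} (hε : 0 < ε) :
    ∃ N : ℕ, ∀ (K : Type u) [Field K] [NumberField K], N ≤ finrank ℚ K →
      (∀ p ∈ S, placeCount K p = finrank ℚ K) →
      2 * (∑ p ∈ S, Real.log p / ((p : ℝ) - 1)) +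
          (nrRealPlaces K * (Real.log (4 * π) + eulerMascheroniConstant) +
            2 * nrComplexPlaces K * (Real.log (2 * π) + eulerMascheroniConstant)) / finrank ℚ K -
          ε ≤ Real.log ((discr K).natAbs : ℝ) / finrank ℚ K :=
  exists_log_rootDiscr_ge_split S hε

/-- **Few primes split completely in fields of bounded root discriminant.** -/
theorem split_primes_bound {c : ℝ} (S : Finset ℕ)
    (h : ∀ B : ℕ, ∃ (K : Type u) (_ : Field K) (_ : NumberField K), B < finrank ℚ K ∧
      (∀ p ∈ S, placeCount K p = finrank ℚ K) ∧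
      |((discr K : ℤ) : ℝ)| ^ ((finrank ℚ K : ℝ)⁻¹) ≤ c) :
    2 * (∑ p ∈ S, Real.log p / ((p : ℝ) - 1)) + Real.log (2 * π) + eulerMascheroniConstant ≤
      Real.log c :=
  sum_split_le S h

end FA.TsfasmanVladut.Summary

end
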