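import Fermat.Agent.GeneralBrauerSiegel.Asymptotic
import Fermat.Agent.Root.SummaryTsfasmanVladut

/-!
# The generalised Brauer–Siegel inequality of Tsfasman and Vlăduţ

With `g = log √|d|`, `κ` the residue of `ζ_K` at `1` and `N_q` the number of places of norm `q`:
along a sequence of number fields with `g → ∞` and `N_q/g → φ q`, `r₁/g → φR`, `r₂/g → φC`, for
every `ε > 0` eventually `log κ ≤ (∑ φ q log (q/(q-1)) + ε) g` and
`log (h R) ≤ (1 + ∑ φ q log (q/(q-1)) - φR log 2 - φC log 2π + ε) g`; the series converges. With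
`n/g → 0` the bound is `(1 + ε) g` without a Galois hypothesis, and in every field
`log (h R) ≤ (2 + ε) g + C`.

The opposite inequality (known for almost normal fields or on the Riemann hypothesis) is not
claimed.
-/

set_option autoImplicit false

noncomputable section

universe u

open NumberField InfinitePlace Module Filter Topology FA.TsfasmanVladut FA.GeneralBrauerSiegel
open scoped Real

namespace FA.GeneralBrauerSiegel.Summary

/-- **The residue, uniformly in the field.** -/
theorem residue_uniform {ε : ℝ} (hε : 0 < ε) : ∃ (Q : ℕ) (C : ℝ),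
    ∀ (K : Type u) [Field K] [NumberField K], Real.log (dedekindZeta_residue K) ≤
      (∑ q ∈ Finset.Icc 2 Q, (placeCount K q : ℝ) * Real.log ((q : ℝ) / ((q : ℝ) - 1))) +
        ε * (Real.log ((discr K).natAbs : ℝ) / 2) + C := by
  obtain ⟨Q, C, -, h⟩ := exists_log_residue_le.{u} hε
  exact ⟨Q, C, fun K _ _ => h K⟩

/-- **The residue along a sequence**, with a convergent series. -/
theorem residue_asymptotic (F : ℕ → Type u) [∀ i, Field (F i)] [∀ i, NumberField (F i)]
    {φ : ℕ → ℝ} {φR φC : ℝ} (hg : Tendsto (fun i => logGenus (F i)) atTop atTop)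
    (hφ : ∀ q, Tendsto (fun i => (placeCount (F i) q : ℝ) / logGenus (F i)) atTop (𝓝 (φ q)))
    (hR : Tendsto (fun i => (nrRealPlaces (F i) : ℝ) / logGenus (F i)) atTop (𝓝 φR))
    (hC : Tendsto (fun i => (nrComplexPlaces (F i) : ℝ) / logGenus (F i)) atTop (𝓝 φC)) :
    Summable (fun q : ℕ => φ q * Real.log ((q : ℝ) / ((q : ℝ) - 1))) ∧
      ∀ ε > 0, ∀ᶠ i in atTop, Real.log (dedekindZeta_residue (F i)) ≤
        (∑' q : ℕ, φ q * Real.log ((q : ℝ) / ((q : ℝ) - 1)) + ε) * logGenus (F i) :=
  have h : RatiosTend F φ φR φC := ⟨hφ, hR, hC⟩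
  ⟨summable_loss h hg, fun _ hε => eventually_log_residue_le h hg hε⟩

/-- **The generalised Brauer–Siegel inequality.** -/
theorem class_number_asymptotic (F : ℕ → Type u) [∀ i, Field (F i)] [∀ i, NumberField (F i)]
    {φ : ℕ → ℝ} {φR φC : ℝ} (hg : Tendsto (fun i => logGenus (F i)) atTop atTop)
    (hφ : ∀ q, Tendsto (fun i => (placeCount (F i) q : ℝ) / logGenus (F i)) atTop (𝓝 (φ q)))
    (hR : Tendsto (fun i => (nrRealPlaces (F i) : ℝ) / logGenus (F i)) atTop (𝓝 φR))
    (hC : Tendsto (fun i => (nrComplexPlaces (F i) : ℝ) / logGenus (F i)) atTop (𝓝 φC))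
    {ε : ℝ} (hε : 0 < ε) :
    ∀ᶠ i in atTop, Real.log ((classNumber (F i) : ℝ) * Units.regulator (F i)) ≤
      (1 + ∑' q : ℕ, φ q * Real.log ((q : ℝ) / ((q : ℝ) - 1)) -
        (φR * Real.log 2 + φC * Real.log (2 * π)) + ε) * logGenus (F i) :=
  eventually_log_hR_le ⟨hφ, hR, hC⟩ hg hε

/-- **The upper half of Brauer–Siegel for `n/g → 0`**, with no Galois hypothesis. -/
theorem class_number_small_degree {ι : Type*} {l : Filter ι} (G : ι → Type u) [∀ i, Field (G i)]
    [∀ i, NumberField (G i)] (hg : Tendsto (fun i => logGenus (G i)) l atTop)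
    (hn : Tendsto (fun i => (finrank ℚ (G i) : ℝ) / logGenus (G i)) l (𝓝 0)) {ε : ℝ} (hε : 0 < ε) :
    ∀ᶠ i in l, Real.log ((classNumber (G i) : ℝ) * Units.regulator (G i)) ≤
      (1 + ε) * logGenus (G i) :=
  eventually_log_hR_le_one G hg hn hε

/-- **`log (h R) ≤ (2 + ε) g + C` in every number field**, whatever its degree. -/
theorem class_number_uniform {ε : ℝ} (hε : 0 < ε) : ∃ C : ℝ,
    ∀ (K : Type u) [Field K] [NumberField K],
      Real.log ((classNumber K : ℝ) * Units.regulator K) ≤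
        (2 + ε) * (Real.log ((discr K).natAbs : ℝ) / 2) + C :=
  exists_log_hR_le_two hε

/-- **The inequality applies to an asymptotically good sequence.** -/
theorem exists_good_instance :
    ∃ (L : ℕ → IntermediateField ℚ (AlgebraicClosure ℚ)) (_ : ∀ i, NumberField (L i))
      (φ : ℕ → ℝ) (φR φC : ℝ), 0 < φR ∧ Tendsto (fun i => logGenus (L i)) atTop atTop ∧
        ∀ ε > 0, ∀ᶠ i in atTop, Real.log ((classNumber (L i) : ℝ) * Units.regulator (L i)) ≤
          (1 + ∑' q : ℕ, φ q * Real.log ((q : ℝ) / ((q : ℝ) - 1)) -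
            (φR * Real.log 2 + φC * Real.log (2 * π)) + ε) * logGenus (L i) := by
  obtain ⟨L, hL, φ, φR, φC, hg, hφ, hR, hC, hpos⟩ :=
    FA.TsfasmanVladut.Summary.exists_asymptotically_good
  exact ⟨L, hL, φ, φR, φC, hpos, hg, fun ε hε =>
    class_number_asymptotic (fun i => L i) hg hφ hR hC hε⟩

end FA.GeneralBrauerSiegel.Summary

end
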