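import Fermat.Agent.GeneralBrauerSiegelGRH.Limit
import Fermat.Agent.Root.SummaryGeneralBrauerSiegel

/-!
# The generalised Brauer–Siegel theorem on the Riemann hypothesis

The Riemann hypothesis for `ζ_K` is an argument and is never assumed: every zero `z`,
`0 < re z < 1`, of the entire continuation of `(s - 1) ζ_K` has `re z = 1/2`. With
`g = log √|d|`, `κ` the residue at `1` and `N_q` the number of places of norm `q`: for all `Q` and
`ε > 0` there is `C` with `log κ ≥ ∑_{q ≤ Q} N_q log (q/(q-1)) - ε g - C` for every such field; so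
along such fields with `g → ∞`, `N_q/g → φ q`, `r₁/g → φR`, `r₂/g → φC` one has
`log κ / g → ∑ φ q log (q/(q-1))` and
`log (h R) / g → 1 + ∑ φ q log (q/(q-1)) - φR log 2 - φC log 2π`, which is `1` if `n/g → 0`.

The unconditional case of almost normal fields is not claimed.
-/

set_option autoImplicit false

noncomputable section

universe u

open NumberField InfinitePlace Module Filter Topology
open FA.TsfasmanVladut FA.GeneralBrauerSiegelGRH
open scoped Real

namespace FA.GeneralBrauerSiegelGRH.Summary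

private theorem rhFor_of {K : Type u} [Field K] [NumberField K]
    (h : ∀ E : ℂ → ℂ, Differentiable ℂ E →
      (∀ s : ℂ, 1 < s.re → E s = (s - 1) * dedekindZeta K s) →
        ∀ z : ℂ, E z = 0 → 0 < z.re → z.re < 1 → z.re = 1 / 2) :
    FA.DedekindHadamard.RHFor K :=
  h _ (FA.DedekindZeroCount.differentiable_cleared K)
    fun _ hs => FA.DedekindZeroCount.cleared_spec K hs

/-- **The residue from below, uniformly in the field.** -/
theorem residue_lower (Q : ℕ) {ε : ℝ} (hε : 0 < ε) : ∃ C : ℝ,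
    ∀ (K : Type u) [Field K] [NumberField K] (E : ℂ → ℂ), Differentiable ℂ E →
      (∀ s : ℂ, 1 < s.re → E s = (s - 1) * dedekindZeta K s) →
      (∀ z : ℂ, E z = 0 → 0 < z.re → z.re < 1 → z.re = 1 / 2) →
      (∑ q ∈ Finset.Icc 2 Q, (placeCount K q : ℝ) * Real.log ((q : ℝ) / ((q : ℝ) - 1))) -
          ε * (Real.log ((discr K).natAbs : ℝ) / 2) - C ≤
        Real.log (dedekindZeta_residue K) := by
  obtain ⟨C, -, h⟩ := exists_log_residue_ge.{u} Q hε
  refine ⟨C, fun K _ _ E hE hEL hz => h K ?_⟩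
  obtain rfl := FA.DedekindZeroCount.eq_cleared K hE hEL
  exact hz

/-- **The residue: the limit.** -/
theorem residue_limit (F : ℕ → Type u) [∀ i, Field (F i)] [∀ i, NumberField (F i)]
    (hRH : ∀ i, ∀ E : ℂ → ℂ, Differentiable ℂ E →
      (∀ s : ℂ, 1 < s.re → E s = (s - 1) * dedekindZeta (F i) s) →
        ∀ z : ℂ, E z = 0 → 0 < z.re → z.re < 1 → z.re = 1 / 2)
    {φ : ℕ → ℝ} {φR φC : ℝ} (hg : Tendsto (fun i => logGenus (F i)) atTop atTop)
    (hφ : ∀ q, Tendsto (fun i => (placeCount (F i) q : ℝ) / logGenus (F i)) atTop (𝓝 (φ q)))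
    (hR : Tendsto (fun i => (nrRealPlaces (F i) : ℝ) / logGenus (F i)) atTop (𝓝 φR))
    (hC : Tendsto (fun i => (nrComplexPlaces (F i) : ℝ) / logGenus (F i)) atTop (𝓝 φC)) :
    Summable (fun q : ℕ => φ q * Real.log ((q : ℝ) / ((q : ℝ) - 1))) ∧
      Tendsto (fun i => Real.log (dedekindZeta_residue (F i)) / logGenus (F i)) atTop
        (𝓝 (∑' q : ℕ, φ q * Real.log ((q : ℝ) / ((q : ℝ) - 1)))) :=
  have h : RatiosTend F φ φR φC := ⟨hφ, hR, hC⟩
  ⟨FA.GeneralBrauerSiegel.summable_loss h hg,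
    tendsto_log_residue h hg fun i => rhFor_of (hRH i)⟩

/-- **The generalised Brauer–Siegel theorem.** -/
theorem class_number_limit (F : ℕ → Type u) [∀ i, Field (F i)] [∀ i, NumberField (F i)]
    (hRH : ∀ i, ∀ E : ℂ → ℂ, Differentiable ℂ E →
      (∀ s : ℂ, 1 < s.re → E s = (s - 1) * dedekindZeta (F i) s) →
        ∀ z : ℂ, E z = 0 → 0 < z.re → z.re < 1 → z.re = 1 / 2)
    {φ : ℕ → ℝ} {φR φC : ℝ} (hg : Tendsto (fun i => logGenus (F i)) atTop atTop)
    (hφ : ∀ q, Tendsto (fun i => (placeCount (F i) q : ℝ) / logGenus (F i)) atTop (𝓝 (φ q)))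
    (hR : Tendsto (fun i => (nrRealPlaces (F i) : ℝ) / logGenus (F i)) atTop (𝓝 φR))
    (hC : Tendsto (fun i => (nrComplexPlaces (F i) : ℝ) / logGenus (F i)) atTop (𝓝 φC)) :
    Tendsto (fun i => Real.log ((classNumber (F i) : ℝ) * Units.regulator (F i)) /
        logGenus (F i)) atTop
      (𝓝 (1 + ∑' q : ℕ, φ q * Real.log ((q : ℝ) / ((q : ℝ) - 1)) -
        (φR * Real.log 2 + φC * Real.log (2 * π)))) :=
  tendsto_log_hR ⟨hφ, hR, hC⟩ hg fun i => rhFor_of (hRH i)

/-- **`n/g → 0`: the limit is `1`, with no Galois hypothesis.** -/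
theorem class_number_limit_one {ι : Type*} {l : Filter ι} (G : ι → Type u) [∀ i, Field (G i)]
    [∀ i, NumberField (G i)]
    (hRH : ∀ i, ∀ E : ℂ → ℂ, Differentiable ℂ E →
      (∀ s : ℂ, 1 < s.re → E s = (s - 1) * dedekindZeta (G i) s) →
        ∀ z : ℂ, E z = 0 → 0 < z.re → z.re < 1 → z.re = 1 / 2)
    (hg : Tendsto (fun i => logGenus (G i)) l atTop)
    (hn : Tendsto (fun i => (finrank ℚ (G i) : ℝ) / logGenus (G i)) l (𝓝 0)) :
    Tendsto (fun i => Real.log ((classNumber (G i) : ℝ) * Units.regulator (G i)) /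
        logGenus (G i)) l (𝓝 1) :=
  tendsto_log_hR_one G hg hn fun i => rhFor_of (hRH i)

end FA.GeneralBrauerSiegelGRH.Summary

end
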