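import Fermat.Agent.PrimitivePoint.Density
import Fermat.Agent.Root.SummaryOpenImageJ
import Fermat.Agent.Root.SummaryReducedGroups
import Fermat.Agent.Root.SummaryBashmakovFamily

/-!
# Generating `E(𝔽_q)` by given points: the local factors of Gupta and Murty

For a finite set `S` of odd primes such that Galois induces every automorphism of the torsion at
their product, and `r` rational points independent modulo each of them, the primes `q` at which the
index of the subgroup the points generate in `E(𝔽_q)` is prime to all of `S` have Dirichlet density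
`∏ (1 - (p²ʳ - (pʳ-1)(pʳ-p) + (p³-2p-1) pʳ) / ((p²-1)(p²-p) p²ʳ))`; the primes at which they
generate the whole group are among them.
-/

set_option autoImplicit false
set_option linter.style.haveILetI false

noncomputable section

open WeierstrassCurve WeierstrassCurve.Affine NumberField IsDedekindDomain FA.Frob
open scoped WeierstrassCurve.Affine

local notation "Qb" => AlgebraicClosure ℚ
local notation "GQ" => AlgebraicClosure ℚ ≃ₐ[ℚ] AlgebraicClosure ℚ

namespace FA.Summary

open FA.PrimitivePoint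

/-- **The local factors for a subgroup of rank `r`** (Gupta–Murty). -/
theorem generatorsDensity (W : WeierstrassCurve ℤ) (hΔ : W.Δ ≠ 0)
    [inst : DecidableEq (AlgebraicClosure ℚ)] (S : Finset ℕ) (hS : ∀ p ∈ S, p.Prime ∧ p ≠ 2)
    (hfull : ∀ φ : Submodule.torsionBy ℤ
          ((W.map (Int.castRingHom ℚ)).toAffine⁄(AlgebraicClosure ℚ)).Point
          ((∏ p ∈ S, p : ℕ) : ℤ) ≃+
        Submodule.torsionBy ℤ ((W.map (Int.castRingHom ℚ)).toAffine⁄(AlgebraicClosure ℚ)).Point
          ((∏ p ∈ S, p : ℕ) : ℤ),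
      ∃ σ : GQ, ∀ T, Affine.Point.map σ.toAlgHom T.1 = (φ T).1)
    {ι : Type} [Fintype ι] {x y : ι → ℚ}
    (h : ∀ i, (W.map (Int.castRingHom ℚ)).toAffine.Nonsingular (x i) (y i))
    (hP : ∀ p ∈ S, ∀ a : ι → ℤ, (∃ i, ¬ ((p : ℕ) : ℤ) ∣ a i) →
      ∀ R : (W.map (Int.castRingHom ℚ)).toAffine.Point,
        p • R ≠ ∑ i, a i • Affine.Point.some (x i) (y i) (h i)) :
    Set.HasDirichletDensity {v : HeightOneSpectrum (𝓞 ℚ) |
      ∃ _ : Fact (Ideal.absNorm v.asIdeal).Prime,
      ∃ h : ∀ i, (W.map (Int.castRingHom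
          (ZMod (Ideal.absNorm v.asIdeal)))).toAffine.Nonsingular
        (x i : ZMod (Ideal.absNorm v.asIdeal)) (y i),
      ∀ p ∈ S, ¬ p ∣ (AddSubgroup.closure (Set.range fun i =>
        Affine.Point.some (x i : ZMod (Ideal.absNorm v.asIdeal)) _ (h i))).index}
      (∏ p ∈ S, (1 - (((p : ℝ) ^ Fintype.card ι) ^ 2 -
          ((p : ℝ) ^ Fintype.card ι - 1) * ((p : ℝ) ^ Fintype.card ι - p) +
          ((p : ℝ) ^ 3 - 2 * p - 1) * (p : ℝ) ^ Fintype.card ι) /
        (((p : ℝ) ^ 2 - 1) * ((p : ℝ) ^ 2 - p) * ((p : ℝ) ^ Fintype.card ι) ^ 2))) := by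
  obtain rfl : inst = instDecEqAlgebraicClosureRat := Subsingleton.elim _ _
  haveI := FA.Frob.ratCurve_isElliptic_of_Δ hΔ
  exact hasDirichletDensity_not_dvd_index hS hfull h hP

/-- **The primes at which the points generate** are among those counted, for every set of primes. -/
theorem generators_subset (W : WeierstrassCurve ℤ) {ι : Type} (x y : ι → ℚ) (S : Finset ℕ)
    (hS : ∀ p ∈ S, p.Prime) :
    {v : HeightOneSpectrum (𝓞 ℚ) | ∃ _ : Fact (Ideal.absNorm v.asIdeal).Prime,
      ∃ h : ∀ i, (W.map (Int.castRingHom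
          (ZMod (Ideal.absNorm v.asIdeal)))).toAffine.Nonsingular
        (x i : ZMod (Ideal.absNorm v.asIdeal)) (y i),
      AddSubgroup.closure (Set.range fun i =>
        Affine.Point.some (x i : ZMod (Ideal.absNorm v.asIdeal)) _ (h i)) = ⊤} ⊆
    {v : HeightOneSpectrum (𝓞 ℚ) | ∃ _ : Fact (Ideal.absNorm v.asIdeal).Prime,
      ∃ h : ∀ i, (W.map (Int.castRingHom
          (ZMod (Ideal.absNorm v.asIdeal)))).toAffine.Nonsingular
        (x i : ZMod (Ideal.absNorm v.asIdeal)) (y i),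
      ∀ p ∈ S, ¬ p ∣ (AddSubgroup.closure (Set.range fun i =>
        Affine.Point.some (x i : ZMod (Ideal.absNorm v.asIdeal)) _ (h i))).index} := by
  rintro v ⟨hq, h, htop⟩
  refine ⟨hq, h, fun p hp hd => (hS p hp).not_dvd_one ?_⟩
  rwa [htop, AddSubgroup.index_top] at hd

/-- **All finite sets of large primes**: for independent points, if `j` has a pole those densities
hold for all finite sets of primes beyond some bound. -/
theorem generatorsDensity_large (W : WeierstrassCurve ℤ)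
    [(W.map (Int.castRingHom ℚ)).IsElliptic]
    (hj : ∃ q : ℕ, q.Prime ∧ padicValRat q (W.map (Int.castRingHom ℚ)).j < 0)
    [inst : DecidableEq (AlgebraicClosure ℚ)] {ι : Type} [Fintype ι] {x y : ι → ℚ}
    (h : ∀ i, (W.map (Int.castRingHom ℚ)).toAffine.Nonsingular (x i) (y i))
    (hP : LinearIndependent ℤ fun i => Affine.Point.some (x i) (y i) (h i)) :
    ∃ M : ℕ, ∀ S : Finset ℕ, (∀ p ∈ S, p.Prime ∧ M < p) →
    Set.HasDirichletDensity {v : HeightOneSpectrum (𝓞 ℚ) |
      ∃ _ : Fact (Ideal.absNorm v.asIdeal).Prime,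
      ∃ h : ∀ i, (W.map (Int.castRingHom
          (ZMod (Ideal.absNorm v.asIdeal)))).toAffine.Nonsingular
        (x i : ZMod (Ideal.absNorm v.asIdeal)) (y i),
      ∀ p ∈ S, ¬ p ∣ (AddSubgroup.closure (Set.range fun i =>
        Affine.Point.some (x i : ZMod (Ideal.absNorm v.asIdeal)) _ (h i))).index}
      (∏ p ∈ S, (1 - (((p : ℝ) ^ Fintype.card ι) ^ 2 -
          ((p : ℝ) ^ Fintype.card ι - 1) * ((p : ℝ) ^ Fintype.card ι - p) +
          ((p : ℝ) ^ 3 - 2 * p - 1) * (p : ℝ) ^ Fintype.card ι) /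
        (((p : ℝ) ^ 2 - 1) * ((p : ℝ) ^ 2 - p) * ((p : ℝ) ^ Fintype.card ι) ^ 2))) := by
  obtain rfl : inst = instDecEqAlgebraicClosureRat := Subsingleton.elim _ _
  have hΔ : W.Δ ≠ 0 := fun h0 => (W.map (Int.castRingHom ℚ)).isUnit_Δ.ne_zero (by simp [h0])
  obtain ⟨m, hm, key⟩ := serreOpenImage_adelic_of_pole (W.map (Int.castRingHom ℚ)) hj
  haveI := FA.MordellWeil.mordell (W.map (Int.castRingHom ℚ))
  obtain ⟨B, hB⟩ := FA.LinearDependence.exists_bound_independent_family hP
  refine ⟨m + B + 2, fun S hS => ?_⟩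
  refine generatorsDensity W hΔ S
    (fun p hp => ⟨(hS p hp).1, by have := (hS p hp).2; omega⟩) (fun φ => ?_) h
    (fun p hp => hB p (hS p hp).1 (by have := (hS p hp).2; omega))
  refine key _ (Finset.prod_ne_zero_iff.mpr fun p hp => (hS p hp).1.ne_zero) φ fun T hT => ?_
  have hco : Nat.Coprime (∏ p ∈ S, p) m := Nat.Coprime.prod_left fun p hp =>
    (hS p hp).1.coprime_iff_not_dvd.mpr fun hd => by
      have := Nat.le_of_dvd hm hd
      have := (hS p hp).2
      omega
  have h1 : (∏ p ∈ S, p) • T.1 = 0 := by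
    rw [← natCast_zsmul]
    exact (Submodule.mem_torsionBy_iff _ _).mp T.2
  have h0 : T = 0 := Subtype.ext (AddMonoid.addOrderOf_eq_one_iff.mp (Nat.eq_one_of_dvd_coprimes
    hco (addOrderOf_dvd_of_nsmul_eq_zero h1) (addOrderOf_dvd_of_nsmul_eq_zero hT)))
  rw [h0, map_zero]

/-- **Whatever the invariant**: the same holds if every quadratic field has an inert prime of good
reduction with nonzero trace. -/
theorem generatorsDensity_large_of_traces (W : WeierstrassCurve ℤ)
    [(W.map (Int.castRingHom ℚ)).IsElliptic]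
    (htr : ∀ d : ℤ, Squarefree d → d ≠ 1 → ∃ (l : ℕ) (_ : Fact l.Prime),
      (∃ C : VariableChange ℚ_[l], HasGoodReduction ℤ_[l]
        (C • (W.map (Int.castRingHom ℚ)).map (algebraMap ℚ ℚ_[l]))) ∧
      ¬ IsSquare (d : ZMod l) ∧ (W.map (Int.castRingHom ℚ)).LFunction l ≠ 0)
    [inst : DecidableEq (AlgebraicClosure ℚ)] {ι : Type} [Fintype ι] {x y : ι → ℚ}
    (h : ∀ i, (W.map (Int.castRingHom ℚ)).toAffine.Nonsingular (x i) (y i))
    (hP : LinearIndependent ℤ fun i => Affine.Point.some (x i) (y i) (h i)) :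
    ∃ M : ℕ, ∀ S : Finset ℕ, (∀ p ∈ S, p.Prime ∧ M < p) →
    Set.HasDirichletDensity {v : HeightOneSpectrum (𝓞 ℚ) |
      ∃ _ : Fact (Ideal.absNorm v.asIdeal).Prime,
      ∃ h : ∀ i, (W.map (Int.castRingHom
          (ZMod (Ideal.absNorm v.asIdeal)))).toAffine.Nonsingular
        (x i : ZMod (Ideal.absNorm v.asIdeal)) (y i),
      ∀ p ∈ S, ¬ p ∣ (AddSubgroup.closure (Set.range fun i =>
        Affine.Point.some (x i : ZMod (Ideal.absNorm v.asIdeal)) _ (h i))).index}
      (∏ p ∈ S, (1 - (((p : ℝ) ^ Fintype.card ι) ^ 2 -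
          ((p : ℝ) ^ Fintype.card ι - 1) * ((p : ℝ) ^ Fintype.card ι - p) +
          ((p : ℝ) ^ 3 - 2 * p - 1) * (p : ℝ) ^ Fintype.card ι) /
        (((p : ℝ) ^ 2 - 1) * ((p : ℝ) ^ 2 - p) * ((p : ℝ) ^ Fintype.card ι) ^ 2))) := by
  obtain rfl : inst = instDecEqAlgebraicClosureRat := Subsingleton.elim _ _
  have hΔ : W.Δ ≠ 0 := fun h0 => (W.map (Int.castRingHom ℚ)).isUnit_Δ.ne_zero (by simp [h0])
  haveI := FA.Frob.ratCurve_isElliptic_of_Δ hΔ
  obtain ⟨m, hm, hsurj⟩ :=
    FA.PrimeDivisors.exists_surjective_coprime htr (W := W) ⟨1, one_smul _ _⟩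
  haveI := FA.MordellWeil.mordell (W.map (Int.castRingHom ℚ))
  obtain ⟨B, hB⟩ := FA.LinearDependence.exists_bound_independent_family hP
  refine ⟨m + B + 2, fun S hS => ?_⟩
  exact generatorsDensity W hΔ S
    (fun p hp => ⟨(hS p hp).1, by have := (hS p hp).2; omega⟩)
    (hsurj _ (Finset.prod_ne_zero_iff.mpr fun p hp => (hS p hp).1.ne_zero)
      (Nat.Coprime.prod_left fun p hp => (hS p hp).1.coprime_iff_not_dvd.mpr fun hd => by
        have := Nat.le_of_dvd (Nat.pos_of_ne_zero hm) hd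
        have := (hS p hp).2
        omega)) h
    (fun p hp => hB p (hS p hp).1 (by have := (hS p hp).2; omega))

end FA.Summary

end
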