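import Fermat.Agent.GenericHyperfinite.Generic

/-!
# Generic hyperfiniteness

In the sense of category all countable Borel equivalence relations are hyperfinite.
-/

set_option autoImplicit false

universe u

namespace FA.GenericHyperfinite

open Set Topology MeasureTheory FA.BorelCombinatorics

variable {X : Type u} [TopologicalSpace X] [PolishSpace X] [MeasurableSpace X] [BorelSpace X]

/-- **Generic hyperfiniteness.** Off an invariant meagre Borel set a countable Borel equivalence
relation on a Polish space is hyperfinite. -/
theorem generic_hyperfinite (s : Setoid X) (hs : MeasurableSet {p : X × X | s p.1 p.2})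
    (hcount : ∀ x, {y | s x y}.Countable) :
    ∃ C : Set X, MeasurableSet C ∧ IsMeagre Cᶜ ∧ (∀ x y, s x y → (x ∈ C ↔ y ∈ C)) ∧
      IsHyperfinite (Setoid.comap (Subtype.val : C → X) s) := by
  obtain ⟨C, hCm, hC, hinv, hhyp⟩ := exists_comeagre_hyperfinite s hs hcount
  exact ⟨C, hCm, by rwa [IsMeagre, compl_compl],
    fun x y hxy => ⟨fun hx => hinv x hx y hxy, fun hy => hinv y hy x (s.symm hxy)⟩, hhyp⟩

end FA.GenericHyperfinite
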