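import Fermat.Agent.GenusCount.Count

/-!
# Gauss: the number of genera and of ambiguous classes

`D < 0`, the forms are the primitive positive forms of `SummaryGaussComposition`, `μ` is the
composition and `e` a form with `e.a = 1` (so `D ≡ 0, 1 (mod 4)`, every such `D` allowed, also
`-3` and `-4`). With `r` the number of odd prime divisors of `D`, the exponent is `m - 1`, where
`m = r` for `D ≡ 1 (mod 4)` or `D ≡ 4 (mod 16)`, `m = r + 2` for `32 ∣ D`, `m = r + 1` otherwise.

* `ambiguous_classes_count`: `2 ^ (m - 1)` classes are their own inverse;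
* `ambiguous_reduced_count`: as many reduced forms have `b = 0`, `|b| = a` or `a = c`;
* `number_of_genera`: there are as many genera, genera being as in `SummaryGaussDuplication`;
* `class_number_odd_iff`: the class number is odd exactly when `m = 1`.
-/

set_option autoImplicit false

noncomputable section

namespace FA.GenusCount.Summary

open FA.GaussComposition

variable {D : ℤ} {μ : FormClass D → FormClass D → FormClass D}

theorem disc_mod_four (e : Form D) : D % 4 = 0 ∨ D % 4 = 1 := by
  rcases Int.even_or_odd' e.b with ⟨k, hk | hk⟩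
  · have : D = 4 * (k * k - e.a * e.c) := by
      linear_combination (e.b + 2 * k) * hk - e.disc
    omega
  · have : D = 4 * (k * k + k - e.a * e.c) + 1 := by
      linear_combination (e.b + 2 * k + 1) * hk - e.disc
    omega

/-- **Gauss's count of the ambiguous classes.** -/
theorem ambiguous_classes_count (hD : D < 0) (hμ : IsComposition μ) (e : Form D) (he : e.a = 1) :
    Nat.card {x : FormClass D // μ x x = e.cl} =
      if D % 4 = 1 ∨ D % 16 = 4 then 2 ^ ((D.natAbs.primeFactors.erase 2).card - 1)
      else if D % 32 = 0 then 2 ^ ((D.natAbs.primeFactors.erase 2).card + 1)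
      else 2 ^ (D.natAbs.primeFactors.erase 2).card := by
  rw [card_sq_eq_one hD hμ e he, card_amb hD (disc_mod_four e), genusNumber]
  split_ifs <;> rfl

/-- The same count for the ambiguous reduced forms. -/
theorem ambiguous_reduced_count (hD : D < 0) (hD4 : D % 4 = 0 ∨ D % 4 = 1) :
    Nat.card {f : Form D // (|f.b| ≤ f.a ∧ f.a ≤ f.c ∧ ((|f.b| = f.a ∨ f.a = f.c) → 0 ≤ f.b)) ∧
        (f.b = 0 ∨ |f.b| = f.a ∨ f.a = f.c)} =
      if D % 4 = 1 ∨ D % 16 = 4 then 2 ^ ((D.natAbs.primeFactors.erase 2).card - 1)
      else if D % 32 = 0 then 2 ^ ((D.natAbs.primeFactors.erase 2).card + 1)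
      else 2 ^ (D.natAbs.primeFactors.erase 2).card := by
  refine (card_amb hD hD4).trans ?_
  rw [genusNumber]
  split_ifs <;> rfl

/-- **Gauss's number of genera.** -/
theorem number_of_genera (hD : D < 0) (hμ : IsComposition μ) (e : Form D) (he : e.a = 1) :
    Nat.card (Quot (GaussDuplication.SameGenus (D := D))) =
      if D % 4 = 1 ∨ D % 16 = 4 then 2 ^ ((D.natAbs.primeFactors.erase 2).card - 1)
      else if D % 32 = 0 then 2 ^ ((D.natAbs.primeFactors.erase 2).card + 1)
      else 2 ^ (D.natAbs.primeFactors.erase 2).card :=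
  (GaussDuplication.card_genera (not_isSquare_of_neg hD) hμ e he).trans
    (ambiguous_classes_count hD hμ e he)

/-- The parity of the class number. -/
theorem class_number_odd_iff (hD : D < 0) (hμ : IsComposition μ) (e : Form D) (he : e.a = 1) :
    Odd (Nat.card (FormClass D)) ↔
      (if D % 4 = 1 ∨ D % 16 = 4 then (D.natAbs.primeFactors.erase 2).card
        else if D % 32 = 0 then (D.natAbs.primeFactors.erase 2).card + 2
        else (D.natAbs.primeFactors.erase 2).card + 1) ≤ 1 := by
  have hns := not_isSquare_of_neg hD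
  have := finite_formClass hns
  obtain ⟨G, rfl, h1, -⟩ := GaussDuplication.exists_commGroup hns hμ e
  have hc : Nat.card {x : FormClass D // x * x = e.cl} = 2 ^ (genusNumber D - 1) :=
    (card_sq_eq_one hD hμ e he).trans (card_amb hD (disc_mod_four e))
  show _ ↔ genusNumber D ≤ 1
  constructor
  · intro h
    by_contra hne
    obtain ⟨x, hx, hx1⟩ : ∃ x : FormClass D, x * x = e.cl ∧ x ≠ e.cl := by
      by_contra hall
      push Not at hall
      have : Nat.card {x : FormClass D // x * x = e.cl} ≤ 1 :=
        Finite.card_le_one_iff_subsingleton.2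
          ⟨fun a b => Subtype.ext ((hall a a.2).trans (hall b b.2).symm)⟩
      rw [hc] at this
      exact absurd this (not_le.2 (Nat.one_lt_two_pow (by omega)))
    rw [h1 e he] at hx hx1
    have h2 : orderOf x = 2 := orderOf_eq_prime (by rw [pow_two, hx]) hx1
    exact absurd (h2 ▸ orderOf_dvd_natCard x) (Nat.two_dvd_ne_zero.2 (Nat.odd_iff.1 h))
  · intro h
    by_contra hev
    obtain ⟨x, hx⟩ := exists_prime_orderOf_dvd_card' 2
      (even_iff_two_dvd.1 (Nat.not_odd_iff_even.1 hev))
    obtain ⟨hx2, hx1⟩ := orderOf_eq_prime_iff.1 hx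
    rw [pow_two, ← h1 e he] at hx2
    rw [← h1 e he] at hx1
    have hs := Finite.card_le_one_iff_subsingleton.1
      (hc.le.trans (by rw [Nat.sub_eq_zero_of_le h, pow_zero]))
    exact hx1 (congrArg Subtype.val (hs.elim ⟨x, hx2⟩ ⟨e.cl, by rw [h1 e he, mul_one]⟩))

end FA.GenusCount.Summary
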