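import Fermat.Agent.GenusPrimes.Main

/-!
# Primes and genera of binary quadratic forms

`D < 0`, forms, `μ` and genera as in `SummaryGaussComposition` and `SummaryGaussDuplication`; the
prime `p` is prime to `D` (`p = 2` is allowed).

* `genus_criterion`: `p` is a value of some form in the genus of `f` iff `p` is congruent to a value
  of `f` modulo `D`;
* `congruences_decide_iff`: this congruence decides whether `f` itself represents `p`, for all
  forms and primes, iff there is one class in each genus (Euler's convenient numbers for every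
  discriminant; the converse uses Meyer's theorem);
* `one_class_iff_card`: iff the class number is `2 ^ (m - 1)`, `m` as in `SummaryGenusCount`;
* `minus_eighty_four`: so it is for `D = -84`.

Which discriminants have one class in each genus is not claimed.
-/

set_option autoImplicit false

noncomputable section

namespace FA.GenusPrimes.Summary

open FA.GaussComposition FA.GaussDuplication

variable {D : ℤ} {μ : FormClass D → FormClass D → FormClass D}

/-- **The genus criterion for primes.** -/
theorem genus_criterion (hD : D < 0) (hμ : IsComposition μ) (f : Form D) {p : ℕ} (hp : p.Prime)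
    (hcop : IsCoprime (p : ℤ) D) :
    (∃ g : Form D, SameGenus f g ∧ ∃ x y : ℤ, g.a * x ^ 2 + g.b * x * y + g.c * y ^ 2 = p) ↔
      ∃ x y : ℤ, f.a * x ^ 2 + f.b * x * y + f.c * y ^ 2 ≡ p [ZMOD D] :=
  FA.GenusPrimes.genus_criterion hD hμ f hp hcop

/-- **When congruences decide.** -/
theorem congruences_decide_iff (hD : D < 0) :
    (∀ f g : Form D, SameGenus f g → f.cl = g.cl) ↔
      ∀ (f : Form D) (p : ℕ), p.Prime → IsCoprime (p : ℤ) D →
        ((∃ x y : ℤ, f.a * x ^ 2 + f.b * x * y + f.c * y ^ 2 = p) ↔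
          ∃ x y : ℤ, f.a * x ^ 2 + f.b * x * y + f.c * y ^ 2 ≡ p [ZMOD D]) :=
  oneClass_iff_congruence hD

/-- In terms of the class number. -/
theorem one_class_iff_card (hD : D < 0) (hD4 : D % 4 = 0 ∨ D % 4 = 1) :
    (∀ f g : Form D, SameGenus f g → f.cl = g.cl) ↔
      Nat.card (FormClass D) =
        if D % 4 = 1 ∨ D % 16 = 4 then 2 ^ ((D.natAbs.primeFactors.erase 2).card - 1)
        else if D % 32 = 0 then 2 ^ ((D.natAbs.primeFactors.erase 2).card + 1)
        else 2 ^ (D.natAbs.primeFactors.erase 2).card := by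
  obtain ⟨G, -, -, hc, -⟩ := exists_group (not_isSquare_of_neg hD) hD4
  obtain ⟨e, he⟩ := exists_principal_form hD4
  refine (oneClass_iff_card hD hc he).trans (Eq.congr_right ?_)
  rw [GenusCount.genusNumber]
  split_ifs <;> rfl

/-- **An example with four genera**: the residue modulo `84` decides for each form. -/
theorem minus_eighty_four (f : Form (-84)) {p : ℕ} (hp : p.Prime)
    (hcop : IsCoprime (p : ℤ) (-84)) :
    (∃ x y : ℤ, f.a * x ^ 2 + f.b * x * y + f.c * y ^ 2 = p) ↔
      ∃ x y : ℤ, f.a * x ^ 2 + f.b * x * y + f.c * y ^ 2 ≡ p [ZMOD (-84)] := by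
  refine (congruences_decide_iff (by norm_num)).1 (oneClass_of_ambiguous (by norm_num)
    fun g hg => ?_) f p hp hcop
  obtain ⟨hb, hac, htie⟩ := hg
  have hd := g.disc
  have ha := g.pos (by norm_num)
  have hb2 : g.b ^ 2 ≤ g.a ^ 2 := by
    rw [← sq_abs g.b]
    exact pow_le_pow_left₀ (abs_nonneg _) hb 2
  have h5 : g.a ≤ 5 := by nlinarith
  obtain ⟨hb1, hb2'⟩ := abs_le.1 hb
  have key : ∀ a b : ℤ, 1 ≤ a → a ≤ 5 → -a ≤ b → b ≤ a → 4 * a ∣ b ^ 2 + 84 →
      b = 0 ∨ b = a ∨ b = -a ∨ b ^ 2 + 84 = 4 * a * a := by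
    intro a b h1 h2 h3 h4 h
    interval_cases a <;> interval_cases b <;> omega
  rcases key g.a g.b (by omega) h5 hb1 hb2' ⟨g.c, by linarith⟩ with h | h | h | h
  · exact Or.inl h
  · exact Or.inr (Or.inl (by rw [h, abs_of_pos ha]))
  · exact Or.inr (Or.inl (by rw [h, abs_neg, abs_of_pos ha]))
  · exact Or.inr (Or.inr (mul_left_cancel₀ (mul_ne_zero four_ne_zero ha.ne') (by linarith)))

end FA.GenusPrimes.Summary
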