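import Fermat.Agent.GenusTheory.Count

/-!
# Gauss: genus theory for discriminants of both signs

`D` is a nonsquare `≡ 0, 1 (mod 4)` of either sign, the forms are the primitive ones of
`SummaryGaussComposition` (positive for `D < 0`) under proper equivalence, genera are as in
`SummaryGaussDuplication`, `μ` is the composition and `e` a form with `e.a = 1`. With `r` the number
of odd primes dividing `D`:

* `number_of_genera`: there are `2 ^ (r - 1)` genera for `D ≡ 1 (mod 4)` or `D ≡ 4 (mod 16)`,
  `2 ^ (r + 1)` for `32 ∣ D` and `2 ^ r` otherwise;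
* `ambiguous_classes_count`: as many classes are their own inverse, for `D > 0` too;
* `sameGenus_iff_characters`: two forms are of one genus exactly when two of their values prime to
  `2 D` have equal Legendre symbols at the odd primes of `D` and a product which is, modulo `8`,
  a value of the principal form;
* `exists_form_iff_jacobi`: an odd `m` prime to `D` is congruent modulo `D` to a value of some form
  exactly when `(D / m) = 1`, which is not the case for every `m`;
* `class_number_odd_iff`: the (narrow) class number is odd exactly when there is one genus.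
-/

set_option autoImplicit false

noncomputable section

namespace FA.GenusTheory.Summary

open FA.GaussComposition FA.GaussDuplication

variable {D : ℤ}

/-- **The number of genera.** -/
theorem number_of_genera (hns : ¬IsSquare D) (hD4 : D % 4 = 0 ∨ D % 4 = 1) :
    Nat.card (Quot (SameGenus (D := D))) =
      if D % 4 = 1 ∨ D % 16 = 4 then 2 ^ ((D.natAbs.primeFactors.erase 2).card - 1)
      else if D % 32 = 0 then 2 ^ ((D.natAbs.primeFactors.erase 2).card + 1)
      else 2 ^ (D.natAbs.primeFactors.erase 2).card := by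
  have h := card_genera_mul_two hns hD4 fun h => hns (h ▸ IsSquare.zero)
  rw [card_target hD4, oddPrimes] at h
  split_ifs at h ⊢
  · cases hr : (D.natAbs.primeFactors.erase 2).card with
    | zero => rw [hr, pow_zero] at h; omega
    | succ k => rw [hr, pow_succ] at h; simp only [Nat.add_sub_cancel]; omega
  · rw [pow_add] at h
    rw [pow_succ]
    omega
  · rw [pow_succ] at h
    omega

/-- **The number of ambiguous classes.** -/
theorem ambiguous_classes_count (hns : ¬IsSquare D) {μ : FormClass D → FormClass D → FormClass D}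
    (hμ : IsComposition μ) (e : Form D) (he : e.a = 1) :
    Nat.card {x : FormClass D // μ x x = e.cl} =
      if D % 4 = 1 ∨ D % 16 = 4 then 2 ^ ((D.natAbs.primeFactors.erase 2).card - 1)
      else if D % 32 = 0 then 2 ^ ((D.natAbs.primeFactors.erase 2).card + 1)
      else 2 ^ (D.natAbs.primeFactors.erase 2).card :=
  (card_genera hns hμ e he).symm.trans (number_of_genera hns (disc_mod_four e))

/-- **The characters tell the genera apart.** -/
theorem sameGenus_iff_characters (hns : ¬IsSquare D) {f g : Form D} {m n : ℤ}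
    (hf : f.Represents m) (hg : g.Represents n) (hm : IsCoprime m (2 * D))
    (hn : IsCoprime n (2 * D)) :
    SameGenus f g ↔ (∀ p ∈ D.natAbs.primeFactors.erase 2,
        (IsSquare (m : ZMod p) ↔ IsSquare (n : ZMod p))) ∧
      ∃ x y : ZMod 8, x ^ 2 + ((D % 4 : ℤ) : ZMod 8) * x * y +
        ((-(D / 4) : ℤ) : ZMod 8) * y ^ 2 = (m : ZMod 8) * n := by
  have hD0 : D ≠ 0 := fun h => hns (h ▸ IsSquare.zero)
  have hD4 := disc_mod_four f
  have hodd : ∀ {z : ℤ}, IsCoprime z (2 * D) → Odd z := fun {z} hz =>
    Int.not_even_iff_odd.1 fun he =>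
      Int.prime_two.not_isUnit (hz.isUnit_of_dvd' he.two_dvd (dvd_mul_right 2 D))
  obtain ⟨u, hu⟩ := exists_unit_of_odd (hodd hm) hm.of_mul_right_right
  obtain ⟨v, hv⟩ := exists_unit_of_odd (hodd hn) hn.of_mul_right_right
  obtain ⟨x, y, rfl⟩ := hf
  obtain ⟨s, t, rfl⟩ := hg
  rw [sameGenus_iff_chars hns hD4 hD0 (u := u) (v := v) ⟨x, y, (res_modEq hD0 hu).symm⟩
    ⟨s, t, (res_modEq hD0 hv).symm⟩, chars_eq_iff hns hD4 hD0,
    chars_eq_one_iff (m := f.eval x y * g.eval s t) (by rw [Units.val_mul, hu, hv, Int.cast_mul]),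
    Int.cast_mul, oddPrimes]
  refine and_congr (forall₂_congr fun p hp => ?_) Iff.rfl
  rw [← charAt_eq_one_iff ⟨p, hp⟩ (u := u * v) (by rw [Units.val_mul, hu, hv, Int.cast_mul]),
    ← charAt_eq_one_iff ⟨p, hp⟩ hu, ← charAt_eq_one_iff ⟨p, hp⟩ hv, map_mul]
  rcases Int.units_eq_one_or (charAt ⟨p, hp⟩ u) with a | a <;>
    rcases Int.units_eq_one_or (charAt ⟨p, hp⟩ v) with b | b <;> simp [a, b]

/-- **Half of the residues are residues of values.** -/
theorem exists_form_iff_jacobi (hns : ¬IsSquare D) (hD4 : D % 4 = 0 ∨ D % 4 = 1) :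
    (∀ m : ℕ, Odd m → IsCoprime (m : ℤ) D →
      ((∃ (f : Form D) (x y : ℤ), f.eval x y ≡ m [ZMOD D]) ↔ jacobiSym D m = 1)) ∧
    ∃ m : ℕ, Odd m ∧ IsCoprime (m : ℤ) D ∧ jacobiSym D m = -1 := by
  have hD0 : D ≠ 0 := fun h => hns (h ▸ IsSquare.zero)
  refine ⟨fun m hm hc => ?_, exists_symbol_neg hns⟩
  obtain ⟨u, hu⟩ := exists_unit hD0 hc
  rw [← eta_eq_one_iff hD0 hD4 hm hu.symm, eta_eq_one_iff_exists hns hD4 hD0]
  exact exists_congr fun f => exists_congr fun x => exists_congr fun y =>
    ⟨fun h => h.trans hu.symm, fun h => h.trans hu⟩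

/-- The parity of the narrow class number. -/
theorem class_number_odd_iff (hns : ¬IsSquare D) {μ : FormClass D → FormClass D → FormClass D}
    (hμ : IsComposition μ) (e : Form D) (he : e.a = 1) :
    Odd (Nat.card (FormClass D)) ↔ Nat.card (Quot (SameGenus (D := D))) = 1 := by
  have := finite_formClass hns
  rw [card_genera hns hμ e he]
  obtain ⟨G, rfl, h1, -⟩ := exists_commGroup hns hμ e
  rw [h1 e he]
  constructor
  · intro h
    refine Nat.card_eq_one_iff_unique.2 ⟨⟨fun a b => Subtype.ext ?_⟩, ⟨⟨1, one_mul 1⟩⟩⟩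
    have : ∀ x : FormClass D, x * x = 1 → x = 1 := fun x hx => by
      by_contra hne
      have h2 : orderOf x = 2 := orderOf_eq_prime (by rw [pow_two, hx]) hne
      exact absurd (h2 ▸ orderOf_dvd_natCard x) (Nat.two_dvd_ne_zero.2 (Nat.odd_iff.1 h))
    rw [this a.1 a.2, this b.1 b.2]
  · intro h
    by_contra hev
    obtain ⟨x, hx⟩ := exists_prime_orderOf_dvd_card' 2
      (even_iff_two_dvd.1 (Nat.not_odd_iff_even.1 hev))
    obtain ⟨hx2, hx1⟩ := orderOf_eq_prime_iff.1 hx
    rw [pow_two] at hx2
    have hs := (Nat.card_eq_one_iff_unique.1 h).1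
    exact hx1 (congrArg Subtype.val (hs.elim ⟨x, hx2⟩ ⟨1, one_mul 1⟩))

/-- Example: two genera of forms of discriminant `12`. -/
theorem card_genera_twelve : Nat.card (Quot (SameGenus (D := 12))) = 2 := by
  rw [number_of_genera ?_ (by norm_num), if_neg (by norm_num), if_neg (by norm_num),
    show (12 : ℤ).natAbs.primeFactors.erase 2 = {3} by decide +kernel]
  · rfl
  · rintro ⟨r, hr⟩
    have h1 : r.natAbs * r.natAbs = 12 := by rw [← Int.natAbs_mul, ← hr]; rfl
    have h2 : r.natAbs ≤ 12 := by nlinarith
    interval_cases r.natAbs <;> omega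

end FA.GenusTheory.Summary
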