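import Fermat.Agent.GeyerAbelian.Conclusion
import Fermat.Agent.SolvableOverCyclotomic.Descent

/-!
# Geyer's theorem on abelian subgroups of absolute Galois groups

Every closed abelian subgroup of the Galois group of `ℚ` or of `ℚ_q` is procyclic. So the finite
extensions of an algebraic field with abelian absolute Galois group are cyclic, and no `ℤ_p × ℤ_p`
embeds in the absolute Galois group of `ℚ`.
-/

set_option autoImplicit false
set_option linter.unusedSectionVars false

noncomputable section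

local notation "Qb" => AlgebraicClosure ℚ
local notation "GQ" => AlgebraicClosure ℚ ≃ₐ[ℚ] AlgebraicClosure ℚ

namespace FA.Summary

open FA.GalCoh Fermat.Agent.GeyerAbelian Fermat.Agent.SolvableOverCyclotomic

/-- **Geyer's theorem**: a closed abelian subgroup of the absolute Galois group of `ℚ` is
procyclic. -/
theorem geyer_abelian_procyclic {A : Subgroup GQ} (hA : IsClosed (A : Set GQ))
    (hc : ∀ x ∈ A, ∀ y ∈ A, x * y = y * x) :
    ∃ σ ∈ A, A = (Subgroup.zpowers σ).topologicalClosure :=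
  (exists_generator_or_pair hA hc).resolve_right fun ⟨_, _, ⟨P⟩⟩ => P.elim

/-- **Geyer's theorem over `ℚ_q`**: a closed abelian subgroup of the absolute Galois group of
`ℚ_q` is procyclic. -/
theorem geyer_abelian_procyclic_local {q : ℕ} [Fact q.Prime] {A : Subgroup (LG q)}
    (hA : IsClosed (A : Set (LG q))) (hc : ∀ x ∈ A, ∀ y ∈ A, x * y = y * x) :
    ∃ σ ∈ A, A = (Subgroup.zpowers σ).topologicalClosure := by
  have hcl : IsClosedMap (loc q) := continuous_loc.isClosedMap
  obtain ⟨_, ⟨σ, hσ, rfl⟩, he⟩ := geyer_abelian_procyclic (A := A.map (loc q))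
    (by rw [Subgroup.coe_map]; exact hcl _ hA) (by
      rintro _ ⟨x, hx, rfl⟩ _ ⟨y, hy, rfl⟩
      rw [← map_mul, hc x hx y hy, map_mul])
  refine ⟨σ, hσ, le_antisymm (fun x hx => ?_)
    (Subgroup.topologicalClosure_minimal _ (Subgroup.zpowers_le.2 hσ) hA)⟩
  have h : loc q x ∈ ((Subgroup.zpowers (loc q σ)).topologicalClosure : Set GQ) :=
    he ▸ ⟨x, hx, rfl⟩
  rw [Subgroup.topologicalClosure_coe, ← MonoidHom.map_zpowers, Subgroup.coe_map] at h
  obtain ⟨y, hy, hyx⟩ := hcl.closure_image_subset _ h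
  show x ∈ ((Subgroup.zpowers σ).topologicalClosure : Set (LG q))
  rw [Subgroup.topologicalClosure_coe]
  exact loc_injective hyx ▸ hy

/-- The finite extensions of an algebraic field with abelian absolute Galois group are cyclic. -/
theorem geyer_abelian_cyclic_extensions {F : IntermediateField ℚ Qb}
    (hc : ∀ σ τ : Qb ≃ₐ[F] Qb, σ * τ = τ * σ) (M : IntermediateField F Qb)
    [FiniteDimensional F M] : IsGalois F M ∧ IsCyclic (M ≃ₐ[F] M) := by
  have hnorm : M.fixingSubgroup.Normal := ⟨fun h hh g => by rwa [hc g h, mul_inv_cancel_right]⟩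
  have hgal : IsGalois F M := (InfiniteGalois.normal_iff_isGalois M).1 hnorm
  obtain ⟨σ, hσ, he⟩ := geyer_abelian_procyclic
    (InfiniteGalois.fixingSubgroup_isClosed F) fun x hx y hy =>
    congrArg Subtype.val ((galEquiv F).injective
      (show galEquiv F (⟨x, hx⟩ * ⟨y, hy⟩) = galEquiv F (⟨y, hy⟩ * ⟨x, hx⟩) by
        rw [map_mul, map_mul, hc]))
  set s := galEquiv F ⟨σ, hσ⟩
  refine ⟨hgal, ⟨s.restrictNormal M, fun t => ?_⟩⟩
  set τ : Qb ≃ₐ[F] Qb := t.liftNormal Qb
  set x := (galEquiv F).symm τ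
  let b := Module.finBasis F M
  let E : IntermediateField ℚ Qb := IntermediateField.adjoin ℚ (Set.range fun i => (b i : Qb))
  have : FiniteDimensional ℚ E :=
    IntermediateField.finiteDimensional_adjoin fun z _ => Algebra.IsIntegral.isIntegral z
  have hx : (x : GQ) ∈ ((Subgroup.zpowers σ).topologicalClosure : Set GQ) := he ▸ x.2
  rw [Subgroup.topologicalClosure_coe, mem_closure_iff] at hx
  obtain ⟨z, hz, hzσ⟩ := hx ((fun g : GQ => (x : GQ)⁻¹ * g) ⁻¹' (E.fixingSubgroup : Set GQ))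
    (E.fixingSubgroup_isOpen.preimage (continuous_const_mul _))
    (by simp only [Set.mem_preimage, inv_mul_cancel]; exact one_mem _)
  obtain ⟨k, rfl⟩ := Subgroup.mem_zpowers_iff.1 hzσ
  refine Subgroup.mem_zpowers_iff.2 ⟨k, ?_⟩
  have hrt : τ.restrictNormal M = t := AlgEquiv.restrict_liftNormal Qb t
  rw [← hrt, show s.restrictNormal M = AlgEquiv.restrictNormalHom M s from rfl, ← map_zpow]
  refine AlgEquiv.ext fun m => LinearMap.congr_fun (b.ext (f₁ :=
    ((s ^ k).restrictNormal M).toLinearMap) (f₂ := (τ.restrictNormal M).toLinearMap)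
      fun i => Subtype.ext ?_) m
  have hval : ∀ (g : F.fixingSubgroup) (y : Qb), galEquiv F g y = (g : GQ) y := fun _ _ => rfl
  refine ((s ^ k).restrictNormal_commutes M (b i)).trans
    (Eq.trans ?_ (τ.restrictNormal_commutes M (b i)).symm)
  rw [← (galEquiv F).apply_symm_apply τ, show s ^ k = galEquiv F (⟨σ, hσ⟩ ^ k) from
    (map_zpow _ _ _).symm, hval, hval, SubgroupClass.coe_zpow]
  have h1 := (IntermediateField.mem_fixingSubgroup_iff _ _).1 hz (b i : Qb)
    (IntermediateField.subset_adjoin ℚ _ ⟨i, rfl⟩)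
  rwa [AlgEquiv.mul_apply, AlgEquiv.aut_inv, AlgEquiv.symm_apply_eq] at h1

/-- No `ℤ_p × ℤ_p` embeds in the absolute Galois group of `ℚ`. -/
theorem geyer_no_padicInt_square {p : ℕ} [Fact p.Prime]
    (f : Multiplicative (ℤ_[p] × ℤ_[p]) →* GQ) (hf : Continuous f) : ¬ Function.Injective f := by
  intro hinj
  obtain ⟨_, ⟨v, rfl⟩, he⟩ := geyer_abelian_procyclic (A := f.range)
    (by rw [MonoidHom.coe_range]; exact (isCompact_range hf).isClosed)
    (by rintro _ ⟨x, rfl⟩ _ ⟨y, rfl⟩; rw [← map_mul, ← map_mul, mul_comm])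
  have key : ∀ D : Set (Multiplicative (ℤ_[p] × ℤ_[p])), IsClosed D → (∀ k : ℤ, v ^ k ∈ D) →
      ∀ w, w ∈ D := fun D hD hk w => by
    have h : f w ∈ ((Subgroup.zpowers (f v)).topologicalClosure : Set GQ) := he ▸ ⟨w, rfl⟩
    rw [Subgroup.topologicalClosure_coe] at h
    have hsub : ((Subgroup.zpowers (f v) : Subgroup GQ) : Set GQ) ⊆ f '' D := fun _ ⟨k, hz⟩ =>
      ⟨v ^ k, hk k, (map_zpow f v k).trans hz⟩
    obtain ⟨w', hw', e⟩ := closure_minimal hsub (hf.isClosedMap D hD) h
    exact hinj e ▸ hw'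
  have hdet := key {w | w.toAdd.1 * v.toAdd.2 = w.toAdd.2 * v.toAdd.1}
    (isClosed_eq (by fun_prop) (by fun_prop)) fun k => by
      show (v ^ k).toAdd.1 * v.toAdd.2 = (v ^ k).toAdd.2 * v.toAdd.1
      rw [toAdd_zpow, Prod.smul_fst, Prod.smul_snd, smul_mul_assoc, smul_mul_assoc, mul_comm]
  have h1 : v.toAdd.2 = 0 := by simpa using hdet (Multiplicative.ofAdd (1, 0))
  have h2 : v.toAdd.1 = 0 := by simpa using (hdet (Multiplicative.ofAdd (0, 1))).symm
  have hv : v = 1 := Multiplicative.toAdd.injective (Prod.ext h2 h1)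
  have h3 := key {1} isClosed_singleton (fun k => by rw [hv, one_zpow]; rfl)
    (Multiplicative.ofAdd (1, 0))
  exact one_ne_zero (congrArg (fun w => (Multiplicative.toAdd w).1) h3)

end FA.Summary
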