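import Fermat.Agent.GlasnerDilates.Main

/-!
# Glasner's theorem on dilates

* `glasner_uniform`: for `ε > 0` there is `K` such that every `K` reals distinct modulo one have
  a dilate by a positive integer which is `ε`-dense modulo one (Alon and Peres);
* `glasner`: so every set with infinitely many values modulo one has one (Glasner 1979).

Complements `SummaryEquidistribution`; independent of S01.
-/

set_option autoImplicit false

noncomputable section

namespace FA.GlasnerDilates.Summary

/-- **The theorem of Alon and Peres.** -/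
theorem glasner_uniform {ε : ℝ} (hε : 0 < ε) :
    ∃ K : ℕ, ∀ s : Finset ℝ, Set.InjOn Int.fract (s : Set ℝ) → K ≤ s.card →
      ∃ n : ℕ, 0 < n ∧ ∀ t : ℝ, ∃ x ∈ s, ∃ m : ℤ, |(n : ℝ) * x - t - m| < ε :=
  FA.GlasnerDilates.glasner_uniform hε

/-- **Glasner's theorem.** -/
theorem glasner {X : Set ℝ} (hX : (Int.fract '' X).Infinite) {ε : ℝ} (hε : 0 < ε) :
    ∃ n : ℕ, 0 < n ∧ ∀ t : ℝ, ∃ x ∈ X, ∃ m : ℤ, |(n : ℝ) * x - t - m| < ε :=
  FA.GlasnerDilates.glasner hX hε

end FA.GlasnerDilates.Summary

end
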