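import Fermat.Agent.GlaubermanCorrespondence.Classes

/-!
# The Glauberman correspondence

A `p`-group `A` acts by automorphisms on a finite group `G` of order prime to `p`; `C` is the group
of its fixed points.

* `irr_iff`: `irr G` is the set of characters of the irreducible representations of `G`;
* `glauberman_correspondence`: there is a bijection from the invariant irreducible characters of `G`
  onto the irreducible characters of `C`, the image of `χ` being the only constituent of its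
  restriction of multiplicity prime to `p` (Glauberman, 1968);
* `glauberman_degree`: `χ 1` is congruent modulo `p` to that multiplicity times the degree of the
  image;
* `glauberman_count`: as many invariant characters as classes of `C`, and as invariant classes;
* `glauberman_fixedPointFree`: without fixed points only the trivial character is invariant.

The correspondence for solvable `A` and the one of Isaacs are not claimed.
-/

set_option autoImplicit false
set_option linter.style.haveILetI false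

noncomputable section

namespace FA.GlaubermanCorrespondence.Summary

open FA.FrobeniusGroups FA.CharacterTheory
open FA.SuzukiCA (res mult mult_spec)
open scoped Classical

/-- `irr G` is the set of irreducible characters. -/
theorem irr_iff {G : Type*} [Group G] [Fintype G] {χ : G → ℂ} : χ ∈ irr G ↔
    ∃ W : Subrepresentation (FA.Solvable.regular G),
      Representation.IsIrreducible W.toRepresentation ∧ W.toRepresentation.character = χ :=
  ⟨exists_of_mem_irr, fun ⟨W, hW, h⟩ => h ▸ (haveI := hW; character_mem_irr W.toRepresentation)⟩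

variable {A : Type*} [Group A] [Finite A] {G : Type*} [Group G] [Fintype G] {p : ℕ}
  [hp : Fact p.Prime] (φ : A →* MulAut G) (hA : IsPGroup p A) (hco : ¬ p ∣ Nat.card G)

omit [Finite A] [Fintype G] in
/-- The fixed points. -/
theorem mem_fixedPts_iff {g : G} : g ∈ fixedPts φ ↔ ∀ a, φ a g = g := Iff.rfl

include hA hco

/-- **The Glauberman correspondence.** -/
theorem glauberman_correspondence :
    ∃ e : {χ : G → ℂ // χ ∈ irr G ∧ ∀ a g, χ (φ a g) = χ g} ≃
        {β : fixedPts φ → ℂ // β ∈ irr (fixedPts φ)},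
      ∀ χ, ∀ β ∈ irr (fixedPts φ), ∃ m : ℤ,
        (Nat.card (fixedPts φ) : ℂ)⁻¹ * ∑ c : fixedPts φ, χ.1 c * β c⁻¹ = m ∧
          (¬ (p : ℤ) ∣ m ↔ (e χ).1 = β) := by
  choose f hf hu using fun χ : {χ : G → ℂ // χ ∈ irr G ∧ ∀ a g, χ (φ a g) = χ g} =>
    existsUnique_constituent φ hA hco χ.2.1 χ.2.2
  refine ⟨Equiv.ofBijective (fun χ => ⟨f χ, (hf χ).1⟩) ⟨fun χ χ' e => ?_, fun β => ?_⟩,
    fun χ β hβ => ⟨mult (fixedPts φ) χ.1 β, ?_, ?_⟩⟩
  · have he : f χ = f χ' := congrArg Subtype.val e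
    exact Subtype.ext (eq_of_constituent φ hA hco χ.2.1 χ.2.2 χ'.2.1 χ'.2.2 (hf χ).1 (hf χ).2
      (he ▸ (hf χ').2))
  · obtain ⟨χ, hχ, hinv, hm⟩ := exists_invariant φ hA hco β.2
    exact ⟨⟨χ, hχ, hinv⟩, Subtype.ext (hu ⟨χ, hχ, hinv⟩ _ ⟨β.2, hm⟩).symm⟩
  · rw [← mult_spec χ.2.1 hβ, pairing_comm]
    rfl
  · exact ⟨fun h => (hu χ β ⟨hβ, h⟩).symm, fun h => h ▸ (hf χ).2⟩

/-- **The degrees.** -/
theorem glauberman_degree {χ : G → ℂ} (hχ : χ ∈ irr G) (hinv : ∀ a g, χ (φ a g) = χ g) :
    ∃ β ∈ irr (fixedPts φ), ∃ (d b : ℕ) (m : ℤ), χ 1 = d ∧ β 1 = b ∧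
      (Nat.card (fixedPts φ) : ℂ)⁻¹ * ∑ c : fixedPts φ, χ c * β c⁻¹ = m ∧
      ¬ (p : ℤ) ∣ m ∧ (p : ℤ) ∣ d - m * b := by
  obtain ⟨β, ⟨hβ, hm⟩, -⟩ := existsUnique_constituent φ hA hco hχ hinv
  obtain ⟨d, hd, -⟩ := irr_degree hχ
  obtain ⟨b, hb, -⟩ := irr_degree hβ
  refine ⟨β, hβ, d, b, _, hd, hb, ?_, hm, degree_congr φ hA hco hχ hinv hβ hm hd hb⟩
  rw [← mult_spec hχ hβ, pairing_comm]
  rfl

/-- **Counting.** -/
theorem glauberman_count :
    Nat.card {χ : G → ℂ // χ ∈ irr G ∧ ∀ a g, χ (φ a g) = χ g} =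
        Nat.card (ConjClasses (fixedPts φ)) ∧
      Nat.card {χ : G → ℂ // χ ∈ irr G ∧ ∀ a g, χ (φ a g) = χ g} =
        Nat.card {κ : ConjClasses G // ∀ a, ConjClasses.map (φ a).toMonoidHom κ = κ} := by
  obtain ⟨e, -⟩ := glauberman_correspondence φ hA hco
  have h : Nat.card {χ : G → ℂ // χ ∈ irr G ∧ ∀ a g, χ (φ a g) = χ g} =
      Nat.card (ConjClasses (fixedPts φ)) := by
    rw [Nat.card_congr e, Nat.card_eq_fintype_card, Fintype.card_coe, card_irr]
  exact ⟨h, h.trans (card_invariant_classes φ hA hco)⟩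

/-- **Fixed-point-free actions.** -/
theorem glauberman_fixedPointFree (hfpf : ∀ g, (∀ a, φ a g = g) → g = 1) {χ : G → ℂ}
    (hχ : χ ∈ irr G) (hinv : ∀ a g, χ (φ a g) = χ g) : χ = fun _ => 1 := by
  haveI : Subsingleton (fixedPts φ) :=
    ⟨fun x y => Subtype.ext ((hfpf x x.2).trans (hfpf y y.2).symm)⟩
  haveI : Subsingleton (ConjClasses (fixedPts φ)) := ConjClasses.mk_surjective.subsingleton
  have h1 : Nat.card {χ : G → ℂ // χ ∈ irr G ∧ ∀ a g, χ (φ a g) = χ g} ≤ 1 := by
    rw [(glauberman_count φ hA hco).1]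
    exact Finite.card_le_one_iff_subsingleton.2 inferInstance
  haveI : Finite {χ : G → ℂ // χ ∈ irr G ∧ ∀ a g, χ (φ a g) = χ g} :=
    Finite.of_injective (fun χ => (⟨χ.1, χ.2.1⟩ : irr G))
      fun _ _ e => Subtype.ext (congrArg (fun z : irr G => z.1) e)
  have hs := Finite.card_le_one_iff_subsingleton.1 h1
  exact congrArg Subtype.val
    (hs.allEq ⟨χ, hχ, hinv⟩ ⟨fun _ => 1, one_mem_irr, fun _ _ => rfl⟩)

end FA.GlaubermanCorrespondence.Summary

end
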