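import Fermat.Agent.ThompsonTransfer.FixedPointFree
import Fermat.Agent.Root.SummaryFrobeniusGroups

/-!
# Thompson's theorems

* `frobenius_normal_pComplement`: if the elements of order prime to `p` normalising a `p`-subgroup
  centralise it, the finite group has a normal `p`-complement;
* `thompson_normal_pComplement`: for odd `p` and a Sylow subgroup `P`, if the normaliser of `J P`
  and the centraliser of `Z P` have normal `p`-complements, so has the group (`J P` is generated by
  the abelian subgroups of `P` of largest order, `Z P` is the centre of `P`);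
* `thompson_fixedPointFree_nilpotent`: a finite group with an automorphism of prime order fixing
  only the identity is nilpotent;
* `frobenius_kernel_nilpotent`: the kernel of a Frobenius group is nilpotent;
* `frobenius_galois_nilpotent`: in the Galois form `Gal (L / M)` is nilpotent.
-/

set_option autoImplicit false
set_option linter.style.haveILetI false

noncomputable section

universe u

namespace FA.Thompson.Summary

open Subgroup

variable {p : ℕ} [hp : Fact p.Prime] {G : Type u} [Group G] [Finite G]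

/-- The elements of order prime to `p` form the complement. -/
theorem complement_of_pcomp (h : PComp p G) :
    ∃ K : Subgroup G, K.Normal ∧ (∀ g, g ∈ K ↔ ¬ p ∣ orderOf g) ∧
      ∀ P : Sylow p G, K.IsComplement' (P : Subgroup G) := by
  refine ⟨h.regSubgroup, h.regSubgroup_normal, fun g => Iff.rfl, fun P => ?_⟩
  haveI := h.regSubgroup_normal
  obtain ⟨a, ha⟩ := IsPGroup.iff_card.1 h.isPGroup_quotient
  have hG := h.regSubgroup.card_eq_card_quotient_mul_card_subgroup
  rw [ha] at hG
  have hfac : (Nat.card G).factorization p = a := by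
    rw [hG, Nat.factorization_mul (pow_ne_zero _ hp.out.ne_zero) Nat.card_pos.ne',
      hp.out.factorization_pow, Finsupp.add_apply, Finsupp.single_eq_same,
      Nat.factorization_eq_zero_of_not_dvd h.not_dvd_card, add_zero]
  refine isComplement'_of_coprime ?_ ?_
  · rw [P.card_eq_multiplicity, hfac, mul_comm]
    exact hG.symm
  · rw [P.card_eq_multiplicity]
    exact Nat.Coprime.pow_right _ (hp.out.coprime_iff_not_dvd.2 h.not_dvd_card).symm

omit [Finite G] in
/-- A normal subgroup of order prime to `p` and of `p`-power index contains the elements of order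
prime to `p`. -/
theorem pcomp_of_complement (h : ∃ K : Subgroup G, K.Normal ∧ ¬ p ∣ Nat.card K ∧
    ∃ a, K.index = p ^ a) : PComp p G := by
  obtain ⟨K, hK, hKp, a, ha⟩ := h
  haveI := hK
  have hmem : ∀ g : G, Reg p g → g ∈ K := by
    intro g hg
    obtain ⟨m, hm⟩ := exists_pow_eq_self_of_coprime (n := K.index) (x := g)
      (ha ▸ Nat.Coprime.pow_left _ (hp.out.coprime_iff_not_dvd.2 hg))
    rw [← hm]
    exact pow_mem (K.pow_index_mem g) m
  exact fun x y hx hy => reg_of_mem_of_not_dvd_card hKp (mul_mem (hmem x hx) (hmem y hy))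

/-- **Frobenius' normal `p`-complement theorem.** -/
theorem frobenius_normal_pComplement
    (h : ∀ X : Subgroup G, IsPGroup p X → ∀ g ∈ normalizer (X : Set G), ¬ p ∣ orderOf g →
      g ∈ centralizer (X : Set G)) :
    ∃ K : Subgroup G, K.Normal ∧ (∀ g, g ∈ K ↔ ¬ p ∣ orderOf g) ∧
      ∀ P : Sylow p G, K.IsComplement' (P : Subgroup G) :=
  complement_of_pcomp (pcomp_of_localControl h)

/-- **Thompson's normal `p`-complement theorem.** -/
theorem thompson_normal_pComplement (hp2 : p ≠ 2) (P : Sylow p G) (J Z : Subgroup G)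
    (hJdef : J = sSup {A : Subgroup G | A ≤ P ∧ (∀ x ∈ A, ∀ y ∈ A, x * y = y * x) ∧
      ∀ B : Subgroup G, B ≤ P → (∀ x ∈ B, ∀ y ∈ B, x * y = y * x) → Nat.card B ≤ Nat.card A})
    (hZdef : Z = (P : Subgroup G) ⊓ centralizer ((P : Subgroup G) : Set G))
    (hJ : ∃ K : Subgroup (normalizer (J : Set G) : Subgroup G), K.Normal ∧ ¬ p ∣ Nat.card K ∧
      ∃ a, K.index = p ^ a)
    (hZ : ∃ K : Subgroup (centralizer (Z : Set G) : Subgroup G), K.Normal ∧ ¬ p ∣ Nat.card K ∧
      ∃ a, K.index = p ^ a) :
    ∃ K : Subgroup G, K.Normal ∧ (∀ g, g ∈ K ↔ ¬ p ∣ orderOf g) ∧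
      ∀ P : Sylow p G, K.IsComplement' (P : Subgroup G) := by
  subst hJdef hZdef
  exact complement_of_pcomp (pcomp_of_hyp hp2 P
    ⟨pcomp_subgroup.1 (pcomp_of_complement hJ), pcomp_subgroup.1 (pcomp_of_complement hZ)⟩)

omit hp in
/-- **Thompson's fixed-point-free automorphism theorem.** -/
theorem thompson_fixedPointFree_nilpotent (φ : G ≃* G) (r : ℕ) (hr : r.Prime)
    (hφ : (φ : G → G)^[r] = id) (hfix : ∀ g : G, φ g = g → g = 1) : Group.IsNilpotent G := by
  refine isNilpotent_of_fpf hr φ ?_ hfix
  refine MulEquiv.ext fun g => ?_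
  have h : ∀ n, ((φ : MulAut G) ^ n) g = (φ : G → G)^[n] g := by
    intro n
    induction n with
    | zero => rfl
    | succ n ih => rw [pow_succ', MulAut.mul_apply, ih, Function.iterate_succ_apply']
  rw [h, hφ]
  rfl

/-- **The Frobenius kernel is nilpotent.** -/
theorem frobenius_kernel_nilpotent (H : Subgroup G) (hH0 : H ≠ ⊥)
    (hH : ∀ g ∉ H, ∀ x ∈ H, g * x * g⁻¹ ∈ H → x = 1) :
    ∃ K : Subgroup G, K.Normal ∧ K.IsComplement' H ∧ Group.IsNilpotent K := by
  obtain ⟨K, hK, hc, -, -⟩ := FA.Summary.frobenius_kernel G H hH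
  haveI := hK
  obtain ⟨r, hr, hrd⟩ :=
    Nat.exists_prime_and_dvd (((one_lt_card_iff_ne_bot H).2 hH0).ne')
  haveI : Fact r.Prime := ⟨hr⟩
  obtain ⟨t, ht⟩ := exists_prime_orderOf_dvd_card' r hrd
  refine ⟨K, hK, hc, isNilpotent_of_fpf hr (MulAut.conjNormal (t : G)) ?_ fun k hk => ?_⟩
  · rw [← map_pow, show (t : G) ^ r = 1 by rw [← ht, ← orderOf_coe, pow_orderOf_eq_one], map_one]
  · have h1 : (t : G) * k * (t : G)⁻¹ = k := congrArg Subtype.val hk
    by_contra hk1
    have hkH : (k : G) ∉ H := fun h => hk1 (Subtype.ext (disjoint_def.1 hc.disjoint k.2 h))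
    have h2 : (k : G) * t * (k : G)⁻¹ = t := by
      rw [mul_inv_eq_iff_eq_mul] at h1 ⊢
      exact h1.symm
    have h3 : (t : G) = 1 := hH _ hkH _ t.2 (by rw [h2]; exact t.2)
    exact hr.ne_one (by rw [← ht, ← orderOf_coe, h3, orderOf_one])

omit hp in
/-- **Galois form.** -/
theorem frobenius_galois_nilpotent (F L : Type*) [Field F] [Field L] [Algebra F L]
    [FiniteDimensional F L] [IsGalois F L] (E : IntermediateField F L) (hE0 : E ≠ ⊤)
    (hE : ∀ σ : L ≃ₐ[F] L, σ ∉ E.fixingSubgroup → E ⊔ E.map σ.toAlgHom = ⊤) :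
    ∃ M : IntermediateField F L, IsGalois F M ∧ M ⊔ E = ⊤ ∧
      Group.IsNilpotent (L ≃ₐ[M] L) := by
  have hE0' : E.fixingSubgroup ≠ ⊥ := fun h => hE0 (by
    rw [← IsGalois.fixedField_fixingSubgroup E, h, IntermediateField.fixedField_bot])
  obtain ⟨K, hn, hc, hnil⟩ := frobenius_kernel_nilpotent E.fixingSubgroup hE0'
    fun g hg x hx hgx => by
      have hg' : g⁻¹ ∉ E.fixingSubgroup := fun h => hg (inv_mem_iff.1 h)
      have hle : E ⊔ E.map (g⁻¹).toAlgHom ≤ IntermediateField.fixedField (Subgroup.zpowers x) := by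
        rw [sup_le_iff, IntermediateField.le_iff_le, IntermediateField.le_iff_le,
          Subgroup.zpowers_le, Subgroup.zpowers_le]
        refine ⟨hx, (IntermediateField.mem_fixingSubgroup_iff _ _).2 ?_⟩
        rintro _ ⟨e, he, rfl⟩
        have h1 := (IntermediateField.mem_fixingSubgroup_iff _ _).1 hgx e he
        exact g.injective (h1.trans (g.apply_symm_apply e).symm)
      rw [hE _ hg', top_le_iff] at hle
      have := congrArg IntermediateField.fixingSubgroup hle
      rw [IntermediateField.fixingSubgroup_fixedField, IntermediateField.fixingSubgroup_top,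
        Subgroup.zpowers_eq_bot] at this
      exact this
  haveI := hn
  set M := IntermediateField.fixedField K with hMdef
  have hM : M.fixingSubgroup = K := IntermediateField.fixingSubgroup_fixedField K
  refine ⟨M, IsGalois.of_fixedField_normal_subgroup K, ?_, ?_⟩
  · rw [← IsGalois.fixedField_fixingSubgroup (M ⊔ E), IntermediateField.fixingSubgroup_sup, hM,
      hc.disjoint.eq_bot, IntermediateField.fixedField_bot]
  · exact Group.isNilpotent_congr
      ((M.fixingSubgroupEquiv).symm.trans (MulEquiv.subgroupCongr hM)) |>.2 hnil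

end FA.Thompson.Summary

end
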