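import Fermat.Agent.ThompsonTransfer.Glauberman
import Fermat.Agent.Root.SummaryThompson

/-!
# The Glauberman–Thompson theorem

* `glauberman_replacement`: `p` odd, `B` a subgroup of the `p`-group `P`, normalised by it, whose
  derived group is centralised by `B` and by an abelian subgroup `A` of `P` of largest order: if `B`
  does not normalise `A`, another one normalises `A` and meets `B` in more;
* `glauberman_thompson`: for odd `p` a finite group has a normal `p`-complement exactly when the
  normaliser of `Z (J P)` has one;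
* `frobenius_criterion_iff`: a finite group has a normal `p`-complement exactly when the elements
  of order prime to `p` normalising a `p`-subgroup centralise it, and exactly when all normalisers
  of nontrivial `p`-subgroups have normal `p`-complements;
* `glauberman_thompson_galois`: for a Galois extension with such a local complement there is a
  Galois subextension whose degree is the `p`-part of the degree.

The case `p = 2` and the normality of `Z (J P)` in general `p`-stable groups are not claimed.
-/

set_option autoImplicit false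
set_option linter.style.haveILetI false

noncomputable section

universe u

namespace FA.GlaubermanThompson.Summary

open Subgroup
open FA.Thompson

variable {p : ℕ} [hp : Fact p.Prime] {G : Type u} [Group G] [Finite G]

omit [Finite G] hp in
/-- The abelian subgroups of largest order, spelt out. -/
def IsLargestAbelian (P A : Subgroup G) : Prop :=
  A ≤ P ∧ (∀ x ∈ A, ∀ y ∈ A, x * y = y * x) ∧
    ∀ C : Subgroup G, C ≤ P → (∀ x ∈ C, ∀ y ∈ C, x * y = y * x) → Nat.card C ≤ Nat.card A

/-- **Glauberman's replacement theorem.** -/
theorem glauberman_replacement (hp2 : p ≠ 2) {P B A : Subgroup G} (hP : IsPGroup p P) (hBP : B ≤ P)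
    (hPB : P ≤ normalizer (B : Set G)) (hA : IsLargestAbelian P A)
    (hcA : ∀ c ∈ ⁅B, B⁆, ∀ a ∈ A, c * a = a * c) (hcB : ∀ c ∈ ⁅B, B⁆, ∀ b ∈ B, c * b = b * c)
    (hBA : ¬ B ≤ normalizer (A : Set G)) :
    ∃ A', IsLargestAbelian P A' ∧ A ⊓ B < A' ⊓ B ∧ A' ≤ normalizer (A : Set G) :=
  exists_replacement hp2 hP hBP hPB hA hcA hcB hBA

/-- The elements of order prime to `p` of a group with a normal complement. -/
theorem pcomp_iff_complement : PComp p G ↔ ∃ K : Subgroup G, K.Normal ∧
    ∀ P : Sylow p G, K.IsComplement' (P : Subgroup G) := by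
  refine ⟨fun h => ?_, fun ⟨K, hK, hc⟩ => ?_⟩
  · obtain ⟨K, hK, -, hc⟩ := FA.Thompson.Summary.complement_of_pcomp h
    exact ⟨K, hK, hc⟩
  obtain ⟨P⟩ : Nonempty (Sylow p G) := inferInstance
  refine FA.Thompson.Summary.pcomp_of_complement ⟨K, hK, fun hd => ?_,
    ⟨_, ((hc P).symm.index_eq_card).trans P.card_eq_multiplicity⟩⟩
  refine P.not_dvd_index ?_
  rw [(hc P).index_eq_card]
  exact hd

/-- **The Glauberman–Thompson normal `p`-complement theorem.** -/
theorem glauberman_thompson (hp2 : p ≠ 2) (P : Sylow p G) (J : Subgroup G)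
    (hJ : J = sSup {A | IsLargestAbelian (P : Subgroup G) A}) :
    (∃ K : Subgroup G, K.Normal ∧ ∀ Q : Sylow p G, K.IsComplement' (Q : Subgroup G)) ↔
      ∃ K : Subgroup (normalizer ((J ⊓ centralizer (J : Set G) : Subgroup G) : Set G) : Subgroup G),
        K.Normal ∧ ∀ Q : Sylow p
            (normalizer ((J ⊓ centralizer (J : Set G) : Subgroup G) : Set G) : Subgroup G),
          K.IsComplement' (Q : Subgroup _) := by
  subst hJ
  rw [← pcomp_iff_complement, ← pcomp_iff_complement, pcomp_subgroup]
  exact ⟨fun h => (pcompOn_top.2 h).mono le_top, fun h => pcomp_of_ZJ hp2 P h⟩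

/-- **Frobenius' criterion.** -/
theorem frobenius_criterion_iff :
    List.TFAE [∃ K : Subgroup G, K.Normal ∧ ∀ P : Sylow p G, K.IsComplement' (P : Subgroup G),
      ∀ X : Subgroup G, IsPGroup p X → ∀ g ∈ normalizer (X : Set G), ¬ p ∣ orderOf g →
        g ∈ centralizer (X : Set G),
      ∀ X : Subgroup G, IsPGroup p X → X ≠ ⊥ →
        ∃ K : Subgroup (normalizer (X : Set G) : Subgroup G), K.Normal ∧
          ∀ P : Sylow p (normalizer (X : Set G) : Subgroup G),
            K.IsComplement' (P : Subgroup _)] := by
  simp_rw [← pcomp_iff_complement, pcomp_subgroup]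
  tfae_have 1 → 3 := fun h X _ _ => (pcompOn_top.2 h).mono le_top
  tfae_have 3 → 2 := fun h => localControl_of_pcomp h
  tfae_have 2 → 1 := fun h => pcomp_of_localControl h
  tfae_finish

omit hp in
/-- **Galois form.** -/
theorem glauberman_thompson_galois (F L : Type*) [Field F] [Field L] [Algebra F L]
    [FiniteDimensional F L] [IsGalois F L] [Fact p.Prime] (hp2 : p ≠ 2) (P : Sylow p (L ≃ₐ[F] L))
    (J : Subgroup (L ≃ₐ[F] L)) (hJ : J = sSup {A | IsLargestAbelian (P : Subgroup _) A})
    (h : ∃ K : Subgroup
        (normalizer ((J ⊓ centralizer (J : Set (L ≃ₐ[F] L)) : Subgroup _) : Set (L ≃ₐ[F] L)) :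
          Subgroup _),
      K.Normal ∧ ∀ Q : Sylow p
          (normalizer ((J ⊓ centralizer (J : Set (L ≃ₐ[F] L)) : Subgroup _) : Set (L ≃ₐ[F] L)) :
            Subgroup _),
        K.IsComplement' (Q : Subgroup _)) :
    ∃ M : IntermediateField F L, IsGalois F M ∧
      Module.finrank F M = p ^ (Module.finrank F L).factorization p := by
  obtain ⟨K, hK, hc⟩ := (glauberman_thompson hp2 P J hJ).2 h
  haveI := hK
  refine ⟨IntermediateField.fixedField K, IsGalois.of_fixedField_normal_subgroup K, ?_⟩
  rw [IntermediateField.finrank_eq_fixingSubgroup_index,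
    IntermediateField.fixingSubgroup_fixedField, (hc P).symm.index_eq_card,
    P.card_eq_multiplicity, IsGalois.card_aut_eq_finrank]

end FA.GlaubermanThompson.Summary

end
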