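import Fermat.Agent.Gleason.Golay

/-!
# Binary codes: MacWilliams, Gleason, Mallows and Sloane

`C` is a subspace of `𝔽₂ⁿ` and `W_C(x, y) = ∑_{c ∈ C} x^(n - wt c) y^(wt c)`.
-/

set_option autoImplicit false

noncomputable section

open Finset
open scoped Classical

namespace FA.Summary

variable {n : ℕ}

/-- **The identity of MacWilliams**: `|C| W_{C⊥}(x, y) = W_C(x + y, x - y)`. -/
theorem macWilliams_identity (C D : Submodule (ZMod 2) (Fin n → ZMod 2))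
    (hD : ∀ v, v ∈ D ↔ ∀ c ∈ C, ∑ i, v i * c i = 0) (x y : ℂ) :
    (Nat.card C : ℂ) * ∑ v : D, x ^ (n - hammingNorm (v : Fin n → ZMod 2)) *
        y ^ hammingNorm (v : Fin n → ZMod 2) =
      ∑ c : C, (x + y) ^ (n - hammingNorm (c : Fin n → ZMod 2)) *
        (x - y) ^ hammingNorm (c : Fin n → ZMod 2) := by
  obtain rfl : D = Gleason.dual C := SetLike.ext hD
  exact (Gleason.macWilliams C x y).symm

variable {C : Submodule (ZMod 2) (Fin n → ZMod 2)}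

/-- **The length of a self-dual code with all weights divisible by four** is a multiple of
eight. -/
theorem typeII_length (hself : ∀ v, v ∈ C ↔ ∀ c ∈ C, ∑ i, v i * c i = 0)
    (hfour : ∀ c ∈ C, 4 ∣ hammingNorm c) : 8 ∣ n :=
  (Gleason.IsTypeII.mk hself hfour).eight_dvd

/-- **Gleason's theorem**: the weight enumerator is an integral combination of the products
`φ₈^(n/8 - 3j) ψ₂₄^j`. -/
theorem gleason_theorem (hself : ∀ v, v ∈ C ↔ ∀ c ∈ C, ∑ i, v i * c i = 0)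
    (hfour : ∀ c ∈ C, 4 ∣ hammingNorm c) :
    ∃ a : ℕ → ℤ, ∀ x y : ℂ,
      ∑ c : C, x ^ (n - hammingNorm (c : Fin n → ZMod 2)) *
          y ^ hammingNorm (c : Fin n → ZMod 2) =
        ∑ j ∈ range (n / 24 + 1), (a j : ℂ) *
          ((x ^ 8 + 14 * x ^ 4 * y ^ 4 + y ^ 8) ^ (n / 8 - 3 * j) *
            (x ^ 4 * y ^ 4 * (x ^ 4 - y ^ 4) ^ 4) ^ j) :=
  let ⟨a, _, ha⟩ := Gleason.gleason (Gleason.IsTypeII.mk hself hfour)
  ⟨a, ha⟩

/-- **The bound of Mallows and Sloane**: some nonzero word has weight at most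
`4 ⌊n / 24⌋ + 4`. -/
theorem mallows_sloane (hself : ∀ v, v ∈ C ↔ ∀ c ∈ C, ∑ i, v i * c i = 0)
    (hfour : ∀ c ∈ C, 4 ∣ hammingNorm c) (hn : 0 < n) :
    ∃ c ∈ C, c ≠ 0 ∧ hammingNorm c ≤ 4 * (n / 24) + 4 :=
  Gleason.exists_weight_le (Gleason.IsTypeII.mk hself hfour) hn

/-- **Length `24` and minimum weight `8`**: the enumerator is that of the Golay code. -/
theorem typeII_length24_enumerator {C : Submodule (ZMod 2) (Fin 24 → ZMod 2)}
    (hself : ∀ v, v ∈ C ↔ ∀ c ∈ C, ∑ i, v i * c i = 0)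
    (hfour : ∀ c ∈ C, 4 ∣ hammingNorm c) (hd : ∀ c ∈ C, c ≠ 0 → 8 ≤ hammingNorm c) (x y : ℂ) :
    ∑ c : C, x ^ (24 - hammingNorm (c : Fin 24 → ZMod 2)) *
        y ^ hammingNorm (c : Fin 24 → ZMod 2) =
      x ^ 24 + 759 * x ^ 16 * y ^ 8 + 2576 * x ^ 12 * y ^ 12 + 759 * x ^ 8 * y ^ 16 + y ^ 24 :=
  Gleason.enum_eq_golay (Gleason.IsTypeII.mk hself hfour) hd x y

/-- The binary Golay code satisfies these hypotheses, so it attains the bound too. -/
theorem typeII_golay :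
    ∃ C : Submodule (ZMod 2) (Fin 24 → ZMod 2),
      (∀ v, v ∈ C ↔ ∀ c ∈ C, ∑ i, v i * c i = 0) ∧ (∀ c ∈ C, 4 ∣ hammingNorm c) ∧
      ∀ c ∈ C, c ≠ 0 → 8 ≤ hammingNorm c :=
  let ⟨h, h8⟩ := Gleason.golayCode_isTypeII
  ⟨Gleason.golayCode, h.selfDual, h.four_dvd, h8⟩

/-- The hypotheses are satisfiable: the extended Hamming code, with enumerator
`x⁸ + 14 x⁴ y⁴ + y⁸`, for which the bound is an equality. -/
theorem typeII_hamming :
    ∃ C : Submodule (ZMod 2) (Fin 8 → ZMod 2),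
      (∀ v, v ∈ C ↔ ∀ c ∈ C, ∑ i, v i * c i = 0) ∧ (∀ c ∈ C, 4 ∣ hammingNorm c) ∧
      ∀ x y : ℂ, ∑ c : C, x ^ (8 - hammingNorm (c : Fin 8 → ZMod 2)) *
          y ^ hammingNorm (c : Fin 8 → ZMod 2) = x ^ 8 + 14 * x ^ 4 * y ^ 4 + y ^ 8 := by
  obtain ⟨H, hH⟩ : ∃ H : Fin 4 → Fin 8 → ZMod 2, H =
      ![![1, 1, 1, 1, 1, 1, 1, 1], ![0, 0, 0, 0, 1, 1, 1, 1],
        ![0, 0, 1, 1, 0, 0, 1, 1], ![0, 1, 0, 1, 0, 1, 0, 1]] := ⟨_, rfl⟩
  obtain ⟨C, hC⟩ : ∃ C, C = Gleason.dual (Submodule.span (ZMod 2) (Set.range H)) := ⟨_, rfl⟩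
  have hmem : ∀ v, v ∈ C ↔ ∀ k, ∑ i, v i * H k i = 0 := fun v => by
    rw [hC, Gleason.mem_dual]
    refine ⟨fun h k => h _ (Submodule.subset_span ⟨k, rfl⟩), fun h c hc => ?_⟩
    induction hc using Submodule.span_induction with
    | mem x hx => obtain ⟨k, rfl⟩ := hx; exact h k
    | zero => simp
    | add x y _ _ hx hy => simp [mul_add, sum_add_distrib, hx, hy]
    | smul a x _ hx => simp [mul_left_comm, ← mul_sum, hx]
  have h2 : ∀ v, v ∈ C → ∀ k, ∑ i, v i * H k i = 0 := fun v => (hmem v).1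
  have hT : Gleason.IsTypeII C := by
    have hkey : ∀ v : Fin 8 → ZMod 2, (∀ k, ∑ i, v i * H k i = 0) →
        4 ∣ hammingNorm v ∧ ∃ t : Fin 4 → ZMod 2, ∀ i, v i = ∑ k, t k * H k i := by
      subst hH
      decide +kernel
    have horth : ∀ k l, ∑ i, H k i * H l i = 0 := by
      subst hH
      decide +kernel
    refine ⟨fun v => ⟨fun hv c hc => ?_, fun hv => (hmem v).2 fun k => ?_⟩,
      fun c hc => (hkey c (h2 c hc)).1⟩
    · obtain ⟨t, ht⟩ := (hkey c (h2 c hc)).2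
      simp_rw [ht, mul_sum]
      rw [sum_comm]
      refine sum_eq_zero fun k _ => ?_
      simp_rw [mul_left_comm (v _) (t k)]
      rw [← mul_sum, h2 v hv k, mul_zero]
    · exact hv (H k) ((hmem _).2 fun l => horth k l)
  obtain ⟨a, -, ha⟩ := Gleason.gleason hT
  refine ⟨C, hT.selfDual, hT.four_dvd, fun x y => ?_⟩
  have h0 := ha 1 0
  rw [Gleason.enum_one_zero] at h0
  norm_num [Gleason.phi8] at h0
  refine (ha x y).trans ?_
  norm_num [Gleason.phi8, ← h0]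

end FA.Summary

end
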