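import Fermat.Agent.GleasonKahaneZelazko.Main
import Mathlib.Algebra.Algebra.Spectrum.Basic

/-!
# The theorem of Gleason, Kahane and Żelazko

For a linear functional `φ` on a complex unital Banach algebra, not assumed continuous:

* `gleason_kahane_zelazko`: if `φ 1 = 1` and `φ x ≠ 0` for units `x` then `φ` is multiplicative;
* `gleason_kahane_zelazko_iff`: these two conditions characterise the characters;
* `gleason_kahane_zelazko_spectrum`: equivalently `φ x` lies in the spectrum of `x` for every `x`.

The algebra need not be commutative. Independent of S01.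
-/

set_option autoImplicit false

noncomputable section

namespace FA.GleasonKahaneZelazko.Summary

variable {A : Type*} [NormedRing A] [NormedAlgebra ℂ A] [CompleteSpace A]

/-- **Gleason–Kahane–Żelazko**. -/
theorem gleason_kahane_zelazko (φ : A →ₗ[ℂ] ℂ) (h1 : φ 1 = 1)
    (hφ : ∀ x, IsUnit x → φ x ≠ 0) (x y : A) : φ (x * y) = φ x * φ y :=
  FA.GleasonKahaneZelazko.apply_mul φ h1 hφ x y

/-- The characters are exactly these functionals. -/
theorem gleason_kahane_zelazko_iff (φ : A →ₗ[ℂ] ℂ) :
    (φ 1 = 1 ∧ ∀ x, IsUnit x → φ x ≠ 0) ↔ ∃ f : A →ₐ[ℂ] ℂ, f.toLinearMap = φ := by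
  constructor
  · rintro ⟨h1, hφ⟩
    exact ⟨AlgHom.ofLinearMap φ h1 (FA.GleasonKahaneZelazko.apply_mul φ h1 hφ),
      LinearMap.ext fun _ => rfl⟩
  · rintro ⟨f, rfl⟩
    exact ⟨map_one f, fun x hx => (hx.map f).ne_zero⟩

/-- The spectral form: a functional taking its values in the spectra is a character. -/
theorem gleason_kahane_zelazko_spectrum [Nontrivial A] (φ : A →ₗ[ℂ] ℂ)
    (hφ : ∀ x, φ x ∈ spectrum ℂ x) (x y : A) : φ (x * y) = φ x * φ y := by
  have h1 : φ 1 = 1 := by
    have h := hφ 1
    rw [spectrum.one_eq] at h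
    exact h
  exact FA.GleasonKahaneZelazko.apply_mul φ h1
    (fun x hx h => spectrum.zero_notMem ℂ hx (h ▸ hφ x)) x y

end FA.GleasonKahaneZelazko.Summary

end
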