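import Fermat.Agent.GlimmEffros.Dichotomy

/-!
# The Glimm-Effros dichotomy

For countable Borel equivalence relations eventual agreement is the least relation which is not
smooth.
-/

set_option autoImplicit false

universe u

namespace FA.GlimmEffros

open Set Topology MeasureTheory FA.BorelCombinatorics

variable {X : Type u} [TopologicalSpace X] [PolishSpace X] [MeasurableSpace X] [BorelSpace X]

/-- **The dichotomy of Glimm and Effros.** A countable Borel equivalence relation on a Polish
space fails to be smooth exactly when eventual agreement of binary sequences embeds into it by a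
continuous injection. -/
theorem glimm_effros (s : Setoid X) (hs : MeasurableSet {p : X × X | s p.1 p.2})
    (hcount : ∀ x, {y | s x y}.Countable) :
    ¬IsSmooth s ↔ ∃ f : (ℕ → Bool) → X, Continuous f ∧ Function.Injective f ∧
      ∀ z z', eZero z z' ↔ s (f z) (f z') :=
  ⟨(isSmooth_or_embedding s hs hcount).resolve_left,
    fun ⟨_, hf, _, h⟩ => not_isSmooth_of_reduction hf.measurable h⟩

/-- **Eventual agreement is least.** A countable Borel equivalence relation receives a continuous
embedding of eventual agreement as soon as it receives a Borel reduction of it. -/
theorem embedding_of_reduction (s : Setoid X) (hs : MeasurableSet {p : X × X | s p.1 p.2})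
    (hcount : ∀ x, {y | s x y}.Countable) {f : (ℕ → Bool) → X} (hf : Measurable f)
    (h : ∀ z z', eZero z z' ↔ s (f z) (f z')) :
    ∃ g : (ℕ → Bool) → X, Continuous g ∧ Function.Injective g ∧
      ∀ z z', eZero z z' ↔ s (g z) (g z') :=
  (glimm_effros s hs hcount).1 (not_isSmooth_of_reduction hf h)

end FA.GlimmEffros
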