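import Fermat.Agent.BrauerGlobal.Cyclic

/-!
# The Brauer group of a number field: period, index and cyclicity

* `brauerGroup_global_finite`: a class is trivial at almost every prime.
* `cyclicExtension_full_local_degree`: for a finite set of primes and every `n ≠ 0` there is a cyclic
  extension of degree `n` of full local degree there, ramified at the real places if `n` is even.
* `brauerGroup_global_cyclic_splitting`: a class killed by `n` is split by a cyclic extension of
  degree `n`.
* `brauerGroup_global_period_index`: the period equals the index.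
* `brauerGroup_global_cyclic`: every central simple algebra over a number field is cyclic.
-/

set_option autoImplicit false

noncomputable section

open Module NumberField IsDedekindDomain
open FA.BrauerTheory (restriction)
open scoped Pointwise

namespace FA.Summary

variable {K : Type} [Field K] [NumberField K]

/-- **A class is trivial at almost every prime.** -/
theorem brauerGroup_global_finite (x : BrauerGroup.{0, 0} K) :
    {v : HeightOneSpectrum (𝓞 K) | restriction (v.adicCompletion K) x ≠ 1}.Finite :=
  FA.BrauerGlobal.finite_nontrivial x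

/-- **Cyclic extensions of full local degree.** -/
theorem cyclicExtension_full_local_degree (S : Finset (HeightOneSpectrum (𝓞 K))) {n : ℕ}
    (hn : n ≠ 0) :
    ∃ (L : Type) (_ : Field L) (_ : NumberField L) (_ : Algebra K L) (_ : IsGalois K L),
      IsCyclic (L ≃ₐ[K] L) ∧ finrank K L = n ∧
      (∀ v ∈ S, ∀ Q : HeightOneSpectrum (𝓞 L), FA.ArtinRec.belowP K Q = v →
        Nat.card (MulAction.stabilizer (L ≃ₐ[K] L) Q.asIdeal) = n) ∧
      (Even n → ∀ w : InfinitePlace K, w.IsReal → ¬ w.IsUnramifiedIn L) :=
  FA.BrauerGlobal.exists_cyclic_full S hn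

/-- **A class killed by `n` is split by a cyclic extension of degree `n`.** -/
theorem brauerGroup_global_cyclic_splitting (x : BrauerGroup.{0, 0} K) {n : ℕ} (hn : n ≠ 0)
    (hx : x ^ n = 1) :
    ∃ (L : Type) (_ : Field L) (_ : NumberField L) (_ : Algebra K L) (_ : IsGalois K L),
      IsCyclic (L ≃ₐ[K] L) ∧ finrank K L = n ∧ restriction L x = 1 :=
  FA.BrauerGlobal.exists_cyclic_restriction hn hx

/-- **Over a number field the period equals the index.** -/
theorem brauerGroup_global_period_index {D : Type} [DivisionRing D] [Algebra K D]
    [FiniteDimensional K D] [Algebra.IsCentral K D] {d : ℕ} (hd : finrank K D = d ^ 2) :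
    orderOf (FA.BrauerTheory.mk ({ __ := AlgCat.of K D } : CSA.{0, 0} K)) = d :=
  FA.BrauerGlobal.orderOf_eq_degree hd

/-- **The theorem of Albert, Brauer, Hasse and Noether on cyclicity.** -/
theorem brauerGroup_global_cyclic (A : CSA.{0, 0} K) {n : ℕ} (hA : finrank K A = n ^ 2) :
    ∃ (L : Type) (_ : Field L) (_ : NumberField L) (_ : Algebra K L) (_ : IsGalois K L),
      finrank K L = n ∧ ∃ (σ : L ≃ₐ[K] L) (a : K), (∀ g, g ∈ Subgroup.zpowers σ) ∧ a ≠ 0 ∧
        Nonempty (FA.CyclicAlgebra.Presentation σ a A) :=
  FA.BrauerGlobal.exists_presentation A hA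

end FA.Summary

end
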