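import Fermat.Agent.GlobalNilpotence.Main

/-!
# The theorem of Katz on globally nilpotent differential equations

For `a n y⁽ⁿ⁾ + … + a 0 y = 0` with `a j ∈ ℤ[X]` the companion system is `Y' = (M / a n) Y` and
`connMat a n i` is the numerator of `(d / dx - M / a n) ^ i 1`, defined by `N 0 = 1`,
`N (i + 1) = a n (N i)' - i (a n)' (N i) - M (N i)`; modulo `p` the matrix `N p` is the
`p`-curvature times `(a n) ^ p`. If it is nilpotent for almost all primes, then all singularities,
infinity included, are regular (in the form of the criterion of Fuchs) and all exponents, that is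
the roots of the indicial polynomials, are rational. Systems and other ground fields are not
treated.
-/

set_option autoImplicit false

noncomputable section

namespace FA.GlobalNilpotence.Summary

open Polynomial

/-- The companion matrix and the recursion of the numerators. -/
theorem pcurvature_matrix_recursion {R : Type*} [CommRing R] (a : ℕ → R[X]) (n : ℕ) :
    companion a n = Matrix.of (fun k l : Fin n =>
      if (l : ℕ) = k + 1 then a n else if (k : ℕ) + 1 = n then -a l else 0) ∧
    connMat a n 0 = 1 ∧ ∀ i, connMat a n (i + 1) = a n • (connMat a n i).map derivative -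
      ((i : R[X]) * derivative (a n)) • connMat a n i - companion a n * connMat a n i :=
  ⟨rfl, rfl, fun _ => rfl⟩

/-- Global nilpotence. -/
theorem globally_nilpotent_iff (a : ℕ → ℤ[X]) (n : ℕ) :
    GloballyNilpotent a n ↔ {p : ℕ | p.Prime ∧
      ¬IsNilpotent (connMat (fun j => (a j).map (Int.castRingHom (ZMod p))) n p)}.Finite :=
  Iff.rfl

/-- The indicial polynomial: the terms of lowest (at a point) or highest (at infinity) order. -/
theorem indicial_formula {R : Type*} [CommRing R] (b : ℕ → R[X]) (n v : ℕ) :
    indicialPoly b n v = ∑ l ∈ Finset.range (n + 1),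
      C (if n - l ≤ v then (b l).coeff (v - (n - l)) else 0) * descPochhammer R l :=
  rfl

/-- **Characteristic `p`**: nilpotent `p`-curvature forces a regular singularity at the origin with
exponents in the prime field. -/
theorem nilpotent_pcurvature_mod {K : Type*} [Field K] [IsAlgClosed K] {p : ℕ} [Fact p.Prime]
    [CharP K p] {a : ℕ → K[X]} {n : ℕ} (ha : a n ≠ 0) (hnil : IsNilpotent (connMat a n p)) :
    (∀ l ≤ n, a l ≠ 0 → (a n).natTrailingDegree ≤ (a l).natTrailingDegree + (n - l)) ∧
      ∀ ρ : K, (indicialPoly a n (a n).natTrailingDegree).IsRoot ρ → ∃ m : ℕ, ρ = (m : K) := by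
  obtain ⟨hv, hq⟩ := natTrailingDegree_spec ha
  refine ⟨fun l hl hal => ?_, fun ρ hρ =>
    exponent_natCast_of_isNilpotent (Or.inl rfl) hv hq hnil hρ⟩
  have h := regular_of_isNilpotent (Or.inl rfl) hv hq hnil l hl _ (natTrailingDegree_spec hal).2
  omega

variable {a : ℕ → ℤ[X]} {n : ℕ}

/-- **Katz: globally nilpotent equations have regular singularities** at every point and at
infinity. -/
theorem katz_regular_singular (hgn : GloballyNilpotent a n) (ha : a n ≠ 0) {l : ℕ} (hl : l ≤ n)
    (hal : a l ≠ 0) :
    (∀ r : ℂ, ((a n).map (Int.castRingHom ℂ)).rootMultiplicity r ≤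
        ((a l).map (Int.castRingHom ℂ)).rootMultiplicity r + (n - l)) ∧
      (a l).natDegree + (n - l) ≤ (a n).natDegree :=
  ⟨fun r => rootMultiplicity_le hgn.enough ha r hl hal, natDegree_add_le hgn.enough ha hl hal⟩

/-- **Katz: globally nilpotent equations have rational exponents** at every point and at
infinity. -/
theorem katz_rational_exponents (hgn : GloballyNilpotent a n) (ha : a n ≠ 0) :
    (∀ r ρ : ℂ, (indicialPoly (fun j => ((a j).map (Int.castRingHom ℂ)).comp (X + C r)) n
        (((a n).map (Int.castRingHom ℂ)).rootMultiplicity r)).IsRoot ρ →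
      ∃ q : ℚ, ρ = (q : ℂ)) ∧
    ∀ ρ : ℂ, (indicialPoly (fun j => (a j).map (Int.castRingHom ℂ)) n (a n).natDegree).IsRoot ρ →
      ∃ q : ℚ, ρ = (q : ℂ) :=
  ⟨fun r _ hρ => exponent_rational hgn.enough ha r hρ, fun _ hρ => exponent_rational_infinity hgn.enough ha hρ⟩

/-- **`y'' = 0`** is globally nilpotent. -/
theorem globally_nilpotent_line :
    GloballyNilpotent (fun j => if j = 2 then (1 : ℤ[X]) else 0) 2 := by
  refine Set.Finite.subset Set.finite_empty fun p hp => (hp.2 ⟨1, ?_⟩).elim
  have h2 : ∀ i : ℕ, connMat (fun j => (if j = 2 then (1 : ℤ[X]) else 0).map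
      (Int.castRingHom (ZMod p))) 2 (i + 2) = 0 := fun i => by
    induction i with
    | zero =>
      refine Matrix.ext fun k l => ?_
      fin_cases k <;> fin_cases l <;> simp [connMat, companion, Matrix.mul_apply]
    | succ i ih =>
      rw [connMat, ih]
      simp
  obtain ⟨i, hi⟩ : ∃ i, p = i + 2 := ⟨p - 2, by have := hp.1.two_le; omega⟩
  rw [pow_one]
  conv_lhs => arg 3; rw [hi]
  exact h2 i

/-- **The equation of Airy `y'' = x y`** is not globally nilpotent: infinity is irregular. -/
theorem not_globally_nilpotent_airy :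
    ¬GloballyNilpotent (fun j => if j = 2 then (1 : ℤ[X]) else if j = 0 then -X else 0) 2 := by
  intro h
  have h1 := (katz_regular_singular h (by simp) (l := 0) (by omega) (by simp)).2
  simp at h1

/-- **`x² y'' + x y' - 2 y = 0`** is not globally nilpotent: the exponents are `± √2`. -/
theorem not_globally_nilpotent_euler_sqrt :
    ¬GloballyNilpotent
      (fun j => if j = 2 then (X ^ 2 : ℤ[X]) else if j = 1 then X else -2) 2 := by
  intro h
  obtain ⟨q, hq⟩ := (katz_rational_exponents h (by simp)).2 (Real.sqrt 2 : ℂ) (by
    have h2 : (Real.sqrt 2 : ℂ) ^ 2 = 2 := by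
      rw [← Complex.ofReal_pow, Real.sq_sqrt (by norm_num)]
      norm_num
    simp [indicialPoly, indicialCoeff, Finset.sum_range_succ, descPochhammer_succ_eval]
    linear_combination h2)
  exact (irrational_sqrt_two.ne_rat q) (Complex.ofReal_injective (hq.trans (by norm_cast)))

end FA.GlobalNilpotence.Summary
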