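import Fermat.Agent.GoldbachSchnirelmann.Main

/-!
# The theorems of Schnirelmann and Brun

Every integer `≥ 2` is a sum of a bounded number of primes (Schnirelmann, 1930), and the sum of
the reciprocals of the twin primes converges (Brun, 1919). Both come from Selberg's sieve, which
bounds the pairs of primes with a given sum or difference.

This is not Goldbach's conjecture: the bound on the number of primes is not explicit.
-/

set_option autoImplicit false

namespace FA.GoldbachSchnirelmann.Summary

open Finset
open scoped Pointwise

/-- **Schnirelmann's theorem**: every `n ≥ 2` is a sum of at most `C` primes. -/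
theorem schnirelmann : ∃ C : ℕ, ∀ n : ℕ, 2 ≤ n →
    ∃ l : List ℕ, l.length ≤ C ∧ (∀ p ∈ l, p.Prime) ∧ l.sum = n :=
  primes_basis

/-- **Brun's theorem**: the reciprocals of the twin primes have a convergent sum. -/
theorem brun :
    Summable fun p : {p : ℕ // p.Prime ∧ (p + 2).Prime} => (1 : ℝ) / (p : ℕ) :=
  twin_reciprocals_summable

/-- At most `C x / log ^ 2 x` twin primes up to `x`. -/
theorem twinPrimes_le : ∃ C : ℝ, ∀ X : ℕ, 2 ≤ X →
    (#((Ioc 0 X).filter fun n : ℕ => n.Prime ∧ (n + 2).Prime) : ℝ) ≤
      C * X / Real.log X ^ 2 :=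
  ⟨7500, fun _ => card_twins_le⟩

/-- At most `C (∑_{d ∣ N} 1 / d) N / log ^ 2 N` representations of `N` by two primes. -/
theorem goldbachReps_le : ∃ C : ℝ, ∀ N : ℕ, 2 ≤ N →
    (#((Ioc 0 N).filter fun p => p.Prime ∧ (N - p).Prime) : ℝ) ≤
      C * (∑ d ∈ N.divisors, (1 : ℝ) / d) * N / Real.log N ^ 2 :=
  ⟨5000, fun _ => card_goldbachReps_le⟩

open Classical in
/-- The sums of two primes, together with `0` and `1`, have positive Schnirelmann density. -/
theorem goldbach_positive_density :
    0 < schnirelmannDensity {n | n ≤ 1 ∨ ∃ p q : ℕ, p.Prime ∧ q.Prime ∧ p + q = n} := by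
  have h := density_goldbachSet_pos
  unfold density goldbachSet at h
  convert h

open Classical in
/-- **Schnirelmann's inequality** for the density of a sumset. -/
theorem schnirelmann_inequality (A B : Set ℕ) (hA : 0 ∈ A) (hB : 0 ∈ B) :
    schnirelmannDensity A + schnirelmannDensity B -
      schnirelmannDensity A * schnirelmannDensity B ≤ schnirelmannDensity (A + B) := by
  have h := one_sub_density_add hA hB
  unfold density at h
  linarith

end FA.GoldbachSchnirelmann.Summary
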