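import Fermat.Agent.Golod.NilAlgebra

/-!
# Golod's theorem

* `golod_shafarevich_graded`: the recursive bound for the codimensions of a graded ideal of the free
  algebra with at most one relation in each degree;
* `kurosh_counterexample`: an infinite dimensional two generated algebra over the field with `p`
  elements whose augmentation part is nil, answering Kurosh's problem;
* `burnside_general`: an infinite two generated group in which every element has `p`-power order,
  answering Burnside's general problem.
-/

set_option autoImplicit false

noncomputable section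

namespace FA.Golod.Summary

open Module

/-- The inequality of Golod and Shafarevich: `b (n+1) + ∑ s i * b (n+1-i) ≥ d * b n`, where `b` is the
dimension of the degree `n` words modulo the degree `n` part of the ideal of the relations `r i`. -/
theorem golod_shafarevich_graded {F : Type*} [Field F] {d : ℕ} (r : ℕ → FreeAlg F d)
    (hr : ∀ i, r i ∈ piece F d i) (hr0 : r 0 = 0) (s : ℕ → ℕ) (hs : ∀ i, r i ≠ 0 → 1 ≤ s i)
    (n : ℕ) :
    d * (finrank F (piece F d n) - finrank F (idealPiece r n)) ≤
      (finrank F (piece F d (n + 1)) - finrank F (idealPiece r (n + 1))) +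
        ∑ i ∈ Finset.range (n + 2),
          s i * (finrank F (piece F d (n + 1 - i)) - finrank F (idealPiece r (n + 1 - i))) := by
  simpa only [finrank_piece, codim] using codim_succ_ge hr hr0 s hs n

/-- A counterexample to Kurosh's problem. -/
theorem kurosh_counterexample (p : ℕ) [Fact p.Prime] :
    ∃ (B : Type) (_ : Ring B) (_ : Algebra (ZMod p) B) (x y : B),
      Algebra.adjoin (ZMod p) {x, y} = ⊤ ∧
      (∀ a ∈ NonUnitalAlgebra.adjoin (ZMod p) ({x, y} : Set B), IsNilpotent a) ∧
      ¬ FiniteDimensional (ZMod p) B :=
  exists_nil_algebra (ZMod p)

/-- The general Burnside problem has a negative answer. -/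
theorem burnside_general (p : ℕ) [Fact p.Prime] :
    ∃ (G : Type) (_ : Group G) (g h : G), Subgroup.closure {g, h} = ⊤ ∧ Infinite G ∧
      ∀ u : G, ∃ k : ℕ, u ^ p ^ k = 1 :=
  exists_torsion_group p

end FA.Golod.Summary
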