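import Fermat.Agent.GolodShafarevich.Quadratic

/-!
# Quadratic fields with infinite two-class field towers

The theorem of Golod and Shafarevich at the prime two: a quadratic field, real or imaginary, in
which nine or more primes congruent to `1` modulo `4` ramify has unramified Galois extensions of
unbounded `2`-power degree, an infinite one among them, and every number field containing it has
even class number. An example is `ℚ(√(±5·13·17·29·37·41·53·61·73))`.
-/

set_option autoImplicit false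

noncomputable section

open Fermat.Agent.GolodShafarevich FA.GalCoh NumberField
open scoped Pointwise

local notation "Qb" => AlgebraicClosure ℚ

namespace FA.Summary

variable (S : Finset Nat.Primes) (hS : ∀ q ∈ S, (q : ℕ) % 4 = 1) (h9 : 9 ≤ S.card)

include hS h9

/-- **An infinite two-class field tower**: a quadratic field ramified at the primes of `S` has
Galois extensions of unbounded `2`-power degree with trivial inertia over it at every prime and at
every real place. -/
theorem quadratic_twoClassFieldTower_infinite (F : IntermediateField ℚ Qb) [FiniteDimensional ℚ F]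
    (hF : Module.finrank ℚ F = 2)
    (hram : ∀ q ∈ S, ∃ A : ValuationSubring Qb, A.LiesOverPrime ((q : Nat.Primes) : ℕ) ∧
      ¬ A.inertiaSubgroupIn ℚ ≤ F.fixingSubgroup) (B : ℕ) :
    ∃ N : IntermediateField ℚ Qb, F ≤ N ∧ FiniteDimensional ℚ N ∧ IsGalois ℚ N ∧
      (∃ n, Module.finrank ℚ N = 2 ^ n) ∧ B < Module.finrank ℚ N ∧
      (∀ q : ℕ, q.Prime → ∀ A : ValuationSubring Qb, A.LiesOverPrime q →
        A.inertiaSubgroupIn ℚ ⊓ F.fixingSubgroup ≤ N.fixingSubgroup) ∧
      ∀ g : GQ, g * complexConjugation * g⁻¹ ∈ F.fixingSubgroup →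
        g * complexConjugation * g⁻¹ ∈ N.fixingSubgroup :=
  exists_unbounded_unramified_quadratic hS h9 F hF hram B

/-- **An infinite unramified extension** of such a field. -/
theorem quadratic_infinite_unramified_extension (F : IntermediateField ℚ Qb)
    [FiniteDimensional ℚ F] (hF : Module.finrank ℚ F = 2)
    (hram : ∀ q ∈ S, ∃ A : ValuationSubring Qb, A.LiesOverPrime ((q : Nat.Primes) : ℕ) ∧
      ¬ A.inertiaSubgroupIn ℚ ≤ F.fixingSubgroup) :
    ∃ N : IntermediateField ℚ Qb, F ≤ N ∧ IsGalois ℚ N ∧ ¬ FiniteDimensional ℚ N ∧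
      (∀ q : ℕ, q.Prime → ∀ A : ValuationSubring Qb, A.LiesOverPrime q →
        A.inertiaSubgroupIn ℚ ⊓ F.fixingSubgroup ≤ N.fixingSubgroup) ∧
      ∀ g : GQ, g * complexConjugation * g⁻¹ ∈ F.fixingSubgroup →
        g * complexConjugation * g⁻¹ ∈ N.fixingSubgroup :=
  exists_infinite_unramified_quadratic hS h9 F hF hram

/-- **Even class numbers**: a number field with a square root of an integer that each prime of
`S` divides exactly once has even class number. -/
theorem even_classNumber_of_sqrt {d : ℤ}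
    (hd : ∀ q ∈ S, ((q : ℕ) : ℤ) ∣ d ∧ ¬ ((q : ℕ) : ℤ) ^ 2 ∣ d) (E : Type) [Field E]
    [NumberField E] {x : E} (hx : x ^ 2 = (d : E)) : Even (classNumber E) :=
  even_iff_two_dvd.2 (two_dvd_classNumber_of_sq hS h9 hd E hx)

/-- **The field `ℚ(√d)`** for such an integer `d`: it is quadratic, and has an infinite Galois
extension unramified at every place. -/
theorem sqrt_infinite_unramified_extension {d : ℤ}
    (hd : ∀ q ∈ S, ((q : ℕ) : ℤ) ∣ d ∧ ¬ ((q : ℕ) : ℤ) ^ 2 ∣ d) {s : Qb}
    (hs : s ^ 2 = (d : Qb)) :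
    Module.finrank ℚ (IntermediateField.adjoin ℚ {s}) = 2 ∧
    ∃ N : IntermediateField ℚ Qb, s ∈ N ∧ IsGalois ℚ N ∧ ¬ FiniteDimensional ℚ N ∧
      (∀ q : ℕ, q.Prime → ∀ A : ValuationSubring Qb, A.LiesOverPrime q →
        ∀ σ ∈ A.inertiaSubgroupIn ℚ, σ s = s → ∀ x ∈ N, σ x = x) ∧
      ∀ g : GQ, complexConjugation (g s) = g s → ∀ x ∈ N, complexConjugation (g x) = g x := by
  obtain ⟨hfd, h2, hram⟩ := quadratic_field_of_sqrt (Finset.card_pos.1 (by omega)) hd hs
  obtain ⟨N, hle, hNg, hNi, hu, hc⟩ :=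
    exists_infinite_unramified_quadratic hS h9 _ h2 hram
  have hmem : ∀ σ : GQ, σ s = s → σ ∈ (IntermediateField.adjoin ℚ {s}).fixingSubgroup :=
    fun σ hσ => by
      rw [IntermediateField.mem_fixingSubgroup_iff]
      intro x hx
      induction hx using IntermediateField.adjoin_induction with
      | mem y hy => rw [Set.mem_singleton_iff.1 hy, hσ]
      | algebraMap r => exact σ.commutes r
      | add y z _ _ hy hz => rw [map_add, hy, hz]
      | inv y _ hy => rw [map_inv₀, hy]
      | mul y z _ _ hy hz => rw [map_mul, hy, hz]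
  refine ⟨h2, N, hle (IntermediateField.mem_adjoin_simple_self ℚ s), hNg, hNi,
    fun q hq A hA σ hσ hσs x hx =>
      (IntermediateField.mem_fixingSubgroup_iff _ _).1 (hu q hq A hA ⟨hσ, hmem σ hσs⟩) x hx,
    fun g hg x hx => ?_⟩
  have h := (IntermediateField.mem_fixingSubgroup_iff _ _).1 (hc g⁻¹ (hmem _ (by
    rw [inv_inv, AlgEquiv.mul_apply, AlgEquiv.mul_apply, hg]
    exact g.symm_apply_apply s))) x hx
  rw [inv_inv, AlgEquiv.mul_apply, AlgEquiv.mul_apply] at h
  exact g.symm.injective (h.trans (g.symm_apply_apply x).symm)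

omit hS h9

/-- The primes of the example. -/
theorem exists_nine_primes :
    ∃ S : Finset Nat.Primes, (∀ q ∈ S, (q : ℕ) % 4 = 1) ∧ 9 ≤ S.card ∧
      ∀ q ∈ S, ((q : ℕ) : ℤ) ∣ 5 * 13 * 17 * 29 * 37 * 41 * 53 * 61 * 73 ∧
        ¬ ((q : ℕ) : ℤ) ^ 2 ∣ 5 * 13 * 17 * 29 * 37 * 41 * 53 * 61 * 73 := by
  refine ⟨{⟨5, by norm_num⟩, ⟨13, by norm_num⟩, ⟨17, by norm_num⟩, ⟨29, by norm_num⟩,
    ⟨37, by norm_num⟩, ⟨41, by norm_num⟩, ⟨53, by norm_num⟩, ⟨61, by norm_num⟩,
    ⟨73, by norm_num⟩}, ?_, ?_, ?_⟩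
  · simp only [Finset.mem_insert, Finset.mem_singleton]
    rintro q (rfl | rfl | rfl | rfl | rfl | rfl | rfl | rfl | rfl) <;> rfl
  · decide
  · simp only [Finset.mem_insert, Finset.mem_singleton]
    rintro q (rfl | rfl | rfl | rfl | rfl | rfl | rfl | rfl | rfl) <;> norm_num

/-- **An example**: every number field with a square root of `5·13·17·29·37·41·53·61·73`, or of
its negative, has even class number. -/
theorem even_classNumber_example (E : Type) [Field E] [NumberField E] {x : E}
    (hx : x ^ 2 = 5 * 13 * 17 * 29 * 37 * 41 * 53 * 61 * 73 ∨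
      x ^ 2 = -(5 * 13 * 17 * 29 * 37 * 41 * 53 * 61 * 73)) : Even (classNumber E) := by
  obtain ⟨S, hS, h9, hd⟩ := exists_nine_primes
  rcases hx with hx | hx
  · exact even_classNumber_of_sqrt S hS h9 hd E (x := x) (by rw [hx]; push_cast; norm_num)
  · exact even_classNumber_of_sqrt S hS h9
      (fun q hq => ⟨(hd q hq).1.neg_right, fun h => (hd q hq).2 (dvd_neg.1 h)⟩) E (x := x)
      (by rw [hx]; push_cast; norm_num)

/-- **Real and imaginary quadratic fields with infinite class field towers**, containing the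
square roots of `±5·13·17·29·37·41·53·61·73`. -/
theorem infinite_unramified_extension_example {s : Qb}
    (hs : s ^ 2 = 5 * 13 * 17 * 29 * 37 * 41 * 53 * 61 * 73 ∨
      s ^ 2 = -(5 * 13 * 17 * 29 * 37 * 41 * 53 * 61 * 73)) :
    Module.finrank ℚ (IntermediateField.adjoin ℚ {s}) = 2 ∧
    ∃ N : IntermediateField ℚ Qb, s ∈ N ∧ IsGalois ℚ N ∧ ¬ FiniteDimensional ℚ N ∧
      (∀ q : ℕ, q.Prime → ∀ A : ValuationSubring Qb, A.LiesOverPrime q →
        ∀ σ ∈ A.inertiaSubgroupIn ℚ, σ s = s → ∀ x ∈ N, σ x = x) ∧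
      ∀ g : GQ, complexConjugation (g s) = g s → ∀ x ∈ N, complexConjugation (g x) = g x := by
  obtain ⟨S, hS, h9, hd⟩ := exists_nine_primes
  rcases hs with hs | hs
  · exact sqrt_infinite_unramified_extension S hS h9 hd (by rw [hs]; push_cast; norm_num)
  · exact sqrt_infinite_unramified_extension S hS h9
      (fun q hq => ⟨(hd q hq).1.neg_right, fun h => (hd q hq).2 (dvd_neg.1 h)⟩)
      (by rw [hs]; push_cast; norm_num)

end FA.Summary
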