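import Fermat.Agent.GolodShafarevich.EveryDegree

/-!
# Infinite class field towers in every degree and above every field

* `abelian_classFieldTower`: every nontrivial finite abelian group is the group of a totally real
  field with an infinite extension unramified at every place, and every prime dividing the order
  of the group divides the class number of every number field containing the field.
* `abelian_classFieldTower_pPower`: for these fields and primes Galois fields of unbounded
  `p`-power degree are unramified over the field, so the `p`-class field towers are infinite.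
* `cyclic_classFieldTower`: in particular cyclic totally real fields of every degree `n ≥ 2`.
* `extension_classFieldTower`, `extension_unbounded_unramified`: every number field has for every
  prime `p` an extension of degree `p` with unramified Galois `p`-extensions of unbounded degree;
  it lies in no field of class number one.
-/

set_option autoImplicit false

noncomputable section

open Fermat.Agent.GolodShafarevich FA.GalCoh NumberField
open scoped Pointwise

local notation "Qb" => AlgebraicClosure ℚ

namespace FA.Summary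

/-- Class numbers above a field under a tower, whatever the embedding. -/
theorem dvd_classNumber_of_underTower {p : ℕ} (hp : p.Prime) {F : IntermediateField ℚ Qb}
    [FiniteDimensional ℚ F] (h : UnderTower p F) (E : Type) [Field E] [NumberField E]
    (i : F →+* E) : p ∣ classNumber E := by
  let _ : Algebra F E := i.toAlgebra
  have : IsScalarTower ℚ F E := IsScalarTower.of_algebraMap_eq' (Subsingleton.elim _ _)
  have : Algebra.IsAlgebraic F E := Algebra.IsAlgebraic.tower_top (K := ℚ) F
  let j : E →ₐ[F] Qb := IsAlgClosed.lift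
  exact h.dvd_classNumber hp E j.toRingHom fun x hx => ⟨i ⟨x, hx⟩, j.commutes ⟨x, hx⟩⟩

/-- **Infinite class field towers with every abelian group**: a nontrivial finite abelian group is
the Galois group of a totally real field with an infinite Galois extension unramified at every
place, and every prime dividing its order divides the class number of every number field
containing the field. -/
theorem abelian_classFieldTower (A : Type*) [CommGroup A] [Finite A] [Nontrivial A] :
    ∃ (F : IntermediateField ℚ Qb) (_ : FiniteDimensional ℚ F),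
      IsGalois ℚ F ∧ IsTotallyReal F ∧ Nonempty ((F ≃ₐ[ℚ] F) ≃* A) ∧
      (∀ (E : Type) [Field E] [NumberField E], (F →+* E) →
        ∀ p : ℕ, p.Prime → p ∣ Nat.card A → p ∣ classNumber E) ∧
      ∃ N : IntermediateField ℚ Qb, F ≤ N ∧ IsGalois ℚ N ∧ ¬ FiniteDimensional ℚ N ∧
        complexConjugation ∈ N.fixingSubgroup ∧
        ∀ q : ℕ, q.Prime → ∀ V : ValuationSubring Qb, V.LiesOverPrime q →
          V.inertiaSubgroupIn ℚ ⊓ F.fixingSubgroup ≤ N.fixingSubgroup := by
  obtain ⟨F, hF, hFg, he, hc, -, hT⟩ := exists_abelian_field_underTower A ∅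
  obtain ⟨p, hp, hpA⟩ := Nat.exists_prime_and_dvd (n := Nat.card A)
    (Finite.one_lt_card (α := A)).ne'
  obtain ⟨N, h1, h2, h3, h4, h5⟩ := (hT p hp hpA).exists_infinite hp
  exact ⟨F, hF, hFg, isTotallyReal_of_fixed F hc, he,
    fun E _ _ i q hq hqA => dvd_classNumber_of_underTower hq (hT q hq hqA) E i,
    N, h1, h2, h3, h4 hc, h5⟩

/-- **The towers are `p`-towers**: for a field as in `abelian_classFieldTower` and every prime `p`
dividing the order of the group there are Galois fields of unbounded `p`-power degree whose
compositums with it are unramified over it at every place. -/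
theorem abelian_classFieldTower_pPower (A : Type*) [CommGroup A] [Finite A] :
    ∃ (F : IntermediateField ℚ Qb) (_ : FiniteDimensional ℚ F),
      IsGalois ℚ F ∧ IsTotallyReal F ∧ Nonempty ((F ≃ₐ[ℚ] F) ≃* A) ∧
      ∀ p : ℕ, p.Prime → p ∣ Nat.card A → ∀ B : ℕ, ∃ L : IntermediateField ℚ Qb,
        IsGalois ℚ L ∧ (∃ n, Module.finrank ℚ L = p ^ n) ∧ B < Module.finrank ℚ L ∧
        complexConjugation ∈ L.fixingSubgroup ∧
        ∀ q : ℕ, q.Prime → ∀ V : ValuationSubring Qb, V.LiesOverPrime q →
          V.inertiaSubgroupIn ℚ ⊓ F.fixingSubgroup ≤ L.fixingSubgroup := by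
  obtain ⟨F, hF, hFg, he, hc, -, hT⟩ := exists_abelian_field_underTower A ∅
  refine ⟨F, hF, hFg, isTotallyReal_of_fixed F hc, he, fun p hp hpA B => ?_⟩
  obtain ⟨M, hM, hu⟩ := hT p hp hpA
  obtain ⟨L, -, -, hLg, hLp, hB, hcL, hLu⟩ := hM B
  exact ⟨L, hLg, hLp, hB, hcL, fun q hq V hV g hg => hLu q hq V hV ⟨hg.1, hu q hq V hV hg⟩⟩

/-- **Every degree**: for `n ≥ 2` a cyclic totally real field of degree `n` with an infinite class
field tower, contained in no number field of class number prime to `n`. -/
theorem cyclic_classFieldTower {n : ℕ} (hn : 2 ≤ n) :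
    ∃ (F : IntermediateField ℚ Qb) (_ : FiniteDimensional ℚ F),
      IsGalois ℚ F ∧ IsTotallyReal F ∧ IsCyclic (F ≃ₐ[ℚ] F) ∧ Module.finrank ℚ F = n ∧
      (∀ (E : Type) [Field E] [NumberField E], (F →+* E) →
        ∀ p : ℕ, p.Prime → p ∣ n → p ∣ classNumber E) ∧
      ∃ N : IntermediateField ℚ Qb, F ≤ N ∧ IsGalois ℚ N ∧ ¬ FiniteDimensional ℚ N ∧
        complexConjugation ∈ N.fixingSubgroup ∧
        ∀ q : ℕ, q.Prime → ∀ V : ValuationSubring Qb, V.LiesOverPrime q →
          V.inertiaSubgroupIn ℚ ⊓ F.fixingSubgroup ≤ N.fixingSubgroup := by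
  have : NeZero n := ⟨by omega⟩
  have : Fact (1 < n) := ⟨hn⟩
  have hc : Nat.card (Multiplicative (ZMod n)) = n := by
    rw [Nat.card_congr Multiplicative.toAdd, Nat.card_zmod]
  obtain ⟨F, hF, hFg, hFr, ⟨e⟩, hdvd, hN⟩ := abelian_classFieldTower (Multiplicative (ZMod n))
  exact ⟨F, hF, hFg, hFr, e.isCyclic.2 inferInstance,
    by rw [← IsGalois.card_aut_eq_finrank ℚ F, Nat.card_congr e.toEquiv, hc],
    fun E _ _ i p hp hpn => hdvd E i p hp (by rw [hc]; exact hpn), hN⟩

/-- **Above every number field**: an extension of degree `p` such that `p` divides the class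
number of every number field containing it. -/
theorem extension_classFieldTower (K : Type) [Field K] [NumberField K] {p : ℕ} (hp : p.Prime) :
    ∃ (F : Type) (_ : Field F) (_ : NumberField F) (_ : Algebra K F),
      Module.finrank K F = p ∧
      ∀ (E : Type) [Field E] [NumberField E], (F →+* E) →
        p ∣ classNumber E ∧ classNumber E ≠ 1 := by
  let j : K →ₐ[ℚ] Qb := IsAlgClosed.lift
  have : FiniteDimensional ℚ j.fieldRange :=
    (AlgEquiv.ofInjectiveField j).toLinearEquiv.finiteDimensional
  obtain ⟨F, hKF, hF, hd, hT⟩ := exists_extension_underTower hp j.fieldRange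
  let _ : Algebra K F := ((IntermediateField.inclusion hKF).comp
    (AlgEquiv.ofInjectiveField j).toAlgHom).toRingHom.toAlgebra
  have : NumberField F := { }
  have : IsScalarTower ℚ K F := IsScalarTower.of_algebraMap_eq' (Subsingleton.elim _ _)
  refine ⟨F, inferInstance, inferInstance, inferInstance, ?_, fun E _ _ i => ?_⟩
  · have hj : Module.finrank ℚ K = Module.finrank ℚ j.fieldRange :=
      (AlgEquiv.ofInjectiveField j).toLinearEquiv.finrank_eq
    rw [← hj, ← Module.finrank_mul_finrank ℚ K F] at hd
    exact Nat.eq_of_mul_eq_mul_left Module.finrank_pos hd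
  · have h := dvd_classNumber_of_underTower hp hT E i
    exact ⟨h, fun h1 => hp.ne_one (Nat.dvd_one.1 (h1 ▸ h))⟩

/-- The unramified extensions of the field of degree `p` above a given one: compositums with
Galois fields of unbounded `p`-power degree. -/
theorem extension_unbounded_unramified (K : IntermediateField ℚ Qb) [FiniteDimensional ℚ K]
    {p : ℕ} (hp : p.Prime) :
    ∃ F : IntermediateField ℚ Qb, K ≤ F ∧ FiniteDimensional ℚ F ∧
      Module.finrank ℚ F = Module.finrank ℚ K * p ∧
      ∀ B : ℕ, ∃ L : IntermediateField ℚ Qb, IsGalois ℚ L ∧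
        (∃ n, Module.finrank ℚ L = p ^ n) ∧ B < Module.finrank ℚ L ∧
        complexConjugation ∈ L.fixingSubgroup ∧
        ∀ q : ℕ, q.Prime → ∀ V : ValuationSubring Qb, V.LiesOverPrime q →
          V.inertiaSubgroupIn ℚ ⊓ F.fixingSubgroup ≤ L.fixingSubgroup := by
  obtain ⟨F, hKF, hF, hd, M, hM, hu⟩ := exists_extension_underTower hp K
  refine ⟨F, hKF, hF, hd, fun B => ?_⟩
  obtain ⟨L, -, -, hLg, hLp, hB, hc, hLu⟩ := hM B
  exact ⟨L, hLg, hLp, hB, hc, fun q hq V hV g hg => hLu q hq V hV ⟨hg.1, hu q hq V hV hg⟩⟩

end FA.Summary
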