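import Fermat.Agent.ClassFieldTower.Tower
import Fermat.Agent.ClassFieldTower.PPart
import Fermat.Agent.Root.SummaryQuadraticTowers
import Fermat.Agent.Root.SummaryTowersEveryDegree

/-!
# The class field tower problem

The class field tower of a number field `K` is the sequence `K = K₀ ≤ K₁ ≤ …` in which each field
is the Hilbert class field of the one before. It becomes stationary exactly when `K` lies in a
field of class number one, exactly when the solvable extensions of `K` unramified at every place
have bounded degree. For `ℚ(√(±5·13·17·29·37·41·53·61·73))`, and for suitable cyclic fields of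
every degree `n ≥ 2`, it increases for ever; with cyclic `p`-class group the `p`-part stops at
once.
-/

set_option autoImplicit false

noncomputable section

open NumberField Fermat.Agent.ClassFieldTower

namespace FA.Summary

variable {K : Type} [Field K] [NumberField K]

/-- Every number field has a class field tower. -/
theorem hilbertTower_exists :
    ∃ T : ℕ → IntermediateField K (AlgebraicClosure K), IsHilbertTower T :=
  exists_isHilbertTower

/-- **Embedding in class number one**: exactly when the solvable Galois extensions unramified at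
every place have bounded degree. -/
theorem classNumberOne_embedding_iff_bounded :
    (∃ (F : Type) (_ : Field F) (_ : NumberField F) (_ : Algebra K F), classNumber F = 1) ↔
      ∃ B : ℕ, UnrSolvableBound K B := by
  constructor
  · rintro ⟨F, _, _, _, hF⟩
    exact ⟨_, unrSolvableBound_of_classNumber_eq_one hF⟩
  · rintro ⟨B, hB⟩
    obtain ⟨T, hT⟩ := exists_isHilbertTower (K := K)
    obtain ⟨n, hn, h1⟩ := hT.exists_classNumber_eq_one hB
    exact ⟨T n, inferInstance, hn, inferInstance, h1⟩

/-- **Embedding in class number one**: exactly when the class field tower becomes stationary. -/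
theorem classNumberOne_embedding_iff_stationary {T : ℕ → IntermediateField K (AlgebraicClosure K)}
    (hT : IsHilbertTower T) :
    (∃ (F : Type) (_ : Field F) (_ : NumberField F) (_ : Algebra K F), classNumber F = 1) ↔
      ∃ n, ∀ m, n ≤ m → T m = T n := by
  constructor
  · rintro ⟨F, _, _, _, hF⟩
    obtain ⟨n, hn, h1⟩ := hT.exists_classNumber_eq_one (unrSolvableBound_of_classNumber_eq_one hF)
    exact ⟨n, fun m hm => hT.stationary n h1 m hm⟩
  · rintro ⟨n, hn⟩
    obtain ⟨_, -⟩ := hT.props n
    exact ⟨T n, inferInstance, inferInstance, inferInstance,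
      hT.classNumber_eq_one_of_succ_eq n (hn _ n.le_succ)⟩

/-- **Infinite class field towers**: if every number field over `K` has class number above one,
every step of the tower is proper and the degrees grow like `2 ^ n` at least. -/
theorem hilbertTower_infinite
    (hK : ∀ (F : Type) [Field F] [NumberField F], (K →+* F) → classNumber F ≠ 1)
    {T : ℕ → IntermediateField K (AlgebraicClosure K)} (hT : IsHilbertTower T) :
    StrictMono T ∧ ∀ n, 2 ^ n ≤ Module.finrank K (T n) := by
  refine ⟨strictMono_nat_of_lt_succ fun n => ?_,
    fun n => hT.two_pow_le n fun m _ hm => hK (T m) (algebraMap K (T m))⟩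
  obtain ⟨hn, -⟩ := hT.props n
  obtain ⟨hle, -⟩ := hT.step n
  exact lt_of_le_of_ne hle fun h =>
    hK (T n) (algebraMap K (T n)) (hT.classNumber_eq_one_of_succ_eq n h.symm)

/-- **The example**: the class field tower of a field containing a square root of
`±5·13·17·29·37·41·53·61·73`, for instance that of the quadratic field, is infinite. -/
theorem hilbertTower_infinite_example {x : K}
    (hx : x ^ 2 = 5 * 13 * 17 * 29 * 37 * 41 * 53 * 61 * 73 ∨
      x ^ 2 = -(5 * 13 * 17 * 29 * 37 * 41 * 53 * 61 * 73))
    {T : ℕ → IntermediateField K (AlgebraicClosure K)} (hT : IsHilbertTower T) :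
    StrictMono T ∧ ∀ n, 2 ^ n ≤ Module.finrank K (T n) :=
  hilbertTower_infinite (fun F _ _ i h1 => by
    have h := even_classNumber_example F (x := i x) (hx.imp
      (fun h => by rw [← map_pow, h, map_mul, map_mul, map_mul, map_mul, map_mul, map_mul,
        map_mul, map_mul]; simp only [map_ofNat])
      (fun h => by rw [← map_pow, h, map_neg, map_mul, map_mul, map_mul, map_mul, map_mul,
        map_mul, map_mul, map_mul]; simp only [map_ofNat]))
    rw [h1] at h
    exact Nat.not_even_one h) hT

/-- **Cyclic fields of every degree** `n ≥ 2` with infinite class field tower. -/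
theorem hilbertTower_infinite_cyclic {n : ℕ} (hn : 2 ≤ n) :
    ∃ (F : IntermediateField ℚ (AlgebraicClosure ℚ)) (_ : FiniteDimensional ℚ F)
      (_ : NumberField F),
      IsGalois ℚ F ∧ IsCyclic (F ≃ₐ[ℚ] F) ∧ Module.finrank ℚ F = n ∧
      ∀ T : ℕ → IntermediateField F (AlgebraicClosure F), IsHilbertTower T →
        StrictMono T ∧ ∀ m, 2 ^ m ≤ Module.finrank F (T m) := by
  obtain ⟨F, hF, hFg, -, hc, hd, hdvd, -⟩ := cyclic_classFieldTower hn
  have hnf : NumberField F := { }
  refine ⟨F, hF, hnf, hFg, hc, hd, fun T hT => hilbertTower_infinite (fun E _ _ i h1 => ?_) hT⟩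
  obtain ⟨p, hp, hpn⟩ := Nat.exists_prime_and_dvd (show n ≠ 1 by omega)
  exact hp.not_dvd_one (h1 ▸ hdvd E i p hp hpn)

/-- **Termination**: with cyclic `p`-class group an unramified Galois `p`-extension is cyclic and
its degree divides the class number. -/
theorem cyclic_pClassGroup_unramified {p : ℕ} (hp : p.Prime) {L : Type} [Field L] [NumberField L]
    [Algebra K L] [IsGalois K L]
    (hC : IsCyclic (CommGroup.primaryComponent (ClassGroup (𝓞 K)) p))
    (hG : IsPGroup p (L ≃ₐ[K] L)) (hu : UnrEverywhere K L) :
    IsCyclic (L ≃ₐ[K] L) ∧ Module.finrank K L ∣ classNumber K :=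
  have : Fact p.Prime := ⟨hp⟩
  cyclic_of_cyclic_pClassGroup hC hG hu

/-- **The `p`-tower stops at the first step**: with cyclic `p`-class group the `p`-class field has
class number prime to `p`. -/
theorem cyclic_pClassGroup_pClassField {p : ℕ} (hp : p.Prime)
    (hC : IsCyclic (CommGroup.primaryComponent (ClassGroup (𝓞 K)) p)) :
    ∃ (L : Type) (_ : Field L) (_ : NumberField L) (_ : Algebra K L),
      IsGalois K L ∧ IsCyclic (L ≃ₐ[K] L) ∧ UnrEverywhere K L ∧
      Module.finrank K L = p ^ (classNumber K).factorization p ∧ ¬ p ∣ classNumber L :=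
  have : Fact p.Prime := ⟨hp⟩
  exists_pClassField hC

end FA.Summary
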