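import Fermat.Agent.GolodCriterion.Example
import Fermat.Agent.Root.SummaryHilbertTower

/-!
# The criterion of Golod and Shafarevich for number fields, at an odd prime

Let `p` be an odd prime, `d` the `p`-rank of the class group of the number field `K`, `r` its unit
rank and `δ` one if `K` contains the `p`-th roots of unity and zero otherwise. The group of a finite
maximal unramified `p`-extension of `K` has at most `d + r + δ` relations. So if `d ≥ 3` and
`d² ≥ 4(d + r + δ)` then `K` has unramified `p`-extensions of unbounded degree, its class field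
tower is infinite, and `p` divides the class number of every field containing it.
-/

set_option autoImplicit false

noncomputable section

open NumberField Fermat.Agent.ClassFieldTower Fermat.Agent.GolodCriterion

namespace FA.Summary

variable {p : ℕ} {K : Type} [Field K] [NumberField K]

/-- **Shafarevich's bound**: on a minimal system of `d` generators the group of a finite maximal
unramified `p`-extension has at most `d + r + δ` relations, modulo `p`-th powers and commutators. -/
theorem shafarevich_relation_bound (hp : p.Prime) (hp2 : p ≠ 2) {L : Type} [Field L]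
    [NumberField L] [Algebra K L] [IsGalois K L] (hG : IsPGroup p (L ≃ₐ[K] L))
    (hu : UnrEverywhere K L)
    (hmax : ∀ (M : Type) [Field M] [NumberField M] [Algebra K M] [IsGalois K M],
      IsPGroup p (M ≃ₐ[K] M) → UnrEverywhere K M → Nonempty (M →ₐ[K] L))
    {ι : Type} [Fintype ι] {x : ι → (L ≃ₐ[K] L)} (hgen : Subgroup.closure (Set.range x) = ⊤)
    (hmin : Group.rank (L ≃ₐ[K] L) = Fintype.card ι) :
    ∃ (n : ℕ) (rel : Fin n → FreeGroup ι),
      n ≤ Fintype.card ι + Units.rank K + rootsDelta p K ∧
      (∀ j, FreeGroup.lift x (rel j) = 1) ∧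
      (FreeGroup.lift x).ker ≤ Subgroup.normalClosure (Set.range rel ∪
        {z | ∃ r ∈ (FreeGroup.lift x).ker, z = r ^ p} ∪
        {z | ∃ r ∈ (FreeGroup.lift x).ker, ∃ f, z = r * f * r⁻¹ * f⁻¹}) :=
  have : Fact p.Prime := ⟨hp⟩
  relations_of_maximal hp2 hG hu hmax hgen hmin

/-- **The criterion of Golod and Shafarevich**: with `p ^ d` classes killed by `p` and
`4(d + r + δ) ≤ d²` there are unramified `p`-extensions of unbounded degree, `p` divides the class
number of every field containing `K`, and every class field tower increases for ever. -/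
theorem golod_shafarevich_criterion (hp : p.Prime) (hp2 : p ≠ 2) {d : ℕ} (hd : 3 ≤ d)
    (hCl : p ^ d ≤ Nat.card (powMonoidHom p : ClassGroup (𝓞 K) →* ClassGroup (𝓞 K)).ker)
    (hcount : 4 * (d + Units.rank K + rootsDelta p K) ≤ d ^ 2) :
    (∀ B : ℕ, ∃ (L : Type) (_ : Field L) (_ : NumberField L) (_ : Algebra K L),
      IsGalois K L ∧ IsPGroup p (L ≃ₐ[K] L) ∧ UnrEverywhere K L ∧ B < Module.finrank K L) ∧
    (∀ (E : Type) [Field E] [NumberField E], (K →+* E) → p ∣ classNumber E) ∧
    ∀ T : ℕ → IntermediateField K (AlgebraicClosure K), IsHilbertTower T →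
      StrictMono T ∧ ∀ n, 2 ^ n ≤ Module.finrank K (T n) := by
  have : Fact p.Prime := ⟨hp⟩
  obtain ⟨φ, hφ⟩ := exists_surjective_of_le_card_ker hCl
  obtain ⟨h1, h2⟩ := tower_of_criterion hp2 K hd hφ hcount
  exact ⟨h1, h2, fun T hT => hilbertTower_infinite
    (fun E _ _ i h => hp.not_dvd_one (h ▸ h2 E i)) hT⟩

/-- **The criterion by the degree**: `4(d + n) ≤ d²` suffices for a field of degree `n`. -/
theorem golod_shafarevich_degree (hp : p.Prime) (hp2 : p ≠ 2) {d : ℕ}
    (hCl : p ^ d ≤ Nat.card (powMonoidHom p : ClassGroup (𝓞 K) →* ClassGroup (𝓞 K)).ker)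
    (hcount : 4 * (d + Module.finrank ℚ K) ≤ d ^ 2)
    {T : ℕ → IntermediateField K (AlgebraicClosure K)} (hT : IsHilbertTower T) :
    StrictMono T ∧ ∀ n, 2 ^ n ≤ Module.finrank K (T n) := by
  have h1 := unitRank_lt_finrank (K := K)
  have h2 := rootsDelta_le_one p K
  exact (golod_shafarevich_criterion hp hp2 (by nlinarith) hCl (by omega)).2.2 T hT

/-- **Imaginary quadratic fields**: `p`-rank `4` gives an infinite class field tower, and class
numbers divisible by `p` in every larger field. -/
theorem imaginaryQuadratic_classFieldTower_infinite (hp : p.Prime) (hp2 : p ≠ 2)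
    (h2 : Module.finrank ℚ K = 2) [IsTotallyComplex K]
    (hCl : p ^ 4 ≤ Nat.card (powMonoidHom p : ClassGroup (𝓞 K) →* ClassGroup (𝓞 K)).ker) :
    (∀ (E : Type) [Field E] [NumberField E], (K →+* E) → p ∣ classNumber E) ∧
    ∀ T : ℕ → IntermediateField K (AlgebraicClosure K), IsHilbertTower T →
      StrictMono T ∧ ∀ n, 2 ^ n ≤ Module.finrank K (T n) := by
  have : Fact p.Prime := ⟨hp⟩
  have hh : classNumber K ≠ 1 := fun h => by
    have h1 : Nat.card (powMonoidHom p : ClassGroup (𝓞 K) →* ClassGroup (𝓞 K)).ker ≤ 1 := by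
      refine (Subgroup.card_le_card_group _).trans_eq ?_
      rw [Nat.card_eq_fintype_card]
      exact h
    have h3 : 1 < p ^ 4 := Nat.one_lt_pow (by norm_num) hp.one_lt
    omega
  exact (golod_shafarevich_criterion hp hp2 (by norm_num) hCl (by
    rw [unitRank_imaginaryQuadratic h2, rootsDelta_eq_zero_of_quadratic hp2 h2 hh]; norm_num)).2

/-- **Real quadratic fields**: `p`-rank `5` gives an infinite class field tower, and class numbers
divisible by `p` in every larger field. -/
theorem realQuadratic_classFieldTower_infinite (hp : p.Prime) (hp2 : p ≠ 2)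
    (h2 : Module.finrank ℚ K = 2) [IsTotallyReal K]
    (hCl : p ^ 5 ≤ Nat.card (powMonoidHom p : ClassGroup (𝓞 K) →* ClassGroup (𝓞 K)).ker) :
    (∀ (E : Type) [Field E] [NumberField E], (K →+* E) → p ∣ classNumber E) ∧
    ∀ T : ℕ → IntermediateField K (AlgebraicClosure K), IsHilbertTower T →
      StrictMono T ∧ ∀ n, 2 ^ n ≤ Module.finrank K (T n) := by
  have : Fact p.Prime := ⟨hp⟩
  exact (golod_shafarevich_criterion hp hp2 (by norm_num) hCl (by
    rw [unitRank_totallyReal, h2, rootsDelta_eq_zero_of_real hp2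
      (IsTotallyReal.isReal (Classical.arbitrary (InfinitePlace K)))]; norm_num)).2

/-- **The hypotheses are satisfiable**: for every `d` a cyclic field of degree `p` has at least
`p ^ d` classes killed by `p`; for `d ≥ p + 4` the criterion applies to it. -/
theorem exists_cyclic_criterion_applies (hp : p.Prime) (hp2 : p ≠ 2) (d : ℕ) :
    ∃ (C : IntermediateField ℚ (AlgebraicClosure ℚ)) (_ : FiniteDimensional ℚ C)
      (_ : NumberField C), IsGalois ℚ C ∧ Module.finrank ℚ C = p ∧ IsTotallyReal C ∧
      p ^ d ≤ Nat.card (powMonoidHom p : ClassGroup (𝓞 C) →* ClassGroup (𝓞 C)).ker ∧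
      (p + 4 ≤ d → 4 * (d + Units.rank C + rootsDelta p C) ≤ d ^ 2) := by
  have : Fact p.Prime := ⟨hp⟩
  obtain ⟨C, hC, hnf, hg, hdeg, hreal, φ, hφ⟩ := exists_cyclic_large_pRank hp2 d
  refine ⟨C, hC, hnf, hg, hdeg, hreal, le_card_ker_of_surjective hφ, fun hd => ?_⟩
  have h1 := unitRank_lt_finrank (K := C)
  have h2 := rootsDelta_le_one p C
  rw [hdeg] at h1
  nlinarith [hp.two_le]

end FA.Summary
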